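import Mathlib
import Mathlib.NumberTheory.ModularForms.LevelOne.GradedRing
import Mathlib.Analysis.Complex.LocallyUniformLimit
import Mathlib.Analysis.Complex.TaylorSeries
import Mathlib.Analysis.Calculus.Deriv.Polynomial
import Mathlib.RingTheory.PowerSeries.PiTopology
import Fermat.Prelude.Def_ModularCurve_X0
import Fermat.Prelude.Def_AlgebraicCurve_Correspondence
import Mathlib.NumberTheory.ModularForms.Derivative
import Mathlib.NumberTheory.ModularForms.LevelOne.DimensionFormula
import Mathlib.Analysis.Complex.Liouville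
import Fermat.Prelude.Def_ModularCurve_LaurentCoeff
import Fermat.Prelude.Def_ModularCurve_JqCoeff
import Fermat.Prelude.Def_ModularCurve_X0ModL

-- ===== PACK-BEGIN S30/H990/Quad.lean
section
/-
S30 top glue (helper990): pure algebra, part 1.

* `lucas`           : `h² - a h + b = 0`  ⟹  `(h^j)² - t (h^j) + b^j = 0` for some scalar `t`.
* `anticomm_of_rel` : quadratic relations for `x`, `x y` with `y² = 1` and "determinants" `d`, `-d`
                      give `x y + y x = a' + a y`.
* `Matrix` lemmas for `2 × 2` matrices satisfying a quadratic relation.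
-/


set_option autoImplicit false

namespace Fermat.Agent.S30.H990

section Lucas

variable {R A : Type*} [CommRing R] [Ring A] [Algebra R A]

/-- If `h` satisfies `X² - aX + b`, then `h ^ j` satisfies `X² - tX + b ^ j` for some `t`. -/
theorem lucas (h : A) (a b : R) (hrel : h * h - a • h + b • (1 : A) = 0) (j : ℕ) :
    ∃ t : R, h ^ j * h ^ j - t • h ^ j + (b ^ j) • (1 : A) = 0 := by
  -- the "conjugate" of `h`
  set k : A := a • (1 : A) - h with hk
  have hcomm : Commute h k := by
    have : Commute h (a • (1 : A)) := (Commute.one_right h).smul_right a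
    exact this.sub_right (Commute.refl h)
  have hhk : h * k = b • (1 : A) := by
    have : h * k = a • h - h * h := by
      rw [hk, mul_sub, mul_smul_comm, mul_one]
    rw [this]
    calc a • h - h * h = b • (1 : A) - (h * h - a • h + b • (1 : A)) := by abel
      _ = b • (1 : A) := by rw [hrel, sub_zero]
  have hsum : h + k = a • (1 : A) := by rw [hk]; abel
  -- power sums are scalars
  have key : ∀ n : ℕ, (∃ t : R, h ^ n + k ^ n = t • (1 : A)) ∧
      (∃ t : R, h ^ (n + 1) + k ^ (n + 1) = t • (1 : A)) := by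
    intro n
    induction n with
    | zero =>
      refine ⟨⟨2, ?_⟩, ⟨a, ?_⟩⟩
      · rw [pow_zero, pow_zero, two_smul]
      · rw [zero_add, pow_one, pow_one, hsum]
    | succ n ih =>
      obtain ⟨⟨t0, h0⟩, ⟨t1, h1⟩⟩ := ih
      refine ⟨⟨t1, h1⟩, ⟨a * t1 - b * t0, ?_⟩⟩
      have e1 : h ^ (n + 1 + 1) + k ^ (n + 1 + 1)
          = (h + k) * (h ^ (n + 1) + k ^ (n + 1)) - (h * k) * (h ^ n + k ^ n) := by
        have c1 : k * h ^ (n + 1) = (h * k) * h ^ n := by
          rw [pow_succ', ← mul_assoc, hcomm.eq]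
        have c2 : h * k ^ (n + 1) = (h * k) * k ^ n := by
          rw [pow_succ', ← mul_assoc]
        rw [add_mul, mul_add, mul_add, mul_add, c1, c2, pow_succ' h (n + 1), pow_succ' k (n + 1)]
        abel
      rw [e1, hsum, hhk, h1, h0]
      simp only [mul_smul_comm, mul_one, smul_smul, sub_smul]
      rw [mul_comm t1 a, mul_comm t0 b]
  obtain ⟨t, ht⟩ := (key j).1
  refine ⟨t, ?_⟩
  have hprod : h ^ j * k ^ j = (b ^ j) • (1 : A) := by
    rw [← hcomm.mul_pow, hhk, smul_pow, one_pow]
  have : h ^ j * h ^ j - t • h ^ j + (b ^ j) • (1 : A) = h ^ j * (h ^ j + k ^ j - t • (1 : A)) := by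
    rw [mul_sub, mul_add, hprod, mul_smul_comm, mul_one]
    abel
  rw [this, ht, sub_self, mul_zero]

end Lucas

section Anticomm

variable {R A : Type*} [CommRing R] [Ring A] [Algebra R A]

/-- The anticommutator identity. -/
theorem anticomm_of_rel (x y : A) (a a' : R) (d : Rˣ) (hy : y * y = 1)
    (hx : x * x - a • x + (d : R) • (1 : A) = 0)
    (hxy : (x * y) * (x * y) - a' • (x * y) + (-(d : R)) • (1 : A) = 0) :
    x * y + y * x = a' • (1 : A) + a • y := by
  -- `x y x = a' x + d y`
  have h1 : x * y * x = a' • x + (d : R) • y := by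
    have := congrArg (· * y) hxy
    simp only [zero_mul, add_mul, sub_mul, smul_mul_assoc, neg_smul, neg_mul, one_mul] at this
    have e : x * y * (x * y) * y = x * y * x := by
      rw [mul_assoc (x * y) (x * y) y, mul_assoc x y y, hy, mul_one]
    have e' : x * y * y = x := by rw [mul_assoc, hy, mul_one]
    rw [e, e'] at this
    calc x * y * x = (x * y * x - a' • x + -((d : R) • y)) + (a' • x + (d : R) • y) := by abel
      _ = a' • x + (d : R) • y := by rw [this, zero_add]
  -- `(a - x) x = d`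
  have h2 : (a • (1 : A) - x) * x = (d : R) • (1 : A) := by
    rw [sub_mul, smul_mul_assoc, one_mul]
    calc a • x - x * x = (d : R) • (1 : A) - (x * x - a • x + (d : R) • (1 : A)) := by abel
      _ = (d : R) • (1 : A) := by rw [hx, sub_zero]
  have h3 : (d : R) • (y * x) = (d : R) • (a' • (1 : A) + a • y - x * y) := by
    have : (a • (1 : A) - x) * (x * y * x) = (d : R) • (y * x) := by
      rw [← mul_assoc, ← mul_assoc, h2, smul_mul_assoc, one_mul, smul_mul_assoc]
    rw [← this, h1, mul_add, mul_smul_comm, mul_smul_comm, h2, sub_mul, smul_mul_assoc, one_mul]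
    simp only [smul_add, smul_sub, smul_smul]
    rw [mul_comm a' (d : R), mul_comm (d : R) a]
    abel
  have h4 : y * x = a' • (1 : A) + a • y - x * y := by
    have := congrArg (fun z => ((d⁻¹ : Rˣ) : R) • z) h3
    simpa only [smul_smul, Units.inv_mul, one_smul] using this
  rw [h4]; abel

end Anticomm

end Fermat.Agent.S30.H990

namespace Fermat.Agent.S30.H990

section Mat2

open Matrix

variable {R : Type*} [CommRing R]

/-- Cayley–Hamilton for `2 × 2` matrices, by hand. -/
theorem mat2_cayley (X : Matrix (Fin 2) (Fin 2) R) :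
    X * X - X.trace • X + X.det • (1 : Matrix (Fin 2) (Fin 2) R) = 0 := by
  ext i j
  fin_cases i <;> fin_cases j <;>
    simp [Matrix.mul_apply, Fin.sum_univ_two, Matrix.trace_fin_two, Matrix.det_fin_two] <;> ring

variable [IsDomain R]

/-- A `2 × 2` matrix satisfying `X² - aX + d = 0` has trace `a` and determinant `d`,
or it is a scalar matrix. -/
theorem mat2_dichotomy (X : Matrix (Fin 2) (Fin 2) R) (a d : R)
    (h : X * X - a • X + d • (1 : Matrix (Fin 2) (Fin 2) R) = 0) :
    (X.trace = a ∧ X.det = d) ∨ ∃ l : R, X = l • (1 : Matrix (Fin 2) (Fin 2) R) := by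
  have hc := mat2_cayley X
  have key : (X.trace - a) • X = (X.det - d) • (1 : Matrix (Fin 2) (Fin 2) R) := by
    have : (X.trace - a) • X - (X.det - d) • (1 : Matrix (Fin 2) (Fin 2) R)
        = (X * X - a • X + d • (1 : Matrix (Fin 2) (Fin 2) R))
          - (X * X - X.trace • X + X.det • (1 : Matrix (Fin 2) (Fin 2) R)) := by
      simp only [sub_smul]; abel
    rw [h, hc, sub_zero] at this
    exact sub_eq_zero.mp this
  by_cases ht : X.trace = a
  · left
    refine ⟨ht, ?_⟩
    have h00 := congrFun (congrFun key 0) 0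
    simp only [ht, sub_self, Matrix.smul_apply, Matrix.one_apply_eq,
      smul_eq_mul, mul_one, zero_mul] at h00
    exact (sub_eq_zero.mp h00.symm)
  · right
    have hne : X.trace - a ≠ 0 := sub_ne_zero.mpr ht
    have h00 := congrFun (congrFun key 0) 0
    have h01 := congrFun (congrFun key 0) 1
    have h10 := congrFun (congrFun key 1) 0
    have h11 := congrFun (congrFun key 1) 1
    simp only [Matrix.smul_apply, smul_eq_mul, Matrix.one_apply_eq, mul_one] at h00 h11
    simp only [Matrix.smul_apply, smul_eq_mul, ne_eq, zero_ne_one, not_false_eq_true,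
      Matrix.one_apply_ne, mul_zero, mul_eq_zero, hne, false_or] at h01
    simp only [Matrix.smul_apply, smul_eq_mul, ne_eq, one_ne_zero, not_false_eq_true,
      Matrix.one_apply_ne, mul_zero, mul_eq_zero, hne, false_or] at h10
    have hd : X 0 0 = X 1 1 := mul_left_cancel₀ hne (h00.trans h11.symm)
    refine ⟨X 0 0, ?_⟩
    ext i j
    fin_cases i <;> fin_cases j <;> simp [h01, h10, hd]

/-- If `l • C` is scalar with `l ≠ 0`, then `C` is scalar. -/
theorem mat2_scalar_of_smul_scalar (C : Matrix (Fin 2) (Fin 2) R) (l m : R) (hl : l ≠ 0)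
    (h : l • C = m • (1 : Matrix (Fin 2) (Fin 2) R)) :
    ∃ n : R, C = n • (1 : Matrix (Fin 2) (Fin 2) R) := by
  have h00 := congrFun (congrFun h 0) 0
  have h01 := congrFun (congrFun h 0) 1
  have h10 := congrFun (congrFun h 1) 0
  have h11 := congrFun (congrFun h 1) 1
  simp only [Matrix.smul_apply, smul_eq_mul, Matrix.one_apply_eq, mul_one] at h00 h11
  simp only [Matrix.smul_apply, smul_eq_mul, ne_eq, zero_ne_one, not_false_eq_true,
    Matrix.one_apply_ne, mul_zero, mul_eq_zero, hl, false_or] at h01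
  simp only [Matrix.smul_apply, smul_eq_mul, ne_eq, one_ne_zero, not_false_eq_true,
    Matrix.one_apply_ne, mul_zero, mul_eq_zero, hl, false_or] at h10
  have hd : C 0 0 = C 1 1 := mul_left_cancel₀ hl (h00.trans h11.symm)
  refine ⟨C 0 0, ?_⟩
  ext i j
  fin_cases i <;> fin_cases j <;> simp [h01, h10, hd]

/-- Trace and determinant of a two-dimensional matrix representation all of whose elements
satisfy quadratic relations with multiplicative constant term, in the presence of a non-scalar
element `c` with `d c = -1`. -/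
theorem mat2_trace_det_of_rel {G : Type*} [Group G] (A : G →* Matrix (Fin 2) (Fin 2) R)
    (d : G →* Rˣ)
    (hrel : ∀ g, ∃ a : R, A g * A g - a • A g + ((d g : Rˣ) : R) • 1 = 0)
    (c : G) (hdc : d c = -1) (hcns : ¬ ∃ l : R, A c = l • (1 : Matrix (Fin 2) (Fin 2) R))
    (g : G) (a : R) (hg : A g * A g - a • A g + ((d g : Rˣ) : R) • 1 = 0) :
    (A g).trace = a ∧ (A g).det = ((d g : Rˣ) : R) := by
  rcases mat2_dichotomy (A g) a _ hg with h | ⟨l, hl⟩
  · exact h
  -- scalar case
  have hdetc : (A c).det = -1 := by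
    obtain ⟨ac, hac⟩ := hrel c
    rcases mat2_dichotomy (A c) ac _ hac with h | h
    · rw [h.2, hdc]; simp
    · exact absurd h hcns
  have hl0 : l ≠ 0 := by
    intro h0
    have h1 : A g * A g⁻¹ = 1 := by rw [← map_mul, mul_inv_cancel, map_one]
    rw [hl, h0, zero_smul, zero_mul] at h1
    exact zero_ne_one h1
  have hgc : A (g * c) = l • A c := by rw [map_mul, hl, smul_mul_assoc, one_mul]
  obtain ⟨a', ha'⟩ := hrel (g * c)
  have hdetgc : (A (g * c)).det = -((d g : Rˣ) : R) := by
    rcases mat2_dichotomy (A (g * c)) a' _ ha' with h | ⟨m, hm⟩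
    · rw [h.2, map_mul, hdc]; simp
    · rw [hgc] at hm
      exact absurd (mat2_scalar_of_smul_scalar (A c) l m hl0 hm) hcns
  have hd : ((d g : Rˣ) : R) = l ^ 2 := by
    rw [hgc, Matrix.det_smul, hdetc, Fintype.card_fin] at hdetgc
    linear_combination hdetgc
  have ha : a = 2 * l := by
    have h00 := congrFun (congrFun hg 0) 0
    rw [hl, hd] at h00
    simp only [Matrix.add_apply, Matrix.sub_apply, Matrix.mul_apply, Fin.sum_univ_two,
      Matrix.smul_apply, Matrix.one_apply_eq, smul_eq_mul, mul_one, Matrix.zero_apply, ne_eq,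
      zero_ne_one, not_false_eq_true, Matrix.one_apply_ne, mul_zero, add_zero] at h00
    have : l * (2 * l - a) = 0 := by linear_combination h00
    rcases mul_eq_zero.mp this with h | h
    · exact absurd h hl0
    · exact (sub_eq_zero.mp h).symm
  constructor
  · rw [hl, Matrix.trace_fin_two]; simp [ha]; ring
  · rw [hl, hd, Matrix.det_fin_two]; simp; ring

end Mat2

end Fermat.Agent.S30.H990

end
-- ===== PACK-END S30/H990/Quad.lean

-- ===== PACK-BEGIN S30/H990/Sat.lean
section
/-
S30 top glue (helper990): pure algebra, part 2: saturation of a submodule of a torsion-free module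
and the rank of the saturation of a free submodule.
-/


set_option autoImplicit false

namespace Fermat.Agent.S30.H990

open Module

section Sat

variable {R M : Type*} [CommRing R] [IsDomain R] [AddCommGroup M] [Module R M]

/-- The saturation of a submodule: all `m` some nonzero multiple of which lies in `N`. -/
def sat (N : Submodule R M) : Submodule R M where
  carrier := {m | ∃ r : R, r ≠ 0 ∧ r • m ∈ N}
  zero_mem' := ⟨1, one_ne_zero, by simp⟩
  add_mem' := by
    rintro x y ⟨r, hr, hx⟩ ⟨s, hs, hy⟩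
    refine ⟨r * s, mul_ne_zero hr hs, ?_⟩
    rw [smul_add]
    refine N.add_mem ?_ ?_
    · rw [mul_comm, mul_smul]; exact N.smul_mem s hx
    · rw [mul_smul]; exact N.smul_mem r hy
  smul_mem' := by
    rintro c x ⟨r, hr, hx⟩
    exact ⟨r, hr, by rw [smul_comm]; exact N.smul_mem c hx⟩

theorem mem_sat {N : Submodule R M} {m : M} : m ∈ sat N ↔ ∃ r : R, r ≠ 0 ∧ r • m ∈ N := Iff.rfl

theorem le_sat (N : Submodule R M) : N ≤ sat N := fun x hx => ⟨1, one_ne_zero, by simpa using hx⟩

/-- The saturation is saturated. -/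
theorem mem_sat_of_smul_mem {N : Submodule R M} {r : R} (hr : r ≠ 0) {m : M}
    (h : r • m ∈ sat N) : m ∈ sat N := by
  obtain ⟨s, hs, hm⟩ := h
  exact ⟨s * r, mul_ne_zero hs hr, by rwa [mul_smul]⟩

/-- A linear map sending `N` into `sat N` preserves `sat N`. -/
theorem map_mem_sat {N : Submodule R M} (f : M →ₗ[R] M) (hf : ∀ x ∈ N, f x ∈ sat N)
    {m : M} (hm : m ∈ sat N) : f m ∈ sat N := by
  obtain ⟨r, hr, hrm⟩ := hm
  have := hf _ hrm
  rw [map_smul] at this
  exact mem_sat_of_smul_mem hr this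

/-- To check that `f` maps `span s` into `sat (span s)` it suffices to check generators. -/
theorem map_span_le_sat {s : Set M} (f : M →ₗ[R] M) (hf : ∀ x ∈ s, f x ∈ sat (Submodule.span R s))
    {x : M} (hx : x ∈ Submodule.span R s) : f x ∈ sat (Submodule.span R s) := by
  induction hx using Submodule.span_induction with
  | mem x hx => exact hf x hx
  | zero => rw [map_zero]; exact Submodule.zero_mem _
  | add x y _ _ hx hy => rw [map_add]; exact Submodule.add_mem _ hx hy
  | smul a x _ hx => rw [map_smul]; exact Submodule.smul_mem _ a hx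

/-- A finitely generated submodule of `sat N` is carried into `N` by a single nonzero scalar. -/
theorem exists_smul_le_of_fg {N : Submodule R M} {P : Submodule R M} (hP : P.FG) (hle : P ≤ sat N) :
    ∃ r : R, r ≠ 0 ∧ ∀ x ∈ P, r • x ∈ N := by
  classical
  obtain ⟨S, rfl⟩ := hP
  induction S using Finset.induction_on with
  | empty =>
    refine ⟨1, one_ne_zero, fun x hx => ?_⟩
    simp only [Finset.coe_empty, Submodule.span_empty, Submodule.mem_bot] at hx
    rw [hx, smul_zero]; exact N.zero_mem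
  | insert a S _ ih =>
    have hS : Submodule.span R (S : Set M) ≤ sat N :=
      (Submodule.span_mono (by simp)).trans hle
    obtain ⟨r, hr, hrS⟩ := ih hS
    have ha : a ∈ sat N := hle (Submodule.subset_span (by simp))
    obtain ⟨s, hs, hsa⟩ := ha
    refine ⟨r * s, mul_ne_zero hr hs, fun x hx => ?_⟩
    rw [Finset.coe_insert, Submodule.mem_span_insert] at hx
    obtain ⟨c, y, hy, rfl⟩ := hx
    rw [smul_add]
    refine N.add_mem ?_ ?_
    · rw [smul_comm, mul_smul]
      exact N.smul_mem _ (N.smul_mem _ hsa)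
    · rw [mul_comm, mul_smul]
      exact N.smul_mem _ (hrS y hy)

end Sat

section Rank

variable {R M : Type*} [CommRing R] [IsDomain R] [IsPrincipalIdealRing R]
  [AddCommGroup M] [Module R M] [Module.Finite R M] [Module.Free R M]

/-- The saturation of the span of a linearly independent family of `n` vectors is free of
rank `n`. -/
theorem finrank_sat_span {n : ℕ} (v : Fin n → M) (hv : LinearIndependent R v) :
    Module.finrank R (sat (Submodule.span R (Set.range v))) = n := by
  set N := Submodule.span R (Set.range v) with hN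
  set Λ := sat N with hΛ
  have hvN : ∀ i, v i ∈ N := fun i => Submodule.subset_span (Set.mem_range_self i)
  apply le_antisymm
  · -- upper bound
    have hfg : Λ.FG := IsNoetherian.noetherian Λ
    obtain ⟨r, hr, hrΛ⟩ := exists_smul_le_of_fg hfg (le_refl Λ)
    let f : Λ →ₗ[R] N :=
      { toFun := fun x => ⟨r • (x : M), hrΛ x x.2⟩
        map_add' := fun x y => by ext; simp [smul_add]
        map_smul' := fun c x => by ext; simp [smul_comm r c] }
    have hf : Function.Injective f := by
      intro x y hxy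
      have : r • (x : M) = r • (y : M) := congrArg Subtype.val hxy
      exact Subtype.ext (smul_right_injective M hr this)
    have h1 := LinearMap.finrank_le_finrank_of_injective hf
    have h2 : Module.finrank R N = n := by
      rw [hN, finrank_span_eq_card hv, Fintype.card_fin]
    omega
  · -- lower bound
    let v' : Fin n → Λ := fun i => ⟨v i, le_sat N (hvN i)⟩
    have hv' : LinearIndependent R v' := by
      apply LinearIndependent.of_comp Λ.subtype
      exact hv
    have := hv'.fintype_card_le_finrank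
    simpa using this

end Rank

end Fermat.Agent.S30.H990

end
-- ===== PACK-END S30/H990/Sat.lean

-- ===== PACK-BEGIN S55/H414/CycloOrder.lean
section


/-!
# S55, leaf CYC-INF (helper414), part 2: orders of integers modulo `p ^ n`

Elementary number theory: if `q ≥ 2` then the `p`-part of the multiplicative order of `q`
modulo `p ^ n` tends to infinity with `n`.
-/

set_option autoImplicit false

namespace Fermat.Agent.S55.H414

/-- If `o ∣ (p - 1) * p ^ m` and `p ^ k ∤ o` (with `k ≥ 1`), then `o ∣ (p - 1) * p ^ (k - 1)`. -/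
theorem dvd_pred_mul_pow_of_not_pow_dvd {p : ℕ} (hp : p.Prime) {o m k : ℕ}
    (ho : o ∣ (p - 1) * p ^ m) (hk : ¬ p ^ k ∣ o) : o ∣ (p - 1) * p ^ (k - 1) := by
  have ho0 : o ≠ 0 := by
    rintro rfl
    exact hk (dvd_zero _)
  obtain ⟨j, a, ha, rfl⟩ := Nat.exists_eq_pow_mul_and_not_dvd ho0 p hp.ne_one
  have hcop : Nat.Coprime a (p ^ m) := Nat.Coprime.pow_right _
    ((Nat.Prime.coprime_iff_not_dvd hp).2 ha).symm
  have ha1 : a ∣ p - 1 := by
    have : a ∣ (p - 1) * p ^ m := (Dvd.intro_left _ rfl).trans ho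
    exact hcop.dvd_of_dvd_mul_right this
  have hj : j < k := by
    by_contra hjk
    exact hk ((pow_dvd_pow p (Nat.le_of_not_lt hjk)).trans (Dvd.intro _ rfl))
  have hj' : p ^ j ∣ p ^ (k - 1) := pow_dvd_pow p (by omega)
  rw [mul_comm (p - 1)]
  exact Nat.mul_dvd_mul hj' ha1

/-- For `q ≥ 2` and every `k`, for all large `n`, every unit of `ZMod (p ^ n)` which is the class
of `q` has order divisible by `p ^ k`. -/
theorem exists_forall_pow_dvd_orderOf (p q : ℕ) (hp : p.Prime) (hq : 2 ≤ q) (k : ℕ) :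
    ∃ n₀ : ℕ, ∀ n, n₀ ≤ n → ∀ u : (ZMod (p ^ n))ˣ, (u : ZMod (p ^ n)) = (q : ZMod (p ^ n)) →
      p ^ k ∣ orderOf u := by
  set E : ℕ := (p - 1) * p ^ (k - 1) with hE
  have hE0 : 0 < E := Nat.mul_pos (Nat.sub_pos_of_lt hp.one_lt) (pow_pos hp.pos _)
  set m : ℕ := q ^ E with hm
  have hm2 : 2 ≤ m := by
    calc 2 ≤ q := hq
      _ = q ^ 1 := (pow_one q).symm
      _ ≤ q ^ E := Nat.pow_le_pow_right (by omega) hE0
  refine ⟨m, fun n hn u hu => ?_⟩
  by_contra hk
  haveI : NeZero (p ^ n) := ⟨pow_ne_zero _ hp.ne_zero⟩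
  have hn0 : n ≠ 0 := by
    rintro rfl
    omega
  have hcard : Nat.card (ZMod (p ^ n))ˣ = (p - 1) * p ^ (n - 1) := by
    rw [Nat.card_eq_fintype_card, ZMod.card_units_eq_totient,
      Nat.totient_prime_pow hp (Nat.pos_of_ne_zero hn0), mul_comm]
  have ho : orderOf u ∣ (p - 1) * p ^ (n - 1) := by
    rw [← hcard]
    exact orderOf_dvd_natCard u
  have hoE : orderOf u ∣ E := dvd_pred_mul_pow_of_not_pow_dvd hp ho hk
  have h1 : u ^ E = 1 := orderOf_dvd_iff_pow_eq_one.1 hoE
  have h2 : ((m : ℕ) : ZMod (p ^ n)) = 1 := by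
    have := congrArg (fun v : (ZMod (p ^ n))ˣ => (v : ZMod (p ^ n))) h1
    simp only [Units.val_pow_eq_pow_val, Units.val_one, hu] at this
    rw [hm, Nat.cast_pow]
    exact this
  have h3 : ((m - 1 : ℕ) : ZMod (p ^ n)) = 0 := by
    rw [Nat.cast_sub (by omega), h2]
    simp
  have h4 : p ^ n ∣ m - 1 := (ZMod.natCast_eq_zero_iff _ _).1 h3
  have h5 : p ^ n ≤ m - 1 := Nat.le_of_dvd (by omega) h4
  have h6 : m < p ^ m := Nat.lt_pow_self hp.one_lt
  have h7 : p ^ m ≤ p ^ n := Nat.pow_le_pow_right hp.pos hn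
  omega

end Fermat.Agent.S55.H414

end
-- ===== PACK-END S55/H414/CycloOrder.lean

-- ===== PACK-BEGIN Lib/Cheb/H993/LogAsymp.lean
section


/-!
# `f = a · log (1/(s-1)) + O(1)` on `(1, 2]`, and prime Dirichlet sums

Small calculus used by the glue piece `M` of the shared library CHEB.
-/

set_option autoImplicit false

namespace Fermat.Agent.Lib.Cheb.H993

noncomputable section

/-- The main term `log (1 / (s - 1))`. -/
def ell (s : ℝ) : ℝ := Real.log (1 / (s - 1))

/-- `f = a · ell + O(1)` on `(1, 2]`. -/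
def LogAsymp (f : ℝ → ℝ) (a : ℝ) : Prop :=
  ∃ C : ℝ, ∀ s : ℝ, 1 < s → s ≤ 2 → |f s - a * ell s| ≤ C

theorem LogAsymp.congr {f g : ℝ → ℝ} {a : ℝ} (hf : LogAsymp f a)
    (h : ∀ s : ℝ, 1 < s → s ≤ 2 → g s = f s) : LogAsymp g a := by
  obtain ⟨C, hC⟩ := hf
  exact ⟨C, fun s h1 h2 => by rw [h s h1 h2]; exact hC s h1 h2⟩

theorem LogAsymp.add {f g : ℝ → ℝ} {a b : ℝ} (hf : LogAsymp f a) (hg : LogAsymp g b) :
    LogAsymp (fun s => f s + g s) (a + b) := by
  obtain ⟨C, hC⟩ := hf
  obtain ⟨D, hD⟩ := hg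
  refine ⟨C + D, fun s h1 h2 => ?_⟩
  have e : f s + g s - (a + b) * ell s = (f s - a * ell s) + (g s - b * ell s) := by ring
  rw [e]
  exact (abs_add_le _ _).trans (add_le_add (hC s h1 h2) (hD s h1 h2))

theorem LogAsymp.sub {f g : ℝ → ℝ} {a b : ℝ} (hf : LogAsymp f a) (hg : LogAsymp g b) :
    LogAsymp (fun s => f s - g s) (a - b) := by
  obtain ⟨C, hC⟩ := hf
  obtain ⟨D, hD⟩ := hg
  refine ⟨C + D, fun s h1 h2 => ?_⟩
  have e : f s - g s - (a - b) * ell s = (f s - a * ell s) - (g s - b * ell s) := by ring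
  rw [e]
  exact (abs_sub _ _).trans (add_le_add (hC s h1 h2) (hD s h1 h2))

theorem LogAsymp.const_mul {f : ℝ → ℝ} {a : ℝ} (c : ℝ) (hf : LogAsymp f a) :
    LogAsymp (fun s => c * f s) (c * a) := by
  obtain ⟨C, hC⟩ := hf
  refine ⟨|c| * C, fun s h1 h2 => ?_⟩
  have e : c * f s - c * a * ell s = c * (f s - a * ell s) := by ring
  rw [e, abs_mul]
  exact mul_le_mul_of_nonneg_left (hC s h1 h2) (abs_nonneg c)

theorem LogAsymp.zero_of_bounded {f : ℝ → ℝ} {K : ℝ}
    (h : ∀ s : ℝ, 1 < s → s ≤ 2 → |f s| ≤ K) : LogAsymp f 0 :=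
  ⟨K, fun s h1 h2 => by simpa using h s h1 h2⟩

theorem LogAsymp.sum {ι : Type*} (t : Finset ι) {f : ι → ℝ → ℝ} {a : ι → ℝ}
    (h : ∀ i ∈ t, LogAsymp (f i) (a i)) :
    LogAsymp (fun s => ∑ i ∈ t, f i s) (∑ i ∈ t, a i) := by
  classical
  induction t using Finset.induction_on with
  | empty =>
    exact ⟨0, fun s _ _ => by simp⟩
  | insert i t hi ih =>
    have h1 := h i (Finset.mem_insert_self i t)
    have h2 := ih (fun j hj => h j (Finset.mem_insert_of_mem hj))
    have h3 := h1.add h2
    rw [Finset.sum_insert hi]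
    exact h3.congr (fun s _ _ => Finset.sum_insert hi)

/-- `ell` is unbounded above on `(1, 2]`. -/
theorem exists_ell_gt (M : ℝ) : ∃ s : ℝ, 1 < s ∧ s ≤ 2 ∧ M < ell s := by
  refine ⟨1 + Real.exp (-(|M| + 1)), ?_, ?_, ?_⟩
  · have := Real.exp_pos (-(|M| + 1)); linarith
  · have h : Real.exp (-(|M| + 1)) ≤ 1 := by
      rw [Real.exp_le_one_iff]; have := abs_nonneg M; linarith
    linarith
  · unfold ell
    have e : (1 + Real.exp (-(|M| + 1)) - 1) = Real.exp (-(|M| + 1)) := by ring
    rw [e, one_div, ← Real.exp_neg, Real.log_exp]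
    have := le_abs_self M
    linarith

/-- If `f = a · ell + O(1)` with `a > 0` then `f` takes arbitrarily large values. -/
theorem LogAsymp.exists_gt {f : ℝ → ℝ} {a : ℝ} (hf : LogAsymp f a) (ha : 0 < a) (M : ℝ) :
    ∃ s : ℝ, 1 < s ∧ s ≤ 2 ∧ M < f s := by
  obtain ⟨C, hC⟩ := hf
  obtain ⟨s, h1, h2, hs⟩ := exists_ell_gt ((M + C) / a)
  refine ⟨s, h1, h2, ?_⟩
  have := (abs_le.mp (hC s h1 h2)).1
  have h3 : M + C < a * ell s := by
    rw [div_lt_iff₀ ha] at hs
    linarith
  linarith

/-- The prime Dirichlet sum `∑_p a(p) p^{-s}`. -/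
def pSum (a : ℕ → ℝ) (s : ℝ) : ℝ := ∑' p : Nat.Primes, a p * ((p : ℕ) : ℝ) ^ (-s)

theorem summable_pSum {a : ℕ → ℝ} {K : ℝ} (h0 : ∀ p, 0 ≤ a p) (hK : ∀ p, a p ≤ K)
    {s : ℝ} (hs : 1 < s) : Summable (fun p : Nat.Primes => a p * ((p : ℕ) : ℝ) ^ (-s)) := by
  have hsum : Summable (fun p : Nat.Primes => K * ((p : ℕ) : ℝ) ^ (-s)) :=
    (Nat.Primes.summable_rpow.mpr (by linarith)).mul_left K
  refine Summable.of_nonneg_of_le (fun p => ?_) (fun p => ?_) hsum
  · exact mul_nonneg (h0 p) (Real.rpow_nonneg (Nat.cast_nonneg _) _)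
  · exact mul_le_mul_of_nonneg_right (hK p) (Real.rpow_nonneg (Nat.cast_nonneg _) _)

theorem pSum_nonneg {a : ℕ → ℝ} (h0 : ∀ p, 0 ≤ a p) (s : ℝ) : 0 ≤ pSum a s :=
  tsum_nonneg fun p => mul_nonneg (h0 p) (Real.rpow_nonneg (Nat.cast_nonneg _) _)

theorem pSum_finset_sum {ι : Type*} (t : Finset ι) {a : ι → ℕ → ℝ} {K : ℝ}
    (h0 : ∀ i p, 0 ≤ a i p) (hK : ∀ i p, a i p ≤ K) {s : ℝ} (hs : 1 < s) :
    pSum (fun p => ∑ i ∈ t, a i p) s = ∑ i ∈ t, pSum (a i) s := by
  unfold pSum
  rw [← Summable.tsum_finsetSum (fun i _ => summable_pSum (h0 i) (hK i) hs)]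
  congr 1
  funext p
  rw [Finset.sum_mul]

/-- A prime sum supported on a finite set of primes is bounded. -/
theorem abs_pSum_le_of_support {a : ℕ → ℝ} {K : ℝ} (B : Finset ℕ) (h0 : ∀ p, 0 ≤ a p)
    (hK : ∀ p, a p ≤ K) (hB : ∀ p, p ∉ B → a p = 0) {s : ℝ} (hs : 1 < s) :
    |pSum a s| ≤ K * B.card := by
  have hK0 : 0 ≤ K := (h0 0).trans (hK 0)
  rw [abs_of_nonneg (pSum_nonneg h0 s)]
  unfold pSum
  -- compare with the finite sum over `B`
  let T : Finset Nat.Primes := (B.filter Nat.Prime).attach.map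
    ⟨fun p => ⟨p.1, (Finset.mem_filter.mp p.2).2⟩, fun p q h => by
      apply Subtype.ext; simpa using congrArg Subtype.val h⟩
  have hT : ∀ p : Nat.Primes, p ∉ T → a p * ((p : ℕ) : ℝ) ^ (-s) = 0 := by
    intro p hp
    have : (p : ℕ) ∉ B := by
      intro hpB
      apply hp
      simp only [T, Finset.mem_map, Finset.mem_attach, true_and]
      exact ⟨⟨p.1, Finset.mem_filter.mpr ⟨hpB, p.2⟩⟩, rfl⟩
    rw [hB _ this, zero_mul]
  rw [tsum_eq_sum hT]
  have hcard : T.card ≤ B.card := by
    simp only [T, Finset.card_map, Finset.card_attach]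
    exact Finset.card_filter_le _ _
  calc ∑ p ∈ T, a p * ((p : ℕ) : ℝ) ^ (-s) ≤ ∑ _p ∈ T, K := by
        refine Finset.sum_le_sum fun p _ => ?_
        have h1 : ((p : ℕ) : ℝ) ^ (-s) ≤ 1 := by
          apply Real.rpow_le_one_of_one_le_of_nonpos
          · exact_mod_cast p.2.one_lt.le
          · linarith
        calc a p * ((p : ℕ) : ℝ) ^ (-s) ≤ K * 1 :=
              mul_le_mul (hK p) h1 (Real.rpow_nonneg (Nat.cast_nonneg _) _) hK0
          _ = K := mul_one K
    _ = K * T.card := by rw [Finset.sum_const, nsmul_eq_mul, mul_comm]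
    _ ≤ K * B.card := by
        apply mul_le_mul_of_nonneg_left _ hK0
        exact_mod_cast hcard

end

end Fermat.Agent.Lib.Cheb.H993

end
-- ===== PACK-END Lib/Cheb/H993/LogAsymp.lean

-- ===== PACK-BEGIN S35/H991/BadFrobAlg.lean
section
/-
S35 top glue, pure algebra (helper991).

`eq_or_eq_neg_of_rel_of_badFrob`: on a nontrivial torsion-free module over a domain in which
`q ≠ 0`, an endomorphism `s` with `s² - a s + q = 0` and `(s² - 1)(s² - q²) = 0` has
`a = q + 1` or `a = -(q + 1)`.
Mathlib only.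
-/


set_option autoImplicit false

namespace Fermat.Agent.S35.H991

section

variable {𝒪 M : Type*} [CommRing 𝒪] [IsDomain 𝒪] [AddCommGroup M] [Module 𝒪 M]
  [Module.IsTorsionFree 𝒪 M]

/-- The bad-Frobenius relation `(s² - 1)(s² - q²) = 0`, in factored form
`(s - 1)(s + 1)(s - q)(s + q) = 0`, applied to vectors. -/
def BadFrobRel (q : 𝒪) (s : Module.End 𝒪 M) : Prop :=
  ∀ v : M, s (s (s (s v))) - (1 + q ^ 2) • s (s v) + (q ^ 2) • v = 0

/-- An eigenvector of `s` for the eigenvalue `c` forces `c² - a c + q = 0`. -/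
theorem quad_of_eigen {q a c : 𝒪} {s : Module.End 𝒪 M}
    (hrel : ∀ v : M, s (s v) - a • s v + q • v = 0) {v : M} (hv : v ≠ 0) (hsv : s v = c • v) :
    c * c - a * c + q = 0 := by
  have h := hrel v
  rw [hsv, map_smul, hsv, smul_smul, smul_smul, ← sub_smul, ← add_smul] at h
  rcases smul_eq_zero.mp h with h0 | h0
  · exact h0
  · exact absurd h0 hv

/-- **Algebraic core of S35.**  A quadratic relation with constant term `q` together with the
bad-Frobenius relation pins the trace down to `± (q + 1)`. -/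
theorem eq_or_eq_neg_of_rel_of_badFrob [Nontrivial M] {q a : 𝒪} (hq : q ≠ 0)
    {s : Module.End 𝒪 M}
    (hrel : ∀ v : M, s (s v) - a • s v + q • v = 0) (hbad : BadFrobRel q s) :
    a = q + 1 ∨ a = -(q + 1) := by
  obtain ⟨v, hv⟩ := exists_ne (0 : M)
  -- the four factors
  set v₃ : M := s v + q • v with hv₃
  set v₂ : M := s v₃ - q • v₃ with hv₂
  set v₁ : M := s v₂ + v₂ with hv₁
  have h4 : s v₁ - v₁ = 0 := by
    have := hbad v
    rw [hv₁, hv₂, hv₃]
    simp only [map_add, map_sub, map_smul]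
    rw [← this]
    module
  by_cases h1 : v₁ = 0
  · by_cases h2 : v₂ = 0
    · by_cases h3 : v₃ = 0
      · -- `s v = -q v`
        have hsv : s v = (-q) • v := by
          rw [neg_smul]
          exact eq_neg_of_add_eq_zero_left h3
        have := quad_of_eigen hrel hv hsv
        right
        have h5 : q * (q + a + 1) = 0 := by linear_combination this
        rcases mul_eq_zero.mp h5 with h6 | h6
        · exact absurd h6 hq
        · linear_combination h6
      · -- `s v₃ = q v₃`
        have hsv : s v₃ = q • v₃ := sub_eq_zero.mp h2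
        have := quad_of_eigen hrel h3 hsv
        left
        have h5 : q * (q - a + 1) = 0 := by linear_combination this
        rcases mul_eq_zero.mp h5 with h6 | h6
        · exact absurd h6 hq
        · linear_combination -h6
    · -- `s v₂ = - v₂`
      have hsv : s v₂ = (-1 : 𝒪) • v₂ := by
        rw [neg_smul, one_smul]
        exact eq_neg_of_add_eq_zero_left h1
      have := quad_of_eigen hrel h2 hsv
      right
      linear_combination this
  · -- `s v₁ = v₁`
    have hsv : s v₁ = (1 : 𝒪) • v₁ := by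
      rw [one_smul]
      exact sub_eq_zero.mp h4
    have := quad_of_eigen hrel h1 hsv
    left
    linear_combination -this

end

end Fermat.Agent.S35.H991

end
-- ===== PACK-END S35/H991/BadFrobAlg.lean

-- ===== PACK-BEGIN S24/Deg/H457_Bound.lean
section


/-!
# S24 / DEG-ALG (helper457), part 2: bounded degree ⇒ bounded dimension

If every element of a field extension `F/k` (char. 0) is algebraic of degree `≤ n`, then
`F/k` is finite of degree `≤ n` (primitive element theorem).
-/

set_option autoImplicit false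

noncomputable section

open Polynomial Module

namespace Fermat.Agent.S24.Deg457

/-- In characteristic zero, an extension all of whose elements are algebraic of degree `≤ n`
is finite-dimensional of dimension `≤ n`. -/
theorem finiteDimensional_and_finrank_le_of_forall_natDegree_minpoly_le
    {k F : Type*} [Field k] [Field F] [Algebra k F] [CharZero k] (n : ℕ)
    (h : ∀ x : F, IsIntegral k x ∧ (minpoly k x).natDegree ≤ n) :
    FiniteDimensional k F ∧ finrank k F ≤ n := by
  haveI : Algebra.IsAlgebraic k F := ⟨fun x => (h x).1.isAlgebraic⟩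
  have key : ∀ L : IntermediateField k F, FiniteDimensional k L → finrank k L ≤ n := by
    intro L hL
    obtain ⟨α, hα⟩ := Field.exists_primitive_element k L
    have h1 : finrank k L = (minpoly k α).natDegree := by
      rw [← IntermediateField.adjoin.finrank (IsIntegral.of_finite k α), hα]
      exact (IntermediateField.finrank_top').symm
    rw [h1]
    have h2 : minpoly k (α : F) = minpoly k α :=
      (minpoly.algebraMap_eq (algebraMap L F).injective α)
    rw [← h2]
    exact (h (α : F)).2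
  have hfd : FiniteDimensional k F := by
    by_contra hnot
    obtain ⟨L, hL, hlt⟩ := IntermediateField.exists_lt_finrank_of_infinite_dimensional hnot n
    exact absurd (key L hL) (not_le.mpr hlt)
  refine ⟨hfd, ?_⟩
  have := key ⊤ inferInstance
  rwa [IntermediateField.finrank_top'] at this

end Fermat.Agent.S24.Deg457

end
end
-- ===== PACK-END S24/Deg/H457_Bound.lean

-- ===== PACK-BEGIN S24/JFun/EtaProd.lean
section







/-!
# Formal versus analytic Euler product

The Taylor coefficients at `0` of the analytic function `q ↦ ∏' n, (1 - q ^ (n + 1))` on the unit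
disc are the coefficients of the formal product `ModularCurve.etaProd`.
-/

set_option autoImplicit false

namespace Fermat.Agent.S24.JFun

open Filter Topology Complex Metric
open scoped PowerSeries.WithPiTopology

/-- Iterated derivatives of a locally uniform limit of holomorphic functions. -/
theorem tendstoLocallyUniformlyOn_iteratedDeriv {ι : Type*} {φ : Filter ι} {F : ι → ℂ → ℂ}
    {f : ℂ → ℂ} {U : Set ℂ} (hU : IsOpen U) (hf : TendstoLocallyUniformlyOn F f φ U)
    (hF : ∀ᶠ n in φ, DifferentiableOn ℂ (F n) U) (m : ℕ) :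
    TendstoLocallyUniformlyOn (fun n => iteratedDeriv m (F n)) (iteratedDeriv m f) φ U ∧
      ∀ᶠ n in φ, DifferentiableOn ℂ (iteratedDeriv m (F n)) U := by
  induction m with
  | zero => simpa [iteratedDeriv_zero] using And.intro hf hF
  | succ m ih =>
    obtain ⟨h1, h2⟩ := ih
    refine ⟨?_, ?_⟩
    · have := h1.deriv h2 hU
      simpa [iteratedDeriv_succ, Function.comp_def] using this
    · filter_upwards [h2] with n hn
      rw [iteratedDeriv_succ]
      exact hn.deriv hU

theorem iteratedDeriv_polynomial_eval (P : Polynomial ℂ) (m : ℕ) :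
    iteratedDeriv m (fun x : ℂ => P.eval x) = fun x => (Polynomial.derivative^[m] P).eval x := by
  induction m generalizing P with
  | zero => simp [iteratedDeriv_zero]
  | succ m ih =>
    rw [iteratedDeriv_succ', Function.iterate_succ_apply]
    have : deriv (fun x : ℂ => P.eval x) = fun x => (Polynomial.derivative P).eval x := by
      funext x
      exact Polynomial.deriv P
    rw [this, ih]

theorem iteratedDeriv_polynomial_eval_zero (P : Polynomial ℂ) (m : ℕ) :
    iteratedDeriv m (fun x : ℂ => P.eval x) 0 = (m.factorial : ℂ) * P.coeff m := by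
  rw [iteratedDeriv_polynomial_eval]
  simp only
  rw [← Polynomial.coeff_zero_eq_eval_zero, Polynomial.coeff_iterate_derivative]
  simp [Nat.descFactorial_self, nsmul_eq_mul]

/-- The partial Euler products as integer polynomials. -/
noncomputable def eulerPartial (s : Finset ℕ) : Polynomial ℤ :=
  ∏ n ∈ s, (1 - Polynomial.X ^ (n + 1))

theorem eval_map_eulerPartial (s : Finset ℕ) (q : ℂ) :
    ((eulerPartial s).map (Int.castRingHom ℂ)).eval q = ∏ n ∈ s, (1 - q ^ (n + 1)) := by
  simp [eulerPartial, Polynomial.map_prod, Polynomial.eval_prod]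

theorem coe_eulerPartial (s : Finset ℕ) :
    ((eulerPartial s : Polynomial ℤ) : PowerSeries ℤ) = ∏ n ∈ s, (1 - PowerSeries.X ^ (n + 1)) := by
  have h := map_prod (Polynomial.coeToPowerSeries.ringHom (R := ℤ))
    (fun n : ℕ => (1 - Polynomial.X ^ (n + 1) : Polynomial ℤ)) s
  rw [eulerPartial]
  refine h.trans (Finset.prod_congr rfl fun n _ => ?_)
  simp

theorem tendsto_coeff_eulerPartial (m : ℕ) :
    Tendsto (fun s : Finset ℕ => (((eulerPartial s).coeff m : ℤ) : ℂ)) atTop
      (𝓝 ((ModularCurve.etaProd.coeff m : ℤ) : ℂ)) := by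
  have h1 : HasProd (fun n : ℕ => (1 - PowerSeries.X ^ (n + 1) : PowerSeries ℤ))
      ModularCurve.etaProd :=
    (PowerSeries.WithPiTopology.multipliable_one_sub_X_pow ℤ).hasProd
  have h2 : Tendsto (fun s : Finset ℕ => ∏ n ∈ s, (1 - PowerSeries.X ^ (n + 1) : PowerSeries ℤ))
      atTop (𝓝 ModularCurve.etaProd) := h1
  have h3 := (PowerSeries.WithPiTopology.tendsto_iff_coeff_tendsto ℤ _ _ _).1 h2 m
  have h4 : Continuous (fun z : ℤ => (z : ℂ)) := continuous_of_discreteTopology
  have h5 := (h4.tendsto _).comp h3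
  refine h5.congr (fun s => ?_)
  simp only [Function.comp_apply]
  rw [← coe_eulerPartial, Polynomial.coeff_coe]

/-- The Taylor coefficients at `0` of the analytic Euler product are the coefficients of the
formal Euler product `ModularCurve.etaProd`. -/
theorem iteratedDeriv_tprod_one_sub_pow (m : ℕ) :
    iteratedDeriv m (fun q : ℂ => ∏' n : ℕ, (1 - q ^ (n + 1))) 0
      = (m.factorial : ℂ) * ((ModularCurve.etaProd.coeff m : ℤ) : ℂ) := by
  have hU : IsOpen (ball (0 : ℂ) 1) := isOpen_ball
  have h0 : (0 : ℂ) ∈ ball (0 : ℂ) 1 := mem_ball_self one_pos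
  have hloc : TendstoLocallyUniformlyOn
      (fun (s : Finset ℕ) (q : ℂ) => ∏ n ∈ s, (1 - q ^ (n + 1)))
      (fun q : ℂ => ∏' n : ℕ, (1 - q ^ (n + 1))) atTop (ball (0 : ℂ) 1) := by
    have := ModularForm.multipliableLocallyUniformlyOn_one_sub_pow.hasProdLocallyUniformlyOn
    exact this
  have hF : ∀ᶠ s : Finset ℕ in atTop,
      DifferentiableOn ℂ (fun q : ℂ => ∏ n ∈ s, (1 - q ^ (n + 1))) (ball (0 : ℂ) 1) :=
    Eventually.of_forall fun s => by fun_prop
  have key := (tendstoLocallyUniformlyOn_iteratedDeriv hU hloc hF m).1.tendsto_at h0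
  have hval : ∀ s : Finset ℕ,
      iteratedDeriv m (fun q : ℂ => ∏ n ∈ s, (1 - q ^ (n + 1))) 0
        = (m.factorial : ℂ) * (((eulerPartial s).coeff m : ℤ) : ℂ) := by
    intro s
    have : (fun q : ℂ => ∏ n ∈ s, (1 - q ^ (n + 1)))
        = fun q => ((eulerPartial s).map (Int.castRingHom ℂ)).eval q := by
      funext q
      rw [eval_map_eulerPartial]
    rw [this, iteratedDeriv_polynomial_eval_zero, Polynomial.coeff_map]
    simp
  have key2 : Tendsto (fun s : Finset ℕ =>
      (m.factorial : ℂ) * (((eulerPartial s).coeff m : ℤ) : ℂ)) atTop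
      (𝓝 (iteratedDeriv m (fun q : ℂ => ∏' n : ℕ, (1 - q ^ (n + 1))) 0)) :=
    key.congr hval
  exact tendsto_nhds_unique key2 ((tendsto_coeff_eulerPartial m).const_mul _)

/-- The analytic Euler product is the sum of the formal Euler product on the open unit disc. -/
theorem hasSum_etaProd {q : ℂ} (hq : ‖q‖ < 1) :
    HasSum (fun m : ℕ => ((ModularCurve.etaProd.coeff m : ℤ) : ℂ) * q ^ m)
      (∏' n : ℕ, (1 - q ^ (n + 1))) := by
  have h := Complex.hasSum_taylorSeries_on_ball
    (f := fun q : ℂ => ∏' n : ℕ, (1 - q ^ (n + 1))) (c := 0) (r := 1)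
    ModularForm.differentiableOn_tprod_one_sub_pow (z := q) (by simpa using hq)
  have heq : (fun n : ℕ => ((n.factorial : ℂ))⁻¹ • (q - 0) ^ n •
      iteratedDeriv n (fun q : ℂ => ∏' n : ℕ, (1 - q ^ (n + 1))) 0)
      = fun m : ℕ => ((ModularCurve.etaProd.coeff m : ℤ) : ℂ) * q ^ m := by
    funext m
    rw [iteratedDeriv_tprod_one_sub_pow]
    have hm : (m.factorial : ℂ) ≠ 0 := by exact_mod_cast Nat.factorial_ne_zero m
    simp only [sub_zero, smul_eq_mul]
    field_simp
  rw [heq] at h
  exact h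

end Fermat.Agent.S24.JFun

end
-- ===== PACK-END S24/JFun/EtaProd.lean

-- ===== PACK-BEGIN S37/H818/PullFunct.lean
section
/-
S37 / LEVEL TRANSFER (helper818), part 1: functoriality of the Prelude's `restrictAlong`,
`ramificationIndexAlong` and `pullbackAlong` under composition of field embeddings.
-/



set_option autoImplicit false
set_option linter.style.haveILetI false

noncomputable section

namespace Fermat.Agent.S37.H818

open AlgebraicCurve

variable {K F G G₁ : Type*} [Field K] [Field F] [Field G] [Field G₁]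
  [Algebra K F] [Algebra K G] [Algebra K G₁]

/-- Restriction of a place along a composite is the composite of the restrictions. -/
theorem restrictAlong_comp (φ : F →ₐ[K] G) (ψ : G →ₐ[K] G₁)
    (hφ : φ.toRingHom.IsIntegral) (hψ : ψ.toRingHom.IsIntegral)
    (hψφ : (ψ.comp φ).toRingHom.IsIntegral) (W : Place K G₁) :
    W.restrictAlong (ψ.comp φ) hψφ = (W.restrictAlong ψ hψ).restrictAlong φ hφ := by
  apply Place.ext
  rfl

/-- Existence of a uniformizer in the field for a place. -/
theorem exists_ord_eq_one (v : Place K F) : ∃ f : F, f ≠ 0 ∧ v.ord f = 1 := by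
  obtain ⟨π, hπ⟩ := IsDiscreteValuationRing.exists_irreducible v.toValuationSubring
  refine ⟨(π : F), ?_, v.ord_coe_irreducible hπ⟩
  simpa [ne_eq, ZeroMemClass.coe_eq_zero] using hπ.ne_zero

/-- Ramification indices are multiplicative in towers. -/
theorem ramificationIndexAlong_comp (φ : F →ₐ[K] G) (ψ : G →ₐ[K] G₁)
    (hφ : φ.toRingHom.IsIntegral) (hψ : ψ.toRingHom.IsIntegral)
    (hψφ : (ψ.comp φ).toRingHom.IsIntegral) (W : Place K G₁) :
    Place.ramificationIndexAlong (ψ.comp φ) W =
      Place.ramificationIndexAlong ψ W *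
        Place.ramificationIndexAlong φ (W.restrictAlong ψ hψ) := by
  obtain ⟨f, hf0, hf⟩ := exists_ord_eq_one ((W.restrictAlong ψ hψ).restrictAlong φ hφ)
  have h1 := Place.ord_restrictAlong (ψ.comp φ) hψφ W f
  have h2 := Place.ord_restrictAlong ψ hψ W (φ f)
  have h3 := Place.ord_restrictAlong φ hφ (W.restrictAlong ψ hψ) f
  rw [restrictAlong_comp φ ψ hφ hψ hψφ W, hf, mul_one] at h1
  rw [hf, mul_one] at h3
  rw [h3] at h2
  have h4 : (ψ.comp φ) f = ψ (φ f) := rfl
  rw [h4, h2] at h1
  exact_mod_cast h1.symm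

variable [HasPrincipalDivisors K G] [HasPrincipalDivisors K G₁]

/-- Pullback of divisors is functorial. -/
theorem pullbackAlong_comp (φ : F →ₐ[K] G) (ψ : G →ₐ[K] G₁)
    (hφ : φ.toRingHom.IsIntegral) (hψ : ψ.toRingHom.IsIntegral)
    (hψφ : (ψ.comp φ).toRingHom.IsIntegral) (D : Divisor K F) :
    Divisor.pullbackAlong (ψ.comp φ) hψφ D =
      Divisor.pullbackAlong ψ hψ (Divisor.pullbackAlong φ hφ D) := by
  ext W
  rw [Divisor.pullbackAlong_apply, Divisor.pullbackAlong_apply, Divisor.pullbackAlong_apply,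
    ramificationIndexAlong_comp φ ψ hφ hψ hψφ W, restrictAlong_comp φ ψ hφ hψ hψφ W]
  push_cast
  ring

end Fermat.Agent.S37.H818

end

end
-- ===== PACK-END S37/H818/PullFunct.lean

-- ===== PACK-BEGIN S20/L1/Ramanujan.lean
section





/-!
# Level-one input for S20: Ramanujan identities and simple zeros

(helper140) Serre derivative of a level-one modular form is a level-one modular form;
Ramanujan identities for `E₄`, `E₆`, `Δ`; simple zeros.
-/

set_option autoImplicit false

open UpperHalfPlane ModularForm EisensteinSeries Derivative Filter Topology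
open scoped MatrixGroups Manifold

noncomputable section

namespace Fermat.Agent.S20.L1

/-- If `F` is holomorphic on `ℍ` and bounded at `i∞`, then its derivative tends to zero
at `i∞` (Cauchy estimate on discs of growing radius). -/
theorem isZeroAtImInfty_normalizedDeriv {F : ℍ → ℂ} (hF : MDiff F)
    (hb : IsBoundedAtImInfty F) : IsZeroAtImInfty (D F) := by
  rw [isBoundedAtImInfty_iff] at hb
  obtain ⟨M, A, hMA⟩ := hb
  rw [isZeroAtImInfty_iff]
  intro ε hε
  -- we may assume `M ≥ 0` and `A ≥ 1`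
  set M' : ℝ := max M 0 with hM'
  set A' : ℝ := max A 1 with hA'
  have hM'0 : 0 ≤ M' := le_max_right _ _
  set R : ℝ := M' / ε + 1 with hR
  have hRpos : 0 < R := by positivity
  refine ⟨A' + R, fun z hz ↦ ?_⟩
  have hdiff : DifferentiableOn ℂ (F ∘ ofComplex) upperHalfPlaneSet :=
    mdifferentiable_iff.mp hF
  have hsub : Metric.closedBall (z : ℂ) R ⊆ upperHalfPlaneSet := by
    intro w hw
    have h1 : |w.im - (z : ℂ).im| ≤ R := by
      have := Complex.abs_im_le_norm (w - z)
      rw [Complex.sub_im] at this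
      exact this.trans (by simpa [dist_eq_norm] using hw)
    have h2 : (z : ℂ).im = z.im := rfl
    have h3 : A' + R ≤ (z : ℂ).im := by simpa using hz
    have h4 : (1 : ℝ) ≤ A' := le_max_right _ _
    have h5 := abs_le.mp h1
    show 0 < w.im
    linarith [h5.1]
  have hd : DiffContOnCl ℂ (F ∘ ofComplex) (Metric.ball (z : ℂ) R) := by
    refine DifferentiableOn.diffContOnCl ?_
    rw [closure_ball _ hRpos.ne']
    exact hdiff.mono hsub
  have hC : ∀ w ∈ Metric.sphere (z : ℂ) R, ‖(F ∘ ofComplex) w‖ ≤ M' := by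
    intro w hw
    have hwU : w ∈ upperHalfPlaneSet := hsub (Metric.sphere_subset_closedBall hw)
    have h1 : |w.im - (z : ℂ).im| ≤ R := by
      have := Complex.abs_im_le_norm (w - z)
      rw [Complex.sub_im] at this
      exact this.trans (by simpa [dist_eq_norm] using (Metric.sphere_subset_closedBall hw))
    have h3 : A' + R ≤ (z : ℂ).im := by simpa using hz
    have h5 := abs_le.mp h1
    have hA : A ≤ (ofComplex w).im := by
      rw [ofComplex_apply_of_im_pos hwU]
      show A ≤ w.im
      have : A ≤ A' := le_max_left _ _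
      linarith [h5.1]
    exact (hMA _ hA).trans (le_max_left _ _)
  have key := Complex.norm_deriv_le_of_forall_mem_sphere_norm_le hRpos hd hC
  have h2pi : ‖(2 * (Real.pi : ℂ) * Complex.I)‖ = 2 * Real.pi := by
    simp [abs_of_pos Real.pi_pos]
  rw [normalizedDerivOfComplex, norm_mul, norm_inv, h2pi]
  have hpi : (1 : ℝ) ≤ 2 * Real.pi := by linarith [Real.two_le_pi]
  have hMR : M' / R ≤ ε := by
    rw [div_le_iff₀ hRpos, hR]
    have : M' = ε * (M' / ε) := by field_simp
    nlinarith
  calc (2 * Real.pi)⁻¹ * ‖deriv (F ∘ ofComplex) ↑z‖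
      ≤ 1 * ‖deriv (F ∘ ofComplex) ↑z‖ := by
        gcongr
        exact inv_le_one_of_one_le₀ hpi
    _ ≤ ε := by rw [one_mul]; exact key.trans hMR

/-- Build a level-one modular form from function-level data. -/
def mkLevelOne (k : ℤ) (F : ℍ → ℂ) (hol : MDiff F) (inv : ∀ γ : SL(2, ℤ), F ∣[k] γ = F)
    (bdd : IsBoundedAtImInfty F) : ModularForm 𝒮ℒ k where
  toFun := F
  slash_action_eq' A hA := by
    obtain ⟨A, rfl⟩ := hA
    exact inv A
  holo' := hol
  bdd_at_cusps' hc := by
    rw [Subgroup.IsArithmetic.isCusp_iff_isCusp_SL2Z] at hc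
    rw [OnePoint.isBoundedAt_iff_forall_SL2Z hc]
    intro γ _
    rw [inv γ]
    exact bdd

@[simp]
lemma coe_mkLevelOne (k : ℤ) (F : ℍ → ℂ) (hol : MDiff F) (inv : ∀ γ : SL(2, ℤ), F ∣[k] γ = F)
    (bdd : IsBoundedAtImInfty F) : ⇑(mkLevelOne k F hol inv bdd) = F := rfl

lemma levelOne_slash_eq {k : ℤ} (f : ModularForm 𝒮ℒ k) (γ : SL(2, ℤ)) :
    (f : ℍ → ℂ) ∣[k] γ = f :=
  SlashInvariantFormClass.slash_action_eq f _ ⟨γ, rfl⟩

lemma levelOne_isBoundedAtImInfty {k : ℤ} (f : ModularForm 𝒮ℒ k) :
    IsBoundedAtImInfty (f : ℍ → ℂ) := by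
  have := ModularFormClass.bdd_at_infty_slash f (1 : SL(2, ℤ))
  simpa using this

/-- The Serre derivative of a level-one modular form is bounded at `i∞`. -/
lemma isBoundedAtImInfty_serreDerivative {k : ℤ} (f : ModularForm 𝒮ℒ k) :
    IsBoundedAtImInfty (serreDerivative (k : ℂ) (f : ℍ → ℂ)) := by
  have h1 : IsBoundedAtImInfty (D (f : ℍ → ℂ)) :=
    (isZeroAtImInfty_normalizedDeriv f.holo' (levelOne_isBoundedAtImInfty f)).isBoundedAtImInfty
  have h2 : IsBoundedAtImInfty (fun z ↦ (k : ℂ) * 12⁻¹ * E2 z * f z) := by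
    have h3 : IsBoundedAtImInfty (fun z ↦ E2 z * f z) :=
      isBoundedAtImInfty_E2.mul (levelOne_isBoundedAtImInfty f)
    have h4 := h3.const_mul_left ((k : ℂ) * 12⁻¹)
    refine h4.congr_left ?_ |>.trans (Asymptotics.isBigO_refl _ _) 
    intro z
    simp [mul_assoc]
  rw [serreDerivative_eq]
  exact h1.sub h2

/-- The Serre derivative of a level-one modular form, as a modular form of weight `k + 2`. -/
def serreDerivativeForm {k : ℤ} (f : ModularForm 𝒮ℒ k) : ModularForm 𝒮ℒ (k + 2) :=
  mkLevelOne (k + 2) (serreDerivative (k : ℂ) (f : ℍ → ℂ))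
    (serreDerivative_mdifferentiable _ f.holo')
    (fun γ ↦ serreDerivative_slash_invariant f.holo' (levelOne_slash_eq f γ))
    (isBoundedAtImInfty_serreDerivative f)

@[simp]
lemma serreDerivativeForm_apply {k : ℤ} (f : ModularForm 𝒮ℒ k) (z : ℍ) :
    serreDerivativeForm f z = D (f : ℍ → ℂ) z - (k : ℂ) * 12⁻¹ * E2 z * f z := rfl

/-- A periodic holomorphic function bounded at `i∞` tends to the value of its cusp function
at `0`. -/
lemma tendsto_atImInfty_cuspFunction {f : ℍ → ℂ} {h : ℝ} (hh : 0 < h)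
    (hfper : Function.Periodic (f ∘ ofComplex) h) (hfhol : MDiff f)
    (hfbdd : IsBoundedAtImInfty f) :
    Tendsto f atImInfty (𝓝 (cuspFunction h f 0)) := by
  have han := analyticAt_cuspFunction_zero hh hfper hfhol hfbdd
  have : (cuspFunction h f ∘ fun τ : ℍ ↦ Function.Periodic.qParam h τ : ℍ → ℂ) = f := by
    funext τ
    simpa using eq_cuspFunction τ hh.ne' hfper
  simpa [this] using han.continuousAt.tendsto.comp (qParam_tendsto_atImInfty hh)

/-- A level-one modular form tends to its zeroth `q`-expansion coefficient at `i∞`. -/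
lemma levelOne_tendsto_atImInfty {k : ℤ} (f : ModularForm 𝒮ℒ k) :
    Tendsto (f : ℍ → ℂ) atImInfty (𝓝 ((qExpansion 1 f).coeff 0)) := by
  have hper := SlashInvariantFormClass.periodic_comp_ofComplex f one_mem_strictPeriods_SL
  have h1 := tendsto_atImInfty_cuspFunction one_pos hper f.holo' (levelOne_isBoundedAtImInfty f)
  have han := analyticAt_cuspFunction_zero one_pos hper f.holo' (levelOne_isBoundedAtImInfty f)
  rwa [qExpansion_coeff_zero one_pos han hper, ← cuspFunction_apply_zero one_pos han hper]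

lemma tendsto_E₄ : Tendsto (E₄ : ℍ → ℂ) atImInfty (𝓝 1) := by
  simpa [E_qExpansion_coeff_zero (by norm_num : 3 ≤ 4) ⟨2, rfl⟩] using levelOne_tendsto_atImInfty E₄

lemma tendsto_E₆ : Tendsto (E₆ : ℍ → ℂ) atImInfty (𝓝 1) := by
  simpa [E_qExpansion_coeff_zero (by norm_num : 3 ≤ 6) ⟨3, rfl⟩] using levelOne_tendsto_atImInfty E₆

lemma E2_periodic : Function.Periodic (E2 ∘ ofComplex) 1 := by
  intro w
  simp only [Function.comp_apply]
  by_cases hw : 0 < w.im
  · have hw' : 0 < (w + 1).im := by simpa using hw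
    rw [ofComplex_apply_of_im_pos hw, ofComplex_apply_of_im_pos hw']
    have h1 := (hasSum_qExpansion_E2 (z := ⟨w + 1, hw'⟩)).tsum_eq
    have h2 := (hasSum_qExpansion_E2 (z := ⟨w, hw⟩)).tsum_eq
    rw [← h1, ← h2]
    congr 1
    funext m
    congr 2
    rw [mul_add, Complex.exp_add]
    simp
  · have hw' : ¬ 0 < (w + 1).im := by simpa using hw
    rw [ofComplex_apply_of_im_nonpos (not_lt.mp hw), ofComplex_apply_of_im_nonpos (not_lt.mp hw')]

lemma tendsto_E2 : Tendsto E2 atImInfty (𝓝 1) := by
  have h1 := tendsto_atImInfty_cuspFunction one_pos E2_periodic E2_mdifferentiable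
    isBoundedAtImInfty_E2
  have han := analyticAt_cuspFunction_zero one_pos E2_periodic E2_mdifferentiable
    isBoundedAtImInfty_E2
  have hps := hasFPowerSeriesOnBall_cuspFunction (f := E2)
    (c := fun m : ℕ ↦ (if m = 0 then 1 else -24 * ArithmeticFunction.sigma 1 m : ℂ)) one_pos han
    (fun τ ↦ by
      simpa only [Function.Periodic.qParam, Complex.ofReal_one, div_one] using
        hasSum_qExpansion_E2 (z := τ))
  have h0 := hps.coeff_zero 1
  simp [FormalMultilinearSeries.ofScalars] at h0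
  rwa [← h0] at h1

lemma tendsto_serreDerivativeForm {k : ℤ} (f : ModularForm 𝒮ℒ k) {a : ℂ}
    (hf : Tendsto (f : ℍ → ℂ) atImInfty (𝓝 a)) :
    Tendsto (serreDerivativeForm f : ℍ → ℂ) atImInfty (𝓝 (-((k : ℂ) * 12⁻¹ * a))) := by
  have h1 : Tendsto (D (f : ℍ → ℂ)) atImInfty (𝓝 0) :=
    isZeroAtImInfty_normalizedDeriv f.holo' (levelOne_isBoundedAtImInfty f)
  have h2 : Tendsto (fun z ↦ (k : ℂ) * 12⁻¹ * E2 z * f z) atImInfty
      (𝓝 ((k : ℂ) * 12⁻¹ * 1 * a)) :=
    (tendsto_E2.const_mul _).mul hf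
  have h3 := h1.sub h2
  simp only [mul_one, zero_sub] at h3
  exact h3

/-- If two level-one forms of the same weight are proportional and we know their limits
at `i∞`, we can read off the constant. -/
lemma eq_smul_of_rank_one {k : ℤ} (hrank : Module.rank ℂ (ModularForm 𝒮ℒ k) = 1)
    (g f : ModularForm 𝒮ℒ k) {a b : ℂ} (hb : b ≠ 0)
    (hg : Tendsto (g : ℍ → ℂ) atImInfty (𝓝 a)) (hf : Tendsto (f : ℍ → ℂ) atImInfty (𝓝 b)) :
    ∀ z, g z = a / b * f z := by
  have hf0 : f ≠ 0 := by
    rintro rfl
    have : Tendsto (fun _ : ℍ ↦ (0 : ℂ)) atImInfty (𝓝 b) := hf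
    exact hb (tendsto_nhds_unique this tendsto_const_nhds)
  obtain ⟨c, hc⟩ := (finrank_eq_one_iff_of_nonzero' f hf0).mp
    (Module.rank_eq_one_iff_finrank_eq_one.mp hrank) g
  have hcz : ∀ z, g z = c * f z := fun z ↦ by rw [← hc]; rfl
  have hlim : Tendsto (g : ℍ → ℂ) atImInfty (𝓝 (c * b)) := by
    have := hf.const_mul c
    refine this.congr fun z ↦ (hcz z).symm
  have hab : a = c * b := tendsto_nhds_unique hg hlim
  intro z
  rw [hcz z, hab]
  field_simp

lemma levelOne_weight_eight_rank_one : Module.rank ℂ (ModularForm 𝒮ℒ 8) = 1 := by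
  have := dimension_level_one 8 ⟨4, rfl⟩
  simpa [Nat.ModEq] using this

/-- Ramanujan's identity for `E₄`: `D E₄ = (E₂ E₄ - E₆) / 3`. -/
theorem ramanujan_E₄ (z : ℍ) : D (E₄ : ℍ → ℂ) z = 3⁻¹ * (E2 z * E₄ z - E₆ z) := by
  have h := eq_smul_of_rank_one levelOne_weight_six_rank_one
    (mcast (by norm_num) (serreDerivativeForm E₄)) E₆ one_ne_zero
    (by simpa using tendsto_serreDerivativeForm E₄ tendsto_E₄) tendsto_E₆ z
  simp only [coe_mcast, serreDerivativeForm_apply] at h
  push_cast at h
  linear_combination h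

/-- Ramanujan's identity for `E₆`: `D E₆ = (E₂ E₆ - E₄²) / 2`. -/
theorem ramanujan_E₆ (z : ℍ) : D (E₆ : ℍ → ℂ) z = 2⁻¹ * (E2 z * E₆ z - E₄ z ^ 2) := by
  have hE4sq : Tendsto ((E₄.mul E₄ : ModularForm 𝒮ℒ (4 + 4)) : ℍ → ℂ) atImInfty (𝓝 (1 * 1)) :=
    tendsto_E₄.mul tendsto_E₄
  have h := eq_smul_of_rank_one levelOne_weight_eight_rank_one
    (mcast (by norm_num) (serreDerivativeForm E₆)) (mcast (by norm_num) (E₄.mul E₄))
    (b := 1) one_ne_zero
    (by simpa using tendsto_serreDerivativeForm E₆ tendsto_E₆) (by simpa using hE4sq) z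
  simp only [coe_mcast, serreDerivativeForm_apply, ModularForm.coe_mul, Pi.mul_apply] at h
  push_cast at h
  linear_combination h

/-- Ramanujan's identity for `Δ`: `D Δ = E₂ Δ`. -/
theorem ramanujan_discriminant (z : ℍ) :
    D ModularForm.discriminant z = E2 z * ModularForm.discriminant z := by
  have hη : DifferentiableAt ℂ ModularForm.eta (z : ℂ) :=
    ModularForm.differentiableAt_eta_of_mem_upperHalfPlaneSet z.2
  have hη0 : ModularForm.eta (z : ℂ) ≠ 0 := by
    have := ModularForm.discriminant_ne_zero z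
    intro h
    exact this (by simp [ModularForm.discriminant, h])
  have hlog := ModularForm.logDeriv_eta_eq_E2 z
  rw [logDeriv_apply, div_eq_iff hη0] at hlog
  have hev : (ModularForm.discriminant ∘ ofComplex) =ᶠ[𝓝 (z : ℂ)]
      fun w ↦ ModularForm.eta w ^ 24 := by
    filter_upwards [isOpen_upperHalfPlaneSet.mem_nhds z.im_pos] with w hw
    simp [ModularForm.discriminant, ofComplex_apply_of_im_pos hw]
  have hd : HasDerivAt (fun w ↦ ModularForm.eta w ^ 24)
      (24 * ModularForm.eta (z : ℂ) ^ 23 * deriv ModularForm.eta (z : ℂ)) (z : ℂ) := by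
    have := hη.hasDerivAt.fun_pow 24
    simpa using this
  have hderiv := (hd.congr_of_eventuallyEq hev).deriv
  simp only [normalizedDerivOfComplex, hderiv, hlog, ModularForm.discriminant]
  have hpi : (2 * (Real.pi : ℂ) * Complex.I) ≠ 0 := by
    simp [Real.pi_ne_zero]
  field_simp
  ring

local notation "Δ" => ModularForm.discriminant

lemma mdiff_discriminant : MDiff (Δ : ℍ → ℂ) := CuspForm.discriminant.holo'

lemma mdiff_E₄ : MDiff (E₄ : ℍ → ℂ) := ModularFormClass.holo E₄

lemma mdiff_E₆ : MDiff (E₆ : ℍ → ℂ) := ModularFormClass.holo E₆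

lemma E₄_cube_sub_E₆_sq (z : ℍ) : E₄ z ^ 3 - E₆ z ^ 2 = 1728 * Δ z := by
  rw [discriminant_eq_E₄_cube_sub_E₆_sq z]; ring

lemma E₆_ne_zero_of_E₄_eq_zero {z : ℍ} (h : E₄ z = 0) : E₆ z ≠ 0 := by
  intro h6
  have := E₄_cube_sub_E₆_sq z
  rw [h, h6] at this
  have hΔ := discriminant_ne_zero z
  apply hΔ
  have : (1728 : ℂ) * Δ z = 0 := by rw [← this]; ring
  simpa using this

lemma E₄_ne_zero_of_E₆_eq_zero {z : ℍ} (h : E₆ z = 0) : E₄ z ≠ 0 := by
  intro h4
  exact E₆_ne_zero_of_E₄_eq_zero h4 h

/-- Zeros of `E₄` are simple. -/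
theorem D_E₄_ne_zero {z : ℍ} (h : E₄ z = 0) : D (E₄ : ℍ → ℂ) z ≠ 0 := by
  rw [ramanujan_E₄, h]
  have := E₆_ne_zero_of_E₄_eq_zero h
  simpa using this

/-- Zeros of `E₆` are simple. -/
theorem D_E₆_ne_zero {z : ℍ} (h : E₆ z = 0) : D (E₆ : ℍ → ℂ) z ≠ 0 := by
  rw [ramanujan_E₆, h]
  have := E₄_ne_zero_of_E₆_eq_zero h
  simpa using this

/-- The numerator `E₄(z)³ Δ(z₀) − E₄(z₀)³ Δ(z)` of `j(z) − j(z₀)`, a level one form of
weight 12 in `z`. -/
def jDiff (z₀ : ℍ) : ℍ → ℂ := fun z ↦ E₄ z ^ 3 * Δ z₀ - E₄ z₀ ^ 3 * Δ z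

lemma jDiff_self (z₀ : ℍ) : jDiff z₀ z₀ = 0 := by simp [jDiff]

lemma jDiff_eq (z₀ : ℍ) :
    jDiff z₀ = (Δ z₀) • ((E₄ : ℍ → ℂ) ^ 3) - (E₄ z₀ ^ 3) • (Δ : ℍ → ℂ) := by
  funext z
  simp [jDiff, mul_comm]

lemma mdiff_jDiff (z₀ : ℍ) : MDiff (jDiff z₀) := by
  rw [jDiff_eq]
  exact ((mdiff_E₄.pow 3).const_smul _).sub (mdiff_discriminant.const_smul _)

theorem D_jDiff (z₀ z : ℍ) :
    D (jDiff z₀) z = E2 z * jDiff z₀ z - E₄ z ^ 2 * E₆ z * Δ z₀ := by
  have h1 : MDiff ((E₄ : ℍ → ℂ) ^ 3) := mdiff_E₄.pow 3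
  rw [jDiff_eq, normalizedDerivOfComplex_sub _ _ (h1.const_smul _)
    (mdiff_discriminant.const_smul _), normalizedDerivOfComplex_smul _ _ h1,
    normalizedDerivOfComplex_smul _ _ mdiff_discriminant,
    normalizedDerivOfComplex_pow _ _ mdiff_E₄]
  simp only [Pi.sub_apply, Pi.smul_apply, Pi.mul_apply, Pi.pow_apply, smul_eq_mul,
    ramanujan_E₄, ramanujan_discriminant, Nat.cast_ofNat, Pi.ofNat_apply]
  ring

/-- Zeros of `jDiff z₀` at points where `E₄ E₆ ≠ 0` are simple. -/
theorem D_jDiff_ne_zero {z₀ z : ℍ} (h : jDiff z₀ z = 0) (h4 : E₄ z ≠ 0) (h6 : E₆ z ≠ 0) :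
    D (jDiff z₀) z ≠ 0 := by
  rw [D_jDiff, h, mul_zero, zero_sub, neg_ne_zero]
  exact mul_ne_zero (mul_ne_zero (pow_ne_zero _ h4) h6) (discriminant_ne_zero z₀)

/-- The `j`-invariant `E₄³ / Δ` (normalised so that `j = 1/q + ...`). -/
def jFun (z : ℍ) : ℂ := E₄ z ^ 3 / Δ z

lemma jFun_eq_iff (z z' : ℍ) : jFun z = jFun z' ↔ jDiff z' z = 0 := by
  rw [jFun, jFun, div_eq_div_iff (discriminant_ne_zero z) (discriminant_ne_zero z'), jDiff,
    sub_eq_zero]

lemma jFun_eq_zero_iff (z : ℍ) : jFun z = 0 ↔ E₄ z = 0 := by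
  simp [jFun, discriminant_ne_zero z]

lemma jFun_eq_1728_iff (z : ℍ) : jFun z = 1728 ↔ E₆ z = 0 := by
  rw [jFun, div_eq_iff (discriminant_ne_zero z)]
  have := E₄_cube_sub_E₆_sq z
  constructor
  · intro h
    have : E₆ z ^ 2 = 0 := by linear_combination h - this
    simpa using this
  · intro h
    rw [h] at this
    linear_combination this

lemma mdiff_jFun : MDiff jFun :=
  (mdiff_E₄.pow 3).div mdiff_discriminant discriminant_ne_zero

theorem D_jFun (z : ℍ) : D jFun z = - (E₄ z ^ 2 * E₆ z / Δ z) := by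
  -- `jFun * Δ = E₄ ^ 3`
  have hmul : jFun * (Δ : ℍ → ℂ) = (E₄ : ℍ → ℂ) ^ 3 := by
    funext w
    simp [jFun, div_mul_cancel₀ _ (discriminant_ne_zero w)]
  have h := congrFun (congrArg D hmul) z
  rw [normalizedDerivOfComplex_mul _ _ mdiff_jFun mdiff_discriminant,
    normalizedDerivOfComplex_pow _ _ mdiff_E₄] at h
  simp only [Pi.add_apply, Pi.mul_apply, Pi.pow_apply, ramanujan_E₄, ramanujan_discriminant,
    Nat.cast_ofNat, Pi.ofNat_apply] at h
  have hΔ := discriminant_ne_zero z
  have hj : jFun z = E₄ z ^ 3 / Δ z := rfl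
  rw [hj] at h
  field_simp at h ⊢
  linear_combination h

theorem D_jFun_ne_zero {z : ℍ} (h4 : E₄ z ≠ 0) (h6 : E₆ z ≠ 0) : D jFun z ≠ 0 := by
  rw [D_jFun, neg_ne_zero]
  exact div_ne_zero (mul_ne_zero (pow_ne_zero _ h4) h6) (discriminant_ne_zero z)

end Fermat.Agent.S20.L1

end
end
-- ===== PACK-END S20/L1/Ramanujan.lean

-- ===== PACK-BEGIN S24/Inf/Twist.lean
section



/-!
# S24 / MOD-INF — formal operations on Laurent series

* `infTwist u` : the ring endomorphism `∑ aₙ zⁿ ↦ ∑ aₙ uⁿ zⁿ` of `LaurentSeries R` (`u` a unit);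
* order / leading coefficient of `infTwist u φ` and of `ModularCurve.qExpand R e φ`.
-/

set_option autoImplicit false

noncomputable section

open HahnSeries ModularCurve

namespace Fermat.Agent.S24

section General

variable {R : Type*} [CommRing R]

/-- A Hahn series over `ℤ` whose coefficients below `n` vanish and whose `n`-th coefficient is
nonzero has order `n`. -/
theorem inf_order_eq_of_coeff {x : LaurentSeries R} {n : ℤ} (hn : x.coeff n ≠ 0)
    (hlt : ∀ m < n, x.coeff m = 0) : x.order = n := by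
  apply le_antisymm (order_le_of_coeff_ne_zero hn)
  by_contra h
  rw [not_le] at h
  have hx : x ≠ 0 := ne_zero_of_coeff_ne_zero hn
  exact (coeff_order_eq_zero.not.mpr hx) (hlt _ h)

theorem inf_leadingCoeff_eq_of_coeff {x : LaurentSeries R} {n : ℤ} (hn : x.coeff n ≠ 0)
    (hlt : ∀ m < n, x.coeff m = 0) : x.leadingCoeff = x.coeff n := by
  rw [leadingCoeff_eq, inf_order_eq_of_coeff hn hlt]

/-- The underlying function of the twist. -/
def infTwistFun (u : Rˣ) (x : LaurentSeries R) : LaurentSeries R where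
  coeff n := x.coeff n * ((u ^ n : Rˣ) : R)
  isPWO_support' := x.isPWO_support.mono (fun n hn => by
    simp only [Function.mem_support, ne_eq] at hn
    rw [mem_support]
    intro h
    exact hn (by rw [h, zero_mul]))

@[simp]
theorem infTwistFun_coeff (u : Rˣ) (x : LaurentSeries R) (n : ℤ) :
    (infTwistFun u x).coeff n = x.coeff n * ((u ^ n : Rˣ) : R) := rfl

theorem infTwistFun_support (u : Rˣ) (x : LaurentSeries R) :
    (infTwistFun u x).support = x.support := by
  ext n
  simp only [mem_support, infTwistFun_coeff, ne_eq]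
  constructor
  · intro h h0
    exact h (by rw [h0, zero_mul])
  · intro h h0
    exact h ((Units.mul_left_eq_zero _).mp h0)

/-- The twist `∑ aₙ zⁿ ↦ ∑ aₙ uⁿ zⁿ` as a ring homomorphism. -/
def infTwist (u : Rˣ) : LaurentSeries R →+* LaurentSeries R where
  toFun := infTwistFun u
  map_zero' := by
    ext n
    simp
  map_one' := by
    ext n
    simp only [infTwistFun_coeff, coeff_one]
    split_ifs with h
    · subst h
      simp
    · simp
  map_add' x y := by
    ext n
    simp [add_mul]
  map_mul' x y := by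
    ext n
    simp only [infTwistFun_coeff, coeff_mul]
    rw [Finset.sum_mul]
    refine Finset.sum_congr ?_ ?_
    · ext ij
      simp only [Finset.mem_antidiagonal, infTwistFun_support]
    · intro ij hij
      have h : ij.1 + ij.2 = n := (Finset.mem_antidiagonal.mp hij).2.2
      rw [← h, zpow_add, Units.val_mul]
      ring

@[simp]
theorem infTwist_coeff (u : Rˣ) (x : LaurentSeries R) (n : ℤ) :
    (infTwist u x).coeff n = x.coeff n * ((u ^ n : Rˣ) : R) := rfl

theorem infTwist_support (u : Rˣ) (x : LaurentSeries R) :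
    (infTwist u x).support = x.support := infTwistFun_support u x

theorem infTwist_eq_zero_iff (u : Rˣ) (x : LaurentSeries R) : infTwist u x = 0 ↔ x = 0 := by
  rw [← support_eq_empty_iff, infTwist_support, support_eq_empty_iff]

theorem infTwist_injective (u : Rˣ) : Function.Injective (infTwist (R := R) u) :=
  (injective_iff_map_eq_zero _).mpr fun x hx => (infTwist_eq_zero_iff u x).mp hx

@[simp]
theorem infTwist_one (x : LaurentSeries R) : infTwist (1 : Rˣ) x = x := by
  ext n
  simp

theorem infTwist_mul (u v : Rˣ) (x : LaurentSeries R) :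
    infTwist (u * v) x = infTwist u (infTwist v x) := by
  ext n
  simp only [infTwist_coeff, mul_zpow, Units.val_mul]
  ring

@[simp]
theorem infTwist_single (u : Rˣ) (k : ℤ) (r : R) :
    infTwist u (single k r) = single k (r * ((u ^ k : Rˣ) : R)) := by
  ext n
  rcases eq_or_ne n k with rfl | hn
  · simp
  · simp [coeff_single_of_ne hn]

@[simp]
theorem infTwist_C (u : Rˣ) (r : R) : infTwist u (HahnSeries.C r) = HahnSeries.C r := by
  rw [C_apply, infTwist_single]
  simp

theorem infTwist_order (u : Rˣ) (x : LaurentSeries R) : (infTwist u x).order = x.order := by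
  rcases eq_or_ne x 0 with rfl | hx
  · simp
  · refine inf_order_eq_of_coeff ?_ ?_
    · rw [infTwist_coeff]
      intro h
      exact (coeff_order_eq_zero.not.mpr hx) ((Units.mul_left_eq_zero _).mp h)
    · intro m hm
      rw [infTwist_coeff, coeff_eq_zero_of_lt_order hm, zero_mul]

theorem infTwist_leadingCoeff (u : Rˣ) (x : LaurentSeries R) :
    (infTwist u x).leadingCoeff = x.leadingCoeff * ((u ^ x.order : Rˣ) : R) := by
  rw [leadingCoeff_eq, leadingCoeff_eq, infTwist_order, infTwist_coeff]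

end General

section QExpand

variable {R : Type*} [CommRing R] (e : ℕ) [NeZero e]

theorem inf_qExpand_eq_zero_iff (x : LaurentSeries R) : qExpand R e x = 0 ↔ x = 0 :=
  ⟨fun h => qExpand_injective e (by rw [h, map_zero]), fun h => by rw [h, map_zero]⟩

theorem inf_qExpand_order (x : LaurentSeries R) :
    (qExpand R e x).order = (e : ℤ) * x.order := by
  rcases eq_or_ne x 0 with rfl | hx
  · simp
  · have he : (0 : ℤ) < e := by exact_mod_cast Nat.pos_of_ne_zero (NeZero.ne e)
    refine inf_order_eq_of_coeff ?_ ?_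
    · rw [qExpand_coeff_mul]
      exact coeff_order_eq_zero.not.mpr hx
    · intro m hm
      by_cases hdvd : (e : ℤ) ∣ m
      · obtain ⟨k, rfl⟩ := hdvd
        rw [qExpand_coeff_mul]
        exact coeff_eq_zero_of_lt_order (lt_of_mul_lt_mul_left hm he.le)
      · exact qExpand_coeff_of_not_dvd e x hdvd

theorem inf_qExpand_leadingCoeff (x : LaurentSeries R) :
    (qExpand R e x).leadingCoeff = x.leadingCoeff := by
  rw [leadingCoeff_eq, leadingCoeff_eq, inf_qExpand_order, qExpand_coeff_mul]

end QExpand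

section CoeffMap

variable {R S : Type*} [CommRing R] [CommRing S]

theorem inf_coeffMap_injective {f : R →+* S} (hf : Function.Injective f) :
    Function.Injective (coeffMap f) := by
  intro x y h
  ext n
  apply hf
  have := congrArg (fun z => z.coeff n) h
  simpa using this

theorem inf_coeffMap_order {f : R →+* S} (hf : Function.Injective f) (x : LaurentSeries R) :
    (coeffMap f x).order = x.order := by
  rcases eq_or_ne x 0 with rfl | hx
  · simp
  · refine inf_order_eq_of_coeff ?_ ?_
    · rw [coeffMap_coeff]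
      intro h
      exact (coeff_order_eq_zero.not.mpr hx) (hf (by rw [h, map_zero]))
    · intro m hm
      rw [coeffMap_coeff, coeff_eq_zero_of_lt_order hm, map_zero]

theorem inf_coeffMap_leadingCoeff {f : R →+* S} (hf : Function.Injective f)
    (x : LaurentSeries R) : (coeffMap f x).leadingCoeff = f x.leadingCoeff := by
  rw [leadingCoeff_eq, leadingCoeff_eq, inf_coeffMap_order hf, coeffMap_coeff]

end CoeffMap

end Fermat.Agent.S24

end
end
-- ===== PACK-END S24/Inf/Twist.lean

-- ===== PACK-BEGIN S28/H807/IntLemma.lean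
section
/-
S28 / helper807 — formal integrality: a complex polynomial in `j` whose `q`-expansion has
integer coefficients is an integer polynomial in `j`.
-/




set_option autoImplicit false
set_option maxHeartbeats 400000

noncomputable section

open ModularCurve

namespace Fermat.Agent.S28.H807

variable (A : Type*) [CommRing A]

theorem jqModC_pow_eq (k : ℕ) :
    jqModC A ^ k = HahnSeries.single (-(k : ℤ)) (1 : A) *
      HahnSeries.ofPowerSeries ℤ A ((jNum.map (Int.castRingHom A)) ^ k) := by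
  have h : k • (-1 : ℤ) = -(k : ℤ) := by simp
  rw [jqModC, mul_pow, HahnSeries.single_pow, one_pow, h, ← map_pow]

theorem jqModC_pow_coeff_of_lt (k : ℕ) {m : ℤ} (h : m < -(k : ℤ)) :
    (jqModC A ^ k).coeff m = 0 := by
  rw [jqModC_pow_eq, HahnSeries.coeff_single_mul, one_mul]
  exact ofPowerSeries_coeff_of_neg _ (by linarith)

theorem jqModC_pow_coeff_self (k : ℕ) : (jqModC A ^ k).coeff (-(k : ℤ)) = 1 := by
  rw [jqModC_pow_eq, HahnSeries.coeff_single_mul, one_mul, sub_self]
  have h0 : ((0 : ℕ) : ℤ) = 0 := rfl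
  rw [← h0, HahnSeries.ofPowerSeries_apply_coeff, PowerSeries.coeff_zero_eq_constantCoeff,
    map_pow]
  have : PowerSeries.constantCoeff (jNum.map (Int.castRingHom A)) = 1 := by
    rw [← PowerSeries.coeff_zero_eq_constantCoeff, PowerSeries.coeff_map,
      PowerSeries.coeff_zero_eq_constantCoeff, constantCoeff_jNum]
    simp
  rw [this, one_pow]

/-- Evaluation of a polynomial at `j`, as `eval₂` along the constant embedding. -/
def evalJ (P : Polynomial A) : LaurentSeries A := P.eval₂ HahnSeries.C (jqModC A)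

theorem evalJ_coeff_neg_natDegree (P : Polynomial A) (n : ℕ) (hn : P.natDegree ≤ n) :
    (evalJ A P).coeff (-(n : ℤ)) = P.coeff n := by
  unfold evalJ
  rw [Polynomial.eval₂_eq_sum_range' (HahnSeries.C : A →+* LaurentSeries A)
    (Nat.lt_succ_of_le hn) (jqModC A), HahnSeries.coeff_sum]
  rw [Finset.sum_eq_single n]
  · rw [show (HahnSeries.C : A →+* LaurentSeries A) (P.coeff n)
        = HahnSeries.single (0 : ℤ) (P.coeff n) from rfl,
      HahnSeries.coeff_single_mul, sub_zero, jqModC_pow_coeff_self, mul_one]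
  · intro i hi hne
    have hi' : i < n := by
      have := Finset.mem_range.mp hi
      omega
    have h0 : (jqModC A ^ i).coeff (-(n : ℤ)) = 0 :=
      jqModC_pow_coeff_of_lt A i (by omega)
    rw [show (HahnSeries.C : A →+* LaurentSeries A) (P.coeff i)
        = HahnSeries.single (0 : ℤ) (P.coeff i) from rfl,
      HahnSeries.coeff_single_mul, sub_zero, h0, mul_zero]
  · intro h
    exact absurd (Finset.mem_range.mpr (Nat.lt_succ_self n)) h

theorem coeffMap_jqModC_int : coeffMap (Int.castRingHom A) (jqModC ℤ) = jqModC A :=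
  (jqModC_eq_map_intCast A).symm

theorem coeffMap_intCast_injective [CharZero A] :
    Function.Injective (coeffMap (Int.castRingHom A)) := by
  intro x y h
  ext n
  have := congrArg (fun z => z.coeff n) h
  simp only [coeffMap_coeff, eq_intCast] at this
  exact Int.cast_injective this

/-- Integer-polynomial evaluation at `j ∈ ℤ((q))`. -/
def evalJZ (Q : Polynomial ℤ) : LaurentSeries ℤ := Q.eval₂ (Int.castRingHom _) (jqModC ℤ)

/-- **Integrality lemma.** -/
theorem exists_int_poly_of_evalJ_eq :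
    ∀ (P : Polynomial ℂ) (c : LaurentSeries ℤ),
      evalJ ℂ P = coeffMap (Int.castRingHom ℂ) c → ∃ Q : Polynomial ℤ, evalJZ Q = c := by
  intro P
  induction' hcard : P.support.card using Nat.strong_induction_on with d ih generalizing P
  intro c h
  by_cases hP : P = 0
  · subst hP
    refine ⟨0, ?_⟩
    have h0 : coeffMap (Int.castRingHom ℂ) c = 0 := by
      rw [← h]; simp [evalJ]
    have : c = 0 := coeffMap_intCast_injective ℂ (by rw [h0, map_zero])
    rw [this]; simp [evalJZ]
  · set n := P.natDegree with hn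
    have hlead : (c.coeff (-(n : ℤ)) : ℂ) = P.coeff n := by
      have := evalJ_coeff_neg_natDegree ℂ P n le_rfl
      rw [h, coeffMap_coeff] at this
      simpa using this
    set z : ℤ := c.coeff (-(n : ℤ)) with hz
    set c' : LaurentSeries ℤ := c - (z : LaurentSeries ℤ) * jqModC ℤ ^ n with hc'
    have hP' : evalJ ℂ P.eraseLead = coeffMap (Int.castRingHom ℂ) c' := by
      have h1 : P = P.eraseLead + Polynomial.monomial n (P.coeff n) := by
        rw [hn]
        exact (Polynomial.eraseLead_add_monomial_natDegree_leadingCoeff P).symm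
      have h2 : evalJ ℂ P = evalJ ℂ P.eraseLead + HahnSeries.C (P.coeff n) * jqModC ℂ ^ n := by
        conv_lhs => rw [h1]
        simp [evalJ, Polynomial.eval₂_add, Polynomial.eval₂_monomial]
      rw [hc', map_sub, map_mul, map_pow, coeffMap_jqModC_int, ← h, h2, map_intCast]
      have h3 : HahnSeries.C (P.coeff n) = ((z : ℤ) : LaurentSeries ℂ) := by
        rw [← hlead]
        simp
      rw [h3]; ring
    have hlt : P.eraseLead.support.card < d := by
      rw [← hcard]
      exact Polynomial.eraseLead_support_card_lt hP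
    obtain ⟨Q', hQ'⟩ := ih _ hlt P.eraseLead rfl c' hP'
    refine ⟨Q' + Polynomial.C z * Polynomial.X ^ n, ?_⟩
    unfold evalJZ at *
    rw [Polynomial.eval₂_add, Polynomial.eval₂_mul, Polynomial.eval₂_C, Polynomial.eval₂_pow,
      Polynomial.eval₂_X, hQ', hc']
    simp

end Fermat.Agent.S28.H807

end

end
-- ===== PACK-END S28/H807/IntLemma.lean

-- ===== PACK-BEGIN S28/H565/TExp.lean
section



/-!
# S28 analytic bridge, part 1: convergent `t`-expansions (helper565)

`HasTExp h f φ` says that the function `f : ℍ → ℂ` is given, at every point of the upper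
half plane, by the (absolutely) convergent Laurent expansion `φ` in the local parameter
`t = exp (2 π i τ / h)`.  We prove that this relation is compatible with the ring operations,
that `φ` is determined by `f`, and that it is compatible with `qExpand`.
-/

set_option autoImplicit false

noncomputable section

open UpperHalfPlane Complex Function
open scoped Real

namespace Fermat.Agent.S28.H565

local notation "𝕢" => Periodic.qParam

/-- `f` is given on all of `ℍ` by the convergent power series `P` in `t = exp (2πiτ/h)`. -/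
def HasPExp (h : ℝ) (f : ℍ → ℂ) (P : PowerSeries ℂ) : Prop :=
  ∀ τ : ℍ, HasSum (fun n : ℕ => PowerSeries.coeff n P * 𝕢 h τ ^ n) (f τ)

/-- `f` is given on all of `ℍ` by the convergent Laurent series `φ` in `t = exp (2πiτ/h)`. -/
def HasTExp (h : ℝ) (f : ℍ → ℂ) (φ : LaurentSeries ℂ) : Prop :=
  ∀ τ : ℍ, HasSum (fun n : ℤ => φ.coeff n * 𝕢 h τ ^ n) (f τ)

section PExp

variable {h : ℝ} {f g : ℍ → ℂ} {P Q : PowerSeries ℂ}

theorem HasPExp.congr (hf : HasPExp h f P) (hfg : ∀ τ, f τ = g τ) : HasPExp h g P :=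
  fun τ => hfg τ ▸ hf τ

theorem HasPExp.add (hf : HasPExp h f P) (hg : HasPExp h g Q) : HasPExp h (f + g) (P + Q) := by
  intro τ
  have := (hf τ).add (hg τ)
  simpa [add_mul] using this

theorem HasPExp.zero : HasPExp h 0 0 := by
  intro τ
  simp [hasSum_zero]

theorem HasPExp.const (c : ℂ) : HasPExp h (fun _ => c) (PowerSeries.C c) := by
  intro τ
  have := hasSum_ite_eq (0 : ℕ) c
  refine this.congr_fun ?_ |>.mono_left le_rfl
  intro n
  by_cases hn : n = 0
  · subst hn; simp
  · simp [PowerSeries.coeff_C, hn]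

theorem HasPExp.smul (c : ℂ) (hf : HasPExp h f P) : HasPExp h (c • f) (c • P) := by
  intro τ
  have := (hf τ).mul_left c
  simpa [mul_assoc] using this

theorem HasPExp.neg (hf : HasPExp h f P) : HasPExp h (-f) (-P) := by
  intro τ
  have := (hf τ).neg
  simpa using this

theorem HasPExp.sub (hf : HasPExp h f P) (hg : HasPExp h g Q) : HasPExp h (f - g) (P - Q) := by
  intro τ
  have := (hf τ).sub (hg τ)
  simpa [sub_mul] using this

theorem HasPExp.mul (hf : HasPExp h f P) (hg : HasPExp h g Q) : HasPExp h (f * g) (P * Q) := by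
  intro τ
  have h1 := hf τ
  have h2 := hg τ
  have n1 : Summable fun n : ℕ => ‖PowerSeries.coeff n P * 𝕢 h τ ^ n‖ := h1.summable.norm
  have n2 : Summable fun n : ℕ => ‖PowerSeries.coeff n Q * 𝕢 h τ ^ n‖ := h2.summable.norm
  have key := tsum_mul_tsum_eq_tsum_sum_antidiagonal_of_summable_norm n1 n2
  have hs := (summable_norm_sum_mul_antidiagonal_of_summable_norm n1 n2).of_norm
  rw [h1.tsum_eq, h2.tsum_eq] at key
  have hfun : (fun n : ℕ => PowerSeries.coeff n (P * Q) * 𝕢 h τ ^ n) =
      fun n => ∑ kl ∈ Finset.HasAntidiagonal.antidiagonal n,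
        (PowerSeries.coeff kl.1 P * 𝕢 h τ ^ kl.1) * (PowerSeries.coeff kl.2 Q * 𝕢 h τ ^ kl.2) := by
    funext n
    rw [PowerSeries.coeff_mul, Finset.sum_mul]
    refine Finset.sum_congr rfl fun kl hkl => ?_
    rw [Finset.HasAntidiagonal.mem_antidiagonal] at hkl
    rw [← hkl, pow_add]
    ring
  rw [hfun]
  simpa [Pi.mul_apply, key] using hs.hasSum

theorem HasPExp.X : HasPExp h (fun τ => 𝕢 h τ) PowerSeries.X := by
  intro τ
  have := hasSum_ite_eq (1 : ℕ) (𝕢 h τ)
  refine this.congr_fun ?_ |>.mono_left le_rfl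
  intro n
  by_cases hn : n = 1
  · subst hn; simp
  · simp [PowerSeries.coeff_X, hn]

theorem HasPExp.pow (hf : HasPExp h f P) (n : ℕ) : HasPExp h (f ^ n) (P ^ n) := by
  induction n with
  | zero =>
    have := HasPExp.const (h := h) 1
    rw [map_one] at this
    rw [pow_zero, pow_zero]
    exact this
  | succ n ih =>
    rw [pow_succ, pow_succ]
    exact ih.mul hf

theorem cuspFunction_zero_fun (h : ℝ) : cuspFunction h (0 : ℍ → ℂ) = 0 := by
  simpa [cuspFunction, Periodic.cuspFunction]
      using! (tendsto_const_nhds.mono_left nhdsWithin_le_nhds).limUnder_eq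

theorem coeff_eq_zero_of_hasSum_zero {h : ℝ} (hh : 0 < h) (c : ℕ → ℂ)
    (H : ∀ τ : ℍ, HasSum (fun n : ℕ => c n * 𝕢 h τ ^ n) 0) (m : ℕ) : c m = 0 := by
  have han : AnalyticAt ℂ (cuspFunction h (0 : ℍ → ℂ)) 0 := by
    rw [cuspFunction_zero_fun]; exact analyticAt_const
  have H' : ∀ τ : ℍ, HasSum (fun n : ℕ => c n • 𝕢 h τ ^ n) ((0 : ℍ → ℂ) τ) := fun τ => H τ
  have h1 := (hasFPowerSeriesOnBall_cuspFunction hh han H').hasFPowerSeriesAt
  rw [cuspFunction_zero_fun] at h1
  have h2 := h1.eq_zero
  have h3 := congrArg (fun p => FormalMultilinearSeries.coeff p m) h2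
  simp only [FormalMultilinearSeries.coeff_ofScalars] at h3
  rw [h3]
  rfl

theorem HasPExp.eq_zero (hh : 0 < h) (H : HasPExp h 0 P) : P = 0 := by
  ext m
  simpa using coeff_eq_zero_of_hasSum_zero hh (fun n => PowerSeries.coeff n P) (fun τ => H τ) m

theorem HasPExp.unique (hh : 0 < h) (hP : HasPExp h f P) (hQ : HasPExp h f Q) : P = Q := by
  have := (hP.sub hQ)
  rw [sub_self] at this
  exact sub_eq_zero.mp (this.eq_zero hh)

/-- A function with a convergent power series expansion is bounded at `i∞`. -/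
theorem HasPExp.isBoundedAtImInfty (hh : 0 < h) (hf : HasPExp h f P) :
    IsBoundedAtImInfty f :=
  UpperHalfPlane.isBoundedAtImInfty_of_hasSum_qExpansion (c := fun n => PowerSeries.coeff n P) hh
    (fun τ => by simpa using hf τ)

end PExp

section TExp

variable {h : ℝ} {f g : ℍ → ℂ} {φ ψ : LaurentSeries ℂ}

theorem HasTExp.congr (hf : HasTExp h f φ) (hfg : ∀ τ, f τ = g τ) : HasTExp h g φ :=
  fun τ => hfg τ ▸ hf τ

theorem HasTExp.add (hf : HasTExp h f φ) (hg : HasTExp h g ψ) : HasTExp h (f + g) (φ + ψ) := by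
  intro τ
  have := (hf τ).add (hg τ)
  simpa [add_mul] using this

theorem HasTExp.zero : HasTExp h 0 0 := by
  intro τ
  simp [hasSum_zero]

theorem HasTExp.neg (hf : HasTExp h f φ) : HasTExp h (-f) (-φ) := by
  intro τ
  have := (hf τ).neg
  simpa using this

theorem HasTExp.sub (hf : HasTExp h f φ) (hg : HasTExp h g ψ) : HasTExp h (f - g) (φ - ψ) := by
  intro τ
  have := (hf τ).sub (hg τ)
  simpa [sub_mul] using this

theorem HasTExp.smul (c : ℂ) (hf : HasTExp h f φ) : HasTExp h (c • f) (c • φ) := by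
  intro τ
  have := (hf τ).mul_left c
  simpa [mul_assoc] using this

/-- Key bridge between Laurent and power series expansions. -/
theorem hasTExp_single_mul_iff (m : ℤ) (P : PowerSeries ℂ) :
    HasTExp h f (HahnSeries.single m (1 : ℂ) * HahnSeries.ofPowerSeries ℤ ℂ P) ↔
      HasPExp h (fun τ => f τ * 𝕢 h τ ^ (-m)) P := by
  have key : ∀ τ : ℍ,
      HasSum (fun n : ℤ =>
        (HahnSeries.single m (1 : ℂ) * HahnSeries.ofPowerSeries ℤ ℂ P).coeff n * 𝕢 h τ ^ n) (f τ) ↔
      HasSum (fun n : ℕ => PowerSeries.coeff n P * 𝕢 h τ ^ n) (f τ * 𝕢 h τ ^ (-m)) := by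
    intro τ
    have hq : 𝕢 h τ ≠ 0 := Periodic.qParam_ne_zero _
    have hι : Function.Injective (fun k : ℕ => (k : ℤ) + m) := by
      intro a b hab
      simpa using hab
    have hzero : ∀ n ∉ Set.range (fun k : ℕ => (k : ℤ) + m),
        (HahnSeries.single m (1 : ℂ) * HahnSeries.ofPowerSeries ℤ ℂ P).coeff n * 𝕢 h τ ^ n = 0 := by
      intro n hn
      have hlt : n - m < 0 := by
        by_contra hge
        rw [not_lt] at hge
        exact hn ⟨(n - m).toNat, by simp [Int.toNat_of_nonneg hge]⟩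
      rw [HahnSeries.coeff_single_mul, ModularCurve.ofPowerSeries_coeff_of_neg _ hlt]
      simp
    rw [← hι.hasSum_iff hzero]
    have hfun : ((fun n : ℤ =>
        (HahnSeries.single m (1 : ℂ) * HahnSeries.ofPowerSeries ℤ ℂ P).coeff n * 𝕢 h τ ^ n) ∘
          fun k : ℕ => (k : ℤ) + m) =
        fun k : ℕ => (PowerSeries.coeff k P * 𝕢 h τ ^ k) * 𝕢 h τ ^ m := by
      funext k
      simp only [Function.comp_apply]
      rw [HahnSeries.coeff_single_mul_add, HahnSeries.ofPowerSeries_apply_coeff, one_mul,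
        zpow_add₀ hq, zpow_natCast, mul_assoc]
    rw [hfun]
    have hval : f τ = (f τ * 𝕢 h τ ^ (-m)) * 𝕢 h τ ^ m := by
      rw [mul_assoc, ← zpow_add₀ hq, neg_add_cancel, zpow_zero, mul_one]
    conv_lhs => rw [hval]
    exact hasSum_mul_right_iff (zpow_ne_zero m hq)
  exact ⟨fun H τ => (key τ).mp (H τ), fun H τ => (key τ).mpr (H τ)⟩

/-- Any Laurent expansion can be rewritten as a power series expansion. -/
theorem HasTExp.hasPExp (hf : HasTExp h f φ) :
    HasPExp h (fun τ => f τ * 𝕢 h τ ^ (-φ.order)) φ.powerSeriesPart := by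
  rw [← hasTExp_single_mul_iff, LaurentSeries.single_order_mul_powerSeriesPart]
  exact hf

theorem HasPExp.hasTExp {P : PowerSeries ℂ} (hf : HasPExp h f P) :
    HasTExp h f (HahnSeries.ofPowerSeries ℤ ℂ P) := by
  have := (hasTExp_single_mul_iff (h := h) (f := f) 0 P).mpr (by simpa using hf)
  simpa using this

theorem HasTExp.mul (hf : HasTExp h f φ) (hg : HasTExp h g ψ) : HasTExp h (f * g) (φ * ψ) := by
  have h1 := hf.hasPExp
  have h2 := hg.hasPExp
  have h3 := h1.mul h2
  have hφψ : φ * ψ = HahnSeries.single (φ.order + ψ.order) (1 : ℂ) *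
      HahnSeries.ofPowerSeries ℤ ℂ (φ.powerSeriesPart * ψ.powerSeriesPart) := by
    conv_lhs => rw [← LaurentSeries.single_order_mul_powerSeriesPart φ,
      ← LaurentSeries.single_order_mul_powerSeriesPart ψ]
    rw [map_mul, ← mul_one (1 : ℂ), ← HahnSeries.single_mul_single, mul_one]
    ring
  rw [hφψ, hasTExp_single_mul_iff]
  refine h3.congr fun τ => ?_
  have hq : 𝕢 h τ ≠ 0 := Periodic.qParam_ne_zero _
  simp only [Pi.mul_apply]
  rw [neg_add, zpow_add₀ hq]
  ring

theorem HasTExp.const (c : ℂ) : HasTExp h (fun _ => c) (HahnSeries.C c) := by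
  have := (HasPExp.const (h := h) c).hasTExp
  rwa [HahnSeries.ofPowerSeries_C] at this

theorem HasTExp.one : HasTExp h 1 1 := by
  have := HasTExp.const (h := h) 1
  rw [map_one] at this
  exact this

theorem HasTExp.pow (hf : HasTExp h f φ) (n : ℕ) : HasTExp h (f ^ n) (φ ^ n) := by
  induction n with
  | zero =>
    rw [pow_zero, pow_zero]
    exact HasTExp.one
  | succ n ih =>
    rw [pow_succ, pow_succ]
    exact ih.mul hf

theorem HasTExp.single (m : ℤ) : HasTExp h (fun τ => 𝕢 h τ ^ m) (HahnSeries.single m (1 : ℂ)) := by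
  have h1 : HasPExp h (fun τ => 𝕢 h τ ^ m * 𝕢 h τ ^ (-m)) 1 := by
    have := HasPExp.const (h := h) 1
    rw [map_one] at this
    refine this.congr fun τ => ?_
    have hq : 𝕢 h τ ≠ 0 := Periodic.qParam_ne_zero _
    rw [← zpow_add₀ hq, add_neg_cancel, zpow_zero]
  have := (hasTExp_single_mul_iff (h := h) (f := fun τ => 𝕢 h τ ^ m) m 1).mpr h1
  simpa using this

theorem HasTExp.eq_zero (hh : 0 < h) (H : HasTExp h 0 φ) : φ = 0 := by
  have h1 := H.hasPExp
  have h2 : HasPExp h 0 φ.powerSeriesPart := h1.congr fun τ => by simp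
  have h3 := h2.eq_zero hh
  rw [← LaurentSeries.single_order_mul_powerSeriesPart φ, h3]
  simp

theorem HasTExp.unique (hh : 0 < h) (hφ : HasTExp h f φ) (hψ : HasTExp h f ψ) : φ = ψ := by
  have := hφ.sub hψ
  rw [sub_self] at this
  exact sub_eq_zero.mp (this.eq_zero hh)

/-- If a function has an expansion, the function is determined by the expansion. -/
theorem HasTExp.fun_unique (hf : HasTExp h f φ) (hg : HasTExp h g φ) : f = g :=
  funext fun τ => (hf τ).unique (hg τ)

/-- Polynomial expressions: if `f` has expansion `φ` then `Q ∘ f` has expansion `Q(φ)`. -/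
theorem HasTExp.polynomial_aeval (hf : HasTExp h f φ) (Q : Polynomial ℂ) :
    HasTExp h (fun τ => Q.eval (f τ)) (Polynomial.aeval φ Q) := by
  induction Q using Polynomial.induction_on' with
  | add p q hp hq =>
    rw [map_add]
    exact (hp.add hq).congr fun τ => by simp
  | monomial n a =>
    rw [Polynomial.aeval_monomial]
    have h1 := (HasTExp.const (h := h) a).mul (hf.pow n)
    have h2 : algebraMap ℂ (LaurentSeries ℂ) a = HahnSeries.C a := by
      rw [ModularCurve.algebraMap_laurentSeries_eq_single]; rfl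
    rw [h2]
    exact h1.congr fun τ => by simp [Polynomial.eval_monomial]

theorem qParam_mul_pow (h : ℝ) (m : ℕ) (hm : m ≠ 0) (z : ℂ) (k : ℤ) :
    𝕢 (h * m) z ^ ((m : ℤ) * k) = 𝕢 h z ^ k := by
  have hm' : (m : ℂ) ≠ 0 := by exact_mod_cast hm
  simp only [Periodic.qParam]
  rw [← Complex.exp_int_mul, ← Complex.exp_int_mul]
  congr 1
  push_cast
  rcases eq_or_ne (h : ℂ) 0 with h0 | h0
  · simp [h0]
  · field_simp

/-- Change of parameter `t ↦ t^m`: an expansion in `exp (2πiτ/h)` gives one in
`exp (2πiτ/(hm))`. -/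
theorem HasTExp.qExpand (m : ℕ) [NeZero m] (hf : HasTExp h f φ) :
    HasTExp (h * m) f (ModularCurve.qExpand ℂ m φ) := by
  intro τ
  have hm : (m : ℤ) ≠ 0 := by exact_mod_cast NeZero.ne m
  have hι : Function.Injective (fun k : ℤ => (m : ℤ) * k) := mul_right_injective₀ hm
  have hzero : ∀ n ∉ Set.range (fun k : ℤ => (m : ℤ) * k),
      (ModularCurve.qExpand ℂ m φ).coeff n * 𝕢 (h * m) τ ^ n = 0 := by
    intro n hn
    rw [ModularCurve.qExpand_coeff_of_not_dvd, zero_mul]
    rintro ⟨c, rfl⟩
    exact hn ⟨c, rfl⟩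
  rw [← hι.hasSum_iff hzero]
  have hfun : ((fun n : ℤ => (ModularCurve.qExpand ℂ m φ).coeff n * 𝕢 (h * m) τ ^ n) ∘
      fun k : ℤ => (m : ℤ) * k) = fun k : ℤ => φ.coeff k * 𝕢 h τ ^ k := by
    funext k
    simp only [Function.comp_apply]
    rw [ModularCurve.qExpand_coeff_mul, qParam_mul_pow h m (NeZero.ne m)]
  rw [hfun]
  exact hf τ

theorem HasTExp.qExpand_one (m : ℕ) [NeZero m] (hf : HasTExp 1 f φ) :
    HasTExp m f (ModularCurve.qExpand ℂ m φ) := by
  have := hf.qExpand m
  rwa [one_mul] at this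

end TExp

end Fermat.Agent.S28.H565

end
end
-- ===== PACK-END S28/H565/TExp.lean

-- ===== PACK-BEGIN A2/H129/GaussTwice.lean
section


/-!
# A2 / K2 (abstract part): applying `τ - 1` twice makes a function `≡ 1` along every component

Pure valuation theory, Mathlib only.

`F` is a field (in the application: the function field `Q̄(X₀(N))`), `Kc` the subfield of
constants, `V` a valuation subring of `F` (a Gauss valuation = a component of the special fibre),
`τ` a ring automorphism of `F` (the action of an element of the inertia group through the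
coefficients).

* `InInertia V τ` : `τ` acts trivially on the residue field of `V`
  (`v (τ u - u) < 1` for all `u` with `v u ≤ 1`).
* `HasConstValues Kc V` : every nonzero `f` is a constant times a unit of `V`
  (the value group of `V` is the value group of the constants).
* `PreservesConstValues Kc V τ` : `τ c / c` is a unit of `V` for every nonzero constant `c`.

Main results (multiplicative notation: `tauSubOne τ f = τ f / f`):

* `oneAddNonunits_tauSubOne` : `u` unit of `V` ⟹ `τ u / u ∈ 1 + 𝔪_V`.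
* `exists_const_twice` : for every `f ≠ 0` there is a constant `c ≠ 0` with
  `(τ - 1)² f / c ∈ 1 + 𝔪_V`.
* `exists_const_twice_two` : the same for two valuation subrings `V∞`, `V₀`
  SIMULTANEOUSLY (one constant `c` for both).
* `exists_const_once_two` : `(τ - 1) f / c ∈ 1 + 𝔪_{V∞}` and `(τ - 1) f / (c c') ∈ 1 + 𝔪_{V₀}` with a
  constant `c'` which is a unit of `V₀`.
-/

set_option autoImplicit false

namespace Fermat.Agent.A2.H129

variable {F : Type*} [Field F]

/-- `u` is a unit of the valuation subring `V`. -/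
def IsUnitOf (V : ValuationSubring F) (u : F) : Prop := V.valuation u = 1

/-- `g ∈ 1 + 𝔪_V`. -/
def OneAddNonunits (V : ValuationSubring F) (g : F) : Prop := V.valuation (g - 1) < 1

/-- `τ` acts trivially on the residue field of `V` (and hence maps `V` to itself). -/
def InInertia (V : ValuationSubring F) (τ : F ≃+* F) : Prop :=
  ∀ u : F, V.valuation u ≤ 1 → V.valuation (τ u - u) < 1

/-- every nonzero element of `F` is a constant times a unit of `V`. -/
def HasConstValues (Kc : Subfield F) (V : ValuationSubring F) : Prop :=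
  ∀ f : F, f ≠ 0 → ∃ c ∈ Kc, c ≠ 0 ∧ IsUnitOf V (f * c⁻¹)

/-- `τ` preserves the valuation of the constants. -/
def PreservesConstValues (Kc : Subfield F) (V : ValuationSubring F) (τ : F ≃+* F) : Prop :=
  ∀ c ∈ Kc, c ≠ 0 → IsUnitOf V (τ c * c⁻¹)

/-- the multiplicative version of `τ - 1`. -/
def tauSubOne (τ : F ≃+* F) (f : F) : F := τ f * f⁻¹

section basic

variable {V : ValuationSubring F} {τ : F ≃+* F}

theorem IsUnitOf.ne_zero {u : F} (hu : IsUnitOf V u) : u ≠ 0 := by
  rintro rfl
  simp [IsUnitOf] at hu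

theorem IsUnitOf.mul {u w : F} (hu : IsUnitOf V u) (hw : IsUnitOf V w) : IsUnitOf V (u * w) := by
  simp only [IsUnitOf, map_mul] at *
  rw [hu, hw, one_mul]

theorem IsUnitOf.inv {u : F} (hu : IsUnitOf V u) : IsUnitOf V u⁻¹ := by
  simp only [IsUnitOf, map_inv₀] at *
  rw [hu, inv_one]

theorem OneAddNonunits.isUnitOf {g : F} (hg : OneAddNonunits V g) : IsUnitOf V g := by
  have h1 : V.valuation (1 : F) = 1 := map_one _
  have h : V.valuation (1 + (g - 1)) = V.valuation (1 : F) :=
    Valuation.map_add_eq_of_lt_left _ (by rw [h1]; exact hg)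
  have e : (1 : F) + (g - 1) = g := by ring
  rw [e, h1] at h
  exact h

theorem OneAddNonunits.one : OneAddNonunits V (1 : F) := by
  simp [OneAddNonunits]

theorem OneAddNonunits.mul {g h : F} (hg : OneAddNonunits V g) (hh : OneAddNonunits V h) :
    OneAddNonunits V (g * h) := by
  have e : g * h - 1 = (g - 1) * h + (h - 1) := by ring
  have hh1 : V.valuation h = 1 := hh.isUnitOf
  have h1 : V.valuation ((g - 1) * h) < 1 := by
    rw [map_mul, hh1, mul_one]; exact hg
  unfold OneAddNonunits at *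
  rw [e]
  exact lt_of_le_of_lt (Valuation.map_add _ _ _) (max_lt h1 hh)

theorem OneAddNonunits.inv {g : F} (hg : OneAddNonunits V g) : OneAddNonunits V g⁻¹ := by
  have hg1 : V.valuation g = 1 := hg.isUnitOf
  have hg0 : g ≠ 0 := (hg.isUnitOf).ne_zero
  have e : g⁻¹ - 1 = -((g - 1) * g⁻¹) := by field_simp; ring
  unfold OneAddNonunits at *
  rw [e, Valuation.map_neg, map_mul, map_inv₀, hg1, inv_one, mul_one]
  exact hg

/-- `τ` maps units of `V` to units of `V`. -/
theorem InInertia.isUnitOf (hτ : InInertia V τ) {u : F} (hu : IsUnitOf V u) :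
    IsUnitOf V (τ u) := by
  have h := hτ u (le_of_eq hu)
  have h' : V.valuation (u + (τ u - u)) = V.valuation u :=
    Valuation.map_add_eq_of_lt_left _ (by rw [hu]; exact h)
  have e : u + (τ u - u) = τ u := by ring
  rw [e] at h'
  exact h'.trans hu

/-- **Lemma B.** For a unit `u` of `V`, `τ u / u ∈ 1 + 𝔪_V`. -/
theorem oneAddNonunits_tauSubOne (hτ : InInertia V τ) {u : F} (hu : IsUnitOf V u) :
    OneAddNonunits V (tauSubOne τ u) := by
  have hu0 : u ≠ 0 := hu.ne_zero
  have e : tauSubOne τ u - 1 = (τ u - u) * u⁻¹ := by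
    unfold tauSubOne; field_simp
  unfold OneAddNonunits
  rw [e, map_mul, map_inv₀, hu, inv_one, mul_one]
  exact hτ u (le_of_eq hu)

theorem tauSubOne_mul (τ : F ≃+* F) (f g : F) :
    tauSubOne τ (f * g) = tauSubOne τ f * tauSubOne τ g := by
  unfold tauSubOne
  rw [map_mul, mul_inv]
  ring

theorem tauSubOne_inv (τ : F ≃+* F) (f : F) :
    tauSubOne τ f⁻¹ = (tauSubOne τ f)⁻¹ := by
  unfold tauSubOne
  rw [map_inv₀, mul_inv]

theorem tauSubOne_ne_zero (τ : F ≃+* F) {f : F} (hf : f ≠ 0) : tauSubOne τ f ≠ 0 := by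
  unfold tauSubOne
  exact mul_ne_zero (by simpa using hf) (inv_ne_zero hf)

theorem tauSubOne_mem (Kc : Subfield F) (hK : ∀ c ∈ Kc, τ c ∈ Kc) {c : F} (hc : c ∈ Kc) :
    tauSubOne τ c ∈ Kc :=
  Kc.mul_mem (hK c hc) (Kc.inv_mem hc)

end basic

section main

variable {Kc : Subfield F} {τ : F ≃+* F}

/-- **One valuation.** For every `f ≠ 0` there is a constant `c ≠ 0` such that
`(τ - 1) f / c ∈ 1 + 𝔪_V`. -/
theorem exists_const_once {V : ValuationSubring F}
    (hK : ∀ c ∈ Kc, τ c ∈ Kc) (hV : HasConstValues Kc V) (hτ : InInertia V τ)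
    {f : F} (hf : f ≠ 0) :
    ∃ c ∈ Kc, c ≠ 0 ∧ OneAddNonunits V (tauSubOne τ f * c⁻¹) := by
  obtain ⟨c, hc, hc0, hu⟩ := hV f hf
  refine ⟨tauSubOne τ c, tauSubOne_mem Kc hK hc, tauSubOne_ne_zero τ hc0, ?_⟩
  have e : tauSubOne τ f * (tauSubOne τ c)⁻¹ = tauSubOne τ (f * c⁻¹) := by
    rw [tauSubOne_mul, tauSubOne_inv]
  rw [e]
  exact oneAddNonunits_tauSubOne hτ hu

/-- **Two valuations, once.**  For every `f ≠ 0` there are constants `c`, `c'` with
`(τ-1) f / c ∈ 1 + 𝔪_{V₁}`, `(τ-1) f / (c c') ∈ 1 + 𝔪_{V₀}`, and `c'` a unit of `V₀`. -/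
theorem exists_const_once_two {V₁ V₀ : ValuationSubring F}
    (hK : ∀ c ∈ Kc, τ c ∈ Kc)
    (hV₁ : HasConstValues Kc V₁) (hτ₁ : InInertia V₁ τ)
    (hV₀ : HasConstValues Kc V₀) (hτ₀ : InInertia V₀ τ)
    (hP₀ : PreservesConstValues Kc V₀ τ)
    {f : F} (hf : f ≠ 0) :
    ∃ c ∈ Kc, c ≠ 0 ∧ ∃ c' ∈ Kc, IsUnitOf V₀ c' ∧
      OneAddNonunits V₁ (tauSubOne τ f * c⁻¹) ∧
      OneAddNonunits V₀ (tauSubOne τ f * c⁻¹ * c'⁻¹) := by
  obtain ⟨c, hc, hc0, hu⟩ := hV₁ f hf
  have hfc : f * c⁻¹ ≠ 0 := hu.ne_zero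
  obtain ⟨d, hd, hd0, hud⟩ := hV₀ (f * c⁻¹) hfc
  refine ⟨tauSubOne τ c, tauSubOne_mem Kc hK hc, tauSubOne_ne_zero τ hc0,
    tauSubOne τ d, tauSubOne_mem Kc hK hd, hP₀ d hd hd0, ?_, ?_⟩
  · have e : tauSubOne τ f * (tauSubOne τ c)⁻¹ = tauSubOne τ (f * c⁻¹) := by
      rw [tauSubOne_mul, tauSubOne_inv]
    rw [e]
    exact oneAddNonunits_tauSubOne hτ₁ hu
  · have e : tauSubOne τ f * (tauSubOne τ c)⁻¹ * (tauSubOne τ d)⁻¹
        = tauSubOne τ (f * c⁻¹ * d⁻¹) := by
      rw [tauSubOne_mul, tauSubOne_mul, tauSubOne_inv, tauSubOne_inv]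
    rw [e]
    exact oneAddNonunits_tauSubOne hτ₀ hud

/-- **Two valuations, twice (K2).**  For every `f ≠ 0` there is ONE constant `c ≠ 0` such that
`(τ - 1)² f / c` lies in `1 + 𝔪_{V₁}` and in `1 + 𝔪_{V₀}`. -/
theorem exists_const_twice_two {V₁ V₀ : ValuationSubring F}
    (hK : ∀ c ∈ Kc, τ c ∈ Kc)
    (hV₁ : HasConstValues Kc V₁) (hτ₁ : InInertia V₁ τ)
    (hV₀ : HasConstValues Kc V₀) (hτ₀ : InInertia V₀ τ)
    (hP₀ : PreservesConstValues Kc V₀ τ)
    {f : F} (hf : f ≠ 0) :
    ∃ c ∈ Kc, c ≠ 0 ∧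
      OneAddNonunits V₁ (tauSubOne τ (tauSubOne τ f) * c⁻¹) ∧
      OneAddNonunits V₀ (tauSubOne τ (tauSubOne τ f) * c⁻¹) := by
  obtain ⟨c, hc, hc0, c', hc', hu', h₁, h₀⟩ :=
    exists_const_once_two hK hV₁ hτ₁ hV₀ hτ₀ hP₀ hf
  have hc'0 : c' ≠ 0 := hu'.ne_zero
  -- `g₁ := (τ-1) f / c ∈ 1 + 𝔪_{V₁}`, and `g₁ / c' ∈ 1 + 𝔪_{V₀}`
  refine ⟨tauSubOne τ c, tauSubOne_mem Kc hK hc, tauSubOne_ne_zero τ hc0, ?_, ?_⟩
  · have e : tauSubOne τ (tauSubOne τ f) * (tauSubOne τ c)⁻¹
        = tauSubOne τ (tauSubOne τ f * c⁻¹) := by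
      rw [tauSubOne_mul, tauSubOne_inv]
    rw [e]
    exact oneAddNonunits_tauSubOne hτ₁ h₁.isUnitOf
  · have e : tauSubOne τ (tauSubOne τ f) * (tauSubOne τ c)⁻¹
        = tauSubOne τ (tauSubOne τ f * c⁻¹ * c'⁻¹) * tauSubOne τ c' := by
      rw [tauSubOne_mul, tauSubOne_mul, tauSubOne_inv, tauSubOne_inv]
      have : tauSubOne τ c' ≠ 0 := tauSubOne_ne_zero τ hc'0
      field_simp
    rw [e]
    exact (oneAddNonunits_tauSubOne hτ₀ h₀.isUnitOf).mul (oneAddNonunits_tauSubOne hτ₀ hu')

end main

end Fermat.Agent.A2.H129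

end
-- ===== PACK-END A2/H129/GaussTwice.lean

-- ===== PACK-BEGIN S35/H858/NormAbs.lean
section


/-!
# S35, cell FROB, leaf QNF (helper858) — norms and base change, abstract part (Mathlib only)

Setting: a commutative square of fields `K → L`, `K → K'`, `L → L'`, `K' → L'` (think of
`K' = K ⊗ Ω`, `L' = L ⊗ Ω` for a constant field extension `Ω`), and a family `ε` which is at the
same time a `K`-basis of `K'` and (after `K' → L'`) an `L`-basis of `L'`.

* `norm_map_of_basis` : if a `K`-basis `b` of `L` is mapped to a `K'`-basis of `L'`, then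
  `ιK (N_{L/K} y) = N_{L'/K'} (ιL y)`;
* `linearIndependent_of_smul_basis` : converse of `linearIndependent_smul` for a basis;
* `linearIndependent_algebraMap_of_common_basis` : `K`-linearly independent families of `L` stay
  linearly independent over `K'` in `L'` (linear disjointness);
* `exists_basis_of_common_basis` : a `K`-basis of `L` is a `K'`-basis of `L'`;
* `finite_of_common_basis` : `L' / K'` finite ⟹ `L / K` finite;
* `norm_algebraMap_of_common_basis` : `N_{L'/K'} (y) = N_{L/K} (y)` for `y ∈ L`.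
-/

set_option autoImplicit false

noncomputable section

namespace Fermat.Agent.S35.H858

open Module

/-- Norms commute with a base change which maps a basis to a basis. -/
theorem norm_map_of_basis {K L K' L' : Type*} [Field K] [Field L] [Field K'] [Field L']
    [Algebra K L] [Algebra K' L'] (ιK : K →+* K') (ιL : L →+* L')
    (hι : ∀ a : K, ιL (algebraMap K L a) = algebraMap K' L' (ιK a))
    {n : Type*} [Fintype n] [DecidableEq n] (b : Basis n K L) (b' : Basis n K' L')
    (hb : ∀ i, b' i = ιL (b i)) (y : L) :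
    ιK (Algebra.norm K y) = Algebra.norm K' (ιL y) := by
  rw [Algebra.norm_eq_matrix_det b y, Algebra.norm_eq_matrix_det b' (ιL y), RingHom.map_det]
  congr 1
  ext i j
  rw [RingHom.mapMatrix_apply, Matrix.map_apply, Algebra.leftMulMatrix_eq_repr_mul,
    Algebra.leftMulMatrix_eq_repr_mul]
  -- `y * b j = ∑ i, c i • b i`
  have h1 : y * b j = ∑ i, b.repr (y * b j) i • b i := (b.sum_repr (y * b j)).symm
  have h2 : ιL y * b' j = ∑ i, ιK (b.repr (y * b j) i) • b' i := by
    rw [hb j, ← map_mul, h1, map_sum]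
    refine Finset.sum_congr rfl fun i _ => ?_
    rw [Algebra.smul_def, map_mul, hι, hb i, Algebra.smul_def]
    congr 2
    rw [← h1]
  rw [h2, map_sum]
  simp only [map_smul, Basis.repr_self, Finsupp.coe_finsetSum, Finsupp.coe_smul,
    Finset.sum_apply, Pi.smul_apply, smul_eq_mul]
  rw [Finset.sum_eq_single i]
  · simp
  · intro k _ hk
    simp [hk]
  · intro h
    exact absurd (Finset.mem_univ i) h

/-- Converse of `linearIndependent_smul` when the first family is a basis. -/
theorem linearIndependent_of_smul_basis {R S A : Type*} [CommRing R] [Ring S] [AddCommGroup A]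
    [Module R S] [Module S A] [Module R A] [IsScalarTower R S A] {J I : Type*}
    (b : Basis J R S) {c : I → A}
    (h : LinearIndependent R fun p : I × J => b p.2 • c p.1) : LinearIndependent S c := by
  rw [LinearIndependent, Finsupp.linearCombination_smul] at h
  have hsurj : Function.Surjective
      (Finsupp.mapRange.linearMap (Finsupp.linearCombination R b) ∘ₗ
        (Finsupp.curryLinearEquiv R).toLinearMap : (I × J →₀ R) →ₗ[R] (I →₀ S)) := by
    rw [LinearMap.coe_comp]
    refine Function.Surjective.comp ?_ (Finsupp.curryLinearEquiv R).surjective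
    intro l
    refine ⟨Finsupp.mapRange b.repr (map_zero _) l, ?_⟩
    ext i
    simp [Finsupp.mapRange.linearMap_apply, Finsupp.mapRange_apply, b.linearCombination_repr]
  have h2 : Function.Injective
      ((⇑(Finsupp.linearCombination S c)) ∘
        ⇑(Finsupp.mapRange.linearMap (Finsupp.linearCombination R b) ∘ₗ
          (Finsupp.curryLinearEquiv R).toLinearMap : (I × J →₀ R) →ₗ[R] (I →₀ S))) := h
  exact Function.Injective.of_comp_right h2 hsurj

section CommonBasis

variable {K L K' L' : Type*} [Field K] [Field L] [Field K'] [Field L']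
  [Algebra K L] [Algebra K K'] [Algebra K' L'] [Algebra L L'] [Algebra K L']
  [IsScalarTower K L L'] [IsScalarTower K K' L']
  {J : Type*} (ε : Basis J K K') (ε' : Basis J L L')

include ε ε' in
/-- Linear disjointness: `K`-linearly independent families of `L` stay linearly independent
over `K'`. -/
theorem linearIndependent_algebraMap_of_common_basis
    (hε : ∀ j, ε' j = algebraMap K' L' (ε j)) {I : Type*} {v : I → L}
    (hv : LinearIndependent K v) :
    LinearIndependent K' fun i => algebraMap L L' (v i) := by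
  apply linearIndependent_of_smul_basis (R := K) ε
  have h1 : LinearIndependent K fun p : I × J => v p.1 • ε' p.2 :=
    linearIndependent_smul hv ε'.linearIndependent
  have h2 : (fun p : I × J => ε p.2 • algebraMap L L' (v p.1)) =
      fun p : I × J => v p.1 • ε' p.2 := by
    funext p
    rw [Algebra.smul_def, Algebra.smul_def, hε, mul_comm]
  rw [h2]
  exact h1

include ε ε' in
/-- A `K`-basis of `L` is a `K'`-basis of `L'`. -/
theorem exists_basis_of_common_basis (hε : ∀ j, ε' j = algebraMap K' L' (ε j))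
    {n : Type*} (b : Basis n K L) :
    ∃ b' : Basis n K' L', ∀ i, b' i = algebraMap L L' (b i) := by
  have hli := linearIndependent_algebraMap_of_common_basis ε ε' hε b.linearIndependent
  have hsp : ⊤ ≤ Submodule.span K' (Set.range fun i => algebraMap L L' (b i)) := by
    have h1 : Submodule.span K (Set.range ⇑(b.smulTower ε')) ≤
        (Submodule.span K' (Set.range fun i => algebraMap L L' (b i))).restrictScalars K := by
      rw [Submodule.span_le]
      rintro _ ⟨⟨i, j⟩, rfl⟩
      rw [Basis.smulTower_apply]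
      show b i • ε' j ∈ Submodule.span K' (Set.range fun i => algebraMap L L' (b i))
      have h3 : b i • ε' j = ε j • algebraMap L L' (b i) := by
        rw [Algebra.smul_def, Algebra.smul_def, hε, mul_comm]
      rw [h3]
      exact Submodule.smul_mem _ _ (Submodule.subset_span ⟨i, rfl⟩)
    rw [(b.smulTower ε').span_eq] at h1
    intro z _
    exact h1 (Submodule.mem_top (x := z))
  exact ⟨Basis.mk hli hsp, fun i => Basis.mk_apply hli hsp i⟩

include ε ε' in
/-- `L' / K'` finite ⟹ `L / K` finite. -/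
theorem finite_of_common_basis (hε : ∀ j, ε' j = algebraMap K' L' (ε j))
    [Module.Finite K' L'] : Module.Finite K L := by
  rw [← Module.rank_lt_aleph0_iff]
  have h : Module.rank K L ≤ (Module.finrank K' L' : ℕ) := by
    apply rank_le
    intro s hs
    have h1 := linearIndependent_algebraMap_of_common_basis ε ε' hε hs
    have h2 := h1.fintype_card_le_finrank
    simpa using h2
  exact lt_of_le_of_lt h Cardinal.natCast_lt_aleph0

include ε ε' in
/-- Norms commute with the base change. -/
theorem norm_algebraMap_of_common_basis (hε : ∀ j, ε' j = algebraMap K' L' (ε j))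
    [Module.Finite K L] (y : L) :
    algebraMap K K' (Algebra.norm K y) = Algebra.norm K' (algebraMap L L' y) := by
  classical
  obtain ⟨b', hb'⟩ := exists_basis_of_common_basis ε ε' hε (Module.finBasis K L)
  refine norm_map_of_basis (algebraMap K K') (algebraMap L L') (fun a => ?_)
    (Module.finBasis K L) b' hb' y
  rw [← IsScalarTower.algebraMap_apply K L L', ← IsScalarTower.algebraMap_apply K K' L']

end CommonBasis

end Fermat.Agent.S35.H858

end
end
-- ===== PACK-END S35/H858/NormAbs.lean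

-- ===== PACK-BEGIN S18/H845/PrimElt.lean
section


/-!
# S18 / d1(c): compositum with algebraic constants, elementwise

`E ⊆ K ⊆ L`, `E` perfect.  If `L` is generated over `K` by elements algebraic over `E`, then every
element of `L` lies in `K[α]` for a single `α` algebraic over `E`.
-/

set_option autoImplicit false
set_option linter.unusedSectionVars false

namespace Fermat.Agent.S18.H845

open IntermediateField

section PE

variable {E K L : Type*} [Field E] [Field K] [Field L] [Algebra E K] [Algebra K L] [Algebra E L]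
  [IsScalarTower E K L] [PerfectField E]

omit [PerfectField E] in
lemma adjoin_E_le_adjoin_K (α : L) :
    ((Algebra.adjoin E {α} : Subalgebra E L) : Set L) ⊆ (Algebra.adjoin K {α} : Subalgebra K L) := by
  have h : Algebra.adjoin E {α} ≤ (Algebra.adjoin K {α}).restrictScalars E :=
    Algebra.adjoin_le (by
      rintro x ⟨rfl⟩
      exact Algebra.self_mem_adjoin_singleton K _)
  exact h

/-- Two algebraic constants lie in `E[α]` for a single algebraic constant `α`. -/
lemma exists_common_adjoin {α₁ α₂ : L} (h₁ : IsAlgebraic E α₁) (h₂ : IsAlgebraic E α₂) :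
    ∃ α : L, IsAlgebraic E α ∧ α₁ ∈ Algebra.adjoin K {α} ∧ α₂ ∈ Algebra.adjoin K {α} := by
  let M : IntermediateField E L := IntermediateField.adjoin E {α₁, α₂}
  have hfin : FiniteDimensional E M :=
    IntermediateField.finiteDimensional_adjoin_pair h₁.isIntegral h₂.isIntegral
  have halg : Algebra.IsAlgebraic E M := Algebra.IsAlgebraic.of_finite E M
  obtain ⟨β, hβ⟩ := Field.exists_primitive_element E M
  have hβalg : IsAlgebraic E (β : L) := by
    have := halg.isAlgebraic β
    exact (isAlgebraic_algebraMap_iff (algebraMap M L).injective).mpr this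
  have hM : E⟮(β : L)⟯ = M := by
    have h1 := congrArg (IntermediateField.map M.val) hβ
    rw [IntermediateField.adjoin_map, Set.image_singleton] at h1
    rw [show M.val β = (β : L) from rfl] at h1
    rw [h1]
    ext x
    simp only [IntermediateField.mem_map, IntermediateField.mem_top, true_and]
    constructor
    · rintro ⟨y, rfl⟩
      exact y.2
    · intro hx
      exact ⟨⟨x, hx⟩, rfl⟩
  have hsub : ∀ x ∈ M, x ∈ Algebra.adjoin K {(β : L)} := by
    intro x hx
    rw [← hM] at hx
    have hx' : x ∈ (E⟮(β : L)⟯).toSubalgebra := hx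
    rw [IntermediateField.adjoin_simple_toSubalgebra_of_isAlgebraic hβalg] at hx'
    exact adjoin_E_le_adjoin_K (K := K) (β : L) hx'
  refine ⟨β, hβalg, hsub _ ?_, hsub _ ?_⟩
  · exact IntermediateField.subset_adjoin E _ (by simp)
  · exact IntermediateField.subset_adjoin E _ (by simp)

/-- If `L` is generated over `K` by elements algebraic over `E`, every element of `L` lies in
`K[α]` for one `α` algebraic over `E`. -/
theorem exists_mem_adjoin_singleton
    (hgen : IntermediateField.adjoin K {α : L | IsAlgebraic E α} = ⊤) (f : L) :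
    ∃ α : L, IsAlgebraic E α ∧ f ∈ Algebra.adjoin K {α} := by
  have hf : f ∈ IntermediateField.adjoin K {α : L | IsAlgebraic E α} := by
    rw [hgen]; exact IntermediateField.mem_top
  induction hf using IntermediateField.adjoin_induction with
  | mem x hx => exact ⟨x, hx, Algebra.self_mem_adjoin_singleton K x⟩
  | algebraMap x => exact ⟨0, isAlgebraic_zero, Subalgebra.algebraMap_mem _ x⟩
  | add x y _ _ hx hy =>
    obtain ⟨α₁, h₁, hx⟩ := hx
    obtain ⟨α₂, h₂, hy⟩ := hy
    obtain ⟨α, hα, ha₁, ha₂⟩ := exists_common_adjoin (K := K) h₁ h₂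
    have l₁ : Algebra.adjoin K {α₁} ≤ Algebra.adjoin K {α} :=
      Algebra.adjoin_le (by rintro z ⟨rfl⟩; exact ha₁)
    have l₂ : Algebra.adjoin K {α₂} ≤ Algebra.adjoin K {α} :=
      Algebra.adjoin_le (by rintro z ⟨rfl⟩; exact ha₂)
    exact ⟨α, hα, add_mem (l₁ hx) (l₂ hy)⟩
  | mul x y _ _ hx hy =>
    obtain ⟨α₁, h₁, hx⟩ := hx
    obtain ⟨α₂, h₂, hy⟩ := hy
    obtain ⟨α, hα, ha₁, ha₂⟩ := exists_common_adjoin (K := K) h₁ h₂
    have l₁ : Algebra.adjoin K {α₁} ≤ Algebra.adjoin K {α} :=
      Algebra.adjoin_le (by rintro z ⟨rfl⟩; exact ha₁)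
    have l₂ : Algebra.adjoin K {α₂} ≤ Algebra.adjoin K {α} :=
      Algebra.adjoin_le (by rintro z ⟨rfl⟩; exact ha₂)
    exact ⟨α, hα, mul_mem (l₁ hx) (l₂ hy)⟩
  | inv x _ hx =>
    obtain ⟨α, hα, hx⟩ := hx
    refine ⟨α, hα, ?_⟩
    have hαK : IsAlgebraic K α := hα.tower_top K
    rw [← IntermediateField.adjoin_simple_toSubalgebra_of_isAlgebraic hαK] at hx ⊢
    have hx' : x ∈ K⟮α⟯ := hx
    exact (show x⁻¹ ∈ K⟮α⟯ from inv_mem hx')

end PE

end Fermat.Agent.S18.H845

end
-- ===== PACK-END S18/H845/PrimElt.lean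

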