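import Fermat.Prelude.Def_CuspForm_HeckeGaloisRepDatum
import Mathlib
import Fermat.Prelude.Def_ModularCurve_ReductionModL
import Fermat.Prelude.Def_ModularCurve_LaurentCoeff
import Fermat.Prelude.Def_AlgebraicCurve_DivisorClassGroup
import Fermat.Prelude.Def_AlgebraicCurve_Repartitions
import Fermat.Prelude.Def_ModularCurve_GenusNumerics
import Fermat.Prelude.Def_ModularCurve_IgusaScheme
import Fermat.Prelude.Def_ModularCurve_X0ModL
import Fermat.Prelude.Def_ModularCurve_X0
import Fermat.Prelude.Def_ModularCurve_ArithmeticGalois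
import Fermat.Prelude.Def_FLTPrelim_Ramification
import Mathlib.RingTheory.Idempotents
import Mathlib.RingTheory.Ideal.Quotient.Operations
import Mathlib.RingTheory.Ideal.Span
import Mathlib.RingTheory.Noetherian.Basic
import Mathlib.Algebra.Algebra.Subalgebra.Basic
import Fermat.Prelude.Def_ModularCurve_HeckeModule

-- ===== PACK-BEGIN S30/H990/Interface.lean
section
/-
S30 top glue (helper990): interface.

`ChebWeak`       : weak qualitative Chebotarev (hypothesis, to be supplied by the CHEB library).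
`AdicEigenModule`: the output expected from the Galois tower for an eigencharacter `χ`:
                   a nonzero finite free `𝒪`-module with continuous Galois action, unramified
                   outside `N p`, on which Frobenius elements satisfy the Eichler–Shimura relation.
-/


set_option autoImplicit false

namespace Fermat.Agent.S30.H990

/-- The absolute Galois group of `ℚ`. -/
abbrev GQ : Type := AlgebraicClosure ℚ ≃ₐ[ℚ] AlgebraicClosure ℚ

/-- Weak qualitative Chebotarev: for every finite subextension `L`, every `σ` and every finite set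
`T` of primes there is a Frobenius element `τ` at a prime `ℓ ∉ T` such that `σ` agrees on `L`
with a power of `τ`.  (The usual qualitative Chebotarev theorem gives `j = 1`.) -/
def ChebWeak : Prop :=
  ∀ L : IntermediateField ℚ (AlgebraicClosure ℚ), FiniteDimensional ℚ L →
    ∀ (σ : GQ) (T : Finset ℕ),
      ∃ ℓ : ℕ, ℓ.Prime ∧ ℓ ∉ T ∧
        ∃ A : ValuationSubring (AlgebraicClosure ℚ), A.LiesOverPrime ℓ ∧
          ∃ τ : GQ, A.IsFrobeniusAt τ ℓ ∧ ∃ j : ℕ, ∀ x ∈ L, σ x = (τ ^ j) x

/-- The adic eigenmodule attached to an eigencharacter `χ` of the Hecke algebra away from `S`. -/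
structure AdicEigenModule (p N : ℕ) [NeZero N] (S : Finset ℕ)
    (𝒪 : Type) [CommRing 𝒪] [IsLocalRing 𝒪]
    (χ : CuspForm.heckeAlgebra N 2 (↑S : Set ℕ) →+* 𝒪) : Type 1 where
  M : Type
  [instAddCommGroup : AddCommGroup M]
  [instModule : Module 𝒪 M]
  [instFree : Module.Free 𝒪 M]
  [instFinite : Module.Finite 𝒪 M]
  [instNontrivial : Nontrivial M]
  ρ : GQ →* Module.End 𝒪 M
  cont : GaloisActionIsAdicContinuous 𝒪 ρ
  unram : ∀ q : ℕ, q.Prime → ¬ q ∣ N → q ≠ p →
    ∀ P : ValuationSubring (AlgebraicClosure ℚ), P.LiesOverPrime q →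
      ∀ σ ∈ P.inertiaSubgroupIn ℚ, ρ σ = 1
  frob : ∀ (ℓ : ℕ) (hℓ : ℓ.Prime) (hℓN : ¬ ℓ ∣ N) (hℓS : ℓ ∉ (↑S : Set ℕ)),
    ∀ A : ValuationSubring (AlgebraicClosure ℚ), A.LiesOverPrime ℓ →
      ∀ σ : GQ, A.IsFrobeniusAt σ ℓ →
        ρ σ * ρ σ - χ (CuspForm.heckeAlgebra.T hℓ hℓN hℓS) • ρ σ + (ℓ : 𝒪) • 1 = 0

attribute [instance] AdicEigenModule.instAddCommGroup AdicEigenModule.instModule
  AdicEigenModule.instFree AdicEigenModule.instFinite AdicEigenModule.instNontrivial

/-- The tower hypothesis: every eigencharacter has an adic eigenmodule. -/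
def HasAdicEigenModules : Prop :=
  ∀ (p : ℕ) [Fact p.Prime] (N : ℕ) [NeZero N] (S : Finset ℕ)
    (_hpS : p ∈ S) (_hNS : ∀ q : ℕ, q.Prime → q ∣ N → q ∈ S)
    (𝒪' : Type) [CommRing 𝒪'] [IsDomain 𝒪'] [IsDiscreteValuationRing 𝒪']
    [IsAdicComplete (IsLocalRing.maximalIdeal 𝒪') 𝒪'] [Finite (IsLocalRing.ResidueField 𝒪')]
    [CharZero 𝒪'] (_hp𝒪' : (p : 𝒪') ∈ IsLocalRing.maximalIdeal 𝒪')
    (χ : CuspForm.heckeAlgebra N 2 (↑S : Set ℕ) →+* 𝒪'),
    Nonempty (AdicEigenModule p N S 𝒪' χ)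

end Fermat.Agent.S30.H990

end
-- ===== PACK-END S30/H990/Interface.lean

-- ===== PACK-BEGIN S36/H36/Kolchin.lean
section
/-
S36 top glue (helper36), pure algebra: a Kolchin-type fixed vector lemma.

Let `H` be a subgroup acting on a nonzero torsion-free module `M` over a Noetherian domain `R`
with `2 ≠ 0`, such that `(ρ τ - 1)² = 0` for every `τ ∈ H`.  Then `H` has a nonzero fixed vector.

Proof.  Put `N τ = ρ τ - 1`.  Expanding `N (g h)² = 0` and `N (g h⁻¹)² = 0` gives
`N h * N g * N h = 0` (here `2 ≠ 0` is used), hence `N g * N h = - N h * N g`.  So if `w` is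
killed by `N g₁, …, N gₖ` then so is `N g w`; by induction finitely many `N gᵢ` have a common
nonzero kernel vector.  Finally the `R`-span of all the `N τ` is finitely generated.
-/


set_option autoImplicit false

namespace Fermat.Agent.S36.H36

section Algebra

variable {R M : Type*} [CommRing R] [IsDomain R] [AddCommGroup M] [Module R M]
  [Module.IsTorsionFree R M]

theorem end_eq_zero_of_two_smul (h2 : (2 : R) ≠ 0) (F : Module.End R M)
    (hF : (2 : R) • F = 0) : F = 0 := by
  apply LinearMap.ext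
  intro v
  have h1 : (2 : R) • F v = 0 := by
    have := congrArg (fun f : Module.End R M => f v) hF
    simpa using this
  rcases smul_eq_zero.mp h1 with h | h
  · exact absurd h h2
  · simpa using h

/-- The key identity: `B A B = 0`. -/
theorem mul_mul_eq_zero_of_sq_zero (h2 : (2 : R) ≠ 0) (A B : Module.End R M)
    (hA : A * A = 0) (hB : B * B = 0)
    (h1 : (A + B + A * B) * (A + B + A * B) = 0)
    (h1' : (A - B - A * B) * (A - B - A * B) = 0) : B * A * B = 0 := by
  have e1 : (A + B + A * B) * (A + B + A * B)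
      = A * B + B * A + B * A * B + A * B * A + A * B * A * B
        + (A * A + (A * A) * B + B * B + A * (B * B)) := by
    noncomm_ring
  have e2 : (A - B - A * B) * (A - B - A * B)
      = -(A * B) - B * A + B * A * B - A * B * A + A * B * A * B
        + (A * A - (A * A) * B + B * B + A * (B * B)) := by
    noncomm_ring
  rw [e1, hA, hB] at h1
  rw [e2, hA, hB] at h1'
  simp only [zero_mul, mul_zero, add_zero, sub_zero] at h1 h1'
  -- sum: `2 (1 + A) B A B = 0`
  have h3 : (2 : R) • ((1 + A) * (B * A * B)) = 0 := by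
    have : (2 : R) • ((1 + A) * (B * A * B))
        = (A * B + B * A + B * A * B + A * B * A + A * B * A * B)
          + (-(A * B) - B * A + B * A * B - A * B * A + A * B * A * B) := by
      rw [two_smul]
      noncomm_ring
    rw [this, h1, h1', add_zero]
  have h4 := end_eq_zero_of_two_smul h2 _ h3
  have h5 : B * A * B = (1 - A) * ((1 + A) * (B * A * B)) + (A * A) * (B * A * B) := by
    noncomm_ring
  rw [h5, h4, hA]
  simp

/-- Anticommutation. -/
theorem anticomm_of_sq_zero (h2 : (2 : R) ≠ 0) (A B : Module.End R M)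
    (hA : A * A = 0) (hB : B * B = 0)
    (h1 : (A + B + A * B) * (A + B + A * B) = 0)
    (h1' : (A - B - A * B) * (A - B - A * B) = 0)
    (h3 : (B + A + B * A) * (B + A + B * A) = 0)
    (h3' : (B - A - B * A) * (B - A - B * A) = 0) : A * B + B * A = 0 := by
  have hBAB := mul_mul_eq_zero_of_sq_zero h2 A B hA hB h1 h1'
  have hABA := mul_mul_eq_zero_of_sq_zero h2 B A hB hA h3 h3'
  have e1 : (A + B + A * B) * (A + B + A * B)
      = A * B + B * A + B * A * B + A * B * A + A * (B * A * B)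
        + (A * A + (A * A) * B + B * B + A * (B * B)) := by
    noncomm_ring
  rw [e1, hA, hB, hBAB, hABA] at h1
  simpa using h1

end Algebra

section Group

variable {R M G : Type*} [CommRing R] [IsDomain R] [AddCommGroup M] [Module R M]
  [Module.IsTorsionFree R M] [Group G]

variable (ρ : G →* Module.End R M) (H : Subgroup G)

omit [IsDomain R] [Module.IsTorsionFree R M] in
theorem map_inv_of_sq_zero {h : G} (hh : (ρ h - 1) * (ρ h - 1) = 0) :
    ρ h⁻¹ = 1 - (ρ h - 1) := by
  have h1 : ρ h⁻¹ * ρ h = 1 := by rw [← map_mul, inv_mul_cancel, map_one]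
  have h2 : ρ h * (1 - (ρ h - 1)) = 1 := by
    have : ρ h * (1 - (ρ h - 1)) = 1 - (ρ h - 1) * (ρ h - 1) := by noncomm_ring
    rw [this, hh, sub_zero]
  calc ρ h⁻¹ = ρ h⁻¹ * (ρ h * (1 - (ρ h - 1))) := by rw [h2, mul_one]
    _ = (ρ h⁻¹ * ρ h) * (1 - (ρ h - 1)) := by rw [mul_assoc]
    _ = 1 - (ρ h - 1) := by rw [h1, one_mul]

theorem anticomm_of_unipotent (h2 : (2 : R) ≠ 0)
    (hH : ∀ τ ∈ H, (ρ τ - 1) * (ρ τ - 1) = 0) {g h : G} (hg : g ∈ H) (hh : h ∈ H) :
    (ρ g - 1) * (ρ h - 1) + (ρ h - 1) * (ρ g - 1) = 0 := by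
  have key : ∀ g h : G, g ∈ H → h ∈ H →
      ((ρ g - 1) + (ρ h - 1) + (ρ g - 1) * (ρ h - 1))
          * ((ρ g - 1) + (ρ h - 1) + (ρ g - 1) * (ρ h - 1)) = 0 ∧
      ((ρ g - 1) - (ρ h - 1) - (ρ g - 1) * (ρ h - 1))
          * ((ρ g - 1) - (ρ h - 1) - (ρ g - 1) * (ρ h - 1)) = 0 := by
    intro g h hg hh
    constructor
    · have e : (ρ g - 1) + (ρ h - 1) + (ρ g - 1) * (ρ h - 1) = ρ (g * h) - 1 := by
        rw [map_mul]
        noncomm_ring
      rw [e]
      exact hH _ (H.mul_mem hg hh)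
    · have e : (ρ g - 1) - (ρ h - 1) - (ρ g - 1) * (ρ h - 1) = ρ (g * h⁻¹) - 1 := by
        rw [map_mul, map_inv_of_sq_zero ρ (hH h hh)]
        noncomm_ring
      rw [e]
      exact hH _ (H.mul_mem hg (H.inv_mem hh))
  exact anticomm_of_sq_zero h2 _ _ (hH g hg) (hH h hh) (key g h hg hh).1 (key g h hg hh).2
    (key h g hh hg).1 (key h g hh hg).2

/-- Finitely many elements of `H` have a common nonzero fixed vector. -/
theorem exists_fixed_finset [Nontrivial M] (h2 : (2 : R) ≠ 0)
    (hH : ∀ τ ∈ H, (ρ τ - 1) * (ρ τ - 1) = 0) (s : Finset G) (hs : ∀ g ∈ s, g ∈ H) :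
    ∃ w : M, w ≠ 0 ∧ ∀ g ∈ s, (ρ g - 1) w = 0 := by
  classical
  induction s using Finset.induction_on with
  | empty =>
    obtain ⟨w, hw⟩ := exists_ne (0 : M)
    exact ⟨w, hw, fun g hg => absurd hg (Finset.notMem_empty g)⟩
  | insert a s _ ih =>
    obtain ⟨w, hw, hws⟩ := ih (fun g hg => hs g (Finset.mem_insert_of_mem hg))
    have ha : a ∈ H := hs a (Finset.mem_insert_self a s)
    by_cases hwa : (ρ a - 1) w = 0
    · refine ⟨w, hw, fun g hg => ?_⟩
      rcases Finset.mem_insert.mp hg with rfl | hg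
      · exact hwa
      · exact hws g hg
    · refine ⟨(ρ a - 1) w, hwa, fun g hg => ?_⟩
      rcases Finset.mem_insert.mp hg with rfl | hg
      · have := congrArg (fun f : Module.End R M => f w) (hH g ha)
        simpa using this
      · have hgH : g ∈ H := hs g (Finset.mem_insert_of_mem hg)
        have h1 := congrArg (fun f : Module.End R M => f w)
          (anticomm_of_unipotent ρ H h2 hH hgH ha)
        simp only [LinearMap.add_apply, Module.End.mul_apply, LinearMap.zero_apply] at h1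
        rw [hws g hg, map_zero, add_zero] at h1
        exact h1

/-- **Kolchin-type lemma.**  A subgroup all of whose elements satisfy `(ρ τ - 1)² = 0` has a
nonzero fixed vector. -/
theorem exists_fixed_of_sq_zero [IsNoetherianRing R] [Module.Finite R M] [Module.Free R M]
    [Nontrivial M] (h2 : (2 : R) ≠ 0)
    (hH : ∀ τ ∈ H, (ρ τ - 1) * (ρ τ - 1) = 0) :
    ∃ w : M, w ≠ 0 ∧ ∀ τ ∈ H, ρ τ w = w := by
  classical
  set T : Set (Module.End R M) := (fun τ : G => ρ τ - 1) '' (H : Set G) with hT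
  have hfg : (Submodule.span R T).FG := IsNoetherian.noetherian _
  obtain ⟨t, htT, hspan⟩ := (Submodule.fg_span_iff_fg_span_finset_subset T).mp hfg
  -- choose group elements for the finitely many generators
  have hch : ∀ F : (t : Set (Module.End R M)), ∃ g : G, g ∈ H ∧ ρ g - 1 = (F : Module.End R M) := by
    rintro ⟨F, hF⟩
    obtain ⟨g, hg, rfl⟩ := htT hF
    exact ⟨g, hg, rfl⟩
  choose γ hγH hγ using hch
  obtain ⟨w, hw, hws⟩ := exists_fixed_finset ρ H h2 hH
    (Finset.univ.image γ) (fun g hg => by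
      obtain ⟨F, -, rfl⟩ := Finset.mem_image.mp hg
      exact hγH F)
  refine ⟨w, hw, fun τ hτ => ?_⟩
  -- the evaluation at `w` kills the span
  have hker : Submodule.span R (t : Set (Module.End R M))
      ≤ LinearMap.ker (LinearMap.applyₗ (R := R) (M := M) (M₂ := M) w) := by
    rw [Submodule.span_le]
    intro F hF
    rw [SetLike.mem_coe, LinearMap.mem_ker, LinearMap.applyₗ_apply_apply]
    have := hws (γ ⟨F, hF⟩) (Finset.mem_image.mpr ⟨⟨F, hF⟩, Finset.mem_univ _, rfl⟩)
    rw [hγ ⟨F, hF⟩] at this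
    exact this
  have hmem : ρ τ - 1 ∈ Submodule.span R T := Submodule.subset_span ⟨τ, hτ, rfl⟩
  rw [hspan] at hmem
  have := hker hmem
  rw [LinearMap.mem_ker, LinearMap.applyₗ_apply_apply] at this
  have h3 : ρ τ w - w = 0 := by simpa using this
  exact sub_eq_zero.mp h3

end Group

end Fermat.Agent.S36.H36

end
-- ===== PACK-END S36/H36/Kolchin.lean

-- ===== PACK-BEGIN S18/H602/Descent.lean
section



/-!
# S18, piece d1 : descent from `Q̄` to a number field  (owner helper602)

`Q̄ = AlgebraicClosure ℚ`, `A ⊆ Q̄` a valuation subring, `E ⊆ Q̄` a finite extension of `ℚ`,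
`R_E := A ∩ E = A.comap (algebraMap E Q̄)`.

Main results (namespace `Fermat.Agent.S18.H602`):

* `coeffMap_mem_laurentBaseChange` : functoriality of `laurentBaseChange` in the field.
* `exists_finite_descent`, `exists_finite_descent₂` : every element (pair of elements) of
  `laurentBaseChange Q̄ F₀` comes from `laurentBaseChange E F₀` for a finite `E/ℚ`
  (containing any prescribed finite `E₀`).
* `exists_series_descent₂` : the same for Laurent series with coefficients in `A`; they descend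
  to Laurent series with coefficients in `R_E`.
* `coreStatement_of_coreAt` : CORE over `A` follows from CORE over all `R_E`.
-/

set_option autoImplicit false

noncomputable section

namespace Fermat.Agent.S18.H602

open ModularCurve AlgebraicCurve HahnSeries IntermediateField

local notation "Q̄" => AlgebraicClosure ℚ

/-! ## 1. Generalities on `coeffMap` -/

section CoeffMap

variable {R S : Type*} [CommRing R] [CommRing S]

theorem coeffMap_injective (f : R →+* S) (hf : Function.Injective f) :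
    Function.Injective (coeffMap f) := by
  intro x y h
  ext n
  apply hf
  have := congrArg (fun z => z.coeff n) h
  simpa using this

/-- A Laurent series all of whose coefficients lie in the range of an injective ring
homomorphism comes from a Laurent series over the source. -/
theorem exists_coeffMap_eq (f : R →+* S) (hf : Function.Injective f) (y : LaurentSeries S)
    (h : ∀ n, y.coeff n ∈ Set.range f) : ∃ x : LaurentSeries R, coeffMap f x = y := by
  choose c hc using h
  have hsupp : Function.support c = y.support := by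
    ext n
    simp only [Function.mem_support, HahnSeries.mem_support, ne_eq, ← hc n]
    rw [map_eq_zero_iff f hf]
  refine ⟨⟨c, ?_⟩, ?_⟩
  · rw [hsupp]
    exact y.isPWO_support
  · ext n
    simp [hc]

theorem coeffMap_algebraMap' {L L' : Type*} [Field L] [Field L'] (φ : L →+* L') (c : L) :
    coeffMap φ (algebraMap L (LaurentSeries L) c) = algebraMap L' (LaurentSeries L') (φ c) := by
  rw [algebraMap_laurentSeries_eq_single, algebraMap_laurentSeries_eq_single, coeffMap_single]

end CoeffMap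

/-! ## 2. Functoriality of `laurentBaseChange` -/

section Functoriality

variable {L L' : Type*} [Field L] [Field L'] [Algebra ℚ L] [Algebra ℚ L']
variable (F₀ : IntermediateField ℚ (LaurentSeries ℚ))

theorem coeffMap_coeffEmb' (φ : L →+* L') (x : LaurentSeries ℚ) :
    coeffMap φ (coeffEmb L x) = coeffEmb L' x := by
  rw [coeffEmb, coeffMap_coeffMap]
  exact coeffMap_congr (Subsingleton.elim _ _) x

theorem coeffMap_mem_laurentBaseChange (φ : L →+* L') {x : LaurentSeries L}
    (hx : x ∈ laurentBaseChange L F₀) : coeffMap φ x ∈ laurentBaseChange L' F₀ := by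
  rw [mem_laurentBaseChange_iff] at hx
  induction hx using Subfield.closure_induction with
  | mem y hy =>
      rcases hy with ⟨a, rfl⟩ | ⟨z, hz, rfl⟩
      · rw [coeffMap_algebraMap']
        exact (laurentBaseChange L' F₀).algebraMap_mem _
      · rw [coeffMap_coeffEmb']
        exact coeffEmb_mem_laurentBaseChange L' hz
  | one => simp
  | add x y _ _ hx hy => simpa using add_mem hx hy
  | neg x _ hx => simpa using neg_mem hx
  | inv x _ hx => simpa using inv_mem hx
  | mul x y _ _ hx hy => simpa using mul_mem hx hy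

end Functoriality

/-! ## 3. Descent of elements of `laurentBaseChange Q̄ F₀` to a finite extension of `ℚ` -/

section FiniteDescent

variable (F₀ : IntermediateField ℚ (LaurentSeries ℚ))

/-- `x ∈ Q̄((q))` is defined over the finite extension `E` (inside the base change of `F₀`). -/
def DescendsTo (E : IntermediateField ℚ Q̄) (x : LaurentSeries Q̄) : Prop :=
  ∃ y ∈ laurentBaseChange E F₀, coeffMap (algebraMap E Q̄) y = x

variable {F₀}

theorem DescendsTo.mem {E : IntermediateField ℚ Q̄} {x : LaurentSeries Q̄}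
    (h : DescendsTo F₀ E x) : x ∈ laurentBaseChange Q̄ F₀ := by
  obtain ⟨y, hy, rfl⟩ := h
  exact coeffMap_mem_laurentBaseChange F₀ _ hy

theorem DescendsTo.mono {E E' : IntermediateField ℚ Q̄} (hE : E ≤ E') {x : LaurentSeries Q̄}
    (h : DescendsTo F₀ E x) : DescendsTo F₀ E' x := by
  obtain ⟨y, hy, rfl⟩ := h
  refine ⟨coeffMap (IntermediateField.inclusion hE : E →+* E') y,
    coeffMap_mem_laurentBaseChange F₀ _ hy, ?_⟩
  rw [coeffMap_coeffMap]
  exact coeffMap_congr (RingHom.ext fun _ => rfl) y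

theorem DescendsTo.add {E : IntermediateField ℚ Q̄} {x x' : LaurentSeries Q̄}
    (h : DescendsTo F₀ E x) (h' : DescendsTo F₀ E x') : DescendsTo F₀ E (x + x') := by
  obtain ⟨y, hy, rfl⟩ := h
  obtain ⟨y', hy', rfl⟩ := h'
  exact ⟨y + y', add_mem hy hy', map_add _ _ _⟩

theorem DescendsTo.mul {E : IntermediateField ℚ Q̄} {x x' : LaurentSeries Q̄}
    (h : DescendsTo F₀ E x) (h' : DescendsTo F₀ E x') : DescendsTo F₀ E (x * x') := by
  obtain ⟨y, hy, rfl⟩ := h
  obtain ⟨y', hy', rfl⟩ := h'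
  exact ⟨y * y', mul_mem hy hy', map_mul _ _ _⟩

theorem DescendsTo.neg {E : IntermediateField ℚ Q̄} {x : LaurentSeries Q̄}
    (h : DescendsTo F₀ E x) : DescendsTo F₀ E (-x) := by
  obtain ⟨y, hy, rfl⟩ := h
  exact ⟨-y, neg_mem hy, map_neg _ _⟩

theorem DescendsTo.inv {E : IntermediateField ℚ Q̄} {x : LaurentSeries Q̄}
    (h : DescendsTo F₀ E x) : DescendsTo F₀ E x⁻¹ := by
  obtain ⟨y, hy, rfl⟩ := h
  exact ⟨y⁻¹, inv_mem hy, map_inv₀ _ _⟩

theorem DescendsTo.one (E : IntermediateField ℚ Q̄) : DescendsTo F₀ E 1 :=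
  ⟨1, one_mem _, map_one _⟩

theorem descendsTo_const (a : Q̄) :
    DescendsTo F₀ ℚ⟮a⟯ (algebraMap Q̄ (LaurentSeries Q̄) a) := by
  refine ⟨algebraMap ℚ⟮a⟯ (LaurentSeries ℚ⟮a⟯) ⟨a, mem_adjoin_simple_self ℚ a⟩,
    (laurentBaseChange ℚ⟮a⟯ F₀).algebraMap_mem _, ?_⟩
  rw [coeffMap_algebraMap']
  rfl

theorem descendsTo_coeffEmb (E : IntermediateField ℚ Q̄) {z : LaurentSeries ℚ} (hz : z ∈ F₀) :
    DescendsTo F₀ E (coeffEmb Q̄ z) :=
  ⟨coeffEmb E z, coeffEmb_mem_laurentBaseChange E hz, coeffMap_coeffEmb' _ z⟩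

theorem isAlgebraic_Qbar : Algebra.IsAlgebraic ℚ Q̄ := AlgebraicClosure.isAlgebraic ℚ

/-- Every element of `laurentBaseChange Q̄ F₀` is defined over a finite extension of `ℚ`. -/
theorem exists_finite_descent {x : LaurentSeries Q̄} (hx : x ∈ laurentBaseChange Q̄ F₀) :
    ∃ E : IntermediateField ℚ Q̄, FiniteDimensional ℚ E ∧ DescendsTo F₀ E x := by
  have := isAlgebraic_Qbar
  rw [mem_laurentBaseChange_iff] at hx
  induction hx using Subfield.closure_induction with
  | mem y hy =>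
      rcases hy with ⟨a, rfl⟩ | ⟨z, hz, rfl⟩
      · exact ⟨ℚ⟮a⟯, IntermediateField.adjoin.finiteDimensional
          (Algebra.IsAlgebraic.isAlgebraic a).isIntegral, descendsTo_const a⟩
      · exact ⟨⊥, inferInstance, descendsTo_coeffEmb ⊥ hz⟩
  | one => exact ⟨⊥, inferInstance, DescendsTo.one ⊥⟩
  | add x y _ _ hx hy =>
      obtain ⟨E₁, h₁, hx⟩ := hx
      obtain ⟨E₂, h₂, hy⟩ := hy
      exact ⟨E₁ ⊔ E₂, IntermediateField.finiteDimensional_sup E₁ E₂,
        (hx.mono le_sup_left).add (hy.mono le_sup_right)⟩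
  | neg x _ hx =>
      obtain ⟨E₁, h₁, hx⟩ := hx
      exact ⟨E₁, h₁, hx.neg⟩
  | inv x _ hx =>
      obtain ⟨E₁, h₁, hx⟩ := hx
      exact ⟨E₁, h₁, hx.inv⟩
  | mul x y _ _ hx hy =>
      obtain ⟨E₁, h₁, hx⟩ := hx
      obtain ⟨E₂, h₂, hy⟩ := hy
      exact ⟨E₁ ⊔ E₂, IntermediateField.finiteDimensional_sup E₁ E₂,
        (hx.mono le_sup_left).mul (hy.mono le_sup_right)⟩

/-- Two elements of `laurentBaseChange Q̄ F₀` are defined over a common finite extension of `ℚ`
containing a prescribed finite extension `E₀`. -/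
theorem exists_finite_descent₂ (E₀ : IntermediateField ℚ Q̄) [FiniteDimensional ℚ E₀]
    {x₁ x₂ : LaurentSeries Q̄} (h₁ : x₁ ∈ laurentBaseChange Q̄ F₀)
    (h₂ : x₂ ∈ laurentBaseChange Q̄ F₀) :
    ∃ E : IntermediateField ℚ Q̄, FiniteDimensional ℚ E ∧ E₀ ≤ E ∧
      DescendsTo F₀ E x₁ ∧ DescendsTo F₀ E x₂ := by
  obtain ⟨E₁, hE₁, d₁⟩ := exists_finite_descent h₁
  obtain ⟨E₂, hE₂, d₂⟩ := exists_finite_descent h₂
  have : FiniteDimensional ℚ ↥(E₁ ⊔ E₂) := IntermediateField.finiteDimensional_sup E₁ E₂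
  exact ⟨E₀ ⊔ (E₁ ⊔ E₂), IntermediateField.finiteDimensional_sup _ _, le_sup_left,
    d₁.mono (le_sup_left.trans le_sup_right), d₂.mono (le_sup_right.trans le_sup_right)⟩

end FiniteDescent

/-! ## 4. The valuation ring `R_E = A ∩ E` -/

section RE

variable (A : ValuationSubring Q̄) (E : IntermediateField ℚ Q̄)

/-- `R_E := A ∩ E`, a valuation subring of `E`. -/
def RE : ValuationSubring E := A.comap (algebraMap E Q̄)

variable {A E} in
theorem mem_RE {x : E} : x ∈ RE A E ↔ (x : Q̄) ∈ A := Iff.rfl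

/-- The inclusion `R_E → A`. -/
def toA : ↥(RE A E) →+* ↥A :=
  ((algebraMap E Q̄).comp (RE A E).subtype).codRestrict A (fun x => x.2)

@[simp]
theorem coe_toA (x : RE A E) : ((toA A E x : A) : Q̄) = ((x : E) : Q̄) := rfl

theorem toA_injective : Function.Injective (toA A E) := by
  intro x y h
  have h' : ((x : E) : Q̄) = ((y : E) : Q̄) := congrArg (fun z : A => (z : Q̄)) h
  exact Subtype.ext (Subtype.ext h')

theorem subtype_comp_toA :
    (A.subtype : ↥A →+* Q̄).comp (toA A E) = (algebraMap E Q̄).comp (RE A E).subtype :=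
  RingHom.ext fun _ => rfl

instance isLocalHom_toA : IsLocalHom (toA A E) where
  map_nonunit := by
    intro a ha
    obtain ⟨b, hb⟩ := isUnit_iff_exists_inv.mp ha
    have hb' : ((a : E) : Q̄) * (b : Q̄) = 1 := congrArg (fun z : A => (z : Q̄)) hb
    have ha0 : (a : E) ≠ 0 := by
      rintro h0
      rw [h0] at hb'
      simp at hb'
    have hinv : ((a : E)⁻¹ : E) ∈ RE A E := by
      rw [mem_RE]
      have : (((a : E)⁻¹ : E) : Q̄) = (b : Q̄) := by
        have h1 : (((a : E)⁻¹ : E) : Q̄) = ((a : E) : Q̄)⁻¹ := by simp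
        rw [h1]
        exact inv_eq_of_mul_eq_one_right hb'
      rw [this]
      exact b.2
    exact isUnit_iff_exists_inv.mpr ⟨⟨(a : E)⁻¹, hinv⟩, Subtype.ext (mul_inv_cancel₀ ha0)⟩

/-- The map of residue fields `κ_E → k`. -/
def resMap : IsLocalRing.ResidueField (RE A E) →+* IsLocalRing.ResidueField A :=
  IsLocalRing.ResidueField.map (toA A E)

theorem resMap_injective : Function.Injective (resMap A E) := (resMap A E).injective

theorem resMap_comp_residue :
    (resMap A E).comp (IsLocalRing.residue (RE A E)) = (IsLocalRing.residue A).comp (toA A E) :=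
  IsLocalRing.ResidueField.map_comp_residue (toA A E)

theorem coeffMap_residue_toA (V : LaurentSeries (RE A E)) :
    coeffMap (IsLocalRing.residue A) (coeffMap (toA A E) V) =
      coeffMap (resMap A E) (coeffMap (IsLocalRing.residue (RE A E)) V) := by
  rw [coeffMap_coeffMap, coeffMap_coeffMap, resMap_comp_residue]

variable {A E}

/-- A series over `A` whose image in `Q̄((q))` is defined over `E` comes from a series over
`R_E = A ∩ E`. -/
theorem exists_series_descent {F₀ : IntermediateField ℚ (LaurentSeries ℚ)} (U : LaurentSeries A)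
    (h : DescendsTo F₀ E (coeffMap A.subtype U)) :
    ∃ V : LaurentSeries (RE A E),
      coeffMap (RE A E).subtype V ∈ laurentBaseChange E F₀ ∧ coeffMap (toA A E) V = U := by
  obtain ⟨y, hy, hyU⟩ := h
  have hc : ∀ n, y.coeff n ∈ Set.range (RE A E).subtype := by
    intro n
    have h1 : algebraMap E Q̄ (y.coeff n) = ((U.coeff n : A) : Q̄) := by
      have := congrArg (fun z => z.coeff n) hyU
      simpa using this
    refine ⟨⟨y.coeff n, ?_⟩, rfl⟩
    rw [mem_RE]
    change algebraMap E Q̄ (y.coeff n) ∈ A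
    rw [h1]
    exact (U.coeff n).2
  obtain ⟨V, hV⟩ := exists_coeffMap_eq (RE A E).subtype Subtype.val_injective y hc
  refine ⟨V, hV ▸ hy, ?_⟩
  apply coeffMap_injective A.subtype Subtype.val_injective
  rw [coeffMap_coeffMap, ← hyU, ← hV, coeffMap_coeffMap, subtype_comp_toA]

end RE

/-! ## 5. CORE over `A` from CORE over the rings `R_E` -/

section Core

variable (A : ValuationSubring Q̄) (E : IntermediateField ℚ Q̄) (N : ℕ)

/-- `IsIntAt A E N V`: the series `V ∈ R_E((q))` lies in `F_{N,E} = E(j(q^d) : d ∣ N)` and has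
nonzero reduction modulo the maximal ideal of `R_E`. -/
def IsIntAt (V : LaurentSeries (RE A E)) : Prop :=
  coeffMap (RE A E).subtype V ∈ laurentBaseChange E (modularFunctionFieldFull N) ∧
    coeffMap (IsLocalRing.residue (RE A E)) V ≠ 0

variable {A E N}

theorem IsIntAt.mem_bar {V : LaurentSeries (RE A E)} (h : IsIntAt A E N V) :
    coeffMap (algebraMap E Q̄) (coeffMap (RE A E).subtype V) ∈ modularFunctionFieldBar N :=
  coeffMap_mem_laurentBaseChange _ _ h.1

/-- The element of `F̄_N = Q̄(j(q^d) : d ∣ N)` defined by an integral series over `R_E`. -/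
def toFbar {V : LaurentSeries (RE A E)} (h : IsIntAt A E N V) : modularFunctionFieldBar N :=
  ⟨coeffMap (algebraMap E Q̄) (coeffMap (RE A E).subtype V), h.mem_bar⟩

theorem coe_toFbar {V : LaurentSeries (RE A E)} (h : IsIntAt A E N V) :
    (toFbar h : LaurentSeries Q̄) = coeffMap A.subtype (coeffMap (toA A E) V) := by
  rw [coeffMap_coeffMap, subtype_comp_toA, ← coeffMap_coeffMap]
  rfl

variable (A E N)

/-- CORE over the ring `R_E = A ∩ E` (a discrete valuation ring when `E/ℚ` is finite and `A`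
lies over a prime, see `isDiscreteValuationRing_RE`): two integral series over `R_E` with the
same (nonzero) reduction, whose quotient has divisor divisible by `m` on `F̄_N`, differ by a
constant times an `m`-th power in `F̄_N`. -/
def CoreAt (m : ℕ) : Prop :=
  ∀ (V₁ V₂ : LaurentSeries (RE A E)) (h₁ : IsIntAt A E N V₁) (h₂ : IsIntAt A E N V₂),
    coeffMap (IsLocalRing.residue (RE A E)) V₁ = coeffMap (IsLocalRing.residue (RE A E)) V₂ →
    (∀ v : Place Q̄ (modularFunctionFieldBar N),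
      (m : ℤ) ∣ v.ord (toFbar h₁) - v.ord (toFbar h₂)) →
    ∃ (c : Q̄) (y : modularFunctionFieldBar N), c ≠ 0 ∧ y ≠ 0 ∧
      toFbar h₁ = algebraMap Q̄ (modularFunctionFieldBar N) c * y ^ m * toFbar h₂

variable {A N}

/-- **Descent (piece d1).**  If CORE holds over `R_E = A ∩ E` for every finite extension `E/ℚ`
inside `Q̄` containing a fixed finite extension `E₀`, then CORE holds over `A`: this is
`Fermat.Agent.S18.CoreStatement N A m` of the row's `Spec.lean`, with `IsInt` and `toF` unfolded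
(the hypothesis that the reduction lies in `F_{N,k}` is not needed). -/
theorem core_of_coreAt (m : ℕ) (E₀ : IntermediateField ℚ Q̄) [FiniteDimensional ℚ E₀]
    (H : ∀ E : IntermediateField ℚ Q̄, FiniteDimensional ℚ E → E₀ ≤ E → CoreAt A E N m)
    (U₁ U₂ : LaurentSeries A)
    (h₁ : coeffMap A.subtype U₁ ∈ modularFunctionFieldBar N)
    (h₂ : coeffMap A.subtype U₂ ∈ modularFunctionFieldBar N)
    (hne : coeffMap (IsLocalRing.residue A) U₁ ≠ 0)
    (hred : coeffMap (IsLocalRing.residue A) U₁ = coeffMap (IsLocalRing.residue A) U₂)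
    (hdiv : ∀ v : Place Q̄ (modularFunctionFieldBar N),
      (m : ℤ) ∣ v.ord (⟨coeffMap A.subtype U₁, h₁⟩ : modularFunctionFieldBar N) -
        v.ord (⟨coeffMap A.subtype U₂, h₂⟩ : modularFunctionFieldBar N)) :
    ∃ (c : Q̄) (y : modularFunctionFieldBar N), c ≠ 0 ∧ y ≠ 0 ∧
      (⟨coeffMap A.subtype U₁, h₁⟩ : modularFunctionFieldBar N) =
        algebraMap Q̄ (modularFunctionFieldBar N) c * y ^ m *
          (⟨coeffMap A.subtype U₂, h₂⟩ : modularFunctionFieldBar N) := by
  obtain ⟨E, hE, hE₀, d₁, d₂⟩ := exists_finite_descent₂ E₀ h₁ h₂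
  obtain ⟨V₁, hV₁, rfl⟩ := exists_series_descent U₁ d₁
  obtain ⟨V₂, hV₂, rfl⟩ := exists_series_descent U₂ d₂
  have hinj := coeffMap_injective (resMap A E) (resMap_injective A E)
  rw [coeffMap_residue_toA] at hne
  rw [coeffMap_residue_toA, coeffMap_residue_toA] at hred
  have i₁ : IsIntAt A E N V₁ := ⟨hV₁, fun h0 => hne (by rw [h0, map_zero])⟩
  have i₂ : IsIntAt A E N V₂ := ⟨hV₂, fun h0 => hne (by rw [hred, h0, map_zero])⟩
  have e₁ : toFbar i₁ = (⟨coeffMap A.subtype (coeffMap (toA A E) V₁), h₁⟩ :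
      modularFunctionFieldBar N) := Subtype.ext (coe_toFbar i₁)
  have e₂ : toFbar i₂ = (⟨coeffMap A.subtype (coeffMap (toA A E) V₂), h₂⟩ :
      modularFunctionFieldBar N) := Subtype.ext (coe_toFbar i₂)
  obtain ⟨c, y, hc, hy, hcy⟩ := H E hE hE₀ V₁ V₂ i₁ i₂ (hinj hred) (by
    intro v
    rw [e₁, e₂]
    exact hdiv v)
  exact ⟨c, y, hc, hy, by rw [← e₁, ← e₂]; exact hcy⟩

end Core

end Fermat.Agent.S18.H602

end
end
-- ===== PACK-END S18/H602/Descent.lean

-- ===== PACK-BEGIN S36/H756/DescSpan.lean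
section



/-!
# S36 engine, leaf DESC (owner helper756) — `laurentBaseChange L F₀` is the `L`-span of `F₀`

For a field `L` algebraic over `ℚ`, the compositum `L · F₀ ⊆ L((q))` is the `L`-linear span of
(the image of) `F₀` : `mem_span_coeffEmb`.
-/

set_option autoImplicit false

noncomputable section

namespace Fermat.Agent.S36.H756

open ModularCurve HahnSeries IntermediateField

section Span

variable {L : Type*} [Field L] [Algebra ℚ L]
variable (F₀ : IntermediateField ℚ (LaurentSeries ℚ))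

/-- The image of `F₀` in `L((q))`. -/
def imgF₀ (L : Type*) [Field L] [Algebra ℚ L] (F₀ : IntermediateField ℚ (LaurentSeries ℚ)) :
    Set (LaurentSeries L) :=
  ⇑(coeffEmb L) '' (F₀ : Set (LaurentSeries ℚ))

variable {F₀}

omit [Algebra ℚ L] in
/-- Scalar multiplication by a constant is multiplication by the constant series. -/
theorem smul_eq_algebraMap_mul (a : L) (y : LaurentSeries L) :
    a • y = algebraMap L (LaurentSeries L) a * y := by
  rw [algebraMap_laurentSeries_eq_single]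
  ext n
  simp

theorem one_mem_imgF₀ : (1 : LaurentSeries L) ∈ imgF₀ L F₀ :=
  ⟨1, F₀.one_mem, map_one _⟩

theorem mul_mem_imgF₀ {x y : LaurentSeries L} (hx : x ∈ imgF₀ L F₀) (hy : y ∈ imgF₀ L F₀) :
    x * y ∈ imgF₀ L F₀ := by
  obtain ⟨a, ha, rfl⟩ := hx
  obtain ⟨b, hb, rfl⟩ := hy
  exact ⟨a * b, F₀.mul_mem ha hb, map_mul _ _ _⟩

/-- The span of `F₀` is stable under multiplication by elements of `F₀`. -/
theorem mul_mem_span_imgF₀ {u x : LaurentSeries L} (hu : u ∈ imgF₀ L F₀)
    (hx : x ∈ Submodule.span L (imgF₀ L F₀)) : u * x ∈ Submodule.span L (imgF₀ L F₀) := by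
  induction hx using Submodule.span_induction with
  | mem y hy => exact Submodule.subset_span (mul_mem_imgF₀ hu hy)
  | zero => simp
  | add y z _ _ hy hz =>
      rw [mul_add]
      exact Submodule.add_mem _ hy hz
  | smul a y _ hy =>
      have : u * (a • y) = a • (u * y) := by
        rw [smul_eq_algebraMap_mul, smul_eq_algebraMap_mul]
        ring
      rw [this]
      exact Submodule.smul_mem _ a hy

variable [Algebra.IsAlgebraic ℚ L]

/-- **Span lemma.** The compositum `L · F₀` inside `L((q))` is the `L`-span of `F₀`. -/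
theorem mem_span_coeffEmb {x : LaurentSeries L} (hx : x ∈ laurentBaseChange L F₀) :
    x ∈ Submodule.span L (imgF₀ L F₀) := by
  let algF : Algebra F₀ (LaurentSeries L) :=
    ((coeffEmb L).comp (algebraMap F₀ (LaurentSeries ℚ))).toAlgebra
  have hmap : ∀ a : F₀, algebraMap F₀ (LaurentSeries L) a = coeffEmb L (a : LaurentSeries ℚ) :=
    fun _ => rfl
  set S : Set (LaurentSeries L) := Set.range (algebraMap L (LaurentSeries L)) with hS
  have halg : ∀ y ∈ S, IsAlgebraic F₀ y := by
    rintro _ ⟨e, rfl⟩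
    obtain ⟨p, hp0, hp⟩ : IsAlgebraic ℚ e := Algebra.IsAlgebraic.isAlgebraic e
    refine ⟨p.map (algebraMap ℚ F₀), ?_, ?_⟩
    · exact (Polynomial.map_ne_zero_iff (algebraMap ℚ F₀).injective).2 hp0
    · rw [Polynomial.aeval_def, Polynomial.eval₂_map]
      have hcomp : (algebraMap F₀ (LaurentSeries L)).comp (algebraMap ℚ F₀)
          = (algebraMap L (LaurentSeries L)).comp (algebraMap ℚ L) := Subsingleton.elim _ _
      rw [hcomp, ← Polynomial.hom_eval₂, ← Polynomial.aeval_def, hp, map_zero]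
  have hW : (IntermediateField.adjoin F₀ S).toSubalgebra = Algebra.adjoin F₀ S :=
    IntermediateField.adjoin_toSubalgebra_of_isAlgebraic halg
  have hxW : x ∈ IntermediateField.adjoin F₀ S := by
    rw [mem_laurentBaseChange_iff] at hx
    have hle : Subfield.closure
        (Set.range (algebraMap L (LaurentSeries L)) ∪
          (⇑(coeffEmb L) '' (F₀ : Set (LaurentSeries ℚ))))
        ≤ (IntermediateField.adjoin F₀ S).toSubfield := by
      rw [Subfield.closure_le]
      rintro y (hy | ⟨a, ha, rfl⟩)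
      · exact IntermediateField.subset_adjoin F₀ S hy
      · exact (IntermediateField.adjoin F₀ S).algebraMap_mem ⟨a, ha⟩
    exact hle hx
  have hx2 : x ∈ Algebra.adjoin F₀ S := by
    rw [← hW]
    exact hxW
  rw [← Subalgebra.mem_toSubmodule, Algebra.adjoin_eq_span] at hx2
  have hclos : (Submonoid.closure S : Set (LaurentSeries L)) = S := by
    have : S = ((MonoidHom.mrange (algebraMap L (LaurentSeries L) : L →* LaurentSeries L) :
        Submonoid (LaurentSeries L)) : Set (LaurentSeries L)) := by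
      rw [MonoidHom.coe_mrange]
      rfl
    rw [this, Submonoid.closure_eq]
  rw [hclos] at hx2
  clear hxW hx
  induction hx2 using Submodule.span_induction with
  | mem y hy =>
      obtain ⟨e, rfl⟩ := hy
      have : algebraMap L (LaurentSeries L) e = e • (1 : LaurentSeries L) := by
        rw [smul_eq_algebraMap_mul, mul_one]
      rw [this]
      exact Submodule.smul_mem _ e (Submodule.subset_span one_mem_imgF₀)
  | zero => simp
  | add y z _ _ hy hz => exact Submodule.add_mem _ hy hz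
  | smul a y _ hy =>
      have : a • y = coeffEmb L (a : LaurentSeries ℚ) * y := by
        rw [Algebra.smul_def, hmap]
      rw [this]
      exact mul_mem_span_imgF₀ ⟨a, a.2, rfl⟩ hy

end Span

end Fermat.Agent.S36.H756

end
end
-- ===== PACK-END S36/H756/DescSpan.lean

-- ===== PACK-BEGIN S24/FFBasic.lean
section



/-!
# S24 / FF layer: basic facts on `AlgebraicCurve.Place`

Embedding-free algebraic core (helper804).
-/

set_option autoImplicit false

namespace Fermat.Agent.S24.FF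

open AlgebraicCurve

variable {K F : Type*} [Field K] [Field F] [Algebra K F]

section Basic

variable (v : Place K F)

theorem exists_irreducible_coe :
    ∃ π : v.toValuationSubring, Irreducible π ∧ v.ord (π : F) = 1 := by
  obtain ⟨π, hπ⟩ := IsDiscreteValuationRing.exists_irreducible v.toValuationSubring
  exact ⟨π, hπ, v.ord_coe_irreducible hπ⟩

theorem mem_of_ord_nonneg {f : F} (h : 0 ≤ v.ord f) : f ∈ v.toValuationSubring := by
  rcases eq_or_ne f 0 with rfl | hf
  · exact zero_mem _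
  obtain ⟨π, hπ⟩ := IsDiscreteValuationRing.exists_irreducible v.toValuationSubring
  obtain ⟨u, hu⟩ := v.exists_unit_mul_zpow hf hπ
  rw [hu]
  refine mul_mem (u : v.toValuationSubring).2 ?_
  obtain ⟨n, hn⟩ := Int.eq_ofNat_of_zero_le h
  rw [hn, zpow_natCast]
  exact pow_mem π.2 n

theorem ord_nonneg_of_mem {f : F} (h : f ∈ v.toValuationSubring) : 0 ≤ v.ord f := by
  rcases eq_or_ne f 0 with rfl | hf
  · simp
  by_contra hneg
  rw [not_le] at hneg
  obtain ⟨π, hπ⟩ := IsDiscreteValuationRing.exists_irreducible v.toValuationSubring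
  obtain ⟨u, hu⟩ := v.exists_unit_mul_zpow hf hπ
  have hπF : (π : F) ≠ 0 := by
    simpa [ne_eq, ZeroMemClass.coe_eq_zero] using hπ.ne_zero
  -- `f * π ^ (-ord f) = u`
  obtain ⟨n, hn⟩ := Int.eq_ofNat_of_zero_le (show 0 ≤ -v.ord f - 1 by omega)
  have hord : v.ord f = -((n : ℤ) + 1) := by omega
  have key : f * (π : F) ^ (n + 1) = ((u : v.toValuationSubring) : F) := by
    conv_lhs => rw [hu, hord]
    rw [zpow_neg, mul_assoc, ← zpow_natCast (π : F) (n + 1)]
    push_cast
    rw [inv_mul_cancel₀ (zpow_ne_zero _ hπF), mul_one]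
  have hmem : (⟨f, h⟩ : v.toValuationSubring) * π ^ (n + 1) = (u : v.toValuationSubring) :=
    Subtype.ext (by simpa using key)
  have hunit : IsUnit ((⟨f, h⟩ : v.toValuationSubring) * π ^ (n + 1)) := hmem ▸ u.isUnit
  have := (IsUnit.mul_iff.mp hunit).2
  rw [pow_succ] at this
  exact hπ.not_isUnit (IsUnit.mul_iff.mp this).2

theorem mem_iff_ord_nonneg {f : F} : f ∈ v.toValuationSubring ↔ 0 ≤ v.ord f :=
  ⟨ord_nonneg_of_mem v, mem_of_ord_nonneg v⟩

theorem ord_algebraMap (a : K) : v.ord (algebraMap K F a) = 0 := by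
  rcases eq_or_ne a 0 with rfl | ha
  · simp
  have h1 := ord_nonneg_of_mem v (v.algebraMap_mem' a)
  have h2 := ord_nonneg_of_mem v (v.algebraMap_mem' a⁻¹)
  rw [map_inv₀, v.ord_inv] at h2
  omega

theorem ord_pos_iff_mem_nonunits {f : F} (hf : f ≠ 0) :
    0 < v.ord f ↔ f ∈ v.toValuationSubring.nonunits := by
  rw [ValuationSubring.mem_nonunits_iff_exists_mem_maximalIdeal]
  constructor
  · intro h
    refine ⟨mem_of_ord_nonneg v h.le, ?_⟩
    rw [IsLocalRing.mem_maximalIdeal, mem_nonunits_iff]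
    intro hu
    have := v.ord_coe_unit hu.unit
    simp only [IsUnit.unit_spec] at this
    omega
  · rintro ⟨hmem, hmax⟩
    have h0 := ord_nonneg_of_mem v hmem
    rcases h0.lt_or_eq with h | h
    · exact h
    exfalso
    have hinv : f⁻¹ ∈ v.toValuationSubring := mem_of_ord_nonneg v (by rw [v.ord_inv]; omega)
    rw [IsLocalRing.mem_maximalIdeal, mem_nonunits_iff] at hmax
    apply hmax
    refine IsUnit.of_mul_eq_one (⟨f⁻¹, hinv⟩ : v.toValuationSubring) (Subtype.ext ?_)
    simp [hf]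

theorem ord_add_ge {f g : F} (hfg : f + g ≠ 0) :
    min (v.ord f) (v.ord g) ≤ v.ord (f + g) := by
  rcases eq_or_ne f 0 with rfl | hf
  · simp
  rcases eq_or_ne g 0 with rfl | hg
  · simp
  obtain ⟨π, hπ⟩ := IsDiscreteValuationRing.exists_irreducible v.toValuationSubring
  have hπF : (π : F) ≠ 0 := by
    simpa [ne_eq, ZeroMemClass.coe_eq_zero] using hπ.ne_zero
  set m := min (v.ord f) (v.ord g) with hm
  have hf' : (π : F) ^ (-m) * f ∈ v.toValuationSubring := by
    apply mem_of_ord_nonneg v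
    rw [v.ord_mul (zpow_ne_zero _ hπF) hf, v.ord_zpow, v.ord_coe_irreducible hπ]
    have := min_le_left (v.ord f) (v.ord g)
    omega
  have hg' : (π : F) ^ (-m) * g ∈ v.toValuationSubring := by
    apply mem_of_ord_nonneg v
    rw [v.ord_mul (zpow_ne_zero _ hπF) hg, v.ord_zpow, v.ord_coe_irreducible hπ]
    have := min_le_right (v.ord f) (v.ord g)
    omega
  have hsum := ord_nonneg_of_mem v (add_mem hf' hg')
  rw [← mul_add, v.ord_mul (zpow_ne_zero _ hπF) hfg, v.ord_zpow, v.ord_coe_irreducible hπ] at hsum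
  omega

end Basic

end Fermat.Agent.S24.FF

end
-- ===== PACK-END S24/FFBasic.lean

-- ===== PACK-BEGIN Lib/RR/Defs.lean
section




/-!
# Shared library RR: Riemann's theorem and the Riemann–Roch theorem for function fields

Language: the Prelude's `AlgebraicCurve.Place`, `Divisor`, `riemannRochSpace`, `repartitions`,
`repartitionsOf`, `principalRepartitions`, `H1`, `genusFF`.

Standing hypotheses (`FF1 K F`): every nonzero function has a divisor of degree `0`
(`HasPrincipalDivisors`), every place has degree one (e.g. `K` algebraically closed and finite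
residue fields), there is at least one place, and `F` is finite over `K(x)` for some
transcendental `x`.
-/

set_option autoImplicit false

noncomputable section

open AlgebraicCurve

namespace Fermat.Agent.Lib.RR

variable (K F : Type*) [Field K] [Field F] [Algebra K F]

/-- Standing hypotheses of the RR library: a function field of one variable over `K`, all of whose
places have degree one. -/
class FF1 : Prop where
  /-- every nonzero function has a divisor, of degree zero -/
  hpd : HasPrincipalDivisors K F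
  /-- every place has degree one -/
  deg_eq_one : ∀ v : Place K F, v.deg = 1
  /-- there is a place -/
  nonempty_place : Nonempty (Place K F)
  /-- `F` is a finite extension of a rational function field -/
  exists_finite : ∃ x : F, Transcendental K x ∧
    FiniteDimensional (IntermediateField.adjoin K {x}) F

variable {K F}

/-- `ℓ(D) = dim_K L(D)`. -/
def ell (D : Divisor K F) : ℕ := Module.finrank K (riemannRochSpace D)

/-- The prime divisor of a place. -/
def prim (v : Place K F) : Divisor K F := Finsupp.single v 1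

end Fermat.Agent.Lib.RR

end
end
-- ===== PACK-END Lib/RR/Defs.lean

-- ===== PACK-BEGIN S24/H624/HoloRing.lean
section


/-!
# The ring of holomorphic functions on the upper half-plane and Taylor expansions

Architecture-independent analytic foundation for the S24 / S28 long shots.
-/

set_option autoImplicit false

namespace Fermat.Agent.S24.H624

open UpperHalfPlane Complex
open scoped Manifold Topology

/-- The `ℂ`-algebra of holomorphic functions on the upper half-plane. -/
def holoRing : Subalgebra ℂ (ℍ → ℂ) where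
  carrier := {f | MDiff f}
  mul_mem' := fun hf hg => hf.mul hg
  add_mem' := fun hf hg => hf.add hg
  algebraMap_mem' := fun _ => mdifferentiable_const

theorem mem_holoRing {f : ℍ → ℂ} : f ∈ holoRing ↔ MDiff f := Iff.rfl

/-- A holomorphic function on `ℍ`, extended by junk to `ℂ`, is analytic at every point of `ℍ`. -/
theorem analyticAt_of_mdiff {f : ℍ → ℂ} (hf : MDiff f) (τ : ℍ) :
    AnalyticAt ℂ (f ∘ ofComplex) (τ : ℂ) :=
  ((UpperHalfPlane.mdifferentiable_iff.mp hf).analyticOnNhd isOpen_upperHalfPlaneSet) _ τ.im_pos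

theorem analyticAt_of_mdiff' {f : ℍ → ℂ} (hf : MDiff f) {z : ℂ} (hz : 0 < z.im) :
    AnalyticAt ℂ (f ∘ ofComplex) z :=
  ((UpperHalfPlane.mdifferentiable_iff.mp hf).analyticOnNhd isOpen_upperHalfPlaneSet) _ hz

/-- Order of vanishing at `τ` of a function on the upper half-plane. -/
noncomputable def ordAt (τ : ℍ) (f : ℍ → ℂ) : ℕ∞ := analyticOrderAt (f ∘ ofComplex) (τ : ℂ)

theorem ordAt_def (τ : ℍ) (f : ℍ → ℂ) : ordAt τ f = analyticOrderAt (f ∘ ofComplex) (τ : ℂ) := rfl

theorem eq_zero_of_eventually_zero {f : ℍ → ℂ} (hf : MDiff f) {τ : ℍ}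
    (h : ∀ᶠ z in 𝓝 (τ : ℂ), (f ∘ ofComplex) z = 0) : f = 0 := by
  have han := (UpperHalfPlane.mdifferentiable_iff.mp hf).analyticOnNhd isOpen_upperHalfPlaneSet
  have hpre : IsPreconnected {z : ℂ | 0 < z.im} :=
    (Complex.isConnected_of_upperHalfPlane subset_rfl
      (fun z (hz : 0 < z.im) => le_of_lt hz)).isPreconnected
  have := han.eqOn_zero_of_preconnected_of_eventuallyEq_zero hpre τ.im_pos h
  funext w
  have hw := this w.im_pos
  simpa [Function.comp_apply, ofComplex_apply] using hw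

theorem ordAt_eq_top_iff {f : ℍ → ℂ} (hf : MDiff f) (τ : ℍ) : ordAt τ f = ⊤ ↔ f = 0 := by
  constructor
  · intro h
    exact eq_zero_of_eventually_zero hf (analyticOrderAt_eq_top.mp h)
  · rintro rfl
    rw [ordAt_def, analyticOrderAt_eq_top]
    exact Filter.Eventually.of_forall fun z => rfl

theorem ordAt_ne_top {f : ℍ → ℂ} (hf : MDiff f) (hf0 : f ≠ 0) (τ : ℍ) : ordAt τ f ≠ ⊤ :=
  fun h => hf0 ((ordAt_eq_top_iff hf τ).mp h)

theorem ordAt_mul {f g : ℍ → ℂ} (hf : MDiff f) (hg : MDiff g) (τ : ℍ) :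
    ordAt τ (f * g) = ordAt τ f + ordAt τ g :=
  analyticOrderAt_mul (analyticAt_of_mdiff hf τ) (analyticAt_of_mdiff hg τ)

theorem ordAt_eq_zero_iff {f : ℍ → ℂ} (hf : MDiff f) (τ : ℍ) : ordAt τ f = 0 ↔ f τ ≠ 0 := by
  rw [ordAt_def, (analyticAt_of_mdiff hf τ).analyticOrderAt_eq_zero]
  simp [Function.comp_apply, ofComplex_apply]

theorem le_ordAt_add {f g : ℍ → ℂ} (τ : ℍ) :
    min (ordAt τ f) (ordAt τ g) ≤ ordAt τ (f + g) :=
  le_analyticOrderAt_add

theorem ordAt_zero (τ : ℍ) : ordAt τ (0 : ℍ → ℂ) = ⊤ := by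
  rw [ordAt_def, analyticOrderAt_eq_top]
  exact Filter.Eventually.of_forall fun z => rfl

theorem mul_eq_zero_of_mdiff {f g : ℍ → ℂ} (hf : MDiff f) (hg : MDiff g) (h : f * g = 0) :
    f = 0 ∨ g = 0 := by
  by_contra hcon
  rw [not_or] at hcon
  have h1 := ordAt_mul hf hg UpperHalfPlane.I
  rw [h, ordAt_zero] at h1
  have h3 := ordAt_ne_top hf hcon.1 UpperHalfPlane.I
  have h4 := ordAt_ne_top hg hcon.2 UpperHalfPlane.I
  exact (WithTop.add_ne_top.mpr ⟨h3, h4⟩) h1.symm

instance instNontrivialHoloRing : Nontrivial holoRing :=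
  ⟨⟨0, 1, fun h => by
    have := congrArg (fun f : holoRing => (f : ℍ → ℂ) UpperHalfPlane.I) h
    simp at this⟩⟩

instance instNoZeroDivisorsHoloRing : NoZeroDivisors holoRing :=
  ⟨by
    intro a b hab
    have h2 : ((a : ℍ → ℂ) * (b : ℍ → ℂ)) = 0 := by
      have := congrArg (Subtype.val) hab
      simpa using this
    rcases mul_eq_zero_of_mdiff a.2 b.2 h2 with h | h
    · exact Or.inl (Subtype.ext h)
    · exact Or.inr (Subtype.ext h)⟩

instance instIsDomainHoloRing : IsDomain holoRing := NoZeroDivisors.to_isDomain _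

end Fermat.Agent.S24.H624

end
-- ===== PACK-END S24/H624/HoloRing.lean

-- ===== PACK-BEGIN S20/CuspCount360.lean
section



/-!
# Number of `T`-orbits on `SL(2,ℤ) ⧸ Γ₀(N)` equals `cuspCount N`

Pure group theory / elementary number theory (no analysis).
Main result: `Fermat.Agent.S20.CuspCount360.card_orbits_T`.
-/

set_option autoImplicit false

open scoped MatrixGroups
open CongruenceSubgroup Matrix

namespace Fermat.Agent.S20.CuspCount360

/-! ## Arithmetic core -/

section Arith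

/-- `→` part 1: the gcd of the lower-left entry with `N` is an invariant. -/
theorem gcd_eq_of_dvd {N : ℕ} {a c a' c' : ℤ} (hac : IsCoprime a c) (hac' : IsCoprime a' c')
    (h : (N : ℤ) ∣ a * c' - c * a') : Int.gcd c N = Int.gcd c' N := by
  apply Nat.dvd_antisymm
  · -- d ∣ c'
    apply Int.dvd_gcd _ (Int.gcd_dvd_right c N)
    have hd1 : ((Int.gcd c N : ℕ) : ℤ) ∣ c := Int.gcd_dvd_left c N
    have hd2 : ((Int.gcd c N : ℕ) : ℤ) ∣ a * c' - c * a' := (Int.gcd_dvd_right c N).trans h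
    have hd3 : ((Int.gcd c N : ℕ) : ℤ) ∣ a * c' := by
      have := dvd_add hd2 (hd1.mul_right a')
      simpa using this
    have hcop : IsCoprime ((Int.gcd c N : ℕ) : ℤ) a :=
      (IsCoprime.of_isCoprime_of_dvd_right hac hd1).symm
    exact hcop.dvd_of_dvd_mul_left hd3
  · apply Int.dvd_gcd _ (Int.gcd_dvd_right c' N)
    have hd1 : ((Int.gcd c' N : ℕ) : ℤ) ∣ c' := Int.gcd_dvd_left c' N
    have hd2 : ((Int.gcd c' N : ℕ) : ℤ) ∣ a * c' - c * a' := (Int.gcd_dvd_right c' N).trans h
    have hd3 : ((Int.gcd c' N : ℕ) : ℤ) ∣ a' * c := by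
      have := dvd_sub (hd1.mul_left a) hd2
      have e : a * c' - (a * c' - c * a') = a' * c := by ring
      rwa [e] at this
    have hcop : IsCoprime ((Int.gcd c' N : ℕ) : ℤ) a' :=
      (IsCoprime.of_isCoprime_of_dvd_right hac' hd1).symm
    exact hcop.dvd_of_dvd_mul_left hd3

/-- `→` part 2. Here `c = d * c₁`, `c' = d * c₁'`, `N = d * M`, and `e ∣ d`, `e ∣ M`. -/
theorem dvd_of_dvd {d M e a a' c₁ c₁' k : ℤ} (hd : d ≠ 0) (hed : e ∣ d) (heM : e ∣ M)
    (h : d * M ∣ (a + k * (d * c₁)) * (d * c₁') - (d * c₁) * a') :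
    e ∣ a * c₁' - a' * c₁ := by
  have h1 : d * M ∣ d * ((a + k * (d * c₁)) * c₁' - c₁ * a') := by
    have e1 : (a + k * (d * c₁)) * (d * c₁') - (d * c₁) * a'
        = d * ((a + k * (d * c₁)) * c₁' - c₁ * a') := by ring
    rwa [e1] at h
  have h2 : M ∣ (a + k * (d * c₁)) * c₁' - c₁ * a' := (mul_dvd_mul_iff_left hd).mp h1
  have h3 : e ∣ (a + k * (d * c₁)) * c₁' - c₁ * a' := heM.trans h2
  have h4 : e ∣ d * (k * c₁ * c₁') := hed.mul_right _
  have := dvd_sub h3 h4
  have e2 : (a + k * (d * c₁)) * c₁' - c₁ * a' - d * (k * c₁ * c₁') = a * c₁' - a' * c₁ := by ring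
  rwa [e2] at this

/-- `←`: solving the linear congruence. -/
theorem exists_k {d M a a' c₁ c₁' : ℤ} (h1 : IsCoprime c₁ M) (h1' : IsCoprime c₁' M)
    (h : ((Int.gcd d M : ℕ) : ℤ) ∣ a * c₁' - a' * c₁) :
    ∃ k : ℤ, d * M ∣ (a + k * (d * c₁)) * (d * c₁') - (d * c₁) * a' := by
  obtain ⟨t, ht⟩ := h
  obtain ⟨u, v, huv⟩ := h1
  obtain ⟨u', v', huv'⟩ := h1'
  have hb := Int.gcd_eq_gcd_ab d M
  set x := Int.gcdA d M
  set y := Int.gcdB d M
  -- z := u * u' is an inverse of c₁ c₁' mod M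
  refine ⟨-t * x * (u * u'), ?_⟩
  have e1 : (a + (-t * x * (u * u')) * (d * c₁)) * (d * c₁') - (d * c₁) * a'
      = d * ((a * c₁' - a' * c₁) - t * x * d * ((u * c₁) * (u' * c₁'))) := by ring
  rw [e1]
  apply mul_dvd_mul_left
  have e2 : u * c₁ = 1 - v * M := by linear_combination huv
  have e3 : u' * c₁' = 1 - v' * M := by linear_combination huv'
  rw [e2, e3, ht]
  refine ⟨t * y + t * x * d * (v + v' - v * v' * M), ?_⟩
  linear_combination (t) * hb

/-- Comparison of the `r`-invariants inside a fixed `ZMod e`. -/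
theorem val_mul_inv_eq_iff {e : ℕ} [NeZero e] {a a' c₁ c₁' : ℤ}
    (h1 : IsCoprime c₁ (e : ℤ)) (h1' : IsCoprime c₁' (e : ℤ)) :
    ((a : ZMod e) * (c₁ : ZMod e)⁻¹).val = ((a' : ZMod e) * (c₁' : ZMod e)⁻¹).val ↔
      (e : ℤ) ∣ a * c₁' - a' * c₁ := by
  have hu : IsUnit ((c₁ : ℤ) : ZMod e) := (ZMod.coe_int_isUnit_iff_isCoprime c₁ e).2 h1.symm
  have hu' : IsUnit ((c₁' : ℤ) : ZMod e) := (ZMod.coe_int_isUnit_iff_isCoprime c₁' e).2 h1'.symm
  have hi : ((c₁ : ℤ) : ZMod e) * ((c₁ : ℤ) : ZMod e)⁻¹ = 1 := ZMod.mul_inv_of_unit _ hu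
  have hi' : ((c₁' : ℤ) : ZMod e) * ((c₁' : ℤ) : ZMod e)⁻¹ = 1 := ZMod.mul_inv_of_unit _ hu'
  rw [(ZMod.val_injective e).eq_iff, ← ZMod.intCast_zmod_eq_zero_iff_dvd]
  push_cast
  constructor
  · intro h
    have : (a : ZMod e) * c₁' - a' * c₁
        = ((a : ZMod e) * (c₁ : ZMod e)⁻¹ - (a' : ZMod e) * (c₁' : ZMod e)⁻¹) * (c₁ * c₁')
          + (a : ZMod e) * c₁' * (1 - c₁ * (c₁ : ZMod e)⁻¹)
          - (a' : ZMod e) * c₁ * (1 - c₁' * (c₁' : ZMod e)⁻¹) := by ring
    rw [this, h, hi, hi']; ring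
  · intro h
    have : (a : ZMod e) * (c₁ : ZMod e)⁻¹ - (a' : ZMod e) * (c₁' : ZMod e)⁻¹
        = ((a : ZMod e) * c₁' - a' * c₁) * ((c₁ : ZMod e)⁻¹ * (c₁' : ZMod e)⁻¹)
          + (a : ZMod e) * (c₁ : ZMod e)⁻¹ * (1 - c₁' * (c₁' : ZMod e)⁻¹)
          - (a' : ZMod e) * (c₁' : ZMod e)⁻¹ * (1 - c₁ * (c₁ : ZMod e)⁻¹) := by ring
    have h0 := sub_eq_zero.mp (by rw [this, h, hi, hi']; ring :
      (a : ZMod e) * (c₁ : ZMod e)⁻¹ - (a' : ZMod e) * (c₁' : ZMod e)⁻¹ = 0)
    exact h0

end Arith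

/-! ## The invariant -/

section Invariant

variable (N : ℕ)

/-- `e(d) = gcd (d, N / d)`. -/
def eOf (d : ℕ) : ℕ := Nat.gcd d (N / d)

/-- The `r`-invariant computed with an explicit `d`. -/
noncomputable def rAux (d : ℕ) (a c : ℤ) : ℕ :=
  (((a : ℤ) : ZMod (eOf N d)) * (((c / (d : ℤ) : ℤ)) : ZMod (eOf N d))⁻¹).val

/-- The `d`-invariant `gcd (c, N)` of `g = [a b; c d]`. -/
def dInv (g : SL(2, ℤ)) : ℕ := Int.gcd ((g : Matrix (Fin 2) (Fin 2) ℤ) 1 0) N

/-- The full invariant `(d, r)`. -/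
noncomputable def cuspInv (g : SL(2, ℤ)) : (_ : ℕ) × ℕ :=
  ⟨dInv N g, rAux N (dInv N g) ((g : Matrix (Fin 2) (Fin 2) ℤ) 0 0)
    ((g : Matrix (Fin 2) (Fin 2) ℤ) 1 0)⟩

theorem isCoprime_col (g : SL(2, ℤ)) :
    IsCoprime ((g : Matrix (Fin 2) (Fin 2) ℤ) 0 0) ((g : Matrix (Fin 2) (Fin 2) ℤ) 1 0) := by
  have h := g.det_coe
  rw [Matrix.det_fin_two] at h
  exact ⟨(g : Matrix (Fin 2) (Fin 2) ℤ) 1 1, -(g : Matrix (Fin 2) (Fin 2) ℤ) 0 1, by
    linear_combination h⟩

theorem mk_eq_mk_iff (g g' : SL(2, ℤ)) :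
    ((g : SL(2, ℤ) ⧸ Gamma0 N) = (g' : SL(2, ℤ) ⧸ Gamma0 N)) ↔
      (N : ℤ) ∣ (g : Matrix (Fin 2) (Fin 2) ℤ) 0 0 * (g' : Matrix (Fin 2) (Fin 2) ℤ) 1 0
        - (g : Matrix (Fin 2) (Fin 2) ℤ) 1 0 * (g' : Matrix (Fin 2) (Fin 2) ℤ) 0 0 := by
  rw [QuotientGroup.eq, Gamma0_mem, ZMod.intCast_zmod_eq_zero_iff_dvd]
  have : ((g⁻¹ * g' : SL(2, ℤ)) : Matrix (Fin 2) (Fin 2) ℤ) 1 0
      = (g : Matrix (Fin 2) (Fin 2) ℤ) 0 0 * (g' : Matrix (Fin 2) (Fin 2) ℤ) 1 0
        - (g : Matrix (Fin 2) (Fin 2) ℤ) 1 0 * (g' : Matrix (Fin 2) (Fin 2) ℤ) 0 0 := by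
    rw [Matrix.SpecialLinearGroup.coe_mul, Matrix.SpecialLinearGroup.SL2_inv_expl]
    rw [Matrix.mul_apply, Fin.sum_univ_two]
    simp
    ring
  rw [this]

theorem T_zpow_mul_col (k : ℤ) (g : SL(2, ℤ)) :
    ((ModularGroup.T ^ k * g : SL(2, ℤ)) : Matrix (Fin 2) (Fin 2) ℤ) 0 0
        = (g : Matrix (Fin 2) (Fin 2) ℤ) 0 0 + k * (g : Matrix (Fin 2) (Fin 2) ℤ) 1 0 ∧
    ((ModularGroup.T ^ k * g : SL(2, ℤ)) : Matrix (Fin 2) (Fin 2) ℤ) 1 0
        = (g : Matrix (Fin 2) (Fin 2) ℤ) 1 0 := by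
  rw [Matrix.SpecialLinearGroup.coe_mul, ModularGroup.coe_T_zpow]
  constructor <;> rw [Matrix.mul_apply, Fin.sum_univ_two] <;> simp

/-- Data attached to `c` and `N ≠ 0`: `d = gcd (c, N)`, `c = d * c₁`, `N = d * M`,
`e = gcd (d, M)`, and `c₁` is coprime to `M` and to `e`. -/
theorem gcd_data {N : ℕ} (hN : N ≠ 0) (c : ℤ) :
    Int.gcd c N ≠ 0 ∧ Int.gcd c N ∣ N ∧
    ((Int.gcd c N : ℕ) : ℤ) * (c / ((Int.gcd c N : ℕ) : ℤ)) = c ∧
    ((Int.gcd c N : ℕ) : ℤ) * ((N / Int.gcd c N : ℕ) : ℤ) = (N : ℤ) ∧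
    IsCoprime (c / ((Int.gcd c N : ℕ) : ℤ)) ((N / Int.gcd c N : ℕ) : ℤ) ∧
    IsCoprime (c / ((Int.gcd c N : ℕ) : ℤ)) ((eOf N (Int.gcd c N) : ℕ) : ℤ) ∧
    eOf N (Int.gcd c N) ≠ 0 := by
  have hd0 : Int.gcd c N ≠ 0 := by
    intro h
    rw [Int.gcd_eq_zero_iff] at h
    exact hN (by exact_mod_cast h.2)
  have hdN : Int.gcd c N ∣ N := Int.natCast_dvd_natCast.mp (Int.gcd_dvd_right c N)
  have hc : ((Int.gcd c N : ℕ) : ℤ) * (c / ((Int.gcd c N : ℕ) : ℤ)) = c :=
    Int.mul_ediv_cancel' (Int.gcd_dvd_left c N)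
  have hNM : ((Int.gcd c N : ℕ) : ℤ) * ((N / Int.gcd c N : ℕ) : ℤ) = (N : ℤ) := by
    exact_mod_cast Nat.mul_div_cancel' hdN
  have hcop : IsCoprime (c / ((Int.gcd c N : ℕ) : ℤ)) ((N / Int.gcd c N : ℕ) : ℤ) := by
    rw [Int.isCoprime_iff_gcd_eq_one]
    have := Int.gcd_div_gcd_div_gcd (i := c) (j := (N : ℤ)) (Nat.pos_of_ne_zero hd0)
    rwa [← Int.natCast_div] at this
  have heM : ((eOf N (Int.gcd c N) : ℕ) : ℤ) ∣ ((N / Int.gcd c N : ℕ) : ℤ) :=
    Int.natCast_dvd_natCast.mpr (Nat.gcd_dvd_right _ _)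
  refine ⟨hd0, hdN, hc, hNM, hcop, IsCoprime.of_isCoprime_of_dvd_right hcop heM, ?_⟩
  exact Nat.gcd_ne_zero_left hd0

theorem arith_iff {N : ℕ} (hN : N ≠ 0) {a c a' c' : ℤ} (hac : IsCoprime a c)
    (hac' : IsCoprime a' c') :
    (∃ k : ℤ, (N : ℤ) ∣ (a + k * c) * c' - c * a') ↔
      (Int.gcd c N = Int.gcd c' N ∧ rAux N (Int.gcd c N) a c = rAux N (Int.gcd c N) a' c') := by
  obtain ⟨hd0, hdN, hc, hNM, hcop, hcope, he0⟩ := gcd_data hN c
  obtain ⟨hd0', hdN', hc', hNM', hcop', hcope', he0'⟩ := gcd_data hN c'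
  have : NeZero (eOf N (Int.gcd c N)) := ⟨he0⟩
  have hed : ((eOf N (Int.gcd c N) : ℕ) : ℤ) ∣ ((Int.gcd c N : ℕ) : ℤ) :=
    Int.natCast_dvd_natCast.mpr (Nat.gcd_dvd_left _ _)
  have heM : ((eOf N (Int.gcd c N) : ℕ) : ℤ) ∣ ((N / Int.gcd c N : ℕ) : ℤ) :=
    Int.natCast_dvd_natCast.mpr (Nat.gcd_dvd_right _ _)
  constructor
  · rintro ⟨k, hk⟩
    have hcopk : IsCoprime (a + k * c) c := hac.add_mul_right_left k
    have hdd : Int.gcd c N = Int.gcd c' N := gcd_eq_of_dvd hcopk hac' hk
    refine ⟨hdd, ?_⟩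
    rw [← hdd] at hc' hcope'
    unfold rAux
    rw [val_mul_inv_eq_iff hcope hcope']
    refine dvd_of_dvd (k := k) (by exact_mod_cast hd0) hed heM ?_
    rw [hNM, hc, hc']
    exact hk
  · rintro ⟨hdd, hr⟩
    rw [← hdd] at hc' hcope' hcop'
    unfold rAux at hr
    rw [val_mul_inv_eq_iff hcope hcope'] at hr
    have hr' : ((Int.gcd ((Int.gcd c N : ℕ) : ℤ) ((N / Int.gcd c N : ℕ) : ℤ) : ℕ) : ℤ) ∣
        a * (c' / ((Int.gcd c N : ℕ) : ℤ)) - a' * (c / ((Int.gcd c N : ℕ) : ℤ)) := by
      rw [Int.gcd_natCast_natCast]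
      exact hr
    obtain ⟨k, hk⟩ := exists_k (a := a) (a' := a') hcop hcop' hr'
    refine ⟨k, ?_⟩
    rw [hNM, hc, hc'] at hk
    exact hk

variable [NeZero N]

/-- Two cosets `gΓ₀(N)`, `g'Γ₀(N)` lie in the same `⟨T⟩`-orbit iff they have the same
invariant. -/
theorem orbit_iff (g g' : SL(2, ℤ)) :
    (∃ k : ℤ, ((ModularGroup.T ^ k * g : SL(2, ℤ)) : SL(2, ℤ) ⧸ Gamma0 N)
        = (g' : SL(2, ℤ) ⧸ Gamma0 N)) ↔ cuspInv N g = cuspInv N g' := by
  have key := arith_iff (NeZero.ne N) (isCoprime_col g) (isCoprime_col g')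
  constructor
  · rintro ⟨k, hk⟩
    rw [mk_eq_mk_iff, (T_zpow_mul_col k g).1, (T_zpow_mul_col k g).2] at hk
    obtain ⟨h1, h2⟩ := key.1 ⟨k, hk⟩
    unfold cuspInv dInv
    rw [← h1, h2]
  · intro h
    unfold cuspInv dInv at h
    rw [Sigma.mk.injEq] at h
    obtain ⟨h1, h2⟩ := h
    have h2' := eq_of_heq h2
    rw [← h1] at h2'
    obtain ⟨k, hk⟩ := key.2 ⟨h1, h2'⟩
    refine ⟨k, ?_⟩
    rw [mk_eq_mk_iff, (T_zpow_mul_col k g).1, (T_zpow_mul_col k g).2]
    exact hk

/-- The finite set of possible invariants. -/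
def cuspSet : Finset ((_ : ℕ) × ℕ) :=
  N.divisors.sigma fun d => (Finset.range (eOf N d)).filter fun r => (eOf N d).Coprime r

omit [NeZero N] in
theorem card_cuspSet : (cuspSet N).card = ModularCurve.cuspCount N := by
  unfold cuspSet ModularCurve.cuspCount
  rw [Finset.card_sigma]
  refine Finset.sum_congr rfl fun d _ => ?_
  rw [Nat.totient_eq_card_coprime]
  rfl

theorem cuspInv_mem (g : SL(2, ℤ)) : cuspInv N g ∈ cuspSet N := by
  obtain ⟨hd0, hdN, hc, hNM, hcop, hcope, he0⟩ :=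
    gcd_data (NeZero.ne N) ((g : Matrix (Fin 2) (Fin 2) ℤ) 1 0)
  have : NeZero (eOf N (Int.gcd ((g : Matrix (Fin 2) (Fin 2) ℤ) 1 0) N)) := ⟨he0⟩
  unfold cuspSet cuspInv dInv
  rw [Finset.mem_sigma, Nat.mem_divisors, Finset.mem_filter, Finset.mem_range]
  refine ⟨⟨hdN, NeZero.ne N⟩, ZMod.val_lt _, ?_⟩
  -- the value is a unit
  have hed : ((eOf N (Int.gcd ((g : Matrix (Fin 2) (Fin 2) ℤ) 1 0) N) : ℕ) : ℤ) ∣
      (g : Matrix (Fin 2) (Fin 2) ℤ) 1 0 :=
    (Int.natCast_dvd_natCast.mpr (Nat.gcd_dvd_left _ _)).trans (Int.gcd_dvd_left _ _)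
  have hae : IsCoprime ((g : Matrix (Fin 2) (Fin 2) ℤ) 0 0)
      ((eOf N (Int.gcd ((g : Matrix (Fin 2) (Fin 2) ℤ) 1 0) N) : ℕ) : ℤ) :=
    IsCoprime.of_isCoprime_of_dvd_right (isCoprime_col g) hed
  have hua := (ZMod.coe_int_isUnit_iff_isCoprime _ _).2 hae.symm
  have huc := (ZMod.coe_int_isUnit_iff_isCoprime _ _).2 hcope.symm
  have hinv : IsUnit ((((g : Matrix (Fin 2) (Fin 2) ℤ) 1 0 /
      ((Int.gcd ((g : Matrix (Fin 2) (Fin 2) ℤ) 1 0) N : ℕ) : ℤ) : ℤ) :
        ZMod (eOf N (Int.gcd ((g : Matrix (Fin 2) (Fin 2) ℤ) 1 0) N)))⁻¹) :=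
    IsUnit.of_mul_eq_one _ (by rw [mul_comm]; exact ZMod.mul_inv_of_unit _ huc)
  have hu := hua.mul hinv
  have := ZMod.val_coe_unit_coprime hu.unit
  rw [IsUnit.unit_spec] at this
  exact this.symm

omit [NeZero N] in
/-- Every element of `cuspSet N` is the invariant of some `g`. -/
theorem exists_cuspInv_eq (p : (_ : ℕ) × ℕ) (hp : p ∈ cuspSet N) :
    ∃ g : SL(2, ℤ), cuspInv N g = p := by
  obtain ⟨d, r⟩ := p
  unfold cuspSet at hp
  rw [Finset.mem_sigma, Nat.mem_divisors, Finset.mem_filter, Finset.mem_range] at hp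
  obtain ⟨⟨hdN, hN⟩, hr, hcop⟩ := hp
  dsimp only at hdN hr hcop
  have hd0 : d ≠ 0 := fun h => hN (by rw [h] at hdN; exact Nat.eq_zero_of_zero_dvd hdN)
  have : NeZero d := ⟨hd0⟩
  have hed : eOf N d ∣ d := Nat.gcd_dvd_left _ _
  have he0 : eOf N d ≠ 0 := Nat.gcd_ne_zero_left hd0
  have : NeZero (eOf N d) := ⟨he0⟩
  -- lift the unit `r` mod `e` to a unit `v` mod `d`
  obtain ⟨v, hv⟩ := ZMod.unitsMap_surjective hed (ZMod.unitOfCoprime r hcop.symm)
  have hvcop : ((v : ZMod d).val).Coprime d := ZMod.val_coe_unit_coprime v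
  have hcast : (((v : ZMod d).val : ℕ) : ZMod (eOf N d)) = (r : ZMod (eOf N d)) := by
    have h1 := congrArg (fun u : (ZMod (eOf N d))ˣ => (u : ZMod (eOf N d))) hv
    simp only [ZMod.unitsMap_def, Units.coe_map, MonoidHom.coe_coe, ZMod.castHom_apply,
      ZMod.coe_unitOfCoprime] at h1
    rw [ZMod.natCast_val]
    exact h1
  -- Bézout
  have hco : IsCoprime (((v : ZMod d).val : ℕ) : ℤ) ((d : ℕ) : ℤ) :=
    Nat.isCoprime_iff_coprime.mpr hvcop
  obtain ⟨x, y, hxy⟩ := hco
  let g : SL(2, ℤ) := ⟨!![(((v : ZMod d).val : ℕ) : ℤ), -y; (d : ℤ), x], by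
    rw [Matrix.det_fin_two_of]; linear_combination hxy⟩
  have hg00 : (g : Matrix (Fin 2) (Fin 2) ℤ) 0 0 = (((v : ZMod d).val : ℕ) : ℤ) := rfl
  have hg10 : (g : Matrix (Fin 2) (Fin 2) ℤ) 1 0 = (d : ℤ) := rfl
  refine ⟨g, ?_⟩
  have hgcd : Int.gcd ((d : ℕ) : ℤ) (N : ℤ) = d := by
    rw [Int.gcd_natCast_natCast]; exact Nat.gcd_eq_left hdN
  unfold cuspInv dInv
  rw [hg00, hg10, hgcd]
  congr 1
  unfold rAux
  rw [Int.ediv_self (by exact_mod_cast hd0)]
  simp only [Int.cast_one, ZMod.inv_one, mul_one, Int.cast_natCast]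
  rw [hcast, ZMod.val_natCast]
  exact Nat.mod_eq_of_lt hr

/-- **Main theorem**: the number of orbits of `⟨T⟩` acting by left multiplication on
`SL(2,ℤ) ⧸ Γ₀(N)` is `cuspCount N = ∑_{d ∣ N} φ(gcd(d, N/d))`. -/
theorem card_orbits_T :
    Nat.card (MulAction.orbitRel.Quotient (Subgroup.zpowers ModularGroup.T)
      (SL(2, ℤ) ⧸ Gamma0 N)) = ModularCurve.cuspCount N := by
  rw [← card_cuspSet, ← Nat.card_eq_finsetCard]
  -- representative of an orbit
  let rep : MulAction.orbitRel.Quotient (Subgroup.zpowers ModularGroup.T)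
      (SL(2, ℤ) ⧸ Gamma0 N) → SL(2, ℤ) := fun x => Quotient.out (Quotient.out x)
  have hrep : ∀ x, (Quotient.mk'' ((rep x : SL(2, ℤ)) : SL(2, ℤ) ⧸ Gamma0 N) :
      MulAction.orbitRel.Quotient (Subgroup.zpowers ModularGroup.T)
      (SL(2, ℤ) ⧸ Gamma0 N)) = x := by
    intro x
    show Quotient.mk'' ((Quotient.out (Quotient.out x) : SL(2, ℤ)) : SL(2, ℤ) ⧸ Gamma0 N) = x
    rw [QuotientGroup.out_eq']
    exact Quotient.out_eq x
  -- orbit equivalence in terms of `T ^ k`
  have horb : ∀ g g' : SL(2, ℤ),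
      (Quotient.mk'' (g : SL(2, ℤ) ⧸ Gamma0 N) :
        MulAction.orbitRel.Quotient (Subgroup.zpowers ModularGroup.T) (SL(2, ℤ) ⧸ Gamma0 N))
        = Quotient.mk'' (g' : SL(2, ℤ) ⧸ Gamma0 N) ↔ cuspInv N g' = cuspInv N g := by
    intro g g'
    rw [Quotient.eq'', MulAction.orbitRel_apply, MulAction.mem_orbit_iff, ← orbit_iff]
    constructor
    · rintro ⟨⟨t, ht⟩, h⟩
      obtain ⟨k, rfl⟩ := Subgroup.mem_zpowers_iff.mp ht
      exact ⟨k, h⟩
    · rintro ⟨k, h⟩
      exact ⟨⟨ModularGroup.T ^ k, Subgroup.mem_zpowers_iff.mpr ⟨k, rfl⟩⟩, h⟩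
  refine Nat.card_congr (Equiv.ofBijective
    (fun x => (⟨cuspInv N (rep x), cuspInv_mem N (rep x)⟩ : cuspSet N)) ⟨?_, ?_⟩)
  · intro x y hxy
    have h := congrArg Subtype.val hxy
    dsimp only at h
    rw [← hrep x, ← hrep y]
    exact (horb _ _).2 h.symm
  · rintro ⟨p, hp⟩
    obtain ⟨g, hg⟩ := exists_cuspInv_eq N p hp
    refine ⟨Quotient.mk'' (g : SL(2, ℤ) ⧸ Gamma0 N), ?_⟩
    apply Subtype.ext
    dsimp only
    rw [← hg]
    exact (horb _ _).1 (hrep (Quotient.mk'' (g : SL(2, ℤ) ⧸ Gamma0 N))).symm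

end Invariant

end Fermat.Agent.S20.CuspCount360

end
-- ===== PACK-END S20/CuspCount360.lean

-- ===== PACK-BEGIN S28/Defs.lean
section
/-
S28 (Igusa) long-shot -- shared definitions and the interface structure `CoreData`.
All S28 declarations live in namespace `Fermat.Agent.S28`.
-/




set_option autoImplicit false

noncomputable section

open ModularCurve HahnSeries

namespace Fermat.Agent.S28

/-! ### Formal q-series over an arbitrary commutative ring -/

section Formal

variable (R : Type*) [CommRing R]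

/-- Formal discriminant `Δ = q ∏ (1 - qⁿ)²⁴` as a Laurent series over `R`. -/
def deltaL : LaurentSeries R :=
  HahnSeries.single (1 : ℤ) 1 *
    HahnSeries.ofPowerSeries ℤ R (dedekindEtaUnit.map (Int.castRingHom R))

/-- Formal inverse of `Δ`: `q⁻¹ ∏ (1 - qⁿ)⁻²⁴`. -/
def deltaInvL : LaurentSeries R :=
  HahnSeries.single (-1 : ℤ) 1 *
    HahnSeries.ofPowerSeries ℤ R (dedekindEtaUnitInv.map (Int.castRingHom R))

/-- `θ = q d/dq` on Laurent series: multiplies the coefficient of `qⁿ` by `n`. -/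
def thetaL (f : LaurentSeries R) : LaurentSeries R where
  coeff n := (n : R) * f.coeff n
  isPWO_support' := f.isPWO_support.mono fun n hn => by
    simp only [Function.mem_support, ne_eq] at hn ⊢
    intro h
    exact hn (by rw [h, mul_zero])

@[simp] theorem thetaL_coeff (f : LaurentSeries R) (n : ℤ) :
    (thetaL R f).coeff n = (n : R) * f.coeff n := rfl

/-- The modular unit `u_p = Δ(q^p)/Δ(q)` as a formal Laurent series. -/
def unitL (p : ℕ) [NeZero p] : LaurentSeries R :=
  qExpand R p (deltaL R) * deltaInvL R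

end Formal

/-! ### Fields -/

/-- `k(j) ⊂ k((q))`. -/
def jField (k : Type*) [Field k] : IntermediateField k (LaurentSeries k) :=
  IntermediateField.adjoin k {jqModC k}

/-- The integral generators `j(q^d)`, `d ∣ N`, in `ℤ((q))`. -/
def intDivisorExpansions (N : ℕ) : Set (LaurentSeries ℤ) :=
  {x | ∃ (d : ℕ) (_ : NeZero d), d ∣ N ∧ x = qExpand ℤ d (jqModC ℤ)}

/-- Evaluation `ℤ[Y] → A((q))`, `Y ↦ y`. -/
abbrev evalAt {A : Type*} [CommRing A] (y : LaurentSeries A) : Polynomial ℤ →+* LaurentSeries A :=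
  (Polynomial.aeval (R := ℤ) y).toRingHom

/-- Prime-level input from the analytic team: the modular polynomial `Φ_p ∈ ℤ[Y][X]`
(monic of degree `p+1` in `X`) with the two vanishing properties
`Φ_p(j(q^p), j(q)) = 0` and `Φ_p(j(q), j(q^p)) = 0`. -/
structure ModPolyData (p : ℕ) [NeZero p] : Type where
  Φ : Polynomial (Polynomial ℤ)
  monic : Φ.Monic
  natDegree_eq : Φ.natDegree = p + 1
  eval_jp : Φ.eval₂ (evalAt (jqModC ℤ)) (qExpand ℤ p (jqModC ℤ)) = 0
  eval_j : Φ.eval₂ (evalAt (qExpand ℤ p (jqModC ℤ))) (jqModC ℤ) = 0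

/-- Prime-level input from the analytic team: `p¹² Δ(q^p)/Δ(q)` is integral over `ℤ[j]`. -/
structure UnitPolyData (p : ℕ) [NeZero p] : Type where
  W : Polynomial (Polynomial ℤ)
  monic : W.Monic
  eval_unit : W.eval₂ (evalAt (jqModC ℤ)) ((p : LaurentSeries ℤ) ^ 12 * unitL ℤ p) = 0

/-- The interface between the field-theory part [L] and the valuation part [V]:
`n` integral "monomials" spanning `F` over `ℚ(j)` whose reductions to `K((q))`
are linearly independent over `K(j)`; plus integrality of the generators. -/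
structure CoreData (N : ℕ) [NeZero N] (K : Type) [Field K] : Prop where
  exists_basis : ∃ (n : ℕ) (y : Fin n → LaurentSeries ℤ),
    (∀ i, y i ∈ Subring.closure (intDivisorExpansions N)) ∧
    (∀ x ∈ modularFunctionFieldFull N,
      x ∈ Submodule.span (jField ℚ)
        (Set.range fun i => coeffMap (Int.castRingHom ℚ) (y i))) ∧
    LinearIndependent (jField K) (fun i => coeffMap (Int.castRingHom K) (y i))
  integral : ∀ (d : ℕ) [NeZero d], d ∣ N →
    ∃ P : Polynomial (Polynomial ℤ), P.Monic ∧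
      P.eval₂ (evalAt (jqModC ℤ)) (qExpand ℤ d (jqModC ℤ)) = 0

end Fermat.Agent.S28

end

end
-- ===== PACK-END S28/Defs.lean

-- ===== PACK-BEGIN S28/H145/PowIndep.lean
section



/-!
# Leaf [L.I] of the S28 plan

If `x` is a Laurent series whose order is prime to `p`, then `1, x, …, x^(p-1)` are linearly
independent over (any subring of) the range of `V_p = qExpand k p`.
-/

set_option autoImplicit false

noncomputable section

open ModularCurve HahnSeries

namespace Fermat.Agent.S28.H145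

variable {k : Type*} [Field k]

/-- A finite sum of nonzero Laurent series with pairwise distinct orders is nonzero. -/
theorem sum_ne_zero_of_injOn_order {ι : Type*} (s : Finset ι) (t : ι → LaurentSeries k)
    (hs : s.Nonempty) (h0 : ∀ i ∈ s, t i ≠ 0)
    (hinj : Set.InjOn (fun i => (t i).order) (s : Set ι)) : ∑ i ∈ s, t i ≠ 0 := by
  classical
  obtain ⟨i₀, hi₀, hmin⟩ := Finset.exists_min_image s (fun i => (t i).order) hs
  intro hsum
  have hc : (∑ i ∈ s, t i).coeff (t i₀).order = (t i₀).coeff (t i₀).order := by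
    rw [HahnSeries.coeff_sum]
    refine Finset.sum_eq_single_of_mem i₀ hi₀ ?_
    intro i hi hne
    refine HahnSeries.coeff_eq_zero_of_lt_order ?_
    refine lt_of_le_of_ne (hmin i hi) ?_
    intro h
    exact hne (hinj hi hi₀ h.symm)
  rw [hsum] at hc
  exact h0 i₀ hi₀ (HahnSeries.coeff_order_eq_zero.mp hc.symm)

/-- The order of a nonzero element of the range of `qExpand k p` is divisible by `p`. -/
theorem dvd_order_qExpand (p : ℕ) [NeZero p] (z : LaurentSeries k) :
    (p : ℤ) ∣ (qExpand k p z).order := by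
  by_cases hz : qExpand k p z = 0
  · rw [hz, HahnSeries.order_zero]; exact dvd_zero _
  · by_contra h
    exact hz (HahnSeries.coeff_order_eq_zero.mp (qExpand_coeff_of_not_dvd p z h))

/-- **[L.I], core form.** If `p ∤ ord x`... more precisely if `ord x` is prime to `p`, a relation
`∑_{i<p} V_p(c i) * x^i = 0` forces all `c i = 0`. -/
theorem eq_zero_of_sum_qExpand_mul_pow_eq_zero (p : ℕ) [NeZero p] (x : LaurentSeries k)
    (hx : x ≠ 0) (hord : IsCoprime x.order (p : ℤ)) (c : Fin p → LaurentSeries k)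
    (h : ∑ i : Fin p, qExpand k p (c i) * x ^ (i : ℕ) = 0) : ∀ i, c i = 0 := by
  classical
  by_contra hne
  push Not at hne
  set s : Finset (Fin p) := Finset.univ.filter (fun i => c i ≠ 0) with hs
  have hsne : s.Nonempty := by
    obtain ⟨i, hi⟩ := hne
    exact ⟨i, by simp [hs, hi]⟩
  have hterm : ∀ i ∈ s, qExpand k p (c i) * x ^ (i : ℕ) ≠ 0 := by
    intro i hi
    have hci : c i ≠ 0 := by simpa [hs] using hi
    exact mul_ne_zero (fun h0 => hci (qExpand_injective p (by rw [h0, map_zero])))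
      (pow_ne_zero _ hx)
  have hordterm : ∀ i ∈ s, (qExpand k p (c i) * x ^ (i : ℕ)).order =
      (qExpand k p (c i)).order + (i : ℕ) * x.order := by
    intro i hi
    have hci : c i ≠ 0 := by simpa [hs] using hi
    have h1 : qExpand k p (c i) ≠ 0 := fun h0 => hci (qExpand_injective p (by rw [h0, map_zero]))
    rw [HahnSeries.order_mul h1 (pow_ne_zero _ hx), HahnSeries.order_pow, nsmul_eq_mul]
  have hsum : ∑ i ∈ s, qExpand k p (c i) * x ^ (i : ℕ) = 0 := by
    rw [← h]
    refine Finset.sum_subset (Finset.subset_univ _) ?_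
    intro i _ hi
    have hci : c i = 0 := by simpa [hs] using hi
    rw [hci, map_zero, zero_mul]
  refine sum_ne_zero_of_injOn_order s _ hsne hterm ?_ hsum
  intro i hi j hj hij
  simp only at hij
  rw [hordterm i hi, hordterm j hj] at hij
  -- reduce modulo `p`
  obtain ⟨a, ha⟩ := dvd_order_qExpand p (c i)
  obtain ⟨b, hb⟩ := dvd_order_qExpand p (c j)
  rw [ha, hb] at hij
  have hdvd : (p : ℤ) ∣ ((i : ℕ) - (j : ℕ) : ℤ) * x.order := ⟨b - a, by linear_combination hij⟩
  have hdvd' : (p : ℤ) ∣ ((i : ℕ) : ℤ) - (j : ℕ) := hord.symm.dvd_of_dvd_mul_right hdvd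
  have hi' : ((i : ℕ) : ℤ) < p := by exact_mod_cast i.2
  have hj' : ((j : ℕ) : ℤ) < p := by exact_mod_cast j.2
  have hi0 : (0 : ℤ) ≤ ((i : ℕ) : ℤ) := Int.natCast_nonneg _
  have hj0 : (0 : ℤ) ≤ ((j : ℕ) : ℤ) := Int.natCast_nonneg _
  have : ((i : ℕ) : ℤ) - (j : ℕ) = 0 := by
    apply Int.eq_zero_of_abs_lt_dvd hdvd'
    rw [abs_lt]
    constructor <;> linarith
  exact Fin.ext (by exact_mod_cast sub_eq_zero.mp this)

/-- **[L.I].** If `B` is a subfield of `k((q))` contained in the range of `V_p` and `ord x` is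
prime to `p`, then `1, x, …, x^(p-1)` are linearly independent over `B`. -/
theorem linearIndependent_pow_of_le_range (p : ℕ) [NeZero p] (B : Subfield (LaurentSeries k))
    (hB : ∀ b ∈ B, b ∈ (qExpand k p).range) (x : LaurentSeries k)
    (hx : x ≠ 0) (hord : IsCoprime x.order (p : ℤ)) :
    LinearIndependent B (fun i : Fin p => x ^ (i : ℕ)) := by
  rw [Fintype.linearIndependent_iff]
  intro g hg i
  choose c hc using fun i => hB (g i) (g i).2
  have h : ∑ i : Fin p, qExpand k p (c i) * x ^ (i : ℕ) = 0 := by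
    rw [← hg]
    refine Finset.sum_congr rfl fun i _ => ?_
    rw [hc i]
    rfl
  have := eq_zero_of_sum_qExpand_mul_pow_eq_zero p x hx hord c h i
  apply Subtype.ext
  rw [← hc i, this, map_zero]
  rfl

/-- Polynomial form of [L.I]: a polynomial of degree `< p` with coefficients in the range of
`V_p` that kills `x` (with `ord x` prime to `p`) is zero. -/
theorem eq_zero_of_eval_eq_zero_of_natDegree_lt (p : ℕ) [NeZero p] (x : LaurentSeries k)
    (hx : x ≠ 0) (hord : IsCoprime x.order (p : ℤ)) (f : Polynomial (LaurentSeries k))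
    (hf : ∀ n, f.coeff n ∈ (qExpand k p).range) (hdeg : f.natDegree < p)
    (h : f.eval x = 0) : f = 0 := by
  choose c hc using hf
  have hsum : ∑ i : Fin p, qExpand k p (c i) * x ^ (i : ℕ) = 0 := by
    rw [← h, Polynomial.eval_eq_sum_range' hdeg, ← Fin.sum_univ_eq_sum_range
      (fun i => f.coeff i * x ^ i) p]
    refine Finset.sum_congr rfl fun i _ => ?_
    rw [hc]
  have hall := eq_zero_of_sum_qExpand_mul_pow_eq_zero p x hx hord (fun i => c i) hsum
  ext n
  by_cases hn : n < p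
  · have := hall ⟨n, hn⟩
    simp only at this
    rw [← hc n, this, map_zero, Polynomial.coeff_zero]
  · rw [Polynomial.coeff_eq_zero_of_natDegree_lt (lt_of_lt_of_le hdeg (not_lt.mp hn)),
      Polynomial.coeff_zero]

end Fermat.Agent.S28.H145

end

end
-- ===== PACK-END S28/H145/PowIndep.lean

-- ===== PACK-BEGIN A2/Spec.lean
section




/-!
# WALL A2 — frozen interfaces (row-lead helper13)

Goal (`Target N q m`): for `q ‖ N`, `q ∤ m`, every `τ` in an inertia group at `q` satisfies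
`(τ - 1)² = 0` on `JZero N [m]` (`JZero N = Pic⁰(ℚ̄(X₀(N)))`, Prelude language).

Layers (see `coord/A2.md` on `origin/helper13`):

* `Target`        : the wall, Prelude language.
* `KummerTarget`  : the same on Kummer generators (`div f ∈ m·Div ⇒ (τ-1)² f ∈ (F̄ˣ)^m`).
* `SSChart`, `SepCoord`, `AlgSSConclusion` : the abstract semistable theorem ALG (Mathlib only).
* `GoodField`     : the finite levels `E' ⊇ ℚ̄^{I}` over which ALG is applied (piece IF).

This file contains only definitions (no `sorry`).  The interface theorems are the `Prop`s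
`AlgSSStatement`, `IFStatement` (this file) and `ModSSStatement` (`ModDefs.lean`).

v2 (19:10Z, LANDED, never to change again):
* `SSChart` has the two incomparability fields `not_le₁₂`, `not_le₂₁` (audit helper154: without
  them the good-reduction case `p₁ = (w) < p₂` was admitted);
* `GoodField` has the field `finite_order` and `AlgSSStatement` the hypothesis `hfo` (the lift
  `τ` has finite order on the finite level; asked for by route G, helper12 `H12.wallG`).
-/

set_option autoImplicit false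

noncomputable section

namespace Fermat.Agent.A2

open ModularCurve AlgebraicCurve

/-- The field `ℚ̄`. -/
abbrev Qb : Type := AlgebraicClosure ℚ

/-- **The wall A2** at `(N, q, m)`: unipotent inertia on the `m`-torsion of `J₀(N)`. -/
def Target (N q m : ℕ) : Prop :=
  ∀ P : ValuationSubring Qb, P.LiesOverPrime q →
    ∀ τ ∈ P.inertiaSubgroupIn ℚ, ∀ x : JZero N, m • x = 0 →
      τ • (τ • x) + x = 2 • (τ • x)

/-- The automorphism of `F̄_N = ℚ̄(X₀(N))` induced by `τ ∈ G_ℚ` (action on coefficients). -/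
abbrev act (N : ℕ) (τ : Qb ≃ₐ[ℚ] Qb) :
    modularFunctionFieldBar N ≃+* modularFunctionFieldBar N :=
  arithmeticRingAut (modularFunctionFieldFull N) τ

/-- **Kummer form of the wall**: if `div f ∈ m · Div`, then `τ²(f) · f / τ(f)²` is an `m`-th
power in `F̄_N`. -/
def KummerTarget (N q m : ℕ) : Prop :=
  ∀ P : ValuationSubring Qb, P.LiesOverPrime q →
    ∀ τ ∈ P.inertiaSubgroupIn ℚ, ∀ f : modularFunctionFieldBar N, f ≠ 0 →
      (∀ v : Place Qb (modularFunctionFieldBar N), (m : ℤ) ∣ v.ord f) →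
      ∃ h : modularFunctionFieldBar N, h ≠ 0 ∧
        act N τ (act N τ f) * f = h ^ m * (act N τ f) ^ 2

/-! ## ALG: abstract semistable two-chart models (Mathlib only) -/

section Alg

variable {R F : Type*} [CommRing R] [Field F] [Algebra R F]

/-- A chart `B ⊆ F` of a model over `R` whose special fibre `B / wB` is reduced with exactly two
components `p₁`, `p₂`, both normal, meeting transversally (`p₁ + p₂` radical, i.e. every common
point is an ordinary double point). -/
structure SSChart (w : R) (B : Subalgebra R F) where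
  /-- first component -/
  p₁ : Ideal B
  /-- second component -/
  p₂ : Ideal B
  prime₁ : p₁.IsPrime
  prime₂ : p₂.IsPrime
  ne : p₁ ≠ p₂
  not_le₁₂ : ¬ p₁ ≤ p₂
  not_le₂₁ : ¬ p₂ ≤ p₁
  inf_eq : p₁ ⊓ p₂ = Ideal.span {algebraMap R B w}
  normal₁ : IsIntegrallyClosed (B ⧸ p₁)
  normal₂ : IsIntegrallyClosed (B ⧸ p₂)
  transversal : (p₁ ⊔ p₂).IsRadical

variable (R) in
/-- `x` is a separating coordinate for the special fibre: some `E(x)`-basis of `F` consisting of
elements of the chart `B` has a discriminant `d(x)`, `d ∈ R[X]`, which is nonzero modulo the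
maximal ideal. -/
def SepCoord [IsLocalRing R] (E : Type*) [Field E] [Algebra E F] (x : F) (B : Subalgebra R F) :
    Prop :=
  ∃ (n : ℕ) (b : Fin n → F), (∀ i, b i ∈ B) ∧
    LinearIndependent (IntermediateField.adjoin E ({x} : Set F)) b ∧
    n = Module.finrank (IntermediateField.adjoin E ({x} : Set F)) F ∧
    ∃ d : Polynomial R, d.map (IsLocalRing.residue R) ≠ 0 ∧
      Polynomial.aeval x d =
        algebraMap (IntermediateField.adjoin E ({x} : Set F)) F
          (Algebra.discr (IntermediateField.adjoin E ({x} : Set F)) b)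

/-- `m ∣ div f` on every discrete valuation ring of `F` containing `E`, in Mathlib-only form:
locally `f = u · h ^ m` with `u` a unit. -/
def DivisibleDiv (E : Type*) [Field E] [Algebra E F] (m : ℕ) (f : F) : Prop :=
  ∀ V : ValuationSubring F, IsDiscreteValuationRing V → (∀ e : E, algebraMap E F e ∈ V) →
    ∃ h u : F, h ≠ 0 ∧ u ∈ V ∧ u⁻¹ ∈ V ∧ f = u * h ^ m

/-- The conclusion of ALG: `(τ - 1)²` kills the Kummer classes with `m ∣ div`. -/
def AlgSSConclusion (E : Type*) [Field E] [Algebra E F] (m : ℕ) (τ : F ≃+* F) : Prop :=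
  ∀ f : F, f ≠ 0 → DivisibleDiv E m f →
    ∃ h : F, h ≠ 0 ∧ τ (τ f) * f = h ^ m * (τ f) ^ 2

/-- **ALG (interface statement).**  Henselian DVR `R` with algebraically closed residue field of
characteristic `q`, `F / E` a function field with coordinate `x`, `Bf`, `Bi` the integral closures
of `R[x]`, `R[1/x]` in `F`, both semistable with two components (`SSChart`) and separating
coordinate, `τ` a semilinear automorphism of finite order fixing `x` and acting trivially modulo
`w` on both charts.  Then `(τ - 1)²` kills every Kummer class `f` with `m ∣ div f`, `q ∤ m`. -/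
def AlgSSStatement : Prop :=
  ∀ {R E F : Type} [CommRing R] [IsDomain R] [IsDiscreteValuationRing R] [HenselianLocalRing R]
    [IsAlgClosed (IsLocalRing.ResidueField R)]
    [Field E] [CharZero E] [Algebra R E] [IsFractionRing R E]
    [Field F] [Algebra E F] [Algebra R F] [IsScalarTower R E F]
    (w : R) (_ : Irreducible w) (q m : ℕ) (_ : q.Prime)
    (_ : (q : R) ∈ IsLocalRing.maximalIdeal R) (_ : 0 < m) (_ : ¬ q ∣ m)
    (x : F) (_ : Transcendental E x)
    (_ : FiniteDimensional (IntermediateField.adjoin E ({x} : Set F)) F)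
    (_ : ∀ f : F, IsAlgebraic E f → f ∈ (algebraMap E F).range)
    (Bf Bi : Subalgebra R F)
    (_ : ∀ f : F, f ∈ Bf ↔ IsIntegral (Algebra.adjoin R ({x} : Set F)) f)
    (_ : ∀ f : F, f ∈ Bi ↔ IsIntegral (Algebra.adjoin R ({x⁻¹} : Set F)) f)
    (_ : SSChart w Bf) (_ : SSChart w Bi)
    (_ : SepCoord R E x Bf) (_ : SepCoord R E x⁻¹ Bi)
    (τ : F ≃+* F) (τE : E ≃+* E) (τR : R ≃+* R)
    (_ : ∀ e : E, τ (algebraMap E F e) = algebraMap E F (τE e))
    (_ : ∀ r : R, τE (algebraMap R E r) = algebraMap R E (τR r))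
    (_ : τ x = x)
    (_ : ∃ r : ℕ, 0 < r ∧ ∀ f : F, (⇑τ)^[r] f = f)
    (_ : ∀ b ∈ Bf, ∃ c ∈ Bf, τ b - b = algebraMap R F w * c)
    (_ : ∀ b ∈ Bi, ∃ c ∈ Bi, τ b - b = algebraMap R F w * c),
    AlgSSConclusion E m τ

end Alg

/-! ## IF: good levels -/

/-- `R_E := P ∩ E`. -/
abbrev RE (P : ValuationSubring Qb) (E : IntermediateField ℚ Qb) : ValuationSubring E :=
  P.comap (algebraMap E Qb)

/-- A *good level* for `P`: an intermediate field `E ⊆ ℚ̄`, stable under the inertia group of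
`P`, such that `R_E = P ∩ E` is a henselian discrete valuation ring with algebraically closed
residue field on which the inertia group acts trivially modulo the maximal ideal.
(Example: every finite extension of the inertia field `ℚ̄^{I_P}` inside `ℚ̄`.) -/
structure GoodField (P : ValuationSubring Qb) (E : IntermediateField ℚ Qb) : Prop where
  stable : ∀ τ ∈ P.inertiaSubgroupIn ℚ, ∀ e : Qb, e ∈ E → τ e ∈ E
  dvr : IsDiscreteValuationRing (RE P E)
  henselian : HenselianLocalRing (RE P E)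
  algClosed : IsAlgClosed (IsLocalRing.ResidueField (RE P E))
  trivial_mod : ∀ τ ∈ P.inertiaSubgroupIn ℚ, ∀ e : Qb, e ∈ E → e ∈ P →
    τ e - e ∈ P.nonunits
  finite_order : ∀ τ ∈ P.inertiaSubgroupIn ℚ, ∃ r : ℕ, 0 < r ∧ ∀ e : Qb, e ∈ E →
    (⇑τ)^[r] e = e

/-- **IF (interface statement).**  Every finite set of algebraic numbers lies in a good level for
`P` (`E` = compositum of the inertia field `ℚ̄^{I_P}` and a finite normal extension of `ℚ`). -/
def IFStatement : Prop :=
  ∀ (q : ℕ) (_ : q.Prime) (P : ValuationSubring Qb) (_ : P.LiesOverPrime q) (S : Finset Qb),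
    ∃ E : IntermediateField ℚ Qb, (∀ s ∈ S, s ∈ E) ∧ GoodField P E

end Fermat.Agent.A2

end
end
-- ===== PACK-END A2/Spec.lean

-- ===== PACK-BEGIN S18/H138/Charts.lean
section


/-!
# S18, Route K, ASM (helper138): the three charts of the `x`-line model inside a field

`R` a commutative ring, `F` a field which is an `R`-algebra, `x : F`.  The *charts* are

* `chart R {x}`        : elements of `F` integral over `R[x]`        (`B_fin`),
* `chart R {x⁻¹}`      : elements of `F` integral over `R[x⁻¹]`      (`B_inf`),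
* `chart R {x, x⁻¹}`   : elements of `F` integral over `R[x, x⁻¹]`   (`B_mid`).

This file proves the formal properties of the charts needed by the two-chart connectedness
lemma (`H558.cech_connected`):

* `exists_pow_mul_mem_chart`   : `B_mid = B_fin[1/x]`,
* `exists_inv_pow_mul_mem_chart` : every element of `B_fin` lies in `x ^ D • B_inf`,
* `chart_inter_eq` (in `ChartsConst.lean`) : `B_fin ∩ B_inf = R`.
-/

set_option autoImplicit false
set_option linter.style.haveILetI false

namespace Fermat.Agent.S18.H138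

open Polynomial

section Basic

variable (R : Type*) [CommRing R] {F : Type*} [Field F] [Algebra R F]

/-- The chart attached to `S ⊆ F`: the elements of `F` integral over `R[S]`. -/
def chart (S : Set F) : Subalgebra R F :=
  (integralClosure (Algebra.adjoin R S) F).restrictScalars R

variable {R}

theorem mem_chart {S : Set F} {y : F} :
    y ∈ chart R S ↔ IsIntegral (Algebra.adjoin R S) y := Iff.rfl

theorem adjoin_le_chart (S : Set F) : Algebra.adjoin R S ≤ chart R S := by
  intro y hy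
  rw [mem_chart]
  exact isIntegral_algebraMap (R := Algebra.adjoin R S) (x := ⟨y, hy⟩)

theorem mem_chart_of_mem {S : Set F} {y : F} (hy : y ∈ S) : y ∈ chart R S :=
  adjoin_le_chart S (Algebra.subset_adjoin hy)

/-- Integrality over a smaller subalgebra implies integrality over a bigger one. -/
theorem isIntegral_of_le {A₁ A₂ : Subalgebra R F} (h : A₁ ≤ A₂) {y : F}
    (hy : IsIntegral A₁ y) : IsIntegral A₂ y := by
  have := IsIntegral.map_of_comp_eq (R := A₁) (S := F) (T := A₂) (U := F)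
    (Subalgebra.inclusion h).toRingHom (RingHom.id F) (by ext; rfl) hy
  simpa using this

theorem chart_mono {S T : Set F} (h : S ⊆ T) : chart R S ≤ chart R T := fun _ hy =>
  isIntegral_of_le (Algebra.adjoin_mono h) hy

end Basic

section Denominators

variable {R : Type*} [CommRing R] {F : Type*} [Field F] [Algebra R F]

/-- Clearing denominators in `R[x, x⁻¹]`. -/
theorem exists_pow_mul_mem_adjoin {x : F} (hx : x ≠ 0) {a : F}
    (ha : a ∈ Algebra.adjoin R ({x, x⁻¹} : Set F)) :
    ∃ K : ℕ, ∀ k : ℕ, K ≤ k → x ^ k * a ∈ Algebra.adjoin R ({x} : Set F) := by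
  have hxA : x ∈ Algebra.adjoin R ({x} : Set F) := Algebra.subset_adjoin rfl
  induction ha using Algebra.adjoin_induction with
  | mem y hy =>
    rcases hy with rfl | rfl
    · exact ⟨0, fun k _ => Subalgebra.mul_mem _ (Subalgebra.pow_mem _ hxA k) hxA⟩
    · refine ⟨1, fun k hk => ?_⟩
      obtain ⟨k, rfl⟩ : ∃ j, k = j + 1 := ⟨k - 1, by omega⟩
      rw [pow_succ, mul_assoc, mul_inv_cancel₀ hx, mul_one]
      exact Subalgebra.pow_mem _ hxA k
  | algebraMap r =>
    exact ⟨0, fun k _ => Subalgebra.mul_mem _ (Subalgebra.pow_mem _ hxA k)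
      (Subalgebra.algebraMap_mem _ r)⟩
  | add y z _ _ hy hz =>
    obtain ⟨K₁, h₁⟩ := hy
    obtain ⟨K₂, h₂⟩ := hz
    refine ⟨max K₁ K₂, fun k hk => ?_⟩
    rw [mul_add]
    exact Subalgebra.add_mem _ (h₁ k (le_trans (le_max_left _ _) hk))
      (h₂ k (le_trans (le_max_right _ _) hk))
  | mul y z _ _ hy hz =>
    obtain ⟨K₁, h₁⟩ := hy
    obtain ⟨K₂, h₂⟩ := hz
    refine ⟨K₁ + K₂, fun k hk => ?_⟩
    obtain ⟨j, rfl⟩ : ∃ j, k = K₁ + j := ⟨k - K₁, by omega⟩
    have : x ^ (K₁ + j) * (y * z) = (x ^ K₁ * y) * (x ^ j * z) := by ring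
    rw [this]
    exact Subalgebra.mul_mem _ (h₁ K₁ le_rfl) (h₂ j (by omega))

/-- `B_mid = B_fin[1/x]`: an element integral over `R[x, x⁻¹]` becomes integral over `R[x]`
after multiplication by a power of `x`. -/
theorem exists_pow_mul_mem_chart {x : F} (hx : x ≠ 0) {y : F}
    (hy : y ∈ chart R ({x, x⁻¹} : Set F)) :
    ∃ K : ℕ, x ^ K * y ∈ chart R ({x} : Set F) := by
  classical
  set Af : Subalgebra R F := Algebra.adjoin R ({x} : Set F) with hAf
  set Am : Subalgebra R F := Algebra.adjoin R ({x, x⁻¹} : Set F) with hAm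
  have hle : Af ≤ Am := Algebra.adjoin_mono (by simp)
  have hxA : x ∈ Af := Algebra.subset_adjoin rfl
  letI : Algebra Af Am := (Subalgebra.inclusion hle).toRingHom.toAlgebra
  haveI : IsScalarTower Af Am F := IsScalarTower.of_algebraMap_eq (fun _ => rfl)
  let xf : Af := ⟨x, hxA⟩
  haveI : IsLocalization (Submonoid.powers xf) Am := by
    rw [isLocalization_iff]
    refine ⟨?_, ?_, ?_⟩
    · rintro ⟨_, n, rfl⟩
      have hxinv : x⁻¹ ∈ Am := Algebra.subset_adjoin (by simp)
      refine IsUnit.of_mul_eq_one (⟨x⁻¹, hxinv⟩ ^ n) ?_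
      apply Subtype.ext
      change x ^ n * (x⁻¹) ^ n = 1
      rw [← mul_pow, mul_inv_cancel₀ hx, one_pow]
    · intro z
      obtain ⟨K, hK⟩ := exists_pow_mul_mem_adjoin (R := R) hx z.2
      refine ⟨⟨⟨x ^ K * z, hK K le_rfl⟩, ⟨xf ^ K, K, rfl⟩⟩, ?_⟩
      apply Subtype.ext
      change (z : F) * x ^ K = x ^ K * z
      ring
    · intro a b hab
      refine ⟨1, ?_⟩
      have : (a : F) = b := congrArg (fun t : Am => (t : F)) hab
      rw [Subtype.ext this]
  obtain ⟨⟨_, n, rfl⟩, hm⟩ :=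
    IsIntegral.exists_multiple_integral_of_isLocalization (Submonoid.powers xf) (Rₘ := Am)
      (S := F) y hy
  refine ⟨n, ?_⟩
  rw [mem_chart]
  have : (⟨xf ^ n, n, rfl⟩ : Submonoid.powers xf) • y = x ^ n * y := rfl
  rwa [this] at hm

/-- Every element of `B_fin` lies in `x ^ D • B_inf`. -/
theorem exists_inv_pow_mul_mem_chart {x : F} (hx : x ≠ 0) {y : F}
    (hy : y ∈ chart R ({x} : Set F)) :
    ∃ D : ℕ, x⁻¹ ^ D * y ∈ chart R ({x⁻¹} : Set F) := by
  have h1 : y ∈ chart R ({x⁻¹, x⁻¹⁻¹} : Set F) := by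
    refine chart_mono ?_ hy
    rw [inv_inv]
    simp
  exact exists_pow_mul_mem_chart (inv_ne_zero hx) h1

end Denominators

end Fermat.Agent.S18.H138

end
-- ===== PACK-END S18/H138/Charts.lean

-- ===== PACK-BEGIN S18/H558/Cech.lean
section






/-!
# S18 / piece b5: connectedness via a two-chart Cech argument (pure algebra, Mathlib only)

Setting: `A` a commutative ring, `w : A`, `B` a commutative `A`-algebra ("`B_mid`"),
`Bfin Binf : Subalgebra A B` the two charts.

* `lift_idem_mod_pow` : an idempotent modulo `w` lifts to an idempotent modulo `w ^ n`.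
* `idem_congr_mod_pow` : two idempotents modulo `w ^ n` that agree modulo `w` agree modulo `w ^ n`.
* `cech_idempotent_trivial` : if the `w`-power torsion of `B / (Bfin + Binf)` is killed by `w ^ c`,
  `Bfin ∩ Binf = A`, `A / w → Bfin / w` is injective and `(w)` is prime in `A`, then every
  compatible pair of idempotents of `Bfin / w`, `Binf / w` is `(0,0)` or `(1,1)`.
* `exists_torsion_bound` : over a noetherian ring, a f.g. module has bounded `w`-power torsion.
-/

namespace Fermat.Agent.S18.H558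

section Idem

variable {R : Type*} [CommRing R]

/-- An idempotent modulo `w` lifts to an idempotent modulo `w ^ n`. -/
theorem lift_idem_mod_pow (w e : R) (he : e ^ 2 - e ∈ Ideal.span {w}) (n : ℕ) :
    ∃ f : R, f - e ∈ Ideal.span {w} ∧ f ^ 2 - f ∈ Ideal.span {w ^ n} := by
  rcases Nat.eq_zero_or_pos n with rfl | hn
  · exact ⟨e, by simp, by simp⟩
  have hle : Ideal.span {w ^ n} ≤ Ideal.span {w} := by
    rw [Ideal.span_singleton_le_span_singleton]
    exact dvd_pow_self w hn.ne'
  let φ : R ⧸ Ideal.span {w ^ n} →+* R ⧸ Ideal.span {w} := Ideal.Quotient.factor hle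
  have hφ : ∀ x : R, φ (Ideal.Quotient.mk _ x) = Ideal.Quotient.mk _ x := fun x => rfl
  have hker : ∀ x ∈ RingHom.ker φ, IsNilpotent x := by
    intro x hx
    obtain ⟨r, rfl⟩ := Ideal.Quotient.mk_surjective x
    rw [RingHom.mem_ker, hφ, Ideal.Quotient.eq_zero_iff_mem, Ideal.mem_span_singleton] at hx
    obtain ⟨s, rfl⟩ := hx
    refine ⟨n, ?_⟩
    rw [← map_pow, Ideal.Quotient.eq_zero_iff_mem, Ideal.mem_span_singleton, mul_pow]
    exact Dvd.intro _ rfl
  have hid : IsIdempotentElem (Ideal.Quotient.mk (Ideal.span {w}) e) := by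
    have : Ideal.Quotient.mk (Ideal.span {w}) (e ^ 2 - e) = 0 :=
      Ideal.Quotient.eq_zero_iff_mem.2 he
    rw [map_sub, sub_eq_zero, map_pow, pow_two] at this
    exact this
  obtain ⟨e', he', hφe'⟩ := exists_isIdempotentElem_eq_of_ker_isNilpotent φ hker
    (Ideal.Quotient.mk _ e) ⟨Ideal.Quotient.mk _ e, hφ e⟩ hid
  obtain ⟨f, rfl⟩ := Ideal.Quotient.mk_surjective e'
  refine ⟨f, ?_, ?_⟩
  · rw [hφ] at hφe'
    rw [← Ideal.Quotient.eq_zero_iff_mem, map_sub, hφe', sub_self]
  · rw [← Ideal.Quotient.eq_zero_iff_mem, map_sub, map_pow, pow_two, he'.eq, sub_self]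

/-- Two idempotents modulo `w ^ n` which agree modulo `w` agree modulo `w ^ n`. -/
theorem idem_congr_mod_pow (w f g : R) (n : ℕ)
    (hf : f ^ 2 - f ∈ Ideal.span {w ^ n}) (hg : g ^ 2 - g ∈ Ideal.span {w ^ n})
    (hfg : f - g ∈ Ideal.span {w}) : f - g ∈ Ideal.span {w ^ n} := by
  have hf' : IsIdempotentElem (Ideal.Quotient.mk (Ideal.span {w ^ n}) f) := by
    have := Ideal.Quotient.eq_zero_iff_mem.2 hf
    rw [map_sub, sub_eq_zero, map_pow, pow_two] at this
    exact this
  have hg' : IsIdempotentElem (Ideal.Quotient.mk (Ideal.span {w ^ n}) g) := by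
    have := Ideal.Quotient.eq_zero_iff_mem.2 hg
    rw [map_sub, sub_eq_zero, map_pow, pow_two] at this
    exact this
  have hnil : IsNilpotent (Ideal.Quotient.mk (Ideal.span {w ^ n}) f -
      Ideal.Quotient.mk (Ideal.span {w ^ n}) g) := by
    rw [Ideal.mem_span_singleton] at hfg
    obtain ⟨s, hs⟩ := hfg
    refine ⟨n, ?_⟩
    rw [← map_sub, ← map_pow, Ideal.Quotient.eq_zero_iff_mem, Ideal.mem_span_singleton, hs, mul_pow]
    exact Dvd.intro _ rfl
  have := eq_of_isNilpotent_sub_of_isIdempotentElem hf' hg' hnil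
  rw [← Ideal.Quotient.eq_zero_iff_mem, map_sub, this, sub_self]

end Idem

section Cech

variable {A B : Type*} [CommRing A] [CommRing B] [Algebra A B]

/-- **Two-chart Cech connectedness lemma.**
`B` plays the role of `B_mid`, `Bfin`, `Binf` are the two charts.  If the `w`-power torsion of
`B / (Bfin + Binf)` is killed by `w ^ c`, `Bfin ∩ Binf` is (the image of) `A`,
`A / w → Bfin / w` is injective and `(w)` is a prime ideal of `A`, then a pair of elements
`e₁ ∈ Bfin`, `e₂ ∈ Binf`, idempotent modulo `w` in their charts and congruent modulo `w` in `B`,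
is congruent to `(0, 0)` or to `(1, 1)` modulo `w`. -/
theorem cech_idempotent_trivial (w : A) (Bfin Binf : Subalgebra A B) (c : ℕ)
    (hH1 : ∀ h : B, algebraMap A B w ^ (c + 1) * h ∈ Bfin.toSubmodule ⊔ Binf.toSubmodule →
      algebraMap A B w ^ c * h ∈ Bfin.toSubmodule ⊔ Binf.toSubmodule)
    (hH0 : ∀ b : B, b ∈ Bfin → b ∈ Binf → ∃ a : A, algebraMap A B a = b)
    (hinj : ∀ a : A, (∃ t ∈ Bfin, algebraMap A B a = algebraMap A B w * t) → w ∣ a)
    (hprime : ∀ a b : A, w ∣ a * b → w ∣ a ∨ w ∣ b)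
    (e₁ e₂ : B) (he₁ : e₁ ∈ Bfin) (he₂ : e₂ ∈ Binf)
    (hi₁ : ∃ t ∈ Bfin, e₁ ^ 2 - e₁ = algebraMap A B w * t)
    (hi₂ : ∃ t ∈ Binf, e₂ ^ 2 - e₂ = algebraMap A B w * t)
    (h₁₂ : ∃ t : B, e₁ - e₂ = algebraMap A B w * t) :
    ((∃ t ∈ Bfin, e₁ = algebraMap A B w * t) ∧ (∃ t ∈ Binf, e₂ = algebraMap A B w * t)) ∨
    ((∃ t ∈ Bfin, 1 - e₁ = algebraMap A B w * t) ∧ (∃ t ∈ Binf, 1 - e₂ = algebraMap A B w * t)) := by
  set W : B := algebraMap A B w with hW
  -- Step 1: lift in the two charts.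
  have key : ∀ (C : Subalgebra A B) (e : B) (he : e ∈ C)
      (hi : ∃ t ∈ C, e ^ 2 - e = W * t),
      ∃ f ∈ C, (∃ t ∈ C, f - e = W * t) ∧ ∃ t ∈ C, f ^ 2 - f = W ^ (c + 1) * t := by
    intro C e he hi
    obtain ⟨t, ht, hte⟩ := hi
    have hw' : (⟨e, he⟩ : C) ^ 2 - ⟨e, he⟩ ∈ Ideal.span {algebraMap A C w} := by
      rw [Ideal.mem_span_singleton]
      refine ⟨⟨t, ht⟩, Subtype.ext ?_⟩
      simpa using hte
    obtain ⟨f, hf1, hf2⟩ := lift_idem_mod_pow (algebraMap A C w) ⟨e, he⟩ hw' (c + 1)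
    rw [Ideal.mem_span_singleton] at hf1 hf2
    obtain ⟨s1, hs1⟩ := hf1
    obtain ⟨s2, hs2⟩ := hf2
    refine ⟨f, f.2, ⟨s1, s1.2, ?_⟩, ⟨s2, s2.2, ?_⟩⟩
    · simpa using congrArg Subtype.val hs1
    · simpa using congrArg Subtype.val hs2
  obtain ⟨f, hfC, ⟨s₁, hs₁C, hs₁⟩, ⟨u₁, hu₁C, hu₁⟩⟩ := key Bfin e₁ he₁ hi₁
  obtain ⟨g, hgC, ⟨s₂, hs₂C, hs₂⟩, ⟨u₂, hu₂C, hu₂⟩⟩ := key Binf e₂ he₂ hi₂
  -- Step 2: compare in `B`.
  obtain ⟨t₁₂, ht₁₂⟩ := h₁₂
  have hfg : f - g ∈ Ideal.span {W ^ (c + 1)} := by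
    refine idem_congr_mod_pow W f g (c + 1) ?_ ?_ ?_
    · rw [Ideal.mem_span_singleton]; exact ⟨u₁, hu₁⟩
    · rw [Ideal.mem_span_singleton]; exact ⟨u₂, hu₂⟩
    · rw [Ideal.mem_span_singleton]
      refine ⟨s₁ + t₁₂ - s₂, ?_⟩
      have : f - g = (f - e₁) + (e₁ - e₂) - (g - e₂) := by ring
      rw [this, hs₁, ht₁₂, hs₂]; ring
  rw [Ideal.mem_span_singleton] at hfg
  obtain ⟨h, hh⟩ := hfg
  -- Step 3: kill the obstruction.
  have hmem : W ^ (c + 1) * h ∈ Bfin.toSubmodule ⊔ Binf.toSubmodule := by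
    rw [← hh]
    exact Submodule.sub_mem _ (Submodule.mem_sup_left hfC) (Submodule.mem_sup_right hgC)
  obtain ⟨f', hf'C, g', hg'C, hfg'⟩ := Submodule.mem_sup.1 (hH1 h hmem)
  have hf'C' : f' ∈ Bfin := hf'C
  have hg'C' : g' ∈ Binf := hg'C
  have hWfin : W ∈ Bfin := Bfin.algebraMap_mem w
  have hWinf : W ∈ Binf := Binf.algebraMap_mem w
  have haeq : f - W * f' = g + W * g' := by
    have h1 : f - g = W * (f' + g') := by
      rw [hh, hfg', pow_succ]; ring
    have : f - W * f' - (g + W * g') = (f - g) - W * (f' + g') := by ring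
    rw [← sub_eq_zero, this, h1, sub_self]
  obtain ⟨a, ha⟩ := hH0 (f - W * f') (Bfin.sub_mem hfC (Bfin.mul_mem hWfin hf'C'))
    (by rw [haeq]; exact Binf.add_mem hgC (Binf.mul_mem hWinf hg'C'))
  -- Step 4: `a` is idempotent modulo `w` in `A`.
  have ha1 : ∃ t ∈ Bfin, algebraMap A B a - e₁ = W * t :=
    ⟨s₁ - f', Bfin.sub_mem hs₁C hf'C', by
      rw [ha]
      have : f - W * f' - e₁ = (f - e₁) - W * f' := by ring
      rw [this, hs₁]; ring⟩
  have ha2 : ∃ t ∈ Binf, algebraMap A B a - e₂ = W * t :=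
    ⟨s₂ + g', Binf.add_mem hs₂C hg'C', by
      rw [ha, haeq]
      have : g + W * g' - e₂ = (g - e₂) + W * g' := by ring
      rw [this, hs₂]; ring⟩
  obtain ⟨t₁, ht₁C, ht₁⟩ := ha1
  obtain ⟨t₂, ht₂C, ht₂⟩ := ha2
  obtain ⟨v₁, hv₁C, hv₁⟩ := hi₁
  have hdvd : w ∣ a * (a - 1) := by
    apply hinj
    refine ⟨v₁ + t₁ * (algebraMap A B a + e₁ - 1), ?_, ?_⟩
    · exact Bfin.add_mem hv₁C (Bfin.mul_mem ht₁C
        (Bfin.sub_mem (Bfin.add_mem (Bfin.algebraMap_mem a) he₁) Bfin.one_mem))
    · have : algebraMap A B (a * (a - 1)) =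
          (e₁ ^ 2 - e₁) + (algebraMap A B a - e₁) * (algebraMap A B a + e₁ - 1) := by
        rw [map_mul, map_sub, map_one]; ring
      rw [this, hv₁, ht₁]; ring
  rcases hprime _ _ hdvd with h0 | h1
  · left
    obtain ⟨b, rfl⟩ := h0
    refine ⟨⟨algebraMap A B b - t₁, Bfin.sub_mem (Bfin.algebraMap_mem b) ht₁C, ?_⟩,
      ⟨algebraMap A B b - t₂, Binf.sub_mem (Binf.algebraMap_mem b) ht₂C, ?_⟩⟩
    · have : e₁ = algebraMap A B (w * b) - (algebraMap A B (w * b) - e₁) := by ring
      rw [this, ht₁, map_mul]; ring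
    · have : e₂ = algebraMap A B (w * b) - (algebraMap A B (w * b) - e₂) := by ring
      rw [this, ht₂, map_mul]; ring
  · right
    obtain ⟨b, hb⟩ := h1
    have hab : algebraMap A B a = 1 + W * algebraMap A B b := by
      have : a = 1 + w * b := by rw [← hb]; ring
      rw [this, map_add, map_one, map_mul]
    refine ⟨⟨t₁ - algebraMap A B b, Bfin.sub_mem ht₁C (Bfin.algebraMap_mem b), ?_⟩,
      ⟨t₂ - algebraMap A B b, Binf.sub_mem ht₂C (Binf.algebraMap_mem b), ?_⟩⟩
    · have : 1 - e₁ = (algebraMap A B a - e₁) - (algebraMap A B a - 1) := by ring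
      rw [this, ht₁, hab]; ring
    · have : 1 - e₂ = (algebraMap A B a - e₂) - (algebraMap A B a - 1) := by ring
      rw [this, ht₂, hab]; ring

end Cech

section Torsion

variable {A M : Type*} [CommRing A] [AddCommGroup M] [Module A M]

/-- Over a noetherian ring, the `w`-power torsion of a finitely generated module is killed by a
single power `w ^ c`. -/
theorem exists_torsion_bound [IsNoetherianRing A] [Module.Finite A M] (w : A) :
    ∃ c : ℕ, ∀ (n : ℕ) (x : M), w ^ n • x = 0 → w ^ c • x = 0 := by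
  have hN : IsNoetherian A M := isNoetherian_of_isNoetherianRing_of_finite A M
  let K : ℕ →o Submodule A M :=
    ⟨fun n => LinearMap.ker (LinearMap.lsmul A M (w ^ n)), by
      intro a b hab x hx
      simp only [LinearMap.mem_ker, LinearMap.lsmul_apply] at hx ⊢
      obtain ⟨d, rfl⟩ := Nat.exists_eq_add_of_le hab
      rw [pow_add, mul_comm, mul_smul, hx, smul_zero]⟩
  have hK : ∀ (n : ℕ) (x : M), x ∈ K n ↔ w ^ n • x = 0 := fun n x => by
    change x ∈ LinearMap.ker (LinearMap.lsmul A M (w ^ n)) ↔ _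
    rw [LinearMap.mem_ker, LinearMap.lsmul_apply]
  obtain ⟨c, hc⟩ := monotone_stabilizes_iff_noetherian.2 hN K
  refine ⟨c, fun n x hx => ?_⟩
  rcases le_total n c with hnc | hcn
  · obtain ⟨d, rfl⟩ := Nat.exists_eq_add_of_le hnc
    rw [pow_add, mul_comm, mul_smul, hx, smul_zero]
  · have h1 : x ∈ K n := (hK n x).2 hx
    have h2 : x ∈ K c := by rw [hc n hcn]; exact h1
    exact (hK c x).1 h2

end Torsion

end Fermat.Agent.S18.H558

end
-- ===== PACK-END S18/H558/Cech.lean

-- ===== PACK-BEGIN S29/H395/KummerCorr.lean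
section
/-
S29 / layer M / bridge BR, piece NORM (formal half) — helper395.

Prelude-only.  How the Prelude correspondence `T = ψ_* ∘ φ^*` (and hence the Prelude Hecke operator
`heckeOperatorBar N ℓ = α_* ∘ β^*`) acts on "Kummer data":

  if `m • D = div f` then `m • T D = div (Nm_ψ (φ f))`.

Main statements:
* `correspondence_apply_eq_ord`     : `T (div f) = div (Nm_ψ (φ f))` (pointwise form);
* `correspondence_kummer`           : the same with a multiplier `m`;
* `heckeOperatorBar_mk_kummer`      : the modular instance, for `JZero N`;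
* `heckeOperatorBar_eq_mk_of_kummer`: `T_ℓ [D] = [D']` as soon as `m D' = div (Nm_α (β f))`, `m ≠ 0`.
-/


set_option autoImplicit false
set_option linter.style.haveILetI false

noncomputable section

namespace Fermat.Agent.S29.H395

open AlgebraicCurve ModularCurve

section Abstract

variable {K F F' : Type*} [Field K] [Field F] [Field F'] [Algebra K F] [Algebra K F']

/-- The norm of `g : F'` down to `F` along `ψ : F →ₐ[K] F'`. -/
def normAlong (ψ : F →ₐ[K] F') (g : F') : F :=
  letI := algebraAlong ψ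
  Algebra.norm F g

theorem normAlong_ne_zero (ψ : F →ₐ[K] F') (hfin : FiniteAlong K ψ) {g : F'} (hg : g ≠ 0) :
    normAlong ψ g ≠ 0 := by
  letI := algebraAlong ψ
  haveI : Module.Finite F F' := hfin
  exact Algebra.norm_ne_zero_iff.mpr hg

theorem normAlong_mul (ψ : F →ₐ[K] F') (g g' : F') :
    normAlong ψ (g * g') = normAlong ψ g * normAlong ψ g' := by
  letI := algebraAlong ψ
  exact map_mul (Algebra.norm F) g g'

theorem normAlong_one (ψ : F →ₐ[K] F') : normAlong ψ (1 : F') = 1 := by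
  letI := algebraAlong ψ
  exact map_one (Algebra.norm F)

theorem normAlong_pow (ψ : F →ₐ[K] F') (g : F') (n : ℕ) :
    normAlong ψ (g ^ n) = normAlong ψ g ^ n := by
  letI := algebraAlong ψ
  exact map_pow (Algebra.norm F) g n

/-- `φ^* (div f) = div (φ f)`. -/
theorem pullbackAlong_apply_eq_ord [HasPrincipalDivisors K F'] (φ : F →ₐ[K] F')
    (hφ : φ.toRingHom.IsIntegral) {f : F} {D : Divisor K F} (hD : ∀ v, D v = v.ord f)
    (w : Place K F') : Divisor.pullbackAlong φ hφ D w = w.ord (φ f) := by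
  letI := algebraAlong φ
  haveI := isScalarTower_along φ
  haveI := isIntegral_along φ hφ
  exact Divisor.pullback_apply_eq_ord hD w

/-- `ψ_* (div g) = div (Nm_ψ g)`. -/
theorem pushforwardAlong_apply_eq_ord (ψ : F →ₐ[K] F') (hψ : ψ.toRingHom.IsIntegral)
    (hfin : FiniteAlong K ψ) (hN : NormFormulaAlong K ψ hfin) {g : F'} (hg : g ≠ 0)
    {D : Divisor K F'} (hD : ∀ w, D w = w.ord g) (v : Place K F) :
    Divisor.pushforwardAlong ψ hψ D v = v.ord (normAlong ψ g) := by
  letI := algebraAlong ψ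
  haveI := isScalarTower_along ψ
  haveI := isIntegral_along ψ hψ
  haveI : Module.Finite F F' := hfin
  exact hN g hg D hD v

variable [HasPrincipalDivisors K F']
variable (φ ψ : F →ₐ[K] F') (hφ : φ.toRingHom.IsIntegral) (hψ : ψ.toRingHom.IsIntegral)

/-- `T (div f) = div (Nm_ψ (φ f))` for the correspondence `T = ψ_* φ^*`. -/
theorem correspondence_apply_eq_ord (hfin : FiniteAlong K ψ) (hN : NormFormulaAlong K ψ hfin)
    {f : F} (hf : f ≠ 0) {D : Divisor K F} (hD : ∀ v, D v = v.ord f) (v : Place K F) :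
    Divisor.correspondence φ ψ hφ hψ D v = v.ord (normAlong ψ (φ f)) := by
  rw [Divisor.correspondence_apply]
  exact pushforwardAlong_apply_eq_ord ψ hψ hfin hN
    (by simpa using hf) (fun w => pullbackAlong_apply_eq_ord φ hφ hD w) v

/-- **Kummer data under a correspondence**: if `m • D = div f` then
`m • T D = div (Nm_ψ (φ f))`. -/
theorem correspondence_kummer (hfin : FiniteAlong K ψ) (hN : NormFormulaAlong K ψ hfin)
    {f : F} (hf : f ≠ 0) {D : Divisor K F} (m : ℤ) (hD : ∀ v, m * D v = v.ord f)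
    (v : Place K F) :
    m * Divisor.correspondence φ ψ hφ hψ D v = v.ord (normAlong ψ (φ f)) := by
  have h1 : ∀ v, (m • D) v = v.ord f := fun v => by
    rw [Finsupp.smul_apply, smul_eq_mul]; exact hD v
  have h2 := correspondence_apply_eq_ord φ ψ hφ hψ hfin hN hf h1 v
  rw [map_zsmul, Finsupp.smul_apply, smul_eq_mul] at h2
  exact h2

end Abstract

section Pic0Torsion

variable {K F : Type*} [Field K] [Field F] [Algebra K F]

/-- Two degree-zero divisors with the same nonzero multiple define the same class (divisors form a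
torsion-free group). -/
theorem degZero_eq_of_zsmul_eq {D E : Divisor.degZero (K := K) (F := F)} {m : ℤ} (hm : m ≠ 0)
    (h : ∀ v, m * (D : Divisor K F) v = m * (E : Divisor K F) v) : D = E := by
  apply Subtype.ext
  ext v
  exact mul_left_cancel₀ hm (h v)

/-- If `m • D = div f` (pointwise) then `m • [D] = 0` in `Pic0`. -/
theorem zsmul_mk_eq_zero {D : Divisor.degZero (K := K) (F := F)} {m : ℤ} {f : F} (hf : f ≠ 0)
    (h : ∀ v, m * (D : Divisor K F) v = v.ord f) : m • Pic0.mk D = 0 := by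
  have h1 : m • Pic0.mk D = Pic0.mk (m • D) := rfl
  rw [h1]
  refine (QuotientAddGroup.eq_zero_iff _).mpr ?_
  rw [AddSubgroup.mem_addSubgroupOf]
  refine ⟨f, hf, fun v => ?_⟩
  rw [AddSubgroup.coe_zsmul, Finsupp.smul_apply, smul_eq_mul]
  exact h v

/-- `[D] = 0` in `Pic0` iff `D` is the divisor of a function. -/
theorem mk_eq_zero_iff {D : Divisor.degZero (K := K) (F := F)} :
    Pic0.mk D = 0 ↔ ∃ f : F, f ≠ 0 ∧ ∀ v, (D : Divisor K F) v = v.ord f := by
  rw [Pic0.mk, QuotientAddGroup.eq_zero_iff, AddSubgroup.mem_addSubgroupOf]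
  rfl

/-- `[D] = [E]` in `Pic0` iff `D - E` is the divisor of a function. -/
theorem mk_eq_mk_iff {D E : Divisor.degZero (K := K) (F := F)} :
    Pic0.mk D = Pic0.mk E ↔
      ∃ f : F, f ≠ 0 ∧ ∀ v, (D : Divisor K F) v - (E : Divisor K F) v = v.ord f := by
  rw [← sub_eq_zero, show Pic0.mk D - Pic0.mk E = Pic0.mk (D - E) from rfl, mk_eq_zero_iff]
  simp only [AddSubgroup.coe_sub, Finsupp.coe_sub, Pi.sub_apply]

end Pic0Torsion

section Modular

variable (N : ℕ) [NeZero N]

/-- Abbreviation: the base field `ℚ̄`. -/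
local notation "Qb" => AlgebraicClosure ℚ

/-- The norm `Nm_α ∘ β : F_N → F_N` (`α` = inclusion `F_N ⊆ F_{Nℓ}`, `β = (q ↦ q^ℓ)`), the
function-level shadow of the Hecke correspondence `T_ℓ = α_* β^*`. -/
def heckeNorm (ℓ : ℕ) [NeZero ℓ] (f : modularFunctionFieldBar N) : modularFunctionFieldBar N :=
  normAlong (heckeAlphaBar Qb N ℓ) (heckeBetaBar Qb N ℓ f)

theorem heckeNorm_mul (ℓ : ℕ) [NeZero ℓ] (f g : modularFunctionFieldBar N) :
    heckeNorm N ℓ (f * g) = heckeNorm N ℓ f * heckeNorm N ℓ g := by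
  unfold heckeNorm
  rw [map_mul, normAlong_mul]

theorem heckeNorm_one (ℓ : ℕ) [NeZero ℓ] : heckeNorm N ℓ 1 = 1 := by
  unfold heckeNorm
  rw [map_one, normAlong_one]

theorem heckeNorm_pow (ℓ : ℕ) [NeZero ℓ] (f : modularFunctionFieldBar N) (n : ℕ) :
    heckeNorm N ℓ (f ^ n) = heckeNorm N ℓ f ^ n := by
  unfold heckeNorm
  rw [map_pow, normAlong_pow]

theorem heckeNorm_ne_zero (ℓ : ℕ) [NeZero ℓ] (hHI : HeckeInputsAlong Qb N ℓ)
    {f : modularFunctionFieldBar N} (hf : f ≠ 0) : heckeNorm N ℓ f ≠ 0 := by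
  obtain ⟨_, _, _, hfin, _, _⟩ := hHI
  exact normAlong_ne_zero _ hfin (by simpa using hf)

/-- The Prelude Hecke operator on the class of a degree-zero divisor, at the level of divisors. -/
theorem heckeOperatorBar_mk (ℓ : Nat.Primes)
    (hHI : haveI : NeZero (ℓ : ℕ) := ⟨ℓ.2.ne_zero⟩; HeckeInputsAlong Qb N ℓ)
    (D : Divisor.degZero (K := Qb) (F := modularFunctionFieldBar N)) :
    ∃ D' : Divisor.degZero (K := Qb) (F := modularFunctionFieldBar N),
      heckeOperatorBar N ℓ (Pic0.mk D) = Pic0.mk D' ∧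
      ∀ (m : ℤ) (f : modularFunctionFieldBar N), f ≠ 0 →
        (∀ v, m * (D : Divisor Qb (modularFunctionFieldBar N)) v = v.ord f) →
        ∀ v, m * (D' : Divisor Qb (modularFunctionFieldBar N)) v
          = v.ord (haveI : NeZero (ℓ : ℕ) := ⟨ℓ.2.ne_zero⟩; heckeNorm N ℓ f) := by
  haveI : NeZero (ℓ : ℕ) := ⟨ℓ.2.ne_zero⟩
  obtain ⟨hα, hβ, hP, hfin, hFI, hN⟩ := hHI
  haveI := hP
  refine ⟨Pic0.degZeroCorrespondence (heckeBetaBar Qb N ℓ) (heckeAlphaBar Qb N ℓ) hβ hα hFI D,
    ?_, ?_⟩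
  · rw [heckeOperatorBar_apply, heckeOperatorAlong_eq hα hβ hFI hfin hN]
    rfl
  · intro m f hf hD v
    exact correspondence_kummer (heckeBetaBar Qb N ℓ) (heckeAlphaBar Qb N ℓ) hβ hα hfin hN hf m hD v

/-- **Hecke on Kummer classes.**  If `m D = div f` and `m D' = div (Nm_α (β f))` with `m ≠ 0`, then
`T_ℓ [D] = [D']` in `J₀(N)(ℚ̄)`. -/
theorem heckeOperatorBar_eq_mk_of_kummer (ℓ : Nat.Primes)
    (hHI : haveI : NeZero (ℓ : ℕ) := ⟨ℓ.2.ne_zero⟩; HeckeInputsAlong Qb N ℓ)
    (D D' : Divisor.degZero (K := Qb) (F := modularFunctionFieldBar N))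
    {m : ℤ} (hm : m ≠ 0) {f : modularFunctionFieldBar N} (hf : f ≠ 0)
    (hD : ∀ v, m * (D : Divisor Qb (modularFunctionFieldBar N)) v = v.ord f)
    (hD' : ∀ v, m * (D' : Divisor Qb (modularFunctionFieldBar N)) v
      = v.ord (haveI : NeZero (ℓ : ℕ) := ⟨ℓ.2.ne_zero⟩; heckeNorm N ℓ f)) :
    heckeOperatorBar N ℓ (Pic0.mk D) = Pic0.mk D' := by
  obtain ⟨E, hE, hE'⟩ := heckeOperatorBar_mk N ℓ hHI D
  rw [hE]
  congr 1
  exact degZero_eq_of_zsmul_eq hm fun v => by rw [hE' m f hf hD v, hD' v]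

end Modular

end Fermat.Agent.S29.H395

end

end
-- ===== PACK-END S29/H395/KummerCorr.lean

-- ===== PACK-BEGIN S29/H812/Tower.lean
section


/-!
# S29 / H812 — degree of `F'` over `K(x)` for `x ∈ F ⊆ F'`
-/

set_option autoImplicit false

noncomputable section

open IntermediateField

namespace Fermat.Agent.S29.H812

variable {K F F' : Type*} [Field K] [Field F] [Field F']
  [Algebra K F] [Algebra K F'] [Algebra F F'] [IsScalarTower K F F']

/-- `[F' : K(x')] = [F : K(x)] · [F' : F]` for `x' = algebraMap F F' x`. -/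
theorem finrank_adjoin_algebraMap (x : F) :
    Module.finrank K⟮algebraMap F F' x⟯ F' = Module.finrank K⟮x⟯ F * Module.finrank F F' := by
  haveI : IsScalarTower K⟮x⟯ F F' := inferInstance
  rw [Module.finrank_mul_finrank K⟮x⟯ F F']
  set f : F →ₐ[K] F' := IsScalarTower.toAlgHom K F F' with hf
  have hmap : (K⟮x⟯).map f = K⟮algebraMap F F' x⟯ := by
    rw [IntermediateField.adjoin_map, Set.image_singleton]
    rfl
  have h1 : Module.finrank K⟮algebraMap F F' x⟯ F' = Module.finrank ((K⟮x⟯).map f) F' :=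
    congrArg (fun E : IntermediateField K F' => Module.finrank E F') hmap.symm
  rw [h1]
  symm
  refine Algebra.finrank_eq_of_equiv_equiv
    ((IntermediateField.equivMap K⟮x⟯ f).toRingEquiv) (RingEquiv.refl F') ?_
  ext c
  rfl

theorem finiteDimensional_adjoin_algebraMap (x : F) [FiniteDimensional K⟮x⟯ F]
    [FiniteDimensional F F'] : FiniteDimensional K⟮algebraMap F F' x⟯ F' := by
  apply Module.finite_of_finrank_pos
  rw [finrank_adjoin_algebraMap]
  exact Nat.mul_pos Module.finrank_pos Module.finrank_pos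

theorem transcendental_algebraMap_of {x : F} (hx : Transcendental K x) :
    Transcendental K (algebraMap F F' x) :=
  (transcendental_algebraMap_iff (algebraMap F F').injective).mpr hx

/-- If `F'` is finite over `K(φ x)` with `φ x` in the image of `F`, then `F'` is finite over `F`. -/
theorem finite_of_finite_adjoin_algebraMap (x : F)
    [h : FiniteDimensional K⟮algebraMap F F' x⟯ F'] : Module.Finite F F' := by
  obtain ⟨s, hs⟩ := (Module.finite_def.mp h)
  refine Module.finite_def.mpr ⟨s, ?_⟩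
  rw [eq_top_iff]
  rintro y -
  have hy : y ∈ Submodule.span K⟮algebraMap F F' x⟯ (s : Set F') := by rw [hs]; trivial
  have hle : K⟮algebraMap F F' x⟯ ≤ (IsScalarTower.toAlgHom K F F').fieldRange := by
    rw [IntermediateField.adjoin_le_iff]
    rintro _ rfl
    exact ⟨x, rfl⟩
  induction hy using Submodule.span_induction with
  | mem z hz => exact Submodule.subset_span hz
  | zero => exact zero_mem _
  | add a b _ _ ha hb => exact add_mem ha hb
  | smul c z _ hz =>
    obtain ⟨c₀, hc₀⟩ := hle c.2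
    have : c • z = c₀ • z := by
      rw [Algebra.smul_def, Algebra.smul_def]
      congr 1
      exact hc₀.symm
    rw [this]
    exact Submodule.smul_mem _ _ hz

end Fermat.Agent.S29.H812

end
end
-- ===== PACK-END S29/H812/Tower.lean

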