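import Mathlib
import Fermat.Prelude.Def_ModularCurve_LaurentCoeff
import Fermat.Prelude.Def_CuspForm_IntegralStructure
import Fermat.Prelude.Def_FormalHecke_Eigensystem
import Fermat.Prelude.Def_CuspForm_Newforms
import Fermat.Prelude.Def_ModularForm_HeckeOperatorForms
import Fermat.Prelude.Thm_ModularFormClass_qCoeff_heckeT
import Fermat.Prelude.Thm_ModularFormClass_qCoeff_heckeU
import Fermat.Prelude.Thm_CongruenceSubgroup_one_mem_strictPeriods_Gamma0
import Mathlib.FieldTheory.Minpoly.IsConjRoot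
import Mathlib.FieldTheory.Normal.Defs
import Mathlib.RingTheory.Polynomial.Vieta
import Mathlib.RingTheory.Valuation.ValuationSubring
import Mathlib.Algebra.Polynomial.Lifts
import Mathlib.RingTheory.IntegralClosure.IsIntegralClosure.Basic
import Mathlib.RingTheory.DiscreteValuationRing.Basic
import Mathlib.Algebra.Polynomial.AlgebraMap
import Mathlib.RingTheory.Localization.FractionRing

-- ===== PACK-BEGIN S22/H262/Prim.lean
section


set_option autoImplicit false

/-!
# Primitive towers on the upper half plane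

For a holomorphic periodic function `h` on `ℍ` vanishing at `i∞` we construct the tower
`E 0 = h`, `(E (r+1))' = E r`, with every `E (r+1)` vanishing at `i∞`, and prove uniqueness.
(The one-step primitive lemma is due to helper502.)
-/

open Complex Filter Function Metric Set
open UpperHalfPlane hiding I
open scoped Real Topology Manifold

namespace Fermat.Agent.S22.H262

/-- One-step primitive: a holomorphic `h`-periodic function on `ℍ` that is zero at `i∞` has a
holomorphic `h`-periodic primitive that is zero at `i∞`. -/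
theorem exists_primitive_isZeroAtImInfty {f : ℍ → ℂ} {h : ℝ} (hh : 0 < h)
    (hfper : Periodic (f ∘ ofComplex) h) (hfhol : MDiff f) (hfzero : IsZeroAtImInfty f) :
    ∃ F : ℍ → ℂ, Periodic (F ∘ ofComplex) h ∧ MDiff F ∧ IsZeroAtImInfty F ∧
      ∀ τ : ℍ, HasDerivAt (F ∘ ofComplex) (f τ) (τ : ℂ) := by
  set φ := cuspFunction h f with hφ
  have hφd : DifferentiableOn ℂ φ (ball 0 1) :=
    differentiableOn_cuspFunction_ball hh hfper hfhol hfzero.isBoundedAtImInfty
  have hφ0 : φ 0 = 0 := hfzero.cuspFunction_apply_zero hh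
  have hball : ball (0 : ℂ) 1 ∈ 𝓝 (0 : ℂ) := ball_mem_nhds _ one_pos
  have hψd : DifferentiableOn ℂ (dslope φ 0) (ball 0 1) :=
    (differentiableOn_dslope hball).2 hφd
  obtain ⟨Ψ, hΨ0, hΨ⟩ := (hψd.isExactOn_ball).with_val_at 0 0
  have hq : ∀ z : ℂ, 0 < z.im → Periodic.qParam h z ∈ ball (0 : ℂ) 1 := fun z hz ↦ by
    simpa using Periodic.norm_qParam_lt_one hh hz
  -- the primitive as a function on `ℂ`
  set G : ℂ → ℂ := fun z ↦ (h / (2 * π * I)) * Ψ (Periodic.qParam h z) with hG
  have hGderiv : ∀ τ : ℍ, HasDerivAt G (f τ) (τ : ℂ) := by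
    intro τ
    have hqτ := hq τ τ.im_pos
    have h1 : HasDerivAt (Periodic.qParam h) (Periodic.qParam h τ * (2 * π * I / h)) (τ : ℂ) := by
      simpa only [id_eq, mul_one] using!
        (((hasDerivAt_id (τ : ℂ)).const_mul (2 * π * I)).div_const (h : ℂ)).cexp
    have h2 := (hΨ _ hqτ).comp (τ : ℂ) h1
    have h3 := h2.const_mul ((h : ℂ) / (2 * π * I))
    have hne : Periodic.qParam h (τ : ℂ) ≠ 0 := Periodic.qParam_ne_zero _
    have hval : (h : ℂ) / (2 * π * I) *
        (dslope φ 0 (Periodic.qParam h τ) * (Periodic.qParam h τ * (2 * π * I / h))) = f τ := by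
      rw [dslope_of_ne _ hne, slope_def_field, hφ0, sub_zero, sub_zero]
      have hh' : (h : ℂ) ≠ 0 := by exact_mod_cast hh.ne'
      have : φ (Periodic.qParam h τ) = f τ := eq_cuspFunction τ hh.ne' hfper
      rw [this]
      field_simp [two_pi_I_ne_zero]
    rw [← hval]
    exact h3
  refine ⟨fun τ ↦ G τ, ?_, ?_, ?_, ?_⟩
  · intro w
    by_cases hw : 0 < im w
    · have hw' : 0 < im (w + h) := by simpa using hw
      simp only [comp_apply, ofComplex_apply_of_im_pos hw', ofComplex_apply_of_im_pos hw, hG]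
      congr 2
      simp only [Periodic.qParam]
      have hh' : (h : ℂ) ≠ 0 := by exact_mod_cast hh.ne'
      rw [show 2 * π * I * (w + h) / h = 2 * π * I * w / h + 2 * π * I by field_simp,
        Complex.exp_add, Complex.exp_two_pi_mul_I, mul_one]
    · have hw' : im (w + h) ≤ 0 := by simpa using not_lt.mp hw
      simp [ofComplex_apply_of_im_nonpos hw', ofComplex_apply_of_im_nonpos (not_lt.mp hw)]
  · rw [UpperHalfPlane.mdifferentiable_iff]
    intro z hz
    have := hGderiv ⟨z, hz⟩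
    refine (this.differentiableAt.differentiableWithinAt).congr ?_ ?_
    · intro w hw
      simp [ofComplex_apply_of_im_pos hw]
    · simp [ofComplex_apply_of_im_pos hz]
  · have hΨc : ContinuousAt Ψ 0 := (hΨ 0 (mem_ball_self one_pos)).continuousAt
    have h1 : Tendsto (fun τ : ℍ ↦ Ψ (Periodic.qParam h τ)) atImInfty (𝓝 0) := by
      have := hΨc.tendsto.comp (qParam_tendsto_atImInfty hh)
      rwa [hΨ0] at this
    have h2 := h1.const_mul ((h : ℂ) / (2 * π * I))
    rw [mul_zero] at h2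
    exact h2
  · intro τ
    refine (hGderiv τ).congr_of_eventuallyEq ?_
    have hopen : {z : ℂ | 0 < z.im} ∈ 𝓝 (τ : ℂ) :=
      (isOpen_lt continuous_const Complex.continuous_im).mem_nhds τ.im_pos
    filter_upwards [hopen] with z hz
    simp [ofComplex_apply_of_im_pos hz]

/-- A *primitive tower* of `h`: `E 0 = h`, `E (r+1)` is a primitive of `E r` on `ℍ`
which vanishes at `i∞`. -/
structure IsTower (h : ℍ → ℂ) (E : ℕ → ℍ → ℂ) : Prop where
  zero : E 0 = h
  hasDeriv : ∀ (r : ℕ) (z : ℍ), HasDerivAt (E (r + 1) ∘ ofComplex) (E r z) (z : ℂ)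
  isZero : ∀ r : ℕ, IsZeroAtImInfty (E (r + 1))

/-- A function on `ℍ` with vanishing derivative everywhere is constant. -/
theorem const_of_hasDerivAt_zero {D : ℍ → ℂ}
    (hD : ∀ z : ℍ, HasDerivAt (D ∘ ofComplex) 0 (z : ℂ)) (z w : ℍ) : D z = D w := by
  have hopen : IsOpen {z : ℂ | 0 < z.im} := isOpen_lt continuous_const Complex.continuous_im
  have hconv : Convex ℝ {z : ℂ | 0 < z.im} := by
    intro x hx y hy a b ha hb hab
    simp only [Set.mem_ofPred_eq, add_im, smul_im] at *
    rcases ha.eq_or_lt with rfl | ha'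
    · simp only [zero_add] at hab
      subst hab
      simpa using hy
    · have : 0 < a * x.im := mul_pos ha' hx
      have : 0 ≤ b * y.im := mul_nonneg hb hy.le
      simpa using by linarith
  have hdiff : DifferentiableOn ℂ (D ∘ ofComplex) {z : ℂ | 0 < z.im} := fun z hz =>
    (hD ⟨z, hz⟩).differentiableAt.differentiableWithinAt
  have hderiv : EqOn (deriv (D ∘ ofComplex)) 0 {z : ℂ | 0 < z.im} := fun z hz =>
    (hD ⟨z, hz⟩).deriv
  have := hopen.is_const_of_deriv_eq_zero hconv.isPreconnected hdiff hderiv z.im_pos w.im_pos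
  simpa using this

/-- A function on `ℍ` with vanishing derivative which tends to zero at `i∞` is zero. -/
theorem eq_zero_of_hasDerivAt_zero_of_isZero {D : ℍ → ℂ}
    (hD : ∀ z : ℍ, HasDerivAt (D ∘ ofComplex) 0 (z : ℂ)) (h0 : IsZeroAtImInfty D) : D = 0 := by
  funext z
  have hconst : D = fun _ => D z := funext fun w => const_of_hasDerivAt_zero hD w z
  have h1 : Tendsto D atImInfty (𝓝 0) := h0
  have h2 : Tendsto D atImInfty (𝓝 (D z)) := by
    conv => enter [1]; rw [hconst]
    exact tendsto_const_nhds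
  exact tendsto_nhds_unique h2 h1

theorem IsTower.unique {h : ℍ → ℂ} {E E' : ℕ → ℍ → ℂ} (hE : IsTower h E) (hE' : IsTower h E') :
    E = E' := by
  funext r
  induction r with
  | zero => rw [hE.zero, hE'.zero]
  | succ r ih =>
    have hD : ∀ z : ℍ, HasDerivAt ((E (r + 1) - E' (r + 1)) ∘ ofComplex) 0 (z : ℂ) := by
      intro z
      have := (hE.hasDeriv r z).sub (hE'.hasDeriv r z)
      rw [ih, sub_self] at this
      exact this
    have h0 : IsZeroAtImInfty (E (r + 1) - E' (r + 1)) := by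
      have : Tendsto (fun z => E (r + 1) z - E' (r + 1) z) atImInfty (𝓝 (0 - 0)) :=
        Tendsto.sub (hE.isZero r) (hE'.isZero r)
      rw [sub_zero] at this
      exact this
    have := eq_zero_of_hasDerivAt_zero_of_isZero hD h0
    exact sub_eq_zero.mp this

theorem IsTower.mdiff {h : ℍ → ℂ} {E : ℕ → ℍ → ℂ} (hE : IsTower h E) (r : ℕ) :
    MDiff (E (r + 1)) := by
  rw [UpperHalfPlane.mdifferentiable_iff]
  intro z hz
  exact (hE.hasDeriv r ⟨z, hz⟩).differentiableAt.differentiableWithinAt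

theorem IsTower.add {h₁ h₂ : ℍ → ℂ} {E₁ E₂ : ℕ → ℍ → ℂ} (h1 : IsTower h₁ E₁)
    (h2 : IsTower h₂ E₂) : IsTower (h₁ + h₂) (E₁ + E₂) where
  zero := by rw [Pi.add_apply, h1.zero, h2.zero]
  hasDeriv r z := (h1.hasDeriv r z).add (h2.hasDeriv r z)
  isZero r := by
    have : Tendsto (fun z => E₁ (r + 1) z + E₂ (r + 1) z) atImInfty (𝓝 (0 + 0)) :=
      Tendsto.add (h1.isZero r) (h2.isZero r)
    rw [add_zero] at this
    exact this

theorem IsTower.smul {h : ℍ → ℂ} {E : ℕ → ℍ → ℂ} (hE : IsTower h E) (c : ℂ) :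
    IsTower (c • h) (c • E) where
  zero := by rw [Pi.smul_apply, hE.zero]
  hasDeriv r z := (hE.hasDeriv r z).const_smul c
  isZero r := by
    have : Tendsto (fun z => c * E (r + 1) z) atImInfty (𝓝 (c * 0)) :=
      (hE.isZero r).const_mul c
    rw [mul_zero] at this
    exact this

theorem isTower_zero : IsTower 0 0 where
  zero := rfl
  hasDeriv _ z := by
    have : ((0 : ℕ → ℍ → ℂ) 0 ∘ ofComplex) = fun _ => (0 : ℂ) := rfl
    simp
  isZero _ := tendsto_const_nhds

/-- Existence of towers for holomorphic periodic functions vanishing at `i∞`. -/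
theorem exists_isTower {h : ℍ → ℂ} {p : ℝ} (hp : 0 < p)
    (hper : Periodic (h ∘ ofComplex) p) (hhol : MDiff h) (hzero : IsZeroAtImInfty h) :
    ∃ E : ℕ → ℍ → ℂ, IsTower h E := by
  classical
  let X := {F : ℍ → ℂ // Periodic (F ∘ ofComplex) p ∧ MDiff F ∧ IsZeroAtImInfty F}
  have step : ∀ F : X, ∃ F' : X, ∀ τ : ℍ, HasDerivAt (F'.1 ∘ ofComplex) (F.1 τ) (τ : ℂ) := by
    rintro ⟨F, h1, h2, h3⟩
    obtain ⟨F', h1', h2', h3', h4'⟩ := exists_primitive_isZeroAtImInfty hp h1 h2 h3
    exact ⟨⟨F', h1', h2', h3'⟩, h4'⟩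
  choose next hnext using step
  let E : ℕ → X := fun r => Nat.rec ⟨h, hper, hhol, hzero⟩ (fun _ F => next F) r
  refine ⟨fun r => (E r).1, rfl, fun r z => ?_, fun r => ?_⟩
  · exact hnext (E r) z
  · exact (E (r + 1)).2.2.2

/-- The chosen tower of a function (junk value `0` if no tower exists). -/
noncomputable def tower (h : ℍ → ℂ) : ℕ → ℍ → ℂ :=
  open Classical in if hex : ∃ E, IsTower h E then hex.choose else 0

/-- `h` admits a tower. -/
def HasTower (h : ℍ → ℂ) : Prop := ∃ E, IsTower h E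

theorem HasTower.isTower {h : ℍ → ℂ} (hh : HasTower h) : IsTower h (tower h) := by
  unfold tower
  have hh' : ∃ E, IsTower h E := hh
  rw [dif_pos hh']
  exact hh'.choose_spec

theorem IsTower.tower_eq {h : ℍ → ℂ} {E : ℕ → ℍ → ℂ} (hE : IsTower h E) : tower h = E :=
  (HasTower.isTower ⟨E, hE⟩).unique hE

theorem HasTower.add {h₁ h₂ : ℍ → ℂ} (h1 : HasTower h₁) (h2 : HasTower h₂) :
    HasTower (h₁ + h₂) := ⟨_, h1.isTower.add h2.isTower⟩

theorem HasTower.smul {h : ℍ → ℂ} (hh : HasTower h) (c : ℂ) : HasTower (c • h) :=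
  ⟨_, hh.isTower.smul c⟩

theorem hasTower_zero : HasTower 0 := ⟨_, isTower_zero⟩

theorem tower_add {h₁ h₂ : ℍ → ℂ} (h1 : HasTower h₁) (h2 : HasTower h₂) :
    tower (h₁ + h₂) = tower h₁ + tower h₂ :=
  (h1.isTower.add h2.isTower).tower_eq

theorem tower_smul {h : ℍ → ℂ} (hh : HasTower h) (c : ℂ) : tower (c • h) = c • tower h :=
  (hh.isTower.smul c).tower_eq

theorem tower_zero_fun : tower 0 = 0 := isTower_zero.tower_eq

theorem tower_sum {ι : Type*} (s : Finset ι) (h : ι → ℍ → ℂ) (hh : ∀ i ∈ s, HasTower (h i)) :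
    HasTower (∑ i ∈ s, h i) ∧ tower (∑ i ∈ s, h i) = ∑ i ∈ s, tower (h i) := by
  classical
  induction s using Finset.induction_on with
  | empty => exact ⟨by simpa using hasTower_zero, by simpa using tower_zero_fun⟩
  | insert a s ha ih =>
    have ih' := ih fun i hi => hh i (Finset.mem_insert_of_mem hi)
    have ha' := hh a (Finset.mem_insert_self a s)
    rw [Finset.sum_insert ha, Finset.sum_insert ha]
    exact ⟨ha'.add ih'.1, by rw [tower_add ha' ih'.1, ih'.2]⟩

end Fermat.Agent.S22.H262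

end
-- ===== PACK-END S22/H262/Prim.lean

-- ===== PACK-BEGIN S29/H102/RootDesc.lean
section
/-
S29 / M4b / K4 (helper102) — ROOT DESCENT for Laurent series.

If `K` is an algebraically closed field, `ι : K →+* L` a ring hom into a field of characteristic
zero and `s ∈ L((q))` satisfies `s ^ p = coeffMap ι w` for some `w ∈ K((q))`, `p ≠ 0`, then all
coefficients of `s` lie in the image of `ι`, i.e. `s = coeffMap ι v` for some `v ∈ K((q))`.

Proof: the power series part `P` of `s` satisfies the linear differential equation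
`G' * P = p • (G * P')` with `G = P ^ p` (coefficients in `ι K`), which determines the coefficients
of `P` recursively from the constant one; the constant coefficient is a root of `X ^ p - ι c`.

Mathlib + Prelude `coeffMap` only.  Namespace `Fermat.Agent.S29.H102`.
-/



set_option autoImplicit false

noncomputable section

namespace Fermat.Agent.S29.H102

open ModularCurve PowerSeries

variable {K L : Type*} [Field K] [Field L]

/-- An element of `L` which is a root of `X ^ p - ι c` lies in the image of the algebraically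
closed field `K`. -/
theorem RootDesc_const [IsAlgClosed K] (ι : K →+* L) {p : ℕ} (hp : p ≠ 0) {a : L} {c : K}
    (h : a ^ p = ι c) : a ∈ ι.fieldRange := by
  classical
  let _ : Algebra K L := ι.toAlgebra
  have halg : IsAlgebraic K a := by
    refine ⟨Polynomial.X ^ p - Polynomial.C c, ?_, ?_⟩
    · exact Polynomial.X_pow_sub_C_ne_zero (Nat.pos_of_ne_zero hp) c
    · simp only [map_sub, map_pow, Polynomial.aeval_X, Polynomial.aeval_C]
      rw [h]
      exact sub_self _
  have hint : IsIntegral K a := halg.isIntegral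
  have hq : (minpoly K a).leadingCoeff = 1 := minpoly.monic hint
  have hdeg : (minpoly K a).degree = 1 :=
    IsAlgClosed.degree_eq_one_of_irreducible K (minpoly.irreducible hint)
  have h0 : Polynomial.aeval a (minpoly K a) = 0 := minpoly.aeval K a
  rw [Polynomial.eq_X_add_C_of_degree_eq_one hdeg, hq, Polynomial.C_1, one_mul,
    Polynomial.aeval_add, Polynomial.aeval_X, Polynomial.aeval_C,
    add_eq_zero_iff_eq_neg] at h0
  rw [RingHom.mem_fieldRange]
  refine ⟨-(minpoly K a).coeff 0, ?_⟩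
  have h1 : ι (-(minpoly K a).coeff 0) = -(algebraMap K L) ((minpoly K a).coeff 0) :=
    map_neg ι _
  rw [h1]
  exact h0.symm

/-- The differential equation satisfied by a `p`-th root. -/
theorem RootDesc_ode (P : PowerSeries L) (p : ℕ) (hp : p ≠ 0) :
    (d⁄dX L) (P ^ p) * P = (p : PowerSeries L) * (P ^ p * (d⁄dX L) P) := by
  rw [Derivation.leibniz_pow, nsmul_eq_mul, smul_eq_mul]
  have h1 : P ^ p = P ^ (p - 1) * P := by
    rw [← pow_succ, Nat.sub_add_cancel (Nat.one_le_iff_ne_zero.mpr hp)]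
  rw [h1]
  ring

/-- Power series version of root descent. -/
theorem RootDesc_powerSeries [IsAlgClosed K] [CharZero L] (ι : K →+* L) {p : ℕ} (hp : p ≠ 0)
    (P : PowerSeries L) (Q : PowerSeries K) (hP0 : constantCoeff P ≠ 0)
    (h : P ^ p = Q.map ι) : ∀ k, coeff k P ∈ ι.fieldRange := by
  classical
  have hG : ∀ i, coeff i (P ^ p) ∈ ι.fieldRange := by
    intro i
    rw [h, coeff_map]
    exact RingHom.mem_fieldRange.mpr ⟨_, rfl⟩
  have hG0 : coeff 0 (P ^ p) ≠ 0 := by
    rw [coeff_zero_eq_constantCoeff, map_pow]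
    exact pow_ne_zero p hP0
  have hnat : ∀ n : ℕ, (n : L) ∈ ι.fieldRange := fun n => natCast_mem _ n
  intro k
  induction k using Nat.strong_induction_on with
  | _ k ih =>
    rcases Nat.eq_zero_or_pos k with rfl | hk
    · have h0 : (coeff 0 P) ^ p = ι (coeff 0 Q) := by
        have := congrArg (coeff 0) h
        rw [coeff_map] at this
        rw [← this, coeff_zero_eq_constantCoeff, map_pow]
      exact RootDesc_const ι hp h0
    · obtain ⟨m, rfl⟩ : ∃ m, k = m + 1 := ⟨k - 1, (Nat.sub_add_cancel hk).symm⟩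
      have hode := congrArg (coeff m) (RootDesc_ode P p hp)
      have hcast : (p : PowerSeries L) = C (p : L) := by simp
      rw [hcast, coeff_C_mul] at hode
      have hmem : ((0, m) : ℕ × ℕ) ∈ Finset.HasAntidiagonal.antidiagonal m := by
        simp
      set A := ∑ x ∈ Finset.HasAntidiagonal.antidiagonal m,
        coeff (x.1 + 1) (P ^ p) * ((x.1 : L) + 1) * coeff x.2 P with hA
      set B := ∑ x ∈ (Finset.HasAntidiagonal.antidiagonal m).erase (0, m),
          coeff x.1 (P ^ p) * (coeff (x.2 + 1) P * ((x.2 : L) + 1)) with hB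
      have hLHS : coeff m ((d⁄dX L) (P ^ p) * P) = A := by
        rw [coeff_mul]
        simp only [coeff_derivative, hA]
      have hRHS : coeff m (P ^ p * (d⁄dX L) P)
          = coeff 0 (P ^ p) * (coeff (m + 1) P * ((m : L) + 1)) + B := by
        rw [coeff_mul, ← Finset.add_sum_erase _ _ hmem]
        simp only [coeff_derivative, hB]
      rw [hLHS, hRHS] at hode
      -- left side is in the subfield
      have hL : A ∈ ι.fieldRange := by
        refine Subfield.sum_mem _ fun x hx => ?_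
        have h2 := Finset.HasAntidiagonal.mem_antidiagonal.mp hx
        have hx2 : x.2 < m + 1 := by omega
        exact mul_mem (mul_mem (hG _) (add_mem (hnat _) (one_mem _))) (ih _ hx2)
      -- the remaining sum on the right is in the subfield
      have hR : B ∈ ι.fieldRange := by
        refine Subfield.sum_mem _ fun x hx => ?_
        have hx' := Finset.mem_erase.mp hx
        have h2 := Finset.HasAntidiagonal.mem_antidiagonal.mp hx'.2
        have hx1 : x.1 ≠ 0 := by
          intro h0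
          apply hx'.1
          ext
          · exact h0
          · simp only
            omega
        have hx2 : x.2 + 1 < m + 1 := by omega
        exact mul_mem (hG _) (mul_mem (ih _ hx2) (add_mem (hnat _) (one_mem _)))
      -- solve for the coefficient
      have hp0 : (p : L) ≠ 0 := Nat.cast_ne_zero.mpr hp
      have hm0 : ((m : L) + 1) ≠ 0 := by
        have : ((m + 1 : ℕ) : L) ≠ 0 := Nat.cast_ne_zero.mpr (Nat.succ_ne_zero m)
        simpa using this
      have hsolve : coeff (m + 1) P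
          = (A - (p : L) * B) / ((p : L) * coeff 0 (P ^ p) * ((m : L) + 1)) := by
        rw [eq_div_iff (mul_ne_zero (mul_ne_zero hp0 hG0) hm0), hode]
        ring
      rw [hsolve]
      exact div_mem (sub_mem hL (mul_mem (hnat p) hR))
        (mul_mem (mul_mem (hnat p) (hG 0)) (add_mem (hnat m) (one_mem _)))

/-- A Laurent series all of whose coefficients lie in the image of `ι` is a base change. -/
theorem RootDesc_exists_of_coeff_mem (ι : K →+* L) (s : LaurentSeries L)
    (h : ∀ n, s.coeff n ∈ ι.fieldRange) : ∃ v : LaurentSeries K, coeffMap ι v = s := by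
  classical
  have hinv : Function.invFun ι 0 = 0 := by
    have := Function.leftInverse_invFun ι.injective (0 : K)
    rwa [map_zero] at this
  refine ⟨s.map (⟨Function.invFun ι, hinv⟩ : ZeroHom L K), ?_⟩
  ext n
  obtain ⟨c, hc⟩ := RingHom.mem_fieldRange.mp (h n)
  simp only [coeffMap_coeff, HahnSeries.map_coeff, ZeroHom.coe_mk]
  rw [← hc, Function.leftInverse_invFun ι.injective c]

/-- **Root descent.**  A `p`-th root in `L((q))` of a Laurent series with coefficients in the
algebraically closed field `K` has coefficients in `K`. -/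
theorem RootDesc_laurent [IsAlgClosed K] [CharZero L] (ι : K →+* L) {p : ℕ} (hp : p ≠ 0)
    (s : LaurentSeries L) (w : LaurentSeries K) (h : s ^ p = coeffMap ι w) :
    ∃ v : LaurentSeries K, coeffMap ι v = s := by
  classical
  apply RootDesc_exists_of_coeff_mem
  by_cases hs : s = 0
  · intro n
    rw [hs]
    exact zero_mem _
  set n₀ := s.order with hn₀
  set P := s.powerSeriesPart with hP
  -- the shifted series
  set w' : LaurentSeries K := HahnSeries.single (-((p : ℤ) * n₀)) (1 : K) * w with hw'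
  set Q : PowerSeries K := PowerSeries.mk fun k => w'.coeff k with hQ
  have hPs : HahnSeries.ofPowerSeries ℤ L P = HahnSeries.single (-n₀) (1 : L) * s :=
    LaurentSeries.ofPowerSeries_powerSeriesPart s
  have hpow : HahnSeries.ofPowerSeries ℤ L (P ^ p) = coeffMap ι w' := by
    rw [map_pow, hPs, mul_pow, h, hw', map_mul, coeffMap_single, HahnSeries.single_pow,
      one_pow, ι.map_one]
    congr 2
    simp
  have hPQ : P ^ p = Q.map ι := by
    ext k
    rw [coeff_map, hQ, coeff_mk, ← HahnSeries.ofPowerSeries_apply_coeff (Γ := ℤ), hpow,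
      coeffMap_coeff]
  have hP0 : constantCoeff P ≠ 0 := by
    rw [← coeff_zero_eq_constantCoeff_apply, hP, LaurentSeries.powerSeriesPart_coeff]
    simpa using HahnSeries.coeff_order_eq_zero.not.mpr hs
  have hcoeff := RootDesc_powerSeries ι hp P Q hP0 hPQ
  intro n
  by_cases hn : n < n₀
  · rw [HahnSeries.coeff_eq_zero_of_lt_order hn]
    exact zero_mem _
  · obtain ⟨k, hk⟩ : ∃ k : ℕ, n = n₀ + k := by
      refine ⟨(n - n₀).toNat, ?_⟩
      have : 0 ≤ n - n₀ := by omega
      rw [Int.toNat_of_nonneg this]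
      ring
    rw [hk, ← LaurentSeries.powerSeriesPart_coeff]
    exact hcoeff k

end Fermat.Agent.S29.H102

end
end
-- ===== PACK-END S29/H102/RootDesc.lean

-- ===== PACK-BEGIN S21/H561/Weyl.lean
section


/-!
# Weyl's lemma for the Cauchy–Riemann operator (helper561)

If `g` is locally integrable on an open set `U ⊆ ℂ` and `∫ g · ∂η/∂z̄ = 0` for every real-valued
smooth compactly supported `η` with support in `U`, then `g` agrees a.e. on `U` with a
holomorphic function.
-/

open MeasureTheory Complex Metric Set Filter Topology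
open scoped Convolution ContDiff Real

namespace Fermat.Agent.S21.H561

noncomputable section

/-- The Wirtinger derivative `∂/∂z̄` of a real-valued function on `ℂ`. -/
def dbarR (η : ℂ → ℝ) (z : ℂ) : ℂ :=
  (1 / 2 : ℂ) * ((fderiv ℝ η z 1 : ℝ) + I * (fderiv ℝ η z I : ℝ))

/-- `g` is weakly holomorphic on `U`: it is orthogonal to `∂η/∂z̄` for every real test function
supported in `U`. -/
def WeakHolo (U : Set ℂ) (g : ℂ → ℂ) : Prop :=
  ∀ η : ℂ → ℝ, ContDiff ℝ ∞ η → HasCompactSupport η → tsupport η ⊆ U →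
    ∫ z, g z * dbarR η z = 0

/-- mollification of `G` by the real kernel `m`. -/
def mol (m : ℂ → ℝ) (G : ℂ → ℂ) (x : ℂ) : ℂ := ∫ t, m (x - t) • G t

/-- The bilinear map `(c, r) ↦ r • c`. -/
def smulFlip : ℂ →L[ℝ] ℝ →L[ℝ] ℂ := (ContinuousLinearMap.lsmul ℝ ℝ).flip

@[simp] lemma smulFlip_apply (c : ℂ) (r : ℝ) : smulFlip c r = r • c := rfl

lemma mol_eq_convolution (m : ℂ → ℝ) (G : ℂ → ℂ) :
    mol m G = G ⋆[smulFlip, volume] m := by
  ext x
  simp [mol, convolution_def]

lemma mol_eq_convolution' (m : ℂ → ℝ) (G : ℂ → ℂ) :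
    mol m G = m ⋆[ContinuousLinearMap.lsmul ℝ ℝ, volume] G := by
  rw [mol_eq_convolution, smulFlip, convolution_flip]

lemma hasFDerivAt_mol {m : ℂ → ℝ} {G : ℂ → ℂ} (hm : ContDiff ℝ 1 m) (hcm : HasCompactSupport m)
    (hG : LocallyIntegrable G volume) (x : ℂ) :
    HasFDerivAt (mol m G) ((G ⋆[smulFlip.precompR ℂ, volume] fderiv ℝ m) x) x := by
  rw [mol_eq_convolution]
  exact hcm.hasFDerivAt_convolution_right smulFlip hG hm x

lemma fderiv_mol_apply {m : ℂ → ℝ} {G : ℂ → ℂ} (hm : ContDiff ℝ 1 m) (hcm : HasCompactSupport m)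
    (hG : LocallyIntegrable G volume) (x v : ℂ) :
    (G ⋆[smulFlip.precompR ℂ, volume] fderiv ℝ m) x v = ∫ t, (fderiv ℝ m (x - t) v) • G t := by
  rw [convolution_precompR_apply smulFlip hG (hcm.fderiv ℝ) (hm.continuous_fderiv one_ne_zero)]
  simp [convolution_def]

lemma differentiableAt_mol_of_weak {m : ℂ → ℝ} {G : ℂ → ℂ} (hm : ContDiff ℝ 1 m)
    (hcm : HasCompactSupport m) (hG : LocallyIntegrable G volume) (x : ℂ)
    (hw : ∫ t, G t * dbarR (fun t => m (x - t)) t = 0) :
    DifferentiableAt ℂ (mol m G) x := by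
  have hD := hasFDerivAt_mol hm hcm hG x
  refine differentiableAt_complex_iff_differentiableAt_real.2 ⟨hD.differentiableAt, ?_⟩
  rw [hD.fderiv, fderiv_mol_apply hm hcm hG, fderiv_mol_apply hm hcm hG]
  -- the two directional derivatives of the kernel
  have hfd : ∀ t v, fderiv ℝ (fun t => m (x - t)) t v = - fderiv ℝ m (x - t) v := by
    intro t v
    have h1 : HasFDerivAt (fun t : ℂ => m (x - t))
        ((fderiv ℝ m (x - t)).comp (-(ContinuousLinearMap.id ℝ ℂ))) t := by
      have := (hm.differentiable one_ne_zero (x - t)).hasFDerivAt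
      exact this.comp t ((hasFDerivAt_id t).const_sub x)
    rw [h1.fderiv]
    simp
  have hcont : ∀ v : ℂ, Continuous fun t => fderiv ℝ m (x - t) v := by
    intro v
    have := hm.continuous_fderiv one_ne_zero
    exact (this.comp (continuous_const.sub continuous_id)).clm_apply continuous_const
  have hcs : ∀ v : ℂ, HasCompactSupport fun t => fderiv ℝ m (x - t) v := by
    intro v
    have h1 : HasCompactSupport (fun t => fderiv ℝ m t v) := by
      refine (hcm.fderiv ℝ).mono ?_
      intro t ht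
      simp only [Function.mem_support, ne_eq] at ht ⊢
      intro h0
      exact ht (by simp [h0])
    have := h1.comp_homeomorph ((Homeomorph.neg ℂ).trans (Homeomorph.addLeft x))
    refine this.mono ?_
    intro t ht
    simpa [sub_eq_add_neg] using ht
  have hint : ∀ v : ℂ, Integrable (fun t => fderiv ℝ m (x - t) v • G t) volume := fun v =>
    hG.integrable_smul_left_of_hasCompactSupport (hcont v) (hcs v)
  have key : (∫ t, fderiv ℝ m (x - t) 1 • G t) + I • ∫ t, fderiv ℝ m (x - t) I • G t = 0 := by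
    have hI : Integrable (fun t => I • fderiv ℝ m (x - t) I • G t) volume := (hint I).smul I
    rw [← integral_smul, ← integral_add (hint 1) hI]
    have : ∀ t, fderiv ℝ m (x - t) 1 • G t + I • fderiv ℝ m (x - t) I • G t
        = (-2 : ℂ) * (G t * dbarR (fun t => m (x - t)) t) := by
      intro t
      simp only [dbarR, hfd, Complex.real_smul, smul_eq_mul, Complex.ofReal_neg]
      ring
    simp_rw [this]
    rw [integral_const_mul, hw, mul_zero]
  have h2 : I • ((∫ t, fderiv ℝ m (x - t) 1 • G t) + I • ∫ t, fderiv ℝ m (x - t) I • G t) = 0 := by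
    rw [key, smul_zero]
  rw [smul_add, smul_smul, I_mul_I, neg_one_smul] at h2
  exact (eq_of_sub_eq_zero (by rw [← h2]; ring)).symm

/-- rotation invariance of the integral on `ℂ`. -/
lemma integral_comp_rot (f : ℂ → ℂ) (θ : ℝ) :
    ∫ s, f (Complex.exp (θ * I) * s) = ∫ s, f s := by
  have hmp : MeasurePreserving (rotation (Circle.exp θ)) (volume : Measure ℂ) volume :=
    LinearIsometryEquiv.measurePreserving _
  have := hmp.integral_comp' (f := (rotation (Circle.exp θ)).toHomeomorph.toMeasurableEquiv) f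
  simpa [rotation_apply] using this

/-- mean value property of holomorphic functions for averages against a radial kernel. -/
lemma mol_radial_eq {ρ : ℂ → ℝ} {k : ℂ → ℂ} {x : ℂ} {ε R : ℝ} (hρc : Continuous ρ)
    (hρs : ∀ z, ε ≤ ‖z‖ → ρ z = 0) (hρr : ∀ z w, ‖z‖ = ‖w‖ → ρ z = ρ w) (hεR : ε < R)
    (hkc : Continuous k) (hk : DifferentiableOn ℂ k (ball x R)) :
    mol ρ k x = (∫ t, ρ t) • k x := by
  -- change of variables
  have h0 : mol ρ k x = ∫ u, ρ u • k (x - u) := by
    unfold mol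
    rw [← integral_sub_left_eq_self (fun u => ρ u • k (x - u)) volume x]
    simp
  set J : ℂ := ∫ u, ρ u • k (x - u) with hJ
  set F : ℝ → ℂ → ℂ := fun θ s => ρ s • k (x - Complex.exp (θ * I) * s) with hF
  have hFJ : ∀ θ, ∫ s, F θ s = J := by
    intro θ
    have := integral_comp_rot (fun u => ρ u • k (x - u)) θ
    rw [hJ, ← this]
    refine integral_congr_ae (Eventually.of_forall fun s => ?_)
    simp only [hF]
    rw [hρr (Complex.exp (θ * I) * s) s (by simp [Complex.norm_exp_ofReal_mul_I])]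
  -- mean value in θ
  have hmv : ∀ s, ∫ θ in Ioc (0 : ℝ) (2 * π), F θ s = (2 * π) • (ρ s • k x) := by
    intro s
    by_cases hs : ε ≤ ‖s‖
    · simp [hF, hρs s hs]
    · rw [not_le] at hs
      have hd : DiffContOnCl ℂ (fun u => k (x - (u - x) * s)) (ball x |1|) := by
        apply DifferentiableOn.diffContOnCl
        intro u hu
        have hu' : u ∈ closedBall x 1 := by
          have := closure_ball_subset_closedBall hu
          simpa using this
        have hmem : x - (u - x) * s ∈ ball x R := by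
          rw [mem_ball, dist_eq_norm]
          have h1 : ‖(u - x) * s‖ ≤ ‖s‖ := by
            rw [norm_mul]
            have : ‖u - x‖ ≤ 1 := by simpa [dist_eq_norm] using hu'
            calc ‖u - x‖ * ‖s‖ ≤ 1 * ‖s‖ := by gcongr
              _ = ‖s‖ := one_mul _
          have : x - (u - x) * s - x = -((u - x) * s) := by ring
          rw [this, norm_neg]
          linarith
        have hka : DifferentiableAt ℂ k (x - (u - x) * s) :=
          hk.differentiableAt (isOpen_ball.mem_nhds hmem)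
        have hin : DifferentiableAt ℂ (fun u : ℂ => x - (u - x) * s) u := by fun_prop
        exact (hka.comp u hin).differentiableWithinAt
      have hca := hd.circleAverage
      rw [Real.circleAverage_def] at hca
      simp only [sub_self, zero_mul, sub_zero] at hca
      have h2 : ∫ θ in Ioc (0 : ℝ) (2 * π), F θ s
          = ρ s • ∫ θ in (0 : ℝ)..(2 * π), k (x - (circleMap x 1 θ - x) * s) := by
        rw [intervalIntegral.integral_of_le (by positivity), ← integral_smul]
        refine integral_congr_ae (Eventually.of_forall fun θ => ?_)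
        simp [hF, circleMap]
      rw [h2]
      have h3 : ∫ θ in (0 : ℝ)..(2 * π), k (x - (circleMap x 1 θ - x) * s) = (2 * π) • k x := by
        rw [← hca, smul_smul, mul_inv_cancel₀ (by positivity), one_smul]
      rw [h3, smul_comm]
  -- integrability on the product
  have hFc : Continuous (Function.uncurry F) := by
    simp only [hF]
    refine Continuous.smul (hρc.comp continuous_snd) (hkc.comp ?_)
    refine continuous_const.sub (Continuous.mul ?_ continuous_snd)
    exact Complex.continuous_exp.comp ((Complex.continuous_ofReal.comp continuous_fst).mul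
      continuous_const)
  have hFs : ∀ θ s, ε ≤ ‖s‖ → F θ s = 0 := by
    intro θ s hs
    simp [hF, hρs s hs]
  have hint : Integrable (Function.uncurry F)
      ((volume.restrict (Ioc (0 : ℝ) (2 * π))).prod (volume : Measure ℂ)) := by
    obtain ⟨C, hC⟩ := (isCompact_Icc.prod (isCompact_closedBall (0 : ℂ) ε)).exists_bound_of_continuousOn
      (f := Function.uncurry F) hFc.continuousOn (s := Icc (0 : ℝ) (2 * π) ×ˢ closedBall (0 : ℂ) ε)
    have hdom : Integrable (fun p : ℝ × ℂ => (closedBall (0 : ℂ) ε).indicator (fun _ => C) p.2)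
        ((volume.restrict (Ioc (0 : ℝ) (2 * π))).prod (volume : Measure ℂ)) := by
      have h1 : Integrable (fun _ : ℝ => (1 : ℝ)) (volume.restrict (Ioc (0 : ℝ) (2 * π))) :=
        integrable_const _
      have h2 : Integrable ((closedBall (0 : ℂ) ε).indicator (fun _ => C)) (volume : Measure ℂ) := by
        rw [integrable_indicator_iff measurableSet_closedBall]
        exact integrableOn_const (measure_closedBall_lt_top (x := (0 : ℂ)) (r := ε)).ne
      simpa using h1.mul_prod h2
    refine hdom.mono' hFc.aestronglyMeasurable ?_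
    have hae : ∀ᵐ p : ℝ × ℂ ∂((volume.restrict (Ioc (0 : ℝ) (2 * π))).prod (volume : Measure ℂ)),
        p.1 ∈ Ioc (0 : ℝ) (2 * π) := by
      have : (volume.restrict (Ioc (0 : ℝ) (2 * π))).prod (volume : Measure ℂ)
          = ((volume : Measure ℝ).prod (volume : Measure ℂ)).restrict
              (Ioc (0 : ℝ) (2 * π) ×ˢ (univ : Set ℂ)) := by
        rw [← Measure.prod_restrict, Measure.restrict_univ]
      rw [this]
      filter_upwards [ae_restrict_mem (measurableSet_Ioc.prod MeasurableSet.univ)] with p hp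
      exact hp.1
    filter_upwards [hae] with p hp
    by_cases hs : p.2 ∈ closedBall (0 : ℂ) ε
    · rw [indicator_of_mem hs]
      exact hC p ⟨Ioc_subset_Icc_self hp, hs⟩
    · rw [indicator_of_notMem hs]
      have : ε ≤ ‖p.2‖ := by
        simp only [mem_closedBall, dist_zero_right, not_le] at hs
        exact hs.le
      simp [Function.uncurry, hFs p.1 p.2 this]
  have hswap := integral_integral_swap (μ := volume.restrict (Ioc (0 : ℝ) (2 * π)))
    (ν := (volume : Measure ℂ)) (f := F) hint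
  simp_rw [hFJ, hmv] at hswap
  rw [integral_const, integral_smul] at hswap
  simp only [measureReal_restrict_apply_univ, Real.volume_real_Ioc_of_le (by positivity : (0:ℝ) ≤ 2 * π),
    sub_zero] at hswap
  rw [h0]
  have h2π : (2 * π : ℝ) ≠ 0 := by positivity
  have := congrArg (fun z : ℂ => (2 * π : ℝ)⁻¹ • z) hswap
  simp only [smul_smul, inv_mul_cancel₀ h2π, one_smul] at this
  rw [this, integral_smul_const]

lemma integrable_mol_kernel {ρ ψ : ℂ → ℝ} {G : ℂ → ℂ} (hρ : Continuous ρ)
    (hρc : HasCompactSupport ρ) (hψ : Continuous ψ) (hψc : HasCompactSupport ψ)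
    (hG : LocallyIntegrable G volume) (x : ℂ) :
    Integrable (Function.uncurry fun t s : ℂ => ρ (x - t) • ψ (t - s) • G s)
      ((volume : Measure ℂ).prod (volume : Measure ℂ)) := by
  -- compact sets carrying the support
  set K₁ : Set ℂ := (fun t => x - t) '' tsupport ρ with hK₁
  have hK₁c : IsCompact K₁ := hρc.isCompact.image (by fun_prop)
  set K₂ : Set ℂ := (fun p : ℂ × ℂ => p.1 - p.2) '' (K₁ ×ˢ tsupport ψ) with hK₂
  have hK₂c : IsCompact K₂ := (hK₁c.prod hψc.isCompact).image (by fun_prop)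
  obtain ⟨Cρ, hCρ⟩ := hρ.bounded_above_of_compact_support hρc
  obtain ⟨Cψ, hCψ⟩ := hψ.bounded_above_of_compact_support hψc
  have hCρ0 : 0 ≤ Cρ := (norm_nonneg _).trans (hCρ 0)
  have hCψ0 : 0 ≤ Cψ := (norm_nonneg _).trans (hCψ 0)
  have h1 : Integrable (K₁.indicator (fun _ => Cρ * Cψ)) (volume : Measure ℂ) := by
    rw [integrable_indicator_iff hK₁c.measurableSet]
    exact integrableOn_const hK₁c.measure_lt_top.ne
  have h2 : Integrable (K₂.indicator (fun s => ‖G s‖)) (volume : Measure ℂ) := by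
    rw [integrable_indicator_iff hK₂c.measurableSet]
    exact (hG.integrableOn_isCompact hK₂c).norm
  have hdom := h1.mul_prod h2
  refine hdom.mono' ?_ (Eventually.of_forall ?_)
  · have hc : Continuous fun p : ℂ × ℂ => ρ (x - p.1) * ψ (p.1 - p.2) := by fun_prop
    have hGm : AEStronglyMeasurable (fun p : ℂ × ℂ => G p.2)
        ((volume : Measure ℂ).prod (volume : Measure ℂ)) := hG.aestronglyMeasurable.comp_snd
    have := hc.aestronglyMeasurable.smul hGm
    refine this.congr (Eventually.of_forall fun p => ?_)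
    simp [Function.uncurry, mul_smul]
  · rintro ⟨t, s⟩
    simp only [Function.uncurry]
    by_cases ht : ρ (x - t) = 0
    · simp only [ht, zero_smul, norm_zero]
      exact mul_nonneg (indicator_nonneg (fun _ _ => mul_nonneg hCρ0 hCψ0) _)
        (indicator_nonneg (fun _ _ => norm_nonneg _) _)
    by_cases hs : ψ (t - s) = 0
    · simp only [hs, zero_smul, smul_zero, norm_zero]
      exact mul_nonneg (indicator_nonneg (fun _ _ => mul_nonneg hCρ0 hCψ0) _)
        (indicator_nonneg (fun _ _ => norm_nonneg _) _)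
    have htK : t ∈ K₁ := ⟨x - t, subset_tsupport _ ht, by ring⟩
    have hsK : s ∈ K₂ := ⟨(t, t - s), ⟨htK, subset_tsupport _ hs⟩, by simp⟩
    rw [indicator_of_mem htK, indicator_of_mem hsK, norm_smul, norm_smul]
    calc ‖ρ (x - t)‖ * (‖ψ (t - s)‖ * ‖G s‖) = (‖ρ (x - t)‖ * ‖ψ (t - s)‖) * ‖G s‖ := by ring
      _ ≤ (Cρ * Cψ) * ‖G s‖ := by
        gcongr
        · exact hCρ _
        · exact hCψ _

lemma mol_mol_eq {ρ ψ : ℂ → ℝ} {G : ℂ → ℂ} (hρ : Continuous ρ)
    (hρc : HasCompactSupport ρ) (hψ : Continuous ψ) (hψc : HasCompactSupport ψ)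
    (hG : LocallyIntegrable G volume) (x : ℂ) :
    mol ρ (mol ψ G) x = ∫ s, (∫ t, ρ (x - t) * ψ (t - s)) • G s := by
  unfold mol
  simp_rw [← integral_smul]
  rw [integral_integral_swap (integrable_mol_kernel hρ hρc hψ hψc hG x)]
  refine integral_congr_ae (Eventually.of_forall fun s => ?_)
  simp only
  rw [← integral_smul_const]
  refine integral_congr_ae (Eventually.of_forall fun t => ?_)
  simp [mul_smul]

lemma mol_mol_comm {ρ ψ : ℂ → ℝ} {G : ℂ → ℂ} (hρ : Continuous ρ)
    (hρc : HasCompactSupport ρ) (hψ : Continuous ψ) (hψc : HasCompactSupport ψ)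
    (hG : LocallyIntegrable G volume) (x : ℂ) :
    mol ρ (mol ψ G) x = mol ψ (mol ρ G) x := by
  rw [mol_mol_eq hρ hρc hψ hψc hG, mol_mol_eq hψ hψc hρ hρc hG]
  refine integral_congr_ae (Eventually.of_forall fun s => ?_)
  simp only
  congr 1
  rw [← integral_sub_left_eq_self (fun t => ρ (x - t) * ψ (t - s)) volume (x + s)]
  refine integral_congr_ae (Eventually.of_forall fun t => ?_)
  simp only
  rw [mul_comm]
  congr 2 <;> ring

lemma exists_radial_mollifier {ε : ℝ} (hε : 0 < ε) :
    ∃ ρ : ℂ → ℝ, ContDiff ℝ ∞ ρ ∧ HasCompactSupport ρ ∧ (∀ z, ε ≤ ‖z‖ → ρ z = 0) ∧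
      (∀ z w, ‖z‖ = ‖w‖ → ρ z = ρ w) ∧ ∫ z, ρ z = 1 := by
  set ρ₀ : ℂ → ℝ := fun z => Real.smoothTransition (1 - ‖z‖ ^ 2 / ε ^ 2) with hρ₀
  have hsm : ContDiff ℝ ∞ ρ₀ := by
    refine Real.smoothTransition.contDiff.comp ?_
    exact contDiff_const.sub ((contDiff_norm_sq ℝ).div_const _)
  have hz : ∀ z, ε ≤ ‖z‖ → ρ₀ z = 0 := by
    intro z hz
    refine Real.smoothTransition.zero_of_nonpos ?_
    have h1 : ε ^ 2 ≤ ‖z‖ ^ 2 := by gcongr
    have h2 : 1 ≤ ‖z‖ ^ 2 / ε ^ 2 := by
      rw [le_div_iff₀ (by positivity)]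
      linarith
    linarith
  have hcs : HasCompactSupport ρ₀ := by
    refine HasCompactSupport.intro (isCompact_closedBall (0 : ℂ) ε) ?_
    intro z hz'
    apply hz
    simp only [mem_closedBall, dist_zero_right, not_le] at hz'
    exact hz'.le
  have hrad : ∀ z w, ‖z‖ = ‖w‖ → ρ₀ z = ρ₀ w := by
    intro z w h
    simp only [hρ₀, h]
  have hpos : 0 < ∫ z, ρ₀ z := by
    refine hsm.continuous.integral_pos_of_hasCompactSupport_nonneg_nonzero hcs
      (fun z => Real.smoothTransition.nonneg _) (x := 0) ?_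
    simp [hρ₀, Real.smoothTransition.one_of_one_le]
  refine ⟨fun z => (∫ z, ρ₀ z)⁻¹ * ρ₀ z, contDiff_const.mul hsm, ?_, ?_, ?_, ?_⟩
  · exact hcs.mul_left
  · intro z hz'
    simp [hz z hz']
  · intro z w h
    simp [hrad z w h]
  · rw [integral_const_mul, inv_mul_cancel₀ hpos.ne']

/-- weak holomorphy on a ball implies holomorphy of every mollification (small kernel). -/
lemma differentiableAt_mol_of_weakHolo {m : ℂ → ℝ} {G : ℂ → ℂ} {z₀ z : ℂ} {R ε : ℝ}
    (hm : ContDiff ℝ ∞ m) (hcm : HasCompactSupport m) (hms : tsupport m ⊆ closedBall 0 ε)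
    (hG : LocallyIntegrable G volume) (hw : WeakHolo (ball z₀ R) G)
    (hz : dist z z₀ + ε < R) :
    DifferentiableAt ℂ (mol m G) z := by
  have hm1 : ContDiff ℝ 1 m := hm.of_le (by norm_num)
  refine differentiableAt_mol_of_weak hm1 hcm hG z ?_
  have hsm : ContDiff ℝ ∞ (fun t => m (z - t)) := hm.comp (contDiff_const.sub contDiff_id)
  have hcs : HasCompactSupport (fun t => m (z - t)) := by
    have := hcm.comp_homeomorph ((Homeomorph.neg ℂ).trans (Homeomorph.addLeft z))
    refine this.mono ?_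
    intro t ht
    simpa [sub_eq_add_neg] using ht
  have hts : tsupport (fun t => m (z - t)) ⊆ ball z₀ R := by
    have h1 : tsupport (fun t => m (z - t)) ⊆ closedBall z ε := by
      refine closure_minimal ?_ isClosed_closedBall
      intro t ht
      have : z - t ∈ tsupport m := subset_tsupport _ ht
      have := hms this
      simpa [dist_eq_norm, norm_sub_rev] using this
    refine h1.trans ?_
    intro t ht
    rw [mem_ball]
    rw [mem_closedBall] at ht
    calc dist t z₀ ≤ dist t z + dist z z₀ := dist_triangle _ _ _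
      _ ≤ ε + dist z z₀ := by linarith
      _ < R := by linarith
  exact hw _ hsm hcs hts

lemma continuous_mol {m : ℂ → ℝ} {G : ℂ → ℂ} (hm : ContDiff ℝ 1 m) (hcm : HasCompactSupport m)
    (hG : LocallyIntegrable G volume) : Continuous (mol m G) :=
  continuous_iff_continuousAt.2 fun x => (hasFDerivAt_mol hm hcm hG x).continuousAt

/-- local form of Weyl's lemma. -/
lemma weyl_local {G : ℂ → ℂ} {z₀ : ℂ} {r : ℝ} (hr : 0 < r)
    (hG : LocallyIntegrable G volume) (hw : WeakHolo (ball z₀ (4 * r)) G) :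
    ∃ f : ℂ → ℂ, DifferentiableOn ℂ f (ball z₀ r) ∧ ∀ᵐ z, z ∈ ball z₀ r → G z = f z := by
  obtain ⟨ρ, hρsm, hρcs, hρz, hρr, hρ1⟩ := exists_radial_mollifier hr
  have hρ1' : ContDiff ℝ 1 ρ := hρsm.of_le (by norm_num)
  have hρts : tsupport ρ ⊆ closedBall 0 r := by
    refine closure_minimal ?_ isClosed_closedBall
    intro t ht
    by_contra hcon
    simp only [mem_closedBall, dist_zero_right, not_le] at hcon
    exact ht (hρz t hcon.le)
  set h : ℂ → ℂ := mol ρ G with hh
  have hhc : Continuous h := continuous_mol hρ1' hρcs hG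
  have hhd : ∀ z ∈ ball z₀ (3 * r), DifferentiableAt ℂ h z := by
    intro z hz
    rw [mem_ball] at hz
    exact differentiableAt_mol_of_weakHolo hρsm hρcs hρts hG hw (by linarith)
  -- Mathlib bump functions
  let φ : ℕ → ContDiffBump (0 : ℂ) := fun n =>
    ⟨r / (2 * (n + 2)), r / (n + 2), by positivity, by
      rw [div_lt_div_iff₀ (by positivity) (by positivity)]
      have : (0 : ℝ) < (n : ℝ) + 2 := by positivity
      nlinarith⟩
  have hφout : ∀ n, (φ n).rOut = r / (n + 2) := fun n => rfl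
  have hφin : ∀ n, (φ n).rIn = r / (2 * (n + 2)) := fun n => rfl
  have hφlt : ∀ n, (φ n).rOut < r := by
    intro n
    rw [hφout, div_lt_iff₀ (by positivity)]
    have : (0 : ℝ) ≤ n := Nat.cast_nonneg n
    nlinarith
  have hφ0 : Tendsto (fun n => (φ n).rOut) atTop (𝓝 0) := by
    simp only [hφout]
    have h1 : Tendsto (fun n : ℕ => (n : ℝ) + 2) atTop atTop :=
      tendsto_atTop_add_const_right _ _ tendsto_natCast_atTop_atTop
    exact h1.const_div_atTop r
  have hφK : ∀ᶠ n in atTop, (φ n).rOut ≤ 2 * (φ n).rIn := by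
    refine Eventually.of_forall fun n => ?_
    rw [hφout, hφin]
    have : (0 : ℝ) < (n : ℝ) + 2 := by positivity
    field_simp
    rfl
  set mφ : ℕ → ℂ → ℝ := fun n => (φ n).normed volume with hmφ
  have hmsm : ∀ n, ContDiff ℝ ∞ (mφ n) := fun n => (φ n).contDiff_normed
  have hmcs : ∀ n, HasCompactSupport (mφ n) := fun n => (φ n).hasCompactSupport_normed
  have hmts : ∀ n, tsupport (mφ n) ⊆ closedBall 0 (φ n).rOut := fun n =>
    ((φ n).tsupport_normed_eq (μ := volume)).le
  have hm1 : ∀ n, ContDiff ℝ 1 (mφ n) := fun n => (hmsm n).of_le (by norm_num)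
  -- the mollifications `k n`
  set k : ℕ → ℂ → ℂ := fun n => mol (mφ n) G with hk
  have hkc : ∀ n, Continuous (k n) := fun n => continuous_mol (hm1 n) (hmcs n) hG
  have hkd : ∀ n, DifferentiableOn ℂ (k n) (ball z₀ (3 * r)) := by
    intro n z hz
    rw [mem_ball] at hz
    refine (differentiableAt_mol_of_weakHolo (hmsm n) (hmcs n) (hmts n) hG hw
      ?_).differentiableWithinAt
    have := hφlt n
    linarith
  -- mean value + commutation
  have hkey : ∀ n, ∀ z ∈ ball z₀ (2 * r), k n z = mol (mφ n) h z := by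
    intro n z hz
    rw [mem_ball] at hz
    have hsub : ball z (3 * r - dist z z₀) ⊆ ball z₀ (3 * r) := by
      intro w hw'
      rw [mem_ball] at hw' ⊢
      calc dist w z₀ ≤ dist w z + dist z z₀ := dist_triangle _ _ _
        _ < 3 * r := by linarith
    have h1 := mol_radial_eq (ρ := ρ) (k := k n) (x := z) (ε := r) (R := 3 * r - dist z z₀)
      hρsm.continuous hρz hρr (by linarith) (hkc n) ((hkd n).mono hsub)
    rw [hρ1, one_smul] at h1
    rw [← h1]
    exact mol_mol_comm hρsm.continuous hρcs (hmsm n).continuous (hmcs n) hG z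
  -- convergence statements
  have hconv1 : ∀ z, Tendsto (fun n => mol (mφ n) h z) atTop (𝓝 (h z)) := by
    intro z
    have := ContDiffBump.convolution_tendsto_right_of_continuous (μ := (volume : Measure ℂ))
      (φ := φ) hφ0 hhc z
    simpa only [mol_eq_convolution'] using this
  have hconv2 : ∀ᵐ z, Tendsto (fun n => k n z) atTop (𝓝 (G z)) := by
    have := ContDiffBump.ae_convolution_tendsto_right_of_locallyIntegrable
      (μ := (volume : Measure ℂ)) (φ := φ) (K := 2) hφ0 hφK hG
    filter_upwards [this] with z hz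
    simpa only [hk, mol_eq_convolution'] using hz
  refine ⟨h, fun z hz => ?_, ?_⟩
  · exact (hhd z (ball_subset_ball (by linarith) hz)).differentiableWithinAt
  · filter_upwards [hconv2] with z hz hzb
    have hzb' : z ∈ ball z₀ (2 * r) := ball_subset_ball (by linarith) hzb
    have h2 : Tendsto (fun n => k n z) atTop (𝓝 (h z)) := by
      refine (hconv1 z).congr fun n => ?_
      exact (hkey n z hzb').symm
    exact tendsto_nhds_unique hz h2

/-- restriction of a weakly holomorphic function to a closed ball inside `U`. -/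
lemma weakHolo_indicator {U : Set ℂ} {g : ℂ → ℂ} (hweak : WeakHolo U g) {z₀ : ℂ} {R : ℝ}
    (hsub : closedBall z₀ R ⊆ U) :
    WeakHolo (ball z₀ R) ((closedBall z₀ R).indicator g) := by
  intro η hη hηc hηs
  have := hweak η hη hηc ((hηs.trans ball_subset_closedBall).trans hsub)
  rw [← this]
  refine integral_congr_ae (Eventually.of_forall fun z => ?_)
  by_cases hz : z ∈ closedBall z₀ R
  · simp only [indicator_of_mem hz]
  · have hz' : z ∉ tsupport η := fun h => hz (ball_subset_closedBall (hηs h))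
    simp [dbarR, fderiv_of_notMem_tsupport ℝ hz']

/-- **Weyl's lemma** for the Cauchy–Riemann operator: a locally integrable weakly holomorphic
function on an open set agrees almost everywhere with a holomorphic function. -/
theorem weyl_dbar {U : Set ℂ} (hU : IsOpen U) (g : ℂ → ℂ) (hg : LocallyIntegrableOn g U volume)
    (hweak : WeakHolo U g) :
    ∃ f : ℂ → ℂ, DifferentiableOn ℂ f U ∧ ∀ᵐ z ∂(volume.restrict U), g z = f z := by
  -- local data
  have hloc : ∀ z₀ ∈ U, ∃ r : ℝ, 0 < r ∧ ball z₀ r ⊆ U ∧ ∃ f : ℂ → ℂ,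
      DifferentiableOn ℂ f (ball z₀ r) ∧ ∀ᵐ z, z ∈ ball z₀ r → g z = f z := by
    intro z₀ hz₀
    obtain ⟨δ, hδ, hδU⟩ := Metric.isOpen_iff.1 hU z₀ hz₀
    have hsub : closedBall z₀ (4 * (δ / 8)) ⊆ U :=
      (closedBall_subset_ball (by linarith)).trans hδU
    have hGi : Integrable ((closedBall z₀ (4 * (δ / 8))).indicator g) volume := by
      rw [integrable_indicator_iff measurableSet_closedBall]
      exact hg.integrableOn_compact_subset hsub (isCompact_closedBall _ _)
    obtain ⟨f, hf, hfg⟩ := weyl_local (z₀ := z₀) (r := δ / 8) (by positivity)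
      hGi.locallyIntegrable (weakHolo_indicator hweak hsub)
    refine ⟨δ / 8, by positivity, (ball_subset_ball (by linarith)).trans hδU, f, hf, ?_⟩
    filter_upwards [hfg] with z hz hzb
    rw [← hz hzb, indicator_of_mem]
    exact closedBall_subset_closedBall (by linarith) (ball_subset_closedBall hzb)
  choose! r hr hrU F hF hFg using hloc
  -- compatibility on overlaps
  have hcompat : ∀ z ∈ U, ∀ w ∈ U, ∀ u ∈ ball z (r z) ∩ ball w (r w), F z u = F w u := by
    intro z hz w hw
    have hopen : IsOpen (ball z (r z) ∩ ball w (r w)) := isOpen_ball.inter isOpen_ball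
    refine Measure.eqOn_open_of_ae_eq (μ := (volume : Measure ℂ)) ?_ hopen
      ((hF z hz).continuousOn.mono inter_subset_left)
      ((hF w hw).continuousOn.mono inter_subset_right)
    rw [Filter.EventuallyEq, ae_restrict_iff' hopen.measurableSet]
    filter_upwards [hFg z hz, hFg w hw] with u h1 h2 hu
    rw [← h1 hu.1, ← h2 hu.2]
  -- the glued function
  refine ⟨fun w => F w w, ?_, ?_⟩
  · intro z hz
    have hev : (fun w => F w w) =ᶠ[𝓝 z] F z := by
      filter_upwards [isOpen_ball.mem_nhds (mem_ball_self (hr z hz))] with w hw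
      have hwU : w ∈ U := hrU z hz hw
      exact (hcompat z hz w hwU w ⟨hw, mem_ball_self (hr w hwU)⟩).symm
    have hd : DifferentiableAt ℂ (F z) z :=
      (hF z hz).differentiableAt (isOpen_ball.mem_nhds (mem_ball_self (hr z hz)))
    exact (hd.congr_of_eventuallyEq hev).differentiableWithinAt
  · obtain ⟨T, hTU, hTc, hTcov⟩ := TopologicalSpace.countable_cover_nhdsWithin
      (f := fun z => ball z (r z)) (s := U)
      (fun z hz => mem_nhdsWithin_of_mem_nhds (isOpen_ball.mem_nhds (mem_ball_self (hr z hz))))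
    rw [ae_restrict_iff' hU.measurableSet]
    have hall : ∀ᵐ u, ∀ z ∈ T, u ∈ ball z (r z) → g u = F z u := by
      rw [ae_ball_iff hTc]
      intro z hz
      exact hFg z (hTU hz)
    filter_upwards [hall] with u hu huU
    obtain ⟨z, hzT, huz⟩ := mem_iUnion₂.1 (hTcov huU)
    rw [hu z hzT huz]
    exact hcompat z (hTU hzT) u huU u ⟨huz, mem_ball_self (hr u huU)⟩

end

end Fermat.Agent.S21.H561

end
-- ===== PACK-END S21/H561/Weyl.lean

-- ===== PACK-BEGIN S29/H201/Lattice.lean
section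


/-!
# S29 / P5-E2 (helper201) — algebra: a finitely generated subgroup `L ≠ 0` of `ℂ`,
its multipliers are algebraic integers, and for every ring hom `ψ : ℤ̄ → F` (`F` a field of
characteristic `q > 0`) there is a nonzero additive `μ : L → F` with `μ (a x) = ψ a * μ x` for
all multipliers `a` (Nakayama).
-/

set_option autoImplicit false

namespace Fermat.Agent.S29.H201

/-- multipliers of a nonzero f.g. subgroup of `ℂ` are algebraic integers -/
theorem isIntegral_of_mul_mem (L : AddSubgroup ℂ) (hL : L.FG) (hL0 : L ≠ ⊥) (a : ℂ)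
    (ha : ∀ x ∈ L, a * x ∈ L) : IsIntegral ℤ a := by
  refine isIntegral_of_smul_mem_submodule (R := ℤ) (A := ℂ) (M := ℂ)
    (AddSubgroup.toIntSubmodule L) ?_ ?_ a ?_
  · intro h
    apply hL0
    have := congrArg Submodule.toAddSubgroup h
    simpa using this
  · rw [Submodule.fg_iff_addSubgroup_fg]
    simpa using hL
  · intro n hn
    exact ha n hn

/-- The multiplier ring of a subgroup of `ℂ`. -/
def multRing (L : AddSubgroup ℂ) : Subring ℂ where
  carrier := {a | ∀ x ∈ L, a * x ∈ L}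
  mul_mem' := fun {a b} ha hb x hx => by rw [mul_assoc]; exact ha _ (hb _ hx)
  one_mem' := fun x hx => by rwa [one_mul]
  add_mem' := fun {a b} ha hb x hx => by rw [add_mul]; exact L.add_mem (ha _ hx) (hb _ hx)
  zero_mem' := fun x _ => by rw [zero_mul]; exact L.zero_mem
  neg_mem' := fun {a} ha x hx => by rw [neg_mul]; exact L.neg_mem (ha _ hx)

theorem mem_multRing {L : AddSubgroup ℂ} {a : ℂ} : a ∈ multRing L ↔ ∀ x ∈ L, a * x ∈ L := Iff.rfl

/-- `L` as a module over its multiplier ring. -/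
def multModule (L : AddSubgroup ℂ) : Submodule (multRing L) ℂ where
  carrier := L
  add_mem' := L.add_mem
  zero_mem' := L.zero_mem
  smul_mem' := fun a _ hx => a.2 _ hx

theorem mem_multModule {L : AddSubgroup ℂ} {x : ℂ} : x ∈ multModule L ↔ x ∈ L := Iff.rfl

/-- **E2-alg** (Nakayama) -/
theorem exists_eigen_functional (L : AddSubgroup ℂ) (hL : L.FG) (hL0 : L ≠ ⊥)
    {F : Type*} [Field F] (q : ℕ) [Fact q.Prime] [CharP F q]
    (ψ : integralClosure ℤ ℂ →+* F) :
    ∃ μ : L →+ F, μ ≠ 0 ∧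
      ∀ a : integralClosure ℤ ℂ, ∀ ha : (∀ y ∈ L, (a : ℂ) * y ∈ L), ∀ x : L,
        μ ⟨(a : ℂ) * (x : ℂ), ha x x.2⟩ = ψ a * μ x := by
  -- the multiplier ring and its character
  set R := multRing L with hR
  have hint : ∀ a : R, (a : ℂ) ∈ integralClosure ℤ ℂ := fun a =>
    isIntegral_of_mul_mem L hL hL0 a a.2
  let ι : R →+* integralClosure ℤ ℂ := (R.subtype).codRestrict (integralClosure ℤ ℂ) hint
  let ψ' : R →+* F := ψ.comp ι
  set m : Ideal R := RingHom.ker ψ' with hm
  haveI hprime : m.IsPrime := RingHom.ker_isPrime ψ'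
  -- `R` is integral over `ℤ`
  haveI hRint : Algebra.IsIntegral ℤ R := by
    refine ⟨fun a => ?_⟩
    have h1 : IsIntegral ℤ (a : ℂ) := hint a
    obtain ⟨P, hP, hPa⟩ := h1
    refine ⟨P, hP, ?_⟩
    apply Subtype.ext
    have : ((Polynomial.eval₂ (algebraMap ℤ R) a P : R) : ℂ)
        = Polynomial.eval₂ (algebraMap ℤ ℂ) (a : ℂ) P := by
      rw [← Polynomial.aeval_def, ← Polynomial.aeval_def]
      exact (Polynomial.aeval_algHom_apply (R.subtype.toIntAlgHom) a P).symm ▸ rfl
    rw [this, hPa]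
    rfl
  -- `m` is maximal
  haveI hmax : m.IsMaximal := by
    refine Ideal.isMaximal_of_isIntegral_of_isMaximal_comap (R := ℤ) m ?_
    have hq : ((q : ℤ) : R) ∈ m := by
      rw [hm, RingHom.mem_ker, map_intCast]
      exact_mod_cast CharP.cast_eq_zero F q
    have hne : m.comap (algebraMap ℤ R) ≠ ⊥ := by
      intro h
      have h1 : (q : ℤ) ∈ m.comap (algebraMap ℤ R) := by
        rw [Ideal.mem_comap]
        exact hq
      rw [h, Ideal.mem_bot] at h1
      exact (Fact.out : q.Prime).ne_zero (by exact_mod_cast h1)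
    exact Ideal.IsPrime.isMaximal (Ideal.comap_isPrime _ _) hne
  -- Nakayama
  set M := multModule L with hM
  have hfg : (⊤ : Submodule R M).FG := by
    haveI : Module.Finite ℤ L := by
      rw [Module.Finite.iff_addGroup_fg]
      exact (AddGroup.fg_iff_addSubgroup_fg L).mpr hL
    have : Module.Finite ℤ M := ‹Module.Finite ℤ L›
    haveI : Module.Finite R M := Module.Finite.of_restrictScalars_finite ℤ R M
    exact Module.Finite.fg_top
  have hnak : ¬ ((⊤ : Submodule R M) ≤ m • ⊤) := by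
    intro hle
    obtain ⟨r, hr1, hr0⟩ := Submodule.exists_sub_one_mem_and_smul_eq_zero_of_fg_of_le_smul m
      (⊤ : Submodule R M) hfg hle
    obtain ⟨x₀, hx₀, hx₀0⟩ : ∃ x ∈ L, x ≠ 0 := by
      by_contra hcon
      push_neg at hcon
      exact hL0 ((AddSubgroup.eq_bot_iff_forall L).mpr hcon)
    have h2 := hr0 ⟨x₀, hx₀⟩ trivial
    have h3 : (r : ℂ) * x₀ = 0 := by
      have := congrArg Subtype.val h2
      simpa using this
    have h4 : (r : ℂ) = 0 := by
      rcases mul_eq_zero.mp h3 with h | h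
      · exact h
      · exact absurd h hx₀0
    have h5 : r = 0 := Subtype.ext h4
    rw [h5, zero_sub, hm, RingHom.mem_ker, map_neg, map_one, neg_eq_zero] at hr1
    exact one_ne_zero hr1
  obtain ⟨v, -, hv⟩ := SetLike.not_le_iff_exists.mp hnak
  -- a functional on the quotient
  letI : Field (R ⧸ m) := Ideal.Quotient.field m
  set Q := M ⧸ (m • ⊤ : Submodule R M) with hQ
  have hv0 : (Submodule.Quotient.mk v : Q) ≠ 0 := by
    rw [Ne, Submodule.Quotient.mk_eq_zero]
    exact hv
  obtain ⟨φ, hφ⟩ : ∃ φ : Module.Dual (R ⧸ m) Q, φ (Submodule.Quotient.mk v) ≠ 0 := by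
    by_contra hcon
    push_neg at hcon
    exact hv0 ((Module.forall_dual_apply_eq_zero_iff (R ⧸ m) _).mp hcon)
  let ψbar : (R ⧸ m) →+* F := RingHom.kerLift ψ'
  have hψbar : Function.Injective ψbar := RingHom.kerLift_injective ψ'
  let toM : L →+ M :=
    { toFun := fun x => ⟨x.1, x.2⟩
      map_zero' := rfl
      map_add' := fun _ _ => rfl }
  let μ : L →+ F :=
    ((ψbar : (R ⧸ m) →+ F).comp (φ : Q →+ (R ⧸ m))).comp
      (((Submodule.mkQ (m • ⊤ : Submodule R M)) : M →+ Q).comp toM)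
  refine ⟨μ, ?_, ?_⟩
  · intro h0
    have h1 : μ ⟨v.1, v.2⟩ = 0 := by rw [h0]; rfl
    have h2 : ψbar (φ (Submodule.Quotient.mk v)) = 0 := h1
    rw [← map_zero ψbar] at h2
    exact hφ (hψbar h2)
  · intro a ha x
    let a' : R := ⟨(a : ℂ), ha⟩
    have h1 : (toM ⟨(a : ℂ) * (x : ℂ), ha x x.2⟩ : M) = a' • toM x := rfl
    show ψbar (φ (Submodule.Quotient.mk (toM ⟨(a : ℂ) * (x : ℂ), ha x x.2⟩))) =
      ψ a * ψbar (φ (Submodule.Quotient.mk (toM x)))
    rw [h1, Submodule.Quotient.mk_smul]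
    have h2 : (a' • (Submodule.Quotient.mk (toM x) : Q))
        = (Ideal.Quotient.mk m a') • (Submodule.Quotient.mk (toM x) : Q) := rfl
    rw [h2, map_smul, smul_eq_mul, map_mul]
    congr 1

end Fermat.Agent.S29.H201

end
-- ===== PACK-END S29/H201/Lattice.lean

-- ===== PACK-BEGIN S23/Cap/Defs.lean
section



/-!
# S23 common definitions (captain: helper23)

Everything is phrased for plain functions `ℍ → ℂ` with the predicates `IsMF` / `IsCF`
("is the underlying function of a modular / cusp form of level `Γ`, weight `k`"),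
so that weights never appear in types.
-/

set_option autoImplicit false

namespace Fermat.Agent.S23.Cap

open UpperHalfPlane ModularForm ModularFormClass MatrixGroups CongruenceSubgroup

/-- `Γ₀(N)` as a subgroup of `GL(2,ℝ)` (this is what `CuspForm (Gamma0 N) k` elaborates to). -/
abbrev G0 (N : ℕ) : Subgroup (GL (Fin 2) ℝ) :=
  Subgroup.map (Matrix.SpecialLinearGroup.mapGL ℝ) (Gamma0 N)

/-- `SL(2,ℤ)` as a subgroup of `GL(2,ℝ)` (Mathlib notation `𝒮ℒ`). -/
abbrev SLZ : Subgroup (GL (Fin 2) ℝ) := 𝒮ℒ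

/-- `f` is (the function underlying) a modular form of level `Γ` and weight `k`. -/
def IsMF (Γ : Subgroup (GL (Fin 2) ℝ)) (k : ℤ) (f : ℍ → ℂ) : Prop :=
  ∃ g : ModularForm Γ k, (g : ℍ → ℂ) = f

/-- `f` is (the function underlying) a cusp form of level `Γ` and weight `k`. -/
def IsCF (Γ : Subgroup (GL (Fin 2) ℝ)) (k : ℤ) (f : ℍ → ℂ) : Prop :=
  ∃ g : CuspForm Γ k, (g : ℍ → ℂ) = f

/-- The `q`-expansion (period 1). -/
noncomputable abbrev qx (f : ℍ → ℂ) : PowerSeries ℂ := qExpansion 1 f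

/-- All coefficients are integers (same shape as in `CuspForm.intLattice`). -/
def IsIntSeries (F : PowerSeries ℂ) : Prop := ∀ n : ℕ, ∃ m : ℤ, PowerSeries.coeff n F = (m : ℂ)

/-- All coefficients are rational. -/
def IsRatSeries (F : PowerSeries ℂ) : Prop := ∀ n : ℕ, ∃ r : ℚ, PowerSeries.coeff n F = (r : ℂ)

end Fermat.Agent.S23.Cap

end
-- ===== PACK-END S23/Cap/Defs.lean

-- ===== PACK-BEGIN S23/BddDenom.lean
section


/-!
# Bounded denominators: a pure power-series lemma (S23, helper263)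

`IntSpan` is the `ℂ`-subalgebra of `ℂ⟦X⟧` spanned by power series with integer coefficients.

Main result `Fermat.Agent.S23.BddDenom.bdd`:
if `x : ℂ⟦X⟧` has rational coefficients, is a root of a monic polynomial with coefficients in
`IntSpan`, and satisfies `D * x = F` with `D F ∈ IntSpan`, `D ≠ 0`, then some positive integer
multiple of `x` has integer coefficients.
-/

set_option autoImplicit false

open PowerSeries

namespace Fermat.Agent.S23.BddDenom

noncomputable section

/-- The natural map `ℤ⟦X⟧ → ℂ⟦X⟧`. -/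
abbrev iZC : ℤ⟦X⟧ →+* ℂ⟦X⟧ := PowerSeries.map (Int.castRingHom ℂ)

/-- The natural map `ℤ⟦X⟧ → ℚ⟦X⟧`. -/
abbrev iZQ : ℤ⟦X⟧ →+* ℚ⟦X⟧ := PowerSeries.map (Int.castRingHom ℚ)

/-- The natural map `ℚ⟦X⟧ → ℂ⟦X⟧`. -/
abbrev iQC : ℚ⟦X⟧ →+* ℂ⟦X⟧ := PowerSeries.map (algebraMap ℚ ℂ)

/-- The `ℂ`-subalgebra of `ℂ⟦X⟧` generated by the power series with integer coefficients. -/
def IntSpan : Subalgebra ℂ ℂ⟦X⟧ := Algebra.adjoin ℂ (Set.range iZC)

theorem iZC_mem_IntSpan (z : ℤ⟦X⟧) : iZC z ∈ IntSpan :=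
  Algebra.subset_adjoin ⟨z, rfl⟩

/-- A power series all of whose coefficients are integers lies in `IntSpan`. -/
theorem mem_IntSpan_of_int_coeff {s : ℂ⟦X⟧} (hs : ∀ n, ∃ m : ℤ, coeff n s = (m : ℂ)) :
    s ∈ IntSpan := by
  choose m hm using hs
  have : s = iZC (PowerSeries.mk m) := by
    ext n
    simp [hm n]
  rw [this]
  exact iZC_mem_IntSpan _

theorem IntSpan_toSubmodule :
    Subalgebra.toSubmodule IntSpan = Submodule.span ℂ (Set.range iZC) := by
  rw [IntSpan, Algebra.adjoin_eq_span]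
  congr 1
  have : (Submonoid.closure (Set.range iZC) : Set ℂ⟦X⟧) = ((MonoidHom.mrange (iZC : ℤ⟦X⟧ →* ℂ⟦X⟧) :
      Submonoid ℂ⟦X⟧) : Set ℂ⟦X⟧) := by
    have h : (Set.range iZC : Set ℂ⟦X⟧) =
        ((MonoidHom.mrange (iZC : ℤ⟦X⟧ →* ℂ⟦X⟧) : Submonoid ℂ⟦X⟧) : Set ℂ⟦X⟧) := by
      ext; simp
    rw [h, Submonoid.closure_eq]
  rw [this]
  ext; simp

theorem mem_IntSpan_iff {s : ℂ⟦X⟧} : s ∈ IntSpan ↔ s ∈ Submodule.span ℂ (Set.range iZC) := by
  rw [← IntSpan_toSubmodule]
  rfl

/-- Coefficientwise application of a `ℚ`-linear map `ℂ → ℚ`. -/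
def coeffMap (ρ : ℂ →ₗ[ℚ] ℚ) : ℂ⟦X⟧ →ₗ[ℚ] ℚ⟦X⟧ where
  toFun s := PowerSeries.mk fun n => ρ (coeff n s)
  map_add' s t := by
    ext n
    simp
  map_smul' r s := by
    ext n
    simp

@[simp]
theorem coeff_coeffMap (ρ : ℂ →ₗ[ℚ] ℚ) (n : ℕ) (s : ℂ⟦X⟧) :
    coeff n (coeffMap ρ s) = ρ (coeff n s) := by
  simp [coeffMap]

theorem coeffMap_mul_iQC (ρ : ℂ →ₗ[ℚ] ℚ) (s : ℂ⟦X⟧) (y : ℚ⟦X⟧) :
    coeffMap ρ (s * iQC y) = coeffMap ρ s * y := by
  ext n
  rw [coeff_coeffMap, PowerSeries.coeff_mul, PowerSeries.coeff_mul, map_sum]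
  refine Finset.sum_congr rfl fun p _ => ?_
  rw [coeff_coeffMap, PowerSeries.coeff_map]
  have : coeff p.1 s * (algebraMap ℚ ℂ) (coeff p.2 y) = (coeff p.2 y) • coeff p.1 s := by
    rw [Algebra.smul_def, mul_comm]
  rw [this, map_smul, smul_eq_mul, mul_comm]

theorem coeffMap_iQC (ρ : ℂ →ₗ[ℚ] ℚ) (h1 : ρ 1 = 1) (y : ℚ⟦X⟧) :
    coeffMap ρ (iQC y) = y := by
  have := coeffMap_mul_iQC ρ 1 y
  rw [one_mul] at this
  rw [this]
  have h : coeffMap ρ 1 = 1 := by
    ext n
    rw [coeff_coeffMap, PowerSeries.coeff_one, PowerSeries.coeff_one]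
    split_ifs
    · exact h1
    · exact map_zero ρ
  rw [h, one_mul]

/-- `ρ` precomposed with multiplication by `t`. -/
def twist (ρ : ℂ →ₗ[ℚ] ℚ) (t : ℂ) : ℂ →ₗ[ℚ] ℚ :=
  ρ.comp (LinearMap.mulLeft ℚ t)

@[simp]
theorem twist_apply (ρ : ℂ →ₗ[ℚ] ℚ) (t z : ℂ) : twist ρ t z = ρ (t * z) := rfl

theorem coeffMap_smul (ρ : ℂ →ₗ[ℚ] ℚ) (t : ℂ) (s : ℂ⟦X⟧) :
    coeffMap ρ (t • s) = coeffMap (twist ρ t) s := by
  ext n
  simp

/-- Power series over `ℚ` with bounded denominators. -/
def BddQ (u : ℚ⟦X⟧) : Prop := ∃ c : ℕ, 0 < c ∧ ∃ z : ℤ⟦X⟧, (c : ℚ) • u = iZQ z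

theorem iZQ_zsmul (a : ℤ) (z : ℤ⟦X⟧) : iZQ (a • z) = (a : ℚ) • iZQ z := by
  rw [zsmul_eq_mul, map_mul, map_intCast, Algebra.smul_def]
  congr 1
  simp

theorem BddQ.mul_nat {u : ℚ⟦X⟧} {c : ℕ} {z : ℤ⟦X⟧} (h : (c : ℚ) • u = iZQ z) (d : ℕ) :
    ((d * c : ℕ) : ℚ) • u = iZQ ((d : ℤ) • z) := by
  rw [Nat.cast_mul, mul_smul, h, iZQ_zsmul]
  simp

theorem bddQ_coeffMap_of_mem {s : ℂ⟦X⟧} (hs : s ∈ IntSpan) :
    ∀ ρ : ℂ →ₗ[ℚ] ℚ, BddQ (coeffMap ρ s) := by
  rw [mem_IntSpan_iff] at hs
  induction hs using Submodule.span_induction with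
  | mem s hs =>
    obtain ⟨β, rfl⟩ := hs
    intro ρ
    refine ⟨(ρ 1).den, (ρ 1).den_pos, (ρ 1).num • β, ?_⟩
    rw [iZQ_zsmul]
    ext n
    rw [PowerSeries.coeff_smul, coeff_coeffMap, PowerSeries.coeff_map, PowerSeries.coeff_smul,
      PowerSeries.coeff_map]
    have h1 : ((Int.castRingHom ℂ) (coeff n β) : ℂ) = ((coeff n β : ℤ) : ℚ) • (1 : ℂ) := by
      simp [Algebra.smul_def]
    rw [h1, map_smul]
    simp only [smul_eq_mul, eq_intCast]
    have h2 : ((ρ 1).den : ℚ) * ρ 1 = ((ρ 1).num : ℚ) := by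
      rw [mul_comm]
      exact Rat.mul_den_eq_num (ρ 1)
    calc ((ρ 1).den : ℚ) * (((coeff n β : ℤ) : ℚ) * ρ 1)
        = ((coeff n β : ℤ) : ℚ) * (((ρ 1).den : ℚ) * ρ 1) := by ring
      _ = ((ρ 1).num : ℚ) * ((coeff n β : ℤ) : ℚ) := by rw [h2]; ring
  | zero =>
    intro ρ
    exact ⟨1, Nat.one_pos, 0, by simp⟩
  | add s t _ _ ihs iht =>
    intro ρ
    obtain ⟨c₁, hc₁, z₁, h₁⟩ := ihs ρ
    obtain ⟨c₂, hc₂, z₂, h₂⟩ := iht ρ
    refine ⟨c₂ * c₁, Nat.mul_pos hc₂ hc₁, (c₂ : ℤ) • z₁ + (c₁ : ℤ) • z₂, ?_⟩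
    rw [map_add, smul_add, BddQ.mul_nat h₁ c₂, mul_comm c₂ c₁, BddQ.mul_nat h₂ c₁, map_add]
  | smul t s _ ih =>
    intro ρ
    rw [coeffMap_smul]
    exact ih (twist ρ t)

/-- A finite family of bounded-denominator series has a common denominator. -/
theorem BddQ.common {ι : Type*} (s : Finset ι) (u : ι → ℚ⟦X⟧) (hu : ∀ i ∈ s, BddQ (u i)) :
    ∃ c : ℕ, 0 < c ∧ ∀ i ∈ s, ∃ z : ℤ⟦X⟧, (c : ℚ) • u i = iZQ z := by
  classical
  induction s using Finset.induction_on with
  | empty => exact ⟨1, Nat.one_pos, by simp⟩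
  | insert a s ha ih =>
    obtain ⟨c, hc, hz⟩ := ih fun i hi => hu i (Finset.mem_insert_of_mem hi)
    obtain ⟨c', hc', z', hz'⟩ := hu a (Finset.mem_insert_self a s)
    refine ⟨c * c', Nat.mul_pos hc hc', fun i hi => ?_⟩
    rcases Finset.mem_insert.mp hi with rfl | hi
    · exact ⟨_, BddQ.mul_nat hz' c⟩
    · obtain ⟨z, hz⟩ := hz i hi
      rw [mul_comm]
      exact ⟨_, BddQ.mul_nat hz c'⟩

theorem iZQ_injective : Function.Injective iZQ :=
  PowerSeries.map_injective _ (Int.cast_injective (α := ℚ))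

/-- `ℤ⟦X⟧` is integrally closed, in the following concrete form: a power series over `ℚ` which is
a "fraction" of integral power series and is integral over `ℤ⟦X⟧` has integer coefficients. -/
theorem int_of_fraction_of_integral (y : ℚ⟦X⟧) (D F : ℤ⟦X⟧) (hD : D ≠ 0)
    (hDF : iZQ D * y = iZQ F) (hy : iZQ.IsIntegralElem y) : ∃ z : ℤ⟦X⟧, iZQ z = y := by
  obtain ⟨P, hP, hPy⟩ := hy
  let K := FractionRing ℤ⟦X⟧
  let L := FractionRing ℚ⟦X⟧
  let g : ℤ⟦X⟧ →+* L := (algebraMap ℚ⟦X⟧ L).comp iZQ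
  have hg : Function.Injective g :=
    (IsFractionRing.injective ℚ⟦X⟧ L).comp iZQ_injective
  let φ : K →+* L := IsFractionRing.lift hg
  have hφ : ∀ a : ℤ⟦X⟧, φ (algebraMap ℤ⟦X⟧ K a) = g a := IsFractionRing.lift_algebraMap hg
  let w : K := algebraMap ℤ⟦X⟧ K F / algebraMap ℤ⟦X⟧ K D
  have hgD : g D ≠ 0 := fun h => hD (hg (by rw [h, map_zero]))
  have hφw : φ w = algebraMap ℚ⟦X⟧ L y := by
    have : φ w = g F / g D := by
      simp only [w, map_div₀, hφ]
    rw [this, div_eq_iff hgD]
    simp only [g, RingHom.comp_apply]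
    rw [← map_mul, mul_comm, hDF]
  have hw : IsIntegral ℤ⟦X⟧ w := by
    refine ⟨P, hP, ?_⟩
    apply φ.injective
    rw [map_zero, Polynomial.hom_eval₂, hφw]
    have : φ.comp (algebraMap ℤ⟦X⟧ K) = g := RingHom.ext hφ
    rw [this]
    have h2 := Polynomial.hom_eval₂ P iZQ (algebraMap ℚ⟦X⟧ L) y
    rw [hPy, map_zero] at h2
    exact h2.symm
  obtain ⟨z, hz⟩ := IsIntegrallyClosed.isIntegral_iff.mp hw
  refine ⟨z, ?_⟩
  have hKD : algebraMap ℤ⟦X⟧ K D ≠ 0 := fun h =>
    hD (IsFractionRing.injective ℤ⟦X⟧ K (by rw [h, map_zero]))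
  have h3 : z * D = F := by
    apply IsFractionRing.injective ℤ⟦X⟧ K
    rw [map_mul, hz]
    exact div_mul_cancel₀ _ hKD
  have hQD : iZQ D ≠ 0 := fun h => hD (iZQ_injective (by rw [h, map_zero]))
  have h4 : iZQ D * iZQ z = iZQ D * y := by
    rw [hDF, ← map_mul, mul_comm, h3]
  exact mul_left_cancel₀ hQD h4

/-- Existence of a `ℚ`-linear functional `ℂ → ℚ` taking the value `1` at a given nonzero `z`. -/
theorem exists_functional (z : ℂ) (hz : z ≠ 0) : ∃ ρ : ℂ →ₗ[ℚ] ℚ, ρ z = 1 := by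
  let f : ℚ →ₗ[ℚ] ℂ := LinearMap.toSpanSingleton ℚ ℂ z
  have hf : LinearMap.ker f = ⊥ := by
    rw [LinearMap.ker_eq_bot]
    intro a b hab
    simp only [f, LinearMap.toSpanSingleton_apply] at hab
    exact smul_left_injective ℚ hz hab
  obtain ⟨ρ, hρ⟩ := LinearMap.exists_leftInverse_of_injective f hf
  refine ⟨ρ, ?_⟩
  have := congrArg (fun l : ℚ →ₗ[ℚ] ℚ => l 1) hρ
  simpa [f, LinearMap.toSpanSingleton_apply] using this

/-- A power series with rational coefficients comes from `ℚ⟦X⟧`. -/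
theorem exists_rat_series (x : ℂ⟦X⟧) (hx : ∀ n, ∃ r : ℚ, coeff n x = (r : ℂ)) :
    ∃ x₀ : ℚ⟦X⟧, iQC x₀ = x := by
  choose r hr using hx
  refine ⟨PowerSeries.mk r, ?_⟩
  ext n
  simp [hr n]

/-- **Bounded denominators.** Let `x : ℂ⟦X⟧` have rational coefficients. Assume `x` is a root of a
monic polynomial `X^μ + ∑_{m<μ} e m X^m` whose coefficients lie in `IntSpan`, and that
`D * x = F` with `D, F ∈ IntSpan`, `D ≠ 0`. Then a positive integer multiple of `x` has integer
coefficients. -/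
theorem bdd (x : ℂ⟦X⟧) (hx : ∀ n, ∃ r : ℚ, coeff n x = (r : ℂ))
    (μ : ℕ) (e : ℕ → ℂ⟦X⟧) (he : ∀ m, m < μ → e m ∈ IntSpan)
    (hmonic : x ^ μ + ∑ m ∈ Finset.range μ, e m * x ^ m = 0)
    (D F : ℂ⟦X⟧) (hD : D ∈ IntSpan) (hF : F ∈ IntSpan) (hD0 : D ≠ 0) (hDF : D * x = F) :
    ∃ c : ℕ, 0 < c ∧ ∀ n, ∃ m : ℤ, (c : ℂ) * coeff n x = (m : ℂ) := by
  obtain ⟨x₀, rfl⟩ := exists_rat_series x hx
  -- Step 1: the monic equation over `ℚ⟦X⟧` with bounded-denominator coefficients.
  obtain ⟨ρ₁, hρ₁⟩ := exists_functional 1 one_ne_zero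
  have hmonic' : x₀ ^ μ + ∑ m ∈ Finset.range μ, coeffMap ρ₁ (e m) * x₀ ^ m = 0 := by
    have := congrArg (coeffMap ρ₁) hmonic
    rw [map_add, map_sum, map_zero, ← map_pow, coeffMap_iQC ρ₁ hρ₁] at this
    rw [← this]
    congr 1
    refine Finset.sum_congr rfl fun m _ => ?_
    rw [← map_pow, coeffMap_mul_iQC]
  obtain ⟨c, hc, hcz⟩ := BddQ.common (Finset.range μ) (fun m => coeffMap ρ₁ (e m))
    (fun m hm => bddQ_coeffMap_of_mem (he m (Finset.mem_range.mp hm)) ρ₁)
  have hcz' : ∀ m : ℕ, ∃ z : ℤ⟦X⟧, m < μ → (c : ℚ) • coeffMap ρ₁ (e m) = iZQ z := by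
    intro m
    by_cases hm : m < μ
    · obtain ⟨z, hz⟩ := hcz m (Finset.mem_range.mpr hm)
      exact ⟨z, fun _ => hz⟩
    · exact ⟨0, fun h => absurd h hm⟩
  choose z hz using hcz'
  -- Step 2: the fraction relation over `ℚ⟦X⟧`.
  obtain ⟨n₀, hn₀⟩ : ∃ n, coeff n D ≠ 0 := by
    by_contra h
    exact hD0 (PowerSeries.ext fun n => by
      rw [map_zero]
      by_contra h'
      exact h ⟨n, h'⟩)
  obtain ⟨ρ₂, hρ₂⟩ := exists_functional _ hn₀
  have hDF' : coeffMap ρ₂ D * x₀ = coeffMap ρ₂ F := by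
    rw [← coeffMap_mul_iQC, hDF]
  have hD0' : coeffMap ρ₂ D ≠ 0 := by
    intro h
    have := congrArg (coeff n₀) h
    rw [coeff_coeffMap, hρ₂, map_zero] at this
    exact one_ne_zero this
  obtain ⟨cD, hcD, zD, hzD⟩ := bddQ_coeffMap_of_mem hD ρ₂
  obtain ⟨cF, hcF, zF, hzF⟩ := bddQ_coeffMap_of_mem hF ρ₂
  -- Step 3: apply normality of `ℤ⟦X⟧` to `y = c • x₀`.
  have hcQ : (c : ℚ) ≠ 0 := Nat.cast_ne_zero.mpr hc.ne'
  have hcDQ : (cD : ℚ) ≠ 0 := Nat.cast_ne_zero.mpr hcD.ne'
  have hcFQ : (cF : ℚ) ≠ 0 := Nat.cast_ne_zero.mpr hcF.ne'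
  have hzD0 : zD ≠ 0 := by
    rintro rfl
    rw [map_zero] at hzD
    exact hD0' ((smul_eq_zero.mp hzD).resolve_left hcDQ)
  have key : ∃ w : ℤ⟦X⟧, iZQ w = (c : ℚ) • x₀ := by
    refine int_of_fraction_of_integral ((c : ℚ) • x₀) ((cF : ℤ) • zD) (((cD * c : ℕ) : ℤ) • zF)
      ?_ ?_ ?_
    · intro h
      have h' := congrArg iZQ h
      rw [iZQ_zsmul, map_zero] at h'
      rcases smul_eq_zero.mp h' with h'' | h''
      · exact hcFQ (by exact_mod_cast h'')
      · exact hzD0 (iZQ_injective (by rw [h'', map_zero]))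
    · have e1 : iZQ ((cF : ℤ) • zD) = (cF : ℚ) • iZQ zD := by
        rw [iZQ_zsmul]; simp
      have e2 : iZQ (((cD * c : ℕ) : ℤ) • zF) = ((cD : ℚ) * (c : ℚ)) • iZQ zF := by
        rw [iZQ_zsmul]; simp
      rw [e1, e2, ← hzD, ← hzF, ← hDF']
      simp only [smul_mul_assoc, mul_smul_comm, smul_smul]
      congr 1
      ring
    · -- the monic polynomial
      refine ⟨Polynomial.X ^ μ + ∑ i : Fin μ,
        Polynomial.C (((c : ℤ) ^ (μ - 1 - (i : ℕ))) • z i) * Polynomial.X ^ (i : ℕ),
        Polynomial.monic_X_pow_add (Polynomial.degree_sum_fin_lt _), ?_⟩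
      rw [Polynomial.eval₂_add, Polynomial.eval₂_pow, Polynomial.eval₂_X,
        Polynomial.eval₂_finsetSum]
      simp only [Polynomial.eval₂_mul, Polynomial.eval₂_C, Polynomial.eval₂_pow,
        Polynomial.eval₂_X]
      have hsum : ∑ i : Fin μ, iZQ (((c : ℤ) ^ (μ - 1 - (i : ℕ))) • z i) * ((c : ℚ) • x₀) ^ (i : ℕ)
          = ∑ m ∈ Finset.range μ, ((c : ℚ) ^ μ) • (coeffMap ρ₁ (e m) * x₀ ^ m) := by
        rw [Finset.sum_fin_eq_sum_range]
        refine Finset.sum_congr rfl fun m hm => ?_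
        have hm' : m < μ := Finset.mem_range.mp hm
        rw [dif_pos hm']
        have e3 : iZQ (((c : ℤ) ^ (μ - 1 - m)) • z m) = ((c : ℚ) ^ (μ - 1 - m)) • iZQ (z m) := by
          rw [iZQ_zsmul]; simp
        rw [e3, ← hz m hm', smul_pow]
        simp only [smul_mul_assoc, mul_smul_comm, smul_smul]
        congr 1
        have : μ = (μ - 1 - m) + 1 + m := by omega
        conv_rhs => rw [this]
        ring
      rw [hsum, smul_pow, ← Finset.smul_sum, ← smul_add, hmonic', smul_zero]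
  obtain ⟨w, hw⟩ := key
  refine ⟨c, hc, fun n => ⟨coeff n w, ?_⟩⟩
  have := congrArg (coeff n) hw
  rw [PowerSeries.coeff_map, PowerSeries.coeff_smul, smul_eq_mul] at this
  rw [PowerSeries.coeff_map]
  have h5 := congrArg (algebraMap ℚ ℂ) this
  simp only [eq_intCast, map_mul, map_natCast, map_intCast] at h5
  rw [← h5]

end

end Fermat.Agent.S23.BddDenom

end
-- ===== PACK-END S23/BddDenom.lean

-- ===== PACK-BEGIN S49/Formal.lean
section



set_option autoImplicit false

namespace Fermat.Agent.S49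

variable {R : Type*} [CommRing R]

/-- Prime-power recursion from the formal Hecke relations. -/
theorem formal_prime_pow {e a : ℕ → R} (h : FormalHecke.IsEigensystem e a)
    (ℓ r : ℕ) (hℓ : ℓ.Prime) :
    a (ℓ ^ (r + 2)) = a ℓ * a (ℓ ^ (r + 1)) - e ℓ * a (ℓ ^ r) := by
  have h1 := h.2 ℓ hℓ (ℓ ^ (r + 1))
  have hdvd : ℓ ∣ ℓ ^ (r + 1) := dvd_pow_self ℓ (Nat.succ_ne_zero r)
  rw [if_pos hdvd] at h1
  have hdiv : ℓ ^ (r + 1) / ℓ = ℓ ^ r := by
    rw [pow_succ, Nat.mul_div_cancel _ hℓ.pos]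
  rw [hdiv] at h1
  have hpow : ℓ * ℓ ^ (r + 1) = ℓ ^ (r + 2) := by ring
  rw [hpow] at h1
  rw [← h1]; ring

/-- `a (ℓ^k * n) = a (ℓ^k) * a n` when `ℓ ∤ n`. -/
theorem formal_prime_pow_mul {e a : ℕ → R} (h : FormalHecke.IsEigensystem e a)
    (ℓ : ℕ) (hℓ : ℓ.Prime) (n : ℕ) (hn : ¬ ℓ ∣ n) (k : ℕ) :
    a (ℓ ^ k * n) = a (ℓ ^ k) * a n := by
  induction k using Nat.strong_induction_on with
  | _ k ih =>
    match k, ih with
    | 0, _ => simp [h.1]
    | 1, _ =>
      have h1 := h.2 ℓ hℓ n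
      rw [if_neg hn, mul_zero, add_zero] at h1
      simpa using h1
    | (k + 2), ih =>
      have h1 := h.2 ℓ hℓ (ℓ ^ (k + 1) * n)
      have hdvd : ℓ ∣ ℓ ^ (k + 1) * n := Dvd.dvd.mul_right (dvd_pow_self ℓ (Nat.succ_ne_zero k)) n
      rw [if_pos hdvd] at h1
      have hdiv : ℓ ^ (k + 1) * n / ℓ = ℓ ^ k * n := by
        rw [pow_succ, mul_assoc, mul_comm ℓ n, ← mul_assoc, Nat.mul_div_cancel _ hℓ.pos]
      rw [hdiv] at h1
      have hpow : ℓ * (ℓ ^ (k + 1) * n) = ℓ ^ (k + 2) * n := by ring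
      rw [hpow, ih (k + 1) (by omega), ih k (by omega)] at h1
      rw [formal_prime_pow h ℓ k hℓ]
      have : a (ℓ ^ (k + 2) * n) = a ℓ * (a (ℓ ^ (k + 1)) * a n) - e ℓ * (a (ℓ ^ k) * a n) := by
        rw [← h1]; ring
      rw [this]; ring

/-- Multiplicativity on coprime arguments from the formal Hecke relations. -/
theorem formal_mul_of_coprime {e a : ℕ → R} (h : FormalHecke.IsEigensystem e a)
    (m n : ℕ) (hmn : m.Coprime n) : a (m * n) = a m * a n := by
  induction m using Nat.recOnPosPrimePosCoprime generalizing n with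
  | zero =>
    have : n = 1 := by simpa using hmn
    subst this
    simp [h.1]
  | one => simp [h.1]
  | prime_pow p k hp hk =>
    have hpn : ¬ p ∣ n := by
      intro hdvd
      have := Nat.Coprime.coprime_dvd_left (dvd_pow_self p hk.ne') hmn
      exact hp.one_lt.ne' (Nat.Coprime.eq_one_of_dvd this hdvd)
    exact formal_prime_pow_mul h p hp n hpn k
  | coprime x y hx hy hxy ihx ihy =>
    have hxn : x.Coprime n := Nat.Coprime.coprime_dvd_left (Dvd.intro y rfl) hmn
    have hyn : y.Coprime n := Nat.Coprime.coprime_dvd_left (Dvd.intro_left x rfl) hmn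
    have hxyn : x.Coprime (y * n) := Nat.Coprime.mul_right hxy hxn
    rw [mul_assoc, ihx (y * n) hxyn, ihy n hyn, ihx y hxy]
    ring

/-- A formal Hecke eigensystem is recursive (multiplicative with prime-power recursion). -/
theorem isRecursive_of_isEigensystem {e a : ℕ → R} (h : FormalHecke.IsEigensystem e a) :
    FormalHecke.IsRecursive e a :=
  ⟨h.1, formal_mul_of_coprime h, fun ℓ r hℓ => formal_prime_pow h ℓ r hℓ⟩

end Fermat.Agent.S49

end
-- ===== PACK-END S49/Formal.lean

-- ===== PACK-BEGIN Lib/Newform/H683/Coeff.lean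
section
/-
NEWFORM library (helper683) — part 1: q-coefficient calculus of the Prelude Hecke operators on
`CuspForm (Gamma0 N) k`, and the dictionary

  `IsNormalizedEigenform f`  ⟺  `a₁ = 1` and `f` is an eigenvector of all `T_p` (`p ∤ N`) and
                                  all `U_p` (`p ∣ N`).
-/







set_option autoImplicit false

open CongruenceSubgroup ModularFormClass ModularForm UpperHalfPlane

namespace Fermat.Agent.Lib.Newform.H683

variable {N : ℕ}

/-- The constant coefficient of a cusp form vanishes. -/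
theorem qCoeff_zero_cusp (k : ℤ) (f : CuspForm (Gamma0 N) k) : qCoeff ⇑f 0 = 0 := by
  unfold qCoeff
  have h1 := CongruenceSubgroup.one_mem_strictPeriods_Gamma0 N
  exact CuspFormClass.qExpansion_coeff_zero f (by norm_num) h1

theorem qCoeff_heckeT_cusp (k : ℤ) (f : CuspForm (Gamma0 N) k) {p : ℕ} (hp : p ≠ 0) (n : ℕ) :
    qCoeff (heckeT k p ⇑f) n = coeffHeckeT k p (qCoeff ⇑f) n :=
  ModularFormClass.qCoeff_heckeT f (CongruenceSubgroup.one_mem_strictPeriods_Gamma0 N) hp n

theorem qCoeff_heckeU_cusp (k : ℤ) (f : CuspForm (Gamma0 N) k) {p : ℕ} (hp : p ≠ 0) (n : ℕ) :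
    qCoeff (heckeU k p ⇑f) n = coeffHeckeU p (qCoeff ⇑f) n :=
  ModularFormClass.qCoeff_heckeU f (CongruenceSubgroup.one_mem_strictPeriods_Gamma0 N) hp n

/-- `q`-expansion principle for cusp forms on `Γ₀(N)`. -/
theorem cusp_eq_zero_of_qCoeff (k : ℤ) (f : CuspForm (Gamma0 N) k)
    (h : ∀ n, qCoeff ⇑f n = 0) : f = 0 := by
  have h1 := CongruenceSubgroup.one_mem_strictPeriods_Gamma0 N
  haveI : Fact (IsCusp OnePoint.infty
      (Subgroup.map (Matrix.SpecialLinearGroup.mapGL ℝ) (Gamma0 N))) :=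
    ⟨Subgroup.isCusp_of_mem_strictPeriods one_pos h1⟩
  have hq : qExpansion 1 ⇑f = 0 := by
    ext n
    simpa [qCoeff] using h n
  have := (UpperHalfPlane.qExpansion_eq_zero_iff (h := 1) one_pos
    (SlashInvariantFormClass.periodic_comp_ofComplex f h1) (CuspFormClass.holo f)
    (ModularFormClass.bdd_at_infty f)).mp hq
  exact DFunLike.coe_injective (by simpa using this)

theorem qCoeff_sub_cusp (k : ℤ) (f g : CuspForm (Gamma0 N) k) (n : ℕ) :
    qCoeff ⇑(f - g) n = qCoeff ⇑f n - qCoeff ⇑g n := by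
  have h1 := CongruenceSubgroup.one_mem_strictPeriods_Gamma0 N
  unfold qCoeff
  rw [FunLike.coe_sub, UpperHalfPlane.qExpansion_sub
    (ModularFormClass.analyticAt_cuspFunction_zero f one_pos h1)
    (ModularFormClass.analyticAt_cuspFunction_zero g one_pos h1)]
  simp

theorem qCoeff_smul_cusp (k : ℤ) (c : ℂ) (f : CuspForm (Gamma0 N) k) (n : ℕ) :
    qCoeff ⇑(c • f) n = c * qCoeff ⇑f n := by
  have h1 := CongruenceSubgroup.one_mem_strictPeriods_Gamma0 N
  unfold qCoeff
  rw [FunLike.coe_smul, UpperHalfPlane.qExpansion_smul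
    (ModularFormClass.analyticAt_cuspFunction_zero f one_pos h1)]
  simp

theorem cusp_ext_qCoeff (k : ℤ) (f g : CuspForm (Gamma0 N) k)
    (h : ∀ n, qCoeff ⇑f n = qCoeff ⇑g n) : f = g := by
  have := cusp_eq_zero_of_qCoeff k (f - g) (fun n => by rw [qCoeff_sub_cusp, h n, sub_self])
  exact sub_eq_zero.mp this

end Fermat.Agent.Lib.Newform.H683

end
-- ===== PACK-END Lib/Newform/H683/Coeff.lean

-- ===== PACK-BEGIN Lib/Newform/H263/MaxPrinciple.lean
section
/-
NEWFORM library (helper263) — part 1: a maximum principle for invariant functions on `ℍ`.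

A continuous nonnegative function on the upper half plane which is invariant under an arithmetic
subgroup and tends to `0` at every cusp attains its maximum.  (Compactness of the truncated
fundamental domain of `SL(2, ℤ)`; no integration.)
-/


set_option autoImplicit false

open Filter Topology UpperHalfPlane Matrix.SpecialLinearGroup
open scoped Modular MatrixGroups

namespace Fermat.Agent.Lib.Newform.H263

/-- A finite family of continuous nonnegative functions on `ℍ`, permuted by `SL(2, ℤ)` and all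
tending to `0` at `i∞`, has a global maximum. -/
theorem exists_max_of_family {ι : Type*} [Finite ι] [Nonempty ι] [MulAction SL(2, ℤ) ι]
    (F : ℍ → ι → ℝ) (hc : ∀ c, Continuous (F · c)) (hnn : ∀ τ c, 0 ≤ F τ c)
    (h0 : ∀ c, Tendsto (F · c) atImInfty (𝓝 0))
    (hinv : ∀ (g : SL(2, ℤ)) τ c, F (g • τ) (g • c) = F τ c) :
    ∃ τ₀ c₀, ∀ τ c, F τ c ≤ F τ₀ c₀ := by
  classical
  by_cases hz : ∀ τ c, F τ c ≤ 0
  · exact ⟨UpperHalfPlane.I, Classical.arbitrary ι, fun τ c ↦ (hz τ c).trans (hnn _ _)⟩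
  push Not at hz
  obtain ⟨τ₁, c₁, hpos⟩ := hz
  -- a uniform height above which everything is smaller than `F τ₁ c₁`
  have hY : ∀ c, ∃ Y : ℝ, ∀ τ : ℍ, Y ≤ τ.im → F τ c < F τ₁ c₁ := fun c ↦ by
    have := (h0 c).eventually (gt_mem_nhds hpos)
    exact (atImInfty_mem _).mp this
  choose Yc hYc using hY
  obtain ⟨Y, hYub⟩ : ∃ Y : ℝ, ∀ c, Yc c < Y := by
    obtain ⟨B, hB⟩ := (Set.finite_range Yc).bddAbove
    exact ⟨B + 1, fun c ↦ lt_of_le_of_lt (hB (Set.mem_range_self c)) (lt_add_one B)⟩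
  have hsmall : ∀ τ : ℍ, Y ≤ τ.im → ∀ c, F τ c < F τ₁ c₁ := fun τ hτ c ↦
    hYc c τ ((hYub c).le.trans hτ)
  -- the truncated fundamental domain is compact and contains a translate of `τ₁`
  obtain ⟨g₁, hg₁⟩ := ModularGroup.exists_smul_mem_fd τ₁
  have hmem₁ : g₁ • τ₁ ∈ ModularGroup.truncatedFundamentalDomain Y := by
    refine ⟨hg₁, ?_⟩
    by_contra hlt
    have := hsmall (g₁ • τ₁) (not_le.mp hlt).le (g₁ • c₁)
    rw [hinv] at this
    exact lt_irrefl _ this
  have hne : (ModularGroup.truncatedFundamentalDomain Y).Nonempty := ⟨_, hmem₁⟩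
  have hmax : ∀ c, ∃ τ ∈ ModularGroup.truncatedFundamentalDomain Y,
      ∀ τ' ∈ ModularGroup.truncatedFundamentalDomain Y, F τ' c ≤ F τ c := fun c ↦ by
    obtain ⟨τ, hτ, hτmax⟩ := (ModularGroup.isCompact_truncatedFundamentalDomain Y).exists_isMaxOn
      hne (hc c).continuousOn
    exact ⟨τ, hτ, fun τ' hτ' ↦ hτmax hτ'⟩
  choose τc hτc hτcmax using hmax
  obtain ⟨c₀, hc₀⟩ := Finite.exists_max (fun c ↦ F (τc c) c)
  have key : ∀ τ ∈ ModularGroup.truncatedFundamentalDomain Y, ∀ c, F τ c ≤ F (τc c₀) c₀ :=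
    fun τ hτ c ↦ (hτcmax c τ hτ).trans (hc₀ c)
  refine ⟨τc c₀, c₀, fun τ c ↦ ?_⟩
  obtain ⟨g, hg⟩ := ModularGroup.exists_smul_mem_fd τ
  rw [← hinv g τ c]
  by_cases hle : (g • τ).im ≤ Y
  · exact key _ ⟨hg, hle⟩ _
  · refine (hsmall (g • τ) (not_le.mp hle).le (g • c)).le.trans ?_
    rw [← hinv g₁ τ₁ c₁]
    exact key _ hmem₁ _

/-- A continuous nonnegative function on `ℍ`, invariant under a finite-index subgroup of
`SL(2, ℤ)` and tending to `0` at every cusp, attains its maximum. -/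
theorem exists_max_of_subgroup_invariant_SL {φ : ℍ → ℝ} (hc : Continuous φ) (hnn : ∀ τ, 0 ≤ φ τ)
    (h0 : ∀ g : SL(2, ℤ), Tendsto (fun τ ↦ φ (g • τ)) atImInfty (𝓝 0))
    {Γ : Subgroup SL(2, ℤ)} [Γ.FiniteIndex] (hinv : ∀ g ∈ Γ, ∀ τ, φ (g • τ) = φ τ) :
    ∃ τ₀, ∀ τ, φ τ ≤ φ τ₀ := by
  let F τ : SL(2, ℤ) ⧸ Γ → ℝ := Quotient.lift (fun g ↦ φ (g⁻¹ • τ)) fun g h hgh ↦ by
    obtain ⟨j, hj, hj'⟩ : ∃ j ∈ Γ, h = g * j := by
      rw [← Quotient.eq_iff_equiv, Quotient.eq, QuotientGroup.leftRel_apply] at hgh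
      exact ⟨g⁻¹ * h, hgh, (mul_inv_cancel_left g h).symm⟩
    simp [-ModularGroup.sl_moeb, hj', mul_smul, hinv j⁻¹ (inv_mem hj)]
  have hF_cont γ : Continuous (F · γ) := QuotientGroup.induction_on γ fun g ↦ by
    simp only [ModularGroup.sl_moeb, F]
    fun_prop
  have hF_inv (g : SL(2, ℤ)) τ γ : F (g • τ) (g • γ) = F τ γ := by
    induction γ using QuotientGroup.induction_on
    simp [-ModularGroup.sl_moeb, F, mul_smul]
  have hF_infty γ : Tendsto (F · γ) atImInfty (𝓝 0) := γ.induction_on fun h ↦ h0 h⁻¹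
  have hF_nn τ γ : 0 ≤ F τ γ := by
    induction γ using QuotientGroup.induction_on
    exact hnn _
  have : Finite (SL(2, ℤ) ⧸ Γ) := Subgroup.finite_quotient_of_finiteIndex
  obtain ⟨τ₀, c₀, hmax⟩ := exists_max_of_family F hF_cont hF_nn hF_infty hF_inv
  induction c₀ using QuotientGroup.induction_on with
  | H g₀ =>
    refine ⟨g₀⁻¹ • τ₀, fun τ ↦ ?_⟩
    have := hmax τ ((1 : SL(2, ℤ)) : SL(2, ℤ) ⧸ Γ)
    simpa [-ModularGroup.sl_moeb, F] using this

/-- A continuous nonnegative function on `ℍ`, invariant under an arithmetic subgroup of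
`GL(2, ℝ)` and tending to `0` at every cusp, attains its maximum. -/
theorem exists_max_of_subgroup_invariant {φ : ℍ → ℝ} (hc : Continuous φ) (hnn : ∀ τ, 0 ≤ φ τ)
    (h0 : ∀ g : SL(2, ℤ), Tendsto (fun τ ↦ φ (g • τ)) atImInfty (𝓝 0))
    {Γ : Subgroup (GL (Fin 2) ℝ)} [Γ.IsArithmetic] (hinv : ∀ g ∈ Γ, ∀ τ, φ (g • τ) = φ τ) :
    ∃ τ₀, ∀ τ, φ τ ≤ φ τ₀ :=
  exists_max_of_subgroup_invariant_SL hc hnn h0 (Γ := Γ.comap (mapGL ℝ)) (hinv ·)

end Fermat.Agent.Lib.Newform.H263

end
-- ===== PACK-END Lib/Newform/H263/MaxPrinciple.lean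

-- ===== PACK-BEGIN A2/H48/TwoVal.lean
section


/-!
# A2 / piece QEP2, part 1 (helper48): two valuation rings with a common uniformiser

Mathlib-only.  `F` a field, `V₁ ≠ V₂` valuation subrings of `F` whose maximal ideals are both
generated by the same element `ϖ` (both "unramified" over a common base).

* `IsUnif V ϖ` : `ϖ ∈ V`, `ϖ⁻¹ ∉ V`, and every non-unit of `V` is divisible by `ϖ` in `V`;
* `exists_separating` : there is `c` with `c ∈ 𝔪₁` and `c⁻¹ ∈ 𝔪₂`;
* `exists_approx` : for `f ∈ V₁` with `ϖ ^ k * f ∈ V₂` there is `g ∈ V₁ ∩ V₂` with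
  `g ≡ f mod ϖ V₁` and `g ∈ ϖ V₂` (explicit weak approximation).
-/

set_option autoImplicit false

namespace Fermat.Agent.A2.H48

variable {F : Type*} [Field F]

/-- `ϖ` generates the maximal ideal of the valuation subring `V` (elementwise form). -/
structure IsUnif (V : ValuationSubring F) (ϖ : F) : Prop where
  mem : ϖ ∈ V
  inv_not_mem : ϖ⁻¹ ∉ V
  gen : ∀ f ∈ V, f⁻¹ ∉ V → f * ϖ⁻¹ ∈ V

namespace IsUnif

variable {V : ValuationSubring F} {ϖ : F}

theorem ne_zero (h : IsUnif V ϖ) : ϖ ≠ 0 := by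
  rintro rfl
  exact h.inv_not_mem (by simp)

theorem val_lt_one (h : IsUnif V ϖ) : V.valuation ϖ < 1 := by
  have h1 : V.valuation ϖ ≤ 1 := (V.valuation_le_one_iff ϖ).2 h.mem
  rcases lt_or_eq_of_le h1 with h2 | h2
  · exact h2
  · exfalso
    apply h.inv_not_mem
    rw [← V.valuation_le_one_iff, map_inv₀, h2, inv_one]

theorem val_ne_zero (h : IsUnif V ϖ) : V.valuation ϖ ≠ 0 :=
  (Valuation.ne_zero_iff _).2 h.ne_zero

theorem val_le_of_lt_one (h : IsUnif V ϖ) {f : F} (hf : V.valuation f < 1) :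
    V.valuation f ≤ V.valuation ϖ := by
  by_cases hf0 : f = 0
  · subst hf0; simp
  have hfV : f ∈ V := (V.valuation_le_one_iff f).1 hf.le
  have hfinv : f⁻¹ ∉ V := by
    intro hmem
    have h1 : V.valuation f⁻¹ ≤ 1 := (V.valuation_le_one_iff _).2 hmem
    rw [map_inv₀] at h1
    have h2 : V.valuation f ≠ 0 := (Valuation.ne_zero_iff _).2 hf0
    have h3 : 1 ≤ V.valuation f := by
      rwa [inv_le_one₀ (zero_lt_iff.2 h2)] at h1
    exact absurd hf (not_lt.2 h3)
  have h4 := h.gen f hfV hfinv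
  have h5 : V.valuation (f * ϖ⁻¹) ≤ 1 := (V.valuation_le_one_iff _).2 h4
  rw [map_mul, map_inv₀] at h5
  rwa [mul_inv_le_iff₀ (zero_lt_iff.2 h.val_ne_zero), one_mul] at h5

/-- membership in `ϖ V` in terms of the valuation -/
theorem mul_inv_mem_iff (h : IsUnif V ϖ) {f : F} :
    f * ϖ⁻¹ ∈ V ↔ V.valuation f < 1 := by
  rw [← V.valuation_le_one_iff, map_mul, map_inv₀,
    mul_inv_le_iff₀ (zero_lt_iff.2 h.val_ne_zero), one_mul]
  constructor
  · intro h1; exact lt_of_le_of_lt h1 h.val_lt_one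
  · intro h1; exact h.val_le_of_lt_one h1

theorem pow_mul_inv_mem (h : IsUnif V ϖ) {f : F} (k : ℕ) (hf : V.valuation f ≤ V.valuation ϖ ^ k) :
    f * (ϖ ^ k)⁻¹ ∈ V := by
  rw [← V.valuation_le_one_iff, map_mul, map_inv₀, map_pow,
    mul_inv_le_iff₀ (pow_pos (zero_lt_iff.2 h.val_ne_zero) k), one_mul]
  exact hf

end IsUnif

section Two

variable {V₁ V₂ : ValuationSubring F} {ϖ : F}

theorem not_le_of_ne (h₁ : IsUnif V₁ ϖ) (h₂ : IsUnif V₂ ϖ) (hne : V₁ ≠ V₂) : ¬ V₁ ≤ V₂ := by
  intro hle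
  have : ¬ V₂ ≤ V₁ := fun h => hne (le_antisymm hle h)
  obtain ⟨b, hb2, hb1⟩ := SetLike.not_le_iff_exists.1 this
  have hb0 : b ≠ 0 := by rintro rfl; exact hb1 (zero_mem _)
  have hv1 : 1 < V₁.valuation b := by
    rw [← not_le, V₁.valuation_le_one_iff]; exact hb1
  have hv1' : V₁.valuation b⁻¹ < 1 := by
    rw [map_inv₀]
    exact inv_lt_one_of_one_lt₀ hv1
  have h3 : b⁻¹ * ϖ⁻¹ ∈ V₁ := h₁.mul_inv_mem_iff.2 hv1'
  have h4 : b⁻¹ * ϖ⁻¹ ∈ V₂ := hle h3
  apply h₂.inv_not_mem
  have : ϖ⁻¹ = b * (b⁻¹ * ϖ⁻¹) := by field_simp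
  rw [this]
  exact mul_mem hb2 h4

/-- Two distinct valuation rings with the same uniformiser are incomparable: there is `c` in the
maximal ideal of `V₁` whose inverse lies in the maximal ideal of `V₂`. -/
theorem exists_separating (h₁ : IsUnif V₁ ϖ) (h₂ : IsUnif V₂ ϖ) (hne : V₁ ≠ V₂) :
    ∃ c : F, c ≠ 0 ∧ V₁.valuation c < 1 ∧ V₂.valuation c⁻¹ < 1 := by
  obtain ⟨a, ha1, ha2⟩ := SetLike.not_le_iff_exists.1 (not_le_of_ne h₁ h₂ hne)
  obtain ⟨b, hb2, hb1⟩ := SetLike.not_le_iff_exists.1 (not_le_of_ne h₂ h₁ (Ne.symm hne))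
  have ha0 : a ≠ 0 := by rintro rfl; exact ha2 (zero_mem _)
  have hb0 : b ≠ 0 := by rintro rfl; exact hb1 (zero_mem _)
  have hv1a : V₁.valuation a ≤ 1 := (V₁.valuation_le_one_iff a).2 ha1
  have hv2b : V₂.valuation b ≤ 1 := (V₂.valuation_le_one_iff b).2 hb2
  have hv1b : 1 < V₁.valuation b := by
    rw [← not_le, V₁.valuation_le_one_iff]; exact hb1
  have hv2a : 1 < V₂.valuation a := by
    rw [← not_le, V₂.valuation_le_one_iff]; exact ha2
  refine ⟨a * b⁻¹, mul_ne_zero ha0 (inv_ne_zero hb0), ?_, ?_⟩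
  · rw [map_mul, map_inv₀]
    calc V₁.valuation a * (V₁.valuation b)⁻¹ ≤ 1 * (V₁.valuation b)⁻¹ :=
          mul_le_mul_left hv1a _
      _ < 1 := by rw [one_mul]; exact inv_lt_one_of_one_lt₀ hv1b
  · rw [mul_inv, inv_inv, map_mul, map_inv₀]
    calc (V₂.valuation a)⁻¹ * V₂.valuation b ≤ (V₂.valuation a)⁻¹ * 1 :=
          mul_le_mul_right hv2b _
      _ < 1 := by rw [mul_one]; exact inv_lt_one_of_one_lt₀ hv2a

/-- Explicit weak approximation: an element `f ∈ V₁` can be corrected, modulo `ϖ V₁`, to an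
element of `V₁ ∩ ϖ V₂`. -/
theorem exists_approx (h₁ : IsUnif V₁ ϖ) (h₂ : IsUnif V₂ ϖ) (hne : V₁ ≠ V₂)
    {f : F} (hf : f ∈ V₁) {k : ℕ} (hk : ϖ ^ k * f ∈ V₂) :
    ∃ g : F, g ∈ V₁ ∧ (g - f) * ϖ⁻¹ ∈ V₁ ∧ g * ϖ⁻¹ ∈ V₂ := by
  obtain ⟨c, hc0, hc1, hc2⟩ := exists_separating h₁ h₂ hne
  set n := k + 1 with hn
  have hcn1 : V₁.valuation (c ^ n) < 1 := by
    rw [map_pow]; exact pow_lt_one₀ zero_le hc1 (by omega)
  have hcn2 : V₂.valuation ((c⁻¹) ^ n) < 1 := by
    rw [map_pow]; exact pow_lt_one₀ zero_le hc2 (by omega)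
  have hu1 : V₁.valuation (1 + c ^ n) = 1 := Valuation.map_one_add_of_lt _ hcn1
  have hu2 : V₂.valuation (1 + (c⁻¹) ^ n) = 1 := Valuation.map_one_add_of_lt _ hcn2
  have hne1 : 1 + c ^ n ≠ 0 := by
    intro h; rw [h, map_zero] at hu1; exact zero_ne_one hu1
  have hne2 : 1 + (c⁻¹) ^ n ≠ 0 := by
    intro h; rw [h, map_zero] at hu2; exact zero_ne_one hu2
  set e := (1 + c ^ n)⁻¹ with he
  have he1 : V₁.valuation e = 1 := by rw [he, map_inv₀, hu1, inv_one]
  have hee : e - 1 = -(c ^ n) * e := by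
    rw [he]; field_simp; ring
  have he1' : V₁.valuation (e - 1) < 1 := by
    rw [hee, map_mul, Valuation.map_neg, he1, mul_one]; exact hcn1
  have hee2 : e = (c⁻¹) ^ n * (1 + (c⁻¹) ^ n)⁻¹ := by
    have hcn0 : c ^ n ≠ 0 := pow_ne_zero _ hc0
    have h3 : 1 + (c ^ n)⁻¹ ≠ 0 := by rwa [inv_pow] at hne2
    rw [he, inv_pow, eq_comm, ← div_eq_mul_inv, div_eq_iff h3, ← div_eq_inv_mul, 
      eq_div_iff hne1]
    field_simp
    ring
  have he2 : V₂.valuation e ≤ V₂.valuation ϖ ^ n := by
    rw [hee2, map_mul, map_inv₀, hu2, inv_one, mul_one, map_pow]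
    exact pow_le_pow_left₀ zero_le (h₂.val_le_of_lt_one hc2) n
  refine ⟨f * e, ?_, ?_, ?_⟩
  · exact mul_mem hf ((V₁.valuation_le_one_iff e).1 he1.le)
  · rw [h₁.mul_inv_mem_iff]
    have : f * e - f = f * (e - 1) := by ring
    rw [this, map_mul]
    calc V₁.valuation f * V₁.valuation (e - 1) ≤ 1 * V₁.valuation (e - 1) :=
          mul_le_mul_left ((V₁.valuation_le_one_iff f).2 hf) _
      _ < 1 := by rw [one_mul]; exact he1'
  · rw [h₂.mul_inv_mem_iff]
    have hk' : V₂.valuation ϖ ^ k * V₂.valuation f ≤ 1 := by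
      have := (V₂.valuation_le_one_iff _).2 hk
      rwa [map_mul, map_pow] at this
    rw [map_mul]
    calc V₂.valuation f * V₂.valuation e ≤ V₂.valuation f * V₂.valuation ϖ ^ n :=
          mul_le_mul_right he2 _
      _ = (V₂.valuation ϖ ^ k * V₂.valuation f) * V₂.valuation ϖ := by
          rw [hn, pow_succ, mul_comm (V₂.valuation ϖ ^ k) (V₂.valuation f), mul_assoc]
      _ ≤ 1 * V₂.valuation ϖ := mul_le_mul_left hk' _
      _ < 1 := by rw [one_mul]; exact h₂.val_lt_one

end Two

end Fermat.Agent.A2.H48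

end
-- ===== PACK-END A2/H48/TwoVal.lean

-- ===== PACK-BEGIN A2/IF/H429/Dvr.lean
section


/-!
# A2 / IF (helper429): a criterion for discrete valuation rings (Mathlib only)

A valuation ring in which a fixed power `x ^ N` of every nonzero element is associated to a
power of a fixed nonzero non-unit `ϖ` is a discrete valuation ring.
-/

set_option autoImplicit false

namespace Fermat.Agent.A2.IF.H429

section

variable {R : Type*} [CommRing R] [IsDomain R]

theorem pow_associated_inj {ϖ : R} (hϖ0 : ϖ ≠ 0) (hϖ : ¬ IsUnit ϖ) {a b : ℕ}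
    (h : Associated (ϖ ^ a) (ϖ ^ b)) : a = b := by
  wlog hab : a ≤ b generalizing a b
  · exact (this h.symm (le_of_not_ge hab)).symm
  obtain ⟨c, rfl⟩ := Nat.exists_eq_add_of_le hab
  by_contra hne
  have hc : c ≠ 0 := fun h0 => hne (by simp [h0])
  obtain ⟨u, hu⟩ := h
  rw [pow_add] at hu
  have h1 : (u : R) = ϖ ^ c := mul_left_cancel₀ (pow_ne_zero a hϖ0) hu
  have h2 : IsUnit (ϖ ^ c) := h1 ▸ u.isUnit
  exact hϖ ((isUnit_pow_iff hc).mp h2)

variable [ValuationRing R]

/-- **DVR criterion.** -/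
theorem isDiscreteValuationRing_of_pow_associated (ϖ : R) (hϖ0 : ϖ ≠ 0) (hϖ : ¬ IsUnit ϖ)
    (N : ℕ) (hN : 0 < N) (h : ∀ x : R, x ≠ 0 → ∃ k : ℕ, Associated (x ^ N) (ϖ ^ k)) :
    IsDiscreteValuationRing R := by
  classical
  -- the "valuation"
  choose! ν hν using h
  have hν_unique : ∀ x : R, x ≠ 0 → ∀ k : ℕ, Associated (x ^ N) (ϖ ^ k) → ν x = k := by
    intro x hx k hk
    exact pow_associated_inj hϖ0 hϖ ((hν x hx).symm.trans hk)
  have hν_mul : ∀ x y : R, x ≠ 0 → y ≠ 0 → ν (x * y) = ν x + ν y := by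
    intro x y hx hy
    apply hν_unique _ (mul_ne_zero hx hy)
    rw [mul_pow, pow_add]
    exact (hν x hx).mul_mul (hν y hy)
  have hν_unit : ∀ x : R, x ≠ 0 → (ν x = 0 ↔ IsUnit x) := by
    intro x hx
    constructor
    · intro h0
      have h1 := hν x hx
      rw [h0, pow_zero] at h1
      have h2 : IsUnit (x ^ N) := h1.symm.isUnit isUnit_one
      exact (isUnit_pow_iff hN.ne').mp h2
    · intro hu
      apply hν_unique x hx 0
      rw [pow_zero]
      exact associated_one_iff_isUnit.mpr (hu.pow N)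
  -- a non-unit of minimal valuation
  have hex : ∃ k : ℕ, ∃ x : R, x ≠ 0 ∧ ¬ IsUnit x ∧ ν x = k := ⟨ν ϖ, ϖ, hϖ0, hϖ, rfl⟩
  obtain ⟨π, hπ0, hπu, hπk⟩ := Nat.find_spec hex
  have hmin : ∀ x : R, x ≠ 0 → ¬ IsUnit x → ν π ≤ ν x := by
    intro x hx hxu
    rw [hπk]
    exact Nat.find_min' hex ⟨x, hx, hxu, rfl⟩
  have hπpos : 0 < ν π := by
    rcases Nat.eq_zero_or_pos (ν π) with h0 | h0
    · exact absurd ((hν_unit π hπ0).mp h0) hπu
    · exact h0
  have hirr : Irreducible π := by
    refine ⟨hπu, fun a b hab => ?_⟩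
    by_contra hcon
    rw [not_or] at hcon
    have ha0 : a ≠ 0 := by
      rintro rfl
      rw [zero_mul] at hab
      exact hπ0 hab
    have hb0 : b ≠ 0 := by
      rintro rfl
      rw [mul_zero] at hab
      exact hπ0 hab
    have h1 := hν_mul a b ha0 hb0
    rw [← hab] at h1
    have h2 := hmin a ha0 hcon.1
    have h3 := hmin b hb0 hcon.2
    omega
  have key : ∀ n : ℕ, ∀ x : R, x ≠ 0 → ν x = n → ∃ j : ℕ, Associated (π ^ j) x := by
    intro n
    induction n using Nat.strong_induction_on with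
    | _ n ih =>
      intro x hx hxn
      by_cases hxu : IsUnit x
      · exact ⟨0, by rw [pow_zero]; exact (associated_one_iff_isUnit.mpr hxu).symm⟩
      · rcases ValuationRing.dvd_total π x with ⟨y, hy⟩ | ⟨z, hz⟩
        · have hy0 : y ≠ 0 := by
            rintro rfl
            rw [mul_zero] at hy
            exact hx hy
          have h1 := hν_mul π y hπ0 hy0
          rw [← hy, hxn] at h1
          obtain ⟨j, hj⟩ := ih (ν y) (by omega) y hy0 rfl
          refine ⟨j + 1, ?_⟩
          rw [pow_succ', hy]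
          exact (Associated.refl π).mul_mul hj
        · have hz0 : z ≠ 0 := by
            rintro rfl
            rw [mul_zero] at hz
            exact hπ0 hz
          rcases hirr.isUnit_or_isUnit hz with h1 | h1
          · exact absurd h1 hxu
          · refine ⟨1, ?_⟩
            rw [pow_one, hz]
            exact (associated_mul_unit_right x z h1).symm
  exact IsDiscreteValuationRing.ofHasUnitMulPowIrreducibleFactorization
    ⟨π, hirr, fun {x} hx => key (ν x) x hx rfl⟩

end

end Fermat.Agent.A2.IF.H429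

end
-- ===== PACK-END A2/IF/H429/Dvr.lean

-- ===== PACK-BEGIN A2/H652/CoverRed.lean
section







/-!
# Cell A2, route G — obligation C3 COVER-RED (helper652), Mathlib only

Setting: `L / F` a finite normal extension (the Kummer cover of the function field `F` of the
model), `C → F` the base chart (integrally closed in `F`), `w ∈ C` the uniformiser of the base,
`Sh` the set of *sheets*: valuation subrings of `L` (the valuation rings of the generic points of
the components of the special fibre of the cover), stable under `Gal(L/F)`.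

Inputs:
* `he`    : every sheet is unramified over the base, `𝔪_W = w W` (obligation C2, `e = 1`);
* `hbase` : the special fibre of the base chart is reduced and its components are (images of)
            sheets: `a ∈ C`, `a ∈ 𝔪_W` for all sheets `W` `⇒` `a ∈ w C`.

Output (`coverRed`): the special fibre of the cover chart (= integral closure of `C` in `L`) is
reduced with the sheets as components:
`b` integral over `C`, `b ∈ 𝔪_W` for all sheets `W` `⇒` `b = w t` with `t` integral over `C`.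
This is `hred_mid / hred_fin / hred_inf` of `A2.H12.wallG` (`coverRed_subalgebra`).

Proof: the conjugates of `t = b / w` lie in every sheet (by `he`), so the coefficients of the
minimal polynomial of `t` over `F` lie in `W ∩ F` for every sheet and become integral over `C`
after multiplication by a power of `w`; `hbase` peels off the powers of `w`.
-/

set_option autoImplicit false

namespace Fermat.Agent.A2.H652

open Polynomial

section General

variable {C F L : Type*} [CommRing C] [Field F] [Field L] [Algebra C F] [Algebra F L]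
  [Algebra C L] [IsScalarTower C F L]

/-- If the coefficients of the minimal polynomial of `t` over `F` come from `C`, then `t` is
integral over `C`. -/
theorem isIntegral_of_minpoly_coeff_mem {t : L} (ht : IsIntegral F t)
    (h : ∀ k, (minpoly F t).coeff k ∈ (algebraMap C F).range) : IsIntegral C t := by
  have hl : minpoly F t ∈ lifts (algebraMap C F) := by
    rw [lifts_iff_coeff_lifts]
    intro k
    exact h k
  obtain ⟨q, hq, -, hqm⟩ := lifts_and_natDegree_eq_and_monic hl (minpoly.monic ht)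
  refine ⟨q, hqm, ?_⟩
  have h1 : eval₂ (algebraMap C L) t q = eval₂ (algebraMap F L) t (q.map (algebraMap C F)) := by
    rw [eval₂_map, IsScalarTower.algebraMap_eq C F L]
  rw [h1, hq]
  exact minpoly.aeval F t

/-- **Integrality from the conjugates.**  `L / F` normal, `A` a subring of `L` containing all
conjugates of `t`, with `A ∩ F ⊆ C`: then `t` is integral over `C`. -/
theorem isIntegral_of_conj_mem_subring [Normal F L] (A : Subring L)
    (hA : ∀ c : F, algebraMap F L c ∈ A → c ∈ (algebraMap C F).range)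
    (t : L) (ht : ∀ σ : L ≃ₐ[F] L, σ t ∈ A) : IsIntegral C t := by
  have hint : IsIntegral F t := Normal.isIntegral inferInstance t
  have hsplit : ((minpoly F t).map (algebraMap F L)).Splits := Normal.splits inferInstance t
  have hmonic : ((minpoly F t).map (algebraMap F L)).Monic := (minpoly.monic hint).map _
  have hroots : ∀ β ∈ ((minpoly F t).map (algebraMap F L)).roots, β ∈ A := by
    intro β hβ
    have h0 : aeval β (minpoly F t) = 0 := by
      have := (mem_roots'.1 hβ).2
      rwa [IsRoot.def, eval_map_algebraMap] at this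
    obtain ⟨σ, hσ⟩ := isConjRoot_iff_exists_algEquiv.1 (isConjRoot_of_aeval_eq_zero hint h0)
    have h1 : β = σ.symm t := by rw [← hσ]; simp
    rw [h1]
    exact ht σ.symm
  refine isIntegral_of_minpoly_coeff_mem hint (fun k => hA _ ?_)
  have hc : algebraMap F L ((minpoly F t).coeff k) =
      ((minpoly F t).map (algebraMap F L)).coeff k := by rw [coeff_map]
  rw [hc]
  by_cases hk : k ≤ ((minpoly F t).map (algebraMap F L)).natDegree
  · rw [coeff_eq_esymm_roots_of_splits hsplit hk, hmonic.leadingCoeff, one_mul]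
    refine A.mul_mem (A.pow_mem (A.neg_mem A.one_mem) _) ?_
    rw [Multiset.esymm]
    refine A.multiset_sum_mem _ (fun x hx => ?_)
    obtain ⟨s, hs, rfl⟩ := Multiset.mem_map.1 hx
    refine A.multiset_prod_mem _ (fun y hy => hroots y ?_)
    exact Multiset.mem_of_le (Multiset.mem_powersetCard.1 hs).1 hy
  · rw [coeff_eq_zero_of_natDegree_lt (not_le.1 hk)]
    exact A.zero_mem

end General

section Val

variable {L : Type*} [Field L]

/-- `𝔪_W` absorbs `W`. -/
theorem mul_mem_nonunits_right (W : ValuationSubring L) {x y : L} (hx : x ∈ W.nonunits)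
    (hy : y ∈ W) : x * y ∈ W.nonunits := by
  obtain ⟨hxW, hxm⟩ := W.mem_nonunits_iff_exists_mem_maximalIdeal.1 hx
  refine W.mem_nonunits_iff_exists_mem_maximalIdeal.2 ⟨mul_mem hxW hy, ?_⟩
  exact Ideal.mul_mem_right (⟨y, hy⟩ : W) _ hxm

/-- `𝔪_W` absorbs `W`. -/
theorem mul_mem_nonunits_left (W : ValuationSubring L) {x y : L} (hx : x ∈ W)
    (hy : y ∈ W.nonunits) : x * y ∈ W.nonunits := by
  rw [mul_comm]
  exact mul_mem_nonunits_right W hy hx

theorem mem_of_mem_nonunits (W : ValuationSubring L) {x : L} (hx : x ∈ W.nonunits) : x ∈ W :=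
  (W.mem_nonunits_iff_exists_mem_maximalIdeal.1 hx).1

/-- The maximal ideal of the pull-back of a valuation ring by a field automorphism. -/
theorem mem_nonunits_comap_iff (W : ValuationSubring L) (σ : L ≃+* L) (x : L) :
    x ∈ (W.comap (σ : L →+* L)).nonunits ↔ σ x ∈ W.nonunits := by
  rw [ValuationSubring.mem_nonunits_iff_or, ValuationSubring.mem_nonunits_iff_or,
    ValuationSubring.mem_comap]
  simp

end Val

section Cover

variable {C F L : Type*} [CommRing C] [Field F] [Field L] [Algebra C F] [Algebra F L]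
  [Algebra C L] [IsScalarTower C F L]

/-- The auxiliary subring of `L`: elements lying in every sheet which become integral over the
chart after multiplication by a power of `w`. -/
def redSubring (C : Type*) [CommRing C] [Algebra C L] (w : C) (Sh : Set (ValuationSubring L)) :
    Subring L where
  carrier := {x | (∀ W ∈ Sh, x ∈ W) ∧ ∃ k : ℕ, IsIntegral C (algebraMap C L w ^ k * x)}
  mul_mem' := by
    rintro x y ⟨hx, j, hxj⟩ ⟨hy, k, hyk⟩
    refine ⟨fun W hW => mul_mem (hx W hW) (hy W hW), j + k, ?_⟩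
    have : algebraMap C L w ^ (j + k) * (x * y) =
        (algebraMap C L w ^ j * x) * (algebraMap C L w ^ k * y) := by ring
    rw [this]
    exact hxj.mul hyk
  one_mem' := ⟨fun W _ => one_mem W, 0, by simpa using isIntegral_one⟩
  add_mem' := by
    rintro x y ⟨hx, j, hxj⟩ ⟨hy, k, hyk⟩
    refine ⟨fun W hW => add_mem (hx W hW) (hy W hW), j + k, ?_⟩
    have : algebraMap C L w ^ (j + k) * (x + y) =
        algebraMap C L w ^ k * (algebraMap C L w ^ j * x) +
          algebraMap C L w ^ j * (algebraMap C L w ^ k * y) := by ring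
    rw [this]
    exact ((isIntegral_algebraMap.pow k).mul hxj).add ((isIntegral_algebraMap.pow j).mul hyk)
  zero_mem' := ⟨fun W _ => zero_mem W, 0, by simpa using isIntegral_zero⟩
  neg_mem' := by
    rintro x ⟨hx, j, hxj⟩
    refine ⟨fun W hW => neg_mem (hx W hW), j, ?_⟩
    rw [mul_neg]
    exact hxj.neg

theorem mem_redSubring (w : C) (Sh : Set (ValuationSubring L)) (x : L) :
    x ∈ redSubring C w Sh ↔
      (∀ W ∈ Sh, x ∈ W) ∧ ∃ k : ℕ, IsIntegral C (algebraMap C L w ^ k * x) := Iff.rfl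

/-- **Peeling.**  `c ∈ F` lies in every sheet, `w ^ k * c` lies in the chart `C`, the special
fibre of `C` is reduced with components among the sheets: then `c ∈ C`. -/
theorem mem_range_of_pow_mul_mem (w : C) (hw0 : algebraMap C F w ≠ 0)
    (Sh : Set (ValuationSubring L))
    (hwM : ∀ W ∈ Sh, algebraMap C L w ∈ W.nonunits)
    (hbase : ∀ a : C, (∀ W ∈ Sh, algebraMap C L a ∈ W.nonunits) → ∃ t : C, a = w * t)
    (k : ℕ) (c : F) (hcW : ∀ W ∈ Sh, algebraMap F L c ∈ W)
    (hc : algebraMap C F w ^ k * c ∈ (algebraMap C F).range) : c ∈ (algebraMap C F).range := by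
  induction k with
  | zero => simpa using hc
  | succ k ih =>
    obtain ⟨a, ha⟩ := hc
    have haM : ∀ W ∈ Sh, algebraMap C L a ∈ W.nonunits := by
      intro W hW
      have h1 : algebraMap C L a =
          algebraMap C L w * (algebraMap C L w ^ k * algebraMap F L c) := by
        rw [IsScalarTower.algebraMap_apply C F L a, ha, IsScalarTower.algebraMap_apply C F L w]
        simp only [map_mul, map_pow]
        ring
      rw [h1]
      exact mul_mem_nonunits_right W (hwM W hW)
        (mul_mem (pow_mem (mem_of_mem_nonunits W (hwM W hW)) k) (hcW W hW))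
    obtain ⟨t, rfl⟩ := hbase a haM
    apply ih
    refine ⟨t, ?_⟩
    apply mul_left_cancel₀ hw0
    rw [← map_mul, ha]
    ring

/-- **C3 COVER-RED.**  See the header of this file. -/
theorem coverRed [Normal F L]
    (hC : ∀ x : F, IsIntegral C x → x ∈ (algebraMap C F).range)
    (w : C) (hw0 : algebraMap C F w ≠ 0)
    (Sh : Set (ValuationSubring L))
    (hΓ : ∀ σ : L ≃ₐ[F] L, ∀ W ∈ Sh, ∃ W' ∈ Sh, ∀ x ∈ W'.nonunits, σ x ∈ W.nonunits)
    (hwM : ∀ W ∈ Sh, algebraMap C L w ∈ W.nonunits)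
    (he : ∀ W ∈ Sh, ∀ x ∈ W.nonunits, ∃ t ∈ W, x = algebraMap C L w * t)
    (hbase : ∀ a : C, (∀ W ∈ Sh, algebraMap C L a ∈ W.nonunits) → ∃ t : C, a = w * t)
    (b : L) (hb : IsIntegral C b) (hbM : ∀ W ∈ Sh, b ∈ W.nonunits) :
    ∃ t : L, IsIntegral C t ∧ b = algebraMap C L w * t := by
  have hwL : algebraMap C L w ≠ 0 := by
    rw [IsScalarTower.algebraMap_apply C F L]
    exact (_root_.map_ne_zero _).2 hw0
  have hσw : ∀ σ : L ≃ₐ[F] L, σ (algebraMap C L w) = algebraMap C L w := by
    intro σ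
    rw [IsScalarTower.algebraMap_apply C F L]
    exact σ.commutes _
  refine ⟨b / algebraMap C L w, ?_, by field_simp⟩
  refine isIntegral_of_conj_mem_subring (F := F) (redSubring C w Sh) ?_ _ ?_
  · -- `A ∩ F ⊆ C`
    rintro c ⟨hcW, k, hck⟩
    refine mem_range_of_pow_mul_mem w hw0 Sh hwM hbase k c hcW (hC _ ?_)
    have h1 : algebraMap C L w ^ k * algebraMap F L c =
        algebraMap F L (algebraMap C F w ^ k * c) := by
      rw [IsScalarTower.algebraMap_apply C F L w]
      simp only [map_mul, map_pow]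
    rw [h1] at hck
    exact (isIntegral_algebraMap_iff (algebraMap F L).injective).1 hck
  · -- the conjugates of `b / w`
    intro σ
    have hσb : σ (b / algebraMap C L w) = σ b / algebraMap C L w := by
      rw [map_div₀, hσw]
    rw [hσb]
    refine ⟨fun W hW => ?_, 1, ?_⟩
    · have h1 : σ b ∈ W.nonunits := by
        obtain ⟨W', hW', h⟩ := hΓ σ W hW
        exact h b (hbM W' hW')
      obtain ⟨t, ht, htb⟩ := he W hW _ h1
      rw [htb, mul_div_cancel_left₀ _ hwL]
      exact ht
    · rw [pow_one, mul_div_cancel₀ _ hwL]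
      exact hb.map σ

/-- `coverRed` for a `Gal(L/F)`-stable set of sheets (stability in `comap` form). -/
theorem coverRed_comap [Normal F L]
    (hC : ∀ x : F, IsIntegral C x → x ∈ (algebraMap C F).range)
    (w : C) (hw0 : algebraMap C F w ≠ 0)
    (Sh : Set (ValuationSubring L))
    (hΓ : ∀ σ : L ≃ₐ[F] L, ∀ W ∈ Sh, W.comap ((σ : L ≃+* L) : L →+* L) ∈ Sh)
    (hwM : ∀ W ∈ Sh, algebraMap C L w ∈ W.nonunits)
    (he : ∀ W ∈ Sh, ∀ x ∈ W.nonunits, ∃ t ∈ W, x = algebraMap C L w * t)
    (hbase : ∀ a : C, (∀ W ∈ Sh, algebraMap C L a ∈ W.nonunits) → ∃ t : C, a = w * t)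
    (b : L) (hb : IsIntegral C b) (hbM : ∀ W ∈ Sh, b ∈ W.nonunits) :
    ∃ t : L, IsIntegral C t ∧ b = algebraMap C L w * t :=
  coverRed hC w hw0 Sh
    (fun σ W hW => ⟨_, hΓ σ W hW, fun x hx => (mem_nonunits_comap_iff W (σ : L ≃+* L) x).1 hx⟩)
    hwM he hbase b hb hbM

/-- **C3 in the shape of `hred_mid / hred_fin / hred_inf` of `A2.H12.wallG`.**
`R` the base ring, `C` the base chart (an `R`-algebra inside `F`, integrally closed in `F`),
`B` the cover chart (`= ` integral closure of `C` in `L`, as an `R`-subalgebra of `L`),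
sheets `s ↦ Ws s` with `M s = 𝔪_{Ws s}`. -/
theorem coverRed_chart {R S : Type*} [CommRing R] [Algebra R C] [Algebra R L]
    [IsScalarTower R C L] [Normal F L]
    (hC : ∀ x : F, IsIntegral C x → x ∈ (algebraMap C F).range)
    (w : R) (hw0 : algebraMap C F (algebraMap R C w) ≠ 0)
    (Ws : S → ValuationSubring L) (M : S → AddSubgroup L)
    (hM : ∀ s x, x ∈ M s ↔ x ∈ (Ws s).nonunits)
    (hΓ : ∀ σ : L ≃ₐ[F] L, ∀ s, ∃ s', ∀ x ∈ M s', σ x ∈ M s)
    (hwM : ∀ s, algebraMap R L w ∈ M s)
    (he : ∀ s, ∀ x ∈ M s, ∃ t ∈ Ws s, x = algebraMap R L w * t)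
    (hbase : ∀ a : C, (∀ s, algebraMap C L a ∈ M s) → ∃ t : C, a = algebraMap R C w * t)
    (B : Subalgebra R L) (hB : ∀ x, x ∈ B ↔ IsIntegral C x) :
    ∀ b ∈ B, (∀ s, b ∈ M s) → ∃ t ∈ B, b = algebraMap R L w * t := by
  intro b hb hbM
  have hwRL : algebraMap R L w = algebraMap C L (algebraMap R C w) :=
    IsScalarTower.algebraMap_apply R C L w
  obtain ⟨t, ht, hbt⟩ := coverRed (F := F) hC (algebraMap R C w) hw0 (Set.range Ws)
    (by
      rintro σ _ ⟨s, rfl⟩
      obtain ⟨s', hs'⟩ := hΓ σ s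
      exact ⟨Ws s', ⟨s', rfl⟩, fun x hx => (hM s _).1 (hs' x ((hM s' x).2 hx))⟩)
    (by
      rintro _ ⟨s, rfl⟩
      rw [← hwRL]
      exact (hM s _).1 (hwM s))
    (by
      rintro _ ⟨s, rfl⟩ x hx
      rw [← hwRL]
      exact he s x ((hM s x).2 hx))
    (fun a ha => hbase a (fun s => (hM s _).2 (ha _ ⟨s, rfl⟩)))
    b ((hB b).1 hb) (by
      rintro _ ⟨s, rfl⟩
      exact (hM s b).1 (hbM s))
  exact ⟨t, (hB t).2 ht, by rw [hwRL]; exact hbt⟩

end Cover

end Fermat.Agent.A2.H652

end
-- ===== PACK-END A2/H652/CoverRed.lean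

-- ===== PACK-BEGIN A2/H313/HensVal.lean
section





/-!
# A2 / ALG (c1), part 2: valuation bookkeeping (helper313)

Setting: `R` a discrete valuation ring with uniformiser `w`, `E = Frac R`, `L / E` a field,
`V` a valuation subring of `L` containing `R` in which `w` is a non-unit generating the
non-units (`e = 1`).
-/

set_option autoImplicit false
set_option linter.unusedSectionVars false

namespace Fermat.Agent.A2.H313

open Polynomial IsLocalRing

section Setup

variable {R : Type*} (E : Type*) {L : Type*} [CommRing R] [IsDomain R]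
  [IsDiscreteValuationRing R]
  [Field E] [Algebra R E] [IsFractionRing R E]
  [Field L] [Algebra E L] [Algebra R L] [IsScalarTower R E L]

include E in
theorem algebraMap_RL_injective : Function.Injective (algebraMap R L) := by
  rw [IsScalarTower.algebraMap_eq R E L]
  exact (algebraMap E L).injective.comp (IsFractionRing.injective R E)

/-- The hypotheses on `V`: `w` is a uniformiser of `R`, `V` contains `R`, `w` is a non-unit of
`V`, and every non-unit of `V` is divisible by `w` in `V`. -/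
structure UnifIn (w : R) (V : ValuationSubring L) : Prop where
  irr : Irreducible w
  mem : ∀ r : R, algebraMap R L r ∈ V
  nonunit : algebraMap R L w ∈ V.nonunits
  gen : ∀ x ∈ V.nonunits, ∃ y ∈ V, x = algebraMap R L w * y

variable {E} {w : R} {V : ValuationSubring L}

namespace UnifIn

variable (h : UnifIn w V)
include h

theorem val_w_lt_one : V.valuation (algebraMap R L w) < 1 :=
  (ValuationSubring.mem_nonunits_iff V).1 h.nonunit

theorem val_le_one (r : R) : V.valuation (algebraMap R L r) ≤ 1 :=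
  (V.valuation_le_one_iff _).2 (h.mem r)

theorem val_unit {r : R} (hr : IsUnit r) : V.valuation (algebraMap R L r) = 1 := by
  obtain ⟨u, rfl⟩ := hr
  refine le_antisymm (h.val_le_one _) ?_
  have h1 : V.valuation (algebraMap R L (u : R)) * V.valuation (algebraMap R L ((u⁻¹ : Rˣ) : R))
      = 1 := by
    rw [← map_mul, ← map_mul, Units.mul_inv, map_one, map_one]
  calc (1 : V.ValueGroup) = V.valuation (algebraMap R L (u : R)) *
        V.valuation (algebraMap R L ((u⁻¹ : Rˣ) : R)) := h1.symm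
    _ ≤ V.valuation (algebraMap R L (u : R)) * 1 := by
        gcongr
        exact h.val_le_one _
    _ = _ := mul_one _

theorem val_le_w_of_lt_one {x : L} (hx : V.valuation x < 1) :
    V.valuation x ≤ V.valuation (algebraMap R L w) := by
  obtain ⟨y, hy, rfl⟩ := h.gen x ((ValuationSubring.mem_nonunits_iff V).2 hx)
  rw [map_mul]
  calc V.valuation (algebraMap R L w) * V.valuation y
      ≤ V.valuation (algebraMap R L w) * 1 := by
        gcongr
        exact (V.valuation_le_one_iff _).2 hy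
    _ = _ := mul_one _

theorem val_le_w_of_mem_maximalIdeal {r : R} (hr : r ∈ maximalIdeal R) :
    V.valuation (algebraMap R L r) ≤ V.valuation (algebraMap R L w) := by
  rw [h.irr.maximalIdeal_eq, Ideal.mem_span_singleton] at hr
  obtain ⟨c, rfl⟩ := hr
  rw [map_mul, map_mul]
  calc V.valuation (algebraMap R L w) * V.valuation (algebraMap R L c)
      ≤ V.valuation (algebraMap R L w) * 1 := by
        gcongr
        exact h.val_le_one _
    _ = _ := mul_one _

include E in
theorem w_ne_zero : algebraMap R L w ≠ 0 := fun h0 =>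
  h.irr.ne_zero ((map_eq_zero_iff _ (algebraMap_RL_injective E)).1 h0)

include E in
theorem val_w_pos : 0 < V.valuation (algebraMap R L w) :=
  (Valuation.pos_iff _).2 (h.w_ne_zero (E := E))

/-- Valuation of a nonzero element of `R`. -/
theorem val_eq_pow {r : R} (hr : r ≠ 0) :
    ∃ (n : ℕ) (u : Rˣ), r = u * w ^ n ∧
      V.valuation (algebraMap R L r) = V.valuation (algebraMap R L w) ^ n := by
  obtain ⟨n, u, rfl⟩ := IsDiscreteValuationRing.eq_unit_mul_pow_irreducible hr h.irr
  refine ⟨n, u, rfl, ?_⟩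
  rw [map_mul, map_mul, h.val_unit u.isUnit, one_mul, map_pow, map_pow]

include E in
/-- `R ∩ wⁿ V = wⁿ R`. -/
theorem pow_dvd_of_val_le {r : R} {n : ℕ}
    (hr : V.valuation (algebraMap R L r) ≤ V.valuation (algebraMap R L w) ^ n) : w ^ n ∣ r := by
  rcases eq_or_ne r 0 with rfl | hr0
  · exact dvd_zero _
  obtain ⟨k, u, rfl, hk⟩ := h.val_eq_pow hr0
  rw [hk, pow_le_pow_iff_right_of_lt_one₀ (h.val_w_pos (E := E)) h.val_w_lt_one] at hr
  exact Dvd.dvd.mul_left (pow_dvd_pow w hr) _

include E in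
theorem val_pow_injective {m n : ℕ}
    (hmn : V.valuation (algebraMap R L w) ^ m = V.valuation (algebraMap R L w) ^ n) : m = n :=
  (pow_right_strictAnti₀ (h.val_w_pos (E := E)) h.val_w_lt_one).injective hmn

/-- Elements of `R[X]` evaluated at elements of `V` lie in `V`. -/
theorem aeval_mem (p : R[X]) {a : L} (ha : a ∈ V) : aeval a p ∈ V := by
  induction p using Polynomial.induction_on' with
  | add p q hp hq =>
    rw [map_add]
    exact V.add_mem _ _ hp hq
  | monomial n r =>
    rw [aeval_monomial]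
    exact V.mul_mem _ _ (h.mem r) (pow_mem ha n)

end UnifIn

end Setup

end Fermat.Agent.A2.H313

end
-- ===== PACK-END A2/H313/HensVal.lean

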