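import Mathlib
import Fermat.Prelude.Thm_ModularForm_sturm_bound_Gamma0
import Fermat.Statements.S21
import Fermat.Prelude.Def_CuspForm_IntegralStructure
import Mathlib.NumberTheory.ModularForms.NormTrace
import Mathlib.NumberTheory.ModularForms.EisensteinSeries.QExpansion
import Mathlib.NumberTheory.ModularForms.LevelOne.DimensionFormula
import Fermat.Prelude.Def_ModularForm_HeckeOperator
import Fermat.Prelude.Thm_CongruenceSubgroup_one_mem_strictPeriods_Gamma0
import Fermat.Prelude.Def_CuspForm_HeckeAlgebra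
import Fermat.Prelude.Thm_ModularFormClass_qCoeff_heckeT
import Fermat.Prelude.Thm_ModularFormClass_qCoeff_heckeU
import Mathlib.NumberTheory.ModularForms.LFunction
import Fermat.Prelude.Def_CuspForm_Newforms
import Mathlib.Algebra.Polynomial.Degree.Lemmas
import Mathlib.Algebra.Polynomial.Coeff
import Mathlib.Analysis.Complex.Basic
import Mathlib.Tactic.LinearCombination
import Mathlib.Tactic.Ring

-- ===== PACK-BEGIN S22/H262/WeightNonpos.lean
section



set_option autoImplicit false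

/-! Function-level vanishing in weight `≤ 0` (proof by helper442). -/

namespace Fermat.Agent.S22.H262

open UpperHalfPlane ModularForm CongruenceSubgroup Matrix.SpecialLinearGroup
open scoped MatrixGroups Manifold

/-- Function-level vanishing in weight `≤ 0`: a holomorphic function on `ℍ`, invariant under
`Γ₀(N)` for the weight `k ≤ 0` slash action, and such that every `SL(2,ℤ)`-translate is zero at
`i∞`, vanishes identically. -/
theorem eq_zero_of_weight_nonpos (N : ℕ) [NeZero N] {k : ℤ} (hk : k ≤ 0) (G : ℍ → ℂ)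
    (hol : MDiff G)
    (inv : ∀ γ ∈ (Gamma0 N : Subgroup (GL (Fin 2) ℝ)), G ∣[k] γ = G)
    (cusp : ∀ g : SL(2, ℤ), IsZeroAtImInfty (G ∣[k] g)) : G = 0 := by
  have hG0 : IsZeroAtImInfty G := by
    have := cusp 1
    simpa using this
  let F : ModularForm (Gamma0 N : Subgroup (GL (Fin 2) ℝ)) k :=
    { toFun := G
      slash_action_eq' := inv
      holo' := hol
      bdd_at_cusps' := fun {c} hc => by
        have hc' : IsCusp c 𝒮ℒ := (Subgroup.IsArithmetic.isCusp_iff_isCusp_SL2Z _).mp hc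
        rw [OnePoint.isBoundedAt_iff_forall_SL2Z hc']
        intro γ _
        exact (cusp γ).isBoundedAtImInfty }
  have hF : F = 0 := by
    apply ModularForm.sturm_bound_Gamma0 N F
    intro n hn
    have h0 : (k * ((Gamma0 N).index : ℤ)).toNat = 0 := by
      apply Int.toNat_of_nonpos
      exact mul_nonpos_of_nonpos_of_nonneg hk (by positivity)
    rw [h0] at hn
    have hn0 : n = 0 := by omega
    subst hn0
    have h1 : (1 : ℝ) ∈ (Gamma0 N : Subgroup (GL (Fin 2) ℝ)).strictPeriods := by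
      simp
    have hper : Function.Periodic ((F : ℍ → ℂ) ∘ UpperHalfPlane.ofComplex) 1 := by
      have := SlashInvariantFormClass.periodic_comp_ofComplex F h1
      simpa using this
    have han : AnalyticAt ℂ (cuspFunction 1 (F : ℍ → ℂ)) 0 :=
      ModularFormClass.analyticAt_cuspFunction_zero F one_pos h1
    rw [UpperHalfPlane.qExpansion_coeff_zero one_pos han hper]
    exact hG0.valueAtInfty_eq_zero
  have : (F : ℍ → ℂ) = 0 := by rw [hF]; rfl
  exact this

end Fermat.Agent.S22.H262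

end
-- ===== PACK-END S22/H262/WeightNonpos.lean

-- ===== PACK-BEGIN S20/H270/PingPong.lean
section


/-!
# `PSL(2,ℤ) = C₂ * C₃`, as a universal property of `SL(2,ℤ)`

Main result: `exists_monoidHom_of_sq_of_cube` — for every group `A` and `x y : A` with
`x ^ 2 = 1`, `y ^ 3 = 1` there is a homomorphism `Ψ : SL(2,ℤ) →* A` with `Ψ S = x`,
`Ψ (S * T) = y`.  Proof: ping-pong for the action on the upper half plane.
-/

set_option autoImplicit false

open scoped MatrixGroups UpperHalfPlane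
open ModularGroup

namespace Fermat.Agent.S20.H270

/-- The element `U = S * T` (of order `3` in `PSL(2,ℤ)`). -/
def Umat : SL(2, ℤ) := S * T

theorem S_sq_eq_neg_one : (S : SL(2, ℤ)) ^ 2 = -1 := by decide

theorem Umat_cube_eq_neg_one : Umat ^ 3 = -1 := by decide

theorem T_eq_S_inv_mul_Umat : (T : SL(2, ℤ)) = S⁻¹ * Umat := by
  simp [Umat]

/-- The homomorphism from a cyclic group of order `n` determined by `x` with `x ^ n = 1`. -/
noncomputable def cycHom {A : Type*} [Group A] (n : ℕ) (x : A) (hx : x ^ n = 1) :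
    Multiplicative (ZMod n) →* A :=
  AddMonoidHom.toMultiplicativeLeft
    (ZMod.lift n ⟨zmultiplesHom (Additive A) (Additive.ofMul x), by
      show ((n : ℤ) • Additive.ofMul x : Additive A) = 0
      rw [natCast_zsmul, ← ofMul_pow, hx]; rfl⟩)

theorem cycHom_ofAdd_intCast {A : Type*} [Group A] (n : ℕ) (x : A) (hx : x ^ n = 1) (k : ℤ) :
    cycHom n x hx (Multiplicative.ofAdd (k : ZMod n)) = x ^ k := by
  simp [cycHom]

theorem cycHom_ofAdd_one {A : Type*} [Group A] (n : ℕ) (x : A) (hx : x ^ n = 1) :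
    cycHom n x hx (Multiplicative.ofAdd (1 : ZMod n)) = x := by
  have := cycHom_ofAdd_intCast n x hx 1
  simpa using this


/-! ### Real parts under `S` and `U = S * T` -/

open UpperHalfPlane

theorem re_S_smul_eq (z : ℍ) : (S • z).re = - z.re / Complex.normSq (z : ℂ) := by
  rw [modular_S_smul]
  show ((-(z : ℂ))⁻¹).re = _
  rw [Complex.inv_re]
  simp [Complex.normSq_neg]

theorem re_S_smul_pos {z : ℍ} (h : z.re < 0) : 0 < (S • z).re := by
  rw [re_S_smul_eq]
  have hz : 0 < Complex.normSq (z : ℂ) := Complex.normSq_pos.mpr z.ne_zero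
  exact div_pos (by linarith) hz

theorem re_S_smul_neg {z : ℍ} (h : 0 < z.re) : (S • z).re < 0 := by
  rw [re_S_smul_eq]
  have hz : 0 < Complex.normSq (z : ℂ) := Complex.normSq_pos.mpr z.ne_zero
  exact div_neg_of_neg_of_pos (by linarith) hz

/-- If `re z > -1` then `re (U z) < 0`. -/
theorem re_Umat_smul_neg {z : ℍ} (h : -1 < z.re) : (Umat • z).re < 0 := by
  rw [Umat, mul_smul]
  apply re_S_smul_neg
  rw [re_T_smul]; linarith

/-- If `re z > 0` then `re (U z) > -1`. -/
theorem neg_one_lt_re_Umat_smul {z : ℍ} (h : 0 < z.re) : -1 < (Umat • z).re := by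
  rw [Umat, mul_smul, re_S_smul_eq]
  have hz : 0 < Complex.normSq ((T • z : ℍ) : ℂ) := Complex.normSq_pos.mpr (T • z).ne_zero
  rw [lt_div_iff₀ hz]
  have h1 : (T • z).re = z.re + 1 := re_T_smul z
  have h2 : Complex.normSq ((T • z : ℍ) : ℂ) = (T • z).re ^ 2 + (T • z).im ^ 2 := by
    rw [Complex.normSq_apply]; simp only [UpperHalfPlane.coe_re, UpperHalfPlane.coe_im]; ring
  rw [h2, h1]
  have him : 0 < (T • z).im := (T • z).im_pos
  nlinarith [sq_nonneg ((T • z).im)]

/-! ### The ping-pong -/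

/-- The action of `SL(2,ℤ)` on `ℍ` as a homomorphism to permutations. -/
noncomputable def rhoH : SL(2, ℤ) →* Equiv.Perm ℍ := MulAction.toPermHom SL(2, ℤ) ℍ

@[simp] theorem rhoH_apply (g : SL(2, ℤ)) (z : ℍ) : rhoH g z = g • z := rfl

theorem rhoH_neg_one : rhoH (-1) = 1 := by
  refine Equiv.ext fun z => ?_
  show ((-1 : SL(2, ℤ)) • z : ℍ) = z
  rw [SL_neg_smul, one_smul]

theorem rhoH_S_sq : rhoH S ^ 2 = 1 := by
  rw [← map_pow, S_sq_eq_neg_one, rhoH_neg_one]

theorem rhoH_Umat_cube : rhoH Umat ^ 3 = 1 := by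
  rw [← map_pow, Umat_cube_eq_neg_one, rhoH_neg_one]

/-- Orders of the two cyclic factors: `false ↦ 2`, `true ↦ 3`. -/
@[reducible] def cycOrd : Bool → ℕ
  | false => 2
  | true => 3

/-- The two cyclic factors. -/
abbrev Cyc (b : Bool) : Type := Multiplicative (ZMod (cycOrd b))

/-- The family of homomorphisms `C₂ → A`, `C₃ → A` attached to `x`, `y`. -/
noncomputable def famHom {A : Type*} [Group A] (x y : A) (hx : x ^ 2 = 1) (hy : y ^ 3 = 1) :
    ∀ b : Bool, Cyc b →* A
  | false => cycHom 2 x hx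
  | true => cycHom 3 y hy

/-- The ping-pong sets: right and left half planes. -/
def ppSet : Bool → Set ℍ
  | false => {z | 0 < z.re}
  | true => {z | z.re < 0}

theorem cyc_two_cases (h : Multiplicative (ZMod 2)) (hne : h ≠ 1) :
    h = Multiplicative.ofAdd (1 : ZMod 2) := by
  revert h
  decide

theorem cyc_three_cases (h : Multiplicative (ZMod 3)) (hne : h ≠ 1) :
    h = Multiplicative.ofAdd (1 : ZMod 3) ∨ h = Multiplicative.ofAdd (1 : ZMod 3) ^ 2 := by
  revert h
  decide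


/-- The family of homomorphisms `C₂, C₃ → Perm ℍ` given by `S` and `U`. -/
noncomputable def famH : ∀ b : Bool, Cyc b →* Equiv.Perm ℍ :=
  famHom (rhoH S) (rhoH Umat) rhoH_S_sq rhoH_Umat_cube

theorem famH_false_gen : famH false (Multiplicative.ofAdd (1 : ZMod 2)) = rhoH S :=
  cycHom_ofAdd_one 2 (rhoH S) rhoH_S_sq

theorem famH_true_gen : famH true (Multiplicative.ofAdd (1 : ZMod 3)) = rhoH Umat :=
  cycHom_ofAdd_one 3 (rhoH Umat) rhoH_Umat_cube

theorem ppSet_S {z : ℍ} (hz : z ∈ ppSet true) : rhoH S z ∈ ppSet false :=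
  re_S_smul_pos hz

theorem ppSet_U {z : ℍ} (hz : z ∈ ppSet false) : rhoH Umat z ∈ ppSet true :=
  re_Umat_smul_neg (by have : 0 < z.re := hz; linarith)

theorem ppSet_U_sq {z : ℍ} (hz : z ∈ ppSet false) : (rhoH Umat ^ 2) z ∈ ppSet true := by
  rw [pow_two, Equiv.Perm.mul_apply]
  exact re_Umat_smul_neg (neg_one_lt_re_Umat_smul hz)

theorem lift_famH_injective : Function.Injective (Monoid.CoprodI.lift famH) := by
  refine Monoid.CoprodI.lift_injective_of_ping_pong famH (Or.inr ⟨true, ?_⟩) ppSet ?_ ?_ ?_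
  · show (3 : Cardinal) ≤ Cardinal.mk (Multiplicative (ZMod 3))
    rw [Cardinal.mk_fintype]
    have h3 : Fintype.card (Multiplicative (ZMod 3)) = 3 := by
      rw [Fintype.card_multiplicative]; exact ZMod.card 3
    rw [h3]; norm_num
  · intro b
    cases b
    · exact ⟨⟨⟨1, 1⟩, by simp⟩, by show (0 : ℝ) < 1; norm_num⟩
    · exact ⟨⟨⟨-1, 1⟩, by simp⟩, by show (-1 : ℝ) < 0; norm_num⟩
  · intro i j hij
    have key : Disjoint (ppSet false) (ppSet true) := by
      rw [Set.disjoint_left]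
      intro z (h1 : 0 < z.re) (h2 : z.re < 0)
      linarith
    cases i <;> cases j
    · exact absurd rfl hij
    · exact key
    · exact key.symm
    · exact absurd rfl hij
  · intro i j hij h hne
    cases i <;> cases j
    · exact absurd rfl hij
    · rw [cyc_two_cases h hne, famH_false_gen, Set.smul_set_subset_iff]
      intro z hz
      exact ppSet_S hz
    · rcases cyc_three_cases h hne with rfl | rfl
      · rw [famH_true_gen, Set.smul_set_subset_iff]
        intro z hz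
        exact ppSet_U hz
      · rw [map_pow, famH_true_gen, Set.smul_set_subset_iff]
        intro z hz
        exact ppSet_U_sq hz
    · exact absurd rfl hij


theorem cycHom_mem_range {G A : Type*} [Group G] [Group A] (φ : G →* A) (n : ℕ) (g : G)
    (hx : φ g ^ n = 1) (h : Multiplicative (ZMod n)) : cycHom n (φ g) hx h ∈ φ.range := by
  obtain ⟨k, hk⟩ := ZMod.intCast_surjective (Multiplicative.toAdd h)
  have : h = Multiplicative.ofAdd (k : ZMod n) := by rw [hk]; rfl
  rw [this, cycHom_ofAdd_intCast, ← map_zpow]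
  exact ⟨g ^ k, rfl⟩

theorem famH_mem_range (b : Bool) (h : Cyc b) : famH b h ∈ rhoH.range := by
  cases b
  · exact cycHom_mem_range rhoH 2 S rhoH_S_sq h
  · exact cycHom_mem_range rhoH 3 Umat rhoH_Umat_cube h

theorem range_lift_famH : (Monoid.CoprodI.lift famH).range = rhoH.range := by
  apply le_antisymm
  · rw [Monoid.CoprodI.range_eq_iSup]
    refine iSup_le fun b => ?_
    rintro _ ⟨h, rfl⟩
    exact famH_mem_range b h
  · rw [MonoidHom.range_eq_map, ← SpecialLinearGroup.SL2Z_generators, MonoidHom.map_closure,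
      Subgroup.closure_le]
    have hS : rhoH S ∈ (Monoid.CoprodI.lift famH).range :=
      ⟨Monoid.CoprodI.of (i := false) (Multiplicative.ofAdd (1 : ZMod 2)), by
        rw [Monoid.CoprodI.lift_of]; exact famH_false_gen⟩
    have hU : rhoH Umat ∈ (Monoid.CoprodI.lift famH).range :=
      ⟨Monoid.CoprodI.of (i := true) (Multiplicative.ofAdd (1 : ZMod 3)), by
        rw [Monoid.CoprodI.lift_of]; exact famH_true_gen⟩
    rintro _ ⟨g, hg, rfl⟩
    rcases hg with rfl | hg
    · exact hS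
    · rw [Set.mem_singleton_iff] at hg
      subst hg
      rw [T_eq_S_inv_mul_Umat, map_mul, map_inv]
      exact mul_mem (inv_mem hS) hU

/-- **Universal property of `PSL(2,ℤ) = C₂ * C₃`**, stated on `SL(2,ℤ)`: for `x y` in a group
with `x ^ 2 = 1` and `y ^ 3 = 1` there is a homomorphism `SL(2,ℤ) → A` with `S ↦ x`,
`S * T ↦ y`. -/
theorem exists_monoidHom_of_sq_of_cube {A : Type*} [Group A] (x y : A) (hx : x ^ 2 = 1)
    (hy : y ^ 3 = 1) : ∃ Ψ : SL(2, ℤ) →* A, Ψ S = x ∧ Ψ (S * T) = y := by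
  classical
  set π := Monoid.CoprodI.lift famH with hπdef
  have hπ : Function.Injective π := lift_famH_injective
  let e : Monoid.CoprodI Cyc ≃* π.range := MonoidHom.ofInjective hπ
  let Φ : Monoid.CoprodI Cyc →* A := Monoid.CoprodI.lift (famHom x y hx hy)
  have hr : ∀ g, rhoH g ∈ π.range := fun g => by
    rw [hπdef, range_lift_famH]; exact ⟨g, rfl⟩
  let ρ' : SL(2, ℤ) →* π.range := rhoH.codRestrict π.range hr
  have key : ∀ (g : SL(2, ℤ)) (w : Monoid.CoprodI Cyc), π w = rhoH g →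
      Φ (e.symm (ρ' g)) = Φ w := by
    intro g w hw
    congr 1
    rw [MulEquiv.symm_apply_eq]
    apply Subtype.ext
    rw [MonoidHom.ofInjective_apply]
    exact hw.symm
  refine ⟨Φ.comp (e.symm.toMonoidHom.comp ρ'), ?_, ?_⟩
  · show Φ (e.symm (ρ' S)) = x
    rw [key S (Monoid.CoprodI.of (i := false) (Multiplicative.ofAdd (1 : ZMod 2)))
      (by rw [hπdef, Monoid.CoprodI.lift_of]; exact famH_false_gen)]
    rw [Monoid.CoprodI.lift_of]
    exact cycHom_ofAdd_one 2 x hx
  · show Φ (e.symm (ρ' (S * T))) = y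
    rw [key (S * T) (Monoid.CoprodI.of (i := true) (Multiplicative.ofAdd (1 : ZMod 3)))
      (by rw [hπdef, Monoid.CoprodI.lift_of]; exact famH_true_gen)]
    rw [Monoid.CoprodI.lift_of]
    exact cycHom_ofAdd_one 3 y hy

end Fermat.Agent.S20.H270

end
-- ===== PACK-END S20/H270/PingPong.lean

-- ===== PACK-BEGIN S21/ConjPartner.lean
section


/-!
# S21, interface theorem E1: the complex-conjugation partner

For a weight-2 cusp form `f` on `Γ₀(N)` with equivariant primitive `F`, the function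
`g z = conj (f (-conj z))` is again a weight-2 cusp form on `Γ₀(N)`, with equivariant primitive
`G z = - conj (F (-conj z))`, and the periods satisfy
`G (γ i) - G i = - conj (F ((jγj) i) - F i)`.
-/

set_option autoImplicit false

open ModularCurve ModularCurve.Period UpperHalfPlane CongruenceSubgroup Filter Topology
open scoped MatrixGroups ComplexConjugate ModularForm

namespace Fermat.Agent.S21

namespace ConjPartner

/-- `J γ = (jγj) J` in `GL(2, ℝ)`. -/
lemma J_mul_mapGL (γ : SL(2, ℤ)) :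
    J * Matrix.SpecialLinearGroup.mapGL ℝ γ
      = Matrix.SpecialLinearGroup.mapGL ℝ (jConjSL γ) * J := by
  ext i j
  fin_cases i <;> fin_cases j <;>
    simp [Matrix.mul_apply, Fin.sum_univ_two, jConjMat]

lemma J_inv_eq : (J : GL (Fin 2) ℝ)⁻¹ = J := by
  rw [inv_eq_iff_eq_inv, eq_inv_iff_mul_eq_one, ← sq, J_sq]

lemma J_mul_J : (J : GL (Fin 2) ℝ) * J = 1 := by
  rw [← sq, J_sq]

/-- `σ (γ z) = (jγj) (σ z)` for `σ z = -conj z`. -/
lemma J_smul_smul (γ : SL(2, ℤ)) (z : ℍ) : J • (γ • z) = jConjSL γ • (J • z) := by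
  show J • (Matrix.SpecialLinearGroup.mapGL ℝ γ • z)
    = Matrix.SpecialLinearGroup.mapGL ℝ (jConjSL γ) • (J • z)
  rw [← mul_smul, ← mul_smul, J_mul_mapGL]

lemma J_smul_I : J • UpperHalfPlane.I = UpperHalfPlane.I := by
  ext
  rw [coe_J_smul]
  simp

lemma im_J_smul (z : ℍ) : (J • z).im = z.im := by
  show ((J • z : ℍ) : ℂ).im = (z : ℂ).im
  rw [coe_J_smul]
  simp

lemma tendsto_J_smul_atImInfty : Tendsto (fun z : ℍ => J • z) atImInfty atImInfty := by
  rw [atImInfty, tendsto_comap_iff]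
  have : (UpperHalfPlane.im ∘ fun z : ℍ => J • z) = UpperHalfPlane.im := by
    funext z; exact im_J_smul z
  rw [this]
  exact tendsto_comap

open ConjAct Pointwise in
/-- `J` normalises `Γ₀(N)`. -/
lemma conjAct_J_Gamma0 (N : ℕ) :
    toConjAct (J : GL (Fin 2) ℝ)⁻¹ • ((Gamma0 N : Subgroup SL(2, ℤ)) : Subgroup (GL (Fin 2) ℝ))
      = ((Gamma0 N : Subgroup SL(2, ℤ)) : Subgroup (GL (Fin 2) ℝ)) := by
  ext g
  rw [Subgroup.mem_pointwise_smul_iff_inv_smul_mem, map_inv, inv_inv, ConjAct.toConjAct_smul,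
    J_inv_eq]
  constructor
  · rintro ⟨γ, hγ, h⟩
    refine ⟨jConjSL γ, jConjSL_mem_Gamma0 hγ, ?_⟩
    have : g = J * Matrix.SpecialLinearGroup.mapGL ℝ γ * J := by
      rw [h, mul_assoc, mul_assoc, J_mul_J, mul_one, ← mul_assoc, J_mul_J, one_mul]
    rw [this, J_mul_mapGL, mul_assoc, J_mul_J, mul_one]
  · rintro ⟨γ, hγ, rfl⟩
    refine ⟨jConjSL γ, jConjSL_mem_Gamma0 hγ, ?_⟩
    rw [J_mul_mapGL, mul_assoc, J_mul_J, mul_one]

/-- The cusp form `z ↦ conj (f (-conj z))`. -/
noncomputable def conjForm (N : ℕ) (f : CuspForm (Gamma0 N) 2) : CuspForm (Gamma0 N) 2 where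
  toFun := ⇑f ∣[(2 : ℤ)] J
  slash_action_eq' γ hγ :=
    (CuspForm.translate f J).slash_action_eq' γ ((conjAct_J_Gamma0 N).symm ▸ hγ)
  holo' := (CuspForm.translate f J).holo'
  zero_at_cusps' hc := (CuspForm.translate f J).zero_at_cusps' ((conjAct_J_Gamma0 N).symm ▸ hc)

lemma conjForm_apply (N : ℕ) (f : CuspForm (Gamma0 N) 2) (z : ℍ) :
    conjForm N f z = conj (f (J • z)) := by
  show (⇑f ∣[(2 : ℤ)] J) z = _
  simp [ModularForm.slash_def]

/-- The derivative of `w ↦ - conj (F (-conj w))`. -/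
lemma hasDerivAt_conjPrimitive {F : ℍ → ℂ} {τ : ℍ} {a : ℂ}
    (h : HasDerivAt (F ∘ ofComplex) a ↑(J • τ)) :
    HasDerivAt ((fun z : ℍ => - conj (F (J • z))) ∘ ofComplex) (conj a) ↑τ := by
  have hJ : (↑(J • τ) : ℂ) = -conj (τ : ℂ) := coe_J_smul τ
  have h' : HasDerivAt (F ∘ ofComplex) a (-(conj (τ : ℂ))) := by rw [← hJ]; exact h
  have h1 : HasDerivAt ((F ∘ ofComplex) ∘ Neg.neg) (a * (-1)) (conj (τ : ℂ)) :=
    HasDerivAt.comp (conj (τ : ℂ)) h' (hasDerivAt_neg (conj (τ : ℂ)))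
  have h2 : HasDerivAt (conj ∘ ((F ∘ ofComplex) ∘ Neg.neg) ∘ conj) (conj (a * (-1))) (τ : ℂ) := by
    rw [hasDerivAt_conj_conj_iff, Complex.conj_conj]
    exact h1
  have h3 := h2.neg
  have h4 : HasDerivAt (-(conj ∘ ((F ∘ ofComplex) ∘ Neg.neg) ∘ conj)) (conj a) (τ : ℂ) :=
    h3.congr_deriv (by simp)
  refine h4.congr_of_eventuallyEq ?_
  have hopen : {w : ℂ | 0 < w.im} ∈ 𝓝 (τ : ℂ) :=
    isOpen_upperHalfPlaneSet.mem_nhds τ.im_pos
  filter_upwards [hopen] with w hw
  simp only [Function.comp_apply, Pi.neg_apply]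
  rw [J_smul, ofComplex_apply_of_im_pos hw]

/-- `G z = - conj (F (-conj z))` is an equivariant primitive of `conjForm N f`. -/
theorem hasEquivariantPrimitive_conj (N : ℕ) (f : CuspForm (Gamma0 N) 2) {F : ℍ → ℂ}
    (hF : HasEquivariantPrimitive N f F) :
    HasEquivariantPrimitive N (conjForm N f) (fun z : ℍ => - conj (F (J • z))) := by
  obtain ⟨hderiv, hlim, hequiv, hcusp⟩ := hF
  refine ⟨?_, ?_, ?_, ?_⟩
  · intro τ
    rw [conjForm_apply]
    exact hasDerivAt_conjPrimitive (hderiv (J • τ))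
  · have h1 : Tendsto (fun z : ℍ => F (J • z)) atImInfty (𝓝 0) :=
      hlim.comp tendsto_J_smul_atImInfty
    have h2 : Tendsto (fun z : ℍ => conj (F (J • z))) atImInfty (𝓝 (conj (0 : ℂ))) :=
      (Complex.continuous_conj.tendsto 0).comp h1
    have h3 := h2.neg
    simpa using h3
  · intro γ
    obtain ⟨c, hc⟩ := hequiv (jConjGamma0 N γ)
    refine ⟨-conj c, fun z => ?_⟩
    have := hc (J • z)
    rw [jConjGamma0_coe] at this
    show -conj (F (J • ((γ : SL(2, ℤ)) • z))) - -conj (F (J • z)) = -conj c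
    rw [J_smul_smul, ← this, map_sub]
    ring
  · intro δ
    obtain ⟨L, hL⟩ := hcusp (jConjSL δ)
    refine ⟨-conj L, ?_⟩
    have h1 : Tendsto (fun w : ℍ => F (jConjSL δ • (J • w))) atImInfty (𝓝 L) :=
      hL.comp tendsto_J_smul_atImInfty
    have h2 : Tendsto (fun w : ℍ => conj (F (jConjSL δ • (J • w)))) atImInfty (𝓝 (conj L)) :=
      (Complex.continuous_conj.tendsto L).comp h1
    have h3 := h2.neg
    refine h3.congr fun w => ?_
    show -conj (F (jConjSL δ • (J • w))) = -conj (F (J • (δ • w)))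
    rw [J_smul_smul]

end ConjPartner

open ConjPartner in
/-- **E1** (complex conjugation): for every cusp form `f` with primitive `F` there is a cusp form
`g` (namely `z ↦ conj (f (-conj z))`) with primitive `G` such that
`G(γ i) - G(i) = - conj (F((jγj) i) - F(i))`. -/
theorem exists_conj_partner (N : ℕ) [NeZero N] (f : CuspForm (Gamma0 N) 2) {F : ℍ → ℂ}
    (hF : HasEquivariantPrimitive N f F) :
    ∃ (g : CuspForm (Gamma0 N) 2) (G : ℍ → ℂ), HasEquivariantPrimitive N g G ∧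
      ∀ γ : Gamma0 N,
        G ((γ : SL(2, ℤ)) • UpperHalfPlane.I) - G UpperHalfPlane.I =
          - conj (F (((jConjGamma0 N γ : Gamma0 N) : SL(2, ℤ)) • UpperHalfPlane.I)
                    - F UpperHalfPlane.I) := by
  refine ⟨conjForm N f, fun z : ℍ => - conj (F (J • z)),
    hasEquivariantPrimitive_conj N f hF, fun γ => ?_⟩
  show -conj (F (J • ((γ : SL(2, ℤ)) • UpperHalfPlane.I))) - -conj (F (J • UpperHalfPlane.I)) = _
  rw [J_smul_smul, J_smul_I, jConjGamma0_coe, map_sub]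
  ring

end Fermat.Agent.S21

end
-- ===== PACK-END S21/ConjPartner.lean

-- ===== PACK-BEGIN S23/LevelOne.lean
section



/-!
# S23 helper: structure of level-one modular forms

* `qE4`, `qE6` : integral `q`-expansions of `E₄`, `E₆`.
* `levelOne_qExpansion_mem_span` : the `q`-expansion of every level-one modular form of
  weight `k` is a `ℂ`-linear combination of the integral monomials `qE4 ^ a * qE6 ^ b`
  with `4 a + 6 b = k`.
* `exists_levelOne_of_mem_span` : conversely every such combination is the `q`-expansion of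
  a level-one form of weight `k`.
* `levelOne_transport` : transport of level-one forms along an arbitrary additive map
  `ρ : ℂ →+ ℂ` applied coefficientwise.
* `levelOne_bounded_denominators` : a level-one form with rational `q`-expansion has
  bounded denominators.
-/

set_option autoImplicit false

namespace Fermat.Agent.S23.LevelOne

open ModularForm ModularFormClass EisensteinSeries UpperHalfPlane MatrixGroups

noncomputable section

/-- The integral `q`-expansion of `E₄`. -/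
def qE4 : PowerSeries ℤ :=
  PowerSeries.mk fun m => if m = 0 then 1 else 240 * (ArithmeticFunction.sigma 3 m : ℤ)

/-- The integral `q`-expansion of `E₆`. -/
def qE6 : PowerSeries ℤ :=
  PowerSeries.mk fun m => if m = 0 then 1 else -504 * (ArithmeticFunction.sigma 5 m : ℤ)

theorem qExpansion_E4 : qExpansion 1 E₄ = qE4.map (Int.castRingHom ℂ) := by
  ext m
  rw [E_qExpansion_coeff _ ⟨2, rfl⟩]
  simp only [qE4, PowerSeries.coeff_map, PowerSeries.coeff_mk]
  split_ifs with h
  · simp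
  · norm_num [show bernoulli 4 = -1 / 30 by decide +kernel]

theorem qExpansion_E6 : qExpansion 1 E₆ = qE6.map (Int.castRingHom ℂ) := by
  ext m
  rw [E_qExpansion_coeff _ ⟨3, rfl⟩]
  simp only [qE6, PowerSeries.coeff_map, PowerSeries.coeff_mk]
  split_ifs with h
  · simp
  · norm_num [show bernoulli 6 = 1 / 42 by decide +kernel]

/-- The integral monomial `qE4 ^ a * qE6 ^ b`. -/
def qMono (a b : ℕ) : PowerSeries ℤ := qE4 ^ a * qE6 ^ b

/-- The monomial `q`-expansions of weight `k`. -/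
def monoSet (k : ℤ) : Set (PowerSeries ℂ) :=
  {P | ∃ a b : ℕ, (4 * (a : ℤ) + 6 * (b : ℤ)) = k ∧ P = (qMono a b).map (Int.castRingHom ℂ)}

/-- The monomial `E₄ ^ a * E₆ ^ b` as a level one modular form. -/
def monoForm (a b : ℕ) : ModularForm 𝒮ℒ (4 * (a : ℤ) + 6 * (b : ℤ)) :=
  ModularForm.mcast (by ring) ((E₄.pow a).mul (E₆.pow b))

theorem monoForm_apply (a b : ℕ) (z : ℍ) : monoForm a b z = E₄ z ^ a * E₆ z ^ b := by
  simp [monoForm]

theorem qExpansion_monoForm (a b : ℕ) :
    qExpansion 1 (monoForm a b) = (qMono a b).map (Int.castRingHom ℂ) := by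
  rw [monoForm, ModularForm.qExpansion_mcast,
    ModularForm.qExpansion_mul one_pos one_mem_strictPeriods_SL,
    ModularForm.qExpansion_pow one_pos one_mem_strictPeriods_SL,
    ModularForm.qExpansion_pow one_pos one_mem_strictPeriods_SL,
    qExpansion_E4, qExpansion_E6, qMono]
  simp


theorem qExpansion_discriminant_eq :
    qExpansion 1 ModularForm.discriminant =
      (1 / 1728 : ℂ) • ((qMono 3 0).map (Int.castRingHom ℂ) - (qMono 0 2).map (Int.castRingHom ℂ)) := by
  have h : (ModularForm.discriminant : ℍ → ℂ) =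
      ((1 / 1728 : ℂ) • (ModularForm.mcast (by norm_num) (monoForm 3 0) -
        ModularForm.mcast (by norm_num) (monoForm 0 2) : ModularForm 𝒮ℒ 12) : ModularForm 𝒮ℒ 12) := by
    ext z
    simp only [FunLike.coe_smul, FunLike.coe_sub, coe_mcast, Pi.smul_apply, Pi.sub_apply,
      smul_eq_mul, monoForm_apply]
    rw [discriminant_eq_E₄_cube_sub_E₆_sq z]
    ring
  rw [h, FunLike.coe_smul, ModularForm.qExpansion_smul one_pos one_mem_strictPeriods_SL,
    FunLike.coe_sub, ModularForm.qExpansion_sub one_pos one_mem_strictPeriods_SL,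
    ModularForm.qExpansion_mcast, ModularForm.qExpansion_mcast, qExpansion_monoForm,
    qExpansion_monoForm]

/-- `Δ * monomial` is a combination of monomials. -/
theorem discriminant_mul_mem_span (k : ℤ) (P : PowerSeries ℂ)
    (hP : P ∈ Submodule.span ℂ (monoSet (k - 12))) :
    qExpansion 1 ModularForm.discriminant * P ∈ Submodule.span ℂ (monoSet k) := by
  induction hP using Submodule.span_induction with
  | mem x hx =>
    obtain ⟨a, b, hab, rfl⟩ := hx
    rw [qExpansion_discriminant_eq]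
    have h1 : (qMono 3 0).map (Int.castRingHom ℂ) * (qMono a b).map (Int.castRingHom ℂ) =
        (qMono (a + 3) b).map (Int.castRingHom ℂ) := by
      rw [← map_mul]; congr 1; simp only [qMono]; ring
    have h2 : (qMono 0 2).map (Int.castRingHom ℂ) * (qMono a b).map (Int.castRingHom ℂ) =
        (qMono a (b + 2)).map (Int.castRingHom ℂ) := by
      rw [← map_mul]; congr 1; simp only [qMono]; ring
    rw [smul_mul_assoc, sub_mul, h1, h2]
    refine Submodule.smul_mem _ _ (Submodule.sub_mem _ ?_ ?_)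
    · exact Submodule.subset_span ⟨a + 3, b, by push_cast; linarith, rfl⟩
    · exact Submodule.subset_span ⟨a, b + 2, by push_cast; linarith, rfl⟩
  | zero => simp
  | add x y _ _ hx hy => rw [mul_add]; exact Submodule.add_mem _ hx hy
  | smul c x _ hx => rw [mul_smul_comm]; exact Submodule.smul_mem _ _ hx



theorem constantCoeff_qE4 : PowerSeries.constantCoeff qE4 = 1 := by
  simp [qE4]

theorem constantCoeff_qE6 : PowerSeries.constantCoeff qE6 = 1 := by
  simp [qE6]

theorem constantCoeff_qMono (a b : ℕ) : PowerSeries.constantCoeff (qMono a b) = 1 := by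
  simp [qMono, constantCoeff_qE4, constantCoeff_qE6]

theorem exists_weight_decomp (k : ℤ) (hk : 4 ≤ k) (hev : Even k) :
    ∃ a b : ℕ, 4 * (a : ℤ) + 6 * (b : ℤ) = k := by
  obtain ⟨m, hm⟩ := hev
  rcases Int.even_or_odd m with ⟨n, hn⟩ | ⟨n, hn⟩
  · refine ⟨n.toNat, 0, ?_⟩
    have : 0 ≤ n := by omega
    rw [Int.toNat_of_nonneg this]; omega
  · refine ⟨(n - 1).toNat, 1, ?_⟩
    have : 0 ≤ n - 1 := by omega
    rw [Int.toNat_of_nonneg this]; omega

theorem levelOne_qExpansion_mem_span_aux (n : ℕ) : ∀ (k : ℤ), k.toNat = n →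
    ∀ f : ModularForm 𝒮ℒ k, qExpansion 1 f ∈ Submodule.span ℂ (monoSet k) := by
  induction n using Nat.strong_induction_on with
  | _ n ih =>
  intro k hk f
  rcases lt_or_ge k 0 with hneg | hnn
  · have : f = 0 := rank_zero_iff_forall_zero.mp (levelOne_neg_weight_rank_zero hneg) f
    rw [this]; simp [qExpansion_zero]
  rcases Int.even_or_odd k with hev | hodd
  swap
  · have : f = 0 := levelOne_odd_weight_eq_zero hodd f
    rw [this]; simp [qExpansion_zero]
  rcases eq_or_lt_of_le hnn with h0 | hpos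
  · subst h0
    obtain ⟨c, hc⟩ := levelOne_weight_zero_const f
    have h1 : (f : ℍ → ℂ) = c • (1 : ℍ → ℂ) := by
      rw [hc]; ext z; simp
    have hq : qExpansion 1 f = c • (1 : PowerSeries ℂ) := by
      rw [h1]
      have := ModularForm.qExpansion_smul one_pos one_mem_strictPeriods_SL c (1 : ModularForm 𝒮ℒ 0)
      have h2 : ((1 : ModularForm 𝒮ℒ 0) : ℍ → ℂ) = 1 := by ext z; simp
      rw [h2] at this
      rw [this, qExpansion_one]
    rw [hq]
    refine Submodule.smul_mem _ _ (Submodule.subset_span ⟨0, 0, by simp, ?_⟩)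
    simp [qMono]
  by_cases h2 : k = 2
  · subst h2
    have : f = 0 := rank_zero_iff_forall_zero.mp levelOne_weight_two_rank_zero f
    rw [this]; simp [qExpansion_zero]
  have hk4 : 4 ≤ k := by
    obtain ⟨m, hm⟩ := hev
    omega
  obtain ⟨a, b, hab⟩ := exists_weight_decomp k hk4 hev
  subst hab
  set c := (qExpansion 1 f).coeff 0 with hc
  set g : ModularForm 𝒮ℒ (4 * (a : ℤ) + 6 * (b : ℤ)) := f - c • monoForm a b with hg
  have hqg : qExpansion 1 g = qExpansion 1 f - c • (qMono a b).map (Int.castRingHom ℂ) := by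
    rw [hg, FunLike.coe_sub, ModularForm.qExpansion_sub one_pos one_mem_strictPeriods_SL,
      FunLike.coe_smul, ModularForm.qExpansion_smul one_pos one_mem_strictPeriods_SL,
      qExpansion_monoForm]
  have hg0 : (qExpansion 1 g).coeff 0 = 0 := by
    rw [hqg]
    have h7 : PowerSeries.constantCoeff ((qMono a b).map (Int.castRingHom ℂ)) = 1 := by
      rw [← PowerSeries.coeff_zero_eq_constantCoeff_apply, PowerSeries.coeff_map,
        PowerSeries.coeff_zero_eq_constantCoeff_apply, constantCoeff_qMono]; simp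
    simp [h7, hc]
  have h3 := qExpansion_eq_qExpansion_discriminant_mul g hg0
  have hh := ih ((4 * (a : ℤ) + 6 * (b : ℤ) - 12).toNat) (by omega) _ rfl
    (CuspForm.discriminantEquiv (toCuspForm g hg0))
  have h4 := discriminant_mul_mem_span _ _ hh
  rw [← h3, hqg] at h4
  have h5 : c • (qMono a b).map (Int.castRingHom ℂ) ∈
      Submodule.span ℂ (monoSet (4 * (a : ℤ) + 6 * (b : ℤ))) :=
    Submodule.smul_mem _ _ (Submodule.subset_span ⟨a, b, rfl, rfl⟩)
  have := Submodule.add_mem _ h4 h5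
  simpa using this

/-- The `q`-expansion of a level-one modular form of weight `k` is a `ℂ`-combination of the
integral monomials `qE4 ^ a * qE6 ^ b`, `4 a + 6 b = k`. -/
theorem levelOne_qExpansion_mem_span (k : ℤ) (f : ModularForm 𝒮ℒ k) :
    qExpansion 1 f ∈ Submodule.span ℂ (monoSet k) :=
  levelOne_qExpansion_mem_span_aux _ k rfl f

/-- Every `ℂ`-combination of monomials of weight `k` is the `q`-expansion of a level-one form. -/
theorem exists_levelOne_of_mem_span (k : ℤ) (P : PowerSeries ℂ)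
    (hP : P ∈ Submodule.span ℂ (monoSet k)) :
    ∃ f : ModularForm 𝒮ℒ k, qExpansion 1 f = P := by
  induction hP using Submodule.span_induction with
  | mem x hx =>
    obtain ⟨a, b, hab, rfl⟩ := hx
    subst hab
    exact ⟨monoForm a b, qExpansion_monoForm a b⟩
  | zero => exact ⟨0, by simp [qExpansion_zero]⟩
  | add x y _ _ hx hy =>
    obtain ⟨f, rfl⟩ := hx
    obtain ⟨g, rfl⟩ := hy
    exact ⟨f + g, by
      rw [FunLike.coe_add, ModularForm.qExpansion_add one_pos one_mem_strictPeriods_SL]⟩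
  | smul c x _ hx =>
    obtain ⟨f, rfl⟩ := hx
    exact ⟨c • f, by
      rw [FunLike.coe_smul, ModularForm.qExpansion_smul one_pos one_mem_strictPeriods_SL]⟩



/-- Coefficientwise application of an additive map to a power series. -/
def mapCoeff (ρ : ℂ →+ ℂ) (P : PowerSeries ℂ) : PowerSeries ℂ :=
  PowerSeries.mk fun n => ρ (P.coeff n)

@[simp] theorem coeff_mapCoeff (ρ : ℂ →+ ℂ) (P : PowerSeries ℂ) (n : ℕ) :
    (mapCoeff ρ P).coeff n = ρ (P.coeff n) := by
  simp [mapCoeff]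

theorem mapCoeff_ringHom (σ : ℂ →+* ℂ) (P : PowerSeries ℂ) :
    mapCoeff σ.toAddMonoidHom P = P.map σ := by
  ext n; simp

theorem mapCoeff_mem_span (k : ℤ) (P : PowerSeries ℂ)
    (hP : P ∈ Submodule.span ℂ (monoSet k)) :
    ∀ ρ : ℂ →+ ℂ, mapCoeff ρ P ∈ Submodule.span ℂ (monoSet k) := by
  induction hP using Submodule.span_induction with
  | mem x hx =>
    intro ρ
    obtain ⟨a, b, hab, rfl⟩ := hx
    have : mapCoeff ρ ((qMono a b).map (Int.castRingHom ℂ)) =
        ρ 1 • (qMono a b).map (Int.castRingHom ℂ) := by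
      ext n
      simp only [coeff_mapCoeff, PowerSeries.coeff_map, PowerSeries.coeff_smul, smul_eq_mul,
        eq_intCast]
      rw [(zsmul_one ((PowerSeries.coeff n) (qMono a b))).symm, map_zsmul]
      simp [mul_comm]
    rw [this]
    exact Submodule.smul_mem _ _ (Submodule.subset_span ⟨a, b, hab, rfl⟩)
  | zero =>
    intro ρ
    have : mapCoeff ρ 0 = 0 := by ext n; simp
    rw [this]; exact Submodule.zero_mem _
  | add x y _ _ hx hy =>
    intro ρ
    have : mapCoeff ρ (x + y) = mapCoeff ρ x + mapCoeff ρ y := by ext n; simp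
    rw [this]; exact Submodule.add_mem _ (hx ρ) (hy ρ)
  | smul c x _ hx =>
    intro ρ
    have : mapCoeff ρ (c • x) = mapCoeff (ρ.comp (AddMonoidHom.mulLeft c)) x := by
      ext n; simp
    rw [this]; exact hx _

/-- Transport of a level-one modular form along an arbitrary additive map `ρ : ℂ →+ ℂ`
applied coefficientwise to the `q`-expansion. -/
theorem levelOne_transport (ρ : ℂ →+ ℂ) (k : ℤ) (f : ModularForm 𝒮ℒ k) :
    ∃ g : ModularForm 𝒮ℒ k, ∀ n, (qExpansion 1 g).coeff n = ρ ((qExpansion 1 f).coeff n) := by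
  obtain ⟨g, hg⟩ := exists_levelOne_of_mem_span k _
    (mapCoeff_mem_span k _ (levelOne_qExpansion_mem_span k f) ρ)
  exact ⟨g, fun n => by rw [hg, coeff_mapCoeff]⟩

/-- Transport of a level-one modular form along a ring endomorphism of `ℂ`. -/
theorem levelOne_transport_ringHom (σ : ℂ →+* ℂ) (k : ℤ) (f : ModularForm 𝒮ℒ k) :
    ∃ g : ModularForm 𝒮ℒ k, qExpansion 1 g = (qExpansion 1 f).map σ := by
  obtain ⟨g, hg⟩ := levelOne_transport σ.toAddMonoidHom k f
  exact ⟨g, by ext n; rw [hg]; simp⟩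

/-- Transport of a level-one cusp form along an arbitrary additive map. -/
theorem levelOne_transport_cusp (ρ : ℂ →+ ℂ) (k : ℤ) (f : CuspForm 𝒮ℒ k) :
    ∃ g : CuspForm 𝒮ℒ k, ∀ n, (qExpansion 1 g).coeff n = ρ ((qExpansion 1 f).coeff n) := by
  obtain ⟨g, hg⟩ := levelOne_transport ρ k (CuspForm.toModularFormₗ f)
  have hcoe : (⇑(CuspForm.toModularFormₗ f) : ℍ → ℂ) = ⇑f := rfl
  rw [hcoe] at hg
  have h0 : (qExpansion 1 f).coeff 0 = 0 :=
    CuspFormClass.qExpansion_coeff_zero f one_pos one_mem_strictPeriods_SL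
  have hg0 : (qExpansion 1 g).coeff 0 = 0 := by rw [hg, h0, map_zero]
  refine ⟨toCuspForm g hg0, fun n => ?_⟩
  have hcoe2 : (⇑(toCuspForm g hg0) : ℍ → ℂ) = ⇑g := rfl
  rw [hcoe2]
  exact hg n

/-- Transport of a level-one cusp form along a ring endomorphism of `ℂ`. -/
theorem levelOne_transport_cusp_ringHom (σ : ℂ →+* ℂ) (k : ℤ) (f : CuspForm 𝒮ℒ k) :
    ∃ g : CuspForm 𝒮ℒ k, qExpansion 1 g = (qExpansion 1 f).map σ := by
  obtain ⟨g, hg⟩ := levelOne_transport_cusp σ.toAddMonoidHom k f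
  exact ⟨g, by ext n; rw [hg]; simp⟩

theorem bounded_of_mem_span (k : ℤ) (P : PowerSeries ℂ)
    (hP : P ∈ Submodule.span ℂ (monoSet k)) :
    ∀ ρ : ℂ →ₗ[ℚ] ℚ, ∃ M : ℕ, M ≠ 0 ∧ ∀ n, ∃ m : ℤ, (M : ℚ) * ρ (P.coeff n) = m := by
  induction hP using Submodule.span_induction with
  | mem x hx =>
    intro ρ
    obtain ⟨a, b, hab, rfl⟩ := hx
    refine ⟨(ρ 1).den, (ρ 1).den_nz, fun n => ⟨(ρ 1).num * (qMono a b).coeff n, ?_⟩⟩
    simp only [PowerSeries.coeff_map, eq_intCast]
    have h1 : ρ (((PowerSeries.coeff n) (qMono a b) : ℤ) : ℂ) =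
        ((PowerSeries.coeff n) (qMono a b) : ℤ) * ρ 1 := by
      rw [(zsmul_one ((PowerSeries.coeff n) (qMono a b))).symm, map_zsmul]
      simp
    rw [h1]
    push_cast
    have h2 : ((ρ 1).den : ℚ) * ρ 1 = (ρ 1).num := Rat.den_mul_eq_num (ρ 1)
    calc ((ρ 1).den : ℚ) * (((PowerSeries.coeff n) (qMono a b) : ℤ) * ρ 1)
        = ((PowerSeries.coeff n) (qMono a b) : ℤ) * (((ρ 1).den : ℚ) * ρ 1) := by ring
      _ = _ := by rw [h2]; ring
  | zero =>
    intro ρ
    exact ⟨1, one_ne_zero, fun n => ⟨0, by simp⟩⟩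
  | add x y _ _ hx hy =>
    intro ρ
    obtain ⟨M₁, hM₁, h₁⟩ := hx ρ
    obtain ⟨M₂, hM₂, h₂⟩ := hy ρ
    refine ⟨M₁ * M₂, Nat.mul_ne_zero hM₁ hM₂, fun n => ?_⟩
    obtain ⟨m₁, hm₁⟩ := h₁ n
    obtain ⟨m₂, hm₂⟩ := h₂ n
    refine ⟨M₂ * m₁ + M₁ * m₂, ?_⟩
    simp only [map_add]
    push_cast
    rw [← hm₁, ← hm₂]; ring
  | smul c x _ hx =>
    intro ρ
    obtain ⟨M, hM, h⟩ := hx (ρ.comp ((LinearMap.mulLeft ℂ c).restrictScalars ℚ))
    exact ⟨M, hM, fun n => by simpa using h n⟩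

/-- There is a `ℚ`-linear retraction `ℂ → ℚ`. -/
theorem exists_rat_retraction : ∃ π : ℂ →ₗ[ℚ] ℚ, ∀ r : ℚ, π (r : ℂ) = r := by
  obtain ⟨π, hπ⟩ := LinearMap.exists_leftInverse_of_injective
    (Algebra.linearMap ℚ ℂ) (by
      rw [LinearMap.ker_eq_bot]
      exact (algebraMap ℚ ℂ).injective)
  refine ⟨π, fun r => ?_⟩
  have := LinearMap.congr_fun hπ r
  simpa using this

/-- A level-one modular form with rational `q`-expansion has bounded denominators. -/
theorem levelOne_bounded_denominators (k : ℤ) (f : ModularForm 𝒮ℒ k)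
    (hf : ∀ n, ∃ r : ℚ, (qExpansion 1 f).coeff n = (r : ℂ)) :
    ∃ M : ℕ, M ≠ 0 ∧ ∀ n, ∃ m : ℤ, (M : ℂ) * (qExpansion 1 f).coeff n = (m : ℂ) := by
  obtain ⟨π, hπ⟩ := exists_rat_retraction
  obtain ⟨M, hM, h⟩ := bounded_of_mem_span k _ (levelOne_qExpansion_mem_span k f) π
  refine ⟨M, hM, fun n => ?_⟩
  obtain ⟨m, hm⟩ := h n
  obtain ⟨r, hr⟩ := hf n
  refine ⟨m, ?_⟩
  rw [hr] at hm ⊢
  rw [hπ] at hm
  exact_mod_cast hm

end

end Fermat.Agent.S23.LevelOne

end
-- ===== PACK-END S23/LevelOne.lean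

-- ===== PACK-BEGIN S23/H143/PrimElt.lean
section






set_option autoImplicit false

open UpperHalfPlane ModularForm CongruenceSubgroup Filter Topology Matrix.SpecialLinearGroup
open scoped MatrixGroups ModularForm Manifold

namespace Fermat.Agent.S23.H143

noncomputable section

theorem primElt_det_eq (g : SL(2, ℤ)) : g 0 0 * g 1 1 - g 0 1 * g 1 0 = 1 := by
  have h := g.det_coe
  rwa [Matrix.det_fin_two] at h

/-- Hermite normal form: `diag(N,1) * g = h * [a b; 0 d]` with `h ∈ SL₂(ℤ)`, `a = gcd(N, c)`,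
`a * d = N`. Integer-entry version. -/
theorem primElt_hermite_int {N : ℕ} (hN : N ≠ 0) (g : SL(2, ℤ)) :
    ∃ (h : SL(2, ℤ)) (b : ℤ) (a d : ℕ), a * d = N ∧ a = Int.gcd N (g 1 0) ∧
      (N : ℤ) * g 0 0 = h 0 0 * a ∧ (N : ℤ) * g 0 1 = h 0 0 * b + h 0 1 * d ∧
      g 1 0 = h 1 0 * a ∧ g 1 1 = h 1 0 * b + h 1 1 * d := by
  have hdet := primElt_det_eq g
  set e : ℕ := Int.gcd N (g 1 0) with he
  have he0 : e ≠ 0 := by
    intro h0
    rw [he, Int.gcd_eq_zero_iff] at h0
    exact hN (by exact_mod_cast h0.1)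
  have heN : (e : ℤ) ∣ N := Int.gcd_dvd_left _ _
  have hec : (e : ℤ) ∣ g 1 0 := Int.gcd_dvd_right _ _
  obtain ⟨n', hn'⟩ := heN
  obtain ⟨y, hy⟩ := hec
  -- gcd(n', y) = 1
  have hcop1 : IsCoprime n' y := by
    have hgcd : Int.gcd (e * n') (e * y) = e := by rw [← hn', ← hy]
    rw [Int.gcd_mul_left, Int.natAbs_natCast] at hgcd
    have : Int.gcd n' y = 1 := by
      have he0' : 0 < e := Nat.pos_of_ne_zero he0
      exact Nat.eq_of_mul_eq_mul_left he0' (by rw [hgcd, mul_one])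
    exact Int.isCoprime_iff_gcd_eq_one.mpr this
  -- gcd(g00, y) = 1 since gcd(g00, g10) = 1
  have hcop2 : IsCoprime (g 0 0) y := by
    have : IsCoprime (g 0 0) (g 1 0) := ⟨g 1 1, -g 0 1, by linear_combination hdet⟩
    rw [hy] at this
    exact this.of_mul_right_right
  have hcop : IsCoprime (n' * g 0 0) y := hcop1.mul_left hcop2
  obtain ⟨h, h00, h10⟩ := hcop.exists_SL2_col 0
  have hdeth := primElt_det_eq h
  have hn'pos : 0 < n' := by
    have h1 : (0 : ℤ) < e * n' := by rw [← hn']; exact_mod_cast Nat.pos_of_ne_zero hN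
    have h2 : (0 : ℤ) < e := by exact_mod_cast Nat.pos_of_ne_zero he0
    exact (pos_iff_pos_of_mul_pos h1).mp h2
  refine ⟨h, h 1 1 * N * g 0 1 - h 0 1 * g 1 1, e, n'.toNat, ?_, rfl, ?_, ?_, ?_, ?_⟩
  · have : ((e * n'.toNat : ℕ) : ℤ) = (N : ℤ) := by
      push_cast
      rw [Int.toNat_of_nonneg hn'pos.le, hn']
    exact_mod_cast this
  · rw [h00, hn']; ring
  · rw [Int.toNat_of_nonneg hn'pos.le]
    rw [h00, h10] at hdeth
    rw [hy] at hdet
    rw [h00, hn']
    linear_combination (-(e * n' * g 0 1)) * hdeth + (n' * h 0 1) * hdet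
  · rw [h10, hy]; ring
  · rw [Int.toNat_of_nonneg hn'pos.le]
    rw [h00, h10] at hdeth
    rw [hy] at hdet
    rw [h10, hn']
    linear_combination (-(g 1 1)) * hdeth + (h 1 1 * n') * hdet

/-- Restriction of a modular form to a smaller subgroup. -/
def restrictMF {Γ Γ' : Subgroup (GL (Fin 2) ℝ)} {k : ℤ} (h : Γ ≤ Γ') (f : ModularForm Γ' k) :
    ModularForm Γ k where
  toFun := f
  slash_action_eq' γ hγ := f.slash_action_eq' γ (h hγ)
  holo' := f.holo'
  bdd_at_cusps' hc := f.bdd_at_cusps' (hc.mono h)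

@[simp] theorem coe_restrictMF {Γ Γ' : Subgroup (GL (Fin 2) ℝ)} {k : ℤ} (h : Γ ≤ Γ')
    (f : ModularForm Γ' k) : ⇑(restrictMF h f) = ⇑f := rfl

/-- GL₂(ℝ) version of the Hermite decomposition. -/
theorem primElt_hermite {N : ℕ} (hN : N ≠ 0) (g : SL(2, ℤ)) :
    ∃ (h : SL(2, ℤ)) (b : ℤ) (a d : ℕ) (had : (a : ℝ) * (d : ℝ) ≠ 0),
      a * d = N ∧ a = Int.gcd N (g 1 0) ∧
      heckeDiagMatrix N * mapGL ℝ g = mapGL ℝ h * upperTriangularGL a b d had := by
  obtain ⟨h, b, a, d, had, ha, h1, h2, h3, h4⟩ := primElt_hermite_int hN g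
  have had' : (a : ℝ) * (d : ℝ) ≠ 0 := by
    have : ((a * d : ℕ) : ℝ) ≠ 0 := by rw [had]; exact_mod_cast hN
    exact_mod_cast this
  refine ⟨h, b, a, d, had', had, ha, ?_⟩
  have e1 := congrArg (Int.cast : ℤ → ℝ) h1
  have e2 := congrArg (Int.cast : ℤ → ℝ) h2
  have e3 := congrArg (Int.cast : ℤ → ℝ) h3
  have e4 := congrArg (Int.cast : ℤ → ℝ) h4
  push_cast at e1 e2 e3 e4
  ext i j
  fin_cases i <;> fin_cases j <;>
    simp [hN, Matrix.mul_apply, Fin.sum_univ_two] <;> linarith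

theorem det_upperTriangularGL (a b d : ℝ) (had : a * d ≠ 0) :
    ((upperTriangularGL a b d had).det : ℝ) = a * d := by
  rw [Matrix.GeneralLinearGroup.val_det_apply, val_upperTriangularGL, Matrix.det_fin_two_of]
  ring

theorem slash_upperTriangularGL_apply (k : ℤ) {a d : ℝ} (b : ℝ) (ha : 0 < a) (hd : 0 < d)
    (had : a * d ≠ 0) (f : ℍ → ℂ) (τ : ℍ) :
    (f ∣[k] upperTriangularGL a b d had) τ =
      f (upperTriangularGL a b d had • τ) * ((a : ℂ) * d) ^ (k - 1) * (d : ℂ) ^ (-k) := by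
  have hdet : 0 < ((upperTriangularGL a b d had).det : ℝ) := by
    rw [det_upperTriangularGL]; positivity
  have hσ : UpperHalfPlane.σ (upperTriangularGL a b d had) = .refl ℝ ℂ := by
    rw [UpperHalfPlane.σ, if_pos hdet]
  have hden : UpperHalfPlane.denom (upperTriangularGL a b d had) τ = d := by
    simp [UpperHalfPlane.denom]
  rw [ModularForm.slash_apply, hσ, det_upperTriangularGL, hden]
  simp only [ContinuousAlgEquiv.refl_apply]
  rw [abs_of_pos (by positivity)]
  push_cast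
  ring

theorem tendsto_E₄_atImInfty : Tendsto (⇑E₄) atImInfty (𝓝 1) := by
  have hanal := ModularFormClass.analyticAt_cuspFunction_zero E₄ one_pos
    one_mem_strictPeriods_SL
  have hper := SlashInvariantFormClass.periodic_comp_ofComplex E₄
    one_mem_strictPeriods_SL
  have h0 : cuspFunction 1 (⇑E₄) 0 = 1 := by
    rw [cuspFunction_apply_zero one_pos hanal hper,
      ← qExpansion_coeff_zero one_pos hanal hper]
    exact EisensteinSeries.E_qExpansion_coeff_zero (by norm_num) (by decide)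
  have := (hanal.continuousAt.tendsto.comp (qParam_tendsto_atImInfty one_pos)).congr
    (fun τ ↦ SlashInvariantFormClass.eq_cuspFunction E₄ τ
      one_mem_strictPeriods_SL one_ne_zero)
  rwa [h0] at this

theorem primElt_mapGL_apply (g : SL(2, ℤ)) (i j : Fin 2) :
    (mapGL ℝ g : GL (Fin 2) ℝ) i j = ((g i j : ℤ) : ℝ) := by
  simp

theorem primElt_diag_mul_of_dvd {N : ℕ} (hN : N ≠ 0) (g : SL(2, ℤ)) (e : ℤ)
    (he : g 1 0 = N * e) :
    ∃ g' : SL(2, ℤ), heckeDiagMatrix N * mapGL ℝ g = mapGL ℝ g' * heckeDiagMatrix N := by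
  have hdet := primElt_det_eq g
  refine ⟨⟨!![g 0 0, N * g 0 1; e, g 1 1], ?_⟩, ?_⟩
  · rw [Matrix.det_fin_two_of]
    linear_combination hdet + (g 0 1) * he
  · ext i j
    fin_cases i <;> fin_cases j <;>
      simp [hN, Matrix.mul_apply, Fin.sum_univ_two]
    all_goals first
      | (have := congrArg (Int.cast : ℤ → ℝ) he; push_cast at this ⊢; linear_combination this)
      | (have := congrArg (Int.cast : ℤ → ℝ) he; push_cast at this ⊢; linear_combination -this)
      | ring1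

open ConjAct Pointwise in
theorem Gamma0_le_conj_SL {N : ℕ} (hN : N ≠ 0) :
    (Gamma0 N : Subgroup (GL (Fin 2) ℝ)) ≤ toConjAct (heckeDiagMatrix N)⁻¹ • 𝒮ℒ := by
  rintro γ ⟨g, hg, rfl⟩
  rw [Subgroup.mem_pointwise_smul_iff_inv_smul_mem, ← map_inv, inv_inv, ConjAct.smul_def,
    ConjAct.ofConjAct_toConjAct]
  have hg' : ((g 1 0 : ℤ) : ZMod N) = 0 := by simpa [Gamma0_mem] using hg
  obtain ⟨e, he⟩ := (ZMod.intCast_zmod_eq_zero_iff_dvd _ _).mp hg'
  obtain ⟨g', hg'⟩ := primElt_diag_mul_of_dvd hN g e he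
  rw [hg', mul_inv_cancel_right]
  exact ⟨g', rfl⟩

/-- The primitive element `t = N³ E₄(N τ)`, a weight-4 modular form on `Γ₀(N)`. -/
def primElt (N : ℕ) [NeZero N] : ModularForm (Gamma0 N : Subgroup (GL (Fin 2) ℝ)) 4 :=
  restrictMF (Gamma0_le_conj_SL (NeZero.ne N)) (ModularForm.translate E₄ (heckeDiagMatrix N))

theorem coe_primElt (N : ℕ) [NeZero N] :
    ⇑(primElt N) = (⇑E₄) ∣[(4 : ℤ)] heckeDiagMatrix N := rfl

theorem primElt_apply (N : ℕ) [NeZero N] (τ : ℍ) :
    primElt N τ = (N : ℂ) ^ 3 * E₄ (heckeDiagMatrix N • τ) := by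
  rw [coe_primElt, slash_heckeDiagMatrix_apply 4 (NeZero.ne N)]
  norm_num

theorem tendsto_primElt_atImInfty (N : ℕ) [NeZero N] :
    Tendsto (⇑(primElt N)) atImInfty (𝓝 ((N : ℂ) ^ 3)) := by
  have h1 : Tendsto (fun τ : ℍ ↦ heckeDiagMatrix N • τ) atImInfty atImInfty :=
    tendsto_smul_atImInfty (by simp [val_heckeDiagMatrix (NeZero.ne N)])
  have h2 := (tendsto_E₄_atImInfty.comp h1).const_mul ((N : ℂ) ^ 3)
  rw [mul_one] at h2
  exact h2.congr (fun τ ↦ (primElt_apply N τ).symm)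

/-- Slash of the primitive element by an arbitrary `g ∈ SL₂(ℤ)`: its limit at `i∞` is
`N³ / d⁴` where `d = N / gcd(N, c)`. -/
theorem tendsto_primElt_slash_atImInfty (N : ℕ) [NeZero N] (g : SL(2, ℤ)) :
    ∃ a d : ℕ, a * d = N ∧ a = Int.gcd N (g 1 0) ∧
      Tendsto ((⇑(primElt N)) ∣[(4 : ℤ)] (mapGL ℝ g)) atImInfty
        (𝓝 ((N : ℂ) ^ 3 * ((d : ℂ) ^ 4)⁻¹)) := by
  obtain ⟨h, b, a, d, had, hadN, ha, hmat⟩ := primElt_hermite (NeZero.ne N) g
  refine ⟨a, d, hadN, ha, ?_⟩
  have hN : (N : ℝ) ≠ 0 := by exact_mod_cast NeZero.ne N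
  have ha0 : (0 : ℝ) < a := by
    rcases Nat.eq_zero_or_pos a with h0 | h0
    · simp [h0] at had
    · exact_mod_cast h0
  have hd0 : (0 : ℝ) < d := by
    rcases Nat.eq_zero_or_pos d with h0 | h0
    · simp [h0] at had
    · exact_mod_cast h0
  have hE : (⇑E₄) ∣[(4 : ℤ)] (mapGL ℝ h) = ⇑E₄ :=
    SlashInvariantFormClass.slash_action_eq E₄ _ ⟨h, rfl⟩
  have hfun : (⇑(primElt N)) ∣[(4 : ℤ)] (mapGL ℝ g) =
      (⇑E₄) ∣[(4 : ℤ)] (upperTriangularGL a b d had) := by
    rw [coe_primElt, ← SlashAction.slash_mul, hmat, SlashAction.slash_mul, hE]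
  rw [hfun]
  have h1 : Tendsto (fun τ : ℍ ↦ upperTriangularGL a b d had • τ) atImInfty atImInfty :=
    tendsto_smul_atImInfty (by simp)
  have h2 := ((tendsto_E₄_atImInfty.comp h1).mul_const
    (((a : ℂ) * d) ^ ((4 : ℤ) - 1))).mul_const ((d : ℂ) ^ (-(4 : ℤ)))
  have hval : (1 : ℂ) * ((a : ℂ) * d) ^ ((4 : ℤ) - 1) * (d : ℂ) ^ (-(4 : ℤ)) =
      (N : ℂ) ^ 3 * ((d : ℂ) ^ 4)⁻¹ := by
    have : ((a : ℂ) * d) = N := by exact_mod_cast congrArg (Nat.cast : ℕ → ℂ) hadN
    rw [this, one_mul]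
    norm_num [zpow_neg]
  rw [hval] at h2
  refine h2.congr (fun τ ↦ ?_)
  rw [slash_upperTriangularGL_apply 4 (b : ℝ) ha0 hd0 had]
  simp

theorem primElt_slash_ne (N : ℕ) [NeZero N] (g : SL(2, ℤ)) (hg : g ∉ Gamma0 N) :
    (⇑(primElt N)) ∣[(4 : ℤ)] (mapGL ℝ g) ≠ ⇑(primElt N) := by
  intro heq
  obtain ⟨a, d, hadN, ha, hlim⟩ := tendsto_primElt_slash_atImInfty N g
  rw [heq] at hlim
  have huniq := tendsto_nhds_unique hlim (tendsto_primElt_atImInfty N)
  have hN : (N : ℂ) ≠ 0 := by exact_mod_cast NeZero.ne N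
  have hd4 : ((d : ℂ) ^ 4)⁻¹ = 1 := by
    have := mul_left_cancel₀ (pow_ne_zero 3 hN) (huniq.trans (mul_one _).symm)
    exact this
  have hd4' : (d : ℂ) ^ 4 = 1 := by
    rw [inv_eq_one] at hd4; exact hd4
  have hd : d = 1 := by
    have : (d ^ 4 : ℕ) = 1 := by exact_mod_cast hd4'
    exact (Nat.pow_eq_one.mp this).resolve_right (by norm_num)
  rw [hd, mul_one] at hadN
  rw [hadN] at ha
  apply hg
  rw [Gamma0_mem, ZMod.intCast_zmod_eq_zero_iff_dvd]
  have : ((Int.gcd N (g 1 0) : ℕ) : ℤ) ∣ g 1 0 := Int.gcd_dvd_right _ _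
  rwa [← ha] at this

/-- The `q`-expansion coefficients of `E₄` are integers. -/
theorem E₄_qExpansion_coeff_int (m : ℕ) : ∃ z : ℤ, (qExpansion 1 E₄).coeff m = (z : ℂ) := by
  rw [EisensteinSeries.E_qExpansion_coeff (by norm_num : 3 ≤ 4) ⟨2, rfl⟩ m]
  have hb : bernoulli 4 = -1 / 30 := by
    rw [bernoulli_eq_bernoulli'_of_ne_one (by norm_num), bernoulli'_four]
  split_ifs with h
  · exact ⟨1, by simp⟩
  · refine ⟨240 * (ArithmeticFunction.sigma 3 m : ℤ), ?_⟩
    rw [hb]
    push_cast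
    norm_num

theorem qParam_heckeDiagMatrix_smul (N : ℕ) [NeZero N] (τ : ℍ) :
    Function.Periodic.qParam 1 ((heckeDiagMatrix N • τ : ℍ) : ℂ) =
      Function.Periodic.qParam 1 (τ : ℂ) ^ N := by
  rw [coe_heckeDiagMatrix_smul (NeZero.ne N), Function.Periodic.qParam, Function.Periodic.qParam,
    ← Complex.exp_nat_mul]
  congr 1
  push_cast
  ring

/-- The `q`-expansion of the primitive element `N³ E₄(N τ)`. -/
theorem primElt_qExpansion_coeff (N : ℕ) [NeZero N] (n : ℕ) :
    (qExpansion 1 (primElt N)).coeff n =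
      if N ∣ n then (N : ℂ) ^ 3 * (qExpansion 1 E₄).coeff (n / N) else 0 := by
  set c : ℕ → ℂ := fun n ↦ if N ∣ n then (N : ℂ) ^ 3 * (qExpansion 1 E₄).coeff (n / N) else 0
    with hc
  have hN : 0 < N := Nat.pos_of_ne_zero (NeZero.ne N)
  have hinj : Function.Injective (fun m : ℕ ↦ N * m) := fun a b h ↦
    Nat.eq_of_mul_eq_mul_left hN h
  have key : ∀ τ : ℍ, HasSum (fun m ↦ c m • Function.Periodic.qParam 1 (τ : ℂ) ^ m)
      (primElt N τ) := by
    intro τ
    have h1 := ModularForm.hasSum_qExpansion E₄ one_pos one_mem_strictPeriods_SL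
      (heckeDiagMatrix N • τ)
    rw [qParam_heckeDiagMatrix_smul] at h1
    have h2 := h1.mul_left ((N : ℂ) ^ 3)
    rw [← primElt_apply] at h2
    rw [← hinj.hasSum_iff]
    · have hfun : ((fun m ↦ c m • Function.Periodic.qParam 1 (τ : ℂ) ^ m) ∘ fun m : ℕ ↦ N * m) =
          fun i ↦ (N : ℂ) ^ 3 * ((qExpansion 1 E₄).coeff i *
            (Function.Periodic.qParam 1 (τ : ℂ) ^ N) ^ i) := by
        funext m
        simp only [Function.comp_apply, hc, dvd_mul_right, if_true,
          Nat.mul_div_cancel_left m hN, smul_eq_mul]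
        rw [pow_mul]
        ring
      rw [hfun]
      exact h2
    · intro x hx
      have : ¬ N ∣ x := fun ⟨m, hm⟩ ↦ hx ⟨m, hm.symm⟩
      simp [hc, this]
  exact (ModularFormClass.qExpansion_coeff_unique one_pos
    (CongruenceSubgroup.one_mem_strictPeriods_Gamma0 N) key n).symm

theorem primElt_qExpansion_coeff_int (N : ℕ) [NeZero N] (n : ℕ) :
    ∃ z : ℤ, (qExpansion 1 (primElt N)).coeff n = (z : ℂ) := by
  rw [primElt_qExpansion_coeff]
  split_ifs with h
  · obtain ⟨z, hz⟩ := E₄_qExpansion_coeff_int (n / N)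
    exact ⟨(N : ℤ) ^ 3 * z, by rw [hz]; push_cast; ring⟩
  · exact ⟨0, by simp⟩

section conjugates

open SlashInvariantForm

local notation "𝒢₀" N => (Gamma0 N : Subgroup (GL (Fin 2) ℝ))

/-- The conjugates of the primitive element under the nontrivial cosets of `Γ₀(N)` in `SL₂(ℤ)`
are all different from the primitive element itself. -/
theorem quotientFunc_primElt_ne (N : ℕ) [NeZero N]
    (q : 𝒮ℒ ⧸ (𝒢₀ N).subgroupOf 𝒮ℒ) (hq : q ≠ QuotientGroup.mk 1) :
    quotientFunc (primElt N) q ≠ ⇑(primElt N) := by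
  induction q using Quotient.inductionOn with
  | h r =>
    obtain ⟨g, hgr⟩ := MonoidHom.mem_range.mp r.2
    rw [quotientFunc_mk]
    have hg : g⁻¹ ∉ Gamma0 N := by
      intro hmem
      apply hq
      have h1 : (Quotient.mk _ r : 𝒮ℒ ⧸ (𝒢₀ N).subgroupOf 𝒮ℒ) = QuotientGroup.mk r := rfl
      rw [h1, QuotientGroup.eq, mul_one, Subgroup.mem_subgroupOf]
      refine ⟨g⁻¹, hmem, ?_⟩
      rw [map_inv, hgr]
      rfl
    have := primElt_slash_ne N g⁻¹ hg
    rwa [map_inv, hgr] at this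

theorem mdiff_quotientFunc_primElt (N : ℕ) [NeZero N]
    (q : 𝒮ℒ ⧸ (𝒢₀ N).subgroupOf 𝒮ℒ) : MDiff (quotientFunc (primElt N) q) := by
  induction q using Quotient.inductionOn with
  | h r => exact (ModularForm.translate (primElt N) r.val⁻¹).holo'

/-- The "different" `∏_{q ≠ 1} (t - t_q)` of the primitive element is not identically zero
(function version, for any finset of cosets avoiding the trivial coset). -/
theorem prod_primElt_sub_quotientFunc_ne_zero (N : ℕ) [NeZero N]
    (s : Finset (𝒮ℒ ⧸ (𝒢₀ N).subgroupOf 𝒮ℒ)) (hs : QuotientGroup.mk 1 ∉ s) :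
    (∏ q ∈ s, (⇑(primElt N) - quotientFunc (primElt N) q)) ≠ 0 := by
  intro h0
  have hmd : ∀ q ∈ s, MDiff (⇑(primElt N) - quotientFunc (primElt N) q) :=
    fun q _ ↦ (ModularFormClass.holo (primElt N)).sub (mdiff_quotientFunc_primElt N q)
  obtain ⟨q, hq, hq0⟩ := (UpperHalfPlane.prod_eq_zero_iff hmd).mp h0
  have hq1 : q ≠ QuotientGroup.mk 1 := fun h ↦ hs (h ▸ hq)
  exact quotientFunc_primElt_ne N q hq1 (sub_eq_zero.mp hq0).symm

/-- Pointwise version. -/
theorem exists_prod_primElt_sub_quotientFunc_ne_zero (N : ℕ) [NeZero N]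
    (s : Finset (𝒮ℒ ⧸ (𝒢₀ N).subgroupOf 𝒮ℒ)) (hs : QuotientGroup.mk 1 ∉ s) :
    ∃ τ : ℍ, (∏ q ∈ s, (primElt N τ - quotientFunc (primElt N) q τ)) ≠ 0 := by
  by_contra hcon
  push Not at hcon
  apply prod_primElt_sub_quotientFunc_ne_zero N s hs
  funext τ
  simpa using hcon τ

end conjugates

end

end Fermat.Agent.S23.H143

end
-- ===== PACK-END S23/H143/PrimElt.lean

-- ===== PACK-BEGIN S23/Converse.lean
section


/-!
# S23, converse step (function level)

`exists_holo_quotient`: if `g, h` are holomorphic on a connected open set `U ⊆ ℂ`, `h ≢ 0`, and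
`g / h` satisfies a monic polynomial equation with continuous coefficient functions (written in the
homogenised form `g ^ n + ∑_{i < n} b_i g ^ i h ^ (n - i) = 0`), then `g / h` extends to a holomorphic
function `F` on `U`, with `F * h = g` and `F ^ n + ∑_{i < n} b_i F ^ i = 0` on all of `U`.
-/

set_option autoImplicit false

namespace Fermat.Agent.S23.Conv

open Complex Filter Topology

/-- Cauchy root bound: a root of a monic polynomial is bounded by `1 + ∑ ‖coefficients‖`. -/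
theorem norm_le_of_monic_root {n : ℕ} (c : ℕ → ℂ) (x : ℂ)
    (hx : x ^ n + ∑ i ∈ Finset.range n, c i * x ^ i = 0) :
    ‖x‖ ≤ 1 + ∑ i ∈ Finset.range n, ‖c i‖ := by
  have hsum_nonneg : 0 ≤ ∑ i ∈ Finset.range n, ‖c i‖ :=
    Finset.sum_nonneg fun i _ ↦ norm_nonneg _
  rcases le_or_gt ‖x‖ 1 with h1 | h1
  · linarith
  -- now `1 < ‖x‖`
  rcases Nat.eq_zero_or_pos n with rfl | hn
  · simp at hx
  have hxpos : 0 < ‖x‖ := by linarith
  have hpow : x ^ n = -∑ i ∈ Finset.range n, c i * x ^ i := eq_neg_of_add_eq_zero_left hx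
  have h2 : ‖x‖ ^ n ≤ (∑ i ∈ Finset.range n, ‖c i‖) * ‖x‖ ^ (n - 1) := by
    calc ‖x‖ ^ n = ‖x ^ n‖ := (norm_pow x n).symm
      _ = ‖∑ i ∈ Finset.range n, c i * x ^ i‖ := by rw [hpow, norm_neg]
      _ ≤ ∑ i ∈ Finset.range n, ‖c i * x ^ i‖ := norm_sum_le _ _
      _ ≤ ∑ i ∈ Finset.range n, ‖c i‖ * ‖x‖ ^ (n - 1) := by
          refine Finset.sum_le_sum fun i hi ↦ ?_
          rw [norm_mul, norm_pow]
          refine mul_le_mul_of_nonneg_left ?_ (norm_nonneg _)
          exact pow_le_pow_right₀ h1.le (by have := Finset.mem_range.mp hi; omega)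
      _ = (∑ i ∈ Finset.range n, ‖c i‖) * ‖x‖ ^ (n - 1) := by rw [Finset.sum_mul]
  have h3 : ‖x‖ ^ n = ‖x‖ * ‖x‖ ^ (n - 1) := by
    rw [← pow_succ']
    congr 1
    omega
  rw [h3] at h2
  have h4 : ‖x‖ ≤ ∑ i ∈ Finset.range n, ‖c i‖ :=
    le_of_mul_le_mul_right h2 (pow_pos hxpos _)
  linarith

/-- Dehomogenisation of the integrality equation at a point where `h ≠ 0`. -/
theorem monic_eq_div {n : ℕ} (c : ℕ → ℂ) (g h : ℂ) (hh : h ≠ 0)
    (heq : g ^ n + ∑ i ∈ Finset.range n, c i * g ^ i * h ^ (n - i) = 0) :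
    (g / h) ^ n + ∑ i ∈ Finset.range n, c i * (g / h) ^ i = 0 := by
  have hhn : h ^ n ≠ 0 := pow_ne_zero _ hh
  have key : ((g / h) ^ n + ∑ i ∈ Finset.range n, c i * (g / h) ^ i) * h ^ n = 0 := by
    rw [add_mul, Finset.sum_mul, div_pow, div_mul_cancel₀ _ hhn, ← heq]
    congr 1
    refine Finset.sum_congr rfl fun i hi ↦ ?_
    have hi' : i ≤ n := (Finset.mem_range.mp hi).le
    have : h ^ n = h ^ i * h ^ (n - i) := by rw [← pow_add]; congr 1; omega
    rw [this, div_pow]
    field_simp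
  exact (mul_eq_zero.mp key).resolve_right hhn

theorem exists_holo_quotient {U : Set ℂ} (hU : IsOpen U) (hUc : IsPreconnected U)
    {g h : ℂ → ℂ} (hg : DifferentiableOn ℂ g U) (hh : DifferentiableOn ℂ h U)
    {n : ℕ} (hn : 0 < n) (b : ℕ → ℂ → ℂ) (hb : ∀ i < n, ContinuousOn (b i) U)
    (hne : ∃ z ∈ U, h z ≠ 0)
    (heq : ∀ z ∈ U, g z ^ n + ∑ i ∈ Finset.range n, b i z * g z ^ i * h z ^ (n - i) = 0) :
    ∃ F : ℂ → ℂ, DifferentiableOn ℂ F U ∧ (∀ z ∈ U, F z * h z = g z) ∧
      ∀ z ∈ U, F z ^ n + ∑ i ∈ Finset.range n, b i z * F z ^ i = 0 := by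
  classical
  -- the quotient
  set q : ℂ → ℂ := fun z ↦ g z / h z with hq
  -- Step 1: the zeros of `h` are isolated in `U`.
  have hiso : ∀ z₀ ∈ U, ∀ᶠ z in 𝓝[≠] z₀, h z ≠ 0 := by
    intro z₀ hz₀
    have han : AnalyticAt ℂ h z₀ := hh.analyticAt (hU.mem_nhds hz₀)
    rcases han.eventually_eq_zero_or_eventually_ne_zero with h0 | h0
    · exfalso
      have hanU : AnalyticOnNhd ℂ h U := fun z hz ↦ hh.analyticAt (hU.mem_nhds hz)
      have := hanU.eqOn_zero_of_preconnected_of_eventuallyEq_zero hUc hz₀ h0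
      obtain ⟨z, hz, hz'⟩ := hne
      exact hz' (this hz)
    · exact h0
  -- Step 2: the monic equation and the bound for `q` away from the zeros of `h`.
  have hqeq : ∀ z ∈ U, h z ≠ 0 → q z ^ n + ∑ i ∈ Finset.range n, b i z * q z ^ i = 0 :=
    fun z hz hhz ↦ monic_eq_div (fun i ↦ b i z) (g z) (h z) hhz (heq z hz)
  have hqbd : ∀ z ∈ U, h z ≠ 0 → ‖q z‖ ≤ 1 + ∑ i ∈ Finset.range n, ‖b i z‖ :=
    fun z hz hhz ↦ norm_le_of_monic_root (fun i ↦ b i z) (q z) (hqeq z hz hhz)
  -- Step 3: definition of `F`.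
  set F : ℂ → ℂ := fun z ↦ if h z = 0 then limUnder (𝓝[≠] z) q else q z with hF
  have hFq : ∀ z, h z ≠ 0 → F z = q z := fun z hz ↦ by simp [hF, hz]
  -- Step 4: local description of `F` near a zero of `h`.
  have hloc : ∀ z₀ ∈ U, h z₀ = 0 → ∃ s ∈ 𝓝 z₀, s ⊆ U ∧ (∀ z ∈ s, z ≠ z₀ → h z ≠ 0) ∧
      DifferentiableOn ℂ F s := by
    intro z₀ hz₀ hhz₀
    -- neighbourhood on which all `b i` are bounded
    have hbnd : ∀ᶠ z in 𝓝 z₀, ∀ i ∈ Finset.range n, ‖b i z‖ < ‖b i z₀‖ + 1 := by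
      rw [Filter.eventually_all_finset]
      intro i hi
      have hc : ContinuousAt (b i) z₀ :=
        (hb i (Finset.mem_range.mp hi)).continuousAt (hU.mem_nhds hz₀)
      have : Tendsto (fun z ↦ ‖b i z‖) (𝓝 z₀) (𝓝 ‖b i z₀‖) := hc.norm
      exact this.eventually (gt_mem_nhds (lt_add_one _)) |>.mono fun z hz ↦ hz
    have hiso' : ∀ᶠ z in 𝓝 z₀, z ≠ z₀ → h z ≠ 0 := by
      have := hiso z₀ hz₀
      rw [eventually_nhdsWithin_iff] at this
      exact this.mono fun z hz hne ↦ hz hne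
    have hUn : ∀ᶠ z in 𝓝 z₀, z ∈ U := hU.mem_nhds hz₀
    obtain ⟨s, hs_sub, hs_open, hs_mem⟩ := eventually_nhds_iff.mp (hbnd.and (hiso'.and hUn))
    have hsU : s ⊆ U := fun z hz ↦ (hs_sub z hz).2.2
    have hsh : ∀ z ∈ s, z ≠ z₀ → h z ≠ 0 := fun z hz ↦ (hs_sub z hz).2.1
    refine ⟨s, hs_open.mem_nhds hs_mem, hsU, hsh, ?_⟩
    -- `q` is differentiable and bounded on `s \ {z₀}`
    have hqd : DifferentiableOn ℂ q (s \ {z₀}) := by
      intro z hz
      have hzs : z ∈ s := hz.1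
      have hzne : z ≠ z₀ := fun hzz ↦ hz.2 (by simpa using hzz)
      have hgz : DifferentiableAt ℂ g z := (hg z (hsU hzs)).differentiableAt (hU.mem_nhds (hsU hzs))
      have hhz : DifferentiableAt ℂ h z := (hh z (hsU hzs)).differentiableAt (hU.mem_nhds (hsU hzs))
      exact (hgz.div hhz (hsh z hzs hzne)).differentiableWithinAt
    have hqb : BddAbove (norm ∘ q '' (s \ {z₀})) := by
      refine ⟨1 + ∑ i ∈ Finset.range n, (‖b i z₀‖ + 1), ?_⟩
      rintro _ ⟨z, hz, rfl⟩
      have hzs : z ∈ s := hz.1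
      have hzne : z ≠ z₀ := fun hzz ↦ hz.2 (by simpa using hzz)
      calc ‖q z‖ ≤ 1 + ∑ i ∈ Finset.range n, ‖b i z‖ := hqbd z (hsU hzs) (hsh z hzs hzne)
        _ ≤ 1 + ∑ i ∈ Finset.range n, (‖b i z₀‖ + 1) := by
            gcongr with i hi
            exact ((hs_sub z hzs).1 i hi).le
    have hupd := Complex.differentiableOn_update_limUnder_of_bddAbove
      (hs_open.mem_nhds hs_mem) hqd hqb
    refine hupd.congr fun z hz ↦ ?_
    by_cases hzz : z = z₀
    · subst hzz
      simp [hF, hhz₀]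
    · rw [Function.update_of_ne hzz, hFq z (hsh z hz hzz)]
  -- Step 5: `F` is differentiable on `U`.
  have hFd : DifferentiableOn ℂ F U := by
    intro z₀ hz₀
    by_cases hhz₀ : h z₀ = 0
    · obtain ⟨s, hs, -, -, hFs⟩ := hloc z₀ hz₀ hhz₀
      exact ((hFs z₀ (mem_of_mem_nhds hs)).differentiableAt hs).differentiableWithinAt
    · have hgz : DifferentiableAt ℂ g z₀ := (hg z₀ hz₀).differentiableAt (hU.mem_nhds hz₀)
      have hhz : DifferentiableAt ℂ h z₀ := (hh z₀ hz₀).differentiableAt (hU.mem_nhds hz₀)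
      have hqz : DifferentiableAt ℂ q z₀ := hgz.div hhz hhz₀
      have hev : F =ᶠ[𝓝 z₀] q := by
        have : ∀ᶠ z in 𝓝 z₀, h z ≠ 0 := hhz.continuousAt.eventually_ne hhz₀
        exact this.mono fun z hz ↦ hFq z hz
      exact (hev.differentiableAt_iff.mpr hqz).differentiableWithinAt
  -- Step 6: `F * h = g`.
  have hFh : ∀ z ∈ U, F z * h z = g z := by
    intro z hz
    by_cases hhz : h z = 0
    · have h1 := heq z hz
      have h2 : ∑ i ∈ Finset.range n, b i z * g z ^ i * h z ^ (n - i) = 0 := by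
        refine Finset.sum_eq_zero fun i hi ↦ ?_
        have : n - i ≠ 0 := by have := Finset.mem_range.mp hi; omega
        rw [hhz, zero_pow this, mul_zero]
      rw [h2, add_zero] at h1
      rw [hhz, mul_zero, pow_eq_zero_iff hn.ne'.symm.symm |>.mp h1]
    · rw [hFq z hhz, hq]
      exact div_mul_cancel₀ _ hhz
  refine ⟨F, hFd, hFh, ?_⟩
  -- Step 7: the monic equation for `F`.
  intro z₀ hz₀
  by_cases hhz₀ : h z₀ = 0
  · -- by continuity
    set Φ : ℂ → ℂ := fun z ↦ F z ^ n + ∑ i ∈ Finset.range n, b i z * F z ^ i with hΦ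
    have hFc : ContinuousAt F z₀ := (hFd.continuousOn).continuousAt (hU.mem_nhds hz₀)
    have hΦc : ContinuousAt Φ z₀ := by
      refine (hFc.pow n).add (tendsto_finsetSum _ fun i hi ↦ ?_)
      exact ((hb i (Finset.mem_range.mp hi)).continuousAt (hU.mem_nhds hz₀)).mul (hFc.pow i)
    have hΦ0 : ∀ᶠ z in 𝓝[≠] z₀, Φ z = 0 := by
      have h1 := hiso z₀ hz₀
      have h2 : ∀ᶠ z in 𝓝[≠] z₀, z ∈ U :=
        nhdsWithin_le_nhds (hU.mem_nhds hz₀)
      filter_upwards [h1, h2] with z hz hzU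
      simp only [hΦ]
      rw [hFq z hz]
      exact hqeq z hzU hz
    have hlim : Tendsto Φ (𝓝[≠] z₀) (𝓝 (Φ z₀)) := hΦc.tendsto.mono_left nhdsWithin_le_nhds
    have hlim0 : Tendsto Φ (𝓝[≠] z₀) (𝓝 0) :=
      (tendsto_congr' hΦ0).mpr tendsto_const_nhds
    exact tendsto_nhds_unique hlim hlim0
  · rw [hFq z₀ hhz₀]
    exact hqeq z₀ hz₀ hhz₀

end Fermat.Agent.S23.Conv

end
-- ===== PACK-END S23/Converse.lean

-- ===== PACK-BEGIN S49/Glue.lean
section






set_option autoImplicit false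
open CuspForm CongruenceSubgroup ModularFormClass

namespace Fermat.Agent.S49

variable {N : ℕ}

theorem one_mem_strictPeriods (N : ℕ) :
    (1 : ℝ) ∈ (Subgroup.map (Matrix.SpecialLinearGroup.mapGL ℝ) (Gamma0 N)).strictPeriods :=
  CongruenceSubgroup.one_mem_strictPeriods_Gamma0 N

theorem glue_qCoeff_add (f g : CuspForm (Gamma0 N) 2) (n : ℕ) :
    qCoeff ⇑(f + g) n = qCoeff ⇑f n + qCoeff ⇑g n := by
  simp only [qCoeff, FunLike.coe_add]
  rw [ModularForm.qExpansion_add one_pos (one_mem_strictPeriods N) f g, map_add]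

theorem glue_qCoeff_smul (c : ℂ) (f : CuspForm (Gamma0 N) 2) (n : ℕ) :
    qCoeff ⇑(c • f) n = c * qCoeff ⇑f n := by
  have h1 : ⇑(c • f) = c • ⇑f := by
    ext z
    simp
  simp only [qCoeff, h1]
  rw [ModularForm.qExpansion_smul one_pos (one_mem_strictPeriods N) c f]
  simp

theorem glue_qCoeff_neg (f : CuspForm (Gamma0 N) 2) (n : ℕ) :
    qCoeff ⇑(-f) n = - qCoeff ⇑f n := by
  have : -f = (-1 : ℂ) • f := by simp
  rw [this, glue_qCoeff_smul]
  ring

theorem glue_qCoeff_sub (f g : CuspForm (Gamma0 N) 2) (n : ℕ) :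
    qCoeff ⇑(f - g) n = qCoeff ⇑f n - qCoeff ⇑g n := by
  rw [sub_eq_add_neg, glue_qCoeff_add, glue_qCoeff_neg, sub_eq_add_neg]

theorem glue_qCoeff_zero_idx (f : CuspForm (Gamma0 N) 2) : qCoeff ⇑f 0 = 0 := by
  simp only [qCoeff]
  exact CuspFormClass.qExpansion_coeff_zero f one_pos (one_mem_strictPeriods N)

theorem glue_eq_zero_of_qCoeff (f : CuspForm (Gamma0 N) 2) (h : ∀ n, qCoeff ⇑f n = 0) :
    f = 0 := by
  have h0 : UpperHalfPlane.qExpansion 1 ⇑f = 0 := by
    ext n
    simpa [qCoeff] using h n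
  have hper := SlashInvariantFormClass.periodic_comp_ofComplex f (one_mem_strictPeriods N)
  haveI : Fact (IsCusp OnePoint.infty
      (Subgroup.map (Matrix.SpecialLinearGroup.mapGL ℝ) (Gamma0 N))) :=
    ⟨Subgroup.isCusp_of_mem_strictPeriods one_pos (one_mem_strictPeriods N)⟩
  have := (UpperHalfPlane.qExpansion_eq_zero_iff one_pos hper (ModularFormClass.holo f)
    (ModularFormClass.bdd_at_infty f)).mp h0
  exact DFunLike.coe_injective (this.trans CuspForm.coe_zero.symm)

theorem glue_qCoeff_heckeTLin {p : ℕ} (hp : p.Prime) (hpN : ¬ p ∣ N)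
    (f : CuspForm (Gamma0 N) 2) (n : ℕ) :
    qCoeff ⇑(CuspForm.heckeTLin 2 hp hpN f) n =
      qCoeff ⇑f (n * p) + if p ∣ n then (p : ℂ) * qCoeff ⇑f (n / p) else 0 := by
  rw [CuspForm.coe_heckeTLin_apply,
    ModularFormClass.qCoeff_heckeT f (one_mem_strictPeriods N) hp.ne_zero n,
    ModularForm.coeffHeckeT_apply]
  norm_num

theorem glue_qCoeff_heckeULin [NeZero N] {p : ℕ} (hp : p.Prime) (hpN : p ∣ N)
    (f : CuspForm (Gamma0 N) 2) (n : ℕ) :
    qCoeff ⇑(CuspForm.heckeULin 2 hpN f) n = qCoeff ⇑f (n * p) := by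
  rw [CuspForm.coe_heckeULin_apply,
    ModularFormClass.qCoeff_heckeU f (one_mem_strictPeriods N) hp.ne_zero n,
    ModularForm.coeffHeckeU_apply]

end Fermat.Agent.S49

end
-- ===== PACK-END S49/Glue.lean

-- ===== PACK-BEGIN S49/GoingUp.lean
section


set_option autoImplicit false

namespace Fermat.Agent.S49

/-- (D) going up: a maximal ideal of `ℤ̄` lying over a maximal ideal containing the kernel. -/
theorem exists_maximal_over {A : Type*} [CommRing A] (χ : A →+* integralClosure ℤ ℂ)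
    (𝔫 : Ideal A) [𝔫.IsMaximal] (h : RingHom.ker χ ≤ 𝔫) :
    ∃ 𝔪' : Ideal (integralClosure ℤ ℂ), 𝔪'.IsMaximal ∧ ∀ t ∈ 𝔫, χ t ∈ 𝔪' := by
  letI : Algebra A (integralClosure ℤ ℂ) := χ.toAlgebra
  have hint : Algebra.IsIntegral A (integralClosure ℤ ℂ) :=
    ⟨fun x => (Algebra.IsIntegral.isIntegral (R := ℤ) x).tower_top⟩
  obtain ⟨Q, hQ, hQc⟩ := Ideal.exists_ideal_over_maximal_of_isIntegral 𝔫 h
  refine ⟨Q, hQ, fun t ht => ?_⟩
  have : t ∈ Q.comap (algebraMap A (integralClosure ℤ ℂ)) := hQc ▸ ht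
  exact this

end Fermat.Agent.S49

end
-- ===== PACK-END S49/GoingUp.lean

-- ===== PACK-BEGIN Lib/Newform/H958/X/Spec.lean
section




/-!
# NEWFORM, block X: cross-level strong multiplicity one via Hecke `L`-functions

Cross-level strong multiplicity one is *not* accessible by the Petersson-free algebra of the
rest of the library (level raising congruences show that any proof must use an Archimedean
input).  Mathlib has the completed `L`-function of a modular form with its functional equation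
(`Mathlib/NumberTheory/ModularForms/LFunction.lean`), and this is enough:

* `f`, `g` Prelude-newforms of levels `N`, `N'` with `a_ℓ(f) = a_ℓ(g)` for all primes `ℓ` outside
  a finite set `T ⊇ primes (N N')`.  Depleting at `T` gives, for `Re s > 2`,
  `Λ_f(s) ∏_{p ∈ T} P_{f,p}(p^{-s}) = Λ_g(s) ∏_{p ∈ T} P_{g,p}(p^{-s})`, hence for all `s`.
* Functional equations `Λ_f(2 - s) = - w_f N^{s-1} Λ_f(s)` (`w_f = ±1` by same-level
  multiplicity one) and the same for `g` give an identity between finite Dirichlet polynomials,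
  which splits prime by prime (independence of the functions `p^{-s}`):
  `X^{e'} P~_f P_g = c X^{e} P_f P~_g`, `e = v_q(N)`, `e' = v_q(N')`, `P~(X) = X² P(q⁻²/X)`.
* With `a_q ∈ {0, ±1}` at bad primes (`BadCoeff`) a coefficient comparison gives `e = e'` and
  `P_f = P_g`, except in the case `e = 1`, `e' = 0`, where it gives `a_q(g) = ±(q + 1)`; this
  is excluded by the strict trivial bound (helper263).  The case `e ≥ 2 > e'`, which is all
  that the Carayol-type statement S36 needs, does not use the strict bound.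

Every statement below is a `Prop`-valued definition (frozen interface).
-/

set_option autoImplicit false

open CongruenceSubgroup UpperHalfPlane Complex Polynomial
open scoped MatrixGroups ModularForm

namespace Fermat.Agent.Lib.Newform.H958.X

open ModularFormClass

/-- The Fricke matrix `[[0, -1], [N, 0]]`. -/
noncomputable def frickeMatrix (N : ℕ) [NeZero N] : GL (Fin 2) ℝ :=
  Matrix.GeneralLinearGroup.mkOfDetNeZero !![0, -1; (N : ℝ), 0]
    (by
      rw [Matrix.det_fin_two_of]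
      have : (N : ℝ) ≠ 0 := Nat.cast_ne_zero.mpr (NeZero.ne N)
      simpa using this)

/-- The completed `L`-function of a cusp form of weight `2` and level `Γ₀(N)` (Mathlib's). -/
noncomputable def Lam {N : ℕ} [NeZero N] (f : CuspForm (Gamma0 N) 2) : ℂ → ℂ :=
  ModularForm.Λ (k := 2) two_pos f

/-- The Euler polynomial `1 - a_p X + [p ∤ N] p X²`. -/
noncomputable def eulerPoly (N : ℕ) (a : ℕ → ℂ) (p : ℕ) : ℂ[X] :=
  1 - C (a p) * X + (if p ∣ N then 0 else C (p : ℂ) * X ^ 2)

/-- The reversed Euler polynomial `X² P(p⁻² X⁻¹) = X² - a_p p⁻² X + [p ∤ N] p⁻³`. -/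
noncomputable def eulerPolyRev (N : ℕ) (a : ℕ → ℂ) (p : ℕ) : ℂ[X] :=
  X ^ 2 - C (a p * ((p : ℂ) ^ 2)⁻¹) * X + (if p ∣ N then 0 else C (((p : ℂ) ^ 3)⁻¹))

/-! ## Leaves -/

/-- **X1** the Fricke involution preserves `S₂(Γ₀(N))`. -/
def FrickeOp : Prop :=
  ∀ (N : ℕ) [NeZero N] (f : CuspForm (Gamma0 N) 2),
    ∃ f' : CuspForm (Gamma0 N) 2, (⇑f' : ℍ → ℂ) = ⇑f ∣[(2 : ℤ)] frickeMatrix N

/-- **X1b** it is an involution (weight 2). -/
def FrickeInvol : Prop :=
  ∀ (N : ℕ) [NeZero N] (f : ℍ → ℂ),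
    (f ∣[(2 : ℤ)] frickeMatrix N) ∣[(2 : ℤ)] frickeMatrix N = f

/-- **X1c** it commutes with `T_ℓ`, `ℓ ∤ N`, on `Γ₀(N)`-invariant functions. -/
def FrickeHecke : Prop :=
  ∀ (N : ℕ) [NeZero N] (ℓ : ℕ), ℓ.Prime → ¬ ℓ ∣ N → ∀ f : CuspForm (Gamma0 N) 2,
    ModularForm.heckeT 2 ℓ (⇑f ∣[(2 : ℤ)] frickeMatrix N) =
      (ModularForm.heckeT 2 ℓ ⇑f) ∣[(2 : ℤ)] frickeMatrix N

/-- **X3** functional equation (from Mathlib's `WeakFEPair.functional_equation` for
`ModularForm.weakFEPair`, `ε = I² = -1`, and `(f ∣ S)(i t) = N⁻¹ (f ∣ W_N)(i t / N)`). -/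
def FunctionalEq : Prop :=
  ∀ (N : ℕ) [NeZero N] (f f' : CuspForm (Gamma0 N) 2),
    (⇑f' : ℍ → ℂ) = ⇑f ∣[(2 : ℤ)] frickeMatrix N →
    ∀ s : ℂ, Lam f (2 - s) = -((N : ℂ) ^ (s - 1)) * Lam f' s

/-- **X4** Dirichlet series (Mathlib's `CuspForm.hasSum_L`, width `1`). -/
def DirichletSeries : Prop :=
  ∀ (N : ℕ) [NeZero N] (f : CuspForm (Gamma0 N) 2) (s : ℂ), 2 < s.re →
    HasSum (fun n : ℕ => qCoeff f n / (n : ℂ) ^ s) (Lam f s * (2 / Gammaℂ s))

/-- **X5** depletion: multiplying by the Euler polynomials at the primes of a finite set `T`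
removes the coefficients `a_n` with `gcd(n, T) ≠ 1`. -/
def Deplete : Prop :=
  ∀ (N : ℕ) [NeZero N] (f : CuspForm (Gamma0 N) 2), f.IsNormalizedEigenform →
    ∀ (T : Finset ℕ), (∀ p ∈ T, p.Prime) → ∀ s : ℂ, 2 < s.re →
      HasSum (fun n : ℕ => (if ∀ p ∈ T, ¬ p ∣ n then qCoeff f n else 0) / (n : ℂ) ^ s)
        (Lam f s * (2 / Gammaℂ s) *
          ∏ p ∈ T, (eulerPoly N (qCoeff f) p).eval ((p : ℂ) ^ (-s)))

/-- **X7** independence of the functions `p^{-s}`: an identity between products of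
one-variable polynomials in `p^{-s}`, `p ∈ T`, splits prime by prime, up to constants. -/
def IndepLocal : Prop :=
  ∀ (T : Finset ℕ), (∀ p ∈ T, p.Prime) → ∀ (A B : ℕ → ℂ[X]),
    (∀ p ∈ T, A p ≠ 0) → (∀ p ∈ T, B p ≠ 0) →
    (∀ s : ℂ, ∏ p ∈ T, (A p).eval ((p : ℂ) ^ (-s)) = ∏ p ∈ T, (B p).eval ((p : ℂ) ^ (-s))) →
    ∀ q ∈ T, ∃ c : ℂ, c ≠ 0 ∧ A q = C c * B q

/-- **STRICT** (helper263): strict trivial bound, in the form used here. -/
def StrictBound : Prop :=
  ∀ (N : ℕ) [NeZero N] (g : CuspForm (Gamma0 N) 2), g.IsNormalizedEigenform →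
    ∀ ℓ : ℕ, ℓ.Prime → ¬ ℓ ∣ N → qCoeff g ℓ ^ 2 ≠ ((ℓ : ℂ) + 1) ^ 2

/-- **MULT-ONE** (same level; copy of `H23.MultOne`, to keep this file independent). -/
def MultOne : Prop :=
  ∀ (N : ℕ) [NeZero N] (f : CuspForm (Gamma0 N) 2), f.IsNewform →
    ∀ h : CuspForm (Gamma0 N) 2,
      (∀ (ℓ : ℕ) (hℓ : ℓ.Prime) (hℓN : ¬ ℓ ∣ N),
        CuspForm.heckeTLin 2 hℓ hℓN h = qCoeff f ℓ • h) →
      h = qCoeff h 1 • f

/-! ## Targets -/

/-- **X-LOCAL**: the local identity at every prime, for two newforms with the same eigenvalues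
outside a finite set. -/
def LocalIdentity : Prop :=
  ∀ (N N' : ℕ) [NeZero N] [NeZero N'] (f : CuspForm (Gamma0 N) 2)
    (g : CuspForm (Gamma0 N') 2), f.IsNewform → g.IsNewform →
    ∀ S : Finset ℕ, (∀ ℓ : ℕ, ℓ.Prime → ℓ ∉ S → qCoeff f ℓ = qCoeff g ℓ) →
    ∀ q : ℕ, q.Prime → ∃ c : ℂ, c ≠ 0 ∧
      X ^ (N'.factorization q) * eulerPolyRev N (qCoeff f) q * eulerPoly N' (qCoeff g) q =
        C c * (X ^ (N.factorization q) * eulerPoly N (qCoeff f) q *
          eulerPolyRev N' (qCoeff g) q)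

/-- **X-SQ** (what S36 needs): if a newform of level `N` and a normalized eigenform of level
`N'` have the same eigenvalues outside a finite set of primes, then `q² ∣ N → q² ∣ N'`. -/
def CrossLevelSq : Prop :=
  ∀ (N N' : ℕ) [NeZero N] [NeZero N'] (f : CuspForm (Gamma0 N) 2)
    (g : CuspForm (Gamma0 N') 2), f.IsNewform → g.IsNormalizedEigenform →
    ∀ S : Finset ℕ, (∀ ℓ : ℕ, ℓ.Prime → ℓ ∉ S → qCoeff f ℓ = qCoeff g ℓ) →
    ∀ q : ℕ, q.Prime → q ^ 2 ∣ N → q ^ 2 ∣ N'

/-- **X-LEVEL**: the level of a newform divides the level of every normalized eigenform with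
the same eigenvalues outside a finite set of primes. -/
def CrossLevel : Prop :=
  ∀ (N N' : ℕ) [NeZero N] [NeZero N'] (f : CuspForm (Gamma0 N) 2)
    (g : CuspForm (Gamma0 N') 2), f.IsNewform → g.IsNormalizedEigenform →
    ∀ S : Finset ℕ, (∀ ℓ : ℕ, ℓ.Prime → ℓ ∉ S → qCoeff f ℓ = qCoeff g ℓ) → N ∣ N'

/-- **X-SMO**: strong multiplicity one for Prelude-newforms. -/
def StrongMultOne : Prop :=
  ∀ (N N' : ℕ) [NeZero N] [NeZero N'] (f : CuspForm (Gamma0 N) 2)
    (g : CuspForm (Gamma0 N') 2), f.IsNewform → g.IsNewform →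
    ∀ S : Finset ℕ, (∀ ℓ : ℕ, ℓ.Prime → ℓ ∉ S → qCoeff f ℓ = qCoeff g ℓ) →
    N = N' ∧ ∀ n : ℕ, qCoeff f n = qCoeff g n

end Fermat.Agent.Lib.Newform.H958.X

end
-- ===== PACK-END Lib/Newform/H958/X/Spec.lean

-- ===== PACK-BEGIN Lib/Newform/H958/Spec.lean
section



/-!
# Shared library NEWFORM — frozen interface (all statements are `Prop`-valued definitions)

Prelude facts that make the whole library *Petersson-free*:

* `CuspForm.IsNormalizedEigenform` is a condition on the `q`-coefficients only;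
* `CuspForm.IsNewform` / `IsNewformAt` mean: the eigensystem away from the level does not
  occur (for a normalized eigenform) at a smaller level;
* `⇑(heckeTLin k hp hpN f) = ModularForm.heckeT k p ⇑f` and
  `⇑(heckeULin k hqN f) = ModularForm.heckeU k q ⇑f` hold by `rfl`, so the function-level
  Hecke operators do not depend on the level.

Leaf interfaces (to be proved by the blocks): `EigenT`, `EigenU`, `Incl`, `Occurs`,
`LowerU`, `TraceAL`.  The assembly (`MainOf.lean`) derives from them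

* `CuspForm.NewformBadPrimeCoeff N` (and the `IsNewformAt` versions),
* descent to a newform, and
* monotonicity of the level (stabilisation) with control of all good eigenvalues.
-/

set_option autoImplicit false

open CongruenceSubgroup
open scoped MatrixGroups

namespace Fermat.Agent.Lib.Newform.H958

/-- **E2T**: a normalized eigenform is an eigenvector of `T_p`, `p ∤ N`, with eigenvalue `a_p`. -/
def EigenT : Prop :=
  ∀ (N : ℕ) (g : CuspForm (Gamma0 N) 2), g.IsNormalizedEigenform →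
    ∀ (p : ℕ) (hp : p.Prime) (hpN : ¬ p ∣ N),
      CuspForm.heckeTLin 2 hp hpN g = ModularFormClass.qCoeff g p • g

/-- **E2U**: a normalized eigenform is an eigenvector of `U_p`, `p ∣ N`, with eigenvalue `a_p`. -/
def EigenU : Prop :=
  ∀ (N : ℕ) [NeZero N] (g : CuspForm (Gamma0 N) 2), g.IsNormalizedEigenform →
    ∀ (p : ℕ) (_ : p.Prime) (hpN : p ∣ N),
      CuspForm.heckeULin 2 hpN g = ModularFormClass.qCoeff g p • g

/-- **INCL**: a cusp form of level `M` is a cusp form of every level `C` with `M ∣ C`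
(same function). -/
def Incl : Prop :=
  ∀ (M C : ℕ), M ∣ C → ∀ g : CuspForm (Gamma0 M) 2,
    ∃ h : CuspForm (Gamma0 C) 2, (⇑h : UpperHalfPlane → ℂ) = ⇑g

/-- **OCC**: if a nonzero cusp form of level `M` is an eigenvector of `T_ℓ` with eigenvalue
`a ℓ` for all primes `ℓ ∤ M` in a set `P`, then there is a *normalized eigenform* of level `M`
with `a_ℓ = a ℓ` for all those `ℓ`. -/
def Occurs : Prop :=
  ∀ (M : ℕ) [NeZero M] (h : CuspForm (Gamma0 M) 2), h ≠ 0 →
    ∀ (P : Set ℕ) (a : ℕ → ℂ),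
      (∀ (ℓ : ℕ) (hℓ : ℓ.Prime) (hℓM : ¬ ℓ ∣ M), ℓ ∈ P →
        CuspForm.heckeTLin 2 hℓ hℓM h = a ℓ • h) →
      ∃ g : CuspForm (Gamma0 M) 2, g.IsNormalizedEigenform ∧
        ∀ ℓ : ℕ, ℓ.Prime → ¬ ℓ ∣ M → ℓ ∈ P → ModularFormClass.qCoeff g ℓ = a ℓ

/-- **LOWER-U**: if `q² ∣ N` then `U_q` maps level `N` to level `N / q`. -/
def LowerU : Prop :=
  ∀ (N q : ℕ) [NeZero N], q.Prime → q ^ 2 ∣ N → ∀ f : CuspForm (Gamma0 N) 2,
    ∃ g : CuspForm (Gamma0 (N / q)) 2,
      (⇑g : UpperHalfPlane → ℂ) = ModularForm.heckeU 2 q ⇑f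

/-- **TRACE-AL**: for `q ∥ N` there is an operator `W` (the Atkin–Lehner involution `W_q`)
on level `N`, commuting with all `T_ℓ`, `ℓ ∤ N`, such that both `f + U_q (W f)`
(the trace of `f`) and `W f + U_q f` (the trace of `W f`) have level `N / q`. -/
def TraceAL : Prop :=
  ∀ (N q : ℕ) [NeZero N], q.Prime → q ∣ N → ¬ q ^ 2 ∣ N →
    ∃ W : CuspForm (Gamma0 N) 2 →ₗ[ℂ] CuspForm (Gamma0 N) 2,
      (∀ (ℓ : ℕ) (hℓ : ℓ.Prime) (hℓN : ¬ ℓ ∣ N) (f : CuspForm (Gamma0 N) 2),
        W (CuspForm.heckeTLin 2 hℓ hℓN f) = CuspForm.heckeTLin 2 hℓ hℓN (W f)) ∧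
      (∀ f : CuspForm (Gamma0 N) 2, ∃ g : CuspForm (Gamma0 (N / q)) 2,
        (⇑g : UpperHalfPlane → ℂ) = ⇑f + ModularForm.heckeU 2 q ⇑(W f)) ∧
      (∀ f : CuspForm (Gamma0 N) 2, ∃ g : CuspForm (Gamma0 (N / q)) 2,
        (⇑g : UpperHalfPlane → ℂ) = ⇑(W f) + ModularForm.heckeU 2 q ⇑f)

/-! ## Targets (what the consumers use) -/

/-- **BAD-AT**: the coefficient at a bad prime of a form that is new at that prime. -/
def BadCoeffAt : Prop :=
  ∀ (N : ℕ) [NeZero N] (f : CuspForm (Gamma0 N) 2) (q : ℕ), q.Prime → f.IsNewformAt q →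
    (¬ q ^ 2 ∣ N → ModularFormClass.qCoeff f q ^ 2 = 1) ∧
    (q ^ 2 ∣ N → ModularFormClass.qCoeff f q = 0)

/-- **BAD**: the Prelude's `NewformBadPrimeCoeff` at all positive levels. -/
def BadCoeff : Prop := ∀ (N : ℕ) [NeZero N], CuspForm.NewformBadPrimeCoeff N

/-- **DESCENT**: every normalized eigenform comes from a newform of a level dividing its
level, with the same eigenvalues away from the level. -/
def Descent : Prop :=
  ∀ (N : ℕ) [NeZero N] (f : CuspForm (Gamma0 N) 2), f.IsNormalizedEigenform →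
    ∃ (M : ℕ) (_ : M ∣ N) (g : CuspForm (Gamma0 M) 2), g.IsNewform ∧
      ∀ ℓ : ℕ, ℓ.Prime → ¬ ℓ ∣ N → ModularFormClass.qCoeff g ℓ = ModularFormClass.qCoeff f ℓ

/-- **STAB**: a normalized eigenform of level `M` gives a normalized eigenform of every
positive level `C` divisible by `M`, with the same eigenvalues at *all* primes `ℓ ∤ C`. -/
def Stab : Prop :=
  ∀ (M C : ℕ) [NeZero C], M ∣ C → ∀ g : CuspForm (Gamma0 M) 2, g.IsNormalizedEigenform →
    ∃ g' : CuspForm (Gamma0 C) 2, g'.IsNormalizedEigenform ∧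
      ∀ ℓ : ℕ, ℓ.Prime → ¬ ℓ ∣ C → ModularFormClass.qCoeff g' ℓ = ModularFormClass.qCoeff g ℓ

end Fermat.Agent.Lib.Newform.H958

end
-- ===== PACK-END Lib/Newform/H958/Spec.lean

-- ===== PACK-BEGIN Lib/Newform/H443/EigenDescent.lean
section
/-
NEWFORM library (helper443) — linear algebra for STRONG MULTIPLICITY ONE.

`exists_eigenvector_of_equivariant`:  let `S i` be commuting endomorphisms of a finite-dimensional
space `V`, `T i` endomorphisms of `W`, `Φ : V → W` an equivariant linear map.  If a NONZERO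
simultaneous eigenvector `h` of the `T i` (eigenvalues `a i`) lies in the range of `Φ`, then the
`S i` have a nonzero simultaneous eigenvector in `V` with the SAME eigenvalues `a i`.
(No hypothesis on the field: the eigenvalues are given.)

`exists_eigenvector_of_equivariant_family`: the same for a finite family `Φ j : V j → W`
and `h ∈ ⨆ j, range (Φ j)`: the eigensystem occurs in one of the `V j`.

Intended use: `V j = S_2(Γ₀(N/q))` (two copies per prime `q ∣ N`), `Φ j` = degeneracy maps,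
`W = S_2(Γ₀(N))`, `T i = T_ℓ` for `ℓ ∤ N`:  an eigenvector in the old space has its eigensystem
at a lower level.
-/


set_option autoImplicit false

namespace Fermat.Agent.Lib.Newform.H443

open Module

section LemmaA

variable {K V ι : Type*} [Field K] [AddCommGroup V] [Module K V]

/-- Commuting operators `S i` on a nonzero finite-dimensional stable subspace `U` on which every
`S i - a i` is locally nilpotent have a common eigenvector in `U` with eigenvalues `a i`. -/
theorem exists_common_eigenvector_of_locally_nilpotent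
    (S : ι → Module.End K V) (hS : ∀ i j, Commute (S i) (S j)) (a : ι → K) :
    ∀ (U : Submodule K V), FiniteDimensional K U → U ≠ ⊥ → (∀ i, ∀ v ∈ U, S i v ∈ U) →
      (∀ i, ∀ v ∈ U, ∃ n : ℕ, ((S i - a i • (1 : Module.End K V)) ^ n) v = 0) →
      ∃ v ∈ U, v ≠ 0 ∧ ∀ i, S i v = a i • v := by
  intro U
  induction hd : finrank K U using Nat.strong_induction_on generalizing U with
  | _ d ih =>
    intro hfin hU hstab hnil
    by_cases hall : ∀ i, ∀ v ∈ U, S i v = a i • v
    · obtain ⟨v, hv, hv0⟩ := Submodule.exists_mem_ne_zero_of_ne_bot hU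
      exact ⟨v, hv, hv0, fun i => hall i v hv⟩
    · push Not at hall
      obtain ⟨i, v₀, hv₀U, hv₀⟩ := hall
      set Ni : Module.End K V := S i - a i • (1 : Module.End K V) with hNi
      have hNi_apply : ∀ v, Ni v = S i v - a i • v := fun v => by simp [hNi]
      have hNiU : ∀ v ∈ U, Ni v ∈ U := fun v hv => by
        rw [hNi_apply]; exact U.sub_mem (hstab i v hv) (U.smul_mem _ hv)
      have hNipowU : ∀ n : ℕ, ∀ v ∈ U, (Ni ^ n) v ∈ U := by
        intro n
        induction n with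
        | zero => intro v hv; simpa using hv
        | succ n ihn =>
          intro v hv
          rw [pow_succ', Module.End.mul_apply]
          exact hNiU _ (ihn v hv)
      -- the subspace `U ⊓ ker Ni`
      set U' : Submodule K V := U ⊓ LinearMap.ker Ni with hU'
      have hU'le : U' ≤ U := inf_le_left
      -- it is nonzero
      have hU'ne : U' ≠ ⊥ := by
        classical
        have hex : ∃ n : ℕ, (Ni ^ n) v₀ = 0 := hnil i v₀ hv₀U
        have hv₀ne : v₀ ≠ 0 := by
          rintro rfl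
          exact hv₀ (by simp)
        have hn0 : Nat.find hex ≠ 0 := by
          intro h0
          have := Nat.find_spec hex
          rw [h0] at this
          exact hv₀ne (by simpa using this)
        obtain ⟨m, hm⟩ := Nat.exists_eq_succ_of_ne_zero hn0
        have hmin : (Ni ^ m) v₀ ≠ 0 := Nat.find_min hex (by omega)
        have hker : Ni ((Ni ^ m) v₀) = 0 := by
          have := Nat.find_spec hex
          rw [hm, Nat.succ_eq_add_one, pow_succ', Module.End.mul_apply] at this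
          exact this
        intro hbot
        have hmem : (Ni ^ m) v₀ ∈ U' :=
          Submodule.mem_inf.mpr ⟨hNipowU m v₀ hv₀U, LinearMap.mem_ker.mpr hker⟩
        rw [hbot] at hmem
        exact hmin (by simpa using hmem)
      -- it is stable
      have hcomm : ∀ j, Commute (S j) Ni := fun j =>
        ((hS j i).sub_right ((Commute.one_right (S j)).smul_right (a i)))
      have hU'stab : ∀ j, ∀ v ∈ U', S j v ∈ U' := by
        intro j v hv
        have hv' := Submodule.mem_inf.mp hv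
        refine Submodule.mem_inf.mpr ⟨hstab j v hv'.1, ?_⟩
        have h1 : Ni (S j v) = S j (Ni v) := by
          have := congrArg (fun f : Module.End K V => f v) (hcomm j).eq
          simpa [Module.End.mul_apply] using this.symm
        have h2 : Ni v = 0 := LinearMap.mem_ker.mp hv'.2
        rw [LinearMap.mem_ker, h1, h2, map_zero]
      -- it is proper
      have hv₀U' : v₀ ∉ U' := by
        intro hmem
        have h2 : Ni v₀ = 0 := LinearMap.mem_ker.mp (Submodule.mem_inf.mp hmem).2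
        rw [hNi_apply, sub_eq_zero] at h2
        exact hv₀ h2
      have hlt : finrank K U' < finrank K U := by
        apply Submodule.finrank_lt_finrank_of_lt
        exact lt_of_le_of_ne hU'le (fun heq => hv₀U' (heq ▸ hv₀U))
      have hfin' : FiniteDimensional K U' := Submodule.finiteDimensional_of_le hU'le
      obtain ⟨v, hv, hv0, hveig⟩ := ih (finrank K U') (hd ▸ hlt) U' rfl hfin' hU'ne hU'stab
        (fun j v hv => hnil j v (hU'le hv))
      exact ⟨v, hU'le hv, hv0, hveig⟩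

end LemmaA

section LemmaB

variable {K V W ι : Type*} [Field K] [AddCommGroup V] [Module K V] [FiniteDimensional K V]
  [AddCommGroup W] [Module K W]

/-- **Eigenvector descent.**  If a nonzero simultaneous eigenvector `h` of the `T i` lies in the
range of an equivariant map `Φ : V → W` (`V` finite-dimensional, the `S i` commuting), then the
same eigensystem occurs in `V`. -/
theorem exists_eigenvector_of_equivariant
    (S : ι → Module.End K V) (T : ι → Module.End K W) (hS : ∀ i j, Commute (S i) (S j))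
    (Φ : V →ₗ[K] W) (hΦ : ∀ i v, Φ (S i v) = T i (Φ v))
    (a : ι → K) {h : W} (hh : h ≠ 0) (hmem : h ∈ LinearMap.range Φ)
    (heig : ∀ i, T i h = a i • h) :
    ∃ v : V, v ≠ 0 ∧ ∀ i, S i v = a i • v := by
  classical
  -- the predicate on subspaces
  let Q : Submodule K V → Prop := fun U =>
    (∀ i, ∀ v ∈ U, S i v ∈ U) ∧ (∀ v ∈ U, ∃ c : K, Φ v = c • h) ∧ (∃ u ∈ U, Φ u = h)
  have hQV : Q ((Submodule.span K {h}).comap Φ) := by
    refine ⟨?_, ?_, ?_⟩
    · intro i v hv
      rw [Submodule.mem_comap, Submodule.mem_span_singleton] at hv ⊢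
      obtain ⟨c, hc⟩ := hv
      exact ⟨c * a i, by rw [hΦ, ← hc, map_smul, heig, smul_smul]⟩
    · intro v hv
      rw [Submodule.mem_comap, Submodule.mem_span_singleton] at hv
      obtain ⟨c, hc⟩ := hv
      exact ⟨c, hc.symm⟩
    · obtain ⟨u, hu⟩ := hmem
      exact ⟨u, by rw [Submodule.mem_comap, hu]; exact Submodule.mem_span_singleton_self h, hu⟩
  have hex : ∃ d : ℕ, ∃ U : Submodule K V, Q U ∧ finrank K U = d := ⟨_, _, hQV, rfl⟩
  obtain ⟨U, hQU, hUd⟩ := Nat.find_spec hex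
  have hmin : ∀ U' : Submodule K V, Q U' → finrank K U ≤ finrank K U' := by
    intro U' hQU'
    rw [hUd]
    exact Nat.find_min' hex ⟨U', hQU', rfl⟩
  obtain ⟨hstab, hline, u, huU, hu⟩ := hQU
  have hUne : U ≠ ⊥ := by
    intro hbot
    rw [hbot, Submodule.mem_bot] at huU
    rw [huU, map_zero] at hu
    exact hh hu.symm
  -- local nilpotency on `U`
  have hnil : ∀ i, ∀ v ∈ U, ∃ n : ℕ, ((S i - a i • (1 : Module.End K V)) ^ n) v = 0 := by
    intro i
    set Ni : Module.End K V := S i - a i • (1 : Module.End K V) with hNi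
    have hNi_apply : ∀ v, Ni v = S i v - a i • v := fun v => by simp [hNi]
    have hNiU : ∀ v ∈ U, Ni v ∈ U := fun v hv => by
      rw [hNi_apply]; exact U.sub_mem (hstab i v hv) (U.smul_mem _ hv)
    have hΦNi : ∀ v ∈ U, Φ (Ni v) = 0 := by
      intro v hv
      obtain ⟨c, hc⟩ := hline v hv
      rw [hNi_apply, map_sub, hΦ, map_smul, hc, map_smul, heig, smul_comm, sub_self]
    -- the restriction and its Fitting decomposition
    let f : Module.End K U := Ni.restrict hNiU
    have hfit : IsCompl (⨆ n : ℕ, LinearMap.ker (f ^ n)) (⨅ n : ℕ, LinearMap.range (f ^ n)) :=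
      LinearMap.isCompl_iSup_ker_pow_iInf_range_pow f
    have hfpow : ∀ (n : ℕ) (x : U), ((f ^ n) x : V) = (Ni ^ n) (x : V) := by
      intro n
      induction n with
      | zero => intro x; simp
      | succ n ihn =>
        intro x
        rw [pow_succ', pow_succ', Module.End.mul_apply, Module.End.mul_apply]
        show Ni ((f ^ n) x : V) = _
        rw [ihn]
    -- the generalised kernel, as a subspace of `V`
    let U₁ : Submodule K V := U ⊓ Module.End.maxGenEigenspace (S i) (a i)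
    have hU₁le : U₁ ≤ U := inf_le_left
    have hcomm : ∀ j, Commute (S j) Ni := fun j =>
      ((hS j i).sub_right ((Commute.one_right (S j)).smul_right (a i)))
    have hQU₁ : Q U₁ := by
      refine ⟨?_, fun v hv => hline v (hU₁le hv), ?_⟩
      · intro j v hv
        have hv' := Submodule.mem_inf.mp hv
        refine Submodule.mem_inf.mpr ⟨hstab j v hv'.1, ?_⟩
        have hv2 := hv'.2
        rw [Module.End.mem_maxGenEigenspace] at hv2 ⊢
        obtain ⟨n, hn⟩ := hv2
        refine ⟨n, ?_⟩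
        have h1 : (Ni ^ n) (S j v) = S j ((Ni ^ n) v) := by
          have := congrArg (fun g : Module.End K V => g v) ((hcomm j).pow_right n).eq
          simpa [Module.End.mul_apply] using this.symm
        change (Ni ^ n) (S j v) = 0
        rw [h1]
        have hn' : (Ni ^ n) v = 0 := hn
        rw [hn', map_zero]
      · -- decompose `u`
        have htop := hfit.sup_eq_top
        have hu' : (⟨u, huU⟩ : U) ∈ (⨆ n : ℕ, LinearMap.ker (f ^ n)) ⊔
            (⨅ n : ℕ, LinearMap.range (f ^ n)) := by rw [htop]; trivial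
        obtain ⟨x, hx, y, hy, hxy⟩ := Submodule.mem_sup.mp hu'
        -- `y` is in the range of `f`, so `Φ y = 0`
        have hy1 : y ∈ LinearMap.range (f ^ 1) := (Submodule.mem_iInf _).mp hy 1
        obtain ⟨w, hw⟩ := hy1
        have hΦy : Φ (y : V) = 0 := by
          rw [← hw, pow_one]
          exact hΦNi w w.2
        -- `x` is in the generalised kernel
        have hxn : ∃ n : ℕ, (f ^ n) x = 0 := by
          have hmono : Monotone (fun n : ℕ => LinearMap.ker (f ^ n)) := by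
            intro m n hmn z hz
            rw [LinearMap.mem_ker] at hz ⊢
            obtain ⟨k, rfl⟩ := Nat.exists_eq_add_of_le hmn
            rw [add_comm, pow_add, Module.End.mul_apply, hz, map_zero]
          have := (Submodule.mem_iSup_of_directed _ (Monotone.directed_le hmono)).mp hx
          obtain ⟨n, hn⟩ := this
          exact ⟨n, hn⟩
        obtain ⟨n, hn⟩ := hxn
        refine ⟨(x : V), Submodule.mem_inf.mpr ⟨x.2, ?_⟩, ?_⟩
        · rw [Module.End.mem_maxGenEigenspace]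
          refine ⟨n, ?_⟩
          have := hfpow n x
          rw [hn] at this
          exact this.symm
        · have hsum : (x : V) + (y : V) = u := by
            have := congrArg (fun z : U => (z : V)) hxy
            simpa using this
          have : Φ u = Φ (x : V) + Φ (y : V) := by rw [← hsum, map_add]
          rw [hΦy, add_zero] at this
          rw [← this, hu]
    have hU₁eq : U₁ = U := by
      apply Submodule.eq_of_le_of_finrank_le hU₁le
      exact hmin U₁ hQU₁
    intro v hv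
    have hv1 : v ∈ U₁ := hU₁eq ▸ hv
    have hv2 := (Submodule.mem_inf.mp hv1).2
    rw [Module.End.mem_maxGenEigenspace] at hv2
    exact hv2
  obtain ⟨v, -, hv0, hv⟩ := exists_common_eigenvector_of_locally_nilpotent S hS a U
    inferInstance hUne hstab hnil
  exact ⟨v, hv0, hv⟩

end LemmaB

section Family

variable {K W ι J : Type*} [Field K] [Finite J]
  {V : J → Type*} [∀ j, AddCommGroup (V j)] [∀ j, Module K (V j)]
  [∀ j, FiniteDimensional K (V j)] [AddCommGroup W] [Module K W]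

/-- **Eigenvector descent, finite family.**  If a nonzero simultaneous eigenvector `h` of the
`T i` lies in the sum of the ranges of finitely many equivariant maps `Φ j : V j → W`
(each `V j` finite-dimensional with commuting operators `S j i`), then the same eigensystem
occurs in one of the `V j`. -/
theorem exists_eigenvector_of_equivariant_family
    (S : ∀ j, ι → Module.End K (V j)) (T : ι → Module.End K W)
    (hS : ∀ j i i', Commute (S j i) (S j i'))
    (Φ : ∀ j, V j →ₗ[K] W) (hΦ : ∀ j i v, Φ j (S j i v) = T i (Φ j v))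
    (a : ι → K) {h : W} (hh : h ≠ 0) (hmem : h ∈ ⨆ j, LinearMap.range (Φ j))
    (heig : ∀ i, T i h = a i • h) :
    ∃ j, ∃ v : V j, v ≠ 0 ∧ ∀ i, S j i v = a i • v := by
  classical
  have : Fintype J := Fintype.ofFinite J
  -- the product space
  let Stot : ι → Module.End K (∀ j, V j) := fun i =>
    LinearMap.pi (fun j => (S j i).comp (LinearMap.proj j))
  let Φtot : (∀ j, V j) →ₗ[K] W := ∑ j, (Φ j).comp (LinearMap.proj j)
  have hStot_apply : ∀ i (v : ∀ j, V j) j, Stot i v j = S j i (v j) := fun i v j => rfl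
  have hΦtot_apply : ∀ v : ∀ j, V j, Φtot v = ∑ j, Φ j (v j) := by
    intro v
    simp [Φtot, LinearMap.sum_apply]
  have hcomm : ∀ i i', Commute (Stot i) (Stot i') := by
    intro i i'
    apply LinearMap.ext
    intro v
    funext j
    have := congrArg (fun g : Module.End K (V j) => g (v j)) (hS j i i').eq
    simpa [Module.End.mul_apply, hStot_apply] using this
  have hequiv : ∀ i v, Φtot (Stot i v) = T i (Φtot v) := by
    intro i v
    rw [hΦtot_apply, hΦtot_apply, map_sum]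
    exact Finset.sum_congr rfl (fun j _ => by rw [hStot_apply, hΦ])
  have hrange : h ∈ LinearMap.range Φtot := by
    have hle : (⨆ j, LinearMap.range (Φ j)) ≤ LinearMap.range Φtot := by
      apply iSup_le
      rintro j _ ⟨v, rfl⟩
      refine ⟨Pi.single j v, ?_⟩
      rw [hΦtot_apply, Finset.sum_eq_single j]
      · simp
      · intro j' _ hj'
        simp [Pi.single_eq_of_ne hj']
      · intro hj
        exact absurd (Finset.mem_univ j) hj
    exact hle hmem
  obtain ⟨v, hv0, hv⟩ := exists_eigenvector_of_equivariant Stot T hcomm Φtot hequiv a hh hrange heig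
  have hex : ∃ j, v j ≠ 0 := by
    by_contra hcon
    push Not at hcon
    exact hv0 (funext hcon)
  obtain ⟨j, hj⟩ := hex
  refine ⟨j, v j, hj, fun i => ?_⟩
  have := congrFun (hv i) j
  simpa [hStot_apply] using this

end Family

end Fermat.Agent.Lib.Newform.H443

end
-- ===== PACK-END Lib/Newform/H443/EigenDescent.lean

-- ===== PACK-BEGIN Lib/Newform/H863/X8Poly.lean
section






/-!
# NEWFORM block X, piece X8 (helper863): the polynomial identities

The local identity `X^{e'} P~_f P_g = c X^e P_f P~_g` of block X, in each of the possible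
shapes of the local Euler factors of two newforms at a prime `q` (`e = v_q(N)`, `e' = v_q(N')`):

* `caseA` (`e ≥ 2`, `e' = 0`) and `caseB` (`e ≥ 2`, `e' = 1`) are impossible;
* `caseC` (`e, e' ≥ 2`) gives `e = e'`;
* `caseD` (`e = 1`, `e' = 0`) gives `a_q(g)² = (q + 1)²`;
* `caseE` (`e = e' = 0`) gives `a_q(f) = a_q(g)`;
* `caseF` (`e = e' = 1`) gives `a_q(f) = a_q(g)`.

Pure algebra in `ℂ[X]`.
-/

set_option autoImplicit false

open Polynomial

namespace Fermat.Agent.Lib.Newform.H863.X8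

/-- Coefficients of an explicit polynomial of degree `≤ 4`. -/
theorem coeff_quartic (c0 c1 c2 c3 c4 : ℂ) (n : ℕ) :
    (C c0 + C c1 * X + C c2 * X ^ 2 + C c3 * X ^ 3 + C c4 * X ^ 4 : ℂ[X]).coeff n =
      if n = 0 then c0 else if n = 1 then c1 else if n = 2 then c2 else if n = 3 then c3
        else if n = 4 then c4 else 0 := by
  simp only [coeff_add, coeff_C_mul, coeff_X_pow, coeff_C, coeff_X]
  rcases n with _ | _ | _ | _ | _ | n <;> simp

/-- (A) `e ≥ 2`, `e' = 0` is impossible. -/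
theorem caseA (q a' c : ℂ) (hq : q ≠ 0) (hq2 : q ^ 2 ≠ 1) (e : ℕ) (he : 2 ≤ e)
    (h : X ^ 0 * X ^ 2 * (1 - C a' * X + C q * X ^ 2)
      = C c * (X ^ e * (1 : ℂ[X]) * (X ^ 2 - C (a' * (q ^ 2)⁻¹) * X + C ((q ^ 3)⁻¹)))) :
    False := by
  have hL : (X ^ 0 * X ^ 2 * (1 - C a' * X + C q * X ^ 2) : ℂ[X])
      = X ^ 2 * (C 1 + C (-a') * X + C q * X ^ 2 + C 0 * X ^ 3 + C 0 * X ^ 4) := by
    simp only [map_neg, map_one, map_zero]; ring
  have hR : (C c * (X ^ e * (1 : ℂ[X]) * (X ^ 2 - C (a' * (q ^ 2)⁻¹) * X + C ((q ^ 3)⁻¹))) : ℂ[X])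
      = X ^ e * (C (c * (q ^ 3)⁻¹) + C (-(c * (a' * (q ^ 2)⁻¹))) * X + C c * X ^ 2 + C 0 * X ^ 3
          + C 0 * X ^ 4) := by
    simp only [map_neg, map_mul, map_zero]; ring
  rw [hL, hR] at h
  have h2 := congrArg (fun p => p.coeff 2) h
  have h4 := congrArg (fun p => p.coeff 4) h
  simp only [coeff_X_pow_mul', coeff_quartic] at h2 h4
  set u := q⁻¹ with hu_def
  have hu : q * u = 1 := mul_inv_cancel₀ hq
  have h3i : (q ^ 3)⁻¹ = u ^ 3 := by rw [hu_def, inv_pow]
  rcases Nat.eq_or_lt_of_le he with rfl | he'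
  · have h2' : (1 : ℂ) = c * (q ^ 3)⁻¹ := by simpa using h2
    have h4' : q = c := by simpa using h4
    rw [h3i] at h2'
    apply hq2
    linear_combination (q ^ 2) * h2' - (q ^ 2 * u ^ 3) * h4' + ((q * u) ^ 2 + q * u + 1) * hu
  · have : ¬ e ≤ 2 := by omega
    simp [this] at h2

/-- (B) `e ≥ 2`, `e' = 1` is impossible. -/
theorem caseB (q ε' c : ℂ) (hq : q ≠ 0) (hq2 : q ^ 2 ≠ 1) (hε : ε' ^ 2 = 1) (e : ℕ)
    (he : 2 ≤ e)
    (h : X ^ 1 * X ^ 2 * (1 - C ε' * X)
      = C c * (X ^ e * (1 : ℂ[X]) * (X ^ 2 - C (ε' * (q ^ 2)⁻¹) * X))) : False := by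
  have hL : (X ^ 1 * X ^ 2 * (1 - C ε' * X) : ℂ[X])
      = X ^ 2 * (C 0 + C 1 * X + C (-ε') * X ^ 2 + C 0 * X ^ 3 + C 0 * X ^ 4) := by
    simp only [map_neg, map_one, map_zero]; ring
  have hR : (C c * (X ^ e * (1 : ℂ[X]) * (X ^ 2 - C (ε' * (q ^ 2)⁻¹) * X)) : ℂ[X])
      = X ^ e * (C 0 + C (-(c * (ε' * (q ^ 2)⁻¹))) * X + C c * X ^ 2 + C 0 * X ^ 3
          + C 0 * X ^ 4) := by
    simp only [map_neg, map_mul, map_zero]; ring
  rw [hL, hR] at h
  have h3 := congrArg (fun p => p.coeff 3) h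
  have h4 := congrArg (fun p => p.coeff 4) h
  simp only [coeff_X_pow_mul', coeff_quartic] at h3 h4
  set u := q⁻¹ with hu_def
  have hu : q * u = 1 := mul_inv_cancel₀ hq
  have h2i : (q ^ 2)⁻¹ = u ^ 2 := by rw [hu_def, inv_pow]
  rcases Nat.eq_or_lt_of_le he with rfl | he'
  · have h3' : (1 : ℂ) = -(c * (ε' * (q ^ 2)⁻¹)) := by simpa using h3
    have h4' : -ε' = c := by simpa using h4
    rw [h2i] at h3'
    apply hq2
    linear_combination (q ^ 2) * h3' + (q ^ 2 * u ^ 2) * hε + (q ^ 2 * u ^ 2 * ε') * h4'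
      + (q * u + 1) * hu
  · rcases Nat.eq_or_lt_of_le he' with rfl | he''
    · have h3' : (1 : ℂ) = 0 := by simpa using h3
      exact one_ne_zero h3'
    · have : ¬ e ≤ 3 := by omega
      simp [this] at h3

/-- (C) `e, e' ≥ 2` gives `e = e'`. -/
theorem caseC (c : ℂ) (hc : c ≠ 0) (e e' : ℕ)
    (h : X ^ e' * X ^ 2 * (1 : ℂ[X]) = C c * (X ^ e * (1 : ℂ[X]) * X ^ 2)) : e = e' := by
  have h1 := congrArg Polynomial.natDegree h
  rw [mul_one, mul_one, ← pow_add, ← pow_add, natDegree_X_pow, natDegree_C_mul_X_pow _ _ hc]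
    at h1
  omega

/-- (D) `e = 1`, `e' = 0` forces `a_q(g)² = (q + 1)²`. -/
theorem caseD (q ε a' c : ℂ) (hq : q ≠ 0) (hq1 : q ≠ 1) (hε : ε ^ 2 = 1)
    (h : X ^ 0 * (X ^ 2 - C (ε * (q ^ 2)⁻¹) * X) * (1 - C a' * X + C q * X ^ 2)
      = C c * (X ^ 1 * (1 - C ε * X) * (X ^ 2 - C (a' * (q ^ 2)⁻¹) * X + C ((q ^ 3)⁻¹)))) :
    a' ^ 2 = (q + 1) ^ 2 := by
  have hL : (X ^ 0 * (X ^ 2 - C (ε * (q ^ 2)⁻¹) * X) * (1 - C a' * X + C q * X ^ 2) : ℂ[X])
      = (C 0 + C (-(ε * (q ^ 2)⁻¹)) * X + C (1 + ε * (q ^ 2)⁻¹ * a') * X ^ 2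
          + C (-a' - ε * (q ^ 2)⁻¹ * q) * X ^ 3 + C q * X ^ 4) := by
    simp only [map_neg, map_one, map_zero, map_mul, map_add, map_sub]; ring
  have hR : (C c * (X ^ 1 * (1 - C ε * X) *
        (X ^ 2 - C (a' * (q ^ 2)⁻¹) * X + C ((q ^ 3)⁻¹))) : ℂ[X])
      = (C 0 + C (c * (q ^ 3)⁻¹) * X + C (c * (-(a' * (q ^ 2)⁻¹) - ε * (q ^ 3)⁻¹)) * X ^ 2
          + C (c * (1 + ε * (a' * (q ^ 2)⁻¹))) * X ^ 3 + C (-(c * ε)) * X ^ 4) := by
    simp only [map_neg, map_one, map_zero, map_mul, map_add, map_sub]; ring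
  rw [hL, hR] at h
  have h2 := congrArg (fun p => p.coeff 2) h
  have h4 := congrArg (fun p => p.coeff 4) h
  simp only [coeff_quartic] at h2 h4
  have h2' : 1 + ε * (q ^ 2)⁻¹ * a' = c * (-(a' * (q ^ 2)⁻¹) - ε * (q ^ 3)⁻¹) := by
    simpa using h2
  have h4' : q = -(c * ε) := by simpa using h4
  set u := q⁻¹ with hu_def
  have hu : q * u = 1 := mul_inv_cancel₀ hq
  have h2i : (q ^ 2)⁻¹ = u ^ 2 := by rw [hu_def, inv_pow]
  have h3i : (q ^ 3)⁻¹ = u ^ 3 := by rw [hu_def, inv_pow]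
  rw [h2i, h3i] at h2'
  have hqu2 : q ^ 2 * u ^ 2 = 1 := by linear_combination (q * u + 1) * hu
  have hqu3 : q ^ 3 * u ^ 3 = 1 := by linear_combination ((q * u) ^ 2 + q * u + 1) * hu
  have hc : c = -(q * ε) := by linear_combination ε * h4' - c * hε
  rw [hc] at h2'
  have E1 : 1 + ε * u ^ 2 * a' = q * ε * a' * u ^ 2 + q * u ^ 3 := by
    linear_combination h2' + (q * u ^ 3) * hε
  have E2 : q ^ 2 + ε * a' = q * ε * a' + 1 := by
    linear_combination (q ^ 2) * E1 + (-(ε * a') + q * ε * a') * hqu2 + hqu3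
  have hq1' : q - 1 ≠ 0 := sub_ne_zero.mpr hq1
  have key : ε * a' = q + 1 := by
    apply mul_left_cancel₀ hq1'
    linear_combination (-1 : ℂ) * E2
  calc a' ^ 2 = (ε * a') ^ 2 := by rw [mul_pow, hε, one_mul]
    _ = (q + 1) ^ 2 := by rw [key]

/-- (E) `e = e' = 0` gives `a_q(f) = a_q(g)`. -/
theorem caseE (q a a' c : ℂ) (hq : q ≠ 0) (hq1 : q ≠ 1)
    (h : X ^ 0 * (X ^ 2 - C (a * (q ^ 2)⁻¹) * X + C ((q ^ 3)⁻¹)) *
          (1 - C a' * X + C q * X ^ 2)
      = C c * (X ^ 0 * (1 - C a * X + C q * X ^ 2) *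
          (X ^ 2 - C (a' * (q ^ 2)⁻¹) * X + C ((q ^ 3)⁻¹)))) :
    a = a' := by
  have hL : (X ^ 0 * (X ^ 2 - C (a * (q ^ 2)⁻¹) * X + C ((q ^ 3)⁻¹)) *
        (1 - C a' * X + C q * X ^ 2) : ℂ[X])
      = (C ((q ^ 3)⁻¹) + C (-(a * (q ^ 2)⁻¹) - (q ^ 3)⁻¹ * a') * X
          + C (1 + a * (q ^ 2)⁻¹ * a' + (q ^ 3)⁻¹ * q) * X ^ 2
          + C (-a' - a * (q ^ 2)⁻¹ * q) * X ^ 3 + C q * X ^ 4) := by
    simp only [map_neg, map_one, map_zero, map_mul, map_add, map_sub]; ring
  have hR : (C c * (X ^ 0 * (1 - C a * X + C q * X ^ 2) *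
          (X ^ 2 - C (a' * (q ^ 2)⁻¹) * X + C ((q ^ 3)⁻¹))) : ℂ[X])
      = (C (c * (q ^ 3)⁻¹) + C (c * (-(a' * (q ^ 2)⁻¹) - (q ^ 3)⁻¹ * a)) * X
          + C (c * (1 + a' * (q ^ 2)⁻¹ * a + (q ^ 3)⁻¹ * q)) * X ^ 2
          + C (c * (-a - a' * (q ^ 2)⁻¹ * q)) * X ^ 3 + C (c * q) * X ^ 4) := by
    simp only [map_neg, map_one, map_zero, map_mul, map_add, map_sub]; ring
  rw [hL, hR] at h
  have h3 := congrArg (fun p => p.coeff 3) h
  have h4 := congrArg (fun p => p.coeff 4) h
  simp only [coeff_quartic] at h3 h4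
  have h3' : -a' - a * (q ^ 2)⁻¹ * q = c * (-a - a' * (q ^ 2)⁻¹ * q) := by simpa using h3
  have h4' : q = c * q := by simpa using h4
  set u := q⁻¹ with hu_def
  have hu : q * u = 1 := mul_inv_cancel₀ hq
  have h2i : (q ^ 2)⁻¹ = u ^ 2 := by rw [hu_def, inv_pow]
  rw [h2i] at h3'
  have hqu2 : q ^ 2 * u ^ 2 = 1 := by linear_combination (q * u + 1) * hu
  have hc : c = 1 := by
    have := mul_right_cancel₀ hq (show 1 * q = c * q by rw [one_mul]; exact h4')
    exact this.symm
  rw [hc, one_mul] at h3'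
  have hq1' : q - 1 ≠ 0 := sub_ne_zero.mpr hq1
  apply mul_left_cancel₀ hq1'
  linear_combination q * h3' + (a - a') * hqu2

/-- (F) `e = e' = 1` gives `a_q(f) = a_q(g)`. -/
theorem caseF (q ε ε' c : ℂ) (hq : q ≠ 0) (hq2 : q ^ 2 ≠ 1)
    (hε : ε ^ 2 = 1) (hε' : ε' ^ 2 = 1)
    (h : X ^ 1 * (X ^ 2 - C (ε * (q ^ 2)⁻¹) * X) * (1 - C ε' * X)
      = C c * (X ^ 1 * (1 - C ε * X) * (X ^ 2 - C (ε' * (q ^ 2)⁻¹) * X))) :
    ε = ε' := by
  have hL : (X ^ 1 * (X ^ 2 - C (ε * (q ^ 2)⁻¹) * X) * (1 - C ε' * X) : ℂ[X])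
      = (C 0 + C 0 * X + C (-(ε * (q ^ 2)⁻¹)) * X ^ 2
          + C (1 + ε * (q ^ 2)⁻¹ * ε') * X ^ 3 + C (-ε') * X ^ 4) := by
    simp only [map_neg, map_one, map_zero, map_mul, map_add, map_sub]; ring
  have hR : (C c * (X ^ 1 * (1 - C ε * X) * (X ^ 2 - C (ε' * (q ^ 2)⁻¹) * X)) : ℂ[X])
      = (C 0 + C 0 * X + C (-(c * (ε' * (q ^ 2)⁻¹))) * X ^ 2
          + C (c * (1 + ε' * (q ^ 2)⁻¹ * ε)) * X ^ 3 + C (-(c * ε)) * X ^ 4) := by
    simp only [map_neg, map_one, map_zero, map_mul, map_add, map_sub]; ring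
  rw [hL, hR] at h
  have h3 := congrArg (fun p => p.coeff 3) h
  have h4 := congrArg (fun p => p.coeff 4) h
  simp only [coeff_quartic] at h3 h4
  have h3' : 1 + ε * (q ^ 2)⁻¹ * ε' = c * (1 + ε' * (q ^ 2)⁻¹ * ε) := by simpa using h3
  have h4' : -ε' = -(c * ε) := by simpa using h4
  set u := q⁻¹ with hu_def
  have hu : q * u = 1 := mul_inv_cancel₀ hq
  have h2i : (q ^ 2)⁻¹ = u ^ 2 := by rw [hu_def, inv_pow]
  rw [h2i] at h3'
  have hqu2 : q ^ 2 * u ^ 2 = 1 := by linear_combination (q * u + 1) * hu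
  rcases sq_eq_one_iff.mp hε with h1 | h1 <;> rcases sq_eq_one_iff.mp hε' with h1' | h1'
  · rw [h1, h1']
  · exfalso
    subst h1 h1'
    have hc : c = -1 := by linear_combination h4'
    subst hc
    apply hq2
    -- `h3' : 1 - u² = -(1 - u²)`
    linear_combination (q ^ 2 / 2) * h3' + hqu2
  · exfalso
    subst h1 h1'
    have hc : c = -1 := by linear_combination (-1 : ℂ) * h4'
    subst hc
    apply hq2
    linear_combination (q ^ 2 / 2) * h3' + hqu2
  · rw [h1, h1']

end Fermat.Agent.Lib.Newform.H863.X8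

end
-- ===== PACK-END Lib/Newform/H863/X8Poly.lean

-- ===== PACK-BEGIN S55/Bridge/H594/Profinite.lean
section


/-!
# S55 bridge (helper594): relative transitivity and residue surjectivity for a closed subgroup

Let a profinite group `G` act continuously on a (discrete) commutative ring `B`, and let `H ≤ G`
be a closed subgroup.  Applying Mathlib's profinite invariant theory to `H` acting on `B` with
base ring the fixed subring `B^H`, we get:

* `exists_smul_eq_of_forall_fixed_mem_iff`: two primes of `B` with the same intersection with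
  `B^H` are conjugate under `H`;
* `exists_stabilizer_congr_of_forall_fixed`: if `σ ∈ G` stabilises the prime `P` and acts
  trivially on `B^H` modulo `P`, then some `h ∈ H` stabilising `P` acts as `σ` on `B ⧸ P`.
-/

set_option autoImplicit false
set_option linter.unusedSectionVars false
set_option linter.style.haveILetI false

namespace Fermat.Agent.S55.Bridge.H594

open scoped Pointwise

section abstract

variable {B : Type*} [CommRing B]
variable {G : Type*} [Group G] [MulSemiringAction G B]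
variable [TopologicalSpace G] [CompactSpace G] [TotallyDisconnectedSpace G]
variable [IsTopologicalGroup G] [TopologicalSpace B] [DiscreteTopology B] [ContinuousSMul G B]

/-- `B` is invariant over its fixed subalgebra. -/
theorem isInvariant_fixedPoints (H : Subgroup G) :
    Algebra.IsInvariant (FixedPoints.subalgebra ℤ B H) B H :=
  ⟨fun b hb => ⟨⟨b, hb⟩, rfl⟩⟩

theorem continuousSMul_subgroup (H : Subgroup G) : ContinuousSMul H B := by
  refine ⟨?_⟩
  have h1 : Continuous fun p : H × B => ((p.1 : G), p.2) :=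
    (continuous_subtype_val.comp continuous_fst).prodMk continuous_snd
  exact (continuous_smul (M := G) (X := B)).comp h1

/-- Two primes of `B` with the same `H`-fixed elements are `H`-conjugate (`H` closed). -/
theorem exists_smul_eq_of_forall_fixed_mem_iff (H : Subgroup G) (hH : IsClosed (H : Set G))
    (P Q : Ideal B) [P.IsPrime] [Q.IsPrime]
    (hPQ : ∀ b : B, (∀ h : H, h • b = b) → (b ∈ P ↔ b ∈ Q)) :
    ∃ h : H, Q = (h : G) • P := by
  haveI : CompactSpace H := isCompact_iff_compactSpace.mp hH.isCompact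
  haveI := continuousSMul_subgroup (B := B) H
  haveI := isInvariant_fixedPoints (B := B) H
  have hunder : P.under (FixedPoints.subalgebra ℤ B H) = Q.under (FixedPoints.subalgebra ℤ B H) := by
    ext ⟨b, hb⟩
    simp only [Ideal.under, Ideal.mem_comap]
    exact hPQ b hb
  obtain ⟨h, hh⟩ := Algebra.IsInvariant.exists_smul_of_under_eq_of_profinite
    (A := FixedPoints.subalgebra ℤ B H) (B := B) (G := H) P Q hunder
  exact ⟨h, hh⟩

/-- If `σ ∈ G` stabilises the prime `P` and acts trivially modulo `P` on the `H`-fixed elements,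
then there is `h ∈ H` stabilising `P` and acting as `σ` on `B ⧸ P` (`H` closed). -/
theorem exists_stabilizer_congr_of_forall_fixed (H : Subgroup G) (hH : IsClosed (H : Set G))
    (P : Ideal B) [P.IsPrime] (σ : G) (hσP : σ • P = P)
    (hσ : ∀ b : B, (∀ h : H, h • b = b) → σ • b - b ∈ P) :
    ∃ h : H, (h : G) • P = P ∧ ∀ b : B, (h : G) • b - σ • b ∈ P := by
  haveI : CompactSpace H := isCompact_iff_compactSpace.mp hH.isCompact
  haveI := continuousSMul_subgroup (B := B) H
  haveI := isInvariant_fixedPoints (B := B) H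
  let A' := FixedPoints.subalgebra ℤ B H
  let p : Ideal A' := P.under A'
  haveI : P.LiesOver p := ⟨rfl⟩
  have hmap : P = P.map (MulSemiringAction.toRingEquiv G B σ) := by
    conv_lhs => rw [← hσP]
    rfl
  let φ₀ : (B ⧸ P) ≃+* (B ⧸ P) :=
    Ideal.quotientEquiv P P (MulSemiringAction.toRingEquiv G B σ) hmap
  have hφ₀ : ∀ b : B, φ₀ (Ideal.Quotient.mk P b) = Ideal.Quotient.mk P (σ • b) := fun b => rfl
  let φ : (B ⧸ P) ≃ₐ[A' ⧸ p] (B ⧸ P) :=
    { φ₀ with
      commutes' := by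
        rintro ⟨a⟩
        show φ₀ (Ideal.Quotient.mk P (a : B)) = Ideal.Quotient.mk P (a : B)
        rw [hφ₀, Ideal.Quotient.eq]
        exact hσ a a.2 }
  obtain ⟨h, hh⟩ := Ideal.Quotient.stabilizerHom_surjective_of_profinite (G := H) p P φ
  refine ⟨h.1, ?_, fun b => ?_⟩
  · exact h.2
  · have h1 : (Ideal.Quotient.stabilizerHom P p H h) (Ideal.Quotient.mk P b) =
        φ (Ideal.Quotient.mk P b) := by rw [hh]
    rw [Ideal.Quotient.stabilizerHom_apply] at h1
    have h2 : φ (Ideal.Quotient.mk P b) = Ideal.Quotient.mk P (σ • b) := hφ₀ b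
    rw [h2, Ideal.Quotient.eq] at h1
    exact h1

end abstract

end Fermat.Agent.S55.Bridge.H594

end
-- ===== PACK-END S55/Bridge/H594/Profinite.lean

-- ===== PACK-BEGIN S13/H175/InertiaLift.lean
section


set_option autoImplicit false

/-!
# Lifting inertia elements along a closed normal subgroup of a profinite group

`G` profinite acting continuously on a discrete commutative ring `B`, `N` a closed normal
subgroup, `Q` a prime of `B`.  If `g₀ ∈ G` acts trivially modulo `Q` on the `N`-invariants of `B`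
then there is `σ ∈ g₀ N` acting trivially modulo `Q` on all of `B`.
-/

open scoped Pointwise

namespace Fermat.Agent.S13.H175

universe u

section

variable {B : Type*} [CommRing B]
variable {G : Type u} [Group G] [MulSemiringAction G B]

theorem isInvariant_fixedPoints (N : Subgroup G) :
    Algebra.IsInvariant (FixedPoints.subalgebra ℤ B N) B N :=
  ⟨fun b hb => ⟨⟨b, fun n => hb n⟩, rfl⟩⟩

theorem smul_mem_fixedPoints (N : Subgroup G) [hn : N.Normal] (g : G) {x : B}
    (hx : ∀ n ∈ N, n • x = x) : ∀ n ∈ N, n • (g • x) = g • x := by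
  intro n hnN
  have h1 : g⁻¹ * n * g ∈ N := by
    have := hn.conj_mem n hnN g⁻¹
    simpa using this
  have h2 := hx _ h1
  calc n • (g • x) = g • ((g⁻¹ * n * g) • x) := by
        simp [mul_smul]
    _ = g • x := by rw [h2]

end

variable {B : Type*} [CommRing B]
variable {G : Type u} [Group G] [MulSemiringAction G B]
variable [TopologicalSpace G] [CompactSpace G] [TotallyDisconnectedSpace G]
variable [IsTopologicalGroup G] [TopologicalSpace B] [DiscreteTopology B] [ContinuousSMul G B]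

theorem exists_inertia_lift (N : Subgroup G) [hn : N.Normal] (hN : IsClosed (N : Set G))
    (Q : Ideal B) [hQ : Q.IsPrime] (g₀ : G)
    (h₀ : ∀ x : B, (∀ n ∈ N, n • x = x) → g₀ • x - x ∈ Q) :
    ∃ σ : G, g₀⁻¹ * σ ∈ N ∧ ∀ x : B, σ • x - x ∈ Q := by
  have : CompactSpace N := isCompact_iff_compactSpace.mp hN.isCompact
  have := isInvariant_fixedPoints (B := B) N
  -- Step 1: move `g₀ • Q` back to `Q` by an element of `N`.
  have hunder : (g₀ • Q).under (FixedPoints.subalgebra ℤ B N) =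
      Q.under (FixedPoints.subalgebra ℤ B N) := by
    ext ⟨x, hx⟩
    have hx' : ∀ n ∈ N, n • x = x := fun n hn' => hx ⟨n, hn'⟩
    simp only [Ideal.mem_comap]
    show x ∈ g₀ • Q ↔ x ∈ Q
    rw [Ideal.mem_pointwise_smul_iff_inv_smul_mem]
    have hy : ∀ n ∈ N, n • (g₀⁻¹ • x) = g₀⁻¹ • x := smul_mem_fixedPoints N g₀⁻¹ hx'
    have h1 := h₀ _ hy
    rw [smul_inv_smul] at h1
    constructor
    · intro h
      have := Q.add_mem h1 h
      simpa using this
    · intro h
      have := Q.sub_mem h h1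
      simpa using this
  obtain ⟨n, hn1⟩ := Algebra.IsInvariant.exists_smul_of_under_eq_of_profinite
    (A := FixedPoints.subalgebra ℤ B N) (G := N) (g₀ • Q) Q hunder
  -- `g₁ = n g₀` stabilises `Q` and still acts trivially mod `Q` on the `N`-invariants
  set g₁ : G := (n : G) * g₀ with hg₁
  have hg₁Q : g₁ • Q = Q := by
    rw [hg₁, mul_smul]
    exact hn1.symm
  have hg₁fix : ∀ x : B, (∀ m ∈ N, m • x = x) → g₁ • x - x ∈ Q := by
    intro x hx
    have h1 : (n : G) • (g₀ • x) = g₀ • x := smul_mem_fixedPoints N g₀ hx n n.2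
    rw [hg₁, mul_smul, h1]
    exact h₀ x hx
  -- Step 2: the automorphism of `B ⧸ Q` induced by `g₁` is `B' ⧸ Q'`-linear
  let e₀ : (B ⧸ Q) ≃ₐ[ℤ ⧸ Q.under ℤ] (B ⧸ Q) :=
    Ideal.Quotient.stabilizerHom Q (Q.under ℤ) G ⟨g₁, hg₁Q⟩
  have he₀ : ∀ x : B, e₀ (Ideal.Quotient.mk Q x) = Ideal.Quotient.mk Q (g₁ • x) := fun x => rfl
  let e : (B ⧸ Q) ≃ₐ[FixedPoints.subalgebra ℤ B N ⧸ Q.under (FixedPoints.subalgebra ℤ B N)]
      (B ⧸ Q) :=
    AlgEquiv.ofRingEquiv (f := e₀.toRingEquiv) (by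
      intro x
      obtain ⟨⟨b, hb⟩, rfl⟩ := Ideal.Quotient.mk_surjective x
      have hb' : ∀ m ∈ N, m • b = b := fun m hm => hb ⟨m, hm⟩
      show e₀ (Ideal.Quotient.mk Q b) = Ideal.Quotient.mk Q b
      rw [he₀, Ideal.Quotient.eq]
      exact hg₁fix b hb')
  obtain ⟨n', hn'⟩ := Ideal.Quotient.stabilizerHom_surjective_of_profinite (G := N)
    (Q.under (FixedPoints.subalgebra ℤ B N)) Q e
  have hn'Q : (n' : N) • Q = Q := n'.2
  have hkey : ∀ x : B, ((n' : N) : G) • x - g₁ • x ∈ Q := by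
    intro x
    have h1 := congrArg (fun t => t (Ideal.Quotient.mk Q x)) hn'
    simp only [Ideal.Quotient.stabilizerHom_apply] at h1
    have h2 : e (Ideal.Quotient.mk Q x) = Ideal.Quotient.mk Q (g₁ • x) := he₀ x
    rw [h2] at h1
    exact Ideal.Quotient.eq.mp h1
  refine ⟨((n' : N) : G)⁻¹ * g₁, ?_, fun x => ?_⟩
  · have h1 : ((n' : N) : G)⁻¹ * (n : G) ∈ N := N.mul_mem (N.inv_mem (n' : N).2) n.2
    have h2 := hn.conj_mem _ h1 g₀⁻¹
    have h3 : g₀⁻¹ * (((n' : N) : G)⁻¹ * g₁) = g₀⁻¹ * (((n' : N) : G)⁻¹ * (n : G)) * g₀⁻¹⁻¹ := by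
      rw [hg₁]; group
    rw [h3]
    exact h2
  · have h1 : g₁ • x - ((n' : N) : G) • x ∈ Q := by
      have := Q.neg_mem (hkey x)
      simpa using this
    have h2 : ((n' : N) : G)⁻¹ • (g₁ • x - ((n' : N) : G) • x) ∈ Q := by
      have h3 : g₁ • x - ((n' : N) : G) • x ∈ ((n' : N) : G) • Q := by
        have : ((n' : N) : G) • Q = Q := hn'Q
        rw [this]; exact h1
      exact Ideal.mem_pointwise_smul_iff_inv_smul_mem.mp h3
    have h4 : ((n' : N) : G)⁻¹ • (g₁ • x - ((n' : N) : G) • x) =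
        (((n' : N) : G)⁻¹ * g₁) • x - x := by
      rw [smul_sub, inv_smul_smul, ← mul_smul]
    rw [← h4]
    exact h2

end Fermat.Agent.S13.H175

end
-- ===== PACK-END S13/H175/InertiaLift.lean

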