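import Mathlib
import Fermat.Prelude.Def_ModularCurve_X0
import Fermat.Prelude.Def_ModularCurve_LaurentCoeff
import Fermat.Prelude.Def_GaloisRep_Adic
import Fermat.Prelude.Def_ModularCurve_PeriodHomPair
import Fermat.Prelude.Def_AlgebraicCurve_DivisorClassGroup

-- ===== PACK-BEGIN S24/H84/Kaehler.lean
section


/-!
# Kähler differentials of a function field in one variable (helper84, S24 piece KD1)

`K` a field of characteristic zero, `F/K` a field extension, `x : F` with `F` algebraic over
`K(x)`.  Then `Ω[F⁄K]` is spanned by `D x`.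
-/

set_option autoImplicit false

open KaehlerDifferential Polynomial IntermediateField TensorProduct

namespace Fermat.Agent.S24.H84

section Kaehler

variable {K F : Type*} [Field K] [Field F] [Algebra K F]

/-- `D e ∈ span {D x}` for `e ∈ K⟮x⟯`. -/
theorem D_mem_span_of_mem_adjoin_simple (x : F) {e : F} (he : e ∈ K⟮x⟯) :
    D K F e ∈ Submodule.span F {D K F x} := by
  obtain ⟨r, s, rfl⟩ := (IntermediateField.mem_adjoin_simple_iff K e).1 he
  rw [Derivation.leibniz_div, Derivation.map_aeval, Derivation.map_aeval]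
  refine Submodule.smul_mem _ _ (Submodule.sub_mem _ ?_ ?_) <;>
  exact Submodule.smul_mem _ _ (Submodule.smul_mem _ _ (Submodule.mem_span_singleton_self _))

theorem map_mem_span_D (x : F) (y : Ω[K⟮x⟯⁄K]) :
    KaehlerDifferential.map K K K⟮x⟯ F y ∈ Submodule.span F {D K F x} := by
  have hy : y ∈ Submodule.span K⟮x⟯ (Set.range (D K K⟮x⟯)) := by
    rw [span_range_derivation]; trivial
  induction hy using Submodule.span_induction with
  | mem z hz =>
    obtain ⟨e, rfl⟩ := hz
    rw [map_D]
    exact D_mem_span_of_mem_adjoin_simple x e.2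
  | zero => simp
  | add u v _ _ hu hv => rw [map_add]; exact Submodule.add_mem _ hu hv
  | smul c u _ hu =>
    rw [map_smul, ← algebraMap_smul F c]
    exact Submodule.smul_mem _ _ hu

theorem mapBaseChange_mem_span_D (x : F) (t : F ⊗[K⟮x⟯] Ω[K⟮x⟯⁄K]) :
    KaehlerDifferential.mapBaseChange K K⟮x⟯ F t ∈ Submodule.span F {D K F x} := by
  induction t using TensorProduct.induction_on with
  | zero => simp
  | tmul b y =>
    rw [mapBaseChange_tmul]
    exact Submodule.smul_mem _ _ (map_mem_span_D x y)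
  | add a b ha hb => rw [map_add]; exact Submodule.add_mem _ ha hb

/-- If `F` is algebraic over `K⟮x⟯` (characteristic zero), then `D x` spans `Ω[F⁄K]`. -/
theorem span_D_eq_top [CharZero K] (x : F) [Algebra.IsAlgebraic K⟮x⟯ F] :
    Submodule.span F {D K F x} = ⊤ := by
  have : CharZero K⟮x⟯ := charZero_of_injective_algebraMap (algebraMap K K⟮x⟯).injective
  have : Algebra.IsSeparable K⟮x⟯ F := Algebra.IsAlgebraic.isSeparable_of_perfectField
  have : Algebra.FormallyUnramified K⟮x⟯ F := Algebra.FormallyUnramified.of_isSeparable _ _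
  have : Subsingleton Ω[F⁄K⟮x⟯] := Algebra.FormallyUnramified.subsingleton_kaehlerDifferential
  rw [eq_top_iff]
  intro ω _
  have hex := KaehlerDifferential.exact_mapBaseChange_map K K⟮x⟯ F
  have h0 : KaehlerDifferential.map K K⟮x⟯ F F ω = 0 := Subsingleton.elim _ _
  obtain ⟨t, rfl⟩ := (hex ω).1 h0
  exact mapBaseChange_mem_span_D x t

end Kaehler

end Fermat.Agent.S24.H84

end
-- ===== PACK-END S24/H84/Kaehler.lean

-- ===== PACK-BEGIN S24/H117/OrbitCount.lean
section


/-!
# S24 / H117 — an abstract orbit-counting squeeze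

Let `perm` be a permutation of a finite set `X`, `φ : X → β` a `perm`-invariant map and
`e : β → ℕ` such that `e (φ x)` divides every period of `x`.  If `#X ≤ ∑_{v ∈ range φ} e v`, then
`φ` induces a bijection between the cycles of `perm` and `range φ`, and the cycle through `x`
has exactly `e (φ x)` elements.
-/

set_option autoImplicit false

noncomputable section

open MulAction

namespace Fermat.Agent.S24.H117

variable {X β : Type*}

theorem map_eq_of_mem_orbit_zpowers (perm : Equiv.Perm X) (φ : X → β)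
    (hperm : ∀ x, φ (perm x) = φ x) {x y : X}
    (h : y ∈ orbit (Subgroup.zpowers perm) x) : φ y = φ x := by
  obtain ⟨⟨g, hg⟩, rfl⟩ := h
  obtain ⟨k, rfl⟩ := Subgroup.mem_zpowers_iff.mp hg
  show φ ((perm ^ k) x) = φ x
  have hinv : ∀ z, φ (perm⁻¹ z) = φ z := fun z => by
    have := hperm (perm⁻¹ z)
    simpa using this.symm
  induction k using Int.induction_on generalizing x with
  | zero => simp
  | succ n ih =>
    rw [zpow_add_one, Equiv.Perm.mul_apply, ih (x := perm x), hperm]
    exact Subgroup.zpow_mem _ (Subgroup.mem_zpowers perm) _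
  | pred n ih =>
    rw [zpow_sub_one, Equiv.Perm.mul_apply, ih (x := perm⁻¹ x), hinv]
    exact Subgroup.zpow_mem _ (Subgroup.mem_zpowers perm) _

theorem orbit_count_squeeze [Fintype X] [DecidableEq β] (perm : Equiv.Perm X) (φ : X → β)
    (e : β → ℕ)
    (hperm : ∀ x, φ (perm x) = φ x)
    (hdiv : ∀ x (i : ℕ), (perm ^ i) x = x → e (φ x) ∣ i)
    (hsum : Fintype.card X ≤ ∑ v ∈ Finset.univ.image φ, e v) :
    Nat.card (orbitRel.Quotient (Subgroup.zpowers perm) X) = (Finset.univ.image φ).card ∧
      (∀ x, Nat.card (orbit (Subgroup.zpowers perm) x) = e (φ x)) ∧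
      (∑ v ∈ Finset.univ.image φ, e v = Fintype.card X) := by
  classical
  -- orbit sizes
  have hper : ∀ x, e (φ x) ≤ Fintype.card (orbit (Subgroup.zpowers perm) x) := by
    intro x
    have h1 : Function.minimalPeriod (perm • ·) x
        = Fintype.card (orbit (Subgroup.zpowers perm) x) := minimalPeriod_eq_card perm x
    have h2 : (perm ^ Function.minimalPeriod (perm • ·) x) x = x := by
      have := Function.iterate_minimalPeriod (f := (perm • ·)) (x := x)
      rw [smul_iterate] at this
      exact this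
    have h3 := hdiv x _ h2
    rw [h1] at h3
    have : Nonempty (orbit (Subgroup.zpowers perm) x) := (nonempty_orbit x).to_subtype
    exact Nat.le_of_dvd Fintype.card_pos h3
  -- the orbit is inside the fibre
  have hsub : ∀ x, (Finset.univ.filter (fun y : X => y ∈ orbit (Subgroup.zpowers perm) x))
      ⊆ Finset.univ.filter (fun y : X => φ y = φ x) := by
    intro x y hy
    simp only [Finset.mem_filter, Finset.mem_univ, true_and] at hy ⊢
    exact map_eq_of_mem_orbit_zpowers perm φ hperm hy
  have hcardO : ∀ x, (Finset.univ.filter (fun y : X => y ∈ orbit (Subgroup.zpowers perm) x)).card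
      = Fintype.card (orbit (Subgroup.zpowers perm) x) := by
    intro x
    rw [Fintype.card_subtype]
  have hle : ∀ v ∈ Finset.univ.image φ, e v ≤ (Finset.univ.filter (fun y : X => φ y = v)).card := by
    intro v hv
    obtain ⟨x, -, rfl⟩ := Finset.mem_image.mp hv
    calc e (φ x) ≤ Fintype.card (orbit (Subgroup.zpowers perm) x) := hper x
      _ = _ := (hcardO x).symm
      _ ≤ _ := Finset.card_le_card (hsub x)
  have htot : Fintype.card X = ∑ v ∈ Finset.univ.image φ, (Finset.univ.filter (fun y : X => φ y = v)).card := by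
    rw [← Finset.card_univ]
    exact Finset.card_eq_sum_card_fiberwise (fun x _ => Finset.mem_image_of_mem φ (Finset.mem_univ x))
  have hsumeq : ∑ v ∈ Finset.univ.image φ, e v
      = ∑ v ∈ Finset.univ.image φ, (Finset.univ.filter (fun y : X => φ y = v)).card := by
    apply le_antisymm (Finset.sum_le_sum hle)
    rw [← htot]
    exact hsum
  have hfib : ∀ v ∈ Finset.univ.image φ, e v = (Finset.univ.filter (fun y : X => φ y = v)).card :=
    (Finset.sum_eq_sum_iff_of_le hle).mp hsumeq
  have hOeq : ∀ x, (Finset.univ.filter (fun y : X => y ∈ orbit (Subgroup.zpowers perm) x))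
      = Finset.univ.filter (fun y : X => φ y = φ x) := by
    intro x
    apply Finset.eq_of_subset_of_card_le (hsub x)
    rw [← hfib _ (Finset.mem_image_of_mem φ (Finset.mem_univ x)), hcardO]
    exact hper x
  refine ⟨?_, ?_, ?_⟩
  · -- bijection between orbits and the image
    let Φ : orbitRel.Quotient (Subgroup.zpowers perm) X → (Finset.univ.image φ : Finset β) :=
      fun ω => Quotient.liftOn' ω
        (fun x => (⟨φ x, Finset.mem_image_of_mem φ (Finset.mem_univ x)⟩ :
          (Finset.univ.image φ : Finset β)))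
        (fun a b hab => Subtype.ext (map_eq_of_mem_orbit_zpowers perm φ hperm hab))
    have hΦbij : Function.Bijective Φ := by
      constructor
      · intro ω₁ ω₂ h
        induction ω₁ using Quotient.inductionOn' with | _ x
        induction ω₂ using Quotient.inductionOn' with | _ y
        have hxy : φ x = φ y := congrArg Subtype.val h
        apply Quotient.sound'
        show x ∈ orbit (Subgroup.zpowers perm) y
        have : x ∈ Finset.univ.filter (fun z : X => φ z = φ y) := by simp [hxy]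
        rw [← hOeq y] at this
        simpa using this
      · rintro ⟨v, hv⟩
        obtain ⟨x, -, rfl⟩ := Finset.mem_image.mp hv
        exact ⟨Quotient.mk'' x, rfl⟩
    rw [Nat.card_congr (Equiv.ofBijective Φ hΦbij), Nat.card_eq_fintype_card, Fintype.card_coe]
  · intro x
    rw [Nat.card_eq_fintype_card, ← hcardO, hOeq, hfib _ (Finset.mem_image_of_mem φ (Finset.mem_univ x))]
  · rw [hsumeq, ← htot]

end Fermat.Agent.S24.H117

end
end
-- ===== PACK-END S24/H117/OrbitCount.lean

-- ===== PACK-BEGIN S29/H751/PthRootBall.lean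
section


/-!
# Holomorphic `p`-th roots on a disc (helper751, S29 / P5 / KUM + E3)

* `exists_exp_eq_on_ball`: a nowhere vanishing holomorphic function on an open disc is `exp ∘ L`.
* `exists_pow_eq_on_ball_of_ne_zero`: hence it has a holomorphic `p`-th root.
* `exists_pow_eq_on_ball`: a holomorphic function on (a neighbourhood of) a closed disc, not
  locally zero, all of whose zeros have order divisible by `p`, has a holomorphic `p`-th root on
  the open disc.
-/

set_option autoImplicit false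

open Complex Set Metric Filter Topology

namespace Fermat.Agent.S29.H751

/-- A nowhere vanishing holomorphic function on an open disc has a holomorphic logarithm. -/
theorem exists_exp_eq_on_ball {g : ℂ → ℂ} {c : ℂ} {r : ℝ}
    (hg : DifferentiableOn ℂ g (ball c r)) (hne : ∀ z ∈ ball c r, g z ≠ 0) :
    ∃ L : ℂ → ℂ, DifferentiableOn ℂ L (ball c r) ∧ ∀ z ∈ ball c r, cexp (L z) = g z := by
  by_cases hr : 0 < r
  swap
  · refine ⟨fun _ => 0, differentiableOn_const _, fun z hz => ?_⟩
    rw [ball_eq_empty.2 (not_lt.1 hr)] at hz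
    exact absurd hz (notMem_empty z)
  have hopen : IsOpen (ball c r) := isOpen_ball
  have hc : c ∈ ball c r := mem_ball_self hr
  -- the logarithmic derivative
  have hdg : DifferentiableOn ℂ (deriv g) (ball c r) := hg.deriv hopen
  have hφ : DifferentiableOn ℂ (fun z => deriv g z / g z) (ball c r) :=
    hdg.div hg hne
  obtain ⟨L₀, hL₀⟩ := hφ.isExactOn_ball
  -- `g * exp (-L₀)` has zero derivative
  set F : ℂ → ℂ := fun z => g z * cexp (-L₀ z) with hF
  have hFd : ∀ z ∈ ball c r, HasDerivAt F 0 z := by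
    intro z hz
    have h1 : HasDerivAt g (deriv g z) z :=
      (hg.differentiableAt (hopen.mem_nhds hz)).hasDerivAt
    have h2 : HasDerivAt (fun z => cexp (-L₀ z)) (cexp (-L₀ z) * (-(deriv g z / g z))) z :=
      ((hL₀ z hz).neg).cexp
    have h3 := h1.mul h2
    have : deriv g z * cexp (-L₀ z) + g z * (cexp (-L₀ z) * -(deriv g z / g z)) = 0 := by
      field_simp [hne z hz]
      ring
    rw [this] at h3
    exact h3
  have hFdiff : DifferentiableOn ℂ F (ball c r) := fun z hz =>
    (hFd z hz).differentiableAt.differentiableWithinAt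
  have hconst : ∀ z ∈ ball c r, F z = F c := by
    intro z hz
    exact hopen.is_const_of_deriv_eq_zero isPreconnected_ball hFdiff
      (fun w hw => (hFd w hw).deriv) hz hc
  have hFc : F c ≠ 0 := mul_ne_zero (hne c hc) (exp_ne_zero _)
  refine ⟨fun z => L₀ z + Complex.log (F c), ?_, ?_⟩
  · have hL₀d : DifferentiableOn ℂ L₀ (ball c r) := fun z hz =>
      (hL₀ z hz).differentiableAt.differentiableWithinAt
    exact hL₀d.add_const _
  · intro z hz
    have h := hconst z hz
    simp only [hF] at h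
    rw [Complex.exp_add, Complex.exp_log hFc]
    simp only [hF]
    rw [← h, mul_comm, mul_assoc, ← Complex.exp_add]
    simp

/-- A nowhere vanishing holomorphic function on an open disc has a holomorphic `p`-th root. -/
theorem exists_pow_eq_on_ball_of_ne_zero {g : ℂ → ℂ} {c : ℂ} {r : ℝ} (p : ℕ) (hp : p ≠ 0)
    (hg : DifferentiableOn ℂ g (ball c r)) (hne : ∀ z ∈ ball c r, g z ≠ 0) :
    ∃ u : ℂ → ℂ, DifferentiableOn ℂ u (ball c r) ∧ ∀ z ∈ ball c r, u z ^ p = g z := by
  obtain ⟨L, hL, hLg⟩ := exists_exp_eq_on_ball hg hne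
  refine ⟨fun z => cexp (L z / p), ?_, fun z hz => ?_⟩
  · exact (hL.div_const _).cexp
  · rw [← Complex.exp_nat_mul, mul_div_cancel₀ _ (Nat.cast_ne_zero.2 hp), hLg z hz]

/-- Two functions which are continuous at `x` and agree on a punctured neighbourhood of `x`
agree at `x`. -/
theorem eq_of_eventuallyEq_nhdsNE {f g : ℂ → ℂ} {x : ℂ} (hf : ContinuousAt f x)
    (hg : ContinuousAt g x) (h : ∀ᶠ z in 𝓝[≠] x, f z = g z) : f x = g x := by
  have h1 : Tendsto f (𝓝[≠] x) (𝓝 (f x)) := hf.tendsto.mono_left nhdsWithin_le_nhds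
  have h2 : Tendsto g (𝓝[≠] x) (𝓝 (g x)) := hg.tendsto.mono_left nhdsWithin_le_nhds
  exact tendsto_nhds_unique h1 (h2.congr' (h.mono fun z hz => hz.symm))

/-- A holomorphic function near a closed disc, nowhere locally zero, all of whose zeros in the
closed disc have order divisible by `p`, has a holomorphic `p`-th root on the open disc. -/
theorem exists_pow_eq_on_ball {G : ℂ → ℂ} {c : ℂ} {r : ℝ} (p : ℕ) (hp : p ≠ 0)
    (hG : AnalyticOnNhd ℂ G (closedBall c r))
    (hord : ∀ z ∈ closedBall c r, ∃ m : ℕ, analyticOrderAt G z = ((p * m : ℕ) : ℕ∞)) :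
    ∃ u : ℂ → ℂ, DifferentiableOn ℂ u (ball c r) ∧ ∀ z ∈ ball c r, u z ^ p = G z := by
  classical
  set K := closedBall c r with hK
  have hmero : MeromorphicOn G K := hG.meromorphicOn
  have hfin : (MeromorphicOn.divisor G K).support.Finite :=
    (MeromorphicOn.divisor G K).finiteSupport (isCompact_closedBall c r)
  have hordK : ∀ z ∈ K, ∃ m : ℕ, meromorphicOrderAt G z = ((p * m : ℕ) : ℤ) := by
    intro z hz
    obtain ⟨m, hm⟩ := hord z hz
    refine ⟨m, ?_⟩
    rw [(hG z hz).meromorphicOrderAt_eq, hm]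
    rfl
  have hne' : ∀ u : K, meromorphicOrderAt G u ≠ ⊤ := by
    intro u
    obtain ⟨m, hm⟩ := hordK u u.2
    rw [hm]
    exact WithTop.coe_ne_top
  obtain ⟨g, hg, hgne, hEq⟩ := hmero.extract_zeros_poles hne' hfin
  set D := MeromorphicOn.divisor G K with hD
  have hDm : ∀ u, ∃ m : ℕ, D u = ((p * m : ℕ) : ℤ) := by
    intro u
    by_cases hu : u ∈ K
    · obtain ⟨m, hm⟩ := hordK u hu
      refine ⟨m, ?_⟩
      rw [hD, MeromorphicOn.divisor_apply hmero hu, hm]
      rfl
    · refine ⟨0, ?_⟩
      have : D u = 0 := Function.locallyFinsuppWithin.apply_eq_zero_of_notMem D hu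
      simp [this]
  choose E hE using hDm
  -- the polynomial part of the root
  set ψ : ℂ → ℂ := fun z => ∏ u ∈ hfin.toFinset, (z - u) ^ (E u) with hψ
  have hψd : Differentiable ℂ ψ := by
    have : ψ = ∏ u ∈ hfin.toFinset, (fun z : ℂ => (z - u) ^ (E u)) := by
      funext z
      rw [hψ, Finset.prod_apply]
    rw [this]
    apply Differentiable.finsetProd
    intro u _
    exact (differentiable_id.sub_const u).pow _
  -- the factorised rational function is `ψ ^ p`
  have hφ : ∀ z, (∏ᶠ u, (fun x : ℂ => x - u) ^ D u) z = ψ z ^ p := by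
    intro z
    rw [Function.FactorizedRational.finprod_eq_fun hfin]
    show (∏ᶠ u, (z - u) ^ D u) = ψ z ^ p
    rw [finprod_eq_prod_of_mulSupport_subset (s := hfin.toFinset)]
    · rw [hψ]
      simp only
      rw [← Finset.prod_pow]
      refine Finset.prod_congr rfl fun u _ => ?_
      rw [hE u, zpow_natCast, ← pow_mul, mul_comm]
    · intro u hu
      simp only [Function.mem_mulSupport, ne_eq] at hu
      simp only [Set.Finite.coe_toFinset, Function.mem_support, ne_eq]
      intro h0
      exact hu (by rw [h0]; simp)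
  -- root of the unit part
  have hgd : DifferentiableOn ℂ g (ball c r) :=
    (hg.mono ball_subset_closedBall).differentiableOn
  obtain ⟨w, hwd, hw⟩ := exists_pow_eq_on_ball_of_ne_zero p hp hgd
    (fun z hz => hgne ⟨z, ball_subset_closedBall hz⟩)
  refine ⟨fun z => ψ z * w z, hψd.differentiableOn.mul hwd, fun z hz => ?_⟩
  rw [mul_pow, hw z hz, ← hφ z]
  -- upgrade the codiscrete equality to an equality at `z`
  have hS := hEq
  rw [Filter.EventuallyEq, Filter.Eventually, mem_codiscreteWithin] at hS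
  have hzK : z ∈ K := ball_subset_closedBall hz
  have h1 := hS z hzK
  rw [Filter.disjoint_principal_right] at h1
  have h2 : ∀ᶠ y in 𝓝[≠] z, y ∈ K := by
    have : ball c r ∈ 𝓝 z := isOpen_ball.mem_nhds hz
    exact mem_nhdsWithin_of_mem_nhds (Filter.mem_of_superset this ball_subset_closedBall)
  have h3 : ∀ᶠ y in 𝓝[≠] z, G y = ((∏ᶠ u, (fun x : ℂ => x - u) ^ D u) • g) y := by
    filter_upwards [h1, h2] with y hy1 hy2
    by_contra hcon
    exact hy1 ⟨hy2, hcon⟩
  have hcG : ContinuousAt G z := (hG z hzK).continuousAt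
  have hcR : ContinuousAt (fun y => ((∏ᶠ u, (fun x : ℂ => x - u) ^ D u) • g) y) z := by
    have : (fun y => ((∏ᶠ u, (fun x : ℂ => x - u) ^ D u) • g) y) = fun y => ψ y ^ p * g y := by
      funext y
      simp only [Pi.smul_apply', smul_eq_mul, hφ y]
    rw [this]
    exact ((hψd.continuous.continuousAt).pow p).mul (hg z hzK).continuousAt
  have := eq_of_eventuallyEq_nhdsNE hcG hcR h3
  rw [this]
  simp [Pi.smul_apply', smul_eq_mul]


end Fermat.Agent.S29.H751

end
-- ===== PACK-END S29/H751/PthRootBall.lean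

-- ===== PACK-BEGIN S29/H282/Special.lean
section


/-!
# S29 / M4b-K2 (helper282) — special elements of `SL₂(ℤ)`

`IsSpecialElt γ`: `γ` has finite order or trace `2`.  All conjugates of powers of `1`, `S`, `S * T`
and `T` are special.  (These are the stabilisers of the points of `ℍ ∪ ℙ¹(ℚ)`; a character of
`Γ₀(N)` which is trivial on the special elements of `Γ₀(N)` is "unramified everywhere".)
-/

set_option autoImplicit false

open scoped MatrixGroups
open Matrix

namespace Fermat.Agent.S29.H282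

/-- `γ` has finite order or trace `2`. -/
def IsSpecialElt (γ : SL(2, ℤ)) : Prop :=
  (∃ n : ℕ, 0 < n ∧ γ ^ n = 1) ∨ (γ : Matrix (Fin 2) (Fin 2) ℤ).trace = 2

theorem modS_pow_four : (ModularGroup.S : SL(2, ℤ)) ^ 4 = 1 := by
  apply Subtype.ext
  rw [Matrix.SpecialLinearGroup.coe_pow, ModularGroup.coe_S]
  have h2 : (!![0, -1; 1, 0] : Matrix (Fin 2) (Fin 2) ℤ) ^ 2 = -1 := by
    rw [pow_two, Matrix.mul_fin_two]
    ext i j
    fin_cases i <;> fin_cases j <;> simp
  rw [show (4 : ℕ) = 2 * 2 from rfl, pow_mul, h2]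
  simp

theorem modST_pow_six : (ModularGroup.S * ModularGroup.T : SL(2, ℤ)) ^ 6 = 1 := by
  apply Subtype.ext
  rw [Matrix.SpecialLinearGroup.coe_pow, Matrix.SpecialLinearGroup.coe_mul, ModularGroup.coe_S,
    ModularGroup.coe_T]
  have h0 : (!![0, -1; 1, 0] * !![1, 1; 0, 1] : Matrix (Fin 2) (Fin 2) ℤ) = !![0, -1; 1, 1] := by
    rw [Matrix.mul_fin_two]
    ext i j
    fin_cases i <;> fin_cases j <;> simp
  have h2 : (!![0, -1; 1, 1] : Matrix (Fin 2) (Fin 2) ℤ) ^ 2 = !![-1, -1; 1, 0] := by
    rw [pow_two, Matrix.mul_fin_two]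
    ext i j
    fin_cases i <;> fin_cases j <;> simp
  have h3 : (!![0, -1; 1, 1] : Matrix (Fin 2) (Fin 2) ℤ) ^ 3 = -1 := by
    rw [pow_succ, h2, Matrix.mul_fin_two]
    ext i j
    fin_cases i <;> fin_cases j <;> simp
  rw [h0, show (6 : ℕ) = 3 * 2 from rfl, pow_mul, h3]
  simp

theorem trace_modT_pow (e : ℕ) :
    ((ModularGroup.T ^ e : SL(2, ℤ)) : Matrix (Fin 2) (Fin 2) ℤ).trace = 2 := by
  have h := ModularGroup.coe_T_zpow (e : ℤ)
  rw [zpow_natCast] at h
  rw [h, Matrix.trace_fin_two]
  simp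

theorem trace_conj_SL (g γ : SL(2, ℤ)) :
    ((g⁻¹ * γ * g : SL(2, ℤ)) : Matrix (Fin 2) (Fin 2) ℤ).trace
      = (γ : Matrix (Fin 2) (Fin 2) ℤ).trace := by
  rw [Matrix.SpecialLinearGroup.coe_mul, Matrix.trace_mul_comm,
    ← Matrix.SpecialLinearGroup.coe_mul, mul_inv_cancel_left]

theorem conj_pow_SL (g γ : SL(2, ℤ)) (n : ℕ) : (g⁻¹ * γ * g) ^ n = g⁻¹ * γ ^ n * g := by
  induction n with
  | zero => simp
  | succ n ih => rw [pow_succ, ih, pow_succ]; group

theorem IsSpecialElt.conj {γ : SL(2, ℤ)} (h : IsSpecialElt γ) (g : SL(2, ℤ)) :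
    IsSpecialElt (g⁻¹ * γ * g) := by
  rcases h with ⟨n, hn, h⟩ | h
  · exact Or.inl ⟨n, hn, by rw [conj_pow_SL, h]; group⟩
  · exact Or.inr (by rw [trace_conj_SL, h])

theorem isSpecialElt_of_pow_eq_one {γ : SL(2, ℤ)} {n : ℕ} (hn : 0 < n) (h : γ ^ n = 1) :
    IsSpecialElt γ := Or.inl ⟨n, hn, h⟩

theorem isSpecialElt_one_pow (e : ℕ) : IsSpecialElt ((1 : SL(2, ℤ)) ^ e) :=
  isSpecialElt_of_pow_eq_one one_pos (by simp)

theorem isSpecialElt_S_pow (e : ℕ) : IsSpecialElt ((ModularGroup.S : SL(2, ℤ)) ^ e) :=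
  isSpecialElt_of_pow_eq_one (n := 4) (by norm_num)
    (by rw [← pow_mul, mul_comm, pow_mul, modS_pow_four, one_pow])

theorem isSpecialElt_ST_pow (e : ℕ) :
    IsSpecialElt ((ModularGroup.S * ModularGroup.T : SL(2, ℤ)) ^ e) :=
  isSpecialElt_of_pow_eq_one (n := 6) (by norm_num)
    (by rw [← pow_mul, mul_comm, pow_mul, modST_pow_six, one_pow])

theorem isSpecialElt_T_pow (e : ℕ) : IsSpecialElt ((ModularGroup.T : SL(2, ℤ)) ^ e) :=
  Or.inr (trace_modT_pow e)

end Fermat.Agent.S29.H282

end
-- ===== PACK-END S29/H282/Special.lean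

-- ===== PACK-BEGIN S37/H340/KronBasic.lean
section




/-!
# S37 / R3-K : the formal Kronecker polynomial (helper340)

For a commutative ring `R`, `ℓ ≥ 1` and a Laurent series `f = ∑ aₙ qⁿ`, the ring `R((q))` is
free of rank `ℓ` over its subring `V (R((q))) = R((q^ℓ))` (`V = qExpand R ℓ`), with basis
`1, q, …, q^(ℓ-1)`.  `kronMat ℓ f` is the matrix of multiplication by `f` in this basis and
`kron ℓ f` its characteristic polynomial ("`∏_b (Y - f(ζ^b q^{1/ℓ}))`").

Main statements of this file
* `decomp` : `g = ∑ i, q^i * V (sect ℓ i g)`;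
* `single_mul_eq_sum` : `q^j * f = ∑ i, q^i * V (kronMat ℓ f i j)`;
* `kron_monic`, `kron_natDegree`;
* `kron_map` : compatibility with `coeffMap`;
* `kron_eval₂_self` : `(kron ℓ f).eval₂ V f = 0` (Cayley–Hamilton form).
-/

set_option autoImplicit false

noncomputable section

namespace Fermat.Agent.S37.H340

open ModularCurve HahnSeries Polynomial Matrix

variable {R : Type*} [CommRing R] (ℓ : ℕ) [NeZero ℓ]

omit [NeZero ℓ] in
lemma exists_coeff_eq_zero_of_lt (f : LaurentSeries R) : ∃ b : ℤ, ∀ m < b, f.coeff m = 0 := by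
  by_cases hf : f = 0
  · exact ⟨0, fun m _ => by simp [hf]⟩
  · exact ⟨f.order, fun m hm => HahnSeries.coeff_eq_zero_of_lt_order hm⟩

lemma sect_bdd (i : ℤ) (f : LaurentSeries R) :
    BddBelow (Function.support fun n : ℤ => f.coeff ((ℓ : ℤ) * n + i)) := by
  have hℓ : (1 : ℤ) ≤ ℓ := by exact_mod_cast Nat.pos_of_ne_zero (NeZero.ne ℓ)
  obtain ⟨b, hb⟩ := exists_coeff_eq_zero_of_lt f
  refine ⟨min 0 (b - i), fun m hm => ?_⟩
  by_contra hlt
  rw [not_le] at hlt
  refine hm (hb _ ?_)
  have h0 : m < 0 := lt_of_lt_of_le hlt (min_le_left _ _)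
  have h1 : m < b - i := lt_of_lt_of_le hlt (min_le_right _ _)
  nlinarith

/-- The `i`-th section: `sect ℓ i f = ∑ₙ f.coeff (ℓ n + i) qⁿ`. -/
def sect (i : ℤ) (f : LaurentSeries R) : LaurentSeries R :=
  HahnSeries.ofSuppBddBelow (fun n : ℤ => f.coeff ((ℓ : ℤ) * n + i)) (sect_bdd ℓ i f)

@[simp]
lemma sect_coeff (i : ℤ) (f : LaurentSeries R) (n : ℤ) :
    (sect ℓ i f).coeff n = f.coeff ((ℓ : ℤ) * n + i) := by
  simp [sect]

/-- the variable `q` -/
def qq : LaurentSeries R := HahnSeries.single (1 : ℤ) (1 : R)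

omit [NeZero ℓ] in
lemma qq_pow (n : ℕ) : (qq : LaurentSeries R) ^ n = HahnSeries.single (n : ℤ) (1 : R) := by
  rw [qq, HahnSeries.single_pow, one_pow]
  simp

omit [NeZero ℓ] in
lemma coeff_qq_pow_mul (n : ℕ) (g : LaurentSeries R) (k : ℤ) :
    ((qq : LaurentSeries R) ^ n * g).coeff k = g.coeff (k - n) := by
  rw [qq_pow, HahnSeries.coeff_single_mul, one_mul]

lemma qExpand_coeff (g : LaurentSeries R) (k : ℤ) :
    (qExpand R ℓ g).coeff k = if (ℓ : ℤ) ∣ k then g.coeff (k / ℓ) else 0 := by
  have hℓ : (ℓ : ℤ) ≠ 0 := by exact_mod_cast NeZero.ne ℓ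
  split_ifs with h
  · obtain ⟨m, rfl⟩ := h
    rw [qExpand_coeff_mul, Int.mul_ediv_cancel_left _ hℓ]
  · exact qExpand_coeff_of_not_dvd ℓ g h

/-- **Decomposition** of a Laurent series along the basis `1, q, …, q^(ℓ-1)` of `R((q))` over
`R((q^ℓ))`. -/
theorem decomp (g : LaurentSeries R) :
    g = ∑ i : Fin ℓ, (qq : LaurentSeries R) ^ (i : ℕ) * qExpand R ℓ (sect ℓ (i : ℕ) g) := by
  have hℓ : (0 : ℤ) < ℓ := by exact_mod_cast Nat.pos_of_ne_zero (NeZero.ne ℓ)
  ext k
  rw [HahnSeries.coeff_sum]
  simp only [coeff_qq_pow_mul, qExpand_coeff, sect_coeff]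
  -- the unique index `i ≡ k mod ℓ`
  have hr0 : 0 ≤ k % (ℓ : ℤ) := Int.emod_nonneg _ hℓ.ne'
  have hr1 : k % (ℓ : ℤ) < ℓ := Int.emod_lt_of_pos _ hℓ
  set r : ℕ := (k % (ℓ : ℤ)).toNat with hr
  have hrk : (r : ℤ) = k % (ℓ : ℤ) := Int.toNat_of_nonneg hr0
  have hrlt : r < ℓ := by
    have : (r : ℤ) < ℓ := hrk ▸ hr1
    exact_mod_cast this
  rw [Finset.sum_eq_single (⟨r, hrlt⟩ : Fin ℓ)]
  · have hdvd : (ℓ : ℤ) ∣ k - (r : ℤ) := by
      rw [hrk]; exact Int.dvd_self_sub_emod
    simp only [hdvd, if_true]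
    congr 1
    rw [Int.mul_ediv_cancel' hdvd]; ring
  · intro i _ hi
    rw [if_neg]
    intro hdvd
    apply hi
    ext
    simp only
    have h1 : (ℓ : ℤ) ∣ (i : ℕ) - (r : ℤ) := by
      have h2 : (ℓ : ℤ) ∣ k - (r : ℤ) := by rw [hrk]; exact Int.dvd_self_sub_emod
      have := dvd_sub h2 hdvd
      simpa using this
    have hi1 : ((i : ℕ) : ℤ) < ℓ := by exact_mod_cast i.2
    have hi0 : (0 : ℤ) ≤ ((i : ℕ) : ℤ) := Int.natCast_nonneg _
    have hr0' : (0 : ℤ) ≤ (r : ℤ) := Int.natCast_nonneg _
    have hr1' : (r : ℤ) < ℓ := by exact_mod_cast hrlt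
    obtain ⟨c, hc⟩ := h1
    have hc0 : c = 0 := by
      by_contra hne
      rcases lt_or_gt_of_ne hne with h | h
      · have : (ℓ : ℤ) * c ≤ -ℓ := by nlinarith
        omega
      · have : (ℓ : ℤ) ≤ (ℓ : ℤ) * c := by nlinarith
        omega
    rw [hc0, mul_zero] at hc
    omega
  · intro h; exact absurd (Finset.mem_univ _) h

/-- The matrix of multiplication by `f` in the basis `1, q, …, q^(ℓ-1)`. -/
def kronMat (f : LaurentSeries R) : Matrix (Fin ℓ) (Fin ℓ) (LaurentSeries R) :=
  Matrix.of fun i j => sect ℓ ((i : ℕ) - (j : ℕ) : ℤ) f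

@[simp]
lemma kronMat_apply (f : LaurentSeries R) (i j : Fin ℓ) :
    kronMat ℓ f i j = sect ℓ ((i : ℕ) - (j : ℕ) : ℤ) f := rfl

/-- `q^j * f = ∑ i, q^i * V (M i j)`. -/
theorem qq_pow_mul_eq_sum (f : LaurentSeries R) (j : Fin ℓ) :
    (qq : LaurentSeries R) ^ (j : ℕ) * f =
      ∑ i : Fin ℓ, (qq : LaurentSeries R) ^ (i : ℕ) * qExpand R ℓ (kronMat ℓ f i j) := by
  conv_lhs => rw [decomp ℓ ((qq : LaurentSeries R) ^ (j : ℕ) * f)]
  refine Finset.sum_congr rfl fun i _ => ?_
  congr 2
  ext n
  simp only [sect_coeff, coeff_qq_pow_mul, kronMat_apply]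
  congr 1
  ring

/-- The **Kronecker polynomial** of `f`: the characteristic polynomial of multiplication by
`f(q)` on `R((q))` over `R((q^ℓ))`, with coefficients transported to `R((q))`. -/
def kron (f : LaurentSeries R) : (LaurentSeries R)[X] := (kronMat ℓ f).charpoly

theorem kron_monic (f : LaurentSeries R) : (kron ℓ f).Monic := Matrix.charpoly_monic _

theorem kron_natDegree [Nontrivial R] (f : LaurentSeries R) : (kron ℓ f).natDegree = ℓ := by
  rw [kron, Matrix.charpoly_natDegree_eq_dim, Fintype.card_fin]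

/-- Compatibility with change of coefficients. -/
theorem kronMat_map {S : Type*} [CommRing S] (g : R →+* S) (f : LaurentSeries R) :
    kronMat ℓ (coeffMap g f) = (kronMat ℓ f).map (coeffMap g) := by
  ext i j n
  simp

theorem kron_map {S : Type*} [CommRing S] (g : R →+* S) (f : LaurentSeries R) :
    kron ℓ (coeffMap g f) = (kron ℓ f).map (coeffMap g) := by
  rw [kron, kron, kronMat_map, Matrix.charpoly_map]

/-- **Cayley–Hamilton form**: `f` is a root of its Kronecker polynomial (coefficients pushed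
to `R((q^ℓ))` by `V = qExpand R ℓ`). -/
theorem kron_eval₂_self (f : LaurentSeries R) :
    (kron ℓ f).eval₂ (qExpand R ℓ) f = 0 := by
  classical
  set M' : Matrix (Fin ℓ) (Fin ℓ) (LaurentSeries R) := (kronMat ℓ f).map (qExpand R ℓ) with hM'
  set v : Fin ℓ → LaurentSeries R := fun i => (qq : LaurentSeries R) ^ (i : ℕ) with hv
  have hvM : Matrix.vecMul v M' = f • v := by
    funext j
    simp only [Matrix.vecMul, dotProduct, hM', Matrix.map_apply, hv, Pi.smul_apply, smul_eq_mul]
    rw [mul_comm f, qq_pow_mul_eq_sum ℓ f j]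
  have h1 : Matrix.vecMul v (Matrix.scalar (Fin ℓ) f - M') = 0 := by
    rw [Matrix.vecMul_sub, hvM]
    funext j
    simp [Matrix.scalar_apply]
  have h2 : (Matrix.scalar (Fin ℓ) f - M').det • v = 0 := by
    have := congrArg (fun w => Matrix.vecMul w (Matrix.adjugate (Matrix.scalar (Fin ℓ) f - M'))) h1
    simp only [Matrix.vecMul_vecMul, Matrix.mul_adjugate, Matrix.zero_vecMul] at this
    rw [Matrix.vecMul_smul, Matrix.vecMul_one] at this
    exact this
  have h3 : (Matrix.scalar (Fin ℓ) f - M').det = 0 := by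
    have h0 : (0 : ℕ) < ℓ := Nat.pos_of_ne_zero (NeZero.ne ℓ)
    have := congrFun h2 ⟨0, h0⟩
    simpa [hv] using this
  rw [kron, Polynomial.eval₂_eq_eval_map, ← Matrix.charpoly_map, ← hM', Matrix.eval_charpoly]
  exact h3

end Fermat.Agent.S37.H340

end
end
-- ===== PACK-END S37/H340/KronBasic.lean

-- ===== PACK-BEGIN S30/H330/AdicAlg.lean
section
/-
S30 -- ADIC MODULE LAYER, piece 1 (pure algebra).  helper330.

For a complete discrete valuation ring `O` (char 0, residue characteristic `p`, finite residue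
field), `L = Frac O`, and an abelian group `J` with finite `p`-torsion, the group
`Hom_ℤ(L/O, J)` with `O` acting through the source is a finite free `O`-module.  Its simultaneous
eigen-submodule `M` for a family of endomorphisms of `J` inherits a Galois action which is
adically continuous, and relations valid on `J[p^∞]` pass to `M`.
-/



set_option autoImplicit false

noncomputable section

namespace Fermat.Agent.S30.H330

/-! ### `Hom_ℤ(Frac O, J)` as an `O`-module through the source -/

section SrcHom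

variable (O : Type) [CommRing O] (J : Type) [AddCommGroup J]

/-- `Hom_ℤ(Frac O, J)`, with `O` acting by multiplication on the source. -/
def SrcHom : Type := FractionRing O →+ J

namespace SrcHom

variable {O J}

/-- The underlying additive map. -/
def hom (g : SrcHom O J) : FractionRing O →+ J := g

/-- Constructor. -/
def of (g : FractionRing O →+ J) : SrcHom O J := g

@[simp] theorem hom_of (g : FractionRing O →+ J) : (of g : SrcHom O J).hom = g := rfl

@[ext] theorem ext {g h : SrcHom O J} (H : ∀ x, g.hom x = h.hom x) : g = h :=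
  AddMonoidHom.ext H

instance : AddCommGroup (SrcHom O J) := inferInstanceAs (AddCommGroup (FractionRing O →+ J))

@[simp] theorem hom_add (g h : SrcHom O J) (x : FractionRing O) :
    (g + h).hom x = g.hom x + h.hom x := rfl

@[simp] theorem hom_zero (x : FractionRing O) : (0 : SrcHom O J).hom x = 0 := rfl

@[simp] theorem hom_neg (g : SrcHom O J) (x : FractionRing O) : (-g).hom x = -g.hom x := rfl

@[simp] theorem hom_sub (g h : SrcHom O J) (x : FractionRing O) :
    (g - h).hom x = g.hom x - h.hom x := rfl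

instance : SMul O (SrcHom O J) :=
  ⟨fun a g => of (g.hom.comp (AddMonoidHom.mulLeft (algebraMap O (FractionRing O) a)))⟩

@[simp] theorem hom_smul (a : O) (g : SrcHom O J) (x : FractionRing O) :
    (a • g).hom x = g.hom (algebraMap O (FractionRing O) a * x) := rfl

instance : Module O (SrcHom O J) where
  one_smul g := by ext x; simp
  mul_smul a b g := by
    ext x
    simp only [hom_smul, map_mul]
    congr 1
    ring
  smul_zero a := by ext x; simp
  smul_add a g h := by ext x; simp
  add_smul a b g := by ext x; simp [add_mul]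
  zero_smul g := by ext x; simp

end SrcHom

end SrcHom

/-! ### Precompleteness of finite powers -/

open Submodule in
/-- Finite powers of a precomplete ring are precomplete. -/
theorem isPrecomplete_pi {R : Type*} [CommRing R] (I : Ideal R) [IsPrecomplete I R]
    (k : ℕ) : IsPrecomplete I (Fin k → R) := by
  refine ⟨fun f hf => ?_⟩
  have hcomp : ∀ (n : ℕ) (g : Fin k → R), g ∈ (I ^ n • ⊤ : Submodule R (Fin k → R)) →
      ∀ i, g i ∈ (I ^ n • ⊤ : Submodule R R) := by
    intro n g hg i
    refine Submodule.smul_induction_on hg (fun r hr m _ => ?_) (fun x y hx hy => ?_)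
    · exact Submodule.smul_mem_smul hr trivial
    · exact Submodule.add_mem _ hx hy
  have hC : ∀ i, ∃ L : R, ∀ n, f n i ≡ L [SMOD (I ^ n • ⊤ : Submodule R R)] := by
    intro i
    refine IsPrecomplete.prec ‹_› (f := fun n => f n i) ?_
    intro m n hmn
    have := hf hmn
    rw [SModEq.sub_mem] at this ⊢
    exact hcomp m _ this i
  choose L hL using hC
  refine ⟨L, fun n => ?_⟩
  rw [SModEq.sub_mem]
  have hsum : f n - L = ∑ i, (f n i - L i) • (Pi.single i (1 : R) : Fin k → R) := by
    funext j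
    simp [Finset.sum_apply, Pi.single_apply]
  rw [hsum]
  refine Submodule.sum_mem _ fun i _ => ?_
  have hi := hL i n
  rw [SModEq.sub_mem] at hi
  have hi' : f n i - L i ∈ I ^ n := by
    simpa using hi
  exact Submodule.smul_mem_smul hi' trivial

/-! ### The eigen-submodule -/

section Main

variable {O : Type} [CommRing O]
variable {J : Type} [AddCommGroup J]
variable {ι : Type} (t : ι → J →+ J) (a : ι → O)

/-- The simultaneous eigen-submodule of `Hom_ℤ(L/O, J)`. -/
def eigenSub : Submodule O (SrcHom O J) where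
  carrier := {g | (∀ r : O, g.hom (algebraMap O (FractionRing O) r) = 0) ∧
    ∀ i x, t i (g.hom x) = g.hom (algebraMap O (FractionRing O) (a i) * x)}
  add_mem' := by
    rintro g h ⟨g0, ge⟩ ⟨h0, he⟩
    refine ⟨fun r => by simp [g0, h0], fun i x => ?_⟩
    simp only [SrcHom.hom_add, map_add, ge, he]
  zero_mem' := ⟨fun r => rfl, fun i x => by simp⟩
  smul_mem' := by
    rintro c g ⟨g0, ge⟩
    refine ⟨fun r => ?_, fun i x => ?_⟩
    · rw [SrcHom.hom_smul, ← map_mul]; exact g0 _
    · rw [SrcHom.hom_smul, SrcHom.hom_smul, ge]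
      congr 1
      ring

theorem mem_eigenSub {g : SrcHom O J} : g ∈ eigenSub t a ↔
    (∀ r : O, g.hom (algebraMap O (FractionRing O) r) = 0) ∧
    ∀ i x, t i (g.hom x) = g.hom (algebraMap O (FractionRing O) (a i) * x) := Iff.rfl

variable {t a}
variable [IsDomain O] [IsDiscreteValuationRing O]

/-- Every element of `L` is `y / ϖ ^ n`. -/
theorem exists_eq_div_pow {ϖ : O} (hϖ : Irreducible ϖ) (x : FractionRing O) :
    ∃ (n : ℕ) (y : O), x = algebraMap O (FractionRing O) y /
      algebraMap O (FractionRing O) ϖ ^ n := by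
  obtain ⟨c, d, hd, rfl⟩ := IsFractionRing.div_surjective O x
  have hd0 : d ≠ 0 := nonZeroDivisors.ne_zero hd
  obtain ⟨n, u, hu⟩ := IsDiscreteValuationRing.associated_pow_irreducible hd0 hϖ
  refine ⟨n, c * u, ?_⟩
  have hϖ0 : algebraMap O (FractionRing O) ϖ ≠ 0 := by
    simpa using hϖ.ne_zero
  have hd0' : algebraMap O (FractionRing O) d ≠ 0 := by
    simpa using hd0
  rw [div_eq_div_iff hd0' (pow_ne_zero _ hϖ0), ← map_pow, ← hu]
  simp only [map_mul]
  ring

/-- Division lemma: an element of the eigen-submodule killing `ϖ⁻ⁿ O` is divisible by `ϖ ^ n`. -/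
theorem exists_eq_pow_smul {ϖ : O} (hϖ : Irreducible ϖ) (n : ℕ) {g : SrcHom O J}
    (hg : g ∈ eigenSub t a)
    (hkill : ∀ y : O, g.hom (algebraMap O (FractionRing O) y /
      algebraMap O (FractionRing O) ϖ ^ n) = 0) :
    ∃ g' ∈ eigenSub t a, g = ϖ ^ n • g' := by
  have hϖ0 : algebraMap O (FractionRing O) ϖ ≠ 0 := by
    simpa using hϖ.ne_zero
  have hpow : algebraMap O (FractionRing O) ϖ ^ n ≠ 0 := pow_ne_zero _ hϖ0
  refine ⟨SrcHom.of (g.hom.comp (AddMonoidHom.mulLeft ((algebraMap O (FractionRing O) ϖ ^ n)⁻¹))),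
    ⟨fun r => ?_, fun i x => ?_⟩, ?_⟩
  · show g.hom ((algebraMap O (FractionRing O) ϖ ^ n)⁻¹ * algebraMap O (FractionRing O) r) = 0
    rw [mul_comm, ← div_eq_mul_inv]
    exact hkill r
  · show t i (g.hom ((algebraMap O (FractionRing O) ϖ ^ n)⁻¹ * x)) =
      g.hom ((algebraMap O (FractionRing O) ϖ ^ n)⁻¹ * (algebraMap O (FractionRing O) (a i) * x))
    rw [hg.2]
    congr 1
    ring
  · ext x
    show g.hom x = g.hom ((algebraMap O (FractionRing O) ϖ ^ n)⁻¹ *
      (algebraMap O (FractionRing O) (ϖ ^ n) * x))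
    congr 1
    rw [map_pow]
    field_simp

end Main

/-! ### Separatedness and torsion-freeness -/

section Finite

variable {O : Type} [CommRing O] [IsDomain O] [IsDiscreteValuationRing O]
variable {J : Type} [AddCommGroup J]
variable {ι : Type} {t : ι → J →+ J} {a : ι → O}

omit [IsDomain O] [IsDiscreteValuationRing O] in
theorem algebraMap_irreducible_ne_zero {ϖ : O} (hϖ : Irreducible ϖ) :
    algebraMap O (FractionRing O) ϖ ≠ 0 := by
  simpa using hϖ.ne_zero

/-- Elements of `𝔪ⁿ M` kill `ϖ⁻ⁿ O`. -/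
theorem kill_of_mem_pow_smul_top {ϖ : O} (hϖ : Irreducible ϖ) (n : ℕ)
    {x : eigenSub t a}
    (hx : x ∈ (IsLocalRing.maximalIdeal O ^ n • ⊤ : Submodule O (eigenSub t a))) (y : O) :
    x.1.hom (algebraMap O (FractionRing O) y / algebraMap O (FractionRing O) ϖ ^ n) = 0 := by
  have hϖ0 := algebraMap_irreducible_ne_zero hϖ
  revert y
  refine Submodule.smul_induction_on hx (fun r hr m _ y => ?_) (fun u v hu hv y => ?_)
  · rw [hϖ.maximalIdeal_eq, Ideal.span_singleton_pow, Ideal.mem_span_singleton'] at hr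
    obtain ⟨b, rfl⟩ := hr
    show (m.1).hom (algebraMap O (FractionRing O) (b * ϖ ^ n) *
      (algebraMap O (FractionRing O) y / algebraMap O (FractionRing O) ϖ ^ n)) = 0
    have : algebraMap O (FractionRing O) (b * ϖ ^ n) *
        (algebraMap O (FractionRing O) y / algebraMap O (FractionRing O) ϖ ^ n) =
        algebraMap O (FractionRing O) (b * y) := by
      simp only [map_mul, map_pow]
      field_simp
    rw [this]
    exact m.2.1 _
  · show (u.1 + v.1).hom _ = 0
    rw [SrcHom.hom_add, hu y, hv y, add_zero]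

/-- Conversely, elements killing `ϖ⁻ⁿ O` lie in `𝔪ⁿ M`. -/
theorem mem_pow_smul_top_of_kill {ϖ : O} (hϖ : Irreducible ϖ) (n : ℕ)
    {x : eigenSub t a}
    (hx : ∀ y : O, x.1.hom (algebraMap O (FractionRing O) y /
      algebraMap O (FractionRing O) ϖ ^ n) = 0) :
    x ∈ (IsLocalRing.maximalIdeal O ^ n • ⊤ : Submodule O (eigenSub t a)) := by
  obtain ⟨g', hg', hgg'⟩ := exists_eq_pow_smul hϖ n x.2 hx
  have hxe : x = ϖ ^ n • (⟨g', hg'⟩ : eigenSub t a) := Subtype.ext hgg'
  rw [hxe]
  refine Submodule.smul_mem_smul ?_ trivial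
  exact Ideal.pow_mem_pow (hϖ.maximalIdeal_eq ▸ Ideal.mem_span_singleton_self ϖ) n

/-- The eigen-submodule is `𝔪`-adically separated. -/
theorem isHausdorff_eigenSub : IsHausdorff (IsLocalRing.maximalIdeal O) (eigenSub t a) := by
  obtain ⟨ϖ, hϖ⟩ := IsDiscreteValuationRing.exists_irreducible O
  refine ⟨fun x hx => ?_⟩
  apply Subtype.ext
  apply SrcHom.ext
  intro z
  obtain ⟨n, y, rfl⟩ := exists_eq_div_pow hϖ z
  have h := hx n
  rw [SModEq.zero] at h
  exact kill_of_mem_pow_smul_top hϖ n h y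

/-- The eigen-submodule is torsion-free. -/
theorem isTorsionFree_eigenSub : Module.IsTorsionFree O (eigenSub t a) := by
  refine ⟨fun r hr x y hxy => ?_⟩
  have hr0 : r ≠ 0 := hr.ne_zero
  have hr0' : algebraMap O (FractionRing O) r ≠ 0 := by simpa using hr0
  apply Subtype.ext
  apply SrcHom.ext
  intro z
  have h := congrArg (fun w : eigenSub t a => w.1.hom ((algebraMap O (FractionRing O) r)⁻¹ * z)) hxy
  simp only [Submodule.coe_smul, SrcHom.hom_smul] at h
  rwa [mul_inv_cancel_left₀ hr0'] at h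

end Finite

/-! ### Finiteness of `M / 𝔪 M` -/

section Finiteness

variable {O : Type} [CommRing O] [IsDomain O] [IsDiscreteValuationRing O]
variable {J : Type} [AddCommGroup J]
variable {ι : Type} {t : ι → J →+ J} {a : ι → O}

/-- Values on `ϖ⁻ⁿ O` are killed by `pⁿ`. -/
theorem pow_smul_hom_div_eq_zero {p : ℕ} (hpO : (p : O) ∈ IsLocalRing.maximalIdeal O)
    {ϖ : O} (hϖ : Irreducible ϖ) (n : ℕ) {g : SrcHom O J} (hg : g ∈ eigenSub t a) (y : O) :
    p ^ n • g.hom (algebraMap O (FractionRing O) y / algebraMap O (FractionRing O) ϖ ^ n) = 0 := by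
  have hϖ0 := algebraMap_irreducible_ne_zero hϖ
  rw [hϖ.maximalIdeal_eq, Ideal.mem_span_singleton'] at hpO
  obtain ⟨b, hb⟩ := hpO
  rw [← map_nsmul]
  have : p ^ n • (algebraMap O (FractionRing O) y / algebraMap O (FractionRing O) ϖ ^ n) =
      algebraMap O (FractionRing O) (b ^ n * y) := by
    rw [nsmul_eq_mul]
    have hp : ((p ^ n : ℕ) : FractionRing O) = algebraMap O (FractionRing O) ((b * ϖ) ^ n) := by
      rw [hb]; simp
    rw [hp]
    simp only [map_mul, map_pow]
    field_simp
    ring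
  rw [this]
  exact hg.1 _

/-- Every value of an element of the eigen-submodule is `p`-power torsion. -/
theorem exists_pow_smul_hom_eq_zero {p : ℕ} (hpO : (p : O) ∈ IsLocalRing.maximalIdeal O)
    {g : SrcHom O J} (hg : g ∈ eigenSub t a) (z : FractionRing O) :
    ∃ n : ℕ, p ^ n • g.hom z = 0 := by
  obtain ⟨ϖ, hϖ⟩ := IsDiscreteValuationRing.exists_irreducible O
  obtain ⟨n, y, rfl⟩ := exists_eq_div_pow hϖ z
  exact ⟨n, pow_smul_hom_div_eq_zero hpO hϖ n hg y⟩

variable [Finite (IsLocalRing.ResidueField O)]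

/-- `M / 𝔪 M` is finite when `J[p]` is. -/
theorem finite_quotient_eigenSub {p : ℕ} (hpO : (p : O) ∈ IsLocalRing.maximalIdeal O)
    (hfin : {x : J | p • x = 0}.Finite) :
    Finite ((eigenSub t a) ⧸
      (IsLocalRing.maximalIdeal O • ⊤ : Submodule O (eigenSub t a))) := by
  classical
  obtain ⟨ϖ, hϖ⟩ := IsDiscreteValuationRing.exists_irreducible O
  have hϖ0 := algebraMap_irreducible_ne_zero hϖ
  have : Finite {x : J | p • x = 0} := hfin.to_subtype
  -- a section of the residue map
  let sec : IsLocalRing.ResidueField O → O := Function.surjInv IsLocalRing.residue_surjective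
  have hsec : ∀ x, IsLocalRing.residue O (sec x) = x :=
    Function.surjInv_eq IsLocalRing.residue_surjective
  -- the restriction map
  let res : eigenSub t a → (IsLocalRing.ResidueField O → {x : J | p • x = 0}) := fun g x =>
    ⟨g.1.hom (algebraMap O (FractionRing O) (sec x) / algebraMap O (FractionRing O) ϖ ^ 1), by
      have := pow_smul_hom_div_eq_zero hpO hϖ 1 g.2 (sec x)
      simpa using this⟩
  have hres : ∀ g h : eigenSub t a, res g = res h →
      (Submodule.Quotient.mk g : (eigenSub t a) ⧸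
        (IsLocalRing.maximalIdeal O • ⊤ : Submodule O (eigenSub t a))) =
        Submodule.Quotient.mk h := by
    intro g h hgh
    rw [Submodule.Quotient.eq]
    have hpow : (IsLocalRing.maximalIdeal O • ⊤ : Submodule O (eigenSub t a)) =
        (IsLocalRing.maximalIdeal O ^ 1 • ⊤ : Submodule O (eigenSub t a)) := by
      rw [pow_one]
    rw [hpow]
    apply mem_pow_smul_top_of_kill hϖ 1
    intro y
    -- y = sec (residue y) + ϖ z
    have hy : y - sec (IsLocalRing.residue O y) ∈ IsLocalRing.maximalIdeal O := by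
      rw [← Ideal.Quotient.eq_zero_iff_mem]
      change IsLocalRing.residue O (y - sec (IsLocalRing.residue O y)) = 0
      rw [map_sub, hsec, sub_self]
    rw [hϖ.maximalIdeal_eq, Ideal.mem_span_singleton'] at hy
    obtain ⟨z, hz⟩ := hy
    have hyz : algebraMap O (FractionRing O) y / algebraMap O (FractionRing O) ϖ ^ 1 =
        algebraMap O (FractionRing O) (sec (IsLocalRing.residue O y)) /
          algebraMap O (FractionRing O) ϖ ^ 1 + algebraMap O (FractionRing O) z := by
      have : y = sec (IsLocalRing.residue O y) + z * ϖ := by rw [hz]; ring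
      conv_lhs => rw [this]
      simp only [map_add, map_mul, pow_one]
      field_simp
    have hval := congrArg (fun F => (F (IsLocalRing.residue O y) : J)) hgh
    simp only [res] at hval
    show ((g : SrcHom O J) - (h : SrcHom O J)).hom _ = 0
    rw [SrcHom.hom_sub, hyz, map_add, map_add, g.2.1, h.2.1, hval]
    simp
  let F : Set.range res → (eigenSub t a) ⧸
      (IsLocalRing.maximalIdeal O • ⊤ : Submodule O (eigenSub t a)) :=
    fun v => Submodule.Quotient.mk (Classical.choose v.2)
  refine Finite.of_surjective F ?_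
  intro q
  obtain ⟨g, rfl⟩ := Submodule.Quotient.mk_surjective _ q
  refine ⟨⟨res g, g, rfl⟩, ?_⟩
  exact hres _ _ (Classical.choose_spec (⟨g, rfl⟩ : res g ∈ Set.range res))

end Finiteness

/-! ### Finite generation and freeness -/

section FiniteFree

variable {O : Type} [CommRing O] [IsDomain O] [IsDiscreteValuationRing O]
  [IsAdicComplete (IsLocalRing.maximalIdeal O) O] [Finite (IsLocalRing.ResidueField O)]
variable {J : Type} [AddCommGroup J]
variable {ι : Type} {t : ι → J →+ J} {a : ι → O}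

/-- The eigen-submodule is a finitely generated `O`-module. -/
theorem finite_eigenSub {p : ℕ} (hpO : (p : O) ∈ IsLocalRing.maximalIdeal O)
    (hfin : {x : J | p • x = 0}.Finite) : Module.Finite O (eigenSub t a) := by
  classical
  have hq := finite_quotient_eigenSub (t := t) (a := a) hpO hfin
  obtain ⟨k, ⟨e⟩⟩ := Finite.exists_equiv_fin ((eigenSub t a) ⧸
      (IsLocalRing.maximalIdeal O • ⊤ : Submodule O (eigenSub t a)))
  let s : Fin k → eigenSub t a := fun i => Quotient.out (e.symm i)
  have hs : ∀ i, (Submodule.Quotient.mk (s i) : (eigenSub t a) ⧸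
      (IsLocalRing.maximalIdeal O • ⊤ : Submodule O (eigenSub t a))) = e.symm i := fun i =>
    Quotient.out_eq (e.symm i)
  let φ : (Fin k → O) →ₗ[O] eigenSub t a := Fintype.linearCombination O s
  have hsurj : Function.Surjective
      ((IsLocalRing.maximalIdeal O • ⊤ : Submodule O (eigenSub t a)).mkQ ∘ₗ φ) := by
    intro q
    refine ⟨Pi.single (e q) 1, ?_⟩
    simp only [LinearMap.coe_comp, Function.comp_apply, Submodule.mkQ_apply, φ]
    rw [Fintype.linearCombination_apply_single, one_smul, hs, Equiv.symm_apply_apply]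
  have h1 : IsPrecomplete (IsLocalRing.maximalIdeal O) (Fin k → O) :=
    isPrecomplete_pi (IsLocalRing.maximalIdeal O) k
  have h2 : IsHausdorff (IsLocalRing.maximalIdeal O) (eigenSub t a) := isHausdorff_eigenSub
  have := surjective_of_mkQ_comp_surjective (I := IsLocalRing.maximalIdeal O) hsurj
  exact Module.Finite.of_surjective φ this

/-- The eigen-submodule is free. -/
theorem free_eigenSub {p : ℕ} (hpO : (p : O) ∈ IsLocalRing.maximalIdeal O)
    (hfin : {x : J | p • x = 0}.Finite) : Module.Free O (eigenSub t a) := by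
  have h1 : Module.Finite O (eigenSub t a) := finite_eigenSub hpO hfin
  have h2 : Module.IsTorsionFree O (eigenSub t a) := isTorsionFree_eigenSub
  exact Module.free_of_finite_type_torsion_free'

end FiniteFree

/-- Finiteness of `J[pⁿ]` from finiteness of `J[p]`. -/
theorem finite_pow_torsion {J : Type} [AddCommGroup J] {p : ℕ}
    (hfin : {x : J | p • x = 0}.Finite) (n : ℕ) : {x : J | p ^ n • x = 0}.Finite := by
  induction n with
  | zero =>
    refine (Set.finite_singleton (0 : J)).subset ?_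
    intro x hx
    simpa using hx
  | succ n ih =>
    have hsub : {x : J | p ^ (n + 1) • x = 0} ⊆ (fun x : J => p • x) ⁻¹' {x : J | p ^ n • x = 0} := by
      intro x hx
      simp only [Set.mem_preimage, Set.mem_ofPred_eq] at hx ⊢
      rw [← mul_smul, ← pow_succ]
      exact hx
    refine (Set.Finite.preimage' ih fun b _ => ?_).subset hsub
    by_cases hb : ∃ x₀ : J, p • x₀ = b
    · obtain ⟨x₀, hx₀⟩ := hb
      refine (hfin.image (fun z => x₀ + z)).subset ?_
      intro x hx
      simp only [Set.mem_preimage, Set.mem_singleton_iff] at hx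
      refine ⟨x - x₀, ?_, by simp⟩
      simp only [Set.mem_ofPred_eq, smul_sub, hx, hx₀, sub_self]
    · refine Set.Finite.subset Set.finite_empty ?_
      intro x hx
      exact (hb ⟨x, hx⟩).elim

/-! ### The Galois action and the main theorem -/

section Galois

variable {O : Type} [CommRing O]
variable {J : Type} [AddCommGroup J]
variable {G : Type} [Monoid G] [DistribMulAction G J]
variable {ι : Type} {t : ι → J →+ J} {a : ι → O}

/-- The action of `G` on `Hom_ℤ(L, J)` through the target. -/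
def galSrc (σ : G) (g : SrcHom O J) : SrcHom O J :=
  SrcHom.of ((DistribSMul.toAddMonoidHom J σ).comp g.hom)

@[simp] theorem galSrc_hom (σ : G) (g : SrcHom O J) (x : FractionRing O) :
    (galSrc σ g).hom x = σ • g.hom x := rfl

theorem galSrc_mem (ht : ∀ i (σ : G) (x : J), σ • t i x = t i (σ • x)) (σ : G)
    {g : SrcHom O J} (hg : g ∈ eigenSub t a) : galSrc σ g ∈ eigenSub t a := by
  refine ⟨fun r => ?_, fun i x => ?_⟩
  · rw [galSrc_hom, hg.1, smul_zero]
  · rw [galSrc_hom, galSrc_hom, ← ht, hg.2]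

/-- The action of `G` on the eigen-submodule, as `O`-linear endomorphisms. -/
def galEnd (ht : ∀ i (σ : G) (x : J), σ • t i x = t i (σ • x)) (σ : G) :
    Module.End O (eigenSub t a) where
  toFun g := ⟨galSrc σ g.1, galSrc_mem ht σ g.2⟩
  map_add' g h := by
    apply Subtype.ext
    apply SrcHom.ext
    intro x
    simp [smul_add]
  map_smul' c g := by
    apply Subtype.ext
    apply SrcHom.ext
    intro x
    simp

@[simp] theorem galEnd_hom (ht : ∀ i (σ : G) (x : J), σ • t i x = t i (σ • x)) (σ : G)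
    (g : eigenSub t a) (x : FractionRing O) :
    ((galEnd ht σ g : eigenSub t a) : SrcHom O J).hom x = σ • (g : SrcHom O J).hom x := rfl

/-- The representation of `G` on the eigen-submodule. -/
def galRep (ht : ∀ i (σ : G) (x : J), σ • t i x = t i (σ • x)) :
    G →* Module.End O (eigenSub t a) where
  toFun := galEnd ht
  map_one' := by
    apply LinearMap.ext
    intro g
    apply Subtype.ext
    apply SrcHom.ext
    intro x
    simp
  map_mul' σ τ := by
    apply LinearMap.ext
    intro g
    apply Subtype.ext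
    apply SrcHom.ext
    intro x
    simp [mul_smul]

@[simp] theorem galRep_hom (ht : ∀ i (σ : G) (x : J), σ • t i x = t i (σ • x)) (σ : G)
    (g : eigenSub t a) (x : FractionRing O) :
    ((galRep ht σ g : eigenSub t a) : SrcHom O J).hom x = σ • (g : SrcHom O J).hom x := rfl

end Galois

/-- PIECE 1 of the adic module layer (pure algebra). -/
theorem adicModule_of_torsion
    {p : ℕ} (_hp : p.Prime)
    {O : Type} [CommRing O] [IsDomain O] [IsDiscreteValuationRing O]
    [IsAdicComplete (IsLocalRing.maximalIdeal O) O] [Finite (IsLocalRing.ResidueField O)]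
    [CharZero O] (hpO : (p : O) ∈ IsLocalRing.maximalIdeal O)
    {J : Type} [AddCommGroup J]
    [DistribMulAction (AlgebraicClosure ℚ ≃ₐ[ℚ] AlgebraicClosure ℚ) J]
    (hsm : ∀ x : J, ∃ L : IntermediateField ℚ (AlgebraicClosure ℚ), FiniteDimensional ℚ L ∧
      ∀ σ : AlgebraicClosure ℚ ≃ₐ[ℚ] AlgebraicClosure ℚ, (∀ y ∈ L, σ y = y) → σ • x = x)
    (hfin : {x : J | p • x = 0}.Finite)
    {ι : Type} (t : ι → J →+ J)
    (ht : ∀ i (σ : AlgebraicClosure ℚ ≃ₐ[ℚ] AlgebraicClosure ℚ) (x : J), σ • t i x = t i (σ • x))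
    (a : ι → O)
    (f : FractionRing O →+ J) (hf0 : ∀ r : O, f (algebraMap O (FractionRing O) r) = 0)
    (hf : f ≠ 0)
    (hfe : ∀ i x, t i (f x) = f (algebraMap O (FractionRing O) (a i) * x)) :
    ∃ (M : Type) (_ : AddCommGroup M) (_ : Module O M) (_ : Module.Free O M)
      (_ : Module.Finite O M)
      (ρ : (AlgebraicClosure ℚ ≃ₐ[ℚ] AlgebraicClosure ℚ) →* Module.End O M),
      Nontrivial M ∧ GaloisActionIsAdicContinuous O ρ ∧
      (∀ σ : AlgebraicClosure ℚ ≃ₐ[ℚ] AlgebraicClosure ℚ,
        (∀ x : J, (∃ n : ℕ, p ^ n • x = 0) → σ • x = x) → ρ σ = 1) ∧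
      (∀ (i : ι) (n : ℕ) (σ : AlgebraicClosure ℚ ≃ₐ[ℚ] AlgebraicClosure ℚ),
        (∀ x : J, (∃ k : ℕ, p ^ k • x = 0) → σ • σ • x - t i (σ • x) + n • x = 0) →
        ρ σ * ρ σ - a i • ρ σ + (n : O) • (1 : Module.End O M) = 0) := by
  classical
  obtain ⟨ϖ, hϖ⟩ := IsDiscreteValuationRing.exists_irreducible O
  refine ⟨eigenSub t a, inferInstance, inferInstance, free_eigenSub hpO hfin,
    finite_eigenSub hpO hfin, galRep ht, ?_, ?_, ?_, ?_⟩
  · -- nontrivial
    have hfm : SrcHom.of f ∈ eigenSub t a := ⟨hf0, hfe⟩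
    refine ⟨⟨⟨SrcHom.of f, hfm⟩, 0, ?_⟩⟩
    intro h
    apply hf
    have := congrArg (fun w : eigenSub t a => (w : SrcHom O J)) h
    exact this
  · -- adic continuity
    intro n
    have hfinn := finite_pow_torsion hfin n
    choose Lx hLx using hsm
    have hfd : ∀ x, FiniteDimensional ℚ (Lx x) := fun x => (hLx x).1
    refine ⟨⨆ x ∈ hfinn.toFinset, Lx x,
      IntermediateField.finiteDimensional_iSup_of_finset, ?_⟩
    intro σ hσ v
    have hfix : ∀ x : J, p ^ n • x = 0 → σ • x = x := by
      intro x hx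
      refine (hLx x).2 σ fun y hy => hσ y ?_
      have hle : Lx x ≤ ⨆ x ∈ hfinn.toFinset, Lx x := by
        refine le_iSup₂_of_le x ?_ le_rfl
        simpa using hx
      exact hle hy
    have hmem : galRep ht σ v - v ∈
        (IsLocalRing.maximalIdeal O ^ n • ⊤ : Submodule O (eigenSub t a)) := by
      apply mem_pow_smul_top_of_kill hϖ n
      intro y
      show ((galRep ht σ v : eigenSub t a) : SrcHom O J).hom _ - (v : SrcHom O J).hom _ = 0
      rw [galRep_hom, hfix _ (pow_smul_hom_div_eq_zero hpO hϖ n v.2 y), sub_self]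
    exact hmem
  · -- unramified
    intro σ hσ
    apply LinearMap.ext
    intro g
    apply Subtype.ext
    apply SrcHom.ext
    intro x
    rw [galRep_hom]
    exact hσ _ (exists_pow_smul_hom_eq_zero hpO g.2 x)
  · -- quadratic relation
    intro i n σ hσ
    apply LinearMap.ext
    intro g
    simp only [LinearMap.add_apply, LinearMap.sub_apply, LinearMap.smul_apply,
      Module.End.mul_apply, Module.End.one_apply, LinearMap.zero_apply]
    apply Subtype.ext
    apply SrcHom.ext
    intro x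
    have h := hσ _ (exists_pow_smul_hom_eq_zero hpO g.2 x)
    show σ • σ • (g : SrcHom O J).hom x -
          σ • (g : SrcHom O J).hom (algebraMap O (FractionRing O) (a i) * x) +
          (g : SrcHom O J).hom (algebraMap O (FractionRing O) (n : O) * x) = 0
    rw [← g.2.2, ht]
    have e2 : (g : SrcHom O J).hom (algebraMap O (FractionRing O) (n : O) * x) =
        n • (g : SrcHom O J).hom x := by
      rw [map_natCast, ← nsmul_eq_mul, map_nsmul]
    rw [e2]
    exact h

end Fermat.Agent.S30.H330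

end
end
-- ===== PACK-END S30/H330/AdicAlg.lean

-- ===== PACK-BEGIN S21/H81/InjCore.lean
section



/-!
# S21, piece C (core): a holomorphic function on `ℍ` whose real part is `Γ₀(N)`-invariant and
which has a limit at every cusp has vanishing derivative.
-/

set_option autoImplicit false

open UpperHalfPlane CongruenceSubgroup Filter Topology Complex
open scoped MatrixGroups Manifold

namespace Fermat.Agent.S21.H81

/-- `SL(2,ℤ)` acts holomorphically on `ℍ`. -/
theorem injCore_mdiff_smul (g : SL(2, ℤ)) : MDiff (fun τ : ℍ => g • τ) := by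
  have h : (0 : ℝ) < ((g : GL (Fin 2) ℝ).det : ℝ) := by simp
  exact mdifferentiable_smul h

theorem injCore_mdiff_of_differentiableAt {A : ℍ → ℂ}
    (hol : ∀ τ : ℍ, DifferentiableAt ℂ (A ∘ ofComplex) (τ : ℂ)) : MDiff A := by
  intro τ
  exact UpperHalfPlane.mdifferentiableAt_iff.mpr (hol τ)

/-- `T ^ N` conjugated by anything lies in `Γ₀(N)`. -/
theorem injCore_conj_T_pow_mem (N : ℕ) (δ : SL(2, ℤ)) :
    δ * ModularGroup.T ^ (N : ℤ) * δ⁻¹ ∈ Gamma0 N := by
  have h1 : ModularGroup.T ^ (N : ℤ) ∈ CongruenceSubgroup.Gamma N := by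
    rw [Gamma_mem, ModularGroup.coe_T_zpow]
    simp
  have h2 : δ * ModularGroup.T ^ (N : ℤ) * δ⁻¹ ∈ CongruenceSubgroup.Gamma N :=
    (Gamma_normal N).conj_mem _ h1 δ
  exact Gamma0_mem.mpr (Gamma_mem.mp h2).2.2.1

theorem injCore_tendsto_vadd (x : ℝ) :
    Tendsto (fun w : ℍ => x +ᵥ w) atImInfty atImInfty := by
  rw [atImInfty, tendsto_comap_iff]
  have : (UpperHalfPlane.im ∘ fun w : ℍ => x +ᵥ w) = UpperHalfPlane.im := by
    funext w; simp
  rw [this]
  exact tendsto_comap


section core

variable {N : ℕ} {A : ℍ → ℂ}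

theorem injCore_vadd_eq
    (hinv : ∀ γ ∈ Gamma0 N, ∃ c : ℂ, c.re = 0 ∧ ∀ z : ℍ, A (γ • z) - A z = c)
    (hcusp : ∀ δ : SL(2, ℤ), ∃ L : ℂ, Tendsto (fun w : ℍ => A (δ • w)) atImInfty (𝓝 L))
    (δ : SL(2, ℤ)) (w : ℍ) : A (δ • ((N : ℝ) +ᵥ w)) = A (δ • w) := by
  obtain ⟨c, -, hc⟩ := hinv _ (injCore_conj_T_pow_mem N δ)
  have key : ∀ w : ℍ, A (δ • ((N : ℝ) +ᵥ w)) - A (δ • w) = c := by
    intro w
    have h := hc (δ • w)
    have e : (δ * ModularGroup.T ^ (N : ℤ) * δ⁻¹) • (δ • w) = δ • ((N : ℝ) +ᵥ w) := by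
      rw [mul_smul, mul_smul, inv_smul_smul, modular_T_zpow_smul]
      simp
    rwa [e] at h
  obtain ⟨L, hL⟩ := hcusp δ
  have h1 : Tendsto (fun w : ℍ => A (δ • ((N : ℝ) +ᵥ w))) atImInfty (𝓝 L) :=
    hL.comp (injCore_tendsto_vadd (N : ℝ))
  have h2 : Tendsto (fun w : ℍ => A (δ • ((N : ℝ) +ᵥ w)) - A (δ • w)) atImInfty (𝓝 (L - L)) :=
    h1.sub hL
  have h3 : Tendsto (fun _ : ℍ => c) atImInfty (𝓝 (L - L)) := by
    refine h2.congr ?_
    intro w
    exact key w
  have hc0 : c = 0 := by
    have := tendsto_nhds_unique h3 tendsto_const_nhds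
    simpa using this.symm
  have := key w
  rw [hc0, sub_eq_zero] at this
  exact this

/-- The functions `E δ w = exp (A (δ • w))`. -/
noncomputable def injCoreE (A : ℍ → ℂ) (δ : SL(2, ℤ)) : ℍ → ℂ := fun w => cexp (A (δ • w))

theorem injCoreE_mdiff (hA : MDiff A) (δ : SL(2, ℤ)) : MDiff (injCoreE A δ) := by
  have h1 : MDiff (fun w : ℍ => A (δ • w)) := hA.comp (injCore_mdiff_smul δ)
  exact (Complex.differentiable_exp.mdifferentiable).comp h1

theorem injCoreE_periodic [NeZero N]
    (hinv : ∀ γ ∈ Gamma0 N, ∃ c : ℂ, c.re = 0 ∧ ∀ z : ℍ, A (γ • z) - A z = c)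
    (hcusp : ∀ δ : SL(2, ℤ), ∃ L : ℂ, Tendsto (fun w : ℍ => A (δ • w)) atImInfty (𝓝 L))
    (δ : SL(2, ℤ)) : Function.Periodic (injCoreE A δ ∘ ofComplex) ((N : ℝ) : ℂ) := by
  intro w
  by_cases hw : 0 < im w
  · have hw' : 0 < im (w + ((N : ℝ) : ℂ)) := by simpa using hw
    simp only [Function.comp_apply, ofComplex_apply_of_im_pos hw', ofComplex_apply_of_im_pos hw]
    have e : (⟨w + ((N : ℝ) : ℂ), hw'⟩ : ℍ) = (N : ℝ) +ᵥ (⟨w, hw⟩ : ℍ) := by
      ext
      simp [add_comm]
    rw [e]
    unfold injCoreE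
    rw [injCore_vadd_eq hinv hcusp δ]
  · have hw' : im (w + ((N : ℝ) : ℂ)) ≤ 0 := by simpa using not_lt.mp hw
    simp only [Function.comp_apply]
    rw [ofComplex_apply_of_im_nonpos hw', ofComplex_apply_of_im_nonpos (not_lt.mp hw)]

theorem injCoreE_bdd
    (hcusp : ∀ δ : SL(2, ℤ), ∃ L : ℂ, Tendsto (fun w : ℍ => A (δ • w)) atImInfty (𝓝 L))
    (δ : SL(2, ℤ)) : IsBoundedAtImInfty (injCoreE A δ) := by
  obtain ⟨L, hL⟩ := hcusp δ
  have h : Tendsto (injCoreE A δ) atImInfty (𝓝 (cexp L)) :=
    (Complex.continuous_exp.tendsto L).comp hL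
  exact h.isBigO_one ℝ


theorem injCore_norm_qParam_le (hN : (0 : ℝ) < N) {w : ℍ} (hw : 1 / 2 ≤ w.im) :
    ‖Function.Periodic.qParam (N : ℝ) (w : ℂ)‖ ≤ Real.exp (-Real.pi / N) := by
  rw [Function.Periodic.norm_qParam, Real.exp_le_exp]
  have hpi := Real.pi_pos
  rw [div_le_div_iff_of_pos_right hN]
  have : (w : ℂ).im = w.im := rfl
  rw [this]
  nlinarith

theorem injCore_exp_const [NeZero N] (hol : MDiff A)
    (hinv : ∀ γ ∈ Gamma0 N, ∃ c : ℂ, c.re = 0 ∧ ∀ z : ℍ, A (γ • z) - A z = c)
    (hcusp : ∀ δ : SL(2, ℤ), ∃ L : ℂ, Tendsto (fun w : ℍ => A (δ • w)) atImInfty (𝓝 L)) :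
    ∃ K : ℂ, ∀ z : ℍ, cexp (A z) = K := by
  have hNpos : (0 : ℝ) < N := Nat.cast_pos.mpr (NeZero.pos N)
  set r := Real.exp (-Real.pi / N) with hr
  have hr0 : 0 ≤ r := (Real.exp_pos _).le
  have hr1 : r < 1 := by
    rw [hr, ← Real.exp_zero, Real.exp_lt_exp]
    exact div_neg_of_neg_of_pos (neg_lt_zero.mpr Real.pi_pos) hNpos
  -- cusp functions
  let Et : SL(2, ℤ) → ℂ → ℂ := fun δ => cuspFunction (N : ℝ) (injCoreE A δ)
  have hdiff : ∀ δ, DifferentiableOn ℂ (Et δ) (Metric.ball 0 1) := fun δ =>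
    differentiableOn_cuspFunction_ball hNpos (injCoreE_periodic hinv hcusp δ)
      (injCoreE_mdiff hol δ) (injCoreE_bdd hcusp δ)
  have heq : ∀ δ (w : ℍ), Et δ (Function.Periodic.qParam (N : ℝ) (w : ℂ)) = cexp (A (δ • w)) :=
    fun δ w => eq_cuspFunction w hNpos.ne' (injCoreE_periodic hinv hcusp δ)
  -- maxima on the closed ball
  have hmax : ∀ δ, ∃ q ∈ Metric.closedBall (0 : ℂ) r,
      IsMaxOn (norm ∘ Et δ) (Metric.closedBall 0 r) q := fun δ =>
    (isCompact_closedBall 0 r).exists_isMaxOn (Metric.nonempty_closedBall.mpr hr0)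
      ((hdiff δ).continuousOn.mono (Metric.closedBall_subset_ball hr1)).norm
  choose qmax hqmem hqmax using hmax
  -- finite quotient
  let δof : SL(2, ℤ) ⧸ Gamma0 N → SL(2, ℤ) := fun c => (Quotient.out c)⁻¹
  obtain ⟨c₀, hc₀⟩ := Finite.exists_max
    (fun c : SL(2, ℤ) ⧸ Gamma0 N => ‖Et (δof c) (qmax (δof c))‖)
  -- key bound
  have hbound : ∀ z : ℍ, ‖cexp (A z)‖ ≤ ‖Et (δof c₀) (qmax (δof c₀))‖ := by
    intro z
    obtain ⟨g, hg⟩ := ModularGroup.exists_smul_mem_fd z
    have him : 1 / 2 ≤ (g • z).im := by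
      have := ModularGroup.three_le_four_mul_im_sq_of_mem_fd hg
      nlinarith [(g • z).im_pos]
    set c : SL(2, ℤ) ⧸ Gamma0 N := (g : SL(2, ℤ) ⧸ Gamma0 N) with hcdef
    have hγ : (Quotient.out c)⁻¹ * g ∈ Gamma0 N :=
      QuotientGroup.eq.mp (QuotientGroup.out_eq' c)
    obtain ⟨c', hc're, hc'⟩ := hinv _ ((Gamma0 N).inv_mem hγ)
    have hz : ((Quotient.out c)⁻¹ * g)⁻¹ • (δof c • (g • z)) = z := by
      simp only [δof, mul_inv_rev, inv_inv, mul_smul, smul_inv_smul, inv_smul_smul]
    have h1 := hc' (δof c • (g • z))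
    rw [hz] at h1
    have hre : (A z).re = (A (δof c • (g • z))).re := by
      have := congrArg Complex.re h1
      simp only [Complex.sub_re] at this
      linarith
    have hnorm : ‖cexp (A z)‖ = ‖cexp (A (δof c • (g • z)))‖ := by
      rw [Complex.norm_exp, Complex.norm_exp, hre]
    rw [hnorm, ← heq]
    have hmem : Function.Periodic.qParam (N : ℝ) ((g • z : ℍ) : ℂ) ∈ Metric.closedBall (0 : ℂ) r := by
      rw [mem_closedBall_zero_iff]
      exact injCore_norm_qParam_le hNpos him
    exact (hqmax (δof c) hmem).trans (hc₀ c)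
  -- max on the open ball
  have hmaxball : IsMaxOn (norm ∘ Et (δof c₀)) (Metric.ball 0 1) (qmax (δof c₀)) := by
    intro q hq
    show ‖Et (δof c₀) q‖ ≤ ‖Et (δof c₀) (qmax (δof c₀))‖
    by_cases hq0 : q = 0
    · subst hq0
      exact hqmax _ (Metric.mem_closedBall_self hr0)
    · have him := Function.Periodic.im_invQParam_pos_of_norm_lt_one hNpos
        (mem_ball_zero_iff.mp hq) hq0
      have h2 := heq (δof c₀) ⟨_, him⟩
      rw [UpperHalfPlane.coe_mk, Function.Periodic.qParam_right_inv hNpos.ne' hq0] at h2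
      rw [h2]
      exact hbound _
  have hconst := Complex.eq_const_of_exists_max (hdiff (δof c₀))
    (Metric.closedBall_subset_ball hr1 (hqmem _)) hmaxball
  refine ⟨Et (δof c₀) (qmax (δof c₀)), fun z => ?_⟩
  have h3 := heq (δof c₀) ((δof c₀)⁻¹ • z)
  rw [smul_inv_smul] at h3
  rw [← h3]
  refine hconst ?_
  rw [mem_ball_zero_iff]
  exact Function.Periodic.norm_qParam_lt_one hNpos (UpperHalfPlane.im_pos _)

/-- **Core of the injectivity argument.** A holomorphic function on `ℍ` whose real part is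
`Γ₀(N)`-invariant and which has a limit at every cusp has vanishing derivative. -/
theorem injCore_deriv_eq_zero [NeZero N]
    (hol : ∀ τ : ℍ, DifferentiableAt ℂ (A ∘ ofComplex) (τ : ℂ))
    (hinv : ∀ γ ∈ Gamma0 N, ∃ c : ℂ, c.re = 0 ∧ ∀ z : ℍ, A (γ • z) - A z = c)
    (hcusp : ∀ δ : SL(2, ℤ), ∃ L : ℂ, Tendsto (fun w : ℍ => A (δ • w)) atImInfty (𝓝 L))
    (τ : ℍ) : deriv (A ∘ ofComplex) (τ : ℂ) = 0 := by
  obtain ⟨K, hK⟩ := injCore_exp_const (injCore_mdiff_of_differentiableAt hol) hinv hcusp
  have h1 : (fun z : ℂ => cexp ((A ∘ ofComplex) z)) =ᶠ[𝓝 (τ : ℂ)] fun _ => K := by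
    have hopen : {z : ℂ | 0 < z.im} ∈ 𝓝 (τ : ℂ) :=
      isOpen_upperHalfPlaneSet.mem_nhds τ.im_pos
    filter_upwards [hopen] with z hz
    simp only [Function.comp_apply]
    exact hK _
  have h2 : deriv (fun z : ℂ => cexp ((A ∘ ofComplex) z)) (τ : ℂ) = 0 := by
    rw [h1.deriv_eq]
    simp
  have h3 : HasDerivAt (fun z : ℂ => cexp ((A ∘ ofComplex) z))
      (cexp ((A ∘ ofComplex) (τ : ℂ)) * deriv (A ∘ ofComplex) (τ : ℂ)) (τ : ℂ) :=
    (hol τ).hasDerivAt.cexp
  rw [h3.deriv] at h2
  exact (mul_eq_zero.mp h2).resolve_left (Complex.exp_ne_zero _)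

end core

end Fermat.Agent.S21.H81

end
-- ===== PACK-END S21/H81/InjCore.lean

-- ===== PACK-BEGIN S28/H806/LemmaM.lean
section


set_option autoImplicit false
set_option linter.unusedSectionVars false
set_option linter.style.haveILetI false

noncomputable section

namespace Fermat.Agent.S28.H806

open Polynomial

section PrimePower

variable {P D : Type*} [CommRing P] [IsDomain P] [CommRing D] [IsDomain D]

/-- If `ell` generates the kernel of `red` and `red c ≠ 0`, then `u * c = v * ell ^ m`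
forces `ell ^ m ∣ u`. -/
theorem pow_dvd_of_mul_eq_mul_pow (red : P →+* D) (ell : P) (hell0 : ell ≠ 0)
    (hell : red ell = 0) (hker : ∀ u : P, red u = 0 → ell ∣ u) :
    ∀ (m : ℕ) (c : P), red c ≠ 0 → ∀ u v : P, u * c = v * ell ^ m → ell ^ m ∣ u := by
  intro m
  induction m with
  | zero => intro c _ u v _; simp
  | succ m ih =>
    intro c hc u v h
    have hu : red u = 0 := by
      have h1 := congrArg red h
      rw [map_mul, map_mul, map_pow, hell, pow_succ, mul_zero, mul_zero] at h1
      rcases mul_eq_zero.mp h1 with h2 | h2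
      · exact h2
      · exact absurd h2 hc
    obtain ⟨u', rfl⟩ := hker u hu
    have h' : u' * c = v * ell ^ m := by
      apply mul_left_cancel₀ hell0
      rw [← mul_assoc, h, pow_succ]; ring
    obtain ⟨w, hw⟩ := ih c hc u' v h'
    exact ⟨w, by rw [hw, pow_succ]; ring⟩

end PrimePower

section LemmaM

variable {P F D : Type*} [CommRing P] [IsDomain P] [IsIntegrallyClosed P]
  [Field F] [Algebra P F] [Module.IsTorsionFree P F] [CommRing D] [IsDomain D]

/-- **Lemma M.**  Let `P` be an integrally closed domain, `ell ∈ P` a generator of the kernel of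
`red : P → D`, and `s ∈ P` with `red s ≠ 0`.  If `ell • y` and `s • y` are integral over `P`, then
so is `y`. -/
theorem isIntegral_of_isIntegral_smul_of_isIntegral_smul (red : P →+* D) (ell s : P)
    (hell0 : ell ≠ 0) (hell : red ell = 0) (hker : ∀ u : P, red u = 0 → ell ∣ u)
    (hs : red s ≠ 0) (y : F) (h1 : IsIntegral P (ell • y)) (h2 : IsIntegral P (s • y)) :
    IsIntegral P y := by
  classical
  have hs0 : s ≠ 0 := fun h => hs (by rw [h, map_zero])
  have e1 := IsIntegrallyClosed.minpoly_smul hs0 h1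
  have e2 := IsIntegrallyClosed.minpoly_smul hell0 h2
  rw [smul_comm] at e1
  rw [e1] at e2
  set g := minpoly P (ell • y) with hg
  set h := minpoly P (s • y) with hh
  have hdeg : g.natDegree = h.natDegree := by
    have := congrArg Polynomial.natDegree e2
    rwa [natDegree_scaleRoots, natDegree_scaleRoots] at this
  set n := g.natDegree with hn
  have hdiv : ∀ i, ell ^ (n - i) ∣ g.coeff i := by
    intro i
    have hc := congrArg (fun p => p.coeff i) e2
    simp only [coeff_scaleRoots] at hc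
    rw [← hdeg] at hc
    exact pow_dvd_of_mul_eq_mul_pow red ell hell0 hell hker (n - i) (s ^ (n - i))
      (by rw [map_pow]; exact pow_ne_zero _ hs) (g.coeff i) (h.coeff i) hc
  choose a ha using hdiv
  have hgm : g.Monic := minpoly.monic h1
  have han : a n = 1 := by
    have := ha n
    rw [Nat.sub_self, pow_zero, one_mul] at this
    rw [← this]
    exact hgm.coeff_natDegree
  let f : P[X] := X ^ n + ∑ i ∈ Finset.range n, C (a i) * X ^ i
  have hfm : f.Monic := by
    apply monic_X_pow_add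
    rw [degree_lt_iff_coeff_zero]
    intro m hm
    rw [finsetSum_coeff]
    refine Finset.sum_eq_zero fun i hi => ?_
    rw [coeff_C_mul_X_pow, if_neg]
    have := Finset.mem_range.mp hi
    omega
  refine ⟨f, hfm, ?_⟩
  have hroot : aeval (ell • y) g = 0 := minpoly.aeval P (ell • y)
  rw [hgm.as_sum] at hroot
  have hell' : algebraMap P F ell ≠ 0 := by
    intro h0
    exact hell0 ((FaithfulSMul.algebraMap_injective P F) (by rw [h0, map_zero]))
  have key : (algebraMap P F ell) ^ n * eval₂ (algebraMap P F) y f = 0 := by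
    rw [← hroot]
    simp only [f, eval₂_add, eval₂_pow, eval₂_X, eval₂_finsetSum, eval₂_mul, eval₂_C,
      map_add, map_pow, aeval_X, map_sum, map_mul, aeval_C, Algebra.smul_def]
    rw [mul_add, Finset.mul_sum, mul_pow]
    congr 1
    refine Finset.sum_congr rfl fun i hi => ?_
    have hi' : i ≤ n := (Finset.mem_range.mp hi).le
    rw [ha i, map_mul, map_pow, mul_pow]
    have : (algebraMap P F ell) ^ n = (algebraMap P F ell) ^ (n - i) * (algebraMap P F ell) ^ i := by
      rw [← pow_add, Nat.sub_add_cancel hi']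
    rw [this]; ring
  rcases mul_eq_zero.mp key with h0 | h0
  · exact absurd h0 (pow_ne_zero _ hell')
  · exact h0

end LemmaM

end Fermat.Agent.S28.H806

end
end
-- ===== PACK-END S28/H806/LemmaM.lean

-- ===== PACK-BEGIN S18/H504/ValDvr.lean
section



/-!
# S18 — every nontrivial valuation ring of a function field is discrete (char-free)

`F/K` a field extension, `O` a valuation subring of `F` containing `K`, `u ∈ O` a non-unit,
`u ≠ 0`, with `F` finite over `K(u)`.  Then `O` is a principal ideal ring, hence a `Place K F`.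
No hypothesis on the characteristic, no separability, `K` arbitrary.

Main results:
* `isPrincipalIdealRing_of_finite` : `IsPrincipalIdealRing O`;
* `placeOfValuationSubring` : the `Place K F` with valuation ring `O`.
-/

set_option autoImplicit false

namespace Fermat.Agent.S18.H504

open AlgebraicCurve IntermediateField Polynomial

variable {K F : Type*} [Field K] [Field F] [Algebra K F]

/-- If a finite sum vanishes and some term is nonzero, the maximal valuation is attained by two
distinct (nonzero) terms. -/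
theorem exists_ne_valuation_eq {Γ₀ : Type*} [LinearOrderedCommGroupWithZero Γ₀]
    (v : Valuation F Γ₀) {ι : Type*} [DecidableEq ι] (s : Finset ι) (a : ι → F)
    (hsum : ∑ i ∈ s, a i = 0) (hne : ∃ i ∈ s, a i ≠ 0) :
    ∃ i ∈ s, ∃ j ∈ s, i ≠ j ∧ a i ≠ 0 ∧ a j ≠ 0 ∧ v (a i) = v (a j) := by
  obtain ⟨i₁, hi₁, hai₁⟩ := hne
  obtain ⟨i₀, hi₀, hmax⟩ := Finset.exists_max_image s (fun i => v (a i)) ⟨i₁, hi₁⟩
  have hv0 : v (a i₀) ≠ 0 := by
    intro h0
    have := hmax i₁ hi₁
    rw [h0] at this
    exact hai₁ ((v.zero_iff).mp (le_antisymm this zero_le))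
  have hai₀ : a i₀ ≠ 0 := fun h => hv0 (by rw [h, map_zero])
  by_contra hcon
  push Not at hcon
  have hlt : ∀ i ∈ s \ {i₀}, v (a i) < v (a i₀) := by
    intro i hi
    rw [Finset.mem_sdiff, Finset.mem_singleton] at hi
    refine lt_of_le_of_ne (hmax i hi.1) ?_
    intro heq
    have hai : a i ≠ 0 := fun h => hv0 (by rw [← heq, h, map_zero])
    exact hcon i₀ hi₀ i hi.1 (Ne.symm hi.2) hai₀ hai heq.symm
  have := v.map_sum_eq_of_lt hi₀ hlt
  rw [hsum, map_zero] at this
  exact hv0 this.symm

section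

variable (O : ValuationSubring F) (hK : ∀ a : K, algebraMap K F a ∈ O)

include hK in
theorem valuation_algebraMap {c : K} (hc : c ≠ 0) : O.valuation (algebraMap K F c) = 1 := by
  have h1 : O.valuation (algebraMap K F c) ≤ 1 := (O.valuation_le_one_iff _).mpr (hK c)
  have h2 : O.valuation (algebraMap K F c⁻¹) ≤ 1 := (O.valuation_le_one_iff _).mpr (hK c⁻¹)
  rw [map_inv₀, map_inv₀] at h2
  have hne : O.valuation (algebraMap K F c) ≠ 0 :=
    (Valuation.ne_zero_iff _).mpr (by simpa using hc)
  exact le_antisymm h1 ((inv_le_one₀ (zero_lt_iff.mpr hne)).mp h2)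

include hK in
theorem aeval_mem {u : F} (hu : u ∈ O) (p : K[X]) : aeval u p ∈ O := by
  rw [aeval_eq_sum_range]
  refine Subring.sum_mem O.toSubring fun i _ => ?_
  rw [Algebra.smul_def]
  exact O.mul_mem _ _ (hK _) (pow_mem hu i)

include hK in
theorem valuation_aeval_of_coeff_zero_ne {u : F} (hu : u ∈ O) (hu' : u⁻¹ ∉ O) (q : K[X])
    (hq : q.coeff 0 ≠ 0) : O.valuation (aeval u q) = 1 := by
  have hdecomp : aeval u q = aeval u q.divX * u + algebraMap K F (q.coeff 0) := by
    conv_lhs => rw [← divX_mul_X_add q]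
    simp only [map_add, map_mul, aeval_X, aeval_C]
  have hu1 : O.valuation u < 1 := by
    have h1 : O.valuation u ≤ 1 := (O.valuation_le_one_iff _).mpr hu
    refine lt_of_le_of_ne h1 fun h => hu' ?_
    rw [← O.valuation_le_one_iff, map_inv₀, h, inv_one]
  have h2 : O.valuation (aeval u q.divX * u) < 1 := by
    rw [map_mul]
    have h3 : O.valuation (aeval u q.divX) ≤ 1 := (O.valuation_le_one_iff _).mpr (aeval_mem O hK hu _)
    calc O.valuation (aeval u q.divX) * O.valuation u ≤ 1 * O.valuation u :=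
          mul_le_mul_left (α := O.ValueGroup) h3 _
      _ < 1 := by rwa [one_mul]
  rw [hdecomp, Valuation.map_add_eq_of_lt_right _ (by rwa [valuation_algebraMap O hK hq]),
    valuation_algebraMap O hK hq]

include hK in
theorem valuation_aeval {u : F} (hu : u ∈ O) (hu' : u⁻¹ ∉ O) (p : K[X]) (hp : p ≠ 0) :
    O.valuation (aeval u p) = O.valuation u ^ p.rootMultiplicity 0 := by
  obtain ⟨q, hpq, hq⟩ := exists_eq_pow_rootMultiplicity_mul_and_not_dvd p hp 0
  have hq0 : q.coeff 0 ≠ 0 := by
    intro h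
    apply hq
    rw [C_0, sub_zero]
    exact X_dvd_iff.mpr h
  conv_lhs => rw [hpq]
  rw [map_mul, map_pow, C_0, sub_zero, aeval_X, map_mul, map_pow,
    valuation_aeval_of_coeff_zero_ne O hK hu hu' q hq0, mul_one]

include hK in
/-- On `K(u)` the valuation is a power of the valuation of `u`. -/
theorem exists_zpow_of_mem_adjoin {u : F} (hu : u ∈ O) (hu' : u⁻¹ ∉ O) {g : F}
    (hg : g ∈ K⟮u⟯) (hg0 : g ≠ 0) : ∃ a : ℤ, O.valuation g = O.valuation u ^ a := by
  obtain ⟨r, s, rfl⟩ := (mem_adjoin_simple_iff K g).mp hg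
  have hr : r ≠ 0 := by
    rintro rfl
    simp at hg0
  have hs : s ≠ 0 := by
    rintro rfl
    simp at hg0
  refine ⟨(r.rootMultiplicity 0 : ℤ) - s.rootMultiplicity 0, ?_⟩
  have hu0 : O.valuation u ≠ 0 := by
    rw [Valuation.ne_zero_iff]
    rintro rfl
    exact hu' (by simp)
  rw [map_div₀, valuation_aeval O hK hu hu' r hr, valuation_aeval O hK hu hu' s hs,
    zpow_sub₀ hu0, zpow_natCast, zpow_natCast]

include hK in
/-- Some positive power `≤ [F : K(u)]` of the valuation of any `f ≠ 0` is a power of the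
valuation of `u`. -/
theorem exists_pow_eq_zpow {u : F} (hu : u ∈ O) (hu' : u⁻¹ ∉ O) [FiniteDimensional K⟮u⟯ F]
    {f : F} (hf : f ≠ 0) :
    ∃ d : ℕ, 0 < d ∧ d ≤ Module.finrank K⟮u⟯ F ∧
      ∃ a : ℤ, O.valuation f ^ d = O.valuation u ^ a := by
  classical
  set n := Module.finrank K⟮u⟯ F with hn
  have hdep : ¬ LinearIndependent K⟮u⟯ (fun i : Fin (n + 1) => f ^ (i : ℕ)) := by
    intro hli
    have := hli.fintype_card_le_finrank
    rw [Fintype.card_fin] at this
    omega
  obtain ⟨c, hsum, i₁, hi₁⟩ := Fintype.not_linearIndependent_iff.mp hdep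
  have hne : ∃ i ∈ (Finset.univ : Finset (Fin (n + 1))), c i • f ^ (i : ℕ) ≠ 0 := by
    refine ⟨i₁, Finset.mem_univ _, ?_⟩
    rw [Algebra.smul_def]
    exact mul_ne_zero (by simpa using hi₁) (pow_ne_zero _ hf)
  obtain ⟨i, -, j, -, hij, hai, haj, hval⟩ :=
    exists_ne_valuation_eq O.valuation Finset.univ (fun i => c i • f ^ (i : ℕ)) hsum hne
  have hci : c i ≠ 0 := fun h => hai (by simp [h])
  have hcj : c j ≠ 0 := fun h => haj (by simp [h])
  obtain ⟨ai, hvi⟩ := exists_zpow_of_mem_adjoin O hK hu hu' (c i).2 (by simpa using hci)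
  obtain ⟨aj, hvj⟩ := exists_zpow_of_mem_adjoin O hK hu hu' (c j).2 (by simpa using hcj)
  have hu0 : O.valuation u ≠ 0 := by
    rw [Valuation.ne_zero_iff]
    rintro rfl
    exact hu' (by simp)
  have hf0 : O.valuation f ≠ 0 := (Valuation.ne_zero_iff _).mpr hf
  simp only [Algebra.smul_def, map_mul, map_pow] at hval
  have hvi' : O.valuation (algebraMap K⟮u⟯ F (c i)) = O.valuation u ^ ai := hvi
  have hvj' : O.valuation (algebraMap K⟮u⟯ F (c j)) = O.valuation u ^ aj := hvj
  rw [hvi', hvj'] at hval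
  -- wlog i < j
  have key : ∀ (i j : ℕ) (ai aj : ℤ), i < j → j ≤ n →
      O.valuation u ^ ai * O.valuation f ^ i = O.valuation u ^ aj * O.valuation f ^ j →
      ∃ d : ℕ, 0 < d ∧ d ≤ n ∧ ∃ a : ℤ, O.valuation f ^ d = O.valuation u ^ a := by
    intro i j ai aj hlt hjn h
    refine ⟨j - i, by omega, by omega, ai - aj, ?_⟩
    have hj : j = (j - i) + i := by omega
    rw [hj, pow_add] at h
    have hfi : O.valuation f ^ i ≠ 0 := pow_ne_zero _ hf0
    have h2 : O.valuation u ^ ai = O.valuation u ^ aj * O.valuation f ^ (j - i) :=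
      mul_right_cancel₀ hfi (h.trans (mul_assoc _ _ _).symm)
    have huaj : O.valuation u ^ aj ≠ 0 := zpow_ne_zero _ hu0
    rw [zpow_sub₀ hu0, h2, mul_comm (O.valuation u ^ aj), mul_div_assoc, div_self huaj, mul_one]
  have hi_le : (i : ℕ) ≤ n := Nat.lt_succ_iff.mp i.2
  have hj_le : (j : ℕ) ≤ n := Nat.lt_succ_iff.mp j.2
  rcases lt_or_gt_of_ne (fun h => hij (Fin.ext h) : (i : ℕ) ≠ j) with h | h
  · exact key i j ai aj h hj_le hval
  · exact key j i aj ai h hi_le hval.symm

include hK in
theorem exists_factorial_pow_eq_zpow {u : F} (hu : u ∈ O) (hu' : u⁻¹ ∉ O)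
    [FiniteDimensional K⟮u⟯ F] {f : F} (hf : f ≠ 0) :
    ∃ a : ℤ, O.valuation f ^ (Module.finrank K⟮u⟯ F).factorial = O.valuation u ^ a := by
  obtain ⟨d, hd0, hdn, a, h⟩ := exists_pow_eq_zpow O hK hu hu' hf
  obtain ⟨k, hk⟩ := Nat.dvd_factorial hd0 hdn
  refine ⟨a * k, ?_⟩
  rw [hk, pow_mul, h, zpow_mul, zpow_natCast]

include hK in
/-- **Discreteness.** A valuation ring of `F` containing `K`, with a nonzero non-unit `u` such
that `F` is finite over `K(u)`, is a principal ideal ring. -/
theorem isPrincipalIdealRing_of_finite {u : F} (hu : u ∈ O) (hu' : u⁻¹ ∉ O)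
    [FiniteDimensional K⟮u⟯ F] : IsPrincipalIdealRing O := by
  classical
  set M := (Module.finrank K⟮u⟯ F).factorial with hM
  have hM0 : M ≠ 0 := Nat.factorial_ne_zero _
  have hu0 : u ≠ 0 := by
    rintro rfl
    exact hu' (by simp)
  have hγ0 : O.valuation u ≠ 0 := (Valuation.ne_zero_iff _).mpr hu0
  have hγ1 : O.valuation u < 1 := by
    have h1 : O.valuation u ≤ 1 := (O.valuation_le_one_iff _).mpr hu
    refine lt_of_le_of_ne h1 fun h => hu' ?_
    rw [← O.valuation_le_one_iff, map_inv₀, h, inv_one]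
  -- integral elements have natural exponents
  have hnat : ∀ b : F, b ∈ O → b ≠ 0 → ∃ k : ℕ, O.valuation b ^ M = O.valuation u ^ k := by
    intro b hb hb0
    obtain ⟨a, ha⟩ := exists_factorial_pow_eq_zpow O hK hu hu' hb0
    rw [← hM] at ha
    have hle : O.valuation b ^ M ≤ 1 := pow_le_one₀ zero_le ((O.valuation_le_one_iff _).mpr hb)
    rcases le_or_gt 0 a with h0 | h0
    · refine ⟨a.toNat, ?_⟩
      rw [ha, ← zpow_natCast, Int.toNat_of_nonneg h0]
    · exfalso
      rw [ha] at hle
      have h1 : O.valuation u ^ a = (O.valuation u ^ (-a).toNat)⁻¹ := by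
        rw [← zpow_natCast, Int.toNat_of_nonneg (by omega), zpow_neg, inv_inv]
      have h2 : O.valuation u ^ (-a).toNat < 1 :=
        pow_lt_one₀ zero_le hγ1 (by omega)
      have h3 : 1 < (O.valuation u ^ (-a).toNat)⁻¹ :=
        (one_lt_inv₀ (zero_lt_iff.mpr (pow_ne_zero _ hγ0))).mpr h2
      rw [h1] at hle
      exact absurd hle (not_le.mpr h3)
  refine ⟨fun I => ?_⟩
  by_cases hI : I = ⊥
  · rw [hI]; exact bot_isPrincipal
  have hex : ∃ k : ℕ, ∃ a ∈ I, a ≠ 0 ∧ O.valuation (a : F) ^ M = O.valuation u ^ k := by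
    obtain ⟨a, haI, ha0⟩ := Submodule.exists_mem_ne_zero_of_ne_bot hI
    obtain ⟨k, hk⟩ := hnat a a.2 (by simpa using ha0)
    exact ⟨k, a, haI, ha0, hk⟩
  obtain ⟨a, haI, ha0, hak⟩ := Nat.find_spec hex
  refine ⟨⟨a, ?_⟩⟩
  apply le_antisymm
  · intro b hb
    rw [Submodule.mem_span_singleton]
    rcases eq_or_ne b 0 with rfl | hb0
    · exact ⟨0, by simp⟩
    have haF : (a : F) ≠ 0 := by simpa using ha0
    have hbF : (b : F) ≠ 0 := by simpa using hb0
    obtain ⟨kb, hkb⟩ := hnat b b.2 hbF
    have hmin : Nat.find hex ≤ kb := Nat.find_min' hex ⟨b, hb, hb0, hkb⟩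
    have hle : O.valuation (b : F) ^ M ≤ O.valuation (a : F) ^ M := by
      rw [hkb, hak]
      exact pow_le_pow_of_le_one zero_le hγ1.le hmin
    have hle' : O.valuation (b : F) ≤ O.valuation (a : F) :=
      (pow_le_pow_iff_left₀ zero_le zero_le hM0).mp hle
    have hq : (b : F) / (a : F) ∈ O := by
      rw [← O.valuation_le_one_iff, map_div₀]
      exact (div_le_one₀ (zero_lt_iff.mpr ((Valuation.ne_zero_iff _).mpr haF))).mpr hle'
    refine ⟨⟨_, hq⟩, ?_⟩
    ext
    simp only [smul_eq_mul, MulMemClass.coe_mul]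
    field_simp
  · rw [Submodule.span_le]
    simpa using haI

theorem ne_top_of_not_mem {u : F} (hu' : u⁻¹ ∉ O) : O ≠ ⊤ :=
  fun h => hu' (h ▸ ValuationSubring.mem_top _)

/-- The place of `F/K` defined by a valuation ring with a non-unit `u`, `[F : K(u)] < ∞`. -/
noncomputable def placeOfValuationSubring {u : F} (hu : u ∈ O) (hu' : u⁻¹ ∉ O)
    [FiniteDimensional K⟮u⟯ F] : Place K F where
  toValuationSubring := O
  algebraMap_mem' := hK
  ne_top' := fun h => hu' (h ▸ ValuationSubring.mem_top _)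
  isPrincipalIdealRing' := isPrincipalIdealRing_of_finite O hK hu hu'

@[simp]
theorem placeOfValuationSubring_toValuationSubring {u : F} (hu : u ∈ O) (hu' : u⁻¹ ∉ O)
    [FiniteDimensional K⟮u⟯ F] :
    (placeOfValuationSubring O hK hu hu').toValuationSubring = O := rfl

end

end Fermat.Agent.S18.H504

end
-- ===== PACK-END S18/H504/ValDvr.lean

-- ===== PACK-BEGIN S18/H754/KummerSpec.lean
section


/-!
# S18, Route K, pieces b3 + b4 merged: the ETALE KUMMER COVER (helper754, squad S18/S34)

Mathlib-only.  Setting (one chart):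

* `B` : Noetherian integrally closed domain (chart algebra of the model, over a DVR `A'`),
  `F = Frac B`, `ϖ ∈ B` a prime element (uniformiser of `A'`), and the special fibre `B/ϖ` is
  regular: every maximal ideal `𝔪 ∋ ϖ` is locally generated by `ϖ` and one more element
  (this is the OUTPUT of b2: `B/ϖ` Dedekind).
* `u ∈ F`, `z ^ p = u` in an extension field `F'`, `p` prime and invertible in `B`,
  `u` is a unit at `ϖ` with `u ≡ 1 mod ϖ`, and at every height-one prime of `B` the element `u`
  is a unit times a `p`-th power (`p ∣ ord_v(u)` for all places).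

Conclusions (no discriminant counting for the cover is needed: the cover is étale over the
regular chart because regular local rings of this shape are UFDs):

* `KummerLift`  : every Kummer idempotent `e_η = p⁻¹ ∑_{a<p} η^a z^a` (`η^p = 1`) is congruent
  modulo `ϖ O'` to an element integral over `B` (`O'` = integral closure of `B_(ϖ)`).
* `KummerUnmixed` : if `c ∈ F(z)` is integral over `B` and `c ∈ ϖ O'` then `c/ϖ` is integral over `B`.
* `kummerIdem_*` : idempotency / orthogonality / nontriviality of the `e_η` modulo `ϖ O'`.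
-/

set_option autoImplicit false

noncomputable section

namespace Fermat.Agent.S18.H754

open Polynomial

variable {B : Type*} [CommRing B] [IsDomain B]
  {F : Type*} [Field F] [Algebra B F] [IsFractionRing B F]
  {F' : Type*} [Field F'] [Algebra F F'] [Algebra B F'] [IsScalarTower B F F']

/-- The Kummer idempotent candidate attached to `η` (a `p`-th root of unity in `B`). -/
def kummerIdem (p : ℕ) (η : B) (z : F') : F' :=
  (p : F')⁻¹ * ∑ a ∈ Finset.range p, algebraMap B F' (η ^ a) * z ^ a

/-- `y ∈ ϖ O'`, where `O'` is the integral closure of `B_(ϖ)` in `F'`, elementwise: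
`s y = ϖ c` with `s ∈ B ∖ ϖB` and `c` integral over `B`. -/
def InPiO (ϖ : B) (y : F') : Prop :=
  ∃ s : B, s ∉ Ideal.span {ϖ} ∧ ∃ c : F', IsIntegral B c ∧
    algebraMap B F' s * y = algebraMap B F' ϖ * c

/-- The special fibre is regular at every closed point: `𝔪 B_𝔪 = (ϖ, t)`. -/
def RegularAlong (ϖ : B) : Prop :=
  ∀ 𝔪 : Ideal B, 𝔪.IsMaximal → ϖ ∈ 𝔪 →
    ∃ t ∈ 𝔪, ∀ a ∈ 𝔪, ∃ s : B, s ∉ 𝔪 ∧ s * a ∈ Ideal.span {ϖ, t}

/-- `u` is a unit at `ϖ` and `u ≡ 1 mod ϖ`. -/
def OneModPi (ϖ : B) (u : F) : Prop :=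
  ∃ a s : B, s ∉ Ideal.span {ϖ} ∧ a - s ∈ Ideal.span {ϖ} ∧
    u * algebraMap B F s = algebraMap B F a

/-- `p ∣ ord_𝔭 (u)` at every height-one prime `𝔭` of `B`, elementwise. -/
def DivisibleDivisor (B : Type*) [CommRing B] {F : Type*} [Field F] [Algebra B F]
    (p : ℕ) (u : F) : Prop :=
  ∀ 𝔭 : Ideal B, 𝔭.IsPrime → 𝔭.height = 1 →
    ∃ t : F, ∃ a s : B, a ∉ 𝔭 ∧ s ∉ 𝔭 ∧ u * t ^ p * algebraMap B F s = algebraMap B F a

/-- STATEMENT of the lifting theorem. -/
def KummerLiftStatement : Prop :=
  ∀ (B : Type) [CommRing B] [IsDomain B] [IsNoetherianRing B] [IsIntegrallyClosed B]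
    (F : Type) [Field F] [Algebra B F] [IsFractionRing B F]
    (F' : Type) [Field F'] [Algebra F F'] [Algebra B F'] [IsScalarTower B F F']
    (ϖ : B) (_ : Prime ϖ) (_ : RegularAlong ϖ)
    (p : ℕ) (_ : p.Prime) (_ : IsUnit (p : B))
    (u : F) (z : F') (_ : z ^ p = algebraMap F F' u) (_ : ∀ y : F, y ^ p ≠ u)
    (_ : OneModPi ϖ u) (_ : DivisibleDivisor B p u)
    (η : B) (_ : η ^ p = 1),
    ∃ b : F', IsIntegral B b ∧ InPiO ϖ (b - kummerIdem p η z)

/-- STATEMENT of unmixedness of `ϖ` on the integral closure in `F(z)`. -/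
def KummerUnmixedStatement : Prop :=
  ∀ (B : Type) [CommRing B] [IsDomain B] [IsNoetherianRing B] [IsIntegrallyClosed B]
    (F : Type) [Field F] [Algebra B F] [IsFractionRing B F]
    (F' : Type) [Field F'] [Algebra F F'] [Algebra B F'] [IsScalarTower B F F']
    (ϖ : B) (_ : Prime ϖ) (_ : RegularAlong ϖ)
    (p : ℕ) (_ : p.Prime) (_ : IsUnit (p : B))
    (u : F) (z : F') (_ : z ^ p = algebraMap F F' u) (_ : ∀ y : F, y ^ p ≠ u)
    (_ : OneModPi ϖ u) (_ : DivisibleDivisor B p u)
    (c : F') (_ : c ∈ IntermediateField.adjoin F {z}) (_ : IsIntegral B c) (_ : InPiO ϖ c),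
    ∃ c' : F', IsIntegral B c' ∧ c = algebraMap B F' ϖ * c'

/-- STATEMENT: the Kummer idempotents are idempotent and orthogonal modulo `ϖ O'`, sum to one,
and none of them vanishes modulo `ϖ O'`. -/
def KummerIdemStatement : Prop :=
  ∀ (B : Type) [CommRing B] [IsDomain B] [IsIntegrallyClosed B]
    (F : Type) [Field F] [Algebra B F] [IsFractionRing B F]
    (F' : Type) [Field F'] [Algebra F F'] [Algebra B F'] [IsScalarTower B F F']
    (ϖ : B) (_ : Prime ϖ)
    (p : ℕ) (_ : p.Prime) (_ : IsUnit (p : B))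
    (u : F) (z : F') (_ : z ^ p = algebraMap F F' u) (_ : ∀ y : F, y ^ p ≠ u)
    (_ : OneModPi ϖ u),
    (∀ η : B, η ^ p = 1 → InPiO ϖ (kummerIdem p η z * kummerIdem p η z - kummerIdem p η z)) ∧
    (∀ η η' : B, η ^ p = 1 → η' ^ p = 1 → η ≠ η' →
      InPiO ϖ (kummerIdem p η z * kummerIdem p η' z)) ∧
    (∀ ζ : B, IsPrimitiveRoot ζ p →
      ∑ i ∈ Finset.range p, kummerIdem p (ζ ^ i) z = 1) ∧
    (∀ η : B, η ^ p = 1 → ¬ InPiO ϖ (kummerIdem p η z))

end Fermat.Agent.S18.H754

end

end
-- ===== PACK-END S18/H754/KummerSpec.lean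

-- ===== PACK-BEGIN S18/H438/Front/HeightOne.lean
section


/-!
# S18 / ALG-FRONT (helper438), part 3a: localisation at a height-one prime is a DVR

`B` a Noetherian integrally closed domain with fraction field `F`, `𝔭` a prime of height one.
Then `B_𝔭 ⊆ F` is a discrete valuation ring, realised as a `ValuationSubring F`:

    exists_dvr_of_height_one :
      ∃ W : ValuationSubring F, IsDiscreteValuationRing W ∧
        ∀ f : F, f ∈ W ↔ ∃ a s : B, s ∉ 𝔭 ∧ f * algebraMap B F s = algebraMap B F a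
-/

set_option autoImplicit false
set_option linter.style.haveILetI false
set_option linter.unusedSectionVars false

noncomputable section

namespace Fermat.Agent.S18.H438

open IsLocalRing

variable {B F : Type*} [CommRing B] [IsDomain B] [Field F] [Algebra B F] [IsFractionRing B F]

/-- Membership in the localisation `B_𝔭 ⊆ F`. -/
theorem mem_ofField_primeCompl_iff (𝔭 : Ideal B) [𝔭.IsPrime] (f : F) :
    f ∈ Localization.subalgebra.ofField F 𝔭.primeCompl 𝔭.primeCompl_le_nonZeroDivisors ↔
      ∃ a s : B, s ∉ 𝔭 ∧ f * algebraMap B F s = algebraMap B F a := by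
  constructor
  · rintro ⟨a, s, hs, rfl⟩
    refine ⟨a, s, hs, ?_⟩
    have hs0 : algebraMap B F s ≠ 0 := by
      intro h
      have : s = 0 := (FaithfulSMul.algebraMap_injective B F) (by rw [h, map_zero])
      exact hs (this ▸ 𝔭.zero_mem)
    field_simp
  · rintro ⟨a, s, hs, h⟩
    refine ⟨a, s, hs, ?_⟩
    have hs0 : algebraMap B F s ≠ 0 := by
      intro h
      have : s = 0 := (FaithfulSMul.algebraMap_injective B F) (by rw [h, map_zero])
      exact hs (this ▸ 𝔭.zero_mem)
    rw [← h]
    field_simp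

variable [IsNoetherianRing B] [IsIntegrallyClosed B]

/-- **Localisation at a height-one prime of a Noetherian normal domain is a DVR.** -/
theorem isDiscreteValuationRing_ofField_of_height_one (𝔭 : Ideal B) [h𝔭 : 𝔭.IsPrime]
    (h : 𝔭.height = 1) :
    IsDiscreteValuationRing
      (Localization.subalgebra.ofField F 𝔭.primeCompl 𝔭.primeCompl_le_nonZeroDivisors) := by
  set A := Localization.subalgebra.ofField F 𝔭.primeCompl 𝔭.primeCompl_le_nonZeroDivisors with hA
  haveI hloc : IsLocalization.AtPrime A 𝔭 :=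
    Localization.subalgebra.isLocalization_ofField F 𝔭.primeCompl 𝔭.primeCompl_le_nonZeroDivisors
  haveI : IsLocalRing A := IsLocalization.AtPrime.isLocalRing A 𝔭
  haveI : IsNoetherianRing A := IsLocalization.isNoetherianRing 𝔭.primeCompl A inferInstance
  haveI : IsIntegrallyClosed A :=
    isIntegrallyClosed_of_isLocalization A 𝔭.primeCompl 𝔭.primeCompl_le_nonZeroDivisors
  have h𝔭bot : 𝔭 ≠ ⊥ := Ideal.ne_bot_of_height_eq_one h
  have hfin : 𝔭.FiniteHeight := by simp [𝔭.finiteHeight_iff, h]
  -- the maximal ideal is the extension of `𝔭`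
  have hmax : maximalIdeal A = 𝔭.map (algebraMap B A) :=
    (IsLocalization.AtPrime.map_eq_maximalIdeal 𝔭 A).symm
  -- `A` is not a field
  have hnf : ¬ IsField A := by
    rw [isField_iff_maximalIdeal_eq]
    intro hbot
    obtain ⟨x, hx, hx0⟩ := Submodule.exists_mem_ne_zero_of_ne_bot h𝔭bot
    have hxmem : algebraMap B A x ∈ maximalIdeal A := by
      rw [hmax]; exact Ideal.mem_map_of_mem _ hx
    rw [hbot, Ideal.mem_bot] at hxmem
    have hinj : Function.Injective (algebraMap B A) :=
      IsLocalization.injective A 𝔭.primeCompl_le_nonZeroDivisors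
    exact hx0 (hinj (by rw [hxmem, map_zero]))
  -- every nonzero prime is the maximal ideal
  have huniq : ∀ P : Ideal A, P ≠ ⊥ → P.IsPrime → P = maximalIdeal A := by
    intro P hP hPprime
    have hP' : (P.comap (algebraMap B A)).IsPrime := Ideal.comap_isPrime _ _
    have hmapcomap : (P.comap (algebraMap B A)).map (algebraMap B A) = P :=
      IsLocalization.map_under 𝔭.primeCompl A P
    have hle : P.comap (algebraMap B A) ≤ 𝔭 := by
      have hdisj : Disjoint (𝔭.primeCompl : Set B) (P.comap (algebraMap B A) : Set B) :=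
        ((IsLocalization.isPrime_iff_isPrime_disjoint 𝔭.primeCompl A P).1 hPprime).2
      intro x hx
      by_contra hx𝔭
      exact Set.disjoint_left.1 hdisj hx𝔭 hx
    have hne : P.comap (algebraMap B A) ≠ ⊥ := by
      intro h0
      apply hP
      rw [← hmapcomap, h0, Ideal.map_bot]
    have hfin' : (P.comap (algebraMap B A)).FiniteHeight :=
      Ideal.finiteHeight_of_le hle h𝔭.ne_top
    have h1 : 𝔭.height ≤ (P.comap (algebraMap B A)).height := by
      rw [h]
      rw [Order.one_le_iff_pos, pos_iff_ne_zero, Ne, Ideal.height_eq_zero_iff_eq_bot]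
      exact hne
    have heq : P.comap (algebraMap B A) = 𝔭 := Ideal.eq_of_le_of_height_le (h := hle) (h_height := h1)
    rw [hmax, ← heq, hmapcomap]
  have htfae := (IsDiscreteValuationRing.TFAE A hnf).out 0 3
  rw [htfae]
  refine ⟨inferInstance, maximalIdeal A, ⟨?_, inferInstance⟩, ?_⟩
  · exact isField_iff_maximalIdeal_eq.not.1 hnf
  · rintro P ⟨hP, hPprime⟩
    exact huniq P hP hPprime

/-- **`B_𝔭` as a discrete valuation subring of `F`.** -/
theorem exists_dvr_of_height_one (𝔭 : Ideal B) [h𝔭 : 𝔭.IsPrime] (h : 𝔭.height = 1) :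
    ∃ W : ValuationSubring F, IsDiscreteValuationRing W ∧
      ∀ f : F, f ∈ W ↔ ∃ a s : B, s ∉ 𝔭 ∧ f * algebraMap B F s = algebraMap B F a := by
  set A := Localization.subalgebra.ofField F 𝔭.primeCompl 𝔭.primeCompl_le_nonZeroDivisors with hA
  haveI hdvr : IsDiscreteValuationRing A := isDiscreteValuationRing_ofField_of_height_one 𝔭 h
  have hval : ∀ f : F, f ∈ A ∨ f⁻¹ ∈ A := by
    intro f
    rcases ValuationRing.isInteger_or_isInteger A f with ⟨a, ha⟩ | ⟨a, ha⟩
    · left; rw [← ha]; exact a.2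
    · right; rw [← ha]; exact a.2
  let W : ValuationSubring F := { A.toSubring with mem_or_inv_mem' := hval }
  have hWA : ∀ f : F, f ∈ W ↔ f ∈ A := fun f => Iff.rfl
  refine ⟨W, ?_, fun f => ?_⟩
  · -- transfer along the identity
    let e : A ≃+* W :=
      { toFun := fun a => ⟨a.1, (hWA _).2 a.2⟩
        invFun := fun b => ⟨b.1, (hWA _).1 b.2⟩
        left_inv := fun _ => rfl
        right_inv := fun _ => rfl
        map_mul' := fun _ _ => rfl
        map_add' := fun _ _ => rfl }
    exact IsDiscreteValuationRing.RingEquivClass.isDiscreteValuationRing e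
  · rw [hWA]
    exact mem_ofField_primeCompl_iff 𝔭 f

end Fermat.Agent.S18.H438

end
end
-- ===== PACK-END S18/H438/Front/HeightOne.lean

-- ===== PACK-BEGIN S18/H203/IntegralDiv.lean
section


/-!
# S18 / b1 (helper203): divisibility by a prime element in an integral closure

`S` an integrally closed domain with fraction field `K`, `w ∈ S` a prime element, `t ∈ S` with
`w ∤ t`, `F / K` a field extension.  If `w z` and `t z` are integral over `S` for some `z ∈ F`,
then `z` is integral over `S`.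

Consequence (`dvd_of_dvd_smul`): in the integral closure `B` of `S` in `F`,
`w ∣ t • b → w ∣ b`; i.e. `B / w B` is a torsion-free `S / w S`-module
(`(w, t)` is a regular sequence on `B`).
-/

set_option autoImplicit false

namespace Fermat.Agent.S18.H203

open Polynomial

section Prime

variable {S : Type*} [CommRing S] [IsDomain S]

/-- If `w` is prime, `w ∤ t` and `w ^ i ∣ t ^ i * a`, then `w ^ i ∣ a`. -/
theorem pow_dvd_of_pow_dvd_pow_mul {w t : S} (hw : Prime w) (ht : ¬ w ∣ t) (i j : ℕ) {a : S}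
    (h : w ^ i ∣ t ^ j * a) : w ^ i ∣ a :=
  hw.pow_dvd_of_dvd_mul_left i (fun h' => ht (hw.dvd_of_dvd_pow h')) h

end Prime

section Field

variable {S K : Type*} [CommRing S] [IsDomain S] [Field K] [Algebra S K] [IsFractionRing S K]

/-- An element `c` of the fraction field with `w ^ i * c ∈ S` and `t ^ i * c ∈ S`, where `w` is
prime and `w ∤ t`, lies in `S`. -/
theorem mem_range_of_pow_mul_mem {w t : S} (hw : Prime w) (ht : ¬ w ∣ t) (i : ℕ) (c : K)
    (h1 : algebraMap S K w ^ i * c ∈ (algebraMap S K).range)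
    (h2 : algebraMap S K t ^ i * c ∈ (algebraMap S K).range) :
    c ∈ (algebraMap S K).range := by
  obtain ⟨a, ha⟩ := h1
  obtain ⟨a', ha'⟩ := h2
  have hinj : Function.Injective (algebraMap S K) := IsFractionRing.injective S K
  have hw0 : algebraMap S K w ≠ 0 := by
    simpa using (map_ne_zero_iff _ hinj).mpr hw.ne_zero
  -- `t ^ i * a = w ^ i * a'`
  have hrel : t ^ i * a = w ^ i * a' := by
    apply hinj
    simp only [map_mul, map_pow, ha, ha']
    ring
  have hdvd : w ^ i ∣ a := pow_dvd_of_pow_dvd_pow_mul hw ht i i ⟨a', hrel⟩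
  obtain ⟨s, rfl⟩ := hdvd
  refine ⟨s, ?_⟩
  have h3 : algebraMap S K w ^ i * algebraMap S K s = algebraMap S K w ^ i * c := by
    rw [← ha, map_mul, map_pow]
  exact mul_left_cancel₀ (pow_ne_zero i hw0) h3

end Field

section Integral

variable {S K F : Type*} [CommRing S] [IsDomain S] [IsIntegrallyClosed S]
  [Field K] [Algebra S K] [IsFractionRing S K]
  [Field F] [Algebra K F] [Algebra S F] [IsScalarTower S K F]

omit [IsIntegrallyClosed S] [IsDomain S] [IsFractionRing S K] in
/-- A monic polynomial over `K` all of whose coefficients lie in `S` is the image of a monic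
polynomial over `S`. -/
theorem exists_monic_map_eq {P : K[X]} (hP : P.Monic)
    (hc : ∀ n, P.coeff n ∈ (algebraMap S K).range) :
    ∃ Q : S[X], Q.Monic ∧ Q.map (algebraMap S K) = P := by
  have hl : P ∈ Polynomial.lifts (algebraMap S K) := by
    rw [Polynomial.lifts_iff_coeff_lifts]
    intro n
    obtain ⟨a, ha⟩ := hc n
    exact ⟨a, ha⟩
  obtain ⟨Q, hQ, -, hQm⟩ := Polynomial.lifts_and_degree_eq_and_monic hl hP
  exact ⟨Q, hQm, hQ⟩

/-- The coefficients of the minimal polynomial over `K` of `a • z` (`a ∈ S` nonzero, `a • z`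
integral over `S`) : `coeff i * a ^ (d - i) ∈ S`. -/
theorem coeff_minpoly_mul_pow_mem {a : S} (ha : a ≠ 0) {z : F} (hz : IsIntegral K z)
    (haz : IsIntegral S (algebraMap S F a * z)) (i : ℕ) :
    (minpoly K z).coeff i * algebraMap S K a ^ ((minpoly K z).natDegree - i) ∈
      (algebraMap S K).range := by
  have hinj : Function.Injective (algebraMap S K) := IsFractionRing.injective S K
  have ha0 : algebraMap S K a ≠ 0 := by
    simpa using (map_ne_zero_iff _ hinj).mpr ha
  -- minimal polynomial of `a • z` over `K`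
  have h1 : minpoly K (algebraMap S K a • z) = (minpoly K z).scaleRoots (algebraMap S K a) :=
    IsIntegrallyClosed.minpoly_smul ha0 hz
  have h2 : algebraMap S K a • z = algebraMap S F a * z := by
    rw [Algebra.smul_def, ← IsScalarTower.algebraMap_apply]
  rw [h2] at h1
  have h3 : minpoly K (algebraMap S F a * z) =
      (minpoly S (algebraMap S F a * z)).map (algebraMap S K) :=
    minpoly.isIntegrallyClosed_eq_field_fractions' K haz
  have h4 : ((minpoly K z).scaleRoots (algebraMap S K a)).coeff i =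
      (minpoly K z).coeff i * algebraMap S K a ^ ((minpoly K z).natDegree - i) :=
    Polynomial.coeff_scaleRoots _ _ _
  rw [← h4, ← h1, h3, Polynomial.coeff_map]
  exact ⟨_, rfl⟩

/-- **Key lemma.**  If `w z` and `t z` are integral over the integrally closed domain `S`, where
`w` is a prime element and `w ∤ t`, then `z` is integral over `S`. -/
theorem isIntegral_of_isIntegral_mul (K : Type*) [Field K] [Algebra S K] [IsFractionRing S K]
    [Algebra K F] [IsScalarTower S K F] {w t : S} (hw : Prime w) (ht : ¬ w ∣ t) {z : F}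
    (h1 : IsIntegral S (algebraMap S F w * z)) (h2 : IsIntegral S (algebraMap S F t * z)) :
    IsIntegral S z := by
  have hinjK : Function.Injective (algebraMap S K) := IsFractionRing.injective S K
  have hw0 : algebraMap S K w ≠ 0 := by
    simpa using (map_ne_zero_iff _ hinjK).mpr hw.ne_zero
  have hwF : algebraMap S F w ≠ 0 := by
    rw [IsScalarTower.algebraMap_apply S K F]
    simpa using (map_ne_zero_iff _ (algebraMap K F).injective).mpr hw0
  have ht0 : t ≠ 0 := fun h => ht (h ▸ dvd_zero w)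
  -- `z` is integral (algebraic) over `K`
  have hzK : IsIntegral K z := by
    have h3 : IsIntegral K (algebraMap S F w * z) := h1.tower_top
    have h4 : IsIntegral K (algebraMap K F (algebraMap S K w)⁻¹) := isIntegral_algebraMap
    have h5 := h4.mul h3
    rw [map_inv₀, ← IsScalarTower.algebraMap_apply S K F, inv_mul_cancel_left₀ hwF] at h5
    exact h5
  -- all coefficients of the minimal polynomial lie in `S`
  have hcoeff : ∀ n, (minpoly K z).coeff n ∈ (algebraMap S K).range := by
    intro n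
    have e1 := coeff_minpoly_mul_pow_mem (K := K) hw.ne_zero hzK h1 n
    have e2 := coeff_minpoly_mul_pow_mem (K := K) ht0 hzK h2 n
    rw [mul_comm] at e1 e2
    exact mem_range_of_pow_mul_mem hw ht _ _ e1 e2
  obtain ⟨Q, hQm, hQ⟩ := exists_monic_map_eq (minpoly.monic hzK) hcoeff
  refine ⟨Q, hQm, ?_⟩
  have h6 : Polynomial.aeval z (Q.map (algebraMap S K)) = 0 := by
    rw [hQ]; exact minpoly.aeval K z
  rwa [Polynomial.aeval_map_algebraMap] at h6

end Integral

end Fermat.Agent.S18.H203

end
-- ===== PACK-END S18/H203/IntegralDiv.lean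

-- ===== PACK-BEGIN S18/H274/Dedekind.lean
section


/-!
# S18 / b2 (helper274) — a Bezout-type splitting in Dedekind domains

Mathlib-only.  For `p q : C` in a Dedekind domain with `q ≠ 0` (think of the fraction `u = p/q`),
the fractional ideal `C + C u` is invertible; unwinding `1 ∈ (C + C u) (C + C u)⁻¹` gives
elements `β₀ β₀' z z₁ : C` with

  `β₀ + z = 1`,  `z * q = β₀' * p`  (`z = β₀' u`),  `z₁ * q = β₀ * p`  (`z₁ = β₀ u`).

This is the only place where the TAME discriminant bound uses that `C` is integrally closed.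
-/

namespace Fermat.Agent.S18.H274

open scoped nonZeroDivisors

theorem exists_split_of_isDedekindDomain {C : Type*} [CommRing C] [IsDedekindDomain C]
    (p q : C) (hq : q ≠ 0) :
    ∃ β₀ β₀' z z₁ : C, β₀ + z = 1 ∧ z * q = β₀' * p ∧ z₁ * q = β₀ * p := by
  classical
  let K := FractionRing C
  have hinj : Function.Injective (algebraMap C K) := IsFractionRing.injective C K
  have hqK : algebraMap C K q ≠ 0 := fun h => hq (hinj (by rw [h, map_zero]))
  let u : K := algebraMap C K p / algebraMap C K q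
  let 𝔟 : FractionalIdeal C⁰ K := 1 + FractionalIdeal.spanSingleton C⁰ u
  have h1𝔟 : (1 : K) ∈ 𝔟 := by
    rw [FractionalIdeal.mem_add]
    exact ⟨1, FractionalIdeal.one_mem_one _, 0, Submodule.zero_mem _, add_zero 1⟩
  have hu𝔟 : u ∈ 𝔟 := by
    rw [FractionalIdeal.mem_add]
    exact ⟨0, Submodule.zero_mem _, u, FractionalIdeal.mem_spanSingleton_self _ u, zero_add u⟩
  have h𝔟 : 𝔟 ≠ 0 := by
    intro h
    rw [h] at h1𝔟
    exact one_ne_zero ((FractionalIdeal.mem_zero_iff _).mp h1𝔟)
  have hinv : 𝔟 * 𝔟⁻¹ = 1 := mul_inv_cancel₀ h𝔟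
  have h1 : (1 : K) ∈ 𝔟 * 𝔟⁻¹ := by
    rw [hinv]
    exact FractionalIdeal.one_mem_one _
  have hsplit : 𝔟 * 𝔟⁻¹ = 𝔟⁻¹ + FractionalIdeal.spanSingleton C⁰ u * 𝔟⁻¹ := by
    simp only [𝔟, add_mul, one_mul]
  rw [hsplit, FractionalIdeal.mem_add] at h1
  obtain ⟨p₁, hp₁, q₁, hq₁, hsum⟩ := h1
  rw [FractionalIdeal.mem_singleton_mul] at hq₁
  obtain ⟨β', hβ', rfl⟩ := hq₁
  rw [FractionalIdeal.mem_inv_iff h𝔟] at hp₁ hβ'
  obtain ⟨β₀, hβ₀⟩ := (FractionalIdeal.mem_one_iff _).mp (hp₁ 1 h1𝔟)
  obtain ⟨z₁, hz₁⟩ := (FractionalIdeal.mem_one_iff _).mp (hp₁ u hu𝔟)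
  obtain ⟨β₀', hβ₀'⟩ := (FractionalIdeal.mem_one_iff _).mp (hβ' 1 h1𝔟)
  obtain ⟨z, hz⟩ := (FractionalIdeal.mem_one_iff _).mp (hβ' u hu𝔟)
  rw [mul_one] at hβ₀ hβ₀'
  refine ⟨β₀, β₀', z, z₁, ?_, ?_, ?_⟩
  · apply hinj
    rw [map_add, map_one, hβ₀, hz, ← hsum, mul_comm]
  · apply hinj
    rw [map_mul, map_mul, hz, hβ₀']
    simp only [u]
    rw [mul_assoc, div_mul_cancel₀ _ hqK]
  · apply hinj
    rw [map_mul, map_mul, hz₁, hβ₀]
    simp only [u]
    rw [mul_assoc, div_mul_cancel₀ _ hqK]

end Fermat.Agent.S18.H274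

end
-- ===== PACK-END S18/H274/Dedekind.lean

-- ===== PACK-BEGIN S37/H278/Lattice.lean
section


/-!
# S37 / S18, piece b2-core (helper278): lattices in a finite algebra and their traces

`o` a PID with fraction field `K`, `L` a commutative `K`-algebra.  A subalgebra `R ⊆ L` which is a
finitely generated `o`-module spanning `L` is finite free over `o`, `L` is its localization, and the
trace of `L / K` restricted to `R` is the trace of `R / o`.
-/

set_option autoImplicit false

namespace Fermat.Agent.S37.H278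

open Module

section Lattice

variable {o K L : Type*} [CommRing o] [IsDomain o]
  [Field K] [Algebra o K] [IsFractionRing o K]
  [CommRing L] [Algebra K L] [Algebra o L] [IsScalarTower o K L]

omit [IsDomain o] in
theorem smul_eq_zero_of_fractionRing (K : Type*) [Field K] [Algebra o K] [IsFractionRing o K]
    [Algebra K L] [IsScalarTower o K L] {r : o} (hr : r ≠ 0) {x : L}
    (h : r • x = 0) : x = 0 := by
  have h' : (algebraMap o K r) • x = 0 := by rwa [algebraMap_smul]
  have hne : algebraMap o K r ≠ 0 := by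
    intro h0
    exact hr ((IsFractionRing.injective o K) (by rw [h0, map_zero]))
  rcases smul_eq_zero.mp h' with h1 | h1
  · exact absurd h1 hne
  · exact h1

/-- A lattice: a subalgebra of `L`, finitely generated as `o`-module, spanning `L`. -/
structure IsLattice (R : Subalgebra o L) : Prop where
  fg : (Subalgebra.toSubmodule R).FG
  span : ∀ l : L, ∃ σ : o, σ ≠ 0 ∧ σ • l ∈ R

variable {R : Subalgebra o L}

theorem IsLattice.finite (h : IsLattice R) : Module.Finite o R :=
  Module.Finite.iff_fg.mpr h.fg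

include K in
theorem isTorsionFree_subalgebra (R : Subalgebra o L) : Module.IsTorsionFree o R := by
  refine ⟨fun r hr x y hxy => ?_⟩
  have hr0 : r ≠ 0 := by
    rintro rfl
    have := hr.left
    exact one_ne_zero (this (by simp : (0 : o) * 1 = 0 * 0))
  have hxy' : r • ((x : L) - (y : L)) = 0 := by
    have := congrArg (Subtype.val) hxy
    simp only [Subalgebra.coe_smul] at this
    rw [smul_sub, this, sub_self]
  have := smul_eq_zero_of_fractionRing K hr0 hxy'
  exact Subtype.ext (sub_eq_zero.mp this)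

include K in
theorem IsLattice.free [IsPrincipalIdealRing o] (h : IsLattice R) : Module.Free o R := by
  haveI := h.finite
  haveI := isTorsionFree_subalgebra (K := K) R
  exact Module.free_of_finite_type_torsion_free'

include K in
theorem IsLattice.isLocalization (h : IsLattice R) :
    IsLocalization (Algebra.algebraMapSubmonoid R (nonZeroDivisors o)) L where
  map_units := by
    rintro ⟨y, σ, hσ, rfl⟩
    have hσ0 : σ ≠ 0 := nonZeroDivisors.ne_zero hσ
    have hne : algebraMap o K σ ≠ 0 := by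
      intro h0
      exact hσ0 ((IsFractionRing.injective o K) (by rw [h0, map_zero]))
    have : algebraMap R L (algebraMap o R σ) = algebraMap K L (algebraMap o K σ) := by
      rw [← IsScalarTower.algebraMap_apply, ← IsScalarTower.algebraMap_apply]
    rw [this]
    exact (IsUnit.mk0 _ hne).map (algebraMap K L)
  surj := by
    intro l
    obtain ⟨σ, hσ, hl⟩ := h.span l
    refine ⟨(⟨σ • l, hl⟩, ⟨algebraMap o R σ, σ, mem_nonZeroDivisors_of_ne_zero hσ, rfl⟩), ?_⟩
    show l * algebraMap R L (algebraMap o R σ) = σ • l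
    rw [← IsScalarTower.algebraMap_apply, Algebra.smul_def, mul_comm]
  exists_of_eq := by
    intro x y hxy
    refine ⟨1, ?_⟩
    have : x = y := Subtype.ext hxy
    rw [this]

include K in
theorem IsLattice.trace_eq [IsPrincipalIdealRing o] (h : IsLattice R) (a : R) :
    Algebra.trace K L (a : L) = algebraMap o K (Algebra.trace o R a) := by
  haveI := h.finite
  haveI := h.free (K := K)
  haveI := h.isLocalization (K := K)
  exact Algebra.trace_localization o (nonZeroDivisors o) (Rₘ := K) (Sₘ := L) a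

theorem isLattice_adjoin {G : Set L} (hG : G.Finite) (hint : ∀ g ∈ G, IsIntegral o g)
    (hspan : ∀ l : L, ∃ σ : o, σ ≠ 0 ∧ σ • l ∈ Algebra.adjoin o G) :
    IsLattice (Algebra.adjoin o G) :=
  ⟨fg_adjoin_of_finite hG hint, hspan⟩

end Lattice

section DVR

variable {o K L : Type*} [CommRing o] [IsDomain o] [IsDiscreteValuationRing o]
  [Field K] [Algebra o K] [IsFractionRing o K]
  [CommRing L] [Algebra K L] [Algebra o L] [IsScalarTower o K L]

/-- In a finite free algebra over a local ring, the trace of an element which is nilpotent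
modulo the maximal ideal lies in the maximal ideal. -/
theorem trace_mem_maximalIdeal_of_pow_mem {o S : Type*} [CommRing o] [IsLocalRing o]
    [CommRing S] [Algebra o S] [Module.Free o S] [Module.Finite o S] (a : S) (k : ℕ)
    (hk : a ^ k ∈ Ideal.map (algebraMap o S) (IsLocalRing.maximalIdeal o)) :
    Algebra.trace o S a ∈ IsLocalRing.maximalIdeal o := by
  have h1 := Algebra.trace_quotient_mk (R := o) (S := S) a
  have hnil : IsNilpotent
      (Ideal.Quotient.mk (Ideal.map (algebraMap o S) (IsLocalRing.maximalIdeal o)) a) := by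
    refine ⟨k, ?_⟩
    rw [← map_pow]
    exact Ideal.Quotient.eq_zero_iff_mem.mpr hk
  have h2 := Algebra.isNilpotent_trace_of_isNilpotent
    (R := o ⧸ IsLocalRing.maximalIdeal o) hnil
  rw [h1] at h2
  have h3 : (Ideal.Quotient.mk (IsLocalRing.maximalIdeal o)) (Algebra.trace o S a) = 0 := by
    haveI : IsReduced (o ⧸ IsLocalRing.maximalIdeal o) := by
      haveI : (IsLocalRing.maximalIdeal o).IsPrime := inferInstance
      infer_instance
    exact h2.eq_zero
  exact Ideal.Quotient.eq_zero_iff_mem.mp h3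

theorem dvd_trace_of_pow_mem {S : Type*} [CommRing S] [Algebra o S] [Module.Free o S]
    [Module.Finite o S] {t : o} (ht : Irreducible t) (a : S) (k : ℕ)
    (hk : ∃ a' : S, a ^ k = t • a') : t ∣ Algebra.trace o S a := by
  have hmax : IsLocalRing.maximalIdeal o = Ideal.span {t} := ht.maximalIdeal_eq
  obtain ⟨a', ha'⟩ := hk
  have hmem : a ^ k ∈ Ideal.map (algebraMap o S) (IsLocalRing.maximalIdeal o) := by
    rw [ha', Algebra.smul_def]
    apply Ideal.mul_mem_right
    apply Ideal.mem_map_of_mem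
    rw [hmax]
    exact Ideal.mem_span_singleton_self t
  have := trace_mem_maximalIdeal_of_pow_mem a k hmem
  rw [hmax] at this
  exact Ideal.mem_span_singleton.mp this

include K in
/-- trace of an element of a lattice, nilpotent modulo `t`, is divisible by `t` -/
theorem IsLattice.dvd_trace {R : Subalgebra o L} (h : IsLattice R) {t : o} (ht : Irreducible t)
    (a : R) (k : ℕ) (hk : ∃ a' : R, a ^ k = t • a') : t ∣ Algebra.trace o R a := by
  haveI := h.finite
  haveI := h.free (K := K)
  exact dvd_trace_of_pow_mem ht a k hk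

end DVR

end Fermat.Agent.S37.H278

end
-- ===== PACK-END S37/H278/Lattice.lean

-- ===== PACK-BEGIN S18/H425/HsepDvd.lean
section


/-!
# S18 / b2.5 HSEP (helper425): divisibility descends along an integral extension of an
integrally closed domain

`dvd_of_algebraMap_dvd`: `Λ` integrally closed domain, `B` a domain, integral and torsion-free
over `Λ`.  If `algebraMap w ∣ algebraMap s` in `B` (`w ≠ 0`) then `w ∣ s` in `Λ`.
Mathlib-only.
-/

set_option autoImplicit false

namespace Fermat.Agent.S18.H425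

theorem dvd_of_algebraMap_dvd {Λ B : Type*} [CommRing Λ] [IsDomain Λ] [IsIntegrallyClosed Λ]
    [CommRing B] [IsDomain B] [Algebra Λ B] [Algebra.IsIntegral Λ B] [Module.IsTorsionFree Λ B]
    {w s : Λ} (hw : w ≠ 0) (h : algebraMap Λ B w ∣ algebraMap Λ B s) : w ∣ s := by
  obtain ⟨b, hb⟩ := h
  have hinj : Function.Injective (algebraMap Λ B) := FaithfulSMul.algebraMap_injective Λ B
  let K := FractionRing Λ
  let L := FractionRing B
  let _ : Algebra K L := FractionRing.liftAlgebra Λ L
  have hwK : algebraMap Λ K w ≠ 0 := by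
    simpa using (IsFractionRing.injective Λ K).ne hw
  -- the element `s / w` of `K` maps to `b` in `L`
  have hb' : algebraMap K L (algebraMap Λ K s / algebraMap Λ K w) = algebraMap B L b := by
    rw [map_div₀, ← IsScalarTower.algebraMap_apply, ← IsScalarTower.algebraMap_apply,
      IsScalarTower.algebraMap_apply Λ B L s, IsScalarTower.algebraMap_apply Λ B L w, hb, map_mul]
    rw [mul_div_assoc, mul_comm, div_mul_cancel₀]
    · rw [← IsScalarTower.algebraMap_apply, IsScalarTower.algebraMap_apply Λ K L]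
      exact (map_ne_zero_iff _ (algebraMap K L).injective).mpr hwK
  have hbint : IsIntegral Λ (algebraMap B L b) := (Algebra.IsIntegral.isIntegral b).algebraMap
  rw [← hb'] at hbint
  have hint : IsIntegral Λ (algebraMap Λ K s / algebraMap Λ K w) :=
    (isIntegral_algebraMap_iff (algebraMap K L).injective).mp hbint
  obtain ⟨c, hc⟩ := IsIntegrallyClosed.algebraMap_eq_of_integral hint
  refine ⟨c, ?_⟩
  apply IsFractionRing.injective Λ K
  rw [map_mul, hc, mul_div_cancel₀ _ hwK]

end Fermat.Agent.S18.H425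

end
-- ===== PACK-END S18/H425/HsepDvd.lean

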