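import Mathlib
import Fermat.Prelude.Def_ModularCurve_HeckeModule
import Fermat.Prelude.Def_CuspForm_HeckeEvalForms
import Fermat.Prelude.Def_CuspForm_Newforms
import Fermat.Statements.S22
import Fermat.Prelude.Thm_ModularForm_sturm_bound_Gamma0
import Fermat.Prelude.Thm_CongruenceSubgroup_one_mem_strictPeriods_Gamma0
import Fermat.Statements.S21
import Mathlib.Analysis.InnerProductSpace.Basic
import Mathlib.Analysis.SpecificLimits.Basic
import Fermat.Prelude.Def_ModularForm_HeckeOperatorForms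
import Fermat.Prelude.Def_FLTPrelim_Modularity
import Fermat.Prelude.Thm_UpperHalfPlane_qCoeff_heckeT
import Fermat.Prelude.Thm_UpperHalfPlane_eq_of_forall_qCoeff_eq
import Fermat.Prelude.Thm_ModularFormClass_qCoeff_heckeU
import Fermat.Prelude.Thm_ModularFormClass_qCoeff_heckeT
import Mathlib.RingTheory.Valuation.ValuationSubring
import Mathlib.RingTheory.Polynomial.Cyclotomic.Basic
import Mathlib.RingTheory.Adjoin.Basic
import Mathlib.Tactic.FieldSimp
import Mathlib.Tactic.LinearCombination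
import Mathlib.Tactic.Ring
import Mathlib.Tactic.GCongr

-- ===== PACK-BEGIN S18/H498/Connected.lean
section


/-!
# S18, piece b5 (abstract connectedness / "formal functions by hand")

Pure commutative algebra, Mathlib only.

Setting: `R` a local ring, `ϖ : R`, `C` a commutative `R`-algebra on which `ϖ` is a
non-zero-divisor, `B₁ B₂ : Subalgebra R C` (the two chart algebras inside the overlap
algebra `C`), `B₁ ⊓ B₂ = R`, and the `ϖ`-power torsion of `C / (B₁ + B₂)` is killed by `ϖ ^ c`.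
Then every idempotent of `B₁ / ϖ` which agrees in `C / ϖ` with an idempotent of `B₂ / ϖ`
is trivial (`0` or `1`).
-/

set_option autoImplicit false

namespace Fermat.Agent.S18.H498

section Idem

variable {S : Type*} [CommRing S]

/-- Newton step for idempotents: `b ↦ 3 b² - 2 b³`. -/
theorem newton_idem_sub (b : S) : (3 * b ^ 2 - 2 * b ^ 3) - b = (b ^ 2 - b) * (1 - 2 * b) := by
  ring

theorem newton_idem_sq (b : S) :
    (3 * b ^ 2 - 2 * b ^ 3) ^ 2 - (3 * b ^ 2 - 2 * b ^ 3) =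
      (b ^ 2 - b) ^ 2 * (4 * b ^ 2 - 4 * b - 3) := by
  ring

/-- Lifting of idempotents modulo `p` to idempotents modulo `p ^ (n + 1)`. -/
theorem exists_idem_lift (p e : S) (h : p ∣ e ^ 2 - e) (n : ℕ) :
    ∃ b : S, p ∣ b - e ∧ p ^ (n + 1) ∣ b ^ 2 - b := by
  induction n with
  | zero => exact ⟨e, by simp, by simpa using h⟩
  | succ n ih =>
    obtain ⟨b, hb1, hb2⟩ := ih
    refine ⟨3 * b ^ 2 - 2 * b ^ 3, ?_, ?_⟩
    · have h1 : p ∣ (3 * b ^ 2 - 2 * b ^ 3) - b := by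
        rw [newton_idem_sub]
        exact Dvd.dvd.mul_right ((dvd_pow_self p (Nat.succ_ne_zero n)).trans hb2) _
      have : (3 * b ^ 2 - 2 * b ^ 3) - e = ((3 * b ^ 2 - 2 * b ^ 3) - b) + (b - e) := by ring
      rw [this]
      exact dvd_add h1 hb1
    · rw [newton_idem_sq]
      refine Dvd.dvd.mul_right ?_ _
      have h2 : (p ^ (n + 1)) ^ 2 ∣ (b ^ 2 - b) ^ 2 := pow_dvd_pow_of_dvd hb2 2
      rw [← pow_mul] at h2
      exact (pow_dvd_pow p (by omega)).trans h2

theorem idem_diff_cube (b₁ b₂ : S) :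
    (b₁ - b₂) ^ 3 - (b₁ - b₂) =
      (b₁ + 1 - 3 * b₂) * (b₁ ^ 2 - b₁) - (b₂ + 1 - 3 * b₁) * (b₂ ^ 2 - b₂) := by
  ring

/-- Uniqueness of idempotent lifts: two idempotents modulo `p ^ n` which are congruent
modulo `p` are congruent modulo `p ^ n`. -/
theorem idem_lift_unique (p : S) (n : ℕ) (b₁ b₂ : S)
    (h₁ : p ^ n ∣ b₁ ^ 2 - b₁) (h₂ : p ^ n ∣ b₂ ^ 2 - b₂) (h : p ∣ b₁ - b₂) :
    p ^ n ∣ b₁ - b₂ := by
  have hcube : p ^ n ∣ (b₁ - b₂) ^ 3 - (b₁ - b₂) := by
    rw [idem_diff_cube]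
    exact dvd_sub (Dvd.dvd.mul_left h₁ _) (Dvd.dvd.mul_left h₂ _)
  have key : ∀ k : ℕ, k + 1 ≤ n → p ^ (k + 1) ∣ b₁ - b₂ := by
    intro k
    induction k with
    | zero => intro _; simpa using h
    | succ k ih =>
      intro hk
      have ih' := ih (by omega)
      have h3 : p ^ (k + 2) ∣ (b₁ - b₂) ^ 3 := by
        have h3' : (p ^ (k + 1)) ^ 3 ∣ (b₁ - b₂) ^ 3 := pow_dvd_pow_of_dvd ih' 3
        rw [← pow_mul] at h3'
        exact (pow_dvd_pow p (by omega)).trans h3'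
      have hc : p ^ (k + 2) ∣ (b₁ - b₂) ^ 3 - (b₁ - b₂) := (pow_dvd_pow p hk).trans hcube
      have : b₁ - b₂ = (b₁ - b₂) ^ 3 - ((b₁ - b₂) ^ 3 - (b₁ - b₂)) := by ring
      rw [this]
      exact dvd_sub h3 hc
  rcases Nat.eq_zero_or_pos n with hn | hn
  · subst hn; simp
  · have := key (n - 1) (by omega)
    rwa [Nat.sub_add_cancel hn] at this

end Idem

section Cech

variable {R C : Type*} [CommRing R] [IsLocalRing R] [CommRing C] [Algebra R C]

/-- **Abstract connectedness (b5).**  `B₁ ∩ B₂ = R`, `ϖ`-power torsion of `C / (B₁ + B₂)` killed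
by `ϖ ^ c`: an idempotent `e₁` of `B₁ / ϖ` agreeing in `C / ϖ` with an idempotent `e₂` of
`B₂ / ϖ` is `0` or `1` in `B₁ / ϖ`. -/
theorem idem_trivial_of_cech (ϖ : R) (B₁ B₂ : Subalgebra R C)
    (hint : ∀ y : C, y ∈ B₁ → y ∈ B₂ → ∃ r : R, algebraMap R C r = y)
    (c : ℕ)
    (hH1 : ∀ (n : ℕ) (y : C),
      (∃ b₁ ∈ B₁, ∃ b₂ ∈ B₂, algebraMap R C ϖ ^ n * y = b₁ + b₂) →
        ∃ b₁ ∈ B₁, ∃ b₂ ∈ B₂, algebraMap R C ϖ ^ c * y = b₁ + b₂)
    (e₁ e₂ : C) (he₁ : e₁ ∈ B₁) (he₂ : e₂ ∈ B₂)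
    (h₁ : ∃ a ∈ B₁, e₁ ^ 2 - e₁ = algebraMap R C ϖ * a)
    (h₂ : ∃ a ∈ B₂, e₂ ^ 2 - e₂ = algebraMap R C ϖ * a)
    (h₁₂ : ∃ y : C, e₁ - e₂ = algebraMap R C ϖ * y) :
    (∃ a ∈ B₁, e₁ = algebraMap R C ϖ * a) ∨ (∃ a ∈ B₁, 1 - e₁ = algebraMap R C ϖ * a) := by
  set p : C := algebraMap R C ϖ with hp
  -- lift inside `B₁`
  obtain ⟨a₁, ha₁, hea₁⟩ := h₁
  obtain ⟨a₂, ha₂, hea₂⟩ := h₂
  have hd₁ : (algebraMap R B₁ ϖ) ∣ (⟨e₁, he₁⟩ : B₁) ^ 2 - ⟨e₁, he₁⟩ :=
    ⟨⟨a₁, ha₁⟩, Subtype.ext (by simpa using hea₁)⟩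
  have hd₂ : (algebraMap R B₂ ϖ) ∣ (⟨e₂, he₂⟩ : B₂) ^ 2 - ⟨e₂, he₂⟩ :=
    ⟨⟨a₂, ha₂⟩, Subtype.ext (by simpa using hea₂)⟩
  obtain ⟨b₁, ⟨u₁, hu₁⟩, ⟨v₁, hv₁⟩⟩ := exists_idem_lift _ _ hd₁ c
  obtain ⟨b₂, ⟨u₂, hu₂⟩, ⟨v₂, hv₂⟩⟩ := exists_idem_lift _ _ hd₂ c
  have hu₁' : (b₁ : C) - e₁ = p * u₁ := by
    have := congrArg (Subtype.val) hu₁
    simpa using this
  have hu₂' : (b₂ : C) - e₂ = p * u₂ := by
    have := congrArg (Subtype.val) hu₂
    simpa using this
  have hv₁' : (b₁ : C) ^ 2 - b₁ = p ^ (c + 1) * v₁ := by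
    have := congrArg (Subtype.val) hv₁
    simpa using this
  have hv₂' : (b₂ : C) ^ 2 - b₂ = p ^ (c + 1) * v₂ := by
    have := congrArg (Subtype.val) hv₂
    simpa using this
  obtain ⟨y₀, hy₀⟩ := h₁₂
  have hdiff : p ∣ (b₁ : C) - b₂ := by
    refine ⟨u₁ + y₀ - u₂, ?_⟩
    have : (b₁ : C) - b₂ = ((b₁ : C) - e₁) + (e₁ - e₂) - ((b₂ : C) - e₂) := by ring
    rw [this, hu₁', hy₀, hu₂']; ring
  obtain ⟨y, hy⟩ := idem_lift_unique p (c + 1) (b₁ : C) (b₂ : C) ⟨_, hv₁'⟩ ⟨_, hv₂'⟩ hdiff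
  obtain ⟨β₁, hβ₁, β₂, hβ₂, hβ⟩ := hH1 (c + 1) y
    ⟨b₁, b₁.2, -b₂, B₂.neg_mem b₂.2, by rw [← hy]; ring⟩
  have hpB₁ : p ∈ B₁ := B₁.algebraMap_mem ϖ
  have hpB₂ : p ∈ B₂ := B₂.algebraMap_mem ϖ
  -- the glued element
  have hz : (b₁ : C) - p * β₁ = b₂ + p * β₂ := by
    have h1 : (b₁ : C) - b₂ = p * (β₁ + β₂) := by
      rw [hy, pow_succ, ← hβ]; ring
    linear_combination h1
  have hz₁ : (b₁ : C) - p * β₁ ∈ B₁ := B₁.sub_mem b₁.2 (B₁.mul_mem hpB₁ hβ₁)
  have hz₂ : (b₁ : C) - p * β₁ ∈ B₂ := by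
    rw [hz]; exact B₂.add_mem b₂.2 (B₂.mul_mem hpB₂ hβ₂)
  obtain ⟨r, hr⟩ := hint _ hz₁ hz₂
  set z : C := (b₁ : C) - p * β₁ with hzdef
  -- `z² - z = p * w`, `w ∈ B₁`
  set w : C := p ^ c * v₁ - 2 * β₁ * b₁ + p * β₁ ^ 2 + β₁ with hw
  have hwB : w ∈ B₁ := by
    refine B₁.add_mem (B₁.add_mem (B₁.sub_mem (B₁.mul_mem (B₁.pow_mem hpB₁ c) v₁.2) ?_) ?_) hβ₁
    · exact B₁.mul_mem (B₁.mul_mem (by
        have : (2 : C) = algebraMap R C 2 := (map_ofNat (algebraMap R C) 2).symm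
        rw [this]; exact B₁.algebraMap_mem 2) hβ₁) b₁.2
    · exact B₁.mul_mem hpB₁ (B₁.pow_mem hβ₁ 2)
  have hzw : z ^ 2 - z = p * w := by
    have : z ^ 2 - z = ((b₁ : C) ^ 2 - b₁) + p * (-2 * β₁ * b₁ + p * β₁ ^ 2 + β₁) := by
      rw [hzdef]; ring
    rw [this, hv₁', hw, pow_succ]; ring
  rcases IsLocalRing.isUnit_or_isUnit_one_sub_self r with hunit | hunit
  · right
    obtain ⟨s, hs⟩ := hunit.exists_right_inv
    have hs' : z * algebraMap R C s = 1 := by
      rw [← hr, ← map_mul, hs, map_one]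
    refine ⟨-(algebraMap R C s * w) - β₁ + u₁, ?_, ?_⟩
    · exact B₁.add_mem (B₁.sub_mem (B₁.neg_mem (B₁.mul_mem (B₁.algebraMap_mem s) hwB)) hβ₁) u₁.2
    · have h1 : 1 - z = p * (-(algebraMap R C s * w)) := by
        have : 1 - z = -(algebraMap R C s) * (z ^ 2 - z) + (1 - z) * (1 - z * algebraMap R C s) +
            z * (1 - z * algebraMap R C s) * 0 := by ring
        rw [this, hs', hzw]; ring
      have : 1 - e₁ = (1 - z) - p * β₁ + ((b₁ : C) - e₁) := by rw [hzdef]; ring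
      rw [this, h1, hu₁']; ring
  · left
    obtain ⟨s, hs⟩ := hunit.exists_right_inv
    have hs' : (1 - z) * algebraMap R C s = 1 := by
      rw [← hr, ← map_one (algebraMap R C), ← map_sub, ← map_mul, hs, map_one]
    refine ⟨-(algebraMap R C s * w) + β₁ - u₁, ?_, ?_⟩
    · exact B₁.sub_mem (B₁.add_mem (B₁.neg_mem (B₁.mul_mem (B₁.algebraMap_mem s) hwB)) hβ₁) u₁.2
    · have h1 : z = p * (-(algebraMap R C s * w)) := by
        have : z = -(algebraMap R C s) * (z ^ 2 - z) + z * (1 - (1 - z) * algebraMap R C s) := by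
          ring
        rw [this, hs', hzw]; ring
      have : e₁ = z + p * β₁ - ((b₁ : C) - e₁) := by rw [hzdef]; ring
      rw [this, h1, hu₁']; ring

end Cech

end Fermat.Agent.S18.H498

end
-- ===== PACK-END S18/H498/Connected.lean

-- ===== PACK-BEGIN S30/H829/EigenFunctional.lean
section
/-
S30 / p-adic layer (helper829) — abstract "eigensystem occurs" lemma, Mathlib-only.

* `exists_semilinear_functional`: a finitely generated faithful module `N` over a commutative ring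
  `𝕋` admits, for every ring hom `χ : 𝕋 → F` into a field, a nonzero additive `θ : N → F` with
  `θ (t • y) = χ t * θ y`  (support = zero locus of the annihilator + Nakayama).
* `exists_eigen_hom`: `𝕋` acts faithfully on `S`, `π : S →+ (Γ →+ K)` is injective ("period map"),
  `Γ` finitely generated.  Then for every ring hom `χ : 𝕋 → O` into a domain there is a nonzero
  `φ : Γ →+ O` which is a `χ`-eigenvector in the following sense: whenever
  `π s b' = π (t • s) b` for all `s`, then `φ b' = χ t * φ b`; and `φ b = 0` whenever all periods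
  `π s b` vanish.  No characteristic assumption, no commutativity on the lattice side.
-/


set_option autoImplicit false

namespace Fermat.Agent.S30.H829

open TensorProduct

/-- A finitely generated faithful module over a commutative ring has, for every ring hom `χ` into
a field, a nonzero `χ`-semilinear functional. -/
theorem exists_semilinear_functional {𝕋 : Type*} [CommRing 𝕋] {N : Type*} [AddCommGroup N]
    [Module 𝕋 N] [Module.Finite 𝕋 N] (hfaith : ∀ t : 𝕋, (∀ y : N, t • y = 0) → t = 0)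
    {F : Type*} [Field F] (χ : 𝕋 →+* F) :
    ∃ θ : N →+ F, θ ≠ 0 ∧ ∀ (t : 𝕋) (y : N), θ (t • y) = χ t * θ y := by
  classical
  -- the prime ideal `𝔭 = ker χ`
  have h𝔭 : (RingHom.ker χ).IsPrime := RingHom.ker_isPrime χ
  let p : PrimeSpectrum 𝕋 := ⟨RingHom.ker χ, h𝔭⟩
  have hann : Module.annihilator 𝕋 N = ⊥ := by
    rw [eq_bot_iff]
    intro t ht
    rw [Module.mem_annihilator] at ht
    exact (Submodule.mem_bot 𝕋).mpr (hfaith t ht)
  have hsupp : p ∈ Module.support 𝕋 N := by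
    rw [Module.mem_support_iff_of_finite, hann]
    exact bot_le
  have hnt : Nontrivial ((RingHom.ker χ).ResidueField ⊗[𝕋] N) :=
    (Module.mem_support_iff_nontrivial_residueField_tensorProduct p).mp hsupp
  -- the embedding of the residue field into `F`
  let ι : (RingHom.ker χ).ResidueField →+* F :=
    Ideal.ResidueField.lift (RingHom.ker χ) χ le_rfl (by
      intro x hx
      have : χ x ≠ 0 := fun h => hx (RingHom.mem_ker.mpr h)
      exact this.isUnit)
  have hι : ∀ t : 𝕋, ι (algebraMap 𝕋 (RingHom.ker χ).ResidueField t) = χ t :=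
    fun t => Ideal.ResidueField.lift_algebraMap _ _ _ _ t
  -- a nonzero functional on the fibre
  obtain ⟨v₀, hv₀⟩ := exists_ne (0 : (RingHom.ker χ).ResidueField ⊗[𝕋] N)
  obtain ⟨lam, hlam⟩ : ∃ lam : Module.Dual (RingHom.ker χ).ResidueField
      ((RingHom.ker χ).ResidueField ⊗[𝕋] N), lam v₀ ≠ 0 := by
    by_contra hcon
    have hcon' : ∀ lam : Module.Dual (RingHom.ker χ).ResidueField
        ((RingHom.ker χ).ResidueField ⊗[𝕋] N), lam v₀ = 0 := by
      intro lam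
      by_contra h
      exact hcon ⟨lam, h⟩
    exact hv₀ ((Module.forall_dual_apply_eq_zero_iff (RingHom.ker χ).ResidueField v₀).mp hcon')
  -- the functional
  let θ : N →+ F :=
    { toFun := fun y => ι (lam ((1 : (RingHom.ker χ).ResidueField) ⊗ₜ[𝕋] y))
      map_zero' := by simp
      map_add' := fun y z => by simp [TensorProduct.tmul_add] }
  have hθ : ∀ y, θ y = ι (lam ((1 : (RingHom.ker χ).ResidueField) ⊗ₜ[𝕋] y)) := fun _ => rfl
  refine ⟨θ, ?_, ?_⟩
  · intro hzero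
    apply hlam
    have hpure : ∀ (c : (RingHom.ker χ).ResidueField) (y : N), lam (c ⊗ₜ[𝕋] y) = 0 := by
      intro c y
      have h1 : ι (lam ((1 : (RingHom.ker χ).ResidueField) ⊗ₜ[𝕋] y)) = 0 := by
        rw [← hθ, hzero]; rfl
      have h2 : lam ((1 : (RingHom.ker χ).ResidueField) ⊗ₜ[𝕋] y) = 0 :=
        (map_eq_zero ι).mp h1
      have h3 : c ⊗ₜ[𝕋] y = c • ((1 : (RingHom.ker χ).ResidueField) ⊗ₜ[𝕋] y) := by
        rw [TensorProduct.smul_tmul', smul_eq_mul, mul_one]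
      rw [h3, map_smul, h2, smul_zero]
    have hall : ∀ v : (RingHom.ker χ).ResidueField ⊗[𝕋] N, lam v = 0 := by
      intro v
      induction v using TensorProduct.induction_on with
      | zero => simp
      | tmul c y => exact hpure c y
      | add x y hx hy => rw [map_add, hx, hy, add_zero]
    exact hall v₀
  · intro t y
    rw [hθ, hθ, ← hι t, ← map_mul]
    congr 1
    have h3 : (1 : (RingHom.ker χ).ResidueField) ⊗ₜ[𝕋] (t • y)
        = (algebraMap 𝕋 (RingHom.ker χ).ResidueField t) •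
          ((1 : (RingHom.ker χ).ResidueField) ⊗ₜ[𝕋] y) := by
      rw [TensorProduct.tmul_smul, TensorProduct.smul_tmul', TensorProduct.smul_tmul',
        smul_eq_mul, mul_one, Algebra.smul_def, mul_one]
    rw [h3, map_smul, smul_eq_mul]

end Fermat.Agent.S30.H829

namespace Fermat.Agent.S30.H829

/-- The action of a commutative ring `𝕋` on `S →+ K` by precomposition with its action on `S`. -/
@[reducible] def precompModule (𝕋 S K : Type*) [CommRing 𝕋] [AddCommGroup S] [Module 𝕋 S]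
    [AddCommGroup K] : Module 𝕋 (S →+ K) where
  smul t ν := ν.comp (DistribSMul.toAddMonoidHom S t)
  one_smul ν := by
    ext s
    show ν ((1 : 𝕋) • s) = ν s
    rw [one_smul]
  mul_smul t t' ν := by
    ext s
    show ν ((t * t') • s) = ν (t' • t • s)
    rw [mul_comm, mul_smul]
  smul_zero t := by
    ext s
    rfl
  smul_add t ν ν' := by
    ext s
    rfl
  add_smul t t' ν := by
    ext s
    show ν ((t + t') • s) = ν (t • s) + ν (t' • s)
    rw [add_smul, map_add]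
  zero_smul ν := by
    ext s
    show ν ((0 : 𝕋) • s) = 0
    rw [zero_smul, map_zero]

theorem precompModule_smul_apply {𝕋 S K : Type*} [CommRing 𝕋] [AddCommGroup S] [Module 𝕋 S]
    [AddCommGroup K] (t : 𝕋) (ν : S →+ K) (s : S) :
    (letI := precompModule 𝕋 S K; t • ν) s = ν (t • s) := rfl

/-- **Abstract "eigensystem occurs" theorem.**  `𝕋` acts faithfully on `S`; `π : S →+ (Γ →+ K)` is
an injective "period map" on a finitely generated group `Γ`.  For every ring hom `χ : 𝕋 → O` into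
a domain there is a nonzero `φ : Γ →+ O` with `φ b' = χ t * φ b` whenever
`π s b' = π (t • s) b` for all `s`, and `φ b = 0` whenever `π s b = 0` for all `s`. -/
theorem exists_eigen_hom
    {S : Type*} [AddCommGroup S] {K : Type*} [AddCommGroup K]
    {𝕋 : Type*} [CommRing 𝕋] [Module 𝕋 S] (hfaith : ∀ t : 𝕋, (∀ s : S, t • s = 0) → t = 0)
    {Γ : Type*} [AddGroup Γ] [hΓ : AddGroup.FG Γ]
    (π : S →+ (Γ →+ K)) (hπ : Function.Injective π)
    {O : Type*} [CommRing O] [IsDomain O] (χ : 𝕋 →+* O) :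
    ∃ φ : Γ →+ O, φ ≠ 0 ∧
      (∀ (t : 𝕋) (b b' : Γ), (∀ s, π s b' = π (t • s) b) → φ b' = χ t * φ b) ∧
      (∀ b, (∀ s, π s b = 0) → φ b = 0) := by
  classical
  letI : Module 𝕋 (S →+ K) := precompModule 𝕋 S K
  -- evaluation map
  let ev : Γ →+ (S →+ K) := π.flip
  have hev : ∀ b s, ev b s = π s b := fun _ _ => rfl
  -- finite generating set
  obtain ⟨G₀, hG₀, hG₀fin⟩ := (AddSubgroup.fg_iff _).mp (AddGroup.fg_def.mp hΓ)
  let N : Submodule 𝕋 (S →+ K) := Submodule.span 𝕋 (ev '' G₀)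
  haveI : Module.Finite 𝕋 N := Module.Finite.span_of_finite 𝕋 (hG₀fin.image ev)
  have hevN : ∀ b : Γ, ev b ∈ N := by
    intro b
    have hb : b ∈ AddSubgroup.closure G₀ := by rw [hG₀]; trivial
    induction hb using AddSubgroup.closure_induction with
    | mem x hx => exact Submodule.subset_span ⟨x, hx, rfl⟩
    | zero => rw [map_zero]; exact N.zero_mem
    | add x y _ _ hx hy => rw [map_add]; exact N.add_mem hx hy
    | neg x _ hx => rw [map_neg]; exact N.neg_mem hx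
  -- faithfulness of `N`
  have hNfaith : ∀ t : 𝕋, (∀ y : N, t • y = 0) → t = 0 := by
    intro t ht
    apply hfaith t
    intro s
    apply hπ
    rw [map_zero]
    ext b
    have h1 := ht ⟨ev b, hevN b⟩
    have h2 : t • ev b = 0 := by
      have := congrArg Subtype.val h1
      simpa using this
    have h3 := DFunLike.congr_fun h2 s
    rw [precompModule_smul_apply, hev] at h3
    simpa using h3
  -- the semilinear functional
  let F := FractionRing O
  obtain ⟨θ, hθ0, hθ⟩ := exists_semilinear_functional (𝕋 := 𝕋) (N := N) hNfaith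
    ((algebraMap O F).comp χ)
  let φ₀ : Γ →+ F :=
    { toFun := fun b => θ ⟨ev b, hevN b⟩
      map_zero' := by
        have : (⟨ev 0, hevN 0⟩ : N) = 0 := Subtype.ext (map_zero ev)
        rw [this, map_zero]
      map_add' := fun b c => by
        have : (⟨ev (b + c), hevN (b + c)⟩ : N) = ⟨ev b, hevN b⟩ + ⟨ev c, hevN c⟩ :=
          Subtype.ext (map_add ev b c)
        rw [this, map_add] }
  have hφ₀ : ∀ b, φ₀ b = θ ⟨ev b, hevN b⟩ := fun _ => rfl
  have hφ₀ne : φ₀ ≠ 0 := by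
    intro h0
    apply hθ0
    ext y
    obtain ⟨y, hy⟩ := y
    show θ ⟨y, hy⟩ = 0
    induction hy using Submodule.span_induction with
    | mem x hx =>
      obtain ⟨b, -, rfl⟩ := hx
      have := DFunLike.congr_fun h0 b
      rw [hφ₀] at this
      exact this
    | zero => exact map_zero θ
    | add x y hx hy ihx ihy =>
      have : (⟨x + y, N.add_mem hx hy⟩ : N) = ⟨x, hx⟩ + ⟨y, hy⟩ := rfl
      rw [this, map_add, ihx, ihy, add_zero]
    | smul t x hx ihx =>
      have : (⟨t • x, N.smul_mem t hx⟩ : N) = t • ⟨x, hx⟩ := rfl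
      rw [this, hθ, ihx, mul_zero]
  -- common denominator on the generators
  have hden : ∀ b : Γ, ∃ d : O, d ≠ 0 ∧ ∃ a : O, algebraMap O F d * φ₀ b = algebraMap O F a := by
    intro b
    obtain ⟨a, d, hd, h⟩ := IsFractionRing.div_surjective (A := O) (φ₀ b)
    refine ⟨d, nonZeroDivisors.ne_zero hd, a, ?_⟩
    rw [← h]
    have : algebraMap O F d ≠ 0 := by
      intro h0
      exact nonZeroDivisors.ne_zero hd ((IsFractionRing.injective O F) (by rw [h0, map_zero]))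
    rw [mul_div_cancel₀ _ this]
  choose dd hdd aa haa using hden
  let D : O := ∏ g ∈ hG₀fin.toFinset, dd g
  have hD : D ≠ 0 := Finset.prod_ne_zero_iff.mpr fun g _ => hdd g
  have hDF : algebraMap O F D ≠ 0 := by
    intro h0
    exact hD ((IsFractionRing.injective O F) (by rw [h0, map_zero]))
  have hint : ∀ b : Γ, ∃ a : O, algebraMap O F D * φ₀ b = algebraMap O F a := by
    intro b
    have hb : b ∈ AddSubgroup.closure G₀ := by rw [hG₀]; trivial
    induction hb using AddSubgroup.closure_induction with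
    | mem x hx =>
      have hx' : x ∈ hG₀fin.toFinset := hG₀fin.mem_toFinset.mpr hx
      obtain ⟨c, hc⟩ := Finset.dvd_prod_of_mem dd hx'
      refine ⟨c * aa x, ?_⟩
      have : D = dd x * c := hc
      rw [this, map_mul, map_mul, ← haa x]
      ring
    | zero => exact ⟨0, by rw [map_zero, mul_zero, map_zero]⟩
    | add x y _ _ hx hy =>
      obtain ⟨a, ha⟩ := hx
      obtain ⟨a', ha'⟩ := hy
      exact ⟨a + a', by rw [map_add, mul_add, ha, ha', map_add]⟩
    | neg x _ hx =>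
      obtain ⟨a, ha⟩ := hx
      exact ⟨-a, by rw [map_neg, mul_neg, ha, map_neg]⟩
  choose f hf using hint
  have hinj : Function.Injective (algebraMap O F) := IsFractionRing.injective O F
  let φ : Γ →+ O :=
    { toFun := f
      map_zero' := hinj (by rw [← hf, map_zero, mul_zero, map_zero])
      map_add' := fun b c => hinj (by rw [← hf, map_add, mul_add, hf, hf, map_add]) }
  have hφ : ∀ b, algebraMap O F (φ b) = algebraMap O F D * φ₀ b := fun b => (hf b).symm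
  refine ⟨φ, ?_, ?_, ?_⟩
  · intro h0
    apply hφ₀ne
    ext b
    have h1 := hφ b
    rw [h0] at h1
    have h2 : algebraMap O F D * φ₀ b = 0 := by
      rw [← h1]; simp
    rcases mul_eq_zero.mp h2 with h | h
    · exact absurd h hDF
    · exact h
  · intro t b b' hbb'
    apply hinj
    rw [map_mul, hφ, hφ]
    have hev' : (⟨ev b', hevN b'⟩ : N) = t • ⟨ev b, hevN b⟩ := by
      apply Subtype.ext
      show ev b' = t • ev b
      ext s
      rw [precompModule_smul_apply, hev, hev]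
      exact hbb' s
    rw [hφ₀, hφ₀, hev', hθ]
    simp only [RingHom.comp_apply]
    ring
  · intro b hb
    apply hinj
    rw [hφ, map_zero]
    have : (⟨ev b, hevN b⟩ : N) = 0 := by
      apply Subtype.ext
      show ev b = 0
      ext s
      rw [hev]
      exact hb s
    rw [hφ₀, this, map_zero, mul_zero]

end Fermat.Agent.S30.H829

end
-- ===== PACK-END S30/H829/EigenFunctional.lean

-- ===== PACK-BEGIN S35/H252/XSpec.lean
section
/-
S35, piece (X) (helper252): frozen interface Props for the exclusion statement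
`Fermat.Agent.S35.H991.ExclTateStatement` (S35/H991/Mid.lean).

  ExclTateStatement  <=  ExclPolyStatement               (S35/H252/ExclGlue.lean, this seat)
  ExclPolyStatement  <=  XFormsStatement + XJacStatement  (`exclPoly_of`, below)

* `XFormsStatement` (forms side): for a newform `g` of level `M`, a prime `q ∣ M` and a finite
  set `S` containing the primes of `M` there is a polynomial `t` in the Hecke operators `T_ℓ`,
  `ℓ ∉ S`, which is `0` on `S₂(Γ₀(M / q))` and with `t(a_ℓ(g)) ≠ 0`.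
* `XJacStatement` (Jacobian side, "FACTOR"): a polynomial `t` in the `T_ℓ`, `ℓ ∉ S`
  (`S ∋ p`, `S ⊇ primes of N`), which is `0` on `S₂(Γ₀(N))` kills the `p`-power torsion of `J₀(N)`.

This file imports the Prelude only.
-/




set_option autoImplicit false

namespace Fermat.Agent.S35.H252

open CongruenceSubgroup

/-- **(X), polynomial form.**  There is a polynomial in the Hecke operators away from `S` which
kills the `p`-power torsion of `J₀(M / q)` but not the newform `g` of level `M`. -/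
def ExclPolyStatement : Prop :=
  ∀ (M : ℕ) [NeZero M] (g : CuspForm (Gamma0 M) 2), g.IsNewform →
    ∀ (q : ℕ) [NeZero (M / q)], q.Prime → q ∣ M →
    ∀ (p : ℕ) (S : Finset ℕ), p.Prime → p ∈ S → (∀ r : ℕ, r.Prime → r ∣ M → r ∈ S) →
    ∃ (h : ModularCurve.HeckeOperatorsCommuteBar (M / q))
      (t : MvPolynomial {ℓ : Nat.Primes // (ℓ : ℕ) ∉ S} ℤ),
      (∀ (n : ℕ) (x : ModularCurve.JZero (M / q)), ((p : ℤ) ^ n) • x = 0 →
        ModularCurve.heckeEvalBar h (MvPolynomial.rename Subtype.val t) x = 0) ∧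
      MvPolynomial.aeval (fun ℓ : {ℓ : Nat.Primes // (ℓ : ℕ) ∉ S} =>
        ModularFormClass.qCoeff g ((ℓ : Nat.Primes) : ℕ)) t ≠ 0

/-- **(X-forms).**  The eigensystem away from `S` of a newform of level `M` is cut out from
`S₂(Γ₀(M / q))` by a polynomial in the Hecke operators away from `S`. -/
def XFormsStatement : Prop :=
  ∀ (M : ℕ) [NeZero M] (g : CuspForm (Gamma0 M) 2), g.IsNewform →
    ∀ (q : ℕ) [NeZero (M / q)], q.Prime → q ∣ M →
    ∀ (S : Finset ℕ), (∀ r : ℕ, r.Prime → r ∣ M → r ∈ S) →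
    ∃ t : MvPolynomial {ℓ : Nat.Primes // (ℓ : ℕ) ∉ S} ℤ,
      (∀ f : CuspForm (Gamma0 (M / q)) 2,
        (CuspForm.heckeEvalForms (M / q) 2 (MvPolynomial.rename Subtype.val t) :
          Module.End ℂ (CuspForm (Gamma0 (M / q)) 2)) f = 0) ∧
      MvPolynomial.aeval (fun ℓ : {ℓ : Nat.Primes // (ℓ : ℕ) ∉ S} =>
        ModularFormClass.qCoeff g ((ℓ : Nat.Primes) : ℕ)) t ≠ 0

/-- **(X-J), FACTOR.**  A polynomial in the Hecke operators away from `S` which vanishes on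
`S₂(Γ₀(N))` kills the `p`-power torsion of `J₀(N)` (`p ∈ S`, primes of `N` in `S`). -/
def XJacStatement : Prop :=
  ∀ (N : ℕ) [NeZero N] (p : ℕ) (S : Finset ℕ), p.Prime → p ∈ S →
    (∀ r : ℕ, r.Prime → r ∣ N → r ∈ S) →
    ∀ t : MvPolynomial {ℓ : Nat.Primes // (ℓ : ℕ) ∉ S} ℤ,
      (∀ f : CuspForm (Gamma0 N) 2,
        (CuspForm.heckeEvalForms N 2 (MvPolynomial.rename Subtype.val t) :
          Module.End ℂ (CuspForm (Gamma0 N) 2)) f = 0) →
      ∃ h : ModularCurve.HeckeOperatorsCommuteBar N,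
        ∀ (n : ℕ) (x : ModularCurve.JZero N), ((p : ℤ) ^ n) • x = 0 →
          ModularCurve.heckeEvalBar h (MvPolynomial.rename Subtype.val t) x = 0

/-- `(X-forms) + (X-J) ⇒ (X)` in the polynomial form. -/
theorem exclPoly_of (hF : XFormsStatement) (hJ : XJacStatement) : ExclPolyStatement := by
  intro M _ g hg q _ hq hqM p S hp hpS hMS
  obtain ⟨t, ht0, htg⟩ := hF M g hg q hq hqM S hMS
  have hNS : ∀ r : ℕ, r.Prime → r ∣ M / q → r ∈ S := fun r hr hrN =>
    hMS r hr (hrN.trans (Nat.div_dvd_of_dvd hqM))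
  obtain ⟨h, hkill⟩ := hJ (M / q) p S hp hpS hNS t ht0
  exact ⟨h, t, hkill, htg⟩

end Fermat.Agent.S35.H252

end
-- ===== PACK-END S35/H252/XSpec.lean

-- ===== PACK-BEGIN S22/H262/Glue.lean
section


set_option autoImplicit false

/-!
# S22 glue: a finitely generated, Hecke-stable, separating lattice of functionals
forces the Hecke algebra to be a finite `ℤ`-module.
-/

namespace Fermat.Agent.S22.H262

open CuspForm

section Abstract

variable {V : Type*} [AddCommGroup V] [Module ℂ V]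

/-- The `ℤ`-subalgebra of endomorphisms `t` such that `l ∘ t ∈ Λ` for all `l ∈ Λ`. -/
def stabAlg (Λ : Submodule ℤ (Module.Dual ℂ V)) : Subalgebra ℤ (Module.End ℂ V) where
  carrier := {t | ∀ l ∈ Λ, l ∘ₗ t ∈ Λ}
  mul_mem' := by
    intro a b ha hb l hl
    have : l ∘ₗ (a * b) = (l ∘ₗ a) ∘ₗ b := rfl
    rw [this]
    exact hb _ (ha _ hl)
  one_mem' := by
    intro l hl
    have : l ∘ₗ (1 : Module.End ℂ V) = l := rfl
    rw [this]
    exact hl
  add_mem' := by
    intro a b ha hb l hl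
    rw [LinearMap.comp_add]
    exact Λ.add_mem (ha _ hl) (hb _ hl)
  zero_mem' := by
    intro l _
    rw [LinearMap.comp_zero]
    exact Λ.zero_mem
  algebraMap_mem' := by
    intro n l hl
    have : l ∘ₗ (algebraMap ℤ (Module.End ℂ V) n) = n • l := by
      ext v
      simp
    rw [this]
    exact Λ.smul_mem n hl

theorem mem_stabAlg {Λ : Submodule ℤ (Module.Dual ℂ V)} {t : Module.End ℂ V} :
    t ∈ stabAlg Λ ↔ ∀ l ∈ Λ, l ∘ₗ t ∈ Λ := Iff.rfl

/-- The transpose action of the stabiliser algebra on the lattice, as a `ℤ`-linear map. -/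
def stabAct (Λ : Submodule ℤ (Module.Dual ℂ V)) : stabAlg Λ →ₗ[ℤ] (Λ →ₗ[ℤ] Λ) where
  toFun t :=
    { toFun := fun l => ⟨(l : Module.Dual ℂ V) ∘ₗ (t : Module.End ℂ V), t.2 _ l.2⟩
      map_add' := fun l l' => Subtype.ext (by simp [LinearMap.add_comp])
      map_smul' := fun n l => Subtype.ext (by
        ext v
        simp) }
  map_add' := fun t t' => LinearMap.ext fun l => Subtype.ext (by
    simp [LinearMap.comp_add])
  map_smul' := fun n t => LinearMap.ext fun l => Subtype.ext (by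
    ext v
    simp)

theorem stabAct_injective (Λ : Submodule ℤ (Module.Dual ℂ V))
    (hsep : ∀ v : V, (∀ l ∈ Λ, l v = 0) → v = 0) : Function.Injective (stabAct Λ) := by
  rw [injective_iff_map_eq_zero]
  intro t ht
  apply Subtype.ext
  apply LinearMap.ext
  intro v
  apply hsep
  intro l hl
  have := congrArg (fun (φ : Λ →ₗ[ℤ] Λ) => ((φ ⟨l, hl⟩ : Λ) : Module.Dual ℂ V) v) ht
  simpa [stabAct] using this

theorem moduleFinite_stabAlg (Λ : Submodule ℤ (Module.Dual ℂ V)) (hfg : Λ.FG)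
    (hsep : ∀ v : V, (∀ l ∈ Λ, l v = 0) → v = 0) : Module.Finite ℤ (stabAlg Λ) := by
  have : Module.Finite ℤ Λ := Module.Finite.iff_fg.mpr hfg
  have : IsAddTorsionFree (Module.Dual ℂ V) := .of_isTorsionFree ℂ _
  have : Module.Free ℤ Λ := Module.free_of_finite_type_torsion_free'
  have : Module.Finite ℤ (Λ →ₗ[ℤ] Λ) := Module.Finite.linearMap ℤ ℤ Λ Λ
  exact Module.Finite.of_injective (stabAct Λ) (stabAct_injective Λ hsep)

end Abstract

/-- **Glue lemma**: a finitely generated `ℤ`-lattice of functionals on `S_k(Γ₀(N))` which is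
stable under precomposition with the Hecke generators and separates points
forces the Hecke algebra to be module-finite over `ℤ`. -/
theorem moduleFinite_heckeAlgebra_of_lattice {N : ℕ} [NeZero N] {k : ℤ} {S : Set ℕ}
    (Λ : Submodule ℤ (Module.Dual ℂ (CuspForm (CongruenceSubgroup.Gamma0 N) k)))
    (hfg : Λ.FG)
    (hstab : ∀ T ∈ heckeGenerators N k S, ∀ l ∈ Λ, l ∘ₗ T ∈ Λ)
    (hsep : ∀ f : CuspForm (CongruenceSubgroup.Gamma0 N) k, (∀ l ∈ Λ, l f = 0) → f = 0) :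
    Module.Finite ℤ (heckeAlgebra N k S) := by
  have hle : heckeAlgebra N k S ≤ stabAlg Λ := Algebra.adjoin_le fun T hT => hstab T hT
  have := moduleFinite_stabAlg Λ hfg hsep
  exact Module.Finite.of_injective (Subalgebra.inclusion hle).toLinearMap
    (Subalgebra.inclusion_injective hle)

/-- If the space of cusp forms is trivial, the Hecke algebra is module-finite. -/
theorem moduleFinite_heckeAlgebra_of_subsingleton {N : ℕ} [NeZero N] {k : ℤ} {S : Set ℕ}
    (h : ∀ f : CuspForm (CongruenceSubgroup.Gamma0 N) k, f = 0) :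
    Module.Finite ℤ (heckeAlgebra N k S) :=
  moduleFinite_heckeAlgebra_of_lattice ⊥ Submodule.fg_bot
    (fun T _ l hl => by
      rw [Submodule.mem_bot] at hl ⊢
      rw [hl, LinearMap.zero_comp])
    (fun f _ => h f)

end Fermat.Agent.S22.H262

end
-- ===== PACK-END S22/H262/Glue.lean

-- ===== PACK-BEGIN S22/H262/EasyCases.lean
section




set_option autoImplicit false

/-!
# S22: cusp forms of weight `k ≤ 1` on `Γ₀(N)` vanish.
-/

namespace Fermat.Agent.S22.H262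

open CuspForm UpperHalfPlane
open scoped MatrixGroups

/-- Cusp forms of non-positive weight on `Γ₀(N)` vanish (Sturm bound from the prelude). -/
theorem cuspForm_eq_zero_of_nonpos {N : ℕ} [NeZero N] {k : ℤ} (hk : k ≤ 0)
    (f : CuspForm (CongruenceSubgroup.Gamma0 N) k) : f = 0 := by
  have h0 : (CuspForm.toModularFormₗ f) = 0 := by
    apply ModularForm.sturm_bound_Gamma0 N
    intro n hn
    have hz : (k * ((CongruenceSubgroup.Gamma0 N).index : ℤ)).toNat = 0 := by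
      rw [Int.toNat_eq_zero]
      exact mul_nonpos_of_nonpos_of_nonneg hk (by positivity)
    rw [hz, Nat.zero_div, Nat.le_zero] at hn
    subst hn
    exact CuspFormClass.qExpansion_coeff_zero (f := f) one_pos
      (CongruenceSubgroup.one_mem_strictPeriods_Gamma0 N)
  exact CuspForm.toModularFormₗ_injective (by rw [h0, map_zero])

/-- Cusp forms of odd weight on `Γ₀(N)` vanish, since `-1 ∈ Γ₀(N)`. -/
theorem cuspForm_eq_zero_of_odd {N : ℕ} {k : ℤ} (hk : Odd k)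
    (f : CuspForm (CongruenceSubgroup.Gamma0 N) k) : f = 0 := by
  have hmem : (-1 : GL (Fin 2) ℝ) ∈
      (Subgroup.map (Matrix.SpecialLinearGroup.mapGL ℝ) (CongruenceSubgroup.Gamma0 N)) := by
    refine ⟨-1, ?_, ?_⟩
    · simp [CongruenceSubgroup.Gamma0_mem]
    · ext i j
      simp
  have h0 : (CuspForm.toModularFormₗ f) = 0 :=
    ModularForm.eq_zero_of_neg_one_mem hmem hk _
  exact CuspForm.toModularFormₗ_injective (by rw [h0, map_zero])

/-- Cusp forms of weight `k ≤ 1` on `Γ₀(N)` vanish. -/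
theorem cuspForm_eq_zero_of_le_one {N : ℕ} [NeZero N] {k : ℤ} (hk : k ≤ 1)
    (f : CuspForm (CongruenceSubgroup.Gamma0 N) k) : f = 0 := by
  rcases hk.lt_or_eq with h | h
  · exact cuspForm_eq_zero_of_nonpos (by omega) f
  · exact cuspForm_eq_zero_of_odd (by rw [h]; exact odd_one) f

end Fermat.Agent.S22.H262

end
-- ===== PACK-END S22/H262/EasyCases.lean

-- ===== PACK-BEGIN S30/H810/Classify.lean
section
/-
S30 / piece ONTO (helper810), part 5 (Mathlib only): elements of `SL(2, ℤ)` of finite order and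
of trace `±2`.

* `fixed_or_trivial_of_pow_eq_one` : `g ^ n = 1`, `n > 0` ⟹ `g` acts trivially on `ℍ` or has a
  fixed point in `ℍ`;
* `parabolic_conj` : `tr g = ±2` ⟹ `g` acts trivially or `g ∘ h = h ∘ T^n` on `ℍ` for some
  `h ∈ SL(2, ℤ)`, `n ≠ 0`.
-/


set_option autoImplicit false

noncomputable section

open UpperHalfPlane Matrix
open scoped MatrixGroups

namespace Fermat.Agent.S30.H810

/-- the Chebyshev-type sequence `u₀ = 0, u₁ = 1, u_{k+2} = t u_{k+1} - u_k` -/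
def chebSeq (t : ℤ) : ℕ → ℤ
  | 0 => 0
  | 1 => 1
  | (k + 2) => t * chebSeq t (k + 1) - chebSeq t k

theorem chebSeq_succ_succ (t : ℤ) (k : ℕ) :
    chebSeq t (k + 2) = t * chebSeq t (k + 1) - chebSeq t k := rfl

theorem chebSeq_abs_lt (t : ℤ) (ht : 2 ≤ |t|) (k : ℕ) :
    |chebSeq t k| + 1 ≤ |chebSeq t (k + 1)| := by
  induction k with
  | zero => simp [chebSeq]
  | succ k ih =>
    rw [chebSeq_succ_succ]
    have h1 : |t * chebSeq t (k + 1)| - |chebSeq t k| ≤ |t * chebSeq t (k + 1) - chebSeq t k| :=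
      abs_sub_abs_le_abs_sub _ _
    have h2 : 2 * |chebSeq t (k + 1)| ≤ |t * chebSeq t (k + 1)| := by
      rw [abs_mul]
      exact mul_le_mul_of_nonneg_right ht (abs_nonneg _)
    linarith

theorem chebSeq_succ_ne_zero (t : ℤ) (ht : 2 ≤ |t|) (k : ℕ) : chebSeq t (k + 1) ≠ 0 := by
  intro h
  have := chebSeq_abs_lt t ht k
  rw [h, abs_zero] at this
  have := abs_nonneg (chebSeq t k)
  linarith

theorem sq_eq_of_det_one (A : Matrix (Fin 2) (Fin 2) ℤ) (hA : A.det = 1) (t : ℤ)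
    (ht : A 0 0 + A 1 1 = t) : A * A = (t : Matrix (Fin 2) (Fin 2) ℤ) * A - 1 := by
  rw [Matrix.det_fin_two] at hA
  subst ht
  ext i j
  fin_cases i <;> fin_cases j <;>
    simp [Matrix.mul_apply, Fin.sum_univ_two, Matrix.intCast_apply] <;> nlinarith

theorem pow_succ_eq_chebSeq (A : Matrix (Fin 2) (Fin 2) ℤ) (hA : A.det = 1) (t : ℤ)
    (ht : A 0 0 + A 1 1 = t) (k : ℕ) :
    A ^ (k + 1) = (chebSeq t (k + 1) : Matrix (Fin 2) (Fin 2) ℤ) * A
      - (chebSeq t k : Matrix (Fin 2) (Fin 2) ℤ) := by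
  induction k with
  | zero => simp [chebSeq]
  | succ k ih =>
    rw [pow_succ, ih, sub_mul, mul_assoc, sq_eq_of_det_one A hA t ht, chebSeq_succ_succ]
    have hc : (chebSeq t (k + 1) : Matrix (Fin 2) (Fin 2) ℤ) * (t : Matrix (Fin 2) (Fin 2) ℤ)
        = (t : Matrix (Fin 2) (Fin 2) ℤ) * (chebSeq t (k + 1) : Matrix (Fin 2) (Fin 2) ℤ) :=
      (Int.cast_commute _ _).eq
    push_cast
    rw [mul_sub, ← mul_assoc, hc]
    noncomm_ring

/-- A finite-order element of `SL(2, ℤ)` with `|tr| ≥ 2` is `±1`. -/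
theorem eq_one_or_neg_one_of_pow_eq_one (g : SL(2, ℤ)) (n : ℕ) (hn : 0 < n) (h : g ^ n = 1)
    (ht : 2 ≤ |g 0 0 + g 1 1|) : g = 1 ∨ g = -1 := by
  obtain ⟨k, rfl⟩ : ∃ k, n = k + 1 := ⟨n - 1, by omega⟩
  have hA : (g : Matrix (Fin 2) (Fin 2) ℤ).det = 1 := g.2
  have hpow : (g : Matrix (Fin 2) (Fin 2) ℤ) ^ (k + 1) = 1 := by
    have := congrArg (fun x : SL(2, ℤ) => (x : Matrix (Fin 2) (Fin 2) ℤ)) h
    simpa using this
  have hu := chebSeq_succ_ne_zero _ ht k
  have key := pow_succ_eq_chebSeq (g : Matrix (Fin 2) (Fin 2) ℤ) hA _ rfl k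
  rw [hpow] at key
  have e00 := congrFun (congrFun key 0) 0
  have e01 := congrFun (congrFun key 0) 1
  have e10 := congrFun (congrFun key 1) 0
  have e11 := congrFun (congrFun key 1) 1
  simp [Matrix.mul_apply, Matrix.intCast_apply] at e00 e01 e10 e11
  have h01 : g 0 1 = 0 := by
    rcases e01 with h | h
    · exact absurd h hu
    · exact h
  have h10 : g 1 0 = 0 := by
    rcases e10 with h | h
    · exact absurd h hu
    · exact h
  have hd : g 0 0 = g 1 1 := by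
    have : chebSeq (g 0 0 + g 1 1) (k + 1) * (g 0 0 - g 1 1) = 0 := by linarith
    rcases mul_eq_zero.mp this with h | h
    · exact absurd h hu
    · linarith
  rw [Matrix.det_fin_two, h01, h10, ← hd] at hA
  have hsq : g 0 0 * g 0 0 = 1 := by linarith
  rcases Int.eq_one_or_neg_one_of_mul_eq_one' hsq with ⟨h1, -⟩ | ⟨h1, -⟩
  · left
    ext i j
    fin_cases i <;> fin_cases j <;> simp [h01, h10, ← hd, h1]
  · right
    ext i j
    fin_cases i <;> fin_cases j <;> simp [h01, h10, ← hd, h1]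

/-- **Finite order.** An element of `SL(2, ℤ)` of finite order acts trivially on `ℍ` or has a
fixed point in `ℍ`. -/
theorem fixed_or_trivial_of_pow_eq_one (g : SL(2, ℤ)) (n : ℕ) (hn : 0 < n) (h : g ^ n = 1) :
    (∀ τ : ℍ, g • τ = τ) ∨ ∃ τ₀ : ℍ, g • τ₀ = τ₀ := by
  by_cases ht : 2 ≤ |g 0 0 + g 1 1|
  · left
    rcases eq_one_or_neg_one_of_pow_eq_one g n hn h ht with rfl | rfl
    · intro τ; exact one_smul _ τ
    · intro τ
      rw [ModularGroup.SL_neg_smul, one_smul]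
  · right
    push Not at ht
    have hdet : ((g : GL (Fin 2) ℝ) : Matrix (Fin 2) (Fin 2) ℝ).det = 1 :=
      (Matrix.SpecialLinearGroup.map (Int.castRingHom ℝ) g).det_coe
    have hpos : 0 < ((g : GL (Fin 2) ℝ) : Matrix (Fin 2) (Fin 2) ℝ).det := by
      rw [hdet]; exact one_pos
    have hell : ((g : GL (Fin 2) ℝ) : Matrix (Fin 2) (Fin 2) ℝ).IsElliptic := by
      rw [Matrix.IsElliptic, Matrix.discr_fin_two, Matrix.trace_fin_two]
      rw [hdet]
      have h1 : ((g : GL (Fin 2) ℝ) : Matrix (Fin 2) (Fin 2) ℝ) 0 0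
          + ((g : GL (Fin 2) ℝ) : Matrix (Fin 2) (Fin 2) ℝ) 1 1 = ((g 0 0 + g 1 1 : ℤ) : ℝ) := by
        simp
      rw [h1]
      have h2 : |((g 0 0 + g 1 1 : ℤ) : ℝ)| < 2 := by
        rw [← Int.cast_abs]
        exact_mod_cast ht
      have h3 := abs_lt.mp h2
      nlinarith
    exact ⟨fixedPt (g : GL (Fin 2) ℝ) hell,
      (gl_smul_eq_self_iff_eq_fixedPt hpos hell).mpr rfl⟩

/-- conjugating into upper triangular form: if `(p, q)` is a primitive eigenvector of `g`, then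
`h⁻¹ g h` is upper triangular for a suitable `h ∈ SL(2, ℤ)`. -/
theorem exists_conj_upper (g : SL(2, ℤ)) (ε p q : ℤ) (hpq : IsCoprime p q)
    (h1 : g 0 0 * p + g 0 1 * q = ε * p) (h2 : g 1 0 * p + g 1 1 * q = ε * q) :
    ∃ h : SL(2, ℤ), (h⁻¹ * g * h) 1 0 = 0 := by
  obtain ⟨u, v, huv⟩ := hpq
  have hdet : (!![p, -v; q, u] : Matrix (Fin 2) (Fin 2) ℤ).det = 1 := by
    rw [Matrix.det_fin_two_of]; linarith
  let h : SL(2, ℤ) := ⟨!![p, -v; q, u], hdet⟩
  have hcoe : (h : Matrix (Fin 2) (Fin 2) ℤ) = !![p, -v; q, u] := rfl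
  refine ⟨h, ?_⟩
  rw [Matrix.SpecialLinearGroup.coe_mul, Matrix.SpecialLinearGroup.coe_mul,
    Matrix.SpecialLinearGroup.coe_inv, Matrix.adjugate_fin_two, hcoe]
  simp [Matrix.mul_apply, Fin.sum_univ_two, Matrix.vecMul, dotProduct]
  linear_combination p * h2 - q * h1

/-- **Trace `±2`.** An element of `SL(2, ℤ)` of trace `±2` is conjugate in `SL(2, ℤ)`, as a
transformation of `ℍ`, to a translation `T ^ n`. -/
theorem parabolic_conj (g : SL(2, ℤ)) (ht : g 0 0 + g 1 1 = 2 ∨ g 0 0 + g 1 1 = -2) :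
    ∃ (h : SL(2, ℤ)) (n : ℤ), ∀ τ : ℍ, g • (h • τ) = h • (ModularGroup.T ^ n • τ) := by
  have hdet : g 0 0 * g 1 1 - g 0 1 * g 1 0 = 1 := by
    have := g.det_coe
    rwa [Matrix.det_fin_two] at this
  obtain ⟨ε, hε, htr⟩ : ∃ ε : ℤ, ε * ε = 1 ∧ g 0 0 + g 1 1 = 2 * ε := by
    rcases ht with h | h
    · exact ⟨1, by norm_num, by rw [h]; norm_num⟩
    · exact ⟨-1, by norm_num, by rw [h]; norm_num⟩
  have key : ∃ h : SL(2, ℤ), (h⁻¹ * g * h) 1 0 = 0 := by
    by_cases hc : g 1 0 = 0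
    · exact ⟨1, by simpa using hc⟩
    · -- primitive eigenvector `(x, c) / gcd`
      set x : ℤ := g 0 0 - ε with hx
      have hxx : x * x = -(g 0 1 * g 1 0) := by
        have hd : g 1 1 = ε - x := by rw [hx]; linarith
        rw [hd] at hdet
        have : (g 0 0) = x + ε := by rw [hx]; ring
        rw [this] at hdet
        nlinarith
      set e : ℤ := ((Int.gcd x (g 1 0) : ℕ) : ℤ) with he
      have he0 : e ≠ 0 := by
        rw [he]
        exact_mod_cast (Int.gcd_pos_of_ne_zero_right x hc).ne'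
      obtain ⟨p, hp⟩ : e ∣ x := Int.gcd_dvd_left x (g 1 0)
      obtain ⟨q, hq⟩ : e ∣ g 1 0 := Int.gcd_dvd_right x (g 1 0)
      have hcop : IsCoprime p q := by
        have hpos : 0 < Int.gcd x (g 1 0) := Int.gcd_pos_of_ne_zero_right x hc
        have h1 : Int.gcd x (g 1 0) = Int.gcd x (g 1 0) * Int.gcd p q := by
          conv_lhs => rw [hp, hq, Int.gcd_mul_left]
          rw [he, Int.natAbs_natCast]
        have h2 : Int.gcd p q = 1 :=
          Nat.eq_of_mul_eq_mul_left hpos (by rw [mul_one]; exact h1.symm)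
        exact Int.isCoprime_iff_gcd_eq_one.mpr h2
      refine exists_conj_upper g ε p q hcop ?_ ?_
      · -- `a p + b q = ε p`
        have h3 : e * (g 0 0 * p + g 0 1 * q) = e * (ε * p) := by
          have hb : e * (g 0 1 * q) = g 0 1 * g 1 0 := by rw [hq]; ring
          have ha : e * (g 0 0 * p) = g 0 0 * x := by rw [hp]; ring
          have hr : e * (ε * p) = ε * x := by rw [hp]; ring
          rw [mul_add, ha, hb, hr]
          have : g 0 0 = x + ε := by rw [hx]; ring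
          rw [this]
          linarith
        exact mul_left_cancel₀ he0 h3
      · have h3 : e * (g 1 0 * p + g 1 1 * q) = e * (ε * q) := by
          have hb : e * (g 1 1 * q) = g 1 1 * g 1 0 := by rw [hq]; ring
          have ha : e * (g 1 0 * p) = g 1 0 * x := by rw [hp]; ring
          have hr : e * (ε * q) = ε * g 1 0 := by rw [hq]; ring
          rw [mul_add, ha, hb, hr]
          have hd : g 1 1 = ε - x := by rw [hx]; linarith
          rw [hd]
          ring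
        exact mul_left_cancel₀ he0 h3
  obtain ⟨h, hh⟩ := key
  obtain ⟨n, hn⟩ := ModularGroup.exists_eq_T_zpow_of_c_eq_zero hh
  refine ⟨h, n, fun τ => ?_⟩
  rw [← hn τ, ← mul_smul, ← mul_smul]
  congr 1
  group

end Fermat.Agent.S30.H810

end
end
-- ===== PACK-END S30/H810/Classify.lean

-- ===== PACK-BEGIN S21/Section.lean
section


/-!
# S21, piece MS-B: a section `φt : SL(2,ℤ) → ℝ` of a parabolic homomorphism

Pure group theory: for a parabolic homomorphism `φ : Γ₀(N) → ℝ` there is a function `φt` on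
`SL(2,ℤ)` which is right-`Γ₀(N)`-equivariant (with cocycle `φ`), left-`T`-invariant and even.
-/

set_option autoImplicit false

open CongruenceSubgroup
open scoped MatrixGroups

namespace Fermat.Agent.S21

/-- The double coset relation of `⟨T⟩ \ SL(2,ℤ) / Γ₀(N)`. -/
def sectionRel (N : ℕ) (g g' : SL(2, ℤ)) : Prop :=
  ∃ (n : ℤ) (γ : Gamma0 N), g' = ModularGroup.T ^ n * g * (γ : SL(2, ℤ))

theorem sectionRel_refl (N : ℕ) (g : SL(2, ℤ)) : sectionRel N g g :=
  ⟨0, 1, by simp⟩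

theorem sectionRel_symm {N : ℕ} {g g' : SL(2, ℤ)} (h : sectionRel N g g') :
    sectionRel N g' g := by
  obtain ⟨n, γ, rfl⟩ := h
  refine ⟨-n, γ⁻¹, ?_⟩
  simp only [Subgroup.coe_inv, zpow_neg]
  group

theorem sectionRel_trans {N : ℕ} {g g' g'' : SL(2, ℤ)} (h : sectionRel N g g')
    (h' : sectionRel N g' g'') : sectionRel N g g'' := by
  obtain ⟨n, γ, rfl⟩ := h
  obtain ⟨m, γ', rfl⟩ := h'
  refine ⟨m + n, γ * γ', ?_⟩
  simp only [Subgroup.coe_mul, zpow_add]
  group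

/-- The setoid of double cosets `⟨T⟩ \ SL(2,ℤ) / Γ₀(N)`. -/
def sectionSetoid (N : ℕ) : Setoid SL(2, ℤ) where
  r := sectionRel N
  iseqv := ⟨sectionRel_refl N, sectionRel_symm, sectionRel_trans⟩

/-- The chosen representative of the double coset of `g`. -/
noncomputable def sectionRep (N : ℕ) (g : SL(2, ℤ)) : SL(2, ℤ) :=
  @Quotient.out _ (sectionSetoid N) (@Quotient.mk _ (sectionSetoid N) g)

theorem sectionRep_rel (N : ℕ) (g : SL(2, ℤ)) : sectionRel N (sectionRep N g) g :=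
  @Quotient.exact _ (sectionSetoid N) _ _ (@Quotient.out_eq _ (sectionSetoid N) _)

theorem sectionRep_eq_of_rel {N : ℕ} {g g' : SL(2, ℤ)} (h : sectionRel N g g') :
    sectionRep N g = sectionRep N g' := by
  unfold sectionRep
  rw [@Quotient.sound _ (sectionSetoid N) g g' h]

/-- The trace of a conjugate of a power of `T` is `2`. -/
theorem section_trace_conj_T_zpow (r : SL(2, ℤ)) (k : ℤ) :
    ((r⁻¹ * ModularGroup.T ^ k * r : SL(2, ℤ)) : Matrix (Fin 2) (Fin 2) ℤ).trace = 2 := by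
  have h1 : ((r⁻¹ * ModularGroup.T ^ k * r : SL(2, ℤ)) : Matrix (Fin 2) (Fin 2) ℤ)
      = (r⁻¹ : SL(2, ℤ)).1 * (ModularGroup.T ^ k : SL(2, ℤ)).1 * r.1 := by
    simp [Matrix.SpecialLinearGroup.coe_mul]
  rw [h1, Matrix.trace_mul_cycle]
  have h2 : r.1 * (r⁻¹ : SL(2, ℤ)).1 = 1 := by
    rw [← Matrix.SpecialLinearGroup.coe_mul, mul_inv_cancel, Matrix.SpecialLinearGroup.coe_one]
  rw [h2, one_mul]
  show (↑(ModularGroup.T ^ k) : Matrix (Fin 2) (Fin 2) ℤ).trace = 2
  rw [ModularGroup.coe_T_zpow, Matrix.trace_fin_two_of]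
  norm_num

/-- Well-definedness of the section: two decompositions with the same representative
give the same `φ`-value. -/
theorem section_wd (N : ℕ) (φ : Additive (Gamma0 N) →+ ℝ)
    (hφ : ModularCurve.Period.IsParabolicHom (Gamma0 N) φ) (r : SL(2, ℤ)) (n m : ℤ)
    (γ γ' : Gamma0 N)
    (h : ModularGroup.T ^ n * r * (γ : SL(2, ℤ)) = ModularGroup.T ^ m * r * (γ' : SL(2, ℤ))) :
    φ (Additive.ofMul γ) = φ (Additive.ofMul γ') := by
  -- γ' * γ⁻¹ = r⁻¹ * T ^ (n - m) * r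
  have key : ((γ' * γ⁻¹ : Gamma0 N) : SL(2, ℤ)) = r⁻¹ * ModularGroup.T ^ (n - m) * r := by
    have h' : (γ' : SL(2, ℤ)) = (ModularGroup.T ^ m * r)⁻¹
        * (ModularGroup.T ^ n * r * (γ : SL(2, ℤ))) := by
      rw [h]; group
    rw [Subgroup.coe_mul, Subgroup.coe_inv, h', zpow_sub]
    group
  have htr : (((γ' * γ⁻¹ : Gamma0 N) : SL(2, ℤ)) : Matrix (Fin 2) (Fin 2) ℤ).trace ^ 2 = 4 := by
    rw [key, section_trace_conj_T_zpow]; norm_num
  have h0 := hφ (γ' * γ⁻¹) htr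
  have h1 : φ (Additive.ofMul (γ' * γ⁻¹)) = φ (Additive.ofMul γ') - φ (Additive.ofMul γ) := by
    rw [ofMul_mul, ofMul_inv, map_add, map_neg, sub_eq_add_neg]
  rw [h1] at h0
  linarith

/-- The section value: `φ γ` for any decomposition `g = T ^ n * rep g * γ`. -/
noncomputable def sectionVal (N : ℕ) (φ : Additive (Gamma0 N) →+ ℝ) (g : SL(2, ℤ)) : ℝ :=
  φ (Additive.ofMul (sectionRep_rel N g).choose_spec.choose)

theorem sectionVal_spec (N : ℕ) (g : SL(2, ℤ)) :
    g = ModularGroup.T ^ (sectionRep_rel N g).choose * sectionRep N g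
      * (((sectionRep_rel N g).choose_spec.choose : Gamma0 N) : SL(2, ℤ)) :=
  (sectionRep_rel N g).choose_spec.choose_spec

theorem sectionVal_eq (N : ℕ) (φ : Additive (Gamma0 N) →+ ℝ)
    (hφ : ModularCurve.Period.IsParabolicHom (Gamma0 N) φ) (g : SL(2, ℤ)) (n : ℤ)
    (γ : Gamma0 N) (h : g = ModularGroup.T ^ n * sectionRep N g * (γ : SL(2, ℤ))) :
    sectionVal N φ g = φ (Additive.ofMul γ) := by
  unfold sectionVal
  refine section_wd N φ hφ (sectionRep N g) (sectionRep_rel N g).choose n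
    (sectionRep_rel N g).choose_spec.choose γ ?_
  rw [← sectionVal_spec N g, ← h]

/-- **MS-B**: a section of a parabolic homomorphism on `SL(2,ℤ)`. -/
theorem exists_section (N : ℕ) [NeZero N] (φ : Additive (Gamma0 N) →+ ℝ)
    (hφ : ModularCurve.Period.IsParabolicHom (Gamma0 N) φ) :
    ∃ φt : SL(2, ℤ) → ℝ,
      (∀ (g : SL(2, ℤ)) (γ : Gamma0 N),
          φt (g * (γ : SL(2, ℤ))) = φt g + φ (Additive.ofMul γ)) ∧
      (∀ g : SL(2, ℤ), φt (ModularGroup.T * g) = φt g) ∧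
      (∀ g : SL(2, ℤ), φt (-g) = φt g) := by
  have hmul : ∀ (g : SL(2, ℤ)) (γ : Gamma0 N),
      sectionVal N φ (g * (γ : SL(2, ℤ))) = sectionVal N φ g + φ (Additive.ofMul γ) := by
    intro g γ
    have hrel : sectionRel N g (g * (γ : SL(2, ℤ))) := ⟨0, γ, by simp⟩
    have hrep : sectionRep N g = sectionRep N (g * (γ : SL(2, ℤ))) := sectionRep_eq_of_rel hrel
    set n := (sectionRep_rel N g).choose
    set γ₀ := (sectionRep_rel N g).choose_spec.choose
    have hg : g = ModularGroup.T ^ n * sectionRep N g * ((γ₀ : Gamma0 N) : SL(2, ℤ)) :=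
      sectionVal_spec N g
    have h1 : g * (γ : SL(2, ℤ)) = ModularGroup.T ^ n * sectionRep N (g * (γ : SL(2, ℤ)))
        * (((γ₀ * γ : Gamma0 N)) : SL(2, ℤ)) := by
      rw [← hrep, Subgroup.coe_mul, ← mul_assoc, ← hg]
    rw [sectionVal_eq N φ hφ _ n (γ₀ * γ) h1, ofMul_mul, map_add]
    rfl
  refine ⟨sectionVal N φ, hmul, ?_, ?_⟩
  · intro g
    have hrel : sectionRel N g (ModularGroup.T * g) := ⟨1, 1, by simp⟩
    have hrep : sectionRep N g = sectionRep N (ModularGroup.T * g) := sectionRep_eq_of_rel hrel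
    set n := (sectionRep_rel N g).choose
    set γ₀ := (sectionRep_rel N g).choose_spec.choose
    have hg : g = ModularGroup.T ^ n * sectionRep N g * ((γ₀ : Gamma0 N) : SL(2, ℤ)) :=
      sectionVal_spec N g
    have h1 : ModularGroup.T * g = ModularGroup.T ^ (1 + n) * sectionRep N (ModularGroup.T * g)
        * ((γ₀ : Gamma0 N) : SL(2, ℤ)) := by
      rw [← hrep, zpow_add, zpow_one, mul_assoc, mul_assoc, ← mul_assoc (ModularGroup.T ^ n),
        ← hg]
    rw [sectionVal_eq N φ hφ _ (1 + n) γ₀ h1]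
    rfl
  · intro g
    have hneg : (-1 : SL(2, ℤ)) ∈ Gamma0 N := by
      rw [Gamma0_mem]
      simp
    have h := hmul g ⟨-1, hneg⟩
    have h2 : g * ((⟨-1, hneg⟩ : Gamma0 N) : SL(2, ℤ)) = -g := by
      simp
    rw [h2] at h
    rw [h]
    have htr : ((((⟨-1, hneg⟩ : Gamma0 N)) : SL(2, ℤ)) : Matrix (Fin 2) (Fin 2) ℤ).trace ^ 2
        = 4 := by
      simp
    rw [hφ ⟨-1, hneg⟩ htr, add_zero]

end Fermat.Agent.S21

end
-- ===== PACK-END S21/Section.lean

-- ===== PACK-BEGIN S21/AbstractDirichlet.lean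
section



/-!
# Abstract Dirichlet principle (S21, piece MS-E)

For a vector `a` and a subspace `V` of a real inner product space `H` (no completeness
assumed), a minimizing sequence `v n ∈ V` for `‖a + v‖ ^ 2` is Cauchy and `a + v n` is
asymptotically orthogonal to `V`.
-/

namespace Fermat.Agent.S21

theorem abstract_dirichlet {H : Type*} [NormedAddCommGroup H] [InnerProductSpace ℝ H]
    (a : H) (V : Submodule ℝ H) :
    ∃ v : ℕ → H, (∀ n, v n ∈ V) ∧
      (∀ ε > 0, ∃ M, ∀ m ≥ M, ∀ n ≥ M, ‖v n - v m‖ ^ 2 < ε) ∧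
      (∀ w ∈ V, Filter.Tendsto (fun n => inner ℝ (a + v n) w) Filter.atTop (nhds 0)) ∧
      (∀ n, ‖a + v n‖ ^ 2 ≤ ‖a‖ ^ 2 + 1) := by
  classical
  set S : Set ℝ := {r | ∃ v ∈ V, r = ‖a + v‖ ^ 2} with hS
  have hSne : S.Nonempty := ⟨‖a + 0‖ ^ 2, 0, V.zero_mem, rfl⟩
  have hSbdd : BddBelow S := ⟨0, by
    rintro r ⟨v, -, rfl⟩
    positivity⟩
  set m : ℝ := sInf S with hm
  have hm_le : ∀ v ∈ V, m ≤ ‖a + v‖ ^ 2 := fun v hv => csInf_le hSbdd ⟨v, hv, rfl⟩
  have hm_le_a : m ≤ ‖a‖ ^ 2 := by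
    have := hm_le 0 V.zero_mem
    simpa using this
  have hex : ∀ n : ℕ, ∃ v ∈ V, ‖a + v‖ ^ 2 < m + 1 / ((n : ℝ) + 1) := by
    intro n
    have hpos : (0 : ℝ) < 1 / ((n : ℝ) + 1) := by positivity
    obtain ⟨r, ⟨v, hv, rfl⟩, hr⟩ := Real.lt_sInf_add_pos hSne hpos
    exact ⟨v, hv, hr⟩
  choose v hvV hvlt using hex
  have hone : ∀ n : ℕ, 1 / ((n : ℝ) + 1) ≤ 1 := by
    intro n
    have h1 : (1 : ℝ) ≤ (n : ℝ) + 1 := by
      have : (0 : ℝ) ≤ n := Nat.cast_nonneg n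
      linarith
    exact (div_le_one (by positivity)).2 h1
  -- parallelogram estimate
  have hpar : ∀ n k : ℕ, ‖v n - v k‖ ^ 2 ≤ 2 / ((n : ℝ) + 1) + 2 / ((k : ℝ) + 1) := by
    intro n k
    have h1 := parallelogram_law_with_norm ℝ (a + v n) (a + v k)
    have hmid : m ≤ ‖a + (1 / 2 : ℝ) • (v n + v k)‖ ^ 2 :=
      hm_le _ (V.smul_mem _ (V.add_mem (hvV n) (hvV k)))
    have hsum : (a + v n) + (a + v k) = (2 : ℝ) • (a + (1 / 2 : ℝ) • (v n + v k)) := by
      rw [smul_add, smul_smul]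
      norm_num
      rw [two_smul]
      abel
    have hdiff : (a + v n) - (a + v k) = v n - v k := by abel
    rw [hsum, hdiff, norm_smul] at h1
    have h2 : ‖(2 : ℝ)‖ = 2 := by norm_num
    rw [h2] at h1
    have hn := hvlt n
    have hk := hvlt k
    have e1 : 2 / ((n : ℝ) + 1) = 2 * (1 / ((n : ℝ) + 1)) := by ring
    have e2 : 2 / ((k : ℝ) + 1) = 2 * (1 / ((k : ℝ) + 1)) := by ring
    rw [e1, e2]
    nlinarith [h1, hmid, hn, hk]
  -- near orthogonality
  have horth : ∀ (n : ℕ) (w : H), w ∈ V →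
      (inner ℝ (a + v n) w) ^ 2 ≤ ‖w‖ ^ 2 * (1 / ((n : ℝ) + 1)) := by
    intro n w hw
    set c : ℝ := inner ℝ (a + v n) w with hc
    by_cases hW : ‖w‖ ^ 2 = 0
    · have hw0 : w = 0 := by
        have : ‖w‖ = 0 := by simpa using hW
        exact norm_eq_zero.1 this
      have : c = 0 := by rw [hc, hw0, inner_zero_right]
      rw [this, hW]
      simp
    · have hWpos : 0 < ‖w‖ ^ 2 := lt_of_le_of_ne (by positivity) (Ne.symm hW)
      set t : ℝ := -c / ‖w‖ ^ 2 with ht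
      have hmem : v n + t • w ∈ V := V.add_mem (hvV n) (V.smul_mem _ hw)
      have h1 := hm_le _ hmem
      have hexp : ‖a + (v n + t • w)‖ ^ 2 = ‖a + v n‖ ^ 2 + 2 * t * c + t ^ 2 * ‖w‖ ^ 2 := by
        rw [← add_assoc, norm_add_sq_real, real_inner_smul_right, norm_smul, mul_pow]
        simp only [Real.norm_eq_abs, sq_abs]
        rw [hc]
        ring
      rw [hexp] at h1
      have hn := hvlt n
      have hWne : ‖w‖ ^ 2 ≠ 0 := hW
      have key : 2 * t * c + t ^ 2 * ‖w‖ ^ 2 = -(c ^ 2) / ‖w‖ ^ 2 := by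
        rw [ht]
        generalize ‖w‖ ^ 2 = W at hWne
        field_simp
        ring
      have h3 : 0 ≤ 1 / ((n : ℝ) + 1) + -(c ^ 2) / ‖w‖ ^ 2 := by
        rw [← key]; linarith
      have h4 : c ^ 2 / ‖w‖ ^ 2 ≤ 1 / ((n : ℝ) + 1) := by
        have : -(c ^ 2) / ‖w‖ ^ 2 = -(c ^ 2 / ‖w‖ ^ 2) := by ring
        rw [this] at h3
        linarith
      rw [div_le_iff₀ hWpos] at h4
      linarith
  refine ⟨v, hvV, ?_, ?_, ?_⟩
  · intro ε hε
    obtain ⟨M, hM⟩ := exists_nat_gt (4 / ε)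
    refine ⟨M, fun k hk n hn => ?_⟩
    have hMpos : (0 : ℝ) < (M : ℝ) + 1 := by positivity
    have hb : ∀ j : ℕ, j ≥ M → 2 / ((j : ℝ) + 1) < ε / 2 := by
      intro j hj
      have hj' : (M : ℝ) ≤ j := by exact_mod_cast hj
      have hjpos : (0 : ℝ) < (j : ℝ) + 1 := by positivity
      rw [div_lt_iff₀ hjpos]
      have h4 : 4 / ε < (j : ℝ) + 1 := by linarith
      rw [div_lt_iff₀ hε] at h4
      linarith
    calc ‖v n - v k‖ ^ 2 ≤ 2 / ((n : ℝ) + 1) + 2 / ((k : ℝ) + 1) := hpar n k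
      _ < ε / 2 + ε / 2 := add_lt_add (hb n hn) (hb k hk)
      _ = ε := by ring
  · intro w hw
    have hlim : Filter.Tendsto (fun n : ℕ => ‖w‖ ^ 2 * (1 / ((n : ℝ) + 1)))
        Filter.atTop (nhds 0) := by
      have := (tendsto_one_div_add_atTop_nhds_zero_nat (𝕜 := ℝ)).const_mul (‖w‖ ^ 2)
      simpa using this
    have hsq : Filter.Tendsto (fun n : ℕ => (inner ℝ (a + v n) w) ^ 2)
        Filter.atTop (nhds 0) :=
      squeeze_zero (fun n => sq_nonneg _) (fun n => horth n w hw) hlim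
    have habs : Filter.Tendsto (fun n : ℕ => |inner ℝ (a + v n) w|)
        Filter.atTop (nhds 0) := by
      have h := hsq.sqrt
      simpa [Real.sqrt_sq_eq_abs] using h
    exact (tendsto_zero_iff_abs_tendsto_zero _).2 habs
  · intro n
    have := hvlt n
    have := hone n
    linarith

end Fermat.Agent.S21
end
-- ===== PACK-END S21/AbstractDirichlet.lean

-- ===== PACK-BEGIN S29/H201/Eigen.lean
section







/-!
# S29 / P5-E2 (helper201) — a normalized eigenform (Prelude sense: multiplicative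
`q`-coefficients) is an eigenvector of `T_p`, `p ∤ N`, with eigenvalue `a_p`.
-/

set_option autoImplicit false

open CongruenceSubgroup UpperHalfPlane
open scoped MatrixGroups

namespace Fermat.Agent.S29.H201

variable {N : ℕ} {p : ℕ}

theorem periodic_cuspForm (f : CuspForm (Gamma0 N) 2) :
    Function.Periodic ((f : ℍ → ℂ) ∘ UpperHalfPlane.ofComplex) 1 := by
  have h := SlashInvariantFormClass.periodic_comp_ofComplex f
    (CongruenceSubgroup.one_mem_strictPeriods_Gamma0 N)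
  exact_mod_cast h

theorem bdd_cuspForm (f : CuspForm (Gamma0 N) 2) :
    UpperHalfPlane.IsBoundedAtImInfty (f : ℍ → ℂ) :=
  haveI : Fact (IsCusp OnePoint.infty
      (Subgroup.map (Matrix.SpecialLinearGroup.mapGL ℝ) (Gamma0 N))) :=
    ⟨Subgroup.isCusp_of_mem_strictPeriods one_pos
      (CongruenceSubgroup.one_mem_strictPeriods_Gamma0 N)⟩
  ModularFormClass.bdd_at_infty f

theorem qCoeff_zero_cuspForm (f : CuspForm (Gamma0 N) 2) :
    ModularFormClass.qCoeff (f : ℍ → ℂ) 0 = 0 :=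
  CuspFormClass.qExpansion_coeff_zero f one_pos (CongruenceSubgroup.one_mem_strictPeriods_Gamma0 N)

theorem qCoeff_smul_cuspForm (c : ℂ) (f : CuspForm (Gamma0 N) 2) (n : ℕ) :
    ModularFormClass.qCoeff (c • (f : ℍ → ℂ)) n = c * ModularFormClass.qCoeff (f : ℍ → ℂ) n := by
  unfold ModularFormClass.qCoeff
  rw [qExpansion_smul (ModularFormClass.analyticAt_cuspFunction_zero f one_pos
    (CongruenceSubgroup.one_mem_strictPeriods_Gamma0 N))]
  simp

/-- The Hecke relation on `q`-coefficients of a normalized eigenform. -/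
theorem coeffHeckeT_eq_mul {g : CuspForm (Gamma0 N) 2}
    (hg : g.IsNormalizedEigenform) (hp : p.Prime) (hpN : ¬ p ∣ N) (n : ℕ) :
    ModularForm.coeffHeckeT 2 p (ModularFormClass.qCoeff g) n
      = ModularFormClass.qCoeff g p * ModularFormClass.qCoeff g n := by
  have hpow : ((p : ℂ) ^ ((2 : ℤ) - 1)) = p := by norm_num
  rcases Nat.eq_zero_or_pos n with rfl | hn
  · rw [ModularForm.coeffHeckeT_of_dvd 2 (dvd_zero p)]
    simp [qCoeff_zero_cuspForm g]
  obtain ⟨r, m, hm, rfl⟩ := Nat.exists_eq_pow_mul_and_not_dvd hn.ne' p hp.ne_one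
  have hcop : ∀ j : ℕ, (p ^ j).Coprime m := fun j =>
    Nat.Coprime.pow_left j ((Nat.Prime.coprime_iff_not_dvd hp).mpr hm)
  cases r with
  | zero =>
    rw [pow_zero, one_mul, ModularForm.coeffHeckeT_of_not_dvd 2 hm, mul_comm m p,
      hg.qCoeff_mul_of_coprime p m (by simpa using hcop 1)]
  | succ r =>
    have hdvd : p ∣ p ^ (r + 1) * m := Dvd.dvd.mul_right (dvd_pow_self p (Nat.succ_ne_zero r)) m
    rw [ModularForm.coeffHeckeT_of_dvd 2 hdvd, hpow]
    have h1 : p ^ (r + 1) * m * p = p ^ (r + 2) * m := by ring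
    have h2 : p ^ (r + 1) * m / p = p ^ r * m := by
      rw [pow_succ, mul_assoc, mul_comm p m, ← mul_assoc]
      exact Nat.mul_div_cancel _ hp.pos
    rw [h1, h2, hg.qCoeff_mul_of_coprime _ _ (hcop (r + 2)),
      hg.qCoeff_mul_of_coprime _ _ (hcop r), hg.qCoeff_mul_of_coprime _ _ (hcop (r + 1)),
      hg.qCoeff_prime_pow_of_not_dvd p r hp hpN]
    ring

/-- **E2b** -/
theorem heckeTLin_eq_smul_of_isNormalizedEigenform {g : CuspForm (Gamma0 N) 2}
    (hg : g.IsNormalizedEigenform) (hp : p.Prime) (hpN : ¬ p ∣ N) :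
    CuspForm.heckeTLin 2 hp hpN g = ModularFormClass.qCoeff g p • g := by
  apply DFunLike.coe_injective
  have hL := periodic_cuspForm (CuspForm.heckeTLin 2 hp hpN g)
  have hR := periodic_cuspForm (ModularFormClass.qCoeff g p • g)
  refine UpperHalfPlane.eq_of_forall_qCoeff_eq hL
    (CuspFormClass.holo (CuspForm.heckeTLin 2 hp hpN g))
    (bdd_cuspForm _) hR (CuspFormClass.holo (ModularFormClass.qCoeff g p • g))
    (bdd_cuspForm _) ?_
  intro n
  rw [CuspForm.coe_heckeTLin_apply,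
    UpperHalfPlane.qCoeff_heckeT (periodic_cuspForm g) (CuspFormClass.holo g) (bdd_cuspForm g) 2
      hp.ne_zero n, coeffHeckeT_eq_mul hg hp hpN n]
  have : (⇑(ModularFormClass.qCoeff (⇑g) p • g) : ℍ → ℂ)
      = ModularFormClass.qCoeff (⇑g) p • (g : ℍ → ℂ) := rfl
  rw [this, qCoeff_smul_cuspForm]

end Fermat.Agent.S29.H201

end
-- ===== PACK-END S29/H201/Eigen.lean

-- ===== PACK-BEGIN Lib/Newform/H803/Group.lean
section


/-!
# Group theory in `SL(2, ℤ)` for the Atkin–Lehner main lemma (helper803)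

* `GammaU N` : the subgroup `Γ⁰(N)` (upper right entry divisible by `N`);
* `tU x` : the translation `[[1, x], [0, 1]]`, `tL x` its transpose;
* `comm_mem_Gamma` : `Γ(a)` and `Γ(b)` commute modulo `Γ(N)` when `N ∣ a * b`;
* `exists_mul_of_coprime` : `SL(2, ℤ) = Γ(a) Γ(b)` for coprime `a`, `b`;
* `exists_tU_mul_mem_GammaU` : `Γ⁰(N/p) ⊆ ⟨T^{N/p}⟩ Γ⁰(N) ⟨T^{N/p}⟩`;
* `exists_mul_of_mem_GammaU` : `Γ⁰(N/p) ⊆ (Γ(m) ∩ Γ⁰(N/p)) (Γ(P) ∩ Γ⁰(N))` for `N = P m` coprime, `p ∣ P`.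
-/

set_option autoImplicit false

namespace Fermat.Agent.Lib.Newform.H803

open Matrix Matrix.SpecialLinearGroup CongruenceSubgroup
open scoped MatrixGroups

/-- Upper unipotent `[[1, x], [0, 1]]`. -/
def tU (x : ℤ) : SL(2, ℤ) := ⟨!![1, x; 0, 1], by simp [Matrix.det_fin_two]⟩

/-- Lower unipotent `[[1, 0], [x, 1]]`. -/
def tL (x : ℤ) : SL(2, ℤ) := ⟨!![1, 0; x, 1], by simp [Matrix.det_fin_two]⟩

@[simp] theorem tU_apply_00 (x : ℤ) : (tU x) 0 0 = 1 := rfl
@[simp] theorem tU_apply_01 (x : ℤ) : (tU x) 0 1 = x := rfl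
@[simp] theorem tU_apply_10 (x : ℤ) : (tU x) 1 0 = 0 := rfl
@[simp] theorem tU_apply_11 (x : ℤ) : (tU x) 1 1 = 1 := rfl
@[simp] theorem tL_apply_00 (x : ℤ) : (tL x) 0 0 = 1 := rfl
@[simp] theorem tL_apply_01 (x : ℤ) : (tL x) 0 1 = 0 := rfl
@[simp] theorem tL_apply_10 (x : ℤ) : (tL x) 1 0 = x := rfl
@[simp] theorem tL_apply_11 (x : ℤ) : (tL x) 1 1 = 1 := rfl

theorem sl2_ext {A B : SL(2, ℤ)} (h00 : A 0 0 = B 0 0) (h01 : A 0 1 = B 0 1)
    (h10 : A 1 0 = B 1 0) (h11 : A 1 1 = B 1 1) : A = B := by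
  ext i j
  fin_cases i <;> fin_cases j <;> assumption

theorem mul_apply_00 (A B : SL(2, ℤ)) : (A * B) 0 0 = A 0 0 * B 0 0 + A 0 1 * B 1 0 := by
  simp [Matrix.mul_apply, Fin.sum_univ_two]
theorem mul_apply_01 (A B : SL(2, ℤ)) : (A * B) 0 1 = A 0 0 * B 0 1 + A 0 1 * B 1 1 := by
  simp [Matrix.mul_apply, Fin.sum_univ_two]
theorem mul_apply_10 (A B : SL(2, ℤ)) : (A * B) 1 0 = A 1 0 * B 0 0 + A 1 1 * B 1 0 := by
  simp [Matrix.mul_apply, Fin.sum_univ_two]
theorem mul_apply_11 (A B : SL(2, ℤ)) : (A * B) 1 1 = A 1 0 * B 0 1 + A 1 1 * B 1 1 := by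
  simp [Matrix.mul_apply, Fin.sum_univ_two]

theorem inv_apply_00 (A : SL(2, ℤ)) : (A⁻¹) 0 0 = A 1 1 := by
  simp [Matrix.SpecialLinearGroup.SL2_inv_expl]
theorem inv_apply_01 (A : SL(2, ℤ)) : (A⁻¹) 0 1 = - A 0 1 := by
  simp [Matrix.SpecialLinearGroup.SL2_inv_expl]
theorem inv_apply_10 (A : SL(2, ℤ)) : (A⁻¹) 1 0 = - A 1 0 := by
  simp [Matrix.SpecialLinearGroup.SL2_inv_expl]
theorem inv_apply_11 (A : SL(2, ℤ)) : (A⁻¹) 1 1 = A 0 0 := by
  simp [Matrix.SpecialLinearGroup.SL2_inv_expl]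

theorem det_eq_one' (A : SL(2, ℤ)) : A 0 0 * A 1 1 - A 0 1 * A 1 0 = 1 := by
  have h := A.2
  rwa [Matrix.det_fin_two] at h

theorem tU_add (x y : ℤ) : tU (x + y) = tU x * tU y := by
  apply sl2_ext <;> simp [mul_apply_00, mul_apply_01, mul_apply_10, mul_apply_11, add_comm]

theorem tU_zero : tU 0 = 1 := by
  apply sl2_ext <;> simp

theorem tU_neg (x : ℤ) : tU (-x) = (tU x)⁻¹ := by
  apply sl2_ext <;> simp [inv_apply_00, inv_apply_01, inv_apply_10, inv_apply_11]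

theorem tL_add (x y : ℤ) : tL (x + y) = tL x * tL y := by
  apply sl2_ext <;> simp [mul_apply_00, mul_apply_01, mul_apply_10, mul_apply_11]

theorem tU_eq_T_zpow (x : ℤ) : tU x = ModularGroup.T ^ x := by
  apply Subtype.ext
  rw [ModularGroup.coe_T_zpow]
  rfl

/-- `Γ⁰(N)`: the subgroup of matrices with upper right entry divisible by `N`. -/
def GammaU (N : ℕ) : Subgroup SL(2, ℤ) where
  carrier := { g | (N : ℤ) ∣ g 0 1 }
  one_mem' := by simp
  mul_mem' {a} {b} ha hb := by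
    simp only [Set.mem_ofPred_eq] at *
    rw [mul_apply_01]
    exact dvd_add (Dvd.dvd.mul_left hb _) (Dvd.dvd.mul_right ha _)
  inv_mem' {a} ha := by
    simp only [Set.mem_ofPred_eq] at *
    rw [inv_apply_01]
    exact (dvd_neg).mpr ha

@[simp] theorem mem_GammaU {N : ℕ} {g : SL(2, ℤ)} : g ∈ GammaU N ↔ (N : ℤ) ∣ g 0 1 := Iff.rfl

theorem GammaU_mono {M N : ℕ} (h : M ∣ N) : GammaU N ≤ GammaU M := by
  intro g hg
  rw [mem_GammaU] at *
  exact dvd_trans (Int.natCast_dvd_natCast.mpr h) hg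

theorem mem_Gamma_iff_dvd {N : ℕ} {g : SL(2, ℤ)} :
    g ∈ Gamma N ↔ (N : ℤ) ∣ g 0 0 - 1 ∧ (N : ℤ) ∣ g 0 1 ∧ (N : ℤ) ∣ g 1 0 ∧ (N : ℤ) ∣ g 1 1 - 1 := by
  rw [Gamma_mem]
  simp only [ZMod.intCast_zmod_eq_zero_iff_dvd]
  have h1 : ∀ x : ℤ, ((x : ZMod N) = 1 ↔ (N : ℤ) ∣ x - 1) := by
    intro x
    rw [← ZMod.intCast_zmod_eq_zero_iff_dvd]
    push_cast
    rw [sub_eq_zero]
  rw [h1, h1]

theorem Gamma_le_GammaU (N : ℕ) : Gamma N ≤ GammaU N := by
  intro g hg
  rw [mem_Gamma_iff_dvd] at hg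
  exact hg.2.1

theorem Gamma_mono {M N : ℕ} (h : M ∣ N) : Gamma N ≤ Gamma M := by
  intro g hg
  rw [mem_Gamma_iff_dvd] at *
  have h' : (M : ℤ) ∣ (N : ℤ) := Int.natCast_dvd_natCast.mpr h
  exact ⟨dvd_trans h' hg.1, dvd_trans h' hg.2.1, dvd_trans h' hg.2.2.1, dvd_trans h' hg.2.2.2⟩

theorem tU_mem_Gamma {N : ℕ} {x : ℤ} (h : (N : ℤ) ∣ x) : tU x ∈ Gamma N := by
  rw [mem_Gamma_iff_dvd]
  simp [h]

theorem tL_mem_Gamma {N : ℕ} {x : ℤ} (h : (N : ℤ) ∣ x) : tL x ∈ Gamma N := by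
  rw [mem_Gamma_iff_dvd]
  simp [h]

theorem tU_mem_GammaU {N : ℕ} {x : ℤ} (h : (N : ℤ) ∣ x) : tU x ∈ GammaU N := by
  rw [mem_GammaU]; simpa using h

/-- `g * h⁻¹ ∈ Γ(N)` iff `g` and `h` are entrywise congruent modulo `N`. -/
theorem mul_inv_mem_Gamma_iff {N : ℕ} {g h : SL(2, ℤ)} :
    g * h⁻¹ ∈ Gamma N ↔ (N : ℤ) ∣ g 0 0 - h 0 0 ∧ (N : ℤ) ∣ g 0 1 - h 0 1 ∧
      (N : ℤ) ∣ g 1 0 - h 1 0 ∧ (N : ℤ) ∣ g 1 1 - h 1 1 := by
  have key : g * h⁻¹ ∈ Gamma N ↔
      (Matrix.SpecialLinearGroup.map (Int.castRingHom (ZMod N))) g =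
      (Matrix.SpecialLinearGroup.map (Int.castRingHom (ZMod N))) h := by
    rw [Gamma_mem', map_mul, map_inv, mul_inv_eq_one]
  rw [key]
  constructor
  · intro H
    have e : ∀ i j : Fin 2, ((g i j : ℤ) : ZMod N) = ((h i j : ℤ) : ZMod N) := by
      intro i j
      have := congrArg (fun A : SL(2, ZMod N) => A i j) H
      simpa using this
    have d : ∀ i j : Fin 2, (N : ℤ) ∣ g i j - h i j := by
      intro i j
      rw [← ZMod.intCast_zmod_eq_zero_iff_dvd]
      push_cast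
      rw [sub_eq_zero]
      exact e i j
    exact ⟨d 0 0, d 0 1, d 1 0, d 1 1⟩
  · rintro ⟨h00, h01, h10, h11⟩
    have e : ∀ a b : ℤ, (N : ℤ) ∣ a - b → ((a : ℤ) : ZMod N) = ((b : ℤ) : ZMod N) := by
      intro a b hab
      rw [← sub_eq_zero, ← Int.cast_sub, ZMod.intCast_zmod_eq_zero_iff_dvd]
      exact hab
    ext i j
    fin_cases i <;> fin_cases j
    · simpa using e _ _ h00
    · simpa using e _ _ h01
    · simpa using e _ _ h10
    · simpa using e _ _ h11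

/-- (G1) `Γ(a)` and `Γ(b)` commute modulo `Γ(N)` when `N ∣ a * b`. -/
theorem comm_mem_Gamma {N a b : ℕ} (hN : N ∣ a * b) {g h : SL(2, ℤ)}
    (hg : g ∈ Gamma a) (hh : h ∈ Gamma b) : (g * h) * (h * g)⁻¹ ∈ Gamma N := by
  rw [mul_inv_mem_Gamma_iff]
  rw [mem_Gamma_iff_dvd] at hg hh
  obtain ⟨⟨x, hx⟩, ⟨y, hy⟩, ⟨z, hz⟩, ⟨w, hw⟩⟩ := hg
  obtain ⟨⟨x', hx'⟩, ⟨y', hy'⟩, ⟨z', hz'⟩, ⟨w', hw'⟩⟩ := hh
  have hN' : (N : ℤ) ∣ (a : ℤ) * (b : ℤ) := by exact_mod_cast Int.natCast_dvd_natCast.mpr hN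
  have e00 : g 0 0 = 1 + a * x := by linarith
  have e11 : g 1 1 = 1 + a * w := by linarith
  have e00' : h 0 0 = 1 + b * x' := by linarith
  have e11' : h 1 1 = 1 + b * w' := by linarith
  simp only [mul_apply_00, mul_apply_01, mul_apply_10, mul_apply_11]
  rw [e00, e11, e00', e11', hy, hz, hy', hz']
  refine ⟨?_, ?_, ?_, ?_⟩
  · refine dvd_trans hN' ⟨y * z' - y' * z, by ring⟩
  · refine dvd_trans hN' ⟨x * y' + y * w' - x' * y - y' * w, by ring⟩
  · refine dvd_trans hN' ⟨z * x' + w * z' - z' * x - w' * z, by ring⟩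
  · refine dvd_trans hN' ⟨z * y' - z' * y, by ring⟩

/-- (Fact) `SL(2, ℤ) = Γ(a) ⊔ Γ(b)` for coprime `a`, `b`. -/
theorem Gamma_sup_Gamma_eq_top {a b : ℕ} (hab : Nat.Coprime a b) : Gamma a ⊔ Gamma b = ⊤ := by
  -- Bezout: every integer is `a x + b y`
  have bez : ∀ n : ℤ, ∃ x y : ℤ, n = a * x + b * y := by
    intro n
    have h : IsCoprime (a : ℤ) (b : ℤ) := Nat.isCoprime_iff_coprime.mpr hab
    obtain ⟨u, v, huv⟩ := h
    exact ⟨n * u, n * v, by linear_combination (-n) * huv⟩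
  have hU : ∀ n : ℤ, tU n ∈ Gamma a ⊔ Gamma b := by
    intro n
    obtain ⟨x, y, rfl⟩ := bez n
    rw [tU_add]
    exact Subgroup.mul_mem _
      (Subgroup.mem_sup_left (tU_mem_Gamma (Dvd.intro _ rfl)))
      (Subgroup.mem_sup_right (tU_mem_Gamma (Dvd.intro _ rfl)))
  have hL : ∀ n : ℤ, tL n ∈ Gamma a ⊔ Gamma b := by
    intro n
    obtain ⟨x, y, rfl⟩ := bez n
    rw [tL_add]
    exact Subgroup.mul_mem _
      (Subgroup.mem_sup_left (tL_mem_Gamma (Dvd.intro _ rfl)))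
      (Subgroup.mem_sup_right (tL_mem_Gamma (Dvd.intro _ rfl)))
  have hT : ModularGroup.T ∈ Gamma a ⊔ Gamma b := by
    have := hU 1
    rwa [tU_eq_T_zpow, zpow_one] at this
  have hS : ModularGroup.S ∈ Gamma a ⊔ Gamma b := by
    have e : ModularGroup.S = tU (-1) * tL 1 * tU (-1) := by
      apply sl2_ext <;>
        simp [mul_apply_00, mul_apply_01, mul_apply_10, mul_apply_11, ModularGroup.S]
    rw [e]
    exact Subgroup.mul_mem _ (Subgroup.mul_mem _ (hU _) (hL _)) (hU _)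
  rw [eq_top_iff, ← SpecialLinearGroup.SL2Z_generators, Subgroup.closure_le]
  rintro g (rfl | rfl)
  · exact hS
  · exact hT

/-- (Fact), factorisation form. -/
theorem exists_mul_of_coprime {a b : ℕ} (hab : Nat.Coprime a b) (g : SL(2, ℤ)) :
    ∃ g₁ ∈ Gamma a, ∃ g₂ ∈ Gamma b, g = g₁ * g₂ := by
  have hg : g ∈ Gamma a ⊔ Gamma b := by rw [Gamma_sup_Gamma_eq_top hab]; trivial
  have hn : (Gamma b).Normal := Gamma_normal b
  rw [Subgroup.mem_sup_of_normal_right] at hg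
  obtain ⟨y, hy, z, hz, rfl⟩ := hg
  exact ⟨y, hy, z, hz, rfl⟩

/-- (G2), first case: if `p ∤ g 1 1` a left translation brings `g ∈ Γ⁰(d)` into `Γ⁰(p d)`. -/
theorem exists_tU_mul_mem_GammaU_aux {p d : ℕ} (hp : p.Prime) {g : SL(2, ℤ)}
    (hg : g ∈ GammaU d) (h11 : ¬ (p : ℤ) ∣ g 1 1) :
    ∃ i : ℤ, tU (i * d) * g ∈ GammaU (p * d) := by
  rw [mem_GammaU] at hg
  obtain ⟨b₀, hb₀⟩ := hg
  have hcop : IsCoprime (g 1 1) (p : ℤ) :=
    ((Nat.prime_iff_prime_int.mp hp).coprime_iff_not_dvd.mpr h11).symm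
  obtain ⟨u, v, huv⟩ := hcop
  refine ⟨-b₀ * u, ?_⟩
  rw [mem_GammaU, mul_apply_01]
  simp only [tU_apply_00, tU_apply_01, one_mul]
  rw [hb₀]
  refine ⟨b₀ * v, ?_⟩
  push_cast
  linear_combination (-(d : ℤ) * b₀) * huv

/-- (G2) `Γ⁰(N/p) ⊆ ⟨T^{N/p}⟩ Γ⁰(N) ⟨T^{N/p}⟩`. -/
theorem exists_tU_mul_mem_GammaU {p d : ℕ} (hp : p.Prime) {g : SL(2, ℤ)}
    (hg : g ∈ GammaU d) :
    ∃ i j : ℤ, tU (i * d) * g * tU (j * d) ∈ GammaU (p * d) := by
  by_cases h11 : (p : ℤ) ∣ g 1 1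
  · -- replace `g` by `g * tU d`
    have hg' : g * tU (1 * d) ∈ GammaU d :=
      Subgroup.mul_mem _ hg (tU_mem_GammaU (Dvd.intro_left _ rfl))
    have hdet := det_eq_one' g
    have hpP : Prime (p : ℤ) := Nat.prime_iff_prime_int.mp hp
    have hb : ¬ (p : ℤ) ∣ g 0 1 * g 1 0 := by
      intro hb
      have : (p : ℤ) ∣ 1 := by
        rw [← hdet]
        exact dvd_sub (Dvd.dvd.mul_left h11 _) hb
      exact hpP.not_dvd_one this
    have hc : ¬ (p : ℤ) ∣ g 1 0 := fun h => hb (Dvd.dvd.mul_left h _)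
    have hb' : ¬ (p : ℤ) ∣ g 0 1 := fun h => hb (Dvd.dvd.mul_right h _)
    have hd : ¬ (p : ℤ) ∣ (d : ℤ) := by
      intro hd
      rw [mem_GammaU] at hg
      exact hb' (dvd_trans hd hg)
    have h11' : ¬ (p : ℤ) ∣ (g * tU (1 * d)) 1 1 := by
      rw [mul_apply_11]
      simp only [tU_apply_01, tU_apply_11, one_mul, mul_one]
      intro h
      have h2 : (p : ℤ) ∣ g 1 0 * d := by
        have := dvd_sub h h11
        simpa using this
      rcases hpP.dvd_or_dvd h2 with h3 | h3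
      · exact hc h3
      · exact hd h3
    obtain ⟨i, hi⟩ := exists_tU_mul_mem_GammaU_aux hp hg' h11'
    exact ⟨i, 1, by rwa [← mul_assoc] at hi⟩
  · obtain ⟨i, hi⟩ := exists_tU_mul_mem_GammaU_aux hp hg h11
    refine ⟨i, 0, ?_⟩
    rw [zero_mul, tU_zero, mul_one]
    exact hi

/-- (G3) local factorisation of `Γ⁰(D)`, `m ∣ D ∣ P m`, `P` and `m` coprime. -/
theorem exists_mul_of_mem_GammaU {P m D : ℕ} (hPm : Nat.Coprime P m) (hmD : m ∣ D)
    (hDN : D ∣ P * m) {g : SL(2, ℤ)} (hg : g ∈ GammaU D) :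
    ∃ g₁ ∈ Gamma m ⊓ GammaU D, ∃ g₂ ∈ Gamma P ⊓ GammaU (P * m), g = g₁ * g₂ := by
  obtain ⟨g₁, hg₁, g₂, hg₂, rfl⟩ := exists_mul_of_coprime hPm.symm g
  have h₁ := mem_Gamma_iff_dvd.mp hg₁
  have h₂ := mem_Gamma_iff_dvd.mp hg₂
  rw [mem_GammaU, mul_apply_01] at hg
  have hmD' : (m : ℤ) ∣ (D : ℤ) := Int.natCast_dvd_natCast.mpr hmD
  have hDN' : (D : ℤ) ∣ ((P * m : ℕ) : ℤ) := Int.natCast_dvd_natCast.mpr hDN
  -- `m ∣ (g₂) 0 1`
  have hm2 : (m : ℤ) ∣ g₂ 0 1 := by
    have h3 : (m : ℤ) ∣ g₁ 0 0 * g₂ 0 1 + g₁ 0 1 * g₂ 1 1 := dvd_trans hmD' hg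
    have h4 : (m : ℤ) ∣ g₁ 0 0 * g₂ 0 1 := by
      have := dvd_sub h3 (Dvd.dvd.mul_right h₁.2.1 (g₂ 1 1))
      simpa using this
    have h5 : (m : ℤ) ∣ (g₁ 0 0 - 1) * g₂ 0 1 := Dvd.dvd.mul_right h₁.1 _
    have := dvd_sub h4 h5
    have e : g₁ 0 0 * g₂ 0 1 - (g₁ 0 0 - 1) * g₂ 0 1 = g₂ 0 1 := by ring
    rwa [e] at this
  have hN2 : ((P * m : ℕ) : ℤ) ∣ g₂ 0 1 := by
    push_cast
    exact IsCoprime.mul_dvd (Nat.isCoprime_iff_coprime.mpr hPm) h₂.2.1 hm2
  have hD2 : (D : ℤ) ∣ g₂ 0 1 := dvd_trans hDN' hN2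
  refine ⟨g₁, ⟨hg₁, ?_⟩, g₂, ⟨hg₂, hN2⟩, rfl⟩
  change (D : ℤ) ∣ g₁ 0 1
  -- `g₁ 0 1 = (g₁ 0 0 g₂ 0 1 + g₁ 0 1 g₂ 1 1) g₂ 0 0 - ... ` use determinant of `g₂`
  have hdet := det_eq_one' g₂
  have e : g₁ 0 1 = (g₁ 0 0 * g₂ 0 1 + g₁ 0 1 * g₂ 1 1) * g₂ 0 0
      - (g₁ 0 0 * g₂ 0 0 + g₁ 0 1 * g₂ 1 0) * g₂ 0 1 := by
    linear_combination (-(g₁ 0 1)) * hdet
  rw [e]
  exact dvd_sub (Dvd.dvd.mul_right hg _) (Dvd.dvd.mul_left hD2 _)

end Fermat.Agent.Lib.Newform.H803

end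
-- ===== PACK-END Lib/Newform/H803/Group.lean

-- ===== PACK-BEGIN Lib/Newform/H563/Basic.lean
section








/-!
# NEWFORM library (helper563): basic facts

* `lowerLevel` : a cusp form of level `N` whose underlying function is `Γ₀(M)`-invariant is a cusp
  form of level `M`.
* coefficient facts for Prelude-normalised eigenforms.
-/

set_option autoImplicit false

noncomputable section

namespace Fermat.Agent.Lib.Newform.H563

open UpperHalfPlane ModularForm CongruenceSubgroup ModularFormClass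
open scoped MatrixGroups Manifold

/-- A cusp form of level `N` whose underlying function is invariant under `Γ₀(M)` is a cusp form
of level `M` (for `M`, `N` both nonzero: the cusps are the same). -/
def lowerLevel {N M : ℕ} [NeZero N] [NeZero M] {k : ℤ} (f : CuspForm (Gamma0 N) k)
    (hf : ∀ γ ∈ (Gamma0 M : Subgroup (GL (Fin 2) ℝ)), (⇑f) ∣[k] γ = ⇑f) :
    CuspForm (Gamma0 M) k where
  toFun := f
  slash_action_eq' := hf
  holo' := CuspFormClass.holo f
  zero_at_cusps' := fun {c} hc => by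
    have hc' : IsCusp c (Gamma0 N : Subgroup (GL (Fin 2) ℝ)) := by
      rw [Subgroup.IsArithmetic.isCusp_iff_isCusp_SL2Z] at hc ⊢
      exact hc
    exact CuspFormClass.zero_at_cusps f hc'

@[simp] lemma coe_lowerLevel {N M : ℕ} [NeZero N] [NeZero M] {k : ℤ} (f : CuspForm (Gamma0 N) k)
    (hf : ∀ γ ∈ (Gamma0 M : Subgroup (GL (Fin 2) ℝ)), (⇑f) ∣[k] γ = ⇑f) :
    ⇑(lowerLevel f hf) = ⇑f := rfl

lemma qCoeff_lowerLevel {N M : ℕ} [NeZero N] [NeZero M] {k : ℤ} (f : CuspForm (Gamma0 N) k)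
    (hf : ∀ γ ∈ (Gamma0 M : Subgroup (GL (Fin 2) ℝ)), (⇑f) ∣[k] γ = ⇑f) (n : ℕ) :
    qCoeff (lowerLevel f hf) n = qCoeff f n := rfl

variable {N : ℕ} {k : ℤ}

lemma qCoeff_zero_cusp (f : CuspForm (Gamma0 N) k) : qCoeff f 0 = 0 :=
  CuspFormClass.qExpansion_coeff_zero f one_pos (one_mem_strictPeriods_Gamma0 N)

lemma periodic_cusp (f : CuspForm (Gamma0 N) k) : Function.Periodic (⇑f ∘ ofComplex) 1 :=
  SlashInvariantFormClass.periodic_comp_ofComplex f (one_mem_strictPeriods_Gamma0 N)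

lemma bdd_cusp (f : CuspForm (Gamma0 N) k) : IsBoundedAtImInfty (⇑f) := by
  have : Fact (IsCusp OnePoint.infty (Gamma0 N : Subgroup (GL (Fin 2) ℝ))) :=
    ⟨Subgroup.isCusp_of_mem_strictPeriods one_pos (one_mem_strictPeriods_Gamma0 N)⟩
  exact (CuspFormClass.zero_at_infty f).isBoundedAtImInfty

/-- Two cusp forms (possibly of different levels) with the same `q`-coefficients have the same
underlying function. -/
lemma coe_eq_of_qCoeff_eq {N M : ℕ} (f : CuspForm (Gamma0 N) k) (g : CuspForm (Gamma0 M) k)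
    (h : ∀ n, qCoeff f n = qCoeff g n) : (⇑f : ℍ → ℂ) = ⇑g :=
  UpperHalfPlane.eq_of_forall_qCoeff_eq (periodic_cusp f) (CuspFormClass.holo f) (bdd_cusp f)
    (periodic_cusp g) (CuspFormClass.holo g) (bdd_cusp g) h

lemma qCoeff_smul_cusp (c : ℂ) (f : CuspForm (Gamma0 N) k) (n : ℕ) :
    qCoeff (c • ⇑f) n = c * qCoeff f n := by
  unfold qCoeff
  rw [ModularForm.qExpansion_smul one_pos (one_mem_strictPeriods_Gamma0 N) c f]
  simp

lemma qCoeff_heckeU_cusp (f : CuspForm (Gamma0 N) k) {p : ℕ} (hp : p ≠ 0) (n : ℕ) :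
    qCoeff (heckeU k p ⇑f) n = qCoeff f (n * p) := by
  rw [ModularFormClass.qCoeff_heckeU f (one_mem_strictPeriods_Gamma0 N) hp n]
  rfl

lemma qCoeff_heckeT_cusp (f : CuspForm (Gamma0 N) k) {p : ℕ} (hp : p ≠ 0) (n : ℕ) :
    qCoeff (heckeT k p ⇑f) n
      = qCoeff f (n * p) + if p ∣ n then (p : ℂ) ^ (k - 1) * qCoeff f (n / p) else 0 := by
  rw [ModularFormClass.qCoeff_heckeT f (one_mem_strictPeriods_Gamma0 N) hp n]
  rfl

section Eigen

variable {f : CuspForm (Gamma0 N) 2}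

lemma qCoeff_prime_pow_of_dvd (hf : f.IsNormalizedEigenform) {q : ℕ} (hq : q.Prime)
    (hqN : q ∣ N) (r : ℕ) : qCoeff f (q ^ r) = qCoeff f q ^ r := by
  induction r using Nat.strong_induction_on with
  | _ r ih =>
    match r with
    | 0 => simpa using hf.qCoeff_one
    | 1 => simp
    | (r + 2) =>
      rw [hf.qCoeff_prime_pow_of_dvd q r hq hqN, ih (r + 1) (by omega)]
      ring

/-- For a Prelude-normalised eigenform and a prime `q` dividing the level, `a_{nq} = a_q a_n`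
for every `n`. -/
lemma qCoeff_mul_prime_of_dvd (hf : f.IsNormalizedEigenform) {q : ℕ} (hq : q.Prime)
    (hqN : q ∣ N) (n : ℕ) : qCoeff f (n * q) = qCoeff f q * qCoeff f n := by
  rcases Nat.eq_zero_or_pos n with rfl | hn
  · simp [qCoeff_zero_cusp]
  obtain ⟨r, m, hm, rfl⟩ := Nat.exists_eq_pow_mul_and_not_dvd hn.ne' q hq.ne_one
  have hcop : ∀ s : ℕ, (q ^ s).Coprime m := fun s =>
    Nat.Coprime.pow_left s ((Nat.Prime.coprime_iff_not_dvd hq).2 hm)
  have h1 : q ^ r * m * q = q ^ (r + 1) * m := by ring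
  rw [h1, hf.qCoeff_mul_of_coprime _ _ (hcop (r + 1)), hf.qCoeff_mul_of_coprime _ _ (hcop r),
    qCoeff_prime_pow_of_dvd hf hq hqN, qCoeff_prime_pow_of_dvd hf hq hqN]
  ring

/-- For a Prelude-normalised eigenform and a prime `q` dividing the level, `U_q f = a_q f`. -/
theorem heckeU_eq_smul [NeZero N] (hf : f.IsNormalizedEigenform) {q : ℕ} (hq : q.Prime)
    (hqN : q ∣ N) : heckeU 2 q ⇑f = qCoeff f q • ⇑f := by
  have h1 : (⇑(CuspForm.heckeULin 2 hqN f) : ℍ → ℂ) = ⇑(qCoeff f q • f) := by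
    refine coe_eq_of_qCoeff_eq _ _ fun n => ?_
    rw [CuspForm.coe_heckeULin_apply, qCoeff_heckeU_cusp f hq.ne_zero,
      qCoeff_mul_prime_of_dvd hf hq hqN]
    exact (qCoeff_smul_cusp _ f n).symm
  exact h1

end Eigen

end Fermat.Agent.Lib.Newform.H563

end
end
-- ===== PACK-END Lib/Newform/H563/Basic.lean

-- ===== PACK-BEGIN A2/H93/CoverSplit.lean
section








/-!
# Cell A2, route G, obligation C2 (COVER-SPLIT) — helper93 — Mathlib-only

Setting (`CoverSplit`): `V` a valuation subring of a field `F` whose maximal ideal is generated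
by `w` and which is discrete (`∀ f, ∃ k, f * w ^ k ∈ V`); `m` invertible in `V`, `ζ ∈ F` a
primitive `m`-th root of unity; `L = F[y_i]` with `y_i ^ m = g_i`, `g_i ∈ Vˣ`,
`g_i ≡ c_i ^ m mod w` (`c_i ∈ V`); `W` ANY valuation subring of `L` with `W ∩ F = V`.

Results (elementary: `W` is the localisation of `V[y_i]` at its centre; no étale / Dedekind /
Henselian API):

* `CoverSplit.exists_sub_mem`   : `W = V + w W`  (residue field of `W` = residue field of `V`);
* `CoverSplit.mul_inv_mem`      : `𝔪_W = w W`     (`e = 1`);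
* `CoverSplit.eq_one_of_map_eq` : an `F`-automorphism `σ` of `L` with `σ W = W` is the identity
  (the decomposition group is trivial: `V` splits completely in `L`).
-/

set_option autoImplicit false
set_option linter.style.haveILetI false

namespace Fermat.Agent.A2.H93

variable {F L : Type*} [Field F] [Field L] [Algebra F L]

/-- Hypotheses of COVER-SPLIT (see the module docstring). -/
structure CoverSplit (V : ValuationSubring F) (W : ValuationSubring L) (w : F) (m : ℕ) (ζ : F)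
    {ι : Type*} (y : ι → L) (g c : ι → F) : Prop where
  ext : ∀ f : F, algebraMap F L f ∈ W ↔ f ∈ V
  w_inv_notMem : w⁻¹ ∉ V
  w_gen : ∀ f ∈ V, f⁻¹ ∉ V → f * w⁻¹ ∈ V
  w_disc : ∀ f : F, ∃ k : ℕ, f * w ^ k ∈ V
  zeta : IsPrimitiveRoot ζ m
  m_pos : 0 < m
  m_inv : (m : F)⁻¹ ∈ V
  pow_eq : ∀ i, y i ^ m = algebraMap F L (g i)
  g_mem : ∀ i, g i ∈ V
  g_ne_zero : ∀ i, g i ≠ 0
  g_inv : ∀ i, (g i)⁻¹ ∈ V
  c_mem : ∀ i, c i ∈ V
  cong : ∀ i, (g i - c i ^ m) * w⁻¹ ∈ V
  gen : Algebra.adjoin F (Set.range y) = ⊤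

section Val

variable (W : ValuationSubring L)

theorem val_lt_one_of_inv_notMem {x : L} (hx : x⁻¹ ∉ W) : W.valuation x < 1 := by
  by_contra h
  rw [not_lt] at h
  apply hx
  rw [← W.valuation_le_one_iff, map_inv₀]
  exact inv_le_one_of_one_le₀ h

theorem inv_notMem_of_val_lt_one {x : L} (hx0 : x ≠ 0) (h : W.valuation x < 1) : x⁻¹ ∉ W := by
  intro hmem
  have h1 : W.valuation x⁻¹ ≤ 1 := (W.valuation_le_one_iff _).2 hmem
  have h2 : W.valuation x * W.valuation x⁻¹ = 1 := by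
    rw [← map_mul, mul_inv_cancel₀ hx0, map_one]
  have h3 : W.valuation x * W.valuation x⁻¹ < 1 := by
    calc W.valuation x * W.valuation x⁻¹ ≤ W.valuation x * 1 := by gcongr
      _ = W.valuation x := mul_one _
      _ < 1 := h
  rw [h2] at h3
  exact lt_irrefl _ h3

theorem val_eq_one_of_mem_of_inv_mem {x : L} (hx0 : x ≠ 0) (hx : x ∈ W) (hx' : x⁻¹ ∈ W) :
    W.valuation x = 1 := by
  have h1 : W.valuation x ≤ 1 := (W.valuation_le_one_iff _).2 hx
  rcases lt_or_eq_of_le h1 with h | h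
  · exact absurd hx' (inv_notMem_of_val_lt_one W hx0 h)
  · exact h

theorem inv_mem_of_val_eq_one {x : L} (h : W.valuation x = 1) : x⁻¹ ∈ W := by
  rw [← W.valuation_le_one_iff, map_inv₀, h, inv_one]

end Val

namespace CoverSplit

variable {V : ValuationSubring F} {W : ValuationSubring L} {w : F} {m : ℕ} {ζ : F}
  {ι : Type*} {y : ι → L} {g c : ι → F}

local notation "φ" => algebraMap F L

theorem w_mem (D : CoverSplit V W w m ζ y g c) : w ∈ V :=
  (V.mem_or_inv_mem w).resolve_right D.w_inv_notMem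

theorem w_ne_zero (D : CoverSplit V W w m ζ y g c) : w ≠ 0 := by
  intro h
  apply D.w_inv_notMem
  rw [h, inv_zero]
  exact V.zero_mem

theorem φw_ne_zero (D : CoverSplit V W w m ζ y g c) : φ w ≠ 0 := by
  intro h
  exact D.w_ne_zero ((algebraMap F L).injective (by rw [h, map_zero]))

theorem val_w_lt (D : CoverSplit V W w m ζ y g c) : W.valuation (φ w) < 1 := by
  apply val_lt_one_of_inv_notMem
  rw [← map_inv₀, D.ext]
  exact D.w_inv_notMem

theorem val_le_one (D : CoverSplit V W w m ζ y g c) {a : F} (ha : a ∈ V) :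
    W.valuation (φ a) ≤ 1 :=
  (W.valuation_le_one_iff _).2 ((D.ext a).2 ha)

theorem val_eq_one (D : CoverSplit V W w m ζ y g c) {a : F} (ha : a ∈ V) (ha' : a⁻¹ ∈ V)
    (ha0 : a ≠ 0) : W.valuation (φ a) = 1 := by
  apply val_eq_one_of_mem_of_inv_mem
  · intro h
    exact ha0 ((algebraMap F L).injective (by rw [h, map_zero]))
  · exact (D.ext a).2 ha
  · rw [← map_inv₀]; exact (D.ext _).2 ha'

/-- An element of `F` which is a non-unit at `W` is divisible by `w` in `V`. -/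
theorem mul_inv_mem_of_val_lt (D : CoverSplit V W w m ζ y g c) {a : F}
    (ha : W.valuation (φ a) < 1) : a * w⁻¹ ∈ V := by
  by_cases ha0 : a = 0
  · rw [ha0, zero_mul]; exact V.zero_mem
  have haV : a ∈ V := (D.ext a).1 ((W.valuation_le_one_iff _).1 ha.le)
  refine D.w_gen a haV ?_
  intro h
  have := D.val_eq_one haV h ha0
  rw [this] at ha
  exact lt_irrefl _ ha

/-- In `V`: an element with unit `m`-th power modulo `w`... more precisely, if `a ^ m ≡ u` mod
`w` with `u` a unit, then `a` is a unit. -/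
theorem inv_mem_of_pow_cong (D : CoverSplit V W w m ζ y g c) {a u : F} (ha : a ∈ V)
    (hu' : u⁻¹ ∈ V) (hu0 : u ≠ 0) (h : (u - a ^ m) * w⁻¹ ∈ V) : a⁻¹ ∈ V := by
  by_contra hcon
  -- `a ∈ 𝔪_V`, so `a = w a'`
  have h1 : a * w⁻¹ ∈ V := D.w_gen a ha hcon
  -- then `u = (u - a^m) + a^m ∈ w V`
  have h2 : u * w⁻¹ ∈ V := by
    have : u * w⁻¹ = (u - a ^ m) * w⁻¹ + a ^ (m - 1) * (a * w⁻¹) := by
      have : a ^ m = a ^ (m - 1) * a := by
        rw [← pow_succ, Nat.sub_add_cancel D.m_pos]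
      rw [this]; ring
    rw [this]
    exact V.add_mem _ _ h (V.mul_mem _ _ (pow_mem ha _) h1)
  -- so `w⁻¹ = u⁻¹ (u w⁻¹) ∈ V`
  apply D.w_inv_notMem
  have : w⁻¹ = u⁻¹ * (u * w⁻¹) := by
    field_simp
  rw [this]
  exact V.mul_mem _ _ hu' h2

theorem c_inv (D : CoverSplit V W w m ζ y g c) (i : ι) : (c i)⁻¹ ∈ V :=
  D.inv_mem_of_pow_cong (D.c_mem i) (D.g_inv i) (D.g_ne_zero i) (D.cong i)

/-! ### Roots of unity -/

theorem m_ne_zero (D : CoverSplit V W w m ζ y g c) : (m : F) ≠ 0 := by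
  haveI : NeZero m := ⟨D.m_pos.ne'⟩
  exact (D.zeta.neZero').out

theorem root_mem (D : CoverSplit V W w m ζ y g c) {ξ : F} (hξ : ξ ^ m = 1) : ξ ∈ V := by
  rcases V.mem_or_inv_mem ξ with h | h
  · exact h
  · have hξ0 : ξ ≠ 0 := by
      rintro rfl
      rw [zero_pow D.m_pos.ne'] at hξ
      exact zero_ne_one hξ
    have h1 : ξ = ξ⁻¹ ^ (m - 1) := by
      have h2 : ξ ^ (m - 1) * ξ = 1 := by
        rw [← pow_succ, Nat.sub_add_cancel D.m_pos, hξ]
      rw [inv_pow]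
      exact eq_inv_of_mul_eq_one_right h2
    rw [h1]
    exact pow_mem h _

theorem root_inv_mem (D : CoverSplit V W w m ζ y g c) {ξ : F} (hξ : ξ ^ m = 1) : ξ⁻¹ ∈ V :=
  D.root_mem (by rw [inv_pow, hξ, inv_one])

theorem root_ne_zero (D : CoverSplit V W w m ζ y g c) {ξ : F} (hξ : ξ ^ m = 1) : ξ ≠ 0 := by
  rintro rfl
  rw [zero_pow D.m_pos.ne'] at hξ
  exact zero_ne_one hξ

/-- `1 - ξ` is a unit of `V` for every `m`-th root of unity `ξ ≠ 1`. -/
theorem one_sub_root_inv_mem (D : CoverSplit V W w m ζ y g c) {ξ : F} (hξ : ξ ^ m = 1)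
    (hξ1 : ξ ≠ 1) : (1 - ξ)⁻¹ ∈ V := by
  have hsum : ∑ k ∈ Finset.range m, ξ ^ k = 0 := by
    have h := mul_geom_sum ξ m
    rw [hξ, sub_self] at h
    exact (mul_eq_zero.1 h).resolve_left (sub_ne_zero.2 hξ1)
  have hq : (m : F) = (1 - ξ) * ∑ k ∈ Finset.range m, ∑ j ∈ Finset.range k, ξ ^ j := by
    calc (m : F) = ∑ k ∈ Finset.range m, (1 - ξ ^ k) := by
          rw [Finset.sum_sub_distrib, hsum]; simp
      _ = ∑ k ∈ Finset.range m, (1 - ξ) * ∑ j ∈ Finset.range k, ξ ^ j := by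
          refine Finset.sum_congr rfl fun k _ => ?_
          have h := mul_geom_sum ξ k
          linear_combination h
      _ = (1 - ξ) * ∑ k ∈ Finset.range m, ∑ j ∈ Finset.range k, ξ ^ j := by
          rw [Finset.mul_sum]
  have hqV : (∑ k ∈ Finset.range m, ∑ j ∈ Finset.range k, ξ ^ j) ∈ V :=
    sum_mem (fun k _ => sum_mem (fun j _ => pow_mem (D.root_mem hξ) j))
  have h1 : (1 - ξ)⁻¹ = (∑ k ∈ Finset.range m, ∑ j ∈ Finset.range k, ξ ^ j) * (m : F)⁻¹ := by
    apply inv_eq_of_mul_eq_one_right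
    rw [← mul_assoc, ← hq, mul_inv_cancel₀ D.m_ne_zero]
  rw [h1]
  exact V.mul_mem _ _ hqV D.m_inv

/-- every `m`-th root of unity of `L` comes from `F` -/
theorem exists_root_eq (D : CoverSplit V W w m ζ y g c) {ξ : L} (hξ : ξ ^ m = 1) :
    ∃ ξ₀ : F, ξ₀ ^ m = 1 ∧ φ ξ₀ = ξ := by
  haveI : NeZero m := ⟨D.m_pos.ne'⟩
  have hζL : IsPrimitiveRoot (φ ζ) m := D.zeta.map_of_injective (algebraMap F L).injective
  obtain ⟨i, -, hi⟩ := hζL.eq_pow_of_pow_eq_one hξ
  refine ⟨ζ ^ i, ?_, by rw [map_pow, hi]⟩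
  rw [← pow_mul, mul_comm, pow_mul, D.zeta.pow_eq_one, one_pow]

/-! ### The generators -/

theorem val_y (D : CoverSplit V W w m ζ y g c) (i : ι) : W.valuation (y i) = 1 := by
  have h : W.valuation (y i) ^ m = 1 := by
    rw [← map_pow, D.pow_eq]
    exact D.val_eq_one (D.g_mem i) (D.g_inv i) (D.g_ne_zero i)
  exact (pow_eq_one_iff_left D.m_pos.ne').mp h

theorem y_mem (D : CoverSplit V W w m ζ y g c) (i : ι) : y i ∈ W :=
  (W.valuation_le_one_iff _).1 (D.val_y i).le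

theorem val_pow_sub (D : CoverSplit V W w m ζ y g c) (i : ι) :
    W.valuation (y i ^ m - φ (c i) ^ m) < 1 := by
  rw [D.pow_eq, ← map_pow, ← map_sub]
  have h : g i - c i ^ m = (g i - c i ^ m) * w⁻¹ * w := by
    have := D.w_ne_zero
    field_simp
  rw [h, map_mul, map_mul]
  calc W.valuation (φ ((g i - c i ^ m) * w⁻¹)) * W.valuation (φ w)
      ≤ 1 * W.valuation (φ w) := by
        gcongr
        exact D.val_le_one (D.cong i)
    _ < 1 := by rw [one_mul]; exact D.val_w_lt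

/-- The centre: `y_i ≡ ξ c_i` modulo `𝔪_W` for some `m`-th root of unity `ξ ∈ F`. -/
theorem exists_root_val_lt (D : CoverSplit V W w m ζ y g c) (i : ι) :
    ∃ ξ₀ : F, ξ₀ ^ m = 1 ∧ W.valuation (y i - φ (ξ₀ * c i)) < 1 := by
  classical
  have hζL : IsPrimitiveRoot (φ ζ) m := D.zeta.map_of_injective (algebraMap F L).injective
  have hprod := hζL.pow_sub_pow_eq_prod_sub_mul (y i) (φ (c i)) D.m_pos
  have hlhs := D.val_pow_sub i
  by_contra hcon
  push Not at hcon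
  have hall : ∀ ξ ∈ Polynomial.nthRootsFinset m (1 : L),
      W.valuation (y i - ξ * φ (c i)) = 1 := by
    intro ξ hξ
    rw [Polynomial.mem_nthRootsFinset D.m_pos] at hξ
    obtain ⟨ξ₀, h1, rfl⟩ := D.exists_root_eq hξ
    have hle : W.valuation (y i - φ ξ₀ * φ (c i)) ≤ 1 :=
      (W.valuation_le_one_iff _).2 (sub_mem (D.y_mem i)
        (mul_mem ((D.ext _).2 (D.root_mem h1)) ((D.ext _).2 (D.c_mem i))))
    have h2 := hcon ξ₀ h1
    rw [map_mul] at h2
    exact le_antisymm hle h2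
  rw [hprod, map_prod, Finset.prod_eq_one hall] at hlhs
  exact lt_irrefl _ hlhs

/-- The other roots give units of `W`. -/
theorem val_sub_root_eq_one (D : CoverSplit V W w m ζ y g c) (i : ι) {ξ₀ η₀ : F}
    (hξ : ξ₀ ^ m = 1) (hη : η₀ ^ m = 1) (hne : η₀ ≠ ξ₀)
    (h : W.valuation (y i - φ (ξ₀ * c i)) < 1) : W.valuation (y i - φ (η₀ * c i)) = 1 := by
  have hξ0 := D.root_ne_zero hξ
  have hc0 : c i ≠ 0 := by
    intro h0
    have h1 := D.cong i
    rw [h0, zero_pow D.m_pos.ne', sub_zero] at h1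
    apply D.w_inv_notMem
    have : w⁻¹ = (g i)⁻¹ * (g i * w⁻¹) := by
      have := D.g_ne_zero i
      field_simp
    rw [this]
    exact V.mul_mem _ _ (D.g_inv i) h1
  -- the root of unity `ρ = η₀ / ξ₀ ≠ 1`
  have hρ : (η₀ * ξ₀⁻¹) ^ m = 1 := by rw [mul_pow, inv_pow, hξ, hη, inv_one, mul_one]
  have hρ1 : η₀ * ξ₀⁻¹ ≠ 1 := by
    intro h1
    apply hne
    field_simp at h1
    exact h1
  have hunit : (1 - η₀ * ξ₀⁻¹)⁻¹ ∈ V := D.one_sub_root_inv_mem hρ hρ1
  have hd0 : (ξ₀ - η₀) * c i ≠ 0 :=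
    mul_ne_zero (sub_ne_zero.2 (Ne.symm hne)) hc0
  have hdV : (ξ₀ - η₀) * c i ∈ V :=
    V.mul_mem _ _ (sub_mem (D.root_mem hξ) (D.root_mem hη)) (D.c_mem i)
  have hdV' : ((ξ₀ - η₀) * c i)⁻¹ ∈ V := by
    have : ((ξ₀ - η₀) * c i)⁻¹ = (1 - η₀ * ξ₀⁻¹)⁻¹ * ξ₀⁻¹ * (c i)⁻¹ := by
      have h1 : 1 - η₀ * ξ₀⁻¹ ≠ 0 := sub_ne_zero.2 (Ne.symm hρ1)
      have h2 : ξ₀ - η₀ ≠ 0 := sub_ne_zero.2 (Ne.symm hne)
      field_simp
    rw [this]
    exact V.mul_mem _ _ (V.mul_mem _ _ hunit (D.root_inv_mem hξ)) (D.c_inv i)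
  have hv : W.valuation (φ ((ξ₀ - η₀) * c i)) = 1 := D.val_eq_one hdV hdV' hd0
  have hsum : y i - φ (η₀ * c i) = (y i - φ (ξ₀ * c i)) + φ ((ξ₀ - η₀) * c i) := by
    simp only [map_mul, map_sub]; ring
  rw [hsum, Valuation.map_add_eq_of_lt_right]
  · exact hv
  · rw [hv]; exact h

section Rings

variable (V W y)

/-- `V[y_i] ⊆ L`. -/
def ringB : Subring L := Subring.closure ((algebraMap F L) '' (V : Set F) ∪ Set.range y)

/-- The localisation of `V[y_i]` at its centre in `W`. -/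
def ringB' : Subring L :=
  Subring.closure ((ringB V y : Set L) ∪ {x | ∃ s ∈ ringB V y, W.valuation s = 1 ∧ x = s⁻¹})

end Rings

theorem algebraMap_mem_ringB {a : F} (ha : a ∈ V) : φ a ∈ ringB V y :=
  Subring.subset_closure (Or.inl ⟨a, ha, rfl⟩)

theorem y_mem_ringB (i : ι) : y i ∈ ringB V y :=
  Subring.subset_closure (Or.inr ⟨i, rfl⟩)

theorem ringB_le_ringB' : ringB V y ≤ ringB' V W y :=
  fun _ hx => Subring.subset_closure (Or.inl hx)

theorem inv_mem_ringB' {s : L} (hs : s ∈ ringB V y) (hv : W.valuation s = 1) :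
    s⁻¹ ∈ ringB' V W y :=
  Subring.subset_closure (Or.inr ⟨s, hs, hv, rfl⟩)

theorem ringB_le (D : CoverSplit V W w m ζ y g c) : ringB V y ≤ W.toSubring := by
  rw [ringB, Subring.closure_le]
  rintro x (⟨a, ha, rfl⟩ | ⟨i, rfl⟩)
  · exact (D.ext a).2 ha
  · exact D.y_mem i

theorem ringB'_le (D : CoverSplit V W w m ζ y g c) : ringB' V W y ≤ W.toSubring := by
  rw [ringB', Subring.closure_le]
  rintro x (hx | ⟨s, -, hv, rfl⟩)
  · exact D.ringB_le hx
  · exact inv_mem_of_val_eq_one W hv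

/-- `y_i - ξ c_i = w · t` with `t` in the localisation. -/
theorem exists_unit_mul (D : CoverSplit V W w m ζ y g c) (i : ι) {ξ₀ : F} (hξ : ξ₀ ^ m = 1)
    (h : W.valuation (y i - φ (ξ₀ * c i)) < 1) :
    ∃ u ∈ ringB V y, W.valuation u = 1 ∧ (y i - φ (ξ₀ * c i)) * u = φ (g i - c i ^ m) := by
  classical
  have hζL : IsPrimitiveRoot (φ ζ) m := D.zeta.map_of_injective (algebraMap F L).injective
  have hprod := hζL.pow_sub_pow_eq_prod_sub_mul (y i) (φ (c i)) D.m_pos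
  have hmem : φ ξ₀ ∈ Polynomial.nthRootsFinset m (1 : L) := by
    rw [Polynomial.mem_nthRootsFinset D.m_pos, ← map_pow, hξ, map_one]
  refine ⟨∏ η ∈ (Polynomial.nthRootsFinset m (1 : L)).erase (φ ξ₀), (y i - η * φ (c i)),
    ?_, ?_, ?_⟩
  · refine Subring.prod_mem _ fun η hη => ?_
    have hη' := Finset.mem_of_mem_erase hη
    rw [Polynomial.mem_nthRootsFinset D.m_pos] at hη'
    obtain ⟨η₀, h1, rfl⟩ := D.exists_root_eq hη'
    exact Subring.sub_mem _ (y_mem_ringB i)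
      (Subring.mul_mem _ (algebraMap_mem_ringB (D.root_mem h1)) (algebraMap_mem_ringB (D.c_mem i)))
  · rw [map_prod]
    refine Finset.prod_eq_one fun η hη => ?_
    have hη' := Finset.mem_of_mem_erase hη
    have hne := Finset.ne_of_mem_erase hη
    rw [Polynomial.mem_nthRootsFinset D.m_pos] at hη'
    obtain ⟨η₀, h1, rfl⟩ := D.exists_root_eq hη'
    have hne' : η₀ ≠ ξ₀ := fun h0 => hne (by rw [h0])
    have := D.val_sub_root_eq_one i hξ h1 hne' h
    rwa [map_mul] at this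
  · rw [map_mul, Finset.mul_prod_erase _ (fun η => y i - η * φ (c i)) hmem, ← hprod, D.pow_eq,
      map_sub, map_pow]

/-- The property `x ∈ V + w B'`. -/
def Good (V : ValuationSubring F) (W : ValuationSubring L) (w : F) (y : ι → L) (x : L) : Prop :=
  ∃ a ∈ V, ∃ t ∈ ringB' V W y, x = algebraMap F L a + algebraMap F L w * t

theorem good_algebraMap {a : F} (ha : a ∈ V) : Good V W w y (φ a) :=
  ⟨a, ha, 0, Subring.zero_mem _, by rw [mul_zero, add_zero]⟩

theorem good_add {x x' : L} (hx : Good V W w y x) (hx' : Good V W w y x') :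
    Good V W w y (x + x') := by
  obtain ⟨a, ha, t, ht, rfl⟩ := hx
  obtain ⟨a', ha', t', ht', rfl⟩ := hx'
  exact ⟨a + a', V.add_mem _ _ ha ha', t + t', Subring.add_mem _ ht ht', by
    rw [map_add]; ring⟩

theorem good_neg {x : L} (hx : Good V W w y x) : Good V W w y (-x) := by
  obtain ⟨a, ha, t, ht, rfl⟩ := hx
  exact ⟨-a, V.neg_mem _ ha, -t, Subring.neg_mem _ ht, by rw [map_neg]; ring⟩

theorem good_mul (D : CoverSplit V W w m ζ y g c) {x x' : L} (hx : Good V W w y x)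
    (hx' : Good V W w y x') : Good V W w y (x * x') := by
  obtain ⟨a, ha, t, ht, rfl⟩ := hx
  obtain ⟨a', ha', t', ht', rfl⟩ := hx'
  have hB : ∀ {b : F}, b ∈ V → φ b ∈ ringB' V W y :=
    fun hb => ringB_le_ringB' (algebraMap_mem_ringB hb)
  refine ⟨a * a', V.mul_mem _ _ ha ha', φ a * t' + φ a' * t + φ w * t * t', ?_, ?_⟩
  · exact Subring.add_mem _ (Subring.add_mem _ (Subring.mul_mem _ (hB ha) ht')
      (Subring.mul_mem _ (hB ha') ht))
      (Subring.mul_mem _ (Subring.mul_mem _ (hB D.w_mem) ht) ht')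
  · rw [map_mul]; ring

theorem good_y (D : CoverSplit V W w m ζ y g c) (i : ι) : Good V W w y (y i) := by
  obtain ⟨ξ₀, hξ, h⟩ := D.exists_root_val_lt i
  obtain ⟨u, huB, hu, hmul⟩ := D.exists_unit_mul i hξ h
  have hu0 : u ≠ 0 := by
    rintro rfl
    rw [map_zero] at hu
    exact zero_ne_one hu
  refine ⟨ξ₀ * c i, V.mul_mem _ _ (D.root_mem hξ) (D.c_mem i),
    φ ((g i - c i ^ m) * w⁻¹) * u⁻¹, ?_, ?_⟩
  · exact Subring.mul_mem _ (ringB_le_ringB' (algebraMap_mem_ringB (D.cong i)))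
      (inv_mem_ringB' huB hu)
  · have h1 : y i - φ (ξ₀ * c i) = φ (g i - c i ^ m) * u⁻¹ := by
      rw [← hmul, mul_assoc, mul_inv_cancel₀ hu0, mul_one]
    have h2 : φ (g i - c i ^ m) = φ w * φ ((g i - c i ^ m) * w⁻¹) := by
      rw [← map_mul]
      congr 1
      have := D.w_ne_zero
      field_simp
    rw [h2] at h1
    rw [← mul_assoc, ← h1]; ring

theorem good_of_mem_ringB (D : CoverSplit V W w m ζ y g c) {x : L} (hx : x ∈ ringB V y) :
    Good V W w y x := by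
  induction hx using Subring.closure_induction with
  | mem x hx =>
    rcases hx with ⟨a, ha, rfl⟩ | ⟨i, rfl⟩
    · exact good_algebraMap ha
    · exact D.good_y i
  | zero => simpa using good_algebraMap (V := V) (W := W) (w := w) (y := y) V.zero_mem
  | one => simpa using good_algebraMap (V := V) (W := W) (w := w) (y := y) V.one_mem
  | add x x' _ _ hx hx' => exact good_add hx hx'
  | neg x _ hx => exact good_neg hx
  | mul x x' _ _ hx hx' => exact D.good_mul hx hx'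

/-- If `x = a + w t` is a unit of `W` then `a` is a unit of `V`. -/
theorem inv_mem_of_good_of_val_eq_one (D : CoverSplit V W w m ζ y g c) {a : F} (ha : a ∈ V)
    {t x : L} (ht : t ∈ W) (hx : x = φ a + φ w * t) (hv : W.valuation x = 1) :
    a ≠ 0 ∧ a⁻¹ ∈ V := by
  have hwt : W.valuation (φ w * t) < 1 := by
    rw [map_mul]
    calc W.valuation (φ w) * W.valuation t ≤ W.valuation (φ w) * 1 := by
          gcongr
          exact (W.valuation_le_one_iff _).2 ht
      _ = W.valuation (φ w) := mul_one _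
      _ < 1 := D.val_w_lt
  have hva : W.valuation (φ a) = 1 := by
    have h1 : φ a = x + -(φ w * t) := by rw [hx]; ring
    rw [h1, Valuation.map_add_eq_of_lt_left]
    · exact hv
    · rw [Valuation.map_neg, hv]; exact hwt
  have ha0 : a ≠ 0 := by
    rintro rfl
    rw [map_zero, map_zero] at hva
    exact zero_ne_one hva
  refine ⟨ha0, ?_⟩
  rw [← D.ext, map_inv₀]
  exact inv_mem_of_val_eq_one W hva

/-- If `x = a + w t` is a non-unit of `W` then `w ∣ a` in `V`. -/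
theorem mul_inv_mem_of_good_of_val_lt (D : CoverSplit V W w m ζ y g c) {a : F}
    {t x : L} (ht : t ∈ W) (hx : x = φ a + φ w * t) (hv : W.valuation x < 1) :
    a * w⁻¹ ∈ V := by
  have hwt : W.valuation (φ w * t) < 1 := by
    rw [map_mul]
    calc W.valuation (φ w) * W.valuation t ≤ W.valuation (φ w) * 1 := by
          gcongr
          exact (W.valuation_le_one_iff _).2 ht
      _ = W.valuation (φ w) := mul_one _
      _ < 1 := D.val_w_lt
  apply D.mul_inv_mem_of_val_lt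
  have h1 : φ a = x + -(φ w * t) := by rw [hx]; ring
  rw [h1]
  refine lt_of_le_of_lt (Valuation.map_add _ _ _) (max_lt hv ?_)
  rw [Valuation.map_neg]; exact hwt

theorem good_inv (D : CoverSplit V W w m ζ y g c) {s : L} (hs : s ∈ ringB V y)
    (hv : W.valuation s = 1) : Good V W w y s⁻¹ := by
  obtain ⟨a, ha, t, ht, hst⟩ := D.good_of_mem_ringB hs
  obtain ⟨ha0, ha'⟩ := D.inv_mem_of_good_of_val_eq_one ha (D.ringB'_le ht) hst hv
  have hs0 : s ≠ 0 := by
    rintro rfl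
    rw [map_zero] at hv
    exact zero_ne_one hv
  have hφa0 : φ a ≠ 0 := fun h => ha0 ((algebraMap F L).injective (by rw [h, map_zero]))
  refine ⟨a⁻¹, ha', -(t * s⁻¹ * φ a⁻¹), ?_, ?_⟩
  · exact Subring.neg_mem _ (Subring.mul_mem _ (Subring.mul_mem _ ht (inv_mem_ringB' hs hv))
      (ringB_le_ringB' (algebraMap_mem_ringB ha')))
  · rw [map_inv₀]
    have h1 : φ w * t = s - φ a := by rw [hst]; ring
    have : φ w * -(t * s⁻¹ * (φ a)⁻¹) = -((φ w * t) * s⁻¹ * (φ a)⁻¹) := by ring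
    rw [this, h1]
    field_simp
    ring

theorem good_of_mem_ringB' (D : CoverSplit V W w m ζ y g c) {x : L} (hx : x ∈ ringB' V W y) :
    Good V W w y x := by
  induction hx using Subring.closure_induction with
  | mem x hx =>
    rcases hx with hx | ⟨s, hs, hv, rfl⟩
    · exact D.good_of_mem_ringB hx
    · exact D.good_inv hs hv
  | zero => simpa using good_algebraMap (V := V) (W := W) (w := w) (y := y) V.zero_mem
  | one => simpa using good_algebraMap (V := V) (W := W) (w := w) (y := y) V.one_mem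
  | add x x' _ _ hx hx' => exact good_add hx hx'
  | neg x _ hx => exact good_neg hx
  | mul x x' _ _ hx hx' => exact D.good_mul hx hx'

/-- Clearing denominators: `w ^ k x ∈ V[y_i]` for `k ≫ 0`. -/
theorem exists_pow_mul_mem_ringB (D : CoverSplit V W w m ζ y g c) (x : L) :
    ∃ k : ℕ, φ w ^ k * x ∈ ringB V y := by
  have hx : x ∈ Algebra.adjoin F (Set.range y) := by rw [D.gen]; trivial
  have hwB : φ w ∈ ringB V y := algebraMap_mem_ringB D.w_mem
  induction hx using Algebra.adjoin_induction with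
  | mem x hx =>
    obtain ⟨i, rfl⟩ := hx
    exact ⟨0, by rw [pow_zero, one_mul]; exact y_mem_ringB i⟩
  | algebraMap a =>
    obtain ⟨k, hk⟩ := D.w_disc a
    refine ⟨k, ?_⟩
    have : φ w ^ k * φ a = φ (a * w ^ k) := by rw [map_mul, map_pow]; ring
    rw [this]
    exact algebraMap_mem_ringB hk
  | add x x' _ _ hx hx' =>
    obtain ⟨k, hk⟩ := hx
    obtain ⟨k', hk'⟩ := hx'
    refine ⟨k + k', ?_⟩
    have : φ w ^ (k + k') * (x + x') = φ w ^ k' * (φ w ^ k * x) + φ w ^ k * (φ w ^ k' * x') := by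
      rw [pow_add]; ring
    rw [this]
    exact Subring.add_mem _ (Subring.mul_mem _ (Subring.pow_mem _ hwB _) hk)
      (Subring.mul_mem _ (Subring.pow_mem _ hwB _) hk')
  | mul x x' _ _ hx hx' =>
    obtain ⟨k, hk⟩ := hx
    obtain ⟨k', hk'⟩ := hx'
    refine ⟨k + k', ?_⟩
    have : φ w ^ (k + k') * (x * x') = (φ w ^ k * x) * (φ w ^ k' * x') := by
      rw [pow_add]; ring
    rw [this]
    exact Subring.mul_mem _ hk hk'

/-- Descending induction: dividing by `w` stays in the localisation as long as we stay in `W`. -/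
theorem mem_ringB'_of_mul_inv_pow_mem (D : CoverSplit V W w m ζ y g c) :
    ∀ (k : ℕ) (z : L), z ∈ ringB' V W y → z * (φ w)⁻¹ ^ k ∈ W → z * (φ w)⁻¹ ^ k ∈ ringB' V W y := by
  intro k
  induction k with
  | zero =>
    intro z hz _
    rwa [pow_zero, mul_one]
  | succ k ih =>
    intro z hz hzW
    have hw0 := D.φw_ne_zero
    -- `z` is a non-unit of `W`
    have hzlt : W.valuation z < 1 := by
      have h1 : z = z * (φ w)⁻¹ ^ (k + 1) * φ w ^ (k + 1) := by
        rw [inv_pow, mul_assoc, inv_mul_cancel₀ (pow_ne_zero _ hw0), mul_one]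
      rw [h1, map_mul, map_pow]
      calc W.valuation (z * (φ w)⁻¹ ^ (k + 1)) * W.valuation (φ w) ^ (k + 1)
          ≤ 1 * W.valuation (φ w) ^ (k + 1) := by
            gcongr
            exact (W.valuation_le_one_iff _).2 hzW
        _ = W.valuation (φ w) ^ (k + 1) := one_mul _
        _ < 1 := pow_lt_one₀ zero_le D.val_w_lt (Nat.succ_ne_zero k)
    obtain ⟨a, ha, t, ht, hzt⟩ := D.good_of_mem_ringB' hz
    have haw : a * w⁻¹ ∈ V := D.mul_inv_mem_of_good_of_val_lt (D.ringB'_le ht) hzt hzlt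
    -- `z / w = a / w + t`
    have hz1 : z * (φ w)⁻¹ = φ (a * w⁻¹) + t := by
      rw [hzt, map_mul, map_inv₀]
      field_simp
    have hz1B : z * (φ w)⁻¹ ∈ ringB' V W y := by
      rw [hz1]
      exact Subring.add_mem _ (ringB_le_ringB' (algebraMap_mem_ringB haw)) ht
    have heq : z * (φ w)⁻¹ ^ (k + 1) = z * (φ w)⁻¹ * (φ w)⁻¹ ^ k := by
      rw [pow_succ]; ring
    rw [heq] at hzW ⊢
    exact ih _ hz1B hzW

/-- `W` is the localisation of `V[y_i]` at its centre. -/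
theorem mem_ringB' (D : CoverSplit V W w m ζ y g c) {x : L} (hx : x ∈ W) : x ∈ ringB' V W y := by
  obtain ⟨k, hk⟩ := D.exists_pow_mul_mem_ringB x
  have hw0 := D.φw_ne_zero
  have h1 : x = (φ w ^ k * x) * (φ w)⁻¹ ^ k := by
    rw [inv_pow, mul_comm (φ w ^ k) x, mul_assoc, mul_inv_cancel₀ (pow_ne_zero _ hw0), mul_one]
  rw [h1]
  refine D.mem_ringB'_of_mul_inv_pow_mem k _ (ringB_le_ringB' hk) ?_
  rw [← h1]
  exact hx

/-- **COVER-SPLIT (2)**: `W = V + w W`: the residue field of `W` is that of `V`. -/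
theorem exists_sub_mem (D : CoverSplit V W w m ζ y g c) {x : L} (hx : x ∈ W) :
    ∃ a ∈ V, (x - φ a) * (φ w)⁻¹ ∈ W := by
  obtain ⟨a, ha, t, ht, hxt⟩ := D.good_of_mem_ringB' (D.mem_ringB' hx)
  refine ⟨a, ha, ?_⟩
  have hw0 := D.φw_ne_zero
  have : (x - φ a) * (φ w)⁻¹ = t := by
    rw [hxt]; field_simp; ring
  rw [this]
  exact D.ringB'_le ht

/-- **COVER-SPLIT (1)**: `𝔪_W = w W` (`e = 1`). -/
theorem mul_inv_mem (D : CoverSplit V W w m ζ y g c) {x : L} (hx : x ∈ W) (hx' : x⁻¹ ∉ W) :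
    x * (φ w)⁻¹ ∈ W := by
  obtain ⟨a, ha, t, ht, hxt⟩ := D.good_of_mem_ringB' (D.mem_ringB' hx)
  have hlt : W.valuation x < 1 := val_lt_one_of_inv_notMem W hx'
  have haw : a * w⁻¹ ∈ V := D.mul_inv_mem_of_good_of_val_lt (D.ringB'_le ht) hxt hlt
  have hw0 := D.φw_ne_zero
  have : x * (φ w)⁻¹ = φ (a * w⁻¹) + t := by
    rw [hxt, map_mul, map_inv₀]
    field_simp
  rw [this]
  exact W.add_mem _ _ ((D.ext _).2 haw) (D.ringB'_le ht)

/-! ### The decomposition group is trivial -/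

/-- A ring endomorphism of `L` fixing `F` and mapping `𝔪_W` into itself fixes every `y_i`. -/
theorem map_y_eq (D : CoverSplit V W w m ζ y g c) (σ : L →+* L) (hσF : ∀ a : F, σ (φ a) = φ a)
    (hσ : ∀ x, W.valuation x < 1 → W.valuation (σ x) < 1) (i : ι) : σ (y i) = y i := by
  have hy0 : y i ≠ 0 := by
    intro h
    have := D.val_y i
    rw [h, map_zero] at this
    exact zero_ne_one this
  -- `σ y = ρ y` with `ρ` a root of unity of `F`
  have hpow : (σ (y i) * (y i)⁻¹) ^ m = 1 := by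
    rw [mul_pow, ← map_pow, D.pow_eq, hσF, inv_pow, D.pow_eq]
    exact mul_inv_cancel₀ (by
      intro h
      exact D.g_ne_zero i ((algebraMap F L).injective (by rw [h, map_zero])))
  obtain ⟨ρ, hρ, hρy⟩ := D.exists_root_eq hpow
  have hσy : σ (y i) = φ ρ * y i := by
    rw [hρy, mul_assoc, inv_mul_cancel₀ hy0, mul_one]
  by_cases hρ1 : ρ = 1
  · rw [hσy, hρ1, map_one, one_mul]
  exfalso
  obtain ⟨ξ₀, hξ, h⟩ := D.exists_root_val_lt i
  -- `(ρ - 1) ξ₀ c ∈ 𝔪_W`
  have h1 : W.valuation (σ (y i - φ (ξ₀ * c i))) < 1 := hσ _ h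
  rw [map_sub, hσF, hσy] at h1
  have h2 : W.valuation (φ ρ * (y i - φ (ξ₀ * c i))) < 1 := by
    rw [map_mul]
    calc W.valuation (φ ρ) * W.valuation (y i - φ (ξ₀ * c i))
        ≤ 1 * W.valuation (y i - φ (ξ₀ * c i)) := by
          gcongr
          exact D.val_le_one (D.root_mem hρ)
      _ = W.valuation (y i - φ (ξ₀ * c i)) := one_mul _
      _ < 1 := h
  have h3 : φ ((ρ - 1) * (ξ₀ * c i)) =
      (φ ρ * y i - φ (ξ₀ * c i)) + -(φ ρ * (y i - φ (ξ₀ * c i))) := by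
    simp only [map_mul, map_sub, map_one]; ring
  have h4 : W.valuation (φ ((ρ - 1) * (ξ₀ * c i))) < 1 := by
    rw [h3]
    refine lt_of_le_of_lt (Valuation.map_add _ _ _) (max_lt h1 ?_)
    rw [Valuation.map_neg]; exact h2
  -- but it is a unit of `V`
  have hu : ((ρ - 1) * (ξ₀ * c i))⁻¹ ∈ V := by
    have h5 : (1 - ρ)⁻¹ ∈ V := D.one_sub_root_inv_mem hρ hρ1
    have : ((ρ - 1) * (ξ₀ * c i))⁻¹ = -((1 - ρ)⁻¹ * (ξ₀⁻¹ * (c i)⁻¹)) := by
      have e1 : ρ - 1 = -(1 - ρ) := by ring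
      rw [e1, neg_mul, inv_neg, mul_inv, mul_inv]
    rw [this]
    exact V.neg_mem _ (V.mul_mem _ _ h5 (V.mul_mem _ _ (D.root_inv_mem hξ) (D.c_inv i)))
  have hc0 : c i ≠ 0 := by
    intro h0
    have h6 := D.cong i
    rw [h0, zero_pow D.m_pos.ne', sub_zero] at h6
    apply D.w_inv_notMem
    have : w⁻¹ = (g i)⁻¹ * (g i * w⁻¹) := by
      have := D.g_ne_zero i
      field_simp
    rw [this]
    exact V.mul_mem _ _ (D.g_inv i) h6
  have hne : (ρ - 1) * (ξ₀ * c i) ≠ 0 :=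
    mul_ne_zero (sub_ne_zero.2 hρ1) (mul_ne_zero (D.root_ne_zero hξ) hc0)
  have hV : (ρ - 1) * (ξ₀ * c i) ∈ V :=
    V.mul_mem _ _ (sub_mem (D.root_mem hρ) V.one_mem)
      (V.mul_mem _ _ (D.root_mem hξ) (D.c_mem i))
  have h7 := D.val_eq_one hV hu hne
  rw [h7] at h4
  exact lt_irrefl _ h4

/-- **COVER-SPLIT (3)**, ring-hom form: a ring endomorphism of `L` over `F` which maps the
maximal ideal of `W` into itself is the identity. -/
theorem eq_id_of_map_lt (D : CoverSplit V W w m ζ y g c) (σ : L →+* L)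
    (hσF : ∀ a : F, σ (φ a) = φ a) (hσ : ∀ x, W.valuation x < 1 → W.valuation (σ x) < 1)
    (x : L) : σ x = x := by
  let σ' : L →ₐ[F] L := { σ with commutes' := hσF }
  have h : σ' = AlgHom.id F L := by
    refine AlgHom.ext_of_adjoin_eq_top D.gen ?_
    rintro _ ⟨i, rfl⟩
    exact D.map_y_eq σ hσF hσ i
  have := congrArg (fun f : L →ₐ[F] L => f x) h
  exact this

/-- **COVER-SPLIT (3)**: an `F`-automorphism of `L` with `σ W = W` is the identity
(`V` splits completely in `L`). -/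
theorem eq_one_of_map_eq (D : CoverSplit V W w m ζ y g c) (σ : L ≃ₐ[F] L)
    (hσ : ∀ x, x ∈ W ↔ σ x ∈ W) : σ = 1 := by
  ext x
  refine D.eq_id_of_map_lt (σ : L →+* L) (fun a => σ.commutes a) ?_ x
  intro z hz
  by_cases hz0 : z = 0
  · rw [hz0, map_zero, map_zero]; exact zero_lt_one
  have hzW : z ∈ W := (W.valuation_le_one_iff _).1 hz.le
  have hzinv : z⁻¹ ∉ W := inv_notMem_of_val_lt_one W hz0 hz
  apply val_lt_one_of_inv_notMem
  show (σ z)⁻¹ ∉ W
  rw [← map_inv₀, ← hσ]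
  exact hzinv

end CoverSplit

end Fermat.Agent.A2.H93

end
-- ===== PACK-END A2/H93/CoverSplit.lean

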