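import Mathlib
import Fermat.Statements.S21
import Mathlib.NumberTheory.ModularForms.NormTrace
import Mathlib.NumberTheory.ModularForms.CongruenceSubgroups
import Mathlib.RingTheory.Polynomial.Vieta
import Fermat.Prelude.Def_ModularForm_HeckeOperator
import Mathlib.RingTheory.Localization.AsSubring
import Mathlib.RingTheory.Localization.AtPrime.Basic
import Mathlib.RingTheory.Localization.Ideal
import Mathlib.RingTheory.DiscreteValuationRing.TFAE
import Mathlib.RingTheory.Ideal.AssociatedPrime.Basic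
import Mathlib.RingTheory.Valuation.ValuationSubring
import Mathlib.RingTheory.Valuation.ValuationRing
import Mathlib.RingTheory.IntegralClosure.IntegrallyClosed
import Mathlib.Tactic
import Mathlib.RingTheory.Henselian
import Mathlib.Algebra.Polynomial.Reverse
import Mathlib.Algebra.Polynomial.Taylor
import Mathlib.FieldTheory.IsAlgClosed.Basic
import Mathlib.Tactic.LinearCombination
import Mathlib.Tactic.Ring
import Mathlib.Algebra.Polynomial.Identities
import Mathlib.Algebra.Polynomial.Inductions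

-- ===== PACK-BEGIN S20/H270/Parabolic.lean
section


/-!
# Elements of `SL(2,ℤ)` of trace `±2` are `±` conjugates of powers of `T`
-/

set_option autoImplicit false

open scoped MatrixGroups
open ModularGroup Matrix

namespace Fermat.Agent.S20.H270

theorem SL2_det_expl (γ : SL(2, ℤ)) : γ 0 0 * γ 1 1 - γ 0 1 * γ 1 0 = 1 := by
  have h := γ.det_coe
  rw [Matrix.det_fin_two] at h
  exact h

theorem SL2_trace_expl (γ : SL(2, ℤ)) : (γ : Matrix (Fin 2) (Fin 2) ℤ).trace = γ 0 0 + γ 1 1 := by
  rw [Matrix.trace_fin_two]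

/-- An element of `SL(2,ℤ)` whose first column is `(1, 0)` is a power of `T`. -/
theorem eq_T_zpow_of_col (γ : SL(2, ℤ)) (h00 : γ 0 0 = 1) (h10 : γ 1 0 = 0) :
    γ = T ^ (γ 0 1) := by
  have hdet := SL2_det_expl γ
  rw [h00, h10, mul_zero, sub_zero, one_mul] at hdet
  ext i j
  rw [coe_T_zpow]
  fin_cases i <;> fin_cases j <;> simp [h00, h10, hdet]

/-- A fixed primitive vector gives a conjugation to a power of `T`. -/
theorem exists_conj_of_fixed_vector (γ : SL(2, ℤ)) (x z : ℤ) (hxz : IsCoprime x z)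
    (h0 : γ 0 0 * x + γ 0 1 * z = x) (h1 : γ 1 0 * x + γ 1 1 * z = z) :
    ∃ (g : SL(2, ℤ)) (k : ℤ), γ = g * T ^ k * g⁻¹ := by
  obtain ⟨g, hg0, hg1⟩ := hxz.exists_SL2_col 0
  have hgdet := SL2_det_expl g
  rw [hg0, hg1] at hgdet
  have hi00 : (g⁻¹ : SL(2, ℤ)) 0 0 = g 1 1 := by
    rw [Matrix.SpecialLinearGroup.SL2_inv_expl]; rfl
  have hi01 : (g⁻¹ : SL(2, ℤ)) 0 1 = -g 0 1 := by
    rw [Matrix.SpecialLinearGroup.SL2_inv_expl]; rfl
  have hi10 : (g⁻¹ : SL(2, ℤ)) 1 0 = -g 1 0 := by
    rw [Matrix.SpecialLinearGroup.SL2_inv_expl]; rfl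
  have hi11 : (g⁻¹ : SL(2, ℤ)) 1 1 = g 0 0 := by
    rw [Matrix.SpecialLinearGroup.SL2_inv_expl]; rfl
  have key : g⁻¹ * γ * g = T ^ ((g⁻¹ * γ * g) 0 1) := by
    apply eq_T_zpow_of_col
    · simp only [Matrix.SpecialLinearGroup.coe_mul, Matrix.mul_apply, Fin.sum_univ_two,
        hi00, hi01, hg0, hg1]
      linear_combination (g 1 1) * h0 - (g 0 1) * h1 + hgdet
    · simp only [Matrix.SpecialLinearGroup.coe_mul, Matrix.mul_apply, Fin.sum_univ_two,
        hi10, hi11, hg0, hg1]
      linear_combination (-z) * h0 + x * h1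
  refine ⟨g, (g⁻¹ * γ * g) 0 1, ?_⟩
  rw [← key]
  group

/-- Elements of trace `2` are conjugate to powers of `T`. -/
theorem exists_conj_T_zpow_of_trace_two (γ : SL(2, ℤ))
    (h : (γ : Matrix (Fin 2) (Fin 2) ℤ).trace = 2) :
    ∃ (g : SL(2, ℤ)) (k : ℤ), γ = g * T ^ k * g⁻¹ := by
  rw [SL2_trace_expl] at h
  have hdet := SL2_det_expl γ
  -- `e = a - 1`, `d = 1 - e`, `b c = - e ^ 2`
  by_cases hc : γ 1 0 = 0
  · -- upper triangular: `a d = 1`, `a + d = 2`, so `a = d = 1`
    have ha : γ 0 0 = 1 := by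
      have h1 : (γ 0 0 - 1) ^ 2 = 0 := by
        have : γ 1 1 = 2 - γ 0 0 := by linarith
        rw [hc, this] at hdet
        linear_combination -hdet
      have := pow_eq_zero_iff (two_ne_zero) |>.mp h1
      linarith
    refine exists_conj_of_fixed_vector γ 1 0 isCoprime_one_left ?_ ?_
    · rw [ha]; ring
    · rw [hc]; ring
  · -- the vector `(e, c) / gcd`
    have hpos : 0 < Int.gcd (γ 0 0 - 1) (γ 1 0) :=
      Int.gcd_pos_of_ne_zero_right _ hc
    obtain ⟨x, z, hgcd, hx, hz⟩ := Int.exists_gcd_one hpos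
    have hxz : IsCoprime x z := Int.isCoprime_iff_gcd_eq_one.mpr hgcd
    set δ : ℤ := (Int.gcd (γ 0 0 - 1) (γ 1 0) : ℤ) with hδ
    have hδ0 : δ ≠ 0 := by
      rw [hδ]; exact_mod_cast hpos.ne'
    refine exists_conj_of_fixed_vector γ x z hxz ?_ ?_
    · apply mul_right_cancel₀ hδ0
      have hd : γ 1 1 = 2 - γ 0 0 := by linarith
      rw [hd] at hdet
      -- (a x + b z) δ = a (e) + b c = a e - e^2 ... 
      have e1 : x * δ = γ 0 0 - 1 := hx.symm
      have e2 : z * δ = γ 1 0 := hz.symm
      linear_combination (γ 0 0 - 1) * e1 + γ 0 1 * e2 - hdet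
    · apply mul_right_cancel₀ hδ0
      have hd : γ 1 1 = 2 - γ 0 0 := by linarith
      have e1 : x * δ = γ 0 0 - 1 := hx.symm
      have e2 : z * δ = γ 1 0 := hz.symm
      linear_combination γ 1 0 * e1 + (γ 1 1 - 1) * e2 + γ 1 0 * hd

/-- **Parabolic elements.** Elements of `SL(2,ℤ)` with `trace ^ 2 = 4` are `±` conjugates of
powers of `T`. -/
theorem exists_conj_T_zpow_of_trace_sq (γ : SL(2, ℤ))
    (h : (γ : Matrix (Fin 2) (Fin 2) ℤ).trace ^ 2 = 4) :
    ∃ (g : SL(2, ℤ)) (k : ℤ), γ = g * T ^ k * g⁻¹ ∨ γ = -(g * T ^ k * g⁻¹) := by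
  have h2 : (γ : Matrix (Fin 2) (Fin 2) ℤ).trace = 2 ∨
      (γ : Matrix (Fin 2) (Fin 2) ℤ).trace = -2 := by
    have : ((γ : Matrix (Fin 2) (Fin 2) ℤ).trace - 2) *
        ((γ : Matrix (Fin 2) (Fin 2) ℤ).trace + 2) = 0 := by
      linear_combination h
    rcases mul_eq_zero.mp this with h' | h'
    · left; linarith
    · right; linarith
  rcases h2 with h2 | h2
  · obtain ⟨g, k, hk⟩ := exists_conj_T_zpow_of_trace_two γ h2
    exact ⟨g, k, Or.inl hk⟩
  · have h3 : ((-γ : SL(2, ℤ)) : Matrix (Fin 2) (Fin 2) ℤ).trace = 2 := by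
      rw [Matrix.SpecialLinearGroup.coe_neg, Matrix.trace_neg, h2]; norm_num
    obtain ⟨g, k, hk⟩ := exists_conj_T_zpow_of_trace_two (-γ) h3
    refine ⟨g, k, Or.inr ?_⟩
    rw [← hk, neg_neg]

end Fermat.Agent.S20.H270

end
-- ===== PACK-END S20/H270/Parabolic.lean

-- ===== PACK-BEGIN Lib/HFree/H412/Cyclic.lean
section


/-!
# The cyclic coboundary lemma

Let `τ` be a permutation of finite order of a type `X`, `A` an abelian group and `f : X → A`
a function all of whose "closed orbit sums" vanish: `τ ^ j y = y → ∑ i < j, f (τ ^ i y) = 0`.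
Then `f` is a coboundary: `f y = m (τ y) - m y` for some `m : X → A`.

(No divisibility assumption on `A`: this is `H¹` of a cyclic group with values in a permutation
module, computed by hand.)
-/

set_option autoImplicit false

namespace Fermat.Agent.Lib.HFree.H412

variable {X A : Type*} [AddCommGroup A]

/-- Partial orbit sums `∑ i < k, f (τ ^ i b)`. -/
def orbSum (τ : Equiv.Perm X) (f : X → A) (b : X) (k : ℕ) : A :=
  ∑ i ∈ Finset.range k, f ((τ ^ i) b)

theorem orbSum_succ (τ : Equiv.Perm X) (f : X → A) (b : X) (k : ℕ) :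
    orbSum τ f b (k + 1) = orbSum τ f b k + f ((τ ^ k) b) := by
  unfold orbSum
  rw [Finset.sum_range_succ]

theorem orbSum_add (τ : Equiv.Perm X) (f : X → A) (b : X) (k j : ℕ) :
    orbSum τ f b (k + j) = orbSum τ f b k + orbSum τ f ((τ ^ k) b) j := by
  unfold orbSum
  rw [Finset.sum_range_add]
  congr 1
  refine Finset.sum_congr rfl fun i _ => ?_
  rw [add_comm k i, pow_add, Equiv.Perm.mul_apply]

/-- The orbit relation by natural powers. -/
def powRel (τ : Equiv.Perm X) (y y' : X) : Prop := ∃ k : ℕ, (τ ^ k) y = y'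

theorem powRel_refl (τ : Equiv.Perm X) (y : X) : powRel τ y y := ⟨0, by simp⟩

theorem powRel_trans (τ : Equiv.Perm X) {y y' y'' : X} (h : powRel τ y y')
    (h' : powRel τ y' y'') : powRel τ y y'' := by
  obtain ⟨k, rfl⟩ := h
  obtain ⟨k', rfl⟩ := h'
  exact ⟨k' + k, by rw [pow_add, Equiv.Perm.mul_apply]⟩

theorem powRel_symm (τ : Equiv.Perm X) (hfin : ∃ n : ℕ, 0 < n ∧ τ ^ n = 1) {y y' : X}
    (h : powRel τ y y') : powRel τ y' y := by
  obtain ⟨k, rfl⟩ := h
  obtain ⟨n, hn, hτ⟩ := hfin
  refine ⟨(n - 1) * k, ?_⟩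
  rw [← Equiv.Perm.mul_apply, ← pow_add, ← Nat.succ_mul, Nat.succ_eq_add_one,
    Nat.sub_add_cancel hn, pow_mul, hτ, one_pow, Equiv.Perm.one_apply]

/-- The setoid of `τ`-orbits. -/
def powSetoid (τ : Equiv.Perm X) (hfin : ∃ n : ℕ, 0 < n ∧ τ ^ n = 1) : Setoid X where
  r := powRel τ
  iseqv := ⟨powRel_refl τ, powRel_symm τ hfin, powRel_trans τ⟩

theorem orbSum_eq_of_pow_eq (τ : Equiv.Perm X) (f : X → A)
    (hf : ∀ (y : X) (j : ℕ), (τ ^ j) y = y → orbSum τ f y j = 0) (b : X) {k k' : ℕ}
    (h : (τ ^ k) b = (τ ^ k') b) : orbSum τ f b k = orbSum τ f b k' := by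
  wlog hle : k ≤ k' generalizing k k'
  · exact (this h.symm (le_of_not_ge hle)).symm
  obtain ⟨j, rfl⟩ := Nat.exists_eq_add_of_le hle
  rw [orbSum_add, hf ((τ ^ k) b) j, add_zero]
  rw [← Equiv.Perm.mul_apply, ← pow_add, add_comm j k]
  exact h.symm

/-- **Cyclic coboundary lemma.** -/
theorem exists_coboundary_of_orbSum (τ : Equiv.Perm X) (hfin : ∃ n : ℕ, 0 < n ∧ τ ^ n = 1)
    (f : X → A) (hf : ∀ (y : X) (j : ℕ), (τ ^ j) y = y → orbSum τ f y j = 0) :
    ∃ m : X → A, ∀ y, f y = m (τ y) - m y := by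
  classical
  let s : Setoid X := powSetoid τ hfin
  let base : X → X := fun y => Quotient.out (Quotient.mk s y)
  have hbase : ∀ y, ∃ k : ℕ, (τ ^ k) (base y) = y := fun y =>
    Quotient.exact (Quotient.out_eq (Quotient.mk s y))
  have hbase_τ : ∀ y, base (τ y) = base y := by
    intro y
    have : Quotient.mk s (τ y) = Quotient.mk s y :=
      Quotient.sound (powRel_symm τ hfin ⟨1, by simp⟩)
    show Quotient.out (Quotient.mk s (τ y)) = Quotient.out (Quotient.mk s y)
    rw [this]
  let m : X → A := fun y => orbSum τ f (base y) (Classical.choose (hbase y))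
  have hm : ∀ (y : X) (k : ℕ), (τ ^ k) (base y) = y → m y = orbSum τ f (base y) k := by
    intro y k hk
    apply orbSum_eq_of_pow_eq τ f hf
    rw [Classical.choose_spec (hbase y), hk]
  refine ⟨m, fun y => ?_⟩
  obtain ⟨k, hk⟩ := hbase y
  have h1 : (τ ^ (k + 1)) (base (τ y)) = τ y := by
    rw [hbase_τ, pow_succ', Equiv.Perm.mul_apply, hk]
  rw [hm (τ y) (k + 1) h1, hm y k hk, hbase_τ, orbSum_succ, hk]
  abel

end Fermat.Agent.Lib.HFree.H412

end
-- ===== PACK-END Lib/HFree/H412/Cyclic.lean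

-- ===== PACK-BEGIN S21/Defs.lean
section


/-!
# S21 — common definitions for the Hodge (Dirichlet principle) part D'
-/

set_option autoImplicit false

open UpperHalfPlane
open scoped MatrixGroups

namespace Fermat.Agent.S21

/-- The upper half plane as an open subset of `ℂ`. -/
def Uhp : Set ℂ := {z : ℂ | 0 < z.im}

theorem mem_Uhp {z : ℂ} : z ∈ Uhp ↔ 0 < z.im := Iff.rfl

theorem isOpen_Uhp : IsOpen Uhp := isOpen_lt continuous_const Complex.continuous_im

theorem coe_mem_Uhp (z : ℍ) : (z : ℂ) ∈ Uhp := z.im_pos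

/-- `2 ∂/∂z = ∂_x - i ∂_y` of a real-valued function on `ℂ`. -/
noncomputable def dz (u : ℂ → ℝ) (z : ℂ) : ℂ :=
  ((fderiv ℝ u z 1 : ℝ) : ℂ) - Complex.I * ((fderiv ℝ u z Complex.I : ℝ) : ℂ)

/-- The Möbius action of `SL(2,ℤ)` written on `ℂ` (junk value off the upper half plane). -/
noncomputable def mob (g : SL(2, ℤ)) (z : ℂ) : ℂ := ((g • ofComplex z : ℍ) : ℂ)

/-- The automorphy factor `c z + d`. -/
def cd (g : SL(2, ℤ)) (z : ℂ) : ℂ := ((g 1 0 : ℤ) : ℂ) * z + ((g 1 1 : ℤ) : ℂ)

/-- The compact cusp strip `{ |Re z| ≤ 1, 2 ≤ Im z ≤ Y }`. -/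
def strip (Y : ℝ) : Set ℂ := {z : ℂ | |z.re| ≤ 1 ∧ 2 ≤ z.im ∧ z.im ≤ Y}

end Fermat.Agent.S21

end
-- ===== PACK-END S21/Defs.lean

-- ===== PACK-BEGIN S23/H503/Lagrange.lean
section




/-!
# Symmetric functions of the translates of a modular form, and Lagrange interpolation

For `f` a modular form of weight `k` for `𝒢`, and `ℋ` a subgroup in which `𝒢 ⊓ ℋ` has finite
index, the elementary symmetric functions of the translates `f ∣[k] h⁻¹` (`h ∈ ℋ ⧸ 𝒢 ⊓ ℋ`) are
modular forms of weight `k * m` for `ℋ`; `f` is a root of the corresponding monic polynomial.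

Moreover, for a second form `t` of weight `w`, the coefficients of the Lagrange interpolation
polynomial `∑_q f_q ∏_{q' ≠ q} (X - t_{q'})` are modular forms for `ℋ`, and evaluating at `X = t`
gives `f * ∏_{q ≠ 1} (t - t_q)`.
-/

set_option autoImplicit false

noncomputable section

namespace Fermat.Agent.S23.H503

open UpperHalfPlane SlashInvariantForm

open scoped ModularForm Topology Filter Manifold MatrixGroups

variable {𝒢 ℋ : Subgroup (GL (Fin 2) ℝ)} {F : Type*} (f : F) [FunLike F ℍ ℂ] {k : ℤ}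

local notation "𝒬" => ℋ ⧸ (𝒢.subgroupOf ℋ)

/-! ### Pure algebra -/

section algebra

variable {ι R : Type*} [CommRing R]

/-- Vieta's formula, evaluated at a point. -/
lemma prod_sub_eq_sum_esymm (s : Finset ι) (x : ι → R) (y : R) :
    ∏ i ∈ s, (y - x i) = ∑ j ∈ Finset.range (s.card + 1),
      (-1) ^ j * (∑ t ∈ Finset.powersetCard j s, ∏ i ∈ t, x i) * y ^ (s.card - j) := by
  have h := congrArg (Polynomial.eval y) (Multiset.prod_X_sub_X_eq_sum_esymm (s.val.map x))
  simp only [Multiset.map_map, Function.comp_def, Multiset.card_map, Finset.card_val,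
    Polynomial.eval_finsetSum, Polynomial.eval_mul, Polynomial.eval_pow, Polynomial.eval_neg,
    Polynomial.eval_one, Polynomial.eval_C, Polynomial.eval_X, Finset.esymm_map_val] at h
  have h2 : Polynomial.eval y
      (Multiset.map (fun i ↦ Polynomial.X - Polynomial.C (x i)) s.val).prod =
      ∏ i ∈ s, (y - x i) := by
    rw [Polynomial.eval_multiset_prod, Multiset.map_map]
    simp only [Function.comp_def, Polynomial.eval_sub, Polynomial.eval_X, Polynomial.eval_C]
    rfl
  rw [← h2, h]
  exact Finset.sum_congr rfl fun j _ ↦ by ring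

/-- Sums over `powersetCard` are invariant under permutations of the ground type. -/
lemma sum_powersetCard_prod_comp [Fintype ι] [DecidableEq ι]
    (σ : Equiv.Perm ι) (g : ι → R) (m : ℕ) :
    ∑ s ∈ Finset.powersetCard m (Finset.univ : Finset ι), ∏ q ∈ s, g (σ q) =
      ∑ s ∈ Finset.powersetCard m (Finset.univ : Finset ι), ∏ q ∈ s, g q := by
  have h1 : Finset.powersetCard m (Finset.univ : Finset ι) =
      (Finset.powersetCard m (Finset.univ : Finset ι)).map
        (Finset.mapEmbedding σ.toEmbedding).toEmbedding := by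
    rw [← Finset.powersetCard_map, Finset.map_univ_equiv]
  conv_rhs => rw [h1]
  rw [Finset.sum_map]
  refine Finset.sum_congr rfl fun s _ ↦ ?_
  simp [Finset.mapEmbedding_apply]

/-- Reindexing lemma for the interpolation sums. -/
lemma sum_mul_sum_powersetCard_erase_comp [Fintype ι] [DecidableEq ι]
    (σ : Equiv.Perm ι) (a b : ι → R) (m : ℕ) :
    ∑ q, a (σ q) * ∑ s ∈ Finset.powersetCard m (Finset.univ.erase q), ∏ q' ∈ s, b (σ q') =
      ∑ q, a q * ∑ s ∈ Finset.powersetCard m (Finset.univ.erase q), ∏ q' ∈ s, b q' := by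
  rw [← Equiv.sum_comp σ (fun q ↦ a q *
    ∑ s ∈ Finset.powersetCard m (Finset.univ.erase q), ∏ q' ∈ s, b q')]
  refine Finset.sum_congr rfl fun q _ ↦ ?_
  congr 1
  have h1 : Finset.powersetCard m (Finset.univ.erase (σ q)) =
      (Finset.powersetCard m (Finset.univ.erase q)).map
        (Finset.mapEmbedding σ.toEmbedding).toEmbedding := by
    rw [← Finset.powersetCard_map]
    congr 1
    ext x
    simp [Finset.mem_erase]
  rw [h1, Finset.sum_map]
  refine Finset.sum_congr rfl fun s _ ↦ ?_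
  simp [Finset.mapEmbedding_apply]

end algebra

/-! ### Translates -/

section translates

lemma quotientFunc_one [SlashInvariantFormClass F 𝒢 k] :
    quotientFunc (ℋ := ℋ) f ((1 : ℋ) : 𝒬) = f := by
  change quotientFunc f ⟦(1 : ℋ)⟧ = f
  rw [quotientFunc_mk]
  simp

variable (ℋ)

lemma mdifferentiable_quotientFunc [ModularFormClass F 𝒢 k] (q : 𝒬) :
    MDiff (quotientFunc f q) := by
  induction q using Quotient.inductionOn with
  | h r => exact (ModularForm.translate f r.val⁻¹).holo'

/-- Translates of a modular form are bounded at `i∞` after slashing with any `γ` mapping `∞` to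
a cusp of `ℋ`. -/
lemma isBoundedAtImInfty_quotientFunc_slash [𝒢.IsFiniteRelIndex ℋ] [ModularFormClass F 𝒢 k]
    (q : 𝒬) {γ : GL (Fin 2) ℝ} (hγ : IsCusp (γ • OnePoint.infty) ℋ) :
    IsBoundedAtImInfty (quotientFunc f q ∣[k] γ) := by
  induction q using Quotient.inductionOn with
  | h r =>
    obtain ⟨r, hr⟩ := r
    refine (ModularForm.translate f _).bdd_at_cusps' ?_ γ rfl
    simpa using hγ.of_isFiniteRelIndex_conj hr

lemma isZeroAtImInfty_quotientFunc_slash [𝒢.IsFiniteRelIndex ℋ] [CuspFormClass F 𝒢 k]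
    (q : 𝒬) {γ : GL (Fin 2) ℝ} (hγ : IsCusp (γ • OnePoint.infty) ℋ) :
    IsZeroAtImInfty (quotientFunc f q ∣[k] γ) := by
  induction q using Quotient.inductionOn with
  | h r =>
    obtain ⟨r, hr⟩ := r
    refine (CuspForm.translate f _).zero_at_cusps' ?_ γ rfl
    simpa using hγ.of_isFiniteRelIndex_conj hr

end translates

/-! ### Elementary symmetric functions of the translates -/

section esymm

variable (ℋ) [𝒢.IsFiniteRelIndex ℋ]

/-- The `m`-th elementary symmetric function of the translates of `f`. -/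
def esymmFun [SlashInvariantFormClass F 𝒢 k] (m : ℕ) : ℍ → ℂ :=
  let := Fintype.ofFinite 𝒬
  ∑ s ∈ Finset.powersetCard m (Finset.univ : Finset 𝒬), ∏ q ∈ s, quotientFunc f q

variable {ℋ} in
lemma esymmFun_eq [SlashInvariantFormClass F 𝒢 k] [Fintype 𝒬] (m : ℕ) :
    esymmFun ℋ f m =
      ∑ s ∈ Finset.powersetCard m (Finset.univ : Finset 𝒬), ∏ q ∈ s, quotientFunc f q := by
  unfold esymmFun
  congr!

variable {ℋ} in
lemma esymmFun_slash [SlashInvariantFormClass F 𝒢 k] [ℋ.HasDetPlusMinusOne] (m : ℕ)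
    {h : GL (Fin 2) ℝ} (hh : h ∈ ℋ) :
    esymmFun ℋ f m ∣[k * m] h = esymmFun ℋ f m := by
  classical
  let := Fintype.ofFinite 𝒬
  rw [esymmFun_eq, SlashAction.sum_slash]
  have key : ∀ s ∈ Finset.powersetCard m (Finset.univ : Finset 𝒬),
      (∏ q ∈ s, quotientFunc f q) ∣[k * m] h =
        ∏ q ∈ s, quotientFunc f ((MulAction.toPerm (⟨h, hh⟩ : ℋ)⁻¹) q) := by
    intro s hs
    rw [Finset.mem_powersetCard] at hs
    rw [← hs.2, ModularForm.prod_slash]
    simp [quotientFunc_smul f hh, Subgroup.HasDetPlusMinusOne.abs_det hh,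
      -Matrix.GeneralLinearGroup.val_det_apply]
  rw [Finset.sum_congr rfl key]
  exact sum_powersetCard_prod_comp _ (fun q ↦ quotientFunc f q) m

lemma mdifferentiable_esymmFun [ModularFormClass F 𝒢 k] (m : ℕ) :
    MDiff (esymmFun ℋ f m) := by
  let := Fintype.ofFinite 𝒬
  rw [esymmFun_eq]
  exact .sum fun s _ ↦ .prod fun q _ ↦ mdifferentiable_quotientFunc ℋ f q

/-- The elementary symmetric functions of translates of a modular form, as a modular form. -/
def esymmMF [ℋ.HasDetPlusMinusOne] [ModularFormClass F 𝒢 k] (m : ℕ) :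
    ModularForm ℋ (k * m) where
  toFun := esymmFun ℋ f m
  slash_action_eq' _ hh := esymmFun_slash f m hh
  holo' := mdifferentiable_esymmFun ℋ f m
  bdd_at_cusps' h γ := by
    rintro rfl
    let := Fintype.ofFinite 𝒬
    change IsBoundedAtImInfty (esymmFun ℋ f m ∣[k * m] γ)
    rw [esymmFun_eq, SlashAction.sum_slash, IsBoundedAtImInfty, Filter.BoundedAtFilter,
      Finset.sum_fn]
    refine .fun_sum fun s hs ↦ ?_
    rw [Finset.mem_powersetCard] at hs
    rw [← hs.2, ModularForm.prod_slash]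
    apply Asymptotics.IsBigO.const_smul_left
    rw [show (1 : ℍ → ℝ) = (fun x ↦ ∏ (i ∈ s), 1) by ext; simp, Finset.prod_fn]
    exact .finsetProd fun q _ ↦ isBoundedAtImInfty_quotientFunc_slash ℋ f q h

@[simp] lemma coe_esymmMF [ℋ.HasDetPlusMinusOne] [ModularFormClass F 𝒢 k] (m : ℕ) :
    ⇑(esymmMF ℋ f m) = esymmFun ℋ f m := rfl

/-- The elementary symmetric functions (of positive degree) of translates of a cusp form, as a
cusp form. -/
def esymmCF [ℋ.HasDetPlusMinusOne] [CuspFormClass F 𝒢 k] (m : ℕ) (hm : m ≠ 0) :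
    CuspForm ℋ (k * m) where
  __ := esymmMF ℋ f m
  zero_at_cusps' h γ := by
    rintro rfl
    let := Fintype.ofFinite 𝒬
    change IsZeroAtImInfty (esymmFun ℋ f m ∣[k * m] γ)
    rw [esymmFun_eq, SlashAction.sum_slash, IsZeroAtImInfty, Filter.ZeroAtFilter,
      Finset.sum_fn]
    rw [show (0 : ℂ) = ∑ s ∈ Finset.powersetCard m (Finset.univ : Finset 𝒬), 0 by simp]
    refine tendsto_finsetSum _ fun s hs ↦ ?_
    rw [Finset.mem_powersetCard] at hs
    have hs0 : s.card ≠ 0 := by rw [hs.2]; exact hm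
    rw [← hs.2, ModularForm.prod_slash]
    have h0 : (0 : ℂ) = |(Matrix.GeneralLinearGroup.det γ : ℝ)| ^ ((s.card : ℤ) - 1) •
        ∏ q ∈ s, (0 : ℂ) := by
      rw [Finset.prod_const, zero_pow hs0, smul_zero]
    rw [h0]
    have h1 : Filter.Tendsto (fun z ↦ ∏ q ∈ s, (quotientFunc f q ∣[k] γ) z) atImInfty
        (nhds (∏ q ∈ s, (0 : ℂ))) :=
      tendsto_finsetProd _ fun q _ ↦ isZeroAtImInfty_quotientFunc_slash ℋ f q h
    have h2 := h1.const_smul (|(Matrix.GeneralLinearGroup.det γ : ℝ)| ^ ((s.card : ℤ) - 1))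
    refine h2.congr fun z ↦ ?_
    simp [Finset.prod_apply]

@[simp] lemma coe_esymmCF [ℋ.HasDetPlusMinusOne] [CuspFormClass F 𝒢 k] (m : ℕ) (hm : m ≠ 0) :
    ⇑(esymmCF ℋ f m hm) = esymmFun ℋ f m := rfl

/-- `f` is a root of the monic polynomial `∑ (-1)^j e_j X^(d-j)`, `d = [ℋ : 𝒢 ⊓ ℋ]`, whose
coefficients are the elementary symmetric functions of the translates of `f`. -/
theorem sum_esymmFun_mul_pow_eq_zero [SlashInvariantFormClass F 𝒢 k] (z : ℍ) :
    ∑ j ∈ Finset.range (Nat.card 𝒬 + 1),
      (-1) ^ j * esymmFun ℋ f j z * (f : ℍ → ℂ) z ^ (Nat.card 𝒬 - j) = 0 := by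
  classical
  let := Fintype.ofFinite 𝒬
  have h := prod_sub_eq_sum_esymm (Finset.univ : Finset 𝒬) (fun q ↦ quotientFunc f q z)
    ((f : ℍ → ℂ) z)
  rw [Finset.card_univ, ← Nat.card_eq_fintype_card] at h
  have h0 : ∏ q : 𝒬, ((f : ℍ → ℂ) z - quotientFunc f q z) = 0 :=
    Finset.prod_eq_zero (Finset.mem_univ ((1 : ℋ) : 𝒬)) (by rw [quotientFunc_one]; simp)
  rw [h0] at h
  rw [h]
  refine Finset.sum_congr rfl fun j _ ↦ ?_
  rw [esymmFun_eq, Finset.sum_apply]
  simp [Finset.prod_apply]

end esymm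

/-! ### Lagrange interpolation -/

section interp

variable {F' : Type*} (t : F') [FunLike F' ℍ ℂ] {w : ℤ}

variable (ℋ) [𝒢.IsFiniteRelIndex ℋ]

/-- The coefficients of the Lagrange interpolation polynomial
`∑_q f_q ∏_{q' ≠ q} (X - t_{q'})` (up to sign): `interpFun f t m` is, up to the sign `(-1)^m`,
the coefficient of `X^(d-1-m)`. -/
def interpFun [SlashInvariantFormClass F 𝒢 k] [SlashInvariantFormClass F' 𝒢 w] (m : ℕ) :
    ℍ → ℂ :=
  open Classical in
  let := Fintype.ofFinite 𝒬
  ∑ q : 𝒬, quotientFunc f q *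
    ∑ s ∈ Finset.powersetCard m (Finset.univ.erase q), ∏ q' ∈ s, quotientFunc t q'

variable {ℋ} in
lemma interpFun_eq [SlashInvariantFormClass F 𝒢 k] [SlashInvariantFormClass F' 𝒢 w]
    [Fintype 𝒬] [DecidableEq 𝒬] (m : ℕ) :
    interpFun ℋ f t m = ∑ q : 𝒬, quotientFunc f q *
      ∑ s ∈ Finset.powersetCard m (Finset.univ.erase q), ∏ q' ∈ s, quotientFunc t q' := by
  unfold interpFun
  congr!

variable {ℋ} in
lemma interpFun_slash [SlashInvariantFormClass F 𝒢 k] [SlashInvariantFormClass F' 𝒢 w]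
    [ℋ.HasDetPlusMinusOne] (m : ℕ) {h : GL (Fin 2) ℝ} (hh : h ∈ ℋ) :
    interpFun ℋ f t m ∣[k + w * m] h = interpFun ℋ f t m := by
  classical
  let := Fintype.ofFinite 𝒬
  rw [interpFun_eq, SlashAction.sum_slash]
  have key : ∀ q : 𝒬,
      (quotientFunc f q * ∑ s ∈ Finset.powersetCard m (Finset.univ.erase q),
        ∏ q' ∈ s, quotientFunc t q') ∣[k + w * m] h =
      quotientFunc f ((MulAction.toPerm (⟨h, hh⟩ : ℋ)⁻¹) q) *
        ∑ s ∈ Finset.powersetCard m (Finset.univ.erase q),
          ∏ q' ∈ s, quotientFunc t ((MulAction.toPerm (⟨h, hh⟩ : ℋ)⁻¹) q') := by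
    intro q
    rw [ModularForm.mul_slash, SlashAction.sum_slash, quotientFunc_smul f hh,
      Subgroup.HasDetPlusMinusOne.abs_det hh, one_smul]
    congr 1
    refine Finset.sum_congr rfl fun s hs ↦ ?_
    rw [Finset.mem_powersetCard] at hs
    rw [← hs.2, ModularForm.prod_slash]
    simp [quotientFunc_smul t hh, Subgroup.HasDetPlusMinusOne.abs_det hh,
      -Matrix.GeneralLinearGroup.val_det_apply]
  rw [Finset.sum_congr rfl fun q _ ↦ key q]
  exact sum_mul_sum_powersetCard_erase_comp _ (fun q ↦ quotientFunc f q)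
    (fun q ↦ quotientFunc t q) m

lemma mdifferentiable_interpFun [ModularFormClass F 𝒢 k] [ModularFormClass F' 𝒢 w] (m : ℕ) :
    MDiff (interpFun ℋ f t m) := by
  classical
  let := Fintype.ofFinite 𝒬
  rw [interpFun_eq]
  exact .sum fun q _ ↦ (mdifferentiable_quotientFunc ℋ f q).mul
    (.sum fun s _ ↦ .prod fun q' _ ↦ mdifferentiable_quotientFunc ℋ t q')

/-- The coefficients of the Lagrange interpolation polynomial, as modular forms for `ℋ`. -/
def interpMF [ℋ.HasDetPlusMinusOne] [ModularFormClass F 𝒢 k] [ModularFormClass F' 𝒢 w]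
    (m : ℕ) : ModularForm ℋ (k + w * m) where
  toFun := interpFun ℋ f t m
  slash_action_eq' _ hh := interpFun_slash f t m hh
  holo' := mdifferentiable_interpFun ℋ f t m
  bdd_at_cusps' h γ := by
    rintro rfl
    classical
    let := Fintype.ofFinite 𝒬
    change IsBoundedAtImInfty (interpFun ℋ f t m ∣[k + w * m] γ)
    rw [interpFun_eq, SlashAction.sum_slash, IsBoundedAtImInfty, Filter.BoundedAtFilter,
      Finset.sum_fn]
    refine .fun_sum fun q _ ↦ ?_
    rw [ModularForm.mul_slash, SlashAction.sum_slash]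
    apply Asymptotics.IsBigO.const_smul_left
    refine Filter.BoundedAtFilter.mul (isBoundedAtImInfty_quotientFunc_slash ℋ f q h) ?_
    rw [Filter.BoundedAtFilter, Finset.sum_fn]
    refine .fun_sum fun s hs ↦ ?_
    rw [Finset.mem_powersetCard] at hs
    rw [← hs.2, ModularForm.prod_slash]
    apply Asymptotics.IsBigO.const_smul_left
    rw [show (1 : ℍ → ℝ) = (fun x ↦ ∏ (i ∈ s), 1) by ext; simp, Finset.prod_fn]
    exact .finsetProd fun q' _ ↦ isBoundedAtImInfty_quotientFunc_slash ℋ t q' h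

@[simp] lemma coe_interpMF [ℋ.HasDetPlusMinusOne] [ModularFormClass F 𝒢 k]
    [ModularFormClass F' 𝒢 w] (m : ℕ) : ⇑(interpMF ℋ f t m) = interpFun ℋ f t m := rfl

/-- The "derivative of the characteristic polynomial of `t`, evaluated at `t`":
`∏_{q ≠ 1} (t - t_q)`. -/
def charDerivFun [SlashInvariantFormClass F' 𝒢 w] : ℍ → ℂ := fun z ↦
  open Classical in
  let := Fintype.ofFinite 𝒬
  ∏ q ∈ (Finset.univ : Finset 𝒬).erase ((1 : ℋ) : 𝒬), ((t : ℍ → ℂ) z - quotientFunc t q z)

variable {ℋ} in
lemma charDerivFun_apply [SlashInvariantFormClass F' 𝒢 w] [Fintype 𝒬] [DecidableEq 𝒬]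
    (z : ℍ) :
    charDerivFun ℋ t z =
      ∏ q ∈ (Finset.univ : Finset 𝒬).erase ((1 : ℋ) : 𝒬),
        ((t : ℍ → ℂ) z - quotientFunc t q z) := by
  unfold charDerivFun
  congr!

/-- If all the nontrivial translates of `t` differ from `t`, then `∏_{q ≠ 1} (t - t_q)` is not
identically zero. -/
lemma charDerivFun_ne_zero [ModularFormClass F' 𝒢 w]
    (ht : ∀ q : 𝒬, q ≠ ((1 : ℋ) : 𝒬) → quotientFunc t q ≠ (t : ℍ → ℂ)) :
    charDerivFun ℋ t ≠ 0 := by
  classical
  let := Fintype.ofFinite 𝒬
  have h1 : charDerivFun ℋ t = ∏ q ∈ (Finset.univ : Finset 𝒬).erase ((1 : ℋ) : 𝒬),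
      ((t : ℍ → ℂ) - quotientFunc t q) := by
    ext z
    rw [charDerivFun_apply, Finset.prod_apply]
    rfl
  rw [h1, Ne, UpperHalfPlane.prod_eq_zero_iff]
  · rintro ⟨q, hq, h0⟩
    exact ht q (Finset.ne_of_mem_erase hq) (sub_eq_zero.mp h0).symm
  · intro q _
    exact (ModularFormClass.holo t).sub (mdifferentiable_quotientFunc ℋ t q)

/-- **Lagrange interpolation**: `f * ∏_{q ≠ 1} (t - t_q) = ∑_m (-1)^m a_m t^(d-1-m)`, where the
`a_m = interpFun ℋ f t m` are modular forms for `ℋ` of weight `k + w * m`. -/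
theorem sum_interpFun_mul_pow [SlashInvariantFormClass F 𝒢 k] [SlashInvariantFormClass F' 𝒢 w]
    (z : ℍ) :
    ∑ m ∈ Finset.range (Nat.card 𝒬),
      (-1) ^ m * interpFun ℋ f t m z * (t : ℍ → ℂ) z ^ (Nat.card 𝒬 - 1 - m) =
    (f : ℍ → ℂ) z * charDerivFun ℋ t z := by
  classical
  let := Fintype.ofFinite 𝒬
  have hcard : ∀ q : 𝒬, ((Finset.univ : Finset 𝒬).erase q).card = Nat.card 𝒬 - 1 := by
    intro q
    rw [Finset.card_erase_of_mem (Finset.mem_univ _), Finset.card_univ,
      Nat.card_eq_fintype_card]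
  have hpos : 0 < Nat.card 𝒬 := Nat.card_pos
  have hV : ∀ q : 𝒬, ∏ q' ∈ (Finset.univ : Finset 𝒬).erase q,
      ((t : ℍ → ℂ) z - quotientFunc t q' z) =
      ∑ m ∈ Finset.range (Nat.card 𝒬), (-1) ^ m *
        (∑ s ∈ Finset.powersetCard m ((Finset.univ : Finset 𝒬).erase q),
          ∏ q' ∈ s, quotientFunc t q' z) * (t : ℍ → ℂ) z ^ (Nat.card 𝒬 - 1 - m) := by
    intro q
    rw [prod_sub_eq_sum_esymm, hcard q, Nat.sub_add_cancel hpos]
  -- the right-hand side is the sum over all `q`, only `q = 1` contributing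
  have h1 : (f : ℍ → ℂ) z * charDerivFun ℋ t z =
      ∑ q : 𝒬, quotientFunc f q z * ∏ q' ∈ (Finset.univ : Finset 𝒬).erase q,
        ((t : ℍ → ℂ) z - quotientFunc t q' z) := by
    rw [Finset.sum_eq_single ((1 : ℋ) : 𝒬), quotientFunc_one, charDerivFun_apply]
    · intro q _ hq
      rw [Finset.prod_eq_zero (i := ((1 : ℋ) : 𝒬)), mul_zero]
      · exact Finset.mem_erase.mpr ⟨fun h ↦ hq h.symm, Finset.mem_univ _⟩
      · rw [quotientFunc_one]; simp
    · intro h; exact absurd (Finset.mem_univ _) h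
  rw [h1]
  have h2 : ∀ q : 𝒬, quotientFunc f q z * ∏ q' ∈ (Finset.univ : Finset 𝒬).erase q,
      ((t : ℍ → ℂ) z - quotientFunc t q' z) =
      ∑ m ∈ Finset.range (Nat.card 𝒬), (-1) ^ m * (quotientFunc f q z *
        (∑ s ∈ Finset.powersetCard m ((Finset.univ : Finset 𝒬).erase q),
          ∏ q' ∈ s, quotientFunc t q' z)) * (t : ℍ → ℂ) z ^ (Nat.card 𝒬 - 1 - m) := by
    intro q
    rw [hV q, Finset.mul_sum]
    exact Finset.sum_congr rfl fun m _ ↦ by ring
  rw [Finset.sum_congr rfl fun q _ ↦ h2 q, Finset.sum_comm]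
  refine Finset.sum_congr rfl fun m _ ↦ ?_
  rw [interpFun_eq, Finset.sum_apply, Finset.mul_sum, Finset.sum_mul]
  refine Finset.sum_congr rfl fun q _ ↦ ?_
  simp only [Pi.mul_apply, Finset.sum_apply, Finset.prod_apply]

/-- The special case `f = 1` of Lagrange interpolation: `∏_{q ≠ 1} (t - t_q)` is a polynomial in
`t` whose coefficients are modular forms for `ℋ`. -/
theorem sum_interpFun_one_mul_pow [𝒢.HasDetPlusMinusOne] [SlashInvariantFormClass F' 𝒢 w]
    (z : ℍ) :
    ∑ m ∈ Finset.range (Nat.card 𝒬),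
      (-1) ^ m * interpFun ℋ (1 : ModularForm 𝒢 0) t m z *
        (t : ℍ → ℂ) z ^ (Nat.card 𝒬 - 1 - m) = charDerivFun ℋ t z := by
  rw [sum_interpFun_mul_pow ℋ (1 : ModularForm 𝒢 0) t z]
  simp [ModularForm.one_coe_eq_one]

end interp

/-! ### Packaged statements -/

section packaged

variable {F' : Type*} (t : F') [FunLike F' ℍ ℂ] {w : ℤ}

/-- **Monic equation** (packaged, for cusp forms for an arithmetic subgroup `𝒢`): a cusp form `f`
of weight `k` satisfies `f ^ n + ∑_{m = 1}^{n} b_m f ^ (n - m) = 0` where `b_m` is a level one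
cusp form of weight `k * m`. -/
theorem exists_monic_cusp [𝒢.IsArithmetic] [CuspFormClass F 𝒢 k] :
    ∃ (n : ℕ) (b : (m : ℕ) → CuspForm 𝒮ℒ (k * m)), 0 < n ∧
      ∀ τ : ℍ, (f : ℍ → ℂ) τ ^ n +
        ∑ m ∈ Finset.Icc 1 n, b m τ * (f : ℍ → ℂ) τ ^ (n - m) = 0 := by
  classical
  refine ⟨Nat.card (𝒮ℒ ⧸ 𝒢.subgroupOf 𝒮ℒ),
    fun m ↦ if hm : m = 0 then 0 else ((-1 : ℂ) ^ m) • esymmCF 𝒮ℒ f m hm, Nat.card_pos,
    fun τ ↦ ?_⟩
  have h := sum_esymmFun_mul_pow_eq_zero 𝒮ℒ f τ
  rw [Finset.range_eq_Ico, Finset.sum_eq_sum_Ico_succ_bot (Nat.succ_pos _)] at h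
  have h0 : esymmFun 𝒮ℒ f 0 τ = 1 := by
    let := Fintype.ofFinite (𝒮ℒ ⧸ 𝒢.subgroupOf 𝒮ℒ)
    rw [esymmFun_eq]
    simp
  rw [h0] at h
  simp only [pow_zero, one_mul, Nat.sub_zero] at h
  rw [← h]
  congr 1
  refine Finset.sum_congr (by ext; simp [Nat.succ_le_iff]) fun m hm ↦ ?_
  have hm0 : m ≠ 0 := by
    have := (Finset.mem_Icc.mp hm).1
    omega
  simp [hm0]

/-- **Lagrange interpolation** (packaged, for an arithmetic subgroup `𝒢`, e.g. the image of
`Gamma0 N`): if no nontrivial `𝒮ℒ`-translate of `t` equals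
`t`, then there is `D = ∑_{m < n} c_m t ^ (n - 1 - m) ≢ 0` with `c_m` of level one and
weight `w * m`, such that `f * D = ∑_{m < n} a_m t ^ (n - 1 - m)` with `a_m` of level one and
weight `k + w * m`. -/
theorem exists_lagrange [𝒢.IsArithmetic] [ModularFormClass F 𝒢 k] [ModularFormClass F' 𝒢 w]
    (ht : ∀ q : 𝒮ℒ ⧸ 𝒢.subgroupOf 𝒮ℒ, q ≠ ((1 : 𝒮ℒ) : 𝒮ℒ ⧸ 𝒢.subgroupOf 𝒮ℒ) →
      quotientFunc t q ≠ (t : ℍ → ℂ)) :
    ∃ (n : ℕ) (a : (m : ℕ) → ModularForm 𝒮ℒ (k + w * m))
      (c : (m : ℕ) → ModularForm 𝒮ℒ (w * m)), 0 < n ∧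
      (∃ τ : ℍ, ∑ m ∈ Finset.range n, c m τ * (t : ℍ → ℂ) τ ^ (n - 1 - m) ≠ 0) ∧
      ∀ τ : ℍ, (f : ℍ → ℂ) τ * (∑ m ∈ Finset.range n, c m τ * (t : ℍ → ℂ) τ ^ (n - 1 - m)) =
        ∑ m ∈ Finset.range n, a m τ * (t : ℍ → ℂ) τ ^ (n - 1 - m) := by
  have hD : ∀ τ : ℍ, ∑ m ∈ Finset.range (Nat.card (𝒮ℒ ⧸ 𝒢.subgroupOf 𝒮ℒ)),
      (ModularForm.mcast (zero_add _)
        (((-1 : ℂ) ^ m) • interpMF 𝒮ℒ (1 : ModularForm 𝒢 0) t m) :
          ModularForm 𝒮ℒ (w * m)) τ *
        (t : ℍ → ℂ) τ ^ (Nat.card (𝒮ℒ ⧸ 𝒢.subgroupOf 𝒮ℒ) - 1 - m) = charDerivFun 𝒮ℒ t τ := by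
    intro τ
    rw [← sum_interpFun_one_mul_pow 𝒮ℒ t τ]
    refine Finset.sum_congr rfl fun m _ ↦ ?_
    simp
  refine ⟨Nat.card (𝒮ℒ ⧸ 𝒢.subgroupOf 𝒮ℒ), fun m ↦ ((-1 : ℂ) ^ m) • interpMF 𝒮ℒ f t m,
    fun m ↦ ModularForm.mcast (zero_add _)
      (((-1 : ℂ) ^ m) • interpMF 𝒮ℒ (1 : ModularForm 𝒢 0) t m), Nat.card_pos, ?_, fun τ ↦ ?_⟩
  · by_contra hcon
    rw [not_exists] at hcon
    replace hcon := fun τ ↦ not_not.mp (hcon τ)
    refine charDerivFun_ne_zero 𝒮ℒ t ht ?_
    ext τ
    rw [← hD τ, hcon τ]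
    rfl
  · rw [hD τ, ← sum_interpFun_mul_pow 𝒮ℒ f t τ]
    refine Finset.sum_congr rfl fun m _ ↦ ?_
    simp

end packaged

end Fermat.Agent.S23.H503

end
end
-- ===== PACK-END S23/H503/Lagrange.lean

-- ===== PACK-BEGIN S23/FixedField.lean
section


set_option autoImplicit false
set_option linter.style.haveILetI false

/-!
# An element of `ℂ` fixed by every ring automorphism of `ℂ` is rational.
-/

namespace Fermat.Agent.S23

open MvPolynomial

theorem exists_ringEquiv_ne_of_transcendental (x : ℂ) (hx : Transcendental ℚ x) :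
    ∃ σ : ℂ ≃+* ℂ, σ x ≠ x := by
  have hs : AlgebraicIndepOn ℚ id ({x} : Set ℂ) := by
    have : AlgebraicIndependent ℚ (fun i : ({x} : Set ℂ) => (i : ℂ)) := by
      rw [algebraicIndependent_unique_type_iff]
      exact hx
    exact this
  obtain ⟨t, hst, ht⟩ := exists_isTranscendenceBasis_superset hs
  let i₀ : t := ⟨x, hst (Set.mem_singleton x)⟩
  let _ := IsAlgClosed.isAlgClosure_of_transcendence_basis (Subtype.val : t → ℂ) ht
  let f : t → MvPolynomial t ℚ := fun i => if i = i₀ then X i + 1 else X i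
  let g : t → MvPolynomial t ℚ := fun i => if i = i₀ then X i - 1 else X i
  let ψ : MvPolynomial t ℚ ≃ₐ[ℚ] MvPolynomial t ℚ :=
    AlgEquiv.ofAlgHom (aeval f) (aeval g)
      (by
        ext i
        by_cases h : i = i₀
        · simp [f, g, h]
        · simp [f, g, h])
      (by
        ext i
        by_cases h : i = i₀
        · simp [f, g, h]
        · simp [f, g, h])
  let e : Algebra.adjoin ℚ (Set.range (Subtype.val : t → ℂ)) ≃+*
      Algebra.adjoin ℚ (Set.range (Subtype.val : t → ℂ)) :=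
    (ht.1.aevalEquiv.symm.trans (ψ.trans ht.1.aevalEquiv)).toRingEquiv
  refine ⟨IsAlgClosure.equivOfEquiv ℂ ℂ e, ?_⟩
  have hxmem : x ∈ Algebra.adjoin ℚ (Set.range (Subtype.val : t → ℂ)) :=
    Algebra.subset_adjoin ⟨i₀, rfl⟩
  have h1 : (IsAlgClosure.equivOfEquiv ℂ ℂ e) x =
      ((e ⟨x, hxmem⟩ : Algebra.adjoin ℚ (Set.range (Subtype.val : t → ℂ))) : ℂ) := by
    have := IsAlgClosure.equivOfEquiv_algebraMap ℂ ℂ e ⟨x, hxmem⟩
    simpa using this
  have h3 : ht.1.aevalEquiv.symm ⟨x, hxmem⟩ = X i₀ := by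
    apply ht.1.aevalEquiv.injective
    rw [AlgEquiv.apply_symm_apply]
    ext
    simp [i₀]
  have h2 : ((e ⟨x, hxmem⟩ : Algebra.adjoin ℚ (Set.range (Subtype.val : t → ℂ))) : ℂ) = x + 1 := by
    have : e ⟨x, hxmem⟩ = ht.1.aevalEquiv (ψ (ht.1.aevalEquiv.symm ⟨x, hxmem⟩)) := rfl
    rw [this, h3]
    simp [ψ, f, i₀]
  rw [h1, h2]
  simp

theorem exists_ringEquiv_ne_of_algebraic (x : ℂ) (hx : IsAlgebraic ℚ x)
    (hx' : x ∉ Set.range (algebraMap ℚ ℂ)) :
    ∃ σ : ℂ ≃+* ℂ, σ x ≠ x := by
  have hxA : x ∈ algebraicClosure ℚ ℂ := mem_algebraicClosure_iff.mpr hx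
  haveI hcl : IsAlgClosure ℚ (algebraicClosure ℚ ℂ) := algebraicClosure.isAlgClosure ℚ ℂ
  haveI : IsAlgClosed (algebraicClosure ℚ ℂ) := hcl.isAlgClosed
  haveI : Normal ℚ (algebraicClosure ℚ ℂ) := IsAlgClosure.normal ℚ _
  have hx'' : (⟨x, hxA⟩ : algebraicClosure ℚ ℂ) ∉ (⊥ : Subalgebra ℚ (algebraicClosure ℚ ℂ)) := by
    intro h
    rw [Algebra.mem_bot] at h
    obtain ⟨r, hr⟩ := h
    apply hx'
    refine ⟨r, ?_⟩
    have := congrArg (fun z : algebraicClosure ℚ ℂ => (z : ℂ)) hr
    simpa using this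
  have hsep : IsSeparable ℚ (⟨x, hxA⟩ : algebraicClosure ℚ ℂ) :=
    Algebra.IsSeparable.isSeparable ℚ _
  have hsplit : ((minpoly ℚ (⟨x, hxA⟩ : algebraicClosure ℚ ℂ)).map
      (algebraMap ℚ (algebraicClosure ℚ ℂ))).Splits := IsAlgClosed.splits _
  obtain ⟨y, hne, hconj⟩ := (notMem_iff_exists_ne_and_isConjRoot hsep hsplit).mp hx''
  obtain ⟨τ, hτ⟩ := hconj.exists_algEquiv
  obtain ⟨ι, v, hv⟩ := exists_isTranscendenceBasis' (algebraicClosure ℚ ℂ) ℂ
  let _ := IsAlgClosed.isAlgClosure_of_transcendence_basis v hv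
  let e : Algebra.adjoin (algebraicClosure ℚ ℂ) (Set.range v) ≃+*
      Algebra.adjoin (algebraicClosure ℚ ℂ) (Set.range v) :=
    hv.1.aevalEquiv.symm.toRingEquiv.trans
      ((MvPolynomial.mapEquiv ι τ.toRingEquiv).trans hv.1.aevalEquiv.toRingEquiv)
  refine ⟨(IsAlgClosure.equivOfEquiv ℂ ℂ e).symm, ?_⟩
  -- τ y = x', so e maps y to x; hence σ = (ext e)⁻¹ maps x to y ≠ x
  have hymem : (y : ℂ) ∈ Algebra.adjoin (algebraicClosure ℚ ℂ) (Set.range v) :=
    Subalgebra.algebraMap_mem _ y
  have hxmem : x ∈ Algebra.adjoin (algebraicClosure ℚ ℂ) (Set.range v) :=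
    Subalgebra.algebraMap_mem _ (⟨x, hxA⟩ : algebraicClosure ℚ ℂ)
  have h3 : hv.1.aevalEquiv.symm ⟨(y : ℂ), hymem⟩ = C y := by
    apply hv.1.aevalEquiv.injective
    rw [AlgEquiv.apply_symm_apply]
    ext
    simp
  have h2 : e ⟨(y : ℂ), hymem⟩ = ⟨x, hxmem⟩ := by
    have : e ⟨(y : ℂ), hymem⟩ = hv.1.aevalEquiv
        ((MvPolynomial.mapEquiv ι τ.toRingEquiv) (hv.1.aevalEquiv.symm ⟨(y : ℂ), hymem⟩)) := rfl
    rw [this, h3]
    ext
    simp [hτ]
  have h1 : (IsAlgClosure.equivOfEquiv ℂ ℂ e) (y : ℂ) = x := by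
    have := IsAlgClosure.equivOfEquiv_algebraMap ℂ ℂ e ⟨(y : ℂ), hymem⟩
    rw [h2] at this
    simpa using this
  intro h
  apply hne
  have h4 : (IsAlgClosure.equivOfEquiv ℂ ℂ e).symm x = (y : ℂ) := by
    rw [← h1, RingEquiv.symm_apply_apply]
  rw [h4] at h
  exact Subtype.ext h.symm

/-- **Fixed field of `Aut(ℂ)`**: a complex number which is not rational is moved by some ring
automorphism of `ℂ`. -/
theorem exists_ringEquiv_ne (x : ℂ) (hx : x ∉ Set.range (algebraMap ℚ ℂ)) :
    ∃ σ : ℂ ≃+* ℂ, σ x ≠ x := by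
  by_cases h : IsAlgebraic ℚ x
  · exact exists_ringEquiv_ne_of_algebraic x h hx
  · exact exists_ringEquiv_ne_of_transcendental x h

/-- A complex number fixed by every ring automorphism of `ℂ` is rational. -/
theorem mem_range_ratCast_of_forall_ringEquiv (x : ℂ) (hx : ∀ σ : ℂ ≃+* ℂ, σ x = x) :
    ∃ r : ℚ, (r : ℂ) = x := by
  by_contra h
  obtain ⟨σ, hσ⟩ := exists_ringEquiv_ne x (by
    rintro ⟨r, hr⟩
    exact h ⟨r, by simpa using hr⟩)
  exact hσ (hx σ)

end Fermat.Agent.S23

end
-- ===== PACK-END S23/FixedField.lean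

-- ===== PACK-BEGIN S49/LinAlg.lean
section


set_option autoImplicit false

namespace Fermat.Agent.S49

/-- Auxiliary statement for `exists_eigenvector_ker_le'`: induction over invariant subspaces. -/
theorem exists_eigenvector_aux {K V A : Type*} [Field K] [IsAlgClosed K]
    [AddCommGroup V] [Module K V] [FiniteDimensional K V]
    [CommRing A] (ρ : A →+* Module.End K V) (𝔫 : Ideal A) [h𝔫 : 𝔫.IsPrime] :
    ∀ (n : ℕ) (W : Submodule K V), Module.finrank K W = n → W ≠ ⊥ →
      (∀ t : A, ∀ w ∈ W, ρ t w ∈ W) →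
      (∀ t : A, (∀ w ∈ W, ρ t w = 0) → t ∈ 𝔫) →
      ∃ (g : V) (χ : A →+* K), g ≠ 0 ∧ (∀ t, ρ t g = χ t • g) ∧ RingHom.ker χ ≤ 𝔫 := by
  intro n
  induction n using Nat.strong_induction_on with
  | _ n ih =>
    intro W hWn hW0 hstab hann
    have hcomm : ∀ s t : A, ∀ w : V, ρ s (ρ t w) = ρ t (ρ s w) := by
      intro s t w
      rw [← Module.End.mul_apply, ← Module.End.mul_apply, ← map_mul, ← map_mul, mul_comm]
    by_cases hsc : ∀ t : A, ∃ c : K, ∀ w ∈ W, ρ t w = c • w
    · -- every `t` acts as a scalar on `W`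
      obtain ⟨g, hgW, hg0⟩ := Submodule.exists_mem_ne_zero_of_ne_bot hW0
      choose c hc using hsc
      have huniq : ∀ a b : K, a • g = b • g → a = b := by
        intro a b hab
        by_contra hne
        have : (a - b) • g = 0 := by rw [sub_smul, hab, sub_self]
        rcases smul_eq_zero.mp this with h | h
        · exact hne (sub_eq_zero.mp h)
        · exact hg0 h
      let χ : A →+* K :=
        { toFun := c
          map_one' := by
            apply huniq
            rw [← hc 1 g hgW, map_one, Module.End.one_apply, one_smul]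
          map_mul' := by
            intro s t
            apply huniq
            rw [← hc (s * t) g hgW, map_mul, Module.End.mul_apply, hc t g hgW, map_smul,
              hc s g hgW, smul_smul, mul_comm]
          map_zero' := by
            apply huniq
            rw [← hc 0 g hgW, map_zero, LinearMap.zero_apply, zero_smul]
          map_add' := by
            intro s t
            apply huniq
            rw [← hc (s + t) g hgW, map_add, LinearMap.add_apply, hc s g hgW, hc t g hgW,
              add_smul] }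
      refine ⟨g, χ, hg0, fun t => hc t g hgW, ?_⟩
      intro t ht
      apply hann
      intro w hw
      have h0 : c t = 0 := ht
      rw [hc t w hw, h0, zero_smul]
    · -- some `t` does not act as a scalar on `W`
      push Not at hsc
      obtain ⟨t, ht⟩ := hsc
      have : Nontrivial W := Submodule.nontrivial_iff_ne_bot.mpr hW0
      obtain ⟨μ, hμ⟩ := Module.End.exists_eigenvalue ((ρ t).restrict (hstab t))
      obtain ⟨v, hv⟩ := hμ.exists_hasEigenvector
      have hv0 : (v : V) ≠ 0 := fun h => hv.2 (Subtype.ext h)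
      have hvμ : ρ t (v : V) = μ • (v : V) := by
        have := congrArg Subtype.val hv.apply_eq_smul
        simpa using this
      -- the operator `S = ρ t - μ`
      set S : Module.End K V := ρ t - μ • (1 : Module.End K V) with hS
      have hSapp : ∀ w, S w = ρ t w - μ • w := by
        intro w
        simp [hS]
      have hScomm : ∀ s : A, ∀ w : V, ρ s (S w) = S (ρ s w) := by
        intro s w
        rw [hSapp, hSapp, map_sub, map_smul, hcomm s t w]
      have hSW : ∀ w ∈ W, S w ∈ W := by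
        intro w hw
        rw [hSapp]
        exact W.sub_mem (hstab t w hw) (W.smul_mem μ hw)
      obtain ⟨w₀, hw₀W, hw₀⟩ := ht μ
      have hSw₀ : S w₀ ≠ 0 := by
        rw [hSapp]
        exact fun h => hw₀ (sub_eq_zero.mp h)
      -- the two smaller invariant subspaces
      set W' : Submodule K V := W ⊓ LinearMap.ker S with hW'
      set W'' : Submodule K V := W.map S with hW''
      have hW'le : W' ≤ W := inf_le_left
      have hW''le : W'' ≤ W := by
        rintro _ ⟨w, hw, rfl⟩
        exact hSW w hw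
      have hW'ne : W' ≠ ⊥ := by
        intro h
        have hvW' : (v : V) ∈ W' := by
          refine Submodule.mem_inf.mpr ⟨v.2, LinearMap.mem_ker.mpr ?_⟩
          rw [hSapp, hvμ, sub_self]
        rw [h] at hvW'
        exact hv0 ((Submodule.mem_bot K).mp hvW')
      have hW''ne : W'' ≠ ⊥ := by
        intro h
        have : S w₀ ∈ W'' := ⟨w₀, hw₀W, rfl⟩
        rw [h] at this
        exact hSw₀ ((Submodule.mem_bot K).mp this)
      have hW'lt : W' < W := by
        refine lt_of_le_of_ne hW'le ?_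
        intro h
        have : w₀ ∈ W' := h ▸ hw₀W
        exact hSw₀ (LinearMap.mem_ker.mp (Submodule.mem_inf.mp this).2)
      have hW''lt : W'' < W := by
        refine lt_of_le_of_ne hW''le ?_
        intro h
        -- `S` restricted to `W` is surjective onto `W`, hence injective
        have hsurj : Function.Surjective (S.restrict hSW) := by
          rintro ⟨y, hy⟩
          have hy' : y ∈ W'' := h ▸ hy
          obtain ⟨x, hx, rfl⟩ := hy'
          exact ⟨⟨x, hx⟩, Subtype.ext rfl⟩
        have hinj : Function.Injective (S.restrict hSW) :=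
          LinearMap.injective_iff_surjective.mpr hsurj
        have h1 : (S.restrict hSW) v = 0 := by
          apply Subtype.ext
          simp only [LinearMap.coe_restrict_apply, ZeroMemClass.coe_zero]
          rw [hSapp, hvμ, sub_self]
        have : v = 0 := hinj (h1.trans (map_zero _).symm)
        exact hv.2 this
      have hW'stab : ∀ s : A, ∀ w ∈ W', ρ s w ∈ W' := by
        intro s w hw
        have hw' := Submodule.mem_inf.mp hw
        refine Submodule.mem_inf.mpr ⟨hstab s w hw'.1, LinearMap.mem_ker.mpr ?_⟩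
        rw [← hScomm, LinearMap.mem_ker.mp hw'.2, map_zero]
      have hW''stab : ∀ s : A, ∀ w ∈ W'', ρ s w ∈ W'' := by
        rintro s _ ⟨w, hw, rfl⟩
        exact ⟨ρ s w, hstab s w hw, (hScomm s w).symm⟩
      by_cases h' : ∀ s : A, (∀ w ∈ W', ρ s w = 0) → s ∈ 𝔫
      · exact ih (Module.finrank K W') (hWn ▸ Submodule.finrank_lt_finrank_of_lt hW'lt) W' rfl
          hW'ne hW'stab h'
      · push Not at h'
        obtain ⟨s', hs', hs'n⟩ := h'
        refine ih (Module.finrank K W'') (hWn ▸ Submodule.finrank_lt_finrank_of_lt hW''lt) W'' rfl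
          hW''ne hW''stab ?_
        intro s'' hs''
        have hprod : s' * s'' ∈ 𝔫 := by
          apply hann
          intro w hw
          rw [map_mul, Module.End.mul_apply]
          apply hs'
          refine Submodule.mem_inf.mpr ⟨hstab s'' w hw, LinearMap.mem_ker.mpr ?_⟩
          rw [← hScomm]
          exact hs'' _ ⟨w, hw, rfl⟩
        rcases h𝔫.mem_or_mem hprod with h | h
        · exact absurd h hs'n
        · exact h

/-- (C), general form: `ρ` need not be injective, only `ker ρ ≤ 𝔫`. -/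
theorem exists_eigenvector_ker_le' {K V A : Type*} [Field K] [IsAlgClosed K]
    [AddCommGroup V] [Module K V] [FiniteDimensional K V]
    [CommRing A] (ρ : A →+* Module.End K V)
    (𝔫 : Ideal A) [h𝔫 : 𝔫.IsPrime] (hρ : RingHom.ker ρ ≤ 𝔫) :
    ∃ (g : V) (χ : A →+* K), g ≠ 0 ∧ (∀ t, ρ t g = χ t • g) ∧ RingHom.ker χ ≤ 𝔫 := by
  have hann : ∀ t : A, (∀ w ∈ (⊤ : Submodule K V), ρ t w = 0) → t ∈ 𝔫 := by
    intro t ht
    apply hρ
    rw [RingHom.mem_ker]
    ext w
    simpa using ht w Submodule.mem_top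
  refine exists_eigenvector_aux ρ 𝔫 _ ⊤ rfl ?_ (fun _ _ _ => Submodule.mem_top) hann
  intro htop
  apply (Ideal.ne_top_iff_one 𝔫).mp h𝔫.ne_top
  apply hann
  intro w _
  have : w ∈ (⊥ : Submodule K V) := htop ▸ Submodule.mem_top
  rw [(Submodule.mem_bot K).mp this, map_zero]

/-- (C) linear algebra lemma: a commutative ring acting faithfully on a finite-dimensional
vector space over an algebraically closed field has, for every prime ideal `𝔫`, a simultaneous
eigenvector whose eigencharacter has kernel contained in `𝔫`. -/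
theorem exists_eigenvector_ker_le {K V A : Type*} [Field K] [IsAlgClosed K]
    [AddCommGroup V] [Module K V] [FiniteDimensional K V]
    [CommRing A] (ρ : A →+* Module.End K V) (hρ : Function.Injective ρ)
    (𝔫 : Ideal A) [𝔫.IsPrime] :
    ∃ (g : V) (χ : A →+* K), g ≠ 0 ∧ (∀ t, ρ t g = χ t • g) ∧ RingHom.ker χ ≤ 𝔫 := by
  apply exists_eigenvector_ker_le' ρ 𝔫
  intro t ht
  rw [RingHom.mem_ker] at ht
  rw [hρ (ht.trans (map_zero ρ).symm)]
  exact 𝔫.zero_mem

end Fermat.Agent.S49

end
-- ===== PACK-END S49/LinAlg.lean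

-- ===== PACK-BEGIN S48/H308/AutExtend.lean
section


/-!
# Extending embeddings of number fields to automorphisms of `ℂ`

* `exists_ringEquiv_extending_algEquiv` : every automorphism of `ℚ̄ = algebraicClosure ℚ ℂ` extends
  to a ring automorphism of `ℂ`;
* `exists_ringEquiv_extending` : every `ℚ`-embedding `τ : K → ℂ` of a subfield `K ⊆ ℂ` algebraic over
  `ℚ` extends to a ring automorphism of `ℂ`.
-/

set_option autoImplicit false
set_option linter.style.haveILetI false

namespace Fermat.Agent.S48.H308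

open MvPolynomial

/-- Every automorphism of `ℚ̄ ⊆ ℂ` extends to a ring automorphism of `ℂ`. -/
theorem exists_ringEquiv_extending_algEquiv
    (τ : algebraicClosure ℚ ℂ ≃ₐ[ℚ] algebraicClosure ℚ ℂ) :
    ∃ σ : ℂ ≃+* ℂ, ∀ y : algebraicClosure ℚ ℂ, σ (y : ℂ) = ((τ y : algebraicClosure ℚ ℂ) : ℂ) := by
  obtain ⟨ι, v, hv⟩ := exists_isTranscendenceBasis' (algebraicClosure ℚ ℂ) ℂ
  let _ := IsAlgClosed.isAlgClosure_of_transcendence_basis v hv
  let e : Algebra.adjoin (algebraicClosure ℚ ℂ) (Set.range v) ≃+*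
      Algebra.adjoin (algebraicClosure ℚ ℂ) (Set.range v) :=
    hv.1.aevalEquiv.symm.toRingEquiv.trans
      ((MvPolynomial.mapEquiv ι τ.toRingEquiv).trans hv.1.aevalEquiv.toRingEquiv)
  refine ⟨IsAlgClosure.equivOfEquiv ℂ ℂ e, fun y => ?_⟩
  have hymem : (y : ℂ) ∈ Algebra.adjoin (algebraicClosure ℚ ℂ) (Set.range v) :=
    Subalgebra.algebraMap_mem _ y
  have hτmem : ((τ y : algebraicClosure ℚ ℂ) : ℂ) ∈
      Algebra.adjoin (algebraicClosure ℚ ℂ) (Set.range v) :=
    Subalgebra.algebraMap_mem _ (τ y)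
  have h3 : hv.1.aevalEquiv.symm ⟨(y : ℂ), hymem⟩ = C y := by
    apply hv.1.aevalEquiv.injective
    rw [AlgEquiv.apply_symm_apply]
    ext
    simp
  have h2 : e ⟨(y : ℂ), hymem⟩ = ⟨((τ y : algebraicClosure ℚ ℂ) : ℂ), hτmem⟩ := by
    have : e ⟨(y : ℂ), hymem⟩ = hv.1.aevalEquiv
        ((MvPolynomial.mapEquiv ι τ.toRingEquiv) (hv.1.aevalEquiv.symm ⟨(y : ℂ), hymem⟩)) := rfl
    rw [this, h3]
    ext
    simp
  have h1 := IsAlgClosure.equivOfEquiv_algebraMap ℂ ℂ e ⟨(y : ℂ), hymem⟩
  rw [h2] at h1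
  simpa using h1

/-- Every `ℚ`-embedding into `ℂ` of a subfield of `ℂ` which is algebraic over `ℚ` extends to a ring
automorphism of `ℂ`. -/
theorem exists_ringEquiv_extending (K : IntermediateField ℚ ℂ) [Algebra.IsAlgebraic ℚ K]
    (τ : K →ₐ[ℚ] ℂ) : ∃ σ : ℂ ≃+* ℂ, ∀ x : K, σ (x : ℂ) = τ x := by
  have hK : ∀ x : K, (x : ℂ) ∈ algebraicClosure ℚ ℂ := fun x =>
    mem_algebraicClosure_iff.mpr
      (IsAlgebraic.algHom K.val (Algebra.IsAlgebraic.isAlgebraic (R := ℚ) x))
  have hτK : ∀ x : K, τ x ∈ algebraicClosure ℚ ℂ := fun x =>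
    mem_algebraicClosure_iff.mpr
      (IsAlgebraic.algHom τ (Algebra.IsAlgebraic.isAlgebraic (R := ℚ) x))
  haveI hcl : IsAlgClosure ℚ (algebraicClosure ℚ ℂ) := algebraicClosure.isAlgClosure ℚ ℂ
  haveI : IsAlgClosed (algebraicClosure ℚ ℂ) := hcl.isAlgClosed
  haveI : Normal ℚ (algebraicClosure ℚ ℂ) := IsAlgClosure.normal ℚ _
  -- the two embeddings of `K` into `ℚ̄`
  let incl : K →ₐ[ℚ] algebraicClosure ℚ ℂ :=
    { toFun := fun x => ⟨(x : ℂ), hK x⟩
      map_one' := rfl
      map_mul' := fun _ _ => rfl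
      map_zero' := rfl
      map_add' := fun _ _ => rfl
      commutes' := fun _ => rfl }
  let ϕ : K →ₐ[ℚ] algebraicClosure ℚ ℂ :=
    { toFun := fun x => ⟨τ x, hτK x⟩
      map_one' := Subtype.ext (map_one τ)
      map_mul' := fun x y => Subtype.ext (map_mul τ x y)
      map_zero' := Subtype.ext (map_zero τ)
      map_add' := fun x y => Subtype.ext (map_add τ x y)
      commutes' := fun r => Subtype.ext (τ.commutes r) }
  letI : Algebra K (algebraicClosure ℚ ℂ) := incl.toRingHom.toAlgebra
  haveI : IsScalarTower ℚ K (algebraicClosure ℚ ℂ) :=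
    IsScalarTower.of_algebraMap_eq fun r => (incl.commutes r).symm
  let τ₁ : algebraicClosure ℚ ℂ →ₐ[ℚ] algebraicClosure ℚ ℂ := ϕ.liftNormal (algebraicClosure ℚ ℂ)
  have hτ₁ : ∀ x : K, τ₁ (incl x) = ϕ x := fun x => ϕ.liftNormal_commutes (algebraicClosure ℚ ℂ) x
  let τ₂ : algebraicClosure ℚ ℂ ≃ₐ[ℚ] algebraicClosure ℚ ℂ :=
    AlgEquiv.ofBijective τ₁ (Algebra.IsAlgebraic.algHom_bijective τ₁)
  obtain ⟨σ, hσ⟩ := exists_ringEquiv_extending_algEquiv τ₂
  refine ⟨σ, fun x => ?_⟩
  have h1 := hσ (incl x)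
  have h2 : τ₂ (incl x) = ϕ x := hτ₁ x
  rw [h2] at h1
  exact h1

end Fermat.Agent.S48.H308

end
-- ===== PACK-END S48/H308/AutExtend.lean

-- ===== PACK-BEGIN Lib/Newform/H683/LinAlg.lean
section
/-
NEWFORM library (helper683) — linear algebra: a commuting family of endomorphisms of a
finite-dimensional complex vector space has a common eigenvector in every nonzero stable subspace.
-/


set_option autoImplicit false

namespace Fermat.Agent.Lib.Newform.H683

open Module

/-- A commuting family of endomorphisms of a finite-dimensional vector space over an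
algebraically closed field has a common eigenvector in every nonzero stable subspace. -/
theorem exists_common_eigenvector {K V : Type*} [Field K] [IsAlgClosed K] [AddCommGroup V]
    [Module K V] [FiniteDimensional K V] {ι : Type*} (T : ι → Module.End K V)
    (hcomm : ∀ i j, Commute (T i) (T j)) :
    ∀ (E : Submodule K V), E ≠ ⊥ → (∀ i, ∀ v ∈ E, T i v ∈ E) →
      ∃ v ∈ E, v ≠ 0 ∧ ∀ i, ∃ c : K, T i v = c • v := by
  intro E
  induction h : finrank K E using Nat.strong_induction_on generalizing E with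
  | _ d ih =>
    intro hE hstab
    by_cases hsc : ∀ i, ∃ c : K, ∀ v ∈ E, T i v = c • v
    · obtain ⟨v, hv, hv0⟩ := Submodule.exists_mem_ne_zero_of_ne_bot hE
      exact ⟨v, hv, hv0, fun i => (hsc i).elim fun c hc => ⟨c, hc v hv⟩⟩
    · push Not at hsc
      obtain ⟨i, hi⟩ := hsc
      -- an eigenvalue of `T i` on `E`
      have hmaps : ∀ v ∈ E, T i v ∈ E := hstab i
      let Ti : Module.End K E := (T i).restrict hmaps
      haveI : Nontrivial E := Submodule.nontrivial_iff_ne_bot.mpr hE
      obtain ⟨c, hc⟩ := Module.End.exists_eigenvalue Ti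
      obtain ⟨w, hw⟩ := hc.exists_hasEigenvector
      -- the eigenspace inside `E`
      let E' : Submodule K V := E ⊓ LinearMap.ker (T i - c • (1 : Module.End K V))
      have hE'le : E' ≤ E := inf_le_left
      have hwE' : (w : V) ∈ E' := by
        refine ⟨w.2, ?_⟩
        have h1 : Ti w = c • w := hw.apply_eq_smul
        have h2 : T i (w : V) = c • (w : V) := by
          have := congrArg (fun x : E => (x : V)) h1
          simpa [Ti] using this
        simp [LinearMap.mem_ker, h2]
      have hw0 : (w : V) ≠ 0 := fun h0 => hw.2 (Subtype.ext h0)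
      have hE'ne : E' ≠ ⊥ := fun hbot => hw0 (by
        have : (w : V) ∈ (⊥ : Submodule K V) := hbot ▸ hwE'
        simpa using this)
      have hE'stab : ∀ j, ∀ v ∈ E', T j v ∈ E' := by
        intro j v hv
        refine ⟨hstab j v hv.1, ?_⟩
        have hv2 : T i v = c • v := by
          have := hv.2
          simpa [LinearMap.mem_ker, sub_eq_zero] using this
        have hcm : T i (T j v) = T j (T i v) := by
          have := congrArg (fun f : Module.End K V => f v) (hcomm i j).eq
          simpa using this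
        simp [LinearMap.mem_ker, hcm, hv2]
      have hlt : finrank K E' < finrank K E := by
        apply Submodule.finrank_lt_finrank_of_lt
        refine lt_of_le_of_ne hE'le ?_
        intro heq
        obtain ⟨v, hvE, hv⟩ := hi c
        apply hv
        have hv' : v ∈ E' := heq ▸ hvE
        have := hv'.2
        simpa [LinearMap.mem_ker, sub_eq_zero] using this
      obtain ⟨v, hv, hv0, hveig⟩ := ih (finrank K E') (h ▸ hlt) E' rfl hE'ne hE'stab
      exact ⟨v, hE'le hv, hv0, hveig⟩

end Fermat.Agent.Lib.Newform.H683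

end
-- ===== PACK-END Lib/Newform/H683/LinAlg.lean

-- ===== PACK-BEGIN Lib/Newform/H923/HeckeInt.lean
section



/-!
# Hecke representatives versus integer matrices of determinant prime to `ℓ`

For a prime `ℓ`, the `ℓ + 1` matrices `hRep ℓ x` (`x ∈ ℙ¹(𝔽_ℓ)`) are the standard representatives
used in the Prelude definition of `heckeT`.  For every real matrix `A` with integer entries
`a b c d` and determinant prime to `ℓ` we show
`hRep ℓ x * A = A' * hRep ℓ (σ x)` with `A'` integral of the same determinant, `σ` a permutation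
of `ℙ¹(𝔽_ℓ)`, and we keep track of divisibility properties of the entries of `A'`.
-/

set_option autoImplicit false

noncomputable section

namespace Fermat.Agent.Lib.Newform.H923

open Matrix UpperHalfPlane ModularForm
open scoped MatrixGroups ModularForm OnePoint

/-- `IsInt A a b c d` : the real matrix `A` is `!![a, b; c, d]` with integers `a b c d`. -/
def IsInt (A : GL (Fin 2) ℝ) (a b c d : ℤ) : Prop :=
  (A : Matrix (Fin 2) (Fin 2) ℝ) = !![(a : ℝ), (b : ℝ); (c : ℝ), (d : ℝ)]

/-- The real `2 × 2` matrix with integer entries `a b c d` and nonzero determinant. -/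
def intGL (a b c d : ℤ) (h : a * d - b * c ≠ 0) : GL (Fin 2) ℝ :=
  Matrix.GeneralLinearGroup.mkOfDetNeZero !![(a : ℝ), (b : ℝ); (c : ℝ), (d : ℝ)]
    (by rw [Matrix.det_fin_two_of]; exact_mod_cast h)

theorem isInt_intGL (a b c d : ℤ) (h : a * d - b * c ≠ 0) : IsInt (intGL a b c d h) a b c d := rfl

theorem IsInt.det_ne_zero {A : GL (Fin 2) ℝ} {a b c d : ℤ} (hA : IsInt A a b c d) :
    a * d - b * c ≠ 0 := by
  have h := A.det_ne_zero
  rw [hA, Matrix.det_fin_two_of] at h
  exact_mod_cast h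

theorem IsInt.eq_intGL {A : GL (Fin 2) ℝ} {a b c d : ℤ} (hA : IsInt A a b c d) :
    A = intGL a b c d hA.det_ne_zero :=
  Units.ext hA

theorem IsInt.det {A : GL (Fin 2) ℝ} {a b c d : ℤ} (hA : IsInt A a b c d) :
    (A.det : ℝ) = ((a * d - b * c : ℤ) : ℝ) := by
  rw [Matrix.GeneralLinearGroup.val_det_apply, hA, Matrix.det_fin_two_of]
  push_cast
  ring

theorem isInt_mapGL (g : SL(2, ℤ)) :
    IsInt (Matrix.SpecialLinearGroup.mapGL ℝ g) (g 0 0) (g 0 1) (g 1 0) (g 1 1) := by
  unfold IsInt
  ext i j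
  fin_cases i <;> fin_cases j <;> simp

theorem isInt_heckeMatrix {p : ℕ} (hp : p ≠ 0) (j : ℕ) : IsInt (heckeMatrix p j) 1 j 0 p := by
  unfold IsInt
  rw [val_heckeMatrix hp]
  simp

theorem isInt_heckeDiagMatrix {p : ℕ} (hp : p ≠ 0) : IsInt (heckeDiagMatrix p) p 0 0 1 := by
  unfold IsInt
  rw [val_heckeDiagMatrix hp]
  simp

/-- product of integer matrices -/
theorem IsInt.mul {A B : GL (Fin 2) ℝ} {a b c d a' b' c' d' : ℤ} (hA : IsInt A a b c d)
    (hB : IsInt B a' b' c' d') :
    IsInt (A * B) (a * a' + b * c') (a * b' + b * d') (c * a' + d * c') (c * b' + d * d') := by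
  unfold IsInt at *
  rw [Units.val_mul, hA, hB]
  ext i j
  fin_cases i <;> fin_cases j <;> simp [Matrix.mul_apply, Fin.sum_univ_two]

/-- Two elements of `GL(2,ℝ)` with the same integer entries are equal. -/
theorem IsInt.ext {A B : GL (Fin 2) ℝ} {a b c d a' b' c' d' : ℤ} (hA : IsInt A a b c d)
    (hB : IsInt B a' b' c' d') (h1 : a = a') (h2 : b = b') (h3 : c = c') (h4 : d = d') : A = B := by
  subst h1 h2 h3 h4
  exact Units.ext (hA.trans hB.symm)

section commutation

variable {p : ℕ} (hp : p ≠ 0)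
include hp

theorem heckeMatrix_mul_isInt {A A' : GL (Fin 2) ℝ} {a b c d : ℤ} (hA : IsInt A a b c d)
    (j j' : ℕ) (e : ℤ) (he : b + j * d = j' * (a + j * c) + p * e)
    (hA' : IsInt A' (a + j * c) e (p * c) (d - c * j')) :
    heckeMatrix p j * A = A' * heckeMatrix p j' := by
  refine ((isInt_heckeMatrix hp j).mul hA).ext (hA'.mul (isInt_heckeMatrix hp j')) ?_ ?_ ?_ ?_
  · ring
  · linear_combination he
  · ring
  · ring

theorem heckeMatrix_mul_isInt' {A A' : GL (Fin 2) ℝ} {a b c d : ℤ} (hA : IsInt A a b c d)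
    (j : ℕ) (e : ℤ) (he : a + j * c = p * e)
    (hA' : IsInt A' e (b + j * d) c (p * d)) :
    heckeMatrix p j * A = A' * heckeDiagMatrix p := by
  refine ((isInt_heckeMatrix hp j).mul hA).ext (hA'.mul (isInt_heckeDiagMatrix hp)) ?_ ?_ ?_ ?_
  · linear_combination he
  · ring
  · ring
  · ring

theorem heckeDiagMatrix_mul_isInt {A A' : GL (Fin 2) ℝ} {a b c d : ℤ} (hA : IsInt A a b c d)
    (j' : ℕ) (e : ℤ) (he : d = c * j' + p * e)
    (hA' : IsInt A' (p * a) (b - a * j') c e) :
    heckeDiagMatrix p * A = A' * heckeMatrix p j' := by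
  refine ((isInt_heckeDiagMatrix hp).mul hA).ext (hA'.mul (isInt_heckeMatrix hp j')) ?_ ?_ ?_ ?_
  · ring
  · ring
  · ring
  · linear_combination he

theorem heckeDiagMatrix_mul_isInt' {A A' : GL (Fin 2) ℝ} {a b c d : ℤ} (hA : IsInt A a b c d)
    (e : ℤ) (he : c = p * e)
    (hA' : IsInt A' a (p * b) e d) :
    heckeDiagMatrix p * A = A' * heckeDiagMatrix p := by
  refine ((isInt_heckeDiagMatrix hp).mul hA).ext (hA'.mul (isInt_heckeDiagMatrix hp)) ?_ ?_ ?_ ?_
  · ring
  · ring
  · linear_combination he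
  · ring

end commutation


section reindex

variable {p : ℕ} [NeZero p]

theorem sum_range_eq_sum_zmod' {M : Type*} [AddCommMonoid M] (F : ℕ → M) :
    ∑ j ∈ Finset.range p, F j = ∑ x : ZMod p, F x.val := by
  refine Finset.sum_nbij' (fun j : ℕ ↦ (j : ZMod p)) (fun x : ZMod p ↦ x.val)
    (fun _ _ ↦ Finset.mem_univ _)
    (fun x _ ↦ Finset.mem_range.mpr x.val_lt) (fun j hj ↦ ?_) (fun x _ ↦ ?_) (fun j hj ↦ ?_)
  · exact ZMod.val_cast_of_lt (Finset.mem_range.mp hj)
  · exact ZMod.natCast_zmod_val x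
  · rw [ZMod.val_cast_of_lt (Finset.mem_range.mp hj)]

theorem heckeU_eq_sum_zmod' (k : ℤ) (f : ℍ → ℂ) :
    heckeU k p f = ∑ x : ZMod p, f ∣[k] heckeMatrix p x.val := by
  rw [heckeU_def]
  exact sum_range_eq_sum_zmod' _

end reindex

/-- The standard representatives of the Hecke operator `T_p`, indexed by `ℙ¹(𝔽_p)`. -/
def hRep (p : ℕ) (x : OnePoint (ZMod p)) : GL (Fin 2) ℝ :=
  x.elim (heckeDiagMatrix p) (fun j ↦ heckeMatrix p j.val)

@[simp] theorem hRep_infty (p : ℕ) : hRep p ∞ = heckeDiagMatrix p := rfl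

@[simp] theorem hRep_coe (p : ℕ) (j : ZMod p) : hRep p j = heckeMatrix p j.val := rfl

theorem heckeT_eq_sum_hRep {p : ℕ} [NeZero p] (k : ℤ) (f : ℍ → ℂ) :
    heckeT k p f = ∑ x : OnePoint (ZMod p), f ∣[k] hRep p x := by
  rw [heckeT_eq_heckeU_add, heckeU_eq_sum_zmod', add_comm]
  exact (Fintype.sum_option (fun x : OnePoint (ZMod p) ↦ f ∣[k] hRep p x)).symm

section main

variable {p : ℕ} [Fact p.Prime]

/-- The reduction mod `p` (in the convention of the Prelude) of an integer matrix of determinant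
prime to `p`. -/
def redGL (p : ℕ) [Fact p.Prime] (a b c d : ℤ) (h : ¬ (p : ℤ) ∣ a * d - b * c) :
    GL (Fin 2) (ZMod p) :=
  Matrix.GeneralLinearGroup.mkOfDetNeZero
    !![(d : ZMod p), (b : ZMod p); (c : ZMod p), (a : ZMod p)]
    (by
      rw [Matrix.det_fin_two_of]
      intro h0
      apply h
      rw [← ZMod.intCast_zmod_eq_zero_iff_dvd]
      push_cast
      linear_combination h0)

@[simp] theorem redGL_apply_zero_zero (a b c d : ℤ) (h : ¬ (p : ℤ) ∣ a * d - b * c) :
    redGL p a b c d h 0 0 = (d : ZMod p) := by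
  simp [redGL]

@[simp] theorem redGL_apply_zero_one (a b c d : ℤ) (h : ¬ (p : ℤ) ∣ a * d - b * c) :
    redGL p a b c d h 0 1 = (b : ZMod p) := by
  simp [redGL]

@[simp] theorem redGL_apply_one_zero (a b c d : ℤ) (h : ¬ (p : ℤ) ∣ a * d - b * c) :
    redGL p a b c d h 1 0 = (c : ZMod p) := by
  simp [redGL]

@[simp] theorem redGL_apply_one_one (a b c d : ℤ) (h : ¬ (p : ℤ) ∣ a * d - b * c) :
    redGL p a b c d h 1 1 = (a : ZMod p) := by
  simp [redGL]

/-- The key matrix lemma: `hRep p x * A = A' * hRep p (σ x)` for integral `A` of determinant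
prime to `p`, with control of the entries of `A'`. -/
theorem exists_hRep_mul {A : GL (Fin 2) ℝ} {a b c d : ℤ} (hA : IsInt A a b c d)
    (hdet : ¬ (p : ℤ) ∣ a * d - b * c) (x : OnePoint (ZMod p)) :
    ∃ (A' : GL (Fin 2) ℝ) (a' b' c' d' : ℤ), IsInt A' a' b' c' d' ∧
      a' * d' - b' * c' = a * d - b * c ∧
      (∀ m : ℤ, IsCoprime m (p : ℤ) → m ∣ c → m ∣ c') ∧
      (∀ m : ℤ, IsCoprime m (p : ℤ) → m ∣ a → m ∣ c → m ∣ a') ∧
      (∀ m : ℤ, IsCoprime m (p : ℤ) → m ∣ d → m ∣ c → m ∣ d') ∧
      hRep p x * A = A' * hRep p (redGL p a b c d hdet • x) := by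
  have hp : p ≠ 0 := (Fact.out : p.Prime).ne_zero
  have : NeZero p := ⟨hp⟩
  have hD : a * d - b * c ≠ 0 := hA.det_ne_zero
  induction x using OnePoint.rec with
  | infty =>
    rw [OnePoint.smul_infty_eq_ite]
    by_cases hc : ((c : ℤ) : ZMod p) = 0
    · rw [if_pos (by simpa using hc), hRep_infty]
      obtain ⟨e, he⟩ := (ZMod.intCast_zmod_eq_zero_iff_dvd _ _).mp hc
      have hdet' : a * d - (p * b) * e = a * d - b * c := by rw [he]; ring
      refine ⟨intGL a (p * b) e d (by rw [hdet']; exact hD), a, p * b, e, d, isInt_intGL _ _ _ _ _,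
        hdet', ?_, ?_, ?_, ?_⟩
      · intro m hm hmc
        rw [he] at hmc
        exact hm.dvd_of_dvd_mul_left hmc
      · intro m _ hma _
        exact hma
      · intro m _ hmd _
        exact hmd
      · exact heckeDiagMatrix_mul_isInt' hp hA e he (isInt_intGL _ _ _ _ _)
    · rw [if_neg (by simpa using hc), hRep_infty, hRep_coe]
      set y : ZMod p := redGL p a b c d hdet 0 0 / redGL p a b c d hdet 1 0 with hy
      obtain ⟨e, he⟩ : (p : ℤ) ∣ d - c * y.val := by
        rw [← ZMod.intCast_zmod_eq_zero_iff_dvd]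
        push_cast
        rw [ZMod.natCast_zmod_val, hy, redGL_apply_zero_zero, redGL_apply_one_zero,
          mul_div_cancel₀ _ hc, sub_self]
      have he' : d = c * y.val + p * e := by linear_combination he
      have hdet' : (p * a) * e - (b - a * y.val) * c = a * d - b * c := by
        linear_combination (-a) * he'
      refine ⟨intGL (p * a) (b - a * y.val) c e (by rw [hdet']; exact hD), p * a, b - a * y.val,
        c, e, isInt_intGL _ _ _ _ _, hdet', ?_, ?_, ?_, ?_⟩
      · intro m _ hmc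
        exact hmc
      · intro m _ hma _
        exact Dvd.dvd.mul_left hma _
      · intro m hm hmd hmc
        have : m ∣ (p : ℤ) * e := by
          have h1 : (p : ℤ) * e = d - c * y.val := by linear_combination -he'
          rw [h1]
          exact dvd_sub hmd (Dvd.dvd.mul_right hmc _)
        exact hm.dvd_of_dvd_mul_left this
      · exact heckeDiagMatrix_mul_isInt hp hA y.val e he' (isInt_intGL _ _ _ _ _)
  | coe j =>
    rw [OnePoint.smul_some_eq_ite]
    by_cases h : redGL p a b c d hdet 1 0 * j + redGL p a b c d hdet 1 1 = 0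
    · rw [if_pos h, hRep_infty, hRep_coe]
      rw [redGL_apply_one_zero, redGL_apply_one_one] at h
      obtain ⟨e, he⟩ : (p : ℤ) ∣ a + j.val * c := by
        rw [← ZMod.intCast_zmod_eq_zero_iff_dvd]
        push_cast
        rw [ZMod.natCast_zmod_val]
        linear_combination h
      have hdet' : e * (p * d) - (b + j.val * d) * c = a * d - b * c := by
        linear_combination (-d) * he
      refine ⟨intGL e (b + j.val * d) c (p * d) (by rw [hdet']; exact hD), e, b + j.val * d, c,
        p * d, isInt_intGL _ _ _ _ _, hdet', ?_, ?_, ?_, ?_⟩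
      · intro m _ hmc
        exact hmc
      · intro m hm hma hmc
        have : m ∣ (p : ℤ) * e := by
          rw [← he]
          exact dvd_add hma (Dvd.dvd.mul_left hmc _)
        exact hm.dvd_of_dvd_mul_left this
      · intro m _ hmd _
        exact Dvd.dvd.mul_left hmd _
      · exact heckeMatrix_mul_isInt' hp hA j.val e he (isInt_intGL _ _ _ _ _)
    · rw [if_neg h, hRep_coe, hRep_coe]
      set y : ZMod p := (redGL p a b c d hdet 0 0 * j + redGL p a b c d hdet 0 1) /
        (redGL p a b c d hdet 1 0 * j + redGL p a b c d hdet 1 1) with hy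
      obtain ⟨e, he⟩ : (p : ℤ) ∣ b + j.val * d - y.val * (a + j.val * c) := by
        rw [← ZMod.intCast_zmod_eq_zero_iff_dvd]
        push_cast
        rw [ZMod.natCast_zmod_val, ZMod.natCast_zmod_val,
          show ((a : ℤ) : ZMod p) + j * ((c : ℤ) : ZMod p)
            = redGL p a b c d hdet 1 0 * j + redGL p a b c d hdet 1 1 by
              rw [redGL_apply_one_zero, redGL_apply_one_one]; ring,
          hy, div_mul_cancel₀ _ h, redGL_apply_zero_zero, redGL_apply_zero_one]
        ring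
      have he' : b + j.val * d = y.val * (a + j.val * c) + p * e := by linear_combination he
      have hdet' : (a + j.val * c) * (d - c * y.val) - e * (p * c) = a * d - b * c := by
        linear_combination c * he'
      refine ⟨intGL (a + j.val * c) e (p * c) (d - c * y.val) (by rw [hdet']; exact hD),
        a + j.val * c, e, p * c, d - c * y.val, isInt_intGL _ _ _ _ _, hdet', ?_, ?_, ?_, ?_⟩
      · intro m _ hmc
        exact Dvd.dvd.mul_left hmc _
      · intro m _ hma hmc
        exact dvd_add hma (Dvd.dvd.mul_left hmc _)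
      · intro m _ hmd hmc
        exact dvd_sub hmd (Dvd.dvd.mul_right hmc _)
      · exact heckeMatrix_mul_isInt hp hA j.val y.val e he' (isInt_intGL _ _ _ _ _)

end main

end Fermat.Agent.Lib.Newform.H923

end
end
-- ===== PACK-END Lib/Newform/H923/HeckeInt.lean

-- ===== PACK-BEGIN A2/IF/H429/Hilbert.lean
section


/-!
# A2 / IF (helper429): the inertia field is unramified (finite level, Mathlib only)

Companion of Mathlib's `IsDecompositionField.ramificationIdx_eq` for the inertia field: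
if `E` is the inertia field of `P` in the finite Galois extension `L/K` and `𝓟E` is the prime of
`E` below `P`, then `e(𝓟E | p) = 1`.
-/

set_option autoImplicit false
set_option linter.style.haveILetI false
set_option linter.unusedSectionVars false

open MulAction Pointwise Ideal NumberField IsDedekindDomain

namespace Fermat.Agent.A2.IF.H429

section

variable (A K L : Type*) {B : Type*} [Field K] [Field L] [Algebra K L] [CommRing A] [CommRing B]
  [Algebra A B] {p : Ideal A} (P : Ideal B) [P.LiesOver p]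

variable [Algebra A K] [IsFractionRing A K] [Algebra A L] [IsScalarTower A K L] [Algebra B L]
  [IsScalarTower A B L] [IsFractionRing B L] [MulSemiringAction Gal(L/K) B]
  [SMulDistribClass Gal(L/K) B L]

variable (E 𝓞E : Type*) [Field E] [Algebra E L] [IsInertiaField K L P E] [CommRing 𝓞E]
  [Algebra 𝓞E E] [IsFractionRing 𝓞E E] [Algebra 𝓞E B] [Algebra 𝓞E L] [IsScalarTower 𝓞E E L]
  [IsScalarTower 𝓞E B L] (𝓟E : Ideal 𝓞E) [hE : P.LiesOver 𝓟E]

variable [IsGalois K L] [IsDedekindDomain A] [IsDedekindDomain B] [Module.Finite A B]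
  [Module.IsTorsionFree A B] [Algebra A 𝓞E] [Module.Finite A 𝓞E] [IsScalarTower A 𝓞E B]
  [IsDedekindDomain 𝓞E] [𝓟E.LiesOver p]

variable [FiniteDimensional K L] [Ring.HasFiniteQuotients A] [𝓟E.IsMaximal] [P.IsMaximal]

omit [𝓟E.LiesOver p] in
include K L E P in
theorem inertiaField_ramificationIdxIn_eq (hp : p ≠ ⊥) [PerfectField 𝓟E.ResidueField] :
    ramificationIdxIn 𝓟E B = p.ramificationIdxIn B := by
  have inst₁ : Module.Finite 𝓞E B := Module.Finite.right A 𝓞E B
  have inst₂ : Module.IsTorsionFree 𝓞E B := by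
    rw [Module.isTorsionFree_iff_faithfulSMul]
    apply Algebra.IsAlgebraic.faithfulSMul_tower_top A
  have inst₄ : IsGaloisGroup Gal(L/K) A B := .of_isFractionRing _ _ _ K L
  have inst₅ : IsGaloisGroup (inertia Gal(L/K) P) 𝓞E B := .of_isFractionRing _ _ _ E L
  have : p.IsMaximal := over_def P p ▸ Ideal.IsMaximal.under A P
  have : Finite (A ⧸ p) := Ring.HasFiniteQuotients.finiteQuotient hp
  have h1 := card_inertia_eq_ramificationIdxIn (G := Gal(L/K)) p P
  have h2 := card_inertia_eq_ramificationIdxIn (G := inertia Gal(L/K) P) 𝓟E P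
  rw [← h1, ← h2]
  have h3 : (P.inertia (inertia Gal(L/K) P)) = ⊤ := by
    rw [eq_top_iff]
    intro g _
    exact Ideal.coe_mem_inertia.mp g.2
  rw [h3]
  exact Nat.card_congr Subgroup.topEquiv.toEquiv

include K L E P in
/-- Let `E` be the inertia field of `P` in `L/K` and `𝓟E` the prime of `E` below `P`.  Then
`𝓟E` is unramified over `K`. -/
theorem inertiaField_ramificationIdx_eq (hp : p ≠ ⊥) [PerfectField 𝓟E.ResidueField] :
    𝓟E.ramificationIdx A = 1 := by
  have inst₁ : Module.Finite 𝓞E B := Module.Finite.right A 𝓞E B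
  have inst₂ : Module.IsTorsionFree 𝓞E B := by
    rw [Module.isTorsionFree_iff_faithfulSMul]
    apply Algebra.IsAlgebraic.faithfulSMul_tower_top A
  have inst₃ : Module.IsTorsionFree A 𝓞E := Module.IsTorsionFree.of_faithfulSMul _ _ B
  have inst₄ : IsGaloisGroup Gal(L/K) A B := .of_isFractionRing _ _ _ K L
  have inst₅ : IsGaloisGroup (inertia Gal(L/K) P) 𝓞E B := .of_isFractionRing _ _ _ E L
  have := ramificationIdx_tower (R := A) 𝓟E P
  rwa [← ramificationIdxIn_eq_ramificationIdx 𝓟E P (inertia Gal(L/K) P),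
    inertiaField_ramificationIdxIn_eq A K L P E 𝓞E 𝓟E hp,
    ramificationIdxIn_eq_ramificationIdx p P Gal(L/K),
    right_eq_mul₀ <| (ramificationIdx_pos P A).ne'] at this

end


/-- Finite level form of "the inertia field is unramified": an element of the finite Galois
number field `F` fixed by the inertia group of `P` has the `P`-adic value of a power of `q`. -/
theorem exists_zpow_valuation_eq_one_of_fixed (F : Type*) [Field F] [NumberField F] [IsGalois ℚ F]
    (w : HeightOneSpectrum (𝓞 F)) (q : ℕ) (hq : q.Prime) (hqP : (q : 𝓞 F) ∈ w.asIdeal)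
    (y : F) (hy : y ≠ 0) (hfix : ∀ τ ∈ w.asIdeal.inertia Gal(F/ℚ), τ y = y) :
    ∃ k : ℤ, w.valuation F (y / (q : F) ^ k) = 1 := by
  classical
  set P : Ideal (𝓞 F) := w.asIdeal with hP
  haveI : P.IsPrime := w.isPrime
  haveI : P.IsMaximal := w.isMaximal
  let T : IntermediateField ℚ F := FixedPoints.intermediateField (inertia Gal(F/ℚ) P)
  let 𝓟T : Ideal (𝓞 T) := P.under (𝓞 T)
  let p : Ideal ℤ := P.under ℤ
  have hqp : (q : ℤ) ∈ p := by
    show algebraMap ℤ (𝓞 F) (q : ℤ) ∈ P
    simpa using hqP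
  have hp : p ≠ ⊥ := by
    intro h
    rw [h, Ideal.mem_bot] at hqp
    exact hq.ne_zero (by exact_mod_cast hqp)
  have hpq : p = Ideal.span {(q : ℤ)} := by
    have hmax : (Ideal.span {(q : ℤ)}).IsMaximal :=
      PrincipalIdealRing.isMaximal_of_irreducible
        (Nat.prime_iff_prime_int.mp hq).irreducible
    have hle : Ideal.span {(q : ℤ)} ≤ p := by
      rw [Ideal.span_singleton_le_iff_mem]; exact hqp
    exact (hmax.eq_of_le (Ideal.IsPrime.ne_top inferInstance) hle).symm
  have h𝓟T0 : 𝓟T ≠ ⊥ := Ideal.ne_bot_of_liesOver_of_ne_bot hp 𝓟T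
  haveI : 𝓟T.IsMaximal := Ring.DimensionLEOne.maximalOfPrime h𝓟T0 inferInstance
  haveI : Finite (𝓞 T ⧸ 𝓟T) := Ring.HasFiniteQuotients.finiteQuotient h𝓟T0
  have he : 𝓟T.ramificationIdx ℤ = 1 :=
    inertiaField_ramificationIdx_eq ℤ ℚ F P T (𝓞 T) 𝓟T hp
  let v : HeightOneSpectrum ℤ := ⟨p, inferInstance, hp⟩
  let wT : HeightOneSpectrum (𝓞 T) := ⟨𝓟T, inferInstance, h𝓟T0⟩
  haveI : wT.asIdeal.LiesOver v.asIdeal := (inferInstance : 𝓟T.LiesOver p)
  haveI : w.asIdeal.LiesOver wT.asIdeal := (inferInstance : P.LiesOver 𝓟T)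
  have he' : v.asIdeal.ramificationIdx' wT.asIdeal = 1 := by
    rw [Ideal.ramificationIdx'_eq_ramificationIdx v.asIdeal wT.asIdeal hp]
    exact he
  -- value of `q`
  have hvq : v.valuation ℚ (q : ℚ) = WithZero.exp (-1 : ℤ) := by
    have h1 : v.valuation ℚ ((q : ℤ) : ℚ) = v.intValuation (q : ℤ) :=
      v.valuation_of_algebraMap (q : ℤ)
    rw [Int.cast_natCast] at h1
    rw [h1]
    exact v.intValuation_singleton (by exact_mod_cast hq.ne_zero) hpq
  have hwq : wT.valuation T (q : T) = WithZero.exp (-1 : ℤ) := by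
    have h1 := HeightOneSpectrum.valuation_liesOver T v wT (q : ℚ)
    rw [he', pow_one, hvq] at h1
    rw [h1]
    simp
  -- `y` in `T`
  let yT : T := ⟨y, fun g => hfix g.1 g.2⟩
  have hyT : yT ≠ 0 := fun h => hy (congrArg Subtype.val h)
  have hwy : wT.valuation T yT ≠ 0 := (Valuation.ne_zero_iff _).mpr hyT
  refine ⟨- WithZero.log (wT.valuation T yT), ?_⟩
  have hz : wT.valuation T (yT / (q : T) ^ (- WithZero.log (wT.valuation T yT))) = 1 := by
    rw [map_div₀, map_zpow₀, hwq, ← WithZero.exp_zsmul]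
    simp only [smul_eq_mul, mul_neg, mul_one, neg_neg]
    rw [WithZero.exp_log hwy]
    exact div_self hwy
  have h2 := HeightOneSpectrum.valuation_liesOver F wT w
    (yT / (q : T) ^ (- WithZero.log (wT.valuation T yT)))
  rw [hz, one_pow] at h2
  have h3 : algebraMap T F (yT / (q : T) ^ (- WithZero.log (wT.valuation T yT))) =
      y / (q : F) ^ (- WithZero.log (wT.valuation T yT)) := by
    rw [map_div₀, map_zpow₀, map_natCast]
    rfl
  rw [← h3]
  exact h2.symm


end Fermat.Agent.A2.IF.H429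

end
-- ===== PACK-END A2/IF/H429/Hilbert.lean

-- ===== PACK-BEGIN A2/H849/Hartogs.lean
section










/-!
# Algebraic Hartogs lemma for noetherian integrally closed domains (helper849, cell A2)

Mathlib-only.  `R` a noetherian integrally closed domain with fraction field `K`.

* `locAt K P` : the localisation `R_P` as a subalgebra of `K`.
* `isDiscreteValuationRing_locAt_of_colon` : if the prime `P` is a colon ideal `(a) : c`
  (`a ≠ 0`), then `R_P` is a discrete valuation ring.
* `hartogs_locAt` : an element of `K` lying in `R_P` for every prime `P` with `R_P` a DVR lies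
  in `R`.
* `exists_valuationSubring_not_mem` : if `u ∉ R` there is a discrete valuation subring `O ⊇ R`
  of `K`, equal to the localisation of `R` at its centre, with `u ∉ O`.
* `isUnit_of_forall_valuationSubring` : an element with trivial Weil divisor is a unit.
-/

set_option autoImplicit false

namespace Fermat.Agent.A2.H849

open IsLocalRing

variable {R : Type*} [CommRing R] [IsDomain R]
variable (K : Type*) [Field K] [Algebra R K] [IsFractionRing R K]

/-- The localisation `R_P` as a subalgebra of the fraction field `K`. -/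
noncomputable def locAt (P : Ideal R) [P.IsPrime] : Subalgebra R K :=
  Localization.subalgebra.ofField K P.primeCompl P.primeCompl_le_nonZeroDivisors

variable {K}

theorem mem_locAt_iff (P : Ideal R) [P.IsPrime] (x : K) :
    x ∈ locAt K P ↔ ∃ a s : R, s ∉ P ∧ x = algebraMap R K a * (algebraMap R K s)⁻¹ := by
  constructor
  · rintro ⟨a, s, hs, rfl⟩
    exact ⟨a, s, hs, rfl⟩
  · rintro ⟨a, s, hs, rfl⟩
    exact ⟨a, s, hs, rfl⟩

instance locAt_isLocalization (P : Ideal R) [P.IsPrime] :
    IsLocalization.AtPrime (locAt K P) P :=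
  Localization.subalgebra.isLocalization_ofField K P.primeCompl P.primeCompl_le_nonZeroDivisors

instance locAt_isLocalRing (P : Ideal R) [P.IsPrime] : IsLocalRing (locAt K P) :=
  IsLocalization.AtPrime.isLocalRing (locAt K P) P

instance locAt_isNoetherianRing [IsNoetherianRing R] (P : Ideal R) [P.IsPrime] :
    IsNoetherianRing (locAt K P) :=
  IsLocalization.isNoetherianRing P.primeCompl (locAt K P) inferInstance


/-- **Key lemma.** In a noetherian integrally closed domain, a prime which is a colon ideal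
`(a) : c` with `a ≠ 0` has a discrete valuation ring as localisation. -/
theorem isDiscreteValuationRing_locAt_of_colon [IsNoetherianRing R] [IsIntegrallyClosed R]
    (P : Ideal R) [hPp : P.IsPrime] (a c : R) (ha : a ≠ 0)
    (hP : ∀ r, r ∈ P ↔ a ∣ r * c) : IsDiscreteValuationRing (locAt K P) := by
  have haP : a ∈ P := (hP a).2 ⟨c, rfl⟩
  have hc : ¬ a ∣ c := fun h => by
    have h1 : (1 : R) ∈ P := (hP 1).2 (by simpa using h)
    exact (Ideal.ne_top_iff_one P).1 hPp.ne_top h1
  have hc0 : c ≠ 0 := fun h => hc (h ▸ dvd_zero a)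
  have hinj : Function.Injective (algebraMap R K) := IsFractionRing.injective R K
  have haK : algebraMap R K a ≠ 0 := fun h => ha (hinj (by rw [h, map_zero]))
  have hcK : algebraMap R K c ≠ 0 := fun h => hc0 (hinj (by rw [h, map_zero]))
  set v : K := algebraMap R K c / algebraMap R K a with hv
  have hv0 : v ≠ 0 := div_ne_zero hcK haK
  have hk : ∀ r ∈ P, ∃ k : R, algebraMap R K k = algebraMap R K r * v := by
    intro r hr
    obtain ⟨k, hk⟩ := (hP r).1 hr
    refine ⟨k, ?_⟩
    rw [hv, mul_div_assoc', eq_div_iff haK, ← map_mul, ← map_mul, hk, mul_comm]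
  by_cases hcase : ∀ r ∈ P, ∀ k : R, algebraMap R K k = algebraMap R K r * v → k ∈ P
  · exfalso
    let N : Submodule R K := Submodule.map (Algebra.linearMap R K) P
    have hint : IsIntegral R v := by
      refine isIntegral_of_smul_mem_submodule N ?_ ?_ v ?_
      · rw [Submodule.ne_bot_iff]
        exact ⟨_, ⟨a, haP, rfl⟩, haK⟩
      · exact Submodule.FG.map _ (IsNoetherian.noetherian _)
      · rintro n ⟨r, hr, rfl⟩
        obtain ⟨k, hk'⟩ := hk r hr
        refine ⟨k, hcase r hr k hk', ?_⟩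
        rw [Algebra.linearMap_apply, hk', Algebra.linearMap_apply, smul_eq_mul, mul_comm]
    obtain ⟨y, hy⟩ := IsIntegrallyClosed.algebraMap_eq_of_integral hint
    apply hc
    refine ⟨y, hinj ?_⟩
    rw [map_mul, hy, hv, mul_div_cancel₀ _ haK]
  · push Not at hcase
    obtain ⟨t, htP, k, hkt, hkP⟩ := hcase
    have hk0 : k ≠ 0 := fun h => hkP (h ▸ P.zero_mem)
    have hkK : algebraMap R K k ≠ 0 := fun h => hk0 (hinj (by rw [h, map_zero]))
    have htK : algebraMap R K t ≠ 0 := by
      intro h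
      rw [h, zero_mul] at hkt
      exact hkK hkt
    have hmax : maximalIdeal (locAt K P) =
        Ideal.span {algebraMap R (locAt K P) t} := by
      rw [← IsLocalization.AtPrime.map_eq_maximalIdeal P (locAt K P)]
      apply le_antisymm
      · rw [Ideal.map_le_iff_le_comap]
        intro r hr
        rw [Ideal.mem_comap, Ideal.mem_span_singleton']
        obtain ⟨kr, hkr⟩ := hk r hr
        refine ⟨⟨algebraMap R K kr * (algebraMap R K k)⁻¹,
          (mem_locAt_iff P _).2 ⟨kr, k, hkP, rfl⟩⟩, ?_⟩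
        apply Subtype.ext
        show algebraMap R K kr * (algebraMap R K k)⁻¹ * algebraMap R K t = algebraMap R K r
        rw [hkr, hkt]
        field_simp
      · rw [Ideal.span_le, Set.singleton_subset_iff]
        exact Ideal.mem_map_of_mem _ htP
    have hprinc : (maximalIdeal (locAt K P)).IsPrincipal := ⟨⟨_, hmax⟩⟩
    have hpir : IsPrincipalIdealRing (locAt K P) :=
      ((tfae_of_isNoetherianRing_of_isLocalRing_of_isDomain
        (R := locAt K P)).out 4 0).mp hprinc
    refine { toIsPrincipalIdealRing := hpir, toIsLocalRing := inferInstance, not_a_field' := ?_ }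
    intro hbot
    have h1 : algebraMap R (locAt K P) t ∈ maximalIdeal (locAt K P) := by
      rw [hmax]
      exact Ideal.mem_span_singleton_self _
    rw [hbot, Ideal.mem_bot] at h1
    have h2 := congrArg (fun z : locAt K P => (z : K)) h1
    exact htK h2


omit [IsDomain R] in
theorem smul_mk_span_eq_zero_iff (a r c : R) :
    r • (Ideal.Quotient.mk (Ideal.span {a}) c) = 0 ↔ a ∣ r * c := by
  have h1 : r • (Ideal.Quotient.mk (Ideal.span {a}) c) = Ideal.Quotient.mk (Ideal.span {a}) (r * c) :=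
    rfl
  rw [h1, Ideal.Quotient.eq_zero_iff_mem, Ideal.mem_span_singleton]

/-- **Algebraic Hartogs lemma**, localisation form: an element of `K` which lies in `R_P` for
every prime `P` such that `R_P` is a discrete valuation ring lies in `R`. -/
theorem hartogs_locAt [IsNoetherianRing R] [IsIntegrallyClosed R] (u : K)
    (h : ∀ (P : Ideal R) [P.IsPrime], IsDiscreteValuationRing (locAt K P) → u ∈ locAt K P) :
    u ∈ (algebraMap R K).range := by
  have hinj : Function.Injective (algebraMap R K) := IsFractionRing.injective R K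
  obtain ⟨b, a, ha, rfl⟩ := IsFractionRing.div_surjective R u
  have ha0 : a ≠ 0 := nonZeroDivisors.ne_zero ha
  have haK : algebraMap R K a ≠ 0 := fun h => ha0 (hinj (by rw [h, map_zero]))
  by_cases hab : a ∣ b
  · obtain ⟨y, rfl⟩ := hab
    refine ⟨y, ?_⟩
    rw [map_mul, mul_div_cancel_left₀ _ haK]
  exfalso
  -- the module `R / (a)` and the class of `b`
  set x : R ⧸ Ideal.span {a} := Ideal.Quotient.mk _ b with hx
  have hx0 : x ≠ 0 := by
    rw [hx, Ne, Ideal.Quotient.eq_zero_iff_mem, Ideal.mem_span_singleton]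
    exact hab
  obtain ⟨P, hPass, hle⟩ := exists_le_isAssociatedPrime_of_isNoetherianRing R x hx0
  obtain ⟨hPp, y, hy⟩ := (isAssociatedPrime_iff (I := P) (M := R ⧸ Ideal.span {a})).1 hPass
  obtain ⟨c, rfl⟩ := Ideal.Quotient.mk_surjective y
  have hP : ∀ r, r ∈ P ↔ a ∣ r * c := by
    intro r
    rw [hy, Submodule.mem_colon_singleton, Submodule.mem_bot]
    exact smul_mk_span_eq_zero_iff a r c
  have hdvr : IsDiscreteValuationRing (locAt K P) :=
    isDiscreteValuationRing_locAt_of_colon P a c ha0 hP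
  obtain ⟨r, s, hs, hrs⟩ := (mem_locAt_iff P _).1 (h P hdvr)
  have hsK : algebraMap R K s ≠ 0 := by
    intro h0
    apply hs
    rw [hinj (by rw [h0, map_zero] : algebraMap R K s = algebraMap R K 0)]
    exact P.zero_mem
  have hsb : s * b = r * a := by
    apply hinj
    rw [map_mul, map_mul]
    field_simp at hrs
    rw [mul_comm, hrs, mul_comm]
  apply hs
  apply hle
  rw [Submodule.mem_colon_singleton, Submodule.mem_bot, hx]
  exact (smul_mk_span_eq_zero_iff a s b).2 ⟨r, by rw [hsb, mul_comm]⟩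


/-- The valuation subring of `K` given by a localisation `R_P` which is a valuation ring. -/
noncomputable def locValuationSubring (P : Ideal R) [P.IsPrime]
    (h : ValuationRing (locAt K P)) : ValuationSubring K :=
  { (locAt K P).toSubring with
    mem_or_inv_mem' := fun x => by
      rcases ValuationRing.isInteger_or_isInteger (locAt K P) (K := K) x with ⟨y, hy⟩ | ⟨y, hy⟩
      · left
        rw [← hy]
        exact y.2
      · right
        rw [← hy]
        exact y.2 }

theorem mem_locValuationSubring_iff (P : Ideal R) [P.IsPrime]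
    (h : ValuationRing (locAt K P)) (x : K) :
    x ∈ locValuationSubring P h ↔ x ∈ locAt K P := Iff.rfl

theorem algebraMap_mem_locValuationSubring (P : Ideal R) [P.IsPrime]
    (h : ValuationRing (locAt K P)) (r : R) : algebraMap R K r ∈ locValuationSubring P h :=
  (locAt K P).algebraMap_mem r

/-- The obvious ring isomorphism. -/
noncomputable def locValuationSubringEquiv (P : Ideal R) [P.IsPrime]
    (h : ValuationRing (locAt K P)) : locAt K P ≃+* locValuationSubring P h :=
  { toFun := fun x => ⟨x.1, x.2⟩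
    invFun := fun x => ⟨x.1, x.2⟩
    left_inv := fun _ => rfl
    right_inv := fun _ => rfl
    map_mul' := fun _ _ => rfl
    map_add' := fun _ _ => rfl }

theorem isDiscreteValuationRing_locValuationSubring (P : Ideal R) [P.IsPrime]
    (h : IsDiscreteValuationRing (locAt K P)) :
    IsDiscreteValuationRing (locValuationSubring P (inferInstance : ValuationRing (locAt K P))) :=
  IsDiscreteValuationRing.RingEquivClass.isDiscreteValuationRing
    (locValuationSubringEquiv P inferInstance)

/-- A prime with DVR localisation has height one: it contains no nonzero prime other than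
itself. -/
theorem eq_of_le_of_isDiscreteValuationRing (P Q : Ideal R) [hP : P.IsPrime] (hQ : Q.IsPrime)
    (hdvr : IsDiscreteValuationRing (locAt K P)) (hQ0 : Q ≠ ⊥) (hle : Q ≤ P) : Q = P := by
  have hd : Disjoint (P.primeCompl : Set R) (Q : Set R) := by
    rw [Set.disjoint_left]
    intro x hx hxQ
    exact hx (hle hxQ)
  have hdP : Disjoint (P.primeCompl : Set R) (P : Set R) := by
    rw [Set.disjoint_left]
    intro x hx hxP
    exact hx hxP
  have hQ' : (Ideal.map (algebraMap R (locAt K P)) Q).IsPrime :=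
    IsLocalization.isPrime_of_isPrime_disjoint P.primeCompl (locAt K P) Q hQ hd
  have hne : Ideal.map (algebraMap R (locAt K P)) Q ≠ ⊥ := by
    obtain ⟨q, hq, hq0⟩ := Submodule.exists_mem_ne_zero_of_ne_bot hQ0
    intro h
    have h1 : algebraMap R (locAt K P) q ∈ Ideal.map (algebraMap R (locAt K P)) Q :=
      Ideal.mem_map_of_mem _ hq
    rw [h, Ideal.mem_bot] at h1
    apply hq0
    apply IsFractionRing.injective R K
    have h2 := congrArg (fun z : locAt K P => (z : K)) h1
    simpa using h2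
  have hmax : (Ideal.map (algebraMap R (locAt K P)) Q).IsMaximal := hQ'.isMaximal hne
  have h3 : Ideal.map (algebraMap R (locAt K P)) Q = maximalIdeal (locAt K P) :=
    IsLocalRing.eq_maximalIdeal hmax
  rw [← IsLocalization.AtPrime.map_eq_maximalIdeal P (locAt K P)] at h3
  have h4 : (Ideal.map (algebraMap R (locAt K P)) Q).under R =
      (Ideal.map (algebraMap R (locAt K P)) P).under R := by rw [h3]
  rwa [IsLocalization.under_map_of_isPrime_disjoint P.primeCompl (locAt K P) hQ hd,
    IsLocalization.under_map_of_isPrime_disjoint P.primeCompl (locAt K P) hP hdP] at h4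

/-- `O` is a discrete valuation subring of `K` which is the localisation of `R` at the height-one
prime `P`. -/
structure IsLocDVR (O : ValuationSubring K) (P : Ideal R) : Prop where
  prime : P.IsPrime
  ne_bot : P ≠ ⊥
  dvr : IsDiscreteValuationRing O
  le : ∀ r : R, algebraMap R K r ∈ O
  exists_frac : ∀ x ∈ O, ∃ r s : R, s ∉ P ∧ x = algebraMap R K r * (algebraMap R K s)⁻¹
  inv_mem : ∀ s : R, s ∉ P → (algebraMap R K s)⁻¹ ∈ O
  inv_not_mem : ∀ r : R, r ∈ P → r ≠ 0 → (algebraMap R K r)⁻¹ ∉ O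
  height_one : ∀ Q : Ideal R, Q.IsPrime → Q ≠ ⊥ → Q ≤ P → Q = P

theorem isLocDVR_locValuationSubring (P : Ideal R) [hPp : P.IsPrime]
    (hdvr : IsDiscreteValuationRing (locAt K P)) :
    IsLocDVR (locValuationSubring P (inferInstance : ValuationRing (locAt K P))) P := by
  have hinj : Function.Injective (algebraMap R K) := IsFractionRing.injective R K
  refine ⟨hPp, ?_, isDiscreteValuationRing_locValuationSubring P hdvr,
    algebraMap_mem_locValuationSubring P inferInstance, ?_, ?_, ?_, ?_⟩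
  · intro hbot
    apply IsDiscreteValuationRing.not_a_field (locAt K P)
    rw [← IsLocalization.AtPrime.map_eq_maximalIdeal P (locAt K P), Ideal.map_eq_bot_iff_le_ker]
    intro x hx
    rw [hbot, Ideal.mem_bot] at hx
    rw [hx]
    exact Ideal.zero_mem _
  · intro x hx
    exact (mem_locAt_iff P x).1 hx
  · intro s hs
    exact (mem_locAt_iff P _).2 ⟨1, s, hs, by rw [map_one, one_mul]⟩
  · intro r hr hr0 hinv
    have h1 : algebraMap R (locAt K P) r ∈ maximalIdeal (locAt K P) := by
      rw [← IsLocalization.AtPrime.map_eq_maximalIdeal P (locAt K P)]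
      exact Ideal.mem_map_of_mem _ hr
    have h2 : IsUnit (algebraMap R (locAt K P) r) := by
      have hrK : algebraMap R K r ≠ 0 := fun h => hr0 (hinj (by rw [h, map_zero]))
      refine IsUnit.of_mul_eq_one ⟨(algebraMap R K r)⁻¹, hinv⟩ ?_
      apply Subtype.ext
      show algebraMap R K r * (algebraMap R K r)⁻¹ = 1
      exact mul_inv_cancel₀ hrK
    exact (mem_nonunits_iff.1 ((IsLocalRing.mem_maximalIdeal _).1 h1)) h2
  · intro Q hQ hQ0 hle
    exact eq_of_le_of_isDiscreteValuationRing P Q hQ hdvr hQ0 hle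

/-- **Algebraic Hartogs lemma**, valuation form.  If `u ∈ K` is not in `R` there is a discrete
valuation subring `O` of `K`, the localisation of `R` at a height-one prime `P`, with `u ∉ O`. -/
theorem exists_isLocDVR_not_mem [IsNoetherianRing R] [IsIntegrallyClosed R] (u : K)
    (hu : u ∉ (algebraMap R K).range) :
    ∃ (O : ValuationSubring K) (P : Ideal R), IsLocDVR O P ∧ u ∉ O := by
  by_contra hcon
  apply hu
  apply hartogs_locAt u
  intro P hPp hdvr
  by_contra huP
  exact hcon ⟨_, P, isLocDVR_locValuationSubring P hdvr, huP⟩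

/-- **Algebraic Hartogs lemma**, positive form. -/
theorem mem_range_of_forall_isLocDVR [IsNoetherianRing R] [IsIntegrallyClosed R] (u : K)
    (h : ∀ (O : ValuationSubring K) (P : Ideal R), IsLocDVR O P → u ∈ O) :
    u ∈ (algebraMap R K).range := by
  by_contra hu
  obtain ⟨O, P, hOP, huO⟩ := exists_isLocDVR_not_mem u hu
  exact huO (h O P hOP)

/-- An element of `K` lying in every discrete valuation subring of `K` containing `R` lies in
`R`. -/
theorem mem_range_of_forall_valuationSubring [IsNoetherianRing R] [IsIntegrallyClosed R] (u : K)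
    (h : ∀ O : ValuationSubring K, IsDiscreteValuationRing O →
      (∀ r : R, algebraMap R K r ∈ O) → u ∈ O) :
    u ∈ (algebraMap R K).range :=
  mem_range_of_forall_isLocDVR u (fun O _ hOP => h O hOP.dvr hOP.le)

/-- **Trivial Weil divisor ⇒ unit.**  If `u ≠ 0` is a unit of every discrete valuation subring
of `K` which is the localisation of `R` at a height-one prime, then `u` is (the image of) a unit
of `R`. -/
theorem isUnit_of_forall_isLocDVR [IsNoetherianRing R] [IsIntegrallyClosed R] (u : K)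
    (hu : u ≠ 0)
    (h : ∀ (O : ValuationSubring K) (P : Ideal R), IsLocDVR O P → u ∈ O ∧ u⁻¹ ∈ O) :
    ∃ r : Rˣ, algebraMap R K (r : R) = u := by
  obtain ⟨r, hr⟩ := mem_range_of_forall_isLocDVR u (fun O P hOP => (h O P hOP).1)
  obtain ⟨r', hr'⟩ := mem_range_of_forall_isLocDVR u⁻¹ (fun O P hOP => (h O P hOP).2)
  have hinj : Function.Injective (algebraMap R K) := IsFractionRing.injective R K
  have hmul : r * r' = 1 := by
    apply hinj
    rw [map_mul, map_one]
    show algebraMap R K r * algebraMap R K r' = 1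
    rw [hr, hr', mul_inv_cancel₀ hu]
  exact ⟨⟨r, r', hmul, by rw [mul_comm, hmul]⟩, hr⟩

/-- Same with all discrete valuation subrings containing `R`. -/
theorem isUnit_of_forall_valuationSubring [IsNoetherianRing R] [IsIntegrallyClosed R] (u : K)
    (hu : u ≠ 0)
    (h : ∀ O : ValuationSubring K, IsDiscreteValuationRing O →
      (∀ r : R, algebraMap R K r ∈ O) → u ∈ O ∧ u⁻¹ ∈ O) :
    ∃ r : Rˣ, algebraMap R K (r : R) = u :=
  isUnit_of_forall_isLocDVR u hu (fun O _ hOP => h O hOP.dvr hOP.le)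

end Fermat.Agent.A2.H849

end
-- ===== PACK-END A2/H849/Hartogs.lean

-- ===== PACK-BEGIN A2/H552/Hensel.lean
section







/-!
# A2 / ALG (c1), part 1 (helper552): Hensel's lemma for non-monic polynomials

Mathlib's `HenselianLocalRing` only provides lifting of simple roots of **monic** polynomials.
Here we derive, for an arbitrary Henselian local ring `R`:

* `exists_root_of_coeff` : a polynomial `1 + c₁ X + (terms with coefficients in 𝔪)`, `c₁` a unit,
  has a root in `R` (reverse the polynomial, apply Hensel to the monic reverse).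
* `exists_root_of_simple_root` : Hensel's lemma for arbitrary (not necessarily monic)
  polynomials: a simple root modulo `𝔪` lifts.
* `exists_root_of_approx` : the strong form ("Newton"): if `p(s) = w^(2c+1) u` and
  `p'(s) = w^c ε` with `ε` a unit and `w ∈ 𝔪`, then `p` has a root `a` with `w^(c+1) ∣ a - s`.
* `exists_pow_eq_of_isUnit`, `exists_pow_eq_of_isUnit_of_not_dvd` : if the residue field is
  algebraically closed and `m` is invertible in it, every unit of `R` is an `m`-th power.
-/

set_option autoImplicit false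

namespace Fermat.Agent.A2.H552

open Polynomial IsLocalRing

section Hensel

variable {R : Type*} [CommRing R] [HenselianLocalRing R]

/-- Hensel's lemma in residue-field form (item 2 of Mathlib's `HenselianLocalRing.TFAE`),
stated with `Polynomial.map`. -/
theorem exists_root_of_residue_simple_root (f : R[X]) (hf : f.Monic) (a₀ : ResidueField R)
    (h₀ : (f.map (residue R)).eval a₀ = 0)
    (h₁ : (derivative (f.map (residue R))).eval a₀ ≠ 0) :
    ∃ a : R, f.IsRoot a ∧ residue R a = a₀ := by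
  have H := ((HenselianLocalRing.TFAE R).out 0 1).mp ‹HenselianLocalRing R›
  refine H f hf a₀ ?_ ?_
  · rw [aeval_def, eval₂_eq_eval_map, ResidueField.algebraMap_eq]
    exact h₀
  · rw [aeval_def, eval₂_eq_eval_map, ResidueField.algebraMap_eq, ← derivative_map]
    exact h₁

/-- A polynomial `1 + c₁ X + ∑_{i ≥ 2} cᵢ Xⁱ` with `c₁` a unit and `cᵢ ∈ 𝔪` for `i ≥ 2` has a
root in a Henselian local ring. -/
theorem exists_root_of_coeff (g : R[X]) (h0 : g.coeff 0 = 1) (h1 : IsUnit (g.coeff 1))
    (h2 : ∀ i, 2 ≤ i → g.coeff i ∈ maximalIdeal R) : ∃ b : R, g.IsRoot b := by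
  set d := g.natDegree with hd
  have hd1 : 1 ≤ d := le_natDegree_of_ne_zero h1.ne_zero
  set G := reflect d g with hG
  have hGdeg : G.natDegree ≤ d := natDegree_reflect_le.trans (by simp [hd])
  have hGm : G.Monic := by
    refine monic_of_natDegree_le_of_coeff_eq_one d hGdeg ?_
    rw [hG, coeff_reflect, revAt_le le_rfl, Nat.sub_self, h0]
  set c := residue R (g.coeff 1) with hc
  have hc0 : c ≠ 0 := by
    intro h
    rw [hc, residue_eq_zero_iff] at h
    exact (IsLocalRing.notMem_maximalIdeal.mpr h1) h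
  have hgbar : g.map (residue R) = C 1 + C c * X := by
    ext i
    rcases i with _ | _ | i
    · simp [h0]
    · simp [hc, coeff_one]
    · have : residue R (g.coeff (i + 2)) = 0 :=
        (residue_eq_zero_iff _).mpr (h2 _ (by omega))
      simp [this, coeff_one]
  have hGbar : G.map (residue R) = X ^ d + C c * X ^ (d - 1) := by
    rw [hG, ← reflect_map, hgbar, reflect_add, reflect_C, map_one, one_mul]
    have : (C c * X : (ResidueField R)[X]) = C c * X ^ 1 := by rw [pow_one]
    rw [this, reflect_C_mul_X_pow, revAt_le hd1]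
  obtain ⟨e, he⟩ : ∃ e, d = e + 1 := ⟨d - 1, by omega⟩
  obtain ⟨z, hz, hzres⟩ := exists_root_of_residue_simple_root G hGm (-c)
    (by
      rw [hGbar, he]
      simp only [eval_add, eval_pow, eval_X, eval_mul, eval_C, Nat.add_sub_cancel]
      ring)
    (by
      rw [hGbar, he]
      simp only [derivative_add, derivative_X_pow, derivative_mul, derivative_C, zero_mul,
        zero_add, eval_add, eval_mul, eval_C, eval_pow, eval_X, Nat.add_sub_cancel]
      rcases e with _ | e
      · simp
      · simp only [Nat.add_sub_cancel, Nat.cast_add, Nat.cast_one]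
        have : ((e : ResidueField R) + 1 + 1) * (-c) ^ (e + 1) + c * (((e : ResidueField R) + 1)
            * (-c) ^ e) = (-c) ^ (e + 1) := by ring
        rw [this]
        exact pow_ne_zero _ (neg_ne_zero.mpr hc0))
  have hzu : IsUnit z := by
    rw [← IsLocalRing.notMem_maximalIdeal, ← residue_eq_zero_iff, hzres]
    exact neg_ne_zero.mpr hc0
  obtain ⟨u, rfl⟩ := hzu
  refine ⟨(↑u⁻¹ : R), ?_⟩
  let _ : Invertible (u : R) := Units.invertible u
  have key := eval₂_reflect_mul_pow (RingHom.id R) (u : R) d G hGdeg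
  rw [hG, reflect_reflect, ← hG, eval₂_id, eval₂_id, invOf_units] at key
  have hz' : G.eval (u : R) = 0 := hz
  rw [hz'] at key
  have hu : IsUnit ((u : R) ^ d) := (u.isUnit).pow d
  exact (hu.mul_left_eq_zero).mp key

/-- Rescaling a polynomial: if `t₀ = A a₀`, `t₁ W = A a₁` and `W² = A B`, then
`t(W X) = A (a₀ + a₁ X + B X² q(X))` with `q = (t / X²)(W X)`. -/
theorem comp_C_mul_X_eq {S : Type*} [CommRing S] (t : S[X]) (W A B a₀ a₁ : S)
    (h0 : t.coeff 0 = A * a₀) (h1 : t.coeff 1 * W = A * a₁) (h2 : W ^ 2 = A * B) :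
    t.comp (C W * X) =
      C A * (C a₀ + C a₁ * X + C B * X ^ 2 * (t.divX.divX.comp (C W * X))) := by
  have e0 : (C (t.coeff 0) : S[X]) = C A * C a₀ := by rw [h0, C_mul]
  have e1 : (C (t.coeff 1) : S[X]) * C W = C A * C a₁ := by rw [← C_mul, h1, C_mul]
  have e2 : (C W : S[X]) * C W = C A * C B := by rw [← C_mul, ← C_mul, ← pow_two, h2]
  have ht : t = (t.divX.divX * X + C (t.coeff 1)) * X + C (t.coeff 0) := by
    have h := divX_mul_X_add t.divX
    rw [coeff_divX, zero_add] at h
    rw [h, divX_mul_X_add]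
  conv_lhs => rw [ht]
  simp only [add_comp, mul_comp, X_comp, C_comp]
  linear_combination (t.divX.divX.comp (C W * X) * X ^ 2) * e2 + X * e1 + e0

/-- Coefficients of `a + b X + B X² q`. -/
theorem coeff_quadratic_form {S : Type*} [CommRing S] (a b B : S) (q : S[X]) :
    (C a + C b * X + C B * X ^ 2 * q).coeff 0 = a ∧
    (C a + C b * X + C B * X ^ 2 * q).coeff 1 = b ∧
    ∀ j, (C a + C b * X + C B * X ^ 2 * q).coeff (j + 2) = B * q.coeff j := by
  have h : ∀ n, (C B * X ^ 2 * q).coeff n = if 2 ≤ n then B * q.coeff (n - 2) else 0 := by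
    intro n
    rw [mul_assoc, coeff_C_mul, coeff_X_pow_mul']
    split_ifs <;> simp
  refine ⟨?_, ?_, fun j => ?_⟩
  · rw [coeff_add, coeff_add, h]; simp
  · rw [coeff_add, coeff_add, h]; simp
  · rw [coeff_add, coeff_add, h, coeff_C_mul, coeff_X, coeff_C]
    simp

/-- **Hensel's lemma for arbitrary polynomials**: in a Henselian local ring a simple root
modulo the maximal ideal of a (not necessarily monic) polynomial lifts to a root. -/
theorem exists_root_of_simple_root (h : R[X]) (a₀ : R) (h₀ : h.eval a₀ ∈ maximalIdeal R)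
    (h₁ : IsUnit ((derivative h).eval a₀)) :
    ∃ a : R, h.IsRoot a ∧ a - a₀ ∈ maximalIdeal R := by
  set t := taylor a₀ h with ht
  set c₀ := h.eval a₀ with hc₀
  set c₁ := (derivative h).eval a₀ with hc₁
  have key := comp_C_mul_X_eq t c₀ c₀ c₀ 1 c₁
    (by rw [ht, taylor_coeff_zero, mul_one]) (by rw [ht, taylor_coeff_one, mul_comm])
    (by rw [pow_two])
  set g : R[X] := C 1 + C c₁ * X + C c₀ * X ^ 2 * (t.divX.divX.comp (C c₀ * X)) with hg
  obtain ⟨hg0, hg1, hg2⟩ := coeff_quadratic_form 1 c₁ c₀ (t.divX.divX.comp (C c₀ * X))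
  rw [← hg] at hg0 hg1 hg2
  obtain ⟨b, hb⟩ := exists_root_of_coeff g hg0 (by rw [hg1]; exact h₁)
    (by
      intro i hi
      obtain ⟨j, rfl⟩ : ∃ j, i = j + 2 := ⟨i - 2, by omega⟩
      rw [hg2]
      exact Ideal.mul_mem_right _ _ h₀)
  have hb' : eval b g = 0 := hb
  refine ⟨c₀ * b + a₀, ?_, ?_⟩
  · have h3 := congrArg (eval b) key
    simp only [eval_comp, eval_mul, eval_C, eval_X] at h3
    rw [hb', mul_zero, ht, taylor_eval] at h3
    exact h3
  · rw [add_sub_cancel_right]
    exact Ideal.mul_mem_right _ _ h₀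

/-- **Strong form of Hensel's lemma** (Newton): if `p(s) = w^(2c+1) u` and `p'(s) = w^c ε`
with `ε` a unit and `w` in the maximal ideal, then `p` has a root `a` with
`w^(c+1) ∣ a - s`. -/
theorem exists_root_of_approx (p : R[X]) (s w u ε : R) (c : ℕ) (hw : w ∈ maximalIdeal R)
    (hε : IsUnit ε) (h₀ : p.eval s = w ^ (2 * c + 1) * u)
    (h₁ : (derivative p).eval s = w ^ c * ε) :
    ∃ a : R, p.IsRoot a ∧ w ^ (c + 1) ∣ a - s := by
  set t := taylor s p with ht
  have key := comp_C_mul_X_eq t (w ^ (c + 1)) (w ^ (2 * c + 1)) w u ε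
    (by rw [ht, taylor_coeff_zero, h₀]) (by rw [ht, taylor_coeff_one, h₁]; ring) (by ring)
  set q := t.divX.divX.comp (C (w ^ (c + 1)) * X) with hq
  set g : R[X] := C u + C ε * X + C w * X ^ 2 * q with hg
  obtain ⟨ε', hε'⟩ := hε.exists_right_inv
  obtain ⟨b, hb, -⟩ := exists_root_of_simple_root g (-u * ε')
    (by
      have : g.eval (-u * ε') = w * ((-u * ε') ^ 2 * q.eval (-u * ε')) := by
        simp only [hg, eval_add, eval_mul, eval_C, eval_X, eval_pow]
        linear_combination (-u) * hε'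
      rw [this]
      exact Ideal.mul_mem_right _ _ hw)
    (by
      have : (derivative g).eval (-u * ε') =
          ε + w * (derivative (X ^ 2 * q)).eval (-u * ε') := by
        rw [hg, mul_assoc]
        simp only [derivative_add, derivative_C, derivative_C_mul, derivative_X, zero_add,
          eval_add, eval_mul, eval_C, mul_one]
      rw [this, ← IsLocalRing.notMem_maximalIdeal]
      intro hmem
      have h4 : w * (derivative (X ^ 2 * q)).eval (-u * ε') ∈ maximalIdeal R :=
        Ideal.mul_mem_right _ _ hw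
      exact (IsLocalRing.notMem_maximalIdeal.mpr hε)
        ((Ideal.add_mem_iff_left _ h4).mp hmem))
  have hb' : eval b g = 0 := hb
  refine ⟨w ^ (c + 1) * b + s, ?_, ?_⟩
  · have h3 := congrArg (eval b) key
    simp only [eval_comp, eval_mul, eval_C, eval_X] at h3
    rw [hb', mul_zero, ht, taylor_eval] at h3
    exact h3
  · rw [add_sub_cancel_right]
    exact Dvd.intro _ rfl

/-- In a Henselian local ring with algebraically closed residue field, every unit is an `m`-th
power, for `m` invertible in the residue field. -/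
theorem exists_pow_eq_of_isUnit [IsAlgClosed (ResidueField R)] (m : ℕ)
    (hm : (m : ResidueField R) ≠ 0) (u : R) (hu : IsUnit u) : ∃ v : R, v ^ m = u := by
  have hm0 : m ≠ 0 := by
    rintro rfl
    exact hm (by simp)
  have hu0 : residue R u ≠ 0 := by
    intro h
    rw [residue_eq_zero_iff] at h
    exact (IsLocalRing.notMem_maximalIdeal.mpr hu) h
  obtain ⟨a, ha⟩ := IsAlgClosed.exists_pow_nat_eq (residue R u) (Nat.pos_of_ne_zero hm0)
  have ha0 : a ≠ 0 := by
    rintro rfl
    rw [zero_pow hm0] at ha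
    exact hu0 ha.symm
  obtain ⟨v, hv, -⟩ := exists_root_of_residue_simple_root (X ^ m - C u)
    (monic_X_pow_sub_C u hm0) a
    (by simp [ha])
    (by
      simp only [Polynomial.map_sub, Polynomial.map_pow, map_X, map_C, derivative_sub,
        derivative_X_pow, derivative_C, sub_zero, eval_mul, eval_C, eval_pow, eval_X]
      exact mul_ne_zero hm (pow_ne_zero _ ha0))
  refine ⟨v, ?_⟩
  have : (X ^ m - C u : R[X]).eval v = 0 := hv
  simpa [sub_eq_zero] using this

/-- The same, with the hypotheses of `Fermat.Agent.A2.algSS`: the residue characteristic is the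
prime `q` and `q ∤ m`. -/
theorem exists_pow_eq_of_isUnit_of_not_dvd [IsAlgClosed (ResidueField R)] (q m : ℕ)
    (hq : q.Prime) (hqR : (q : R) ∈ maximalIdeal R) (hqm : ¬ q ∣ m) (u : R) (hu : IsUnit u) :
    ∃ v : R, v ^ m = u := by
  refine exists_pow_eq_of_isUnit m (fun hm0 => hqm ?_) u hu
  have h1 : ((q : ℕ) : ResidueField R) = 0 := by
    rw [← map_natCast (residue R)]
    exact (residue_eq_zero_iff _).mpr hqR
  have hdq : ringChar (ResidueField R) ∣ q := ringChar.dvd h1
  have hdm : ringChar (ResidueField R) ∣ m := ringChar.dvd hm0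
  rcases (Nat.dvd_prime hq).mp hdq with h | h
  · exact absurd h CharP.ringChar_ne_one
  · rwa [h] at hdm

end Hensel

end Fermat.Agent.A2.H552

end
-- ===== PACK-END A2/H552/Hensel.lean

-- ===== PACK-BEGIN A2/H313/StrongHensel.lean
section





/-!
# A2 / ALG (c1), part 1: strong Hensel lemma for Henselian local rings (helper313)

Mathlib only.  `HenselianLocalRing R` is defined in Mathlib through lifting of simple roots of
*monic* polynomials.  We derive

* `exists_root_of_simple_zero` : a (not necessarily monic) polynomial `g` with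
  `g(0) ∈ 𝔪` and `g'(0)` a unit has a root in `𝔪`
  (reversed polynomial trick: the reversal of `1 + Z·q(b₀ Z)` is monic);
* `exists_root_newton` : **Newton form**: if `f(s) = f'(s)² · t` with `t ∈ 𝔪`, then `f` has a
  root `b = s + f'(s) · y` with `y ∈ 𝔪`.
-/

set_option autoImplicit false
set_option linter.style.haveILetI false

namespace Fermat.Agent.A2.H313

open Polynomial IsLocalRing

variable {R : Type*} [CommRing R]

/-- Auxiliary: for `n ≥ 1` and a unit `b` of a field `k`, the polynomial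
`X ^ n + C b * X ^ (n - 1)` has the simple root `-b`. -/
theorem aux_eval_reflect {k : Type*} [Field k] (b : k) (n : ℕ) :
    (X ^ (n + 1) + C b * X ^ n : k[X]).eval (-b) = 0 := by
  simp only [eval_add, eval_pow, eval_X, eval_mul, eval_C]
  ring

theorem aux_eval_derivative_reflect {k : Type*} [Field k] (b : k) (n : ℕ) :
    (derivative (X ^ (n + 1) + C b * X ^ n : k[X])).eval (-b) = (-b) ^ n := by
  have h : (X ^ (n + 1) + C b * X ^ n : k[X]) = X ^ n * (X + C b) := by ring
  rw [h, derivative_mul]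
  simp only [eval_add, eval_mul, eval_pow, eval_X, eval_C, derivative_add, derivative_X,
    derivative_C, add_zero, mul_one]
  ring

/-- **Simple roots of arbitrary polynomials lift** (root at `0`). -/
theorem exists_root_of_simple_zero [HenselianLocalRing R] (g : R[X])
    (h0 : g.eval 0 ∈ maximalIdeal R) (h1 : IsUnit (g.derivative.eval 0)) :
    ∃ y ∈ maximalIdeal R, g.IsRoot y := by
  classical
  -- notation
  set b₀ : R := g.coeff 0 with hb₀
  set q : R[X] := g.divX with hq
  have hg : g = q * X + C b₀ := (divX_mul_X_add g).symm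
  have hb₀m : b₀ ∈ maximalIdeal R := by
    have : g.eval 0 = b₀ := by rw [hb₀, coeff_zero_eq_eval_zero]
    rwa [this] at h0
  set b₁ : R := q.eval 0 with hb₁
  have hb₁u : IsUnit b₁ := by
    have : g.derivative.eval 0 = b₁ := by
      conv_lhs => rw [hg]
      simp [derivative_mul, hb₁]
    rwa [this] at h1
  -- the polynomial `P(Z) = 1 + Z * q(b₀ Z)`
  set P : R[X] := 1 + X * q.comp (C b₀ * X) with hP
  have hPg : ∀ z : R, g.eval (b₀ * z) = b₀ * P.eval z := by
    intro z
    conv_lhs => rw [hg]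
    simp only [hP, eval_add, eval_mul, eval_X, eval_C, eval_one, eval_comp]
    ring
  -- reduction of `P` modulo the maximal ideal
  set res := residue R with hres
  have hresb₀ : res b₀ = 0 := (residue_eq_zero_iff b₀).2 hb₀m
  have hPmap : P.map res = 1 + C (res b₁) * X := by
    rw [hP, Polynomial.map_add, Polynomial.map_one, Polynomial.map_mul, map_X, map_comp,
      Polynomial.map_mul, map_C, hresb₀, map_zero, zero_mul]
    have : (q.map res).comp 0 = C (res b₁) := by
      rw [comp_zero, ← coeff_zero_eq_eval_zero, coeff_map, coeff_zero_eq_eval_zero]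
    rw [this, mul_comm]
  have hresb₁ : res b₁ ≠ 0 := by
    intro h
    exact ((residue_eq_zero_iff b₁).1 h) hb₁u
  -- degree of `P` is at least one
  set n := P.natDegree with hn
  have hn1 : 1 ≤ n := by
    have h1' : (P.map res).natDegree = 1 := by
      rw [hPmap, add_comm]
      exact natDegree_linear hresb₁
    have := natDegree_map_le (f := res) (p := P)
    omega
  obtain ⟨k, hk⟩ : ∃ k, n = k + 1 := ⟨n - 1, by omega⟩
  -- the monic reversed polynomial
  set H : R[X] := reflect n P with hH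
  have hHmap : H.map res = X ^ (k + 1) + C (res b₁) * X ^ k := by
    rw [hH, ← reflect_map, hPmap, reflect_add, reflect_one, hk]
    congr 1
    have : (C (res b₁) * X : (ResidueField R)[X]) = C (res b₁) * X ^ 1 := by rw [pow_one]
    rw [this, reflect_C_mul_X_pow, revAt_le (by omega)]
    simp
  have hHmonic : H.Monic := by
    have hc : H.coeff n = 1 := by
      rw [hH, coeff_reflect, revAt_le le_rfl, Nat.sub_self]
      simp [hP, coeff_one_zero]
    have hdeg : H.natDegree ≤ n := natDegree_reflect_le.trans (by simp [hn])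
    rcases Nat.lt_or_ge H.natDegree n with hlt | hge
    · have := coeff_eq_zero_of_natDegree_lt hlt
      rw [hc] at this
      exact absurd this one_ne_zero
    · have hdn : H.natDegree = n := le_antisymm hdeg hge
      rw [Monic, leadingCoeff, hdn, hc]
  -- Hensel at `T₀ = -b₁`
  have hev : H.eval (-b₁) ∈ maximalIdeal R := by
    rw [← residue_eq_zero_iff]
    have : res (H.eval (-b₁)) = (H.map res).eval (res (-b₁)) := by
      rw [eval_map, eval₂_at_apply]
    rw [this, hHmap, map_neg]
    exact aux_eval_reflect _ _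
  have hder : IsUnit (H.derivative.eval (-b₁)) := by
    by_contra hcon
    have hmem : H.derivative.eval (-b₁) ∈ maximalIdeal R := hcon
    rw [← residue_eq_zero_iff] at hmem
    have : res (H.derivative.eval (-b₁)) = ((H.map res).derivative).eval (res (-b₁)) := by
      rw [derivative_map, eval_map, eval₂_at_apply]
    rw [← hres, this, hHmap, map_neg, aux_eval_derivative_reflect] at hmem
    exact pow_ne_zero k (neg_ne_zero.2 hresb₁) hmem
  obtain ⟨T, hTroot, hTclose⟩ := HenselianLocalRing.is_henselian H hHmonic (-b₁) hev hder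
  -- `T` is a unit
  have hTu : IsUnit T := by
    by_contra hcon
    have hTm : T ∈ maximalIdeal R := hcon
    have : -b₁ ∈ maximalIdeal R := by
      have := (maximalIdeal R).sub_mem hTm hTclose
      simpa using this
    exact (neg_mem_iff.1 this) hb₁u
  obtain ⟨u, rfl⟩ := hTu
  -- `z = T⁻¹` is a root of `P`
  have hz : P.eval (↑u⁻¹ : R) = 0 := by
    letI : Invertible (↑u⁻¹ : R) := ⟨(u : R), by simp, by simp⟩
    have hinv : ⅟(↑u⁻¹ : R) = (u : R) := rfl
    have := (eval₂_reflect_eq_zero_iff (RingHom.id R) (↑u⁻¹ : R) n P le_rfl).1 (by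
      rw [hinv]
      have : eval₂ (RingHom.id R) (u : R) (reflect n P) = H.eval (u : R) := by
        rw [hH, eval₂_id]
      rw [this]
      exact hTroot)
    rwa [eval₂_id] at this
  refine ⟨b₀ * ↑u⁻¹, Ideal.mul_mem_right _ _ hb₀m, ?_⟩
  rw [IsRoot, hPg, hz, mul_zero]

/-- **Simple roots of arbitrary polynomials lift** (root near `a₀`). -/
theorem exists_root_of_simple [HenselianLocalRing R] (g : R[X]) (a₀ : R)
    (h0 : g.eval a₀ ∈ maximalIdeal R) (h1 : IsUnit (g.derivative.eval a₀)) :
    ∃ a : R, g.IsRoot a ∧ a - a₀ ∈ maximalIdeal R := by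
  set g' : R[X] := g.comp (X + C a₀) with hg'
  have e0 : g'.eval 0 = g.eval a₀ := by simp [hg', eval_comp]
  have e1 : g'.derivative.eval 0 = g.derivative.eval a₀ := by
    simp [hg', derivative_comp, eval_comp]
  obtain ⟨y, hy, hroot⟩ := exists_root_of_simple_zero g' (by rwa [e0]) (by rwa [e1])
  refine ⟨y + a₀, ?_, by simpa using hy⟩
  have : g'.eval y = g.eval (y + a₀) := by simp [hg', eval_comp]
  rw [IsRoot, ← this]
  exact hroot

/-- **Strong Hensel lemma (Newton form)** for Henselian local rings: if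
`f(s) = f'(s)² · t` with `t ∈ 𝔪`, then `f` has a root `s + f'(s) · y` with `y ∈ 𝔪`. -/
theorem exists_root_newton [HenselianLocalRing R] (f : R[X]) (s t : R)
    (ht : t ∈ maximalIdeal R) (hfs : f.eval s = (f.derivative.eval s) ^ 2 * t) :
    ∃ y ∈ maximalIdeal R, f.IsRoot (s + f.derivative.eval s * y) := by
  set c : R := f.derivative.eval s with hc
  -- Taylor expansion in `R[Y]`
  obtain ⟨K, hK⟩ := binomExpansion (f.map (C : R →+* R[X])) (C s) (C c * X)
  have e0 : (f.map (C : R →+* R[X])).eval (C s) = C (f.eval s) := by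
    rw [eval_map, eval₂_at_apply]
  have e1 : (derivative (f.map (C : R →+* R[X]))).eval (C s) = C c := by
    rw [derivative_map, eval_map, eval₂_at_apply]
  have e2 : (f.map (C : R →+* R[X])).eval (C s + C c * X) = f.comp (C s + C c * X) := by
    rw [eval_map, comp]
  rw [e0, e1, e2, hfs] at hK
  set g : R[X] := C t + X + K * X ^ 2 with hg
  have hcomp : f.comp (C s + C c * X) = C (c ^ 2) * g := by
    rw [hK, hg]
    simp only [map_mul, map_pow]
    ring
  have hg0 : g.eval 0 ∈ maximalIdeal R := by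
    have : g.eval 0 = t := by simp [hg]
    rwa [this]
  have hg1 : IsUnit (g.derivative.eval 0) := by
    have : g.derivative.eval 0 = 1 := by simp [hg, derivative_mul]
    rw [this]
    exact isUnit_one
  obtain ⟨y, hy, hroot⟩ := exists_root_of_simple_zero g hg0 hg1
  refine ⟨y, hy, ?_⟩
  have : f.eval (s + c * y) = (f.comp (C s + C c * X)).eval y := by
    simp [eval_comp]
  rw [IsRoot, this, hcomp, eval_mul, hroot, mul_zero]

end Fermat.Agent.A2.H313

end
-- ===== PACK-END A2/H313/StrongHensel.lean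

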