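import Mathlib
import Fermat.Prelude.Def_ModularCurve_ReductionModL
import Fermat.Agent.Pack.S36.E0L0
import Fermat.Agent.Pack.S36.E0L3
import Fermat.Agent.Pack.S36.E1L3
import Fermat.Agent.Pack.S36.E1L1
import Fermat.Agent.Pack.S36.E1L2
import Fermat.Agent.Pack.S36.E2L0
import Fermat.Agent.Pack.S36.E1L0
import Fermat.Agent.Pack.S36.E0L1
import Fermat.Agent.Pack.S36.E0L2
import Fermat.Agent.Pack.S36.E2L3
import Fermat.Agent.Pack.S36.E2L2

-- ===== PACK-BEGIN S24/Alg/LocBig.lean
section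


/-!
# S24 / ALG-LOC: Laurent series of order at least `n`

`LocBig n s` means `s = 0` or `n ≤ ord s`.  For such `s` the coefficient `s.coeff n` behaves
like a leading coefficient: it is multiplicative.
-/

set_option autoImplicit false

noncomputable section

namespace Fermat.Agent.S24.H144

variable {C : Type*} [Field C]

/-- `s` is zero or has order at least `n`. -/
def LocBig (n : ℤ) (s : LaurentSeries C) : Prop := s = 0 ∨ n ≤ s.order

namespace LocBig

variable {n m : ℤ} {a b : LaurentSeries C}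

theorem zero (n : ℤ) : LocBig n (0 : LaurentSeries C) := Or.inl rfl

theorem of_le_order (h : n ≤ a.order) : LocBig n a := Or.inr h

theorem self_order (a : LaurentSeries C) : LocBig a.order a := Or.inr le_rfl

theorem mono (h : LocBig m a) (hnm : n ≤ m) : LocBig n a := by
  rcases h with h | h
  · exact Or.inl h
  · exact Or.inr (hnm.trans h)

theorem coeff_eq_zero (h : LocBig n a) {k : ℤ} (hk : k < n) : a.coeff k = 0 := by
  rcases h with rfl | h
  · simp
  · exact HahnSeries.coeff_eq_zero_of_lt_order (lt_of_lt_of_le hk h)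

theorem neg (h : LocBig n a) : LocBig n (-a) := by
  rcases h with rfl | h
  · simp [zero]
  · exact Or.inr (by rwa [HahnSeries.order_neg])

theorem add (ha : LocBig n a) (hb : LocBig n b) : LocBig n (a + b) := by
  rcases eq_or_ne (a + b) 0 with h0 | h0
  · exact Or.inl h0
  rcases ha with rfl | ha
  · rwa [zero_add]
  rcases hb with rfl | hb
  · rw [add_zero]; exact Or.inr ha
  exact Or.inr (le_trans (le_min ha hb) (HahnSeries.min_order_le_order_add h0))

theorem sub (ha : LocBig n a) (hb : LocBig n b) : LocBig n (a - b) := by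
  rw [sub_eq_add_neg]; exact ha.add hb.neg

theorem mul (ha : LocBig n a) (hb : LocBig m b) : LocBig (n + m) (a * b) := by
  rcases ha with rfl | ha
  · simp [zero]
  rcases hb with rfl | hb
  · simp [zero]
  rcases eq_or_ne a 0 with rfl | ha0
  · simp [zero]
  rcases eq_or_ne b 0 with rfl | hb0
  · simp [zero]
  refine Or.inr ?_
  rw [HahnSeries.order_mul ha0 hb0]
  omega

theorem pow (ha : LocBig n a) (k : ℕ) : LocBig (k * n) (a ^ k) := by
  induction k with
  | zero =>
    simp only [Nat.cast_zero, zero_mul, pow_zero]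
    exact Or.inr (by rw [HahnSeries.order_one])
  | succ k ih =>
    rw [pow_succ]
    have := ih.mul ha
    convert this using 1
    push_cast; ring

/-- An element which is big of every order is zero. -/
theorem eq_zero_of_forall (h : ∀ k : ℕ, LocBig (k : ℤ) a) : a = 0 := by
  by_contra h0
  rcases h (a.order.toNat + 1) with h1 | h1
  · exact h0 h1
  · have := Int.self_le_toNat a.order
    push_cast at h1
    omega

/-- The coefficient at the bound is multiplicative. -/
theorem coeff_mul (ha : LocBig n a) (hb : LocBig m b) :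
    (a * b).coeff (n + m) = a.coeff n * b.coeff m := by
  rcases eq_or_ne a 0 with rfl | ha0
  · simp
  rcases eq_or_ne b 0 with rfl | hb0
  · simp
  have ha' : n ≤ a.order := ha.resolve_left ha0
  have hb' : m ≤ b.order := hb.resolve_left hb0
  rcases lt_or_eq_of_le ha' with hlt | heq
  · -- `a.coeff n = 0`
    rw [HahnSeries.coeff_eq_zero_of_lt_order hlt, zero_mul]
    have hab : LocBig (a.order + m) (a * b) := (self_order a).mul hb
    exact hab.coeff_eq_zero (by omega)
  rcases lt_or_eq_of_le hb' with hlt | heq'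
  · rw [HahnSeries.coeff_eq_zero_of_lt_order hlt, mul_zero]
    have hab : LocBig (n + b.order) (a * b) := ha.mul (self_order b)
    exact hab.coeff_eq_zero (by omega)
  rw [heq, heq', HahnSeries.coeff_mul_order_add_order, HahnSeries.leadingCoeff_eq,
    HahnSeries.leadingCoeff_eq]

/-- If two series have the same order and the same leading coefficient, their difference has
larger order. -/
theorem sub_of_leadingCoeff_eq (ho : a.order = b.order)
    (hl : a.leadingCoeff = b.leadingCoeff) : LocBig (a.order + 1) (a - b) := by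
  rcases eq_or_ne (a - b) 0 with h0 | h0
  · exact Or.inl h0
  refine Or.inr ?_
  have hbig : LocBig a.order (a - b) := (self_order a).sub (ho ▸ self_order b)
  have h1 : a.order ≤ (a - b).order := hbig.resolve_left h0
  have h2 : (a - b).coeff a.order = 0 := by
    rw [HahnSeries.coeff_sub, ← HahnSeries.leadingCoeff_eq]
    conv_lhs => rw [ho, ← HahnSeries.leadingCoeff_eq, hl]
    exact sub_self _
  have h3 : (a - b).order ≠ a.order := by
    intro h
    have := HahnSeries.coeff_order_eq_zero.not.mpr h0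
    rw [h] at this
    exact this h2
  omega

end LocBig

end Fermat.Agent.S24.H144

end
end
-- ===== PACK-END S24/Alg/LocBig.lean

-- ===== PACK-BEGIN S24/Alg/LocBasic.lean
section


/-!
# S24 / ALG-LOC, part 1: valuations induced by embeddings into Laurent series

`Induces σ v` : the place `v` of `F` is the one cut out by the embedding `σ : F → C((z))`.
Main result `loc_exists_mult`: then `ord_z ∘ σ = g * v.ord` for some `g ≥ 1`.
-/

set_option autoImplicit false

noncomputable section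

open AlgebraicCurve

namespace Fermat.Agent.S24.H144

variable {K F : Type*} [Field K] [Field F] [Algebra K F]
variable {C : Type*} [Field C]

/-- The embedding `σ` induces the place `v`: the valuation ring of `v` is the set of `f`
whose image has non-negative order. -/
def Induces (σ : F →+* LaurentSeries C) (v : Place K F) : Prop :=
  ∀ f : F, f ∈ v.toValuationSubring ↔ 0 ≤ (σ f).order

theorem loc_map_ne_zero (σ : F →+* LaurentSeries C) {f : F} (hf : f ≠ 0) : σ f ≠ 0 :=
  (map_ne_zero σ).mpr hf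

theorem loc_order_map_mul (σ : F →+* LaurentSeries C) {f g : F} (hf : f ≠ 0) (hg : g ≠ 0) :
    (σ (f * g)).order = (σ f).order + (σ g).order := by
  rw [map_mul]
  exact HahnSeries.order_mul (loc_map_ne_zero σ hf) (loc_map_ne_zero σ hg)

theorem loc_order_map_one (σ : F →+* LaurentSeries C) : (σ (1 : F)).order = 0 := by
  rw [map_one]; exact HahnSeries.order_one

theorem loc_order_map_inv (σ : F →+* LaurentSeries C) (f : F) :
    (σ f⁻¹).order = -(σ f).order := by
  rcases eq_or_ne f 0 with rfl | hf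
  · simp
  · have h := loc_order_map_mul σ hf (inv_ne_zero hf)
    rw [mul_inv_cancel₀ hf, loc_order_map_one] at h
    omega

theorem loc_order_map_pow (σ : F →+* LaurentSeries C) {f : F} (hf : f ≠ 0) (n : ℕ) :
    (σ (f ^ n)).order = n * (σ f).order := by
  induction n with
  | zero => simp
  | succ n ih =>
    rw [pow_succ, loc_order_map_mul σ (pow_ne_zero n hf) hf, ih]
    push_cast; ring

theorem loc_order_map_zpow (σ : F →+* LaurentSeries C) {f : F} (hf : f ≠ 0) (n : ℤ) :
    (σ (f ^ n)).order = n * (σ f).order := by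
  obtain ⟨k, rfl | rfl⟩ := Int.eq_nat_or_neg n
  · rw [zpow_natCast]; exact loc_order_map_pow σ hf k
  · rw [zpow_neg, zpow_natCast, loc_order_map_inv, loc_order_map_pow σ hf k]; ring

theorem loc_order_map_add_le (σ : F →+* LaurentSeries C) {f g : F} (hfg : f + g ≠ 0) :
    min (σ f).order (σ g).order ≤ (σ (f + g)).order := by
  rw [map_add]
  exact HahnSeries.min_order_le_order_add (by rw [← map_add]; exact loc_map_ne_zero σ hfg)

/-- A unit of the valuation ring has order `0`. -/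
theorem loc_order_unit {σ : F →+* LaurentSeries C} {v : Place K F} (hσ : Induces σ v)
    (u : v.toValuationSubringˣ) : (σ ((u : v.toValuationSubring) : F)).order = 0 := by
  have h1 : 0 ≤ (σ ((u : v.toValuationSubring) : F)).order :=
    (hσ _).mp (u : v.toValuationSubring).2
  have h2 : 0 ≤ (σ (((u⁻¹ : v.toValuationSubringˣ) : v.toValuationSubring) : F)).order :=
    (hσ _).mp ((u⁻¹ : v.toValuationSubringˣ) : v.toValuationSubring).2
  have h3 : (((u⁻¹ : v.toValuationSubringˣ) : v.toValuationSubring) : F)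
      = (((u : v.toValuationSubring) : F))⁻¹ := by
    have hmul : ((u : v.toValuationSubring) : F)
        * (((u⁻¹ : v.toValuationSubringˣ) : v.toValuationSubring) : F) = 1 := by
      have := congrArg (Subtype.val) (Units.mul_inv u)
      exact this
    exact eq_inv_of_mul_eq_one_right hmul
  rw [h3, loc_order_map_inv] at h2
  omega

/-- A non-unit of the valuation ring which is nonzero has positive order. -/
theorem loc_order_pos_of_not_isUnit {σ : F →+* LaurentSeries C} {v : Place K F}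
    (hσ : Induces σ v) {a : v.toValuationSubring} (ha : a ≠ 0) (hu : ¬ IsUnit a) :
    0 < (σ (a : F)).order := by
  have h1 : 0 ≤ (σ (a : F)).order := (hσ _).mp a.2
  have haF : (a : F) ≠ 0 := by simpa using ha
  have h2 : ¬ (0 ≤ (σ ((a : F)⁻¹)).order) := by
    intro h
    have hmem : (a : F)⁻¹ ∈ v.toValuationSubring := (hσ _).mpr h
    apply hu
    refine ⟨⟨a, ⟨(a : F)⁻¹, hmem⟩, ?_, ?_⟩, rfl⟩
    · ext; simp [haF]
    · ext; simp [haF]
  rw [loc_order_map_inv] at h2
  omega

/-- **LOC1.** If `σ` induces `v` then `ord_z ∘ σ = g * v.ord` for a positive integer `g`. -/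
theorem loc_exists_mult (v : Place K F) (σ : F →+* LaurentSeries C) (hσ : Induces σ v) :
    ∃ g : ℕ, 0 < g ∧ ∀ f : F, (σ f).order = g * v.ord f := by
  obtain ⟨π, hπ⟩ := IsDiscreteValuationRing.exists_irreducible v.toValuationSubring
  have hπ0 : π ≠ 0 := hπ.ne_zero
  have hπF : (π : F) ≠ 0 := by simpa using hπ0
  have hpos : 0 < (σ (π : F)).order := loc_order_pos_of_not_isUnit hσ hπ0 hπ.not_isUnit
  refine ⟨(σ (π : F)).order.toNat, by omega, fun f => ?_⟩
  rcases eq_or_ne f 0 with rfl | hf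
  · simp
  obtain ⟨u, hu⟩ := v.exists_unit_mul_zpow hf hπ
  have huF : ((u : v.toValuationSubring) : F) ≠ 0 := by simp
  conv_lhs => rw [hu]
  rw [loc_order_map_mul σ huF (zpow_ne_zero _ hπF), loc_order_unit hσ u,
    loc_order_map_zpow σ hπF, Int.toNat_of_nonneg hpos.le]
  ring

end Fermat.Agent.S24.H144

end
end
-- ===== PACK-END S24/Alg/LocBasic.lean

-- ===== PACK-BEGIN S24/H504/Residue.lean
section



/-!
# The residue field of a place over `t = 0` is the (algebraically closed) constant field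
-/

set_option autoImplicit false

namespace Fermat.Agent.S24.H504

open AlgebraicCurve Polynomial

variable {K F : Type*} [Field K] [Field F] [Algebra K F] (v : Place K F)

/-- Membership in the maximal ideal of the valuation ring of `v`. -/
def InMax (f : F) : Prop := f = 0 ∨ 0 < v.ord f

variable {v}

theorem InMax.ord_nonneg {f : F} (h : InMax v f) : 0 ≤ v.ord f := by
  rcases h with rfl | h
  · simp
  · exact h.le

theorem inMax_zero : InMax v (0 : F) := Or.inl rfl

theorem InMax.add {f g : F} (hf : InMax v f) (hg : InMax v g) : InMax v (f + g) :=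
  ord_add_pos v hf hg

theorem InMax.neg {f : F} (hf : InMax v f) : InMax v (-f) := by
  rcases hf with rfl | hf
  · simpa using inMax_zero
  · right; rwa [_root_.Fermat.Agent.S24.H504.ord_neg]

theorem InMax.sub {f g : F} (hf : InMax v f) (hg : InMax v g) : InMax v (f - g) := by
  rw [sub_eq_add_neg]; exact hf.add hg.neg

theorem InMax.mul_right {f g : F} (hf : InMax v f) (hg : 0 ≤ v.ord g) : InMax v (f * g) := by
  rcases hf with rfl | hf
  · left; simp
  rcases eq_or_ne g 0 with rfl | hg0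
  · left; simp
  right
  rw [v.ord_mul (ne_zero_of_ord_ne_zero v hf.ne') hg0]
  omega

theorem InMax.mul_left {f g : F} (hf : InMax v f) (hg : 0 ≤ v.ord g) : InMax v (g * f) := by
  rw [mul_comm]; exact hf.mul_right hg

theorem inMax_sum {ι : Type*} (s : Finset ι) (f : ι → F) (h : ∀ i ∈ s, InMax v (f i)) :
    InMax v (∑ i ∈ s, f i) := by
  classical
  induction s using Finset.induction_on with
  | empty => simpa using inMax_zero
  | insert a s ha ih =>
    rw [Finset.sum_insert ha]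
    exact (h a (Finset.mem_insert_self a s)).add
      (ih fun i hi => h i (Finset.mem_insert_of_mem hi))

theorem inMax_or_of_mul {f g : F} (hf : 0 ≤ v.ord f) (hg : 0 ≤ v.ord g) (h : InMax v (f * g)) :
    InMax v f ∨ InMax v g := by
  rcases eq_or_ne f 0 with rfl | hf0
  · exact Or.inl inMax_zero
  rcases eq_or_ne g 0 with rfl | hg0
  · exact Or.inr inMax_zero
  rcases h with h | h
  · exact absurd h (mul_ne_zero hf0 hg0)
  rw [v.ord_mul hf0 hg0] at h
  by_cases h1 : 0 < v.ord f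
  · exact Or.inl (Or.inr h1)
  · exact Or.inr (Or.inr (by omega))

theorem not_inMax_algebraMap {c : K} (hc : c ≠ 0) : ¬ InMax v (algebraMap K F c) := by
  rintro (h | h)
  · exact hc ((map_eq_zero (algebraMap K F)).mp h)
  · rw [_root_.Fermat.Agent.S24.H504.ord_algebraMap] at h
    exact lt_irrefl _ h

theorem ord_aeval_nonneg {f : F} (hf : 0 ≤ v.ord f) (Q : K[X]) : 0 ≤ v.ord (aeval f Q) := by
  rw [← mem_iff_ord_nonneg'] at *
  rw [aeval_def, eval₂_eq_sum_range]
  refine Subring.sum_mem v.toValuationSubring.toSubring fun i _ => ?_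
  exact v.toValuationSubring.mul_mem _ _ (v.algebraMap_mem' _) (pow_mem hf i)

/-- If a nonzero polynomial over `K` takes a value in the maximal ideal at an integral `f`,
then `f` is congruent to a constant. -/
theorem exists_sub_inMax_of_aeval [IsAlgClosed K] {f : F} (hf : 0 ≤ v.ord f) :
    ∀ (n : ℕ) (Q : K[X]), Q.natDegree = n → Q ≠ 0 → InMax v (aeval f Q) →
      ∃ c : K, InMax v (f - algebraMap K F c) := by
  intro n
  induction n with
  | zero =>
    intro Q hdeg hQ h
    exfalso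
    rw [natDegree_eq_zero] at hdeg
    obtain ⟨c, rfl⟩ := hdeg
    rw [aeval_C] at h
    exact not_inMax_algebraMap (by simpa using hQ) h
  | succ n ih =>
    intro Q hdeg hQ h
    have hdeg' : Q.degree ≠ 0 :=
      (natDegree_pos_iff_degree_pos.mp (by omega)).ne'
    obtain ⟨c, hc⟩ := IsAlgClosed.exists_root Q hdeg'
    obtain ⟨Q₁, hQ₁⟩ := dvd_iff_isRoot.mpr hc
    have hQ₁0 : Q₁ ≠ 0 := by
      rintro rfl
      simp at hQ₁
      exact hQ hQ₁
    have hdeg₁ : Q₁.natDegree = n := by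
      have := congrArg natDegree hQ₁
      rw [natDegree_mul (X_sub_C_ne_zero c) hQ₁0, natDegree_X_sub_C, hdeg] at this
      omega
    have hval : aeval f Q = (f - algebraMap K F c) * aeval f Q₁ := by
      rw [hQ₁, map_mul]
      simp
    rw [hval] at h
    have hfc : 0 ≤ v.ord (f - algebraMap K F c) := by
      rw [← mem_iff_ord_nonneg'] at *
      exact sub_mem hf (v.algebraMap_mem' c)
    rcases inMax_or_of_mul hfc (ord_aeval_nonneg hf Q₁) h with h1 | h1
    · exact ⟨c, h1⟩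
    · exact ih Q₁ hdeg₁ hQ₁0 h1

theorem inMax_aeval_sub_coeff_zero {t : F} (ht : 0 < v.ord t) (q : K[X]) :
    InMax v (aeval t q - algebraMap K F (q.coeff 0)) := by
  have h : q = divX q * X + C (q.coeff 0) := (divX_mul_X_add q).symm
  have h2 : aeval t q - algebraMap K F (q.coeff 0) = t * aeval t (divX q) := by
    conv_lhs => rw [h]
    simp only [map_add, map_mul, aeval_X, aeval_C]
    simp only [coeff_add, coeff_C_zero, mul_coeff_zero, coeff_X_zero, mul_zero, zero_add]
    ring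
  rw [h2]
  exact InMax.mul_right (Or.inr ht) (ord_aeval_nonneg ht.le _)

/-- Two-variable relation: a nonzero `P ∈ K[T][Y]` with `P(t, f) = 0` can be normalised so
that `P(0, Y) ≠ 0`. -/
theorem exists_normalised_relation {t : F} (ht : t ≠ 0) (f : F) (P : K[X][X]) (hP : P ≠ 0)
    (hPf : P.eval₂ (aeval t : K[X] →ₐ[K] F).toRingHom f = 0) :
    ∃ Q : K[X][X], Q.map (constantCoeff : K[X] →+* K) ≠ 0 ∧
      Q.eval₂ (aeval t : K[X] →ₐ[K] F).toRingHom f = 0 := by
  have hX : ¬ IsUnit (C (X : K[X]) : K[X][X]) := by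
    rw [isUnit_C]
    exact not_isUnit_X
  obtain ⟨n, Q, hndvd, rfl⟩ := WfDvdMonoid.max_power_factor' hP hX
  refine ⟨Q, ?_, ?_⟩
  · intro h0
    apply hndvd
    rw [C_dvd_iff_dvd_coeff]
    intro i
    rw [X_dvd_iff]
    have := congrArg (fun p => p.coeff i) h0
    simpa [coeff_map] using this
  · rw [eval₂_mul, eval₂_pow, eval₂_C] at hPf
    simp only [AlgHom.toRingHom_eq_coe, RingHom.coe_coe, aeval_X] at hPf
    rcases mul_eq_zero.mp hPf with h | h
    · exact absurd h (pow_ne_zero n ht)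
    · simpa using h

/-- Reduction of a two-variable relation modulo the maximal ideal. -/
theorem inMax_aeval_map_constantCoeff {t f : F} (ht : 0 < v.ord t) (hf : 0 ≤ v.ord f)
    (Q : K[X][X]) (hQf : Q.eval₂ (aeval t : K[X] →ₐ[K] F).toRingHom f = 0) :
    InMax v (aeval f (Q.map (constantCoeff : K[X] →+* K))) := by
  have h1 : aeval f (Q.map (constantCoeff : K[X] →+* K))
      = Q.eval₂ ((algebraMap K F).comp (constantCoeff : K[X] →+* K)) f := by
    rw [aeval_def, eval₂_map]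
  have h2 : aeval f (Q.map (constantCoeff : K[X] →+* K))
      = -(Q.eval₂ (aeval t : K[X] →ₐ[K] F).toRingHom f
          - Q.eval₂ ((algebraMap K F).comp (constantCoeff : K[X] →+* K)) f) := by
    rw [hQf, h1]; ring
  rw [h2]
  apply InMax.neg
  rw [eval₂_eq_sum_range, eval₂_eq_sum_range, ← Finset.sum_sub_distrib]
  apply inMax_sum
  intro i _
  rw [← sub_mul]
  refine InMax.mul_right ?_ ?_
  · simpa using inMax_aeval_sub_coeff_zero ht (Q.coeff i)
  · rw [ord_pow]
    positivity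

open scoped IntermediateField.algebraAdjoinAdjoin in
/-- **Residue field is `K`.**  If `K` is algebraically closed, `F` is algebraic over `K(t)` and
`v` is a place with `v(t) > 0`, every `v`-integral element is congruent to a constant. -/
theorem exists_sub_inMax [IsAlgClosed K] {t : F} (ht : 0 < v.ord t)
    [Algebra.IsAlgebraic (IntermediateField.adjoin K {t}) F] {f : F} (hf : 0 ≤ v.ord f) :
    ∃ c : K, InMax v (f - algebraMap K F c) := by
  have halg : IsAlgebraic (IntermediateField.adjoin K {t}) f :=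
    Algebra.IsAlgebraic.isAlgebraic f
  have halg' : IsAlgebraic (Algebra.adjoin K {t}) f :=
    (IsFractionRing.isAlgebraic_iff (Algebra.adjoin K {t}) (IntermediateField.adjoin K {t})
      F).mpr halg
  obtain ⟨p, hp0, hpf⟩ := halg'
  let φ : K[X] →+* Algebra.adjoin K {t} :=
    ((aeval t : K[X] →ₐ[K] F).codRestrict (Algebra.adjoin K {t})
      (fun q => aeval_mem_adjoin_singleton K t)).toRingHom
  have hφ : Function.Surjective φ := by
    rintro ⟨a, ha⟩
    have ha' := ha
    rw [Algebra.adjoin_singleton_eq_range_aeval] at ha'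
    obtain ⟨q, hq⟩ := ha'
    exact ⟨q, Subtype.ext hq⟩
  obtain ⟨P, hP⟩ := Polynomial.map_surjective φ hφ p
  have hP0 : P ≠ 0 := by
    rintro rfl
    rw [Polynomial.map_zero] at hP
    exact hp0 hP.symm
  have hcomp : (algebraMap (Algebra.adjoin K {t}) F).comp φ
      = (aeval t : K[X] →ₐ[K] F).toRingHom := by
    ext <;> rfl
  have hPf : P.eval₂ (aeval t : K[X] →ₐ[K] F).toRingHom f = 0 := by
    rw [← hcomp, ← eval₂_map, hP]
    exact hpf
  have ht0 : t ≠ 0 := ne_zero_of_ord_ne_zero v ht.ne'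
  obtain ⟨Q, hQ0, hQf⟩ := exists_normalised_relation ht0 f P hP0 hPf
  exact exists_sub_inMax_of_aeval hf _ _ rfl hQ0 (inMax_aeval_map_constantCoeff ht hf Q hQf)

/-- Decomposition `f = c + g` with `c` constant and `g` in the maximal ideal. -/
theorem exists_eq_const_add [IsAlgClosed K] {t : F} (ht : 0 < v.ord t)
    [Algebra.IsAlgebraic (IntermediateField.adjoin K {t}) F] {f : F} (hf : 0 ≤ v.ord f) :
    ∃ (c : K) (g : F), InMax v g ∧ f = algebraMap K F c + g := by
  obtain ⟨c, hc⟩ := exists_sub_inMax ht hf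
  exact ⟨c, f - algebraMap K F c, hc, by ring⟩

/-- Decomposition `f = c + ϖ f₁` for a uniformizer `ϖ`. -/
theorem exists_eq_const_add_mul [IsAlgClosed K] {t : F} (ht : 0 < v.ord t)
    [Algebra.IsAlgebraic (IntermediateField.adjoin K {t}) F] {ϖ : F} (hϖ : v.ord ϖ = 1)
    {f : F} (hf : 0 ≤ v.ord f) :
    ∃ (c : K) (f₁ : F), 0 ≤ v.ord f₁ ∧ f = algebraMap K F c + ϖ * f₁ := by
  obtain ⟨c, g, hg, rfl⟩ := exists_eq_const_add ht hf
  have hϖ0 : ϖ ≠ 0 := ne_zero_of_ord_ne_zero v (by omega)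
  refine ⟨c, g / ϖ, ?_, by field_simp⟩
  rcases hg with rfl | hg
  · simp
  · rw [ord_div v (ne_zero_of_ord_ne_zero v hg.ne') hϖ0]
    omega

theorem inMax_iff_mem_maximalIdeal (f : v.toValuationSubring) :
    InMax v (f : F) ↔ f ∈ IsLocalRing.maximalIdeal v.toValuationSubring := by
  rw [IsLocalRing.mem_maximalIdeal, mem_nonunits_iff]
  constructor
  · rintro (h | h) hu
    · have : f = 0 := Subtype.ext h
      rw [this] at hu
      exact not_isUnit_zero hu
    · have := v.ord_coe_unit hu.unit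
      rw [IsUnit.unit_spec] at this
      omega
  · intro hu
    by_cases h0 : (f : F) = 0
    · exact Or.inl h0
    right
    have h1 : 0 ≤ v.ord (f : F) := (mem_iff_ord_nonneg' v _).mp f.2
    rcases h1.lt_or_eq with h | h
    · exact h
    exfalso
    apply hu
    have hinv : (f : F)⁻¹ ∈ v.toValuationSubring := by
      rw [mem_iff_ord_nonneg', Place.ord_inv]
      omega
    refine IsUnit.of_mul_eq_one (⟨(f : F)⁻¹, hinv⟩ : v.toValuationSubring) ?_
    ext
    simp [h0]

/-- **Places over `t = 0` have degree one.** -/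
theorem deg_eq_one [IsAlgClosed K] {t : F} (ht : 0 < v.ord t)
    [Algebra.IsAlgebraic (IntermediateField.adjoin K {t}) F] : v.deg = 1 := by
  rw [Place.deg, finrank_eq_one_iff']
  refine ⟨1, one_ne_zero, fun w => ?_⟩
  obtain ⟨f, rfl⟩ := IsLocalRing.residue_surjective w
  obtain ⟨c, hc⟩ := exists_sub_inMax ht ((mem_iff_ord_nonneg' v _).mp f.2)
  refine ⟨c, ?_⟩
  rw [Algebra.smul_def, mul_one]
  have hmem : f - algebraMap K v.toValuationSubring c
      ∈ IsLocalRing.maximalIdeal v.toValuationSubring := by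
    rw [← inMax_iff_mem_maximalIdeal]
    simpa using hc
  have := (IsLocalRing.residue_eq_zero_iff _).mpr hmem
  rw [map_sub, sub_eq_zero] at this
  rw [this]
  rfl

end Fermat.Agent.S24.H504

end
-- ===== PACK-END S24/H504/Residue.lean

-- ===== PACK-BEGIN S18/H516/GaussSpan.lean
section




/-!
# S18 / MOD (helper516): base change of the S28 basis from `ℚ` to an arbitrary field `L ⊇ ℚ`

`F_L := laurentBaseChange L (modularFunctionFieldFull N) ⊆ L((q))` is exactly the `L(j)`-span of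
the images of the S28 "monomials" `y i ∈ ℤ[j_d : d ∣ N]`.
-/

set_option autoImplicit false
set_option linter.unusedSectionVars false

noncomputable section

namespace Fermat.Agent.S18.H516

open ModularCurve HahnSeries IntermediateField Polynomial Fermat.Agent.S28

section CoeffEmb

variable (L : Type*) [Field L] [Algebra ℚ L]

theorem coeffEmb_jq : coeffEmb L jq = jqModC L := by
  rw [← jqModC_rat, coeffEmb, coeffMap_jqModC]

theorem coeffEmb_aeval (x : LaurentSeries ℚ) (r : ℚ[X]) :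
    coeffEmb L (aeval x r) = aeval (coeffEmb L x) (r.map (algebraMap ℚ L)) := by
  rw [aeval_def, aeval_def, hom_eval₂, eval₂_map]
  congr 1
  exact RingHom.ext_rat _ _

/-- `coeffEmb` maps `ℚ(j)` into `L(j)`. -/
theorem coeffEmb_mem_jField {c : LaurentSeries ℚ} (hc : c ∈ jField ℚ) :
    coeffEmb L c ∈ jField L := by
  rw [jField, mem_adjoin_simple_iff] at hc
  obtain ⟨r, s, rfl⟩ := hc
  have hj : coeffEmb L (jqModC ℚ) = jqModC L := by
    rw [coeffEmb, coeffMap_jqModC]
  rw [map_div₀, coeffEmb_aeval, coeffEmb_aeval, hj]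
  rw [jField, mem_adjoin_simple_iff]
  exact ⟨_, _, rfl⟩

theorem coeffMap_intCast_eq_coeffEmb (y : LaurentSeries ℤ) :
    coeffMap (Int.castRingHom L) y = coeffEmb L (coeffMap (Int.castRingHom ℚ) y) := by
  rw [coeffEmb, coeffMap_coeffMap]
  exact coeffMap_congr (RingHom.ext_int _ _) y

end CoeffEmb

section Closure

variable (R : Type*) [CommRing R] (N : ℕ)

/-- The generators `j(q^d)`, `d ∣ N` over an arbitrary ring. -/
theorem coeffMap_mem_of_mem_closure {K : Type*} [Field K] [NeZero N] {y : LaurentSeries ℤ}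
    (hy : y ∈ Subring.closure (intDivisorExpansions N)) :
    coeffMap (Int.castRingHom K) y ∈ modularFunctionFieldFullC K N := by
  induction hy using Subring.closure_induction with
  | mem x hx =>
    obtain ⟨d, hd, hdN, rfl⟩ := hx
    rw [coeffMap_qExpand, coeffMap_jqModC]
    exact jqModCd_mem_full K N hdN
  | zero => rw [map_zero]; exact zero_mem _
  | one => rw [map_one]; exact one_mem _
  | add x y _ _ hx hy => rw [map_add]; exact add_mem hx hy
  | neg x _ hx => rw [map_neg]; exact neg_mem hx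
  | mul x y _ _ hx hy => rw [map_mul]; exact mul_mem hx hy

end Closure

section Span

variable (L : Type*) [Field L] [Algebra ℚ L] (N : ℕ) [NeZero N]
variable {n : ℕ} (y : Fin n → LaurentSeries ℤ)

/-- The `L(j)`-span of the base-changed monomials. -/
def spanL : Submodule (jField L) (LaurentSeries L) :=
  Submodule.span (jField L) (Set.range fun i => coeffMap (Int.castRingHom L) (y i))

/-- Hypothesis package extracted from `CoreData.exists_basis` (char-0 half). -/
def SpansQ : Prop :=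
  (∀ i, y i ∈ Subring.closure (intDivisorExpansions N)) ∧
    ∀ x ∈ modularFunctionFieldFull N,
      x ∈ Submodule.span (jField ℚ) (Set.range fun i => coeffMap (Int.castRingHom ℚ) (y i))

variable {N y}

omit [Algebra ℚ L] in
theorem yL_mem_spanL (i : Fin n) : coeffMap (Int.castRingHom L) (y i) ∈ spanL L y :=
  Submodule.subset_span ⟨i, rfl⟩

theorem coeffEmb_mem_spanL (h : SpansQ N y) {x : LaurentSeries ℚ}
    (hx : x ∈ modularFunctionFieldFull N) : coeffEmb L x ∈ spanL L y := by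
  have hx' := h.2 x hx
  clear hx
  induction hx' using Submodule.span_induction with
  | mem z hz =>
    obtain ⟨i, rfl⟩ := hz
    rw [← coeffMap_intCast_eq_coeffEmb L (y i)]
    exact yL_mem_spanL L i
  | zero => rw [map_zero]; exact zero_mem _
  | add a b _ _ ha hb => rw [map_add]; exact add_mem ha hb
  | smul c a _ ha =>
    have : coeffEmb L (c • a) = (⟨coeffEmb L c, coeffEmb_mem_jField L c.2⟩ : jField L) •
        coeffEmb L a := by
      show coeffEmb L ((c : LaurentSeries ℚ) * a) = coeffEmb L c * coeffEmb L a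
      rw [map_mul]
    rw [this]
    exact Submodule.smul_mem _ _ ha

theorem yQ_mem_full (h : SpansQ N y) (i : Fin n) :
    coeffMap (Int.castRingHom ℚ) (y i) ∈ modularFunctionFieldFull N := by
  have := coeffMap_mem_of_mem_closure (K := ℚ) N (h.1 i)
  rwa [modularFunctionFieldFullC_rat] at this

theorem one_mem_spanL (h : SpansQ N y) : (1 : LaurentSeries L) ∈ spanL L y := by
  have := coeffEmb_mem_spanL L h (one_mem (modularFunctionFieldFull N))
  rwa [map_one] at this

theorem mul_mem_spanL (h : SpansQ N y) {a b : LaurentSeries L} (ha : a ∈ spanL L y)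
    (hb : b ∈ spanL L y) : a * b ∈ spanL L y := by
  induction ha using Submodule.span_induction with
  | mem z hz =>
    obtain ⟨i, rfl⟩ := hz
    induction hb using Submodule.span_induction with
    | mem w hw =>
      obtain ⟨j, rfl⟩ := hw
      show coeffMap (Int.castRingHom L) (y i) * coeffMap (Int.castRingHom L) (y j) ∈ _
      rw [coeffMap_intCast_eq_coeffEmb L (y i), coeffMap_intCast_eq_coeffEmb L (y j), ← map_mul]
      exact coeffEmb_mem_spanL L h (mul_mem (yQ_mem_full h i) (yQ_mem_full h j))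
    | zero => rw [mul_zero]; exact zero_mem _
    | add a b _ _ ha hb => rw [mul_add]; exact add_mem ha hb
    | smul c a _ ha =>
      have : (fun i => coeffMap (Int.castRingHom L) (y i)) i * (c • a) =
          c • ((fun i => coeffMap (Int.castRingHom L) (y i)) i * a) := by
        show _ * ((c : LaurentSeries L) * a) = (c : LaurentSeries L) * (_ * a)
        ring
      rw [this]
      exact Submodule.smul_mem _ _ ha
  | zero => rw [zero_mul]; exact zero_mem _
  | add a b _ _ ha hb => rw [add_mul]; exact add_mem ha hb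
  | smul c a _ ha =>
    have : (c • a) * b = c • (a * b) := by
      show ((c : LaurentSeries L) * a) * b = (c : LaurentSeries L) * (a * b)
      ring
    rw [this]
    exact Submodule.smul_mem _ _ ha

/-- The span as a subalgebra over `L(j)`. -/
def spanAlg (h : SpansQ N y) : Subalgebra (jField L) (LaurentSeries L) where
  carrier := spanL L y
  mul_mem' := fun ha hb => mul_mem_spanL L h ha hb
  add_mem' := fun ha hb => add_mem ha hb
  algebraMap_mem' c := by
    have : algebraMap (jField L) (LaurentSeries L) c = c • (1 : LaurentSeries L) := by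
      rw [Algebra.smul_def, mul_one]
    rw [this]
    exact Submodule.smul_mem _ _ (one_mem_spanL L h)

theorem mem_spanAlg (h : SpansQ N y) {x : LaurentSeries L} :
    x ∈ spanAlg L h ↔ x ∈ spanL L y := Iff.rfl

theorem inv_mem_spanL (h : SpansQ N y) {x : LaurentSeries L} (hx : x ∈ spanL L y) :
    x⁻¹ ∈ spanL L y := by
  have hfin : Module.Finite (jField L) (spanAlg L h) := by
    have : Module.Finite (jField L) (spanL L y) :=
      Module.Finite.span_of_finite _ (Set.finite_range _)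
    exact this
  have hint : IsIntegral (jField L) (⟨x, hx⟩ : spanAlg L h) := IsIntegral.of_finite _ _
  have halg : IsAlgebraic (jField L) ((⟨x, hx⟩ : spanAlg L h) : LaurentSeries L) :=
    (hint.isAlgebraic).algebraMap (A := LaurentSeries L)
  exact (spanAlg L h).inv_mem_of_algebraic (x := ⟨x, hx⟩) halg

/-- The span as an intermediate field of `L((q))/L`. -/
def spanField (h : SpansQ N y) : IntermediateField L (LaurentSeries L) where
  carrier := spanL L y
  mul_mem' := fun ha hb => mul_mem_spanL L h ha hb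
  add_mem' := fun ha hb => add_mem ha hb
  one_mem' := one_mem_spanL L h
  zero_mem' := zero_mem _
  algebraMap_mem' c := by
    have hc : algebraMap L (LaurentSeries L) c ∈ jField L := (jField L).algebraMap_mem c
    have : algebraMap L (LaurentSeries L) c =
        (⟨_, hc⟩ : jField L) • (1 : LaurentSeries L) := by
      show _ = algebraMap L (LaurentSeries L) c * 1
      rw [mul_one]
    rw [this]
    exact Submodule.smul_mem _ _ (one_mem_spanL L h)
  inv_mem' := fun x hx => inv_mem_spanL L h hx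

theorem jField_le_baseChange : jField L ≤ laurentBaseChange L (modularFunctionFieldFull N) := by
  rw [jField, adjoin_le_iff]
  rintro x rfl
  have hj : jq ∈ modularFunctionFieldFull N := modularFunctionField_le_full N (jq_mem N)
  have := coeffEmb_mem_laurentBaseChange L hj
  rwa [coeffEmb_jq] at this

/-- **Base change of the S28 basis.** `F_L` is the `L(j)`-span of the monomials. -/
theorem mem_baseChange_iff_mem_spanL (h : SpansQ N y) {x : LaurentSeries L} :
    x ∈ laurentBaseChange L (modularFunctionFieldFull N) ↔ x ∈ spanL L y := by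
  constructor
  · intro hx
    have hle : laurentBaseChange L (modularFunctionFieldFull N) ≤ spanField L h := by
      rw [laurentBaseChange, adjoin_le_iff]
      rintro z ⟨w, hw, rfl⟩
      exact coeffEmb_mem_spanL L h hw
    exact hle hx
  · intro hx
    induction hx using Submodule.span_induction with
    | mem z hz =>
      obtain ⟨i, rfl⟩ := hz
      show coeffMap (Int.castRingHom L) (y i) ∈ _
      rw [coeffMap_intCast_eq_coeffEmb L (y i)]
      exact coeffEmb_mem_laurentBaseChange L (yQ_mem_full h i)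
    | zero => exact zero_mem _
    | add a b _ _ ha hb => exact add_mem ha hb
    | smul c a _ ha =>
      exact mul_mem (jField_le_baseChange L c.2) ha

end Span

end Fermat.Agent.S18.H516

end
end
-- ===== PACK-END S18/H516/GaussSpan.lean

-- ===== PACK-BEGIN S18/H264/SepGraph.lean
section


/-!
# S18 / G-SEP (helper264): the field `separable` of `Alg.GoodModel` from a reduction *relation*

Mathlib-only, abstract.  Instead of a reduction homomorphism on the valuation ring `V` we use a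
subring `T ≤ Ω × L` ("`(g, ḡ) ∈ T` iff `ḡ` is a reduction of `g`"); no well-definedness is
needed.  `L` is a field of characteristic `ℓ` with a `ℤ`-valued valuation (`L = k((q))`).

* `evalZZ x y` : evaluation `ℤ[X][Y] → B`, `X ↦ x`, `Y ↦ y`;
* `evalZZ_mem_graph` : `(P(x, f), P(x̄, f̄)) ∈ T`;
* `exists_poly_of_graph` : from `P ∈ ℤ[X][Y]` with `P(x̄, f̄) = 0`, `(∂P/∂Y)(x̄, f̄) ≠ 0`
  to the conclusion of the field `separable` (with coefficients even in `ℤ[x]`);
* `exists_poly_of_graph_sep` : the same from `f̄` algebraic over `𝔽_ℓ(x̄)` and `ℓ ∤ v(x̄)`.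
-/

set_option autoImplicit false

namespace Fermat.Agent.S18.H264

open Polynomial

section EvalZZ

/-- Evaluation of an integral bivariate polynomial: `X ↦ x` (inner variable), `Y ↦ y`. -/
noncomputable def evalZZ {B : Type*} [CommRing B] (x y : B) : Polynomial (Polynomial ℤ) →+* B :=
  Polynomial.eval₂RingHom (Polynomial.eval₂RingHom (Int.castRingHom B) x) y

theorem evalZZ_apply {B : Type*} [CommRing B] (x y : B) (P : Polynomial (Polynomial ℤ)) :
    evalZZ x y P = P.eval₂ (Polynomial.eval₂RingHom (Int.castRingHom B) x) y := rfl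

theorem map_evalZZ {B C : Type*} [CommRing B] [CommRing C] (φ : B →+* C) (x y : B)
    (P : Polynomial (Polynomial ℤ)) : φ (evalZZ x y P) = evalZZ (φ x) (φ y) P := by
  have h : φ.comp (Polynomial.eval₂RingHom (Int.castRingHom B) x) =
      Polynomial.eval₂RingHom (Int.castRingHom C) (φ x) := by
    refine Polynomial.ringHom_ext (fun n => ?_) ?_
    · simp
    · simp
  rw [evalZZ_apply, evalZZ_apply, Polynomial.hom_eval₂, h]

end EvalZZ

section Graph

variable {Ω L : Type*} [Field Ω] [Field L]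

/-- Polynomial expressions respect the reduction relation. -/
theorem evalZZ_mem_graph (T : Subring (Ω × L)) {x f : Ω} {xb fb : L} (hx : (x, xb) ∈ T)
    (hf : (f, fb) ∈ T) (P : Polynomial (Polynomial ℤ)) :
    (evalZZ x f P, evalZZ xb fb P) ∈ T := by
  have h1 := map_evalZZ ((RingHom.fst Ω L).comp T.subtype) ⟨(x, xb), hx⟩ ⟨(f, fb), hf⟩ P
  have h2 := map_evalZZ ((RingHom.snd Ω L).comp T.subtype) ⟨(x, xb), hx⟩ ⟨(f, fb), hf⟩ P
  have h3 : ((evalZZ (⟨(x, xb), hx⟩ : T) ⟨(f, fb), hf⟩ P : T) : Ω × L) =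
      (evalZZ x f P, evalZZ xb fb P) := Prod.ext h1 h2
  rw [← h3]
  exact Subtype.property _

/-- The value at `x` of an integral polynomial lies in every subring containing `x`. -/
theorem eval₂_intCast_mem (S : Subring Ω) {x : Ω} (hx : x ∈ S) (g : Polynomial ℤ) :
    Polynomial.eval₂ (Int.castRingHom Ω) x g ∈ S := by
  rw [eval₂_eq_sum_range]
  refine sum_mem fun i _ => ?_
  exact mul_mem (by simp) (pow_mem hx _)

/-- **The field `separable` from a reduction relation and an integral polynomial.** -/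
theorem exists_poly_of_graph (T : Subring (Ω × L)) (V R : Subring Ω) (w x f : Ω) (xb fb : L)
    (hx : (x, xb) ∈ T) (hf : (f, fb) ∈ T)
    (hker : ∀ g : Ω, (g, (0 : L)) ∈ T → g * w⁻¹ ∈ V)
    (hunit : ∀ (g : Ω) (b : L), (g, b) ∈ T → b ≠ 0 → g ≠ 0 ∧ g⁻¹ ∈ V)
    (P : Polynomial (Polynomial ℤ)) (h0 : evalZZ xb fb P = 0)
    (h1 : evalZZ xb fb (derivative P) ≠ 0) :
    ∃ PΩ : Polynomial Ω, (∀ i, PΩ.coeff i ∈ Subring.closure ((R : Set Ω) ∪ {x})) ∧
      PΩ.eval f * w⁻¹ ∈ V ∧ (derivative PΩ).eval f ≠ 0 ∧ ((derivative PΩ).eval f)⁻¹ ∈ V := by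
  refine ⟨P.map (Polynomial.eval₂RingHom (Int.castRingHom Ω) x), ?_, ?_, ?_⟩
  · intro i
    rw [coeff_map, coe_eval₂RingHom]
    exact eval₂_intCast_mem _
      (Subring.subset_closure (Set.mem_union_right _ (Set.mem_singleton x))) _
  · rw [eval_map, ← evalZZ_apply]
    apply hker
    have h := evalZZ_mem_graph T hx hf P
    rwa [h0] at h
  · rw [derivative_map, eval_map, ← evalZZ_apply]
    exact hunit _ _ (evalZZ_mem_graph T hx hf (derivative P)) h1

end Graph

section Sep

variable {Ω L : Type*} [Field Ω] [Field L] (ℓ : ℕ) [hℓ : Fact ℓ.Prime] [Algebra (ZMod ℓ) L]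

/-- Lifting a bivariate polynomial over `𝔽_ℓ` to `ℤ`. -/
theorem exists_int_lift (xb fb : L) (Pbar : Polynomial (Polynomial (ZMod ℓ))) :
    ∃ P : Polynomial (Polynomial ℤ),
      evalZZ xb fb P =
        Pbar.eval₂ (aeval xb : Polynomial (ZMod ℓ) →ₐ[ZMod ℓ] L).toRingHom fb ∧
      evalZZ xb fb (derivative P) =
        (derivative Pbar).eval₂ (aeval xb : Polynomial (ZMod ℓ) →ₐ[ZMod ℓ] L).toRingHom fb := by
  obtain ⟨P, hP⟩ := Polynomial.map_surjective
    (Polynomial.mapRingHom (Int.castRingHom (ZMod ℓ)))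
    (Polynomial.map_surjective _ (ZMod.intCast_surjective)) Pbar
  have hcomp : ((aeval xb : Polynomial (ZMod ℓ) →ₐ[ZMod ℓ] L).toRingHom).comp
      (Polynomial.mapRingHom (Int.castRingHom (ZMod ℓ))) =
      Polynomial.eval₂RingHom (Int.castRingHom L) xb := by
    refine Polynomial.ringHom_ext (fun n => ?_) ?_
    · simp
    · simp
  refine ⟨P, ?_, ?_⟩
  · rw [← hP, Polynomial.eval₂_map, hcomp, evalZZ_apply]
  · rw [← hP, derivative_map, Polynomial.eval₂_map, hcomp, evalZZ_apply]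

/-- **The field `separable` from a reduction relation**, for `L` of characteristic `ℓ` with a
`ℤ`-valued valuation `v`, `ℓ ∤ v x̄`, `f̄` algebraic over `𝔽_ℓ(x̄)`. -/
theorem exists_poly_of_graph_sep (v : AddValuation L (WithTop ℤ))
    (T : Subring (Ω × L)) (V R : Subring Ω) (w x f : Ω) (xb fb : L)
    (hx : (x, xb) ∈ T) (hf : (f, fb) ∈ T)
    (hker : ∀ g : Ω, (g, (0 : L)) ∈ T → g * w⁻¹ ∈ V)
    (hunit : ∀ (g : Ω) (b : L), (g, b) ∈ T → b ≠ 0 → g ≠ 0 ∧ g⁻¹ ∈ V)
    (n : ℤ) (hv : v xb = (n : WithTop ℤ)) (hn : ¬ (ℓ : ℤ) ∣ n)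
    (halg : IsAlgebraic (IntermediateField.adjoin (ZMod ℓ) {xb}) fb) :
    ∃ PΩ : Polynomial Ω, (∀ i, PΩ.coeff i ∈ Subring.closure ((R : Set Ω) ∪ {x})) ∧
      PΩ.eval f * w⁻¹ ∈ V ∧ (derivative PΩ).eval f ≠ 0 ∧ ((derivative PΩ).eval f)⁻¹ ∈ V := by
  have hsep := isSeparable_of_isAlgebraic_of_addVal (κ := ZMod ℓ) ℓ v xb n hv hn fb halg
  obtain ⟨Pbar, hb0, hb1⟩ := exists_bivariate_simple_root xb fb hsep
  obtain ⟨P, hP0, hP1⟩ := exists_int_lift ℓ xb fb Pbar
  exact exists_poly_of_graph T V R w x f xb fb hx hf hker hunit P (by rw [hP0, hb0])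
    (by rw [hP1]; exact hb1)

end Sep

end Fermat.Agent.S18.H264

end
-- ===== PACK-END S18/H264/SepGraph.lean

-- ===== PACK-BEGIN S20/Comb/Fixed.lean
section


/-!
# Fixed points of `S` and `S * T` on `SL(2,ℤ) ⧸ Gamma0 N`

* `card_fixedBy_S : Nat.card (MulAction.fixedBy (SL(2,ℤ) ⧸ Gamma0 N) S) = nuTwo N`
* `card_fixedBy_ST : Nat.card (MulAction.fixedBy (SL(2,ℤ) ⧸ Gamma0 N) (S * T)) = nuThree N`
-/

set_option autoImplicit false

namespace Fermat.Agent.S20.Comb

open Matrix MatrixGroups CongruenceSubgroup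

variable (N : ℕ)

/-- From a root of `x² + 1` in `ZMod N` to a fixed point of `S`. -/
noncomputable def rootToFixedS (x : {x : ZMod N // x ^ 2 + 1 = 0}) :
    MulAction.fixedBy (SL(2, ℤ) ⧸ Gamma0 N) ModularGroup.S :=
  ⟨QuotientGroup.mk (colRep (ZMod.cast x.1 : ℤ)), by
    rw [MulAction.mem_fixedBy, S_smul_mk_eq_mk_iff]
    simp only [colRep_apply_zero_zero, colRep_apply_one_zero, ZMod.intCast_zmod_cast,
      Int.cast_one, one_pow]
    exact x.2⟩

lemma rootToFixedS_bijective : Function.Bijective (rootToFixedS N) := by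
  constructor
  · rintro ⟨x, hx⟩ ⟨y, hy⟩ h
    have h' := congrArg Subtype.val h
    simp only [rootToFixedS] at h'
    rw [mk_eq_mk_iff] at h'
    simp only [colRep_apply_zero_zero, colRep_apply_one_zero, ZMod.intCast_zmod_cast,
      Int.cast_one, mul_one, one_mul] at h'
    exact Subtype.ext (sub_eq_zero.mp h')
  · rintro ⟨q, hq⟩
    obtain ⟨g, rfl⟩ := QuotientGroup.mk_surjective q
    rw [MulAction.mem_fixedBy, S_smul_mk_eq_mk_iff] at hq
    have hinv := c_mul_inv_eq_one N g (-((g 1 0 : ℤ) : ZMod N)) (by linear_combination hq)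
    set a : ZMod N := ((g 0 0 : ℤ) : ZMod N) with ha
    set c : ZMod N := ((g 1 0 : ℤ) : ZMod N) with hc
    set i : ZMod N := (-c * ((g 1 1 : ℤ) : ZMod N) ^ 2
        - 2 * a * ((g 0 1 : ℤ) : ZMod N) * ((g 1 1 : ℤ) : ZMod N)
        + ((g 0 1 : ℤ) : ZMod N) ^ 2 * c) with hi
    refine ⟨⟨a * i, ?_⟩, ?_⟩
    · linear_combination (i ^ 2) * hq - (c * i + 1) * hinv
    · apply Subtype.ext
      simp only [rootToFixedS]
      rw [mk_eq_mk_iff]
      simp only [colRep_apply_zero_zero, colRep_apply_one_zero, ZMod.intCast_zmod_cast,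
        Int.cast_one, one_mul]
      linear_combination a * hinv

/-- **(I2)** The number of fixed points of `S` on `SL(2,ℤ) ⧸ Γ₀(N)` is `ν₂(N)`. -/
theorem card_fixedBy_S :
    Nat.card (MulAction.fixedBy (SL(2, ℤ) ⧸ Gamma0 N) ModularGroup.S) = ModularCurve.nuTwo N := by
  rw [ModularCurve.nuTwo]
  exact (Nat.card_eq_of_bijective _ (rootToFixedS_bijective N)).symm

/-- From a root of `x² + x + 1` in `ZMod N` to a fixed point of `S * T`. -/
noncomputable def rootToFixedST (x : {x : ZMod N // x ^ 2 + x + 1 = 0}) :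
    MulAction.fixedBy (SL(2, ℤ) ⧸ Gamma0 N) (ModularGroup.S * ModularGroup.T) :=
  ⟨QuotientGroup.mk (colRep (ZMod.cast x.1 : ℤ)), by
    rw [MulAction.mem_fixedBy, ST_smul_mk_eq_mk_iff]
    simp only [colRep_apply_zero_zero, colRep_apply_one_zero, ZMod.intCast_zmod_cast,
      Int.cast_one, one_pow, mul_one]
    exact x.2⟩

lemma rootToFixedST_bijective : Function.Bijective (rootToFixedST N) := by
  constructor
  · rintro ⟨x, hx⟩ ⟨y, hy⟩ h
    have h' := congrArg Subtype.val h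
    simp only [rootToFixedST] at h'
    rw [mk_eq_mk_iff] at h'
    simp only [colRep_apply_zero_zero, colRep_apply_one_zero, ZMod.intCast_zmod_cast,
      Int.cast_one, mul_one, one_mul] at h'
    exact Subtype.ext (sub_eq_zero.mp h')
  · rintro ⟨q, hq⟩
    obtain ⟨g, rfl⟩ := QuotientGroup.mk_surjective q
    rw [MulAction.mem_fixedBy, ST_smul_mk_eq_mk_iff] at hq
    have hinv := c_mul_inv_eq_one N g (-((g 0 0 : ℤ) : ZMod N) - ((g 1 0 : ℤ) : ZMod N))
      (by linear_combination hq)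
    set a : ZMod N := ((g 0 0 : ℤ) : ZMod N) with ha
    set c : ZMod N := ((g 1 0 : ℤ) : ZMod N) with hc
    set i : ZMod N := ((-a - c) * ((g 1 1 : ℤ) : ZMod N) ^ 2
        - 2 * a * ((g 0 1 : ℤ) : ZMod N) * ((g 1 1 : ℤ) : ZMod N)
        + ((g 0 1 : ℤ) : ZMod N) ^ 2 * c) with hi
    refine ⟨⟨a * i, ?_⟩, ?_⟩
    · linear_combination (i ^ 2) * hq - (c * i + 1 + a * i) * hinv
    · apply Subtype.ext
      simp only [rootToFixedST]
      rw [mk_eq_mk_iff]
      simp only [colRep_apply_zero_zero, colRep_apply_one_zero, ZMod.intCast_zmod_cast,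
        Int.cast_one, one_mul]
      linear_combination a * hinv

/-- **(I3)** The number of fixed points of `S * T` on `SL(2,ℤ) ⧸ Γ₀(N)` is `ν₃(N)`. -/
theorem card_fixedBy_ST :
    Nat.card (MulAction.fixedBy (SL(2, ℤ) ⧸ Gamma0 N) (ModularGroup.S * ModularGroup.T))
      = ModularCurve.nuThree N := by
  rw [ModularCurve.nuThree]
  exact (Nat.card_eq_of_bijective _ (rootToFixedST_bijective N)).symm

end Fermat.Agent.S20.Comb

end
-- ===== PACK-END S20/Comb/Fixed.lean

-- ===== PACK-BEGIN S18/H107/IntTools.lean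
section



/-!
# helper107 — S18 / M3-T : integrality toolkit for subrings of a field (Mathlib-only)

All objects are sub-objects of one field `Ω` (as in the frozen interface `Alg/Spec.lean`).

* `intCl107 T`            : the integral closure of the subring `T` in `Ω`, as a subring.
* `isIntegral_iff_exists_poly107` : `IsIntegral T b ↔ ∃ P : Polynomial Ω` monic with coefficients in `T`,
  `P.eval b = 0`.
* `isIntegral_of_coeffs107` : a root of a monic polynomial with coefficients integral over `T` is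
  integral over `T`.
* `exists_pow_mul_isIntegral107` (SCALING): `b` integral over `R'[y]`, `R' ≤ intCl T`,
  `e, y·e ∈ intCl T`  ⟹  `∃ D, b·e^D ∈ intCl T`.
* `mem_of_comaximal107` (GLUING): `z·g₁^k₁, z·g₂^k₂ ∈ B`, `a g₁ + b g₂ = 1` in `B` ⟹ `z ∈ B`.
-/

set_option autoImplicit false

namespace Fermat.Agent.S18.H107

open Polynomial Fermat.Agent.S18.Alg

variable {Ω : Type*} [Field Ω]

/-- The integral closure of a subring `T` of `Ω` in `Ω`, as a subring of `Ω`. -/
def intCl107 (T : Subring Ω) : Subring Ω := (integralClosure T Ω).toSubring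

theorem mem_intCl107 {T : Subring Ω} {b : Ω} : b ∈ intCl107 T ↔ IsIntegral T b := Iff.rfl

theorem le_intCl107 (T : Subring Ω) : T ≤ intCl107 T := fun b hb =>
  mem_intCl107.2 (isIntegral_algebraMap (R := T) (A := Ω) (x := ⟨b, hb⟩))

theorem isIntegral_iff_exists_poly107 (T : Subring Ω) (b : Ω) :
    IsIntegral T b ↔ ∃ P : Polynomial Ω, P.Monic ∧ (∀ i, P.coeff i ∈ T) ∧ P.eval b = 0 := by
  constructor
  · rintro ⟨p, hp, hpb⟩
    refine ⟨p.map (algebraMap T Ω), hp.map _, fun i => ?_, ?_⟩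
    · rw [coeff_map]
      exact (p.coeff i).2
    · rw [eval_map]
      exact hpb
  · rintro ⟨P, hP, hc, hb⟩
    have hl : P ∈ lifts (algebraMap T Ω) := by
      rw [lifts_iff_coeff_lifts]
      intro n
      exact ⟨⟨P.coeff n, hc n⟩, rfl⟩
    obtain ⟨q, hq, -, hqm⟩ := lifts_and_degree_eq_and_monic hl hP
    refine ⟨q, hqm, ?_⟩
    rw [← eval_map, hq]
    exact hb

theorem isIntegral_of_coeffs107 (T : Subring Ω) (P : Polynomial Ω) (hP : P.Monic)
    (hc : ∀ i, P.coeff i ∈ intCl107 T) (b : Ω) (hb : P.eval b = 0) : b ∈ intCl107 T := by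
  have hl : P ∈ lifts (algebraMap (integralClosure T Ω) Ω) := by
    rw [lifts_iff_coeff_lifts]
    intro n
    exact ⟨⟨P.coeff n, hc n⟩, rfl⟩
  obtain ⟨q, hq, -, hqm⟩ := lifts_and_degree_eq_and_monic hl hP
  have hint : IsIntegral (integralClosure T Ω) b := by
    refine ⟨q, hqm, ?_⟩
    rw [← eval_map, hq]
    exact hb
  exact mem_intCl107.2 (isIntegral_trans (R := T) (A := integralClosure T Ω) b hint)

/-- Integral closedness of `intCl107 T` in polynomial form over another subring. -/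
theorem isIntegral_mono107 {T T' : Subring Ω} (h : T ≤ intCl107 T') {b : Ω}
    (hb : IsIntegral T b) : b ∈ intCl107 T' := by
  obtain ⟨P, hP, hc, hPb⟩ := (isIntegral_iff_exists_poly107 T b).1 hb
  exact isIntegral_of_coeffs107 T' P hP (fun i => h (hc i)) b hPb

theorem intCl107_mono {T T' : Subring Ω} (h : T ≤ intCl107 T') : intCl107 T ≤ intCl107 T' :=
  fun _ hb => isIntegral_mono107 h (mem_intCl107.1 hb)

theorem polyRing_le107 {R B : Subring Ω} {x : Ω} (hR : R ≤ B) (hx : x ∈ B) :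
    polyRing R x ≤ B := by
  refine Subring.closure_le.2 ?_
  rintro c (hc | hc)
  · exact hR hc
  · rw [Set.mem_singleton_iff] at hc
    rw [hc]
    exact hx

theorem le_polyRing107 (R : Subring Ω) (x : Ω) : R ≤ polyRing R x := fun _ hc =>
  Subring.subset_closure (Or.inl hc)

theorem self_mem_polyRing107 (R : Subring Ω) (x : Ω) : x ∈ polyRing R x :=
  Subring.subset_closure (Or.inr rfl)

/-- Elements of `R'[y]` become elements of `B` after multiplication by a high power of `e`,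
if `e ∈ B` and `y * e ∈ B`. -/
theorem exists_pow_mul_mem107 {R' B : Subring Ω} {y e : Ω} (hR : R' ≤ B) (he : e ∈ B)
    (hye : y * e ∈ B) {c : Ω} (hc : c ∈ polyRing R' y) :
    ∃ d : ℕ, ∀ d', d ≤ d' → c * e ^ d' ∈ B := by
  induction hc using Subring.closure_induction with
  | mem c hc =>
    rcases hc with hc | hc
    · exact ⟨0, fun d' _ => B.mul_mem (hR hc) (B.pow_mem he d')⟩
    · rw [Set.mem_singleton_iff] at hc
      subst hc
      refine ⟨1, fun d' hd' => ?_⟩
      obtain ⟨k, rfl⟩ := Nat.exists_eq_add_of_le hd'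
      have : c * e ^ (1 + k) = (c * e) * e ^ k := by ring
      rw [this]
      exact B.mul_mem hye (B.pow_mem he k)
  | zero => exact ⟨0, fun d' _ => by rw [zero_mul]; exact B.zero_mem⟩
  | one => exact ⟨0, fun d' _ => by rw [one_mul]; exact B.pow_mem he d'⟩
  | add a b _ _ ha hb =>
    obtain ⟨da, hda⟩ := ha
    obtain ⟨db, hdb⟩ := hb
    refine ⟨max da db, fun d' hd' => ?_⟩
    rw [add_mul]
    exact B.add_mem (hda d' (le_trans (le_max_left _ _) hd')) (hdb d' (le_trans (le_max_right _ _) hd'))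
  | neg a _ ha =>
    obtain ⟨da, hda⟩ := ha
    refine ⟨da, fun d' hd' => ?_⟩
    rw [neg_mul]
    exact B.neg_mem (hda d' hd')
  | mul a b _ _ ha hb =>
    obtain ⟨da, hda⟩ := ha
    obtain ⟨db, hdb⟩ := hb
    refine ⟨da + db, fun d' hd' => ?_⟩
    obtain ⟨k, rfl⟩ := Nat.exists_eq_add_of_le hd'
    have : a * b * e ^ (da + db + k) = (a * e ^ da) * (b * e ^ (db + k)) := by ring
    rw [this]
    exact B.mul_mem (hda da le_rfl) (hdb (db + k) (Nat.le_add_right _ _))

/-- **SCALING LEMMA.**  If `b` is integral over `R'[y]`, `R' ≤ intCl T` and `e`, `y * e` are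
integral over `T`, then `b * e ^ D` is integral over `T` for some `D`. -/
theorem exists_pow_mul_isIntegral107 {R' T : Subring Ω} {y e : Ω} (hR : R' ≤ intCl107 T)
    (he : e ∈ intCl107 T) (hye : y * e ∈ intCl107 T) {b : Ω}
    (hb : IsIntegral (polyRing R' y) b) : ∃ D : ℕ, b * e ^ D ∈ intCl107 T := by
  obtain ⟨P, hP, hc, hPb⟩ := (isIntegral_iff_exists_poly107 _ b).1 hb
  -- a uniform exponent for all coefficients
  have hex : ∀ i, ∃ d : ℕ, ∀ d', d ≤ d' → P.coeff i * e ^ d' ∈ intCl107 T := fun i =>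
    exists_pow_mul_mem107 hR he hye (hc i)
  choose d hd using hex
  obtain ⟨D, hD⟩ : ∃ D : ℕ, ∀ i ∈ Finset.range (P.natDegree + 1), d i ≤ D :=
    ⟨(Finset.range (P.natDegree + 1)).sup d, fun i hi => Finset.le_sup hi⟩
  refine ⟨D, ?_⟩
  refine isIntegral_of_coeffs107 T (scaleRoots P (e ^ D)) ((monic_scaleRoots_iff _).2 hP)
    (fun i => ?_) (b * e ^ D) ?_
  · rw [coeff_scaleRoots]
    rcases lt_trichotomy i P.natDegree with hi | hi | hi
    · rw [← pow_mul]
      refine hd i _ ?_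
      have h1 : d i ≤ D := hD i (Finset.mem_range.2 (by omega))
      have h2 : 1 ≤ P.natDegree - i := by omega
      calc d i ≤ D := h1
        _ = D * 1 := (mul_one D).symm
        _ ≤ D * (P.natDegree - i) := Nat.mul_le_mul_left D h2
    · subst hi
      rw [Nat.sub_self, pow_zero, mul_one]
      have : P.coeff P.natDegree = 1 := hP
      rw [this]
      exact (intCl107 T).one_mem
    · rw [coeff_eq_zero_of_natDegree_lt hi, zero_mul]
      exact (intCl107 T).zero_mem
  · have h := scaleRoots_eval₂_mul (p := P) (RingHom.id Ω) b (e ^ D)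
    rw [eval₂_id, eval₂_id, RingHom.id_apply, hPb, mul_zero] at h
    rw [mul_comm]
    exact h

/-- **GLUING over two comaximal opens.** -/
theorem mem_of_comaximal107 (B : Subring Ω) (z g₁ g₂ a b : Ω) (hg₁ : g₁ ∈ B) (hg₂ : g₂ ∈ B)
    (ha : a ∈ B) (hb : b ∈ B) (hab : a * g₁ + b * g₂ = 1) (k₁ k₂ : ℕ)
    (h₁ : z * g₁ ^ k₁ ∈ B) (h₂ : z * g₂ ^ k₂ ∈ B) : z ∈ B := by
  have hcop : IsCoprime (⟨g₁, hg₁⟩ : B) ⟨g₂, hg₂⟩ :=
    ⟨⟨a, ha⟩, ⟨b, hb⟩, Subtype.ext hab⟩
  obtain ⟨a', b', hab'⟩ := (hcop.pow (m := k₁) (n := k₂))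
  have h := congrArg (Subtype.val) hab'
  simp only [Subring.coe_add, Subring.coe_mul, Subring.coe_pow, Subring.coe_one] at h
  have hz : z = (a' : Ω) * (z * g₁ ^ k₁) + (b' : Ω) * (z * g₂ ^ k₂) := by
    calc z = z * 1 := (mul_one z).symm
      _ = z * ((a' : Ω) * g₁ ^ k₁ + (b' : Ω) * g₂ ^ k₂) := by rw [h]
      _ = _ := by ring
  rw [hz]
  exact B.add_mem (B.mul_mem a'.2 h₁) (B.mul_mem b'.2 h₂)

end Fermat.Agent.S18.H107

end
-- ===== PACK-END S18/H107/IntTools.lean

-- ===== PACK-BEGIN S18/H274/TraceNil.lean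
section


/-!
# S18 / b2 (helper274) — the radical of the trace form consists of nilpotents (char 0)

Mathlib-only.  `C` a commutative `Λ`-algebra with a finite basis `β`, `φ : Λ →+* K` a ring
homomorphism to a field of characteristic zero.

* `exists_pow_leftMulMatrix_map_eq_zero` : if `φ (Tr (z c)) = 0` for all `c`, then the matrix of
  multiplication by some power `z ^ m` vanishes under `φ`.
* `exists_pow_dvd_of_trace_dvd` : (`φ` = reduction mod `t`)  if `t ∣ Tr (z c)` for all `c` then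
  `t ∣ z ^ m` in `C` for some `m`.
* `eq_zero_of_trace_eq_zero` : (`φ` = inclusion into the fraction field) if `Tr (z c) = 0` for all
  `c` and `C` is reduced, then `z = 0`.
* `discr_ne_zero_of_charZero` : the discriminant of a basis of a reduced finite free algebra over
  a domain of characteristic zero is nonzero.
-/

namespace Fermat.Agent.S18.H274

open Module

section basic

variable {Λ : Type*} [CommRing Λ] {C : Type*} [CommRing C] [Algebra Λ C]
variable {ι : Type*} [Fintype ι] [DecidableEq ι] (β : Basis ι Λ C)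

omit [DecidableEq ι] in
include β in
theorem dvd_of_forall_dvd_repr (t : Λ) (x : C) (h : ∀ i, t ∣ β.repr x i) :
    algebraMap Λ C t ∣ x := by
  choose e he using h
  refine ⟨∑ i, e i • β i, ?_⟩
  conv_lhs => rw [← β.sum_repr x]
  rw [Finset.mul_sum]
  refine Finset.sum_congr rfl fun i _ => ?_
  rw [he i, mul_smul, Algebra.smul_def t]

omit [Fintype ι] [DecidableEq ι] in
include β in
theorem dvd_repr_of_dvd (t : Λ) (x : C) (h : algebraMap Λ C t ∣ x) (i : ι) :
    t ∣ β.repr x i := by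
  obtain ⟨c, rfl⟩ := h
  rw [← Algebra.smul_def, map_smul]
  exact ⟨β.repr c i, rfl⟩

omit [DecidableEq ι] in
theorem trace_mul_dvd_of_basis (d : Λ) (y : C)
    (h : ∀ k, d ∣ Algebra.trace Λ C (y * β k)) (c : C) :
    d ∣ Algebra.trace Λ C (y * c) := by
  conv_rhs => rw [← β.sum_repr c]
  rw [Finset.mul_sum, map_sum]
  refine Finset.dvd_sum fun k _ => ?_
  rw [mul_smul_comm, map_smul, smul_eq_mul]
  exact Dvd.dvd.mul_left (h k) _

theorem exists_pow_leftMulMatrix_map_eq_zero {K : Type*} [Field K] [CharZero K]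
    (φ : Λ →+* K) (z : C) (hz : ∀ c, φ (Algebra.trace Λ C (z * c)) = 0) :
    ∃ m : ℕ, (Algebra.leftMulMatrix β (z ^ m)).map φ = 0 := by
  let A := Algebra.leftMulMatrix β z
  have hA : ∀ k, 1 ≤ k → ((φ.mapMatrix A) ^ k).trace = 0 := by
    intro k hk
    obtain ⟨k, rfl⟩ : ∃ j, k = j + 1 := ⟨k - 1, by omega⟩
    rw [← map_pow, RingHom.mapMatrix_apply, ← AddMonoidHom.map_trace, ← map_pow,
      ← Algebra.trace_eq_matrix_trace β, pow_succ']
    exact hz _
  obtain ⟨m, hm⟩ := matrix_isNilpotent_of_trace_pow_eq_zero (φ.mapMatrix A) hA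
  refine ⟨m, ?_⟩
  rw [map_pow, ← RingHom.mapMatrix_apply, map_pow]
  exact hm

end basic

section quotient

variable {Λ : Type*} [CommRing Λ] {C : Type*} [CommRing C] [Algebra Λ C]
variable {ι : Type*} [Fintype ι] [DecidableEq ι] (β : Basis ι Λ C)

include β in
/-- If `K` is a characteristic zero field, `π : Λ →+* K` has kernel contained in `(t)` and
`π (Tr (z c)) = 0` for all `c`, then `z` is nilpotent modulo `t C`. -/
theorem exists_pow_dvd_of_trace_map_eq_zero {K : Type*} [Field K] [CharZero K]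
    (π : Λ →+* K) (t : Λ) (hker : ∀ x, π x = 0 → t ∣ x)
    (z : C) (hz : ∀ c, π (Algebra.trace Λ C (z * c)) = 0) :
    ∃ m : ℕ, algebraMap Λ C t ∣ z ^ m := by
  classical
  obtain ⟨m, hm⟩ := exists_pow_leftMulMatrix_map_eq_zero β π z hz
  refine ⟨m, dvd_of_forall_dvd_repr β t _ fun i => ?_⟩
  have h1 := Algebra.leftMulMatrix_mulVec_repr β (z ^ m) 1
  rw [mul_one] at h1
  rw [← h1]
  simp only [Matrix.mulVec, dotProduct]
  refine Finset.dvd_sum fun j _ => ?_
  apply Dvd.dvd.mul_right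
  apply hker
  have := congrFun (congrFun hm i) j
  simpa using this

end quotient

section domain

variable {Λ : Type*} [CommRing Λ] [IsDomain Λ] [CharZero Λ]
variable {C : Type*} [CommRing C] [IsReduced C] [Algebra Λ C]
variable {ι : Type*} [Fintype ι] [DecidableEq ι] (β : Basis ι Λ C)

include β in
theorem eq_zero_of_trace_eq_zero (z : C) (hz : ∀ c, Algebra.trace Λ C (z * c) = 0) : z = 0 := by
  classical
  let K := FractionRing Λ
  have : CharZero K := charZero_of_injective_algebraMap (IsFractionRing.injective Λ K)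
  obtain ⟨m, hm⟩ := exists_pow_leftMulMatrix_map_eq_zero β (algebraMap Λ K) z
    (fun c => by rw [hz c, map_zero])
  have h0 : Algebra.leftMulMatrix β (z ^ m) = 0 := by
    ext i j
    have := congrFun (congrFun hm i) j
    simp only [Matrix.map_apply, Matrix.zero_apply] at this
    rw [Matrix.zero_apply]
    exact IsFractionRing.injective Λ K (by rw [this, map_zero])
  have h1 : z ^ m = 0 := Algebra.leftMulMatrix_injective β (by rw [h0, map_zero])
  exact IsReduced.eq_zero _ ⟨m, h1⟩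

/-- The discriminant of a basis of a reduced finite free algebra over a domain of
characteristic zero is nonzero. -/
theorem discr_ne_zero_of_charZero : Algebra.discr Λ β ≠ 0 := by
  classical
  intro hD
  rw [Algebra.discr_def] at hD
  obtain ⟨v, hv0, hv⟩ := Matrix.exists_mulVec_eq_zero_iff.mpr hD
  have hz : ∀ c, Algebra.trace Λ C ((∑ i, v i • β i) * c) = 0 := by
    intro c
    have hk : ∀ k, (0 : Λ) ∣ Algebra.trace Λ C ((∑ i, v i • β i) * β k) := by
      intro k
      rw [zero_dvd_iff]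
      have := congrFun hv k
      simp only [Matrix.mulVec, dotProduct, Algebra.traceMatrix_apply, Algebra.traceForm_apply,
        Pi.zero_apply] at this
      rw [Finset.sum_mul, map_sum, ← this]
      refine Finset.sum_congr rfl fun i _ => ?_
      rw [smul_mul_assoc, map_smul, smul_eq_mul, mul_comm (β i) (β k), mul_comm]
    exact zero_dvd_iff.mp (trace_mul_dvd_of_basis β 0 _ hk c)
  have h0 := eq_zero_of_trace_eq_zero β _ hz
  apply hv0
  funext i
  have h1 := congrArg (fun x => β.repr x i) h0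
  simp only [β.repr_sum_self, map_zero, Finsupp.coe_zero, Pi.zero_apply] at h1
  exact h1

end domain

end Fermat.Agent.S18.H274

end
-- ===== PACK-END S18/H274/TraceNil.lean

-- ===== PACK-BEGIN S18/H498/CechFinite.lean
section



/-!
# S18, piece b5 (continued): the torsion bound and finiteness of `C / (B₁ + B₂)`

* `exists_torsion_bound`: in a finite module over a noetherian ring, the `ϖ`-power torsion is
  killed by a fixed power `ϖ ^ c`.
* `finite_cech_quotient`: if `C = B₁[1/x]`, `B₁ ⊆ B₂[x]`, `x⁻¹ ∈ B₂` and `B₁` is a finite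
  `R[x]`-module, then `C / (B₁ + B₂)` is a finite `R`-module (this is "H¹ of a projective curve
  over `R` is finite", by hand).
* `idem_trivial_of_cech_finite`: the connectedness statement with these inputs.
-/

set_option autoImplicit false
set_option linter.style.haveILetI false

namespace Fermat.Agent.S18.H498

section Torsion

variable {R M : Type*} [CommRing R] [IsNoetherianRing R] [AddCommGroup M] [Module R M]
  [Module.Finite R M]

theorem exists_torsion_bound (ϖ : R) :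
    ∃ c : ℕ, ∀ (n : ℕ) (m : M), ϖ ^ n • m = 0 → ϖ ^ c • m = 0 := by
  haveI : IsNoetherian R M := isNoetherian_of_isNoetherianRing_of_finite R M
  let T : ℕ →o Submodule R M :=
    { toFun := fun n => LinearMap.ker (LinearMap.lsmul R M (ϖ ^ n))
      monotone' := by
        intro a b hab m hm
        simp only [LinearMap.mem_ker, LinearMap.lsmul_apply] at hm ⊢
        obtain ⟨k, rfl⟩ := Nat.exists_eq_add_of_le hab
        rw [pow_add, mul_comm, mul_smul, hm, smul_zero] }
  obtain ⟨c, hc⟩ := monotone_stabilizes_iff_noetherian.mpr ‹IsNoetherian R M› T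
  have hT : ∀ (n : ℕ) (m : M), m ∈ T n ↔ ϖ ^ n • m = 0 := by
    intro n m
    change m ∈ LinearMap.ker (LinearMap.lsmul R M (ϖ ^ n)) ↔ _
    rw [LinearMap.mem_ker, LinearMap.lsmul_apply]
  refine ⟨c, fun n m hm => ?_⟩
  rcases le_total c n with h | h
  · have hmem : m ∈ T n := (hT n m).mpr hm
    rw [← hc n h] at hmem
    exact (hT c m).mp hmem
  · obtain ⟨k, rfl⟩ := Nat.exists_eq_add_of_le h
    rw [pow_add, mul_comm, mul_smul, hm, smul_zero]

end Torsion

section Finite

variable {R C : Type*} [CommRing R] [CommRing C] [Algebra R C]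

/-- Finiteness of the Čech `H¹` for two charts glued along `x ↦ x⁻¹`. -/
theorem finite_cech_quotient (B₁ B₂ : Subalgebra R C) (x x' : C) (hx : x ∈ B₁) (hx' : x' ∈ B₂)
    (hxx' : x * x' = 1)
    (ι : Type*) [Finite ι] (g : ι → C) (hg : ∀ i, g i ∈ B₁)
    (hgen : ∀ b ∈ B₁, ∃ P : ι → Polynomial R, b = ∑ᶠ i, Polynomial.aeval x (P i) * g i)
    (hloc : ∀ y : C, ∃ n : ℕ, x ^ n * y ∈ B₁)
    (hinf : ∀ i, ∃ n : ℕ, x' ^ n * g i ∈ B₂) :
    Module.Finite R (C ⧸ (Subalgebra.toSubmodule B₁ ⊔ Subalgebra.toSubmodule B₂)) := by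
  classical
  haveI : Fintype ι := Fintype.ofFinite ι
  choose N hN using hinf
  let Nmax : ℕ := Finset.univ.sup N
  have hNmax : ∀ i, ∀ a, Nmax ≤ a → x' ^ a * g i ∈ B₂ := by
    intro i a ha
    have hle : N i ≤ a := le_trans (Finset.le_sup (f := N) (Finset.mem_univ i)) ha
    obtain ⟨k, rfl⟩ := Nat.exists_eq_add_of_le hle
    rw [pow_add, mul_comm (x' ^ N i), mul_assoc]
    exact B₂.mul_mem (B₂.pow_mem hx' k) (hN i)
  -- the finite generating family
  let W : Submodule R C := Submodule.span R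
    (Set.range fun q : ι × Fin Nmax => x' ^ (q.2 : ℕ) * g q.1)
  let S : Submodule R C := Subalgebra.toSubmodule B₁ ⊔ Subalgebra.toSubmodule B₂
  have hkey : ∀ (i : ι) (n j : ℕ), x' ^ n * (x ^ j * g i) ∈ S ⊔ W := by
    intro i n j
    rcases le_total n j with h | h
    · -- `x^(j-n) g i ∈ B₁`
      obtain ⟨k, rfl⟩ := Nat.exists_eq_add_of_le h
      have : x' ^ n * (x ^ (n + k) * g i) = x ^ k * g i := by
        rw [pow_add, ← mul_assoc, ← mul_assoc, ← mul_pow, mul_comm x' x, hxx', one_pow, one_mul]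
      rw [this]
      exact Submodule.mem_sup_left (Submodule.mem_sup_left (B₁.mul_mem (B₁.pow_mem hx k) (hg i)))
    · obtain ⟨k, rfl⟩ := Nat.exists_eq_add_of_le h
      have : x' ^ (j + k) * (x ^ j * g i) = x' ^ k * g i := by
        rw [pow_add, mul_comm (x' ^ j), mul_assoc, ← mul_assoc (x' ^ j), ← mul_pow,
          mul_comm x' x, hxx', one_pow, one_mul]
      rw [this]
      rcases lt_or_ge k Nmax with hk | hk
      · exact Submodule.mem_sup_right (Submodule.subset_span ⟨(i, ⟨k, hk⟩), rfl⟩)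
      · exact Submodule.mem_sup_left (Submodule.mem_sup_right (hNmax i k hk))
  have hpoly : ∀ (i : ι) (n : ℕ) (P : Polynomial R),
      x' ^ n * (Polynomial.aeval x P * g i) ∈ S ⊔ W := by
    intro i n P
    induction P using Polynomial.induction_on' with
    | add P Q hP hQ =>
      rw [map_add, add_mul, mul_add]
      exact Submodule.add_mem _ hP hQ
    | monomial j a =>
      rw [Polynomial.aeval_monomial, mul_assoc, ← Algebra.smul_def, mul_smul_comm]
      exact Submodule.smul_mem _ _ (hkey i n j)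
  have htop : S ⊔ W = ⊤ := by
    rw [eq_top_iff]
    intro y _
    obtain ⟨n, hn⟩ := hloc y
    obtain ⟨P, hP⟩ := hgen _ hn
    have hy : y = x' ^ n * (x ^ n * y) := by
      rw [← mul_assoc, ← mul_pow, mul_comm x' x, hxx', one_pow, one_mul]
    rw [hy, hP, finsum_eq_sum_of_fintype, Finset.mul_sum]
    exact Submodule.sum_mem _ fun i _ => hpoly i n (P i)
  have hWfg : W.FG := Submodule.fg_span (Set.finite_range _)
  -- `C ⧸ S` is the image of `W`
  have hsurj : Function.Surjective (S.mkQ.comp W.subtype) := by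
    intro q
    obtain ⟨y, rfl⟩ := S.mkQ_surjective q
    have hy : y ∈ S ⊔ W := htop ▸ Submodule.mem_top
    obtain ⟨s, hs, w, hw, rfl⟩ := Submodule.mem_sup.mp hy
    refine ⟨⟨w, hw⟩, ?_⟩
    simp only [LinearMap.comp_apply, Submodule.subtype_apply, Submodule.mkQ_apply,
      Submodule.Quotient.mk_add]
    rw [(Submodule.Quotient.mk_eq_zero S).mpr hs, zero_add]
  haveI : Module.Finite R W := Module.Finite.iff_fg.mpr hWfg
  exact Module.Finite.of_surjective _ hsurj

end Finite

section Main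

variable {R C : Type*} [CommRing R] [IsLocalRing R] [IsNoetherianRing R] [CommRing C]
  [Algebra R C]

/-- Connectedness with the finiteness hypothesis on `C / (B₁ + B₂)`. -/
theorem idem_trivial_of_cech_finite (ϖ : R) (B₁ B₂ : Subalgebra R C)
    (hint : ∀ y : C, y ∈ B₁ → y ∈ B₂ → ∃ r : R, algebraMap R C r = y)
    [Module.Finite R (C ⧸ (Subalgebra.toSubmodule B₁ ⊔ Subalgebra.toSubmodule B₂))]
    (e₁ e₂ : C) (he₁ : e₁ ∈ B₁) (he₂ : e₂ ∈ B₂)
    (h₁ : ∃ a ∈ B₁, e₁ ^ 2 - e₁ = algebraMap R C ϖ * a)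
    (h₂ : ∃ a ∈ B₂, e₂ ^ 2 - e₂ = algebraMap R C ϖ * a)
    (h₁₂ : ∃ y : C, e₁ - e₂ = algebraMap R C ϖ * y) :
    (∃ a ∈ B₁, e₁ = algebraMap R C ϖ * a) ∨ (∃ a ∈ B₁, 1 - e₁ = algebraMap R C ϖ * a) := by
  obtain ⟨c, hc⟩ := exists_torsion_bound
    (M := C ⧸ (Subalgebra.toSubmodule B₁ ⊔ Subalgebra.toSubmodule B₂)) ϖ
  refine idem_trivial_of_cech ϖ B₁ B₂ hint c ?_ e₁ e₂ he₁ he₂ h₁ h₂ h₁₂
  intro n y hy
  have hmem : ∀ k : ℕ, (∃ b₁ ∈ B₁, ∃ b₂ ∈ B₂, algebraMap R C ϖ ^ k * y = b₁ + b₂) ↔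
      ϖ ^ k • (Submodule.Quotient.mk y :
        C ⧸ (Subalgebra.toSubmodule B₁ ⊔ Subalgebra.toSubmodule B₂)) = 0 := by
    intro k
    rw [← Submodule.Quotient.mk_smul, Submodule.Quotient.mk_eq_zero, Submodule.mem_sup,
      Algebra.smul_def, map_pow]
    constructor
    · rintro ⟨b₁, hb₁, b₂, hb₂, h⟩
      exact ⟨b₁, hb₁, b₂, hb₂, h.symm⟩
    · rintro ⟨b₁, hb₁, b₂, hb₂, h⟩
      exact ⟨b₁, hb₁, b₂, hb₂, h.symm⟩
  exact (hmem c).mpr (hc n _ ((hmem n).mp hy))

end Main

end Fermat.Agent.S18.H498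

end
-- ===== PACK-END S18/H498/CechFinite.lean

-- ===== PACK-BEGIN S21/H81/CPrime.lean
section


/-!
# S21, interface piece C' (helper201's exact statement): a cusp form all of whose periods
have vanishing real part is zero.
-/

set_option autoImplicit false

open UpperHalfPlane CongruenceSubgroup Filter Topology Complex ModularCurve ModularCurve.Period
open scoped MatrixGroups Manifold

namespace Fermat.Agent.S21.H81

/-- **C'** If all periods of `f` have real part `0`, then `f = 0`. -/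
theorem eq_zero_of_re_period_eq_zero (N : ℕ) [NeZero N] (f : CuspForm (Gamma0 N) 2)
    {F : ℍ → ℂ} (hF : HasEquivariantPrimitive N f F)
    (h : ∀ γ : Gamma0 N, (F ((γ : SL(2, ℤ)) • UpperHalfPlane.I) - F UpperHalfPlane.I).re = 0) :
    f = 0 := by
  have hd : ∀ τ : ℍ, deriv (F ∘ ofComplex) (τ : ℂ) = 0 := by
    refine injCore_deriv_eq_zero (N := N) (fun τ => (hF.1 τ).differentiableAt) ?_ hF.2.2.2
    intro γ hγ
    exact ⟨hF.2.2.1.period ⟨γ, hγ⟩, h ⟨γ, hγ⟩, fun z => hF.2.2.1.sub_eq_period ⟨γ, hγ⟩ z⟩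
  ext τ
  have := hd τ
  rw [(hF.1 τ).deriv] at this
  simpa using this

end Fermat.Agent.S21.H81

end
-- ===== PACK-END S21/H81/CPrime.lean

-- ===== PACK-BEGIN S30/H810/QShift.lean
section
/-
S30 / piece ONTO (helper810), part 7: `q_L`-expansions of periodic functions of exponential growth
and the SHIFT lemma (`τ ↦ τ + a` twists the coefficients by `exp(2πi a n / L)`).
-/




set_option autoImplicit false
set_option linter.unusedSectionVars false

noncomputable section

open UpperHalfPlane HahnSeries Function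
open scoped MatrixGroups Manifold Real

namespace Fermat.Agent.S30.H810

open Fermat.Agent.S24 Fermat.Agent.S24.H648 Fermat.Agent.S24.H708

variable {L : ℕ} [NeZero L]

/-- periodicity on `ℍ` gives periodicity of the extension by junk -/
theorem periodic_of_vadd {f : ℍ → ℂ} (hf : ∀ τ : ℍ, f ((L : ℝ) +ᵥ τ) = f τ) :
    Function.Periodic (f ∘ ofComplex) (L : ℝ) := by
  intro w
  by_cases hw : 0 < Complex.im w
  · have hw' : 0 < Complex.im (w + ((L : ℝ) : ℂ)) := by simpa using hw
    simp only [Function.comp_apply, ofComplex_apply_of_im_pos hw', ofComplex_apply_of_im_pos hw]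
    rw [← hf ⟨w, hw⟩]
    congr 1
    apply UpperHalfPlane.ext
    rw [UpperHalfPlane.coe_vadd]
    simp [add_comm]
  · have hw0 : Complex.im w ≤ 0 := not_lt.mp hw
    have hw' : Complex.im (w + ((L : ℝ) : ℂ)) ≤ 0 := by simpa using hw0
    simp only [Function.comp_apply]
    rw [ofComplex_apply_of_im_nonpos hw', ofComplex_apply_of_im_nonpos hw0]

/-- exponential growth gives a pole of finite order in `q_L` -/
theorem isBounded_mul_qh_pow_of_expGrowth' {f : ℍ → ℂ} (hf : ExpGrowth f) :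
    ∃ M : ℕ, IsBoundedAtImInfty (f * qh L ^ M) := by
  obtain ⟨C, m, h⟩ := hf
  refine ⟨L * m, ?_⟩
  rw [UpperHalfPlane.isBoundedAtImInfty_iff]
  refine ⟨C, 1, fun τ hτ => ?_⟩
  have h1 := h τ hτ
  have hL : (L : ℝ) ≠ 0 := Nat.cast_ne_zero.mpr (NeZero.ne L)
  have hq : ‖qh L τ‖ = Real.exp (-2 * π * τ.im / L) := by
    rw [qh_apply, Function.Periodic.norm_qParam]
    simp
  rw [Pi.mul_apply, Pi.pow_apply, norm_mul, norm_pow, hq, ← Real.exp_nat_mul]
  calc ‖f τ‖ * Real.exp (((L * m : ℕ) : ℝ) * (-2 * π * τ.im / L))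
      ≤ C * Real.exp (2 * π * m * τ.im) * Real.exp (((L * m : ℕ) : ℝ) * (-2 * π * τ.im / L)) :=
        mul_le_mul_of_nonneg_right h1 (Real.exp_pos _).le
    _ = C := by
        rw [mul_assoc, ← Real.exp_add]
        have : 2 * π * m * τ.im + ((L * m : ℕ) : ℝ) * (-2 * π * τ.im / L) = 0 := by
          push_cast
          field_simp
          ring
        rw [this, Real.exp_zero, mul_one]

/-- holomorphic + periodic + exponential growth ⟹ `IsMerInf` -/
theorem isMerInf_of_periodic {f : ℍ → ℂ} (hol : MDiff f)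
    (hper : ∀ τ : ℍ, f ((L : ℝ) +ᵥ τ) = f τ) (hg : ExpGrowth f) : IsMerInf L f :=
  ⟨hol, periodic_of_vadd hper, isBounded_mul_qh_pow_of_expGrowth' hg⟩

/-- the twisting unit `exp(2πi a / L)` -/
def shiftUnit (L : ℕ) (a : ℝ) : ℂˣ :=
  Units.mk0 (Complex.exp (2 * π * Complex.I * a / L)) (Complex.exp_ne_zero _)

theorem qh_vadd (a : ℝ) (τ : ℍ) : qh L (a +ᵥ τ) = (shiftUnit L a : ℂ) * qh L τ := by
  rw [qh_apply, qh_apply, Function.Periodic.qParam, Function.Periodic.qParam, shiftUnit,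
    Units.val_mk0, ← Complex.exp_add, UpperHalfPlane.coe_vadd]
  congr 1
  push_cast
  ring

/-- **SHIFT lemma.** -/
theorem hasQExp_vadd {f : ℍ → ℂ} {φ : LaurentSeries ℂ} (hf : HasQExp L f φ) (a : ℝ)
    (hol : MDiff (fun τ : ℍ => f (a +ᵥ τ))) :
    HasQExp L (fun τ : ℍ => f (a +ᵥ τ)) (infTwist (shiftUnit L a) φ) := by
  refine HasQExp.of_hasSum hol fun τ => ?_
  have h := hf.hasSum (a +ᵥ τ)
  convert h using 1
  funext n
  rw [infTwist_coeff, qh_vadd, mul_zpow, Units.val_zpow_eq_zpow_val]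
  ring

/-- If `f (τ + a) = z f τ` then the twisting unit to the order of the expansion is `z`. -/
theorem shiftUnit_zpow_order_eq {f : ℍ → ℂ} {φ : LaurentSeries ℂ} (hf : HasQExp L f φ)
    (hf0 : f ≠ 0) (a : ℝ) (z : ℂ) (hz : ∀ τ : ℍ, f (a +ᵥ τ) = z * f τ) :
    ((shiftUnit L a : ℂˣ) : ℂ) ^ φ.order = z := by
  have hol : MDiff (fun τ : ℍ => f (a +ᵥ τ)) := by
    have : (fun τ : ℍ => f (a +ᵥ τ)) = (fun _ : ℍ => z) * f := by
      funext τ; exact hz τ
    rw [this]
    exact mdifferentiable_const.mul hf.mdiff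
  have h1 := hasQExp_vadd hf a hol
  have h2 : HasQExp L (fun τ : ℍ => f (a +ᵥ τ)) (HahnSeries.C z * φ) := by
    have : (fun τ : ℍ => f (a +ᵥ τ)) = (fun _ : ℍ => z) * f := by
      funext τ; exact hz τ
    rw [this]
    exact (HasQExp.const L z).mul hf
  have h3 := h1.unique h2
  have hφ : φ ≠ 0 := fun h0 => hf0 ((hf.eq_zero_iff).mp h0)
  have h4 := congrArg HahnSeries.leadingCoeff h3
  rw [infTwist_leadingCoeff, HahnSeries.leadingCoeff_mul] at h4
  have hlc : φ.leadingCoeff ≠ 0 := HahnSeries.leadingCoeff_ne_zero.mpr hφ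
  have hz0 : z ≠ 0 := by
    rintro rfl
    apply hφ
    have : infTwist (shiftUnit L a) φ = 0 := by rw [h3]; simp
    exact (infTwist_eq_zero_iff _ _).mp this
  have hCz : (HahnSeries.C z : LaurentSeries ℂ).leadingCoeff = z := by
    rw [HahnSeries.C_apply, HahnSeries.leadingCoeff_of_single]
  rw [hCz, Units.val_zpow_eq_zpow_val, mul_comm] at h4
  exact mul_right_cancel₀ hlc h4

end Fermat.Agent.S30.H810

end
end
-- ===== PACK-END S30/H810/QShift.lean

-- ===== PACK-BEGIN S20/H270/Cocycle.lean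
section


/-!
# Existence of 1-cocycles of `SL(2,ℤ)` with prescribed values on `S` and `U = S * T`

For a linear representation `ρ` of `SL(2,ℤ)` on `V` on which `-1` acts trivially, and `a b : V`
with `a + S a = 0`, `b + U b + U² b = 0`, there is a (unique) cocycle `c` with `c S = a`,
`c U = b`.
-/

set_option autoImplicit false

open scoped MatrixGroups
open ModularGroup

namespace Fermat.Agent.S20.H270

variable {K V : Type*} [Semiring K] [AddCommGroup V] [Module K V]

/-- The affine permutation `v ↦ L v + a`. -/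
def affPerm (L : V ≃ₗ[K] V) (a : V) : Equiv.Perm V where
  toFun v := L v + a
  invFun v := L.symm (v - a)
  left_inv v := by simp
  right_inv v := by simp

@[simp] theorem affPerm_apply (L : V ≃ₗ[K] V) (a v : V) : affPerm L a v = L v + a := rfl

/-- A 1-cocycle of `SL(2,ℤ)` with values in the representation `ρ`. -/
def IsCocycle (ρ : SL(2, ℤ) →* (V ≃ₗ[K] V)) (c : SL(2, ℤ) → V) : Prop :=
  ∀ g h, c (g * h) = c g + ρ g (c h)

theorem rho_mul_apply (ρ : SL(2, ℤ) →* (V ≃ₗ[K] V)) (g h : SL(2, ℤ)) (v : V) :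
    ρ (g * h) v = ρ g (ρ h v) := by
  rw [map_mul]; rfl

theorem rho_one_apply (ρ : SL(2, ℤ) →* (V ≃ₗ[K] V)) (v : V) : ρ 1 v = v := by
  rw [map_one]; rfl

theorem rho_inv_apply_apply (ρ : SL(2, ℤ) →* (V ≃ₗ[K] V)) (g : SL(2, ℤ)) (v : V) :
    ρ g⁻¹ (ρ g v) = v := by
  rw [← rho_mul_apply, inv_mul_cancel, rho_one_apply]

theorem rho_apply_inv_apply (ρ : SL(2, ℤ) →* (V ≃ₗ[K] V)) (g : SL(2, ℤ)) (v : V) :
    ρ g (ρ g⁻¹ v) = v := by
  rw [← rho_mul_apply, mul_inv_cancel, rho_one_apply]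

theorem rho_S_S (ρ : SL(2, ℤ) →* (V ≃ₗ[K] V)) (hneg : ρ (-1) = 1) (v : V) :
    ρ S (ρ S v) = v := by
  rw [← rho_mul_apply, ← pow_two, S_sq_eq_neg_one, hneg]; rfl

theorem rho_U_U_U (ρ : SL(2, ℤ) →* (V ≃ₗ[K] V)) (hneg : ρ (-1) = 1) (v : V) :
    ρ Umat (ρ Umat (ρ Umat v)) = v := by
  have h3 : Umat * Umat * Umat = -1 := by decide
  rw [← rho_mul_apply, ← rho_mul_apply, h3, hneg]; rfl

/-- The affine homomorphism attached to `(a, b)`. -/
theorem exists_affine_hom (ρ : SL(2, ℤ) →* (V ≃ₗ[K] V)) (hneg : ρ (-1) = 1) (a b : V)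
    (ha : a + ρ S a = 0) (hb : b + ρ Umat b + ρ Umat (ρ Umat b) = 0) :
    ∃ Ψ : SL(2, ℤ) →* Equiv.Perm V,
      (∀ g v, Ψ g v = ρ g v + Ψ g 0) ∧ Ψ S 0 = a ∧ Ψ Umat 0 = b := by
  have hx : affPerm (ρ S) a ^ 2 = 1 := by
    refine Equiv.ext fun v => ?_
    rw [pow_two, Equiv.Perm.mul_apply, Equiv.Perm.one_apply]
    simp only [affPerm_apply, map_add, rho_S_S ρ hneg]
    rw [add_assoc, add_comm (ρ S a) a, ha, add_zero]
  have hy : affPerm (ρ Umat) b ^ 3 = 1 := by
    refine Equiv.ext fun v => ?_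
    rw [pow_succ, pow_two, Equiv.Perm.mul_apply, Equiv.Perm.mul_apply, Equiv.Perm.one_apply]
    simp only [affPerm_apply, map_add, rho_U_U_U ρ hneg]
    have : ρ Umat (ρ Umat b) + ρ Umat b + b = 0 := by rw [← hb]; abel
    rw [add_assoc, add_assoc, ← add_assoc (ρ Umat (ρ Umat b)), this, add_zero]
  obtain ⟨Ψ, hΨS, hΨU⟩ := exists_monoidHom_of_sq_of_cube _ _ hx hy
  have hΨU' : Ψ Umat = affPerm (ρ Umat) b := hΨU
  -- the subgroup of elements acting affinely with linear part `ρ`
  let H : Subgroup SL(2, ℤ) :=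
    { carrier := {g | ∀ v, Ψ g v = ρ g v + Ψ g 0}
      one_mem' := fun v => by
        show Ψ 1 v = ρ 1 v + Ψ 1 0
        rw [map_one, rho_one_apply]; simp
      mul_mem' := fun {g h} hg hh v => by
        show Ψ (g * h) v = ρ (g * h) v + Ψ (g * h) 0
        rw [map_mul, Equiv.Perm.mul_apply, Equiv.Perm.mul_apply, hh v, hg (ρ h v + Ψ h 0),
          hg (Ψ h 0), rho_mul_apply, map_add]
        abel
      inv_mem' := fun {g} hg v => by
        show Ψ g⁻¹ v = ρ g⁻¹ v + Ψ g⁻¹ 0
        apply (Ψ g).injective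
        have h1 : ∀ w, Ψ g (Ψ g⁻¹ w) = w := fun w => by
          rw [← Equiv.Perm.mul_apply, ← map_mul, mul_inv_cancel, map_one]; rfl
        rw [h1, hg (ρ g⁻¹ v + Ψ g⁻¹ 0), map_add, rho_apply_inv_apply, add_assoc,
          ← hg (Ψ g⁻¹ 0), h1, add_zero] }
  have hS : S ∈ H := fun v => by
    show Ψ S v = ρ S v + Ψ S 0
    rw [hΨS]; simp
  have hU : Umat ∈ H := fun v => by
    show Ψ Umat v = ρ Umat v + Ψ Umat 0
    rw [hΨU']; simp
  have hT : T ∈ H := by
    rw [T_eq_S_inv_mul_Umat]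
    exact H.mul_mem (H.inv_mem hS) hU
  have htop : H = ⊤ := by
    rw [eq_top_iff, ← SpecialLinearGroup.SL2Z_generators, Subgroup.closure_le]
    rintro g (rfl | hg)
    · exact hS
    · rw [Set.mem_singleton_iff] at hg
      subst hg
      exact hT
  refine ⟨Ψ, fun g v => ?_, ?_, ?_⟩
  · have : g ∈ H := by rw [htop]; trivial
    exact this v
  · rw [hΨS]; simp
  · rw [hΨU']; simp

/-- **Existence of cocycles** with prescribed values on the generators `S`, `U = S * T`. -/
theorem exists_cocycle (ρ : SL(2, ℤ) →* (V ≃ₗ[K] V)) (hneg : ρ (-1) = 1) (a b : V)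
    (ha : a + ρ S a = 0) (hb : b + ρ Umat b + ρ Umat (ρ Umat b) = 0) :
    ∃ c : SL(2, ℤ) → V, IsCocycle ρ c ∧ c S = a ∧ c Umat = b := by
  obtain ⟨Ψ, hΨ, hS, hU⟩ := exists_affine_hom ρ hneg a b ha hb
  refine ⟨fun g => Ψ g 0, fun g h => ?_, hS, hU⟩
  show Ψ (g * h) 0 = Ψ g 0 + ρ g (Ψ h 0)
  rw [map_mul, Equiv.Perm.mul_apply, hΨ g (Ψ h 0), add_comm]

namespace IsCocycle

variable {ρ : SL(2, ℤ) →* (V ≃ₗ[K] V)} {c : SL(2, ℤ) → V}

theorem map_one (hc : IsCocycle ρ c) : c 1 = 0 := by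
  have h := hc 1 1
  rw [mul_one, rho_one_apply] at h
  have : c 1 + c 1 = c 1 + 0 := by rw [← h, add_zero]
  exact add_left_cancel this

theorem map_inv (hc : IsCocycle ρ c) (g : SL(2, ℤ)) : c g⁻¹ = -ρ g⁻¹ (c g) := by
  have h := hc g⁻¹ g
  rw [inv_mul_cancel, hc.map_one] at h
  exact eq_neg_of_add_eq_zero_left h.symm

/-- The stabiliser of `v` under the affine action `g ⋆ v = ρ g v + c g`. -/
def stab (hc : IsCocycle ρ c) (v : V) : Subgroup SL(2, ℤ) where
  carrier := {g | ρ g v + c g = v}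
  one_mem' := by
    show ρ 1 v + c 1 = v
    rw [rho_one_apply, hc.map_one, add_zero]
  mul_mem' := fun {g h} hg hh => by
    show ρ (g * h) v + c (g * h) = v
    have hg' : ρ g v + c g = v := hg
    have hh' : ρ h v + c h = v := hh
    rw [hc g h, rho_mul_apply]
    calc ρ g (ρ h v) + (c g + ρ g (c h)) = ρ g (ρ h v + c h) + c g := by rw [map_add]; abel
      _ = v := by rw [hh', hg']
  inv_mem' := fun {g} hg => by
    show ρ g⁻¹ v + c g⁻¹ = v
    have hg' : ρ g v + c g = v := hg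
    rw [hc.map_inv]
    calc ρ g⁻¹ v + -ρ g⁻¹ (c g) = ρ g⁻¹ (ρ g v + c g) + -ρ g⁻¹ (c g) := by rw [hg']
      _ = v := by rw [map_add, rho_inv_apply_apply]; abel

theorem mem_stab (hc : IsCocycle ρ c) (v : V) (g : SL(2, ℤ)) :
    g ∈ hc.stab v ↔ ρ g v + c g = v := Iff.rfl

theorem conj_mem_stab (hc : IsCocycle ρ c) {v : V} {g : SL(2, ℤ)} (hg : g ∈ hc.stab v)
    (h : SL(2, ℤ)) : h * g * h⁻¹ ∈ hc.stab (ρ h v + c h) := by
  have hg' : ρ g v + c g = v := hg
  show ρ (h * g * h⁻¹) (ρ h v + c h) + c (h * g * h⁻¹) = ρ h v + c h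
  have e1 : c (h * g * h⁻¹) = c h + ρ h (c g) - ρ (h * g * h⁻¹) (c h) := by
    rw [hc (h * g) h⁻¹, hc h g, hc.map_inv, map_neg, ← rho_mul_apply]
    abel
  have e2 : ρ (h * g * h⁻¹) (ρ h v) = ρ h (ρ g v) := by
    rw [← rho_mul_apply, inv_mul_cancel_right, rho_mul_apply]
  rw [map_add, e1, e2]
  calc ρ h (ρ g v) + ρ (h * g * h⁻¹) (c h) + (c h + ρ h (c g) - ρ (h * g * h⁻¹) (c h))
      = ρ h (ρ g v + c g) + c h := by rw [map_add]; abel
    _ = ρ h v + c h := by rw [hg']

/-- A cocycle is determined by its values at `S` and `T`. -/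
theorem eq_zero_of_S_T (hc : IsCocycle ρ c) (hS : c S = 0) (hT : c T = 0) (g : SL(2, ℤ)) :
    c g = 0 := by
  have h0 : hc.stab 0 = ⊤ := by
    rw [eq_top_iff, ← SpecialLinearGroup.SL2Z_generators, Subgroup.closure_le]
    rintro g (rfl | hg)
    · show ρ S 0 + c S = 0
      rw [hS, map_zero, add_zero]
    · rw [Set.mem_singleton_iff] at hg
      subst hg
      show ρ T 0 + c T = 0
      rw [hT, map_zero, add_zero]
  have : g ∈ hc.stab 0 := by rw [h0]; trivial
  have h1 : ρ g 0 + c g = 0 := this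
  rwa [map_zero, zero_add] at h1

theorem map_T (hc : IsCocycle ρ c) : c T = ρ S⁻¹ (c Umat - c S) := by
  have h := hc S T
  have h2 : c Umat = c S + ρ S (c T) := h
  rw [h2, add_sub_cancel_left, rho_inv_apply_apply]

theorem eq_zero_of_S_U (hc : IsCocycle ρ c) (hS : c S = 0) (hU : c Umat = 0) (g : SL(2, ℤ)) :
    c g = 0 := by
  refine hc.eq_zero_of_S_T hS ?_ g
  rw [hc.map_T, hS, hU, sub_zero, map_zero]

end IsCocycle

end Fermat.Agent.S20.H270

end
-- ===== PACK-END S20/H270/Cocycle.lean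

-- ===== PACK-BEGIN S21/Per.lean
section


/-!
# S21 — piece `Per` of the Hodge route

If the gradients of `v n` tend to `0` in `L²_loc` and all `v n` have the same period `d` along
`γ`, then `d = 0`.

The proof is a Poincaré-type estimate on a closed rectangle `Q` of the upper half plane
containing a unit square `B` and its image `γ B`: everything is done with lower Lebesgue
integrals (`∫⁻`), so that no integrability bookkeeping is needed.
-/

set_option autoImplicit false

open MeasureTheory Set Filter Topology UpperHalfPlane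
open scoped ENNReal MatrixGroups ContDiff Interval

namespace Fermat.Agent.S21

/-! ### One-dimensional estimates -/

/-- Cauchy–Schwarz on an interval. -/
theorem per_sq_integral_le {f : ℝ → ℝ} {a b : ℝ} (hab : a ≤ b) (hf : ContinuousOn f (Icc a b)) :
    (∫ x in a..b, f x) ^ 2 ≤ (b - a) * ∫ x in a..b, (f x) ^ 2 := by
  have hfi : IntervalIntegrable f volume a b := by
    apply ContinuousOn.intervalIntegrable
    rwa [uIcc_of_le hab]
  have hf2 : IntervalIntegrable (fun x => f x ^ 2) volume a b := by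
    apply ContinuousOn.intervalIntegrable
    rw [uIcc_of_le hab]
    exact hf.pow 2
  have h : ∀ t : ℝ, 0 ≤ (b - a) * (t * t) + (2 * ∫ x in a..b, f x) * t
      + ∫ x in a..b, (f x) ^ 2 := by
    intro t
    have h0 := intervalIntegral.integral_nonneg (μ := volume) hab
      (fun x _ => sq_nonneg (t + f x))
    have e : ∫ x in a..b, (t + f x) ^ 2 = (b - a) * (t * t) + (2 * ∫ x in a..b, f x) * t
        + ∫ x in a..b, (f x) ^ 2 := by
      have e1 : (fun x => (t + f x) ^ 2) = fun x => (t * t + (2 * t) * f x) + f x ^ 2 := by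
        ext x; ring
      rw [e1, intervalIntegral.integral_add ((intervalIntegrable_const).add (hfi.const_mul _)) hf2,
        intervalIntegral.integral_add intervalIntegrable_const (hfi.const_mul _),
        intervalIntegral.integral_const, intervalIntegral.integral_const_mul]
      simp only [smul_eq_mul]
      ring
    linarith
  have := discrim_le_zero h
  unfold discrim at this
  nlinarith

/-- One-dimensional estimate: FTC + Cauchy–Schwarz, in `ℝ≥0∞` form. -/
theorem per_sq_sub_le {g f : ℝ → ℝ} {a b : ℝ}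
    (hderiv : ∀ s ∈ Icc a b, HasDerivAt g (f s) s) (hcont : ContinuousOn f (Icc a b))
    {x x' : ℝ} (hx : x ∈ Icc a b) (hx' : x' ∈ Icc a b) :
    ENNReal.ofReal ((g x - g x') ^ 2) ≤
      ENNReal.ofReal (b - a) * ∫⁻ s in Icc a b, ENNReal.ofReal ((f s) ^ 2) := by
  wlog hxx : x' ≤ x generalizing x x'
  · have := this hx' hx (le_of_not_ge hxx)
    rwa [sub_sq_comm] at this
  have hsub : Icc x' x ⊆ Icc a b := Icc_subset_Icc hx'.1 hx.2
  have hsub' : Ioc x' x ⊆ Icc a b := Ioc_subset_Icc_self.trans hsub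
  have hc : ContinuousOn f (Icc x' x) := hcont.mono hsub
  have hint : IntervalIntegrable f volume x' x := by
    apply ContinuousOn.intervalIntegrable
    rwa [uIcc_of_le hxx]
  have hftc : ∫ s in x'..x, f s = g x - g x' := by
    apply intervalIntegral.integral_eq_sub_of_hasDerivAt _ hint
    intro s hs
    rw [uIcc_of_le hxx] at hs
    exact hderiv s (hsub hs)
  have hcs := per_sq_integral_le hxx hc
  rw [hftc] at hcs
  have hnn : 0 ≤ ∫ s in x'..x, (f s) ^ 2 :=
    intervalIntegral.integral_nonneg hxx (fun s _ => sq_nonneg _)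
  have hle : (g x - g x') ^ 2 ≤ (b - a) * ∫ s in x'..x, (f s) ^ 2 := by
    refine hcs.trans (mul_le_mul_of_nonneg_right ?_ hnn)
    linarith [hx.2, hx'.1]
  have hba : 0 ≤ b - a := by linarith [hx.1, hx.2]
  calc ENNReal.ofReal ((g x - g x') ^ 2)
      ≤ ENNReal.ofReal ((b - a) * ∫ s in x'..x, (f s) ^ 2) := ENNReal.ofReal_le_ofReal hle
    _ = ENNReal.ofReal (b - a) * ENNReal.ofReal (∫ s in x'..x, (f s) ^ 2) :=
        ENNReal.ofReal_mul hba
    _ = ENNReal.ofReal (b - a) * ∫⁻ s in Ioc x' x, ENNReal.ofReal ((f s) ^ 2) := by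
        congr 1
        rw [intervalIntegral.integral_of_le hxx]
        apply ofReal_integral_eq_lintegral_ofReal
        · have : IntervalIntegrable (fun s => f s ^ 2) volume x' x := by
            apply ContinuousOn.intervalIntegrable
            rw [uIcc_of_le hxx]
            exact hc.pow 2
          exact (intervalIntegrable_iff_integrableOn_Ioc_of_le hxx).mp this
        · exact Eventually.of_forall (fun s => sq_nonneg _)
    _ ≤ ENNReal.ofReal (b - a) * ∫⁻ s in Icc a b, ENNReal.ofReal ((f s) ^ 2) := by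
        gcongr

/-! ### Points, lines and rectangles in `ℂ` -/

/-- The point `x + y i`. -/
def per_pt (x y : ℝ) : ℂ := ⟨x, y⟩

@[simp] theorem per_pt_re (x y : ℝ) : (per_pt x y).re = x := rfl

@[simp] theorem per_pt_im (x y : ℝ) : (per_pt x y).im = y := rfl

theorem per_pt_mem_Uhp {x y : ℝ} (hy : 0 < y) : per_pt x y ∈ Uhp := hy

theorem per_pt_eta (z : ℂ) : per_pt z.re z.im = z := rfl

theorem per_continuous_pt_left (y : ℝ) : Continuous (fun s : ℝ => per_pt s y) := by
  have : (fun s : ℝ => per_pt s y) = fun s : ℝ => (s : ℂ) + per_pt 0 y := by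
    funext s; apply Complex.ext <;> simp [per_pt]
  rw [this]
  exact Complex.continuous_ofReal.add continuous_const

theorem per_continuous_pt_right (x : ℝ) : Continuous (fun t : ℝ => per_pt x t) := by
  have : (fun t : ℝ => per_pt x t) = fun t : ℝ => (t : ℂ) * Complex.I + per_pt x 0 := by
    funext t; apply Complex.ext <;> simp [per_pt]
  rw [this]
  exact (Complex.continuous_ofReal.mul continuous_const).add continuous_const

/-- Tonelli on a rectangle of `ℂ`. -/
theorem per_lintegral_rect (F : ℂ → ℝ≥0∞) (hF : Measurable F) (s t : Set ℝ) :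
    ∫⁻ z in s ×ℂ t, F z = ∫⁻ x in s, ∫⁻ y in t, F (per_pt x y) := by
  have e := Complex.volume_preserving_equiv_real_prod.symm
  rw [← e.setLIntegral_comp_preimage_emb
    (Complex.measurableEquivRealProd.symm.measurableEmbedding) F (s ×ℂ t)]
  have hpre : Complex.measurableEquivRealProd.symm ⁻¹' (s ×ℂ t) = s ×ˢ t := by
    ext p
    simp [Complex.mem_reProdIm, Complex.measurableEquivRealProd_symm_apply]
  rw [hpre, Measure.volume_eq_prod, ← Measure.prod_restrict, lintegral_prod]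
  · rfl
  · exact (hF.comp Complex.measurableEquivRealProd.symm.measurable).aemeasurable

/-- Tonelli on a rectangle of `ℂ`, other order. -/
theorem per_lintegral_rect_symm (F : ℂ → ℝ≥0∞) (hF : Measurable F) (s t : Set ℝ) :
    ∫⁻ z in s ×ℂ t, F z = ∫⁻ y in t, ∫⁻ x in s, F (per_pt x y) := by
  have e := Complex.volume_preserving_equiv_real_prod.symm
  rw [← e.setLIntegral_comp_preimage_emb
    (Complex.measurableEquivRealProd.symm.measurableEmbedding) F (s ×ℂ t)]
  have hpre : Complex.measurableEquivRealProd.symm ⁻¹' (s ×ℂ t) = s ×ˢ t := by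
    ext p
    simp [Complex.mem_reProdIm, Complex.measurableEquivRealProd_symm_apply]
  rw [hpre, Measure.volume_eq_prod, ← Measure.prod_restrict, lintegral_prod_symm]
  · rfl
  · exact (hF.comp Complex.measurableEquivRealProd.symm.measurable).aemeasurable

theorem per_measurable_comp_pt {F : ℂ → ℝ≥0∞} (hF : Measurable F) :
    Measurable (fun p : ℝ × ℝ => F (per_pt p.1 p.2)) := by
  have : (fun p : ℝ × ℝ => F (per_pt p.1 p.2)) = F ∘ Complex.measurableEquivRealProd.symm := by
    funext p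
    simp only [Function.comp_apply, Complex.measurableEquivRealProd_symm_apply]
    rfl
  rw [this]
  exact hF.comp Complex.measurableEquivRealProd.symm.measurable

theorem per_rect_subset_Uhp {a₁ b₁ a₂ b₂ : ℝ} (ha₂ : 0 < a₂) :
    Icc a₁ b₁ ×ℂ Icc a₂ b₂ ⊆ Uhp := fun _ hz => lt_of_lt_of_le ha₂ hz.2.1

/-! ### Calculus along horizontal and vertical lines -/

theorem per_differentiableAt {u : ℂ → ℝ} (hu : ContDiffOn ℝ 1 u Uhp) {z : ℂ} (hz : z ∈ Uhp) :
    DifferentiableAt ℝ u z :=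
  (hu.differentiableOn (by norm_num)).differentiableAt (isOpen_Uhp.mem_nhds hz)

theorem per_continuousOn_fderiv {u : ℂ → ℝ} (hu : ContDiffOn ℝ 1 u Uhp) (w : ℂ) :
    ContinuousOn (fun z => fderiv ℝ u z w) Uhp :=
  (hu.continuousOn_fderiv_of_isOpen isOpen_Uhp le_rfl).clm_apply continuousOn_const

theorem per_hasDerivAt_horiz {u : ℂ → ℝ} (hu : ContDiffOn ℝ 1 u Uhp) {y : ℝ} (hy : 0 < y)
    (s : ℝ) :
    HasDerivAt (fun s : ℝ => u (per_pt s y)) (fderiv ℝ u (per_pt s y) 1) s := by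
  have h1 : HasDerivAt (fun s : ℝ => per_pt s y) 1 s := by
    have : (fun s : ℝ => per_pt s y) = fun s : ℝ => (s : ℂ) + per_pt 0 y := by
      funext s; apply Complex.ext <;> simp [per_pt]
    rw [this]
    exact (Complex.ofRealCLM.hasDerivAt (x := s)).add_const _
  exact (per_differentiableAt hu (per_pt_mem_Uhp hy)).hasFDerivAt.comp_hasDerivAt s h1

theorem per_hasDerivAt_vert {u : ℂ → ℝ} (hu : ContDiffOn ℝ 1 u Uhp) (x : ℝ) {t : ℝ}
    (ht : 0 < t) :
    HasDerivAt (fun t : ℝ => u (per_pt x t)) (fderiv ℝ u (per_pt x t) Complex.I) t := by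
  have h1 : HasDerivAt (fun t : ℝ => per_pt x t) Complex.I t := by
    have : (fun t : ℝ => per_pt x t) = fun t : ℝ => (t : ℂ) * Complex.I + per_pt x 0 := by
      funext t; apply Complex.ext <;> simp [per_pt]
    rw [this]
    have := ((Complex.ofRealCLM.hasDerivAt (x := t)).mul_const Complex.I).add_const (per_pt x 0)
    simpa using this
  exact (per_differentiableAt hu (per_pt_mem_Uhp ht)).hasFDerivAt.comp_hasDerivAt t h1

/-- The two nonnegative integrands. -/
noncomputable def per_fx (u : ℂ → ℝ) (z : ℂ) : ℝ≥0∞ := ENNReal.ofReal ((fderiv ℝ u z 1) ^ 2)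

/-- The two nonnegative integrands. -/
noncomputable def per_fy (u : ℂ → ℝ) (z : ℂ) : ℝ≥0∞ :=
  ENNReal.ofReal ((fderiv ℝ u z Complex.I) ^ 2)

theorem per_measurable_fx (u : ℂ → ℝ) : Measurable (per_fx u) :=
  ENNReal.measurable_ofReal.comp ((measurable_fderiv_apply_const ℝ u 1).pow_const 2)

theorem per_measurable_fy (u : ℂ → ℝ) : Measurable (per_fy u) :=
  ENNReal.measurable_ofReal.comp ((measurable_fderiv_apply_const ℝ u Complex.I).pow_const 2)

/-- Horizontal energy on the line of height `y`. -/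
noncomputable def per_g (u : ℂ → ℝ) (a₁ b₁ : ℝ) (y : ℝ) : ℝ≥0∞ :=
  ∫⁻ s in Icc a₁ b₁, per_fx u (per_pt s y)

/-- Vertical energy on the line of abscissa `x`. -/
noncomputable def per_h (u : ℂ → ℝ) (a₂ b₂ : ℝ) (x : ℝ) : ℝ≥0∞ :=
  ∫⁻ t in Icc a₂ b₂, per_fy u (per_pt x t)

theorem per_measurable_g (u : ℂ → ℝ) (a₁ b₁ : ℝ) : Measurable (per_g u a₁ b₁) :=
  (per_measurable_comp_pt (per_measurable_fx u)).lintegral_prod_left'

theorem per_measurable_h (u : ℂ → ℝ) (a₂ b₂ : ℝ) : Measurable (per_h u a₂ b₂) :=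
  (per_measurable_comp_pt (per_measurable_fy u)).lintegral_prod_right'

/-- **Claim A**: pointwise Poincaré-type estimate on a rectangle. -/
theorem per_claimA {u : ℂ → ℝ} (hu : ContDiffOn ℝ 1 u Uhp) {a₁ b₁ a₂ b₂ : ℝ} (ha₂ : 0 < a₂)
    {z z' : ℂ} (hz : z ∈ Icc a₁ b₁ ×ℂ Icc a₂ b₂) (hz' : z' ∈ Icc a₁ b₁ ×ℂ Icc a₂ b₂) :
    ENNReal.ofReal ((u z - u z') ^ 2) ≤
      2 * (ENNReal.ofReal (b₁ - a₁) * per_g u a₁ b₁ z.im)
        + 2 * (ENNReal.ofReal (b₂ - a₂) * per_h u a₂ b₂ z'.re) := by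
  have hy : 0 < z.im := lt_of_lt_of_le ha₂ hz.2.1
  -- horizontal part
  have hp : ENNReal.ofReal ((u (per_pt z.re z.im) - u (per_pt z'.re z.im)) ^ 2) ≤
      ENNReal.ofReal (b₁ - a₁) * per_g u a₁ b₁ z.im := by
    refine per_sq_sub_le (g := fun s => u (per_pt s z.im))
      (f := fun s => fderiv ℝ u (per_pt s z.im) 1)
      (fun s _ => per_hasDerivAt_horiz hu hy s) ?_ hz.1 hz'.1
    refine Continuous.continuousOn ?_
    refine (per_continuousOn_fderiv hu 1).comp_continuous (per_continuous_pt_left z.im) ?_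
    intro s
    exact per_pt_mem_Uhp hy
  -- vertical part
  have hq : ENNReal.ofReal ((u (per_pt z'.re z.im) - u (per_pt z'.re z'.im)) ^ 2) ≤
      ENNReal.ofReal (b₂ - a₂) * per_h u a₂ b₂ z'.re := by
    refine per_sq_sub_le (g := fun t => u (per_pt z'.re t))
      (f := fun t => fderiv ℝ u (per_pt z'.re t) Complex.I)
      (fun t ht => per_hasDerivAt_vert hu z'.re (lt_of_lt_of_le ha₂ ht.1)) ?_ hz.2 hz'.2
    refine (per_continuousOn_fderiv hu Complex.I).comp
      (per_continuous_pt_right z'.re).continuousOn ?_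
    intro t ht
    exact per_pt_mem_Uhp (lt_of_lt_of_le ha₂ ht.1)
  set p := u (per_pt z.re z.im) - u (per_pt z'.re z.im) with hpdef
  set q := u (per_pt z'.re z.im) - u (per_pt z'.re z'.im) with hqdef
  have hsum : u z - u z' = p + q := by
    rw [hpdef, hqdef, per_pt_eta, per_pt_eta]; ring
  have hineq : (u z - u z') ^ 2 ≤ 2 * p ^ 2 + 2 * q ^ 2 := by
    rw [hsum]; nlinarith [sq_nonneg (p - q)]
  calc ENNReal.ofReal ((u z - u z') ^ 2)
      ≤ ENNReal.ofReal (2 * p ^ 2 + 2 * q ^ 2) := ENNReal.ofReal_le_ofReal hineq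
    _ = 2 * ENNReal.ofReal (p ^ 2) + 2 * ENNReal.ofReal (q ^ 2) := by
        rw [ENNReal.ofReal_add (by positivity) (by positivity),
          ENNReal.ofReal_mul (by norm_num), ENNReal.ofReal_mul (by norm_num),
          ENNReal.ofReal_ofNat]
    _ ≤ _ := by gcongr

theorem per_mob_eq {γ : SL(2, ℤ)} {z : ℂ} (hz : z ∈ Uhp) :
    mob γ z = ((γ • (⟨z, hz⟩ : ℍ) : ℍ) : ℂ) := by
  unfold mob
  rw [ofComplex_apply_of_im_pos hz]

theorem per_mob_mem_Uhp (γ : SL(2, ℤ)) (z : ℂ) : mob γ z ∈ Uhp := coe_mem_Uhp _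

/-- **Claim B**. -/
theorem per_claimB {u : ℂ → ℝ} (hu : ContDiffOn ℝ 1 u Uhp) (γ : SL(2, ℤ)) (d : ℝ)
    (hd : ∀ z : ℍ, u ↑(γ • z) = u ↑z + d)
    {a₁ b₁ a₂ b₂ : ℝ} (ha₂ : 0 < a₂)
    {z : ℂ} (hz : z ∈ Icc a₁ b₁ ×ℂ Icc a₂ b₂) (hγz : mob γ z ∈ Icc a₁ b₁ ×ℂ Icc a₂ b₂)
    {x' : ℝ} (hx' : x' ∈ Icc a₁ b₁) :
    ENNReal.ofReal (d ^ 2) ≤
      4 * ENNReal.ofReal (b₁ - a₁) * (per_g u a₁ b₁ (mob γ z).im + per_g u a₁ b₁ z.im)
        + 8 * (ENNReal.ofReal (b₂ - a₂) * per_h u a₂ b₂ x') := by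
  have hzU : z ∈ Uhp := per_rect_subset_Uhp ha₂ hz
  have hz' : per_pt x' a₂ ∈ Icc a₁ b₁ ×ℂ Icc a₂ b₂ :=
    ⟨hx', ⟨le_rfl, hz.2.1.trans hz.2.2⟩⟩
  have hper : u (mob γ z) = u z + d := by
    rw [per_mob_eq hzU]
    exact hd ⟨z, hzU⟩
  have A1 := per_claimA hu ha₂ hγz hz'
  have A2 := per_claimA hu ha₂ hz hz'
  rw [per_pt_re] at A1 A2
  set P := u (mob γ z) - u (per_pt x' a₂) with hP
  set R := u z - u (per_pt x' a₂) with hR
  have hdPR : d = P - R := by rw [hP, hR, hper]; ring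
  have hineq : d ^ 2 ≤ 2 * P ^ 2 + 2 * R ^ 2 := by
    rw [hdPR]; nlinarith [sq_nonneg (P + R)]
  calc ENNReal.ofReal (d ^ 2)
      ≤ ENNReal.ofReal (2 * P ^ 2 + 2 * R ^ 2) := ENNReal.ofReal_le_ofReal hineq
    _ = 2 * ENNReal.ofReal (P ^ 2) + 2 * ENNReal.ofReal (R ^ 2) := by
        rw [ENNReal.ofReal_add (by positivity) (by positivity),
          ENNReal.ofReal_mul (by norm_num), ENNReal.ofReal_mul (by norm_num),
          ENNReal.ofReal_ofNat]
    _ ≤ 2 * (2 * (ENNReal.ofReal (b₁ - a₁) * per_g u a₁ b₁ (mob γ z).im)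
          + 2 * (ENNReal.ofReal (b₂ - a₂) * per_h u a₂ b₂ x'))
        + 2 * (2 * (ENNReal.ofReal (b₁ - a₁) * per_g u a₁ b₁ z.im)
          + 2 * (ENNReal.ofReal (b₂ - a₂) * per_h u a₂ b₂ x')) := by
        gcongr
    _ = _ := by ring

/-- The vertical energy integrates to the `y`-part of the Dirichlet energy. -/
theorem per_lintegral_h (u : ℂ → ℝ) (a₁ b₁ a₂ b₂ : ℝ) :
    ∫⁻ x in Icc a₁ b₁, per_h u a₂ b₂ x = ∫⁻ z in Icc a₁ b₁ ×ℂ Icc a₂ b₂, per_fy u z := by
  rw [per_lintegral_rect (per_fy u) (per_measurable_fy u)]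
  rfl

/-- The horizontal energy integrates to the `x`-part of the Dirichlet energy. -/
theorem per_lintegral_g (u : ℂ → ℝ) (a₁ b₁ a₂ b₂ : ℝ) :
    ∫⁻ y in Icc a₂ b₂, per_g u a₁ b₁ y = ∫⁻ z in Icc a₁ b₁ ×ℂ Icc a₂ b₂, per_fx u z := by
  rw [per_lintegral_rect_symm (per_fx u) (per_measurable_fx u)]
  rfl

theorem per_measurable_G (u : ℂ → ℝ) (a₁ b₁ : ℝ) :
    Measurable (fun z : ℂ => per_g u a₁ b₁ z.im) :=
  (per_measurable_g u a₁ b₁).comp Complex.measurable_im

/-- **Claim E1**. -/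
theorem per_lintegral_G (u : ℂ → ℝ) (a₁ b₁ a₂ b₂ : ℝ) :
    ∫⁻ z in Icc a₁ b₁ ×ℂ Icc a₂ b₂, per_g u a₁ b₁ z.im =
      ENNReal.ofReal (b₁ - a₁) * ∫⁻ z in Icc a₁ b₁ ×ℂ Icc a₂ b₂, per_fx u z := by
  rw [per_lintegral_rect _ (per_measurable_G u a₁ b₁)]
  simp only [per_pt_im]
  rw [setLIntegral_const, Real.volume_Icc, per_lintegral_g, mul_comm]

/-- **Claim C**. -/
theorem per_claimC {u : ℂ → ℝ} (hu : ContDiffOn ℝ 1 u Uhp) (γ : SL(2, ℤ)) (d : ℝ)
    (hd : ∀ z : ℍ, u ↑(γ • z) = u ↑z + d)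
    {a₁ b₁ a₂ b₂ : ℝ} (ha₂ : 0 < a₂)
    {z : ℂ} (hz : z ∈ Icc a₁ b₁ ×ℂ Icc a₂ b₂) (hγz : mob γ z ∈ Icc a₁ b₁ ×ℂ Icc a₂ b₂) :
    ENNReal.ofReal (d ^ 2) * ENNReal.ofReal (b₁ - a₁) ≤
      4 * ENNReal.ofReal (b₁ - a₁) * (per_g u a₁ b₁ (mob γ z).im + per_g u a₁ b₁ z.im)
          * ENNReal.ofReal (b₁ - a₁)
        + 8 * (ENNReal.ofReal (b₂ - a₂) * ∫⁻ z in Icc a₁ b₁ ×ℂ Icc a₂ b₂, per_fy u z) := by
  calc ENNReal.ofReal (d ^ 2) * ENNReal.ofReal (b₁ - a₁)
      = ∫⁻ _ in Icc a₁ b₁, ENNReal.ofReal (d ^ 2) := by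
        rw [setLIntegral_const, Real.volume_Icc]
    _ ≤ ∫⁻ x' in Icc a₁ b₁,
          (4 * ENNReal.ofReal (b₁ - a₁) * (per_g u a₁ b₁ (mob γ z).im + per_g u a₁ b₁ z.im)
            + 8 * (ENNReal.ofReal (b₂ - a₂) * per_h u a₂ b₂ x')) :=
        setLIntegral_mono' measurableSet_Icc
          (fun x' hx' => per_claimB hu γ d hd ha₂ hz hγz hx')
    _ = _ := by
        rw [lintegral_add_left measurable_const, setLIntegral_const, Real.volume_Icc,
          lintegral_const_mul _ ((per_measurable_h u a₂ b₂).const_mul _),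
          lintegral_const_mul _ (per_measurable_h u a₂ b₂), per_lintegral_h]

/-- **Claim D**. -/
theorem per_claimD {u : ℂ → ℝ} (hu : ContDiffOn ℝ 1 u Uhp) (γ : SL(2, ℤ)) (d : ℝ)
    (hd : ∀ z : ℍ, u ↑(γ • z) = u ↑z + d)
    {a₁ b₁ a₂ b₂ : ℝ} (ha₂ : 0 < a₂)
    {B : Set ℂ} (hB : MeasurableSet B) (hBQ : B ⊆ Icc a₁ b₁ ×ℂ Icc a₂ b₂)
    (hγB : mob γ '' B ⊆ Icc a₁ b₁ ×ℂ Icc a₂ b₂) :
    ENNReal.ofReal (d ^ 2) * ENNReal.ofReal (b₁ - a₁) * volume B ≤
      4 * ENNReal.ofReal (b₁ - a₁) ^ 2 *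
          ((∫⁻ z in B, per_g u a₁ b₁ (mob γ z).im) + ∫⁻ z in B, per_g u a₁ b₁ z.im)
        + 8 * (ENNReal.ofReal (b₂ - a₂) * ∫⁻ z in Icc a₁ b₁ ×ℂ Icc a₂ b₂, per_fy u z)
          * volume B := by
  have hL : ENNReal.ofReal (b₁ - a₁) ≠ ⊤ := ENNReal.ofReal_ne_top
  calc ENNReal.ofReal (d ^ 2) * ENNReal.ofReal (b₁ - a₁) * volume B
      = ∫⁻ _ in B, ENNReal.ofReal (d ^ 2) * ENNReal.ofReal (b₁ - a₁) := by
        rw [setLIntegral_const]
    _ ≤ ∫⁻ z in B,
          (4 * ENNReal.ofReal (b₁ - a₁) * (per_g u a₁ b₁ (mob γ z).im + per_g u a₁ b₁ z.im)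
              * ENNReal.ofReal (b₁ - a₁)
            + 8 * (ENNReal.ofReal (b₂ - a₂) *
                ∫⁻ z in Icc a₁ b₁ ×ℂ Icc a₂ b₂, per_fy u z)) :=
        setLIntegral_mono' hB
          (fun z hz => per_claimC hu γ d hd ha₂ (hBQ hz) (hγB ⟨z, hz, rfl⟩))
    _ = _ := by
        rw [lintegral_add_right _ measurable_const, setLIntegral_const,
          lintegral_mul_const' _ _ hL,
          lintegral_const_mul' _ _ (ENNReal.mul_ne_top (by simp) hL),
          lintegral_add_right _ (per_measurable_G u a₁ b₁)]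
        ring

/-! ### Change of variables under a Möbius transformation (`∫⁻` form) -/

theorem per_mob_injOn (γ : SL(2, ℤ)) : InjOn (mob γ) Uhp := by
  intro z₁ h₁ z₂ h₂ h
  rw [per_mob_eq h₁, per_mob_eq h₂] at h
  have h' := MulAction.injective γ (UpperHalfPlane.ext h)
  exact congrArg UpperHalfPlane.coe h'

theorem per_cd_eq_denom (γ : SL(2, ℤ)) {z : ℂ} (hz : z ∈ Uhp) :
    cd γ z = denom (γ : GL (Fin 2) ℝ) z := by
  have := ModularGroup.denom_apply γ ⟨z, hz⟩
  simpa [cd] using this.symm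

theorem per_cd_ne_zero (γ : SL(2, ℤ)) {z : ℂ} (hz : z ∈ Uhp) : cd γ z ≠ 0 := by
  rw [per_cd_eq_denom γ hz]
  exact denom_ne_zero _ ⟨z, hz⟩

theorem per_hasFDerivAt_mob (γ : SL(2, ℤ)) {z : ℂ} (hz : z ∈ Uhp) :
    HasFDerivAt (mob γ) (smulFDeriv (γ : GL (Fin 2) ℝ) z) z :=
  (hasStrictFDerivAt_smul (γ : GL (Fin 2) ℝ) ⟨z, hz⟩).hasFDerivAt

theorem per_continuousOn_mob (γ : SL(2, ℤ)) : ContinuousOn (mob γ) Uhp :=
  fun _ hz => (per_hasFDerivAt_mob γ hz).continuousAt.continuousWithinAt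

theorem per_abs_det (γ : SL(2, ℤ)) {z : ℂ} (hz : z ∈ Uhp) :
    |(smulFDeriv (γ : GL (Fin 2) ℝ) z).det| = 1 / ‖cd γ z‖ ^ 4 := by
  rw [det_smulFDeriv, per_cd_eq_denom γ hz]
  have hdet : ((γ : GL (Fin 2) ℝ)).det = 1 := by simp
  rw [hdet]
  simp

/-- **CV** in `∫⁻` form: change of variables under a Möbius transformation. -/
theorem per_lintegral_mob (γ : SL(2, ℤ)) {B : Set ℂ} (hB : MeasurableSet B) (hBU : B ⊆ Uhp)
    (G : ℂ → ℝ≥0∞) :
    ∫⁻ w in mob γ '' B, G w = ∫⁻ z in B, ENNReal.ofReal (1 / ‖cd γ z‖ ^ 4) * G (mob γ z) := by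
  rw [lintegral_image_eq_lintegral_abs_det_fderiv_mul volume hB
    (fun z hz => (per_hasFDerivAt_mob γ (hBU hz)).hasFDerivWithinAt)
    ((per_mob_injOn γ).mono hBU) G]
  refine setLIntegral_congr_fun hB (fun z hz => ?_)
  rw [per_abs_det γ (hBU hz)]

/-- **Claim E3**. -/
theorem per_lintegral_comp_mob_le (γ : SL(2, ℤ)) {B Q : Set ℂ} (hB : MeasurableSet B)
    (hBU : B ⊆ Uhp) (hγB : mob γ '' B ⊆ Q) {m : ℝ} (hm : ∀ z ∈ B, ‖cd γ z‖ ≤ m)
    (G : ℂ → ℝ≥0∞) :
    ∫⁻ z in B, G (mob γ z) ≤ ENNReal.ofReal (m ^ 4) * ∫⁻ w in Q, G w := by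
  calc ∫⁻ z in B, G (mob γ z)
      ≤ ∫⁻ z in B, ENNReal.ofReal (m ^ 4) *
          (ENNReal.ofReal (1 / ‖cd γ z‖ ^ 4) * G (mob γ z)) := by
        refine setLIntegral_mono' hB (fun z hz => ?_)
        have hpos : 0 < ‖cd γ z‖ := norm_pos_iff.mpr (per_cd_ne_zero γ (hBU hz))
        have h4 : ‖cd γ z‖ ^ 4 ≤ m ^ 4 := pow_le_pow_left₀ hpos.le (hm z hz) 4
        have h1 : (1 : ℝ) ≤ m ^ 4 * (1 / ‖cd γ z‖ ^ 4) := by
          rw [mul_one_div, le_div_iff₀ (by positivity)]
          linarith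
        rw [← mul_assoc, ← ENNReal.ofReal_mul (by positivity)]
        calc G (mob γ z) = 1 * G (mob γ z) := (one_mul _).symm
          _ ≤ ENNReal.ofReal (m ^ 4 * (1 / ‖cd γ z‖ ^ 4)) * G (mob γ z) := by
              gcongr
              rw [← ENNReal.ofReal_one]
              exact ENNReal.ofReal_le_ofReal h1
    _ = ENNReal.ofReal (m ^ 4) * ∫⁻ w in mob γ '' B, G w := by
        rw [lintegral_const_mul' _ _ ENNReal.ofReal_ne_top, per_lintegral_mob γ hB hBU]
    _ ≤ ENNReal.ofReal (m ^ 4) * ∫⁻ w in Q, G w := by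
        gcongr

/-! ### The Dirichlet energy -/

theorem per_continuousOn_dz {u : ℂ → ℝ} (hu : ContDiffOn ℝ 1 u Uhp) :
    ContinuousOn (dz u) Uhp := by
  unfold dz
  exact (Complex.continuous_ofReal.comp_continuousOn (per_continuousOn_fderiv hu 1)).sub
    (continuousOn_const.mul
      (Complex.continuous_ofReal.comp_continuousOn (per_continuousOn_fderiv hu Complex.I)))

theorem per_norm_dz_sq (u : ℂ → ℝ) (z : ℂ) :
    ‖dz u z‖ ^ 2 = (fderiv ℝ u z 1) ^ 2 + (fderiv ℝ u z Complex.I) ^ 2 := by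
  rw [Complex.sq_norm, Complex.normSq_apply]
  simp [dz]
  ring

/-- **Claim F**. -/
theorem per_energy {u : ℂ → ℝ} (hu : ContDiffOn ℝ 1 u Uhp) {a₁ b₁ a₂ b₂ : ℝ} (ha₂ : 0 < a₂) :
    (∫⁻ z in Icc a₁ b₁ ×ℂ Icc a₂ b₂, per_fx u z) + ∫⁻ z in Icc a₁ b₁ ×ℂ Icc a₂ b₂, per_fy u z
      = ENNReal.ofReal (∫ z in Icc a₁ b₁ ×ℂ Icc a₂ b₂, ‖dz u z‖ ^ 2) := by
  have hQc : IsCompact (Icc a₁ b₁ ×ℂ Icc a₂ b₂) := isCompact_Icc.reProdIm isCompact_Icc
  have hint : IntegrableOn (fun z => ‖dz u z‖ ^ 2) (Icc a₁ b₁ ×ℂ Icc a₂ b₂) volume := by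
    apply ContinuousOn.integrableOn_compact hQc
    exact (((per_continuousOn_dz hu).mono (per_rect_subset_Uhp ha₂)).norm).pow 2
  rw [ofReal_integral_eq_lintegral_ofReal hint (Eventually.of_forall (fun z => sq_nonneg _)),
    ← lintegral_add_left (per_measurable_fx u)]
  refine lintegral_congr (fun z => ?_)
  rw [per_norm_dz_sq, ENNReal.ofReal_add (sq_nonneg _) (sq_nonneg _)]
  rfl

/-- **Key estimate**: the period is controlled by the Dirichlet energy on a rectangle. -/
theorem per_key {u : ℂ → ℝ} (hu : ContDiffOn ℝ 1 u Uhp) (γ : SL(2, ℤ)) (d : ℝ)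
    (hd : ∀ z : ℍ, u ↑(γ • z) = u ↑z + d)
    {a₁ b₁ a₂ b₂ : ℝ} (ha₂ : 0 < a₂)
    {B : Set ℂ} (hB : MeasurableSet B) (hBQ : B ⊆ Icc a₁ b₁ ×ℂ Icc a₂ b₂)
    (hγB : mob γ '' B ⊆ Icc a₁ b₁ ×ℂ Icc a₂ b₂) {m : ℝ} (hm : ∀ z ∈ B, ‖cd γ z‖ ≤ m) :
    ENNReal.ofReal (d ^ 2) * ENNReal.ofReal (b₁ - a₁) * volume B ≤
      (4 * ENNReal.ofReal (b₁ - a₁) ^ 3 * (ENNReal.ofReal (m ^ 4) + 1)
        + 8 * ENNReal.ofReal (b₂ - a₂) * volume B) *
      ENNReal.ofReal (∫ z in Icc a₁ b₁ ×ℂ Icc a₂ b₂, ‖dz u z‖ ^ 2) := by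
  have hBU : B ⊆ Uhp := hBQ.trans (per_rect_subset_Uhp ha₂)
  have hD := per_claimD hu γ d hd ha₂ hB hBQ hγB
  have hE3 := per_lintegral_comp_mob_le γ hB hBU hγB hm (fun z => per_g u a₁ b₁ z.im)
  have hE4 : ∫⁻ z in B, per_g u a₁ b₁ z.im ≤
      ∫⁻ z in Icc a₁ b₁ ×ℂ Icc a₂ b₂, per_g u a₁ b₁ z.im := lintegral_mono_set hBQ
  rw [per_lintegral_G] at hE3 hE4
  rw [← per_energy hu ha₂]
  set Ex := ∫⁻ z in Icc a₁ b₁ ×ℂ Icc a₂ b₂, per_fx u z
  set Ey := ∫⁻ z in Icc a₁ b₁ ×ℂ Icc a₂ b₂, per_fy u z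
  set L₁ := ENNReal.ofReal (b₁ - a₁)
  set L₂ := ENNReal.ofReal (b₂ - a₂)
  set M := ENNReal.ofReal (m ^ 4)
  calc ENNReal.ofReal (d ^ 2) * L₁ * volume B
      ≤ 4 * L₁ ^ 2 * ((∫⁻ z in B, per_g u a₁ b₁ (mob γ z).im)
          + ∫⁻ z in B, per_g u a₁ b₁ z.im) + 8 * (L₂ * Ey) * volume B := hD
    _ ≤ 4 * L₁ ^ 2 * (M * (L₁ * Ex) + L₁ * Ex) + 8 * (L₂ * Ey) * volume B := by
        gcongr
    _ = 4 * L₁ ^ 3 * (M + 1) * Ex + 8 * L₂ * volume B * Ey := by ring
    _ ≤ 4 * L₁ ^ 3 * (M + 1) * (Ex + Ey) + 8 * L₂ * volume B * (Ex + Ey) := by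
        gcongr
        · exact le_self_add
        · exact le_add_self
    _ = _ := by ring

/-! ### The theorem -/

theorem per_volume_unit_square : volume (Icc (0 : ℝ) 1 ×ℂ Icc (1 : ℝ) 2) = 1 := by
  rw [← setLIntegral_one, per_lintegral_rect _ measurable_const]
  simp only [setLIntegral_const, Real.volume_Icc, one_mul]
  norm_num

/-- **Per**: if the gradients tend to `0` in `L²_loc` then the common period is `0`. -/
theorem period_eq_zero_of_tendsto (v : ℕ → ℂ → ℝ) (hv : ∀ n, ContDiffOn ℝ 1 (v n) Uhp)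
    (hconv : ∀ K : Set ℂ, IsCompact K → K ⊆ Uhp →
      Tendsto (fun n => ∫ z in K, ‖dz (v n) z‖ ^ 2) atTop (𝓝 0))
    (γ : SL(2, ℤ)) (d : ℝ) (hd : ∀ n (z : ℍ), v n ↑(γ • z) = v n ↑z + d) : d = 0 := by
  -- the unit square `B` and its image
  have hBc : IsCompact (Icc (0 : ℝ) 1 ×ℂ Icc (1 : ℝ) 2) := isCompact_Icc.reProdIm isCompact_Icc
  have hBU : Icc (0 : ℝ) 1 ×ℂ Icc (1 : ℝ) 2 ⊆ Uhp := per_rect_subset_Uhp one_pos
  have hBm : MeasurableSet (Icc (0 : ℝ) 1 ×ℂ Icc (1 : ℝ) 2) := hBc.measurableSet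
  have hγBc : IsCompact (mob γ '' (Icc (0 : ℝ) 1 ×ℂ Icc (1 : ℝ) 2)) :=
    hBc.image_of_continuousOn ((per_continuousOn_mob γ).mono hBU)
  have hKc := hBc.union hγBc
  have hKU : (Icc (0 : ℝ) 1 ×ℂ Icc (1 : ℝ) 2) ∪ mob γ '' (Icc (0 : ℝ) 1 ×ℂ Icc (1 : ℝ) 2) ⊆ Uhp :=
    union_subset hBU (by rintro _ ⟨z, -, rfl⟩; exact per_mob_mem_Uhp γ z)
  have hi : per_pt 0 1 ∈ Icc (0 : ℝ) 1 ×ℂ Icc (1 : ℝ) 2 :=
    ⟨⟨le_rfl, zero_le_one⟩, ⟨le_rfl, one_le_two⟩⟩
  -- a rectangle `Q` containing both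
  obtain ⟨R, hR⟩ := hKc.isBounded.exists_norm_le
  obtain ⟨z₀, hz₀, hmin⟩ := hKc.exists_isMinOn ⟨per_pt 0 1, Or.inl hi⟩
    Complex.continuous_im.continuousOn
  have hε : 0 < z₀.im := hKU hz₀
  have hKQ : (Icc (0 : ℝ) 1 ×ℂ Icc (1 : ℝ) 2) ∪ mob γ '' (Icc (0 : ℝ) 1 ×ℂ Icc (1 : ℝ) 2) ⊆
      Icc (-R) R ×ℂ Icc z₀.im R := by
    intro z hz
    have h1 := hR z hz
    have h2 : |z.re| ≤ ‖z‖ := Complex.abs_re_le_norm z
    have h3 : |z.im| ≤ ‖z‖ := Complex.abs_im_le_norm z
    refine ⟨⟨?_, ?_⟩, ⟨hmin hz, ?_⟩⟩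
    · linarith [neg_abs_le z.re]
    · linarith [le_abs_self z.re]
    · linarith [le_abs_self z.im]
  have hRpos : 0 < R := by
    have h1 := hR _ (Or.inl hi)
    have h3 : |(per_pt 0 1).im| ≤ ‖per_pt 0 1‖ := Complex.abs_im_le_norm _
    rw [per_pt_im, abs_one] at h3
    linarith
  have hQc : IsCompact (Icc (-R) R ×ℂ Icc z₀.im R) := isCompact_Icc.reProdIm isCompact_Icc
  have hQU : Icc (-R) R ×ℂ Icc z₀.im R ⊆ Uhp := per_rect_subset_Uhp hε
  -- bound for the automorphy factor on `B`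
  have hm : ∀ z ∈ Icc (0 : ℝ) 1 ×ℂ Icc (1 : ℝ) 2,
      ‖cd γ z‖ ≤ ‖((γ 1 0 : ℤ) : ℂ)‖ * R + ‖((γ 1 1 : ℤ) : ℂ)‖ := by
    intro z hz
    unfold cd
    refine (norm_add_le _ _).trans ?_
    rw [norm_mul]
    gcongr
    exact hR z (Or.inl hz)
  -- the key estimate for every `n`
  have key := fun n => per_key (hv n) γ d (hd n) hε hBm (subset_union_left.trans hKQ)
    (subset_union_right.trans hKQ) hm
  rw [per_volume_unit_square] at key
  set C : ℝ≥0∞ := 4 * ENNReal.ofReal (R - -R) ^ 3 *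
      (ENNReal.ofReal ((‖((γ 1 0 : ℤ) : ℂ)‖ * R + ‖((γ 1 1 : ℤ) : ℂ)‖) ^ 4) + 1)
      + 8 * ENNReal.ofReal (R - z₀.im) * 1 with hCdef
  have hC : C ≠ ⊤ := by
    rw [hCdef]
    refine ENNReal.add_ne_top.mpr ⟨?_, ?_⟩
    · refine ENNReal.mul_ne_top (ENNReal.mul_ne_top (by simp) (by simp)) ?_
      exact ENNReal.add_ne_top.mpr ⟨ENNReal.ofReal_ne_top, ENNReal.one_ne_top⟩
    · exact ENNReal.mul_ne_top (ENNReal.mul_ne_top (by simp) ENNReal.ofReal_ne_top)
        ENNReal.one_ne_top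
  have hlim : Tendsto (fun n => C * ENNReal.ofReal
      (∫ z in Icc (-R) R ×ℂ Icc z₀.im R, ‖dz (v n) z‖ ^ 2)) atTop (𝓝 (C * ENNReal.ofReal 0)) :=
    ENNReal.Tendsto.const_mul (ENNReal.tendsto_ofReal (hconv _ hQc hQU)) (Or.inr hC)
  have hA := ge_of_tendsto' hlim key
  rw [ENNReal.ofReal_zero, mul_zero, nonpos_iff_eq_zero, mul_one, mul_eq_zero] at hA
  rcases hA with hA | hA
  · have hd2 : d ^ 2 ≤ 0 := ENNReal.ofReal_eq_zero.mp hA
    exact pow_eq_zero_iff (two_ne_zero) |>.mp (le_antisymm hd2 (sq_nonneg d))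
  · exfalso
    have : R - -R ≤ 0 := ENNReal.ofReal_eq_zero.mp hA
    linarith

end Fermat.Agent.S21

end
-- ===== PACK-END S21/Per.lean

-- ===== PACK-BEGIN S21/DefsMS.lean
section


/-!
# S21 — definitions for the minimizing-sequence part (MS)
-/

set_option autoImplicit false

open UpperHalfPlane CongruenceSubgroup
open scoped MatrixGroups ContDiff

namespace Fermat.Agent.S21

/-- Test functions: smooth, compactly supported in the upper half plane. -/
def IsTest (η : ℂ → ℝ) : Prop :=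
  ContDiff ℝ ∞ η ∧ HasCompactSupport η ∧ tsupport η ⊆ Uhp

/-- The properties of a smooth `SL(2,ℤ)`-partition of unity (output of MS-A). -/
structure IsSL2ZPartition (χ₁ : ℂ → ℝ) : Prop where
  smooth : ContDiffOn ℝ ∞ χ₁ Uhp
  nonneg : ∀ z, 0 ≤ χ₁ z
  supp : ∀ z, χ₁ z ≠ 0 → |z.re| ≤ 1 ∧ 1 / 2 < z.im
  locfin : ∀ K : Set ℂ, IsCompact K → K ⊆ Uhp →
    {g : SL(2, ℤ) | ∃ z ∈ K, χ₁ (mob g z) ≠ 0}.Finite
  sum_eq_one : ∀ z ∈ Uhp, ∑ᶠ g : SL(2, ℤ), χ₁ (mob g z) = 1

/-- The `Γ₀(N)`-partition of unity built from an `SL(2,ℤ)`-partition `χ₁`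
(sum over representatives of the left cosets `g Γ₀(N)`), extended by `0` off the upper half
plane. -/
noncomputable def chi (N : ℕ) (χ₁ : ℂ → ℝ) : ℂ → ℝ :=
  Set.indicator Uhp fun z => ∑ᶠ q : SL(2, ℤ) ⧸ Gamma0 N, χ₁ (mob (Quotient.out q) z)

/-- `Γ₀(N)`-symmetrization of a test function. -/
noncomputable def sym (N : ℕ) (η : ℂ → ℝ) : ℂ → ℝ :=
  fun z => ∑ᶠ γ : Gamma0 N, η (mob (γ : SL(2, ℤ)) z)

end Fermat.Agent.S21

end
-- ===== PACK-END S21/DefsMS.lean

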