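import Mathlib
import Fermat.Prelude.Def_AlgebraicCurve_Correspondence
import Mathlib.RingTheory.IntegralClosure.IsIntegralClosure.Basic
import Mathlib.RingTheory.Polynomial.ScaleRoots
import Mathlib.Algebra.Polynomial.Lifts
import Mathlib.RingTheory.Adjoin.Basic
import Mathlib.Tactic.LinearCombination
import Mathlib.RingTheory.Valuation.ValuationSubring
import Mathlib.Tactic.FieldSimp

-- ===== PACK-BEGIN S36/H586/StepAB.lean
section


/-!
# S36 engine, ALG3 cell NR2-ASM (helper586): norms ⇒ the Kummer function is completely split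

Mathlib only.  Abstract setting of the three vertical valuations of `F = K(X₀(q² M'))` over the
two vertical valuations of `F' = K(X₀(q M'))` along the two degeneracy embeddings `α`, `β`.

* `PU V u`         : `u ∈ 1 + 𝔪_V` (principal unit of the valuation ring `V`);
* `IsOrd V t y a`  : `v_V(y) = v_V(t) ^ a` (`y` has order `a` with respect to `t`);
* `NormTable φ N q w' π Os Oi Vu Vr Vi` : the norm calculus of ONE embedding `φ : F' → F` of
  degree `q` (norm `N`): over `Os` lie `Vu` (`e = f = 1`) and `Vr` (`e = q - 1`, `f = 1`,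
  uniformiser `π`), over `Oi` lies `Vi` alone (`e = 1`, `f = q` purely inseparable).
  The fields are exactly the outputs of the cells MOD3 (lying over, residue degrees) and
  NV / NR (norm–valuation and norm–residue formulas);
* `stepAB` : if `N_α f` and `N_β f` are of the form `w' ^ s * g ^ m` with `gcd(q, m) = 1`, then
  `f ^ (q² - 1) = w ^ s * G ^ m * u` with `u ≡ 1` at `V_FF`, `V_mid`, `V_VV`.

For `α` the table is `(Os, Oi | Vu, Vr, Vi) = (V₁', V₂' | V_FF, V_mid, V_VV)`, for `β` it is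
`(V₂', V₁' | V_VV, V_mid, V_FF)`.
-/

set_option autoImplicit false

namespace Fermat.Agent.S36.H586

/-! ## Principal units -/

section PUnit

variable {F : Type*} [Field F] (V : ValuationSubring F)

/-- `u ∈ 1 + 𝔪_V`. -/
def PU (u : F) : Prop := V.valuation (u - 1) < 1

variable {V}

theorem PU.val_eq_one {u : F} (h : PU V u) : V.valuation u = 1 := by
  have h1 : u = 1 + (u - 1) := by ring
  rw [h1]
  exact Valuation.map_one_add_of_lt _ h

theorem PU.ne_zero {u : F} (h : PU V u) : u ≠ 0 := by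
  rintro rfl
  have := h.val_eq_one
  rw [map_zero] at this
  exact zero_ne_one this

theorem PU.one : PU V (1 : F) := by
  unfold PU
  rw [sub_self, map_zero]
  exact zero_lt_one

theorem PU.mul {u v : F} (hu : PU V u) (hv : PU V v) : PU V (u * v) := by
  unfold PU
  have h1 : u * v - 1 = (u - 1) * v + (v - 1) := by ring
  rw [h1]
  refine Valuation.map_add_lt _ ?_ hv
  rw [map_mul, hv.val_eq_one, mul_one]
  exact hu

theorem PU.inv {u : F} (hu : PU V u) : PU V u⁻¹ := by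
  unfold PU
  have hu0 := hu.ne_zero
  have h1 : u⁻¹ - 1 = -((u - 1) * u⁻¹) := by
    field_simp
    ring
  rw [h1, Valuation.map_neg, map_mul, map_inv₀, hu.val_eq_one, inv_one, mul_one]
  exact hu

theorem PU.div {u v : F} (hu : PU V u) (hv : PU V v) : PU V (u / v) := by
  rw [div_eq_mul_inv]
  exact hu.mul hv.inv

theorem PU.pow {u : F} (hu : PU V u) (n : ℕ) : PU V (u ^ n) := by
  induction n with
  | zero => rw [pow_zero]; exact PU.one
  | succ n ih => rw [pow_succ]; exact ih.mul hu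

theorem PU.zpow {u : F} (hu : PU V u) (n : ℤ) : PU V (u ^ n) := by
  cases n with
  | ofNat n => rw [Int.ofNat_eq_natCast, zpow_natCast]; exact hu.pow n
  | negSucc n => rw [zpow_negSucc]; exact (hu.pow _).inv

/-- `x ≡ y mod 𝔪_V`, `y` a unit  ⟹  `x / y ∈ 1 + 𝔪_V`. -/
theorem pu_div_of_sub {x y : F} (hy : V.valuation y = 1) (h : V.valuation (x - y) < 1) :
    PU V (x / y) := by
  unfold PU
  have hy0 : y ≠ 0 := by
    rintro rfl
    rw [map_zero] at hy
    exact zero_ne_one hy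
  have h1 : x / y - 1 = (x - y) * y⁻¹ := by
    field_simp
  rw [h1, map_mul, map_inv₀, hy, inv_one, mul_one]
  exact h

/-- `x / y ∈ 1 + 𝔪_V`, `y` a unit  ⟹  `x ≡ y mod 𝔪_V`. -/
theorem sub_of_pu_div {x y : F} (hy : V.valuation y = 1) (h : PU V (x / y)) :
    V.valuation (x - y) < 1 := by
  unfold PU at h
  have hy0 : y ≠ 0 := by
    rintro rfl
    rw [map_zero] at hy
    exact zero_ne_one hy
  have h1 : x - y = (x / y - 1) * y := by
    field_simp
  rw [h1, map_mul, hy, mul_one]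
  exact h

theorem PU.congr_mul {u x y : F} (hu : PU V u) (hxy : PU V (x / y)) (hy : y ≠ 0) :
    PU V (u * x / y) := by
  have : u * x / y = u * (x / y) := by field_simp
  rw [this]
  exact hu.mul hxy

end PUnit

/-! ## Orders with respect to a uniformiser -/

section Ord

variable {F : Type*} [Field F] (V : ValuationSubring F)

/-- `v_V(y) = v_V(t) ^ a`. -/
def IsOrd (t y : F) (a : ℤ) : Prop := V.valuation y = V.valuation t ^ a

variable {V} {t : F}

theorem val_ne_zero_of_ne_zero {x : F} (hx : x ≠ 0) : V.valuation x ≠ 0 :=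
  (Valuation.ne_zero_iff _).2 hx

theorem IsOrd.ne_zero (ht0 : t ≠ 0) {y : F} {a : ℤ} (h : IsOrd V t y a) : y ≠ 0 := by
  rintro rfl
  unfold IsOrd at h
  rw [map_zero] at h
  exact zpow_ne_zero a (val_ne_zero_of_ne_zero ht0) h.symm

theorem IsOrd.unique (ht0 : t ≠ 0) (ht : V.valuation t < 1) {y : F} {a b : ℤ}
    (ha : IsOrd V t y a) (hb : IsOrd V t y b) : a = b := by
  unfold IsOrd at ha hb
  have h0 : 0 < V.valuation t := zero_lt_iff.2 (val_ne_zero_of_ne_zero ht0)
  exact zpow_right_injective₀ h0 ht.ne (ha.symm.trans hb)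

theorem IsOrd.self : IsOrd V t t 1 := by
  unfold IsOrd
  rw [zpow_one]

theorem IsOrd.one : IsOrd V t 1 0 := by
  unfold IsOrd
  rw [map_one, zpow_zero]

theorem IsOrd.mul (ht0 : t ≠ 0) {x y : F} {a b : ℤ} (hx : IsOrd V t x a) (hy : IsOrd V t y b) :
    IsOrd V t (x * y) (a + b) := by
  unfold IsOrd at *
  rw [map_mul, hx, hy, zpow_add₀ (val_ne_zero_of_ne_zero ht0)]

theorem IsOrd.inv {x : F} {a : ℤ} (hx : IsOrd V t x a) : IsOrd V t x⁻¹ (-a) := by
  unfold IsOrd at *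
  rw [map_inv₀, hx, zpow_neg]

theorem IsOrd.pow {x : F} {a : ℤ} (hx : IsOrd V t x a) (n : ℕ) :
    IsOrd V t (x ^ n) (n * a) := by
  unfold IsOrd at *
  rw [map_pow, hx, ← zpow_natCast, ← zpow_mul, mul_comm]

theorem IsOrd.zpow {x : F} {a : ℤ} (hx : IsOrd V t x a) (n : ℤ) :
    IsOrd V t (x ^ n) (n * a) := by
  unfold IsOrd at *
  rw [map_zpow₀, hx, ← zpow_mul, mul_comm]

theorem IsOrd.congr {x : F} {a b : ℤ} (hx : IsOrd V t x a) (hab : a = b) : IsOrd V t x b :=
  hab ▸ hx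

theorem IsOrd.val_eq_one {x : F} (hx : IsOrd V t x 0) : V.valuation x = 1 := by
  unfold IsOrd at hx
  rw [hx, zpow_zero]

theorem isOrd_zero_of_val {x : F} (hx : V.valuation x = 1) : IsOrd V t x 0 := by
  unfold IsOrd
  rw [hx, zpow_zero]

/-- change of uniformiser: `v(s) = v(t) ^ e`. -/
theorem IsOrd.of_ram {s x : F} {e : ℤ} (hs : IsOrd V t s e) {a : ℤ} (hx : IsOrd V s x a) :
    IsOrd V t x (a * e) := by
  unfold IsOrd at *
  rw [hx, hs, ← zpow_mul, mul_comm]

end Ord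

/-! ## Lying over -/

section Over

variable {F' F : Type*} [Field F'] [Field F] {φ : F' →+* F} {O : ValuationSubring F'}
  {V : ValuationSubring F}

theorem over_val_le_one (hov : ∀ a : F', φ a ∈ V ↔ a ∈ O) (a : F') :
    V.valuation (φ a) ≤ 1 ↔ O.valuation a ≤ 1 := by
  rw [ValuationSubring.valuation_le_one_iff, ValuationSubring.valuation_le_one_iff]
  exact hov a

theorem over_val_lt_one (hov : ∀ a : F', φ a ∈ V ↔ a ∈ O) (a : F') :
    V.valuation (φ a) < 1 ↔ O.valuation a < 1 := by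
  rw [← ValuationSubring.mem_nonunits_iff, ← ValuationSubring.mem_nonunits_iff,
    ValuationSubring.mem_nonunits_iff_or, ValuationSubring.mem_nonunits_iff_or, ← map_inv₀,
    hov, map_eq_zero]

theorem over_val_eq_one (hov : ∀ a : F', φ a ∈ V ↔ a ∈ O) (a : F') :
    V.valuation (φ a) = 1 ↔ O.valuation a = 1 := by
  constructor
  · intro h
    exact le_antisymm ((over_val_le_one hov a).1 h.le)
      (not_lt.1 fun h' => (ne_of_lt ((over_val_lt_one hov a).2 h')) h)
  · intro h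
    exact le_antisymm ((over_val_le_one hov a).2 h.le)
      (not_lt.1 fun h' => (ne_of_lt ((over_val_lt_one hov a).1 h')) h)

theorem over_pu (hov : ∀ a : F', φ a ∈ V ↔ a ∈ O) (a : F') : PU V (φ a) ↔ PU O a := by
  unfold PU
  rw [← map_one φ, ← map_sub]
  exact over_val_lt_one hov _

theorem over_isOrd (hov : ∀ a : F', φ a ∈ V ↔ a ∈ O) {t : F'} (a : F') (n : ℤ) :
    IsOrd O t a n → IsOrd V (φ t) (φ a) n := by
  intro h
  unfold IsOrd at *
  by_cases ht : t = 0
  · subst ht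
    rw [map_zero, map_zero] at *
    by_cases hn : n = 0
    · subst hn
      rw [zpow_zero] at *
      exact (over_val_eq_one hov a).2 h
    · rw [zero_zpow n hn] at *
      rw [(Valuation.zero_iff _).1 h, map_zero, map_zero]
  have h1 : O.valuation (a * (t ^ n)⁻¹) = 1 := by
    rw [map_mul, map_inv₀, map_zpow₀, h]
    exact mul_inv_cancel₀ (zpow_ne_zero n (val_ne_zero_of_ne_zero ht))
  have h2 := (over_val_eq_one hov _).2 h1
  rw [map_mul, map_inv₀, map_zpow₀, map_mul, map_inv₀, map_zpow₀] at h2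
  have h3 : V.valuation (φ t) ^ n ≠ 0 :=
    zpow_ne_zero n (val_ne_zero_of_ne_zero ((map_ne_zero φ).2 ht))
  field_simp at h2
  exact h2

end Over

/-! ## Multiplicative functions `N : F → F'` -/

section NormFn

variable {F' F : Type*} [Field F'] [Field F] {N : F → F'}

theorem nfn_ne_zero (h1 : N 1 = 1) (hmul : ∀ x y, N (x * y) = N x * N y) {x : F} (hx : x ≠ 0) :
    N x ≠ 0 := by
  intro h
  have h2 : N (x * x⁻¹) = N x * N x⁻¹ := hmul x x⁻¹
  rw [mul_inv_cancel₀ hx, h1, h, zero_mul] at h2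
  exact one_ne_zero h2

theorem nfn_inv (h1 : N 1 = 1) (hmul : ∀ x y, N (x * y) = N x * N y) {x : F} (hx : x ≠ 0) :
    N x⁻¹ = (N x)⁻¹ := by
  have h2 : N (x * x⁻¹) = N x * N x⁻¹ := hmul x x⁻¹
  rw [mul_inv_cancel₀ hx, h1] at h2
  exact eq_inv_of_mul_eq_one_right h2.symm

theorem nfn_pow (h1 : N 1 = 1) (hmul : ∀ x y, N (x * y) = N x * N y) (x : F) (n : ℕ) :
    N (x ^ n) = N x ^ n := by
  induction n with
  | zero => rw [pow_zero, pow_zero, h1]
  | succ n ih => rw [pow_succ, pow_succ, hmul, ih]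

theorem nfn_zpow (h1 : N 1 = 1) (hmul : ∀ x y, N (x * y) = N x * N y) {x : F} (hx : x ≠ 0)
    (n : ℤ) : N (x ^ n) = N x ^ n := by
  cases n with
  | ofNat n => rw [Int.ofNat_eq_natCast, zpow_natCast, zpow_natCast, nfn_pow h1 hmul]
  | negSucc n =>
    rw [zpow_negSucc, zpow_negSucc, nfn_inv h1 hmul (pow_ne_zero _ hx), nfn_pow h1 hmul]

end NormFn

/-! ## Small lemmas -/

section Small

variable {F : Type*} [Field F] {V : ValuationSubring F}

theorem val_eq_one_of_pow {x : F} {m : ℕ} (hm : 0 < m) (h : V.valuation (x ^ m) = 1) :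
    V.valuation x = 1 := by
  rw [map_pow] at h
  exact (pow_eq_one_iff_of_nonneg zero_le hm.ne').1 h

/-- A unit of order `0` of the form `w ^ e * G ^ m` is an `m`-th power. -/
theorem exists_pow_eq_of_isOrd_zero {w : F} (hw0 : w ≠ 0) (hw : V.valuation w < 1)
    (hord : ∀ y : F, y ≠ 0 → ∃ a : ℤ, IsOrd V w y a) {m : ℕ}
    {x : F} (hx : IsOrd V w x 0) {e : ℤ} {G : F} (hG : G ≠ 0) (hxe : x = w ^ e * G ^ m) :
    ∃ h : F, h ≠ 0 ∧ x = h ^ m := by
  obtain ⟨c, hc⟩ := hord G hG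
  have h1 : IsOrd V w x (e * 1 + m * c) := by
    rw [hxe]
    exact ((IsOrd.self).zpow e).mul hw0 (hc.pow m)
  have h2 : (0 : ℤ) = e * 1 + m * c := IsOrd.unique hw0 hw hx h1
  have h3 : e = (-c) * (m : ℤ) := by linear_combination -h2
  refine ⟨w ^ (-c) * G, mul_ne_zero (zpow_ne_zero _ hw0) hG, ?_⟩
  rw [hxe, mul_pow, ← zpow_natCast (w ^ (-c)) m, ← zpow_mul, ← h3]

/-- `x ^ q ∈ (Fˣ)^m · (1 + 𝔪)`, `gcd(q, m) = 1`  ⟹  `x ∈ (Fˣ)^m · (1 + 𝔪)`. -/
theorem exists_pu_div_pow_of_coprime {q m : ℕ} (hqm : Nat.Coprime q m) {x y : F}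
    (hx : x ≠ 0) (hy : y ≠ 0) (h : PU V (x ^ q / y ^ m)) :
    ∃ G : F, G ≠ 0 ∧ PU V (x / G ^ m) := by
  obtain ⟨a, b, hab⟩ := Nat.isCoprime_iff_coprime.2 hqm
  refine ⟨y ^ a * x ^ b, mul_ne_zero (zpow_ne_zero _ hy) (zpow_ne_zero _ hx), ?_⟩
  have h1 : x / (y ^ a * x ^ b) ^ m = (x ^ q / y ^ m) ^ a := by
    have hx1 : x = (x ^ q) ^ a * (x ^ b) ^ m := by
      rw [← zpow_natCast x q, ← zpow_natCast (x ^ b) m, ← zpow_mul, ← zpow_mul,
        ← zpow_add₀ hx, mul_comm (q : ℤ) a, hab, zpow_one]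
    have hyb : (y ^ a * x ^ b) ^ m = (y ^ m) ^ a * (x ^ b) ^ m := by
      rw [mul_pow, ← zpow_natCast (y ^ a) m, ← zpow_mul, mul_comm a (m : ℤ), zpow_mul,
        zpow_natCast]
    rw [hyb, div_zpow]
    have h2 : (y ^ m) ^ a ≠ 0 := zpow_ne_zero _ (pow_ne_zero _ hy)
    have h3 : (x ^ b) ^ m ≠ 0 := pow_ne_zero _ (zpow_ne_zero _ hx)
    rw [div_eq_div_iff (mul_ne_zero h2 h3) h2]
    calc x * (y ^ m) ^ a = ((x ^ q) ^ a * (x ^ b) ^ m) * (y ^ m) ^ a := by rw [← hx1]
      _ = (x ^ q) ^ a * ((y ^ m) ^ a * (x ^ b) ^ m) := by ring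
  rw [h1]
  exact h.zpow a

end Small

/-! ## The norm table of one embedding -/

section Table

variable {F' F : Type*} [Field F'] [Field F]

/-- The norm calculus of one embedding `φ : F' → F` of degree `q` with norm `N`.
Over `Os` lie `Vu` (`e = f = 1`) and `Vr` (`e = q - 1`, `f = 1`, uniformiser `π`); over `Oi`
lies `Vi` alone (`e = 1`, `f = q`, purely inseparable).  `w'` is a common uniformiser of `Os`,
`Oi` (and `φ w'` of `Vu`, `Vi`). -/
structure NormTable (φ : F' →+* F) (N : F → F') (q : ℕ) (w' : F') (π : F)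
    (Os Oi : ValuationSubring F') (Vu Vr Vi : ValuationSubring F) : Prop where
  norm_one : N 1 = 1
  norm_mul : ∀ x y : F, N (x * y) = N x * N y
  norm_w : N (φ w') = w' ^ q
  over_u : ∀ a : F', φ a ∈ Vu ↔ a ∈ Os
  over_r : ∀ a : F', φ a ∈ Vr ↔ a ∈ Os
  over_i : ∀ a : F', φ a ∈ Vi ↔ a ∈ Oi
  res_u : ∀ y : F, Vu.valuation y = 1 → ∃ a : F', Vu.valuation (y - φ a) < 1
  res_r : ∀ y : F, Vr.valuation y = 1 → ∃ a : F', Vr.valuation (y - φ a) < 1
  res_i : ∀ y : F, Vi.valuation y = 1 → ∃ c : F', Vi.valuation (y ^ q - φ c) < 1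
  norm_s : ∀ (y : F) (a b : F'), Vu.valuation y = 1 → Vr.valuation y = 1 →
    Vu.valuation (y - φ a) < 1 → Vr.valuation (y - φ b) < 1 →
    Os.valuation (N y - a * b ^ (q - 1)) < 1
  norm_i : ∀ (y : F) (c : F'), Vi.valuation y = 1 → Vi.valuation (y ^ q - φ c) < 1 →
    Oi.valuation (N y - c) < 1
  val_s : ∀ (y : F) (a b : ℤ), IsOrd Vu (φ w') y a → IsOrd Vr π y b →
    IsOrd Os w' (N y) (a + b)
  val_i : ∀ (y : F) (c : ℤ), IsOrd Vi (φ w') y c → IsOrd Oi w' (N y) (q * c)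

variable {φ : F' →+* F} {N : F → F'} {q : ℕ} {w' : F'} {π : F}
  {Os Oi : ValuationSubring F'} {Vu Vr Vi : ValuationSubring F}

theorem ne_of_val {K : Type*} [Field K] {W : ValuationSubring K} {z : K}
    (hz : W.valuation z = 1) : z ≠ 0 := by
  intro h0
  rw [h0, map_zero] at hz
  exact zero_ne_one hz

theorem val_eq_one_of_sub_lt {V : ValuationSubring F} {x y : F} (hx : V.valuation x = 1)
    (h : V.valuation (x - y) < 1) : V.valuation y = 1 := by
  have h1 : y = x + -(x - y) := by ring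
  rw [h1]
  have h2 : V.valuation (-(x - y)) < V.valuation x := by
    rw [Valuation.map_neg, hx]
    exact h
  rw [Valuation.map_add_eq_of_lt_left _ h2, hx]

/-- The purely inseparable place: if `N y` is an `m`-th power of a unit then the residue of `y`
at `Vi` is an `m`-th power (`gcd(q, m) = 1`). -/
theorem NormTable.pu_insep (T : NormTable φ N q w' π Os Oi Vu Vr Vi) {m : ℕ}
    (hqm : Nat.Coprime q m) {y : F} (hy : Vi.valuation y = 1) {h : F'}
    (hh : Oi.valuation h = 1) (hN : N y = h ^ m) :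
    ∃ G : F, G ≠ 0 ∧ PU Vi (y / G ^ m) := by
  obtain ⟨c, hc⟩ := T.res_i y hy
  have h1 := T.norm_i y c hy hc
  rw [hN] at h1
  have h2 : Vi.valuation (φ (h ^ m - c)) < 1 := (over_val_lt_one T.over_i _).2 h1
  have h3 : Vi.valuation (y ^ q - (φ h) ^ m) < 1 := by
    have e : y ^ q - (φ h) ^ m = (y ^ q - φ c) + -(φ (h ^ m - c)) := by
      rw [map_sub, map_pow]
      ring
    rw [e]
    refine Valuation.map_add_lt _ hc ?_
    rw [Valuation.map_neg]
    exact h2
  have hφh : Vi.valuation (φ h) = 1 := (over_val_eq_one T.over_i h).2 hh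
  have hφhm : Vi.valuation ((φ h) ^ m) = 1 := by rw [map_pow, hφh, one_pow]
  have hy0 : y ≠ 0 := by
    rintro rfl
    rw [map_zero] at hy
    exact zero_ne_one hy
  have hφh0 : φ h ≠ 0 := by
    intro h0
    rw [h0, map_zero] at hφh
    exact zero_ne_one hφh
  exact exists_pu_div_pow_of_coprime hqm hy0 hφh0 (pu_div_of_sub hφhm h3)

/-- The split place: if `N y = h ^ m` and the residue of `y` at `Vu` is an `m`-th power, then the
residue of `y ^ (q - 1)` at `Vr` is an `m`-th power. -/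
theorem NormTable.pu_split (T : NormTable φ N q w' π Os Oi Vu Vr Vi) {m : ℕ}
    {y : F} (hyu : Vu.valuation y = 1) (hyr : Vr.valuation y = 1) {h : F'}
    (hh : Os.valuation h = 1) (hN : N y = h ^ m)
    {Gu : F} (hGu1 : Vu.valuation Gu = 1) (hGu : PU Vu (y / Gu ^ m)) :
    ∃ G : F, G ≠ 0 ∧ Vr.valuation G = 1 ∧ PU Vr (y ^ (q - 1) / G ^ m) := by
  obtain ⟨a, ha⟩ := T.res_u y hyu
  obtain ⟨b, hb⟩ := T.res_r y hyr
  obtain ⟨g', hg'⟩ := T.res_u Gu hGu1
  have h1 := T.norm_s y a b hyu hyr ha hb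
  rw [hN] at h1
  -- units
  have hφa : Vu.valuation (φ a) = 1 := val_eq_one_of_sub_lt hyu ha
  have hφb : Vr.valuation (φ b) = 1 := val_eq_one_of_sub_lt hyr hb
  have hφg : Vu.valuation (φ g') = 1 := val_eq_one_of_sub_lt hGu1 hg'
  have ha1 : Os.valuation a = 1 := (over_val_eq_one T.over_u a).1 hφa
  have hb1 : Os.valuation b = 1 := (over_val_eq_one T.over_r b).1 hφb
  have hg1 : Os.valuation g' = 1 := (over_val_eq_one T.over_u g').1 hφg
  have ha0 : a ≠ 0 := ne_of_val ha1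
  have hb0 : b ≠ 0 := ne_of_val hb1
  have hg0 : g' ≠ 0 := ne_of_val hg1
  have hh0 : h ≠ 0 := ne_of_val hh
  have hy0 : y ≠ 0 := ne_of_val hyu
  have hGu0 : Gu ≠ 0 := ne_of_val hGu1
  have hφa0 : φ a ≠ 0 := ne_of_val hφa
  have hφg0 : φ g' ≠ 0 := ne_of_val hφg
  -- `a ≡ g' ^ m` at `Os`
  have p1 : PU Vu (y / φ a) := pu_div_of_sub hφa ha
  have p2 : PU Vu (Gu / φ g') := pu_div_of_sub hφg hg'
  have p3 : PU Vu (φ (a / g' ^ m)) := by
    have e : φ (a / g' ^ m) = (y / φ a)⁻¹ * (y / Gu ^ m) * (Gu / φ g') ^ m := by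
      rw [map_div₀, map_pow, div_pow]
      field_simp
    rw [e]
    exact (p1.inv.mul hGu).mul (p2.pow m)
  have p4 : PU Os (a / g' ^ m) := (over_pu T.over_u _).1 p3
  -- `h ^ m ≡ a * b ^ (q - 1)` at `Os`
  have hab1 : Os.valuation (a * b ^ (q - 1)) = 1 := by
    rw [map_mul, map_pow, ha1, hb1, one_pow, one_mul]
  have p5 : PU Os (h ^ m / (a * b ^ (q - 1))) := pu_div_of_sub hab1 h1
  -- `b ^ (q - 1) ≡ (h / g') ^ m` at `Os`
  have p6 : PU Os (b ^ (q - 1) / (h / g') ^ m) := by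
    have e : b ^ (q - 1) / (h / g') ^ m = (h ^ m / (a * b ^ (q - 1)))⁻¹ * (a / g' ^ m)⁻¹ := by
      rw [div_pow]
      field_simp
    rw [e]
    exact p5.inv.mul p4.inv
  have p7 : PU Vr (φ (b ^ (q - 1) / (h / g') ^ m)) := (over_pu T.over_r _).2 p6
  have p8 : PU Vr (y / φ b) := pu_div_of_sub hφb hb
  refine ⟨φ (h / g'), (map_ne_zero φ).2 (div_ne_zero hh0 hg0), ?_, ?_⟩
  · rw [over_val_eq_one T.over_r, map_div₀, hh, hg1, div_one]
  · have hφb0 : φ b ≠ 0 := ne_of_val hφb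
    have hφh0 : φ h ≠ 0 := (map_ne_zero φ).2 hh0
    have hZ0 : φ (h / g') ≠ 0 := (map_ne_zero φ).2 (div_ne_zero hh0 hg0)
    have e : y ^ (q - 1) / φ (h / g') ^ m =
        (y / φ b) ^ (q - 1) * φ (b ^ (q - 1) / (h / g') ^ m) := by
      rw [map_div₀ φ (b ^ (q - 1)), map_pow, map_pow, div_pow]
      field_simp
    rw [e]
    exact (p8.pow _).mul p7

/-- Normalisation of the norm: `f₁ = f ^ k / (w ^ t * g₀ ^ m)` a unit at the split places and
`N f = w' ^ s * g ^ m`  ⟹  `N f₁` is the `m`-th power of a unit of `Os` and of `Oi`. -/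
theorem NormTable.norm_unit_pow (T : NormTable φ N q w' π Os Oi Vu Vr Vi) {m : ℕ} (hm : 0 < m)
    (hw'0 : w' ≠ 0) (hwOs : Os.valuation w' < 1)
    (hordOs : ∀ y : F', y ≠ 0 → ∃ a : ℤ, IsOrd Os w' y a)
    {f g₀ : F} (hg₀ : g₀ ≠ 0) {s : ℤ} {g : F'} (hg : g ≠ 0)
    (hN : N f = w' ^ s * g ^ m) (k : ℕ) (t : ℤ)
    (hu : Vu.valuation (f ^ k * ((φ w') ^ t)⁻¹ * (g₀ ^ m)⁻¹) = 1)
    (hr : Vr.valuation (f ^ k * ((φ w') ^ t)⁻¹ * (g₀ ^ m)⁻¹) = 1)
    (hi : Vi.valuation (f ^ k * ((φ w') ^ t)⁻¹ * (g₀ ^ m)⁻¹) = 1) :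
    ∃ h : F', Os.valuation h = 1 ∧ Oi.valuation h = 1 ∧
      N (f ^ k * ((φ w') ^ t)⁻¹ * (g₀ ^ m)⁻¹) = h ^ m := by
  have hφw0 : φ w' ≠ 0 := (map_ne_zero φ).2 hw'0
  have hNg₀ : N g₀ ≠ 0 := nfn_ne_zero T.norm_one T.norm_mul hg₀
  have hNf₁ : N (f ^ k * ((φ w') ^ t)⁻¹ * (g₀ ^ m)⁻¹) =
      w' ^ (s * k - q * t) * (g ^ k * (N g₀)⁻¹) ^ m := by
    rw [T.norm_mul, T.norm_mul, nfn_pow T.norm_one T.norm_mul,
      nfn_inv T.norm_one T.norm_mul (zpow_ne_zero _ hφw0),
      nfn_zpow T.norm_one T.norm_mul hφw0,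
      nfn_inv T.norm_one T.norm_mul (pow_ne_zero _ hg₀), nfn_pow T.norm_one T.norm_mul,
      T.norm_w, hN, zpow_sub₀ hw'0, mul_pow, mul_pow, inv_pow, ← zpow_natCast (w' ^ s) k,
      ← zpow_mul]
    have e1 : (w' ^ q) ^ t = w' ^ ((q : ℤ) * t) := by
      rw [← zpow_natCast w' q, ← zpow_mul]
    rw [e1]
    have h1 : w' ^ ((q : ℤ) * t) ≠ 0 := zpow_ne_zero _ hw'0
    have h2 : N g₀ ^ m ≠ 0 := pow_ne_zero _ hNg₀
    field_simp
    rw [← pow_mul, ← pow_mul, mul_comm m k]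
  have h0 : IsOrd Os w' (N (f ^ k * ((φ w') ^ t)⁻¹ * (g₀ ^ m)⁻¹)) 0 := by
    have := T.val_s _ 0 0 (isOrd_zero_of_val hu) (isOrd_zero_of_val hr)
    rwa [add_zero] at this
  obtain ⟨h, hh0, hh⟩ := exists_pow_eq_of_isOrd_zero hw'0 hwOs hordOs h0
    (mul_ne_zero (pow_ne_zero k hg) (inv_ne_zero hNg₀)) hNf₁
  refine ⟨h, ?_, ?_, hh⟩
  · apply val_eq_one_of_pow hm
    rw [← hh]
    exact h0.val_eq_one
  · apply val_eq_one_of_pow hm
    rw [← hh]
    have := T.val_i _ 0 (isOrd_zero_of_val hi)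
    rw [mul_zero] at this
    exact this.val_eq_one

end Table

/-! ## The theorem -/

section Main

variable {F' F : Type*} [Field F'] [Field F]

/-- **NR2-ASM.**  Three vertical valuations `V_FF`, `V_mid`, `V_VV` of `F` over the two vertical
valuations `V₁`, `V₂` of `F'`, with the norm tables of `α` and `β`.  If the norms of `f` along
`α` and `β` are of the form `w' ^ s * g ^ m`, `gcd(q, m) = 1`, then
`f ^ (q² - 1) = w ^ s * G ^ m * u` with `u ≡ 1` at the three vertical valuations. -/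
theorem stepAB
    (α β : F' →+* F) (Nα Nβ : F → F') (q m : ℕ) (hq : 0 < q) (hm : 0 < m)
    (hqm : Nat.Coprime q m)
    (w' : F') (w π : F) (hαw : α w' = w) (hβw : β w' = w)
    (V1 V2 : ValuationSubring F') (VFF Vmid VVV : ValuationSubring F)
    (Tα : NormTable α Nα q w' π V1 V2 VFF Vmid VVV)
    (Tβ : NormTable β Nβ q w' π V2 V1 VVV Vmid VFF)
    (hw'0 : w' ≠ 0) (hw1 : V1.valuation w' < 1) (hw2 : V2.valuation w' < 1)
    (hπ0 : π ≠ 0)
    (hram : IsOrd Vmid π w ((q : ℤ) - 1))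
    (hordFF : ∀ y : F, y ≠ 0 → ∃ a : ℤ, IsOrd VFF w y a)
    (hordmid : ∀ y : F, y ≠ 0 → ∃ a : ℤ, IsOrd Vmid π y a)
    (hordVV : ∀ y : F, y ≠ 0 → ∃ a : ℤ, IsOrd VVV w y a)
    (hord1 : ∀ y : F', y ≠ 0 → ∃ a : ℤ, IsOrd V1 w' y a)
    (hord2 : ∀ y : F', y ≠ 0 → ∃ a : ℤ, IsOrd V2 w' y a)
    (hap_ord : ∀ a b c : ℤ, ∃ g : F, IsOrd VFF w g a ∧ IsOrd Vmid π g b ∧ IsOrd VVV w g c)
    (hap_res : ∀ g₁ g₂ g₃ : F, VFF.valuation g₁ = 1 → Vmid.valuation g₂ = 1 →
      VVV.valuation g₃ = 1 → ∃ g : F, PU VFF (g / g₁) ∧ PU Vmid (g / g₂) ∧ PU VVV (g / g₃))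
    (f : F) (hf : f ≠ 0)
    (hNα : ∃ (s : ℤ) (g : F'), g ≠ 0 ∧ Nα f = w' ^ s * g ^ m)
    (hNβ : ∃ (s : ℤ) (g : F'), g ≠ 0 ∧ Nβ f = w' ^ s * g ^ m) :
    ∃ (s : ℤ) (G u : F), G ≠ 0 ∧ f ^ (q ^ 2 - 1) = w ^ s * G ^ m * u ∧
      PU VFF u ∧ PU Vmid u ∧ PU VVV u ∧
      (∃ k₁ : F', Nα u = k₁ ^ m) ∧ (∃ k₂ : F', Nβ u = k₂ ^ m) := by
  have hw0 : w ≠ 0 := by
    rw [← hαw]
    exact (map_ne_zero α).2 hw'0
  have hwFF : VFF.valuation w < 1 := by
    rw [← hαw]
    exact (over_val_lt_one Tα.over_u w').2 hw1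
  have hwVV : VVV.valuation w < 1 := by
    rw [← hαw]
    exact (over_val_lt_one Tα.over_i w').2 hw2
  -- orders of `f`
  obtain ⟨aFF, hFF⟩ := hordFF f hf
  obtain ⟨amid, hmid⟩ := hordmid f hf
  obtain ⟨aVV, hVV⟩ := hordVV f hf
  obtain ⟨sα, gα, hgα0, hNα⟩ := hNα
  obtain ⟨sβ, gβ, hgβ0, hNβ⟩ := hNβ
  obtain ⟨cα1, hcα1⟩ := hord1 gα hgα0
  obtain ⟨cα2, hcα2⟩ := hord2 gα hgα0
  obtain ⟨cβ1, hcβ1⟩ := hord1 gβ hgβ0
  obtain ⟨cβ2, hcβ2⟩ := hord2 gβ hgβ0
  -- the four norm–valuation equations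
  have E1 : aFF + amid = sα * 1 + m * cα1 := by
    have e1a : IsOrd V1 w' (Nα f) (aFF + amid) := Tα.val_s f aFF amid (hαw ▸ hFF) hmid
    have e1b : IsOrd V1 w' (Nα f) (sα * 1 + m * cα1) := by
      rw [hNα]
      exact ((IsOrd.self).zpow sα).mul hw'0 (hcα1.pow m)
    exact IsOrd.unique hw'0 hw1 e1a e1b
  have E2 : (q : ℤ) * aVV = sα * 1 + m * cα2 := by
    have e2a : IsOrd V2 w' (Nα f) (q * aVV) := Tα.val_i f aVV (hαw ▸ hVV)
    have e2b : IsOrd V2 w' (Nα f) (sα * 1 + m * cα2) := by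
      rw [hNα]
      exact ((IsOrd.self).zpow sα).mul hw'0 (hcα2.pow m)
    exact IsOrd.unique hw'0 hw2 e2a e2b
  have E3 : aVV + amid = sβ * 1 + m * cβ2 := by
    have e3a : IsOrd V2 w' (Nβ f) (aVV + amid) := Tβ.val_s f aVV amid (hβw ▸ hVV) hmid
    have e3b : IsOrd V2 w' (Nβ f) (sβ * 1 + m * cβ2) := by
      rw [hNβ]
      exact ((IsOrd.self).zpow sβ).mul hw'0 (hcβ2.pow m)
    exact IsOrd.unique hw'0 hw2 e3a e3b
  have E4 : (q : ℤ) * aFF = sβ * 1 + m * cβ1 := by
    have e4a : IsOrd V1 w' (Nβ f) (q * aFF) := Tβ.val_i f aFF (hβw ▸ hFF)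
    have e4b : IsOrd V1 w' (Nβ f) (sβ * 1 + m * cβ1) := by
      rw [hNβ]
      exact ((IsOrd.self).zpow sβ).mul hw'0 (hcβ1.pow m)
    exact IsOrd.unique hw'0 hw1 e4a e4b
  -- normalisation of the vertical orders
  set t : ℤ := ((q : ℤ) + 1) * aVV with ht
  set d₁ : ℤ := cα1 - cα2 - cβ2 + cβ1 with hd₁
  set d₂ : ℤ := ((q : ℤ) + 1) * (cα1 - cα2) - d₁ with hd₂
  have key1 : ((q : ℤ) + 1) * aFF = t + m * d₁ := by
    rw [ht, hd₁]
    linear_combination E1 - E2 - E3 + E4
  have key2 : ((q : ℤ) + 1) * amid = ((q : ℤ) - 1) * t + m * d₂ := by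
    rw [hd₂]
    linear_combination ((q : ℤ) + 1) * (E1 - E2) - key1
  obtain ⟨g₀, hg₀FF, hg₀mid, hg₀VV⟩ := hap_ord d₁ d₂ 0
  have hg₀0 : g₀ ≠ 0 := hg₀FF.ne_zero hw0
  -- `f₁`
  set f₁ : F := f ^ (q + 1) * (w ^ t)⁻¹ * (g₀ ^ m)⁻¹ with hf₁
  have hf₁FF : VFF.valuation f₁ = 1 := by
    have h1 : IsOrd VFF w f₁ (((q + 1 : ℕ) : ℤ) * aFF + -(t * 1) + -(m * d₁)) :=
      ((hFF.pow (q + 1)).mul hw0 ((IsOrd.self).zpow t).inv).mul hw0 (hg₀FF.pow m).inv
    refine (h1.congr ?_).val_eq_one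
    push_cast
    linear_combination key1
  have hf₁mid : Vmid.valuation f₁ = 1 := by
    have h1 : IsOrd Vmid π f₁ (((q + 1 : ℕ) : ℤ) * amid + -(t * ((q : ℤ) - 1)) + -(m * d₂)) :=
      ((hmid.pow (q + 1)).mul hπ0 (hram.zpow t).inv).mul hπ0 (hg₀mid.pow m).inv
    refine (h1.congr ?_).val_eq_one
    push_cast
    linear_combination key2
  have hf₁VV : VVV.valuation f₁ = 1 := by
    have h1 : IsOrd VVV w f₁ (((q + 1 : ℕ) : ℤ) * aVV + -(t * 1) + -(m * 0)) :=
      ((hVV.pow (q + 1)).mul hw0 ((IsOrd.self).zpow t).inv).mul hw0 (hg₀VV.pow m).inv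
    refine (h1.congr ?_).val_eq_one
    push_cast
    rw [ht]
    ring
  have hf₁0 : f₁ ≠ 0 := ne_of_val hf₁FF
  -- norms of `f₁`
  obtain ⟨hα, hα1, hα2, hNα₁⟩ : ∃ h : F', V1.valuation h = 1 ∧ V2.valuation h = 1 ∧
      Nα f₁ = h ^ m := by
    have := Tα.norm_unit_pow hm hw'0 hw1 hord1 hg₀0 hgα0 hNα (q + 1) t
      (by rw [hαw]; exact hf₁FF) (by rw [hαw]; exact hf₁mid) (by rw [hαw]; exact hf₁VV)
    rw [hαw] at this
    exact this
  obtain ⟨hβ, hβ2, hβ1, hNβ₁⟩ : ∃ h : F', V2.valuation h = 1 ∧ V1.valuation h = 1 ∧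
      Nβ f₁ = h ^ m := by
    have := Tβ.norm_unit_pow hm hw'0 hw2 hord2 hg₀0 hgβ0 hNβ (q + 1) t
      (by rw [hβw]; exact hf₁VV) (by rw [hβw]; exact hf₁mid) (by rw [hβw]; exact hf₁FF)
    rw [hβw] at this
    exact this
  -- residues
  obtain ⟨GVV, hGVV0, hGVV⟩ := Tα.pu_insep hqm hf₁VV hα2 hNα₁
  obtain ⟨GFF, hGFF0, hGFF⟩ := Tβ.pu_insep hqm hf₁FF hβ1 hNβ₁
  have hGFF1 : VFF.valuation GFF = 1 := by
    apply val_eq_one_of_pow hm
    have h1 := hGFF.val_eq_one
    rw [map_div₀, hf₁FF] at h1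
    have h2 : VFF.valuation (GFF ^ m) ≠ 0 := val_ne_zero_of_ne_zero (pow_ne_zero _ hGFF0)
    field_simp at h1
    exact h1.symm
  have hGVV1 : VVV.valuation GVV = 1 := by
    apply val_eq_one_of_pow hm
    have h1 := hGVV.val_eq_one
    rw [map_div₀, hf₁VV] at h1
    have h2 : VVV.valuation (GVV ^ m) ≠ 0 := val_ne_zero_of_ne_zero (pow_ne_zero _ hGVV0)
    field_simp at h1
    exact h1.symm
  obtain ⟨Gmid, hGmid0, hGmid1, hGmid⟩ := Tα.pu_split hf₁FF hf₁mid hα1 hNα₁ hGFF1 hGFF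
  -- approximation
  obtain ⟨G, hGa, hGb, hGc⟩ := hap_res (GFF ^ (q - 1)) Gmid (GVV ^ (q - 1))
    (by rw [map_pow, hGFF1, one_pow]) hGmid1 (by rw [map_pow, hGVV1, one_pow])
  have hG0 : G ≠ 0 := by
    intro h0
    rw [h0, zero_div] at hGa
    exact hGa.ne_zero rfl
  have hq2 : q ^ 2 - 1 = (q + 1) * (q - 1) := by
    obtain ⟨k, rfl⟩ : ∃ k, q = k + 1 := ⟨q - 1, by omega⟩
    rw [Nat.add_sub_cancel]
    have : (k + 1) ^ 2 = (k + 1 + 1) * k + 1 := by ring
    rw [this, Nat.add_sub_cancel]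
  refine ⟨t * ((q - 1 : ℕ) : ℤ), g₀ ^ (q - 1) * G, f₁ ^ (q - 1) / G ^ m,
    mul_ne_zero (pow_ne_zero _ hg₀0) hG0, ?_, ?_, ?_, ?_, ?_, ?_⟩
  · rw [hq2, hf₁]
    have h1 : w ^ t ≠ 0 := zpow_ne_zero _ hw0
    have h2 : g₀ ^ m ≠ 0 := pow_ne_zero _ hg₀0
    have h3 : G ^ m ≠ 0 := pow_ne_zero _ hG0
    rw [zpow_mul, zpow_natCast, mul_pow, mul_pow, mul_pow, inv_pow, inv_pow, pow_mul,
      ← pow_mul g₀ (q - 1) m, ← pow_mul g₀ m (q - 1), mul_comm (q - 1) m]
    field_simp
  · have e : f₁ ^ (q - 1) / G ^ m = (f₁ / GFF ^ m) ^ (q - 1) * ((G / GFF ^ (q - 1)) ^ m)⁻¹ := by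
      rw [div_pow, div_pow, ← pow_mul, ← pow_mul, mul_comm m (q - 1)]
      have h3 : G ^ m ≠ 0 := pow_ne_zero _ hG0
      have h4 : GFF ^ ((q - 1) * m) ≠ 0 := pow_ne_zero _ hGFF0
      field_simp
    rw [e]
    exact (hGFF.pow _).mul (hGa.pow m).inv
  · have e : f₁ ^ (q - 1) / G ^ m = (f₁ ^ (q - 1) / Gmid ^ m) * ((G / Gmid) ^ m)⁻¹ := by
      rw [div_pow]
      have h3 : G ^ m ≠ 0 := pow_ne_zero _ hG0
      have h4 : Gmid ^ m ≠ 0 := pow_ne_zero _ hGmid0
      field_simp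
    rw [e]
    exact hGmid.mul (hGb.pow m).inv
  · have e : f₁ ^ (q - 1) / G ^ m = (f₁ / GVV ^ m) ^ (q - 1) * ((G / GVV ^ (q - 1)) ^ m)⁻¹ := by
      rw [div_pow, div_pow, ← pow_mul, ← pow_mul, mul_comm m (q - 1)]
      have h3 : G ^ m ≠ 0 := pow_ne_zero _ hG0
      have h4 : GVV ^ ((q - 1) * m) ≠ 0 := pow_ne_zero _ hGVV0
      field_simp
    rw [e]
    exact (hGVV.pow _).mul (hGc.pow m).inv
  · refine ⟨hα ^ (q - 1) * (Nα G)⁻¹, ?_⟩
    rw [div_eq_mul_inv, Tα.norm_mul, nfn_pow Tα.norm_one Tα.norm_mul, hNα₁,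
      nfn_inv Tα.norm_one Tα.norm_mul (pow_ne_zero _ hG0), nfn_pow Tα.norm_one Tα.norm_mul,
      mul_pow, inv_pow, ← pow_mul, ← pow_mul, mul_comm m (q - 1)]
  · refine ⟨hβ ^ (q - 1) * (Nβ G)⁻¹, ?_⟩
    rw [div_eq_mul_inv, Tβ.norm_mul, nfn_pow Tβ.norm_one Tβ.norm_mul, hNβ₁,
      nfn_inv Tβ.norm_one Tβ.norm_mul (pow_ne_zero _ hG0), nfn_pow Tβ.norm_one Tβ.norm_mul,
      mul_pow, inv_pow, ← pow_mul, ← pow_mul, mul_comm m (q - 1)]

end Main

end Fermat.Agent.S36.H586

end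
-- ===== PACK-END S36/H586/StepAB.lean

-- ===== PACK-BEGIN A2/Alg/H754/ChartDim.lean
section


/-!
# A2 / ALG / P-S (helper754): the components of a two-dimensional chart are Dedekind

`B` a domain, integral over a Noetherian ring `A₀` of Krull dimension `≤ 2` (`A₀ = R[x]`, `R` a
DVR).  Then every prime `q` strictly containing a nonzero prime `p` is maximal; hence `B ⧸ p` is
a Dedekind domain as soon as it is Noetherian and integrally closed.
-/

set_option autoImplicit false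
set_option linter.style.haveILetI false

namespace Fermat.Agent.A2.Alg.H754

section Dim

variable {A₀ B : Type*} [CommRing A₀] [IsNoetherianRing A₀] [CommRing B] [IsDomain B]
  [Algebra A₀ B] [Algebra.IsIntegral A₀ B]

/-- No chain of primes `⊥ < p < q < M` in an integral extension of a ring of dimension `≤ 2`. -/
theorem isMaximal_of_lt_of_ne_bot (hdim : ringKrullDim A₀ ≤ 2) (p q : Ideal B) [hp : p.IsPrime]
    [hq : q.IsPrime] (hp0 : p ≠ ⊥) (hpq : p < q) : q.IsMaximal := by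
  by_contra hmax
  obtain ⟨M, hM, hqM⟩ := Ideal.exists_le_maximal q hq.ne_top
  have hqM' : q < M := lt_of_le_of_ne hqM (fun h => hmax (h ▸ hM))
  haveI hMp : M.IsPrime := hM.isPrime
  haveI hbot : (⊥ : Ideal B).IsPrime := Ideal.isPrime_bot
  have key : ∀ (I J : Ideal B) [I.IsPrime], I < J →
      I.comap (algebraMap A₀ B) < J.comap (algebraMap A₀ B) := by
    intro I J _ hIJ
    obtain ⟨x, hxJ, hxI⟩ := SetLike.exists_of_lt hIJ
    exact Ideal.comap_lt_comap_of_integral_mem_sdiff hIJ.le ⟨hxJ, hxI⟩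
      (Algebra.IsIntegral.isIntegral x)
  have h0 := key ⊥ p (bot_lt_iff_ne_bot.2 hp0)
  have h1 := key p q hpq
  have h2 := key q M hqM'
  haveI := Ideal.finiteHeight_of_isNoetherianRing ((⊥ : Ideal B).comap (algebraMap A₀ B))
  haveI := Ideal.finiteHeight_of_isNoetherianRing (p.comap (algebraMap A₀ B))
  haveI := Ideal.finiteHeight_of_isNoetherianRing (q.comap (algebraMap A₀ B))
  have e0 := Order.add_one_le_of_lt (Ideal.height_strict_mono_of_isPrime h0)
  have e1 := Order.add_one_le_of_lt (Ideal.height_strict_mono_of_isPrime h1)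
  have e2 := Order.add_one_le_of_lt (Ideal.height_strict_mono_of_isPrime h2)
  have hne : M.comap (algebraMap A₀ B) ≠ ⊤ := (Ideal.comap_isPrime _ M).ne_top
  have e3 : ((M.comap (algebraMap A₀ B)).height : WithBot ℕ∞) ≤ 2 :=
    le_trans (Ideal.height_le_ringKrullDim_of_ne_top hne) hdim
  have e3' : (M.comap (algebraMap A₀ B)).height ≤ 2 := by
    have h2 : ((2 : ℕ∞) : WithBot ℕ∞) = 2 := rfl
    rw [← h2] at e3
    exact WithBot.coe_le_coe.1 e3
  have e4 : (3 : ℕ∞) ≤ (M.comap (algebraMap A₀ B)).height := by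
    calc (3 : ℕ∞) = 0 + 1 + 1 + 1 := by norm_num
      _ ≤ ((⊥ : Ideal B).comap (algebraMap A₀ B)).height + 1 + 1 + 1 := by gcongr; exact zero_le
      _ ≤ (p.comap (algebraMap A₀ B)).height + 1 + 1 := by gcongr
      _ ≤ (q.comap (algebraMap A₀ B)).height + 1 := by gcongr
      _ ≤ _ := e2
  have : (3 : ℕ∞) ≤ 2 := le_trans e4 e3'
  exact absurd this (by decide)

/-- The components of the special fibre are Dedekind. -/
theorem isDedekindDomain_quotient_of_dim [IsNoetherianRing B] (hdim : ringKrullDim A₀ ≤ 2)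
    (p : Ideal B) [hp : p.IsPrime] (hp0 : p ≠ ⊥) (hnorm : IsIntegrallyClosed (B ⧸ p)) :
    IsDedekindDomain (B ⧸ p) := by
  have hsurj : Function.Surjective (Ideal.Quotient.mk p) := Ideal.Quotient.mk_surjective
  have h1 : IsNoetherianRing (B ⧸ p) := inferInstance
  have h2 : Ring.DimensionLEOne (B ⧸ p) := by
    refine ⟨fun {Q} hQ0 hQ => ?_⟩
    haveI := hQ
    have hle : p ≤ Q.comap (Ideal.Quotient.mk p) := by
      intro b hb
      rw [Ideal.mem_comap, Ideal.Quotient.eq_zero_iff_mem.2 hb]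
      exact Q.zero_mem
    have hne : p ≠ Q.comap (Ideal.Quotient.mk p) := by
      intro h
      apply hQ0
      rw [← Ideal.map_comap_of_surjective _ hsurj Q, ← h, Ideal.map_quotient_self]
    have hmax : (Q.comap (Ideal.Quotient.mk p)).IsMaximal :=
      isMaximal_of_lt_of_ne_bot (A₀ := A₀) hdim p _ hp0 (lt_of_le_of_ne hle hne)
    rw [← Ideal.map_comap_of_surjective _ hsurj Q]
    haveI := hmax
    exact Ideal.IsMaximal.map_of_surjective_of_ker_le hsurj (by rw [Ideal.mk_ker]; exact hle)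
  have h3 : IsIntegrallyClosed (B ⧸ p) := hnorm
  exact { h1, h2, h3 with }

end Dim

end Fermat.Agent.A2.Alg.H754

end
-- ===== PACK-END A2/Alg/H754/ChartDim.lean

-- ===== PACK-BEGIN S28/H988/Coprime.lean
section
/-
S28 / [L.UP] upper bound, helper988.
Pure algebra (Mathlib only):
* `isCoprime_map_of_reduction`: two monic polynomials over `k⟦X⟧`, one with unit constant
  coefficient, the other congruent to `X ^ m` modulo the maximal ideal, are coprime over `k⸨X⸩`.
* `mem_range_of_common_root`: the "gcd lemma": a common root `x` of two polynomials over a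
  subfield `F`, such that the two quotients by `X - x` are coprime, lies in `F`.
-/


set_option autoImplicit false

noncomputable section

open Polynomial

namespace Fermat.Agent.S28.H988

section Reduction

variable {k : Type*} [Field k]

/-- A monic polynomial over `k⟦X⟧` all of whose lower coefficients lie in the maximal ideal
reduces to `X ^ natDegree`. -/
theorem map_constantCoeff_eq_X_pow (g : Polynomial (PowerSeries k)) (hg : g.Monic)
    (hc : ∀ i < g.natDegree, PowerSeries.constantCoeff (g.coeff i) = 0) :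
    g.map (PowerSeries.constantCoeff (R := k)) = X ^ g.natDegree := by
  ext i
  rw [coeff_map, coeff_X_pow]
  rcases lt_trichotomy i g.natDegree with h | h | h
  · rw [hc i h, if_neg (ne_of_lt h)]
  · rw [h, if_pos rfl, coeff_natDegree, hg.leadingCoeff, map_one]
  · rw [coeff_eq_zero_of_natDegree_lt h, map_zero, if_neg (ne_of_gt h)]

/-- Two monic polynomials over `k⟦X⟧`, one with unit constant coefficient, the other congruent
to `X ^ m` modulo the maximal ideal, are coprime over `k⸨X⸩`. -/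
theorem isCoprime_map_of_reduction
    (g₁ g₂ : Polynomial (PowerSeries k)) (h₁ : g₁.Monic) (h₂ : g₂.Monic)
    (hc₁ : PowerSeries.constantCoeff (g₁.coeff 0) ≠ 0)
    (hc₂ : ∀ i < g₂.natDegree, PowerSeries.constantCoeff (g₂.coeff i) = 0) :
    IsCoprime (g₁.map (algebraMap (PowerSeries k) (LaurentSeries k)))
      (g₂.map (algebraMap (PowerSeries k) (LaurentSeries k))) := by
  classical
  set φ := algebraMap (PowerSeries k) (LaurentSeries k) with hφ
  have hφinj : Function.Injective φ := IsFractionRing.injective _ _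
  rw [← EuclideanDomain.gcd_isUnit_iff]
  set H := EuclideanDomain.gcd (g₁.map φ) (g₂.map φ) with hH
  have hHne : H ≠ 0 := by
    intro h0
    have := (EuclideanDomain.gcd_eq_zero_iff.mp h0).1
    exact (h₁.map φ).ne_zero this
  have hH1 : H ∣ g₁.map φ := EuclideanDomain.gcd_dvd_left _ _
  have hH2 : H ∣ g₂.map φ := EuclideanDomain.gcd_dvd_right _ _
  -- normalise
  set H' := H * C (leadingCoeff H)⁻¹ with hH'
  have hH'monic : H'.Monic := monic_mul_leadingCoeff_inv hHne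
  have hunit : IsUnit (C (leadingCoeff H)⁻¹ : Polynomial (LaurentSeries k)) :=
    isUnit_C.mpr (IsUnit.mk0 _ (inv_ne_zero (leadingCoeff_ne_zero.mpr hHne)))
  have hH'1 : H' ∣ g₁.map φ := (hunit.mul_right_dvd).mpr hH1
  have hH'2 : H' ∣ g₂.map φ := (hunit.mul_right_dvd).mpr hH2
  obtain ⟨h', hh'⟩ := IsIntegrallyClosed.eq_map_mul_C_of_dvd (LaurentSeries k) h₁ hH'1
  rw [hH'monic.leadingCoeff, map_one, mul_one] at hh'
  have hh'monic : h'.Monic := monic_of_injective hφinj (by rw [hh']; exact hH'monic)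
  have hd1 : h' ∣ g₁ := (map_dvd_map φ hφinj hh'monic).mp (by rw [hh']; exact hH'1)
  have hd2 : h' ∣ g₂ := (map_dvd_map φ hφinj hh'monic).mp (by rw [hh']; exact hH'2)
  -- reduce modulo the maximal ideal
  set ψ := PowerSeries.constantCoeff (R := k) with hψ
  have hb1 : h'.map ψ ∣ g₁.map ψ := Polynomial.map_dvd ψ hd1
  have hb2 : h'.map ψ ∣ X ^ g₂.natDegree := by
    rw [← map_constantCoeff_eq_X_pow g₂ h₂ hc₂]
    exact Polynomial.map_dvd ψ hd2
  have hbmonic : (h'.map ψ).Monic := hh'monic.map ψ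
  obtain ⟨i, _, hi⟩ := (dvd_prime_pow (prime_X (R := k)) _).mp hb2
  have hi0 : i = 0 := by
    by_contra hne
    have hX : (X : Polynomial k) ∣ h'.map ψ :=
      (dvd_pow_self X hne).trans hi.symm.dvd
    have := hX.trans hb1
    rw [X_dvd_iff, coeff_map] at this
    exact hc₁ this
  rw [hi0, pow_zero] at hi
  have hdeg0 : (h'.map ψ).natDegree = 0 := by
    have := natDegree_eq_of_degree_eq (degree_eq_degree_of_associated hi)
    simpa using this
  have hh'deg : h'.natDegree = 0 := by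
    rw [← hdeg0, hh'monic.natDegree_map]
  have hh'one : h' = 1 := by
    have := eq_C_of_natDegree_eq_zero hh'deg
    rw [this]
    have hc : h'.coeff 0 = 1 := by
      have := hh'monic.leadingCoeff
      rwa [leadingCoeff, hh'deg] at this
    rw [hc, C_1]
  have hH'one : H' = 1 := by rw [← hh', hh'one, Polynomial.map_one]
  have : IsUnit H' := by rw [hH'one]; exact isUnit_one
  exact (IsUnit.mul_iff.mp this).1

end Reduction

section GcdLemma

variable {F K : Type*} [Field F] [Field K] [Algebra F K]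

/-- The gcd lemma: if `x` is a common root of `A` and `B` (polynomials over the subfield `F`)
and the quotients of `A` and `B` by `X - x` are coprime over the big field, then `x ∈ F`. -/
theorem mem_range_of_common_root (A B : Polynomial F) (hA : A ≠ 0) (x : K)
    (hAx : (A.map (algebraMap F K)).IsRoot x) (hBx : (B.map (algebraMap F K)).IsRoot x)
    (hcop : IsCoprime ((A.map (algebraMap F K)) /ₘ (X - C x))
      ((B.map (algebraMap F K)) /ₘ (X - C x))) :
    x ∈ (algebraMap F K).range := by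
  have hAx' : aeval x A = 0 := by
    rw [aeval_def, eval₂_eq_eval_map]; exact hAx
  have hBx' : aeval x B = 0 := by
    rw [aeval_def, eval₂_eq_eval_map]; exact hBx
  have hint : IsIntegral F x := by
    refine ⟨A * C (leadingCoeff A)⁻¹, monic_mul_leadingCoeff_inv hA, ?_⟩
    rw [eval₂_mul, ← aeval_def, hAx', zero_mul]
  rw [← minpoly.natDegree_eq_one_iff]
  set μ := minpoly F x with hμ
  have hμA : μ ∣ A := minpoly.dvd F x hAx'
  have hμB : μ ∣ B := minpoly.dvd F x hBx'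
  set φ := algebraMap F K with hφ
  have hμroot : (μ.map φ).IsRoot x := by
    have := minpoly.aeval F x
    rw [aeval_def, eval₂_eq_eval_map] at this
    exact this
  have e1 := mul_divByMonic_eq_iff_isRoot.mpr hμroot
  have e2 := mul_divByMonic_eq_iff_isRoot.mpr hAx
  have e3 := mul_divByMonic_eq_iff_isRoot.mpr hBx
  have hne : (X - C x : Polynomial K) ≠ 0 := X_sub_C_ne_zero x
  have d1 : (μ.map φ) /ₘ (X - C x) ∣ (A.map φ) /ₘ (X - C x) := by
    have : μ.map φ ∣ A.map φ := Polynomial.map_dvd φ hμA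
    rw [← e1, ← e2] at this
    exact (mul_dvd_mul_iff_left hne).mp this
  have d2 : (μ.map φ) /ₘ (X - C x) ∣ (B.map φ) /ₘ (X - C x) := by
    have : μ.map φ ∣ B.map φ := Polynomial.map_dvd φ hμB
    rw [← e1, ← e3] at this
    exact (mul_dvd_mul_iff_left hne).mp this
  have hu : IsUnit ((μ.map φ) /ₘ (X - C x)) := hcop.isUnit_of_dvd' d1 d2
  have hdeg : (μ.map φ).natDegree = 1 := by
    rw [← e1, natDegree_mul hne hu.ne_zero, natDegree_X_sub_C, natDegree_eq_zero_of_isUnit hu]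
  rwa [natDegree_map] at hdeg

end GcdLemma

end Fermat.Agent.S28.H988

end

end
-- ===== PACK-END S28/H988/Coprime.lean

-- ===== PACK-BEGIN S37/H818/FieldBridge.lean
section
/-
S37 / LEVEL TRANSFER (helper818), part 9: bridges between `IntermediateField` language
(`relfinrank`, `⊔`) and the Prelude's "along" language (`finrankAlong`, `Algebra.adjoin`).
-/



set_option autoImplicit false
set_option linter.style.haveILetI false

noncomputable section

namespace Fermat.Agent.S37.H818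

open AlgebraicCurve IntermediateField

variable {K E : Type*} [Field K] [Field E] [Algebra K E]

/-- `finrankAlong` of an inclusion of intermediate fields is the relative finrank. -/
theorem finrankAlong_inclusion {A B : IntermediateField K E} (h : A ≤ B) :
    finrankAlong K (IntermediateField.inclusion h) = A.relfinrank B := by
  rw [IntermediateField.relfinrank_eq_finrank_of_le h]
  unfold finrankAlong
  letI := algebraAlong (IntermediateField.inclusion h)
  let e : ↥B ≃ₗ[A] ↥(IntermediateField.extendScalars h) :=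
    { toFun := fun x => ⟨x.1, x.2⟩
      invFun := fun x => ⟨x.1, x.2⟩
      map_add' := fun _ _ => rfl
      map_smul' := fun _ _ => rfl
      left_inv := fun _ => rfl
      right_inv := fun _ => rfl }
  exact e.finrank_eq

/-- `FiniteAlong` for an inclusion, from positivity of the relative finrank. -/
theorem finiteAlong_inclusion {A B : IntermediateField K E} (h : A ≤ B)
    (hpos : 0 < A.relfinrank B) : FiniteAlong K (IntermediateField.inclusion h) := by
  unfold FiniteAlong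
  letI := algebraAlong (IntermediateField.inclusion h)
  have h1 : 0 < Module.finrank A B := by
    have := finrankAlong_inclusion h
    unfold finrankAlong at this
    rw [this]
    exact hpos
  exact Module.finite_of_finrank_pos h1

/-- If `C ≤ A ⊔ B` (with `A, B ≤ C`, `C` finite over `A`), then `C` is generated as an
`A`-algebra by the image of `B`. -/
theorem adjoin_range_inclusion_eq_top {A B C : IntermediateField K E} (hAC : A ≤ C)
    (hBC : B ≤ C) (hC : C ≤ A ⊔ B) (hfin : FiniteAlong K (IntermediateField.inclusion hAC)) :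
    (letI := algebraAlong (IntermediateField.inclusion hAC)
     Algebra.adjoin A (Set.range (IntermediateField.inclusion hBC))) = ⊤ := by
  letI := algebraAlong (IntermediateField.inclusion hAC)
  haveI : Module.Finite A C := hfin
  haveI : Algebra.IsAlgebraic A C := Algebra.IsAlgebraic.of_finite A C
  set T : Subalgebra A C := Algebra.adjoin A (Set.range (IntermediateField.inclusion hBC)) with hT
  have key : ∀ y (hy : y ∈ A ⊔ B), ∃ hyC : y ∈ C, (⟨y, hyC⟩ : C) ∈ T := by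
    intro y hy
    rw [IntermediateField.sup_def] at hy
    induction hy using IntermediateField.adjoin_induction with
    | mem x hx =>
      rcases hx with hx | hx
      · refine ⟨hAC hx, ?_⟩
        have : (⟨x, hAC hx⟩ : C) = algebraMap A C ⟨x, hx⟩ := rfl
        rw [this]
        exact T.algebraMap_mem _
      · refine ⟨hBC hx, ?_⟩
        exact Algebra.subset_adjoin ⟨⟨x, hx⟩, rfl⟩
    | algebraMap x =>
      refine ⟨C.algebraMap_mem x, ?_⟩
      have : (⟨algebraMap K E x, C.algebraMap_mem x⟩ : C) =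
          algebraMap A C ⟨algebraMap K E x, A.algebraMap_mem x⟩ := rfl
      rw [this]
      exact T.algebraMap_mem _
    | add x y _ _ hx hy =>
      obtain ⟨hxC, hxT⟩ := hx
      obtain ⟨hyC, hyT⟩ := hy
      exact ⟨C.add_mem hxC hyC, T.add_mem hxT hyT⟩
    | inv x _ hx =>
      obtain ⟨hxC, hxT⟩ := hx
      refine ⟨C.inv_mem hxC, ?_⟩
      have h1 := T.inv_mem_of_algebraic (x := ⟨⟨x, hxC⟩, hxT⟩)
        (Algebra.IsAlgebraic.isAlgebraic (R := A) (⟨x, hxC⟩ : C))
      exact h1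
    | mul x y _ _ hx hy =>
      obtain ⟨hxC, hxT⟩ := hx
      obtain ⟨hyC, hyT⟩ := hy
      exact ⟨C.mul_mem hxC hyC, T.mul_mem hxT hyT⟩
  rw [eq_top_iff]
  rintro ⟨y, hyC⟩ -
  obtain ⟨_, h⟩ := key y (hC hyC)
  exact h

end Fermat.Agent.S37.H818

end

end
-- ===== PACK-END S37/H818/FieldBridge.lean

-- ===== PACK-BEGIN A2/Mod/H189/ChartChange.lean
section






/-!
# Cell A2 / MOD, GOODRED part G3 (helper189): CHART CHANGE, abstract form (Mathlib only)

`R` a commutative ring, `F` a field, `V` a subring of `F` (in the application the Gauss valuation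
ring), `w : F` (the uniformiser).  For an `R`-subalgebra `A ⊆ F` (`A = R[y]`) we consider the
*chart* `IC(A)` = elements of `F` integral over `A`, and the two elementwise properties that make up
`Mod.GoodRedAt` (`A2/Mod/Spec.lean`):

* `QepOn V w A`    : `b ∈ IC(A)`, `b ∈ w V` ⟹ `b / w ∈ IC(A)`;
* `NormalOn V w A` : `f ∈ V` whose residue is integral over `IC(A) / w` is congruent modulo `w V`
  to an element of `IC(A)`   (the special fibre of the chart is integrally closed in `κ(V)`).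

Results:

* `isIntegral_of_forall_isIntegral` : `IC` only depends on `A` up to integral equivalence;
* `QepOn.loc`, `NormalOn.loc`       : both properties pass from `A` to `A[1/s]` (`s ∈ A` a unit of
  `V`);
* `QepOn.glue`, `NormalOn.glue`     : both properties glue along a covering `α s₁ + β s₂ = 1`.

These are the tools for changing the coordinate of a model with good reduction (e.g. from the
Hauptmodul `t₂` or `t₃` used by row S18 for the residue characteristics `3` and `2` to `j`).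
-/

set_option autoImplicit false

namespace Fermat.Agent.A2.Mod.H189

open Polynomial

variable {R : Type*} [CommRing R] {F : Type*} [Field F] [Algebra R F]

/-- `f ∈ w V`. -/
def InWV (V : Subring F) (w f : F) : Prop := f * w⁻¹ ∈ V

theorem InWV.mul_left {V : Subring F} {w f : F} (h : InWV V w f) {c : F} (hc : c ∈ V) :
    InWV V w (c * f) := by
  unfold InWV at h ⊢
  rw [mul_assoc]
  exact V.mul_mem hc h

theorem InWV.add {V : Subring F} {w f g : F} (hf : InWV V w f) (hg : InWV V w g) :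
    InWV V w (f + g) := by
  unfold InWV at hf hg ⊢
  rw [add_mul]
  exact V.add_mem hf hg

theorem InWV.sub {V : Subring F} {w f g : F} (hf : InWV V w f) (hg : InWV V w g) :
    InWV V w (f - g) := by
  unfold InWV at hf hg ⊢
  rw [sub_mul]
  exact V.sub_mem hf hg

/-- The `q`-expansion principle for the chart of `A`, elementwise. -/
def QepOn (V : Subring F) (w : F) (A : Subalgebra R F) : Prop :=
  ∀ b : F, IsIntegral A b → InWV V w b → IsIntegral A (b * w⁻¹)

/-- Normality of the special fibre of the chart of `A`, elementwise: an element of `V` which is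
integral over the chart modulo `w V` is congruent to an element of the chart. -/
def NormalOn (V : Subring F) (w : F) (A : Subalgebra R F) : Prop :=
  ∀ f ∈ V, (∃ (n : ℕ) (c : Fin n → F), (∀ i, IsIntegral A (c i)) ∧
      InWV V w (f ^ n + ∑ i : Fin n, c i * f ^ (i : ℕ))) →
    ∃ b : F, IsIntegral A b ∧ InWV V w (f - b)

/-! ### Integral equivalence -/

/-- Integrality over a subalgebra only depends on its integral closure. -/
theorem isIntegral_of_forall_isIntegral {A A' : Subalgebra R F}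
    (h : ∀ a ∈ A, IsIntegral A' a) {f : F} (hf : IsIntegral A f) : IsIntegral A' f := by
  -- `f` is integral over the integral closure `C'` of `A'`
  let C' : Subalgebra A' F := integralClosure A' F
  let ι : A →+* C' :=
    { toFun := fun a => ⟨(a : F), h a a.2⟩
      map_one' := rfl
      map_mul' := fun _ _ => rfl
      map_zero' := rfl
      map_add' := fun _ _ => rfl }
  have h1 : IsIntegral C' f := by
    have := IsIntegral.map_of_comp_eq (R := A) (S := F) (T := C') (U := F) ι (RingHom.id F)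
      (by ext a; rfl) hf
    simpa using this
  exact isIntegral_trans (R := A') (A := C') f h1

theorem isIntegral_iff_of_forall_isIntegral {A A' : Subalgebra R F}
    (h : ∀ a ∈ A, IsIntegral A' a) (h' : ∀ a ∈ A', IsIntegral A a) {f : F} :
    IsIntegral A f ↔ IsIntegral A' f :=
  ⟨isIntegral_of_forall_isIntegral h, isIntegral_of_forall_isIntegral h'⟩

theorem isIntegral_of_le {A A' : Subalgebra R F} (h : A ≤ A') {f : F} (hf : IsIntegral A f) :
    IsIntegral A' f :=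
  isIntegral_of_forall_isIntegral (fun a ha => isIntegral_algebraMap (R := A') (x := ⟨a, h ha⟩)) hf

theorem QepOn.congr {V : Subring F} {w : F} {A A' : Subalgebra R F}
    (h : ∀ a ∈ A, IsIntegral A' a) (h' : ∀ a ∈ A', IsIntegral A a) (hq : QepOn V w A) :
    QepOn V w A' := fun b hb hbw =>
  isIntegral_of_forall_isIntegral h (hq b (isIntegral_of_forall_isIntegral h' hb) hbw)

theorem NormalOn.congr {V : Subring F} {w : F} {A A' : Subalgebra R F}
    (h : ∀ a ∈ A, IsIntegral A' a) (h' : ∀ a ∈ A', IsIntegral A a) (hn : NormalOn V w A) :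
    NormalOn V w A' := by
  rintro f hf ⟨n, c, hc, hcw⟩
  obtain ⟨b, hb, hbw⟩ := hn f hf
    ⟨n, c, fun i => isIntegral_of_forall_isIntegral h' (hc i), hcw⟩
  exact ⟨b, isIntegral_of_forall_isIntegral h hb, hbw⟩

/-! ### Localisation of a subalgebra at one element -/

/-- `A[1/s]` as a subalgebra of the field `F`. -/
def locSub (A : Subalgebra R F) (s : F) : Subalgebra R F :=
  Algebra.adjoin R ((A : Set F) ∪ {s⁻¹})

theorem le_locSub (A : Subalgebra R F) (s : F) : A ≤ locSub A s := fun _ ha =>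
  Algebra.subset_adjoin (Or.inl ha)

theorem inv_mem_locSub (A : Subalgebra R F) (s : F) : s⁻¹ ∈ locSub A s :=
  Algebra.subset_adjoin (Or.inr rfl)

theorem locSub_le {A B : Subalgebra R F} {s : F} (hAB : A ≤ B) (hs : s⁻¹ ∈ B) : locSub A s ≤ B :=
  Algebra.adjoin_le (by
    rintro x (hx | hx)
    · exact hAB hx
    · rw [Set.mem_singleton_iff] at hx
      rw [hx]
      exact hs)

/-- Every element of `A[1/s]` is of the form `a / s ^ k`. -/
theorem exists_pow_mul_mem_of_mem_loc {A : Subalgebra R F} {s : F} (hs : s ∈ A) {b : F}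
    (hb : b ∈ locSub A s) : ∃ k : ℕ, ∀ k', k ≤ k' → s ^ k' * b ∈ A := by
  unfold locSub at hb
  induction hb using Algebra.adjoin_induction with
  | mem x hx =>
    rcases hx with hx | hx
    · exact ⟨0, fun k' _ => A.mul_mem (A.pow_mem hs k') hx⟩
    · rw [Set.mem_singleton_iff] at hx
      subst hx
      refine ⟨1, fun k' hk' => ?_⟩
      by_cases h0 : s = 0
      · subst h0
        simp
      · obtain ⟨k'', rfl⟩ := Nat.exists_eq_add_of_le hk'
        rw [pow_add, pow_one, mul_comm s, mul_assoc, mul_inv_cancel₀ h0, mul_one]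
        exact A.pow_mem hs k''
  | algebraMap r => exact ⟨0, fun k' _ => A.mul_mem (A.pow_mem hs k') (A.algebraMap_mem r)⟩
  | add x y _ _ hx hy =>
    obtain ⟨k₁, h₁⟩ := hx
    obtain ⟨k₂, h₂⟩ := hy
    refine ⟨max k₁ k₂, fun k' hk' => ?_⟩
    rw [mul_add]
    exact A.add_mem (h₁ k' (le_trans (le_max_left _ _) hk'))
      (h₂ k' (le_trans (le_max_right _ _) hk'))
  | mul x y _ _ hx hy =>
    obtain ⟨k₁, h₁⟩ := hx
    obtain ⟨k₂, h₂⟩ := hy
    refine ⟨k₁ + k₂, fun k' hk' => ?_⟩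
    obtain ⟨k'', rfl⟩ := Nat.exists_eq_add_of_le hk'
    have : s ^ (k₁ + k₂ + k'') * (x * y) = s ^ k'' * ((s ^ k₁ * x) * (s ^ k₂ * y)) := by
      rw [pow_add, pow_add]; ring
    rw [this]
    exact A.mul_mem (A.pow_mem hs k'') (A.mul_mem (h₁ k₁ le_rfl) (h₂ k₂ le_rfl))

/-- An element of `A` is integral over `A`. -/
theorem isIntegral_of_mem {A : Subalgebra R F} {a : F} (ha : a ∈ A) : IsIntegral A a :=
  isIntegral_algebraMap (R := A) (x := ⟨a, ha⟩)

/-- Integral closure commutes with localisation, elementwise: if `f` is integral over `A[1/s]`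
then `s ^ k f` is integral over `A` for all large `k`. -/
theorem exists_pow_mul_isIntegral {A : Subalgebra R F} {s : F} (hs : s ∈ A) {f : F}
    (hf : IsIntegral (locSub A s) f) : ∃ k : ℕ, ∀ k', k ≤ k' → IsIntegral A (s ^ k' * f) := by
  classical
  suffices h : ∃ k : ℕ, IsIntegral A (s ^ k * f) by
    obtain ⟨k, hk⟩ := h
    refine ⟨k, fun k' hk' => ?_⟩
    obtain ⟨k'', rfl⟩ := Nat.exists_eq_add_of_le hk'
    have : s ^ (k + k'') * f = s ^ k'' * (s ^ k * f) := by rw [pow_add]; ring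
    rw [this]
    exact (isIntegral_of_mem (A.pow_mem hs k'')).mul hk
  obtain ⟨p, hp, hpf⟩ := hf
  -- a common exponent for all coefficients
  have hcoef : ∀ i : ℕ, ∃ k : ℕ, ∀ k', k ≤ k' → s ^ k' * ((p.coeff i : locSub A s) : F) ∈ A :=
    fun i => exists_pow_mul_mem_of_mem_loc hs (p.coeff i).2
  choose kc hkc using hcoef
  set K : ℕ := (Finset.range (p.natDegree + 1)).sup kc with hK
  have hKle : ∀ i, i ≤ p.natDegree → kc i ≤ K := fun i hi =>
    Finset.le_sup (f := kc) (Finset.mem_range.2 (Nat.lt_succ_of_le hi))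
  -- the element `s ^ K` of `A[1/s]`
  let sK : locSub A s := ⟨s ^ K, (locSub A s).pow_mem (le_locSub A s hs) K⟩
  let ι : A →+* locSub A s := (Subalgebra.inclusion (le_locSub A s)).toRingHom
  have hιval : ∀ a : A, ((ι a : locSub A s) : F) = (a : F) := fun a => rfl
  have hlifts : scaleRoots p sK ∈ lifts ι := by
    rw [lifts_iff_coeff_lifts]
    intro i
    rw [coeff_scaleRoots]
    by_cases hi : i < p.natDegree
    · have h1 : s ^ (K * (p.natDegree - i)) * ((p.coeff i : locSub A s) : F) ∈ A := by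
        apply hkc i
        calc kc i ≤ K := hKle i hi.le
          _ = K * 1 := (mul_one K).symm
          _ ≤ K * (p.natDegree - i) := Nat.mul_le_mul_left K (by omega)
      refine ⟨⟨_, h1⟩, Subtype.ext ?_⟩
      show s ^ (K * (p.natDegree - i)) * ((p.coeff i : locSub A s) : F)
        = ((p.coeff i : locSub A s) : F) * (s ^ K) ^ (p.natDegree - i)
      rw [← pow_mul, mul_comm]
    · by_cases hi' : i = p.natDegree
      · subst hi'
        refine ⟨1, ?_⟩
        rw [map_one, Nat.sub_self, pow_zero, mul_one]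
        exact hp.coeff_natDegree.symm
      · have : p.coeff i = 0 := coeff_eq_zero_of_natDegree_lt (by omega)
        refine ⟨0, ?_⟩
        rw [map_zero, this, zero_mul]
  have hmonic : (scaleRoots p sK).Monic := (monic_scaleRoots_iff sK).2 hp
  obtain ⟨q, hq, -, hqm⟩ := lifts_and_degree_eq_and_monic hlifts hmonic
  refine ⟨K, q, hqm, ?_⟩
  have hcomp : (algebraMap (locSub A s) F).comp ι = algebraMap A F := by
    ext a
    rfl
  have h0 : eval₂ (algebraMap (locSub A s) F) (algebraMap (locSub A s) F sK * f) (scaleRoots p sK) = 0 :=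
    scaleRoots_eval₂_eq_zero (algebraMap (locSub A s) F) hpf
  rw [← hq, eval₂_map, hcomp] at h0
  exact h0

/-- Conversely `a / s ^ k` is integral over `A[1/s]` as soon as `a` is integral over `A`. -/
theorem isIntegral_loc_of_pow_mul {A : Subalgebra R F} {s : F} (hs0 : s ≠ 0) {b : F} {k : ℕ}
    (hb : IsIntegral A (s ^ k * b)) : IsIntegral (locSub A s) b := by
  have h1 : IsIntegral (locSub A s) (s ^ k * b) := isIntegral_of_le (le_locSub A s) hb
  have h2 : IsIntegral (locSub A s) (s⁻¹ ^ k) :=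
    isIntegral_of_mem ((locSub A s).pow_mem (inv_mem_locSub A s) k)
  have : b = s⁻¹ ^ k * (s ^ k * b) := by
    rw [← mul_assoc, ← mul_pow, inv_mul_cancel₀ hs0, one_pow, one_mul]
  rw [this]
  exact h2.mul h1

/-- **QEP passes to localisations.** -/
theorem QepOn.loc {V : Subring F} {w : F} {A : Subalgebra R F} (hq : QepOn V w A) {s : F}
    (hsA : s ∈ A) (hs0 : s ≠ 0) (hsV : s ∈ V) : QepOn V w (locSub A s) := by
  intro b hb hbw
  obtain ⟨k, hk⟩ := exists_pow_mul_isIntegral hsA hb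
  have h1 := hq (s ^ k * b) (hk k le_rfl) (hbw.mul_left (V.pow_mem hsV k))
  apply isIntegral_loc_of_pow_mul hs0 (k := k)
  rwa [← mul_assoc]

/-- **Normality of the special fibre passes to localisations.** -/
theorem NormalOn.loc {V : Subring F} {w : F} {A : Subalgebra R F} (hn : NormalOn V w A) {s : F}
    (hsA : s ∈ A) (hs0 : s ≠ 0) (hsV : s ∈ V) (hsV' : s⁻¹ ∈ V) : NormalOn V w (locSub A s) := by
  classical
  rintro f hf ⟨n, c, hc, hcw⟩
  have hex : ∀ i : Fin n, ∃ k : ℕ, ∀ k', k ≤ k' → IsIntegral A (s ^ k' * c i) :=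
    fun i => exists_pow_mul_isIntegral hsA (hc i)
  choose kc hkc using hex
  set K : ℕ := Finset.univ.sup kc with hK
  have hKle : ∀ i, kc i ≤ K := fun i => Finset.le_sup (f := kc) (Finset.mem_univ i)
  -- the scaled element and the scaled equation
  have hg : s ^ K * f ∈ V := V.mul_mem (V.pow_mem hsV K) hf
  have key : (s ^ K * f) ^ n + ∑ i : Fin n, (s ^ (K * (n - (i : ℕ))) * c i) * (s ^ K * f) ^ (i : ℕ)
      = s ^ (K * n) * (f ^ n + ∑ i : Fin n, c i * f ^ (i : ℕ)) := by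
    rw [mul_add, Finset.mul_sum, mul_pow, ← pow_mul]
    congr 1
    refine Finset.sum_congr rfl fun i _ => ?_
    have hi : K * n = K * (n - (i : ℕ)) + K * (i : ℕ) := by
      rw [← Nat.mul_add, Nat.sub_add_cancel i.2.le]
    rw [mul_pow, ← pow_mul, hi, pow_add]
    ring
  obtain ⟨b, hb, hbw⟩ := hn (s ^ K * f) hg ⟨n, fun i => s ^ (K * (n - (i : ℕ))) * c i,
    fun i => hkc i _ (by
      calc kc i ≤ K := hKle i
        _ = K * 1 := (mul_one K).symm
        _ ≤ K * (n - (i : ℕ)) := Nat.mul_le_mul_left K (by have := i.2; omega)),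
    by rw [key]; exact hcw.mul_left (V.pow_mem hsV _)⟩
  refine ⟨s⁻¹ ^ K * b, ?_, ?_⟩
  · apply isIntegral_loc_of_pow_mul hs0 (k := K)
    rw [← mul_assoc, ← mul_pow, mul_inv_cancel₀ hs0, one_pow, one_mul]
    exact hb
  · have : f - s⁻¹ ^ K * b = s⁻¹ ^ K * (s ^ K * f - b) := by
      rw [mul_sub, ← mul_assoc, ← mul_pow, inv_mul_cancel₀ hs0, one_pow, one_mul]
    rw [this]
    exact hbw.mul_left (V.pow_mem hsV' K)

/-! ### Gluing along a covering by two principal opens -/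

/-- A partition of unity by high powers. -/
theorem exists_partition_pow {A : Subalgebra R F} {s₁ s₂ α β : F} (hs₁ : s₁ ∈ A) (hs₂ : s₂ ∈ A)
    (hα : α ∈ A) (hβ : β ∈ A) (h1 : α * s₁ + β * s₂ = 1) (k : ℕ) :
    ∃ a₁ ∈ A, ∃ a₂ ∈ A, a₁ * s₁ ^ k + a₂ * s₂ ^ k = 1 := by
  have hc : IsCoprime (⟨s₁, hs₁⟩ : A) ⟨s₂, hs₂⟩ :=
    ⟨⟨α, hα⟩, ⟨β, hβ⟩, Subtype.ext h1⟩
  obtain ⟨a, b, hab⟩ := hc.pow (m := k) (n := k)
  exact ⟨a, a.2, b, b.2, congrArg Subtype.val hab⟩

/-- **QEP glues.** -/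
theorem QepOn.glue {V : Subring F} {w : F} {A : Subalgebra R F} {s₁ s₂ α β : F}
    (hs₁ : s₁ ∈ A) (hs₂ : s₂ ∈ A) (hα : α ∈ A) (hβ : β ∈ A) (h1 : α * s₁ + β * s₂ = 1)
    (hq₁ : QepOn V w (locSub A s₁)) (hq₂ : QepOn V w (locSub A s₂)) : QepOn V w A := by
  intro b hb hbw
  obtain ⟨k₁, hk₁⟩ := exists_pow_mul_isIntegral hs₁
    (hq₁ b (isIntegral_of_le (le_locSub A s₁) hb) hbw)
  obtain ⟨k₂, hk₂⟩ := exists_pow_mul_isIntegral hs₂
    (hq₂ b (isIntegral_of_le (le_locSub A s₂) hb) hbw)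
  obtain ⟨a₁, ha₁, a₂, ha₂, ha⟩ := exists_partition_pow hs₁ hs₂ hα hβ h1 (max k₁ k₂)
  have e : b * w⁻¹ = a₁ * (s₁ ^ max k₁ k₂ * (b * w⁻¹)) + a₂ * (s₂ ^ max k₁ k₂ * (b * w⁻¹)) := by
    linear_combination (-(b * w⁻¹)) * ha
  rw [e]
  exact ((isIntegral_of_mem ha₁).mul (hk₁ _ (le_max_left _ _))).add
    ((isIntegral_of_mem ha₂).mul (hk₂ _ (le_max_right _ _)))

/-- **Normality of the special fibre glues.** -/
theorem NormalOn.glue {V : Subring F} {w : F} {A : Subalgebra R F} {s₁ s₂ α β : F}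
    (hAV : ∀ a ∈ A, a ∈ V)
    (hs₁ : s₁ ∈ A) (hs₂ : s₂ ∈ A) (hα : α ∈ A) (hβ : β ∈ A) (h1 : α * s₁ + β * s₂ = 1)
    (hn₁ : NormalOn V w (locSub A s₁)) (hn₂ : NormalOn V w (locSub A s₂)) : NormalOn V w A := by
  rintro f hf ⟨n, c, hc, hcw⟩
  obtain ⟨b₁, hb₁, hbw₁⟩ := hn₁ f hf ⟨n, c, fun i => isIntegral_of_le (le_locSub A s₁) (hc i), hcw⟩
  obtain ⟨b₂, hb₂, hbw₂⟩ := hn₂ f hf ⟨n, c, fun i => isIntegral_of_le (le_locSub A s₂) (hc i), hcw⟩
  obtain ⟨k₁, hk₁⟩ := exists_pow_mul_isIntegral hs₁ hb₁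
  obtain ⟨k₂, hk₂⟩ := exists_pow_mul_isIntegral hs₂ hb₂
  obtain ⟨a₁, ha₁, a₂, ha₂, ha⟩ := exists_partition_pow hs₁ hs₂ hα hβ h1 (max k₁ k₂)
  refine ⟨a₁ * (s₁ ^ max k₁ k₂ * b₁) + a₂ * (s₂ ^ max k₁ k₂ * b₂),
    ((isIntegral_of_mem ha₁).mul (hk₁ _ (le_max_left _ _))).add
      ((isIntegral_of_mem ha₂).mul (hk₂ _ (le_max_right _ _))), ?_⟩
  have : f - (a₁ * (s₁ ^ max k₁ k₂ * b₁) + a₂ * (s₂ ^ max k₁ k₂ * b₂))
      = (a₁ * s₁ ^ max k₁ k₂) * (f - b₁) + (a₂ * s₂ ^ max k₁ k₂) * (f - b₂) := by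
    linear_combination (-f) * ha
  rw [this]
  exact (hbw₁.mul_left (hAV _ (A.mul_mem ha₁ (A.pow_mem hs₁ _)))).add
    (hbw₂.mul_left (hAV _ (A.mul_mem ha₂ (A.pow_mem hs₂ _))))

end Fermat.Agent.A2.Mod.H189

end
-- ===== PACK-END A2/Mod/H189/ChartChange.lean

-- ===== PACK-BEGIN S36/H153/Incidence.lean
section


/-!
# S36 engine, cell INCIDENCE (helper153) — abstract, Mathlib only

Setting (board `coord/S36.md` §7, norm route of helper336):

* `A` = chart of the level-`qM'` model (normal domain), `B` = chart of the level-`q²M'` model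
  (a domain), `a b : A →+* B` the two degeneracy inclusions `α`, `β` (injective, integral);
* `P1 P2` the two vertical primes of `A` (components `C₁'`, `C₂'`),
  `pFF pmid pVV` the three vertical primes of `B`;
* comap pattern (MOD3):  via `a`: `pFF, pmid ↦ P1`, `pVV ↦ P2`;  via `b`: `pFF ↦ P1`,
  `pmid, pVV ↦ P2`;  `pVV` is the ONLY prime over `P2` via `a`, `pFF` the ONLY prime over `P1`
  via `b`;
* `B / pVV` is radicial over `A` via `a` and `B / pFF` is radicial over `A` via `b`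
  (`Radicial`: every element has a power congruent to an element of the image; e.g. residue
  degree `q` purely inseparable and `A / P` normal, or residue degree one).

Results (all for arbitrary PRIME ideals `n` of `B`, in particular closed points):

* `triple_of_two`     : a prime lying on two of the three components lies on all three;
* `triple_of_node_a/b`: a prime whose `a`-image (`b`-image) lies on both components of level `q`
                        is a triple point;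
* `unique_over_a/b`   : a prime over a node of level `q` (via `a`, resp. via `b`) is the unique
                        prime of `B` over that node;
* `node_of_triple`    : the images of a triple point are nodes (trivial direction);
* `single_iff`        : a prime containing one component is a triple point or lies on exactly one
                        component;
* adapters `Radicial.of_surj`, `Radicial.of_pow`, `uniqueOver_of_cover`.

Proofs: going-up for integral extensions and Mathlib's going-down for integral extensions of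
integrally closed domains.
-/

set_option autoImplicit false
set_option linter.style.haveILetI false
set_option linter.unusedSectionVars false

namespace Fermat.Agent.S36.H153

open Ideal

section Basic

variable {A B : Type*} [CommRing A] [CommRing B]

/-- `B / p` is *radicial* over `A` via `a`: every element of `B` has a positive power which is
congruent modulo `p` to an element of the image of `a`. -/
def Radicial (a : A →+* B) (p : Ideal B) : Prop :=
  ∀ x : B, ∃ k : ℕ, 0 < k ∧ ∃ y : A, x ^ k - a y ∈ p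

/-- Residue degree one: `A → B / p` surjective. -/
theorem Radicial.of_surj {a : A →+* B} {p : Ideal B}
    (h : ∀ x : B, ∃ y : A, x - a y ∈ p) : Radicial a p := fun x => by
  obtain ⟨y, hy⟩ := h x
  exact ⟨1, Nat.one_pos, y, by simpa using hy⟩

/-- Purely inseparable residue extension of exponent `q`. -/
theorem Radicial.of_pow {a : A →+* B} {p : Ideal B} (q : ℕ) (hq : 0 < q)
    (h : ∀ x : B, ∃ y : A, x ^ q - a y ∈ p) : Radicial a p := fun x => by
  obtain ⟨y, hy⟩ := h x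
  exact ⟨q, hq, y, hy⟩

/-- On a radicial component, a prime is determined by its contraction (order form). -/
theorem Radicial.le_of_comap_le {a : A →+* B} {p : Ideal B} (hr : Radicial a p)
    {n n' : Ideal B} [n'.IsPrime] (hn : p ≤ n) (hn' : p ≤ n')
    (h : n.comap a ≤ n'.comap a) : n ≤ n' := by
  intro x hx
  obtain ⟨k, _, y, hy⟩ := hr x
  have h1 : a y ∈ n := by
    have h2 : x ^ k - (x ^ k - a y) ∈ n := n.sub_mem (n.pow_mem_of_mem hx k ‹0 < k›) (hn hy)
    simpa using h2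
  have h3 : a y ∈ n' := h (Ideal.mem_comap.mpr h1)
  have h4 : x ^ k ∈ n' := by
    have h5 : (x ^ k - a y) + a y ∈ n' := n'.add_mem (hn' hy) h3
    simpa using h5
  exact Ideal.IsPrime.mem_of_pow_mem ‹n'.IsPrime› k h4

/-- On a radicial component, a prime is determined by its contraction. -/
theorem Radicial.eq_of_comap_eq {a : A →+* B} {p : Ideal B} (hr : Radicial a p)
    {n n' : Ideal B} [n.IsPrime] [n'.IsPrime] (hn : p ≤ n) (hn' : p ≤ n')
    (h : n.comap a = n'.comap a) : n = n' :=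
  le_antisymm (hr.le_of_comap_le hn hn' h.le) (hr.le_of_comap_le hn' hn h.ge)

end Basic

section GoingDown

variable {A B : Type*} [CommRing A] [CommRing B] [IsDomain A] [IsDomain B]
  [IsIntegrallyClosed A]

/-- Going-down for an injective integral ring homomorphism out of a normal domain. -/
theorem exists_prime_le_comap_eq (a : A →+* B) (ha_inj : Function.Injective a)
    (ha_int : a.IsIntegral) (P : Ideal A) [P.IsPrime] (n : Ideal B) [n.IsPrime]
    (h : P ≤ n.comap a) : ∃ p : Ideal B, p.IsPrime ∧ p ≤ n ∧ p.comap a = P := by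
  letI : Algebra A B := a.toAlgebra
  haveI : Algebra.IsIntegral A B := ⟨ha_int⟩
  haveI : FaithfulSMul A B := (faithfulSMul_iff_algebraMap_injective A B).mpr ha_inj
  haveI : n.LiesOver (n.comap a) := ⟨rfl⟩
  haveI : (n.comap a).IsPrime := Ideal.comap_isPrime a n
  obtain ⟨p, hpn, hp, hpP⟩ := Ideal.exists_ideal_le_liesOver_of_le (p := P) (q := n.comap a) n h
  exact ⟨p, hp, hpn, (hpP.over).symm⟩

/-- Going-up (lying over) for an integral ring homomorphism. -/
theorem exists_prime_ge_comap_eq (a : A →+* B) (ha_int : a.IsIntegral)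
    (p : Ideal B) (N : Ideal A) [N.IsPrime] (h : p.comap a ≤ N) :
    ∃ n : Ideal B, n.IsPrime ∧ p ≤ n ∧ n.comap a = N := by
  letI : Algebra A B := a.toAlgebra
  haveI : Algebra.IsIntegral A B := ⟨ha_int⟩
  obtain ⟨Q, hQ, hQp, hQc⟩ := Ideal.exists_ideal_over_prime_of_isIntegral N p h
  exact ⟨Q, hQp, hQ, hQc⟩

end GoingDown

/-- The MOD3 incidence datum: comap pattern of the three vertical primes of level `q²` over the
two vertical primes of level `q`, via the two degeneracy maps. -/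
structure IncData {A B : Type*} [CommRing A] [CommRing B] (a b : A →+* B)
    (P1 P2 : Ideal A) (pFF pmid pVV : Ideal B) : Prop where
  a_inj : Function.Injective a
  b_inj : Function.Injective b
  a_int : a.IsIntegral
  b_int : b.IsIntegral
  primeP1 : P1.IsPrime
  primeP2 : P2.IsPrime
  primeFF : pFF.IsPrime
  primeMid : pmid.IsPrime
  primeVV : pVV.IsPrime
  /-- via `α`: `FF`, `mid` lie over `C₁'`, `VV` lies over `C₂'` -/
  a_FF : pFF.comap a = P1
  a_mid : pmid.comap a = P1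
  a_VV : pVV.comap a = P2
  /-- via `β`: `FF` lies over `C₁'`, `mid`, `VV` lie over `C₂'` -/
  b_FF : pFF.comap b = P1
  b_mid : pmid.comap b = P2
  b_VV : pVV.comap b = P2
  /-- `VV` is the only prime over `C₂'` via `α` -/
  a_only : ∀ p : Ideal B, p.IsPrime → p.comap a = P2 → p = pVV
  /-- `FF` is the only prime over `C₁'` via `β` -/
  b_only : ∀ p : Ideal B, p.IsPrime → p.comap b = P1 → p = pFF
  /-- `VV → C₂'` is radicial via `α` (purely inseparable of degree `q`) -/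
  a_rad : Radicial a pVV
  /-- `FF → C₁'` is radicial via `β` (purely inseparable of degree `q`) -/
  b_rad : Radicial b pFF

namespace IncData

variable {A B : Type*} [CommRing A] [CommRing B] [IsDomain A] [IsDomain B]
  [IsIntegrallyClosed A] {a b : A →+* B} {P1 P2 : Ideal A} {pFF pmid pVV : Ideal B}

/-- A prime of `B` whose `α`-image lies on `C₂'` lies on `VV`. -/
theorem vv_le_of_a (D : IncData a b P1 P2 pFF pmid pVV) (n : Ideal B) [n.IsPrime]
    (h : P2 ≤ n.comap a) : pVV ≤ n := by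
  haveI := D.primeP2
  obtain ⟨p, hp, hpn, hpc⟩ := exists_prime_le_comap_eq a D.a_inj D.a_int P2 n h
  rw [← D.a_only p hp hpc]; exact hpn

/-- A prime of `B` whose `β`-image lies on `C₁'` lies on `FF`. -/
theorem ff_le_of_b (D : IncData a b P1 P2 pFF pmid pVV) (n : Ideal B) [n.IsPrime]
    (h : P1 ≤ n.comap b) : pFF ≤ n := by
  haveI := D.primeP1
  obtain ⟨p, hp, hpn, hpc⟩ := exists_prime_le_comap_eq b D.b_inj D.b_int P1 n h
  rw [← D.b_only p hp hpc]; exact hpn

/-- **Uniqueness over `α`.** Two primes of `B` with the same `α`-image, one of them lying on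
`VV`, are equal. -/
theorem unique_over_a (D : IncData a b P1 P2 pFF pmid pVV) (n n' : Ideal B) [n.IsPrime]
    [n'.IsPrime] (hn : pVV ≤ n) (h : n'.comap a = n.comap a) : n' = n := by
  have h2 : P2 ≤ n'.comap a := by
    rw [h, ← D.a_VV]; exact Ideal.comap_mono hn
  exact D.a_rad.eq_of_comap_eq (D.vv_le_of_a n' h2) hn h

/-- **Uniqueness over `β`.** Two primes of `B` with the same `β`-image, one of them lying on
`FF`, are equal. -/
theorem unique_over_b (D : IncData a b P1 P2 pFF pmid pVV) (n n' : Ideal B) [n.IsPrime]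
    [n'.IsPrime] (hn : pFF ≤ n) (h : n'.comap b = n.comap b) : n' = n := by
  have h2 : P1 ≤ n'.comap b := by
    rw [h, ← D.b_FF]; exact Ideal.comap_mono hn
  exact D.b_rad.eq_of_comap_eq (D.ff_le_of_b n' h2) hn h

/-- A prime on `VV` whose `α`-image lies on `C₁'` (i.e. over a node via `α`) lies on `FF` and on
`mid`. -/
theorem ff_mid_le_of_vv_a (D : IncData a b P1 P2 pFF pmid pVV) (n : Ideal B) [n.IsPrime]
    (hVV : pVV ≤ n) (h1 : P1 ≤ n.comap a) : pFF ≤ n ∧ pmid ≤ n := by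
  haveI : (n.comap a).IsPrime := Ideal.comap_isPrime a n
  constructor
  · obtain ⟨n', hn', hle, hc⟩ :=
      exists_prime_ge_comap_eq a D.a_int pFF (n.comap a) (by rw [D.a_FF]; exact h1)
    haveI := hn'
    rw [← D.unique_over_a n n' hVV hc]; exact hle
  · obtain ⟨n', hn', hle, hc⟩ :=
      exists_prime_ge_comap_eq a D.a_int pmid (n.comap a) (by rw [D.a_mid]; exact h1)
    haveI := hn'
    rw [← D.unique_over_a n n' hVV hc]; exact hle

/-- A prime on `FF` whose `β`-image lies on `C₂'` (i.e. over a node via `β`) lies on `mid` and on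
`VV`. -/
theorem mid_vv_le_of_ff_b (D : IncData a b P1 P2 pFF pmid pVV) (n : Ideal B) [n.IsPrime]
    (hFF : pFF ≤ n) (h2 : P2 ≤ n.comap b) : pmid ≤ n ∧ pVV ≤ n := by
  haveI : (n.comap b).IsPrime := Ideal.comap_isPrime b n
  constructor
  · obtain ⟨n', hn', hle, hc⟩ :=
      exists_prime_ge_comap_eq b D.b_int pmid (n.comap b) (by rw [D.b_mid]; exact h2)
    haveI := hn'
    rw [← D.unique_over_b n n' hFF hc]; exact hle
  · obtain ⟨n', hn', hle, hc⟩ :=
      exists_prime_ge_comap_eq b D.b_int pVV (n.comap b) (by rw [D.b_VV]; exact h2)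
    haveI := hn'
    rw [← D.unique_over_b n n' hFF hc]; exact hle

/-- **Triple points via `α`**: a prime of `B` whose `α`-image lies on both components of level
`q` lies on all three components of level `q²`. -/
theorem triple_of_node_a (D : IncData a b P1 P2 pFF pmid pVV) (n : Ideal B) [n.IsPrime]
    (h1 : P1 ≤ n.comap a) (h2 : P2 ≤ n.comap a) : pFF ≤ n ∧ pmid ≤ n ∧ pVV ≤ n := by
  have hVV := D.vv_le_of_a n h2
  obtain ⟨hFF, hmid⟩ := D.ff_mid_le_of_vv_a n hVV h1
  exact ⟨hFF, hmid, hVV⟩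

/-- **Triple points via `β`**: a prime of `B` whose `β`-image lies on both components of level
`q` lies on all three components of level `q²`. -/
theorem triple_of_node_b (D : IncData a b P1 P2 pFF pmid pVV) (n : Ideal B) [n.IsPrime]
    (h1 : P1 ≤ n.comap b) (h2 : P2 ≤ n.comap b) : pFF ≤ n ∧ pmid ≤ n ∧ pVV ≤ n := by
  have hFF := D.ff_le_of_b n h1
  obtain ⟨hmid, hVV⟩ := D.mid_vv_le_of_ff_b n hFF h2
  exact ⟨hFF, hmid, hVV⟩

/-- The images of a triple point are nodes (both via `α` and via `β`). -/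
theorem node_of_triple (D : IncData a b P1 P2 pFF pmid pVV) (n : Ideal B)
    (hFF : pFF ≤ n) (hVV : pVV ≤ n) :
    (P1 ≤ n.comap a ∧ P2 ≤ n.comap a) ∧ (P1 ≤ n.comap b ∧ P2 ≤ n.comap b) :=
  ⟨⟨D.a_FF ▸ Ideal.comap_mono hFF, D.a_VV ▸ Ideal.comap_mono hVV⟩,
    ⟨D.b_FF ▸ Ideal.comap_mono hFF, D.b_VV ▸ Ideal.comap_mono hVV⟩⟩

/-- **INCIDENCE.** A prime of `B` lying on two of the three components lies on all three. -/
theorem triple_of_two (D : IncData a b P1 P2 pFF pmid pVV) (n : Ideal B) [n.IsPrime]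
    (h : (pFF ≤ n ∧ pmid ≤ n) ∨ (pFF ≤ n ∧ pVV ≤ n) ∨ (pmid ≤ n ∧ pVV ≤ n)) :
    pFF ≤ n ∧ pmid ≤ n ∧ pVV ≤ n := by
  rcases h with ⟨hFF, hmid⟩ | ⟨hFF, hVV⟩ | ⟨hmid, hVV⟩
  · -- via `β`: `FF ↦ C₁'`, `mid ↦ C₂'`
    exact D.triple_of_node_b n (D.b_FF ▸ Ideal.comap_mono hFF) (D.b_mid ▸ Ideal.comap_mono hmid)
  · exact D.triple_of_node_a n (D.a_FF ▸ Ideal.comap_mono hFF) (D.a_VV ▸ Ideal.comap_mono hVV)
  · -- via `α`: `mid ↦ C₁'`, `VV ↦ C₂'`
    exact D.triple_of_node_a n (D.a_mid ▸ Ideal.comap_mono hmid) (D.a_VV ▸ Ideal.comap_mono hVV)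

/-- A triple point is the only prime of `B` over its `α`-image, and the only one over its
`β`-image. -/
theorem unique_of_triple (D : IncData a b P1 P2 pFF pmid pVV) (n : Ideal B) [n.IsPrime]
    (hFF : pFF ≤ n) (hVV : pVV ≤ n) (n' : Ideal B) [n'.IsPrime] :
    (n'.comap a = n.comap a → n' = n) ∧ (n'.comap b = n.comap b → n' = n) :=
  ⟨D.unique_over_a n n' hVV, D.unique_over_b n n' hFF⟩

/-- **Trichotomy-free form used by the label argument**: a prime on some component is either a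
triple point, or lies on exactly one component. -/
theorem triple_or_single (D : IncData a b P1 P2 pFF pmid pVV) (n : Ideal B) [n.IsPrime] :
    (pFF ≤ n ∧ pmid ≤ n ∧ pVV ≤ n) ∨
      (pFF ≤ n ∧ ¬ pmid ≤ n ∧ ¬ pVV ≤ n) ∨
      (¬ pFF ≤ n ∧ pmid ≤ n ∧ ¬ pVV ≤ n) ∨
      (¬ pFF ≤ n ∧ ¬ pmid ≤ n ∧ pVV ≤ n) ∨
      (¬ pFF ≤ n ∧ ¬ pmid ≤ n ∧ ¬ pVV ≤ n) := by
  by_cases hFF : pFF ≤ n <;> by_cases hmid : pmid ≤ n <;> by_cases hVV : pVV ≤ n
  · exact Or.inl ⟨hFF, hmid, hVV⟩
  · exact absurd (D.triple_of_two n (Or.inl ⟨hFF, hmid⟩)).2.2 hVV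
  · exact absurd (D.triple_of_two n (Or.inr (Or.inl ⟨hFF, hVV⟩))).2.1 hmid
  · exact Or.inr (Or.inl ⟨hFF, hmid, hVV⟩)
  · exact absurd (D.triple_of_two n (Or.inr (Or.inr ⟨hmid, hVV⟩))).1 hFF
  · exact Or.inr (Or.inr (Or.inl ⟨hFF, hmid, hVV⟩))
  · exact Or.inr (Or.inr (Or.inr (Or.inl ⟨hFF, hmid, hVV⟩)))
  · exact Or.inr (Or.inr (Or.inr (Or.inr ⟨hFF, hmid, hVV⟩)))

/-- A prime on `FF` only: its `β`-image is not on `C₂'` and its `α`-image is not on `C₂'`
(so at both images the level-`q` model is "smooth": only `C₁'` passes). -/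
theorem images_of_ff_only (D : IncData a b P1 P2 pFF pmid pVV) (n : Ideal B) [n.IsPrime]
    (hFF : pFF ≤ n) (hVV : ¬ pVV ≤ n) : ¬ P2 ≤ n.comap a ∧ ¬ P2 ≤ n.comap b :=
  ⟨fun h => hVV (D.vv_le_of_a n h), fun h => hVV (D.mid_vv_le_of_ff_b n hFF h).2⟩

/-- A prime on `VV` only: neither image is on `C₁'`. -/
theorem images_of_vv_only (D : IncData a b P1 P2 pFF pmid pVV) (n : Ideal B) [n.IsPrime]
    (hVV : pVV ≤ n) (hFF : ¬ pFF ≤ n) : ¬ P1 ≤ n.comap a ∧ ¬ P1 ≤ n.comap b :=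
  ⟨fun h => hFF (D.ff_mid_le_of_vv_a n hVV h).1, fun h => hFF (D.ff_le_of_b n h)⟩

/-- A prime on `mid` only: its `α`-image is on `C₁'` only and its `β`-image is on `C₂'` only. -/
theorem images_of_mid_only (D : IncData a b P1 P2 pFF pmid pVV) (n : Ideal B) [n.IsPrime]
    (hmid : pmid ≤ n) (hFF : ¬ pFF ≤ n) (hVV : ¬ pVV ≤ n) :
    (P1 ≤ n.comap a ∧ ¬ P2 ≤ n.comap a) ∧ (¬ P1 ≤ n.comap b ∧ P2 ≤ n.comap b) :=
  ⟨⟨D.a_mid ▸ Ideal.comap_mono hmid, fun h => hVV (D.vv_le_of_a n h)⟩,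
    ⟨fun h => hFF (D.ff_le_of_b n h), D.b_mid ▸ Ideal.comap_mono hmid⟩⟩

/-- Over every node of level `q` (via `α`) there is exactly one prime of `B`, and it is a triple
point. -/
theorem exists_unique_triple_over_node_a (D : IncData a b P1 P2 pFF pmid pVV) (N : Ideal A)
    [N.IsPrime] (h1 : P1 ≤ N) (h2 : P2 ≤ N) :
    ∃ n : Ideal B, n.IsPrime ∧ n.comap a = N ∧ (pFF ≤ n ∧ pmid ≤ n ∧ pVV ≤ n) ∧
      ∀ n' : Ideal B, n'.IsPrime → n'.comap a = N → n' = n := by
  obtain ⟨n, hn, hle, hc⟩ := exists_prime_ge_comap_eq a D.a_int pVV N (by rw [D.a_VV]; exact h2)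
  haveI := hn
  refine ⟨n, hn, hc, D.triple_of_node_a n (hc ▸ h1) (hc ▸ h2), fun n' hn' hc' => ?_⟩
  haveI := hn'
  exact D.unique_over_a n n' hle (hc'.trans hc.symm)

/-- Over every node of level `q` (via `β`) there is exactly one prime of `B`, and it is a triple
point. -/
theorem exists_unique_triple_over_node_b (D : IncData a b P1 P2 pFF pmid pVV) (N : Ideal A)
    [N.IsPrime] (h1 : P1 ≤ N) (h2 : P2 ≤ N) :
    ∃ n : Ideal B, n.IsPrime ∧ n.comap b = N ∧ (pFF ≤ n ∧ pmid ≤ n ∧ pVV ≤ n) ∧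
      ∀ n' : Ideal B, n'.IsPrime → n'.comap b = N → n' = n := by
  obtain ⟨n, hn, hle, hc⟩ := exists_prime_ge_comap_eq b D.b_int pFF N (by rw [D.b_FF]; exact h1)
  haveI := hn
  refine ⟨n, hn, hc, D.triple_of_node_b n (hc ▸ h1) (hc ▸ h2), fun n' hn' hc' => ?_⟩
  haveI := hn'
  exact D.unique_over_b n n' hle (hc'.trans hc.symm)

end IncData

section LocalDenominators

variable {A B : Type*} [CommRing A] [CommRing B]

/-- **Local denominators.**  If `n` is the ONLY prime of `B` over `N = n ∩ A` (`B` integral over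
`A`), then `B_N = B_n`: every `s ∉ n` divides the image of some `t ∈ A ∖ N`.
(Used for norms at triple points: a unit of `B_n` is a unit of the semilocal ring `B ⊗ A_N`, so
its norm is a unit of `A_N`.) -/
theorem exists_mul_eq_of_unique (a : A →+* B) (ha_int : a.IsIntegral) (n : Ideal B) [n.IsPrime]
    (huniq : ∀ n' : Ideal B, n'.IsPrime → n'.comap a = n.comap a → n' = n)
    (s : B) (hs : s ∉ n) : ∃ (s' : B) (t : A), t ∉ n.comap a ∧ s * s' = a t := by
  classical
  by_contra hcon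
  push Not at hcon
  haveI hN : (n.comap a).IsPrime := Ideal.comap_isPrime a n
  -- the multiplicative set `a (A ∖ N)`
  let S : Submonoid B := (n.comap a).primeCompl.map (a : A →* B)
  have hdisj : Disjoint ((Ideal.span {s} : Ideal B) : Set B) (S : Set B) := by
    rw [Set.disjoint_left]
    rintro x hx ⟨t, ht, rfl⟩
    obtain ⟨s', hs'⟩ := Ideal.mem_span_singleton'.mp hx
    exact hcon s' t ht (by rw [mul_comm]; exact hs')
  obtain ⟨p, hp, hsp, hpS⟩ := Ideal.exists_le_prime_disjoint (Ideal.span {s}) S hdisj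
  have hpc : p.comap a ≤ n.comap a := by
    intro t ht
    by_contra htn
    exact Set.disjoint_left.mp hpS (show a t ∈ p from ht) ⟨t, htn, rfl⟩
  letI : Algebra A B := a.toAlgebra
  haveI : Algebra.IsIntegral A B := ⟨ha_int⟩
  obtain ⟨Q, hQ, hQp, hQc⟩ := Ideal.exists_ideal_over_prime_of_isIntegral (n.comap a) p hpc
  have hQn : Q = n := huniq Q hQp hQc
  exact hs (hQn ▸ hQ (hsp (Ideal.subset_span rfl)))

/-- Elementwise consequence: a fraction `x / s`, `s ∉ n`, can be rewritten with a denominator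
from `A ∖ N`. -/
theorem exists_denominator_of_unique (a : A →+* B) (ha_int : a.IsIntegral) (n : Ideal B)
    [n.IsPrime] (huniq : ∀ n' : Ideal B, n'.IsPrime → n'.comap a = n.comap a → n' = n)
    (x s : B) (hs : s ∉ n) : ∃ (x' : B) (t : A), t ∉ n.comap a ∧ x * a t = x' * s := by
  obtain ⟨s', t, ht, hst⟩ := exists_mul_eq_of_unique a ha_int n huniq s hs
  exact ⟨x * s', t, ht, by rw [← hst]; ring⟩

end LocalDenominators

end Fermat.Agent.S36.H153

end
-- ===== PACK-END S36/H153/Incidence.lean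

-- ===== PACK-BEGIN S36/H878/Transfer4.lean
section




/-!
# Transfer of the residue of `x ^ N / U` from `j` to the Hauptmodul `t₄` (helper878, S36 REG / R4)

Mathlib only.  `V` a valuation subring of a field `L` (application: `V = V_mid`), and

* `j₁ = α(j)`, `j₂ = γ(j)`, `h₁ = α(t₄)`, `h₂ = γ(t₄)` (`γ : f(t) ↦ f(t^{q²})`), so that
  `j_i · h_i⁴ (h_i + 16) = (h_i² + 256 h_i + 4096)³` (`Haupt4.jq_mul_t4`);
* `h₁`, `h₁ + 16`, `j₁`, `j₁ - 1728` units of `V`, `h₂ ∈ V`, `h₂ - h₁ ∈ 𝔪_V`;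
* `hres` for `j`: `((j₂ - j₁) ^ (6k) - (j₁⁴ (j₁ - 1728)³) ^ k · U) / U ∈ 𝔪_V`
  (output of `S36.H922.h922_hres_abs`, `6 k = N = 12 (q - 1)`).

Then `hres` holds for `t₄`: `((h₂ - h₁) ^ (6k) - (h₁² (h₁ + 16)⁵) ^ k · U) / U ∈ 𝔪_V`.

Since `h₁² (h₁ + 16)⁵` is a unit of the whole non-cuspidal chart (odd residue characteristic),
`S36.H878.principal_of_unit_self` then applies at EVERY non-cuspidal closed point of the
component: elliptic points (`j(n) ∈ {0, 1728}`) included, no local-coordinate input.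
-/

set_option autoImplicit false

namespace Fermat.Agent.S36.H878

open IsLocalRing

variable {L : Type*} [Field L]

/-- The difference quotient of `J = (X² + 256 X + 4096)³ / (X⁴ (X + 16))`, cleared of
denominators: `P(b)³ D(a) - P(a)³ D(b) = (b - a) · dq4 a b`. -/
def dq4 {S : Type*} [CommRing S] (a b : S) : S :=
  (b + a + 256) * ((b ^ 2 + 256 * b + 4096) ^ 2
      + (b ^ 2 + 256 * b + 4096) * (a ^ 2 + 256 * a + 4096) + (a ^ 2 + 256 * a + 4096) ^ 2)
    * (a ^ 4 * (a + 16))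
  - (a ^ 2 + 256 * a + 4096) ^ 3
    * ((b ^ 3 + b ^ 2 * a + b * a ^ 2 + a ^ 3) * (b + 16) + a ^ 4)

theorem dq4_spec {S : Type*} [CommRing S] (a b : S) :
    (b ^ 2 + 256 * b + 4096) ^ 3 * (a ^ 4 * (a + 16))
      - (a ^ 2 + 256 * a + 4096) ^ 3 * (b ^ 4 * (b + 16)) = (b - a) * dq4 a b := by
  rw [dq4]; ring

theorem dq4_diag {S : Type*} [CommRing S] (a : S) :
    dq4 a a = (a ^ 2 + 256 * a + 4096) ^ 2 * a ^ 3 * ((a + 32) * (a ^ 2 - 512 * a - 8192)) := by
  rw [dq4]; ring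

theorem map_dq4 {S T : Type*} [CommRing S] [CommRing T] (f : S →+* T) (a b : S) :
    f (dq4 a b) = dq4 (f a) (f b) := by
  simp only [dq4, map_sub, map_mul, map_add, map_pow, map_ofNat]

/-- The residue-field identity behind the transfer. -/
theorem res_alg4 {κ : Type*} [Field κ] (a c : κ)
    (hJ : c * (a ^ 4 * (a + 16)) = (a ^ 2 + 256 * a + 4096) ^ 3) :
    (a ^ 2 * (a + 16) ^ 5)
        * ((a ^ 2 + 256 * a + 4096) ^ 2 * a ^ 3 * ((a + 32) * (a ^ 2 - 512 * a - 8192))) ^ 6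
      = (c ^ 4 * (c - 1728) ^ 3) * ((a ^ 4 * (a + 16)) * (a ^ 4 * (a + 16))) ^ 6 := by
  have hJ' : (c - 1728) * (a ^ 4 * (a + 16))
      = (a + 32) ^ 2 * (a ^ 2 - 512 * a - 8192) ^ 2 := by
    linear_combination hJ
  have h4 := congrArg (fun x => x ^ 4) hJ
  have h3 := congrArg (fun x => x ^ 3) hJ'
  beta_reduce at h4 h3
  generalize a ^ 2 + 256 * a + 4096 = P at *
  generalize a ^ 2 - 512 * a - 8192 = Q at *
  linear_combination (-(((c - 1728) * (a ^ 4 * (a + 16))) ^ 3 * (a ^ 4 * (a + 16)) ^ 5)) * h4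
    - ((P ^ 3) ^ 4 * (a ^ 4 * (a + 16)) ^ 5) * h3

/-- **Transfer of `hres` from `j` to `t₄`.** -/
theorem hres_transfer4 (V : ValuationSubring L) (j₁ j₂ h₁ h₂ U : L) (k : ℕ)
    (hJ₁ : j₁ * (h₁ ^ 4 * (h₁ + 16)) = (h₁ ^ 2 + 256 * h₁ + 4096) ^ 3)
    (hJ₂ : j₂ * (h₂ ^ 4 * (h₂ + 16)) = (h₂ ^ 2 + 256 * h₂ + 4096) ^ 3)
    (hh₁ : V.valuation h₁ = 1) (hh₁' : V.valuation (h₁ + 16) = 1)
    (hj₁ : V.valuation j₁ = 1) (hj₁' : V.valuation (j₁ - 1728) = 1)
    (hh₂ : h₂ ∈ V) (hx : h₂ - h₁ ∈ V.nonunits)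
    (hres : ((j₂ - j₁) ^ (6 * k) - (j₁ ^ 4 * (j₁ - 1728) ^ 3) ^ k * U) * U⁻¹ ∈ V.nonunits) :
    ((h₂ - h₁) ^ (6 * k) - (h₁ ^ 2 * (h₁ + 16) ^ 5) ^ k * U) * U⁻¹ ∈ V.nonunits := by
  classical
  by_cases hU : U = 0
  · -- degenerate: `U⁻¹ = 0`
    rw [hU, inv_zero, mul_zero]
    rw [ValuationSubring.mem_nonunits_iff, map_zero]
    exact zero_lt_one
  -- elements of `V`
  have h₁V : h₁ ∈ V := (V.valuation_le_one_iff _).1 hh₁.le
  have j₁V : j₁ ∈ V := (V.valuation_le_one_iff _).1 hj₁.le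
  -- `Yj = (j₂ - j₁)^(6k) / U ∈ V`
  have hYj : (j₂ - j₁) ^ (6 * k) * U⁻¹ - (j₁ ^ 4 * (j₁ - 1728) ^ 3) ^ k ∈ V.nonunits := by
    have e : (j₂ - j₁) ^ (6 * k) * U⁻¹ - (j₁ ^ 4 * (j₁ - 1728) ^ 3) ^ k
        = ((j₂ - j₁) ^ (6 * k) - (j₁ ^ 4 * (j₁ - 1728) ^ 3) ^ k * U) * U⁻¹ := by
      field_simp
    rw [e]; exact hres
  have hgjV : (j₁ ^ 4 * (j₁ - 1728) ^ 3) ^ k ∈ V :=
    pow_mem (mul_mem (pow_mem j₁V _) (pow_mem (sub_mem j₁V (ofNat_mem V 1728)) _)) _
  have hYjV : (j₂ - j₁) ^ (6 * k) * U⁻¹ ∈ V := by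
    have h1 : (j₂ - j₁) ^ (6 * k) * U⁻¹ - (j₁ ^ 4 * (j₁ - 1728) ^ 3) ^ k ∈ V :=
      (V.valuation_le_one_iff _).1 ((V.mem_nonunits_iff).1 hYj).le
    have := add_mem h1 hgjV
    simpa using this
  generalize hYjL : (j₂ - j₁) ^ (6 * k) * U⁻¹ = YjL at hYj hYjV
  lift h₁ to V using h₁V with a₁
  lift h₂ to V using hh₂ with a₂
  lift j₁ to V using j₁V with c₁
  lift YjL to V using hYjV with Yj
  -- the residue map
  let r : V →+* ResidueField V := residue V
  have hr0 : ∀ a : V, r a = 0 ↔ (a : L) ∈ V.nonunits := fun a => by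
    rw [ValuationSubring.coe_mem_nonunits_iff]
    exact residue_eq_zero_iff a
  have hrne : ∀ a : V, V.valuation (a : L) = 1 → r a ≠ 0 := fun a ha h0 => by
    have := (V.mem_nonunits_iff).1 ((hr0 a).1 h0)
    rw [ha] at this
    exact lt_irrefl _ this
  have hrYj : r Yj = (r c₁ ^ 4 * (r c₁ - 1728) ^ 3) ^ k := by
    have h0 : r (Yj - (c₁ ^ 4 * (c₁ - 1728) ^ 3) ^ k) = 0 := (hr0 _).2 hYj
    have h1 : r (Yj - (c₁ ^ 4 * (c₁ - 1728) ^ 3) ^ k)
        = r Yj - (r c₁ ^ 4 * (r c₁ - 1728) ^ 3) ^ k := by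
      simp only [map_sub, map_mul, map_pow, map_ofNat]
    rw [h1, sub_eq_zero] at h0
    exact h0
  -- `r a₂ = r a₁`
  have hra : r a₂ = r a₁ := by
    have h0 : r (a₂ - a₁) = 0 := (hr0 _).2 hx
    rwa [map_sub, sub_eq_zero] at h0
  -- units
  have hra₁ : r a₁ ≠ 0 := hrne a₁ hh₁
  have hra₁' : r a₁ + 16 ≠ 0 := by
    have := hrne (a₁ + 16) hh₁'
    rwa [map_add, map_ofNat] at this
  have hrc₁ : r c₁ ≠ 0 := hrne c₁ hj₁
  have hrc₁' : r c₁ - 1728 ≠ 0 := by
    have := hrne (c₁ - 1728) hj₁'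
    rwa [map_sub, map_ofNat] at this
  -- the relations in the residue field
  have hJr : r c₁ * (r a₁ ^ 4 * (r a₁ + 16)) = (r a₁ ^ 2 + 256 * r a₁ + 4096) ^ 3 := by
    have h : c₁ * (a₁ ^ 4 * (a₁ + 16)) = (a₁ ^ 2 + 256 * a₁ + 4096) ^ 3 := Subtype.ext hJ₁
    have := congrArg r h
    simpa only [map_mul, map_pow, map_add, map_ofNat] using this
  have hJr' : (r c₁ - 1728) * (r a₁ ^ 4 * (r a₁ + 16))
      = (r a₁ + 32) ^ 2 * (r a₁ ^ 2 - 512 * r a₁ - 8192) ^ 2 := by
    linear_combination hJr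
  -- the difference quotient
  have hrB : r (dq4 a₁ a₂) = (r a₁ ^ 2 + 256 * r a₁ + 4096) ^ 2 * r a₁ ^ 3
      * ((r a₁ + 32) * (r a₁ ^ 2 - 512 * r a₁ - 8192)) := by
    rw [map_dq4, hra, dq4_diag]
  have hP : r a₁ ^ 2 + 256 * r a₁ + 4096 ≠ 0 := by
    intro h
    rw [h] at hJr
    have : r c₁ * (r a₁ ^ 4 * (r a₁ + 16)) ≠ 0 :=
      mul_ne_zero hrc₁ (mul_ne_zero (pow_ne_zero _ hra₁) hra₁')
    exact this (by rw [hJr]; ring)
  have hQ : (r a₁ + 32) * (r a₁ ^ 2 - 512 * r a₁ - 8192) ≠ 0 := by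
    intro h
    have h2 : (r c₁ - 1728) * (r a₁ ^ 4 * (r a₁ + 16)) = 0 := by
      rw [hJr', ← mul_pow, h]; ring
    exact (mul_ne_zero hrc₁' (mul_ne_zero (pow_ne_zero _ hra₁) hra₁')) h2
  have hrB0 : r (dq4 a₁ a₂) ≠ 0 := by
    rw [hrB]
    exact mul_ne_zero (mul_ne_zero (pow_ne_zero _ hP) (pow_ne_zero _ hra₁)) hQ
  have hBunit : IsUnit (dq4 a₁ a₂) := by
    by_contra hnu
    exact hrB0 ((residue_eq_zero_iff _).2 ((mem_maximalIdeal _).2 hnu))
  obtain ⟨Bu, hBu⟩ := hBunit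
  -- the key identity in `L`
  have hBL : ((dq4 a₁ a₂ : V) : L) = dq4 (a₁ : L) (a₂ : L) := rfl
  have hkeyL : (j₂ - (c₁ : L))
        * (((a₁ : L) ^ 4 * ((a₁ : L) + 16)) * ((a₂ : L) ^ 4 * ((a₂ : L) + 16)))
      = ((a₂ : L) - a₁) * dq4 (a₁ : L) (a₂ : L) := by
    rw [← dq4_spec]
    linear_combination ((a₁ : L) ^ 4 * ((a₁ : L) + 16)) * hJ₂
      - ((a₂ : L) ^ 4 * ((a₂ : L) + 16)) * hJ₁
  -- `Y = x^(6k)/U = Yj · A^(6k) / B^(6k) ∈ V`
  obtain ⟨A, hA⟩ : ∃ A : V, A = (a₁ ^ 4 * (a₁ + 16)) * (a₂ ^ 4 * (a₂ + 16)) := ⟨_, rfl⟩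
  have hAL : (A : L) = ((a₁ : L) ^ 4 * ((a₁ : L) + 16)) * ((a₂ : L) ^ 4 * ((a₂ : L) + 16)) := by
    rw [hA]; rfl
  obtain ⟨Y, hY⟩ : ∃ Y : V, Y = Yj * A ^ (6 * k) * ((Bu⁻¹ : Vˣ) : V) ^ (6 * k) := ⟨_, rfl⟩
  have hYB : Y * (dq4 a₁ a₂) ^ (6 * k) = Yj * A ^ (6 * k) := by
    rw [hY, ← hBu, mul_assoc, ← mul_pow, Units.inv_mul, one_pow, mul_one]
  have hYL : (Y : L) = ((a₂ : L) - a₁) ^ (6 * k) * U⁻¹ := by
    have hB0 : (dq4 (a₁ : L) (a₂ : L)) ^ (6 * k) ≠ 0 := by
      apply pow_ne_zero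
      intro h
      apply hrB0
      have : dq4 a₁ a₂ = 0 := Subtype.ext (hBL.trans h)
      rw [this, map_zero]
    apply mul_right_cancel₀ hB0
    have h1 : (Y : L) * (dq4 (a₁ : L) (a₂ : L)) ^ (6 * k) = (Yj : L) * (A : L) ^ (6 * k) :=
      congrArg (fun z : V => (z : L)) hYB
    have h6 : (j₂ - (c₁ : L)) ^ (6 * k) * (A : L) ^ (6 * k)
        = ((a₂ : L) - a₁) ^ (6 * k) * (dq4 (a₁ : L) (a₂ : L)) ^ (6 * k) := by
      rw [← mul_pow, ← mul_pow, hAL, hkeyL]
    rw [h1, ← hYjL]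
    generalize (j₂ - (c₁ : L)) ^ (6 * k) = J6 at h6 ⊢
    generalize (A : L) ^ (6 * k) = A6 at h6 ⊢
    generalize ((a₂ : L) - a₁) ^ (6 * k) = X6 at h6 ⊢
    generalize (dq4 (a₁ : L) (a₂ : L)) ^ (6 * k) = D6 at h6 ⊢
    linear_combination U⁻¹ * h6
  -- residue of `Y`
  have hrY : r Y = (r a₁ ^ 2 * (r a₁ + 16) ^ 5) ^ k := by
    have h1 := congrArg r hYB
    rw [map_mul, map_mul, map_pow, map_pow, hrYj, hrB] at h1
    have hrA : r A = (r a₁ ^ 4 * (r a₁ + 16)) * (r a₁ ^ 4 * (r a₁ + 16)) := by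
      rw [hA]
      simp only [map_mul, map_pow, map_add, map_ofNat, hra]
    rw [hrA] at h1
    have hW0 : ((r a₁ ^ 2 + 256 * r a₁ + 4096) ^ 2 * r a₁ ^ 3
        * ((r a₁ + 32) * (r a₁ ^ 2 - 512 * r a₁ - 8192))) ^ (6 * k) ≠ 0 := by
      rw [← hrB]; exact pow_ne_zero _ hrB0
    apply mul_right_cancel₀ hW0
    rw [h1, pow_mul, pow_mul, ← mul_pow, ← mul_pow, res_alg4 (r a₁) (r c₁) hJr]
  -- conclusion
  have hfin : r (Y - (a₁ ^ 2 * (a₁ + 16) ^ 5) ^ k) = 0 := by
    rw [map_sub, hrY]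
    simp only [map_mul, map_pow, map_add, map_ofNat, sub_self]
  have hmem := (hr0 _).1 hfin
  have e : ((a₂ : L) - a₁) ^ (6 * k) * U⁻¹ - ((a₁ : L) ^ 2 * ((a₁ : L) + 16) ^ 5) ^ k
      = (((a₂ : L) - a₁) ^ (6 * k) - ((a₁ : L) ^ 2 * ((a₁ : L) + 16) ^ 5) ^ k * U) * U⁻¹ := by
    field_simp
  rw [← e, ← hYL]
  exact hmem

end Fermat.Agent.S36.H878

end
-- ===== PACK-END S36/H878/Transfer4.lean

-- ===== PACK-BEGIN S28/Theta/DerivQExp.lean
section
/-
S28 / (A-θ): q-expansion of the normalized derivative `D f = (2πi)⁻¹ f'`.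
Main result: for `f` holomorphic on `ℍ`, `1`-periodic and bounded at `i∞`,
`(qExpansion 1 (D f)).coeff m = m * (qExpansion 1 f).coeff m`.
-/


set_option autoImplicit false

open UpperHalfPlane hiding I
open Complex Filter Function Topology
open scoped Real Manifold MatrixGroups ModularForm
open Derivative

noncomputable section

namespace Fermat.Agent.S28

local notation "𝕢" => Periodic.qParam

/-- "Good" functions on the upper half plane: `1`-periodic, holomorphic, bounded at `i∞`. -/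
structure Th327Good (f : ℍ → ℂ) : Prop where
  per : Periodic (f ∘ ofComplex) 1
  holo : MDiff f
  bdd : IsBoundedAtImInfty f

namespace Th327Good

variable {f g : ℍ → ℂ}

lemma differentiableOn_ball (hf : Th327Good f) :
    DifferentiableOn ℂ (cuspFunction 1 f) (Metric.ball 0 1) :=
  differentiableOn_cuspFunction_ball one_pos hf.per hf.holo hf.bdd

lemma analyticAt_zero (hf : Th327Good f) : AnalyticAt ℂ (cuspFunction 1 f) 0 :=
  analyticAt_cuspFunction_zero one_pos hf.per hf.holo hf.bdd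

lemma analyticAt (hf : Th327Good f) {z : ℂ} (hz : ‖z‖ < 1) : AnalyticAt ℂ (cuspFunction 1 f) z :=
  hf.differentiableOn_ball.analyticAt
    (Metric.isOpen_ball.mem_nhds (by simpa using hz))

lemma hasSum (hf : Th327Good f) (τ : ℍ) :
    HasSum (fun m : ℕ ↦ (qExpansion 1 f).coeff m • 𝕢 1 τ ^ m) (f τ) :=
  hasSum_qExpansion one_pos hf.per hf.holo hf.bdd τ

lemma eq_cusp (hf : Th327Good f) (τ : ℍ) : cuspFunction 1 f (𝕢 1 τ) = f τ :=
  eq_cuspFunction τ one_ne_zero hf.per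

end Th327Good

lemma th327_hasDerivAt_qParam (w : ℂ) :
    HasDerivAt (𝕢 1) (2 * π * I * 𝕢 1 w) w := by
  have h1 : HasDerivAt (fun z : ℂ => 2 * π * I * z / (1 : ℝ)) (2 * π * I) w := by
    have := ((hasDerivAt_id w).const_mul (2 * π * I)).div_const ((1 : ℝ) : ℂ)
    simpa using this
  have h2 : HasDerivAt (fun z : ℂ => cexp (2 * π * I * z / (1 : ℝ)))
      (cexp (2 * π * I * w / (1 : ℝ)) * (2 * π * I)) w := h1.cexp
  have h4 : 2 * π * I * 𝕢 1 w = cexp (2 * π * I * w / (1 : ℝ)) * (2 * π * I) := by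
    simp only [Periodic.qParam]; ring
  rw [h4]
  exact h2

lemma th327_deriv_comp_ofComplex {f : ℍ → ℂ} (hf : Th327Good f) {w : ℂ} (hw : 0 < w.im) :
    deriv (f ∘ ofComplex) w = deriv (cuspFunction 1 f) (𝕢 1 w) * (2 * π * I * 𝕢 1 w) := by
  have h1 : (f ∘ ofComplex) =ᶠ[𝓝 w] (cuspFunction 1 f ∘ 𝕢 1) := by
    filter_upwards [isOpen_upperHalfPlaneSet.mem_nhds hw] with z hz
    simp only [Function.comp_apply]
    rw [ofComplex_apply_of_im_pos hz]
    exact (hf.eq_cusp ⟨z, hz⟩).symm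
  rw [h1.deriv_eq]
  have hF : DifferentiableAt ℂ (cuspFunction 1 f) (𝕢 1 w) :=
    differentiableAt_cuspFunction one_pos hf.per hf.holo hf.bdd
      (Periodic.norm_qParam_lt_one one_pos hw)
  exact (hF.hasDerivAt.comp w (th327_hasDerivAt_qParam w)).deriv

/-- `D f (τ) = q · F'(q)` where `F` is the cusp function of `f`. -/
lemma th327_D_apply {f : ℍ → ℂ} (hf : Th327Good f) (τ : ℍ) :
    D f τ = 𝕢 1 τ * deriv (cuspFunction 1 f) (𝕢 1 τ) := by
  rw [normalizedDerivOfComplex, th327_deriv_comp_ofComplex hf τ.im_pos]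
  have : (2 * π * I : ℂ) ≠ 0 := two_pi_I_ne_zero
  field_simp


lemma th327_comp_invQParam {f : ℍ → ℂ} (hf : Th327Good f) {z : ℂ} (hz : ‖z‖ < 1) (hz0 : z ≠ 0) :
    ((D f) ∘ ofComplex) (Periodic.invQParam 1 z) = z * deriv (cuspFunction 1 f) z := by
  have him := Periodic.im_invQParam_pos_of_norm_lt_one one_pos hz hz0
  simp only [Function.comp_apply]
  rw [ofComplex_apply_of_im_pos him, th327_D_apply hf]
  rw [Periodic.qParam_right_inv one_ne_zero hz0]

lemma th327_continuousAt_deriv_cusp {f : ℍ → ℂ} (hf : Th327Good f) :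
    ContinuousAt (deriv (cuspFunction 1 f)) 0 :=
  hf.analyticAt_zero.deriv.continuousAt

/-- The cusp function of `D f` is `z ↦ z · F'(z)` on the unit disc. -/
lemma th327_cuspFunction_D {f : ℍ → ℂ} (hf : Th327Good f) {z : ℂ} (hz : ‖z‖ < 1) :
    cuspFunction 1 (D f) z = z * deriv (cuspFunction 1 f) z := by
  rcases eq_or_ne z 0 with rfl | hz0
  · rw [zero_mul]
    show Periodic.cuspFunction 1 ((D f) ∘ ofComplex) 0 = 0
    rw [Periodic.cuspFunction, Function.update_self]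
    apply Tendsto.limUnder_eq
    have h1 : Tendsto (fun z : ℂ => z * deriv (cuspFunction 1 f) z) (𝓝[≠] 0) (𝓝 0) := by
      have h2 : Tendsto (fun z : ℂ => z * deriv (cuspFunction 1 f) z) (𝓝 0)
          (𝓝 (0 * deriv (cuspFunction 1 f) 0)) :=
        (continuousAt_id.mul (th327_continuousAt_deriv_cusp hf)).tendsto
      rw [zero_mul] at h2
      exact h2.mono_left nhdsWithin_le_nhds
    refine h1.congr' ?_
    have hball : Metric.ball (0 : ℂ) 1 ∈ 𝓝 (0 : ℂ) := Metric.ball_mem_nhds _ one_pos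
    filter_upwards [nhdsWithin_le_nhds hball, self_mem_nhdsWithin] with w hw hw0
    exact (th327_comp_invQParam hf (by simpa using hw) hw0).symm
  · show Periodic.cuspFunction 1 ((D f) ∘ ofComplex) z = _
    rw [Periodic.cuspFunction_eq_of_nonzero 1 _ hz0]
    exact th327_comp_invQParam hf hz hz0

lemma th327_cuspFunction_D_eventuallyEq {f : ℍ → ℂ} (hf : Th327Good f) :
    cuspFunction 1 (D f) =ᶠ[𝓝 0] fun z => z * deriv (cuspFunction 1 f) z := by
  have hball : Metric.ball (0 : ℂ) 1 ∈ 𝓝 (0 : ℂ) := Metric.ball_mem_nhds _ one_pos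
  filter_upwards [hball] with w hw
  exact th327_cuspFunction_D hf (by simpa using hw)

lemma th327_analyticAt_cuspFunction_D {f : ℍ → ℂ} (hf : Th327Good f) :
    AnalyticAt ℂ (cuspFunction 1 (D f)) 0 := by
  have h : AnalyticAt ℂ (fun z : ℂ => z * deriv (cuspFunction 1 f) z) 0 :=
    analyticAt_id.mul hf.analyticAt_zero.deriv
  exact h.congr (th327_cuspFunction_D_eventuallyEq hf).symm

/-- The `q`-expansion of `D f` is `θ` of the `q`-expansion of `f`. -/
theorem th327_qExpansion_D_coeff {f : ℍ → ℂ} (hf : Th327Good f) (m : ℕ) :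
    (qExpansion 1 (D f)).coeff m = (m : ℂ) * (qExpansion 1 f).coeff m := by
  rw [qExpansion_coeff, qExpansion_coeff,
    (th327_cuspFunction_D_eventuallyEq hf).iteratedDeriv_eq m]
  have hF := hf.analyticAt_zero
  have hmul : (fun z : ℂ => z * deriv (cuspFunction 1 f) z) = id * deriv (cuspFunction 1 f) := rfl
  rw [hmul, iteratedDeriv_mul (n := m) contDiffAt_id hF.deriv.contDiffAt]
  rcases m with _ | m
  · simp
  · rw [Finset.sum_eq_single 1]
    · simp only [iteratedDeriv_one, Nat.choose_one_right, Nat.add_sub_cancel]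
      rw [show deriv (id : ℂ → ℂ) 0 = 1 by simp, iteratedDeriv_succ' (n := m)]
      rw [Nat.factorial_succ]
      push_cast
      have : ((m : ℂ) + 1) ≠ 0 := by exact_mod_cast Nat.succ_ne_zero m
      have h2 : ((m.factorial : ℕ) : ℂ) ≠ 0 := by exact_mod_cast Nat.factorial_ne_zero m
      field_simp
    · intro i _ hi
      have : iteratedDeriv i (id : ℂ → ℂ) 0 = 0 := by
        rw [iteratedDeriv_id]
        rcases i with _ | _ | i
        · simp
        · exact absurd rfl hi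
        · simp
      rw [this]; simp
    · intro h
      exact absurd (Finset.mem_range.mpr (by omega)) h


/-! ### Closure properties of `Th327Good` -/

namespace Th327Good

variable {f g : ℍ → ℂ}

lemma of_modularForm {k : ℤ} (f : ModularForm 𝒮ℒ k) : Th327Good (f : ℍ → ℂ) where
  per := SlashInvariantFormClass.periodic_comp_ofComplex f one_mem_strictPeriods_SL
  holo := ModularFormClass.holo f
  bdd := ModularFormClass.bdd_at_infty f

lemma of_cuspForm {k : ℤ} (f : CuspForm 𝒮ℒ k) : Th327Good (f : ℍ → ℂ) where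
  per := SlashInvariantFormClass.periodic_comp_ofComplex f one_mem_strictPeriods_SL
  holo := ModularFormClass.holo f
  bdd := ModularFormClass.bdd_at_infty f

lemma mul (hf : Th327Good f) (hg : Th327Good g) : Th327Good (f * g) where
  per := fun z => by
    have h1 := hf.per z
    have h2 := hg.per z
    simp only [Function.comp_apply, Pi.mul_apply] at h1 h2 ⊢
    rw [h1, h2]
  holo := hf.holo.mul hg.holo
  bdd := hf.bdd.mul hg.bdd

lemma add (hf : Th327Good f) (hg : Th327Good g) : Th327Good (f + g) where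
  per := fun z => by
    have h1 := hf.per z
    have h2 := hg.per z
    simp only [Function.comp_apply, Pi.add_apply] at h1 h2 ⊢
    rw [h1, h2]
  holo := hf.holo.add hg.holo
  bdd := hf.bdd.add hg.bdd

lemma neg (hf : Th327Good f) : Th327Good (-f) where
  per := fun z => by
    have h1 := hf.per z
    simp only [Function.comp_apply, Pi.neg_apply] at h1 ⊢
    rw [h1]
  holo := hf.holo.neg
  bdd := hf.bdd.neg

lemma sub (hf : Th327Good f) (hg : Th327Good g) : Th327Good (f - g) := by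
  rw [sub_eq_add_neg]; exact hf.add hg.neg

lemma smul (c : ℂ) (hf : Th327Good f) : Th327Good (c • f) where
  per := fun z => by
    have h1 := hf.per z
    simp only [Function.comp_apply, Pi.smul_apply] at h1 ⊢
    rw [h1]
  holo := hf.holo.const_smul c
  bdd := hf.bdd.const_smul_left c

lemma pow (hf : Th327Good f) (n : ℕ) : Th327Good (f ^ n) := by
  induction n with
  | zero =>
    rw [pow_zero]
    exact ⟨fun z => rfl, mdifferentiable_const, Filter.const_boundedAtFilter _ _⟩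
  | succ n ih => rw [pow_succ]; exact ih.mul hf

/-- The normalized derivative of a good function is good (and even zero at `i∞`). -/
lemma deriv (hf : Th327Good f) : Th327Good (D f) where
  per := fun z => by
    simp only [Function.comp_apply]
    by_cases hz : 0 < z.im
    · have hz1 : 0 < (z + (1 : ℂ)).im := by simpa using hz
      rw [ofComplex_apply_of_im_pos hz1, ofComplex_apply_of_im_pos hz]
      simp only [normalizedDerivOfComplex]
      congr 1
      show _root_.deriv (f ∘ ofComplex) (z + (1 : ℂ)) = _root_.deriv (f ∘ ofComplex) z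
      rw [← deriv_comp_add_const (f ∘ ofComplex) (1 : ℂ) z]
      congr 1
      funext w
      exact hf.per w
    · have hz' : z.im ≤ 0 := not_lt.mp hz
      have hz1 : (z + (1 : ℂ)).im ≤ 0 := by simpa using hz'
      rw [ofComplex_apply_eq_of_im_nonpos hz1 hz']
  holo := normalizedDerivOfComplex_mdifferentiable hf.holo
  bdd := by
    have h0 : Tendsto (fun z : ℂ => z * _root_.deriv (cuspFunction 1 f) z) (𝓝 0)
        (𝓝 (0 * _root_.deriv (cuspFunction 1 f) 0)) :=
      (continuousAt_id.mul (th327_continuousAt_deriv_cusp hf)).tendsto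
    have h1 : Tendsto (D f) atImInfty (𝓝 (0 * _root_.deriv (cuspFunction 1 f) 0)) := by
      have h2 := h0.comp (qParam_tendsto_atImInfty (h := 1) one_pos)
      refine h2.congr fun τ => ?_
      simp only [Function.comp_apply]
      exact (th327_D_apply hf τ).symm
    exact h1.isBigO_one ℝ

lemma analyticAt_zero_D (hf : Th327Good f) : AnalyticAt ℂ (cuspFunction 1 (D f)) 0 :=
  th327_analyticAt_cuspFunction_D hf

end Th327Good

/-! ### `θ = q d/dq` on power series, and `q`-expansions of good functions -/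

/-- `θ = q d/dq` on power series: multiplies the coefficient of `qⁿ` by `n`. -/
def th327_thetaP {R : Type*} [Semiring R] (p : PowerSeries R) : PowerSeries R :=
  PowerSeries.mk fun n => (n : R) * p.coeff n

@[simp] lemma th327_thetaP_coeff {R : Type*} [Semiring R] (p : PowerSeries R) (n : ℕ) :
    (th327_thetaP p).coeff n = (n : R) * p.coeff n := by
  simp [th327_thetaP]

namespace Th327Good

variable {f g : ℍ → ℂ}

lemma qExpansion_D (hf : Th327Good f) : qExpansion 1 (D f) = th327_thetaP (qExpansion 1 f) := by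
  ext m
  rw [th327_thetaP_coeff, th327_qExpansion_D_coeff hf]

lemma qExpansion_mul (hf : Th327Good f) (hg : Th327Good g) :
    qExpansion 1 (f * g) = qExpansion 1 f * qExpansion 1 g :=
  UpperHalfPlane.qExpansion_mul hf.analyticAt_zero hg.analyticAt_zero

lemma qExpansion_add (hf : Th327Good f) (hg : Th327Good g) :
    qExpansion 1 (f + g) = qExpansion 1 f + qExpansion 1 g :=
  UpperHalfPlane.qExpansion_add hf.analyticAt_zero hg.analyticAt_zero

lemma qExpansion_sub (hf : Th327Good f) (hg : Th327Good g) :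
    qExpansion 1 (f - g) = qExpansion 1 f - qExpansion 1 g :=
  UpperHalfPlane.qExpansion_sub hf.analyticAt_zero hg.analyticAt_zero

lemma qExpansion_smul (c : ℂ) (hf : Th327Good f) :
    qExpansion 1 (c • f) = c • qExpansion 1 f :=
  UpperHalfPlane.qExpansion_smul hf.analyticAt_zero c

lemma qExpansion_pow (hf : Th327Good f) (n : ℕ) :
    qExpansion 1 (f ^ n) = qExpansion 1 f ^ n := by
  induction n with
  | zero => rw [pow_zero, pow_zero]; exact UpperHalfPlane.qExpansion_one 1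
  | succ n ih => rw [pow_succ, pow_succ, (hf.pow n).qExpansion_mul hf, ih]

lemma qExpansion_eq_zero_iff (hf : Th327Good f) : qExpansion 1 f = 0 ↔ f = 0 :=
  UpperHalfPlane.qExpansion_eq_zero_iff one_pos hf.per hf.holo hf.bdd

end Th327Good

end Fermat.Agent.S28

end
end
-- ===== PACK-END S28/Theta/DerivQExp.lean

-- ===== PACK-BEGIN S36/H922/ResAbs.lean
section


/-!
# S36 engine / cell REG, route R4 (MID-UNIT): the residue of `π^N / U` — abstract form (helper922)

Mathlib only.  `V` a valuation subring of a field `L` (in the application `V = V_mid`, the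
valuation of the component `mid` of `X₀(q² M')`), `π ∈ 𝔪_V`.  Data:

* `π ^ n = ϖ · (ρ + π z₁)`             (Eisenstein: `π^(q-1)/q ≡ ρ`, `ρ = G(j)/(j^(q²) - j)`);
* `U · b = ϖ ^ 12 · u`, `u ∈ Vˣ`, `b = u⁻¹ + π z₂`
                                          (`U = U_m = α(U')/β(U')`, `u = Δ(t^q)/Δ(t)`, `b = β(U')`);
* `e · u ^ 2 = ρ ^ 12 + π z₃`            (`θ`-identity modulo `q`).

Then `(π ^ (12 n) - e U) / U ∈ π V ⊆ 𝔪_V`: this is hypothesis `hres` of
`S36.H878.principal_of_unit_self` (and `hω` of `S36.H922.principal_of_unit_quot`), with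
`N = 12 n`, `x = π`, `g = e`.
-/

set_option autoImplicit false

namespace Fermat.Agent.S36.H922

variable {L : Type*} [Field L]

/-- **Residue of `π^N / U` along `V`.**  Conclusion in the form `= π · Z`, `Z ∈ V`. -/
theorem h922_hres_abs_mul (V : ValuationSubring L) (π ϖ ρ u b e U : L) (n : ℕ)
    (hϖ : ϖ ≠ 0) (hπ : π ∈ V) (hρ : ρ ∈ V) (hu0 : u ≠ 0) (hu' : u⁻¹ ∈ V)
    (h1 : ∃ z ∈ V, π ^ n = ϖ * (ρ + π * z))
    (h2 : U * b = ϖ ^ 12 * u)
    (h2' : ∃ z ∈ V, b = u⁻¹ + π * z)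
    (h3 : ∃ z ∈ V, e * u ^ 2 = ρ ^ 12 + π * z) :
    ∃ Z ∈ V, (π ^ (12 * n) - e * U) * U⁻¹ = π * Z := by
  obtain ⟨z₁, hz₁, h1⟩ := h1
  obtain ⟨z₂, hz₂, h2'⟩ := h2'
  obtain ⟨z₃, hz₃, h3⟩ := h3
  have hU0 : U ≠ 0 := by
    intro h
    rw [h, zero_mul] at h2
    exact (mul_ne_zero (pow_ne_zero _ hϖ) hu0) h2.symm
  have hb0 : b ≠ 0 := by
    intro h
    rw [h, mul_zero] at h2
    exact (mul_ne_zero (pow_ne_zero _ hϖ) hu0) h2.symm
  -- `(ρ + π z₁)^12 = ρ^12 + π z₁ S`
  set X := ρ + π * z₁ with hX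
  set S := ∑ i ∈ Finset.range 12, X ^ i * ρ ^ (12 - 1 - i) with hS
  have hSV : S ∈ V := by
    apply sum_mem
    intro i _
    exact V.mul_mem _ _ (pow_mem (V.add_mem _ _ hρ (V.mul_mem _ _ hπ hz₁)) _) (pow_mem hρ _)
  have hgeom : X ^ 12 = ρ ^ 12 + π * (z₁ * S) := by
    have h := Commute.geom_sum₂_mul (Commute.all X ρ) 12
    rw [← hS] at h
    have hXρ : X - ρ = π * z₁ := by rw [hX]; ring
    rw [hXρ] at h
    linear_combination -h
  have hpow : π ^ (12 * n) = ϖ ^ 12 * X ^ 12 := by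
    rw [mul_comm 12 n, pow_mul, h1, mul_pow]
  refine ⟨z₁ * S * (u⁻¹) ^ 2 + ρ ^ 12 * z₂ * u⁻¹ + π * (z₁ * S * z₂ * u⁻¹) - z₃ * (u⁻¹) ^ 2,
    ?_, ?_⟩
  · refine sub_mem (V.add_mem _ _ (V.add_mem _ _ ?_ ?_) ?_) ?_
    · exact V.mul_mem _ _ (V.mul_mem _ _ hz₁ hSV) (pow_mem hu' _)
    · exact V.mul_mem _ _ (V.mul_mem _ _ (pow_mem hρ _) hz₂) hu'
    · exact V.mul_mem _ _ hπ (V.mul_mem _ _ (V.mul_mem _ _ (V.mul_mem _ _ hz₁ hSV) hz₂) hu')
    · exact V.mul_mem _ _ hz₃ (pow_mem hu' _)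
  · -- `U = ϖ^12 u / b`, `e = (ρ^12 + π z₃) / u^2`
    have hUeq : U = ϖ ^ 12 * u * b⁻¹ := by
      rw [← h2, mul_assoc, mul_inv_cancel₀ hb0, mul_one]
    have heeq : e = (ρ ^ 12 + π * z₃) * (u⁻¹) ^ 2 := by
      rw [← h3, inv_pow, mul_assoc, mul_inv_cancel₀ (pow_ne_zero _ hu0), mul_one]
    have hϖ12 : ϖ ^ 12 ≠ 0 := pow_ne_zero _ hϖ
    have hquot : (π ^ (12 * n) - e * U) * U⁻¹ = X ^ 12 * b * u⁻¹ - e := by
      rw [sub_mul, mul_assoc e, mul_inv_cancel₀ hU0, mul_one, hpow, hUeq]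
      field_simp
    rw [hquot, hgeom, h2', heeq]
    have huu : u⁻¹ * u = 1 := inv_mul_cancel₀ hu0
    ring

/-- **Residue of `π^N / U` along `V`**, conclusion in `V.nonunits` (the form `hres` of
`S36.H878.principal_of_unit_self`). -/
theorem h922_hres_abs (V : ValuationSubring L) (π ϖ ρ u b e U : L) (n : ℕ)
    (hϖ : ϖ ≠ 0) (hπ : π ∈ V.nonunits) (hρ : ρ ∈ V) (hu0 : u ≠ 0) (hu' : u⁻¹ ∈ V)
    (h1 : ∃ z ∈ V, π ^ n = ϖ * (ρ + π * z))
    (h2 : U * b = ϖ ^ 12 * u)
    (h2' : ∃ z ∈ V, b = u⁻¹ + π * z)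
    (h3 : ∃ z ∈ V, e * u ^ 2 = ρ ^ 12 + π * z) :
    (π ^ (12 * n) - e * U) * U⁻¹ ∈ V.nonunits := by
  have hπV : π ∈ V := (V.valuation_le_one_iff π).1 ((V.mem_nonunits_iff).1 hπ).le
  obtain ⟨Z, hZ, h⟩ := h922_hres_abs_mul V π ϖ ρ u b e U n hϖ hπV hρ hu0 hu' h1 h2 h2' h3
  rw [h, ValuationSubring.mem_nonunits_iff, map_mul]
  exact mul_lt_one_of_lt_of_le ((V.mem_nonunits_iff).1 hπ) ((V.valuation_le_one_iff Z).2 hZ)

/-- **Residue of `π^N / U` along `V`**, all congruences modulo `𝔪_V = V.nonunits`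
(no uniformiser needed):
`π^n = ϖ · uπ`, `uπ ≡ ρ`, `U · b = ϖ^12 · u`, `b ≡ u⁻¹`, `e · u² ≡ ρ^12`  ⟹  `π^(12 n)/U ≡ e`. -/
theorem h922_hres_abs_nonunits (V : ValuationSubring L) (π ϖ uπ ρ u b e U : L) (n : ℕ)
    (hϖ : ϖ ≠ 0) (hρ : ρ ∈ V) (hu0 : u ≠ 0) (hu' : u⁻¹ ∈ V)
    (h1 : π ^ n = ϖ * uπ) (h1' : uπ - ρ ∈ V.nonunits)
    (h2 : U * b = ϖ ^ 12 * u) (h2' : b - u⁻¹ ∈ V.nonunits)
    (h3 : e * u ^ 2 - ρ ^ 12 ∈ V.nonunits) :
    (π ^ (12 * n) - e * U) * U⁻¹ ∈ V.nonunits := by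
  have hmemV : ∀ x : L, x ∈ V.nonunits → x ∈ V := fun x hx =>
    (V.valuation_le_one_iff x).1 ((V.mem_nonunits_iff).1 hx).le
  have hmul : ∀ x y : L, x ∈ V.nonunits → y ∈ V → x * y ∈ V.nonunits := by
    intro x y hx hy
    rw [ValuationSubring.mem_nonunits_iff, map_mul]
    exact mul_lt_one_of_lt_of_le ((V.mem_nonunits_iff).1 hx) ((V.valuation_le_one_iff y).2 hy)
  have hadd : ∀ x y : L, x ∈ V.nonunits → y ∈ V.nonunits → x + y ∈ V.nonunits := by
    intro x y hx hy
    rw [ValuationSubring.mem_nonunits_iff]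
    exact lt_of_le_of_lt (V.valuation.map_add x y)
      (max_lt ((V.mem_nonunits_iff).1 hx) ((V.mem_nonunits_iff).1 hy))
  have hneg : ∀ x : L, x ∈ V.nonunits → -x ∈ V.nonunits := by
    intro x hx
    rw [ValuationSubring.mem_nonunits_iff, Valuation.map_neg]
    exact (V.mem_nonunits_iff).1 hx
  set d₁ := uπ - ρ with hd₁
  set d₂ := b - u⁻¹ with hd₂
  set d₃ := e * u ^ 2 - ρ ^ 12 with hd₃
  have huπV : uπ ∈ V := by
    have : uπ = ρ + d₁ := by rw [hd₁]; ring
    rw [this]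
    exact V.add_mem _ _ hρ (hmemV _ h1')
  have hU0 : U ≠ 0 := by
    intro h
    rw [h, zero_mul] at h2
    exact (mul_ne_zero (pow_ne_zero _ hϖ) hu0) h2.symm
  have hb0 : b ≠ 0 := by
    intro h
    rw [h, mul_zero] at h2
    exact (mul_ne_zero (pow_ne_zero _ hϖ) hu0) h2.symm
  set S := ∑ i ∈ Finset.range 12, uπ ^ i * ρ ^ (12 - 1 - i) with hS
  have hSV : S ∈ V := by
    apply sum_mem
    intro i _
    exact V.mul_mem _ _ (pow_mem huπV _) (pow_mem hρ _)
  have hgeom : uπ ^ 12 = ρ ^ 12 + d₁ * S := by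
    have h := Commute.geom_sum₂_mul (Commute.all uπ ρ) 12
    rw [← hS] at h
    rw [hd₁]
    linear_combination -h
  have hpow : π ^ (12 * n) = ϖ ^ 12 * uπ ^ 12 := by
    rw [mul_comm 12 n, pow_mul, h1, mul_pow]
  have hUeq : U = ϖ ^ 12 * u * b⁻¹ := by
    rw [← h2, mul_assoc, mul_inv_cancel₀ hb0, mul_one]
  have hquot : (π ^ (12 * n) - e * U) * U⁻¹ = uπ ^ 12 * b * u⁻¹ - e := by
    have hϖ12 : ϖ ^ 12 ≠ 0 := pow_ne_zero _ hϖ
    rw [sub_mul, mul_assoc e, mul_inv_cancel₀ hU0, mul_one, hpow, hUeq]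
    field_simp
  have hb : b = u⁻¹ + d₂ := by rw [hd₂]; ring
  have he : e = (ρ ^ 12 + d₃) * (u⁻¹) ^ 2 := by
    rw [hd₃, add_sub_cancel, inv_pow, mul_assoc, mul_inv_cancel₀ (pow_ne_zero _ hu0), mul_one]
  have hfinal : (π ^ (12 * n) - e * U) * U⁻¹
      = d₁ * (S * (u⁻¹) ^ 2) + d₂ * ((ρ ^ 12 + d₁ * S) * u⁻¹) + (-d₃) * (u⁻¹) ^ 2 := by
    rw [hquot, hgeom]
    conv_lhs => rw [hb, he]
    ring
  rw [hfinal]
  refine hadd _ _ (hadd _ _ (hmul _ _ h1' ?_) (hmul _ _ h2' ?_)) (hmul _ _ (hneg _ h3) ?_)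
  · exact V.mul_mem _ _ hSV (pow_mem hu' _)
  · exact V.mul_mem _ _ (V.add_mem _ _ (pow_mem hρ _) (V.mul_mem _ _ (hmemV _ h1') hSV)) hu'
  · exact pow_mem hu' _

end Fermat.Agent.S36.H922

end
-- ===== PACK-END S36/H922/ResAbs.lean

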