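import Mathlib
import Fermat.Prelude.Def_ModularCurve_JqCoeff
import Fermat.Prelude.Def_ModularCurve_LaurentCoeff
import Fermat.Prelude.Thm_ModularCurve_coeffMap_qExpand
import Mathlib.RingTheory.Trace.Quotient
import Mathlib.RingTheory.Discriminant
import Mathlib.RingTheory.Ideal.Over
import Mathlib.FieldTheory.Separable
import Mathlib.NumberTheory.ModularForms.NormTrace
import Mathlib.NumberTheory.ModularForms.Discriminant
import Mathlib.RingTheory.PowerSeries.Basic
import Mathlib.RingTheory.PowerSeries.Expand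
import Mathlib.RingTheory.PowerSeries.PiTopology

-- ===== PACK-BEGIN S35/H253/NormRed2.lean
section


/-!
# Norms commute with reduction: TWO extensions of a valuation ring (helper253)

Mathlib only.  `F / K` a finite field extension, `O` a valuation subring of `K`, `V₁`, `V₂`
valuation subrings of `F` lying over `O` (`V_i ∩ K = O`), with reductions
`π : O → k`, `ρ₁ : V₁ → κ₁`, `ρ₂ : V₂ → κ₂` onto fields.  If the two residue degrees add up to
`[F : K]` (so `V₁`, `V₂` are the only extensions and both are unramified), then for every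
`y ∈ V₁ ∩ V₂`

  `N_{F/K} y ∈ O`   and   `π (N_{F/K} y) = N_{κ₁/k} (ρ₁ y) * N_{κ₂/k} (ρ₂ y)`.

* `GoodFamily`        : an adapted family `m : ι₁ ⊕ ι₂ → F` (first block: residually independent
                        at `V₁`, in the maximal ideal of `V₂`; second block: the other way round);
* `GoodFamily.coeff_mem`, `GoodFamily.linearIndependent` : the lattice lemma;
* `GoodFamily.norm_red` : the norm formula for an adapted family whose residues are bases;
* `exists_approx`     : weak approximation for two incomparable valuation rings (any rank);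
* `norm_red_two`      : the norm formula from surjective reductions and the degree equality.

Intended use (S35 / S36 / toric package): `K = α(F_M) ⊆ F = F_{qM}`, `O` the Gauss valuation of
level `M`, `V₁ = V∞`, `V₂ = V₀` the two Gauss valuations of level `qM`; residue degrees `1` and `q`
(purely inseparable), see `NormInsep.lean`.
-/

set_option autoImplicit false

namespace Fermat.Agent.S35.H253

open scoped BigOperators

section Basic

variable {K F : Type*} [Field K] [Field F] [Algebra K F]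

/-- `V` lies over `O`: `V ∩ K = O`. -/
def Over (O : ValuationSubring K) (V : ValuationSubring F) : Prop :=
  ∀ a : K, algebraMap K F a ∈ V ↔ a ∈ O

theorem Over.val_lt_one_iff {O : ValuationSubring K} {V : ValuationSubring F}
    (h : Over O V) (a : K) :
    V.valuation (algebraMap K F a) < 1 ↔ O.valuation a < 1 := by
  rw [← ValuationSubring.mem_nonunits_iff, ← ValuationSubring.mem_nonunits_iff,
    ValuationSubring.mem_nonunits_iff_or, ValuationSubring.mem_nonunits_iff_or,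
    ← map_inv₀, h a⁻¹, map_eq_zero]

theorem Over.val_le_one_iff {O : ValuationSubring K} {V : ValuationSubring F}
    (h : Over O V) (a : K) :
    V.valuation (algebraMap K F a) ≤ 1 ↔ O.valuation a ≤ 1 := by
  rw [ValuationSubring.valuation_le_one_iff, ValuationSubring.valuation_le_one_iff, h a]

/-- A finite sum of elements of valuation `< 1` has valuation `< 1`. -/
theorem val_sum_lt_one {ι : Type*} (s : Finset ι) (V : ValuationSubring F) (f : ι → F)
    (hf : ∀ i ∈ s, V.valuation (f i) < 1) : V.valuation (∑ i ∈ s, f i) < 1 := by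
  classical
  induction s using Finset.induction_on with
  | empty => simp
  | insert a s ha ih =>
    rw [Finset.sum_insert ha]
    exact Valuation.map_add_lt _ (hf a (Finset.mem_insert_self a s))
      (ih fun i hi => hf i (Finset.mem_insert_of_mem hi))

theorem val_mul_lt_one_left (V : ValuationSubring F) {x y : F} (hx : V.valuation x < 1)
    (hy : V.valuation y ≤ 1) : V.valuation (x * y) < 1 := by
  rw [map_mul]
  calc V.valuation x * V.valuation y ≤ V.valuation x * 1 := by gcongr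
    _ = V.valuation x := mul_one _
    _ < 1 := hx

theorem val_mul_lt_one_right (V : ValuationSubring F) {x y : F} (hx : V.valuation x ≤ 1)
    (hy : V.valuation y < 1) : V.valuation (x * y) < 1 := by
  rw [mul_comm]; exact val_mul_lt_one_left V hy hx

end Basic

section Family

variable {K F : Type*} [Field K] [Field F] [Algebra K F]

/-- An adapted family for two extensions `V₁`, `V₂` of `O`: the members `m (inl i)` lie in `V₁`,
in the maximal ideal of `V₂`, and are residually independent at `V₁`; the members `m (inr j)` lie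
in `V₂`, in the maximal ideal of `V₁`, and are residually independent at `V₂`. -/
structure GoodFamily (O : ValuationSubring K) (V₁ V₂ : ValuationSubring F)
    {ι₁ ι₂ : Type*} [Fintype ι₁] [Fintype ι₂] (m : ι₁ ⊕ ι₂ → F) : Prop where
  over₁ : Over O V₁
  over₂ : Over O V₂
  mem₁ : ∀ i, m (Sum.inl i) ∈ V₁
  small₂ : ∀ i, V₂.valuation (m (Sum.inl i)) < 1
  mem₂ : ∀ j, m (Sum.inr j) ∈ V₂
  small₁ : ∀ j, V₁.valuation (m (Sum.inr j)) < 1
  indep₁ : ∀ a : ι₁ → K, (∀ i, a i ∈ O) →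
    V₁.valuation (∑ i, algebraMap K F (a i) * m (Sum.inl i)) < 1 → ∀ i, O.valuation (a i) < 1
  indep₂ : ∀ a : ι₂ → K, (∀ j, a j ∈ O) →
    V₂.valuation (∑ j, algebraMap K F (a j) * m (Sum.inr j)) < 1 → ∀ j, O.valuation (a j) < 1

namespace GoodFamily

variable {O : ValuationSubring K} {V₁ V₂ : ValuationSubring F}
  {ι₁ ι₂ : Type*} [Fintype ι₁] [Fintype ι₂] {m : ι₁ ⊕ ι₂ → F}

theorem mem₁' (h : GoodFamily O V₁ V₂ m) (l : ι₁ ⊕ ι₂) : m l ∈ V₁ := by
  rcases l with i | j
  · exact h.mem₁ i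
  · exact (V₁.valuation_le_one_iff _).1 (h.small₁ j).le

theorem mem₂' (h : GoodFamily O V₁ V₂ m) (l : ι₁ ⊕ ι₂) : m l ∈ V₂ := by
  rcases l with i | j
  · exact (V₂.valuation_le_one_iff _).1 (h.small₂ i).le
  · exact h.mem₂ j

theorem sum_split (a : ι₁ ⊕ ι₂ → K) (m : ι₁ ⊕ ι₂ → F) :
    ∑ l, algebraMap K F (a l) * m l =
      (∑ i, algebraMap K F (a (Sum.inl i)) * m (Sum.inl i)) +
        ∑ j, algebraMap K F (a (Sum.inr j)) * m (Sum.inr j) := by
  rw [Fintype.sum_sum_type]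

/-- For integral coefficients: if the combination is small at `V₁`, the first block of
coefficients is small. -/
theorem small_inl (h : GoodFamily O V₁ V₂ m) (a : ι₁ ⊕ ι₂ → K) (ha : ∀ l, a l ∈ O)
    (hz : V₁.valuation (∑ l, algebraMap K F (a l) * m l) < 1) (i : ι₁) :
    O.valuation (a (Sum.inl i)) < 1 := by
  refine h.indep₁ (fun i => a (Sum.inl i)) (fun i => ha _) ?_ i
  have e : (∑ i, algebraMap K F (a (Sum.inl i)) * m (Sum.inl i)) =
      (∑ l, algebraMap K F (a l) * m l) -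
        ∑ j, algebraMap K F (a (Sum.inr j)) * m (Sum.inr j) := by
    rw [sum_split]; ring
  rw [e]
  refine Valuation.map_sub_lt _ hz (val_sum_lt_one _ _ _ fun j _ => ?_)
  exact val_mul_lt_one_right V₁ ((h.over₁.val_le_one_iff _).2
    ((O.valuation_le_one_iff _).2 (ha _))) (h.small₁ j)

/-- For integral coefficients: if the combination is small at `V₂`, the second block of
coefficients is small. -/
theorem small_inr (h : GoodFamily O V₁ V₂ m) (a : ι₁ ⊕ ι₂ → K) (ha : ∀ l, a l ∈ O)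
    (hz : V₂.valuation (∑ l, algebraMap K F (a l) * m l) < 1) (j : ι₂) :
    O.valuation (a (Sum.inr j)) < 1 := by
  refine h.indep₂ (fun j => a (Sum.inr j)) (fun j => ha _) ?_ j
  have e : (∑ j, algebraMap K F (a (Sum.inr j)) * m (Sum.inr j)) =
      (∑ l, algebraMap K F (a l) * m l) -
        ∑ i, algebraMap K F (a (Sum.inl i)) * m (Sum.inl i) := by
    rw [sum_split]; ring
  rw [e]
  refine Valuation.map_sub_lt _ hz (val_sum_lt_one _ _ _ fun i _ => ?_)
  exact val_mul_lt_one_right V₂ ((h.over₂.val_le_one_iff _).2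
    ((O.valuation_le_one_iff _).2 (ha _))) (h.small₂ i)

/-- **Lattice lemma.**  A combination of an adapted family lying in `V₁ ∩ V₂` has its
coefficients in `O`. -/
theorem coeff_mem (h : GoodFamily O V₁ V₂ m) (a : ι₁ ⊕ ι₂ → K)
    (hz₁ : (∑ l, algebraMap K F (a l) * m l) ∈ V₁)
    (hz₂ : (∑ l, algebraMap K F (a l) * m l) ∈ V₂) (l : ι₁ ⊕ ι₂) : a l ∈ O := by
  classical
  by_contra hl
  have : Nonempty (ι₁ ⊕ ι₂) := ⟨l⟩
  obtain ⟨l₀, hl₀⟩ := Finite.exists_max (fun l => O.valuation (a l))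
  have hbig : 1 < O.valuation (a l₀) := by
    have : ¬ O.valuation (a l) ≤ 1 := fun hh => hl ((O.valuation_le_one_iff _).1 hh)
    exact lt_of_lt_of_le (not_le.1 this) (hl₀ l)
  have h0 : a l₀ ≠ 0 := by
    intro h0; rw [h0, map_zero] at hbig; exact not_lt.2 zero_le_one hbig
  have hinv : O.valuation (a l₀)⁻¹ < 1 := by
    rw [map_inv₀]; exact inv_lt_one_of_one_lt₀ hbig
  set c : ι₁ ⊕ ι₂ → K := fun l => a l * (a l₀)⁻¹ with hc
  have hcO : ∀ l, c l ∈ O := fun l => by
    rw [← O.valuation_le_one_iff, hc, map_mul, map_inv₀]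
    have hpos : 0 < O.valuation (a l₀) := lt_trans zero_lt_one hbig
    calc O.valuation (a l) * (O.valuation (a l₀))⁻¹
        ≤ O.valuation (a l₀) * (O.valuation (a l₀))⁻¹ := by gcongr; exact hl₀ l
      _ = 1 := mul_inv_cancel₀ hpos.ne'
  have hsum : (∑ l, algebraMap K F (c l) * m l) =
      (∑ l, algebraMap K F (a l) * m l) * algebraMap K F (a l₀)⁻¹ := by
    rw [Finset.sum_mul]
    refine Finset.sum_congr rfl fun l _ => ?_
    rw [hc, map_mul]; ring
  have hs₁ : V₁.valuation (∑ l, algebraMap K F (c l) * m l) < 1 := by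
    rw [hsum]
    exact val_mul_lt_one_right V₁ ((V₁.valuation_le_one_iff _).2 hz₁)
      ((h.over₁.val_lt_one_iff _).2 hinv)
  have hs₂ : V₂.valuation (∑ l, algebraMap K F (c l) * m l) < 1 := by
    rw [hsum]
    exact val_mul_lt_one_right V₂ ((V₂.valuation_le_one_iff _).2 hz₂)
      ((h.over₂.val_lt_one_iff _).2 hinv)
  have hc₀ : c l₀ = 1 := by rw [hc]; exact mul_inv_cancel₀ h0
  have hlt : O.valuation (c l₀) < 1 := by
    rcases l₀ with i | j
    · exact h.small_inl c hcO hs₁ i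
    · exact h.small_inr c hcO hs₂ j
  rw [hc₀, map_one] at hlt
  exact lt_irrefl _ hlt

/-- A combination of an adapted family which is small at `V₁` and at `V₂` has small
coefficients. -/
theorem coeff_small (h : GoodFamily O V₁ V₂ m) (a : ι₁ ⊕ ι₂ → K)
    (hz₁ : V₁.valuation (∑ l, algebraMap K F (a l) * m l) < 1)
    (hz₂ : V₂.valuation (∑ l, algebraMap K F (a l) * m l) < 1) (l : ι₁ ⊕ ι₂) :
    O.valuation (a l) < 1 := by
  have ha : ∀ l, a l ∈ O := h.coeff_mem a ((V₁.valuation_le_one_iff _).1 hz₁.le)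
    ((V₂.valuation_le_one_iff _).1 hz₂.le)
  rcases l with i | j
  · exact h.small_inl a ha hz₁ i
  · exact h.small_inr a ha hz₂ j

/-- An adapted family is linearly independent. -/
theorem eq_zero_of_sum_eq_zero (h : GoodFamily O V₁ V₂ m) (a : ι₁ ⊕ ι₂ → K)
    (hz : (∑ l, algebraMap K F (a l) * m l) = 0) (l : ι₁ ⊕ ι₂) : a l = 0 := by
  classical
  by_contra hl
  have : Nonempty (ι₁ ⊕ ι₂) := ⟨l⟩
  obtain ⟨l₀, hl₀⟩ := Finite.exists_max (fun l => O.valuation (a l))
  have hpos : 0 < O.valuation (a l₀) :=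
    lt_of_lt_of_le (by rw [Valuation.pos_iff]; exact hl) (hl₀ l)
  have h0 : a l₀ ≠ 0 := by
    intro h0; rw [h0, map_zero] at hpos; exact lt_irrefl _ hpos
  set c : ι₁ ⊕ ι₂ → K := fun l => a l * (a l₀)⁻¹ with hc
  have hsum : (∑ l, algebraMap K F (c l) * m l) =
      (∑ l, algebraMap K F (a l) * m l) * algebraMap K F (a l₀)⁻¹ := by
    rw [Finset.sum_mul]
    refine Finset.sum_congr rfl fun l _ => ?_
    rw [hc, map_mul]; ring
  rw [hz, zero_mul] at hsum
  have hlt : O.valuation (c l₀) < 1 :=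
    h.coeff_small c (by rw [hsum, map_zero]; exact zero_lt_one)
      (by rw [hsum, map_zero]; exact zero_lt_one) l₀
  have hc₀ : c l₀ = 1 := by rw [hc]; exact mul_inv_cancel₀ h0
  rw [hc₀, map_one] at hlt
  exact lt_irrefl _ hlt

theorem linearIndependent (h : GoodFamily O V₁ V₂ m) : LinearIndependent K m := by
  rw [Fintype.linearIndependent_iff]
  intro a ha l
  refine h.eq_zero_of_sum_eq_zero a ?_ l
  rw [← ha]
  exact Finset.sum_congr rfl fun l _ => (Algebra.smul_def _ _).symm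

/-- Coordinates of elements of `V₁ ∩ V₂` in an adapted basis lie in `O`. -/
theorem repr_mem (h : GoodFamily O V₁ V₂ m) (b : Module.Basis (ι₁ ⊕ ι₂) K F) (hb : ⇑b = m)
    {z : F} (hz₁ : z ∈ V₁) (hz₂ : z ∈ V₂) (l : ι₁ ⊕ ι₂) : b.repr z l ∈ O := by
  have hz : (∑ l, algebraMap K F (b.repr z l) * m l) = z := by
    conv_rhs => rw [← b.sum_repr z]
    refine Finset.sum_congr rfl fun l _ => ?_
    rw [Algebra.smul_def, hb]
  exact h.coeff_mem (fun l => b.repr z l) (by rw [hz]; exact hz₁) (by rw [hz]; exact hz₂) l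

theorem sum_repr_eq (b : Module.Basis (ι₁ ⊕ ι₂) K F) (hb : ⇑b = m) (z : F) :
    (∑ l, algebraMap K F (b.repr z l) * m l) = z := by
  conv_rhs => rw [← b.sum_repr z]
  refine Finset.sum_congr rfl fun l _ => ?_
  rw [Algebra.smul_def, hb]

/-- The matrix, with entries in `O`, of multiplication by `y ∈ V₁ ∩ V₂` in an adapted basis. -/
noncomputable def intMatrix (h : GoodFamily O V₁ V₂ m) (b : Module.Basis (ι₁ ⊕ ι₂) K F)
    (hb : ⇑b = m) {y : F} (hy₁ : y ∈ V₁) (hy₂ : y ∈ V₂) : Matrix (ι₁ ⊕ ι₂) (ι₁ ⊕ ι₂) O :=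
  fun k l => ⟨b.repr (y * m l) k,
    h.repr_mem b hb (mul_mem hy₁ (h.mem₁' l)) (mul_mem hy₂ (h.mem₂' l)) k⟩

theorem intMatrix_apply (h : GoodFamily O V₁ V₂ m) (b : Module.Basis (ι₁ ⊕ ι₂) K F)
    (hb : ⇑b = m) {y : F} (hy₁ : y ∈ V₁) (hy₂ : y ∈ V₂) (k l : ι₁ ⊕ ι₂) :
    ((h.intMatrix b hb hy₁ hy₂ k l : O) : K) = b.repr (y * m l) k := rfl

theorem intMatrix_map [DecidableEq ι₁] [DecidableEq ι₂] (h : GoodFamily O V₁ V₂ m)
    (b : Module.Basis (ι₁ ⊕ ι₂) K F) (hb : ⇑b = m) {y : F} (hy₁ : y ∈ V₁) (hy₂ : y ∈ V₂) :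
    (h.intMatrix b hb hy₁ hy₂).map O.subtype = Algebra.leftMulMatrix b y := by
  ext k l
  rw [Matrix.map_apply, Algebra.leftMulMatrix_eq_repr_mul, hb]
  rfl

/-- The norm of `y ∈ V₁ ∩ V₂` is the determinant of the integral matrix. -/
theorem norm_eq_det_intMatrix [DecidableEq ι₁] [DecidableEq ι₂] (h : GoodFamily O V₁ V₂ m)
    (b : Module.Basis (ι₁ ⊕ ι₂) K F) (hb : ⇑b = m) {y : F} (hy₁ : y ∈ V₁) (hy₂ : y ∈ V₂) :
    Algebra.norm K y = (((h.intMatrix b hb hy₁ hy₂).det : O) : K) := by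
  rw [Algebra.norm_eq_matrix_det b, ← h.intMatrix_map b hb hy₁ hy₂]
  have := RingHom.map_det O.subtype (h.intMatrix b hb hy₁ hy₂)
  rw [RingHom.mapMatrix_apply] at this
  rw [← this]
  rfl

/-- In the expansion of `z = ∑ a_l m_l` (integral coefficients), the reduction at `V₁` only sees
the first block. -/
theorem rho_sum₁ (h : GoodFamily O V₁ V₂ m) {k κ₁ : Type*} [Field k] [Field κ₁] [Algebra k κ₁]
    (π : O →+* k) (ρ₁ : V₁ →+* κ₁) (hρ₁ : ∀ z : V₁, V₁.valuation (z : F) < 1 → ρ₁ z = 0)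
    (hc₁ : ∀ a : O, ρ₁ ⟨algebraMap K F a, (h.over₁ a).2 a.2⟩ = algebraMap k κ₁ (π a))
    (a : ι₁ ⊕ ι₂ → O) {z : F} (hz : z ∈ V₁)
    (hza : (∑ l, algebraMap K F (a l : K) * m l) = z) :
    ρ₁ ⟨z, hz⟩ = ∑ i, π (a (Sum.inl i)) • ρ₁ ⟨m (Sum.inl i), h.mem₁ i⟩ := by
  have e : (⟨z, hz⟩ : V₁) =
      ∑ l, (⟨algebraMap K F (a l : K), (h.over₁ (a l : K)).2 (a l).2⟩ : V₁) *
        ⟨m l, h.mem₁' l⟩ := by
    apply Subtype.ext
    rw [AddSubmonoidClass.coe_finsetSum]
    simp only [MulMemClass.coe_mul]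
    exact hza.symm
  rw [e, map_sum, Fintype.sum_sum_type]
  have h2 : (∑ j, ρ₁ ((⟨algebraMap K F (a (Sum.inr j) : K),
      (h.over₁ (a (Sum.inr j) : K)).2 (a _).2⟩ : V₁) *
      ⟨m (Sum.inr j), h.mem₁' (Sum.inr j)⟩)) = 0 := by
    refine Finset.sum_eq_zero fun j _ => ?_
    rw [map_mul, hρ₁ ⟨m (Sum.inr j), h.mem₁' (Sum.inr j)⟩ (h.small₁ j), mul_zero]
  rw [h2, add_zero]
  refine Finset.sum_congr rfl fun i _ => ?_
  rw [map_mul, hc₁, Algebra.smul_def]

/-- In the expansion of `z = ∑ a_l m_l` (integral coefficients), the reduction at `V₂` only sees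
the second block. -/
theorem rho_sum₂ (h : GoodFamily O V₁ V₂ m) {k κ₂ : Type*} [Field k] [Field κ₂] [Algebra k κ₂]
    (π : O →+* k) (ρ₂ : V₂ →+* κ₂) (hρ₂ : ∀ z : V₂, V₂.valuation (z : F) < 1 → ρ₂ z = 0)
    (hc₂ : ∀ a : O, ρ₂ ⟨algebraMap K F a, (h.over₂ a).2 a.2⟩ = algebraMap k κ₂ (π a))
    (a : ι₁ ⊕ ι₂ → O) {z : F} (hz : z ∈ V₂)
    (hza : (∑ l, algebraMap K F (a l : K) * m l) = z) :
    ρ₂ ⟨z, hz⟩ = ∑ j, π (a (Sum.inr j)) • ρ₂ ⟨m (Sum.inr j), h.mem₂ j⟩ := by
  have e : (⟨z, hz⟩ : V₂) =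
      ∑ l, (⟨algebraMap K F (a l : K), (h.over₂ (a l : K)).2 (a l).2⟩ : V₂) *
        ⟨m l, h.mem₂' l⟩ := by
    apply Subtype.ext
    rw [AddSubmonoidClass.coe_finsetSum]
    simp only [MulMemClass.coe_mul]
    exact hza.symm
  rw [e, map_sum, Fintype.sum_sum_type]
  have h2 : (∑ i, ρ₂ ((⟨algebraMap K F (a (Sum.inl i) : K),
      (h.over₂ (a (Sum.inl i) : K)).2 (a _).2⟩ : V₂) *
      ⟨m (Sum.inl i), h.mem₂' (Sum.inl i)⟩)) = 0 := by
    refine Finset.sum_eq_zero fun i _ => ?_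
    rw [map_mul, hρ₂ ⟨m (Sum.inl i), h.mem₂' (Sum.inl i)⟩ (h.small₂ i), mul_zero]
  rw [h2, zero_add]
  refine Finset.sum_congr rfl fun j _ => ?_
  rw [map_mul, hc₂, Algebra.smul_def]

/-- **Norms commute with reduction, two extensions** (adapted-family form). -/
theorem norm_red (h : GoodFamily O V₁ V₂ m)
    (hcard : Fintype.card ι₁ + Fintype.card ι₂ = Module.finrank K F)
    {k κ₁ κ₂ : Type*} [Field k] [Field κ₁] [Field κ₂] [Algebra k κ₁] [Algebra k κ₂]
    (π : O →+* k) (ρ₁ : V₁ →+* κ₁) (ρ₂ : V₂ →+* κ₂)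
    (hπ : ∀ a : O, O.valuation (a : K) < 1 → π a = 0)
    (hρ₁ : ∀ z : V₁, V₁.valuation (z : F) < 1 → ρ₁ z = 0)
    (hρ₂ : ∀ z : V₂, V₂.valuation (z : F) < 1 → ρ₂ z = 0)
    (hc₁ : ∀ a : O, ρ₁ ⟨algebraMap K F a, (h.over₁ a).2 a.2⟩ = algebraMap k κ₁ (π a))
    (hc₂ : ∀ a : O, ρ₂ ⟨algebraMap K F a, (h.over₂ a).2 a.2⟩ = algebraMap k κ₂ (π a))
    (b₁ : Module.Basis ι₁ k κ₁) (hb₁ : ∀ i, ρ₁ ⟨m (Sum.inl i), h.mem₁ i⟩ = b₁ i)
    (b₂ : Module.Basis ι₂ k κ₂) (hb₂ : ∀ j, ρ₂ ⟨m (Sum.inr j), h.mem₂ j⟩ = b₂ j)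
    {y : F} (hy₁ : y ∈ V₁) (hy₂ : y ∈ V₂) :
    ∃ hN : Algebra.norm K y ∈ O,
      π ⟨Algebra.norm K y, hN⟩ =
        Algebra.norm k (ρ₁ ⟨y, hy₁⟩) * Algebra.norm k (ρ₂ ⟨y, hy₂⟩) := by
  classical
  have hne : Nonempty (ι₁ ⊕ ι₂) := by
    by_contra hemp
    rw [not_nonempty_iff] at hemp
    have : IsEmpty ι₁ := ⟨fun i => hemp.false (Sum.inl i)⟩
    have : Subsingleton κ₁ := by
      refine ⟨fun x y => b₁.ext_elem fun i => (IsEmpty.false i).elim⟩
    exact one_ne_zero (Subsingleton.elim (1 : κ₁) 0)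
  have hcard' : Fintype.card (ι₁ ⊕ ι₂) = Module.finrank K F := by
    rw [Fintype.card_sum]; exact hcard
  set b : Module.Basis (ι₁ ⊕ ι₂) K F :=
    basisOfLinearIndependentOfCardEqFinrank h.linearIndependent hcard' with hbdef
  have hb : ⇑b = m := coe_basisOfLinearIndependentOfCardEqFinrank _ _
  set A := h.intMatrix b hb hy₁ hy₂ with hA
  have hnorm := h.norm_eq_det_intMatrix b hb hy₁ hy₂
  have hcol : ∀ l, (∑ k, algebraMap K F ((A k l : O) : K) * m k) = y * m l := fun l =>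
    sum_repr_eq b hb (y * m l)
  -- the reduced matrix is block diagonal
  have hred : π.mapMatrix A =
      Matrix.fromBlocks (Algebra.leftMulMatrix b₁ (ρ₁ ⟨y, hy₁⟩)) 0 0
        (Algebra.leftMulMatrix b₂ (ρ₂ ⟨y, hy₂⟩)) := by
    ext k l
    rw [RingHom.mapMatrix_apply, Matrix.map_apply]
    rcases l with i | j
    · -- column `inl i`
      have hz₁ : y * m (Sum.inl i) ∈ V₁ := mul_mem hy₁ (h.mem₁ i)
      have hsmall : V₂.valuation (y * m (Sum.inl i)) < 1 :=
        val_mul_lt_one_right V₂ ((V₂.valuation_le_one_iff _).2 hy₂) (h.small₂ i)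
      rcases k with i' | j'
      · rw [Matrix.fromBlocks_apply₁₁, Algebra.leftMulMatrix_eq_repr_mul]
        have e1 := h.rho_sum₁ π ρ₁ hρ₁ hc₁ (fun k => A k (Sum.inl i)) hz₁ (hcol (Sum.inl i))
        have e2 : ρ₁ ⟨y * m (Sum.inl i), hz₁⟩ = ρ₁ ⟨y, hy₁⟩ * b₁ i := by
          rw [← hb₁ i, ← map_mul]; rfl
        rw [← e2, e1]
        simp only [hb₁]
        rw [b₁.repr_sum_self]
      · rw [Matrix.fromBlocks_apply₂₁, Matrix.zero_apply]
        refine hπ _ ?_
        refine h.small_inr (fun k => ((A k (Sum.inl i) : O) : K)) (fun k => (A k _).2) ?_ j'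
        rw [hcol]; exact hsmall
    · -- column `inr j`
      have hz₂ : y * m (Sum.inr j) ∈ V₂ := mul_mem hy₂ (h.mem₂ j)
      have hsmall : V₁.valuation (y * m (Sum.inr j)) < 1 :=
        val_mul_lt_one_right V₁ ((V₁.valuation_le_one_iff _).2 hy₁) (h.small₁ j)
      rcases k with i' | j'
      · rw [Matrix.fromBlocks_apply₁₂, Matrix.zero_apply]
        refine hπ _ ?_
        refine h.small_inl (fun k => ((A k (Sum.inr j) : O) : K)) (fun k => (A k _).2) ?_ i'
        rw [hcol]; exact hsmall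
      · rw [Matrix.fromBlocks_apply₂₂, Algebra.leftMulMatrix_eq_repr_mul]
        have e1 := h.rho_sum₂ π ρ₂ hρ₂ hc₂ (fun k => A k (Sum.inr j)) hz₂ (hcol (Sum.inr j))
        have e2 : ρ₂ ⟨y * m (Sum.inr j), hz₂⟩ = ρ₂ ⟨y, hy₂⟩ * b₂ j := by
          rw [← hb₂ j, ← map_mul]; rfl
        rw [← e2, e1]
        simp only [hb₂]
        rw [b₂.repr_sum_self]
  have hN : Algebra.norm K y ∈ O := by rw [hnorm]; exact (A.det).2
  refine ⟨hN, ?_⟩
  have e : (⟨Algebra.norm K y, hN⟩ : O) = A.det := Subtype.ext hnorm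
  rw [e, RingHom.map_det, hred, Matrix.det_fromBlocks_zero₂₁,
    Algebra.norm_eq_matrix_det b₁, Algebra.norm_eq_matrix_det b₂]

end GoodFamily

end Family

section Approx

variable {F : Type*} [Field F]

/-- Two incomparable valuation rings: there is `t` in the maximal ideal of `V₁` whose inverse
lies in the maximal ideal of `V₂`. -/
theorem exists_separating {V₁ V₂ : ValuationSubring F} (hne₁ : ¬ V₁ ≤ V₂) (hne₂ : ¬ V₂ ≤ V₁) :
    ∃ t : F, t ≠ 0 ∧ V₁.valuation t < 1 ∧ V₂.valuation t⁻¹ < 1 := by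
  obtain ⟨a, ha1, ha2⟩ := SetLike.not_le_iff_exists.1 hne₁
  obtain ⟨b, hb2, hb1⟩ := SetLike.not_le_iff_exists.1 hne₂
  have ha0 : a ≠ 0 := by rintro rfl; exact ha2 (zero_mem _)
  have hb0 : b ≠ 0 := by rintro rfl; exact hb1 (zero_mem _)
  have hv1a : V₁.valuation a ≤ 1 := (V₁.valuation_le_one_iff a).2 ha1
  have hv2b : V₂.valuation b ≤ 1 := (V₂.valuation_le_one_iff b).2 hb2
  have hv1b : 1 < V₁.valuation b := by
    rw [← not_le, V₁.valuation_le_one_iff]; exact hb1
  have hv2a : 1 < V₂.valuation a := by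
    rw [← not_le, V₂.valuation_le_one_iff]; exact ha2
  refine ⟨a * b⁻¹, mul_ne_zero ha0 (inv_ne_zero hb0), ?_, ?_⟩
  · refine val_mul_lt_one_right V₁ hv1a ?_
    rw [map_inv₀]; exact inv_lt_one_of_one_lt₀ hv1b
  · rw [mul_inv, inv_inv]
    refine val_mul_lt_one_left V₂ ?_ hv2b
    rw [map_inv₀]; exact inv_lt_one_of_one_lt₀ hv2a

/-- Two incomparable valuation rings: there is `e` with `e ≡ 0` at `V₁` and `e ≡ 1` at `V₂`. -/
theorem exists_idem {V₁ V₂ : ValuationSubring F} (hne₁ : ¬ V₁ ≤ V₂) (hne₂ : ¬ V₂ ≤ V₁) :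
    ∃ e : F, V₁.valuation e < 1 ∧ V₂.valuation (1 - e) < 1 := by
  obtain ⟨t, ht0, ht1, ht2⟩ := exists_separating hne₁ hne₂
  have hu1 : V₁.valuation (1 + t) = 1 := Valuation.map_one_add_of_lt _ ht1
  have hne : 1 + t ≠ 0 := by
    intro h; rw [h, map_zero] at hu1; exact zero_ne_one hu1
  have hpos : 0 < V₂.valuation t := by rw [Valuation.pos_iff]; exact ht0
  have ht2' : 1 < V₂.valuation t := by
    rw [map_inv₀] at ht2
    exact (inv_lt_one₀ hpos).1 ht2
  have hu2 : V₂.valuation (1 + t) = V₂.valuation t := by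
    rw [add_comm]
    exact Valuation.map_add_eq_of_lt_left _ (by rw [map_one]; exact ht2')
  refine ⟨t * (1 + t)⁻¹, ?_, ?_⟩
  · rw [map_mul, map_inv₀, hu1, inv_one, mul_one]; exact ht1
  · have e : 1 - t * (1 + t)⁻¹ = (1 + t)⁻¹ := by field_simp; ring
    rw [e, map_inv₀, hu2, ← map_inv₀]; exact ht2

/-- **Weak approximation** for two incomparable valuation rings (any rank): every `b ∈ V₁` is
congruent modulo the maximal ideal of `V₁` to an element of the maximal ideal of `V₂`. -/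
theorem exists_approx {V₁ V₂ : ValuationSubring F} (hne₁ : ¬ V₁ ≤ V₂) (hne₂ : ¬ V₂ ≤ V₁)
    {b : F} (hb : b ∈ V₁) :
    ∃ g : F, g ∈ V₁ ∧ V₁.valuation (g - b) < 1 ∧ V₂.valuation g < 1 := by
  obtain ⟨e, he1, he2⟩ := exists_idem hne₁ hne₂
  have hb1 : V₁.valuation b ≤ 1 := (V₁.valuation_le_one_iff b).2 hb
  have he2' : V₂.valuation e = 1 := by
    have : e = 1 - (1 - e) := by ring
    rw [this]
    exact Valuation.map_one_sub_of_lt _ he2
  -- step 1: an element `b'` of `V₁ ∩ V₂` congruent to `b` at `V₁`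
  obtain ⟨b', hb'1, hb'd, hb'2⟩ : ∃ b' : F, V₁.valuation b' ≤ 1 ∧ V₁.valuation (b' - b) < 1 ∧
      V₂.valuation b' ≤ 1 := by
    by_cases hb2 : V₂.valuation b ≤ 1
    · exact ⟨b, hb1, by rw [sub_self, map_zero]; exact zero_lt_one, hb2⟩
    · rw [not_le] at hb2
      have hbe1 : V₁.valuation (b * e) < 1 := val_mul_lt_one_right V₁ hb1 he1
      have hu1 : V₁.valuation (1 + b * e) = 1 := Valuation.map_one_add_of_lt _ hbe1
      have hne : 1 + b * e ≠ 0 := by
        intro h; rw [h, map_zero] at hu1; exact zero_ne_one hu1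
      have hbe2 : V₂.valuation (b * e) = V₂.valuation b := by rw [map_mul, he2', mul_one]
      have hu2 : V₂.valuation (1 + b * e) = V₂.valuation b := by
        rw [add_comm, ← hbe2]
        exact Valuation.map_add_eq_of_lt_left _ (by rw [map_one, hbe2]; exact hb2)
      have hb0 : V₂.valuation b ≠ 0 := (lt_trans zero_lt_one hb2).ne'
      refine ⟨b * (1 + b * e)⁻¹, ?_, ?_, ?_⟩
      · rw [map_mul, map_inv₀, hu1, inv_one, mul_one]; exact hb1
      · have e' : b * (1 + b * e)⁻¹ - b = -(b * (b * e)) * (1 + b * e)⁻¹ := by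
          field_simp; ring
        rw [e', map_mul, map_inv₀, hu1, inv_one, mul_one, Valuation.map_neg]
        exact val_mul_lt_one_right V₁ hb1 hbe1
      · rw [map_mul, map_inv₀, hu2, mul_inv_cancel₀ hb0]
  -- step 2: multiply by `1 - e`
  refine ⟨b' * (1 - e), ?_, ?_, ?_⟩
  · rw [← V₁.valuation_le_one_iff, map_mul]
    have : V₁.valuation (1 - e) = 1 := Valuation.map_one_sub_of_lt _ he1
    rw [this, mul_one]; exact hb'1
  · have e' : b' * (1 - e) - b = (b' - b) - b' * e := by ring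
    rw [e']
    exact Valuation.map_sub_lt _ hb'd (val_mul_lt_one_right V₁ hb'1 he1)
  · exact val_mul_lt_one_right V₂ hb'2 he2

end Approx

section Main

variable {K F : Type*} [Field K] [Field F] [Algebra K F]

/-- The kernel of a surjective ring homomorphism from a valuation ring onto a field is the
maximal ideal. -/
theorem map_eq_zero_iff_val_lt_one {k : Type*} [Field k] {V : ValuationSubring F}
    (ρ : V →+* k) (hρ : Function.Surjective ρ) (z : V) :
    ρ z = 0 ↔ V.valuation (z : F) < 1 := by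
  have h := IsLocalRing.eq_maximalIdeal (RingHom.ker_isMaximal_of_surjective ρ hρ)
  rw [← ValuationSubring.valuation_lt_one_iff, ← h, RingHom.mem_ker]

/-- **Norms commute with reduction, two extensions.**  `V₁`, `V₂` incomparable valuation rings of
`F` over `O ⊆ K`, with surjective reductions onto fields `κ₁`, `κ₂` finite over the residue field
`k` of `O`, and `[κ₁ : k] + [κ₂ : k] = [F : K]`.  Then for `y ∈ V₁ ∩ V₂` the norm `N_{F/K} y` lies
in `O` and reduces to `N_{κ₁/k} (ρ₁ y) * N_{κ₂/k} (ρ₂ y)`. -/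
theorem norm_red_two {O : ValuationSubring K} {V₁ V₂ : ValuationSubring F}
    (h₁ : Over O V₁) (h₂ : Over O V₂) (hne₁ : ¬ V₁ ≤ V₂) (hne₂ : ¬ V₂ ≤ V₁)
    {k κ₁ κ₂ : Type*} [Field k] [Field κ₁] [Field κ₂] [Algebra k κ₁] [Algebra k κ₂]
    [Module.Finite k κ₁] [Module.Finite k κ₂]
    (π : O →+* k) (ρ₁ : V₁ →+* κ₁) (ρ₂ : V₂ →+* κ₂)
    (hπ : Function.Surjective π) (hρ₁ : Function.Surjective ρ₁) (hρ₂ : Function.Surjective ρ₂)
    (hc₁ : ∀ a : O, ρ₁ ⟨algebraMap K F a, (h₁ a).2 a.2⟩ = algebraMap k κ₁ (π a))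
    (hc₂ : ∀ a : O, ρ₂ ⟨algebraMap K F a, (h₂ a).2 a.2⟩ = algebraMap k κ₂ (π a))
    (hdeg : Module.finrank k κ₁ + Module.finrank k κ₂ = Module.finrank K F)
    {y : F} (hy₁ : y ∈ V₁) (hy₂ : y ∈ V₂) :
    ∃ hN : Algebra.norm K y ∈ O,
      π ⟨Algebra.norm K y, hN⟩ =
        Algebra.norm k (ρ₁ ⟨y, hy₁⟩) * Algebra.norm k (ρ₂ ⟨y, hy₂⟩) := by
  classical
  set b₁ := Module.finBasis k κ₁ with hb₁def
  set b₂ := Module.finBasis k κ₂ with hb₂def
  choose e₁ he₁ using fun i => hρ₁ (b₁ i)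
  choose e₂ he₂ using fun j => hρ₂ (b₂ j)
  choose g₁ hg₁m hg₁d hg₁s using fun i => exists_approx hne₁ hne₂ (e₁ i).2
  choose g₂ hg₂m hg₂d hg₂s using fun j => exists_approx hne₂ hne₁ (e₂ j).2
  have hρg₁ : ∀ i, ρ₁ ⟨g₁ i, hg₁m i⟩ = b₁ i := fun i => by
    rw [← he₁ i, ← sub_eq_zero, ← map_sub, map_eq_zero_iff_val_lt_one ρ₁ hρ₁]
    exact hg₁d i
  have hρg₂ : ∀ j, ρ₂ ⟨g₂ j, hg₂m j⟩ = b₂ j := fun j => by
    rw [← he₂ j, ← sub_eq_zero, ← map_sub, map_eq_zero_iff_val_lt_one ρ₂ hρ₂]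
    exact hg₂d j
  have hπ0 : ∀ a : O, π a = 0 ↔ O.valuation (a : K) < 1 :=
    fun a => map_eq_zero_iff_val_lt_one π hπ a
  have hgood : GoodFamily O V₁ V₂ (Sum.elim g₁ g₂) :=
    { over₁ := h₁
      over₂ := h₂
      mem₁ := fun i => hg₁m i
      small₂ := fun i => hg₁s i
      mem₂ := fun j => hg₂m j
      small₁ := fun j => hg₂s j
      indep₁ := by
        intro a ha hsmall i
        simp only [Sum.elim_inl] at hsmall
        have hmem : (∑ i, algebraMap K F (a i) * g₁ i) ∈ V₁ :=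
          (V₁.valuation_le_one_iff _).1 hsmall.le
        have h0 : ρ₁ ⟨_, hmem⟩ = 0 := (map_eq_zero_iff_val_lt_one ρ₁ hρ₁ ⟨_, hmem⟩).2 hsmall
        have e : (⟨_, hmem⟩ : V₁) =
            ∑ i, (⟨algebraMap K F (a i), (h₁ (a i)).2 (ha i)⟩ : V₁) * ⟨g₁ i, hg₁m i⟩ := by
          apply Subtype.ext
          rw [AddSubmonoidClass.coe_finsetSum]
          simp only [MulMemClass.coe_mul]
        rw [e, map_sum] at h0
        have h0' : ∑ i, π ⟨a i, ha i⟩ • b₁ i = 0 := by
          rw [← h0]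
          refine Finset.sum_congr rfl fun i _ => ?_
          rw [map_mul, hρg₁, Algebra.smul_def, ← hc₁]
        have := Fintype.linearIndependent_iff.1 b₁.linearIndependent _ h0' i
        exact (hπ0 ⟨a i, ha i⟩).1 this
      indep₂ := by
        intro a ha hsmall j
        simp only [Sum.elim_inr] at hsmall
        have hmem : (∑ j, algebraMap K F (a j) * g₂ j) ∈ V₂ :=
          (V₂.valuation_le_one_iff _).1 hsmall.le
        have h0 : ρ₂ ⟨_, hmem⟩ = 0 := (map_eq_zero_iff_val_lt_one ρ₂ hρ₂ ⟨_, hmem⟩).2 hsmall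
        have e : (⟨_, hmem⟩ : V₂) =
            ∑ j, (⟨algebraMap K F (a j), (h₂ (a j)).2 (ha j)⟩ : V₂) * ⟨g₂ j, hg₂m j⟩ := by
          apply Subtype.ext
          rw [AddSubmonoidClass.coe_finsetSum]
          simp only [MulMemClass.coe_mul]
        rw [e, map_sum] at h0
        have h0' : ∑ j, π ⟨a j, ha j⟩ • b₂ j = 0 := by
          rw [← h0]
          refine Finset.sum_congr rfl fun j _ => ?_
          rw [map_mul, hρg₂, Algebra.smul_def, ← hc₂]
        have := Fintype.linearIndependent_iff.1 b₂.linearIndependent _ h0' j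
        exact (hπ0 ⟨a j, ha j⟩).1 this }
  refine hgood.norm_red (by simpa using hdeg) π ρ₁ ρ₂ (fun a ha => (hπ0 a).2 ha)
    (fun z hz => (map_eq_zero_iff_val_lt_one ρ₁ hρ₁ z).2 hz)
    (fun z hz => (map_eq_zero_iff_val_lt_one ρ₂ hρ₂ z).2 hz) hc₁ hc₂ b₁ hρg₁ b₂ hρg₂ hy₁ hy₂

end Main

section Insep

variable {k κ : Type*} [Field k] [Field κ] [Algebra k κ]

/-- Norm in a residue extension of degree one. -/
theorem algebraMap_norm_of_finrank_eq_one (hdeg : Module.finrank k κ = 1) (z : κ) :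
    algebraMap k κ (Algebra.norm k z) = z := by
  have hfin : FiniteDimensional k κ := Module.finite_of_finrank_pos (by rw [hdeg]; exact one_pos)
  have htop : (⊥ : Subalgebra k κ) = ⊤ := Subalgebra.bot_eq_top_of_finrank_eq_one hdeg
  have hz : z ∈ (⊥ : Subalgebra k κ) := by rw [htop]; exact Algebra.mem_top
  obtain ⟨a, rfl⟩ := Algebra.mem_bot.1 hz
  rw [Algebra.norm_algebraMap, hdeg, pow_one]

/-- Norm in a purely inseparable residue extension of degree `q = char`: if `z ^ q` comes from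
`a ∈ k`, then `N z = a`. -/
theorem norm_eq_of_pow_eq (q : ℕ) [Fact q.Prime] [CharP k q] (hdeg : Module.finrank k κ = q)
    {z : κ} {a : k} (ha : algebraMap k κ a = z ^ q) : Algebra.norm k z = a := by
  have h1 : (Algebra.norm k z) ^ q = a ^ q := by
    rw [← map_pow, ← ha, Algebra.norm_algebraMap, hdeg]
  exact frobenius_inj k q h1

theorem algebraMap_norm_eq_pow (q : ℕ) [Fact q.Prime] [CharP k q]
    (hdeg : Module.finrank k κ = q) (hpow : ∀ z : κ, z ^ q ∈ (algebraMap k κ).range) (z : κ) :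
    algebraMap k κ (Algebra.norm k z) = z ^ q := by
  obtain ⟨a, ha⟩ := hpow z
  rw [norm_eq_of_pow_eq q hdeg ha, ha]

end Insep

section Hecke

variable {K F : Type*} [Field K] [Field F] [Algebra K F]

/-- **Norm reduction for a degeneracy map at a prime of bad reduction.**
`[F : K] = q + 1`, two extensions `V₁` (residue degree `1`) and `V₂` (residue degree `q`, with
`κ₂ ^ q ⊆ k`).  For `y ∈ V₁ ∩ V₂` the norm is integral and
`red (N y) = red₁ y * a`, where `a ∈ k` is the element with `a = (red₂ y) ^ q` in `κ₂`. -/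
theorem norm_red_insep {O : ValuationSubring K} {V₁ V₂ : ValuationSubring F}
    (h₁ : Over O V₁) (h₂ : Over O V₂) (hne₁ : ¬ V₁ ≤ V₂) (hne₂ : ¬ V₂ ≤ V₁)
    {k κ₁ κ₂ : Type*} [Field k] [Field κ₁] [Field κ₂] [Algebra k κ₁] [Algebra k κ₂]
    (q : ℕ) [Fact q.Prime] [CharP k q]
    (π : O →+* k) (ρ₁ : V₁ →+* κ₁) (ρ₂ : V₂ →+* κ₂)
    (hπ : Function.Surjective π) (hρ₁ : Function.Surjective ρ₁) (hρ₂ : Function.Surjective ρ₂)
    (hc₁ : ∀ a : O, ρ₁ ⟨algebraMap K F a, (h₁ a).2 a.2⟩ = algebraMap k κ₁ (π a))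
    (hc₂ : ∀ a : O, ρ₂ ⟨algebraMap K F a, (h₂ a).2 a.2⟩ = algebraMap k κ₂ (π a))
    (hdeg₁ : Module.finrank k κ₁ = 1) (hdeg₂ : Module.finrank k κ₂ = q)
    (hdeg : Module.finrank K F = q + 1)
    {y : F} (hy₁ : y ∈ V₁) (hy₂ : y ∈ V₂) {a : k}
    (ha : algebraMap k κ₂ a = ρ₂ ⟨y, hy₂⟩ ^ q) :
    ∃ hN : Algebra.norm K y ∈ O,
      algebraMap k κ₁ (π ⟨Algebra.norm K y, hN⟩) = ρ₁ ⟨y, hy₁⟩ * algebraMap k κ₁ a := by
  have hq : 0 < q := (Fact.out : q.Prime).pos
  have : Module.Finite k κ₁ := Module.finite_of_finrank_pos (by rw [hdeg₁]; exact one_pos)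
  have : Module.Finite k κ₂ := Module.finite_of_finrank_pos (by rw [hdeg₂]; exact hq)
  obtain ⟨hN, hred⟩ := norm_red_two h₁ h₂ hne₁ hne₂ π ρ₁ ρ₂ hπ hρ₁ hρ₂ hc₁ hc₂
    (by rw [hdeg₁, hdeg₂, hdeg, add_comm]) hy₁ hy₂
  refine ⟨hN, ?_⟩
  rw [hred, map_mul, algebraMap_norm_of_finrank_eq_one hdeg₁, norm_eq_of_pow_eq q hdeg₂ ha]

end Hecke

end Fermat.Agent.S35.H253

end
-- ===== PACK-END S35/H253/NormRed2.lean

-- ===== PACK-BEGIN A2/Alg/H754/LocU.lean
section


/-!
# A2 / ALG / P-S (helper754): elementwise local units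

`B` a domain with fraction field `F`, `𝔮` a prime of `B`.  `LocU 𝔮 f` : `f` is a unit of `B_𝔮`,
elementwise (`f = a / b`, `a, b ∈ B ∖ 𝔮`).  Closure under products, inverses, integer powers;
comparison with a valuation subring `W = B_𝔮` of `F`.
-/

set_option autoImplicit false

namespace Fermat.Agent.A2.Alg.H754

variable {B F : Type*} [CommRing B] [Field F] [Algebra B F]

/-- `f` is a unit of `B_𝔮`, elementwise. -/
def LocU (𝔮 : Ideal B) (f : F) : Prop :=
  ∃ a b : B, a ∉ 𝔮 ∧ b ∉ 𝔮 ∧ f * algebraMap B F b = algebraMap B F a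

namespace LocU

variable {𝔮 : Ideal B}

theorem one (h1 : (1 : B) ∉ 𝔮) : LocU 𝔮 (1 : F) :=
  ⟨1, 1, h1, h1, by rw [map_one, mul_one]⟩

theorem of_notMem {b : B} (hb : b ∉ 𝔮) (h1 : (1 : B) ∉ 𝔮) : LocU 𝔮 (algebraMap B F b) :=
  ⟨b, 1, hb, h1, by rw [map_one, mul_one]⟩

theorem mono {𝔮' : Ideal B} (h : 𝔮 ≤ 𝔮') {f : F} (hf : LocU 𝔮' f) : LocU 𝔮 f := by
  obtain ⟨a, b, ha, hb, hab⟩ := hf
  exact ⟨a, b, fun h' => ha (h h'), fun h' => hb (h h'), hab⟩

theorem mul [h𝔮 : 𝔮.IsPrime] {f g : F} (hf : LocU 𝔮 f) (hg : LocU 𝔮 g) : LocU 𝔮 (f * g) := by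
  obtain ⟨a, b, ha, hb, hab⟩ := hf
  obtain ⟨a', b', ha', hb', hab'⟩ := hg
  refine ⟨a * a', b * b', ?_, ?_, ?_⟩
  · exact fun h => (h𝔮.mem_or_mem h).elim ha ha'
  · exact fun h => (h𝔮.mem_or_mem h).elim hb hb'
  · rw [map_mul, map_mul, ← hab, ← hab']
    ring

theorem pow [h𝔮 : 𝔮.IsPrime] {f : F} (hf : LocU 𝔮 f) (k : ℕ) : LocU 𝔮 (f ^ k) := by
  induction k with
  | zero =>
    rw [pow_zero]
    exact one (fun h => h𝔮.ne_top ((Ideal.eq_top_iff_one _).2 h))
  | succ k ih =>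
    rw [pow_succ]
    exact ih.mul hf

variable [FaithfulSMul B F]

theorem algebraMap_ne_zero {b : B} (hb : b ∉ 𝔮) : algebraMap B F b ≠ 0 := by
  intro h
  have : b = 0 := FaithfulSMul.algebraMap_injective B F (by rw [h, map_zero])
  exact hb (this ▸ 𝔮.zero_mem)

theorem ne_zero {f : F} (hf : LocU 𝔮 f) : f ≠ 0 := by
  obtain ⟨a, b, ha, hb, hab⟩ := hf
  rintro rfl
  rw [zero_mul] at hab
  exact algebraMap_ne_zero ha hab.symm

theorem inv {f : F} (hf : LocU 𝔮 f) : LocU 𝔮 f⁻¹ := by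
  have hf0 := hf.ne_zero
  obtain ⟨a, b, ha, hb, hab⟩ := hf
  refine ⟨b, a, hb, ha, ?_⟩
  rw [← hab, ← mul_assoc, inv_mul_cancel₀ hf0, one_mul]

theorem zpow [h𝔮 : 𝔮.IsPrime] {f : F} (hf : LocU 𝔮 f) (k : ℤ) : LocU 𝔮 (f ^ k) := by
  cases k with
  | ofNat k =>
    rw [Int.ofNat_eq_natCast, zpow_natCast]
    exact hf.pow k
  | negSucc k =>
    rw [zpow_negSucc]
    exact (hf.pow (k + 1)).inv

/-- cancel a power: used with a valuation ring. -/
theorem of_mul_left [h𝔮 : 𝔮.IsPrime] {f g : F} (hfg : LocU 𝔮 (f * g)) (hg : LocU 𝔮 g) :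
    LocU 𝔮 f := by
  have hg0 := hg.ne_zero
  have := hfg.mul hg.inv
  rwa [mul_assoc, mul_inv_cancel₀ hg0, mul_one] at this

end LocU

section Val

variable [FaithfulSMul B F]

/-- `f` and `f⁻¹` both in `B_𝔮` (elementwise) implies `f` is a unit of `B_𝔮`. -/
theorem locU_of_frac_of_inv_frac (𝔮 : Ideal B) [h𝔮 : 𝔮.IsPrime] {f : F} (hf : f ≠ 0)
    (h1 : ∃ a s : B, s ∉ 𝔮 ∧ f * algebraMap B F s = algebraMap B F a)
    (h2 : ∃ a s : B, s ∉ 𝔮 ∧ f⁻¹ * algebraMap B F s = algebraMap B F a) : LocU 𝔮 f := by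
  obtain ⟨a, s, hs, has⟩ := h1
  obtain ⟨a', s', hs', has'⟩ := h2
  refine ⟨a, s, ?_, hs, has⟩
  intro ha
  have e : algebraMap B F (a * a') = algebraMap B F (s * s') := by
    rw [map_mul, map_mul, ← has, ← has']
    field_simp
  have e' : a * a' = s * s' := FaithfulSMul.algebraMap_injective B F e
  have : s * s' ∈ 𝔮 := e' ▸ 𝔮.mul_mem_right a' ha
  exact (h𝔮.mem_or_mem this).elim hs hs'

/-- Units of a valuation subring `W = B_𝔮`. -/
theorem locU_iff_of_valuationSubring (𝔮 : Ideal B) [h𝔮 : 𝔮.IsPrime] (W : ValuationSubring F)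
    (hW : ∀ f : F, f ∈ W ↔ ∃ a s : B, s ∉ 𝔮 ∧ f * algebraMap B F s = algebraMap B F a)
    {f : F} (hf : f ≠ 0) : LocU 𝔮 f ↔ f ∈ W ∧ f⁻¹ ∈ W := by
  constructor
  · intro h
    refine ⟨?_, ?_⟩
    · obtain ⟨a, b, -, hb, hab⟩ := h
      exact (hW f).2 ⟨a, b, hb, hab⟩
    · obtain ⟨a, b, -, hb, hab⟩ := h.inv
      exact (hW f⁻¹).2 ⟨a, b, hb, hab⟩
  · rintro ⟨h1, h2⟩
    exact locU_of_frac_of_inv_frac 𝔮 hf ((hW f).1 h1) ((hW f⁻¹).1 h2)

/-- In a valuation ring, an element whose positive power is a unit is a unit. -/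
theorem locU_of_pow (𝔮 : Ideal B) [h𝔮 : 𝔮.IsPrime] (W : ValuationSubring F)
    (hW : ∀ f : F, f ∈ W ↔ ∃ a s : B, s ∉ 𝔮 ∧ f * algebraMap B F s = algebraMap B F a)
    {f : F} {m : ℕ} (hm : 0 < m) (h : LocU 𝔮 (f ^ m)) : LocU 𝔮 f := by
  have hf0 : f ≠ 0 := by
    rintro rfl
    rw [zero_pow hm.ne'] at h
    exact h.ne_zero rfl
  obtain ⟨k, rfl⟩ : ∃ k, m = k + 1 := ⟨m - 1, (Nat.sub_add_cancel hm).symm⟩
  obtain ⟨h1, h2⟩ := (locU_iff_of_valuationSubring 𝔮 W hW (pow_ne_zero _ hf0)).1 h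
  rw [locU_iff_of_valuationSubring 𝔮 W hW hf0]
  rcases W.mem_or_inv_mem f with hf | hf
  · refine ⟨hf, ?_⟩
    have e : f⁻¹ = f ^ k * (f ^ (k + 1))⁻¹ := by
      rw [pow_succ]
      field_simp
    rw [e]
    exact W.mul_mem _ _ (pow_mem hf k) h2
  · refine ⟨?_, hf⟩
    have e : f = f⁻¹ ^ k * f ^ (k + 1) := by
      rw [pow_succ, inv_pow]
      field_simp
    rw [e]
    exact W.mul_mem _ _ (pow_mem hf k) h1

end Val

end Fermat.Agent.A2.Alg.H754

end
-- ===== PACK-END A2/Alg/H754/LocU.lean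

-- ===== PACK-BEGIN A2/H528/FrobCong.lean
section





/-!
# A2 — the Frobenius congruence `f(q^ℓ) ≡ f(q)^ℓ (mod ℓ)` for Laurent series

* `qExpand_eq_pow_zmod` : over `𝔽_ℓ`, `f(q^ℓ) = f(q)^ℓ`;
* `exists_frobCong`     : over `ℤ`, `f(q^ℓ) - f(q)^ℓ = ℓ · g` with `g ∈ ℤ((q))`.
-/

set_option autoImplicit false

noncomputable section

open ModularCurve HahnSeries

namespace Fermat.Agent.A2.H528

theorem qExpand_ofPowerSeries {R : Type*} [CommRing R] (n : ℕ) [NeZero n] (u : PowerSeries R) :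
    qExpand R n (HahnSeries.ofPowerSeries ℤ R u)
      = HahnSeries.ofPowerSeries ℤ R (u.expand n (NeZero.ne n)) := by
  have hn : (n : ℤ) ≠ 0 := by exact_mod_cast NeZero.ne n
  have hn0 : 0 < (n : ℤ) := by exact_mod_cast Nat.pos_of_ne_zero (NeZero.ne n)
  ext k
  by_cases hk : (n : ℤ) ∣ k
  · obtain ⟨m, rfl⟩ := hk
    rw [qExpand_coeff_mul]
    rcases le_or_gt 0 m with hm | hm
    · lift m to ℕ using hm
      rw [HahnSeries.ofPowerSeries_apply_coeff,
        show (n : ℤ) * (m : ℤ) = ((n * m : ℕ) : ℤ) by push_cast; ring,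
        HahnSeries.ofPowerSeries_apply_coeff, PowerSeries.coeff_expand_mul]
    · rw [ofPowerSeries_coeff_of_neg _ hm,
        ofPowerSeries_coeff_of_neg _ (mul_neg_of_pos_of_neg hn0 hm)]
  · rw [qExpand_coeff_of_not_dvd n _ hk]
    rcases le_or_gt 0 k with hk0 | hk0
    · lift k to ℕ using hk0
      rw [HahnSeries.ofPowerSeries_apply_coeff, PowerSeries.coeff_expand_of_not_dvd]
      intro h
      exact hk (by exact_mod_cast h)
    · rw [ofPowerSeries_coeff_of_neg _ hk0]

variable (ℓ : ℕ) [hℓ : Fact ℓ.Prime]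

theorem powerSeries_pow_eq_expand (u : PowerSeries (ZMod ℓ)) :
    u ^ ℓ = u.expand ℓ hℓ.out.ne_zero := by
  have h := MvPowerSeries.map_frobenius_expand (σ := Unit) (R := ZMod ℓ) ℓ hℓ.out.ne_zero (f := u)
  have hf : frobenius (ZMod ℓ) ℓ = RingHom.id (ZMod ℓ) := by
    ext a
    simp
  rw [hf, MvPowerSeries.map_id] at h
  exact h.symm

/-- **Frobenius in characteristic `ℓ`**: `f(q^ℓ) = f(q)^ℓ` for `f ∈ 𝔽_ℓ((q))`. -/
theorem qExpand_eq_pow_zmod (f : LaurentSeries (ZMod ℓ)) :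
    qExpand (ZMod ℓ) ℓ f = f ^ ℓ := by
  conv_lhs => rw [← LaurentSeries.single_order_mul_powerSeriesPart f]
  conv_rhs => rw [← LaurentSeries.single_order_mul_powerSeriesPart f]
  rw [map_mul, mul_pow, qExpand_single, HahnSeries.single_pow, one_pow, qExpand_ofPowerSeries,
    ← map_pow, powerSeries_pow_eq_expand, nsmul_eq_mul]

/-- division by `ℓ` as a zero-preserving map of `ℤ` -/
def divPrime : ZeroHom ℤ ℤ where
  toFun c := c / ℓ
  map_zero' := by simp

/-- **Frobenius congruence**: `f(q^ℓ) - f(q)^ℓ ∈ ℓ · ℤ((q))` for `f ∈ ℤ((q))`. -/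
theorem exists_frobCong (x : LaurentSeries ℤ) :
    ∃ g : LaurentSeries ℤ, qExpand ℤ ℓ x - x ^ ℓ = HahnSeries.C (ℓ : ℤ) * g := by
  set D : LaurentSeries ℤ := qExpand ℤ ℓ x - x ^ ℓ with hD
  have h0 : coeffMap (Int.castRingHom (ZMod ℓ)) D = 0 := by
    rw [hD, map_sub, map_pow, coeffMap_qExpand, qExpand_eq_pow_zmod, sub_self]
  have hdvd : ∀ k : ℤ, (ℓ : ℤ) ∣ D.coeff k := by
    intro k
    have h1 := congrArg (fun s => s.coeff k) h0
    simp only [coeffMap_coeff, HahnSeries.coeff_zero, eq_intCast] at h1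
    exact (ZMod.intCast_zmod_eq_zero_iff_dvd _ _).mp h1
  refine ⟨D.map (divPrime ℓ), ?_⟩
  ext k
  rw [HahnSeries.C_mul_eq_smul, HahnSeries.coeff_smul, HahnSeries.map_coeff, smul_eq_mul]
  show D.coeff k = (ℓ : ℤ) * (D.coeff k / ℓ)
  rw [Int.mul_ediv_cancel' (hdvd k)]

end Fermat.Agent.A2.H528

end
end
-- ===== PACK-END A2/H528/FrobCong.lean

-- ===== PACK-BEGIN A2/H489/TwoExt.lean
section


/-!
# A2 / M1-abs (helper489): extensions of a discrete valuation to a finite separable extension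

Mathlib-only.  `S` Dedekind domain with fraction field `F`.

* `center V hV` : the centre on `S` of a valuation subring `V ⊇ S` of `F`.
* `eq_valuationSubring_of_center` : a valuation subring `V ≠ ⊤` of `F` containing `S` is the
  valuation subring of the `𝔓`-adic valuation, `𝔓` its centre.
-/

set_option autoImplicit false

namespace Fermat.Agent.A2.H489

open IsDedekindDomain IsLocalRing

section Center

variable {S F : Type*} [CommRing S] [Field F] [Algebra S F]

/-- the structure map `S → V` for a valuation subring `V` of `F` containing the image of `S`. -/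
def toValSub (V : ValuationSubring F) (hV : ∀ s : S, algebraMap S F s ∈ V) : S →+* V :=
  (algebraMap S F).codRestrict V.toSubring hV

@[simp]
theorem coe_toValSub (V : ValuationSubring F) (hV : ∀ s : S, algebraMap S F s ∈ V) (s : S) :
    ((toValSub V hV s : V) : F) = algebraMap S F s := rfl

/-- The centre on `S` of a valuation subring `V ⊇ S` of `F`. -/
def center (V : ValuationSubring F) (hV : ∀ s : S, algebraMap S F s ∈ V) : Ideal S :=
  (IsLocalRing.maximalIdeal V).comap (toValSub V hV)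

instance center_isPrime (V : ValuationSubring F) (hV : ∀ s : S, algebraMap S F s ∈ V) :
    (center V hV).IsPrime :=
  Ideal.comap_isPrime _ _

theorem mem_center_iff (V : ValuationSubring F) (hV : ∀ s : S, algebraMap S F s ∈ V) (s : S) :
    s ∈ center V hV ↔ algebraMap S F s ∈ V.nonunits := by
  rw [center, Ideal.mem_comap, ← ValuationSubring.coe_mem_nonunits_iff, coe_toValSub]

theorem mem_center_iff_valuation (V : ValuationSubring F)
    (hV : ∀ s : S, algebraMap S F s ∈ V) (s : S) :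
    s ∈ center V hV ↔ V.valuation (algebraMap S F s) < 1 := by
  rw [mem_center_iff, ValuationSubring.mem_nonunits_iff]

theorem inv_mem_of_not_mem_center (V : ValuationSubring F)
    (hV : ∀ s : S, algebraMap S F s ∈ V) {s : S} (hs : s ∉ center V hV) :
    (algebraMap S F s)⁻¹ ∈ V := by
  rw [mem_center_iff, ValuationSubring.mem_nonunits_iff_or, not_or, not_not] at hs
  exact hs.2

end Center

section Dedekind

variable {S F : Type*} [CommRing S] [IsDedekindDomain S] [Field F] [Algebra S F]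
  [IsFractionRing S F]

/-- A valuation subring `V ≠ ⊤` of `F = Frac S` containing the Dedekind domain `S` is the
valuation subring of the adic valuation at its centre. -/
theorem eq_valuationSubring_of_center (V : ValuationSubring F)
    (hV : ∀ s : S, algebraMap S F s ∈ V) (hne : V ≠ ⊤)
    (v : HeightOneSpectrum S) (hv : v.asIdeal = center V hV) :
    V = (v.valuation F).valuationSubring := by
  have hle : (v.valuation F).valuationSubring ≤ V := by
    intro x hx
    obtain ⟨n, d, hnd⟩ := v.exists_primeCompl_mul_eq_of_integer x hx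
    have hd : (d : S) ∉ center V hV := by
      rw [← hv]; exact d.2
    have hdinv := inv_mem_of_not_mem_center V hV hd
    have hd0 : algebraMap S F (d : S) ≠ 0 := by
      intro h0
      apply hd
      rw [mem_center_iff, h0]
      exact V.nonunits.zero_mem
    have hx' : x = algebraMap S F n * (algebraMap S F (d : S))⁻¹ := by
      rw [← hnd]; field_simp
    rw [hx']
    exact V.mul_mem _ _ (hV n) hdinv
  have h1 := v.valuationSubringAtPrime_eq_valuationSubring (K := F)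
  have h2 : v.valuationSubringAtPrime F ≤ V := by rw [h1]; exact hle
  rw [← h1]
  exact (ValuationSubring.eq_of_le_of_ne_top (v.valuationSubringAtPrime F) h2 hne).symm

/-- The centre of a valuation subring `V ≠ ⊤` containing `S` is nonzero. -/
theorem center_ne_bot (V : ValuationSubring F) (hV : ∀ s : S, algebraMap S F s ∈ V)
    (hne : V ≠ ⊤) : center V hV ≠ ⊥ := by
  intro hbot
  apply hne
  rw [eq_top_iff]
  intro x _
  obtain ⟨a, b, hb, rfl⟩ := IsFractionRing.div_surjective (A := S) x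
  have hb' : b ∉ center V hV := by
    rw [hbot]
    intro h
    exact (nonZeroDivisors.ne_zero hb) (by simpa using h)
  rw [div_eq_mul_inv]
  exact V.mul_mem _ _ (hV a) (inv_mem_of_not_mem_center V hV hb')

/-- The centre as a height-one prime. -/
def centerSpec (V : ValuationSubring F) (hV : ∀ s : S, algebraMap S F s ∈ V)
    (hne : V ≠ ⊤) : HeightOneSpectrum S where
  asIdeal := center V hV
  isPrime := center_isPrime V hV
  ne_bot := center_ne_bot V hV hne

theorem eq_valuationSubring_centerSpec (V : ValuationSubring F)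
    (hV : ∀ s : S, algebraMap S F s ∈ V) (hne : V ≠ ⊤) :
    V = ((centerSpec V hV hne).valuation F).valuationSubring :=
  eq_valuationSubring_of_center V hV hne _ rfl

/-- Two valuation subrings `≠ ⊤` containing `S` with the same centre are equal. -/
theorem eq_of_center_eq (V W : ValuationSubring F)
    (hV : ∀ s : S, algebraMap S F s ∈ V) (hW : ∀ s : S, algebraMap S F s ∈ W)
    (hVne : V ≠ ⊤) (hWne : W ≠ ⊤) (h : center V hV = center W hW) : V = W := by
  rw [eq_valuationSubring_centerSpec V hV hVne,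
    eq_valuationSubring_of_center W hW hWne (centerSpec V hV hVne) h]

end Dedekind

end Fermat.Agent.A2.H489

end
-- ===== PACK-END A2/H489/TwoExt.lean

-- ===== PACK-BEGIN A2/Mod/H31/Biv.lean
section


/-!
# A2 / MOD leaf L8 (helper31) — part 1: bivariate degree lemmas (Mathlib only)

`k ⊆ L` fields, `a b : L`, `a` transcendental over `k`.  For an irreducible `P ∈ k[X][Y]` of
positive `Y`-degree with `P(a, b) = 0` we have `[k(a)(b) : k(a)] = deg_Y P`
(`finrank_adjoin_of_irreducible`).  For a polynomial `A`, monic of degree `n` in `Y`, with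
`A(a, b) = A(b, a) = 0` and `[k(a)(b) : k(a)] = n`, the polynomial `A` is symmetric up to a constant
(`exists_swap_eq`) and `[k(ab)(a) : k(ab)] = 2 n` (`finrank_adjoin_mul`).
-/

set_option autoImplicit false

noncomputable section

namespace Fermat.Agent.A2.Mod.H31

open Polynomial IntermediateField
open scoped Polynomial.Bivariate

section Biv

variable {k L : Type*} [Field k] [Field L] [Algebra k L]

/-- The image of a bivariate polynomial over `k` in `k(a)[Y]`, `X ↦ a`. -/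
def bivMap (a : L) : k[X][Y] →+* (k⟮a⟯)[X] :=
  mapRingHom (aeval (AdjoinSimple.gen k a)).toRingHom

theorem transcendental_gen {a : L} (ha : Transcendental k a) :
    Transcendental k (AdjoinSimple.gen k a) := by
  intro h
  apply ha
  have := h.algebraMap (A := L)
  simpa using this

theorem aeval_gen_injective {a : L} (ha : Transcendental k a) :
    Function.Injective (aeval (R := k) (AdjoinSimple.gen k a)).toRingHom :=
  transcendental_iff_injective.mp (transcendental_gen ha)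

theorem bivMap_injective {a : L} (ha : Transcendental k a) :
    Function.Injective (bivMap (k := k) a) :=
  Polynomial.map_injective _ (aeval_gen_injective ha)

theorem aevalAeval_eq_eval₂ (a b : L) (P : k[X][Y]) :
    aevalAeval a b P = eval₂ (aeval (R := k) a).toRingHom b P := by
  induction P using Polynomial.induction_on' with
  | add p q hp hq => simp only [eval₂_add, map_add, hp, hq]
  | monomial n c =>
    rw [eval₂_monomial, ← C_mul_X_pow_eq_monomial, map_mul, map_pow, aevalAeval_C, aevalAeval_Y]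
    rfl

theorem aeval_bivMap (a b : L) (P : k[X][Y]) :
    aeval b (bivMap a P) = aevalAeval a b P := by
  have h : (algebraMap k⟮a⟯ L).comp (aeval (R := k) (AdjoinSimple.gen k a)).toRingHom
      = (aeval (R := k) a).toRingHom := by
    apply Polynomial.ringHom_ext
    · intro r; simp
    · simp
  rw [bivMap, coe_mapRingHom, aeval_def, eval₂_map, h, aevalAeval_eq_eval₂]

/-- The algebra structure `k[X] → k(a)`, `X ↦ a`. -/
@[reducible] def algPoly (a : L) : Algebra k[X] k⟮a⟯ :=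
  (aeval (R := k) (AdjoinSimple.gen k a)).toRingHom.toAlgebra

theorem isFractionRing_poly {a : L} (ha : Transcendental k a) :
    letI := algPoly (k := k) a
    IsFractionRing k[X] k⟮a⟯ := by
  letI := algPoly (k := k) a
  haveI : FaithfulSMul k[X] k⟮a⟯ :=
    (faithfulSMul_iff_algebraMap_injective _ _).mpr (aeval_gen_injective ha)
  refine IsFractionRing.of_field _ _ fun x => ?_
  obtain ⟨r, s, hrs⟩ := (mem_adjoin_simple_iff k (x : L)).mp x.2
  refine ⟨r, s, Subtype.ext ?_⟩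
  rw [hrs]
  have h1 : ∀ p : k[X], ((algebraMap k[X] k⟮a⟯ p : k⟮a⟯) : L) = aeval a p := by
    intro p
    show ((aeval (R := k) (AdjoinSimple.gen k a) p : k⟮a⟯) : L) = aeval a p
    rw [← IntermediateField.algebraMap_apply, ← aeval_algebraMap_apply, AdjoinSimple.algebraMap_gen]
  push_cast
  rw [h1, h1]

theorem irreducible_bivMap {a : L} (ha : Transcendental k a) {P : k[X][Y]}
    (hP : Irreducible P) (hdeg : P.natDegree ≠ 0) : Irreducible (bivMap a P) := by
  letI := algPoly (k := k) a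
  haveI := isFractionRing_poly ha
  exact (IsPrimitive.irreducible_iff_irreducible_map_fraction_map (K := k⟮a⟯)
    (hP.isPrimitive hdeg)).mp hP

theorem natDegree_bivMap {a : L} (ha : Transcendental k a) (P : k[X][Y]) :
    (bivMap a P).natDegree = P.natDegree :=
  natDegree_map_eq_of_injective (aeval_gen_injective ha) P

/-- **Degree from an irreducible relation.** -/
theorem minpoly_eq_of_irreducible {a b : L} (ha : Transcendental k a) {P : k[X][Y]}
    (hP : Irreducible P) (hdeg : P.natDegree ≠ 0) (h0 : aevalAeval a b P = 0) :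
    minpoly k⟮a⟯ b = bivMap a P * C (bivMap a P).leadingCoeff⁻¹ :=
  (minpoly.eq_of_irreducible (irreducible_bivMap ha hP hdeg)
    ((aeval_bivMap a b P).trans h0)).symm

theorem isIntegral_of_irreducible {a b : L} (ha : Transcendental k a) {P : k[X][Y]}
    (hP : Irreducible P) (hdeg : P.natDegree ≠ 0) (h0 : aevalAeval a b P = 0) :
    IsIntegral k⟮a⟯ b := by
  have hne : bivMap a P ≠ 0 := (irreducible_bivMap ha hP hdeg).ne_zero
  exact (isAlgebraic_iff_isIntegral).mp ⟨bivMap a P, hne, (aeval_bivMap a b P).trans h0⟩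

theorem finrank_adjoin_of_irreducible {a b : L} (ha : Transcendental k a) {P : k[X][Y]}
    (hP : Irreducible P) (hdeg : P.natDegree ≠ 0) (h0 : aevalAeval a b P = 0) :
    Module.finrank k⟮a⟯ (k⟮a⟯)⟮b⟯ = P.natDegree := by
  have hne : bivMap a P ≠ 0 := (irreducible_bivMap ha hP hdeg).ne_zero
  rw [adjoin.finrank (isIntegral_of_irreducible ha hP hdeg h0),
    minpoly_eq_of_irreducible ha hP hdeg h0,
    natDegree_mul_C (inv_ne_zero (leadingCoeff_ne_zero.mpr hne)), natDegree_bivMap ha]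

/-- A monic relation of the right degree is irreducible, and is the minimal polynomial. -/
theorem irreducible_of_monic_of_finrank {a b : L} (ha : Transcendental k a) {P : k[X][Y]}
    (hP : P.Monic) (h0 : aevalAeval a b P = 0)
    (hfr : Module.finrank k⟮a⟯ (k⟮a⟯)⟮b⟯ = P.natDegree) :
    Irreducible P ∧ bivMap a P = minpoly k⟮a⟯ b := by
  have hmon : (bivMap a P).Monic := hP.map _
  have hroot : aeval b (bivMap a P) = 0 := (aeval_bivMap a b P).trans h0
  have hint : IsIntegral k⟮a⟯ b := ⟨_, hmon, hroot⟩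
  have hdeg : (minpoly k⟮a⟯ b).natDegree = (bivMap a P).natDegree := by
    rw [← adjoin.finrank hint, hfr, natDegree_bivMap ha]
  have heq : bivMap a P = minpoly k⟮a⟯ b :=
    Polynomial.eq_of_monic_of_dvd_of_natDegree_le (minpoly.monic hint) hmon
      (minpoly.dvd k⟮a⟯ b hroot) hdeg.ge
  refine ⟨?_, heq⟩
  apply Monic.irreducible_of_irreducible_map (aeval (R := k) (AdjoinSimple.gen k a)).toRingHom P hP
  show Irreducible (bivMap a P)
  rw [heq]
  exact minpoly.irreducible hint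

/-- **Symmetry of the modular equation** (up to a constant). -/
theorem exists_swap_eq {a b : L} (ha : Transcendental k a) {A : k[X][Y]}
    (hA : A.Monic) (h0 : aevalAeval a b A = 0) (h0' : aevalAeval b a A = 0)
    (hfr : Module.finrank k⟮a⟯ (k⟮a⟯)⟮b⟯ = A.natDegree) :
    ∃ c : k, c ≠ 0 ∧ Bivariate.swap A = C (C c) * A := by
  obtain ⟨-, heq⟩ := irreducible_of_monic_of_finrank ha hA h0 hfr
  have hdvd : A ∣ Bivariate.swap A := by
    rw [← Polynomial.modByMonic_eq_zero_iff_dvd hA]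
    apply bivMap_injective ha
    rw [map_zero]
    show (Bivariate.swap A %ₘ A).map _ = 0
    rw [Polynomial.map_modByMonic _ hA]
    show bivMap a (Bivariate.swap A) %ₘ bivMap a A = 0
    have hmon : (bivMap a A).Monic := hA.map _
    rw [Polynomial.modByMonic_eq_zero_iff_dvd hmon, heq]
    apply minpoly.dvd
    rw [aeval_bivMap, Bivariate.aevalAeval_swap]
    exact h0'
  obtain ⟨C₁, hC₁⟩ := hdvd
  have h2 : A * (C₁ * Bivariate.swap C₁) = A * 1 := by
    have := congrArg Bivariate.swap hC₁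
    rw [Bivariate.swap_swap_apply, map_mul, hC₁] at this
    rw [mul_one, ← mul_assoc]
    exact this.symm
  have h3 : C₁ * Bivariate.swap C₁ = 1 := mul_left_cancel₀ hA.ne_zero h2
  have hu : IsUnit C₁ := IsUnit.of_mul_eq_one _ h3
  obtain ⟨r, hr, rfl⟩ := Polynomial.isUnit_iff.mp hu
  obtain ⟨c, hc, rfl⟩ := Polynomial.isUnit_iff.mp hr
  exact ⟨c, hc.ne_zero, by rw [hC₁, mul_comm]⟩

theorem coeff_coeff_swap {R : Type*} [CommSemiring R] (P : R[X][Y]) (i m : ℕ) :
    ((Bivariate.swap P).coeff i).coeff m = (P.coeff m).coeff i := by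
  induction P using Polynomial.induction_on' with
  | add p q hp hq => simp only [map_add, coeff_add, hp, hq]
  | monomial n c =>
    induction c using Polynomial.induction_on' with
    | add p q hp hq => simp only [map_add, coeff_add, hp, hq]
    | monomial j r =>
      rw [Bivariate.swap_monomial_monomial, coeff_monomial, coeff_monomial]
      by_cases h1 : j = i <;> by_cases h2 : n = m <;> simp [h1, h2, coeff_monomial]

/-- Inner degree bound from the symmetry. -/
theorem coeff_coeff_eq_zero_of_swap {A : k[X][Y]} {c : k}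
    (hsw : Bivariate.swap A = C (C c) * A) (m i : ℕ) (hi : A.natDegree < i) :
    (A.coeff m).coeff i = 0 := by
  rw [← coeff_coeff_swap, hsw, coeff_C_mul, coeff_C_mul, coeff_eq_zero_of_natDegree_lt hi,
    coeff_zero, mul_zero]

theorem coeff_coeff_natDegree_of_swap {A : k[X][Y]} {c : k} (hA : A.Monic)
    (hsw : Bivariate.swap A = C (C c) * A) :
    (A.coeff 0).coeff A.natDegree = c := by
  rw [← coeff_coeff_swap, hsw, coeff_C_mul, coeff_C_mul, coeff_natDegree, hA.leadingCoeff,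
    coeff_one_zero, mul_one]

/-- The `Y`-degree of `swap (Xⁿ A(X, Y/X))` is `2 n`. -/
theorem natDegree_swap_scaleRoots {A : k[X][Y]} {c : k} (hc : c ≠ 0) (hA : A.Monic)
    (hsw : Bivariate.swap A = C (C c) * A) :
    (Bivariate.swap (scaleRoots A (X : k[X]))).natDegree = 2 * A.natDegree := by
  have key : ∀ i m : ℕ, ((Bivariate.swap (scaleRoots A (X : k[X]))).coeff i).coeff m
      = (A.coeff m * X ^ (A.natDegree - m)).coeff i := by
    intro i m
    rw [coeff_coeff_swap, coeff_scaleRoots]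
  apply le_antisymm
  · rw [natDegree_le_iff_coeff_eq_zero]
    intro N hN
    ext m
    rw [key, coeff_zero, coeff_mul_X_pow']
    split_ifs with h
    · by_cases hm : m ≤ A.natDegree
      · apply coeff_coeff_eq_zero_of_swap hsw
        omega
      · rw [coeff_eq_zero_of_natDegree_lt (not_le.mp hm), coeff_zero]
    · rfl
  · apply le_natDegree_of_ne_zero
    intro h
    have h1 : ((Bivariate.swap (scaleRoots A (X : k[X]))).coeff (2 * A.natDegree)).coeff 0
        = 0 := by rw [h, coeff_zero]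
    rw [key, Nat.sub_zero, coeff_mul_X_pow', if_pos (by omega)] at h1
    have h2 : 2 * A.natDegree - A.natDegree = A.natDegree := by omega
    rw [h2, coeff_coeff_natDegree_of_swap hA hsw] at h1
    exact hc h1

theorem aevalAeval_scaleRoots (a b : L) (A : k[X][Y]) :
    aevalAeval a (a * b) (scaleRoots A (X : k[X])) = a ^ A.natDegree * aevalAeval a b A := by
  rw [aevalAeval_eq_eval₂, aevalAeval_eq_eval₂]
  have := scaleRoots_eval₂_mul (p := A) (aeval (R := k) a).toRingHom b (X : k[X])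
  simpa using this

/-- **The degree of `k(a, b)` over `k(ab)`** for a pair `(a, b)` satisfying a symmetric monic
relation of degree `n = [k(a,b) : k(a)]`: it is `2 n`. -/
theorem finrank_adjoin_mul {a b : L} (ha : Transcendental k a) (hx : Transcendental k (a * b))
    {A : k[X][Y]} (hA : A.Monic) (h0 : aevalAeval a b A = 0) (h0' : aevalAeval b a A = 0)
    (hfr : Module.finrank k⟮a⟯ (k⟮a⟯)⟮b⟯ = A.natDegree) :
    Module.finrank k⟮a * b⟯ (k⟮a * b⟯)⟮a⟯ = 2 * A.natDegree := by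
  have ha0 : a ≠ 0 := by
    rintro rfl
    exact ha isAlgebraic_zero
  have hn : A.natDegree ≠ 0 := by
    intro hn
    have h1 : A = 1 := by
      exact hA.natDegree_eq_zero.mp hn
    rw [h1, map_one] at h0
    exact one_ne_zero h0
  -- `k(a)(ab) = k(a)(b)`
  have hfields : (k⟮a⟯)⟮a * b⟯ = (k⟮a⟯)⟮b⟯ := by
    have hamem : ∀ F : IntermediateField k⟮a⟯ L, a ∈ F := fun F =>
      F.algebraMap_mem (⟨a, mem_adjoin_simple_self k a⟩ : k⟮a⟯)
    apply le_antisymm
    · rw [adjoin_simple_le_iff]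
      exact mul_mem (hamem _) (mem_adjoin_simple_self _ b)
    · rw [adjoin_simple_le_iff]
      have h1 : a⁻¹ * (a * b) = b := by field_simp
      have h2 : a⁻¹ * (a * b) ∈ (k⟮a⟯)⟮a * b⟯ :=
        mul_mem (inv_mem (hamem _)) (mem_adjoin_simple_self _ (a * b))
      rwa [h1] at h2
  obtain ⟨c, hc, hsw⟩ := exists_swap_eq ha hA h0 h0' hfr
  -- the scaled polynomial
  have hG'mon : (scaleRoots A (X : k[X])).Monic := (monic_scaleRoots_iff _).mpr hA
  have hG'0 : aevalAeval a (a * b) (scaleRoots A (X : k[X])) = 0 := by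
    rw [aevalAeval_scaleRoots, h0, mul_zero]
  have hG'fr : Module.finrank k⟮a⟯ (k⟮a⟯)⟮a * b⟯ = (scaleRoots A (X : k[X])).natDegree := by
    rw [natDegree_scaleRoots, hfields, hfr]
  obtain ⟨hG'irr, -⟩ := irreducible_of_monic_of_finrank ha hG'mon hG'0 hG'fr
  have hGirr : Irreducible (Bivariate.swap (scaleRoots A (X : k[X]))) :=
    (MulEquiv.irreducible_iff (Bivariate.swap (R := k))).mpr hG'irr
  have hGdeg := natDegree_swap_scaleRoots hc hA hsw
  have hG0 : aevalAeval (a * b) a (Bivariate.swap (scaleRoots A (X : k[X]))) = 0 := by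
    rw [Bivariate.aevalAeval_swap]
    exact hG'0
  rw [finrank_adjoin_of_irreducible hx hGirr (by rw [hGdeg]; omega) hG0, hGdeg]

end Biv

end Fermat.Agent.A2.Mod.H31

end

end
-- ===== PACK-END A2/Mod/H31/Biv.lean

-- ===== PACK-BEGIN A2/H372/Transversal.lean
section


/-!
# A2 / T-ALG : abstract transversality at the crossing points (helper372)

Mathlib-only commutative algebra.  Intended instance (helper609 memo `coord/A2-helper609.md`, (T)):

* `A = B_M`, `B = B_N` (`N = qM`): integral closures of `R[j]` in the function fields of level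
  `M` and `N` over a DVR `R` (uniformiser `w`, residue characteristic `q`);
* `α β : A →+* B` the two degeneracy maps (`j_d ↦ j_d`, `j_d ↦ j_{qd}`);
* `P₁ P₂` the centres on `B` of the two Gauss valuations (`P₁ ⊓ P₂ = wB`);
* `n` a maximal ideal of `B` containing `P₁` and `P₂` (a crossing point).

The Kronecker congruences are used in the SEMILINEAR form `KronCong`:
`∀ a, ∃ a', β a - (α a') ^ q ∈ P₁` and `∀ a, ∃ a', α a - (β a') ^ q ∈ P₂`
(over `ℤ_(q)` one takes `a' = a`; over a general `R` one takes for `a'` a lift of the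
coefficientwise inverse Frobenius of `a`), so no `𝔽_q`-structure and no base change is needed.

Main results (all elementwise, no localisation needed to state them):

* `KronCong.exists_transversal` : a local generator `α a₀` of the branch `B/P₁` at `n` is,
  up to a unit at `n` and modulo `P₁`, an element `f ∈ P₂`.
* `KronCong.exists_local_gen`   : `n = (f) + P₁` locally at `n`, with `f ∈ P₂`.
* `KronCong.exists_node`        : node datum `f ∈ P₂`, `g ∈ P₁` with
  `n = (f, g) + P₁ ⊓ P₂`, `P₁ = (g) + P₁ ⊓ P₂`, `P₂ = (f) + P₁ ⊓ P₂` locally at `n`.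
* `exists_smooth_gen`           : at a point of `P₁` not on `P₂`: `n = (α a₀) + P₁ ⊓ P₂` locally.
* `exists_isBranchUnif_of_isDedekindDomain` : the local generator `a₀` exists when
  `A ⧸ comap α P₁` is a Dedekind domain.
* `surjective_of_birational_of_integral` : `α` is onto `B/P₁` (finite birational onto normal).
* localised forms `KronCong.maximalIdeal_eq_span_node`.
-/

set_option autoImplicit false

namespace Fermat.Agent.A2.H372

open Ideal

variable {A B : Type*} [CommRing A] [CommRing B]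

/-- Semilinear Kronecker congruences between two ring homomorphisms `α β : A →+* B`
modulo two ideals `P₁ P₂` of `B`. -/
structure KronCong (q : ℕ) (α β : A →+* B) (P₁ P₂ : Ideal B) : Prop where
  cong₁ : ∀ a : A, ∃ a' : A, β a - (α a') ^ q ∈ P₁
  cong₂ : ∀ a : A, ∃ a' : A, α a - (β a') ^ q ∈ P₂

theorem KronCong.symm {q : ℕ} {α β : A →+* B} {P₁ P₂ : Ideal B}
    (h : KronCong q α β P₁ P₂) : KronCong q β α P₂ P₁ :=
  ⟨h.cong₂, h.cong₁⟩

/-- The linear Kronecker congruences (`a' = a`) give a `KronCong`. -/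
theorem KronCong.of_linear {q : ℕ} {α β : A →+* B} {P₁ P₂ : Ideal B}
    (h₁ : ∀ a : A, β a - (α a) ^ q ∈ P₁) (h₂ : ∀ a : A, α a - (β a) ^ q ∈ P₂) :
    KronCong q α β P₁ P₂ :=
  ⟨fun a => ⟨a, h₁ a⟩, fun a => ⟨a, h₂ a⟩⟩

/-- `a₀` is a local generator at `n` of the branch `B/P` parametrised by `α`:
`α a₀ ∈ n` and every `α a ∈ n` is, up to a factor `α s ∉ n` and modulo `P`, a multiple
of `α a₀`. -/
def IsBranchUnif (α : A →+* B) (P n : Ideal B) (a₀ : A) : Prop :=
  α a₀ ∈ n ∧ ∀ a : A, α a ∈ n → ∃ s y : A, α s ∉ n ∧ α s * α a - α a₀ * α y ∈ P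

theorem pow_sub_pow_mem_of_sub_mem {I : Ideal B} {x y : B} (h : x - y ∈ I) (k : ℕ) :
    x ^ k - y ^ k ∈ I := by
  obtain ⟨c, hc⟩ := sub_dvd_pow_sub_pow x y k
  rw [hc]
  exact I.mul_mem_right c h

/-- **Transversality, core.**  A local generator `α a₀` of the first branch at a crossing
point `n` agrees modulo `P₁`, up to a factor `u ∉ n`, with an element `f` of `P₂`. -/
theorem KronCong.exists_transversal {q : ℕ} (hq : 2 ≤ q) {α β : A →+* B}
    {P₁ P₂ n : Ideal B} [n.IsPrime] (hP₁ : P₁ ≤ n) (hP₂ : P₂ ≤ n)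
    (h : KronCong q α β P₁ P₂) {a₀ : A} (ha₀ : IsBranchUnif α P₁ n a₀) :
    ∃ f ∈ P₂, ∃ u : B, u ∉ n ∧ f - u * α a₀ ∈ P₁ := by
  obtain ⟨a₁, h₁⟩ := h.cong₂ a₀
  obtain ⟨a₂, h₂⟩ := h.cong₁ a₁
  have hq0 : q ≠ 0 := by omega
  have hβ : β a₁ ∈ n := by
    have : (β a₁) ^ q ∈ n := by
      have := n.sub_mem ha₀.1 (hP₂ h₁)
      simpa using this
    exact Ideal.IsPrime.mem_of_pow_mem inferInstance q this
  have hα₂ : α a₂ ∈ n := by
    have : (α a₂) ^ q ∈ n := by
      have := n.sub_mem hβ (hP₁ h₂)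
      simpa using this
    exact Ideal.IsPrime.mem_of_pow_mem inferInstance q this
  obtain ⟨s, y, hs, hsy⟩ := ha₀.2 a₂ hα₂
  have hQ : 1 ≤ q ^ 2 := Nat.one_le_pow _ _ (by omega)
  refine ⟨(α s) ^ (q ^ 2) * (α a₀ - (β a₁) ^ q), P₂.mul_mem_left _ h₁,
    (α s) ^ (q ^ 2) - (α a₀) ^ (q ^ 2 - 1) * (α y) ^ (q ^ 2), ?_, ?_⟩
  · intro hu
    have h1 : (α a₀) ^ (q ^ 2 - 1) ∈ n := by
      have hpos : q ^ 2 - 1 ≠ 0 := by
        have : 4 ≤ q ^ 2 := by nlinarith
        omega
      exact Ideal.pow_mem_of_mem n ha₀.1 _ (Nat.pos_of_ne_zero hpos)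
    have h2 : (α s) ^ (q ^ 2) ∈ n := by
      have := n.add_mem hu (n.mul_mem_right ((α y) ^ (q ^ 2)) h1)
      simpa using this
    exact hs (Ideal.IsPrime.mem_of_pow_mem inferInstance _ h2)
  · have e1 : ((β a₁) ^ q) - ((α a₂) ^ q) ^ q ∈ P₁ := pow_sub_pow_mem_of_sub_mem h₂ q
    have e2 : (α s * α a₂) ^ (q ^ 2) - (α a₀ * α y) ^ (q ^ 2) ∈ P₁ :=
      pow_sub_pow_mem_of_sub_mem hsy (q ^ 2)
    have hpow : (α a₀) ^ (q ^ 2 - 1) * α a₀ = (α a₀) ^ (q ^ 2) := by
      rw [← pow_succ, Nat.sub_add_cancel hQ]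
    have key : (α s) ^ (q ^ 2) * (α a₀ - (β a₁) ^ q)
        - ((α s) ^ (q ^ 2) - (α a₀) ^ (q ^ 2 - 1) * (α y) ^ (q ^ 2)) * α a₀
        = -((α s) ^ (q ^ 2) * ((β a₁) ^ q - ((α a₂) ^ q) ^ q))
          - ((α s * α a₂) ^ (q ^ 2) - (α a₀ * α y) ^ (q ^ 2)) := by
      have hp2 : ((α a₂) ^ q) ^ q = (α a₂) ^ (q ^ 2) := by rw [← pow_mul, sq]
      rw [hp2, mul_pow, mul_pow, ← hpow]
      ring
    rw [key]
    exact P₁.sub_mem (P₁.neg_mem (P₁.mul_mem_left _ e1)) e2

/-- **Transversality.**  If moreover `α` is onto `B/P₁`, then locally at the crossing point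
`n` one has `n = (f) + P₁` with `f ∈ P₂`; in particular `n = P₁ + P₂` locally at `n`. -/
theorem KronCong.exists_local_gen {q : ℕ} (hq : 2 ≤ q) {α β : A →+* B}
    {P₁ P₂ n : Ideal B} [n.IsPrime] (hP₁ : P₁ ≤ n) (hP₂ : P₂ ≤ n)
    (h : KronCong q α β P₁ P₂) (hα : ∀ b : B, ∃ a : A, b - α a ∈ P₁)
    {a₀ : A} (ha₀ : IsBranchUnif α P₁ n a₀) :
    ∃ f ∈ P₂, ∀ x ∈ n, ∃ t : B, t ∉ n ∧ ∃ z : B, t * x - f * z ∈ P₁ := by
  obtain ⟨f, hf, u, hu, hfu⟩ := h.exists_transversal hq hP₁ hP₂ ha₀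
  refine ⟨f, hf, fun x hx => ?_⟩
  obtain ⟨a, ha⟩ := hα x
  have han : α a ∈ n := by
    have := n.sub_mem hx (hP₁ ha)
    simpa using this
  obtain ⟨s, y, hs, hsy⟩ := ha₀.2 a han
  refine ⟨u * α s, fun hmem => ?_, α y, ?_⟩
  · rcases Ideal.IsPrime.mem_or_mem inferInstance hmem with h' | h'
    · exact hu h'
    · exact hs h'
  · have key : u * α s * x - f * α y
        = u * α s * (x - α a) + u * (α s * α a - α a₀ * α y) - (f - u * α a₀) * α y := by
      ring
    rw [key]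
    exact P₁.sub_mem (P₁.add_mem (P₁.mul_mem_left _ ha) (P₁.mul_mem_left _ hsy))
      (P₁.mul_mem_right _ hfu)

/-- `P₁ + P₂` is the maximal ideal locally at a crossing point. -/
theorem KronCong.mem_sup_of_mem {q : ℕ} (hq : 2 ≤ q) {α β : A →+* B}
    {P₁ P₂ n : Ideal B} [n.IsPrime] (hP₁ : P₁ ≤ n) (hP₂ : P₂ ≤ n)
    (h : KronCong q α β P₁ P₂) (hα : ∀ b : B, ∃ a : A, b - α a ∈ P₁)
    {a₀ : A} (ha₀ : IsBranchUnif α P₁ n a₀) {x : B} (hx : x ∈ n) :
    ∃ t : B, t ∉ n ∧ t * x ∈ P₁ ⊔ P₂ := by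
  obtain ⟨f, hf, hloc⟩ := h.exists_local_gen hq hP₁ hP₂ hα ha₀
  obtain ⟨t, ht, z, hz⟩ := hloc x hx
  refine ⟨t, ht, ?_⟩
  have : t * x = (t * x - f * z) + f * z := by ring
  rw [this]
  exact Ideal.add_mem _ (Ideal.mem_sup_left hz) (Ideal.mem_sup_right (P₂.mul_mem_right _ hf))

/-- **Node datum at a crossing point.**  There are `f ∈ P₂`, `g ∈ P₁` such that, locally at
`n` and modulo `P₁ ⊓ P₂` (`= wB` in the application): `n = (f, g)`, `P₁ = (g)`, `P₂ = (f)`;
and `f * g ∈ P₁ ⊓ P₂`. -/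
theorem KronCong.exists_node {q : ℕ} (hq : 2 ≤ q) {α β : A →+* B}
    {P₁ P₂ n : Ideal B} [n.IsPrime] (hP₁ : P₁ ≤ n) (hP₂ : P₂ ≤ n)
    (h : KronCong q α β P₁ P₂)
    (hα : ∀ b : B, ∃ a : A, b - α a ∈ P₁) (hβ : ∀ b : B, ∃ a : A, b - β a ∈ P₂)
    {a₀ b₀ : A} (ha₀ : IsBranchUnif α P₁ n a₀) (hb₀ : IsBranchUnif β P₂ n b₀) :
    ∃ f g : B, f ∈ P₂ ∧ g ∈ P₁ ∧ f * g ∈ P₁ ⊓ P₂ ∧
      (∀ x ∈ n, ∃ t : B, t ∉ n ∧ ∃ y z : B, t * x - (f * y + g * z) ∈ P₁ ⊓ P₂) ∧
      (∀ x ∈ P₁, ∃ t : B, t ∉ n ∧ ∃ z : B, t * x - g * z ∈ P₁ ⊓ P₂) ∧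
      (∀ x ∈ P₂, ∃ t : B, t ∉ n ∧ ∃ y : B, t * x - f * y ∈ P₁ ⊓ P₂) := by
  obtain ⟨f, hf, hlocf⟩ := h.exists_local_gen hq hP₁ hP₂ hα ha₀
  obtain ⟨g, hg, hlocg⟩ := h.symm.exists_local_gen hq hP₂ hP₁ hβ hb₀
  have hP1 : ∀ x ∈ P₁, ∃ t : B, t ∉ n ∧ ∃ z : B, t * x - g * z ∈ P₁ ⊓ P₂ := by
    intro x hx
    obtain ⟨t, ht, z, hz⟩ := hlocg x (hP₁ hx)
    exact ⟨t, ht, z, ⟨P₁.sub_mem (P₁.mul_mem_left _ hx) (P₁.mul_mem_right _ hg), hz⟩⟩
  have hP2 : ∀ x ∈ P₂, ∃ t : B, t ∉ n ∧ ∃ y : B, t * x - f * y ∈ P₁ ⊓ P₂ := by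
    intro x hx
    obtain ⟨t, ht, z, hz⟩ := hlocf x (hP₂ hx)
    exact ⟨t, ht, z, ⟨hz, P₂.sub_mem (P₂.mul_mem_left _ hx) (P₂.mul_mem_right _ hf)⟩⟩
  refine ⟨f, g, hf, hg, ⟨P₁.mul_mem_left _ hg, P₂.mul_mem_right _ hf⟩, ?_, hP1, hP2⟩
  intro x hx
  obtain ⟨t, ht, y, hy⟩ := hlocf x hx
  obtain ⟨t', ht', z, hz⟩ := hP1 _ hy
  refine ⟨t' * t, fun hmem => ?_, t' * y, z, ?_⟩
  · rcases Ideal.IsPrime.mem_or_mem inferInstance hmem with h' | h'
    · exact ht' h'
    · exact ht h'
  · have key : t' * t * x - (f * (t' * y) + g * z) = t' * (t * x - f * y) - g * z := by ring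
    rw [key]
    exact hz

/-- **Smooth points.**  At a point `n` of the first branch which is not on the second one,
`n = (α a₀) + P₁ ⊓ P₂` locally at `n`. -/
theorem exists_smooth_gen {α : A →+* B} {P₁ P₂ n : Ideal B} [n.IsPrime]
    (hP₁ : P₁ ≤ n) (hP₂ : ¬ P₂ ≤ n) (hα : ∀ b : B, ∃ a : A, b - α a ∈ P₁)
    {a₀ : A} (ha₀ : IsBranchUnif α P₁ n a₀) :
    ∀ x ∈ n, ∃ t : B, t ∉ n ∧ ∃ z : B, t * x - α a₀ * z ∈ P₁ ⊓ P₂ := by
  intro x hx
  obtain ⟨e, he, hen⟩ := SetLike.not_le_iff_exists.mp hP₂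
  obtain ⟨a, ha⟩ := hα x
  have han : α a ∈ n := by
    have := n.sub_mem hx (hP₁ ha)
    simpa using this
  obtain ⟨s, y, hs, hsy⟩ := ha₀.2 a han
  refine ⟨e * α s, fun hmem => ?_, e * α y, ?_⟩
  · rcases Ideal.IsPrime.mem_or_mem inferInstance hmem with h' | h'
    · exact hen h'
    · exact hs h'
  · have key : e * α s * x - α a₀ * (e * α y)
        = e * (α s * (x - α a) + (α s * α a - α a₀ * α y)) := by ring
    rw [key]
    exact ⟨P₁.mul_mem_left _ (P₁.add_mem (P₁.mul_mem_left _ ha) hsy), P₂.mul_mem_right _ he⟩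

/-! ### Existence of the local generator on a Dedekind branch -/

/-- In a Dedekind domain every prime ideal is locally principal, in elementwise form. -/
theorem exists_local_generator_of_isDedekindDomain (D : Type*) [CommRing D]
    [IsDedekindDomain D] (m : Ideal D) [m.IsPrime] :
    ∃ a₀ ∈ m, ∀ a ∈ m, ∃ s y : D, s ∉ m ∧ s * a = a₀ * y := by
  by_cases hm : m = ⊥
  · refine ⟨0, m.zero_mem, fun a ha => ⟨1, 0, ?_, ?_⟩⟩
    · exact fun h1 => (Ideal.IsPrime.ne_top inferInstance) ((Ideal.eq_top_iff_one m).mpr h1)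
    · rw [hm] at ha
      rw [Ideal.mem_bot.mp ha]
      simp
  · let L := Localization.AtPrime m
    have : IsDiscreteValuationRing L :=
      IsLocalization.AtPrime.isDiscreteValuationRing_of_dedekind_domain D hm L
    obtain ⟨ϖ, hϖ⟩ := IsDiscreteValuationRing.exists_irreducible L
    obtain ⟨a₀, s₀, rfl⟩ := IsLocalization.exists_mk'_eq m.primeCompl ϖ
    have hs₀ : IsUnit (algebraMap D L (s₀ : D)) := IsLocalization.map_units L s₀
    have hmax : IsLocalRing.maximalIdeal L = Ideal.span {algebraMap D L a₀} := by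
      rw [hϖ.maximalIdeal_eq]
      apply Ideal.span_singleton_eq_span_singleton.mpr
      refine ⟨hs₀.unit, ?_⟩
      simp [IsLocalization.mk'_spec]
    have hinj : Function.Injective (algebraMap D L) :=
      IsLocalization.injective L (Ideal.primeCompl_le_nonZeroDivisors m)
    have ha₀ : a₀ ∈ m := by
      rw [← IsLocalization.AtPrime.to_map_mem_maximal_iff L m a₀, hmax]
      exact Ideal.mem_span_singleton_self _
    refine ⟨a₀, ha₀, fun a ha => ?_⟩
    have : algebraMap D L a ∈ Ideal.span {algebraMap D L a₀} := by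
      rw [← hmax]
      exact (IsLocalization.AtPrime.to_map_mem_maximal_iff L m a).mpr ha
    obtain ⟨c, hc⟩ := Ideal.mem_span_singleton'.mp this
    obtain ⟨y, s, rfl⟩ := IsLocalization.exists_mk'_eq m.primeCompl c
    refine ⟨s, y, s.2, hinj ?_⟩
    rw [map_mul, map_mul, ← hc, ← IsLocalization.mk'_spec L y s]
    ring

/-- If the branch `A ⧸ comap α P` is a Dedekind domain, every prime `n ⊇ P` of `B` has a
local generator in the sense of `IsBranchUnif`. -/
theorem exists_isBranchUnif_of_isDedekindDomain (α : A →+* B) (P n : Ideal B) [n.IsPrime]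
    (hP : P ≤ n) [IsDedekindDomain (A ⧸ Ideal.comap α P)] :
    ∃ a₀ : A, IsBranchUnif α P n a₀ := by
  have hle : Ideal.comap α P ≤ Ideal.comap α n := Ideal.comap_mono hP
  let ψ : A ⧸ Ideal.comap α P →+* B ⧸ n := Ideal.quotientMap n α hle
  let m : Ideal (A ⧸ Ideal.comap α P) := RingHom.ker ψ
  have : m.IsPrime := RingHom.ker_isPrime ψ
  have hmem : ∀ a : A, Ideal.Quotient.mk (Ideal.comap α P) a ∈ m ↔ α a ∈ n := by
    intro a
    simp only [m, ψ, RingHom.mem_ker, Ideal.quotientMap_mk, Ideal.Quotient.eq_zero_iff_mem]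
  obtain ⟨a₀', ha₀', hgen⟩ := exists_local_generator_of_isDedekindDomain _ m
  obtain ⟨a₀, rfl⟩ := Ideal.Quotient.mk_surjective a₀'
  refine ⟨a₀, (hmem a₀).mp ha₀', fun a ha => ?_⟩
  obtain ⟨s', y', hs', hsy'⟩ := hgen _ ((hmem a).mpr ha)
  obtain ⟨s, rfl⟩ := Ideal.Quotient.mk_surjective s'
  obtain ⟨y, rfl⟩ := Ideal.Quotient.mk_surjective y'
  refine ⟨s, y, fun h => hs' ((hmem s).mpr h), ?_⟩
  have h0 : Ideal.Quotient.mk (Ideal.comap α P) (s * a - a₀ * y) = 0 := by
    rw [map_sub, map_mul, map_mul, hsy', sub_self]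
  have := Ideal.Quotient.eq_zero_iff_mem.mp h0
  rw [Ideal.mem_comap, map_sub, map_mul, map_mul] at this
  exact this

/-! ### Localised forms -/

section Localised

variable (R : Type*) [CommRing R] [Algebra B R]

/-- If every element of `n` lies in `J` up to a factor outside `n`, then `n` and `J` generate
the same ideal in the localisation at `n`. -/
theorem map_eq_map_of_local {n J : Ideal B} [n.IsPrime] [IsLocalization.AtPrime R n]
    (hJ : J ≤ n) (h : ∀ x ∈ n, ∃ t : B, t ∉ n ∧ t * x ∈ J) :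
    Ideal.map (algebraMap B R) n = Ideal.map (algebraMap B R) J := by
  refine le_antisymm ?_ (Ideal.map_mono hJ)
  rw [Ideal.map_le_iff_le_comap]
  intro x hx
  obtain ⟨t, ht, htx⟩ := h x hx
  have hu : IsUnit (algebraMap B R t) :=
    IsLocalization.map_units R (⟨t, ht⟩ : n.primeCompl)
  rw [Ideal.mem_comap]
  have hmem : algebraMap B R t * algebraMap B R x ∈ Ideal.map (algebraMap B R) J := by
    rw [← map_mul]
    exact Ideal.mem_map_of_mem _ htx
  exact (Ideal.unit_mul_mem_iff_mem _ hu).mp hmem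

/-- **Node datum, localised form.**  In the local ring `R = B_n` at a crossing point:
`𝔪 = (f, g) + (P₁ ⊓ P₂)R`, `P₁R = (g) + (P₁ ⊓ P₂)R`, `P₂R = (f) + (P₁ ⊓ P₂)R`. -/
theorem KronCong.map_eq_span_node {q : ℕ} (hq : 2 ≤ q) {α β : A →+* B}
    {P₁ P₂ n : Ideal B} [n.IsPrime] [IsLocalization.AtPrime R n]
    (hP₁ : P₁ ≤ n) (hP₂ : P₂ ≤ n) (h : KronCong q α β P₁ P₂)
    (hα : ∀ b : B, ∃ a : A, b - α a ∈ P₁) (hβ : ∀ b : B, ∃ a : A, b - β a ∈ P₂)
    {a₀ b₀ : A} (ha₀ : IsBranchUnif α P₁ n a₀) (hb₀ : IsBranchUnif β P₂ n b₀) :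
    ∃ f g : B, f ∈ P₂ ∧ g ∈ P₁ ∧ f * g ∈ P₁ ⊓ P₂ ∧
      Ideal.map (algebraMap B R) n =
        Ideal.span {algebraMap B R f, algebraMap B R g}
          ⊔ Ideal.map (algebraMap B R) (P₁ ⊓ P₂) ∧
      Ideal.map (algebraMap B R) P₁ =
        Ideal.span {algebraMap B R g} ⊔ Ideal.map (algebraMap B R) (P₁ ⊓ P₂) ∧
      Ideal.map (algebraMap B R) P₂ =
        Ideal.span {algebraMap B R f} ⊔ Ideal.map (algebraMap B R) (P₁ ⊓ P₂) := by
  obtain ⟨f, g, hf, hg, hfg, hn, h1, h2⟩ := h.exists_node hq hP₁ hP₂ hα hβ ha₀ hb₀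
  refine ⟨f, g, hf, hg, hfg, ?_, ?_, ?_⟩
  · have hJ : Ideal.span {f, g} ⊔ (P₁ ⊓ P₂) ≤ n := by
      refine sup_le ?_ (inf_le_left.trans hP₁)
      rw [Ideal.span_le]
      rintro x (rfl | rfl)
      · exact hP₂ hf
      · exact hP₁ hg
    rw [map_eq_map_of_local R hJ, Ideal.map_sup, Ideal.map_span, Set.image_pair]
    intro x hx
    obtain ⟨t, ht, y, z, hyz⟩ := hn x hx
    refine ⟨t, ht, ?_⟩
    have : t * x = (f * y + g * z) + (t * x - (f * y + g * z)) := by ring
    rw [this]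
    refine Ideal.add_mem _ (Ideal.mem_sup_left ?_) (Ideal.mem_sup_right hyz)
    exact Ideal.add_mem _
      (Ideal.mul_mem_right _ _ (Ideal.subset_span (Set.mem_insert _ _)))
      (Ideal.mul_mem_right _ _ (Ideal.subset_span (Set.mem_insert_of_mem _ rfl)))
  · refine le_antisymm ?_ ?_
    · rw [Ideal.map_le_iff_le_comap]
      intro x hx
      obtain ⟨t, ht, z, hz⟩ := h1 x hx
      have hu : IsUnit (algebraMap B R t) :=
        IsLocalization.map_units R (⟨t, ht⟩ : n.primeCompl)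
      rw [Ideal.mem_comap]
      refine (Ideal.unit_mul_mem_iff_mem _ hu).mp ?_
      have : algebraMap B R t * algebraMap B R x
          = algebraMap B R g * algebraMap B R z + algebraMap B R (t * x - g * z) := by
        simp only [map_sub, map_mul]; ring
      rw [this]
      exact Ideal.add_mem _
        (Ideal.mem_sup_left (Ideal.mul_mem_right _ _ (Ideal.mem_span_singleton_self _)))
        (Ideal.mem_sup_right (Ideal.mem_map_of_mem _ hz))
    · refine sup_le ?_ (Ideal.map_mono inf_le_left)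
      rw [Ideal.span_le, Set.singleton_subset_iff]
      exact Ideal.mem_map_of_mem _ hg
  · refine le_antisymm ?_ ?_
    · rw [Ideal.map_le_iff_le_comap]
      intro x hx
      obtain ⟨t, ht, z, hz⟩ := h2 x hx
      have hu : IsUnit (algebraMap B R t) :=
        IsLocalization.map_units R (⟨t, ht⟩ : n.primeCompl)
      rw [Ideal.mem_comap]
      refine (Ideal.unit_mul_mem_iff_mem _ hu).mp ?_
      have : algebraMap B R t * algebraMap B R x
          = algebraMap B R f * algebraMap B R z + algebraMap B R (t * x - f * z) := by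
        simp only [map_sub, map_mul]; ring
      rw [this]
      exact Ideal.add_mem _
        (Ideal.mem_sup_left (Ideal.mul_mem_right _ _ (Ideal.mem_span_singleton_self _)))
        (Ideal.mem_sup_right (Ideal.mem_map_of_mem _ hz))
    · refine sup_le ?_ (Ideal.map_mono inf_le_right)
      rw [Ideal.span_le, Set.singleton_subset_iff]
      exact Ideal.mem_map_of_mem _ hf

/-- **Node datum with a uniformiser.**  If moreover `P₁ ⊓ P₂ = (w)` (reduced special fibre with
exactly the two branches), then in `R = B_n`: `𝔪 = (f, g, w)` and `f * g = w * h`. -/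
theorem KronCong.map_eq_span_triple {q : ℕ} (hq : 2 ≤ q) {α β : A →+* B}
    {P₁ P₂ n : Ideal B} [n.IsPrime] [IsLocalization.AtPrime R n]
    (hP₁ : P₁ ≤ n) (hP₂ : P₂ ≤ n) (h : KronCong q α β P₁ P₂)
    (hα : ∀ b : B, ∃ a : A, b - α a ∈ P₁) (hβ : ∀ b : B, ∃ a : A, b - β a ∈ P₂)
    {a₀ b₀ : A} (ha₀ : IsBranchUnif α P₁ n a₀) (hb₀ : IsBranchUnif β P₂ n b₀)
    {w : B} (hw : P₁ ⊓ P₂ = Ideal.span {w}) :
    ∃ f g k : B, f ∈ P₂ ∧ g ∈ P₁ ∧ f * g = w * k ∧
      Ideal.map (algebraMap B R) n =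
        Ideal.span {algebraMap B R f, algebraMap B R g, algebraMap B R w} ∧
      Ideal.map (algebraMap B R) P₁ = Ideal.span {algebraMap B R g, algebraMap B R w} ∧
      Ideal.map (algebraMap B R) P₂ = Ideal.span {algebraMap B R f, algebraMap B R w} := by
  obtain ⟨f, g, hf, hg, hfg, hn, h1, h2⟩ :=
    h.map_eq_span_node R hq hP₁ hP₂ hα hβ ha₀ hb₀
  rw [hw] at hfg hn h1 h2
  obtain ⟨k, hk⟩ := Ideal.mem_span_singleton'.mp hfg
  refine ⟨f, g, k, hf, hg, by rw [← hk, mul_comm], ?_, ?_, ?_⟩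
  · rw [hn, Ideal.map_span, Set.image_singleton, ← Ideal.span_union]
    congr 1
    ext x
    simp only [Set.union_singleton, Set.mem_insert_iff, Set.mem_singleton_iff]
    tauto
  · rw [h1, Ideal.map_span, Set.image_singleton, ← Ideal.span_union]
    congr 1
  · rw [h2, Ideal.map_span, Set.image_singleton, ← Ideal.span_union]
    congr 1

/-- **Smooth points, localised form.** -/
theorem map_eq_span_smooth {α : A →+* B} {P₁ P₂ n : Ideal B} [n.IsPrime]
    [IsLocalization.AtPrime R n]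
    (hP₁ : P₁ ≤ n) (hP₂ : ¬ P₂ ≤ n) (hα : ∀ b : B, ∃ a : A, b - α a ∈ P₁)
    {a₀ : A} (ha₀ : IsBranchUnif α P₁ n a₀) :
    Ideal.map (algebraMap B R) n =
      Ideal.span {algebraMap B R (α a₀)} ⊔ Ideal.map (algebraMap B R) (P₁ ⊓ P₂) := by
  have hJ : Ideal.span {α a₀} ⊔ (P₁ ⊓ P₂) ≤ n := by
    refine sup_le ?_ (inf_le_left.trans hP₁)
    rw [Ideal.span_le, Set.singleton_subset_iff]
    exact ha₀.1
  rw [map_eq_map_of_local R hJ, Ideal.map_sup, Ideal.map_span, Set.image_singleton]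
  intro x hx
  obtain ⟨t, ht, z, hz⟩ := exists_smooth_gen hP₁ hP₂ hα ha₀ x hx
  refine ⟨t, ht, ?_⟩
  have : t * x = α a₀ * z + (t * x - α a₀ * z) := by ring
  rw [this]
  exact Ideal.add_mem _
    (Ideal.mem_sup_left (Ideal.mul_mem_right _ _ (Ideal.mem_span_singleton_self _)))
    (Ideal.mem_sup_right hz)

end Localised

/-! ### `α` is onto the branch: finite birational onto a normal domain -/

/-- An injective, integral, birational ring homomorphism out of an integrally closed domain is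
surjective.  (Used for `A ⧸ wA → B ⧸ P₁`: both have the same fraction field by the residue
degree count, the target is integral over `κ[j]`, the source is normal by `b2`.) -/
theorem surjective_of_birational_of_integral {C D : Type*} [CommRing C] [IsDomain C]
    [IsIntegrallyClosed C] [CommRing D] [IsDomain D] (φ : C →+* D)
    (hinj : Function.Injective φ) (hint : φ.IsIntegral)
    (hbir : ∀ d : D, ∃ c₁ c₂ : C, c₂ ≠ 0 ∧ φ c₂ * d = φ c₁) : Function.Surjective φ := by
  intro d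
  obtain ⟨c₁, c₂, hc₂, hd⟩ := hbir d
  obtain ⟨p, hp, hpd⟩ := hint d
  let K := FractionRing C
  let L := FractionRing D
  let g : C →+* L := (algebraMap D L).comp φ
  have hg : Function.Injective g := (IsFractionRing.injective D L).comp hinj
  let ι : K →+* L := IsFractionRing.lift hg
  have hι : ∀ c : C, ι (algebraMap C K c) = algebraMap D L (φ c) := fun c =>
    IsFractionRing.lift_algebraMap hg c
  have hc₂K : algebraMap C K c₂ ≠ 0 := by
    simpa using (IsFractionRing.injective C K).ne hc₂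
  have hφc₂ : φ c₂ ≠ 0 := by
    simpa using hinj.ne hc₂
  have hc₂L : algebraMap D L (φ c₂) ≠ 0 := by
    simpa using (IsFractionRing.injective D L).ne hφc₂
  set k : K := algebraMap C K c₁ / algebraMap C K c₂ with hk
  have hιk : ι k = algebraMap D L d := by
    rw [hk, map_div₀, hι, hι, ← hd, map_mul, mul_div_cancel_left₀ _ hc₂L]
  have hcomp : ι.comp (algebraMap C K) = (algebraMap D L).comp φ := by
    ext c; exact hι c
  have he : Polynomial.eval₂ (algebraMap C K) k p = 0 := by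
    apply ι.injective
    rw [Polynomial.hom_eval₂, hcomp, hιk, ← Polynomial.hom_eval₂, hpd, map_zero, map_zero]
  have hint' : IsIntegral C k := ⟨p, hp, he⟩
  obtain ⟨c, hc⟩ := IsIntegrallyClosed.isIntegral_iff.mp hint'
  refine ⟨c, ?_⟩
  have h1 : c * c₂ = c₁ := by
    apply IsFractionRing.injective C K
    rw [map_mul, hc, hk, div_mul_cancel₀ _ hc₂K]
  apply mul_left_cancel₀ hφc₂
  rw [hd, ← h1, map_mul, mul_comm]

end Fermat.Agent.A2.H372

end
-- ===== PACK-END A2/H372/Transversal.lean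

-- ===== PACK-BEGIN A2/Mod/H732/SepEtale.lean
section





/-!
# A2 / MOD, piece S4 (SepCoord producer), part 1 (helper732): two-point etale criterion

Mathlib-only.  `R` a local ring with residue field `κ`, `S` a finite free `R`-algebra with basis
`b`.  If `𝔪 S = P₁ ⊓ P₂` for two different maximal ideals `P₁, P₂` of `S` and both residue fields
`S ⧸ Pᵢ` are separable over `κ` (elementwise, in the "liftable" form: every `s : S` is a root
modulo `Pᵢ` of some `Q ∈ R[X]` with `Q'(s) ∉ Pᵢ`), then the discriminant of `b` is a unit of `R`.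

This is the two-component version of `S18.H425.isUnit_discr_of_isSeparable_quotient`
(one component, `𝔪 S` maximal).

* `isSeparable_of_aeval_derivative_ne_zero₂` : a root `y` of `P` with `P'(y) ≠ 0` is separable;
* `traceForm_nondegenerate_of_algEquiv_prod` : the trace form of a product of two finite
  separable field extensions is nondegenerate;
* `isUnit_discr_of_two_maximal` : the criterion.
-/

set_option autoImplicit false
set_option linter.style.haveILetI false

noncomputable section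

namespace Fermat.Agent.A2.Mod.H732

open Polynomial IsLocalRing

/-- A root `y` of `P` with `P'(y) ≠ 0` is separable over the base field. -/
theorem isSeparable_of_aeval_derivative_ne_zero₂ {K F : Type*} [Field K] [Field F] [Algebra K F]
    (y : F) (P : K[X]) (h0 : aeval y P = 0) (h1 : aeval y (derivative P) ≠ 0) :
    IsSeparable K y := by
  have hP0 : P ≠ 0 := by
    rintro rfl
    simp at h1
  have hint : IsIntegral K y := (isAlgebraic_iff_isIntegral).mp ⟨P, hP0, h0⟩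
  obtain ⟨Q, hQ⟩ := minpoly.dvd K y h0
  have hirr : Irreducible (minpoly K y) := minpoly.irreducible hint
  rw [IsSeparable, separable_iff_derivative_ne_zero hirr]
  intro hd
  apply h1
  rw [hQ, derivative_mul, hd, zero_mul, zero_add, map_mul, minpoly.aeval, zero_mul]

section Prod

variable {κ C L₁ L₂ : Type*} [Field κ] [CommRing C] [Algebra κ C]
  [Field L₁] [Field L₂] [Algebra κ L₁] [Algebra κ L₂]
  [FiniteDimensional κ L₁] [FiniteDimensional κ L₂]
  [Algebra.IsSeparable κ L₁] [Algebra.IsSeparable κ L₂]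

/-- The trace form of an algebra isomorphic to a product of two finite separable field
extensions is left-separating. -/
theorem traceForm_separatingLeft_of_algEquiv_prod (e : C ≃ₐ[κ] L₁ × L₂) :
    (Algebra.traceForm κ C).SeparatingLeft := by
  intro x hx
  have key : ∀ z : C, Algebra.trace κ C z =
      Algebra.trace κ L₁ (e z).1 + Algebra.trace κ L₂ (e z).2 := by
    intro z
    rw [← Algebra.trace_prod_apply, Algebra.trace_eq_of_algEquiv e z]
  have h1 : (e x).1 = 0 := by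
    refine (_root_.traceForm_nondegenerate κ L₁).1 _ (fun c => ?_)
    have := hx (e.symm (c, 0))
    rw [Algebra.traceForm_apply, key, map_mul, AlgEquiv.apply_symm_apply] at this
    simpa [Algebra.traceForm_apply] using this
  have h2 : (e x).2 = 0 := by
    refine (_root_.traceForm_nondegenerate κ L₂).1 _ (fun c => ?_)
    have := hx (e.symm (0, c))
    rw [Algebra.traceForm_apply, key, map_mul, AlgEquiv.apply_symm_apply] at this
    simpa [Algebra.traceForm_apply] using this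
  have h3 : e x = 0 := Prod.ext h1 h2
  exact (map_eq_zero_iff e e.injective).1 h3

/-- The trace form of an algebra isomorphic to a product of two finite separable field
extensions is nondegenerate. -/
theorem traceForm_nondegenerate_of_algEquiv_prod (e : C ≃ₐ[κ] L₁ × L₂) :
    (Algebra.traceForm κ C).Nondegenerate := by
  have hl := traceForm_separatingLeft_of_algEquiv_prod e
  refine ⟨hl, ?_⟩
  intro y hy
  refine hl y (fun x => ?_)
  have := hy x
  rw [Algebra.traceForm_apply] at this ⊢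
  rwa [mul_comm]

end Prod

section TwoMax

variable {R S : Type*} [CommRing R] [CommRing S] [Algebra R S] [IsLocalRing R]

/-- A maximal ideal of `S` containing `𝔪 S` lies over `𝔪`. -/
theorem liesOver_maximalIdeal_of_map_le (P : Ideal S) (hP : P.IsMaximal)
    (hle : Ideal.map (algebraMap R S) (maximalIdeal R) ≤ P) :
    P.LiesOver (maximalIdeal R) := by
  constructor
  refine (IsLocalRing.maximalIdeal.isMaximal R).eq_of_le ?_ (Ideal.map_le_iff_le_comap.1 hle)
  exact Ideal.comap_ne_top _ hP.ne_top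

attribute [local instance] Ideal.Quotient.field

/-- Elementwise separability of `S ⧸ P` over `R ⧸ 𝔪` from the liftable form. -/
theorem isSeparable_quotient_of_lift (P : Ideal S) [P.IsMaximal] [P.LiesOver (maximalIdeal R)]
    (hsep : ∀ s : S, ∃ Q : R[X], aeval s Q ∈ P ∧ aeval s (derivative Q) ∉ P) :
    Algebra.IsSeparable (R ⧸ maximalIdeal R) (S ⧸ P) := by
  refine ⟨fun y => ?_⟩
  obtain ⟨s, rfl⟩ := Ideal.Quotient.mk_surjective y
  obtain ⟨Q, hQ0, hQ1⟩ := hsep s
  have hcomp : (algebraMap (R ⧸ maximalIdeal R) (S ⧸ P)).comp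
      (Ideal.Quotient.mk (maximalIdeal R)) = (Ideal.Quotient.mk P).comp (algebraMap R S) := by
    ext r
    rfl
  have hev : ∀ T : R[X], aeval (Ideal.Quotient.mk P s) (T.map (Ideal.Quotient.mk (maximalIdeal R)))
      = Ideal.Quotient.mk P (aeval s T) := by
    intro T
    rw [aeval_def, eval₂_map, hcomp, aeval_def, hom_eval₂]
  apply isSeparable_of_aeval_derivative_ne_zero₂ _ (Q.map (Ideal.Quotient.mk (maximalIdeal R)))
  · rw [hev]
    exact Ideal.Quotient.eq_zero_iff_mem.2 hQ0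
  · rw [derivative_map, hev]
    exact fun h => hQ1 (Ideal.Quotient.eq_zero_iff_mem.1 h)

variable [Module.Free R S] [Module.Finite R S]

/-- **Two-point etale criterion.**  `R` local, `S` finite free over `R` with basis `b`,
`𝔪 S = P₁ ⊓ P₂` with `P₁ ≠ P₂` maximal and both `S ⧸ Pᵢ` separable over `R ⧸ 𝔪` (liftable
elementwise form).  Then `discr R b` is a unit. -/
theorem isUnit_discr_of_two_maximal
    {ι : Type*} [Fintype ι] [DecidableEq ι] (b : Module.Basis ι R S)
    (P₁ P₂ : Ideal S) (h₁ : P₁.IsMaximal) (h₂ : P₂.IsMaximal) (hne : P₁ ≠ P₂)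
    (hinf : P₁ ⊓ P₂ = Ideal.map (algebraMap R S) (maximalIdeal R))
    (hsep₁ : ∀ s : S, ∃ Q : R[X], aeval s Q ∈ P₁ ∧ aeval s (derivative Q) ∉ P₁)
    (hsep₂ : ∀ s : S, ∃ Q : R[X], aeval s Q ∈ P₂ ∧ aeval s (derivative Q) ∉ P₂) :
    IsUnit (Algebra.discr R b) := by
  classical
  haveI := h₁
  haveI := h₂
  haveI : P₁.LiesOver (maximalIdeal R) :=
    liesOver_maximalIdeal_of_map_le P₁ h₁ (hinf ▸ inf_le_left)
  haveI : P₂.LiesOver (maximalIdeal R) :=
    liesOver_maximalIdeal_of_map_le P₂ h₂ (hinf ▸ inf_le_right)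
  haveI : Algebra.IsSeparable (R ⧸ maximalIdeal R) (S ⧸ P₁) :=
    isSeparable_quotient_of_lift P₁ hsep₁
  haveI : Algebra.IsSeparable (R ⧸ maximalIdeal R) (S ⧸ P₂) :=
    isSeparable_quotient_of_lift P₂ hsep₂
  haveI : Module.Finite (R ⧸ maximalIdeal R) (S ⧸ P₁) :=
    Module.Finite.of_restrictScalars_finite R _ _
  haveI : Module.Finite (R ⧸ maximalIdeal R) (S ⧸ P₂) :=
    Module.Finite.of_restrictScalars_finite R _ _
  -- the Chinese remainder isomorphism
  have hcop : IsCoprime P₁ P₂ := by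
    rw [Ideal.isCoprime_iff_sup_eq]
    exact Ideal.IsMaximal.coprime_of_ne h₁ h₂ hne
  let e₀ : (S ⧸ Ideal.map (algebraMap R S) (maximalIdeal R)) ≃+* (S ⧸ P₁) × (S ⧸ P₂) :=
    (Ideal.quotEquivOfEq hinf.symm).trans (Ideal.quotientInfEquivQuotientProd P₁ P₂ hcop)
  have he₀ : ∀ s : S, e₀ (Ideal.Quotient.mk _ s) =
      (Ideal.Quotient.mk P₁ s, Ideal.Quotient.mk P₂ s) := by
    intro s
    rfl
  let e : (S ⧸ Ideal.map (algebraMap R S) (maximalIdeal R)) ≃ₐ[R ⧸ maximalIdeal R]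
      (S ⧸ P₁) × (S ⧸ P₂) :=
    AlgEquiv.ofRingEquiv (f := e₀) (by
      intro r
      obtain ⟨r, rfl⟩ := Ideal.Quotient.mk_surjective r
      rfl)
  have hnd := traceForm_nondegenerate_of_algEquiv_prod e
  have hne0 : Algebra.discr (R ⧸ maximalIdeal R) (basisQuotient b) ≠ 0 := by
    rw [Algebra.discr_def, Algebra.traceMatrix_of_basis,
      ← LinearMap.BilinForm.nondegenerate_iff_det_ne_zero]
    exact hnd
  have hmk : Algebra.discr (R ⧸ maximalIdeal R) (basisQuotient b) =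
      Ideal.Quotient.mk (maximalIdeal R) (Algebra.discr R b) := by
    rw [Algebra.discr_def, Algebra.discr_def, RingHom.map_det]
    congr 1
    ext i j
    simp only [Algebra.traceMatrix_apply, Algebra.traceForm_apply, basisQuotient_apply,
      RingHom.mapMatrix_apply, Matrix.map_apply, ← map_mul]
    exact Algebra.trace_quotient_mk (b i * b j)
  rw [hmk] at hne0
  by_contra hu
  apply hne0
  rw [Ideal.Quotient.eq_zero_iff_mem]
  exact (IsLocalRing.mem_maximalIdeal _).mpr hu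

end TwoMax

end Fermat.Agent.A2.Mod.H732

end
end
-- ===== PACK-END A2/Mod/H732/SepEtale.lean

-- ===== PACK-BEGIN S20/F_helper658.lean
section
/-
S20 / work package F (helper658): one modular form of level `Γ₀(N)` whose `SL(2,ℤ)`-conjugates
take pairwise distinct values at a common point.

`f0 N = Δ ∣[12] diag(N,1)` (i.e. `τ ↦ N¹¹ Δ(Nτ)`).  For `A ∈ SL(2,ℤ)` write
`diag(N,1) A = B U` with `B ∈ SL(2,ℤ)`, `U = [e b; 0 d]`, `e = gcd(N, A₁₀)`, `e d = N`.  Then
`f0 ∣ A = Δ ∣ U` decays at `i∞` exactly like `exp(-2π (N/d²) Im τ)`, so `f0 ∣ A = f0` forces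
`d = 1`, i.e. `A ∈ Γ₀(N)`.  Hence the conjugates are pairwise distinct holomorphic functions and
the product of their differences is a nonzero holomorphic function on `ℍ`.
-/



set_option autoImplicit false

open UpperHalfPlane ModularForm CongruenceSubgroup MatrixGroups
open Matrix.SpecialLinearGroup Filter Topology
open scoped Manifold

noncomputable section

namespace Fermat.Agent.S20.F658

/-- `diag(N, 1)` as an element of `GL(2, ℝ)`. -/
def gN (N : ℕ) [NeZero N] : GL (Fin 2) ℝ :=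
  Matrix.GeneralLinearGroup.mkOfDetNeZero !![(N : ℝ), 0; 0, 1]
    (by simpa [Matrix.det_fin_two] using NeZero.ne N)

lemma gN_val (N : ℕ) [NeZero N] : (gN N : Matrix (Fin 2) (Fin 2) ℝ) = !![(N : ℝ), 0; 0, 1] := rfl

lemma gN_det (N : ℕ) [NeZero N] : (gN N).det.val = N := by
  simp [gN, Matrix.det_fin_two]

/-- an element of `SL(2,ℤ)` from its entries -/
def mkSL2 (a b c d : ℤ) (h : a * d - b * c = 1) : SL(2, ℤ) :=
  ⟨!![a, b; c, d], by rw [Matrix.det_fin_two_of]; exact h⟩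

lemma mkSL2_val (a b c d : ℤ) (h : a * d - b * c = 1) :
    (mkSL2 a b c d h : Matrix (Fin 2) (Fin 2) ℤ) = !![a, b; c, d] := rfl

lemma SL2_det_eq (A : SL(2, ℤ)) : A 0 0 * A 1 1 - A 0 1 * A 1 0 = 1 := by
  have := A.det_coe
  rwa [Matrix.det_fin_two] at this

/-- for `A ∈ Γ₀(N)`, `diag(N,1) A = A' diag(N,1)` with `A' ∈ SL(2,ℤ)` -/
lemma gN_mul_Gamma0 (N : ℕ) [NeZero N] (A : SL(2, ℤ)) (hA : A ∈ Gamma0 N) :
    ∃ A' : SL(2, ℤ), gN N * mapGL ℝ A = mapGL ℝ A' * gN N := by
  rw [Gamma0_mem, ZMod.intCast_zmod_eq_zero_iff_dvd] at hA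
  obtain ⟨c', hc'⟩ := hA
  have hdet := SL2_det_eq A
  refine ⟨mkSL2 (A 0 0) (N * A 0 1) c' (A 1 1) ?_, ?_⟩
  · rw [hc'] at hdet
    linear_combination hdet
  · apply Matrix.GeneralLinearGroup.ext
    intro i j
    fin_cases i <;> fin_cases j <;>
      simp [Matrix.mul_apply, Fin.sum_univ_two, gN_val, mkSL2_val, hc', mul_comm]

open ConjAct Pointwise in
lemma Gamma0_le_conj (N : ℕ) [NeZero N] :
    (Gamma0 N : Subgroup (GL (Fin 2) ℝ)) ≤ toConjAct (gN N)⁻¹ • 𝒮ℒ := by
  rintro _ ⟨A, hA, rfl⟩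
  rw [Subgroup.mem_pointwise_smul_iff_inv_smul_mem, ← map_inv, inv_inv, toConjAct_smul]
  obtain ⟨A', hA'⟩ := gN_mul_Gamma0 N A hA
  exact ⟨A', by rw [hA', mul_inv_cancel_right]⟩

open ConjAct Pointwise in
/-- `f₀ = Δ ∣[12] diag(N,1)`, i.e. `τ ↦ N^11 Δ(N τ)`, as a modular form of level `Γ₀(N)`. -/
def f0 (N : ℕ) [NeZero N] : ModularForm (Gamma0 N : Subgroup (GL (Fin 2) ℝ)) 12 where
  toFun := (discriminant : ℍ → ℂ) ∣[(12 : ℤ)] gN N
  slash_action_eq' γ hγ :=
    (ModularForm.translate CuspForm.discriminant (gN N)).slash_action_eq' γ (Gamma0_le_conj N hγ)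
  holo' := (ModularForm.translate CuspForm.discriminant (gN N)).holo'
  bdd_at_cusps' hc :=
    (ModularForm.translate CuspForm.discriminant (gN N)).bdd_at_cusps'
      (hc.mono (Gamma0_le_conj N))

lemma coe_f0 (N : ℕ) [NeZero N] :
    (f0 N : ℍ → ℂ) = (discriminant : ℍ → ℂ) ∣[(12 : ℤ)] gN N := rfl

lemma hermite_aux (N p q r s e N' r' x y : ℤ) (hdet : p * s - q * r = 1) (hN' : N = e * N')
    (hr' : r = e * r') (hbez : e = N * x + r * y) (he0 : e ≠ 0) :
    N' * p * (x * s) - (-(y - N * x * q)) * r' = 1 ∧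
    N * q = N' * p * ((x * s) * N * q + (y - N * x * q) * s) + (-(y - N * x * q)) * N' ∧
    s = r' * ((x * s) * N * q + (y - N * x * q) * s) + (x * s) * N' := by
  have hbez' : N * p * (x * s) + (y - N * x * q) * r = e := by
    rw [hbez]; linear_combination (N * x) * hdet
  refine ⟨?_, ?_, ?_⟩
  · apply mul_left_cancel₀ he0
    linear_combination hbez' - (p * x * s) * hN' - (y - N * x * q) * hr'
  · have : p * ((x * s) * N * q + (y - N * x * q) * s) - (y - N * x * q) = q * e := by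
      rw [← hbez']; linear_combination (y - N * x * q) * hdet
    linear_combination (-N') * this + q * hN'
  · apply mul_left_cancel₀ he0
    have h1 : e * s = s * (N * p * (x * s) + (y - N * x * q) * r) := by rw [hbez']; ring
    linear_combination h1 + (x * s * N) * hdet
      + ((x * s) * N * q + (y - N * x * q) * s) * hr' + (x * s) * hN'

/-- Hermite-type decomposition: `diag(N,1) A = B U` with `B ∈ SL(2,ℤ)` and `U` upper triangular
with diagonal `(e, N/e)`, `e = gcd(N, A₁₀)`. -/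
lemma exists_upper (N : ℕ) [NeZero N] (A : SL(2, ℤ)) :
    ∃ (B : SL(2, ℤ)) (U : GL (Fin 2) ℝ) (e d : ℕ), gN N * mapGL ℝ A = mapGL ℝ B * U ∧
      U 1 0 = 0 ∧ U 1 1 = d ∧ U.det.val = N ∧ e * d = N ∧ e = Int.gcd N (A 1 0) := by
  have hN : (N : ℤ) ≠ 0 := Int.natCast_ne_zero.mpr (NeZero.ne N)
  have hdet : A 0 0 * A 1 1 - A 0 1 * A 1 0 = 1 := SL2_det_eq A
  obtain ⟨e, he⟩ : ∃ e : ℕ, e = Int.gcd N (A 1 0) := ⟨_, rfl⟩
  have he0 : (e : ℤ) ≠ 0 := by
    rw [he, Int.natCast_ne_zero]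
    intro h
    rw [Int.gcd_eq_zero_iff] at h
    exact hN h.1
  obtain ⟨N', hN'⟩ : (e : ℤ) ∣ N := he ▸ Int.gcd_dvd_left _ _
  obtain ⟨r', hr'⟩ : (e : ℤ) ∣ A 1 0 := he ▸ Int.gcd_dvd_right _ _
  have hbez : (e : ℤ) = N * Int.gcdA N (A 1 0) + A 1 0 * Int.gcdB N (A 1 0) :=
    he ▸ Int.gcd_eq_gcd_ab _ _
  obtain ⟨hB, h01, h11⟩ := hermite_aux N (A 0 0) (A 0 1) (A 1 0) (A 1 1) e N' r' _ _ hdet hN' hr'
    hbez he0
  have hN'pos : 0 < N' := by
    have h1 : (0 : ℤ) < N := by exact_mod_cast Nat.pos_of_ne_zero (NeZero.ne N)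
    have h2 : (0 : ℤ) < e := by exact_mod_cast Nat.pos_of_ne_zero (by exact_mod_cast he0)
    rw [hN'] at h1
    by_contra h
    push Not at h
    nlinarith
  obtain ⟨d, hd⟩ : ∃ d : ℕ, (d : ℤ) = N' := ⟨N'.toNat, Int.toNat_of_nonneg hN'pos.le⟩
  obtain ⟨x, hx⟩ : ∃ x : ℤ, x = Int.gcdA N (A 1 0) := ⟨_, rfl⟩
  obtain ⟨y, hy⟩ : ∃ y : ℤ, y = Int.gcdB N (A 1 0) := ⟨_, rfl⟩
  rw [← hx, ← hy] at hB h01 h11
  obtain ⟨u, hu⟩ : ∃ u : ℤ, u = x * A 1 1 := ⟨_, rfl⟩
  obtain ⟨v, hv⟩ : ∃ v : ℤ, v = y - N * x * A 0 1 := ⟨_, rfl⟩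
  rw [← hu, ← hv] at hB h01 h11
  obtain ⟨b, hb⟩ : ∃ b : ℤ, b = u * N * A 0 1 + v * A 1 1 := ⟨_, rfl⟩
  rw [← hb] at h01 h11
  have hed : e * d = N := by
    have : (e : ℤ) * d = N := by rw [hd, ← hN']
    exact_mod_cast this
  have hU : Matrix.det !![(e : ℝ), (b : ℝ); 0, (d : ℝ)] ≠ 0 := by
    rw [Matrix.det_fin_two_of]
    have : ((e : ℝ) * d) ≠ 0 := by
      have : ((e * d : ℕ) : ℝ) ≠ 0 := by rw [hed]; exact_mod_cast NeZero.ne N
      exact_mod_cast this
    simpa using this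
  refine ⟨mkSL2 (N' * A 0 0) (-v) r' u hB, Matrix.GeneralLinearGroup.mkOfDetNeZero _ hU, e, d,
    ?_, rfl, rfl, ?_, hed, he⟩
  · -- the matrix identity
    have h00 : (N : ℤ) * A 0 0 = N' * A 0 0 * e := by rw [hN']; ring
    have h01' : (N : ℤ) * A 0 1 = N' * A 0 0 * b + -(v * d) := by rw [h01, hd]; ring
    have h10 : A 1 0 = r' * e := by rw [hr']; ring
    have h11' : A 1 1 = r' * b + u * d := by rw [hd]; exact h11
    apply Matrix.GeneralLinearGroup.ext
    intro i j
    fin_cases i <;> fin_cases j <;>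
      simp [Matrix.mul_apply, Fin.sum_univ_two, gN_val, mkSL2_val,
        Matrix.GeneralLinearGroup.mkOfDetNeZero]
    · exact_mod_cast h00
    · exact_mod_cast h01'
    · exact_mod_cast h10
    · exact_mod_cast h11'
  · simp [Matrix.GeneralLinearGroup.mkOfDetNeZero, Matrix.det_fin_two_of]
    exact_mod_cast hed

/-- `‖Δ z‖ · exp(2π Im z) → 1` as `Im z → ∞`. -/
lemma tendsto_norm_discriminant_mul_exp :
    Tendsto (fun z : ℍ ↦ ‖discriminant z‖ * Real.exp (2 * Real.pi * z.im)) atImInfty (𝓝 1) := by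
  have h := (tendsto_atImInfty_tprod_one_sub_eta_q_pow).norm
  rw [norm_one] at h
  refine h.congr fun z ↦ ?_
  rw [discriminant_eq_q_prod, norm_mul]
  have hq_norm : ‖Function.Periodic.qParam 1 z‖ = Real.exp (-2 * Real.pi * z.im) := by
    simp [Function.Periodic.qParam, Complex.norm_exp]
  rw [hq_norm, mul_comm (Real.exp _), mul_assoc, ← Real.exp_add]
  simp

/-- decay rate of `Δ ∣ g` at `i∞` for upper triangular `g` -/
lemma tendsto_norm_slash_upper (g : GL (Fin 2) ℝ) (hg : g 1 0 = 0) :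
    Tendsto (fun τ : ℍ ↦ ‖((discriminant : ℍ → ℂ) ∣[(12 : ℤ)] g) τ‖ *
        Real.exp (2 * Real.pi * (|g.det.val| / (g 1 1) ^ 2) * τ.im)) atImInfty
      (𝓝 (|g.det.val| ^ 11 * (|g 1 1| ^ 12)⁻¹)) := by
  have h := (tendsto_norm_discriminant_mul_exp.comp (tendsto_smul_atImInfty hg)).mul_const
    (|g.det.val| ^ 11 * (|g 1 1| ^ 12)⁻¹)
  rw [one_mul] at h
  refine h.congr fun τ ↦ ?_
  have hden : denom g τ = ((g 1 1 : ℝ) : ℂ) := by simp [denom, hg]
  have him : (g • τ).im = |g.det.val| / (g 1 1) ^ 2 * τ.im := by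
    rw [im_smul_eq_div_normSq, hden, Complex.normSq_ofReal]
    ring
  simp only [Function.comp_apply, slash_apply, norm_mul, norm_σ, norm_zpow, hden, him,
    Complex.norm_real, Real.norm_eq_abs]
  rw [abs_abs, show ((12 : ℤ) - 1) = ((11 : ℕ) : ℤ) by norm_num, zpow_natCast,
    show (-12 : ℤ) = -((12 : ℕ) : ℤ) by norm_num, zpow_neg, zpow_natCast,
    show 2 * Real.pi * (|g.det.val| / (g 1 1) ^ 2 * τ.im)
      = 2 * Real.pi * (|g.det.val| / (g 1 1) ^ 2) * τ.im by ring]
  ring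

/-- a function cannot decay at two different exponential rates -/
lemma rate_unique {f : ℍ → ℂ} {α β c c' : ℝ} (hc : c ≠ 0) (hc' : c' ≠ 0)
    (h : Tendsto (fun τ : ℍ ↦ ‖f τ‖ * Real.exp (2 * Real.pi * α * τ.im)) atImInfty (𝓝 c))
    (h' : Tendsto (fun τ : ℍ ↦ ‖f τ‖ * Real.exp (2 * Real.pi * β * τ.im)) atImInfty (𝓝 c')) :
    α = β := by
  -- it suffices to prove `β ≤ α` for all such data, by symmetry
  suffices H : ∀ {α β c c' : ℝ}, c ≠ 0 → c' ≠ 0 →
      Tendsto (fun τ : ℍ ↦ ‖f τ‖ * Real.exp (2 * Real.pi * α * τ.im)) atImInfty (𝓝 c) →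
      Tendsto (fun τ : ℍ ↦ ‖f τ‖ * Real.exp (2 * Real.pi * β * τ.im)) atImInfty (𝓝 c') →
      β ≤ α from le_antisymm (H hc' hc h' h) (H hc hc' h h')
  intro α β c c' hc hc' h h'
  by_contra hlt
  push Not at hlt
  -- `exp (2π(β-α) Im τ) → ∞`
  have hexp : Tendsto (fun τ : ℍ ↦ Real.exp (2 * Real.pi * (β - α) * τ.im)) atImInfty atTop := by
    refine Real.tendsto_exp_atTop.comp ?_
    refine Tendsto.const_mul_atTop (by have := Real.pi_pos; nlinarith) ?_
    exact tendsto_comap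
  -- hence `‖f τ‖ exp(2π β Im τ) = (‖f τ‖ exp(2π α Im τ)) * exp(2π(β-α) Im τ)` is unbounded
  have hprod : Tendsto (fun τ : ℍ ↦ |‖f τ‖ * Real.exp (2 * Real.pi * β * τ.im)|)
      atImInfty atTop := by
    have h1 : Tendsto (fun τ : ℍ ↦ |‖f τ‖ * Real.exp (2 * Real.pi * α * τ.im)|) atImInfty
        (𝓝 |c|) := h.abs
    have h2 := Tendsto.pos_mul_atTop (abs_pos.mpr hc) h1 hexp
    refine h2.congr fun τ ↦ ?_
    rw [← abs_of_pos (Real.exp_pos (2 * Real.pi * (β - α) * τ.im)), ← abs_mul, mul_assoc,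
      ← Real.exp_add]
    congr 3
    ring
  exact not_tendsto_nhds_of_tendsto_atTop hprod _ h'.abs


/-- the stabiliser of `Δ ∣ diag(N,1)` in `SL(2,ℤ)` is contained in `Γ₀(N)` -/
lemma mem_Gamma0_of_slash_eq (N : ℕ) [NeZero N] (A : SL(2, ℤ))
    (h : ((discriminant : ℍ → ℂ) ∣[(12 : ℤ)] gN N) ∣[(12 : ℤ)] (mapGL ℝ A : GL (Fin 2) ℝ) =
      (discriminant : ℍ → ℂ) ∣[(12 : ℤ)] gN N) :
    A ∈ Gamma0 N := by
  obtain ⟨B, U, e, d, hBU, hU10, hU11, hUdet, hed, he⟩ := exists_upper N A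
  have hΔB : (discriminant : ℍ → ℂ) ∣[(12 : ℤ)] (mapGL ℝ B : GL (Fin 2) ℝ) = discriminant :=
    CuspForm.discriminant.slash_action_eq' _ ⟨B, rfl⟩
  rw [← SlashAction.slash_mul, hBU, SlashAction.slash_mul, hΔB] at h
  have hN0 : (N : ℝ) ≠ 0 := by exact_mod_cast NeZero.ne N
  have hNpos : (0 : ℝ) < N := by exact_mod_cast Nat.pos_of_ne_zero (NeZero.ne N)
  have hd0 : d ≠ 0 := by
    rintro rfl
    rw [mul_zero] at hed
    exact NeZero.ne N hed.symm
  have hdR : (d : ℝ) ≠ 0 := by exact_mod_cast hd0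
  have h1 := tendsto_norm_slash_upper U hU10
  have h2 := tendsto_norm_slash_upper (gN N) (by simp [gN_val])
  rw [h] at h1
  have hg11 : (gN N) 1 1 = 1 := by simp [gN_val]
  rw [hU11, hUdet] at h1
  rw [hg11, gN_det] at h2
  have hrate := rate_unique (by positivity) (by positivity) h1 h2
  -- `N / d^2 = N / 1`, so `d = 1`
  have hd1 : d = 1 := by
    have h3 : ((d : ℝ)) ^ 2 = 1 := by
      rw [abs_of_pos hNpos] at hrate
      field_simp at hrate
      nlinarith [hrate]
    have h4 : (d : ℝ) = 1 := by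
      have hdpos : (0 : ℝ) ≤ d := Nat.cast_nonneg d
      nlinarith
    exact_mod_cast h4
  rw [hd1, mul_one] at hed
  rw [Gamma0_mem, ZMod.intCast_zmod_eq_zero_iff_dvd]
  have : (e : ℤ) ∣ A 1 0 := he ▸ Int.gcd_dvd_right _ _
  rwa [hed] at this


/-- the conjugates of `f0 N` are pairwise distinct functions -/
lemma quotientFunc_f0_injective (N : ℕ) [NeZero N] :
    Function.Injective (fun q : 𝒮ℒ ⧸ (Gamma0 N : Subgroup (GL (Fin 2) ℝ)).subgroupOf 𝒮ℒ ↦
      SlashInvariantForm.quotientFunc (f0 N) q) := by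
  intro q q' hqq'
  induction q using Quotient.inductionOn with
  | h h =>
  induction q' using Quotient.inductionOn with
  | h h' =>
  simp only [SlashInvariantForm.quotientFunc_mk] at hqq'
  -- `f₀ ∣ h⁻¹ = f₀ ∣ h'⁻¹`
  have key : ((f0 N : ℍ → ℂ) ∣[(12 : ℤ)] ((h : GL (Fin 2) ℝ)⁻¹ * (h' : GL (Fin 2) ℝ))) =
      (f0 N : ℍ → ℂ) := by
    rw [SlashAction.slash_mul, hqq', ← SlashAction.slash_mul, inv_mul_cancel,
      SlashAction.slash_one]
  obtain ⟨A, hA⟩ : ((h : GL (Fin 2) ℝ)⁻¹ * (h' : GL (Fin 2) ℝ)) ∈ 𝒮ℒ :=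
    mul_mem (inv_mem h.2) h'.2
  rw [← hA, coe_f0] at key
  have hmem := mem_Gamma0_of_slash_eq N A key
  refine Quotient.sound (QuotientGroup.leftRel_apply.mpr ?_)
  rw [Subgroup.mem_subgroupOf]
  exact ⟨A, hmem, by rw [hA]; simp⟩

end Fermat.Agent.S20.F658

namespace Fermat.Agent.S20

open F658 in
/-- **WP F.** There is a weight 12 form of level `Γ₀(N)` and a point `z₀` at which its
`SL(2,ℤ)`-conjugates take pairwise distinct values. -/
theorem exists_form_distinct_conjugates (N : ℕ) [NeZero N] :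
    ∃ (f₀ : ModularForm (Gamma0 N : Subgroup (GL (Fin 2) ℝ)) 12) (z₀ : ℍ),
      Function.Injective (fun q : 𝒮ℒ ⧸ (Gamma0 N : Subgroup (GL (Fin 2) ℝ)).subgroupOf 𝒮ℒ ↦
        SlashInvariantForm.quotientFunc f₀ q z₀) := by
  classical
  let 𝒬 := 𝒮ℒ ⧸ (Gamma0 N : Subgroup (GL (Fin 2) ℝ)).subgroupOf 𝒮ℒ
  let _ : Fintype 𝒬 := Fintype.ofFinite 𝒬
  let F : 𝒬 → ℍ → ℂ := fun q ↦ SlashInvariantForm.quotientFunc (f0 N) q
  have hF : ∀ q, MDifferentiable 𝓘(ℂ) 𝓘(ℂ) (F q) :=
    Quotient.forall.mpr fun r ↦ (ModularForm.translate (f0 N) r.val⁻¹).holo'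
  let s : Finset (𝒬 × 𝒬) := Finset.univ.filter fun p ↦ p.1 ≠ p.2
  have hne : ∏ p ∈ s, (F p.1 - F p.2) ≠ 0 := by
    intro h0
    rw [UpperHalfPlane.prod_eq_zero_iff (fun p _ ↦ (hF p.1).sub (hF p.2))] at h0
    obtain ⟨p, hp, hp0⟩ := h0
    exact (Finset.mem_filter.mp hp).2 (quotientFunc_f0_injective N (sub_eq_zero.mp hp0))
  obtain ⟨z₀, hz₀⟩ := Function.ne_iff.mp hne
  refine ⟨f0 N, z₀, fun q q' hqq' ↦ ?_⟩
  by_contra hq
  apply hz₀
  rw [Finset.prod_apply, Pi.zero_apply]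
  exact Finset.prod_eq_zero (i := (q, q')) (Finset.mem_filter.mpr ⟨Finset.mem_univ _, hq⟩)
    (by simpa [F, sub_eq_zero] using hqq')

end Fermat.Agent.S20

end
end
-- ===== PACK-END S20/F_helper658.lean

-- ===== PACK-BEGIN Lib/Haupt/Trunc.lean
section




/-!
# Truncated integer power series as lists (helper637)

A tiny verified computation model: the first `M` coefficients of a power series over `ℤ` as a
`List ℤ`, with computable list operations mirroring `+`, `-`, `*`, scalar multiples and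
`PowerSeries.expand`.  Everything reduces in the kernel, so equalities of truncations of explicit
series can be closed by `decide`.
-/

set_option autoImplicit false

namespace Fermat.Agent.Lib.Haupt

open PowerSeries

/-- The first `M` coefficients of a power series. -/
noncomputable def tr (M : ℕ) (f : PowerSeries ℤ) : List ℤ :=
  (List.range M).map fun i => coeff i f

/-- List of length `M` from a coefficient function. -/
def ofFn (M : ℕ) (c : ℕ → ℤ) : List ℤ := (List.range M).map c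

/-- Truncated product. -/
def lmul (M : ℕ) (a b : List ℤ) : List ℤ :=
  ofFn M fun n => ((List.range (n + 1)).map fun i => a.getD i 0 * b.getD (n - i) 0).sum

/-- Truncated sum. -/
def ladd (M : ℕ) (a b : List ℤ) : List ℤ := ofFn M fun n => a.getD n 0 + b.getD n 0

/-- Truncated difference. -/
def lsub (M : ℕ) (a b : List ℤ) : List ℤ := ofFn M fun n => a.getD n 0 - b.getD n 0

/-- Truncated scalar multiple. -/
def lsmul (M : ℕ) (c : ℤ) (a : List ℤ) : List ℤ := ofFn M fun n => c * a.getD n 0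

/-- Truncated `X ^ k * ·`. -/
def lshift (M k : ℕ) (a : List ℤ) : List ℤ :=
  ofFn M fun n => if k ≤ n then a.getD (n - k) 0 else 0

/-- Truncated `expand d`. -/
def lexpand (M d : ℕ) (a : List ℤ) : List ℤ :=
  ofFn M fun n => if d ∣ n then a.getD (n / d) 0 else 0

/-- The truncation of `1`. -/
def lone (M : ℕ) : List ℤ := ofFn M fun n => if n = 0 then 1 else 0

/-- Truncated power, by iterated multiplication. -/
def lpow (M : ℕ) (a : List ℤ) : ℕ → List ℤ
  | 0 => lone M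
  | k + 1 => lmul M (lpow M a k) a

theorem tr_eq_ofFn (M : ℕ) (f : PowerSeries ℤ) : tr M f = ofFn M fun i => coeff i f := rfl

theorem length_tr (M : ℕ) (f : PowerSeries ℤ) : (tr M f).length = M := by
  simp [tr]

theorem getD_tr {M : ℕ} (f : PowerSeries ℤ) {i : ℕ} (hi : i < M) :
    (tr M f).getD i 0 = coeff i f := by
  simp [tr, List.getD, hi]

theorem ofFn_congr {M : ℕ} {c c' : ℕ → ℤ} (h : ∀ n < M, c n = c' n) : ofFn M c = ofFn M c' := by
  unfold ofFn
  apply List.map_congr_left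
  intro n hn
  exact h n (List.mem_range.mp hn)

theorem coeff_eq_getD_tr {M : ℕ} (f : PowerSeries ℤ) {i : ℕ} (hi : i < M) :
    coeff i f = (tr M f).getD i 0 := (getD_tr f hi).symm

theorem sum_map_range (n : ℕ) (c : ℕ → ℤ) :
    ((List.range n).map c).sum = ∑ i ∈ Finset.range n, c i := rfl

theorem tr_mul (M : ℕ) (f g : PowerSeries ℤ) : tr M (f * g) = lmul M (tr M f) (tr M g) := by
  rw [tr_eq_ofFn]
  unfold lmul
  apply ofFn_congr
  intro n hn
  rw [coeff_mul, Finset.Nat.sum_antidiagonal_eq_sum_range_succ (fun i j => coeff i f * coeff j g),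
    sum_map_range]
  apply Finset.sum_congr rfl
  intro i hi
  have hi' : i < n + 1 := Finset.mem_range.mp hi
  rw [getD_tr f (by omega), getD_tr g (by omega)]

theorem tr_add (M : ℕ) (f g : PowerSeries ℤ) : tr M (f + g) = ladd M (tr M f) (tr M g) := by
  rw [tr_eq_ofFn]
  unfold ladd
  apply ofFn_congr
  intro n hn
  rw [map_add, getD_tr f hn, getD_tr g hn]

theorem tr_sub (M : ℕ) (f g : PowerSeries ℤ) : tr M (f - g) = lsub M (tr M f) (tr M g) := by
  rw [tr_eq_ofFn]
  unfold lsub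
  apply ofFn_congr
  intro n hn
  rw [map_sub, getD_tr f hn, getD_tr g hn]

theorem tr_C_mul (M : ℕ) (c : ℤ) (f : PowerSeries ℤ) :
    tr M (C c * f) = lsmul M c (tr M f) := by
  rw [tr_eq_ofFn]
  unfold lsmul
  apply ofFn_congr
  intro n hn
  rw [coeff_C_mul, getD_tr f hn]

theorem tr_X_pow_mul (M k : ℕ) (f : PowerSeries ℤ) :
    tr M (X ^ k * f) = lshift M k (tr M f) := by
  rw [tr_eq_ofFn]
  unfold lshift
  apply ofFn_congr
  intro n hn
  rw [coeff_X_pow_mul']
  split_ifs with h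
  · rw [getD_tr f (by omega)]
  · rfl

theorem tr_expand (M d : ℕ) (hd : d ≠ 0) (f : PowerSeries ℤ) :
    tr M (expand d hd f) = lexpand M d (tr M f) := by
  rw [tr_eq_ofFn]
  unfold lexpand
  apply ofFn_congr
  intro n hn
  rw [coeff_expand]
  split_ifs with h
  · rw [getD_tr f (lt_of_le_of_lt (Nat.div_le_self n d) hn)]
  · rfl

theorem tr_one (M : ℕ) : tr M (1 : PowerSeries ℤ) = lone M := by
  rw [tr_eq_ofFn]
  unfold lone
  apply ofFn_congr
  intro n _
  rw [coeff_one]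

/-- The truncation of a constant. -/
def lC (M : ℕ) (c : ℤ) : List ℤ := ofFn M fun n => if n = 0 then c else 0

theorem tr_C (M : ℕ) (c : ℤ) : tr M (C c : PowerSeries ℤ) = lC M c := by
  rw [tr_eq_ofFn]
  unfold lC
  apply ofFn_congr
  intro n _
  rw [coeff_C]

theorem tr_pow (M : ℕ) (f : PowerSeries ℤ) (k : ℕ) : tr M (f ^ k) = lpow M (tr M f) k := by
  induction k with
  | zero => rw [pow_zero, tr_one]; rfl
  | succ k ih => rw [pow_succ, tr_mul, ih]; rfl

/-- Two power series with the same truncation agree in degrees `< M`. -/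
theorem coeff_eq_of_tr_eq {M : ℕ} {f g : PowerSeries ℤ} (h : tr M f = tr M g) {n : ℕ}
    (hn : n < M) : coeff n f = coeff n g := by
  rw [coeff_eq_getD_tr f hn, coeff_eq_getD_tr g hn, h]

/-- A power series whose truncation is zero has vanishing coefficients in degrees `< M`. -/
theorem coeff_eq_zero_of_tr_eq {M : ℕ} {f : PowerSeries ℤ}
    (h : tr M f = List.replicate M 0) {n : ℕ} (hn : n < M) : coeff n f = 0 := by
  rw [coeff_eq_getD_tr f hn, h]
  simp [List.getD, hn]

end Fermat.Agent.Lib.Haupt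

end
-- ===== PACK-END Lib/Haupt/Trunc.lean

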