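import Mathlib.RingTheory.Ideal.GoingUp
import Mathlib.RingTheory.DedekindDomain.Basic
import Mathlib.RingTheory.Polynomial.Quotient
import Mathlib.RingTheory.PrincipalIdealDomain
import Mathlib.RingTheory.IntegralClosure.IsIntegralClosure.Basic
import Mathlib.RingTheory.DedekindDomain.PID
import Mathlib.Algebra.Polynomial.AlgebraMap
import Mathlib.RingTheory.Ideal.Quotient.Noetherian
import Mathlib
import Fermat.Prelude.Def_FLTPrelim_Ramification
import Mathlib.RingTheory.Valuation.ValuationSubring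
import Mathlib.RingTheory.IntegralClosure.IntegrallyClosed
import Mathlib.RingTheory.Localization.FractionRing
import Mathlib.RingTheory.LocalRing.ResidueField.Basic
import Mathlib.RingTheory.Polynomial.Basic
import Mathlib.RingTheory.Valuation.LocalSubring
import Mathlib.RingTheory.Adjoin.Polynomial.Basic
import Fermat.Prelude.Def_ModularCurve_IgusaScheme
import Fermat.Prelude.Def_ModularCurve_X0ModL
import Mathlib.Tactic.LinearCombination
import Mathlib.Tactic.FieldSimp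

-- ===== PACK-BEGIN A2/Alg/H609/DimOne.lean
section









/-!
# WALL A2 / ALG (helper609): components of the special fibre have dimension one

`R` a ring, `w ∈ R` generating a maximal ideal, `B` an `R`-algebra integral over `R[X]` via
`X ↦ x`, `p` a prime of `B` containing `w`.  Then every nonzero prime of `B ⧸ p` is maximal
(`dimensionLEOne_quotient`): `B ⧸ p` is integral over `(R/w)[X]`.  Mathlib only.
-/

set_option autoImplicit false

namespace Fermat.Agent.A2.Alg.H609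

open Polynomial

/-- A domain integral over `k[X]` (`k` a field) has dimension at most one. -/
theorem dimensionLEOne_of_isIntegral_polynomial {k D : Type*} [Field k] [CommRing D]
    [IsDomain D] (ψ : k[X] →+* D) (hψ : ψ.IsIntegral) : Ring.DimensionLEOne D := by
  refine ⟨fun {𝔮} h𝔮0 h𝔮 => ?_⟩
  let _ : Algebra k[X] D := ψ.toAlgebra
  obtain ⟨d, hd𝔮, hd0⟩ := Submodule.exists_mem_ne_zero_of_ne_bot h𝔮0
  have h1 : 𝔮.comap (algebraMap k[X] D) ≠ ⊥ :=
    Ideal.comap_ne_bot_of_integral_mem hd0 hd𝔮 (hψ d)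
  have h2 : (𝔮.comap (algebraMap k[X] D)).IsPrime := Ideal.comap_isPrime _ 𝔮
  have h3 : (𝔮.comap (algebraMap k[X] D)).IsMaximal := h2.isMaximal h1
  exact Ideal.isMaximal_of_isIntegral_of_isMaximal_comap' ψ hψ 𝔮 h3

variable {R B : Type*} [CommRing R] [CommRing B] [Algebra R B]

/-- **Components have dimension one.** -/
theorem dimensionLEOne_quotient {w : R} (hw : (Ideal.span {w}).IsMaximal) (x : B)
    (hint : (aeval (R := R) x).toRingHom.IsIntegral)
    (p : Ideal B) [p.IsPrime] (hwp : algebraMap R B w ∈ p) : Ring.DimensionLEOne (B ⧸ p) := by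
  let _ : Field (R ⧸ Ideal.span {w}) := Ideal.Quotient.field _
  let ψ₀ : R ⧸ Ideal.span {w} →+* B ⧸ p :=
    Ideal.Quotient.lift (Ideal.span {w}) ((Ideal.Quotient.mk p).comp (algebraMap R B)) (by
      intro a ha
      obtain ⟨c, rfl⟩ := Ideal.mem_span_singleton'.mp ha
      rw [RingHom.comp_apply, map_mul, map_mul, Ideal.Quotient.eq_zero_iff_mem.mpr hwp,
        mul_zero])
  let ψ : (R ⧸ Ideal.span {w})[X] →+* B ⧸ p := eval₂RingHom ψ₀ (Ideal.Quotient.mk p x)
  let π : R[X] →+* (R ⧸ Ideal.span {w})[X] := mapRingHom (Ideal.Quotient.mk (Ideal.span {w}))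
  have hcomp : ψ.comp π = (Ideal.Quotient.mk p).comp (aeval (R := R) x).toRingHom := by
    refine Polynomial.ringHom_ext (fun r => ?_) ?_
    · simp only [RingHom.comp_apply, ψ, π, ψ₀, coe_mapRingHom, map_C, coe_eval₂RingHom, eval₂_C,
        Ideal.Quotient.lift_mk, AlgHom.toRingHom_eq_coe, RingHom.coe_coe, aeval_C]
    · simp only [RingHom.comp_apply, ψ, π, coe_mapRingHom, map_X, coe_eval₂RingHom, eval₂_X,
        AlgHom.toRingHom_eq_coe, RingHom.coe_coe, aeval_X]
  have h1 : ((Ideal.Quotient.mk p).comp (aeval (R := R) x).toRingHom).IsIntegral :=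
    RingHom.IsIntegral.trans _ _ hint
      (RingHom.isIntegral_of_surjective _ Ideal.Quotient.mk_surjective)
  have h2 : ψ.IsIntegral := RingHom.IsIntegral.tower_top π ψ (by rw [hcomp]; exact h1)
  exact dimensionLEOne_of_isIntegral_polynomial ψ h2

/-- The components of the special fibre are Dedekind. -/
theorem isDedekindDomain_quotient [IsNoetherianRing B] {w : R}
    (hw : (Ideal.span {w}).IsMaximal) (x : B)
    (hint : (aeval (R := R) x).toRingHom.IsIntegral)
    (p : Ideal B) [p.IsPrime] (hwp : algebraMap R B w ∈ p) [IsIntegrallyClosed (B ⧸ p)] :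
    IsDedekindDomain (B ⧸ p) := by
  have hdim : Ring.DimensionLEOne (B ⧸ p) := dimensionLEOne_quotient hw x hint p hwp
  have hded : IsDedekindRing (B ⧸ p) :=
    { toIsNoetherian := inferInstance
      toDimensionLEOne := hdim
      toIsIntegralClosure := inferInstance }
  exact { toIsDomain := inferInstance, toIsDedekindRing := hded }

end Fermat.Agent.A2.Alg.H609

end
-- ===== PACK-END A2/Alg/H609/DimOne.lean

-- ===== PACK-BEGIN A2/Mod/H816/L3Poly.lean
section


/-!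
# A2 / MOD leaf L3, part 1 (helper816): a nonzero polynomial does not vanish at a polar series

`eval₂_C_ne_zero_of_polar`: over a field `k`, if `U ∈ k((t))` has a pole of exact order `a > 0`
(`U.coeff n = 0` for `n < -a`, `U.coeff (-a) ≠ 0`) and `g ∈ k[X]` is nonzero, then `g(U) ≠ 0`;
more precisely the coefficient of `t^(-a·deg g)` in `g(U)` is `lc(g) · U.coeff(-a)^(deg g)`.
-/

set_option autoImplicit false

noncomputable section

namespace Fermat.Agent.A2.Mod.H816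

open HahnSeries Polynomial

variable {k : Type*} [Field k]

/-- The order of a series with lowest term in degree `-a`. -/
theorem order_eq_of_polar {U : LaurentSeries k} {a : ℤ}
    (h0 : ∀ n : ℤ, n < a → U.coeff n = 0) (h1 : U.coeff a ≠ 0) : U.order = a := by
  have hU : U ≠ 0 := by
    rintro rfl
    exact h1 (by simp)
  apply le_antisymm
  · exact order_le_of_coeff_ne_zero h1
  · by_contra hlt
    push Not at hlt
    exact (HahnSeries.coeff_order_eq_zero.not.mpr hU) (h0 _ hlt)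

theorem ne_zero_of_polar {U : LaurentSeries k} {a : ℤ} (h1 : U.coeff a ≠ 0) : U ≠ 0 := by
  rintro rfl
  exact h1 (by simp)

/-- coefficients of powers of a series of order `a`. -/
theorem coeff_pow_of_lt {U : LaurentSeries k} {a : ℤ}
    (h0 : ∀ n : ℤ, n < a → U.coeff n = 0) (h1 : U.coeff a ≠ 0) (i : ℕ) {n : ℤ}
    (hn : n < i * a) : (U ^ i).coeff n = 0 := by
  apply HahnSeries.coeff_eq_zero_of_lt_order
  rw [HahnSeries.order_pow, order_eq_of_polar h0 h1, nsmul_eq_mul]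
  exact hn

/-- leading coefficient of powers of a series of order `a`. -/
theorem coeff_pow_order {U : LaurentSeries k} {a : ℤ}
    (h0 : ∀ n : ℤ, n < a → U.coeff n = 0) (h1 : U.coeff a ≠ 0) (i : ℕ) :
    (U ^ i).coeff (i * a) = U.coeff a ^ i := by
  induction i with
  | zero => simp
  | succ i ih =>
    have hU := order_eq_of_polar h0 h1
    have hUi : (U ^ i).order = i * a := by
      rw [HahnSeries.order_pow, hU, nsmul_eq_mul]
    have key := HahnSeries.coeff_mul_order_add_order (U ^ i) U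
    rw [HahnSeries.leadingCoeff_eq, HahnSeries.leadingCoeff_eq, hUi, hU, ih] at key
    rw [pow_succ, pow_succ]
    have : ((i + 1 : ℕ) : ℤ) * a = i * a + a := by push_cast; ring
    rw [this]
    exact key

/-- **Non-vanishing at a polar series.** -/
theorem coeff_eval₂_C_of_polar {U : LaurentSeries k} {a : ℤ} (ha : a < 0)
    (h0 : ∀ n : ℤ, n < a → U.coeff n = 0) (h1 : U.coeff a ≠ 0) (g : k[X]) :
    (g.eval₂ (HahnSeries.C : k →+* LaurentSeries k) U).coeff (g.natDegree * a) =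
      g.leadingCoeff * U.coeff a ^ g.natDegree := by
  rw [Polynomial.eval₂_eq_sum_range, HahnSeries.coeff_sum]
  rw [Finset.sum_eq_single g.natDegree]
  · rw [HahnSeries.C_mul_eq_smul, HahnSeries.coeff_smul, coeff_pow_order h0 h1, smul_eq_mul]
    rfl
  · intro i hi hne
    have hlt : i < g.natDegree := by
      have := Finset.mem_range.mp hi
      omega
    rw [HahnSeries.C_mul_eq_smul, HahnSeries.coeff_smul, coeff_pow_of_lt h0 h1 i, smul_zero]
    have h2 : ((i : ℤ)) < (g.natDegree : ℤ) := by exact_mod_cast hlt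
    nlinarith
  · intro h
    exact absurd (Finset.mem_range.mpr (Nat.lt_succ_self _)) h

theorem eval₂_C_ne_zero_of_polar {U : LaurentSeries k} {a : ℤ} (ha : a < 0)
    (h0 : ∀ n : ℤ, n < a → U.coeff n = 0) (h1 : U.coeff a ≠ 0) {g : k[X]} (hg : g ≠ 0) :
    g.eval₂ (HahnSeries.C : k →+* LaurentSeries k) U ≠ 0 := by
  intro h
  have := coeff_eval₂_C_of_polar ha h0 h1 g
  rw [h, HahnSeries.coeff_zero] at this
  have h2 : g.leadingCoeff * U.coeff a ^ g.natDegree ≠ 0 :=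
    mul_ne_zero (Polynomial.leadingCoeff_ne_zero.mpr hg) (pow_ne_zero _ h1)
  exact h2 this.symm

end Fermat.Agent.A2.Mod.H816

end

end
-- ===== PACK-END A2/Mod/H816/L3Poly.lean

-- ===== PACK-BEGIN A2/H708/Tame.lean
section



/-!
# A2 (helper708): the tame character of an inertia group

`L/K` an algebraic field extension, `A` a valuation subring of `L`,
`τ ∈ A.inertiaSubgroupIn K` (Prelude definition).  For `c ∈ Lˣ` the quotient `τ c / c` is a
unit of `A`; its residue class `tameHom A hτ c ∈ kˣ` (`k` the residue field of `A`)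

* is multiplicative in `c` (it is a monoid hom `Lˣ →* kˣ`),
* is trivial on units of `A` (`tameHom_eq_one_of_valuation_eq_one`), hence depends only on the
  valuation of `c` (`tameHom_eq_of_valuation_eq`),
* is trivial on `K` (`tameHom_algebraMap`),
* is multiplicative in `τ` (`tameHom_mul`),
* takes values in roots of unity: `c ^ n ∈ Kˣ · Aˣ → tame(c) ^ n = 1` (`tameHom_pow_eq_one`),
* `tameHom A hτ c = 1 ↔ v (τ c - c) < v c` (`tameHom_eq_one_iff`).

Also: elementwise facts on decomposition / inertia groups for arbitrary `L/K`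
(`apply_mem_iff_of_mem_decomposition`, `valuation_apply_of_mem_decomposition` (algebraic case),
`sub_mem_nonunits_of_mem_inertiaIn`).
-/

set_option autoImplicit false

open scoped Pointwise

namespace Fermat.Agent.A2.H708

variable {K L : Type*} [Field K] [Field L] [Algebra K L] (A : ValuationSubring L)

/-- Elements of the inertia group (Prelude form) lie in the decomposition group. -/
theorem mem_decomposition_of_mem_inertiaIn {τ : L ≃ₐ[K] L} (hτ : τ ∈ A.inertiaSubgroupIn K) :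
    τ ∈ A.decompositionSubgroup K := by
  obtain ⟨g, -, rfl⟩ := hτ
  exact g.2

/-- Elements of the decomposition group preserve `A`. -/
theorem apply_mem_of_mem_decomposition {τ : L ≃ₐ[K] L} (hτ : τ ∈ A.decompositionSubgroup K)
    {x : L} (hx : x ∈ A) : τ x ∈ A := by
  have h : τ • A = A := MulAction.mem_stabilizer_iff.mp hτ
  have h1 : τ • x ∈ τ • A := ValuationSubring.smul_mem_pointwise_smul τ x A hx
  rw [h] at h1
  exact h1

/-- Elements of the decomposition group reflect `A`. -/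
theorem mem_of_apply_mem_of_mem_decomposition {τ : L ≃ₐ[K] L}
    (hτ : τ ∈ A.decompositionSubgroup K) {x : L} (hx : τ x ∈ A) : x ∈ A := by
  have hinv : τ⁻¹ ∈ A.decompositionSubgroup K := inv_mem hτ
  have := apply_mem_of_mem_decomposition A hinv hx
  have h2 : τ⁻¹ (τ x) = x := by
    show (τ⁻¹ * τ) x = x
    rw [inv_mul_cancel]; rfl
  rwa [h2] at this

theorem apply_mem_iff_of_mem_decomposition {τ : L ≃ₐ[K] L}
    (hτ : τ ∈ A.decompositionSubgroup K) {x : L} : τ x ∈ A ↔ x ∈ A :=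
  ⟨mem_of_apply_mem_of_mem_decomposition A hτ, apply_mem_of_mem_decomposition A hτ⟩

/-- Elements of the decomposition group preserve the order of valuations. -/
theorem valuation_apply_le_iff_of_mem_decomposition {τ : L ≃ₐ[K] L}
    (hτ : τ ∈ A.decompositionSubgroup K) (x y : L) :
    A.valuation (τ x) ≤ A.valuation (τ y) ↔ A.valuation x ≤ A.valuation y := by
  rcases eq_or_ne y 0 with rfl | hy
  · simp
  have hτy : τ y ≠ 0 := by simpa using hy
  have h1 : A.valuation x ≤ A.valuation y ↔ x / y ∈ A := by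
    rw [← A.valuation_le_one_iff, map_div₀,
      div_le_one₀ (pos_iff_ne_zero.mpr ((Valuation.ne_zero_iff _).mpr hy))]
  have h2 : A.valuation (τ x) ≤ A.valuation (τ y) ↔ τ x / τ y ∈ A := by
    rw [← A.valuation_le_one_iff, map_div₀,
      div_le_one₀ (pos_iff_ne_zero.mpr ((Valuation.ne_zero_iff _).mpr hτy))]
  rw [h1, h2, ← map_div₀]
  exact apply_mem_iff_of_mem_decomposition A hτ

theorem valuation_apply_lt_iff_of_mem_decomposition {τ : L ≃ₐ[K] L}
    (hτ : τ ∈ A.decompositionSubgroup K) (x y : L) :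
    A.valuation (τ x) < A.valuation (τ y) ↔ A.valuation x < A.valuation y := by
  rw [← not_le, ← not_le, valuation_apply_le_iff_of_mem_decomposition A hτ]

/-- In an algebraic extension every element is fixed by a positive power of any automorphism. -/
theorem exists_pow_apply_eq [Algebra.IsAlgebraic K L] (τ : L ≃ₐ[K] L) (x : L) :
    ∃ n : ℕ, 0 < n ∧ (τ ^ n) x = x := by
  have hfin : ((minpoly K x).rootSet L).Finite := Polynomial.rootSet_finite _ _
  have hmem : ∀ n : ℕ, (τ ^ n) x ∈ (minpoly K x).rootSet L := by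
    intro n
    rw [Polynomial.mem_rootSet]
    refine ⟨minpoly.ne_zero (Algebra.IsIntegral.isIntegral x), ?_⟩
    have := Polynomial.aeval_algHom_apply ((τ ^ n : L ≃ₐ[K] L) : L →ₐ[K] L) x (minpoly K x)
    rw [minpoly.aeval, map_zero] at this
    exact this
  obtain ⟨a, b, hab, h⟩ := hfin.exists_lt_map_eq_of_forall_mem hmem
  refine ⟨b - a, Nat.sub_pos_of_lt hab, ?_⟩
  have hb : b = (b - a) + a := by omega
  have h3 : (τ ^ a) ((τ ^ (b - a)) x) = (τ ^ a) x := by
    have : (τ ^ b) x = (τ ^ a) ((τ ^ (b - a)) x) := by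
      conv_lhs => rw [hb, add_comm, pow_add]
      rfl
    rw [← this, ← h]
  exact (τ ^ a).injective h3

/-- Elements of the decomposition group preserve the valuation (algebraic extensions). -/
theorem valuation_apply_of_mem_decomposition [Algebra.IsAlgebraic K L] {τ : L ≃ₐ[K] L}
    (hτ : τ ∈ A.decompositionSubgroup K) (x : L) :
    A.valuation (τ x) = A.valuation x := by
  obtain ⟨n, hn, hx⟩ := exists_pow_apply_eq τ x
  have hstep : ∀ k : ℕ, (τ ^ (k + 1)) x = τ ((τ ^ k) x) := by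
    intro k
    rw [pow_succ']
    rfl
  rcases lt_trichotomy (A.valuation (τ x)) (A.valuation x) with h | h | h
  · exfalso
    have hk : ∀ k : ℕ, A.valuation ((τ ^ (k + 1)) x) < A.valuation x := by
      intro k
      induction k with
      | zero => simpa using h
      | succ k ih =>
        rw [hstep]
        refine lt_trans ?_ h
        exact (valuation_apply_lt_iff_of_mem_decomposition A hτ _ _).mpr ih
    have := hk (n - 1)
    rw [Nat.sub_add_cancel hn, hx] at this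
    exact lt_irrefl _ this
  · exact h
  · exfalso
    have hk : ∀ k : ℕ, A.valuation x < A.valuation ((τ ^ (k + 1)) x) := by
      intro k
      induction k with
      | zero => simpa using h
      | succ k ih =>
        rw [hstep (k + 1)]
        refine lt_trans h ?_
        exact (valuation_apply_lt_iff_of_mem_decomposition A hτ _ _).mpr ih
    have := hk (n - 1)
    rw [Nat.sub_add_cancel hn, hx] at this
    exact lt_irrefl _ this

/-- Elements of the inertia group move elements of `A` by nonunits. -/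
theorem sub_mem_nonunits_of_mem_inertiaIn {τ : L ≃ₐ[K] L} (hτ : τ ∈ A.inertiaSubgroupIn K)
    {a : L} (ha : a ∈ A) : τ a - a ∈ A.nonunits := by
  obtain ⟨ι', hι', rfl⟩ := hτ
  have h1 : ι' • IsLocalRing.residue A ⟨a, ha⟩ = IsLocalRing.residue A ⟨a, ha⟩ := by
    have := congrArg (fun f => f (IsLocalRing.residue A ⟨a, ha⟩)) (MonoidHom.mem_ker.mp hι')
    simpa using this
  rw [← IsLocalRing.ResidueField.residue_smul, ← sub_eq_zero, ← map_sub,
    IsLocalRing.residue_eq_zero_iff, ← ValuationSubring.coe_mem_nonunits_iff] at h1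
  exact h1

theorem valuation_sub_lt_one_of_mem_inertiaIn {τ : L ≃ₐ[K] L} (hτ : τ ∈ A.inertiaSubgroupIn K)
    {a : L} (ha : A.valuation a ≤ 1) : A.valuation (τ a - a) < 1 :=
  A.mem_nonunits_iff.mp
    (sub_mem_nonunits_of_mem_inertiaIn A hτ ((A.valuation_le_one_iff a).mp ha))

/-- Inertia moves every element by something of strictly smaller valuation... up to the
valuation of the element: `v (τ a - a) < v a` for units `a` of `A`. -/
theorem valuation_sub_lt_of_mem_inertiaIn_of_unit {τ : L ≃ₐ[K] L}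
    (hτ : τ ∈ A.inertiaSubgroupIn K) {a : L} (ha : A.valuation a = 1) :
    A.valuation (τ a - a) < A.valuation a := by
  rw [ha]
  exact valuation_sub_lt_one_of_mem_inertiaIn A hτ ha.le

section tame

variable [Algebra.IsAlgebraic K L]

/-- `τ c / c` is a unit of `A` for `τ` in the decomposition group. -/
theorem valuation_apply_div_self {τ : L ≃ₐ[K] L} (hτ : τ ∈ A.decompositionSubgroup K)
    {c : L} (hc : c ≠ 0) : A.valuation (τ c / c) = 1 := by
  rw [map_div₀, valuation_apply_of_mem_decomposition A hτ,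
    div_self ((Valuation.ne_zero_iff _).mpr hc)]

/-- The raw symbol `c ↦ τ c / c` as a monoid hom `Lˣ →* A.unitGroup`. -/
noncomputable def ratioHom {τ : L ≃ₐ[K] L} (hτ : τ ∈ A.decompositionSubgroup K) : Lˣ →* A.unitGroup where
  toFun c := ⟨Units.map (τ : L →* L) c / c, by
    rw [ValuationSubring.mem_unitGroup_iff]
    simpa using valuation_apply_div_self A hτ c.ne_zero⟩
  map_one' := by
    apply Subtype.ext
    simp
  map_mul' c d := by
    apply Subtype.ext
    simp only [map_mul, Subgroup.coe_mul]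
    rw [mul_div_mul_comm]

@[simp]
theorem coe_ratioHom {τ : L ≃ₐ[K] L} (hτ : τ ∈ A.decompositionSubgroup K) (c : Lˣ) :
    (((ratioHom A hτ c : A.unitGroup) : Lˣ) : L) = τ c / c := by
  simp [ratioHom]

/-- **The tame character** `Lˣ →* kˣ`, `c ↦ (τ c / c mod 𝔪_A)`, of an element `τ` of the
inertia group. -/
noncomputable def tameHom {τ : L ≃ₐ[K] L} (hτ : τ ∈ A.inertiaSubgroupIn K) :
    Lˣ →* (IsLocalRing.ResidueField A)ˣ :=
  A.unitGroupToResidueFieldUnits.comp (ratioHom A (mem_decomposition_of_mem_inertiaIn A hτ))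

/-- `tameHom c = 1 ↔ v (τ c - c) < v c`. -/
theorem tameHom_eq_one_iff {τ : L ≃ₐ[K] L} (hτ : τ ∈ A.inertiaSubgroupIn K) (c : Lˣ) :
    tameHom A hτ c = 1 ↔ A.valuation (τ c - c) < A.valuation (c : L) := by
  have hc0 : A.valuation (c : L) ≠ 0 := (Valuation.ne_zero_iff _).mpr c.ne_zero
  have h1 : tameHom A hτ c = 1 ↔
      ratioHom A (mem_decomposition_of_mem_inertiaIn A hτ) c ∈
        A.unitGroupToResidueFieldUnits.ker := by
    rw [MonoidHom.mem_ker]; rfl
  rw [h1, ker_unitGroupToResidueFieldUnits, Subgroup.mem_comap, Subgroup.coe_subtype,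
    ValuationSubring.mem_principalUnitGroup_iff, coe_ratioHom]
  have h2 : τ c / c - 1 = (τ c - c) / c := by
    field_simp
  rw [h2, map_div₀, div_lt_one₀ (pos_iff_ne_zero.mpr hc0)]
where
  ker_unitGroupToResidueFieldUnits := A.ker_unitGroupToResidueFieldUnits

/-- The tame character is trivial on units of `A`. -/
theorem tameHom_eq_one_of_valuation_eq_one {τ : L ≃ₐ[K] L} (hτ : τ ∈ A.inertiaSubgroupIn K)
    (c : Lˣ) (hc : A.valuation (c : L) = 1) : tameHom A hτ c = 1 :=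
  (tameHom_eq_one_iff A hτ c).mpr (valuation_sub_lt_of_mem_inertiaIn_of_unit A hτ hc)

/-- The tame character depends only on the valuation. -/
theorem tameHom_eq_of_valuation_eq {τ : L ≃ₐ[K] L} (hτ : τ ∈ A.inertiaSubgroupIn K)
    (c d : Lˣ) (h : A.valuation (c : L) = A.valuation (d : L)) :
    tameHom A hτ c = tameHom A hτ d := by
  have h1 : tameHom A hτ (c / d) = 1 := by
    apply tameHom_eq_one_of_valuation_eq_one
    rw [Units.val_div_eq_div_val, map_div₀, h,
      div_self ((Valuation.ne_zero_iff _).mpr d.ne_zero)]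
  rw [map_div, div_eq_one] at h1
  exact h1

/-- The tame character is trivial on the base field. -/
theorem tameHom_algebraMap {τ : L ≃ₐ[K] L} (hτ : τ ∈ A.inertiaSubgroupIn K)
    (c : Lˣ) (a : K) (hc : (c : L) = algebraMap K L a) : tameHom A hτ c = 1 := by
  rw [tameHom_eq_one_iff, hc, AlgEquiv.commutes, sub_self, map_zero, ← hc]
  exact pos_iff_ne_zero.mpr ((Valuation.ne_zero_iff _).mpr c.ne_zero)

/-- More generally the tame character is trivial on elements fixed by `τ`. -/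
theorem tameHom_eq_one_of_fixed {τ : L ≃ₐ[K] L} (hτ : τ ∈ A.inertiaSubgroupIn K)
    (c : Lˣ) (hc : τ c = c) : tameHom A hτ c = 1 := by
  rw [tameHom_eq_one_iff, hc, sub_self, map_zero]
  exact pos_iff_ne_zero.mpr ((Valuation.ne_zero_iff _).mpr c.ne_zero)

/-- Values of the tame character are roots of unity: if `c ^ n = a * u` with `a ∈ K` and `u` a
unit of `A`, then `tame(c) ^ n = 1`. -/
theorem tameHom_pow_eq_one {τ : L ≃ₐ[K] L} (hτ : τ ∈ A.inertiaSubgroupIn K)
    (c : Lˣ) (n : ℕ) (a : K) (u : L) (hu : A.valuation u = 1)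
    (h : (c : L) ^ n = algebraMap K L a * u) : tameHom A hτ c ^ n = 1 := by
  have hu0 : u ≠ 0 := by
    rintro rfl
    simp at hu
  have ha0 : algebraMap K L a ≠ 0 := by
    intro h0
    rw [h0, zero_mul] at h
    exact pow_ne_zero n c.ne_zero h
  have hcn : c ^ n = Units.mk0 _ ha0 * Units.mk0 u hu0 := by
    apply Units.ext
    simpa using h
  rw [← map_pow, hcn, map_mul, tameHom_algebraMap A hτ _ a rfl,
    tameHom_eq_one_of_valuation_eq_one A hτ _ hu, one_mul]

/-- `στ c / c = (σ (τ c) / τ c) · (τ c / c)`. -/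
theorem ratioHom_mul {σ τ : L ≃ₐ[K] L} (hσ : σ ∈ A.decompositionSubgroup K)
    (hτ : τ ∈ A.decompositionSubgroup K) (c : Lˣ) :
    ratioHom A (mul_mem hσ hτ) c =
      ratioHom A hσ (Units.map (τ : L →* L) c) * ratioHom A hτ c := by
  apply Subtype.ext
  apply Units.ext
  rw [Subgroup.coe_mul, Units.val_mul, coe_ratioHom, coe_ratioHom, coe_ratioHom]
  have hc0 : (c : L) ≠ 0 := c.ne_zero
  have hd0 : τ (c : L) ≠ 0 := by simp
  have h1 : ((Units.map (τ : L →* L) c : Lˣ) : L) = τ c := rfl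
  have h2 : (σ * τ) (c : L) = σ (τ c) := rfl
  rw [h1, h2]
  field_simp

/-- The tame character is multiplicative in `τ`. -/
theorem tameHom_mul {σ τ : L ≃ₐ[K] L} (hσ : σ ∈ A.inertiaSubgroupIn K)
    (hτ : τ ∈ A.inertiaSubgroupIn K) (c : Lˣ) :
    tameHom A (mul_mem hσ hτ) c = tameHom A hσ c * tameHom A hτ c := by
  set d : Lˣ := Units.map (τ : L →* L) c with hd
  have hdv : A.valuation (d : L) = A.valuation (c : L) :=
    valuation_apply_of_mem_decomposition A (mem_decomposition_of_mem_inertiaIn A hτ) (c : L)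
  have h1 : tameHom A hσ d = tameHom A hσ c := tameHom_eq_of_valuation_eq A hσ d c hdv
  rw [← h1]
  show A.unitGroupToResidueFieldUnits (ratioHom A _ c) = _
  rw [ratioHom_mul A (mem_decomposition_of_mem_inertiaIn A hσ)
    (mem_decomposition_of_mem_inertiaIn A hτ), map_mul]
  rfl

/-- The tame character of the inverse. -/
theorem tameHom_inv {τ : L ≃ₐ[K] L} (hτ : τ ∈ A.inertiaSubgroupIn K) (c : Lˣ) :
    tameHom A (inv_mem hτ) c = (tameHom A hτ c)⁻¹ := by
  have h1 : tameHom A (mul_mem (inv_mem hτ) hτ) c = 1 := by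
    apply tameHom_eq_one_of_fixed
    show (τ⁻¹ * τ) (c : L) = c
    rw [inv_mul_cancel]; rfl
  rw [tameHom_mul A (inv_mem hτ) hτ] at h1
  exact eq_inv_of_mul_eq_one_left h1

end tame

end Fermat.Agent.A2.H708

end
-- ===== PACK-END A2/H708/Tame.lean

-- ===== PACK-BEGIN A2/Mod/H142/S2Core.lean
section









/-!
# A2 / MODASM sub-assembly S2 (components normal) — abstract core (helper142)

Mathlib-only.  `F` a field, `V` a valuation subring of `F`, `B ⊆ V` a subalgebra (the chart),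
`p = B ∩ 𝔪_V` (the component of the special fibre cut out by `V`).

* `isIntegrallyClosed_quotient_of_normal` (**core A**): if the image of `B` in the residue field
  `κ(V)` is integrally closed in `κ(V)` (elementwise form `NormalIn`), then `B ⧸ p` is an
  integrally closed domain.
* `normalIn_transfer` (**core B**): transfer of `NormalIn` along a ring homomorphism
  `γ : F₀ → F` (a degeneracy map) with `γ⁻¹ V = V₀`, `γ B₀ ⊆ B`, residue degree one
  (`V = γ V₀ + 𝔪_V`) and `B` integral over `γ B₀` MODULO `𝔪_V`.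

No integrality of `B` over `γ B₀` itself is needed (it fails in the chart at infinity).
-/

set_option autoImplicit false

noncomputable section

open Polynomial

namespace Fermat.Agent.A2.Mod.H142

section Integral

variable {A₀ A K : Type*} [CommRing A₀] [CommRing A] [CommRing K]

/-- Transitivity of integrality for two ring homomorphisms into a common target. -/
theorem isIntegralElem_trans (ρ₀ : A₀ →+* K) (ρ : A →+* K)
    (h : ∀ a, ρ₀.IsIntegralElem (ρ a)) {x : K} (hx : ρ.IsIntegralElem x) :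
    ρ₀.IsIntegralElem x := by
  let _ : Algebra A₀ K := ρ₀.toAlgebra
  have hmem : ∀ a, ρ a ∈ (integralClosure A₀ K).toSubring := fun a => h a
  obtain ⟨p, hp, hpx⟩ := hx
  let ρ' : A →+* (integralClosure A₀ K).toSubring := ρ.codRestrict _ hmem
  have hx' : IsIntegral (integralClosure A₀ K) x := by
    refine ⟨p.map ρ', hp.map _, ?_⟩
    rw [eval₂_map]
    exact hpx
  exact isIntegral_trans x hx'

/-- A monic relation in `Fin`-indexed form gives integrality. -/
theorem isIntegralElem_of_fin (ρ : A →+* K) {x : K} (n : ℕ) (c : Fin n → A)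
    (h : x ^ n + ∑ i : Fin n, ρ (c i) * x ^ (i : ℕ) = 0) : ρ.IsIntegralElem x := by
  refine ⟨X ^ n + ∑ i : Fin n, C (c i) * X ^ (i : ℕ),
    Polynomial.monic_X_pow_add (Polynomial.degree_sum_fin_lt c), ?_⟩
  rw [eval₂_add, eval₂_pow, eval₂_X, eval₂_finsetSum]
  simpa using h

/-- Integrality gives a monic relation in `Fin`-indexed form. -/
theorem exists_fin_of_isIntegralElem (ρ : A →+* K) {x : K} (hx : ρ.IsIntegralElem x) :
    ∃ (n : ℕ) (c : Fin n → A), x ^ n + ∑ i : Fin n, ρ (c i) * x ^ (i : ℕ) = 0 := by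
  obtain ⟨p, hp, hpx⟩ := hx
  refine ⟨p.natDegree, fun i => p.coeff i, ?_⟩
  have h1 := hp.as_sum
  have h2 : eval₂ ρ x p = x ^ p.natDegree + ∑ i : Fin p.natDegree, ρ (p.coeff i) * x ^ (i : ℕ) := by
    conv_lhs => rw [h1]
    rw [eval₂_add, eval₂_pow, eval₂_X, eval₂_finsetSum,
      ← Fin.sum_univ_eq_sum_range (fun i => eval₂ ρ x (C (p.coeff i) * X ^ i)) p.natDegree]
    simp
  rw [← h2]
  exact hpx

end Integral

section Val

variable {R F : Type*} [CommRing R] [Field F] [Algebra R F]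

/-- The residue class map `B → κ(V)` of a subalgebra `B ⊆ V`. -/
def resMap (V : ValuationSubring F) (B : Subalgebra R F) (hBV : ∀ b ∈ B, b ∈ V) :
    B →+* IsLocalRing.ResidueField V :=
  (IsLocalRing.residue V).comp
    { toFun := fun b => ⟨b.1, hBV b.1 b.2⟩
      map_one' := rfl
      map_mul' := fun _ _ => rfl
      map_zero' := rfl
      map_add' := fun _ _ => rfl }

theorem residue_eq_zero_iff_val (V : ValuationSubring F) (f : V) :
    IsLocalRing.residue V f = 0 ↔ V.valuation (f : F) < 1 := by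
  rw [IsLocalRing.residue_eq_zero_iff]
  exact V.valuation_lt_one_iff f

theorem resMap_apply (V : ValuationSubring F) (B : Subalgebra R F) (hBV : ∀ b ∈ B, b ∈ V)
    (b : B) : resMap V B hBV b = IsLocalRing.residue V ⟨b.1, hBV b.1 b.2⟩ := rfl

theorem resMap_eq_zero_iff (V : ValuationSubring F) (B : Subalgebra R F)
    (hBV : ∀ b ∈ B, b ∈ V) (b : B) : resMap V B hBV b = 0 ↔ V.valuation (b : F) < 1 := by
  rw [resMap_apply, residue_eq_zero_iff_val]

/-- `f̄ = ḡ` in `κ(V)` iff `f - g ∈ 𝔪_V`. -/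
theorem residue_eq_iff_val (V : ValuationSubring F) (f g : V) :
    IsLocalRing.residue V f = IsLocalRing.residue V g ↔ V.valuation ((f : F) - g) < 1 := by
  rw [← sub_eq_zero, ← map_sub, residue_eq_zero_iff_val]
  rfl

/-- The image of `B` in the residue field of `V` is integrally closed in it (elementwise form;
the shape of `Mod.GoodRedAt.normal`). -/
def NormalIn (V : ValuationSubring F) (B : Set F) : Prop :=
  ∀ f ∈ V, (∃ (n : ℕ) (c : Fin n → F), (∀ i, c i ∈ B) ∧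
      V.valuation (f ^ n + ∑ i : Fin n, c i * f ^ (i : ℕ)) < 1) →
    ∃ b ∈ B, V.valuation (f - b) < 1

/-- A monic relation modulo `𝔪_V` with coefficients in `B` is integrality of the residue class
over `B` (via `resMap`). -/
theorem isIntegralElem_residue_of_rel (V : ValuationSubring F) (B : Subalgebra R F)
    (hBV : ∀ b ∈ B, b ∈ V) (f : V) (n : ℕ) (c : Fin n → F) (hc : ∀ i, c i ∈ B)
    (h : V.valuation ((f : F) ^ n + ∑ i : Fin n, c i * (f : F) ^ (i : ℕ)) < 1) :
    (resMap V B hBV).IsIntegralElem (IsLocalRing.residue V f) := by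
  refine isIntegralElem_of_fin _ n (fun i => ⟨c i, hc i⟩) ?_
  have h1 : (f ^ n + ∑ i : Fin n, (⟨c i, hBV _ (hc i)⟩ : V) * f ^ (i : ℕ) : V) =
      (⟨(f : F) ^ n + ∑ i : Fin n, c i * (f : F) ^ (i : ℕ),
        V.add_mem _ _ (V.pow_mem f.2 n)
          (V.toSubring.sum_mem fun i _ => V.mul_mem _ _ (hBV _ (hc i)) (V.pow_mem f.2 _))⟩ : V) := by
    apply Subtype.ext
    push_cast
    rfl
  have h2 : IsLocalRing.residue V (f ^ n + ∑ i : Fin n, (⟨c i, hBV _ (hc i)⟩ : V) * f ^ (i : ℕ))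
      = 0 := by
    rw [h1, residue_eq_zero_iff_val]
    exact h
  rw [map_add, map_pow, map_sum] at h2
  simp only [map_mul, map_pow] at h2
  exact h2

/-- Integrality of a residue class over `B` gives a monic relation modulo `𝔪_V`. -/
theorem exists_rel_of_isIntegralElem_residue (V : ValuationSubring F) (B : Subalgebra R F)
    (hBV : ∀ b ∈ B, b ∈ V) (f : V)
    (h : (resMap V B hBV).IsIntegralElem (IsLocalRing.residue V f)) :
    ∃ (n : ℕ) (c : Fin n → F), (∀ i, c i ∈ B) ∧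
      V.valuation ((f : F) ^ n + ∑ i : Fin n, c i * (f : F) ^ (i : ℕ)) < 1 := by
  obtain ⟨n, c, hrel⟩ := exists_fin_of_isIntegralElem _ h
  refine ⟨n, fun i => (c i : F), fun i => (c i).2, ?_⟩
  have h1 : (f ^ n + ∑ i : Fin n, (⟨(c i : F), hBV _ (c i).2⟩ : V) * f ^ (i : ℕ) : V) =
      (⟨(f : F) ^ n + ∑ i : Fin n, (c i : F) * (f : F) ^ (i : ℕ),
        V.add_mem _ _ (V.pow_mem f.2 n)
          (V.toSubring.sum_mem fun i _ =>
            V.mul_mem _ _ (hBV _ (c i).2) (V.pow_mem f.2 _))⟩ : V) := by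
    apply Subtype.ext
    push_cast
    rfl
  have h2 : IsLocalRing.residue V (f ^ n + ∑ i : Fin n, (⟨(c i : F), hBV _ (c i).2⟩ : V) * f ^ (i : ℕ))
      = 0 := by
    rw [map_add, map_pow, map_sum]
    simp only [map_mul, map_pow]
    exact hrel
  rw [h1, residue_eq_zero_iff_val] at h2
  exact h2

/-- **Core A.**  If the image of `B` in `κ(V)` is integrally closed in `κ(V)`, then
`B ⧸ (B ∩ 𝔪_V)` is an integrally closed domain. -/
theorem isIntegrallyClosed_quotient_of_normal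
    (V : ValuationSubring F) (B : Subalgebra R F) (hBV : ∀ b ∈ B, b ∈ V)
    (p : Ideal B) (hp : ∀ b : B, b ∈ p ↔ V.valuation (b : F) < 1)
    (hnorm : NormalIn V (B : Set F)) :
    IsIntegrallyClosed (B ⧸ p) := by
  classical
  set ρ := resMap V B hBV with hρ
  have hker : ∀ b : B, b ∈ p → ρ b = 0 := fun b hb =>
    (resMap_eq_zero_iff V B hBV b).2 ((hp b).1 hb)
  let ρq : B ⧸ p →+* IsLocalRing.ResidueField V := Ideal.Quotient.lift p ρ hker
  have hρq : ∀ b : B, ρq (Ideal.Quotient.mk p b) = ρ b := fun b => Ideal.Quotient.lift_mk p ρ hker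
  have hinj : Function.Injective ρq := by
    rw [injective_iff_map_eq_zero]
    intro a ha
    obtain ⟨b, rfl⟩ := Ideal.Quotient.mk_surjective a
    rw [hρq] at ha
    exact Ideal.Quotient.eq_zero_iff_mem.2 ((hp b).2 ((resMap_eq_zero_iff V B hBV b).1 ha))
  have : IsDomain (B ⧸ p) := hinj.isDomain ρq
  rw [isIntegrallyClosed_iff (FractionRing (B ⧸ p))]
  intro x hx
  let ρK : FractionRing (B ⧸ p) →+* IsLocalRing.ResidueField V := IsFractionRing.lift hinj
  have hρK : ∀ a : B ⧸ p, ρK (algebraMap _ _ a) = ρq a := fun a =>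
    IsFractionRing.lift_algebraMap hinj a
  -- `ρK x` is integral over `B ⧸ p`, hence over `B`
  have h1 : ρq.IsIntegralElem (ρK x) := by
    obtain ⟨P, hP, hPx⟩ := hx
    refine ⟨P, hP, ?_⟩
    have h := congrArg ρK hPx
    rw [hom_eval₂, map_zero] at h
    have hcomp : ρK.comp (algebraMap (B ⧸ p) (FractionRing (B ⧸ p))) = ρq := by
      ext a
      exact hρK a
    rwa [hcomp] at h
  have h2 : ρ.IsIntegralElem (ρK x) := by
    obtain ⟨n, c, hrel⟩ := exists_fin_of_isIntegralElem _ h1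
    choose c' hc' using fun i => Ideal.Quotient.mk_surjective (c i)
    refine isIntegralElem_of_fin _ n c' ?_
    rw [← hrel]
    congr 1
    refine Finset.sum_congr rfl fun i _ => ?_
    rw [← hρq, hc']
  obtain ⟨f, hf⟩ := IsLocalRing.residue_surjective (R := V) (ρK x)
  rw [← hf] at h2
  obtain ⟨n, c, hc, hrel⟩ := exists_rel_of_isIntegralElem_residue V B hBV f h2
  obtain ⟨b, hb, hfb⟩ := hnorm f f.2 ⟨n, c, hc, hrel⟩
  refine ⟨Ideal.Quotient.mk p ⟨b, hb⟩, ?_⟩
  apply ρK.injective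
  rw [hρK, hρq, ← hf, resMap_apply]
  symm
  rw [residue_eq_iff_val]
  exact hfb

end Val

section Transfer

variable {R F₀ F : Type*} [CommRing R] [Field F₀] [Field F] [Algebra R F₀] [Algebra R F]

/-- A ring homomorphism mapping `V₀` into `V` reflects the maximal ideals. -/
theorem val_lt_one_of_map (γ : F₀ →+* F) (V₀ : ValuationSubring F₀) (V : ValuationSubring F)
    (hγV : ∀ g ∈ V₀, γ g ∈ V) {g : F₀} (hg : g ∈ V₀) (h : V.valuation (γ g) < 1) :
    V₀.valuation g < 1 := by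
  by_contra hcon
  rw [not_lt] at hcon
  have hone : V₀.valuation g = 1 := le_antisymm ((V₀.valuation_le_one_iff _).2 hg) hcon
  have hinv : g⁻¹ ∈ V₀ := by
    rw [← V₀.valuation_le_one_iff, map_inv₀, hone, inv_one]
  have h1 : (γ g)⁻¹ ∈ V := by
    rw [← map_inv₀]
    exact hγV _ hinv
  have h2 : V.valuation (γ g)⁻¹ ≤ 1 := (V.valuation_le_one_iff _).2 h1
  have hne : V.valuation (γ g) ≠ 0 := by
    intro h0
    rw [map_inv₀, h0, inv_zero] at h2
    have hg0 : γ g = 0 := (Valuation.zero_iff _).1 h0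
    have : g = 0 := by
      by_contra hg0'
      exact (map_ne_zero γ).2 hg0' hg0
    rw [this, map_zero] at hone
    exact zero_ne_one hone
  rw [map_inv₀, inv_le_one₀ (zero_lt_iff.2 hne)] at h2
  exact absurd h (not_lt.2 h2)

/-- The restriction `B₀ → B` of a ring homomorphism `γ : F₀ → F` with `γ B₀ ⊆ B`. -/
def mapSub (γ : F₀ →+* F) (B₀ : Subalgebra R F₀) (B : Subalgebra R F)
    (hγB : ∀ b ∈ B₀, γ b ∈ B) : B₀ →+* B where
  toFun b := ⟨γ b.1, hγB b.1 b.2⟩
  map_one' := Subtype.ext (map_one γ)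
  map_mul' a b := Subtype.ext (map_mul γ a.1 b.1)
  map_zero' := Subtype.ext (map_zero γ)
  map_add' a b := Subtype.ext (map_add γ a.1 b.1)

@[simp]
theorem coe_mapSub (γ : F₀ →+* F) (B₀ : Subalgebra R F₀) (B : Subalgebra R F)
    (hγB : ∀ b ∈ B₀, γ b ∈ B) (b : B₀) : ((mapSub γ B₀ B hγB b : B) : F) = γ b := rfl

/-- **Core B.**  Transfer of normality of the special fibre along `γ : F₀ → F`:
* `γ V₀ ⊆ V` and `γ 𝔪_{V₀} ⊆ 𝔪_V`;
* `γ B₀ ⊆ B`;
* residue degree one: `V = γ V₀ + 𝔪_V`;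
* `B` is integral over `γ B₀` modulo `𝔪_V` (in the residue field of `V`). -/
theorem normalIn_transfer (γ : F₀ →+* F)
    (V₀ : ValuationSubring F₀) (V : ValuationSubring F)
    (hγV : ∀ g ∈ V₀, γ g ∈ V)
    (hγp : ∀ g : F₀, V₀.valuation g < 1 → V.valuation (γ g) < 1)
    (B₀ : Subalgebra R F₀) (B : Subalgebra R F)
    (hB₀ : ∀ b ∈ B₀, b ∈ V₀) (hB : ∀ b ∈ B, b ∈ V)
    (hγB : ∀ b ∈ B₀, γ b ∈ B)
    (hres : ∀ f ∈ V, ∃ g ∈ V₀, V.valuation (f - γ g) < 1)
    (hint : ∀ b : B, ((resMap V B hB).comp (mapSub γ B₀ B hγB)).IsIntegralElem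
      (resMap V B hB b))
    (hnorm₀ : NormalIn V₀ (B₀ : Set F₀)) :
    NormalIn V (B : Set F) := by
  classical
  intro f hf ⟨n, c, hc, hrel⟩
  -- the two residue maps into `κ(V)`
  set ρ := resMap V B hB with hρ
  set ρ₀ : B₀ →+* IsLocalRing.ResidueField V := ρ.comp (mapSub γ B₀ B hγB) with hρ₀
  -- `f̄` is integral over `γ B̄₀`
  have h2 : ρ₀.IsIntegralElem (IsLocalRing.residue V ⟨f, hf⟩) :=
    isIntegralElem_trans ρ₀ ρ hint (isIntegralElem_residue_of_rel V B hB ⟨f, hf⟩ n c hc hrel)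
  -- residue degree one
  obtain ⟨g, hg, hfg⟩ := hres f hf
  have hfg' : IsLocalRing.residue V ⟨f, hf⟩ = IsLocalRing.residue V ⟨γ g, hγV g hg⟩ := by
    rw [residue_eq_iff_val]
    exact hfg
  rw [hfg'] at h2
  obtain ⟨m, d, hrel₀⟩ := exists_fin_of_isIntegralElem _ h2
  -- descend the relation to level `F₀`
  have hmem₀ : g ^ m + ∑ i : Fin m, (d i : F₀) * g ^ (i : ℕ) ∈ V₀ :=
    V₀.add_mem _ _ (V₀.pow_mem hg m)
      (V₀.toSubring.sum_mem fun i _ => V₀.mul_mem _ _ (hB₀ _ (d i).2) (V₀.pow_mem hg _))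
  have hval : V.valuation (γ (g ^ m + ∑ i : Fin m, (d i : F₀) * g ^ (i : ℕ))) < 1 := by
    have hv : (⟨γ g, hγV g hg⟩ ^ m + ∑ i : Fin m,
        (⟨γ (d i), hB _ (hγB _ (d i).2)⟩ : V) * ⟨γ g, hγV g hg⟩ ^ (i : ℕ) : V) =
        (⟨γ (g ^ m + ∑ i : Fin m, (d i : F₀) * g ^ (i : ℕ)), hγV _ hmem₀⟩ : V) := by
      apply Subtype.ext
      push_cast
      simp only [map_add, map_pow, map_sum, map_mul]
    have h3 : IsLocalRing.residue V (⟨γ g, hγV g hg⟩ ^ m + ∑ i : Fin m,
        (⟨γ (d i), hB _ (hγB _ (d i).2)⟩ : V) * ⟨γ g, hγV g hg⟩ ^ (i : ℕ)) = 0 := by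
      rw [map_add, map_pow, map_sum]
      simp only [map_mul, map_pow]
      exact hrel₀
    rw [hv, residue_eq_zero_iff_val] at h3
    exact h3
  obtain ⟨b₀, hb₀, hgb⟩ := hnorm₀ g hg ⟨m, fun i => (d i : F₀), fun i => (d i).2,
    val_lt_one_of_map γ V₀ V hγV hmem₀ hval⟩
  refine ⟨γ b₀, hγB b₀ hb₀, ?_⟩
  have hpres : V.valuation (γ (g - b₀)) < 1 := hγp _ hgb
  have : f - γ b₀ = (f - γ g) + γ (g - b₀) := by
    rw [map_sub]
    ring
  rw [this]
  exact lt_of_le_of_lt (Valuation.map_add _ _ _) (max_lt hfg hpres)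

/-- The hypothesis `hint` of `normalIn_transfer` from a coordinate congruence:
`B` integral over `R[y]`, `y ≡ γ c₀ mod 𝔪_V` with `c₀ ∈ B₀`. -/
theorem isIntegralElem_of_coord (γ : F₀ →+* F)
    (hγR : ∀ r : R, γ (algebraMap R F₀ r) = algebraMap R F r)
    (V : ValuationSubring F) (B₀ : Subalgebra R F₀) (B : Subalgebra R F)
    (hB : ∀ b ∈ B, b ∈ V) (hγB : ∀ b ∈ B₀, γ b ∈ B)
    (y : F) (hyB : y ∈ B) (c₀ : F₀) (hc₀ : c₀ ∈ B₀) (hy : V.valuation (y - γ c₀) < 1)
    (hBint : ∀ b ∈ B, IsIntegral (Algebra.adjoin R ({y} : Set F)) b) (b : B) :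
    ((resMap V B hB).comp (mapSub γ B₀ B hγB)).IsIntegralElem (resMap V B hB b) := by
  classical
  set ρ := resMap V B hB with hρ
  set ρ₀ : B₀ →+* IsLocalRing.ResidueField V := ρ.comp (mapSub γ B₀ B hγB) with hρ₀
  have hle : Algebra.adjoin R ({y} : Set F) ≤ B :=
    Algebra.adjoin_le (Set.singleton_subset_iff.2 hyB)
  let ι : Algebra.adjoin R ({y} : Set F) →+* B := (Subalgebra.inclusion hle).toRingHom
  have hι : ∀ a, ((ι a : B) : F) = (a : F) := fun _ => rfl
  -- `b̄` is integral over the image of `R[y]`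
  have h1 : (ρ.comp ι).IsIntegralElem (ρ b) := by
    obtain ⟨Q, hQ, hQb⟩ := hBint b.1 b.2
    refine ⟨Q, hQ, ?_⟩
    have h0 : Q.eval₂ ι b = 0 := by
      apply Subtype.ext
      have := Polynomial.hom_eval₂ Q ι B.val.toRingHom b
      rw [ZeroMemClass.coe_zero]
      calc ((Q.eval₂ ι b : B) : F) = B.val.toRingHom (Q.eval₂ ι b) := rfl
        _ = Q.eval₂ (B.val.toRingHom.comp ι) (B.val.toRingHom b) := this
        _ = 0 := hQb
    have := congrArg ρ h0
    rwa [Polynomial.hom_eval₂, map_zero] at this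
  -- the image of `R[y]` lies in the image of `B₀`
  refine isIntegralElem_trans ρ₀ (ρ.comp ι) (fun a => ?_) h1
  have hmem : (a : F) ∈ (Polynomial.aeval (R := R) y).range := by
    rw [← Algebra.adjoin_singleton_eq_range_aeval]
    exact a.2
  obtain ⟨Q, hQ⟩ := hmem
  have key : ρ.comp (Polynomial.aeval (R := R) (⟨y, hyB⟩ : B)).toRingHom =
      ρ₀.comp (Polynomial.aeval (R := R) (⟨c₀, hc₀⟩ : B₀)).toRingHom := by
    apply Polynomial.ringHom_ext
    · intro r
      simp only [RingHom.comp_apply, AlgHom.toRingHom_eq_coe, RingHom.coe_coe,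
        Polynomial.aeval_C, hρ₀]
      rw [resMap_apply, resMap_apply]
      congr 1
      apply Subtype.ext
      show algebraMap R F r = γ (algebraMap R F₀ r)
      exact (hγR r).symm
    · simp only [RingHom.comp_apply, AlgHom.toRingHom_eq_coe, RingHom.coe_coe,
        Polynomial.aeval_X, hρ₀]
      rw [resMap_apply, resMap_apply, residue_eq_iff_val]
      exact hy
  have h2 : (ρ.comp ι) a = ρ₀ (Polynomial.aeval (R := R) (⟨c₀, hc₀⟩ : B₀) Q) := by
    have h3 : ι a = Polynomial.aeval (R := R) (⟨y, hyB⟩ : B) Q := by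
      apply Subtype.ext
      rw [hι, ← hQ]
      exact (Polynomial.aeval_algHom_apply B.val (⟨y, hyB⟩ : B) Q).symm ▸ rfl
    rw [RingHom.comp_apply, h3]
    exact congrArg (fun φ : Polynomial R →+* IsLocalRing.ResidueField V => φ Q) key
  rw [h2]
  exact ρ₀.isIntegralElem_map

end Transfer

section Chart

variable {R F₀ F : Type*} [CommRing R] [Field F₀] [Field F] [Algebra R F₀] [Algebra R F]

/-- Integrality over `R[y]` in the form used by `Mod.chart`. -/
theorem isIntegral_adjoin_iff (y f : F) :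
    IsIntegral (Algebra.adjoin R ({y} : Set F)) f ↔
      ∃ p : Polynomial (Polynomial R), p.Monic ∧
        p.eval₂ (Polynomial.eval₂RingHom (algebraMap R F) y) f = 0 := by
  classical
  let ψ : Polynomial R →ₐ[R] Algebra.adjoin R ({y} : Set F) :=
    (Polynomial.aeval (R := R) y).codRestrict (Algebra.adjoin R ({y} : Set F)) (fun p => by
      rw [Algebra.adjoin_singleton_eq_range_aeval]
      exact ⟨p, rfl⟩)
  have hψ : (algebraMap (Algebra.adjoin R ({y} : Set F)) F).comp ψ.toRingHom =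
      Polynomial.eval₂RingHom (algebraMap R F) y := by
    apply Polynomial.ringHom_ext
    · intro r
      simp [ψ]
    · simp [ψ]
  have hsurj : Function.Surjective ψ.toRingHom := by
    rintro ⟨a, ha⟩
    have ha' : a ∈ (Polynomial.aeval (R := R) y).range := by
      rw [← Algebra.adjoin_singleton_eq_range_aeval]
      exact ha
    obtain ⟨Q, hQ⟩ := ha'
    exact ⟨Q, Subtype.ext hQ⟩
  constructor
  · rintro ⟨Q, hQ, hQf⟩
    have hlift : Q ∈ Polynomial.lifts ψ.toRingHom := by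
      rw [Polynomial.lifts_iff_coeff_lifts]
      intro n
      exact hsurj _
    obtain ⟨p, hp, -, hpm⟩ := Polynomial.lifts_and_natDegree_eq_and_monic hlift hQ
    refine ⟨p, hpm, ?_⟩
    rw [← hψ, ← Polynomial.eval₂_map, hp]
    exact hQf
  · rintro ⟨p, hp, hpf⟩
    refine ⟨p.map ψ.toRingHom, hp.map _, ?_⟩
    rw [Polynomial.eval₂_map, hψ]
    exact hpf

/-- A valuation subring containing `R` and `y` contains the integral closure of `R[y]`. -/
theorem mem_valuationSubring_of_isIntegral_adjoin (V : ValuationSubring F)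
    (hR : ∀ r : R, algebraMap R F r ∈ V) {y : F} (hy : y ∈ V) {f : F}
    (hf : IsIntegral (Algebra.adjoin R ({y} : Set F)) f) : f ∈ V := by
  classical
  let VA : Subalgebra R F :=
    { V.toSubring.toSubsemiring with algebraMap_mem' := hR }
  have hle : Algebra.adjoin R ({y} : Set F) ≤ VA :=
    Algebra.adjoin_le (Set.singleton_subset_iff.2 hy)
  obtain ⟨Q, hQ, hQf⟩ := hf
  let ι : Algebra.adjoin R ({y} : Set F) →+* V :=
    { toFun := fun a => ⟨a.1, hle a.2⟩
      map_one' := rfl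
      map_mul' := fun _ _ => rfl
      map_zero' := rfl
      map_add' := fun _ _ => rfl }
  have hint : IsIntegral V f := by
    refine ⟨Q.map ι, hQ.map _, ?_⟩
    rw [Polynomial.eval₂_map]
    exact hQf
  obtain ⟨z, hz⟩ := (IsIntegrallyClosed.isIntegral_iff (R := V) (K := F)).mp hint
  rw [← hz]
  exact z.2

/-- Functoriality of charts: if `γ y₀` is integral over `R[y]` then `γ` maps the integral
closure of `R[y₀]` into the integral closure of `R[y]`. -/
theorem isIntegral_adjoin_map (γ : F₀ →+* F)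
    (hγR : ∀ r : R, γ (algebraMap R F₀ r) = algebraMap R F r) {y₀ : F₀} {y : F}
    (hy : IsIntegral (Algebra.adjoin R ({y} : Set F)) (γ y₀)) {b : F₀}
    (hb : IsIntegral (Algebra.adjoin R ({y₀} : Set F₀)) b) :
    IsIntegral (Algebra.adjoin R ({y} : Set F)) (γ b) := by
  classical
  rw [isIntegral_adjoin_iff] at hb
  obtain ⟨p, hp, hpb⟩ := hb
  -- `γ b` is integral over `R[γ y₀]`
  have h1 : (Polynomial.eval₂RingHom (algebraMap R F) (γ y₀)).IsIntegralElem (γ b) := by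
    refine ⟨p, hp, ?_⟩
    have h := congrArg γ hpb
    rw [Polynomial.hom_eval₂, map_zero] at h
    have hcomp : γ.comp (Polynomial.eval₂RingHom (algebraMap R F₀) y₀) =
        Polynomial.eval₂RingHom (algebraMap R F) (γ y₀) := by
      apply Polynomial.ringHom_ext
      · intro r
        simp [hγR]
      · simp
    rwa [hcomp] at h
  -- `R[γ y₀]` is integral over `R[y]`
  refine isIntegralElem_trans (algebraMap (Algebra.adjoin R ({y} : Set F)) F)
    (Polynomial.eval₂RingHom (algebraMap R F) (γ y₀)) (fun a => ?_) h1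
  show IsIntegral (Algebra.adjoin R ({y} : Set F)) (Polynomial.eval₂ (algebraMap R F) (γ y₀) a)
  rw [Polynomial.eval₂_eq_sum_range]
  refine IsIntegral.sum _ fun i _ => IsIntegral.mul ?_ (hy.pow i)
  have : algebraMap R F (a.coeff i) =
      algebraMap (Algebra.adjoin R ({y} : Set F)) F (algebraMap R _ (a.coeff i)) := rfl
  rw [this]
  exact isIntegral_algebraMap

end Chart

end Fermat.Agent.A2.Mod.H142

end
end
-- ===== PACK-END A2/Mod/H142/S2Core.lean

-- ===== PACK-BEGIN S36/Mod3/H756/CongAbs.lean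
section


/-!
# S36 / MOD3 — congruences modulo the maximal ideal of a valuation subring (helper756)

Mathlib-only.  `Cong V a b` : `a, b ∈ V` and `a - b ∈ 𝔪_V`.  Closed under `+`, `*`, `^`, inverses of
units; transport along `comap`.
-/

set_option autoImplicit false

namespace Fermat.Agent.S36.Mod3.H756

variable {F : Type*} [Field F]

/-- `a ≡ b` modulo the maximal ideal of `V` (both in `V`). -/
def Cong (V : ValuationSubring F) (a b : F) : Prop :=
  a ∈ V ∧ b ∈ V ∧ a - b ∈ V.nonunits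

namespace Cong

variable {V : ValuationSubring F} {a b c a' b' : F}

theorem refl (ha : a ∈ V) : Cong V a a :=
  ⟨ha, ha, by
    rw [sub_self, ValuationSubring.mem_nonunits_iff, map_zero]
    exact zero_lt_one⟩

theorem val_lt (h : Cong V a b) : V.valuation (a - b) < 1 :=
  (ValuationSubring.mem_nonunits_iff V).1 h.2.2

theorem of_val_lt (ha : a ∈ V) (hb : b ∈ V) (h : V.valuation (a - b) < 1) : Cong V a b :=
  ⟨ha, hb, (ValuationSubring.mem_nonunits_iff V).2 h⟩

theorem symm (h : Cong V a b) : Cong V b a := by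
  refine of_val_lt h.2.1 h.1 ?_
  rw [← neg_sub, Valuation.map_neg]
  exact h.val_lt

theorem trans (h₁ : Cong V a b) (h₂ : Cong V b c) : Cong V a c := by
  refine of_val_lt h₁.1 h₂.2.1 ?_
  have : a - c = (a - b) + (b - c) := by ring
  rw [this]
  exact lt_of_le_of_lt (Valuation.map_add _ _ _) (max_lt h₁.val_lt h₂.val_lt)

theorem val_mul_lt {x y : F} (hx : V.valuation x < 1) (hy : y ∈ V) :
    V.valuation (x * y) < 1 := by
  rw [map_mul]
  calc V.valuation x * V.valuation y ≤ V.valuation x * 1 := by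
        gcongr
        exact (V.valuation_le_one_iff _).2 hy
    _ = V.valuation x := mul_one _
    _ < 1 := hx

theorem mul (h₁ : Cong V a a') (h₂ : Cong V b b') : Cong V (a * b) (a' * b') := by
  refine of_val_lt (V.mul_mem _ _ h₁.1 h₂.1) (V.mul_mem _ _ h₁.2.1 h₂.2.1) ?_
  have : a * b - a' * b' = (a - a') * b + (b - b') * a' := by ring
  rw [this]
  exact lt_of_le_of_lt (Valuation.map_add _ _ _)
    (max_lt (val_mul_lt h₁.val_lt h₂.1) (val_mul_lt h₂.val_lt h₁.2.1))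

theorem pow (h : Cong V a a') (n : ℕ) : Cong V (a ^ n) (a' ^ n) := by
  induction n with
  | zero =>
    rw [pow_zero, pow_zero]
    exact refl V.one_mem
  | succ n ih =>
    rw [pow_succ, pow_succ]
    exact ih.mul h

/-- Inverses of congruent units are congruent. -/
theorem inv (h : Cong V a b) (ha : a⁻¹ ∈ V) (hb : b⁻¹ ∈ V) : Cong V a⁻¹ b⁻¹ := by
  refine of_val_lt ha hb ?_
  rcases eq_or_ne a 0 with rfl | ha0
  · -- then `b ∈ 𝔪_V` and `b⁻¹ ∈ V`: `b = 0`
    have hbv : V.valuation b < 1 := by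
      have := h.val_lt
      rwa [zero_sub, Valuation.map_neg] at this
    rcases eq_or_ne b 0 with rfl | hb0
    · simp
    · exfalso
      have h1 : V.valuation b⁻¹ ≤ 1 := (V.valuation_le_one_iff _).2 hb
      have h2 : V.valuation (b * b⁻¹) < 1 := val_mul_lt hbv hb
      rw [mul_inv_cancel₀ hb0, map_one] at h2
      exact lt_irrefl _ h2
  · rcases eq_or_ne b 0 with rfl | hb0
    · exfalso
      have hav : V.valuation a < 1 := by
        have := h.val_lt
        rwa [sub_zero] at this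
      have h2 : V.valuation (a * a⁻¹) < 1 := val_mul_lt hav ha
      rw [mul_inv_cancel₀ ha0, map_one] at h2
      exact lt_irrefl _ h2
    · have : a⁻¹ - b⁻¹ = (b - a) * (a⁻¹ * b⁻¹) := by
        field_simp
      rw [this]
      exact val_mul_lt h.symm.val_lt (V.mul_mem _ _ ha hb)

end Cong

section Comap

/-- Membership in the maximal ideal of a valuation subring, for a nonzero element. -/
theorem mem_nonunits_iff_of_ne_zero {K : Type*} [Field K] (A : ValuationSubring K) (x : K)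
    (hx0 : x ≠ 0) : x ∈ A.nonunits ↔ x ∈ A ∧ x⁻¹ ∉ A := by
  rw [ValuationSubring.mem_nonunits_iff]
  constructor
  · intro h
    refine ⟨(A.valuation_le_one_iff _).1 h.le, fun hinv => ?_⟩
    have h1 : A.valuation x⁻¹ ≤ 1 := (A.valuation_le_one_iff _).2 hinv
    have h2 : A.valuation (x * x⁻¹) < 1 := by
      rw [map_mul]
      calc A.valuation x * A.valuation x⁻¹ ≤ A.valuation x * 1 := by gcongr
        _ = A.valuation x := mul_one _
        _ < 1 := h
    rw [mul_inv_cancel₀ hx0, map_one] at h2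
    exact lt_irrefl _ h2
  · rintro ⟨hx, hinv⟩
    by_contra hcon
    rw [not_lt] at hcon
    have hone : A.valuation x = 1 := le_antisymm ((A.valuation_le_one_iff _).2 hx) hcon
    apply hinv
    rw [← A.valuation_le_one_iff, map_inv₀, hone, inv_one]

variable {F' : Type*} [Field F'] (γ : F' →+* F) (V : ValuationSubring F)

/-- The maximal ideal of `V.comap γ` is the preimage of the maximal ideal of `V`. -/
theorem mem_nonunits_comap_iff (g : F') :
    g ∈ (V.comap γ).nonunits ↔ γ g ∈ V.nonunits := by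
  rcases eq_or_ne g 0 with rfl | hg0
  · rw [map_zero]
    constructor <;> intro _ <;>
      · rw [ValuationSubring.mem_nonunits_iff, map_zero]
        exact zero_lt_one
  have hγ0 : γ g ≠ 0 := (map_ne_zero γ).2 hg0
  rw [mem_nonunits_iff_of_ne_zero (V.comap γ) g hg0, mem_nonunits_iff_of_ne_zero V (γ g) hγ0,
    ValuationSubring.mem_comap, ValuationSubring.mem_comap, map_inv₀]

theorem Cong.map {V' : ValuationSubring F'} (hV' : V.comap γ = V') {a b : F'}
    (h : Cong V' a b) : Cong V (γ a) (γ b) := by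
  subst hV'
  refine ⟨ValuationSubring.mem_comap.1 h.1, ValuationSubring.mem_comap.1 h.2.1, ?_⟩
  rw [← map_sub]
  exact (mem_nonunits_comap_iff γ V _).1 h.2.2

end Comap

end Fermat.Agent.S36.Mod3.H756

namespace Fermat.Agent.S36.Mod3.H756

section Compose

variable {F₀ F₁ F₂ : Type*} [Field F₀] [Field F₁] [Field F₂]

/-- Composition of two residue-degree-one steps. -/
theorem res_comp (γ₁ : F₀ →+* F₁) (γ₂ : F₁ →+* F₂) (V₀ : ValuationSubring F₀)
    (V₁ : ValuationSubring F₁) (V₂ : ValuationSubring F₂) (h₂ : V₂.comap γ₂ = V₁)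
    (hres₁ : ∀ g' ∈ V₁, ∃ g ∈ V₀, g' - γ₁ g ∈ V₁.nonunits)
    (hres₂ : ∀ f ∈ V₂, ∃ g' ∈ V₁, f - γ₂ g' ∈ V₂.nonunits) :
    ∀ f ∈ V₂, ∃ g ∈ V₀, V₂.valuation (f - γ₂ (γ₁ g)) < 1 := by
  intro f hf
  obtain ⟨g', hg', h1⟩ := hres₂ f hf
  obtain ⟨g, hg, h2⟩ := hres₁ g' hg'
  refine ⟨g, hg, ?_⟩
  have h3 : γ₂ (g' - γ₁ g) ∈ V₂.nonunits := by
    rw [← mem_nonunits_comap_iff, h₂]
    exact h2
  have h4 : f - γ₂ (γ₁ g) = (f - γ₂ g') + γ₂ (g' - γ₁ g) := by
    rw [map_sub]
    ring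
  rw [h4]
  exact lt_of_le_of_lt (Valuation.map_add _ _ _)
    (max_lt ((ValuationSubring.mem_nonunits_iff V₂).1 h1)
      ((ValuationSubring.mem_nonunits_iff V₂).1 h3))

/-- Composition of two inclusions of valuation rings. -/
theorem map_mem_comp (γ₁ : F₀ →+* F₁) (γ₂ : F₁ →+* F₂) (V₀ : ValuationSubring F₀)
    (V₁ : ValuationSubring F₁) (V₂ : ValuationSubring F₂) (h₂ : V₂.comap γ₂ = V₁)
    (h₁ : ∀ g ∈ V₀, γ₁ g ∈ V₁) : ∀ g ∈ V₀, γ₂ (γ₁ g) ∈ V₂ := by
  intro g hg
  have := h₁ g hg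
  rw [← h₂] at this
  exact ValuationSubring.mem_comap.1 this

end Compose

end Fermat.Agent.S36.Mod3.H756

end
-- ===== PACK-END S36/Mod3/H756/CongAbs.lean

-- ===== PACK-BEGIN A2/Mod/H372/KronClosure.lean
section


/-!
# A2 / MODASM S3, abstract part (helper372): closure of a chart under the Kronecker twist

Mathlib-only.  Setting (residue-field form): `S` a ring (the Gauss valuation ring `V∞_M` of
level `M`), `A → S` a subring (the level-`M` chart), `κ` a reduced ring of characteristic `q`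
(the residue field of a Gauss valuation ring of level `Mq`), `f g : S →+* κ` the reductions of the
two degeneracy maps.

* `isIntegralElem_of_forall_exists` : integrality is inherited along an inclusion of ranges;
* `isIntegralElem_of_frobenius`     : `y ^ q` integral over `Frob ∘ f` ⟹ `y` integral over `f`;
* `exists_eq_pow_of_normal`         : **Kronecker closure**: if `g s = (f s') ^ q` is solvable in
  `S` (leaf L12), `A` is "normal in `S` modulo `ker f`" (`GoodRedAt.normal`), `A` is integral over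
  a polynomial ring `R[y]` with `g = f` on `R` and `g y = (f y) ^ q`, then `g a = (f a') ^ q` is
  solvable in `A` (`a ∈ A`);
* `exists_eq_of_normal`             : **residue degree one on the chart**: the same mechanism gives
  `ρ b = f a` for `b` in a chart `B` of level `Mq` (leaf L11).
-/

set_option autoImplicit false

namespace Fermat.Agent.A2.Mod.H372

open Polynomial

section Integral

variable {A C κ : Type*} [CommRing A] [CommRing C] [CommRing κ]

/-- Integrality with respect to `h` implies integrality with respect to `f` when the range of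
`h` is contained in the range of `f`. -/
theorem isIntegralElem_of_forall_exists (h : C →+* κ) (f : A →+* κ)
    (hr : ∀ c, ∃ a, f a = h c) {x : κ} (hx : h.IsIntegralElem x) : f.IsIntegralElem x := by
  obtain ⟨p, hp, hpx⟩ := hx
  have hlift : p.map h ∈ Polynomial.lifts f := by
    rw [Polynomial.lifts_iff_coeff_lifts]
    intro n
    rw [Polynomial.coeff_map]
    obtain ⟨a, ha⟩ := hr (p.coeff n)
    exact ⟨a, ha⟩
  obtain ⟨p', hp', -, hmon⟩ := Polynomial.lifts_and_natDegree_eq_and_monic hlift (hp.map h)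
  refine ⟨p', hmon, ?_⟩
  rw [← Polynomial.eval_map, hp', Polynomial.eval_map, hpx]

/-- Integrality is preserved by ring homomorphisms. -/
theorem isIntegralElem_map {B : Type*} [CommRing B] (j : C →+* A) (φ : A →+* B) {a : A}
    (ha : j.IsIntegralElem a) : (φ.comp j).IsIntegralElem (φ a) := by
  obtain ⟨p, hp, hpa⟩ := ha
  refine ⟨p, hp, ?_⟩
  rw [← Polynomial.hom_eval₂, hpa, map_zero]

/-- Frobenius descent of integrality. -/
theorem isIntegralElem_of_frobenius (q : ℕ) [ExpChar κ q] [IsReduced κ] (f : A →+* κ) {y : κ}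
    (h : ((frobenius κ q).comp f).IsIntegralElem (y ^ q)) : f.IsIntegralElem y := by
  obtain ⟨p, hp, hpy⟩ := h
  refine ⟨p, hp, ?_⟩
  have h1 : frobenius κ q (p.eval₂ f y) = 0 := by
    rw [Polynomial.hom_eval₂, frobenius_def, hpy]
  exact frobenius_inj κ q (by rw [h1, map_zero])

end Integral

section Closure

variable {R S A κ : Type*} [CommRing R] [CommRing S] [CommRing A] [CommRing κ]

/-- **Kronecker closure of the chart.** -/
theorem exists_eq_pow_of_normal (q : ℕ) [ExpChar κ q] [IsReduced κ]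
    (f g : S →+* κ) (ι : A →+* S)
    (hnormal : ∀ s : S, (f.comp ι).IsIntegralElem (f s) → ∃ a : A, f s = f (ι a))
    (hK : ∀ s : S, ∃ s' : S, g s = (f s') ^ q)
    (c : R →+* A) (y : A)
    (hint : ∀ a : A, (Polynomial.eval₂RingHom c y).IsIntegralElem a)
    (hc : ∀ r : R, g (ι (c r)) = f (ι (c r)))
    (hy : g (ι y) = (f (ι y)) ^ q) :
    ∀ a : A, ∃ a' : A, g (ι a) = (f (ι a')) ^ q := by
  -- constants
  have hconst : ∀ r : R, ∃ a : A, g (ι (c r)) = (f (ι a)) ^ q := by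
    intro r
    obtain ⟨s', hs'⟩ := hK (ι (c r))
    have hint' : (f.comp ι).IsIntegralElem (f s') := by
      refine ⟨X ^ q - C (c r), ?_, ?_⟩
      · exact Polynomial.monic_X_pow_sub_C _ (expChar_pos κ q).ne'
      · rw [Polynomial.eval₂_sub, Polynomial.eval₂_pow, Polynomial.eval₂_X, Polynomial.eval₂_C,
          RingHom.comp_apply, ← hs', hc, sub_self]
    obtain ⟨a, ha⟩ := hnormal s' hint'
    exact ⟨a, by rw [hs', ha]⟩
  -- polynomials
  have hpoly : ∀ p : Polynomial R, ∃ a : A,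
      g (ι (Polynomial.eval₂RingHom c y p)) = (f (ι a)) ^ q := by
    intro p
    induction p using Polynomial.induction_on' with
    | add p₁ p₂ h₁ h₂ =>
      obtain ⟨a₁, h₁⟩ := h₁
      obtain ⟨a₂, h₂⟩ := h₂
      refine ⟨a₁ + a₂, ?_⟩
      rw [map_add, map_add, map_add, h₁, h₂, map_add, map_add, add_pow_expChar]
    | monomial n r =>
      obtain ⟨a, ha⟩ := hconst r
      refine ⟨a * y ^ n, ?_⟩
      rw [Polynomial.coe_eval₂RingHom, Polynomial.eval₂_monomial, map_mul, map_mul, map_pow,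
        map_pow, ha, hy, map_mul, map_mul, map_pow, map_pow, mul_pow, ← pow_mul, ← pow_mul,
        mul_comm q n]
  intro a
  obtain ⟨s', hs'⟩ := hK (ι a)
  have h1 : ((g.comp ι).comp (Polynomial.eval₂RingHom c y)).IsIntegralElem (g (ι a)) :=
    isIntegralElem_map (Polynomial.eval₂RingHom c y) (g.comp ι) (hint a)
  have h2 : ((frobenius κ q).comp (f.comp ι)).IsIntegralElem ((f s') ^ q) := by
    rw [← hs']
    refine isIntegralElem_of_forall_exists _ _ (fun p => ?_) h1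
    obtain ⟨a', ha'⟩ := hpoly p
    exact ⟨a', by
      rw [RingHom.comp_apply, RingHom.comp_apply, frobenius_def, RingHom.comp_apply,
        RingHom.comp_apply, ha']⟩
  obtain ⟨a', ha'⟩ := hnormal s' (isIntegralElem_of_frobenius q _ h2)
  exact ⟨a', by rw [hs', ha']⟩

/-- **Residue degree one on the chart.** -/
theorem exists_eq_of_normal {B : Type*} [CommRing B]
    (f : S →+* κ) (ι : A →+* S)
    (hnormal : ∀ s : S, (f.comp ι).IsIntegralElem (f s) → ∃ a : A, f s = f (ι a))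
    (ρ : B →+* κ) (hres : ∀ b : B, ∃ s : S, ρ b = f s)
    (c : R →+* B) (y : B)
    (hc : ∀ r : R, ∃ a : A, ρ (c r) = f (ι a))
    (hy : ∃ a : A, ρ y = f (ι a)) :
    ∀ b : B, (Polynomial.eval₂RingHom c y).IsIntegralElem b → ∃ a : A, ρ b = f (ι a) := by
  have hpoly : ∀ p : Polynomial R, ∃ a : A, ρ (Polynomial.eval₂RingHom c y p) = f (ι a) := by
    intro p
    induction p using Polynomial.induction_on' with
    | add p₁ p₂ h₁ h₂ =>
      obtain ⟨a₁, h₁⟩ := h₁
      obtain ⟨a₂, h₂⟩ := h₂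
      exact ⟨a₁ + a₂, by rw [map_add, map_add, h₁, h₂, map_add, map_add]⟩
    | monomial n r =>
      obtain ⟨a, ha⟩ := hc r
      obtain ⟨ay, hay⟩ := hy
      refine ⟨a * ay ^ n, ?_⟩
      rw [Polynomial.coe_eval₂RingHom, Polynomial.eval₂_monomial, map_mul, map_pow, ha, hay,
        map_mul, map_mul, map_pow, map_pow]
  intro b hb
  obtain ⟨s, hs⟩ := hres b
  have h1 : (ρ.comp (Polynomial.eval₂RingHom c y)).IsIntegralElem (ρ b) :=
    isIntegralElem_map (Polynomial.eval₂RingHom c y) ρ hb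
  have h2 : (f.comp ι).IsIntegralElem (f s) := by
    rw [← hs]
    refine isIntegralElem_of_forall_exists _ _ (fun p => ?_) h1
    obtain ⟨a, ha⟩ := hpoly p
    exact ⟨a, by rw [RingHom.comp_apply, RingHom.comp_apply, ha]⟩
  obtain ⟨a, ha⟩ := hnormal s h2
  exact ⟨a, by rw [hs, ha]⟩

end Closure

end Fermat.Agent.A2.Mod.H372

end
-- ===== PACK-END A2/Mod/H372/KronClosure.lean

-- ===== PACK-BEGIN S36/H153/Infinity.lean
section


/-!
# S36 engine, cell INCIDENCE at infinity (helper153) — abstract part, Mathlib only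

Problem: in the chart at infinity of the level-`q M` model (`x⁻¹ = u · u_q`, `u = 1/j`,
`u_q = 1/j_q`) the purity/regularity cells need to know that NO closed point at infinity
(`u u_q ∈ n`) lies on two components ("cusps are not nodes"); otherwise there is no local generator
`t` of a vertical prime at such a point (`t = w` needs exactly one component through `n`).

Solution: the two functions

  `z = u ^ q / u_q = j_q / j ^ q`,   `y = u_q ^ q / u = j / j_q ^ q`

lie in the chart at infinity (valuative criterion + SHAPE of the modular polynomial: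
`Φ = Y^(q+1) + Σ_{k ≤ q} a_k(X) Y^k`, `deg a_k ≤ q + 1`, `deg a_q ≤ q`), and
`z ≡ 1` on `C∞` (`j_q ≡ j^q`), `y ≡ 1` on `C₀` (`j ≡ j_q^q`), `y z = (u u_q)^(q-1)`.
Hence at a common point `n` of `C∞` and `C₀`:  `(u u_q)^(q-1) ≡ 1 mod n`, so `u u_q ∉ n`.

* `aeval_inv_mul_pow_mem`   : `a(1/u) · u^d ∈ V` for `deg a ≤ d`, `u ∈ V`;
* `pow_div_mem_of_shape`    : the valuative core: `u^(n-1) / u_q ∈ V` for every valuation subring
                              `V ∋ u, u_q`, from `Φ(1/u, 1/u_q) = 0` and the shape of `Φ`;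
* `not_mem_of_yz`           : abstract "no node at infinity" (level `q`);
* `finite_of_two_components`: abstract "points at infinity of level `q²` lie on exactly one
                              component", from the level-`q` statement and the comap pattern only
                              (no integrality, no going-down).
-/

set_option autoImplicit false

namespace Fermat.Agent.S36.H153

open Polynomial

section Valuative

variable {K : Type*} [Field K]

/-- `a(1/u) · u^d ∈ V` if `u ∈ V` and `deg a ≤ d` (integer coefficients). -/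
theorem aeval_inv_mul_pow_mem (V : ValuationSubring K) {u : K} (hu : u ∈ V) (hu0 : u ≠ 0)
    (d : ℕ) (a : Polynomial ℤ) (ha : a.natDegree ≤ d) :
    Polynomial.aeval u⁻¹ a * u ^ d ∈ V := by
  refine Polynomial.induction_with_natDegree_le
    (fun f => Polynomial.aeval u⁻¹ f * u ^ d ∈ V) d ?_ ?_ ?_ a ha
  · simp [V.zero_mem]
  · intro n r _ hnd
    have h1 : Polynomial.aeval u⁻¹ (C r * X ^ n) * u ^ d = (r : K) * u ^ (d - n) := by
      rw [map_mul, map_pow, Polynomial.aeval_C, Polynomial.aeval_X]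
      have h2 : u ^ d = u ^ (d - n) * u ^ n := by rw [← pow_add, Nat.sub_add_cancel hnd]
      rw [h2, inv_pow]
      simp only [eq_intCast]
      field_simp
    rw [h1]
    exact V.mul_mem _ _ (by simpa using V.toSubring.intCast_mem r) (V.pow_mem hu _)
  · intro f g _ _ hf hg
    rw [map_add, add_mul]
    exact V.add_mem _ _ hf hg

/-- **Valuative core.**  `Φ ∈ ℤ[X][Y]` monic of degree `n ≥ 2` in `Y`, all coefficients of degree
`≤ n` in `X`, the coefficient of `Y^(n-1)` of degree `≤ n - 1` in `X`, and `Φ(1/u, 1/u_q) = 0`.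
Then `u ^ (n-1) / u_q` lies in every valuation subring containing `u` and `u_q`. -/
theorem pow_div_mem_of_shape (V : ValuationSubring K) {u uq : K} (hu : u ∈ V) (huq : uq ∈ V)
    (hu0 : u ≠ 0) (huq0 : uq ≠ 0) (Φ : Polynomial (Polynomial ℤ)) {n : ℕ} (hn : 2 ≤ n)
    (hΦ : Φ.Monic) (hdeg : Φ.natDegree = n) (hin : ∀ k, (Φ.coeff k).natDegree ≤ n)
    (htop : (Φ.coeff (n - 1)).natDegree ≤ n - 1)
    (h : Φ.eval₂ (Polynomial.aeval (R := ℤ) u⁻¹).toRingHom uq⁻¹ = 0) :
    u ^ (n - 1) / uq ∈ V := by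
  by_contra hz
  set v := V.valuation with hv
  -- `ζ = u_q / u^(n-1)` is a non-unit
  have hζ : v (uq / u ^ (n - 1)) < 1 := by
    have h1 : ¬ v (u ^ (n - 1) / uq) ≤ 1 := fun hle => hz ((V.valuation_le_one_iff _).mp hle)
    have h2 : 1 < v (u ^ (n - 1) / uq) := not_le.mp h1
    have h3 : uq / u ^ (n - 1) = (u ^ (n - 1) / uq)⁻¹ := by rw [inv_div]
    rw [h3, map_inv₀]
    exact (inv_lt_one₀ (lt_trans zero_lt_one h2)).mpr h2
  have hvu : v u ≤ 1 := (V.valuation_le_one_iff _).mpr hu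
  have hvuq : v uq ≤ 1 := (V.valuation_le_one_iff _).mpr huq
  -- expand the relation
  rw [Polynomial.eval₂_eq_sum_range, hdeg, Finset.sum_range_succ] at h
  have hlead : (Polynomial.aeval (R := ℤ) u⁻¹).toRingHom (Φ.coeff n) = 1 := by
    have : Φ.coeff n = 1 := by rw [← hdeg]; exact hΦ.coeff_natDegree
    rw [this, map_one]
  rw [hlead, one_mul] at h
  -- multiply by `u_q ^ n`
  have hmain : (∑ k ∈ Finset.range n,
      Polynomial.aeval u⁻¹ (Φ.coeff k) * uq ^ (n - k)) = -1 := by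
    have h1 : (∑ k ∈ Finset.range n,
        (Polynomial.aeval (R := ℤ) u⁻¹).toRingHom (Φ.coeff k) * uq⁻¹ ^ k) * uq ^ n
        = ∑ k ∈ Finset.range n, Polynomial.aeval u⁻¹ (Φ.coeff k) * uq ^ (n - k) := by
      rw [Finset.sum_mul]
      refine Finset.sum_congr rfl fun k hk => ?_
      have hk' : k ≤ n := (Finset.mem_range.mp hk).le
      have h2 : uq ^ n = uq ^ (n - k) * uq ^ k := by rw [← pow_add, Nat.sub_add_cancel hk']
      rw [h2, inv_pow]
      show Polynomial.aeval u⁻¹ (Φ.coeff k) * (uq ^ k)⁻¹ * (uq ^ (n - k) * uq ^ k) = _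
      have h3 : uq ^ k ≠ 0 := pow_ne_zero _ huq0
      field_simp
    have h4 : (∑ k ∈ Finset.range n,
        (Polynomial.aeval (R := ℤ) u⁻¹).toRingHom (Φ.coeff k) * uq⁻¹ ^ k) = - uq⁻¹ ^ n :=
      eq_neg_of_add_eq_zero_left h
    rw [← h1, h4, neg_mul, inv_pow, inv_mul_cancel₀ (pow_ne_zero _ huq0)]
  -- every term is a non-unit
  have hζV : uq / u ^ (n - 1) ∈ V := (V.valuation_le_one_iff _).mp hζ.le
  have hlt : ∀ T : K, T ∈ V → v (uq / u ^ (n - 1) * T) < 1 := by
    intro T hT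
    have hT' : v T ≤ 1 := (V.valuation_le_one_iff _).mpr hT
    rw [map_mul]
    calc v (uq / u ^ (n - 1)) * v T ≤ v (uq / u ^ (n - 1)) * 1 := mul_le_mul_right hT' _
      _ < 1 := by rw [mul_one]; exact hζ
  have hterm : ∀ k ∈ Finset.range n,
      v (Polynomial.aeval u⁻¹ (Φ.coeff k) * uq ^ (n - k)) < 1 := by
    intro k hk
    have hkn : k < n := Finset.mem_range.mp hk
    have h3 : u ^ (n - 1) ≠ 0 := pow_ne_zero _ hu0
    by_cases hk1 : k = n - 1
    · -- degree `≤ n - 1`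
      have hb := aeval_inv_mul_pow_mem V hu hu0 (n - 1) (Φ.coeff k) (by rw [hk1]; exact htop)
      have h1 : Polynomial.aeval u⁻¹ (Φ.coeff k) * uq ^ (n - k)
          = (uq / u ^ (n - 1)) * (Polynomial.aeval u⁻¹ (Φ.coeff k) * u ^ (n - 1)) := by
        have h2 : n - k = 1 := by omega
        rw [h2, pow_one]
        field_simp
      rw [h1]
      exact hlt _ hb
    · -- degree `≤ n`, `n - k ≥ 2`
      have hb := aeval_inv_mul_pow_mem V hu hu0 n (Φ.coeff k) (hin k)
      have hk2 : 2 ≤ n - k := by omega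
      have hW : u ^ (n - 2) * uq ^ (n - k - 2) ∈ V := V.mul_mem _ _ (V.pow_mem hu _) (V.pow_mem huq _)
      have h1 : Polynomial.aeval u⁻¹ (Φ.coeff k) * uq ^ (n - k)
          = (uq / u ^ (n - 1)) * ((Polynomial.aeval u⁻¹ (Φ.coeff k) * u ^ n) *
            ((uq / u ^ (n - 1)) * (u ^ (n - 2) * uq ^ (n - k - 2)))) := by
        have h4 : uq ^ (n - k) = uq ^ (n - k - 2) * uq ^ 2 := by
          rw [← pow_add]; congr 1; omega
        have h5 : u ^ n * u ^ (n - 2) = u ^ (n - 1) * u ^ (n - 1) := by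
          rw [← pow_add, ← pow_add]; congr 1; omega
        have h6 : (uq / u ^ (n - 1)) * ((Polynomial.aeval u⁻¹ (Φ.coeff k) * u ^ n) *
            ((uq / u ^ (n - 1)) * (u ^ (n - 2) * uq ^ (n - k - 2))))
            = Polynomial.aeval u⁻¹ (Φ.coeff k) * (uq ^ (n - k - 2) * uq ^ 2) *
              ((u ^ n * u ^ (n - 2)) / (u ^ (n - 1) * u ^ (n - 1))) := by
          field_simp
        rw [h6, h5, div_self (mul_ne_zero h3 h3), mul_one, h4]
      rw [h1]
      exact hlt _ (V.mul_mem _ _ hb (V.mul_mem _ _ hζV hW))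
  have hsum := Valuation.map_sum_lt v (one_ne_zero) hterm
  rw [hmain, Valuation.map_neg, map_one] at hsum
  exact lt_irrefl _ hsum

end Valuative

section NoNode

variable {B : Type*} [CommRing B]

/-- **No node at infinity (abstract).**  If `z ≡ 1` on `C∞`, `y ≡ 1` on `C₀` and
`y z = v ^ k`, `k ≥ 1`, then `v` does not vanish at any common point of `C∞` and `C₀`. -/
theorem not_mem_of_yz {pinf pzero n : Ideal B} (hn : n ≠ ⊤) (h1 : pinf ≤ n) (h2 : pzero ≤ n)
    {y z v : B} {k : ℕ} (hk : 0 < k) (hz : z - 1 ∈ pinf) (hy : y - 1 ∈ pzero)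
    (hyz : y * z = v ^ k) : v ∉ n := by
  intro hv
  apply hn
  rw [Ideal.eq_top_iff_one]
  have h3 : v ^ k ∈ n := n.pow_mem_of_mem hv k hk
  have h4 : y * z - (y * (z - 1) + (y - 1)) ∈ n :=
    n.sub_mem (hyz ▸ h3) (n.add_mem (n.mul_mem_left _ (h1 hz)) (h2 hy))
  have h5 : y * z - (y * (z - 1) + (y - 1)) = 1 := by ring
  rwa [h5] at h4

end NoNode

section LevelSq

variable {A B : Type*} [CommRing A] [CommRing B]

/-- **Points at infinity of level `q²` lie on exactly one component (abstract).**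
`a b : A → B` the two degeneracy maps, `u, u_q ∈ A` (`1/j`, `1/j_q` at level `q`), so that
`a u, a u_q = b u, b u_q` are `1/j, 1/j_q, 1/j_{q²}` at level `q²`.  Hypotheses:
the comap pattern (inclusions only), the Kronecker congruences `u_q - u^e ∈ P1`,
`u - u_q^e ∈ P2` (`e = q`), and "no node at infinity" at level `q`.
Conclusion: a prime of `B` on two components does not contain `1/j · 1/j_q · 1/j_{q²}`. -/
theorem finite_of_two_components (a b : A →+* B) {P1 P2 : Ideal A} {pFF pmid pVV : Ideal B}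
    (aFF : P1 ≤ pFF.comap a) (aVV : P2 ≤ pVV.comap a) (amid : P1 ≤ pmid.comap a)
    (bFF : P1 ≤ pFF.comap b) (bmid : P2 ≤ pmid.comap b) (bVV : P2 ≤ pVV.comap b)
    {u uq : A} {e : ℕ} (he : 0 < e) (hab : a uq = b u)
    (h1 : uq - u ^ e ∈ P1) (h2 : u - uq ^ e ∈ P2)
    (hnode : ∀ N : Ideal A, N.IsPrime → P1 ≤ N → P2 ≤ N → u * uq ∉ N)
    (n : Ideal B) [n.IsPrime]
    (h : (pFF ≤ n ∧ pmid ≤ n) ∨ (pFF ≤ n ∧ pVV ≤ n) ∨ (pmid ≤ n ∧ pVV ≤ n)) :
    a u * a uq * b uq ∉ n := by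
  have hprime : n.IsPrime := inferInstance
  have hNa : (n.comap a).IsPrime := Ideal.comap_isPrime a n
  have hNb : (n.comap b).IsPrime := Ideal.comap_isPrime b n
  have key : ∀ {x y : B}, x * y ∉ n → x ∉ n ∧ y ∉ n := fun {x y} hxy =>
    ⟨fun hx => hxy (n.mul_mem_right _ hx), fun hy => hxy (n.mul_mem_left _ hy)⟩
  have hmul3 : ∀ {x y z : B}, x ∉ n → y ∉ n → z ∉ n → x * y * z ∉ n := by
    intro x y z hx hy hz hxyz
    rcases hprime.mem_or_mem hxyz with hxy | hz'
    · rcases hprime.mem_or_mem hxy with hx' | hy'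
      · exact hx hx'
      · exact hy hy'
    · exact hz hz'
  -- the node property at the two images
  have nodeA : P1 ≤ n.comap a → P2 ≤ n.comap a → a u ∉ n ∧ a uq ∉ n := fun hP1 hP2 => by
    have ha : u * uq ∉ n.comap a := hnode _ hNa hP1 hP2
    exact key fun hmem => ha (by rw [Ideal.mem_comap, map_mul]; exact hmem)
  have nodeB : P1 ≤ n.comap b → P2 ≤ n.comap b → b u ∉ n ∧ b uq ∉ n := fun hP1 hP2 => by
    have hb : u * uq ∉ n.comap b := hnode _ hNb hP1 hP2
    exact key fun hmem => hb (by rw [Ideal.mem_comap, map_mul]; exact hmem)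
  rcases h with ⟨hFF, hmid⟩ | ⟨hFF, hVV⟩ | ⟨hmid, hVV⟩
  · -- `FF ∩ mid`: the `β`-image is a node; `1/j ∉ n` from `u_q ≡ u^e` on `FF` (via `α`)
    obtain ⟨hbu, hbuq⟩ :=
      nodeB (bFF.trans (Ideal.comap_mono hFF)) (bmid.trans (Ideal.comap_mono hmid))
    have hau : a u ∉ n := by
      intro hmem
      have h3 : a (uq - u ^ e) ∈ n := hFF (aFF h1)
      rw [map_sub, map_pow] at h3
      have h6 : a u ^ e ∈ n := n.pow_mem_of_mem hmem e he
      have h7 : a uq ∈ n := by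
        have := n.add_mem h3 h6
        simpa using this
      exact hbu (hab ▸ h7)
    exact hmul3 hau (hab ▸ hbu) hbuq
  · -- `FF ∩ VV`: both images are nodes
    obtain ⟨hau, hauq⟩ :=
      nodeA (aFF.trans (Ideal.comap_mono hFF)) (aVV.trans (Ideal.comap_mono hVV))
    obtain ⟨-, hbuq⟩ :=
      nodeB (bFF.trans (Ideal.comap_mono hFF)) (bVV.trans (Ideal.comap_mono hVV))
    exact hmul3 hau hauq hbuq
  · -- `mid ∩ VV`: the `α`-image is a node; `1/j_{q²} ∉ n` from `u ≡ u_q^e` on `VV` (via `β`)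
    obtain ⟨hau, hauq⟩ :=
      nodeA (amid.trans (Ideal.comap_mono hmid)) (aVV.trans (Ideal.comap_mono hVV))
    have hbuq : b uq ∉ n := by
      intro hmem
      have h3 : b (u - uq ^ e) ∈ n := hVV (bVV h2)
      rw [map_sub, map_pow] at h3
      have h6 : b uq ^ e ∈ n := n.pow_mem_of_mem hmem e he
      have h7 : b u ∈ n := by
        have := n.add_mem h3 h6
        simpa using this
      exact hauq (hab.symm ▸ h7)
    exact hmul3 hau hauq hbuq

end LevelSq

end Fermat.Agent.S36.H153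

end
-- ===== PACK-END S36/H153/Infinity.lean

-- ===== PACK-BEGIN S28/H628/Hermite.lean
section
/-
S28 long-shot, helper628: Hermite normal form for `diag(d,1) * γ`, `γ ∈ SL(2,ℤ)`.

Pure integer-matrix statement + the corollary for the action on the upper half plane.
Mathlib only.
-/


set_option autoImplicit false

noncomputable section

namespace Fermat.Agent.S28.H628

open Matrix MatrixGroups UpperHalfPlane

/-- **Hermite normal form** (integer matrices).  For `γ ∈ SL(2,ℤ)` and `d ≥ 1` there are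
`γ' ∈ SL(2,ℤ)` and natural numbers `a, b, d'` with `a * d' = d`, `b < d'`,
`a = gcd(d, γ₁₀)`, `gcd(a, b, d') = 1` and
`diag(d,1) * γ = γ' * [[a, b], [0, d']]`. -/
theorem hermite_int (γ : SL(2, ℤ)) (d : ℕ) (hd : 0 < d) :
    ∃ (γ' : SL(2, ℤ)) (a b d' : ℕ), a * d' = d ∧ b < d' ∧ a = Nat.gcd d (γ 1 0).natAbs ∧
      Nat.gcd a (Nat.gcd b d') = 1 ∧
      (d' : ℤ) ∣ (γ 1 0 / (a : ℤ)) * b - γ 1 1 ∧
      (!![(d : ℤ), 0; 0, 1] : Matrix (Fin 2) (Fin 2) ℤ) * (γ : Matrix (Fin 2) (Fin 2) ℤ)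
        = (γ' : Matrix (Fin 2) (Fin 2) ℤ) * !![(a : ℤ), (b : ℤ); 0, (d' : ℤ)] := by
  -- entries of γ
  set A : ℤ := γ 0 0 with hA
  set B : ℤ := γ 0 1 with hB
  set C : ℤ := γ 1 0 with hC
  set D : ℤ := γ 1 1 with hD
  have hdet : A * D - B * C = 1 := by
    have := γ.det_coe
    rw [Matrix.det_fin_two] at this
    simpa [hA, hB, hC, hD] using this
  -- the gcd
  set g : ℕ := Nat.gcd d C.natAbs with hg
  have hgpos : 0 < g := Nat.gcd_pos_of_pos_left _ hd
  obtain ⟨d', hd'⟩ : g ∣ d := Nat.gcd_dvd_left _ _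
  have hgC : (g : ℤ) ∣ C := by
    have : g ∣ C.natAbs := Nat.gcd_dvd_right _ _
    exact Int.natCast_dvd.mpr this
  obtain ⟨C', hC'⟩ := hgC
  have hd'pos : 0 < d' := by
    rcases Nat.eq_zero_or_pos d' with h | h
    · rw [h, mul_zero] at hd'; omega
    · exact h
  -- coprimality of d' and C'
  have hcop1 : IsCoprime (d' : ℤ) C' := by
    have h1 : Nat.gcd d C.natAbs = g := rfl
    have h2 : Nat.Coprime (d / g) (C.natAbs / g) := Nat.coprime_div_gcd_div_gcd hgpos
    have h3 : d / g = d' := by rw [hd']; exact Nat.mul_div_cancel_left _ hgpos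
    have h4 : C.natAbs / g = C'.natAbs := by
      rw [hC', Int.natAbs_mul, Int.natAbs_natCast]; exact Nat.mul_div_cancel_left _ hgpos
    rw [h3, h4] at h2
    rw [Int.isCoprime_iff_gcd_eq_one]
    show Nat.gcd (d' : ℤ).natAbs C'.natAbs = 1
    rw [Int.natAbs_natCast]
    exact h2
  have hcop2 : IsCoprime A C' := by
    refine ⟨D, -(B * g), ?_⟩
    rw [hC'] at hdet
    linear_combination hdet
  have hcop : IsCoprime ((d' : ℤ) * A) C' := IsCoprime.mul_left hcop1 hcop2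
  obtain ⟨u, v, huv⟩ := hcop
  -- the (0,1) entry before reduction
  set B' : ℤ := u * (d * B) + v * D with hB'
  set k : ℤ := B' / (d' : ℤ) with hk
  set b : ℤ := B' % (d' : ℤ) with hb
  have hd'z : (0 : ℤ) < d' := by exact_mod_cast hd'pos
  have hb0 : 0 ≤ b := Int.emod_nonneg _ hd'z.ne'
  have hb1 : b < d' := Int.emod_lt_of_pos _ hd'z
  have hBb : B' = b + k * d' := by
    rw [hb, hk]; have := Int.emod_add_mul_ediv B' (d' : ℤ); linarith
  have hdz : (d : ℤ) = g * d' := by exact_mod_cast hd'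
  -- key relation
  have hkey : C' * (d : ℤ) * B - (d' : ℤ) * A * D + d' = 0 := by
    have : C' * (d : ℤ) * B - (d' : ℤ) * A * D + d' = (d' : ℤ) * (1 - (A * D - B * C)) := by
      rw [hC', hdz]; ring
    rw [this, hdet]; ring
  -- build γ'
  have hdet' : (!![(d' : ℤ) * A, (d' : ℤ) * A * k - v; C', C' * k + u]).det = 1 := by
    rw [Matrix.det_fin_two]
    simp only [Matrix.of_apply, Matrix.cons_val', Matrix.cons_val_zero, Matrix.cons_val_one,
      Matrix.empty_val', Matrix.cons_val_fin_one]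
    linear_combination huv
  refine ⟨⟨!![(d' : ℤ) * A, (d' : ℤ) * A * k - v; C', C' * k + u], hdet'⟩, g, b.toNat, d',
    hd'.symm, ?_, rfl, ?_, ?_, ?_⟩
  · -- b < d'
    have : (b.toNat : ℤ) = b := Int.toNat_of_nonneg hb0
    exact_mod_cast this ▸ hb1
  · -- gcd (g, b, d') = 1
    have hbn : (b.toNat : ℤ) = b := Int.toNat_of_nonneg hb0
    set e : ℕ := Nat.gcd g (Nat.gcd b.toNat d') with he
    have he1 : (e : ℤ) ∣ g := Int.natCast_dvd_natCast.mpr (Nat.gcd_dvd_left _ _)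
    have he2 : (e : ℤ) ∣ b := by
      rw [← hbn]
      exact Int.natCast_dvd_natCast.mpr ((Nat.gcd_dvd_right _ _).trans (Nat.gcd_dvd_left _ _))
    have he3 : (e : ℤ) ∣ d' :=
      Int.natCast_dvd_natCast.mpr ((Nat.gcd_dvd_right _ _).trans (Nat.gcd_dvd_right _ _))
    have heC : (e : ℤ) ∣ C := by rw [hC']; exact Dvd.dvd.mul_right he1 _
    have heD : (e : ℤ) ∣ D := by
      have hDeq : D = C' * b + (C' * k + u) * d' := by
        have h1 : C' * B' + u * d' = D := by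
          rw [hB']
          linear_combination u * hkey + D * huv
        rw [← h1, hBb]; ring
      rw [hDeq]
      exact dvd_add (Dvd.dvd.mul_left he2 _) (Dvd.dvd.mul_left he3 _)
    have he1' : (e : ℤ) ∣ 1 := by
      rw [← hdet]
      exact dvd_sub (Dvd.dvd.mul_left heD _) (Dvd.dvd.mul_left heC _)
    have : e ∣ 1 := by exact_mod_cast he1'
    exact Nat.dvd_one.mp this
  · -- the congruence determining `b`
    have hbn : (b.toNat : ℤ) = b := Int.toNat_of_nonneg hb0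
    rw [hbn]
    have hCg : C / (g : ℤ) = C' := by
      rw [hC']; exact Int.mul_ediv_cancel_left _ (by exact_mod_cast hgpos.ne')
    rw [hCg]
    have hDeq : D = C' * b + (C' * k + u) * d' := by
      have h1 : C' * B' + u * d' = D := by
        rw [hB']
        linear_combination u * hkey + D * huv
      rw [← h1, hBb]; ring
    refine ⟨-(C' * k + u), ?_⟩
    linear_combination (-1 : ℤ) * hDeq
  · -- the matrix identity
    have hbn : (b.toNat : ℤ) = b := Int.toNat_of_nonneg hb0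
    rw [hbn]
    have e00 : (d : ℤ) * A = (d' : ℤ) * A * g := by rw [hdz]; ring
    have e10 : C = C' * g := by rw [hC']; ring
    have e01 : (d : ℤ) * B = (d' : ℤ) * A * b + ((d' : ℤ) * A * k - v) * d' := by
      have h1 : (d' : ℤ) * A * B' - v * d' = d * B := by
        rw [hB']
        linear_combination (-v) * hkey + (d : ℤ) * B * huv
      rw [← h1, hBb]; ring
    have e11 : D = C' * b + (C' * k + u) * d' := by
      have h1 : C' * B' + u * d' = D := by
        rw [hB']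
        linear_combination u * hkey + D * huv
      rw [← h1, hBb]; ring
    ext i j
    fin_cases i <;> fin_cases j
    · simpa [Matrix.mul_apply, Fin.sum_univ_two] using e00
    · simpa [Matrix.mul_apply, Fin.sum_univ_two] using e01
    · simpa [Matrix.mul_apply, Fin.sum_univ_two] using e10
    · simpa [Matrix.mul_apply, Fin.sum_univ_two] using e11

/-! ### Canonical Hermite data `(hermA, hermB, hermD)` attached to `(d, γ)` -/

/-- `a = gcd(d, γ₁₀)`. -/
def hermA (d : ℕ) (γ : SL(2, ℤ)) : ℕ := Nat.gcd d (γ 1 0).natAbs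

/-- `d' = d / a`. -/
def hermD (d : ℕ) (γ : SL(2, ℤ)) : ℕ := d / hermA d γ

/-- The property characterising `b`: `b < d'` and `(γ₁₀ / a) * b ≡ γ₁₁ (mod d')`. -/
def HermBProp (d : ℕ) (γ : SL(2, ℤ)) (b : ℕ) : Prop :=
  b < hermD d γ ∧ (hermD d γ : ℤ) ∣ (γ 1 0 / (hermA d γ : ℤ)) * b - γ 1 1

open Classical in
/-- Auxiliary: some natural number satisfying `P` (or `0` if there is none). -/
def chooseNatOr0 (P : ℕ → Prop) : ℕ :=
  if h : ∃ b, P b then Classical.choose h else 0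

theorem chooseNatOr0_spec {P : ℕ → Prop} (h : ∃ b, P b) : P (chooseNatOr0 P) := by
  unfold chooseNatOr0
  rw [dif_pos h]
  exact Classical.choose_spec h

/-- `b` = the unique residue `< d'` with `(γ₁₀ / a) * b ≡ γ₁₁ (mod d')` (and `0` if `d = 0`). -/
def hermB (d : ℕ) (γ : SL(2, ℤ)) : ℕ := chooseNatOr0 (HermBProp d γ)

theorem hermA_dvd (d : ℕ) (γ : SL(2, ℤ)) : hermA d γ ∣ d := Nat.gcd_dvd_left _ _

theorem hermA_pos {d : ℕ} (hd : 0 < d) (γ : SL(2, ℤ)) : 0 < hermA d γ :=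
  Nat.gcd_pos_of_pos_left _ hd

theorem hermA_mul_hermD (d : ℕ) (γ : SL(2, ℤ)) : hermA d γ * hermD d γ = d :=
  Nat.mul_div_cancel' (hermA_dvd d γ)

theorem hermD_pos {d : ℕ} (hd : 0 < d) (γ : SL(2, ℤ)) : 0 < hermD d γ := by
  rcases Nat.eq_zero_or_pos (hermD d γ) with h | h
  · have := hermA_mul_hermD d γ
    rw [h, mul_zero] at this; omega
  · exact h

theorem hermD_dvd (d : ℕ) (γ : SL(2, ℤ)) : hermD d γ ∣ d :=
  ⟨hermA d γ, by rw [mul_comm]; exact (hermA_mul_hermD d γ).symm⟩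

theorem hermA_cast_dvd (d : ℕ) (γ : SL(2, ℤ)) : (hermA d γ : ℤ) ∣ γ 1 0 :=
  Int.natCast_dvd.mpr (Nat.gcd_dvd_right _ _)

theorem herm_isCoprime {d : ℕ} (hd : 0 < d) (γ : SL(2, ℤ)) :
    IsCoprime (hermD d γ : ℤ) (γ 1 0 / (hermA d γ : ℤ)) := by
  have hgpos := hermA_pos hd γ
  obtain ⟨C', hC'⟩ := hermA_cast_dvd d γ
  have hCg : γ 1 0 / (hermA d γ : ℤ) = C' := by
    rw [hC']; exact Int.mul_ediv_cancel_left _ (by exact_mod_cast hgpos.ne')
  rw [hCg]
  have h2 : Nat.Coprime (d / hermA d γ) ((γ 1 0).natAbs / hermA d γ) :=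
    Nat.coprime_div_gcd_div_gcd hgpos
  have h4 : (γ 1 0).natAbs / hermA d γ = C'.natAbs := by
    rw [hC', Int.natAbs_mul, Int.natAbs_natCast]; exact Nat.mul_div_cancel_left _ hgpos
  rw [h4] at h2
  rw [Int.isCoprime_iff_gcd_eq_one]
  show Nat.gcd (hermD d γ : ℤ).natAbs C'.natAbs = 1
  rw [Int.natAbs_natCast]
  exact h2

theorem hermBProp_unique {d : ℕ} (hd : 0 < d) (γ : SL(2, ℤ)) {b₁ b₂ : ℕ}
    (h₁ : HermBProp d γ b₁) (h₂ : HermBProp d γ b₂) : b₁ = b₂ := by
  obtain ⟨h₁l, h₁d⟩ := h₁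
  obtain ⟨h₂l, h₂d⟩ := h₂
  have hcop := herm_isCoprime hd γ
  have hdvd : (hermD d γ : ℤ) ∣ (γ 1 0 / (hermA d γ : ℤ)) * ((b₁ : ℤ) - b₂) := by
    have := dvd_sub h₁d h₂d
    have e : (γ 1 0 / (hermA d γ : ℤ)) * ((b₁ : ℤ) - b₂)
        = (γ 1 0 / (hermA d γ : ℤ)) * b₁ - γ 1 1 - ((γ 1 0 / (hermA d γ : ℤ)) * b₂ - γ 1 1) := by
      ring
    rw [e]; exact this
  have hdvd' : (hermD d γ : ℤ) ∣ (b₁ : ℤ) - b₂ := hcop.dvd_of_dvd_mul_left hdvd
  have := Int.eq_of_sub_eq_zero (Int.eq_zero_of_abs_lt_dvd hdvd' (by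
    rw [abs_lt]; constructor <;> omega))
  exact_mod_cast this

theorem hermite_exists_hermBProp {d : ℕ} (hd : 0 < d) (γ : SL(2, ℤ)) :
    ∃ b, HermBProp d γ b ∧ Nat.gcd (hermA d γ) (Nat.gcd b (hermD d γ)) = 1 ∧
      ∃ γ' : SL(2, ℤ),
        (!![(d : ℤ), 0; 0, 1] : Matrix (Fin 2) (Fin 2) ℤ) * (γ : Matrix (Fin 2) (Fin 2) ℤ)
          = (γ' : Matrix (Fin 2) (Fin 2) ℤ) *
            !![(hermA d γ : ℤ), (b : ℤ); 0, (hermD d γ : ℤ)] := by
  obtain ⟨γ', a, b, d', had, hb, ha, hgcd, hdvd, hmat⟩ := hermite_int γ d hd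
  have haA : a = hermA d γ := ha
  have hdD : d' = hermD d γ := by
    have h1 := hermA_mul_hermD d γ
    rw [← haA] at h1
    have hapos : 0 < a := haA ▸ hermA_pos hd γ
    exact Nat.eq_of_mul_eq_mul_left hapos (had.trans h1.symm)
  subst haA
  subst hdD
  exact ⟨b, ⟨hb, hdvd⟩, hgcd, γ', hmat⟩

theorem hermBProp_hermB {d : ℕ} (hd : 0 < d) (γ : SL(2, ℤ)) : HermBProp d γ (hermB d γ) := by
  have h : ∃ b, HermBProp d γ b := by
    obtain ⟨b, hb, -⟩ := hermite_exists_hermBProp hd γ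
    exact ⟨b, hb⟩
  exact chooseNatOr0_spec h

theorem hermB_lt {d : ℕ} (hd : 0 < d) (γ : SL(2, ℤ)) : hermB d γ < hermD d γ :=
  (hermBProp_hermB hd γ).1

theorem hermB_dvd {d : ℕ} (hd : 0 < d) (γ : SL(2, ℤ)) :
    (hermD d γ : ℤ) ∣ (γ 1 0 / (hermA d γ : ℤ)) * hermB d γ - γ 1 1 :=
  (hermBProp_hermB hd γ).2

theorem hermB_eq_of_prop {d : ℕ} (hd : 0 < d) (γ : SL(2, ℤ)) {b : ℕ} (hb : HermBProp d γ b) :
    hermB d γ = b :=
  hermBProp_unique hd γ (hermBProp_hermB hd γ) hb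

/-- **Hermite normal form, canonical data.**  `diag(d,1) * γ = γ' * [[a,b],[0,d']]` with
`(a,b,d') = (hermA d γ, hermB d γ, hermD d γ)`. -/
theorem hermite_spec {d : ℕ} (hd : 0 < d) (γ : SL(2, ℤ)) :
    ∃ γ' : SL(2, ℤ),
      (!![(d : ℤ), 0; 0, 1] : Matrix (Fin 2) (Fin 2) ℤ) * (γ : Matrix (Fin 2) (Fin 2) ℤ)
        = (γ' : Matrix (Fin 2) (Fin 2) ℤ) *
          !![(hermA d γ : ℤ), (hermB d γ : ℤ); 0, (hermD d γ : ℤ)] := by
  obtain ⟨b, hb, -, γ', hmat⟩ := hermite_exists_hermBProp hd γ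
  rw [hermB_eq_of_prop hd γ hb]
  exact ⟨γ', hmat⟩

theorem herm_gcd {d : ℕ} (hd : 0 < d) (γ : SL(2, ℤ)) :
    Nat.gcd (hermA d γ) (Nat.gcd (hermB d γ) (hermD d γ)) = 1 := by
  obtain ⟨b, hb, hg, -⟩ := hermite_exists_hermBProp hd γ
  rw [hermB_eq_of_prop hd γ hb]
  exact hg

/-- The Hermite data depend only on the bottom row of `γ`. -/
theorem herm_congr_bottom (d : ℕ) {γ₁ γ₂ : SL(2, ℤ)} (h0 : γ₁ 1 0 = γ₂ 1 0)
    (h1 : γ₁ 1 1 = γ₂ 1 1) :
    hermA d γ₁ = hermA d γ₂ ∧ hermB d γ₁ = hermB d γ₂ ∧ hermD d γ₁ = hermD d γ₂ := by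
  have hA : hermA d γ₁ = hermA d γ₂ := by unfold hermA; rw [h0]
  have hD : hermD d γ₁ = hermD d γ₂ := by unfold hermD; rw [hA]
  have hP : ∀ b, HermBProp d γ₁ b ↔ HermBProp d γ₂ b := by
    intro b; unfold HermBProp; rw [hA, hD, h0, h1]
  refine ⟨hA, ?_, hD⟩
  unfold hermB
  have hP' : HermBProp d γ₁ = HermBProp d γ₂ := funext fun b => propext (hP b)
  rw [hP']

/-- Identity element: `(a, b, d') = (d, 0, 1)`. -/
theorem herm_one {d : ℕ} (hd : 0 < d) :
    hermA d (1 : SL(2, ℤ)) = d ∧ hermB d (1 : SL(2, ℤ)) = 0 ∧ hermD d (1 : SL(2, ℤ)) = 1 := by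
  have hA : hermA d (1 : SL(2, ℤ)) = d := by simp [hermA]
  have hD : hermD d (1 : SL(2, ℤ)) = 1 := by
    unfold hermD; rw [hA]; exact Nat.div_self hd
  refine ⟨hA, ?_, hD⟩
  have := hermB_lt hd (1 : SL(2, ℤ))
  rw [hD] at this
  omega

/-! ### Independence of the coset `Γ₀(N) γ` -/

theorem herm_Gamma0_mul {N d : ℕ} (hd : 0 < d) (hdN : d ∣ N) {γ₀ : SL(2, ℤ)}
    (hγ₀ : γ₀ ∈ CongruenceSubgroup.Gamma0 N) (γ : SL(2, ℤ)) :
    hermA d (γ₀ * γ) = hermA d γ ∧ hermB d (γ₀ * γ) = hermB d γ ∧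
      hermD d (γ₀ * γ) = hermD d γ := by
  -- entries
  have hN : (N : ℤ) ∣ γ₀ 1 0 := by
    rw [CongruenceSubgroup.Gamma0_mem] at hγ₀
    exact (ZMod.intCast_zmod_eq_zero_iff_dvd _ _).mp hγ₀
  have hdc0 : (d : ℤ) ∣ γ₀ 1 0 := (Int.natCast_dvd_natCast.mpr hdN).trans hN
  have hdet0 : γ₀ 0 0 * γ₀ 1 1 - γ₀ 0 1 * γ₀ 1 0 = 1 := by
    have := γ₀.det_coe
    rw [Matrix.det_fin_two] at this
    exact this
  have hcop0 : IsCoprime (γ₀ 1 1) (d : ℤ) := by
    obtain ⟨m, hm⟩ := hdc0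
    refine ⟨γ₀ 0 0, -(γ₀ 0 1 * m), ?_⟩
    rw [hm] at hdet0
    linear_combination hdet0
  have e10 : (γ₀ * γ) 1 0 = γ₀ 1 0 * γ 0 0 + γ₀ 1 1 * γ 1 0 := by
    simp [Matrix.SpecialLinearGroup.coe_mul, Matrix.mul_apply, Fin.sum_univ_two]
  have e11 : (γ₀ * γ) 1 1 = γ₀ 1 0 * γ 0 1 + γ₀ 1 1 * γ 1 1 := by
    simp [Matrix.SpecialLinearGroup.coe_mul, Matrix.mul_apply, Fin.sum_univ_two]
  -- hermA
  have hA : hermA d (γ₀ * γ) = hermA d γ := by
    unfold hermA
    apply Nat.dvd_antisymm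
    · apply Nat.dvd_gcd (Nat.gcd_dvd_left _ _)
      have h1 : ((Nat.gcd d ((γ₀ * γ) 1 0).natAbs : ℕ) : ℤ) ∣ (γ₀ * γ) 1 0 :=
        Int.natCast_dvd.mpr (Nat.gcd_dvd_right _ _)
      have h2 : ((Nat.gcd d ((γ₀ * γ) 1 0).natAbs : ℕ) : ℤ) ∣ (d : ℤ) :=
        Int.natCast_dvd_natCast.mpr (Nat.gcd_dvd_left _ _)
      have h3 : ((Nat.gcd d ((γ₀ * γ) 1 0).natAbs : ℕ) : ℤ) ∣ γ₀ 1 1 * γ 1 0 := by
        have : γ₀ 1 1 * γ 1 0 = (γ₀ * γ) 1 0 - γ₀ 1 0 * γ 0 0 := by rw [e10]; ring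
        rw [this]
        exact dvd_sub h1 (Dvd.dvd.mul_right (h2.trans hdc0) _)
      have h4 : IsCoprime ((Nat.gcd d ((γ₀ * γ) 1 0).natAbs : ℕ) : ℤ) (γ₀ 1 1) :=
        (hcop0.of_isCoprime_of_dvd_right h2).symm
      have h5 := h4.dvd_of_dvd_mul_left h3
      exact Int.natCast_dvd.mp h5
    · apply Nat.dvd_gcd (Nat.gcd_dvd_left _ _)
      have h1 : ((Nat.gcd d (γ 1 0).natAbs : ℕ) : ℤ) ∣ γ 1 0 :=
        Int.natCast_dvd.mpr (Nat.gcd_dvd_right _ _)
      have h2 : ((Nat.gcd d (γ 1 0).natAbs : ℕ) : ℤ) ∣ (d : ℤ) :=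
        Int.natCast_dvd_natCast.mpr (Nat.gcd_dvd_left _ _)
      have h3 : ((Nat.gcd d (γ 1 0).natAbs : ℕ) : ℤ) ∣ (γ₀ * γ) 1 0 := by
        rw [e10]
        exact dvd_add (Dvd.dvd.mul_right (h2.trans hdc0) _) (Dvd.dvd.mul_left h1 _)
      exact Int.natCast_dvd.mp h3
  have hD : hermD d (γ₀ * γ) = hermD d γ := by unfold hermD; rw [hA]
  refine ⟨hA, ?_, hD⟩
  -- hermB
  apply hermB_eq_of_prop hd
  have hP := hermBProp_hermB hd γ
  refine ⟨by rw [hD]; exact hP.1, ?_⟩
  rw [hD, hA]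
  have hapos : (0 : ℤ) < hermA d γ := by exact_mod_cast hermA_pos hd γ
  obtain ⟨C', hC'⟩ := hermA_cast_dvd d γ
  have hCg : γ 1 0 / (hermA d γ : ℤ) = C' := by
    rw [hC']; exact Int.mul_ediv_cancel_left _ hapos.ne'
  have hP2 := hP.2
  rw [hCg] at hP2
  -- `γ₀ 1 0 = a * d' * m`
  obtain ⟨m, hm⟩ := hdc0
  have hdz : (d : ℤ) = hermA d γ * hermD d γ := by exact_mod_cast (hermA_mul_hermD d γ).symm
  have hquot : (γ₀ * γ) 1 0 / (hermA d γ : ℤ) = (hermD d γ : ℤ) * m * γ 0 0 + γ₀ 1 1 * C' := by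
    have : (γ₀ * γ) 1 0 = (hermA d γ : ℤ) * ((hermD d γ : ℤ) * m * γ 0 0 + γ₀ 1 1 * C') := by
      linear_combination e10 + γ 0 0 * hm + m * γ 0 0 * hdz + γ₀ 1 1 * hC'
    rw [this]; exact Int.mul_ediv_cancel_left _ hapos.ne'
  rw [hquot, e11]
  obtain ⟨w, hw⟩ := hP2
  refine ⟨m * γ 0 0 * hermB d γ - hermA d γ * m * γ 0 1 + γ₀ 1 1 * w, ?_⟩
  linear_combination (γ₀ 1 1) * hw - γ 0 1 * hm - γ 0 1 * m * hdz

/-! ### The corollary on the upper half plane -/

theorem int_lin_ne_zero (c e : ℤ) (h : c ≠ 0 ∨ e ≠ 0) (τ : ℍ) : (c : ℂ) * (τ : ℂ) + e ≠ 0 := by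
  intro h0
  have him : ((c : ℂ) * (τ : ℂ) + e).im = 0 := by rw [h0]; simp
  have hre : ((c : ℂ) * (τ : ℂ) + e).re = 0 := by rw [h0]; simp
  simp only [Complex.add_im, Complex.mul_im, Complex.intCast_re, Complex.intCast_im, zero_mul,
    add_zero, UpperHalfPlane.coe_im] at him
  have hc : (c : ℝ) = 0 := by
    rcases mul_eq_zero.mp him with h | h
    · exact h
    · exact absurd h τ.im_ne_zero
  simp only [Complex.add_re, Complex.mul_re, Complex.intCast_re, Complex.intCast_im, zero_mul,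
    sub_zero, hc] at hre
  have hc' : c = 0 := by exact_mod_cast hc
  have he' : e = 0 := by
    have : (e : ℝ) = 0 := by linarith
    exact_mod_cast this
  rcases h with h | h
  · exact h hc'
  · exact h he'

theorem SL2_bottom_ne_zero (γ : SL(2, ℤ)) : γ 1 0 ≠ 0 ∨ γ 1 1 ≠ 0 := by
  by_contra h
  rw [not_or, not_not, not_not] at h
  have := γ.det_coe
  rw [Matrix.det_fin_two, h.1, h.2] at this
  simp at this

theorem SL2_coe_smul (γ : SL(2, ℤ)) (τ : ℍ) :
    ((γ • τ : ℍ) : ℂ) = ((γ 0 0 : ℂ) * τ + (γ 0 1 : ℂ)) / ((γ 1 0 : ℂ) * τ + (γ 1 1 : ℂ)) := by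
  rw [UpperHalfPlane.coe_specialLinearGroup_apply]
  simp

/-- **Hermite normal form on `ℍ`, full version.**  There is `γ' ∈ SL(2,ℤ)` (depending only on
`d`, `γ`) such that for all `τ` and `σ = (aτ + b)/d'` (with `(a,b,d')` the Hermite data):
`γ' • σ = d • (γ • τ)` and the automorphy factors are related by
`γ'₁₀ σ + γ'₁₁ = (γ₁₀ τ + γ₁₁) / d'`. -/
theorem hermite_smul_full {d : ℕ} (hd : 0 < d) (γ : SL(2, ℤ)) :
    ∃ γ' : SL(2, ℤ), ∀ τ σ : ℍ,
      (σ : ℂ) = ((hermA d γ : ℂ) * τ + (hermB d γ : ℂ)) / (hermD d γ : ℂ) →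
      ((γ' • σ : ℍ) : ℂ) = (d : ℂ) * ((γ • τ : ℍ) : ℂ) ∧
      (γ' 1 0 : ℂ) * σ + (γ' 1 1 : ℂ) = ((γ 1 0 : ℂ) * τ + (γ 1 1 : ℂ)) / (hermD d γ : ℂ) := by
  obtain ⟨γ', hmat⟩ := hermite_spec hd γ
  refine ⟨γ', fun τ σ hσ => ?_⟩
  -- entry equations
  have h00 := congrFun (congrFun hmat 0) 0
  have h01 := congrFun (congrFun hmat 0) 1
  have h10 := congrFun (congrFun hmat 1) 0
  have h11 := congrFun (congrFun hmat 1) 1
  simp only [Matrix.mul_apply, Fin.sum_univ_two, Matrix.of_apply, Matrix.cons_val',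
    Matrix.cons_val_zero, Matrix.cons_val_one, Matrix.empty_val', Matrix.cons_val_fin_one,
    zero_mul, add_zero, one_mul, zero_add, mul_zero] at h00 h01 h10 h11
  have c00 : (d : ℂ) * (γ 0 0 : ℂ) = (γ' 0 0 : ℂ) * (hermA d γ : ℂ) := by exact_mod_cast h00
  have c01 : (d : ℂ) * (γ 0 1 : ℂ) = (γ' 0 0 : ℂ) * (hermB d γ : ℂ) + (γ' 0 1 : ℂ) * (hermD d γ : ℂ) := by
    exact_mod_cast h01
  have c10 : (γ 1 0 : ℂ) = (γ' 1 0 : ℂ) * (hermA d γ : ℂ) := by exact_mod_cast h10
  have c11 : (γ 1 1 : ℂ) = (γ' 1 0 : ℂ) * (hermB d γ : ℂ) + (γ' 1 1 : ℂ) * (hermD d γ : ℂ) := by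
    exact_mod_cast h11
  have hD0 : (hermD d γ : ℂ) ≠ 0 := by exact_mod_cast (hermD_pos hd γ).ne'
  have hden1 := int_lin_ne_zero _ _ (SL2_bottom_ne_zero γ) τ
  have hden2 := int_lin_ne_zero _ _ (SL2_bottom_ne_zero γ') σ
  have hnum : (γ' 0 0 : ℂ) * σ + (γ' 0 1 : ℂ)
      = (d : ℂ) * ((γ 0 0 : ℂ) * τ + (γ 0 1 : ℂ)) / (hermD d γ : ℂ) := by
    rw [hσ]; field_simp; linear_combination (-(τ : ℂ)) * c00 - c01
  have hdenom : (γ' 1 0 : ℂ) * σ + (γ' 1 1 : ℂ)
      = ((γ 1 0 : ℂ) * τ + (γ 1 1 : ℂ)) / (hermD d γ : ℂ) := by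
    rw [hσ]; field_simp; linear_combination (-(τ : ℂ)) * c10 - c11
  refine ⟨?_, hdenom⟩
  rw [SL2_coe_smul, SL2_coe_smul]
  rw [hnum, hdenom]
  field_simp

/-- **Hermite normal form on `ℍ`.**  There is `γ' ∈ SL(2,ℤ)` (depending only on `d`, `γ`) with
`γ' • ((aτ + b)/d') = d • (γ • τ)` for all `τ`, where `(a,b,d')` is the Hermite data. The points
`(aτ+b)/d'` are passed as arbitrary `σ : ℍ` with the right coercion to `ℂ`. -/
theorem hermite_smul {d : ℕ} (hd : 0 < d) (γ : SL(2, ℤ)) :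
    ∃ γ' : SL(2, ℤ), ∀ τ σ : ℍ,
      (σ : ℂ) = ((hermA d γ : ℂ) * τ + (hermB d γ : ℂ)) / (hermD d γ : ℂ) →
      ((γ' • σ : ℍ) : ℂ) = (d : ℂ) * ((γ • τ : ℍ) : ℂ) := by
  obtain ⟨γ', h⟩ := hermite_smul_full hd γ
  exact ⟨γ', fun τ σ hσ => (h τ σ hσ).1⟩

end Fermat.Agent.S28.H628

end

end
-- ===== PACK-END S28/H628/Hermite.lean

-- ===== PACK-BEGIN S28/H868/Interface.lean
section




/-!
# S28 (Igusa) -- shared interface between the analytic side and the algebraic core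

`ModFunPackage N` is the ONLY thing the decomposition-group core needs from the analytic theory.
Everything is phrased with formal Laurent series in `t = q^{1/N}` with complex coefficients.
-/

set_option autoImplicit false

noncomputable section

namespace Fermat.Agent.S28

open ModularCurve HahnSeries

theorem coeff_mul_both' {R : Type*} [CommRing R] {x y : LaurentSeries R} {a : ℤ} {s t : Set ℤ}
    (hs : s.IsPWO) (ht : t.IsPWO) (hxs : x.support ⊆ s) (hyt : y.support ⊆ t) :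
    (x * y).coeff a =
      ∑ ij ∈ Finset.antidiagonal hs ht a, x.coeff ij.fst * y.coeff ij.snd := by
  rw [HahnSeries.coeff_mul_left' hs hxs]
  refine Finset.sum_subset (Finset.antidiagonal_mono_right hyt) ?_
  intro ij hij hnot
  have hj : ij.2 ∉ y.support := by
    intro hj
    apply hnot
    rw [Finset.mem_antidiagonal] at hij ⊢
    exact ⟨hij.1, hj, hij.2.2⟩
  simp only [HahnSeries.mem_support, not_not] at hj
  rw [hj, mul_zero]

/-- underlying function of `twist` -/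
def twistFun {R : Type*} [CommRing R] (c : Rˣ) (φ : LaurentSeries R) : LaurentSeries R :=
  HahnSeries.ofSuppBddBelow (fun n : ℤ => ((c ^ n : Rˣ) : R) * φ.coeff n)
    ⟨φ.order, fun m hm => by
      by_contra h
      exact hm (by simp [HahnSeries.coeff_eq_zero_of_lt_order (not_le.mp h)])⟩

@[simp] theorem twistFun_coeff {R : Type*} [CommRing R] (c : Rˣ) (φ : LaurentSeries R) (n : ℤ) :
    (twistFun c φ).coeff n = ((c ^ n : Rˣ) : R) * φ.coeff n := rfl

theorem twistFun_support {R : Type*} [CommRing R] (c : Rˣ) (φ : LaurentSeries R) :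
    (twistFun c φ).support ⊆ φ.support := by
  intro m hm
  simp only [HahnSeries.mem_support, twistFun_coeff] at hm ⊢
  intro h0
  exact hm (by rw [h0, mul_zero])

/-- The substitution `t ↦ c t` on Laurent series, for a unit `c`:
`(twist c φ).coeff n = c ^ n * φ.coeff n`. -/
def twist {R : Type*} [CommRing R] (c : Rˣ) : LaurentSeries R →+* LaurentSeries R where
  toFun := twistFun c
  map_zero' := by ext n; simp
  map_one' := by
    ext n
    by_cases h : n = 0
    · subst h; simp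
    · simp [HahnSeries.coeff_one, h]
  map_add' φ ψ := by ext n; simp [mul_add]
  map_mul' φ ψ := by
    ext n
    rw [coeff_mul_both' φ.isPWO_support ψ.isPWO_support (twistFun_support c φ)
      (twistFun_support c ψ)]
    simp only [twistFun_coeff, HahnSeries.coeff_mul, Finset.mul_sum]
    refine Finset.sum_congr rfl ?_
    intro ij hij
    rw [Finset.mem_antidiagonal] at hij
    rw [← hij.2.2, zpow_add, Units.val_mul]
    ring

@[simp] theorem twist_coeff {R : Type*} [CommRing R] (c : Rˣ) (φ : LaurentSeries R) (n : ℤ) :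
    (twist c φ).coeff n = ((c ^ n : Rˣ) : R) * φ.coeff n := rfl

/-- The embedding `ℚ((q)) → ℂ((t))`, `q ↦ t ^ N` (so `t = q^{1/N}`). -/
def iotaN (N : ℕ) [NeZero N] : LaurentSeries ℚ →+* LaurentSeries ℂ :=
  (qExpand ℂ N).comp (coeffMap (algebraMap ℚ ℂ))

/-- The formal discriminant `Δ = q ∏ (1 - q^n)^24 ∈ ℚ((q))`. -/
def deltaq : LaurentSeries ℚ :=
  HahnSeries.single (1 : ℤ) 1 *
    HahnSeries.ofPowerSeries ℤ ℚ (dedekindEtaUnit.map (Int.castRingHom ℚ))

/-- The formal modular unit `u_d = Δ(q^d) / Δ(q) ∈ ℚ((q))`. -/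
def unitq (d : ℕ) [NeZero d] : LaurentSeries ℚ := qExpand ℚ d deltaq / deltaq

open scoped MatrixGroups

/-- **The analytic package.**  A finite family of Laurent series in `t = q^{1/N}` (in practice: the
`j(ζ_δ^b t^{aN/δ})` and `δ^{-12} Δ(ζ_δ^b t^{aN/δ}) / Δ(t^N)`, i.e. the expansions of
`J((aτ+b)/δ)` and of `δ^{-12} Δ((aτ+b)/δ)/Δ(τ)`), permuted by `SL(2,ℤ)`, such that polynomial
relations are preserved and invariant polynomial expressions are polynomials in `j`. -/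
structure ModFunPackage (N : ℕ) [NeZero N] where
  /-- index type of the generators -/
  ι : Type
  fin : Fintype ι
  /-- the generators, as Laurent series in `t = q^{1/N}` -/
  gen : ι → LaurentSeries ℂ
  /-- the (left) action of `SL(2,ℤ)` on the indices -/
  perm : SL(2, ℤ) →* Equiv.Perm ι
  /-- polynomial relations between the generators are preserved by the action -/
  rel : ∀ (γ : SL(2, ℤ)) (p : MvPolynomial ι ℂ),
    MvPolynomial.aeval gen p = 0 → MvPolynomial.aeval (gen ∘ perm γ) p = 0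
  /-- invariant polynomial expressions in the generators are polynomials in `j` -/
  inv : ∀ p : MvPolynomial ι ℂ,
    (∀ γ : SL(2, ℤ), MvPolynomial.aeval (gen ∘ perm γ) p = MvPolynomial.aeval gen p) →
      MvPolynomial.aeval gen p ∈ Algebra.adjoin ℂ {iotaN N jq}
  /-- the coefficients of the generators lie in `ℤ[ζ_N, 1/N]` -/
  coeff_mem : ∀ (i : ι) (n : ℤ), (gen i).coeff n ∈
    Subring.closure ({Complex.exp (2 * Real.pi * Complex.I / N), (N : ℂ)⁻¹} : Set ℂ)
  /-- the translation `T` acts through `t ↦ c t` for some `N`-th root of unity `c` -/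
  twistUnit : ℂˣ
  twistUnit_pow : twistUnit ^ N = 1
  perm_T : ∀ i : ι, gen (perm ModularGroup.T i) = twist twistUnit (gen i)
  /-- the index of `j(q^d)`, `d ∣ N` -/
  idxJ : ∀ (d : ℕ) [NeZero d], d ∣ N → ι
  gen_idxJ : ∀ (d : ℕ) [NeZero d] (hd : d ∣ N), gen (idxJ d hd) = iotaN N (qExpand ℚ d jq)
  fixJ : ∀ (d : ℕ) [NeZero d] (hd : d ∣ N), ∀ γ ∈ CongruenceSubgroup.Gamma0 N,
    perm γ (idxJ d hd) = idxJ d hd
  /-- the index of the modular unit `u_p = Δ(q^p)/Δ(q)`, `p ∣ N` prime -/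
  idxU : ∀ (p : ℕ) [NeZero p], p.Prime → p ∣ N → ι
  gen_idxU : ∀ (p : ℕ) [NeZero p] (hp : p.Prime) (hpN : p ∣ N),
    gen (idxU p hp hpN) = iotaN N (unitq p)
  fixU : ∀ (p : ℕ) [NeZero p] (hp : p.Prime) (hpN : p ∣ N), ∀ γ ∈ CongruenceSubgroup.Gamma0 p,
    perm γ (idxU p hp hpN) = idxU p hp hpN

end Fermat.Agent.S28

end
end
-- ===== PACK-END S28/H868/Interface.lean

-- ===== PACK-BEGIN S36/H934/Transfer9.lean
section




/-!
# Transfer of the residue of `x ^ N / U` from `j` to the Hauptmodul `t₉` (helper934, S36 REG / R4)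

Mathlib only; the level-`9` mirror (`q = 2` path) of helper878's `Transfer4`.

`t₉ = (η(z)/η(9z))³` is the Hauptmodul of `Γ₀(9)`; with `Q = t₉² + 9 t₉ + 27` one has

  `j · t₉⁹ · Q = (t₉ + 9)³ (t₉³ + 243 t₉² + 2187 t₉ + 6561)³`,
  `(j - 1728) · t₉⁹ · Q = (t₉⁶ - 486 t₉⁵ - 24057 t₉⁴ - 367416 t₉³ - 2657205 t₉² - 9565938 t₉
      - 14348907)²`,
  `(θ t₉)⁶ · t₉³ = Δ · Q⁵`,   i.e.  `J'(X)⁶ · Q(X)⁵ = J(X)⁴ (J(X) - 1728)³ · X³`.

`V` a valuation subring of a field `L` (application: `V = V_mid`), and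

* `j₁ = α(j)`, `j₂ = γ(j)`, `h₁ = α(t₉)`, `h₂ = γ(t₉)` (`γ : f(t) ↦ f(t^{q²})`);
* `h₁`, `Q(h₁)`, `j₁`, `j₁ - 1728` units of `V`, `h₂ ∈ V`, `h₂ - h₁ ∈ 𝔪_V`;
* `hres` for `j`: `((j₂ - j₁) ^ (6k) - (j₁⁴ (j₁ - 1728)³) ^ k · U) / U ∈ 𝔪_V`.

Then `hres` holds for `t₉` with `g₉ = Q(h₁)⁵ / h₁³`:
`((h₂ - h₁) ^ (6k) - g₉ ^ k · U) / U ∈ 𝔪_V`.

Since `t₉` and `Q(t₉)` divide powers of `3` in the non-cuspidal chart, `g₉` is a unit of the
whole non-cuspidal chart in residue characteristic `≠ 3` (in particular for `q = 2`).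
-/

set_option autoImplicit false

namespace Fermat.Agent.S36.H934

open IsLocalRing

variable {L : Type*} [Field L]

/-- The numerator `P₉(X) = (X + 9)(X³ + 243 X² + 2187 X + 6561)` of `J₉ = P₉³ / D₉`. -/
def p9 {S : Type*} [CommRing S] (a : S) : S :=
  (a + 9) * (a ^ 3 + 243 * a ^ 2 + 2187 * a + 6561)

/-- The denominator `D₉(X) = X⁹ (X² + 9 X + 27)` of `J₉ = P₉³ / D₉`. -/
def d9 {S : Type*} [CommRing S] (a : S) : S := a ^ 9 * (a ^ 2 + 9 * a + 27)

/-- `R₉(X)`, the square root of `P₉³ - 1728 D₉`. -/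
def r9 {S : Type*} [CommRing S] (a : S) : S :=
  a ^ 6 - 486 * a ^ 5 - 24057 * a ^ 4 - 367416 * a ^ 3 - 2657205 * a ^ 2 - 9565938 * a
    - 14348907

theorem p9_cube_sub {S : Type*} [CommRing S] (a : S) :
    p9 a ^ 3 - 1728 * d9 a = r9 a ^ 2 := by
  rw [p9, d9, r9]; ring

/-- The difference quotient of `P₉`. -/
def dqP9 {S : Type*} [CommRing S] (a b : S) : S :=
  (b ^ 3 + b ^ 2 * a + b * a ^ 2 + a ^ 3) + 252 * (b ^ 2 + b * a + a ^ 2) + 4374 * (b + a)
    + 26244

theorem dqP9_spec {S : Type*} [CommRing S] (a b : S) :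
    p9 b - p9 a = (b - a) * dqP9 a b := by
  rw [p9, p9, dqP9]; ring

/-- The difference quotient of `D₉`. -/
def dqD9 {S : Type*} [CommRing S] (a b : S) : S :=
  (b ^ 10 + b ^ 9 * a + b ^ 8 * a ^ 2 + b ^ 7 * a ^ 3 + b ^ 6 * a ^ 4 + b ^ 5 * a ^ 5
      + b ^ 4 * a ^ 6 + b ^ 3 * a ^ 7 + b ^ 2 * a ^ 8 + b * a ^ 9 + a ^ 10)
    + 9 * (b ^ 9 + b ^ 8 * a + b ^ 7 * a ^ 2 + b ^ 6 * a ^ 3 + b ^ 5 * a ^ 4 + b ^ 4 * a ^ 5
      + b ^ 3 * a ^ 6 + b ^ 2 * a ^ 7 + b * a ^ 8 + a ^ 9)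
    + 27 * (b ^ 8 + b ^ 7 * a + b ^ 6 * a ^ 2 + b ^ 5 * a ^ 3 + b ^ 4 * a ^ 4 + b ^ 3 * a ^ 5
      + b ^ 2 * a ^ 6 + b * a ^ 7 + a ^ 8)

theorem dqD9_spec {S : Type*} [CommRing S] (a b : S) :
    d9 b - d9 a = (b - a) * dqD9 a b := by
  rw [d9, d9, dqD9]; ring

/-- The difference quotient of `J₉ = P₉³ / D₉`, cleared of denominators:
`P₉(b)³ D₉(a) - P₉(a)³ D₉(b) = (b - a) · dq9 a b`. -/
def dq9 {S : Type*} [CommRing S] (a b : S) : S :=
  dqP9 a b * (p9 b ^ 2 + p9 b * p9 a + p9 a ^ 2) * d9 a - p9 a ^ 3 * dqD9 a b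

theorem dq9_spec {S : Type*} [CommRing S] (a b : S) :
    p9 b ^ 3 * d9 a - p9 a ^ 3 * d9 b = (b - a) * dq9 a b := by
  have hP := dqP9_spec a b
  have hD := dqD9_spec a b
  rw [dq9]
  linear_combination ((p9 b ^ 2 + p9 b * p9 a + p9 a ^ 2) * d9 a) * hP - (p9 a ^ 3) * hD

theorem dqP9_diag {S : Type*} [CommRing S] (a : S) :
    dqP9 a a = 4 * a ^ 3 + 756 * a ^ 2 + 8748 * a + 26244 := by
  rw [dqP9]; ring

theorem dqD9_diag {S : Type*} [CommRing S] (a : S) :
    dqD9 a a = 11 * a ^ 10 + 90 * a ^ 9 + 243 * a ^ 8 := by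
  rw [dqD9]; ring

theorem dq9_diag {S : Type*} [CommRing S] (a : S) :
    dq9 a a = p9 a ^ 2 * a ^ 8 * r9 a := by
  rw [dq9, dqP9_diag, dqD9_diag]
  have e : (4 * a ^ 3 + 756 * a ^ 2 + 8748 * a + 26244) * (3 * d9 a)
      - p9 a * (11 * a ^ 10 + 90 * a ^ 9 + 243 * a ^ 8) = a ^ 8 * r9 a := by
    rw [p9, d9, r9]; ring
  linear_combination (p9 a ^ 2) * e

theorem map_p9 {S T : Type*} [CommRing S] [CommRing T] (f : S →+* T) (a : S) :
    f (p9 a) = p9 (f a) := by
  simp only [p9, map_mul, map_add, map_pow, map_ofNat]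

theorem map_d9 {S T : Type*} [CommRing S] [CommRing T] (f : S →+* T) (a : S) :
    f (d9 a) = d9 (f a) := by
  simp only [d9, map_mul, map_add, map_pow, map_ofNat]

theorem map_dqP9 {S T : Type*} [CommRing S] [CommRing T] (f : S →+* T) (a b : S) :
    f (dqP9 a b) = dqP9 (f a) (f b) := by
  simp only [dqP9, map_mul, map_add, map_pow, map_ofNat]

theorem map_dqD9 {S T : Type*} [CommRing S] [CommRing T] (f : S →+* T) (a b : S) :
    f (dqD9 a b) = dqD9 (f a) (f b) := by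
  simp only [dqD9, map_mul, map_add, map_pow, map_ofNat]

theorem map_dq9 {S T : Type*} [CommRing S] [CommRing T] (f : S →+* T) (a b : S) :
    f (dq9 a b) = dq9 (f a) (f b) := by
  simp only [dq9, map_sub, map_mul, map_add, map_pow, map_p9, map_d9, map_dqP9, map_dqD9]

/-- The residue-field identity behind the transfer (denominator-free form):
`Q⁵ · (dq9 a a)⁶ = c⁴ (c - 1728)³ · a³ · (D₉ D₉)⁶` whenever `c · D₉(a) = P₉(a)³`. -/
theorem res_alg9 {κ : Type*} [CommRing κ] (a c : κ) (hJ : c * d9 a = p9 a ^ 3) :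
    (a ^ 2 + 9 * a + 27) ^ 5 * (p9 a ^ 2 * a ^ 8 * r9 a) ^ 6
      = (c ^ 4 * (c - 1728) ^ 3) * a ^ 3 * (d9 a * d9 a) ^ 6 := by
  have hJ' : (c - 1728) * d9 a = r9 a ^ 2 := by
    linear_combination hJ + p9_cube_sub a
  have hD : d9 a = a ^ 9 * (a ^ 2 + 9 * a + 27) := rfl
  have h4 := congrArg (fun x => x ^ 4) hJ
  have h3 := congrArg (fun x => x ^ 3) hJ'
  beta_reduce at h4 h3
  generalize p9 a = P at *
  generalize r9 a = R at *
  generalize d9 a = D at *
  generalize a ^ 2 + 9 * a + 27 = Q at *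
  subst hD
  linear_combination
    (-(a ^ 3 * (a ^ 9 * Q) ^ 5 * ((c - 1728) * (a ^ 9 * Q)) ^ 3)) * h4
      - (a ^ 3 * (a ^ 9 * Q) ^ 5 * (P ^ 3) ^ 4) * h3

/-- **Transfer of `hres` from `j` to `t₉`**, general form: `g` any element of `L` with
`g · h₁³ = Q(h₁)⁵`. -/
theorem hres_transfer9_of_eq (V : ValuationSubring L) (j₁ j₂ h₁ h₂ U g : L) (k : ℕ)
    (hJ₁ : j₁ * (h₁ ^ 9 * (h₁ ^ 2 + 9 * h₁ + 27))
      = ((h₁ + 9) * (h₁ ^ 3 + 243 * h₁ ^ 2 + 2187 * h₁ + 6561)) ^ 3)
    (hJ₂ : j₂ * (h₂ ^ 9 * (h₂ ^ 2 + 9 * h₂ + 27))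
      = ((h₂ + 9) * (h₂ ^ 3 + 243 * h₂ ^ 2 + 2187 * h₂ + 6561)) ^ 3)
    (hh₁ : V.valuation h₁ = 1) (hh₁' : V.valuation (h₁ ^ 2 + 9 * h₁ + 27) = 1)
    (hj₁ : V.valuation j₁ = 1) (hj₁' : V.valuation (j₁ - 1728) = 1)
    (hh₂ : h₂ ∈ V) (hx : h₂ - h₁ ∈ V.nonunits)
    (hg : g * h₁ ^ 3 = (h₁ ^ 2 + 9 * h₁ + 27) ^ 5)
    (hres : ((j₂ - j₁) ^ (6 * k) - (j₁ ^ 4 * (j₁ - 1728) ^ 3) ^ k * U) * U⁻¹ ∈ V.nonunits) :
    ((h₂ - h₁) ^ (6 * k) - g ^ k * U) * U⁻¹ ∈ V.nonunits := by
  classical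
  by_cases hU : U = 0
  · -- degenerate: `U⁻¹ = 0`
    rw [hU, inv_zero, mul_zero]
    rw [ValuationSubring.mem_nonunits_iff, map_zero]
    exact zero_lt_one
  have hJ₁' : j₁ * d9 h₁ = p9 h₁ ^ 3 := hJ₁
  have hJ₂' : j₂ * d9 h₂ = p9 h₂ ^ 3 := hJ₂
  -- elements of `V`
  have h₁V : h₁ ∈ V := (V.valuation_le_one_iff _).1 hh₁.le
  have j₁V : j₁ ∈ V := (V.valuation_le_one_iff _).1 hj₁.le
  have h₁0 : h₁ ≠ 0 := fun h0 => by rw [h0, map_zero] at hh₁; exact zero_ne_one hh₁
  -- `g ∈ V`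
  have hgv : V.valuation g = 1 := by
    have h := congrArg V.valuation hg
    rw [map_mul, map_pow, map_pow, hh₁, hh₁', one_pow, one_pow, mul_one] at h
    exact h
  have gV : g ∈ V := (V.valuation_le_one_iff _).1 hgv.le
  -- `Yj = (j₂ - j₁)^(6k) / U ∈ V`
  have hYj : (j₂ - j₁) ^ (6 * k) * U⁻¹ - (j₁ ^ 4 * (j₁ - 1728) ^ 3) ^ k ∈ V.nonunits := by
    have e : (j₂ - j₁) ^ (6 * k) * U⁻¹ - (j₁ ^ 4 * (j₁ - 1728) ^ 3) ^ k
        = ((j₂ - j₁) ^ (6 * k) - (j₁ ^ 4 * (j₁ - 1728) ^ 3) ^ k * U) * U⁻¹ := by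
      field_simp
    rw [e]; exact hres
  have hgjV : (j₁ ^ 4 * (j₁ - 1728) ^ 3) ^ k ∈ V :=
    pow_mem (mul_mem (pow_mem j₁V _) (pow_mem (sub_mem j₁V (ofNat_mem V 1728)) _)) _
  have hYjV : (j₂ - j₁) ^ (6 * k) * U⁻¹ ∈ V := by
    have h1 : (j₂ - j₁) ^ (6 * k) * U⁻¹ - (j₁ ^ 4 * (j₁ - 1728) ^ 3) ^ k ∈ V :=
      (V.valuation_le_one_iff _).1 ((V.mem_nonunits_iff).1 hYj).le
    have := add_mem h1 hgjV
    simpa using this
  generalize hYjL : (j₂ - j₁) ^ (6 * k) * U⁻¹ = YjL at hYj hYjV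
  lift h₁ to V using h₁V with a₁
  lift h₂ to V using hh₂ with a₂
  lift j₁ to V using j₁V with c₁
  lift g to V using gV with γ
  lift YjL to V using hYjV with Yj
  -- the residue map
  let r : V →+* ResidueField V := residue V
  have hr0 : ∀ a : V, r a = 0 ↔ (a : L) ∈ V.nonunits := fun a => by
    rw [ValuationSubring.coe_mem_nonunits_iff]
    exact residue_eq_zero_iff a
  have hrne : ∀ a : V, V.valuation (a : L) = 1 → r a ≠ 0 := fun a ha h0 => by
    have := (V.mem_nonunits_iff).1 ((hr0 a).1 h0)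
    rw [ha] at this
    exact lt_irrefl _ this
  have hrYj : r Yj = (r c₁ ^ 4 * (r c₁ - 1728) ^ 3) ^ k := by
    have h0 : r (Yj - (c₁ ^ 4 * (c₁ - 1728) ^ 3) ^ k) = 0 := (hr0 _).2 hYj
    have h1 : r (Yj - (c₁ ^ 4 * (c₁ - 1728) ^ 3) ^ k)
        = r Yj - (r c₁ ^ 4 * (r c₁ - 1728) ^ 3) ^ k := by
      simp only [map_sub, map_mul, map_pow, map_ofNat]
    rw [h1, sub_eq_zero] at h0
    exact h0
  -- `r a₂ = r a₁`
  have hra : r a₂ = r a₁ := by
    have h0 : r (a₂ - a₁) = 0 := (hr0 _).2 hx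
    rwa [map_sub, sub_eq_zero] at h0
  -- units
  have hra₁ : r a₁ ≠ 0 := hrne a₁ hh₁
  have hra₁' : r a₁ ^ 2 + 9 * r a₁ + 27 ≠ 0 := by
    have := hrne (a₁ ^ 2 + 9 * a₁ + 27) hh₁'
    rwa [map_add, map_add, map_mul, map_pow, map_ofNat, map_ofNat] at this
  have hrc₁ : r c₁ ≠ 0 := hrne c₁ hj₁
  have hrc₁' : r c₁ - 1728 ≠ 0 := by
    have := hrne (c₁ - 1728) hj₁'
    rwa [map_sub, map_ofNat] at this
  have hrD : d9 (r a₁) ≠ 0 := mul_ne_zero (pow_ne_zero _ hra₁) hra₁'
  -- the relations in the residue field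
  have hJr : r c₁ * d9 (r a₁) = p9 (r a₁) ^ 3 := by
    have h : c₁ * d9 a₁ = p9 a₁ ^ 3 := Subtype.ext hJ₁'
    have := congrArg r h
    rwa [map_mul, map_pow, map_d9, map_p9] at this
  have hJr' : (r c₁ - 1728) * d9 (r a₁) = r9 (r a₁) ^ 2 := by
    linear_combination hJr + p9_cube_sub (r a₁)
  have hgr : r γ * r a₁ ^ 3 = (r a₁ ^ 2 + 9 * r a₁ + 27) ^ 5 := by
    have h : γ * a₁ ^ 3 = (a₁ ^ 2 + 9 * a₁ + 27) ^ 5 := Subtype.ext hg
    have := congrArg r h
    simpa only [map_mul, map_pow, map_add, map_ofNat] using this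
  -- the difference quotient
  have hrB : r (dq9 a₁ a₂) = p9 (r a₁) ^ 2 * r a₁ ^ 8 * r9 (r a₁) := by
    rw [map_dq9, hra, dq9_diag]
  have hP : p9 (r a₁) ≠ 0 := by
    intro h
    rw [h] at hJr
    exact (mul_ne_zero hrc₁ hrD) (by rw [hJr]; ring)
  have hR : r9 (r a₁) ≠ 0 := by
    intro h
    rw [h] at hJr'
    exact (mul_ne_zero hrc₁' hrD) (by rw [hJr']; ring)
  have hrB0 : r (dq9 a₁ a₂) ≠ 0 := by
    rw [hrB]
    exact mul_ne_zero (mul_ne_zero (pow_ne_zero _ hP) (pow_ne_zero _ hra₁)) hR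
  have hBunit : IsUnit (dq9 a₁ a₂) := by
    by_contra hnu
    exact hrB0 ((residue_eq_zero_iff _).2 ((mem_maximalIdeal _).2 hnu))
  obtain ⟨Bu, hBu⟩ := hBunit
  -- the key identity in `L`
  have hBL : ((dq9 a₁ a₂ : V) : L) = dq9 (a₁ : L) (a₂ : L) := rfl
  have hkeyL : (j₂ - (c₁ : L)) * (d9 (a₁ : L) * d9 (a₂ : L))
      = ((a₂ : L) - a₁) * dq9 (a₁ : L) (a₂ : L) := by
    rw [← dq9_spec]
    linear_combination (d9 (a₁ : L)) * hJ₂' - (d9 (a₂ : L)) * hJ₁'
  -- `Y = x^(6k)/U = Yj · A^(6k) / B^(6k) ∈ V`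
  obtain ⟨A, hA⟩ : ∃ A : V, A = d9 a₁ * d9 a₂ := ⟨_, rfl⟩
  have hAL : (A : L) = d9 (a₁ : L) * d9 (a₂ : L) := by
    rw [hA]; rfl
  obtain ⟨Y, hY⟩ : ∃ Y : V, Y = Yj * A ^ (6 * k) * ((Bu⁻¹ : Vˣ) : V) ^ (6 * k) := ⟨_, rfl⟩
  have hYB : Y * (dq9 a₁ a₂) ^ (6 * k) = Yj * A ^ (6 * k) := by
    rw [hY, ← hBu, mul_assoc, ← mul_pow, Units.inv_mul, one_pow, mul_one]
  have hYL : (Y : L) = ((a₂ : L) - a₁) ^ (6 * k) * U⁻¹ := by
    have hB0 : (dq9 (a₁ : L) (a₂ : L)) ^ (6 * k) ≠ 0 := by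
      apply pow_ne_zero
      intro h
      apply hrB0
      have : dq9 a₁ a₂ = 0 := Subtype.ext (hBL.trans h)
      rw [this, map_zero]
    apply mul_right_cancel₀ hB0
    have h1 : (Y : L) * (dq9 (a₁ : L) (a₂ : L)) ^ (6 * k) = (Yj : L) * (A : L) ^ (6 * k) :=
      congrArg (fun z : V => (z : L)) hYB
    have h6 : (j₂ - (c₁ : L)) ^ (6 * k) * (A : L) ^ (6 * k)
        = ((a₂ : L) - a₁) ^ (6 * k) * (dq9 (a₁ : L) (a₂ : L)) ^ (6 * k) := by
      rw [← mul_pow, ← mul_pow, hAL, hkeyL]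
    rw [h1, ← hYjL]
    generalize (j₂ - (c₁ : L)) ^ (6 * k) = J6 at h6 ⊢
    generalize (A : L) ^ (6 * k) = A6 at h6 ⊢
    generalize ((a₂ : L) - a₁) ^ (6 * k) = X6 at h6 ⊢
    generalize (dq9 (a₁ : L) (a₂ : L)) ^ (6 * k) = D6 at h6 ⊢
    linear_combination U⁻¹ * h6
  -- residue of `Y`
  have hrY : r Y = r γ ^ k := by
    have h1 := congrArg r hYB
    rw [map_mul, map_mul, map_pow, map_pow, hrYj, hrB] at h1
    have hrA : r A = d9 (r a₁) * d9 (r a₁) := by
      rw [hA, map_mul, map_d9, map_d9, hra]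
    rw [hrA] at h1
    have hW0 : (p9 (r a₁) ^ 2 * r a₁ ^ 8 * r9 (r a₁)) ^ (6 * k) ≠ 0 := by
      rw [← hrB]; exact pow_ne_zero _ hrB0
    have ha3 : (r a₁ ^ 3) ^ k ≠ 0 := pow_ne_zero _ (pow_ne_zero _ hra₁)
    apply mul_right_cancel₀ hW0
    apply mul_right_cancel₀ ha3
    rw [h1]
    have key := res_alg9 (r a₁) (r c₁) hJr
    have e1 : r γ ^ k * (p9 (r a₁) ^ 2 * r a₁ ^ 8 * r9 (r a₁)) ^ (6 * k) * (r a₁ ^ 3) ^ k
        = ((r γ * r a₁ ^ 3) * (p9 (r a₁) ^ 2 * r a₁ ^ 8 * r9 (r a₁)) ^ 6) ^ k := by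
      rw [pow_mul, ← mul_pow, ← mul_pow]; ring_nf
    have e2 : (r c₁ ^ 4 * (r c₁ - 1728) ^ 3) ^ k * (d9 (r a₁) * d9 (r a₁)) ^ (6 * k)
          * (r a₁ ^ 3) ^ k
        = ((r c₁ ^ 4 * (r c₁ - 1728) ^ 3) * r a₁ ^ 3 * (d9 (r a₁) * d9 (r a₁)) ^ 6) ^ k := by
      rw [pow_mul, ← mul_pow, ← mul_pow]; ring_nf
    rw [e1, e2, hgr, key]
  -- conclusion
  have hfin : r (Y - γ ^ k) = 0 := by
    rw [map_sub, hrY, map_pow, sub_self]
  have hmem := (hr0 _).1 hfin
  have e : ((a₂ : L) - a₁) ^ (6 * k) * U⁻¹ - (γ : L) ^ k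
      = (((a₂ : L) - a₁) ^ (6 * k) - (γ : L) ^ k * U) * U⁻¹ := by
    field_simp
  rw [← e, ← hYL]
  exact hmem

/-- **Transfer of `hres` from `j` to `t₉`**, with `g₉ = Q(h₁)⁵ · (h₁³)⁻¹`. -/
theorem hres_transfer9 (V : ValuationSubring L) (j₁ j₂ h₁ h₂ U : L) (k : ℕ)
    (hJ₁ : j₁ * (h₁ ^ 9 * (h₁ ^ 2 + 9 * h₁ + 27))
      = ((h₁ + 9) * (h₁ ^ 3 + 243 * h₁ ^ 2 + 2187 * h₁ + 6561)) ^ 3)
    (hJ₂ : j₂ * (h₂ ^ 9 * (h₂ ^ 2 + 9 * h₂ + 27))
      = ((h₂ + 9) * (h₂ ^ 3 + 243 * h₂ ^ 2 + 2187 * h₂ + 6561)) ^ 3)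
    (hh₁ : V.valuation h₁ = 1) (hh₁' : V.valuation (h₁ ^ 2 + 9 * h₁ + 27) = 1)
    (hj₁ : V.valuation j₁ = 1) (hj₁' : V.valuation (j₁ - 1728) = 1)
    (hh₂ : h₂ ∈ V) (hx : h₂ - h₁ ∈ V.nonunits)
    (hres : ((j₂ - j₁) ^ (6 * k) - (j₁ ^ 4 * (j₁ - 1728) ^ 3) ^ k * U) * U⁻¹ ∈ V.nonunits) :
    ((h₂ - h₁) ^ (6 * k) - ((h₁ ^ 2 + 9 * h₁ + 27) ^ 5 * (h₁ ^ 3)⁻¹) ^ k * U) * U⁻¹
      ∈ V.nonunits := by
  have h₁0 : h₁ ≠ 0 := fun h0 => by rw [h0, map_zero] at hh₁; exact zero_ne_one hh₁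
  refine hres_transfer9_of_eq V j₁ j₂ h₁ h₂ U _ k hJ₁ hJ₂ hh₁ hh₁' hj₁ hj₁' hh₂ hx ?_ hres
  have h3 : h₁ ^ 3 ≠ 0 := pow_ne_zero _ h₁0
  rw [mul_assoc, inv_mul_cancel₀ h3, mul_one]

/-- **Transfer of `hres` from `j` to `t₉`**, hypotheses literally in the shape of helper890's
`Haupt9.jq_mul_t9` (`Q = h² + 9 h + 27`):
`j · (h⁹ · Q) = (h + 9)³ · (h³ + 243 · Q)³`. -/
theorem hres_transfer9_shape (V : ValuationSubring L) (j₁ j₂ h₁ h₂ U : L) (k : ℕ)
    (hJ₁ : j₁ * (h₁ ^ 9 * (h₁ ^ 2 + 9 * h₁ + 27))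
      = (h₁ + 9) ^ 3 * (h₁ ^ 3 + 243 * (h₁ ^ 2 + 9 * h₁ + 27)) ^ 3)
    (hJ₂ : j₂ * (h₂ ^ 9 * (h₂ ^ 2 + 9 * h₂ + 27))
      = (h₂ + 9) ^ 3 * (h₂ ^ 3 + 243 * (h₂ ^ 2 + 9 * h₂ + 27)) ^ 3)
    (hh₁ : V.valuation h₁ = 1) (hh₁' : V.valuation (h₁ ^ 2 + 9 * h₁ + 27) = 1)
    (hj₁ : V.valuation j₁ = 1) (hj₁' : V.valuation (j₁ - 1728) = 1)
    (hh₂ : h₂ ∈ V) (hx : h₂ - h₁ ∈ V.nonunits)
    (hres : ((j₂ - j₁) ^ (6 * k) - (j₁ ^ 4 * (j₁ - 1728) ^ 3) ^ k * U) * U⁻¹ ∈ V.nonunits) :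
    ((h₂ - h₁) ^ (6 * k) - ((h₁ ^ 2 + 9 * h₁ + 27) ^ 5 * (h₁ ^ 3)⁻¹) ^ k * U) * U⁻¹
      ∈ V.nonunits :=
  hres_transfer9 V j₁ j₂ h₁ h₂ U k (by linear_combination hJ₁) (by linear_combination hJ₂)
    hh₁ hh₁' hj₁ hj₁' hh₂ hx hres

end Fermat.Agent.S36.H934

end
-- ===== PACK-END S36/H934/Transfer9.lean

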