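import Mathlib
import Fermat.Prelude.Def_EllipticCurve_FrobeniusTrace
import Fermat.Prelude.Def_FLTPrelim_Ramification
import Fermat.Prelude.Def_ModularCurve_ArithmeticGalois
import Mathlib.Algebra.Polynomial.Degree.Lemmas
import Mathlib.Algebra.Polynomial.Monic
import Mathlib.Tactic.FieldSimp
import Mathlib.Tactic.Ring
import Mathlib.Tactic.FinCases
import Fermat.Agent.Pack.S36.E2L3
import Fermat.Agent.Pack.S36.E2L2
import Fermat.Agent.Pack.S36.E2L0
import Fermat.Agent.Pack.S36.E0L3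
import Fermat.Agent.Pack.S36.E3L3
import Fermat.Agent.Pack.S36.E3L0
import Fermat.Agent.Pack.S36.E3L2

-- ===== PACK-BEGIN Lib/Newform/H958/X/Dirichlet.lean
section


/-!
# NEWFORM block X — leaf X4 (`DirichletSeries`)
-/

set_option autoImplicit false

open CongruenceSubgroup UpperHalfPlane Complex
open scoped MatrixGroups ModularForm

namespace Fermat.Agent.Lib.Newform.H958.X

open ModularFormClass

theorem T_mem_Gamma0 (N : ℕ) : ModularGroup.T ∈ Gamma0 N := by
  rw [Gamma0_mem]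
  simp [ModularGroup.T]

theorem strictWidthInfty_Gamma0 (N : ℕ) :
    (Gamma0 N : Subgroup (GL (Fin 2) ℝ)).strictWidthInfty = 1 :=
  Subgroup.strictWidthInfty_eq_one_of_T_mem (T_mem_Gamma0 N)

theorem dirichletSeries : DirichletSeries := by
  intro N _ f s hs
  have h := CuspForm.hasSum_L (Γ := (Gamma0 N : Subgroup (GL (Fin 2) ℝ))) (k := 2) two_pos f
    (s := s) (by norm_num; linarith)
  rw [strictWidthInfty_Gamma0 N] at h
  simp only [ofReal_one, one_cpow, one_mul] at h
  exact h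

end Fermat.Agent.Lib.Newform.H958.X

end
-- ===== PACK-END Lib/Newform/H958/X/Dirichlet.lean

-- ===== PACK-BEGIN Lib/Newform/H923/AL.lean
section


/-!
# Atkin–Lehner matrices for `Γ₀(q M)` and commutation with the Hecke operators `T_ℓ`

`IsAL q M A` says that `A = [[q a, b], [q M c, q d]]` with integers `a b c d` and
`q a d - M b c = 1` (so `det A = q`).  For a function `f` invariant under `Γ₀(q M)`:

* `slash_AL_eq` : `f ∣[k] A` does not depend on the choice of `A`;
* `slash_AL_invariant` : `f ∣[k] A` is again invariant under `Γ₀(q M)`;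
* `slash_AL_slash_AL` : in weight `2`, `(f ∣[2] A) ∣[2] A = f`;
* `heckeT_slash_AL` : `T_ℓ (f ∣[k] A) = (T_ℓ f) ∣[k] A` for primes `ℓ ∤ q M`;
* `exists_isAL` : such matrices exist when `q` and `M` are coprime.
-/

set_option autoImplicit false

noncomputable section

namespace Fermat.Agent.Lib.Newform.H923

open Matrix UpperHalfPlane ModularForm
open scoped MatrixGroups ModularForm OnePoint

/-- Invariance of a function on the upper half plane under `Γ₀(N)` in weight `k`
(the shape of hypothesis used by the Prelude). -/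
def InvUnder (N : ℕ) (k : ℤ) (f : ℍ → ℂ) : Prop :=
  ∀ γ ∈ (CongruenceSubgroup.Gamma0 N : Subgroup (GL (Fin 2) ℝ)), f ∣[k] γ = f

theorem InvUnder.slash_mapGL {N : ℕ} {k : ℤ} {f : ℍ → ℂ} (hf : InvUnder N k f)
    {g : SL(2, ℤ)} (hg : g ∈ CongruenceSubgroup.Gamma0 N) :
    f ∣[k] (Matrix.SpecialLinearGroup.mapGL ℝ g) = f :=
  hf _ (Subgroup.mem_map_of_mem _ hg)

theorem invUnder_of_slashInvariantFormClass {N : ℕ} {k : ℤ} {F : Type*} [FunLike F ℍ ℂ]
    [SlashInvariantFormClass F (CongruenceSubgroup.Gamma0 N : Subgroup (GL (Fin 2) ℝ)) k]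
    (f : F) : InvUnder N k (f : ℍ → ℂ) :=
  fun γ hγ => SlashInvariantFormClass.slash_action_eq f γ hγ

/-- `IsAL q M A`: `A` is an Atkin–Lehner matrix at `q` for the level `q * M`. -/
def IsAL (q M : ℕ) (A : GL (Fin 2) ℝ) : Prop :=
  ∃ a b c d : ℤ, IsInt A (q * a) b (q * M * c) (q * d) ∧ q * a * d - M * b * c = 1

/-- An integral matrix of determinant `q` whose entries satisfy the Atkin–Lehner divisibilities
is an Atkin–Lehner matrix. -/
theorem isAL_of_dvd {q M : ℕ} (hq : q ≠ 0) {A : GL (Fin 2) ℝ} {a b c d : ℤ}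
    (hA : IsInt A a b c d) (hdet : a * d - b * c = q) (ha : (q : ℤ) ∣ a)
    (hc : ((q * M : ℕ) : ℤ) ∣ c) (hd : (q : ℤ) ∣ d) : IsAL q M A := by
  obtain ⟨a', rfl⟩ := ha
  obtain ⟨c', rfl⟩ := hc
  obtain ⟨d', rfl⟩ := hd
  refine ⟨a', b, c', d', ?_, ?_⟩
  · simpa [IsInt] using hA
  · have hq' : (q : ℤ) ≠ 0 := by exact_mod_cast hq
    apply mul_left_cancel₀ hq'
    push_cast at hdet
    linear_combination hdet

/-- Two Atkin–Lehner matrices differ by an element of `Γ₀(q M)` on the left. -/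
theorem IsAL.exists_eq_mul {q M : ℕ} {A A' : GL (Fin 2) ℝ} (hA : IsAL q M A)
    (hA' : IsAL q M A') :
    ∃ g ∈ CongruenceSubgroup.Gamma0 (q * M), A' = Matrix.SpecialLinearGroup.mapGL ℝ g * A := by
  obtain ⟨a, b, c, d, hInt, h⟩ := hA
  obtain ⟨a', b', c', d', hInt', h'⟩ := hA'
  let g : SL(2, ℤ) := ⟨!![q * a' * d - M * b' * c, a * b' - a' * b;
      q * M * (c' * d - c * d'), q * a * d' - M * b * c'], by
    rw [Matrix.det_fin_two_of]
    linear_combination (q * a * d - M * b * c) * h' + h⟩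
  have hg00 : g 0 0 = q * a' * d - M * b' * c := rfl
  have hg01 : g 0 1 = a * b' - a' * b := rfl
  have hg10 : g 1 0 = q * M * (c' * d - c * d') := rfl
  have hg11 : g 1 1 = q * a * d' - M * b * c' := rfl
  refine ⟨g, ?_, ?_⟩
  · rw [CongruenceSubgroup.Gamma0_mem, hg10]
    push_cast
    have : ((q : ZMod (q * M)) * (M : ZMod (q * M))) = 0 := by
      rw [← Nat.cast_mul]
      exact ZMod.natCast_self _
    rw [this, zero_mul]
  · refine hInt'.ext ((isInt_mapGL g).mul hInt) ?_ ?_ ?_ ?_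
    · rw [hg00, hg01]
      linear_combination (-(q * a' : ℤ)) * h
    · rw [hg00, hg01]
      linear_combination (-(b' : ℤ)) * h
    · rw [hg10, hg11]
      linear_combination (-(q * M * c' : ℤ)) * h
    · rw [hg10, hg11]
      linear_combination (-(q * d' : ℤ)) * h

/-- The slash by an Atkin–Lehner matrix does not depend on the matrix. -/
theorem slash_AL_eq {q M : ℕ} {k : ℤ} {f : ℍ → ℂ} (hf : InvUnder (q * M) k f)
    {A A' : GL (Fin 2) ℝ} (hA : IsAL q M A) (hA' : IsAL q M A') :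
    f ∣[k] A' = f ∣[k] A := by
  obtain ⟨g, hg, rfl⟩ := hA.exists_eq_mul hA'
  rw [SlashAction.slash_mul, hf.slash_mapGL hg]

/-- An Atkin–Lehner matrix times an element of `Γ₀(q M)` is an Atkin–Lehner matrix. -/
theorem IsAL.mul_mapGL {q M : ℕ} {A : GL (Fin 2) ℝ} (hA : IsAL q M A) {g : SL(2, ℤ)}
    (hg : g ∈ CongruenceSubgroup.Gamma0 (q * M)) :
    IsAL q M (A * Matrix.SpecialLinearGroup.mapGL ℝ g) := by
  obtain ⟨a, b, c, d, hInt, h⟩ := hA
  obtain ⟨t, ht⟩ : ((q * M : ℕ) : ℤ) ∣ g 1 0 :=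
    (ZMod.intCast_zmod_eq_zero_iff_dvd _ _).mp (CongruenceSubgroup.Gamma0_mem.mp hg)
  push_cast at ht
  have hdet : g 0 0 * g 1 1 - g 0 1 * g 1 0 = 1 := by
    have := g.det_coe
    rwa [Matrix.det_fin_two] at this
  refine ⟨a * g 0 0 + b * M * t, q * a * g 0 1 + b * g 1 1, c * g 0 0 + q * d * t,
    M * c * g 0 1 + d * g 1 1, ?_, ?_⟩
  · have := hInt.mul (isInt_mapGL g)
    rw [ht] at this
    unfold IsInt at this ⊢
    rw [this]
    ext i j
    fin_cases i <;> fin_cases j <;> simp <;> ring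
  · rw [ht] at hdet
    linear_combination (g 0 0 * g 1 1 - g 0 1 * (q * M * t)) * h + hdet

/-- The slash by an Atkin–Lehner matrix preserves `Γ₀(q M)`-invariance. -/
theorem slash_AL_invariant {q M : ℕ} {k : ℤ} {f : ℍ → ℂ} (hf : InvUnder (q * M) k f)
    {A : GL (Fin 2) ℝ} (hA : IsAL q M A) : InvUnder (q * M) k (f ∣[k] A) := by
  rintro _ ⟨g, hg, rfl⟩
  rw [← SlashAction.slash_mul]
  exact slash_AL_eq hf hA (hA.mul_mapGL hg)

/-- Existence of Atkin–Lehner matrices. -/
theorem exists_isAL {q M : ℕ} (hq : q ≠ 0) (hqM : Nat.Coprime q M) : ∃ A, IsAL q M A := by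
  have hcop : IsCoprime (q : ℤ) (M : ℤ) := Nat.isCoprime_iff_coprime.mpr hqM
  obtain ⟨u, v, huv⟩ := hcop
  have hq' : (q : ℤ) ≠ 0 := by exact_mod_cast hq
  have hdet : (q * u : ℤ) * (q * 1) - 1 * (q * M * (-v)) ≠ 0 := by
    have : (q * u : ℤ) * (q * 1) - 1 * (q * M * (-v)) = q := by linear_combination (q : ℤ) * huv
    rw [this]
    exact hq'
  exact ⟨intGL (q * u) 1 (q * M * (-v)) (q * 1) hdet, u, 1, -v, 1, isInt_intGL _ _ _ _ _,
    by linear_combination huv⟩

/-- Scalar matrices act trivially in weight `2`. -/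
theorem slash_two_scalar (u : ℝˣ) (f : ℍ → ℂ) :
    f ∣[(2 : ℤ)] (Matrix.GeneralLinearGroup.scalar (Fin 2) u) = f := by
  have hu : (u : ℝ) ≠ 0 := u.ne_zero
  have hdet : ((Matrix.GeneralLinearGroup.scalar (Fin 2) u).det : ℝ) = (u : ℝ) * u := by
    rw [Matrix.GeneralLinearGroup.val_det_apply, Matrix.GeneralLinearGroup.coe_scalar,
      Matrix.det_fin_two]
    simp
  have hdetpos : 0 < ((Matrix.GeneralLinearGroup.scalar (Fin 2) u).det : ℝ) := by
    rw [hdet]
    exact mul_self_pos.mpr hu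
  ext τ
  rw [ModularForm.slash_apply, UpperHalfPlane.σ, if_pos hdetpos, hdet]
  simp only [ContinuousAlgEquiv.refl_apply]
  have h1 : Matrix.GeneralLinearGroup.scalar (Fin 2) u • τ = τ := by
    simp
  rw [h1, UpperHalfPlane.denom_scalar]
  have hu' : ((u : ℝ) : ℂ) ≠ 0 := by exact_mod_cast hu
  rw [abs_mul_self]
  push_cast
  norm_num
  field_simp

/-- The square of an Atkin–Lehner matrix is `q` times an element of `Γ₀(q M)`. -/
theorem IsAL.exists_sq {q M : ℕ} (hq : q ≠ 0) {A : GL (Fin 2) ℝ} (hA : IsAL q M A) :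
    ∃ g ∈ CongruenceSubgroup.Gamma0 (q * M),
      A * A = Matrix.SpecialLinearGroup.mapGL ℝ g *
        Matrix.GeneralLinearGroup.scalar (Fin 2) (Units.mk0 (q : ℝ) (by exact_mod_cast hq)) := by
  obtain ⟨a, b, c, d, hInt, h⟩ := hA
  let g : SL(2, ℤ) := ⟨!![q * a * a + b * M * c, b * (a + d);
      q * M * (c * (a + d)), M * b * c + q * d * d], by
    rw [Matrix.det_fin_two_of]
    linear_combination (q * a * d - M * b * c + 1) * h⟩
  have hg00 : g 0 0 = q * a * a + b * M * c := rfl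
  have hg01 : g 0 1 = b * (a + d) := rfl
  have hg10 : g 1 0 = q * M * (c * (a + d)) := rfl
  have hg11 : g 1 1 = M * b * c + q * d * d := rfl
  have hs : IsInt (Matrix.GeneralLinearGroup.scalar (Fin 2)
      (Units.mk0 (q : ℝ) (by exact_mod_cast hq))) q 0 0 q := by
    unfold IsInt
    rw [Matrix.GeneralLinearGroup.coe_scalar]
    ext i j
    fin_cases i <;> fin_cases j <;> simp [Matrix.natCast_apply]
  refine ⟨g, ?_, ?_⟩
  · rw [CongruenceSubgroup.Gamma0_mem, hg10]
    push_cast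
    have : ((q : ZMod (q * M)) * (M : ZMod (q * M))) = 0 := by
      rw [← Nat.cast_mul]
      exact ZMod.natCast_self _
    rw [this, zero_mul]
  · refine (hInt.mul hInt).ext ((isInt_mapGL g).mul hs) ?_ ?_ ?_ ?_
    · rw [hg00, hg01]; ring
    · rw [hg00, hg01]; ring
    · rw [hg10, hg11]; ring
    · rw [hg10, hg11]; ring

/-- In weight `2`, the Atkin–Lehner operator is an involution. -/
theorem slash_AL_slash_AL {q M : ℕ} (hq : q ≠ 0) {f : ℍ → ℂ} (hf : InvUnder (q * M) 2 f)
    {A : GL (Fin 2) ℝ} (hA : IsAL q M A) : (f ∣[(2 : ℤ)] A) ∣[(2 : ℤ)] A = f := by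
  obtain ⟨g, hg, hgA⟩ := hA.exists_sq hq
  rw [← SlashAction.slash_mul, hgA, SlashAction.slash_mul, hf.slash_mapGL hg, slash_two_scalar]

/-- The Hecke operator `T_ℓ`, `ℓ ∤ q M`, commutes with the Atkin–Lehner operator at `q`. -/
theorem heckeT_slash_AL (k : ℤ) {q M ℓ : ℕ} (hq : q ≠ 0) (hℓ : ℓ.Prime) (hℓN : ¬ ℓ ∣ q * M)
    {f : ℍ → ℂ} (hf : InvUnder (q * M) k f) {A : GL (Fin 2) ℝ} (hA : IsAL q M A) :
    heckeT k ℓ f ∣[k] A = heckeT k ℓ (f ∣[k] A) := by
  have : Fact ℓ.Prime := ⟨hℓ⟩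
  have : NeZero ℓ := ⟨hℓ.ne_zero⟩
  obtain ⟨a, b, c, d, hInt, h⟩ := id hA
  have hdetA : (q * a : ℤ) * (q * d) - b * (q * M * c) = q := by linear_combination (q : ℤ) * h
  have hℓq : ¬ ℓ ∣ q := fun hd => hℓN (Dvd.dvd.mul_right hd M)
  have hdet : ¬ (ℓ : ℤ) ∣ (q * a : ℤ) * (q * d) - b * (q * M * c) := by
    rw [hdetA]
    exact fun hd => hℓq (Int.natCast_dvd_natCast.mp hd)
  have hcopq : IsCoprime (q : ℤ) (ℓ : ℤ) :=
    Nat.isCoprime_iff_coprime.mpr ((Nat.Prime.coprime_iff_not_dvd hℓ).mpr hℓq).symm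
  have hcopN : IsCoprime ((q * M : ℕ) : ℤ) (ℓ : ℤ) :=
    Nat.isCoprime_iff_coprime.mpr ((Nat.Prime.coprime_iff_not_dvd hℓ).mpr hℓN).symm
  rw [heckeT_eq_sum_hRep, heckeT_eq_sum_hRep, SlashAction.sum_slash]
  calc ∑ x : OnePoint (ZMod ℓ), (f ∣[k] hRep ℓ x) ∣[k] A
      = ∑ x : OnePoint (ZMod ℓ),
          (f ∣[k] A) ∣[k] hRep ℓ (redGL ℓ (q * a) b (q * M * c) (q * d) hdet • x) := by
        refine Finset.sum_congr rfl fun x _ ↦ ?_
        obtain ⟨A', a', b', c', d', hA', hdet', h1, h2, h3, hmul⟩ := exists_hRep_mul hInt hdet x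
        have hAL' : IsAL q M A' := by
          refine isAL_of_dvd hq hA' (hdet'.trans hdetA) ?_ ?_ ?_
          · exact h2 q hcopq (Dvd.intro _ rfl) (by rw [mul_assoc]; exact Dvd.intro _ rfl)
          · exact h1 _ hcopN (by push_cast; exact Dvd.intro _ rfl)
          · exact h3 q hcopq (Dvd.intro _ rfl) (by rw [mul_assoc]; exact Dvd.intro _ rfl)
        rw [← SlashAction.slash_mul, hmul, SlashAction.slash_mul, slash_AL_eq hf hA hAL']
    _ = ∑ x : OnePoint (ZMod ℓ), (f ∣[k] A) ∣[k] hRep ℓ x :=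
        Equiv.sum_comp (MulAction.toPerm (redGL ℓ (q * a) b (q * M * c) (q * d) hdet))
          (fun x ↦ (f ∣[k] A) ∣[k] hRep ℓ x)

end Fermat.Agent.Lib.Newform.H923

end
end
-- ===== PACK-END Lib/Newform/H923/AL.lean

-- ===== PACK-BEGIN Lib/Newform/H803/Ops.lean
section



/-!
# Averaging operators on `Γ(N)`-invariant functions (helper803)

* `SlInv k Γ F` : `F` is invariant under the weight `k` slash action of `Γ ≤ SL(2, ℤ)`;
* `avg k N J F` : average of `F ∣[k] γ` over `γ ∈ J` modulo `Γ(N)`;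
* `avgT k x p F` : `p⁻¹ ∑_{j < p} F ∣[k] T^{j x}`.
-/

set_option autoImplicit false

namespace Fermat.Agent.Lib.Newform.H803

open Matrix Matrix.SpecialLinearGroup CongruenceSubgroup UpperHalfPlane ModularForm
open scoped MatrixGroups ModularForm

variable {k : ℤ}

/-- `F` is invariant under the weight-`k` slash action of `Γ`. -/
def SlInv (k : ℤ) (Γ : Subgroup SL(2, ℤ)) (F : ℍ → ℂ) : Prop := ∀ γ ∈ Γ, F ∣[k] γ = F

theorem SlInv.mono {Γ Γ' : Subgroup SL(2, ℤ)} (h : Γ ≤ Γ') {F : ℍ → ℂ} (hF : SlInv k Γ' F) :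
    SlInv k Γ F := fun γ hγ => hF γ (h hγ)

theorem SlInv.zero (Γ : Subgroup SL(2, ℤ)) : SlInv k Γ (0 : ℍ → ℂ) :=
  fun _ _ => SlashAction.zero_slash _ _

theorem SlInv.add {Γ : Subgroup SL(2, ℤ)} {F G : ℍ → ℂ} (hF : SlInv k Γ F) (hG : SlInv k Γ G) :
    SlInv k Γ (F + G) := fun γ hγ => by rw [SlashAction.add_slash, hF γ hγ, hG γ hγ]

theorem SlInv.smul {Γ : Subgroup SL(2, ℤ)} {F : ℍ → ℂ} (c : ℂ) (hF : SlInv k Γ F) :
    SlInv k Γ (c • F) := fun γ hγ => by rw [ModularForm.SL_smul_slash, hF γ hγ]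

theorem SlInv.neg {Γ : Subgroup SL(2, ℤ)} {F : ℍ → ℂ} (hF : SlInv k Γ F) :
    SlInv k Γ (-F) := fun γ hγ => by rw [SlashAction.neg_slash, hF γ hγ]

theorem SlInv.sub {Γ : Subgroup SL(2, ℤ)} {F G : ℍ → ℂ} (hF : SlInv k Γ F) (hG : SlInv k Γ G) :
    SlInv k Γ (F - G) := by
  rw [sub_eq_add_neg]; exact hF.add hG.neg

theorem SlInv.sum {Γ : Subgroup SL(2, ℤ)} {ι : Type*} (s : Finset ι) {F : ι → ℍ → ℂ}
    (hF : ∀ i ∈ s, SlInv k Γ (F i)) : SlInv k Γ (∑ i ∈ s, F i) := by
  intro γ hγ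
  rw [SlashAction.sum_slash]
  exact Finset.sum_congr rfl fun i hi => hF i hi γ hγ

theorem sub_slash (F G : ℍ → ℂ) (γ : SL(2, ℤ)) : (F - G) ∣[k] γ = F ∣[k] γ - G ∣[k] γ := by
  rw [sub_eq_add_neg, SlashAction.add_slash, SlashAction.neg_slash, ← sub_eq_add_neg]

/-- For a `Γ(N)`-invariant function, `F ∣ g` only depends on `g` modulo `Γ(N)`. -/
theorem slash_congr {N : ℕ} {F : ℍ → ℂ} (hF : SlInv k (Gamma N) F) {g h : SL(2, ℤ)}
    (hgh : g * h⁻¹ ∈ Gamma N) : F ∣[k] g = F ∣[k] h := by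
  have e : g = (g * h⁻¹) * h := by group
  rw [e, SlashAction.slash_mul, hF _ hgh]

theorem SlInv.slash {N : ℕ} {F : ℍ → ℂ} (hF : SlInv k (Gamma N) F) (g : SL(2, ℤ)) :
    SlInv k (Gamma N) (F ∣[k] g) := by
  intro γ hγ
  rw [← SlashAction.slash_mul]
  apply slash_congr hF
  have e : g * γ * g⁻¹ ∈ Gamma N := (Gamma_normal N).conj_mem γ hγ g
  exact e

/-- Commutation of the slash operators of two elements commuting modulo `Γ(N)`. -/
theorem slash_comm_of_mem {N : ℕ} {F : ℍ → ℂ} (hF : SlInv k (Gamma N) F) {g h : SL(2, ℤ)}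
    (hgh : (g * h) * (h * g)⁻¹ ∈ Gamma N) : (F ∣[k] g) ∣[k] h = (F ∣[k] h) ∣[k] g := by
  rw [← SlashAction.slash_mul, ← SlashAction.slash_mul]
  exact slash_congr hF hgh

theorem slash_comm {N a b : ℕ} (hN : N ∣ a * b) {F : ℍ → ℂ} (hF : SlInv k (Gamma N) F)
    {g h : SL(2, ℤ)} (hg : g ∈ Gamma a) (hh : h ∈ Gamma b) :
    (F ∣[k] g) ∣[k] h = (F ∣[k] h) ∣[k] g :=
  slash_comm_of_mem hF (comm_mem_Gamma hN hg hh)

/-! ### The averaging operator over a subgroup modulo `Γ(N)` -/

/-- Reduction modulo `N`. -/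
noncomputable abbrev redN (N : ℕ) : SL(2, ℤ) →* SL(2, ZMod N) :=
  Matrix.SpecialLinearGroup.map (Int.castRingHom (ZMod N))

theorem mem_Gamma_iff_redN {N : ℕ} {g : SL(2, ℤ)} : g ∈ Gamma N ↔ redN N g = 1 := Iff.rfl

theorem mul_inv_mem_Gamma_of_redN_eq {N : ℕ} {g h : SL(2, ℤ)} (e : redN N g = redN N h) :
    g * h⁻¹ ∈ Gamma N := by
  rw [mem_Gamma_iff_redN, map_mul, map_inv, e, mul_inv_cancel]

/-- A chosen lift in `J` of an element of the image of `J` modulo `N`. -/
noncomputable def liftJ (N : ℕ) (J : Subgroup SL(2, ℤ)) (x : J.map (redN N)) : SL(2, ℤ) :=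
  (Subgroup.mem_map.mp x.2).choose

theorem liftJ_mem (N : ℕ) (J : Subgroup SL(2, ℤ)) (x : J.map (redN N)) : liftJ N J x ∈ J :=
  (Subgroup.mem_map.mp x.2).choose_spec.1

theorem redN_liftJ (N : ℕ) (J : Subgroup SL(2, ℤ)) (x : J.map (redN N)) :
    redN N (liftJ N J x) = x.1 :=
  (Subgroup.mem_map.mp x.2).choose_spec.2

/-- The averaging operator over `J` modulo `Γ(N)`. -/
noncomputable def avg (k : ℤ) (N : ℕ) [NeZero N] (J : Subgroup SL(2, ℤ)) (F : ℍ → ℂ) : ℍ → ℂ :=
  letI := Fintype.ofFinite (J.map (redN N))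
  ((Nat.card (J.map (redN N)) : ℂ)⁻¹) • ∑ x : J.map (redN N), F ∣[k] liftJ N J x

theorem avg_def (N : ℕ) [NeZero N] (J : Subgroup SL(2, ℤ)) (F : ℍ → ℂ) :
    avg k N J F = ((Nat.card (J.map (redN N)) : ℂ)⁻¹) •
      @Finset.sum _ _ _ (@Finset.univ _ (Fintype.ofFinite (J.map (redN N))))
        (fun x : J.map (redN N) => F ∣[k] liftJ N J x) := rfl

theorem avg_add (N : ℕ) [NeZero N] (J : Subgroup SL(2, ℤ)) (F G : ℍ → ℂ) :
    avg k N J (F + G) = avg k N J F + avg k N J G := by
  simp only [avg_def, SlashAction.add_slash, Finset.sum_add_distrib, smul_add]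

theorem avg_smul (N : ℕ) [NeZero N] (J : Subgroup SL(2, ℤ)) (c : ℂ) (F : ℍ → ℂ) :
    avg k N J (c • F) = c • avg k N J F := by
  simp only [avg_def, ModularForm.SL_smul_slash, ← Finset.smul_sum]
  rw [smul_comm]

theorem avg_neg (N : ℕ) [NeZero N] (J : Subgroup SL(2, ℤ)) (F : ℍ → ℂ) :
    avg k N J (-F) = - avg k N J F := by
  simp only [avg_def, SlashAction.neg_slash, Finset.sum_neg_distrib, smul_neg]

theorem avg_sub (N : ℕ) [NeZero N] (J : Subgroup SL(2, ℤ)) (F G : ℍ → ℂ) :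
    avg k N J (F - G) = avg k N J F - avg k N J G := by
  rw [sub_eq_add_neg, avg_add, avg_neg, ← sub_eq_add_neg]

theorem avg_zero (N : ℕ) [NeZero N] (J : Subgroup SL(2, ℤ)) :
    avg k N J (0 : ℍ → ℂ) = 0 := by
  simp only [avg_def, SlashAction.zero_slash, Finset.sum_const_zero, smul_zero]

/-- (i) the average is `J`-invariant. -/
theorem avg_slash_of_mem {N : ℕ} [NeZero N] {J : Subgroup SL(2, ℤ)} {F : ℍ → ℂ}
    (hF : SlInv k (Gamma N) F) {γ : SL(2, ℤ)} (hγ : γ ∈ J) :
    (avg k N J F) ∣[k] γ = avg k N J F := by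
  let _ := Fintype.ofFinite (J.map (redN N))
  rw [avg_def, ModularForm.SL_smul_slash, SlashAction.sum_slash]
  congr 1
  let r : J.map (redN N) := ⟨redN N γ, Subgroup.mem_map_of_mem _ hγ⟩
  have key : ∀ x : J.map (redN N), (F ∣[k] liftJ N J x) ∣[k] γ = F ∣[k] liftJ N J (x * r) := by
    intro x
    rw [← SlashAction.slash_mul]
    apply slash_congr hF
    apply mul_inv_mem_Gamma_of_redN_eq
    rw [map_mul, redN_liftJ, redN_liftJ]
    rfl
  simp only [key]
  exact Equiv.sum_comp (Equiv.mulRight r) (fun x => F ∣[k] liftJ N J x)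

theorem avg_slInv {N : ℕ} [NeZero N] {J : Subgroup SL(2, ℤ)} {F : ℍ → ℂ}
    (hF : SlInv k (Gamma N) F) : SlInv k J (avg k N J F) :=
  fun _ hγ => avg_slash_of_mem hF hγ

/-- (ii) the average of a `J`-invariant function is the function. -/
theorem avg_of_slInv {N : ℕ} [NeZero N] {J : Subgroup SL(2, ℤ)} {F : ℍ → ℂ}
    (hF : SlInv k J F) : avg k N J F = F := by
  let _ := Fintype.ofFinite (J.map (redN N))
  rw [avg_def]
  have key : ∀ x : J.map (redN N), F ∣[k] liftJ N J x = F := fun x => hF _ (liftJ_mem N J x)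
  simp only [key, Finset.sum_const, Finset.card_univ]
  rw [← Nat.card_eq_fintype_card, ← Nat.cast_smul_eq_nsmul ℂ, smul_smul, inv_mul_cancel₀, one_smul]
  have : Nat.card (J.map (redN N)) ≠ 0 := Nat.card_pos.ne'
  exact_mod_cast this

/-- (iii) the average commutes with the slash by an element commuting with `J` mod `Γ(N)`. -/
theorem avg_slash_comm {N : ℕ} [NeZero N] {J : Subgroup SL(2, ℤ)} {F : ℍ → ℂ}
    (hF : SlInv k (Gamma N) F) {g : SL(2, ℤ)}
    (hg : ∀ γ ∈ J, (γ * g) * (g * γ)⁻¹ ∈ Gamma N) :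
    (avg k N J F) ∣[k] g = avg k N J (F ∣[k] g) := by
  let _ := Fintype.ofFinite (J.map (redN N))
  rw [avg_def, avg_def, ModularForm.SL_smul_slash, SlashAction.sum_slash]
  congr 1
  refine Finset.sum_congr rfl fun x _ => ?_
  exact slash_comm_of_mem hF (hg _ (liftJ_mem N J x))

/-- (iv) stability of slash-stable submodules. -/
theorem avg_mem {N : ℕ} [NeZero N] (J : Subgroup SL(2, ℤ)) {𝒮 : Submodule ℂ (ℍ → ℂ)}
    (h𝒮 : ∀ F ∈ 𝒮, ∀ γ : SL(2, ℤ), F ∣[k] γ ∈ 𝒮) {F : ℍ → ℂ} (hF : F ∈ 𝒮) :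
    avg k N J F ∈ 𝒮 := by
  let _ := Fintype.ofFinite (J.map (redN N))
  rw [avg_def]
  exact 𝒮.smul_mem _ (𝒮.sum_mem fun x _ => h𝒮 F hF _)

/-! ### The translation averaging operator -/

/-- `avgT k x p F = p⁻¹ ∑_{j < p} F ∣[k] T^{j x}`. -/
noncomputable def avgT (k : ℤ) (x : ℤ) (p : ℕ) (F : ℍ → ℂ) : ℍ → ℂ :=
  ((p : ℂ)⁻¹) • ∑ j ∈ Finset.range p, F ∣[k] tU (j * x)

theorem avgT_add (x : ℤ) (p : ℕ) (F G : ℍ → ℂ) :
    avgT k x p (F + G) = avgT k x p F + avgT k x p G := by
  simp only [avgT, SlashAction.add_slash, Finset.sum_add_distrib, smul_add]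

theorem avgT_neg (x : ℤ) (p : ℕ) (F : ℍ → ℂ) :
    avgT k x p (-F) = - avgT k x p F := by
  simp only [avgT, SlashAction.neg_slash, Finset.sum_neg_distrib, smul_neg]

theorem avgT_sub (x : ℤ) (p : ℕ) (F G : ℍ → ℂ) :
    avgT k x p (F - G) = avgT k x p F - avgT k x p G := by
  rw [sub_eq_add_neg, avgT_add, avgT_neg, ← sub_eq_add_neg]

theorem avgT_smul (x : ℤ) (p : ℕ) (c : ℂ) (F : ℍ → ℂ) :
    avgT k x p (c • F) = c • avgT k x p F := by
  simp only [avgT, ModularForm.SL_smul_slash, ← Finset.smul_sum]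
  rw [smul_comm]

theorem avgT_zero (x : ℤ) (p : ℕ) : avgT k x p (0 : ℍ → ℂ) = 0 := by
  simp only [avgT, SlashAction.zero_slash, Finset.sum_const_zero, smul_zero]

theorem avgT_mem (x : ℤ) (p : ℕ) {𝒮 : Submodule ℂ (ℍ → ℂ)}
    (h𝒮 : ∀ F ∈ 𝒮, ∀ γ : SL(2, ℤ), F ∣[k] γ ∈ 𝒮) {F : ℍ → ℂ} (hF : F ∈ 𝒮) :
    avgT k x p F ∈ 𝒮 :=
  𝒮.smul_mem _ (𝒮.sum_mem fun _ _ => h𝒮 F hF _)

theorem avgT_slInv_Gamma {N : ℕ} (x : ℤ) (p : ℕ) {F : ℍ → ℂ} (hF : SlInv k (Gamma N) F) :
    SlInv k (Gamma N) (avgT k x p F) :=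
  SlInv.smul _ (SlInv.sum _ fun _ _ => hF.slash _)

/-- `avgT` commutes with the slash by `g` if `g` commutes with the translations mod `Γ(N)`. -/
theorem avgT_slash_comm {N : ℕ} {x : ℤ} {p : ℕ} {F : ℍ → ℂ} (hF : SlInv k (Gamma N) F)
    {g : SL(2, ℤ)} (hg : ∀ j : ℤ, (tU (j * x) * g) * (g * tU (j * x))⁻¹ ∈ Gamma N) :
    (avgT k x p F) ∣[k] g = avgT k x p (F ∣[k] g) := by
  rw [avgT, avgT, ModularForm.SL_smul_slash, SlashAction.sum_slash]
  congr 1
  refine Finset.sum_congr rfl fun j _ => ?_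
  exact slash_comm_of_mem hF (hg j)

theorem slash_tU_mul {x : ℤ} {F : ℍ → ℂ} (h : F ∣[k] tU x = F) (j : ℤ) :
    F ∣[k] tU (j * x) = F := by
  induction j using Int.induction_on with
  | zero => rw [zero_mul, tU_zero, SlashAction.slash_one]
  | succ i ih =>
    rw [add_mul, one_mul, tU_add, SlashAction.slash_mul, ih, h]
  | pred i ih =>
    have e : tU ((-(i : ℤ)) * x) = tU ((-(i : ℤ) - 1) * x) * tU x := by
      rw [← tU_add]; congr 1; ring
    rw [e, SlashAction.slash_mul] at ih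
    have h' : F ∣[k] (tU x)⁻¹ = F := by
      conv_lhs => rw [← h]
      rw [← SlashAction.slash_mul, mul_inv_cancel, SlashAction.slash_one]
    calc F ∣[k] tU ((-(i : ℤ) - 1) * x)
        = ((F ∣[k] tU ((-(i : ℤ) - 1) * x)) ∣[k] tU x) ∣[k] (tU x)⁻¹ := by
          rw [← SlashAction.slash_mul, mul_inv_cancel, SlashAction.slash_one]
      _ = F := by rw [ih, h']

/-- (d) `avgT` fixes functions invariant under the translation. -/
theorem avgT_of_slash_eq {x : ℤ} {p : ℕ} (hp : p ≠ 0) {F : ℍ → ℂ} (h : F ∣[k] tU x = F) :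
    avgT k x p F = F := by
  rw [avgT]
  have key : ∀ j ∈ Finset.range p, F ∣[k] tU ((j : ℤ) * x) = F := fun j _ => slash_tU_mul h j
  rw [Finset.sum_congr rfl key, Finset.sum_const, Finset.card_range,
    ← Nat.cast_smul_eq_nsmul ℂ, smul_smul, inv_mul_cancel₀ (by exact_mod_cast hp), one_smul]

/-- (c) `avgT F` is invariant under the translation, if `F` is invariant under its `p`-th power. -/
theorem avgT_slash_tU {x : ℤ} {p : ℕ} {F : ℍ → ℂ} (h : F ∣[k] tU (p * x) = F) :
    (avgT k x p F) ∣[k] tU x = avgT k x p F := by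
  rw [avgT, ModularForm.SL_smul_slash, SlashAction.sum_slash]
  congr 1
  have key : ∀ j : ℕ, (F ∣[k] tU ((j : ℤ) * x)) ∣[k] tU x = F ∣[k] tU (((j + 1 : ℕ) : ℤ) * x) := by
    intro j
    rw [← SlashAction.slash_mul, ← tU_add]
    congr 2
    push_cast; ring
  simp only [key]
  have h1 := Finset.sum_range_succ' (fun j : ℕ => F ∣[k] tU ((j : ℤ) * x)) p
  have h2 := Finset.sum_range_succ (fun j : ℕ => F ∣[k] tU ((j : ℤ) * x)) p
  simp only [Nat.cast_zero, zero_mul, tU_zero, SlashAction.slash_one] at h1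
  rw [h] at h2
  rw [h2] at h1
  exact (add_right_cancel h1).symm

end Fermat.Agent.Lib.Newform.H803

end
-- ===== PACK-END Lib/Newform/H803/Ops.lean

-- ===== PACK-BEGIN S35/G/Spec.lean
section




/-!
# S35, piece (G') — frozen TOP interfaces (architect helper450)

`(G')` of `origin/helper991:coord/S35-helper991.md`: at a prime `q ‖ N = M * q` the square `s²` of
every Frobenius lift `s` at `q` satisfies a fixed polynomial relation on the `q`-NEW part of the
`m`-torsion of `J₀(N)`, `q ∤ m`.  Form proved here (constant `c = 1`, no hypothesis of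
inertia-invariance, at the price of one more factor `s² - 1`):

  `a x = 0`, `b x = 0`, `m x = 0`  ⟹  `(s² - 1)² (s² - q²) x = 0`,

`a = α_*`, `b = β_* : J₀(M q) → J₀(M)` the two degeneracy push-forwards (`degA`, `degB`).
(The extra factor is harmless for S35: on the rank-2 eigenmodule ANY eigenvector of `s²` with
eigenvalue `1` or `q²` gives `a_q = ± (q + 1)`; see `coord/S35-G-helper450.md`.)

This file: definitions and the statements of the top layer (Prelude language, over `ℚ̄`).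
Definitions only (no `sorry`).  Board: `coord/S35-G-helper450.md` on `origin/helper450`.
-/

set_option autoImplicit false
set_option linter.style.haveILetI false

noncomputable section

namespace Fermat.Agent.S35.G

open ModularCurve AlgebraicCurve

/-- The field `ℚ̄`. -/
abbrev Qb : Type := AlgebraicClosure ℚ

/-! ## The polynomial `(T - 1)² (T - Q)`, multiplicatively and additively -/

/-- `(φ - Q) f`, multiplicatively: `φ f / f ^ Q`. -/
def frobSub {F : Type*} [Field F] (φ : F ≃+* F) (Q : ℕ) (f : F) : F := φ f * (f ^ Q)⁻¹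

/-- `(φ - 1)² (φ - Q) f`, multiplicatively. -/
def frobPoly {F : Type*} [Field F] (φ : F ≃+* F) (Q : ℕ) (f : F) : F :=
  frobSub φ Q (frobSub φ 1 (frobSub φ 1 f))

/-- `(t - 1)² (t - Q) x`, additively. -/
def frobPolyAdd {G X : Type*} [Group G] [AddCommGroup X] [DistribMulAction G X]
    (t : G) (Q : ℕ) (x : X) : X :=
  t • (t • (t • x - x) - (t • x - x)) - Q • (t • (t • x - x) - (t • x - x))

/-! ## Push-forward on `Pic⁰` and the degeneracy maps -/

section Push

variable {K F F' : Type*} [Field K] [Field F] [Field F'] [Algebra K F] [Algebra K F']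

/-- Push-forward of degree-zero divisors along `φ : F → F'`. -/
def degZeroPush (φ : F →ₐ[K] F') (hφ : φ.toRingHom.IsIntegral) :
    Divisor.degZero (K := K) (F := F') →+ Divisor.degZero (K := K) (F := F) :=
  ((Divisor.pushforwardAlong φ hφ).domRestrict (Divisor.degZero (K := K) (F := F'))).codRestrict _
    (fun D => Divisor.pushforwardAlong_mem_degZero φ hφ D.2)

/-- Push-forward `Pic⁰(F') → Pic⁰(F)` along `φ : F → F'` (finite, with the norm formula). -/
def pic0Push (φ : F →ₐ[K] F') (hφ : φ.toRingHom.IsIntegral) (hfin : FiniteAlong K φ)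
    (hN : NormFormulaAlong K φ hfin) : Pic0 K F' →+ Pic0 K F :=
  QuotientAddGroup.map _ _ (degZeroPush φ hφ) (by
    rintro ⟨D, hD0⟩ hD
    simp only [AddSubgroup.mem_addSubgroupOf] at hD ⊢
    exact Divisor.isPrincipal_pushforwardAlong φ hφ hfin hN hD)

theorem pic0Push_mk (φ : F →ₐ[K] F') (hφ : φ.toRingHom.IsIntegral) (hfin : FiniteAlong K φ)
    (hN : NormFormulaAlong K φ hfin) (D : Divisor.degZero (K := K) (F := F')) :
    pic0Push φ hφ hfin hN (Pic0.mk D) = Pic0.mk (degZeroPush φ hφ D) :=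
  rfl

/-- The three inputs of `pic0Push`. -/
def PushInputs (φ : F →ₐ[K] F') : Prop :=
  ∃ (_ : φ.toRingHom.IsIntegral) (hfin : FiniteAlong K φ), NormFormulaAlong K φ hfin

open Classical in
/-- Total form of `pic0Push` (junk value `0` if the inputs fail; they never do for the modular
degeneracy maps: leaf `DEG`). -/
def pic0PushTotal (φ : F →ₐ[K] F') : Pic0 K F' →+ Pic0 K F :=
  if h : PushInputs φ then pic0Push φ h.1 h.2.1 h.2.2 else 0

theorem pic0PushTotal_eq (φ : F →ₐ[K] F') (hφ : φ.toRingHom.IsIntegral) (hfin : FiniteAlong K φ)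
    (hN : NormFormulaAlong K φ hfin) : pic0PushTotal φ = pic0Push φ hφ hfin hN := by
  have h : PushInputs φ := ⟨hφ, hfin, hN⟩
  rw [pic0PushTotal, dif_pos h]

end Push

section Deg

variable (M q : ℕ) [NeZero M] [NeZero q]

/-- `a = α_* : J₀(M q) → J₀(M)`, `α : ℚ̄(X₀(M)) ⊆ ℚ̄(X₀(M q))` the inclusion. -/
def degA : JZero (M * q) →+ JZero M := pic0PushTotal (heckeAlphaBar Qb M q)

/-- `b = β_* : J₀(M q) → J₀(M)`, `β : ℚ̄(X₀(M)) → ℚ̄(X₀(M q))`, `f(t) ↦ f(t^q)`. -/
def degB : JZero (M * q) →+ JZero M := pic0PushTotal (heckeBetaBar Qb M q)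

end Deg

/-! ## The statement (G') -/

/-- **(G') at `(M, q, m)`**: `(s² - 1)² (s² - q²)` kills the `q`-new `m`-torsion of `J₀(M q)`. -/
def NewPartFrobAt (M q m : ℕ) [NeZero M] [NeZero q] : Prop :=
  ∀ A : ValuationSubring Qb, A.LiesOverPrime q →
    ∀ s : Qb ≃ₐ[ℚ] Qb, A.IsFrobeniusAt s q →
      ∀ x : JZero (M * q), m • x = 0 → degA M q x = 0 → degB M q x = 0 →
        frobPolyAdd (s * s) (q ^ 2) x = 0

/-- **(G'), explicit form.** -/
def NewPartFrobExplicit : Prop :=
  ∀ (M q m : ℕ) [NeZero M] [NeZero q], q.Prime → ¬ q ∣ M → 0 < m → ¬ q ∣ m →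
    NewPartFrobAt M q m

/-- **(G'), bundled form** (shape asked for by helper991: the degeneracy maps are existentially
quantified, with the only property the consumer needs, Hecke-equivariance away from `M q p`). -/
def NewPartFrobStatement : Prop :=
  ∀ (M q p : ℕ) [NeZero M] [NeZero q], q.Prime → ¬ q ∣ M → p.Prime → p ≠ q →
    ∃ a b : JZero (M * q) →+ JZero M,
      (∀ ℓ : Nat.Primes, ¬ (ℓ : ℕ) ∣ M * q * p → ∀ x : JZero (M * q),
        a (heckeOperatorBar (M * q) ℓ x) = heckeOperatorBar M ℓ (a x)) ∧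
      (∀ ℓ : Nat.Primes, ¬ (ℓ : ℕ) ∣ M * q * p → ∀ x : JZero (M * q),
        b (heckeOperatorBar (M * q) ℓ x) = heckeOperatorBar M ℓ (b x)) ∧
      ∀ A : ValuationSubring Qb, A.LiesOverPrime q →
        ∀ s : Qb ≃ₐ[ℚ] Qb, A.IsFrobeniusAt s q →
          ∀ x : JZero (M * q), (∃ n : ℕ, p ^ n • x = 0) → a x = 0 → b x = 0 →
            frobPolyAdd (s * s) (q ^ 2) x = 0

/-! ## Leaf DEG: the degeneracy maps -/

/-- **DEG.**  The inputs of `pic0Push` hold for `α`, `β`, and `degA`, `degB` commute with the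
Hecke operators `T_ℓ`, `ℓ ∤ M q`.  (Inputs: `S29/H812`, `Lib/HI/H864`, `Lib/FF398`;
commutation: common cover `F_{M q ℓ}`, as `S29/H801 pic0_correspondence_comm`.) -/
def DegStatement : Prop :=
  ∀ (M q : ℕ) [NeZero M] [NeZero q], q.Prime → ¬ q ∣ M →
    PushInputs (heckeAlphaBar Qb M q) ∧ PushInputs (heckeBetaBar Qb M q) ∧
    (∀ ℓ : Nat.Primes, ¬ (ℓ : ℕ) ∣ M * q → ∀ x : JZero (M * q),
      degA M q (heckeOperatorBar (M * q) ℓ x) = heckeOperatorBar M ℓ (degA M q x)) ∧
    (∀ ℓ : Nat.Primes, ¬ (ℓ : ℕ) ∣ M * q → ∀ x : JZero (M * q),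
      degB M q (heckeOperatorBar (M * q) ℓ x) = heckeOperatorBar M ℓ (degB M q x))

/-! ## Kummer form over `ℚ̄` and leaf T0F (Kummer dictionary) -/

/-- `σ_N(t)`: the automorphism of `F̄_N = ℚ̄(X₀(N))` induced by `t ∈ G_ℚ`. -/
abbrev actBar (N : ℕ) (t : Qb ≃ₐ[ℚ] Qb) :
    modularFunctionFieldBar N ≃+* modularFunctionFieldBar N :=
  arithmeticRingAut (modularFunctionFieldFull N) t

/-- `f` has norm a constant times an `m`-th power along `φ`. -/
def NormPow {K F F' : Type*} [Field K] [Field F] [Field F'] [Algebra K F] [Algebra K F']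
    (φ : F →ₐ[K] F') (m : ℕ) (f : F') : Prop :=
  ∃ (c : K) (g : F), S29.H395.normAlong φ f = algebraMap K F c * g ^ m

/-- **Kummer form of (G') at `(M, q, m)`**: for `f ∈ F̄_{Mq}ˣ` with `m ∣ div f` whose norms along
`α` and `β` are constants times `m`-th powers, `(σ² - 1)² (σ² - q²) f` is a constant times an
`m`-th power. -/
def KummerFrobAt (M q m : ℕ) [NeZero M] [NeZero q] : Prop :=
  ∀ A : ValuationSubring Qb, A.LiesOverPrime q →
    ∀ s : Qb ≃ₐ[ℚ] Qb, A.IsFrobeniusAt s q →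
      ∀ f : modularFunctionFieldBar (M * q), f ≠ 0 →
        (∀ v : Place Qb (modularFunctionFieldBar (M * q)), (m : ℤ) ∣ v.ord f) →
        NormPow (heckeAlphaBar Qb M q) m f → NormPow (heckeBetaBar Qb M q) m f →
        ∃ (c : Qb) (y : modularFunctionFieldBar (M * q)), c ≠ 0 ∧
          frobPoly (actBar (M * q) (s * s)) (q ^ 2) f =
            algebraMap Qb (modularFunctionFieldBar (M * q)) c * y ^ m

/-- **T0F (Kummer dictionary).**  `x = [D]`, `m D = div f`; `a x = 0` gives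
`div (N_α f) = m α_* D = m div g`, i.e. `N_α f = c g ^ m` (`S29.H395.pushforwardAlong_apply_eq_ord`,
constants: `S18.H504.const_of_ord_zero`); conclusion as `A2.H129.unipotent_of_kummerTwice`. -/
def T0FStatement : Prop :=
  ∀ (M q m : ℕ) [NeZero M] [NeZero q], q.Prime → ¬ q ∣ M → 0 < m → ¬ q ∣ m →
    PushInputs (heckeAlphaBar Qb M q) → PushInputs (heckeBetaBar Qb M q) →
    KummerFrobAt M q m → NewPartFrobAt M q m

/-! ## Leaf D2F: auxiliary level (only for `q ∈ {2, 3}`) -/

/-- The level-`M` part of the auxiliary level of `A2.Top.H994.auxLevel`: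
`lcm M 2` for `q = 3`, `lcm M 3` for `q = 2`, `M` otherwise. -/
def auxM (M q : ℕ) : ℕ :=
  if q = 3 then Nat.lcm M 2 else if q = 2 then Nat.lcm M 3 else M

/-- The levels at which the semistable model is available (good reduction at level `M` from
S18 needs the auxiliary prime). -/
def HasAux (M q : ℕ) : Prop := (q = 3 → 2 ∣ M) ∧ (q = 2 → 3 ∣ M)

/-- **D2F (auxiliary-level descent).**  `π : X₀(M' q) → X₀(M q)`, `M' = auxM M q`, has degree a
power of `q`, prime to `m`; `π^*` commutes with the Galois action and intertwines the degeneracy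
push-forwards (base change `S37.H818.pullback_pushforward_eq`), `π_* π^* = deg π`. -/
def D2FStatement : Prop :=
  ∀ (M q m : ℕ) [NeZero M] [NeZero q] [NeZero (auxM M q)], q.Prime → ¬ q ∣ M → 0 < m →
    ¬ q ∣ m → NewPartFrobAt (auxM M q) q m → NewPartFrobAt M q m

end Fermat.Agent.S35.G

end

end
-- ===== PACK-END S35/G/Spec.lean

-- ===== PACK-BEGIN A2/H708/GaussInf.lean
section




/-!
# A2 (helper708): the Gauss valuation at `∞`, generic construction

`L ⊇ ℚ` a field, `A` a valuation subring of `L`, `F₀ ⊆ ℚ((t))` a field,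
`F = laurentBaseChange L F₀ = L·F₀ ⊆ L((t))`.  Hypotheses:

* `IntGen F₀` : every element of `F₀` is a fraction of series with INTEGER coefficients lying in
  `F₀` (true for `modularFunctionFieldFull N`, all `N`: see `GaussInfModular.lean`);
* `AttainsMax A F₀` : a nonzero element of `F` with bounded denominators has a coefficient of
  maximal valuation (true if `A` is noetherian, e.g. a DVR: `attainsMax_of_isNoetherianRing`;
  true for every valuation subring of `ℚ̄` over a prime: `GaussInfQbar.lean`).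

Results:

* `exists_normal_form` : every `f ∈ Fˣ` satisfies `f · U₂ = c · U₁` with `c ∈ Lˣ` and `U₁, U₂`
  PRIMITIVE `A`-integral series in `F` (nonzero reduction).
* `gaussInf A F₀ hgen hmax : ValuationSubring F` : the Gauss valuation ring
  `{U₁ / U₂ : U₂ primitive}`; `mem_gaussInf_iff`, `algebraMap_mem_gaussInf_iff`
  (`V ∩ L = A`), `exists_const_mul_unit` (value group of `V` = value group of `A`),
  `valuation_lt_one_iff'` (description of the maximal ideal).
* `redInf : gaussInf →+* k((t))`, `redInf_eq_zero_iff` (kernel = maximal ideal),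
  `redInf_of_incl` (on integral series it is the coefficientwise reduction).
-/

set_option autoImplicit false

noncomputable section

namespace Fermat.Agent.A2.H708

open ModularCurve HahnSeries IntermediateField Fermat.Agent.S18.H602

variable {L : Type*} [Field L] (A : ValuationSubring L)

/-- inclusion of `A`-integral series. -/
abbrev incl : LaurentSeries A →+* LaurentSeries L := coeffMap A.subtype

/-- reduction of `A`-integral series. -/
abbrev red : LaurentSeries A →+* LaurentSeries (IsLocalRing.ResidueField A) :=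
  coeffMap (IsLocalRing.residue A)

/-- constants. -/
abbrev cst (c : L) : LaurentSeries L := algebraMap L (LaurentSeries L) c

theorem incl_injective : Function.Injective (incl A) :=
  coeffMap_injective A.subtype Subtype.val_injective

theorem coeff_cst_mul (c : L) (x : LaurentSeries L) (n : ℤ) :
    (cst c * x).coeff n = c * x.coeff n := by
  rw [cst, algebraMap_laurentSeries_eq_single, HahnSeries.coeff_single_zero_mul]

theorem cst_mul (c d : L) : cst (c * d) = cst c * cst d := map_mul _ _ _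

theorem cst_one : cst (1 : L) = 1 := map_one _

theorem cst_ne_zero {c : L} (hc : c ≠ 0) : cst c ≠ 0 := by
  intro h
  have := congrArg (fun z => z.coeff 0) h
  simp [cst, algebraMap_laurentSeries_eq_single] at this
  exact hc this

theorem cst_inv_mul_cst {c : L} (hc : c ≠ 0) : cst c⁻¹ * cst c = 1 := by
  rw [← cst_mul, inv_mul_cancel₀ hc, cst_one]

theorem cst_mul_cst_inv {c : L} (hc : c ≠ 0) : cst c * cst c⁻¹ = 1 := by
  rw [← cst_mul, mul_inv_cancel₀ hc, cst_one]

/-- constants of `A` as integral series. -/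
def cstA (a : A) : LaurentSeries A := HahnSeries.single 0 a

theorem incl_cstA (a : A) : incl A (cstA A a) = cst (a : L) := by
  rw [cstA, cst, algebraMap_laurentSeries_eq_single, coeffMap_single]
  rfl

theorem red_cstA (a : A) :
    red A (cstA A a) = HahnSeries.single 0 (IsLocalRing.residue A a) := by
  rw [cstA, coeffMap_single]

theorem coeff_incl (U : LaurentSeries A) (n : ℤ) : (incl A U).coeff n = ((U.coeff n : A) : L) :=
  rfl

theorem red_eq_zero_iff (U : LaurentSeries A) :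
    red A U = 0 ↔ ∀ n, A.valuation ((U.coeff n : A) : L) < 1 := by
  constructor
  · intro h n
    have := congrArg (fun z => z.coeff n) h
    simp only [coeffMap_coeff, HahnSeries.coeff_zero, IsLocalRing.residue_eq_zero_iff] at this
    exact (A.valuation_lt_one_iff _).mp this
  · intro h
    ext n
    simp only [coeffMap_coeff, HahnSeries.coeff_zero, IsLocalRing.residue_eq_zero_iff]
    exact (A.valuation_lt_one_iff _).mpr (h n)

theorem red_ne_zero_iff (U : LaurentSeries A) :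
    red A U ≠ 0 ↔ ∃ n, A.valuation ((U.coeff n : A) : L) = 1 := by
  rw [Ne, red_eq_zero_iff]
  constructor
  · intro h
    by_contra hcon
    apply h
    intro n
    have h1 : A.valuation ((U.coeff n : A) : L) ≤ 1 := (A.valuation_le_one_iff _).mpr (U.coeff n).2
    exact lt_of_le_of_ne h1 (fun h2 => hcon ⟨n, h2⟩)
  · rintro ⟨n, hn⟩ h
    exact (h n).ne hn

theorem ne_zero_of_red_ne_zero {U : LaurentSeries A} (h : red A U ≠ 0) : U ≠ 0 := by
  rintro rfl
  exact h (map_zero _)

theorem incl_ne_zero {U : LaurentSeries A} (h : U ≠ 0) : incl A U ≠ 0 :=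
  fun h0 => h (incl_injective A (h0.trans (map_zero _).symm))

/-- Lifting a series with coefficients in `A`. -/
theorem exists_incl_eq {x : LaurentSeries L} (h : ∀ n, x.coeff n ∈ A) :
    ∃ U : LaurentSeries A, incl A U = x :=
  exists_coeffMap_eq A.subtype Subtype.val_injective x (fun n => ⟨⟨x.coeff n, h n⟩, rfl⟩)

/-- If `c · (primitive) = integral` then `c ∈ A`. -/
theorem mem_of_cst_mul_prim {c : L} {U U' : LaurentSeries A} (hU : red A U ≠ 0)
    (h : cst c * incl A U = incl A U') : c ∈ A := by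
  obtain ⟨n, hn⟩ := (red_ne_zero_iff A U).mp hU
  have h1 := congrArg (fun z => z.coeff n) h
  simp only [coeff_cst_mul, coeff_incl] at h1
  rw [← A.valuation_le_one_iff]
  have h2 : A.valuation (c * ((U.coeff n : A) : L)) ≤ 1 := by
    rw [h1]; exact (A.valuation_le_one_iff _).mpr (U'.coeff n).2
  rwa [map_mul, hn, mul_one] at h2

/-- If `c · (primitive) = integral with zero reduction` then `v(c) < 1`. -/
theorem valuation_lt_one_of_cst_mul_prim {c : L} {U U' : LaurentSeries A} (hU : red A U ≠ 0)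
    (hU' : red A U' = 0) (h : cst c * incl A U = incl A U') : A.valuation c < 1 := by
  obtain ⟨n, hn⟩ := (red_ne_zero_iff A U).mp hU
  have h1 := congrArg (fun z => z.coeff n) h
  simp only [coeff_cst_mul, coeff_incl] at h1
  have h2 : A.valuation (c * ((U.coeff n : A) : L)) < 1 := by
    rw [h1]; exact (red_eq_zero_iff A U').mp hU' n
  rwa [map_mul, hn, mul_one] at h2

/-- `c · integral` with `v(c) < 1` has zero reduction. -/
theorem red_eq_zero_of_cst_mul {c : L} (hc : A.valuation c < 1) {U U' : LaurentSeries A}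
    (h : cst c * incl A U = incl A U') : red A U' = 0 := by
  rw [red_eq_zero_iff]
  intro n
  have h1 := congrArg (fun z => z.coeff n) h
  simp only [coeff_cst_mul, coeff_incl] at h1
  rw [← h1, map_mul]
  calc A.valuation c * A.valuation ((U.coeff n : A) : L) ≤ A.valuation c * 1 := by
        exact mul_le_mul_right ((A.valuation_le_one_iff _).mpr (U.coeff n).2) _
    _ = A.valuation c := mul_one _
    _ < 1 := hc


/-! ## Attained maximum and normalisation -/

section attained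

variable [Algebra ℚ L] (F₀ : IntermediateField ℚ (LaurentSeries ℚ))

/-- A nonzero element of `F = L·F₀` with bounded denominators has a coefficient of maximal
valuation. -/
def AttainsMax : Prop :=
  ∀ x : LaurentSeries L, x ∈ laurentBaseChange L F₀ → x ≠ 0 →
    (∃ d : L, d ≠ 0 ∧ ∀ n, d * x.coeff n ∈ A) →
    ∃ n₀, x.coeff n₀ ≠ 0 ∧ ∀ n, A.valuation (x.coeff n) ≤ A.valuation (x.coeff n₀)

omit [Algebra ℚ L] in
/-- The maximum is attained for every bounded series when `A` is noetherian (e.g. a DVR). -/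
theorem exists_max_coeff_of_isNoetherianRing [IsNoetherianRing A] {x : LaurentSeries L}
    (hx0 : x ≠ 0) (hb : ∃ d : L, d ≠ 0 ∧ ∀ n, d * x.coeff n ∈ A) :
    ∃ n₀, x.coeff n₀ ≠ 0 ∧ ∀ n, A.valuation (x.coeff n) ≤ A.valuation (x.coeff n₀) := by
  classical
  obtain ⟨d, hd0, hd⟩ := hb
  have hM : Submodule.span A (Set.range x.coeff) ≤ Submodule.span A {d⁻¹} := by
    rw [Submodule.span_le]
    rintro _ ⟨n, rfl⟩
    rw [SetLike.mem_coe, Submodule.mem_span_singleton]
    refine ⟨⟨d * x.coeff n, hd n⟩, ?_⟩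
    show (d * x.coeff n) * d⁻¹ = x.coeff n
    field_simp
  have hfg : (Submodule.span A (Set.range x.coeff)).FG :=
    Submodule.FG.of_le (Submodule.fg_span_singleton _) hM
  obtain ⟨s, hs, hspan⟩ := (Submodule.fg_span_iff_fg_span_finset_subset _).mp hfg
  obtain ⟨n₁, hn₁⟩ : ∃ n, x.coeff n ≠ 0 := by
    by_contra h
    push Not at h
    exact hx0 (HahnSeries.ext (funext h))
  have hsne : s.Nonempty := by
    by_contra h
    rw [Finset.not_nonempty_iff_eq_empty] at h
    rw [h, Finset.coe_empty, Submodule.span_empty] at hspan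
    have : x.coeff n₁ ∈ Submodule.span A (Set.range x.coeff) :=
      Submodule.subset_span ⟨n₁, rfl⟩
    rw [hspan, Submodule.mem_bot] at this
    exact hn₁ this
  obtain ⟨e₀, he₀, hmax⟩ := Finset.exists_max_image s (fun e => A.valuation e) hsne
  obtain ⟨n₀, rfl⟩ := hs he₀
  have key : ∀ z ∈ Submodule.span A (s : Set L), A.valuation z ≤ A.valuation (x.coeff n₀) := by
    intro z hz
    induction hz using Submodule.span_induction with
    | mem z hz => exact hmax z hz
    | zero => simp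
    | add a b _ _ ha hb => exact (A.valuation.map_add a b).trans (max_le ha hb)
    | smul r z _ hz =>
      have : r • z = (r : L) * z := rfl
      rw [this, map_mul]
      calc A.valuation (r : L) * A.valuation z ≤ 1 * A.valuation z := by
            exact mul_le_mul_left ((A.valuation_le_one_iff _).mpr r.2) _
        _ = A.valuation z := one_mul _
        _ ≤ _ := hz
  have hall : ∀ n, A.valuation (x.coeff n) ≤ A.valuation (x.coeff n₀) := fun n =>
    key _ (hspan ▸ Submodule.subset_span ⟨n, rfl⟩)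
  refine ⟨n₀, ?_, hall⟩
  intro h0
  have h1 := hall n₁
  rw [h0, map_zero] at h1
  have h2 : A.valuation (x.coeff n₁) = 0 := le_antisymm h1 zero_le
  rw [map_eq_zero] at h2
  exact hn₁ h2

theorem attainsMax_of_isNoetherianRing [IsNoetherianRing A] : AttainsMax A F₀ :=
  fun _ _ hx0 hb => exists_max_coeff_of_isNoetherianRing A hx0 hb

variable {A F₀}

/-- **Normalisation.** A nonzero `A`-integral element of `F` is a constant times a primitive
`A`-integral series. -/
theorem exists_prim_scale (hmax : AttainsMax A F₀) {U : LaurentSeries A}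
    (hU : incl A U ∈ laurentBaseChange L F₀) (hU0 : U ≠ 0) :
    ∃ (c : A) (U' : LaurentSeries A), c ≠ 0 ∧ red A U' ≠ 0 ∧ U = cstA A c * U' ∧
      incl A U' ∈ laurentBaseChange L F₀ := by
  have hx0 : incl A U ≠ 0 := incl_ne_zero A hU0
  obtain ⟨n₀, hn₀, hmax'⟩ := hmax _ hU hx0
    ⟨1, one_ne_zero, fun n => by rw [one_mul]; exact (U.coeff n).2⟩
  set c : A := U.coeff n₀ with hc
  have hcQ : (c : L) ≠ 0 := hn₀
  have hc0 : c ≠ 0 := fun h => hcQ (by rw [h]; rfl)
  have hint : ∀ n, (cst (c : L)⁻¹ * incl A U).coeff n ∈ A := by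
    intro n
    rw [coeff_cst_mul, ← A.valuation_le_one_iff, map_mul, map_inv₀]
    have hv0 : A.valuation (c : L) ≠ 0 := (Valuation.ne_zero_iff _).mpr hcQ
    rw [inv_mul_le_iff₀ (zero_lt_iff.mpr hv0), mul_one]
    exact hmax' n
  obtain ⟨U', hU'⟩ := exists_incl_eq A hint
  have hmul : U = cstA A c * U' := by
    apply incl_injective A
    rw [map_mul, incl_cstA, hU', ← mul_assoc, ← cst_mul, mul_inv_cancel₀ hcQ, cst_one, one_mul]
  refine ⟨c, U', hc0, ?_, hmul, ?_⟩
  · rw [red_ne_zero_iff]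
    refine ⟨n₀, ?_⟩
    have h1 : ((U'.coeff n₀ : A) : L) = (c : L)⁻¹ * (incl A U).coeff n₀ := by
      rw [← coeff_cst_mul, ← hU']
      rfl
    rw [h1]
    have h2 : (incl A U).coeff n₀ = (c : L) := rfl
    rw [h2, inv_mul_cancel₀ hcQ, map_one]
  · rw [hU']
    exact mul_mem ((laurentBaseChange L F₀).algebraMap_mem _) hU

end attained


/-! ## Every element of `F` is a fraction of integral series -/

section frac

variable [Algebra ℚ L] (F₀ : IntermediateField ℚ (LaurentSeries ℚ))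

/-- integer series as `A`-integral series. -/
abbrev castA : LaurentSeries ℤ →+* LaurentSeries A := coeffMap (Int.castRingHom A)

/-- integer series as rational series. -/
abbrev castQ : LaurentSeries ℤ →+* LaurentSeries ℚ := coeffMap (Int.castRingHom ℚ)

theorem incl_castA (P : LaurentSeries ℤ) : incl A (castA A P) = coeffEmb L (castQ P) := by
  rw [incl, castA, coeffMap_coeffMap, coeffEmb, castQ, coeffMap_coeffMap]
  exact coeffMap_congr (RingHom.ext_int _ _) P

theorem castA_injective : Function.Injective (castA A) := by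
  have : CharZero L := algebraRat.charZero L
  have hA : Function.Injective (Int.castRingHom A) := by
    intro a b h
    have h1 : ((a : A) : L) = ((b : A) : L) := congrArg Subtype.val h
    have h2 : ((a : ℤ) : L) = ((b : ℤ) : L) := by simpa using h1
    exact_mod_cast h2
  exact coeffMap_injective _ hA

/-- Every element of `F₀` is a fraction of series with integer coefficients lying in `F₀`. -/
def IntGen : Prop :=
  ∀ z ∈ F₀, ∃ P Q : LaurentSeries ℤ, Q ≠ 0 ∧ castQ Q ∈ F₀ ∧ z * castQ Q = castQ P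

/-- `x` is a fraction of `A`-integral series of `F`. -/
def IsFrac (x : LaurentSeries L) : Prop :=
  ∃ U₁ U₂ : LaurentSeries A, U₂ ≠ 0 ∧ incl A U₂ ∈ laurentBaseChange L F₀ ∧
    x * incl A U₂ = incl A U₁

variable {A F₀}

theorem isFrac_of_mem (hgen : IntGen F₀) {x : LaurentSeries L}
    (hx : x ∈ laurentBaseChange L F₀) : IsFrac A F₀ x := by
  have hF : ∀ y, y ∈ Subfield.closure (Set.range (algebraMap L (LaurentSeries L)) ∪
      ⇑(coeffEmb L) '' (F₀ : Set (LaurentSeries ℚ))) → y ∈ laurentBaseChange L F₀ :=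
    fun y hy => mem_laurentBaseChange_iff.mpr hy
  rw [mem_laurentBaseChange_iff] at hx
  induction hx using Subfield.closure_induction with
  | mem y hy =>
    rcases hy with ⟨a, rfl⟩ | ⟨z, hz, rfl⟩
    · rcases A.mem_or_inv_mem a with ha | ha
      · refine ⟨cstA A ⟨a, ha⟩, 1, one_ne_zero, ?_, ?_⟩
        · rw [map_one]; exact one_mem _
        · rw [map_one, mul_one, incl_cstA]
      · by_cases ha0 : a = 0
        · refine ⟨0, 1, one_ne_zero, ?_, ?_⟩
          · rw [map_one]; exact one_mem _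
          · rw [ha0, map_zero, map_zero, zero_mul]
        · refine ⟨1, cstA A ⟨a⁻¹, ha⟩, ?_, ?_, ?_⟩
          · intro h
            have := congrArg (incl A) h
            rw [incl_cstA, map_zero] at this
            exact cst_ne_zero (inv_ne_zero ha0) this
          · rw [incl_cstA]
            exact (laurentBaseChange L F₀).algebraMap_mem _
          · rw [incl_cstA, map_one]
            exact cst_mul_cst_inv ha0
    · obtain ⟨P, Q, hQ0, hQ, hPQ⟩ := hgen z hz
      refine ⟨castA A P, castA A Q, ?_, ?_, ?_⟩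
      · intro h
        exact hQ0 (castA_injective A (h.trans (map_zero _).symm))
      · rw [incl_castA]
        exact coeffEmb_mem_laurentBaseChange L hQ
      · rw [incl_castA, incl_castA, ← map_mul, hPQ]
  | one =>
    refine ⟨1, 1, one_ne_zero, ?_, ?_⟩
    · rw [map_one]; exact one_mem _
    · rw [map_one, mul_one]
  | add x y hx hy ihx ihy =>
    obtain ⟨U₁, U₂, h0, hm, he⟩ := ihx
    obtain ⟨U₁', U₂', h0', hm', he'⟩ := ihy
    refine ⟨U₁ * U₂' + U₁' * U₂, U₂ * U₂', mul_ne_zero h0 h0', ?_, ?_⟩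
    · rw [map_mul]; exact mul_mem hm hm'
    · rw [map_add, map_mul, map_mul, map_mul, ← he, ← he']
      ring
  | neg x hx ihx =>
    obtain ⟨U₁, U₂, h0, hm, he⟩ := ihx
    exact ⟨-U₁, U₂, h0, hm, by rw [map_neg, ← he, neg_mul]⟩
  | inv x hx ihx =>
    obtain ⟨U₁, U₂, h0, hm, he⟩ := ihx
    by_cases hx0 : x = 0
    · refine ⟨0, 1, one_ne_zero, ?_, ?_⟩
      · rw [map_one]; exact one_mem _
      · rw [hx0, inv_zero, zero_mul, map_zero]
    · have hU₁ : U₁ ≠ 0 := by
        rintro rfl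
        rw [map_zero] at he
        rcases mul_eq_zero.mp he with h | h
        · exact hx0 h
        · exact incl_ne_zero A h0 h
      refine ⟨U₂, U₁, hU₁, ?_, ?_⟩
      · rw [← he]
        exact mul_mem (hF x hx) hm
      · rw [← he, ← mul_assoc, inv_mul_cancel₀ hx0, one_mul]
  | mul x y hx hy ihx ihy =>
    obtain ⟨U₁, U₂, h0, hm, he⟩ := ihx
    obtain ⟨U₁', U₂', h0', hm', he'⟩ := ihy
    refine ⟨U₁ * U₁', U₂ * U₂', mul_ne_zero h0 h0', ?_, ?_⟩
    · rw [map_mul]; exact mul_mem hm hm'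
    · rw [map_mul, map_mul, ← he, ← he']
      ring

/-- **Normal form.** Every nonzero `f ∈ F` satisfies `f · U₂ = c · U₁` with `c ∈ Lˣ` and
`U₁`, `U₂` primitive integral series of `F`. -/
theorem exists_normal_form (hgen : IntGen F₀) (hmax : AttainsMax A F₀) {x : LaurentSeries L}
    (hx : x ∈ laurentBaseChange L F₀) (hx0 : x ≠ 0) :
    ∃ (c : L) (U₁ U₂ : LaurentSeries A), c ≠ 0 ∧ red A U₁ ≠ 0 ∧ red A U₂ ≠ 0 ∧
      incl A U₁ ∈ laurentBaseChange L F₀ ∧ incl A U₂ ∈ laurentBaseChange L F₀ ∧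
      x * incl A U₂ = cst c * incl A U₁ := by
  obtain ⟨W₁, W₂, h0, hm, he⟩ := isFrac_of_mem (A := A) hgen hx
  have hW₁0 : W₁ ≠ 0 := by
    rintro rfl
    rw [map_zero] at he
    rcases mul_eq_zero.mp he with h | h
    · exact hx0 h
    · exact incl_ne_zero A h0 h
  have hm₁ : incl A W₁ ∈ laurentBaseChange L F₀ := by
    rw [← he]; exact mul_mem hx hm
  obtain ⟨c₁, U₁, hc₁, hp₁, rfl, hU₁⟩ := exists_prim_scale hmax hm₁ hW₁0
  obtain ⟨c₂, U₂, hc₂, hp₂, rfl, hU₂⟩ := exists_prim_scale hmax hm h0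
  have hc₂L : (c₂ : L) ≠ 0 := fun h => hc₂ (Subtype.ext h)
  have hc₁L : (c₁ : L) ≠ 0 := fun h => hc₁ (Subtype.ext h)
  refine ⟨(c₁ : L) * (c₂ : L)⁻¹, U₁, U₂, mul_ne_zero hc₁L (inv_ne_zero hc₂L), hp₁, hp₂, hU₁,
    hU₂, ?_⟩
  rw [map_mul, map_mul, incl_cstA, incl_cstA] at he
  have h1 : x * incl A U₂ = cst (c₂ : L)⁻¹ * (x * (cst (c₂ : L) * incl A U₂)) := by
    rw [← mul_assoc, mul_comm (cst _) x, mul_assoc x, ← mul_assoc (cst _), cst_inv_mul_cst hc₂L,
      one_mul]
  rw [h1, he, ← mul_assoc, ← cst_mul, mul_comm (c₂ : L)⁻¹]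

end frac


/-! ## The Gauss valuation ring -/

section gauss

variable [Algebra ℚ L] (F₀ : IntermediateField ℚ (LaurentSeries ℚ))

/-- `f = U₁ / U₂` with `U₁, U₂` integral series, `U₂ ∈ F` primitive. -/
def IsGaussInt (f : LaurentSeries L) : Prop :=
  ∃ U₁ U₂ : LaurentSeries A, red A U₂ ≠ 0 ∧ incl A U₂ ∈ laurentBaseChange L F₀ ∧
    f * incl A U₂ = incl A U₁

variable {A F₀}

theorem IsGaussInt.zero : IsGaussInt A F₀ 0 :=
  ⟨0, 1, by rw [map_one]; exact one_ne_zero, by rw [map_one]; exact one_mem _,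
    by rw [zero_mul, map_zero]⟩

theorem IsGaussInt.one : IsGaussInt A F₀ 1 :=
  ⟨1, 1, by rw [map_one]; exact one_ne_zero, by rw [map_one]; exact one_mem _,
    by rw [one_mul]⟩

theorem IsGaussInt.mul {f g : LaurentSeries L} (hf : IsGaussInt A F₀ f)
    (hg : IsGaussInt A F₀ g) : IsGaussInt A F₀ (f * g) := by
  obtain ⟨U₁, U₂, h0, hm, he⟩ := hf
  obtain ⟨U₁', U₂', h0', hm', he'⟩ := hg
  refine ⟨U₁ * U₁', U₂ * U₂', ?_, ?_, ?_⟩
  · rw [map_mul]; exact mul_ne_zero h0 h0'
  · rw [map_mul]; exact mul_mem hm hm'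
  · rw [map_mul, map_mul, ← he, ← he']
    ring

theorem IsGaussInt.add {f g : LaurentSeries L} (hf : IsGaussInt A F₀ f)
    (hg : IsGaussInt A F₀ g) : IsGaussInt A F₀ (f + g) := by
  obtain ⟨U₁, U₂, h0, hm, he⟩ := hf
  obtain ⟨U₁', U₂', h0', hm', he'⟩ := hg
  refine ⟨U₁ * U₂' + U₁' * U₂, U₂ * U₂', ?_, ?_, ?_⟩
  · rw [map_mul]; exact mul_ne_zero h0 h0'
  · rw [map_mul]; exact mul_mem hm hm'
  · rw [map_add, map_mul, map_mul, map_mul, ← he, ← he']
    ring

theorem IsGaussInt.neg {f : LaurentSeries L} (hf : IsGaussInt A F₀ f) :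
    IsGaussInt A F₀ (-f) := by
  obtain ⟨U₁, U₂, h0, hm, he⟩ := hf
  exact ⟨-U₁, U₂, h0, hm, by rw [map_neg, ← he, neg_mul]⟩

/-- integral elements of `F` are Gauss-integral. -/
theorem IsGaussInt.of_incl (U : LaurentSeries A) : IsGaussInt A F₀ (incl A U) :=
  ⟨U, 1, by rw [map_one]; exact one_ne_zero, by rw [map_one]; exact one_mem _,
    by rw [map_one, mul_one]⟩

/-- In normal form `f · U₂ = c · U₁`: `f` is Gauss-integral iff `c ∈ A`. -/
theorem isGaussInt_iff_of_normal_form {f : LaurentSeries L} {c : L} {U₁ U₂ : LaurentSeries A}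
    (h₁ : red A U₁ ≠ 0) (h₂ : red A U₂ ≠ 0) (hm₂ : incl A U₂ ∈ laurentBaseChange L F₀)
    (he : f * incl A U₂ = cst c * incl A U₁) : IsGaussInt A F₀ f ↔ c ∈ A := by
  constructor
  · rintro ⟨W₁, W₂, hW, -, heW⟩
    have key : cst c * incl A (U₁ * W₂) = incl A (W₁ * U₂) := by
      rw [map_mul, map_mul, ← mul_assoc, ← he, ← heW]
      ring
    refine mem_of_cst_mul_prim A ?_ key
    rw [map_mul]
    exact mul_ne_zero h₁ hW
  · intro hc
    exact ⟨cstA A ⟨c, hc⟩ * U₁, U₂, h₂, hm₂, by rw [map_mul, incl_cstA, he]⟩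

omit [Algebra ℚ L] in
/-- In normal form `f · U₂ = c · U₁`, the inverse has normal form `f⁻¹ · U₁ = c⁻¹ · U₂`. -/
theorem normal_form_inv {f : LaurentSeries L} {c : L} {U₁ U₂ : LaurentSeries A}
    (hf : f ≠ 0) (hc : c ≠ 0) (he : f * incl A U₂ = cst c * incl A U₁) :
    f⁻¹ * incl A U₁ = cst c⁻¹ * incl A U₂ := by
  have h1 : incl A U₁ = cst c⁻¹ * (f * incl A U₂) := by
    rw [he, ← mul_assoc, cst_inv_mul_cst hc, one_mul]
  rw [h1]
  field_simp

variable (A F₀) in
/-- **The Gauss valuation ring at `∞`** of `F = L·F₀` with respect to the valuation ring `A` of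
`L`: fractions `U₁ / U₂` of `A`-integral series with `U₂` primitive. -/
def gaussInf (hgen : IntGen F₀) (hmax : AttainsMax A F₀) :
    ValuationSubring ↥(laurentBaseChange L F₀) where
  carrier := {f | IsGaussInt A F₀ (f : LaurentSeries L)}
  mul_mem' := fun hf hg => IsGaussInt.mul hf hg
  one_mem' := IsGaussInt.one
  add_mem' := fun hf hg => IsGaussInt.add hf hg
  zero_mem' := IsGaussInt.zero
  neg_mem' := fun hf => IsGaussInt.neg hf
  mem_or_inv_mem' := by
    intro f
    by_cases hf : f = 0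
    · left
      rw [hf]
      exact IsGaussInt.zero
    · have hf' : (f : LaurentSeries L) ≠ 0 := fun h => hf (Subtype.ext h)
      obtain ⟨c, U₁, U₂, hc, h₁, h₂, hm₁, hm₂, he⟩ := exists_normal_form hgen hmax f.2 hf'
      rcases A.mem_or_inv_mem c with hcA | hcA
      · left
        exact (isGaussInt_iff_of_normal_form h₁ h₂ hm₂ he).mpr hcA
      · right
        show IsGaussInt A F₀ ((f⁻¹ : ↥(laurentBaseChange L F₀)) : LaurentSeries L)
        rw [IntermediateField.coe_inv]
        exact (isGaussInt_iff_of_normal_form h₂ h₁ hm₁ (normal_form_inv hf' hc he)).mpr hcA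

variable (hgen : IntGen F₀) (hmax : AttainsMax A F₀)

theorem mem_gaussInf_iff {f : ↥(laurentBaseChange L F₀)} :
    f ∈ gaussInf A F₀ hgen hmax ↔ IsGaussInt A F₀ (f : LaurentSeries L) := Iff.rfl

/-- `V ∩ L = A`. -/
theorem algebraMap_mem_gaussInf_iff (c : L) :
    algebraMap L ↥(laurentBaseChange L F₀) c ∈ gaussInf A F₀ hgen hmax ↔ c ∈ A := by
  rw [mem_gaussInf_iff]
  have he : ((algebraMap L ↥(laurentBaseChange L F₀) c : ↥(laurentBaseChange L F₀)) :
      LaurentSeries L) * incl A 1 = cst c * incl A 1 := rfl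
  exact isGaussInt_iff_of_normal_form (by rw [map_one]; exact one_ne_zero)
    (by rw [map_one]; exact one_ne_zero) (by rw [map_one]; exact one_mem _) he

/-- membership in normal form. -/
theorem mem_gaussInf_iff_of_normal_form {f : ↥(laurentBaseChange L F₀)} {c : L}
    {U₁ U₂ : LaurentSeries A} (h₁ : red A U₁ ≠ 0) (h₂ : red A U₂ ≠ 0)
    (hm₂ : incl A U₂ ∈ laurentBaseChange L F₀)
    (he : (f : LaurentSeries L) * incl A U₂ = cst c * incl A U₁) :
    f ∈ gaussInf A F₀ hgen hmax ↔ c ∈ A :=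
  isGaussInt_iff_of_normal_form h₁ h₂ hm₂ he

/-- the valuation in normal form: `v_V(f) ≤ 1 ↔ v_A(c) ≤ 1`. -/
theorem valuation_le_one_iff_of_normal_form {f : ↥(laurentBaseChange L F₀)} {c : L}
    {U₁ U₂ : LaurentSeries A} (h₁ : red A U₁ ≠ 0) (h₂ : red A U₂ ≠ 0)
    (hm₂ : incl A U₂ ∈ laurentBaseChange L F₀)
    (he : (f : LaurentSeries L) * incl A U₂ = cst c * incl A U₁) :
    (gaussInf A F₀ hgen hmax).valuation f ≤ 1 ↔ A.valuation c ≤ 1 := by
  rw [ValuationSubring.valuation_le_one_iff, ValuationSubring.valuation_le_one_iff]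
  exact mem_gaussInf_iff_of_normal_form hgen hmax h₁ h₂ hm₂ he

/-- the valuation in normal form: `v_V(f) < 1 ↔ v_A(c) < 1`. -/
theorem valuation_lt_one_iff_of_normal_form {f : ↥(laurentBaseChange L F₀)} {c : L}
    {U₁ U₂ : LaurentSeries A} (hc : c ≠ 0) (h₁ : red A U₁ ≠ 0) (h₂ : red A U₂ ≠ 0)
    (hm₁ : incl A U₁ ∈ laurentBaseChange L F₀)
    (he : (f : LaurentSeries L) * incl A U₂ = cst c * incl A U₁) :
    (gaussInf A F₀ hgen hmax).valuation f < 1 ↔ A.valuation c < 1 := by
  have hf0 : (f : LaurentSeries L) ≠ 0 := by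
    intro h
    rw [h, zero_mul] at he
    rcases mul_eq_zero.mp he.symm with h' | h'
    · exact cst_ne_zero hc h'
    · exact incl_ne_zero A (ne_zero_of_red_ne_zero A h₁) h'
  have hf : f ≠ 0 := fun h => hf0 (by rw [h]; rfl)
  have hinv : ((f⁻¹ : ↥(laurentBaseChange L F₀)) : LaurentSeries L) * incl A U₁
      = cst c⁻¹ * incl A U₂ := by
    rw [IntermediateField.coe_inv]
    exact normal_form_inv hf0 hc he
  have h1 := valuation_le_one_iff_of_normal_form hgen hmax h₂ h₁ hm₁ hinv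
  rw [map_inv₀, map_inv₀] at h1
  have hv : (gaussInf A F₀ hgen hmax).valuation f ≠ 0 := (Valuation.ne_zero_iff _).mpr hf
  have hvc : A.valuation c ≠ 0 := (Valuation.ne_zero_iff _).mpr hc
  rw [inv_le_one₀ (zero_lt_iff.mpr hv), inv_le_one₀ (zero_lt_iff.mpr hvc)] at h1
  rw [← not_le, ← not_le, h1]

/-- **The value group of `V` is the value group of `A`**: every nonzero `f` is a constant
times a unit of `V`. -/
theorem exists_const_mul_unit {f : ↥(laurentBaseChange L F₀)} (hf : f ≠ 0) :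
    ∃ c : L, c ≠ 0 ∧
      (gaussInf A F₀ hgen hmax).valuation
        (f * (algebraMap L ↥(laurentBaseChange L F₀) c)⁻¹) = 1 := by
  have hf' : (f : LaurentSeries L) ≠ 0 := fun h => hf (Subtype.ext h)
  obtain ⟨c, U₁, U₂, hc, h₁, h₂, hm₁, hm₂, he⟩ := exists_normal_form hgen hmax f.2 hf'
  refine ⟨c, hc, ?_⟩
  set u : ↥(laurentBaseChange L F₀) := f * (algebraMap L ↥(laurentBaseChange L F₀) c)⁻¹ with hu
  have heu : (u : LaurentSeries L) * incl A U₂ = cst 1 * incl A U₁ := by
    have : (u : LaurentSeries L) = (f : LaurentSeries L) * (cst c)⁻¹ := by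
      rw [hu, IntermediateField.coe_mul, IntermediateField.coe_inv]
      rfl
    rw [this, mul_assoc, mul_comm (cst c)⁻¹, ← mul_assoc, he, cst_one, one_mul,
      mul_comm (cst c), mul_assoc, mul_inv_cancel₀ (cst_ne_zero hc), mul_one]
  have h1 := valuation_le_one_iff_of_normal_form hgen hmax h₁ h₂ hm₂ heu
  have h2 := valuation_lt_one_iff_of_normal_form hgen hmax one_ne_zero h₁ h₂ hm₁ heu
  rw [map_one] at h1 h2
  exact le_antisymm (h1.mpr le_rfl) (not_lt.mp (fun h => lt_irrefl _ (h2.mp h)))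

end gauss

end Fermat.Agent.A2.H708

end
end
-- ===== PACK-END A2/H708/GaussInf.lean

-- ===== PACK-BEGIN A2/ModDefs.lean
section


/-!
# WALL A2 — concrete objects at a good level and the MOD interface (row-lead helper13)

Definitions only (no `sorry`); LANDED, never to change again.

* `FE E N`            : `F_{N,E} = E(j(t^d) : d ∣ N) ⊆ E((t))`;
* `algREFE`, `towerREFE` : its structure over `R_E = P ∩ E`;
* `GoodField.res`     : restriction of `τ ∈ I_P` to a good level;
* `ModSSData P E N`   : the semistable two-chart model with coordinate `x`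
  (intended: `x = j(t) · j(t^q)`, so that `α^*`, `β^*` map the level-`M` charts of `j^{±1}` into
  the level-`N` charts of `x^{±1}`; any coordinate is allowed by the structure);
* `ModSSStatement`    : the MOD interface statement.
-/

set_option autoImplicit false
set_option synthInstance.maxHeartbeats 400000
set_option maxHeartbeats 1600000

noncomputable section

namespace Fermat.Agent.A2

open ModularCurve AlgebraicCurve

section Mod

variable (P : ValuationSubring Qb) (E : IntermediateField ℚ Qb) (N q : ℕ)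

/-- `F_{N,E} = E(j(t^d) : d ∣ N) ⊆ E((t))`. -/
abbrev FE : IntermediateField E (LaurentSeries E) :=
  laurentBaseChange E (modularFunctionFieldFull N)

/-- The algebra structure of `F_{N,E}` over `R_E = P ∩ E`. -/
instance algREFE : Algebra (RE P E) (FE E N) :=
  ((algebraMap E (FE E N)).comp (RE P E).subtype).toAlgebra

instance towerREFE : IsScalarTower (RE P E) E (FE E N) :=
  IsScalarTower.of_algebraMap_eq fun _ => rfl

/-- The restriction of `τ ∈ I_P` to a good level. -/
def GoodField.res {P : ValuationSubring Qb} {E : IntermediateField ℚ Qb} (hE : GoodField P E)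
    (τ : Qb ≃ₐ[ℚ] Qb) (hτ : τ ∈ P.inertiaSubgroupIn ℚ) : E ≃ₐ[ℚ] E :=
  AlgEquiv.ofBijective
    { toFun := fun e => ⟨τ (e : Qb), hE.stable τ hτ e e.2⟩
      map_one' := Subtype.ext (map_one τ)
      map_mul' := fun a b => Subtype.ext (map_mul τ (a : Qb) (b : Qb))
      map_zero' := Subtype.ext (map_zero τ)
      map_add' := fun a b => Subtype.ext (map_add τ (a : Qb) (b : Qb))
      commutes' := fun r => Subtype.ext (τ.commutes r) }
    ⟨fun a b hab => Subtype.ext (τ.injective (congrArg Subtype.val hab)),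
      fun b => ⟨⟨τ⁻¹ (b : Qb), hE.stable τ⁻¹ (inv_mem hτ) b b.2⟩,
        Subtype.ext (τ.apply_symm_apply (b : Qb))⟩⟩

/-- The semistable model of `X₀(N)`, `q ‖ N`, over `R_E` for a good level `E`, with coordinate
`x`. -/
structure ModSSData where
  /-- the coordinate -/
  x : FE E N
  hx : Transcendental E x
  hfin : FiniteDimensional (IntermediateField.adjoin E ({x} : Set (FE E N))) (FE E N)
  hconst : ∀ f : FE E N, IsAlgebraic E f → f ∈ (algebraMap E (FE E N)).range
  /-- the finite chart -/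
  Bf : Subalgebra (RE P E) (FE E N)
  /-- the chart at infinity -/
  Bi : Subalgebra (RE P E) (FE E N)
  hBf : ∀ f : FE E N, f ∈ Bf ↔ IsIntegral (Algebra.adjoin (RE P E) ({x} : Set (FE E N))) f
  hBi : ∀ f : FE E N, f ∈ Bi ↔ IsIntegral (Algebra.adjoin (RE P E) ({x⁻¹} : Set (FE E N))) f
  cf : ∀ w : RE P E, Irreducible w → Nonempty (SSChart w Bf)
  ci : ∀ w : RE P E, Irreducible w → Nonempty (SSChart w Bi)
  sf : SepCoord (RE P E) E x Bf
  si : SepCoord (RE P E) E x⁻¹ Bi
  /-- inertia fixes the coordinate and acts trivially modulo `w` on both charts -/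
  hτx : ∀ (hE : GoodField P E) (τ : Qb ≃ₐ[ℚ] Qb) (hτ : τ ∈ P.inertiaSubgroupIn ℚ),
    arithmeticRingAut (modularFunctionFieldFull N) (hE.res τ hτ) x = x
  hτf : ∀ (hE : GoodField P E) (τ : Qb ≃ₐ[ℚ] Qb) (hτ : τ ∈ P.inertiaSubgroupIn ℚ)
    (w : RE P E), Irreducible w → ∀ b ∈ Bf, ∃ c ∈ Bf,
      arithmeticRingAut (modularFunctionFieldFull N) (hE.res τ hτ) b - b =
        algebraMap (RE P E) (FE E N) w * c
  hτi : ∀ (hE : GoodField P E) (τ : Qb ≃ₐ[ℚ] Qb) (hτ : τ ∈ P.inertiaSubgroupIn ℚ)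
    (w : RE P E), Irreducible w → ∀ b ∈ Bi, ∃ c ∈ Bi,
      arithmeticRingAut (modularFunctionFieldFull N) (hE.res τ hτ) b - b =
        algebraMap (RE P E) (FE E N) w * c

end Mod

/-- **MOD (interface statement).**  For `q ‖ N` the modular function field has a semistable
two-component model over every good level. -/
def ModSSStatement : Prop :=
  ∀ (P : ValuationSubring Qb) (E : IntermediateField ℚ Qb) (N q : ℕ),
    q.Prime → q ∣ N → ¬ q ^ 2 ∣ N → N ≠ 0 → P.LiesOverPrime q → GoodField P E →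
      Nonempty (ModSSData P E N)

/-- **T1 (interface statement)**: `ALG + IF + MOD ⟹ KummerTarget`. -/
def T1Statement : Prop :=
  AlgSSStatement → IFStatement → ModSSStatement →
    ∀ (N q m : ℕ), q.Prime → q ∣ N → ¬ q ^ 2 ∣ N → N ≠ 0 → 0 < m → ¬ q ∣ m →
      KummerTarget N q m

end Fermat.Agent.A2

end
end
-- ===== PACK-END A2/ModDefs.lean

-- ===== PACK-BEGIN A2/T1/H849/Iota.lean
section





/-!
# A2 / T1 (helper849), part 1: the comparison map `ι : F_{N,E} → F̄_N`

`E ⊆ Q̄` an intermediate field, `F₀ ⊆ ℚ((t))` (in the application `modularFunctionFieldFull N`).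

* `iota E F₀ : laurentBaseChange E F₀ →+* laurentBaseChange Q̄ F₀` (coefficientwise inclusion),
  injective (`iota_injective`), `iota_algebraMap`.
* `resAut` : the restriction to `E` of an automorphism `τ` of `Q̄` with `τ E ⊆ E`, `τ⁻¹ E ⊆ E`.
* `iota_arithmeticRingAut` : `ι ∘ (τ|_E) = τ ∘ ι` on function fields.
* `exists_iota_eq` : every `f ∈ laurentBaseChange Q̄ F₀` is `ι y` for some `y` over any
  intermediate field `E` containing a suitable finite set of algebraic numbers.
* `resRE` : the restriction of `τ` in the decomposition group of `P` to `R_E = P ∩ E`.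
-/

set_option autoImplicit false

noncomputable section

namespace Fermat.Agent.A2.T1.H849

open ModularCurve AlgebraicCurve HahnSeries IntermediateField

/-- The field `ℚ̄`. -/
abbrev Qb : Type := AlgebraicClosure ℚ

variable (E : IntermediateField ℚ _root_.Fermat.Agent.A2.T1.H849.Qb) (F₀ : IntermediateField ℚ (LaurentSeries ℚ))

/-- The comparison map `ι : F_E → F̄` (inclusion of coefficients). -/
def iota : laurentBaseChange E F₀ →+* laurentBaseChange _root_.Fermat.Agent.A2.T1.H849.Qb F₀ where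
  toFun y := ⟨coeffMap (algebraMap E _root_.Fermat.Agent.A2.T1.H849.Qb) (y : LaurentSeries E),
    Fermat.Agent.S18.H602.coeffMap_mem_laurentBaseChange F₀ (algebraMap E _root_.Fermat.Agent.A2.T1.H849.Qb) y.2⟩
  map_one' := Subtype.ext (map_one (coeffMap (algebraMap E _root_.Fermat.Agent.A2.T1.H849.Qb)))
  map_mul' _ _ := Subtype.ext (map_mul (coeffMap (algebraMap E _root_.Fermat.Agent.A2.T1.H849.Qb)) _ _)
  map_zero' := Subtype.ext (map_zero (coeffMap (algebraMap E _root_.Fermat.Agent.A2.T1.H849.Qb)))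
  map_add' _ _ := Subtype.ext (map_add (coeffMap (algebraMap E _root_.Fermat.Agent.A2.T1.H849.Qb)) _ _)

@[simp]
theorem coe_iota (y : laurentBaseChange E F₀) :
    ((iota E F₀ y : laurentBaseChange _root_.Fermat.Agent.A2.T1.H849.Qb F₀) : LaurentSeries _root_.Fermat.Agent.A2.T1.H849.Qb) =
      coeffMap (algebraMap E _root_.Fermat.Agent.A2.T1.H849.Qb) (y : LaurentSeries E) := rfl

theorem iota_injective : Function.Injective (iota E F₀) := (iota E F₀).injective

theorem iota_ne_zero {y : laurentBaseChange E F₀} (hy : y ≠ 0) : iota E F₀ y ≠ 0 := by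
  intro h
  exact hy (iota_injective E F₀ (h.trans (map_zero _).symm))

theorem iota_algebraMap (e : E) :
    iota E F₀ (algebraMap E (laurentBaseChange E F₀) e) =
      algebraMap _root_.Fermat.Agent.A2.T1.H849.Qb (laurentBaseChange _root_.Fermat.Agent.A2.T1.H849.Qb F₀) (e : _root_.Fermat.Agent.A2.T1.H849.Qb) := by
  apply Subtype.ext
  show coeffMap (algebraMap E _root_.Fermat.Agent.A2.T1.H849.Qb) (algebraMap E (LaurentSeries E) e) = _
  rw [Fermat.Agent.S18.H602.coeffMap_algebraMap']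
  rfl

variable {E}

/-- The restriction to `E` of an automorphism of `ℚ̄` preserving `E`. -/
def resAut (τ : _root_.Fermat.Agent.A2.T1.H849.Qb ≃ₐ[ℚ] _root_.Fermat.Agent.A2.T1.H849.Qb) (h : ∀ e : _root_.Fermat.Agent.A2.T1.H849.Qb, e ∈ E → τ e ∈ E)
    (h' : ∀ e : _root_.Fermat.Agent.A2.T1.H849.Qb, e ∈ E → τ⁻¹ e ∈ E) : E ≃ₐ[ℚ] E :=
  AlgEquiv.ofBijective
    { toFun := fun e => ⟨τ (e : _root_.Fermat.Agent.A2.T1.H849.Qb), h e e.2⟩
      map_one' := Subtype.ext (map_one τ)
      map_mul' := fun a b => Subtype.ext (map_mul τ (a : _root_.Fermat.Agent.A2.T1.H849.Qb) (b : _root_.Fermat.Agent.A2.T1.H849.Qb))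
      map_zero' := Subtype.ext (map_zero τ)
      map_add' := fun a b => Subtype.ext (map_add τ (a : _root_.Fermat.Agent.A2.T1.H849.Qb) (b : _root_.Fermat.Agent.A2.T1.H849.Qb))
      commutes' := fun r => Subtype.ext (τ.commutes r) }
    ⟨fun _ _ hab => Subtype.ext (τ.injective (congrArg Subtype.val hab)),
      fun b => ⟨⟨τ⁻¹ (b : _root_.Fermat.Agent.A2.T1.H849.Qb), h' b b.2⟩, Subtype.ext (τ.apply_symm_apply (b : _root_.Fermat.Agent.A2.T1.H849.Qb))⟩⟩

@[simp]
theorem coe_resAut (τ : _root_.Fermat.Agent.A2.T1.H849.Qb ≃ₐ[ℚ] _root_.Fermat.Agent.A2.T1.H849.Qb) (h : ∀ e : _root_.Fermat.Agent.A2.T1.H849.Qb, e ∈ E → τ e ∈ E)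
    (h' : ∀ e : _root_.Fermat.Agent.A2.T1.H849.Qb, e ∈ E → τ⁻¹ e ∈ E) (e : E) :
    ((resAut τ h h' e : E) : _root_.Fermat.Agent.A2.T1.H849.Qb) = τ (e : _root_.Fermat.Agent.A2.T1.H849.Qb) := rfl

/-- `ι` intertwines the arithmetic action of `τ_E` on `F_E` with that of `τ` on `F̄`, for any
automorphism `τ_E` of `E` compatible with `τ`. -/
theorem iota_arithmeticRingAut (τ : _root_.Fermat.Agent.A2.T1.H849.Qb ≃ₐ[ℚ] _root_.Fermat.Agent.A2.T1.H849.Qb) (τE : E ≃ₐ[ℚ] E)
    (hτ : ∀ e : E, ((τE e : E) : _root_.Fermat.Agent.A2.T1.H849.Qb) = τ (e : _root_.Fermat.Agent.A2.T1.H849.Qb)) (y : laurentBaseChange E F₀) :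
    iota E F₀ (arithmeticRingAut F₀ τE y) = arithmeticRingAut F₀ τ (iota E F₀ y) := by
  apply Subtype.ext
  show coeffMap (algebraMap E _root_.Fermat.Agent.A2.T1.H849.Qb) (coeffMap (τE : E →+* E) (y : LaurentSeries E)) =
    coeffMap (τ : _root_.Fermat.Agent.A2.T1.H849.Qb →+* _root_.Fermat.Agent.A2.T1.H849.Qb) (coeffMap (algebraMap E _root_.Fermat.Agent.A2.T1.H849.Qb) (y : LaurentSeries E))
  rw [coeffMap_coeffMap, coeffMap_coeffMap]
  exact coeffMap_congr (RingHom.ext fun e => hτ e) _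

variable (E)

/-- Descent: every element of `F̄` comes from `F_E` as soon as `E` contains a suitable finite
set of algebraic numbers. -/
theorem exists_finset_forall_exists_iota_eq (f : laurentBaseChange _root_.Fermat.Agent.A2.T1.H849.Qb F₀) :
    ∃ S : Finset _root_.Fermat.Agent.A2.T1.H849.Qb, ∀ E : IntermediateField ℚ _root_.Fermat.Agent.A2.T1.H849.Qb, (∀ s ∈ S, s ∈ E) →
      ∃ y : laurentBaseChange E F₀, iota E F₀ y = f := by
  obtain ⟨E₀, hfin, hdesc⟩ := Fermat.Agent.S18.H602.exists_finite_descent (F₀ := F₀) f.2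
  have hfg : E₀.FG := IntermediateField.essFiniteType_iff.1 inferInstance
  obtain ⟨S, hS⟩ := hfg
  refine ⟨S, fun E hE => ?_⟩
  have hle : E₀ ≤ E := by
    rw [← hS, IntermediateField.adjoin_le_iff]
    intro s hs
    exact hE s (Finset.mem_coe.1 hs)
  obtain ⟨y, hy, hyf⟩ := hdesc.mono hle
  exact ⟨⟨y, hy⟩, Subtype.ext hyf⟩

end Fermat.Agent.A2.T1.H849

end
end
-- ===== PACK-END A2/T1/H849/Iota.lean

-- ===== PACK-BEGIN S28/H988/Purity.lean
section
/-
S28 / [L.UP] upper bound, helper988.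
Newton-polygon purity for monic polynomials over `k⸨X⸩` (Mathlib only):
* `IsPure G s`: `G` is monic and its Newton polygon is the single segment of slope `s`.
* `IsPure.isCoprime`: pure polynomials of different slopes are coprime.
* `isPure_of_root`: a monic polynomial of degree `p` with coefficients of order divisible by `p`
  and with a root of order `-1` is pure of slope `-1`.
-/



set_option autoImplicit false

noncomputable section

open Polynomial

namespace Fermat.Agent.S28.H988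

variable {k : Type*} [Field k]

/-- A Laurent series of non-negative order is a power series. -/
theorem mem_range_algebraMap_of_orderTop_nonneg (f : LaurentSeries k) (h : 0 ≤ f.orderTop) :
    f ∈ Set.range (algebraMap (PowerSeries k) (LaurentSeries k)) := by
  refine ⟨PowerSeries.mk fun n => f.coeff n, ?_⟩
  rw [LaurentSeries.coe_algebraMap]
  ext n
  rcases le_or_gt 0 n with hn | hn
  · lift n to ℕ using hn
    rw [HahnSeries.ofPowerSeries_apply_coeff, PowerSeries.coeff_mk]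
  · have h1 : ((HahnSeries.ofPowerSeries ℤ k) (PowerSeries.mk fun n => f.coeff n)).coeff n = 0 := by
      rw [HahnSeries.ofPowerSeries_apply]
      apply HahnSeries.embDomain_of_notMem_range
      rintro ⟨m, hm⟩
      have : (0 : ℤ) ≤ n := by rw [← hm]; exact Int.natCast_nonneg m
      omega
    rw [h1]
    symm
    apply HahnSeries.coeff_eq_zero_of_lt_orderTop
    refine lt_of_lt_of_le ?_ h
    exact_mod_cast hn

/-- `G` is pure of slope `s`: monic, the coefficient of `X ^ i` has order at least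
`(deg G - i) * s`, with equality for `i = 0`. -/
structure IsPure (G : Polynomial (LaurentSeries k)) (s : ℤ) : Prop where
  monic : G.Monic
  le_coeff : ∀ i : ℕ, ((((G.natDegree : ℤ) - i) * s : ℤ) : WithTop ℤ) ≤ (G.coeff i).orderTop
  coeff_zero : (G.coeff 0).orderTop = (((G.natDegree : ℤ) * s : ℤ) : WithTop ℤ)

theorem orderTop_single_one (n : ℤ) :
    (HahnSeries.single n (1 : k)).orderTop = (n : WithTop ℤ) :=
  HahnSeries.orderTop_single one_ne_zero

theorem single_pow_one (n : ℤ) (m : ℕ) :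
    (HahnSeries.single n (1 : k)) ^ m = HahnSeries.single ((m : ℤ) * n) (1 : k) := by
  induction m with
  | zero => simp
  | succ m ih =>
    rw [pow_succ, ih, HahnSeries.single_mul_single, mul_one]
    congr 1
    push_cast
    ring_nf

theorem isUnit_single_one (n : ℤ) : IsUnit (HahnSeries.single n (1 : k)) := by
  refine IsUnit.of_mul_eq_one (HahnSeries.single (-n) (1 : k)) ?_
  rw [HahnSeries.single_mul_single, mul_one, add_neg_cancel]
  rfl

/-- order of the coefficients of the rescaled polynomial -/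
theorem orderTop_coeff_scaleRoots (G : Polynomial (LaurentSeries k)) (t : ℤ) (i : ℕ)
    (hi : i ≤ G.natDegree) :
    ((G.scaleRoots (HahnSeries.single t (1 : k))).coeff i).orderTop =
      (G.coeff i).orderTop + ((((G.natDegree : ℤ) - i) * t : ℤ) : WithTop ℤ) := by
  rw [coeff_scaleRoots, HahnSeries.orderTop_mul, single_pow_one, orderTop_single_one]
  congr 2
  push_cast [Nat.cast_sub hi]
  ring

/-- Pure polynomials of different slopes are coprime (auxiliary ordered version). -/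
theorem IsPure.isCoprime_of_lt {G₁ G₂ : Polynomial (LaurentSeries k)} {s₁ s₂ : ℤ}
    (h₁ : IsPure G₁ s₁) (h₂ : IsPure G₂ s₂) (hs : s₁ < s₂) : IsCoprime G₁ G₂ := by
  set u : LaurentSeries k := HahnSeries.single (-s₁) (1 : k) with hu
  set u' : LaurentSeries k := HahnSeries.single s₁ (1 : k) with hu'
  have huu' : u * u' = 1 := by
    rw [hu, hu', HahnSeries.single_mul_single, mul_one, neg_add_cancel]; rfl
  suffices h : IsCoprime (G₁.scaleRoots u) (G₂.scaleRoots u) by
    have := isCoprime_scaleRoots _ _ u' (isUnit_single_one s₁) h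
    rwa [← scaleRoots_mul, ← scaleRoots_mul, huu', scaleRoots_one, scaleRoots_one] at this
  -- orders of the coefficients
  have o1 : ∀ i, (0 : WithTop ℤ) ≤ ((G₁.scaleRoots u).coeff i).orderTop := by
    intro i
    rcases le_or_gt i G₁.natDegree with hi | hi
    · rw [orderTop_coeff_scaleRoots G₁ (-s₁) i hi]
      have := h₁.le_coeff i
      calc (0 : WithTop ℤ) = (((((G₁.natDegree : ℤ) - i) * s₁ : ℤ)) : WithTop ℤ)
            + ((((G₁.natDegree : ℤ) - i) * (-s₁) : ℤ) : WithTop ℤ) := by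
              rw [← WithTop.coe_add]; norm_cast; ring
        _ ≤ _ := by gcongr
    · rw [coeff_eq_zero_of_natDegree_lt (by rwa [natDegree_scaleRoots]), HahnSeries.orderTop_zero]
      exact le_top
  have o1' : ((G₁.scaleRoots u).coeff 0).orderTop = 0 := by
    rw [orderTop_coeff_scaleRoots G₁ (-s₁) 0 (Nat.zero_le _), h₁.coeff_zero, ← WithTop.coe_add]
    have h0 : ((G₁.natDegree : ℤ) * s₁ + ((G₁.natDegree : ℤ) - ((0 : ℕ) : ℤ)) * (-s₁)) = 0 := by
      push_cast; ring
    rw [h0]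
    rfl
  have o2 : ∀ i, i < G₂.natDegree → (0 : WithTop ℤ) < ((G₂.scaleRoots u).coeff i).orderTop := by
    intro i hi
    rw [orderTop_coeff_scaleRoots G₂ (-s₁) i hi.le]
    have := h₂.le_coeff i
    have hpos : (0 : ℤ) < ((G₂.natDegree : ℤ) - i) * s₂ + ((G₂.natDegree : ℤ) - i) * (-s₁) := by
      have h1 : (0 : ℤ) < (G₂.natDegree : ℤ) - i := by
        have : (i : ℤ) < G₂.natDegree := by exact_mod_cast hi
        linarith
      have h2 : (0 : ℤ) < s₂ - s₁ := by linarith
      nlinarith [mul_pos h1 h2]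
    calc (0 : WithTop ℤ) < (((((G₂.natDegree : ℤ) - i) * s₂
            + ((G₂.natDegree : ℤ) - i) * (-s₁) : ℤ)) : WithTop ℤ) := by exact_mod_cast hpos
      _ = (((((G₂.natDegree : ℤ) - i) * s₂ : ℤ)) : WithTop ℤ)
            + ((((G₂.natDegree : ℤ) - i) * (-s₁) : ℤ) : WithTop ℤ) := by
              rw [← WithTop.coe_add]
      _ ≤ _ := by gcongr
  have o2' : ∀ i, (0 : WithTop ℤ) ≤ ((G₂.scaleRoots u).coeff i).orderTop := by
    intro i
    rcases lt_trichotomy i G₂.natDegree with hi | hi | hi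
    · exact (o2 i hi).le
    · have hm : (G₂.scaleRoots u).Monic := (monic_scaleRoots_iff u).mpr h₂.monic
      have : (G₂.scaleRoots u).coeff i = 1 := by
        rw [hi, ← natDegree_scaleRoots G₂ u]; exact hm.coeff_natDegree
      rw [this, HahnSeries.orderTop_one]
    · rw [coeff_eq_zero_of_natDegree_lt (by rwa [natDegree_scaleRoots]), HahnSeries.orderTop_zero]
      exact le_top
  -- lift to power series
  have l1 : G₁.scaleRoots u ∈ lifts (algebraMap (PowerSeries k) (LaurentSeries k)) :=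
    (lifts_iff_coeff_lifts _).mpr fun i => mem_range_algebraMap_of_orderTop_nonneg _ (o1 i)
  have l2 : G₂.scaleRoots u ∈ lifts (algebraMap (PowerSeries k) (LaurentSeries k)) :=
    (lifts_iff_coeff_lifts _).mpr fun i => mem_range_algebraMap_of_orderTop_nonneg _ (o2' i)
  obtain ⟨g₁, hg₁, hd₁, hm₁⟩ :=
    lifts_and_natDegree_eq_and_monic l1 ((monic_scaleRoots_iff u).mpr h₁.monic)
  obtain ⟨g₂, hg₂, hd₂, hm₂⟩ :=
    lifts_and_natDegree_eq_and_monic l2 ((monic_scaleRoots_iff u).mpr h₂.monic)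
  have key : ∀ (g : Polynomial (PowerSeries k)) (i : ℕ),
      PowerSeries.constantCoeff (g.coeff i) =
        ((g.map (algebraMap (PowerSeries k) (LaurentSeries k))).coeff i).coeff 0 := by
    intro g i
    rw [coeff_map, LaurentSeries.coe_algebraMap]
    have := HahnSeries.ofPowerSeries_apply_coeff (Γ := ℤ) (g.coeff i) 0
    rw [Nat.cast_zero] at this
    rw [this, PowerSeries.coeff_zero_eq_constantCoeff]
  rw [← hg₁, ← hg₂]
  refine isCoprime_map_of_reduction g₁ g₂ hm₁ hm₂ ?_ ?_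
  · rw [key, hg₁]
    exact HahnSeries.coeff_orderTop_ne (by rw [o1']; rfl)
  · intro i hi
    rw [key, hg₂]
    apply HahnSeries.coeff_eq_zero_of_lt_orderTop
    have := o2 i (by rwa [hd₂, natDegree_scaleRoots] at hi)
    exact_mod_cast this

/-- Pure polynomials of different slopes are coprime. -/
theorem IsPure.isCoprime {G₁ G₂ : Polynomial (LaurentSeries k)} {s₁ s₂ : ℤ}
    (h₁ : IsPure G₁ s₁) (h₂ : IsPure G₂ s₂) (hs : s₁ ≠ s₂) : IsCoprime G₁ G₂ := by
  rcases lt_or_gt_of_ne hs with h | h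
  · exact h₁.isCoprime_of_lt h₂ h
  · exact (h₂.isCoprime_of_lt h₁ h).symm

/-- order of a nonzero element as an integer -/
theorem exists_orderTop_eq (f : LaurentSeries k) (hf : f ≠ 0) :
    ∃ m : ℤ, f.orderTop = (m : WithTop ℤ) := by
  have : f.orderTop ≠ ⊤ := HahnSeries.orderTop_ne_top.mpr hf
  obtain ⟨m, hm⟩ := WithTop.ne_top_iff_exists.mp this
  exact ⟨m, hm.symm⟩

theorem orderTop_pow_of_eq (y : LaurentSeries k) (a : ℤ) (hy : y.orderTop = (a : WithTop ℤ))
    (i : ℕ) : (y ^ i).orderTop = (((i : ℤ) * a : ℤ) : WithTop ℤ) := by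
  induction i with
  | zero => simp
  | succ i ih =>
    rw [pow_succ, HahnSeries.orderTop_mul, ih, hy, ← WithTop.coe_add]
    congr 1
    push_cast
    ring

/-- **Purity from a root of order `-1`.** A monic polynomial of degree `p` whose coefficients
have order divisible by `p` and which has a root of order `-1` is pure of slope `-1`. -/
theorem isPure_of_root (p : ℕ) (P : Polynomial (LaurentSeries k)) (hmonic : P.Monic)
    (hdeg : P.natDegree = p)
    (hrange : ∀ i, P.coeff i ≠ 0 → ∃ n : ℤ, (P.coeff i).orderTop = (((p : ℤ) * n : ℤ) : WithTop ℤ))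
    (y : LaurentSeries k) (hy : y.orderTop = ((-1 : ℤ) : WithTop ℤ)) (hroot : P.eval y = 0) :
    IsPure P (-1) := by
  classical
  set a : ℕ → LaurentSeries k := fun i => P.coeff i * y ^ i with ha
  have hsum : ∑ i ∈ Finset.range (p + 1), a i = 0 := by
    rw [← hroot, eval_eq_sum_range, hdeg]
  have hypow : ∀ i : ℕ, (y ^ i).orderTop = ((-(i : ℤ) : ℤ) : WithTop ℤ) := by
    intro i
    rw [orderTop_pow_of_eq y (-1) hy i]
    congr 1
    ring
  have hord : ∀ i, (a i).orderTop = (P.coeff i).orderTop + ((-(i : ℤ) : ℤ) : WithTop ℤ) := by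
    intro i
    rw [ha, HahnSeries.orderTop_mul, hypow]
  have hva : ∀ i, a i ≠ 0 → ∃ n : ℤ, (a i).orderTop = (((p : ℤ) * n - i : ℤ) : WithTop ℤ) := by
    intro i hi
    have hc : P.coeff i ≠ 0 := by
      intro h0
      apply hi
      rw [ha]
      simp only [h0, zero_mul]
    obtain ⟨n, hn⟩ := hrange i hc
    refine ⟨n, ?_⟩
    rw [hord, hn, ← WithTop.coe_add]
    congr 1
  have hap : (a p).orderTop = ((-(p : ℤ) : ℤ) : WithTop ℤ) := by
    have h1 : P.coeff p = 1 := by rw [← hdeg]; exact hmonic.coeff_natDegree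
    rw [ha]
    simp only [h1, one_mul]
    exact hypow p
  -- a minimal index
  obtain ⟨i₀, hi₀, hmin⟩ := Finset.exists_min_image (Finset.range (p + 1))
    (fun i => (a i).orderTop) ⟨p, Finset.mem_range.mpr (Nat.lt_succ_self p)⟩
  have hpmem : p ∈ Finset.range (p + 1) := Finset.mem_range.mpr (Nat.lt_succ_self p)
  have hg_le : (a i₀).orderTop ≤ ((-(p : ℤ) : ℤ) : WithTop ℤ) := by
    rw [← hap]; exact hmin p hpmem
  have hg_ne_top : (a i₀).orderTop ≠ ⊤ := by
    intro h
    rw [h] at hg_le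
    exact absurd hg_le (by simp)
  have hai₀ : a i₀ ≠ 0 := HahnSeries.orderTop_ne_top.mp hg_ne_top
  -- a second index with the same order
  have hex : ∃ i₁ ∈ Finset.range (p + 1), i₁ ≠ i₀ ∧ (a i₁).orderTop = (a i₀).orderTop := by
    by_contra hcon
    push Not at hcon
    have hlt : ∀ i ∈ (Finset.range (p + 1)).erase i₀, (a i₀).orderTop < (a i).orderTop := by
      intro i hi
      have hi' := Finset.mem_erase.mp hi
      exact lt_of_le_of_ne (hmin i hi'.2) (fun h => hcon i hi'.2 hi'.1 h.symm)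
    have h1 := (HahnSeries.addVal ℤ k).map_lt_sum hg_ne_top
      (s := (Finset.range (p + 1)).erase i₀) (f := a) (by
        intro i hi
        rw [HahnSeries.addVal_apply]
        exact hlt i hi)
    have h2 : ∑ i ∈ (Finset.range (p + 1)).erase i₀, a i = - a i₀ := by
      have := Finset.add_sum_erase (Finset.range (p + 1)) a hi₀
      rw [hsum] at this
      exact eq_neg_of_add_eq_zero_right this
    rw [h2, HahnSeries.addVal_apply, HahnSeries.orderTop_neg] at h1
    exact lt_irrefl _ h1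
  obtain ⟨i₁, hi₁, hne, heq⟩ := hex
  have hai₁ : a i₁ ≠ 0 := by
    apply HahnSeries.orderTop_ne_top.mp
    rw [heq]; exact hg_ne_top
  obtain ⟨n₀, hn₀⟩ := hva i₀ hai₀
  obtain ⟨n₁, hn₁⟩ := hva i₁ hai₁
  have hi₀le : i₀ ≤ p := Nat.lt_succ_iff.mp (Finset.mem_range.mp hi₀)
  have hi₁le : i₁ ≤ p := Nat.lt_succ_iff.mp (Finset.mem_range.mp hi₁)
  have hrel : (p : ℤ) * n₁ - i₁ = (p : ℤ) * n₀ - i₀ := by
    have := heq
    rw [hn₀, hn₁] at this
    exact_mod_cast this
  have hcases : (i₀ = 0 ∧ i₁ = p) ∨ (i₀ = p ∧ i₁ = 0) := by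
    have hd : (p : ℤ) * (n₁ - n₀) = (i₁ : ℤ) - i₀ := by linarith
    have h0 : (0 : ℤ) ≤ i₀ := Int.natCast_nonneg _
    have h1 : (0 : ℤ) ≤ i₁ := Int.natCast_nonneg _
    have h0' : (i₀ : ℤ) ≤ p := by exact_mod_cast hi₀le
    have h1' : (i₁ : ℤ) ≤ p := by exact_mod_cast hi₁le
    have hne' : (i₁ : ℤ) ≠ i₀ := by exact_mod_cast hne
    have hp0 : (0 : ℤ) ≤ p := Int.natCast_nonneg _
    rcases lt_trichotomy (n₁ - n₀) 0 with hneg | hzero | hpos
    · have : (p : ℤ) * (n₁ - n₀) ≤ -(p : ℤ) := by nlinarith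
      right
      constructor
      · have : (i₀ : ℤ) = p := by linarith
        exact_mod_cast this
      · have : (i₁ : ℤ) = 0 := by linarith
        exact_mod_cast this
    · rw [hzero, mul_zero] at hd
      exact absurd (by linarith) hne'
    · have : (p : ℤ) ≤ (p : ℤ) * (n₁ - n₀) := by nlinarith
      left
      constructor
      · have : (i₀ : ℤ) = 0 := by linarith
        exact_mod_cast this
      · have : (i₁ : ℤ) = p := by linarith
        exact_mod_cast this
  have hg : (a i₀).orderTop = ((-(p : ℤ) : ℤ) : WithTop ℤ) := by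
    rcases hcases with ⟨_, h⟩ | ⟨h, _⟩
    · rw [← heq, h, hap]
    · rw [h, hap]
  have ha0 : (a 0).orderTop = ((-(p : ℤ) : ℤ) : WithTop ℤ) := by
    rcases hcases with ⟨h, _⟩ | ⟨_, h⟩
    · rw [← h, hg]
    · rw [← h, heq, hg]
  refine ⟨hmonic, ?_, ?_⟩
  · intro i
    rcases le_or_gt i p with hi | hi
    · by_cases hc : P.coeff i = 0
      · rw [hc, HahnSeries.orderTop_zero]; exact le_top
      · obtain ⟨m, hm⟩ := exists_orderTop_eq _ hc
        have h1 : (a i₀).orderTop ≤ (a i).orderTop :=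
          hmin i (Finset.mem_range.mpr (Nat.lt_succ_of_le hi))
        rw [hg, hord, hm, ← WithTop.coe_add] at h1
        have h2 : -(p : ℤ) ≤ m + -(i : ℤ) := by exact_mod_cast h1
        rw [hm, hdeg]
        have h3 : ((p : ℤ) - i) * (-1) ≤ m := by linarith
        exact_mod_cast h3
    · rw [coeff_eq_zero_of_natDegree_lt (by rwa [hdeg]), HahnSeries.orderTop_zero]
      exact le_top
  · have h0 : a 0 = P.coeff 0 := by rw [ha]; simp
    rw [← h0, ha0, hdeg]
    congr 1
    ring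

end Fermat.Agent.S28.H988

end

end
-- ===== PACK-END S28/H988/Purity.lean

-- ===== PACK-BEGIN A2/Mod/H189/ChartChangeAux.lean
section







/-!
# Cell A2 / MOD, GOODRED part G3 (helper189): chart change, auxiliary lemmas (Mathlib only)

* `isIntegral_of_monic_eq`, `isIntegral_of_unit_eq`, `isIntegral_of_cubic`, `isIntegral_of_quartic`:
  integrality over a subalgebra from an explicit equation with unit leading coefficient;
* `icSub A` : the integral closure of a subalgebra `A ⊆ F`, as an `R`-subalgebra of `F`;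
* `GoodOn V w A := QepOn V w A ∧ NormalOn V w A` with `GoodOn.loc`, `GoodOn.glue`, `GoodOn.congr`,
  `GoodOn.of_le_of_le`.
-/

set_option autoImplicit false

namespace Fermat.Agent.A2.Mod.H189

open Polynomial

variable {R : Type*} [CommRing R] {F : Type*} [Field F] [Algebra R F]

/-- Integrality from a monic equation with coefficients in `A`. -/
theorem isIntegral_of_monic_eq {A : Subalgebra R F} {x : F} (n : ℕ) (c : Fin n → F)
    (hc : ∀ i, c i ∈ A) (h : x ^ n + ∑ i : Fin n, c i * x ^ (i : ℕ) = 0) : IsIntegral A x := by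
  refine ⟨X ^ n + ∑ i : Fin n, C (⟨c i, hc i⟩ : A) * X ^ (i : ℕ),
    monic_X_pow_add (degree_sum_fin_lt _), ?_⟩
  rw [eval₂_add, eval₂_pow, eval₂_X, eval₂_finsetSum]
  simp only [eval₂_mul, eval₂_C, eval₂_pow, eval₂_X]
  exact h

/-- Integrality from an equation whose leading coefficient is a unit of `A`. -/
theorem isIntegral_of_unit_eq {A : Subalgebra R F} {x : F} (n : ℕ) {a v : F}
    (hv : v ∈ A) (hav : v * a = 1) (c : Fin n → F)
    (hc : ∀ i, c i ∈ A) (h : a * x ^ n + ∑ i : Fin n, c i * x ^ (i : ℕ) = 0) :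
    IsIntegral A x := by
  refine isIntegral_of_monic_eq n (fun i => v * c i) (fun i => A.mul_mem hv (hc i)) ?_
  have h1 := congrArg (fun z => v * z) h
  simp only [mul_zero, mul_add, ← mul_assoc, hav, one_mul, Finset.mul_sum] at h1
  exact h1

/-- Integrality from a cubic equation with unit leading coefficient. -/
theorem isIntegral_of_cubic {A : Subalgebra R F} {x a v c₂ c₁ c₀ : F}
    (hv : v ∈ A) (hav : v * a = 1) (h₂ : c₂ ∈ A) (h₁ : c₁ ∈ A) (h₀ : c₀ ∈ A)
    (h : a * x ^ 3 + c₂ * x ^ 2 + c₁ * x + c₀ = 0) : IsIntegral A x := by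
  refine isIntegral_of_unit_eq 3 hv hav ![c₀, c₁, c₂] ?_ ?_
  · intro i
    fin_cases i <;> simpa
  · rw [Fin.sum_univ_three]
    simp only [Matrix.cons_val_zero, Matrix.cons_val_one, Matrix.cons_val_two, Matrix.head_cons,
      Matrix.tail_cons, Fin.val_zero, Fin.val_one, Fin.val_two, pow_zero, pow_one, mul_one]
    linear_combination h

/-- Integrality from a quartic equation with unit leading coefficient. -/
theorem isIntegral_of_quartic {A : Subalgebra R F} {x a v c₃ c₂ c₁ c₀ : F}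
    (hv : v ∈ A) (hav : v * a = 1) (h₃ : c₃ ∈ A) (h₂ : c₂ ∈ A) (h₁ : c₁ ∈ A) (h₀ : c₀ ∈ A)
    (h : a * x ^ 4 + c₃ * x ^ 3 + c₂ * x ^ 2 + c₁ * x + c₀ = 0) : IsIntegral A x := by
  refine isIntegral_of_unit_eq 4 hv hav ![c₀, c₁, c₂, c₃] ?_ ?_
  · intro i
    fin_cases i <;> simpa
  · rw [Fin.sum_univ_four]
    simp only [Matrix.cons_val_zero, Matrix.cons_val_one, Matrix.cons_val_two,
      Matrix.cons_val_three, Matrix.head_cons,
      Matrix.tail_cons, Fin.val_zero, Fin.val_one, Fin.val_two, pow_zero, pow_one, mul_one]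
    simp
    linear_combination h

/-- The integral closure of a subalgebra `A ⊆ F`, as an `R`-subalgebra of `F`. -/
def icSub (A : Subalgebra R F) : Subalgebra R F :=
  (integralClosure A F).restrictScalars R

theorem mem_icSub {A : Subalgebra R F} {x : F} : x ∈ icSub A ↔ IsIntegral A x := Iff.rfl

theorem le_icSub (A : Subalgebra R F) : A ≤ icSub A := fun _ ha => isIntegral_of_mem ha

/-- A subalgebra generated by integral elements is integral. -/
theorem isIntegral_of_mem_adjoin {A : Subalgebra R F} {S : Set F}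
    (hS : ∀ x ∈ S, IsIntegral A x) {b : F} (hb : b ∈ Algebra.adjoin R S) : IsIntegral A b :=
  (Algebra.adjoin_le (S := icSub A) hS) hb

/-- Elements of `A[1/s]` are integral over `A'` as soon as `A` and `1/s` are. -/
theorem isIntegral_of_mem_locSub {A A' : Subalgebra R F} {s : F}
    (hA : ∀ a ∈ A, IsIntegral A' a) (hs : IsIntegral A' s⁻¹) {b : F} (hb : b ∈ locSub A s) :
    IsIntegral A' b :=
  isIntegral_of_mem_adjoin (A := A') (by
    rintro x (hx | hx)
    · exact hA x hx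
    · rw [Set.mem_singleton_iff] at hx
      rw [hx]
      exact hs) hb

/-- Both halves of `Mod.GoodRedAt` for the chart of `A`. -/
def GoodOn (V : Subring F) (w : F) (A : Subalgebra R F) : Prop :=
  QepOn V w A ∧ NormalOn V w A

theorem GoodOn.congr {V : Subring F} {w : F} {A A' : Subalgebra R F}
    (h : ∀ a ∈ A, IsIntegral A' a) (h' : ∀ a ∈ A', IsIntegral A a) (hg : GoodOn V w A) :
    GoodOn V w A' :=
  ⟨hg.1.congr h h', hg.2.congr h h'⟩

theorem GoodOn.of_le_of_le {V : Subring F} {w : F} {A A' : Subalgebra R F}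
    (h : A ≤ A') (h' : A' ≤ A) (hg : GoodOn V w A) : GoodOn V w A' :=
  hg.congr (fun _ ha => isIntegral_of_mem (h ha)) (fun _ ha => isIntegral_of_mem (h' ha))

theorem GoodOn.loc {V : Subring F} {w : F} {A : Subalgebra R F} (hg : GoodOn V w A) {s : F}
    (hsA : s ∈ A) (hs0 : s ≠ 0) (hsV : s ∈ V) (hsV' : s⁻¹ ∈ V) : GoodOn V w (locSub A s) :=
  ⟨hg.1.loc hsA hs0 hsV, hg.2.loc hsA hs0 hsV hsV'⟩

theorem GoodOn.glue {V : Subring F} {w : F} {A : Subalgebra R F} {s₁ s₂ α β : F}
    (hAV : ∀ a ∈ A, a ∈ V)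
    (hs₁ : s₁ ∈ A) (hs₂ : s₂ ∈ A) (hα : α ∈ A) (hβ : β ∈ A) (h1 : α * s₁ + β * s₂ = 1)
    (hg₁ : GoodOn V w (locSub A s₁)) (hg₂ : GoodOn V w (locSub A s₂)) : GoodOn V w A :=
  ⟨QepOn.glue hs₁ hs₂ hα hβ h1 hg₁.1 hg₂.1, NormalOn.glue hAV hs₁ hs₂ hα hβ h1 hg₁.2 hg₂.2⟩

/-- A subalgebra generated by elements of `V` lies in `V` (`V ⊇ R` a subring). -/
theorem adjoin_subset_subring {V : Subring F} (hRV : ∀ r : R, algebraMap R F r ∈ V) {S : Set F}
    (hS : ∀ x ∈ S, x ∈ V) : ∀ a ∈ Algebra.adjoin R S, a ∈ V := by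
  intro a ha
  induction ha using Algebra.adjoin_induction with
  | mem x hx => exact hS x hx
  | algebraMap r => exact hRV r
  | add x y _ _ hx hy => exact V.add_mem hx hy
  | mul x y _ _ hx hy => exact V.mul_mem hx hy

end Fermat.Agent.A2.Mod.H189

end
-- ===== PACK-END A2/Mod/H189/ChartChangeAux.lean

-- ===== PACK-BEGIN A2/H372/Radical.lean
section


/-!
# A2 / MOD M5 (d4) : `p₁ + p₂` is a radical ideal (helper372)

Corollaries of `Fermat.Agent.A2.H372.Transversal` in the exact form of the field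
`SSChart.transversal` of `Fermat/Agent/A2/Spec.lean` (row-lead helper13):
`(P₁ ⊔ P₂).IsRadical`.

* `isRadical_of_local` : an ideal `J` such that every maximal ideal `n ⊇ J` is generated by `J`
  locally at `n` (elementwise form) is radical.
* `KronCong.sup_isRadical` : transversality from the (semilinear) Kronecker congruences, `α` onto
  `B/P₁`, and local generators of the first branch at the crossing points.
* `KronCong.sup_isRadical_of_isDedekindDomain` : the same when the first branch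
  `A ⧸ comap α P₁` is a Dedekind domain (= `B_M / w` normal, S18 b2 at level `M`).
-/

set_option autoImplicit false

namespace Fermat.Agent.A2.H372

open Ideal

variable {A B : Type*} [CommRing A] [CommRing B]

/-- An ideal which, locally at every maximal ideal containing it, is equal to that maximal
ideal, is radical. -/
theorem isRadical_of_local {J : Ideal B}
    (h : ∀ n : Ideal B, n.IsMaximal → J ≤ n → ∀ x ∈ n, ∃ t : B, t ∉ n ∧ t * x ∈ J) :
    J.IsRadical := by
  intro x hx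
  -- the conductor `I = (J : x)`
  let I : Ideal B :=
    { carrier := {t | t * x ∈ J}
      add_mem' := fun {a b} ha hb => by
        change (a + b) * x ∈ J
        rw [add_mul]; exact J.add_mem ha hb
      zero_mem' := by simp
      smul_mem' := fun c a ha => by
        change c * a * x ∈ J
        rw [mul_assoc]; exact J.mul_mem_left c ha }
  have hI : ∀ t, t ∈ I ↔ t * x ∈ J := fun t => Iff.rfl
  by_contra hxJ
  have hne : I ≠ ⊤ := by
    intro htop
    have : (1 : B) ∈ I := by rw [htop]; trivial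
    rw [hI, one_mul] at this
    exact hxJ this
  obtain ⟨n, hn, hIn⟩ := Ideal.exists_le_maximal I hne
  have hJI : J ≤ I := fun t ht => (hI t).mpr (J.mul_mem_right x ht)
  have hJn : J ≤ n := hJI.trans hIn
  have hxn : x ∈ n := by
    obtain ⟨k, hk⟩ := hx
    exact hn.isPrime.mem_of_pow_mem k (hJn hk)
  obtain ⟨t, ht, htx⟩ := h n hn hJn x hxn
  exact ht (hIn ((hI t).mpr htx))

/-- **Transversality** (`SSChart.transversal`): `P₁ + P₂` is radical. -/
theorem KronCong.sup_isRadical {q : ℕ} (hq : 2 ≤ q) {α β : A →+* B} {P₁ P₂ : Ideal B}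
    (h : KronCong q α β P₁ P₂) (hα : ∀ b : B, ∃ a : A, b - α a ∈ P₁)
    (huni : ∀ n : Ideal B, n.IsMaximal → P₁ ≤ n → P₂ ≤ n → ∃ a₀ : A, IsBranchUnif α P₁ n a₀) :
    (P₁ ⊔ P₂).IsRadical := by
  refine isRadical_of_local fun n hn hJn x hx => ?_
  have hP₁ : P₁ ≤ n := le_sup_left.trans hJn
  have hP₂ : P₂ ≤ n := le_sup_right.trans hJn
  obtain ⟨a₀, ha₀⟩ := huni n hn hP₁ hP₂
  have := hn.isPrime
  exact h.mem_sup_of_mem hq hP₁ hP₂ hα ha₀ hx

/-- **Transversality** when the first branch is a Dedekind domain. -/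
theorem KronCong.sup_isRadical_of_isDedekindDomain {q : ℕ} (hq : 2 ≤ q) {α β : A →+* B}
    {P₁ P₂ : Ideal B} (h : KronCong q α β P₁ P₂) (hα : ∀ b : B, ∃ a : A, b - α a ∈ P₁)
    [IsDedekindDomain (A ⧸ Ideal.comap α P₁)] :
    (P₁ ⊔ P₂).IsRadical :=
  h.sup_isRadical hq hα fun n hn hP₁ _ =>
    haveI := hn.isPrime
    exists_isBranchUnif_of_isDedekindDomain α P₁ n hP₁

end Fermat.Agent.A2.H372

end
-- ===== PACK-END A2/H372/Radical.lean

-- ===== PACK-BEGIN A2/H643/BaseAbs.lean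
section


/-!
# Cell A2, route G, leaf BASE — abstract part (helper643)

`B` a noetherian integrally closed domain with fraction field `F`, `w ∈ B`, `w ≠ 0`, and two
primes `p`, `p'` of `B` with `p ⊓ p' = (w)`, `¬ p' ≤ p`.  Then `B_p` is a discrete valuation ring
with uniformiser `w`; we record this elementwise for the valuation subring
`H849.locValuationSubring p` of `F`.
-/

set_option autoImplicit false
set_option linter.unusedSectionVars false

namespace Fermat.Agent.A2.H643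

open IsLocalRing Fermat.Agent.A2.H849

section Abs

variable {B : Type*} [CommRing B] [IsDomain B] [IsNoetherianRing B] [IsIntegrallyClosed B]
variable {F : Type*} [Field F] [Algebra B F] [IsFractionRing B F]

/-- `p` is the colon ideal `(w) : s` for every `s ∈ p' ∖ p`. -/
theorem base_colon {w : B} {p p' : Ideal B} [hp : p.IsPrime]
    (hinf : p ⊓ p' = Ideal.span {w}) {s : B} (hs' : s ∈ p') (hs : s ∉ p) (r : B) :
    r ∈ p ↔ w ∣ r * s := by
  constructor
  · intro hr
    have h : r * s ∈ p ⊓ p' := ⟨p.mul_mem_right s hr, p'.mul_mem_left r hs'⟩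
    rw [hinf] at h
    exact Ideal.mem_span_singleton.1 h
  · intro h
    have h1 : r * s ∈ p ⊓ p' := by
      rw [hinf]
      exact Ideal.mem_span_singleton.2 h
    rcases hp.mem_or_mem h1.1 with h2 | h2
    · exact h2
    · exact absurd h2 hs

theorem base_w_mem {w : B} {p p' : Ideal B} (hinf : p ⊓ p' = Ideal.span {w}) : w ∈ p := by
  have h : w ∈ p ⊓ p' := by
    rw [hinf]
    exact Ideal.mem_span_singleton_self w
  exact h.1

variable (F) in
/-- `B_p` is a discrete valuation ring. -/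
theorem base_dvr {w : B} (hw : w ≠ 0) {p p' : Ideal B} [hp : p.IsPrime]
    (hinf : p ⊓ p' = Ideal.span {w}) (hle : ¬ p' ≤ p) :
    IsDiscreteValuationRing (locAt F p) := by
  obtain ⟨s, hs', hs⟩ := SetLike.not_le_iff_exists.1 hle
  exact isDiscreteValuationRing_locAt_of_colon p w s hw (base_colon hinf hs' hs)

variable (F) in
/-- The valuation subring `B_p` of `F`. -/
noncomputable def baseV {w : B} (hw : w ≠ 0) {p p' : Ideal B} [hp : p.IsPrime]
    (hinf : p ⊓ p' = Ideal.span {w}) (hle : ¬ p' ≤ p) : ValuationSubring F :=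
  haveI := base_dvr F hw hinf hle
  locValuationSubring p (inferInstance : ValuationRing (locAt F p))

theorem mem_baseV_iff {w : B} (hw : w ≠ 0) {p p' : Ideal B} [hp : p.IsPrime]
    (hinf : p ⊓ p' = Ideal.span {w}) (hle : ¬ p' ≤ p) (c : F) :
    c ∈ baseV F hw hinf hle ↔
      ∃ a s : B, s ∉ p ∧ c = algebraMap B F a * (algebraMap B F s)⁻¹ :=
  mem_locAt_iff p c

theorem algebraMap_mem_baseV {w : B} (hw : w ≠ 0) {p p' : Ideal B} [hp : p.IsPrime]
    (hinf : p ⊓ p' = Ideal.span {w}) (hle : ¬ p' ≤ p) (b : B) :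
    algebraMap B F b ∈ baseV F hw hinf hle :=
  (mem_baseV_iff hw hinf hle _).2 ⟨b, 1, fun h => hp.ne_top ((Ideal.eq_top_iff_one p).2 h),
    by rw [map_one, inv_one, mul_one]⟩

theorem inv_mem_baseV {w : B} (hw : w ≠ 0) {p p' : Ideal B} [hp : p.IsPrime]
    (hinf : p ⊓ p' = Ideal.span {w}) (hle : ¬ p' ≤ p) {s : B} (hs : s ∉ p) :
    (algebraMap B F s)⁻¹ ∈ baseV F hw hinf hle :=
  (mem_baseV_iff hw hinf hle _).2 ⟨1, s, hs, by rw [map_one, one_mul]⟩

/-- Elements of `p` are non-units of `B_p`. -/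
theorem mem_nonunits_baseV {w : B} (hw : w ≠ 0) {p p' : Ideal B} [hp : p.IsPrime]
    (hinf : p ⊓ p' = Ideal.span {w}) (hle : ¬ p' ≤ p) {r : B} (hr : r ∈ p) :
    algebraMap B F r ∈ (baseV F hw hinf hle).nonunits := by
  have hinj : Function.Injective (algebraMap B F) := IsFractionRing.injective B F
  rw [ValuationSubring.mem_nonunits_iff_or]
  by_cases hr0 : r = 0
  · left
    rw [hr0, map_zero]
  · right
    exact (isLocDVR_locValuationSubring p (base_dvr F hw hinf hle)).inv_not_mem r hr hr0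

/-- The maximal ideal of `B_p` is generated by `w`. -/
theorem base_maximalIdeal {w : B} {p p' : Ideal B} [hp : p.IsPrime]
    (hinf : p ⊓ p' = Ideal.span {w}) (hle : ¬ p' ≤ p) :
    maximalIdeal (locAt F p) = Ideal.span {algebraMap B (locAt F p) w} := by
  obtain ⟨s, hs', hs⟩ := SetLike.not_le_iff_exists.1 hle
  rw [← IsLocalization.AtPrime.map_eq_maximalIdeal p (locAt F p)]
  apply le_antisymm
  · rw [Ideal.map_le_iff_le_comap]
    intro r hr
    obtain ⟨b, hb⟩ := (base_colon hinf hs' hs r).1 hr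
    rw [Ideal.mem_comap, Ideal.mem_span_singleton]
    have hsu : IsUnit (algebraMap B (locAt F p) s) :=
      IsLocalization.map_units (M := p.primeCompl) (locAt F p) ⟨s, hs⟩
    obtain ⟨t, ht⟩ := hsu.exists_right_inv
    refine ⟨algebraMap B (locAt F p) b * t, ?_⟩
    calc algebraMap B (locAt F p) r
        = algebraMap B (locAt F p) r * (algebraMap B (locAt F p) s * t) := by
          rw [ht, mul_one]
      _ = algebraMap B (locAt F p) (r * s) * t := by rw [map_mul]; ring
      _ = algebraMap B (locAt F p) w * (algebraMap B (locAt F p) b * t) := by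
          rw [hb, map_mul]; ring
  · rw [Ideal.span_singleton_le_iff_mem]
    exact Ideal.mem_map_of_mem _ (base_w_mem hinf)

/-- **Discreteness**: every nonzero element of `F` is `w ^ n` times a unit of `B_p`. -/
theorem base_discrete {w : B} (hw : w ≠ 0) {p p' : Ideal B} [hp : p.IsPrime]
    (hinf : p ⊓ p' = Ideal.span {w}) (hle : ¬ p' ≤ p) (f : F) (hf : f ≠ 0) :
    ∃ (n : ℤ) (u : F), u ∈ baseV F hw hinf hle ∧ u⁻¹ ∈ baseV F hw hinf hle ∧
      f = algebraMap B F w ^ n * u := by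
  have := base_dvr F hw hinf hle
  set D := locAt F p with hD
  set wD : D := algebraMap B D w with hwD
  have hirr : Irreducible wD :=
    (IsDiscreteValuationRing.irreducible_iff_uniformizer wD).2 (base_maximalIdeal hinf hle)
  have hwF : ((wD : D) : F) = algebraMap B F w := rfl
  -- the case `f ∈ B_p`
  have key : ∀ g : F, g ≠ 0 → g ∈ baseV F hw hinf hle →
      ∃ (n : ℕ) (u : F), u ∈ baseV F hw hinf hle ∧ u⁻¹ ∈ baseV F hw hinf hle ∧
        g = algebraMap B F w ^ n * u := by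
    intro g hg hgV
    have hgD : g ∈ D := hgV
    have hd0 : (⟨g, hgD⟩ : D) ≠ 0 := fun h => hg (congrArg (fun z : D => (z : F)) h)
    obtain ⟨n, u, hu⟩ := IsDiscreteValuationRing.associated_pow_irreducible hd0 hirr
    -- `g * u = wD ^ n`
    have h1 : g * ((u : D) : F) = algebraMap B F w ^ n := by
      have h4 := congrArg (fun z : D => (z : F)) hu
      simp only [Subalgebra.coe_mul, Subalgebra.coe_pow] at h4
      rw [hwF] at h4
      exact h4
    have hu0 : ((u : D) : F) ≠ 0 := by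
      intro h0
      have : ((u : D)) = 0 := Subtype.ext h0
      exact u.ne_zero this
    have huinv : (((u⁻¹ : Dˣ) : D) : F) = (((u : D) : F))⁻¹ := by
      have h2 : ((u : D) : F) * (((u⁻¹ : Dˣ) : D) : F) = 1 := by
        have h3 : ((u : D) * ((u⁻¹ : Dˣ) : D) : D) = 1 := u.mul_inv
        exact congrArg (fun z : D => (z : F)) h3
      exact eq_inv_of_mul_eq_one_right h2
    refine ⟨n, (((u : D) : F))⁻¹, ?_, ?_, ?_⟩
    · rw [← huinv]
      exact ((u⁻¹ : Dˣ) : D).2
    · rw [inv_inv]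
      exact (u : D).2
    · rw [← h1]
      field_simp
  rcases (baseV F hw hinf hle).mem_or_inv_mem f with h | h
  · obtain ⟨n, u, hu, hu', hfu⟩ := key f hf h
    exact ⟨n, u, hu, hu', by rw [hfu, zpow_natCast]⟩
  · obtain ⟨n, u, hu, hu', hfu⟩ := key f⁻¹ (inv_ne_zero hf) h
    refine ⟨-n, u⁻¹, hu', by rwa [inv_inv], ?_⟩
    rw [zpow_neg, zpow_natCast, ← mul_inv, ← hfu, inv_inv]

end Abs

end Fermat.Agent.A2.H643

end
-- ===== PACK-END A2/H643/BaseAbs.lean

-- ===== PACK-BEGIN S36/H153/IncFull.lean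
section


/-!
# S36 engine, cell INCIDENCE (helper153) — full fibre description `INC-1 .. INC-3`

Continuation of `Incidence.lean` (Mathlib only).  `IncFull` = `IncData` + the two missing
"only" statements + residue degree one (`Radicial`) for the four remaining (component, map) pairs.
All fields are statements about the `(e, f)` table of MOD3 and Kronecker-type congruences on the
charts; NO modular unit, NO Krull principal ideal theorem, NO noetherian hypothesis is used:
everything follows from going-up + going-down.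

Results (numbering of `coord/S36-INCIDENCE-helper578.md`):

* `a_P1_iff`, `a_P2_iff`, `b_P1_iff`, `b_P2_iff` : the image of a prime lies on `C₁'` (`C₂'`) iff the
  prime lies on one of the components over it;
* `inc1_a` : over a point of `C₁' ∖ C₂'` (via `α`) there are exactly two primes, one on `FF` only
  and one on `mid` only, and they are different;
* `inc2_a` : over a point of `C₂' ∖ C₁'` (via `α`) there is exactly one prime, on `VV` only;
* `inc1_b`, `inc2_b` : the same via `β` (`C₂' ∖ C₁'`: `mid`-only and `VV`-only; `C₁' ∖ C₂'`: `FF`);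
* (`INC-3` is `IncData.exists_unique_triple_over_node_a / _b` of `Incidence.lean`);
* adapters `only_of_cover`, `only₂_of_cover` : the "only" fields from the statement
  "every prime containing `w` contains one of the three vertical primes" (`q B ⊇ p_FF p_mid^(q-1)
  p_VV`) and incomparability.
-/

set_option autoImplicit false
set_option linter.style.haveILetI false
set_option linter.unusedSectionVars false

namespace Fermat.Agent.S36.H153

open Ideal

/-- Full incidence datum. -/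
structure IncFull {A B : Type*} [CommRing A] [CommRing B] (a b : A →+* B)
    (P1 P2 : Ideal A) (pFF pmid pVV : Ideal B) : Prop extends IncData a b P1 P2 pFF pmid pVV where
  /-- `FF`, `mid` are the only primes over `C₁'` via `α` -/
  a_only₁ : ∀ p : Ideal B, p.IsPrime → p.comap a = P1 → p = pFF ∨ p = pmid
  /-- `mid`, `VV` are the only primes over `C₂'` via `β` -/
  b_only₂ : ∀ p : Ideal B, p.IsPrime → p.comap b = P2 → p = pmid ∨ p = pVV
  a_rad_FF : Radicial a pFF
  a_rad_mid : Radicial a pmid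
  b_rad_mid : Radicial b pmid
  b_rad_VV : Radicial b pVV

namespace IncFull

variable {A B : Type*} [CommRing A] [CommRing B] [IsDomain A] [IsDomain B]
  [IsIntegrallyClosed A] {a b : A →+* B} {P1 P2 : Ideal A} {pFF pmid pVV : Ideal B}

theorem ff_or_mid_le_of_a (D : IncFull a b P1 P2 pFF pmid pVV) (n : Ideal B) [n.IsPrime]
    (h : P1 ≤ n.comap a) : pFF ≤ n ∨ pmid ≤ n := by
  haveI := D.primeP1
  obtain ⟨p, hp, hpn, hpc⟩ := exists_prime_le_comap_eq a D.a_inj D.a_int P1 n h
  rcases D.a_only₁ p hp hpc with rfl | rfl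
  · exact Or.inl hpn
  · exact Or.inr hpn

theorem mid_or_vv_le_of_b (D : IncFull a b P1 P2 pFF pmid pVV) (n : Ideal B) [n.IsPrime]
    (h : P2 ≤ n.comap b) : pmid ≤ n ∨ pVV ≤ n := by
  haveI := D.primeP2
  obtain ⟨p, hp, hpn, hpc⟩ := exists_prime_le_comap_eq b D.b_inj D.b_int P2 n h
  rcases D.b_only₂ p hp hpc with rfl | rfl
  · exact Or.inl hpn
  · exact Or.inr hpn

theorem a_P1_iff (D : IncFull a b P1 P2 pFF pmid pVV) (n : Ideal B) [n.IsPrime] :
    P1 ≤ n.comap a ↔ (pFF ≤ n ∨ pmid ≤ n) :=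
  ⟨D.ff_or_mid_le_of_a n, fun h => h.elim (fun h => D.a_FF ▸ Ideal.comap_mono h)
    (fun h => D.a_mid ▸ Ideal.comap_mono h)⟩

theorem a_P2_iff (D : IncFull a b P1 P2 pFF pmid pVV) (n : Ideal B) [n.IsPrime] :
    P2 ≤ n.comap a ↔ pVV ≤ n :=
  ⟨D.toIncData.vv_le_of_a n, fun h => D.a_VV ▸ Ideal.comap_mono h⟩

theorem b_P1_iff (D : IncFull a b P1 P2 pFF pmid pVV) (n : Ideal B) [n.IsPrime] :
    P1 ≤ n.comap b ↔ pFF ≤ n :=
  ⟨D.toIncData.ff_le_of_b n, fun h => D.b_FF ▸ Ideal.comap_mono h⟩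

theorem b_P2_iff (D : IncFull a b P1 P2 pFF pmid pVV) (n : Ideal B) [n.IsPrime] :
    P2 ≤ n.comap b ↔ (pmid ≤ n ∨ pVV ≤ n) :=
  ⟨D.mid_or_vv_le_of_b n, fun h => h.elim (fun h => D.b_mid ▸ Ideal.comap_mono h)
    (fun h => D.b_VV ▸ Ideal.comap_mono h)⟩

/-- A prime is a triple point iff its `α`-image is a node iff its `β`-image is a node. -/
theorem node_a_iff_node_b (D : IncFull a b P1 P2 pFF pmid pVV) (n : Ideal B) [n.IsPrime] :
    (P1 ≤ n.comap a ∧ P2 ≤ n.comap a) ↔ (P1 ≤ n.comap b ∧ P2 ≤ n.comap b) := by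
  constructor
  · rintro ⟨h1, h2⟩
    obtain ⟨hFF, -, hVV⟩ := D.toIncData.triple_of_node_a n h1 h2
    exact (D.toIncData.node_of_triple n hFF hVV).2
  · rintro ⟨h1, h2⟩
    obtain ⟨hFF, -, hVV⟩ := D.toIncData.triple_of_node_b n h1 h2
    exact (D.toIncData.node_of_triple n hFF hVV).1

/-- **INC-1 (via `α`).**  Over a point of `C₁' ∖ C₂'` there are exactly two primes of `B`: one on
`FF` only, one on `mid` only. -/
theorem inc1_a (D : IncFull a b P1 P2 pFF pmid pVV) (N : Ideal A) [N.IsPrime]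
    (h1 : P1 ≤ N) (h2 : ¬ P2 ≤ N) :
    ∃ nFF nmid : Ideal B, nFF.IsPrime ∧ nmid.IsPrime ∧ nFF.comap a = N ∧ nmid.comap a = N ∧
      (pFF ≤ nFF ∧ ¬ pmid ≤ nFF ∧ ¬ pVV ≤ nFF) ∧ (¬ pFF ≤ nmid ∧ pmid ≤ nmid ∧ ¬ pVV ≤ nmid) ∧
      nFF ≠ nmid ∧ ∀ n : Ideal B, n.IsPrime → n.comap a = N → n = nFF ∨ n = nmid := by
  obtain ⟨nFF, hFFp, hFFle, hFFc⟩ :=
    exists_prime_ge_comap_eq a D.a_int pFF N (by rw [D.a_FF]; exact h1)
  obtain ⟨nmid, hmidp, hmidle, hmidc⟩ :=
    exists_prime_ge_comap_eq a D.a_int pmid N (by rw [D.a_mid]; exact h1)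
  haveI := hFFp
  haveI := hmidp
  have noVV : ∀ n : Ideal B, n.comap a = N → ¬ pVV ≤ n := fun n hc hVV =>
    h2 (hc ▸ D.a_VV ▸ Ideal.comap_mono hVV)
  have hFF3 : pFF ≤ nFF ∧ ¬ pmid ≤ nFF ∧ ¬ pVV ≤ nFF :=
    ⟨hFFle, fun hm => noVV nFF hFFc
      (D.toIncData.triple_of_two nFF (Or.inl ⟨hFFle, hm⟩)).2.2, noVV nFF hFFc⟩
  have hmid3 : ¬ pFF ≤ nmid ∧ pmid ≤ nmid ∧ ¬ pVV ≤ nmid :=
    ⟨fun hf => noVV nmid hmidc
      (D.toIncData.triple_of_two nmid (Or.inl ⟨hf, hmidle⟩)).2.2, hmidle, noVV nmid hmidc⟩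
  refine ⟨nFF, nmid, hFFp, hmidp, hFFc, hmidc, hFF3, hmid3, ?_, ?_⟩
  · intro heq
    exact hmid3.1 (heq ▸ hFFle)
  · intro n hn hc
    haveI := hn
    rcases D.ff_or_mid_le_of_a n (hc ▸ h1) with h | h
    · exact Or.inl (D.a_rad_FF.eq_of_comap_eq h hFFle (hc.trans hFFc.symm))
    · exact Or.inr (D.a_rad_mid.eq_of_comap_eq h hmidle (hc.trans hmidc.symm))

/-- **INC-2 (via `α`).**  Over a point of `C₂' ∖ C₁'` there is exactly one prime of `B`; it lies
on `VV` only. -/
theorem inc2_a (D : IncFull a b P1 P2 pFF pmid pVV) (N : Ideal A) [N.IsPrime]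
    (h1 : ¬ P1 ≤ N) (h2 : P2 ≤ N) :
    ∃ n : Ideal B, n.IsPrime ∧ n.comap a = N ∧ (¬ pFF ≤ n ∧ ¬ pmid ≤ n ∧ pVV ≤ n) ∧
      ∀ n' : Ideal B, n'.IsPrime → n'.comap a = N → n' = n := by
  obtain ⟨n, hn, hle, hc⟩ := exists_prime_ge_comap_eq a D.a_int pVV N (by rw [D.a_VV]; exact h2)
  haveI := hn
  refine ⟨n, hn, hc, ⟨fun h => h1 (hc ▸ D.a_FF ▸ Ideal.comap_mono h),
    fun h => h1 (hc ▸ D.a_mid ▸ Ideal.comap_mono h), hle⟩, fun n' hn' hc' => ?_⟩
  haveI := hn'
  exact D.toIncData.unique_over_a n n' hle (hc'.trans hc.symm)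

/-- **INC-1 (via `β`).**  Over a point of `C₂' ∖ C₁'` there are exactly two primes of `B`: one on
`mid` only, one on `VV` only. -/
theorem inc1_b (D : IncFull a b P1 P2 pFF pmid pVV) (N : Ideal A) [N.IsPrime]
    (h1 : ¬ P1 ≤ N) (h2 : P2 ≤ N) :
    ∃ nmid nVV : Ideal B, nmid.IsPrime ∧ nVV.IsPrime ∧ nmid.comap b = N ∧ nVV.comap b = N ∧
      (¬ pFF ≤ nmid ∧ pmid ≤ nmid ∧ ¬ pVV ≤ nmid) ∧ (¬ pFF ≤ nVV ∧ ¬ pmid ≤ nVV ∧ pVV ≤ nVV) ∧
      nmid ≠ nVV ∧ ∀ n : Ideal B, n.IsPrime → n.comap b = N → n = nmid ∨ n = nVV := by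
  obtain ⟨nmid, hmidp, hmidle, hmidc⟩ :=
    exists_prime_ge_comap_eq b D.b_int pmid N (by rw [D.b_mid]; exact h2)
  obtain ⟨nVV, hVVp, hVVle, hVVc⟩ :=
    exists_prime_ge_comap_eq b D.b_int pVV N (by rw [D.b_VV]; exact h2)
  haveI := hmidp
  haveI := hVVp
  have noFF : ∀ n : Ideal B, n.comap b = N → ¬ pFF ≤ n := fun n hc hFF =>
    h1 (hc ▸ D.b_FF ▸ Ideal.comap_mono hFF)
  have hmid3 : ¬ pFF ≤ nmid ∧ pmid ≤ nmid ∧ ¬ pVV ≤ nmid :=
    ⟨noFF nmid hmidc, hmidle, fun hv => noFF nmid hmidc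
      (D.toIncData.triple_of_two nmid (Or.inr (Or.inr ⟨hmidle, hv⟩))).1⟩
  have hVV3 : ¬ pFF ≤ nVV ∧ ¬ pmid ≤ nVV ∧ pVV ≤ nVV :=
    ⟨noFF nVV hVVc, fun hm => noFF nVV hVVc
      (D.toIncData.triple_of_two nVV (Or.inr (Or.inr ⟨hm, hVVle⟩))).1, hVVle⟩
  refine ⟨nmid, nVV, hmidp, hVVp, hmidc, hVVc, hmid3, hVV3, ?_, ?_⟩
  · intro heq
    exact hVV3.2.1 (heq ▸ hmidle)
  · intro n hn hc
    haveI := hn
    rcases D.mid_or_vv_le_of_b n (hc ▸ h2) with h | h
    · exact Or.inl (D.b_rad_mid.eq_of_comap_eq h hmidle (hc.trans hmidc.symm))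
    · exact Or.inr (D.b_rad_VV.eq_of_comap_eq h hVVle (hc.trans hVVc.symm))

/-- **INC-2 (via `β`).**  Over a point of `C₁' ∖ C₂'` there is exactly one prime of `B`; it lies
on `FF` only. -/
theorem inc2_b (D : IncFull a b P1 P2 pFF pmid pVV) (N : Ideal A) [N.IsPrime]
    (h1 : P1 ≤ N) (h2 : ¬ P2 ≤ N) :
    ∃ n : Ideal B, n.IsPrime ∧ n.comap b = N ∧ (pFF ≤ n ∧ ¬ pmid ≤ n ∧ ¬ pVV ≤ n) ∧
      ∀ n' : Ideal B, n'.IsPrime → n'.comap b = N → n' = n := by
  obtain ⟨n, hn, hle, hc⟩ := exists_prime_ge_comap_eq b D.b_int pFF N (by rw [D.b_FF]; exact h1)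
  haveI := hn
  refine ⟨n, hn, hc, ⟨hle, fun h => h2 (hc ▸ D.b_mid ▸ Ideal.comap_mono h),
    fun h => h2 (hc ▸ D.b_VV ▸ Ideal.comap_mono h)⟩, fun n' hn' hc' => ?_⟩
  haveI := hn'
  exact D.toIncData.unique_over_b n n' hle (hc'.trans hc.symm)

end IncFull

/-! ## Adapters: the "only" fields from a cover statement -/

section Cover

variable {A B : Type*} [CommRing A] [CommRing B]

/-- Incomparability for an integral ring homomorphism: two primes `p ≤ p'` with the same
contraction are equal. -/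
theorem eq_of_le_of_comap_eq (a : A →+* B) (ha_int : a.IsIntegral) {p p' : Ideal B}
    [p.IsPrime] (hle : p ≤ p') (hc : p.comap a = p'.comap a) : p = p' := by
  by_contra hne
  have hlt : p < p' := lt_of_le_of_ne hle hne
  letI : Algebra A B := a.toAlgebra
  haveI : Algebra.IsIntegral A B := ⟨ha_int⟩
  have := Ideal.IsIntegral.comap_lt_comap (R := A) hlt
  exact absurd hc (ne_of_lt this)

/-- If every prime of `B` containing `a w` contains one of `p₁ p₂ p₃`, `w ∈ P`, and among the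
three only `p₃` contracts to a prime contained in `P`, then `p₃` is the only prime over `P`. -/
theorem only_of_cover (a : A →+* B) (ha_int : a.IsIntegral) {P : Ideal A} {p₁ p₂ p₃ : Ideal B}
    [p₃.IsPrime] {w : A} (hw : w ∈ P)
    (hcover : ∀ p : Ideal B, p.IsPrime → a w ∈ p → p₁ ≤ p ∨ p₂ ≤ p ∨ p₃ ≤ p)
    (h₁ : ¬ p₁.comap a ≤ P) (h₂ : ¬ p₂.comap a ≤ P) (h₃ : p₃.comap a = P)
    (p : Ideal B) (hp : p.IsPrime) (hc : p.comap a = P) : p = p₃ := by
  have hwp : a w ∈ p := by
    have : w ∈ p.comap a := hc ▸ hw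
    exact this
  rcases hcover p hp hwp with h | h | h
  · exact absurd (hc ▸ Ideal.comap_mono h) h₁
  · exact absurd (hc ▸ Ideal.comap_mono h) h₂
  · exact (eq_of_le_of_comap_eq a ha_int h (h₃.trans hc.symm)).symm

/-- Two-component version: if among the three only `p₁`, `p₂` contract to primes contained in `P`,
every prime over `P` is `p₁` or `p₂`. -/
theorem only₂_of_cover (a : A →+* B) (ha_int : a.IsIntegral) {P : Ideal A} {p₁ p₂ p₃ : Ideal B}
    [p₁.IsPrime] [p₂.IsPrime] {w : A} (hw : w ∈ P)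
    (hcover : ∀ p : Ideal B, p.IsPrime → a w ∈ p → p₁ ≤ p ∨ p₂ ≤ p ∨ p₃ ≤ p)
    (h₁ : p₁.comap a = P) (h₂ : p₂.comap a = P) (h₃ : ¬ p₃.comap a ≤ P)
    (p : Ideal B) (hp : p.IsPrime) (hc : p.comap a = P) : p = p₁ ∨ p = p₂ := by
  have hwp : a w ∈ p := by
    have : w ∈ p.comap a := hc ▸ hw
    exact this
  rcases hcover p hp hwp with h | h | h
  · exact Or.inl (eq_of_le_of_comap_eq a ha_int h (h₁.trans hc.symm)).symm
  · exact Or.inr (eq_of_le_of_comap_eq a ha_int h (h₂.trans hc.symm)).symm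
  · exact absurd (hc ▸ Ideal.comap_mono h) h₃

/-- A prime containing `p₁ ^ e₁ * p₂ ^ e₂ * p₃ ^ e₃` contains one of the three ideals. -/
theorem le_of_mul_pow_le {p₁ p₂ p₃ p : Ideal B} [hp : p.IsPrime] {e₁ e₂ e₃ : ℕ}
    (h : p₁ ^ e₁ * p₂ ^ e₂ * p₃ ^ e₃ ≤ p) : p₁ ≤ p ∨ p₂ ≤ p ∨ p₃ ≤ p := by
  rcases (Ideal.IsPrime.mul_le hp).mp h with h12 | h3
  · rcases (Ideal.IsPrime.mul_le hp).mp h12 with h1 | h2
    · exact Or.inl (Ideal.IsPrime.le_of_pow_le h1)
    · exact Or.inr (Or.inl (Ideal.IsPrime.le_of_pow_le h2))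
  · exact Or.inr (Or.inr (Ideal.IsPrime.le_of_pow_le h3))

/-- The cover statement from an inclusion `p₁ ^ e₁ * p₂ ^ e₂ * p₃ ^ e₃ ≤ (w')`
(e.g. `q B = p_FF ∩ p_mid^(q-1) ∩ p_VV`): every prime containing `w'` contains one of the three
ideals. -/
theorem cover_of_mul_pow_le {p₁ p₂ p₃ : Ideal B} {w' : B} {e₁ e₂ e₃ : ℕ}
    (h : p₁ ^ e₁ * p₂ ^ e₂ * p₃ ^ e₃ ≤ Ideal.span {w'})
    (p : Ideal B) (hp : p.IsPrime) (hw : w' ∈ p) : p₁ ≤ p ∨ p₂ ≤ p ∨ p₃ ≤ p :=
  haveI := hp
  le_of_mul_pow_le (h.trans ((Ideal.span_singleton_le_iff_mem p).mpr hw))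

end Cover

end Fermat.Agent.S36.H153

end
-- ===== PACK-END S36/H153/IncFull.lean

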