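import Mathlib
import Fermat.Prelude.Def_ModularCurve_ArithmeticGalois
import Fermat.Prelude.Def_ModularCurve_HeckeModule
import Fermat.Prelude.Thm_ModularCurve_coeffMap_qExpand
import Fermat.Prelude.Def_ModularCurve_X0ModL
import Fermat.Agent.Pack.S36.E0L3
import Fermat.Agent.Pack.S36.E0L1
import Fermat.Agent.Pack.S36.E0L0
import Fermat.Agent.Pack.S36.E0L2
import Fermat.Agent.Pack.S36.E1L2

-- ===== PACK-BEGIN S36/H756/Desc.lean
section





/-!
# S36 engine, leaf DESC (owner helper756) — concrete part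

`Q̄ = AlgebraicClosure ℚ`, `F₀ ⊆ ℚ((q))`, `K = laurentBaseChange Q̄ F₀ ⊆ Q̄((q))`,
`act τ = arithmeticRingAut F₀ τ` (coefficientwise Galois action).

* `lcK F₀ : K →*₀ K` : the leading coefficient, as a constant of `K`.
* `orbit_finite` : every element of `K` has a finite orbit under `Gal(Q̄/ℚ)`.
* `eq_one_of_pow_eq_one` : an `m`-th root of unity of `K` with leading coefficient `1` is `1`.
* `fixed_of_pow_fixed` (**T3**) : if `h ^ m` is fixed by `τ` and the leading coefficient of `h`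
  is fixed by `τ`, then `h` is fixed by `τ`.
* `exists_fixed_rep` (**T1**) : if `f ≠ 0` and `τ f ∈ Q̄ˣ · Kˣᵐ · f` for all `τ` in a subgroup
  `G`, then `a · b ^ m · f` is `G`-fixed for suitable `a ∈ Q̄ˣ`, `b ∈ Kˣ`.
-/

set_option autoImplicit false

noncomputable section

namespace Fermat.Agent.S36.H756

open ModularCurve HahnSeries IntermediateField

local notation "Q̄" => AlgebraicClosure ℚ

/-! ## 1. Leading coefficients and `coeffMap` -/

section LeadingCoeff

variable {R S : Type*} [CommRing R] [CommRing S]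

theorem orderTop_coeffMap (φ : R →+* S) (hφ : Function.Injective φ) (x : LaurentSeries R) :
    (coeffMap φ x).orderTop = x.orderTop := by
  refine eq_of_forall_le_iff fun i => ?_
  rw [HahnSeries.le_orderTop_iff_forall, HahnSeries.le_orderTop_iff_forall]
  refine forall_congr' fun j => imp_congr_right fun _ => ?_
  rw [coeffMap_coeff, map_eq_zero_iff φ hφ]

theorem leadingCoeff_coeffMap (φ : R →+* S) (hφ : Function.Injective φ) (x : LaurentSeries R) :
    (coeffMap φ x).leadingCoeff = φ x.leadingCoeff := by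
  unfold HahnSeries.leadingCoeff
  rw [orderTop_coeffMap φ hφ]
  cases x.orderTop with
  | top => simp
  | coe n => simp

end LeadingCoeff

/-! ## 2. The leading coefficient on `K = laurentBaseChange Q̄ F₀` -/

section LcK

variable (F₀ : IntermediateField ℚ (LaurentSeries ℚ))

/-- The leading coefficient of an element of `K`, as a constant of `K`. -/
def lcK : laurentBaseChange Q̄ F₀ →*₀ laurentBaseChange Q̄ F₀ where
  toFun x := algebraMap Q̄ (laurentBaseChange Q̄ F₀) (x : LaurentSeries Q̄).leadingCoeff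
  map_zero' := by simp
  map_one' := by
    show algebraMap Q̄ (laurentBaseChange Q̄ F₀) (1 : LaurentSeries Q̄).leadingCoeff = 1
    rw [HahnSeries.leadingCoeff_one, map_one]
  map_mul' x y := by
    show algebraMap Q̄ (laurentBaseChange Q̄ F₀)
        ((x : LaurentSeries Q̄) * (y : LaurentSeries Q̄)).leadingCoeff = _
    rw [HahnSeries.leadingCoeff_mul, map_mul]

variable {F₀}

theorem lcK_apply (x : laurentBaseChange Q̄ F₀) :
    lcK F₀ x = algebraMap Q̄ (laurentBaseChange Q̄ F₀) (x : LaurentSeries Q̄).leadingCoeff :=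
  rfl

theorem coe_algebraMap_K (c : Q̄) :
    ((algebraMap Q̄ (laurentBaseChange Q̄ F₀) c : laurentBaseChange Q̄ F₀) : LaurentSeries Q̄)
      = HahnSeries.single 0 c := by
  rw [← algebraMap_laurentSeries_eq_single]
  rfl

theorem lcK_algebraMap (c : Q̄) :
    lcK F₀ (algebraMap Q̄ (laurentBaseChange Q̄ F₀) c)
      = algebraMap Q̄ (laurentBaseChange Q̄ F₀) c := by
  rw [lcK_apply, coe_algebraMap_K, HahnSeries.leadingCoeff_of_single]

theorem lcK_lcK (x : laurentBaseChange Q̄ F₀) : lcK F₀ (lcK F₀ x) = lcK F₀ x :=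
  lcK_algebraMap _

theorem lcK_ne_zero {x : laurentBaseChange Q̄ F₀} (hx : x ≠ 0) : lcK F₀ x ≠ 0 := by
  rw [lcK_apply]
  have h1 : (x : LaurentSeries Q̄) ≠ 0 := fun h => hx (Subtype.ext h)
  have h2 : (x : LaurentSeries Q̄).leadingCoeff ≠ 0 := HahnSeries.leadingCoeff_ne_zero.2 h1
  simpa using h2

theorem lcK_act (τ : Q̄ ≃ₐ[ℚ] Q̄) (x : laurentBaseChange Q̄ F₀) :
    lcK F₀ (arithmeticRingAut F₀ τ x) = arithmeticRingAut F₀ τ (lcK F₀ x) := by
  rw [lcK_apply, lcK_apply, arithmeticRingAut_algebraMap, coe_arithmeticRingAut_apply,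
    leadingCoeff_coeffMap _ τ.injective]
  rfl

theorem act_mul (σ τ : Q̄ ≃ₐ[ℚ] Q̄) (x : laurentBaseChange Q̄ F₀) :
    arithmeticRingAut F₀ (σ * τ) x = arithmeticRingAut F₀ σ (arithmeticRingAut F₀ τ x) := by
  apply Subtype.ext
  show coeffMap ((σ * τ : Q̄ ≃ₐ[ℚ] Q̄) : Q̄ →+* Q̄) (x : LaurentSeries Q̄)
      = coeffMap (σ : Q̄ →+* Q̄) (coeffMap (τ : Q̄ →+* Q̄) (x : LaurentSeries Q̄))
  rw [coeffMap_coeffMap]
  exact coeffMap_congr (RingHom.ext fun _ => rfl) _

/-- A constant of `K` whose image... : an element of `K` algebraic over `Q̄` is a constant. -/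
theorem mem_range_of_isIntegral {x : laurentBaseChange Q̄ F₀} (hx : IsIntegral Q̄ x) :
    ∃ c : Q̄, algebraMap Q̄ (laurentBaseChange Q̄ F₀) c = x := by
  have h1 : Irreducible (minpoly Q̄ x) := minpoly.irreducible hx
  have h2 := IsAlgClosed.degree_eq_one_of_irreducible Q̄ h1
  obtain ⟨c, hc⟩ := minpoly.mem_range_of_degree_eq_one Q̄ x h2
  exact ⟨c, hc⟩

/-- An `m`-th root of unity of `K` with leading coefficient `1` is `1`. -/
theorem eq_one_of_pow_eq_one {m : ℕ} (hm : 0 < m) (x : laurentBaseChange Q̄ F₀)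
    (hx : x ^ m = 1) (hl : lcK F₀ x = 1) : x = 1 := by
  have hint : IsIntegral Q̄ x := by
    refine ⟨Polynomial.X ^ m - 1, Polynomial.monic_X_pow_sub_C (1 : Q̄) hm.ne', ?_⟩
    simp [hx]
  obtain ⟨c, rfl⟩ := mem_range_of_isIntegral hint
  rw [lcK_algebraMap] at hl
  exact hl

end LcK

/-! ## 3. Finiteness of orbits -/

section Orbit

variable {F₀ : IntermediateField ℚ (LaurentSeries ℚ)}

theorem orbit_finite_series {x : LaurentSeries Q̄} (hx : x ∈ laurentBaseChange Q̄ F₀) :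
    (Set.range fun τ : Q̄ ≃ₐ[ℚ] Q̄ => coeffMap (τ : Q̄ →+* Q̄) x).Finite := by
  obtain ⟨E, hE, y, -, rfl⟩ := Fermat.Agent.S18.H602.exists_finite_descent hx
  have hfin : Finite (E →ₐ[ℚ] Q̄) := inferInstance
  refine (Set.finite_range fun ψ : E →ₐ[ℚ] Q̄ => coeffMap (ψ : E →+* Q̄) y).subset ?_
  rintro _ ⟨τ, rfl⟩
  refine ⟨(τ : Q̄ →ₐ[ℚ] Q̄).comp E.val, ?_⟩
  show coeffMap _ y = coeffMap (τ : Q̄ →+* Q̄) (coeffMap (algebraMap E Q̄) y)
  rw [coeffMap_coeffMap]
  exact coeffMap_congr (RingHom.ext fun _ => rfl) _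

theorem orbit_finite (x : laurentBaseChange Q̄ F₀) :
    (Set.range fun τ : Q̄ ≃ₐ[ℚ] Q̄ => arithmeticRingAut F₀ τ x).Finite := by
  have h := orbit_finite_series x.2
  refine Set.Finite.subset (h.preimage (Subtype.val_injective.injOn)) ?_
  rintro _ ⟨τ, rfl⟩
  exact ⟨τ, rfl⟩

theorem orbit_finite_subgroup (G : Subgroup (Q̄ ≃ₐ[ℚ] Q̄)) (x : laurentBaseChange Q̄ F₀) :
    (Set.range fun τ : G => arithmeticRingAut F₀ (τ : Q̄ ≃ₐ[ℚ] Q̄) x).Finite := by
  refine (orbit_finite x).subset ?_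
  rintro _ ⟨τ, rfl⟩
  exact ⟨τ, rfl⟩

end Orbit

/-! ## 4. The descent theorems -/

section Descent

variable {F₀ : IntermediateField ℚ (LaurentSeries ℚ)}

/-- **T3 (rigidity).** If `h ^ m` (`m > 0`) and the leading coefficient of `h` are fixed by `τ`,
then so is `h`. -/
theorem fixed_of_pow_fixed {m : ℕ} (hm : 0 < m) (τ : Q̄ ≃ₐ[ℚ] Q̄)
    (h : laurentBaseChange Q̄ F₀)
    (hl : arithmeticRingAut F₀ τ (lcK F₀ h) = lcK F₀ h)
    (hp : arithmeticRingAut F₀ τ (h ^ m) = h ^ m) :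
    arithmeticRingAut F₀ τ h = h := by
  rcases eq_or_ne h 0 with rfl | h0
  · simp
  have e1 : (arithmeticRingAut F₀ τ h / h) ^ m = 1 := by
    rw [div_pow, ← map_pow, hp, div_self (pow_ne_zero m h0)]
  have e2 : lcK F₀ (arithmeticRingAut F₀ τ h / h) = 1 := by
    rw [map_div₀, lcK_act, hl, div_self (lcK_ne_zero h0)]
  have e3 := eq_one_of_pow_eq_one hm _ e1 e2
  rwa [div_eq_one_iff_eq h0] at e3

/-- **T1, normalised form.** If `f ≠ 0` and `τ f = h_τ ^ m · f` with `h_τ` of leading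
coefficient `1` for all `τ ∈ G`, then `b ^ m · f` is `G`-fixed for some `b ≠ 0`. -/
theorem exists_fixed_rep_normalised (G : Subgroup (Q̄ ≃ₐ[ℚ] Q̄)) (m : ℕ)
    (f : laurentBaseChange Q̄ F₀) (hf : f ≠ 0)
    (hcoc : ∀ τ ∈ G, ∃ h : laurentBaseChange Q̄ F₀,
      lcK F₀ h = 1 ∧ arithmeticRingAut F₀ τ f = h ^ m * f) :
    ∃ b : laurentBaseChange Q̄ F₀, b ≠ 0 ∧
      ∀ τ ∈ G, arithmeticRingAut F₀ τ (b ^ m * f) = b ^ m * f := by
  obtain ⟨b, hb, hfix⟩ := poincareDescent (G := G)
    (fun τ => arithmeticRingAut F₀ (τ : Q̄ ≃ₐ[ℚ] Q̄))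
    (fun σ τ x => act_mul (σ : Q̄ ≃ₐ[ℚ] Q̄) τ x)
    (lcK F₀) (fun σ x => lcK_act (σ : Q̄ ≃ₐ[ℚ] Q̄) x) m
    (fun hm x => eq_one_of_pow_eq_one hm x) f hf (orbit_finite_subgroup G f)
    (fun τ => hcoc τ τ.2)
  exact ⟨b, hb, fun τ hτ => hfix ⟨τ, hτ⟩⟩

/-- **T1, `lcK` form.** Let `f ≠ 0` in `K` and `G ≤ Gal(Q̄/ℚ)` be such that for every `τ ∈ G`
the function `τ f / f` is a constant times an `m`-th power.  Then `(lcK f)⁻¹ · b ^ m · f` is
fixed by `G` for a suitable `b ≠ 0`. -/
theorem exists_fixed_rep_lcK (G : Subgroup (Q̄ ≃ₐ[ℚ] Q̄)) (m : ℕ)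
    (f : laurentBaseChange Q̄ F₀) (hf : f ≠ 0)
    (hcoc : ∀ τ ∈ G, ∃ c : Q̄, c ≠ 0 ∧ ∃ h : laurentBaseChange Q̄ F₀, h ≠ 0 ∧
      arithmeticRingAut F₀ τ f = algebraMap Q̄ (laurentBaseChange Q̄ F₀) c * h ^ m * f) :
    ∃ b : laurentBaseChange Q̄ F₀, b ≠ 0 ∧
      ∀ τ ∈ G, arithmeticRingAut F₀ τ ((lcK F₀ f)⁻¹ * b ^ m * f)
        = (lcK F₀ f)⁻¹ * b ^ m * f := by
  obtain ⟨b, hb, hfix⟩ := poincareDescent' (G := G)
    (fun τ => arithmeticRingAut F₀ (τ : Q̄ ≃ₐ[ℚ] Q̄))
    (fun σ τ x => act_mul (σ : Q̄ ≃ₐ[ℚ] Q̄) τ x)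
    (lcK F₀) (fun σ x => lcK_act (σ : Q̄ ≃ₐ[ℚ] Q̄) x) lcK_lcK (fun x hx => lcK_ne_zero hx) m
    (fun hm x => eq_one_of_pow_eq_one hm x) (fun x => orbit_finite_subgroup G x) f hf
    (fun τ => by
      obtain ⟨c, -, h, hh, e⟩ := hcoc τ τ.2
      exact ⟨algebraMap Q̄ (laurentBaseChange Q̄ F₀) c, h, lcK_algebraMap c, hh, e⟩)
  exact ⟨b, hb, fun τ hτ => hfix ⟨τ, hτ⟩⟩

/-- **T1.** Let `f ≠ 0` in `K` and `G ≤ Gal(Q̄/ℚ)` be such that for every `τ ∈ G` the function
`τ f / f` is a constant times an `m`-th power.  Then there are a constant `a ≠ 0` and `b ≠ 0`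
in `K` such that `a · b ^ m · f` is fixed by `G`. -/
theorem exists_fixed_rep (G : Subgroup (Q̄ ≃ₐ[ℚ] Q̄)) (m : ℕ)
    (f : laurentBaseChange Q̄ F₀) (hf : f ≠ 0)
    (hcoc : ∀ τ ∈ G, ∃ c : Q̄, c ≠ 0 ∧ ∃ h : laurentBaseChange Q̄ F₀, h ≠ 0 ∧
      arithmeticRingAut F₀ τ f = algebraMap Q̄ (laurentBaseChange Q̄ F₀) c * h ^ m * f) :
    ∃ a : Q̄, a ≠ 0 ∧ ∃ b : laurentBaseChange Q̄ F₀, b ≠ 0 ∧
      ∀ τ ∈ G, arithmeticRingAut F₀ τ (algebraMap Q̄ (laurentBaseChange Q̄ F₀) a * b ^ m * f)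
        = algebraMap Q̄ (laurentBaseChange Q̄ F₀) a * b ^ m * f := by
  obtain ⟨b, hb, hfix⟩ := exists_fixed_rep_lcK G m f hf hcoc
  have hlf : (f : LaurentSeries Q̄).leadingCoeff ≠ 0 :=
    HahnSeries.leadingCoeff_ne_zero.2 fun h => hf (Subtype.ext h)
  refine ⟨((f : LaurentSeries Q̄).leadingCoeff)⁻¹, inv_ne_zero hlf, b, hb, ?_⟩
  have e : algebraMap Q̄ (laurentBaseChange Q̄ F₀) ((f : LaurentSeries Q̄).leadingCoeff)⁻¹
      = (lcK F₀ f)⁻¹ := by
    rw [lcK_apply, map_inv₀]
  rw [e]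
  exact hfix

/-- A fixed element has fixed coefficients. -/
theorem coeff_fixed_of_fixed (τ : Q̄ ≃ₐ[ℚ] Q̄) (f : laurentBaseChange Q̄ F₀)
    (h : arithmeticRingAut F₀ τ f = f) (n : ℤ) :
    τ ((f : LaurentSeries Q̄).coeff n) = (f : LaurentSeries Q̄).coeff n := by
  have := congrArg (fun x : laurentBaseChange Q̄ F₀ => (x : LaurentSeries Q̄).coeff n) h
  simpa using this

end Descent

end Fermat.Agent.S36.H756

end
end
-- ===== PACK-END S36/H756/Desc.lean

-- ===== PACK-BEGIN S36/H756/DescField.lean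
section





/-!
# S36 engine, leaf DESC (owner helper756) — descent to the fixed field

**T4** `descendsTo_fixedField` : an element of `laurentBaseChange Q̄ F₀` which is fixed by a
subgroup `G ≤ Gal(Q̄/ℚ)` is defined over the fixed field `Q̄^G`, i.e. comes from
`laurentBaseChange (fixedField G) F₀`  (`DescendsTo` = `Fermat.Agent.S18.H602.DescendsTo`).

Proof: write `f = Σ l_u • u` with `u ∈ F₀` linearly independent over `Q̄`; then `τ f = f` forces
`τ l_u = l_u`.
-/

set_option autoImplicit false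

noncomputable section

namespace Fermat.Agent.S36.H756

open ModularCurve HahnSeries IntermediateField
open Fermat.Agent.S18.H602 (DescendsTo)

local notation "Q̄" => AlgebraicClosure ℚ

variable {F₀ : IntermediateField ℚ (LaurentSeries ℚ)}

theorem coeffMap_smul_of_mem_imgF₀ (τ : Q̄ ≃ₐ[ℚ] Q̄) (a : Q̄) {u : LaurentSeries Q̄}
    (hu : u ∈ imgF₀ Q̄ F₀) : coeffMap (τ : Q̄ →+* Q̄) (a • u) = τ a • u := by
  obtain ⟨u₀, -, rfl⟩ := hu
  rw [smul_eq_algebraMap_mul, smul_eq_algebraMap_mul, map_mul, coeffMap_algebraMap,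
    coeffMap_coeffEmb]
  rfl

/-- **T4.** A `G`-fixed element of `laurentBaseChange Q̄ F₀` is defined over the fixed field of
`G`. -/
theorem descendsTo_fixedField (G : Subgroup (Q̄ ≃ₐ[ℚ] Q̄)) {f : LaurentSeries Q̄}
    (hf : f ∈ laurentBaseChange Q̄ F₀) (hfix : ∀ τ ∈ G, coeffMap (τ : Q̄ →+* Q̄) f = f) :
    DescendsTo F₀ (IntermediateField.fixedField G) f := by
  classical
  have : Algebra.IsAlgebraic ℚ Q̄ := Fermat.Agent.S18.H602.isAlgebraic_Qbar
  obtain ⟨b, hbs, hspan, hli⟩ := exists_linearIndependent Q̄ (imgF₀ Q̄ F₀)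
  have hfb : f ∈ Submodule.span Q̄ b := by
    rw [hspan]
    exact mem_span_coeffEmb hf
  obtain ⟨l, hl⟩ := (Finsupp.mem_span_iff_linearCombination Q̄ b f).1 hfb
  -- the coefficients are fixed
  have hfixl : ∀ τ ∈ G, ∀ u : b, τ (l u) = l u := by
    intro τ hτ u
    have h1 : Finsupp.linearCombination Q̄ (Subtype.val : b → LaurentSeries Q̄)
        (l.mapRange τ (map_zero τ)) = f := by
      calc Finsupp.linearCombination Q̄ (Subtype.val : b → LaurentSeries Q̄)
            (l.mapRange τ (map_zero τ))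
          = (l.mapRange τ (map_zero τ)).sum (fun i a => a • (i : LaurentSeries Q̄)) :=
            Finsupp.linearCombination_apply Q̄ _
        _ = l.sum (fun i a => τ a • (i : LaurentSeries Q̄)) :=
            Finsupp.sum_mapRange_index (h := fun (i : b) (a : Q̄) => a • (i : LaurentSeries Q̄))
              (fun i => zero_smul _ _)
        _ = l.sum (fun i a => coeffMap (τ : Q̄ →+* Q̄) (a • (i : LaurentSeries Q̄))) :=
            Finsupp.sum_congr fun i _ => (coeffMap_smul_of_mem_imgF₀ τ (l i) (hbs i.2)).symm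
        _ = coeffMap (τ : Q̄ →+* Q̄) (l.sum (fun i a => a • (i : LaurentSeries Q̄))) :=
            (map_finsuppSum _ _ _).symm
        _ = coeffMap (τ : Q̄ →+* Q̄) f := by rw [← Finsupp.linearCombination_apply, hl]
        _ = f := hfix τ hτ
    have h3 := hli (h1.trans hl.symm)
    have h4 := DFunLike.congr_fun h3 u
    simpa using h4
  have hmem : ∀ u : b, l u ∈ IntermediateField.fixedField G := fun u =>
    (IntermediateField.mem_fixedField_iff G (l u)).2 fun τ hτ => hfixl τ hτ u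
  -- preimages in `F₀`
  have hpre : ∀ u : b, ∃ u₀ : LaurentSeries ℚ, u₀ ∈ F₀ ∧ coeffEmb Q̄ u₀ = (u : LaurentSeries Q̄) :=
    fun u => hbs u.2
  choose u₀ hu₀ hu₀' using hpre
  set E : IntermediateField ℚ Q̄ := IntermediateField.fixedField G with hE
  refine ⟨∑ u ∈ l.support, algebraMap E (LaurentSeries E) ⟨l u, hmem u⟩ * coeffEmb E (u₀ u),
    ?_, ?_⟩
  · refine sum_mem fun u _ => mul_mem ?_ ?_
    · exact (laurentBaseChange E F₀).algebraMap_mem _
    · exact coeffEmb_mem_laurentBaseChange E (hu₀ u)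
  · rw [map_sum, ← hl, Finsupp.linearCombination_apply, Finsupp.sum]
    refine Finset.sum_congr rfl fun u _ => ?_
    rw [map_mul, Fermat.Agent.S18.H602.coeffMap_algebraMap',
      Fermat.Agent.S18.H602.coeffMap_coeffEmb', hu₀', smul_eq_algebraMap_mul]
    rfl

/-- **T4**, for elements of `K = laurentBaseChange Q̄ F₀`. -/
theorem descendsTo_fixedField_of_fixed (G : Subgroup (Q̄ ≃ₐ[ℚ] Q̄))
    (f : laurentBaseChange Q̄ F₀) (hfix : ∀ τ ∈ G, arithmeticRingAut F₀ τ f = f) :
    DescendsTo F₀ (IntermediateField.fixedField G) (f : LaurentSeries Q̄) :=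
  descendsTo_fixedField G f.2 fun τ hτ => congrArg Subtype.val (hfix τ hτ)

end Fermat.Agent.S36.H756

end
end
-- ===== PACK-END S36/H756/DescField.lean

-- ===== PACK-BEGIN S29/H571/HeckeGalois.lean
section




/-!
# Galois-equivariance of the Prelude Hecke operators on `JZero N`
(helper571, piece GEQ of the S29 route)

* `heckeOperatorAlong_smul` : `T_ℓ (σ • x) = σ • T_ℓ x` on
  `Pic0 L (laurentBaseChange L (modularFunctionFieldFull N))`, for every field `L ⊇ ℚ`,
  UNCONDITIONALLY (if the Hecke inputs fail the operator is `0`).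
* `heckeOperatorBar_smul` : the same for `heckeOperatorBar N ℓ` on `JZero N`.
* `smulCommClass_heckeModuleBar` :
  `letI := heckeModuleBar N; SMulCommClass Gal(ℚ̄/ℚ) HeckeAlg (JZero N)`,
  i.e. the second hypothesis of the frozen statement S37, unconditionally.
-/

set_option autoImplicit false
set_option linter.style.haveILetI false

noncomputable section

namespace Fermat.Agent.S29.H571

open AlgebraicCurve ModularCurve

section General

variable {L : Type*} [Field L] [Algebra ℚ L]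
variable (N ℓ : ℕ) [NeZero N] [NeZero ℓ]

theorem intertwines_heckeAlphaBar (σ : L ≃ₐ[ℚ] L) :
    SemilinearAut.IntertwinesAlong
      ((heckeAlphaBar L N ℓ : laurentBaseChange L (modularFunctionFieldFull N) →ₐ[L]
        laurentBaseChange L (modularFunctionFieldFull (N * ℓ))) : _ →+* _)
      (arithmeticGalois (modularFunctionFieldFull N) σ)
      (arithmeticGalois (modularFunctionFieldFull (N * ℓ)) σ) := by
  intro x
  apply Subtype.ext
  rw [coe_arithmeticGalois_smul]
  show coeffMap (σ : L →+* L) ((heckeAlphaBar L N ℓ x : _) : LaurentSeries L) = _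
  rw [coe_heckeAlphaBar]
  show _ = ((heckeAlphaBar L N ℓ (arithmeticGalois (modularFunctionFieldFull N) σ • x) : _) :
    LaurentSeries L)
  rw [coe_heckeAlphaBar, coe_arithmeticGalois_smul]

omit [NeZero N] in
theorem intertwines_heckeBetaBar (σ : L ≃ₐ[ℚ] L) :
    SemilinearAut.IntertwinesAlong
      ((heckeBetaBar L N ℓ : laurentBaseChange L (modularFunctionFieldFull N) →ₐ[L]
        laurentBaseChange L (modularFunctionFieldFull (N * ℓ))) : _ →+* _)
      (arithmeticGalois (modularFunctionFieldFull N) σ)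
      (arithmeticGalois (modularFunctionFieldFull (N * ℓ)) σ) := by
  intro x
  apply Subtype.ext
  rw [coe_arithmeticGalois_smul]
  show coeffMap (σ : L →+* L) ((heckeBetaBar L N ℓ x : _) : LaurentSeries L) = _
  rw [coe_heckeBetaBar]
  show _ = ((heckeBetaBar L N ℓ (arithmeticGalois (modularFunctionFieldFull N) σ • x) : _) :
    LaurentSeries L)
  rw [coe_heckeBetaBar, coe_arithmeticGalois_smul, coeffMap_qExpand]

/-- Galois-equivariance of the Prelude Hecke operator `heckeOperatorAlong L N ℓ`. -/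
theorem heckeOperatorAlong_smul (σ : L ≃ₐ[ℚ] L)
    (x : Pic0 L (laurentBaseChange L (modularFunctionFieldFull N))) :
    heckeOperatorAlong L N ℓ (σ • x) = σ • heckeOperatorAlong L N ℓ x := by
  by_cases h : HeckeInputsAlong L N ℓ
  · obtain ⟨hα, hβ, hP, hfin, hFI, hN⟩ := h
    rw [heckeOperatorAlong_eq hα hβ hFI hfin hN, galois_smul_pic0_def, galois_smul_pic0_def]
    exact pic0_correspondence_smul (heckeBetaBar L N ℓ) (heckeAlphaBar L N ℓ) hβ hα hFI hfin hN
      (intertwines_heckeBetaBar N ℓ σ) (intertwines_heckeAlphaBar N ℓ σ) x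
  · rw [heckeOperatorAlong_of_not h]
    simp

end General

section Bar

variable (N : ℕ) [NeZero N]

/-- Galois-equivariance of `heckeOperatorBar N ℓ` on `JZero N`. -/
theorem heckeOperatorBar_smul (ℓ : Nat.Primes)
    (σ : AlgebraicClosure ℚ ≃ₐ[ℚ] AlgebraicClosure ℚ) (x : JZero N) :
    heckeOperatorBar N ℓ (σ • x) = σ • heckeOperatorBar N ℓ x := by
  haveI : NeZero (ℓ : ℕ) := ⟨ℓ.2.ne_zero⟩
  rw [heckeOperatorBar_apply, heckeOperatorBar_apply]
  exact heckeOperatorAlong_smul N (ℓ : ℕ) σ x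

/-- Every element of the Hecke algebra acts Galois-equivariantly (commuting case). -/
theorem heckeEvalBar_smul (h : HeckeOperatorsCommuteBar N) (t : HeckeAlg)
    (σ : AlgebraicClosure ℚ ≃ₐ[ℚ] AlgebraicClosure ℚ) (x : JZero N) :
    heckeEvalBar h t (σ • x) = σ • heckeEvalBar h t x := by
  induction t using MvPolynomial.induction_on generalizing x with
  | C a =>
    rw [heckeEvalBar_C, Module.End.intCast_apply, Module.End.intCast_apply, smul_comm]
  | add p q hp hq =>
    rw [map_add, LinearMap.add_apply, LinearMap.add_apply, hp, hq, smul_add]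
  | mul_X p ℓ hp =>
    rw [map_mul, Module.End.mul_apply, Module.End.mul_apply,
      show (MvPolynomial.X ℓ : HeckeAlg) = heckeGen ℓ from rfl, heckeEvalBar_heckeGen,
      heckeOperatorBar_smul, hp]

/-- The Galois action on `JZero N` commutes with the `HeckeAlg`-module structure
`heckeModuleBar N`, unconditionally.  This is exactly the `SMulCommClass` hypothesis of the
frozen statement S37. -/
theorem smulCommClass_heckeModuleBar :
    letI := heckeModuleBar N
    SMulCommClass (AlgebraicClosure ℚ ≃ₐ[ℚ] AlgebraicClosure ℚ) HeckeAlg (JZero N) := by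
  letI := heckeModuleBar N
  refine ⟨fun σ t x => ?_⟩
  by_cases h : HeckeOperatorsCommuteBar N
  · rw [heckeModuleBar_smul_def h, heckeModuleBar_smul_def h, heckeEvalBar_smul]
  · rw [heckeModuleBar_smul_of_not h, heckeModuleBar_smul_of_not h]
    exact (smul_comm _ σ x).symm

end Bar

end Fermat.Agent.S29.H571


end
end
-- ===== PACK-END S29/H571/HeckeGalois.lean

-- ===== PACK-BEGIN Lib/RR/Ord.lean
section


/-!
# RR library: elementary calculus of `Place.ord`
-/

set_option autoImplicit false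

noncomputable section

open AlgebraicCurve

namespace Fermat.Agent.Lib.RR

variable {K F : Type*} [Field K] [Field F] [Algebra K F]

theorem ord_nonneg_of_mem (v : Place K F) {f : F} (hf : f ∈ v.toValuationSubring) :
    0 ≤ v.ord f := by
  rcases eq_or_ne f 0 with rfl | hf0
  · simp
  obtain ⟨π, hπ⟩ := IsDiscreteValuationRing.exists_irreducible v.toValuationSubring
  obtain ⟨n, u, hu⟩ :=
    IsDiscreteValuationRing.eq_unit_mul_pow_irreducible
      (x := (⟨f, hf⟩ : v.toValuationSubring)) (by simpa [Subtype.ext_iff] using hf0) hπ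
  have hcoe : f = ((u : v.toValuationSubring) : F) * ((π : F) ^ (n : ℤ)) := by
    have h := congrArg (Subtype.val) hu
    push_cast at h
    rw [zpow_natCast]
    exact h
  rw [hcoe, v.ord_unit_smul_zpow u hπ (n : ℤ)]
  exact Int.natCast_nonneg n

theorem mem_of_ord_nonneg (v : Place K F) {f : F} (h : 0 ≤ v.ord f) :
    f ∈ v.toValuationSubring := by
  rcases eq_or_ne f 0 with rfl | hf
  · exact zero_mem _
  obtain ⟨π, hπ⟩ := IsDiscreteValuationRing.exists_irreducible v.toValuationSubring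
  obtain ⟨u, hu⟩ := v.exists_unit_mul_zpow hf hπ
  rw [hu, show v.ord f = (((v.ord f).toNat : ℕ) : ℤ) from (Int.toNat_of_nonneg h).symm,
    zpow_natCast]
  exact mul_mem (u : v.toValuationSubring).2 (pow_mem (π : v.toValuationSubring).2 _)

/-- `f ∈ O_v ↔ 0 ≤ ord_v f` (valid also for `f = 0` because `ord_v 0 = 0`). -/
theorem mem_iff_ord_nonneg (v : Place K F) (f : F) :
    f ∈ v.toValuationSubring ↔ 0 ≤ v.ord f :=
  ⟨ord_nonneg_of_mem v, mem_of_ord_nonneg v⟩

theorem ord_algebraMap (v : Place K F) (c : K) : v.ord (algebraMap K F c) = 0 := by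
  rcases eq_or_ne c 0 with rfl | hc
  · simp
  have h1 : 0 ≤ v.ord (algebraMap K F c) := ord_nonneg_of_mem v (v.algebraMap_mem' c)
  have h2 : 0 ≤ v.ord (algebraMap K F c⁻¹) := ord_nonneg_of_mem v (v.algebraMap_mem' c⁻¹)
  rw [map_inv₀, v.ord_inv] at h2
  omega

theorem ord_pow (v : Place K F) (f : F) (n : ℕ) : v.ord (f ^ n) = n * v.ord f := by
  have := v.ord_zpow f (n : ℤ)
  rwa [zpow_natCast] at this

theorem ord_neg (v : Place K F) (f : F) : v.ord (-f) = v.ord f := by
  rcases eq_or_ne f 0 with rfl | hf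
  · simp
  have h : (-1 : F) ≠ 0 := by simp
  have h1 : v.ord (-1 : F) = 0 := by
    have h2 := v.ord_mul h h
    rw [neg_one_mul, neg_neg, v.ord_one] at h2
    omega
  rw [← neg_one_mul, v.ord_mul h hf, h1, zero_add]

theorem ne_zero_of_ord_ne_zero (v : Place K F) {f : F} (h : v.ord f ≠ 0) : f ≠ 0 := by
  rintro rfl; exact h v.ord_zero

/-- Ultrametric inequality. -/
theorem ord_add (v : Place K F) {f g : F} (hf : f ≠ 0) (hg : g ≠ 0) (hfg : f + g ≠ 0) :
    min (v.ord f) (v.ord g) ≤ v.ord (f + g) := by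
  wlog h : v.ord f ≤ v.ord g generalizing f g
  · have := this hg hf (by rwa [add_comm]) (by omega)
    rwa [min_comm, add_comm g f] at this
  rw [min_eq_left h]
  have hq : g * f⁻¹ ∈ v.toValuationSubring := by
    apply mem_of_ord_nonneg
    rw [v.ord_mul hg (inv_ne_zero hf), v.ord_inv]; omega
  have h1 : 1 + g * f⁻¹ ∈ v.toValuationSubring := add_mem (one_mem _) hq
  have h2 : f + g = f * (1 + g * f⁻¹) := by field_simp
  have h3 : (1 + g * f⁻¹) ≠ 0 := by
    intro h0; rw [h0, mul_zero] at h2; exact hfg h2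
  rw [h2, v.ord_mul hf h3]
  have := ord_nonneg_of_mem v h1
  omega

/-- Ultrametric inequality in the "zero or bounded below" form used for `L(D)`. -/
theorem ord_add_of_le (v : Place K F) {f g : F} {n : ℤ}
    (hf : f = 0 ∨ n ≤ v.ord f) (hg : g = 0 ∨ n ≤ v.ord g) :
    f + g = 0 ∨ n ≤ v.ord (f + g) := by
  rcases eq_or_ne (f + g) 0 with h0 | h0
  · exact Or.inl h0
  right
  rcases eq_or_ne f 0 with rfl | hf0
  · rw [zero_add] at h0 ⊢
    exact hg.resolve_left h0
  rcases eq_or_ne g 0 with rfl | hg0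
  · rw [add_zero]
    exact hf.resolve_left hf0
  exact le_trans (le_min (hf.resolve_left hf0) (hg.resolve_left hg0)) (ord_add v hf0 hg0 h0)

/-- Strict case of the ultrametric inequality. -/
theorem ord_add_eq_of_lt (v : Place K F) {f g : F} (hf : f ≠ 0) (hg : g ≠ 0)
    (h : v.ord f < v.ord g) : v.ord (f + g) = v.ord f := by
  have hfg : f + g ≠ 0 := by
    intro h0
    have : g = -f := by rw [← sub_eq_zero]; rw [sub_neg_eq_add, add_comm]; exact h0
    rw [this, ord_neg] at h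
    exact lt_irrefl _ h
  have h1 := ord_add v hf hg hfg
  rw [min_eq_left h.le] at h1
  have hng : -g ≠ 0 := neg_ne_zero.mpr hg
  have h2 := ord_add v hfg hng (by simpa using hf)
  rw [add_neg_cancel_right, ord_neg] at h2
  rcases le_total (v.ord (f + g)) (v.ord g) with h3 | h3
  · rw [min_eq_left h3] at h2; omega
  · rw [min_eq_right h3] at h2; omega

/-- Every place has a uniformizer. -/
theorem exists_ord_eq_one (v : Place K F) : ∃ t : F, v.ord t = 1 := by
  obtain ⟨π, hπ⟩ := IsDiscreteValuationRing.exists_irreducible v.toValuationSubring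
  exact ⟨π, v.ord_coe_irreducible hπ⟩

/-- An element of the valuation ring lies in the maximal ideal iff it is `0` or has positive
order. -/
theorem mem_maximalIdeal_iff (v : Place K F) (a : v.toValuationSubring) :
    a ∈ IsLocalRing.maximalIdeal v.toValuationSubring ↔ (a : F) = 0 ∨ 0 < v.ord (a : F) := by
  rw [IsLocalRing.mem_maximalIdeal, mem_nonunits_iff]
  constructor
  · intro h
    by_contra hcon
    simp only [not_or, not_lt] at hcon
    obtain ⟨h0, h1⟩ := hcon
    apply h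
    have h2 : v.ord (a : F) = 0 := le_antisymm h1 (ord_nonneg_of_mem v a.2)
    have hinv : (a : F)⁻¹ ∈ v.toValuationSubring := by
      apply mem_of_ord_nonneg
      rw [v.ord_inv, h2]; simp
    refine IsUnit.of_mul_eq_one (⟨(a : F)⁻¹, hinv⟩ : v.toValuationSubring) ?_
    ext
    simp [h0]
  · rintro (h | h) hu
    · have : a = 0 := by ext; simpa using h
      rw [this] at hu
      exact not_isUnit_zero hu
    · have := v.ord_coe_unit hu.unit
      rw [IsUnit.unit_spec] at this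
      omega

/-- At a place of degree one every element of the valuation ring is congruent to a constant. -/
theorem exists_const_sub (v : Place K F) (hv : v.deg = 1) {f : F} (hf : 0 ≤ v.ord f) :
    ∃ c : K, f - algebraMap K F c = 0 ∨ 0 < v.ord (f - algebraMap K F c) := by
  have hmem : f ∈ v.toValuationSubring := mem_of_ord_nonneg v hf
  have h1 : (1 : v.ResidueField) ≠ 0 := one_ne_zero
  have hspan := (finrank_eq_one_iff_of_nonzero' (1 : v.ResidueField) h1).mp hv
  obtain ⟨c, hc⟩ := hspan (IsLocalRing.residue v.toValuationSubring ⟨f, hmem⟩)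
  refine ⟨c, ?_⟩
  have hc' : IsLocalRing.residue v.toValuationSubring
      (⟨f, hmem⟩ - algebraMap K v.toValuationSubring c) = 0 := by
    rw [map_sub, ← hc, Algebra.smul_def, mul_one]
    rw [IsScalarTower.algebraMap_apply K v.toValuationSubring v.ResidueField]
    simp
  rw [IsLocalRing.residue_eq_zero_iff] at hc'
  have := (mem_maximalIdeal_iff v _).mp hc'
  simpa using this

end Fermat.Agent.Lib.RR

end
end
-- ===== PACK-END Lib/RR/Ord.lean

-- ===== PACK-BEGIN S24/Deg/H648Height.lean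
section


/-!
# S24 / M6-AN (helper648): the height lemma and `τ ↦ J (d τ) ∈ goodRing N`

No Hermite normal form is needed: an integer matrix of determinant `d` maps `{im τ ≥ 1}` into
`{im ≤ d · im τ}`.
-/

set_option autoImplicit false

noncomputable section

open UpperHalfPlane ModularGroup CongruenceSubgroup Polynomial
open scoped MatrixGroups Manifold Modular Real

namespace Fermat.Agent.S24.H648

/-- A nonzero integral linear form in `τ` with `im τ ≥ 1` has absolute value at least `1`. -/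
lemma one_le_normSq_int_linear (c e : ℤ) (τ : ℍ) (hτ : 1 ≤ τ.im)
    (h : (c : ℂ) * τ + e ≠ 0) : 1 ≤ Complex.normSq ((c : ℂ) * τ + e) := by
  have hval : Complex.normSq ((c : ℂ) * τ + e) = (c * τ.re + e) ^ 2 + (c * τ.im) ^ 2 := by
    rw [Complex.normSq_apply]
    simp [pow_two]
  rw [hval]
  by_cases hc : c = 0
  · subst hc
    have he : e ≠ 0 := by
      rintro rfl
      simp at h
    have he1 : (1 : ℝ) ≤ (e : ℝ) ^ 2 := by
      have : (1 : ℤ) ≤ e ^ 2 := by
        have := Int.one_le_abs he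
        nlinarith [abs_nonneg e, sq_abs e]
      exact_mod_cast this
    simpa using he1
  · have hc1 : (1 : ℝ) ≤ (c : ℝ) ^ 2 := by
      have : (1 : ℤ) ≤ c ^ 2 := by
        have := Int.one_le_abs hc
        nlinarith [abs_nonneg c, sq_abs c]
      exact_mod_cast this
    have h1 : (1 : ℝ) ≤ (c * τ.im) ^ 2 := by
      rw [mul_pow]
      have : (1 : ℝ) ≤ τ.im ^ 2 := by nlinarith
      nlinarith
    nlinarith [sq_nonneg ((c : ℝ) * τ.re + e)]

/-- **Height lemma.** -/
lemma im_smul_scale_le (γ g : SL(2, ℤ)) (d : ℕ) (τ w : ℍ)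
    (hw : (w : ℂ) = d * ((g • τ : ℍ) : ℂ)) (hτ : 1 ≤ τ.im) :
    (γ • w).im ≤ d * τ.im := by
  have hwim : w.im = d * (g • τ).im := by
    have := congrArg Complex.im hw
    simpa using this
  have hgτ : ((g • τ : ℍ) : ℂ) * denom g τ = num g τ := by
    have h1 : ((g • τ : ℍ) : ℂ) = num g τ / denom g τ := by
      rw [sl_moeb, coe_smul_of_det_pos (by simp)]
    rw [h1, div_mul_cancel₀ _ (denom_ne_zero _ τ)]
  have hprod : denom γ w * denom g τ
      = ((γ 1 0 * d * g 0 0 + γ 1 1 * g 1 0 : ℤ) : ℂ) * τ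
        + ((γ 1 0 * d * g 0 1 + γ 1 1 * g 1 1 : ℤ) : ℂ) := by
    have e1 : denom γ w = (γ 1 0 : ℂ) * w + γ 1 1 := by
      simp [denom]
    have e2 : denom g τ = (g 1 0 : ℂ) * τ + g 1 1 := by
      simp [denom]
    have e3 : num g τ = (g 0 0 : ℂ) * τ + g 0 1 := by
      simp [num]
    rw [e1, hw, add_mul]
    have : (γ 1 0 : ℂ) * (d * ((g • τ : ℍ) : ℂ)) * denom g τ
        = (γ 1 0 : ℂ) * d * (((g • τ : ℍ) : ℂ) * denom g τ) := by ring
    rw [this, hgτ, e3, e2]
    push_cast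
    ring
  have hne : denom γ w * denom g τ ≠ 0 :=
    mul_ne_zero (denom_ne_zero _ w) (denom_ne_zero _ τ)
  have hge : 1 ≤ Complex.normSq (denom γ w * denom g τ) := by
    rw [hprod] at hne ⊢
    exact one_le_normSq_int_linear _ _ τ hτ hne
  rw [ModularGroup.im_smul_eq_div_normSq, hwim, ModularGroup.im_smul_eq_div_normSq]
  rw [Complex.normSq_mul] at hge
  have h1 : 0 < Complex.normSq (denom g τ) := Complex.normSq_pos.mpr (denom_ne_zero _ τ)
  have h2 : 0 < Complex.normSq (denom γ w) := Complex.normSq_pos.mpr (denom_ne_zero _ w)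
  have hd : (0 : ℝ) ≤ d * τ.im := by
    have := τ.im_pos
    positivity
  have hAB : 1 ≤ Complex.normSq (denom g τ) * Complex.normSq (denom γ w) := by
    rw [mul_comm]; exact hge
  calc (d : ℝ) * (τ.im / Complex.normSq (denom g τ)) / Complex.normSq (denom γ w)
      = (d * τ.im) / (Complex.normSq (denom g τ) * Complex.normSq (denom γ w)) := by
        field_simp
    _ ≤ d * τ.im := div_le_self hd hAB


/-- Points of the fundamental domain have imaginary part `≥ 1/2`. -/
lemma half_le_im_of_mem_fd {τ : ℍ} (h : τ ∈ 𝒟) : 1 / 2 ≤ τ.im := by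
  have h1 := ModularGroup.three_le_four_mul_im_sq_of_mem_fd h
  have h2 := τ.im_pos
  nlinarith

section JScale

variable {J : ℍ → ℂ}

/-- Growth of all `SL₂(ℤ)`-translates of `τ ↦ J (d τ)`, from a bound for `J` on the fundamental
domain. -/
lemma expGrowth_J_scale (hJinv : ∀ (γ : SL(2, ℤ)) (τ : ℍ), J (γ • τ) = J τ)
    (hJfd : ∃ C : ℝ, ∀ τ : ℍ, τ ∈ 𝒟 → ‖J τ‖ ≤ C * Real.exp (2 * π * τ.im))
    (d : ℕ) (s : ℍ → ℍ) (hs : ∀ τ : ℍ, (s τ : ℂ) = d * τ) (g : SL(2, ℤ)) :
    ExpGrowth (fun τ => J (s (g • τ))) := by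
  obtain ⟨C, hC⟩ := hJfd
  refine ⟨|C|, d, fun τ hτ => ?_⟩
  obtain ⟨γ, hγ⟩ := ModularGroup.exists_smul_mem_fd (s (g • τ))
  have h1 : J (s (g • τ)) = J (γ • s (g • τ)) := (hJinv γ _).symm
  have h2 := hC _ hγ
  have h3 : (γ • s (g • τ)).im ≤ d * τ.im := im_smul_scale_le γ g d τ _ (hs _) hτ
  show ‖J (s (g • τ))‖ ≤ _
  rw [h1]
  refine h2.trans ?_
  have h4 : Real.exp (2 * π * (γ • s (g • τ)).im) ≤ Real.exp (2 * π * d * τ.im) := by
    apply Real.exp_le_exp.mpr
    have := Real.pi_pos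
    nlinarith
  calc C * Real.exp (2 * π * (γ • s (g • τ)).im)
      ≤ |C| * Real.exp (2 * π * (γ • s (g • τ)).im) := by
        gcongr
        exact le_abs_self C
    _ ≤ |C| * Real.exp (2 * π * d * τ.im) := by gcongr

/-- `τ ↦ J (d τ)` is holomorphic. -/
lemma mdifferentiable_J_scale (hJ : MDifferentiable 𝓘(ℂ) 𝓘(ℂ) J)
    (d : ℕ) (hd : 0 < d) (s : ℍ → ℍ) (hs : ∀ τ : ℍ, (s τ : ℂ) = d * τ) :
    MDifferentiable 𝓘(ℂ) 𝓘(ℂ) (fun τ => J (s τ)) := by
  rw [UpperHalfPlane.mdifferentiable_iff] at hJ ⊢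
  have hmaps : Set.MapsTo (fun z : ℂ => (d : ℂ) * z) {z | 0 < z.im} {z | 0 < z.im} := by
    intro z hz
    simp only [Set.mem_ofPred_eq] at hz ⊢
    have : ((d : ℂ) * z).im = d * z.im := by simp
    rw [this]
    positivity
  have hcomp : DifferentiableOn ℂ ((J ∘ ofComplex) ∘ fun z : ℂ => (d : ℂ) * z) {z | 0 < z.im} :=
    hJ.comp (by fun_prop) hmaps
  refine hcomp.congr fun z hz => ?_
  simp only [Set.mem_ofPred_eq] at hz
  have hz' : 0 < ((d : ℂ) * z).im := hmaps hz
  simp only [Function.comp_apply]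
  congr 1
  apply UpperHalfPlane.ext
  rw [hs, ofComplex_apply_of_im_pos hz, ofComplex_apply_of_im_pos hz']

/-- For `d ∣ N` and `γ ∈ Γ₀(N)` there is `γ' ∈ SL₂(ℤ)` with `d (γ τ) = γ' (d τ)`. -/
lemma exists_smul_scale_eq {N : ℕ} (d : ℕ) (hd : 0 < d) (hdN : d ∣ N) (γ : SL(2, ℤ))
    (hγ : γ ∈ Gamma0 N) :
    ∃ γ' : SL(2, ℤ), ∀ τ w w' : ℍ, (w : ℂ) = d * τ → (w' : ℂ) = d * ((γ • τ : ℍ) : ℂ) →
      γ' • w = w' := by
  have hN : (N : ℤ) ∣ γ 1 0 := by
    rw [Gamma0_mem] at hγ
    exact (ZMod.intCast_zmod_eq_zero_iff_dvd _ _).mp hγ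
  have hdc : (d : ℤ) ∣ γ 1 0 := (Int.natCast_dvd_natCast.mpr hdN).trans hN
  obtain ⟨k, hk⟩ := hdc
  have hdet : γ 0 0 * γ 1 1 - γ 0 1 * γ 1 0 = 1 := by
    have := γ.det_coe
    rw [Matrix.det_fin_two] at this
    exact this
  have hdet' : (!![γ 0 0, γ 0 1 * d; k, γ 1 1] : Matrix (Fin 2) (Fin 2) ℤ).det = 1 := by
    rw [Matrix.det_fin_two_of]
    rw [hk] at hdet
    linear_combination hdet
  set γ' : SL(2, ℤ) := ⟨!![γ 0 0, γ 0 1 * d; k, γ 1 1], hdet'⟩ with hγ'def
  have e00 : γ' 0 0 = γ 0 0 := rfl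
  have e01 : γ' 0 1 = γ 0 1 * d := rfl
  have e10 : γ' 1 0 = k := rfl
  have e11 : γ' 1 1 = γ 1 1 := rfl
  refine ⟨γ', fun τ w w' hw hw' => ?_⟩
  apply UpperHalfPlane.ext
  rw [hw', coe_specialLinearGroup_apply γ τ, coe_specialLinearGroup_apply γ' w, hw, e00, e01,
    e10, e11]
  simp only [algebraMap_int_eq, Int.coe_castRingHom, Complex.ofReal_intCast]
  have hden : ((γ 1 0 : ℤ) : ℂ) * τ + ((γ 1 1 : ℤ) : ℂ) ≠ 0 := by
    have := denom_ne_zero (γ : GL (Fin 2) ℝ) τ
    simpa [denom] using this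
  have hd0 : (d : ℂ) ≠ 0 := by exact_mod_cast hd.ne'
  have hk' : ((γ 1 0 : ℤ) : ℂ) = d * k := by rw [hk]; push_cast; ring
  have hden' : (k : ℂ) * (d * τ) + ((γ 1 1 : ℤ) : ℂ) ≠ 0 := by
    have : (k : ℂ) * (d * τ) + ((γ 1 1 : ℤ) : ℂ) = ((γ 1 0 : ℤ) : ℂ) * τ + ((γ 1 1 : ℤ) : ℂ) := by
      rw [hk']; ring
    rw [this]; exact hden
  rw [div_eq_iff hden', mul_div_assoc', div_mul_eq_mul_div, eq_div_iff hden, hk']
  push_cast
  ring

variable (N : ℕ)

/-- **`τ ↦ J (d τ)` is a good function of level `N` for `d ∣ N`.** -/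
theorem J_scale_mem_goodRing (hJ : MDifferentiable 𝓘(ℂ) 𝓘(ℂ) J)
    (hJinv : ∀ (γ : SL(2, ℤ)) (τ : ℍ), J (γ • τ) = J τ)
    (hJfd : ∃ C : ℝ, ∀ τ : ℍ, τ ∈ 𝒟 → ‖J τ‖ ≤ C * Real.exp (2 * π * τ.im))
    (d : ℕ) (hd : 0 < d) (hdN : d ∣ N) (s : ℍ → ℍ) (hs : ∀ τ : ℍ, (s τ : ℂ) = d * τ) :
    (fun τ => J (s τ)) ∈ goodRing N := by
  refine ⟨mdifferentiable_J_scale hJ d hd s hs, fun γ hγ τ => ?_,
    fun g => expGrowth_J_scale hJinv hJfd d s hs g⟩
  obtain ⟨γ', hγ'⟩ := exists_smul_scale_eq d hd hdN γ hγ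
  show J (s (γ • τ)) = J (s τ)
  rw [← hγ' τ (s τ) (s (γ • τ)) (hs τ) (hs _), hJinv]

end JScale

end Fermat.Agent.S24.H648

end
end
-- ===== PACK-END S24/Deg/H648Height.lean

-- ===== PACK-BEGIN S24/Mod/H997Frac.lean
section


/-!
# S24 / MOD — the polynomial ring `R_N = ℚ̄[j(q^d) : d ∣ N]` inside the function field `FF N`

* `RN N`   : the `ℚ̄`-subalgebra of `ℚ̄((q))` generated by the `j(q^d)`, `d ∣ N`;
* `inclRN` : the inclusion `RN N → FF N`;
* `liftF`  : every injective ring hom `RN N →+* L` into a field extends uniquely to `FF N →+* L`.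
-/

set_option autoImplicit false

noncomputable section

open ModularCurve HahnSeries IntermediateField

namespace Fermat.Agent.S24.H997

variable (N : ℕ)

/-- The generators `j(q^d)`, `d ∣ N`, as Laurent series over `ℚ̄`. -/
def gensBar : Set (LaurentSeries Kbar) := ⇑(coeffEmb Kbar) '' divisorExpansions N

/-- The function field of `X₀(N)` over `ℚ̄` is generated over `ℚ̄` by the `j(q^d)`, `d ∣ N`. -/
theorem modularFunctionFieldBar_eq_adjoin :
    modularFunctionFieldBar N = IntermediateField.adjoin Kbar (gensBar N) := by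
  apply le_antisymm
  · show laurentBaseChange Kbar (modularFunctionFieldFull N) ≤ _
    rw [laurentBaseChange, IntermediateField.adjoin_le_iff]
    rintro _ ⟨x, hx, rfl⟩
    have hx' : x ∈ IntermediateField.adjoin ℚ (divisorExpansions N) := hx
    induction hx' using IntermediateField.adjoin_induction with
    | mem y hy => exact IntermediateField.subset_adjoin Kbar _ ⟨y, hy, rfl⟩
    | algebraMap c =>
        have h : coeffEmb Kbar (algebraMap ℚ (LaurentSeries ℚ) c)
            = algebraMap Kbar (LaurentSeries Kbar) (algebraMap ℚ Kbar c) := by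
          rw [algebraMap_apply_eq_single, algebraMap_laurentSeries_eq_single, coeffEmb,
            coeffMap_single]
        show coeffEmb Kbar (algebraMap ℚ (LaurentSeries ℚ) c) ∈ _
        rw [h]
        exact IntermediateField.algebraMap_mem _ _
    | add y z _ _ hy hz =>
        show coeffEmb Kbar (y + z) ∈ _
        rw [map_add]
        exact add_mem (hy (by assumption)) (hz (by assumption))
    | inv y _ hy =>
        show coeffEmb Kbar (y⁻¹) ∈ _
        rw [map_inv₀]
        exact inv_mem (hy (by assumption))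
    | mul y z _ _ hy hz =>
        show coeffEmb Kbar (y * z) ∈ _
        rw [map_mul]
        exact mul_mem (hy (by assumption)) (hz (by assumption))
  · show _ ≤ laurentBaseChange Kbar (modularFunctionFieldFull N)
    rw [laurentBaseChange]
    exact IntermediateField.adjoin.mono _ _ _
      (Set.image_mono (IntermediateField.subset_adjoin ℚ _))

/-- The polynomial ring `ℚ̄[j(q^d) : d ∣ N] ⊆ ℚ̄((q))`. -/
def RN : Subalgebra Kbar (LaurentSeries Kbar) := Algebra.adjoin Kbar (gensBar N)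

theorem RN_le : RN N ≤ (modularFunctionFieldBar N).toSubalgebra := by
  rw [modularFunctionFieldBar_eq_adjoin]
  exact IntermediateField.algebra_adjoin_le_adjoin Kbar (gensBar N)

/-- The inclusion `R_N → FF N`. -/
def inclRN : RN N →ₐ[Kbar] FF N := Subalgebra.inclusion (RN_le N)

@[simp] theorem coe_inclRN (r : RN N) : ((inclRN N r : FF N) : LaurentSeries Kbar) = r := rfl

theorem inclRN_injective : Function.Injective (inclRN N) :=
  Subalgebra.inclusion_injective (RN_le N)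

theorem exists_div_inclRN (f : FF N) :
    ∃ r t : RN N, t ≠ 0 ∧ f = inclRN N r / inclRN N t := by
  have hf : (f : LaurentSeries Kbar) ∈ IntermediateField.adjoin Kbar (gensBar N) := by
    rw [← modularFunctionFieldBar_eq_adjoin]; exact f.2
  obtain ⟨r, hr, s, hs, h⟩ := IntermediateField.mem_adjoin_iff_div.mp hf
  by_cases hs0 : s = 0
  · refine ⟨0, 1, one_ne_zero, ?_⟩
    apply Subtype.ext
    rw [h, hs0, div_zero]
    simp
  · refine ⟨⟨r, hr⟩, ⟨s, hs⟩, fun h0 => hs0 (congrArg Subtype.val h0), ?_⟩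
    apply Subtype.ext
    rw [h]
    simp

/-- The generator `j(q^d)` as an element of `R_N`. -/
def jR (d : ℕ) [NeZero d] (hd : d ∣ N) : RN N :=
  ⟨coeffEmb Kbar (qExpand ℚ d jq),
    Algebra.subset_adjoin ⟨_, mem_divisorExpansions N hd, rfl⟩⟩

theorem inclRN_jR_one [NeZero N] : inclRN N (jR N 1 (one_dvd N)) = jF N := by
  apply Subtype.ext
  simp [jR, jF, qExpand_one_apply]

section Lift

variable {N}
variable {L : Type*} [Field L]

/-- Extension of an injective ring hom `R_N →+* L` to the fraction field `FF N`. -/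
def liftF (s : RN N →+* L) (hs : Function.Injective s) : FF N →+* L :=
  letI : Algebra (RN N) (FF N) := (inclRN N).toRingHom.toAlgebra
  haveI : FaithfulSMul (RN N) (FF N) :=
    (faithfulSMul_iff_algebraMap_injective _ _).mpr (inclRN_injective N)
  haveI : IsFractionRing (RN N) (FF N) :=
    IsFractionRing.of_field _ _ fun z => by
      obtain ⟨r, t, -, h⟩ := exists_div_inclRN N z
      exact ⟨r, t, h⟩
  IsFractionRing.lift hs

theorem liftF_inclRN (s : RN N →+* L) (hs : Function.Injective s) (r : RN N) :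
    liftF s hs (inclRN N r) = s r := by
  let _ : Algebra (RN N) (FF N) := (inclRN N).toRingHom.toAlgebra
  have : FaithfulSMul (RN N) (FF N) :=
    (faithfulSMul_iff_algebraMap_injective _ _).mpr (inclRN_injective N)
  have : IsFractionRing (RN N) (FF N) :=
    IsFractionRing.of_field _ _ fun z => by
      obtain ⟨r, t, -, h⟩ := exists_div_inclRN N z
      exact ⟨r, t, h⟩
  exact IsFractionRing.lift_algebraMap hs r

theorem liftF_div (s : RN N →+* L) (hs : Function.Injective s) (r t : RN N) :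
    liftF s hs (inclRN N r / inclRN N t) = s r / s t := by
  rw [map_div₀, liftF_inclRN, liftF_inclRN]

theorem liftF_algebraMap (s : RN N →+* L) (hs : Function.Injective s) (c : Kbar) :
    liftF s hs (algebraMap Kbar (FF N) c) = s (algebraMap Kbar (RN N) c) := by
  rw [← liftF_inclRN s hs]
  congr 1

end Lift

end Fermat.Agent.S24.H997

end
end
-- ===== PACK-END S24/Mod/H997Frac.lean

-- ===== PACK-BEGIN S24/H117/PlaceBasic.lean
section


/-!
# S24 / H117 — basic API for `AlgebraicCurve.Place.ord`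

Elementary facts about the order function of a place (membership, ultrametric inequality,
constants), re-proved here because the Prelude versions are private.
-/

set_option autoImplicit false

noncomputable section

open AlgebraicCurve

namespace Fermat.Agent.S24.H117

variable {K F : Type*} [Field K] [Field F] [Algebra K F] (v : Place K F)

theorem ord_nonneg_of_mem {f : F} (hf : f ∈ v.toValuationSubring) : 0 ≤ v.ord f := by
  rcases eq_or_ne f 0 with rfl | hf0
  · simp
  obtain ⟨π, hπ⟩ := IsDiscreteValuationRing.exists_irreducible v.toValuationSubring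
  obtain ⟨n, u, hu⟩ :=
    IsDiscreteValuationRing.eq_unit_mul_pow_irreducible
      (x := (⟨f, hf⟩ : v.toValuationSubring)) (by simpa [Subtype.ext_iff] using hf0) hπ
  have hcoe : f = ((u : v.toValuationSubring) : F) * ((π : F) ^ (n : ℤ)) := by
    have h := congrArg (Subtype.val) hu
    push_cast at h
    rw [zpow_natCast]
    exact h
  rw [hcoe, v.ord_unit_smul_zpow u hπ (n : ℤ)]
  exact Int.natCast_nonneg n

theorem mem_of_ord_nonneg {f : F} (h : 0 ≤ v.ord f) : f ∈ v.toValuationSubring := by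
  rcases eq_or_ne f 0 with rfl | hf
  · exact zero_mem _
  obtain ⟨π, hπ⟩ := IsDiscreteValuationRing.exists_irreducible v.toValuationSubring
  obtain ⟨u, hu⟩ := v.exists_unit_mul_zpow hf hπ
  rw [hu, show v.ord f = (((v.ord f).toNat : ℕ) : ℤ) from (Int.toNat_of_nonneg h).symm,
    zpow_natCast]
  exact mul_mem (u : v.toValuationSubring).2 (pow_mem (π : v.toValuationSubring).2 _)

theorem mem_iff_ord_nonneg {f : F} : f ∈ v.toValuationSubring ↔ 0 ≤ v.ord f :=
  ⟨ord_nonneg_of_mem v, mem_of_ord_nonneg v⟩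

theorem exists_ord_eq_one : ∃ π : F, π ≠ 0 ∧ v.ord π = 1 := by
  obtain ⟨π, hπ⟩ := IsDiscreteValuationRing.exists_irreducible v.toValuationSubring
  refine ⟨(π : F), ?_, v.ord_coe_irreducible hπ⟩
  simpa [ne_eq, ZeroMemClass.coe_eq_zero] using hπ.ne_zero

theorem ord_algebraMap (c : K) : v.ord (algebraMap K F c) = 0 := by
  rcases eq_or_ne c 0 with rfl | hc
  · simp
  have h1 : 0 ≤ v.ord (algebraMap K F c) := ord_nonneg_of_mem v (v.algebraMap_mem' c)
  have h2 : 0 ≤ v.ord (algebraMap K F c⁻¹) := ord_nonneg_of_mem v (v.algebraMap_mem' c⁻¹)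
  rw [map_inv₀, v.ord_inv] at h2
  omega

theorem ord_neg (f : F) : v.ord (-f) = v.ord f := by
  simp [Place.ord, Valuation.map_neg]

theorem ord_add_ge {f g : F} (hfg : f + g ≠ 0) : min (v.ord f) (v.ord g) ≤ v.ord (f + g) := by
  rcases eq_or_ne f 0 with rfl | hf
  · simp
  rcases eq_or_ne g 0 with rfl | hg
  · simp
  -- wlog ord f ≤ ord g
  wlog hle : v.ord f ≤ v.ord g generalizing f g
  · have := this (f := g) (g := f) (by rwa [add_comm]) hg hf (le_of_not_ge hle)
    rwa [min_comm, add_comm]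
  rw [min_eq_left hle]
  have hq : g / f ∈ v.toValuationSubring := by
    apply mem_of_ord_nonneg
    rw [div_eq_mul_inv, v.ord_mul hg (inv_ne_zero hf), v.ord_inv]
    omega
  have h1 : (1 + g / f) ∈ v.toValuationSubring := add_mem (one_mem _) hq
  have h1ne : (1 + g / f) ≠ 0 := by
    intro h0
    apply hfg
    have : f * (1 + g / f) = f + g := by field_simp
    rw [← this, h0, mul_zero]
  have : f + g = f * (1 + g / f) := by field_simp
  rw [this, v.ord_mul hf h1ne]
  have := ord_nonneg_of_mem v h1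
  omega

theorem ord_add_eq_of_lt {f g : F} (h : v.ord f < v.ord g) (hf : f ≠ 0) :
    v.ord (f + g) = v.ord f := by
  rcases eq_or_ne g 0 with rfl | hg
  · simp
  have hfg : f + g ≠ 0 := by
    intro h0
    have : g = -f := eq_neg_of_add_eq_zero_right h0
    rw [this, _root_.Fermat.Agent.S24.H117.ord_neg] at h
    exact lt_irrefl _ h
  apply le_antisymm
  · by_contra hlt
    push Not at hlt
    have h2 : min (v.ord (f + g)) (v.ord (-g)) ≤ v.ord ((f + g) + -g) :=
      ord_add_ge v (by simpa using hf)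
    rw [add_neg_cancel_right, _root_.Fermat.Agent.S24.H117.ord_neg] at h2
    have : v.ord f < min (v.ord (f + g)) (v.ord g) := lt_min hlt h
    omega
  · have := ord_add_ge v hfg
    rwa [min_eq_left h.le] at this

theorem ord_pow (f : F) (n : ℕ) : v.ord (f ^ n) = n * v.ord f := by
  have := v.ord_zpow f (n : ℤ)
  rwa [zpow_natCast] at this

theorem ord_div {f g : F} (hf : f ≠ 0) (hg : g ≠ 0) : v.ord (f / g) = v.ord f - v.ord g := by
  rw [div_eq_mul_inv, v.ord_mul hf (inv_ne_zero hg), v.ord_inv]; ring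

theorem ne_zero_of_ord_ne_zero {f : F} (h : v.ord f ≠ 0) : f ≠ 0 := by
  rintro rfl
  exact h v.ord_zero

/-- Two places with the same non-negative-order elements are equal. -/
theorem place_ext_of_le {v w : Place K F}
    (h : ∀ f : F, 0 ≤ v.ord f → 0 ≤ w.ord f) : v = w := by
  apply Place.ext
  have hle : v.toValuationSubring ≤ w.toValuationSubring := fun f hf =>
    mem_of_ord_nonneg w (h f (ord_nonneg_of_mem v hf))
  refine le_antisymm hle ?_
  intro f hf
  by_contra hfv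
  have hf0 : f ≠ 0 := fun h0 => hfv (h0 ▸ zero_mem _)
  have hvf : v.ord f < 0 := by
    by_contra hge
    exact hfv (mem_of_ord_nonneg v (not_lt.mp hge))
  -- then `f⁻¹` has positive order at `v`, and every element is `u * (f⁻¹)^n`-bounded
  obtain ⟨g, hg0, hg⟩ : ∃ g : F, g ≠ 0 ∧ w.ord g < 0 := by
    by_contra hcon
    push Not at hcon
    apply w.ne_top'
    refine SetLike.ext fun x => ⟨fun _ => ValuationSubring.mem_top x, fun _ => ?_⟩
    rcases eq_or_ne x 0 with rfl | hx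
    · exact zero_mem _
    · exact mem_of_ord_nonneg w (hcon x hx)
  -- choose n with ord_v (g * f⁻¹ ^ n) ≥ 0
  have hfinv : 0 < v.ord f⁻¹ := by rw [v.ord_inv]; omega
  obtain ⟨n, hn⟩ : ∃ n : ℕ, 0 ≤ v.ord (g * f⁻¹ ^ n) := by
    refine ⟨(-v.ord g).toNat, ?_⟩
    rw [v.ord_mul hg0 (pow_ne_zero _ (inv_ne_zero hf0)), ord_pow]
    have : (0:ℤ) ≤ ((-v.ord g).toNat : ℤ) := Int.natCast_nonneg _
    have h2 : -v.ord g ≤ ((-v.ord g).toNat : ℤ) := Int.self_le_toNat _
    nlinarith
  have hw := h _ hn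
  rw [w.ord_mul hg0 (pow_ne_zero _ (inv_ne_zero hf0)), ord_pow, w.ord_inv] at hw
  have hwf : 0 ≤ w.ord f := ord_nonneg_of_mem w hf
  have : (n : ℤ) * -w.ord f ≤ 0 := by
    have : (0:ℤ) ≤ n := Int.natCast_nonneg _
    nlinarith
  omega

end Fermat.Agent.S24.H117

end
end
-- ===== PACK-END S24/H117/PlaceBasic.lean

-- ===== PACK-BEGIN S28/H626/RootList.lean
section
/-
S28 helper (helper626): the family `j(ξ tⁿ)` and the root list of the modular polynomial
`Φ_p(j(η t^{np}), X)`.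
-/




set_option autoImplicit false

noncomputable section

open ModularCurve HahnSeries Polynomial

namespace Fermat.Agent.S28.H626

/-! ### Two-variable evaluation -/

section Ev2

variable {A B : Type*} [CommRing A] [CommRing B]

/-- Evaluation of `Φ ∈ ℤ[Y][X]` at `Y = y`, `X = x`. -/
def ev2 (Φ : Polynomial (Polynomial ℤ)) (y x : A) : A :=
  Φ.eval₂ (Polynomial.aeval (R := ℤ) y).toRingHom x

/-- The one-variable polynomial `Φ(y, X)`. -/
def spec (Φ : Polynomial (Polynomial ℤ)) (y : A) : Polynomial A :=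
  Φ.map (Polynomial.aeval (R := ℤ) y).toRingHom

theorem eval_spec (Φ : Polynomial (Polynomial ℤ)) (y x : A) :
    (spec Φ y).eval x = ev2 Φ y x := by
  rw [spec, ev2, Polynomial.eval_map]

theorem comp_aeval_toRingHom (φ : A →+* B) (y : A) :
    φ.comp (Polynomial.aeval (R := ℤ) y).toRingHom =
      (Polynomial.aeval (R := ℤ) (φ y)).toRingHom := by
  apply Polynomial.ringHom_ext
  · intro a
    simp
  · simp

theorem map_ev2 (φ : A →+* B) (Φ : Polynomial (Polynomial ℤ)) (y x : A) :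
    φ (ev2 Φ y x) = ev2 Φ (φ y) (φ x) := by
  rw [ev2, ev2, Polynomial.hom_eval₂, comp_aeval_toRingHom]

theorem map_spec (φ : A →+* B) (Φ : Polynomial (Polynomial ℤ)) (y : A) :
    (spec Φ y).map φ = spec Φ (φ y) := by
  rw [spec, spec, Polynomial.map_map, comp_aeval_toRingHom]

theorem spec_monic {Φ : Polynomial (Polynomial ℤ)} (h : Φ.Monic) (y : A) : (spec Φ y).Monic :=
  h.map _

theorem spec_natDegree [Nontrivial A] {Φ : Polynomial (Polynomial ℤ)} (h : Φ.Monic) (y : A) :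
    (spec Φ y).natDegree = Φ.natDegree :=
  h.natDegree_map _

end Ev2

/-- The (explicit-hypothesis form of the) prime-level analytic input: `Φ ∈ ℤ[Y][X]` is monic of
degree `p + 1` in `X` and `Φ(j, j_p) = 0`, `Φ(j_p, j) = 0` in `ℤ((q))`. -/
structure IsModPoly (p : ℕ) [NeZero p] (Φ : Polynomial (Polynomial ℤ)) : Prop where
  monic : Φ.Monic
  natDegree_eq : Φ.natDegree = p + 1
  eval_jp : ev2 Φ (jqModC ℤ) (qExpand ℤ p (jqModC ℤ)) = 0
  eval_j : ev2 Φ (qExpand ℤ p (jqModC ℤ)) (jqModC ℤ) = 0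

/-! ### The family `j(ξ tⁿ)` -/

section JTw

variable (Ω : Type*) [CommRing Ω]

/-- `j(ξ tⁿ)` as a Laurent series in `t`. -/
def jTw (ξ : Ωˣ) (n : ℕ) [NeZero n] : LaurentSeries Ω :=
  qExpand Ω n (_root_.Fermat.Agent.S28.H626.twist ξ (jqModC Ω))

theorem jTw_one (n : ℕ) [NeZero n] : jTw Ω 1 n = qExpand Ω n (jqModC Ω) := by
  rw [jTw, twist_one_apply]

theorem jTw_coeff_neg (ξ : Ωˣ) (n : ℕ) [NeZero n] :
    (jTw Ω ξ n).coeff (-(n : ℤ)) = ((ξ⁻¹ : Ωˣ) : Ω) := by
  have h : (-(n : ℤ)) = (n : ℤ) * (-1) := by ring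
  rw [jTw, h, qExpand_coeff_mul, _root_.Fermat.Agent.S28.H626.twist_coeff, coeff_jqModC_neg_one, mul_one, zpow_neg_one]

theorem jTw_coeff_of_lt (ξ : Ωˣ) (n : ℕ) [NeZero n] {k : ℤ} (hk : k < -(n : ℤ)) :
    (jTw Ω ξ n).coeff k = 0 := by
  by_cases hn : (n : ℤ) ∣ k
  · obtain ⟨m, rfl⟩ := hn
    have hn0 : (0 : ℤ) < n := by exact_mod_cast Nat.pos_of_ne_zero (NeZero.ne n)
    have hm : m < -1 := by
      by_contra hm
      have hm' := not_lt.mp hm
      nlinarith
    rw [jTw, qExpand_coeff_mul, _root_.Fermat.Agent.S28.H626.twist_coeff, coeff_jqModC_of_lt Ω hm, mul_zero]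
  · rw [jTw, qExpand_coeff_of_not_dvd _ _ hn]

variable {Ω}

theorem jTw_inj [Nontrivial Ω] {ξ ξ' : Ωˣ} {n n' : ℕ} [NeZero n] [NeZero n']
    (h : jTw Ω ξ n = jTw Ω ξ' n') : n = n' ∧ ξ = ξ' := by
  have key : ∀ (ξ ξ' : Ωˣ) (n n' : ℕ) [NeZero n] [NeZero n'],
      jTw Ω ξ n = jTw Ω ξ' n' → ¬ n < n' := by
    intro ξ ξ' n n' _ _ h hlt
    have h1 := jTw_coeff_neg Ω ξ' n'
    rw [← h, jTw_coeff_of_lt Ω ξ n (by exact_mod_cast (neg_lt_neg (Nat.cast_lt.mpr hlt) :
      (-(n' : ℤ)) < -(n : ℤ)))] at h1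
    exact (Units.ne_zero _) h1.symm
  have hn : n = n' := le_antisymm (not_lt.mp (key ξ' ξ n' n h.symm)) (not_lt.mp (key ξ ξ' n n' h))
  subst hn
  refine ⟨rfl, ?_⟩
  have h1 := jTw_coeff_neg Ω ξ n
  rw [h, jTw_coeff_neg] at h1
  exact inv_injective (Units.ext h1).symm

theorem jTw_ne_of_ne [Nontrivial Ω] {ξ ξ' : Ωˣ} {n n' : ℕ} [NeZero n] [NeZero n']
    (h : n ≠ n') : jTw Ω ξ n ≠ jTw Ω ξ' n' := fun he => h (jTw_inj he).1

end JTw

/-! ### Root relations -/

section Roots

variable (Ω : Type*) [CommRing Ω]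

/-- the ring hom `ℤ((q)) → Ω((t))`, `q ↦ ξ tⁿ`. -/
def substHom (ξ : Ωˣ) (n : ℕ) [NeZero n] : LaurentSeries ℤ →+* LaurentSeries Ω :=
  (qExpand Ω n).comp ((_root_.Fermat.Agent.S28.H626.twist ξ).comp (coeffMap (Int.castRingHom Ω)))

theorem substHom_j (ξ : Ωˣ) (n : ℕ) [NeZero n] :
    substHom Ω ξ n (jqModC ℤ) = jTw Ω ξ n := by
  simp only [substHom, RingHom.comp_apply, coeffMap_jqModC, jTw]

theorem substHom_jp (ξ : Ωˣ) (n : ℕ) [NeZero n] (p : ℕ) [NeZero p] :
    substHom Ω ξ n (qExpand ℤ p (jqModC ℤ)) = jTw Ω (ξ ^ p) (n * p) := by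
  simp only [substHom, RingHom.comp_apply, coeffMap_qExpand, coeffMap_jqModC, jTw,
    twist_qExpand, qExpand_qExpand]

variable {Ω}

theorem ev2_jTw_root {p : ℕ} [NeZero p] {Φ : Polynomial (Polynomial ℤ)} (hΦ : IsModPoly p Φ)
    (ξ : Ωˣ) (n : ℕ) [NeZero n] :
    ev2 Φ (jTw Ω (ξ ^ p) (n * p)) (jTw Ω ξ n) = 0 := by
  have h := congrArg (substHom Ω ξ n) hΦ.eval_j
  rwa [map_ev2, substHom_j, substHom_jp, map_zero] at h

theorem ev2_jTw_root' {p : ℕ} [NeZero p] {Φ : Polynomial (Polynomial ℤ)} (hΦ : IsModPoly p Φ)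
    (ξ : Ωˣ) (n : ℕ) [NeZero n] :
    ev2 Φ (jTw Ω ξ n) (jTw Ω (ξ ^ p) (n * p)) = 0 := by
  have h := congrArg (substHom Ω ξ n) hΦ.eval_jp
  rwa [map_ev2, substHom_j, substHom_jp, map_zero] at h

theorem jTw_congr (ξ : Ωˣ) {n n' : ℕ} [NeZero n] [NeZero n'] (h : n = n') :
    jTw Ω ξ n = jTw Ω ξ n' := by
  subst h; rfl

end Roots

/-! ### The root list -/

section RootList

variable {Ω : Type*} [Field Ω]

/-- The multiset of roots of `Φ_p(j(t^{np}), X)`. -/
def rootMultiset (p : ℕ) (ζ : Ωˣ) (n : ℕ) [NeZero n] [NeZero p] : Multiset (LaurentSeries Ω) :=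
  jTw Ω 1 (n * p * p) ::ₘ (Multiset.range p).map (fun b => jTw Ω (ζ ^ b) n)

theorem rootMultiset_nodup {p : ℕ} [NeZero p] (hp : 1 < p) {ζ : Ωˣ} (hζ : IsPrimitiveRoot ζ p)
    (n : ℕ) [NeZero n] : (rootMultiset p ζ n).Nodup := by
  rw [rootMultiset, Multiset.nodup_cons]
  constructor
  · intro h
    rw [Multiset.mem_map] at h
    obtain ⟨b, -, hb⟩ := h
    have h1 : n = n * p * p := (jTw_inj hb).1
    have hn : 0 < n := Nat.pos_of_ne_zero (NeZero.ne n)
    have : n * 1 < n * (p * p) := by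
      apply Nat.mul_lt_mul_of_pos_left _ hn
      nlinarith
    rw [mul_one, ← mul_assoc] at this
    omega
  · refine Multiset.Nodup.map_on ?_ (Multiset.nodup_range p)
    intro a ha b hb hab
    rw [Multiset.mem_range] at ha hb
    exact hζ.pow_inj ha hb (jTw_inj hab).2

theorem rootMultiset_card (p : ℕ) [NeZero p] (ζ : Ωˣ) (n : ℕ) [NeZero n] :
    Multiset.card (rootMultiset p ζ n) = p + 1 := by
  simp [rootMultiset]

theorem mem_rootMultiset {p : ℕ} [NeZero p] {ζ : Ωˣ} {n : ℕ} [NeZero n] {β : LaurentSeries Ω} :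
    β ∈ rootMultiset p ζ n ↔ β = jTw Ω 1 (n * p * p) ∨ ∃ b < p, β = jTw Ω (ζ ^ b) n := by
  rw [rootMultiset, Multiset.mem_cons, Multiset.mem_map]
  refine or_congr Iff.rfl ⟨?_, ?_⟩
  · rintro ⟨b, hb, rfl⟩
    exact ⟨b, Multiset.mem_range.mp hb, rfl⟩
  · rintro ⟨b, hb, rfl⟩
    exact ⟨b, Multiset.mem_range.mpr hb, rfl⟩

/-- **Root list.** `Φ_p(j(t^{np}), X) = (X - j(t^{np²})) ∏_{b<p} (X - j(ζ^b tⁿ))`. -/
theorem roots_spec {p : ℕ} [NeZero p] (hp : 1 < p) {Φ : Polynomial (Polynomial ℤ)}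
    (hΦ : IsModPoly p Φ) {ζ : Ωˣ} (hζ : IsPrimitiveRoot ζ p) (n : ℕ) [NeZero n] :
    (spec Φ (jTw Ω 1 (n * p))).roots = rootMultiset p ζ n := by
  have hmonic : (spec Φ (jTw Ω 1 (n * p))).Monic := spec_monic hΦ.monic _
  have hdeg : (spec Φ (jTw Ω 1 (n * p))).natDegree = p + 1 := by
    rw [spec_natDegree hΦ.monic, hΦ.natDegree_eq]
  have hle : rootMultiset p ζ n ≤ (spec Φ (jTw Ω 1 (n * p))).roots := by
    rw [Multiset.le_iff_subset (rootMultiset_nodup hp hζ n)]
    intro β hβ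
    rw [Polynomial.mem_roots hmonic.ne_zero, Polynomial.IsRoot, eval_spec]
    rcases mem_rootMultiset.mp hβ with rfl | ⟨b, -, rfl⟩
    · have := ev2_jTw_root' hΦ (1 : Ωˣ) (n * p)
      rwa [one_pow] at this
    · have := ev2_jTw_root hΦ (ζ ^ b) n
      rwa [← pow_mul, mul_comm b p, pow_mul, hζ.pow_eq_one, one_pow] at this
  refine (Multiset.eq_of_le_of_card_le hle ?_).symm
  rw [rootMultiset_card, ← hdeg]
  exact Polynomial.card_roots' _

theorem splits_spec {p : ℕ} [NeZero p] (hp : 1 < p) {Φ : Polynomial (Polynomial ℤ)}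
    (hΦ : IsModPoly p Φ) {ζ : Ωˣ} (hζ : IsPrimitiveRoot ζ p) (n : ℕ) [NeZero n] :
    (spec Φ (jTw Ω 1 (n * p))).Splits := by
  rw [Polynomial.splits_iff_card_roots, roots_spec hp hΦ hζ, rootMultiset_card,
    spec_natDegree hΦ.monic, hΦ.natDegree_eq]

end RootList

/-! ### The abstract gcd lemma -/

section AbstractGcd

/-- If `x` is a common root of `P, Q ∈ E[X]`, and over some extension `P` splits with distinct
roots, among which only (the image of) `x` is a root of `Q`, then `x ∈ E`. -/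
theorem mem_range_of_unique_common_root {E L Ω' : Type*} [Field E] [Field L] [Algebra E L]
    [Field Ω'] (ι : L →+* Ω') (x : L) (P Q : Polynomial E) (hP0 : P ≠ 0)
    (hPx : Polynomial.aeval x P = 0) (hQx : Polynomial.aeval x Q = 0)
    (hsplit : (P.map (ι.comp (algebraMap E L))).Splits)
    (hnodup : (P.map (ι.comp (algebraMap E L))).roots.Nodup)
    (huniq : ∀ β ∈ (P.map (ι.comp (algebraMap E L))).roots,
      (Q.map (ι.comp (algebraMap E L))).eval β = 0 → β = ι x) :
    x ∈ (algebraMap E L).range := by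
  classical
  set f : E →+* Ω' := ι.comp (algebraMap E L) with hf
  have hint : IsIntegral E x := IsAlgebraic.isIntegral ⟨P, hP0, hPx⟩
  have hμP : minpoly E x ∣ P := minpoly.dvd E x hPx
  have hμQ : minpoly E x ∣ Q := minpoly.dvd E x hQx
  have hP'0 : P.map f ≠ 0 := (Polynomial.map_ne_zero_iff f.injective).mpr hP0
  have hμ'P : (minpoly E x).map f ∣ P.map f := Polynomial.map_dvd f hμP
  have hμ'Q : (minpoly E x).map f ∣ Q.map f := Polynomial.map_dvd f hμQ
  have hsplit' : ((minpoly E x).map f).Splits := hsplit.of_dvd hP'0 hμ'P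
  have hroots_le : ((minpoly E x).map f).roots ≤ (P.map f).roots :=
    Polynomial.roots.le_of_dvd hP'0 hμ'P
  have hnodup' : ((minpoly E x).map f).roots.Nodup := Multiset.nodup_of_le hroots_le hnodup
  have hμ'0 : (minpoly E x).map f ≠ 0 :=
    (Polynomial.map_ne_zero_iff f.injective).mpr (minpoly.ne_zero hint)
  have hall : ∀ β ∈ ((minpoly E x).map f).roots, β = ι x := by
    intro β hβ
    refine huniq β (Multiset.mem_of_le hroots_le hβ) ?_
    have hβ0 : ((minpoly E x).map f).eval β = 0 := (Polynomial.mem_roots hμ'0).mp hβ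
    exact Polynomial.eval_eq_zero_of_dvd_of_eval_eq_zero hμ'Q hβ0
  have hcard : Multiset.card ((minpoly E x).map f).roots ≤ 1 := by
    have hsub : ((minpoly E x).map f).roots ≤ {ι x} := by
      rw [Multiset.le_iff_subset hnodup']
      intro β hβ
      rw [Multiset.mem_singleton]
      exact hall β hβ
    simpa using Multiset.card_le_card hsub
  have hdeg : (minpoly E x).natDegree ≤ 1 := by
    rw [← Polynomial.natDegree_map f, hsplit'.natDegree_eq_card_roots]
    exact hcard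
  have hpos := minpoly.natDegree_pos hint
  exact minpoly.natDegree_eq_one_iff.mp (le_antisymm hdeg hpos)

end AbstractGcd

end Fermat.Agent.S28.H626

end

end
-- ===== PACK-END S28/H626/RootList.lean

-- ===== PACK-BEGIN S28/H807/Conv.lean
section
/-
S28 / helper807 — pointwise convergent Laurent series: ring laws, `V_p`, sections.
-/



set_option autoImplicit false
set_option maxHeartbeats 400000

noncomputable section

open ModularCurve HahnSeries

namespace Fermat.Agent.S28.H807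

/-- The Laurent series `c` converges at the point `z` with sum `A`. -/
def HasLSum (c : LaurentSeries ℂ) (z A : ℂ) : Prop :=
  HasSum (fun n : ℤ => c.coeff n * z ^ n) A

theorem HasLSum.unique {c : LaurentSeries ℂ} {z A B : ℂ} (h1 : HasLSum c z A)
    (h2 : HasLSum c z B) : A = B :=
  HasSum.unique h1 h2

theorem hasLSum_zero (z : ℂ) : HasLSum 0 z 0 := by
  unfold HasLSum
  simpa using (hasSum_zero : HasSum (fun _ : ℤ => (0 : ℂ)) 0)

theorem hasLSum_single (z : ℂ) (k : ℤ) (a : ℂ) :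
    HasLSum (HahnSeries.single k a) z (a * z ^ k) := by
  unfold HasLSum
  have h := hasSum_sum_of_ne_finset_zero (f := fun n : ℤ => (HahnSeries.single k a).coeff n * z ^ n)
    (s := {k}) (L := SummationFilter.unconditional ℤ) (by
      intro b hb
      have hb' : b ≠ k := by simpa using hb
      simp [HahnSeries.coeff_single_of_ne hb'])
  simpa using h

theorem hasLSum_one (z : ℂ) : HasLSum 1 z 1 := by
  have h := hasLSum_single z 0 1
  simpa using h

theorem hasLSum_C (z : ℂ) (a : ℂ) : HasLSum (HahnSeries.C a) z a := by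
  have h := hasLSum_single z 0 a
  simpa using h

theorem HasLSum.add {c d : LaurentSeries ℂ} {z A B : ℂ} (h1 : HasLSum c z A)
    (h2 : HasLSum d z B) : HasLSum (c + d) z (A + B) := by
  unfold HasLSum at *
  have := HasSum.add h1 h2
  simpa [add_mul] using this

theorem HasLSum.neg {c : LaurentSeries ℂ} {z A : ℂ} (h1 : HasLSum c z A) :
    HasLSum (-c) z (-A) := by
  unfold HasLSum at *
  have := HasSum.neg h1
  simpa using this

theorem HasLSum.sub {c d : LaurentSeries ℂ} {z A B : ℂ} (h1 : HasLSum c z A)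
    (h2 : HasLSum d z B) : HasLSum (c - d) z (A - B) := by
  rw [sub_eq_add_neg, sub_eq_add_neg]
  exact h1.add h2.neg

/-- Cauchy product for pointwise convergent Laurent series. -/
theorem HasLSum.mul {c d : LaurentSeries ℂ} {z A B : ℂ} (hz : z ≠ 0) (h1 : HasLSum c z A)
    (h2 : HasLSum d z B) : HasLSum (c * d) z (A * B) := by
  unfold HasLSum at *
  -- the double family is summable
  have hn1 : Summable (fun n : ℤ => ‖c.coeff n * z ^ n‖) := h1.summable.norm
  have hn2 : Summable (fun n : ℤ => ‖d.coeff n * z ^ n‖) := h2.summable.norm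
  have hs : Summable (fun x : ℤ × ℤ => (c.coeff x.1 * z ^ x.1) * (d.coeff x.2 * z ^ x.2)) :=
    summable_mul_of_summable_norm (f := fun n : ℤ => c.coeff n * z ^ n)
      (g := fun n : ℤ => d.coeff n * z ^ n) hn1 hn2
  have hprod : HasSum (fun x : ℤ × ℤ => (c.coeff x.1 * z ^ x.1) * (d.coeff x.2 * z ^ x.2))
      (A * B) := HasSum.mul (f := fun n : ℤ => c.coeff n * z ^ n)
      (g := fun n : ℤ => d.coeff n * z ^ n) h1 h2 hs
  -- reindex by (n, i) ↦ (i, n - i)
  let e : ℤ × ℤ ≃ ℤ × ℤ :=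
    { toFun := fun x => (x.2, x.1 - x.2)
      invFun := fun x => (x.1 + x.2, x.1)
      left_inv := fun x => by simp
      right_inv := fun x => by simp }
  have hprod' : HasSum (fun x : ℤ × ℤ =>
      (c.coeff x.2 * z ^ x.2) * (d.coeff (x.1 - x.2) * z ^ (x.1 - x.2))) (A * B) := by
    have := (e.hasSum_iff (f := fun x : ℤ × ℤ =>
      (c.coeff x.1 * z ^ x.1) * (d.coeff x.2 * z ^ x.2)) (a := A * B)).mpr hprod
    exact this
  refine HasSum.prod_fiberwise hprod' ?_
  intro n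
  -- the fibre over `n` is a finite sum
  set s : Finset ℤ := (Finset.antidiagonal c.isPWO_support d.isPWO_support n).image Prod.fst
    with hs_def
  have hfib := hasSum_sum_of_ne_finset_zero
    (f := fun i : ℤ => (c.coeff i * z ^ i) * (d.coeff (n - i) * z ^ (n - i)))
    (s := s) (L := SummationFilter.unconditional ℤ) (by
      intro i hi
      by_cases hci : c.coeff i = 0
      · simp [hci]
      by_cases hdi : d.coeff (n - i) = 0
      · simp [hdi]
      exfalso
      apply hi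
      rw [hs_def, Finset.mem_image]
      refine ⟨(i, n - i), ?_, rfl⟩
      rw [Finset.mem_antidiagonal]
      exact ⟨hci, hdi, by ring⟩)
  convert hfib using 1
  rw [HahnSeries.coeff_mul, Finset.sum_mul, hs_def, Finset.sum_image]
  · apply Finset.sum_congr rfl
    intro x hx
    rw [Finset.mem_antidiagonal] at hx
    obtain ⟨_, _, hx3⟩ := hx
    have hx2 : x.2 = n - x.1 := by linarith
    rw [← hx2]
    have hzn : z ^ n = z ^ x.1 * z ^ x.2 := by rw [← zpow_add₀ hz, hx3]
    rw [hzn]; ring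
  · intro x hx y hy hxy
    rw [Finset.mem_coe, Finset.mem_antidiagonal] at hx hy
    apply Prod.ext hxy
    have h3 := hx.2.2
    have h4 := hy.2.2
    rw [hxy] at h3
    linarith

theorem HasLSum.pow {c : LaurentSeries ℂ} {z A : ℂ} (hz : z ≠ 0) (h1 : HasLSum c z A)
    (k : ℕ) : HasLSum (c ^ k) z (A ^ k) := by
  induction k with
  | zero => simpa using hasLSum_one z
  | succ k ih => rw [pow_succ, pow_succ]; exact ih.mul hz h1

/-- Substitution `q ↦ q^p`. -/
theorem HasLSum.expand {c : LaurentSeries ℂ} {z A : ℂ} (p : ℕ) [NeZero p]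
    (h : HasLSum c (z ^ p) A) : HasLSum (ModularCurve.qExpand ℂ p c) z A := by
  unfold HasLSum at *
  have hinj : Function.Injective (fun m : ℤ => (p : ℤ) * m) :=
    mul_right_injective₀ (by exact_mod_cast NeZero.ne p)
  refine (hinj.hasSum_iff (f := fun n : ℤ => (ModularCurve.qExpand ℂ p c).coeff n * z ^ n) ?_).mp ?_
  · intro n hn
    have : ¬ (p : ℤ) ∣ n := by
      rintro ⟨m, rfl⟩
      exact hn ⟨m, rfl⟩
    simp [qExpand_coeff_of_not_dvd p c this]
  · convert h using 2 with m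
    simp only [Function.comp_apply, qExpand_coeff_mul]
    congr 1
    rw [zpow_mul, zpow_natCast]

/-- Sections of a convergent series converge. -/
theorem HasLSum.summable_secL {c : LaurentSeries ℂ} {y A : ℂ} (p : ℕ) [NeZero p] (hy : y ≠ 0)
    (h : HasLSum c y A) (r : ℤ) :
    Summable (fun m : ℤ => (secL p r c).coeff m * (y ^ p) ^ m) := by
  unfold HasLSum at h
  have hinj : Function.Injective (fun m : ℤ => (p : ℤ) * m + r) := by
    intro a b hab
    have : (p : ℤ) * a = (p : ℤ) * b := by simpa using hab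
    exact mul_right_injective₀ (by exact_mod_cast NeZero.ne p) this
  have h1 : Summable ((fun n : ℤ => c.coeff n * y ^ n) ∘ fun m : ℤ => (p : ℤ) * m + r) :=
    h.summable.comp_injective hinj
  have h2 := h1.mul_left (y ^ (-r))
  refine h2.congr ?_
  intro m
  simp only [Function.comp_apply, secL_coeff]
  have : y ^ ((p : ℤ) * m + r) = (y ^ p) ^ m * y ^ r := by
    rw [zpow_add₀ hy, zpow_mul, zpow_natCast]
  rw [this, zpow_neg]
  field_simp

/-- Value of the `r`-th section at `y^p`. -/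
def secVal (p : ℕ) [NeZero p] (c : LaurentSeries ℂ) (y : ℂ) (r : ℤ) : ℂ :=
  ∑' m : ℤ, (secL p r c).coeff m * (y ^ p) ^ m

theorem HasLSum.hasLSum_secL {c : LaurentSeries ℂ} {y A : ℂ} (p : ℕ) [NeZero p] (hy : y ≠ 0)
    (h : HasLSum c y A) (r : ℤ) : HasLSum (secL p r c) (y ^ p) (secVal p c y r) :=
  (h.summable_secL p hy r).hasSum

/-- The section values only depend on `y^p`. -/
theorem secVal_congr (p : ℕ) [NeZero p] (c : LaurentSeries ℂ) {y y' : ℂ} (h : y ^ p = y' ^ p)
    (r : ℤ) : secVal p c y r = secVal p c y' r := by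
  unfold secVal
  rw [h]

/-- Regrouping by residues mod `p`: `A · yⁱ = ∑_{i'} y^{i'} · S_{i'-i}(y^p)`. -/
theorem HasLSum.regroup {c : LaurentSeries ℂ} {y A : ℂ} (p : ℕ) [NeZero p] (hy : y ≠ 0)
    (h : HasLSum c y A) (i : Fin p) :
    ∑ i' : Fin p, y ^ (i' : ℕ) * secVal p c y ((i' : ℤ) - (i : ℤ)) = A * y ^ (i : ℕ) := by
  have hp0 : (p : ℤ) ≠ 0 := by exact_mod_cast NeZero.ne p
  -- the shifted family
  have h1 : HasSum (fun n : ℤ => c.coeff (n - i) * y ^ n) (A * y ^ (i : ℕ)) := by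
    have h0 : HasSum (fun n : ℤ => c.coeff n * y ^ n * y ^ (i : ℕ)) (A * y ^ (i : ℕ)) :=
      HasSum.mul_right _ h
    have := ((Equiv.subRight ((i : ℕ) : ℤ)).hasSum_iff
      (f := fun n : ℤ => c.coeff n * y ^ n * y ^ (i : ℕ)) (a := A * y ^ (i : ℕ))).mpr h0
    refine this.congr_fun ?_
    intro n
    simp only [Function.comp_apply, Equiv.subRight_apply]
    have : y ^ n = y ^ (n - (i : ℕ)) * y ^ (i : ℕ) := by
      rw [← zpow_natCast y (i : ℕ), ← zpow_add₀ hy]; congr 1; ring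
    rw [this]; ring
  -- split `n = m * p + i'`
  have h2 : HasSum (fun x : ℤ × Fin p =>
      c.coeff (x.1 * (p : ℤ) + ((x.2 : ℕ) : ℤ) - (i : ℕ)) * y ^ (x.1 * (p : ℤ) + ((x.2 : ℕ) : ℤ)))
      (A * y ^ (i : ℕ)) := by
    have := ((Int.divModEquiv p).symm.hasSum_iff
      (f := fun n : ℤ => c.coeff (n - i) * y ^ n) (a := A * y ^ (i : ℕ))).mpr h1
    refine this.congr_fun ?_
    intro x
    simp only [Function.comp_apply, Int.divModEquiv_symm_apply]
  have h3 : HasSum (fun m : ℤ => ∑ i' : Fin p,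
      c.coeff (m * (p : ℤ) + ((i' : ℕ) : ℤ) - (i : ℕ)) * y ^ (m * (p : ℤ) + ((i' : ℕ) : ℤ)))
      (A * y ^ (i : ℕ)) := by
    refine HasSum.prod_fiberwise h2 ?_
    intro m
    exact hasSum_fintype _
  have h4 : ∀ i' : Fin p, HasSum (fun m : ℤ =>
      c.coeff (m * (p : ℤ) + ((i' : ℕ) : ℤ) - (i : ℕ)) * y ^ (m * (p : ℤ) + ((i' : ℕ) : ℤ)))
      (y ^ (i' : ℕ) * secVal p c y ((i' : ℤ) - (i : ℤ))) := by
    intro i'
    have h5 := (h.hasLSum_secL p hy ((i' : ℤ) - (i : ℤ)))
    unfold HasLSum at h5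
    have h6 := h5.mul_left (y ^ (i' : ℕ))
    refine h6.congr_fun ?_
    intro m
    simp only [secL_coeff]
    have e1 : m * (p : ℤ) + ((i' : ℕ) : ℤ) - ((i : ℕ) : ℤ)
        = (p : ℤ) * m + (((i' : ℕ) : ℤ) - ((i : ℕ) : ℤ)) := by ring
    have e2 : y ^ (m * (p : ℤ) + ((i' : ℕ) : ℤ)) = y ^ (i' : ℕ) * (y ^ p) ^ m := by
      rw [zpow_add₀ hy, zpow_natCast, mul_comm m, zpow_mul, zpow_natCast, mul_comm]
    rw [e1, e2]; ring
  have h7 := hasSum_sum (s := Finset.univ) (fun i' _ => h4 i')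
  exact (h7.unique h3)

end Fermat.Agent.S28.H807

end

end
-- ===== PACK-END S28/H807/Conv.lean

-- ===== PACK-BEGIN S28/H25/ThetaAnalytic.lean
section




/-!
# The `θ`-identity for `j`, analytic part (helper25, S28 piece [A-θ])

In `ℂ⟦q⟧`, with `e4, e6, δ` the `q`-expansions of `E₄, E₆, Δ` and `θ = q d/dq`:
* `e4 ^ 3 - e6 ^ 2 = 1728 * δ`;
* `3 * e4 ^ 2 * θ e4 * δ - e4 ^ 3 * θ δ = - (e4 ^ 2 * e6 * δ)`.
-/

set_option autoImplicit false

open UpperHalfPlane hiding I
open Function Derivative Complex ModularForm EisensteinSeries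
open scoped Manifold MatrixGroups

noncomputable section

namespace Fermat.Agent.S28.H25

/-- Functions on `ℍ` whose cusp function (period `1`) is analytic at `0`. -/
def qAnalytic : Subring (ℍ → ℂ) where
  carrier := {F | AnalyticAt ℂ (cuspFunction 1 F) 0}
  mul_mem' {f g} hf hg := by
    simp only [Set.mem_ofPred_eq] at hf hg ⊢
    rw [cuspFunction_mul hf.continuousAt hg.continuousAt]
    exact hf.mul hg
  one_mem' := by
    simp only [Set.mem_ofPred_eq]
    have h1 : cuspFunction 1 (1 : ℍ → ℂ) = 1 := by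
      ext q
      rcases eq_or_ne q 0 with rfl | hq
      · simpa [cuspFunction, Function.Periodic.cuspFunction] using!
          tendsto_const_nhds.limUnder_eq
      · simp [cuspFunction, Function.Periodic.cuspFunction_eq_of_nonzero 1 _ hq]
    rw [h1]
    exact analyticAt_const
  add_mem' {f g} hf hg := by
    simp only [Set.mem_ofPred_eq] at hf hg ⊢
    rw [cuspFunction_add hf.continuousAt hg.continuousAt]
    exact hf.add hg
  zero_mem' := by
    simp only [Set.mem_ofPred_eq]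
    have h0 : cuspFunction 1 (0 : ℍ → ℂ) = 0 := by
      ext q
      rcases eq_or_ne q 0 with rfl | hq
      · simpa [cuspFunction, Function.Periodic.cuspFunction] using!
          tendsto_const_nhds.limUnder_eq
      · simp [cuspFunction, Function.Periodic.cuspFunction_eq_of_nonzero 1 _ hq]
    rw [h0]
    exact analyticAt_const
  neg_mem' {f} hf := by
    simp only [Set.mem_ofPred_eq] at hf ⊢
    rw [cuspFunction_neg hf.continuousAt]
    exact hf.neg

theorem mem_qAnalytic_iff {F : ℍ → ℂ} :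
    F ∈ qAnalytic ↔ AnalyticAt ℂ (cuspFunction 1 F) 0 := Iff.rfl

/-- The `q`-expansion, as a ring homomorphism on `qAnalytic`. -/
def qExpRingHom : qAnalytic →+* PowerSeries ℂ where
  toFun F := qExpansion 1 (F : ℍ → ℂ)
  map_one' := qExpansion_one 1
  map_mul' F G := qExpansion_mul F.2 G.2
  map_zero' := qExpansion_zero 1
  map_add' F G := qExpansion_add F.2 G.2

@[simp] theorem qExpRingHom_apply (F : qAnalytic) :
    qExpRingHom F = qExpansion 1 (F : ℍ → ℂ) := rfl

theorem mem_qAnalytic_of_modularForm {k : ℤ} (f : ModularForm 𝒮ℒ k) :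
    (f : ℍ → ℂ) ∈ qAnalytic :=
  ModularFormClass.analyticAt_cuspFunction_zero f one_pos one_mem_strictPeriods_SL

theorem periodic_of_modularForm {k : ℤ} (f : ModularForm 𝒮ℒ k) :
    Periodic ((f : ℍ → ℂ) ∘ ofComplex) (1 : ℝ) :=
  SlashInvariantFormClass.periodic_comp_ofComplex f one_mem_strictPeriods_SL

theorem mem_qAnalytic_D_of_modularForm {k : ℤ} (f : ModularForm 𝒮ℒ k) :
    D (f : ℍ → ℂ) ∈ qAnalytic :=
  analyticAt_cuspFunction_D one_pos (periodic_of_modularForm f) (ModularFormClass.holo f)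
    (ModularFormClass.bdd_at_infty f)

theorem qExpansion_D_of_modularForm {k : ℤ} (f : ModularForm 𝒮ℒ k) :
    qExpansion 1 (D (f : ℍ → ℂ)) = thetaP (qExpansion 1 (f : ℍ → ℂ)) :=
  qExpansion_D (periodic_of_modularForm f) (ModularFormClass.holo f)
    (ModularFormClass.bdd_at_infty f)

/-- `Δ` as a modular form of weight 12 -/
def discForm : ModularForm 𝒮ℒ 12 := (CuspForm.discriminant : CuspForm 𝒮ℒ 12)

theorem coe_discForm : (discForm : ℍ → ℂ) = ModularForm.discriminant := rfl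

/-- `e4 ^ 3 - e6 ^ 2 = 1728 δ` in `ℂ⟦q⟧`. -/
theorem qExp_E4_cube_sub_E6_sq :
    qExpansion 1 E₄ ^ 3 - qExpansion 1 E₆ ^ 2 =
      1728 * qExpansion 1 ModularForm.discriminant := by
  let a4 : qAnalytic := ⟨E₄, mem_qAnalytic_of_modularForm E₄⟩
  let a6 : qAnalytic := ⟨E₆, mem_qAnalytic_of_modularForm E₆⟩
  let aΔ : qAnalytic := ⟨ModularForm.discriminant, mem_qAnalytic_of_modularForm discForm⟩
  have key : a4 ^ 3 - a6 ^ 2 = 1728 * aΔ := by
    apply Subtype.ext
    funext z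
    have := Fermat.Agent.S20.L1.E₄_cube_sub_E₆_sq z
    have h3 : ((1728 : qAnalytic) : ℍ → ℂ) z = 1728 := rfl
    push_cast
    simp only [a4, a6, aΔ, Pi.sub_apply, Pi.mul_apply, Pi.pow_apply]
    rw [h3]
    exact this
  have := congrArg qExpRingHom key
  simpa only [map_sub, map_pow, map_mul, map_ofNat, qExpRingHom_apply] using this

/-- `3 e4² θ(e4) δ - e4³ θ(δ) = - e4² e6 δ` in `ℂ⟦q⟧`. -/
theorem qExp_theta_relation :
    3 * qExpansion 1 E₄ ^ 2 * thetaP (qExpansion 1 E₄) * qExpansion 1 ModularForm.discriminant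
      - qExpansion 1 E₄ ^ 3 * thetaP (qExpansion 1 ModularForm.discriminant) =
      - (qExpansion 1 E₄ ^ 2 * qExpansion 1 E₆ * qExpansion 1 ModularForm.discriminant) := by
  let a4 : qAnalytic := ⟨E₄, mem_qAnalytic_of_modularForm E₄⟩
  let a6 : qAnalytic := ⟨E₆, mem_qAnalytic_of_modularForm E₆⟩
  let aΔ : qAnalytic := ⟨ModularForm.discriminant, mem_qAnalytic_of_modularForm discForm⟩
  let d4 : qAnalytic := ⟨D (E₄ : ℍ → ℂ), mem_qAnalytic_D_of_modularForm E₄⟩
  let dΔ : qAnalytic := ⟨D (ModularForm.discriminant : ℍ → ℂ),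
    mem_qAnalytic_D_of_modularForm discForm⟩
  have key : 3 * a4 ^ 2 * d4 * aΔ - a4 ^ 3 * dΔ = - (a4 ^ 2 * a6 * aΔ) := by
    apply Subtype.ext
    funext z
    have h4 := Fermat.Agent.S20.L1.ramanujan_E₄ z
    have hΔ := Fermat.Agent.S20.L1.ramanujan_discriminant z
    have h3 : ((3 : qAnalytic) : ℍ → ℂ) z = 3 := rfl
    push_cast
    simp only [a4, a6, aΔ, d4, dΔ, Pi.sub_apply, Pi.mul_apply, Pi.pow_apply, Pi.neg_apply]
    rw [h3, h4, hΔ]
    ring
  have := congrArg qExpRingHom key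
  simp only [map_sub, map_pow, map_mul, map_neg, map_ofNat, qExpRingHom_apply] at this
  have e1 : qExpansion 1 (D (E₄ : ℍ → ℂ)) = thetaP (qExpansion 1 E₄) :=
    qExpansion_D_of_modularForm E₄
  have e2 : qExpansion 1 (D (ModularForm.discriminant : ℍ → ℂ)) =
      thetaP (qExpansion 1 ModularForm.discriminant) :=
    qExpansion_D_of_modularForm discForm
  simpa only [a4, a6, aΔ, d4, dΔ, e1, e2] using this

end Fermat.Agent.S28.H25

end
end
-- ===== PACK-END S28/H25/ThetaAnalytic.lean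

-- ===== PACK-BEGIN S29/DefsM.lean
section
/-
S29 row — FROZEN interface definitions for layer M (the torsion module).  Row-lead helper269.
Namespace `Fermat.Agent.S29`.  Do not edit; propose changes via a note kind='question' stmt='S29'.
-/



set_option autoImplicit false

noncomputable section

namespace Fermat.Agent.S29

open ModularCurve AlgebraicCurve
open scoped TensorProduct MatrixGroups

/-! ### The `p`-torsion of `J₀(N)(ℚ̄)` (Prelude `JZero N`) with Hecke and Galois operators -/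

section Jp

variable (N : ℕ) [NeZero N] (p : ℕ)

/-- `J₀(N)(ℚ̄)[p]` as a `ℤ`-submodule of the Prelude's `JZero N`. -/
abbrev Jp : Submodule ℤ (JZero N) := Submodule.torsionBy ℤ (JZero N) (p : ℤ)

/-- The Prelude Hecke operator `T_ℓ` restricted to `J₀(N)[p]`. -/
def heckeJp (ℓ : Nat.Primes) : Jp N p →ₗ[ℤ] Jp N p :=
  (heckeOperatorBar N ℓ).restrict (p := Jp N p) (q := Jp N p) (fun x hx => by
    rw [Submodule.mem_torsionBy_iff] at hx ⊢
    rw [← map_smul, hx, map_zero])

@[simp] theorem coe_heckeJp (ℓ : Nat.Primes) (x : Jp N p) :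
    ((heckeJp N p ℓ x : Jp N p) : JZero N) = heckeOperatorBar N ℓ (x : JZero N) := rfl

/-- The Galois action on `J₀(N)[p]`. -/
def galJp (σ : GQ) : Jp N p →ₗ[ℤ] Jp N p :=
  ((DistribSMul.toAddMonoidHom (JZero N) σ).toIntLinearMap).restrict
    (p := Jp N p) (q := Jp N p) (fun x hx => by
    rw [Submodule.mem_torsionBy_iff] at hx ⊢
    rw [← map_smul, hx, map_zero])

omit [NeZero N] in
@[simp] theorem coe_galJp (σ : GQ) (x : Jp N p) :
    ((galJp N p σ x : Jp N p) : JZero N) = σ • (x : JZero N) := rfl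

end Jp

/-! ### Parabolic additive characters of `Γ₀(N)` and the cohomological Hecke operator -/

section ParHom

variable (N : ℕ)

/-- The group `Γ₀(N)` as a type. -/
abbrev G0 : Type := ↥(CongruenceSubgroup.Gamma0 N)

/-- Integer matrix of an element of `Γ₀(N)`. -/
def G0.mat {N : ℕ} (γ : G0 N) : Matrix (Fin 2) (Fin 2) ℤ := ((γ : SL(2, ℤ)) : Matrix (Fin 2) (Fin 2) ℤ)

/-- `c : Γ₀(N) → A` is an additive character vanishing on all elements of trace `±2`
(cusp stabilisers, `-1`) and on all torsion (elliptic) elements. -/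
structure IsParHom {N : ℕ} {A : Type*} [AddCommGroup A] (c : G0 N → A) : Prop where
  map_mul : ∀ γ γ' : G0 N, c (γ * γ') = c γ + c γ'
  parabolic : ∀ γ : G0 N, (γ.mat.trace = 2 ∨ γ.mat.trace = -2) → c γ = 0
  elliptic : ∀ (γ : G0 N) (n : ℕ), 0 < n → γ ^ n = 1 → c γ = 0

/-- Coset representatives of `Γ₀(N) \ Γ₀(N) diag(1,ℓ) Γ₀(N)` (`ℓ ∤ N` prime):
`none ↦ [[ℓ,0],[0,1]]`, `some b ↦ [[1,b],[0,ℓ]]`. -/
def heckeRep (ℓ : ℕ) : Option (Fin ℓ) → Matrix (Fin 2) (Fin 2) ℤ
  | none => !![(ℓ : ℤ), 0; 0, 1]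
  | some b => !![1, ((b : ℕ) : ℤ); 0, (ℓ : ℤ)]

/-- `heckeRep i * γ = γ' * heckeRep j`. -/
def IsHeckeFactor {N : ℕ} (ℓ : ℕ) (γ : G0 N) (i : Option (Fin ℓ)) (q : Option (Fin ℓ) × G0 N) :
    Prop :=
  heckeRep ℓ i * γ.mat = q.2.mat * heckeRep ℓ q.1

open Classical in
/-- The (unique, for `ℓ ∤ N` prime) pair `(j, γ')` with `heckeRep i * γ = γ' * heckeRep j`. -/
def heckeFac (ℓ : ℕ) (γ : G0 N) (i : Option (Fin ℓ)) : Option (Fin ℓ) × G0 N :=
  if h : ∃ q : Option (Fin ℓ) × G0 N, IsHeckeFactor ℓ γ i q then Classical.choose h else (i, 1)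

/-- The cohomological Hecke operator on functions `Γ₀(N) → A`:
`(T_ℓ c)(γ) = ∑ᵢ c(γ'ᵢ)` where `αᵢ γ = γ'ᵢ α_{π(i)}`. -/
def heckeCoh {A : Type*} [AddCommMonoid A] (ℓ : ℕ) (c : G0 N → A) : G0 N → A :=
  fun γ => ∑ i : Option (Fin ℓ), c (heckeFac N ℓ γ i).2

end ParHom

/-! ### External input: the frozen statement S37 -/

/-- The frozen statement S37 as a `Prop` (row S37 proves it as `Fermat.Agent.S37.result`). -/
def S37Statement : Prop :=
  ∀ (N p : ℕ) [NeZero N] (_ : ModularCurve.HeckeOperatorsCommuteBar N),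
    letI := ModularCurve.heckeModuleBar N
    ∀ (_ : SMulCommClass GQ ModularCurve.HeckeAlg (ModularCurve.JZero N)),
      ModularCurve.SpecializationExists (K := ℚ) (L := AlgebraicClosure ℚ) N p
        (ModularCurve.JZero N)

end Fermat.Agent.S29

end
end
-- ===== PACK-END S29/DefsM.lean

-- ===== PACK-BEGIN S29/H509/TwistedEis.lean
section


/-!
# Twisted Eisenstein series (helper509, S29 piece TES, file 2)

For a subgroup `Γ ≤ SL(2, ℤ)` and a unitary character `χ : Γ →* ℂˣ` which is trivial on the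
upper unipotent elements of `Γ`, the twisted Eisenstein series
`twEis χ k z = ∑_{(c, d) bottom row of γ ∈ Γ} χ(γ)⁻¹ (c z + d) ^ (-k)`
is holomorphic, satisfies `twEis χ k ∣[k] δ = χ δ • twEis χ k` for `δ ∈ Γ`, all its
`SL(2, ℤ)`-translates are bounded at `i∞`, and it is nonzero when `k` is even and `χ` is
trivial on all elements of `Γ` fixing `∞`.
-/

set_option autoImplicit false

namespace Fermat.Agent.S29.H509

open ModularForm UpperHalfPlane Matrix CongruenceSubgroup EisensteinSeries Filter Topology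
open scoped MatrixGroups Manifold

noncomputable section

/-- The bottom row of a matrix in `SL(2, ℤ)`. -/
def botRow (γ : SL(2, ℤ)) : Fin 2 → ℤ := fun j => (γ : Matrix (Fin 2) (Fin 2) ℤ) 1 j

lemma botRow_apply (γ : SL(2, ℤ)) (j : Fin 2) :
    botRow γ j = (γ : Matrix (Fin 2) (Fin 2) ℤ) 1 j := rfl

lemma botRow_one : botRow 1 = ![0, 1] := by
  ext j
  fin_cases j <;> simp [botRow]

lemma botRow_mul (a b : SL(2, ℤ)) :
    botRow (a * b) = botRow a ᵥ* (b : Matrix (Fin 2) (Fin 2) ℤ) := by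
  ext j
  simp [botRow, Matrix.vecMul, dotProduct, Matrix.mul_apply]

lemma botRow_snd_of_fst_eq_zero (γ : SL(2, ℤ)) (h : botRow γ 0 = 0) :
    botRow γ 1 = 1 ∨ botRow γ 1 = -1 := by
  have hdet := γ.det_coe
  rw [Matrix.det_fin_two] at hdet
  simp only [botRow_apply] at h ⊢
  rw [h, mul_zero, sub_zero] at hdet
  rcases Int.eq_one_or_neg_one_of_mul_eq_one' hdet with h1 | h1
  · exact Or.inl h1.2
  · exact Or.inr h1.2

lemma botRow_eq_of_fst_eq_zero (γ : SL(2, ℤ)) (h : botRow γ 0 = 0) :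
    botRow γ = ![0, 1] ∨ botRow γ = ![0, -1] := by
  rcases botRow_snd_of_fst_eq_zero γ h with h1 | h1
  · left
    ext j
    fin_cases j <;> simp [h, h1]
  · right
    ext j
    fin_cases j <;> simp [h, h1]

variable {Γ : Subgroup SL(2, ℤ)}

open Classical in
/-- The weight function attached to a character `χ` of `Γ`: `χ(γ)⁻¹` on the bottom row of
`γ ∈ Γ`, and `0` on vectors which are not bottom rows of elements of `Γ`. -/
def chiWeight (χ : Γ →* ℂˣ) (v : Fin 2 → ℤ) : ℂ :=
  if h : ∃ γ : Γ, botRow (γ : SL(2, ℤ)) = v then (((χ h.choose)⁻¹ : ℂˣ) : ℂ) else 0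

/-- `χ` is trivial on the upper unipotent elements of `Γ`. -/
def TrivOnUnip (χ : Γ →* ℂˣ) : Prop :=
  ∀ γ : Γ, botRow (γ : SL(2, ℤ)) = ![0, 1] → χ γ = 1

/-- `χ` is trivial on the elements of `Γ` fixing `∞`. -/
def TrivOnStabInfty (χ : Γ →* ℂˣ) : Prop :=
  ∀ γ : Γ, botRow (γ : SL(2, ℤ)) 0 = 0 → χ γ = 1

lemma TrivOnStabInfty.trivOnUnip {χ : Γ →* ℂˣ} (h : TrivOnStabInfty χ) : TrivOnUnip χ :=
  fun γ hγ => h γ (by simp [hγ])

lemma chi_eq_of_botRow_eq {χ : Γ →* ℂˣ} (hχ : TrivOnUnip χ) {γ₁ γ₂ : Γ}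
    (h : botRow (γ₁ : SL(2, ℤ)) = botRow (γ₂ : SL(2, ℤ))) : χ γ₁ = χ γ₂ := by
  have h1 : botRow ((γ₁ * γ₂⁻¹ : Γ) : SL(2, ℤ)) = ![0, 1] := by
    rw [Subgroup.coe_mul, botRow_mul, h, ← botRow_mul, Subgroup.coe_inv, mul_inv_cancel,
      botRow_one]
  have := hχ _ h1
  rwa [map_mul, map_inv, mul_inv_eq_one] at this

lemma chiWeight_botRow {χ : Γ →* ℂˣ} (hχ : TrivOnUnip χ) (γ : Γ) :
    chiWeight χ (botRow (γ : SL(2, ℤ))) = (((χ γ)⁻¹ : ℂˣ) : ℂ) := by
  have hex : ∃ γ' : Γ, botRow (γ' : SL(2, ℤ)) = botRow (γ : SL(2, ℤ)) := ⟨γ, rfl⟩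
  unfold chiWeight
  rw [dif_pos hex, chi_eq_of_botRow_eq hχ hex.choose_spec]

lemma chiWeight_of_not_exists (χ : Γ →* ℂˣ) {v : Fin 2 → ℤ}
    (h : ¬ ∃ γ : Γ, botRow (γ : SL(2, ℤ)) = v) : chiWeight χ v = 0 :=
  dif_neg h

lemma norm_chiWeight_le {χ : Γ →* ℂˣ} (hnorm : ∀ γ, ‖(χ γ : ℂ)‖ = 1) (v : Fin 2 → ℤ) :
    ‖chiWeight χ v‖ ≤ 1 := by
  unfold chiWeight
  split_ifs with h
  · simp [hnorm]
  · simp

lemma chiWeight_vecMul_inv {χ : Γ →* ℂˣ} (hχ : TrivOnUnip χ) (δ : Γ) (v : Fin 2 → ℤ) :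
    chiWeight χ (v ᵥ* (((δ : SL(2, ℤ))⁻¹ : SL(2, ℤ)) : Matrix (Fin 2) (Fin 2) ℤ)) =
      (χ δ : ℂ) * chiWeight χ v := by
  by_cases hex : ∃ γ : Γ, botRow (γ : SL(2, ℤ)) = v
  · obtain ⟨γ, rfl⟩ := hex
    have h1 : botRow (γ : SL(2, ℤ)) ᵥ* (((δ : SL(2, ℤ))⁻¹ : SL(2, ℤ)) :
        Matrix (Fin 2) (Fin 2) ℤ) = botRow ((γ * δ⁻¹ : Γ) : SL(2, ℤ)) := by
      rw [Subgroup.coe_mul, botRow_mul, Subgroup.coe_inv]
    rw [h1, chiWeight_botRow hχ, chiWeight_botRow hχ, map_mul, map_inv]
    simp [mul_comm]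
  · rw [chiWeight_of_not_exists χ hex, mul_zero]
    apply chiWeight_of_not_exists
    rintro ⟨γ, hγ⟩
    apply hex
    refine ⟨γ * δ, ?_⟩
    rw [Subgroup.coe_mul, botRow_mul, hγ, Matrix.vecMul_vecMul,
      ← Matrix.SpecialLinearGroup.coe_mul, inv_mul_cancel, Matrix.SpecialLinearGroup.coe_one,
      Matrix.vecMul_one]

/-- The twisted Eisenstein series of weight `k` attached to `χ`. -/
def twEis (χ : Γ →* ℂˣ) (k : ℤ) : ℍ → ℂ := wEis (chiWeight χ) k

/-- The transformation law of the twisted Eisenstein series. -/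
theorem twEis_slash {χ : Γ →* ℂˣ} (hχ : TrivOnUnip χ) (k : ℤ) (δ : Γ) :
    twEis χ k ∣[k] (δ : SL(2, ℤ)) = (χ δ : ℂ) • twEis χ k := by
  unfold twEis
  rw [wEis_slash]
  ext z
  simp only [wEis, Pi.smul_apply, smul_eq_mul, chiWeight_vecMul_inv hχ δ, mul_assoc,
    tsum_mul_left]

/-- The transformation law, pointwise. -/
theorem twEis_smul_apply {χ : Γ →* ℂˣ} (hχ : TrivOnUnip χ) (k : ℤ) (δ : Γ) (z : ℍ) :
    twEis χ k ((δ : SL(2, ℤ)) • z) = (χ δ : ℂ) * denom (δ : SL(2, ℤ)) z ^ k * twEis χ k z := by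
  have h := congrFun (twEis_slash hχ k δ) z
  rw [SL_slash_apply, Pi.smul_apply, smul_eq_mul, _root_.zpow_neg,
    mul_inv_eq_iff_eq_mul₀ (zpow_ne_zero _ <| denom_ne_zero _ z)] at h
  rw [h]
  ring

theorem twEis_mdifferentiable {χ : Γ →* ℂˣ} (hnorm : ∀ γ, ‖(χ γ : ℂ)‖ = 1) {k : ℤ}
    (hk : 3 ≤ k) : MDiff (twEis χ k) :=
  wEis_mdifferentiable (norm_chiWeight_le hnorm) hk

theorem isBoundedAtImInfty_twEis_slash {χ : Γ →* ℂˣ} (hnorm : ∀ γ, ‖(χ γ : ℂ)‖ = 1) {k : ℤ}
    (hk : 3 ≤ k) (A : SL(2, ℤ)) : IsBoundedAtImInfty (twEis χ k ∣[k] A) :=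
  isBoundedAtImInfty_wEis_slash (norm_chiWeight_le hnorm) hk A

lemma chiWeight_zero_one {χ : Γ →* ℂˣ} (hχ : TrivOnUnip χ) : chiWeight χ ![0, 1] = 1 := by
  have h := chiWeight_botRow hχ (1 : Γ)
  rw [Subgroup.coe_one, botRow_one] at h
  rw [h]
  simp

lemma chiWeight_zero_neg_one {χ : Γ →* ℂˣ} (hχ : TrivOnStabInfty χ) :
    chiWeight χ ![0, -1] = 0 ∨ chiWeight χ ![0, -1] = 1 := by
  by_cases hex : ∃ γ : Γ, botRow (γ : SL(2, ℤ)) = ![0, -1]
  · obtain ⟨γ, hγ⟩ := hex
    right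
    rw [← hγ, chiWeight_botRow hχ.trivOnUnip, hχ γ (by simp [hγ])]
    simp
  · exact Or.inl (chiWeight_of_not_exists χ hex)

lemma chiWeight_eq_zero_of_fst_eq_zero (χ : Γ →* ℂˣ) (v : Fin 2 → ℤ) (h0 : v 0 = 0)
    (h1 : v 1 ≠ 1) (h2 : v 1 ≠ -1) : chiWeight χ v = 0 := by
  apply chiWeight_of_not_exists
  rintro ⟨γ, rfl⟩
  rcases botRow_snd_of_fst_eq_zero _ h0 with h | h
  · exact h1 h
  · exact h2 h

/-- The constant term of the twisted Eisenstein series of even weight is `1` or `2`. -/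
lemma wEisConst_chiWeight {χ : Γ →* ℂˣ} (hχ : TrivOnStabInfty χ) {k : ℤ} (hk : Even k) :
    wEisConst (chiWeight χ) k = 1 ∨ wEisConst (chiWeight χ) k = 2 := by
  rw [wEisConst_eq (chiWeight_eq_zero_of_fst_eq_zero χ), chiWeight_zero_one hχ.trivOnUnip]
  have hpow : (-1 : ℂ) ^ (-k) = 1 := Even.neg_one_zpow hk.neg
  rw [hpow, mul_one]
  rcases chiWeight_zero_neg_one hχ with h | h
  · left
    rw [h, add_zero]
  · right
    rw [h]
    norm_num

/-- The twisted Eisenstein series of even weight `k ≥ 3` is not identically zero. -/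
theorem twEis_ne_zero {χ : Γ →* ℂˣ} (hnorm : ∀ γ, ‖(χ γ : ℂ)‖ = 1) (hχ : TrivOnStabInfty χ)
    {k : ℤ} (hk : 3 ≤ k) (heven : Even k) : twEis χ k ≠ 0 := by
  apply wEis_ne_zero_of_const_ne_zero (norm_chiWeight_le hnorm) hk
  rcases wEisConst_chiWeight hχ heven with h | h <;> rw [h] <;> norm_num

end

end Fermat.Agent.S29.H509

end
-- ===== PACK-END S29/H509/TwistedEis.lean

-- ===== PACK-BEGIN S15/H962/NewtonVal.lean
section


/-!
# Row S15, node GEO (helper962): Newton polygon of a polynomial of "modular shape"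

Mathlib-only.  Let `Φ ∈ ℤ[X][Y]` have the shape of the classical modular polynomial of prime level
`N`:  `Φ = Y^{N+1} + c_N(X) Y^N + … + c_1(X) Y + c_0(X)` with
`c_0 = ± X^{N+1} + (lower)`, `c_N = ± X^N + (lower)`, `deg c_k ≤ N` for `0 < k < N`.

`val_root_of_isModularShape`: for a valuation `v` on a field `K` and `a, b ∈ K` with `Φ(a, b) = 0`
and `1 < v a` (i.e. `a` is not `v`-integral):  `v b = (v a)^N`  or  `(v b)^N = v a`.

`val_propagate_zero`, `val_propagate_infty`: the resulting propagation of the two residue discs of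
the cusps along a Hecke correspondence `T_ℓ` (values `(a, a_p)` at a place `P'` of `X₀(pℓ)`,
values `(a_ℓ, a_{pℓ})` at its image): if `(v a_p)^p = v a` then `(v a_{pℓ})^p = v a_ℓ`, and if
`v a_p = (v a)^p` then `v a_{pℓ} = (v a_ℓ)^p`.
-/

set_option autoImplicit false

open Polynomial

namespace Fermat.Agent.S15.H962

section Valuation

variable {K : Type*} [Field K] {Γ₀ : Type*} [LinearOrderedCommGroupWithZero Γ₀]
  (v : Valuation K Γ₀)

theorem val_natCast_le_one (n : ℕ) : v (n : K) ≤ 1 := by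
  induction n with
  | zero => simp
  | succ n ih =>
    rw [Nat.cast_succ]
    exact (v.map_add _ _).trans (max_le ih (by rw [map_one]))

theorem val_intCast_le_one (n : ℤ) : v (n : K) ≤ 1 := by
  obtain ⟨m, rfl | rfl⟩ := n.eq_nat_or_neg
  · simpa using val_natCast_le_one v m
  · rw [Int.cast_neg, Valuation.map_neg]
    simpa using val_natCast_le_one v m

theorem val_intCast_unit {n : ℤ} (hn : IsUnit n) : v (n : K) = 1 := by
  rcases Int.isUnit_iff.mp hn with rfl | rfl
  · simp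
  · simp

/-- `v (P(a)) ≤ (v a)^d` for `P ∈ ℤ[X]` of degree `≤ d` and `1 ≤ v a`. -/
theorem val_eval_le {a : K} (ha : 1 ≤ v a) (P : ℤ[X]) {d : ℕ} (hd : P.natDegree ≤ d) :
    v (P.eval₂ (Int.castRingHom K) a) ≤ v a ^ d := by
  rw [Polynomial.eval₂_eq_sum_range]
  refine Valuation.map_sum_le v fun i hi => ?_
  have hi' : i ≤ d := (Nat.lt_succ_iff.mp (Finset.mem_range.mp hi)).trans hd
  rw [map_mul, map_pow, eq_intCast]
  calc v ((P.coeff i : ℤ) : K) * v a ^ i ≤ 1 * v a ^ i := by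
        gcongr
        exact val_intCast_le_one v _
    _ = v a ^ i := one_mul _
    _ ≤ v a ^ d := pow_le_pow_right₀ ha hi'

/-- `v (P(a)) = (v a)^d` for `P ∈ ℤ[X]` of degree `d` with leading coefficient `± 1`, `1 < v a`. -/
theorem val_eval_eq {a : K} (ha : 1 < v a) (P : ℤ[X]) {d : ℕ} (hd : P.natDegree = d)
    (hu : IsUnit P.leadingCoeff) :
    v (P.eval₂ (Int.castRingHom K) a) = v a ^ d := by
  have hP : P = P.eraseLead + C P.leadingCoeff * X ^ d := by
    rw [← hd]; exact (Polynomial.eraseLead_add_C_mul_X_pow P).symm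
  have hlead : v ((C P.leadingCoeff * X ^ d : ℤ[X]).eval₂ (Int.castRingHom K) a) = v a ^ d := by
    rw [Polynomial.eval₂_mul, Polynomial.eval₂_C, Polynomial.eval₂_pow, Polynomial.eval₂_X,
      map_mul, map_pow, eq_intCast, val_intCast_unit v hu, one_mul]
  have hlow : v (P.eraseLead.eval₂ (Int.castRingHom K) a) < v a ^ d := by
    rcases Nat.eq_zero_or_pos d with h0 | hpos
    · subst h0
      have : P.eraseLead = 0 := by
        have h1 : P.natDegree = 0 := hd
        rw [Polynomial.eq_C_of_natDegree_eq_zero h1]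
        exact Polynomial.eraseLead_C _
      rw [this, Polynomial.eval₂_zero, map_zero, pow_zero]
      exact zero_lt_one
    · have h1 : P.eraseLead.natDegree ≤ d - 1 := by
        rw [← hd]; exact Polynomial.eraseLead_natDegree_le P
      calc v (P.eraseLead.eval₂ (Int.castRingHom K) a) ≤ v a ^ (d - 1) :=
            val_eval_le v ha.le _ h1
        _ < v a ^ d := pow_lt_pow_right₀ ha (by omega)
  rw [hP, Polynomial.eval₂_add, Valuation.map_add_eq_of_lt_right v (by rw [hlead]; exact hlow),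
    hlead]

/-- A finite sum with a strictly dominant term is nonzero. -/
theorem sum_ne_zero_of_dominant {ι : Type*} [DecidableEq ι] (s : Finset ι) (f : ι → K) (m : ι)
    (hm : m ∈ s) (hfm : f m ≠ 0) (hdom : ∀ i ∈ s, i ≠ m → v (f i) < v (f m)) :
    ∑ i ∈ s, f i ≠ 0 := by
  have hsplit : ∑ i ∈ s, f i = ∑ i ∈ s.erase m, f i + f m := by
    rw [Finset.sum_erase_add _ _ hm]
  have hlt : v (∑ i ∈ s.erase m, f i) < v (f m) :=
    Valuation.map_sum_lt v ((Valuation.ne_zero_iff v).mpr hfm) fun i hi =>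
      hdom i (Finset.mem_of_mem_erase hi) (Finset.ne_of_mem_erase hi)
  intro h0
  have h1 := Valuation.map_add_eq_of_lt_right v hlt
  rw [← hsplit, h0, map_zero] at h1
  exact (Valuation.ne_zero_iff v).mpr hfm h1.symm

end Valuation

/-- The shape of the classical modular polynomial of prime level `N`, as a polynomial in the
outer variable `Y` with coefficients in `ℤ[X]`. -/
structure IsModularShape (N : ℕ) (Φ : ℤ[X][X]) : Prop where
  natDegree_eq : Φ.natDegree = N + 1
  monic : Φ.Monic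
  coeff_zero_natDegree : (Φ.coeff 0).natDegree = N + 1
  coeff_zero_unit : IsUnit (Φ.coeff 0).leadingCoeff
  coeff_top_natDegree : (Φ.coeff N).natDegree = N
  coeff_top_unit : IsUnit (Φ.coeff N).leadingCoeff
  coeff_mid : ∀ k, 0 < k → k < N → (Φ.coeff k).natDegree ≤ N

section Newton

variable {K : Type*} [Field K] {Γ₀ : Type*} [LinearOrderedCommGroupWithZero Γ₀]
  (v : Valuation K Γ₀)

/-- Evaluation of a two-variable integer polynomial at `(a, b)`. -/
noncomputable def eval2 (Φ : ℤ[X][X]) (a b : K) : K :=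
  Φ.eval₂ (Polynomial.eval₂RingHom (Int.castRingHom K) a) b

theorem eval2_eq_sum (Φ : ℤ[X][X]) (a b : K) :
    eval2 Φ a b = ∑ k ∈ Finset.range (Φ.natDegree + 1),
      (Φ.coeff k).eval₂ (Int.castRingHom K) a * b ^ k := by
  unfold eval2
  rw [Polynomial.eval₂_eq_sum_range]
  rfl

/-- **Newton polygon of a polynomial of modular shape.** -/
theorem val_root_of_isModularShape {N : ℕ} (hN : 0 < N) {Φ : ℤ[X][X]} (hΦ : IsModularShape N Φ)
    {a b : K} (ha : 1 < v a) (h : eval2 Φ a b = 0) :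
    v b = v a ^ N ∨ v b ^ N = v a := by
  classical
  set A := v a with hA
  set B := v b with hB
  have hA0 : 0 < A := lt_trans zero_lt_one ha
  have hAN : 1 < A ^ N := one_lt_pow₀ ha hN.ne'
  -- the terms
  set f : ℕ → K := fun k => (Φ.coeff k).eval₂ (Int.castRingHom K) a * b ^ k with hf
  have hsum : ∑ k ∈ Finset.range (N + 2), f k = 0 := by
    rw [← h, eval2_eq_sum, hΦ.natDegree_eq]
  have hvf : ∀ k, v (f k) = v ((Φ.coeff k).eval₂ (Int.castRingHom K) a) * B ^ k := by
    intro k; simp only [hf, map_mul, map_pow]; rfl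
  have hf0 : v (f 0) = A ^ (N + 1) := by
    rw [hvf, pow_zero, mul_one]
    exact val_eval_eq v ha _ hΦ.coeff_zero_natDegree hΦ.coeff_zero_unit
  have hfN : v (f N) = A ^ N * B ^ N := by
    rw [hvf, val_eval_eq v ha _ hΦ.coeff_top_natDegree hΦ.coeff_top_unit]
  have hftop : v (f (N + 1)) = B ^ (N + 1) := by
    rw [hvf]
    have : Φ.coeff (N + 1) = 1 := by
      have := hΦ.monic
      rwa [Polynomial.Monic, Polynomial.leadingCoeff, hΦ.natDegree_eq] at this
    rw [this, Polynomial.eval₂_one, map_one, one_mul]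
  have hfmid : ∀ k, 0 < k → k < N → v (f k) ≤ A ^ N * B ^ k := by
    intro k hk0 hkN
    rw [hvf]
    gcongr
    exact val_eval_le v ha.le _ (hΦ.coeff_mid k hk0 hkN)
  -- `b ≠ 0`
  have hb0 : b ≠ 0 := by
    rintro rfl
    have h1 : ∑ k ∈ Finset.range (N + 2), f k = f 0 := by
      refine Finset.sum_eq_single 0 (fun k _ hk => ?_) (fun h => absurd (Finset.mem_range.mpr
        (by omega)) h)
      simp only [hf, zero_pow hk, mul_zero]
    rw [h1] at hsum
    have : v (f 0) = 0 := by rw [hsum, map_zero]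
    rw [hf0] at this
    exact (pow_ne_zero _ hA0.ne') this
  have hB0 : 0 < B := zero_lt_iff.mpr ((Valuation.ne_zero_iff v).mpr hb0)
  have hAN0 : 0 < A ^ N := pow_pos hA0 N
  have hBk0 : ∀ k, 0 < B ^ k := fun k => pow_pos hB0 k
  by_contra hcon
  push Not at hcon
  obtain ⟨h1, h2⟩ := hcon
  -- three cases
  rcases lt_or_gt_of_ne h1 with hlt | hgt
  · rcases lt_or_gt_of_ne h2 with hlt2 | hgt2
    · -- `B ^ N < A`: the term `k = 0` dominates
      have hBk : ∀ k, k ≤ N → B ^ k < A := by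
        intro k hk
        rcases le_or_gt B 1 with hB1 | hB1
        · exact lt_of_le_of_lt (pow_le_one₀ hB0.le hB1) ha
        · exact lt_of_le_of_lt (pow_le_pow_right₀ hB1.le hk) hlt2
      refine sum_ne_zero_of_dominant v (Finset.range (N + 2)) f 0 (Finset.mem_range.mpr (by omega))
        ?_ ?_ hsum
      · intro h0
        have : v (f 0) = 0 := by rw [h0, map_zero]
        rw [hf0] at this
        exact (pow_ne_zero _ hA0.ne') this
      · intro k hk hk0
        rw [hf0]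
        have hk' : k < N + 2 := Finset.mem_range.mp hk
        rcases Nat.lt_or_ge k N with hkN | hkN
        · calc v (f k) ≤ A ^ N * B ^ k := hfmid k (Nat.pos_of_ne_zero hk0) hkN
            _ < A ^ N * A := mul_lt_mul_of_pos_left (hBk k hkN.le) hAN0
            _ = A ^ (N + 1) := (pow_succ A N).symm
        · rcases Nat.eq_or_lt_of_le hkN with rfl | hkN'
          · rw [hfN]
            calc A ^ N * B ^ N < A ^ N * A := mul_lt_mul_of_pos_left hlt2 hAN0
              _ = A ^ (N + 1) := (pow_succ A N).symm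
          · have hkk : k = N + 1 := by omega
            subst hkk
            rw [hftop]
            calc B ^ (N + 1) = B ^ N * B := pow_succ B N
              _ < A * A := by
                have hB1 : B < A := by simpa using hBk 1 hN
                exact mul_lt_mul'' hlt2 hB1 (pow_nonneg hB0.le _) hB0.le
              _ = A ^ 2 := (sq A).symm
              _ ≤ A ^ (N + 1) := pow_le_pow_right₀ ha.le (by omega)
    · -- `A < B ^ N` and `B < A ^ N`: the term `k = N` dominates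
      have hB1 : 1 < B := by
        by_contra hle
        push Not at hle
        exact absurd (lt_of_lt_of_le hgt2 (pow_le_one₀ hB0.le hle)) (not_lt.mpr ha.le)
      refine sum_ne_zero_of_dominant v (Finset.range (N + 2)) f N (Finset.mem_range.mpr (by omega))
        ?_ ?_ hsum
      · intro h0
        have : v (f N) = 0 := by rw [h0, map_zero]
        rw [hfN] at this
        exact (mul_ne_zero (pow_ne_zero _ hA0.ne') (pow_ne_zero _ hB0.ne')) this
      · intro k hk hkN
        rw [hfN]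
        have hk' : k < N + 2 := Finset.mem_range.mp hk
        rcases Nat.lt_or_ge k N with hkN' | hkN'
        · rcases Nat.eq_zero_or_pos k with rfl | hk0
          · rw [hf0]
            calc A ^ (N + 1) = A ^ N * A := pow_succ A N
              _ < A ^ N * B ^ N := mul_lt_mul_of_pos_left hgt2 hAN0
          · calc v (f k) ≤ A ^ N * B ^ k := hfmid k hk0 hkN'
              _ < A ^ N * B ^ N := mul_lt_mul_of_pos_left (pow_lt_pow_right₀ hB1 hkN') hAN0
        · have hkk : k = N + 1 := by omega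
          subst hkk
          rw [hftop]
          calc B ^ (N + 1) = B * B ^ N := pow_succ' B N
            _ < A ^ N * B ^ N := mul_lt_mul_of_pos_right hlt (hBk0 N)
  · -- `A ^ N < B`: the term `k = N + 1` dominates
    have hB1 : 1 < B := lt_trans hAN hgt
    have hAB : A < B := lt_of_le_of_lt (le_self_pow₀ ha.le hN.ne') hgt
    refine sum_ne_zero_of_dominant v (Finset.range (N + 2)) f (N + 1)
      (Finset.mem_range.mpr (by omega)) ?_ ?_ hsum
    · intro h0
      have : v (f (N + 1)) = 0 := by rw [h0, map_zero]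
      rw [hftop] at this
      exact (pow_ne_zero _ hB0.ne') this
    · intro k hk hkN
      rw [hftop]
      have hk' : k < N + 2 := Finset.mem_range.mp hk
      have hkN1 : k ≤ N := by omega
      rcases Nat.eq_zero_or_pos k with rfl | hk0
      · rw [hf0]
        exact pow_lt_pow_left₀ hAB hA0.le (by omega)
      · rcases Nat.eq_or_lt_of_le hkN1 with rfl | hkN'
        · rw [hfN]
          calc A ^ k * B ^ k < B * B ^ k := mul_lt_mul_of_pos_right hgt (hBk0 k)
            _ = B ^ (k + 1) := (pow_succ' B k).symm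
        · calc v (f k) ≤ A ^ N * B ^ k := hfmid k hk0 hkN'
            _ < B * B ^ k := mul_lt_mul_of_pos_right hgt (hBk0 k)
            _ = B ^ (k + 1) := (pow_succ' B k).symm
            _ ≤ B ^ (N + 1) := pow_le_pow_right₀ hB1.le (by omega)

end Newton

section Propagate

variable {Γ₀ : Type*} [LinearOrderedCommGroupWithZero Γ₀]

theorem pow_eq_pow_iff_of_one_lt {A : Γ₀} (hA : 1 < A) {m n : ℕ} : A ^ m = A ^ n ↔ m = n :=
  (pow_right_strictMono₀ hA).injective.eq_iff

theorem one_lt_of_pow_eq {A X : Γ₀} (hA : 1 < A) {k : ℕ} (h : X ^ k = A) : 1 < X := by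
  by_contra hle
  push Not at hle
  have : X ^ k ≤ 1 := pow_le_one₀ zero_le hle
  rw [h] at this
  exact absurd hA (not_lt.mpr this)

/-- `a * b ≠ a` for `a > 0`, `b ≥ 2`. -/
theorem mul_ne_self_of_two_le {a b : ℕ} (ha : 0 < a) (hb : 2 ≤ b) : a * b ≠ a := by
  intro h
  have : a * 2 ≤ a * b := Nat.mul_le_mul_left a hb
  omega

/-- `a * b ≠ 1` for `b ≥ 2`. -/
theorem mul_ne_one_of_two_le {a b : ℕ} (hb : 2 ≤ b) : a * b ≠ 1 := by
  intro h
  have := Nat.eq_one_of_mul_eq_one_left h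
  omega

/-- **Propagation of the residue disc of the cusp `0`** along a Hecke correspondence.
`A = v(j)`, `Ap = v(j_p)` at a place of `X₀(pℓ)`; `B = v(j_ℓ)`, `C = v(j_{pℓ})`. -/
theorem val_propagate_zero {p ℓ : ℕ} (hp : 2 ≤ p) (hℓ : 2 ≤ ℓ) (hpℓ : p ≠ ℓ) {A Ap B C : Γ₀}
    (hA : 1 < A) (hAp : Ap ^ p = A)
    (hB : B = A ^ ℓ ∨ B ^ ℓ = A)
    (hC₁ : C = Ap ^ ℓ ∨ C ^ ℓ = Ap)
    (hC₂ : C = B ^ p ∨ C ^ p = B) : C ^ p = B := by
  have hAp1 : 1 < Ap := one_lt_of_pow_eq hA hAp
  have hp0 : 0 < p := by omega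
  have hℓ0 : 0 < ℓ := by omega
  rcases hC₂ with hC | hC
  swap
  · exact hC
  exfalso
  rcases hB with hB | hB
  · -- `C = Ap ^ (ℓ * (p * p))`
    have hCp : C = Ap ^ (ℓ * (p * p)) := by
      rw [hC, hB, ← hAp, ← pow_mul, ← pow_mul]
      congr 1
      ring
    rcases hC₁ with h1 | h1
    · rw [hCp] at h1
      have := (pow_eq_pow_iff_of_one_lt hAp1).mp h1
      exact mul_ne_self_of_two_le hℓ0 (le_trans hp (Nat.le_mul_of_pos_left p hp0)) this
    · rw [hCp, ← pow_mul] at h1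
      have := (pow_eq_pow_iff_of_one_lt hAp1).mp (h1.trans (pow_one Ap).symm)
      exact mul_ne_one_of_two_le hℓ this
  · rcases hC₁ with h1 | h1
    · -- `C ^ (p * ℓ)` computed in two ways
      have e1 : C ^ (p * ℓ) = Ap ^ (p * (p * p)) := by
        rw [hC, ← pow_mul, show p * (p * ℓ) = ℓ * (p * p) by ring, pow_mul, hB, ← hAp, ← pow_mul]
      have e2 : C ^ (p * ℓ) = Ap ^ (p * (ℓ * ℓ)) := by
        rw [h1, ← pow_mul]
        congr 1
        ring
      have := (pow_eq_pow_iff_of_one_lt hAp1).mp (e1.symm.trans e2)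
      have h3 : p * p = ℓ * ℓ := Nat.eq_of_mul_eq_mul_left hp0 this
      exact hpℓ (Nat.mul_self_inj.mp h3)
    · have e1 : C ^ ℓ = Ap ^ (p * p) := by
        rw [hC, ← pow_mul, mul_comm, pow_mul, hB, ← hAp, ← pow_mul]
      have := (pow_eq_pow_iff_of_one_lt hAp1).mp (e1.symm.trans (h1.trans (pow_one Ap).symm))
      exact mul_ne_one_of_two_le hp this

/-- **Propagation of the residue disc of the cusp `∞`** along a Hecke correspondence. -/
theorem val_propagate_infty {p ℓ : ℕ} (hp : 2 ≤ p) (hℓ : 2 ≤ ℓ) (hpℓ : p ≠ ℓ) {A Ap B C : Γ₀}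
    (hA : 1 < A) (hAp : Ap = A ^ p)
    (hB : B = A ^ ℓ ∨ B ^ ℓ = A)
    (hC₁ : C = Ap ^ ℓ ∨ C ^ ℓ = Ap)
    (hC₂ : C = B ^ p ∨ C ^ p = B) : C = B ^ p := by
  have hp0 : 0 < p := by omega
  have hℓ0 : 0 < ℓ := by omega
  rcases hC₂ with hC | hC
  · exact hC
  exfalso
  rcases hB with hB | hB
  · rcases hC₁ with h1 | h1
    · -- `C ^ p = A ^ ℓ` and `C = A ^ (p ℓ)`
      have e1 : C ^ p = A ^ (ℓ * (p * p)) := by
        rw [h1, hAp, ← pow_mul, ← pow_mul]
        congr 1
        ring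
      have := (pow_eq_pow_iff_of_one_lt hA).mp (e1.symm.trans (hC.trans hB))
      exact mul_ne_self_of_two_le hℓ0 (le_trans hp (Nat.le_mul_of_pos_left p hp0)) this
    · have e1 : C ^ (p * ℓ) = A ^ (ℓ * ℓ) := by rw [pow_mul, hC, hB, ← pow_mul]
      have e2 : C ^ (p * ℓ) = A ^ (p * p) := by rw [mul_comm, pow_mul, h1, hAp, ← pow_mul]
      have := (pow_eq_pow_iff_of_one_lt hA).mp (e1.symm.trans e2)
      exact hpℓ (Nat.mul_self_inj.mp this.symm)
  · have e0 : C ^ (p * ℓ) = A := by rw [pow_mul, hC, hB]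
    rcases hC₁ with h1 | h1
    · have e1 : C ^ (p * ℓ) = A ^ (p * ℓ * (p * ℓ)) := by
        rw [h1, hAp, ← pow_mul, ← pow_mul]
        congr 1
        ring
      have := (pow_eq_pow_iff_of_one_lt hA).mp (e1.symm.trans (e0.trans (pow_one A).symm))
      exact mul_ne_one_of_two_le (le_trans hℓ (Nat.le_mul_of_pos_left ℓ hp0)) this
    · have e1 : C ^ (p * ℓ) = A ^ (p * p) := by rw [mul_comm, pow_mul, h1, hAp, ← pow_mul]
      have := (pow_eq_pow_iff_of_one_lt hA).mp (e1.symm.trans (e0.trans (pow_one A).symm))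
      exact mul_ne_one_of_two_le hp this

end Propagate

end Fermat.Agent.S15.H962

end
-- ===== PACK-END S15/H962/NewtonVal.lean

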