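import Fermat.Prelude.Def_AlgebraicCurve_CanonicalDivisor
import Mathlib
import Fermat.Prelude.Def_ModularCurve_X0ModL
import Fermat.Prelude.Def_ModularForm_HeckeOperator
import Fermat.Prelude.Def_ModularCurve_X0
import Mathlib.GroupTheory.Index
import Mathlib.SetTheory.Cardinal.NatCard
import Mathlib.SetTheory.Cardinal.Finite
import Fermat.Agent.Pack.S36.E1L0
import Fermat.Agent.Pack.S36.E1L2
import Fermat.Agent.Pack.S36.E0L0
import Fermat.Agent.Pack.S36.E1L3
import Fermat.Agent.Pack.S36.E1L1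
import Fermat.Agent.Pack.S36.E2L2

-- ===== PACK-BEGIN S24/H84/OrdDiff.lean
section




/-!
# Order of `dy` at a place via a Laurent-series embedding (helper84, S24 pieces KD2 + KD4)
-/

set_option autoImplicit false

noncomputable section

open KaehlerDifferential IntermediateField AlgebraicCurve
open scoped IntermediateField.algebraAdjoinAdjoin

namespace Fermat.Agent.S24.H84

variable {K F : Type*} [Field K] [Field F] [Algebra K F]

/-- Constants have order zero at every place. -/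
theorem place_ord_algebraMap (v : Place K F) (c : K) : v.ord (algebraMap K F c) = 0 := by
  rcases eq_or_ne c 0 with rfl | hc
  · simp
  · have hu : IsUnit (algebraMap K v.toValuationSubring c) := (IsUnit.mk0 c hc).map _
    have := v.ord_coe_unit hu.unit
    simpa using this

/-- The (private) uniformizer of the Prelude, exposed. -/
theorem place_exists_uniformizer (v : Place K F) :
    ∃ π : F, v.ord π = 1 ∧ v.dCoord = D K F π :=
  ⟨_, v.ord_coe_irreducible
    (IsDiscreteValuationRing.exists_irreducible v.toValuationSubring).choose_spec, rfl⟩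

/-- Over an algebraically closed field, an algebraic element is a constant. -/
theorem mem_range_algebraMap_of_isAlgebraic [IsAlgClosed K] {f : F} (halg : IsAlgebraic K f) :
    ∃ c : K, algebraMap K F c = f := by
  have hint : IsIntegral K f := halg.isIntegral
  have hq : (minpoly K f).leadingCoeff = 1 := minpoly.monic hint
  have h : (minpoly K f).degree = 1 :=
    IsAlgClosed.degree_eq_one_of_irreducible K (minpoly.irreducible hint)
  have : Polynomial.aeval f (minpoly K f) = 0 := minpoly.aeval K f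
  rw [Polynomial.eq_X_add_C_of_degree_eq_one h, hq, Polynomial.C_1, one_mul,
    Polynomial.aeval_add, Polynomial.aeval_X, Polynomial.aeval_C, add_eq_zero_iff_eq_neg] at this
  exact ⟨-(minpoly K f).coeff 0, by rw [map_neg]; exact this.symm⟩

/-- Over an algebraically closed constant field, a function with nonzero order at some place is
transcendental. -/
theorem place_transcendental_of_ord_ne_zero [IsAlgClosed K] (v : Place K F) {f : F}
    (h : v.ord f ≠ 0) : Transcendental K f := by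
  intro halg
  obtain ⟨c, rfl⟩ := mem_range_algebraMap_of_isAlgebraic halg
  exact h (place_ord_algebraMap v c)

/-- If `F` is finite over `K(j)` then `F` is algebraic over `K(π)` for every transcendental
`π`. -/
theorem isAlgebraic_adjoin_simple_of_transcendental (j : F) [FiniteDimensional K⟮j⟯ F]
    {π : F} (hπ : Transcendental K π) : Algebra.IsAlgebraic K⟮π⟯ F := by
  have hA : Algebra.IsAlgebraic K⟮j⟯ F := Algebra.IsAlgebraic.of_finite _ _
  have hA' : Algebra.IsAlgebraic (Algebra.adjoin K {j}) F :=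
    (IsFractionRing.comap_isAlgebraic_iff (A := Algebra.adjoin K {j}) (K := K⟮j⟯)).2 hA
  have h1 : Algebra.trdeg K F ≤ 1 := by
    simpa using Algebra.IsAlgebraic.trdeg_le_cardinalMk K ({j} : Set F)
  have hind : AlgebraicIndependent K (fun _ : PUnit => π) :=
    algebraicIndependent_unique_type_iff.2 hπ
  have hb : IsTranscendenceBasis K (fun _ : PUnit => π) :=
    hind.isTranscendenceBasis_of_trdeg_le_of_finite (by simpa using h1)
  have := hb.isAlgebraic_field
  have hr : (Set.range fun _ : PUnit => π) = {π} := Set.range_const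
  rwa [hr] at this

/-- `DCoordGenerates` for every place of a function field in one variable over an algebraically
closed field of characteristic zero. -/
theorem place_dCoordGenerates [IsAlgClosed K] [CharZero K] (j : F) [FiniteDimensional K⟮j⟯ F]
    (v : Place K F) : v.DCoordGenerates := by
  obtain ⟨π, hπ, hd⟩ := place_exists_uniformizer v
  have htr : Transcendental K π :=
    place_transcendental_of_ord_ne_zero v (by rw [hπ]; exact one_ne_zero)
  have := isAlgebraic_adjoin_simple_of_transcendental j htr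
  exact ⟨by rw [hd]; exact span_D_eq_top π⟩

section Embedding

variable {C : Type*} [Field C]

/-- Pull-back of `d/dz` along a field embedding `σ : F → C((z))` which is constant on `K`:
there is an additive map `L : Ω[F⁄K] → C((z))`, `σ`-semilinear, with `L (D y) = d(σ y)/dz`. -/
theorem exists_kaehler_to_laurent (σ : F →+* LaurentSeries C) (ι : K →+* C)
    (hσ : ∀ c : K, σ (algebraMap K F c) = HahnSeries.C (ι c)) :
    ∃ L : Ω[F⁄K] →+ LaurentSeries C,
      (∀ (f : F) (ω : Ω[F⁄K]), L (f • ω) = σ f * L ω) ∧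
      ∀ y : F, L (D K F y) = laurentD C (σ y) := by
  let : Module F (LaurentSeries C) := Module.compHom _ σ
  let : Module K (LaurentSeries C) := Module.compHom _ (σ.comp (algebraMap K F))
  have hF : ∀ (f : F) (m : LaurentSeries C), f • m = σ f * m := fun _ _ => rfl
  have hK : ∀ (k : K) (m : LaurentSeries C), k • m = σ (algebraMap K F k) * m := fun _ _ => rfl
  have : IsScalarTower K F (LaurentSeries C) := ⟨fun k f m => by
    rw [hF, hK, hF, Algebra.smul_def, map_mul, mul_assoc]⟩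
  let δ : Derivation K F (LaurentSeries C) :=
    { toFun := fun f => laurentD C (σ f)
      map_add' := fun f g => by rw [map_add, map_add]
      map_smul' := fun k f => by
        rw [RingHom.id_apply, hK, Algebra.smul_def, map_mul, Derivation.leibniz, hσ, laurentD_C,
          smul_zero, add_zero, smul_eq_mul]
      map_one_eq_zero' := by
        show laurentD C (σ 1) = 0
        rw [map_one, Derivation.map_one_eq_zero]
      leibniz' := fun f g => by
        show laurentD C (σ (f * g)) = f • laurentD C (σ g) + g • laurentD C (σ f)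
        rw [map_mul, Derivation.leibniz, hF, hF, smul_eq_mul, smul_eq_mul] }
  refine ⟨δ.liftKaehlerDifferential.toAddMonoidHom, fun f ω => ?_, fun y => ?_⟩
  · show δ.liftKaehlerDifferential (f • ω) = _
    rw [map_smul, hF]
    rfl
  · exact δ.liftKaehlerDifferential_comp_D y

/-- If `σ y` has nonzero order then `dy ≠ 0` in `Ω[F⁄K]` (characteristic zero). -/
theorem D_ne_zero_of_embedding [CharZero C] (σ : F →+* LaurentSeries C) (ι : K →+* C)
    (hσ : ∀ c : K, σ (algebraMap K F c) = HahnSeries.C (ι c))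
    {y : F} (hy : (σ y).order ≠ 0) : D K F y ≠ 0 := by
  obtain ⟨L, -, hL2⟩ := exists_kaehler_to_laurent σ ι hσ
  intro h
  have := hL2 y
  rw [h, map_zero] at this
  exact laurentD_ne_zero hy this.symm

/-- `Ω[F⁄K]` is nontrivial as soon as some `σ y` has nonzero order. -/
theorem nontrivial_kaehler_of_embedding [CharZero C] (σ : F →+* LaurentSeries C) (ι : K →+* C)
    (hσ : ∀ c : K, σ (algebraMap K F c) = HahnSeries.C (ι c))
    {y : F} (hy : (σ y).order ≠ 0) : Nontrivial Ω[F⁄K] :=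
  ⟨⟨_, _, D_ne_zero_of_embedding σ ι hσ hy⟩⟩

variable [CharZero C]

/-- **Local formula for the order of a differential.**  If the place `v` is induced by the
embedding `σ : F → C((z))` with multiplicity `g` (`ord_z ∘ σ = g · ord_v`), then
`g · ord_v(dy) = ord_z (d(σ y)/dz) - (g - 1)`. -/
theorem place_ordDifferential_mul (v : Place K F) [v.DCoordGenerates]
    (σ : F →+* LaurentSeries C) (ι : K →+* C)
    (hσ : ∀ c : K, σ (algebraMap K F c) = HahnSeries.C (ι c))
    (g : ℕ) (hg : 0 < g) (hord : ∀ f : F, f ≠ 0 → (σ f).order = g * v.ord f)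
    (y : F) (hy : laurentD C (σ y) ≠ 0) :
    (g : ℤ) * v.ordDifferential (D K F y) = (laurentD C (σ y)).order - (g - 1) := by
  obtain ⟨π, hπ1, hd⟩ := place_exists_uniformizer v
  obtain ⟨L, hL1, hL2⟩ := exists_kaehler_to_laurent σ ι hσ
  have hc : v.differentialCoeff (D K F y) • v.dCoord = D K F y :=
    v.differentialCoeff_smul_dCoord _
  have h1 : laurentD C (σ y) = σ (v.differentialCoeff (D K F y)) * laurentD C (σ π) := by
    have h := congrArg L hc
    rw [hL1, hd, hL2, hL2] at h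
    exact h.symm
  have hπ0 : π ≠ 0 := by rintro rfl; simp at hπ1
  have hπord : (σ π).order = g := by rw [hord π hπ0, hπ1, mul_one]
  have hgne : (σ π).order ≠ 0 := by rw [hπord]; exact_mod_cast hg.ne'
  have hdπ : (laurentD C (σ π)).order = g - 1 := by rw [laurentD_order hgne, hπord]
  have hc0 : v.differentialCoeff (D K F y) ≠ 0 := by
    intro h; rw [h, map_zero, zero_mul] at h1; exact hy h1
  have hσc : σ (v.differentialCoeff (D K F y)) ≠ 0 := (map_ne_zero σ).2 hc0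
  have hdπ0 : laurentD C (σ π) ≠ 0 := laurentD_ne_zero hgne
  rw [Place.ordDifferential, h1, HahnSeries.order_mul hσc hdπ0, hord _ hc0, hdπ]
  ring

/-- If `ord_v y ≠ 0` then `ord_v (dy) = ord_v y - 1`. -/
theorem place_ordDifferential_D_of_ord_ne_zero (v : Place K F) [v.DCoordGenerates]
    (σ : F →+* LaurentSeries C) (ι : K →+* C)
    (hσ : ∀ c : K, σ (algebraMap K F c) = HahnSeries.C (ι c))
    (g : ℕ) (hg : 0 < g) (hord : ∀ f : F, f ≠ 0 → (σ f).order = g * v.ord f)
    (y : F) (hy : v.ord y ≠ 0) :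
    v.ordDifferential (D K F y) = v.ord y - 1 := by
  have hy0 : y ≠ 0 := by rintro rfl; simp at hy
  have hgz : (g : ℤ) ≠ 0 := by exact_mod_cast hg.ne'
  have ho : (σ y).order ≠ 0 := by
    rw [hord y hy0]; exact mul_ne_zero hgz hy
  have := place_ordDifferential_mul v σ ι hσ g hg hord y (laurentD_ne_zero ho)
  rw [laurentD_order ho, hord y hy0] at this
  have h2 : (g : ℤ) * v.ordDifferential (D K F y) = g * (v.ord y - 1) := by
    rw [this]; ring
  exact mul_left_cancel₀ hgz h2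

/-- If `ord_v (y - a) ≠ 0` for a constant `a` then `ord_v (dy) = ord_v (y - a) - 1`. -/
theorem place_ordDifferential_D_of_ord_sub_ne_zero (v : Place K F) [v.DCoordGenerates]
    (σ : F →+* LaurentSeries C) (ι : K →+* C)
    (hσ : ∀ c : K, σ (algebraMap K F c) = HahnSeries.C (ι c))
    (g : ℕ) (hg : 0 < g) (hord : ∀ f : F, f ≠ 0 → (σ f).order = g * v.ord f)
    (y : F) (a : K) (hy : v.ord (y - algebraMap K F a) ≠ 0) :
    v.ordDifferential (D K F y) = v.ord (y - algebraMap K F a) - 1 := by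
  have := place_ordDifferential_D_of_ord_ne_zero v σ ι hσ g hg hord _ hy
  rwa [map_sub, Derivation.map_algebraMap, sub_zero] at this

/-- If `ord_v y⁻¹ ≠ 0` then `ord_v (dy) = - ord_v y⁻¹ - 1`. -/
theorem place_ordDifferential_D_of_ord_inv_ne_zero (v : Place K F) [v.DCoordGenerates]
    (σ : F →+* LaurentSeries C) (ι : K →+* C)
    (hσ : ∀ c : K, σ (algebraMap K F c) = HahnSeries.C (ι c))
    (g : ℕ) (hg : 0 < g) (hord : ∀ f : F, f ≠ 0 → (σ f).order = g * v.ord f)
    (y : F) (hy : v.ord y⁻¹ ≠ 0) :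
    v.ordDifferential (D K F y) = - v.ord y⁻¹ - 1 := by
  have h1 : v.ord y ≠ 0 := by
    rw [v.ord_inv] at hy; exact fun h => hy (by rw [h, neg_zero])
  rw [place_ordDifferential_D_of_ord_ne_zero v σ ι hσ g hg hord y h1, v.ord_inv, neg_neg]

end Embedding

end Fermat.Agent.S24.H84

end
end
-- ===== PACK-END S24/H84/OrdDiff.lean

-- ===== PACK-BEGIN S24/H504/EmbPlace.lean
section



/-!
# The place of `F/K` attached to an embedding `F → C((z))`
-/

set_option autoImplicit false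

namespace Fermat.Agent.S24.H504

open AlgebraicCurve

variable {K F : Type*} [Field K] [Field F] [Algebra K F]
variable {C : Type*} [Field C]

/-! ### Order calculus in `C((z))` -/

theorem ls_orderTop_eq_order {A : LaurentSeries C} (hA : A ≠ 0) :
    A.orderTop = (A.order : WithTop ℤ) :=
  (HahnSeries.order_eq_orderTop_of_ne_zero hA).symm

theorem ls_orderTop_nonneg_iff (A : LaurentSeries C) : 0 ≤ A.orderTop ↔ 0 ≤ A.order := by
  rcases eq_or_ne A 0 with rfl | hA
  · simp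
  · rw [ls_orderTop_eq_order hA]
    exact_mod_cast Iff.rfl

theorem ls_orderTop_pos_iff (A : LaurentSeries C) : 0 < A.orderTop ↔ A = 0 ∨ 0 < A.order := by
  rcases eq_or_ne A 0 with rfl | hA
  · simp
  · rw [ls_orderTop_eq_order hA]
    simp only [hA, false_or]
    exact_mod_cast Iff.rfl

theorem ls_orderTop_inv {A : LaurentSeries C} (hA : A ≠ 0) :
    A⁻¹.orderTop = ((-A.order : ℤ) : WithTop ℤ) := by
  have h1 : A * A⁻¹ = 1 := mul_inv_cancel₀ hA
  have h2 := HahnSeries.order_mul hA (inv_ne_zero hA)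
  rw [h1, HahnSeries.order_one] at h2
  rw [ls_orderTop_eq_order (inv_ne_zero hA)]
  congr 1
  omega

theorem ls_order_inv (A : LaurentSeries C) : A⁻¹.order = -A.order := by
  rcases eq_or_ne A 0 with rfl | hA
  · simp
  have h1 : A * A⁻¹ = 1 := mul_inv_cancel₀ hA
  have h2 := HahnSeries.order_mul hA (inv_ne_zero hA)
  rw [h1, HahnSeries.order_one] at h2
  omega

theorem ls_order_zpow (A : LaurentSeries C) (n : ℤ) : (A ^ n).order = n * A.order := by
  rcases n with n | n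
  · simp [HahnSeries.order_pow]
  · rw [zpow_negSucc, ls_order_inv, HahnSeries.order_pow]
    simp only [nsmul_eq_mul, Int.negSucc_eq]
    push_cast
    ring

/-! ### The valuation subring attached to an embedding -/

/-- The valuation subring `{f | 0 ≤ ord_z (σ f)}` of `F`. -/
def embSubring (σ : F →+* LaurentSeries C) : ValuationSubring F where
  carrier := {f | 0 ≤ (σ f).orderTop}
  mul_mem' := by
    intro a b ha hb
    simp only [Set.mem_ofPred_eq, map_mul, HahnSeries.orderTop_mul] at *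
    exact add_nonneg ha hb
  one_mem' := by simp
  add_mem' := by
    intro a b ha hb
    simp only [Set.mem_ofPred_eq, map_add] at *
    exact le_trans (le_min ha hb) HahnSeries.min_orderTop_le_orderTop_add
  zero_mem' := by simp
  neg_mem' := by
    intro a ha
    simpa [HahnSeries.orderTop_neg] using ha
  mem_or_inv_mem' := by
    intro a
    rcases eq_or_ne a 0 with rfl | ha
    · left; simp
    have hσa : σ a ≠ 0 := (map_ne_zero σ).mpr ha
    simp only [Set.mem_ofPred_eq, map_inv₀]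
    rw [ls_orderTop_inv hσa, ls_orderTop_eq_order hσa]
    rcases le_total 0 (σ a).order with h | h
    · left; exact_mod_cast h
    · right
      have : (0 : ℤ) ≤ -(σ a).order := by omega
      exact_mod_cast this

theorem mem_embSubring (σ : F →+* LaurentSeries C) (f : F) :
    f ∈ embSubring σ ↔ 0 ≤ (σ f).orderTop := Iff.rfl

theorem mem_embSubring' (σ : F →+* LaurentSeries C) (f : F) :
    f ∈ embSubring σ ↔ 0 ≤ (σ f).order := by
  rw [mem_embSubring, ls_orderTop_nonneg_iff]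

theorem isPrincipalIdealRing_embSubring (σ : F →+* LaurentSeries C) :
    IsPrincipalIdealRing (embSubring σ) := by
  classical
  refine ⟨fun I => ?_⟩
  by_cases hI : I = ⊥
  · rw [hI]; exact bot_isPrincipal
  -- pick a nonzero element of minimal order
  have hex : ∃ n : ℕ, ∃ a ∈ I, a ≠ 0 ∧ (σ (a : F)).order = n := by
    obtain ⟨a, haI, ha0⟩ := Submodule.exists_mem_ne_zero_of_ne_bot hI
    have hnn : 0 ≤ (σ (a : F)).order := (mem_embSubring' σ _).mp a.2
    exact ⟨(σ (a : F)).order.toNat, a, haI, ha0, (Int.toNat_of_nonneg hnn).symm⟩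
  obtain ⟨a, haI, ha0, han⟩ := Nat.find_spec hex
  refine ⟨⟨a, ?_⟩⟩
  apply le_antisymm
  · intro b hb
    rw [Submodule.mem_span_singleton]
    rcases eq_or_ne b 0 with rfl | hb0
    · exact ⟨0, by simp⟩
    have haF : (a : F) ≠ 0 := by simpa using ha0
    have hbF : (b : F) ≠ 0 := by simpa using hb0
    have hbnn : 0 ≤ (σ (b : F)).order := (mem_embSubring' σ _).mp b.2
    have hmin : Nat.find hex ≤ (σ (b : F)).order.toNat :=
      Nat.find_min' hex ⟨b, hb, hb0, (Int.toNat_of_nonneg hbnn).symm⟩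
    have hle : (σ (a : F)).order ≤ (σ (b : F)).order := by
      rw [han]
      have : ((Nat.find hex : ℕ) : ℤ) ≤ ((σ (b : F)).order.toNat : ℤ) := by exact_mod_cast hmin
      rwa [Int.toNat_of_nonneg hbnn] at this
    have hq : (b : F) / (a : F) ∈ embSubring σ := by
      rw [mem_embSubring', map_div₀, div_eq_mul_inv,
        HahnSeries.order_mul ((map_ne_zero σ).mpr hbF) (inv_ne_zero ((map_ne_zero σ).mpr haF)),
        ls_order_inv]
      omega
    refine ⟨⟨_, hq⟩, ?_⟩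
    ext
    simp only [smul_eq_mul, MulMemClass.coe_mul]
    field_simp
  · rw [Submodule.span_le]
    simpa using haI

/-- The place of `F/K` attached to an embedding `σ : F → C((z))` which is integral on `K` and
has some element of nonzero order. -/
def placeOfEmb (σ : F →+* LaurentSeries C)
    (hK : ∀ c : K, 0 ≤ (σ (algebraMap K F c)).order)
    (ht : ∃ t : F, (σ t).order ≠ 0) : Place K F where
  toValuationSubring := embSubring σ
  algebraMap_mem' := fun c => (mem_embSubring' σ _).mpr (hK c)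
  ne_top' := by
    obtain ⟨t, ht⟩ := ht
    intro htop
    have h1 : t ∈ embSubring σ := htop ▸ ValuationSubring.mem_top t
    have h2 : t⁻¹ ∈ embSubring σ := htop ▸ ValuationSubring.mem_top t⁻¹
    rw [mem_embSubring'] at h1 h2
    rw [map_inv₀, ls_order_inv] at h2
    omega
  isPrincipalIdealRing' := isPrincipalIdealRing_embSubring σ

@[simp]
theorem placeOfEmb_toValuationSubring (σ : F →+* LaurentSeries C)
    (hK : ∀ c : K, 0 ≤ (σ (algebraMap K F c)).order)
    (ht : ∃ t : F, (σ t).order ≠ 0) :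
    (placeOfEmb σ hK ht).toValuationSubring = embSubring σ := rfl

/-! ### Proportionality of orders -/

/-- `σ` induces the place `v`: the valuation ring of `v` is the pullback of `C[[z]]`. -/
def Induces (σ : F →+* LaurentSeries C) (v : Place K F) : Prop :=
  ∀ f : F, f ∈ v.toValuationSubring ↔ 0 ≤ (σ f).order

theorem induces_placeOfEmb (σ : F →+* LaurentSeries C)
    (hK : ∀ c : K, 0 ≤ (σ (algebraMap K F c)).order)
    (ht : ∃ t : F, (σ t).order ≠ 0) : Induces σ (placeOfEmb σ hK ht) :=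
  fun f => mem_embSubring' σ f

theorem Induces.eq_placeOfEmb {σ : F →+* LaurentSeries C} {v : Place K F} (h : Induces σ v)
    (hK : ∀ c : K, 0 ≤ (σ (algebraMap K F c)).order)
    (ht : ∃ t : F, (σ t).order ≠ 0) : v = placeOfEmb σ hK ht := by
  apply Place.ext
  ext f
  rw [placeOfEmb_toValuationSubring, mem_embSubring', h f]

theorem Induces.unique {σ : F →+* LaurentSeries C} {v w : Place K F} (h : Induces σ v)
    (h' : Induces σ w) : v = w := by
  apply Place.ext
  ext f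
  rw [h f, h' f]

theorem Induces.order_nonneg_iff {σ : F →+* LaurentSeries C} {v : Place K F} (h : Induces σ v)
    (f : F) : 0 ≤ (σ f).order ↔ 0 ≤ v.ord f := by
  rw [← h f, mem_iff_ord_nonneg']

theorem Induces.order_eq_zero_iff {σ : F →+* LaurentSeries C} {v : Place K F} (h : Induces σ v)
    (f : F) : (σ f).order = 0 ↔ v.ord f = 0 := by
  have h1 := h.order_nonneg_iff f
  have h2 := h.order_nonneg_iff f⁻¹
  rw [map_inv₀, ls_order_inv, Place.ord_inv] at h2
  constructor <;> intro h0 <;> omega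

/-- The multiplicity of an embedding inducing `v`: the `z`-order of a uniformizer. -/
theorem Induces.exists_mult {σ : F →+* LaurentSeries C} {v : Place K F} (h : Induces σ v) :
    ∃ μ : ℕ, 0 < μ ∧ ∀ f : F, (σ f).order = μ * v.ord f := by
  obtain ⟨π, hπ⟩ := IsDiscreteValuationRing.exists_irreducible v.toValuationSubring
  have hπ1 : v.ord (π : F) = 1 := v.ord_coe_irreducible hπ
  have hpos : 0 < (σ (π : F)).order := by
    have h1 := (h.order_nonneg_iff (π : F)).mpr (by omega)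
    have h2 := (h.order_eq_zero_iff (π : F)).not.mpr (by omega)
    omega
  refine ⟨(σ (π : F)).order.toNat, by omega, fun f => ?_⟩
  rcases eq_or_ne f 0 with rfl | hf
  · simp
  obtain ⟨u, hu⟩ := v.exists_unit_mul_zpow hf hπ
  have hu0 : ((u : v.toValuationSubring) : F) ≠ 0 := by simp
  have hπ0 : (π : F) ≠ 0 := by
    intro h0; rw [h0] at hπ1; simp at hπ1
  have huo : (σ ((u : v.toValuationSubring) : F)).order = 0 :=
    (h.order_eq_zero_iff _).mpr (v.ord_coe_unit u)
  conv_lhs => rw [hu]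
  rw [map_mul, map_zpow₀,
    HahnSeries.order_mul ((map_ne_zero σ).mpr hu0) (zpow_ne_zero _ ((map_ne_zero σ).mpr hπ0)),
    huo, ls_order_zpow, Int.toNat_of_nonneg hpos.le]
  ring

end Fermat.Agent.S24.H504

end
-- ===== PACK-END S24/H504/EmbPlace.lean

-- ===== PACK-BEGIN S29/H395/ProdChar.lean
section
/-
S29 / layer M / bridge BR, piece NORM (analytic half, character computation) — helper395.

For a function `h : ℍ → ℂ` which is `c`-automorphic for `Γ₀(N)` (`h (γ τ) = c γ * h τ`), the product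
of its translates by the Prelude Hecke representatives,

  `heckeProd p h τ = ∏ x : ℙ¹(𝔽_p), h (heckeRep p x • τ)`
                 `= h (p τ) * ∏_{j < p} h ((τ + j) / p)`,

is automorphic with multiplier `γ ↦ ∏ x, c (trf γ x)` (helper201's transfer elements).  In
particular for `c γ = ζ ^ χ γ` the multiplier is `ζ ^ (heckeHom χ) γ`: the Hecke operator on
`Hom(Γ₀(N), ℤ/m)` corresponds to `h ↦ heckeProd p h` on `m`-th roots of modular functions.
-/


set_option autoImplicit false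

noncomputable section

open CongruenceSubgroup Matrix.SpecialLinearGroup UpperHalfPlane
open scoped MatrixGroups
open P2MW.S_ModularForm_heckeT_slash_eq_self_of_mem_Gamma0.ModularForm.HeckeSlashInvariance

namespace Fermat.Agent.S29.H395

open Fermat.Agent.S29.H201

variable {N : ℕ} {p : ℕ} [Fact p.Prime]

/-- The product of the translates of `h` by the Hecke representatives
`(p 0; 0 1)`, `(1 j; 0 p)` (`j : ZMod p`). -/
def heckeProd (p : ℕ) [Fact p.Prime] (h : ℍ → ℂ) : ℍ → ℂ :=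
  fun τ => ∏ x : OnePoint (ZMod p), h (_root_.P2MW.S_ModularForm_heckeT_slash_eq_self_of_mem_Gamma0.ModularForm.HeckeSlashInvariance.heckeRep p x • τ)

theorem heckeProd_apply (h : ℍ → ℂ) (τ : ℍ) :
    heckeProd p h τ = ∏ x : OnePoint (ZMod p), h (_root_.P2MW.S_ModularForm_heckeT_slash_eq_self_of_mem_Gamma0.ModularForm.HeckeSlashInvariance.heckeRep p x • τ) := rfl

theorem heckeProd_mul (h h' : ℍ → ℂ) : heckeProd p (h * h') = heckeProd p h * heckeProd p h' := by
  funext τ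
  simp only [heckeProd, Pi.mul_apply, Finset.prod_mul_distrib]

theorem heckeProd_one : heckeProd p (1 : ℍ → ℂ) = 1 := by
  funext τ
  simp [heckeProd]

theorem heckeProd_pow (h : ℍ → ℂ) (n : ℕ) : heckeProd p (h ^ n) = heckeProd p h ^ n := by
  funext τ
  simp only [heckeProd, Pi.pow_apply, Finset.prod_pow]

theorem heckeProd_inv (h : ℍ → ℂ) : heckeProd p (h⁻¹) = (heckeProd p h)⁻¹ := by
  funext τ
  simp only [heckeProd, Pi.inv_apply, Finset.prod_inv_distrib]

theorem heckeProd_div (h h' : ℍ → ℂ) : heckeProd p (h / h') = heckeProd p h / heckeProd p h' := by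
  funext τ
  simp only [heckeProd, Pi.div_apply, Finset.prod_div_distrib]

theorem heckeProd_const (a : ℂ) :
    heckeProd p (fun _ => a) = fun _ => a ^ (p + 1) := by
  funext τ
  simp only [heckeProd, Finset.prod_const, Finset.card_univ]
  congr 1
  rw [show Fintype.card (OnePoint (ZMod p)) = Fintype.card (Option (ZMod p)) from rfl,
    Fintype.card_option, ZMod.card]

/-- the basic translation identity: `heckeRep x • γ • τ = trf γ x • heckeRep (x · γ) • τ`. -/
theorem heckeRep_smul_smul (hpN : ¬ p ∣ N) (γ : Gamma0 N) (x : OnePoint (ZMod p)) (τ : ℍ) :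
    _root_.P2MW.S_ModularForm_heckeT_slash_eq_self_of_mem_Gamma0.ModularForm.HeckeSlashInvariance.heckeRep p x • ((γ : SL(2, ℤ)) • τ)
      = ((trf hpN γ x : Gamma0 N) : SL(2, ℤ)) • (_root_.P2MW.S_ModularForm_heckeT_slash_eq_self_of_mem_Gamma0.ModularForm.HeckeSlashInvariance.heckeRep p (redMatrix p (γ : SL(2, ℤ)) • x) • τ) := by
  show _root_.P2MW.S_ModularForm_heckeT_slash_eq_self_of_mem_Gamma0.ModularForm.HeckeSlashInvariance.heckeRep p x • (mapGL ℝ (γ : SL(2, ℤ)) • τ)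
      = mapGL ℝ ((trf hpN γ x : Gamma0 N) : SL(2, ℤ)) •
          (_root_.P2MW.S_ModularForm_heckeT_slash_eq_self_of_mem_Gamma0.ModularForm.HeckeSlashInvariance.heckeRep p (redMatrix p (γ : SL(2, ℤ)) • x) • τ)
  rw [← mul_smul, ← mul_smul, trf_spec hpN γ x]

/-- **Transfer formula for products.**  If `h (γ τ) = c γ * h τ` for all `γ ∈ Γ₀(N)`, then
`heckeProd p h (γ τ) = (∏ x, c (trf γ x)) * heckeProd p h τ`. -/
theorem heckeProd_smul (hpN : ¬ p ∣ N) {h : ℍ → ℂ} {c : Gamma0 N → ℂ}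
    (hc : ∀ (γ : Gamma0 N) (τ : ℍ), h ((γ : SL(2, ℤ)) • τ) = c γ * h τ)
    (γ : Gamma0 N) (τ : ℍ) :
    heckeProd p h ((γ : SL(2, ℤ)) • τ)
      = (∏ x : OnePoint (ZMod p), c (trf hpN γ x)) * heckeProd p h τ := by
  simp only [heckeProd]
  calc ∏ x : OnePoint (ZMod p), h (_root_.P2MW.S_ModularForm_heckeT_slash_eq_self_of_mem_Gamma0.ModularForm.HeckeSlashInvariance.heckeRep p x • ((γ : SL(2, ℤ)) • τ))
      = ∏ x : OnePoint (ZMod p),
          c (trf hpN γ x) * h (_root_.P2MW.S_ModularForm_heckeT_slash_eq_self_of_mem_Gamma0.ModularForm.HeckeSlashInvariance.heckeRep p (redMatrix p (γ : SL(2, ℤ)) • x) • τ) := by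
        refine Finset.prod_congr rfl fun x _ => ?_
        rw [heckeRep_smul_smul hpN γ x τ, hc]
    _ = (∏ x : OnePoint (ZMod p), c (trf hpN γ x)) *
          ∏ x : OnePoint (ZMod p), h (_root_.P2MW.S_ModularForm_heckeT_slash_eq_self_of_mem_Gamma0.ModularForm.HeckeSlashInvariance.heckeRep p (redMatrix p (γ : SL(2, ℤ)) • x) • τ) :=
        Finset.prod_mul_distrib
    _ = _ := by
        congr 1
        exact Equiv.prod_comp (permOf γ) (fun y => h (_root_.P2MW.S_ModularForm_heckeT_slash_eq_self_of_mem_Gamma0.ModularForm.HeckeSlashInvariance.heckeRep p y • τ))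

/-- The same with multiplier `c γ = ζ ^ χ γ` for an additive character `χ : Γ₀(N) → ZMod m` and an
`m`-th root of unity `ζ`: the multiplier of `heckeProd p h` is `ζ ^ (T_p χ) γ`. -/
theorem heckeProd_smul_of_char (hpN : ¬ p ∣ N) {m : ℕ} [NeZero m] {ζ : ℂ} (hζ : ζ ^ m = 1)
    {h : ℍ → ℂ} (χ : Additive (Gamma0 N) →+ ZMod m)
    (hc : ∀ (γ : Gamma0 N) (τ : ℍ),
      h ((γ : SL(2, ℤ)) • τ) = ζ ^ (χ (Additive.ofMul γ)).val * h τ)
    (γ : Gamma0 N) (τ : ℍ) :
    heckeProd p h ((γ : SL(2, ℤ)) • τ)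
      = ζ ^ (heckeHom p hpN (ZMod m) χ (Additive.ofMul γ)).val * heckeProd p h τ := by
  rw [heckeProd_smul hpN (c := fun γ => ζ ^ (χ (Additive.ofMul γ)).val) hc γ τ]
  congr 1
  rw [Finset.prod_pow_eq_pow_sum, heckeHom_apply]
  -- `ζ ^ a = ζ ^ b` when `a ≡ b mod m`
  have key : ∀ a b : ℕ, (a : ZMod m) = (b : ZMod m) → ζ ^ a = ζ ^ b := by
    intro a b hab
    have hab' : a ≡ b [MOD m] := (ZMod.natCast_eq_natCast_iff a b m).mp hab
    rw [← Nat.div_add_mod a m, ← Nat.div_add_mod b m, pow_add, pow_add, pow_mul, pow_mul, hζ,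
      one_pow, one_pow, one_mul, one_mul, hab']
  apply key
  rw [Nat.cast_sum, ZMod.natCast_zmod_val]
  simp only [ZMod.natCast_zmod_val]

end Fermat.Agent.S29.H395

end

end
-- ===== PACK-END S29/H395/ProdChar.lean

-- ===== PACK-BEGIN S21/H81/Inj.lean
section


/-!
# S21, piece C: injectivity of `periodHomPair`, assuming existence of equivariant primitives
and linearity of the period map.
-/

set_option autoImplicit false

open UpperHalfPlane CongruenceSubgroup Filter Topology Complex ModularCurve ModularCurve.Period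
open scoped MatrixGroups Manifold ComplexConjugate

namespace Fermat.Agent.S21.H81

/-- The reflection `J` intertwines `g` and `jConjSL g`. -/
theorem inj_J_smul_smul (g : SL(2, ℤ)) (z : ℍ) :
    J • (g • z) = jConjSL g • (J • z) := by
  ext
  rw [coe_J_smul, coe_specialLinearGroup_apply, coe_specialLinearGroup_apply, coe_J_smul]
  have h00 : (jConjSL g) 0 0 = g 0 0 := by
    show ((jConjSL g : SL(2, ℤ)) : Matrix (Fin 2) (Fin 2) ℤ) 0 0 = _
    rw [jConjSL_coe, jConjMat_apply_zero_zero]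
  have h01 : (jConjSL g) 0 1 = -g 0 1 := by
    show ((jConjSL g : SL(2, ℤ)) : Matrix (Fin 2) (Fin 2) ℤ) 0 1 = _
    rw [jConjSL_coe, jConjMat_apply_zero_one]
  have h10 : (jConjSL g) 1 0 = -g 1 0 := by
    show ((jConjSL g : SL(2, ℤ)) : Matrix (Fin 2) (Fin 2) ℤ) 1 0 = _
    rw [jConjSL_coe, jConjMat_apply_one_zero]
  have h11 : (jConjSL g) 1 1 = g 1 1 := by
    show ((jConjSL g : SL(2, ℤ)) : Matrix (Fin 2) (Fin 2) ℤ) 1 1 = _
    rw [jConjSL_coe, jConjMat_apply_one_one]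
  rw [h00, h01, h10, h11]
  simp only [map_div₀, map_add, map_mul, algebraMap_int_eq, eq_intCast,
    Complex.ofReal_intCast, Complex.ofReal_neg, map_intCast, map_neg]
  rw [← neg_div]
  congr 1 <;> ring


/-- The reflected function `z ↦ -conj (F (-conj z))`. -/
noncomputable def injRefl (F : ℍ → ℂ) : ℍ → ℂ := fun z => -conj (F (J • z))

theorem injRefl_differentiableAt {F : ℍ → ℂ}
    (hol : ∀ τ : ℍ, DifferentiableAt ℂ (F ∘ ofComplex) (τ : ℂ)) (τ : ℍ) :
    DifferentiableAt ℂ (injRefl F ∘ ofComplex) (τ : ℂ) := by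
  -- near `τ`, `injRefl F ∘ ofComplex` equals `z ↦ -(conj ∘ (F ∘ ofComplex) ∘ conj) (-z)`
  have h0 : DifferentiableAt ℂ (F ∘ ofComplex) (conj (-(τ : ℂ))) := by
    have := hol (J • τ)
    rwa [coe_J_smul, ← map_neg] at this
  have h1 : DifferentiableAt ℂ (conj ∘ (F ∘ ofComplex) ∘ conj) (-(τ : ℂ)) := by
    have := h0.hasDerivAt.conj_conj
    rw [Complex.conj_conj] at this
    exact this.differentiableAt
  have h2 : DifferentiableAt ℂ (fun z : ℂ => -(conj ∘ (F ∘ ofComplex) ∘ conj) (-z)) (τ : ℂ) := by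
    have h3 : DifferentiableAt ℂ (fun z : ℂ => -z) (τ : ℂ) := differentiableAt_id.neg
    exact (DifferentiableAt.comp (τ : ℂ) h1 h3).neg
  refine h2.congr_of_eventuallyEq ?_
  have hopen : {z : ℂ | 0 < z.im} ∈ 𝓝 (τ : ℂ) :=
    isOpen_upperHalfPlaneSet.mem_nhds τ.im_pos
  filter_upwards [hopen] with z hz
  simp only [Function.comp_apply, injRefl]
  congr 3
  rw [ofComplex_apply_of_im_pos hz]
  have : (J • (⟨z, hz⟩ : ℍ) : ℍ) = ofComplex (conj (-z)) := by
    have h4 : 0 < (conj (-z)).im := by simpa using hz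
    rw [ofComplex_apply_of_im_pos h4]
    ext
    rw [coe_J_smul]
    simp
  exact this

theorem injRefl_tendsto {F : ℍ → ℂ}
    (hcusp : ∀ δ : SL(2, ℤ), ∃ L : ℂ, Tendsto (fun w : ℍ => F (δ • w)) atImInfty (𝓝 L))
    (δ : SL(2, ℤ)) : ∃ L : ℂ, Tendsto (fun w : ℍ => injRefl F (δ • w)) atImInfty (𝓝 L) := by
  obtain ⟨L, hL⟩ := hcusp (jConjSL δ)
  refine ⟨-conj L, ?_⟩
  have hJ : Tendsto (fun w : ℍ => J • w) atImInfty atImInfty :=
    tendsto_smul_atImInfty (by simp [J])
  have h1 : Tendsto (fun w : ℍ => F (jConjSL δ • (J • w))) atImInfty (𝓝 L) := hL.comp hJ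
  have h2 : Tendsto (fun w : ℍ => -conj (F (jConjSL δ • (J • w)))) atImInfty (𝓝 (-conj L)) :=
    ((Complex.continuous_conj.tendsto L).comp h1).neg
  refine h2.congr ?_
  intro w
  simp only [injRefl, inj_J_smul_smul]

section half

variable {N : ℕ} [NeZero N] {f : CuspForm (Gamma0 N) 2} {F : ℍ → ℂ}

/-- If the periods of `f` satisfy `p (jγj) = s * p γ` with `s = ±1` then `f = 0`. -/
theorem inj_half (hF : HasEquivariantPrimitive N f F) (s : ℝ) (hs : s * s = 1)
    (hsym : ∀ γ : Gamma0 N, hF.2.2.1.period (jConjGamma0 N γ) = s * hF.2.2.1.period γ) :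
    f = 0 := by
  have hFd := hF.1
  have hFeq := hF.2.2.1
  have hFcusp := hF.2.2.2
  have hFhol : ∀ τ : ℍ, DifferentiableAt ℂ (F ∘ ofComplex) (τ : ℂ) :=
    fun τ => (hFd τ).differentiableAt
  have hHhol := injRefl_differentiableAt hFhol
  have hHcusp := injRefl_tendsto hFcusp
  -- increments of the reflected function
  have hHinc : ∀ (γ : Gamma0 N) (z : ℍ),
      injRefl F ((γ : SL(2, ℤ)) • z) - injRefl F z = -(s * conj (hFeq.period γ)) := by
    intro γ z
    have h1 := hFeq.sub_eq_period (jConjGamma0 N γ) (J • z)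
    rw [hsym γ, jConjGamma0_coe, ← inj_J_smul_smul] at h1
    simp only [injRefl]
    have h2 : conj (F (J • ((γ : SL(2, ℤ)) • z))) - conj (F (J • z))
        = conj ((s : ℂ) * hFeq.period γ) := by
      rw [← h1, map_sub]
    rw [map_mul, Complex.conj_ofReal] at h2
    linear_combination -h2
  -- the two auxiliary functions
  let A₁ : ℍ → ℂ := fun z => F z + (s : ℂ) * injRefl F z
  let A₂ : ℍ → ℂ := fun z => Complex.I * (F z - (s : ℂ) * injRefl F z)
  have hs' : (s : ℂ) * (s : ℂ) = 1 := by exact_mod_cast hs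
  have hA₁ : ∀ τ : ℍ, deriv (A₁ ∘ ofComplex) (τ : ℂ) = 0 := by
    refine injCore_deriv_eq_zero (N := N) ?_ ?_ ?_
    · intro τ
      exact (hFhol τ).add ((hHhol τ).const_mul (s : ℂ))
    · intro γ hγ
      refine ⟨hFeq.period ⟨γ, hγ⟩ - conj (hFeq.period ⟨γ, hγ⟩), ?_, ?_⟩
      · simp
      · intro z
        have h1 := hFeq.sub_eq_period ⟨γ, hγ⟩ z
        have h2 := hHinc ⟨γ, hγ⟩ z
        simp only [A₁]
        simp only at h1 h2
        linear_combination h1 + (s : ℂ) * h2 - conj (hFeq.period ⟨γ, hγ⟩) * hs'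
    · intro δ
      obtain ⟨L₁, hL₁⟩ := hFcusp δ
      obtain ⟨L₂, hL₂⟩ := hHcusp δ
      exact ⟨L₁ + (s : ℂ) * L₂, hL₁.add (hL₂.const_mul (s : ℂ))⟩
  have hA₂ : ∀ τ : ℍ, deriv (A₂ ∘ ofComplex) (τ : ℂ) = 0 := by
    refine injCore_deriv_eq_zero (N := N) ?_ ?_ ?_
    · intro τ
      exact ((hFhol τ).sub ((hHhol τ).const_mul (s : ℂ))).const_mul Complex.I
    · intro γ hγ
      refine ⟨Complex.I * (hFeq.period ⟨γ, hγ⟩ + conj (hFeq.period ⟨γ, hγ⟩)), ?_, ?_⟩
      · simp [Complex.add_conj]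
      · intro z
        have h1 := hFeq.sub_eq_period ⟨γ, hγ⟩ z
        have h2 := hHinc ⟨γ, hγ⟩ z
        simp only [A₂]
        simp only at h1 h2
        linear_combination Complex.I * h1 - Complex.I * (s : ℂ) * h2
          + Complex.I * conj (hFeq.period ⟨γ, hγ⟩) * hs'
    · intro δ
      obtain ⟨L₁, hL₁⟩ := hFcusp δ
      obtain ⟨L₂, hL₂⟩ := hHcusp δ
      exact ⟨Complex.I * (L₁ - (s : ℂ) * L₂), (hL₁.sub (hL₂.const_mul (s : ℂ))).const_mul _⟩
  -- conclude
  ext τ
  have hH' := (hHhol τ).hasDerivAt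
  set h := deriv (injRefl F ∘ ofComplex) (τ : ℂ) with hh
  have e₁ : HasDerivAt (A₁ ∘ ofComplex) (f τ + (s : ℂ) * h) (τ : ℂ) :=
    (hFd τ).add (hH'.const_mul (s : ℂ))
  have e₂ : HasDerivAt (A₂ ∘ ofComplex) (Complex.I * (f τ - (s : ℂ) * h)) (τ : ℂ) :=
    ((hFd τ).sub (hH'.const_mul (s : ℂ))).const_mul Complex.I
  have z₁ : f τ + (s : ℂ) * h = 0 := by rw [← e₁.deriv]; exact hA₁ τ
  have z₂ : Complex.I * (f τ - (s : ℂ) * h) = 0 := by rw [← e₂.deriv]; exact hA₂ τ
  have z₃ : f τ - (s : ℂ) * h = 0 := (mul_eq_zero.mp z₂).resolve_left Complex.I_ne_zero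
  have : f τ = 0 := by linear_combination (1 / 2 : ℂ) * z₁ + (1 / 2 : ℂ) * z₃
  simpa using this

end half

section final

variable (N : ℕ) [NeZero N]

omit [NeZero N] in
/-- Unfolding of `periodHomPair` at a pair, evaluated at `γ`. -/
theorem inj_periodHomPair_apply (hlin : ExistsPeriodMapLinear N)
    (f g : CuspForm (Gamma0 N) 2) (γ : Gamma0 N) :
    periodHomPair N (f, g) (Additive.ofMul γ)
      = (periodMap N f (Additive.ofMul γ)
          + periodMap N f (Additive.ofMul (jConjGamma0 N γ)))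
        + (periodMap N g (Additive.ofMul γ)
          - periodMap N g (Additive.ofMul (jConjGamma0 N γ))) := by
  obtain ⟨pml, hpml, hdef⟩ := periodHomPair_def N hlin
  rw [hdef]
  simp only [LinearMap.coprod_apply, LinearMap.coe_comp, Function.comp_apply,
    LinearMap.add_apply, LinearMap.sub_apply, LinearMap.id_coe, id_eq, hpml,
    AddMonoidHom.add_apply, AddMonoidHom.sub_apply, charInvolution_apply, toMul_ofMul]

/-- **Injectivity of `periodHomPair`**, assuming that every cusp form has an equivariant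
primitive and that the period map is linear. -/
theorem injective_periodHomPair_of (hlin : ExistsPeriodMapLinear N)
    (hA : ∀ f : CuspForm (Gamma0 N) 2, ∃ F : ℍ → ℂ, HasEquivariantPrimitive N f F) :
    Function.Injective (periodHomPair N) := by
  rw [injective_iff_map_eq_zero]
  rintro ⟨f, g⟩ hfg
  have key : ∀ γ : Gamma0 N,
      (periodMap N f (Additive.ofMul γ)
          + periodMap N f (Additive.ofMul (jConjGamma0 N γ)))
        + (periodMap N g (Additive.ofMul γ)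
          - periodMap N g (Additive.ofMul (jConjGamma0 N γ))) = 0 := by
    intro γ
    rw [← inj_periodHomPair_apply N hlin f g γ, hfg]
    rfl
  have keyf : ∀ γ : Gamma0 N, periodMap N f (Additive.ofMul (jConjGamma0 N γ))
      = ((-1 : ℝ) : ℂ) * periodMap N f (Additive.ofMul γ) := by
    intro γ
    have h1 := key γ
    have h2 := key (jConjGamma0 N γ)
    rw [jConjGamma0_jConjGamma0] at h2
    push_cast
    linear_combination (1 / 2 : ℂ) * h1 + (1 / 2 : ℂ) * h2
  have keyg : ∀ γ : Gamma0 N, periodMap N g (Additive.ofMul (jConjGamma0 N γ))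
      = ((1 : ℝ) : ℂ) * periodMap N g (Additive.ofMul γ) := by
    intro γ
    have h1 := key γ
    have h2 := key (jConjGamma0 N γ)
    rw [jConjGamma0_jConjGamma0] at h2
    push_cast
    linear_combination (-1 / 2 : ℂ) * h1 + (1 / 2 : ℂ) * h2
  have hf0 : f = 0 := by
    obtain ⟨F, hF⟩ := hA f
    obtain ⟨F₀, h₀, hP⟩ := periodMap_def N f hF
    refine inj_half h₀ (-1) (by norm_num) ?_
    intro γ
    have := keyf γ
    rw [hP] at this
    exact this
  have hg0 : g = 0 := by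
    obtain ⟨G, hG⟩ := hA g
    obtain ⟨G₀, h₀, hP⟩ := periodMap_def N g hG
    refine inj_half h₀ 1 (by norm_num) ?_
    intro γ
    have := keyg γ
    rw [hP] at this
    exact this
  rw [hf0, hg0]
  rfl

end final

end Fermat.Agent.S21.H81

end
-- ===== PACK-END S21/H81/Inj.lean

-- ===== PACK-BEGIN S28/H326/Integral.lean
section
/-
S28 / helper326: integrality bookkeeping for Laurent series over `ℂ`:
* `IntCoeff` : the subring of series all of whose coefficients are algebraic integers;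
* `jP p = j(t^p)` and the leading-coefficient lemma for `Q(j(t^p))`;
* `exists_int_poly_of_integral` : `Q ∈ ℚ[X]` with `Q(j(t^p))` having algebraic-integer
  coefficients has integer coefficients.
-/




set_option autoImplicit false
set_option linter.unusedSectionVars false

noncomputable section

namespace Fermat.Agent.S28.H326

open ModularCurve HahnSeries

/-- Laurent series over `ℂ` whose coefficients are all algebraic integers. -/
def IntCoeff : Subring (LaurentSeries ℂ) where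
  carrier := {x | ∀ n, IsIntegral ℤ (x.coeff n)}
  mul_mem' {x y} hx hy n := by
    rw [HahnSeries.coeff_mul]
    exact IsIntegral.sum _ fun ij _ => (hx _).mul (hy _)
  one_mem' n := by
    rw [HahnSeries.coeff_one]
    split_ifs
    · exact isIntegral_one
    · exact isIntegral_zero
  add_mem' {x y} hx hy n := by
    rw [HahnSeries.coeff_add]
    exact (hx n).add (hy n)
  zero_mem' n := by
    rw [HahnSeries.coeff_zero]
    exact isIntegral_zero
  neg_mem' {x} hx n := by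
    rw [HahnSeries.coeff_neg]
    exact (hx n).neg

theorem mem_IntCoeff {x : LaurentSeries ℂ} : x ∈ IntCoeff ↔ ∀ n, IsIntegral ℤ (x.coeff n) :=
  Iff.rfl

/-- coefficient cast `ℤ((q)) → ℂ((q))` -/
abbrev kap : LaurentSeries ℤ →+* LaurentSeries ℂ := coeffMap (Int.castRingHom ℂ)

theorem kap_injective : Function.Injective kap := by
  intro x y h
  ext n
  have := congrArg (fun z => z.coeff n) h
  simpa using this

theorem kap_mem_IntCoeff (x : LaurentSeries ℤ) : kap x ∈ IntCoeff := fun n => by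
  rw [coeffMap_coeff]
  exact isIntegral_algebraMap (R := ℤ) (A := ℂ) (x := x.coeff n)

variable (p : ℕ) [NeZero p]

theorem qExpand_mem_IntCoeff {x : LaurentSeries ℂ} (hx : x ∈ IntCoeff) :
    qExpand ℂ p x ∈ IntCoeff := fun n => by
  by_cases h : (p : ℤ) ∣ n
  · obtain ⟨m, rfl⟩ := h
    rw [qExpand_coeff_mul]
    exact hx m
  · rw [qExpand_coeff_of_not_dvd p _ h]
    exact isIntegral_zero

theorem zeta_isIntegral : IsIntegral ℤ (zeta p) :=
  (zeta_isPrimitiveRoot p).isIntegral (Nat.pos_of_ne_zero (NeZero.ne p))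

theorem cB_mem_IntCoeff (b : ℕ) (g : PowerSeries ℤ) :
    cB p b (g.map (Int.castRingHom ℂ)) ∈ IntCoeff := fun n => by
  rcases lt_or_ge n 0 with hn | hn
  · rw [cB_coeff_neg p b _ hn]
    exact isIntegral_zero
  · lift n to ℕ using hn
    rw [cB_coeff_nat, PowerSeries.coeff_map]
    exact (((zeta_isIntegral p).pow b).pow n).mul
      (isIntegral_algebraMap (R := ℤ) (A := ℂ) (x := g.coeff n))

/-- `j(t^p)` over `ℂ`. -/
def jP : LaurentSeries ℂ := qExpand ℂ p (jqModC ℂ)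

theorem jP_pow_coeff_self (n : ℕ) : (jP p ^ n).coeff (-((p : ℤ) * n)) = 1 := by
  rw [jP, ← map_pow, show -((p : ℤ) * n) = (p : ℤ) * (-(n : ℤ)) by ring, qExpand_coeff_mul,
    coeff_jqModC_pow_self]

theorem jP_pow_coeff_of_lt {i n : ℕ} (h : i < n) : (jP p ^ i).coeff (-((p : ℤ) * n)) = 0 := by
  rw [jP, ← map_pow, show -((p : ℤ) * n) = (p : ℤ) * (-(n : ℤ)) by ring, qExpand_coeff_mul]
  exact coeff_jqModC_pow_of_lt ℂ (by omega)

theorem jP_pow_mem_IntCoeff (n : ℕ) : jP p ^ n ∈ IntCoeff := by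
  refine Subring.pow_mem _ ?_ n
  rw [jP, ← coeffMap_jqModC (Int.castRingHom ℂ)]
  exact qExpand_mem_IntCoeff p (kap_mem_IntCoeff _)

theorem ratCast_mul_coeff (c : ℚ) (x : LaurentSeries ℂ) (n : ℤ) :
    ((c : LaurentSeries ℂ) * x).coeff n = (c : ℂ) * x.coeff n := by
  have : (c : LaurentSeries ℂ) = HahnSeries.C (c : ℂ) := (map_ratCast HahnSeries.C c).symm
  rw [this, HahnSeries.C_mul_eq_smul, HahnSeries.coeff_smul, smul_eq_mul]

theorem rat_algebraMap_mul_coeff (c : ℚ) (x : LaurentSeries ℂ) (n : ℤ) :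
    (algebraMap ℚ (LaurentSeries ℂ) c * x).coeff n = (c : ℂ) * x.coeff n := by
  rw [eq_ratCast, ratCast_mul_coeff]

/-- leading coefficient of `Q(j(t^p))` -/
theorem aeval_jP_coeff (Q : Polynomial ℚ) {n : ℕ} (hn : Q.natDegree ≤ n) :
    (Polynomial.aeval (jP p) Q).coeff (-((p : ℤ) * n)) = (Q.coeff n : ℂ) := by
  rw [Polynomial.aeval_eq_sum_range' (Nat.lt_succ_of_le hn), HahnSeries.coeff_sum,
    Finset.sum_range_succ]
  rw [Finset.sum_eq_zero, zero_add, Algebra.smul_def, rat_algebraMap_mul_coeff,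
    jP_pow_coeff_self, mul_one]
  · intro i hi
    rw [Algebra.smul_def, rat_algebraMap_mul_coeff, jP_pow_coeff_of_lt p (Finset.mem_range.mp hi),
      mul_zero]

theorem rat_of_isIntegral {a : ℚ} (h : IsIntegral ℤ (a : ℂ)) : ∃ m : ℤ, (m : ℚ) = a := by
  have h1 : IsIntegral ℤ a := by
    have := (isIntegral_algebraMap_iff (R := ℤ) (A := ℚ) (B := ℂ)
      (algebraMap ℚ ℂ).injective (x := a)).mp (by simpa using h)
    exact this
  obtain ⟨m, hm⟩ := IsIntegrallyClosed.isIntegral_iff.mp h1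
  exact ⟨m, by simpa using hm⟩

/-- **Integrality by leading terms**: if `Q(j(t^p))` has algebraic-integer coefficients,
then `Q` has integer coefficients. -/
theorem exists_int_poly_of_integral (Q : Polynomial ℚ)
    (h : Polynomial.aeval (jP p) Q ∈ IntCoeff) :
    ∃ Q' : Polynomial ℤ, Q'.map (Int.castRingHom ℚ) = Q := by
  suffices H : ∀ d : ℕ, ∀ Q : Polynomial ℚ, Q.natDegree < d →
      Polynomial.aeval (jP p) Q ∈ IntCoeff → ∃ Q' : Polynomial ℤ,
        Q'.map (Int.castRingHom ℚ) = Q from H (Q.natDegree + 1) Q (Nat.lt_succ_self _) h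
  intro d
  induction d with
  | zero => intro Q hQ; omega
  | succ d ih =>
    intro Q hQ hint
    have hle : Q.natDegree ≤ d := Nat.lt_succ_iff.mp hQ
    have hlead := aeval_jP_coeff p Q hle
    obtain ⟨m, hm⟩ := rat_of_isIntegral (hlead ▸ hint _)
    set Q1 : Polynomial ℚ := Q - Polynomial.C (Q.coeff d) * Polynomial.X ^ d with hQ1
    have hdeg : Q1.natDegree < d ∨ Q1 = 0 := by
      by_cases h0 : Q1 = 0
      · exact Or.inr h0
      left
      have h1 : Q1.natDegree ≤ d := by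
        refine (Polynomial.natDegree_sub_le _ _).trans (max_le hle ?_)
        exact Polynomial.natDegree_C_mul_X_pow_le _ _
      rcases Nat.lt_or_ge Q1.natDegree d with h2 | h2
      · exact h2
      · have h3 : Q1.natDegree = d := le_antisymm h1 h2
        have h4 : Q1.coeff d = 0 := by
          simp [hQ1]
        have h5 : Q1.leadingCoeff = 0 := by
          rw [Polynomial.leadingCoeff, h3, h4]
        exact absurd (Polynomial.leadingCoeff_eq_zero.mp h5) h0
    have hint1 : Polynomial.aeval (jP p) Q1 ∈ IntCoeff := by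
      rw [hQ1, map_sub, map_mul, Polynomial.aeval_C, map_pow, Polynomial.aeval_X]
      refine Subring.sub_mem _ hint ?_
      rw [← hm]
      have : algebraMap ℚ (LaurentSeries ℂ) (m : ℚ) = ((m : ℤ) : LaurentSeries ℂ) := by
        simp
      rw [this]
      exact Subring.mul_mem _ (intCast_mem _ m) (jP_pow_mem_IntCoeff p d)
    have hQ1' : ∃ Q' : Polynomial ℤ, Q'.map (Int.castRingHom ℚ) = Q1 := by
      rcases hdeg with h1 | h1
      · rcases Nat.eq_zero_or_pos d with hd | hd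
        · omega
        · exact ih Q1 (by omega) hint1 |>.elim (fun Q' h' => ⟨Q', h'⟩) |> fun x => x
      · exact ⟨0, by simp [h1]⟩
    obtain ⟨Q', hQ'⟩ := hQ1'
    refine ⟨Q' + Polynomial.C m * Polynomial.X ^ d, ?_⟩
    rw [Polynomial.map_add, hQ', Polynomial.map_mul, Polynomial.map_pow, Polynomial.map_X,
      Polynomial.map_C, hQ1]
    simp [hm]

end Fermat.Agent.S28.H326

end
end
-- ===== PACK-END S28/H326/Integral.lean

-- ===== PACK-BEGIN S18/H333/Forms.lean
section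




/-!
# S18 / c3 (helper333): level-one forms on `Γ₀(p)` — restriction and `V_p`

* `restr p H` : a level-one modular form `H` viewed on `Γ₀(p)`;
* `raise p H` : `τ ↦ H (p τ)` as a modular form on `Γ₀(p)`;
* `qExpansion_raise` : the `q`-expansion of `raise p H` is `Vser p (qExpansion H)`.
-/

set_option autoImplicit false
set_option linter.unusedSectionVars false

noncomputable section

namespace Fermat.Agent.S18.H333

open UpperHalfPlane ModularForm CongruenceSubgroup MatrixGroups Matrix.SpecialLinearGroup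

variable (p : ℕ) [NeZero p]

theorem det_eq_one' (g : SL(2, ℤ)) : g 0 0 * g 1 1 - g 0 1 * g 1 0 = 1 := by
  have h := g.det_coe
  rwa [Matrix.det_fin_two] at h

theorem diag_mul_mapGL (g : SL(2, ℤ)) (e : ℤ) (he : g 1 0 = p * e) :
    ∃ g' : SL(2, ℤ), heckeDiagMatrix p * mapGL ℝ g = mapGL ℝ g' * heckeDiagMatrix p := by
  have hp := NeZero.ne p
  have hdet := det_eq_one' g
  obtain ⟨g', hg'⟩ : ∃ g' : SL(2, ℤ),
      (g' : Matrix (Fin 2) (Fin 2) ℤ) = !![g 0 0, p * g 0 1; e, g 1 1] := by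
    refine ⟨⟨!![g 0 0, p * g 0 1; e, g 1 1], ?_⟩, rfl⟩
    rw [Matrix.det_fin_two_of]
    linear_combination hdet + (g 0 1) * he
  refine ⟨g', ?_⟩
  apply Units.ext
  rw [Units.val_mul, Units.val_mul, val_heckeDiagMatrix hp, mapGL_coe_matrix, mapGL_coe_matrix]
  have he' : ((g 1 0 : ℤ) : ℝ) = p * e := by exact_mod_cast he
  ext i j
  fin_cases i <;> fin_cases j <;>
    simp [Matrix.mul_apply, Fin.sum_univ_two, he', hg'] <;> ring

open ConjAct Pointwise in
theorem Gamma0_le_conj_diag :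
    (Gamma0 p : Subgroup (GL (Fin 2) ℝ)) ≤
      toConjAct (heckeDiagMatrix p)⁻¹ • (𝒮ℒ : Subgroup (GL (Fin 2) ℝ)) := by
  rintro _ ⟨g, hg, rfl⟩
  obtain ⟨e, he⟩ : (p : ℤ) ∣ g 1 0 := by
    have hg' : g ∈ Gamma0 p := hg
    rwa [CongruenceSubgroup.Gamma0_mem, ZMod.intCast_zmod_eq_zero_iff_dvd] at hg'
  obtain ⟨g', hg'⟩ := diag_mul_mapGL p g e he
  rw [Subgroup.mem_pointwise_smul_iff_inv_smul_mem, ← toConjAct_inv, inv_inv, toConjAct_smul, hg',
    mul_inv_cancel_right]
  exact ⟨g', rfl⟩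

omit [NeZero p] in
theorem Gamma0_le_top : (Gamma0 p : Subgroup (GL (Fin 2) ℝ)) ≤ (𝒮ℒ : Subgroup (GL (Fin 2) ℝ)) := by
  rintro _ ⟨g, -, rfl⟩
  exact ⟨g, rfl⟩

/-- `H ∣[k] diag(p,1)`, i.e. `τ ↦ p^(k-1) H(p τ)`, as a modular form on `Γ₀(p)`. -/
def raise0 {k : ℤ} (H : ModularForm 𝒮ℒ k) : ModularForm (Gamma0 p) k where
  toFun := (⇑H : ℍ → ℂ) ∣[k] heckeDiagMatrix p
  slash_action_eq' γ hγ :=
    (ModularForm.translate H (heckeDiagMatrix p)).slash_action_eq' γ
      (Gamma0_le_conj_diag p hγ)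
  holo' := (ModularForm.translate H (heckeDiagMatrix p)).holo'
  bdd_at_cusps' hc :=
    (ModularForm.translate H (heckeDiagMatrix p)).bdd_at_cusps'
      (hc.mono (Gamma0_le_conj_diag p))

/-- a level-one form viewed on `Γ₀(p)` -/
def restr {k : ℤ} (H : ModularForm 𝒮ℒ k) : ModularForm (Gamma0 p) k where
  toFun := (⇑H : ℍ → ℂ)
  slash_action_eq' γ hγ := H.slash_action_eq' γ (Gamma0_le_top p hγ)
  holo' := H.holo'
  bdd_at_cusps' hc := H.bdd_at_cusps' (hc.mono (Gamma0_le_top p))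

@[simp] theorem coe_restr {k : ℤ} (H : ModularForm 𝒮ℒ k) : (⇑(restr p H) : ℍ → ℂ) = ⇑H := rfl

/-- `τ ↦ H(p τ)` as a modular form on `Γ₀(p)`. -/
def raise {k : ℤ} (H : ModularForm 𝒮ℒ k) : ModularForm (Gamma0 p) k :=
  ((p : ℂ) ^ (1 - k)) • raise0 p H

theorem raise_apply {k : ℤ} (H : ModularForm 𝒮ℒ k) (τ : ℍ) :
    raise p H τ = H (heckeDiagMatrix p • τ) := by
  have hp' : (p : ℂ) ≠ 0 := by exact_mod_cast NeZero.ne p
  show ((p : ℂ) ^ (1 - k)) • ((⇑H : ℍ → ℂ) ∣[k] heckeDiagMatrix p) τ = _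
  rw [slash_heckeDiagMatrix_apply k (NeZero.ne p), smul_eq_mul, ← mul_assoc, ← zpow_add₀ hp']
  simp

theorem one_mem_strictPeriods_Gamma0 :
    (1 : ℝ) ∈ (Gamma0 p : Subgroup (GL (Fin 2) ℝ)).strictPeriods := by
  simp [CongruenceSubgroup.strictPeriods_Gamma0]

theorem one_mem_strictPeriods_top :
    (1 : ℝ) ∈ (𝒮ℒ : Subgroup (GL (Fin 2) ℝ)).strictPeriods := by
  simp

theorem qParam_diag (τ : ℍ) :
    Function.Periodic.qParam 1 ((heckeDiagMatrix p • τ : ℍ) : ℂ) =
      Function.Periodic.qParam 1 (τ : ℂ) ^ p := by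
  rw [coe_heckeDiagMatrix_smul (NeZero.ne p), Function.Periodic.qParam,
    Function.Periodic.qParam, ← Complex.exp_nat_mul]
  congr 1
  push_cast
  ring

theorem qExpansion_raise {k : ℤ} (H : ModularForm 𝒮ℒ k) :
    qExpansion 1 (raise p H) = Vser p (qExpansion 1 H) := by
  ext n
  symm
  refine ModularFormClass.qExpansion_coeff_unique (h := 1)
    (c := fun n => PowerSeries.coeff n (Vser p (qExpansion 1 H))) one_pos
    (_root_.Fermat.Agent.S18.H333.one_mem_strictPeriods_Gamma0 p) (f := raise p H) (fun τ => ?_) n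
  rw [raise_apply]
  have h1 := ModularForm.hasSum_qExpansion (f := H) one_pos one_mem_strictPeriods_top
    (heckeDiagMatrix p • τ)
  rw [qParam_diag] at h1
  have hinj : Function.Injective (fun m : ℕ => p * m) :=
    fun a b hab => Nat.eq_of_mul_eq_mul_left (Nat.pos_of_ne_zero (NeZero.ne p)) hab
  refine (hinj.hasSum_iff ?_).mp ?_
  · intro n hn
    have : ¬ p ∣ n := fun ⟨m, hm⟩ => hn ⟨m, hm.symm⟩
    simp [this]
  · convert h1 using 2 with m
    simp only [Function.comp_apply, coeff_Vser, dvd_mul_right, if_true,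
      Nat.mul_div_cancel_left m (Nat.pos_of_ne_zero (NeZero.ne p)), smul_eq_mul, pow_mul]

end Fermat.Agent.S18.H333

end
end
-- ===== PACK-END S18/H333/Forms.lean

-- ===== PACK-BEGIN S18/H333/Series.lean
section



/-!
# S18 / c3 (helper333): the formal series `E₄`, `Δ`, their `V_p`-images and truncations
-/

set_option autoImplicit false

namespace Fermat.Agent.S18.H333

open PowerSeries ModularCurve Filter Topology
open scoped PowerSeries.WithPiTopology

/-- formal `E₄` -/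
noncomputable def Ez : PowerSeries ℤ := eisenstein4

/-- formal `Δ = q ∏ (1 - q^n)^24` -/
noncomputable def Dz : PowerSeries ℤ := X * etaProd ^ 24

theorem tl_etaProd (n : ℕ) : tl n etaProd = etaLrec n n := by
  rw [← tl_prod_range, tl_ext_iff]
  intro k hk
  have h1 : Tendsto (fun t : Finset ℕ => ∏ i ∈ t, ((1 : PowerSeries ℤ) - X ^ (i + 1)))
      atTop (𝓝 etaProd) :=
    (PowerSeries.WithPiTopology.multipliable_one_sub_X_pow ℤ).hasProd
  have h2 := ((PowerSeries.WithPiTopology.continuous_coeff ℤ k).tendsto _).comp h1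
  rw [nhds_discrete, tendsto_pure] at h2
  obtain ⟨t, ht, htn⟩ := (h2.and (eventually_ge_atTop (Finset.range n))).exists
  simp only [Function.comp_apply] at ht
  rw [← ht]
  have hsplit : ∏ i ∈ t, ((1 : PowerSeries ℤ) - X ^ (i + 1)) =
      (∏ i ∈ t \ Finset.range n, ((1 : PowerSeries ℤ) - X ^ (i + 1))) *
        ∏ i ∈ Finset.range n, ((1 : PowerSeries ℤ) - X ^ (i + 1)) :=
    (Finset.prod_sdiff htn).symm
  have h3 : tl n (∏ i ∈ t \ Finset.range n, ((1 : PowerSeries ℤ) - X ^ (i + 1))) = tl n 1 := by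
    refine tl_prod_of_le n _ fun i hi => ?_
    have := (Finset.mem_sdiff.mp hi).2
    rw [Finset.mem_range] at this
    omega
  have h4 := tl_mul_congr n h3 (rfl : tl n (∏ i ∈ Finset.range n,
    ((1 : PowerSeries ℤ) - X ^ (i + 1))) = _)
  rw [one_mul, ← hsplit] at h4
  exact ((tl_ext_iff n _ _).mp h4 k hk)

theorem tl_Ez (n : ℕ) : tl n Ez =
    (List.range n).map fun k : ℕ => if k = 0 then (1 : ℤ) else 240 * ∑ d ∈ k.divisors, (d : ℤ) ^ 3 := by
  refine List.map_congr_left fun k _ => ?_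
  rw [Ez, eisenstein4, coeff_mk]

theorem tl_Dz (n : ℕ) : tl n Dz = tmul n (tX n) (tpow n (etaLrec n n) 24) := by
  rw [Dz, tl_mul, tl_X, tl_pow, tl_etaProd]

theorem tl_Ez_17 : tl 17 Ez = [1, 240, 2160, 6720, 17520, 30240, 60480, 82560, 140400, 181680,
    272160, 319680, 490560, 527520, 743040, 846720, 1123440] := by
  rw [tl_Ez]; decide +kernel

theorem tl_Dz_17 : tl 17 Dz = [0, 1, -24, 252, -1472, 4830, -6048, -16744, 84480, -113643,
    -115920, 534612, -370944, -577738, 401856, 1217160, 987136] := by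
  rw [tl_Dz]; decide +kernel

end Fermat.Agent.S18.H333

namespace Fermat.Agent.S18.H333

open PowerSeries ModularCurve

/-! ### level 2 -/

/-- `E₄³ Δ Δ₂ - (Δ + 256 Δ₂)³`, `Δ₂ = Δ(q²)` -/
noncomputable def Phi2a : PowerSeries ℤ :=
  Ez ^ 3 * Dz * Vser 2 Dz - (Dz + (256 : ℤ) • Vser 2 Dz) ^ 3

/-- `E₄(q²)³ Δ Δ₂ - (Δ + 16 Δ₂)³` -/
noncomputable def Phi2b : PowerSeries ℤ :=
  Vser 2 Ez ^ 3 * Dz * Vser 2 Dz - (Dz + (16 : ℤ) • Vser 2 Dz) ^ 3

theorem tl_Ez_10 : tl 10 Ez = [1, 240, 2160, 6720, 17520, 30240, 60480, 82560, 140400, 181680] := by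
  rw [tl_Ez]; decide +kernel

theorem tl_Dz_10 : tl 10 Dz = [0, 1, -24, 252, -1472, 4830, -6048, -16744, 84480, -113643] := by
  rw [tl_Dz]; decide +kernel

theorem tl_Phi2a : tl 10 Phi2a = tzero 10 := by
  rw [Phi2a, tl_sub, tl_mul, tl_mul, tl_pow, tl_pow, tl_add, tl_smul, tl_Vser _ _ (by norm_num),
    tl_Dz_10, tl_Ez_10]
  decide +kernel

theorem tl_Phi2b : tl 10 Phi2b = tzero 10 := by
  rw [Phi2b, tl_sub, tl_mul, tl_mul, tl_pow, tl_pow, tl_add, tl_smul, tl_Vser _ _ (by norm_num),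
    tl_Vser _ _ (by norm_num), tl_Dz_10, tl_Ez_10]
  decide +kernel

/-! ### level 3 -/

/-- `Δ² + 196830 Δ Δ₃ + 3^18 Δ₃²` -/
noncomputable def A3a : PowerSeries ℤ :=
  Dz * Dz + (196830 : ℤ) • (Dz * Vser 3 Dz) + (387420489 : ℤ) • (Vser 3 Dz * Vser 3 Dz)

/-- `756 Δ + 19131876 Δ₃` -/
noncomputable def B3a : PowerSeries ℤ := (756 : ℤ) • Dz + (19131876 : ℤ) • Vser 3 Dz

/-- squared form of `(t₃+27)(t₃+243)³ = j t₃³` -/
noncomputable def Phi3a : PowerSeries ℤ :=
  A3a * A3a - (Dz * Vser 3 Dz) * ((Ez ^ 3 - B3a) * (Ez ^ 3 - B3a))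

/-- `Δ² + 270 Δ Δ₃ + 729 Δ₃²` -/
noncomputable def A3b : PowerSeries ℤ :=
  Dz * Dz + (270 : ℤ) • (Dz * Vser 3 Dz) + (729 : ℤ) • (Vser 3 Dz * Vser 3 Dz)

/-- `36 Δ + 756 Δ₃` -/
noncomputable def B3b : PowerSeries ℤ := (36 : ℤ) • Dz + (756 : ℤ) • Vser 3 Dz

/-- squared form of `(t₃+27)(t₃+3)³ = j(q³) t₃` -/
noncomputable def Phi3b : PowerSeries ℤ :=
  A3b * A3b - (Dz * Vser 3 Dz) * ((Vser 3 Ez ^ 3 - B3b) * (Vser 3 Ez ^ 3 - B3b))

theorem tl_Phi3a : tl 17 Phi3a = tzero 17 := by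
  rw [Phi3a, A3a, B3a]
  simp only [tl_sub, tl_mul, tl_pow, tl_add, tl_smul, tl_Vser _ _ (show 0 < 3 by norm_num),
    tl_Dz_17, tl_Ez_17]
  decide +kernel

theorem tl_Phi3b : tl 17 Phi3b = tzero 17 := by
  rw [Phi3b, A3b, B3b]
  simp only [tl_sub, tl_mul, tl_pow, tl_add, tl_smul, tl_Vser _ _ (show 0 < 3 by norm_num),
    tl_Dz_17, tl_Ez_17]
  decide +kernel

end Fermat.Agent.S18.H333

end
-- ===== PACK-END S18/H333/Series.lean

-- ===== PACK-BEGIN S20/Comb/RelIndex.lean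
section





/-!
# Relative index of `Gamma0 (p * M)` in `Gamma0 M`

`(Gamma0 (p * M)).relIndex (Gamma0 M) = p` if `p ∣ M`, and `p + 1` otherwise (`p` prime, `M ≠ 0`).
-/

set_option autoImplicit false

namespace Fermat.Agent.S20.Comb

open Matrix MatrixGroups CongruenceSubgroup

lemma mem_Gamma0_iff_dvd (N : ℕ) (g : SL(2, ℤ)) : g ∈ Gamma0 N ↔ (N : ℤ) ∣ g 1 0 := by
  rw [Gamma0_mem]
  exact ZMod.intCast_zmod_eq_zero_iff_dvd _ _

lemma Gamma0_mul_le (p M : ℕ) : Gamma0 (p * M) ≤ Gamma0 M := by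
  intro g hg
  rw [mem_Gamma0_iff_dvd] at hg ⊢
  refine dvd_trans ?_ hg
  push_cast
  exact dvd_mul_left _ _

/-- The matrix `[[1, 0], [c, 1]]` in `SL(2,ℤ)`. -/
def lowRep (c : ℤ) : SL(2, ℤ) := ⟨!![1, 0; c, 1], by simp [Matrix.det_fin_two]⟩

@[simp] lemma lowRep_apply_zero_zero (c : ℤ) : lowRep c 0 0 = 1 := rfl
@[simp] lemma lowRep_apply_one_zero (c : ℤ) : lowRep c 1 0 = c := rfl

lemma lowRep_mem (M : ℕ) (t : ℤ) : lowRep ((M : ℤ) * t) ∈ Gamma0 M := by
  rw [mem_Gamma0_iff_dvd, lowRep_apply_one_zero]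
  exact dvd_mul_right _ _

/-- Coset criterion for `Gamma0 M ⧸ (Gamma0 (p * M)).subgroupOf (Gamma0 M)`. -/
lemma subMk_eq_iff (p M : ℕ) (hM : M ≠ 0) (g g' : Gamma0 M) (c₁ c₁' : ℤ)
    (hc : (g : SL(2, ℤ)) 1 0 = M * c₁) (hc' : (g' : SL(2, ℤ)) 1 0 = M * c₁') :
    (QuotientGroup.mk g : Gamma0 M ⧸ (Gamma0 (p * M)).subgroupOf (Gamma0 M))
        = QuotientGroup.mk g' ↔
      (p : ℤ) ∣ ((g : SL(2, ℤ)) 0 0 * c₁' - c₁ * (g' : SL(2, ℤ)) 0 0) := by
  rw [QuotientGroup.eq, Subgroup.mem_subgroupOf, mem_Gamma0_iff_dvd]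
  simp only [Subgroup.coe_mul, Subgroup.coe_inv, inv_mul_apply_one_zero, hc, hc']
  have h : (g : SL(2, ℤ)) 0 0 * ((M : ℤ) * c₁') - (M : ℤ) * c₁ * (g' : SL(2, ℤ)) 0 0
      = (M : ℤ) * ((g : SL(2, ℤ)) 0 0 * c₁' - c₁ * (g' : SL(2, ℤ)) 0 0) := by ring
  rw [h]
  push_cast
  rw [mul_comm (p : ℤ) (M : ℤ)]
  exact mul_dvd_mul_iff_left (by exact_mod_cast hM)

/-- For `g ∈ Gamma0 M` with `p ∣ M`, the entry `g 0 0` is nonzero mod `p`. -/
lemma a_ne_zero_of_dvd (p M : ℕ) (hp : p.Prime) (h : p ∣ M) (g : Gamma0 M) :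
    ¬ (p : ℤ) ∣ (g : SL(2, ℤ)) 0 0 := by
  intro ha
  have hg := (mem_Gamma0_iff_dvd M _).mp g.2
  have hpc : (p : ℤ) ∣ (g : SL(2, ℤ)) 1 0 := dvd_trans (by exact_mod_cast h) hg
  have hdet := (g : SL(2, ℤ)).det_coe
  rw [Matrix.det_fin_two] at hdet
  have h1 : (p : ℤ) ∣ 1 := by
    rw [← hdet]
    exact dvd_sub (dvd_mul_of_dvd_left ha _) (dvd_mul_of_dvd_right hpc _)
  have := Int.natCast_dvd_natCast.mp (by simpa using h1 : ((p : ℕ) : ℤ) ∣ ((1 : ℕ) : ℤ))
  exact hp.one_lt.ne' (Nat.dvd_one.mp this)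

/-- The coset representative attached to `t : ZMod p`. -/
noncomputable def relRep (p M : ℕ) (t : ZMod p) :
    Gamma0 M ⧸ (Gamma0 (p * M)).subgroupOf (Gamma0 M) :=
  QuotientGroup.mk ⟨lowRep ((M : ℤ) * (ZMod.cast t : ℤ)), lowRep_mem M _⟩

lemma relRep_injective (p M : ℕ) (hM : M ≠ 0) : Function.Injective (relRep p M) := by
  intro t t' h
  simp only [relRep] at h
  rw [subMk_eq_iff p M hM _ _ (ZMod.cast t : ℤ) (ZMod.cast t' : ℤ) rfl rfl] at h
  simp only [lowRep_apply_zero_zero, one_mul, mul_one] at h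
  have := (ZMod.intCast_zmod_eq_zero_iff_dvd _ p).mpr h
  push_cast at this
  exact (sub_eq_zero.mp this).symm

/-- Elements with `p ∤ a` are in the range of `relRep`. -/
lemma mem_range_relRep (p M : ℕ) (hM : M ≠ 0) (hp : p.Prime) (g : Gamma0 M)
    (ha : ¬ (p : ℤ) ∣ (g : SL(2, ℤ)) 0 0) :
    (QuotientGroup.mk g : Gamma0 M ⧸ (Gamma0 (p * M)).subgroupOf (Gamma0 M))
      ∈ Set.range (relRep p M) := by
  haveI : Fact p.Prime := ⟨hp⟩
  obtain ⟨c₁, hc₁⟩ := (mem_Gamma0_iff_dvd M _).mp g.2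
  have ha' : (((g : SL(2, ℤ)) 0 0 : ℤ) : ZMod p) ≠ 0 := by
    rwa [Ne, ZMod.intCast_zmod_eq_zero_iff_dvd]
  refine ⟨(c₁ : ZMod p) * (((g : SL(2, ℤ)) 0 0 : ℤ) : ZMod p)⁻¹, ?_⟩
  simp only [relRep]
  rw [subMk_eq_iff p M hM _ _ _ c₁ rfl hc₁]
  simp only [lowRep_apply_zero_zero, one_mul]
  rw [← ZMod.intCast_zmod_eq_zero_iff_dvd]
  push_cast
  rw [mul_assoc, inv_mul_cancel₀ ha', mul_one, sub_self]

/-- **Relative index, ramified case**: `[Γ₀(M) : Γ₀(pM)] = p` if `p ∣ M`. -/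
theorem relIndex_Gamma0_of_dvd (p M : ℕ) (hM : M ≠ 0) (hp : p.Prime) (h : p ∣ M) :
    (Gamma0 (p * M)).relIndex (Gamma0 M) = p := by
  have hbij : Function.Bijective (relRep p M) := by
    refine ⟨relRep_injective p M hM, ?_⟩
    intro q
    obtain ⟨g, rfl⟩ := QuotientGroup.mk_surjective q
    exact mem_range_relRep p M hM hp g (a_ne_zero_of_dvd p M hp h g)
  rw [Subgroup.relIndex, Subgroup.index, ← Nat.card_eq_of_bijective _ hbij, Nat.card_zmod]

/-- An element of `Gamma0 M` with first column `(p, M)`, for `p ∤ M`. -/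
lemma exists_special (p M : ℕ) (hp : p.Prime) (h : ¬ p ∣ M) :
    ∃ g : Gamma0 M, (g : SL(2, ℤ)) 0 0 = p ∧ (g : SL(2, ℤ)) 1 0 = M := by
  have hcop : IsCoprime (p : ℤ) (M : ℤ) := by
    rw [Int.isCoprime_iff_gcd_eq_one, Int.gcd_natCast_natCast]
    exact (Nat.Prime.coprime_iff_not_dvd hp).mpr h
  obtain ⟨g, hg0, hg1⟩ := IsCoprime.exists_SL2_col hcop 0
  refine ⟨⟨g, ?_⟩, hg0, hg1⟩
  rw [mem_Gamma0_iff_dvd, hg1]

/-- **Relative index, unramified case**: `[Γ₀(M) : Γ₀(pM)] = p + 1` if `p ∤ M`. -/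
theorem relIndex_Gamma0_of_not_dvd (p M : ℕ) (hM : M ≠ 0) (hp : p.Prime) (h : ¬ p ∣ M) :
    (Gamma0 (p * M)).relIndex (Gamma0 M) = p + 1 := by
  haveI : Fact p.Prime := ⟨hp⟩
  obtain ⟨g₀, hg₀0, hg₀1⟩ := exists_special p M hp h
  let f : Option (ZMod p) → Gamma0 M ⧸ (Gamma0 (p * M)).subgroupOf (Gamma0 M) :=
    fun o => o.elim (QuotientGroup.mk g₀) (relRep p M)
  have hne : ∀ t : ZMod p, relRep p M t ≠ QuotientGroup.mk g₀ := by
    intro t ht
    simp only [relRep] at ht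
    rw [subMk_eq_iff p M hM _ _ (ZMod.cast t : ℤ) 1 rfl (by rw [hg₀1, mul_one])] at ht
    simp only [lowRep_apply_zero_zero, one_mul, hg₀0] at ht
    have h1 : (p : ℤ) ∣ 1 := by
      have := dvd_add ht (dvd_mul_left (p : ℤ) (ZMod.cast t : ℤ))
      simpa using this
    have := Int.natCast_dvd_natCast.mp (by simpa using h1 : ((p : ℕ) : ℤ) ∣ ((1 : ℕ) : ℤ))
    exact hp.one_lt.ne' (Nat.dvd_one.mp this)
  have hbij : Function.Bijective f := by
    constructor
    · rintro (_ | t) (_ | t') hh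
      · rfl
      · exact absurd hh.symm (hne t')
      · exact absurd hh (hne t)
      · exact congrArg some (relRep_injective p M hM hh)
    · intro q
      obtain ⟨g, rfl⟩ := QuotientGroup.mk_surjective q
      by_cases ha : (p : ℤ) ∣ (g : SL(2, ℤ)) 0 0
      · refine ⟨none, ?_⟩
        obtain ⟨c₁, hc₁⟩ := (mem_Gamma0_iff_dvd M _).mp g.2
        show QuotientGroup.mk g₀ = _
        rw [subMk_eq_iff p M hM _ _ 1 c₁ (by rw [hg₀1, mul_one]) hc₁, hg₀0]
        exact dvd_sub (dvd_mul_right _ _) (by simpa using ha)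
      · obtain ⟨t, ht⟩ := mem_range_relRep p M hM hp g ha
        exact ⟨some t, ht⟩
  rw [Subgroup.relIndex, Subgroup.index, ← Nat.card_eq_of_bijective _ hbij, Finite.card_option,
    Nat.card_zmod]

end Fermat.Agent.S20.Comb

end
-- ===== PACK-END S20/Comb/RelIndex.lean

-- ===== PACK-BEGIN S18/Mod/H216/Parts.lean
section


/-!
# S18 / MOD-ASM (helper216): `Alg.GoodModel` split into six independent PARTS

`Alg.GoodModel Lc Ec Fc R V w x S` (Alg/Spec v4, on main) has 34 fields.  They are grouped here into six `Prop`-structures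
with the SAME field names and the SAME field types, so that each group can be proved by a different
owner, in any order:

| part | structure | fields |
|---|---|---|
| G-R   | `PartR Ec R w`        | `R_le R_total w_mem w_ne_zero w_inv_not_mem w_gen w_discrete residue_perfect` |
| G-FLD | `PartFld Lc Ec Fc x`  | `E_le_L E_le_F L_algebraic L_algClosed E_closed_in_F compositum x_mem x_transcendental finite` |
| G-V   | `PartV Fc R V w x`    | `V_le V_total R_le_V w_inv_not_mem_V V_gen x_mem_V gauss` |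
| G-QEP | `PartQep Fc R V w x`  | `qep_fin qep_inf` |
| G-SEP | `PartSep R V w x`     | `separable` |
| G-BR  | `PartBr Lc R x S`     | `S_mem S_distinct S_unit unramified` |

`goodModel_of_parts` assembles them (+ `CharZero Ω`); `GoodModel.partR` … project back.
Everything here is Mathlib-only (abstract field `Ω`).
-/

set_option autoImplicit false

namespace Fermat.Agent.S18.Mod.H216

open Fermat.Agent.S18.Alg

variable {Ω : Type*} [Field Ω]

/-- **G-R**: `R` is a discrete valuation ring of `Ec`, uniformiser `w`, perfect residue field. -/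
structure PartR (Ec : Subfield Ω) (R : Subring Ω) (w : Ω) : Prop where
  R_le : (R : Set Ω) ⊆ Ec
  R_total : ∀ e ∈ Ec, e ∈ R ∨ e⁻¹ ∈ R
  w_mem : w ∈ R
  w_ne_zero : w ≠ 0
  w_inv_not_mem : w⁻¹ ∉ R
  w_gen : ∀ r ∈ R, r⁻¹ ∉ R → r * w⁻¹ ∈ R
  w_discrete : ∀ r ∈ R, r ≠ 0 → ∃ n : ℕ, r * (w⁻¹) ^ n ∈ R ∧ (r * (w⁻¹) ^ n)⁻¹ ∈ R
  residue_perfect : ∃ p : ℕ, p.Prime ∧ (p : Ω) * w⁻¹ ∈ R ∧
    ∀ r ∈ R, ∃ s ∈ R, (r - s ^ p) * w⁻¹ ∈ R

/-- **G-FLD**: the fields `Ec ≤ Lc`, `Ec ≤ Fc`, and the coordinate `x`. -/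
structure PartFld (Lc Ec Fc : Subfield Ω) (x : Ω) : Prop where
  E_le_L : Ec ≤ Lc
  E_le_F : Ec ≤ Fc
  L_algebraic : ∀ a ∈ Lc, IsAlgebraic Ec a
  L_algClosed : IsAlgClosed Lc
  E_closed_in_F : ∀ f ∈ Fc, IsAlgebraic Ec f → f ∈ Ec
  compositum : Subfield.closure ((Fc : Set Ω) ∪ Lc) = ⊤
  x_mem : x ∈ Fc
  x_transcendental : Transcendental Lc x
  finite : ∃ s : Finset Ω, (s : Set Ω) ⊆ Fc ∧
    ∀ f ∈ Fc, f ∈ Submodule.span (ratField Ec x) (s : Set Ω)

/-- **G-V**: `V` is the Gauss valuation ring of `Fc`. -/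
structure PartV (Fc : Subfield Ω) (R V : Subring Ω) (w x : Ω) : Prop where
  V_le : (V : Set Ω) ⊆ Fc
  V_total : ∀ f ∈ Fc, f ∈ V ∨ f⁻¹ ∈ V
  R_le_V : R ≤ V
  w_inv_not_mem_V : w⁻¹ ∉ V
  V_gen : ∀ f ∈ V, f⁻¹ ∉ V → f * w⁻¹ ∈ V
  x_mem_V : x ∈ V
  gauss : ∀ P : Polynomial Ω, (∀ i, P.coeff i ∈ R) → (∃ i, P.coeff i ≠ 0 ∧ (P.coeff i)⁻¹ ∈ R) →
    (P.eval x)⁻¹ ∈ V

/-- **G-QEP**: the `q`-expansion principle on both charts. -/
structure PartQep (Fc : Subfield Ω) (R V : Subring Ω) (w x : Ω) : Prop where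
  qep_fin : ∀ b ∈ chart Fc R x, b * w⁻¹ ∈ V → b * w⁻¹ ∈ chart Fc R x
  qep_inf : ∀ b ∈ chart Fc R x⁻¹, b * w⁻¹ ∈ V → b * w⁻¹ ∈ chart Fc R x⁻¹

/-- **G-SEP**: the residue field of `V` is separable over `κ(x̄)`. -/
structure PartSep (R V : Subring Ω) (w x : Ω) : Prop where
  separable : ∀ f ∈ V, ∃ P : Polynomial Ω, (∀ i, P.coeff i ∈ polyRing R x) ∧
    P.eval f * w⁻¹ ∈ V ∧ (Polynomial.derivative P).eval f ≠ 0 ∧
    ((Polynomial.derivative P).eval f)⁻¹ ∈ V

/-- **G-BR**: the branch values. -/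
structure PartBr (Lc : Subfield Ω) (R : Subring Ω) (x : Ω) (S : Finset Ω) : Prop where
  S_mem : ∀ s ∈ S, s ∈ R
  S_distinct : ∀ s ∈ S, ∀ t ∈ S, s ≠ t → (s - t)⁻¹ ∈ R
  S_unit : ∀ s ∈ S, s ≠ 0 → s⁻¹ ∈ R
  unramified : ∀ O : ValuationSubring Ω, (∀ a ∈ Lc, a ∈ O) → ∀ c ∈ Lc, c ∉ S →
    x - c ∈ O → (x - c)⁻¹ ∉ O → ∀ t ∈ O, t⁻¹ ∉ O → t * (x - c)⁻¹ ∈ O

/-- **Assembly**: the six parts give a `GoodModel`. -/
theorem goodModel_of_parts {Lc Ec Fc : Subfield Ω} {R V : Subring Ω} {w x : Ω} {S : Finset Ω}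
    (h0 : CharZero Ω) (hR : PartR Ec R w) (hF : PartFld Lc Ec Fc x) (hV : PartV Fc R V w x)
    (hQ : PartQep Fc R V w x) (hS : PartSep R V w x) (hB : PartBr Lc R x S) :
    GoodModel Lc Ec Fc R V w x S where
  charZero := h0
  R_le := hR.R_le
  R_total := hR.R_total
  w_mem := hR.w_mem
  w_ne_zero := hR.w_ne_zero
  w_inv_not_mem := hR.w_inv_not_mem
  w_gen := hR.w_gen
  w_discrete := hR.w_discrete
  residue_perfect := hR.residue_perfect
  E_le_L := hF.E_le_L
  E_le_F := hF.E_le_F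
  L_algebraic := hF.L_algebraic
  L_algClosed := hF.L_algClosed
  E_closed_in_F := hF.E_closed_in_F
  compositum := hF.compositum
  x_mem := hF.x_mem
  x_transcendental := hF.x_transcendental
  finite := hF.finite
  V_le := hV.V_le
  V_total := hV.V_total
  R_le_V := hV.R_le_V
  w_inv_not_mem_V := hV.w_inv_not_mem_V
  V_gen := hV.V_gen
  x_mem_V := hV.x_mem_V
  gauss := hV.gauss
  qep_fin := hQ.qep_fin
  qep_inf := hQ.qep_inf
  separable := hS.separable
  S_mem := hB.S_mem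
  S_distinct := hB.S_distinct
  S_unit := hB.S_unit
  unramified := hB.unramified

section Project

variable {Lc Ec Fc : Subfield Ω} {R V : Subring Ω} {w x : Ω} {S : Finset Ω}

theorem partR_of_goodModel (h : GoodModel Lc Ec Fc R V w x S) : PartR Ec R w :=
  ⟨h.R_le, h.R_total, h.w_mem, h.w_ne_zero, h.w_inv_not_mem, h.w_gen, h.w_discrete,
    h.residue_perfect⟩

theorem partFld_of_goodModel (h : GoodModel Lc Ec Fc R V w x S) : PartFld Lc Ec Fc x :=
  ⟨h.E_le_L, h.E_le_F, h.L_algebraic, h.L_algClosed, h.E_closed_in_F, h.compositum, h.x_mem,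
    h.x_transcendental, h.finite⟩

theorem partV_of_goodModel (h : GoodModel Lc Ec Fc R V w x S) : PartV Fc R V w x :=
  ⟨h.V_le, h.V_total, h.R_le_V, h.w_inv_not_mem_V, h.V_gen, h.x_mem_V, h.gauss⟩

theorem partQep_of_goodModel (h : GoodModel Lc Ec Fc R V w x S) : PartQep Fc R V w x :=
  ⟨h.qep_fin, h.qep_inf⟩

theorem partSep_of_goodModel (h : GoodModel Lc Ec Fc R V w x S) : PartSep R V w x :=
  ⟨h.separable⟩

theorem partBr_of_goodModel (h : GoodModel Lc Ec Fc R V w x S) : PartBr Lc R x S :=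
  ⟨h.S_mem, h.S_distinct, h.S_unit, h.unramified⟩

end Project

end Fermat.Agent.S18.Mod.H216

end
-- ===== PACK-END S18/Mod/H216/Parts.lean

-- ===== PACK-BEGIN S18/H203/TorsionFree.lean
section


/-!
# S18 / b1 (helper203): `B / w B` is torsion-free over `S / w S`

`S` an integrally closed domain, `w ∈ S` prime, `F / Frac S` a field extension, `B` the integral
closure of `S` in `F`.

* `dvd_of_dvd_smul` : `w ∣ t • b` in `B`, `w ∤ t` in `S`  ⟹  `w ∣ b` in `B`.
* `dvd_of_dvd_mul` : the same with `algebraMap S B t * b`.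
* `not_dvd_of_not_dvd` : if `w ∤ b` in `B` and `w ∤ t` in `S` then `w ∤ t • b`.
-/

set_option autoImplicit false

namespace Fermat.Agent.S18.H203

section

variable {S B : Type*} [CommRing S] [IsDomain S] [IsIntegrallyClosed S]
  [CommRing B] [Algebra S B]

/-- **b1, regular sequence.** In the integral closure `B` of `S`: if the prime element `w`
divides `t • b` and `w ∤ t` in `S`, then `w ∣ b` in `B`. -/
theorem dvd_of_dvd_smul (K F : Type*) [Field K] [Algebra S K] [IsFractionRing S K]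
    [Field F] [Algebra K F] [Algebra S F] [IsScalarTower S K F]
    [Algebra B F] [IsScalarTower S B F] [IsIntegralClosure B S F]
    {w t : S} (hw : Prime w) (ht : ¬ w ∣ t) {b : B}
    (h : algebraMap S B w ∣ t • b) : algebraMap S B w ∣ b := by
  obtain ⟨y, hy⟩ := h
  have hinjK : Function.Injective (algebraMap S K) := IsFractionRing.injective S K
  have hw0 : algebraMap S K w ≠ 0 := by
    simpa using (map_ne_zero_iff _ hinjK).mpr hw.ne_zero
  have hwF : algebraMap S F w ≠ 0 := by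
    rw [IsScalarTower.algebraMap_apply S K F]
    simpa using (map_ne_zero_iff _ (algebraMap K F).injective).mpr hw0
  set z : F := (algebraMap S F w)⁻¹ * algebraMap B F b with hz
  have h1 : algebraMap S F w * z = algebraMap B F b := by
    rw [hz, mul_inv_cancel_left₀ hwF]
  have h2 : algebraMap S F t * z = algebraMap B F y := by
    have e1 : algebraMap B F (t • b) = algebraMap S F t * algebraMap B F b := by
      rw [Algebra.smul_def, map_mul, ← IsScalarTower.algebraMap_apply]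
    have e2 : algebraMap B F (t • b) = algebraMap S F w * algebraMap B F y := by
      rw [hy, map_mul, ← IsScalarTower.algebraMap_apply]
    rw [hz]
    calc algebraMap S F t * ((algebraMap S F w)⁻¹ * algebraMap B F b)
        = (algebraMap S F w)⁻¹ * (algebraMap S F t * algebraMap B F b) := by ring
      _ = (algebraMap S F w)⁻¹ * (algebraMap S F w * algebraMap B F y) := by rw [← e1, e2]
      _ = algebraMap B F y := inv_mul_cancel_left₀ hwF _
  have hi1 : IsIntegral S (algebraMap S F w * z) := by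
    rw [h1]; exact (IsIntegralClosure.isIntegral S F b).algebraMap
  have hi2 : IsIntegral S (algebraMap S F t * z) := by
    rw [h2]; exact (IsIntegralClosure.isIntegral S F y).algebraMap
  have hzi : IsIntegral S z := isIntegral_of_isIntegral_mul K hw ht hi1 hi2
  obtain ⟨b', hb'⟩ := (IsIntegralClosure.isIntegral_iff (A := B)).mp hzi
  refine ⟨b', ?_⟩
  apply IsIntegralClosure.algebraMap_injective B S F
  rw [map_mul, hb', ← IsScalarTower.algebraMap_apply, h1]

/-- Multiplicative form of `dvd_of_dvd_smul`. -/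
theorem dvd_of_dvd_mul (K F : Type*) [Field K] [Algebra S K] [IsFractionRing S K]
    [Field F] [Algebra K F] [Algebra S F] [IsScalarTower S K F]
    [Algebra B F] [IsScalarTower S B F] [IsIntegralClosure B S F]
    {w t : S} (hw : Prime w) (ht : ¬ w ∣ t) {b : B}
    (h : algebraMap S B w ∣ algebraMap S B t * b) : algebraMap S B w ∣ b := by
  rw [← Algebra.smul_def] at h
  exact dvd_of_dvd_smul K F hw ht h

end

end Fermat.Agent.S18.H203

end
-- ===== PACK-END S18/H203/TorsionFree.lean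

-- ===== PACK-BEGIN S21/Basic.lean
section


/-!
# S21 — basic lemmas about `dz`, `mob`, `cd`
-/

set_option autoImplicit false

open UpperHalfPlane Filter Topology
open scoped MatrixGroups ContDiff

namespace Fermat.Agent.S21

theorem mob_coe (g : SL(2, ℤ)) (z : ℍ) : mob g (z : ℂ) = ((g • z : ℍ) : ℂ) := by
  simp [mob, ofComplex_apply]

theorem mob_mem_Uhp (g : SL(2, ℤ)) (z : ℂ) : mob g z ∈ Uhp :=
  (g • ofComplex z).im_pos

theorem ofComplex_coe_of_mem {z : ℂ} (hz : z ∈ Uhp) : ((ofComplex z : ℍ) : ℂ) = z := by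
  rw [ofComplex_apply_of_im_pos hz]

theorem mob_eq_div (g : SL(2, ℤ)) {z : ℂ} (hz : z ∈ Uhp) :
    mob g z = (((g 0 0 : ℤ) : ℂ) * z + ((g 0 1 : ℤ) : ℂ)) / cd g z := by
  have h := UpperHalfPlane.specialLinearGroup_apply g (ofComplex z)
  have h2 : ((g • ofComplex z : ℍ) : ℂ) = _ := congrArg UpperHalfPlane.coe h
  rw [mob, h2]
  simp [cd, ofComplex_coe_of_mem hz]

theorem cd_ne_zero (g : SL(2, ℤ)) {z : ℂ} (hz : z ∈ Uhp) : cd g z ≠ 0 := by
  have h := UpperHalfPlane.denom_ne_zero (Matrix.SpecialLinearGroup.toGL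
    ((Matrix.SpecialLinearGroup.map (Int.castRingHom ℝ)) g)) (⟨z, hz⟩ : ℍ)
  have h2 := ModularGroup.denom_apply g (⟨z, hz⟩ : ℍ)
  rw [h2] at h
  exact h

theorem continuousOn_cd (g : SL(2, ℤ)) (s : Set ℂ) : ContinuousOn (cd g) s := by
  unfold cd
  fun_prop

theorem continuous_cd (g : SL(2, ℤ)) : Continuous (cd g) := by
  unfold cd
  fun_prop

theorem continuousOn_mob (g : SL(2, ℤ)) : ContinuousOn (mob g) Uhp := by
  have : Set.EqOn (mob g)
      (fun z => (((g 0 0 : ℤ) : ℂ) * z + ((g 0 1 : ℤ) : ℂ)) / cd g z) Uhp :=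
    fun z hz => mob_eq_div g hz
  refine ContinuousOn.congr ?_ this
  refine ContinuousOn.div (by fun_prop) (continuousOn_cd g _) fun z hz => cd_ne_zero g hz

theorem mob_one (z : ℂ) (hz : z ∈ Uhp) : mob 1 z = z := by
  simp [mob, ofComplex_coe_of_mem hz]

theorem mob_mul (g h : SL(2, ℤ)) (z : ℂ) : mob (g * h) z = mob g (mob h z) := by
  simp only [mob, ofComplex_apply, mul_smul]

theorem continuousOn_dz {u : ℂ → ℝ} (hu : ContDiffOn ℝ 1 u Uhp) : ContinuousOn (dz u) Uhp := by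
  have h1 : ContinuousOn (fderiv ℝ u) Uhp := hu.continuousOn_fderiv_of_isOpen isOpen_Uhp le_rfl
  have h2 : ContinuousOn (fun z => fderiv ℝ u z 1) Uhp :=
    (ContinuousLinearMap.apply ℝ ℝ (1 : ℂ)).continuous.comp_continuousOn h1
  have h3 : ContinuousOn (fun z => fderiv ℝ u z Complex.I) Uhp :=
    (ContinuousLinearMap.apply ℝ ℝ Complex.I).continuous.comp_continuousOn h1
  unfold dz
  exact (Complex.continuous_ofReal.comp_continuousOn h2).sub
    (continuousOn_const.mul (Complex.continuous_ofReal.comp_continuousOn h3))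

theorem dz_add {u v : ℂ → ℝ} {z : ℂ} (hu : DifferentiableAt ℝ u z) (hv : DifferentiableAt ℝ v z) :
    dz (fun w => u w + v w) z = dz u z + dz v z := by
  unfold dz
  have : fderiv ℝ (fun w => u w + v w) z = fderiv ℝ u z + fderiv ℝ v z := fderiv_add hu hv
  rw [this]
  simp only [add_apply]
  push_cast
  ring

theorem dz_sub {u v : ℂ → ℝ} {z : ℂ} (hu : DifferentiableAt ℝ u z) (hv : DifferentiableAt ℝ v z) :
    dz (fun w => u w - v w) z = dz u z - dz v z := by
  unfold dz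
  have : fderiv ℝ (fun w => u w - v w) z = fderiv ℝ u z - fderiv ℝ v z := fderiv_sub hu hv
  rw [this]
  simp only [sub_apply]
  push_cast
  ring

theorem dz_congr {u v : ℂ → ℝ} {z : ℂ} (h : u =ᶠ[𝓝 z] v) : dz u z = dz v z := by
  unfold dz
  rw [h.fderiv_eq]

theorem dz_add_const (u : ℂ → ℝ) (c : ℝ) (z : ℂ) : dz (fun w => u w + c) z = dz u z := by
  unfold dz
  rw [fderiv_add_const]

/-- `dz` of the real part of a holomorphic function is its derivative. -/
theorem dz_re_of_hasDerivAt {Q : ℂ → ℂ} {q z : ℂ} (h : HasDerivAt Q q z) :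
    dz (fun w => (Q w).re) z = q := by
  have h1 : HasFDerivAt Q ((ContinuousLinearMap.smulRight (1 : ℂ →L[ℂ] ℂ) q).restrictScalars ℝ) z :=
    h.hasFDerivAt.restrictScalars ℝ
  have h2 : HasFDerivAt (fun w => (Q w).re)
      (Complex.reCLM.comp ((ContinuousLinearMap.smulRight (1 : ℂ →L[ℂ] ℂ) q).restrictScalars ℝ)) z :=
    Complex.reCLM.hasFDerivAt.comp z h1
  unfold dz
  rw [h2.fderiv]
  apply Complex.ext <;> simp

theorem norm_dz_sq (u : ℂ → ℝ) (z : ℂ) :
    ‖dz u z‖ ^ 2 = (fderiv ℝ u z 1) ^ 2 + (fderiv ℝ u z Complex.I) ^ 2 := by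
  rw [← Complex.normSq_eq_norm_sq, Complex.normSq_apply]
  simp [dz]
  ring

end Fermat.Agent.S21

end
-- ===== PACK-END S21/Basic.lean

-- ===== PACK-BEGIN S21/Cusp.lean
section


/-!
# S21 — piece `Cusp`

A holomorphic function on the upper half plane which is weight-2 invariant under `Γ₀(N)` and has
bounded energy in the cusp strips (for every `SL(2,ℤ)`-translate) is a cusp form.

Main steps (all in namespace `Fermat.Agent.S21.Cusp825`):
* `setIntegral_ball_eq_smul`: area mean value property of holomorphic functions (polar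
  coordinates + circle mean value property);
* `norm_sq_mul_le_setIntegral_ball`: area mean value inequality `‖g c‖² π r² ≤ ∫_{B(c,r)} ‖g‖²`;
* `exists_tail_le`: tails of a bounded increasing family of strip integrals are small;
* `exists_bound_of_energy`: uniform decay on the central strip `|Re z| ≤ 1/2`;
* `isZeroAtImInfty_slash`: every slash translate is zero at `i∞` (periodicity under `T ^ N`);
* `exists_cuspForm_of_zero`: packaging as a `CuspForm`.
-/

set_option autoImplicit false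

open ModularCurve UpperHalfPlane CongruenceSubgroup Filter Topology
open MeasureTheory Metric Set Real
open scoped MatrixGroups ComplexConjugate ContDiff ModularForm Manifold

namespace Fermat.Agent.S21

namespace Cusp825

/-- Integral of a function over `Ioo (-π) π` against the circle map, for a holomorphic function. -/
theorem integral_Ioo_circleMap {G : ℂ → ℂ} {c : ℂ} {ρ : ℝ}
    (hG : DiffContOnCl ℂ G (ball c |ρ|)) :
    ∫ θ in Ioo (-π) π, G (circleMap c ρ θ) = (2 * π) • G c := by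
  have h1 := hG.circleAverage
  rw [circleAverage_eq_integral_add (-π)] at h1
  have h2 : ∫ θ in (0:ℝ)..2 * π, G (circleMap c ρ (θ + -π))
      = ∫ θ in (-π)..π, G (circleMap c ρ θ) := by
    rw [intervalIntegral.integral_comp_add_right (fun θ => G (circleMap c ρ θ)) (-π)]
    congr 1 <;> ring
  rw [h2, intervalIntegral.integral_of_le (by linarith [pi_pos]), integral_Ioc_eq_integral_Ioo]
    at h1
  rw [← h1, smul_smul, mul_inv_cancel₀ (by positivity), one_smul]

theorem polarCoord_symm_eq_circleMap (p : ℝ × ℝ) :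
    Complex.polarCoord.symm p = circleMap 0 p.1 p.2 := by
  rw [Complex.polarCoord_symm_apply, circleMap, zero_add, Complex.exp_mul_I]
  push_cast
  ring

/-- Polar coordinates for the integral over a ball. -/
theorem setIntegral_ball_eq_polar (G : ℂ → ℂ) (c : ℂ) (r : ℝ) :
    ∫ z in ball c r, G z
      = ∫ p in Ioo (0:ℝ) r ×ˢ Ioo (-π) π, p.1 • G (circleMap c p.1 p.2) := by
  have h1 : ∫ z in ball c r, G z
      = ∫ w, (ball (0:ℂ) r).indicator (fun w => G (c + w)) w := by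
    rw [← integral_indicator measurableSet_ball,
      ← integral_add_left_eq_self (fun z => (ball c r).indicator G z) c]
    congr 1
    ext w
    by_cases hw : w ∈ ball (0:ℂ) r
    · have : c + w ∈ ball c r := by
        simpa [mem_ball, dist_eq_norm] using hw
      rw [indicator_of_mem hw, indicator_of_mem this]
    · have : c + w ∉ ball c r := by
        simpa [mem_ball, dist_eq_norm] using hw
      rw [indicator_of_notMem hw, indicator_of_notMem this]
  rw [h1, ← Complex.integral_comp_polarCoord_symm, polarCoord_target]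
  have h2 : ∀ p ∈ Ioi (0:ℝ) ×ˢ Ioo (-π) π,
      p.1 • (ball (0:ℂ) r).indicator (fun w => G (c + w)) (Complex.polarCoord.symm p)
        = (Iio r ×ˢ (univ : Set ℝ)).indicator
            (fun p : ℝ × ℝ => p.1 • G (circleMap c p.1 p.2)) p := by
    rintro ⟨ρ, θ⟩ ⟨hρ, -⟩
    have hρ' : (0:ℝ) < ρ := hρ
    have hnorm : ‖Complex.polarCoord.symm (ρ, θ)‖ = ρ := by
      rw [Complex.norm_polarCoord_symm]; exact abs_of_pos hρ'
    by_cases hlt : ρ < r
    · have hm : Complex.polarCoord.symm (ρ, θ) ∈ ball (0:ℂ) r := by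
        rw [mem_ball_zero_iff, hnorm]; exact hlt
      have hm' : (ρ, θ) ∈ Iio r ×ˢ (univ : Set ℝ) := ⟨hlt, mem_univ _⟩
      rw [indicator_of_mem hm, indicator_of_mem hm', polarCoord_symm_eq_circleMap]
      simp [circleMap]
    · have hm : Complex.polarCoord.symm (ρ, θ) ∉ ball (0:ℂ) r := by
        rw [mem_ball_zero_iff, hnorm]; exact hlt
      have hm' : (ρ, θ) ∉ Iio r ×ˢ (univ : Set ℝ) := fun h => hlt h.1
      rw [indicator_of_notMem hm, indicator_of_notMem hm', smul_zero]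
  rw [setIntegral_congr_fun (measurableSet_Ioi.prod measurableSet_Ioo) h2,
    setIntegral_indicator (measurableSet_Iio.prod MeasurableSet.univ)]
  congr 2
  ext ⟨ρ, θ⟩
  simp only [mem_inter_iff, mem_prod, mem_Ioi, mem_Ioo, mem_Iio, mem_univ, and_true]
  tauto

/-- **Area mean value property** for holomorphic functions. -/
theorem setIntegral_ball_eq_smul {G : ℂ → ℂ} {c : ℂ} {r : ℝ} (hr : 0 < r)
    (hG : DiffContOnCl ℂ G (ball c r)) :
    ∫ z in ball c r, G z = (π * r ^ 2) • G c := by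
  rw [setIntegral_ball_eq_polar]
  have hcont : ContinuousOn (fun p : ℝ × ℝ => p.1 • G (circleMap c p.1 p.2))
      (Icc (0:ℝ) r ×ˢ Icc (-π) π) := by
    have hGc : ContinuousOn G (closedBall c r) := by
      have := hG.continuousOn
      rwa [closure_ball c hr.ne'] at this
    have hmap : MapsTo (fun p : ℝ × ℝ => circleMap c p.1 p.2)
        (Icc (0:ℝ) r ×ˢ Icc (-π) π) (closedBall c r) := by
      rintro ⟨ρ, θ⟩ ⟨⟨hρ0, hρr⟩, -⟩
      simp only [mem_closedBall, dist_eq_norm, circleMap, add_sub_cancel_left, norm_mul,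
        Complex.norm_real, Real.norm_eq_abs, Complex.norm_exp_ofReal_mul_I, mul_one]
      rw [abs_of_nonneg hρ0]; exact hρr
    have hcm : Continuous (fun p : ℝ × ℝ => circleMap c p.1 p.2) := by
      unfold circleMap
      fun_prop
    exact ContinuousOn.smul continuous_fst.continuousOn (hGc.comp hcm.continuousOn hmap)
  have hint : IntegrableOn (fun p : ℝ × ℝ => p.1 • G (circleMap c p.1 p.2))
      (Ioo (0:ℝ) r ×ˢ Ioo (-π) π) (volume.prod volume) := by
    have : IntegrableOn (fun p : ℝ × ℝ => p.1 • G (circleMap c p.1 p.2))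
        (Icc (0:ℝ) r ×ˢ Icc (-π) π) (volume.prod volume) :=
      hcont.integrableOn_compact (isCompact_Icc.prod isCompact_Icc)
    exact this.mono_set (prod_mono Ioo_subset_Icc_self Ioo_subset_Icc_self)
  rw [Measure.volume_eq_prod, setIntegral_prod _ hint]
  have hinner : ∀ ρ ∈ Ioo (0:ℝ) r,
      ∫ θ in Ioo (-π) π, ρ • G (circleMap c ρ θ) = ρ • ((2 * π) • G c) := by
    intro ρ hρ
    rw [integral_smul]
    congr 1
    apply integral_Ioo_circleMap
    rw [abs_of_pos hρ.1]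
    exact hG.mono (ball_subset_ball hρ.2.le)
  rw [setIntegral_congr_fun measurableSet_Ioo hinner, integral_smul_const]
  have hρint : ∫ ρ in Ioo (0:ℝ) r, ρ = r ^ 2 / 2 := by
    rw [← integral_Ioc_eq_integral_Ioo, ← intervalIntegral.integral_of_le hr.le, integral_id]
    ring
  rw [hρint, smul_smul]
  congr 1
  ring

/-- **Area mean value inequality**. -/
theorem norm_sq_mul_le_setIntegral_ball {g : ℂ → ℂ} {c : ℂ} {r : ℝ} (hr : 0 < r)
    (hg : DiffContOnCl ℂ g (ball c r)) :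
    ‖g c‖ ^ 2 * (π * r ^ 2) ≤ ∫ z in ball c r, ‖g z‖ ^ 2 := by
  have hg2 : DiffContOnCl ℂ (fun z => (g z) ^ 2) (ball c r) :=
    ⟨hg.differentiableOn.pow 2, hg.continuousOn.pow 2⟩
  have h1 := setIntegral_ball_eq_smul hr hg2
  have h2 : ‖∫ z in ball c r, (g z) ^ 2‖ ≤ ∫ z in ball c r, ‖(g z) ^ 2‖ :=
    norm_integral_le_integral_norm _
  have h3 : ‖(π * r ^ 2) • (g c) ^ 2‖ = ‖g c‖ ^ 2 * (π * r ^ 2) := by
    rw [norm_smul, norm_pow, Real.norm_eq_abs, abs_of_nonneg (by positivity)]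
    ring
  have h1' : ∫ z in ball c r, (g z) ^ 2 = (π * r ^ 2) • (g c) ^ 2 := h1
  rw [h1', h3] at h2
  simpa [norm_pow] using h2

theorem strip_eq (Y : ℝ) : strip Y = Icc (-1 : ℝ) 1 ×ℂ Icc (2 : ℝ) Y := by
  ext z
  simp only [strip, mem_ofPred_eq, Complex.mem_reProdIm, mem_Icc, abs_le]

theorem isCompact_strip (Y : ℝ) : IsCompact (strip Y) := by
  rw [strip_eq]
  exact isCompact_Icc.reProdIm isCompact_Icc

theorem measurableSet_strip (Y : ℝ) : MeasurableSet (strip Y) :=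
  (_root_.Fermat.Agent.S21.Cusp825.isCompact_strip Y).isClosed.measurableSet

theorem strip_subset_Uhp (Y : ℝ) : strip Y ⊆ Uhp := by
  intro z hz
  have : (2:ℝ) ≤ z.im := hz.2.1
  exact lt_of_lt_of_le two_pos this

theorem strip_mono {Y₁ Y₂ : ℝ} (h : Y₁ ≤ Y₂) : strip Y₁ ⊆ strip Y₂ :=
  fun _ hz => ⟨hz.1, hz.2.1, hz.2.2.trans h⟩

/-- Tail estimate for a nonnegative function with bounded integrals over the strips. -/
theorem exists_tail_le (u : ℂ → ℝ) (hu : ContinuousOn u Uhp)     (hE : ∃ C : ℝ, ∀ Y : ℝ, ∫ z in strip Y, u z ≤ C) {ε : ℝ} (hε : 0 < ε) :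
    ∃ Y₀ : ℝ, ∀ Y : ℝ, ∫ z in strip Y \ strip Y₀, u z ≤ ε := by
  obtain ⟨C, hC⟩ := hE
  have hint : ∀ Y, IntegrableOn u (strip Y) := fun Y =>
    (hu.mono (_root_.Fermat.Agent.S21.Cusp825.strip_subset_Uhp Y)).integrableOn_compact (_root_.Fermat.Agent.S21.Cusp825.isCompact_strip Y)
  set E : ℝ → ℝ := fun Y => ∫ z in strip Y, u z with hEdef
  have hbdd : BddAbove (range E) := ⟨C, by rintro _ ⟨Y, rfl⟩; exact hC Y⟩
  have hlt : sSup (range E) - ε < sSup (range E) := by linarith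
  obtain ⟨_, ⟨Y₀, rfl⟩, hY₀⟩ := exists_lt_of_lt_csSup (range_nonempty E) hlt
  refine ⟨Y₀, fun Y => ?_⟩
  rcases le_total Y Y₀ with h | h
  · have : strip Y \ strip Y₀ = ∅ := sdiff_eq_empty.mpr (strip_mono h)
    rw [this]
    simpa using hε.le
  · rw [setIntegral_sdiff (measurableSet_strip Y₀) (hint Y) (strip_mono h)]
    have h1 : E Y ≤ sSup (range E) := le_csSup hbdd ⟨Y, rfl⟩
    have h1' : ∫ z in strip Y, u z ≤ sSup (range E) := h1
    have h2 : sSup (range E) - ε < ∫ z in strip Y₀, u z := hY₀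
    linarith

/-- Decay on the central strip for a holomorphic function with bounded energy on strips. -/
theorem exists_bound_of_energy (H : ℂ → ℂ) (hH : DifferentiableOn ℂ H Uhp)
    (hE : ∃ C : ℝ, ∀ Y : ℝ, ∫ z in strip Y, ‖H z‖ ^ 2 ≤ C) {ε : ℝ} (hε : 0 < ε) :
    ∃ A : ℝ, ∀ z : ℂ, |z.re| ≤ 1 / 2 → A ≤ z.im → ‖H z‖ ≤ ε := by
  have hcont : ContinuousOn (fun z => ‖H z‖ ^ 2) Uhp := (hH.continuousOn.norm).pow 2
  have hε' : 0 < ε ^ 2 * (π * (1 / 2) ^ 2) := by positivity
  obtain ⟨Y₀, hY₀⟩ := exists_tail_le (fun z => ‖H z‖ ^ 2) hcont hE hε'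
  refine ⟨max Y₀ 2 + 1, fun z hzre hzim => ?_⟩
  have hY₀z : Y₀ + 1 ≤ z.im := le_trans (by gcongr; exact le_max_left _ _) hzim
  have h1z : 3 ≤ z.im := le_trans (by linarith [le_max_right Y₀ 2]) hzim
  -- the ball is inside the region
  have hsub : ball z (1 / 2) ⊆ strip (z.im + 1) \ strip Y₀ := by
    intro w hw
    rw [mem_ball, dist_eq_norm] at hw
    have hre : |w.re - z.re| ≤ ‖w - z‖ := by
      simpa using Complex.abs_re_le_norm (w - z)
    have him : |w.im - z.im| ≤ ‖w - z‖ := by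
      simpa using Complex.abs_im_le_norm (w - z)
    have hre' := abs_le.mp (hre.trans hw.le)
    have him' := abs_le.mp (him.trans hw.le)
    have hzre' := abs_le.mp hzre
    refine ⟨⟨abs_le.mpr ⟨by linarith, by linarith⟩, by linarith, by linarith⟩, ?_⟩
    intro hw0
    have : w.im ≤ Y₀ := hw0.2.2
    linarith
  have hcl : closedBall z (1 / 2) ⊆ Uhp := by
    intro w hw
    rw [mem_closedBall, dist_eq_norm] at hw
    have him : |w.im - z.im| ≤ ‖w - z‖ := by
      simpa using Complex.abs_im_le_norm (w - z)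
    have him' := abs_le.mp (him.trans hw)
    show 0 < w.im
    linarith
  have hD : DiffContOnCl ℂ H (ball z (1 / 2)) := hH.diffContOnCl_ball hcl
  have hmv := norm_sq_mul_le_setIntegral_ball (by norm_num : (0:ℝ) < 1 / 2) hD
  have hint : IntegrableOn (fun z => ‖H z‖ ^ 2) (strip (z.im + 1) \ strip Y₀) :=
    ((hcont.mono (_root_.Fermat.Agent.S21.Cusp825.strip_subset_Uhp _)).integrableOn_compact (_root_.Fermat.Agent.S21.Cusp825.isCompact_strip _)).mono_set
      sdiff_subset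
  have hmono : ∫ w in ball z (1 / 2), ‖H w‖ ^ 2 ≤ ∫ w in strip (z.im + 1) \ strip Y₀, ‖H w‖ ^ 2 :=
    setIntegral_mono_set hint (Eventually.of_forall fun w => by positivity)
      (Eventually.of_forall hsub)
  have hfin : ‖H z‖ ^ 2 * (π * (1 / 2) ^ 2) ≤ ε ^ 2 * (π * (1 / 2) ^ 2) :=
    hmv.trans (hmono.trans (hY₀ _))
  have hsq : ‖H z‖ ^ 2 ≤ ε ^ 2 := le_of_mul_le_mul_right hfin (by positivity)
  exact (pow_le_pow_iff_left₀ (norm_nonneg _) hε.le (by norm_num)).mp hsq

/-- The function on `ℍ` attached to `f`. -/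
noncomputable def toH (f : ℂ → ℂ) : ℍ → ℂ := fun z => f (z : ℂ)

theorem toH_mdiff (f : ℂ → ℂ) (hf : DifferentiableOn ℂ f Uhp) : MDiff (toH f) := by
  rw [UpperHalfPlane.mdifferentiable_iff]
  refine hf.congr ?_
  intro z hz
  simp [toH, Function.comp, ofComplex_apply_of_im_pos hz]

theorem cd_eq_denom (g : SL(2, ℤ)) (z : ℍ) : cd g z = denom g z := by
  simp [cd, denom]

theorem toH_slash_of_mem (N : ℕ) (f : ℂ → ℂ)
    (hinv : ∀ (γ : Gamma0 N) (z : ℍ),
      f ↑((γ : SL(2, ℤ)) • z) = (cd (γ : SL(2, ℤ)) z) ^ 2 * f ↑z)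
    (γ : SL(2, ℤ)) (hγ : γ ∈ Gamma0 N) : (toH f) ∣[(2:ℤ)] γ = toH f := by
  ext z
  rw [ModularForm.SL_slash_apply]
  have h := hinv ⟨γ, hγ⟩ z
  simp only [toH] at h ⊢
  rw [h, cd_eq_denom]
  have hne : denom γ z ≠ 0 := denom_ne_zero _ z
  field_simp

/-- The slashed function as a function on `ℂ`. -/
noncomputable def Hc (f : ℂ → ℂ) (γ : SL(2, ℤ)) : ℂ → ℂ :=
  fun z => ((toH f) ∣[(2:ℤ)] γ) (ofComplex z)

theorem Hc_differentiableOn (f : ℂ → ℂ) (hf : DifferentiableOn ℂ f Uhp) (γ : SL(2, ℤ)) :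
    DifferentiableOn ℂ (Hc f γ) Uhp := by
  have h := (toH_mdiff f hf).slash 2 (γ : GL (Fin 2) ℝ)
  rw [UpperHalfPlane.mdifferentiable_iff] at h
  exact h

theorem norm_Hc_sq (f : ℂ → ℂ) (γ : SL(2, ℤ)) (z : ℂ) (hz : z ∈ Uhp) :
    ‖Hc f γ z‖ ^ 2 = ‖f (mob γ z)‖ ^ 2 / ‖cd γ z‖ ^ 4 := by
  have hz' : 0 < z.im := hz
  have hd : denom γ (ofComplex z) = cd γ z := by
    simp [cd, denom, ofComplex_apply_of_im_pos hz']
  simp only [Hc, mob]
  rw [ModularForm.SL_slash_apply, hd, norm_mul, mul_pow, norm_zpow, div_eq_mul_inv]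
  congr 1
  rw [← zpow_natCast, ← zpow_mul, ← zpow_natCast, ← zpow_neg]
  norm_num

theorem energy_Hc (f : ℂ → ℂ)
    (hE : ∀ δ : SL(2, ℤ), ∃ C : ℝ, ∀ Y : ℝ,
      ∫ z in strip Y, ‖f (mob δ z)‖ ^ 2 / ‖cd δ z‖ ^ 4 ≤ C) (γ : SL(2, ℤ)) :
    ∃ C : ℝ, ∀ Y : ℝ, ∫ z in strip Y, ‖Hc f γ z‖ ^ 2 ≤ C := by
  obtain ⟨C, hC⟩ := hE γ
  refine ⟨C, fun Y => ?_⟩
  rw [setIntegral_congr_fun (measurableSet_strip Y)
    (fun z hz => norm_Hc_sq f γ z (_root_.Fermat.Agent.S21.Cusp825.strip_subset_Uhp Y hz))]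
  exact hC Y

theorem slash_apply_eq_Hc (f : ℂ → ℂ) (δ : SL(2, ℤ)) (n : ℤ) (z : ℍ) :
    ((toH f) ∣[(2:ℤ)] δ) z = Hc f (δ * ModularGroup.T ^ n) ((z : ℂ) - n) := by
  have him : 0 < ((z : ℂ) - n).im := by simpa using z.im_pos
  set w : ℍ := ofComplex ((z : ℂ) - n) with hw
  have hwc : (w : ℂ) = (z : ℂ) - n := by
    rw [hw, ofComplex_apply_of_im_pos him]
  have hTw : ModularGroup.T ^ n • w = z := by
    ext1
    rw [ModularGroup.coe_T_zpow_smul_eq, hwc]
    ring
  have hden : denom (ModularGroup.T ^ n : SL(2, ℤ)) w = 1 := by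
    rw [← cd_eq_denom]
    simp [cd, ModularGroup.coe_T_zpow]
  have key : ((toH f) ∣[(2:ℤ)] (δ * ModularGroup.T ^ n)) w = ((toH f) ∣[(2:ℤ)] δ) z := by
    rw [SlashAction.slash_mul, ModularForm.SL_slash_apply, hTw, hden]
    simp
  exact key.symm

theorem conj_T_zpow_mem_Gamma0 (N : ℕ) (δ : SL(2, ℤ)) (k : ℤ) :
    δ * ModularGroup.T ^ ((N : ℤ) * k) * δ⁻¹ ∈ Gamma0 N := by
  have h1 : ModularGroup.T ^ ((N : ℤ) * k) ∈ CongruenceSubgroup.Gamma N := by
    simpa using ModularGroup_T_pow_mem_Gamma (N : ℤ) ((N : ℤ) * k) (dvd_mul_right _ _)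
  have h2 : δ * ModularGroup.T ^ ((N : ℤ) * k) * δ⁻¹ ∈ CongruenceSubgroup.Gamma N :=
    (Gamma_normal N).conj_mem _ h1 δ
  rw [Gamma_mem] at h2
  rw [Gamma0_mem]
  exact h2.2.2.1

theorem slash_mul_T_zpow (N : ℕ) (f : ℂ → ℂ)
    (hinv : ∀ (γ : Gamma0 N) (z : ℍ),
      f ↑((γ : SL(2, ℤ)) • z) = (cd (γ : SL(2, ℤ)) z) ^ 2 * f ↑z)
    (δ : SL(2, ℤ)) (k m : ℤ) :
    (toH f) ∣[(2:ℤ)] (δ * ModularGroup.T ^ ((N : ℤ) * k + m))
      = (toH f) ∣[(2:ℤ)] (δ * ModularGroup.T ^ m) := by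
  have h : δ * ModularGroup.T ^ ((N : ℤ) * k + m)
      = (δ * ModularGroup.T ^ ((N : ℤ) * k) * δ⁻¹) * (δ * ModularGroup.T ^ m) := by
    rw [zpow_add]
    group
  rw [h, SlashAction.slash_mul, toH_slash_of_mem N f hinv _ (conj_T_zpow_mem_Gamma0 N δ k)]

theorem isZeroAtImInfty_slash (N : ℕ) [NeZero N] (f : ℂ → ℂ)
    (hf : DifferentiableOn ℂ f Uhp)
    (hinv : ∀ (γ : Gamma0 N) (z : ℍ),
      f ↑((γ : SL(2, ℤ)) • z) = (cd (γ : SL(2, ℤ)) z) ^ 2 * f ↑z)
    (hE : ∀ δ : SL(2, ℤ), ∃ C : ℝ, ∀ Y : ℝ,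
      ∫ z in strip Y, ‖f (mob δ z)‖ ^ 2 / ‖cd δ z‖ ^ 4 ≤ C)
    (δ : SL(2, ℤ)) : IsZeroAtImInfty ((toH f) ∣[(2:ℤ)] δ) := by
  rw [isZeroAtImInfty_iff]
  intro ε hε
  have hb : ∀ m : ℕ, ∃ A : ℝ, ∀ z : ℂ, |z.re| ≤ 1 / 2 → A ≤ z.im →
      ‖Hc f (δ * ModularGroup.T ^ (m : ℤ)) z‖ ≤ ε := fun m =>
    exists_bound_of_energy _ (Hc_differentiableOn f hf _) (energy_Hc f hE _) hε
  choose A hA using hb
  obtain ⟨B, hB⟩ : ∃ B : ℝ, ∀ m ∈ Finset.range N, A m ≤ B := by
    obtain ⟨B, hB⟩ := ((Finset.range N).image A).bddAbove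
    exact ⟨B, fun m hm => hB (Finset.mem_image_of_mem A hm)⟩
  refine ⟨B, fun z hz => ?_⟩
  set n : ℤ := round z.re with hn
  have hNpos : (0 : ℤ) < (N : ℤ) := by exact_mod_cast Nat.pos_of_ne_zero (NeZero.ne N)
  have hmod0 : 0 ≤ n % (N : ℤ) := Int.emod_nonneg _ hNpos.ne'
  have hmodlt : n % (N : ℤ) < N := Int.emod_lt_of_pos _ hNpos
  set m : ℕ := (n % (N : ℤ)).toNat with hm
  have hmcast : (m : ℤ) = n % (N : ℤ) := Int.toNat_of_nonneg hmod0
  have hmN : m ∈ Finset.range N := by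
    rw [Finset.mem_range]
    have : (m : ℤ) < N := by rw [hmcast]; exact hmodlt
    exact_mod_cast this
  have hdecomp : n = (N : ℤ) * (n / (N : ℤ)) + (m : ℤ) := by
    rw [hmcast]; exact (Int.mul_ediv_add_emod n N).symm
  rw [slash_apply_eq_Hc f δ n z]
  have hslash := slash_mul_T_zpow N f hinv δ (n / (N : ℤ)) (m : ℤ)
  rw [← hdecomp] at hslash
  have hHc : Hc f (δ * ModularGroup.T ^ n) = Hc f (δ * ModularGroup.T ^ (m : ℤ)) := by
    funext w
    simp only [Hc, hslash]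
  rw [hHc]
  apply hA m
  · have : ((z : ℂ) - (n : ℂ)).re = z.re - n := by simp
    rw [this, hn]
    exact (abs_sub_round z.re)
  · have : ((z : ℂ) - (n : ℂ)).im = z.im := by simp
    rw [this]
    exact (hB m hmN).trans hz

theorem exists_cuspForm_of_zero (N : ℕ) [NeZero N] (f : ℂ → ℂ)
    (hf : DifferentiableOn ℂ f Uhp)
    (hinv : ∀ (γ : Gamma0 N) (z : ℍ),
      f ↑((γ : SL(2, ℤ)) • z) = (cd (γ : SL(2, ℤ)) z) ^ 2 * f ↑z)
    (hzero : ∀ δ : SL(2, ℤ), IsZeroAtImInfty ((toH f) ∣[(2:ℤ)] δ)) :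
    ∃ F : CuspForm (Gamma0 N) 2, ∀ z : ℍ, F z = f ↑z := by
  refine ⟨{ toFun := toH f
            slash_action_eq' := ?_
            holo' := toH_mdiff f hf
            zero_at_cusps' := ?_ }, fun z => rfl⟩
  · intro γ hγ
    obtain ⟨γ₀, hγ₀, rfl⟩ := Subgroup.mem_map.mp hγ
    exact toH_slash_of_mem N f hinv γ₀ hγ₀
  · intro c hc
    have hc' : IsCusp c 𝒮ℒ :=
      (Subgroup.IsArithmetic.isCusp_iff_isCusp_SL2Z _).mp hc
    rw [OnePoint.isZeroAt_iff_forall_SL2Z hc']
    intro γ _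
    exact hzero γ

end Cusp825

/-- **Cusp**: a holomorphic weight-2 invariant function with bounded energy in the cusp strips
is a cusp form. -/
theorem exists_cuspForm_of_energy (N : ℕ) [NeZero N] (f : ℂ → ℂ)
    (hf : DifferentiableOn ℂ f Uhp)
    (hinv : ∀ (γ : Gamma0 N) (z : ℍ),
      f ↑((γ : SL(2, ℤ)) • z) = (cd (γ : SL(2, ℤ)) z) ^ 2 * f ↑z)
    (hE : ∀ δ : SL(2, ℤ), ∃ C : ℝ, ∀ Y : ℝ,
      ∫ z in strip Y, ‖f (mob δ z)‖ ^ 2 / ‖cd δ z‖ ^ 4 ≤ C) :
    ∃ F : CuspForm (Gamma0 N) 2, ∀ z : ℍ, F z = f ↑z :=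
  Cusp825.exists_cuspForm_of_zero N f hf hinv
    (Cusp825.isZeroAtImInfty_slash N f hf hinv hE)

end Fermat.Agent.S21

end
-- ===== PACK-END S21/Cusp.lean

-- ===== PACK-BEGIN S21/Partition.lean
section


/-!
# S21 / MS-A — a smooth `SL(2,ℤ)`-partition of unity on the upper half plane

Main results:
* `Fermat.Agent.S21.finite_mob_inter` (G1): proper discontinuity in terms of `mob`.
* `Fermat.Agent.S21.c_eq_zero_of_two_le_im` (G2).
* `Fermat.Agent.S21.exists_partition_SL2Z`.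

All auxiliary lemmas live in the namespace `Fermat.Agent.S21.PartitionAux`
(`mob_mob`, `mob_im`, `mob_eq_div`, `mob_contDiffAt`, `mob_im_le_max`, `psiFn`, `PsiSum`,
`chiOne` and its properties).
-/

set_option autoImplicit false

open UpperHalfPlane Matrix
open scoped MatrixGroups ContDiff

namespace Fermat.Agent.S21.PartitionAux

/-! ### Basic facts about `mob` -/

theorem mob_coe (g : SL(2, ℤ)) (w : ℍ) : mob g (w : ℂ) = ((g • w : ℍ) : ℂ) := by
  simp [mob]

theorem mob_of_mem {z : ℂ} (hz : z ∈ Uhp) (g : SL(2, ℤ)) :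
    mob g z = ((g • (⟨z, hz⟩ : ℍ) : ℍ) : ℂ) := by
  simp [mob, ofComplex_apply_of_im_pos hz]

theorem mob_mem_Uhp (g : SL(2, ℤ)) (z : ℂ) : mob g z ∈ Uhp := coe_mem_Uhp _

theorem mob_mob (g h : SL(2, ℤ)) (z : ℂ) : mob g (mob h z) = mob (g * h) z := by
  simp [mob, mul_smul]

theorem mob_one {z : ℂ} (hz : z ∈ Uhp) : mob 1 z = z := by
  simp [mob_of_mem hz]

theorem mob_im (g : SL(2, ℤ)) {z : ℂ} (hz : z ∈ Uhp) :
    (mob g z).im = z.im / Complex.normSq (cd g z) := by
  rw [mob_of_mem hz]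
  have h := ModularGroup.im_smul_eq_div_normSq g (⟨z, hz⟩ : ℍ)
  rw [ModularGroup.denom_apply] at h
  exact h

theorem mob_eq_div (g : SL(2, ℤ)) {z : ℂ} (hz : z ∈ Uhp) :
    mob g z = (((g 0 0 : ℤ) : ℂ) * z + ((g 0 1 : ℤ) : ℂ)) / cd g z := by
  rw [mob_of_mem hz, coe_specialLinearGroup_apply]
  simp [cd]

theorem cd_ne_zero (g : SL(2, ℤ)) {z : ℂ} (hz : z ∈ Uhp) : cd g z ≠ 0 := by
  have h := UpperHalfPlane.denom_ne_zero g (⟨z, hz⟩ : ℍ)
  rw [ModularGroup.denom_apply] at h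
  exact h

/-! ### Bounds on the imaginary part -/

theorem normSq_cd (g : SL(2, ℤ)) (z : ℂ) :
    Complex.normSq (cd g z) =
      ((g 1 0 : ℤ) * z.re + (g 1 1 : ℤ)) ^ 2 + ((g 1 0 : ℤ) * z.im) ^ 2 := by
  simp [cd, Complex.normSq_apply]
  ring

theorem sq_im_le_normSq_cd (g : SL(2, ℤ)) (z : ℂ) (hc : g 1 0 ≠ 0) :
    z.im ^ 2 ≤ Complex.normSq (cd g z) := by
  rw [normSq_cd]
  have h1 : (1 : ℝ) ≤ ((g 1 0 : ℤ) : ℝ) ^ 2 := by
    have : (1 : ℤ) ≤ (g 1 0) ^ 2 := by
      have := sq_pos_of_ne_zero hc  -- 0 < c^2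
      omega
    exact_mod_cast this
  have h2 : 0 ≤ (((g 1 0 : ℤ) : ℝ) * z.re + ((g 1 1 : ℤ) : ℝ)) ^ 2 := sq_nonneg _
  have h3 : 0 ≤ z.im ^ 2 := sq_nonneg _
  nlinarith

theorem one_le_normSq_cd (g : SL(2, ℤ)) (z : ℂ) (hc : g 1 0 = 0) :
    1 ≤ Complex.normSq (cd g z) := by
  rw [normSq_cd, hc]
  have hd : g 1 1 ≠ 0 := by
    intro hd
    have hdet := g.det_coe
    rw [Matrix.det_fin_two, hc, hd] at hdet
    simp at hdet
  have h1 : (1 : ℝ) ≤ ((g 1 1 : ℤ) : ℝ) ^ 2 := by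
    have : (1 : ℤ) ≤ (g 1 1) ^ 2 := by
      have := sq_pos_of_ne_zero hd
      omega
    exact_mod_cast this
  simpa using h1

theorem mob_im_le_inv (g : SL(2, ℤ)) {z : ℂ} (hz : z ∈ Uhp) (hc : g 1 0 ≠ 0) :
    (mob g z).im ≤ 1 / z.im := by
  have hz' : 0 < z.im := hz
  rw [mob_im g hz]
  have h := sq_im_le_normSq_cd g z hc
  have hpos : 0 < Complex.normSq (cd g z) := lt_of_lt_of_le (by positivity) h
  rw [div_le_div_iff₀ hpos hz']
  nlinarith

theorem mob_im_le_self (g : SL(2, ℤ)) {z : ℂ} (hz : z ∈ Uhp) (hc : g 1 0 = 0) :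
    (mob g z).im ≤ z.im := by
  have hz' : 0 < z.im := hz
  rw [mob_im g hz]
  have h := one_le_normSq_cd g z hc
  exact div_le_self hz'.le h

theorem mob_im_le_max (g : SL(2, ℤ)) {z : ℂ} (hz : z ∈ Uhp) :
    (mob g z).im ≤ max z.im (1 / z.im) := by
  by_cases hc : g 1 0 = 0
  · exact (mob_im_le_self g hz hc).trans (le_max_left _ _)
  · exact (mob_im_le_inv g hz hc).trans (le_max_right _ _)

end Fermat.Agent.S21.PartitionAux

namespace Fermat.Agent.S21

open PartitionAux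

/-- (G2) If `Im z ≥ 2` and `Im (g z) > 1/2` then the lower-left entry of `g` vanishes. -/
theorem c_eq_zero_of_two_le_im (g : SL(2, ℤ)) (z : ℂ) (hz : 2 ≤ z.im)
    (hg : 1 / 2 < (mob g z).im) : g 1 0 = 0 := by
  by_contra hc
  have hzU : z ∈ Uhp := lt_of_lt_of_le (by norm_num) hz
  have h1 := mob_im_le_inv g hzU hc
  have h2 : 1 / z.im ≤ 1 / 2 := by
    apply one_div_le_one_div_of_le (by norm_num) hz
  linarith

/-! ### Proper discontinuity -/

/-- (G1) Proper discontinuity of the action of `SL(2,ℤ)` in terms of `mob`. -/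
theorem finite_mob_inter (K : Set ℂ) (hK : IsCompact K) (hKU : K ⊆ Uhp) :
    {g : SL(2, ℤ) | ∃ z ∈ K, mob g z ∈ K}.Finite := by
  set K' : Set ℍ := (fun w : ℍ => (w : ℂ)) ⁻¹' K with hK'
  have hK'c : IsCompact K' :=
    UpperHalfPlane.isEmbedding_coe.isInducing.isCompact_preimage' hK
      (fun z hz => ⟨⟨z, hKU hz⟩, rfl⟩)
  have hpd := (Subgroup.properlyDiscontinuousSMul_iff (α := ℍ) 𝒮ℒ).mp inferInstance hK'c hK'c
  refine (hpd.preimage (f := SpecialLinearGroup.mapGL ℝ)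
    (SpecialLinearGroup.mapGL_injective.injOn)).subset ?_
  rintro g ⟨z, hz, hgz⟩
  refine ⟨⟨g, rfl⟩, ?_⟩
  refine ⟨g • (⟨z, hKU hz⟩ : ℍ), ⟨⟨z, hKU hz⟩, hz, rfl⟩, ?_⟩
  show ((g • (⟨z, hKU hz⟩ : ℍ) : ℍ) : ℂ) ∈ K
  rw [← mob_of_mem (hKU hz)]
  exact hgz

end Fermat.Agent.S21

namespace Fermat.Agent.S21.PartitionAux

/-! ### The bump function `ψ` -/

/-- A smooth bump in the real direction: `= 1` on `[-1/2, 1/2]`, support in `(-1, 1)`. -/
noncomputable def betaFn (x : ℝ) : ℝ :=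
  Real.smoothTransition (2 * (1 - x)) * Real.smoothTransition (2 * (1 + x))

/-- The bump `ψ(z) = β(Re z) θ(Im z)` with `θ(y) = smoothTransition (y - 1/2)`. -/
noncomputable def psiFn (z : ℂ) : ℝ :=
  betaFn z.re * Real.smoothTransition (z.im - 1 / 2)

theorem betaFn_nonneg (x : ℝ) : 0 ≤ betaFn x :=
  mul_nonneg (Real.smoothTransition.nonneg _) (Real.smoothTransition.nonneg _)

theorem psiFn_nonneg (z : ℂ) : 0 ≤ psiFn z :=
  mul_nonneg (betaFn_nonneg _) (Real.smoothTransition.nonneg _)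

theorem betaFn_contDiff : ContDiff ℝ ∞ betaFn := by
  unfold betaFn
  exact (Real.smoothTransition.contDiff.comp (contDiff_const.mul (contDiff_const.sub contDiff_id))).mul
    (Real.smoothTransition.contDiff.comp (contDiff_const.mul (contDiff_const.add contDiff_id)))

theorem psiFn_contDiff : ContDiff ℝ ∞ psiFn := by
  unfold psiFn
  exact (betaFn_contDiff.comp Complex.reCLM.contDiff).mul
    (Real.smoothTransition.contDiff.comp (Complex.imCLM.contDiff.sub contDiff_const))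

theorem psiFn_ne_zero {z : ℂ} (h : psiFn z ≠ 0) : |z.re| < 1 ∧ 1 / 2 < z.im := by
  unfold psiFn betaFn at h
  have h1 : Real.smoothTransition (2 * (1 - z.re)) ≠ 0 := fun h0 => h (by rw [h0]; ring)
  have h2 : Real.smoothTransition (2 * (1 + z.re)) ≠ 0 := fun h0 => h (by rw [h0]; ring)
  have h3 : Real.smoothTransition (z.im - 1 / 2) ≠ 0 := fun h0 => h (by rw [h0]; ring)
  rw [Ne, Real.smoothTransition.zero_iff_nonpos, not_le] at h1 h2 h3
  refine ⟨abs_lt.mpr ⟨by linarith, by linarith⟩, by linarith⟩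

theorem psiFn_pos {z : ℂ} (h1 : |z.re| ≤ 1 / 2) (h2 : 1 / 2 < z.im) : 0 < psiFn z := by
  unfold psiFn betaFn
  have := abs_le.mp h1
  refine mul_pos (mul_pos ?_ ?_) ?_
  · exact Real.smoothTransition.pos_of_pos (by linarith)
  · exact Real.smoothTransition.pos_of_pos (by linarith)
  · exact Real.smoothTransition.pos_of_pos (by linarith)

/-! ### Local finiteness -/

theorem finite_psi_support (K : Set ℂ) (hK : IsCompact K) (hKU : K ⊆ Uhp) :
    {g : SL(2, ℤ) | ∃ z ∈ K, psiFn (mob g z) ≠ 0}.Finite := by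
  rcases K.eq_empty_or_nonempty with rfl | hne
  · simp
  -- bounds for the imaginary part on `K`
  obtain ⟨z₁, hz₁K, hz₁⟩ := hK.exists_isMinOn hne Complex.continuous_im.continuousOn
  obtain ⟨z₂, hz₂K, hz₂⟩ := hK.exists_isMaxOn hne Complex.continuous_im.continuousOn
  have hm : 0 < z₁.im := hKU hz₁K
  set M : ℝ := max z₂.im (1 / z₁.im) with hM
  set L : Set ℂ := Set.Icc (-1 : ℝ) 1 ×ℂ Set.Icc (1 / 2 : ℝ) M with hL
  have hLc : IsCompact L := isCompact_Icc.reProdIm isCompact_Icc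
  have hLU : L ⊆ Uhp := by
    intro w hw
    have : (1 / 2 : ℝ) ≤ w.im := hw.2.1
    exact lt_of_lt_of_le (by norm_num) this
  refine (finite_mob_inter (K ∪ L) (hK.union hLc) (Set.union_subset hKU hLU)).subset ?_
  rintro g ⟨z, hzK, hgz⟩
  refine ⟨z, Or.inl hzK, Or.inr ?_⟩
  obtain ⟨hre, him⟩ := psiFn_ne_zero hgz
  have hzU : z ∈ Uhp := hKU hzK
  have hzpos : 0 < z.im := hzU
  have hb := mob_im_le_max g hzU
  have h1 : z.im ≤ z₂.im := hz₂ hzK
  have h2 : z₁.im ≤ z.im := hz₁ hzK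
  have h3 : 1 / z.im ≤ 1 / z₁.im := one_div_le_one_div_of_le hm h2
  have h4 : (mob g z).im ≤ M := hb.trans (max_le_max h1 h3)
  have := abs_lt.mp hre
  exact ⟨⟨by linarith, by linarith⟩, ⟨him.le, h4⟩⟩

/-! ### The invariant sum `Ψ` -/

/-- `Ψ(z) = ∑_g ψ(g z)`. -/
noncomputable def PsiSum (z : ℂ) : ℝ := ∑ᶠ g : SL(2, ℤ), psiFn (mob g z)

theorem PsiSum_nonneg (z : ℂ) : 0 ≤ PsiSum z := finsum_nonneg fun _ => psiFn_nonneg _

theorem PsiSum_mob (h : SL(2, ℤ)) (z : ℂ) : PsiSum (mob h z) = PsiSum z := by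
  unfold PsiSum
  simp only [mob_mob]
  exact finsum_comp_equiv (Equiv.mulRight h) (f := fun g => psiFn (mob g z))

theorem finite_support_psi {z : ℂ} (hz : z ∈ Uhp) :
    (Function.support fun g : SL(2, ℤ) => psiFn (mob g z)).Finite := by
  refine (finite_psi_support {z} isCompact_singleton (by simpa using hz)).subset ?_
  intro g hg
  exact ⟨z, rfl, hg⟩

theorem PsiSum_pos {z : ℂ} (hz : z ∈ Uhp) : 0 < PsiSum z := by
  obtain ⟨g, hg⟩ := ModularGroup.exists_smul_mem_fd (⟨z, hz⟩ : ℍ)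
  refine finsum_pos (fun _ => psiFn_nonneg _) ⟨g, ?_⟩ (finite_support_psi hz)
  have h3 := ModularGroup.three_le_four_mul_im_sq_of_mem_fd hg
  have hre : |(g • (⟨z, hz⟩ : ℍ)).re| ≤ 1 / 2 := hg.2
  have him : 0 < (g • (⟨z, hz⟩ : ℍ)).im := (g • (⟨z, hz⟩ : ℍ)).im_pos
  rw [mob_of_mem hz]
  refine psiFn_pos hre ?_
  show 1 / 2 < (g • (⟨z, hz⟩ : ℍ)).im
  nlinarith

/-! ### Smoothness -/

theorem mob_contDiffAt (g : SL(2, ℤ)) {z : ℂ} (hz : z ∈ Uhp) : ContDiffAt ℝ ∞ (mob g) z := by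
  have h1 : ContDiffAt ℝ ∞
      (fun w : ℂ => (((g 0 0 : ℤ) : ℂ) * w + ((g 0 1 : ℤ) : ℂ)) / cd g w) z := by
    have hnum : ContDiffAt ℝ ∞ (fun w : ℂ => ((g 0 0 : ℤ) : ℂ) * w + ((g 0 1 : ℤ) : ℂ)) z :=
      (contDiffAt_const.mul contDiffAt_id).add contDiffAt_const
    have hden : ContDiffAt ℝ ∞ (fun w : ℂ => cd g w) z := by
      show ContDiffAt ℝ ∞ (fun w : ℂ => ((g 1 0 : ℤ) : ℂ) * w + ((g 1 1 : ℤ) : ℂ)) z
      exact (contDiffAt_const.mul contDiffAt_id).add contDiffAt_const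
    have hinv : ContDiffAt ℝ ∞ (fun w : ℂ => (cd g w)⁻¹) z := hden.inv (_root_.Fermat.Agent.S21.PartitionAux.cd_ne_zero g hz)
    simpa only [div_eq_mul_inv] using hnum.mul hinv
  refine h1.congr_of_eventuallyEq ?_
  filter_upwards [isOpen_Uhp.mem_nhds hz] with w hw
  exact _root_.Fermat.Agent.S21.PartitionAux.mob_eq_div g hw

theorem mob_contDiffOn (g : SL(2, ℤ)) : ContDiffOn ℝ ∞ (mob g) Uhp :=
  fun _ hz => (mob_contDiffAt g hz).contDiffWithinAt

theorem PsiSum_contDiffOn : ContDiffOn ℝ ∞ PsiSum Uhp := by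
  intro z₀ hz₀
  apply ContDiffAt.contDiffWithinAt
  obtain ⟨K, hKc, hzK, hKU⟩ := exists_compact_subset isOpen_Uhp hz₀
  have hfin := finite_psi_support K hKc hKU
  have h1 : ContDiffAt ℝ ∞ (fun z => ∑ g ∈ hfin.toFinset, psiFn (mob g z)) z₀ := by
    apply ContDiffAt.sum
    intro g _
    exact psiFn_contDiff.contDiffAt.comp z₀ (mob_contDiffAt g hz₀)
  refine h1.congr_of_eventuallyEq ?_
  filter_upwards [mem_interior_iff_mem_nhds.mp hzK] with z hz
  unfold PsiSum
  apply finsum_eq_sum_of_support_subset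
  intro g hg
  rw [Set.Finite.coe_toFinset]
  exact ⟨z, hz, hg⟩

/-! ### The partition of unity -/

/-- The partition function `χ₁ = ψ / Ψ`. -/
noncomputable def chiOne (z : ℂ) : ℝ := psiFn z / PsiSum z

theorem chiOne_contDiffOn : ContDiffOn ℝ ∞ chiOne Uhp :=
  psiFn_contDiff.contDiffOn.div PsiSum_contDiffOn (fun _ hz => (PsiSum_pos hz).ne')

theorem chiOne_nonneg (z : ℂ) : 0 ≤ chiOne z := div_nonneg (psiFn_nonneg z) (PsiSum_nonneg z)

theorem psiFn_ne_zero_of_chiOne {z : ℂ} (h : chiOne z ≠ 0) : psiFn z ≠ 0 := by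
  intro h0
  exact h (by unfold chiOne; rw [h0, zero_div])

theorem chiOne_support {z : ℂ} (h : chiOne z ≠ 0) : |z.re| < 1 ∧ 1 / 2 < z.im :=
  psiFn_ne_zero (psiFn_ne_zero_of_chiOne h)

theorem finite_chiOne_support (K : Set ℂ) (hK : IsCompact K) (hKU : K ⊆ Uhp) :
    {g : SL(2, ℤ) | ∃ z ∈ K, chiOne (mob g z) ≠ 0}.Finite := by
  refine (finite_psi_support K hK hKU).subset ?_
  rintro g ⟨z, hz, h⟩
  exact ⟨z, hz, psiFn_ne_zero_of_chiOne h⟩

theorem finsum_chiOne {z : ℂ} (hz : z ∈ Uhp) : ∑ᶠ g : SL(2, ℤ), chiOne (mob g z) = 1 := by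
  unfold chiOne
  simp only [PsiSum_mob, div_eq_mul_inv]
  rw [← finsum_mul]
  exact mul_inv_cancel₀ (PsiSum_pos hz).ne'

end Fermat.Agent.S21.PartitionAux

namespace Fermat.Agent.S21

open PartitionAux

/-- **MS-A**: a smooth `SL(2,ℤ)`-partition of unity on the upper half plane. -/
theorem exists_partition_SL2Z : ∃ χ₁ : ℂ → ℝ, ContDiffOn ℝ ∞ χ₁ Uhp ∧ (∀ z, 0 ≤ χ₁ z) ∧
    (∀ z, χ₁ z ≠ 0 → |z.re| ≤ 1 ∧ 1 / 2 < z.im) ∧
    (∀ K : Set ℂ, IsCompact K → K ⊆ Uhp →
      {g : SL(2, ℤ) | ∃ z ∈ K, χ₁ (mob g z) ≠ 0}.Finite) ∧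
    (∀ z ∈ Uhp, ∑ᶠ g : SL(2, ℤ), χ₁ (mob g z) = 1) :=
  ⟨chiOne, chiOne_contDiffOn, chiOne_nonneg,
    fun _ h => ⟨(chiOne_support h).1.le, (chiOne_support h).2⟩,
    finite_chiOne_support, fun _ hz => finsum_chiOne hz⟩

end Fermat.Agent.S21

end
-- ===== PACK-END S21/Partition.lean

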