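import Mathlib
import Mathlib.RingTheory.IntegralClosure.GoingDown
import Mathlib.RingTheory.Ideal.GoingUp
import Mathlib.Tactic
import Mathlib.RingTheory.Valuation.ValuationSubring
import Mathlib.Tactic.LinearCombination
import Mathlib.Tactic.FieldSimp
import Fermat.Prelude.Def_ModularCurve_X0ModL
import Fermat.Prelude.Def_ModularCurve_ModularUnit

-- ===== PACK-BEGIN S36/H630/ValAt.lean
section


/-!
# S36 engine, LABEL core (helper630), part 1: values at closed points along sheets

Elementwise language (no localisation types, no residue-field types).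

* `R` base ring (a DVR in the application), `F` a field over `R`, `B ⊆ F` a chart,
  `n` a closed point of the special fibre of `B` (a prime ideal of `B`),
  `V` a *sheet*: a valuation subring of `F` containing `B` (a component of the special fibre);
  `V` *passes through* `n` if every element of `B` vanishing on `V` lies in `n`.

* `ValAt B n V d η` : on the sheet `V` the function `d` is congruent to a quotient `a / b`,
  `a, b ∈ B`, `b ∉ n`, whose value at `n` is the constant `η ∈ R`:
  "the residue of `d` on the component `V` is regular at `n` and takes the value `η` there".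

The values are unique modulo `n` (`ValAt.unique`), multiplicative (`ValAt.mul`, `ValAt.pow`,
`ValAt.inv`), an element of `B_n` has the same value along every sheet (`ValAt.of_frac`), and
a function which is congruent to a constant on `V` has this constant as value (`ValAt.const`).
-/

set_option autoImplicit false

namespace Fermat.Agent.S36.H630

variable {R : Type*} [CommRing R] {F : Type*} [Field F] [Algebra R F]

section Nonunits

variable (V : ValuationSubring F)

theorem vnu_mem {a : F} (ha : a ∈ V.nonunits) : a ∈ V := V.nonunits_subset ha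

theorem vnu_zero : (0 : F) ∈ V.nonunits := by
  rw [ValuationSubring.mem_nonunits_iff, map_zero]
  exact zero_lt_one

theorem vnu_add {a b : F} (ha : a ∈ V.nonunits) (hb : b ∈ V.nonunits) :
    a + b ∈ V.nonunits := by
  rw [ValuationSubring.mem_nonunits_iff] at *
  exact Valuation.map_add_lt _ ha hb

theorem vnu_neg {a : F} (ha : a ∈ V.nonunits) : -a ∈ V.nonunits := by
  rw [ValuationSubring.mem_nonunits_iff] at *
  rwa [Valuation.map_neg]

theorem vnu_sub {a b : F} (ha : a ∈ V.nonunits) (hb : b ∈ V.nonunits) :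
    a - b ∈ V.nonunits := by
  rw [ValuationSubring.mem_nonunits_iff] at *
  exact Valuation.map_sub_lt _ ha hb

theorem vnu_mul_left {a c : F} (ha : a ∈ V.nonunits) (hc : c ∈ V) : c * a ∈ V.nonunits := by
  rw [ValuationSubring.mem_nonunits_iff] at ha ⊢
  rw [map_mul]
  have h1 : V.valuation c ≤ 1 := (V.valuation_le_one_iff c).2 hc
  calc V.valuation c * V.valuation a ≤ 1 * V.valuation a := by gcongr
    _ = V.valuation a := one_mul _
    _ < 1 := ha

theorem vnu_mul_right {a c : F} (ha : a ∈ V.nonunits) (hc : c ∈ V) : a * c ∈ V.nonunits := by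
  rw [mul_comm]
  exact vnu_mul_left V ha hc

theorem vnu_one_not : (1 : F) ∉ V.nonunits := by
  rw [ValuationSubring.mem_nonunits_iff, map_one]
  exact lt_irrefl _

/-- an element of `V` outside the maximal ideal has its inverse in `V` -/
theorem vnu_inv_mem {a : F} (ha : a ∈ V) (ha' : a ∉ V.nonunits) : a⁻¹ ∈ V := by
  rw [ValuationSubring.mem_nonunits_iff, not_lt] at ha'
  have h1 : V.valuation a = 1 := le_antisymm ((V.valuation_le_one_iff a).2 ha) ha'
  rw [← V.valuation_le_one_iff, map_inv₀, h1, inv_one]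

theorem vnu_inv_not {a : F} (ha : a ∈ V) (ha' : a ∉ V.nonunits) : a⁻¹ ∉ V.nonunits := by
  rw [ValuationSubring.mem_nonunits_iff, not_lt] at ha' ⊢
  have h1 : V.valuation a = 1 := le_antisymm ((V.valuation_le_one_iff a).2 ha) ha'
  rw [map_inv₀, h1, inv_one]

theorem vnu_mul_not {a b : F} (ha : a ∈ V) (hb : b ∈ V)
    (ha' : a ∉ V.nonunits) (hb' : b ∉ V.nonunits) : a * b ∉ V.nonunits := by
  rw [ValuationSubring.mem_nonunits_iff, not_lt] at *
  have h1 : V.valuation a = 1 := le_antisymm ((V.valuation_le_one_iff a).2 ha) ha'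
  have h2 : V.valuation b = 1 := le_antisymm ((V.valuation_le_one_iff b).2 hb) hb'
  rw [map_mul, h1, h2, one_mul]

theorem vnu_pow {a : F} (ha : a ∈ V.nonunits) {k : ℕ} (hk : k ≠ 0) : a ^ k ∈ V.nonunits := by
  obtain ⟨j, rfl⟩ := Nat.exists_eq_succ_of_ne_zero hk
  rw [pow_succ]
  exact vnu_mul_left V ha (V.pow_mem (vnu_mem V ha) j)

/-- if `a ≡ b` on `V` and `b` is a unit of `V`, so is `a` -/
theorem vnu_unit_of_sub {a b : F} (h : a - b ∈ V.nonunits) (hb : b ∈ V) (hb' : b ∉ V.nonunits) :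
    a ∈ V ∧ a ∉ V.nonunits := by
  constructor
  · have : a = (a - b) + b := by ring
    rw [this]
    exact V.add_mem _ _ (vnu_mem V h) hb
  · intro ha
    apply hb'
    have : b = a - (a - b) := by ring
    rw [this]
    exact vnu_sub V ha h

end Nonunits

/-- The chart `B` is contained in the sheet `V`. -/
def ChartLe (B : Subalgebra R F) (V : ValuationSubring F) : Prop :=
  ∀ b : B, (b : F) ∈ V

/-- The sheet `V` passes through the closed point `n` of the chart `B`. -/
def PassThrough (B : Subalgebra R F) (n : Ideal B) (V : ValuationSubring F) : Prop :=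
  ∀ c : B, (c : F) ∈ V.nonunits → c ∈ n

/-- **Value at a closed point along a sheet.** -/
def ValAt (B : Subalgebra R F) (n : Ideal B) (V : ValuationSubring F) (d : F) (η : R) : Prop :=
  ∃ a b : B, b ∉ n ∧ (b : F) * d - (a : F) ∈ V.nonunits ∧ a - algebraMap R B η * b ∈ n

section Basic

variable {B : Subalgebra R F} {n : Ideal B} {V : ValuationSubring F}

theorem PassThrough.not_nonunits (hth : PassThrough B n V) {b : B} (hb : b ∉ n) :
    (b : F) ∉ V.nonunits := fun h => hb (hth b h)

/-- A function with a value along `V` is integral on `V`. -/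
theorem ValAt.mem (hBV : ChartLe B V) (hth : PassThrough B n V) {d : F} {η : R}
    (h : ValAt B n V d η) : d ∈ V := by
  obtain ⟨a, b, hb, hV, -⟩ := h
  have hbu := hth.not_nonunits hb
  have h1 : (b : F) * d ∈ V := by
    have : (b : F) * d = ((b : F) * d - a) + a := by ring
    rw [this]
    exact V.add_mem _ _ (vnu_mem V hV) (hBV a)
  have h2 : d = (b : F)⁻¹ * ((b : F) * d) := by
    have hb0 : (b : F) ≠ 0 := by
      intro h0
      apply hbu
      rw [h0]
      exact vnu_zero V
    field_simp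
  rw [h2]
  exact V.mul_mem _ _ (vnu_inv_mem V (hBV b) hbu) h1

/-- **Uniqueness of the value** (modulo `n`). -/
theorem ValAt.unique [n.IsPrime] (hBV : ChartLe B V) (hth : PassThrough B n V) {d : F}
    {η η' : R} (h : ValAt B n V d η) (h' : ValAt B n V d η') :
    algebraMap R B (η - η') ∈ n := by
  obtain ⟨a, b, hb, hV, hn⟩ := h
  obtain ⟨a', b', hb', hV', hn'⟩ := h'
  -- `b a' - b' a` vanishes on `V`
  have h1 : ((b * a' - b' * a : B) : F) ∈ V.nonunits := by
    have : ((b * a' - b' * a : B) : F)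
        = (b' : F) * ((b : F) * d - a) - (b : F) * ((b' : F) * d - a') := by
      push_cast
      ring
    rw [this]
    exact vnu_sub V (vnu_mul_left V hV (hBV b')) (vnu_mul_left V hV' (hBV b))
  have h2 : b * a' - b' * a ∈ n := hth _ h1
  -- modulo `n`
  have h3 : b * b' * algebraMap R B (η - η') ∈ n := by
    have : b * b' * algebraMap R B (η - η')
        = b * (a' - algebraMap R B η' * b') - b' * (a - algebraMap R B η * b)
          - (b * a' - b' * a) := by
      rw [map_sub]
      ring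
    rw [this]
    exact n.sub_mem (n.sub_mem (n.mul_mem_left _ hn') (n.mul_mem_left _ hn)) h2
  rcases (Ideal.IsPrime.mem_or_mem ‹n.IsPrime› h3) with h4 | h4
  · rcases (Ideal.IsPrime.mem_or_mem ‹n.IsPrime› h4) with h5 | h5
    · exact absurd h5 hb
    · exact absurd h5 hb'
  · exact h4

/-- The value only depends on the class of the constant modulo `n`. -/
theorem ValAt.congr_const {d : F} {η η' : R} (h : ValAt B n V d η)
    (hη : algebraMap R B (η - η') ∈ n) : ValAt B n V d η' := by
  obtain ⟨a, b, hb, hV, hn⟩ := h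
  refine ⟨a, b, hb, hV, ?_⟩
  have : a - algebraMap R B η' * b = (a - algebraMap R B η * b) + algebraMap R B (η - η') * b := by
    rw [map_sub]
    ring
  rw [this]
  exact n.add_mem hn (n.mul_mem_right _ hη)

/-- The value only depends on the class of the function modulo the maximal ideal of `V`. -/
theorem ValAt.congr (hBV : ChartLe B V) {d d' : F} {η : R} (h : ValAt B n V d η)
    (hd : d - d' ∈ V.nonunits) : ValAt B n V d' η := by
  obtain ⟨a, b, hb, hV, hn⟩ := h
  refine ⟨a, b, hb, ?_, hn⟩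
  have : (b : F) * d' - a = ((b : F) * d - a) - (b : F) * (d - d') := by ring
  rw [this]
  exact vnu_sub V hV (vnu_mul_left V hd (hBV b))

/-- **Multiplicativity.** -/
theorem ValAt.mul [n.IsPrime] (hBV : ChartLe B V) (hth : PassThrough B n V) {d d' : F}
    {η η' : R} (h : ValAt B n V d η) (h' : ValAt B n V d' η') :
    ValAt B n V (d * d') (η * η') := by
  have hd'V : d' ∈ V := h'.mem hBV hth
  obtain ⟨a, b, hb, hV, hn⟩ := h
  obtain ⟨a', b', hb', hV', hn'⟩ := h'
  refine ⟨a * a', b * b', ?_, ?_, ?_⟩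
  · intro hmem
    rcases (Ideal.IsPrime.mem_or_mem ‹n.IsPrime› hmem) with h5 | h5
    · exact hb h5
    · exact hb' h5
  · have : ((b * b' : B) : F) * (d * d') - ((a * a' : B) : F)
        = ((b : F) * d - a) * ((b' : F) * d') + (a : F) * ((b' : F) * d' - a') := by
      push_cast
      ring
    rw [this]
    exact vnu_add V (vnu_mul_right V hV (V.mul_mem _ _ (hBV b') hd'V))
      (vnu_mul_left V hV' (hBV a))
  · have : a * a' - algebraMap R B (η * η') * (b * b')
        = a * (a' - algebraMap R B η' * b') + algebraMap R B η' * b' * (a - algebraMap R B η * b) := by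
      rw [map_mul]
      ring
    rw [this]
    exact n.add_mem (n.mul_mem_left _ hn') (n.mul_mem_left _ hn)

theorem ValAt.one (hn : n ≠ ⊤) : ValAt B n V (1 : F) (1 : R) := by
  refine ⟨1, 1, ?_, ?_, ?_⟩
  · intro h
    exact hn ((Ideal.eq_top_iff_one n).2 h)
  · simp only [OneMemClass.coe_one, mul_one, sub_self]
    exact vnu_zero V
  · simp

/-- **Powers.** -/
theorem ValAt.pow [hn : n.IsPrime] (hBV : ChartLe B V) (hth : PassThrough B n V) {d : F}
    {η : R} (h : ValAt B n V d η) (k : ℕ) : ValAt B n V (d ^ k) (η ^ k) := by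
  induction k with
  | zero =>
    rw [pow_zero, pow_zero]
    exact ValAt.one hn.ne_top
  | succ k ih =>
    rw [pow_succ, pow_succ]
    exact ih.mul hBV hth h

/-- **An element of `B_n` has the same value along every sheet.** -/
theorem ValAt.of_frac {d : F} {η : R} {a b : B} (hb : b ∉ n) (hd : (b : F) * d = a)
    (hη : a - algebraMap R B η * b ∈ n) : ValAt B n V d η := by
  refine ⟨a, b, hb, ?_, hη⟩
  rw [hd, sub_self]
  exact vnu_zero V

/-- **A function congruent to a constant on `V` has this constant as value.** -/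
theorem ValAt.const (hn : n ≠ ⊤) {d : F} {η : R} (hd : d - algebraMap R F η ∈ V.nonunits) :
    ValAt B n V d η := by
  refine ⟨algebraMap R B η, 1, ?_, ?_, ?_⟩
  · intro h
    exact hn ((Ideal.eq_top_iff_one n).2 h)
  · have : ((1 : B) : F) * d - ((algebraMap R B η : B) : F) = d - algebraMap R F η := by
      simp only [OneMemClass.coe_one, one_mul]
      rfl
    rw [this]
    exact hd
  · simp

/-- A function with a value which is a unit modulo `n` is a unit of `V`. -/
theorem ValAt.not_nonunits (hBV : ChartLe B V) (hth : PassThrough B n V) {d : F} {η : R}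
    (h : ValAt B n V d η) (hη : algebraMap R B η ∉ n) [n.IsPrime] : d ∉ V.nonunits := by
  obtain ⟨a, b, hb, hV, hn⟩ := h
  intro hd
  -- then `a` vanishes on `V`, so `a ∈ n`, so `η b ∈ n`
  have h1 : (a : F) ∈ V.nonunits := by
    have : (a : F) = (b : F) * d - ((b : F) * d - a) := by ring
    rw [this]
    exact vnu_sub V (vnu_mul_left V hd (hBV b)) hV
  have h2 : a ∈ n := hth a h1
  have h3 : algebraMap R B η * b ∈ n := by
    have : algebraMap R B η * b = a - (a - algebraMap R B η * b) := by ring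
    rw [this]
    exact n.sub_mem h2 hn
  rcases (Ideal.IsPrime.mem_or_mem ‹n.IsPrime› h3) with h5 | h5
  · exact hη h5
  · exact hb h5

/-- **Inverses.** -/
theorem ValAt.inv [n.IsPrime] (hBV : ChartLe B V) (hth : PassThrough B n V) {d : F}
    {η η' : R} (h : ValAt B n V d η) (hη : algebraMap R B (η * η' - 1) ∈ n) :
    ValAt B n V d⁻¹ η' := by
  have hηu : algebraMap R B η ∉ n := by
    intro h1
    have h2 : algebraMap R B (η * η') ∈ n := by
      rw [map_mul]
      exact n.mul_mem_right _ h1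
    have h3 : (1 : B) ∈ n := by
      have : (1 : B) = algebraMap R B (η * η') - algebraMap R B (η * η' - 1) := by
        rw [map_sub, map_one]
        ring
      rw [this]
      exact n.sub_mem h2 hη
    exact (Ideal.IsPrime.ne_top ‹n.IsPrime›) ((Ideal.eq_top_iff_one n).2 h3)
  have hdV : d ∈ V := h.mem hBV hth
  have hdu : d ∉ V.nonunits := h.not_nonunits hBV hth hηu
  have hd0 : d ≠ 0 := by
    rintro rfl
    exact hdu (vnu_zero V)
  obtain ⟨a, b, hb, hV, hn⟩ := h
  have han : a ∉ n := by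
    intro ha
    have h3 : algebraMap R B η * b ∈ n := by
      have : algebraMap R B η * b = a - (a - algebraMap R B η * b) := by ring
      rw [this]
      exact n.sub_mem ha hn
    rcases (Ideal.IsPrime.mem_or_mem ‹n.IsPrime› h3) with h5 | h5
    · exact hηu h5
    · exact hb h5
  refine ⟨b, a, han, ?_, ?_⟩
  · have : (a : F) * d⁻¹ - b = -(((b : F) * d - a) * d⁻¹) := by
      field_simp
      ring
    rw [this]
    exact vnu_neg V (vnu_mul_right V hV (vnu_inv_mem V hdV hdu))
  · -- `b - η' a = -(η' (a - η b)) - (η η' - 1) b`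
    have : b - algebraMap R B η' * a
        = -(algebraMap R B η' * (a - algebraMap R B η * b)) - algebraMap R B (η * η' - 1) * b := by
      rw [map_sub, map_mul, map_one]
      ring
    rw [this]
    exact n.sub_mem (n.neg_mem (n.mul_mem_left _ hn)) (n.mul_mem_right _ hη)

end Basic

end Fermat.Agent.S36.H630

end
-- ===== PACK-END S36/H630/ValAt.lean

-- ===== PACK-BEGIN S18/H754/DivisorPow.lean
section


/-!
# S18 / Route K / étale Kummer cover, piece P2 (helper754)

In a UFD `R` with fraction field `F`: if `u ∈ Fˣ` is, at every prime element `π`, a `π`-unit times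
a `p`-th power, then `u` is a unit of `R` times a `p`-th power.
-/

set_option autoImplicit false

noncomputable section

namespace Fermat.Agent.S18.H754

section P2

variable {R : Type*} [CommRing R] [IsDomain R]
  {F : Type*} [Field F] [Algebra R F] [IsFractionRing R F]

/-- `u` is a `π`-adic unit times a `p`-th power. -/
def LocallyPow (R : Type*) [CommRing R] {F : Type*} [Field F] [Algebra R F]
    (p : ℕ) (u : F) (π : R) : Prop :=
  ∃ t : F, ∃ a b : R, ¬ π ∣ a ∧ ¬ π ∣ b ∧ u * t ^ p * algebraMap R F b = algebraMap R F a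

omit [IsDomain R] [IsFractionRing R F] in
lemma LocallyPow.mul_pow {p : ℕ} {u : F} {π : R} (h : LocallyPow R p u π) {c : F} (hc : c ≠ 0) :
    LocallyPow R p (u * c ^ p) π := by
  obtain ⟨t, a, b, ha, hb, h⟩ := h
  refine ⟨t / c, a, b, ha, hb, ?_⟩
  rw [← h, div_pow]
  field_simp

omit [IsDomain R] in
lemma LocallyPow.inv {p : ℕ} {u : F} {π : R} (hu : u ≠ 0) (h : LocallyPow R p u π) :
    LocallyPow R p u⁻¹ π := by
  obtain ⟨t, a, b, ha, hb, h⟩ := h
  refine ⟨t⁻¹, b, a, hb, ha, ?_⟩
  by_cases hp : p = 0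
  · subst hp
    simp only [pow_zero, mul_one] at h ⊢
    rw [← h]
    field_simp
  · have ht : t ≠ 0 := by
      rintro rfl
      rw [zero_pow hp, mul_zero, zero_mul] at h
      have ha0 : a = 0 := IsFractionRing.injective R F (by rw [← h, map_zero])
      exact ha (ha0 ▸ dvd_zero π)
    rw [← h, inv_pow]
    field_simp

variable [UniqueFactorizationMonoid R]

/-- the key divisibility: a prime dividing the numerator but not the denominator of a locally
`p`-th power divides the numerator at least `p` times. -/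
lemma pow_dvd_of_locallyPow {p : ℕ} {π : R} (hπ : Prime π) {a b : R} (ha : a ≠ 0) (hb : b ≠ 0)
    (hπa : π ∣ a) (hπb : ¬ π ∣ b)
    (h : LocallyPow R p (algebraMap R F a / algebraMap R F b) π) : π ^ p ∣ a := by
  obtain ⟨t, a', b', ha', hb', h⟩ := h
  have ha'0 : a' ≠ 0 := fun h0 => ha' (h0 ▸ dvd_zero π)
  have hb'0 : b' ≠ 0 := fun h0 => hb' (h0 ▸ dvd_zero π)
  obtain ⟨c, d, hd, rfl⟩ := IsFractionRing.div_surjective (A := R) t
  have hd0 : d ≠ 0 := nonZeroDivisors.ne_zero hd
  have hinj := IsFractionRing.injective R F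
  have hbF : algebraMap R F b ≠ 0 := fun h0 => hb (hinj (by rw [h0, map_zero]))
  have hdF : algebraMap R F d ≠ 0 := fun h0 => hd0 (hinj (by rw [h0, map_zero]))
  have hc0 : c ≠ 0 := by
    rintro rfl
    by_cases hp : p = 0
    · subst hp
      simp only [pow_zero, mul_one] at h
      -- `a * b' = a' * b`
      have h2 : a * b' = a' * b := by
        apply hinj
        rw [map_mul, map_mul, ← h]
        field_simp
      have : π ∣ a' * b := h2 ▸ Dvd.dvd.mul_right hπa b'
      rcases hπ.dvd_or_dvd this with h3 | h3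
      · exact ha' h3
      · exact hπb h3
    · rw [map_zero, zero_div, zero_pow hp, mul_zero, zero_mul] at h
      exact ha'0 (hinj (by rw [← h, map_zero]))
  have heq : a * c ^ p * b' = a' * b * d ^ p := by
    apply hinj
    simp only [map_mul, map_pow]
    rw [← h, div_pow]
    field_simp
  -- multiplicities
  have hfin : ∀ x : R, x ≠ 0 → FiniteMultiplicity π x :=
    fun x hx => FiniteMultiplicity.of_prime_left hπ hx
  have e1 := congrArg (emultiplicity π) heq
  rw [emultiplicity_mul hπ, emultiplicity_mul hπ, emultiplicity_mul hπ, emultiplicity_mul hπ,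
    emultiplicity_pow hπ, emultiplicity_pow hπ, emultiplicity_eq_zero.mpr ha',
    emultiplicity_eq_zero.mpr hb', emultiplicity_eq_zero.mpr hπb,
    (hfin a ha).emultiplicity_eq_multiplicity, (hfin c hc0).emultiplicity_eq_multiplicity,
    (hfin d hd0).emultiplicity_eq_multiplicity] at e1
  have e2 : multiplicity π a + p * multiplicity π c = p * multiplicity π d := by
    have : ((multiplicity π a + p * multiplicity π c : ℕ) : ℕ∞) =
        ((p * multiplicity π d : ℕ) : ℕ∞) := by
      push_cast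
      simpa using e1
    exact_mod_cast this
  have h1 : 1 ≤ multiplicity π a := by
    rw [← (hfin a ha).pow_dvd_iff_le_multiplicity, pow_one]
    exact hπa
  have h2 : p ∣ multiplicity π a := by
    have : p ∣ multiplicity π a + p * multiplicity π c := ⟨multiplicity π d, e2⟩
    exact (Nat.dvd_add_left (Dvd.intro _ rfl)).mp this
  have h3 : p ≤ multiplicity π a := Nat.le_of_dvd h1 h2
  exact pow_dvd_of_le_multiplicity h3

lemma pow_dvd_of_locallyPow' {p : ℕ} {π : R} (hπ : Prime π) {a b : R} (ha : a ≠ 0) (hb : b ≠ 0)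
    (hπa : ¬ π ∣ a) (hπb : π ∣ b)
    (h : LocallyPow R p (algebraMap R F a / algebraMap R F b) π) : π ^ p ∣ b := by
  have hinj := IsFractionRing.injective R F
  have haF : algebraMap R F a ≠ 0 := fun h0 => ha (hinj (by rw [h0, map_zero]))
  have hbF : algebraMap R F b ≠ 0 := fun h0 => hb (hinj (by rw [h0, map_zero]))
  have h' := h.inv (div_ne_zero haF hbF)
  rw [inv_div] at h'
  exact pow_dvd_of_locallyPow hπ hb ha hπb hπa h'

/-- **P2.** In a UFD, an element of the fraction field which is locally (at every prime element)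
a unit times a `p`-th power is a unit times a `p`-th power. -/
theorem exists_unit_mul_pow_aux (p : ℕ) (hp : 0 < p) :
    ∀ x : R, x ≠ 0 → ∀ a b : R, a * b = x →
      (∀ π : R, Prime π → LocallyPow R p (algebraMap R F a / algebraMap R F b) π) →
      ∃ s : F, s ≠ 0 ∧ ∃ w : Rˣ,
        algebraMap R F a / algebraMap R F b * s ^ p = algebraMap R F w := by
  intro x
  refine WellFounded.induction (wellFounded_dvdNotUnit (α := R))
    (C := fun x => x ≠ 0 → ∀ a b : R, a * b = x →
      (∀ π : R, Prime π → LocallyPow R p (algebraMap R F a / algebraMap R F b) π) →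
      ∃ s : F, s ≠ 0 ∧ ∃ w : Rˣ,
        algebraMap R F a / algebraMap R F b * s ^ p = algebraMap R F w) x ?_
  intro x ih hx a b hab H
  have hinj := IsFractionRing.injective R F
  have ha : a ≠ 0 := fun h0 => hx (by rw [← hab, h0, zero_mul])
  have hb : b ≠ 0 := fun h0 => hx (by rw [← hab, h0, mul_zero])
  have haF : algebraMap R F a ≠ 0 := fun h0 => ha (hinj (by rw [h0, map_zero]))
  have hbF : algebraMap R F b ≠ 0 := fun h0 => hb (hinj (by rw [h0, map_zero]))
  by_cases hxu : IsUnit x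
  · -- both `a` and `b` are units
    have hau : IsUnit a := isUnit_of_mul_isUnit_left (hab ▸ hxu)
    have hbu : IsUnit b := isUnit_of_mul_isUnit_right (hab ▸ hxu)
    obtain ⟨ua, hua⟩ := hau
    obtain ⟨ub, hub⟩ := hbu
    refine ⟨1, one_ne_zero, ua * ub⁻¹, ?_⟩
    rw [one_pow, mul_one, Units.val_mul, map_mul, ← hua, ← hub, div_eq_mul_inv, map_units_inv]
  · obtain ⟨π, hπirr, hπx⟩ := WfDvdMonoid.exists_irreducible_factor hxu hx
    have hπ : Prime π := UniqueFactorizationMonoid.irreducible_iff_prime.mp hπirr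
    have hπF : algebraMap R F π ≠ 0 := fun h0 => hπ.ne_zero (hinj (by rw [h0, map_zero]))
    by_cases hπa : π ∣ a
    · by_cases hπb : π ∣ b
      · -- cancel `π`
        obtain ⟨a₁, rfl⟩ := hπa
        obtain ⟨b₁, rfl⟩ := hπb
        have ha₁ : a₁ ≠ 0 := right_ne_zero_of_mul ha
        have hb₁ : b₁ ≠ 0 := right_ne_zero_of_mul hb
        have hlt : DvdNotUnit (a₁ * b₁) x := by
          refine ⟨mul_ne_zero ha₁ hb₁, π * π, ?_, ?_⟩
          · intro hu
            exact hπ.not_unit (isUnit_of_mul_isUnit_left hu)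
          · rw [← hab]; ring
        have hquot : algebraMap R F (π * a₁) / algebraMap R F (π * b₁) =
            algebraMap R F a₁ / algebraMap R F b₁ := by
          rw [map_mul, map_mul]
          field_simp
        rw [hquot] at H ⊢
        exact ih (a₁ * b₁) hlt (mul_ne_zero ha₁ hb₁) a₁ b₁ rfl H
      · -- `π ^ p ∣ a`
        obtain ⟨a₂, rfl⟩ := pow_dvd_of_locallyPow hπ ha hb hπa hπb (H π hπ)
        have ha₂ : a₂ ≠ 0 := right_ne_zero_of_mul ha
        have hlt : DvdNotUnit (a₂ * b) x := by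
          refine ⟨mul_ne_zero ha₂ hb, π ^ p, ?_, ?_⟩
          · intro hu
            exact hπ.not_unit (isUnit_of_dvd_unit (dvd_pow_self π hp.ne') hu)
          · rw [← hab]; ring
        have hquot : algebraMap R F a₂ / algebraMap R F b =
            algebraMap R F (π ^ p * a₂) / algebraMap R F b * ((algebraMap R F π)⁻¹) ^ p := by
          rw [map_mul, map_pow, inv_pow]
          field_simp
        have H' : ∀ π' : R, Prime π' →
            LocallyPow R p (algebraMap R F a₂ / algebraMap R F b) π' := by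
          intro π' hπ'
          rw [hquot]
          exact (H π' hπ').mul_pow (inv_ne_zero hπF)
        obtain ⟨s, hs, w, hw⟩ := ih (a₂ * b) hlt (mul_ne_zero ha₂ hb) a₂ b rfl H'
        refine ⟨s * (algebraMap R F π)⁻¹, mul_ne_zero hs (inv_ne_zero hπF), w, ?_⟩
        rw [← hw, hquot]
        ring
    · have hπb : π ∣ b := by
        rcases hπ.dvd_or_dvd (hab ▸ hπx) with h | h
        · exact absurd h hπa
        · exact h
      obtain ⟨b₂, rfl⟩ := pow_dvd_of_locallyPow' hπ ha hb hπa hπb (H π hπ)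
      have hb₂ : b₂ ≠ 0 := right_ne_zero_of_mul hb
      have hlt : DvdNotUnit (a * b₂) x := by
        refine ⟨mul_ne_zero ha hb₂, π ^ p, ?_, ?_⟩
        · intro hu
          exact hπ.not_unit (isUnit_of_dvd_unit (dvd_pow_self π hp.ne') hu)
        · rw [← hab]; ring
      have hb₂F : algebraMap R F b₂ ≠ 0 := fun h0 => hb₂ (hinj (by rw [h0, map_zero]))
      have hquot : algebraMap R F a / algebraMap R F b₂ =
          algebraMap R F a / algebraMap R F (π ^ p * b₂) * (algebraMap R F π) ^ p := by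
        rw [map_mul, map_pow]
        field_simp
      have H' : ∀ π' : R, Prime π' →
          LocallyPow R p (algebraMap R F a / algebraMap R F b₂) π' := by
        intro π' hπ'
        rw [hquot]
        exact (H π' hπ').mul_pow hπF
      obtain ⟨s, hs, w, hw⟩ := ih (a * b₂) hlt (mul_ne_zero ha hb₂) a b₂ rfl H'
      refine ⟨s * algebraMap R F π, mul_ne_zero hs hπF, w, ?_⟩
      rw [← hw, hquot]
      ring

theorem exists_unit_mul_pow (p : ℕ) (hp : 0 < p) (u : F) (hu : u ≠ 0)
    (H : ∀ π : R, Prime π → LocallyPow R p u π) :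
    ∃ s : F, s ≠ 0 ∧ ∃ w : Rˣ, u * s ^ p = algebraMap R F w := by
  obtain ⟨a, b, hb, rfl⟩ := IsFractionRing.div_surjective (A := R) u
  have hb0 : b ≠ 0 := nonZeroDivisors.ne_zero hb
  have ha0 : a ≠ 0 := by
    rintro rfl
    rw [map_zero, zero_div] at hu
    exact hu rfl
  exact exists_unit_mul_pow_aux p hp (a * b) (mul_ne_zero ha0 hb0) a b rfl H

end P2

end Fermat.Agent.S18.H754

end

end
-- ===== PACK-END S18/H754/DivisorPow.lean

-- ===== PACK-BEGIN S18/H754/LocalUFD.lean
section


/-!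
# S18 / Route K / étale Kummer cover, piece P1 (helper754)

A Noetherian local domain whose maximal ideal is generated by a prime element `ϖ` and one more
element `t` is a unique factorisation domain.
-/

set_option autoImplicit false

noncomputable section

namespace Fermat.Agent.S18.H754

open IsLocalRing

section P1

variable {R : Type*} [CommRing R] [IsDomain R] [IsNoetherianRing R] [IsLocalRing R]

/-- The quotient of a Noetherian local domain by a prime element `ϖ` with `𝔪 = (ϖ, t)` is a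
principal ideal ring. -/
theorem isPrincipalIdealRing_quotient_of_regular_pair (ϖ t : R) (hϖ : Prime ϖ)
    (hm : maximalIdeal R = Ideal.span {ϖ, t}) :
    letI : (Ideal.span {ϖ}).IsPrime := (Ideal.span_singleton_prime hϖ.ne_zero).mpr hϖ
    IsPrincipalIdealRing (R ⧸ Ideal.span {ϖ}) := by
  haveI hprime : (Ideal.span {ϖ}).IsPrime := (Ideal.span_singleton_prime hϖ.ne_zero).mpr hϖ
  haveI : Nontrivial (R ⧸ Ideal.span {ϖ}) := Ideal.Quotient.nontrivial_iff.mpr hprime.ne_top
  haveI : IsLocalRing (R ⧸ Ideal.span {ϖ}) :=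
    IsLocalRing.of_surjective' (Ideal.Quotient.mk _) Ideal.Quotient.mk_surjective
  have hmax : maximalIdeal (R ⧸ Ideal.span {ϖ}) =
      Ideal.span {Ideal.Quotient.mk (Ideal.span {ϖ}) t} := by
    have h1 : maximalIdeal (R ⧸ Ideal.span {ϖ}) =
        (maximalIdeal R).map (Ideal.Quotient.mk (Ideal.span {ϖ})) := by
      haveI := IsLocalHom.of_surjective (Ideal.Quotient.mk (Ideal.span {ϖ}))
        Ideal.Quotient.mk_surjective
      ext x
      obtain ⟨x, rfl⟩ := Ideal.Quotient.mk_surjective x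
      simp [sup_eq_left.mpr (le_maximalIdeal hprime.ne_top)]
    rw [h1, hm, Ideal.map_span, Set.image_pair]
    have h0 : Ideal.Quotient.mk (Ideal.span {ϖ}) ϖ = 0 :=
      Ideal.Quotient.eq_zero_iff_mem.mpr (Ideal.mem_span_singleton_self ϖ)
    rw [h0]
    apply le_antisymm
    · rw [Ideal.span_le]
      rintro x (rfl | rfl)
      · exact Ideal.zero_mem _
      · exact Ideal.subset_span rfl
    · apply Ideal.span_mono
      intro x hx
      right
      exact hx
  have htfae := (tfae_of_isNoetherianRing_of_isLocalRing_of_isDomain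
    (R := R ⧸ Ideal.span {ϖ})).out 4 0
  exact htfae.mp ⟨⟨_, hmax⟩⟩

/-- **P1.** A Noetherian local domain with `𝔪 = (ϖ, t)`, `ϖ` prime, is a UFD. -/
theorem ufd_of_regular_pair (ϖ t : R) (hϖ : Prime ϖ)
    (hm : maximalIdeal R = Ideal.span {ϖ, t}) : UniqueFactorizationMonoid R := by
  haveI hprime : (Ideal.span {ϖ}).IsPrime := (Ideal.span_singleton_prime hϖ.ne_zero).mpr hϖ
  haveI hpid : IsPrincipalIdealRing (R ⧸ Ideal.span {ϖ}) :=
    isPrincipalIdealRing_quotient_of_regular_pair ϖ t hϖ hm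
  apply UniqueFactorizationMonoid.of_forall_isPrincipal_of_height_eq_one
  intro 𝔮 h𝔮 hht
  by_cases hϖ𝔮 : ϖ ∈ 𝔮
  · exact ⟨ϖ, 𝔮.eq_span_singleton_of_height_eq_one hht hϖ𝔮 hϖ⟩
  · -- the image of `𝔮` modulo `ϖ` is principal
    obtain ⟨fbar, hfbar⟩ := (hpid.principal (𝔮.map (Ideal.Quotient.mk (Ideal.span {ϖ})))).principal
    have hfmem : fbar ∈ 𝔮.map (Ideal.Quotient.mk (Ideal.span {ϖ})) := by
      rw [hfbar]
      exact Submodule.mem_span_singleton_self fbar
    obtain ⟨f, hf𝔮, rfl⟩ :=
      (Ideal.mem_map_iff_of_surjective _ Ideal.Quotient.mk_surjective).1 hfmem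
    refine ⟨f, le_antisymm ?_ ?_⟩
    · have key : 𝔮 ≤ Ideal.span {f} ⊔ Ideal.span {ϖ} • 𝔮 := by
        intro g hg
        have hgbar : Ideal.Quotient.mk (Ideal.span {ϖ}) g ∈
            𝔮.map (Ideal.Quotient.mk (Ideal.span {ϖ})) := Ideal.mem_map_of_mem _ hg
        rw [hfbar] at hgbar
        obtain ⟨abar, habar⟩ := Submodule.mem_span_singleton.1 hgbar
        obtain ⟨a, rfl⟩ := Ideal.Quotient.mk_surjective abar
        have h1 : g - a * f ∈ Ideal.span {ϖ} := by
          rw [← Ideal.Quotient.eq_zero_iff_mem, map_sub, map_mul, sub_eq_zero]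
          rw [← habar]
          rfl
        obtain ⟨g₁, hg₁⟩ := Ideal.mem_span_singleton'.1 h1
        have hg₁𝔮 : g₁ ∈ 𝔮 := by
          have h2 : g₁ * ϖ ∈ 𝔮 := by
            rw [hg₁]
            exact 𝔮.sub_mem hg (𝔮.mul_mem_left a hf𝔮)
          exact (h𝔮.mem_or_mem h2).resolve_right hϖ𝔮
        have h3 : g = a * f + ϖ * g₁ := by
          rw [mul_comm ϖ g₁, hg₁]
          ring
        rw [h3]
        refine Submodule.add_mem_sup ?_ ?_
        · exact Ideal.mul_mem_left _ a (Ideal.mem_span_singleton_self f)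
        · exact Submodule.smul_mem_smul (Ideal.mem_span_singleton_self ϖ) hg₁𝔮
      have hjac : Ideal.span {ϖ} ≤ Ideal.jacobson (⊥ : Ideal R) := by
        rw [IsLocalRing.jacobson_eq_maximalIdeal ⊥ bot_ne_top, Ideal.span_singleton_le_iff_mem]
        exact hϖ.not_unit
      exact Submodule.le_of_le_smul_of_le_jacobson_bot (IsNoetherian.noetherian 𝔮) hjac key
    · rw [Submodule.span_singleton_le_iff_mem]
      exact hf𝔮

end P1

end Fermat.Agent.S18.H754

end

end
-- ===== PACK-END S18/H754/LocalUFD.lean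

-- ===== PACK-BEGIN A2/Mod/H816/L8Abs.lean
section


/-!
# A2 / MOD leaf L8, part 1 (helper816): two valuations and linear independence

Abstract (Mathlib only).  `E ⊆ F` fields, `v, v'` additive valuations of `F` with values in
`WithTop ℤ`, trivial on `E`, `x ∈ F` with `v x = v' x = -n < 0`.

* `addVal_sum_le_of_distinct` : ultrametric sum with pairwise distinct values;
* `addVal_aeval_eq` : `v (g(x)) = deg g · v x`;
* `transcendental_of_addVal_ne_zero` : `v f ∉ {0, ⊤}` implies `f` transcendental over `E`;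
* `addVal_mem_adjoin` : on `E(x)` both valuations agree and take values in `n ℤ`;
* `linearIndependent_of_two_addVal` : families `u`, `u'` with `v (u i) = e i < v' (u i)`,
  `v' (u' i) = e i < v (u' i)`, `e` injective modulo `n`, are jointly linearly independent
  over `E(x)`.
-/

set_option autoImplicit false

noncomputable section

namespace Fermat.Agent.A2.Mod.H816

open Polynomial

section Ultra

variable {R : Type*} [Ring R] (v : AddValuation R (WithTop ℤ))

/-- **Ultrametric sum, distinct values.** -/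
theorem addVal_sum_le_of_distinct {ι : Type*} (s : Finset ι) (c : ι → R)
    (hd : ∀ i ∈ s, ∀ j ∈ s, i ≠ j → v (c i) = v (c j) → v (c i) = ⊤) :
    ∀ j ∈ s, v (∑ i ∈ s, c i) ≤ v (c j) := by
  classical
  intro j hj
  obtain ⟨j₀, hj₀, hmin⟩ := Finset.exists_min_image s (fun i => v (c i)) ⟨j, hj⟩
  refine le_trans ?_ (hmin j hj)
  by_cases htop : v (c j₀) = ⊤
  · rw [htop]; exact le_top
  · rw [← Finset.add_sum_erase s c hj₀]
    have hlt : v (c j₀) < v (∑ i ∈ s.erase j₀, c i) := by
      apply AddValuation.map_lt_sum v htop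
      intro i hi
      have his : i ∈ s := Finset.mem_of_mem_erase hi
      have hne : i ≠ j₀ := Finset.ne_of_mem_erase hi
      refine lt_of_le_of_ne (hmin i his) ?_
      intro heq
      exact htop (hd j₀ hj₀ i his hne.symm heq)
    rw [AddValuation.map_add_eq_of_lt_left v hlt]

end Ultra

section WithTopInt

theorem withTop_int_eq_top_of_add_two_le {z : WithTop ℤ} (h : z + 2 ≤ z) : z = ⊤ := by
  induction z using WithTop.recTopCoe with
  | top => rfl
  | coe a =>
    exfalso
    have h2 : ((a + 2 : ℤ) : WithTop ℤ) ≤ (a : WithTop ℤ) := by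
      have : ((a + 2 : ℤ) : WithTop ℤ) = (a : WithTop ℤ) + 2 := by
        push_cast; rfl
      rw [this]; exact h
    have := WithTop.coe_le_coe.mp h2
    omega

end WithTopInt

section Field

variable {E F : Type*} [Field E] [Field F] [Algebra E F]

/-- value of a monomial -/
theorem addVal_monomial (v : AddValuation F (WithTop ℤ))
    (hE : ∀ c : E, c ≠ 0 → v (algebraMap E F c) = 0) {x : F} {a : ℤ}
    (hx : v x = (a : WithTop ℤ)) {c : E} (hc : c ≠ 0) (i : ℕ) :
    v (algebraMap E F c * x ^ i) = ((i * a : ℤ) : WithTop ℤ) := by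
  rw [AddValuation.map_mul, hE c hc, zero_add, AddValuation.map_pow, hx]
  rw [← WithTop.coe_nsmul, nsmul_eq_mul]

/-- **Value of a polynomial at an element of negative value.** -/
theorem addVal_aeval_eq (v : AddValuation F (WithTop ℤ))
    (hE : ∀ c : E, c ≠ 0 → v (algebraMap E F c) = 0) {x : F} {a : ℤ} (ha : a < 0)
    (hx : v x = (a : WithTop ℤ)) {g : E[X]} (hg : g ≠ 0) :
    v (aeval x g) = ((g.natDegree * a : ℤ) : WithTop ℤ) := by
  classical
  rw [aeval_eq_sum_range]
  have hterm : ∀ i : ℕ, g.coeff i ≠ 0 →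
      v (g.coeff i • x ^ i) = ((i * a : ℤ) : WithTop ℤ) := by
    intro i hi
    rw [Algebra.smul_def]
    exact addVal_monomial v hE hx hi i
  have hzero : ∀ i : ℕ, g.coeff i = 0 → v (g.coeff i • x ^ i) = ⊤ := by
    intro i hi
    rw [hi, zero_smul, AddValuation.map_zero]
  apply le_antisymm
  · have hlc : g.coeff g.natDegree ≠ 0 := by
      rw [coeff_natDegree]; exact leadingCoeff_ne_zero.mpr hg
    rw [← hterm g.natDegree hlc]
    apply addVal_sum_le_of_distinct v _ _ _ _ (Finset.mem_range.mpr (Nat.lt_succ_self _))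
    intro i _ j _ hij heq
    by_cases hi : g.coeff i = 0
    · exact hzero i hi
    · by_cases hj : g.coeff j = 0
      · rw [heq]; exact hzero j hj
      · exfalso
        rw [hterm i hi, hterm j hj] at heq
        have h1 : (i : ℤ) * a = j * a := WithTop.coe_injective heq
        have h2 : (i : ℤ) = j := mul_right_cancel₀ (ne_of_lt ha) h1
        exact hij (by exact_mod_cast h2)
  · apply AddValuation.map_le_sum
    intro i hi
    by_cases hc : g.coeff i = 0
    · rw [hzero i hc]; exact le_top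
    · rw [hterm i hc]
      apply WithTop.coe_le_coe.mpr
      have h1 : (i : ℤ) ≤ g.natDegree := by
        have := Finset.mem_range.mp hi
        exact_mod_cast Nat.lt_succ_iff.mp this
      nlinarith

theorem aeval_ne_zero_of_addVal (v : AddValuation F (WithTop ℤ))
    (hE : ∀ c : E, c ≠ 0 → v (algebraMap E F c) = 0) {x : F} {a : ℤ} (ha : a < 0)
    (hx : v x = (a : WithTop ℤ)) {g : E[X]} (hg : g ≠ 0) : aeval x g ≠ 0 := by
  intro h
  have := addVal_aeval_eq v hE ha hx hg
  rw [h, AddValuation.map_zero] at this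
  exact WithTop.top_ne_coe this

/-- an element of negative value is transcendental over the constants -/
theorem transcendental_of_addVal_neg (v : AddValuation F (WithTop ℤ))
    (hE : ∀ c : E, c ≠ 0 → v (algebraMap E F c) = 0) {x : F} {a : ℤ} (ha : a < 0)
    (hx : v x = (a : WithTop ℤ)) : Transcendental E x := by
  rw [Transcendental, IsAlgebraic]
  rintro ⟨g, hg, hroot⟩
  exact aeval_ne_zero_of_addVal v hE ha hx hg hroot

/-- an element of nonzero finite value is transcendental over the constants -/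
theorem transcendental_of_addVal_ne_zero (v : AddValuation F (WithTop ℤ))
    (hE : ∀ c : E, c ≠ 0 → v (algebraMap E F c) = 0) {x : F} {a : ℤ} (ha : a ≠ 0)
    (hx : v x = (a : WithTop ℤ)) : Transcendental E x := by
  rcases lt_or_gt_of_ne ha with h | h
  · exact transcendental_of_addVal_neg v hE h hx
  · have hinv : v x⁻¹ = ((-a : ℤ) : WithTop ℤ) := by
      rw [AddValuation.map_inv, hx]; rfl
    have := transcendental_of_addVal_neg v hE (by omega : -a < 0) hinv
    intro halg
    exact this halg.inv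

/-- On `E(x)`: two valuations trivial on `E` with the same negative value at `x` agree, with
values in `a ℤ`. -/
theorem addVal_mem_adjoin (v v' : AddValuation F (WithTop ℤ))
    (hE : ∀ c : E, c ≠ 0 → v (algebraMap E F c) = 0)
    (hE' : ∀ c : E, c ≠ 0 → v' (algebraMap E F c) = 0) {x : F} {a : ℤ} (ha : a < 0)
    (hx : v x = (a : WithTop ℤ)) (hx' : v' x = (a : WithTop ℤ))
    {r : F} (hr : r ∈ IntermediateField.adjoin E ({x} : Set F)) :
    v' r = v r ∧ (r ≠ 0 → ∃ m : ℤ, v r = ((m * a : ℤ) : WithTop ℤ)) := by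
  obtain ⟨g, h, rfl⟩ := (IntermediateField.mem_adjoin_simple_iff E r).mp hr
  by_cases hg : g = 0
  · simp [hg]
  by_cases hh : h = 0
  · simp [hh]
  have e1 := addVal_aeval_eq v hE ha hx hg
  have e2 := addVal_aeval_eq v hE ha hx hh
  have e1' := addVal_aeval_eq v' hE' ha hx' hg
  have e2' := addVal_aeval_eq v' hE' ha hx' hh
  have key : v (aeval x g / aeval x h) =
      (((g.natDegree : ℤ) - h.natDegree) * a : ℤ) := by
    rw [AddValuation.map_div, e1, e2]
    rw [← WithTop.LinearOrderedAddCommGroup.coe_sub]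
    congr 1
    ring
  have key' : v' (aeval x g / aeval x h) =
      (((g.natDegree : ℤ) - h.natDegree) * a : ℤ) := by
    rw [AddValuation.map_div, e1', e2']
    rw [← WithTop.LinearOrderedAddCommGroup.coe_sub]
    congr 1
    ring
  exact ⟨by rw [key, key'], fun _ => ⟨_, key⟩⟩

end Field

section Indep

variable {E F : Type*} [Field E] [Field F] [Algebra E F]

/-- One family: the value of `∑ Aᵢ uᵢ` is at most that of each term, and the second valuation of
the sum is strictly bigger. -/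
theorem addVal_one_side (v v' : AddValuation F (WithTop ℤ))
    (hE : ∀ c : E, c ≠ 0 → v (algebraMap E F c) = 0)
    (hE' : ∀ c : E, c ≠ 0 → v' (algebraMap E F c) = 0) {x : F} {a : ℤ} (ha : a < 0)
    (hx : v x = (a : WithTop ℤ)) (hx' : v' x = (a : WithTop ℤ))
    {ι : Type*} [Fintype ι] (e : ι → ℤ)
    (he : ∀ i i' : ι, ∀ m m' : ℤ, m * a + e i = m' * a + e i' → i = i')
    (u : ι → F) (hu : ∀ i, v (u i) = (e i : WithTop ℤ))
    (hu' : ∀ i, (e i : WithTop ℤ) + 1 ≤ v' (u i))
    (A : ι → F) (hA : ∀ i, A i ∈ IntermediateField.adjoin E ({x} : Set F)) :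
    (∀ j, v (∑ i, A i * u i) ≤ v (A j) + (e j : WithTop ℤ)) ∧
      v (∑ i, A i * u i) + 1 ≤ v' (∑ i, A i * u i) := by
  have hval : ∀ i, v (A i * u i) = v (A i) + (e i : WithTop ℤ) := fun i => by
    rw [AddValuation.map_mul, hu]
  have h1 : ∀ j, v (∑ i, A i * u i) ≤ v (A j) + (e j : WithTop ℤ) := by
    intro j
    rw [← hval j]
    apply addVal_sum_le_of_distinct v Finset.univ _ _ j (Finset.mem_univ j)
    intro i _ i' _ hii heq
    by_cases hi : A i = 0
    · rw [hi, zero_mul, AddValuation.map_zero]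
    by_cases hi' : A i' = 0
    · rw [heq, hi', zero_mul, AddValuation.map_zero]
    exfalso
    obtain ⟨m, hm⟩ := (addVal_mem_adjoin v v' hE hE' ha hx hx' (hA i)).2 hi
    obtain ⟨m', hm'⟩ := (addVal_mem_adjoin v v' hE hE' ha hx hx' (hA i')).2 hi'
    rw [hval, hval, hm, hm', ← WithTop.coe_add, ← WithTop.coe_add] at heq
    exact hii (he i i' m m' (WithTop.coe_injective heq))
  refine ⟨h1, ?_⟩
  apply AddValuation.map_le_sum
  intro i _
  rw [AddValuation.map_mul, (addVal_mem_adjoin v v' hE hE' ha hx hx' (hA i)).1]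
  calc v (∑ i, A i * u i) + 1 ≤ v (A i) + (e i : WithTop ℤ) + 1 := by
        gcongr
        exact h1 i
    _ = v (A i) + ((e i : WithTop ℤ) + 1) := by rw [add_assoc]
    _ ≤ v (A i) + v' (u i) := by
        gcongr
        exact hu' i

/-- **Two valuations give linear independence over `E(x)`.** -/
theorem linearIndependent_of_two_addVal (v v' : AddValuation F (WithTop ℤ))
    (hE : ∀ c : E, c ≠ 0 → v (algebraMap E F c) = 0)
    (hE' : ∀ c : E, c ≠ 0 → v' (algebraMap E F c) = 0) {x : F} {a : ℤ} (ha : a < 0)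
    (hx : v x = (a : WithTop ℤ)) (hx' : v' x = (a : WithTop ℤ))
    {ι : Type*} [Fintype ι] (e : ι → ℤ)
    (he : ∀ i i' : ι, ∀ m m' : ℤ, m * a + e i = m' * a + e i' → i = i')
    (u u' : ι → F) (hu : ∀ i, v (u i) = (e i : WithTop ℤ))
    (hu' : ∀ i, (e i : WithTop ℤ) + 1 ≤ v' (u i))
    (hw : ∀ i, v' (u' i) = (e i : WithTop ℤ))
    (hw' : ∀ i, (e i : WithTop ℤ) + 1 ≤ v (u' i)) :
    LinearIndependent (IntermediateField.adjoin E ({x} : Set F)) (Sum.elim u u') := by
  classical
  rw [Fintype.linearIndependent_iff]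
  intro g hg
  rw [Fintype.sum_sum_type] at hg
  simp only [Sum.elim_inl, Sum.elim_inr] at hg
  set A : ι → F := fun i => ((g (Sum.inl i) : IntermediateField.adjoin E ({x} : Set F)) : F)
    with hAdef
  set B : ι → F := fun i => ((g (Sum.inr i) : IntermediateField.adjoin E ({x} : Set F)) : F)
    with hBdef
  have hA : ∀ i, A i ∈ IntermediateField.adjoin E ({x} : Set F) := fun i => (g (Sum.inl i)).2
  have hB : ∀ i, B i ∈ IntermediateField.adjoin E ({x} : Set F) := fun i => (g (Sum.inr i)).2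
  have hsum : (∑ i, A i * u i) + ∑ i, B i * u' i = 0 := by
    rw [← hg]
    rfl
  obtain ⟨a1, a2⟩ := addVal_one_side v v' hE hE' ha hx hx' e he u hu hu' A hA
  obtain ⟨b1, b2⟩ := addVal_one_side v' v hE' hE ha hx' hx e he u' hw hw' B hB
  have hneg : (∑ i, B i * u' i) = -∑ i, A i * u i := by
    rw [eq_neg_iff_add_eq_zero, add_comm]; exact hsum
  rw [hneg, AddValuation.map_neg, AddValuation.map_neg] at b2
  simp only [hneg, AddValuation.map_neg] at b1
  set s := ∑ i, A i * u i with hs
  have htop : v s = ⊤ := by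
    apply withTop_int_eq_top_of_add_two_le
    calc v s + 2 = v s + 1 + 1 := by rw [add_assoc]; rfl
      _ ≤ v' s + 1 := by gcongr
      _ ≤ v s := b2
  have htop' : v' s = ⊤ := by
    rw [htop] at a2
    exact top_le_iff.mp (by simpa using a2)
  have hAz : ∀ i, A i = 0 := by
    intro i
    have h := a1 i
    rw [htop, top_le_iff] at h
    have : v (A i) = ⊤ := by
      by_contra hne
      obtain ⟨z, hz⟩ := WithTop.ne_top_iff_exists.mp hne
      rw [← hz, ← WithTop.coe_add] at h
      exact WithTop.coe_ne_top h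
    exact (AddValuation.top_iff v).mp this
  have hBz : ∀ i, B i = 0 := by
    intro i
    have h := b1 i
    rw [htop', top_le_iff] at h
    have : v' (B i) = ⊤ := by
      by_contra hne
      obtain ⟨z, hz⟩ := WithTop.ne_top_iff_exists.mp hne
      rw [← hz, ← WithTop.coe_add] at h
      exact WithTop.coe_ne_top h
    exact (AddValuation.top_iff v').mp this
  rintro (i | i)
  · exact Subtype.ext (hAz i)
  · exact Subtype.ext (hBz i)

end Indep

end Fermat.Agent.A2.Mod.H816

end

end
-- ===== PACK-END A2/Mod/H816/L8Abs.lean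

-- ===== PACK-BEGIN A2/Mod/H378/L11Abstract.lean
section


/-!
# A2 / MOD leaf L11 (helper378): residue degree one, abstract form

`K` a field, `V ⊆ K` a subring (a discrete valuation ring with uniformiser `w` in the
application), `O ⊆ V` a subring with `O ∩ w V = w O` and `O ∩ Vˣ = Oˣ`, `X ⊆ V` a set of
elements each satisfying a "Kronecker relation" `s (x - a) = w c` with `a ∈ O`,
`s, c ∈ B := O[X]`, `s ∈ Vˣ`.  If `K` is generated as a field by `O ∪ X`, then `V = O + w V`
(`ResOneData.exists_congr`): the localisation of `B` at `B ∩ w V` is a discrete valuation ring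
with fraction field `K` contained in `V`, hence equal to `V`, and its residue field is the
residue field of `O`.
-/

set_option autoImplicit false

namespace Fermat.Agent.A2.Mod.H378

variable {K : Type*} [Field K]

/-- The hypotheses of the abstract residue-degree-one lemma. -/
structure ResOneData (V O : Subring K) (w : K) (X : Set K) : Prop where
  O_le : ∀ x ∈ O, x ∈ V
  w_mem : w ∈ O
  w_ne : w ≠ 0
  w_nonunit : w⁻¹ ∉ V
  O_div : ∀ x ∈ O, x * w⁻¹ ∈ V → x * w⁻¹ ∈ O
  O_inv : ∀ x ∈ O, x⁻¹ ∈ V → x⁻¹ ∈ O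
  X_le : ∀ x ∈ X, x ∈ V
  disc : ∀ x ∈ V, x ≠ 0 → ∃ (n : ℕ) (u : K), u ∈ V ∧ u⁻¹ ∈ V ∧ x = w ^ n * u
  kron : ∀ x ∈ X, ∃ a ∈ O, ∃ s ∈ Subring.closure ((O : Set K) ∪ X), s ≠ 0 ∧ s⁻¹ ∈ V ∧
    ∃ c ∈ Subring.closure ((O : Set K) ∪ X), s * (x - a) = w * c
  gen : ∀ f : K, f ∈ Subfield.closure ((O : Set K) ∪ X)

namespace ResOneData

variable {V O : Subring K} {w : K} {X : Set K}

/-- `x ≡ g mod w V` for some `g ∈ O`. -/
def Cong (V O : Subring K) (w : K) (x : K) : Prop := ∃ g ∈ O, (x - g) * w⁻¹ ∈ V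

theorem w_mem_V (h : ResOneData V O w X) : w ∈ V := h.O_le w h.w_mem

theorem closure_le (h : ResOneData V O w X) : Subring.closure ((O : Set K) ∪ X) ≤ V := by
  rw [Subring.closure_le]
  rintro x (hx | hx)
  · exact h.O_le x hx
  · exact h.X_le x hx

theorem mem_closure_of_O (O : Subring K) (X : Set K) {x : K} (hx : x ∈ O) :
    x ∈ Subring.closure ((O : Set K) ∪ X) :=
  Subring.subset_closure (Or.inl hx)

theorem Cong.mem (h : ResOneData V O w X) {x : K} (hx : Cong V O w x) : x ∈ V := by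
  obtain ⟨g, hg, hv⟩ := hx
  have h1 : x = g + w * ((x - g) * w⁻¹) := by
    have := h.w_ne
    field_simp
    ring
  rw [h1]
  exact V.add_mem (h.O_le g hg) (V.mul_mem h.w_mem_V hv)

theorem Cong.of_O {x : K} (hx : x ∈ O) : Cong V O w x :=
  ⟨x, hx, by rw [sub_self, zero_mul]; exact V.zero_mem⟩

theorem Cong.add {x y : K} (hx : Cong V O w x) (hy : Cong V O w y) : Cong V O w (x + y) := by
  obtain ⟨g, hg, hv⟩ := hx
  obtain ⟨g', hg', hv'⟩ := hy
  refine ⟨g + g', O.add_mem hg hg', ?_⟩
  have : (x + y - (g + g')) * w⁻¹ = (x - g) * w⁻¹ + (y - g') * w⁻¹ := by ring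
  rw [this]
  exact V.add_mem hv hv'

theorem Cong.neg {x : K} (hx : Cong V O w x) : Cong V O w (-x) := by
  obtain ⟨g, hg, hv⟩ := hx
  refine ⟨-g, O.neg_mem hg, ?_⟩
  have : (-x - -g) * w⁻¹ = -((x - g) * w⁻¹) := by ring
  rw [this]
  exact V.neg_mem hv

theorem Cong.mul (h : ResOneData V O w X) {x y : K} (hx : Cong V O w x) (hy : Cong V O w y) :
    Cong V O w (x * y) := by
  have hyV := Cong.mem h hy
  obtain ⟨g, hg, hv⟩ := hx
  obtain ⟨g', hg', hv'⟩ := hy
  refine ⟨g * g', O.mul_mem hg hg', ?_⟩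
  have : (x * y - g * g') * w⁻¹ = (x - g) * w⁻¹ * y + g * ((y - g') * w⁻¹) := by ring
  rw [this]
  exact V.add_mem (V.mul_mem hv hyV) (V.mul_mem (h.O_le g hg) hv')

/-- A unit of `V` which is congruent to an element of `O` has its inverse congruent to an
element of `O`. -/
theorem Cong.inv (h : ResOneData V O w X) {x : K} (hx : Cong V O w x) (hx0 : x ≠ 0)
    (hxi : x⁻¹ ∈ V) : Cong V O w x⁻¹ := by
  obtain ⟨g, hg, hv⟩ := hx
  have hw := h.w_ne
  have hxg : x = g + w * ((x - g) * w⁻¹) := by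
    field_simp
    ring
  have hgV : g ∈ V := h.O_le g hg
  -- `g` is a unit of `V`
  have hg0 : g ≠ 0 := by
    rintro rfl
    apply h.w_nonunit
    have h1 : w⁻¹ = x⁻¹ * ((x - 0) * w⁻¹) := by
      rw [sub_zero]
      field_simp
    rw [h1]
    exact V.mul_mem hxi hv
  have hgi : g⁻¹ ∈ V := by
    obtain ⟨n, u, hu, hui, hgu⟩ := h.disc g hgV hg0
    rcases Nat.eq_zero_or_pos n with hn | hn
    · rw [hn, pow_zero, one_mul] at hgu
      rw [hgu]
      exact hui
    · exfalso
      apply h.w_nonunit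
      obtain ⟨m, rfl⟩ : ∃ m, n = m + 1 := ⟨n - 1, by omega⟩
      have h1 : w⁻¹ = x⁻¹ * (w ^ m * u + (x - g) * w⁻¹) := by
        have h2 : x = w * (w ^ m * u + (x - g) * w⁻¹) := by
          have h5 : w * (w ^ m * u + (x - g) * w⁻¹)
              = w ^ (m + 1) * u + w * ((x - g) * w⁻¹) := by ring
          rw [h5, ← hgu]
          exact hxg
        have h3 : w ^ m * u + (x - g) * w⁻¹ ≠ 0 := by
          intro h0
          rw [h0, mul_zero] at h2
          exact hx0 h2
        set z := w ^ m * u + (x - g) * w⁻¹ with hz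
        have h4 : x⁻¹ = w⁻¹ * z⁻¹ := by
          rw [h2, mul_inv]
        rw [h4, mul_assoc, inv_mul_cancel₀ h3, mul_one]
      rw [h1]
      exact V.mul_mem hxi (V.add_mem (V.mul_mem (V.pow_mem h.w_mem_V m) hu) hv)
  refine ⟨g⁻¹, h.O_inv g hg hgi, ?_⟩
  have : (x⁻¹ - g⁻¹) * w⁻¹ = -((x - g) * w⁻¹) * x⁻¹ * g⁻¹ := by
    field_simp
    ring
  rw [this]
  exact V.mul_mem (V.mul_mem (V.neg_mem hv) hxi) hgi

/-- Every element of `B = O[X]` is congruent to an element of `O`. -/
theorem cong_of_mem_closure (h : ResOneData V O w X) {b : K}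
    (hb : b ∈ Subring.closure ((O : Set K) ∪ X)) : Cong V O w b := by
  induction hb using Subring.closure_induction with
  | mem x hx =>
    rcases hx with hx | hx
    · exact Cong.of_O hx
    · obtain ⟨a, ha, s, hs, hs0, hsi, c, hc, he⟩ := h.kron x hx
      refine ⟨a, ha, ?_⟩
      have h1 : (x - a) * w⁻¹ = c * s⁻¹ := by
        have hw := h.w_ne
        field_simp
        rw [mul_comm, he, mul_comm]
      rw [h1]
      exact V.mul_mem (h.closure_le hc) hsi
  | zero => exact Cong.of_O O.zero_mem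
  | one => exact Cong.of_O O.one_mem
  | add x y _ _ hx hy => exact Cong.add hx hy
  | neg x _ hx => exact Cong.neg hx
  | mul x y _ _ hx hy => exact Cong.mul h hx hy

/-- The Kronecker relation for every element of `B = O[X]`. -/
theorem kron_closure (h : ResOneData V O w X) {b : K}
    (hb : b ∈ Subring.closure ((O : Set K) ∪ X)) :
    ∃ a ∈ O, ∃ s ∈ Subring.closure ((O : Set K) ∪ X), s ≠ 0 ∧ s⁻¹ ∈ V ∧
      ∃ c ∈ Subring.closure ((O : Set K) ∪ X), s * (b - a) = w * c := by
  induction hb using Subring.closure_induction with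
  | mem x hx =>
    rcases hx with hx | hx
    · exact ⟨x, hx, 1, Subring.one_mem _, one_ne_zero, by rw [inv_one]; exact V.one_mem,
        0, Subring.zero_mem _, by rw [sub_self, mul_zero, mul_zero]⟩
    · exact h.kron x hx
  | zero =>
    exact ⟨0, O.zero_mem, 1, Subring.one_mem _, one_ne_zero, by rw [inv_one]; exact V.one_mem,
        0, Subring.zero_mem _, by rw [sub_self, mul_zero, mul_zero]⟩
  | one =>
    exact ⟨1, O.one_mem, 1, Subring.one_mem _, one_ne_zero, by rw [inv_one]; exact V.one_mem,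
        0, Subring.zero_mem _, by rw [sub_self, mul_zero, mul_zero]⟩
  | add x y _ _ hx hy =>
    obtain ⟨a, ha, s, hs, hs0, hsi, c, hc, he⟩ := hx
    obtain ⟨a', ha', s', hs', hs0', hsi', c', hc', he'⟩ := hy
    refine ⟨a + a', O.add_mem ha ha', s * s', Subring.mul_mem _ hs hs', mul_ne_zero hs0 hs0', ?_,
      s' * c + s * c', Subring.add_mem _ (Subring.mul_mem _ hs' hc) (Subring.mul_mem _ hs hc'), ?_⟩
    · rw [mul_inv]
      exact V.mul_mem hsi hsi'
    · have : s * s' * (x + y - (a + a')) = s' * (s * (x - a)) + s * (s' * (y - a')) := by ring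
      rw [this, he, he']
      ring
  | neg x _ hx =>
    obtain ⟨a, ha, s, hs, hs0, hsi, c, hc, he⟩ := hx
    refine ⟨-a, O.neg_mem ha, s, hs, hs0, hsi, -c, Subring.neg_mem _ hc, ?_⟩
    have : s * (-x - -a) = -(s * (x - a)) := by ring
    rw [this, he]
    ring
  | mul x y hxB hyB hx hy =>
    obtain ⟨a, ha, s, hs, hs0, hsi, c, hc, he⟩ := hx
    obtain ⟨a', ha', s', hs', hs0', hsi', c', hc', he'⟩ := hy
    refine ⟨a * a', O.mul_mem ha ha', s * s', Subring.mul_mem _ hs hs', mul_ne_zero hs0 hs0', ?_,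
      c * s' * y + a * s * c', Subring.add_mem _
        (Subring.mul_mem _ (Subring.mul_mem _ hc hs') hyB)
        (Subring.mul_mem _ (Subring.mul_mem _ (mem_closure_of_O O X ha) hs) hc'), ?_⟩
    · rw [mul_inv]
      exact V.mul_mem hsi hsi'
    · have : s * s' * (x * y - a * a') = (s * (x - a)) * s' * y + a * s * (s' * (y - a')) := by
        ring
      rw [this, he, he']
      ring

/-- `B ∩ w V ⊆ w B_𝔪`. -/
theorem div_closure (h : ResOneData V O w X) {b : K}
    (hb : b ∈ Subring.closure ((O : Set K) ∪ X)) (hbw : b * w⁻¹ ∈ V) :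
    ∃ s ∈ Subring.closure ((O : Set K) ∪ X), s ≠ 0 ∧ s⁻¹ ∈ V ∧
      ∃ c ∈ Subring.closure ((O : Set K) ∪ X), s * b = w * c := by
  obtain ⟨a, ha, s, hs, hs0, hsi, c, hc, he⟩ := h.kron_closure hb
  have hw := h.w_ne
  have haw : a * w⁻¹ ∈ V := by
    have h1 : a * w⁻¹ = b * w⁻¹ - c * s⁻¹ := by
      have h2 : c = s * (b - a) * w⁻¹ := by
        rw [he]
        field_simp
      rw [h2]
      field_simp
      ring
    rw [h1]
    exact V.sub_mem hbw (V.mul_mem (h.closure_le hc) hsi)
  have haO : a * w⁻¹ ∈ O := h.O_div a ha haw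
  refine ⟨s, hs, hs0, hsi, s * (a * w⁻¹) + c,
    Subring.add_mem _ (Subring.mul_mem _ hs (mem_closure_of_O O X haO)) hc, ?_⟩
  have h1 : s * b = s * (b - a) + s * a := by ring
  rw [h1, he]
  field_simp
  ring

/-- Every nonzero element of `B` is `w ^ n` times a unit of `B_𝔪`. -/
theorem unit_closure (h : ResOneData V O w X) (n : ℕ) :
    ∀ b ∈ Subring.closure ((O : Set K) ∪ X), ∀ u : K, u ∈ V → u⁻¹ ∈ V → u ≠ 0 →
      b = w ^ n * u →
      ∃ s ∈ Subring.closure ((O : Set K) ∪ X), s ≠ 0 ∧ s⁻¹ ∈ V ∧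
        ∃ s' ∈ Subring.closure ((O : Set K) ∪ X), s' ≠ 0 ∧ s'⁻¹ ∈ V ∧ s * b = w ^ n * s' := by
  have hw := h.w_ne
  induction n with
  | zero =>
    intro b hb u hu hui hu0 hbu
    rw [pow_zero, one_mul] at hbu
    refine ⟨1, Subring.one_mem _, one_ne_zero, by rw [inv_one]; exact V.one_mem,
      b, hb, by rw [hbu]; exact hu0, by rw [hbu]; exact hui, by rw [pow_zero]⟩
  | succ n ih =>
    intro b hb u hu hui hu0 hbu
    have hbw : b * w⁻¹ ∈ V := by
      have : b * w⁻¹ = w ^ n * u := by
        rw [hbu, pow_succ]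
        field_simp
      rw [this]
      exact V.mul_mem (V.pow_mem h.w_mem_V n) hu
    obtain ⟨s, hs, hs0, hsi, c, hc, he⟩ := h.div_closure hb hbw
    have hc' : c = w ^ n * (s * u) := by
      have h1 : w * c = w * (w ^ n * (s * u)) := by
        rw [← he, hbu, pow_succ]
        ring
      exact mul_left_cancel₀ hw h1
    obtain ⟨s₁, hs₁, hs₁0, hs₁i, s₂, hs₂, hs₂0, hs₂i, he₁⟩ :=
      ih c hc (s * u) (V.mul_mem (h.closure_le hs) hu)
        (by rw [mul_inv]; exact V.mul_mem hsi hui) (mul_ne_zero hs0 hu0) hc'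
    refine ⟨s₁ * s, Subring.mul_mem _ hs₁ hs, mul_ne_zero hs₁0 hs0,
      by rw [mul_inv]; exact V.mul_mem hs₁i hsi, s₂, hs₂, hs₂0, hs₂i, ?_⟩
    rw [mul_assoc, he, mul_left_comm, he₁, pow_succ]
    ring

/-- Every element of `K` is a fraction of elements of `B`. -/
theorem exists_frac (h : ResOneData V O w X) (f : K) :
    ∃ b₁ ∈ Subring.closure ((O : Set K) ∪ X), ∃ b₂ ∈ Subring.closure ((O : Set K) ∪ X),
      b₂ ≠ 0 ∧ f * b₂ = b₁ := by
  have hf := h.gen f
  induction hf using Subfield.closure_induction with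
  | mem x hx =>
    exact ⟨x, Subring.subset_closure hx, 1, Subring.one_mem _, one_ne_zero, mul_one _⟩
  | one => exact ⟨1, Subring.one_mem _, 1, Subring.one_mem _, one_ne_zero, mul_one _⟩
  | add x y _ _ hx hy =>
    obtain ⟨b₁, hb₁, b₂, hb₂, h0, he⟩ := hx
    obtain ⟨b₁', hb₁', b₂', hb₂', h0', he'⟩ := hy
    refine ⟨b₁ * b₂' + b₁' * b₂, Subring.add_mem _ (Subring.mul_mem _ hb₁ hb₂')
      (Subring.mul_mem _ hb₁' hb₂), b₂ * b₂', Subring.mul_mem _ hb₂ hb₂', mul_ne_zero h0 h0', ?_⟩
    rw [← he, ← he']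
    ring
  | neg x _ hx =>
    obtain ⟨b₁, hb₁, b₂, hb₂, h0, he⟩ := hx
    exact ⟨-b₁, Subring.neg_mem _ hb₁, b₂, hb₂, h0, by rw [← he, neg_mul]⟩
  | inv x _ hx =>
    obtain ⟨b₁, hb₁, b₂, hb₂, h0, he⟩ := hx
    by_cases hx0 : x = 0
    · exact ⟨0, Subring.zero_mem _, 1, Subring.one_mem _, one_ne_zero,
        by rw [hx0, inv_zero, zero_mul]⟩
    · have hb₁0 : b₁ ≠ 0 := by
        rw [← he]
        exact mul_ne_zero hx0 h0
      refine ⟨b₂, hb₂, b₁, hb₁, hb₁0, ?_⟩
      rw [← he, ← mul_assoc, inv_mul_cancel₀ hx0, one_mul]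
  | mul x y _ _ hx hy =>
    obtain ⟨b₁, hb₁, b₂, hb₂, h0, he⟩ := hx
    obtain ⟨b₁', hb₁', b₂', hb₂', h0', he'⟩ := hy
    refine ⟨b₁ * b₁', Subring.mul_mem _ hb₁ hb₁', b₂ * b₂', Subring.mul_mem _ hb₂ hb₂',
      mul_ne_zero h0 h0', ?_⟩
    rw [← he, ← he']
    ring

/-- **Residue degree one.**  Every element of `V` is congruent modulo `w V` to an element
of `O`. -/
theorem exists_congr (h : ResOneData V O w X) {f : K} (hf : f ∈ V) :
    ∃ g ∈ O, (f - g) * w⁻¹ ∈ V := by
  have hw := h.w_ne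
  by_cases hf0 : f = 0
  · exact ⟨0, O.zero_mem, by rw [hf0, sub_zero, zero_mul]; exact V.zero_mem⟩
  obtain ⟨b₁, hb₁, b₂, hb₂, hb₂0, he⟩ := h.exists_frac f
  have hb₁0 : b₁ ≠ 0 := by
    rw [← he]
    exact mul_ne_zero hf0 hb₂0
  obtain ⟨n₁, u₁, hu₁, hu₁i, hbu₁⟩ := h.disc b₁ (h.closure_le hb₁) hb₁0
  obtain ⟨n₂, u₂, hu₂, hu₂i, hbu₂⟩ := h.disc b₂ (h.closure_le hb₂) hb₂0
  have hu₁0 : u₁ ≠ 0 := by
    rintro rfl
    rw [mul_zero] at hbu₁
    exact hb₁0 hbu₁
  have hu₂0 : u₂ ≠ 0 := by
    rintro rfl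
    rw [mul_zero] at hbu₂
    exact hb₂0 hbu₂
  obtain ⟨s₁, hs₁, hs₁0, hs₁i, t₁, ht₁, ht₁0, ht₁i, he₁⟩ :=
    h.unit_closure n₁ b₁ hb₁ u₁ hu₁ hu₁i hu₁0 hbu₁
  obtain ⟨s₂, hs₂, hs₂0, hs₂i, t₂, ht₂, ht₂0, ht₂i, he₂⟩ :=
    h.unit_closure n₂ b₂ hb₂ u₂ hu₂ hu₂i hu₂0 hbu₂
  -- `n₂ ≤ n₁`
  have hle : n₂ ≤ n₁ := by
    by_contra hlt
    rw [not_le] at hlt
    obtain ⟨m, rfl⟩ : ∃ m, n₂ = n₁ + (m + 1) := ⟨n₂ - n₁ - 1, by omega⟩
    apply h.w_nonunit
    have h1 : w⁻¹ = w ^ m * f * u₂ * u₁⁻¹ := by
      have h2 : f * (w ^ (n₁ + (m + 1)) * u₂) = w ^ n₁ * u₁ := by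
        rw [← hbu₂, ← hbu₁, he]
      have h3 : w ^ n₁ * (w * (w ^ m * f * u₂ * u₁⁻¹)) = w ^ n₁ * 1 := by
        have : w ^ n₁ * (w * (w ^ m * f * u₂ * u₁⁻¹))
            = f * (w ^ (n₁ + (m + 1)) * u₂) * u₁⁻¹ := by
          rw [pow_add, pow_succ]
          ring
        rw [this, h2, mul_assoc, mul_inv_cancel₀ hu₁0]
      have h4 := mul_left_cancel₀ (pow_ne_zero n₁ hw) h3
      exact (eq_inv_of_mul_eq_one_right h4).symm ▸ rfl
    rw [h1]
    exact V.mul_mem (V.mul_mem (V.mul_mem (V.pow_mem h.w_mem_V m) hf) hu₂) hu₁i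
  obtain ⟨k, rfl⟩ : ∃ k, n₁ = n₂ + k := ⟨n₁ - n₂, by omega⟩
  -- `f = w ^ k * (t₁ s₂) / (s₁ t₂)`
  have hfe : f = w ^ k * ((t₁ * s₂) * (s₁ * t₂)⁻¹) := by
    have h1 : b₁ = w ^ (n₂ + k) * t₁ * s₁⁻¹ := by
      rw [← he₁]
      field_simp
    have h2 : b₂ = w ^ n₂ * t₂ * s₂⁻¹ := by
      rw [← he₂]
      field_simp
    have h3 : f = b₁ * b₂⁻¹ := by
      rw [← he]
      field_simp
    rw [h3, h1, h2, pow_add]
    field_simp
  have hC : Cong V O w f := by
    rw [hfe]
    refine Cong.mul h ?_ (Cong.mul h (Cong.mul h (h.cong_of_mem_closure ht₁)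
      (h.cong_of_mem_closure hs₂)) ?_)
    · exact Cong.of_O (O.pow_mem h.w_mem k)
    · refine Cong.inv h (Cong.mul h (h.cong_of_mem_closure hs₁) (h.cong_of_mem_closure ht₂))
        (mul_ne_zero hs₁0 ht₂0) ?_
      rw [mul_inv]
      exact V.mul_mem hs₁i ht₂i
  exact hC

end ResOneData

end Fermat.Agent.A2.Mod.H378

end
-- ===== PACK-END A2/Mod/H378/L11Abstract.lean

-- ===== PACK-BEGIN S18/H602/LaurentDeriv.lean
section


/-!
# The derivation `d/dq` of `k((q))`  (helper602, S18 / MOD piece SEP, part 1)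

Mathlib has `LaurentSeries.derivative` as a linear map only.  We prove the Leibniz rule and bundle
it as a `Derivation k k((q)) k((q))`.

* `dq_mul` : `d/dq (f g) = f · d/dq g + g · d/dq f`.
* `dqDer k : Derivation k (LaurentSeries k) (LaurentSeries k)`.
-/

set_option autoImplicit false

noncomputable section

namespace Fermat.Agent.S18.H602

open HahnSeries

variable {k : Type*} [CommRing k]

/-- `d/dq` on `k((q))`. -/
def dq (f : LaurentSeries k) : LaurentSeries k := LaurentSeries.derivative k f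

@[simp]
theorem dq_coeff (f : LaurentSeries k) (n : ℤ) : (dq f).coeff n = (n + 1) • f.coeff (n + 1) := by
  simp [dq]

theorem dq_add (f g : LaurentSeries k) : dq (f + g) = dq f + dq g := map_add _ f g

theorem dq_single_mul (n : ℤ) (h : LaurentSeries k) :
    dq (single n (1 : k) * h) = n • (single (n - 1) (1 : k) * h) + single n (1 : k) * dq h := by
  ext m
  simp only [dq_coeff, coeff_add, coeff_single_mul, one_mul, HahnSeries.coeff_smul]
  have e1 : m + 1 - n = m - (n - 1) := by ring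
  have e2 : m - n + 1 = m - (n - 1) := by ring
  rw [e1, e2]
  simp only [zsmul_eq_mul]
  push_cast
  ring

theorem dq_ofPowerSeries (F : PowerSeries k) :
    dq (ofPowerSeries ℤ k F) = ofPowerSeries ℤ k (PowerSeries.derivative k F) := by
  ext m
  rw [dq_coeff]
  rcases lt_or_ge m 0 with hm | hm
  · have h1 : ((ofPowerSeries ℤ k) ((PowerSeries.derivative k) F)).coeff m = 0 := by
      rw [ofPowerSeries_apply]
      apply HahnSeries.embDomain_of_notMem_range
      rintro ⟨a, ha⟩
      have : (0 : ℤ) ≤ m := by rw [← ha]; simp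
      omega
    rw [h1]
    rcases eq_or_lt_of_le (show m + 1 ≤ 0 by omega) with h0 | h0
    · rw [h0]; simp
    · have h2 : ((ofPowerSeries ℤ k) F).coeff (m + 1) = 0 := by
        rw [ofPowerSeries_apply]
        apply HahnSeries.embDomain_of_notMem_range
        rintro ⟨a, ha⟩
        have : (0 : ℤ) ≤ m + 1 := by rw [← ha]; simp
        omega
      rw [h2, smul_zero]
  · lift m to ℕ using hm
    have e : ((m : ℤ) + 1) = ((m + 1 : ℕ) : ℤ) := by push_cast; ring
    rw [ofPowerSeries_apply_coeff, PowerSeries.coeff_derivative, e, ofPowerSeries_apply_coeff]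
    simp only [zsmul_eq_mul]
    push_cast
    ring

theorem dq_ofPowerSeries_mul (F G : PowerSeries k) :
    dq (ofPowerSeries ℤ k F * ofPowerSeries ℤ k G) =
      ofPowerSeries ℤ k F * dq (ofPowerSeries ℤ k G) +
        ofPowerSeries ℤ k G * dq (ofPowerSeries ℤ k F) := by
  rw [← map_mul, dq_ofPowerSeries, dq_ofPowerSeries, dq_ofPowerSeries, Derivation.leibniz,
    map_add, smul_eq_mul, smul_eq_mul, map_mul, map_mul]

/-- **Leibniz rule** for `d/dq` on Laurent series. -/
theorem dq_mul (f g : LaurentSeries k) : dq (f * g) = f * dq g + g * dq f := by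
  obtain ⟨a, F, rfl⟩ : ∃ (a : ℤ) (F : PowerSeries k), single a (1 : k) * ofPowerSeries ℤ k F = f :=
    ⟨_, _, LaurentSeries.single_order_mul_powerSeriesPart f⟩
  obtain ⟨b, G, rfl⟩ : ∃ (b : ℤ) (G : PowerSeries k), single b (1 : k) * ofPowerSeries ℤ k G = g :=
    ⟨_, _, LaurentSeries.single_order_mul_powerSeriesPart g⟩
  set F' := ofPowerSeries ℤ k F with hF'
  set G' := ofPowerSeries ℤ k G with hG'
  have h1 : single a (1 : k) * F' * (single b (1 : k) * G') =
      single (a + b) (1 : k) * (F' * G') := by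
    rw [mul_mul_mul_comm, single_mul_single, one_mul]
  have s1 : (single (a - 1) (1 : k) : LaurentSeries k) * single b (1 : k) =
      single (a + b - 1) (1 : k) := by
    rw [single_mul_single, one_mul, show a - 1 + b = a + b - 1 by ring]
  have s2 : (single a (1 : k) : LaurentSeries k) * single (b - 1) (1 : k) =
      single (a + b - 1) (1 : k) := by
    rw [single_mul_single, one_mul, show a + (b - 1) = a + b - 1 by ring]
  have s3 : (single a (1 : k) : LaurentSeries k) * single b (1 : k) =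
      single (a + b) (1 : k) := by
    rw [single_mul_single, one_mul]
  rw [h1, dq_single_mul, dq_single_mul, dq_single_mul, dq_ofPowerSeries_mul]
  simp only [zsmul_eq_mul]
  push_cast
  linear_combination ((a : LaurentSeries k) * F' * G' ) * s1.symm +
    ((b : LaurentSeries k) * F' * G') * s2.symm +
    (F' * dq G' + G' * dq F') * s3.symm

theorem dq_C (c : k) : dq (C c : LaurentSeries k) = 0 := by
  ext m
  rw [dq_coeff, coeff_zero]
  by_cases h : m + 1 = 0
  · rw [h]; simp
  · rw [C_apply, coeff_single_of_ne h, smul_zero]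

theorem dq_one : dq (1 : LaurentSeries k) = 0 := by
  have := dq_C (1 : k)
  rwa [map_one] at this

theorem algebraMap_eq_C (c : k) : algebraMap k (LaurentSeries k) c = C c := by
  have h1 : algebraMap k (PowerSeries k) c = PowerSeries.C c := by simp
  rw [HahnSeries.algebraMap_apply', h1, HahnSeries.ofPowerSeries_C]

theorem dq_algebraMap (c : k) : dq (algebraMap k (LaurentSeries k) c) = 0 := by
  rw [algebraMap_eq_C]
  exact dq_C c

/-- `d/dq` as a `k`-derivation of `k((q))`. -/
def dqDer (k : Type*) [CommRing k] : Derivation k (LaurentSeries k) (LaurentSeries k) where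
  toFun := dq
  map_add' := dq_add
  map_smul' c f := by
    rw [Algebra.smul_def, dq_mul, dq_algebraMap, mul_zero, add_zero, RingHom.id_apply,
      algebraMap_eq_C, HahnSeries.C_mul_eq_smul]
  map_one_eq_zero' := dq_one
  leibniz' a b := by
    have := dq_mul a b
    simpa [smul_eq_mul] using this

@[simp]
theorem dqDer_apply (f : LaurentSeries k) : dqDer k f = dq f := rfl

end Fermat.Agent.S18.H602

end
end
-- ===== PACK-END S18/H602/LaurentDeriv.lean

-- ===== PACK-BEGIN A2/H643/BaseOver.lean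
section




/-!
# Cell A2, route G, leaf BASE — lying over `(π)` (helper643)

`A` an integrally closed domain, `B` a domain, integral and faithful over `A`, `π ∈ A` prime,
`w = π` in `B`, and two incomparable primes `p₁`, `p₂` of `B` with `p₁ ⊓ p₂ = (w)`.  Then
`p₁` and `p₂` lie over `(π)` (going down), and they are the only primes of `B` lying over `(π)`
(incomparability).
-/

set_option autoImplicit false
set_option linter.unusedSectionVars false

namespace Fermat.Agent.A2.H643

section Over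

variable {A B : Type*} [CommRing A] [IsDomain A] [IsIntegrallyClosed A]
  [CommRing B] [IsDomain B] [Algebra A B] [FaithfulSMul A B] [Algebra.IsIntegral A B]

/-- A prime `p₁` which is a component of `(w)` lies over `(π)`. -/
theorem over_under_eq {π : A} (hπ : Prime π) {p₁ p₂ : Ideal B} [hp₁ : p₁.IsPrime]
    (hinf : p₁ ⊓ p₂ = Ideal.span {algebraMap A B π}) (hle : ¬ p₂ ≤ p₁) :
    p₁.comap (algebraMap A B) = Ideal.span {π} := by
  have hq₀ : (Ideal.span {π} : Ideal A).IsPrime :=
    (Ideal.span_singleton_prime hπ.ne_zero).2 hπ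
  have hwp : algebraMap A B π ∈ p₁ := by
    have h : algebraMap A B π ∈ p₁ ⊓ p₂ := by
      rw [hinf]
      exact Ideal.mem_span_singleton_self _
    exact h.1
  have hle0 : Ideal.span {π} ≤ p₁.under A := by
    rw [Ideal.span_singleton_le_iff_mem]
    exact hwp
  obtain ⟨P, hPle, hPprime, hPover⟩ :=
    Ideal.exists_ideal_le_liesOver_of_le (p := Ideal.span {π}) (q := p₁.under A) p₁ hle0
  have hPu : Ideal.span {π} = P.under A := hPover.over
  have hwP : algebraMap A B π ∈ P := by
    have h1 : π ∈ P.under A := by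
      rw [← hPu]
      exact Ideal.mem_span_singleton_self _
    exact h1
  have h2 : p₁ ⊓ p₂ ≤ P := by
    rw [hinf, Ideal.span_singleton_le_iff_mem]
    exact hwP
  rcases hPprime.inf_le.1 h2 with h3 | h3
  · have hP : P = p₁ := le_antisymm hPle h3
    rw [hPu, hP]
  · exact absurd (h3.trans hPle) hle

/-- The components are the only primes lying over `(π)`. -/
theorem eq_or_eq_of_under_eq {π : A} (hπ : Prime π) {p₁ p₂ : Ideal B} [hp₁ : p₁.IsPrime]
    [hp₂ : p₂.IsPrime] (hinf : p₁ ⊓ p₂ = Ideal.span {algebraMap A B π})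
    (h₁₂ : ¬ p₁ ≤ p₂) (h₂₁ : ¬ p₂ ≤ p₁) {P : Ideal B} (hP : P.IsPrime)
    (hPu : P.comap (algebraMap A B) = Ideal.span {π}) : P = p₁ ∨ P = p₂ := by
  have hwP : algebraMap A B π ∈ P := by
    have h1 : π ∈ P.comap (algebraMap A B) := by
      rw [hPu]
      exact Ideal.mem_span_singleton_self _
    exact h1
  have h2 : p₁ ⊓ p₂ ≤ P := by
    rw [hinf, Ideal.span_singleton_le_iff_mem]
    exact hwP
  have hinf' : p₂ ⊓ p₁ = Ideal.span {algebraMap A B π} := by rw [inf_comm, hinf]
  have key : ∀ (p p' : Ideal B) [p.IsPrime], p ⊓ p' = Ideal.span {algebraMap A B π} →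
      ¬ p' ≤ p → p ≤ P → P = p := by
    intro p p' _ hi hl hle
    by_contra hne
    have hlt : p < P := lt_of_le_of_ne hle (Ne.symm hne)
    obtain ⟨b, hbP, hbp⟩ := SetLike.exists_of_lt hlt
    have h3 := Ideal.comap_lt_comap_of_integral_mem_sdiff (R := A) hle ⟨hbP, hbp⟩
      (Algebra.IsIntegral.isIntegral b)
    rw [over_under_eq hπ hi hl, hPu] at h3
    exact lt_irrefl _ h3
  rcases hP.inf_le.1 h2 with h3 | h3
  · exact Or.inl (key p₁ p₂ hinf h₂₁ h3)
  · exact Or.inr (key p₂ p₁ hinf' h₁₂ h3)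

end Over

end Fermat.Agent.A2.H643

end
-- ===== PACK-END A2/H643/BaseOver.lean

-- ===== PACK-BEGIN S36/H878/Congr4.lean
section




/-!
# `γ(t₄) ≡ α(t₄)` from `γ(j_d) ≡ α(j_d)`, `d ∣ 4` (helper878, S36 REG / R4)

Mathlib only.  `V` a valuation subring of a field `L` (application: `V = V_mid`).  Unprimed
letters: images under `α` (inclusion `F_M → F_{q² M}`); primed letters: images under
`γ : f(t) ↦ f(t^{q²})`.  The Hauptmoduln are rational in the `j_d`:

  `U₂(j, j₂) · t₂ = W₂(j, j₂)`       (`Lib.Haupt.t2_lin`),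
  `U₂(j₂, j₄) · t₂(t²) = W₂(j₂, j₄)`  (`qExpand 2` of it),
  `t₄ · (t₂ + 16) = t₂(t²) - 16 t₂`   (`Haupt4.t4_mul`),

so congruences `j_d' ≡ j_d mod 𝔪_V` propagate to `t₄' ≡ t₄ mod 𝔪_V` as soon as the denominators
`U₂(j, j₂)`, `U₂(j₂, j₄)`, `t₂ + 16` are units of `V` (Gauss units: their `t`-expansions have
leading coefficient `1`).  This is hypothesis `hx` of `hres_transfer4`.
-/

set_option autoImplicit false

namespace Fermat.Agent.S36.H878

variable {L : Type*} [Field L]

theorem mul_mem_nonunits_of_mem (V : ValuationSubring L) {a b : L}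
    (ha : a ∈ V) (hb : b ∈ V.nonunits) : a * b ∈ V.nonunits := by
  rw [ValuationSubring.mem_nonunits_iff, map_mul, mul_comm]
  exact mul_lt_one_of_lt_of_le ((V.mem_nonunits_iff).1 hb) ((V.valuation_le_one_iff _).2 ha)

theorem mem_of_mem_nonunits' (V : ValuationSubring L) {a : L} (ha : a ∈ V.nonunits) : a ∈ V :=
  (V.valuation_le_one_iff _).1 ((V.mem_nonunits_iff).1 ha).le

theorem valuation_eq_one_of_sub_mem_nonunits (V : ValuationSubring L) {a b : L}
    (ha : V.valuation a = 1) (hab : b - a ∈ V.nonunits) : V.valuation b = 1 := by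
  have h1 : V.valuation (b - a) < V.valuation a := by
    rw [ha]; exact (V.mem_nonunits_iff).1 hab
  have h2 := Valuation.map_add_eq_of_lt_right V.valuation h1
  rw [sub_add_cancel] at h2
  rw [h2, ha]

/-- If `U t = W`, `U' t' = W'` with `U` a unit of `V`, `U' ≡ U`, `W' ≡ W` modulo `𝔪_V`, then
`t, t' ∈ V` and `t' ≡ t`. -/
theorem lin_congr (V : ValuationSubring L) {U W t U' W' t' : L}
    (hU : V.valuation U = 1) (hW : W ∈ V) (hW' : W' ∈ V)
    (h : U * t = W) (h' : U' * t' = W')
    (hUU : U' - U ∈ V.nonunits) (hWW : W' - W ∈ V.nonunits) :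
    t ∈ V ∧ t' ∈ V ∧ t' - t ∈ V.nonunits := by
  have hU' : V.valuation U' = 1 := valuation_eq_one_of_sub_mem_nonunits V hU hUU
  have hU0 : U ≠ 0 := fun h0 => by rw [h0, map_zero] at hU; exact zero_ne_one hU
  have hU'0 : U' ≠ 0 := fun h0 => by rw [h0, map_zero] at hU'; exact zero_ne_one hU'
  have ht : t = W * U⁻¹ := by rw [← h]; field_simp
  have ht' : t' = W' * U'⁻¹ := by rw [← h']; field_simp
  have hvt : V.valuation t ≤ 1 := by
    rw [ht, map_mul, map_inv₀, hU, inv_one, mul_one]
    exact (V.valuation_le_one_iff _).2 hW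
  have hvt' : V.valuation t' ≤ 1 := by
    rw [ht', map_mul, map_inv₀, hU', inv_one, mul_one]
    exact (V.valuation_le_one_iff _).2 hW'
  refine ⟨(V.valuation_le_one_iff _).1 hvt, (V.valuation_le_one_iff _).1 hvt', ?_⟩
  have e : t' - t = ((W' - W) - t * (U' - U)) * U'⁻¹ := by
    rw [ht', ht]; field_simp; ring
  have hnum : (W' - W) - t * (U' - U) ∈ V.nonunits :=
    sub_mem hWW (mul_mem_nonunits_of_mem V ((V.valuation_le_one_iff _).1 hvt) hUU)
  rw [ValuationSubring.mem_nonunits_iff, e, map_mul, map_inv₀, hU', inv_one, mul_one]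
  exact (V.mem_nonunits_iff).1 hnum

theorem sub_mem_nonunits_of_mul (V : ValuationSubring L) {a b a' b' : L}
    (ha : a ∈ V) (hb' : b' ∈ V) (haa : a' - a ∈ V.nonunits) (hbb : b' - b ∈ V.nonunits) :
    a' * b' - a * b ∈ V.nonunits := by
  have e : a' * b' - a * b = b' * (a' - a) + a * (b' - b) := by ring
  rw [e]
  exact add_mem (mul_mem_nonunits_of_mem V hb' haa) (mul_mem_nonunits_of_mem V ha hbb)

/-- `U₂(x, y) = x y - 720 x - 720 y - 16250625` respects congruences modulo `𝔪_V`. -/
theorem U2_congr (V : ValuationSubring L) {x y x' y' : L}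
    (hx : x ∈ V) (hy' : y' ∈ V) (hxx : x' - x ∈ V.nonunits) (hyy : y' - y ∈ V.nonunits) :
    (x' * y' - 720 * x' - 720 * y' - 16250625) - (x * y - 720 * x - 720 * y - 16250625)
      ∈ V.nonunits := by
  have h1 := sub_mem_nonunits_of_mul V hx hy' hxx hyy
  have e : (x' * y' - 720 * x' - 720 * y' - 16250625) - (x * y - 720 * x - 720 * y - 16250625)
      = (x' * y' - x * y) - (720 * (x' - x) + 720 * (y' - y)) := by ring
  rw [e]
  have h720 : (720 : L) ∈ V := ofNat_mem V 720
  exact sub_mem h1 (add_mem (mul_mem_nonunits_of_mem V h720 hxx)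
    (mul_mem_nonunits_of_mem V h720 hyy))

/-- `W₂(x, y) = y² + 4095 x + 195120 y + 660960000` respects congruences modulo `𝔪_V`. -/
theorem W2_congr (V : ValuationSubring L) {x y x' y' : L}
    (hy : y ∈ V) (hy' : y' ∈ V) (hxx : x' - x ∈ V.nonunits) (hyy : y' - y ∈ V.nonunits) :
    (y' ^ 2 + 4095 * x' + 195120 * y' + 660960000) - (y ^ 2 + 4095 * x + 195120 * y + 660960000)
      ∈ V.nonunits := by
  have e : (y' ^ 2 + 4095 * x' + 195120 * y' + 660960000)
        - (y ^ 2 + 4095 * x + 195120 * y + 660960000)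
      = (y' + y) * (y' - y) + (4095 * (x' - x) + 195120 * (y' - y)) := by ring
  rw [e]
  exact add_mem (mul_mem_nonunits_of_mem V (add_mem hy' hy) hyy)
    (add_mem (mul_mem_nonunits_of_mem V (ofNat_mem V 4095) hxx)
      (mul_mem_nonunits_of_mem V (ofNat_mem V 195120) hyy))

theorem U2_mem (V : ValuationSubring L) {x y : L} (hx : x ∈ V) (hy : y ∈ V) :
    x * y - 720 * x - 720 * y - 16250625 ∈ V :=
  sub_mem (sub_mem (sub_mem (mul_mem hx hy) (mul_mem (ofNat_mem V 720) hx))
    (mul_mem (ofNat_mem V 720) hy)) (ofNat_mem V 16250625)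

theorem W2_mem (V : ValuationSubring L) {x y : L} (hx : x ∈ V) (hy : y ∈ V) :
    y ^ 2 + 4095 * x + 195120 * y + 660960000 ∈ V :=
  add_mem (add_mem (add_mem (pow_mem hy 2) (mul_mem (ofNat_mem V 4095) hx))
    (mul_mem (ofNat_mem V 195120) hy)) (ofNat_mem V 660960000)

/-- **`t₂' ≡ t₂`** from `j' ≡ j`, `j₂' ≡ j₂`. -/
theorem t2_congr (V : ValuationSubring L) {j j2 t2 j' j2' t2' : L}
    (hj : j ∈ V) (hj2 : j2 ∈ V)
    (c1 : j' - j ∈ V.nonunits) (c2 : j2' - j2 ∈ V.nonunits)
    (hU : V.valuation (j * j2 - 720 * j - 720 * j2 - 16250625) = 1)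
    (l : (j * j2 - 720 * j - 720 * j2 - 16250625) * t2
      = j2 ^ 2 + 4095 * j + 195120 * j2 + 660960000)
    (l' : (j' * j2' - 720 * j' - 720 * j2' - 16250625) * t2'
      = j2' ^ 2 + 4095 * j' + 195120 * j2' + 660960000) :
    t2 ∈ V ∧ t2' ∈ V ∧ t2' - t2 ∈ V.nonunits := by
  have hj' : j' ∈ V := by
    have := add_mem (mem_of_mem_nonunits' V c1) hj
    simpa using this
  have hj2' : j2' ∈ V := by
    have := add_mem (mem_of_mem_nonunits' V c2) hj2
    simpa using this
  exact lin_congr V hU (W2_mem V hj hj2) (W2_mem V hj' hj2') l l'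
    (U2_congr V hj hj2' c1 c2) (W2_congr V hj2 hj2' c1 c2)

/-- **`γ(t₄) ≡ α(t₄)` modulo `𝔪_V`** from `γ(j_d) ≡ α(j_d)`, `d ∈ {1, 2, 4}`. -/
theorem t4_congr (V : ValuationSubring L) {j j2 j4 t2 t2e t4 j' j2' j4' t2' t2e' t4' : L}
    (hj : j ∈ V) (hj2 : j2 ∈ V) (hj4 : j4 ∈ V)
    (c1 : j' - j ∈ V.nonunits) (c2 : j2' - j2 ∈ V.nonunits) (c4 : j4' - j4 ∈ V.nonunits)
    (hU : V.valuation (j * j2 - 720 * j - 720 * j2 - 16250625) = 1)
    (hUe : V.valuation (j2 * j4 - 720 * j2 - 720 * j4 - 16250625) = 1)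
    (h16 : V.valuation (t2 + 16) = 1)
    (l1 : (j * j2 - 720 * j - 720 * j2 - 16250625) * t2
      = j2 ^ 2 + 4095 * j + 195120 * j2 + 660960000)
    (l2 : (j2 * j4 - 720 * j2 - 720 * j4 - 16250625) * t2e
      = j4 ^ 2 + 4095 * j2 + 195120 * j4 + 660960000)
    (l3 : t4 * (t2 + 16) = t2e - 16 * t2)
    (l1' : (j' * j2' - 720 * j' - 720 * j2' - 16250625) * t2'
      = j2' ^ 2 + 4095 * j' + 195120 * j2' + 660960000)
    (l2' : (j2' * j4' - 720 * j2' - 720 * j4' - 16250625) * t2e'
      = j4' ^ 2 + 4095 * j2' + 195120 * j4' + 660960000)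
    (l3' : t4' * (t2' + 16) = t2e' - 16 * t2') :
    t4 ∈ V ∧ t4' ∈ V ∧ t4' - t4 ∈ V.nonunits := by
  obtain ⟨ht2, ht2', d2⟩ := t2_congr V hj hj2 c1 c2 hU l1 l1'
  obtain ⟨ht2e, ht2e', d2e⟩ := t2_congr V hj2 hj4 c2 c4 hUe l2 l2'
  have h16V : (16 : L) ∈ V := ofNat_mem V 16
  refine lin_congr V (U := t2 + 16) (U' := t2' + 16) (W := t2e - 16 * t2)
    (W' := t2e' - 16 * t2') h16 (sub_mem ht2e (mul_mem h16V ht2))
    (sub_mem ht2e' (mul_mem h16V ht2')) (by rw [mul_comm]; exact l3)
    (by rw [mul_comm]; exact l3') ?_ ?_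
  · have e : t2' + 16 - (t2 + 16) = t2' - t2 := by ring
    rw [e]; exact d2
  · have e : t2e' - 16 * t2' - (t2e - 16 * t2) = (t2e' - t2e) - 16 * (t2' - t2) := by ring
    rw [e]
    exact sub_mem d2e (mul_mem_nonunits_of_mem V h16V d2)

end Fermat.Agent.S36.H878

end
-- ===== PACK-END S36/H878/Congr4.lean

-- ===== PACK-BEGIN S28/H205/Conv.lean
section




/-!
# S28 analytic toolkit, part 1: convergent Laurent series on the upper half plane

`ConvTo N φ f` : the formal Laurent series `φ ∈ ℂ((t))` converges on all of `ℍ`, in the local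
parameter `t = t_N(τ) = exp(2πiτ/N)`, to the function `f : ℍ → ℂ`.

Main API: closure under ring operations, uniqueness of the series, holomorphy of the limit,
inverses, substitutions `τ ↦ (aτ+b)/d`, descent along `τ ↦ τ + 1`.
-/

set_option autoImplicit false

noncomputable section

open UpperHalfPlane Complex HahnSeries
open scoped Real Manifold

namespace Fermat.Agent.S28.H205

section Twist

variable {R : Type*} [CommRing R]

/-- The substitution `t ↦ u t` on Laurent series, for a unit `u`. -/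
def twistFun (u : Rˣ) (φ : LaurentSeries R) : LaurentSeries R where
  coeff n := φ.coeff n * ((u ^ n : Rˣ) : R)
  isPWO_support' := φ.isPWO_support.mono (fun n hn => by
    simp only [Function.mem_support, ne_eq] at hn ⊢
    exact fun h => hn (by rw [h, zero_mul]))

@[simp] theorem twistFun_coeff (u : Rˣ) (φ : LaurentSeries R) (n : ℤ) :
    (_root_.Fermat.Agent.S28.H205.twistFun u φ).coeff n = φ.coeff n * ((u ^ n : Rˣ) : R) := rfl

theorem support_twistFun (u : Rˣ) (φ : LaurentSeries R) :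
    (_root_.Fermat.Agent.S28.H205.twistFun u φ).support = φ.support := by
  ext n
  simp only [HahnSeries.mem_support, _root_.Fermat.Agent.S28.H205.twistFun_coeff, ne_eq]
  constructor
  · exact fun h h0 => h (by rw [h0, zero_mul])
  · intro h h0
    exact h ((Units.mul_left_eq_zero _).mp h0)

theorem twistFun_mul (u : Rˣ) (φ ψ : LaurentSeries R) :
    _root_.Fermat.Agent.S28.H205.twistFun u (φ * ψ) = _root_.Fermat.Agent.S28.H205.twistFun u φ * _root_.Fermat.Agent.S28.H205.twistFun u ψ := by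
  ext n
  rw [_root_.Fermat.Agent.S28.H205.twistFun_coeff, HahnSeries.coeff_mul, HahnSeries.coeff_mul, Finset.sum_mul]
  have hfin : Finset.antidiagonal (_root_.Fermat.Agent.S28.H205.twistFun u φ).isPWO_support (_root_.Fermat.Agent.S28.H205.twistFun u ψ).isPWO_support n
      = Finset.antidiagonal φ.isPWO_support ψ.isPWO_support n := by
    ext ⟨i, j⟩
    simp only [Finset.mem_antidiagonal, support_twistFun]
  rw [hfin]
  refine Finset.sum_congr rfl fun ij hij => ?_
  obtain ⟨-, -, hsum⟩ := Finset.mem_antidiagonal.mp hij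
  rw [_root_.Fermat.Agent.S28.H205.twistFun_coeff, _root_.Fermat.Agent.S28.H205.twistFun_coeff, ← hsum, zpow_add, Units.val_mul]
  ring

/-- The substitution `t ↦ u t` on Laurent series, as a ring homomorphism. -/
def twist (u : Rˣ) : LaurentSeries R →+* LaurentSeries R where
  toFun := _root_.Fermat.Agent.S28.H205.twistFun u
  map_zero' := by ext n; simp
  map_one' := by
    ext n
    rw [_root_.Fermat.Agent.S28.H205.twistFun_coeff, HahnSeries.coeff_one]
    split_ifs with h
    · subst h; simp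
    · simp
  map_add' φ ψ := by ext n; simp [add_mul]
  map_mul' := twistFun_mul u

@[simp] theorem twist_coeff (u : Rˣ) (φ : LaurentSeries R) (n : ℤ) :
    (_root_.Fermat.Agent.S28.H205.twist u φ).coeff n = φ.coeff n * ((u ^ n : Rˣ) : R) := rfl

theorem twist_one (φ : LaurentSeries R) : _root_.Fermat.Agent.S28.H205.twist (1 : Rˣ) φ = φ := by
  ext n; simp

theorem twist_mul_apply (u v : Rˣ) (φ : LaurentSeries R) :
    _root_.Fermat.Agent.S28.H205.twist (u * v) φ = _root_.Fermat.Agent.S28.H205.twist u (_root_.Fermat.Agent.S28.H205.twist v φ) := by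
  ext n
  simp only [_root_.Fermat.Agent.S28.H205.twist_coeff, mul_zpow, Units.val_mul]
  ring

theorem twist_single (u : Rˣ) (n : ℤ) (r : R) :
    _root_.Fermat.Agent.S28.H205.twist u (HahnSeries.single n r) = HahnSeries.single n (r * ((u ^ n : Rˣ) : R)) := by
  ext k
  rw [_root_.Fermat.Agent.S28.H205.twist_coeff, HahnSeries.coeff_single, HahnSeries.coeff_single]
  split_ifs with h
  · subst h; rfl
  · simp

theorem twist_C (u : Rˣ) (r : R) : _root_.Fermat.Agent.S28.H205.twist u (HahnSeries.C r) = HahnSeries.C r := by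
  have h := twist_single u 0 r
  simpa [HahnSeries.C] using h

end Twist

/-- The local parameter `t_N(τ) = exp(2πiτ/N)` at the cusp `∞`. -/
def tPar (N : ℕ) (τ : ℍ) : ℂ := Function.Periodic.qParam (N : ℝ) (τ : ℂ)

theorem tPar_ne_zero (N : ℕ) (τ : ℍ) : tPar N τ ≠ 0 :=
  Function.Periodic.qParam_ne_zero _

theorem norm_tPar_lt_one (N : ℕ) [NeZero N] (τ : ℍ) : ‖tPar N τ‖ < 1 :=
  Function.Periodic.norm_qParam_lt_one (by exact_mod_cast Nat.pos_of_ne_zero (NeZero.ne N)) τ.im_pos

theorem exists_tPar_eq (N : ℕ) [NeZero N] {q : ℂ} (hq : ‖q‖ < 1) (hq0 : q ≠ 0) :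
    ∃ τ : ℍ, tPar N τ = q := by
  have hN : (0 : ℝ) < N := by exact_mod_cast Nat.pos_of_ne_zero (NeZero.ne N)
  exact ⟨⟨Function.Periodic.invQParam N q,
    Function.Periodic.im_invQParam_pos_of_norm_lt_one hN hq hq0⟩,
    Function.Periodic.qParam_right_inv hN.ne' hq0⟩

/-- Power-series level convergence. -/
def PConv (N : ℕ) (p : PowerSeries ℂ) (F : ℍ → ℂ) : Prop :=
  ∀ τ : ℍ, HasSum (fun k : ℕ => PowerSeries.coeff k p * tPar N τ ^ k) (F τ)

/-- The sum of a power series as a function on `ℂ`. -/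
def psSum (p : PowerSeries ℂ) (q : ℂ) : ℂ := ∑' k : ℕ, PowerSeries.coeff k p * q ^ k

namespace PConv

variable {N : ℕ} {p p' : PowerSeries ℂ} {F G : ℍ → ℂ}

theorem mul (hp : PConv N p F) (hq : PConv N p' G) : PConv N (p * p') (F * G) := by
  intro τ
  have h1 := hp τ
  have h2 := hq τ
  have hn1 : Summable (fun k => ‖PowerSeries.coeff k p * tPar N τ ^ k‖) := h1.summable.norm
  have hn2 : Summable (fun k => ‖PowerSeries.coeff k p' * tPar N τ ^ k‖) := h2.summable.norm
  have hs := (summable_norm_sum_mul_antidiagonal_of_summable_norm hn1 hn2).of_norm.hasSum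
  rw [← tsum_mul_tsum_eq_tsum_sum_antidiagonal_of_summable_norm hn1 hn2, h1.tsum_eq,
    h2.tsum_eq] at hs
  have hfun : (fun n : ℕ => PowerSeries.coeff n (p * p') * tPar N τ ^ n) =
      fun n => ∑ kl ∈ Finset.HasAntidiagonal.antidiagonal n,
        PowerSeries.coeff kl.1 p * tPar N τ ^ kl.1 *
          (PowerSeries.coeff kl.2 p' * tPar N τ ^ kl.2) := by
    funext n
    rw [PowerSeries.coeff_mul, Finset.sum_mul]
    refine Finset.sum_congr rfl fun kl hkl => ?_
    rw [← Finset.HasAntidiagonal.mem_antidiagonal.mp hkl, _root_.pow_add]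
    ring
  rw [hfun]
  exact hs

theorem add (hp : PConv N p F) (hq : PConv N p' G) : PConv N (p + p') (F + G) := by
  intro τ
  simpa [add_mul] using (hp τ).add (hq τ)

theorem sub (hp : PConv N p F) (hq : PConv N p' G) : PConv N (p - p') (F - G) := by
  intro τ
  simpa [sub_mul] using (hp τ).sub (hq τ)

theorem summable_ball [NeZero N] (hp : PConv N p F) {q : ℂ} (hq : ‖q‖ < 1) :
    Summable (fun k : ℕ => PowerSeries.coeff k p * q ^ k) := by
  rcases eq_or_ne q 0 with rfl | hq0
  · refine summable_of_ne_finset_zero (s := {0}) fun k hk => ?_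
    have : k ≠ 0 := by simpa using hk
    simp [this]
  · obtain ⟨τ, rfl⟩ := exists_tPar_eq N hq hq0
    exact (hp τ).summable

theorem eq_psSum (hp : PConv N p F) (τ : ℍ) : F τ = psSum p (tPar N τ) :=
  (hp τ).tsum_eq.symm

theorem hasFPowerSeriesOnBall [NeZero N] (hp : PConv N p F) :
    HasFPowerSeriesOnBall (psSum p) (.ofScalars ℂ (fun k => PowerSeries.coeff k p)) 0 1 := by
  constructor
  · refine le_of_forall_lt_imp_le_of_dense fun r hr ↦ ?_
    lift r to NNReal using hr.ne_top
    apply FormalMultilinearSeries.le_radius_of_summable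
    have hr1 : ‖((r : ℝ) : ℂ)‖ < 1 := by
      simpa using hr
    simpa [norm_mul, mul_comm, mul_left_comm, mul_assoc] using
      (hp.summable_ball hr1).norm
  · simp
  · intro y hy
    rw [← ENNReal.coe_one, Metric.eball_coe, NNReal.coe_one, mem_ball_zero_iff] at hy
    simpa [psSum, mul_comm] using (hp.summable_ball hy).hasSum

theorem psSum_zero (p : PowerSeries ℂ) : psSum p 0 = PowerSeries.coeff 0 p := by
  rw [psSum, tsum_eq_single 0]
  · simp
  · intro k hk
    simp [hk]

theorem psSum_eq_zero_of_zero [NeZero N] (hp : PConv N p 0) {q : ℂ} (hq : ‖q‖ < 1)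
    (hq0 : q ≠ 0) : psSum p q = 0 := by
  obtain ⟨τ, rfl⟩ := exists_tPar_eq N hq hq0
  exact (hp.eq_psSum τ).symm

theorem eq_zero_of_zero [NeZero N] (hp : PConv N p 0) : p = 0 := by
  have hfp := hp.hasFPowerSeriesOnBall
  have han : AnalyticAt ℂ (psSum p) 0 := hfp.analyticAt
  rcases han.eventually_eq_zero_or_eventually_ne_zero with h | h
  · have h1 : HasFPowerSeriesAt (0 : ℂ → ℂ)
        (.ofScalars ℂ (fun k => PowerSeries.coeff k p)) 0 :=
      hfp.hasFPowerSeriesAt.congr h
    have h2 := h1.eq_zero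
    have h3 := (FormalMultilinearSeries.ofScalars_series_eq_zero (E := ℂ)
      (c := fun k => PowerSeries.coeff k p)).mp h2
    ext k
    simpa using congrFun h3 k
  · exfalso
    have h2 : ∀ᶠ z in nhdsWithin (0 : ℂ) {0}ᶜ, psSum p z = 0 := by
      filter_upwards [self_mem_nhdsWithin,
        nhdsWithin_le_nhds (Metric.ball_mem_nhds (0 : ℂ) one_pos)] with z hz hz'
      exact hp.psSum_eq_zero_of_zero (by simpa using hz') hz
    obtain ⟨z, hz1, hz2⟩ := (h.and h2).exists
    exact hz1 hz2

theorem unique [NeZero N] (hp : PConv N p F) (hp' : PConv N p' F) : p = p' := by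
  have h := hp.sub hp'
  rw [sub_self] at h
  exact sub_eq_zero.mp h.eq_zero_of_zero

theorem differentiableOn_psSum [NeZero N] (hp : PConv N p F) :
    DifferentiableOn ℂ (psSum p) (Metric.ball 0 1) := by
  have h := hp.hasFPowerSeriesOnBall.differentiableOn
  rwa [← ENNReal.ofReal_one, Metric.eball_ofReal] at h

theorem mdiff [NeZero N] (hp : PConv N p F) : MDiff F := by
  rw [UpperHalfPlane.mdifferentiable_iff]
  have hN : (0 : ℝ) < N := by exact_mod_cast Nat.pos_of_ne_zero (NeZero.ne N)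
  have hG := hp.differentiableOn_psSum
  have hcomp : DifferentiableOn ℂ (psSum p ∘ Function.Periodic.qParam (N : ℝ)) {z | 0 < z.im} :=
    hG.comp (Function.Periodic.differentiable_qParam.differentiableOn) (fun z hz => by
      simpa using Function.Periodic.norm_qParam_lt_one hN hz)
  refine hcomp.congr fun z hz => ?_
  simp only [Function.comp_apply, ofComplex_apply_of_im_pos hz]
  exact hp.eq_psSum ⟨z, hz⟩

theorem inv [NeZero N] (hp : PConv N p F) (hF : ∀ τ, F τ ≠ 0)
    (h0 : PowerSeries.coeff 0 p ≠ 0) : PConv N p⁻¹ (fun τ => (F τ)⁻¹) := by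
  have hG := hp.differentiableOn_psSum
  have hne : ∀ q ∈ Metric.ball (0 : ℂ) 1, psSum p q ≠ 0 := by
    intro q hq
    rcases eq_or_ne q 0 with rfl | hq0
    · rwa [psSum_zero]
    · obtain ⟨τ, rfl⟩ := exists_tPar_eq N (by simpa using hq) hq0
      rw [← hp.eq_psSum τ]
      exact hF τ
  have hH : DifferentiableOn ℂ (fun q => (psSum p q)⁻¹) (Metric.ball 0 1) := hG.inv hne
  set d : PowerSeries ℂ :=
    PowerSeries.mk fun n => (n.factorial : ℂ)⁻¹ * iteratedDeriv n (fun q => (psSum p q)⁻¹) 0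
    with hd
  have hdconv : PConv N d (fun τ => (F τ)⁻¹) := by
    intro τ
    have hmem : tPar N τ ∈ Metric.ball (0 : ℂ) ((1 : NNReal) : ℝ) := by
      simpa using norm_tPar_lt_one N τ
    have h := Complex.hasSum_taylorSeries_on_ball (r := 1) (by simpa using hH) hmem
    show HasSum _ ((F τ)⁻¹)
    rw [hp.eq_psSum τ]
    have hfun : (fun k : ℕ => PowerSeries.coeff k d * tPar N τ ^ k) =
        fun n : ℕ => (n.factorial : ℂ)⁻¹ • (tPar N τ - 0) ^ n •
          iteratedDeriv n (fun q => (psSum p q)⁻¹) 0 := by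
      funext n
      simp only [hd, PowerSeries.coeff_mk, sub_zero, smul_eq_mul]
      ring
    rw [hfun]
    exact h
  have hmul := hp.mul hdconv
  have hone : PConv N 1 (F * fun τ => (F τ)⁻¹) := by
    intro τ
    have : (F * fun τ => (F τ)⁻¹) τ = 1 := by simp [hF τ]
    rw [this]
    have h := hasSum_single (f := fun k : ℕ => PowerSeries.coeff k (1 : PowerSeries ℂ) *
      tPar N τ ^ k) 0 (fun k hk => by simp [PowerSeries.coeff_one, hk])
    simpa using h
  have hpd : p * d = 1 := hmul.unique hone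
  have hd' : d = p⁻¹ := by
    rw [PowerSeries.eq_inv_iff_mul_eq_one (by simpa using h0), mul_comm]
    exact hpd
  rw [← hd']
  exact hdconv

end PConv

/-- `φ` converges on `ℍ` to `f` in the parameter `t_N`. -/
def ConvTo (N : ℕ) (φ : LaurentSeries ℂ) (f : ℍ → ℂ) : Prop :=
  ∀ τ : ℍ, HasSum (fun n : ℤ => φ.coeff n * tPar N τ ^ n) (f τ)

theorem coeff_single_mul_ofPS_add (e : ℤ) (p : PowerSeries ℂ) (k : ℕ) :
    (HahnSeries.single e (1 : ℂ) * HahnSeries.ofPowerSeries ℤ ℂ p).coeff ((k : ℤ) + e) =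
      PowerSeries.coeff k p := by
  rw [HahnSeries.coeff_single_mul, one_mul, add_sub_cancel_right,
    HahnSeries.ofPowerSeries_apply_coeff]

theorem coeff_single_mul_ofPS_of_lt (e : ℤ) (p : PowerSeries ℂ) {n : ℤ} (hn : n < e) :
    (HahnSeries.single e (1 : ℂ) * HahnSeries.ofPowerSeries ℤ ℂ p).coeff n = 0 := by
  rw [HahnSeries.coeff_single_mul, one_mul,
    ModularCurve.ofPowerSeries_coeff_of_neg _ (by omega)]

/-- Reduction of Laurent-level convergence to power-series-level convergence. -/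
theorem convTo_single_mul_ofPS_iff (N : ℕ) (e : ℤ) (p : PowerSeries ℂ) (f : ℍ → ℂ) :
    ConvTo N (HahnSeries.single e (1 : ℂ) * HahnSeries.ofPowerSeries ℤ ℂ p) f ↔
      PConv N p (fun τ => tPar N τ ^ (-e) * f τ) := by
  have hinj : Function.Injective (fun k : ℕ => (k : ℤ) + e) := fun a b h => by
    simpa using h
  have hrange : ∀ (τ : ℍ) (n : ℤ), n ∉ Set.range (fun k : ℕ => (k : ℤ) + e) →
      (HahnSeries.single e (1 : ℂ) * HahnSeries.ofPowerSeries ℤ ℂ p).coeff n *
        tPar N τ ^ n = 0 := by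
    intro τ n hn
    have hlt : n < e := by
      by_contra hge
      push Not at hge
      exact hn ⟨(n - e).toNat, by simp [Int.toNat_of_nonneg (sub_nonneg.mpr hge)]⟩
    rw [coeff_single_mul_ofPS_of_lt e p hlt, zero_mul]
  have key : ∀ τ : ℍ, HasSum (fun n : ℤ =>
      (HahnSeries.single e (1 : ℂ) * HahnSeries.ofPowerSeries ℤ ℂ p).coeff n * tPar N τ ^ n)
        (f τ) ↔
      HasSum (fun k : ℕ => PowerSeries.coeff k p * tPar N τ ^ k) (tPar N τ ^ (-e) * f τ) := by
    intro τ
    have ht := tPar_ne_zero N τ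
    rw [← hinj.hasSum_iff (hrange τ)]
    have hfun : ((fun n : ℤ =>
        (HahnSeries.single e (1 : ℂ) * HahnSeries.ofPowerSeries ℤ ℂ p).coeff n * tPar N τ ^ n) ∘
          fun k : ℕ => (k : ℤ) + e) =
        fun k : ℕ => tPar N τ ^ e * (PowerSeries.coeff k p * tPar N τ ^ k) := by
      funext k
      simp only [Function.comp_apply, coeff_single_mul_ofPS_add, zpow_add₀ ht, zpow_natCast]
      ring
    rw [hfun]
    constructor
    · intro h
      have h' := h.mul_left (tPar N τ ^ (-e))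
      have hfun2 : (fun k : ℕ => tPar N τ ^ (-e) *
          (tPar N τ ^ e * (PowerSeries.coeff k p * tPar N τ ^ k))) =
          fun k : ℕ => PowerSeries.coeff k p * tPar N τ ^ k := by
        funext k
        rw [← mul_assoc, ← zpow_add₀ ht, neg_add_cancel, zpow_zero, one_mul]
      rwa [hfun2] at h'
    · intro h
      have h' := h.mul_left (tPar N τ ^ e)
      rwa [← mul_assoc, ← zpow_add₀ ht, add_neg_cancel, zpow_zero, one_mul] at h'
  exact ⟨fun h τ => (key τ).mp (h τ), fun h τ => (key τ).mpr (h τ)⟩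

theorem convTo_iff (N : ℕ) (φ : LaurentSeries ℂ) (f : ℍ → ℂ) :
    ConvTo N φ f ↔ PConv N φ.powerSeriesPart (fun τ => tPar N τ ^ (-φ.order) * f τ) := by
  conv_lhs => rw [← LaurentSeries.single_order_mul_powerSeriesPart φ]
  exact convTo_single_mul_ofPS_iff N φ.order φ.powerSeriesPart f

theorem single_mul_ofPS_mul (e₁ e₂ : ℤ) (p₁ p₂ : PowerSeries ℂ) :
    (HahnSeries.single e₁ (1 : ℂ) * HahnSeries.ofPowerSeries ℤ ℂ p₁) *
      (HahnSeries.single e₂ (1 : ℂ) * HahnSeries.ofPowerSeries ℤ ℂ p₂) =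
      HahnSeries.single (e₁ + e₂) (1 : ℂ) * HahnSeries.ofPowerSeries ℤ ℂ (p₁ * p₂) := by
  rw [map_mul, ← one_mul (1 : ℂ), ← HahnSeries.single_mul_single, one_mul]
  ring

namespace ConvTo

variable {N : ℕ} {φ ψ : LaurentSeries ℂ} {f g : ℍ → ℂ}

theorem congr_fun (h : ConvTo N φ f) (hfg : ∀ τ, f τ = g τ) : ConvTo N φ g :=
  fun τ => hfg τ ▸ h τ

theorem fun_unique (h : ConvTo N φ f) (h' : ConvTo N φ g) : f = g :=
  funext fun τ => (h τ).unique (h' τ)

theorem add (hf : ConvTo N φ f) (hg : ConvTo N ψ g) : ConvTo N (φ + ψ) (f + g) := by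
  intro τ
  simpa [add_mul] using (hf τ).add (hg τ)

theorem neg (hf : ConvTo N φ f) : ConvTo N (-φ) (-f) := by
  intro τ
  simpa using (hf τ).neg

theorem sub (hf : ConvTo N φ f) (hg : ConvTo N ψ g) : ConvTo N (φ - ψ) (f - g) := by
  intro τ
  simpa [sub_mul] using (hf τ).sub (hg τ)

theorem mul (hf : ConvTo N φ f) (hg : ConvTo N ψ g) : ConvTo N (φ * ψ) (f * g) := by
  rw [convTo_iff] at hf hg
  have h := hf.mul hg
  rw [← LaurentSeries.single_order_mul_powerSeriesPart φ,
    ← LaurentSeries.single_order_mul_powerSeriesPart ψ, single_mul_ofPS_mul,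
    convTo_single_mul_ofPS_iff]
  intro τ
  have := h τ
  have ht := tPar_ne_zero N τ
  convert this using 1
  simp only [Pi.mul_apply, neg_add, zpow_add₀ ht]
  ring

theorem zero_fun [NeZero N] (h : ConvTo N φ 0) : φ = 0 := by
  rw [convTo_iff] at h
  have h' : PConv N φ.powerSeriesPart 0 := fun τ => by simpa using h τ
  exact (LaurentSeries.powerSeriesPart_eq_zero φ).mp h'.eq_zero_of_zero

/-- Uniqueness of the expansion. -/
theorem series_unique [NeZero N] (h : ConvTo N φ f) (h' : ConvTo N ψ f) : φ = ψ := by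
  have hsub := h.sub h'
  rw [sub_self] at hsub
  exact sub_eq_zero.mp hsub.zero_fun

theorem mdiff_tPar_zpow (N : ℕ) (e : ℤ) : MDiff (fun τ : ℍ => tPar N τ ^ e) := by
  rw [UpperHalfPlane.mdifferentiable_iff]
  have hd : DifferentiableOn ℂ (fun z : ℂ => Function.Periodic.qParam (N : ℝ) z ^ e)
      {z | 0 < z.im} := fun z _ =>
    ((Function.Periodic.differentiable_qParam z).zpow
      (Or.inl (Function.Periodic.qParam_ne_zero z))).differentiableWithinAt
  refine hd.congr fun z hz => ?_
  simp [tPar, ofComplex_apply_of_im_pos hz]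

/-- The limit of a convergent expansion is holomorphic on `ℍ`. -/
theorem mdiff [NeZero N] (h : ConvTo N φ f) : MDiff f := by
  rw [convTo_iff] at h
  have h1 := h.mdiff
  have h2 := mdiff_tPar_zpow N φ.order
  have h3 : MDiff ((fun τ : ℍ => tPar N τ ^ φ.order) * fun τ => tPar N τ ^ (-φ.order) * f τ) :=
    h2.mul h1
  have heq : ((fun τ : ℍ => tPar N τ ^ φ.order) * fun τ => tPar N τ ^ (-φ.order) * f τ) = f := by
    funext τ
    have ht := tPar_ne_zero N τ
    simp only [Pi.mul_apply]
    rw [← mul_assoc, ← zpow_add₀ ht, add_neg_cancel, zpow_zero, one_mul]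
  rwa [heq] at h3

/-- Inverses: if `f` vanishes nowhere then `φ⁻¹` converges to `f⁻¹`. -/
theorem inv [NeZero N] (h : ConvTo N φ f) (hf : ∀ τ, f τ ≠ 0) :
    ConvTo N φ⁻¹ (fun τ => (f τ)⁻¹) := by
  have hφ : φ ≠ 0 := by
    rintro rfl
    have h0 : f UpperHalfPlane.I = 0 :=
      (h UpperHalfPlane.I).unique (by simp)
    exact hf _ h0
  have hp := (convTo_iff N φ f).mp h
  have hc0 : PowerSeries.coeff 0 φ.powerSeriesPart ≠ 0 := by
    rw [LaurentSeries.powerSeriesPart_coeff]
    intro h0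
    rw [Nat.cast_zero, add_zero] at h0
    exact hφ (HahnSeries.coeff_order_eq_zero.mp h0)
  have hcc : PowerSeries.constantCoeff φ.powerSeriesPart ≠ 0 := by
    rw [← PowerSeries.coeff_zero_eq_constantCoeff_apply]
    exact hc0
  have hF : ∀ τ, (fun τ => tPar N τ ^ (-φ.order) * f τ) τ ≠ 0 := fun τ =>
    mul_ne_zero (zpow_ne_zero _ (tPar_ne_zero N τ)) (hf τ)
  have hinv := hp.inv hF hc0
  have hφinv : φ⁻¹ = HahnSeries.single (-φ.order) (1 : ℂ) *
      HahnSeries.ofPowerSeries ℤ ℂ (φ.powerSeriesPart)⁻¹ := by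
    apply inv_eq_of_mul_eq_one_right
    have hrep := LaurentSeries.single_order_mul_powerSeriesPart φ
    calc φ * (HahnSeries.single (-φ.order) (1 : ℂ) *
          HahnSeries.ofPowerSeries ℤ ℂ (φ.powerSeriesPart)⁻¹)
        = (HahnSeries.single φ.order (1 : ℂ) * HahnSeries.ofPowerSeries ℤ ℂ φ.powerSeriesPart) *
          (HahnSeries.single (-φ.order) (1 : ℂ) *
            HahnSeries.ofPowerSeries ℤ ℂ (φ.powerSeriesPart)⁻¹) := by rw [hrep]
      _ = 1 := by
        rw [single_mul_ofPS_mul, add_neg_cancel, PowerSeries.mul_inv_cancel _ hcc]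
        simp
  rw [hφinv, convTo_single_mul_ofPS_iff]
  intro τ
  have := hinv τ
  have ht := tPar_ne_zero N τ
  convert this using 1
  simp only [neg_neg, mul_inv, zpow_neg, inv_inv]

end ConvTo

/-- `exp(2πi b / M)` as a unit of `ℂ`. -/
def zetaU (M : ℕ) (b : ℤ) : ℂˣ :=
  Units.mk0 (Complex.exp (2 * π * Complex.I * b / M)) (Complex.exp_ne_zero _)

@[simp] theorem coe_zetaU (M : ℕ) (b : ℤ) :
    (zetaU M b : ℂ) = Complex.exp (2 * π * Complex.I * b / M) := rfl

theorem twist_coeff' (u : ℂˣ) (φ : LaurentSeries ℂ) (n : ℤ) :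
    (_root_.Fermat.Agent.S28.H205.twist u φ).coeff n = φ.coeff n * (u : ℂ) ^ n := by
  rw [_root_.Fermat.Agent.S28.H205.twist_coeff, Units.val_zpow_eq_zpow_val]

theorem hasSum_qExpand_iff (a : ℕ) [NeZero a] (φ : LaurentSeries ℂ) (t s : ℂ) :
    HasSum (fun k : ℤ => (ModularCurve.qExpand ℂ a φ).coeff k * t ^ k) s ↔
      HasSum (fun n : ℤ => φ.coeff n * (t ^ a) ^ n) s := by
  have ha : (a : ℤ) ≠ 0 := by exact_mod_cast NeZero.ne a
  have hinj : Function.Injective (fun n : ℤ => (a : ℤ) * n) := fun x y h =>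
    mul_left_cancel₀ ha h
  rw [← hinj.hasSum_iff (f := fun k : ℤ => (ModularCurve.qExpand ℂ a φ).coeff k * t ^ k)]
  · have hfun : ((fun k : ℤ => (ModularCurve.qExpand ℂ a φ).coeff k * t ^ k) ∘
        fun n : ℤ => (a : ℤ) * n) = fun n : ℤ => φ.coeff n * (t ^ a) ^ n := by
      funext n
      simp only [Function.comp_apply, ModularCurve.qExpand_coeff_mul]
      rw [zpow_mul, zpow_natCast]
    rw [hfun]
  · intro k hk
    rw [ModularCurve.qExpand_coeff_of_not_dvd a φ (fun ⟨m, hm⟩ => hk ⟨m, hm.symm⟩), zero_mul]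

theorem tPar_subst (N : ℕ) (a d : ℕ) (b : ℤ) (τ σ : ℍ) (hσ : (σ : ℂ) = (a * τ + b) / d) :
    tPar N σ = (zetaU (N * d) b : ℂ) * tPar (N * d) τ ^ a := by
  simp only [tPar, Function.Periodic.qParam, coe_zetaU, hσ]
  rw [← Complex.exp_nat_mul, ← Complex.exp_add]
  congr 1
  push_cast
  by_cases hd : (d : ℂ) = 0
  · simp [hd]
  by_cases hN : (N : ℂ) = 0
  · simp [hN]
  field_simp
  ring

namespace ConvTo

variable {N : ℕ} {φ ψ : LaurentSeries ℂ} {f g : ℍ → ℂ}

/-- General substitution `τ ↦ (a τ + b) / d`. -/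
theorem subst (h : ConvTo N φ f) (a d : ℕ) [NeZero a] (b : ℤ)
    (σ : ℍ → ℍ) (hσ : ∀ τ, (σ τ : ℂ) = (a * τ + b) / d) :
    ConvTo (N * d) (ModularCurve.qExpand ℂ a (H205.twist (zetaU (N * d) b) φ)) (f ∘ σ) := by
  intro τ
  rw [hasSum_qExpand_iff]
  have h1 := h (σ τ)
  rw [tPar_subst N a d b τ (σ τ) (hσ τ)] at h1
  have hfun : (fun n : ℤ => (H205.twist (zetaU (N * d) b) φ).coeff n *
      (tPar (N * d) τ ^ a) ^ n) =
      fun n : ℤ => φ.coeff n * ((zetaU (N * d) b : ℂ) * tPar (N * d) τ ^ a) ^ n := by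
    funext n
    rw [twist_coeff', mul_zpow]
    ring
  rw [hfun]
  exact h1

/-- Translation `τ ↦ τ + b` corresponds to the twist `t ↦ exp(2πi b/N) t`. -/
theorem twist (h : ConvTo N φ f) (b : ℤ) (σ : ℍ → ℍ)
    (hσ : ∀ τ, (σ τ : ℂ) = τ + b) :
    ConvTo N (H205.twist (zetaU N b) φ) (f ∘ σ) := by
  have h1 := h.subst 1 1 b σ (fun τ => by simp [hσ τ])
  rw [mul_one] at h1
  simpa [ModularCurve.qExpand_one_apply] using h1

/-- `τ ↦ a τ` corresponds to `t ↦ t ^ a`. -/
theorem qExpand (h : ConvTo N φ f) (a : ℕ) [NeZero a] (σ : ℍ → ℍ)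
    (hσ : ∀ τ, (σ τ : ℂ) = a * τ) :
    ConvTo N (ModularCurve.qExpand ℂ a φ) (f ∘ σ) := by
  have h1 := h.subst a 1 0 σ (fun τ => by simp [hσ τ])
  rw [mul_one] at h1
  have hz : zetaU N 0 = 1 := by
    ext
    simp
  rwa [hz, twist_one] at h1

/-- `τ ↦ τ / d` corresponds to passing from the parameter `t_N` to `t_{N d}`. -/
theorem scale (h : ConvTo N φ f) (d : ℕ) (σ : ℍ → ℍ)
    (hσ : ∀ τ, (σ τ : ℂ) = τ / d) :
    ConvTo (N * d) φ (f ∘ σ) := by
  have h1 := h.subst 1 d 0 σ (fun τ => by simp [hσ τ])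
  have hz : zetaU (N * d) 0 = 1 := by
    ext
    simp
  rwa [hz, twist_one, ModularCurve.qExpand_one_apply] at h1

/-- Change of parameter: `t_N = t_{N d} ^ d`. -/
theorem changeLevel (h : ConvTo N φ f) (d : ℕ) [NeZero d] :
    ConvTo (N * d) (ModularCurve.qExpand ℂ d φ) f := by
  have h1 := h.subst d d 0 id (fun τ => by
    have hd : (d : ℂ) ≠ 0 := by exact_mod_cast NeZero.ne d
    simp only [id, Int.cast_zero, add_zero]
    field_simp)
  have hz : zetaU (N * d) 0 = 1 := by
    ext
    simp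
  rwa [hz, twist_one] at h1

end ConvTo

theorem zetaU_one_zpow_eq_one_iff (N : ℕ) [NeZero N] (n : ℤ) :
    (zetaU N 1 : ℂ) ^ n = 1 ↔ (N : ℤ) ∣ n := by
  have hN : (N : ℂ) ≠ 0 := by exact_mod_cast NeZero.ne N
  rw [coe_zetaU, ← Complex.exp_int_mul, Complex.exp_eq_one_iff]
  constructor
  · rintro ⟨m, hm⟩
    refine ⟨m, ?_⟩
    have h2 : (2 * (π : ℂ) * Complex.I) ≠ 0 := by
      simp [Real.pi_ne_zero]
    have h3 : (n : ℂ) = (N : ℂ) * m := by
      field_simp at hm
      simpa using hm
    exact_mod_cast h3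
  · rintro ⟨m, rfl⟩
    refine ⟨m, ?_⟩
    push_cast
    field_simp

/-- Descent: an expansion in `t_N` of a function invariant under `τ ↦ τ + 1` is an expansion
in `q = t_N ^ N`. -/
theorem ConvTo.descend {N : ℕ} {φ : LaurentSeries ℂ} {f : ℍ → ℂ} [NeZero N] (h : ConvTo N φ f)
    (hT : ∀ τ σ : ℍ, (σ : ℂ) = τ + 1 → f σ = f τ) :
    ∃ φ₁ : LaurentSeries ℂ, φ = ModularCurve.qExpand ℂ N φ₁ ∧ ConvTo 1 φ₁ f := by
  have hNpos : (0 : ℤ) < N := by exact_mod_cast Nat.pos_of_ne_zero (NeZero.ne N)
  -- invariance under the twist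
  have htw : H205.twist (zetaU N 1) φ = φ := by
    have h1 := h.twist 1 (fun τ => (1 : ℝ) +ᵥ τ) (fun τ => by
      rw [UpperHalfPlane.coe_vadd]; push_cast; ring)
    have h2 : (f ∘ fun τ => (1 : ℝ) +ᵥ τ) = f := by
      funext τ
      exact hT τ _ (by rw [UpperHalfPlane.coe_vadd]; push_cast; ring)
    rw [h2] at h1
    exact h1.series_unique h
  have hvan : ∀ n : ℤ, ¬ (N : ℤ) ∣ n → φ.coeff n = 0 := by
    intro n hn
    have h1 := congrArg (fun x => x.coeff n) htw
    simp only [twist_coeff'] at h1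
    by_contra hne
    have h2 : (zetaU N 1 : ℂ) ^ n = 1 := by
      have := mul_left_cancel₀ hne (h1.trans (mul_one _).symm)
      exact this
    exact hn ((zetaU_one_zpow_eq_one_iff N n).mp h2)
  -- the descended series
  have hbdd : BddBelow (Function.support fun k : ℤ => φ.coeff ((N : ℤ) * k)) := by
    refine ⟨min φ.order 0, fun k hk => ?_⟩
    simp only [Function.mem_support, ne_eq] at hk
    have h1 : φ.order ≤ (N : ℤ) * k := HahnSeries.order_le_of_coeff_ne_zero hk
    rcases le_or_gt 0 k with hk0 | hk0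
    · exact le_trans (min_le_right _ _) hk0
    · refine le_trans (min_le_left _ _) (le_trans h1 ?_)
      nlinarith
  refine ⟨HahnSeries.ofSuppBddBelow _ hbdd, ?_, ?_⟩
  · ext n
    by_cases hn : (N : ℤ) ∣ n
    · obtain ⟨k, rfl⟩ := hn
      rw [ModularCurve.qExpand_coeff_mul]
      rfl
    · rw [hvan n hn, ModularCurve.qExpand_coeff_of_not_dvd N _ hn]
  · intro τ
    have h1 := h τ
    have hinj : Function.Injective (fun k : ℤ => (N : ℤ) * k) := fun x y hxy =>
      mul_left_cancel₀ hNpos.ne' hxy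
    rw [← hinj.hasSum_iff (fun n hn => by
      rw [hvan n (fun ⟨m, hm⟩ => hn ⟨m, hm.symm⟩), zero_mul])] at h1
    have hfun : ((fun n : ℤ => φ.coeff n * tPar N τ ^ n) ∘ fun k : ℤ => (N : ℤ) * k) =
        fun k : ℤ => (HahnSeries.ofSuppBddBelow _ hbdd).coeff k * tPar 1 τ ^ k := by
      funext k
      have ht : tPar 1 τ = tPar N τ ^ N := by
        have := tPar_subst 1 N N 0 τ τ (by
          have hN : (N : ℂ) ≠ 0 := by exact_mod_cast NeZero.ne N
          field_simp
          simp)
        rw [this, one_mul]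
        simp
      simp only [Function.comp_apply, ht]
      rw [zpow_mul, zpow_natCast]
      rfl
    rw [hfun] at h1
    exact h1

theorem convTo_zero (N : ℕ) : ConvTo N 0 0 := by
  intro τ
  simp [hasSum_zero]

theorem convTo_single (N : ℕ) (k : ℤ) (c : ℂ) :
    ConvTo N (HahnSeries.single k c) (fun τ => c * tPar N τ ^ k) := by
  intro τ
  have h := hasSum_single (f := fun n : ℤ => (HahnSeries.single k c).coeff n * tPar N τ ^ n) k
    (fun n hn => by simp [HahnSeries.coeff_single_of_ne hn])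
  simpa using h

theorem convTo_C (N : ℕ) (c : ℂ) : ConvTo N (HahnSeries.C c) (fun _ => c) := by
  have h := convTo_single N 0 c
  simpa [HahnSeries.C] using h

theorem convTo_one (N : ℕ) : ConvTo N 1 1 := by
  have h := convTo_C N 1
  rw [map_one] at h
  exact h

theorem ConvTo.pow {N : ℕ} {φ : LaurentSeries ℂ} {f : ℍ → ℂ} (hf : ConvTo N φ f) (k : ℕ) :
    ConvTo N (φ ^ k) (f ^ k) := by
  induction k with
  | zero => simpa using convTo_one N
  | succ k ih => rw [_root_.pow_succ, _root_.pow_succ]; exact ih.mul hf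

theorem ConvTo.const_mul {N : ℕ} {φ : LaurentSeries ℂ} {f : ℍ → ℂ} (hf : ConvTo N φ f) (c : ℂ) :
    ConvTo N (HahnSeries.C c * φ) (fun τ => c * f τ) :=
  (convTo_C N c).mul hf

theorem ConvTo.sum {N : ℕ} {ι : Type*} (s : Finset ι) {φ : ι → LaurentSeries ℂ}
    {f : ι → ℍ → ℂ} (h : ∀ i ∈ s, ConvTo N (φ i) (f i)) :
    ConvTo N (∑ i ∈ s, φ i) (∑ i ∈ s, f i) := by
  classical
  induction s using Finset.induction_on with
  | empty => simpa using convTo_zero N
  | insert a s ha ih =>
    rw [Finset.sum_insert ha, Finset.sum_insert ha]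
    exact (h a (Finset.mem_insert_self a s)).add
      (ih fun i hi => h i (Finset.mem_insert_of_mem hi))

theorem ConvTo.prod {N : ℕ} {ι : Type*} (s : Finset ι) {φ : ι → LaurentSeries ℂ}
    {f : ι → ℍ → ℂ} (h : ∀ i ∈ s, ConvTo N (φ i) (f i)) :
    ConvTo N (∏ i ∈ s, φ i) (∏ i ∈ s, f i) := by
  classical
  induction s using Finset.induction_on with
  | empty => simpa using convTo_one N
  | insert a s ha ih =>
    rw [Finset.prod_insert ha, Finset.prod_insert ha]
    exact (h a (Finset.mem_insert_self a s)).mul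
      (ih fun i hi => h i (Finset.mem_insert_of_mem hi))

end Fermat.Agent.S28.H205

end
end
-- ===== PACK-END S28/H205/Conv.lean

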