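import Mathlib
import Fermat.Prelude.Thm_ModularForm_sturm_bound_Gamma0
import Mathlib.NumberTheory.ModularForms.NormTrace
import Fermat.Prelude.Def_ModularForm_HeckeOperatorForms
import Fermat.Prelude.Thm_CongruenceSubgroup_one_mem_strictPeriods_Gamma0
import Mathlib.FieldTheory.Galois.Basic
import Mathlib.RingTheory.Ideal.Operations
import Mathlib.RingTheory.DiscreteValuationRing.Basic
import Mathlib.RingTheory.Valuation.ValuationSubring
import Mathlib.RingTheory.Algebraic.Integral
import Mathlib.RingTheory.Localization.FractionRing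
import Mathlib.RingTheory.Polynomial.UniqueFactorization
import Mathlib.Tactic.FieldSimp
import Fermat.Agent.Pack.S36.E2L2
import Fermat.Agent.Pack.S36.E2L1
import Fermat.Agent.Pack.S36.E2L3
import Fermat.Agent.Pack.S36.E0L3
import Fermat.Agent.Pack.S36.E2L0
import Fermat.Agent.Pack.S36.E3L0
import Fermat.Agent.Pack.S36.E1L0
import Fermat.Agent.Pack.S36.E3L3
import Fermat.Agent.Pack.S36.E3L2
import Fermat.Agent.Pack.S36.E3L1

-- ===== PACK-BEGIN S23/Cap/AutC.lean
section


/-!
# S23 / Cap : enough ring endomorphisms of `ℂ` (adapter around helper683's `FixedField.lean`).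
-/

set_option autoImplicit false

namespace Fermat.Agent.S23.Cap

/-- For `x ∈ ℂ \ ℚ` there is a ring endomorphism of `ℂ` moving `x`. -/
theorem exists_ringHom_ne (x : ℂ) (hx : x ∉ Set.range (algebraMap ℚ ℂ)) :
    ∃ σ : ℂ →+* ℂ, σ x ≠ x := by
  obtain ⟨σ, hσ⟩ := Fermat.Agent.S23.exists_ringEquiv_ne x hx
  exact ⟨σ.toRingHom, hσ⟩

end Fermat.Agent.S23.Cap

end
-- ===== PACK-END S23/Cap/AutC.lean

-- ===== PACK-BEGIN S23/H683/Descent.lean
section



set_option autoImplicit false
set_option linter.style.haveILetI false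

/-!
# Galois descent for a finite-dimensional space of "q-expansions"

`V` is a finite dimensional complex vector space with a jointly injective family of linear
functionals `a n` ("q-expansion coefficients").  If for every automorphism `σ` of `ℂ` and every
`f : V` there is a `g : V` with `a n g = σ (a n f)`, then `V` is spanned by the elements all of
whose coefficients are rational.
-/

namespace Fermat.Agent.S23.H683

open Module

theorem descent_span_dual_eq_top {V : Type*} [AddCommGroup V] [Module ℂ V] [FiniteDimensional ℂ V]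
    (a : ℕ → V →ₗ[ℂ] ℂ) (hinj : ∀ f, (∀ n, a n f = 0) → f = 0) :
    Submodule.span ℂ (Set.range a) = (⊤ : Submodule ℂ (Module.Dual ℂ V)) := by
  have h1 : (Submodule.span ℂ (Set.range a) : Submodule ℂ (Module.Dual ℂ V)).dualCoannihilator
      = ⊥ := by
    rw [eq_bot_iff]
    intro f hf
    rw [Submodule.mem_dualCoannihilator] at hf
    rw [Submodule.mem_bot]
    exact hinj f fun n => hf (a n) (Submodule.subset_span ⟨n, rfl⟩)
  have h2 := Subspace.dualCoannihilator_dualAnnihilator_eq
    (W := (Submodule.span ℂ (Set.range a) : Subspace ℂ (Module.Dual ℂ V)))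
  rw [h1] at h2
  rw [← h2]
  simp

theorem descent {V : Type*} [AddCommGroup V] [Module ℂ V] [FiniteDimensional ℂ V]
    (a : ℕ → V →ₗ[ℂ] ℂ) (hinj : ∀ f, (∀ n, a n f = 0) → f = 0)
    (hσ : ∀ (σ : ℂ ≃+* ℂ) (f : V), ∃ g : V, ∀ n, a n g = σ (a n f)) :
    Submodule.span ℂ {f : V | ∀ n, ∃ r : ℚ, a n f = (r : ℂ)} = ⊤ := by
  classical
  have hS := descent_span_dual_eq_top a hinj
  obtain ⟨b, hbS, hbspan, hbli⟩ := exists_linearIndependent ℂ (Set.range a)
  let B : Basis b ℂ (Module.Dual ℂ V) :=
    Basis.mk hbli (by rw [Subtype.range_coe, hbspan, hS])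
  haveI : Finite b := Module.Finite.finite_basis B
  haveI : Fintype b := Fintype.ofFinite b
  have hBi : ∀ i : b, B i = (i : Module.Dual ℂ V) := fun i => by simp [B]
  let F : Basis b ℂ V := B.dualBasis.map (Module.evalEquiv ℂ V).symm
  have hBF : ∀ i j : b, (B i) (F j) = if j = i then 1 else 0 := by
    intro i j
    have h1 : Module.evalEquiv ℂ V (F j) = B.dualBasis j := by
      simp [F]
    have h2 : (B i) (F j) = Module.evalEquiv ℂ V (F j) (B i) := by
      simp
    rw [h2, h1, Basis.dualBasis_apply_self]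
    by_cases h : i = j
    · simp [h]
    · simp [h, Ne.symm h]
  have hsep : ∀ g g' : V, (∀ i : b, B i g = B i g') → g = g' := by
    intro g g' h
    apply (Module.evalEquiv ℂ V).injective
    apply B.ext
    intro i
    simpa using h i
  have hn : ∀ i : b, ∃ n : ℕ, a n = B i := fun i => by
    rw [hBi]
    exact hbS i.2
  choose n hn using hn
  have hmem : ∀ j : b, F j ∈ {f : V | ∀ n, ∃ r : ℚ, a n f = (r : ℂ)} := by
    intro j m
    have hfix : ∀ σ : ℂ ≃+* ℂ, σ (a m (F j)) = a m (F j) := by
      intro σ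
      obtain ⟨g, hg⟩ := hσ σ (F j)
      have hgF : g = F j := by
        apply hsep
        intro i
        rw [← hn i, hg, hn i, hBF]
        split_ifs <;> simp
      rw [← hg m, hgF]
    obtain ⟨r, hr⟩ := Fermat.Agent.S23.mem_range_ratCast_of_forall_ringEquiv _ hfix
    exact ⟨r, hr.symm⟩
  rw [eq_top_iff, ← F.span_eq]
  apply Submodule.span_mono
  rintro _ ⟨j, rfl⟩
  exact hmem j

end Fermat.Agent.S23.H683

end
-- ===== PACK-END S23/H683/Descent.lean

-- ===== PACK-BEGIN Lib/Newform/H683/Eigen.lean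
section
/-
NEWFORM library (helper683) — part 2: the dictionary

  `IsNormalizedEigenform f`  ⟺  `a₁ = 1` and `f` is an eigenvector of all `T_p` (`p ∤ N`) and
                                  all `U_p` (`p ∣ N`).
-/


set_option autoImplicit false

open CongruenceSubgroup ModularFormClass ModularForm UpperHalfPlane

namespace Fermat.Agent.Lib.Newform.H683

variable {N : ℕ}

/-! ### From the multiplicative relations to the Hecke relations -/

/-- `a(p^(e+1)) + p a(p^(e-1)) = a_p a(p^e)` for `p ∤ N` (with the convention that the second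
term is absent for `e = 0`). -/
theorem coeff_mul_prime_of_not_dvd
    {f : CuspForm (Gamma0 N) 2} (hf : f.IsNormalizedEigenform) {p : ℕ} (hp : p.Prime)
    (hpN : ¬ p ∣ N) (n : ℕ) :
    qCoeff ⇑f (n * p) + (if p ∣ n then (p : ℂ) * qCoeff ⇑f (n / p) else 0)
      = qCoeff ⇑f p * qCoeff ⇑f n := by
  rcases Nat.eq_zero_or_pos n with rfl | hn
  · simp [qCoeff_zero_cusp]
  obtain ⟨e, m, hm, rfl⟩ := Nat.exists_eq_pow_mul_and_not_dvd hn.ne' p hp.ne_one
  have hcop : ∀ j, Nat.Coprime (p ^ j) m := fun j =>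
    Nat.Coprime.pow_left j ((Nat.Prime.coprime_iff_not_dvd hp).mpr hm)
  have e1 : p ^ e * m * p = p ^ (e + 1) * m := by ring
  rw [e1, hf.qCoeff_mul_of_coprime _ _ (hcop _), hf.qCoeff_mul_of_coprime _ _ (hcop _)]
  rcases Nat.eq_zero_or_pos e with rfl | he
  · have : ¬ p ∣ p ^ 0 * m := by simpa using hm
    rw [if_neg this]
    simp [hf.qCoeff_one]
  · obtain ⟨r, rfl⟩ : ∃ r, e = r + 1 := ⟨e - 1, by omega⟩
    have hdvd : p ∣ p ^ (r + 1) * m := Dvd.dvd.mul_right (dvd_pow_self p (by omega)) m
    rw [if_pos hdvd]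
    have e2 : p ^ (r + 1) * m / p = p ^ r * m := by
      rw [pow_succ, mul_assoc, mul_comm p m, ← mul_assoc]
      exact Nat.mul_div_cancel _ hp.pos
    rw [e2, hf.qCoeff_mul_of_coprime _ _ (hcop _), hf.qCoeff_prime_pow_of_not_dvd p r hp hpN]
    ring

theorem coeff_mul_prime_of_dvd
    {f : CuspForm (Gamma0 N) 2} (hf : f.IsNormalizedEigenform) {p : ℕ} (hp : p.Prime)
    (hpN : p ∣ N) (n : ℕ) :
    qCoeff ⇑f (n * p) = qCoeff ⇑f p * qCoeff ⇑f n := by
  rcases Nat.eq_zero_or_pos n with rfl | hn
  · simp [qCoeff_zero_cusp]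
  obtain ⟨e, m, hm, rfl⟩ := Nat.exists_eq_pow_mul_and_not_dvd hn.ne' p hp.ne_one
  have hcop : ∀ j, Nat.Coprime (p ^ j) m := fun j =>
    Nat.Coprime.pow_left j ((Nat.Prime.coprime_iff_not_dvd hp).mpr hm)
  have e1 : p ^ e * m * p = p ^ (e + 1) * m := by ring
  rw [e1, hf.qCoeff_mul_of_coprime _ _ (hcop _), hf.qCoeff_mul_of_coprime _ _ (hcop _)]
  rcases Nat.eq_zero_or_pos e with rfl | he
  · simp [hf.qCoeff_one]
  · obtain ⟨r, rfl⟩ : ∃ r, e = r + 1 := ⟨e - 1, by omega⟩
    rw [hf.qCoeff_prime_pow_of_dvd p r hp hpN]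
    ring

/-- **(E1)** A normalized eigenform is an eigenvector of `T_p`, `p ∤ N`, with eigenvalue `a_p`. -/
theorem heckeTLin_eq_of_eigenform
    {f : CuspForm (Gamma0 N) 2} (hf : f.IsNormalizedEigenform) {p : ℕ} (hp : p.Prime)
    (hpN : ¬ p ∣ N) :
    CuspForm.heckeTLin 2 hp hpN f = qCoeff ⇑f p • f := by
  apply cusp_ext_qCoeff
  intro n
  rw [qCoeff_smul_cusp, CuspForm.coe_heckeTLin_apply, qCoeff_heckeT_cusp 2 f hp.ne_zero,
    coeffHeckeT_apply, ← coeff_mul_prime_of_not_dvd hf hp hpN n]
  norm_num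

/-- **(E1)** function-level version. -/
theorem heckeT_eq_of_eigenform
    {f : CuspForm (Gamma0 N) 2} (hf : f.IsNormalizedEigenform) {p : ℕ} (hp : p.Prime)
    (hpN : ¬ p ∣ N) :
    heckeT 2 p ⇑f = qCoeff ⇑f p • ⇑f := by
  have := congrArg (fun g : CuspForm (Gamma0 N) 2 => (⇑g : ℍ → ℂ)) (heckeTLin_eq_of_eigenform hf hp hpN)
  simpa using this

/-- **(E1)** A normalized eigenform is an eigenvector of `U_p`, `p ∣ N`, with eigenvalue `a_p`. -/
theorem heckeULin_eq_of_eigenform [NeZero N]
    {f : CuspForm (Gamma0 N) 2} (hf : f.IsNormalizedEigenform) {p : ℕ} (hp : p.Prime)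
    (hpN : p ∣ N) :
    CuspForm.heckeULin 2 hpN f = qCoeff ⇑f p • f := by
  apply cusp_ext_qCoeff
  intro n
  rw [qCoeff_smul_cusp, CuspForm.coe_heckeULin_apply, qCoeff_heckeU_cusp 2 f hp.ne_zero,
    coeffHeckeU_apply, coeff_mul_prime_of_dvd hf hp hpN n]

theorem heckeU_eq_of_eigenform [NeZero N]
    {f : CuspForm (Gamma0 N) 2} (hf : f.IsNormalizedEigenform) {p : ℕ} (hp : p.Prime)
    (hpN : p ∣ N) :
    heckeU 2 p ⇑f = qCoeff ⇑f p • ⇑f := by
  have := congrArg (fun g : CuspForm (Gamma0 N) 2 => (⇑g : ℍ → ℂ)) (heckeULin_eq_of_eigenform hf hp hpN)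
  simpa using this

/-! ### From the Hecke relations to the multiplicative relations -/

/-- Coefficientwise form of `T_p g = c • g`. -/
theorem coeff_of_heckeT_eq (g : CuspForm (Gamma0 N) 2) {p : ℕ} (hp : p.Prime) (c : ℂ)
    (h : heckeT 2 p ⇑g = c • ⇑g) (n : ℕ) :
    qCoeff ⇑g (n * p) + (if p ∣ n then (p : ℂ) * qCoeff ⇑g (n / p) else 0)
      = c * qCoeff ⇑g n := by
  have h1 := qCoeff_heckeT_cusp 2 g hp.ne_zero n
  rw [h, coeffHeckeT_apply] at h1
  have h2 := qCoeff_smul_cusp 2 c g n
  rw [FunLike.coe_smul] at h2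
  rw [← h2, h1]
  norm_num

/-- Coefficientwise form of `U_p g = c • g`. -/
theorem coeff_of_heckeU_eq (g : CuspForm (Gamma0 N) 2) {p : ℕ} (hp : p.Prime) (c : ℂ)
    (h : heckeU 2 p ⇑g = c • ⇑g) (n : ℕ) :
    qCoeff ⇑g (n * p) = c * qCoeff ⇑g n := by
  have h1 := qCoeff_heckeU_cusp 2 g hp.ne_zero n
  rw [h, coeffHeckeU_apply] at h1
  have h2 := qCoeff_smul_cusp 2 c g n
  rw [FunLike.coe_smul] at h2
  rw [← h2, h1]

/-- If `g` is an eigenvector of every `T_p` (`p ∤ N`) and `U_p` (`p ∣ N`) and `a₁(g) = 0`,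
then `g = 0`. -/
theorem eq_zero_of_eigen_of_coeff_one_eq_zero (g : CuspForm (Gamma0 N) 2)
    (hT : ∀ p : ℕ, p.Prime → ¬ p ∣ N → ∃ c : ℂ, heckeT 2 p ⇑g = c • ⇑g)
    (hU : ∀ p : ℕ, p.Prime → p ∣ N → ∃ c : ℂ, heckeU 2 p ⇑g = c • ⇑g)
    (h1 : qCoeff ⇑g 1 = 0) : g = 0 := by
  apply cusp_eq_zero_of_qCoeff
  intro n
  induction n using Nat.strong_induction_on with
  | _ n ih =>
    rcases Nat.eq_zero_or_pos n with rfl | hn
    · exact qCoeff_zero_cusp 2 g
    rcases Nat.eq_or_lt_of_le (Nat.succ_le_of_lt hn) with h | h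
    · rw [← h]; exact h1
    · have hn1 : n ≠ 1 := by omega
      obtain ⟨p, hp, hpn⟩ := Nat.exists_prime_and_dvd hn1
      obtain ⟨m, rfl⟩ := hpn
      have hm : 0 < m := Nat.pos_of_ne_zero (by rintro rfl; simp at hn)
      have hlt : m < p * m := by
        have := hp.one_lt
        nlinarith
      rw [mul_comm p m]
      by_cases hpN : p ∣ N
      · obtain ⟨c, hc⟩ := hU p hp hpN
        rw [coeff_of_heckeU_eq g hp c hc m, ih m hlt, mul_zero]
      · obtain ⟨c, hc⟩ := hT p hp hpN
        have := coeff_of_heckeT_eq g hp c hc m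
        rw [ih m hlt, mul_zero] at this
        by_cases hpm : p ∣ m
        · rw [if_pos hpm, ih (m / p) (lt_of_le_of_lt (Nat.div_le_self m p) hlt), mul_zero,
            add_zero] at this
          exact this
        · rw [if_neg hpm, add_zero] at this
          exact this

/-- The eigenvalue of `T_p` on a normalised form is `a_p`. -/
theorem eigenvalue_T_eq_coeff (g : CuspForm (Gamma0 N) 2) (h1 : qCoeff ⇑g 1 = 1)
    {p : ℕ} (hp : p.Prime) (c : ℂ) (h : heckeT 2 p ⇑g = c • ⇑g) : c = qCoeff ⇑g p := by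
  have := coeff_of_heckeT_eq g hp c h 1
  have hp1 : ¬ p ∣ 1 := fun h => hp.one_lt.ne' (Nat.dvd_one.mp h)
  rw [if_neg hp1, h1, one_mul, add_zero, mul_one] at this
  exact this.symm

/-- The eigenvalue of `U_p` on a normalised form is `a_p`. -/
theorem eigenvalue_U_eq_coeff (g : CuspForm (Gamma0 N) 2) (h1 : qCoeff ⇑g 1 = 1)
    {p : ℕ} (hp : p.Prime) (c : ℂ) (h : heckeU 2 p ⇑g = c • ⇑g) : c = qCoeff ⇑g p := by
  have := coeff_of_heckeU_eq g hp c h 1
  rw [h1, one_mul, mul_one] at this
  exact this.symm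

/-- **(E1')** A cusp form with `a₁ = 1` which is an eigenvector of every `T_p` (`p ∤ N`) and every
`U_p` (`p ∣ N`) is a normalized eigenform in the sense of the Prelude. -/
theorem isNormalizedEigenform_of_eigen (g : CuspForm (Gamma0 N) 2) (h1 : qCoeff ⇑g 1 = 1)
    (hT : ∀ p : ℕ, p.Prime → ¬ p ∣ N → ∃ c : ℂ, heckeT 2 p ⇑g = c • ⇑g)
    (hU : ∀ p : ℕ, p.Prime → p ∣ N → ∃ c : ℂ, heckeU 2 p ⇑g = c • ⇑g) :
    g.IsNormalizedEigenform := by
  -- the two recursions
  have recT : ∀ p : ℕ, p.Prime → ¬ p ∣ N → ∀ n : ℕ,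
      qCoeff ⇑g (n * p) + (if p ∣ n then (p : ℂ) * qCoeff ⇑g (n / p) else 0)
        = qCoeff ⇑g p * qCoeff ⇑g n := by
    intro p hp hpN n
    obtain ⟨c, hc⟩ := hT p hp hpN
    rw [← eigenvalue_T_eq_coeff g h1 hp c hc]
    exact coeff_of_heckeT_eq g hp c hc n
  have recU : ∀ p : ℕ, p.Prime → p ∣ N → ∀ n : ℕ,
      qCoeff ⇑g (n * p) = qCoeff ⇑g p * qCoeff ⇑g n := by
    intro p hp hpN n
    obtain ⟨c, hc⟩ := hU p hp hpN
    rw [← eigenvalue_U_eq_coeff g h1 hp c hc]
    exact coeff_of_heckeU_eq g hp c hc n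
  refine ⟨h1, ?_, ?_, ?_⟩
  · -- multiplicativity
    intro m n
    induction n using Nat.strong_induction_on generalizing m with
    | _ n ih =>
      intro hmn
      rcases Nat.eq_zero_or_pos n with rfl | hn
      · have hm1 : m = 1 := by simpa using hmn
        subst hm1
        simp [h1]
      rcases Nat.eq_or_lt_of_le (Nat.succ_le_of_lt hn) with h | h
      · rw [← h]; simp [h1]
      have hn1 : n ≠ 1 := by omega
      obtain ⟨p, hp, hpn⟩ := Nat.exists_prime_and_dvd hn1
      obtain ⟨n', rfl⟩ := hpn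
      have hn' : 0 < n' := Nat.pos_of_ne_zero (by rintro rfl; simp at hn)
      have hlt : n' < p * n' := by
        have := hp.one_lt
        nlinarith
      have hmn' : Nat.Coprime m n' := Nat.Coprime.coprime_mul_left_right hmn
      have hmp : Nat.Coprime m p := Nat.Coprime.coprime_mul_right_right hmn
      have hpm : ¬ p ∣ m := fun h =>
        hp.one_lt.ne' (Nat.Coprime.eq_one_of_dvd hmp.symm h)
      have e1 : m * (p * n') = m * n' * p := by ring
      have e2 : p * n' = n' * p := by ring
      have ihn' := ih n' hlt m hmn'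
      by_cases hpN : p ∣ N
      · rw [e1, recU p hp hpN (m * n'), ihn', e2, recU p hp hpN n']
        ring
      · have r1 := recT p hp hpN (m * n')
        have r2 := recT p hp hpN n'
        by_cases hpn' : p ∣ n'
        · have hd : p ∣ m * n' := Dvd.dvd.mul_left hpn' m
          rw [if_pos hd] at r1
          rw [if_pos hpn'] at r2
          have hlt2 : n' / p < p * n' := lt_of_le_of_lt (Nat.div_le_self n' p) hlt
          have hcop2 : Nat.Coprime m (n' / p) :=
            Nat.Coprime.coprime_dvd_right (Nat.div_dvd_of_dvd hpn') hmn'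
          have e3 : m * n' / p = m * (n' / p) := Nat.mul_div_assoc m hpn'
          rw [e3, ih (n' / p) hlt2 m hcop2, ihn'] at r1
          rw [e1, e2]
          linear_combination r1 - qCoeff ⇑g m * r2
        · have hd : ¬ p ∣ m * n' := fun h =>
            (hp.dvd_mul.mp h).elim hpm hpn'
          rw [if_neg hd, add_zero, ihn'] at r1
          rw [if_neg hpn', add_zero] at r2
          rw [e1, e2, r1, r2]
          ring
  · intro p r hp hpN
    have := recT p hp hpN (p ^ (r + 1))
    have hd : p ∣ p ^ (r + 1) := dvd_pow_self p (by omega)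
    rw [if_pos hd] at this
    have e1 : p ^ (r + 1) * p = p ^ (r + 2) := by ring
    have e2 : p ^ (r + 1) / p = p ^ r := by
      rw [pow_succ]; exact Nat.mul_div_cancel _ hp.pos
    rw [e1, e2] at this
    linear_combination this
  · intro p r hp hpN
    have := recU p hp hpN (p ^ (r + 1))
    have e1 : p ^ (r + 1) * p = p ^ (r + 2) := by ring
    rw [e1] at this
    exact this

end Fermat.Agent.Lib.Newform.H683

end
-- ===== PACK-END Lib/Newform/H683/Eigen.lean

-- ===== PACK-BEGIN Lib/Newform/H683/FinDim.lean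
section
/-
NEWFORM library (helper683) — `S_k(Γ₀(N))` is finite-dimensional (from the Prelude Sturm bound).
-/



set_option autoImplicit false

open CongruenceSubgroup ModularFormClass ModularForm UpperHalfPlane

namespace Fermat.Agent.Lib.Newform.H683

variable {N : ℕ}

theorem qCoeff_add_cusp (k : ℤ) (f g : CuspForm (Gamma0 N) k) (n : ℕ) :
    qCoeff ⇑(f + g) n = qCoeff ⇑f n + qCoeff ⇑g n := by
  have h1 := CongruenceSubgroup.one_mem_strictPeriods_Gamma0 N
  unfold qCoeff
  rw [FunLike.coe_add, UpperHalfPlane.qExpansion_add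
    (ModularFormClass.analyticAt_cuspFunction_zero f one_pos h1)
    (ModularFormClass.analyticAt_cuspFunction_zero g one_pos h1)]
  simp

/-- the `n`-th `q`-coefficient as a linear functional on cusp forms -/
noncomputable def coeffLin (N : ℕ) (k : ℤ) (n : ℕ) : CuspForm (Gamma0 N) k →ₗ[ℂ] ℂ where
  toFun f := qCoeff ⇑f n
  map_add' f g := qCoeff_add_cusp k f g n
  map_smul' c f := by
    simp only [RingHom.id_apply, smul_eq_mul]
    exact qCoeff_smul_cusp k c f n

@[simp] theorem coeffLin_apply (N : ℕ) (k : ℤ) (n : ℕ) (f : CuspForm (Gamma0 N) k) :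
    coeffLin N k n f = qCoeff ⇑f n := rfl

/-- the Sturm truncation map -/
noncomputable def sturmTrunc (N : ℕ) (k : ℤ) :
    CuspForm (Gamma0 N) k →ₗ[ℂ] (Fin ((k * (Gamma0 N).index).toNat / 12 + 1) → ℂ) :=
  LinearMap.pi fun i => coeffLin N k i

theorem sturmTrunc_injective (N : ℕ) [NeZero N] (k : ℤ) :
    Function.Injective (sturmTrunc N k) := by
  rw [← LinearMap.ker_eq_bot, LinearMap.ker_eq_bot']
  intro f hf
  have hg : CuspForm.toModularFormₗ f = 0 := by
    refine ModularForm.sturm_bound_Gamma0 N _ (fun n hn => ?_)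
    have := congrFun hf ⟨n, Nat.lt_succ_of_le hn⟩
    have h2 : (⇑(CuspForm.toModularFormₗ f) : ℍ → ℂ) = ⇑f := rfl
    rw [h2]
    simpa [sturmTrunc, qCoeff] using this
  exact CuspForm.toModularFormₗ_injective (by simpa using hg)

theorem finiteDimensional_cuspForm (N : ℕ) [NeZero N] (k : ℤ) :
    FiniteDimensional ℂ (CuspForm (Gamma0 N) k) :=
  FiniteDimensional.of_injective (sturmTrunc N k) (sturmTrunc_injective N k)

end Fermat.Agent.Lib.Newform.H683

end
-- ===== PACK-END Lib/Newform/H683/FinDim.lean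

-- ===== PACK-BEGIN Lib/Newform/H863/Degeneracy.lean
section





/-!
# NEWFORM library, layer 0 (helper863): level inclusion and degeneracy maps

For weight 2 cusp forms on `Γ₀(M)`:

* `levelIncl (h : M ∣ N) : S₂(Γ₀(M)) →ₗ S₂(Γ₀(N))`, same function, same `q`-coefficients;
* `degen d : S₂(Γ₀(M)) →ₗ S₂(Γ₀(M * d))`, `(degen d f) τ = f (d τ)`,
  `qCoeff (degen d f) n = if d ∣ n then qCoeff f (n / d) else 0`.
-/

set_option autoImplicit false

open UpperHalfPlane ModularForm CongruenceSubgroup Matrix.SpecialLinearGroup ModularFormClass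
open scoped MatrixGroups ModularForm Manifold

namespace Fermat.Agent.Lib.Newform.H863

noncomputable section

/-- Restriction of a cusp form to a smaller subgroup. -/
def restrictCF {Γ Γ' : Subgroup (GL (Fin 2) ℝ)} {k : ℤ} (h : Γ ≤ Γ') (f : CuspForm Γ' k) :
    CuspForm Γ k where
  toFun := f
  slash_action_eq' γ hγ := f.slash_action_eq' γ (h hγ)
  holo' := f.holo'
  zero_at_cusps' hc := f.zero_at_cusps' (hc.mono h)

@[simp] theorem coe_restrictCF {Γ Γ' : Subgroup (GL (Fin 2) ℝ)} {k : ℤ} (h : Γ ≤ Γ')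
    (f : CuspForm Γ' k) : ⇑(restrictCF h f) = ⇑f := rfl

theorem Gamma0_le_of_dvd {M N : ℕ} (h : M ∣ N) : Gamma0 N ≤ Gamma0 M := by
  intro g hg
  rw [Gamma0_mem] at hg ⊢
  have h1 : (N : ℤ) ∣ g 1 0 := (ZMod.intCast_zmod_eq_zero_iff_dvd _ _).mp hg
  exact (ZMod.intCast_zmod_eq_zero_iff_dvd _ _).mpr ((Int.natCast_dvd_natCast.mpr h).trans h1)

theorem Gamma0_map_le_of_dvd {M N : ℕ} (h : M ∣ N) :
    (Gamma0 N : Subgroup (GL (Fin 2) ℝ)) ≤ (Gamma0 M : Subgroup (GL (Fin 2) ℝ)) :=
  Subgroup.map_mono (Gamma0_le_of_dvd h)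

/-- Level inclusion `S₂(Γ₀(M)) → S₂(Γ₀(N))` for `M ∣ N`. -/
def levelIncl {M N : ℕ} (h : M ∣ N) :
    CuspForm (Gamma0 M) 2 →ₗ[ℂ] CuspForm (Gamma0 N) 2 where
  toFun f := restrictCF (Gamma0_map_le_of_dvd h) f
  map_add' _ _ := DFunLike.coe_injective rfl
  map_smul' _ _ := DFunLike.coe_injective rfl

@[simp] theorem coe_levelIncl {M N : ℕ} (h : M ∣ N) (f : CuspForm (Gamma0 M) 2) :
    ⇑(levelIncl h f) = ⇑f := rfl

theorem qCoeff_levelIncl {M N : ℕ} (h : M ∣ N) (f : CuspForm (Gamma0 M) 2) (n : ℕ) :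
    qCoeff ⇑(levelIncl h f) n = qCoeff ⇑f n := rfl

theorem levelIncl_injective {M N : ℕ} (h : M ∣ N) : Function.Injective (levelIncl h) := by
  intro f g hfg
  apply DFunLike.coe_injective
  have := congrArg (fun F : CuspForm (Gamma0 N) 2 => (⇑F : ℍ → ℂ)) hfg
  simpa using this

/-! ### The degeneracy map `f(τ) ↦ f(d τ)` -/

theorem degen_det_eq (g : SL(2, ℤ)) : g 0 0 * g 1 1 - g 0 1 * g 1 0 = 1 := by
  have := g.det_coe
  rw [Matrix.det_fin_two] at this
  exact this

/-- `diag(d,1) g = g' diag(d,1)` with explicit `g'`, when `d ∣ g 1 0`. -/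
theorem degen_diag_mul {d : ℕ} (hd : d ≠ 0) (g : SL(2, ℤ)) (e : ℤ) (he : g 1 0 = d * e) :
    ∃ g' : SL(2, ℤ), g' 1 0 = e ∧
      heckeDiagMatrix d * mapGL ℝ g = mapGL ℝ g' * heckeDiagMatrix d := by
  have hdet := degen_det_eq g
  refine ⟨⟨!![g 0 0, d * g 0 1; e, g 1 1], ?_⟩, ?_, ?_⟩
  · rw [Matrix.det_fin_two_of]
    linear_combination hdet + (g 0 1) * he
  · simp
  · ext i j
    fin_cases i <;> fin_cases j <;>
      simp [hd, Matrix.mul_apply, Fin.sum_univ_two]
    all_goals first
      | (have := congrArg (Int.cast : ℤ → ℝ) he; push_cast at this ⊢; linear_combination this)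
      | (have := congrArg (Int.cast : ℤ → ℝ) he; push_cast at this ⊢; linear_combination -this)
      | ring1

open ConjAct Pointwise in
theorem Gamma0_mul_le_conj {M d : ℕ} (hd : d ≠ 0) :
    (Gamma0 (M * d) : Subgroup (GL (Fin 2) ℝ)) ≤
      toConjAct (heckeDiagMatrix d)⁻¹ • (Gamma0 M : Subgroup (GL (Fin 2) ℝ)) := by
  rintro γ ⟨g, hg, rfl⟩
  rw [Subgroup.mem_pointwise_smul_iff_inv_smul_mem, ← map_inv, inv_inv, ConjAct.smul_def,
    ConjAct.ofConjAct_toConjAct]
  have hg' : ((g 1 0 : ℤ) : ZMod (M * d)) = 0 := by simpa [Gamma0_mem] using hg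
  obtain ⟨e', he'⟩ := (ZMod.intCast_zmod_eq_zero_iff_dvd _ _).mp hg'
  have he : g 1 0 = d * (M * e') := by rw [he']; push_cast; ring
  obtain ⟨g', hg'10, hg'⟩ := degen_diag_mul hd g (M * e') he
  rw [hg', mul_inv_cancel_right]
  refine ⟨g', Gamma0_mem.mpr ?_, rfl⟩
  rw [hg'10]
  push_cast
  simp

/-- The degeneracy map `B_d : S₂(Γ₀(M)) → S₂(Γ₀(M d))`, `f(τ) ↦ f(d τ)`. -/
def degen (d : ℕ) [NeZero d] {M : ℕ} :
    CuspForm (Gamma0 M) 2 →ₗ[ℂ] CuspForm (Gamma0 (M * d)) 2 where
  toFun f := (d : ℂ)⁻¹ • restrictCF (Gamma0_mul_le_conj (NeZero.ne d))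
    (CuspForm.translate f (heckeDiagMatrix d))
  map_add' f g := by
    apply DFunLike.coe_injective
    ext τ
    simp only [CuspForm.IsGLPos.coe_smul, coe_restrictCF, CuspForm.coe_add, Pi.smul_apply,
      Pi.add_apply, smul_eq_mul]
    change _ * ((⇑(f + g)) ∣[(2 : ℤ)] heckeDiagMatrix d) τ = _ * ((⇑f) ∣[(2 : ℤ)] heckeDiagMatrix d) τ
      + _ * ((⇑g) ∣[(2 : ℤ)] heckeDiagMatrix d) τ
    rw [CuspForm.coe_add, SlashAction.add_slash, Pi.add_apply, mul_add]
  map_smul' c f := by
    apply DFunLike.coe_injective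
    ext τ
    simp only [CuspForm.IsGLPos.coe_smul, coe_restrictCF, Pi.smul_apply, smul_eq_mul,
      RingHom.id_apply]
    change _ * ((⇑(c • f)) ∣[(2 : ℤ)] heckeDiagMatrix d) τ
      = c * (_ * ((⇑f) ∣[(2 : ℤ)] heckeDiagMatrix d) τ)
    rw [slash_heckeDiagMatrix_apply 2 (NeZero.ne d), slash_heckeDiagMatrix_apply 2 (NeZero.ne d),
      CuspForm.IsGLPos.coe_smul, Pi.smul_apply, smul_eq_mul]
    ring

theorem degen_apply (d : ℕ) [NeZero d] {M : ℕ} (f : CuspForm (Gamma0 M) 2) (τ : ℍ) :
    degen d f τ = f (heckeDiagMatrix d • τ) := by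
  change ((d : ℂ)⁻¹ • restrictCF (Gamma0_mul_le_conj (NeZero.ne d))
    (CuspForm.translate f (heckeDiagMatrix d))) τ = _
  rw [CuspForm.IsGLPos.coe_smul, Pi.smul_apply, smul_eq_mul, coe_restrictCF]
  change _ * ((⇑f) ∣[(2 : ℤ)] heckeDiagMatrix d) τ = _
  rw [slash_heckeDiagMatrix_apply 2 (NeZero.ne d)]
  have hd : (d : ℂ) ≠ 0 := Nat.cast_ne_zero.mpr (NeZero.ne d)
  norm_num
  field_simp

theorem qParam_diag_smul (d : ℕ) [NeZero d] (τ : ℍ) :
    Function.Periodic.qParam 1 ((heckeDiagMatrix d • τ : ℍ) : ℂ) =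
      Function.Periodic.qParam 1 (τ : ℂ) ^ d := by
  rw [coe_heckeDiagMatrix_smul (NeZero.ne d), Function.Periodic.qParam, Function.Periodic.qParam,
    ← Complex.exp_nat_mul]
  congr 1
  push_cast
  ring

/-- The `q`-expansion of `f(d τ)`. -/
theorem qCoeff_degen (d : ℕ) [NeZero d] {M : ℕ} (f : CuspForm (Gamma0 M) 2) (n : ℕ) :
    qCoeff ⇑(degen d f) n = if d ∣ n then qCoeff ⇑f (n / d) else 0 := by
  set c : ℕ → ℂ := fun n ↦ if d ∣ n then qCoeff ⇑f (n / d) else 0 with hc
  have hd : 0 < d := Nat.pos_of_ne_zero (NeZero.ne d)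
  have hinj : Function.Injective (fun m : ℕ ↦ d * m) := fun a b h ↦
    Nat.eq_of_mul_eq_mul_left hd h
  haveI : Fact (IsCusp OnePoint.infty
      (Subgroup.map (Matrix.SpecialLinearGroup.mapGL ℝ) (Gamma0 M))) :=
    ⟨Subgroup.isCusp_of_mem_strictPeriods one_pos (one_mem_strictPeriods_Gamma0 M)⟩
  have key : ∀ τ : ℍ, HasSum (fun m ↦ c m • Function.Periodic.qParam 1 (τ : ℂ) ^ m)
      (degen d f τ) := by
    intro τ
    have h1 := ModularForm.hasSum_qExpansion (f := f) one_pos (one_mem_strictPeriods_Gamma0 M)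
      (heckeDiagMatrix d • τ)
    rw [qParam_diag_smul] at h1
    rw [← degen_apply] at h1
    rw [← hinj.hasSum_iff]
    · have hfun : ((fun m ↦ c m • Function.Periodic.qParam 1 (τ : ℂ) ^ m) ∘ fun m : ℕ ↦ d * m) =
          fun i ↦ (qExpansion 1 ⇑f).coeff i * (Function.Periodic.qParam 1 (τ : ℂ) ^ d) ^ i := by
        funext m
        simp only [Function.comp_apply, hc, dvd_mul_right, if_true,
          Nat.mul_div_cancel_left m hd, smul_eq_mul, qCoeff]
        rw [pow_mul]
      rw [hfun]
      exact h1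
    · intro x hx
      have : ¬ d ∣ x := fun ⟨m, hm⟩ ↦ hx ⟨m, hm.symm⟩
      simp [hc, this]
  exact (ModularFormClass.qExpansion_coeff_unique one_pos
    (one_mem_strictPeriods_Gamma0 (M * d)) key n).symm

theorem degen_injective (d : ℕ) [NeZero d] {M : ℕ} :
    Function.Injective (degen d : CuspForm (Gamma0 M) 2 → CuspForm (Gamma0 (M * d)) 2) := by
  intro f g hfg
  have h0 : f - g = 0 := by
    apply Fermat.Agent.S49.glue_eq_zero_of_qCoeff
    intro n
    have h1 := congrArg (fun F : CuspForm (Gamma0 (M * d)) 2 => qCoeff ⇑F (d * n)) hfg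
    simp only [qCoeff_degen, dvd_mul_right, if_true,
      Nat.mul_div_cancel_left n (Nat.pos_of_ne_zero (NeZero.ne d))] at h1
    rw [Fermat.Agent.S49.glue_qCoeff_sub, h1, sub_self]
  exact sub_eq_zero.mp h0

end

end Fermat.Agent.Lib.Newform.H863

end
-- ===== PACK-END Lib/Newform/H863/Degeneracy.lean

-- ===== PACK-BEGIN A2/Alg/Spec.lean
section


/-!
# WALL A2 / ALG — frozen sub-interfaces (architect helper34), Mathlib-only

Decomposition of `Fermat.Agent.A2.algSS` (statement in `Fermat/Agent/A2/Skel.lean`, row-lead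
helper13).  This file contains ONLY definitions (no `sorry`).  The exact theorem statements of the
sub-pieces are in `Fermat/Agent/A2/Alg/Skel.lean`; the board is `coord/A2-ALG.md` (origin/helper34).

Notation: `R` henselian DVR, uniformiser `w`, `E = Frac R`, `F / E` the function field,
`B ⊆ F` a chart (integral closure of `R[x]` or `R[x⁻¹]`), `c : SSChart w B` its two components
`p₁`, `p₂`; `V_i := B_{p_i}` (a DVR with uniformiser `w`).

Elementwise local conditions (no localisation types, everything is a statement about elements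
of `F`):

* `LocUnit B n u`   : `u ∈ (B_n)ˣ`            (`u = a / b`, `a, b ∈ B ∖ n`);
* `LocOne B n I u`  : `u ∈ 1 + I · B_n`       (`u = a / b`, `b ∉ n`, `a - b ∈ I`);
* `OneAt B p u`     : `u ∈ 1 + p B_p`         (`u ≡ 1` on the component `p`);
* `ConstAt B p u`   : `u ∈ c · (1 + p B_p)` for a unit `c` of `R` (`u` is a unit on the component
                      `p`, with CONSTANT residue);
* `IsSplit B c u`   : `ConstAt` on both components of the chart;
* `LocalFactor B c m u n` : local factorisation of the Kummer problem `Y ^ m = u` at the closed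
                      point `n` of the special fibre.
* `ChartCtx`, `TauCtx` : the standing hypotheses of `algSS`, bundled (one chart).
-/

set_option autoImplicit false

namespace Fermat.Agent.A2.Alg

section Defs

variable {R F : Type*} [CommRing R] [Field F] [Algebra R F]

/-- `u` is a unit of the localisation `B_n`: `u = a / b` with `a, b ∈ B ∖ n`. -/
def LocUnit (B : Subalgebra R F) (n : Ideal B) (u : F) : Prop :=
  ∃ a b : B, a ∉ n ∧ b ∉ n ∧ u * (b : F) = (a : F)

/-- `u ∈ 1 + I · B_n`: `u = a / b` with `b ∉ n` and `a - b ∈ I`. -/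
def LocOne (B : Subalgebra R F) (n I : Ideal B) (u : F) : Prop :=
  ∃ a b : B, b ∉ n ∧ a - b ∈ I ∧ u * (b : F) = (a : F)

/-- `u ≡ 1` on the component `p` (`u ∈ 1 + p B_p`). -/
def OneAt (B : Subalgebra R F) (p : Ideal B) (u : F) : Prop :=
  LocOne B p p u

/-- `u` is a unit on the component `p` with constant residue: `u = a / b`, `b ∉ p`,
`a - c b ∈ p` for a unit `c` of `R`. -/
def ConstAt (B : Subalgebra R F) (p : Ideal B) (u : F) : Prop :=
  ∃ c : R, IsUnit c ∧ ∃ a b : B, b ∉ p ∧ a - algebraMap R B c * b ∈ p ∧ u * (b : F) = (a : F)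

/-- `u` has constant (unit) residue on both components of the chart. -/
def IsSplit {w : R} (B : Subalgebra R F) (c : SSChart w B) (u : F) : Prop :=
  ConstAt B c.p₁ u ∧ ConstAt B c.p₂ u

/-- The two components are incomparable (both are minimal primes over `w`, i.e. both are curves).
`SSChart` only records `p₁ ≠ p₂`, which also allows the degenerate case `p₁ = (w) ⊊ p₂`
(good reduction, `p₂` a closed point). -/
def Incomparable {w : R} {B : Subalgebra R F} (c : SSChart w B) : Prop :=
  ¬ c.p₁ ≤ c.p₂ ∧ ¬ c.p₂ ≤ c.p₁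

/-- **Purity datum at a closed point `n`** for `u`: `u · d ^ m` is a unit of `B_n`, and `d` is a
unit on both components. -/
def PureAt {w : R} (B : Subalgebra R F) (c : SSChart w B) (m : ℕ) (u : F) (n : Ideal B) : Prop :=
  ∃ d : F, d ≠ 0 ∧ LocUnit B n (u * d ^ m) ∧ LocUnit B c.p₁ d ∧ LocUnit B c.p₂ d

/-- **Local factorisation at a closed point `n`** of the special fibre of the chart `B`, for the
Kummer problem `Y ^ m = u`:  there is `h ∈ Fˣ` with `u · h ^ m ∈ 1 + w B_n` and `h ≡ 1` on both
components.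
(Then `B_n[Y]/(Y^m - u h^m)` is finite étale over `B_n` with canonically split special fibre, and
the sheet `Y h ≡ 1` is the same on the two branches through `n`.) -/
def LocalFactor {w : R} (B : Subalgebra R F) (c : SSChart w B) (m : ℕ) (u : F)
    (n : Ideal B) : Prop :=
  ∃ h : F, h ≠ 0 ∧ LocOne B n (Ideal.span {algebraMap R B w}) (u * h ^ m) ∧
    OneAt B c.p₁ h ∧ OneAt B c.p₂ h

/-- Local factorisations at ALL closed points of the special fibre of the chart `B`. -/
def LocallyFactored {w : R} (B : Subalgebra R F) (c : SSChart w B) (m : ℕ) (u : F) : Prop :=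
  ∀ n : Ideal B, n.IsMaximal → algebraMap R B w ∈ n → LocalFactor B c m u n

end Defs

section Ctx

variable {R E F : Type*} [CommRing R] [Field E] [Algebra R E] [Field F] [Algebra E F]
  [Algebra R F]

/-- The standing hypotheses of `algSS` on ONE chart `B` with coordinate `x`
(`(x, B) = (x, Bf)` or `(x⁻¹, Bi)`). -/
structure ChartCtx (E : Type*) [Field E] [Algebra R E] [Algebra E F] (w : R) (x : F)
    (B : Subalgebra R F) : Prop where
  hw : Irreducible w
  hx : Transcendental E x
  hfin : FiniteDimensional (IntermediateField.adjoin E ({x} : Set F)) F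
  hconst : ∀ f : F, IsAlgebraic E f → f ∈ (algebraMap E F).range
  hB : ∀ f : F, f ∈ B ↔ IsIntegral (Algebra.adjoin R ({x} : Set F)) f

/-- The standing hypotheses of `algSS` on the semilinear automorphism `τ`, on one chart. -/
structure TauCtx (w : R) (B : Subalgebra R F) (τ : F ≃+* F) (τE : E ≃+* E) (τR : R ≃+* R) :
    Prop where
  hτE : ∀ e : E, τ (algebraMap E F e) = algebraMap E F (τE e)
  hτR : ∀ r : R, τE (algebraMap R E r) = algebraMap R E (τR r)
  hτB : ∀ b ∈ B, ∃ c ∈ B, τ b - b = algebraMap R F w * c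

end Ctx

end Fermat.Agent.A2.Alg

end
-- ===== PACK-END A2/Alg/Spec.lean

-- ===== PACK-BEGIN A2/H93/CoverSplitTrans.lean
section




/-!
# Cell A2, route G, obligation C2 (COVER-SPLIT), part 2 — helper93 — Mathlib-only

In the setting of `CoverSplit` (file `CoverSplit.lean`), with `L / F` finite Galois:

* `CoverSplit.comap`            : `σ⁻¹ W` is again an extension of `V` (for `σ ∈ Gal(L/F)`);
* `CoverSplit.eq_of_centre_le`  : an extension `W` is determined by its centre on `V[y_i]`;
* `CoverSplit.exists_comap_eq`  : **transitivity**: any two extensions `W`, `W'` of `V` to `L`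
  are conjugate, `W' = σ⁻¹ W` (prime avoidance on `V[y_i]` + norm argument);
* `CoverSplit.comap_injective`  : `σ ↦ σ⁻¹ W` is injective (simple transitivity);
* `CoverSplit.finite_setOf`     : `V` has only finitely many extensions to `L`.

Together with `CoverSplit.lean` this is obligation C2 of `origin/helper12:coord/A2-wallG.md`
and the input of C7 (FIXED-SHEET).
-/

set_option autoImplicit false
set_option linter.style.haveILetI false

namespace Fermat.Agent.A2.H93

namespace CoverSplit

variable {F L : Type*} [Field F] [Field L] [Algebra F L]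
variable {V : ValuationSubring F} {W W' : ValuationSubring L} {w : F} {m : ℕ} {ζ : F}
  {ι : Type*} {y : ι → L} {g c : ι → F}

local notation "φ" => algebraMap F L

/-- Transport of an extension along an `F`-automorphism. -/
theorem comap (D : CoverSplit V W w m ζ y g c) (σ : L ≃ₐ[F] L) :
    CoverSplit V (W.comap (σ : L →+* L)) w m ζ y g c :=
  { D with
    ext := fun f => by
      rw [ValuationSubring.mem_comap]
      have : (σ : L →+* L) (φ f) = φ f := σ.commutes f
      rw [this]
      exact D.ext f }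

theorem val_w_mul_lt (D : CoverSplit V W w m ζ y g c) {t : L} (ht : t ∈ W) :
    W.valuation (φ w * t) < 1 := by
  rw [map_mul]
  calc W.valuation (φ w) * W.valuation t ≤ W.valuation (φ w) * 1 := by
        gcongr
        exact (W.valuation_le_one_iff _).2 ht
    _ = W.valuation (φ w) := mul_one _
    _ < 1 := D.val_w_lt

theorem val_lt_of_mul_inv_mem (D : CoverSplit V W w m ζ y g c) {a : F} (ha : a * w⁻¹ ∈ V) :
    W.valuation (φ a) < 1 := by
  have h : φ a = φ w * φ (a * w⁻¹) := by
    rw [← map_mul]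
    congr 1
    have := D.w_ne_zero
    field_simp
  rw [h]
  exact D.val_w_mul_lt ((D.ext _).2 ha)

/-- One inclusion of centres on `V[y_i]` implies the other. -/
theorem centre_le_of_centre_le (D : CoverSplit V W w m ζ y g c)
    (D' : CoverSplit V W' w m ζ y g c)
    (h : ∀ s ∈ ringB V y, W'.valuation s < 1 → W.valuation s < 1) :
    ∀ s ∈ ringB V y, W.valuation s < 1 → W'.valuation s < 1 := by
  intro s hs hlt
  obtain ⟨a, ha, t, ht, hst⟩ := D'.good_of_mem_ringB hs
  have hwt' : W'.valuation (φ w * t) < 1 := D'.val_w_mul_lt (D'.ringB'_le ht)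
  have hsa : s - φ a ∈ ringB V y := Subring.sub_mem _ hs (algebraMap_mem_ringB ha)
  have h1 : W.valuation (s - φ a) < 1 := by
    refine h _ hsa ?_
    have : s - φ a = φ w * t := by rw [hst]; ring
    rw [this]; exact hwt'
  have h2 : W.valuation (φ a) < 1 := by
    have : φ a = s + -(s - φ a) := by ring
    rw [this]
    refine lt_of_le_of_lt (Valuation.map_add _ _ _) (max_lt hlt ?_)
    rw [Valuation.map_neg]; exact h1
  have h3 : a * w⁻¹ ∈ V := D.mul_inv_mem_of_val_lt h2
  have h4 : W'.valuation (φ a) < 1 := D'.val_lt_of_mul_inv_mem h3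
  rw [hst]
  exact lt_of_le_of_lt (Valuation.map_add _ _ _) (max_lt h4 hwt')

theorem le_of_centre_le (D : CoverSplit V W w m ζ y g c) (D' : CoverSplit V W' w m ζ y g c)
    (h : ∀ s ∈ ringB V y, W'.valuation s < 1 → W.valuation s < 1) (x : L) (hx : x ∈ W) :
    x ∈ W' := by
  have hle : ringB' V W y ≤ W'.toSubring := by
    rw [ringB', Subring.closure_le]
    rintro z (hz | ⟨s, hs, hv, rfl⟩)
    · exact D'.ringB_le hz
    · -- `s` is a unit of `W`, hence of `W'`
      have hsW' : s ∈ W' := D'.ringB_le hs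
      have hle1 : W'.valuation s ≤ 1 := (W'.valuation_le_one_iff _).2 hsW'
      rcases lt_or_eq_of_le hle1 with hlt | heq
      · have := h s hs hlt
        rw [hv] at this
        exact absurd this (lt_irrefl _)
      · exact inv_mem_of_val_eq_one W' heq
  exact hle (D.mem_ringB' hx)

/-- An extension is determined by its centre on `V[y_i]`. -/
theorem eq_of_centre_le (D : CoverSplit V W w m ζ y g c) (D' : CoverSplit V W' w m ζ y g c)
    (h : ∀ s ∈ ringB V y, W'.valuation s < 1 → W.valuation s < 1) : W = W' := by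
  apply ValuationSubring.ext
  intro x
  exact ⟨D.le_of_centre_le D' h x,
    D'.le_of_centre_le D (D.centre_le_of_centre_le D' h) x⟩

section Centre

variable (V y) in
/-- The centre of a valuation subring `A ⊇ V[y_i]` on `V[y_i]`. -/
def centre (A : ValuationSubring L) (h : ringB V y ≤ A.toSubring) : Ideal (ringB V y) :=
  (IsLocalRing.maximalIdeal A).comap (Subring.inclusion h)

theorem mem_centre (A : ValuationSubring L) (h : ringB V y ≤ A.toSubring) (s : ringB V y) :
    s ∈ centre V y A h ↔ A.valuation (s : L) < 1 := by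
  rw [centre, Ideal.mem_comap, ValuationSubring.valuation_lt_one_iff]
  rfl

instance centre_isPrime (A : ValuationSubring L) (h : ringB V y ≤ A.toSubring) :
    (centre V y A h).IsPrime :=
  Ideal.comap_isPrime _ _

end Centre

/-- Simple transitivity: `σ ↦ σ⁻¹ W` is injective. -/
theorem comap_injective (D : CoverSplit V W w m ζ y g c) {σ τ : L ≃ₐ[F] L}
    (h : W.comap (σ : L →+* L) = W.comap (τ : L →+* L)) : σ = τ := by
  have h1 : τ * σ⁻¹ = 1 := by
    refine D.eq_one_of_map_eq (τ * σ⁻¹) (fun x => ?_)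
    have h2 : σ⁻¹ x ∈ W.comap (σ : L →+* L) ↔ σ⁻¹ x ∈ W.comap (τ : L →+* L) := by rw [h]
    rw [ValuationSubring.mem_comap, ValuationSubring.mem_comap] at h2
    have h3 : (σ : L →+* L) (σ⁻¹ x) = x := σ.apply_symm_apply x
    rw [h3] at h2
    exact h2
  have := mul_inv_eq_one.1 h1
  exact this.symm

section Galois

variable [FiniteDimensional F L] [IsGalois F L]

/-- **COVER-SPLIT (4), transitivity.**  Any two extensions of `V` to `L` are conjugate under
`Gal(L/F)`. -/
theorem exists_comap_eq (D : CoverSplit V W w m ζ y g c) (D' : CoverSplit V W' w m ζ y g c) :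
    ∃ σ : L ≃ₐ[F] L, W.comap (σ : L →+* L) = W' := by
  classical
  by_contra hcon
  push Not at hcon
  -- the centres
  have hB' : ringB V y ≤ W'.toSubring := D'.ringB_le
  have hBσ : ∀ σ : L ≃ₐ[F] L, ringB V y ≤ (W.comap (σ : L →+* L)).toSubring :=
    fun σ => (D.comap σ).ringB_le
  -- prime avoidance
  have hnot : ¬ ∃ σ ∈ (Finset.univ : Finset (L ≃ₐ[F] L)),
      centre V y W' hB' ≤ centre V y (W.comap (σ : L →+* L)) (hBσ σ) := by
    rintro ⟨σ, -, hle⟩
    apply hcon σ
    refine (D.comap σ).eq_of_centre_le D' ?_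
    intro s hs hlt
    have h1 : (⟨s, hs⟩ : ringB V y) ∈ centre V y W' hB' := (mem_centre _ _ _).2 hlt
    exact (mem_centre _ _ _).1 (hle h1)
  rw [← Ideal.subset_union_prime (1 : L ≃ₐ[F] L) 1 (fun σ _ _ _ => centre_isPrime _ _)] at hnot
  obtain ⟨x, hxP', hxσ⟩ := Set.not_subset.1 hnot
  have hxlt : W'.valuation (x : L) < 1 := (mem_centre _ _ _).1 hxP'
  have hxunit : ∀ σ : L ≃ₐ[F] L, W.valuation (σ (x : L)) = 1 := by
    intro σ
    have h1 : x ∉ centre V y (W.comap (σ : L →+* L)) (hBσ σ) := by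
      intro h
      apply hxσ
      simp only [Set.mem_iUnion]
      exact ⟨σ, Finset.mem_coe.2 (Finset.mem_univ σ), h⟩
    have hxW : σ (x : L) ∈ W := hBσ σ x.2
    have hle : W.valuation (σ (x : L)) ≤ 1 := (W.valuation_le_one_iff _).2 hxW
    rcases lt_or_eq_of_le hle with hlt | heq
    · exfalso
      apply h1
      rw [mem_centre]
      -- valuations of `W.comap σ` and `W` compare through membership
      have hx0 : (x : L) ≠ 0 := by
        intro h0
        rw [h0, map_zero, map_zero] at hlt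
        -- fine: `x = 0` lies in every ideal
        exact h1 (by
          have : x = 0 := Subtype.ext h0
          rw [this]; exact Ideal.zero_mem _)
      apply val_lt_one_of_inv_notMem
      rw [ValuationSubring.mem_comap]
      have hσx0 : σ (x : L) ≠ 0 := by
        intro h0
        exact hx0 (σ.injective (by rw [h0, map_zero]))
      have := inv_notMem_of_val_lt_one W hσx0 hlt
      show (σ : L →+* L) ((x : L)⁻¹) ∉ W
      rw [map_inv₀]
      exact this
    · exact heq
  -- the norm
  obtain ⟨n, hn⟩ : ∃ n : F, φ n = ∏ σ : L ≃ₐ[F] L, σ (x : L) := by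
    have hfix : ∀ τ : L ≃ₐ[F] L, τ (∏ σ : L ≃ₐ[F] L, σ (x : L)) = ∏ σ : L ≃ₐ[F] L, σ (x : L) := by
      intro τ
      rw [map_prod]
      exact Fintype.prod_equiv (Equiv.mulLeft τ) _ _ (fun σ => rfl)
    have hbot := (IsGalois.mem_bot_iff_fixed (F := F) (E := L) _).2 hfix
    rw [IntermediateField.mem_bot] at hbot
    exact hbot
  -- `n` is a unit at `W`
  have hnW : W.valuation (φ n) = 1 := by
    rw [hn, map_prod]
    exact Finset.prod_eq_one (fun σ _ => hxunit σ)
  -- `n` is a non-unit at `W'`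
  have hnW' : W'.valuation (φ n) < 1 := by
    rw [hn, ← Finset.mul_prod_erase Finset.univ (fun σ : L ≃ₐ[F] L => σ (x : L))
      (Finset.mem_univ (1 : L ≃ₐ[F] L)), map_mul]
    have h1 : W'.valuation ((1 : L ≃ₐ[F] L) (x : L)) < 1 := hxlt
    have h2 : W'.valuation (∏ σ ∈ Finset.univ.erase (1 : L ≃ₐ[F] L), σ (x : L)) ≤ 1 := by
      rw [W'.valuation_le_one_iff]
      refine Subring.prod_mem W'.toSubring (fun σ _ => ?_)
      exact (D'.comap σ).ringB_le x.2
    calc W'.valuation ((1 : L ≃ₐ[F] L) (x : L)) *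
          W'.valuation (∏ σ ∈ Finset.univ.erase (1 : L ≃ₐ[F] L), σ (x : L))
        ≤ W'.valuation ((1 : L ≃ₐ[F] L) (x : L)) * 1 := by gcongr
      _ = W'.valuation ((1 : L ≃ₐ[F] L) (x : L)) := mul_one _
      _ < 1 := h1
  have h3 : n * w⁻¹ ∈ V := D'.mul_inv_mem_of_val_lt hnW'
  have h4 := D.val_lt_of_mul_inv_mem h3
  rw [hnW] at h4
  exact lt_irrefl _ h4

/-- **COVER-SPLIT (5)**: `V` has only finitely many extensions to `L`. -/
theorem finite_setOf (V : ValuationSubring F) (w : F) (m : ℕ) (ζ : F) (y : ι → L)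
    (g c : ι → F) : {W : ValuationSubring L | CoverSplit V W w m ζ y g c}.Finite := by
  by_cases hne : ∃ W : ValuationSubring L, CoverSplit V W w m ζ y g c
  · obtain ⟨W, D⟩ := hne
    refine (Set.finite_range (fun σ : L ≃ₐ[F] L => W.comap (σ : L →+* L))).subset ?_
    intro W' D'
    obtain ⟨σ, hσ⟩ := D.exists_comap_eq D'
    exact ⟨σ, hσ⟩
  · have : {W : ValuationSubring L | CoverSplit V W w m ζ y g c} = ∅ :=
      Set.eq_empty_of_forall_notMem (fun W D => hne ⟨W, D⟩)
    rw [this]
    exact Set.finite_empty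

end Galois

end CoverSplit

end Fermat.Agent.A2.H93

end
-- ===== PACK-END A2/H93/CoverSplitTrans.lean

-- ===== PACK-BEGIN A2/H552/Const.lean
section








/-!
# A2 / ALG (c1), part 2 (helper552): no new constants in an unramified extension

`R` a Henselian discrete valuation ring of characteristic zero with algebraically closed residue
field, uniformiser `w`.

* `exists_algebraMap_eq_of_isAlgebraic` (ring form): `O ⊇ R` a domain whose non-units are exactly
  the multiples of `w` (a local ring with maximal ideal `w O`: "`e = 1`"; no finiteness, no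
  noetherianity, no rank assumption).  Then every element of `O` algebraic over `R` lies in `R`.
* `mem_range_of_isAlgebraic_of_valuationSubring` (field form): `E = Frac R`, `L / E` any field
  extension, `V` a valuation subring of `L` containing `R` in which `w` is a non-unit generating
  the non-units.  Then every element of `L` algebraic over `E` lies in `E`.

Application (A2, route G, step (c1)): `E` is algebraically closed in the Kummer cover `𝔽` of `F`
as soon as ONE of the two Gauss valuations `V₁` of `F` (uniformiser `w`) has an extension to `𝔽`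
with `e = 1` (e.g. when `V₁` splits completely).
-/

set_option autoImplicit false

namespace Fermat.Agent.A2.H552

open Polynomial IsLocalRing

section RingForm

variable {R O : Type*} [CommRing R] [IsDomain R] [IsDiscreteValuationRing R]
  [CommRing O] [IsDomain O] [Algebra R O]

/-- If `w^n` divides `r` in `O`, it does so in `R`. -/
theorem pow_dvd_of_map_pow_dvd {w : R} (hw : Irreducible w)
    (hwO : ¬ IsUnit (algebraMap R O w)) (hinj : Function.Injective (algebraMap R O))
    (n : ℕ) (r : R) (h : algebraMap R O w ^ n ∣ algebraMap R O r) : w ^ n ∣ r := by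
  rcases eq_or_ne r 0 with rfl | hr
  · exact dvd_zero _
  obtain ⟨a, u, rfl⟩ := IsDiscreteValuationRing.eq_unit_mul_pow_irreducible hr hw
  rcases le_or_gt n a with hna | hna
  · exact Dvd.dvd.mul_left (pow_dvd_pow w hna) _
  exfalso
  obtain ⟨k, rfl⟩ : ∃ k, n = a + (k + 1) := ⟨n - a - 1, by omega⟩
  have hw0 : algebraMap R O w ≠ 0 := by
    intro h0
    exact hw.ne_zero (hinj (by rw [h0, map_zero]))
  rw [map_mul, map_pow, pow_add, mul_comm (algebraMap R O (u : R))] at h
  have h' := (mul_dvd_mul_iff_left (pow_ne_zero a hw0)).mp h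
  have h'' : algebraMap R O w ∣ algebraMap R O (u : R) :=
    (dvd_pow_self _ (Nat.succ_ne_zero k)).trans h'
  exact hwO (isUnit_of_dvd_unit h'' (u.isUnit.map (algebraMap R O)))

variable [IsAlgClosed (ResidueField R)]

/-- The residue field of `O` is that of `R`: every element of `O` algebraic over `R` is
congruent modulo `w` to an element of `R`. -/
theorem exists_sub_dvd_of_isAlgebraic {w : R} (hw : Irreducible w)
    (hnu : ∀ b : O, ¬ IsUnit b → algebraMap R O w ∣ b)
    (hwO : ¬ IsUnit (algebraMap R O w)) (hinj : Function.Injective (algebraMap R O))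
    (β : O) (hβ : IsAlgebraic R β) : ∃ b : R, algebraMap R O w ∣ β - algebraMap R O b := by
  obtain ⟨p, hp0, hp⟩ := hβ
  have hmax : maximalIdeal R = Ideal.span {w} := hw.maximalIdeal_eq
  have hw0 : algebraMap R O w ≠ 0 := by
    intro h0
    exact hw.ne_zero (hinj (by rw [h0, map_zero]))
  have hCw : ¬ IsUnit (C w : R[X]) := by
    rw [Polynomial.isUnit_iff]
    rintro ⟨r, hr, hrw⟩
    rw [C_inj] at hrw
    exact hw.not_isUnit (hrw ▸ hr)
  -- make `p` primitive
  obtain ⟨n, p₀, hndvd, rfl⟩ := WfDvdMonoid.max_power_factor' hp0 hCw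
  have hp₀ : aeval β p₀ = 0 := by
    rw [map_mul, map_pow, aeval_C] at hp
    exact (mul_eq_zero.mp hp).resolve_left (pow_ne_zero n hw0)
  have hbar : p₀.map (residue R) ≠ 0 := by
    intro h
    apply hndvd
    rw [C_dvd_iff_dvd_coeff]
    intro i
    have hi : residue R (p₀.coeff i) = 0 := by
      rw [← coeff_map, h, coeff_zero]
    rw [residue_eq_zero_iff, hmax, Ideal.mem_span_singleton] at hi
    exact hi
  -- split the reduction and lift the factorisation
  set pb := p₀.map (residue R) with hpb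
  have hsplit : pb = C pb.leadingCoeff * (pb.roots.map fun x => X - C x).prod :=
    (IsAlgClosed.splits pb).eq_prod_roots
  have hsurj : Function.Surjective (residue R) := Ideal.Quotient.mk_surjective
  let lift : ResidueField R → R := Function.surjInv hsurj
  have hlift : ∀ x, residue R (lift x) = x := Function.surjInv_eq hsurj
  set ℓ := lift pb.leadingCoeff with hℓ
  have hℓu : IsUnit ℓ := by
    rw [← IsLocalRing.notMem_maximalIdeal, ← residue_eq_zero_iff, hℓ, hlift]
    exact leadingCoeff_ne_zero.mpr hbar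
  set P : R[X] := C ℓ * (pb.roots.map fun x => X - C (lift x)).prod with hP
  have hPbar : P.map (residue R) = pb := by
    rw [hP, Polynomial.map_mul, map_C, hℓ, hlift, Polynomial.map_multiset_prod,
      Multiset.map_map]
    conv_rhs => rw [hsplit]
    congr 2
    refine Multiset.map_congr rfl fun x _ => ?_
    simp [hlift]
  have hdiff : C w ∣ p₀ - P := by
    rw [C_dvd_iff_dvd_coeff]
    intro i
    have hi : residue R ((p₀ - P).coeff i) = 0 := by
      rw [← coeff_map, Polynomial.map_sub, hPbar, ← hpb, sub_self, coeff_zero]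
    rw [residue_eq_zero_iff, hmax, Ideal.mem_span_singleton] at hi
    exact hi
  obtain ⟨Q, hQ⟩ := hdiff
  have heval : aeval β P = - (algebraMap R O w * aeval β Q) := by
    have h1 : aeval β p₀ - aeval β P = algebraMap R O w * aeval β Q := by
      rw [← map_sub, hQ, map_mul, aeval_C]
    rw [hp₀, zero_sub] at h1
    rw [← h1, neg_neg]
  have hPeval : aeval β P = algebraMap R O ℓ *
      (pb.roots.map fun x => β - algebraMap R O (lift x)).prod := by
    rw [hP, map_mul, aeval_C, map_multiset_prod, Multiset.map_map]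
    congr 2
    refine Multiset.map_congr rfl fun x _ => ?_
    simp
  by_contra hcon
  have hunits : ∀ x ∈ pb.roots, IsUnit (β - algebraMap R O (lift x)) := by
    intro x _
    by_contra hx
    exact hcon ⟨lift x, hnu _ hx⟩
  have hprod : IsUnit (pb.roots.map fun x => β - algebraMap R O (lift x)).prod := by
    apply Multiset.prod_induction (p := fun y : O => IsUnit y)
    · intro a b ha hb; exact ha.mul hb
    · exact isUnit_one
    · intro y hy
      obtain ⟨x, hx, rfl⟩ := Multiset.mem_map.mp hy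
      exact hunits x hx
  have hPu : IsUnit (aeval β P) := by
    rw [hPeval]
    exact (hℓu.map (algebraMap R O)).mul hprod
  apply hwO
  refine isUnit_of_dvd_unit ?_ hPu
  rw [heval]
  exact (Dvd.intro _ rfl).neg_right ..

/-- Successive approximation: an element of `O` algebraic over `R` is congruent to an element
of `R` modulo every power of `w`. -/
theorem exists_pow_dvd_sub_of_isAlgebraic {w : R} (hw : Irreducible w)
    (hnu : ∀ b : O, ¬ IsUnit b → algebraMap R O w ∣ b)
    (hwO : ¬ IsUnit (algebraMap R O w)) (hinj : Function.Injective (algebraMap R O))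
    (α : O) (hα : IsAlgebraic R α) (j : ℕ) :
    ∃ s : R, algebraMap R O w ^ j ∣ α - algebraMap R O s := by
  have hw0 : algebraMap R O w ≠ 0 := by
    intro h0
    exact hw.ne_zero (hinj (by rw [h0, map_zero]))
  induction j with
  | zero => exact ⟨0, by simp⟩
  | succ j ih =>
    obtain ⟨s, β, hβ⟩ := ih
    have hβalg : IsAlgebraic R β := by
      refine IsAlgebraic.of_mul (y := algebraMap R O w ^ j)
        (mem_nonZeroDivisors_of_ne_zero (pow_ne_zero j hw0)) ?_ ?_
      · rw [← map_pow]; exact isAlgebraic_algebraMap _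
      · rw [← hβ]; exact hα.sub (isAlgebraic_algebraMap s)
    obtain ⟨b, γ, hγ⟩ := exists_sub_dvd_of_isAlgebraic hw hnu hwO hinj β hβalg
    refine ⟨s + w ^ j * b, γ, ?_⟩
    rw [map_add, map_mul, map_pow, pow_succ]
    linear_combination hβ + algebraMap R O w ^ j * hγ

omit [IsAlgClosed (ResidueField R)] in
/-- A nonzero element of `O` algebraic over `R` has finite `w`-adic valuation. -/
theorem exists_eq_pow_mul_unit_of_isAlgebraic {w : R} (hw : Irreducible w)
    (hnu : ∀ b : O, ¬ IsUnit b → algebraMap R O w ∣ b)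
    (hwO : ¬ IsUnit (algebraMap R O w)) (hinj : Function.Injective (algebraMap R O))
    (γ : O) (hγ0 : γ ≠ 0) (hγ : IsAlgebraic R γ) :
    ∃ (c : ℕ) (η : O), IsUnit η ∧ γ = algebraMap R O w ^ c * η := by
  obtain ⟨r, hr0, hr⟩ := hγ.exists_nonzero_dvd (mem_nonZeroDivisors_of_ne_zero hγ0)
  obtain ⟨a, u, rfl⟩ := IsDiscreteValuationRing.eq_unit_mul_pow_irreducible hr0 hw
  by_contra hcon
  have hall : ∀ c, algebraMap R O w ^ c ∣ γ := by
    intro c
    induction c with
    | zero => simp
    | succ c ih =>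
      obtain ⟨η, hη⟩ := ih
      have hηu : ¬ IsUnit η := fun hu => hcon ⟨c, η, hu, hη⟩
      obtain ⟨η', hη'⟩ := hnu η hηu
      exact ⟨η', by rw [hη, hη', pow_succ, mul_assoc]⟩
  have h1 : algebraMap R O w ^ (a + 1) ∣ algebraMap R O (↑u * w ^ a) := (hall (a + 1)).trans hr
  have h2 := pow_dvd_of_map_pow_dvd hw hwO hinj (a + 1) _ h1
  rw [pow_succ, mul_comm (u : R)] at h2
  have h3 := (mul_dvd_mul_iff_left (pow_ne_zero a hw.ne_zero)).mp h2
  exact hw.not_isUnit (isUnit_of_dvd_unit h3 u.isUnit)

/-- **No new constants (ring form).**  `R` a Henselian discrete valuation ring of characteristic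
zero with algebraically closed residue field and uniformiser `w`; `O ⊇ R` a domain whose
non-units are exactly the multiples of `w`.  Then every element of `O` which is algebraic over
`R` lies in `R`. -/
theorem exists_algebraMap_eq_of_isAlgebraic [HenselianLocalRing R] [CharZero R] {w : R}
    (hw : Irreducible w)
    (hnu : ∀ b : O, ¬ IsUnit b → algebraMap R O w ∣ b)
    (hwO : ¬ IsUnit (algebraMap R O w)) (hinj : Function.Injective (algebraMap R O))
    (α : O) (hα : IsAlgebraic R α) : ∃ r : R, algebraMap R O r = α := by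
  classical
  have hw0 : algebraMap R O w ≠ 0 := by
    intro h0
    exact hw.ne_zero (hinj (by rw [h0, map_zero]))
  -- a nonzero polynomial of minimal degree killing `α`
  have hex : ∃ n, ∃ p : R[X], p ≠ 0 ∧ aeval α p = 0 ∧ p.natDegree = n := by
    obtain ⟨p, hp0, hp⟩ := hα
    exact ⟨_, p, hp0, hp, rfl⟩
  obtain ⟨p, hp0, hp, hpn⟩ := Nat.find_spec hex
  have hmin : ∀ q : R[X], q ≠ 0 → aeval α q = 0 → p.natDegree ≤ q.natDegree := by
    intro q hq0 hq
    rw [hpn]
    exact Nat.find_min' hex ⟨q, hq0, hq, rfl⟩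
  have hdeg : p.natDegree ≠ 0 := by
    intro h
    have hpC := eq_C_of_natDegree_eq_zero h
    rw [hpC, aeval_C] at hp
    have h0 : p.coeff 0 = 0 := hinj (hp.trans (map_zero _).symm)
    rw [h0, C_0] at hpC
    exact hp0 hpC
  have hder0 : derivative p ≠ 0 := fun h => hdeg (derivative_eq_zero.mp h)
  have hderα : aeval α (derivative p) ≠ 0 := fun h =>
    absurd (hmin _ hder0 h) (not_le.mpr (natDegree_derivative_lt hdeg))
  have hγalg : IsAlgebraic R (aeval α (derivative p)) :=
    Algebra.isAlgebraic_adjoin_singleton_iff.mpr hα _ (aeval_mem_adjoin_singleton R α)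
  obtain ⟨c, η, hη, hγ⟩ :=
    exists_eq_pow_mul_unit_of_isAlgebraic hw hnu hwO hinj _ hderα hγalg
  obtain ⟨s, δ, hδ⟩ := exists_pow_dvd_sub_of_isAlgebraic hw hnu hwO hinj α hα (2 * c + 1)
  have hsα : algebraMap R O s - α = -(algebraMap R O w ^ (2 * c + 1) * δ) := by
    rw [← hδ]; ring
  have hdvd : ∀ q : R[X], algebraMap R O s - α ∣ algebraMap R O (q.eval s) - aeval α q := by
    intro q
    have := sub_dvd_eval_sub (algebraMap R O s) α (q.map (algebraMap R O))
    rwa [eval_map, eval_map, eval₂_at_apply, ← aeval_def] at this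
  -- `p(s)` is divisible by `w^(2c+1)`
  have e2 : algebraMap R O w ^ (2 * c + 1) ∣ algebraMap R O (p.eval s) := by
    have e1 := hdvd p
    rw [hp, sub_zero] at e1
    refine Dvd.dvd.trans ?_ e1
    exact ⟨-δ, by rw [hsα]; ring⟩
  obtain ⟨u, hu⟩ := pow_dvd_of_map_pow_dvd hw hwO hinj _ _ e2
  -- `p'(s) = w^c * unit`
  obtain ⟨κ, hκ⟩ := hdvd (derivative p)
  set η' := η - algebraMap R O w ^ (c + 1) * δ * κ with hη'
  have hη'eq : algebraMap R O ((derivative p).eval s) = algebraMap R O w ^ c * η' := by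
    have h5 : algebraMap R O ((derivative p).eval s) =
        aeval α (derivative p) + (algebraMap R O s - α) * κ := by
      rw [← hκ]; ring
    rw [h5, hγ, hsα, hη']
    ring
  have hη'u : IsUnit η' := by
    by_contra h
    obtain ⟨t, ht⟩ := hnu _ h
    have hdvdη : algebraMap R O w ∣ η :=
      ⟨t + algebraMap R O w ^ c * δ * κ, by
        have : η = η' + algebraMap R O w ^ (c + 1) * δ * κ := by rw [hη']; ring
        rw [this, ht]; ring⟩
    exact hwO (isUnit_of_dvd_unit hdvdη hη)
  obtain ⟨ε, hε⟩ := pow_dvd_of_map_pow_dvd hw hwO hinj c _ (Dvd.intro _ hη'eq.symm)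
  have hεu : IsUnit ε := by
    have hφε : algebraMap R O ε = η' := by
      have h6 : algebraMap R O w ^ c * algebraMap R O ε = algebraMap R O w ^ c * η' := by
        rw [← hη'eq, hε, map_mul, map_pow]
      exact mul_left_cancel₀ (pow_ne_zero c hw0) h6
    by_contra h
    have hmem : ε ∈ maximalIdeal R := by rwa [mem_maximalIdeal, mem_nonunits_iff]
    rw [hw.maximalIdeal_eq, Ideal.mem_span_singleton] at hmem
    obtain ⟨t, rfl⟩ := hmem
    apply hwO
    refine isUnit_of_dvd_unit ?_ hη'u
    rw [← hφε, map_mul]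
    exact Dvd.intro _ rfl
  have hwm : w ∈ maximalIdeal R := by
    rw [hw.maximalIdeal_eq]
    exact Ideal.mem_span_singleton_self w
  obtain ⟨a, ha, -⟩ := exists_root_of_approx p s w u ε c hwm hεu hu hε
  -- split off the root
  have hfac : (X - C a) * (p /ₘ (X - C a)) = p := mul_divByMonic_eq_iff_isRoot.mpr ha
  set p₁ := p /ₘ (X - C a) with hp₁
  have hp₁0 : p₁ ≠ 0 := by
    intro h
    rw [h, mul_zero] at hfac
    exact hp0 hfac.symm
  have hdeg1 : p.natDegree = 1 + p₁.natDegree := by
    conv_lhs => rw [← hfac]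
    rw [natDegree_mul (X_sub_C_ne_zero a) hp₁0, natDegree_X_sub_C]
  have hp₁α : aeval α p₁ ≠ 0 := fun h => by
    have := hmin p₁ hp₁0 h
    omega
  refine ⟨a, ?_⟩
  have h7 := congrArg (aeval α) hfac
  rw [map_mul, hp, map_sub, aeval_X, aeval_C] at h7
  have h8 := (mul_eq_zero.mp h7).resolve_right hp₁α
  exact (sub_eq_zero.mp h8).symm

end RingForm

section FieldForm

variable {R E L : Type*} [CommRing R] [IsDomain R] [IsDiscreteValuationRing R]
  [HenselianLocalRing R] [IsAlgClosed (ResidueField R)]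
  [Field E] [CharZero E] [Algebra R E] [IsFractionRing R E]
  [Field L] [Algebra E L] [Algebra R L] [IsScalarTower R E L]

/-- **No new constants (field form).**  `R` a Henselian discrete valuation ring with
algebraically closed residue field, uniformiser `w`, fraction field `E` of characteristic zero;
`L / E` an arbitrary field extension and `V` a valuation subring of `L` containing `R`, in which
`w` is a non-unit and generates the non-units (i.e. `V` is unramified over `R`).  Then `E` is
algebraically closed in `L`. -/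
theorem mem_range_of_isAlgebraic_of_valuationSubring (w : R) (hw : Irreducible w)
    (V : ValuationSubring L) (hRV : ∀ r : R, algebraMap R L r ∈ V)
    (hwV : (algebraMap R L w)⁻¹ ∉ V)
    (hgen : ∀ b ∈ V, b⁻¹ ∉ V → b * (algebraMap R L w)⁻¹ ∈ V)
    (a : L) (ha : IsAlgebraic E a) : a ∈ (algebraMap E L).range := by
  have hinjRE : Function.Injective (algebraMap R E) := IsFractionRing.injective R E
  have hinjRL : Function.Injective (algebraMap R L) := by
    rw [IsScalarTower.algebraMap_eq R E L]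
    exact (algebraMap E L).injective.comp hinjRE
  have : CharZero R := ⟨fun m n h => Nat.cast_injective (R := E) (by
    have := congrArg (algebraMap R E) h
    simpa using this)⟩
  have hwL : algebraMap R L w ≠ 0 := by
    intro h0
    exact hw.ne_zero (hinjRL (by rw [h0, map_zero]))
  let algV : Algebra R V := ((algebraMap R L).codRestrict V.toSubring hRV).toAlgebra
  have hcoe : ∀ r : R, ((algebraMap R V r : V) : L) = algebraMap R L r := fun _ => rfl
  have hinjV : Function.Injective (algebraMap R V) := by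
    intro r r' h
    apply hinjRL
    rw [← hcoe, ← hcoe, h]
  have hnu : ∀ b : V, ¬ IsUnit b → algebraMap R V w ∣ b := by
    intro b hb
    rcases eq_or_ne (b : L) 0 with h0 | h0
    · have : b = 0 := Subtype.ext h0
      rw [this]
      exact dvd_zero _
    have hbinv : (b : L)⁻¹ ∉ V := by
      intro hmem
      apply hb
      refine IsUnit.of_mul_eq_one (⟨(b : L)⁻¹, hmem⟩ : V) (Subtype.ext ?_)
      change (b : L) * (b : L)⁻¹ = 1
      exact mul_inv_cancel₀ h0
    refine ⟨⟨(b : L) * (algebraMap R L w)⁻¹, hgen _ b.2 hbinv⟩, Subtype.ext ?_⟩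
    change (b : L) = algebraMap R L w * ((b : L) * (algebraMap R L w)⁻¹)
    field_simp
  have hwO : ¬ IsUnit (algebraMap R V w) := by
    intro hu
    obtain ⟨c, hc⟩ := hu.exists_right_inv
    have hcL : algebraMap R L w * (c : L) = 1 := by
      have := congrArg (fun x : V => (x : L)) hc
      rw [← hcoe]
      simpa using this
    have : (algebraMap R L w)⁻¹ = (c : L) := by
      rw [inv_eq_iff_eq_inv]
      exact eq_inv_of_mul_eq_one_left hcL
    exact hwV (this ▸ c.2)
  have core : ∀ x ∈ V, IsAlgebraic E x → x ∈ (algebraMap E L).range := by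
    intro x hx hxalg
    have hxR : IsAlgebraic R x := (IsFractionRing.isAlgebraic_iff R E L).mpr hxalg
    obtain ⟨p, hp0, hp⟩ := hxR
    have hx' : IsAlgebraic R (⟨x, hx⟩ : V) := by
      refine ⟨p, hp0, Subtype.ext ?_⟩
      have h1 : V.subtype (aeval (⟨x, hx⟩ : V) p) =
          eval₂ (V.subtype.comp (algebraMap R V)) (V.subtype ⟨x, hx⟩) p := by
        rw [aeval_def, hom_eval₂]
      have h2 : V.subtype.comp (algebraMap R V) = algebraMap R L := RingHom.ext fun _ => rfl
      rw [h2] at h1
      change V.subtype (aeval (⟨x, hx⟩ : V) p) = 0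
      rw [h1]
      change eval₂ (algebraMap R L) x p = 0
      rw [← aeval_def]
      exact hp
    obtain ⟨r, hr⟩ := exists_algebraMap_eq_of_isAlgebraic hw hnu hwO hinjV _ hx'
    refine ⟨algebraMap R E r, ?_⟩
    rw [← IsScalarTower.algebraMap_apply R E L, ← hcoe, hr]
  rcases V.mem_or_inv_mem a with h | h
  · exact core a h ha
  · obtain ⟨e, he⟩ := core a⁻¹ h (IsAlgebraic.inv_iff.mpr ha)
    refine ⟨e⁻¹, ?_⟩
    rw [map_inv₀, he, inv_inv]

end FieldForm

end Fermat.Agent.A2.H552

end
-- ===== PACK-END A2/H552/Const.lean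

-- ===== PACK-BEGIN S36/H586/G1Dvr.lean
section


/-!
# S36 engine, ALG3 gap lemma G1 (helper586), part 1: orders in discrete valuation subrings

Mathlib only (on top of `StepAB.lean`).

* `exists_isOrd_of_dvr`   : in a discrete valuation subring with uniformiser `t` every `y ≠ 0`
                            has an order, `v(y) = v(t) ^ a`;
* `not_le_of_dvr_ne`      : distinct discrete valuation subrings are incomparable.
-/

set_option autoImplicit false

namespace Fermat.Agent.S36.H586

section Dvr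

variable {F : Type*} [Field F]

theorem val_lt_one_of_mem_nonunits {V : ValuationSubring F} {t : F} (ht : t ∈ V.nonunits) :
    V.valuation t < 1 := (ValuationSubring.mem_nonunits_iff V).1 ht

/-- A generator of the maximal ideal of a discrete valuation subring is irreducible. -/
theorem irreducible_of_unif (V : ValuationSubring F) [IsDiscreteValuationRing V] {t : F}
    (ht0 : t ≠ 0) (ht : t ∈ V.nonunits) (hgen : ∀ f ∈ V.nonunits, f * t⁻¹ ∈ V) :
    Irreducible (⟨t, V.nonunits_subset ht⟩ : V) := by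
  obtain ⟨ϖ, hϖ⟩ := IsDiscreteValuationRing.exists_irreducible V
  have hϖm : (ϖ : F) ∈ V.nonunits := by
    rw [ValuationSubring.mem_nonunits_iff, ← ValuationSubring.valuation_lt_one_iff]
    exact (IsLocalRing.mem_maximalIdeal _).2 hϖ.not_isUnit
  have hc := hgen _ hϖm
  have htu : ¬ IsUnit (⟨t, V.nonunits_subset ht⟩ : V) := by
    intro h
    have h1 := (ValuationSubring.valuation_eq_one_iff V _).1 h
    exact (ne_of_lt (val_lt_one_of_mem_nonunits ht)) h1
  have heq : ϖ = (⟨t, V.nonunits_subset ht⟩ : V) * ⟨(ϖ : F) * t⁻¹, hc⟩ := by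
    apply Subtype.ext
    show (ϖ : F) = t * ((ϖ : F) * t⁻¹)
    field_simp
  rcases hϖ.isUnit_or_isUnit heq with h | h
  · exact absurd h htu
  · have hass : Associated (⟨t, V.nonunits_subset ht⟩ : V) ϖ := by
      obtain ⟨u, hu⟩ := h
      exact ⟨u, by rw [hu]; exact heq.symm⟩
    exact hass.symm.irreducible hϖ

/-- Orders exist in a discrete valuation subring. -/
theorem exists_isOrd_of_dvr (V : ValuationSubring F) [IsDiscreteValuationRing V] {t : F}
    (ht0 : t ≠ 0) (ht : t ∈ V.nonunits) (hgen : ∀ f ∈ V.nonunits, f * t⁻¹ ∈ V)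
    (y : F) (hy : y ≠ 0) : ∃ a : ℤ, IsOrd V t y a := by
  have hirr := irreducible_of_unif V ht0 ht hgen
  have key : ∀ z : F, z ≠ 0 → z ∈ V → ∃ n : ℕ, IsOrd V t z n := by
    intro z hz0 hzV
    have hz0' : (⟨z, hzV⟩ : V) ≠ 0 := fun h => hz0 (congrArg Subtype.val h)
    obtain ⟨n, hn⟩ := IsDiscreteValuationRing.associated_pow_irreducible hz0' hirr
    obtain ⟨u, hu⟩ := hn
    refine ⟨n, ?_⟩
    unfold IsOrd
    have h1 : z * ((u : V) : F) = t ^ n := by
      have := congrArg Subtype.val hu
      simpa using this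
    have h2 : V.valuation (((u : V) : F)) = 1 := ValuationSubring.valuation_unit V u
    have h3 := congrArg V.valuation h1
    rw [map_mul, h2, mul_one, map_pow] at h3
    rw [h3, zpow_natCast]
  rcases V.mem_or_inv_mem y with h | h
  · obtain ⟨n, hn⟩ := key y hy h
    exact ⟨n, hn⟩
  · obtain ⟨n, hn⟩ := key y⁻¹ (inv_ne_zero hy) h
    refine ⟨-n, ?_⟩
    have := hn.inv
    rwa [inv_inv] at this

/-- Distinct discrete valuation subrings are incomparable. -/
theorem not_le_of_dvr_ne (V V' : ValuationSubring F) [IsDiscreteValuationRing V]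
    [IsDiscreteValuationRing V'] (hne : V ≠ V') : ¬ V ≤ V' := by
  intro hle
  apply hne
  refine le_antisymm hle ?_
  intro y hy
  by_contra hyV
  -- uniformisers
  obtain ⟨ϖ, hϖ⟩ := IsDiscreteValuationRing.exists_irreducible V
  obtain ⟨ϖ', hϖ'⟩ := IsDiscreteValuationRing.exists_irreducible V'
  have hϖ'm : V'.valuation (ϖ' : F) < 1 := by
    rw [← ValuationSubring.valuation_lt_one_iff]
    exact (IsLocalRing.mem_maximalIdeal _).2 hϖ'.not_isUnit
  have hϖ'0 : (ϖ' : F) ≠ 0 := fun h => hϖ'.ne_zero (Subtype.ext h)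
  have hy0 : y ≠ 0 := by
    rintro rfl
    exact hyV V.zero_mem
  -- `ϖ' ∈ 𝔪_V`
  have hϖ'V : V.valuation (ϖ' : F) < 1 := by
    by_contra hnot
    have h1 : (ϖ' : F)⁻¹ ∈ V := by
      rw [← ValuationSubring.valuation_le_one_iff, map_inv₀]
      exact inv_le_one_of_one_le₀ (not_lt.1 hnot)
    have h2 : (ϖ' : F)⁻¹ ∈ V' := hle h1
    rw [← ValuationSubring.valuation_le_one_iff, map_inv₀] at h2
    have h3 : 1 ≤ V'.valuation (ϖ' : F) := by
      have h0 : V'.valuation (ϖ' : F) ≠ 0 := (Valuation.ne_zero_iff _).2 hϖ'0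
      exact (inv_le_one₀ (zero_lt_iff.2 h0)).1 h2
    exact (not_le.2 hϖ'm) h3
  -- `y⁻¹ ∈ 𝔪_V`
  have hyinv : V.valuation y⁻¹ < 1 := by
    rw [map_inv₀]
    have h1 : 1 < V.valuation y := by
      rw [← not_le, ValuationSubring.valuation_le_one_iff]
      exact hyV
    exact inv_lt_one_of_one_lt₀ h1
  -- orders at `V` with respect to `ϖ`
  have hϖm : (ϖ : F) ∈ V.nonunits := by
    rw [ValuationSubring.mem_nonunits_iff, ← ValuationSubring.valuation_lt_one_iff]
    exact (IsLocalRing.mem_maximalIdeal _).2 hϖ.not_isUnit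
  have hϖ0 : (ϖ : F) ≠ 0 := fun h => hϖ.ne_zero (Subtype.ext h)
  have hgen : ∀ f ∈ V.nonunits, f * (ϖ : F)⁻¹ ∈ V := by
    intro f hf
    have hfV : f ∈ V := V.nonunits_subset hf
    have hfm : (⟨f, hfV⟩ : V) ∈ IsLocalRing.maximalIdeal V := by
      rw [ValuationSubring.valuation_lt_one_iff]
      exact (ValuationSubring.mem_nonunits_iff V).1 hf
    rw [(IsDiscreteValuationRing.irreducible_iff_uniformizer ϖ).1 hϖ,
      Ideal.mem_span_singleton'] at hfm
    obtain ⟨c, hc⟩ := hfm
    have : f * (ϖ : F)⁻¹ = (c : F) := by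
      have h1 : (c : F) * (ϖ : F) = f := congrArg Subtype.val hc
      rw [← h1]
      field_simp
    rw [this]
    exact c.2
  obtain ⟨a, ha⟩ := exists_isOrd_of_dvr V hϖ0 hϖm hgen y⁻¹ (inv_ne_zero hy0)
  obtain ⟨b, hb⟩ := exists_isOrd_of_dvr V hϖ0 hϖm hgen (ϖ' : F) hϖ'0
  have hvϖ : V.valuation (ϖ : F) < 1 := val_lt_one_of_mem_nonunits hϖm
  have hvϖ0 : 0 < V.valuation (ϖ : F) := zero_lt_iff.2 ((Valuation.ne_zero_iff _).2 hϖ0)
  have ha0 : 0 < a := by
    unfold IsOrd at ha
    rw [ha] at hyinv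
    by_contra hneg
    have : 1 ≤ V.valuation (ϖ : F) ^ a := by
      have h1 : V.valuation (ϖ : F) ^ (0 : ℤ) ≤ V.valuation (ϖ : F) ^ a :=
        (zpow_le_zpow_iff_right_of_lt_one₀ hvϖ0 hvϖ).2 (not_lt.1 hneg)
      simpa using h1
    exact (not_le.2 hyinv) this
  have hb0 : 0 < b := by
    unfold IsOrd at hb
    rw [hb] at hϖ'V
    by_contra hneg
    have : 1 ≤ V.valuation (ϖ : F) ^ b := by
      have h1 : V.valuation (ϖ : F) ^ (0 : ℤ) ≤ V.valuation (ϖ : F) ^ b :=
        (zpow_le_zpow_iff_right_of_lt_one₀ hvϖ0 hvϖ).2 (not_lt.1 hneg)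
      simpa using h1
    exact (not_le.2 hϖ'V) this
  -- `ϖ' ^ a * y ^ b` is a unit of `V`, hence of `V'`
  obtain ⟨a', rfl⟩ : ∃ a' : ℕ, a = a' := ⟨a.toNat, (Int.toNat_of_nonneg ha0.le).symm⟩
  obtain ⟨b', rfl⟩ : ∃ b' : ℕ, b = b' := ⟨b.toNat, (Int.toNat_of_nonneg hb0.le).symm⟩
  have hu : V.valuation ((ϖ' : F) ^ a' * y ^ b') = 1 := by
    have h1 : IsOrd V (ϖ : F) ((ϖ' : F) ^ a') ((a' : ℤ) * b') := hb.pow a'
    have h2 : IsOrd V (ϖ : F) ((y⁻¹) ^ b') ((b' : ℤ) * a') := ha.pow b'
    unfold IsOrd at h1 h2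
    rw [map_mul, h1, map_pow]
    rw [map_pow, map_inv₀, inv_pow] at h2
    have h3 : V.valuation y ^ b' ≠ 0 := pow_ne_zero _ ((Valuation.ne_zero_iff _).2 hy0)
    have h4 : V.valuation y ^ b' = (V.valuation (ϖ : F) ^ ((b' : ℤ) * a'))⁻¹ := by
      rw [← h2, inv_inv]
    rw [h4, mul_comm (a' : ℤ) b']
    exact mul_inv_cancel₀ (zpow_ne_zero _ hvϖ0.ne')
  have hu' : V'.valuation ((ϖ' : F) ^ a' * y ^ b') = 1 := by
    have hz0 : (ϖ' : F) ^ a' * y ^ b' ≠ 0 :=
      mul_ne_zero (pow_ne_zero _ hϖ'0) (pow_ne_zero _ hy0)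
    have h1 : (ϖ' : F) ^ a' * y ^ b' ∈ V' :=
      hle ((ValuationSubring.valuation_le_one_iff V _).1 hu.le)
    have h2 : ((ϖ' : F) ^ a' * y ^ b')⁻¹ ∈ V' := by
      apply hle
      rw [← ValuationSubring.valuation_le_one_iff, map_inv₀, hu, inv_one]
    have h3 := (ValuationSubring.valuation_le_one_iff V' _).2 h1
    have h4 := (ValuationSubring.valuation_le_one_iff V' _).2 h2
    rw [map_inv₀] at h4
    have h5 : 1 ≤ V'.valuation ((ϖ' : F) ^ a' * y ^ b') :=
      (inv_le_one₀ (zero_lt_iff.2 ((Valuation.ne_zero_iff _).2 hz0))).1 h4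
    exact le_antisymm h3 h5
  -- but it lies in `𝔪_V'`
  have hlt : V'.valuation ((ϖ' : F) ^ a' * y ^ b') < 1 := by
    rw [map_mul, map_pow, map_pow]
    have hy1 : V'.valuation y ≤ 1 := (ValuationSubring.valuation_le_one_iff V' _).2 hy
    have ha'0 : a' ≠ 0 := by
      rintro rfl
      simp at ha0
    have h1 : V'.valuation (ϖ' : F) ^ a' < 1 := pow_lt_one₀ zero_le hϖ'm ha'0
    have h2 : V'.valuation y ^ b' ≤ 1 := pow_le_one₀ zero_le hy1
    calc V'.valuation (ϖ' : F) ^ a' * V'.valuation y ^ b'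
        ≤ V'.valuation (ϖ' : F) ^ a' * 1 := by gcongr
      _ = V'.valuation (ϖ' : F) ^ a' := mul_one _
      _ < 1 := h1
  exact (ne_of_lt hlt) hu'

end Dvr

end Fermat.Agent.S36.H586

end
-- ===== PACK-END S36/H586/G1Dvr.lean

-- ===== PACK-BEGIN S18/H754/IntLoc.lean
section


/-!
# S18 / Route K / étale Kummer cover: the ring `O'` (integral closure of `B_(ϖ)`) elementwise
-/

set_option autoImplicit false

noncomputable section

namespace Fermat.Agent.S18.H754

section IntLoc

variable {B : Type*} [CommRing B] {F' : Type*} [Field F'] [Algebra B F']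

/-- The ring `O'` of elements of `F'` which become integral over `B` after multiplication by
some `s ∈ B ∖ ϖB` (the integral closure of `B_(ϖ)` in `F'`). -/
def Oloc (ϖ : B) (hϖ : Prime ϖ) : Subring F' where
  carrier := {y | ∃ s : B, s ∉ Ideal.span {ϖ} ∧ IsIntegral B (algebraMap B F' s * y)}
  mul_mem' := by
    rintro x y ⟨s, hs, hx⟩ ⟨s', hs', hy⟩
    refine ⟨s * s', ?_, ?_⟩
    · intro h
      rw [Ideal.mem_span_singleton] at h hs hs'
      rcases hϖ.dvd_or_dvd h with h | h
      · exact hs h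
      · exact hs' h
    · have e : algebraMap B F' (s * s') * (x * y) =
          (algebraMap B F' s * x) * (algebraMap B F' s' * y) := by
        rw [map_mul]; ring
      rw [e]
      exact hx.mul hy
  one_mem' := by
    refine ⟨1, ?_, ?_⟩
    · rw [Ideal.mem_span_singleton]
      exact fun h => hϖ.not_unit (isUnit_of_dvd_one h)
    · rw [map_one, mul_one]
      exact isIntegral_one
  add_mem' := by
    rintro x y ⟨s, hs, hx⟩ ⟨s', hs', hy⟩
    refine ⟨s * s', ?_, ?_⟩
    · intro h
      rw [Ideal.mem_span_singleton] at h hs hs'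
      rcases hϖ.dvd_or_dvd h with h | h
      · exact hs h
      · exact hs' h
    · have h1 : IsIntegral B (algebraMap B F' s' * (algebraMap B F' s * x)) :=
        (isIntegral_algebraMap).mul hx
      have h2 : IsIntegral B (algebraMap B F' s * (algebraMap B F' s' * y)) :=
        (isIntegral_algebraMap).mul hy
      have e : algebraMap B F' (s * s') * (x + y) =
          algebraMap B F' s' * (algebraMap B F' s * x) +
            algebraMap B F' s * (algebraMap B F' s' * y) := by
        rw [map_mul]; ring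
      rw [e]
      exact h1.add h2
  zero_mem' := by
    refine ⟨1, ?_, ?_⟩
    · rw [Ideal.mem_span_singleton]
      exact fun h => hϖ.not_unit (isUnit_of_dvd_one h)
    · rw [mul_zero]
      exact isIntegral_zero
  neg_mem' := by
    rintro x ⟨s, hs, hx⟩
    refine ⟨s, hs, ?_⟩
    rw [mul_neg]
    exact hx.neg

lemma mem_Oloc {ϖ : B} {hϖ : Prime ϖ} {y : F'} :
    y ∈ Oloc (F' := F') ϖ hϖ ↔
      ∃ s : B, s ∉ Ideal.span {ϖ} ∧ IsIntegral B (algebraMap B F' s * y) := Iff.rfl

lemma mem_Oloc_of_isIntegral {ϖ : B} (hϖ : Prime ϖ) {y : F'} (hy : IsIntegral B y) :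
    y ∈ Oloc (F' := F') ϖ hϖ := by
  refine ⟨1, ?_, ?_⟩
  · rw [Ideal.mem_span_singleton]
    exact fun h => hϖ.not_unit (isUnit_of_dvd_one h)
  · rw [map_one, one_mul]
    exact hy

lemma algebraMap_mem_Oloc {ϖ : B} (hϖ : Prime ϖ) (b : B) :
    algebraMap B F' b ∈ Oloc (F' := F') ϖ hϖ :=
  mem_Oloc_of_isIntegral hϖ isIntegral_algebraMap

/-- `ϖ O'` in terms of `O'`. -/
lemma inPiO_iff [FaithfulSMul B F'] {ϖ : B} (hϖ : Prime ϖ) {y : F'} :
    InPiO ϖ y ↔ ∃ y' ∈ Oloc (F' := F') ϖ hϖ, y = algebraMap B F' ϖ * y' := by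
  have hinj : Function.Injective (algebraMap B F') := FaithfulSMul.algebraMap_injective B F'
  constructor
  · rintro ⟨s, hs, c, hc, h⟩
    have hs0 : algebraMap B F' s ≠ 0 := by
      intro h0
      apply hs
      have : s = 0 := hinj (by rw [h0, map_zero])
      rw [this]
      exact Ideal.zero_mem _
    refine ⟨c / algebraMap B F' s, ⟨s, hs, ?_⟩, ?_⟩
    · rw [mul_div_cancel₀ _ hs0]
      exact hc
    · field_simp
      rw [mul_comm]
      exact h
  · rintro ⟨y', ⟨s, hs, hy'⟩, rfl⟩
    exact ⟨s, hs, _, hy', by ring⟩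

lemma InPiO.add [FaithfulSMul B F'] {ϖ : B} (hϖ : Prime ϖ) {x y : F'}
    (hx : InPiO ϖ x) (hy : InPiO ϖ y) : InPiO ϖ (x + y) := by
  rw [inPiO_iff hϖ] at hx hy ⊢
  obtain ⟨x', hx', rfl⟩ := hx
  obtain ⟨y', hy', rfl⟩ := hy
  exact ⟨x' + y', add_mem hx' hy', by ring⟩

lemma InPiO.neg [FaithfulSMul B F'] {ϖ : B} (hϖ : Prime ϖ) {x : F'}
    (hx : InPiO ϖ x) : InPiO ϖ (-x) := by
  rw [inPiO_iff hϖ] at hx ⊢
  obtain ⟨x', hx', rfl⟩ := hx
  exact ⟨-x', neg_mem hx', by ring⟩

lemma InPiO.sub [FaithfulSMul B F'] {ϖ : B} (hϖ : Prime ϖ) {x y : F'}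
    (hx : InPiO ϖ x) (hy : InPiO ϖ y) : InPiO ϖ (x - y) := by
  rw [sub_eq_add_neg]
  exact hx.add hϖ (hy.neg hϖ)

lemma InPiO.mul_left [FaithfulSMul B F'] {ϖ : B} (hϖ : Prime ϖ) {x y : F'}
    (hx : x ∈ Oloc (F' := F') ϖ hϖ) (hy : InPiO ϖ y) : InPiO ϖ (x * y) := by
  rw [inPiO_iff hϖ] at hy ⊢
  obtain ⟨y', hy', rfl⟩ := hy
  exact ⟨x * y', mul_mem hx hy', by ring⟩

lemma InPiO.mul_right [FaithfulSMul B F'] {ϖ : B} (hϖ : Prime ϖ) {x y : F'}
    (hx : InPiO ϖ x) (hy : y ∈ Oloc (F' := F') ϖ hϖ) : InPiO ϖ (x * y) := by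
  rw [mul_comm]
  exact hx.mul_left hϖ hy

lemma InPiO.zero [FaithfulSMul B F'] {ϖ : B} (hϖ : Prime ϖ) : InPiO ϖ (0 : F') := by
  rw [inPiO_iff hϖ]
  exact ⟨0, zero_mem _, by ring⟩

lemma InPiO.sum [FaithfulSMul B F'] {ϖ : B} (hϖ : Prime ϖ) {ι : Type*} (s : Finset ι)
    (f : ι → F') (h : ∀ i ∈ s, InPiO ϖ (f i)) : InPiO ϖ (∑ i ∈ s, f i) := by
  classical
  induction s using Finset.induction_on with
  | empty => simpa using InPiO.zero hϖ
  | insert a s ha ih =>
    rw [Finset.sum_insert ha]
    exact (h a (Finset.mem_insert_self a s)).add hϖ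
      (ih fun i hi => h i (Finset.mem_insert_of_mem hi))

/-- `x ≡ y mod ϖ O'` implies `x ^ a ≡ y ^ a`. -/
lemma InPiO.pow_sub_pow [FaithfulSMul B F'] {ϖ : B} (hϖ : Prime ϖ) {x y : F'}
    (hx : x ∈ Oloc (F' := F') ϖ hϖ) (hy : y ∈ Oloc (F' := F') ϖ hϖ)
    (h : InPiO ϖ (x - y)) (a : ℕ) : InPiO ϖ (x ^ a - y ^ a) := by
  have h1 : x ^ a - y ^ a = (∑ i ∈ Finset.range a, x ^ i * y ^ (a - 1 - i)) * (x - y) :=
    (Commute.all x y).geom_sum₂_mul a |>.symm
  rw [h1]
  refine h.mul_left hϖ ?_
  exact sum_mem fun i _ => mul_mem (pow_mem hx _) (pow_mem hy _)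

end IntLoc

end Fermat.Agent.S18.H754

end

end
-- ===== PACK-END S18/H754/IntLoc.lean

-- ===== PACK-BEGIN S36/Mod3/H756/NormalAbs.lean
section


/-!
# S36 / MOD3, leaf NORMAL — abstract bridge (helper756)

Mathlib + `A2.Mod.H142.S2Core` (helper142, on main).

* `eval₂_eq_fin_sum` : a monic polynomial evaluated at `x` in `Fin`-indexed form;
* `mem_of_aeval_mem_nonunits` : `p` monic over `B ⊆ V`, `p(f) ∈ 𝔪_V` ⟹ `f ∈ V`;
* `normalAlong_of_normalIn` : `H142.NormalIn V B` ⟹ `S36.Eng.NormalAlong B V` (stated UNFOLDED: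
  `∀ f p, p.Monic → aeval f p ∈ V.nonunits → ∃ b : B, f - b ∈ V.nonunits`);
* `normalIn_of_normalAlong` : the converse.
-/

set_option autoImplicit false

noncomputable section

open Polynomial

namespace Fermat.Agent.S36.Mod3.H756

open Fermat.Agent.A2.Mod.H142

section Fin

variable {A K : Type*} [CommRing A] [CommRing K]

/-- A monic polynomial evaluated at `x`, in `Fin`-indexed form. -/
theorem eval₂_eq_fin_sum (ρ : A →+* K) (x : K) {p : Polynomial A} (hp : p.Monic) :
    eval₂ ρ x p = x ^ p.natDegree + ∑ i : Fin p.natDegree, ρ (p.coeff i) * x ^ (i : ℕ) := by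
  have h1 := hp.as_sum
  conv_lhs => rw [h1]
  rw [eval₂_add, eval₂_pow, eval₂_X, eval₂_finsetSum,
    ← Fin.sum_univ_eq_sum_range (fun i => eval₂ ρ x (C (p.coeff i) * X ^ i)) p.natDegree]
  simp

end Fin

section Bridge

variable {R F : Type*} [CommRing R] [Field F] [Algebra R F]

/-- An element which is a root modulo `𝔪_V` of a monic polynomial over `B ⊆ V` lies in `V`. -/
theorem mem_of_aeval_mem_nonunits (V : ValuationSubring F) (B : Subalgebra R F)
    (hBV : ∀ b ∈ B, b ∈ V) (f : F) (p : Polynomial B) (hp : p.Monic)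
    (hpf : Polynomial.aeval f p ∈ V.nonunits) : f ∈ V := by
  classical
  have hcV : Polynomial.aeval f p ∈ V := by
    rw [← ValuationSubring.valuation_le_one_iff]
    exact ((ValuationSubring.mem_nonunits_iff V).1 hpf).le
  let ι : B →+* V :=
    { toFun := fun b => ⟨b.1, hBV b.1 b.2⟩
      map_one' := rfl
      map_mul' := fun _ _ => rfl
      map_zero' := rfl
      map_add' := fun _ _ => rfl }
  have hι : (algebraMap V F).comp ι = algebraMap B F := by
    ext b
    rfl
  have hdeg : 0 < p.natDegree := by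
    by_contra h0
    have h1 : p.natDegree = 0 := by omega
    have h2 : p = 1 := hp.natDegree_eq_zero.1 h1
    rw [h2, map_one] at hpf
    have := (ValuationSubring.mem_nonunits_iff V).1 hpf
    rw [map_one] at this
    exact lt_irrefl _ this
  have hpm : (p.map ι).Monic := hp.map ι
  have hdeg' : (C (⟨Polynomial.aeval f p, hcV⟩ : V)).degree < (p.map ι).degree := by
    refine lt_of_le_of_lt Polynomial.degree_C_le ?_
    rw [Polynomial.degree_eq_natDegree hpm.ne_zero, hp.natDegree_map ι]
    exact_mod_cast hdeg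
  have hmonic : (p.map ι - C (⟨Polynomial.aeval f p, hcV⟩ : V)).Monic :=
    hpm.sub_of_left hdeg'
  have hint : IsIntegral V f := by
    refine ⟨_, hmonic, ?_⟩
    rw [eval₂_sub, eval₂_C, eval₂_map, hι]
    show Polynomial.eval₂ (algebraMap B F) f p - Polynomial.aeval f p = 0
    rw [Polynomial.aeval_def, sub_self]
  obtain ⟨z, hz⟩ := (IsIntegrallyClosed.isIntegral_iff (R := V) (K := F)).mp hint
  rw [← hz]
  exact z.2

/-- **Bridge.**  `H142.NormalIn` implies `S36.Eng.NormalAlong` (unfolded). -/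
theorem normalAlong_of_normalIn (V : ValuationSubring F) (B : Subalgebra R F)
    (hBV : ∀ b ∈ B, b ∈ V) (h : NormalIn V (B : Set F)) :
    ∀ (f : F) (p : Polynomial B), p.Monic → Polynomial.aeval f p ∈ V.nonunits →
      ∃ b : B, f - (b : F) ∈ V.nonunits := by
  intro f p hp hpf
  have hfV : f ∈ V := mem_of_aeval_mem_nonunits V B hBV f p hp hpf
  have hrel : V.valuation (f ^ p.natDegree +
      ∑ i : Fin p.natDegree, ((p.coeff i : B) : F) * f ^ (i : ℕ)) < 1 := by
    have h1 := eval₂_eq_fin_sum (algebraMap B F) f hp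
    rw [← Polynomial.aeval_def] at h1
    have h2 := (ValuationSubring.mem_nonunits_iff V).1 hpf
    rw [h1] at h2
    exact h2
  obtain ⟨b, hb, hfb⟩ := h f hfV
    ⟨p.natDegree, fun i => ((p.coeff i : B) : F), fun i => (p.coeff i).2, hrel⟩
  exact ⟨⟨b, hb⟩, (ValuationSubring.mem_nonunits_iff V).2 hfb⟩

/-- The converse of the bridge. -/
theorem normalIn_of_normalAlong (V : ValuationSubring F) (B : Subalgebra R F)
    (h : ∀ (f : F) (p : Polynomial B), p.Monic → Polynomial.aeval f p ∈ V.nonunits →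
      ∃ b : B, f - (b : F) ∈ V.nonunits) :
    NormalIn V (B : Set F) := by
  classical
  intro f _ ⟨n, c, hc, hrel⟩
  let p : Polynomial B := X ^ n + ∑ i : Fin n, C (⟨c i, hc i⟩ : B) * X ^ (i : ℕ)
  have hp : p.Monic :=
    Polynomial.monic_X_pow_add (Polynomial.degree_sum_fin_lt fun i => (⟨c i, hc i⟩ : B))
  have hpf : Polynomial.aeval f p = f ^ n + ∑ i : Fin n, c i * f ^ (i : ℕ) := by
    simp only [p, map_add, map_pow, Polynomial.aeval_X, map_sum, map_mul, Polynomial.aeval_C]
    rfl
  obtain ⟨b, hb⟩ := h f p hp (by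
    rw [hpf]
    exact (ValuationSubring.mem_nonunits_iff V).2 hrel)
  exact ⟨b.1, b.2, (ValuationSubring.mem_nonunits_iff V).1 hb⟩

end Bridge

end Fermat.Agent.S36.Mod3.H756

end

end
-- ===== PACK-END S36/Mod3/H756/NormalAbs.lean

-- ===== PACK-BEGIN S36/H253/Approx.lean
section


/-!
# Approximation for finitely many pairwise incomparable valuation rings (helper253)

Mathlib only.  `V i` (`i : ι`, finite) valuation subrings of a field `F`, pairwise incomparable,
of ARBITRARY rank.

* `exists_multiplier` (Nagata's trick): for every `x : F` there is `u ∈ ⋂ V i` with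
  `x * u ∈ ⋂ V i` and `u` a unit of every `V i` containing `x`;
* `exists_idem_multi` : `E ≡ 1` at `V i`, `E ≡ 0` at the other `V i'`;
* `exists_lift_multi` : every `b ∈ V i` is congruent modulo the maximal ideal of `V i` to an
  element of `⋂ V i'`.
-/

set_option autoImplicit false
set_option linter.unusedSectionVars false

namespace Fermat.Agent.S36.H253

open scoped BigOperators
open Fermat.Agent.S35.H253

section Geom

variable {F : Type*} [Field F]

/-- The geometric sum `1 + x + ⋯ + x ^ (s - 1)`. -/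
def gsum (x : F) (s : ℕ) : F := ∑ m ∈ Finset.range s, x ^ m

theorem gsum_zero (x : F) : gsum x 0 = 0 := by simp [gsum]

theorem gsum_succ (x : F) (s : ℕ) : gsum x (s + 1) = gsum x s + x ^ s := by
  simp [gsum, Finset.sum_range_succ]

theorem gsum_succ' (x : F) (s : ℕ) : gsum x (s + 1) = 1 + x * gsum x s := by
  unfold gsum
  rw [Finset.sum_range_succ', pow_zero, Finset.mul_sum, add_comm]
  congr 1
  exact Finset.sum_congr rfl fun m _ => by rw [pow_succ']

theorem gsum_add (x : F) (a b : ℕ) : gsum x (a + b) = gsum x a + x ^ a * gsum x b := by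
  unfold gsum
  rw [Finset.sum_range_add, Finset.mul_sum]
  congr 1
  exact Finset.sum_congr rfl fun m _ => by rw [pow_add]

theorem gsum_mem (V : ValuationSubring F) {x : F} (hx : x ∈ V) (s : ℕ) : gsum x s ∈ V :=
  sum_mem fun _ _ => pow_mem hx _

/-- If `x` lies in the maximal ideal, all geometric sums `gsum x (s + 1)` are units. -/
theorem val_gsum_of_small (V : ValuationSubring F) {x : F} (hx : V.valuation x < 1) (s : ℕ) :
    V.valuation (gsum x (s + 1)) = 1 := by
  rw [gsum_succ']
  refine Valuation.map_one_add_of_lt _ ?_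
  exact val_mul_lt_one_left V hx
    ((V.valuation_le_one_iff _).2 (gsum_mem V ((V.valuation_le_one_iff _).1 hx.le) s))

/-- If `x ∉ V`, the geometric sum `gsum x (s + 1)` has the valuation of `x ^ s`. -/
theorem val_gsum_of_big (V : ValuationSubring F) {x : F} (hx : 1 < V.valuation x) (s : ℕ) :
    V.valuation (gsum x (s + 1)) = V.valuation x ^ s := by
  induction s with
  | zero => simp [gsum]
  | succ s ih =>
    rw [gsum_succ, add_comm]
    have hlt : V.valuation (gsum x (s + 1)) < V.valuation (x ^ (s + 1)) := by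
      rw [ih, map_pow, pow_succ]
      have hpos : 0 < V.valuation x ^ s := pow_pos (lt_trans zero_lt_one hx) _
      calc V.valuation x ^ s = V.valuation x ^ s * 1 := (mul_one _).symm
        _ < V.valuation x ^ s * V.valuation x := by gcongr
    rw [Valuation.map_add_eq_of_lt_left _ hlt, map_pow]

/-- The bad exponents for a unit `x` of `V` are multiples of the smallest one. -/
theorem exists_modulus (V : ValuationSubring F) {x : F} (hx : x ∈ V) :
    ∃ d : ℕ, 2 ≤ d ∧ ∀ s : ℕ, V.valuation (gsum x s) < 1 → d ∣ s := by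
  classical
  by_cases hex : ∃ s : ℕ, 0 < s ∧ V.valuation (gsum x s) < 1
  · set d := Nat.find hex with hd
    have hdspec : 0 < d ∧ V.valuation (gsum x d) < 1 := Nat.find_spec hex
    have hdmin : ∀ s, s < d → ¬ (0 < s ∧ V.valuation (gsum x s) < 1) :=
      fun s hs => Nat.find_min hex hs
    have hxu : V.valuation x = 1 := by
      rcases lt_or_eq_of_le ((V.valuation_le_one_iff _).2 hx) with hlt | heq
      · exfalso
        obtain ⟨d', hd'⟩ : ∃ d', d = d' + 1 := ⟨d - 1, by omega⟩
        have := val_gsum_of_small V hlt d'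
        rw [← hd'] at this
        rw [this] at hdspec
        exact lt_irrefl _ hdspec.2
      · exact heq
    have hd2 : 2 ≤ d := by
      rcases Nat.lt_or_ge d 2 with hlt | hge
      · exfalso
        have hd1 : d = 1 := by omega
        have h1 := hdspec.2
        rw [hd1] at h1
        simp [gsum] at h1
      · exact hge
    -- multiples of `d` are bad
    have hmul : ∀ q : ℕ, V.valuation (gsum x (q * d)) < 1 := by
      intro q
      induction q with
      | zero => rw [Nat.zero_mul, gsum_zero, map_zero]; exact zero_lt_one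
      | succ q ih =>
        rw [Nat.succ_mul, gsum_add]
        refine Valuation.map_add_lt _ ih ?_
        exact val_mul_lt_one_right V ((V.valuation_le_one_iff _).2 (pow_mem hx _)) hdspec.2
    refine ⟨d, hd2, fun s hs => ?_⟩
    have hsdiv : s = (s / d) * d + s % d := by
      rw [Nat.mul_comm]; exact (Nat.div_add_mod s d).symm
    have hr : V.valuation (gsum x (s % d)) < 1 := by
      have h1 : gsum x s = gsum x ((s / d) * d) + x ^ ((s / d) * d) * gsum x (s % d) := by
        conv_lhs => rw [hsdiv]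
        exact gsum_add x _ _
      have h2 : x ^ ((s / d) * d) * gsum x (s % d) = gsum x s - gsum x ((s / d) * d) := by
        rw [h1]; ring
      have h3 : V.valuation (x ^ ((s / d) * d) * gsum x (s % d)) < 1 := by
        rw [h2]; exact Valuation.map_sub_lt _ hs (hmul _)
      rwa [map_mul, map_pow, hxu, one_pow, one_mul] at h3
    have hr0 : s % d = 0 := by
      by_contra hne
      exact hdmin (s % d) (Nat.mod_lt _ hdspec.1) ⟨Nat.pos_of_ne_zero hne, hr⟩
    exact Nat.dvd_of_mod_eq_zero hr0
  · refine ⟨2, le_rfl, fun s hs => ?_⟩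
    rcases Nat.eq_zero_or_pos s with h0 | hpos
    · rw [h0]; exact dvd_zero 2
    · exact absurd ⟨s, hpos, hs⟩ hex

end Geom

section Multi

variable {F : Type*} [Field F] {ι : Type*} [Fintype ι]

/-- **Nagata's trick.**  For every `x : F` there is `u ∈ ⋂ V i` such that `x * u ∈ ⋂ V i` and `u`
is a unit of every `V i` containing `x`. -/
theorem exists_multiplier (V : ι → ValuationSubring F) (x : F) :
    ∃ u : F, (∀ i, u ∈ V i) ∧ (∀ i, x * u ∈ V i) ∧
      (∀ i, x ∈ V i → (V i).valuation u = 1) := by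
  classical
  have hd : ∀ i, ∃ d : ℕ, 2 ≤ d ∧
      (x ∈ V i → ∀ s, (V i).valuation (gsum x s) < 1 → d ∣ s) := fun i => by
    by_cases hx : x ∈ V i
    · obtain ⟨d, hd2, hd⟩ := exists_modulus (V i) hx
      exact ⟨d, hd2, fun _ => hd⟩
    · exact ⟨2, le_rfl, fun h => absurd h hx⟩
  choose d hd2 hd using hd
  set D := ∏ i, d i with hD
  have hDpos : 0 < D := Finset.prod_pos fun i _ => by have := hd2 i; omega
  have hunit : ∀ i, x ∈ V i → (V i).valuation (gsum x (D + 1)) = 1 := by
    intro i hx
    rcases lt_or_eq_of_le (((V i).valuation_le_one_iff _).2 (gsum_mem (V i) hx (D + 1)))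
      with hlt | heq
    · exfalso
      have hdvd := hd i hx (D + 1) hlt
      have hdD : d i ∣ D := Finset.dvd_prod_of_mem _ (Finset.mem_univ i)
      have h1 : d i ∣ 1 := (Nat.dvd_add_right hdD).1 hdvd
      have h2 := Nat.le_of_dvd one_pos h1
      have h3 := hd2 i
      omega
    · exact heq
  have hbig : ∀ i, x ∉ V i → (V i).valuation (gsum x (D + 1)) = (V i).valuation x ^ D :=
    fun i hx => val_gsum_of_big (V i)
      (by rw [← not_le, (V i).valuation_le_one_iff]; exact hx) D
  have hxbig : ∀ i, x ∉ V i → 1 < (V i).valuation x := fun i hx => by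
    rw [← not_le, (V i).valuation_le_one_iff]; exact hx
  refine ⟨(gsum x (D + 1))⁻¹, fun i => ?_, fun i => ?_, fun i hx => ?_⟩
  · rw [← (V i).valuation_le_one_iff, map_inv₀]
    by_cases hx : x ∈ V i
    · rw [hunit i hx, inv_one]
    · rw [hbig i hx]
      exact inv_le_one_of_one_le₀ (one_le_pow₀ (hxbig i hx).le)
  · rw [← (V i).valuation_le_one_iff, map_mul, map_inv₀]
    by_cases hx : x ∈ V i
    · rw [hunit i hx, inv_one, mul_one]
      exact ((V i).valuation_le_one_iff _).2 hx
    · rw [hbig i hx]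
      have hpos : 0 < (V i).valuation x ^ D := pow_pos (lt_trans zero_lt_one (hxbig i hx)) _
      rw [mul_inv_le_iff₀ hpos, one_mul]
      exact le_self_pow₀ (hxbig i hx).le (by omega)
  · rw [map_inv₀, hunit i hx, inv_one]

variable [DecidableEq ι]

/-- Elements which are units at `V i` and small at all other `V i'`. -/
theorem exists_sep_multi (V : ι → ValuationSubring F)
    (hinc : ∀ i i', i ≠ i' → ¬ V i ≤ V i') (i : ι) :
    ∃ w : F, (V i).valuation w = 1 ∧ ∀ i', i' ≠ i → (V i').valuation w < 1 := by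
  classical
  have hu : ∀ i', ∃ u : F, (∀ i'', u ∈ V i'') ∧ (V i).valuation u = 1 ∧
      (i' ≠ i → (V i').valuation u < 1) := fun i' => by
    by_cases hi : i' = i
    · exact ⟨1, fun _ => one_mem _, map_one _, fun h => absurd hi h⟩
    · obtain ⟨x, hx1, hx2⟩ := SetLike.not_le_iff_exists.1 (hinc i i' (fun h => hi h.symm))
      obtain ⟨u, hu1, hu2, hu3⟩ := exists_multiplier V x
      refine ⟨u, hu1, hu3 i hx1, fun _ => ?_⟩
      have hxbig : 1 < (V i').valuation x := by
        rw [← not_le, (V i').valuation_le_one_iff]; exact hx2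
      have h1 : (V i').valuation x * (V i').valuation u ≤ 1 := by
        rw [← map_mul]; exact ((V i').valuation_le_one_iff _).2 (hu2 i')
      by_contra hcon
      rw [not_lt] at hcon
      have : (V i').valuation x * 1 ≤ (V i').valuation x * (V i').valuation u := by gcongr
      rw [mul_one] at this
      exact absurd (lt_of_lt_of_le hxbig (this.trans h1)) (lt_irrefl _)
  choose u hu1 hu2 hu3 using hu
  refine ⟨∏ i', u i', ?_, fun i' hi' => ?_⟩
  · rw [map_prod]
    exact Finset.prod_eq_one fun i' _ => hu2 i'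
  · rw [map_prod, ← Finset.mul_prod_erase _ _ (Finset.mem_univ i')]
    have h1 : ∏ x ∈ Finset.univ.erase i', (V i').valuation (u x) ≤ 1 :=
      Finset.prod_le_one' fun x _ => ((V i').valuation_le_one_iff _).2 (hu1 x i')
    calc (V i').valuation (u i') * ∏ x ∈ Finset.univ.erase i', (V i').valuation (u x)
        ≤ (V i').valuation (u i') * 1 := by gcongr
      _ = (V i').valuation (u i') := mul_one _
      _ < 1 := hu3 i' hi'

/-- **Idempotents.**  `E ≡ 1` at `V i` and `E ≡ 0` at the other `V i'`. -/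
theorem exists_idem_multi (V : ι → ValuationSubring F)
    (hinc : ∀ i i', i ≠ i' → ¬ V i ≤ V i') (i : ι) :
    ∃ E : F, (V i).valuation (1 - E) < 1 ∧ ∀ i', i' ≠ i → (V i').valuation E < 1 := by
  classical
  choose w hw1 hw2 using fun i => exists_sep_multi V hinc i
  set W := ∑ i, w i with hW
  have hWval : ∀ i₀, (V i₀).valuation W = 1 := by
    intro i₀
    have e : W = w i₀ + ∑ x ∈ Finset.univ.erase i₀, w x := by
      rw [hW, Finset.add_sum_erase _ _ (Finset.mem_univ i₀)]
    have hsmall : (V i₀).valuation (∑ x ∈ Finset.univ.erase i₀, w x) < 1 :=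
      val_sum_lt_one _ _ _ fun x hx => hw2 x i₀ (Finset.ne_of_mem_erase hx).symm
    rw [e, Valuation.map_add_eq_of_lt_left _ (by rw [hw1]; exact hsmall), hw1]
  have hW0 : W ≠ 0 := by
    intro h0
    have := hWval i
    rw [h0, map_zero] at this
    exact zero_ne_one this
  refine ⟨w i * W⁻¹, ?_, fun i' hi' => ?_⟩
  · have e : 1 - w i * W⁻¹ = (∑ x ∈ Finset.univ.erase i, w x) * W⁻¹ := by
      have : W = w i + ∑ x ∈ Finset.univ.erase i, w x := by
        rw [hW, Finset.add_sum_erase _ _ (Finset.mem_univ i)]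
      field_simp
      rw [this]; ring
    rw [e, map_mul, map_inv₀, hWval i, inv_one, mul_one]
    exact val_sum_lt_one _ _ _ fun x hx => hw2 x i (Finset.ne_of_mem_erase hx).symm
  · rw [map_mul, map_inv₀, hWval i', inv_one, mul_one]
    exact hw2 i i' hi'

/-- **Lifting residues to `⋂ V i'`.** -/
theorem exists_lift_multi (V : ι → ValuationSubring F)
    (hinc : ∀ i i', i ≠ i' → ¬ V i ≤ V i') (i : ι) {b : F} (hb : b ∈ V i) :
    ∃ g : F, (∀ i', g ∈ V i') ∧ (V i).valuation (g - b) < 1 := by
  classical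
  obtain ⟨u, hu1, hu2, hu3⟩ := exists_multiplier V b
  obtain ⟨E, hE1, hE2⟩ := exists_idem_multi V hinc i
  have hEmem : ∀ i', E ∈ V i' := fun i' => by
    by_cases hi : i' = i
    · subst hi
      have : E = 1 - (1 - E) := by ring
      rw [this]
      exact sub_mem (one_mem _) (((V i').valuation_le_one_iff _).1 hE1.le)
    · exact ((V i').valuation_le_one_iff _).1 (hE2 i' hi).le
  set c := E * u + (1 - E) with hc
  have hcval : ∀ i', (V i').valuation c = 1 := by
    intro i'
    by_cases hi : i' = i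
    · subst hi
      have e : c = u + (1 - E) * (1 - u) := by rw [hc]; ring
      have hsm : (V i').valuation ((1 - E) * (1 - u)) < 1 :=
        val_mul_lt_one_left (V i') hE1
          (((V i').valuation_le_one_iff _).2 (sub_mem (one_mem _) (hu1 i')))
      rw [e, Valuation.map_add_eq_of_lt_left _ (by rw [hu3 i' hb]; exact hsm),
        hu3 i' hb]
    · have e : c = 1 + E * (u - 1) := by rw [hc]; ring
      rw [e]
      refine Valuation.map_one_add_of_lt _ ?_
      exact val_mul_lt_one_left (V i') (hE2 i' hi)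
        (((V i').valuation_le_one_iff _).2 (sub_mem (hu1 i') (one_mem _)))
  have hc0 : c ≠ 0 := by
    intro h0
    have := hcval i
    rw [h0, map_zero] at this
    exact zero_ne_one this
  refine ⟨b * u * c⁻¹, fun i' => ?_, ?_⟩
  · rw [← (V i').valuation_le_one_iff, map_mul, map_inv₀, hcval i', inv_one, mul_one]
    exact ((V i').valuation_le_one_iff _).2 (hu2 i')
  · have e : b * u * c⁻¹ - b = b * ((E - 1) * (1 - u)) * c⁻¹ := by
      field_simp
      rw [hc]; ring
    rw [e, map_mul, map_inv₀, hcval i, inv_one, mul_one]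
    refine val_mul_lt_one_right (V i) (((V i).valuation_le_one_iff _).2 hb) ?_
    refine val_mul_lt_one_left (V i) ?_
      (((V i).valuation_le_one_iff _).2 (sub_mem (one_mem _) (hu1 i)))
    have : E - 1 = -(1 - E) := by ring
    rw [this, Valuation.map_neg]; exact hE1

end Multi

end Fermat.Agent.S36.H253

end
-- ===== PACK-END S36/H253/Approx.lean

-- ===== PACK-BEGIN S18/H602/Sep.lean
section


/-!
# Separability from a derivation  (helper602, S18 / MOD piece SEP, part 2)

Let `k` be a perfect field, `L ⊇ k` a field with a `k`-derivation `D : L → L`, and `x ∈ L` with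
`D x ≠ 0`.  Then

* `transcendental_of_derivation_ne_zero` : `x` is transcendental over `k`;
* `separable_minpoly_of_derivation` : every `y ∈ L` integral over `k(x)` has separable minimal
  polynomial over `k(x)`;
* `isSeparable_of_derivation` : the same as `IsSeparable k⟮x⟯ y`.

Specialised to `L = k((q))`, `D = d/dq`:

* `laurent_transcendental`, `laurent_separable_minpoly`, `laurent_isSeparable`.
-/

set_option autoImplicit false

noncomputable section

namespace Fermat.Agent.S18.H602

open Polynomial IntermediateField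

section Generic

variable {k L : Type*} [Field k] [Field L] [Algebra k L]

/-- If `D x ≠ 0` for a `k`-derivation `D` and `k` is perfect, then `x` is transcendental. -/
theorem transcendental_of_derivation_ne_zero [PerfectField k] (D : Derivation k L L) (x : L)
    (hx : D x ≠ 0) : Transcendental k x := by
  intro halg
  have hint : IsIntegral k x := halg.isIntegral
  have hsep : (minpoly k x).Separable :=
    PerfectField.separable_of_irreducible (minpoly.irreducible hint)
  have h0 : aeval x (minpoly k x) = 0 := minpoly.aeval k x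
  have h1 := D.map_aeval (minpoly k x) x
  rw [h0, map_zero] at h1
  have h2 := hsep.aeval_derivative_ne_zero h0
  rcases smul_eq_zero.mp h1.symm with h | h
  · exact h2 h
  · exact hx h

theorem aeval_mem_adjoin_simple (x : L) (r : k[X]) : aeval x r ∈ k⟮x⟯ :=
  (mem_adjoin_simple_iff k _).mpr ⟨r, 1, by simp⟩

/-- For `c ∈ k(x)`, `D c ∈ k(x) · D x`. -/
theorem exists_mem_adjoin_derivation_eq (D : Derivation k L L) (x : L) {c : L}
    (hc : c ∈ k⟮x⟯) : ∃ c' ∈ k⟮x⟯, D c = c' * D x := by
  obtain ⟨r, s, rfl⟩ := (mem_adjoin_simple_iff k c).mp hc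
  refine ⟨((aeval x s)⁻¹ ^ 2 *
    (aeval x s * aeval x (derivative r) - aeval x r * aeval x (derivative s))), ?_, ?_⟩
  · exact mul_mem (pow_mem (inv_mem (aeval_mem_adjoin_simple x s)) 2)
      (sub_mem (mul_mem (aeval_mem_adjoin_simple x s) (aeval_mem_adjoin_simple x _))
        (mul_mem (aeval_mem_adjoin_simple x r) (aeval_mem_adjoin_simple x _)))
  · rw [Derivation.leibniz_div, D.map_aeval, D.map_aeval]
    simp only [smul_eq_mul]
    ring

/-- Kernel of `D` on `k(x)`: `p`-th powers. -/
theorem exists_pow_eq_of_derivation_eq_zero [PerfectField k] (p : ℕ) [hp : Fact p.Prime]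
    [CharP k p] (D : Derivation k L L) (x : L) (hx : D x ≠ 0) {c : L} (hc : c ∈ k⟮x⟯)
    (hDc : D c = 0) : ∃ d ∈ k⟮x⟯, d ^ p = c := by
  have : CharP L p := charP_of_injective_algebraMap (algebraMap k L).injective p
  obtain ⟨r, s, rfl⟩ := (mem_adjoin_simple_iff k c).mp hc
  by_cases hs : aeval x s = 0
  · refine ⟨0, zero_mem _, ?_⟩
    rw [hs, div_zero, zero_pow hp.out.ne_zero]
  set R := r * s ^ (p - 1) with hR
  have hpow : (aeval x s) ^ p = aeval x s ^ (p - 1) * aeval x s := by
    rw [← pow_succ, Nat.sub_add_cancel hp.out.one_le]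
  have hRx : aeval x R = (aeval x r / aeval x s) * (aeval x s) ^ p := by
    rw [hR, map_mul, map_pow, hpow]
    field_simp
  have hDR : D (aeval x R) = 0 := by
    rw [hRx, D.leibniz, hDc, smul_zero, add_zero, D.leibniz_pow]
    simp [CharP.cast_eq_zero]
  have hR' : derivative R = 0 := by
    have h1 := D.map_aeval R x
    rw [hDR] at h1
    rcases smul_eq_zero.mp h1.symm with h | h
    · exact (transcendental_iff.mp (transcendental_of_derivation_ne_zero D x hx)) _ h
    · exact absurd h hx
  have hexp := expand_contract p hR' hp.out.ne_zero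
  have : ExpChar k p := ExpChar.prime hp.out
  have : PerfectRing k p := PerfectField.toPerfectRing p
  rw [polynomial_expand_eq] at hexp
  refine ⟨aeval x (map ((frobeniusEquiv k p).symm : k →+* k) (contract p R)) / aeval x s,
    ?_, ?_⟩
  · exact (mem_adjoin_simple_iff k _).mpr ⟨_, s, rfl⟩
  · rw [div_pow, ← map_pow, hexp, hRx]
    field_simp

/-- **Separability from a derivation**, characteristic `p`. -/
theorem separable_minpoly_of_derivation_charP [PerfectField k] (p : ℕ) [hp : Fact p.Prime]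
    [CharP k p] (D : Derivation k L L) (x : L) (hx : D x ≠ 0) (y : L)
    (hy : IsIntegral k⟮x⟯ y) : (minpoly k⟮x⟯ y).Separable := by
  have hK : CharP k⟮x⟯ p := charP_of_injective_algebraMap (algebraMap k k⟮x⟯).injective p
  have hL : CharP L p := charP_of_injective_algebraMap (algebraMap k L).injective p
  have hE : ExpChar k⟮x⟯ p := ExpChar.prime hp.out
  have hirr := minpoly.irreducible hy
  rcases separable_or p hirr with h | ⟨-, g, hg, hgP⟩
  · exact h
  exfalso
  have hgm : g.Monic := (monic_expand_iff hp.out.pos).mp (hgP ▸ minpoly.monic hy)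
  have h0 : aeval (y ^ p) g = 0 := by
    rw [← expand_aeval, hgP]
    exact minpoly.aeval _ y
  have hgmin : g = minpoly k⟮x⟯ (y ^ p) := minpoly.eq_of_irreducible_of_monic hg h0 hgm
  -- the derivative function `δ` on `k(x)`
  have hδ : ∀ c : k⟮x⟯, ∃ c' : k⟮x⟯, D (c : L) = (c' : L) * D x := fun c => by
    obtain ⟨c', hc', h⟩ := exists_mem_adjoin_derivation_eq D x c.2
    exact ⟨⟨c', hc'⟩, h⟩
  choose δ hδ using hδ
  have hδ0 : ∀ c : k⟮x⟯, δ c = 0 → D (c : L) = 0 := fun c hc => by
    rw [hδ c, hc, ZeroMemClass.coe_zero, zero_mul]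
  have hδ1 : δ 1 = 0 := by
    have h1 := hδ 1
    rw [OneMemClass.coe_one, D.map_one_eq_zero] at h1
    rcases mul_eq_zero.mp h1.symm with h | h
    · exact Subtype.ext h
    · exact absurd h hx
  have hDyp : D (y ^ p) = 0 := by
    rw [D.leibniz_pow]
    simp [CharP.cast_eq_zero]
  have hDypj : ∀ j : ℕ, D ((y ^ p) ^ j) = 0 := fun j => by
    rw [D.leibniz_pow, hDyp, smul_zero, smul_zero]
  set n := g.natDegree with hn
  set G : (k⟮x⟯)[X] := ∑ j ∈ Finset.range (n + 1), monomial j (δ (g.coeff j)) with hG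
  have hGcoeff : ∀ m, G.coeff m = if m < n + 1 then δ (g.coeff m) else 0 := fun m => by
    rw [hG, finsetSum_coeff]
    simp only [coeff_monomial]
    rw [Finset.sum_ite_eq' (Finset.range (n + 1)) m]
    simp only [Finset.mem_range]
  have hGy : aeval (y ^ p) G = 0 := by
    have h1 : D (aeval (y ^ p) g) = 0 := by rw [h0, map_zero]
    rw [aeval_eq_sum_range, map_sum] at h1
    have h2 : aeval (y ^ p) G * D x = 0 := by
      rw [hG, map_sum, Finset.sum_mul, ← h1]
      refine Finset.sum_congr rfl fun j _ => ?_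
      rw [aeval_monomial, Algebra.smul_def, D.leibniz, hDypj, smul_zero, zero_add,
        IntermediateField.algebraMap_apply, IntermediateField.algebraMap_apply, hδ,
        smul_eq_mul]
      ring
    rcases mul_eq_zero.mp h2 with h | h
    · exact h
    · exact absurd h hx
  have hG0 : G = 0 := by
    by_contra hne
    have hle := minpoly.degree_le_of_ne_zero k⟮x⟯ (y ^ p) hne hGy
    rw [← hgmin] at hle
    have hlt : G.degree < g.degree := by
      rw [degree_eq_natDegree hgm.ne_zero, degree_lt_iff_coeff_zero]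
      intro m hm
      rw [hGcoeff]
      split_ifs with h
      · have : m = n := by omega
        rw [this, hn, hgm.coeff_natDegree, hδ1]
      · rfl
    exact absurd hle (not_le.mpr hlt)
  have hcoeff : ∀ j, D ((g.coeff j : k⟮x⟯) : L) = 0 := fun j => by
    by_cases hj : j < n + 1
    · apply hδ0
      have := hGcoeff j
      rw [if_pos hj, hG0, coeff_zero] at this
      exact this.symm
    · rw [coeff_eq_zero_of_natDegree_lt (by omega), ZeroMemClass.coe_zero, map_zero]
  have hlift : g ∈ lifts (frobenius k⟮x⟯ p) := by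
    rw [lifts_iff_coeff_lifts]
    intro j
    obtain ⟨d, hd, hdp⟩ := exists_pow_eq_of_derivation_eq_zero p D x hx (g.coeff j).2 (hcoeff j)
    exact ⟨⟨d, hd⟩, Subtype.ext (by simpa [frobenius_def] using hdp)⟩
  obtain ⟨g₀, hg₀⟩ := (mem_lifts g).mp hlift
  have hpow : minpoly k⟮x⟯ y = g₀ ^ p := by
    rw [← hgP, ← hg₀, ← map_expand, map_frobenius_expand]
  rw [hpow] at hirr
  exact not_irreducible_pow hp.out.ne_one hirr

/-- **Separability from a derivation.**  `k` perfect, `D : L → L` a `k`-derivation of the field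
`L`, `D x ≠ 0`: every `y ∈ L` integral over `k(x)` has separable minimal polynomial. -/
theorem separable_minpoly_of_derivation [PerfectField k] (D : Derivation k L L) (x : L)
    (hx : D x ≠ 0) (y : L) (hy : IsIntegral k⟮x⟯ y) : (minpoly k⟮x⟯ y).Separable := by
  obtain ⟨p, hp⟩ := CharP.exists k
  rcases CharP.char_is_prime_or_zero k p with h | h
  · have : Fact p.Prime := ⟨h⟩
    exact separable_minpoly_of_derivation_charP p D x hx y hy
  · subst h
    have : CharZero k := CharP.charP_to_charZero k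
    have : CharZero k⟮x⟯ := charZero_of_injective_algebraMap (algebraMap k k⟮x⟯).injective
    exact PerfectField.separable_of_irreducible (minpoly.irreducible hy)

/-- The same, as `IsSeparable`. -/
theorem isSeparable_of_derivation [PerfectField k] (D : Derivation k L L) (x : L)
    (hx : D x ≠ 0) (y : L) (hy : IsIntegral k⟮x⟯ y) : IsSeparable k⟮x⟯ y :=
  separable_minpoly_of_derivation D x hx y hy

/-- Consequently the relative separable closure of `k(x)` in `L` is all of the algebraic
closure: any intermediate field `k(x) ≤ F ≤ L` algebraic over `k(x)` is separable over `k(x)`. -/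
theorem isSeparable_of_derivation_of_isAlgebraic [PerfectField k] (D : Derivation k L L) (x : L)
    (hx : D x ≠ 0) (F : IntermediateField k⟮x⟯ L) [Algebra.IsAlgebraic k⟮x⟯ F] :
    Algebra.IsSeparable k⟮x⟯ F := by
  refine ⟨fun z => ?_⟩
  have hz : IsIntegral k⟮x⟯ (z : L) :=
    (isIntegral_algebraMap_iff (algebraMap F L).injective).mpr
      (Algebra.IsIntegral.isIntegral (R := k⟮x⟯) z)
  have := separable_minpoly_of_derivation D x hx (z : L) hz
  rwa [IsSeparable, ← minpoly.algebraMap_eq (algebraMap F L).injective z]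

/-- Clearing denominators: a polynomial over `k(x)`, multiplied by a suitable nonzero element of
`k[x]`, has coefficients in `k[x]`. -/
theorem exists_clear_denominators (x : L) (m : (k⟮x⟯)[X]) :
    ∃ (s : k[X]) (P : k[X][X]), aeval x s ≠ 0 ∧
      P.map (aeval x : k[X] →ₐ[k] L).toRingHom = C (aeval x s) * m.map (algebraMap k⟮x⟯ L) := by
  induction m using Polynomial.induction_on' with
  | add m₁ m₂ h₁ h₂ =>
    obtain ⟨s₁, P₁, hs₁, hP₁⟩ := h₁
    obtain ⟨s₂, P₂, hs₂, hP₂⟩ := h₂
    refine ⟨s₁ * s₂, C s₂ * P₁ + C s₁ * P₂, ?_, ?_⟩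
    · rw [map_mul]
      exact mul_ne_zero hs₁ hs₂
    · rw [Polynomial.map_add, Polynomial.map_mul, Polynomial.map_mul, hP₁, hP₂, map_C, map_C,
        Polynomial.map_add, map_mul, C_mul]
      simp only [AlgHom.toRingHom_eq_coe, RingHom.coe_coe]
      ring
  | monomial n c =>
    obtain ⟨r, s, hc⟩ := (mem_adjoin_simple_iff k (c : L)).mp c.2
    by_cases hs : aeval x s = 0
    · refine ⟨1, 0, by simp, ?_⟩
      have hc0 : algebraMap k⟮x⟯ L c = 0 := by
        rw [IntermediateField.algebraMap_apply, hc, hs, div_zero]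
      rw [Polynomial.map_zero, map_monomial, hc0, monomial_zero_right, mul_zero]
    · refine ⟨s, monomial n r, hs, ?_⟩
      rw [map_monomial, map_monomial, C_mul_monomial, IntermediateField.algebraMap_apply, hc,
        mul_div_cancel₀ _ hs]
      rfl

/-- **Separability, polynomial form.**  `k` perfect, `D x ≠ 0`, `y` algebraic over `k(x)`:
there is `P ∈ k[X][T]` with `P(x, y) = 0` and `(∂P/∂T)(x, y) ≠ 0`. -/
theorem exists_sep_poly_of_derivation [PerfectField k] (D : Derivation k L L) (x : L)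
    (hx : D x ≠ 0) (y : L) (hy : IsIntegral k⟮x⟯ y) :
    ∃ P : k[X][X], eval₂ (aeval x : k[X] →ₐ[k] L).toRingHom y P = 0 ∧
      eval₂ (aeval x : k[X] →ₐ[k] L).toRingHom y (derivative P) ≠ 0 := by
  have hsep := separable_minpoly_of_derivation D x hx y hy
  obtain ⟨s, P, hs, hP⟩ := exists_clear_denominators x (minpoly k⟮x⟯ y)
  refine ⟨P, ?_, ?_⟩
  · rw [eval₂_eq_eval_map, hP, eval_mul, eval_C, eval_map_algebraMap, minpoly.aeval, mul_zero]
  · rw [eval₂_eq_eval_map, ← derivative_map, hP, derivative_mul, derivative_C, zero_mul,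
      zero_add, eval_mul, eval_C, derivative_map, eval_map_algebraMap]
    exact mul_ne_zero hs (hsep.aeval_derivative_ne_zero (minpoly.aeval _ y))

end Generic

section Laurent

/-- `Derivation k L L` for a field extension, with the `k`-module structure on `L` coming from
the algebra structure (for `L = k((q))` Mathlib has a second, non-defeq, instance path). -/
abbrev FieldDerivation (k L : Type*) [Field k] [Field L] [Algebra k L] : Type _ :=
  Derivation k L L

variable {k : Type*} [Field k]

/-- `d/dq` as a `k`-derivation of the field `k((q))` (algebra-module structure). -/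
def dqDerAlg (k : Type*) [Field k] : FieldDerivation k (LaurentSeries k) :=
  letI : Module k (LaurentSeries k) := Algebra.toModule
  { toFun := dq
    map_add' := dq_add
    map_smul' := fun c f => by
      rw [Algebra.smul_def, dq_mul, dq_algebraMap, mul_zero, add_zero, RingHom.id_apply,
        Algebra.smul_def]
    map_one_eq_zero' := dq_one
    leibniz' := fun a b => by
      have := dq_mul a b
      simpa [smul_eq_mul] using this }

@[simp]
theorem dqDerAlg_apply (f : LaurentSeries k) : dqDerAlg k f = dq f := rfl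

/-- Criterion for `dx/dq ≠ 0`: some coefficient `a_n` with `n · a_n ≠ 0`. -/
theorem dq_ne_zero_of_coeff (x : LaurentSeries k) (n : ℤ) (h : (n : k) * x.coeff n ≠ 0) :
    dq x ≠ 0 := by
  intro h0
  have h1 : (dq x).coeff (n - 1) = (n : k) * x.coeff n := by
    rw [dq_coeff, sub_add_cancel, zsmul_eq_mul]
  rw [h0, HahnSeries.coeff_zero] at h1
  exact h h1.symm

/-- `x = a q⁻¹ + …` with `a ≠ 0` (e.g. `x = j`) has `dx/dq ≠ 0`, in any characteristic. -/
theorem dq_ne_zero_of_coeff_neg_one (x : LaurentSeries k) (h : x.coeff (-1) ≠ 0) : dq x ≠ 0 := by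
  refine dq_ne_zero_of_coeff x (-1) ?_
  simpa using h

/-- `x = … + a q + …` with `a ≠ 0` (e.g. `x = 1/j`) has `dx/dq ≠ 0`, in any characteristic. -/
theorem dq_ne_zero_of_coeff_one (x : LaurentSeries k) (h : x.coeff 1 ≠ 0) : dq x ≠ 0 := by
  refine dq_ne_zero_of_coeff x 1 ?_
  simpa using h

variable [PerfectField k]

/-- `x ∈ k((q))` with `dx/dq ≠ 0` is transcendental over the perfect field `k`. -/
theorem laurent_transcendental (x : LaurentSeries k) (hx : dq x ≠ 0) : Transcendental k x :=
  have hx' : dqDerAlg k x ≠ 0 := hx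
  transcendental_of_derivation_ne_zero (dqDerAlg k) x hx'

/-- **SEP.**  `k` perfect, `x ∈ k((q))` with `dx/dq ≠ 0`: every `y ∈ k((q))` algebraic over `k(x)`
has separable minimal polynomial over `k(x)`. -/
theorem laurent_separable_minpoly (x : LaurentSeries k) (hx : dq x ≠ 0) (y : LaurentSeries k)
    (hy : IsIntegral k⟮x⟯ y) : (minpoly k⟮x⟯ y).Separable :=
  have hx' : dqDerAlg k x ≠ 0 := hx
  separable_minpoly_of_derivation (dqDerAlg k) x hx' y hy

theorem laurent_isSeparable (x : LaurentSeries k) (hx : dq x ≠ 0) (y : LaurentSeries k)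
    (hy : IsAlgebraic k⟮x⟯ y) : IsSeparable k⟮x⟯ y :=
  laurent_separable_minpoly x hx y hy.isIntegral

/-- Any intermediate field of `k((q)) / k(x)` algebraic over `k(x)` is separable over `k(x)`. -/
theorem laurent_algebra_isSeparable (x : LaurentSeries k) (hx : dq x ≠ 0)
    (F : IntermediateField k⟮x⟯ (LaurentSeries k)) [Algebra.IsAlgebraic k⟮x⟯ F] :
    Algebra.IsSeparable k⟮x⟯ F :=
  have hx' : dqDerAlg k x ≠ 0 := hx
  isSeparable_of_derivation_of_isAlgebraic (dqDerAlg k) x hx' F

/-- **SEP, polynomial form**: `P ∈ k[X][T]` with `P(x, y) = 0`, `(∂P/∂T)(x, y) ≠ 0`. -/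
theorem laurent_exists_sep_poly (x : LaurentSeries k) (hx : dq x ≠ 0) (y : LaurentSeries k)
    (hy : IsAlgebraic k⟮x⟯ y) :
    ∃ P : k[X][X], eval₂ (aeval x : k[X] →ₐ[k] LaurentSeries k).toRingHom y P = 0 ∧
      eval₂ (aeval x : k[X] →ₐ[k] LaurentSeries k).toRingHom y (derivative P) ≠ 0 :=
  have hx' : dqDerAlg k x ≠ 0 := hx
  exists_sep_poly_of_derivation (dqDerAlg k) x hx' y hy.isIntegral

end Laurent

end Fermat.Agent.S18.H602

end
end
-- ===== PACK-END S18/H602/Sep.lean

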