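import Fermat.Prelude.Def_ModularForm_HeckeOperator
import Fermat.Prelude.Thm_ModularFormClass_heckeT_heckeU_comm
import Fermat.Prelude.Thm_CongruenceSubgroup_one_mem_strictPeriods_Gamma0
import Fermat.Prelude.Sol.S_ModularForm_heckeU_slash_eq_self_of_mem_Gamma0
import Mathlib
import Fermat.Prelude.Def_ModularForm_HeckeOperatorForms
import Fermat.Prelude.Def_FLTPrelim_Ramification
import Mathlib.FieldTheory.IsAlgClosed.Basic
import Mathlib.RingTheory.Localization.Integral
import Mathlib.Algebra.Polynomial.Splits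
import Mathlib.Algebra.Polynomial.RingDivision
import Mathlib.RingTheory.Algebraic.Basic
import Mathlib.Algebra.Polynomial.Inductions
import Mathlib.RingTheory.RootsOfUnity.EnoughRootsOfUnity
import Mathlib.RingTheory.RootsOfUnity.AlgebraicallyClosed
import Fermat.Agent.Pack.S36.E2L3
import Fermat.Agent.Pack.S36.E2L0
import Fermat.Agent.Pack.S36.E2L1
import Fermat.Agent.Pack.S36.E0L0
import Fermat.Agent.Pack.S36.E2L2
import Fermat.Agent.Pack.S36.E3L2
import Fermat.Agent.Pack.S36.E3L1
import Fermat.Agent.Pack.S36.E0L3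
import Fermat.Agent.Pack.S36.E3L0

-- ===== PACK-BEGIN Lib/Newform/H958/X/FE.lean
section



/-!
# NEWFORM block X — leaf X3 (`FunctionalEq`)

`Λ_f(2 - s) = - N^{s-1} Λ_{f ∣ W_N}(s)`, from Mathlib's functional equation for
`ModularForm.weakFEPair` and the substitution `t ↦ N t` in the Mellin transform.
-/

set_option autoImplicit false

open CongruenceSubgroup Complex
open UpperHalfPlane hiding I
open scoped MatrixGroups ModularForm

namespace Fermat.Agent.Lib.Newform.H958.X

open ModularFormClass ModularForm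

/-- `W_N = S * diag(N, 1)`. -/
theorem frickeMatrix_eq (N : ℕ) [NeZero N] :
    frickeMatrix N = (ModularGroup.S : GL (Fin 2) ℝ) * heckeDiagMatrix N := by
  apply Matrix.GeneralLinearGroup.ext
  intro i j
  have hN : N ≠ 0 := NeZero.ne N
  rw [Matrix.GeneralLinearGroup.coe_mul, val_heckeDiagMatrix hN]
  fin_cases i <;> fin_cases j <;>
    simp [frickeMatrix, ModularGroup.S, Matrix.mul_apply, Fin.sum_univ_two]

/-- `(f ∣ W_N)(τ) = N (f ∣ S)(N τ)`. -/
theorem slash_frickeMatrix_apply (N : ℕ) [NeZero N] (f : ℍ → ℂ) (τ : ℍ) :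
    (f ∣[(2 : ℤ)] frickeMatrix N) τ =
      (N : ℂ) * (f ∣[(2 : ℤ)] (ModularGroup.S : GL (Fin 2) ℝ)) (heckeDiagMatrix N • τ) := by
  rw [frickeMatrix_eq, SlashAction.slash_mul, slash_heckeDiagMatrix_apply 2 (NeZero.ne N)]
  norm_num

theorem heckeDiagMatrix_smul_ofComplex (N : ℕ) [NeZero N] {t : ℝ} (ht : 0 < t) :
    heckeDiagMatrix N • ofComplex (I * t) = ofComplex (I * (((N : ℝ) * t : ℝ) : ℂ)) := by
  have hN : (0 : ℝ) < N := Nat.cast_pos.mpr (Nat.pos_of_ne_zero (NeZero.ne N))
  apply UpperHalfPlane.ext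
  rw [coe_heckeDiagMatrix_smul (NeZero.ne N)]
  rw [ofComplex_apply_of_im_pos (by simpa using ht),
    ofComplex_apply_of_im_pos (by simpa using mul_pos hN ht)]
  push_cast
  ring

theorem functionalEq : FunctionalEq := by
  intro N _ f f' hf' s
  have hN : (0 : ℝ) < N := Nat.cast_pos.mpr (Nat.pos_of_ne_zero (NeZero.ne N))
  have hNc : (N : ℂ) ≠ 0 := Nat.cast_ne_zero.mpr (NeZero.ne N)
  have hP : IsStrongFEPair
      (weakFEPair (Γ := (Gamma0 N : Subgroup (GL (Fin 2) ℝ))) (k := 2) two_pos f) :=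
    CuspForm.isStrongFEPair two_pos f
  have hfe := (weakFEPair (Γ := (Gamma0 N : Subgroup (GL (Fin 2) ℝ))) (k := 2) two_pos f
    ).functional_equation s
  rw [hP.symm_Λ_eq] at hfe
  have hε : (weakFEPair (Γ := (Gamma0 N : Subgroup (GL (Fin 2) ℝ))) (k := 2) two_pos f).ε
      = -1 := by
    simp [weakFEPair]
  have hk : ((weakFEPair (Γ := (Gamma0 N : Subgroup (GL (Fin 2) ℝ))) (k := 2) two_pos f).k : ℂ)
      = 2 := by
    simp [weakFEPair]
  rw [hε, hk] at hfe
  -- the Mellin transform of `t ↦ (f ∣ S)(i t)`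
  have hmel : mellin
      (weakFEPair (Γ := (Gamma0 N : Subgroup (GL (Fin 2) ℝ))) (k := 2) two_pos f).g s =
      (N : ℂ) ^ (s - 1) * Lam f' s := by
    have h1 : Lam f' = mellin (fun t : ℝ => f' (ofComplex (I * t))) :=
      CuspForm.Λ_eq_mellin two_pos f'
    rw [h1]
    have h2 : mellin
        (weakFEPair (Γ := (Gamma0 N : Subgroup (GL (Fin 2) ℝ))) (k := 2) two_pos f).g s =
        mellin (fun t : ℝ => ((N : ℂ)⁻¹) •
          (fun u : ℝ => f' (ofComplex (I * u))) ((N : ℝ)⁻¹ * t)) s := by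
      refine MeasureTheory.setIntegral_congr_fun measurableSet_Ioi fun t ht => ?_
      have ht' : (0 : ℝ) < t := ht
      have hu : (0 : ℝ) < (N : ℝ)⁻¹ * t := mul_pos (inv_pos.mpr hN) ht'
      dsimp only
      congr 1
      simp only [weakFEPair, smul_eq_mul]
      rw [hf', slash_frickeMatrix_apply, heckeDiagMatrix_smul_ofComplex N hu,
        ← mul_assoc, inv_mul_cancel₀ hNc, one_mul]
      have : (N : ℝ) * ((N : ℝ)⁻¹ * t) = t := by field_simp
      rw [this]
      rfl
    have h3 := mellin_comp_mul_left (fun u : ℝ => f' (ofComplex (I * u))) s (inv_pos.mpr hN)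
    rw [h2, mellin_const_smul]
    dsimp only at h3 ⊢
    rw [h3]
    simp only [smul_eq_mul]
    rw [← mul_assoc]
    congr 1
    rw [ofReal_inv, ofReal_natCast, inv_cpow_eq_ite]
    have harg : ((N : ℂ)).arg ≠ Real.pi := by
      rw [Complex.natCast_arg]
      exact Real.pi_ne_zero.symm
    rw [if_neg harg, Complex.cpow_neg, inv_inv, Complex.cpow_sub _ _ hNc, Complex.cpow_one]
    field_simp
  show ModularForm.Λ (k := 2) two_pos f (2 - s) = _
  rw [ModularForm.Λ, hfe, hmel]
  simp

end Fermat.Agent.Lib.Newform.H958.X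

end
-- ===== PACK-END Lib/Newform/H958/X/FE.lean

-- ===== PACK-BEGIN Lib/Newform/H683/XIndep.lean
section
/-
NEWFORM library, block X (helper683) — **X7 IndepLocal**: independence of the functions
`s ↦ p ^ (-s)`, `p` prime: an identity between products of one-variable polynomials in the
`p ^ (-s)` splits prime by prime, up to constants.

Pure algebra (Dedekind independence of characters + unique factorization); Mathlib only
(+ the frozen interface `H958/X/Spec.lean`).
-/


set_option autoImplicit false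

open Complex Polynomial

namespace Fermat.Agent.Lib.Newform.H683

/-- the integer `∏ p ^ d p` attached to an exponent vector on the primes -/
noncomputable def primeMonomial (d : Nat.Primes →₀ ℕ) : ℕ := d.prod fun p k => (p : ℕ) ^ k

theorem primeMonomial_ne_zero (d : Nat.Primes →₀ ℕ) : primeMonomial d ≠ 0 := by
  unfold primeMonomial Finsupp.prod
  exact Finset.prod_ne_zero_iff.mpr fun p _ => pow_ne_zero _ p.2.ne_zero

theorem primeMonomial_injective : Function.Injective primeMonomial := by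
  intro d d' h
  have hinj : Function.Injective (fun p : Nat.Primes => (p : ℕ)) := Nat.Primes.coe_nat_injective
  have key : ∀ e : Nat.Primes →₀ ℕ,
      (primeMonomial e).factorization = Finsupp.mapDomain (fun p : Nat.Primes => (p : ℕ)) e := by
    intro e
    have h1 : primeMonomial e =
        (Finsupp.mapDomain (fun p : Nat.Primes => (p : ℕ)) e).prod (· ^ ·) := by
      unfold primeMonomial
      rw [Finsupp.prod_mapDomain_index_inj hinj]
    rw [h1]
    apply Nat.prod_pow_factorization_eq_self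
    intro p hp
    have := Finsupp.mapDomain_support hp
    simp only [Finset.mem_image] at this
    obtain ⟨q, -, rfl⟩ := this
    exact q.2
  have h2 := key d
  rw [h, key d'] at h2
  exact (Finsupp.mapDomain_injective hinj h2).symm

/-- the character `s ↦ ∏ (p ^ (-s)) ^ d p` of the additive group of `ℂ` -/
noncomputable def primeChar (d : Nat.Primes →₀ ℕ) : Multiplicative ℂ →* ℂ where
  toFun s := ∏ i ∈ d.support, (((i : ℕ) : ℂ) ^ (-(Multiplicative.toAdd s))) ^ d i
  map_one' := by simp
  map_mul' s t := by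
    rw [← Finset.prod_mul_distrib]
    refine Finset.prod_congr rfl fun i _ => ?_
    have hi : ((i : ℕ) : ℂ) ≠ 0 := Nat.cast_ne_zero.mpr i.2.ne_zero
    rw [← mul_pow, toAdd_mul, neg_add, cpow_add _ _ hi]

theorem primeChar_apply (d : Nat.Primes →₀ ℕ) (s : ℂ) :
    primeChar d (Multiplicative.ofAdd s) = ∏ i ∈ d.support, (((i : ℕ) : ℂ) ^ (-s)) ^ d i := rfl

theorem primeChar_injective : Function.Injective primeChar := by
  intro d d' h
  apply primeMonomial_injective
  have h1 := congrArg (fun χ : Multiplicative ℂ →* ℂ => χ (Multiplicative.ofAdd (-1))) h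
  simp only [primeChar_apply, neg_neg, cpow_one] at h1
  have h2 : ∀ e : Nat.Primes →₀ ℕ,
      (∏ i ∈ e.support, (((i : ℕ) : ℂ)) ^ e i) = ((primeMonomial e : ℕ) : ℂ) := by
    intro e
    unfold primeMonomial Finsupp.prod
    push_cast
    rfl
  rw [h2, h2] at h1
  exact_mod_cast h1

/-- **Independence**: a polynomial in the functions `p ^ (-s)` which vanishes identically
is zero. -/
theorem mvPolynomial_eq_zero_of_eval_primes (G : MvPolynomial Nat.Primes ℂ)
    (h : ∀ s : ℂ, MvPolynomial.eval (fun p : Nat.Primes => ((p : ℕ) : ℂ) ^ (-s)) G = 0) :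
    G = 0 := by
  have hli : LinearIndependent ℂ
      ((fun f : Multiplicative ℂ →* ℂ => (f : Multiplicative ℂ → ℂ)) ∘ primeChar) :=
    (linearIndependent_monoidHom (Multiplicative ℂ) ℂ).comp primeChar primeChar_injective
  have hsum : ∑ d ∈ G.support, G.coeff d •
      ((fun f : Multiplicative ℂ →* ℂ => (f : Multiplicative ℂ → ℂ)) ∘ primeChar) d = 0 := by
    funext s
    have := h (Multiplicative.toAdd s)
    rw [MvPolynomial.eval_eq] at this
    simp only [Finset.sum_apply, Pi.smul_apply, Function.comp_apply, smul_eq_mul, Pi.zero_apply]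
    exact this
  have hzero := linearIndependent_iff'.mp hli G.support (fun d => G.coeff d) hsum
  by_contra hG
  obtain ⟨d, hd⟩ := MvPolynomial.support_nonempty.mpr hG |>.exists_mem
    |> fun ⟨d, hd⟩ => (⟨d, hd⟩ : ∃ d, d ∈ G.support)
  exact (MvPolynomial.mem_support_iff.mp hd) (hzero d hd)

/-- a nonzero complex polynomial has a non-root; two of them have a common non-root -/
theorem exists_eval_ne_zero_both {P Q : ℂ[X]} (hP : P ≠ 0) (hQ : Q ≠ 0) :
    ∃ x : ℂ, P.eval x ≠ 0 ∧ Q.eval x ≠ 0 := by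
  have hPQ : P * Q ≠ 0 := mul_ne_zero hP hQ
  by_contra hcon
  push Not at hcon
  apply hPQ
  apply Polynomial.eq_zero_of_infinite_isRoot
  have : {x : ℂ | (P * Q).IsRoot x} = Set.univ := by
    ext x
    simp only [Set.mem_univ, iff_true, Polynomial.IsRoot, Polynomial.eval_mul]
    by_cases h : P.eval x = 0
    · simp [h]
    · simp [hcon x h]
  rw [this]
  exact Set.infinite_univ

/-- **X7 IndepLocal.** -/
theorem indepLocal : Fermat.Agent.Lib.Newform.H958.X.IndepLocal := by
  classical
  intro T hT A B hA hB hid q hq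
  -- the two polynomials in the variables `X_p`
  let v : {p // p ∈ T} → Nat.Primes := fun p => ⟨p.1, hT p.1 p.2⟩
  let FA : MvPolynomial Nat.Primes ℂ :=
    ∏ p ∈ T.attach, Polynomial.aeval (MvPolynomial.X (v p) : MvPolynomial Nat.Primes ℂ) (A p.1)
  let FB : MvPolynomial Nat.Primes ℂ :=
    ∏ p ∈ T.attach, Polynomial.aeval (MvPolynomial.X (v p) : MvPolynomial Nat.Primes ℂ) (B p.1)
  have hev : ∀ (P : ℕ → ℂ[X]) (x : Nat.Primes → ℂ),
      MvPolynomial.eval x (∏ p ∈ T.attach,
        Polynomial.aeval (MvPolynomial.X (v p) : MvPolynomial Nat.Primes ℂ) (P p.1))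
        = ∏ p ∈ T.attach, (P p.1).eval (x (v p)) := by
    intro P x
    rw [map_prod]
    refine Finset.prod_congr rfl fun p _ => ?_
    have := Polynomial.aeval_algHom_apply (MvPolynomial.aeval x : MvPolynomial Nat.Primes ℂ →ₐ[ℂ] ℂ)
      (MvPolynomial.X (v p)) (P p.1)
    rw [MvPolynomial.aeval_X] at this
    rw [← MvPolynomial.coe_aeval_eq_eval]
    simpa [Polynomial.aeval_def, Polynomial.eval₂_eq_eval_map] using this.symm
  have heq : FA = FB := by
    refine sub_eq_zero.mp (mvPolynomial_eq_zero_of_eval_primes (FA - FB) fun s => ?_)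
    rw [map_sub, hev A, hev B, sub_eq_zero]
    have h1 := hid s
    rw [← Finset.prod_attach T, ← Finset.prod_attach T (fun p => (B p).eval ((p : ℂ) ^ (-s)))]
      at h1
    exact h1
  -- good evaluation points
  have hex : ∀ p : ℕ, ∃ x : ℂ, p ∈ T → ((A p).eval x ≠ 0 ∧ (B p).eval x ≠ 0) := by
    intro p
    by_cases hp : p ∈ T
    · obtain ⟨x, hx⟩ := exists_eval_ne_zero_both (hA p hp) (hB p hp)
      exact ⟨x, fun _ => hx⟩
    · exact ⟨0, fun h => absurd h hp⟩
  choose x hx using hex
  -- specialise all variables except `X_q`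
  let φ : MvPolynomial Nat.Primes ℂ →ₐ[ℂ] ℂ[X] :=
    MvPolynomial.aeval (fun p : Nat.Primes => if (p : ℕ) = q then (X : ℂ[X]) else C (x p))
  have hφ : ∀ (P : ℕ → ℂ[X]),
      φ (∏ p ∈ T.attach,
        Polynomial.aeval (MvPolynomial.X (v p) : MvPolynomial Nat.Primes ℂ) (P p.1))
        = P q * C (∏ p ∈ T.erase q, (P p).eval (x p)) := by
    intro P
    rw [map_prod]
    have h1 : ∀ p : {p // p ∈ T},
        φ (Polynomial.aeval (MvPolynomial.X (v p) : MvPolynomial Nat.Primes ℂ) (P p.1))
          = (fun p : ℕ => if p = q then P p else C ((P p).eval (x p))) p.1 := by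
      intro p
      rw [← Polynomial.aeval_algHom_apply, MvPolynomial.aeval_X]
      by_cases hpq : p.1 = q
      · have : ((v p : Nat.Primes) : ℕ) = q := hpq
        simp only [this, if_true, hpq]
        exact Polynomial.aeval_X_left_apply _
      · have : ¬ ((v p : Nat.Primes) : ℕ) = q := hpq
        simp only [this, if_false, hpq]
        rw [Polynomial.C_eq_algebraMap, Polynomial.aeval_algebraMap_apply_eq_algebraMap_eval]
        rfl
    rw [Finset.prod_congr rfl (fun p _ => h1 p),
      Finset.prod_attach T (fun p : ℕ => if p = q then P p else C ((P p).eval (x p))),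
      ← Finset.mul_prod_erase T _ hq, if_pos rfl, map_prod]
    congr 1
    refine Finset.prod_congr rfl fun p hp => ?_
    rw [if_neg (Finset.ne_of_mem_erase hp)]
  have hAB : A q * C (∏ p ∈ T.erase q, (A p).eval (x p))
      = B q * C (∏ p ∈ T.erase q, (B p).eval (x p)) := by
    rw [← hφ A, ← hφ B]
    exact congrArg φ heq
  set α : ℂ := ∏ p ∈ T.erase q, (A p).eval (x p) with hα
  set β : ℂ := ∏ p ∈ T.erase q, (B p).eval (x p) with hβ
  have hα0 : α ≠ 0 := Finset.prod_ne_zero_iff.mpr fun p hp =>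
    (hx p (Finset.mem_of_mem_erase hp)).1
  have hβ0 : β ≠ 0 := Finset.prod_ne_zero_iff.mpr fun p hp =>
    (hx p (Finset.mem_of_mem_erase hp)).2
  refine ⟨β * α⁻¹, mul_ne_zero hβ0 (inv_ne_zero hα0), ?_⟩
  calc A q = A q * C α * C α⁻¹ := by
        rw [mul_assoc, ← C_mul, mul_inv_cancel₀ hα0, C_1, mul_one]
    _ = B q * C β * C α⁻¹ := by rw [hAB]
    _ = C (β * α⁻¹) * B q := by rw [C_mul]; ring

end Fermat.Agent.Lib.Newform.H683

end
-- ===== PACK-END Lib/Newform/H683/XIndep.lean

-- ===== PACK-BEGIN Lib/Newform/H958/MainOf.lean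
section




/-!
# Shared library NEWFORM — assembly

Everything in this file is proved from the leaf interfaces of `Spec.lean`
(hypothesis-parametrised, no `sorry`).
-/

set_option autoImplicit false

open CongruenceSubgroup UpperHalfPlane
open scoped MatrixGroups

namespace Fermat.Agent.Lib.Newform.H958

open CuspForm ModularFormClass

/-! ## Descent to a newform (no interface needed) -/

theorem descent : Descent := by
  intro N
  induction N using Nat.strong_induction_on with
  | _ N ih =>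
    intro _ f hf
    by_cases hnew : f.IsNewform
    · exact ⟨N, dvd_rfl, f, hnew, fun _ _ _ => rfl⟩
    · have hex : ∃ M, M ∣ N ∧ M ≠ N ∧ GoodEigensystemOccursAt f M := by
        by_contra h
        exact hnew ⟨hf, fun M hM hMN hocc => h ⟨M, hM, hMN, hocc⟩⟩
      obtain ⟨M, hMN, hne, g, hg, hgf⟩ := hex
      have hN : N ≠ 0 := NeZero.ne N
      have hM0 : M ≠ 0 := fun h => by subst h; exact hN (zero_dvd_iff.mp hMN)
      have hlt : M < N := lt_of_le_of_ne (Nat.le_of_dvd (Nat.pos_of_ne_zero hN) hMN) hne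
      haveI : NeZero M := ⟨hM0⟩
      obtain ⟨M', hM', g', hg', hgg'⟩ := ih M hlt g hg
      refine ⟨M', hM'.trans hMN, g', hg', fun ℓ hℓ hℓN => ?_⟩
      rw [hgg' ℓ hℓ (fun h => hℓN (h.trans hMN)), hgf ℓ hℓ hℓN]

/-! ## Helpers -/

/-- A cusp form with the same underlying function as a normalized eigenform, at a level with
the same "bad/good" dichotomy, is a normalized eigenform. -/
theorem isNormalizedEigenform_of_coe_eq {N N' : ℕ} {f : CuspForm (Gamma0 N) 2}
    {f' : CuspForm (Gamma0 N') 2} (hf : f.IsNormalizedEigenform)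
    (hcoe : (⇑f' : ℍ → ℂ) = ⇑f) (hdvd : ∀ p : ℕ, p.Prime → (p ∣ N' ↔ p ∣ N)) :
    f'.IsNormalizedEigenform where
  qCoeff_one := by rw [hcoe]; exact hf.qCoeff_one
  qCoeff_mul_of_coprime := by rw [hcoe]; exact hf.qCoeff_mul_of_coprime
  qCoeff_prime_pow_of_not_dvd := by
    rw [hcoe]
    intro p r hp hpN
    exact hf.qCoeff_prime_pow_of_not_dvd p r hp (fun h => hpN ((hdvd p hp).mpr h))
  qCoeff_prime_pow_of_dvd := by
    rw [hcoe]
    intro p r hp hpN
    exact hf.qCoeff_prime_pow_of_dvd p r hp ((hdvd p hp).mp hpN)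

theorem coe_ne_zero_of_isNormalizedEigenform {N : ℕ} {f : CuspForm (Gamma0 N) 2}
    (hf : f.IsNormalizedEigenform) : (⇑f : ℍ → ℂ) ≠ 0 := by
  intro h
  apply hf.ne_zero
  exact DFunLike.coe_injective h

/-! ## Stabilisation -/

theorem stab_of (hE : EigenT) (hI : Incl) (hO : Occurs) : Stab := by
  intro M C _ hMC g hg
  obtain ⟨h, hh⟩ := hI M C hMC g
  have hh0 : h ≠ 0 := by
    intro h0
    apply coe_ne_zero_of_isNormalizedEigenform hg
    rw [← hh, h0]
    rfl
  obtain ⟨g', hg', hcoef⟩ := hO C h hh0 Set.univ (fun ℓ => qCoeff g ℓ) (by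
    intro ℓ hℓ hℓC _
    have hℓM : ¬ ℓ ∣ M := fun h => hℓC (h.trans hMC)
    apply DFunLike.coe_injective
    have key := congrArg (fun F : CuspForm (Gamma0 M) 2 => (⇑F : ℍ → ℂ)) (hE M g hg ℓ hℓ hℓM)
    simp only [CuspForm.coe_heckeTLin_apply] at key
    rw [CuspForm.coe_heckeTLin_apply, hh, key]
    ext τ
    simp [hh])
  exact ⟨g', hg', fun ℓ hℓ hℓC => hcoef ℓ hℓ hℓC trivial⟩

/-! ## Coefficients at bad primes -/

/-- Case `q² ∣ N`. -/
theorem qCoeff_eq_zero_of (hEU : EigenU) (hL : LowerU)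
    {N : ℕ} [NeZero N] {f : CuspForm (Gamma0 N) 2} {q : ℕ} (hq : q.Prime)
    (hf : f.IsNewformAt q) (hq2 : q ^ 2 ∣ N) : qCoeff f q = 0 := by
  obtain ⟨hfe, hqN, hnocc⟩ := hf
  by_contra ha
  apply hnocc
  obtain ⟨g, hg⟩ := hL N q hq hq2 f
  have hU := congrArg (fun F : CuspForm (Gamma0 N) 2 => (⇑F : ℍ → ℂ)) (hEU N f hfe q hq hqN)
  simp only [CuspForm.coe_heckeULin_apply] at hU
  -- `g = a_q • f` as functions
  have hgf : (⇑((qCoeff f q)⁻¹ • g) : ℍ → ℂ) = ⇑f := by
    ext τ
    have h1 : (g : ℍ → ℂ) τ = (qCoeff f q • f : CuspForm (Gamma0 N) 2) τ := by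
      rw [hg, hU]
    simp only [CuspForm.IsGLPos.coe_smul, Pi.smul_apply, smul_eq_mul] at h1 ⊢
    rw [h1, ← mul_assoc, inv_mul_cancel₀ ha, one_mul]
  have hdvd : ∀ p : ℕ, p.Prime → (p ∣ N / q ↔ p ∣ N) := by
    intro p hp
    constructor
    · intro h
      exact h.trans (Nat.div_dvd_of_dvd hqN)
    · intro h
      obtain ⟨c, hc⟩ := hq2
      have hNq : N / q = q * c := by
        rw [hc, pow_two, mul_assoc, Nat.mul_div_cancel_left _ hq.pos]
      rw [hNq]
      rw [hc, pow_two, mul_assoc] at h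
      rcases (Nat.Prime.dvd_mul hp).mp h with h1 | h1
      · exact h1.trans (dvd_mul_right q c)
      · exact h1
  exact ⟨(qCoeff f q)⁻¹ • g, isNormalizedEigenform_of_coe_eq hfe hgf hdvd,
    fun ℓ _ _ => by rw [hgf]⟩

/-- Both traces of a form in the eigenspace of a form that is new at `q ∥ N` vanish:
this is the form in which newness is used. -/
theorem eq_zero_of_level_div (hO : Occurs)
    {N : ℕ} [NeZero N] {f : CuspForm (Gamma0 N) 2} {q : ℕ} (hq : q.Prime)
    (hf : f.IsNewformAt q) (G : CuspForm (Gamma0 (N / q)) 2)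
    (hG : ∀ ℓ : ℕ, ℓ.Prime → ¬ ℓ ∣ N →
      ModularForm.heckeT 2 ℓ (⇑G : ℍ → ℂ) = qCoeff f ℓ • (⇑G : ℍ → ℂ)) : G = 0 := by
  obtain ⟨hfe, hqN, hnocc⟩ := hf
  by_contra hG0
  apply hnocc
  have hN : N ≠ 0 := NeZero.ne N
  have hM0 : N / q ≠ 0 := by
    intro h
    have := Nat.div_mul_cancel hqN
    rw [h, zero_mul] at this
    exact hN this.symm
  haveI : NeZero (N / q) := ⟨hM0⟩
  obtain ⟨g, hg, hcoef⟩ := hO (N / q) G hG0 {ℓ | ¬ ℓ ∣ N} (fun ℓ => qCoeff f ℓ) (by
    intro ℓ hℓ hℓM hℓN
    apply DFunLike.coe_injective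
    rw [CuspForm.coe_heckeTLin_apply, hG ℓ hℓ hℓN]
    rfl)
  exact ⟨g, hg, fun ℓ hℓ hℓN =>
    hcoef ℓ hℓ (fun h => hℓN (h.trans (Nat.div_dvd_of_dvd hqN))) hℓN⟩

/-- Case `q ∥ N`. -/
theorem qCoeff_sq_eq_one_of (hET : EigenT) (hEU : EigenU) (hO : Occurs) (hT : TraceAL)
    {N : ℕ} [NeZero N] {f : CuspForm (Gamma0 N) 2} {q : ℕ} (hq : q.Prime)
    (hf : f.IsNewformAt q) (hq2 : ¬ q ^ 2 ∣ N) : qCoeff f q ^ 2 = 1 := by
  have hfe := hf.1
  have hqN := hf.2.1
  obtain ⟨W, hWT, hTr, hTr'⟩ := hT N q hq hqN hq2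
  have hper := CongruenceSubgroup.one_mem_strictPeriods_Gamma0 N
  -- `T_ℓ f = a_ℓ f` and `T_ℓ (W f) = a_ℓ (W f)` as functions
  have hTf : ∀ ℓ : ℕ, ℓ.Prime → ¬ ℓ ∣ N →
      ModularForm.heckeT 2 ℓ (⇑f : ℍ → ℂ) = qCoeff f ℓ • (⇑f : ℍ → ℂ) := by
    intro ℓ hℓ hℓN
    have := congrArg (fun F : CuspForm (Gamma0 N) 2 => (⇑F : ℍ → ℂ)) (hET N f hfe ℓ hℓ hℓN)
    simpa using this
  have hTWf : ∀ ℓ : ℕ, ℓ.Prime → ¬ ℓ ∣ N →
      ModularForm.heckeT 2 ℓ (⇑(W f) : ℍ → ℂ) = qCoeff f ℓ • (⇑(W f) : ℍ → ℂ) := by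
    intro ℓ hℓ hℓN
    have h1 := hWT ℓ hℓ hℓN f
    rw [hET N f hfe ℓ hℓ hℓN, map_smul] at h1
    have := congrArg (fun F : CuspForm (Gamma0 N) 2 => (⇑F : ℍ → ℂ)) h1
    simpa using this.symm
  have hcop : ∀ ℓ : ℕ, ℓ.Prime → ¬ ℓ ∣ N → Nat.Coprime ℓ q := by
    intro ℓ hℓ hℓN
    rw [Nat.coprime_primes hℓ hq]
    rintro rfl
    exact hℓN hqN
  -- the two traces
  obtain ⟨G, hG⟩ := hTr f
  obtain ⟨G', hG'⟩ := hTr' f
  have hG0 : G = 0 := by
    apply eq_zero_of_level_div hO hq hf G
    intro ℓ hℓ hℓN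
    rw [hG, ModularForm.heckeT_add,
      ModularFormClass.heckeT_heckeU_comm (W f) hper (hcop ℓ hℓ hℓN), hTf ℓ hℓ hℓN,
      hTWf ℓ hℓ hℓN, ModularForm.heckeU_smul, smul_add]
  have hG'0 : G' = 0 := by
    apply eq_zero_of_level_div hO hq hf G'
    intro ℓ hℓ hℓN
    rw [hG', ModularForm.heckeT_add,
      ModularFormClass.heckeT_heckeU_comm f hper (hcop ℓ hℓ hℓN), hTf ℓ hℓ hℓN,
      hTWf ℓ hℓ hℓN, ModularForm.heckeU_smul, smul_add]
  have hUf : ModularForm.heckeU 2 q (⇑f : ℍ → ℂ) = qCoeff f q • (⇑f : ℍ → ℂ) := by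
    have := congrArg (fun F : CuspForm (Gamma0 N) 2 => (⇑F : ℍ → ℂ)) (hEU N f hfe q hq hqN)
    simpa using this
  -- `W f = - a_q f`
  have hWf : (⇑(W f) : ℍ → ℂ) = -(qCoeff f q • (⇑f : ℍ → ℂ)) := by
    have h0 : (⇑G' : ℍ → ℂ) = 0 := by rw [hG'0]; rfl
    rw [hG', hUf] at h0
    exact eq_neg_of_add_eq_zero_left h0
  -- `f - a_q² f = 0`
  have h0 : (⇑G : ℍ → ℂ) = 0 := by rw [hG0]; rfl
  rw [hG, hWf, ModularForm.heckeU_neg, ModularForm.heckeU_smul, hUf] at h0
  have hfne := coe_ne_zero_of_isNormalizedEigenform hfe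
  have h1 : (1 - qCoeff f q ^ 2) • (⇑f : ℍ → ℂ) = 0 := by
    rw [sub_smul, one_smul, pow_two, mul_smul]
    rw [← sub_eq_add_neg] at h0
    exact h0
  rcases smul_eq_zero.mp h1 with h | h
  · exact (sub_eq_zero.mp h).symm
  · exact absurd h hfne

theorem badCoeffAt_of (hET : EigenT) (hEU : EigenU) (hO : Occurs) (hL : LowerU)
    (hT : TraceAL) : BadCoeffAt :=
  fun _ _ _ _ hq hf =>
    ⟨fun hq2 => qCoeff_sq_eq_one_of hET hEU hO hT hq hf hq2,
     fun hq2 => qCoeff_eq_zero_of hEU hL hq hf hq2⟩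

theorem badCoeff_of (hB : BadCoeffAt) : BadCoeff :=
  fun N _ f hf q hq hqN => hB N f q hq (hf.isNewformAt hq hqN (NeZero.ne N))

end Fermat.Agent.Lib.Newform.H958

end
-- ===== PACK-END Lib/Newform/H958/MainOf.lean

-- ===== PACK-BEGIN Lib/Newform/H563/SqDvd.lean
section



/-!
# NEWFORM library (helper563): `a_q = 0` for a newform when `q² ∣ N`

Petersson-free: if `q² ∣ N` then `U_q` maps `Γ₀(N)`-invariant functions to `Γ₀(N/q)`-invariant
functions; for a normalised eigenform `U_q f = a_q f`, so `a_q ≠ 0` would make `f` itself a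
normalised eigenform of level `N/q`, contradicting the Prelude definition of `IsNewform`.
-/

set_option autoImplicit false

noncomputable section

namespace Fermat.Agent.Lib.Newform.H563

open UpperHalfPlane ModularForm CongruenceSubgroup ModularFormClass Matrix.SpecialLinearGroup
open scoped MatrixGroups Manifold

open P2MW.S_ModularForm_heckeU_slash_eq_self_of_mem_Gamma0.ModularForm.HeckeSlashInvariance in
/-- If `p ∣ M` then `U_p` maps `Γ₀(pM)`-invariant functions to `Γ₀(M)`-invariant functions. -/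
theorem heckeU_slash_of_dvd {M p : ℕ} [NeZero p] (k : ℤ) (hpM : p ∣ M) {f : ℍ → ℂ}
    (hf : ∀ γ ∈ (Gamma0 (p * M) : Subgroup (GL (Fin 2) ℝ)), f ∣[k] γ = f)
    (γ : GL (Fin 2) ℝ) (hγ : γ ∈ (Gamma0 M : Subgroup (GL (Fin 2) ℝ))) :
    heckeU k p f ∣[k] γ = heckeU k p f := by
  obtain ⟨g, hg, rfl⟩ := Subgroup.mem_map.mp hγ
  have hcM : (M : ℤ) ∣ g 1 0 :=
    (ZMod.intCast_zmod_eq_zero_iff_dvd _ _).mp (CongruenceSubgroup.Gamma0_mem.mp hg)
  have hc : (p : ℤ) ∣ g 1 0 := (Int.natCast_dvd_natCast.mpr hpM).trans hcM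
  rw [heckeU_eq_sum_zmod k f, SlashAction.sum_slash]
  calc ∑ x : ZMod p, (f ∣[k] heckeMatrix p x.val) ∣[k] mapGL ℝ g
      = ∑ x : ZMod p, f ∣[k] heckeMatrix p
          (affinePerm g ((ZMod.intCast_zmod_eq_zero_iff_dvd _ _).mpr hc) x).val := by
        refine Finset.sum_congr rfl fun x _ ↦ ?_
        obtain ⟨g', hg', hmul⟩ := heckeMatrix_mul_of_dvd g hc x
        have hg'N : g' ∈ CongruenceSubgroup.Gamma0 (p * M) := by
          rw [CongruenceSubgroup.Gamma0_mem, hg', ZMod.intCast_zmod_eq_zero_iff_dvd]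
          push_cast
          exact mul_dvd_mul_left _ hcM
        rw [← SlashAction.slash_mul, hmul, SlashAction.slash_mul,
          hf _ (Subgroup.mem_map_of_mem (mapGL ℝ) hg'N)]
    _ = ∑ x : ZMod p, f ∣[k] heckeMatrix p x.val :=
        Equiv.sum_comp (affinePerm g _) (fun x ↦ f ∣[k] heckeMatrix p x.val)

/-- **Atkin–Lehner, bad primes (i).** For a newform (Prelude sense) of level `N` and a prime `q`
with `q² ∣ N`, the `q`-th Fourier coefficient vanishes. -/
theorem qCoeff_eq_zero_of_sq_dvd {N : ℕ} [NeZero N] {f : CuspForm (Gamma0 N) 2}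
    (hf : f.IsNewform) {q : ℕ} (hq : q.Prime) (hq2 : q ^ 2 ∣ N) : qCoeff f q = 0 := by
  by_contra ha
  obtain ⟨M, hM⟩ : q ∣ N := dvd_trans (dvd_pow_self q two_ne_zero) hq2
  have hqM : q ∣ M := by
    rw [hM, pow_two] at hq2
    exact (Nat.mul_dvd_mul_iff_left hq.pos).mp hq2
  have hN0 : N ≠ 0 := NeZero.ne N
  have hM0 : M ≠ 0 := by rintro rfl; exact hN0 (by simpa using hM)
  have : NeZero M := ⟨hM0⟩
  have : NeZero q := ⟨hq.ne_zero⟩
  have hfe := hf.isNormalizedEigenform
  have hU : heckeU 2 q ⇑f = qCoeff f q • ⇑f := heckeU_eq_smul hfe hq (hM ▸ dvd_mul_right q M)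
  have hfN : ∀ γ ∈ (Gamma0 (q * M) : Subgroup (GL (Fin 2) ℝ)), (⇑f) ∣[(2 : ℤ)] γ = ⇑f := by
    intro γ hγ
    rw [← hM] at hγ
    exact SlashInvariantFormClass.slash_action_eq f γ hγ
  have hinv : ∀ γ ∈ (Gamma0 M : Subgroup (GL (Fin 2) ℝ)), (⇑f) ∣[(2 : ℤ)] γ = ⇑f := by
    intro γ hγ
    have h1 := heckeU_slash_of_dvd (2 : ℤ) hqM hfN γ hγ
    rw [hU] at h1
    have h2 : (⇑f : ℍ → ℂ) = (qCoeff f q)⁻¹ • (qCoeff f q • ⇑f) := by
      rw [smul_smul, inv_mul_cancel₀ ha, one_smul]
    rw [h2, ModularForm.smul_slash, h1]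
    congr 1
    obtain ⟨g, -, rfl⟩ := Subgroup.mem_map.mp hγ
    simp [UpperHalfPlane.σ]
  refine hf.2 M ⟨q, by rw [hM]; ring⟩ ?_ ⟨lowerLevel f hinv, ⟨hfe.qCoeff_one, hfe.qCoeff_mul_of_coprime,
    fun p r hp hpM => hfe.qCoeff_prime_pow_of_not_dvd p r hp ?_,
    fun p r hp hpM => hfe.qCoeff_prime_pow_of_dvd p r hp (hM ▸ hpM.mul_left q)⟩, fun _ _ _ => rfl⟩
  · intro h
    rw [hM] at h
    have : q * M = 1 * M := by rw [one_mul]; exact h.symm
    exact hq.ne_one (Nat.eq_of_mul_eq_mul_right (Nat.pos_of_ne_zero hM0) this)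
  · intro hpN
    rw [hM] at hpN
    rcases (Nat.Prime.dvd_mul hp).mp hpN with h | h
    · exact hpM (((Nat.prime_dvd_prime_iff_eq hp hq).mp h) ▸ hqM)
    · exact hpM h

end Fermat.Agent.Lib.Newform.H563

end
end
-- ===== PACK-END Lib/Newform/H563/SqDvd.lean

-- ===== PACK-BEGIN Lib/Newform/H263/EigenBound.lean
section
/-
NEWFORM library (helper263) — part 2: the strict trivial bound for Hecke eigenvalues.

For a nonzero weight-2 cusp form `f` on an arithmetic group and a prime `ℓ`:
`heckeT 2 ℓ f = c • f  ⟹  ‖c‖ < ℓ + 1`, and `heckeU 2 ℓ f = c • f ⟹ ‖c‖ ≤ ℓ`.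
Proof: the invariant height `‖f τ‖ · im τ` attains its maximum (part 1); evaluate the eigen-equation
at a maximum point and iterate `τ ↦ ℓ τ` towards `i∞`.
-/




set_option autoImplicit false

open Filter Topology UpperHalfPlane ModularForm Matrix.SpecialLinearGroup
open scoped Modular MatrixGroups ModularForm

namespace Fermat.Agent.Lib.Newform.H263

/-- The weight-2 invariant height `‖f τ‖ · im τ` of a function on the upper half plane. -/
noncomputable def height (f : ℍ → ℂ) (τ : ℍ) : ℝ := ‖f τ‖ * τ.im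

theorem height_nonneg (f : ℍ → ℂ) (τ : ℍ) : 0 ≤ height f τ :=
  mul_nonneg (norm_nonneg _) τ.im_pos.le

theorem height_sq (f : ℍ → ℂ) (τ : ℍ) : height f τ ^ 2 = ‖petersson 2 f f τ‖ := by
  simp only [height, petersson, norm_mul, Complex.norm_conj, norm_zpow, Complex.norm_real,
    Real.norm_of_nonneg τ.im_pos.le]
  norm_cast
  ring

theorem height_eq_sqrt (f : ℍ → ℂ) (τ : ℍ) : height f τ = Real.sqrt ‖petersson 2 f f τ‖ := by
  rw [← height_sq, Real.sqrt_sq (height_nonneg f τ)]

theorem height_pos_iff (f : ℍ → ℂ) (τ : ℍ) : 0 < height f τ ↔ f τ ≠ 0 := by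
  rw [height, mul_pos_iff_of_pos_right τ.im_pos, norm_pos_iff]

theorem height_smul (c : ℂ) (f : ℍ → ℂ) (τ : ℍ) : height (c • f) τ = ‖c‖ * height f τ := by
  simp [height, mul_assoc]

section cusp

variable (Γ : Subgroup (GL (Fin 2) ℝ)) [Γ.IsArithmetic] {F : Type*} [FunLike F ℍ ℂ]
  [CuspFormClass F Γ 2]

include Γ

theorem height_smul_of_mem (f : F) {g : GL (Fin 2) ℝ} (hg : g ∈ Γ) (τ : ℍ) :
    height f (g • τ) = height f τ := by
  rw [height_eq_sqrt, height_eq_sqrt, SlashInvariantFormClass.norm_petersson_smul hg]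

omit [Γ.IsArithmetic] in
theorem continuous_height (f : F) : Continuous (height (⇑f)) := by
  have hf : Continuous (⇑f) := ModularFormClass.continuous (Γ := Γ) (k := 2) f
  unfold height
  fun_prop

open ConjAct Pointwise in
theorem tendsto_height_smul (f : F) (g : SL(2, ℤ)) :
    Tendsto (fun τ ↦ height f (g • τ)) atImInfty (𝓝 0) := by
  have h1 : IsZeroAtImInfty (fun τ ↦ petersson 2 f f (g • τ)) := by
    simp_rw [← UpperHalfPlane.petersson_slash_SL]
    have : ((toConjAct (g : GL (Fin 2) ℝ)⁻¹) • Γ).IsArithmetic := by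
      simpa [(show Rat.castHom ℝ = algebraMap ℚ ℝ by rfl), map_inv, map_mapGL]
        using! Subgroup.IsArithmetic.conj Γ (mapGL ℚ g)⁻¹
    exact (CuspFormClass.zero_at_infty <| CuspForm.translate f g).petersson_isZeroAtImInfty_left 2 _
      (ModularForm.translate f g)
  have h2 : Tendsto (fun τ ↦ ‖petersson 2 f f (g • τ)‖) atImInfty (𝓝 0) := by
    rw [IsZeroAtImInfty, ZeroAtFilter] at h1
    simpa using h1.norm
  have h3 := (Real.continuous_sqrt.tendsto 0).comp h2
  simp only [Real.sqrt_zero] at h3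
  refine h3.congr fun τ ↦ ?_
  simp [height_eq_sqrt]

theorem tendsto_height (f : F) : Tendsto (height (⇑f)) atImInfty (𝓝 0) := by
  simpa using tendsto_height_smul Γ f 1

/-- The invariant height of a weight-2 cusp form attains its maximum. -/
theorem exists_max_height (f : F) : ∃ τ₀, ∀ τ, height f τ ≤ height f τ₀ :=
  exists_max_of_subgroup_invariant (continuous_height Γ f) (height_nonneg _)
    (tendsto_height_smul Γ f) (Γ := Γ) (fun _ hg τ ↦ height_smul_of_mem Γ f hg τ)

end cusp

/-! ### The Hecke inequality -/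

theorem im_heckeMatrix_smul {p : ℕ} (hp : p ≠ 0) (j : ℕ) (τ : ℍ) :
    (heckeMatrix p j • τ).im = τ.im / p := by
  have h := congrArg Complex.im (coe_heckeMatrix_smul hp j τ)
  rw [UpperHalfPlane.coe_im] at h
  rw [h, Complex.div_natCast_im, Complex.add_im, Complex.natCast_im, add_zero,
    UpperHalfPlane.coe_im]

theorem im_heckeDiagMatrix_smul {p : ℕ} (hp : p ≠ 0) (τ : ℍ) :
    (heckeDiagMatrix p • τ).im = p * τ.im := by
  have h := congrArg Complex.im (coe_heckeDiagMatrix_smul hp τ)
  rw [UpperHalfPlane.coe_im] at h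
  rw [h, Complex.mul_im, Complex.natCast_re, Complex.natCast_im, zero_mul, add_zero,
    UpperHalfPlane.coe_im]

theorem height_heckeU_le (f : ℍ → ℂ) {p : ℕ} (hp : p ≠ 0) (τ : ℍ) :
    height (heckeU 2 p f) τ ≤ ∑ j ∈ Finset.range p, height f (heckeMatrix p j • τ) := by
  have hp' : (0 : ℝ) < p := by exact_mod_cast Nat.pos_of_ne_zero hp
  rw [height, heckeU_apply 2 hp, norm_mul, norm_inv, Complex.norm_natCast]
  calc (p : ℝ)⁻¹ * ‖∑ j ∈ Finset.range p, f (heckeMatrix p j • τ)‖ * τ.im
      ≤ (p : ℝ)⁻¹ * (∑ j ∈ Finset.range p, ‖f (heckeMatrix p j • τ)‖) * τ.im := by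
        gcongr
        exact norm_sum_le _ _
    _ = ∑ j ∈ Finset.range p, height f (heckeMatrix p j • τ) := by
        rw [Finset.mul_sum, Finset.sum_mul]
        refine Finset.sum_congr rfl fun j _ ↦ ?_
        rw [height, im_heckeMatrix_smul hp]
        field_simp

theorem height_heckeT_le (f : ℍ → ℂ) {p : ℕ} (hp : p ≠ 0) (τ : ℍ) :
    height (heckeT 2 p f) τ ≤
      ∑ j ∈ Finset.range p, height f (heckeMatrix p j • τ) + height f (heckeDiagMatrix p • τ) := by
  have h1 : height (heckeT 2 p f) τ ≤ height (heckeU 2 p f) τ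
      + height (f ∣[(2 : ℤ)] heckeDiagMatrix p) τ := by
    rw [heckeT_eq_heckeU_add]
    simp only [height, Pi.add_apply, ← add_mul]
    gcongr
    exact norm_add_le _ _
  have h2 : height (f ∣[(2 : ℤ)] heckeDiagMatrix p) τ = height f (heckeDiagMatrix p • τ) := by
    rw [height, height, slash_heckeDiagMatrix_apply 2 hp, im_heckeDiagMatrix_smul hp, norm_mul]
    simp
    ring
  rw [h2] at h1
  exact h1.trans (by gcongr; exact height_heckeU_le f hp τ)

/-! ### The strict trivial bound -/

section bound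

variable (Γ : Subgroup (GL (Fin 2) ℝ)) [Γ.IsArithmetic] {F : Type*} [FunLike F ℍ ℂ]
  [CuspFormClass F Γ 2]

include Γ

/-- **Strict trivial bound.** If a nonzero weight-2 cusp form `f` satisfies `T_p f = c f`
(function-level Prelude operator `heckeT 2 p`, any `p ≥ 2`), then `‖c‖ < p + 1`. -/
theorem norm_lt_of_heckeT_eq (f : F) (hf : (⇑f : ℍ → ℂ) ≠ 0) {p : ℕ} (hp : 2 ≤ p) {c : ℂ}
    (h : heckeT 2 p ⇑f = c • ⇑f) : ‖c‖ < p + 1 := by
  obtain ⟨τ₀, hmax⟩ := exists_max_height Γ f
  set m := height f τ₀ with hm_def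
  have hm : 0 < m := by
    obtain ⟨τ, hτ⟩ : ∃ τ, f τ ≠ 0 := by
      by_contra h'
      push Not at h'
      exact hf (funext h')
    exact ((height_pos_iff _ _).mpr hτ).trans_le (hmax τ)
  by_contra hc
  push Not at hc
  have hp0 : p ≠ 0 := by omega
  -- a maximum point `τ` gives the maximum point `p τ`
  have step : ∀ τ, height f τ = m → height f (heckeDiagMatrix p • τ) = m := by
    intro τ hτ
    have h1 := height_heckeT_le f hp0 τ
    rw [h, height_smul, hτ] at h1
    have h2 : ∑ j ∈ Finset.range p, height f (heckeMatrix p j • τ) ≤ p * m := by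
      calc ∑ j ∈ Finset.range p, height f (heckeMatrix p j • τ)
          ≤ ∑ _j ∈ Finset.range p, m := Finset.sum_le_sum fun j _ ↦ hmax _
        _ = p * m := by simp
    have h3 : ((p : ℝ) + 1) * m ≤ ‖c‖ * m := by gcongr
    exact le_antisymm (hmax _) (by nlinarith)
  have iter : ∀ r : ℕ, ∃ τ : ℍ, height f τ = m ∧ τ.im = (p : ℝ) ^ r * τ₀.im := by
    intro r
    induction r with
    | zero => exact ⟨τ₀, rfl, by simp⟩
    | succ r ih =>
      obtain ⟨τ, h1, h2⟩ := ih
      exact ⟨heckeDiagMatrix p • τ, step τ h1, by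
        rw [im_heckeDiagMatrix_smul hp0, h2]; ring⟩
  obtain ⟨Y, hY⟩ := (atImInfty_mem _).mp ((tendsto_height Γ f).eventually (gt_mem_nhds hm))
  obtain ⟨r, hr⟩ : ∃ r : ℕ, Y ≤ (p : ℝ) ^ r * τ₀.im := by
    have hp1 : (1 : ℝ) < p := by exact_mod_cast hp
    have : Tendsto (fun r : ℕ ↦ (p : ℝ) ^ r * τ₀.im) atTop atTop :=
      (tendsto_pow_atTop_atTop_of_one_lt hp1).atTop_mul_const τ₀.im_pos
    exact (this.eventually_ge_atTop Y).exists
  obtain ⟨τ, h1, h2⟩ := iter r
  have h4 := hY τ (h2 ▸ hr)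
  exact absurd h1 (ne_of_lt h4)

/-- **Trivial bound for `U_p`.** If a nonzero weight-2 cusp form `f` satisfies `U_p f = c f`
(function-level Prelude operator `heckeU 2 p`, `p ≠ 0`), then `‖c‖ ≤ p`. -/
theorem norm_le_of_heckeU_eq (f : F) (hf : (⇑f : ℍ → ℂ) ≠ 0) {p : ℕ} (hp : p ≠ 0) {c : ℂ}
    (h : heckeU 2 p ⇑f = c • ⇑f) : ‖c‖ ≤ p := by
  obtain ⟨τ₀, hmax⟩ := exists_max_height Γ f
  set m := height f τ₀ with hm_def
  have hm : 0 < m := by
    obtain ⟨τ, hτ⟩ : ∃ τ, f τ ≠ 0 := by
      by_contra h'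
      push Not at h'
      exact hf (funext h')
    exact ((height_pos_iff _ _).mpr hτ).trans_le (hmax τ)
  have h1 := height_heckeU_le f hp τ₀
  rw [h, height_smul] at h1
  have h2 : ∑ j ∈ Finset.range p, height f (heckeMatrix p j • τ₀) ≤ p * m := by
    calc ∑ j ∈ Finset.range p, height f (heckeMatrix p j • τ₀)
        ≤ ∑ _j ∈ Finset.range p, m := Finset.sum_le_sum fun j _ ↦ hmax _
      _ = p * m := by simp
  exact le_of_mul_le_mul_right (h1.trans h2) hm

end bound

/-! ### Level `Γ₀(N)`: the Prelude's bundled operators -/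

section Gamma0

open CongruenceSubgroup

variable {N : ℕ}

theorem cuspForm_coe_ne_zero {k : ℤ} {f : CuspForm (Gamma0 N) k} (hf : f ≠ 0) :
    (⇑f : ℍ → ℂ) ≠ 0 := fun h ↦ hf (DFunLike.coe_injective (by rw [h]; rfl))

/-- **Strict trivial bound**, bundled form: an eigenvalue `c` of `T_ℓ` (`ℓ ∤ N` prime) on
`S₂(Γ₀(N))` satisfies `‖c‖ < ℓ + 1`. -/
theorem norm_lt_of_heckeTLin_eq {f : CuspForm (Gamma0 N) 2} (hf : f ≠ 0) {ℓ : ℕ} (hℓ : ℓ.Prime)
    (hℓN : ¬ ℓ ∣ N) {c : ℂ} (h : CuspForm.heckeTLin 2 hℓ hℓN f = c • f) : ‖c‖ < ℓ + 1 := by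
  have : NeZero N := ⟨fun h0 ↦ hℓN (h0 ▸ dvd_zero ℓ)⟩
  refine norm_lt_of_heckeT_eq (Gamma0 N : Subgroup (GL (Fin 2) ℝ)) f (cuspForm_coe_ne_zero hf)
    hℓ.two_le ?_
  have := congrArg (fun g : CuspForm (Gamma0 N) 2 ↦ (⇑g : ℍ → ℂ)) h
  simpa using this

/-- **Trivial bound for `U_q`**, bundled form: an eigenvalue `c` of `U_q` (`q ∣ N`) on
`S₂(Γ₀(N))` satisfies `‖c‖ ≤ q`. -/
theorem norm_le_of_heckeULin_eq [NeZero N] {f : CuspForm (Gamma0 N) 2} (hf : f ≠ 0) {q : ℕ}
    (hq : q ≠ 0) (hqN : q ∣ N) {c : ℂ} (h : CuspForm.heckeULin 2 hqN f = c • f) : ‖c‖ ≤ q := by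
  refine norm_le_of_heckeU_eq (Gamma0 N : Subgroup (GL (Fin 2) ℝ)) f (cuspForm_coe_ne_zero hf)
    hq ?_
  have := congrArg (fun g : CuspForm (Gamma0 N) 2 ↦ (⇑g : ℍ → ℂ)) h
  simpa using this

/-- An eigenvalue `c` of `T_ℓ` on `S₂(Γ₀(N))` never satisfies `c² = (ℓ + 1)²`. -/
theorem sq_ne_of_heckeTLin_eq {f : CuspForm (Gamma0 N) 2} (hf : f ≠ 0) {ℓ : ℕ} (hℓ : ℓ.Prime)
    (hℓN : ¬ ℓ ∣ N) {c : ℂ} (h : CuspForm.heckeTLin 2 hℓ hℓN f = c • f) :
    c ^ 2 ≠ ((ℓ : ℂ) + 1) ^ 2 := by
  intro hc
  have h1 := norm_lt_of_heckeTLin_eq hf hℓ hℓN h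
  have h2 : ‖c‖ ^ 2 = ((ℓ : ℝ) + 1) ^ 2 := by
    rw [← norm_pow, hc, norm_pow]
    congr 1
    have : ((ℓ : ℂ) + 1) = (((ℓ + 1 : ℕ) : ℝ) : ℂ) := by push_cast; ring
    rw [this, Complex.norm_real, Real.norm_of_nonneg (by positivity)]
    push_cast; ring
  nlinarith [norm_nonneg c]

end Gamma0

end Fermat.Agent.Lib.Newform.H263

end
-- ===== PACK-END Lib/Newform/H263/EigenBound.lean

-- ===== PACK-BEGIN A2/H48/TwoExt.lean
section


/-!
# A2 / piece QEP2, part 2 (helper48): no third extension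

Mathlib-only.  `K` a field with a rank-one valuation ring `O` with uniformiser `ϖ`; `F / K` a finite
extension of degree `n`; `V₁ ≠ V₂` valuation rings of `F` lying over `O`, both with uniformiser
`ϖ` (`e = 1`); families `b` in `V₁`, `c` in `V₂` whose residues are linearly independent over the
residue field of `O`, with `f₁ + f₂ = n` members altogether.  Then

* `TwoExt.exists_basis` : `V₁ ∩ V₂` is a free `O`-module on `n` generators which form a
  `K`-basis of `F`;
* `TwoExt.exists_monic_of_mem` : every `u ∈ V₁ ∩ V₂` is integral over `O`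
  (so `V₁`, `V₂` are the only extensions of `O`: the fundamental inequality is an equality).
-/

set_option autoImplicit false

namespace Fermat.Agent.A2.H48

open Polynomial

section Closed

variable {F : Type*} [Field F]

/-- A valuation ring is integrally closed (elementwise form, for polynomials over the field). -/
theorem mem_of_monic_root (V : ValuationSubring F) {p : F[X]} (hp : p.Monic)
    (hc : ∀ i, p.coeff i ∈ V) {g : F} (hg : p.eval g = 0) : g ∈ V := by
  by_contra hgV
  have hv : 1 < V.valuation g := by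
    rw [← not_le, V.valuation_le_one_iff]; exact hgV
  have hg0 : g ≠ 0 := by rintro rfl; exact hgV (zero_mem _)
  have hvpos : 0 < V.valuation g := lt_trans zero_lt_one hv
  set d := p.natDegree with hd
  have hsum : p.eval g = g ^ d + ∑ i ∈ Finset.range d, p.coeff i * g ^ i := by
    rw [eval_eq_sum_range, Finset.sum_range_succ, ← hd, hp.coeff_natDegree, one_mul, add_comm]
  rw [hsum] at hg
  have h1 : g ^ d = -∑ i ∈ Finset.range d, p.coeff i * g ^ i := eq_neg_of_add_eq_zero_left hg
  have h2 : V.valuation (∑ i ∈ Finset.range d, p.coeff i * g ^ i) < V.valuation g ^ d := by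
    apply Valuation.map_sum_lt
    · exact pow_ne_zero _ hvpos.ne'
    · intro i hi
      rw [Finset.mem_range] at hi
      rw [map_mul, map_pow]
      calc V.valuation (p.coeff i) * V.valuation g ^ i ≤ 1 * V.valuation g ^ i :=
            mul_le_mul_left ((V.valuation_le_one_iff _).2 (hc i)) _
        _ = V.valuation g ^ i := one_mul _
        _ < V.valuation g ^ d := pow_lt_pow_right₀ hv hi
  have h3 : V.valuation (g ^ d) = V.valuation g ^ d := map_pow _ _ _
  rw [h1, Valuation.map_neg] at h3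
  exact absurd h3 h2.ne

end Closed

section Arch

variable {K F : Type*} [Field K] [Field F] [Algebra K F]

/-- A rank-one condition on `O` propagates to every valuation ring of an algebraic extension
which contains `O`. -/
theorem exists_pow_mul_mem {O : ValuationSubring K} {ϖ : K} (hϖ : ϖ ∈ O)
    (harch : ∀ a : K, ∃ k : ℕ, ϖ ^ k * a ∈ O)
    (V : ValuationSubring F) (hOV : ∀ a ∈ O, algebraMap K F a ∈ V)
    {f : F} (hf : IsIntegral K f) : ∃ k : ℕ, (algebraMap K F ϖ) ^ k * f ∈ V := by
  classical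
  set μ := minpoly K f with hμ
  have hmonic : μ.Monic := minpoly.monic hf
  choose kk hkk using fun i : ℕ => harch (μ.coeff i)
  set k := (∑ i ∈ Finset.range (μ.natDegree + 1), kk i) + 1 with hk
  have hk1 : ∀ i ∈ Finset.range (μ.natDegree + 1), ϖ ^ k * μ.coeff i ∈ O := by
    intro i hi
    have hle : kk i ≤ k := by
      have := Finset.single_le_sum (f := kk) (fun j _ => Nat.zero_le _) hi
      omega
    obtain ⟨r, hr⟩ := Nat.exists_eq_add_of_le hle
    rw [hr, pow_add, mul_comm (ϖ ^ kk i), mul_assoc]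
    exact mul_mem (pow_mem hϖ _) (hkk i)
  refine ⟨k, ?_⟩
  set p := μ.scaleRoots (ϖ ^ k) with hp
  have hpm : p.Monic := (monic_scaleRoots_iff _).2 hmonic
  have hroot : aeval (algebraMap K F (ϖ ^ k) * f) p = 0 :=
    scaleRoots_aeval_eq_zero (minpoly.aeval K f)
  have hcoef : ∀ i, p.coeff i ∈ O := by
    intro i
    rw [hp, coeff_scaleRoots]
    rcases lt_trichotomy i μ.natDegree with h | h | h
    · obtain ⟨r, hr⟩ := Nat.exists_eq_add_of_lt (Nat.sub_pos_of_lt h)
      have h1 : μ.natDegree - i = r + 1 := by omega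
      rw [h1, pow_succ, ← mul_assoc]
      have h2 : ϖ ^ k * μ.coeff i ∈ O := hk1 i (Finset.mem_range.2 (by omega))
      have h3 : μ.coeff i * (ϖ ^ k) ^ r * ϖ ^ k = (ϖ ^ k * μ.coeff i) * (ϖ ^ k) ^ r := by ring
      rw [h3]
      exact mul_mem h2 (pow_mem (pow_mem hϖ _) _)
    · rw [h, hmonic.coeff_natDegree, Nat.sub_self, pow_zero, mul_one]
      exact one_mem _
    · rw [coeff_eq_zero_of_natDegree_lt h, zero_mul]
      exact zero_mem _
  have hq : (p.map (algebraMap K F)).eval (algebraMap K F (ϖ ^ k) * f) = 0 := by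
    rw [eval_map, ← aeval_def]; exact hroot
  have := mem_of_monic_root V (hpm.map (algebraMap K F))
    (fun i => by rw [coeff_map]; exact hOV _ (hcoef i)) hq
  rwa [map_pow] at this

end Arch

section Scale

variable {K : Type*} [Field K]

/-- Scaling a finite family by its entry of largest valuation. -/
theorem exists_scale_family {ι : Type*} [Fintype ι] (O : ValuationSubring K) (g : ι → K)
    (l : ι) :
    ∃ l₀, O.valuation (g l) ≤ O.valuation (g l₀) ∧
      ∀ l', O.valuation (g l') ≤ O.valuation (g l₀) := by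
  obtain ⟨l₀, -, h⟩ := Finset.exists_max_image Finset.univ (fun l => O.valuation (g l))
    ⟨l, Finset.mem_univ l⟩
  exact ⟨l₀, h l (Finset.mem_univ l), fun l' => h l' (Finset.mem_univ l')⟩

theorem mul_inv_mem_of_val_le (O : ValuationSubring K) {x y : K} (hy : y ≠ 0)
    (h : O.valuation x ≤ O.valuation y) : x * y⁻¹ ∈ O := by
  rw [← O.valuation_le_one_iff, map_mul, map_inv₀,
    mul_inv_le_iff₀ (zero_lt_iff.2 ((Valuation.ne_zero_iff _).2 hy)), one_mul]
  exact h

end Scale

section Main

variable {K F : Type*} [Field K] [Field F] [Algebra K F]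

/-- The hypotheses of the "no third extension" theorem. -/
structure TwoExt (O : ValuationSubring K) (V₁ V₂ : ValuationSubring F) (ϖ : K)
    {f₁ f₂ : ℕ} (b : Fin f₁ → F) (c : Fin f₂ → F) : Prop where
  unifO : IsUnif O ϖ
  unif₁ : IsUnif V₁ (algebraMap K F ϖ)
  unif₂ : IsUnif V₂ (algebraMap K F ϖ)
  le₁ : ∀ a ∈ O, algebraMap K F a ∈ V₁
  le₂ : ∀ a ∈ O, algebraMap K F a ∈ V₂
  ne : V₁ ≠ V₂
  arch : ∀ a : K, ∃ k : ℕ, ϖ ^ k * a ∈ O
  b_mem : ∀ i, b i ∈ V₁
  c_mem : ∀ j, c j ∈ V₂
  b_indep : ∀ a : Fin f₁ → K, (∀ i, a i ∈ O) →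
    (∑ i, algebraMap K F (a i) * b i) * (algebraMap K F ϖ)⁻¹ ∈ V₁ → ∀ i, a i * ϖ⁻¹ ∈ O
  c_indep : ∀ a : Fin f₂ → K, (∀ j, a j ∈ O) →
    (∑ j, algebraMap K F (a j) * c j) * (algebraMap K F ϖ)⁻¹ ∈ V₂ → ∀ j, a j * ϖ⁻¹ ∈ O
  card : f₁ + f₂ = Module.finrank K F

namespace TwoExt

variable {O : ValuationSubring K} {V₁ V₂ : ValuationSubring F} {ϖ : K}
  {f₁ f₂ : ℕ} {b : Fin f₁ → F} {c : Fin f₂ → F}

/-- A good generating family: `m` lies in `V₁ ∩ V₂` and a combination with coefficients in `O`
which is divisible by `ϖ` in both `V₁` and `V₂` has all its coefficients divisible by `ϖ`. -/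
def IsGood (O : ValuationSubring K) (V₁ V₂ : ValuationSubring F) (ϖ : K)
    {ι : Type*} [Fintype ι] (m : ι → F) : Prop :=
  (∀ l, m l ∈ V₁) ∧ (∀ l, m l ∈ V₂) ∧
    ∀ a : ι → K, (∀ l, a l ∈ O) →
      (∑ l, algebraMap K F (a l) * m l) * (algebraMap K F ϖ)⁻¹ ∈ V₁ →
      (∑ l, algebraMap K F (a l) * m l) * (algebraMap K F ϖ)⁻¹ ∈ V₂ → ∀ l, a l * ϖ⁻¹ ∈ O

theorem exists_good [FiniteDimensional K F] (h : TwoExt O V₁ V₂ ϖ b c) :
    ∃ m : Fin f₁ ⊕ Fin f₂ → F, IsGood O V₁ V₂ ϖ m := by
  classical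
  set π := algebraMap K F ϖ with hπ
  have hπ0 : π ≠ 0 := h.unif₁.ne_zero
  have hA₁ : ∀ i, ∃ g : F, g ∈ V₁ ∧ (g - b i) * π⁻¹ ∈ V₁ ∧ g * π⁻¹ ∈ V₂ := fun i => by
    obtain ⟨k, hk⟩ := exists_pow_mul_mem h.unifO.mem h.arch V₂ h.le₂
      (Algebra.IsIntegral.isIntegral (R := K) (b i))
    exact exists_approx h.unif₁ h.unif₂ h.ne (h.b_mem i) hk
  have hA₂ : ∀ j, ∃ g : F, g ∈ V₂ ∧ (g - c j) * π⁻¹ ∈ V₂ ∧ g * π⁻¹ ∈ V₁ := fun j => by
    obtain ⟨k, hk⟩ := exists_pow_mul_mem h.unifO.mem h.arch V₁ h.le₁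
      (Algebra.IsIntegral.isIntegral (R := K) (c j))
    exact exists_approx h.unif₂ h.unif₁ (Ne.symm h.ne) (h.c_mem j) hk
  choose g hg1 hg2 hg3 using hA₁
  choose g' hg'1 hg'2 hg'3 using hA₂
  have hgV₂ : ∀ i, g i ∈ V₂ := fun i => by
    have : g i = g i * π⁻¹ * π := by field_simp
    rw [this]; exact mul_mem (hg3 i) h.unif₂.mem
  have hg'V₁ : ∀ j, g' j ∈ V₁ := fun j => by
    have : g' j = g' j * π⁻¹ * π := by field_simp
    rw [this]; exact mul_mem (hg'3 j) h.unif₁.mem
  refine ⟨Sum.elim g g', ?_, ?_, ?_⟩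
  · rintro (i | j)
    · exact hg1 i
    · exact hg'V₁ j
  · rintro (i | j)
    · exact hgV₂ i
    · exact hg'1 j
  · intro a ha hS₁ hS₂
    have hsplit : (∑ l, algebraMap K F (a l) * Sum.elim g g' l) =
        (∑ i, algebraMap K F (a (Sum.inl i)) * g i) +
          ∑ j, algebraMap K F (a (Sum.inr j)) * g' j := by
      rw [Fintype.sum_sum_type]; simp only [Sum.elim_inl, Sum.elim_inr]
    rw [hsplit] at hS₁ hS₂
    rintro (i | j)
    · refine h.b_indep (fun i => a (Sum.inl i)) (fun i => ha _) ?_ i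
      have e1 : (∑ i, algebraMap K F (a (Sum.inl i)) * b i) * π⁻¹ =
          ((∑ i, algebraMap K F (a (Sum.inl i)) * g i) +
            ∑ j, algebraMap K F (a (Sum.inr j)) * g' j) * π⁻¹
          - ∑ i, algebraMap K F (a (Sum.inl i)) * ((g i - b i) * π⁻¹)
          - ∑ j, algebraMap K F (a (Sum.inr j)) * (g' j * π⁻¹) := by
        have hW : ∑ i, algebraMap K F (a (Sum.inl i)) * ((g i - b i) * π⁻¹) =
            (∑ i, algebraMap K F (a (Sum.inl i)) * g i) * π⁻¹ -
              (∑ i, algebraMap K F (a (Sum.inl i)) * b i) * π⁻¹ := by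
          rw [Finset.sum_mul, Finset.sum_mul, ← Finset.sum_sub_distrib]
          exact Finset.sum_congr rfl fun i _ => by ring
        have hZ : ∑ j, algebraMap K F (a (Sum.inr j)) * (g' j * π⁻¹) =
            (∑ j, algebraMap K F (a (Sum.inr j)) * g' j) * π⁻¹ := by
          rw [Finset.sum_mul]
          exact Finset.sum_congr rfl fun j _ => by ring
        rw [hW, hZ]; ring
      rw [e1]
      refine sub_mem (sub_mem hS₁ (sum_mem fun i _ => mul_mem (h.le₁ _ (ha _)) (hg2 i)))
        (sum_mem fun j _ => mul_mem (h.le₁ _ (ha _)) (hg'3 j))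
    · refine h.c_indep (fun j => a (Sum.inr j)) (fun j => ha _) ?_ j
      have e1 : (∑ j, algebraMap K F (a (Sum.inr j)) * c j) * π⁻¹ =
          ((∑ i, algebraMap K F (a (Sum.inl i)) * g i) +
            ∑ j, algebraMap K F (a (Sum.inr j)) * g' j) * π⁻¹
          - ∑ j, algebraMap K F (a (Sum.inr j)) * ((g' j - c j) * π⁻¹)
          - ∑ i, algebraMap K F (a (Sum.inl i)) * (g i * π⁻¹) := by
        have hW : ∑ j, algebraMap K F (a (Sum.inr j)) * ((g' j - c j) * π⁻¹) =
            (∑ j, algebraMap K F (a (Sum.inr j)) * g' j) * π⁻¹ -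
              (∑ j, algebraMap K F (a (Sum.inr j)) * c j) * π⁻¹ := by
          rw [Finset.sum_mul, Finset.sum_mul, ← Finset.sum_sub_distrib]
          exact Finset.sum_congr rfl fun j _ => by ring
        have hZ : ∑ i, algebraMap K F (a (Sum.inl i)) * (g i * π⁻¹) =
            (∑ i, algebraMap K F (a (Sum.inl i)) * g i) * π⁻¹ := by
          rw [Finset.sum_mul]
          exact Finset.sum_congr rfl fun i _ => by ring
        rw [hW, hZ]; ring
      rw [e1]
      refine sub_mem (sub_mem hS₂ (sum_mem fun j _ => mul_mem (h.le₂ _ (ha _)) (hg'2 j)))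
        (sum_mem fun i _ => mul_mem (h.le₂ _ (ha _)) (hg3 i))

namespace IsGood

variable {ι : Type*} [Fintype ι] {m : ι → F}

theorem linearIndependent (hO : IsUnif O ϖ) (hm : IsGood O V₁ V₂ ϖ m) :
    LinearIndependent K m := by
  classical
  rw [Fintype.linearIndependent_iff]
  intro g hg
  by_contra hne
  rw [not_forall] at hne
  obtain ⟨l, hl⟩ := hne
  obtain ⟨l₀, hl₀, hmax⟩ := exists_scale_family O g l
  have hg0 : g l₀ ≠ 0 := by
    intro h0
    rw [h0, map_zero] at hl₀
    exact (Valuation.ne_zero_iff _).2 hl (le_antisymm hl₀ zero_le)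
  have ha : ∀ l', g l' * (g l₀)⁻¹ ∈ O := fun l' => mul_inv_mem_of_val_le O hg0 (hmax l')
  have hsum : ∑ l', algebraMap K F (g l' * (g l₀)⁻¹) * m l' = 0 := by
    have : ∑ l', algebraMap K F (g l' * (g l₀)⁻¹) * m l' =
        algebraMap K F (g l₀)⁻¹ * ∑ l', g l' • m l' := by
      rw [Finset.mul_sum]
      refine Finset.sum_congr rfl fun l' _ => ?_
      rw [map_mul, Algebra.smul_def]; ring
    rw [this, hg, mul_zero]
  have := hm.2.2 _ ha (by rw [hsum, zero_mul]; exact zero_mem _)
    (by rw [hsum, zero_mul]; exact zero_mem _) l₀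
  rw [mul_inv_cancel₀ hg0, one_mul] at this
  exact hO.inv_not_mem this

/-- The coordinates of an element of `V₁ ∩ V₂` in a good basis lie in `O`. -/
theorem repr_mem (hO : IsUnif O ϖ) (le₁ : ∀ a ∈ O, algebraMap K F a ∈ V₁)
    (le₂ : ∀ a ∈ O, algebraMap K F a ∈ V₂) (hm : IsGood O V₁ V₂ ϖ m)
    (B : Module.Basis ι K F) (hB : ∀ l, B l = m l) {z : F} (hz₁ : z ∈ V₁) (hz₂ : z ∈ V₂)
    (l : ι) : B.repr z l ∈ O := by
  classical
  by_contra hl
  set g : ι → K := fun l => B.repr z l with hg
  obtain ⟨l₀, hl₀, hmax⟩ := exists_scale_family O g l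
  have hv : 1 < O.valuation (g l₀) := by
    refine lt_of_lt_of_le ?_ hl₀
    rw [← not_le, O.valuation_le_one_iff]; exact hl
  have hg0 : g l₀ ≠ 0 := by
    intro h0
    rw [h0, map_zero] at hv
    exact absurd hv (not_lt.2 zero_le)
  have ha : ∀ l', g l' * (g l₀)⁻¹ ∈ O := fun l' => mul_inv_mem_of_val_le O hg0 (hmax l')
  have hz : ∑ l', g l' • m l' = z := by
    have := B.sum_repr z
    simpa only [hB] using this
  have hsum : ∑ l', algebraMap K F (g l' * (g l₀)⁻¹) * m l' = algebraMap K F (g l₀)⁻¹ * z := by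
    rw [← hz, Finset.mul_sum]
    refine Finset.sum_congr rfl fun l' _ => ?_
    rw [map_mul, Algebra.smul_def]; ring
  have hinv : (g l₀)⁻¹ * ϖ⁻¹ ∈ O := by
    rw [hO.mul_inv_mem_iff, map_inv₀]
    exact inv_lt_one_of_one_lt₀ hv
  have hkey : (∑ l', algebraMap K F (g l' * (g l₀)⁻¹) * m l') * (algebraMap K F ϖ)⁻¹ =
      algebraMap K F ((g l₀)⁻¹ * ϖ⁻¹) * z := by
    rw [hsum, map_mul, map_inv₀, map_inv₀]; ring
  have := hm.2.2 _ ha (by rw [hkey]; exact mul_mem (le₁ _ hinv) hz₁)
    (by rw [hkey]; exact mul_mem (le₂ _ hinv) hz₂) l₀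
  rw [mul_inv_cancel₀ hg0, one_mul] at this
  exact hO.inv_not_mem this

/-- Every element of `V₁ ∩ V₂` is integral over `O`. -/
theorem exists_monic (hO : IsUnif O ϖ) (le₁ : ∀ a ∈ O, algebraMap K F a ∈ V₁)
    (le₂ : ∀ a ∈ O, algebraMap K F a ∈ V₂) (hm : IsGood O V₁ V₂ ϖ m)
    (hcard : Fintype.card ι = Module.finrank K F) [FiniteDimensional K F]
    {u : F} (hu₁ : u ∈ V₁) (hu₂ : u ∈ V₂) :
    ∃ p : K[X], p.Monic ∧ (∀ i, p.coeff i ∈ O) ∧ aeval u p = 0 := by
  classical
  have hpos : 0 < Module.finrank K F := Module.finrank_pos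
  have : Nonempty ι := by
    rw [← Fintype.card_pos_iff, hcard]; exact hpos
  set B := basisOfLinearIndependentOfCardEqFinrank (hm.linearIndependent hO) hcard with hBdef
  have hB : ∀ l, B l = m l := fun l => by
    rw [hBdef, coe_basisOfLinearIndependentOfCardEqFinrank]
  let _ : Algebra O F := ((algebraMap K F).comp O.subtype).toAlgebra
  have hsmul : ∀ (r : O) (x : F), r • x = algebraMap K F (r : K) * x := fun r x => rfl
  set N : Submodule O F := Submodule.span O (Set.range m) with hN
  have hmem : ∀ z : F, z ∈ V₁ → z ∈ V₂ → z ∈ N := by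
    intro z hz₁ hz₂
    have hz : z = ∑ l, (⟨B.repr z l, repr_mem hO le₁ le₂ hm B hB hz₁ hz₂ l⟩ : O) • m l := by
      conv_lhs => rw [← B.sum_repr z]
      refine Finset.sum_congr rfl fun l _ => ?_
      rw [hsmul, hB, Algebra.smul_def]
    rw [hz]
    exact Submodule.sum_mem _ fun l _ =>
      Submodule.smul_mem _ _ (Submodule.subset_span (Set.mem_range_self l))
  have hNV : ∀ n ∈ N, n ∈ V₁ ∧ n ∈ V₂ := by
    intro n hn
    induction hn using Submodule.span_induction with
    | mem x hx =>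
        obtain ⟨l, rfl⟩ := hx
        exact ⟨hm.1 l, hm.2.1 l⟩
    | zero => exact ⟨zero_mem _, zero_mem _⟩
    | add x y _ _ hx hy => exact ⟨add_mem hx.1 hy.1, add_mem hx.2 hy.2⟩
    | smul r x _ hx =>
        rw [hsmul]
        exact ⟨mul_mem (le₁ _ r.2) hx.1, mul_mem (le₂ _ r.2) hx.2⟩
  have hstable : ∀ n ∈ N, u • n ∈ N := by
    intro n hn
    obtain ⟨h1, h2⟩ := hNV n hn
    exact hmem _ (mul_mem hu₁ h1) (mul_mem hu₂ h2)
  have hNne : N ≠ ⊥ := by
    obtain ⟨l⟩ := ‹Nonempty ι›
    intro hbot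
    have h1 : m l ∈ N := Submodule.subset_span (Set.mem_range_self l)
    rw [hbot, Submodule.mem_bot] at h1
    exact B.ne_zero l (by rw [hB]; exact h1)
  have hFG : N.FG := Submodule.fg_span (Set.finite_range m)
  have hint : IsIntegral O u := isIntegral_of_smul_mem_submodule N hNne hFG u hstable
  obtain ⟨p, hp, hpu⟩ := hint
  refine ⟨p.map O.subtype, hp.map _, fun i => ?_, ?_⟩
  · rw [coeff_map]; exact (p.coeff i).2
  · rw [aeval_def, eval₂_map]; exact hpu

end IsGood

/-- **No third extension.**  Under `TwoExt`, every element of `V₁ ∩ V₂` is integral over `O`. -/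
theorem exists_monic_of_mem [FiniteDimensional K F] (h : TwoExt O V₁ V₂ ϖ b c)
    {u : F} (hu₁ : u ∈ V₁) (hu₂ : u ∈ V₂) :
    ∃ p : K[X], p.Monic ∧ (∀ i, p.coeff i ∈ O) ∧ aeval u p = 0 := by
  obtain ⟨m, hm⟩ := h.exists_good
  refine hm.exists_monic h.unifO h.le₁ h.le₂ ?_ hu₁ hu₂
  rw [Fintype.card_sum, Fintype.card_fin, Fintype.card_fin, h.card]

end TwoExt

end Main

end Fermat.Agent.A2.H48

end
-- ===== PACK-END A2/H48/TwoExt.lean

-- ===== PACK-BEGIN S13/H175/InertiaMem.lean
section




set_option autoImplicit false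

/-!
# Membership criteria for the Prelude inertia subgroup `A.inertiaSubgroupIn K`
-/

open scoped Pointwise

namespace Fermat.Agent.S13.H175

/-- An automorphism stabilising `A` and acting trivially on the residue field of `A` lies in
the inertia subgroup. -/
theorem mem_inertiaSubgroupIn_of {K L : Type*} [Field K] [Field L] [Algebra K L]
    (A : ValuationSubring L) (σ : L ≃ₐ[K] L) (hstab : σ • A = A)
    (h : ∀ x : L, x ∈ A → σ x - x ∈ A.nonunits) : σ ∈ A.inertiaSubgroupIn K := by
  unfold ValuationSubring.inertiaSubgroupIn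
  rw [Subgroup.mem_map]
  refine ⟨⟨σ, hstab⟩, ?_, rfl⟩
  unfold ValuationSubring.inertiaSubgroup
  rw [MonoidHom.mem_ker]
  ext r
  obtain ⟨x, rfl⟩ := IsLocalRing.residue_surjective r
  show (⟨σ, hstab⟩ : A.decompositionSubgroup K) • IsLocalRing.residue A x = IsLocalRing.residue A x
  rw [← IsLocalRing.ResidueField.residue_smul]
  rw [← sub_eq_zero, ← map_sub, IsLocalRing.residue_eq_zero_iff]
  have h1 := h x x.2
  rw [ValuationSubring.mem_nonunits_iff_exists_mem_maximalIdeal] at h1
  obtain ⟨h2, h3⟩ := h1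
  convert h3 using 1
  exact Subtype.ext rfl

/-- Over an algebraic extension of `ℚ`: an automorphism acting trivially modulo the maximal
ideal of `A` on all algebraic integers lies in the inertia subgroup of `A`. -/
theorem mem_inertiaSubgroupIn_of_integral
    (A : ValuationSubring (AlgebraicClosure ℚ)) (ℓ : ℕ) (hℓ : ℓ.Prime) (hA : A.LiesOverPrime ℓ)
    (σ : AlgebraicClosure ℚ ≃ₐ[ℚ] AlgebraicClosure ℚ)
    (h : ∀ x : AlgebraicClosure ℚ, IsIntegral ℤ x → σ x - x ∈ A.nonunits) :
    σ ∈ A.inertiaSubgroupIn ℚ := by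
  have : Algebra.IsAlgebraic ℚ (AlgebraicClosure ℚ) := AlgebraicClosure.isAlgebraic ℚ
  -- `σ` maps integral elements to integral elements
  have hint : ∀ (τ : AlgebraicClosure ℚ ≃ₐ[ℚ] AlgebraicClosure ℚ) (x : AlgebraicClosure ℚ),
      IsIntegral ℤ x → IsIntegral ℤ (τ x) := by
    intro τ x hx
    exact hx.map τ
  -- the same hypothesis holds for `σ⁻¹`
  have h' : ∀ x : AlgebraicClosure ℚ, IsIntegral ℤ x → σ.symm x - x ∈ A.nonunits := by
    intro x hx
    have h1 := h (σ.symm x) (hint σ.symm x hx)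
    rw [AlgEquiv.apply_symm_apply] at h1
    have := A.nonunits.neg_mem h1
    simpa using this
  -- key: such a `τ` maps `A` into `A` and acts trivially on the residue field
  have key : ∀ (τ : AlgebraicClosure ℚ ≃ₐ[ℚ] AlgebraicClosure ℚ),
      (∀ x : AlgebraicClosure ℚ, IsIntegral ℤ x → τ x - x ∈ A.nonunits) →
      ∀ x : AlgebraicClosure ℚ, x ∈ A → τ x ∈ A ∧ τ x - x ∈ A.nonunits := by
    intro τ hτ x hx
    obtain ⟨b, s, hb, hs, hsA, hxs⟩ := (Fermat.Agent.S54.mem_valuationSubring_iff A ℓ hℓ hA x).mp hx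
    have hbA : b ∈ A := Fermat.Agent.S54.isIntegral_mem_valuationSubring A hb
    have hsmem : s ∈ A := Fermat.Agent.S54.isIntegral_mem_valuationSubring A hs
    have hτs_mem : τ s ∈ A := Fermat.Agent.S54.isIntegral_mem_valuationSubring A (hint τ s hs)
    have hτb_mem : τ b ∈ A := Fermat.Agent.S54.isIntegral_mem_valuationSubring A (hint τ b hb)
    have hs0 : s ≠ 0 := fun h0 => hsA (h0 ▸ A.nonunits.zero_mem)
    have hτs0 : τ s ≠ 0 := fun h0 => hs0 (by simpa using h0)
    -- `τ s` is a unit of `A`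
    have hτsA : τ s ∉ A.nonunits := by
      intro hcon
      have h1 := hτ s hs
      have h2 : s = τ s - (τ s - s) := by ring
      apply hsA
      rw [h2]
      exact A.nonunits.sub_mem hcon h1
    have hsinv : s⁻¹ ∈ A := by
      by_contra hc
      exact hsA (A.mem_nonunits_iff_or.mpr (Or.inr hc))
    have hτsinv : (τ s)⁻¹ ∈ A := by
      by_contra hc
      exact hτsA (A.mem_nonunits_iff_or.mpr (Or.inr hc))
    have hx_eq : x = b * s⁻¹ := by
      rw [← hxs]; field_simp
    have hτx_eq : τ x = τ b * (τ s)⁻¹ := by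
      rw [hx_eq, map_mul, map_inv₀]
    refine ⟨?_, ?_⟩
    · rw [hτx_eq]
      exact A.mul_mem _ _ hτb_mem hτsinv
    · have hdiff : τ x - x = ((τ b - b) * s - b * (τ s - s)) * ((τ s)⁻¹ * s⁻¹) := by
        rw [hτx_eq, hx_eq]
        field_simp
        ring
      rw [hdiff]
      -- nonunits form an ideal-like subset
      have hmul : ∀ u v : AlgebraicClosure ℚ, u ∈ A.nonunits → v ∈ A → u * v ∈ A.nonunits := by
        intro u v hu hv
        obtain ⟨h1, h2⟩ := ValuationSubring.mem_nonunits_iff_exists_mem_maximalIdeal.mp hu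
        have := Ideal.mul_mem_right (⟨v, hv⟩ : A) _ h2
        exact ValuationSubring.mem_nonunits_iff_exists_mem_maximalIdeal.mpr ⟨_, this⟩
      apply hmul _ _ _ (A.mul_mem _ _ hτsinv hsinv)
      apply A.nonunits.sub_mem
      · exact hmul _ _ (hτ b hb) hsmem
      · rw [mul_comm]
        exact hmul _ _ (hτ s hs) hbA
  apply mem_inertiaSubgroupIn_of A σ
  · -- `σ • A = A`
    apply le_antisymm
    · intro y hy
      obtain ⟨x, hx, rfl⟩ := (ValuationSubring.mem_smul_pointwise_iff_exists σ y A).mp hy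
      exact (key σ h x hx).1
    · intro y hy
      rw [ValuationSubring.mem_smul_pointwise_iff_exists]
      refine ⟨σ.symm y, (key σ.symm h' y hy).1, ?_⟩
      simp
  · intro x hx
    exact (key σ h x hx).2

end Fermat.Agent.S13.H175

end
-- ===== PACK-END S13/H175/InertiaMem.lean

-- ===== PACK-BEGIN A2/H313/HensApprox.lean
section








/-!
# A2 / ALG (c1), part 3: `w`-adic approximation of algebraic elements (helper313)

Setting as in `HensVal.lean`, residue field of `R` algebraically closed.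
Every `a ∈ V` algebraic over `E = Frac R` is, for every `N`, of the form `s + wᴺ a'` with
`s ∈ R` and `a' ∈ V` (`exists_approx`).  Every nonzero algebraic `x ∈ V` is `w^δ · (unit of V)`
(`exists_pow_mul_unit`).
-/

set_option autoImplicit false
set_option linter.unusedSectionVars false

namespace Fermat.Agent.A2.H313

open Polynomial IsLocalRing

section Setup

variable {R : Type*} (E : Type*) {L : Type*} [CommRing R] [IsDomain R]
  [IsDiscreteValuationRing R]
  [Field E] [Algebra R E] [IsFractionRing R E]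
  [Field L] [Algebra E L] [Algebra R L] [IsScalarTower R E L]
  {w : R} {V : ValuationSubring L}

namespace UnifIn

variable (h : UnifIn w V)
include h

include E in
/-- Removing the common powers of `w` from an annihilating polynomial. -/
theorem strip_aux {a : L} : ∀ (n : ℕ) (p : R[X]) (i : ℕ) (u : Rˣ), p.coeff i = u * w ^ n →
    aeval a p = 0 → ∃ p' : R[X], aeval a p' = 0 ∧ p'.map (residue R) ≠ 0 := by
  intro n
  induction n with
  | zero =>
    intro p i u hc hp
    refine ⟨p, hp, fun h0 => ?_⟩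
    have h1 := congrArg (fun q => q.coeff i) h0
    simp only [coeff_map, coeff_zero, hc, pow_zero, mul_one] at h1
    exact ((residue_eq_zero_iff (u : R)).1 h1) u.isUnit
  | succ n ih =>
    intro p i u hc hp
    by_cases h0 : p.map (residue R) = 0
    · have hdvd : C w ∣ p := by
        rw [C_dvd_iff_dvd_coeff]
        intro j
        have h1 := congrArg (fun q => q.coeff j) h0
        simp only [coeff_map, coeff_zero] at h1
        have h2 := (residue_eq_zero_iff (p.coeff j)).1 h1
        rwa [h.irr.maximalIdeal_eq, Ideal.mem_span_singleton] at h2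
      obtain ⟨p₁, rfl⟩ := hdvd
      have hp1 : aeval a p₁ = 0 := by
        rw [map_mul, aeval_C] at hp
        exact (mul_eq_zero.1 hp).resolve_left (h.w_ne_zero (E := E))
      have hc1 : p₁.coeff i = u * w ^ n := by
        rw [coeff_C_mul, pow_succ] at hc
        have : w * p₁.coeff i = w * (u * w ^ n) := by rw [hc]; ring
        exact mul_left_cancel₀ h.irr.ne_zero this
      exact ih p₁ i u hc1 hp1
    · exact ⟨p, hp, h0⟩

include E in
/-- An element of `L` algebraic over `E` is annihilated by a polynomial over `R` which is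
nonzero modulo the maximal ideal. -/
theorem exists_primitive_annihilator {a : L} (ha : IsAlgebraic E a) :
    ∃ p : R[X], aeval a p = 0 ∧ p.map (residue R) ≠ 0 := by
  obtain ⟨p, hp0, hp⟩ := (IsFractionRing.isAlgebraic_iff R E L).2 ha
  obtain ⟨i, hi⟩ : ∃ i, p.coeff i ≠ 0 := by
    by_contra hcon
    simp only [not_exists, not_not] at hcon
    exact hp0 (Polynomial.ext fun i => by simpa using hcon i)
  obtain ⟨n, u, hu⟩ := IsDiscreteValuationRing.eq_unit_mul_pow_irreducible hi h.irr
  exact h.strip_aux E n p i u hu hp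

omit h in
theorem val_multiset_prod_eq_one (s : Multiset L) (hs : ∀ x ∈ s, V.valuation x = 1) :
    V.valuation s.prod = 1 := by
  induction s using Multiset.induction_on with
  | empty => simp
  | cons a s ih =>
    rw [Multiset.prod_cons, map_mul, hs a (Multiset.mem_cons_self a s),
      ih (fun x hx => hs x (Multiset.mem_cons_of_mem hx)), one_mul]

include E in
/-- **First approximation**: an algebraic element of `V` is congruent to an element of `R`
modulo the non-units of `V` (the residue field of `R` is algebraically closed). -/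
theorem exists_approx_one [IsAlgClosed (ResidueField R)] {a : L} (haV : a ∈ V)
    (ha : IsAlgebraic E a) : ∃ r : R, V.valuation (a - algebraMap R L r) < 1 := by
  classical
  obtain ⟨p, hp, hp0⟩ := h.exists_primitive_annihilator E ha
  set pb : (ResidueField R)[X] := p.map (residue R) with hpb
  have hsplit : pb.Splits := IsAlgClosed.splits pb
  have hprod := hsplit.eq_prod_roots
  -- lift the roots and the leading coefficient
  set σ : ResidueField R → R := Function.surjInv (residue_surjective (R := R)) with hσ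
  have hσr : ∀ x, residue R (σ x) = x := Function.surjInv_eq _
  set c : R := σ pb.leadingCoeff with hc
  set G : R[X] := C c * ((pb.roots.map σ).map (fun α => X - C α)).prod with hG
  have hGmap : G.map (residue R) = pb := by
    rw [hG, Polynomial.map_mul, map_C, hc, hσr, Polynomial.map_multiset_prod, Multiset.map_map,
      Multiset.map_map]
    conv_rhs => rw [hprod]
    congr 2
    refine Multiset.map_congr rfl fun x _ => ?_
    simp [hσr]
  have hdvd : C w ∣ p - G := by
    rw [C_dvd_iff_dvd_coeff]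
    intro j
    have h1 : ((p - G).map (residue R)).coeff j = 0 := by
      rw [Polynomial.map_sub, hGmap, ← hpb, sub_self, coeff_zero]
    rw [coeff_map] at h1
    have h2 := (residue_eq_zero_iff _).1 h1
    rwa [h.irr.maximalIdeal_eq, Ideal.mem_span_singleton] at h2
  obtain ⟨q, hq⟩ := hdvd
  have hpG : p = G + C w * q := by rw [← hq]; ring
  -- evaluate at `a`
  have hGa : aeval a G = -(algebraMap R L w * aeval a q) := by
    have h1 : aeval a (C w * q) = algebraMap R L w * aeval a q := by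
      rw [map_mul, aeval_C]
    have := hp
    rw [hpG, map_add, h1] at this
    exact eq_neg_of_add_eq_zero_left this
  have hvG : V.valuation (aeval a G) < 1 := by
    rw [hGa, Valuation.map_neg, map_mul]
    calc V.valuation (algebraMap R L w) * V.valuation (aeval a q)
        ≤ V.valuation (algebraMap R L w) * 1 := by
          gcongr
          exact (V.valuation_le_one_iff _).2 (h.aeval_mem q haV)
      _ = V.valuation (algebraMap R L w) := mul_one _
      _ < 1 := h.val_w_lt_one
  -- the leading coefficient is a unit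
  have hcu : IsUnit c := by
    by_contra hcon
    have hcm : c ∈ maximalIdeal R := hcon
    have : residue R c = 0 := (residue_eq_zero_iff c).2 hcm
    rw [hc, hσr, leadingCoeff_eq_zero] at this
    exact hp0 this
  have hGa' : aeval a G = algebraMap R L c *
      ((pb.roots.map σ).map (fun α => a - algebraMap R L α)).prod := by
    rw [hG, map_mul, aeval_C, map_multiset_prod, Multiset.map_map]
    congr 2
    refine Multiset.map_congr rfl fun x _ => ?_
    simp
  rw [hGa', map_mul, h.val_unit hcu, one_mul] at hvG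
  by_contra hcon
  simp only [not_exists, not_lt] at hcon
  have : V.valuation ((pb.roots.map σ).map (fun α => a - algebraMap R L α)).prod = 1 := by
    refine val_multiset_prod_eq_one _ fun x hx => ?_
    obtain ⟨α, -, rfl⟩ := Multiset.mem_map.1 hx
    refine le_antisymm ?_ (hcon α)
    exact (V.valuation_le_one_iff _).2 (sub_mem haV (h.mem α))
  rw [this] at hvG
  exact lt_irrefl _ hvG

include E in
/-- **`w`-adic approximation**: an algebraic element of `V` is `s + wᴺ a'` with `s ∈ R`,
`a' ∈ V`, for every `N`. -/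
theorem exists_approx [IsAlgClosed (ResidueField R)] {a : L} (haV : a ∈ V)
    (ha : IsAlgebraic E a) (N : ℕ) :
    ∃ (s : R) (a' : L), a' ∈ V ∧ a = algebraMap R L s + algebraMap R L w ^ N * a' := by
  induction N with
  | zero => exact ⟨0, a, haV, by simp⟩
  | succ N ih =>
    obtain ⟨s, a', ha'V, hsa⟩ := ih
    have ha'alg : IsAlgebraic E a' := by
      have hw0 : algebraMap R L w ^ N ≠ 0 := pow_ne_zero _ (h.w_ne_zero (E := E))
      have : a' = (a - algebraMap R L s) * (algebraMap R L w ^ N)⁻¹ := by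
        rw [hsa]; field_simp; ring
      rw [this]
      have hR : ∀ r : R, IsAlgebraic E (algebraMap R L r) := fun r => by
        rw [IsScalarTower.algebraMap_apply R E L]
        exact isAlgebraic_algebraMap _
      exact (ha.sub (hR s)).mul (((hR w).pow N).inv)
    obtain ⟨r, hr⟩ := h.exists_approx_one E ha'V ha'alg
    obtain ⟨y, hyV, hy⟩ := h.gen _ ((ValuationSubring.mem_nonunits_iff V).2 hr)
    refine ⟨s + w ^ N * r, y, hyV, ?_⟩
    have : a' = algebraMap R L r + algebraMap R L w * y := by rw [← hy]; ring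
    rw [hsa, this, map_add, map_mul, map_pow]
    ring

include E in
/-- **Separatedness**: a nonzero algebraic element of `V` is `w^δ` times a unit of `V`. -/
theorem exists_pow_mul_unit {x : L} (hxV : x ∈ V) (hx0 : x ≠ 0) (hx : IsAlgebraic E x) :
    ∃ δ : ℕ, V.valuation x = V.valuation (algebraMap R L w) ^ δ := by
  classical
  -- an annihilating polynomial with nonzero constant term
  obtain ⟨p, hp0, hp⟩ := (IsFractionRing.isAlgebraic_iff R E L).2 hx
  obtain ⟨q, hq, hXq⟩ := exists_eq_pow_rootMultiplicity_mul_and_not_dvd p hp0 0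
  rw [map_zero, sub_zero] at hq hXq
  have hqx : aeval x q = 0 := by
    rw [hq, map_mul, map_pow, aeval_X] at hp
    exact (mul_eq_zero.1 hp).resolve_left (pow_ne_zero _ hx0)
  have hq0 : q.coeff 0 ≠ 0 := fun h0 => hXq (X_dvd_iff.2 h0)
  -- `c₀ = - x * (q / X)(x)`
  have hdecomp : algebraMap R L (q.coeff 0) = -(x * aeval x q.divX) := by
    have := divX_mul_X_add q
    have h2 : aeval x q = aeval x q.divX * x + algebraMap R L (q.coeff 0) := by
      conv_lhs => rw [← this]
      simp
    rw [hqx] at h2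
    linear_combination -h2
  obtain ⟨n₀, u, -, hn₀⟩ := h.val_eq_pow hq0
  have hle : V.valuation (algebraMap R L w) ^ n₀ ≤ V.valuation x := by
    rw [← hn₀, hdecomp, Valuation.map_neg, map_mul]
    calc V.valuation x * V.valuation (aeval x q.divX) ≤ V.valuation x * 1 := by
          gcongr
          exact (V.valuation_le_one_iff _).2 (h.aeval_mem _ hxV)
      _ = _ := mul_one _
  -- descending induction
  have key : ∀ k : ℕ, ∀ y : L, y ∈ V → V.valuation (algebraMap R L w) ^ k ≤ V.valuation y →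
      ∃ δ : ℕ, V.valuation y = V.valuation (algebraMap R L w) ^ δ := by
    intro k
    induction k with
    | zero =>
      intro y hy hk
      refine ⟨0, le_antisymm ?_ hk⟩
      rw [pow_zero]
      exact (V.valuation_le_one_iff _).2 hy
    | succ k ih =>
      intro y hy hk
      rcases lt_or_ge (V.valuation y) 1 with hlt | hge
      · obtain ⟨z, hzV, rfl⟩ := h.gen y ((ValuationSubring.mem_nonunits_iff V).2 hlt)
        have hz : V.valuation (algebraMap R L w) ^ k ≤ V.valuation z := by
          rw [map_mul, pow_succ'] at hk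
          exact le_of_mul_le_mul_left hk (h.val_w_pos (E := E))
        obtain ⟨δ, hδ⟩ := ih z hzV hz
        exact ⟨δ + 1, by rw [map_mul, hδ, pow_succ']⟩
      · refine ⟨0, le_antisymm ?_ (by simpa using hge)⟩
        rw [pow_zero]
        exact (V.valuation_le_one_iff _).2 hy
  exact key n₀ x hxV hle

end UnifIn

end Setup

end Fermat.Agent.A2.H313

end
-- ===== PACK-END A2/H313/HensApprox.lean

-- ===== PACK-BEGIN A2/Alg/H348/Roots.lean
section




/-!
# A2 / ALG / GLUE, `hconst` part, step 3: roots of unity in a henselian local ring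

`R` henselian local with algebraically closed residue field of characteristic `q ∤ m`:
`m` is a unit of `R` and `R` contains a primitive `m`-th root of unity.
-/

set_option autoImplicit false
set_option linter.unusedSectionVars false

open Polynomial IsLocalRing

namespace Fermat.Agent.A2.Alg.H348

variable {R : Type*} [CommRing R] [IsLocalRing R]

theorem natCast_residue_ne_zero (q m : ℕ) (hq : q.Prime) (hqR : (q : R) ∈ maximalIdeal R)
    (hqm : ¬ q ∣ m) : (m : ResidueField R) ≠ 0 := by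
  intro hm0
  apply hqm
  have h1 : ((q : ℕ) : ResidueField R) = 0 := by
    rw [← map_natCast (residue R)]
    exact (residue_eq_zero_iff _).mpr hqR
  have hdq : ringChar (ResidueField R) ∣ q := ringChar.dvd h1
  have hdm : ringChar (ResidueField R) ∣ m := ringChar.dvd hm0
  rcases (Nat.dvd_prime hq).mp hdq with h | h
  · exact absurd h CharP.ringChar_ne_one
  · rwa [h] at hdm

theorem isUnit_natCast (q m : ℕ) (hq : q.Prime) (hqR : (q : R) ∈ maximalIdeal R)
    (hqm : ¬ q ∣ m) : IsUnit (m : R) := by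
  rw [← IsLocalRing.notMem_maximalIdeal]
  intro h
  apply natCast_residue_ne_zero (R := R) q m hq hqR hqm
  rw [← map_natCast (residue R)]
  exact (residue_eq_zero_iff _).mpr h

theorem exists_primitiveRoot [HenselianLocalRing R] [IsAlgClosed (ResidueField R)] (q m : ℕ)
    (hq : q.Prime) (hqR : (q : R) ∈ maximalIdeal R) (hm : 0 < m) (hqm : ¬ q ∣ m) :
    ∃ ζ : R, IsPrimitiveRoot ζ m := by
  have hmk := natCast_residue_ne_zero (R := R) q m hq hqR hqm
  haveI : NeZero (m : ResidueField R) := ⟨hmk⟩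
  obtain ⟨ζ₀, hζ₀⟩ := HasEnoughRootsOfUnity.exists_primitiveRoot (ResidueField R) m
  have hζ₀0 : ζ₀ ≠ 0 := hζ₀.ne_zero hm.ne'
  obtain ⟨ζ, hζ, hres⟩ := Fermat.Agent.A2.H552.exists_root_of_residue_simple_root
    (X ^ m - C (1 : R)) (monic_X_pow_sub_C 1 hm.ne') ζ₀
    (by simp [hζ₀.pow_eq_one])
    (by
      simp only [Polynomial.map_sub, Polynomial.map_pow, map_X, map_C, derivative_sub,
        derivative_X_pow, derivative_C, sub_zero, eval_mul, eval_C, eval_pow, eval_X]
      exact mul_ne_zero hmk (pow_ne_zero _ hζ₀0))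
  have hpow : ζ ^ m = 1 := by
    have : (X ^ m - C (1 : R) : R[X]).eval ζ = 0 := hζ
    simpa [sub_eq_zero] using this
  refine ⟨ζ, ⟨hpow, fun l hl => ?_⟩⟩
  apply hζ₀.dvd_of_pow_eq_one
  rw [← hres, ← map_pow, hl, map_one]

end Fermat.Agent.A2.Alg.H348

end
-- ===== PACK-END A2/Alg/H348/Roots.lean

-- ===== PACK-BEGIN S36/H586/Approx586.lean
section


/-!
# Approximation for finitely many pairwise incomparable valuation rings

VERBATIM copy (own namespace `Fermat.Agent.S36.H586.Ap`) of helper253's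
`S36/H253/Approx.lean` + `exists_unif_multi` of `S36/H253/NormVal.lean` (origin/helper253,
not on main at 22:10Z), so that the closure of `H586.leafStepA` is self-contained.
All credit: helper253.

Mathlib only.  `V i` (`i : ι`, finite) valuation subrings of a field `F`, pairwise incomparable,
of ARBITRARY rank.

* `exists_multiplier` (Nagata's trick): for every `x : F` there is `u ∈ ⋂ V i` with
  `x * u ∈ ⋂ V i` and `u` a unit of every `V i` containing `x`;
* `exists_idem_multi` : `E ≡ 1` at `V i`, `E ≡ 0` at the other `V i'`;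
* `exists_lift_multi` : every `b ∈ V i` is congruent modulo the maximal ideal of `V i` to an
  element of `⋂ V i'`.
-/

set_option autoImplicit false
set_option linter.unusedSectionVars false

namespace Fermat.Agent.S36.H586.Ap

open scoped BigOperators
open Fermat.Agent.S35.H253

section Geom

variable {F : Type*} [Field F]

/-- The geometric sum `1 + x + ⋯ + x ^ (s - 1)`. -/
def gsum (x : F) (s : ℕ) : F := ∑ m ∈ Finset.range s, x ^ m

theorem gsum_zero (x : F) : gsum x 0 = 0 := by simp [gsum]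

theorem gsum_succ (x : F) (s : ℕ) : gsum x (s + 1) = gsum x s + x ^ s := by
  simp [gsum, Finset.sum_range_succ]

theorem gsum_succ' (x : F) (s : ℕ) : gsum x (s + 1) = 1 + x * gsum x s := by
  unfold gsum
  rw [Finset.sum_range_succ', pow_zero, Finset.mul_sum, add_comm]
  congr 1
  exact Finset.sum_congr rfl fun m _ => by rw [pow_succ']

theorem gsum_add (x : F) (a b : ℕ) : gsum x (a + b) = gsum x a + x ^ a * gsum x b := by
  unfold gsum
  rw [Finset.sum_range_add, Finset.mul_sum]
  congr 1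
  exact Finset.sum_congr rfl fun m _ => by rw [pow_add]

theorem gsum_mem (V : ValuationSubring F) {x : F} (hx : x ∈ V) (s : ℕ) : gsum x s ∈ V :=
  sum_mem fun _ _ => pow_mem hx _

/-- If `x` lies in the maximal ideal, all geometric sums `gsum x (s + 1)` are units. -/
theorem val_gsum_of_small (V : ValuationSubring F) {x : F} (hx : V.valuation x < 1) (s : ℕ) :
    V.valuation (gsum x (s + 1)) = 1 := by
  rw [gsum_succ']
  refine Valuation.map_one_add_of_lt _ ?_
  exact val_mul_lt_one_left V hx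
    ((V.valuation_le_one_iff _).2 (gsum_mem V ((V.valuation_le_one_iff _).1 hx.le) s))

/-- If `x ∉ V`, the geometric sum `gsum x (s + 1)` has the valuation of `x ^ s`. -/
theorem val_gsum_of_big (V : ValuationSubring F) {x : F} (hx : 1 < V.valuation x) (s : ℕ) :
    V.valuation (gsum x (s + 1)) = V.valuation x ^ s := by
  induction s with
  | zero => simp [gsum]
  | succ s ih =>
    rw [gsum_succ, add_comm]
    have hlt : V.valuation (gsum x (s + 1)) < V.valuation (x ^ (s + 1)) := by
      rw [ih, map_pow, pow_succ]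
      have hpos : 0 < V.valuation x ^ s := pow_pos (lt_trans zero_lt_one hx) _
      calc V.valuation x ^ s = V.valuation x ^ s * 1 := (mul_one _).symm
        _ < V.valuation x ^ s * V.valuation x := by gcongr
    rw [Valuation.map_add_eq_of_lt_left _ hlt, map_pow]

/-- The bad exponents for a unit `x` of `V` are multiples of the smallest one. -/
theorem exists_modulus (V : ValuationSubring F) {x : F} (hx : x ∈ V) :
    ∃ d : ℕ, 2 ≤ d ∧ ∀ s : ℕ, V.valuation (gsum x s) < 1 → d ∣ s := by
  classical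
  by_cases hex : ∃ s : ℕ, 0 < s ∧ V.valuation (gsum x s) < 1
  · set d := Nat.find hex with hd
    have hdspec : 0 < d ∧ V.valuation (gsum x d) < 1 := Nat.find_spec hex
    have hdmin : ∀ s, s < d → ¬ (0 < s ∧ V.valuation (gsum x s) < 1) :=
      fun s hs => Nat.find_min hex hs
    have hxu : V.valuation x = 1 := by
      rcases lt_or_eq_of_le ((V.valuation_le_one_iff _).2 hx) with hlt | heq
      · exfalso
        obtain ⟨d', hd'⟩ : ∃ d', d = d' + 1 := ⟨d - 1, by omega⟩
        have := val_gsum_of_small V hlt d'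
        rw [← hd'] at this
        rw [this] at hdspec
        exact lt_irrefl _ hdspec.2
      · exact heq
    have hd2 : 2 ≤ d := by
      rcases Nat.lt_or_ge d 2 with hlt | hge
      · exfalso
        have hd1 : d = 1 := by omega
        have h1 := hdspec.2
        rw [hd1] at h1
        simp [gsum] at h1
      · exact hge
    -- multiples of `d` are bad
    have hmul : ∀ q : ℕ, V.valuation (gsum x (q * d)) < 1 := by
      intro q
      induction q with
      | zero => rw [Nat.zero_mul, gsum_zero, map_zero]; exact zero_lt_one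
      | succ q ih =>
        rw [Nat.succ_mul, gsum_add]
        refine Valuation.map_add_lt _ ih ?_
        exact val_mul_lt_one_right V ((V.valuation_le_one_iff _).2 (pow_mem hx _)) hdspec.2
    refine ⟨d, hd2, fun s hs => ?_⟩
    have hsdiv : s = (s / d) * d + s % d := by
      rw [Nat.mul_comm]; exact (Nat.div_add_mod s d).symm
    have hr : V.valuation (gsum x (s % d)) < 1 := by
      have h1 : gsum x s = gsum x ((s / d) * d) + x ^ ((s / d) * d) * gsum x (s % d) := by
        conv_lhs => rw [hsdiv]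
        exact gsum_add x _ _
      have h2 : x ^ ((s / d) * d) * gsum x (s % d) = gsum x s - gsum x ((s / d) * d) := by
        rw [h1]; ring
      have h3 : V.valuation (x ^ ((s / d) * d) * gsum x (s % d)) < 1 := by
        rw [h2]; exact Valuation.map_sub_lt _ hs (hmul _)
      rwa [map_mul, map_pow, hxu, one_pow, one_mul] at h3
    have hr0 : s % d = 0 := by
      by_contra hne
      exact hdmin (s % d) (Nat.mod_lt _ hdspec.1) ⟨Nat.pos_of_ne_zero hne, hr⟩
    exact Nat.dvd_of_mod_eq_zero hr0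
  · refine ⟨2, le_rfl, fun s hs => ?_⟩
    rcases Nat.eq_zero_or_pos s with h0 | hpos
    · rw [h0]; exact dvd_zero 2
    · exact absurd ⟨s, hpos, hs⟩ hex

end Geom

section Multi

variable {F : Type*} [Field F] {ι : Type*} [Fintype ι]

/-- **Nagata's trick.**  For every `x : F` there is `u ∈ ⋂ V i` such that `x * u ∈ ⋂ V i` and `u`
is a unit of every `V i` containing `x`. -/
theorem exists_multiplier (V : ι → ValuationSubring F) (x : F) :
    ∃ u : F, (∀ i, u ∈ V i) ∧ (∀ i, x * u ∈ V i) ∧
      (∀ i, x ∈ V i → (V i).valuation u = 1) := by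
  classical
  have hd : ∀ i, ∃ d : ℕ, 2 ≤ d ∧
      (x ∈ V i → ∀ s, (V i).valuation (gsum x s) < 1 → d ∣ s) := fun i => by
    by_cases hx : x ∈ V i
    · obtain ⟨d, hd2, hd⟩ := exists_modulus (V i) hx
      exact ⟨d, hd2, fun _ => hd⟩
    · exact ⟨2, le_rfl, fun h => absurd h hx⟩
  choose d hd2 hd using hd
  set D := ∏ i, d i with hD
  have hDpos : 0 < D := Finset.prod_pos fun i _ => by have := hd2 i; omega
  have hunit : ∀ i, x ∈ V i → (V i).valuation (gsum x (D + 1)) = 1 := by
    intro i hx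
    rcases lt_or_eq_of_le (((V i).valuation_le_one_iff _).2 (gsum_mem (V i) hx (D + 1)))
      with hlt | heq
    · exfalso
      have hdvd := hd i hx (D + 1) hlt
      have hdD : d i ∣ D := Finset.dvd_prod_of_mem _ (Finset.mem_univ i)
      have h1 : d i ∣ 1 := (Nat.dvd_add_right hdD).1 hdvd
      have h2 := Nat.le_of_dvd one_pos h1
      have h3 := hd2 i
      omega
    · exact heq
  have hbig : ∀ i, x ∉ V i → (V i).valuation (gsum x (D + 1)) = (V i).valuation x ^ D :=
    fun i hx => val_gsum_of_big (V i)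
      (by rw [← not_le, (V i).valuation_le_one_iff]; exact hx) D
  have hxbig : ∀ i, x ∉ V i → 1 < (V i).valuation x := fun i hx => by
    rw [← not_le, (V i).valuation_le_one_iff]; exact hx
  refine ⟨(gsum x (D + 1))⁻¹, fun i => ?_, fun i => ?_, fun i hx => ?_⟩
  · rw [← (V i).valuation_le_one_iff, map_inv₀]
    by_cases hx : x ∈ V i
    · rw [hunit i hx, inv_one]
    · rw [hbig i hx]
      exact inv_le_one_of_one_le₀ (one_le_pow₀ (hxbig i hx).le)
  · rw [← (V i).valuation_le_one_iff, map_mul, map_inv₀]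
    by_cases hx : x ∈ V i
    · rw [hunit i hx, inv_one, mul_one]
      exact ((V i).valuation_le_one_iff _).2 hx
    · rw [hbig i hx]
      have hpos : 0 < (V i).valuation x ^ D := pow_pos (lt_trans zero_lt_one (hxbig i hx)) _
      rw [mul_inv_le_iff₀ hpos, one_mul]
      exact le_self_pow₀ (hxbig i hx).le (by omega)
  · rw [map_inv₀, hunit i hx, inv_one]

variable [DecidableEq ι]

/-- Elements which are units at `V i` and small at all other `V i'`. -/
theorem exists_sep_multi (V : ι → ValuationSubring F)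
    (hinc : ∀ i i', i ≠ i' → ¬ V i ≤ V i') (i : ι) :
    ∃ w : F, (V i).valuation w = 1 ∧ ∀ i', i' ≠ i → (V i').valuation w < 1 := by
  classical
  have hu : ∀ i', ∃ u : F, (∀ i'', u ∈ V i'') ∧ (V i).valuation u = 1 ∧
      (i' ≠ i → (V i').valuation u < 1) := fun i' => by
    by_cases hi : i' = i
    · exact ⟨1, fun _ => one_mem _, map_one _, fun h => absurd hi h⟩
    · obtain ⟨x, hx1, hx2⟩ := SetLike.not_le_iff_exists.1 (hinc i i' (fun h => hi h.symm))
      obtain ⟨u, hu1, hu2, hu3⟩ := exists_multiplier V x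
      refine ⟨u, hu1, hu3 i hx1, fun _ => ?_⟩
      have hxbig : 1 < (V i').valuation x := by
        rw [← not_le, (V i').valuation_le_one_iff]; exact hx2
      have h1 : (V i').valuation x * (V i').valuation u ≤ 1 := by
        rw [← map_mul]; exact ((V i').valuation_le_one_iff _).2 (hu2 i')
      by_contra hcon
      rw [not_lt] at hcon
      have : (V i').valuation x * 1 ≤ (V i').valuation x * (V i').valuation u := by gcongr
      rw [mul_one] at this
      exact absurd (lt_of_lt_of_le hxbig (this.trans h1)) (lt_irrefl _)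
  choose u hu1 hu2 hu3 using hu
  refine ⟨∏ i', u i', ?_, fun i' hi' => ?_⟩
  · rw [map_prod]
    exact Finset.prod_eq_one fun i' _ => hu2 i'
  · rw [map_prod, ← Finset.mul_prod_erase _ _ (Finset.mem_univ i')]
    have h1 : ∏ x ∈ Finset.univ.erase i', (V i').valuation (u x) ≤ 1 :=
      Finset.prod_le_one' fun x _ => ((V i').valuation_le_one_iff _).2 (hu1 x i')
    calc (V i').valuation (u i') * ∏ x ∈ Finset.univ.erase i', (V i').valuation (u x)
        ≤ (V i').valuation (u i') * 1 := by gcongr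
      _ = (V i').valuation (u i') := mul_one _
      _ < 1 := hu3 i' hi'

/-- **Idempotents.**  `E ≡ 1` at `V i` and `E ≡ 0` at the other `V i'`. -/
theorem exists_idem_multi (V : ι → ValuationSubring F)
    (hinc : ∀ i i', i ≠ i' → ¬ V i ≤ V i') (i : ι) :
    ∃ E : F, (V i).valuation (1 - E) < 1 ∧ ∀ i', i' ≠ i → (V i').valuation E < 1 := by
  classical
  choose w hw1 hw2 using fun i => exists_sep_multi V hinc i
  set W := ∑ i, w i with hW
  have hWval : ∀ i₀, (V i₀).valuation W = 1 := by
    intro i₀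
    have e : W = w i₀ + ∑ x ∈ Finset.univ.erase i₀, w x := by
      rw [hW, Finset.add_sum_erase _ _ (Finset.mem_univ i₀)]
    have hsmall : (V i₀).valuation (∑ x ∈ Finset.univ.erase i₀, w x) < 1 :=
      val_sum_lt_one _ _ _ fun x hx => hw2 x i₀ (Finset.ne_of_mem_erase hx).symm
    rw [e, Valuation.map_add_eq_of_lt_left _ (by rw [hw1]; exact hsmall), hw1]
  have hW0 : W ≠ 0 := by
    intro h0
    have := hWval i
    rw [h0, map_zero] at this
    exact zero_ne_one this
  refine ⟨w i * W⁻¹, ?_, fun i' hi' => ?_⟩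
  · have e : 1 - w i * W⁻¹ = (∑ x ∈ Finset.univ.erase i, w x) * W⁻¹ := by
      have : W = w i + ∑ x ∈ Finset.univ.erase i, w x := by
        rw [hW, Finset.add_sum_erase _ _ (Finset.mem_univ i)]
      field_simp
      rw [this]; ring
    rw [e, map_mul, map_inv₀, hWval i, inv_one, mul_one]
    exact val_sum_lt_one _ _ _ fun x hx => hw2 x i (Finset.ne_of_mem_erase hx).symm
  · rw [map_mul, map_inv₀, hWval i', inv_one, mul_one]
    exact hw2 i i' hi'

/-- **Lifting residues to `⋂ V i'`.** -/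
theorem exists_lift_multi (V : ι → ValuationSubring F)
    (hinc : ∀ i i', i ≠ i' → ¬ V i ≤ V i') (i : ι) {b : F} (hb : b ∈ V i) :
    ∃ g : F, (∀ i', g ∈ V i') ∧ (V i).valuation (g - b) < 1 := by
  classical
  obtain ⟨u, hu1, hu2, hu3⟩ := exists_multiplier V b
  obtain ⟨E, hE1, hE2⟩ := exists_idem_multi V hinc i
  have hEmem : ∀ i', E ∈ V i' := fun i' => by
    by_cases hi : i' = i
    · subst hi
      have : E = 1 - (1 - E) := by ring
      rw [this]
      exact sub_mem (one_mem _) (((V i').valuation_le_one_iff _).1 hE1.le)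
    · exact ((V i').valuation_le_one_iff _).1 (hE2 i' hi).le
  set c := E * u + (1 - E) with hc
  have hcval : ∀ i', (V i').valuation c = 1 := by
    intro i'
    by_cases hi : i' = i
    · subst hi
      have e : c = u + (1 - E) * (1 - u) := by rw [hc]; ring
      have hsm : (V i').valuation ((1 - E) * (1 - u)) < 1 :=
        val_mul_lt_one_left (V i') hE1
          (((V i').valuation_le_one_iff _).2 (sub_mem (one_mem _) (hu1 i')))
      rw [e, Valuation.map_add_eq_of_lt_left _ (by rw [hu3 i' hb]; exact hsm),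
        hu3 i' hb]
    · have e : c = 1 + E * (u - 1) := by rw [hc]; ring
      rw [e]
      refine Valuation.map_one_add_of_lt _ ?_
      exact val_mul_lt_one_left (V i') (hE2 i' hi)
        (((V i').valuation_le_one_iff _).2 (sub_mem (hu1 i') (one_mem _)))
  have hc0 : c ≠ 0 := by
    intro h0
    have := hcval i
    rw [h0, map_zero] at this
    exact zero_ne_one this
  refine ⟨b * u * c⁻¹, fun i' => ?_, ?_⟩
  · rw [← (V i').valuation_le_one_iff, map_mul, map_inv₀, hcval i', inv_one, mul_one]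
    exact ((V i').valuation_le_one_iff _).2 (hu2 i')
  · have e : b * u * c⁻¹ - b = b * ((E - 1) * (1 - u)) * c⁻¹ := by
      field_simp
      rw [hc]; ring
    rw [e, map_mul, map_inv₀, hcval i, inv_one, mul_one]
    refine val_mul_lt_one_right (V i) (((V i).valuation_le_one_iff _).2 hb) ?_
    refine val_mul_lt_one_left (V i) ?_
      (((V i).valuation_le_one_iff _).2 (sub_mem (one_mem _) (hu1 i)))
    have : E - 1 = -(1 - E) := by ring
    rw [this, Valuation.map_neg]; exact hE1

end Multi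

section Unif

variable {F : Type*} [Field F]

/-- **Simultaneous uniformisers.**  For pairwise incomparable valuation rings `V i` and a
generator `τ ≠ 0` of the maximal ideal of `V i` there is `T` with `v i (T) = v i (τ)` which is a
unit at every other `V i'`. -/
theorem exists_unif_multi {ι : Type*} [Fintype ι] (V : ι → ValuationSubring F)
    (hinc : ∀ i i', i ≠ i' → ¬ V i ≤ V i') (i : ι) {τ : F} (hτ0 : τ ≠ 0)
    (hτ : (V i).valuation τ < 1)
    (hgen : ∀ z : F, (V i).valuation z < 1 → (V i).valuation z ≤ (V i).valuation τ) :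
    ∃ T : F, (V i).valuation T = (V i).valuation τ ∧
      ∀ i', i' ≠ i → (V i').valuation T = 1 := by
  classical
  obtain ⟨u, hu1, hu2, hu3⟩ := exists_multiplier V τ
  obtain ⟨E, hE1, hE2⟩ := exists_idem_multi V hinc i
  have hτmem : τ ∈ V i := ((V i).valuation_le_one_iff _).1 hτ.le
  have hui : (V i).valuation u = 1 := hu3 i hτmem
  have hτpos : 0 < (V i).valuation τ := by rw [Valuation.pos_iff]; exact hτ0
  have hEmem : ∀ i', E ∈ V i' := fun i' => by
    by_cases hi : i' = i
    · subst hi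
      have : E = 1 - (1 - E) := by ring
      rw [this]
      exact sub_mem (one_mem _) (((V i').valuation_le_one_iff _).1 hE1.le)
    · exact ((V i').valuation_le_one_iff _).1 (hE2 i' hi).le
  set E' := 1 - (1 - E) ^ 2 with hE'
  have h1 : (V i).valuation (1 - E') < (V i).valuation τ := by
    have e1 : 1 - E' = (1 - E) ^ 2 := by rw [hE']; ring
    rw [e1, map_pow, pow_two]
    calc (V i).valuation (1 - E) * (V i).valuation (1 - E)
        ≤ (V i).valuation τ * (V i).valuation (1 - E) := by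
          gcongr; exact hgen _ hE1
      _ < (V i).valuation τ * 1 := by gcongr
      _ = (V i).valuation τ := mul_one _
  have hE'i : (V i).valuation E' = 1 := by
    have e1 : E' = 1 - (1 - E') := by ring
    rw [e1]
    exact Valuation.map_one_sub_of_lt _ (lt_trans h1 hτ)
  have hE'2 : ∀ i', i' ≠ i → (V i').valuation E' < 1 := by
    intro i' hi
    have e1 : E' = E * (1 + (1 - E)) := by rw [hE']; ring
    rw [e1]
    exact val_mul_lt_one_left (V i') (hE2 i' hi)
      (((V i').valuation_le_one_iff _).2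
        (add_mem (one_mem _) (sub_mem (one_mem _) (hEmem i'))))
  refine ⟨E' * (τ * u) + (1 - E'), ?_, ?_⟩
  · have hA : (V i).valuation (E' * (τ * u)) = (V i).valuation τ := by
      rw [map_mul, map_mul, hE'i, hui, one_mul, mul_one]
    rw [Valuation.map_add_eq_of_lt_left _ (by rw [hA]; exact h1), hA]
  · intro i' hi
    have hB : (V i').valuation (1 - E') = 1 := Valuation.map_one_sub_of_lt _ (hE'2 i' hi)
    have hA : (V i').valuation (E' * (τ * u)) < 1 :=
      val_mul_lt_one_left (V i') (hE'2 i' hi) (((V i').valuation_le_one_iff _).2 (hu2 i'))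
    rw [add_comm, Valuation.map_add_eq_of_lt_left _ (by rw [hB]; exact hA), hB]

/-- `∏ x ^ b i = x ^ ∑ b i` for integer exponents in a commutative group with zero. -/
theorem prod_zpow_eq_zpow_sum {G₀ : Type*} [CommGroupWithZero G₀] {x : G₀} (hx : x ≠ 0)
    {ι : Type*} (s : Finset ι) (b : ι → ℤ) : ∏ i ∈ s, x ^ b i = x ^ ∑ i ∈ s, b i := by
  classical
  induction s using Finset.induction_on with
  | empty => simp
  | insert i s hi ih => rw [Finset.prod_insert hi, Finset.sum_insert hi, ih, zpow_add₀ hx]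

end Unif

end Fermat.Agent.S36.H586.Ap

end
-- ===== PACK-END S36/H586/Approx586.lean

-- ===== PACK-BEGIN S36/H630/CoverLocal.lean
section


/-!
# S36 engine, LABEL core (helper630), part 2: COVER-LOCAL

`F ⊆ Z` fields, `B ⊆ F` and `C ⊆ Z` charts with `B ⊆ C`, `𝔫` a closed point of `C` lying over the
closed point `n` of `B`.  `G ∈ Z` is a Kummer generator, `G ^ m = u ∈ F`, and `d ∈ F` is a purity
datum of `u` at `n`: `u d ^ m` is a unit of `B_n` (`u d ^ m s = a`, `a, s ∈ B ∖ n`).

If `W`, `W'` are sheets of `Z` through `𝔫`, with labels `G ≡ ζ` on `W`, `G ≡ ζ'` on `W'`, and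
`d` has the values `η`, `η'` at `n` along the sheets `W ∩ F`, `W' ∩ F` of `F`, then

  `ζ η ≡ ζ' η'`  modulo `𝔫`                                   (`cover_local`).

No henselisation, no fibre products, no reducedness: the cover is étale at `𝔫` because `u d ^ m`
is a unit, and this is used only through "`s G d` is integral, hence lies in `C`".
-/

set_option autoImplicit false
set_option linter.unusedSectionVars false

namespace Fermat.Agent.S36.H630

variable {R : Type*} [CommRing R] {F : Type*} [Field F] [Algebra R F]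
variable {Z : Type*} [Field Z] [Algebra R Z] [Algebra F Z] [IsScalarTower R F Z]

/-- membership in the maximal ideal of the restriction of a sheet to a subfield -/
theorem mem_nonunits_comap_iff (W : ValuationSubring Z) (y : F) :
    y ∈ (W.comap (algebraMap F Z)).nonunits ↔ algebraMap F Z y ∈ W.nonunits := by
  rw [ValuationSubring.mem_nonunits_iff_or, ValuationSubring.mem_nonunits_iff_or,
    ValuationSubring.mem_comap, map_inv₀, map_eq_zero]

/-- If `y` has the value `η` at `𝔫` along `W` and `s y = c` with `s, c` in the chart, `s ∉ 𝔫`,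
then `c ≡ η s` modulo `𝔫`. -/
theorem ValAt.frac_mem {C : Subalgebra R Z} {𝔫 : Ideal C} [𝔫.IsPrime] {W : ValuationSubring Z}
    (hCW : ChartLe C W) (hth : PassThrough C 𝔫 W) {y : Z} {η : R} (h : ValAt C 𝔫 W y η)
    {s c : C} (hsc : (s : Z) * y = c) : c - algebraMap R C η * s ∈ 𝔫 := by
  obtain ⟨a, b, hb, hV, hn⟩ := h
  have h1 : ((b * c - s * a : C) : Z) ∈ W.nonunits := by
    have : ((b * c - s * a : C) : Z) = (s : Z) * ((b : Z) * y - a) := by
      push_cast
      rw [← hsc]
      ring
    rw [this]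
    exact vnu_mul_left W hV (hCW s)
  have h2 : b * c - s * a ∈ 𝔫 := hth _ h1
  have h3 : b * (c - algebraMap R C η * s) ∈ 𝔫 := by
    have : b * (c - algebraMap R C η * s)
        = (b * c - s * a) + s * (a - algebraMap R C η * b) := by ring
    rw [this]
    exact 𝔫.add_mem h2 (𝔫.mul_mem_left _ hn)
  rcases (Ideal.IsPrime.mem_or_mem ‹𝔫.IsPrime› h3) with h5 | h5
  · exact absurd h5 hb
  · exact h5

section Transfer

variable {B : Subalgebra R F} {C : Subalgebra R Z}
variable {n : Ideal B} {𝔫 : Ideal C}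

/-- The sheet `W ∩ F` passes through `n = 𝔫 ∩ B` if `W` passes through `𝔫`. -/
theorem PassThrough.comap (hBC : ∀ b : B, algebraMap F Z (b : F) ∈ C) {W : ValuationSubring Z}
    (hn𝔫 : ∀ b : B, (⟨algebraMap F Z (b : F), hBC b⟩ : C) ∈ 𝔫 → b ∈ n)
    (hth : PassThrough C 𝔫 W) : PassThrough B n (W.comap (algebraMap F Z)) := by
  intro c hc
  apply hn𝔫
  apply hth
  exact (mem_nonunits_comap_iff W (c : F)).1 hc

theorem ChartLe.comap (hBC : ∀ b : B, algebraMap F Z (b : F) ∈ C) {W : ValuationSubring Z}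
    (hCW : ChartLe C W) :
    ChartLe B (W.comap (algebraMap F Z)) := by
  intro b
  rw [ValuationSubring.mem_comap]
  exact hCW ⟨_, hBC b⟩

/-- **Transfer of values to the cover.** -/
theorem ValAt.map (hBC : ∀ b : B, algebraMap F Z (b : F) ∈ C) {W : ValuationSubring Z}
    (hn𝔫 : ∀ b : B, b ∈ n ↔ (⟨algebraMap F Z (b : F), hBC b⟩ : C) ∈ 𝔫)
    {d : F} {η : R} (h : ValAt B n (W.comap (algebraMap F Z)) d η) :
    ValAt C 𝔫 W (algebraMap F Z d) η := by
  obtain ⟨a, b, hb, hV, hn⟩ := h
  refine ⟨⟨_, hBC a⟩, ⟨_, hBC b⟩, ?_, ?_, ?_⟩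
  · intro h1
    exact hb ((hn𝔫 b).2 h1)
  · have h1 := (mem_nonunits_comap_iff W _).1 hV
    rw [map_sub, map_mul] at h1
    exact h1
  · have h1 := (hn𝔫 _).1 hn
    have h2 : (⟨algebraMap F Z ((a - algebraMap R B η * b : B) : F), hBC _⟩ : C)
        = (⟨_, hBC a⟩ : C) - algebraMap R C η * (⟨_, hBC b⟩ : C) := by
      apply Subtype.ext
      show algebraMap F Z ((a - algebraMap R B η * b : B) : F)
        = algebraMap F Z (a : F) - algebraMap R Z η * algebraMap F Z (b : F)
      have h3 : ((a - algebraMap R B η * b : B) : F) = (a : F) - algebraMap R F η * (b : F) := rfl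
      rw [h3, map_sub, map_mul, ← IsScalarTower.algebraMap_apply]
    rw [h2] at h1
    exact h1

end Transfer

/-- **COVER-LOCAL.**  Sheets of the Kummer cover through a common closed point: the products
`label × value of the purity datum` agree. -/
theorem cover_local
    {B : Subalgebra R F} {C : Subalgebra R Z} (hBC : ∀ b : B, algebraMap F Z (b : F) ∈ C)
    {n : Ideal B} {𝔫 : Ideal C} [𝔫.IsPrime]
    (hn𝔫 : ∀ b : B, b ∈ n ↔ (⟨algebraMap F Z (b : F), hBC b⟩ : C) ∈ 𝔫)
    {m : ℕ} (hroot : ∀ z : Z, z ^ m ∈ C → z ∈ C)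
    {G : Z} {u d : F} (hG : G ^ m = algebraMap F Z u)
    {a₀ s₀ : B} (hs₀ : s₀ ∉ n) (hpure : u * d ^ m * (s₀ : F) = a₀)
    {W W' : ValuationSubring Z} (hCW : ChartLe C W) (hCW' : ChartLe C W')
    (hth : PassThrough C 𝔫 W) (hth' : PassThrough C 𝔫 W')
    {ζ ζ' η η' : R}
    (hζ : G - algebraMap R Z ζ ∈ W.nonunits) (hζ' : G - algebraMap R Z ζ' ∈ W'.nonunits)
    (hη : ValAt B n (W.comap (algebraMap F Z)) d η)
    (hη' : ValAt B n (W'.comap (algebraMap F Z)) d η') :
    algebraMap R C (ζ * η - ζ' * η') ∈ 𝔫 := by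
  have h𝔫top : 𝔫 ≠ ⊤ := Ideal.IsPrime.ne_top ‹𝔫.IsPrime›
  -- the integral element `c = s₀ G d`
  set sZ : C := ⟨_, hBC s₀⟩ with hsZ
  have hsZn : sZ ∉ 𝔫 := fun h => hs₀ ((hn𝔫 s₀).2 h)
  have hcm : ((sZ : Z) * (G * algebraMap F Z d)) ^ m ∈ C := by
    rcases Nat.eq_zero_or_pos m with hm0 | hm0
    · rw [hm0, pow_zero]
      exact C.one_mem
    · obtain ⟨k, hk⟩ : ∃ k, m = k + 1 := ⟨m - 1, (Nat.sub_add_cancel hm0).symm⟩
      have h1 : ((sZ : Z) * (G * algebraMap F Z d)) ^ m
          = algebraMap F Z ((s₀ : F) ^ k * (a₀ : F)) := by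
        have hsZ' : (sZ : Z) = algebraMap F Z (s₀ : F) := rfl
        rw [mul_pow, mul_pow, hG, ← hpure, hsZ', ← map_pow, ← map_pow, ← map_mul, ← map_mul]
        congr 1
        rw [hk]
        ring
      rw [h1]
      have h2 : (s₀ : F) ^ k * (a₀ : F) = ((s₀ ^ k * a₀ : B) : F) := by
        push_cast
        rfl
      rw [h2]
      exact hBC _
  have hc : (sZ : Z) * (G * algebraMap F Z d) ∈ C := hroot _ hcm
  set c : C := ⟨_, hc⟩ with hcdef
  have hsc : (sZ : Z) * (G * algebraMap F Z d) = c := rfl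
  -- values of `G d` along `W` and `W'`
  have hv : ValAt C 𝔫 W (G * algebraMap F Z d) (ζ * η) :=
    (ValAt.const h𝔫top hζ).mul hCW hth (ValAt.map hBC hn𝔫 hη)
  have hv' : ValAt C 𝔫 W' (G * algebraMap F Z d) (ζ' * η') :=
    (ValAt.const h𝔫top hζ').mul hCW' hth' (ValAt.map hBC hn𝔫 hη')
  have h1 := hv.frac_mem hCW hth hsc
  have h2 := hv'.frac_mem hCW' hth' hsc
  have h3 : algebraMap R C (ζ * η - ζ' * η') * sZ ∈ 𝔫 := by
    have : algebraMap R C (ζ * η - ζ' * η') * sZ
        = (c - algebraMap R C (ζ' * η') * sZ) - (c - algebraMap R C (ζ * η) * sZ) := by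
      rw [map_sub]
      ring
    rw [this]
    exact 𝔫.sub_mem h2 h1
  rcases (Ideal.IsPrime.mem_or_mem ‹𝔫.IsPrime› h3) with h5 | h5
  · exact h5
  · exact absurd h5 hsZn

end Fermat.Agent.S36.H630

end
-- ===== PACK-END S36/H630/CoverLocal.lean

-- ===== PACK-BEGIN S36/Mod3/H189/Chart3Abs.lean
section



/-!
# S36 / MOD3, cell CHART3 (helper189) — abstract part (Mathlib only)

The chart fields `chart_α`, `chart_β`, `int_α`, `int_β` of `S36.Eng.TripleCtx` and the membership
of the generators in the charts, in abstract form.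

* `isIntegral_of_monic_eval₂` : `Φ(a; b) = 0`, `Φ ∈ ℤ[Y][X]` monic in `X`, `b ∈ A` ⟹ `a` integral
  over `A`;
* `mem_triple`, `inv_mem_triple` : valuative criterion for `x = a b c` when `a ~ b ~ c` are
  pairwise integral over each other along the chain `a — b — c`;
* `mem_chart_of_forall_valuationSubring` : the valuative criterion for the chart `chart R {x}`;
* `chart_map` : `α x' ∈ chart R {x}` ⟹ `α (chart R {x'}) ⊆ chart R {x}`          (`chart_α`, `chart_β`);
* `int_map` : `x` integral over `α (chart R {x'})` ⟹ `chart R {x}` is integral over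
  `α (chart R {x'})`, in the polynomial form of `TripleCtx`                  (`int_α`, `int_β`).
-/

set_option autoImplicit false

noncomputable section

namespace Fermat.Agent.S36.Mod3.H189

open Polynomial
open Fermat.Agent.S18.H138 (chart mem_chart)

section Valuative

variable {K : Type*} [Field K]

/-- `Φ(X = a; Y = b) = 0` with `Φ` monic in `X` and `b` in a valuation subring `V` gives
`a ∈ V`. -/
theorem mem_valuationSubring_of_monic {a b : K} (Φ : Polynomial (Polynomial ℤ))
    (hΦ : Φ.Monic) (h : Φ.eval₂ (Polynomial.aeval (R := ℤ) b).toRingHom a = 0)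
    (V : ValuationSubring K) (hb : b ∈ V) : a ∈ V := by
  have hint : IsIntegral V a := by
    refine ⟨Φ.map (Polynomial.aeval (R := ℤ) (⟨b, hb⟩ : V)).toRingHom, hΦ.map _, ?_⟩
    rw [Polynomial.eval₂_map]
    rw [← h]
    congr 1
    apply Polynomial.ringHom_ext
    · intro n
      simp
    · simp
  obtain ⟨y, hy⟩ := IsIntegrallyClosed.isIntegral_iff (R := V) (K := K) |>.mp hint
  rw [← hy]
  exact y.2

/-- Valuative criterion for a product of three elements along a chain `a — b — c` of mutually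
integral elements: a valuation subring containing `a b c` contains `a`, `b`, `c`. -/
theorem mem_triple {a b c : K} (V : ValuationSubring K)
    (hab : a ∈ V → b ∈ V) (hba : b ∈ V → a ∈ V) (hbc : b ∈ V → c ∈ V) (hcb : c ∈ V → b ∈ V)
    (hx : a * b * c ∈ V) : a ∈ V ∧ b ∈ V ∧ c ∈ V := by
  by_cases ha : a ∈ V
  · exact ⟨ha, hab ha, hbc (hab ha)⟩
  · exfalso
    have hb : b ∉ V := fun h => ha (hba h)
    have hc : c ∉ V := fun h => hb (hcb h)
    have hb0 : b ≠ 0 := fun h => hb (h ▸ V.zero_mem)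
    have hc0 : c ≠ 0 := fun h => hc (h ▸ V.zero_mem)
    have hbi : b⁻¹ ∈ V := (V.mem_or_inv_mem b).resolve_left hb
    have hci : c⁻¹ ∈ V := (V.mem_or_inv_mem c).resolve_left hc
    have e : a = a * b * c * b⁻¹ * c⁻¹ := by field_simp
    exact ha (e ▸ V.mul_mem _ _ (V.mul_mem _ _ hx hbi) hci)

/-- The same at infinity: a valuation subring containing `(a b c)⁻¹` contains `a⁻¹`, `b⁻¹`,
`c⁻¹`. -/
theorem inv_mem_triple {a b c : K} (ha0 : a ≠ 0) (hb0 : b ≠ 0) (hc0 : c ≠ 0)
    (V : ValuationSubring K)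
    (hab : a ∈ V → b ∈ V) (hba : b ∈ V → a ∈ V) (hbc : b ∈ V → c ∈ V) (hcb : c ∈ V → b ∈ V)
    (hx : (a * b * c)⁻¹ ∈ V) : a⁻¹ ∈ V ∧ b⁻¹ ∈ V ∧ c⁻¹ ∈ V := by
  have key : ∀ y : K, y ∈ V ∨ y⁻¹ ∈ V := V.mem_or_inv_mem
  refine ⟨?_, ?_, ?_⟩
  · by_contra h
    have ha : a ∈ V := (key a).resolve_right h
    have hb : b ∈ V := hab ha
    have hc : c ∈ V := hbc hb
    have e : a⁻¹ = b * c * (a * b * c)⁻¹ := by field_simp
    exact h (e ▸ V.mul_mem _ _ (V.mul_mem _ _ hb hc) hx)
  · by_contra h
    have hb : b ∈ V := (key b).resolve_right h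
    have ha : a ∈ V := hba hb
    have hc : c ∈ V := hbc hb
    have e : b⁻¹ = a * c * (a * b * c)⁻¹ := by field_simp
    exact h (e ▸ V.mul_mem _ _ (V.mul_mem _ _ ha hc) hx)
  · by_contra h
    have hc : c ∈ V := (key c).resolve_right h
    have hb : b ∈ V := hcb hc
    have ha : a ∈ V := hba hb
    have e : c⁻¹ = a * b * (a * b * c)⁻¹ := by field_simp
    exact h (e ▸ V.mul_mem _ _ (V.mul_mem _ _ ha hb) hx)

/-- valuative criterion, one element: `a` lies in every valuation subring containing `x`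
implies `a` is integral over `ℤ[x]`. -/
theorem isIntegral_closure_of_forall {x a : K}
    (h : ∀ V : ValuationSubring K, x ∈ V → a ∈ V) :
    IsIntegral (Subring.closure ({x} : Set K)) a := by
  have key := iInf_valuationSubring_superset (K := K) (s := ({x} : Set K))
  have hmem : a ∈ (integralClosure (Subring.closure ({x} : Set K)) K).toSubring := by
    rw [← key]
    rw [Subring.mem_iInf]
    rintro ⟨V, hV⟩
    exact h V (hV (Set.mem_singleton x))
  exact hmem

end Valuative

section Chart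

variable {R : Type*} [CommRing R] {K : Type*} [Field K] [Algebra R K]

/-- Integrality over `ℤ[x]` gives membership in the chart `chart R {x}`. -/
theorem mem_chart_of_isIntegral_closure {x a : K}
    (h : IsIntegral (Subring.closure ({x} : Set K)) a) : a ∈ chart R ({x} : Set K) := by
  rw [mem_chart]
  have hle : Subring.closure ({x} : Set K) ≤ (Algebra.adjoin R ({x} : Set K)).toSubring :=
    Subring.closure_le.mpr (Set.singleton_subset_iff.mpr (Algebra.subset_adjoin rfl))
  have := IsIntegral.map_of_comp_eq (R := Subring.closure ({x} : Set K)) (S := K)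
    (T := Algebra.adjoin R ({x} : Set K)) (U := K) (Subring.inclusion hle) (RingHom.id K)
    (by ext; rfl) h
  simpa using this

/-- The valuative criterion for the chart. -/
theorem mem_chart_of_forall_valuationSubring {x a : K}
    (h : ∀ V : ValuationSubring K, x ∈ V → a ∈ V) : a ∈ chart R ({x} : Set K) :=
  mem_chart_of_isIntegral_closure (isIntegral_closure_of_forall h)

/-- `Φ(X = a; Y = b) = 0` with `Φ` monic in `X` and `b` in a subalgebra `A` gives: `a` is
integral over `A`. -/
theorem isIntegral_of_monic_eval₂ {A : Subalgebra R K} {a b : K}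
    (Φ : Polynomial (Polynomial ℤ)) (hΦ : Φ.Monic)
    (h : Φ.eval₂ (Polynomial.aeval (R := ℤ) b).toRingHom a = 0) (hb : b ∈ A) :
    IsIntegral A a := by
  refine ⟨Φ.map (Polynomial.aeval (R := ℤ) (⟨b, hb⟩ : A)).toRingHom, hΦ.map _, ?_⟩
  rw [Polynomial.eval₂_map]
  rw [← h]
  congr 1
  apply Polynomial.ringHom_ext
  · intro n
    simp
  · simp

end Chart

section Maps

variable {R E F F' : Type*} [CommRing R] [Field E] [Algebra R E]
  [Field F] [Algebra E F] [Algebra R F] [IsScalarTower R E F]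
  [Field F'] [Algebra E F'] [Algebra R F'] [IsScalarTower R E F']

/-- The image under `α` of the chart `chart R {x'}`, as a subalgebra of `F`. -/
def imgChart (α : F' →ₐ[E] F) (x' : F') : Subalgebra R F :=
  (chart R ({x'} : Set F')).map (α.restrictScalars R)

theorem mem_imgChart {α : F' →ₐ[E] F} {x' : F'} {y : F} :
    y ∈ imgChart (R := R) α x' ↔ ∃ b ∈ chart R ({x'} : Set F'), α b = y := by
  unfold imgChart
  rw [Subalgebra.mem_map]
  rfl

/-- **`chart_α` / `chart_β`, abstract form.**  If `α x'` lies in the chart of `x`, then `α` maps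
the chart of `x'` into the chart of `x`. -/
theorem chart_map {α : F' →ₐ[E] F} {x : F} {x' : F'}
    (h : α x' ∈ chart R ({x} : Set F)) :
    ∀ b ∈ chart R ({x'} : Set F'), α b ∈ chart R ({x} : Set F) := by
  intro b hb
  rw [mem_chart] at hb ⊢
  -- `α b` is integral over the image of `R[x']`
  set A : Subalgebra R F := (Algebra.adjoin R ({x'} : Set F')).map (α.restrictScalars R) with hA
  let φ : Algebra.adjoin R ({x'} : Set F') →+* A :=
    { toFun := fun a => ⟨α (a : F'), by
        rw [hA, Subalgebra.mem_map]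
        exact ⟨(a : F'), a.2, rfl⟩⟩
      map_one' := Subtype.ext (map_one α)
      map_mul' := fun a b => Subtype.ext (map_mul α (a : F') (b : F'))
      map_zero' := Subtype.ext (map_zero α)
      map_add' := fun a b => Subtype.ext (map_add α (a : F') (b : F')) }
  have h1 : IsIntegral A (α b) := by
    have := IsIntegral.map_of_comp_eq (R := Algebra.adjoin R ({x'} : Set F')) (S := F')
      (T := A) (U := F) φ (α : F' →+* F) (by ext a; rfl) hb
    simpa using this
  -- the image of `R[x']` is integral over `R[x]`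
  refine Fermat.Agent.A2.Mod.H189.isIntegral_of_forall_isIntegral ?_ h1
  intro a ha
  rw [hA, Subalgebra.mem_map] at ha
  obtain ⟨a₀, ha₀, rfl⟩ := ha
  induction ha₀ using Algebra.adjoin_induction with
  | mem y hy =>
    rw [Set.mem_singleton_iff] at hy
    subst hy
    exact h
  | algebraMap r =>
    have : (α.restrictScalars R) (algebraMap R F' r) = algebraMap R F r :=
      (α.restrictScalars R).commutes r
    rw [this]
    exact isIntegral_algebraMap (R := Algebra.adjoin R ({x} : Set F))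
      (x := ⟨algebraMap R F r, Subalgebra.algebraMap_mem _ r⟩)
  | add y z _ _ hy hz =>
    rw [map_add]
    exact hy.add hz
  | mul y z _ _ hy hz =>
    rw [map_mul]
    exact hy.mul hz

/-- Integrality over the image of a chart, in the polynomial form of `TripleCtx`. -/
theorem exists_poly_of_isIntegral_imgChart {α : F' →ₐ[E] F} {x' : F'} {b : F}
    (h : IsIntegral (imgChart (R := R) α x') b) :
    ∃ p : Polynomial F', p.Monic ∧ (∀ i, p.coeff i ∈ chart R ({x'} : Set F')) ∧
      (p.map (α : F' →+* F)).eval b = 0 := by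
  obtain ⟨q, hq, hqb⟩ := h
  let ψ : chart R ({x'} : Set F') →+* imgChart (R := R) α x' :=
    { toFun := fun a => ⟨α (a : F'), mem_imgChart.mpr ⟨(a : F'), a.2, rfl⟩⟩
      map_one' := Subtype.ext (map_one α)
      map_mul' := fun a b => Subtype.ext (map_mul α (a : F') (b : F'))
      map_zero' := Subtype.ext (map_zero α)
      map_add' := fun a b => Subtype.ext (map_add α (a : F') (b : F')) }
  have hψ : Function.Surjective ψ := by
    rintro ⟨y, hy⟩
    obtain ⟨a, ha, rfl⟩ := mem_imgChart.mp hy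
    exact ⟨⟨a, ha⟩, rfl⟩
  have hl : q ∈ lifts ψ := by
    rw [lifts_iff_coeff_lifts]
    intro n
    exact hψ _
  obtain ⟨p, hpq, -, hp⟩ := lifts_and_degree_eq_and_monic hl hq
  refine ⟨p.map (chart R ({x'} : Set F')).val.toRingHom, hp.map _, fun i => ?_, ?_⟩
  · rw [coeff_map]
    exact (p.coeff i).2
  · rw [Polynomial.map_map, ← hqb, ← hpq, eval₂_map, eval_map]
    rfl

/-- The polynomial form of `TripleCtx` gives integrality over the image of the chart. -/
theorem isIntegral_imgChart_of_poly {α : F' →ₐ[E] F} {x' : F'} {b : F}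
    (h : ∃ p : Polynomial F', p.Monic ∧ (∀ i, p.coeff i ∈ chart R ({x'} : Set F')) ∧
      (p.map (α : F' →+* F)).eval b = 0) : IsIntegral (imgChart (R := R) α x') b := by
  obtain ⟨p, hp, hc, hpb⟩ := h
  have hcoef : ∀ i, (p.map (α : F' →+* F)).coeff i ∈ (imgChart (R := R) α x').toSubring := by
    intro i
    rw [coeff_map]
    exact mem_imgChart.mpr ⟨p.coeff i, hc i, rfl⟩
  have hsub : ((p.map (α : F' →+* F)).coeffs : Set F) ⊆ (imgChart (R := R) α x').toSubring := by
    intro y hy
    obtain ⟨i, -, rfl⟩ := Polynomial.mem_coeffs_iff.mp (Finset.mem_coe.mp hy)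
    exact hcoef i
  refine ⟨(p.map (α : F' →+* F)).toSubring (imgChart (R := R) α x').toSubring hsub, ?_, ?_⟩
  · exact (Polynomial.monic_toSubring _ _ hsub).mpr (hp.map _)
  · have h1 := Polynomial.map_toSubring (p.map (α : F' →+* F))
      (imgChart (R := R) α x').toSubring hsub
    have h2 : eval₂ (algebraMap (imgChart (R := R) α x') F) b
        ((p.map (α : F' →+* F)).toSubring (imgChart (R := R) α x').toSubring hsub) =
        (((p.map (α : F' →+* F)).toSubring (imgChart (R := R) α x').toSubring hsub).map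
          (imgChart (R := R) α x').toSubring.subtype).eval b := by
      rw [eval_map]
      rfl
    rw [h2, h1]
    exact hpb

/-- **`int_α` / `int_β`, abstract form.**  If `x` is integral over the image of the chart of
`x'`, then the chart of `x` is integral over the image of the chart of `x'`. -/
theorem int_map {α : F' →ₐ[E] F} {x : F} {x' : F'}
    (hx : IsIntegral (imgChart (R := R) α x') x) :
    ∀ b ∈ chart R ({x} : Set F), ∃ p : Polynomial F', p.Monic ∧
      (∀ i, p.coeff i ∈ chart R ({x'} : Set F')) ∧ (p.map (α : F' →+* F)).eval b = 0 := by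
  intro b hb
  rw [mem_chart] at hb
  apply exists_poly_of_isIntegral_imgChart
  refine Fermat.Agent.A2.Mod.H189.isIntegral_of_forall_isIntegral ?_ hb
  intro a ha
  induction ha using Algebra.adjoin_induction with
  | mem y hy =>
    rw [Set.mem_singleton_iff] at hy
    subst hy
    exact hx
  | algebraMap r =>
    exact isIntegral_algebraMap (R := imgChart (R := R) α x')
      (x := ⟨algebraMap R F r, Subalgebra.algebraMap_mem _ r⟩)
  | add y z _ _ hy hz => exact hy.add hz
  | mul y z _ _ hy hz => exact hy.mul hz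

end Maps

end Fermat.Agent.S36.Mod3.H189

end

end
-- ===== PACK-END S36/Mod3/H189/Chart3Abs.lean

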