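import Mathlib
import Fermat.Prelude.Def_ModularCurve_PeriodHomPair
import Mathlib.Algebra.Polynomial.Derivative
import Mathlib.Algebra.Polynomial.Identities
import Mathlib.Algebra.Polynomial.Div
import Mathlib.Algebra.CharZero.Defs
import Fermat.Agent.Pack.S36.E5L3
import Fermat.Agent.Pack.S36.E4L0
import Fermat.Agent.Pack.S36.E5L1
import Fermat.Agent.Pack.S36.E5L2
import Fermat.Agent.Pack.S36.E1L0
import Fermat.Agent.Pack.S36.E1L1
import Fermat.Agent.Pack.S36.E1L2
import Fermat.Agent.Pack.S36.E2L2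
import Fermat.Agent.Pack.S36.E5L0
import Fermat.Agent.Pack.S36.E2L3
import Fermat.Agent.Pack.S36.E6L0
import Fermat.Agent.Pack.S36.E6L3
import Fermat.Agent.Pack.S36.E6L2

-- ===== PACK-BEGIN S21/H381/Parabolic.lean
section




/-!
# S21, piece B: periods of cusp forms are parabolic homomorphisms
-/

set_option autoImplicit false

namespace Fermat.Agent.S21.H381

open CongruenceSubgroup ModularCurve ModularCurve.Period Filter Topology Function Complex
open UpperHalfPlane hiding I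
open scoped Manifold MatrixGroups ModularForm

/-- An element of `SL(2, ℤ)` with `trace ^ 2 = 4` is conjugate (as a Möbius transformation)
to a translation `T ^ n`. -/
theorem exists_conj_T_zpow (γ : SL(2, ℤ))
    (htr : ((γ : Matrix (Fin 2) (Fin 2) ℤ).trace) ^ 2 = 4) :
    ∃ δ : SL(2, ℤ), ∃ n : ℤ, ∀ w : ℍ, γ • (δ • w) = δ • (ModularGroup.T ^ n • w) := by
  have hdet := γ.det_coe
  rw [Matrix.det_fin_two] at hdet
  rw [Matrix.trace_fin_two] at htr
  by_cases hc : γ 1 0 = 0
  · obtain ⟨n, hn⟩ := ModularGroup.exists_eq_T_zpow_of_c_eq_zero hc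
    exact ⟨1, n, fun w => by simp [hn]⟩
  · set a := γ 0 0 with ha
    set b := γ 0 1 with hb
    set c := γ 1 0 with hc'
    set d := γ 1 1 with hd
    set g : ℤ := (Int.gcd (a - d) (2 * c) : ℤ) with hg
    have hg0 : g ≠ 0 := by
      rw [hg]
      intro h
      have h2 : Int.gcd (a - d) (2 * c) = 0 := by exact_mod_cast h
      rw [Int.gcd_eq_zero_iff] at h2
      have : c = 0 := by omega
      exact hc this
    have hga : g ∣ (a - d) := Int.gcd_dvd_left _ _
    have hgc : g ∣ (2 * c) := Int.gcd_dvd_right _ _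
    obtain ⟨p, hp⟩ := hga
    obtain ⟨q, hq⟩ := hgc
    have hcop : IsCoprime p q := by
      have hbez := Int.gcd_eq_gcd_ab (a - d) (2 * c)
      rw [← hg] at hbez
      refine ⟨Int.gcdA (a - d) (2 * c), Int.gcdB (a - d) (2 * c), ?_⟩
      have : g * (Int.gcdA (a - d) (2 * c) * p + Int.gcdB (a - d) (2 * c) * q) = g * 1 := by
        have e1 : g * p = a - d := hp.symm
        have e2 : g * q = 2 * c := hq.symm
        calc g * (Int.gcdA (a - d) (2 * c) * p + Int.gcdB (a - d) (2 * c) * q)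
            = (g * p) * Int.gcdA (a - d) (2 * c) + (g * q) * Int.gcdB (a - d) (2 * c) := by ring
          _ = g := by rw [e1, e2]; exact hbez.symm
          _ = g * 1 := (mul_one g).symm
      exact mul_left_cancel₀ hg0 this
    obtain ⟨δ, hδ0, hδ1⟩ := hcop.exists_SL2_col 0
    have hδdet := δ.det_coe
    rw [Matrix.det_fin_two, hδ0, hδ1] at hδdet
    have hM : (δ⁻¹ * γ * δ) 1 0 = 0 := by
      have hQ : g ^ 2 * (c * p ^ 2 + (d - a) * p * q - b * q ^ 2) = 0 := by
        have e1 : g * p = a - d := hp.symm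
        have e2 : g * q = 2 * c := hq.symm
        have : g ^ 2 * (c * p ^ 2 + (d - a) * p * q - b * q ^ 2)
            = c * (g * p) ^ 2 + (d - a) * (g * p) * (g * q) - b * (g * q) ^ 2 := by ring
        rw [this, e1, e2]
        have h4 : (a + d) ^ 2 = 4 := htr
        have h1 : a * d - b * c = 1 := hdet
        linear_combination (-c) * h4 + (4 * c) * h1
      have hQ' : c * p ^ 2 + (d - a) * p * q - b * q ^ 2 = 0 := by
        rcases mul_eq_zero.mp hQ with h | h
        · exact absurd (pow_eq_zero_iff two_ne_zero |>.mp h) hg0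
        · exact h
      simp only [Matrix.SpecialLinearGroup.coe_mul, Matrix.SpecialLinearGroup.coe_inv,
        Matrix.adjugate_fin_two, Matrix.mul_apply, Fin.sum_univ_two, Matrix.of_apply,
        Matrix.cons_val', Matrix.cons_val_zero, Matrix.cons_val_one, Matrix.empty_val',
        Matrix.cons_val_fin_one, hδ0, hδ1]
      rw [← ha, ← hb, ← hc', ← hd]
      linear_combination hQ'
    obtain ⟨n, hn⟩ := ModularGroup.exists_eq_T_zpow_of_c_eq_zero hM
    refine ⟨δ, n, fun w => ?_⟩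
    rw [← hn w, ← mul_smul, ← mul_smul]
    congr 1
    group

/-- Translation by `T ^ n` preserves the filter `atImInfty`. -/
theorem tendsto_T_zpow_smul_atImInfty (n : ℤ) :
    Tendsto (fun w : ℍ => ModularGroup.T ^ n • w) atImInfty atImInfty := by
  rw [atImInfty, tendsto_comap_iff]
  have : (UpperHalfPlane.im ∘ fun w : ℍ => ModularGroup.T ^ n • w) = UpperHalfPlane.im := by
    funext w
    exact ModularGroup.im_T_zpow_smul w n
  rw [this]
  exact tendsto_comap

variable {N : ℕ} [NeZero N]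

/-- **Piece B**: the period homomorphism of a cusp form kills every `γ` with `trace ^ 2 = 4`. -/
theorem periodMap_mem_parabolicHoms (f : CuspForm (Gamma0 N) 2) :
    periodMap N f ∈ parabolicHoms ℂ (Gamma0 N) ℂ := by
  rw [mem_parabolicHoms_iff]
  intro γ hγ
  obtain ⟨F, hF⟩ := exists_hasEquivariantPrimitive f
  obtain ⟨δ, n, hδ⟩ := exists_conj_T_zpow (γ : SL(2, ℤ)) hγ
  obtain ⟨L, hL⟩ := hF.2.2.2 δ
  have hconst : ∀ w : ℍ, periodMap N f (Additive.ofMul γ)
      = F (δ • (ModularGroup.T ^ n • w)) - F (δ • w) := by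
    intro w
    rw [_root_.Fermat.Agent.S21.H381.periodMap_apply hF γ (δ • w), hδ w]
  have h1 : Tendsto (fun w : ℍ => F (δ • (ModularGroup.T ^ n • w)) - F (δ • w)) atImInfty
      (𝓝 (L - L)) :=
    (hL.comp (tendsto_T_zpow_smul_atImInfty n)).sub hL
  have h2 : Tendsto (fun w : ℍ => F (δ • (ModularGroup.T ^ n • w)) - F (δ • w)) atImInfty
      (𝓝 (periodMap N f (Additive.ofMul γ))) := by
    have : (fun w : ℍ => F (δ • (ModularGroup.T ^ n • w)) - F (δ • w))
        = fun _ => periodMap N f (Additive.ofMul γ) := funext fun w => (hconst w).symm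
    rw [this]; exact tendsto_const_nhds
  have := tendsto_nhds_unique h2 h1
  rw [sub_self] at this
  exact this

/-- **Piece B'**: the range of `periodHomPair` consists of parabolic homomorphisms. -/
theorem range_periodHomPair_le :
    LinearMap.range (periodHomPair N) ≤ parabolicHoms ℂ (Gamma0 N) ℂ := by
  rintro ψ ⟨⟨f, g⟩, rfl⟩
  rw [_root_.Fermat.Agent.S21.H381.periodHomPair_apply]
  have hf := _root_.Fermat.Agent.S21.H381.periodMap_mem_parabolicHoms f
  have hg := _root_.Fermat.Agent.S21.H381.periodMap_mem_parabolicHoms g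
  exact Submodule.add_mem _
    (Submodule.add_mem _ hf (charInvolution_mem_parabolicHoms N ℂ ℂ hf))
    (Submodule.sub_mem _ hg (charInvolution_mem_parabolicHoms N ℂ ℂ hg))

end Fermat.Agent.S21.H381

end
-- ===== PACK-END S21/H381/Parabolic.lean

-- ===== PACK-BEGIN Lib/RR/Approx.lean
section


/-!
# RR library: separation / approximation for finitely many places

(The first three lemmas follow helper144's `S24/Alg/LocApprox.lean`.)
-/

set_option autoImplicit false

noncomputable section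

open AlgebraicCurve

namespace Fermat.Agent.Lib.RR

variable {K F : Type*} [Field K] [Field F] [Algebra K F]

/-- The valuation rings of two places are comparable only if the places are equal. -/
theorem place_eq_of_le {v w : Place K F} (h : v.toValuationSubring ≤ w.toValuationSubring) :
    v = w := by
  apply Place.ext
  refine le_antisymm h ?_
  intro f hf
  by_contra hfv
  have hfw : 0 ≤ w.ord f := ord_nonneg_of_mem w hf
  have hfv' : v.ord f < 0 := by
    by_contra h0
    exact hfv (mem_of_ord_nonneg v (not_lt.mp h0))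
  have hf0 : f ≠ 0 := ne_zero_of_ord_ne_zero v hfv'.ne
  obtain ⟨h1, hh1⟩ := exists_ord_eq_one w
  have hh0 : h1 ≠ 0 := ne_zero_of_ord_ne_zero w (by omega)
  set r : ℕ := (v.ord h1).toNat + 1 with hr
  have hfr : f ^ r ≠ 0 := pow_ne_zero r hf0
  have hv : v.ord (f ^ r * h1) < 0 := by
    rw [v.ord_mul hfr hh0, ord_pow]
    have : (r : ℤ) * v.ord f ≤ -(r : ℤ) := by nlinarith
    have : v.ord h1 ≤ (v.ord h1).toNat := Int.self_le_toNat _
    have : (r : ℤ) = (v.ord h1).toNat + 1 := by rw [hr]; push_cast; ring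
    omega
  have hmem : (f ^ r * h1)⁻¹ ∈ w.toValuationSubring := by
    apply h
    apply mem_of_ord_nonneg
    rw [v.ord_inv]; omega
  have hw := ord_nonneg_of_mem w hmem
  rw [w.ord_inv, w.ord_mul hfr hh0, ord_pow, hh1] at hw
  have : 0 ≤ (r : ℤ) * w.ord f := mul_nonneg (Int.natCast_nonneg r) hfw
  omega

/-- Two distinct places are separated by a function. -/
theorem exists_sep {v w : Place K F} (hvw : v ≠ w) :
    ∃ c : F, 0 < v.ord c ∧ w.ord c < 0 := by
  have h1 : ¬ v.toValuationSubring ≤ w.toValuationSubring := fun h => hvw (place_eq_of_le h)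
  have h2 : ¬ w.toValuationSubring ≤ v.toValuationSubring :=
    fun h => hvw (place_eq_of_le h).symm
  obtain ⟨a, hav, haw⟩ := SetLike.not_le_iff_exists.mp h1
  obtain ⟨b, hbw, hbv⟩ := SetLike.not_le_iff_exists.mp h2
  have hav' : 0 ≤ v.ord a := ord_nonneg_of_mem v hav
  have hbw' : 0 ≤ w.ord b := ord_nonneg_of_mem w hbw
  have haw' : w.ord a < 0 := by
    by_contra h0; exact haw (mem_of_ord_nonneg w (not_lt.mp h0))
  have hbv' : v.ord b < 0 := by
    by_contra h0; exact hbv (mem_of_ord_nonneg v (not_lt.mp h0))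
  have ha0 : a ≠ 0 := ne_zero_of_ord_ne_zero w haw'.ne
  have hb0 : b ≠ 0 := ne_zero_of_ord_ne_zero v hbv'.ne
  refine ⟨a * b⁻¹, ?_, ?_⟩
  · rw [v.ord_mul ha0 (inv_ne_zero hb0), v.ord_inv]; omega
  · rw [w.ord_mul ha0 (inv_ne_zero hb0), w.ord_inv]; omega

/-- For a place `v` outside a finite set `S` of places there is a function with a zero at `v` and
poles at all places of `S`. -/
theorem exists_zero_poles (v : Place K F) (S : Finset (Place K F)) (hv : v ∉ S) :
    ∃ g : F, 0 < v.ord g ∧ ∀ w ∈ S, w.ord g < 0 := by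
  classical
  induction S using Finset.induction_on with
  | empty =>
    obtain ⟨h, hh⟩ := exists_ord_eq_one v
    exact ⟨h, by omega, by simp⟩
  | insert w₀ S' hw₀ ih =>
    have hv' : v ∉ S' := fun h => hv (Finset.mem_insert_of_mem h)
    have hvw₀ : v ≠ w₀ := fun h => hv (h ▸ Finset.mem_insert_self _ _)
    obtain ⟨g, hgv, hgS⟩ := ih hv'
    obtain ⟨c, hcv, hcw⟩ := exists_sep hvw₀
    have hg0 : g ≠ 0 := ne_zero_of_ord_ne_zero v hgv.ne'
    have hc0 : c ≠ 0 := ne_zero_of_ord_ne_zero v hcv.ne'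
    by_cases hgw : w₀.ord g < 0
    · refine ⟨g, hgv, ?_⟩
      intro w hw
      rcases Finset.mem_insert.mp hw with rfl | hw
      · exact hgw
      · exact hgS w hw
    · have hgw := not_lt.mp hgw
      set r : ℕ := (∑ w ∈ S', (w.ord c).natAbs) + 1 with hr
      have hrS : ∀ w ∈ S', -(r : ℤ) < w.ord c := by
        intro w hw
        have h1 : (w.ord c).natAbs ≤ ∑ w ∈ S', (w.ord c).natAbs :=
          Finset.single_le_sum (f := fun w : Place K F => (w.ord c).natAbs)
            (fun _ _ => Nat.zero_le _) hw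
        have h2 : (r : ℤ) = ((∑ w ∈ S', (w.ord c).natAbs : ℕ) : ℤ) + 1 := by
          rw [hr]; push_cast; ring
        have h3 : ((w.ord c).natAbs : ℤ) ≤ ((∑ w ∈ S', (w.ord c).natAbs : ℕ) : ℤ) := by
          exact_mod_cast h1
        omega
      have hr1 : 1 ≤ r := by omega
      have hgr0 : g ^ r ≠ 0 := pow_ne_zero r hg0
      have hw₀' : w₀.ord (c + g ^ r) = w₀.ord c := by
        apply ord_add_eq_of_lt w₀ hc0 hgr0
        rw [ord_pow]
        have : 0 ≤ (r : ℤ) * w₀.ord g := mul_nonneg (Int.natCast_nonneg r) hgw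
        omega
      have hsum0 : c + g ^ r ≠ 0 := ne_zero_of_ord_ne_zero w₀ (by rw [hw₀']; omega)
      refine ⟨c + g ^ r, ?_, ?_⟩
      · have h1 := ord_add v hc0 hgr0 hsum0
        rw [ord_pow] at h1
        have h2 : 0 < (r : ℤ) * v.ord g := mul_pos (by exact_mod_cast hr1) hgv
        have h3 : 0 < min (v.ord c) ((r : ℤ) * v.ord g) := lt_min hcv h2
        omega
      · intro w hw
        rcases Finset.mem_insert.mp hw with rfl | hw
        · rw [hw₀']; exact hcw
        · have h1 : w.ord (g ^ r) < w.ord c := by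
            rw [ord_pow]
            have h2 := hgS w hw
            have h3 := hrS w hw
            have h4 : (r : ℤ) * w.ord g ≤ -(r : ℤ) := by nlinarith
            omega
          rw [add_comm, ord_add_eq_of_lt w hgr0 hc0 h1, ord_pow]
          have h2 := hgS w hw
          have hrpos : (0 : ℤ) < r := by exact_mod_cast hr1
          exact mul_neg_of_pos_of_neg hrpos h2

/-- For a place `v` outside a finite set `S` of places and every `M` there is a function which is
a unit at `v` and vanishes to order at least `M` at all places of `S`. -/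
theorem exists_unit_zeros (v : Place K F) (S : Finset (Place K F)) (hv : v ∉ S) (M : ℕ) :
    ∃ s : F, s ≠ 0 ∧ v.ord s = 0 ∧ ∀ w ∈ S, (M : ℤ) ≤ w.ord s := by
  obtain ⟨g, hgv, hgS⟩ := exists_zero_poles v S hv
  have hg0 : g ≠ 0 := ne_zero_of_ord_ne_zero v hgv.ne'
  -- `u = g⁻¹` has a pole at `v` and zeros on `S`; `s = 1 / (1 + g ^ (M+1))`
  set r : ℕ := M + 1 with hr
  have hgr0 : g ^ r ≠ 0 := pow_ne_zero r hg0
  have hrpos : (0 : ℤ) < r := by rw [hr]; push_cast; omega
  have hv1 : v.ord (1 + g ^ r) = 0 := by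
    have h1 : v.ord (1 : F) < v.ord (g ^ r) := by
      rw [v.ord_one, ord_pow]; exact mul_pos hrpos hgv
    rw [ord_add_eq_of_lt v one_ne_zero hgr0 h1, v.ord_one]
  have hne : (1 + g ^ r : F) ≠ 0 := by
    intro h0
    have h1 : v.ord (1 : F) < v.ord (g ^ r) := by
      rw [v.ord_one, ord_pow]; exact mul_pos hrpos hgv
    have h2 : g ^ r = -1 := by rw [← sub_eq_zero, sub_neg_eq_add, add_comm]; exact h0
    rw [h2, ord_neg, v.ord_one] at h1
    exact lt_irrefl _ h1
  refine ⟨(1 + g ^ r)⁻¹, inv_ne_zero hne, by rw [v.ord_inv, hv1, neg_zero], ?_⟩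
  intro w hw
  have hgw := hgS w hw
  have h1 : w.ord (g ^ r) < w.ord (1 : F) := by
    rw [w.ord_one, ord_pow]; exact mul_neg_of_pos_of_neg hrpos hgw
  have h2 : w.ord (1 + g ^ r) = w.ord (g ^ r) := by
    rw [add_comm]; exact ord_add_eq_of_lt w hgr0 one_ne_zero h1
  rw [w.ord_inv, h2, ord_pow]
  have h3 : (r : ℤ) * w.ord g ≤ -(r : ℤ) := by nlinarith
  rw [hr] at h3 ⊢
  push_cast at h3 ⊢
  omega

/-- The order of a finite sum all of whose terms are `0` or of order `> n`. -/
theorem ord_sum_gt (v : Place K F) {ι : Type*} (s : Finset ι) (y : ι → F) (n : ℤ)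
    (h : ∀ i ∈ s, y i = 0 ∨ n < v.ord (y i)) :
    ∑ i ∈ s, y i = 0 ∨ n < v.ord (∑ i ∈ s, y i) := by
  classical
  induction s using Finset.induction_on with
  | empty => left; simp
  | insert a s ha ih =>
    rw [Finset.sum_insert ha]
    have h1 := h a (Finset.mem_insert_self _ _)
    have h2 := ih (fun i hi => h i (Finset.mem_insert_of_mem hi))
    have h1' : y a = 0 ∨ n + 1 ≤ v.ord (y a) := h1.imp id (fun h => by omega)
    have h2' : ∑ i ∈ s, y i = 0 ∨ n + 1 ≤ v.ord (∑ i ∈ s, y i) := h2.imp id (fun h => by omega)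
    exact (ord_add_of_le v h1' h2').imp id (fun h => by omega)

end Fermat.Agent.Lib.RR

end
end
-- ===== PACK-END Lib/RR/Approx.lean

-- ===== PACK-BEGIN S18/Mod/H216/Vc.lean
section


/-!
# S18 / MOD-ASM (helper216): the Gauss valuation ring `Vc M A E` as a `Subring`

`Mod.VcSet M A E` (frozen in `Mod/Defs.lean`) is only a set.  Here:

* `intE M A E : Subring (LaurentSeries A)` — the series satisfying `IsIntE M A E`;
* `Vc M A E : Subring (Om M)` with `(Vc M A E : Set (Om M)) = VcSet M A E` (`coe_Vc`);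
* `mem_Vc_iff`, `mem_Vc_of_isIntE`.
-/

set_option autoImplicit false

noncomputable section

namespace Fermat.Agent.S18.Mod.H216

open ModularCurve AlgebraicCurve HahnSeries Fermat.Agent.S18 Fermat.Agent.S18.Mod

variable (M : ℕ) (A : ValuationSubring Qb) (E : IntermediateField ℚ Qb)

/-- The coercion `Ω = F_M → Q̄((q))` as a ring homomorphism. -/
def omVal : Om M →+* LaurentSeries Qb := (modularFunctionFieldBar M).val.toRingHom

@[simp] theorem omVal_apply (f : Om M) : omVal M f = (f : LaurentSeries Qb) := rfl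

theorem omVal_injective : Function.Injective (omVal M) := Subtype.val_injective

/-- Series over `Q̄` all of whose coefficients lie in `E`. -/
def coeffsIn : Subring (LaurentSeries Qb) where
  carrier := {U | ∀ n : ℤ, U.coeff n ∈ E}
  zero_mem' := fun n => by simp
  one_mem' := fun n => by
    rw [HahnSeries.coeff_one]
    split_ifs
    · exact one_mem _
    · exact zero_mem _
  add_mem' := fun {a b} ha hb n => by
    rw [HahnSeries.coeff_add]
    exact add_mem (ha n) (hb n)
  neg_mem' := fun {a} ha n => by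
    rw [HahnSeries.coeff_neg]
    exact neg_mem (ha n)
  mul_mem' := fun {a b} ha hb n => by
    rw [HahnSeries.coeff_mul]
    exact sum_mem fun ij _ => mul_mem (ha _) (hb _)

theorem mem_coeffsIn {U : LaurentSeries Qb} : U ∈ coeffsIn E ↔ ∀ n : ℤ, U.coeff n ∈ E := Iff.rfl

/-- The subring of `A((q))` cut out by `IsIntE`. -/
def intE : Subring (LaurentSeries A) :=
  (coeffsIn E).comap (coeffMap A.subtype) ⊓
    ((Fc M E).toSubring.map (omVal M)).comap (coeffMap A.subtype)

theorem mem_intE {U : LaurentSeries A} : U ∈ intE M A E ↔ IsIntE M A E U := by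
  constructor
  · rintro ⟨h1, f, hf, hfU⟩
    exact ⟨fun n => h1 n, f, hf, hfU⟩
  · rintro ⟨h1, f, hf, hfU⟩
    exact ⟨fun n => h1 n, f, hf, hfU⟩

theorem red_mul_ne_zero {U V : LaurentSeries A}
    (hU : coeffMap (IsLocalRing.residue A) U ≠ 0) (hV : coeffMap (IsLocalRing.residue A) V ≠ 0) :
    coeffMap (IsLocalRing.residue A) (U * V) ≠ 0 := by
  rw [map_mul]
  exact mul_ne_zero hU hV

theorem red_one_ne_zero : coeffMap (IsLocalRing.residue A) (1 : LaurentSeries A) ≠ 0 := by
  rw [map_one]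
  exact one_ne_zero

/-- The Gauss valuation ring of `Fc M E`, as a subring of `Ω`. -/
def Vc : Subring (Om M) where
  carrier := VcSet M A E
  zero_mem' := by
    refine ⟨zero_mem _, 0, 1, (mem_intE M A E).mp (zero_mem _), (mem_intE M A E).mp (one_mem _),
      red_one_ne_zero A, ?_⟩
    simp
  one_mem' := by
    refine ⟨one_mem _, 1, 1, (mem_intE M A E).mp (one_mem _), (mem_intE M A E).mp (one_mem _),
      red_one_ne_zero A, ?_⟩
    simp
  add_mem' := by
    rintro f g ⟨hf, U₁, U₂, h₁, h₂, hne, heq⟩ ⟨hg, W₁, W₂, k₁, k₂, kne, keq⟩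
    rw [← mem_intE] at h₁ h₂ k₁ k₂
    refine ⟨add_mem hf hg, U₁ * W₂ + W₁ * U₂, U₂ * W₂,
      (mem_intE M A E).mp (add_mem (mul_mem h₁ k₂) (mul_mem k₁ h₂)),
      (mem_intE M A E).mp (mul_mem h₂ k₂), red_mul_ne_zero A hne kne, ?_⟩
    push_cast
    rw [map_add, map_mul, map_mul, map_mul, ← heq, ← keq]
    ring
  neg_mem' := by
    rintro f ⟨hf, U₁, U₂, h₁, h₂, hne, heq⟩
    rw [← mem_intE] at h₁ h₂
    refine ⟨neg_mem hf, -U₁, U₂, (mem_intE M A E).mp (neg_mem h₁), (mem_intE M A E).mp h₂,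
      hne, ?_⟩
    push_cast
    rw [map_neg, ← heq]
    ring
  mul_mem' := by
    rintro f g ⟨hf, U₁, U₂, h₁, h₂, hne, heq⟩ ⟨hg, W₁, W₂, k₁, k₂, kne, keq⟩
    rw [← mem_intE] at h₁ h₂ k₁ k₂
    refine ⟨mul_mem hf hg, U₁ * W₁, U₂ * W₂, (mem_intE M A E).mp (mul_mem h₁ k₁),
      (mem_intE M A E).mp (mul_mem h₂ k₂), red_mul_ne_zero A hne kne, ?_⟩
    push_cast
    rw [map_mul, map_mul, ← heq, ← keq]
    ring

@[simp] theorem coe_Vc : (Vc M A E : Set (Om M)) = VcSet M A E := rfl

theorem mem_Vc_iff {f : Om M} : f ∈ Vc M A E ↔ f ∈ VcSet M A E := Iff.rfl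

theorem Vc_le_Fc : (Vc M A E : Set (Om M)) ⊆ Fc M E := fun _ hf => hf.1

/-- An `E`-rational integral series lying in `Fc` gives an element of `Vc`. -/
theorem mem_Vc_of_isIntE {f : Om M} {U : LaurentSeries A} (hU : IsIntE M A E U)
    (hfU : (f : LaurentSeries Qb) = coeffMap A.subtype U) : f ∈ Vc M A E := by
  obtain ⟨h1, g, hg, hgU⟩ := hU
  have hfg : f = g := Subtype.ext (hfU.trans hgU.symm)
  refine ⟨hfg ▸ hg, U, 1, ⟨h1, g, hg, hgU⟩, (mem_intE M A E).mp (one_mem _), red_one_ne_zero A, ?_⟩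
  rw [map_one, mul_one, hfU]

end Fermat.Agent.S18.Mod.H216

end
end
-- ===== PACK-END S18/Mod/H216/Vc.lean

-- ===== PACK-BEGIN S18/Mod/H216/QepAbs.lean
section



/-!
# S18 / MOD (helper216): the q-expansion principle, ABSTRACT form (Mathlib-only + Lemma M)

Setting of `Alg/Spec.lean`: `R ⊆ Ec ⊆ Fc ⊆ Ω`, Gauss valuation ring `V`, uniformiser `w`,
coordinate `x`.  For `t ∈ {x, x⁻¹}` a **denominator statement**

    `Den t` : ∀ f ∈ Fc ∩ V, ∃ s ∈ R[t], s ∉ wV, s·f integral over R[t]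

implies the q-expansion principle on the chart `R[t]` (`qep_of_den`; Lemma M of S28/H806).
`den_inv_of_den` transfers `Den x` to `Den x⁻¹`, so that

    `partQep_of_den` : PartR + PartV + x ∈ V + x transcendental over R + Den x  ⟹  PartQep.
-/

set_option autoImplicit false
set_option linter.unusedSectionVars false
set_option linter.style.haveILetI false

noncomputable section

namespace Fermat.Agent.S18.Mod.H216

open Polynomial Fermat.Agent.S18.Alg

variable {Ω : Type*} [Field Ω]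

section PolyRing

variable (R : Subring Ω) (t : Ω)

/-- Evaluation `R[X] → Ω`, `X ↦ t`. -/
def evR : (↥R)[X] →+* Ω := Polynomial.eval₂RingHom R.subtype t

theorem evR_apply (p : (↥R)[X]) : evR R t p = p.eval₂ R.subtype t := rfl

theorem evR_C (r : R) : evR R t (C r) = (r : Ω) := by simp [evR]

theorem evR_X : evR R t X = t := by simp [evR]

theorem evR_eq_sum (p : (↥R)[X]) :
    evR R t p = ∑ i ∈ Finset.range (p.natDegree + 1), ((p.coeff i : R) : Ω) * t ^ i := by
  rw [evR_apply, Polynomial.eval₂_eq_sum_range]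
  rfl

theorem polyRing_eq_range : polyRing R t = (evR R t).range := by
  apply le_antisymm
  · rw [polyRing, Subring.closure_le]
    rintro u (hu | hu)
    · exact ⟨C ⟨u, hu⟩, evR_C R t _⟩
    · rw [Set.mem_singleton_iff] at hu
      rw [hu]
      exact ⟨X, evR_X R t⟩
  · rintro _ ⟨p, rfl⟩
    rw [evR_eq_sum]
    refine sum_mem fun i _ => mul_mem ?_ (pow_mem ?_ i)
    · exact Subring.subset_closure (Or.inl (p.coeff i).2)
    · exact Subring.subset_closure (Or.inr rfl)

theorem mem_polyRing_iff {u : Ω} : u ∈ polyRing R t ↔ ∃ p : (↥R)[X], evR R t p = u := by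
  rw [polyRing_eq_range]
  rfl

theorem le_polyRing : R ≤ polyRing R t := fun _ hr => Subring.subset_closure (Or.inl hr)

theorem self_mem_polyRing : t ∈ polyRing R t := Subring.subset_closure (Or.inr rfl)

theorem polyRing_le {V : Subring Ω} (hRV : R ≤ V) (ht : t ∈ V) : polyRing R t ≤ V := by
  rw [polyRing, Subring.closure_le]
  rintro u (hu | hu)
  · exact hRV hu
  · rw [Set.mem_singleton_iff] at hu
    rw [hu]
    exact ht

/-- `R[X] ≃ R[t]` when `t` is transcendental over `R`. -/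
def polyEquiv (htr : Function.Injective (evR R t)) : (↥R)[X] ≃+* ↥(polyRing R t) :=
  (RingEquiv.ofBijective (evR R t).rangeRestrict
    ⟨fun a b h => htr (congrArg Subtype.val h), (evR R t).rangeRestrict_surjective⟩).trans
    (RingEquiv.subringCongr (polyRing_eq_range R t).symm)

end PolyRing

section Main

variable {Ec Fc : Subfield Ω} {R V : Subring Ω} {w x : Ω}

theorem dvd_total_of_partR (hR : PartR Ec R w) (a b : ↥R) :
    ∃ c : ↥R, a * c = b ∨ b * c = a := by
  by_cases ha : (a : Ω) = 0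
  · refine ⟨0, Or.inr ?_⟩
    apply Subtype.ext
    simp [ha]
  by_cases hb : (b : Ω) = 0
  · refine ⟨0, Or.inl ?_⟩
    apply Subtype.ext
    simp [hb]
  have hmem : (b : Ω) * (a : Ω)⁻¹ ∈ Ec := mul_mem (hR.R_le b.2) (inv_mem (hR.R_le a.2))
  rcases hR.R_total _ hmem with h | h
  · refine ⟨⟨_, h⟩, Or.inl ?_⟩
    apply Subtype.ext
    show (a : Ω) * ((b : Ω) * (a : Ω)⁻¹) = b
    field_simp
  · refine ⟨⟨_, h⟩, Or.inr ?_⟩
    apply Subtype.ext
    show (b : Ω) * ((b : Ω) * (a : Ω)⁻¹)⁻¹ = a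
    field_simp

theorem valuationRing_of_partR (hR : PartR Ec R w) : ValuationRing ↥R :=
  haveI : PreValuationRing ↥R := ⟨dvd_total_of_partR hR⟩
  {}

end Main

section Residue

variable {Fc : Subfield Ω} {R V : Subring Ω} {w x : Ω}

/-- The ideal `wV` of `V`. -/
def wIdeal (V : Subring Ω) (w : Ω) (hw : w ∈ V) : Ideal ↥V := Ideal.span {(⟨w, hw⟩ : ↥V)}

theorem mem_wIdeal_iff (hw : w ∈ V) (hw0 : w ≠ 0) (u : ↥V) :
    u ∈ wIdeal V w hw ↔ (u : Ω) * w⁻¹ ∈ V := by
  rw [wIdeal, Ideal.mem_span_singleton]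
  constructor
  · rintro ⟨c, hc⟩
    have h1 : (u : Ω) = w * c := congrArg Subtype.val hc
    have h2 : (u : Ω) * w⁻¹ = c := by rw [h1]; field_simp
    rw [h2]
    exact c.2
  · intro h
    refine ⟨⟨_, h⟩, Subtype.ext ?_⟩
    show (u : Ω) = w * ((u : Ω) * w⁻¹)
    field_simp

theorem wIdeal_isPrime (hV : PartV Fc R V w x) (hwV : w ∈ V) (hw0 : w ≠ 0) :
    (wIdeal V w hwV).IsPrime := by
  rw [Ideal.isPrime_iff]
  constructor
  · intro h
    have h1 : (1 : ↥V) ∈ wIdeal V w hwV := by rw [h]; trivial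
    rw [mem_wIdeal_iff hwV hw0] at h1
    apply hV.w_inv_not_mem_V
    simpa using h1
  · intro a b hab
    rw [mem_wIdeal_iff hwV hw0] at hab
    rw [mem_wIdeal_iff hwV hw0, mem_wIdeal_iff hwV hw0]
    by_contra hcon
    push Not at hcon
    have ha : (a : Ω)⁻¹ ∈ V := by
      by_contra h
      exact hcon.1 (hV.V_gen a a.2 h)
    have ha0 : (a : Ω) ≠ 0 := by
      intro h0
      apply hcon.1
      rw [h0, zero_mul]
      exact zero_mem _
    have h3 : (b : Ω) * w⁻¹ = (a : Ω)⁻¹ * (((a * b : ↥V) : Ω) * w⁻¹) := by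
      push_cast
      field_simp
    exact hcon.2 (h3 ▸ mul_mem ha hab)

end Residue

section Qep

variable {Ec Fc : Subfield Ω} {R V : Subring Ω} {w x : Ω}

/-- Kernel form of the Gauss property for the chart parameter `t`: a polynomial in `t` over `R`
lying in `wV` has all its coefficients in `wR`. -/
def KernelAt (R V : Subring Ω) (w t : Ω) : Prop :=
  ∀ p : (↥R)[X], evR R t p * w⁻¹ ∈ V → ∀ i, ((p.coeff i : ↥R) : Ω) * w⁻¹ ∈ R

/-- The denominator statement on the chart `R[t]`. -/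
def DenAt (Fc : Subfield Ω) (R V : Subring Ω) (w t : Ω) : Prop :=
  ∀ f ∈ Fc, f ∈ V → ∃ s ∈ polyRing R t, s * w⁻¹ ∉ V ∧ IsIntegral (polyRing R t) (s * f)

/-- **QEP from denominators** (Lemma M). -/
theorem qep_of_den (hR : PartR Ec R w) (hV : PartV Fc R V w x) (hEF : Ec ≤ Fc) {t : Ω}
    (htV : t ∈ V) (htr : Function.Injective (evR R t)) (hker : KernelAt R V w t)
    (hden : DenAt Fc R V w t) :
    ∀ b ∈ chart Fc R t, b * w⁻¹ ∈ V → b * w⁻¹ ∈ chart Fc R t := by
  intro b hb hbV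
  have hwR := hR.w_mem
  have hwV : w ∈ V := hV.R_le_V hwR
  have hw0 := hR.w_ne_zero
  have hwF : w ∈ Fc := hEF (hR.R_le hwR)
  have hyF : b * w⁻¹ ∈ Fc := mul_mem hb.1 (inv_mem hwF)
  refine ⟨hyF, ?_⟩
  obtain ⟨s, hsP, hsV, hsint⟩ := hden _ hyF hbV
  haveI := valuationRing_of_partR hR
  haveI : IsIntegrallyClosed ↥(polyRing R t) := IsIntegrallyClosed.of_equiv (polyEquiv R t htr)
  haveI := wIdeal_isPrime hV hwV hw0
  have hPV : polyRing R t ≤ V := polyRing_le R t hV.R_le_V htV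
  let red : ↥(polyRing R t) →+* (↥V ⧸ wIdeal V w hwV) :=
    (Ideal.Quotient.mk _).comp (Subring.inclusion hPV)
  have hred : ∀ u : ↥(polyRing R t), red u = 0 ↔ (u : Ω) * w⁻¹ ∈ V := by
    intro u
    show Ideal.Quotient.mk _ (Subring.inclusion hPV u) = 0 ↔ _
    rw [Ideal.Quotient.eq_zero_iff_mem, mem_wIdeal_iff hwV hw0]
    rfl
  let ell : ↥(polyRing R t) := ⟨w, le_polyRing R t hwR⟩
  refine Fermat.Agent.S28.H806.isIntegral_of_isIntegral_smul_of_isIntegral_smul red ell ⟨s, hsP⟩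
    ?_ ?_ ?_ ?_ (b * w⁻¹) ?_ ?_
  · intro h
    exact hw0 (congrArg Subtype.val h)
  · rw [hred]
    show w * w⁻¹ ∈ V
    rw [mul_inv_cancel₀ hw0]
    exact one_mem _
  · intro u hu
    rw [hred] at hu
    obtain ⟨p, hp⟩ := (mem_polyRing_iff R t).mp u.2
    have hc := hker p (by rw [hp]; exact hu)
    have hmem : (u : Ω) * w⁻¹ ∈ polyRing R t := by
      rw [← hp, evR_eq_sum, Finset.sum_mul]
      refine sum_mem fun i _ => ?_
      have h4 : ((p.coeff i : ↥R) : Ω) * t ^ i * w⁻¹ = (((p.coeff i : ↥R) : Ω) * w⁻¹) * t ^ i := by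
        ring
      rw [h4]
      exact mul_mem (le_polyRing R t (hc i)) (pow_mem (self_mem_polyRing R t) i)
    refine ⟨⟨_, hmem⟩, Subtype.ext ?_⟩
    show (u : Ω) = w * ((u : Ω) * w⁻¹)
    field_simp
  · rw [Ne, hred]
    exact hsV
  · have h5 : ell • (b * w⁻¹) = b := by
      show w * (b * w⁻¹) = b
      field_simp
    rw [h5]
    exact hb.2
  · exact hsint

/-- The kernel property for `x` from the `gauss` field. -/
theorem kernelAt_of_gauss (hR : PartR Ec R w) (hV : PartV Fc R V w x)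
    (htr : Function.Injective (evR R x)) : KernelAt R V w x := by
  intro p hp i
  by_contra hi
  have hci : ((p.coeff i : ↥R) : Ω) ≠ 0 := by
    intro h0
    apply hi
    rw [h0, zero_mul]
    exact zero_mem _
  have hunit : ((p.coeff i : ↥R) : Ω)⁻¹ ∈ R := by
    by_contra h
    exact hi (hR.w_gen _ (p.coeff i).2 h)
  have hg := hV.gauss (p.map R.subtype) (fun k => by rw [coeff_map]; exact (p.coeff k).2)
    ⟨i, by rw [coeff_map]; exact hci, by rw [coeff_map]; exact hunit⟩
  have hev : (p.map R.subtype).eval x = evR R x p := by rw [evR_apply, eval_map]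
  rw [hev] at hg
  have hne : evR R x p ≠ 0 := by
    intro h0
    have hp0 : p = 0 := htr (by rw [h0, map_zero])
    apply hci
    rw [hp0]
    simp
  apply hV.w_inv_not_mem_V
  have h6 : w⁻¹ = (evR R x p)⁻¹ * (evR R x p * w⁻¹) := by
    field_simp
  rw [h6]
  exact mul_mem hg hp

theorem inv_mem_V_of_gauss (hV : PartV Fc R V w x) : x⁻¹ ∈ V := by
  have h1 : (1 : Ω) ∈ R := one_mem _
  have hg := hV.gauss (X : Polynomial Ω) (fun k => by
      rw [coeff_X]
      split_ifs
      · exact one_mem _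
      · exact zero_mem _)
    ⟨1, by simp, by simp [h1]⟩
  simpa using hg

/-- `p(x⁻¹) = (reflect d p)(x) · x⁻ᵈ` for `d ≥ deg p`. -/
theorem evR_inv_eq (R : Subring Ω) {x : Ω} (hx0 : x ≠ 0) (p : (↥R)[X]) (d : ℕ)
    (hd : p.natDegree ≤ d) :
    evR R x⁻¹ p = evR R x (p.reflect d) * (x⁻¹) ^ d := by
  letI : Invertible x⁻¹ := invertibleOfNonzero (inv_ne_zero hx0)
  have h := eval₂_reflect_mul_pow R.subtype x⁻¹ d p hd
  rw [invOf_eq_inv, inv_inv] at h
  rw [evR_apply, evR_apply, h]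

/-- `p(x) = (reflect d p)(x⁻¹) · xᵈ` for `d ≥ deg p`. -/
theorem evR_eq_inv (R : Subring Ω) {x : Ω} (hx0 : x ≠ 0) (p : (↥R)[X]) (d : ℕ)
    (hd : p.natDegree ≤ d) :
    evR R x p = evR R x⁻¹ (p.reflect d) * x ^ d := by
  letI : Invertible x := invertibleOfNonzero hx0
  have h := eval₂_reflect_mul_pow R.subtype x d p hd
  rw [invOf_eq_inv] at h
  rw [evR_apply, evR_apply, h]

theorem coeff_eq_coeff_reflect (p : (↥R)[X]) (d i : ℕ) :
    p.coeff i = (p.reflect d).coeff (revAt d i) := by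
  rw [coeff_reflect, revAt_invol]

theorem injective_evR_inv (hx0 : x ≠ 0) (htr : Function.Injective (evR R x)) :
    Function.Injective (evR R x⁻¹) := by
  rw [injective_iff_map_eq_zero]
  intro p hp
  rw [evR_inv_eq R hx0 p p.natDegree le_rfl] at hp
  have h1 : evR R x (p.reflect p.natDegree) = 0 := by
    rcases mul_eq_zero.mp hp with h | h
    · exact h
    · exact absurd h (pow_ne_zero _ (inv_ne_zero hx0))
  have h2 : p.reflect p.natDegree = 0 := htr (by rw [h1, map_zero])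
  ext i
  rw [coeff_eq_coeff_reflect p p.natDegree i, h2]
  simp

theorem kernelAt_inv (hx0 : x ≠ 0) (hxV : x ∈ V) (hker : KernelAt R V w x) :
    KernelAt R V w x⁻¹ := by
  intro p hp i
  rw [coeff_eq_coeff_reflect p p.natDegree i]
  apply hker
  have h0 : (x⁻¹) ^ p.natDegree * x ^ p.natDegree = 1 := by
    rw [← mul_pow, inv_mul_cancel₀ hx0, one_pow]
  have h1 : evR R x (p.reflect p.natDegree) * w⁻¹ = evR R x⁻¹ p * w⁻¹ * x ^ p.natDegree := by
    rw [evR_inv_eq R hx0 p p.natDegree le_rfl]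
    calc evR R x (p.reflect p.natDegree) * w⁻¹
        = evR R x (p.reflect p.natDegree) * w⁻¹ * ((x⁻¹) ^ p.natDegree * x ^ p.natDegree) := by
          rw [h0, mul_one]
      _ = _ := by ring
  rw [h1]
  exact mul_mem hp (pow_mem hxV _)

/-- Integral over `R[x]` ⟹ `x⁻ᴰ · z` integral over `R[x⁻¹]` for some `D`. -/
theorem exists_pow_isIntegral_inv (R : Subring Ω) {x : Ω} (hx0 : x ≠ 0) {z : Ω}
    (hz : IsIntegral (polyRing R x) z) :
    ∃ D : ℕ, IsIntegral (polyRing R x⁻¹) ((x⁻¹) ^ D * z) := by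
  classical
  obtain ⟨Q, hmonic, hroot⟩ := hz
  have hcoeff : ∀ i, ∃ p : (↥R)[X], evR R x p = ((Q.coeff i : ↥(polyRing R x)) : Ω) :=
    fun i => (mem_polyRing_iff R x).mp (Q.coeff i).2
  choose p hp using hcoeff
  set D : ℕ := ∑ i ∈ Finset.range (Q.natDegree + 1), (p i).natDegree with hD
  have hpD : ∀ i ≤ Q.natDegree, (p i).natDegree ≤ D := fun i hi =>
    Finset.single_le_sum (f := fun i => (p i).natDegree) (fun _ _ => Nat.zero_le _)
      (Finset.mem_range.mpr (Nat.lt_succ_of_le hi))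
  set q : Polynomial Ω := (Q.map (algebraMap (polyRing R x) Ω)).scaleRoots ((x⁻¹) ^ D) with hq
  have hqmonic : q.Monic := (Polynomial.monic_scaleRoots_iff _).mpr (hmonic.map _)
  have hqroot : q.eval ((x⁻¹) ^ D * z) = 0 := by
    rw [hq, Polynomial.scaleRoots_eval_mul, Polynomial.eval_map, hroot, mul_zero]
  have hxx : ∀ n : ℕ, x ^ n * (x⁻¹) ^ n = 1 := fun n => by
    rw [← mul_pow, mul_inv_cancel₀ hx0, one_pow]
  have hqcoeff : ∀ i, q.coeff i ∈ polyRing R x⁻¹ := by
    intro i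
    rw [hq, Polynomial.coeff_scaleRoots, Polynomial.coeff_map, hmonic.natDegree_map]
    by_cases hi : i < Q.natDegree
    · obtain ⟨k, hk⟩ : ∃ k, Q.natDegree - i = k + 1 := ⟨Q.natDegree - i - 1, by omega⟩
      have h1 : algebraMap (polyRing R x) Ω (Q.coeff i) = evR R x (p i) := (hp i).symm
      have h2 : evR R x (p i) * (x⁻¹) ^ D = evR R x⁻¹ ((p i).reflect D) := by
        rw [evR_eq_inv R hx0 (p i) D (hpD i hi.le), mul_assoc, hxx, mul_one]
      have h3 : algebraMap (polyRing R x) Ω (Q.coeff i) * ((x⁻¹) ^ D) ^ (Q.natDegree - i) =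
          evR R x⁻¹ ((p i).reflect D) * ((x⁻¹) ^ D) ^ k := by
        rw [hk, pow_succ, h1, ← h2]
        ring
      rw [h3]
      exact mul_mem ((mem_polyRing_iff R x⁻¹).mpr ⟨_, rfl⟩)
        (pow_mem (pow_mem (self_mem_polyRing R x⁻¹) D) k)
    · rcases (not_lt.mp hi).lt_or_eq with hlt | heq
      · rw [Polynomial.coeff_eq_zero_of_natDegree_lt hlt, map_zero, zero_mul]
        exact zero_mem _
      · rw [← heq, hmonic.coeff_natDegree, map_one, one_mul, Nat.sub_self, pow_zero]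
        exact one_mem _
  have hlifts : q ∈ Polynomial.lifts (algebraMap (polyRing R x⁻¹) Ω) :=
    (Polynomial.lifts_iff_coeff_lifts q).mpr fun i => ⟨⟨q.coeff i, hqcoeff i⟩, rfl⟩
  obtain ⟨q', hq'q, -, hq'monic⟩ := Polynomial.lifts_and_natDegree_eq_and_monic hlifts hqmonic
  refine ⟨D, q', hq'monic, ?_⟩
  rw [Polynomial.eval₂_eq_eval_map, hq'q, hqroot]

/-- Transfer of the denominator statement from the chart `R[x]` to the chart `R[x⁻¹]`. -/
theorem denAt_inv (hx0 : x ≠ 0) (hxV : x ∈ V) (hden : DenAt Fc R V w x) :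
    DenAt Fc R V w x⁻¹ := by
  intro f hf hfV
  obtain ⟨s, hsP, hsV, hsint⟩ := hden f hf hfV
  obtain ⟨p, hp⟩ := (mem_polyRing_iff R x).mp hsP
  obtain ⟨D, hD⟩ := exists_pow_isIntegral_inv R hx0 hsint
  have hxx : ∀ n : ℕ, x ^ n * (x⁻¹) ^ n = 1 := fun n => by
    rw [← mul_pow, mul_inv_cancel₀ hx0, one_pow]
  have hs1 : (x⁻¹) ^ p.natDegree * s ∈ polyRing R x⁻¹ := by
    have h1 : (x⁻¹) ^ p.natDegree * s = evR R x⁻¹ (p.reflect p.natDegree) := by
      rw [← hp, evR_eq_inv R hx0 p p.natDegree le_rfl, mul_comm, mul_assoc, hxx, mul_one]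
    rw [h1]
    exact (mem_polyRing_iff R x⁻¹).mpr ⟨_, rfl⟩
  refine ⟨(x⁻¹) ^ D * ((x⁻¹) ^ p.natDegree * s),
    mul_mem (pow_mem (self_mem_polyRing R x⁻¹) D) hs1, ?_, ?_⟩
  · intro h
    apply hsV
    have h2 : s * w⁻¹ =
        x ^ D * x ^ p.natDegree * ((x⁻¹) ^ D * ((x⁻¹) ^ p.natDegree * s) * w⁻¹) := by
      calc s * w⁻¹ = (x ^ D * (x⁻¹) ^ D) * (x ^ p.natDegree * (x⁻¹) ^ p.natDegree) * (s * w⁻¹) := by
            rw [hxx, hxx, one_mul, one_mul]
        _ = _ := by ring
    rw [h2]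
    exact mul_mem (mul_mem (pow_mem hxV D) (pow_mem hxV _)) h
  · have h3 : (x⁻¹) ^ D * ((x⁻¹) ^ p.natDegree * s) * f =
        (x⁻¹) ^ p.natDegree * ((x⁻¹) ^ D * (s * f)) := by ring
    rw [h3]
    have h4 : IsIntegral (polyRing R x⁻¹) ((x⁻¹) ^ p.natDegree) :=
      isIntegral_algebraMap (R := polyRing R x⁻¹) (A := Ω)
        (x := ⟨(x⁻¹) ^ p.natDegree, pow_mem (self_mem_polyRing R x⁻¹) _⟩)
    exact h4.mul hD

/-- **G-QEP from denominators on the finite chart.** -/
theorem partQep_of_den (hR : PartR Ec R w) (hV : PartV Fc R V w x) (hEF : Ec ≤ Fc)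
    (hxV : x ∈ V) (htr : Function.Injective (evR R x)) (hden : DenAt Fc R V w x) :
    PartQep Fc R V w x := by
  have hx0 : x ≠ 0 := by
    intro h0
    have h1 : evR R x X = evR R x 0 := by rw [evR_X, map_zero, h0]
    exact X_ne_zero (htr h1)
  have hker := kernelAt_of_gauss hR hV htr
  exact ⟨qep_of_den hR hV hEF hxV htr hker hden,
    qep_of_den hR hV hEF (inv_mem_V_of_gauss hV) (injective_evR_inv hx0 htr)
      (kernelAt_inv hx0 hxV hker) (denAt_inv hx0 hxV hden)⟩

/-- Adapter: `x` transcendental over a subfield `Lc ⊇ R` (as in `GoodModel.x_transcendental`)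
gives injectivity of `R[X] → Ω`. -/
theorem injective_evR_of_transcendental {Lc : Subfield Ω} (hRL : (R : Set Ω) ⊆ Lc)
    (hx : Transcendental Lc x) : Function.Injective (evR R x) := by
  rw [injective_iff_map_eq_zero]
  intro p hp
  let ι : ↥R →+* ↥Lc := Subring.inclusion (S := R) (T := Lc.toSubring) hRL
  have h1 : Polynomial.aeval x (p.map ι) = 0 := by
    rw [Polynomial.aeval_def, Polynomial.eval₂_map]
    exact hp
  have h2 : p.map ι = 0 := by
    by_contra hne
    exact hx ⟨_, hne, h1⟩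
  exact Polynomial.map_injective ι (Subring.inclusion_injective hRL) (by rw [h2, Polynomial.map_zero])

end Qep

end Fermat.Agent.S18.Mod.H216

end
end
-- ===== PACK-END S18/Mod/H216/QepAbs.lean

-- ===== PACK-BEGIN S18/H107/T3Branch.lean
section




/-!
# helper107 — S18 / M3-T : `unramified` for the Hauptmodul `t₃` (`j t³ = (t + 27)(t + 243)³`)

From the branch data of the `j`-line (`BranchJ107`): for every constant `c ∉ {-27, 0}`, at a place
`O` with `t ≡ c`, `t - c` is a uniformiser.  (`t = -243` lies over `j = 0` with `e(t/j) = 3`, the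
two roots of `t² - 486 t - 19683` over `j = 1728` with `e(t/j) = 2`; only `t = -27`, `0`, `∞` can
ramify in `Ω / Lc(t)`.)
-/

set_option autoImplicit false

namespace Fermat.Agent.S18.H107

variable {Ω : Type*} [Field Ω] [CharZero Ω]

theorem unramified_t3_107 (Lc : Subfield Ω) (j t : Ω)
    (hrel : j * t ^ 3 = (t + 27) * (t + 243) ^ 3)
    (hB : BranchJ107 Lc j) (O : ValuationSubring Ω) (hL : ∀ a ∈ Lc, a ∈ O) (c : Ω) (hc : c ∈ Lc)
    (hc27 : c ≠ -27) (hc0 : c ≠ 0) (hz : t - c ∈ O) (hz' : (t - c)⁻¹ ∉ O) :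
    ∀ s ∈ O, s⁻¹ ∉ O → s * (t - c)⁻¹ ∈ O := by
  rw [← OrdLe107.one_iff]
  have hzv : O.valuation (t - c) < 1 := val_lt_one107 O hz hz'
  have hz0 : t - c ≠ 0 := by
    intro h0
    rw [h0, inv_zero] at hz'
    exact hz' O.zero_mem
  have hcv : O.valuation c = 1 := val_const107 O Lc hL hc hc0
  have htv : O.valuation t = 1 := by
    have : t = c + (t - c) := by ring
    rw [this]
    exact val_add_eq_one107 O hcv hzv
  have ht0 : t ≠ 0 := by
    intro h0
    rw [h0, map_zero] at htv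
    exact zero_ne_one htv
  have htO : t ∈ O := (O.valuation_le_one_iff _).1 htv.le
  have hcO : c ∈ O := hL c hc
  have ht3v : O.valuation ((t ^ 3)⁻¹) = 1 := by
    rw [map_inv₀, map_pow, htv, one_pow, inv_one]
  by_cases h243 : c = -243
  · -- over `j = 0`
    subst h243
    have h216 : O.valuation (-216 : Ω) = 1 :=
      val_const107 O Lc hL (Lc.neg_mem (ofNat_mem Lc 216)) (by norm_num)
    have ht27 : O.valuation (t + 27) = 1 := by
      have : t + 27 = -216 + (t - -243) := by ring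
      rw [this]
      exact val_add_eq_one107 O h216 hzv
    have hUv : O.valuation ((t + 27) * (t ^ 3)⁻¹) = 1 := by
      rw [map_mul, ht27, ht3v, mul_one]
    have hU0 : (t + 27) * (t ^ 3)⁻¹ ≠ 0 := by
      intro h0
      rw [h0, map_zero] at hUv
      exact zero_ne_one hUv
    have hy : j = (t - -243) ^ 3 * ((t + 27) * (t ^ 3)⁻¹) := by
      field_simp
      linear_combination hrel
    have hj0 : j ≠ 0 := by
      rw [hy]
      exact mul_ne_zero (pow_ne_zero _ hz0) hU0
    have hjv : O.valuation j < 1 := by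
      rw [hy, map_mul, hUv, mul_one, map_pow]
      exact pow_lt_one₀ zero_le hzv (by norm_num)
    exact unram_of_factor107 O (k := 3) (by norm_num) hy hUv hz0
      (hB.zero O hL (mem_of_val_lt_one107 O hjv) (inv_not_mem_of_val_lt_one107 O hj0 hjv))
  by_cases hq : c ^ 2 - 486 * c - 19683 = 0
  · -- over `j = 1728`
    have h2c : 2 * c - 486 ≠ 0 := by
      intro h
      have h1 : (314928 : Ω) = 0 := by
        linear_combination (2 * c - 486) * h - 4 * hq
      norm_num at h1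
    have h2cL : 2 * c - 486 ∈ Lc :=
      Lc.sub_mem (Lc.mul_mem (ofNat_mem Lc 2) hc) (ofNat_mem Lc 486)
    have htc : O.valuation (t + c - 486) = 1 := by
      have : t + c - 486 = (2 * c - 486) + (t - c) := by ring
      rw [this]
      exact val_add_eq_one107 O (val_const107 O Lc hL h2cL h2c) hzv
    have hUv : O.valuation ((t + c - 486) ^ 2 * (t ^ 3)⁻¹) = 1 := by
      rw [map_mul, map_pow, htc, one_pow, ht3v, mul_one]
    have hU0 : (t + c - 486) ^ 2 * (t ^ 3)⁻¹ ≠ 0 := by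
      intro h0
      rw [h0, map_zero] at hUv
      exact zero_ne_one hUv
    have hy : j - 1728 = (t - c) ^ 2 * ((t + c - 486) ^ 2 * (t ^ 3)⁻¹) := by
      field_simp
      linear_combination hrel +
        (2 * (t - c) * (t + c - 486) + (c ^ 2 - 486 * c - 19683)) * hq
    have hy0 : j - 1728 ≠ 0 := by
      rw [hy]
      exact mul_ne_zero (pow_ne_zero _ hz0) hU0
    have hyv : O.valuation (j - 1728) < 1 := by
      rw [hy, map_mul, hUv, mul_one, map_pow]
      exact pow_lt_one₀ zero_le hzv (by norm_num)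
    exact unram_of_factor107 O (k := 2) (by norm_num) hy hUv hz0
      (hB.c1728 O hL (mem_of_val_lt_one107 O hyv) (inv_not_mem_of_val_lt_one107 O hy0 hyv))
  · -- generic point
    have hc27' : c + 27 ≠ 0 := fun h => hc27 (by linear_combination h)
    have hc243 : c + 243 ≠ 0 := fun h => h243 (by linear_combination h)
    set a : Ω := (c + 27) * (c + 243) ^ 3 * (c ^ 3)⁻¹ with ha
    have haL : a ∈ Lc :=
      Lc.mul_mem (Lc.mul_mem (Lc.add_mem hc (ofNat_mem Lc 27))
        (Lc.pow_mem (Lc.add_mem hc (ofNat_mem Lc 243)) 3)) (Lc.inv_mem (Lc.pow_mem hc 3))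
    have ha0 : a ≠ 0 :=
      mul_ne_zero (mul_ne_zero hc27' (pow_ne_zero _ hc243)) (inv_ne_zero (pow_ne_zero _ hc0))
    have ha1728 : a ≠ 1728 := by
      intro h
      have h1 : (c ^ 2 - 486 * c - 19683) ^ 2 = 0 := by
        have h2 : (c + 27) * (c + 243) ^ 3 = 1728 * c ^ 3 := by
          rw [ha] at h
          field_simp at h
          linear_combination h
        linear_combination h2
      exact hq (pow_eq_zero_iff (by norm_num) |>.1 h1)
    -- the cofactor
    set W : Ω := c ^ 3 * t ^ 3 - (196830 * c ^ 2 + 19131876 * c + 387420489) * t ^ 2 -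
      (19131876 * c ^ 2 + 387420489 * c) * t - 387420489 * c ^ 2 with hW
    set W₀ : Ω := c ^ 2 * (c + 243) ^ 2 * (c ^ 2 - 486 * c - 19683) with hW₀
    set W₁ : Ω := c ^ 3 * (t ^ 2 + t * c + c ^ 2) -
      (196830 * c ^ 2 + 19131876 * c + 387420489) * (t + c) -
      (19131876 * c ^ 2 + 387420489 * c) with hW₁
    have hW₀L : W₀ ∈ Lc :=
      Lc.mul_mem (Lc.mul_mem (Lc.pow_mem hc 2) (Lc.pow_mem (Lc.add_mem hc (ofNat_mem Lc 243)) 2))
        (Lc.sub_mem (Lc.sub_mem (Lc.pow_mem hc 2) (Lc.mul_mem (ofNat_mem Lc 486) hc))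
          (ofNat_mem Lc 19683))
    have hW₀0 : W₀ ≠ 0 := mul_ne_zero (mul_ne_zero (pow_ne_zero _ hc0) (pow_ne_zero _ hc243)) hq
    have hW₁O : W₁ ∈ O :=
      sub_mem (sub_mem
        (mul_mem (pow_mem hcO 3) (add_mem (add_mem (pow_mem htO 2) (mul_mem htO hcO))
          (pow_mem hcO 2)))
        (mul_mem (add_mem (add_mem (mul_mem (ofNat_mem O 196830) (pow_mem hcO 2))
          (mul_mem (ofNat_mem O 19131876) hcO)) (ofNat_mem O 387420489)) (add_mem htO hcO)))
        (add_mem (mul_mem (ofNat_mem O 19131876) (pow_mem hcO 2))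
          (mul_mem (ofNat_mem O 387420489) hcO))
    have hWv : O.valuation W = 1 := by
      have e : W = W₀ + (t - c) * W₁ := by
        rw [hW, hW₀, hW₁]
        ring
      rw [e]
      refine val_add_eq_one107 O (val_const107 O Lc hL hW₀L hW₀0) ?_
      rw [map_mul]
      calc O.valuation (t - c) * O.valuation W₁ ≤ O.valuation (t - c) * 1 := by
            gcongr
            exact (O.valuation_le_one_iff _).2 hW₁O
        _ = O.valuation (t - c) := mul_one _
        _ < 1 := hzv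
    have hUv : O.valuation (W * (t ^ 3 * c ^ 3)⁻¹) = 1 := by
      rw [map_mul, hWv, one_mul, map_inv₀, map_mul, map_pow, map_pow, htv, hcv, one_pow,
        mul_one, inv_one]
    have hy : j - a = (t - c) ^ 1 * (W * (t ^ 3 * c ^ 3)⁻¹) := by
      rw [ha, hW]
      field_simp
      linear_combination (c ^ 3) * hrel
    have hU0 : W * (t ^ 3 * c ^ 3)⁻¹ ≠ 0 := by
      intro h0
      rw [h0, map_zero] at hUv
      exact zero_ne_one hUv
    have hy0 : j - a ≠ 0 := by
      rw [hy]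
      exact mul_ne_zero (pow_ne_zero _ hz0) hU0
    have hyv : O.valuation (j - a) < 1 := by
      rw [hy, map_mul, hUv, mul_one, pow_one]
      exact hzv
    exact unram_of_factor107 O (k := 1) (by norm_num) hy hUv hz0
      (hB.generic O hL a haL ha0 ha1728 (mem_of_val_lt_one107 O hyv)
        (inv_not_mem_of_val_lt_one107 O hy0 hyv))

end Fermat.Agent.S18.H107

end
-- ===== PACK-END S18/H107/T3Branch.lean

-- ===== PACK-BEGIN S18/B12/H93/RegSeqAbs.lean
section




/-!
# S18 / B12 / A0: `RegSeqAbsStatement` (helper93), adapter over `H393.isIntegral_of_isIntegral_mul'`.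
-/

set_option autoImplicit false

namespace Fermat.Agent.S18.B12.H93

attribute [local instance] FractionRing.liftAlgebra FractionRing.isScalarTower_liftAlgebra

universe u v

theorem regSeqAbs : RegSeqAbsStatement.{u, v} := by
  intro P _ _ _ B _ _ _ _ _ _ u w hw hwu b b' hbb'
  classical
  have hw0 : w ≠ 0 := hw.ne_zero
  have hinjPB : Function.Injective (algebraMap P B) := FaithfulSMul.algebraMap_injective P B
  have hinjBF : Function.Injective (algebraMap B (FractionRing B)) :=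
    IsFractionRing.injective B (FractionRing B)
  have hwB : algebraMap P B w ≠ 0 := fun h => hw0 (hinjPB (by rw [map_zero]; exact h))
  have hwF : algebraMap B (FractionRing B) (algebraMap P B w) ≠ 0 :=
    fun h => hwB (hinjBF (by rw [map_zero]; exact h))
  -- the element `f = b / w`
  set f : FractionRing B :=
    algebraMap B (FractionRing B) b * (algebraMap B (FractionRing B) (algebraMap P B w))⁻¹ with hf
  have hPF : ∀ x : P, algebraMap P (FractionRing B) x =
      algebraMap B (FractionRing B) (algebraMap P B x) :=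
    fun x => IsScalarTower.algebraMap_apply P B (FractionRing B) x
  have hwf : algebraMap P (FractionRing B) w * f = algebraMap B (FractionRing B) b := by
    rw [hPF, hf]
    field_simp
  have huf : algebraMap P (FractionRing B) u * f = algebraMap B (FractionRing B) b' := by
    rw [hPF, hf, ← mul_assoc, ← map_mul, hbb', map_mul]
    field_simp
  have hintB : ∀ x : B, IsIntegral P (algebraMap B (FractionRing B) x) :=
    fun x => (Algebra.IsIntegral.isIntegral x).algebraMap
  have hfint : IsIntegral P f :=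
    Fermat.Agent.S18.H393.isIntegral_of_isIntegral_mul' (FractionRing P) hw hwu
      (hwf ▸ hintB b) (huf ▸ hintB b')
  have hfintB : IsIntegral B f := hfint.tower_top
  obtain ⟨b'', hb''⟩ := IsIntegrallyClosed.isIntegral_iff.mp hfintB
  refine ⟨b'', ?_, ?_⟩
  · apply hinjBF
    rw [map_mul, hb'', ← hPF, hwf]
  · apply hinjBF
    rw [map_mul, hb'', ← hPF, huf]

end Fermat.Agent.S18.B12.H93

end
-- ===== PACK-END S18/B12/H93/RegSeqAbs.lean

-- ===== PACK-BEGIN S18/B12/H93/LocalBasisRank.lean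
section



/-!
# S18 / B12 / A2': `LocalBasisRankStatement` (helper93).
-/

set_option autoImplicit false

namespace Fermat.Agent.S18.B12.H93

universe u v

theorem localBasisRank : LocalBasisRankStatement.{u, v} := by
  intro P _ _ _ B _ _ _ _ _ _ 𝔪 _ n x hx
  obtain ⟨hli, g, hg, hgB⟩ := hx
  classical
  have hg0 : g ≠ 0 := fun h => hg (h ▸ 𝔪.zero_mem)
  constructor
  · apply le_antisymm
    · have := hli.fintype_card_le_finrank
      simpa using this
    · have hfin : Module.Finite P (Submodule.span P (Set.range x)) :=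
        Module.Finite.span_of_finite P (Set.finite_range x)
      let f : B →ₗ[P] Submodule.span P (Set.range x) :=
        (LinearMap.lsmul P B g).codRestrict _ hgB
      have hf : Function.Injective f := by
        intro a b hab
        have h1 : g • a = g • b := congrArg Subtype.val hab
        exact smul_right_injective B hg0 h1
      have h1 := LinearMap.finrank_le_finrank_of_injective hf
      have h2 : Module.finrank P (Submodule.span P (Set.range x)) = n := by
        rw [finrank_span_eq_card hli, Fintype.card_fin]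
      omega
  · intro x'
    have hU : ∀ i, ∃ c : Fin n → P, ∑ j, c j • x j = g • x' i :=
      fun i => (Submodule.mem_span_range_iff_exists_fun P).mp (hgB (x' i))
    choose U hUx using hU
    refine ⟨g ^ n, (Matrix.of U).det, fun h => hg (Ideal.IsPrime.mem_of_pow_mem inferInstance n h),
      ?_⟩
    set G : Matrix (Fin n) (Fin n) P := Matrix.of fun i j => Algebra.intTrace P B (x i * x j)
      with hG
    set G' : Matrix (Fin n) (Fin n) P := Matrix.of fun i j => Algebra.intTrace P B (x' i * x' j)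
      with hG'
    have hmat : (g ^ 2) • G' = Matrix.of U * G * (Matrix.of U).transpose := by
      ext i j
      rw [Matrix.smul_apply, hG', Matrix.of_apply, smul_eq_mul, Matrix.mul_apply]
      have h1 : g ^ 2 * Algebra.intTrace P B (x' i * x' j) =
          Algebra.intTrace P B ((g • x' i) * (g • x' j)) := by
        rw [smul_mul_smul_comm, ← sq, map_smul, smul_eq_mul]
      rw [h1, ← hUx i, ← hUx j, Finset.sum_mul_sum, map_sum]
      simp_rw [Matrix.mul_apply, Finset.sum_mul]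
      rw [Finset.sum_comm]
      refine Finset.sum_congr rfl fun k _ => ?_
      rw [map_sum]
      refine Finset.sum_congr rfl fun l _ => ?_
      rw [smul_mul_smul_comm, map_smul, smul_eq_mul, Matrix.transpose_apply, Matrix.of_apply,
        Matrix.of_apply, hG, Matrix.of_apply]
      ring
    have hdet := congrArg Matrix.det hmat
    rw [Matrix.det_smul, Matrix.det_mul, Matrix.det_mul, Matrix.det_transpose, Fintype.card_fin]
      at hdet
    show (g ^ n) ^ 2 * G'.det = (Matrix.of U).det ^ 2 * G.det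
    rw [← pow_mul, mul_comm n 2, pow_mul, hdet]
    ring

end Fermat.Agent.S18.B12.H93

end
-- ===== PACK-END S18/B12/H93/LocalBasisRank.lean

-- ===== PACK-BEGIN S18/B12/H203/PolyInst.lean
section



/-!
# S18 / b2.5, piece A1: instantiation `P = R[X]` (`PolyInstStatement`)

`R` a discrete valuation ring of characteristic zero, `w` a uniformizer.
-/

set_option autoImplicit false
set_option linter.unusedSectionVars false

noncomputable section

namespace Fermat.Agent.S18.B12.H203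

open Polynomial

universe u

section

variable {R : Type u} [CommRing R] [IsDomain R] [IsDiscreteValuationRing R]

/-- The ideal generated by a uniformizer of a DVR is maximal. -/
theorem span_irreducible_isMaximal {w : R} (hw : Irreducible w) :
    (Ideal.span {w}).IsMaximal := by
  rw [← (IsDiscreteValuationRing.irreducible_iff_uniformizer w).mp hw]
  infer_instance

/-- Every nonzero element of a DVR becomes a unit after inverting a uniformizer. -/
theorem isUnit_algebraMap_away_of_ne_zero {w : R} (hw : Irreducible w) {r : R} (hr : r ≠ 0)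
    (S : Type*) [CommRing S] [Algebra R S] [IsLocalization.Away w S] :
    IsUnit (algebraMap R S r) := by
  obtain ⟨n, hn⟩ := IsDiscreteValuationRing.associated_pow_irreducible hr hw
  rw [IsLocalization.Away.algebraMap_isUnit_iff w]
  exact ⟨n, hn.dvd⟩

/-- The localization of a DVR away from a uniformizer is a field. -/
theorem isField_localization_away {w : R} (hw : Irreducible w) :
    IsField (Localization.Away w) := by
  have hle : Submonoid.powers w ≤ nonZeroDivisors R :=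
    Submonoid.powers_le.mpr (mem_nonZeroDivisors_of_ne_zero hw.ne_zero)
  have hdom : IsDomain (Localization.Away w) :=
    IsLocalization.isDomain_localization hle
  refine ⟨exists_pair_ne _, mul_comm, ?_⟩
  intro a ha
  obtain ⟨⟨r, s⟩, hrs⟩ := IsLocalization.surj (Submonoid.powers w) a
  simp only at hrs
  have hr : r ≠ 0 := by
    rintro rfl
    rw [map_zero] at hrs
    have hs : IsUnit (algebraMap R (Localization.Away w) s) :=
      IsLocalization.map_units _ s
    exact ha ((hs.mul_left_eq_zero).mp hrs)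
  have hru : IsUnit (algebraMap R (Localization.Away w) r) :=
    isUnit_algebraMap_away_of_ne_zero hw hr _
  have hau : IsUnit a := by
    have : IsUnit (a * algebraMap R (Localization.Away w) s) := hrs ▸ hru
    exact isUnit_of_mul_isUnit_left this
  obtain ⟨b, hb⟩ := hau.exists_right_inv
  exact ⟨b, hb⟩

/-- `R[X][1/C w]` is a principal ideal ring. -/
theorem isPrincipalIdealRing_away_C {w : R} (hw : Irreducible w) :
    IsPrincipalIdealRing (Localization.Away (C w : R[X])) := by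
  let _ : Field (Localization.Away w) := (isField_localization_away hw).toField
  let _ : Algebra R[X] (Localization.Away w)[X] :=
    (mapRingHom (algebraMap R (Localization.Away w))).toAlgebra
  have hloc : IsLocalization (Submonoid.powers (C w : R[X])) (Localization.Away w)[X] := by
    have := Polynomial.isLocalization (Submonoid.powers w) (Localization.Away w)
    rwa [Submonoid.map_powers] at this
  let e : (Localization.Away w)[X] ≃ₐ[R[X]] Localization.Away (C w : R[X]) :=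
    IsLocalization.algEquiv (Submonoid.powers (C w : R[X])) _ _
  exact IsPrincipalIdealRing.of_surjective e.toRingEquiv.toRingHom e.surjective

/-- Positive integers are invertible in `R[X][1/C w]` when `R` has characteristic zero. -/
theorem isUnit_natCast_away_C [CharZero R] {w : R} (hw : Irreducible w) (m : ℕ) (hm : m ≠ 0) :
    IsUnit (algebraMap R[X] (Localization.Away (C w : R[X])) (m : R[X])) := by
  have hm' : (m : R) ≠ 0 := Nat.cast_ne_zero.mpr hm
  obtain ⟨n, hn⟩ := IsDiscreteValuationRing.associated_pow_irreducible hm' hw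
  rw [IsLocalization.Away.algebraMap_isUnit_iff (C w : R[X])]
  refine ⟨n, ?_⟩
  obtain ⟨d, hd⟩ := hn.dvd
  refine ⟨C d, ?_⟩
  rw [← C_pow, hd, C_mul, C_eq_natCast]

/-- The evaluation-at-`c`-mod-`w` map `R[X] → R/(w)`. -/
def evalModHom (w c : R) : R[X] →+* R ⧸ Ideal.span {w} :=
  (Ideal.Quotient.mk (Ideal.span {w})).comp (evalRingHom c)

theorem evalModHom_apply (w c : R) (f : R[X]) :
    evalModHom w c f = Ideal.Quotient.mk (Ideal.span {w}) (f.eval c) := rfl

theorem evalModHom_surjective (w c : R) : Function.Surjective (evalModHom w c) := by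
  intro y
  obtain ⟨r, rfl⟩ := Ideal.Quotient.mk_surjective y
  exact ⟨C r, by simp [evalModHom_apply]⟩

theorem ker_evalModHom (w c : R) :
    RingHom.ker (evalModHom w c) = Ideal.span {(C w : R[X]), X - C c} := by
  apply le_antisymm
  · intro f hf
    rw [RingHom.mem_ker, evalModHom_apply, Ideal.Quotient.eq_zero_iff_mem,
      Ideal.mem_span_singleton] at hf
    obtain ⟨r, hr⟩ := hf
    obtain ⟨q, hq⟩ := (X_sub_C_dvd_sub_C_eval (a := c) (p := f))
    have hfe : f = C w * C r + (X - C c) * q := by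
      rw [← hq, ← C_mul, ← hr]
      ring
    rw [hfe]
    refine Ideal.add_mem _ (Ideal.mul_mem_right _ _ (Ideal.subset_span (by simp)))
      (Ideal.mul_mem_right _ _ (Ideal.subset_span (by simp)))
  · rw [Ideal.span_le]
    intro f hf
    rcases hf with rfl | hf
    · simp [evalModHom_apply]
    · rw [Set.mem_singleton_iff] at hf
      subst hf
      simp [evalModHom_apply]

end

/-- **A1 (instantiation `P = R[X]`).** -/
theorem polyInst.{w} : PolyInstStatement.{w} := by
  intro R _ _ _ _ w hw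
  have hmax : (Ideal.span {w}).IsMaximal := span_irreducible_isMaximal hw
  have hwp : Prime w := hw.prime
  refine ⟨Polynomial.prime_C_iff.mpr hwp, ?_, isPrincipalIdealRing_away_C hw,
    isUnit_natCast_away_C hw, ?_⟩
  · -- `R[X]/(C w) ≃ (R/w)[X]`
    let _ : Field (R ⧸ Ideal.span {w}) := Ideal.Quotient.field _
    let e : (R ⧸ Ideal.span {w})[X] ≃+* R[X] ⧸ (Ideal.span {w}).map (C : R →+* R[X]) :=
      Ideal.polynomialQuotientEquivQuotientPolynomial (Ideal.span {w})
    have hmap : (Ideal.span {w}).map (C : R →+* R[X]) = Ideal.span {(C w : R[X])} := by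
      rw [Ideal.map_span, Set.image_singleton]
    let e' : R[X] ⧸ (Ideal.span {w}).map (C : R →+* R[X]) ≃+* R[X] ⧸ Ideal.span {(C w : R[X])} :=
      Ideal.quotEquivOfEq hmap
    exact IsPrincipalIdealRing.of_surjective (e.trans e').toRingHom (e.trans e').surjective
  · intro c
    refine ⟨Polynomial.prime_X_sub_C c, ?_, ?_, ?_, ?_⟩
    · intro hass
      have hdvd : (X - C c : R[X]) ∣ C w := hass.dvd
      rw [Polynomial.dvd_iff_isRoot, IsRoot.def, eval_C] at hdvd
      exact hw.ne_zero hdvd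
    · letI : Field (R ⧸ Ideal.span {w}) := Ideal.Quotient.field _
      rw [← ker_evalModHom]
      exact RingHom.ker_isMaximal_of_surjective _ (evalModHom_surjective w c)
    · let e : (R[X] ⧸ Ideal.span {(X - C c : R[X])}) ≃ₐ[R] R :=
        Polynomial.quotientSpanXSubCAlgEquiv c
      exact IsPrincipalIdealRing.of_surjective e.symm.toRingEquiv.toRingHom e.symm.surjective
    · intro c' hmem hunit
      rw [← ker_evalModHom, RingHom.mem_ker, evalModHom_apply, eval_sub, eval_X, eval_C,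
        Ideal.Quotient.eq_zero_iff_mem] at hmem
      exact hmax.ne_top (Ideal.eq_top_of_isUnit_mem _ hmem hunit)

end Fermat.Agent.S18.B12.H203

end
end
-- ===== PACK-END S18/B12/H203/PolyInst.lean

-- ===== PACK-BEGIN S21/HodgeInterface.lean
section






/-!
# S21 — interface statements for the Hodge part D'

`W` Weyl lemma (helper561, `H561/WeylL2.lean`), `Cusp` packaging (helper825, `Cusp.lean`:
`exists_cuspForm_of_energy`), `Per` periods (helper972, `Per.lean`:
`period_eq_zero_of_tendsto`).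
-/

set_option autoImplicit false

open ModularCurve ModularCurve.Period UpperHalfPlane CongruenceSubgroup Filter Topology
open MeasureTheory
open scoped MatrixGroups ComplexConjugate ContDiff

namespace Fermat.Agent.S21

/-- **W** (Weyl lemma for `∂̄`). -/
theorem weyl_lemma (g : ℕ → ℂ → ℂ) (hg : ∀ n, ContinuousOn (g n) Uhp)
    (hcauchy : ∀ K : Set ℂ, IsCompact K → K ⊆ Uhp → ∀ ε > 0, ∃ M, ∀ m ≥ M, ∀ n ≥ M,
        ∫ z in K, ‖g n z - g m z‖ ^ 2 < ε)
    (hweak : ∀ η : ℂ → ℝ, ContDiff ℝ ∞ η → HasCompactSupport η → tsupport η ⊆ Uhp →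
        Tendsto (fun n => ∫ z, g n z *
          (((fderiv ℝ η z 1 : ℝ) : ℂ) + Complex.I * ((fderiv ℝ η z Complex.I : ℝ) : ℂ)))
          atTop (𝓝 0)) :
    ∃ f : ℂ → ℂ, DifferentiableOn ℂ f Uhp ∧
      ∀ K : Set ℂ, IsCompact K → K ⊆ Uhp →
        Tendsto (fun n => ∫ z in K, ‖g n z - f z‖ ^ 2) atTop (𝓝 0) :=
  H561.weyl_lemma_open isOpen_Uhp g hg hcauchy hweak

end Fermat.Agent.S21

end
-- ===== PACK-END S21/HodgeInterface.lean

-- ===== PACK-BEGIN S21/H81/U0.lean
section


/-!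
# S21, piece MS-C: the smooth function `u₀` with prescribed periods, constant near the cusps

Built from an `SL(2,ℤ)`-partition of unity `χ₁` (piece MS-A) and a section `φt` of the parabolic
homomorphism `φ` (piece MS-B), both taken as hypotheses.
-/

set_option autoImplicit false

open UpperHalfPlane CongruenceSubgroup Filter Topology Complex ModularCurve ModularCurve.Period
open scoped MatrixGroups Manifold ContDiff

namespace Fermat.Agent.S21.H81

theorem u0_mob_mul (g h : SL(2, ℤ)) (z : ℂ) : mob (g * h) z = mob g (mob h z) := by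
  simp only [mob, ofComplex_apply, mul_smul]

theorem u0_mob_mem (g : SL(2, ℤ)) (z : ℂ) : mob g z ∈ Uhp := by
  simp only [mob]
  exact coe_mem_Uhp _

theorem u0_mob_one (z : ℂ) (hz : z ∈ Uhp) : mob 1 z = z := by
  simp only [mob, one_smul]
  rw [ofComplex_apply_of_im_pos hz]

theorem u0_mob_coe (g : SL(2, ℤ)) (z : ℍ) : mob g (z : ℂ) = ((g • z : ℍ) : ℂ) := by
  simp only [mob, ofComplex_apply]

theorem u0_contDiffOn_mob (g : SL(2, ℤ)) : ContDiffOn ℝ ∞ (mob g) Uhp := by
  have h1 : DifferentiableOn ℂ (mob g) Uhp := fun z hz =>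
    (SmallAux.hasStrictDerivAt_mob g hz).hasDerivAt.differentiableAt.differentiableWithinAt
  exact (h1.contDiffOn isOpen_Uhp).restrict_scalars ℝ

/-- A matrix in `SL(2,ℤ)` with lower-left entry `0` is `± T ^ n`. -/
theorem u0_eq_T_zpow_of_c_eq_zero (g : SL(2, ℤ)) (h : g 1 0 = 0) :
    ∃ n : ℤ, g = ModularGroup.T ^ n ∨ g = -ModularGroup.T ^ n := by
  have hdet := Matrix.SpecialLinearGroup.det_coe g
  rw [Matrix.det_fin_two] at hdet
  have h' : (g : Matrix (Fin 2) (Fin 2) ℤ) 1 0 = 0 := h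
  rw [h', mul_zero, sub_zero] at hdet
  rcases Int.eq_one_or_neg_one_of_mul_eq_one' hdet with ⟨ha, hd⟩ | ⟨ha, hd⟩
  · refine ⟨g 0 1, Or.inl ?_⟩
    apply Matrix.SpecialLinearGroup.ext
    intro i j
    rw [ModularGroup.coe_T_zpow]
    fin_cases i <;> fin_cases j <;> simp [ha, hd, h']
  · refine ⟨-g 0 1, Or.inr ?_⟩
    apply Matrix.SpecialLinearGroup.ext
    intro i j
    rw [Matrix.SpecialLinearGroup.coe_neg, ModularGroup.coe_T_zpow]
    fin_cases i <;> fin_cases j <;> simp [ha, hd, h']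

theorem u0_section_T_zpow {φt : SL(2, ℤ) → ℝ}
    (hφt2 : ∀ g : SL(2, ℤ), φt (ModularGroup.T * g) = φt g) (n : ℤ) (g : SL(2, ℤ)) :
    φt (ModularGroup.T ^ n * g) = φt g := by
  induction n using Int.induction_on generalizing g with
  | zero => simp
  | succ k ih =>
    rw [zpow_add_one, mul_assoc, ih, hφt2]
  | pred k ih =>
    have := hφt2 (ModularGroup.T ^ (-(k : ℤ) - 1) * g)
    rw [← mul_assoc, ← zpow_one_add] at this
    rw [← this]
    have e : (1 : ℤ) + (-(k : ℤ) - 1) = -(k : ℤ) := by ring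
    rw [e, ih]


section construction

variable (χ₁ : ℂ → ℝ) (φt : SL(2, ℤ) → ℝ)

/-- The function `u₀ = -∑ g, φt g · χ₁ (g z)`. -/
noncomputable def u0 : ℂ → ℝ := fun z => -∑ᶠ g : SL(2, ℤ), φt g * χ₁ (mob g z)

variable {χ₁ φt}

theorem u0_support_finite
    (hχfin : ∀ K : Set ℂ, IsCompact K → K ⊆ Uhp →
      {g : SL(2, ℤ) | ∃ z ∈ K, χ₁ (mob g z) ≠ 0}.Finite)
    {z : ℂ} (hz : z ∈ Uhp) : (Function.support fun g : SL(2, ℤ) => χ₁ (mob g z)).Finite := by
  refine (hχfin {z} isCompact_singleton (by simpa using hz)).subset ?_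
  intro g hg
  exact ⟨z, rfl, hg⟩

theorem u0_support_finite' (ψ : SL(2, ℤ) → ℝ)
    (hχfin : ∀ K : Set ℂ, IsCompact K → K ⊆ Uhp →
      {g : SL(2, ℤ) | ∃ z ∈ K, χ₁ (mob g z) ≠ 0}.Finite)
    {z : ℂ} (hz : z ∈ Uhp) :
    (Function.support fun g : SL(2, ℤ) => ψ g * χ₁ (mob g z)).Finite := by
  refine (u0_support_finite hχfin hz).subset ?_
  intro g hg
  simp only [Function.mem_support, ne_eq] at hg ⊢
  exact fun h => hg (by rw [h, mul_zero])

theorem u0_contDiffOn (hχsmooth : ContDiffOn ℝ ∞ χ₁ Uhp)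
    (hχfin : ∀ K : Set ℂ, IsCompact K → K ⊆ Uhp →
      {g : SL(2, ℤ) | ∃ z ∈ K, χ₁ (mob g z) ≠ 0}.Finite) :
    ContDiffOn ℝ ∞ (u0 χ₁ φt) Uhp := by
  intro z₀ hz₀
  -- a compact neighbourhood of `z₀` inside `Uhp`
  obtain ⟨r, hr, hball⟩ := Metric.nhds_basis_closedBall.mem_iff.mp (isOpen_Uhp.mem_nhds hz₀)
  have hfin := hχfin (Metric.closedBall z₀ r) (isCompact_closedBall z₀ r) hball
  set S := hfin.toFinset with hS
  have hterm : ∀ g : SL(2, ℤ), ContDiffOn ℝ ∞ (fun z => φt g * χ₁ (mob g z)) Uhp := by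
    intro g
    have h1 : ContDiffOn ℝ ∞ (fun z => χ₁ (mob g z)) Uhp :=
      hχsmooth.comp (u0_contDiffOn_mob g) (fun z _ => u0_mob_mem g z)
    exact contDiffOn_const.mul h1
  have hsum : ContDiffOn ℝ ∞ (fun z => -∑ g ∈ S, φt g * χ₁ (mob g z)) Uhp :=
    (ContDiffOn.sum fun g _ => hterm g).neg
  have heq : ∀ z ∈ Metric.closedBall z₀ r, u0 χ₁ φt z = -∑ g ∈ S, φt g * χ₁ (mob g z) := by
    intro z hz
    simp only [u0]
    congr 1
    apply finsum_eq_sum_of_support_subset
    intro g hg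
    simp only [Function.mem_support, ne_eq] at hg
    rw [hS, Set.Finite.coe_toFinset]
    refine ⟨z, hz, fun h => hg ?_⟩
    rw [h, mul_zero]
  have hat : ContDiffAt ℝ ∞ (u0 χ₁ φt) z₀ := by
    refine (hsum.contDiffAt (isOpen_Uhp.mem_nhds hz₀)).congr_of_eventuallyEq ?_
    filter_upwards [Metric.closedBall_mem_nhds z₀ hr] with z hz using heq z hz
  exact hat.contDiffWithinAt

theorem u0_period {N : ℕ} {φ : Additive (Gamma0 N) →+ ℝ}
    (hχfin : ∀ K : Set ℂ, IsCompact K → K ⊆ Uhp →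
      {g : SL(2, ℤ) | ∃ z ∈ K, χ₁ (mob g z) ≠ 0}.Finite)
    (hχsum : ∀ z ∈ Uhp, ∑ᶠ g : SL(2, ℤ), χ₁ (mob g z) = 1)
    (hφt1 : ∀ (g : SL(2, ℤ)) (γ : Gamma0 N),
      φt (g * (γ : SL(2, ℤ))) = φt g + φ (Additive.ofMul γ))
    (γ : Gamma0 N) (z : ℍ) :
    u0 χ₁ φt ↑((γ : SL(2, ℤ)) • z) = u0 χ₁ φt ↑z + φ (Additive.ofMul γ) := by
  have hz : (z : ℂ) ∈ Uhp := coe_mem_Uhp z
  simp only [u0]
  have h3 : ∑ᶠ g : SL(2, ℤ), φt g * χ₁ (mob g ↑((γ : SL(2, ℤ)) • z))
      = ∑ᶠ g' : SL(2, ℤ), (φt g' - φ (Additive.ofMul γ)) * χ₁ (mob g' ↑z) := by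
    rw [← finsum_comp_equiv (Equiv.mulRight (γ : SL(2, ℤ)))
      (f := fun g' : SL(2, ℤ) => (φt g' - φ (Additive.ofMul γ)) * χ₁ (mob g' ↑z))]
    refine finsum_congr fun g => ?_
    simp only [Equiv.coe_mulRight]
    rw [hφt1 g γ, add_sub_cancel_right, u0_mob_mul, u0_mob_coe (γ : SL(2, ℤ)) z]
  rw [h3]
  have h2 : ∀ g' : SL(2, ℤ), (φt g' - φ (Additive.ofMul γ)) * χ₁ (mob g' ↑z)
      = φt g' * χ₁ (mob g' ↑z) - φ (Additive.ofMul γ) * χ₁ (mob g' ↑z) := fun g' => by ring
  rw [finsum_congr h2, finsum_sub_distrib (u0_support_finite' _ hχfin hz)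
    (u0_support_finite' _ hχfin hz), ← mul_finsum, hχsum _ hz]
  ring

theorem u0_cusp
    (hχsupp : ∀ z, χ₁ z ≠ 0 → |z.re| ≤ 1 ∧ 1 / 2 < z.im)
    (hχsum : ∀ z ∈ Uhp, ∑ᶠ g : SL(2, ℤ), χ₁ (mob g z) = 1)
    (hG2 : ∀ (g : SL(2, ℤ)) (z : ℂ), 2 ≤ z.im → 1 / 2 < (mob g z).im → g 1 0 = 0)
    (hφt2 : ∀ g : SL(2, ℤ), φt (ModularGroup.T * g) = φt g)
    (hφt3 : ∀ g : SL(2, ℤ), φt (-g) = φt g)
    (δ : SL(2, ℤ)) (z : ℂ) (hz : 2 ≤ z.im) :
    u0 χ₁ φt (mob δ z) = -φt δ⁻¹ := by
  simp only [u0]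
  congr 1
  have hmem : mob δ z ∈ Uhp := u0_mob_mem δ z
  have h1 : ∀ g : SL(2, ℤ), φt g * χ₁ (mob g (mob δ z)) = φt δ⁻¹ * χ₁ (mob g (mob δ z)) := by
    intro g
    by_cases h0 : χ₁ (mob g (mob δ z)) = 0
    · rw [h0, mul_zero, mul_zero]
    · congr 1
      have him := (hχsupp _ h0).2
      rw [← u0_mob_mul] at him
      have hc := hG2 (g * δ) z hz him
      obtain ⟨n, hn | hn⟩ := u0_eq_T_zpow_of_c_eq_zero (g * δ) hc
      · have : g = ModularGroup.T ^ n * δ⁻¹ := by rw [← hn]; group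
        rw [this, u0_section_T_zpow hφt2]
      · have : g = -(ModularGroup.T ^ n * δ⁻¹) := by
          rw [← neg_mul, ← hn]; group
        rw [this, hφt3, u0_section_T_zpow hφt2]
  rw [finsum_congr h1, ← mul_finsum, hχsum _ hmem, mul_one]

end construction

/-- **MS-C**: existence of a smooth function on the upper half plane with periods `φ`, which
is constant on every cusp neighbourhood `δ {Im ≥ 2}`. Takes the outputs of MS-A (partition of
unity, and the lemma `G2`) and MS-B (section) as hypotheses. -/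
theorem exists_u0_of (N : ℕ) (φ : Additive (Gamma0 N) →+ ℝ)
    (hA : ∃ χ₁ : ℂ → ℝ, ContDiffOn ℝ ∞ χ₁ Uhp ∧ (∀ z, 0 ≤ χ₁ z) ∧
      (∀ z, χ₁ z ≠ 0 → |z.re| ≤ 1 ∧ 1 / 2 < z.im) ∧
      (∀ K : Set ℂ, IsCompact K → K ⊆ Uhp →
        {g : SL(2, ℤ) | ∃ z ∈ K, χ₁ (mob g z) ≠ 0}.Finite) ∧
      (∀ z ∈ Uhp, ∑ᶠ g : SL(2, ℤ), χ₁ (mob g z) = 1))
    (hG2 : ∀ (g : SL(2, ℤ)) (z : ℂ), 2 ≤ z.im → 1 / 2 < (mob g z).im → g 1 0 = 0)
    (hB : ∃ φt : SL(2, ℤ) → ℝ,
      (∀ (g : SL(2, ℤ)) (γ : Gamma0 N), φt (g * (γ : SL(2, ℤ))) = φt g + φ (Additive.ofMul γ)) ∧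
      (∀ g : SL(2, ℤ), φt (ModularGroup.T * g) = φt g) ∧ (∀ g : SL(2, ℤ), φt (-g) = φt g)) :
    ∃ (u₀ : ℂ → ℝ) (c : SL(2, ℤ) → ℝ), ContDiffOn ℝ ∞ u₀ Uhp ∧
      (∀ (γ : Gamma0 N) (z : ℍ),
        u₀ ↑((γ : SL(2, ℤ)) • z) = u₀ ↑z + φ (Additive.ofMul γ)) ∧
      (∀ (δ : SL(2, ℤ)) (z : ℂ), 2 ≤ z.im → u₀ (mob δ z) = c δ) ∧
      (∀ (δ : SL(2, ℤ)) (z : ℂ), 2 < z.im → dz u₀ (mob δ z) = 0) := by
  obtain ⟨χ₁, hχsmooth, -, hχsupp, hχfin, hχsum⟩ := hA
  obtain ⟨φt, hφt1, hφt2, hφt3⟩ := hB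
  have hsm := u0_contDiffOn (φt := φt) hχsmooth hχfin
  have hcusp := u0_cusp hχsupp hχsum hG2 hφt2 hφt3
  refine ⟨u0 χ₁ φt, fun δ => -φt δ⁻¹, hsm, u0_period hχfin hχsum hφt1, hcusp, ?_⟩
  intro δ z hz
  have hzU : z ∈ Uhp := by
    show 0 < z.im
    linarith
  -- `u₀ ∘ mob δ` is constant near `z`
  have hconst : (fun w => u0 χ₁ φt (mob δ w)) =ᶠ[𝓝 z] fun _ => -φt δ⁻¹ := by
    have hopen : IsOpen {w : ℂ | 2 < w.im} := isOpen_lt continuous_const Complex.continuous_im
    filter_upwards [hopen.mem_nhds hz] with w hw using hcusp δ w (le_of_lt hw)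
  have hd : DifferentiableAt ℝ (u0 χ₁ φt) (mob δ z) :=
    ((hsm.contDiffAt (isOpen_Uhp.mem_nhds (u0_mob_mem δ z))).differentiableAt (by simp))
  have h1 := dz_comp_mob (u0 χ₁ φt) δ z hzU hd
  have h2 : dz (fun w => u0 χ₁ φt (mob δ w)) z = 0 := by
    simp only [dz]
    rw [hconst.fderiv_eq]
    simp
  rw [h2] at h1
  have hcd : (cd δ z) ^ 2 ≠ 0 := pow_ne_zero _ (SmallAux.cd_ne_zero δ hzU)
  have := h1.symm
  rw [div_eq_zero_iff] at this
  exact this.resolve_right hcd

end Fermat.Agent.S21.H81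

end
-- ===== PACK-END S21/H81/U0.lean

-- ===== PACK-BEGIN S21/IntB.lean
section



/-!
# S21 — INT-B: `Γ₀(N)`-symmetrization of a test function

`sym N η z = ∑ᶠ γ : Γ₀(N), η (γ z)` is smooth on the upper half plane, `Γ₀(N)`-invariant,
additive and homogeneous in `η`, and has finite energy on a fundamental domain.
-/

set_option autoImplicit false
set_option linter.unusedSectionVars false
set_option linter.unusedVariables false

open UpperHalfPlane CongruenceSubgroup MeasureTheory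
open scoped MatrixGroups ContDiff Topology Pointwise

namespace Fermat.Agent.S21

namespace IntB

theorem mob_mem_Uhp (g : SL(2, ℤ)) (z : ℂ) : mob g z ∈ Uhp := (g • ofComplex z).im_pos

theorem mob_mul (g h : SL(2, ℤ)) (z : ℂ) : mob (g * h) z = mob g (mob h z) := by
  simp [mob, mul_smul, ofComplex_apply]

theorem mob_one {z : ℂ} (hz : z ∈ Uhp) : mob 1 z = z := by
  have hz' : 0 < z.im := hz
  simp [mob, ofComplex_apply_of_im_pos hz']

theorem mob_inv_mob (g : SL(2, ℤ)) {z : ℂ} (hz : z ∈ Uhp) : mob g⁻¹ (mob g z) = z := by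
  rw [← _root_.Fermat.Agent.S21.IntB.mob_mul, inv_mul_cancel, _root_.Fermat.Agent.S21.IntB.mob_one hz]

theorem mob_mob_inv (g : SL(2, ℤ)) {z : ℂ} (hz : z ∈ Uhp) : mob g (mob g⁻¹ z) = z := by
  rw [← _root_.Fermat.Agent.S21.IntB.mob_mul, mul_inv_cancel, _root_.Fermat.Agent.S21.IntB.mob_one hz]

theorem analyticAt_mob (g : SL(2, ℤ)) {z : ℂ} (hz : z ∈ Uhp) : AnalyticAt ℂ (mob g) z := by
  have hdet : (0 : ℝ) < ((g : GL (Fin 2) ℝ) : Matrix (Fin 2) (Fin 2) ℝ).det := by
    have : ((g : GL (Fin 2) ℝ) : Matrix (Fin 2) (Fin 2) ℝ).det = 1 :=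
      (Matrix.SpecialLinearGroup.map (Int.castRingHom ℝ) g).det_coe
    rw [this]; exact one_pos
  exact UpperHalfPlane.analyticAt_smul hdet ⟨z, hz⟩

theorem contDiffAt_mob (g : SL(2, ℤ)) {z : ℂ} (hz : z ∈ Uhp) : ContDiffAt ℝ ∞ (mob g) z :=
  ((analyticAt_mob g hz).contDiffAt (n := ∞)).restrict_scalars ℝ

theorem continuousAt_mob (g : SL(2, ℤ)) {z : ℂ} (hz : z ∈ Uhp) : ContinuousAt (mob g) z :=
  (analyticAt_mob g hz).continuousAt

theorem continuousOn_mob (g : SL(2, ℤ)) : ContinuousOn (mob g) Uhp :=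
  fun _ hz => (continuousAt_mob g hz).continuousWithinAt

/-- Proper discontinuity of the action of `SL(2,ℤ)`, phrased on `ℂ`. -/
theorem finite_mob {K L : Set ℂ} (hK : IsCompact K) (hKU : K ⊆ Uhp) (hL : IsCompact L)
    (hLU : L ⊆ Uhp) : {g : SL(2, ℤ) | ∃ z ∈ K, mob g z ∈ L}.Finite := by
  have hrange : Set.range (UpperHalfPlane.coe) = Uhp := by
    ext z
    constructor
    · rintro ⟨w, rfl⟩; exact w.im_pos
    · intro hz; exact ⟨⟨z, hz⟩, rfl⟩
  have hK' : IsCompact ((UpperHalfPlane.coe) ⁻¹' K) :=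
    (isEmbedding_coe.isInducing.isCompact_preimage_iff (by rw [hrange]; exact hKU)).mpr hK
  have hL' : IsCompact ((UpperHalfPlane.coe) ⁻¹' L) :=
    (isEmbedding_coe.isInducing.isCompact_preimage_iff (by rw [hrange]; exact hLU)).mpr hL
  have h := (Subgroup.properlyDiscontinuousSMul_iff 𝒮ℒ).mp properlyDiscontinuousSL2ZRange hK' hL'
  have hinj : Function.Injective (Matrix.SpecialLinearGroup.mapGL ℝ : SL(2, ℤ) →* GL (Fin 2) ℝ) :=
    Matrix.SpecialLinearGroup.mapGL_injective
  refine (h.preimage hinj.injOn).subset ?_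
  rintro g ⟨z, hz, hgz⟩
  refine ⟨⟨g, rfl⟩, (Matrix.SpecialLinearGroup.mapGL ℝ g) • ofComplex z,
    ⟨ofComplex z, ?_, rfl⟩, ?_⟩
  · show ((ofComplex z : ℍ) : ℂ) ∈ K
    rw [ofComplex_apply_of_im_pos (hKU hz)]
    exact hz
  · exact hgz

/-- Local finiteness of the symmetrization sum. -/
theorem finite_sym_support (N : ℕ) {η : ℂ → ℝ} (hη : IsTest η) {K : Set ℂ} (hK : IsCompact K)
    (hKU : K ⊆ Uhp) : {γ : Gamma0 N | ∃ z ∈ K, η (mob (γ : SL(2, ℤ)) z) ≠ 0}.Finite := by
  have h := finite_mob hK hKU hη.2.1 hη.2.2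
  refine (h.preimage Subtype.val_injective.injOn).subset ?_
  rintro γ ⟨z, hz, hne⟩
  exact ⟨z, hz, subset_tsupport _ hne⟩

theorem sym_eq_sum (N : ℕ) {η : ℂ → ℝ} (hη : IsTest η) {K : Set ℂ} (hK : IsCompact K)
    (hKU : K ⊆ Uhp) : ∀ z ∈ K, sym N η z
      = ∑ γ ∈ (finite_sym_support N hη hK hKU).toFinset, η (mob (γ : SL(2, ℤ)) z) := by
  intro z hz
  unfold sym
  apply finsum_eq_sum_of_support_subset
  intro γ hγ
  simp only [Set.Finite.coe_toFinset, Set.mem_ofPred_eq]
  exact ⟨z, hz, hγ⟩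

theorem finite_support_point (N : ℕ) {η : ℂ → ℝ} (hη : IsTest η) {z : ℂ} (hz : z ∈ Uhp) :
    (Function.support fun γ : Gamma0 N => η (mob (γ : SL(2, ℤ)) z)).Finite :=
  (finite_sym_support N hη isCompact_singleton (Set.singleton_subset_iff.mpr hz)).subset
    (fun _ hγ => ⟨z, rfl, hγ⟩)

theorem continuousOn_dz {u : ℂ → ℝ} (hu : ContDiffOn ℝ ∞ u Uhp) :
    ContinuousOn (fun z => dz u z) Uhp := by
  have h1 : ContinuousOn (fderiv ℝ u) Uhp :=
    hu.continuousOn_fderiv_of_isOpen isOpen_Uhp (by simp)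
  have h2 : ∀ v : ℂ, ContinuousOn (fun z => ((fderiv ℝ u z v : ℝ) : ℂ)) Uhp := fun v =>
    Complex.continuous_ofReal.comp_continuousOn (h1.clm_apply continuousOn_const)
  unfold dz
  exact (h2 1).sub (continuousOn_const.mul (h2 Complex.I))

/-- Away from the `Γ₀(N)`-orbit of the support of `η` the symmetrization is locally zero. -/
theorem dz_sym_eq_zero (N : ℕ) {η : ℂ → ℝ} (hη : IsTest η) {z : ℂ} (hz : z ∈ Uhp)
    (h : ∀ γ : Gamma0 N, mob (γ : SL(2, ℤ)) z ∉ tsupport η) : dz (sym N η) z = 0 := by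
  obtain ⟨K, hK, hzK, hKU⟩ := exists_compact_subset isOpen_Uhp hz
  have hev : sym N η =ᶠ[𝓝 z] fun _ => (0 : ℝ) := by
    have h1 : ∀ γ ∈ (finite_sym_support N hη hK hKU).toFinset,
        ∀ᶠ w in 𝓝 z, η (mob (γ : SL(2, ℤ)) w) = 0 := by
      intro γ _
      have h0 : η =ᶠ[𝓝 (mob (γ : SL(2, ℤ)) z)] 0 := notMem_tsupport_iff_eventuallyEq.mp (h γ)
      exact (continuousAt_mob (γ : SL(2, ℤ)) hz).eventually h0
    have h2 := (Filter.eventually_all_finset _).mpr h1
    filter_upwards [mem_interior_iff_mem_nhds.mp hzK, h2] with w hw hw2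
    rw [sym_eq_sum N hη hK hKU w hw]
    exact Finset.sum_eq_zero hw2
  have hfd : fderiv ℝ (sym N η) z = 0 := by
    rw [hev.fderiv_eq]
    simp
  simp [dz, hfd]

theorem finite_chi_support (N : ℕ) {χ₁ : ℂ → ℝ} (hχ : IsSL2ZPartition χ₁) {K : Set ℂ}
    (hK : IsCompact K) (hKU : K ⊆ Uhp) :
    {q : SL(2, ℤ) ⧸ Gamma0 N | ∃ z ∈ K, χ₁ (mob (Quotient.out q) z) ≠ 0}.Finite := by
  have h := hχ.locfin K hK hKU
  refine (h.preimage (Quotient.out_injective.injOn)).subset ?_
  rintro q ⟨z, hz, hne⟩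
  exact ⟨z, hz, hne⟩

theorem continuousOn_chi_aux (N : ℕ) {χ₁ : ℂ → ℝ} (hχ : IsSL2ZPartition χ₁) :
    ContinuousOn (chi N χ₁) Uhp := by
  intro z₀ hz₀
  obtain ⟨K, hK, hzK, hKU⟩ := exists_compact_subset isOpen_Uhp hz₀
  have hev : chi N χ₁ =ᶠ[𝓝 z₀] fun z =>
      ∑ q ∈ (finite_chi_support N hχ hK hKU).toFinset, χ₁ (mob (Quotient.out q) z) := by
    filter_upwards [mem_interior_iff_mem_nhds.mp hzK] with z hz
    have hzK' : z ∈ K := hz
    unfold chi
    rw [Set.indicator_of_mem (hKU hzK')]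
    apply finsum_eq_sum_of_support_subset
    intro q hq
    simp only [Set.Finite.coe_toFinset, Set.mem_ofPred_eq]
    exact ⟨z, hzK', hq⟩
  have hc : ContinuousAt (fun z =>
      ∑ q ∈ (finite_chi_support N hχ hK hKU).toFinset, χ₁ (mob (Quotient.out q) z)) z₀ := by
    apply tendsto_finsetSum
    intro q _
    have h1 : ContinuousAt χ₁ (mob (Quotient.out q) z₀) :=
      hχ.smooth.continuousOn.continuousAt (isOpen_Uhp.mem_nhds (_root_.Fermat.Agent.S21.IntB.mob_mem_Uhp _ _))
    exact h1.comp (continuousAt_mob _ hz₀)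
  exact (hc.congr hev.symm).continuousWithinAt

theorem exists_of_chi_ne_zero (N : ℕ) {χ₁ : ℂ → ℝ} {z : ℂ} (h : chi N χ₁ z ≠ 0) :
    z ∈ Uhp ∧ ∃ q : SL(2, ℤ) ⧸ Gamma0 N, χ₁ (mob (Quotient.out q) z) ≠ 0 := by
  unfold chi at h
  have hz : z ∈ Uhp := by
    by_contra hz
    exact h (Set.indicator_of_notMem hz _)
  refine ⟨hz, ?_⟩
  rw [Set.indicator_of_mem hz] at h
  by_contra hne
  push Not at hne
  exact h (finsum_eq_zero_of_forall_eq_zero hne)

end IntB

section INT

variable (N : ℕ) [NeZero N] {χ₁ : ℂ → ℝ}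

theorem contDiffOn_sym {η : ℂ → ℝ} (hη : IsTest η) : ContDiffOn ℝ ∞ (sym N η) Uhp := by
  intro z₀ hz₀
  obtain ⟨K, hK, hzK, hKU⟩ := exists_compact_subset isOpen_Uhp hz₀
  have hev : sym N η =ᶠ[𝓝 z₀] fun z =>
      ∑ γ ∈ (IntB.finite_sym_support N hη hK hKU).toFinset, η (mob (γ : SL(2, ℤ)) z) := by
    filter_upwards [mem_interior_iff_mem_nhds.mp hzK] with z hz
      using IntB.sym_eq_sum N hη hK hKU z hz
  have hsm : ContDiffAt ℝ ∞ (fun z =>
      ∑ γ ∈ (IntB.finite_sym_support N hη hK hKU).toFinset, η (mob (γ : SL(2, ℤ)) z)) z₀ := by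
    apply ContDiffAt.sum
    intro γ _
    exact hη.1.contDiffAt.comp z₀ (IntB.contDiffAt_mob (γ : SL(2, ℤ)) hz₀)
  exact (hsm.congr_of_eventuallyEq hev).contDiffWithinAt

theorem sym_mob {η : ℂ → ℝ} (hη : IsTest η) (γ : Gamma0 N) (z : ℂ) (hz : z ∈ Uhp) :
    sym N η (mob (γ : SL(2, ℤ)) z) = sym N η z := by
  unfold sym
  have h : ∀ γ' : Gamma0 N, η (mob (γ' : SL(2, ℤ)) (mob (γ : SL(2, ℤ)) z))
      = η (mob ((γ' * γ : Gamma0 N) : SL(2, ℤ)) z) := by
    intro γ'
    rw [Subgroup.coe_mul, IntB.mob_mul]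
  simp_rw [h]
  exact finsum_comp_equiv (Equiv.mulRight γ)
    (f := fun γ'' : Gamma0 N => η (mob (γ'' : SL(2, ℤ)) z))

theorem sym_add {η₁ η₂ : ℂ → ℝ} (h₁ : IsTest η₁) (h₂ : IsTest η₂) (z : ℂ) (hz : z ∈ Uhp) :
    sym N (fun w => η₁ w + η₂ w) z = sym N η₁ z + sym N η₂ z := by
  unfold sym
  exact finsum_add_distrib (IntB.finite_support_point N h₁ hz) (IntB.finite_support_point N h₂ hz)

theorem sym_smul {η : ℂ → ℝ} (hη : IsTest η) (c : ℝ) (z : ℂ) (hz : z ∈ Uhp) :
    sym N (fun w => c * η w) z = c * sym N η z := by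
  unfold sym
  exact (mul_finsum _ c).symm

/-- finite energy of a symmetrized test function -/
theorem integrable_energy_sym (hχ : IsSL2ZPartition χ₁) {η : ℂ → ℝ} (hη : IsTest η) :
    Integrable (fun z => ‖dz (sym N η) z‖ ^ 2 * chi N χ₁ z) := by
  classical
  set K : Set ℂ := tsupport η with hKdef
  have hK : IsCompact K := hη.2.1
  have hKU : K ⊆ Uhp := hη.2.2
  have hG := hχ.locfin K hK hKU
  -- the compact set carrying the integrand
  set C : Set ℂ := ⋃ g ∈ hG.toFinset,
    mob ((Quotient.out (QuotientGroup.mk g : SL(2, ℤ) ⧸ Gamma0 N))⁻¹ * g) '' K with hCdef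
  have hC : IsCompact C :=
    hG.toFinset.isCompact_biUnion fun g _ =>
      hK.image_of_continuousOn ((IntB.continuousOn_mob _).mono hKU)
  have hCU : C ⊆ Uhp := by
    intro z hz
    simp only [hCdef, Set.mem_iUnion] at hz
    obtain ⟨g, _, w, _, rfl⟩ := hz
    exact IntB.mob_mem_Uhp _ _
  have hcont : ContinuousOn (fun z => ‖dz (sym N η) z‖ ^ 2 * chi N χ₁ z) Uhp :=
    (((IntB.continuousOn_dz (contDiffOn_sym N hη)).norm).pow 2).mul
      (IntB.continuousOn_chi_aux N hχ)
  have hint : IntegrableOn (fun z => ‖dz (sym N η) z‖ ^ 2 * chi N χ₁ z) C :=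
    (hcont.mono hCU).integrableOn_compact hC
  refine hint.integrable_of_forall_notMem_eq_zero ?_
  intro z hzC
  by_contra hne
  have h1 : dz (sym N η) z ≠ 0 := by
    intro h0
    apply hne
    simp [h0]
  have h2 : chi N χ₁ z ≠ 0 := by
    intro h0
    apply hne
    simp [h0]
  obtain ⟨hzU, q, hq⟩ := IntB.exists_of_chi_ne_zero N h2
  have h3 : ∃ γ : Gamma0 N, mob (γ : SL(2, ℤ)) z ∈ tsupport η := by
    by_contra hcon
    push Not at hcon
    exact h1 (IntB.dz_sym_eq_zero N hη hzU hcon)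
  obtain ⟨γ, hγ⟩ := h3
  apply hzC
  set g : SL(2, ℤ) := Quotient.out q * (γ : SL(2, ℤ))⁻¹ with hgdef
  have hgz : mob g (mob (γ : SL(2, ℤ)) z) = mob (Quotient.out q) z := by
    rw [hgdef, IntB.mob_mul, IntB.mob_inv_mob _ hzU]
  have hgG : g ∈ hG.toFinset := by
    simp only [Set.Finite.mem_toFinset, Set.mem_ofPred_eq]
    exact ⟨mob (γ : SL(2, ℤ)) z, hγ, by rw [hgz]; exact hq⟩
  have hmk : (QuotientGroup.mk g : SL(2, ℤ) ⧸ Gamma0 N) = q := by
    rw [hgdef, QuotientGroup.mk_mul_of_mem _ (Subgroup.inv_mem _ γ.2)]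
    exact QuotientGroup.out_eq' q
  have hh : (Quotient.out (QuotientGroup.mk g : SL(2, ℤ) ⧸ Gamma0 N))⁻¹ * g
      = (γ : SL(2, ℤ))⁻¹ := by
    rw [hmk, hgdef, ← mul_assoc, inv_mul_cancel, one_mul]
  simp only [hCdef, Set.mem_iUnion]
  refine ⟨g, hgG, mob (γ : SL(2, ℤ)) z, hγ, ?_⟩
  rw [hh, IntB.mob_inv_mob _ hzU]

end INT

end Fermat.Agent.S21

end
-- ===== PACK-END S21/IntB.lean

-- ===== PACK-BEGIN Lib/Newform/H16/XFricke.lean
section



/-!
# NEWFORM block X (helper16): the Fricke leaves `X1`, `X1b`, `X1c`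

The Fricke matrix `W_N = [[0, -1], [N, 0]]` is the Atkin–Lehner matrix at `q = N` for the level
`N * 1`, so all three leaves follow from the Atkin–Lehner calculus of `H923/AL.lean`:

* `frickeOp     : H958.X.FrickeOp`     (`f ∣[2] W_N` is a cusp form on `Γ₀(N)`),
* `frickeInvol  : H958.X.FrickeInvol`  (`W_N² = -N`, scalars act trivially in weight `2`),
* `frickeHecke  : H958.X.FrickeHecke`  (`T_ℓ` commutes with `W_N`, `ℓ ∤ N`).
-/

set_option autoImplicit false

noncomputable section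

namespace Fermat.Agent.Lib.Newform.H16

open Matrix UpperHalfPlane ModularForm CongruenceSubgroup ConjAct
open scoped MatrixGroups ModularForm Pointwise
open Fermat.Agent.Lib.Newform

theorem isInt_frickeMatrix (N : ℕ) [NeZero N] :
    H923.IsInt (H958.X.frickeMatrix N) 0 (-1) N 0 := by
  unfold H923.IsInt H958.X.frickeMatrix
  simp

/-- The Fricke matrix is the Atkin–Lehner matrix at `q = N` for the level `N * 1`. -/
theorem isAL_frickeMatrix (N : ℕ) [NeZero N] : H923.IsAL N 1 (H958.X.frickeMatrix N) := by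
  refine ⟨0, -1, 1, 0, ?_, by norm_num⟩
  have h := isInt_frickeMatrix N
  unfold H923.IsInt at h ⊢
  rw [h]
  simp

theorem invUnder_mul_one {N : ℕ} {k : ℤ} {f : ℍ → ℂ} (hf : H923.InvUnder N k f) :
    H923.InvUnder (N * 1) k f := by
  rwa [Nat.mul_one]

theorem invUnder_of_mul_one {N : ℕ} {k : ℤ} {f : ℍ → ℂ} (hf : H923.InvUnder (N * 1) k f) :
    H923.InvUnder N k f := by
  rwa [Nat.mul_one] at hf

/-- `Γ₀(N) ≤ W⁻¹ Γ₀(N) W`. -/
theorem Gamma0_le_conj_frickeMatrix (N : ℕ) [NeZero N] :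
    (Gamma0 N : Subgroup (GL (Fin 2) ℝ)) ≤
      toConjAct (H958.X.frickeMatrix N)⁻¹ • (Gamma0 N : Subgroup (GL (Fin 2) ℝ)) := by
  rintro _ ⟨g, hg, rfl⟩
  have hg' : g ∈ Gamma0 (N * 1) := by rwa [Nat.mul_one]
  obtain ⟨g', hg'mem, hmul⟩ :=
    (isAL_frickeMatrix N).exists_eq_mul ((isAL_frickeMatrix N).mul_mapGL hg')
  rw [Subgroup.mem_pointwise_smul_iff_inv_smul_mem, ← toConjAct_inv, inv_inv, toConjAct_smul,
    hmul, mul_inv_cancel_right]
  refine Subgroup.mem_map_of_mem _ ?_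
  rwa [Nat.mul_one] at hg'mem

/-- The Fricke operator on cusp forms of weight `2` and level `Γ₀(N)`. -/
def frickeCusp {N : ℕ} [NeZero N] (f : CuspForm (Gamma0 N) 2) : CuspForm (Gamma0 N) 2 where
  toFun := (⇑f : ℍ → ℂ) ∣[(2 : ℤ)] H958.X.frickeMatrix N
  slash_action_eq' γ hγ :=
    (CuspForm.translate f (H958.X.frickeMatrix N)).slash_action_eq' γ
      (Gamma0_le_conj_frickeMatrix N hγ)
  holo' := (CuspForm.translate f (H958.X.frickeMatrix N)).holo'
  zero_at_cusps' hc :=
    (CuspForm.translate f (H958.X.frickeMatrix N)).zero_at_cusps'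
      (hc.mono (Gamma0_le_conj_frickeMatrix N))

@[simp] theorem coe_frickeCusp {N : ℕ} [NeZero N] (f : CuspForm (Gamma0 N) 2) :
    (⇑(frickeCusp f) : ℍ → ℂ) = (⇑f : ℍ → ℂ) ∣[(2 : ℤ)] H958.X.frickeMatrix N := rfl

/-- **X1**: the Fricke involution preserves `S₂(Γ₀(N))`. -/
theorem frickeOp : H958.X.FrickeOp := fun _ _ f => ⟨frickeCusp f, rfl⟩

/-- `W_N * W_N` is the scalar matrix `-N`. -/
theorem frickeMatrix_mul_self (N : ℕ) [NeZero N] :
    H958.X.frickeMatrix N * H958.X.frickeMatrix N =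
      Matrix.GeneralLinearGroup.scalar (Fin 2)
        (Units.mk0 (-(N : ℝ)) (neg_ne_zero.mpr (Nat.cast_ne_zero.mpr (NeZero.ne N)))) := by
  apply Units.ext
  rw [Units.val_mul, Matrix.GeneralLinearGroup.coe_scalar, isInt_frickeMatrix N]
  ext i j
  fin_cases i <;> fin_cases j <;> simp [Matrix.mul_apply, Fin.sum_univ_two]

/-- **X1b**: the Fricke operator is an involution in weight `2` (on all functions). -/
theorem frickeInvol : H958.X.FrickeInvol := by
  intro N _ f
  rw [← SlashAction.slash_mul, frickeMatrix_mul_self, H923.slash_two_scalar]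

/-- **X1c**: the Fricke operator commutes with `T_ℓ`, `ℓ ∤ N`. -/
theorem frickeHecke : H958.X.FrickeHecke := by
  intro N _ ℓ hℓ hℓN f
  have hf : H923.InvUnder (N * 1) 2 (⇑f : ℍ → ℂ) :=
    invUnder_mul_one (H923.invUnder_of_slashInvariantFormClass f)
  exact (H923.heckeT_slash_AL 2 (NeZero.ne N) hℓ (by rwa [Nat.mul_one]) hf
    (isAL_frickeMatrix N)).symm

end Fermat.Agent.Lib.Newform.H16

end
end
-- ===== PACK-END Lib/Newform/H16/XFricke.lean

-- ===== PACK-BEGIN Lib/Newform/H803/Cuspidal.lean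
section



/-!
# Cuspidal functions (helper803)

`IsCuspidal k F`: `F : ℍ → ℂ` is holomorphic and vanishes (in weight `k`) at every rational cusp.
This class is stable under the slash action of `GL(2, ℚ)`, contains all cusp forms for
arithmetic subgroups, and an `IsCuspidal` function invariant under `Γ ≤ SL(2, ℤ)` is a cusp form
for `Γ`.
-/

set_option autoImplicit false

namespace Fermat.Agent.Lib.Newform.H803

open Matrix Matrix.SpecialLinearGroup CongruenceSubgroup UpperHalfPlane ModularForm OnePoint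
open scoped MatrixGroups ModularForm Manifold Pointwise

variable {k : ℤ}

/-- Holomorphic and vanishing at all rational cusps. -/
def IsCuspidal (k : ℤ) (F : ℍ → ℂ) : Prop :=
  MDiff F ∧ ∀ c : OnePoint ℝ, IsCusp c 𝒮ℒ → c.IsZeroAt F k

theorem IsCuspidal.add {F G : ℍ → ℂ} (hF : IsCuspidal k F) (hG : IsCuspidal k G) :
    IsCuspidal k (F + G) :=
  ⟨hF.1.add hG.1, fun c hc => (hF.2 c hc).add (hG.2 c hc)⟩

theorem IsCuspidal.zero : IsCuspidal k (0 : ℍ → ℂ) := by
  refine ⟨mdifferentiable_const, fun c _ g _ => ?_⟩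
  rw [SlashAction.zero_slash]
  exact Filter.zero_zeroAtFilter _

theorem IsCuspidal.smul {F : ℍ → ℂ} (a : ℂ) (hF : IsCuspidal k F) : IsCuspidal k (a • F) := by
  refine ⟨hF.1.const_smul a, fun c hc g hg => ?_⟩
  rw [ModularForm.smul_slash]
  exact Filter.ZeroAtFilter.smul _ (hF.2 c hc g hg)

/-- The submodule of cuspidal functions. -/
def cuspSub (k : ℤ) : Submodule ℂ (ℍ → ℂ) where
  carrier := {F | IsCuspidal k F}
  add_mem' := fun hF hG => hF.add hG
  zero_mem' := IsCuspidal.zero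
  smul_mem' := fun a _ hF => hF.smul a

@[simp] theorem mem_cuspSub {F : ℍ → ℂ} : F ∈ cuspSub k ↔ IsCuspidal k F := Iff.rfl

/-- Stability under the slash action of rational matrices. -/
theorem IsCuspidal.slash_rat {F : ℍ → ℂ} (hF : IsCuspidal k F) (g : GL (Fin 2) ℚ) :
    IsCuspidal k (F ∣[k] (g.map (Rat.castHom ℝ))) := by
  refine ⟨hF.1.slash k _, fun c hc => ?_⟩
  rw [← IsZeroAt.smul_iff]
  apply hF.2
  have h1 := hc.smul (g.map (Rat.castHom ℝ))
  have := isArithmetic_conj_SL2Z g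
  exact (Subgroup.IsArithmetic.isCusp_iff_isCusp_SL2Z _).mp h1

/-- Stability under the slash action of `SL(2, ℤ)`. -/
theorem IsCuspidal.slash_SL {F : ℍ → ℂ} (hF : IsCuspidal k F) (γ : SL(2, ℤ)) :
    IsCuspidal k (F ∣[k] γ) := by
  refine ⟨hF.1.slash k _, fun c hc => ?_⟩
  rw [ModularForm.SL_slash, ← IsZeroAt.smul_iff]
  apply hF.2
  exact hc.smul_of_mem ⟨γ, rfl⟩

theorem cuspSub_slash_stable : ∀ F ∈ cuspSub k, ∀ γ : SL(2, ℤ), F ∣[k] γ ∈ cuspSub k :=
  fun _ hF γ => IsCuspidal.slash_SL hF γ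

/-- Cusp forms for arithmetic subgroups are cuspidal. -/
theorem isCuspidal_of_cuspForm {Γ : Subgroup (GL (Fin 2) ℝ)} [Γ.IsArithmetic]
    (f : CuspForm Γ k) : IsCuspidal k (f : ℍ → ℂ) :=
  ⟨f.holo', fun _ hc => f.zero_at_cusps' ((Subgroup.IsArithmetic.isCusp_iff_isCusp_SL2Z Γ).mpr hc)⟩

/-- A cuspidal function invariant under `Γ ≤ SL(2, ℤ)` is a cusp form for `Γ`. -/
def cuspFormOfIsCuspidal (Γ : Subgroup SL(2, ℤ)) (F : ℍ → ℂ) (hF : IsCuspidal k F)
    (hinv : SlInv k Γ F) : CuspForm Γ k where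
  toFun := F
  slash_action_eq' := by
    rintro γ ⟨γ', hγ', rfl⟩
    exact hinv γ' hγ'
  holo' := hF.1
  zero_at_cusps' := fun {c} hc => hF.2 c (hc.mono (by
    rintro γ ⟨γ', _, rfl⟩
    exact ⟨γ', rfl⟩))

@[simp] theorem coe_cuspFormOfIsCuspidal (Γ : Subgroup SL(2, ℤ)) (F : ℍ → ℂ)
    (hF : IsCuspidal k F) (hinv : SlInv k Γ F) :
    ((cuspFormOfIsCuspidal Γ F hF hinv : CuspForm Γ k) : ℍ → ℂ) = F := rfl

end Fermat.Agent.Lib.Newform.H803

end
-- ===== PACK-END Lib/Newform/H803/Cuspidal.lean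

-- ===== PACK-BEGIN A2/H313/Hens.lean
section







/-!
# A2 / ALG (c1) = HENS: constants of a split cover (helper313)

**Theorem** (`algebraic_mem_range`).  Let `R` be a Henselian discrete valuation ring with
uniformiser `w` and algebraically closed residue field, `E = Frac R` of characteristic zero,
`L / E` any field extension, and `V` a valuation subring of `L` containing `R` such that `w` is
a non-unit of `V` generating the non-units of `V` (i.e. `e = 1`; no discreteness or rank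
hypothesis on `V` is needed).  Then every element of `L` which is algebraic over `E` lies in `E`.

Use in the wall A2 (`coord/A2.md`, step (c1)): `L = 𝔽` the Kummer cover of `F` in which the
component valuation `V₁` splits, `V` an extension of `V₁` to `𝔽`; conclusion: `E` is
algebraically closed in `𝔽`, so the two-chart model of `𝔽` has `B'_f ∩ B'_i = R` and the
connectedness argument applies to it.

Proof: `w`-adic approximation `a = s_N + w^N a_N` with `s_N ∈ R` (`HensApprox.lean`), an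
annihilating polynomial `f ∈ R[X]` of minimal degree (so `f'(a) ≠ 0`), and the strong Hensel
lemma in Newton form (`StrongHensel.lean`).
-/

set_option autoImplicit false
set_option linter.unusedSectionVars false

namespace Fermat.Agent.A2.H313

open Polynomial IsLocalRing

section Setup

variable {R : Type*} (E : Type*) {L : Type*} [CommRing R] [IsDomain R]
  [IsDiscreteValuationRing R]
  [Field E] [Algebra R E] [IsFractionRing R E]
  [Field L] [Algebra E L] [Algebra R L] [IsScalarTower R E L]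
  {w : R} {V : ValuationSubring L}

include E in
/-- Polynomial expressions over `R` in an algebraic element are algebraic. -/
theorem isAlgebraic_aeval {a : L} (ha : IsAlgebraic E a) (p : R[X]) :
    IsAlgebraic E (aeval a p) := by
  induction p using Polynomial.induction_on' with
  | add p q hp hq =>
    rw [map_add]
    exact hp.add hq
  | monomial n r =>
    rw [aeval_monomial]
    refine IsAlgebraic.mul ?_ (ha.pow n)
    rw [IsScalarTower.algebraMap_apply R E L]
    exact isAlgebraic_algebraMap _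

include E in
/-- An annihilating polynomial over `R` of an algebraic element with nonvanishing derivative
(characteristic zero). -/
theorem exists_separable_annihilator [CharZero E] {a : L} (ha : IsAlgebraic E a) :
    ∃ f : R[X], aeval a f = 0 ∧ aeval a (derivative f) ≠ 0 := by
  classical
  have : CharZero R := (algebraMap R E).charZero
  have hex : ∃ n : ℕ, ∃ p : R[X], p ≠ 0 ∧ aeval a p = 0 ∧ p.natDegree = n := by
    obtain ⟨p, hp0, hp⟩ := (IsFractionRing.isAlgebraic_iff R E L).2 ha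
    exact ⟨_, p, hp0, hp, rfl⟩
  obtain ⟨p, hp0, hp, hpn⟩ := Nat.find_spec hex
  refine ⟨p, hp, fun hder => ?_⟩
  have hdeg : p.natDegree ≠ 0 := by
    intro h0
    rw [eq_C_of_natDegree_eq_zero h0, aeval_C] at hp
    have hc : p.coeff 0 = 0 := (map_eq_zero_iff _ (algebraMap_RL_injective E)).1 hp
    apply hp0
    rw [eq_C_of_natDegree_eq_zero h0, hc, map_zero]
  have hder0 : derivative p ≠ 0 := derivative_ne_zero.2 hdeg
  have hlt : (derivative p).natDegree < Nat.find hex := by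
    rw [← hpn]
    exact natDegree_derivative_lt hdeg
  exact Nat.find_min hex hlt ⟨derivative p, hder0, hder, rfl⟩

namespace UnifIn

variable (h : UnifIn w V)
include h

/-- The ring homomorphism `R → V`. -/
noncomputable def toV : R →+* V := (algebraMap R L).codRestrict V h.mem

theorem coe_eval_map (p : R[X]) (x : V) :
    (((p.map h.toV).eval x : V) : L) = aeval (x : L) p := by
  have := Polynomial.hom_eval₂ p h.toV V.subtype x
  rw [aeval_def, eval_map]
  exact this

/-- Taylor expansion to second order with remainder in `V`. -/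
theorem exists_taylor (p : R[X]) {x y : L} (hx : x ∈ V) (hy : y ∈ V) :
    ∃ K ∈ V, aeval (x + y) p = aeval x p + aeval x (derivative p) * y + K * y ^ 2 := by
  obtain ⟨K, hK⟩ := binomExpansion (p.map h.toV) (⟨x, hx⟩ : V) (⟨y, hy⟩ : V)
  refine ⟨K, K.2, ?_⟩
  have h1 : (((p.map h.toV).eval ((⟨x, hx⟩ : V) + ⟨y, hy⟩) : V) : L) = _ :=
    congrArg Subtype.val hK
  rw [derivative_map] at h1
  push_cast at h1
  simp only [h.coe_eval_map] at h1
  simpa using h1

/-- First order difference quotient in `V`. -/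
theorem exists_sub_factor (p : R[X]) {x y : L} (hx : x ∈ V) (hy : y ∈ V) :
    ∃ z ∈ V, aeval x p - aeval y p = z * (x - y) := by
  obtain ⟨z, hz⟩ := evalSubFactor (p.map h.toV) (⟨x, hx⟩ : V) (⟨y, hy⟩ : V)
  refine ⟨z, z.2, ?_⟩
  have h1 : (((p.map h.toV).eval (⟨x, hx⟩ : V) - (p.map h.toV).eval (⟨y, hy⟩ : V) : V) : L) = _ :=
    congrArg Subtype.val hz
  push_cast at h1
  simp only [h.coe_eval_map] at h1
  simpa using h1

include E in
/-- **HENS, integral case**: an element of `V` which is algebraic over `E` lies in `R`. -/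
theorem exists_eq_of_mem [HenselianLocalRing R] [IsAlgClosed (ResidueField R)] [CharZero E]
    {a : L} (haV : a ∈ V) (ha : IsAlgebraic E a) : ∃ b : R, algebraMap R L b = a := by
  obtain ⟨f, hf, hf'⟩ := exists_separable_annihilator (R := R) E ha
  set x : L := aeval a (derivative f) with hx
  have hxV : x ∈ V := h.aeval_mem _ haV
  obtain ⟨δ, hδ⟩ := h.exists_pow_mul_unit E hxV hf' (isAlgebraic_aeval E ha _)
  obtain ⟨s, a', ha'V, hsa⟩ := h.exists_approx E haV ha (2 * δ + 1)
  set ϖ : L := algebraMap R L w with hϖ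
  set q₀ := V.valuation ϖ with hq₀
  have hq0 : 0 < q₀ := h.val_w_pos (E := E)
  have hq1 : q₀ < 1 := h.val_w_lt_one
  have hle1 : ∀ {t : L}, t ∈ V → V.valuation t ≤ 1 := fun ht => (V.valuation_le_one_iff _).2 ht
  have hpowle : ∀ {m n : ℕ}, m ≤ n → q₀ ^ n ≤ q₀ ^ m := fun hmn =>
    (pow_le_pow_iff_right_of_lt_one₀ hq0 hq1).2 hmn
  set y : L := -(ϖ ^ (2 * δ + 1) * a') with hy
  have hyV : y ∈ V := neg_mem (V.mul_mem _ _ (pow_mem (h.mem w) _) ha'V)
  have hsy : algebraMap R L s = a + y := by rw [hsa, hy]; ring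
  have hvy : V.valuation y ≤ q₀ ^ (2 * δ + 1) := by
    rw [hy, Valuation.map_neg, map_mul, map_pow]
    calc q₀ ^ (2 * δ + 1) * V.valuation a' ≤ q₀ ^ (2 * δ + 1) * 1 := by
          gcongr
          exact hle1 ha'V
      _ = _ := mul_one _
  -- the value `f(s)`
  obtain ⟨K, hKV, hK⟩ := h.exists_taylor f haV hyV
  have hfs : algebraMap R L (f.eval s) = x * y + K * y ^ 2 := by
    rw [← aeval_algebraMap_apply_eq_algebraMap_eval, hsy, hK, hf, zero_add]
  have hvfs : V.valuation (algebraMap R L (f.eval s)) ≤ q₀ ^ (3 * δ + 1) := by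
    rw [hfs]
    refine Valuation.map_add_le _ ?_ ?_
    · rw [map_mul, hδ]
      calc q₀ ^ δ * V.valuation y ≤ q₀ ^ δ * q₀ ^ (2 * δ + 1) := by gcongr
        _ = q₀ ^ (3 * δ + 1) := by rw [← pow_add]; congr 1; ring
    · rw [map_mul, map_pow]
      calc V.valuation K * V.valuation y ^ 2 ≤ 1 * (q₀ ^ (2 * δ + 1)) ^ 2 := by
            gcongr
            exact hle1 hKV
        _ = q₀ ^ (4 * δ + 2) := by rw [one_mul, ← pow_mul]; congr 1; ring
        _ ≤ q₀ ^ (3 * δ + 1) := hpowle (by omega)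
  -- the value `f'(s)`
  obtain ⟨z, hzV, hz⟩ := h.exists_sub_factor (derivative f) (h.mem s) haV
  have hc : algebraMap R L ((derivative f).eval s) = x + z * y := by
    rw [← aeval_algebraMap_apply_eq_algebraMap_eval]
    have : algebraMap R L s - a = y := by rw [hsy]; ring
    rw [this] at hz
    rw [hx]
    linear_combination hz
  have hvc : V.valuation (algebraMap R L ((derivative f).eval s)) = q₀ ^ δ := by
    rw [hc, ← hδ]
    apply Valuation.map_add_eq_of_lt_left
    rw [map_mul, hδ]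
    calc V.valuation z * V.valuation y ≤ 1 * q₀ ^ (2 * δ + 1) := by
          gcongr
          exact hle1 hzV
      _ = q₀ ^ (2 * δ + 1) := one_mul _
      _ < q₀ ^ δ := pow_lt_pow_right_of_lt_one₀ hq0 hq1 (by omega)
  set c : R := (derivative f).eval s with hcdef
  have hc0 : c ≠ 0 := by
    intro h0
    rw [h0, map_zero, map_zero] at hvc
    exact (pow_pos hq0 δ).ne hvc
  obtain ⟨k, u, hcu, hck⟩ := h.val_eq_pow hc0
  have hkδ : k = δ := h.val_pow_injective (E := E) (hck.symm.trans hvc)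
  subst hkδ
  obtain ⟨r₁, hr₁⟩ := h.pow_dvd_of_val_le (E := E) hvfs
  -- Newton
  set t : R := (↑(u⁻¹) : R) ^ 2 * (w ^ (k + 1) * r₁) with ht
  have htm : t ∈ maximalIdeal R := by
    have hwm : w ∈ maximalIdeal R := h.irr.not_isUnit
    have e : t = w * ((↑(u⁻¹) : R) ^ 2 * (w ^ k * r₁)) := by rw [ht]; ring
    rw [e]
    exact Ideal.mul_mem_right _ _ hwm
  have hnewton : f.eval s = ((derivative f).eval s) ^ 2 * t := by
    rw [← hcdef, hr₁, hcu, ht]
    have huu : (u : R) * ((u⁻¹ : Rˣ) : R) = 1 := Units.mul_inv u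
    have e : 3 * k + 1 = 2 * k + (k + 1) := by ring
    rw [e, pow_add]
    linear_combination (-(w ^ (2 * k) * (w ^ (k + 1) * r₁)) * ((u : R) * ((u⁻¹ : Rˣ) : R) + 1)) * huu
  obtain ⟨y₀, hy₀, hroot⟩ := exists_root_newton f s t htm hnewton
  rw [← hcdef] at hroot
  set b : R := s + c * y₀ with hb
  -- `a` is close to `b`
  have hvab : V.valuation (a - algebraMap R L b) ≤ q₀ ^ (k + 1) := by
    have e : a - algebraMap R L b = -y - algebraMap R L c * algebraMap R L y₀ := by
      rw [hb, map_add, map_mul, hsy]; ring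
    rw [e]
    refine Valuation.map_sub_le _ ?_ ?_
    · rw [Valuation.map_neg]
      exact hvy.trans (hpowle (by omega))
    · rw [map_mul, hck, pow_succ]
      gcongr
      exact h.val_le_w_of_mem_maximalIdeal hy₀
  -- conclusion
  refine ⟨b, ?_⟩
  by_contra hne
  have hab : a - algebraMap R L b ≠ 0 := sub_ne_zero.2 (Ne.symm hne)
  have hfact : (X - C b) * (f /ₘ (X - C b)) = f := mul_divByMonic_eq_iff_isRoot.2 hroot
  set g : R[X] := f /ₘ (X - C b) with hg
  have hga : aeval a g = 0 := by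
    have := hf
    rw [← hfact, map_mul, map_sub, aeval_X, aeval_C] at this
    exact (mul_eq_zero.1 this).resolve_left hab
  have hxa : x = (a - algebraMap R L b) * aeval a (derivative g) := by
    rw [hx, ← hfact, derivative_mul, map_add, map_mul, map_mul, hga, mul_zero, zero_add]
    simp
  have : V.valuation x ≤ q₀ ^ (k + 1) := by
    rw [hxa, map_mul]
    calc V.valuation (a - algebraMap R L b) * V.valuation (aeval a (derivative g))
        ≤ q₀ ^ (k + 1) * 1 := by
          gcongr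
          exact hle1 (h.aeval_mem _ haV)
      _ = _ := mul_one _
  rw [hδ] at this
  exact absurd this (not_le.2 (pow_lt_pow_right_of_lt_one₀ hq0 hq1 (Nat.lt_succ_self k)))

include E in
/-- **HENS**: the constants of `L`.  `R` Henselian DVR with uniformiser `w` and algebraically
closed residue field, `E = Frac R` of characteristic zero, `V` a valuation subring of `L`
containing `R`, with `w` generating the non-units of `V`.  Then every element of `L` algebraic
over `E` lies in (the image of) `E`. -/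
theorem algebraic_mem_range [HenselianLocalRing R] [IsAlgClosed (ResidueField R)] [CharZero E]
    {a : L} (ha : IsAlgebraic E a) : a ∈ (algebraMap E L).range := by
  rcases V.mem_or_inv_mem a with haV | haV
  · obtain ⟨b, rfl⟩ := h.exists_eq_of_mem E haV ha
    exact ⟨algebraMap R E b, (IsScalarTower.algebraMap_apply R E L b).symm⟩
  · obtain ⟨b, hb⟩ := h.exists_eq_of_mem E haV ha.inv
    refine ⟨(algebraMap R E b)⁻¹, ?_⟩
    rw [map_inv₀, ← IsScalarTower.algebraMap_apply R E L b, hb, inv_inv]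

end UnifIn

end Setup

end Fermat.Agent.A2.H313

namespace Fermat.Agent.A2.H313

open IsLocalRing

/-- **HENS** (piece (c1) of the wall A2), hypotheses unbundled, typeclasses as in
`Fermat.Agent.A2.algSS`: `R` Henselian DVR with uniformiser `w` and algebraically closed
residue field, `E = Frac R` of characteristic zero, `L / E` any field, `V` a valuation subring
of `L` containing `R` in which `w` is a non-unit generating all non-units.  Then `E` is
algebraically closed in `L`. -/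
theorem hens {R E L : Type*} [CommRing R] [IsDomain R] [IsDiscreteValuationRing R]
    [HenselianLocalRing R] [IsAlgClosed (ResidueField R)]
    [Field E] [CharZero E] [Algebra R E] [IsFractionRing R E]
    [Field L] [Algebra E L] [Algebra R L] [IsScalarTower R E L]
    (w : R) (hw : Irreducible w) (V : ValuationSubring L)
    (hRV : ∀ r : R, algebraMap R L r ∈ V)
    (hw1 : algebraMap R L w ∈ V.nonunits)
    (hw2 : ∀ x ∈ V.nonunits, ∃ y ∈ V, x = algebraMap R L w * y)
    (a : L) (ha : IsAlgebraic E a) : a ∈ (algebraMap E L).range :=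
  UnifIn.algebraic_mem_range E ⟨hw, hRV, hw1, hw2⟩ ha

/-- Variant of `hens`: the conclusion for the integral elements, `V ∩ (algebraic closure of
`E` in `L`) = R`. -/
theorem hens_integral {R E L : Type*} [CommRing R] [IsDomain R] [IsDiscreteValuationRing R]
    [HenselianLocalRing R] [IsAlgClosed (ResidueField R)]
    [Field E] [CharZero E] [Algebra R E] [IsFractionRing R E]
    [Field L] [Algebra E L] [Algebra R L] [IsScalarTower R E L]
    (w : R) (hw : Irreducible w) (V : ValuationSubring L)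
    (hRV : ∀ r : R, algebraMap R L r ∈ V)
    (hw1 : algebraMap R L w ∈ V.nonunits)
    (hw2 : ∀ x ∈ V.nonunits, ∃ y ∈ V, x = algebraMap R L w * y)
    (a : L) (haV : a ∈ V) (ha : IsAlgebraic E a) : ∃ b : R, algebraMap R L b = a :=
  UnifIn.exists_eq_of_mem E ⟨hw, hRV, hw1, hw2⟩ haV ha

end Fermat.Agent.A2.H313

end
-- ===== PACK-END A2/H313/Hens.lean

-- ===== PACK-BEGIN S36/H586/G1Approx.lean
section



/-!
# S36 engine, ALG3 leaf STEP-A (helper586), part 2: approximation at three DVRs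

Mathlib + helper253's approximation lemmas (copied in `Approx586.lean`).

* `exists_approx_ord3` : prescribed orders at three distinct discrete valuation subrings;
* `exists_approx_res3` : prescribed residues (of units) at three distinct discrete valuation
                         subrings.
-/

set_option autoImplicit false

namespace Fermat.Agent.S36.H586

section Approx3

variable {F : Type*} [Field F]

/-- The family of three valuation subrings. -/
def fam3 (V₁ V₂ V₃ : ValuationSubring F) : Fin 3 → ValuationSubring F := ![V₁, V₂, V₃]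

theorem fam3_inc (V₁ V₂ V₃ : ValuationSubring F) [IsDiscreteValuationRing V₁]
    [IsDiscreteValuationRing V₂] [IsDiscreteValuationRing V₃]
    (h12 : V₁ ≠ V₂) (h13 : V₁ ≠ V₃) (h23 : V₂ ≠ V₃) :
    ∀ i i' : Fin 3, i ≠ i' → ¬ fam3 V₁ V₂ V₃ i ≤ fam3 V₁ V₂ V₃ i' := by
  intro i i' hii'
  fin_cases i <;> fin_cases i' <;> simp only [fam3] at *
  · exact absurd rfl hii'
  · exact not_le_of_dvr_ne V₁ V₂ h12
  · exact not_le_of_dvr_ne V₁ V₃ h13
  · exact not_le_of_dvr_ne V₂ V₁ (Ne.symm h12)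
  · exact absurd rfl hii'
  · exact not_le_of_dvr_ne V₂ V₃ h23
  · exact not_le_of_dvr_ne V₃ V₁ (Ne.symm h13)
  · exact not_le_of_dvr_ne V₃ V₂ (Ne.symm h23)
  · exact absurd rfl hii'

theorem val_le_of_gen {V : ValuationSubring F} {t : F} (ht0 : t ≠ 0)
    (hgen : ∀ f ∈ V.nonunits, f * t⁻¹ ∈ V) (z : F) (hz : V.valuation z < 1) :
    V.valuation z ≤ V.valuation t := by
  have h1 : z * t⁻¹ ∈ V := hgen z ((ValuationSubring.mem_nonunits_iff V).2 hz)
  have h2 := (ValuationSubring.valuation_le_one_iff V _).2 h1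
  rw [map_mul, map_inv₀] at h2
  have ht : 0 < V.valuation t := zero_lt_iff.2 ((Valuation.ne_zero_iff _).2 ht0)
  have := mul_le_mul_of_nonneg_right h2 ht.le
  rwa [mul_assoc, inv_mul_cancel₀ ht.ne', mul_one, one_mul] at this

/-- **Prescribed orders** at three distinct discrete valuation subrings. -/
theorem exists_approx_ord3 (V₁ V₂ V₃ : ValuationSubring F) [IsDiscreteValuationRing V₁]
    [IsDiscreteValuationRing V₂] [IsDiscreteValuationRing V₃]
    (h12 : V₁ ≠ V₂) (h13 : V₁ ≠ V₃) (h23 : V₂ ≠ V₃) {t₁ t₂ t₃ : F}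
    (h₁0 : t₁ ≠ 0) (h₁ : t₁ ∈ V₁.nonunits) (hg₁ : ∀ f ∈ V₁.nonunits, f * t₁⁻¹ ∈ V₁)
    (h₂0 : t₂ ≠ 0) (h₂ : t₂ ∈ V₂.nonunits) (hg₂ : ∀ f ∈ V₂.nonunits, f * t₂⁻¹ ∈ V₂)
    (h₃0 : t₃ ≠ 0) (h₃ : t₃ ∈ V₃.nonunits) (hg₃ : ∀ f ∈ V₃.nonunits, f * t₃⁻¹ ∈ V₃)
    (a b c : ℤ) : ∃ g : F, IsOrd V₁ t₁ g a ∧ IsOrd V₂ t₂ g b ∧ IsOrd V₃ t₃ g c := by
  have hinc := fam3_inc V₁ V₂ V₃ h12 h13 h23
  obtain ⟨T₁, hT₁, hT₁'⟩ := Fermat.Agent.S36.H586.Ap.exists_unif_multi (fam3 V₁ V₂ V₃) hinc 0
    (τ := t₁) h₁0 (val_lt_one_of_mem_nonunits h₁) (val_le_of_gen h₁0 hg₁)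
  obtain ⟨T₂, hT₂, hT₂'⟩ := Fermat.Agent.S36.H586.Ap.exists_unif_multi (fam3 V₁ V₂ V₃) hinc 1
    (τ := t₂) h₂0 (val_lt_one_of_mem_nonunits h₂) (val_le_of_gen h₂0 hg₂)
  obtain ⟨T₃, hT₃, hT₃'⟩ := Fermat.Agent.S36.H586.Ap.exists_unif_multi (fam3 V₁ V₂ V₃) hinc 2
    (τ := t₃) h₃0 (val_lt_one_of_mem_nonunits h₃) (val_le_of_gen h₃0 hg₃)
  have e10 : V₁.valuation T₁ = V₁.valuation t₁ := hT₁
  have e11 : V₂.valuation T₁ = 1 := hT₁' 1 (by decide)
  have e12 : V₃.valuation T₁ = 1 := hT₁' 2 (by decide)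
  have e20 : V₁.valuation T₂ = 1 := hT₂' 0 (by decide)
  have e21 : V₂.valuation T₂ = V₂.valuation t₂ := hT₂
  have e22 : V₃.valuation T₂ = 1 := hT₂' 2 (by decide)
  have e30 : V₁.valuation T₃ = 1 := hT₃' 0 (by decide)
  have e31 : V₂.valuation T₃ = 1 := hT₃' 1 (by decide)
  have e32 : V₃.valuation T₃ = V₃.valuation t₃ := hT₃
  refine ⟨T₁ ^ a * T₂ ^ b * T₃ ^ c, ?_, ?_, ?_⟩
  · unfold IsOrd
    rw [map_mul, map_mul, map_zpow₀, map_zpow₀, map_zpow₀, e10, e20, e30, one_zpow, one_zpow,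
      mul_one, mul_one]
  · unfold IsOrd
    rw [map_mul, map_mul, map_zpow₀, map_zpow₀, map_zpow₀, e11, e21, e31, one_zpow, one_zpow,
      mul_one, one_mul]
  · unfold IsOrd
    rw [map_mul, map_mul, map_zpow₀, map_zpow₀, map_zpow₀, e12, e22, e32, one_zpow, one_zpow,
      one_mul, one_mul]

theorem val_lt_one_of_three {V : ValuationSubring F} {a b c : F} (ha : V.valuation a < 1)
    (hb : V.valuation b < 1) (hc : V.valuation c < 1) : V.valuation (a + b + c) < 1 :=
  Valuation.map_add_lt _ (Valuation.map_add_lt _ ha hb) hc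

theorem val_mul_lt_one_of_lt_of_le {V : ValuationSubring F} {a b : F} (ha : V.valuation a < 1)
    (hb : V.valuation b ≤ 1) : V.valuation (a * b) < 1 := by
  rw [map_mul]
  calc V.valuation a * V.valuation b ≤ V.valuation a * 1 := by gcongr
    _ = V.valuation a := mul_one _
    _ < 1 := ha

theorem val_sub_comm_lt {V : ValuationSubring F} {a b : F} (h : V.valuation (a - b) < 1) :
    V.valuation (b - a) < 1 := by
  rwa [← Valuation.map_neg, neg_sub]

/-- **Prescribed residues** at three distinct discrete valuation subrings. -/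
theorem exists_approx_res3 (V₁ V₂ V₃ : ValuationSubring F) [IsDiscreteValuationRing V₁]
    [IsDiscreteValuationRing V₂] [IsDiscreteValuationRing V₃]
    (h12 : V₁ ≠ V₂) (h13 : V₁ ≠ V₃) (h23 : V₂ ≠ V₃) (g₁ g₂ g₃ : F)
    (hg₁ : V₁.valuation g₁ = 1) (hg₂ : V₂.valuation g₂ = 1) (hg₃ : V₃.valuation g₃ = 1) :
    ∃ g : F, PU V₁ (g / g₁) ∧ PU V₂ (g / g₂) ∧ PU V₃ (g / g₃) := by
  have hinc := fam3_inc V₁ V₂ V₃ h12 h13 h23
  have m₁ : g₁ ∈ fam3 V₁ V₂ V₃ 0 := (ValuationSubring.valuation_le_one_iff V₁ _).1 hg₁.le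
  have m₂ : g₂ ∈ fam3 V₁ V₂ V₃ 1 := (ValuationSubring.valuation_le_one_iff V₂ _).1 hg₂.le
  have m₃ : g₃ ∈ fam3 V₁ V₂ V₃ 2 := (ValuationSubring.valuation_le_one_iff V₃ _).1 hg₃.le
  obtain ⟨L₁, hL₁, hL₁'⟩ := Fermat.Agent.S36.H586.Ap.exists_lift_multi (fam3 V₁ V₂ V₃) hinc 0 m₁
  obtain ⟨L₂, hL₂, hL₂'⟩ := Fermat.Agent.S36.H586.Ap.exists_lift_multi (fam3 V₁ V₂ V₃) hinc 1 m₂
  obtain ⟨L₃, hL₃, hL₃'⟩ := Fermat.Agent.S36.H586.Ap.exists_lift_multi (fam3 V₁ V₂ V₃) hinc 2 m₃
  obtain ⟨E₁, hE₁, hE₁'⟩ := Fermat.Agent.S36.H586.Ap.exists_idem_multi (fam3 V₁ V₂ V₃) hinc 0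
  obtain ⟨E₂, hE₂, hE₂'⟩ := Fermat.Agent.S36.H586.Ap.exists_idem_multi (fam3 V₁ V₂ V₃) hinc 1
  obtain ⟨E₃, hE₃, hE₃'⟩ := Fermat.Agent.S36.H586.Ap.exists_idem_multi (fam3 V₁ V₂ V₃) hinc 2
  -- memberships and smallness, spelled out
  have l10 : V₁.valuation L₁ ≤ 1 := (ValuationSubring.valuation_le_one_iff V₁ _).2 (hL₁ 0)
  have l11 : V₂.valuation L₁ ≤ 1 := (ValuationSubring.valuation_le_one_iff V₂ _).2 (hL₁ 1)
  have l12 : V₃.valuation L₁ ≤ 1 := (ValuationSubring.valuation_le_one_iff V₃ _).2 (hL₁ 2)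
  have l20 : V₁.valuation L₂ ≤ 1 := (ValuationSubring.valuation_le_one_iff V₁ _).2 (hL₂ 0)
  have l21 : V₂.valuation L₂ ≤ 1 := (ValuationSubring.valuation_le_one_iff V₂ _).2 (hL₂ 1)
  have l22 : V₃.valuation L₂ ≤ 1 := (ValuationSubring.valuation_le_one_iff V₃ _).2 (hL₂ 2)
  have l30 : V₁.valuation L₃ ≤ 1 := (ValuationSubring.valuation_le_one_iff V₁ _).2 (hL₃ 0)
  have l31 : V₂.valuation L₃ ≤ 1 := (ValuationSubring.valuation_le_one_iff V₂ _).2 (hL₃ 1)
  have l32 : V₃.valuation L₃ ≤ 1 := (ValuationSubring.valuation_le_one_iff V₃ _).2 (hL₃ 2)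
  have d1 : V₁.valuation (L₁ - g₁) < 1 := hL₁'
  have d2 : V₂.valuation (L₂ - g₂) < 1 := hL₂'
  have d3 : V₃.valuation (L₃ - g₃) < 1 := hL₃'
  have s10 : V₁.valuation (E₁ - 1) < 1 := val_sub_comm_lt hE₁
  have s11 : V₂.valuation E₁ < 1 := hE₁' 1 (by decide)
  have s12 : V₃.valuation E₁ < 1 := hE₁' 2 (by decide)
  have s20 : V₁.valuation E₂ < 1 := hE₂' 0 (by decide)
  have s21 : V₂.valuation (E₂ - 1) < 1 := val_sub_comm_lt hE₂
  have s22 : V₃.valuation E₂ < 1 := hE₂' 2 (by decide)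
  have s30 : V₁.valuation E₃ < 1 := hE₃' 0 (by decide)
  have s31 : V₂.valuation E₃ < 1 := hE₃' 1 (by decide)
  have s32 : V₃.valuation (E₃ - 1) < 1 := val_sub_comm_lt hE₃
  refine ⟨E₁ * L₁ + E₂ * L₂ + E₃ * L₃, ?_, ?_, ?_⟩
  · refine pu_div_of_sub hg₁ ?_
    have e : E₁ * L₁ + E₂ * L₂ + E₃ * L₃ - g₁ =
        ((E₁ - 1) * L₁ + (L₁ - g₁)) + E₂ * L₂ + E₃ * L₃ := by ring
    rw [e]
    exact val_lt_one_of_three
      (Valuation.map_add_lt _ (val_mul_lt_one_of_lt_of_le s10 l10) d1)
      (val_mul_lt_one_of_lt_of_le s20 l20) (val_mul_lt_one_of_lt_of_le s30 l30)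
  · refine pu_div_of_sub hg₂ ?_
    have e : E₁ * L₁ + E₂ * L₂ + E₃ * L₃ - g₂ =
        E₁ * L₁ + ((E₂ - 1) * L₂ + (L₂ - g₂)) + E₃ * L₃ := by ring
    rw [e]
    exact val_lt_one_of_three (val_mul_lt_one_of_lt_of_le s11 l11)
      (Valuation.map_add_lt _ (val_mul_lt_one_of_lt_of_le s21 l21) d2)
      (val_mul_lt_one_of_lt_of_le s31 l31)
  · refine pu_div_of_sub hg₃ ?_
    have e : E₁ * L₁ + E₂ * L₂ + E₃ * L₃ - g₃ =
        E₁ * L₁ + E₂ * L₂ + ((E₃ - 1) * L₃ + (L₃ - g₃)) := by ring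
    rw [e]
    exact val_lt_one_of_three (val_mul_lt_one_of_lt_of_le s12 l12)
      (val_mul_lt_one_of_lt_of_le s22 l22)
      (Valuation.map_add_lt _ (val_mul_lt_one_of_lt_of_le s32 l32) d3)

end Approx3

end Fermat.Agent.S36.H586

end
-- ===== PACK-END S36/H586/G1Approx.lean

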