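import Fermat.Prelude.Thm_CongruenceSubgroup_one_mem_strictPeriods_Gamma0
import Fermat.Prelude.Thm_ModularForm_sturm_bound_Gamma0
import Mathlib
import Fermat.Prelude.Def_FLTPrelim_Modularity
import Mathlib.NumberTheory.ModularForms.QExpansion
import Mathlib.NumberTheory.ModularForms.CongruenceSubgroups
import Mathlib.RingTheory.PowerSeries.Expand
import Fermat.Prelude.Def_ModularCurve_X0
import Fermat.Agent.Pack.S36.E2L1
import Fermat.Agent.Pack.S36.E2L3
import Fermat.Agent.Pack.S36.E2L2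
import Fermat.Agent.Pack.S36.E3L1
import Fermat.Agent.Pack.S36.E3L2
import Fermat.Agent.Pack.S36.E0L3
import Fermat.Agent.Pack.S36.E3L3

-- ===== PACK-BEGIN S23/Cap/Basic.lean
section




/-!
# S23 / WP0 : closure properties of `IsMF`, `IsCF` and of the q-expansion map `qx`.
-/

set_option autoImplicit false
set_option linter.unusedSectionVars false

namespace Fermat.Agent.S23.Cap

open UpperHalfPlane ModularForm ModularFormClass MatrixGroups CongruenceSubgroup

variable {Γ : Subgroup (GL (Fin 2) ℝ)} {k k₁ k₂ : ℤ} {f g : ℍ → ℂ}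

/-! ### closure properties -/

theorem IsMF.congr_weight (h : k₁ = k₂) (hf : IsMF Γ k₁ f) : IsMF Γ k₂ f := h ▸ hf

theorem IsCF.congr_weight (h : k₁ = k₂) (hf : IsCF Γ k₁ f) : IsCF Γ k₂ f := h ▸ hf

theorem IsCF.isMF (hf : IsCF Γ k f) : IsMF Γ k f := by
  obtain ⟨F, rfl⟩ := hf
  exact ⟨ModularFormClass.modularForm F, rfl⟩

theorem IsMF.zero : IsMF Γ k (0 : ℍ → ℂ) := ⟨0, rfl⟩

theorem IsCF.zero : IsCF Γ k (0 : ℍ → ℂ) := ⟨0, rfl⟩

theorem IsMF.add (hf : IsMF Γ k f) (hg : IsMF Γ k g) : IsMF Γ k (f + g) := by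
  obtain ⟨F, rfl⟩ := hf
  obtain ⟨G, rfl⟩ := hg
  exact ⟨F + G, rfl⟩

theorem IsMF.neg (hf : IsMF Γ k f) : IsMF Γ k (-f) := by
  obtain ⟨F, rfl⟩ := hf
  exact ⟨-F, rfl⟩

theorem IsMF.sub (hf : IsMF Γ k f) (hg : IsMF Γ k g) : IsMF Γ k (f - g) := by
  obtain ⟨F, rfl⟩ := hf
  obtain ⟨G, rfl⟩ := hg
  exact ⟨F - G, rfl⟩

theorem IsMF.smul [Γ.HasDetOne] (c : ℂ) (hf : IsMF Γ k f) : IsMF Γ k (c • f) := by
  obtain ⟨F, rfl⟩ := hf
  exact ⟨c • F, rfl⟩

theorem IsMF.sum {ι : Type*} (s : Finset ι) (F : ι → ℍ → ℂ)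
    (hF : ∀ i ∈ s, IsMF Γ k (F i)) : IsMF Γ k (∑ i ∈ s, F i) := by
  classical
  induction s using Finset.induction_on with
  | empty => simpa using (IsMF.zero : IsMF Γ k 0)
  | insert a s ha ih =>
    rw [Finset.sum_insert ha]
    exact (hF a (Finset.mem_insert_self a s)).add
      (ih fun i hi => hF i (Finset.mem_insert_of_mem hi))

theorem IsMF.const [Γ.HasDetOne] (c : ℂ) : IsMF Γ 0 (fun _ => c) :=
  ⟨ModularForm.const c, rfl⟩

theorem IsMF.one [Γ.HasDetOne] : IsMF Γ 0 (1 : ℍ → ℂ) :=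
  ⟨ModularForm.const 1, rfl⟩

theorem IsMF.mul [Γ.HasDetPlusMinusOne] (hf : IsMF Γ k₁ f) (hg : IsMF Γ k₂ g) :
    IsMF Γ (k₁ + k₂) (f * g) := by
  obtain ⟨F, rfl⟩ := hf
  obtain ⟨G, rfl⟩ := hg
  exact ⟨F.mul G, rfl⟩

theorem IsMF.pow [Γ.HasDetPlusMinusOne] (hf : IsMF Γ k f) (n : ℕ) :
    IsMF Γ (k * n) (f ^ n) := by
  obtain ⟨F, rfl⟩ := hf
  exact ⟨ModularForm.mcast (by ring) (F.pow n), by
    ext z
    simp [ModularForm.coe_pow]⟩

theorem IsCF.add (hf : IsCF Γ k f) (hg : IsCF Γ k g) : IsCF Γ k (f + g) := by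
  obtain ⟨F, rfl⟩ := hf
  obtain ⟨G, rfl⟩ := hg
  exact ⟨F + G, rfl⟩

theorem IsCF.neg (hf : IsCF Γ k f) : IsCF Γ k (-f) := by
  obtain ⟨F, rfl⟩ := hf
  exact ⟨-F, rfl⟩

theorem IsCF.smul [Γ.HasDetOne] (c : ℂ) (hf : IsCF Γ k f) : IsCF Γ k (c • f) := by
  obtain ⟨F, rfl⟩ := hf
  exact ⟨c • F, rfl⟩

theorem IsCF.sum {ι : Type*} (s : Finset ι) (F : ι → ℍ → ℂ)
    (hF : ∀ i ∈ s, IsCF Γ k (F i)) : IsCF Γ k (∑ i ∈ s, F i) := by
  classical
  induction s using Finset.induction_on with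
  | empty => simpa using (IsCF.zero : IsCF Γ k 0)
  | insert a s ha ih =>
    rw [Finset.sum_insert ha]
    exact (hF a (Finset.mem_insert_self a s)).add
      (ih fun i hi => hF i (Finset.mem_insert_of_mem hi))

theorem IsCF.mul_isMF [Γ.HasDetPlusMinusOne] (hf : IsCF Γ k₁ f) (hg : IsMF Γ k₂ g) :
    IsCF Γ (k₁ + k₂) (f * g) := by
  obtain ⟨F, rfl⟩ := hf
  obtain ⟨G, rfl⟩ := hg
  exact ⟨F.mulModularForm G, rfl⟩

theorem G0_le_SLZ (N : ℕ) : G0 N ≤ SLZ := by
  rintro _ ⟨γ, -, rfl⟩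
  exact ⟨γ, rfl⟩

/-- restriction of the level: a level one form is a form of level `Γ₀(N)`. -/
theorem IsMF.of_levelOne (N : ℕ) (hf : IsMF SLZ k f) : IsMF (G0 N) k f := by
  obtain ⟨F, rfl⟩ := hf
  exact ⟨{ toFun := F
           slash_action_eq' := fun γ hγ => F.slash_action_eq' γ (G0_le_SLZ N hγ)
           holo' := F.holo'
           bdd_at_cusps' := fun hc => F.bdd_at_cusps' (hc.mono (G0_le_SLZ N)) }, rfl⟩

theorem IsCF.of_levelOne (N : ℕ) (hf : IsCF SLZ k f) : IsCF (G0 N) k f := by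
  obtain ⟨F, rfl⟩ := hf
  exact ⟨{ toFun := F
           slash_action_eq' := fun γ hγ => F.slash_action_eq' γ (G0_le_SLZ N hγ)
           holo' := F.holo'
           zero_at_cusps' := fun hc => F.zero_at_cusps' (hc.mono (G0_le_SLZ N)) }, rfl⟩

/-- A level one modular form whose constant coefficient vanishes is a cusp form. -/
theorem IsMF.isCF_levelOne_of_coeff_zero (hf : IsMF SLZ k f)
    (h0 : PowerSeries.coeff 0 (qx f) = 0) : IsCF SLZ k f := by
  obtain ⟨F, rfl⟩ := hf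
  exact ⟨toCuspForm F h0, rfl⟩

/-- The constant coefficient of a cusp form (level `Γ₀(N)`) vanishes. -/
theorem IsCF.coeff_zero (N : ℕ) [NeZero N] (hf : IsCF (G0 N) k f) :
    PowerSeries.coeff 0 (qx f) = 0 := by
  obtain ⟨F, rfl⟩ := hf
  exact CuspFormClass.qExpansion_coeff_zero F one_pos (one_mem_strictPeriods_Gamma0 N)

theorem IsCF.coeff_zero_levelOne (hf : IsCF SLZ k f) :
    PowerSeries.coeff 0 (qx f) = 0 := by
  obtain ⟨F, rfl⟩ := hf
  exact CuspFormClass.qExpansion_coeff_zero F one_pos one_mem_strictPeriods_SL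

/-! ### the q-expansion map on forms of level `Γ₀(N)` (period `1`) -/

section qx

variable (N : ℕ) [NeZero N]

theorem qx_zero : qx (0 : ℍ → ℂ) = 0 := qExpansion_zero 1

theorem qx_one : qx (1 : ℍ → ℂ) = 1 := qExpansion_one 1

theorem qx_add (hf : IsMF (G0 N) k₁ f) (hg : IsMF (G0 N) k₂ g) :
    qx (f + g) = qx f + qx g := by
  obtain ⟨F, rfl⟩ := hf
  obtain ⟨G, rfl⟩ := hg
  exact ModularForm.qExpansion_add one_pos (one_mem_strictPeriods_Gamma0 N) F G

theorem qx_neg (hf : IsMF (G0 N) k f) : qx (-f) = - qx f := by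
  obtain ⟨F, rfl⟩ := hf
  exact ModularForm.qExpansion_neg one_pos (one_mem_strictPeriods_Gamma0 N) F

theorem qx_sub (hf : IsMF (G0 N) k₁ f) (hg : IsMF (G0 N) k₂ g) :
    qx (f - g) = qx f - qx g := by
  obtain ⟨F, rfl⟩ := hf
  obtain ⟨G, rfl⟩ := hg
  exact ModularForm.qExpansion_sub one_pos (one_mem_strictPeriods_Gamma0 N) F G

theorem qx_smul (c : ℂ) (hf : IsMF (G0 N) k f) : qx (c • f) = c • qx f := by
  obtain ⟨F, rfl⟩ := hf
  exact ModularForm.qExpansion_smul one_pos (one_mem_strictPeriods_Gamma0 N) c F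

theorem qx_mul (hf : IsMF (G0 N) k₁ f) (hg : IsMF (G0 N) k₂ g) :
    qx (f * g) = qx f * qx g := by
  obtain ⟨F, rfl⟩ := hf
  obtain ⟨G, rfl⟩ := hg
  exact ModularForm.qExpansion_mul_coe one_pos (one_mem_strictPeriods_Gamma0 N) F G

theorem qx_pow (hf : IsMF (G0 N) k f) (n : ℕ) : qx (f ^ n) = qx f ^ n := by
  induction n with
  | zero => simpa using qx_one
  | succ n ih =>
    rw [pow_succ, pow_succ, qx_mul N (hf.pow n) hf, ih]

theorem qx_sum {ι : Type*} (s : Finset ι) (F : ι → ℍ → ℂ) (w : ι → ℤ)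
    (hF : ∀ i ∈ s, IsMF (G0 N) (w i) (F i)) :
    qx (∑ i ∈ s, F i) = ∑ i ∈ s, qx (F i) := by
  classical
  -- work at the level of cusp functions, which avoids any weight bookkeeping
  have han : ∀ i ∈ s, AnalyticAt ℂ (cuspFunction 1 (F i)) 0 := by
    intro i hi
    obtain ⟨G, hG⟩ := hF i hi
    rw [← hG]
    exact ModularFormClass.analyticAt_cuspFunction_zero G one_pos
      (one_mem_strictPeriods_Gamma0 N)
  have key : ∀ s : Finset ι, (∀ i ∈ s, AnalyticAt ℂ (cuspFunction 1 (F i)) 0) →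
      AnalyticAt ℂ (cuspFunction 1 (∑ i ∈ s, F i)) 0 ∧
        qExpansion 1 (∑ i ∈ s, F i) = ∑ i ∈ s, qExpansion 1 (F i) := by
    intro s
    induction s using Finset.induction_on with
    | empty =>
      intro _
      refine ⟨?_, by simpa using qExpansion_zero 1⟩
      simp only [Finset.sum_empty]
      exact ModularFormClass.analyticAt_cuspFunction_zero (0 : ModularForm (G0 N) 0)
        one_pos (one_mem_strictPeriods_Gamma0 N)
    | insert a s ha ih =>
      intro h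
      have ha' := h a (Finset.mem_insert_self a s)
      obtain ⟨hs1, hs2⟩ := ih fun i hi => h i (Finset.mem_insert_of_mem hi)
      rw [Finset.sum_insert ha, Finset.sum_insert ha]
      refine ⟨?_, ?_⟩
      · rw [UpperHalfPlane.cuspFunction_add ha'.continuousAt hs1.continuousAt]
        exact ha'.add hs1
      · rw [UpperHalfPlane.qExpansion_add ha' hs1, hs2]
  exact (key s han).2

/-- injectivity of the q-expansion. -/
theorem eq_zero_of_qx_eq_zero (hf : IsMF (G0 N) k f) (h : qx f = 0) : f = 0 := by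
  obtain ⟨F, rfl⟩ := hf
  have := (ModularForm.qExpansion_eq_zero_iff one_pos (one_mem_strictPeriods_Gamma0 N) F).mp h
  rw [this]
  rfl

theorem eq_of_qx_eq (hf : IsMF (G0 N) k f) (hg : IsMF (G0 N) k g) (h : qx f = qx g) :
    f = g := by
  have h1 : qx (f - g) = 0 := by rw [qx_sub N hf hg, h, sub_self]
  have := eq_zero_of_qx_eq_zero N (hf.sub hg) h1
  exact sub_eq_zero.mp this

/-- Sturm bound (from the Prelude), in the `IsMF` language. -/
theorem sturm (hf : IsMF (G0 N) k f)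
    (h : ∀ n : ℕ, n ≤ (k * (Gamma0 N).index).toNat / 12 → PowerSeries.coeff n (qx f) = 0) :
    f = 0 := by
  obtain ⟨F, rfl⟩ := hf
  have := ModularForm.sturm_bound_Gamma0 N F h
  rw [this]
  rfl

end qx

/-! ### integrality bookkeeping -/

theorem IsIntSeries.isRatSeries {F : PowerSeries ℂ} (hF : IsIntSeries F) : IsRatSeries F :=
  fun n => by obtain ⟨m, hm⟩ := hF n; exact ⟨m, by simp [hm]⟩

/-- A series is integral iff it is the image of an integral power series. -/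
theorem isIntSeries_iff {F : PowerSeries ℂ} :
    IsIntSeries F ↔ ∃ P : PowerSeries ℤ, P.map (Int.castRingHom ℂ) = F := by
  constructor
  · intro h
    choose m hm using h
    refine ⟨PowerSeries.mk m, ?_⟩
    ext n
    simp [hm n]
  · rintro ⟨P, rfl⟩ n
    exact ⟨PowerSeries.coeff n P, by simp⟩

theorem isRatSeries_iff {F : PowerSeries ℂ} :
    IsRatSeries F ↔ ∃ P : PowerSeries ℚ, P.map (algebraMap ℚ ℂ) = F := by
  constructor
  · intro h
    choose m hm using h
    refine ⟨PowerSeries.mk m, ?_⟩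
    ext n
    simp [hm n]
  · rintro ⟨P, rfl⟩ n
    exact ⟨PowerSeries.coeff n P, by simp⟩

theorem IsIntSeries.mul {F G : PowerSeries ℂ} (hF : IsIntSeries F) (hG : IsIntSeries G) :
    IsIntSeries (F * G) := by
  rw [isIntSeries_iff] at hF hG ⊢
  obtain ⟨P, rfl⟩ := hF
  obtain ⟨Q, rfl⟩ := hG
  exact ⟨P * Q, map_mul _ _ _⟩

theorem IsIntSeries.pow {F : PowerSeries ℂ} (hF : IsIntSeries F) (n : ℕ) :
    IsIntSeries (F ^ n) := by
  rw [isIntSeries_iff] at hF ⊢
  obtain ⟨P, rfl⟩ := hF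
  exact ⟨P ^ n, map_pow _ _ _⟩

theorem IsIntSeries.add {F G : PowerSeries ℂ} (hF : IsIntSeries F) (hG : IsIntSeries G) :
    IsIntSeries (F + G) := by
  rw [isIntSeries_iff] at hF hG ⊢
  obtain ⟨P, rfl⟩ := hF
  obtain ⟨Q, rfl⟩ := hG
  exact ⟨P + Q, map_add _ _ _⟩

/-- Integral (even rational) series are fixed by every ring endomorphism of `ℂ`. -/
theorem IsRatSeries.map_eq {F : PowerSeries ℂ} (hF : IsRatSeries F) (σ : ℂ →+* ℂ) :
    F.map σ = F := by
  ext n
  obtain ⟨r, hr⟩ := hF n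
  simp [hr]

end Fermat.Agent.S23.Cap

end
-- ===== PACK-END S23/Cap/Basic.lean

-- ===== PACK-BEGIN S23/ConversePkg.lean
section



/-!
# S23, converse step (packaging as a cusp form)
-/

set_option autoImplicit false

namespace Fermat.Agent.S23.Conv

open Complex Filter Topology UpperHalfPlane ModularForm
open scoped MatrixGroups ModularForm Manifold

/-- The ring of holomorphic functions on `ℍ` has no zero divisors (pointwise form). -/
theorem eq_zero_of_mul_eq_zero_of_mdiff {D h : ℍ → ℂ} (hD : MDiff D) (hh : MDiff h)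
    (hne : ∃ τ, h τ ≠ 0) (hmul : ∀ τ, D τ * h τ = 0) : ∀ τ, D τ = 0 := by
  obtain ⟨τ₀, hτ₀⟩ := hne
  have hDo := UpperHalfPlane.mdifferentiable_iff.mp hD
  have hho := UpperHalfPlane.mdifferentiable_iff.mp hh
  have hU : IsOpen {z : ℂ | 0 < z.im} := isOpen_upperHalfPlaneSet
  have hUc : IsPreconnected {z : ℂ | 0 < z.im} := (convex_halfSpace_im_gt 0).isPreconnected
  have hDan : AnalyticOnNhd ℂ (D ∘ ofComplex) {z : ℂ | 0 < z.im} :=
    fun z hz ↦ hDo.analyticAt (hU.mem_nhds hz)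
  have hz₀ : (τ₀ : ℂ) ∈ {z : ℂ | 0 < z.im} := τ₀.im_pos
  have hcont : ContinuousAt (h ∘ ofComplex) (τ₀ : ℂ) :=
    (hho.continuousOn).continuousAt (hU.mem_nhds hz₀)
  have hne' : (h ∘ ofComplex) (τ₀ : ℂ) ≠ 0 := by simpa using hτ₀
  have hev : ∀ᶠ z in 𝓝 (τ₀ : ℂ), (h ∘ ofComplex) z ≠ 0 := hcont.eventually_ne hne'
  have hev0 : (D ∘ ofComplex) =ᶠ[𝓝 (τ₀ : ℂ)] 0 := by
    filter_upwards [hev] with z hz
    have := hmul (ofComplex z)
    exact (mul_eq_zero.mp this).resolve_right hz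
  have := hDan.eqOn_zero_of_preconnected_of_eventuallyEq_zero hUc hz₀ hev0
  intro τ
  have h1 := this τ.im_pos
  simpa using h1


/-- Function-level converse on `ℍ`. -/
theorem exists_mdiff_quotient {g h : ℍ → ℂ} (hg : MDiff g) (hh : MDiff h) (hne : ∃ τ, h τ ≠ 0)
    {n : ℕ} (hn : 0 < n) (b : ℕ → ℍ → ℂ) (hb : ∀ i < n, Continuous (b i))
    (heq : ∀ τ, g τ ^ n + ∑ i ∈ Finset.range n, b i τ * g τ ^ i * h τ ^ (n - i) = 0) :
    ∃ F : ℍ → ℂ, MDiff F ∧ (∀ τ, F τ * h τ = g τ) ∧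
      ∀ τ, F τ ^ n + ∑ i ∈ Finset.range n, b i τ * F τ ^ i = 0 := by
  have hU : IsOpen {z : ℂ | 0 < z.im} := isOpen_upperHalfPlaneSet
  have hUc : IsPreconnected {z : ℂ | 0 < z.im} := (convex_halfSpace_im_gt 0).isPreconnected
  obtain ⟨τ₀, hτ₀⟩ := hne
  have hb' : ∀ i < n, ContinuousOn ((b i) ∘ ofComplex) {z : ℂ | 0 < z.im} := by
    intro i hi
    refine (hb i hi).comp_continuousOn ?_
    intro z hz
    exact (mdifferentiableAt_ofComplex hz).continuousAt.continuousWithinAt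
  obtain ⟨F₀, hF₀d, hF₀h, hF₀eq⟩ := exists_holo_quotient hU hUc
    (UpperHalfPlane.mdifferentiable_iff.mp hg) (UpperHalfPlane.mdifferentiable_iff.mp hh) hn
    (fun i ↦ (b i) ∘ ofComplex) hb' ⟨(τ₀ : ℂ), τ₀.im_pos, by simpa using hτ₀⟩
    (fun z _ ↦ by simpa using heq (ofComplex z))
  refine ⟨fun τ ↦ F₀ τ, ?_, ?_, ?_⟩
  · rw [UpperHalfPlane.mdifferentiable_iff]
    refine hF₀d.congr fun z hz ↦ ?_
    simp [Function.comp, ofComplex_apply_of_im_pos hz]
  · intro τ
    simpa using hF₀h τ τ.im_pos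
  · intro τ
    simpa using hF₀eq τ τ.im_pos


/-- If `x` satisfies pointwise a monic equation whose coefficients tend to `0`, then `x` tends
to `0`. -/
theorem tendsto_zero_of_monic {α : Type*} {l : Filter α} {n : ℕ} (hn : 0 < n)
    (c : ℕ → α → ℂ) (x : α → ℂ) (hc : ∀ i < n, Tendsto (c i) l (𝓝 0))
    (hx : ∀ a, x a ^ n + ∑ i ∈ Finset.range n, c i a * x a ^ i = 0) :
    Tendsto x l (𝓝 0) := by
  -- the bound `M a = 1 + ∑ ‖c i a‖`
  set M : α → ℝ := fun a ↦ 1 + ∑ i ∈ Finset.range n, ‖c i a‖ with hM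
  have hxM : ∀ a, ‖x a‖ ≤ M a := fun a ↦ norm_le_of_monic_root (fun i ↦ c i a) (x a) (hx a)
  have hcn : ∀ i ∈ Finset.range n, Tendsto (fun a ↦ ‖c i a‖) l (𝓝 0) := fun i hi ↦ by
    simpa using (hc i (Finset.mem_range.mp hi)).norm
  have hMt : Tendsto M l (𝓝 1) := by
    have : Tendsto (fun a ↦ ∑ i ∈ Finset.range n, ‖c i a‖) l (𝓝 (∑ i ∈ Finset.range n, (0 : ℝ))) :=
      tendsto_finsetSum _ hcn
    simpa [hM] using this.const_add 1
  set R : α → ℝ := fun a ↦ ∑ i ∈ Finset.range n, ‖c i a‖ * M a ^ i with hR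
  have hRt : Tendsto R l (𝓝 0) := by
    have : Tendsto R l (𝓝 (∑ i ∈ Finset.range n, (0 : ℝ) * 1 ^ i)) :=
      tendsto_finsetSum _ fun i hi ↦ (hcn i hi).mul (hMt.pow i)
    simpa using this
  have hxR : ∀ a, ‖x a‖ ^ n ≤ R a := by
    intro a
    have hpow : x a ^ n = -∑ i ∈ Finset.range n, c i a * x a ^ i :=
      eq_neg_of_add_eq_zero_left (hx a)
    calc ‖x a‖ ^ n = ‖x a ^ n‖ := (norm_pow _ _).symm
      _ = ‖∑ i ∈ Finset.range n, c i a * x a ^ i‖ := by rw [hpow, norm_neg]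
      _ ≤ ∑ i ∈ Finset.range n, ‖c i a * x a ^ i‖ := norm_sum_le _ _
      _ ≤ ∑ i ∈ Finset.range n, ‖c i a‖ * M a ^ i := by
          refine Finset.sum_le_sum fun i _ ↦ ?_
          rw [norm_mul, norm_pow]
          exact mul_le_mul_of_nonneg_left (pow_le_pow_left₀ (norm_nonneg _) (hxM a) i)
            (norm_nonneg _)
  have h1 : Tendsto (fun a ↦ ‖x a‖ ^ n) l (𝓝 0) :=
    squeeze_zero (fun a ↦ by positivity) hxR hRt
  have hn' : (n : ℝ)⁻¹ ≠ 0 := by positivity
  have h2 : Tendsto (fun a ↦ (‖x a‖ ^ n) ^ ((n : ℝ)⁻¹)) l (𝓝 ((0 : ℝ) ^ ((n : ℝ)⁻¹))) :=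
    h1.rpow_const (Or.inr (by positivity))
  rw [Real.zero_rpow hn'] at h2
  have h3 : (fun a ↦ (‖x a‖ ^ n) ^ ((n : ℝ)⁻¹)) = fun a ↦ ‖x a‖ := by
    funext a
    exact Real.pow_rpow_inv_natCast (norm_nonneg _) hn.ne'
  rw [h3] at h2
  exact tendsto_zero_iff_norm_tendsto_zero.mpr h2

/-- Slash invariance of a holomorphic quotient. -/
theorem slash_eq_of_mul_eq {F g h : ℍ → ℂ} {k w m : ℤ} (hm : m = w + k) (γ : SL(2, ℤ))
    (hF : MDiff F) (hh : MDiff h) (hne : ∃ τ, h τ ≠ 0)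
    (hFh : ∀ τ, F τ * h τ = g τ) (hgγ : g ∣[m] γ = g) (hhγ : h ∣[w] γ = h) :
    F ∣[k] γ = F := by
  subst hm
  have hFh' : F * h = g := funext hFh
  have hD : MDiff (F ∣[k] γ - F) := (hF.slash k (γ : GL (Fin 2) ℝ)).sub hF
  have hmul : ∀ τ, (F ∣[k] γ - F) τ * h τ = 0 := by
    intro τ
    have h1 : (F * h) ∣[k + w] γ = F ∣[k] γ * h ∣[w] γ := mul_slash_SL2 k w γ F h
    rw [hFh', hhγ, add_comm k w, hgγ] at h1
    have h2 := congrFun h1 τ
    simp only [Pi.mul_apply, Pi.sub_apply] at h2 ⊢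
    rw [sub_mul, ← h2, hFh τ, sub_self]
  have := eq_zero_of_mul_eq_zero_of_mdiff hD hh hne hmul
  funext τ
  have h3 := this τ
  simp only [Pi.sub_apply] at h3
  exact sub_eq_zero.mp h3


/-- The monic equation is preserved by the slash action of `SL(2, ℤ)` when the coefficients are
level-one forms of the right weights. -/
theorem monic_eq_slash {F : ℍ → ℂ} {k : ℤ} {n : ℕ} (b : ℕ → ℍ → ℂ) (γ : SL(2, ℤ))
    (hbγ : ∀ i < n, ∀ τ : ℍ, b i (γ • τ) = (denom γ τ ^ k) ^ (n - i) * b i τ)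
    (hFeq : ∀ τ, F τ ^ n + ∑ i ∈ Finset.range n, b i τ * F τ ^ i = 0) (τ : ℍ) :
    (F ∣[k] γ) τ ^ n + ∑ i ∈ Finset.range n, b i τ * (F ∣[k] γ) τ ^ i = 0 := by
  rw [SL_slash_apply]
  set d : ℂ := denom γ τ with hd
  have hd0 : d ≠ 0 := denom_ne_zero γ τ
  set u : ℂ := d ^ k with hu
  have hu0 : u ≠ 0 := zpow_ne_zero k hd0
  have he : d ^ (-k) = u⁻¹ := by rw [hu, zpow_neg]
  rw [he]
  set X : ℂ := F (γ • τ) with hX
  have key : (X * u⁻¹) ^ n + ∑ i ∈ Finset.range n, b i τ * (X * u⁻¹) ^ i =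
      (u⁻¹) ^ n * (X ^ n + ∑ i ∈ Finset.range n, b i (γ • τ) * X ^ i) := by
    rw [mul_add, Finset.mul_sum, mul_pow]
    congr 1
    · ring
    · refine Finset.sum_congr rfl fun i hi ↦ ?_
      have hi' : i < n := Finset.mem_range.mp hi
      rw [hbγ i hi' τ, mul_pow]
      have : (u⁻¹) ^ n = (u⁻¹) ^ (n - i) * (u⁻¹) ^ i := by
        rw [← pow_add]; congr 1; omega
      rw [this]
      have h2 : (u⁻¹) ^ (n - i) * u ^ (n - i) = 1 := by
        rw [← mul_pow, inv_mul_cancel₀ hu0, one_pow]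
      calc b i τ * (X ^ i * u⁻¹ ^ i)
          = ((u⁻¹) ^ (n - i) * u ^ (n - i)) * (b i τ * (X ^ i * u⁻¹ ^ i)) := by rw [h2, one_mul]
        _ = u⁻¹ ^ (n - i) * u⁻¹ ^ i * (u ^ (n - i) * b i τ * X ^ i) := by ring
  rw [key, hFeq (γ • τ), mul_zero]

/-- **Converse step, function-level hypotheses.** `g, h : ℍ → ℂ` holomorphic, slash-invariant
under `Γ` (finite index in `SL(2, ℤ)`) of weights `w + k` and `w`, `h ≢ 0`, and `g / h` satisfies
a monic equation whose coefficients are level-one cusp forms (`b i` of weight `k * (n - i)`).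
Then `g / h` is a cusp form of weight `k` and level `Γ`. (No boundedness of `g, h` at the cusps
is needed.) -/
theorem exists_cuspForm_of_monic_eq_fun {Γ : Subgroup SL(2, ℤ)} [Γ.FiniteIndex]
    {k w m : ℤ} (hm : m = w + k) (g h : ℍ → ℂ) (hgd : MDiff g) (hhd : MDiff h)
    (hgΓ : ∀ γ ∈ Γ, g ∣[m] γ = g) (hhΓ : ∀ γ ∈ Γ, h ∣[w] γ = h) (hne : ∃ τ, h τ ≠ 0)
    {n : ℕ} (hn : 0 < n) (b : ℕ → ℍ → ℂ)
    (hb : ∀ i < n, ∃ (wi : ℤ) (B : CuspForm 𝒮ℒ wi), wi = k * ((n : ℤ) - i) ∧ ⇑B = b i)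
    (heq : ∀ τ, g τ ^ n + ∑ i ∈ Finset.range n, b i τ * g τ ^ i * h τ ^ (n - i) = 0) :
    ∃ F : CuspForm Γ k, ∀ τ, F τ * h τ = g τ := by
  have hbc : ∀ i < n, Continuous (b i) := by
    intro i hi
    obtain ⟨wi, B, -, hB⟩ := hb i hi
    rw [← hB]
    exact (CuspFormClass.holo B).continuous
  obtain ⟨F, hFd, hFh, hFeq⟩ := exists_mdiff_quotient hgd hhd hne hn b hbc heq
  -- transformation behaviour of the coefficients
  have hbγ : ∀ γ : SL(2, ℤ), ∀ i < n, ∀ τ : ℍ,
      b i (γ • τ) = (denom γ τ ^ k) ^ (n - i) * b i τ := by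
    intro γ i hi τ
    obtain ⟨wi, B, hwi, hB⟩ := hb i hi
    have hmem : (Matrix.SpecialLinearGroup.mapGL ℝ γ) ∈ 𝒮ℒ := ⟨γ, rfl⟩
    have h1 := SlashInvariantForm.slash_action_eqn'' B hmem τ
    rw [← hB]
    have h2 : (denom γ τ ^ k) ^ (n - i) = denom (Matrix.SpecialLinearGroup.mapGL ℝ γ) τ ^ wi := by
      rw [hwi, zpow_mul, ← zpow_natCast]
      congr 1
      have : i ≤ n := hi.le
      push_cast [Nat.cast_sub this]
      ring
    rw [h2]
    exact h1
  have hbz : ∀ i < n, IsZeroAtImInfty (b i) := by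
    intro i hi
    obtain ⟨wi, B, -, hB⟩ := hb i hi
    rw [← hB]
    exact CuspFormClass.zero_at_infty B
  refine ⟨{ toFun := F
            slash_action_eq' := ?_
            holo' := hFd
            zero_at_cusps' := ?_ }, hFh⟩
  · rintro γ ⟨γ', hγ', rfl⟩
    exact slash_eq_of_mul_eq hm γ' hFd hhd hne hFh (hgΓ γ' hγ') (hhΓ γ' hγ')
  · intro c hc
    rw [Subgroup.IsArithmetic.isCusp_iff_isCusp_SL2Z] at hc
    rw [OnePoint.isZeroAt_iff_forall_SL2Z hc]
    intro γ _
    exact tendsto_zero_of_monic hn b (F ∣[k] γ) hbz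
      (fun τ ↦ monic_eq_slash b γ (hbγ γ) hFeq τ)

/-- **Converse step.** If `g, h` are modular forms of level `Γ` (finite index in `SL(2, ℤ)`) of
weights `w + k` and `w`, `h ≠ 0`, and `g / h` satisfies a monic equation whose coefficients are
level-one cusp forms (`b i` of weight `k * (n - i)`), then `g / h` is a cusp form of weight `k`
and level `Γ`. -/
theorem exists_cuspForm_of_monic_eq {Γ : Subgroup SL(2, ℤ)} [Γ.FiniteIndex]
    {k w m : ℤ} (hm : m = w + k) (g : ModularForm Γ m) (h : ModularForm Γ w) (hh : h ≠ 0)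
    {n : ℕ} (hn : 0 < n) (b : ℕ → ℍ → ℂ)
    (hb : ∀ i < n, ∃ (wi : ℤ) (B : CuspForm 𝒮ℒ wi), wi = k * ((n : ℤ) - i) ∧ ⇑B = b i)
    (heq : ∀ τ, g τ ^ n + ∑ i ∈ Finset.range n, b i τ * g τ ^ i * h τ ^ (n - i) = 0) :
    ∃ F : CuspForm Γ k, ∀ τ, F τ * h τ = g τ := by
  have hne : ∃ τ, h τ ≠ 0 := by
    by_contra hcon
    push Not at hcon
    exact hh (ModularForm.ext hcon)
  refine exists_cuspForm_of_monic_eq_fun hm g h (ModularFormClass.holo g) (ModularFormClass.holo h)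
    (fun γ hγ ↦ ?_) (fun γ hγ ↦ ?_) hne hn b hb heq
  · exact SlashInvariantForm.slash_action_eqn g _ ⟨γ, hγ, rfl⟩
  · exact SlashInvariantForm.slash_action_eqn h _ ⟨γ, hγ, rfl⟩

end Fermat.Agent.S23.Conv

end
-- ===== PACK-END S23/ConversePkg.lean

-- ===== PACK-BEGIN S49/FormalEigenform.lean
section




set_option autoImplicit false

namespace Fermat.Agent.S49

open CongruenceSubgroup

/-- If the `q`-coefficients of a weight-2 cusp form on `Γ₀(N)` satisfy the formal Hecke relations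
with `e ℓ = ℓ` for `ℓ ∤ N` and `e ℓ = 0` for `ℓ ∣ N`, the form is a normalised eigenform in the
sense of the prelude. -/
theorem isNormalizedEigenform_of_isEigensystem {N : ℕ} (f : CuspForm (Gamma0 N) 2)
    (h : FormalHecke.IsEigensystem (fun ℓ : ℕ => if ℓ ∣ N then (0 : ℂ) else (ℓ : ℂ))
      (fun n => ModularFormClass.qCoeff f n)) :
    f.IsNormalizedEigenform := by
  obtain ⟨h1, hmul, hpow⟩ := isRecursive_of_isEigensystem h
  refine ⟨h1, hmul, ?_, ?_⟩
  · intro p r hp hpN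
    have := hpow p r hp
    simpa [if_neg hpN] using this
  · intro p r hp hpN
    have := hpow p r hp
    simpa [if_pos hpN] using this

end Fermat.Agent.S49

end
-- ===== PACK-END S49/FormalEigenform.lean

-- ===== PACK-BEGIN S35/H252/FieldAut.lean
section
/-
S35, piece (X-forms) (helper252): commutative algebra.

* `ker_le_of_isIntegral` : two characters `χ ψ : A → ℂ` with `ker χ ≤ ker ψ`, `χ` having integral
  values (in the strong form: every `s` is killed modulo `ker χ` by a monic integral polynomial),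
  have the same kernel;
* `exists_ringEquiv_of_ker_eq` : two characters `χ ψ : A → ℂ` with the same kernel and algebraic
  values differ by a ring automorphism of `ℂ`.
-/


set_option autoImplicit false
set_option linter.style.haveILetI false

namespace Fermat.Agent.S35.H252

open Polynomial

/-- If `ker χ ≤ ker ψ` and every element of `A` is integral over `ℤ` modulo `ker χ`, then
`ker ψ ≤ ker χ`. -/
theorem ker_le_of_isIntegral {A : Type*} [CommRing A] (χ ψ : A →+* ℂ)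
    (hker : RingHom.ker χ ≤ RingHom.ker ψ)
    (hint : ∀ s : A, ∃ P : ℤ[X], P.Monic ∧ eval₂ (algebraMap ℤ A) s P ∈ RingHom.ker χ) :
    RingHom.ker ψ ≤ RingHom.ker χ := by
  intro s hs
  rw [RingHom.mem_ker] at hs ⊢
  by_contra hx
  obtain ⟨P, hPmonic, hP⟩ := hint s
  have hP0 : P ≠ 0 := hPmonic.ne_zero
  obtain ⟨Q, hPQ, hQ⟩ := Polynomial.exists_eq_pow_rootMultiplicity_mul_and_not_dvd P hP0 0
  rw [map_zero, sub_zero] at hPQ hQ
  have hQ0 : Q.eval 0 ≠ 0 := by
    intro h0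
    apply hQ
    have : (X - C (0 : ℤ)) ∣ Q := Polynomial.dvd_iff_isRoot.mpr h0
    simpa using this
  have e1 : ∀ R : ℤ[X], χ (eval₂ (algebraMap ℤ A) s R) = eval₂ (Int.castRingHom ℂ) (χ s) R := by
    intro R
    rw [Polynomial.hom_eval₂]
    congr 1
    exact RingHom.ext_int _ _
  have e2 : ∀ R : ℤ[X], ψ (eval₂ (algebraMap ℤ A) s R) = eval₂ (Int.castRingHom ℂ) (ψ s) R := by
    intro R
    rw [Polynomial.hom_eval₂]
    congr 1
    exact RingHom.ext_int _ _
  have h1 := e1 P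
  rw [RingHom.mem_ker.mp hP, hPQ, eval₂_mul, eval₂_pow, eval₂_X] at h1
  have h2 : eval₂ (Int.castRingHom ℂ) (χ s) Q = 0 := by
    rcases mul_eq_zero.mp h1.symm with h | h
    · exact absurd h (pow_ne_zero _ hx)
    · exact h
  have h3 : eval₂ (algebraMap ℤ A) s Q ∈ RingHom.ker ψ := by
    apply hker
    rw [RingHom.mem_ker, e1 Q, h2]
  rw [RingHom.mem_ker, e2 Q, hs] at h3
  have h4 : ((Q.eval 0 : ℤ) : ℂ) = 0 := by
    rw [← h3, Polynomial.eval₂_at_zero, Polynomial.coeff_zero_eq_eval_zero]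
    rfl
  exact hQ0 (by exact_mod_cast h4)

/-- Two characters with values in `ℂ`, with the same kernel and with algebraic values, differ by
a ring automorphism of `ℂ`. -/
theorem exists_ringEquiv_of_ker_eq {A : Type*} [CommRing A] (χ ψ : A →+* ℂ)
    (hker : RingHom.ker χ = RingHom.ker ψ) (halg : ∀ s : A, IsAlgebraic ℚ (χ s)) :
    ∃ σ : ℂ ≃+* ℂ, ∀ s : A, σ (χ s) = ψ s := by
  classical
  -- `ψ` factors through the range of `χ`
  have hf : Function.Surjective χ.rangeRestrict := χ.rangeRestrict_surjective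
  have hfker : RingHom.ker χ.rangeRestrict = RingHom.ker χ := RingHom.ker_rangeRestrict χ
  let ψ' : χ.range →+* ℂ :=
    RingHom.liftOfSurjective χ.rangeRestrict hf ⟨ψ, by rw [hfker, hker]⟩
  have hψ' : ∀ s : A, ψ' (χ.rangeRestrict s) = ψ s := fun s =>
    RingHom.liftOfSurjective_comp_apply χ.rangeRestrict hf ⟨ψ, by rw [hfker, hker]⟩ s
  have hψ'inj : Function.Injective ψ' := by
    rw [injective_iff_map_eq_zero]
    intro y hy
    obtain ⟨s, rfl⟩ := hf y
    rw [hψ' s] at hy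
    have hs : s ∈ RingHom.ker χ := by rw [hker]; exact hy
    exact Subtype.ext hs
  -- the fraction field of the range
  let F := FractionRing χ.range
  let ιF : F →+* ℂ := IsFractionRing.lift (A := χ.range) (K := F) (g := χ.range.subtype)
    Subtype.val_injective
  let ψF : F →+* ℂ := IsFractionRing.lift (A := χ.range) (K := F) (g := ψ') hψ'inj
  have hιF : ∀ y : χ.range, ιF (algebraMap χ.range F y) = (y : ℂ) := fun y =>
    IsFractionRing.lift_algebraMap _ y
  have hψF : ∀ y : χ.range, ψF (algebraMap χ.range F y) = ψ' y := fun y =>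
    IsFractionRing.lift_algebraMap _ y
  haveI : CharZero F := ⟨fun a b hab => Nat.cast_injective (R := ℂ) (by
    have h := congrArg ιF hab
    rwa [map_natCast, map_natCast] at h)⟩
  let ιA : F →ₐ[ℚ] ℂ := ιF.toRatAlgHom
  let ψA : F →ₐ[ℚ] ℂ := ψF.toRatAlgHom
  -- the image field is algebraic over `ℚ`
  have hmem : ∀ z : F, ιF z ∈ algebraicClosure ℚ ℂ := by
    intro z
    obtain ⟨x, y, -, rfl⟩ := IsFractionRing.div_surjective (A := χ.range) z
    rw [map_div₀, hιF, hιF]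
    obtain ⟨s, hs⟩ := hf x
    obtain ⟨s', hs'⟩ := hf y
    refine div_mem ?_ ?_
    · rw [mem_algebraicClosure_iff, ← hs]
      exact halg s
    · rw [mem_algebraicClosure_iff, ← hs']
      exact halg s'
  let e : F ≃ₐ[ℚ] ιA.fieldRange := AlgEquiv.ofInjectiveField ιA
  have he : ∀ z : F, ((e z : ιA.fieldRange) : ℂ) = ιF z := fun z => rfl
  haveI : Algebra.IsAlgebraic ℚ F :=
    ⟨fun z => (isAlgebraic_algHom_iff ιA ιA.injective).mp (mem_algebraicClosure_iff.mp (hmem z))⟩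
  haveI : Algebra.IsAlgebraic ℚ ιA.fieldRange := e.isAlgebraic
  let τ : ιA.fieldRange →ₐ[ℚ] ℂ := ψA.comp e.symm.toAlgHom
  obtain ⟨σ, hσ⟩ := Fermat.Agent.S48.H308.exists_ringEquiv_extending ιA.fieldRange τ
  refine ⟨σ, fun s => ?_⟩
  have h1 := hσ (e (algebraMap χ.range F (χ.rangeRestrict s)))
  rw [he, hιF] at h1
  have h2 : τ (e (algebraMap χ.range F (χ.rangeRestrict s)))
      = ψF (algebraMap χ.range F (χ.rangeRestrict s)) := by
    show ψA (e.symm (e (algebraMap χ.range F (χ.rangeRestrict s)))) = _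
    rw [AlgEquiv.symm_apply_apply]
    rfl
  rw [h2, hψF, hψ'] at h1
  exact h1

end Fermat.Agent.S35.H252

end
-- ===== PACK-END S35/H252/FieldAut.lean

-- ===== PACK-BEGIN S36/H630/ExistVal.lean
section


/-!
# S36 engine, LABEL core (helper630), part 8: existence of the values of a purity datum

`u ≡ 1` on the sheet `V`, `d` a purity datum of `u` at the closed point `n` (`u d ^ m s₀ = a₀`,
`a₀, s₀ ∈ B ∖ n`).  If the component `B / p_V` is normal (in the elementwise form `NormalAlong`)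
and `n` is a rational point, then `d` has a value `η ∈ R`, a unit modulo `n`, at `n` along `V`
(`exists_valAt_of_pure`).

`normalAlong_of_isIntegrallyClosed` : `NormalAlong` from `IsIntegrallyClosed (B ⧸ p)`, `p` the
centre of `V`, `V = B_p` (the shape of `A2.SSChart.normal₁` and of `H193.sheet_mem_iff`).
-/

set_option autoImplicit false
set_option linter.unusedSectionVars false

namespace Fermat.Agent.S36.H630

variable {R : Type*} [CommRing R] {F : Type*} [Field F] [Algebra R F]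

/-- Normality of the component of `B` cut out by `V`, elementwise, for `m`-th roots: if the
`m`-th power of a residue lies in the residue ring of `B`, so does the residue. -/
def NormalAlong (B : Subalgebra R F) (V : ValuationSubring F) (m : ℕ) : Prop :=
  ∀ y ∈ V, ∀ c : B, y ^ m - (c : F) ∈ V.nonunits → ∃ a : B, y - (a : F) ∈ V.nonunits

/-- In an integrally closed domain: `a ^ m = c b ^ m`, `b ≠ 0`, `m > 0` ⟹ `b ∣ a`. -/
theorem exists_eq_mul_of_pow_eq {D : Type*} [CommRing D] [IsDomain D] [IsIntegrallyClosed D]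
    {m : ℕ} (hm : 0 < m) {a b c : D} (hb : b ≠ 0) (h : a ^ m = c * b ^ m) :
    ∃ z : D, a = z * b := by
  have hinj : Function.Injective (algebraMap D (FractionRing D)) :=
    IsFractionRing.injective D (FractionRing D)
  have hbK : algebraMap D (FractionRing D) b ≠ 0 := by
    intro h0
    exact hb (hinj (by rw [h0, map_zero]))
  have hxm : (algebraMap D (FractionRing D) a * (algebraMap D (FractionRing D) b)⁻¹) ^ m
      = algebraMap D (FractionRing D) c := by
    rw [mul_pow, ← map_pow, h, map_mul, map_pow, inv_pow, mul_assoc,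
      mul_inv_cancel₀ (pow_ne_zero _ hbK), mul_one]
  have hxint : IsIntegral D
      (algebraMap D (FractionRing D) a * (algebraMap D (FractionRing D) b)⁻¹) := by
    refine IsIntegral.of_pow hm ?_
    rw [hxm]
    exact isIntegral_algebraMap
  obtain ⟨z, hz⟩ := IsIntegrallyClosed.algebraMap_eq_of_integral hxint
  refine ⟨z, hinj ?_⟩
  rw [map_mul, hz, mul_assoc, inv_mul_cancel₀ hbK, mul_one]

/-- `NormalAlong` from normality of the quotient by the centre. -/
theorem normalAlong_of_isIntegrallyClosed {B : Subalgebra R F} {p : Ideal B} [p.IsPrime]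
    [IsIntegrallyClosed (B ⧸ p)] {V : ValuationSubring F} (hBV : ChartLe B V)
    (hcentre : ∀ c : B, (c : F) ∈ V.nonunits ↔ c ∈ p)
    (hloc : ∀ y ∈ V, ∃ a b : B, b ∉ p ∧ (b : F) * y = a) {m : ℕ} (hm : 0 < m) :
    NormalAlong B V m := by
  intro y hy c hc
  obtain ⟨a, b, hb, hab⟩ := hloc y hy
  have hbu : (b : F) ∉ V.nonunits := fun h => hb ((hcentre b).1 h)
  have hbV : (b : F) ∈ V := hBV b
  have hb0 : (b : F) ≠ 0 := by
    intro h0
    apply hbu
    rw [h0]
    exact vnu_zero V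
  -- `a ^ m - c b ^ m ∈ p`
  have h1 : a ^ m - c * b ^ m ∈ p := by
    rw [← hcentre]
    have : ((a ^ m - c * b ^ m : B) : F) = (b : F) ^ m * (y ^ m - c) := by
      push_cast
      rw [← hab]
      ring
    rw [this]
    exact vnu_mul_left V hc (V.pow_mem hbV m)
  -- in the quotient
  have hbD : Ideal.Quotient.mk p b ≠ 0 := fun h => hb (Ideal.Quotient.eq_zero_iff_mem.1 h)
  have h2 : Ideal.Quotient.mk p a ^ m = Ideal.Quotient.mk p c * Ideal.Quotient.mk p b ^ m := by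
    have := (Ideal.Quotient.eq (I := p)).2 h1
    simpa only [map_mul, map_pow] using this
  have : IsDomain (B ⧸ p) := Ideal.Quotient.isDomain p
  obtain ⟨z, hz⟩ := exists_eq_mul_of_pow_eq hm hbD h2
  obtain ⟨a', rfl⟩ := Ideal.Quotient.mk_surjective z
  -- `a - a' b ∈ p`
  have h3 : a - a' * b ∈ p := by
    apply (Ideal.Quotient.eq (I := p)).1
    rw [map_mul]
    exact hz
  refine ⟨a', ?_⟩
  have h4 : ((a - a' * b : B) : F) ∈ V.nonunits := (hcentre _).2 h3
  have : y - (a' : F) = (b : F)⁻¹ * ((a - a' * b : B) : F) := by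
    push_cast
    rw [← hab]
    field_simp
  rw [this]
  exact vnu_mul_left V h4 (vnu_inv_mem V hbV hbu)

/-- **Existence of the value of a purity datum.** -/
theorem exists_valAt_of_pure {B : Subalgebra R F} {n : Ideal B} [hn : n.IsMaximal]
    (hrat : ∀ c : B, ∃ r : R, c - algebraMap R B r ∈ n)
    {V : ValuationSubring F} (hBV : ChartLe B V) (hth : PassThrough B n V)
    {m : ℕ} (hm : 0 < m) (hnormal : NormalAlong B V m)
    {u d : F} (hu : u - 1 ∈ V.nonunits) {a₀ s₀ : B} (ha₀ : a₀ ∉ n) (hs₀ : s₀ ∉ n)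
    (hpure : u * d ^ m * (s₀ : F) = a₀) :
    ∃ η : R, algebraMap R B η ∉ n ∧ ValAt B n V d η := by
  have hnp : n.IsPrime := hn.isPrime
  -- units of `V`
  have huV : u ∈ V ∧ u ∉ V.nonunits := vnu_unit_of_sub V hu V.one_mem (vnu_one_not V)
  have hsu : (s₀ : F) ∉ V.nonunits := hth.not_nonunits hs₀
  have hau : (a₀ : F) ∉ V.nonunits := hth.not_nonunits ha₀
  have hu0 : u ≠ 0 := by
    rintro rfl
    exact huV.2 (vnu_zero V)
  have hs0 : (s₀ : F) ≠ 0 := by
    intro h0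
    apply hsu
    rw [h0]
    exact vnu_zero V
  -- `d ^ m ∈ V`, hence `d ∈ V`
  have hdm : d ^ m = (a₀ : F) * ((s₀ : F)⁻¹ * u⁻¹) := by
    rw [← hpure]
    field_simp
  have hdmV : d ^ m ∈ V := by
    rw [hdm]
    exact V.mul_mem _ _ (hBV a₀)
      (V.mul_mem _ _ (vnu_inv_mem V (hBV s₀) hsu) (vnu_inv_mem V huV.1 huV.2))
  have hdV : d ∈ V := by
    rw [← V.valuation_le_one_iff] at hdmV ⊢
    rw [map_pow] at hdmV
    exact (pow_le_one_iff_of_nonneg zero_le hm.ne').1 hdmV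
  -- `y = s₀ d`, `y ^ m ≡ s₀ ^ (m - 1) a₀`
  obtain ⟨j, hj⟩ : ∃ j, m = j + 1 := ⟨m - 1, (Nat.sub_add_cancel hm).symm⟩
  have hy : ((s₀ : F) * d) ^ m - ((s₀ ^ j * a₀ : B) : F) ∈ V.nonunits := by
    have : ((s₀ : F) * d) ^ m - ((s₀ ^ j * a₀ : B) : F)
        = -((s₀ : F) ^ j * (a₀ : F) * u⁻¹ * (u - 1)) := by
      push_cast
      rw [← hpure, hj]
      field_simp
      ring
    rw [this]
    refine vnu_neg V (vnu_mul_left V hu ?_)
    exact V.mul_mem _ _ (V.mul_mem _ _ (V.pow_mem (hBV s₀) j) (hBV a₀))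
      (vnu_inv_mem V huV.1 huV.2)
  obtain ⟨a', ha'⟩ := hnormal _ (V.mul_mem _ _ (hBV s₀) hdV) _ hy
  -- `a' ∉ n`
  have ha'n : a' ∉ n := by
    intro h
    -- `a' ^ m ≡ s₀ ^ j a₀` on `V`
    have h1 : ((a' ^ m - s₀ ^ j * a₀ : B) : F) ∈ V.nonunits := by
      have h2 : ((a' ^ m - s₀ ^ j * a₀ : B) : F)
          = (((s₀ : F) * d) ^ m - ((s₀ ^ j * a₀ : B) : F))
            - (((s₀ : F) * d) ^ m - (a' : F) ^ m) := by
        push_cast
        ring
      rw [h2]
      refine vnu_sub V hy ?_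
      rw [← geom_sum₂_mul]
      exact vnu_mul_left V ha'
        (V.sum_mem fun i _ => V.mul_mem _ _
          (V.pow_mem (V.mul_mem _ _ (hBV s₀) hdV) i) (V.pow_mem (hBV a') _))
    have h3 : a' ^ m - s₀ ^ j * a₀ ∈ n := hth _ h1
    have h4 : s₀ ^ j * a₀ ∈ n := by
      have : s₀ ^ j * a₀ = a' ^ m - (a' ^ m - s₀ ^ j * a₀) := by ring
      rw [this]
      exact n.sub_mem (n.pow_mem_of_mem h m hm) h3
    rcases hnp.mem_or_mem h4 with h5 | h5
    · exact hs₀ (hnp.mem_of_pow_mem j h5)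
    · exact ha₀ h5
  -- the value
  obtain ⟨s', i, hi, hsi⟩ := hn.exists_inv hs₀
  obtain ⟨r, hr⟩ := hrat (a' * s')
  have hval : a' - algebraMap R B r * s₀ ∈ n := by
    have : a' - algebraMap R B r * s₀ = (a' * s' - algebraMap R B r) * s₀ + a' * i := by
      rw [← sub_eq_zero]
      have h6 : s' * s₀ + i - 1 = 0 := by rw [hsi, sub_self]
      linear_combination (-a') * h6
    rw [this]
    exact n.add_mem (n.mul_mem_right _ hr) (n.mul_mem_left _ hi)
  refine ⟨r, ?_, a', s₀, hs₀, ha', hval⟩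
  intro hrn
  apply ha'n
  have : a' = (a' - algebraMap R B r * s₀) + algebraMap R B r * s₀ := by ring
  rw [this]
  exact n.add_mem hval (n.mul_mem_right _ hrn)

end Fermat.Agent.S36.H630

end
-- ===== PACK-END S36/H630/ExistVal.lean

-- ===== PACK-BEGIN A2/H489/TwoExtB.lean
section


/-!
# A2 / M1-abs, part B (helper489): valuation subrings over a DVR and the integral closure
-/

set_option autoImplicit false

namespace Fermat.Agent.A2.H489

open IsDedekindDomain IsLocalRing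

section Over

variable {A L : Type*} [CommRing A] [IsLocalRing A] [Field L] [Algebra A L]

/-- `V` lies over the local ring `A`: it contains `A` and the maximal ideal of `A` consists of
nonunits of `V`. -/
structure IsOver (A : Type*) {L : Type*} [CommRing A] [IsLocalRing A] [Field L] [Algebra A L]
    (V : ValuationSubring L) : Prop where
  mem : ∀ a : A, algebraMap A L a ∈ V
  nonunit : ∀ a ∈ maximalIdeal A, algebraMap A L a ∈ V.nonunits

variable {V : ValuationSubring L}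

theorem IsOver.integral_mem (hV : IsOver A V) {x : L} (hx : IsIntegral A x) : x ∈ V := by
  let _ : Algebra A V := (toValSub V hV.mem).toAlgebra
  have : IsScalarTower A V L := IsScalarTower.of_algebraMap_eq (fun _ => rfl)
  have h : IsIntegral V x := hx.tower_top
  obtain ⟨y, hy⟩ := (IsIntegrallyClosed.isIntegral_iff (R := V) (K := L)).mp h
  rw [← hy]
  exact y.2

theorem IsOver.mem_integralClosure (hV : IsOver A V) (s : integralClosure A L) :
    algebraMap (integralClosure A L) L s ∈ V :=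
  hV.integral_mem s.2

theorem IsOver.not_mem_nonunits_of_isUnit (hV : IsOver A V) {a : A} (ha : IsUnit a) :
    algebraMap A L a ∉ V.nonunits := by
  obtain ⟨u, rfl⟩ := ha
  intro h
  rw [ValuationSubring.mem_nonunits_iff] at h
  have h1 : V.valuation (algebraMap A L (↑u⁻¹ : A)) ≤ 1 :=
    (ValuationSubring.valuation_le_one_iff V _).mpr (hV.mem _)
  have h2 : V.valuation (algebraMap A L (u : A)) * V.valuation (algebraMap A L (↑u⁻¹ : A)) = 1 := by
    rw [← map_mul, ← map_mul, Units.mul_inv, map_one, map_one]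
  have h3 : V.valuation (algebraMap A L (u : A)) * V.valuation (algebraMap A L (↑u⁻¹ : A)) < 1 :=
    mul_lt_one_of_lt_of_le h h1
  exact absurd h2 (ne_of_lt h3)

theorem IsOver.mem_nonunits_iff (hV : IsOver A V) (a : A) :
    algebraMap A L a ∈ V.nonunits ↔ a ∈ maximalIdeal A := by
  constructor
  · intro h
    by_contra hna
    rw [IsLocalRing.mem_maximalIdeal, _root_.mem_nonunits_iff, not_not] at hna
    exact hV.not_mem_nonunits_of_isUnit hna h
  · exact hV.nonunit a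

theorem IsOver.center_liesOver (hV : IsOver A V) :
    (center V hV.mem_integralClosure).LiesOver (maximalIdeal A) := by
  constructor
  ext a
  rw [Ideal.under, Ideal.mem_comap, mem_center_iff, ← IsScalarTower.algebraMap_apply,
    hV.mem_nonunits_iff]

theorem IsOver.ne_top_of_nonunit (hV : IsOver A V) {w : A} (hw : w ∈ maximalIdeal A)
    (hw0 : algebraMap A L w ≠ 0) : V ≠ ⊤ := by
  intro h
  have h1 := hV.nonunit w hw
  rw [ValuationSubring.mem_nonunits_iff_or] at h1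
  rcases h1 with h1 | h1
  · exact hw0 h1
  · apply h1
    rw [h]
    exact ValuationSubring.mem_top _

end Over

section Main

variable {A K L : Type*} [CommRing A] [IsDomain A] [IsDiscreteValuationRing A]
  [Field K] [Algebra A K] [IsFractionRing A K]
  [Field L] [Algebra K L] [Algebra A L] [IsScalarTower A K L]

omit [IsDiscreteValuationRing A] in
theorem algebraMap_injective_AL (A K L : Type*) [CommRing A] [IsDomain A]
    [Field K] [Algebra A K] [IsFractionRing A K]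
    [Field L] [Algebra K L] [Algebra A L] [IsScalarTower A K L] :
    Function.Injective (algebraMap A L) := by
  rw [IsScalarTower.algebraMap_eq A K L]
  exact (algebraMap K L).injective.comp (IsFractionRing.injective A K)

theorem IsOver.ne_top (K : Type*) {A L : Type*} [CommRing A] [IsDomain A]
    [IsDiscreteValuationRing A] [Field K] [Algebra A K] [IsFractionRing A K]
    [Field L] [Algebra K L] [Algebra A L] [IsScalarTower A K L]
    {V : ValuationSubring L} (hV : IsOver A V) : V ≠ ⊤ := by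
  obtain ⟨w, hw⟩ := IsDiscreteValuationRing.exists_irreducible A
  refine hV.ne_top_of_nonunit (w := w) ?_ ?_
  · rw [IsLocalRing.mem_maximalIdeal, _root_.mem_nonunits_iff]
    exact hw.not_isUnit
  · intro h0
    apply hw.ne_zero
    apply algebraMap_injective_AL A K L
    rw [h0, map_zero]

end Main

end Fermat.Agent.A2.H489

end
-- ===== PACK-END A2/H489/TwoExtB.lean

-- ===== PACK-BEGIN S36/H972/LocVal.lean
section



/-!
# S36 / MOD3 (helper972): a locally principal maximal ideal of a noetherian subring gives a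
valuation subring

Mathlib-only (+ `H48.IsUnif`).  `L` a field, `S ⊆ L` a noetherian subring with `L = Frac S`,
`𝔪` a maximal ideal of `S`, `z ∈ 𝔪` with `𝔪 S_𝔪 = z S_𝔪` (elementwise: `LocGen`).  Then

* `locVal S 𝔪 z h hfrac : ValuationSubring L` is the localisation `S_𝔪` inside `L`;
* `mem_locVal_iff` : `f ∈ S_𝔪 ↔ ∃ s t, t ∉ 𝔪 ∧ f * t = s`;
* `isUnif_locVal` : `z` is a uniformiser;
* `exists_sub_mem_locVal` : the residue field of `S_𝔪` is `S / 𝔪`;
* `eq_locVal_of_le` : a valuation subring `V' ⊇ S` with centre `𝔪` on `S` equals `S_𝔪`.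
-/

set_option autoImplicit false
set_option linter.style.haveILetI false
set_option linter.unusedSectionVars false

namespace Fermat.Agent.S36.H972

open Fermat.Agent.A2.H48 IsLocalRing

section LocVal

variable {L : Type*} [Field L] (S : Subring L) (𝔪 : Ideal S) (z : S)

/-- `z ∈ 𝔪`, `z ≠ 0` and `𝔪 S_𝔪 = z S_𝔪`, elementwise. -/
structure LocGen : Prop where
  mem : z ∈ 𝔪
  ne_zero : z ≠ 0
  gen : ∀ s ∈ 𝔪, ∃ t s' : S, t ∉ 𝔪 ∧ s * t = z * s'

/-- `L` is the fraction field of `S`, elementwise. -/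
def IsFracOf : Prop := ∀ f : L, ∃ s t : S, t ≠ 0 ∧ f * (t : L) = (s : L)

variable {S 𝔪 z}

theorem isUnit_subtype_of_primeCompl [𝔪.IsMaximal] (t : 𝔪.primeCompl) :
    IsUnit (S.subtype (t : S)) := by
  have ht : (t : S) ≠ 0 := by
    intro h
    exact t.2 (h ▸ 𝔪.zero_mem)
  exact IsUnit.mk0 _ (fun h => ht (Subtype.ext h))

variable (S 𝔪) in
/-- The canonical map `S_𝔪 → L`. -/
noncomputable def locMap [𝔪.IsMaximal] : Localization.AtPrime 𝔪 →+* L :=
  IsLocalization.lift (M := 𝔪.primeCompl) (g := S.subtype) isUnit_subtype_of_primeCompl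

theorem locMap_algebraMap [𝔪.IsMaximal] (s : S) :
    locMap S 𝔪 (algebraMap S (Localization.AtPrime 𝔪) s) = (s : L) :=
  IsLocalization.lift_eq _ s

theorem locMap_mk' [𝔪.IsMaximal] (s : S) (t : 𝔪.primeCompl) :
    locMap S 𝔪 (IsLocalization.mk' (Localization.AtPrime 𝔪) s t) * ((t : S) : L) = (s : L) := by
  have h := IsLocalization.mk'_spec (Localization.AtPrime 𝔪) s t
  have h2 := congrArg (locMap S 𝔪) h
  rw [map_mul, locMap_algebraMap, locMap_algebraMap] at h2
  exact h2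

theorem locMap_injective [𝔪.IsMaximal] : Function.Injective (locMap S 𝔪) := by
  rw [injective_iff_map_eq_zero]
  intro a ha
  obtain ⟨s, t, rfl⟩ := IsLocalization.exists_mk'_eq 𝔪.primeCompl a
  have h := locMap_mk' (S := S) (𝔪 := 𝔪) s t
  rw [ha, zero_mul] at h
  have hs : s = 0 := Subtype.ext h.symm
  rw [hs, IsLocalization.mk'_zero]

theorem mem_range_locMap_iff [𝔪.IsMaximal] {f : L} :
    f ∈ (locMap S 𝔪).range ↔ ∃ s t : S, t ∉ 𝔪 ∧ f * (t : L) = (s : L) := by
  constructor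
  · rintro ⟨a, rfl⟩
    obtain ⟨s, t, rfl⟩ := IsLocalization.exists_mk'_eq 𝔪.primeCompl a
    exact ⟨s, t, t.2, locMap_mk' s t⟩
  · rintro ⟨s, t, ht, hft⟩
    have ht' : t ∈ 𝔪.primeCompl := ht
    refine ⟨IsLocalization.mk' (Localization.AtPrime 𝔪) s (⟨t, ht'⟩ : 𝔪.primeCompl), ?_⟩
    have h := locMap_mk' (S := S) (𝔪 := 𝔪) s (⟨t, ht'⟩ : 𝔪.primeCompl)
    have ht0 : (t : L) ≠ 0 := by
      intro h0
      apply ht
      have : t = 0 := Subtype.ext h0
      rw [this]
      exact 𝔪.zero_mem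
    exact mul_right_cancel₀ ht0 (h.trans hft.symm)

theorem maximalIdeal_eq_span [𝔪.IsMaximal] (h : LocGen S 𝔪 z) :
    maximalIdeal (Localization.AtPrime 𝔪) =
      Ideal.span {algebraMap S (Localization.AtPrime 𝔪) z} := by
  rw [← Localization.AtPrime.map_eq_maximalIdeal]
  apply le_antisymm
  · rw [Ideal.map_le_iff_le_comap]
    intro s hs
    obtain ⟨t, s', ht, hst⟩ := h.gen s hs
    rw [Ideal.mem_comap, Ideal.mem_span_singleton]
    have ht' : t ∈ 𝔪.primeCompl := ht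
    refine ⟨IsLocalization.mk' (Localization.AtPrime 𝔪) s' (⟨t, ht'⟩ : 𝔪.primeCompl), ?_⟩
    rw [IsLocalization.mul_mk'_eq_mk'_of_mul, IsLocalization.eq_mk'_iff_mul_eq, ← map_mul,
      ← hst]
  · rw [Ideal.span_singleton_le_iff_mem]
    exact Ideal.mem_map_of_mem _ h.mem

theorem valuationRing_localization [IsNoetherianRing S] [𝔪.IsMaximal] (h : LocGen S 𝔪 z) :
    ValuationRing (Localization.AtPrime 𝔪) := by
  have hle : 𝔪.primeCompl ≤ nonZeroDivisors S := by
    intro t ht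
    refine mem_nonZeroDivisors_of_ne_zero ?_
    rintro rfl
    exact ht 𝔪.zero_mem
  haveI : IsDomain (Localization.AtPrime 𝔪) :=
    IsLocalization.isDomain_localization hle
  haveI : IsNoetherianRing (Localization.AtPrime 𝔪) :=
    IsLocalization.isNoetherianRing 𝔪.primeCompl _ inferInstance
  refine ((tfae_of_isNoetherianRing_of_isLocalRing_of_isDomain
    (Localization.AtPrime 𝔪)).out 4 1).1 ?_
  rw [maximalIdeal_eq_span h]
  exact ⟨⟨_, rfl⟩⟩

variable (S 𝔪 z) in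
/-- The localisation `S_𝔪` as a valuation subring of `L`. -/
noncomputable def locVal [IsNoetherianRing S] [𝔪.IsMaximal] (h : LocGen S 𝔪 z)
    (hfrac : IsFracOf S) : ValuationSubring L :=
  { (locMap S 𝔪).range with
    mem_or_inv_mem' := by
      intro f
      haveI := valuationRing_localization h
      obtain ⟨s, t, ht, hft⟩ := hfrac f
      have ht0 : (t : L) ≠ 0 := fun h0 => ht (Subtype.ext h0)
      obtain ⟨c, hc | hc⟩ := ValuationRing.cond (algebraMap S (Localization.AtPrime 𝔪) s)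
        (algebraMap S (Localization.AtPrime 𝔪) t)
      · -- `s * c = t`, so `f⁻¹ = c` (or `f = 0`)
        right
        have h2 := congrArg (locMap S 𝔪) hc
        rw [map_mul, locMap_algebraMap, locMap_algebraMap] at h2
        refine ⟨c, ?_⟩
        by_cases hf : f = 0
        · subst hf
          rw [zero_mul] at hft
          rw [← hft, zero_mul] at h2
          exact absurd h2.symm ht0
        · rw [← hft] at h2
          have h3 : f * (locMap S 𝔪 c) = 1 := by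
            have : f * (t : L) * locMap S 𝔪 c = (t : L) * 1 := by rw [h2, mul_one]
            have h4 : (t : L) * (f * locMap S 𝔪 c) = (t : L) * 1 := by
              rw [← this]; ring
            exact mul_left_cancel₀ ht0 h4
          exact eq_inv_of_mul_eq_one_right h3
      · left
        have h2 := congrArg (locMap S 𝔪) hc
        rw [map_mul, locMap_algebraMap, locMap_algebraMap] at h2
        refine ⟨c, ?_⟩
        rw [← hft] at h2
        have h4 : (t : L) * locMap S 𝔪 c = (t : L) * f := by rw [h2]; ring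
        exact mul_left_cancel₀ ht0 h4 }


section Props

variable [IsNoetherianRing S] [h𝔪 : 𝔪.IsMaximal] (h : LocGen S 𝔪 z) (hfrac : IsFracOf S)

theorem mem_locVal_iff {f : L} :
    f ∈ locVal S 𝔪 z h hfrac ↔ ∃ s t : S, t ∉ 𝔪 ∧ f * (t : L) = (s : L) :=
  mem_range_locMap_iff

theorem coe_mem_locVal (s : S) : (s : L) ∈ locVal S 𝔪 z h hfrac :=
  (mem_locVal_iff h hfrac).2 ⟨s, 1, (Ideal.ne_top_iff_one 𝔪).1 h𝔪.ne_top, by simp⟩

theorem coe_ne_zero_of_notMem {t : S} (ht : t ∉ 𝔪) : (t : L) ≠ 0 := by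
  intro h0
  apply ht
  have : t = 0 := Subtype.ext h0
  rw [this]
  exact 𝔪.zero_mem

/-- Elements `s / t` with `s ∈ 𝔪`, `t ∉ 𝔪` are divisible by `z` in `S_𝔪`. -/
theorem mul_inv_mem_locVal {f : L} {s t : S} (hs : s ∈ 𝔪) (ht : t ∉ 𝔪)
    (hft : f * (t : L) = (s : L)) : f * (z : L)⁻¹ ∈ locVal S 𝔪 z h hfrac := by
  obtain ⟨t', s', ht', hst⟩ := h.gen s hs
  have hz0 : (z : L) ≠ 0 := fun h0 => h.ne_zero (Subtype.ext h0)
  refine (mem_locVal_iff h hfrac).2 ⟨s', t * t', ?_, ?_⟩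
  · intro hmem
    rcases h𝔪.isPrime.mem_or_mem hmem with h1 | h1
    · exact ht h1
    · exact ht' h1
  · have hst' : (s : L) * (t' : L) = (z : L) * (s' : L) := by
      have := congrArg (fun x : S => (x : L)) hst
      simpa using this
    push_cast
    have : f * (z : L)⁻¹ * ((t : L) * (t' : L)) = (f * (t : L)) * (t' : L) * (z : L)⁻¹ := by ring
    rw [this, hft, hst']
    field_simp

theorem isUnif_locVal : IsUnif (locVal S 𝔪 z h hfrac) (z : L) where
  mem := coe_mem_locVal h hfrac z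
  inv_not_mem := by
    intro hmem
    obtain ⟨s, t, ht, hst⟩ := (mem_locVal_iff h hfrac).1 hmem
    have hz0 : (z : L) ≠ 0 := fun h0 => h.ne_zero (Subtype.ext h0)
    apply ht
    have h1 : t = z * s := by
      apply Subtype.ext
      push_cast
      rw [← hst]
      field_simp
    rw [h1]
    exact 𝔪.mul_mem_right _ h.mem
  gen := by
    intro f hf hfinv
    obtain ⟨s, t, ht, hst⟩ := (mem_locVal_iff h hfrac).1 hf
    have hs : s ∈ 𝔪 := by
      by_contra hs
      apply hfinv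
      by_cases hf0 : f = 0
      · rw [hf0, inv_zero]
        exact zero_mem _
      · refine (mem_locVal_iff h hfrac).2 ⟨t, s, hs, ?_⟩
        rw [← hst]
        field_simp
    exact mul_inv_mem_locVal h hfrac hs ht hst

/-- The residue field of `S_𝔪` is `S / 𝔪`. -/
theorem exists_sub_mem_locVal {f : L} (hf : f ∈ locVal S 𝔪 z h hfrac) :
    ∃ g : S, (f - (g : L)) * (z : L)⁻¹ ∈ locVal S 𝔪 z h hfrac := by
  obtain ⟨s, t, ht, hst⟩ := (mem_locVal_iff h hfrac).1 hf
  obtain ⟨t', i, hi, hti⟩ := h𝔪.exists_inv ht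
  refine ⟨s * t', ?_⟩
  have ht0 : (t : L) ≠ 0 := coe_ne_zero_of_notMem ht
  have hti' : (t' : L) * (t : L) + (i : L) = 1 := by
    have := congrArg (fun x : S => (x : L)) hti
    simpa using this
  refine mul_inv_mem_locVal h hfrac (s := s * i) (t := t) (𝔪.mul_mem_left _ hi) ht ?_
  push_cast
  have hi' : (i : L) = 1 - (t' : L) * (t : L) := by rw [← hti']; ring
  rw [hi', ← hst]
  ring

/-- A valuation subring containing `S` with centre `𝔪` is `S_𝔪`. -/
theorem eq_locVal_of_le (V' : ValuationSubring L) (hS : ∀ s : S, (s : L) ∈ V')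
    (hc : ∀ s : S, s ∈ 𝔪 → s ≠ 0 → (s : L)⁻¹ ∉ V') : V' = locVal S 𝔪 z h hfrac := by
  have hz0 : (z : L) ≠ 0 := fun h0 => h.ne_zero (Subtype.ext h0)
  have hunit : ∀ t : S, t ∉ 𝔪 → (t : L)⁻¹ ∈ V' := by
    intro t ht
    obtain ⟨t', i, hi, hti⟩ := h𝔪.exists_inv ht
    have hti' : (t' : L) * (t : L) + (i : L) = 1 := by
      have := congrArg (fun x : S => (x : L)) hti
      simpa using this
    have ht0 : (t : L) ≠ 0 := coe_ne_zero_of_notMem ht
    have hiv : V'.valuation (i : L) < 1 := by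
      by_cases hi0 : i = 0
      · rw [hi0]; simp
      · have h1 : V'.valuation (i : L) ≤ 1 := (V'.valuation_le_one_iff _).2 (hS i)
        rcases lt_or_eq_of_le h1 with h2 | h2
        · exact h2
        · exfalso
          apply hc i hi hi0
          rw [← V'.valuation_le_one_iff, map_inv₀, h2, inv_one]
    have h1 : V'.valuation (1 - (i : L)) = 1 := Valuation.map_one_sub_of_lt _ hiv
    have h2 : (1 - (i : L))⁻¹ ∈ V' := by
      rw [← V'.valuation_le_one_iff, map_inv₀, h1, inv_one]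
    have h3 : (t : L)⁻¹ = (t' : L) * (1 - (i : L))⁻¹ := by
      have h4 : (1 - (i : L)) = (t' : L) * (t : L) := by rw [← hti']; ring
      have h5 : (1 - (i : L)) ≠ 0 := by
        intro h0
        rw [h0] at h1
        simp at h1
      rw [h4] at h5 ⊢
      have ht'0 : (t' : L) ≠ 0 := left_ne_zero_of_mul h5
      field_simp
    rw [h3]
    exact mul_mem (hS t') h2
  apply le_antisymm
  · intro f hf
    by_contra hfV
    have hfinv : f⁻¹ ∈ locVal S 𝔪 z h hfrac :=
      ((locVal S 𝔪 z h hfrac).mem_or_inv_mem f).resolve_left hfV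
    have h2 : f⁻¹ * (z : L)⁻¹ ∈ locVal S 𝔪 z h hfrac :=
      (isUnif_locVal h hfrac).gen _ hfinv (by rwa [inv_inv])
    obtain ⟨s, t, ht, hst⟩ := (mem_locVal_iff h hfrac).1 h2
    have hf0 : f ≠ 0 := by
      rintro rfl
      exact hfV (zero_mem _)
    apply hc z h.mem h.ne_zero
    have h3 : (z : L)⁻¹ = f * ((s : L) * (t : L)⁻¹) := by
      have ht0 : (t : L) ≠ 0 := coe_ne_zero_of_notMem ht
      rw [← hst]
      field_simp
    rw [h3]
    exact mul_mem hf (mul_mem (hS s) (hunit t ht))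
  · intro f hf
    obtain ⟨s, t, ht, hst⟩ := (mem_locVal_iff h hfrac).1 hf
    have ht0 : (t : L) ≠ 0 := coe_ne_zero_of_notMem ht
    have h3 : f = (s : L) * (t : L)⁻¹ := by
      rw [← hst]
      field_simp
    rw [h3]
    exact mul_mem (hS s) (hunit t ht)

theorem inv_mem_locVal_of_notMem {t : S} (ht : t ∉ 𝔪) : (t : L)⁻¹ ∈ locVal S 𝔪 z h hfrac :=
  (mem_locVal_iff h hfrac).2 ⟨1, t, ht, by
    rw [inv_mul_cancel₀ (coe_ne_zero_of_notMem ht)]; simp⟩

theorem mul_inv_mem_locVal_of_mem {s : S} (hs : s ∈ 𝔪) :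
    (s : L) * (z : L)⁻¹ ∈ locVal S 𝔪 z h hfrac :=
  mul_inv_mem_locVal h hfrac (s := s) (t := 1) hs ((Ideal.ne_top_iff_one 𝔪).1 h𝔪.ne_top)
    (by simp)

theorem inv_notMem_locVal_of_mem {s : S} (hs : s ∈ 𝔪) (hs0 : s ≠ 0) :
    (s : L)⁻¹ ∉ locVal S 𝔪 z h hfrac := by
  intro hmem
  have h1 := mul_inv_mem_locVal_of_mem h hfrac hs
  apply (isUnif_locVal h hfrac).inv_not_mem
  have hs0' : (s : L) ≠ 0 := fun h0 => hs0 (Subtype.ext h0)
  have : (z : L)⁻¹ = ((s : L) * (z : L)⁻¹) * (s : L)⁻¹ := by field_simp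
  rw [this]
  exact mul_mem h1 hmem

end Props

end LocVal

end Fermat.Agent.S36.H972

end
-- ===== PACK-END S36/H972/LocVal.lean

-- ===== PACK-BEGIN S36/H972/EisSeries.lean
section



/-!
# S36 / MOD3 (helper972): the formal `q`-series INTERFACE of the middle valuation

`J = j(t) ∈ ℤ((t))`, `J_q = j(t^q)`, `J_{q²} = j(t^{q²})`.  The minimal polynomial of `j_{q²}` over
`F_{qM'} = E(j_d, j_{qd} : d ∣ M')` is `Ψ(Y) = Φ_q(j_q, Y) / (Y - j)`.  `EisSeries q A Ψ G` records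
the facts about its `t`-expansion which make `Ψ` "split-Eisenstein" at the Gauss valuation:

    Ψ = (Y - A) (Y - J)^(q-1) + q G,     A ≡ J_{q²} mod q,   A - J  and  G(J)  primitive mod q.

(`A = J^(q²)` or `A = J_q^q`.)  Consumer: `Fermat/Agent/S36/H972/Mod3.lean`.
Producer: the EIS sub-leaf (formal `q`-series, Kronecker congruence).
-/

set_option autoImplicit false

noncomputable section

namespace Fermat.Agent.S36.H972

open Polynomial ModularCurve Fermat.Agent.S28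

/-- The subring `ℤ[J, J_q] ⊆ ℤ((t))`. -/
def jjRing (q : ℕ) [NeZero q] : Subring (LaurentSeries ℤ) :=
  Subring.closure ({jqModC ℤ, qExpand ℤ q (jqModC ℤ)} : Set (LaurentSeries ℤ))

/-- The split-Eisenstein shape of `Ψ(Y) = Φ_q(J_q, Y) / (Y - J)` over `ℤ((t))`. -/
structure EisSeries (q : ℕ) [NeZero q] (A : LaurentSeries ℤ) (Ψ G : (LaurentSeries ℤ)[X]) :
    Prop where
  monic : Ψ.Monic
  natDegree_eq : Ψ.natDegree = q
  coeff_mem : ∀ i, Ψ.coeff i ∈ jjRing q
  root : Ψ.eval (qExpand ℤ (q * q) (jqModC ℤ)) = 0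
  A_mem : A ∈ jjRing q
  A_cong : ∃ H : LaurentSeries ℤ, qExpand ℤ (q * q) (jqModC ℤ) - A = (q : LaurentSeries ℤ) * H
  A_unit : ∃ n : ℤ, ¬ (q : ℤ) ∣ (A - jqModC ℤ).coeff n
  dec : Ψ = (X - C A) * (X - C (jqModC ℤ)) ^ (q - 1) + C (q : LaurentSeries ℤ) * G
  unit : ∃ n : ℤ, ¬ (q : ℤ) ∣ (G.eval (jqModC ℤ)).coeff n

end Fermat.Agent.S36.H972

end

end
-- ===== PACK-END S36/H972/EisSeries.lean

-- ===== PACK-BEGIN S36/H747/QepUp.lean
section



/-!
# S36 / MOD3 — abstract core QEP-UP (helper747)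

`α : F' → F` a homomorphism of fields with `F` algebraic over `α F'`; `B' ⊆ F'` a subring which is
integrally closed in `F'`; `V₁', V₂'` valuation subrings of `F'` of rank one ("archimedean",
e.g. discrete valuation rings) containing `w'`, with the LOWER q-expansion principle

    b ∈ B',  b / w' ∈ V₁' ∩ V₂'   ⟹   b / w' ∈ B'.

Let `𝒱` be a set of valuation subrings of `F` which contains every valuation subring `W` of `F`
lying over `V₁'` or over `V₂'` (COMPLETENESS; e.g. `𝒱 = {V₁, V₂, V₃}`), and let `b ∈ F` be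
integral over `α B'`.  If `b / α w' ∈ V` for all `V ∈ 𝒱`, then `b / α w'` is integral over `α B'`
(`isIntegralOver_div_of_forall_mem`).

In chart form (`qep3_chart`): the conclusion of `Eng.Qep3 w (chart R {x}) V₁ V₂ V₃`, VERBATIM
(unfolded), from the lower `Qep2` for `chart R {x'}`, `chart_α`, `int_α` and completeness.

Mathlib only (+ the definition of `chart`).
-/

set_option autoImplicit false
set_option linter.style.haveILetI false
set_option linter.unusedSectionVars false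
set_option linter.unusedVariables false

noncomputable section

namespace Fermat.Agent.S36.H747

open Polynomial

section Arch

variable {K : Type*} [Field K]

/-- The valuation subring `V` has rank at most one: for `z ∉ V` the powers of `z⁻¹` absorb every
element of the field. -/
def Arch (V : ValuationSubring K) : Prop :=
  ∀ z : K, z ∉ V → ∀ f : K, ∃ n : ℕ, f * z⁻¹ ^ n ∈ V

/-- A valuation subring of rank at most one is a maximal proper valuation subring. -/
theorem Arch.eq_or_eq_top {V : ValuationSubring K} (hV : Arch V) {W : ValuationSubring K}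
    (h : V ≤ W) : W = V ∨ ∀ f : K, f ∈ W := by
  by_cases hWV : W ≤ V
  · exact Or.inl (le_antisymm hWV h)
  · right
    obtain ⟨z, hzW, hzV⟩ := SetLike.not_le_iff_exists.1 hWV
    have hz0 : z ≠ 0 := fun h0 => hzV (h0 ▸ V.zero_mem)
    intro f
    obtain ⟨n, hn⟩ := hV z hzV f
    have : f = f * z⁻¹ ^ n * z ^ n := by
      rw [mul_assoc, ← mul_pow, inv_mul_cancel₀ hz0, one_pow, mul_one]
    rw [this]
    exact W.mul_mem _ _ (h hn) (W.pow_mem hzW n)

/-- A discrete valuation ring has rank one. -/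
theorem arch_of_isDiscreteValuationRing (V : ValuationSubring K)
    [IsDiscreteValuationRing V] : Arch V := by
  intro z hz f
  have hz0 : z ≠ 0 := fun h0 => hz (h0 ▸ V.zero_mem)
  have hzi : z⁻¹ ∈ V := (V.mem_or_inv_mem z).resolve_left hz
  by_cases hf : f ∈ V
  · exact ⟨0, by simpa using hf⟩
  have hf0 : f ≠ 0 := fun h0 => hf (h0 ▸ V.zero_mem)
  have hfi : f⁻¹ ∈ V := (V.mem_or_inv_mem f).resolve_left hf
  -- `z⁻¹` is a non-unit of `V`
  obtain ⟨ϖ, hϖ⟩ := IsDiscreteValuationRing.exists_irreducible V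
  have hzinv0 : (⟨z⁻¹, hzi⟩ : V) ≠ 0 := fun h0 => by
    have := congrArg Subtype.val h0
    exact inv_ne_zero hz0 this
  have hfinv0 : (⟨f⁻¹, hfi⟩ : V) ≠ 0 := fun h0 => by
    have := congrArg Subtype.val h0
    exact inv_ne_zero hf0 this
  obtain ⟨a, u, hu⟩ := IsDiscreteValuationRing.eq_unit_mul_pow_irreducible hzinv0 hϖ
  obtain ⟨c, v, hv⟩ := IsDiscreteValuationRing.eq_unit_mul_pow_irreducible hfinv0 hϖ
  have ha : a ≠ 0 := by
    rintro rfl
    rw [pow_zero, mul_one] at hu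
    have hunit : IsUnit (⟨z⁻¹, hzi⟩ : V) := hu ▸ u.isUnit
    obtain ⟨y, hy⟩ := hunit.exists_right_inv
    have hy' : z⁻¹ * (y : K) = 1 := by
      have := congrArg Subtype.val hy
      simpa using this
    have : (y : K) = z := by
      field_simp at hy'
      exact hy'
    exact hz (this ▸ y.2)
  -- `f * (z⁻¹) ^ c = f * u ^ c * ϖ ^ (a c)` and `f = v⁻¹ ϖ ^ (-c)`
  refine ⟨c, ?_⟩
  have hu' : z⁻¹ = (u : V) * (ϖ : K) ^ a := by
    have := congrArg Subtype.val hu
    simpa using this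
  have hv' : f⁻¹ = (v : V) * (ϖ : K) ^ c := by
    have := congrArg Subtype.val hv
    simpa using this
  have hϖ0 : (ϖ : K) ≠ 0 := fun h0 => hϖ.ne_zero (Subtype.ext h0)
  have hv0 : ((v : V) : K) ≠ 0 := fun h0 => v.ne_zero (Subtype.ext h0)
  have hfe : f = ((v⁻¹ : Vˣ) : V) * ((ϖ : K) ^ c)⁻¹ := by
    have h1 : f = (f⁻¹)⁻¹ := (inv_inv f).symm
    rw [h1, hv', mul_inv]
    congr 1
    have hvv : ((v : V) : K) * (((v⁻¹ : Vˣ) : V) : K) = 1 := by
      have h := congrArg Subtype.val (Units.mul_inv v)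
      exact h
    exact (eq_inv_of_mul_eq_one_right hvv).symm ▸ rfl
  have key : f * z⁻¹ ^ c =
      (((v⁻¹ : Vˣ) : V) : K) * ((u : V) : K) ^ c * (ϖ : K) ^ (a * c - c) := by
    rw [hfe, hu', mul_pow, ← pow_mul]
    have hle : c ≤ a * c := Nat.le_mul_of_pos_left c (Nat.pos_of_ne_zero ha)
    have : (ϖ : K) ^ (a * c) = (ϖ : K) ^ (a * c - c) * (ϖ : K) ^ c := by
      rw [← pow_add, Nat.sub_add_cancel hle]
    rw [this]
    field_simp
  rw [key]
  exact V.mul_mem _ _ (V.mul_mem _ _ (Subtype.mem _) (V.pow_mem (Subtype.mem _) c))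
    (V.pow_mem (Subtype.mem _) _)

end Arch

section Core

variable {F F' : Type*} [Field F] [Field F']

/-- `y ∈ F` is integral over `α A`, elementwise: a monic polynomial over `F'` with coefficients in
`A` whose image under `α` kills `y`. -/
def IsIntegralOver (α : F' →+* F) (A : Set F') (y : F) : Prop :=
  ∃ p : F'[X], p.Monic ∧ (∀ i, p.coeff i ∈ A) ∧ (p.map α).eval y = 0

theorem IsIntegralOver.mono {α : F' →+* F} {A A' : Set F'} (h : A ⊆ A') {y : F}
    (hy : IsIntegralOver α A y) : IsIntegralOver α A' y := by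
  obtain ⟨p, hp, hc, he⟩ := hy
  exact ⟨p, hp, fun i => h (hc i), he⟩

/-- **Lemma A.**  If `F` is algebraic over `α F'`, `V'` has rank at most one and `y` lies in every
valuation subring of `F` over `V'`, then `y` is integral over `α V'`. -/
theorem isIntegralOver_of_forall_mem (α : F' →+* F)
    (halg : ∀ y : F, IsIntegralOver α Set.univ y)
    (V' : ValuationSubring F') (hV' : Arch V') (y : F)
    (hy : ∀ W : ValuationSubring F, W.comap α = V' → y ∈ W) :
    IsIntegralOver α (V' : Set F') y := by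
  classical
  set s : Set F := α '' (V' : Set F') with hs
  -- `y` lies in every valuation subring containing `α V'`
  have hmem : y ∈ (⨅ V : {V : ValuationSubring F // s ⊆ V.toSubring}, V.1.toSubring) := by
    rw [Subring.mem_iInf]
    rintro ⟨W, hW⟩
    have hle : V' ≤ W.comap α := fun a ha => hW ⟨a, ha, rfl⟩
    rcases hV'.eq_or_eq_top hle with h | h
    · exact hy W h
    · -- `α F' ⊆ W`, hence `W = F`
      obtain ⟨p, hp, -, he⟩ := halg y
      have hint : IsIntegral W y := by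
        have hlift : p.map α ∈ lifts (algebraMap W F) := by
          rw [lifts_iff_coeff_lifts]
          intro n
          rw [coeff_map]
          exact ⟨⟨α (p.coeff n), h (p.coeff n)⟩, rfl⟩
        obtain ⟨q, hq, -, hqm⟩ := lifts_and_natDegree_eq_and_monic hlift (hp.map α)
        refine ⟨q, hqm, ?_⟩
        rw [← eval_map, hq]
        exact he
      obtain ⟨y', hy'⟩ := (IsIntegrallyClosed.isIntegral_iff (R := W) (K := F)).1 hint
      rw [← hy']
      exact y'.2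
  rw [iInf_valuationSubring_superset] at hmem
  -- a monic polynomial over `Subring.closure s`
  obtain ⟨P, hP, hPy⟩ : IsIntegral (Subring.closure s) y := hmem
  -- `Subring.closure s = α V'`
  have hcl : ∀ c ∈ Subring.closure s, ∃ a ∈ V', α a = c := by
    intro c hc
    have hle : Subring.closure s ≤ V'.toSubring.map α := by
      rw [Subring.closure_le]
      rintro _ ⟨a, ha, rfl⟩
      exact ⟨a, ha, rfl⟩
    obtain ⟨a, ha, rfl⟩ := hle hc
    exact ⟨a, ha, rfl⟩
  let f : V' →+* F := α.comp V'.subtype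
  have hlift : P.map (algebraMap (Subring.closure s) F) ∈ lifts f := by
    rw [lifts_iff_coeff_lifts]
    intro n
    rw [coeff_map]
    obtain ⟨a, ha, hac⟩ := hcl (P.coeff n) (P.coeff n).2
    exact ⟨⟨a, ha⟩, hac⟩
  obtain ⟨q, hq, -, hqm⟩ := lifts_and_natDegree_eq_and_monic hlift (hP.map _)
  refine ⟨q.map V'.subtype, hqm.map _, fun i => ?_, ?_⟩
  · rw [coeff_map]
    exact (q.coeff i).2
  · rw [map_map]
    change (q.map f).eval y = 0
    rw [hq, eval_map]
    exact hPy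

/-- **Lemma B.**  If `y` is integral over `α A`, `A` a subring integrally closed in `F'`, then the
minimal polynomial of `y` over `F'` has coefficients in `A`. -/
theorem minpoly_coeff_mem (α : F' →+* F) (A : Subring F')
    (hA : ∀ z : F', IsIntegral A z → z ∈ A) (y : F)
    (hy : IsIntegralOver α (A : Set F') y) (i : ℕ) :
    (@minpoly F' F _ _ α.toAlgebra y).coeff i ∈ A := by
  letI : Algebra F' F := α.toAlgebra
  obtain ⟨p, hp, hpA, hpy⟩ := hy
  have hpy' : aeval y p = 0 := by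
    rw [aeval_def, ← eval_map]
    exact hpy
  have hint : IsIntegral F' y := ⟨p, hp, by rw [← aeval_def]; exact hpy'⟩
  have hdvd : minpoly F' y ∣ p := minpoly.dvd F' y hpy'
  have hsub : (↑p.coeffs : Set F') ⊆ A := by
    intro c hc
    obtain ⟨n, -, hn⟩ := mem_coeffs_iff.mp hc
    exact hn ▸ hpA n
  have hmap : (p.toSubring A hsub).map (algebraMap A F') = p := map_toSubring p A hsub
  have hmon : (p.toSubring A hsub).Monic := (monic_toSubring p A hsub).2 hp
  have hl := integralClosure.mem_lifts_of_monic_of_dvd_map F' hmon (minpoly.monic hint)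
    (by rw [hmap]; exact hdvd)
  rw [lifts_iff_coeff_lifts] at hl
  obtain ⟨c, hc⟩ := hl i
  rw [← hc]
  exact hA _ c.2

/-- **Lemma C.**  Scaling: the minimal polynomial of `α u * y`. -/
theorem minpoly_mul_coeff (α : F' →+* F) (u : F') (hu : u ≠ 0) (y : F)
    (hy : IsIntegralOver α Set.univ y) (i : ℕ) :
    (@minpoly F' F _ _ α.toAlgebra (α u * y)).coeff i =
      (@minpoly F' F _ _ α.toAlgebra y).coeff i *
        u ^ ((@minpoly F' F _ _ α.toAlgebra y).natDegree - i) := by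
  letI : Algebra F' F := α.toAlgebra
  obtain ⟨p, hp, -, hpy⟩ := hy
  have hint : IsIntegral F' y := ⟨p, hp, by rw [← eval_map]; exact hpy⟩
  have h := IsIntegrallyClosed.minpoly_smul (R := F') (S := F) hu hint
  have hsm : u • y = α u * y := by
    rw [Algebra.smul_def]
    rfl
  rw [hsm] at h
  rw [h, coeff_scaleRoots]

/-- **Lemma D.**  The lower q-expansion principle, iterated. -/
theorem mem_of_mul_pow_mem {B' : Set F'} {w' : F'} (hw0 : w' ≠ 0)
    {V₁' V₂' : ValuationSubring F'} (hw₁ : w' ∈ V₁') (hw₂ : w' ∈ V₂')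
    (hqep : ∀ b ∈ B', b * w'⁻¹ ∈ V₁' → b * w'⁻¹ ∈ V₂' → b * w'⁻¹ ∈ B')
    (k : ℕ) (c : F') (hc₁ : c ∈ V₁') (hc₂ : c ∈ V₂') (hcB : c * w' ^ k ∈ B') : c ∈ B' := by
  induction k with
  | zero => simpa using hcB
  | succ k ih =>
    apply ih
    have e : c * w' ^ k = c * w' ^ (k + 1) * w'⁻¹ := by
      rw [pow_succ, ← mul_assoc, mul_assoc _ w', mul_inv_cancel₀ hw0, mul_one]
    rw [e]
    apply hqep _ hcB
    · rw [← e]; exact V₁'.mul_mem _ _ hc₁ (V₁'.pow_mem hw₁ k)
    · rw [← e]; exact V₂'.mul_mem _ _ hc₂ (V₂'.pow_mem hw₂ k)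

/-- **QEP-UP, abstract core.**  See the header. -/
theorem isIntegralOver_div_of_forall_mem (α : F' →+* F)
    (halg : ∀ y : F, IsIntegralOver α Set.univ y)
    (B' : Subring F') (hB' : ∀ z : F', IsIntegral B' z → z ∈ B')
    (w' : F') (hw0 : w' ≠ 0)
    (V₁' V₂' : ValuationSubring F') (hV₁' : Arch V₁') (hV₂' : Arch V₂')
    (hw₁ : w' ∈ V₁') (hw₂ : w' ∈ V₂')
    (hqep : ∀ b ∈ B', b * w'⁻¹ ∈ V₁' → b * w'⁻¹ ∈ V₂' → b * w'⁻¹ ∈ B')
    (𝒱 : Set (ValuationSubring F))
    (hcomp : ∀ W : ValuationSubring F, W.comap α = V₁' ∨ W.comap α = V₂' → W ∈ 𝒱)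
    (b : F) (hb : IsIntegralOver α (B' : Set F') b)
    (hbV : ∀ V ∈ 𝒱, b * (α w')⁻¹ ∈ V) :
    IsIntegralOver α (B' : Set F') (b * (α w')⁻¹) := by
  letI : Algebra F' F := α.toAlgebra
  set y : F := b * (α w')⁻¹ with hy
  have hαw : α w' ≠ 0 := by rwa [Ne, map_eq_zero]
  have hby : b = α w' * y := by
    rw [hy, mul_comm b, ← mul_assoc, mul_inv_cancel₀ hαw, one_mul]
  -- the minimal polynomial of `y` has coefficients in `V₁' ∩ V₂'`
  have h₁ : IsIntegralOver α (V₁' : Set F') y :=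
    isIntegralOver_of_forall_mem α halg V₁' hV₁' y fun W hW => hbV W (hcomp W (Or.inl hW))
  have h₂ : IsIntegralOver α (V₂' : Set F') y :=
    isIntegralOver_of_forall_mem α halg V₂' hV₂' y fun W hW => hbV W (hcomp W (Or.inr hW))
  have hcl : ∀ V : ValuationSubring F', ∀ z : F', IsIntegral V.toSubring z → z ∈ V.toSubring := by
    intro V z hz
    have hz' : IsIntegral V z := hz
    obtain ⟨z', hz''⟩ := (IsIntegrallyClosed.isIntegral_iff (R := V) (K := F')).1 hz'
    rw [← hz'']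
    exact z'.2
  have hm₁ : ∀ i, (minpoly F' y).coeff i ∈ V₁' := fun i =>
    minpoly_coeff_mem α V₁'.toSubring (hcl V₁') y h₁ i
  have hm₂ : ∀ i, (minpoly F' y).coeff i ∈ V₂' := fun i =>
    minpoly_coeff_mem α V₂'.toSubring (hcl V₂') y h₂ i
  -- the minimal polynomial of `b` has coefficients in `B'`
  have hmb : ∀ i, (minpoly F' b).coeff i ∈ B' := fun i => minpoly_coeff_mem α B' hB' b hb i
  have hmB : ∀ i, (minpoly F' y).coeff i ∈ B' := by
    intro i
    have e := minpoly_mul_coeff α w' hw0 y (halg y) i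
    rw [← hby] at e
    have := hmb i
    rw [e] at this
    exact mem_of_mul_pow_mem hw0 hw₁ hw₂ hqep _ _ (hm₁ i) (hm₂ i) this
  obtain ⟨p, hp, -, hpy⟩ := halg y
  have hint : IsIntegral F' y := ⟨p, hp, by rw [← eval_map]; exact hpy⟩
  refine ⟨minpoly F' y, minpoly.monic hint, hmB, ?_⟩
  rw [eval_map]
  have h := minpoly.aeval F' y
  rw [aeval_def] at h
  exact h

end Core

section Chart

open Fermat.Agent.S18.H138 (chart)

variable {R F F' : Type*} [CommRing R] [Field F] [Field F'] [Algebra R F] [Algebra R F']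

/-- The chart is integrally closed in the field. -/
theorem mem_chart_of_isIntegral (S : Set F') (z : F')
    (hz : IsIntegral (chart R S).toSubring z) : z ∈ chart R S := by
  have hz' : IsIntegral (integralClosure (Algebra.adjoin R S) F') z := hz
  exact isIntegral_trans (R := Algebra.adjoin R S)
    (A := integralClosure (Algebra.adjoin R S) F') z hz'

/-- An element integral over `α (chart R S')`, where `α` maps `chart R S'` into `chart R S`, lies
in `chart R S`. -/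
theorem mem_chart_of_isIntegralOver (α : F' →+* F) (S' : Set F') (S : Set F)
    (hα : ∀ b ∈ chart R S', α b ∈ chart R S) (y : F)
    (hy : IsIntegralOver α (chart R S' : Set F') y) : y ∈ chart R S := by
  obtain ⟨p, hp, hc, he⟩ := hy
  have hlift : p.map α ∈ lifts (algebraMap (integralClosure (Algebra.adjoin R S) F) F) := by
    rw [lifts_iff_coeff_lifts]
    intro n
    rw [coeff_map]
    exact ⟨⟨α (p.coeff n), hα _ (hc n)⟩, rfl⟩
  obtain ⟨q, hq, -, hqm⟩ := lifts_and_natDegree_eq_and_monic hlift (hp.map α)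
  have hint : IsIntegral (integralClosure (Algebra.adjoin R S) F) y := by
    refine ⟨q, hqm, ?_⟩
    rw [← eval_map, hq]
    exact he
  exact isIntegral_trans (R := Algebra.adjoin R S)
    (A := integralClosure (Algebra.adjoin R S) F) y hint

/-- **QEP-UP in chart form**: the conclusion is `Eng.Qep3 w (chart R {x}) V₁ V₂ V₃` unfolded.

Inputs: `α : F' → F` compatible with the `R`-algebra structures, `F` algebraic over `α F'`;
the LOWER q-expansion principle for `chart R S'` and `V₁', V₂'` (rank one, containing `w`);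
`chart_α`, `int_α`; COMPLETENESS: every valuation subring of `F` over `V₁'` or `V₂'` is one of
`V₁, V₂, V₃`. -/
theorem qep3_chart (w : R) (α : F' →+* F)
    (hαR : ∀ r : R, α (algebraMap R F' r) = algebraMap R F r)
    (halg : ∀ y : F, ∃ p : F'[X], p.Monic ∧ (p.map α).eval y = 0)
    (S' : Set F') (S : Set F)
    (V₁ V₂ V₃ : ValuationSubring F) (V₁' V₂' : ValuationSubring F')
    (hw0 : algebraMap R F' w ≠ 0)
    (hw₁ : algebraMap R F' w ∈ V₁') (hw₂ : algebraMap R F' w ∈ V₂')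
    (hV₁' : Arch V₁') (hV₂' : Arch V₂')
    (hqep : ∀ b ∈ chart R S', b * (algebraMap R F' w)⁻¹ ∈ V₁' →
      b * (algebraMap R F' w)⁻¹ ∈ V₂' → b * (algebraMap R F' w)⁻¹ ∈ chart R S')
    (hcomp : ∀ W : ValuationSubring F, W.comap α = V₁' ∨ W.comap α = V₂' →
      W = V₁ ∨ W = V₂ ∨ W = V₃)
    (chart_α : ∀ b ∈ chart R S', α b ∈ chart R S)
    (int_α : ∀ b ∈ chart R S, ∃ p : F'[X], p.Monic ∧
      (∀ i, p.coeff i ∈ chart R S') ∧ (p.map α).eval b = 0) :
    ∀ b : chart R S, (b : F) * (algebraMap R F w)⁻¹ ∈ V₁ →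
      (b : F) * (algebraMap R F w)⁻¹ ∈ V₂ → (b : F) * (algebraMap R F w)⁻¹ ∈ V₃ →
      ∃ c : chart R S, b = algebraMap R (chart R S) w * c := by
  intro b hb₁ hb₂ hb₃
  have halg' : ∀ y : F, IsIntegralOver α Set.univ y := fun y => by
    obtain ⟨p, hp, he⟩ := halg y
    exact ⟨p, hp, fun _ => Set.mem_univ _, he⟩
  have key := isIntegralOver_div_of_forall_mem α halg' (chart R S').toSubring
    (mem_chart_of_isIntegral S') (algebraMap R F' w) hw0 V₁' V₂' hV₁' hV₂' hw₁ hw₂ hqep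
    {V₁, V₂, V₃}
    (fun W hW => by
      rcases hcomp W hW with h | h | h
      · exact Or.inl h
      · exact Or.inr (Or.inl h)
      · exact Or.inr (Or.inr h))
    (b : F) (int_α b b.2)
    (by
      intro V hV
      rw [hαR]
      rcases hV with h | h | h
      · rw [h]; exact hb₁
      · rw [h]; exact hb₂
      · rw [Set.mem_singleton_iff.1 h]; exact hb₃)
  rw [hαR] at key
  have hmem : (b : F) * (algebraMap R F w)⁻¹ ∈ chart R S :=
    mem_chart_of_isIntegralOver α S' S chart_α _ key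
  have hwF : algebraMap R F w ≠ 0 := by
    rw [← hαR]
    rwa [Ne, map_eq_zero]
  refine ⟨⟨_, hmem⟩, Subtype.ext ?_⟩
  change (b : F) = algebraMap R F w * ((b : F) * (algebraMap R F w)⁻¹)
  rw [mul_comm (b : F), ← mul_assoc, mul_inv_cancel₀ hwF, one_mul]

end Chart

end Fermat.Agent.S36.H747

end

end
-- ===== PACK-END S36/H747/QepUp.lean

-- ===== PACK-BEGIN A2/Mod/H372/Side.lean
section




/-!
# A2 / MODASM S3, generic part (helper372): one side of the Kronecker correspondence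

Mathlib + `H48.IsUnif` only.  `V₁ ⊆ F₁`, `V₂ ⊆ F₂` valuation subrings with uniformisers
`ϖ₁`, `ϖ₂`; `φ : F₁ →+* F₂` maps `V₁` into `V₂`, `ϖ₁` to `ϖ₂` and reflects integrality
(`φ x ∈ V₂ → x ∈ V₁`); `A ⊆ V₁` a subring which is "normal modulo `ϖ₁`" in the elementwise form
of `Mod.GoodRedAt.normal`; the residue characteristic of `V₂` is `q`.  (`SideData`.)

* `SideData.cong` : if `ψ : F₁ →+* F₂` satisfies the semilinear Kronecker congruence
  `ψ a ≡ (φ a') ^ q mod ϖ₂ V₂` on `V₁` (leaf L12) and `A` is integral over `R[y]` with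
  `ψ = φ` on `R` and `ψ y ≡ (φ y) ^ q`, then the congruence is solvable inside `A`;
* `SideData.surj` : if `V₂ = φ(V₁) + ϖ₂ V₂` (leaf L11), then every element `b` integral over
  `R[y₂]`, `y₂ ≡ φ a`, is congruent to `φ a`, `a ∈ A`, modulo `ϖ₂ V₂`.
-/

set_option autoImplicit false
set_option linter.style.haveILetI false

noncomputable section

namespace Fermat.Agent.A2.Mod.H372

open Polynomial

/-! ## Valuation subrings with a uniformiser (elementwise) -/

section Unif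

variable {F : Type*} [Field F] {V : ValuationSubring F} {ϖ : F}

theorem mem_of_mul_inv_mem (hu : H48.IsUnif V ϖ) {x : F} (hx : x * ϖ⁻¹ ∈ V) : x ∈ V := by
  have : x = x * ϖ⁻¹ * ϖ := by
    rw [mul_assoc, inv_mul_cancel₀ hu.ne_zero, mul_one]
  rw [this]
  exact V.mul_mem _ _ hx hu.mem

/-- `x ∈ ϖ V` iff the residue class of `x` vanishes. -/
theorem residue_eq_zero_iff (hu : H48.IsUnif V ϖ) (x : V) :
    IsLocalRing.residue V x = 0 ↔ (x : F) * ϖ⁻¹ ∈ V := by
  rw [IsLocalRing.residue_eq_zero_iff, IsLocalRing.mem_maximalIdeal, mem_nonunits_iff]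
  constructor
  · intro hx
    rcases eq_or_ne (x : F) 0 with h0 | h0
    · rw [h0, zero_mul]; exact V.zero_mem
    · refine hu.gen _ x.2 (fun hinv => hx ?_)
      exact isUnit_iff_exists_inv.mpr ⟨⟨_, hinv⟩, Subtype.ext (mul_inv_cancel₀ h0)⟩
  · intro hx hunit
    obtain ⟨y, hy⟩ := isUnit_iff_exists_inv.mp hunit
    have hy' : (x : F) * (y : F) = 1 := congrArg Subtype.val hy
    apply hu.inv_not_mem
    have : ϖ⁻¹ = (x : F) * ϖ⁻¹ * y := by
      rw [mul_right_comm, hy', one_mul]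
    rw [this]
    exact V.mul_mem _ _ hx y.2

theorem residue_eq_iff (hu : H48.IsUnif V ϖ) (x y : V) :
    IsLocalRing.residue V x = IsLocalRing.residue V y ↔ ((x : F) - y) * ϖ⁻¹ ∈ V := by
  rw [← sub_eq_zero, ← map_sub, residue_eq_zero_iff hu]
  rfl

end Unif

/-! ## One side -/

section Side

variable {F₁ F₂ : Type*} [Field F₁] [Field F₂]

/-- The residue of a ring homomorphism mapping `V₁` into `V₂`. -/
def resHom (V₁ : ValuationSubring F₁) (V₂ : ValuationSubring F₂) (φ : F₁ →+* F₂)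
    (hφ : ∀ x ∈ V₁, φ x ∈ V₂) : V₁ →+* IsLocalRing.ResidueField V₂ :=
  (IsLocalRing.residue V₂).comp ((φ.comp V₁.subtype).codRestrict V₂ (fun x => hφ x x.2))

theorem resHom_apply (V₁ : ValuationSubring F₁) (V₂ : ValuationSubring F₂) (φ : F₁ →+* F₂)
    (hφ : ∀ x ∈ V₁, φ x ∈ V₂) (x : V₁) :
    resHom V₁ V₂ φ hφ x = IsLocalRing.residue V₂ ⟨φ x, hφ x x.2⟩ := rfl

/-- The hypotheses on one side of the correspondence. -/
structure SideData (V₁ : ValuationSubring F₁) (V₂ : ValuationSubring F₂) (ϖ₁ : F₁) (ϖ₂ : F₂)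
    (φ : F₁ →+* F₂) (q : ℕ) (A : Subring F₁) : Prop where
  unif₁ : H48.IsUnif V₁ ϖ₁
  unif₂ : H48.IsUnif V₂ ϖ₂
  map_mem : ∀ x ∈ V₁, φ x ∈ V₂
  map_unif : φ ϖ₁ = ϖ₂
  refl : ∀ x, φ x ∈ V₂ → x ∈ V₁
  prime : q.Prime
  q_mem : (q : F₂) * ϖ₂⁻¹ ∈ V₂
  le : ∀ a ∈ A, a ∈ V₁
  normal : ∀ f ∈ V₁, (∃ (n : ℕ) (c : Fin n → F₁), (∀ i, c i ∈ A) ∧
      (f ^ n + ∑ i : Fin n, c i * f ^ (i : ℕ)) * ϖ₁⁻¹ ∈ V₁) → ∃ b ∈ A, (f - b) * ϖ₁⁻¹ ∈ V₁

namespace SideData

variable {V₁ : ValuationSubring F₁} {V₂ : ValuationSubring F₂} {ϖ₁ : F₁} {ϖ₂ : F₂}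
  {φ : F₁ →+* F₂} {q : ℕ} {A : Subring F₁}

/-- The inclusion `A → V₁`. -/
def incl (h : SideData V₁ V₂ ϖ₁ ϖ₂ φ q A) : A →+* V₁ :=
  (A.subtype).codRestrict V₁ (fun a => h.le a a.2)

theorem coe_incl (h : SideData V₁ V₂ ϖ₁ ϖ₂ φ q A) (a : A) : ((h.incl a : V₁) : F₁) = a := rfl

/-- The reduction of `φ`. -/
def red (h : SideData V₁ V₂ ϖ₁ ϖ₂ φ q A) : V₁ →+* IsLocalRing.ResidueField V₂ :=
  resHom V₁ V₂ φ h.map_mem

theorem red_eq_zero_iff (h : SideData V₁ V₂ ϖ₁ ϖ₂ φ q A) (x : V₁) :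
    h.red x = 0 ↔ (x : F₁) * ϖ₁⁻¹ ∈ V₁ := by
  rw [red, resHom_apply, residue_eq_zero_iff h.unif₂]
  have e : φ ((x : F₁) * ϖ₁⁻¹) = φ x * ϖ₂⁻¹ := by rw [map_mul, map_inv₀, h.map_unif]
  constructor
  · intro hx
    exact h.refl _ (by rw [e]; exact hx)
  · intro hx
    have := h.map_mem _ hx
    rwa [e] at this

theorem red_eq_iff (h : SideData V₁ V₂ ϖ₁ ϖ₂ φ q A) (x y : V₁) :
    h.red x = h.red y ↔ ((x : F₁) - y) * ϖ₁⁻¹ ∈ V₁ := by
  rw [← sub_eq_zero, ← map_sub, h.red_eq_zero_iff]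
  rfl

theorem charP (h : SideData V₁ V₂ ϖ₁ ϖ₂ φ q A) : CharP (IsLocalRing.ResidueField V₂) q := by
  rw [CharP.charP_iff_prime_eq_zero h.prime]
  have h1 : ((q : ℕ) : IsLocalRing.ResidueField V₂) = IsLocalRing.residue V₂ ((q : ℕ) : V₂) :=
    (map_natCast (IsLocalRing.residue V₂) q).symm
  rw [h1, residue_eq_zero_iff h.unif₂]
  exact h.q_mem

/-- `GoodRedAt.normal` in residue form. -/
theorem normal_red (h : SideData V₁ V₂ ϖ₁ ϖ₂ φ q A) (s : V₁)
    (hs : (h.red.comp h.incl).IsIntegralElem (h.red s)) : ∃ a : A, h.red s = h.red (h.incl a) := by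
  obtain ⟨p, hp, hps⟩ := hs
  have h0 : h.red (p.eval₂ h.incl s) = 0 := by
    rw [Polynomial.hom_eval₂]
    exact hps
  rw [h.red_eq_zero_iff] at h0
  -- the explicit monic relation
  have hsum : ((p.eval₂ h.incl s : V₁) : F₁) =
      (s : F₁) ^ p.natDegree + ∑ i : Fin p.natDegree, ((p.coeff i : A) : F₁) * (s : F₁) ^ (i : ℕ) := by
    have h1 : ((p.eval₂ h.incl s : V₁) : F₁) = p.eval₂ (A.subtype) (s : F₁) := by
      have := Polynomial.hom_eval₂ p h.incl V₁.subtype s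
      exact this
    rw [h1]
    conv_lhs => rw [hp.as_sum]
    rw [Polynomial.eval₂_add, Polynomial.eval₂_pow, Polynomial.eval₂_X, Polynomial.eval₂_finsetSum,
      Finset.sum_range]
    congr 1
    refine Finset.sum_congr rfl (fun i _ => ?_)
    rw [Polynomial.eval₂_mul, Polynomial.eval₂_C, Polynomial.eval₂_pow, Polynomial.eval₂_X]
    rfl
  rw [hsum] at h0
  obtain ⟨b, hb, hsb⟩ := h.normal s s.2 ⟨p.natDegree, fun i => ((p.coeff i : A) : F₁),
    fun i => (p.coeff i).2, h0⟩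
  refine ⟨⟨b, hb⟩, ?_⟩
  rw [h.red_eq_iff]
  exact hsb

/-- **Kronecker congruence inside the chart.** -/
theorem cong (h : SideData V₁ V₂ ϖ₁ ϖ₂ φ q A) (ψ : F₁ →+* F₂) (hψ : ∀ x ∈ V₁, ψ x ∈ V₂)
    (hK : ∀ a ∈ V₁, ∃ a' ∈ V₁, (ψ a - (φ a') ^ q) * ϖ₂⁻¹ ∈ V₂)
    {R : Type*} [CommRing R] (c : R →+* F₁) (y : F₁)
    (hA : ∀ a ∈ A, (Polynomial.eval₂RingHom c y).IsIntegralElem a)
    (hcA : ∀ r, c r ∈ A) (hyA : y ∈ A)
    (hc : ∀ r, ψ (c r) = φ (c r)) (hy : (ψ y - (φ y) ^ q) * ϖ₂⁻¹ ∈ V₂) :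
    ∀ a ∈ A, ∃ a' ∈ A, (ψ a - (φ a') ^ q) * ϖ₂⁻¹ ∈ V₂ := by
  haveI : Fact q.Prime := ⟨h.prime⟩
  haveI := h.charP
  haveI : ExpChar (IsLocalRing.ResidueField V₂) q := ExpChar.prime h.prime
  set g : V₁ →+* IsLocalRing.ResidueField V₂ := resHom V₁ V₂ ψ hψ with hg
  set cA : R →+* A := c.codRestrict A hcA with hcA'
  set yA : A := ⟨y, hyA⟩ with hyA'
  have hcomp : (A.subtype).comp (Polynomial.eval₂RingHom cA yA) = Polynomial.eval₂RingHom c y := by
    apply Polynomial.ringHom_ext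
    · intro r
      simp [cA]
    · simp [yA]
  have key : ∀ x y' : V₁, g x = (h.red y') ^ q ↔ (ψ x - (φ y') ^ q) * ϖ₂⁻¹ ∈ V₂ := by
    intro x y'
    rw [hg, red, resHom_apply, resHom_apply, ← map_pow, residue_eq_iff h.unif₂]
    rfl
  have main := exists_eq_pow_of_normal q h.red g h.incl h.normal_red
    (fun s => by
      obtain ⟨a', ha', haa'⟩ := hK s s.2
      exact ⟨⟨a', ha'⟩, (key s ⟨a', ha'⟩).mpr haa'⟩)
    cA yA
    (fun a => by
      obtain ⟨p, hp, hpa⟩ := hA a a.2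
      refine ⟨p, hp, Subtype.ext ?_⟩
      have := Polynomial.hom_eval₂ p (Polynomial.eval₂RingHom cA yA) A.subtype a
      rw [hcomp] at this
      rw [ZeroMemClass.coe_zero, ← hpa]
      exact this)
    (fun r => by
      rw [hg, red, resHom_apply, resHom_apply]
      congr 1
      exact Subtype.ext (hc r))
    ((key _ _).mpr hy)
  intro a ha
  obtain ⟨a', ha'⟩ := main ⟨a, ha⟩
  exact ⟨a', a'.2, (key _ _).mp ha'⟩

/-- **Residue degree one on the chart.** -/
theorem surj (h : SideData V₁ V₂ ϖ₁ ϖ₂ φ q A)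
    (hres : ∀ b ∈ V₂, ∃ s ∈ V₁, (b - φ s) * ϖ₂⁻¹ ∈ V₂)
    {R : Type*} [CommRing R] (c : R →+* F₂) (y : F₂)
    (hcV : ∀ r, c r ∈ V₂) (hyV : y ∈ V₂)
    (hc : ∀ r, ∃ a ∈ A, (c r - φ a) * ϖ₂⁻¹ ∈ V₂) (hy : ∃ a ∈ A, (y - φ a) * ϖ₂⁻¹ ∈ V₂) :
    ∀ b : F₂, (Polynomial.eval₂RingHom c y).IsIntegralElem b →
      b ∈ V₂ ∧ ∃ a ∈ A, (b - φ a) * ϖ₂⁻¹ ∈ V₂ := by
  set cV : R →+* V₂ := c.codRestrict V₂ hcV with hcV'
  set yV : V₂ := ⟨y, hyV⟩ with hyV'
  have hcomp : (V₂.subtype).comp (Polynomial.eval₂RingHom cV yV) = Polynomial.eval₂RingHom c y := by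
    apply Polynomial.ringHom_ext
    · intro r
      simp [cV]
    · simp [yV]
  -- the integral closure of `R[y]` in `V₂`
  have hmemV : ∀ b : F₂, (Polynomial.eval₂RingHom c y).IsIntegralElem b → b ∈ V₂ := by
    intro b hb
    have hint : IsIntegral V₂ b := by
      obtain ⟨p, hp, hpb⟩ := hb
      refine ⟨p.map (Polynomial.eval₂RingHom cV yV), hp.map _, ?_⟩
      rw [Polynomial.eval₂_map]
      have : (algebraMap V₂ F₂).comp (Polynomial.eval₂RingHom cV yV) =
          Polynomial.eval₂RingHom c y := hcomp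
      rw [this]
      exact hpb
    obtain ⟨v, hv⟩ := (IsIntegrallyClosed.isIntegral_iff (R := V₂) (K := F₂)).mp hint
    rw [← hv]
    exact v.2
  have key : ∀ (x : V₂) (a : V₁), IsLocalRing.residue V₂ x = h.red a ↔
      ((x : F₂) - φ a) * ϖ₂⁻¹ ∈ V₂ := by
    intro x a
    rw [red, resHom_apply, residue_eq_iff h.unif₂]
  have main := exists_eq_of_normal h.red h.incl h.normal_red (IsLocalRing.residue V₂)
    (fun b => by
      obtain ⟨s, hs, hbs⟩ := hres b b.2
      exact ⟨⟨s, hs⟩, (key b ⟨s, hs⟩).mpr hbs⟩)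
    cV yV
    (fun r => by
      obtain ⟨a, ha, hra⟩ := hc r
      exact ⟨⟨a, ha⟩, (key (cV r) (h.incl ⟨a, ha⟩)).mpr hra⟩)
    (by
      obtain ⟨a, ha, hya⟩ := hy
      exact ⟨⟨a, ha⟩, (key yV (h.incl ⟨a, ha⟩)).mpr hya⟩)
  intro b hb
  have hbV := hmemV b hb
  refine ⟨hbV, ?_⟩
  have hb' : (Polynomial.eval₂RingHom cV yV).IsIntegralElem (⟨b, hbV⟩ : V₂) := by
    obtain ⟨p, hp, hpb⟩ := hb
    refine ⟨p, hp, Subtype.ext ?_⟩
    have := Polynomial.hom_eval₂ p (Polynomial.eval₂RingHom cV yV) V₂.subtype ⟨b, hbV⟩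
    rw [hcomp] at this
    rw [ZeroMemClass.coe_zero, ← hpb]
    exact this
  obtain ⟨a, ha⟩ := main ⟨b, hbV⟩ hb'
  exact ⟨a, a.2, (key ⟨b, hbV⟩ (h.incl a)).mp ha⟩

end SideData

end Side

end Fermat.Agent.A2.Mod.H372

end
end
-- ===== PACK-END A2/Mod/H372/Side.lean

-- ===== PACK-BEGIN Lib/Haupt/Level.lean
section






/-!
# Level raising `f(τ) ↦ f(dτ)` for level-one modular forms (helper637)

* `res d f` : a level-one form viewed on `Γ₀(d)`;
* `lev d f` : `τ ↦ f (d τ)` as a modular form on `Γ₀(d)`;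
* `qExpansion_lev` : its `q`-expansion is `PowerSeries.expand d` of the `q`-expansion of `f`.
-/

set_option autoImplicit false

open UpperHalfPlane ModularForm CongruenceSubgroup MatrixGroups
open Matrix.SpecialLinearGroup Filter Topology
open scoped Manifold

noncomputable section

namespace Fermat.Agent.Lib.Haupt

open Fermat.Agent.S20.F658

local notation "𝕢" => Function.Periodic.qParam

/-- `Γ₀(d)` as a subgroup of `GL(2, ℝ)`. -/
abbrev G0 (d : ℕ) : Subgroup (GL (Fin 2) ℝ) := (Gamma0 d : Subgroup (GL (Fin 2) ℝ))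

theorem G0_le_SL (d : ℕ) : G0 d ≤ 𝒮ℒ := by
  rintro _ ⟨A, -, rfl⟩
  exact ⟨A, rfl⟩

theorem one_mem_strictPeriods_G0 (d : ℕ) : (1 : ℝ) ∈ (G0 d).strictPeriods :=
  CongruenceSubgroup.one_mem_strictPeriods_Gamma0 d

/-- A level-one modular form, viewed as a modular form on `Γ₀(d)`. -/
def res (d : ℕ) {k : ℤ} (f : ModularForm 𝒮ℒ k) : ModularForm (G0 d) k where
  toFun := f
  slash_action_eq' γ hγ := f.slash_action_eq' γ (G0_le_SL d hγ)
  holo' := f.holo'
  bdd_at_cusps' hc := f.bdd_at_cusps' (hc.mono (G0_le_SL d))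

@[simp] theorem coe_res (d : ℕ) {k : ℤ} (f : ModularForm 𝒮ℒ k) : (res d f : ℍ → ℂ) = f := rfl

open ConjAct Pointwise in
/-- `f ∣[k] diag(d, 1)` as a modular form on `Γ₀(d)`. -/
def levRaw (d : ℕ) [NeZero d] {k : ℤ} (f : ModularForm 𝒮ℒ k) : ModularForm (G0 d) k where
  toFun := (f : ℍ → ℂ) ∣[k] gN d
  slash_action_eq' γ hγ :=
    (ModularForm.translate f (gN d)).slash_action_eq' γ (Gamma0_le_conj d hγ)
  holo' := (ModularForm.translate f (gN d)).holo'
  bdd_at_cusps' hc :=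
    (ModularForm.translate f (gN d)).bdd_at_cusps' (hc.mono (Gamma0_le_conj d))

theorem coe_levRaw (d : ℕ) [NeZero d] {k : ℤ} (f : ModularForm 𝒮ℒ k) :
    (levRaw d f : ℍ → ℂ) = (f : ℍ → ℂ) ∣[k] gN d := rfl

theorem gN_det_pos (d : ℕ) [NeZero d] : 0 < (gN d).det.val := by
  rw [gN_det]
  exact_mod_cast Nat.pos_of_ne_zero (NeZero.ne d)

theorem denom_gN (d : ℕ) [NeZero d] (τ : ℍ) : denom (gN d) τ = 1 := by
  simp [denom, gN_val]

theorem coe_gN_smul (d : ℕ) [NeZero d] (τ : ℍ) : ((gN d • τ : ℍ) : ℂ) = d * (τ : ℂ) := by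
  rw [UpperHalfPlane.coe_smul_of_det_pos (gN_det_pos d)]
  simp [num, denom, gN_val]

theorem levRaw_apply (d : ℕ) [NeZero d] {k : ℤ} (f : ModularForm 𝒮ℒ k) (τ : ℍ) :
    levRaw d f τ = f (gN d • τ) * (d : ℂ) ^ (k - 1) := by
  show ((f : ℍ → ℂ) ∣[k] gN d) τ = _
  rw [ModularForm.slash_apply, denom_gN, one_zpow, mul_one, gN_det]
  have hσ : σ (gN d) = ContinuousAlgEquiv.refl ℝ ℂ := by
    unfold σ
    rw [if_pos (gN_det_pos d)]
  rw [hσ]
  simp

end Fermat.Agent.Lib.Haupt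

namespace Fermat.Agent.Lib.Haupt

open Fermat.Agent.S20.F658

local notation "𝕢" => Function.Periodic.qParam

/-- `τ ↦ f (d τ)` as a modular form on `Γ₀(d)`. -/
def lev (d : ℕ) [NeZero d] {k : ℤ} (f : ModularForm 𝒮ℒ k) : ModularForm (G0 d) k :=
  (((d : ℂ) ^ (k - 1))⁻¹ : ℂ) • levRaw d f

theorem lev_apply (d : ℕ) [NeZero d] {k : ℤ} (f : ModularForm 𝒮ℒ k) (τ : ℍ) :
    lev d f τ = f (gN d • τ) := by
  have hd : ((d : ℂ) ^ (k - 1)) ≠ 0 := zpow_ne_zero _ (by exact_mod_cast NeZero.ne d)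
  show (((d : ℂ) ^ (k - 1))⁻¹ • levRaw d f) τ = _
  rw [smul_apply, levRaw_apply, smul_eq_mul]
  field_simp

theorem qParam_gN_smul (d : ℕ) [NeZero d] (τ : ℍ) :
    𝕢 1 ((gN d • τ : ℍ) : ℂ) = 𝕢 1 (τ : ℂ) ^ d := by
  rw [coe_gN_smul]
  unfold Function.Periodic.qParam
  rw [← Complex.exp_nat_mul]
  congr 1
  ring

theorem hasSum_lev (d : ℕ) [NeZero d] {k : ℤ} (f : ModularForm 𝒮ℒ k) (τ : ℍ) :
    HasSum (fun m : ℕ => (if d ∣ m then (qExpansion 1 f).coeff (m / d) else 0) •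
      𝕢 1 (τ : ℂ) ^ m) (lev d f τ) := by
  have hd : 0 < d := Nat.pos_of_ne_zero (NeZero.ne d)
  have h := ModularForm.hasSum_qExpansion (f := f) one_pos one_mem_strictPeriods_SL (gN d • τ)
  rw [qParam_gN_smul, ← lev_apply] at h
  have hinj : Function.Injective (fun n : ℕ => d * n) := fun a b hab =>
    Nat.eq_of_mul_eq_mul_left hd hab
  rw [← hinj.hasSum_iff]
  · have hfun : ((fun m : ℕ => (if d ∣ m then (qExpansion 1 f).coeff (m / d) else 0) •
        𝕢 1 (τ : ℂ) ^ m) ∘ fun n : ℕ => d * n)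
        = fun m : ℕ => (qExpansion 1 f).coeff m * (𝕢 1 (τ : ℂ) ^ d) ^ m := by
      funext n
      simp only [Function.comp_apply, dvd_mul_right, if_true, Nat.mul_div_cancel_left n hd,
        smul_eq_mul, pow_mul]
    rw [hfun]
    exact h
  · intro m hm
    have : ¬ d ∣ m := fun ⟨c, hc⟩ => hm ⟨c, hc.symm⟩
    simp [this]

end Fermat.Agent.Lib.Haupt

namespace Fermat.Agent.Lib.Haupt

/-- The `q`-expansion of `τ ↦ f (d τ)` is `expand d` of the `q`-expansion of `f`. -/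
theorem qExpansion_lev (d : ℕ) [NeZero d] {k : ℤ} (f : ModularForm 𝒮ℒ k) :
    qExpansion 1 (lev d f) = PowerSeries.expand d (NeZero.ne d) (qExpansion 1 f) := by
  ext m
  rw [PowerSeries.coeff_expand]
  exact (ModularFormClass.qExpansion_coeff_unique one_pos (one_mem_strictPeriods_G0 d)
    (f := lev d f) (hasSum_lev d f) m).symm

theorem qExpansion_res (d : ℕ) {k : ℤ} (f : ModularForm 𝒮ℒ k) :
    qExpansion 1 (res d f) = qExpansion 1 f := rfl

end Fermat.Agent.Lib.Haupt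

end
end
-- ===== PACK-END Lib/Haupt/Level.lean

-- ===== PACK-BEGIN Lib/Haupt/Formal.lean
section



/-!
# Truncations of the Prelude's formal `E₄` and Euler product (helper637)
-/

set_option autoImplicit false

namespace Fermat.Agent.Lib.Haupt

open PowerSeries Filter Topology
open scoped PowerSeries.WithPiTopology

/-- Computable `σ₃`. -/
def sig3 (n : ℕ) : ℤ := ((List.range (n + 1)).map fun d => if d ∣ n then (d : ℤ) ^ 3 else 0).sum

theorem sig3_eq (n : ℕ) (hn : n ≠ 0) : sig3 n = ∑ d ∈ n.divisors, (d : ℤ) ^ 3 := by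
  unfold sig3
  rw [sum_map_range, ← Finset.sum_filter]
  apply Finset.sum_congr _ (fun _ _ => rfl)
  ext d
  simp only [Finset.mem_filter, Finset.mem_range, Nat.mem_divisors]
  constructor
  · rintro ⟨_, h⟩
    exact ⟨h, hn⟩
  · rintro ⟨h, _⟩
    exact ⟨Nat.lt_succ_of_le (Nat.le_of_dvd (Nat.pos_of_ne_zero hn) h), h⟩

/-- Computable coefficients of `E₄`. -/
def e4c (n : ℕ) : ℤ := if n = 0 then 1 else 240 * sig3 n

theorem coeff_eisenstein4 (n : ℕ) : coeff n ModularCurve.eisenstein4 = e4c n := by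
  unfold e4c ModularCurve.eisenstein4
  rw [coeff_mk]
  split_ifs with h
  · rfl
  · rw [sig3_eq n h]

theorem tr_eisenstein4 (M : ℕ) : tr M ModularCurve.eisenstein4 = ofFn M e4c := by
  rw [tr_eq_ofFn]
  exact ofFn_congr fun n _ => coeff_eisenstein4 n

/-- Truncated partial Euler products. -/
def lEuler (M : ℕ) : ℕ → List ℤ
  | 0 => lone M
  | k + 1 => lsub M (lEuler M k) (lshift M (k + 1) (lEuler M k))

theorem tr_prod_range (M k : ℕ) :
    tr M (∏ n ∈ Finset.range k, (1 - X ^ (n + 1) : PowerSeries ℤ)) = lEuler M k := by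
  induction k with
  | zero => rw [Finset.prod_range_zero, tr_one]; rfl
  | succ k ih =>
    rw [Finset.prod_range_succ, mul_sub, mul_one, mul_comm, tr_sub, tr_X_pow_mul, ih]
    rfl

/-- Multiplying by `1 - X ^ (n + 1)` with `n ≥ m` does not change the `m`-th coefficient. -/
theorem coeff_mul_one_sub_X_pow (f : PowerSeries ℤ) {m n : ℕ} (h : m ≤ n) :
    coeff m (f * (1 - X ^ (n + 1))) = coeff m f := by
  rw [mul_sub, mul_one, map_sub, mul_comm, coeff_X_pow_mul', if_neg (by omega), sub_zero]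

theorem coeff_prod_of_range_subset {M : ℕ} (s : Finset ℕ) (hs : Finset.range M ⊆ s) {m : ℕ}
    (hm : m < M) :
    coeff m (∏ n ∈ s, (1 - X ^ (n + 1) : PowerSeries ℤ))
      = coeff m (∏ n ∈ Finset.range M, (1 - X ^ (n + 1) : PowerSeries ℤ)) := by
  induction s using Finset.strongInduction with
  | H s ih =>
    by_cases hsr : s = Finset.range M
    · rw [hsr]
    · obtain ⟨a, has, haM⟩ : ∃ a ∈ s, a ∉ Finset.range M := by
        by_contra hcon
        push Not at hcon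
        exact hsr (Finset.Subset.antisymm hcon hs)
      have hsub : Finset.range M ⊆ s.erase a := by
        intro x hx
        exact Finset.mem_erase.mpr ⟨fun h => haM (h ▸ hx), hs hx⟩
      rw [← Finset.mul_prod_erase s _ has, mul_comm,
        coeff_mul_one_sub_X_pow _ (by rw [Finset.mem_range] at haM; omega)]
      exact ih _ (Finset.erase_ssubset has) hsub

theorem coeff_etaProd {M m : ℕ} (hm : m < M) :
    coeff m ModularCurve.etaProd
      = coeff m (∏ n ∈ Finset.range M, (1 - X ^ (n + 1) : PowerSeries ℤ)) := by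
  have h1 : HasProd (fun n : ℕ => (1 - X ^ (n + 1) : PowerSeries ℤ)) ModularCurve.etaProd :=
    (PowerSeries.WithPiTopology.multipliable_one_sub_X_pow ℤ).hasProd
  have h2 : Tendsto (fun s : Finset ℕ => ∏ n ∈ s, (1 - X ^ (n + 1) : PowerSeries ℤ))
      atTop (𝓝 ModularCurve.etaProd) := h1
  have h3 := (PowerSeries.WithPiTopology.tendsto_iff_coeff_tendsto ℤ _ _ _).1 h2 m
  have h4 : Tendsto (fun s : Finset ℕ => coeff m (∏ n ∈ s, (1 - X ^ (n + 1) : PowerSeries ℤ)))
      atTop (𝓝 (coeff m (∏ n ∈ Finset.range M, (1 - X ^ (n + 1) : PowerSeries ℤ)))) := by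
    apply tendsto_const_nhds.congr'
    filter_upwards [eventually_ge_atTop (Finset.range M)] with s hs
    exact (coeff_prod_of_range_subset s hs hm).symm
  exact tendsto_nhds_unique h3 h4

theorem tr_etaProd (M : ℕ) : tr M ModularCurve.etaProd = lEuler M M := by
  rw [← tr_prod_range, tr_eq_ofFn, tr_eq_ofFn]
  exact ofFn_congr fun n hn => coeff_etaProd hn

end Fermat.Agent.Lib.Haupt

end
-- ===== PACK-END Lib/Haupt/Formal.lean

-- ===== PACK-BEGIN S36/H994/Chart4.lean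
section


/-!
# The level-`4` Hauptmodul in a chart (helper994, S36 cell REG, `q` odd)

Mirror of helper890's `Chart9.lean` (level `9`, `q = 2`) for the Hauptmodul `t₄` of `Γ₀(4)`
(helper878 `Haupt4.lean`).  Mathlib + `S18.H138.chart` only.  `F` a field, `R → F`,
`B = chart R S`, `j, t ∈ F` with the relation of `H878.jq_mul_t4`:

  `j · (t⁴ (t + 16)) = (t² + 256 t + 4096)³`.

* `mem_chart_of_rel4`   : `j ∈ B ⟹ t ∈ B`  (`t` is integral over `ℤ[j]`, degree `6`);
* `inv_mem_of_rel4`     : `j, t, 2⁻¹ ∈ A ⟹ t⁻¹ ∈ A`         (`t ∣ 2³⁶` in `ℤ[j, t]`);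
* `add_inv_mem_of_rel4` : `j, t, 2⁻¹ ∈ A ⟹ (t + 16)⁻¹ ∈ A`  (`t + 16 ∣ 2²⁴` in `ℤ[j, t]`);
* `g4_mem_of_rel4`, `g4_inv_mem_of_rel4`, `g4_pow_*` : `g₄ = t² (t + 16)⁵` (`= (θ t₄)⁶ / Δ`,
  helper878 `Theta4.theta_t4`) and its inverse lie in `A`: `g₄` is a unit of every chart on which
  `2` is invertible, in particular in every odd residue characteristic.
-/

set_option autoImplicit false
set_option linter.unusedSectionVars false

noncomputable section

namespace Fermat.Agent.S36.H994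

open Polynomial Fermat.Agent.S18.H138

section Chart

variable {R F : Type*} [CommRing R] [Field F] [Algebra R F]

/-- The chart is integrally closed in `F`. -/
theorem h4_mem_chart_of_isIntegral (S : Set F) {y : F}
    (h : IsIntegral (integralClosure (Algebra.adjoin R S) F) y) : y ∈ chart R S := by
  rw [mem_chart]
  exact isIntegral_trans y h

/-- The monic polynomial `(T² + 256 T + 4096)³ - c T⁴ (T + 16)` of degree `6`. -/
def poly4 {A : Type*} [CommRing A] (c : A) : Polynomial A :=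
  (X ^ 2 + C 256 * X + C 4096) ^ 3 - C c * (X ^ 4 * (X + C 16))

theorem poly4_monic {A : Type*} [CommRing A] [Nontrivial A] (c : A) : (poly4 c).Monic := by
  rw [poly4]
  monicity!

theorem eval₂_poly4 {A B : Type*} [CommRing A] [CommRing B] (f : A →+* B) (c : A) (t : B) :
    (poly4 c).eval₂ f t = (t ^ 2 + 256 * t + 4096) ^ 3 - f c * (t ^ 4 * (t + 16)) := by
  simp only [poly4, eval₂_sub, eval₂_mul, eval₂_pow, eval₂_add, eval₂_X, eval₂_C]
  simp only [map_ofNat]

/-- `t` is integral over `ℤ[j]`: `j ∈ B ⟹ t ∈ B`. -/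
theorem mem_chart_of_rel4 (S : Set F) {j t : F} (hj : j ∈ chart R S)
    (hrel : j * (t ^ 4 * (t + 16)) = (t ^ 2 + 256 * t + 4096) ^ 3) : t ∈ chart R S := by
  apply h4_mem_chart_of_isIntegral
  refine ⟨poly4 (⟨j, hj⟩ : integralClosure (Algebra.adjoin R S) F), poly4_monic _, ?_⟩
  rw [eval₂_poly4]
  show (t ^ 2 + 256 * t + 4096) ^ 3 - j * (t ^ 4 * (t + 16)) = 0
  rw [hrel, sub_self]

end Chart

/-! ## Units: generic subring form -/

section Units

variable {F : Type*} [Field F]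

/-- `t ∣ 2³⁶` in `ℤ[j, t]`. -/
theorem mul_cofactor_of_rel4 {j t : F}
    (hrel : j * (t ^ 4 * (t + 16)) = (t ^ 2 + 256 * t + 4096) ^ 3) :
    t * (j * (t ^ 3 * (t + 16))
      - (t ^ 5 + 768 * t ^ 4 + 208896 * t ^ 3 + 23068672 * t ^ 2
        + 855638016 * t + 12884901888)) = 2 ^ 36 := by
  linear_combination hrel

/-- `t + 16 ∣ 2²⁴` in `ℤ[j, t]`. -/
theorem add_mul_cofactor_of_rel4 {j t : F}
    (hrel : j * (t ^ 4 * (t + 16)) = (t ^ 2 + 256 * t + 4096) ^ 3) :
    (t + 16) * (j * t ^ 4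
      - ((t + 16) ^ 5 + 672 * (t + 16) ^ 4 + 151296 * (t + 16) ^ 3
        + 11583488 * (t + 16) ^ 2 + 38731776 * (t + 16) + 44040192)) = 2 ^ 24 := by
  linear_combination hrel

variable [CharZero F]

theorem h4_two_pow_ne_zero (n : ℕ) : (2 : F) ^ n ≠ 0 := pow_ne_zero n (by norm_num)

/-- `t ≠ 0`. -/
theorem ne_zero_of_rel4 {j t : F}
    (hrel : j * (t ^ 4 * (t + 16)) = (t ^ 2 + 256 * t + 4096) ^ 3) : t ≠ 0 := by
  have hc := mul_cofactor_of_rel4 hrel
  rintro rfl
  rw [zero_mul] at hc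
  exact h4_two_pow_ne_zero (F := F) 36 hc.symm

/-- `t + 16 ≠ 0`. -/
theorem add_ne_zero_of_rel4 {j t : F}
    (hrel : j * (t ^ 4 * (t + 16)) = (t ^ 2 + 256 * t + 4096) ^ 3) : t + 16 ≠ 0 := by
  have hc := add_mul_cofactor_of_rel4 hrel
  intro h
  rw [h, zero_mul] at hc
  exact h4_two_pow_ne_zero (F := F) 24 hc.symm

/-- `t⁻¹ ∈ A` for every subring `A ∋ j, t, 2⁻¹`. -/
theorem inv_mem_of_rel4 {A : Type*} [SetLike A F] [SubringClass A F] (B : A) {j t : F}
    (hj : j ∈ B) (ht : t ∈ B) (h2 : (2 : F)⁻¹ ∈ B)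
    (hrel : j * (t ^ 4 * (t + 16)) = (t ^ 2 + 256 * t + 4096) ^ 3) : t⁻¹ ∈ B := by
  have hc := mul_cofactor_of_rel4 hrel
  have h36 : (2 : F) ^ 36 ≠ 0 := h4_two_pow_ne_zero 36
  have ht0 : t ≠ 0 := ne_zero_of_rel4 hrel
  have e : t⁻¹ = (j * (t ^ 3 * (t + 16))
      - (t ^ 5 + 768 * t ^ 4 + 208896 * t ^ 3 + 23068672 * t ^ 2
        + 855638016 * t + 12884901888)) * (2 : F)⁻¹ ^ 36 := by
    rw [inv_pow, eq_mul_inv_iff_mul_eq₀ h36, ← hc, ← mul_assoc, inv_mul_cancel₀ ht0, one_mul]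
  rw [e]
  have hn : ∀ n : ℕ, (n : F) ∈ B := fun n => natCast_mem B n
  have h16 : t + 16 ∈ B := add_mem ht (by exact_mod_cast hn 16)
  refine mul_mem (sub_mem (mul_mem hj (mul_mem (pow_mem ht 3) h16)) ?_) (pow_mem h2 36)
  refine add_mem (add_mem (add_mem (add_mem (add_mem (pow_mem ht 5) ?_) ?_) ?_) ?_) ?_
  · exact mul_mem (by exact_mod_cast hn 768) (pow_mem ht 4)
  · exact mul_mem (by exact_mod_cast hn 208896) (pow_mem ht 3)
  · exact mul_mem (by exact_mod_cast hn 23068672) (pow_mem ht 2)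
  · exact mul_mem (by exact_mod_cast hn 855638016) ht
  · exact_mod_cast hn 12884901888

/-- `(t + 16)⁻¹ ∈ A` for every subring `A ∋ j, t, 2⁻¹`. -/
theorem add_inv_mem_of_rel4 {A : Type*} [SetLike A F] [SubringClass A F] (B : A) {j t : F}
    (hj : j ∈ B) (ht : t ∈ B) (h2 : (2 : F)⁻¹ ∈ B)
    (hrel : j * (t ^ 4 * (t + 16)) = (t ^ 2 + 256 * t + 4096) ^ 3) : (t + 16)⁻¹ ∈ B := by
  have hc := add_mul_cofactor_of_rel4 hrel
  have h24 : (2 : F) ^ 24 ≠ 0 := h4_two_pow_ne_zero 24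
  have hs0 : t + 16 ≠ 0 := add_ne_zero_of_rel4 hrel
  have e : (t + 16)⁻¹ = (j * t ^ 4
      - ((t + 16) ^ 5 + 672 * (t + 16) ^ 4 + 151296 * (t + 16) ^ 3
        + 11583488 * (t + 16) ^ 2 + 38731776 * (t + 16) + 44040192)) * (2 : F)⁻¹ ^ 24 := by
    rw [inv_pow, eq_mul_inv_iff_mul_eq₀ h24, ← hc, ← mul_assoc, inv_mul_cancel₀ hs0, one_mul]
  rw [e]
  have hn : ∀ n : ℕ, (n : F) ∈ B := fun n => natCast_mem B n
  have h16 : t + 16 ∈ B := add_mem ht (by exact_mod_cast hn 16)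
  refine mul_mem (sub_mem (mul_mem hj (pow_mem ht 4)) ?_) (pow_mem h2 24)
  refine add_mem (add_mem (add_mem (add_mem (add_mem (pow_mem h16 5) ?_) ?_) ?_) ?_) ?_
  · exact mul_mem (by exact_mod_cast hn 672) (pow_mem h16 4)
  · exact mul_mem (by exact_mod_cast hn 151296) (pow_mem h16 3)
  · exact mul_mem (by exact_mod_cast hn 11583488) (pow_mem h16 2)
  · exact mul_mem (by exact_mod_cast hn 38731776) h16
  · exact_mod_cast hn 44040192

/-- `g₄ = t² (t + 16)⁵ ∈ A`. -/
theorem g4_mem_of_mem {A : Type*} [SetLike A F] [SubringClass A F] (B : A) {t : F}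
    (ht : t ∈ B) : t ^ 2 * (t + 16) ^ 5 ∈ B := by
  have hn : ∀ n : ℕ, (n : F) ∈ B := fun n => natCast_mem B n
  have h16 : t + 16 ∈ B := add_mem ht (by exact_mod_cast hn 16)
  exact mul_mem (pow_mem ht 2) (pow_mem h16 5)

/-- `g₄⁻¹ = (t⁻¹)² ((t + 16)⁻¹)⁵ ∈ A`. -/
theorem g4_inv_mem_of_rel4 {A : Type*} [SetLike A F] [SubringClass A F] (B : A) {j t : F}
    (hj : j ∈ B) (ht : t ∈ B) (h2 : (2 : F)⁻¹ ∈ B)
    (hrel : j * (t ^ 4 * (t + 16)) = (t ^ 2 + 256 * t + 4096) ^ 3) :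
    (t ^ 2 * (t + 16) ^ 5)⁻¹ ∈ B := by
  rw [mul_inv, ← inv_pow, ← inv_pow]
  exact mul_mem (pow_mem (inv_mem_of_rel4 B hj ht h2 hrel) 2)
    (pow_mem (add_inv_mem_of_rel4 B hj ht h2 hrel) 5)

/-- `(g₄ ^ k)⁻¹ ∈ A`. -/
theorem g4_pow_inv_mem_of_rel4 {A : Type*} [SetLike A F] [SubringClass A F] (B : A) {j t : F}
    (hj : j ∈ B) (ht : t ∈ B) (h2 : (2 : F)⁻¹ ∈ B)
    (hrel : j * (t ^ 4 * (t + 16)) = (t ^ 2 + 256 * t + 4096) ^ 3) (k : ℕ) :
    ((t ^ 2 * (t + 16) ^ 5) ^ k)⁻¹ ∈ B := by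
  rw [← inv_pow]
  exact pow_mem (g4_inv_mem_of_rel4 B hj ht h2 hrel) k

/-- `g₄ ≠ 0`. -/
theorem g4_ne_zero_of_rel4 {j t : F}
    (hrel : j * (t ^ 4 * (t + 16)) = (t ^ 2 + 256 * t + 4096) ^ 3) :
    t ^ 2 * (t + 16) ^ 5 ≠ 0 :=
  mul_ne_zero (pow_ne_zero 2 (ne_zero_of_rel4 hrel)) (pow_ne_zero 5 (add_ne_zero_of_rel4 hrel))

end Units

/-! ## Valuation form: `t`, `t + 16` are units of every valuation ring containing `j`, `2⁻¹`
in which `t` is integral -/

section Val

variable {F : Type*} [Field F] [CharZero F]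

/-- In a valuation subring `V ∋ j, 2⁻¹`, the relation forces `t ∈ V` (integrality). -/
theorem mem_valuationSubring_of_rel4 (V : ValuationSubring F) {j t : F} (hj : j ∈ V)
    (hrel : j * (t ^ 4 * (t + 16)) = (t ^ 2 + 256 * t + 4096) ^ 3) : t ∈ V := by
  have hint : IsIntegral V t := by
    refine ⟨poly4 (⟨j, hj⟩ : V), poly4_monic _, ?_⟩
    rw [eval₂_poly4]
    show (t ^ 2 + 256 * t + 4096) ^ 3 - j * (t ^ 4 * (t + 16)) = 0
    rw [hrel, sub_self]
  obtain ⟨v, hv⟩ := (IsIntegrallyClosed.isIntegral_iff (R := V) (K := F)).mp hint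
  rw [← hv]
  exact v.2

/-- `v(t) = 1` in every valuation subring `V ∋ j, 2⁻¹`. -/
theorem valuation_eq_one_of_rel4 (V : ValuationSubring F) {j t : F} (hj : j ∈ V)
    (h2 : (2 : F)⁻¹ ∈ V)
    (hrel : j * (t ^ 4 * (t + 16)) = (t ^ 2 + 256 * t + 4096) ^ 3) : V.valuation t = 1 := by
  have ht := mem_valuationSubring_of_rel4 V hj hrel
  have hti := inv_mem_of_rel4 V hj ht h2 hrel
  have ht0 := ne_zero_of_rel4 hrel
  refine le_antisymm ((V.valuation_le_one_iff _).2 ht) ?_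
  have h1 : V.valuation t⁻¹ ≤ 1 := (V.valuation_le_one_iff _).2 hti
  rw [map_inv₀] at h1
  exact (inv_le_one₀ (by rw [zero_lt_iff]; exact (_root_.map_ne_zero _).2 ht0)).1 h1

/-- `v(t + 16) = 1` in every valuation subring `V ∋ j, 2⁻¹`. -/
theorem valuation_add_eq_one_of_rel4 (V : ValuationSubring F) {j t : F} (hj : j ∈ V)
    (h2 : (2 : F)⁻¹ ∈ V)
    (hrel : j * (t ^ 4 * (t + 16)) = (t ^ 2 + 256 * t + 4096) ^ 3) :
    V.valuation (t + 16) = 1 := by
  have ht := mem_valuationSubring_of_rel4 V hj hrel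
  have hti := add_inv_mem_of_rel4 V hj ht h2 hrel
  have ht0 := add_ne_zero_of_rel4 hrel
  have h16 : t + 16 ∈ V := add_mem ht (ofNat_mem V 16)
  refine le_antisymm ((V.valuation_le_one_iff _).2 h16) ?_
  have h1 : V.valuation (t + 16)⁻¹ ≤ 1 := (V.valuation_le_one_iff _).2 hti
  rw [map_inv₀] at h1
  exact (inv_le_one₀ (by rw [zero_lt_iff]; exact (_root_.map_ne_zero _).2 ht0)).1 h1

end Val

end Fermat.Agent.S36.H994

end
end
-- ===== PACK-END S36/H994/Chart4.lean

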