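import Mathlib
import Fermat.Prelude.Def_ModularCurve_ReductionModL
import Fermat.Prelude.Def_ModularCurve_X0ModL
import Fermat.Prelude.Thm_CuspForm_heckeTLin_comm
import Fermat.Prelude.Thm_CuspForm_heckeTLin_heckeULin_comm
import Fermat.Prelude.Thm_CuspForm_heckeULin_comm
import Fermat.Agent.Pack.S36.E1L3
import Fermat.Agent.Pack.S36.E5L3
import Fermat.Agent.Pack.S36.E0L3
import Fermat.Agent.Pack.S36.E1L2
import Fermat.Agent.Pack.S36.E5L0
import Fermat.Agent.Pack.S36.E5L2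
import Fermat.Agent.Pack.S36.E1L1
import Fermat.Agent.Pack.S36.E5L1
import Fermat.Agent.Pack.S36.E2L2
import Fermat.Agent.Pack.S36.E6L1
import Fermat.Agent.Pack.S36.E6L2
import Fermat.Agent.Pack.S36.E6L3
import Fermat.Agent.Pack.S36.E2L3

-- ===== PACK-BEGIN S29/H201/PeriodHecke.lean
section



/-!
# S29 / P5-E2 (helper201) — Hecke equivariance of the period map

`periodMap N (T_p f) = heckeHom p (periodMap N f)` for `p ∤ N`.
-/

set_option autoImplicit false

open CongruenceSubgroup Matrix.SpecialLinearGroup UpperHalfPlane ModularCurve ModularCurve.Period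
open Filter Topology
open scoped MatrixGroups ModularForm
open P2MW.S_ModularForm_heckeT_slash_eq_self_of_mem_Gamma0.ModularForm.HeckeSlashInvariance

namespace Fermat.Agent.S29.H201

variable {N : ℕ} {p : ℕ} [Fact p.Prime]

/-- The Hecke transform of a primitive. -/
noncomputable def heckePrim (p : ℕ) [Fact p.Prime] (F : ℍ → ℂ) : ℍ → ℂ :=
  fun τ => ∑ x : OnePoint (ZMod p), F (_root_.P2MW.S_ModularForm_heckeT_slash_eq_self_of_mem_Gamma0.ModularForm.HeckeSlashInvariance.heckeRep p x • τ)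

omit [Fact p.Prime] in
theorem det_heckeRep_pos (x : OnePoint (ZMod p)) :
    0 < ((_root_.P2MW.S_ModularForm_heckeT_slash_eq_self_of_mem_Gamma0.ModularForm.HeckeSlashInvariance.heckeRep p x : GL (Fin 2) ℝ) : Matrix (Fin 2) (Fin 2) ℝ).det := by
  induction x using OnePoint.rec with
  | infty =>
    have := ModularForm.det_heckeDiagMatrix_pos p
    rwa [Matrix.GeneralLinearGroup.val_det_apply] at this
  | coe j =>
    have := ModularForm.det_heckeMatrix_pos p j.val
    rwa [Matrix.GeneralLinearGroup.val_det_apply] at this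

/-- Chain rule for the action of `g ∈ GL₂(ℝ)⁺`. -/
theorem hasDerivAt_comp_smul_GL {F f : ℍ → ℂ}
    (hF : ∀ τ : ℍ, HasDerivAt (F ∘ ofComplex) (f τ) ↑τ) (g : GL (Fin 2) ℝ)
    (hpos : 0 < (g : Matrix (Fin 2) (Fin 2) ℝ).det) (τ : ℍ) :
    HasDerivAt ((fun w : ℍ => F (g • w)) ∘ ofComplex) ((f ∣[(2 : ℤ)] g) τ) ↑τ := by
  have h_smul : HasDerivAt (fun w ↦ ↑(g • ofComplex w) : ℂ → ℂ)
      (((g : Matrix (Fin 2) (Fin 2) ℝ).det : ℂ) / denom g τ ^ 2) ↑τ :=
    (hasStrictDerivAt_smul hpos τ).hasDerivAt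
  have h_F : HasDerivAt (F ∘ ofComplex) (f (g • τ)) ↑(g • ofComplex (τ : ℂ)) := by
    rw [ofComplex_apply]
    exact hF (g • τ)
  have hcomp := h_F.comp (τ : ℂ) h_smul
  have heq : ((fun w : ℍ => F (g • w)) ∘ ofComplex)
      = (F ∘ ofComplex) ∘ (fun w ↦ ↑(g • ofComplex w) : ℂ → ℂ) := by
    funext z
    simp only [Function.comp_apply, ofComplex_apply]
  rw [heq]
  refine hcomp.congr_deriv ?_
  have hdet' : 0 < (g.det : ℝ) := by
    rwa [Matrix.GeneralLinearGroup.val_det_apply]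
  rw [ModularForm.slash_apply, UpperHalfPlane.σ, if_pos hdet']
  have hz := denom_ne_zero g τ
  simp only [ContinuousAlgEquiv.refl_apply]
  rw [show (2 : ℤ) - 1 = 1 by norm_num, zpow_one, zpow_neg, abs_of_pos hdet',
    Matrix.GeneralLinearGroup.val_det_apply]
  rw [div_eq_mul_inv, mul_assoc]
  norm_cast

theorem im_heckeRep_smul (x : OnePoint (ZMod p)) (τ : ℍ) :
    τ.im / p ≤ (_root_.P2MW.S_ModularForm_heckeT_slash_eq_self_of_mem_Gamma0.ModularForm.HeckeSlashInvariance.heckeRep p x • τ).im := by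
  have hp : p ≠ 0 := (Fact.out : p.Prime).ne_zero
  have hp1 : (1 : ℝ) ≤ p := by exact_mod_cast (Fact.out : p.Prime).one_le
  have hpos : (0 : ℝ) < p := by linarith
  have him : 0 < τ.im := τ.im_pos
  induction x using OnePoint.rec with
  | infty =>
    have h := ModularForm.coe_heckeDiagMatrix_smul hp τ
    have h2 : (_root_.P2MW.S_ModularForm_heckeT_slash_eq_self_of_mem_Gamma0.ModularForm.HeckeSlashInvariance.heckeRep p (OnePoint.infty : OnePoint (ZMod p)) • τ).im = p * τ.im := by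
      have := congrArg Complex.im h
      simpa using this
    rw [h2]
    calc τ.im / p ≤ τ.im := div_le_self him.le hp1
      _ ≤ p * τ.im := le_mul_of_one_le_left him.le hp1
  | coe j =>
    have h := ModularForm.coe_heckeMatrix_smul hp j.val τ
    have h2 : (_root_.P2MW.S_ModularForm_heckeT_slash_eq_self_of_mem_Gamma0.ModularForm.HeckeSlashInvariance.heckeRep p (j : OnePoint (ZMod p)) • τ).im = τ.im / p := by
      have := congrArg Complex.im h
      rw [UpperHalfPlane.coe_im] at this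
      show (ModularForm.heckeMatrix p j.val • τ).im = _
      rw [this, Complex.div_natCast_im, Complex.add_im, Complex.natCast_im, add_zero,
        UpperHalfPlane.coe_im]
    rw [h2]

theorem tendsto_heckeRep_smul (x : OnePoint (ZMod p)) :
    Tendsto (fun τ : ℍ => _root_.P2MW.S_ModularForm_heckeT_slash_eq_self_of_mem_Gamma0.ModularForm.HeckeSlashInvariance.heckeRep p x • τ) atImInfty atImInfty := by
  have hpos : (0 : ℝ) < p := by exact_mod_cast (Fact.out : p.Prime).pos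
  rw [atImInfty, tendsto_comap_iff]
  refine tendsto_atTop_mono (fun τ => im_heckeRep_smul x τ) ?_
  exact (tendsto_comap.atTop_div_const hpos)

theorem SL_smul_eq_mapGL_smul (γ : SL(2, ℤ)) (τ : ℍ) : γ • τ = (mapGL ℝ γ) • τ := rfl

theorem heckePrim_smul_sub (hpN : ¬ p ∣ N)
    {f : CuspForm (Gamma0 N) 2} {F : ℍ → ℂ} (hF : HasEquivariantPrimitive N f F)
    (γ : Gamma0 N) (τ : ℍ) :
    heckePrim p F ((γ : SL(2, ℤ)) • τ) - heckePrim p F τ
      = ∑ x : OnePoint (ZMod p), hF.2.2.1.period (trf hpN γ x) := by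
  have key : ∀ x : OnePoint (ZMod p), F (_root_.P2MW.S_ModularForm_heckeT_slash_eq_self_of_mem_Gamma0.ModularForm.HeckeSlashInvariance.heckeRep p x • ((γ : SL(2, ℤ)) • τ))
      = F (_root_.P2MW.S_ModularForm_heckeT_slash_eq_self_of_mem_Gamma0.ModularForm.HeckeSlashInvariance.heckeRep p (permOf γ x) • τ) + hF.2.2.1.period (trf hpN γ x) := by
    intro x
    have h1 : _root_.P2MW.S_ModularForm_heckeT_slash_eq_self_of_mem_Gamma0.ModularForm.HeckeSlashInvariance.heckeRep p x • ((γ : SL(2, ℤ)) • τ)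
        = ((trf hpN γ x : Gamma0 N) : SL(2, ℤ)) • (_root_.P2MW.S_ModularForm_heckeT_slash_eq_self_of_mem_Gamma0.ModularForm.HeckeSlashInvariance.heckeRep p (permOf γ x) • τ) := by
      rw [SL_smul_eq_mapGL_smul, SL_smul_eq_mapGL_smul, ← mul_smul, ← mul_smul, trf_spec hpN γ x]
      rfl
    rw [h1, ← hF.2.2.1.sub_eq_period (trf hpN γ x) (_root_.P2MW.S_ModularForm_heckeT_slash_eq_self_of_mem_Gamma0.ModularForm.HeckeSlashInvariance.heckeRep p (permOf γ x) • τ)]
    ring
  unfold heckePrim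
  simp only [key, Finset.sum_add_distrib]
  rw [Equiv.sum_comp (permOf γ) (fun y => F (_root_.P2MW.S_ModularForm_heckeT_slash_eq_self_of_mem_Gamma0.ModularForm.HeckeSlashInvariance.heckeRep p y • τ))]
  ring

theorem hasEquivariantPrimitive_heckePrim (hp : p.Prime) (hpN : ¬ p ∣ N)
    {f : CuspForm (Gamma0 N) 2} {F : ℍ → ℂ} (hF : HasEquivariantPrimitive N f F) :
    HasEquivariantPrimitive N (CuspForm.heckeTLin 2 hp hpN f) (heckePrim p F) := by
  refine ⟨fun τ => ?_, ?_, fun γ => ?_, fun δ => ?_⟩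
  · -- derivative
    have hsum : (heckePrim p F ∘ ofComplex)
        = fun z => ∑ x : OnePoint (ZMod p), ((fun w : ℍ => F (_root_.P2MW.S_ModularForm_heckeT_slash_eq_self_of_mem_Gamma0.ModularForm.HeckeSlashInvariance.heckeRep p x • w)) ∘ ofComplex) z := by
      funext z
      rfl
    rw [hsum, CuspForm.heckeTLin_apply_apply, heckeT_eq_sum_onePoint, Finset.sum_apply]
    exact HasDerivAt.fun_sum fun x _ =>
      hasDerivAt_comp_smul_GL hF.1 (_root_.P2MW.S_ModularForm_heckeT_slash_eq_self_of_mem_Gamma0.ModularForm.HeckeSlashInvariance.heckeRep p x) (det_heckeRep_pos x) τ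
  · -- limit `0` at `i∞`
    have h : Tendsto (fun τ : ℍ => ∑ x : OnePoint (ZMod p), F (_root_.P2MW.S_ModularForm_heckeT_slash_eq_self_of_mem_Gamma0.ModularForm.HeckeSlashInvariance.heckeRep p x • τ)) atImInfty
        (𝓝 (∑ _x : OnePoint (ZMod p), (0 : ℂ))) :=
      tendsto_finsetSum _ fun x _ => hF.2.1.comp (tendsto_heckeRep_smul x)
    rw [Finset.sum_const_zero] at h
    exact h
  · exact ⟨_, fun z => heckePrim_smul_sub hpN hF γ z⟩
  · -- limits at the cusps
    have h1 : ¬ p ∣ 1 := fun h => hp.one_lt.ne' (Nat.dvd_one.mp h)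
    have hx : ∀ x : OnePoint (ZMod p), ∃ L : ℂ,
        Tendsto (fun w : ℍ => F (_root_.P2MW.S_ModularForm_heckeT_slash_eq_self_of_mem_Gamma0.ModularForm.HeckeSlashInvariance.heckeRep p x • (δ • w))) atImInfty (𝓝 L) := by
      intro x
      obtain ⟨g', -, hg'⟩ := heckeRep_mul (N := 1) h1 δ (one_dvd _) x
      obtain ⟨L, hL⟩ := hF.2.2.2 g'
      refine ⟨L, ?_⟩
      have heq : (fun w : ℍ => F (_root_.P2MW.S_ModularForm_heckeT_slash_eq_self_of_mem_Gamma0.ModularForm.HeckeSlashInvariance.heckeRep p x • (δ • w)))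
          = (fun w : ℍ => F (g' • w)) ∘ (fun w : ℍ => _root_.P2MW.S_ModularForm_heckeT_slash_eq_self_of_mem_Gamma0.ModularForm.HeckeSlashInvariance.heckeRep p (redMatrix p δ • x) • w) := by
        funext w
        simp only [Function.comp_apply]
        rw [SL_smul_eq_mapGL_smul, SL_smul_eq_mapGL_smul, ← mul_smul, ← mul_smul, hg']
      rw [heq]
      exact hL.comp (tendsto_heckeRep_smul _)
    choose L hL using hx
    exact ⟨∑ x : OnePoint (ZMod p), L x, tendsto_finsetSum _ fun x _ => hL x⟩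

/-- **E2a**: Hecke equivariance of the period map. -/
theorem periodMap_heckeTLin (hp : p.Prime) (hpN : ¬ p ∣ N) (f : CuspForm (Gamma0 N) 2) :
    periodMap N (CuspForm.heckeTLin 2 hp hpN f) = heckeHom p hpN ℂ (periodMap N f) := by
  haveI : NeZero N := ⟨fun h => hpN (h ▸ dvd_zero p)⟩
  obtain ⟨F, hF⟩ := Fermat.Agent.S21.H381.exists_hasEquivariantPrimitive f
  refine AddMonoidHom.ext fun γ => ?_
  obtain ⟨γ, rfl⟩ : ∃ γ' : Gamma0 N, Additive.ofMul γ' = γ := ⟨Additive.toMul γ, rfl⟩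
  rw [Fermat.Agent.S21.H381.periodMap_apply (hasEquivariantPrimitive_heckePrim hp hpN hF) γ
    UpperHalfPlane.I, heckePrim_smul_sub hpN hF γ UpperHalfPlane.I, heckeHom_apply]
  refine Finset.sum_congr rfl fun x _ => ?_
  rw [Fermat.Agent.S21.H381.periodMap_apply hF (trf hpN γ x) UpperHalfPlane.I,
    hF.2.2.1.sub_eq_period]

end Fermat.Agent.S29.H201

end
-- ===== PACK-END S29/H201/PeriodHecke.lean

-- ===== PACK-BEGIN S18/H516/GaussDecomp.lean
section






/-!
# S18 / MOD (helper516): Gauss decomposition from the S28 basis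

`A` a valuation subring of a field `L ⊇ ℚ`, `π : A →+* k` any ring hom to a field `k`
such that `CoreData N k` holds (S28; true when `char k ∤ N`).

* `exists_gauss_decomp` (G4): every `f ≠ 0` in `F_L` is `c · U₁ / U₂` with `U₁, U₂ ∈ A((q))`,
  images in `F_L`, reductions in `F_k` and nonzero.  (This is `PrincipalGeneratedByIntegral`
  as a theorem, valid at every level.)
* `red_mem_of_incl_mem` (G5): `U ∈ A((q))` with image in `F_L` has reduction in `F_k`.
-/

set_option autoImplicit false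
set_option linter.unusedSectionVars false

noncomputable section

namespace Fermat.Agent.S18.H516

open ModularCurve IntermediateField Polynomial Fermat.Agent.S28

section Scale

variable {L : Type*} [Field L] (A : ValuationSubring L)

/-- Joint scaling of a finite family of polynomials over the fraction field of a valuation ring:
after division by a suitable constant all coefficients are integral and one of them is `1`. -/
theorem exists_scale {n : ℕ} (H : Fin n → L[X]) (hH : ∃ i, H i ≠ 0) :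
    ∃ (c : L) (H' : Fin n → A[X]), c ≠ 0 ∧
      (∀ i, (H' i).map A.subtype = C c⁻¹ * H i) ∧ ∃ i m, (H' i).coeff m = 1 := by
  classical
  set T : Finset (Σ _ : Fin n, ℕ) := Finset.univ.sigma (fun i => (H i).support) with hT
  have hTne : T.Nonempty := by
    obtain ⟨i, hi⟩ := hH
    obtain ⟨m, hm⟩ : (H i).support.Nonempty := by
      rw [Finset.nonempty_iff_ne_empty, Ne, Polynomial.support_eq_empty]
      exact hi
    exact ⟨⟨i, m⟩, by simp [hT, hm]⟩
  obtain ⟨⟨i0, m0⟩, h0T, hmax⟩ := Finset.exists_max_image T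
    (fun p => A.valuation ((H p.1).coeff p.2)) hTne
  have hc : (H i0).coeff m0 ≠ 0 := by
    have : m0 ∈ (H i0).support := by simpa [hT] using h0T
    exact Polynomial.mem_support_iff.mp this
  set c : L := (H i0).coeff m0 with hcdef
  have hmem : ∀ i m, c⁻¹ * (H i).coeff m ∈ A := by
    intro i m
    by_cases h0 : (H i).coeff m = 0
    · rw [h0, mul_zero]; exact zero_mem _
    · have hT' : (⟨i, m⟩ : Σ _ : Fin n, ℕ) ∈ T := by
        simp [hT, Polynomial.mem_support_iff, h0]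
      have hle := hmax ⟨i, m⟩ hT'
      rw [← A.valuation_le_one_iff, map_mul, map_inv₀]
      have hvc : A.valuation c ≠ 0 := (_root_.map_ne_zero _).mpr hc
      rw [inv_mul_le_iff₀ (zero_lt_iff.mpr hvc), mul_one]
      exact hle
  have hsub : ∀ i, (↑(C c⁻¹ * H i).coeffs : Set L) ⊆ A.toSubring := by
    intro i x hx
    rw [Finset.mem_coe, Polynomial.mem_coeffs_iff] at hx
    obtain ⟨m, -, rfl⟩ := hx
    rw [Polynomial.coeff_C_mul]
    exact hmem i m
  refine ⟨c, fun i => (C c⁻¹ * H i).toSubring A.toSubring (hsub i), hc,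
    fun i => Polynomial.map_toSubring _ A.toSubring (hsub i), i0, m0, ?_⟩
  apply Subtype.ext
  rw [Polynomial.coeff_toSubring, Polynomial.coeff_C_mul]
  show c⁻¹ * c = 1
  exact inv_mul_cancel₀ hc

end Scale

section Eval

variable {R S : Type*} [CommRing R] [CommRing S]

theorem coeffMap_C (f : R →+* S) (a : R) :
    coeffMap f (HahnSeries.C (Γ := ℤ) a) = HahnSeries.C (f a) := by
  rw [HahnSeries.C_apply, HahnSeries.C_apply, coeffMap_single]

/-- Evaluation of a polynomial at `j ∈ R((q))`. -/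
def evJ (P : R[X]) : LaurentSeries R := P.eval₂ (HahnSeries.C (Γ := ℤ) (R := R)) (jqModC R)

theorem coeffMap_evJ (f : R →+* S) (P : R[X]) : coeffMap f (evJ P) = evJ (P.map f) := by
  rw [evJ, evJ, hom_eval₂, eval₂_map, coeffMap_jqModC]
  congr 1
  ext a
  exact congrArg (fun z : LaurentSeries S => z.coeff _) (coeffMap_C f a)

theorem evJ_add (P Q : R[X]) : evJ (P + Q) = evJ P + evJ Q := eval₂_add _ _

theorem evJ_mul (P Q : R[X]) : evJ (P * Q) = evJ P * evJ Q := eval₂_mul _ _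

theorem evJ_C (a : R) : evJ (C a) = HahnSeries.C a := eval₂_C _ _

theorem evJ_zero : evJ (0 : R[X]) = 0 := eval₂_zero _ _

theorem evJ_one : evJ (1 : R[X]) = 1 := eval₂_one _ _

theorem evJ_prod {ι : Type*} (s : Finset ι) (g : ι → R[X]) :
    evJ (∏ i ∈ s, g i) = ∏ i ∈ s, evJ (g i) :=
  eval₂_finsetProd _ _ _ _

end Eval

section Field

variable (K : Type*) [Field K]

theorem aeval_eq_evJ (Q : K[X]) : aeval (jqModC K) Q = evJ Q := by
  rw [aeval_def, evJ]
  congr 1
  ext a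
  rw [algebraMap_laurentSeries_eq_single, HahnSeries.C_apply]

theorem evJ_eq_zero_iff {Q : K[X]} : evJ Q = 0 ↔ Q = 0 := by
  constructor
  · intro h
    exact Fermat.Agent.S28.H806.eq_zero_of_eval₂_C_eq_zero (jqModC K)
      (Fermat.Agent.S28.H806.jqModC_order_ne_zero K) Q h
  · rintro rfl
    exact evJ_zero

theorem evJ_mem_jField (Q : K[X]) : evJ Q ∈ jField K := by
  rw [← aeval_eq_evJ, jField, mem_adjoin_simple_iff]
  exact ⟨Q, 1, by simp⟩

theorem exists_fraction {c : LaurentSeries K} (hc : c ∈ jField K) :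
    ∃ r s : K[X], s ≠ 0 ∧ evJ s * c = evJ r := by
  rw [jField, mem_adjoin_simple_iff] at hc
  obtain ⟨r, s, rfl⟩ := hc
  by_cases hs : s = 0
  · refine ⟨0, 1, one_ne_zero, ?_⟩
    rw [hs, map_zero, div_zero, mul_zero, evJ_zero]
  · refine ⟨r, s, hs, ?_⟩
    have hs' : aeval (jqModC K) s ≠ 0 := by
      rw [aeval_eq_evJ]
      exact fun h => hs (evJ_eq_zero_iff K |>.mp h)
    rw [← aeval_eq_evJ, ← aeval_eq_evJ]
    field_simp

/-- Clearing denominators in a `K(j)`-linear combination. -/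
theorem exists_cleared {n : ℕ} (v : Fin n → LaurentSeries K) {x : LaurentSeries K}
    (hx : x ∈ Submodule.span (jField K) (Set.range v)) :
    ∃ (G : K[X]) (H : Fin n → K[X]), G ≠ 0 ∧ evJ G * x = ∑ i, evJ (H i) * v i := by
  classical
  obtain ⟨c, rfl⟩ := (Submodule.mem_span_range_iff_exists_fun (jField K)).mp hx
  have hc : ∀ i, ∃ r s : K[X], s ≠ 0 ∧ evJ s * (c i : LaurentSeries K) = evJ r :=
    fun i => exists_fraction K (c i).2
  choose r s hs hrs using hc
  refine ⟨∏ i, s i, fun i => r i * ∏ j ∈ Finset.univ.erase i, s j, ?_, ?_⟩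
  · exact Finset.prod_ne_zero_iff.mpr fun i _ => hs i
  · rw [Finset.mul_sum]
    refine Finset.sum_congr rfl fun i _ => ?_
    rw [← Finset.mul_prod_erase Finset.univ s (Finset.mem_univ i), evJ_mul, evJ_mul,
      IntermediateField.smul_def, smul_eq_mul, ← hrs i]
    ring

end Field

section Decomp

variable {L : Type*} [Field L] [Algebra ℚ L] (A : ValuationSubring L)
variable {k : Type} [Field k] (π : A →+* k) (N : ℕ) [NeZero N]

/-- Integral series: image in `F_L`, reduction in `F_k` and nonzero. -/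
def IsIntSeries (U : LaurentSeries A) : Prop :=
  coeffMap A.subtype U ∈ laurentBaseChange L (modularFunctionFieldFull N) ∧
    coeffMap π U ∈ modularFunctionFieldFullC k N ∧ coeffMap π U ≠ 0

omit [Algebra ℚ L] in
theorem incl_injective : Function.Injective (coeffMap A.subtype) := by
  intro x y hxy
  ext m
  have := congrArg (fun z : LaurentSeries L => z.coeff m) hxy
  exact this

theorem jField_le_fullC (K : Type*) [Field K] : jField K ≤ modularFunctionFieldFullC K N := by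
  rw [jField, adjoin_le_iff]
  rintro x rfl
  exact jqModC_mem_full K N

theorem C_mem_baseChange (c : L) :
    HahnSeries.C (Γ := ℤ) c ∈ laurentBaseChange L (modularFunctionFieldFull N) := by
  have := (laurentBaseChange L (modularFunctionFieldFull N)).algebraMap_mem c
  rwa [algebraMap_laurentSeries_eq_single, ← HahnSeries.C_apply] at this

/-- **(G4) Gauss decomposition.** -/
theorem exists_gauss_decomp (core : CoreData N k) {f : LaurentSeries L}
    (hf : f ∈ laurentBaseChange L (modularFunctionFieldFull N)) (hf0 : f ≠ 0) :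
    ∃ (c : L) (U₁ U₂ : LaurentSeries A), c ≠ 0 ∧ IsIntSeries A π N U₁ ∧ IsIntSeries A π N U₂ ∧
      f * coeffMap A.subtype U₂ = HahnSeries.C c * coeffMap A.subtype U₁ := by
  classical
  obtain ⟨n, y, hy, hspan, hli⟩ := core.exists_basis
  have hS : SpansQ N y := ⟨hy, hspan⟩
  have hfs := (mem_baseChange_iff_mem_spanL L hS).mp hf
  obtain ⟨G, H, hG, hGH⟩ := exists_cleared L _ hfs
  have hGne : evJ G ≠ 0 := fun h => hG ((evJ_eq_zero_iff L).mp h)
  have hH : ∃ i, H i ≠ 0 := by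
    by_contra hcon
    push Not at hcon
    have : evJ G * f = 0 := by
      rw [hGH]
      exact Finset.sum_eq_zero fun i _ => by rw [hcon i, evJ_zero, zero_mul]
    rcases mul_eq_zero.mp this with h | h
    · exact hGne h
    · exact hf0 h
  obtain ⟨g0, G', hg0, hG', i1, m1, hG1⟩ := exists_scale A (fun _ : Fin 1 => G) ⟨0, hG⟩
  obtain rfl : i1 = 0 := Subsingleton.elim _ _
  obtain ⟨h0, H', hh0, hH', i0, m0, hH1⟩ := exists_scale A H hH
  set U₂ : LaurentSeries A := evJ (G' 0) with hU₂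
  set U₁ : LaurentSeries A := ∑ i, evJ (H' i) * coeffMap (Int.castRingHom A) (y i) with hU₁
  have hU₂L : coeffMap A.subtype U₂ = HahnSeries.C g0⁻¹ * evJ G := by
    rw [hU₂, coeffMap_evJ, hG' 0, evJ_mul, evJ_C]
  have hU₁L : coeffMap A.subtype U₁ =
      HahnSeries.C h0⁻¹ * ∑ i, evJ (H i) * coeffMap (Int.castRingHom L) (y i) := by
    rw [hU₁, map_sum, Finset.mul_sum]
    refine Finset.sum_congr rfl fun i _ => ?_
    rw [map_mul, coeffMap_evJ, hH' i, evJ_mul, evJ_C, coeffMap_coeffMap,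
      show (A.subtype.comp (Int.castRingHom A)) = Int.castRingHom L from RingHom.ext_int _ _]
    ring
  have hU₁k : coeffMap π U₁ =
      ∑ i, evJ ((H' i).map π) * coeffMap (Int.castRingHom k) (y i) := by
    rw [hU₁, map_sum]
    refine Finset.sum_congr rfl fun i _ => ?_
    rw [map_mul, coeffMap_evJ, coeffMap_coeffMap,
      show (π.comp (Int.castRingHom A)) = Int.castRingHom k from RingHom.ext_int _ _]
  have hU₂k : coeffMap π U₂ = evJ ((G' 0).map π) := by
    rw [hU₂, coeffMap_evJ]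
  refine ⟨h0 * g0⁻¹, U₁, U₂, mul_ne_zero hh0 (inv_ne_zero hg0), ⟨?_, ?_, ?_⟩, ⟨?_, ?_, ?_⟩, ?_⟩
  · rw [hU₁L, ← hGH]
    exact mul_mem (C_mem_baseChange N _)
      (mul_mem (jField_le_baseChange L (evJ_mem_jField L G)) hf)
  · rw [hU₁k]
    refine sum_mem fun i _ => mul_mem (jField_le_fullC N k (evJ_mem_jField k _)) ?_
    exact coeffMap_mem_of_mem_closure N (hy i)
  · rw [hU₁k]
    intro h0'
    have hli' := Fintype.linearIndependent_iff.mp hli
      (fun i => (⟨evJ ((H' i).map π), evJ_mem_jField k _⟩ : jField k)) h0' i0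
    have h1 : evJ ((H' i0).map π) = 0 := congrArg Subtype.val hli'
    have h2 := (evJ_eq_zero_iff k).mp h1
    have h3 := congrArg (fun P : k[X] => P.coeff m0) h2
    simp only [Polynomial.coeff_map, Polynomial.coeff_zero, hH1, map_one] at h3
    exact one_ne_zero h3
  · rw [hU₂L]
    exact mul_mem (C_mem_baseChange N _) (jField_le_baseChange L (evJ_mem_jField L G))
  · rw [hU₂k]
    exact jField_le_fullC N k (evJ_mem_jField k _)
  · rw [hU₂k]
    intro h1
    have h2 := (evJ_eq_zero_iff k).mp h1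
    have h3 := congrArg (fun P : k[X] => P.coeff m1) h2
    simp only [Polynomial.coeff_map, Polynomial.coeff_zero, hG1, map_one] at h3
    exact one_ne_zero h3
  · rw [hU₂L, hU₁L, ← hGH, map_mul]
    have hC : HahnSeries.C (Γ := ℤ) h0 * HahnSeries.C h0⁻¹ = 1 := by
      rw [← map_mul, mul_inv_cancel₀ hh0, map_one]
    calc f * (HahnSeries.C g0⁻¹ * evJ G)
        = (HahnSeries.C (Γ := ℤ) h0 * HahnSeries.C h0⁻¹) * (HahnSeries.C g0⁻¹ * (evJ G * f)) := by
          rw [hC]; ring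
      _ = HahnSeries.C h0 * HahnSeries.C g0⁻¹ * (HahnSeries.C h0⁻¹ * (evJ G * f)) := by ring

theorem C_mem_fullC (K : Type*) [Field K] (c : K) :
    HahnSeries.C (Γ := ℤ) c ∈ modularFunctionFieldFullC K N := by
  have := (modularFunctionFieldFullC K N).algebraMap_mem c
  rwa [algebraMap_laurentSeries_eq_single, ← HahnSeries.C_apply] at this

/-- **(G5)** A series with coefficients in `A` lying in `F_L` reduces into `F_k`. -/
theorem red_mem_of_incl_mem (core : CoreData N k) {U : LaurentSeries A}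
    (hU : coeffMap A.subtype U ∈ laurentBaseChange L (modularFunctionFieldFull N)) :
    coeffMap π U ∈ modularFunctionFieldFullC k N := by
  by_cases hU0 : U = 0
  · rw [hU0, map_zero]; exact zero_mem _
  have hU0' : coeffMap A.subtype U ≠ 0 := fun h => hU0 (incl_injective A (by rw [h, map_zero]))
  obtain ⟨c, U₁, U₂, hc, h₁, h₂, heq⟩ := exists_gauss_decomp A π N core hU hU0'
  rcases A.mem_or_inv_mem c with hcA | hcA
  · have h1 : U * U₂ = HahnSeries.C ⟨c, hcA⟩ * U₁ := by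
      apply incl_injective A
      rw [map_mul, map_mul, coeffMap_C, heq]
      rfl
    have hk := congrArg (coeffMap π) h1
    rw [map_mul, map_mul, coeffMap_C] at hk
    have h2 : coeffMap π U =
        HahnSeries.C (π ⟨c, hcA⟩) * coeffMap π U₁ * (coeffMap π U₂)⁻¹ := by
      rw [← hk, mul_assoc, mul_inv_cancel₀ h₂.2.2, mul_one]
    rw [h2]
    exact mul_mem (mul_mem (C_mem_fullC N k _) h₁.2.1) (inv_mem h₂.2.1)
  · have h1 : HahnSeries.C ⟨c⁻¹, hcA⟩ * (U * U₂) = U₁ := by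
      apply incl_injective A
      rw [map_mul, map_mul, coeffMap_C, heq]
      show HahnSeries.C c⁻¹ * (HahnSeries.C c * _) = _
      rw [← mul_assoc, ← map_mul, inv_mul_cancel₀ hc, map_one, one_mul]
    have hk := congrArg (coeffMap π) h1
    rw [map_mul, map_mul, coeffMap_C] at hk
    have hne : HahnSeries.C (Γ := ℤ) (π ⟨c⁻¹, hcA⟩) ≠ 0 := by
      intro h0
      rw [h0, zero_mul] at hk
      exact h₁.2.2 hk.symm
    have h2 : coeffMap π U =
        (HahnSeries.C (Γ := ℤ) (π ⟨c⁻¹, hcA⟩))⁻¹ * coeffMap π U₁ * (coeffMap π U₂)⁻¹ := by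
      rw [← hk, ← mul_assoc, inv_mul_cancel₀ hne, one_mul, mul_assoc,
        mul_inv_cancel₀ h₂.2.2, mul_one]
    rw [h2]
    exact mul_mem (mul_mem (inv_mem (C_mem_fullC N k _)) h₁.2.1) (inv_mem h₂.2.1)

end Decomp

end Fermat.Agent.S18.H516

end
end
-- ===== PACK-END S18/H516/GaussDecomp.lean

-- ===== PACK-BEGIN S28/H326/Pairs.lean
section
/-
S28 / helper326: the conjugate families `w i` (of the modular unit `p¹² Δ(q^p)/Δ(q)`),
`Y i`, and `y i` (of `j(q^p)`), `i ∈ P¹(𝔽_p) = Option (Fin p)`, as Laurent series over `ℂ`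
in `t = q^(1/p)`; their mixed power sums in terms of the integer Hecke series.
-/





set_option autoImplicit false
set_option linter.unusedSectionVars false

noncomputable section

namespace Fermat.Agent.S28.H326

open ModularCurve HahnSeries

/-! ### Integer data -/

/-- formal `Δ = q ∏ (1 - qⁿ)²⁴` as a power series over `ℤ` -/
def DZ : PowerSeries ℤ := PowerSeries.X * dedekindEtaUnit

/-- formal `E₄³` -/
def EZ : PowerSeries ℤ := eisenstein4 ^ 3

theorem jNum_mul_unit : jNum * dedekindEtaUnit = EZ := by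
  rw [jNum, EZ, mul_assoc, mul_comm dedekindEtaUnitInv, dedekindEtaUnit_mul_inv, mul_one]

/-- formal `Δ` as a Laurent series over `ℤ` -/
def deltaZ : LaurentSeries ℤ := HahnSeries.ofPowerSeries ℤ ℤ DZ

/-- formal `Δ⁻¹` as a Laurent series over `ℤ` -/
def deltaInvZ : LaurentSeries ℤ :=
  HahnSeries.single (-1 : ℤ) 1 * HahnSeries.ofPowerSeries ℤ ℤ dedekindEtaUnitInv

theorem deltaZ_mul_deltaInvZ : deltaZ * deltaInvZ = 1 := by
  rw [deltaZ, deltaInvZ, DZ, map_mul, HahnSeries.ofPowerSeries_X]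
  calc single (1 : ℤ) (1 : ℤ) * (HahnSeries.ofPowerSeries ℤ ℤ) dedekindEtaUnit *
        (single (-1 : ℤ) (1 : ℤ) * (HahnSeries.ofPowerSeries ℤ ℤ) dedekindEtaUnitInv)
      = (single (1 : ℤ) (1 : ℤ) * single (-1 : ℤ) (1 : ℤ)) *
          ((HahnSeries.ofPowerSeries ℤ ℤ) dedekindEtaUnit *
            (HahnSeries.ofPowerSeries ℤ ℤ) dedekindEtaUnitInv) := by ring
    _ = 1 := by
      rw [← map_mul, dedekindEtaUnit_mul_inv, HahnSeries.single_mul_single]
      simp

/-- `jq · Δ = E₄³` in `ℤ((q))`. -/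
theorem jq_mul_deltaZ : jqModC ℤ * deltaZ = HahnSeries.ofPowerSeries ℤ ℤ EZ := by
  rw [jqModC, deltaZ, DZ, map_mul, HahnSeries.ofPowerSeries_X, ← jNum_mul_unit, map_mul]
  have h : (jNum.map (Int.castRingHom ℤ)) = jNum := by
    ext n; simp
  rw [h]
  calc single (-1 : ℤ) (1 : ℤ) * (HahnSeries.ofPowerSeries ℤ ℤ) jNum *
        (single (1 : ℤ) (1 : ℤ) * (HahnSeries.ofPowerSeries ℤ ℤ) dedekindEtaUnit)
      = (single (-1 : ℤ) (1 : ℤ) * single (1 : ℤ) (1 : ℤ)) *
          ((HahnSeries.ofPowerSeries ℤ ℤ) jNum *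
            (HahnSeries.ofPowerSeries ℤ ℤ) dedekindEtaUnit) := by ring
    _ = _ := by
      rw [HahnSeries.single_mul_single]
      simp

/-! ### Complex versions -/

/-- cast of power series `ℤ⟦X⟧ → ℂ⟦X⟧` -/
abbrev toC : PowerSeries ℤ →+* PowerSeries ℂ := PowerSeries.map (Int.castRingHom ℂ)

theorem kap_ofPS (g : PowerSeries ℤ) : kap (HahnSeries.ofPowerSeries ℤ ℤ g) = ofPS (toC g) :=
  coeffMap_ofPowerSeries _ g

variable (p : ℕ) [NeZero p]

/-- `U_p` on integer power series -/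
def UpZ (g : PowerSeries ℤ) : PowerSeries ℤ := PowerSeries.mk fun n => g.coeff (n * p)

theorem toC_UpZ (g : PowerSeries ℤ) : toC (UpZ p g) = Up p (toC g) := by
  ext n
  simp [UpZ, Up]

/-- the integer Hecke series `p · T_p^{(k)} φ = p^k φ(q^p) + p (U_p φ)(q)` -/
def heckeL (k : ℕ) (φ : PowerSeries ℤ) : LaurentSeries ℤ :=
  (p : LaurentSeries ℤ) ^ k * qExpand ℤ p (HahnSeries.ofPowerSeries ℤ ℤ φ) +
    (p : LaurentSeries ℤ) * HahnSeries.ofPowerSeries ℤ ℤ (UpZ p φ)

/-- **The analytic input** (to be supplied from the Hecke operator `T_p` on level one forms):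
`p · T_p(E₄^{3a} Δ^r) = P(j) · Δ^{a+r}` with `P ∈ ℤ[X]`. -/
def HeckeInput : Prop :=
  ∀ a r : ℕ, ∃ P : Polynomial ℤ,
    heckeL p (12 * (a + r)) (EZ ^ a * DZ ^ r) =
      Polynomial.aeval (jqModC ℤ) P * deltaZ ^ (a + r)

/-- `θ : ℤ[Y] → ℂ((t))`, `Y ↦ j(t^p)` -/
def theta : Polynomial ℤ →+* LaurentSeries ℂ :=
  (qExpand ℂ p).comp (kap.comp (Polynomial.aeval (jqModC ℤ)).toRingHom)

theorem theta_apply (P : Polynomial ℤ) :
    theta p P = qExpand ℂ p (kap (Polynomial.aeval (jqModC ℤ) P)) := rfl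

theorem theta_X : theta p Polynomial.X = jP p := by
  rw [theta_apply, Polynomial.aeval_X, jP, coeffMap_jqModC]

theorem theta_eq_aeval (P : Polynomial ℤ) :
    theta p P = Polynomial.aeval (jP p) (P.map (Int.castRingHom ℚ)) := by
  induction P using Polynomial.induction_on' with
  | add a b ha hb => rw [map_add, ha, hb, Polynomial.map_add, map_add]
  | monomial n c =>
    rw [← Polynomial.C_mul_X_pow_eq_monomial, map_mul, map_pow, theta_X, Polynomial.map_mul,
      Polynomial.map_pow, Polynomial.map_X, Polynomial.map_C, map_mul, map_pow,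
      Polynomial.aeval_X, Polynomial.aeval_C]
    congr 1
    rw [theta_apply, Polynomial.aeval_C]
    simp

/-- The `ℚ`-subalgebra `ℚ[j(t^p)]` of `ℂ((t))`. -/
def Bsub : Subalgebra ℚ (LaurentSeries ℂ) := (Polynomial.aeval (jP p)).range

theorem theta_mem_Bsub (P : Polynomial ℤ) : theta p P ∈ Bsub p :=
  ⟨P.map (Int.castRingHom ℚ), (theta_eq_aeval p P).symm⟩

/-! ### The conjugates -/

/-- `E₄³` over `ℂ` -/
def EC : PowerSeries ℂ := toC EZ
/-- `Δ` over `ℂ` -/
def DC : PowerSeries ℂ := toC DZ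

/-- the `p + 1` conjugation maps, indexed by `P¹(𝔽_p)` -/
def conj : Option (Fin p) → (PowerSeries ℂ →+* LaurentSeries ℂ)
  | none => cInf p
  | some b => cB p b

/-- the weight-12 scalars -/
def scal : Option (Fin p) → LaurentSeries ℂ
  | none => (p : LaurentSeries ℂ) ^ 12
  | some _ => 1

/-- `Δ(t^p)` -/
def del : LaurentSeries ℂ := cBase p DC

/-- `Δ(t^p)⁻¹` -/
def delInv : LaurentSeries ℂ := qExpand ℂ p (kap deltaInvZ)

theorem del_eq : del p = qExpand ℂ p (kap deltaZ) := by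
  rw [del, cBase, RingHom.comp_apply, deltaZ, kap_ofPS, DC]

theorem del_mul_delInv : del p * delInv p = 1 := by
  rw [del_eq, delInv, ← map_mul, ← map_mul, deltaZ_mul_deltaInvZ, map_one, map_one]

theorem delInv_mem_IntCoeff : delInv p ∈ IntCoeff :=
  qExpand_mem_IntCoeff p (kap_mem_IntCoeff _)

/-- conjugates of the unit: `w_∞ = p¹² Δ(t^(p²))/Δ(t^p)`, `w_b = Δ(ζ^b t)/Δ(t^p)` -/
def w (i : Option (Fin p)) : LaurentSeries ℂ := scal p i * conj p i DC * delInv p

/-- `Y_∞ = p¹² E₄³(t^(p²))/Δ(t^p)`, `Y_b = E₄³(ζ^b t)/Δ(t^p)` -/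
def Y (i : Option (Fin p)) : LaurentSeries ℂ := scal p i * conj p i EC * delInv p

theorem sum_scal_pow_conj (m : ℕ) (φ : PowerSeries ℤ) :
    ∑ i, scal p i ^ m * conj p i (toC φ) = qExpand ℂ p (kap (heckeL p (12 * m) φ)) := by
  rw [Fintype.sum_option]
  simp only [scal, conj, one_pow, one_mul]
  rw [Fin.sum_univ_eq_sum_range (fun b => cB p b (toC φ)) p, sum_cB, heckeL]
  simp only [map_add, map_mul, map_pow, map_natCast, coeffMap_qExpand, kap_ofPS, toC_UpZ,
    ← pow_mul]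
  rfl

/-- **Mixed power sums** are in `ℤ[j(t^p)]`. -/
theorem sum_Y_pow_mul_w_pow (h : HeckeInput p) (a r : ℕ) :
    ∃ P : Polynomial ℤ, ∑ i, Y p i ^ a * w p i ^ r = theta p P := by
  obtain ⟨P, hP⟩ := h a r
  refine ⟨P, ?_⟩
  have h1 : ∀ i, Y p i ^ a * w p i ^ r =
      (scal p i ^ (a + r) * conj p i (toC (EZ ^ a * DZ ^ r))) * delInv p ^ (a + r) := by
    intro i
    rw [Y, w, EC, DC, map_mul, map_mul, map_pow, map_pow, map_pow, map_pow]
    ring
  simp only [h1]
  rw [← Finset.sum_mul, sum_scal_pow_conj, hP, map_mul, map_mul, map_pow, map_pow, ← del_eq,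
    ← theta_apply, mul_assoc, ← mul_pow, del_mul_delInv, one_pow, mul_one]

theorem sum_w_pow_mem (h : HeckeInput p) (r : ℕ) : ∑ i, w p i ^ r ∈ Bsub p := by
  obtain ⟨P, hP⟩ := sum_Y_pow_mul_w_pow p h 0 r
  simp only [pow_zero, one_mul] at hP
  rw [hP]
  exact theta_mem_Bsub p P

end Fermat.Agent.S28.H326

end
end
-- ===== PACK-END S28/H326/Pairs.lean

-- ===== PACK-BEGIN S18/H438/Front/Transport.lean
section




/-!
# S18 / ALG-FRONT (helper438), part 4: from `Alg.GoodModel` (sub-objects of `Ω`) to the field `Fc`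

For `G : Alg.GoodModel Lc Ec Fc R V w x S` we define, inside the field `↥Fc`:

* `Rf Fc R : Subring Fc`             (the DVR `R`),
* `Vf G : ValuationSubring Fc`       (the Gauss valuation ring),
* `xf G, wf G : Fc`                  (coordinate, uniformiser),

and prove the hypotheses of `Front/Chart.lean` and `Front/Gauss.lean` for both charts
(`z = xf G` and `z = (xf G)⁻¹`).
-/

set_option autoImplicit false
set_option linter.style.haveILetI false
set_option linter.unusedSectionVars false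

noncomputable section

namespace Fermat.Agent.S18.H438

open Alg Polynomial

variable {Ω : Type*} [Field Ω] {Lc Ec Fc : Subfield Ω} {R V : Subring Ω} {w x : Ω}
  {S : Finset Ω}

/-- `R` as a subring of the field `Fc`. -/
def Rf (Fc : Subfield Ω) (R : Subring Ω) : Subring Fc := R.comap Fc.subtype

theorem mem_Rf {f : Fc} : f ∈ Rf Fc R ↔ (f : Ω) ∈ R := Iff.rfl

namespace GoodModelFront

variable (G : GoodModel Lc Ec Fc R V w x S)

include G in
theorem R_le_Fc {r : Ω} (hr : r ∈ R) : r ∈ Fc := G.E_le_F (G.R_le hr)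

include G in
theorem w_mem_Fc : w ∈ Fc := R_le_Fc G G.w_mem

/-- the coordinate as an element of `Fc` -/
def xf : Fc := ⟨x, G.x_mem⟩

/-- the uniformiser as an element of `Fc` -/
def wf : Fc := ⟨w, w_mem_Fc G⟩

@[simp] theorem coe_xf : ((xf G : Fc) : Ω) = x := rfl
@[simp] theorem coe_wf : ((wf G : Fc) : Ω) = w := rfl

/-- the Gauss valuation ring as a valuation subring of `Fc` -/
def Vf : ValuationSubring Fc :=
  { V.comap Fc.subtype with
    mem_or_inv_mem' := fun f => by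
      rcases G.V_total f f.2 with h | h
      · exact Or.inl h
      · exact Or.inr h }

theorem mem_Vf {f : Fc} : f ∈ Vf G ↔ (f : Ω) ∈ V := Iff.rfl

include G

theorem wf_mem_Rf : wf G ∈ Rf Fc R := G.w_mem

theorem wf_ne_zero : wf G ≠ 0 := fun h => G.w_ne_zero (congrArg Subtype.val h)

theorem wf_inv_not_mem_Rf : (wf G)⁻¹ ∉ Rf Fc R := fun h => G.w_inv_not_mem h

theorem wf_inv_not_mem_Vf : (wf G)⁻¹ ∉ Vf G := fun h => G.w_inv_not_mem_V h

theorem Rf_le_Vf : ∀ r ∈ Rf Fc R, r ∈ Vf G := fun _ hr => G.R_le_V hr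

theorem Vf_gen : ∀ f ∈ Vf G, f⁻¹ ∉ Vf G → f * (wf G)⁻¹ ∈ Vf G :=
  fun f hf hinv => G.V_gen f hf hinv

theorem Rf_disc : ∀ r ∈ Rf Fc R, r ≠ 0 →
    ∃ n : ℕ, r * ((wf G)⁻¹) ^ n ∈ Rf Fc R ∧ (r * ((wf G)⁻¹) ^ n)⁻¹ ∈ Rf Fc R := by
  intro r hr hr0
  have hr0' : (r : Ω) ≠ 0 := fun h => hr0 (Subtype.ext h)
  obtain ⟨n, h1, h2⟩ := G.w_discrete r hr hr0'
  exact ⟨n, h1, h2⟩

/-- **`R` is a discrete valuation ring.** -/
theorem isDiscreteValuationRing_Rf : IsDiscreteValuationRing (Rf Fc R) :=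
  isDiscreteValuationRing_of_disc (Rf Fc R) (wf_mem_Rf G) (wf_ne_zero G)
    (wf_inv_not_mem_Rf G) (Rf_disc G)

theorem irreducible_wf : Irreducible (⟨wf G, wf_mem_Rf G⟩ : Rf Fc R) :=
  irreducible_unif_of_disc (Rf Fc R) (wf_mem_Rf G) (wf_ne_zero G)
    (wf_inv_not_mem_Rf G) (Rf_disc G)

theorem charZero_Fc : CharZero Fc :=
  haveI := G.charZero
  RingHom.charZero Fc.subtype

/-- `x ∈ V` (field `x_mem_V` of the v4 interface). -/
theorem xf_mem_Vf : xf G ∈ Vf G := G.x_mem_V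

/-- `x⁻¹ ∈ V` (Gauss). -/
theorem xf_inv_mem_Vf : (xf G)⁻¹ ∈ Vf G := by
  have h := G.gauss (Polynomial.X : Polynomial Ω)
    (fun i => by
      rw [Polynomial.coeff_X]
      split_ifs
      · exact R.one_mem
      · exact R.zero_mem)
    ⟨1, by simp, by simp [R.one_mem]⟩
  rw [Polynomial.eval_X] at h
  exact h

end GoodModelFront

end Fermat.Agent.S18.H438

end
end
-- ===== PACK-END S18/H438/Front/Transport.lean

-- ===== PACK-BEGIN S18/B12/Spec3.lean
section



/-!
# S18, Route K, b2: the HEART (`B2CoreAbsStatement`) and the two OUTPUT SHAPES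
(squad S18/S33, squad-lead helper33) — FROZEN statements, Mathlib-only

* `B2CoreAbsStatement` : at every closed point `t` of the special fibre `B/wB` over `Λ = P/(w)`:
  `ord_t disc(B/wB) ≤ n - s` with `(B/wB mod t)_red` spanned by `s` elements
  (exactly the hypothesis of "Theorem L", `SFLatticeStatement` / H933 / H636 / H998).
* Output O1 `B2RegularStatement` : `B/wB` a domain ⟹ `RegularAlong w` (shape of
  `Fermat.Agent.S18.H754.RegularAlong`, consumed by the Kummer endgame K').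
* Output O2 `B2Statement` (Spec.lean) : idempotents of `Frac(B/wB)` lie in `B/wB` (no domain
  hypothesis; consumed by "b4 = b2 for the cover").
-/

set_option autoImplicit false

noncomputable section

namespace Fermat.Agent.S18.B12

open Polynomial

universe u v

/-- **A6' (heart of b2).**  Abstract setting of Spec2 (`P` noetherian UFD, `w` prime, `P/(w)` and
`P[1/w]` PIDs, char 0 generic fibre, `B` normal finite torsion-free over `P`, `hsep`, branch primes
`S` pairwise comaximal mod `w`, unramified outside `S`).  Then for every prime `t` of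
`Λ = P/(w)` and every `Λ`-basis `bb` of `B/wB`: `disc bb ≠ 0`, and there is a family of `s`
elements spanning `B/wB` modulo `rad(t)` with `t ^ (n - s + 1) ∤ disc bb`. -/
def B2CoreAbsStatement : Prop :=
  ∀ (P : Type u) [CommRing P] [IsDomain P] [UniqueFactorizationMonoid P] [IsNoetherianRing P]
    (w : P) (_ : Prime w) (_ : IsPrincipalIdealRing (P ⧸ Ideal.span {w}))
    (_ : IsPrincipalIdealRing (Localization.Away w))
    (_ : ∀ m : ℕ, m ≠ 0 → IsUnit (algebraMap P (Localization.Away w) (m : P)))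
    (B : Type v) [CommRing B] [IsDomain B] [IsIntegrallyClosed B] [Algebra P B]
    [Module.Finite P B] [Module.IsTorsionFree P B]
    (_ : ∃ x : Fin (Module.finrank P B) → B, ¬ w ∣ intDiscr P B x)
    (S : Finset P)
    (_ : ∀ s ∈ S, Prime s ∧ ¬ Associated s w ∧ (Ideal.span {w, s}).IsMaximal ∧
      IsPrincipalIdealRing (P ⧸ Ideal.span {s}))
    (_ : ∀ s ∈ S, ∀ s' ∈ S, s ≠ s' → s' ∉ Ideal.span {w, s})
    (_ : ∀ π : P, Prime π → ¬ Associated π w → (∀ s ∈ S, ¬ Associated π s) →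
        (Ideal.span {algebraMap P B π}).IsRadical)
    (t : P ⧸ Ideal.span {w}) (_ : Prime t) (n : ℕ)
    (bb : Module.Basis (Fin n) (P ⧸ Ideal.span {w})
      (B ⧸ (Ideal.span {w}).map (algebraMap P B))),
    Algebra.discr (P ⧸ Ideal.span {w}) bb ≠ 0 ∧
    ∃ (s : ℕ) (y : Fin s → B ⧸ (Ideal.span {w}).map (algebraMap P B)),
      (∀ c : B ⧸ (Ideal.span {w}).map (algebraMap P B), ∃ a : Fin s → P ⧸ Ideal.span {w},
        c - ∑ i, a i • y i ∈ (Ideal.span {algebraMap (P ⧸ Ideal.span {w})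
          (B ⧸ (Ideal.span {w}).map (algebraMap P B)) t}).radical) ∧
      ¬ t ^ (n - s + 1) ∣ Algebra.discr (P ⧸ Ideal.span {w}) bb

/-- **A8 (normality from the discriminant bounds).**  `Λ` a PID, `C` a domain, free of rank `n`
over `Λ`, satisfying the bound of `B2CoreAbsStatement` at every prime `t`.  Then `C` is
integrally closed.  (Apply Theorem L to `C ⊆ C[f]`, `f` integral over `C`.) -/
def IntClosedOfDiscrStatement : Prop :=
  ∀ (Λ : Type u) [CommRing Λ] [IsDomain Λ] [IsPrincipalIdealRing Λ]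
    (C : Type v) [CommRing C] [IsDomain C] [Algebra Λ C] (n : ℕ) (b : Module.Basis (Fin n) Λ C),
    Algebra.discr Λ b ≠ 0 →
    (∀ t : Λ, Prime t → ∃ (s : ℕ) (y : Fin s → C),
      (∀ c : C, ∃ a : Fin s → Λ,
        c - ∑ i, a i • y i ∈ (Ideal.span {algebraMap Λ C t}).radical) ∧
      ¬ t ^ (n - s + 1) ∣ Algebra.discr Λ b) →
    IsIntegrallyClosed C

/-- **A9 (regularity along a Dedekind special fibre).**  If `B/ϖB` is a Dedekind domain then
every maximal ideal `𝔪 ∋ ϖ` of `B` is locally generated by `ϖ` and one more element. -/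
def RegularAlongOfDedekindStatement : Prop :=
  ∀ (B : Type u) [CommRing B] (ϖ : B), IsDedekindDomain (B ⧸ Ideal.span {ϖ}) →
    ∀ 𝔪 : Ideal B, 𝔪.IsMaximal → ϖ ∈ 𝔪 →
      ∃ t ∈ 𝔪, ∀ a ∈ 𝔪, ∃ s : B, s ∉ 𝔪 ∧ s * a ∈ Ideal.span {ϖ, t}

/-- **OUTPUT O1 (b2, regular form; concrete).**  As `B2Statement`, plus `hdom`: `w` is prime in
`B` (the special fibre is a domain; QEP).  Conclusion = `H754.RegularAlong (C w)`, unfolded. -/
def B2RegularStatement : Prop :=
  ∀ (R : Type u) [CommRing R] [IsDomain R] [IsDiscreteValuationRing R] [CharZero R]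
    (w : R) (_ : Irreducible w)
    (B : Type v) [CommRing B] [IsDomain B] [IsIntegrallyClosed B] [Algebra R[X] B]
    [Module.Finite R[X] B] [Module.IsTorsionFree R[X] B]
    (_ : Prime (algebraMap R[X] B (C w)))
    (_ : ∃ x : Fin (Module.finrank R[X] B) → B,
        ¬ C w ∣ (Matrix.of fun i j => Algebra.intTrace R[X] B (x i * x j)).det)
    (S : Finset R) (_ : ∀ c ∈ S, ∀ c' ∈ S, c ≠ c' → IsUnit (c - c'))
    (_ : ∀ π : R[X], Prime π → ¬ Associated π (C w) → (∀ c ∈ S, ¬ Associated π (X - C c)) →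
        (Ideal.span {algebraMap R[X] B π}).IsRadical)
    (𝔪 : Ideal B), 𝔪.IsMaximal → algebraMap R[X] B (C w) ∈ 𝔪 →
      ∃ t ∈ 𝔪, ∀ a ∈ 𝔪, ∃ s : B, s ∉ 𝔪 ∧
        s * a ∈ Ideal.span {algebraMap R[X] B (C w), t}

end Fermat.Agent.S18.B12

end
end
-- ===== PACK-END S18/B12/Spec3.lean

-- ===== PACK-BEGIN S18/H203/QuotFree.lean
section


/-!
# S18 / b1 (helper203): the special fibre `B / w B` is free over `S / w S`

`S` an integrally closed domain, `w ∈ S` prime, `F / Frac S` a field extension, `B` the integral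
closure of `S` in `F`.  Put `S̄ := S ⧸ (w)` and `B̄ := B ⧸ (w) B` (Mathlib instance
`Ideal.Quotient.algebraQuotientMapQuotient : Algebra S̄ B̄`).

* `isTorsionFree_quotient` : `B̄` is a torsion-free `S̄`-module.
* `finite_quotient`        : `B̄` is a finite `S̄`-module if `B` is a finite `S`-module.
* `free_quotient`          : `B̄` is a free `S̄`-module if moreover `S̄` is a PID
  (application: `S = R[x]`, `R` a DVR with uniformiser `w`, `S̄ = κ[x]`).
-/

set_option autoImplicit false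

namespace Fermat.Agent.S18.H203

open Ideal

section

variable {S B : Type*} [CommRing S] [IsDomain S] [IsIntegrallyClosed S]
  [CommRing B] [Algebra S B]

omit [IsDomain S] [IsIntegrallyClosed S] in
/-- `(w) B` is the principal ideal generated by the image of `w`. -/
theorem map_span_singleton_eq (w : S) :
    (Ideal.span {w}).map (algebraMap S B) = Ideal.span {algebraMap S B w} := by
  rw [Ideal.map_span, Set.image_singleton]

omit [IsDomain S] [IsIntegrallyClosed S] in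
/-- membership in `(w) B` is divisibility by `w`. -/
theorem mem_map_span_singleton_iff (w : S) (b : B) :
    b ∈ (Ideal.span {w}).map (algebraMap S B) ↔ algebraMap S B w ∣ b := by
  rw [map_span_singleton_eq, Ideal.mem_span_singleton]

/-- **b1, torsion-freeness of the special fibre.** -/
theorem isTorsionFree_quotient (K F : Type*) [Field K] [Algebra S K] [IsFractionRing S K]
    [Field F] [Algebra K F] [Algebra S F] [IsScalarTower S K F]
    [Algebra B F] [IsScalarTower S B F] [IsIntegralClosure B S F]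
    {w : S} (hw : Prime w) :
    Module.IsTorsionFree (S ⧸ Ideal.span {w}) (B ⧸ (Ideal.span {w}).map (algebraMap S B)) := by
  have : (Ideal.span {w}).IsPrime := (Ideal.span_singleton_prime hw.ne_zero).mpr hw
  refine ⟨fun r hr => ?_⟩
  obtain ⟨t, rfl⟩ := Ideal.Quotient.mk_surjective r
  have ht : ¬ w ∣ t := by
    intro hdvd
    have h0 : (Ideal.Quotient.mk (Ideal.span {w}) t) = 0 := by
      rw [Ideal.Quotient.eq_zero_iff_mem, Ideal.mem_span_singleton]
      exact hdvd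
    exact hr.ne_zero h0
  intro x y hxy
  obtain ⟨x, rfl⟩ := Ideal.Quotient.mk_surjective x
  obtain ⟨y, rfl⟩ := Ideal.Quotient.mk_surjective y
  simp only [Ideal.Quotient.mk_smul_mk_quotient_map_quotient] at hxy
  rw [Ideal.Quotient.eq, ← mul_sub, mem_map_span_singleton_iff] at hxy
  rw [Ideal.Quotient.eq, mem_map_span_singleton_iff]
  exact dvd_of_dvd_mul K F hw ht hxy

omit [IsDomain S] [IsIntegrallyClosed S] in
/-- The special fibre is a finite module. -/
theorem finite_quotient [Module.Finite S B] (I : Ideal S) :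
    Module.Finite (S ⧸ I) (B ⧸ I.map (algebraMap S B)) := by
  have : Module.Finite S (B ⧸ I.map (algebraMap S B)) :=
    Module.Finite.of_surjective (Ideal.Quotient.mkₐ S (I.map (algebraMap S B))).toLinearMap
      (Ideal.Quotient.mkₐ_surjective S _)
  exact Module.Finite.of_restrictScalars_finite S (S ⧸ I) (B ⧸ I.map (algebraMap S B))

/-- **b1, freeness of the special fibre.** -/
theorem free_quotient (K F : Type*) [Field K] [Algebra S K] [IsFractionRing S K]
    [Field F] [Algebra K F] [Algebra S F] [IsScalarTower S K F]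
    [Algebra B F] [IsScalarTower S B F] [IsIntegralClosure B S F] [Module.Finite S B]
    {w : S} (hw : Prime w) [IsPrincipalIdealRing (S ⧸ Ideal.span {w})] :
    Module.Free (S ⧸ Ideal.span {w}) (B ⧸ (Ideal.span {w}).map (algebraMap S B)) := by
  have : (Ideal.span {w}).IsPrime := (Ideal.span_singleton_prime hw.ne_zero).mpr hw
  have := isTorsionFree_quotient (B := B) K F hw
  have := finite_quotient (B := B) (Ideal.span {w})
  exact Module.free_of_finite_type_torsion_free'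

end

end Fermat.Agent.S18.H203

end
-- ===== PACK-END S18/H203/QuotFree.lean

-- ===== PACK-BEGIN S22/H262/Cocycle2.lean
section


set_option autoImplicit false

/-!
# Further properties of the Eichler cocycle: upper triangular matrices, additivity
-/

open Complex Filter Function Metric Set
open UpperHalfPlane hiding I
open scoped Real Topology Manifold ModularForm MatrixGroups

namespace Fermat.Agent.S22.H262

theorem bigG_add (n : ℕ) (E₁ E₂ : ℕ → ℍ → ℂ) (z : ℍ) (v : ℂ × ℂ) :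
    bigG n (E₁ + E₂) z v = bigG n E₁ z v + bigG n E₂ z v := by
  simp only [bigG, Pi.add_apply, ← Finset.sum_add_distrib]
  refine Finset.sum_congr rfl fun j _ => ?_
  ring

theorem bigG_smul (n : ℕ) (c : ℂ) (E : ℕ → ℍ → ℂ) (z : ℍ) (v : ℂ × ℂ) :
    bigG n (c • E) z v = c * bigG n E z v := by
  simp only [bigG, Pi.smul_apply, smul_eq_mul, Finset.mul_sum]
  refine Finset.sum_congr rfl fun j _ => ?_
  ring

theorem bigG_zero (n : ℕ) (z : ℍ) (v : ℂ × ℂ) : bigG n 0 z v = 0 := by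
  simp [bigG]

theorem bigG_sum {ι : Type*} (n : ℕ) (s : Finset ι) (E : ι → ℕ → ℍ → ℂ) (z : ℍ) (v : ℂ × ℂ) :
    bigG n (∑ i ∈ s, E i) z v = ∑ i ∈ s, bigG n (E i) z v := by
  classical
  induction s using Finset.induction_on with
  | empty => simp [bigG_zero]
  | insert a s ha ih => rw [Finset.sum_insert ha, Finset.sum_insert ha, bigG_add, ih]

/-- On the "diagonal" `v = (z y, y)` only the top term of `bigG` survives. -/
theorem bigG_diag (n : ℕ) (E : ℕ → ℍ → ℂ) (z : ℍ) (y : ℂ) :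
    bigG n E z ((z : ℂ) * y, y) = (n.factorial : ℂ) * E (n + 1) z * y ^ n := by
  unfold bigG
  rw [Finset.sum_range_succ, Finset.sum_eq_zero]
  · simp [Nat.descFactorial_self]
  · intro j hj
    have hj' : j < n := Finset.mem_range.mp hj
    have : n - j ≠ 0 := by omega
    simp [this]

theorem cocyc_add (n : ℕ) {h₁ h₂ : ℍ → ℂ} (A : GL (Fin 2) ℝ) (h1 : HasTower h₁)
    (h2 : HasTower h₂) (h1A : HasTower (h₁ ∣[(n : ℤ) + 2] A))
    (h2A : HasTower (h₂ ∣[(n : ℤ) + 2] A)) (v : ℂ × ℂ) :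
    cocyc n (h₁ + h₂) A v = cocyc n h₁ A v + cocyc n h₂ A v := by
  unfold cocyc
  rw [SlashAction.add_slash, tower_add h1 h2, tower_add h1A h2A, bigG_add, bigG_add]
  ring

theorem cocyc_smul (n : ℕ) {h : ℍ → ℂ} (A : GL (Fin 2) ℝ) (hA : 0 < A.det.val)
    (hh : HasTower h) (hhA : HasTower (h ∣[(n : ℤ) + 2] A)) (c : ℂ) (v : ℂ × ℂ) :
    cocyc n (c • h) A v = c * cocyc n h A v := by
  unfold cocyc
  have hs : (c • h) ∣[(n : ℤ) + 2] A = c • (h ∣[(n : ℤ) + 2] A) := by
    rw [ModularForm.smul_slash, UpperHalfPlane.σ, if_pos hA]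
    rfl
  rw [hs, tower_smul hh, tower_smul hhA, bigG_smul, bigG_smul]
  ring

theorem cocyc_sum {ι : Type*} (n : ℕ) (s : Finset ι) (h : ι → ℍ → ℂ) (A : GL (Fin 2) ℝ)
    (hh : ∀ i ∈ s, HasTower (h i)) (hhA : ∀ i ∈ s, HasTower (h i ∣[(n : ℤ) + 2] A))
    (v : ℂ × ℂ) :
    cocyc n (∑ i ∈ s, h i) A v = ∑ i ∈ s, cocyc n (h i) A v := by
  unfold cocyc
  rw [SlashAction.sum_slash, (tower_sum s h hh).2,
    (tower_sum s (fun i => h i ∣[(n : ℤ) + 2] A) hhA).2, bigG_sum, bigG_sum,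
    ← Finset.sum_sub_distrib]

/-- The explicit tower of `h ∣[k] δ` for an upper triangular `δ` with positive determinant. -/
theorem IsTower.slash_upper (n : ℕ) {h : ℍ → ℂ} {E : ℕ → ℍ → ℂ} (hE : IsTower h E)
    (δ : GL (Fin 2) ℝ) (hδ : 0 < δ.det.val) (h10 : δ 1 0 = 0) :
    IsTower (h ∣[(n : ℤ) + 2] δ) (fun r z =>
      (δ.det.val : ℂ) ^ (n + 1) * ((δ 1 1 : ℝ) : ℂ)⁻¹ ^ (n + 2) *
        (((δ 1 1 : ℝ) : ℂ) ^ 2 / (δ.det.val : ℂ)) ^ r * E r (δ • z)) where
  zero := by
    funext z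
    rw [ModularForm.slash_apply, UpperHalfPlane.σ, if_pos hδ]
    simp only [ContinuousAlgEquiv.refl_apply, abs_of_pos hδ, pow_zero, mul_one, hE.zero]
    have e1 : ((n : ℤ) + 2 - 1) = ((n + 1 : ℕ) : ℤ) := by push_cast; ring
    have e2 : -((n : ℤ) + 2) = -((n + 2 : ℕ) : ℤ) := by push_cast; ring
    have hden : denom δ z = ((δ 1 1 : ℝ) : ℂ) := by simp [denom, h10]
    rw [e1, e2, zpow_natCast, zpow_neg, zpow_natCast, hden, inv_pow]
    ring
  hasDeriv r z := by
    have h1 : HasDerivAt (E (r + 1) ∘ ofComplex) (E r (δ • z)) ((δ • z : ℍ) : ℂ) :=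
      hE.hasDeriv r (δ • z)
    have h2 : HasDerivAt (fun w : ℂ => ((δ • ofComplex w : ℍ) : ℂ))
        (δ.det.val / denom δ z ^ 2) (z : ℂ) := (hasStrictDerivAt_smul hδ z).hasDerivAt
    have h3 := h1.comp_of_eq (x := (z : ℂ)) h2 (by simp)
    have h4 := h3.const_mul ((δ.det.val : ℂ) ^ (n + 1) * ((δ 1 1 : ℝ) : ℂ)⁻¹ ^ (n + 2) *
        (((δ 1 1 : ℝ) : ℂ) ^ 2 / (δ.det.val : ℂ)) ^ (r + 1))
    have hden : denom δ z = ((δ 1 1 : ℝ) : ℂ) := by simp [denom, h10]
    have hdet : (δ.det.val : ℂ) ≠ 0 := by exact_mod_cast hδ.ne'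
    have hd : ((δ 1 1 : ℝ) : ℂ) ≠ 0 := by
      rw [← hden]
      exact denom_ne_zero δ z
    refine (h4.congr_deriv ?_).congr_of_eventuallyEq ?_
    · rw [hden, pow_succ (((δ 1 1 : ℝ) : ℂ) ^ 2 / (δ.det.val : ℂ)) r]
      field_simp
    · filter_upwards with w
      simp [Function.comp_def]
  isZero r := by
    have h1 : Tendsto (fun z : ℍ => E (r + 1) (δ • z)) atImInfty (𝓝 0) :=
      (hE.isZero r).comp (tendsto_smul_atImInfty h10)
    have h2 := h1.const_mul ((δ.det.val : ℂ) ^ (n + 1) * ((δ 1 1 : ℝ) : ℂ)⁻¹ ^ (n + 2) *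
        (((δ 1 1 : ℝ) : ℂ) ^ 2 / (δ.det.val : ℂ)) ^ (r + 1))
    rw [mul_zero] at h2
    exact h2

theorem HasTower.slash_upper (n : ℕ) {h : ℍ → ℂ} (hh : HasTower h)
    (δ : GL (Fin 2) ℝ) (hδ : 0 < δ.det.val) (h10 : δ 1 0 = 0) :
    HasTower (h ∣[(n : ℤ) + 2] δ) :=
  ⟨_, hh.isTower.slash_upper n δ hδ h10⟩

/-- The cocycle vanishes on upper triangular matrices. -/
theorem cocyc_upper (n : ℕ) {h : ℍ → ℂ} (hh : HasTower h)
    (δ : GL (Fin 2) ℝ) (hδ : 0 < δ.det.val) (h10 : δ 1 0 = 0) (v : ℂ × ℂ) :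
    cocyc n h δ v = 0 := by
  unfold cocyc
  rw [(hh.isTower.slash_upper n δ hδ h10).tower_eq, sub_eq_zero]
  unfold bigG
  refine Finset.sum_congr rfl fun j hj => ?_
  have hj' : j ≤ n := Nat.lt_succ_iff.mp (Finset.mem_range.mp hj)
  have hden : denom δ UpperHalfPlane.I = ((δ 1 1 : ℝ) : ℂ) := by simp [denom, h10]
  have hdet : (δ.det.val : ℂ) ≠ 0 := by exact_mod_cast hδ.ne'
  have hd : ((δ 1 1 : ℝ) : ℂ) ≠ 0 := by
    rw [← hden]
    exact denom_ne_zero δ _
  rw [actV_sub δ hδ, hden]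
  have hv2 : (actV δ v).2 = ((δ 1 1 : ℝ) : ℂ) * v.2 := by simp [actV, h10]
  rw [hv2]
  obtain ⟨m, rfl⟩ : ∃ m, n = j + m := ⟨n - j, by omega⟩
  simp only [Nat.add_sub_cancel_left, div_pow, mul_pow, inv_pow]
  field_simp
  ring

end Fermat.Agent.S22.H262

end
-- ===== PACK-END S22/H262/Cocycle2.lean

-- ===== PACK-BEGIN Lib/HFree/H412/Basic.lean
section




/-!
# Shapiro cocycles for a subgroup `Γ ≤ SL(2,ℤ)` with values in an arbitrary abelian group

`X = SL(2,ℤ) ⧸ Γ`.  For an additive character `c : Γ → A` we construct the induced cocycle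
`shap c : SL(2,ℤ) → (X → A)` (values in the permutation module), with
`shap c γ x₀ = c γ` for `γ ∈ Γ`, and conversely restrict cocycles to characters.
-/

set_option autoImplicit false

open scoped MatrixGroups
open ModularGroup

namespace Fermat.Agent.Lib.HFree.H412

open Fermat.Agent.S20.H270 (Umat IsCocycle)

section PermRep

variable (A : Type*) [AddCommGroup A] {G : Type*} [Group G] {X : Type*} [MulAction G X]

/-- The permutation representation of `G` on `X → A`, by `ℤ`-linear equivalences: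
`(g • m) x = m (g⁻¹ • x)`. -/
def permRep : G →* ((X → A) ≃ₗ[ℤ] (X → A)) where
  toFun g :=
    { toFun := fun m x => m (g⁻¹ • x)
      invFun := fun m x => m (g • x)
      map_add' := fun _ _ => rfl
      map_smul' := fun _ _ => rfl
      left_inv := fun m => by funext x; simp
      right_inv := fun m => by funext x; simp }
  map_one' := by
    ext m x
    simp
  map_mul' g h := by
    ext m x
    simp [mul_smul]

@[simp] theorem permRep_apply (g : G) (m : X → A) (x : X) :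
    permRep A g m x = m (g⁻¹ • x) := rfl

variable {A}

theorem permRep_single [DecidableEq X] (g : G) (x : X) (a : A) :
    permRep A g (Pi.single x a) = Pi.single (g • x) a := by
  funext y
  rw [permRep_apply]
  by_cases h : y = g • x
  · subst h
    simp
  · rw [Pi.single_eq_of_ne h, Pi.single_eq_of_ne]
    intro h'
    apply h
    rw [← h', smul_inv_smul]

theorem sum_permRep [Fintype X] (g : G) (m : X → A) :
    ∑ x, permRep A g m x = ∑ x, m x := by
  simp only [permRep_apply]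
  exact Fintype.sum_equiv (MulAction.toPerm g⁻¹) _ _ (fun _ => rfl)

/-- The permutation `x ↦ g⁻¹ • x`. -/
def invPerm (X : Type*) [MulAction G X] (g : G) : Equiv.Perm X := MulAction.toPerm g⁻¹

@[simp] theorem invPerm_apply (g : G) (x : X) : invPerm X g x = g⁻¹ • x := rfl

theorem invPerm_pow_apply (g : G) (k : ℕ) (x : X) : (invPerm X g ^ k) x = (g ^ k)⁻¹ • x := by
  induction k generalizing x with
  | zero => simp
  | succ k ih =>
    rw [pow_succ, Equiv.Perm.mul_apply, ih, invPerm_apply, ← mul_smul, pow_succ', mul_inv_rev]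

theorem invPerm_finOrder [Finite X] (g : G) : ∃ n : ℕ, 0 < n ∧ invPerm X g ^ n = 1 :=
  isOfFinOrder_iff_pow_eq_one.mp (isOfFinOrder_of_finite (invPerm X g))

end PermRep

section Cocycle

variable {A : Type*} [AddCommGroup A] {Γ : Subgroup SL(2, ℤ)}

/-- Power formula for cocycles with values in a permutation module. -/
theorem cocycle_pow_apply {z : SL(2, ℤ) → ((SL(2, ℤ) ⧸ Γ) → A)}
    (hz : IsCocycle (permRep A) z) (g : SL(2, ℤ)) (j : ℕ) (y : SL(2, ℤ) ⧸ Γ) :
    z (g ^ j) y = orbSum (invPerm (SL(2, ℤ) ⧸ Γ) g) (z g) y j := by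
  induction j with
  | zero =>
    rw [pow_zero, hz.map_one]
    simp [orbSum]
  | succ j ih =>
    rw [orbSum_succ, ← ih, pow_succ, hz (g ^ j) g, Pi.add_apply, permRep_apply,
      invPerm_pow_apply]

/-- A cocycle whose "closed orbit values" `z (g ^ j) y`, `g ^ j • y = y`, vanish is a coboundary
on `g`. -/
theorem exists_eq_coboundary_at [Finite (SL(2, ℤ) ⧸ Γ)]
    {z : SL(2, ℤ) → ((SL(2, ℤ) ⧸ Γ) → A)}
    (hz : IsCocycle (permRep A) z) (g : SL(2, ℤ))
    (h0 : ∀ (y : SL(2, ℤ) ⧸ Γ) (j : ℕ), (g ^ j)⁻¹ • y = y → z (g ^ j) y = 0) :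
    ∃ m : (SL(2, ℤ) ⧸ Γ) → A, z g = permRep A g m - m := by
  obtain ⟨m, hm⟩ := exists_coboundary_of_orbSum (invPerm (SL(2, ℤ) ⧸ Γ) g)
    (invPerm_finOrder g) (z g) (fun y j hj => by
      rw [← cocycle_pow_apply hz]
      exact h0 y j (by rwa [invPerm_pow_apply] at hj))
  refine ⟨m, ?_⟩
  funext y
  rw [hm y]
  rfl

/-- If `z g = g • m - m` then `z (g ^ k) = g ^ k • m - m` for all integers `k`. -/
theorem cocycle_zpow_of_coboundary {z : SL(2, ℤ) → ((SL(2, ℤ) ⧸ Γ) → A)}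
    (hz : IsCocycle (permRep A) z) (g : SL(2, ℤ)) (m : (SL(2, ℤ) ⧸ Γ) → A)
    (hg : z g = permRep A g m - m) (k : ℤ) :
    z (g ^ k) = permRep A (g ^ k) m - m := by
  let H : Subgroup SL(2, ℤ) :=
    { carrier := {h | z h = permRep A h m - m}
      one_mem' := by
        show z 1 = permRep A 1 m - m
        rw [hz.map_one, map_one]
        simp
      mul_mem' := fun {a b} ha hb => by
        show z (a * b) = permRep A (a * b) m - m
        have ha' : z a = permRep A a m - m := ha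
        have hb' : z b = permRep A b m - m := hb
        rw [hz a b, ha', hb', map_sub, map_mul]
        simp only [LinearEquiv.mul_apply]
        abel
      inv_mem' := fun {a} ha => by
        show z a⁻¹ = permRep A a⁻¹ m - m
        have ha' : z a = permRep A a m - m := ha
        rw [hz.map_inv, ha', map_sub, ← LinearEquiv.mul_apply, ← map_mul, inv_mul_cancel,
          map_one]
        simp }
  have hgH : g ∈ H := hg
  exact H.zpow_mem hgH k

end Cocycle

section Shapiro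

variable {A : Type*} [AddCommGroup A] {Γ : Subgroup SL(2, ℤ)}

/-- The twisting element `s(x)⁻¹ g s(g⁻¹ x)`. -/
noncomputable def tw (g : SL(2, ℤ)) (x : SL(2, ℤ) ⧸ Γ) : SL(2, ℤ) :=
  (Quotient.out x)⁻¹ * g * Quotient.out (g⁻¹ • x)

theorem mk_out (x : SL(2, ℤ) ⧸ Γ) : (QuotientGroup.mk (Quotient.out x) : SL(2, ℤ) ⧸ Γ) = x :=
  QuotientGroup.out_eq' x

theorem tw_mem (g : SL(2, ℤ)) (x : SL(2, ℤ) ⧸ Γ) : tw g x ∈ Γ := by
  unfold tw
  rw [mul_assoc, ← QuotientGroup.eq, mk_out]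
  have : (QuotientGroup.mk (g * Quotient.out (g⁻¹ • x)) : SL(2, ℤ) ⧸ Γ) =
      g • (QuotientGroup.mk (Quotient.out (g⁻¹ • x)) : SL(2, ℤ) ⧸ Γ) := rfl
  rw [this, mk_out, smul_inv_smul]

theorem tw_mul (g h : SL(2, ℤ)) (x : SL(2, ℤ) ⧸ Γ) :
    tw (g * h) x = tw g x * tw h (g⁻¹ • x) := by
  unfold tw
  rw [mul_inv_rev, mul_smul]
  group

/-- If `g⁻¹` fixes `x`, the twisting element is a conjugate of `g`. -/
theorem tw_of_fixed {g : SL(2, ℤ)} {x : SL(2, ℤ) ⧸ Γ} (h : g⁻¹ • x = x) :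
    tw g x = (Quotient.out x)⁻¹ * g * Quotient.out x := by
  unfold tw
  rw [h]

variable (Γ) in
/-- The base point of `SL(2,ℤ) ⧸ Γ`. -/
def bpt : SL(2, ℤ) ⧸ Γ := QuotientGroup.mk 1

theorem smul_bpt_of_mem {γ : SL(2, ℤ)} (hγ : γ ∈ Γ) : γ • bpt Γ = bpt Γ := by
  show (QuotientGroup.mk (γ * 1) : SL(2, ℤ) ⧸ Γ) = QuotientGroup.mk 1
  rw [mul_one, QuotientGroup.eq, mul_one]
  exact Γ.inv_mem hγ

theorem inv_smul_bpt_of_mem {γ : SL(2, ℤ)} (hγ : γ ∈ Γ) : γ⁻¹ • bpt Γ = bpt Γ :=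
  smul_bpt_of_mem (Γ.inv_mem hγ)

theorem exists_smul_bpt (x : SL(2, ℤ) ⧸ Γ) : ∃ g : SL(2, ℤ), g • bpt Γ = x := by
  refine ⟨Quotient.out x, ?_⟩
  show (QuotientGroup.mk (Quotient.out x * 1) : SL(2, ℤ) ⧸ Γ) = x
  rw [mul_one, mk_out]

theorem out_bpt_mem : Quotient.out (bpt Γ) ∈ Γ := by
  have h : (QuotientGroup.mk (Quotient.out (bpt Γ)) : SL(2, ℤ) ⧸ Γ) = QuotientGroup.mk 1 :=
    mk_out (bpt Γ)
  rw [QuotientGroup.eq] at h
  have h2 := Γ.inv_mem h
  rwa [mul_one, inv_inv] at h2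

theorem neg_one_smul_coset (hneg : (-1 : SL(2, ℤ)) ∈ Γ) (x : SL(2, ℤ) ⧸ Γ) :
    (-1 : SL(2, ℤ)) • x = x := by
  induction x using QuotientGroup.induction_on with
  | H h =>
    show (QuotientGroup.mk (-1 * h) : SL(2, ℤ) ⧸ Γ) = QuotientGroup.mk h
    rw [QuotientGroup.eq]
    have : (-1 * h)⁻¹ * h = -1 := by
      have h1 : (-1 * h) * (-1 : SL(2, ℤ)) = h := by simp
      calc (-1 * h)⁻¹ * h = (-1 * h)⁻¹ * ((-1 * h) * (-1 : SL(2, ℤ))) := by rw [h1]
        _ = -1 := by rw [inv_mul_cancel_left]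
    rw [this]
    exact hneg

theorem permRep_neg_one (A : Type*) [AddCommGroup A] (hneg : (-1 : SL(2, ℤ)) ∈ Γ) :
    permRep A (-1 : SL(2, ℤ)) = (1 : ((SL(2, ℤ) ⧸ Γ) → A) ≃ₗ[ℤ] ((SL(2, ℤ) ⧸ Γ) → A)) := by
  ext m x
  show m ((-1 : SL(2, ℤ))⁻¹ • x) = m x
  have : ((-1 : SL(2, ℤ))⁻¹) = -1 := by decide
  rw [this, neg_one_smul_coset hneg]

/-- Additive characters of `Γ` (as raw functions). -/
def IsAddChar (c : Γ → A) : Prop := ∀ γ γ' : Γ, c (γ * γ') = c γ + c γ'

namespace IsAddChar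

variable {c : Γ → A}

theorem map_one (hc : IsAddChar c) : c 1 = 0 := by
  have h := hc 1 1
  rw [mul_one] at h
  have : c 1 + c 1 = c 1 + 0 := by rw [← h, add_zero]
  exact add_left_cancel this

theorem map_inv (hc : IsAddChar c) (γ : Γ) : c γ⁻¹ = -c γ := by
  have h := hc γ⁻¹ γ
  rw [inv_mul_cancel, hc.map_one] at h
  exact eq_neg_of_add_eq_zero_left h.symm

theorem map_conj (hc : IsAddChar c) (γ δ : Γ) : c (δ⁻¹ * γ * δ) = c γ := by
  rw [hc, hc, hc.map_inv]
  abel

end IsAddChar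

/-- The Shapiro cocycle of a function `c : Γ → A`. -/
noncomputable def shap (c : Γ → A) : SL(2, ℤ) → ((SL(2, ℤ) ⧸ Γ) → A) :=
  fun g x => c ⟨tw g x, tw_mem g x⟩

omit [AddCommGroup A] in
theorem shap_apply (c : Γ → A) (g : SL(2, ℤ)) (x : SL(2, ℤ) ⧸ Γ) :
    shap c g x = c ⟨tw g x, tw_mem g x⟩ := rfl

theorem isCocycle_shap {c : Γ → A} (hc : IsAddChar c) : IsCocycle (permRep A) (shap c) := by
  intro g h
  funext x
  rw [Pi.add_apply, permRep_apply, shap_apply, shap_apply, shap_apply, ← hc]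
  congr 1
  exact Subtype.ext (tw_mul g h x)

theorem shap_bpt {c : Γ → A} (hc : IsAddChar c) (γ : Γ) : shap c (γ : SL(2, ℤ)) (bpt Γ) = c γ := by
  rw [shap_apply]
  have h1 : (⟨tw (γ : SL(2, ℤ)) (bpt Γ), tw_mem _ _⟩ : Γ) =
      (⟨Quotient.out (bpt Γ), out_bpt_mem⟩ : Γ)⁻¹ * γ * ⟨Quotient.out (bpt Γ), out_bpt_mem⟩ := by
    apply Subtype.ext
    exact tw_of_fixed (inv_smul_bpt_of_mem γ.2)
  rw [h1, hc.map_conj]

/-- Restriction of a cocycle to a character of `Γ`. -/
def resChar (z : SL(2, ℤ) → ((SL(2, ℤ) ⧸ Γ) → A)) : Γ → A := fun γ => z (γ : SL(2, ℤ)) (bpt Γ)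

theorem isAddChar_resChar {z : SL(2, ℤ) → ((SL(2, ℤ) ⧸ Γ) → A)}
    (hz : IsCocycle (permRep A) z) : IsAddChar (resChar z) := by
  intro γ γ'
  show z ((γ : SL(2, ℤ)) * γ') (bpt Γ) = z γ (bpt Γ) + z γ' (bpt Γ)
  rw [hz, Pi.add_apply, permRep_apply, inv_smul_bpt_of_mem γ.2]

/-- Value of a cocycle on a conjugate `g h g⁻¹ ∈ Γ`, at the base point. -/
theorem cocycle_conj_bpt {z : SL(2, ℤ) → ((SL(2, ℤ) ⧸ Γ) → A)}
    (hz : IsCocycle (permRep A) z) (g h : SL(2, ℤ)) (hmem : g * h * g⁻¹ ∈ Γ) :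
    z (g * h * g⁻¹) (bpt Γ) = z h (g⁻¹ • bpt Γ) := by
  have e1 : z (g * h * g⁻¹) = z g + permRep A g (z h) - permRep A (g * h * g⁻¹) (z g) := by
    rw [hz (g * h) g⁻¹, hz g h, hz.map_inv, map_neg, ← LinearEquiv.mul_apply, ← map_mul]
    abel
  rw [e1]
  simp only [Pi.add_apply, Pi.sub_apply, permRep_apply]
  rw [inv_smul_bpt_of_mem hmem]
  abel

end Shapiro

end Fermat.Agent.Lib.HFree.H412

end
-- ===== PACK-END Lib/HFree/H412/Basic.lean

-- ===== PACK-BEGIN S21/IntA.lean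
section


/-!
# S21 — INT-A: the `Γ₀(N)`-partition of unity `chi N χ₁` built from an `SL(2,ℤ)`-partition `χ₁`
-/

set_option autoImplicit false
set_option linter.unusedSectionVars false
set_option linter.style.haveILetI false

open UpperHalfPlane CongruenceSubgroup MeasureTheory
open scoped MatrixGroups ContDiff

namespace Fermat.Agent.S21

namespace IntAAux

theorem mob_mem_Uhp (g : SL(2, ℤ)) (z : ℂ) : mob g z ∈ Uhp := (g • ofComplex z).im_pos

theorem mob_mul (g h : SL(2, ℤ)) (z : ℂ) : mob (g * h) z = mob g (mob h z) := by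
  simp only [mob, ofComplex_apply, mul_smul]

theorem continuousOn_mob (g : SL(2, ℤ)) : ContinuousOn (mob g) Uhp := by
  intro z hz
  have h1 : ContinuousAt (ofComplex : ℂ → ℍ) z := (contMDiffAt_ofComplex (n := 0) hz).continuousAt
  have h2 : ContinuousAt (fun w : ℍ => g • w) (ofComplex z) :=
    (continuous_const_smul (g : GL (Fin 2) ℝ)).continuousAt
  have h3 : ContinuousAt (fun w : ℍ => (w : ℂ)) (g • ofComplex z) :=
    UpperHalfPlane.continuous_coe.continuousAt
  have h4 : ContinuousAt (fun w : ℂ => g • ofComplex w) z :=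
    ContinuousAt.comp (f := (ofComplex : ℂ → ℍ)) (g := fun w : ℍ => g • w) h2 h1
  exact (ContinuousAt.comp (f := fun w : ℂ => g • ofComplex w)
    (g := fun w : ℍ => (w : ℂ)) h3 h4).continuousWithinAt

/-- The support of `g ↦ χ₁ (mob g z)` is finite. -/
theorem finite_support (χ₁ : ℂ → ℝ) (hχ : IsSL2ZPartition χ₁) (z : ℂ) (hz : z ∈ Uhp) :
    (Function.support fun g : SL(2, ℤ) => χ₁ (mob g z)).Finite := by
  refine (hχ.locfin {z} isCompact_singleton (by simpa using hz)).subset ?_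
  intro g hg
  exact ⟨z, rfl, hg⟩

/-- `chi` on the upper half plane. -/
theorem chi_of_mem (N : ℕ) (χ₁ : ℂ → ℝ) {z : ℂ} (hz : z ∈ Uhp) :
    chi N χ₁ z = ∑ᶠ q : SL(2, ℤ) ⧸ Gamma0 N, χ₁ (mob (Quotient.out q) z) := by
  unfold chi
  rw [Set.indicator_of_mem hz]

theorem chi_of_notMem (N : ℕ) (χ₁ : ℂ → ℝ) {z : ℂ} (hz : z ∉ Uhp) :
    chi N χ₁ z = 0 := by
  unfold chi
  rw [Set.indicator_of_notMem hz]

/-- The bijection `(γ, q) ↦ q.out * γ`. -/
noncomputable def prodEquiv (Γ : Subgroup SL(2, ℤ)) : Γ × (SL(2, ℤ) ⧸ Γ) ≃ SL(2, ℤ) where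
  toFun p := Quotient.out p.2 * (p.1 : SL(2, ℤ))
  invFun g := (⟨(Quotient.out (QuotientGroup.mk g : SL(2, ℤ) ⧸ Γ))⁻¹ * g, by
      rw [← QuotientGroup.eq]
      exact QuotientGroup.out_eq' _⟩, QuotientGroup.mk g)
  left_inv := by
    rintro ⟨γ, q⟩
    have h : (QuotientGroup.mk (Quotient.out q * (γ : SL(2, ℤ))) : SL(2, ℤ) ⧸ Γ) = q := by
      rw [QuotientGroup.mk_mul_of_mem _ γ.2]
      exact QuotientGroup.out_eq' q
    ext1
    · apply Subtype.ext
      simp only [h]
      group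
    · exact h
  right_inv := by
    intro g
    simp

theorem prodEquiv_apply (Γ : Subgroup SL(2, ℤ)) (γ : Γ) (q : SL(2, ℤ) ⧸ Γ) :
    prodEquiv Γ (γ, q) = Quotient.out q * (γ : SL(2, ℤ)) := rfl

end IntAAux

open IntAAux

section INT

variable (N : ℕ) [NeZero N] {χ₁ : ℂ → ℝ}

theorem chi_nonneg (hχ : IsSL2ZPartition χ₁) (z : ℂ) : 0 ≤ chi N χ₁ z := by
  unfold chi
  exact Set.indicator_nonneg (fun w _ => finsum_nonneg fun q => hχ.nonneg _) z

theorem chi_le_one (hχ : IsSL2ZPartition χ₁) (z : ℂ) : chi N χ₁ z ≤ 1 := by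
  by_cases hz : z ∈ Uhp
  · rw [chi_of_mem N χ₁ hz, ← hχ.sum_eq_one z hz]
    have hfin := finite_support χ₁ hχ z hz
    -- rewrite the left-hand side as a sum over `SL(2,ℤ)` supported on the range of `Quotient.out`
    classical
    have hinj : Function.Injective (Quotient.out : SL(2, ℤ) ⧸ Gamma0 N → SL(2, ℤ)) :=
      Quotient.out_injective
    have h1 : ∑ᶠ q : SL(2, ℤ) ⧸ Gamma0 N, χ₁ (mob (Quotient.out q) z)
        = ∑ᶠ g ∈ Set.range (Quotient.out : SL(2, ℤ) ⧸ Gamma0 N → SL(2, ℤ)), χ₁ (mob g z) :=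
      (finsum_mem_range (f := fun g : SL(2, ℤ) => χ₁ (mob g z)) hinj).symm
    rw [h1, finsum_mem_def]
    refine finsum_le_finsum' ?_ hfin (fun g => ?_)
    · refine hfin.subset fun g hg => ?_
      simp only [Function.mem_support, ne_eq] at hg ⊢
      intro h0
      apply hg
      rw [Set.indicator_apply, h0, ite_self]
    · show Set.indicator _ _ g ≤ _
      rw [Set.indicator_apply]
      split_ifs
      · exact le_rfl
      · exact hχ.nonneg _
  · rw [chi_of_notMem N χ₁ hz]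
    exact zero_le_one

theorem continuousOn_chi (hχ : IsSL2ZPartition χ₁) : ContinuousOn (chi N χ₁) Uhp := by
  haveI : Finite (SL(2, ℤ) ⧸ Gamma0 N) := Subgroup.finite_quotient_of_finiteIndex
  letI : Fintype (SL(2, ℤ) ⧸ Gamma0 N) := Fintype.ofFinite _
  have h : ContinuousOn
      (fun z => ∑ q : SL(2, ℤ) ⧸ Gamma0 N, χ₁ (mob (Quotient.out q) z)) Uhp := by
    refine continuousOn_finsetSum _ fun q _ => ?_
    exact hχ.smooth.continuousOn.comp (_root_.Fermat.Agent.S21.IntAAux.continuousOn_mob _) fun z _ => _root_.Fermat.Agent.S21.IntAAux.mob_mem_Uhp _ z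
  refine h.congr fun z hz => ?_
  rw [chi_of_mem N χ₁ hz, finsum_eq_sum_of_fintype]

theorem measurable_chi (hχ : IsSL2ZPartition χ₁) : Measurable (chi N χ₁) := by
  classical
  have h1 : chi N χ₁ = Uhp.piecewise (chi N χ₁) (fun _ => (0 : ℝ)) := by
    funext z
    by_cases hz : z ∈ Uhp
    · rw [Set.piecewise_eq_of_mem _ _ _ hz]
    · rw [Set.piecewise_eq_of_notMem _ _ _ hz, chi_of_notMem N χ₁ hz]
  rw [h1]
  exact (continuousOn_chi N hχ).measurable_piecewise continuousOn_const isOpen_Uhp.measurableSet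

theorem chi_locfin (hχ : IsSL2ZPartition χ₁) (K : Set ℂ) (hK : IsCompact K) (hKU : K ⊆ Uhp) :
    {γ : Gamma0 N | ∃ z ∈ K, chi N χ₁ (mob (γ : SL(2, ℤ)) z) ≠ 0}.Finite := by
  haveI : Finite (SL(2, ℤ) ⧸ Gamma0 N) := Subgroup.finite_quotient_of_finiteIndex
  have hF := hχ.locfin K hK hKU
  -- the finite set of all `q.out⁻¹ * g`, `g ∈ F`
  have hfin : (Set.image2 (fun (q : SL(2, ℤ) ⧸ Gamma0 N) (g : SL(2, ℤ)) => (Quotient.out q)⁻¹ * g)
      Set.univ {g : SL(2, ℤ) | ∃ z ∈ K, χ₁ (mob g z) ≠ 0}).Finite :=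
    Set.Finite.image2 _ Set.finite_univ hF
  refine Set.Finite.of_finite_image (f := fun γ : Gamma0 N => (γ : SL(2, ℤ)))
    (hfin.subset ?_) Subtype.val_injective.injOn
  rintro _ ⟨γ, ⟨z, hzK, hz⟩, rfl⟩
  rw [chi_of_mem N χ₁ (_root_.Fermat.Agent.S21.IntAAux.mob_mem_Uhp _ z)] at hz
  obtain ⟨q, hq⟩ : ∃ q : SL(2, ℤ) ⧸ Gamma0 N,
      χ₁ (mob (Quotient.out q) (mob (γ : SL(2, ℤ)) z)) ≠ 0 := by
    by_contra hcon
    push Not at hcon
    exact hz (by simp [hcon])
  refine ⟨q, Set.mem_univ _, Quotient.out q * (γ : SL(2, ℤ)), ⟨z, hzK, ?_⟩, by group⟩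
  rwa [_root_.Fermat.Agent.S21.IntAAux.mob_mul]

theorem chi_sum_eq_one (hχ : IsSL2ZPartition χ₁) (z : ℂ) (hz : z ∈ Uhp) :
    ∑ᶠ γ : Gamma0 N, chi N χ₁ (mob (γ : SL(2, ℤ)) z) = 1 := by
  have hfin := finite_support χ₁ hχ z hz
  have h1 : ∀ γ : Gamma0 N, chi N χ₁ (mob (γ : SL(2, ℤ)) z)
      = ∑ᶠ q : SL(2, ℤ) ⧸ Gamma0 N, χ₁ (mob (prodEquiv (Gamma0 N) (γ, q)) z) := by
    intro γ
    rw [chi_of_mem N χ₁ (_root_.Fermat.Agent.S21.IntAAux.mob_mem_Uhp _ z)]
    refine finsum_congr fun q => ?_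
    rw [prodEquiv_apply, _root_.Fermat.Agent.S21.IntAAux.mob_mul]
  simp only [h1]
  have hfin' : (Function.support fun p : Gamma0 N × (SL(2, ℤ) ⧸ Gamma0 N) =>
      χ₁ (mob (prodEquiv (Gamma0 N) p) z)).Finite := by
    have : (Function.support fun p : Gamma0 N × (SL(2, ℤ) ⧸ Gamma0 N) =>
        χ₁ (mob (prodEquiv (Gamma0 N) p) z))
        = (prodEquiv (Gamma0 N)) ⁻¹' (Function.support fun g : SL(2, ℤ) => χ₁ (mob g z)) := rfl
    rw [this]
    exact hfin.preimage (prodEquiv (Gamma0 N)).injective.injOn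
  rw [← finsum_curry (fun p : Gamma0 N × (SL(2, ℤ) ⧸ Gamma0 N) =>
      χ₁ (mob (prodEquiv (Gamma0 N) p) z)) hfin']
  rw [finsum_comp_equiv (prodEquiv (Gamma0 N)) (f := fun g : SL(2, ℤ) => χ₁ (mob g z))]
  exact hχ.sum_eq_one z hz

end INT

end Fermat.Agent.S21

end
-- ===== PACK-END S21/IntA.lean

-- ===== PACK-BEGIN S23/Cap/Symm.lean
section



/-!
# S23 / WP3 : symmetric functions of the conjugates `f ∣ γ`, `γ ∈ Γ₀(N) \ SL₂(ℤ)`.

Adapters (captain's interface) around `Fermat.Agent.S23.H503` (`H503/Lagrange.lean`).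
With `𝒬 = SL₂(ℤ) ⧸ Γ₀(N)`, `f_q = quotientFunc f q`, `μ = card 𝒬`:

* (A1) `∏_q (X - f_q) = X^μ + Σ_{i<μ} c_i X^{μ-1-i}`, `c_i = (-1)^{i+1} e_{i+1}(f_q)` is a level one
  cusp form of weight `k (i+1)`, and `f = f_1` is a root.
* (A2) Lagrange interpolation: `Σ_q f_q ∏_{q' ≠ q} (X - t_{q'}) = Σ_j a_j X^j` has level one
  coefficients `a_j` of weight `k + w (μ-1-j)`; at `X = t = t_1` it equals
  `f ∏_{q' ≠ 1} (t - t_{q'})`.  The same with `f = 1` gives `b_j`.
  `∏_{q' ≠ 1}(t - t_{q'}) ≠ 0` because every factor is a nonzero holomorphic function on `ℍ`.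
-/

set_option autoImplicit false

namespace Fermat.Agent.S23.Cap

open UpperHalfPlane ModularForm ModularFormClass MatrixGroups CongruenceSubgroup

/-- **WP3 (A1).** A cusp form on `Γ₀(N)` is a root of a monic polynomial whose coefficients are
level one cusp forms. -/
theorem exists_monic_relation (N : ℕ) [NeZero N] (k : ℤ) (f : ℍ → ℂ) (hf : IsCF (G0 N) k f) :
    ∃ (μ : ℕ) (c : ℕ → ℍ → ℂ), 0 < μ ∧ (∀ i < μ, IsCF SLZ (k * (i + 1)) (c i)) ∧
      f ^ μ + ∑ i ∈ Finset.range μ, c i * f ^ (μ - 1 - i) = 0 := by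
  obtain ⟨F, rfl⟩ := hf
  obtain ⟨n, b, hn, h⟩ := H503.exists_monic_cusp (𝒢 := G0 N) F
  refine ⟨n, fun i ↦ b (i + 1), hn,
    fun i _ ↦ ⟨CuspForm.mcast (by push_cast; ring) (b (i + 1)), rfl⟩, ?_⟩
  ext τ
  have h1 := h τ
  rw [← Finset.Ico_add_one_right_eq_Icc, Finset.sum_Ico_eq_sum_range, Nat.add_sub_cancel] at h1
  simp only [Pi.add_apply, Pi.pow_apply, Finset.sum_apply, Pi.mul_apply, Pi.zero_apply]
  rw [← h1]
  congr 1
  refine Finset.sum_congr rfl fun i _ ↦ ?_
  rw [show 1 + i = i + 1 from add_comm _ _, show n - (i + 1) = n - 1 - i by omega]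

/-- **WP3 (A2).** Lagrange interpolation. -/
theorem exists_lagrange (N : ℕ) [NeZero N] (k w : ℤ) (f t : ℍ → ℂ)
    (hf : IsMF (G0 N) k f) (ht : IsMF (G0 N) w t)
    (hdist : ∀ γ : GL (Fin 2) ℝ, γ ∈ SLZ → γ ∉ G0 N → t ∣[w] γ ≠ t) :
    ∃ (μ : ℕ) (a b : ℕ → ℍ → ℂ), 0 < μ ∧
      (∀ j < μ, IsMF SLZ (k + w * ((μ : ℤ) - 1 - j)) (a j)) ∧
      (∀ j < μ, IsMF SLZ (w * ((μ : ℤ) - 1 - j)) (b j)) ∧
      (∑ j ∈ Finset.range μ, b j * t ^ j) ≠ 0 ∧
      (∑ j ∈ Finset.range μ, b j * t ^ j) * f = ∑ j ∈ Finset.range μ, a j * t ^ j := by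
  obtain ⟨F, rfl⟩ := hf
  obtain ⟨T, rfl⟩ := ht
  have hdist' : ∀ q : SLZ ⧸ (G0 N).subgroupOf SLZ, q ≠ ((1 : SLZ) : SLZ ⧸ (G0 N).subgroupOf SLZ) →
      SlashInvariantForm.quotientFunc T q ≠ (T : ℍ → ℂ) := by
    intro q hq
    induction q using Quotient.inductionOn with
    | h r =>
      rw [SlashInvariantForm.quotientFunc_mk]
      refine hdist _ (inv_mem r.2) fun hmem ↦ hq ?_
      have h1 : r ∈ (G0 N).subgroupOf SLZ := by
        rw [Subgroup.mem_subgroupOf]
        simpa using inv_mem hmem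
      exact QuotientGroup.eq.mpr (by simpa using inv_mem h1)
  obtain ⟨n, a, c, hn, ⟨τ₀, hτ₀⟩, h⟩ := H503.exists_lagrange (𝒢 := G0 N) F T hdist'
  have hcast : ∀ j < n, (((n - 1 - j : ℕ) : ℤ)) = (n : ℤ) - 1 - j := by
    intro j hj
    omega
  have hsum : ∀ (g : ℕ → ℍ → ℂ) (τ : ℍ),
      ∑ j ∈ Finset.range n, g (n - 1 - j) τ * (T : ℍ → ℂ) τ ^ j =
        ∑ m ∈ Finset.range n, g m τ * (T : ℍ → ℂ) τ ^ (n - 1 - m) := by
    intro g τ
    rw [← Finset.sum_range_reflect]
    refine Finset.sum_congr rfl fun j hj ↦ ?_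
    have hj' := Finset.mem_range.mp hj
    congr 2
    omega
  refine ⟨n, fun j ↦ a (n - 1 - j), fun j ↦ c (n - 1 - j), hn, ?_, ?_, ?_, ?_⟩
  · intro j hj
    exact ⟨ModularForm.mcast (by rw [hcast j hj]) (a (n - 1 - j)), rfl⟩
  · intro j hj
    exact ⟨ModularForm.mcast (by rw [hcast j hj]) (c (n - 1 - j)), rfl⟩
  · intro h0
    apply hτ₀
    have := congrFun h0 τ₀
    simp only [Finset.sum_apply, Pi.mul_apply, Pi.pow_apply, Pi.zero_apply] at this
    rw [← this]
    exact (hsum (fun m ↦ (c m : ℍ → ℂ)) τ₀).symm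
  · ext τ
    simp only [Finset.sum_apply, Pi.mul_apply, Pi.pow_apply]
    rw [hsum (fun m ↦ (c m : ℍ → ℂ)) τ, hsum (fun m ↦ (a m : ℍ → ℂ)) τ, mul_comm]
    exact h τ

end Fermat.Agent.S23.Cap

end
-- ===== PACK-END S23/Cap/Symm.lean

-- ===== PACK-BEGIN S23/ConverseQ.lean
section



/-!
# S23, converse step: `q`-expansion form

A small API for "nice" functions on `ℍ` (holomorphic, `1`-periodic, bounded at `i∞`), on which
`qExpansion 1` is an injective ring homomorphism, and the `q`-expansion form of the converse step.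
-/

set_option autoImplicit false

namespace Fermat.Agent.S23.Conv

open Complex Filter Topology UpperHalfPlane ModularForm Function
open scoped MatrixGroups ModularForm Manifold

/-- Holomorphic, `1`-periodic and bounded at `i∞`. -/
def IsNice (f : ℍ → ℂ) : Prop :=
  MDiff f ∧ Periodic (f ∘ ofComplex) 1 ∧ IsBoundedAtImInfty f

namespace IsNice

variable {f g : ℍ → ℂ}

theorem analyticAt (hf : IsNice f) : AnalyticAt ℂ (cuspFunction 1 f) 0 :=
  analyticAt_cuspFunction_zero one_pos hf.2.1 hf.1 hf.2.2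

theorem one : IsNice (1 : ℍ → ℂ) := by
  refine ⟨mdifferentiable_const, fun z ↦ rfl, ?_⟩
  exact Filter.const_boundedAtFilter _ (1 : ℂ)

theorem mul (hf : IsNice f) (hg : IsNice g) : IsNice (f * g) := by
  refine ⟨hf.1.mul hg.1, fun z ↦ ?_, hf.2.2.mul hg.2.2⟩
  have h1 := hf.2.1 z
  have h2 := hg.2.1 z
  simp only [Function.comp_apply, Pi.mul_apply] at h1 h2 ⊢
  rw [h1, h2]

theorem add (hf : IsNice f) (hg : IsNice g) : IsNice (f + g) := by
  refine ⟨hf.1.add hg.1, fun z ↦ ?_, hf.2.2.add hg.2.2⟩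
  have h1 := hf.2.1 z
  have h2 := hg.2.1 z
  simp only [Function.comp_apply, Pi.add_apply] at h1 h2 ⊢
  rw [h1, h2]

theorem pow (hf : IsNice f) (n : ℕ) : IsNice (f ^ n) := by
  induction n with
  | zero => simpa using one
  | succ n ih => rw [pow_succ]; exact ih.mul hf

theorem sum {ι : Type*} (s : Finset ι) {F : ι → ℍ → ℂ} (hF : ∀ i ∈ s, IsNice (F i)) :
    IsNice (∑ i ∈ s, F i) := by
  classical
  induction s using Finset.induction_on with
  | empty =>
    simp only [Finset.sum_empty]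
    refine ⟨mdifferentiable_const, fun z ↦ rfl, ?_⟩
    exact Filter.const_boundedAtFilter _ (0 : ℂ)
  | insert a s ha ih =>
    rw [Finset.sum_insert ha]
    exact (hF a (Finset.mem_insert_self a s)).add
      (ih fun i hi ↦ hF i (Finset.mem_insert_of_mem hi))

theorem qExpansion_mul (hf : IsNice f) (hg : IsNice g) :
    qExpansion 1 (f * g) = qExpansion 1 f * qExpansion 1 g :=
  UpperHalfPlane.qExpansion_mul hf.analyticAt hg.analyticAt

theorem qExpansion_add (hf : IsNice f) (hg : IsNice g) :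
    qExpansion 1 (f + g) = qExpansion 1 f + qExpansion 1 g :=
  UpperHalfPlane.qExpansion_add hf.analyticAt hg.analyticAt

theorem qExpansion_pow (hf : IsNice f) (n : ℕ) :
    qExpansion 1 (f ^ n) = qExpansion 1 f ^ n := by
  induction n with
  | zero => simpa using UpperHalfPlane.qExpansion_one 1
  | succ n ih => rw [pow_succ, pow_succ, qExpansion_mul (hf.pow n) hf, ih]

theorem qExpansion_sum {ι : Type*} (s : Finset ι) {F : ι → ℍ → ℂ} (hF : ∀ i ∈ s, IsNice (F i)) :
    qExpansion 1 (∑ i ∈ s, F i) = ∑ i ∈ s, qExpansion 1 (F i) := by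
  classical
  induction s using Finset.induction_on with
  | empty => simpa using UpperHalfPlane.qExpansion_zero 1
  | insert a s ha ih =>
    rw [Finset.sum_insert ha, Finset.sum_insert ha,
      qExpansion_add (hF a (Finset.mem_insert_self a s))
        (sum s fun i hi ↦ hF i (Finset.mem_insert_of_mem hi)),
      ih fun i hi ↦ hF i (Finset.mem_insert_of_mem hi)]

theorem qExpansion_eq_zero_iff (hf : IsNice f) : qExpansion 1 f = 0 ↔ f = 0 :=
  UpperHalfPlane.qExpansion_eq_zero_iff one_pos hf.2.1 hf.1 hf.2.2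

end IsNice

/-- Modular forms (for a group having `1` as a strict period) are nice. -/
theorem isNice_of_modularFormClass {F : Type*} [FunLike F ℍ ℂ] {Γ : Subgroup (GL (Fin 2) ℝ)}
    {k : ℤ} [ModularFormClass F Γ k] (hΓ : (1 : ℝ) ∈ Γ.strictPeriods) (f : F) :
    IsNice (f : ℍ → ℂ) := by
  have : Fact (IsCusp OnePoint.infty Γ) := ⟨Γ.isCusp_of_mem_strictPeriods one_pos hΓ⟩
  exact ⟨ModularFormClass.holo f, SlashInvariantFormClass.periodic_comp_ofComplex f hΓ,
    ModularFormClass.bdd_at_infty f⟩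


/-- **Converse step, `q`-expansion form, function-level hypotheses.** -/
theorem exists_cuspForm_qExpansion_eq_fun {Γ : Subgroup SL(2, ℤ)} [Γ.FiniteIndex]
    (hΓ : (1 : ℝ) ∈ (Γ : Subgroup (GL (Fin 2) ℝ)).strictPeriods)
    {k w m : ℤ} (hm : m = w + k) (g h : ℍ → ℂ) (hgN : IsNice g) (hhN : IsNice h)
    (hgΓ : ∀ γ ∈ Γ, g ∣[m] γ = g) (hhΓ : ∀ γ ∈ Γ, h ∣[w] γ = h)
    (hH : qExpansion 1 h ≠ 0)
    {n : ℕ} (hn : 0 < n) (b : ℕ → ℍ → ℂ)
    (hb : ∀ i < n, ∃ (wi : ℤ) (B : CuspForm 𝒮ℒ wi), wi = k * ((n : ℤ) - i) ∧ ⇑B = b i)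
    (x : PowerSeries ℂ) (hx : x * qExpansion 1 h = qExpansion 1 g)
    (hmonic : x ^ n + ∑ i ∈ Finset.range n, qExpansion 1 (b i) * x ^ i = 0) :
    ∃ F : CuspForm Γ k, qExpansion 1 F = x := by
  have hbN : ∀ i ∈ Finset.range n, IsNice (b i) := by
    intro i hi
    obtain ⟨wi, B, -, hB⟩ := hb i (Finset.mem_range.mp hi)
    rw [← hB]
    exact isNice_of_modularFormClass _root_.one_mem_strictPeriods_SL B
  have hne : ∃ τ, h τ ≠ 0 := by
    by_contra hcon
    push Not at hcon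
    exact hH (hhN.qExpansion_eq_zero_iff.mpr (funext hcon))
  -- the function `Φ = g ^ n + ∑ b_i g ^ i h ^ (n - i)`
  set Φ : ℍ → ℂ := g ^ n + ∑ i ∈ Finset.range n, b i * g ^ i * h ^ (n - i) with hΦ
  have hterm : ∀ i ∈ Finset.range n, IsNice (b i * g ^ i * h ^ (n - i)) :=
    fun i hi ↦ ((hbN i hi).mul (hgN.pow i)).mul (hhN.pow (n - i))
  have hΦN : IsNice Φ := (hgN.pow n).add (IsNice.sum _ hterm)
  have hΦq : qExpansion 1 Φ = 0 := by
    rw [hΦ, IsNice.qExpansion_add (hgN.pow n) (IsNice.sum _ hterm), hgN.qExpansion_pow,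
      IsNice.qExpansion_sum _ hterm]
    have : ∀ i ∈ Finset.range n, qExpansion 1 (b i * g ^ i * h ^ (n - i)) =
        qExpansion 1 h ^ n * (qExpansion 1 (b i) * x ^ i) := by
      intro i hi
      rw [IsNice.qExpansion_mul ((hbN i hi).mul (hgN.pow i)) (hhN.pow (n - i)),
        IsNice.qExpansion_mul (hbN i hi) (hgN.pow i), hgN.qExpansion_pow, hhN.qExpansion_pow,
        ← hx]
      have hi' : i ≤ n := (Finset.mem_range.mp hi).le
      have : qExpansion 1 h ^ n = qExpansion 1 h ^ i * qExpansion 1 h ^ (n - i) := by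
        rw [← pow_add]; congr 1; omega
      rw [this]
      ring
    rw [Finset.sum_congr rfl this, ← Finset.mul_sum, ← hx, mul_pow]
    have : x ^ n * qExpansion 1 h ^ n + qExpansion 1 h ^ n *
        ∑ i ∈ Finset.range n, qExpansion 1 (b i) * x ^ i =
        qExpansion 1 h ^ n * (x ^ n + ∑ i ∈ Finset.range n, qExpansion 1 (b i) * x ^ i) := by
      ring
    rw [this, hmonic, mul_zero]
  have hΦ0 : Φ = 0 := hΦN.qExpansion_eq_zero_iff.mp hΦq
  have heq : ∀ τ, g τ ^ n + ∑ i ∈ Finset.range n, b i τ * g τ ^ i * h τ ^ (n - i) = 0 := by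
    intro τ
    have := congrFun hΦ0 τ
    simpa [hΦ] using this
  obtain ⟨F, hF⟩ := exists_cuspForm_of_monic_eq_fun hm g h hgN.1 hhN.1 hgΓ hhΓ hne hn b hb heq
  refine ⟨F, ?_⟩
  have hFN : IsNice (F : ℍ → ℂ) := isNice_of_modularFormClass hΓ F
  have hFh : (F : ℍ → ℂ) * h = g := funext hF
  have h1 : qExpansion 1 F * qExpansion 1 h = x * qExpansion 1 h := by
    rw [← IsNice.qExpansion_mul hFN hhN, hFh, hx]
  exact mul_right_cancel₀ hH h1

/-- **Converse step, `q`-expansion form.** Let `g, h` be modular forms of level `Γ` and weights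
`w + k`, `w` with `h ≠ 0`, and let `x` be a formal power series with `x * qExp h = qExp g`
satisfying a monic equation `x ^ n + ∑_{i < n} qExp (b i) * x ^ i = 0` whose coefficients are
`q`-expansions of level-one cusp forms `b i` of weight `k * (n - i)`. Then `x` is the
`q`-expansion of a cusp form of weight `k` and level `Γ`. -/
theorem exists_cuspForm_qExpansion_eq {Γ : Subgroup SL(2, ℤ)} [Γ.FiniteIndex]
    (hΓ : (1 : ℝ) ∈ (Γ : Subgroup (GL (Fin 2) ℝ)).strictPeriods)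
    {k w m : ℤ} (hm : m = w + k) (g : ModularForm Γ m) (h : ModularForm Γ w) (hh : h ≠ 0)
    {n : ℕ} (hn : 0 < n) (b : ℕ → ℍ → ℂ)
    (hb : ∀ i < n, ∃ (wi : ℤ) (B : CuspForm 𝒮ℒ wi), wi = k * ((n : ℤ) - i) ∧ ⇑B = b i)
    (x : PowerSeries ℂ) (hx : x * qExpansion 1 h = qExpansion 1 g)
    (hmonic : x ^ n + ∑ i ∈ Finset.range n, qExpansion 1 (b i) * x ^ i = 0) :
    ∃ F : CuspForm Γ k, qExpansion 1 F = x := by
  have hgN : IsNice (g : ℍ → ℂ) := isNice_of_modularFormClass hΓ g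
  have hhN : IsNice (h : ℍ → ℂ) := isNice_of_modularFormClass hΓ h
  have hH : qExpansion 1 h ≠ 0 := by
    rw [Ne, hhN.qExpansion_eq_zero_iff]
    intro h0
    exact hh (DFunLike.coe_injective (by rw [h0]; rfl))
  refine exists_cuspForm_qExpansion_eq_fun hΓ hm g h hgN hhN (fun γ hγ ↦ ?_) (fun γ hγ ↦ ?_) hH hn
    b hb x hx hmonic
  · exact SlashInvariantForm.slash_action_eqn g _ ⟨γ, hγ, rfl⟩
  · exact SlashInvariantForm.slash_action_eqn h _ ⟨γ, hγ, rfl⟩

theorem one_mem_strictPeriods_Gamma0' (N : ℕ) :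
    (1 : ℝ) ∈ ((CongruenceSubgroup.Gamma0 N : Subgroup SL(2, ℤ)) :
      Subgroup (GL (Fin 2) ℝ)).strictPeriods := by
  simp

/-- The converse step for `Γ₀(N)`, `q`-expansion form, any weight `k`. -/
theorem exists_cuspForm_Gamma0_qExpansion_eq (N : ℕ) [NeZero N]
    {k w m : ℤ} (hm : m = w + k) (g : ModularForm (CongruenceSubgroup.Gamma0 N) m)
    (h : ModularForm (CongruenceSubgroup.Gamma0 N) w) (hh : h ≠ 0)
    {n : ℕ} (hn : 0 < n) (b : ℕ → ℍ → ℂ)
    (hb : ∀ i < n, ∃ (wi : ℤ) (B : CuspForm 𝒮ℒ wi), wi = k * ((n : ℤ) - i) ∧ ⇑B = b i)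
    (x : PowerSeries ℂ) (hx : x * qExpansion 1 h = qExpansion 1 g)
    (hmonic : x ^ n + ∑ i ∈ Finset.range n, qExpansion 1 (b i) * x ^ i = 0) :
    ∃ F : CuspForm (CongruenceSubgroup.Gamma0 N) k, qExpansion 1 F = x :=
  exists_cuspForm_qExpansion_eq (one_mem_strictPeriods_Gamma0' N) hm g h hh hn b hb x hx hmonic

end Fermat.Agent.S23.Conv

end
-- ===== PACK-END S23/ConverseQ.lean

-- ===== PACK-BEGIN Lib/Newform/H683/Extract.lean
section
/-
NEWFORM library (helper683) — part 3: EXTRACTION of a normalized eigenform from any nonzero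
common eigenvector of the good Hecke operators, and existence of a newform below any eigenform.
-/







set_option autoImplicit false

open CongruenceSubgroup ModularFormClass ModularForm UpperHalfPlane

namespace Fermat.Agent.Lib.Newform.H683

variable {M : ℕ}

/-- The full family of Hecke operators at level `M`, indexed by the primes:
`T_p` for `p ∤ M` and `U_p` for `p ∣ M`. -/
noncomputable def heckeFamily (M : ℕ) [NeZero M] (p : Nat.Primes) :
    Module.End ℂ (CuspForm (Gamma0 M) 2) :=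
  if hpM : (p : ℕ) ∣ M then CuspForm.heckeULin 2 hpM else CuspForm.heckeTLin 2 p.2 hpM

theorem heckeFamily_of_dvd [NeZero M] (p : Nat.Primes) (hpM : (p : ℕ) ∣ M) :
    heckeFamily M p = CuspForm.heckeULin 2 hpM := by
  simp [heckeFamily, hpM]

theorem heckeFamily_of_not_dvd [NeZero M] (p : Nat.Primes) (hpM : ¬ (p : ℕ) ∣ M) :
    heckeFamily M p = CuspForm.heckeTLin 2 p.2 hpM := by
  simp [heckeFamily, hpM]

theorem heckeFamily_commute [NeZero M] (p q : Nat.Primes) :
    Commute (heckeFamily M p) (heckeFamily M q) := by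
  by_cases hp : (p : ℕ) ∣ M <;> by_cases hq : (q : ℕ) ∣ M
  · rw [heckeFamily_of_dvd p hp, heckeFamily_of_dvd q hq]
    exact CuspForm.heckeULin_comm 2 hp hq
  · rw [heckeFamily_of_dvd p hp, heckeFamily_of_not_dvd q hq]
    exact (CuspForm.heckeTLin_heckeULin_comm 2 q.2 hq hp).symm
  · rw [heckeFamily_of_not_dvd p hp, heckeFamily_of_dvd q hq]
    exact CuspForm.heckeTLin_heckeULin_comm 2 p.2 hp hq
  · rw [heckeFamily_of_not_dvd p hp, heckeFamily_of_not_dvd q hq]
    exact CuspForm.heckeTLin_comm 2 p.2 hp q.2 hq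

/-- The simultaneous eigenspace of the `T_ℓ`, `ℓ ∤ M`, `ℓ ∈ P`, for the eigenvalues `a ℓ`. -/
noncomputable def eigenSub (M : ℕ) [NeZero M] (P : ℕ → Prop) (a : ℕ → ℂ) :
    Submodule ℂ (CuspForm (Gamma0 M) 2) where
  carrier := {v | ∀ ℓ : ℕ, ℓ.Prime → ¬ ℓ ∣ M → P ℓ → heckeT 2 ℓ ⇑v = a ℓ • ⇑v}
  add_mem' := by
    intro v w hv hw ℓ h1 h2 h3
    rw [FunLike.coe_add, heckeT_add, hv ℓ h1 h2 h3, hw ℓ h1 h2 h3, smul_add]
  zero_mem' := by
    intro ℓ _ _ _
    rw [FunLike.coe_zero, heckeT_zero, smul_zero]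
  smul_mem' := by
    intro c v hv ℓ h1 h2 h3
    rw [FunLike.coe_smul, heckeT_smul, hv ℓ h1 h2 h3, smul_comm]

theorem mem_eigenSub [NeZero M] (P : ℕ → Prop) (a : ℕ → ℂ) (v : CuspForm (Gamma0 M) 2) :
    v ∈ eigenSub M P a ↔
      ∀ ℓ : ℕ, ℓ.Prime → ¬ ℓ ∣ M → P ℓ → heckeT 2 ℓ ⇑v = a ℓ • ⇑v := Iff.rfl

theorem eigenSub_stable [NeZero M] (P : ℕ → Prop) (a : ℕ → ℂ) (p : Nat.Primes)
    (v : CuspForm (Gamma0 M) 2) (hv : v ∈ eigenSub M P a) :
    heckeFamily M p v ∈ eigenSub M P a := by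
  intro ℓ hℓ hℓM hPℓ
  have hcm := heckeFamily_commute (M := M) ⟨ℓ, hℓ⟩ p
  rw [heckeFamily_of_not_dvd ⟨ℓ, hℓ⟩ hℓM] at hcm
  have h1 : CuspForm.heckeTLin 2 hℓ hℓM (heckeFamily M p v)
      = heckeFamily M p (CuspForm.heckeTLin 2 hℓ hℓM v) := by
    have := congrArg (fun f : Module.End ℂ (CuspForm (Gamma0 M) 2) => f v) hcm.eq
    simpa using this
  have h2 : CuspForm.heckeTLin 2 hℓ hℓM v = a ℓ • v := by
    apply DFunLike.coe_injective
    rw [CuspForm.coe_heckeTLin_apply, hv ℓ hℓ hℓM hPℓ, FunLike.coe_smul]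
  rw [h2, map_smul] at h1
  have := congrArg (fun g : CuspForm (Gamma0 M) 2 => (⇑g : ℍ → ℂ)) h1
  simpa using this

/-- **(E2) Extraction.** If some nonzero cusp form of level `M` is an eigenvector of the `T_ℓ`
for all primes `ℓ ∤ M` in a set `P`, with eigenvalues `a ℓ`, then there is a *normalized
eigenform* (Prelude sense: all `T_p`, `p ∤ M`, and all `U_p`, `p ∣ M`) of level `M` whose `ℓ`-th
coefficient is `a ℓ` for all those `ℓ`. -/
theorem exists_normalizedEigenform_of_eigenvector [NeZero M] (P : ℕ → Prop) (a : ℕ → ℂ)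
    (h : CuspForm (Gamma0 M) 2) (hh : h ≠ 0)
    (heig : ∀ ℓ : ℕ, ℓ.Prime → ¬ ℓ ∣ M → P ℓ → heckeT 2 ℓ ⇑h = a ℓ • ⇑h) :
    ∃ g : CuspForm (Gamma0 M) 2, g.IsNormalizedEigenform ∧
      ∀ ℓ : ℕ, ℓ.Prime → ¬ ℓ ∣ M → P ℓ → qCoeff ⇑g ℓ = a ℓ := by
  haveI := finiteDimensional_cuspForm M 2
  have hE : eigenSub M P a ≠ ⊥ := by
    intro hbot
    have : h ∈ (⊥ : Submodule ℂ (CuspForm (Gamma0 M) 2)) := hbot ▸ heig
    exact hh (by simpa using this)
  obtain ⟨g₀, hg₀E, hg₀, hg₀eig⟩ := exists_common_eigenvector (heckeFamily M)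
    heckeFamily_commute (eigenSub M P a) hE (fun p v hv => eigenSub_stable P a p v hv)
  have hT : ∀ p : ℕ, p.Prime → ¬ p ∣ M → ∃ c : ℂ, heckeT 2 p ⇑g₀ = c • ⇑g₀ := by
    intro p hp hpM
    obtain ⟨c, hc⟩ := hg₀eig ⟨p, hp⟩
    rw [heckeFamily_of_not_dvd ⟨p, hp⟩ hpM] at hc
    refine ⟨c, ?_⟩
    have := congrArg (fun g : CuspForm (Gamma0 M) 2 => (⇑g : ℍ → ℂ)) hc
    simpa using this
  have hU : ∀ p : ℕ, p.Prime → p ∣ M → ∃ c : ℂ, heckeU 2 p ⇑g₀ = c • ⇑g₀ := by
    intro p hp hpM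
    obtain ⟨c, hc⟩ := hg₀eig ⟨p, hp⟩
    rw [heckeFamily_of_dvd ⟨p, hp⟩ hpM] at hc
    refine ⟨c, ?_⟩
    have := congrArg (fun g : CuspForm (Gamma0 M) 2 => (⇑g : ℍ → ℂ)) hc
    simpa using this
  have h1 : qCoeff ⇑g₀ 1 ≠ 0 := fun h0 =>
    hg₀ (eq_zero_of_eigen_of_coeff_one_eq_zero g₀ hT hU h0)
  set c₀ : ℂ := (qCoeff ⇑g₀ 1)⁻¹ with hc₀
  have hc₀ne : c₀ ≠ 0 := inv_ne_zero h1
  refine ⟨c₀ • g₀, ?_, ?_⟩
  · apply isNormalizedEigenform_of_eigen
    · rw [qCoeff_smul_cusp, hc₀, inv_mul_cancel₀ h1]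
    · intro p hp hpM
      obtain ⟨c, hc⟩ := hT p hp hpM
      exact ⟨c, by rw [FunLike.coe_smul, heckeT_smul, hc, smul_comm]⟩
    · intro p hp hpM
      obtain ⟨c, hc⟩ := hU p hp hpM
      exact ⟨c, by rw [FunLike.coe_smul, heckeU_smul, hc, smul_comm]⟩
  · intro ℓ hℓ hℓM hPℓ
    have hmem : c₀ • g₀ ∈ eigenSub M P a := Submodule.smul_mem _ _ hg₀E
    have := eigenvalue_T_eq_coeff (c₀ • g₀)
      (by rw [qCoeff_smul_cusp, hc₀, inv_mul_cancel₀ h1]) hℓ (a ℓ) (hmem ℓ hℓ hℓM hPℓ)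
    exact this.symm

/-- **(E3) Newform below.** Every normalized eigenform `f` of level `N` shares its good
eigenvalues with a *newform* (Prelude sense) of some level `M ∣ N`. -/
theorem exists_newform_below {N : ℕ} (hN : N ≠ 0) (f : CuspForm (Gamma0 N) 2)
    (hf : f.IsNormalizedEigenform) :
    ∃ (M : ℕ) (_ : M ∣ N) (g : CuspForm (Gamma0 M) 2), g.IsNewform ∧
      ∀ ℓ : ℕ, ℓ.Prime → ¬ ℓ ∣ N → qCoeff ⇑g ℓ = qCoeff ⇑f ℓ := by
  induction N using Nat.strong_induction_on with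
  | _ N ih =>
    by_cases hnew : f.IsNewform
    · exact ⟨N, dvd_rfl, f, hnew, fun _ _ _ => rfl⟩
    · have : ∃ M : ℕ, M ∣ N ∧ M ≠ N ∧ CuspForm.GoodEigensystemOccursAt f M := by
        by_contra hcon
        push Not at hcon
        exact hnew ⟨hf, fun M hM hMN hocc => hcon M hM hMN hocc⟩
      obtain ⟨M, hMN, hne, g, hg, hgf⟩ := this
      have hM0 : M ≠ 0 := fun h0 => hN (by simpa [h0] using hMN)
      have hlt : M < N := lt_of_le_of_ne (Nat.le_of_dvd (Nat.pos_of_ne_zero hN) hMN) hne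
      obtain ⟨M', hM'M, g', hg', hg'g⟩ := ih M hlt hM0 g hg
      refine ⟨M', hM'M.trans hMN, g', hg', fun ℓ hℓ hℓN => ?_⟩
      rw [hg'g ℓ hℓ (fun h => hℓN (h.trans hMN)), hgf ℓ hℓ hℓN]

end Fermat.Agent.Lib.Newform.H683

end
-- ===== PACK-END Lib/Newform/H683/Extract.lean

-- ===== PACK-BEGIN Lib/Newform/H563/LowerU.lean
section



/-!
# NEWFORM library (helper563): leaf `LowerU` of the frozen interface `H958/Spec.lean`.
-/

set_option autoImplicit false

noncomputable section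

namespace Fermat.Agent.Lib.Newform.H563

open UpperHalfPlane ModularForm CongruenceSubgroup ModularFormClass
open scoped MatrixGroups Manifold

/-- Leaf **LOWER-U**: if `q² ∣ N` then `U_q` maps level `N` to level `N / q`. -/
theorem lowerU : H958.LowerU := by
  intro N q _ hq hq2 f
  obtain ⟨M, hM⟩ : q ∣ N := dvd_trans (dvd_pow_self q two_ne_zero) hq2
  have hqM : q ∣ M := by
    rw [hM, pow_two] at hq2
    exact (Nat.mul_dvd_mul_iff_left hq.pos).mp hq2
  have hN0 : N ≠ 0 := NeZero.ne N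
  have hM0 : M ≠ 0 := by rintro rfl; exact hN0 (by simpa using hM)
  have hdiv : N / q = M := by rw [hM]; exact Nat.mul_div_cancel_left M hq.pos
  have : NeZero M := ⟨hM0⟩
  have : NeZero q := ⟨hq.ne_zero⟩
  have hfN : ∀ γ ∈ (Gamma0 (q * M) : Subgroup (GL (Fin 2) ℝ)), (⇑f) ∣[(2 : ℤ)] γ = ⇑f := by
    intro γ hγ
    rw [← hM] at hγ
    exact SlashInvariantFormClass.slash_action_eq f γ hγ
  have hinv : ∀ γ ∈ (Gamma0 M : Subgroup (GL (Fin 2) ℝ)),
      (⇑(CuspForm.heckeULin 2 (hM ▸ dvd_mul_right q M : q ∣ N) f)) ∣[(2 : ℤ)] γ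
        = ⇑(CuspForm.heckeULin 2 (hM ▸ dvd_mul_right q M : q ∣ N) f) := by
    intro γ hγ
    exact heckeU_slash_of_dvd (2 : ℤ) hqM hfN γ hγ
  rw [hdiv]
  exact ⟨lowerLevel _ hinv, rfl⟩

end Fermat.Agent.Lib.Newform.H563

end
end
-- ===== PACK-END Lib/Newform/H563/LowerU.lean

-- ===== PACK-BEGIN A2/H48/Qep2.lean
section


/-!
# A2 / piece QEP2, part 3 (helper48): the `q`-expansion principle for a two-component model

Mathlib-only.  `R` a factorial domain with prime element `ϖ` (in the application a discrete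
valuation ring `A ∩ E`), `K = Frac R[X]` (`X ↦ j` or `X ↦ 1/j`), `F / K` finite of degree `n`,
`V₁ ≠ V₂` valuation rings of `F` which both

* contain `R[X]`, have maximal ideal generated by `ϖ`,
* induce the Gauss valuation on `K` (a polynomial not divisible by `ϖ` is a unit),

together with families `b` in `V₁`, `c` in `V₂` with `f₁ + f₂ = n` members whose residues are
linearly independent over `(R/ϖ)[X]` (`GaussPair`).  Then

* `GaussPair.exists_monic_of_mem` : every element of `V₁ ∩ V₂` is integral over the Gauss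
  ring `O = V₁ ∩ K` (no third extension of the Gauss valuation to `F`);
* `GaussPair.qep2` : **if `u` is integral over `R[X]` and `u/ϖ ∈ V₁ ∩ V₂` then `u/ϖ` is integral
  over `R[X]`**, i.e. for the chart `B` = integral closure of `R[X]` in `F`:
  `B ∩ ϖ (V₁ ∩ V₂) = ϖ B`;
* `GaussPair.reduced` : `u` integral over `R[X]`, `u ^ k / ϖ` integral over `R[X]`, `k ≥ 1`
  `⟹ u/ϖ` integral over `R[X]` (the special fibre `B/ϖB` is reduced).
-/

set_option autoImplicit false
set_option linter.unusedSectionVars false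

namespace Fermat.Agent.A2.H48

open Polynomial

variable {R : Type*} [CommRing R] [IsDomain R] [UniqueFactorizationMonoid R]
variable {K F : Type*} [Field K] [Field F] [Algebra R[X] K] [IsFractionRing R[X] K]
  [Algebra K F] [Algebra R[X] F] [IsScalarTower R[X] K F]

/-- The hypotheses of the two-component `q`-expansion principle. -/
structure GaussPair (ϖ : R) (V₁ V₂ : ValuationSubring F)
    {f₁ f₂ : ℕ} (b : Fin f₁ → F) (c : Fin f₂ → F) : Prop where
  prime : Prime ϖ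
  unif₁ : IsUnif V₁ (algebraMap R[X] F (C ϖ))
  unif₂ : IsUnif V₂ (algebraMap R[X] F (C ϖ))
  poly₁ : ∀ P : R[X], algebraMap R[X] F P ∈ V₁
  poly₂ : ∀ P : R[X], algebraMap R[X] F P ∈ V₂
  gauss₁ : ∀ P : R[X], ¬ C ϖ ∣ P → (algebraMap R[X] F P)⁻¹ ∈ V₁
  gauss₂ : ∀ P : R[X], ¬ C ϖ ∣ P → (algebraMap R[X] F P)⁻¹ ∈ V₂
  ne : V₁ ≠ V₂
  b_mem : ∀ i, b i ∈ V₁
  c_mem : ∀ j, c j ∈ V₂
  b_indep : ∀ a : Fin f₁ → R[X],
    (∑ i, algebraMap R[X] F (a i) * b i) * (algebraMap R[X] F (C ϖ))⁻¹ ∈ V₁ → ∀ i, C ϖ ∣ a i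
  c_indep : ∀ a : Fin f₂ → R[X],
    (∑ j, algebraMap R[X] F (a j) * c j) * (algebraMap R[X] F (C ϖ))⁻¹ ∈ V₂ → ∀ j, C ϖ ∣ a j
  card : f₁ + f₂ = Module.finrank K F

section GaussRing

variable (K)

/-- The Gauss ring `V ∩ K`. -/
def gaussRing (V : ValuationSubring F) : ValuationSubring K := V.comap (algebraMap K F)

variable {K}

theorem mem_gaussRing {V : ValuationSubring F} {a : K} :
    a ∈ gaussRing K V ↔ algebraMap K F a ∈ V := ValuationSubring.mem_comap

variable {ϖ : R} {V : ValuationSubring F}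

theorem prime_C (hϖ : Prime ϖ) : Prime (C ϖ : R[X]) := prime_C_iff.2 hϖ

theorem algebraMap_C_ne_zero (hϖ : Prime ϖ) : algebraMap R[X] K (C ϖ) ≠ 0 := by
  intro h
  have := (IsFractionRing.injective R[X] K) (h.trans (map_zero _).symm)
  exact (prime_C hϖ).ne_zero this

theorem map_eq (P : R[X]) : algebraMap K F (algebraMap R[X] K P) = algebraMap R[X] F P :=
  (IsScalarTower.algebraMap_apply R[X] K F P).symm

/-- Elements of the form `P / Q`, `ϖ ∤ Q`, lie in the Gauss ring. -/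
theorem div_mem_gaussRing (hpoly : ∀ P : R[X], algebraMap R[X] F P ∈ V)
    (hgauss : ∀ P : R[X], ¬ C ϖ ∣ P → (algebraMap R[X] F P)⁻¹ ∈ V)
    (P : R[X]) {Q : R[X]} (hQ : ¬ C ϖ ∣ Q) :
    algebraMap R[X] K P / algebraMap R[X] K Q ∈ gaussRing K V := by
  rw [mem_gaussRing, map_div₀, map_eq, map_eq, div_eq_mul_inv]
  exact mul_mem (hpoly P) (hgauss Q hQ)

/-- Every element of the Gauss ring is of the form `P / Q` with `ϖ ∤ Q`. -/
theorem exists_div_of_mem_gaussRing (hϖ : Prime ϖ) (hunif : IsUnif V (algebraMap R[X] F (C ϖ)))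
    (hpoly : ∀ P : R[X], algebraMap R[X] F P ∈ V)
    (hgauss : ∀ P : R[X], ¬ C ϖ ∣ P → (algebraMap R[X] F P)⁻¹ ∈ V)
    {a : K} (ha : a ∈ gaussRing K V) :
    ∃ P Q : R[X], ¬ C ϖ ∣ Q ∧ a = algebraMap R[X] K P / algebraMap R[X] K Q := by
  obtain ⟨P, Q, hQ, rfl⟩ := IsFractionRing.div_surjective R[X] (K := K) a
  have hQ0 : Q ≠ 0 := nonZeroDivisors.ne_zero hQ
  by_cases hP0 : P = 0
  · refine ⟨0, 1, ?_, ?_⟩
    · intro h
      exact (prime_C hϖ).not_isUnit (isUnit_of_dvd_one h)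
    · rw [hP0]; simp
  obtain ⟨k, Q', hQ', hQk⟩ := WfDvdMonoid.max_power_factor' hQ0 (prime_C hϖ).not_isUnit
  obtain ⟨j, P', hP', hPj⟩ := WfDvdMonoid.max_power_factor' hP0 (prime_C hϖ).not_isUnit
  have hϖK : algebraMap R[X] K (C ϖ) ≠ 0 := algebraMap_C_ne_zero hϖ
  have hQ'0 : algebraMap R[X] K Q' ≠ 0 := by
    intro h
    have := (IsFractionRing.injective R[X] K) (h.trans (map_zero _).symm)
    rw [this] at hQ'
    exact hQ' (dvd_zero _)
  rcases le_or_gt k j with hkj | hkj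
  · obtain ⟨r, rfl⟩ := Nat.exists_eq_add_of_le hkj
    refine ⟨C ϖ ^ r * P', Q', hQ', ?_⟩
    rw [hPj, hQk, map_mul, map_mul, map_mul, map_pow, map_pow, map_pow, pow_add]
    field_simp
  · exfalso
    obtain ⟨r, hr⟩ := Nat.exists_eq_add_of_lt hkj
    have hP'0 : algebraMap R[X] F P' ≠ 0 := by
      intro h
      rw [← map_eq (K := K)] at h
      have h1 := (algebraMap K F).injective (h.trans (map_zero _).symm)
      have := (IsFractionRing.injective R[X] K) (h1.trans (map_zero _).symm)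
      rw [this] at hP'
      exact hP' (dvd_zero _)
    have hπ0 : algebraMap R[X] F (C ϖ) ≠ 0 := hunif.ne_zero
    rw [mem_gaussRing, map_div₀, map_eq, map_eq] at ha
    apply hunif.inv_not_mem
    have hQ'F : algebraMap R[X] F Q' ≠ 0 := by
      rw [← map_eq (K := K)]
      exact (_root_.map_ne_zero _).2 hQ'0
    have e : (algebraMap R[X] F (C ϖ))⁻¹ =
        (algebraMap R[X] F P / algebraMap R[X] F Q) *
          (algebraMap R[X] F (C ϖ ^ r * Q') * (algebraMap R[X] F P')⁻¹) := by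
      rw [hPj, hQk, hr, map_mul, map_mul, map_mul, map_pow, map_pow, map_pow]
      field_simp
      ring
    rw [e]
    exact mul_mem ha (mul_mem (hpoly _) (hgauss P' hP'))

theorem isUnif_gaussRing (hunif : IsUnif V (algebraMap R[X] F (C ϖ))) :
    IsUnif (gaussRing K V) (algebraMap R[X] K (C ϖ)) where
  mem := by rw [mem_gaussRing, map_eq]; exact hunif.mem
  inv_not_mem := by rw [mem_gaussRing, map_inv₀, map_eq]; exact hunif.inv_not_mem
  gen := by
    intro a ha hainv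
    rw [mem_gaussRing] at ha hainv ⊢
    rw [map_inv₀] at hainv
    rw [map_mul, map_inv₀, map_eq]
    exact hunif.gen _ ha hainv

theorem arch_gaussRing (hϖ : Prime ϖ) (hpoly : ∀ P : R[X], algebraMap R[X] F P ∈ V)
    (hgauss : ∀ P : R[X], ¬ C ϖ ∣ P → (algebraMap R[X] F P)⁻¹ ∈ V) (a : K) :
    ∃ k : ℕ, algebraMap R[X] K (C ϖ) ^ k * a ∈ gaussRing K V := by
  obtain ⟨P, Q, hQ, rfl⟩ := IsFractionRing.div_surjective R[X] (K := K) a
  have hQ0 : Q ≠ 0 := nonZeroDivisors.ne_zero hQ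
  obtain ⟨k, Q', hQ', hQk⟩ := WfDvdMonoid.max_power_factor' hQ0 (prime_C hϖ).not_isUnit
  refine ⟨k, ?_⟩
  have hϖK : algebraMap R[X] K (C ϖ) ≠ 0 := algebraMap_C_ne_zero hϖ
  have hQ'0 : algebraMap R[X] K Q' ≠ 0 := by
    intro h
    have := (IsFractionRing.injective R[X] K) (h.trans (map_zero _).symm)
    rw [this] at hQ'
    exact hQ' (dvd_zero _)
  have e : algebraMap R[X] K (C ϖ) ^ k * (algebraMap R[X] K P / algebraMap R[X] K Q) =
      algebraMap R[X] K P / algebraMap R[X] K Q' := by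
    rw [hQk, map_mul, map_pow]
    field_simp
  rw [e]
  exact div_mem_gaussRing hpoly hgauss P hQ'

/-- **Gauss intersection**: `P / ϖ ^ k` in the Gauss ring forces `ϖ ^ k ∣ P` in `R[X]`. -/
theorem pow_dvd_of_mem_gaussRing (hunif : IsUnif V (algebraMap R[X] F (C ϖ)))
    (hgauss : ∀ P : R[X], ¬ C ϖ ∣ P → (algebraMap R[X] F P)⁻¹ ∈ V) :
    ∀ (k : ℕ) (P : R[X]),
      algebraMap R[X] K P * ((algebraMap R[X] K (C ϖ))⁻¹) ^ k ∈ gaussRing K V → C ϖ ^ k ∣ P := by
  have hπ0 : algebraMap R[X] F (C ϖ) ≠ 0 := hunif.ne_zero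
  have hϖK : algebraMap R[X] K (C ϖ) ≠ 0 := by
    intro h
    apply hπ0
    rw [← map_eq (K := K), h, map_zero]
  intro k
  induction k with
  | zero => intro P _; simp
  | succ k ih =>
      intro P hP
      have h1 : algebraMap R[X] K P * ((algebraMap R[X] K (C ϖ))⁻¹) ^ k ∈ gaussRing K V := by
        have e : algebraMap R[X] K P * ((algebraMap R[X] K (C ϖ))⁻¹) ^ k =
            algebraMap R[X] K P * ((algebraMap R[X] K (C ϖ))⁻¹) ^ (k + 1) *
              algebraMap R[X] K (C ϖ) := by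
          rw [pow_succ]; field_simp
        rw [e]
        exact mul_mem hP (isUnif_gaussRing hunif).mem
      obtain ⟨P₁, rfl⟩ := ih P h1
      by_cases hdvd : C ϖ ∣ P₁
      · obtain ⟨P₂, rfl⟩ := hdvd
        exact ⟨P₂, by rw [pow_succ]; ring⟩
      · exfalso
        apply hunif.inv_not_mem
        have h2 := hgauss P₁ hdvd
        rw [mem_gaussRing] at hP
        have hP₁0 : algebraMap R[X] F P₁ ≠ 0 := by
          intro h
          rw [h, inv_zero] at h2
          have h3 : P₁ = 0 := by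
            rw [← map_eq (K := K)] at h
            have h4 := (algebraMap K F).injective (h.trans (map_zero _).symm)
            exact (IsFractionRing.injective R[X] K) (h4.trans (map_zero _).symm)
          exact hdvd (h3 ▸ dvd_zero _)
        have e : (algebraMap R[X] F (C ϖ))⁻¹ =
            algebraMap K F (algebraMap R[X] K (C ϖ ^ k * P₁) *
              ((algebraMap R[X] K (C ϖ))⁻¹) ^ (k + 1)) * (algebraMap R[X] F P₁)⁻¹ := by
          rw [map_mul, map_pow, map_inv₀, map_eq, map_eq, map_mul, map_pow, pow_succ, inv_pow]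
          field_simp
        rw [e]
        exact mul_mem hP h2

end GaussRing

section Indep

variable {ϖ : R} {V : ValuationSubring F}

/-- Linear independence of residues over `(R/ϖ)[X]` implies linear independence over the residue
field of the Gauss ring. -/
theorem indep_gaussRing (hϖ : Prime ϖ) (hunif : IsUnif V (algebraMap R[X] F (C ϖ)))
    (hpoly : ∀ P : R[X], algebraMap R[X] F P ∈ V)
    (hgauss : ∀ P : R[X], ¬ C ϖ ∣ P → (algebraMap R[X] F P)⁻¹ ∈ V)
    {f : ℕ} {b : Fin f → F}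
    (hind : ∀ a : Fin f → R[X],
      (∑ i, algebraMap R[X] F (a i) * b i) * (algebraMap R[X] F (C ϖ))⁻¹ ∈ V → ∀ i, C ϖ ∣ a i)
    (a : Fin f → K) (ha : ∀ i, a i ∈ gaussRing K V)
    (hsum : (∑ i, algebraMap K F (a i) * b i) * (algebraMap K F (algebraMap R[X] K (C ϖ)))⁻¹ ∈ V)
    (i : Fin f) : a i * (algebraMap R[X] K (C ϖ))⁻¹ ∈ gaussRing K V := by
  classical
  choose P Q hQ hPQ using fun i => exists_div_of_mem_gaussRing hϖ hunif hpoly hgauss (ha i)
  have hQ0 : ∀ i, algebraMap R[X] K (Q i) ≠ 0 := by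
    intro i h
    have := (IsFractionRing.injective R[X] K) (h.trans (map_zero _).symm)
    exact hQ i (this ▸ dvd_zero _)
  set Qtot : R[X] := ∏ i, Q i with hQtot
  set a' : Fin f → R[X] := fun i => P i * ∏ i' ∈ Finset.univ.erase i, Q i' with ha'
  have hmul : ∀ i, algebraMap R[X] K (a' i) = a i * algebraMap R[X] K Qtot := by
    intro i
    have h1 : Q i * ∏ i' ∈ Finset.univ.erase i, Q i' = Qtot :=
      Finset.mul_prod_erase _ _ (Finset.mem_univ i)
    rw [ha', ← h1, hPQ i, map_mul, map_mul]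
    field_simp [hQ0 i]
  have hsum' : (∑ i, algebraMap R[X] F (a' i) * b i) * (algebraMap R[X] F (C ϖ))⁻¹ ∈ V := by
    have e : (∑ i, algebraMap R[X] F (a' i) * b i) * (algebraMap R[X] F (C ϖ))⁻¹ =
        algebraMap R[X] F Qtot *
          ((∑ i, algebraMap K F (a i) * b i) *
            (algebraMap K F (algebraMap R[X] K (C ϖ)))⁻¹) := by
      rw [map_eq, ← mul_assoc, Finset.mul_sum]
      congr 1
      refine Finset.sum_congr rfl fun i _ => ?_
      rw [← map_eq (K := K) (a' i), hmul, map_mul, map_eq]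
      ring
    rw [e]
    exact mul_mem (hpoly _) hsum
  have hdvd := hind a' hsum' i
  have hdvdP : C ϖ ∣ P i := by
    rcases (prime_C hϖ).dvd_or_dvd hdvd with h | h
    · exact h
    · exfalso
      obtain ⟨i', -, hi'⟩ := ((prime_C hϖ).dvd_finsetProd_iff _).1 h
      exact hQ i' hi'
  obtain ⟨P', hP'⟩ := hdvdP
  have hϖK : algebraMap R[X] K (C ϖ) ≠ 0 := algebraMap_C_ne_zero hϖ
  have e : a i * (algebraMap R[X] K (C ϖ))⁻¹ =
      algebraMap R[X] K P' / algebraMap R[X] K (Q i) := by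
    rw [hPQ i, hP', map_mul]
    field_simp [hQ0 i]
  rw [e]
  exact div_mem_gaussRing hpoly hgauss P' (hQ i)

end Indep

namespace GaussPair

variable {ϖ : R} {V₁ V₂ : ValuationSubring F} {f₁ f₂ : ℕ} {b : Fin f₁ → F} {c : Fin f₂ → F}

theorem gaussRing_eq (h : GaussPair (K := K) ϖ V₁ V₂ b c) : gaussRing K V₁ = gaussRing K V₂ := by
  apply le_antisymm
  · intro a ha
    obtain ⟨P, Q, hQ, rfl⟩ := exists_div_of_mem_gaussRing h.prime h.unif₁ h.poly₁ h.gauss₁ ha
    exact div_mem_gaussRing h.poly₂ h.gauss₂ P hQ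
  · intro a ha
    obtain ⟨P, Q, hQ, rfl⟩ := exists_div_of_mem_gaussRing h.prime h.unif₂ h.poly₂ h.gauss₂ ha
    exact div_mem_gaussRing h.poly₁ h.gauss₁ P hQ

/-- A `GaussPair` gives the data of the "no third extension" theorem over the Gauss ring. -/
theorem twoExt (h : GaussPair (K := K) ϖ V₁ V₂ b c) :
    TwoExt (gaussRing K V₁) V₁ V₂ (algebraMap R[X] K (C ϖ)) b c where
  unifO := isUnif_gaussRing h.unif₁
  unif₁ := by rw [map_eq]; exact h.unif₁
  unif₂ := by rw [map_eq]; exact h.unif₂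
  le₁ := fun a ha => mem_gaussRing.1 ha
  le₂ := fun a ha => mem_gaussRing.1 (h.gaussRing_eq ▸ ha)
  ne := h.ne
  arch := arch_gaussRing h.prime h.poly₁ h.gauss₁
  b_mem := h.b_mem
  c_mem := h.c_mem
  b_indep := fun a ha hsum i =>
    indep_gaussRing h.prime h.unif₁ h.poly₁ h.gauss₁ h.b_indep a ha hsum i
  c_indep := fun a ha hsum j => by
    rw [h.gaussRing_eq]
    exact indep_gaussRing h.prime h.unif₂ h.poly₂ h.gauss₂ h.c_indep a
      (fun j => h.gaussRing_eq ▸ ha j) hsum j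
  card := h.card

/-- **No third extension**: every element of `V₁ ∩ V₂` is integral over the Gauss ring. -/
theorem exists_monic_of_mem [FiniteDimensional K F] (h : GaussPair (K := K) ϖ V₁ V₂ b c)
    {u : F} (hu₁ : u ∈ V₁) (hu₂ : u ∈ V₂) :
    ∃ p : K[X], p.Monic ∧ (∀ i, p.coeff i ∈ gaussRing K V₁) ∧ aeval u p = 0 :=
  h.twoExt.exists_monic_of_mem hu₁ hu₂

/-- Elements of `V₁ ∩ V₂` have their minimal polynomial over `K` with coefficients in the Gauss
ring. -/
theorem minpoly_coeff_mem [FiniteDimensional K F] (h : GaussPair (K := K) ϖ V₁ V₂ b c)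
    {z : F} (hz₁ : z ∈ V₁) (hz₂ : z ∈ V₂) (i : ℕ) :
    (minpoly K z).coeff i ∈ gaussRing K V₁ := by
  classical
  obtain ⟨p, hp, hpc, hpz⟩ := h.exists_monic_of_mem hz₁ hz₂
  let _ : Algebra (gaussRing K V₁) F :=
    ((algebraMap K F).comp (gaussRing K V₁).subtype).toAlgebra
  have : IsScalarTower (gaussRing K V₁) K F := IsScalarTower.of_algebraMap_eq (fun x => rfl)
  have hlift : p ∈ lifts (gaussRing K V₁).subtype := by
    rw [lifts_iff_coeff_lifts]
    intro n
    exact ⟨⟨p.coeff n, hpc n⟩, rfl⟩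
  obtain ⟨q, hq, -, hqm⟩ := lifts_and_natDegree_eq_and_monic hlift hp
  have hzO : IsIntegral (gaussRing K V₁) z := by
    refine ⟨q, hqm, ?_⟩
    have : eval₂ (algebraMap (gaussRing K V₁) F) z q =
        eval₂ (algebraMap K F) z (q.map (gaussRing K V₁).subtype) := by
      rw [eval₂_map]; rfl
    rw [this, hq, ← aeval_def]
    exact hpz
  have hμ := minpoly.isIntegrallyClosed_eq_field_fractions' K hzO
  rw [hμ, coeff_map]
  exact ((minpoly (gaussRing K V₁) z).coeff i).2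

/-- **`q`-expansion principle for the two-component model.**  If `u` is integral over `R[X]`
and `u / ϖ` lies in both `V₁` and `V₂`, then `u / ϖ` is integral over `R[X]`. -/
theorem qep2 [FiniteDimensional K F] (h : GaussPair (K := K) ϖ V₁ V₂ b c) {u : F}
    (hu : IsIntegral R[X] u)
    (h₁ : u * (algebraMap R[X] F (C ϖ))⁻¹ ∈ V₁) (h₂ : u * (algebraMap R[X] F (C ϖ))⁻¹ ∈ V₂) :
    IsIntegral R[X] (u * (algebraMap R[X] F (C ϖ))⁻¹) := by
  classical
  set ϖK := algebraMap R[X] K (C ϖ) with hϖKdef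
  have hϖK : ϖK ≠ 0 := algebraMap_C_ne_zero h.prime
  set z := u * (algebraMap R[X] F (C ϖ))⁻¹ with hz
  have hz_eq : z = algebraMap K F ϖK⁻¹ * u := by
    rw [hz, map_inv₀, map_eq, mul_comm]
  have hu_eq : u = algebraMap K F ϖK * z := by
    rw [hz_eq, ← mul_assoc, ← map_mul, mul_inv_cancel₀ hϖK, map_one, one_mul]
  have huK : IsIntegral K u := Algebra.IsIntegral.isIntegral u
  have hzK : IsIntegral K z := Algebra.IsIntegral.isIntegral z
  have hμu := minpoly.isIntegrallyClosed_eq_field_fractions' K hu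
  have hscale : (minpoly K u).scaleRoots ϖK⁻¹ = minpoly K z := by
    apply minpoly.unique
    · exact (monic_scaleRoots_iff _).2 (minpoly.monic huK)
    · rw [hz_eq]; exact scaleRoots_aeval_eq_zero (minpoly.aeval K u)
    · intro r hr hrz
      rw [degree_scaleRoots]
      have h3 : aeval u (r.scaleRoots ϖK) = 0 := by
        rw [hu_eq]; exact scaleRoots_aeval_eq_zero hrz
      calc (minpoly K u).degree ≤ (r.scaleRoots ϖK).degree :=
            minpoly.min K u ((monic_scaleRoots_iff _).2 hr) h3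
        _ = r.degree := degree_scaleRoots _
  have hcoef : ∀ i, (minpoly K z).coeff i ∈ Set.range (algebraMap R[X] K) := by
    intro i
    have h1 : (minpoly K z).coeff i ∈ gaussRing K V₁ := h.minpoly_coeff_mem h₁ h₂ i
    rw [← hscale, coeff_scaleRoots, hμu, coeff_map] at h1 ⊢
    obtain ⟨P', hP'⟩ := pow_dvd_of_mem_gaussRing h.unif₁ h.gauss₁ _ _ h1
    refine ⟨P', ?_⟩
    rw [hP', map_mul, map_pow, inv_pow, ← hϖKdef]
    field_simp
  obtain ⟨q, hq, -, hqm⟩ :=
    lifts_and_natDegree_eq_and_monic ((lifts_iff_coeff_lifts _).2 hcoef) (minpoly.monic hzK)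
  refine ⟨q, hqm, ?_⟩
  have e : eval₂ (algebraMap R[X] F) z q = aeval z (q.map (algebraMap R[X] K)) := by
    rw [aeval_def, eval₂_map, ← IsScalarTower.algebraMap_eq]
  rw [e, hq]
  exact minpoly.aeval K z

/-- **The special fibre is reduced.**  If `u` is integral over `R[X]` and `u ^ k / ϖ` is integral
over `R[X]` for some `k ≥ 1` then `u / ϖ` is integral over `R[X]`. -/
theorem reduced [FiniteDimensional K F] (h : GaussPair (K := K) ϖ V₁ V₂ b c) {u : F}
    (hu : IsIntegral R[X] u) {k : ℕ}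
    (h₁ : u ^ k * (algebraMap R[X] F (C ϖ))⁻¹ ∈ V₁)
    (h₂ : u ^ k * (algebraMap R[X] F (C ϖ))⁻¹ ∈ V₂) :
    IsIntegral R[X] (u * (algebraMap R[X] F (C ϖ))⁻¹) := by
  have key : ∀ (V : ValuationSubring F), IsUnif V (algebraMap R[X] F (C ϖ)) →
      u ^ k * (algebraMap R[X] F (C ϖ))⁻¹ ∈ V → u * (algebraMap R[X] F (C ϖ))⁻¹ ∈ V := by
    intro V hV hk
    rw [hV.mul_inv_mem_iff] at hk ⊢
    by_contra hcon
    have h1 : 1 ≤ V.valuation u := not_lt.1 hcon
    have h2 : 1 ≤ V.valuation (u ^ k) := by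
      rw [map_pow]; exact one_le_pow₀ h1
    exact absurd hk (not_lt.2 h2)
  exact h.qep2 hu (key V₁ h.unif₁ h₁) (key V₂ h.unif₂ h₂)

end GaussPair

end Fermat.Agent.A2.H48

end
-- ===== PACK-END A2/H48/Qep2.lean

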