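import Fermat.Prelude.Def_EllipticCurve_FrobeniusTrace
import Mathlib
import Fermat.Prelude.Def_AlgebraicCurve_Correspondence
import Mathlib.Analysis.Analytic.Order
import Fermat.Prelude.Def_ModularCurve_X0ModL
import Mathlib.RingTheory.Finiteness.Basic
import Mathlib.LinearAlgebra.Quotient.Basic
import Fermat.Prelude.Def_AlgebraicCurve_BaseChangeGalois
import Mathlib.Data.Nat.Squarefree
import Mathlib.Data.Nat.Factorization.Induction
import Mathlib.SetTheory.Cardinal.NatCard
import Mathlib.RingTheory.Valuation.ValuationSubring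
import Mathlib.Tactic.LinearCombination
import Mathlib.Tactic.FieldSimp
import Fermat.Agent.Pack.S36.E0L0
import Fermat.Agent.Pack.S36.E0L1
import Fermat.Agent.Pack.S36.E0L3
import Fermat.Agent.Pack.S36.E0L2
import Fermat.Agent.Pack.S36.E1L3

-- ===== PACK-BEGIN S54/FrobExists.lean
section




set_option autoImplicit false

namespace Fermat.Agent.S54

open scoped Pointwise

/-- The prime of the ring of algebraic integers below a valuation subring. -/
def primeBelow (A : ValuationSubring (AlgebraicClosure ℚ)) :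
    Ideal (integralClosure ℤ (AlgebraicClosure ℚ)) where
  carrier := {b | (b : AlgebraicClosure ℚ) ∈ A.nonunits}
  add_mem' := fun {a b} ha hb => A.nonunits.add_mem ha hb
  zero_mem' := A.nonunits.zero_mem
  smul_mem' := fun c b hb => by
    obtain ⟨hb1, hb2⟩ := ValuationSubring.mem_nonunits_iff_exists_mem_maximalIdeal.mp hb
    have hc : (c : AlgebraicClosure ℚ) ∈ A := isIntegral_mem_valuationSubring A c.2
    have := Ideal.mul_mem_left _ (⟨c, hc⟩ : A) hb2
    exact ValuationSubring.mem_nonunits_iff_exists_mem_maximalIdeal.mpr ⟨_, this⟩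

theorem mem_primeBelow (A : ValuationSubring (AlgebraicClosure ℚ))
    (b : integralClosure ℤ (AlgebraicClosure ℚ)) :
    b ∈ primeBelow A ↔ (b : AlgebraicClosure ℚ) ∈ A.nonunits := Iff.rfl

theorem primeBelow_isPrime (A : ValuationSubring (AlgebraicClosure ℚ)) :
    (primeBelow A).IsPrime := by
  constructor
  · intro h
    have : (1 : integralClosure ℤ (AlgebraicClosure ℚ)) ∈ primeBelow A := by
      rw [h]; trivial
    rw [mem_primeBelow, ValuationSubring.mem_nonunits_iff] at this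
    simp at this
  · intro a b hab
    rw [mem_primeBelow, ValuationSubring.mem_nonunits_iff] at hab ⊢
    rw [mem_primeBelow, ValuationSubring.mem_nonunits_iff]
    have ha : A.valuation (a : AlgebraicClosure ℚ) ≤ 1 :=
      (A.valuation_le_one_iff _).mpr (isIntegral_mem_valuationSubring A a.2)
    have hb : A.valuation (b : AlgebraicClosure ℚ) ≤ 1 :=
      (A.valuation_le_one_iff _).mpr (isIntegral_mem_valuationSubring A b.2)
    by_contra hcon
    rw [not_or, not_lt, not_lt] at hcon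
    have ha1 : A.valuation (a : AlgebraicClosure ℚ) = 1 := le_antisymm ha hcon.1
    have hb1 : A.valuation (b : AlgebraicClosure ℚ) = 1 := le_antisymm hb hcon.2
    have : A.valuation ((a * b : integralClosure ℤ (AlgebraicClosure ℚ)) : AlgebraicClosure ℚ)
        = 1 := by
      push_cast
      rw [map_mul, ha1, hb1, mul_one]
    exact absurd hab (by rw [this]; exact lt_irrefl _)

/-- There is a valuation subring of `ℚ̄` over every prime number. -/
theorem exists_valuationSubring_liesOver (ℓ : ℕ) (hℓ : ℓ.Prime) :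
    ∃ A : ValuationSubring (AlgebraicClosure ℚ), A.LiesOverPrime ℓ := by
  let A₀ : Subring (AlgebraicClosure ℚ) := (algebraMap ℤ (AlgebraicClosure ℚ)).range
  let l₀ : A₀ := ⟨(ℓ : AlgebraicClosure ℚ), ⟨(ℓ : ℤ), by simp⟩⟩
  have hI : Ideal.span {l₀} ≠ ⊤ := by
    intro h
    rw [Ideal.span_singleton_eq_top] at h
    obtain ⟨⟨m, n, rfl⟩, hm⟩ := h.exists_right_inv
    have h1 : ((ℓ : ℤ) : AlgebraicClosure ℚ) * ((n : ℤ) : AlgebraicClosure ℚ) = 1 := by
      have := congrArg Subtype.val hm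
      simpa [l₀] using this
    have h2 : (ℓ : ℤ) * n = 1 := by exact_mod_cast h1
    have h3 : (ℓ : ℤ) ∣ 1 := ⟨n, h2.symm⟩
    have h4 : ℓ ∣ 1 := by exact_mod_cast h3
    exact hℓ.one_lt.ne' (Nat.dvd_one.mp h4)
  obtain ⟨A, -, hA⟩ := Ideal.image_subset_nonunits_valuationSubring _ hI
  refine ⟨A, ?_⟩
  apply hA
  exact ⟨l₀, Ideal.subset_span rfl, rfl⟩

/-- Existence of Frobenius elements in the absolute Galois group of `ℚ`: for every prime
number `ℓ` there are a valuation subring `A` of `ℚ̄` over `ℓ` and `σ ∈ Gal(ℚ̄/ℚ)` which is a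
Frobenius element at `A`. -/
theorem exists_frobenius (ℓ : ℕ) (hℓ : ℓ.Prime) :
    ∃ (A : ValuationSubring (AlgebraicClosure ℚ))
      (σ : AlgebraicClosure ℚ ≃ₐ[ℚ] AlgebraicClosure ℚ),
      A.LiesOverPrime ℓ ∧ A.IsFrobeniusAt σ ℓ := by
  have : Algebra.IsAlgebraic ℚ (AlgebraicClosure ℚ) := AlgebraicClosure.isAlgebraic ℚ
  obtain ⟨A, hA⟩ := exists_valuationSubring_liesOver ℓ hℓ
  have := primeBelow_isPrime A
  have hℓQ : (ℓ : integralClosure ℤ (AlgebraicClosure ℚ)) ∈ primeBelow A := by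
    rw [mem_primeBelow]
    exact hA
  obtain ⟨σ, hσQ', hσF⟩ := exists_frob_integralClosure ℓ hℓ (primeBelow A) hℓQ
  have hσQ : ∀ x, σ • x ∈ primeBelow A ↔ x ∈ primeBelow A := by
    intro x
    conv_lhs => rw [← hσQ']
    exact Ideal.smul_mem_pointwise_smul_iff
  have key : ∀ τ : AlgebraicClosure ℚ ≃ₐ[ℚ] AlgebraicClosure ℚ,
      (∀ x, τ • x ∈ primeBelow A ↔ x ∈ primeBelow A) → ∀ x ∈ A, τ x ∈ A := by
    intro τ hτ x hx
    obtain ⟨b, s, hb, hs, hsA, hxs⟩ := (mem_valuationSubring_iff A ℓ hℓ hA x).mp hx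
    refine (mem_valuationSubring_iff A ℓ hℓ hA (τ x)).mpr
      ⟨τ b, τ s, hb.map τ, hs.map τ, ?_, ?_⟩
    · exact (hτ ⟨s, hs⟩).not.mpr hsA
    · rw [← map_mul, hxs]
  have hσA : σ ∈ A.decompositionSubgroup ℚ := by
    rw [MulAction.mem_stabilizer_iff]
    ext x
    rw [ValuationSubring.mem_smul_pointwise_iff_exists]
    constructor
    · rintro ⟨s, hs, rfl⟩
      exact key σ hσQ s hs
    · intro hx
      refine ⟨σ⁻¹ • x, key σ⁻¹ ?_ x hx, by simp⟩
      intro y
      rw [← hσQ (σ⁻¹ • y)]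
      simp
  refine ⟨A, σ, hA, hσA, ?_⟩
  intro x
  obtain ⟨a, rfl⟩ := IsLocalRing.residue_surjective x
  obtain ⟨b, s, hb, hs, hsA, hxs⟩ := (mem_valuationSubring_iff A ℓ hℓ hA a).mp a.2
  have hbA : b ∈ A := isIntegral_mem_valuationSubring A hb
  have hsA' : s ∈ A := isIntegral_mem_valuationSubring A hs
  have hint : ∀ (y : AlgebraicClosure ℚ) (hy : IsIntegral ℤ y),
      (⟨σ, hσA⟩ : A.decompositionSubgroup ℚ) •
        IsLocalRing.residue A ⟨y, isIntegral_mem_valuationSubring A hy⟩ =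
      (IsLocalRing.residue A ⟨y, isIntegral_mem_valuationSubring A hy⟩) ^ ℓ := by
    intro y hy
    rw [← IsLocalRing.ResidueField.residue_smul, ← map_pow, ← sub_eq_zero, ← map_sub,
      IsLocalRing.residue_eq_zero_iff, ← ValuationSubring.coe_mem_nonunits_iff]
    exact hσF ⟨y, hy⟩
  have h1 : IsLocalRing.residue A a * IsLocalRing.residue A ⟨s, hsA'⟩ =
      IsLocalRing.residue A ⟨b, hbA⟩ := by
    rw [← map_mul]
    congr 1
    exact Subtype.ext hxs
  have h2 : IsLocalRing.residue A ⟨s, hsA'⟩ ≠ 0 := by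
    rw [Ne, IsLocalRing.residue_eq_zero_iff, ← ValuationSubring.coe_mem_nonunits_iff]
    exact hsA
  have h3 := congrArg (fun z => (⟨σ, hσA⟩ : A.decompositionSubgroup ℚ) • z) h1
  simp only [smul_mul'] at h3
  rw [hint s hs, hint b hb, ← h1, mul_pow] at h3
  exact mul_right_cancel₀ (pow_ne_zero _ h2) h3

end Fermat.Agent.S54

end
-- ===== PACK-END S54/FrobExists.lean

-- ===== PACK-BEGIN S30/H990/Cheb.lean
section
/-
S30 top glue (helper990): the Chebotarev hypothesis used by the glue follows from the frozen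
Tier 1 statement of the shared CHEB library.
-/



set_option autoImplicit false

namespace Fermat.Agent.S30.H990

/-- Tier 1 of the shared CHEB library implies the weak form consumed by the S30 glue. -/
theorem chebWeak_of_frobeniusDivision
    (h : Fermat.Agent.Lib.Cheb.Spec.FrobeniusDivisionStatement) : ChebWeak := by
  intro L hL σ T
  obtain ⟨ℓ, A, τ, _k, j, hℓ, hℓT, hA, hτ, _, _, hj⟩ := h L hL σ T
  exact ⟨ℓ, hℓ, hℓT, A, hA, τ, hτ, j, fun x hx => (hj x hx).symm⟩

end Fermat.Agent.S30.H990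

end
-- ===== PACK-END S30/H990/Cheb.lean

-- ===== PACK-BEGIN S24/Deg/H457_Descent.lean
section


/-!
# S24 / DEG-ALG (helper457), part 1: descent of algebraic relations along a coefficient embedding

`K →+* L` a field embedding, `coeffMap ι : K((q)) → L((q))`.
* `linearIndependent_coeffMap`: `coeffMap ι` maps `K`-linearly independent families to
  `L`-linearly independent families.
* `exists_relation_of_coeffMap_monic`: if `coeffMap ι a` is a root of a monic polynomial of
  degree `n` over `L[coeffMap ι J]`, then `a` is a root of a nonzero polynomial of degree `≤ n`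
  over `K[J]`.
-/

set_option autoImplicit false

noncomputable section

open Polynomial ModularCurve

namespace Fermat.Agent.S24.Deg457

variable {K L : Type*} [Field K] [Field L]

/-- `coeffMap ι` preserves linear independence (over the respective coefficient fields). -/
theorem linearIndependent_coeffMap (ι : K →+* L) {I : Type*} (v : I → LaurentSeries K)
    (hv : LinearIndependent K v) :
    LinearIndependent L (fun i => coeffMap ι (v i)) := by
  classical
  let _ : Algebra K L := ι.toAlgebra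
  rw [linearIndependent_iff'] at hv ⊢
  intro s g hg i hi
  -- it suffices to show that every `K`-linear functional kills `g i`
  rw [← Module.forall_dual_apply_eq_zero_iff K]
  intro φ
  refine hv s (fun i => φ (g i)) ?_ i hi
  ext k
  have hk := congrArg (fun x : LaurentSeries L => x.coeff k) hg
  simp only [HahnSeries.coeff_sum, HahnSeries.coeff_smul, coeffMap_coeff, smul_eq_mul,
    HahnSeries.coeff_zero] at hk ⊢
  have h2 := congrArg φ hk
  rw [map_zero, map_sum] at h2
  rw [← h2]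
  refine Finset.sum_congr rfl fun x _ => ?_
  have : g x * ι ((v x).coeff k) = ((v x).coeff k) • g x := by
    rw [Algebra.smul_def, mul_comm]; rfl
  rw [this, map_smul, smul_eq_mul, mul_comm]

/-- evaluation of polynomials at `J`, as a ring hom -/
abbrev evJ (J : LaurentSeries K) : K[X] →+* LaurentSeries K :=
  (aeval J : K[X] →ₐ[K] LaurentSeries K).toRingHom

theorem evJ_apply (J : LaurentSeries K) (p : K[X]) : evJ J p = aeval J p := rfl

theorem coeffMap_algebraMap' (ι : K →+* L) (c : K) :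
    coeffMap ι (algebraMap K (LaurentSeries K) c) = algebraMap L (LaurentSeries L) (ι c) := by
  rw [algebraMap_laurentSeries_eq_single, algebraMap_laurentSeries_eq_single, coeffMap_single]

theorem coeffMap_smul' (ι : K →+* L) (c : K) (x : LaurentSeries K) :
    coeffMap ι (c • x) = ι c • coeffMap ι x := by
  ext k; simp

/-- the `HahnSeries` scalar action agrees with multiplication by `algebraMap` (for the
power-series algebra structure on Laurent series). -/
theorem hsmul_eq_algebraMap_mul (c : K) (x : LaurentSeries K) :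
    c • x = algebraMap K (LaurentSeries K) c * x := by
  rw [algebraMap_laurentSeries_eq_single, HahnSeries.single_zero_mul_eq_smul]

/-- bivariate polynomial attached to a finite coefficient table -/
def tablePoly {D n : ℕ} (g : Fin (D + 1) × Fin (n + 1) → K) : K[X][X] :=
  ∑ k : Fin (n + 1), monomial (k : ℕ) (∑ i : Fin (D + 1), monomial (i : ℕ) (g (i, k)))

theorem tablePoly_coeff_coeff {D n : ℕ} (g : Fin (D + 1) × Fin (n + 1) → K)
    (i : Fin (D + 1)) (k : Fin (n + 1)) :
    ((tablePoly g).coeff k).coeff i = g (i, k) := by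
  classical
  simp only [tablePoly, finsetSum_coeff, coeff_monomial]
  rw [Finset.sum_eq_single k]
  · simp only [if_true, finsetSum_coeff, coeff_monomial]
    rw [Finset.sum_eq_single i]
    · simp
    · intro b _ hb
      rw [if_neg]
      exact fun h => hb (Fin.ext h)
    · simp
  · intro b _ hb
    rw [if_neg]
    · simp
    · exact fun h => hb (Fin.ext h)
  · simp

theorem tablePoly_natDegree_le {D n : ℕ} (g : Fin (D + 1) × Fin (n + 1) → K) :
    (tablePoly g).natDegree ≤ n := by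
  refine natDegree_sum_le_of_forall_le _ _ fun k _ => ?_
  exact (natDegree_monomial_le _).trans (Nat.lt_succ_iff.mp k.2)

theorem tablePoly_eval₂ {D n : ℕ} (g : Fin (D + 1) × Fin (n + 1) → K)
    (J a : LaurentSeries K) :
    (tablePoly g).eval₂ (evJ J) a = ∑ p : Fin (D + 1) × Fin (n + 1), g p • (J ^ (p.1 : ℕ) * a ^ (p.2 : ℕ)) := by
  rw [tablePoly, eval₂_finsetSum, Fintype.sum_prod_type_right]
  refine Finset.sum_congr rfl fun k _ => ?_
  rw [eval₂_monomial, evJ_apply, map_sum, Finset.sum_mul]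
  refine Finset.sum_congr rfl fun i _ => ?_
  rw [aeval_monomial, hsmul_eq_algebraMap_mul, mul_assoc]

/-- **Descent**: a monic relation of degree `n` over `L[ι J]` for `ι a` gives a nonzero relation
of degree `≤ n` over `K[J]` for `a`. -/
theorem exists_relation_of_coeffMap_monic (ι : K →+* L) (J a : LaurentSeries K) (n : ℕ)
    (P : L[X][X]) (hP : P.Monic) (hn : P.natDegree = n)
    (h0 : P.eval₂ (evJ (coeffMap ι J)) (coeffMap ι a) = 0) :
    ∃ Q : K[X][X], Q ≠ 0 ∧ Q.natDegree ≤ n ∧ Q.eval₂ (evJ J) a = 0 := by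
  classical
  set D : ℕ := P.support.sup fun k => (P.coeff k).natDegree with hD
  have hDle : ∀ k, (P.coeff k).natDegree ≤ D := by
    intro k
    by_cases hk : k ∈ P.support
    · exact Finset.le_sup (f := fun k => (P.coeff k).natDegree) hk
    · rw [notMem_support_iff.mp hk]; simp
  let v : Fin (D + 1) × Fin (n + 1) → LaurentSeries K := fun p => J ^ (p.1 : ℕ) * a ^ (p.2 : ℕ)
  have hnot : ¬ LinearIndependent K v := by
    intro hv
    have hw := linearIndependent_coeffMap ι v hv
    rw [Fintype.linearIndependent_iff] at hw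
    have key := hw (fun p => (P.coeff p.2).coeff p.1) ?_ (0, Fin.last n)
    · simp only [Fin.val_last] at key
      rw [← hn, hP.coeff_natDegree] at key
      simp at key
    · rw [Fintype.sum_prod_type_right]
      rw [eval₂_eq_sum_range' _ (n := n + 1) (by omega)] at h0
      rw [← h0, Finset.sum_range]
      refine Finset.sum_congr rfl fun k _ => ?_
      rw [evJ_apply, aeval_eq_sum_range' (n := D + 1) (Nat.lt_succ_of_le (hDle _)),
        Finset.sum_range, Finset.sum_mul]
      refine Finset.sum_congr rfl fun i _ => ?_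
      simp only [v, map_mul, map_pow]
      rw [hsmul_eq_algebraMap_mul, Algebra.smul_def, mul_assoc]
  rw [Fintype.not_linearIndependent_iff] at hnot
  obtain ⟨g, hg, p, hp⟩ := hnot
  refine ⟨tablePoly g, ?_, tablePoly_natDegree_le g, ?_⟩
  · intro h
    apply hp
    rw [← tablePoly_coeff_coeff g p.1 p.2, h]
    simp
  · rw [tablePoly_eval₂]
    exact hg

end Fermat.Agent.S24.Deg457

end
end
-- ===== PACK-END S24/Deg/H457_Descent.lean

-- ===== PACK-BEGIN S37/H818/BaseChange.lean
section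
/-
S37 / LEVEL TRANSFER (helper818), part 2: the base-change identity
  `i^* ∘ a_* = a'_* ∘ i₁^*`  on divisors, for a commutative square of function fields

      F  --a-->  F₁
      |i         |i₁
      v          v
      G  --a'->  G₁

under (1) the norm formulas for `a` and `a'`, (2) norm compatibility
`N_{G₁/G}(i₁ f) = i (N_{F₁/F} f)` (true when `G₁ = G ⊗_F F₁`), and (3) local generators in `F₁`.
-/




set_option autoImplicit false
set_option linter.style.haveILetI false

noncomputable section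

namespace Fermat.Agent.S37.H818

open AlgebraicCurve

variable {K F F₁ G G₁ : Type*} [Field K] [Field F] [Field F₁] [Field G] [Field G₁]
  [Algebra K F] [Algebra K F₁] [Algebra K G] [Algebra K G₁]

/-- Norm compatibility for the square: `N_{G₁/G}(i₁ f) = i (N_{F₁/F} f)`. -/
def NormCompat (a : F →ₐ[K] F₁) (i : F →ₐ[K] G) (a' : G →ₐ[K] G₁) (i₁ : F₁ →ₐ[K] G₁) : Prop :=
  ∀ f : F₁, (letI := algebraAlong a'; Algebra.norm G (i₁ f)) =
    i (letI := algebraAlong a; Algebra.norm F f)

/-- Local generators: every place `w` of `F₁` has a function with nonzero order at `w` and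
order zero at all other places in the same fibre of `a`. -/
def HasLocalGenerators (a : F →ₐ[K] F₁) (ha : a.toRingHom.IsIntegral) : Prop :=
  ∀ w : Place K F₁, ∃ f : F₁, f ≠ 0 ∧ w.ord f ≠ 0 ∧
    ∀ w' : Place K F₁, w' ≠ w → w'.restrictAlong a ha = w.restrictAlong a ha → w'.ord f = 0

section

variable (a : F →ₐ[K] F₁) (i : F →ₐ[K] G) (a' : G →ₐ[K] G₁) (i₁ : F₁ →ₐ[K] G₁)
  (ha : a.toRingHom.IsIntegral) (hi : i.toRingHom.IsIntegral)
  (ha' : a'.toRingHom.IsIntegral) (hi₁ : i₁.toRingHom.IsIntegral)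
  (hsq : i₁.comp a = a'.comp i)

include hsq in
/-- The two ways of restricting a place of `G₁` to `F` agree. -/
theorem restrict_square (W : Place K G₁) :
    (W.restrictAlong a' ha').restrictAlong i hi = (W.restrictAlong i₁ hi₁).restrictAlong a ha := by
  have h1 : (i₁.comp a).toRingHom.IsIntegral := RingHom.IsIntegral.trans _ _ ha hi₁
  have h2 : (a'.comp i).toRingHom.IsIntegral := RingHom.IsIntegral.trans _ _ hi ha'
  rw [← restrictAlong_comp i a' hi ha' h2 W, ← restrictAlong_comp a i₁ ha hi₁ h1 W]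
  exact (Place.restrictAlong_congr hsq h1 h2 W).symm

variable [HasPrincipalDivisors K G] [HasPrincipalDivisors K G₁]

/-- The defect of the base-change identity. -/
def bcDefect : Divisor K F₁ →+ Divisor K G :=
  (Divisor.pullbackAlong i hi).comp (Divisor.pushforwardAlong a ha) -
    (Divisor.pushforwardAlong a' ha').comp (Divisor.pullbackAlong i₁ hi₁)

theorem bcDefect_apply (D : Divisor K F₁) :
    bcDefect a i a' i₁ ha hi ha' hi₁ D =
      Divisor.pullbackAlong i hi (Divisor.pushforwardAlong a ha D) -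
        Divisor.pushforwardAlong a' ha' (Divisor.pullbackAlong i₁ hi₁ D) := rfl

include hsq in
/-- Locality: the defect of a place `w` is supported over the place `w|_F`. -/
theorem bcDefect_single_apply_of_ne (w : Place K F₁) (n : ℤ) (u : Place K G)
    (hu : u.restrictAlong i hi ≠ w.restrictAlong a ha) :
    bcDefect a i a' i₁ ha hi ha' hi₁ (Finsupp.single w n) u = 0 := by
  classical
  rw [bcDefect_apply, Finsupp.sub_apply]
  have h1 : Divisor.pullbackAlong i hi (Divisor.pushforwardAlong a ha (Finsupp.single w n)) u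
      = 0 := by
    rw [Divisor.pushforwardAlong_single, Divisor.pullbackAlong_apply,
      Finsupp.single_eq_of_ne hu, mul_zero]
  have h2 : Divisor.pushforwardAlong a' ha'
      (Divisor.pullbackAlong i₁ hi₁ (Finsupp.single w n)) u = 0 := by
    rw [Divisor.pullbackAlong_single, map_sum, Finset.sum_apply']
    refine Finset.sum_eq_zero fun W hW => ?_
    rw [Divisor.pushforwardAlong_single]
    refine Finsupp.single_eq_of_ne ?_
    intro hWu
    apply hu
    rw [hWu, restrict_square a i a' i₁ ha hi ha' hi₁ hsq W, Place.mem_fiberAlong.mp hW]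
  rw [h1, h2, sub_zero]

/-- The defect vanishes on principal divisors, by the norm formulas and norm compatibility. -/
theorem bcDefect_principal
    (hfin : FiniteAlong K a) (hN : NormFormulaAlong K a hfin)
    (hfin' : FiniteAlong K a') (hN' : NormFormulaAlong K a' hfin')
    (hnorm : NormCompat a i a' i₁)
    {f : F₁} (hf : f ≠ 0) {D : Divisor K F₁} (hD : ∀ w, D w = w.ord f) :
    bcDefect a i a' i₁ ha hi ha' hi₁ D = 0 := by
  rw [bcDefect_apply, sub_eq_zero]
  ext u
  -- left side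
  have hL : Divisor.pullbackAlong i hi (Divisor.pushforwardAlong a ha D) u =
      u.ord (i (letI := algebraAlong a; Algebra.norm F f)) := by
    letI := algebraAlong a
    haveI := isScalarTower_along a
    haveI := isIntegral_along a ha
    haveI : Module.Finite F F₁ := hfin
    have hE : ∀ v : Place K F, Divisor.pushforward F D v = v.ord (Algebra.norm F f) :=
      fun v => hN f hf D hD v
    have : Divisor.pushforwardAlong a ha D = Divisor.pushforward F D := rfl
    rw [this]
    letI := algebraAlong i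
    haveI := isScalarTower_along i
    haveI := isIntegral_along i hi
    exact Divisor.pullback_apply_eq_ord (F' := G) hE u
  -- right side
  have hR : Divisor.pushforwardAlong a' ha' (Divisor.pullbackAlong i₁ hi₁ D) u =
      u.ord (letI := algebraAlong a'; Algebra.norm G (i₁ f)) := by
    have hD' : ∀ W : Place K G₁, Divisor.pullbackAlong i₁ hi₁ D W = W.ord (i₁ f) := by
      intro W
      letI := algebraAlong i₁
      haveI := isScalarTower_along i₁
      haveI := isIntegral_along i₁ hi₁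
      exact Divisor.pullback_apply_eq_ord (F' := G₁) hD W
    letI := algebraAlong a'
    haveI := isScalarTower_along a'
    haveI := isIntegral_along a' ha'
    haveI : Module.Finite G G₁ := hfin'
    have hf' : i₁ f ≠ 0 := by simpa using hf
    exact hN' (i₁ f) hf' _ hD' u
  rw [hL, hR, hnorm f]

variable [HasPrincipalDivisors K F₁]

include hsq in
/-- **Base change identity** `i^* a_* = a'_* i₁^*` on divisors. -/
theorem pullback_pushforward_eq
    (hfin : FiniteAlong K a) (hN : NormFormulaAlong K a hfin)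
    (hfin' : FiniteAlong K a') (hN' : NormFormulaAlong K a' hfin')
    (hnorm : NormCompat a i a' i₁) (hLG : HasLocalGenerators a ha) (D : Divisor K F₁) :
    Divisor.pullbackAlong i hi (Divisor.pushforwardAlong a ha D) =
      Divisor.pushforwardAlong a' ha' (Divisor.pullbackAlong i₁ hi₁ D) := by
  classical
  rw [← sub_eq_zero, ← bcDefect_apply]
  set δ := bcDefect a i a' i₁ ha hi ha' hi₁ with hδ
  -- it suffices to treat single places
  suffices h : ∀ w : Place K F₁, δ (Finsupp.single w 1) = 0 by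
    induction D using Finsupp.induction with
    | zero => simp
    | single_add w n D _ _ ih =>
      rw [map_add, ih, add_zero]
      have : Finsupp.single w n = n • Finsupp.single w (1 : ℤ) := by
        rw [Finsupp.smul_single, smul_eq_mul, mul_one]
      rw [this, map_zsmul, h w, smul_zero]
  intro w₀
  ext u
  rw [Finsupp.zero_apply]
  by_cases hu : u.restrictAlong i hi = w₀.restrictAlong a ha
  swap
  · exact bcDefect_single_apply_of_ne a i a' i₁ ha hi ha' hi₁ hsq w₀ 1 u hu
  obtain ⟨f, hf0, hfw, hfo⟩ := hLG w₀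
  obtain ⟨D, hD, -⟩ := HasPrincipalDivisors.exists_divisor (K := K) f hf0
  have h0 : δ D = 0 := bcDefect_principal a i a' i₁ ha hi ha' hi₁ hfin hN hfin' hN' hnorm hf0 hD
  -- decompose D
  have hsum : δ D u = ∑ w ∈ D.support, δ (Finsupp.single w (D w)) u := by
    conv_lhs => rw [← Finsupp.sum_single D]
    rw [Finsupp.sum, map_sum, Finset.sum_apply']
  have hw₀ : w₀ ∈ D.support := by
    rw [Finsupp.mem_support_iff, hD]
    exact hfw
  rw [Finset.sum_eq_single_of_mem w₀ hw₀] at hsum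
  · rw [h0, Finsupp.zero_apply] at hsum
    have : Finsupp.single w₀ (D w₀) = (D w₀) • Finsupp.single w₀ (1 : ℤ) := by
      rw [Finsupp.smul_single, smul_eq_mul, mul_one]
    rw [this, map_zsmul, Finsupp.smul_apply, smul_eq_mul] at hsum
    have hne : D w₀ ≠ 0 := by rw [hD]; exact hfw
    rcases mul_eq_zero.mp hsum.symm with h | h
    · exact absurd h hne
    · exact h
  · intro w _ hw
    by_cases hwv : w.restrictAlong a ha = w₀.restrictAlong a ha
    · have : D w = 0 := by rw [hD]; exact hfo w hw hwv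
      rw [this, Finsupp.single_zero, map_zero, Finsupp.zero_apply]
    · exact bcDefect_single_apply_of_ne a i a' i₁ ha hi ha' hi₁ hsq w (D w) u
        (fun h => hwv (h.symm.trans hu))

end

end Fermat.Agent.S37.H818

end

end
-- ===== PACK-END S37/H818/BaseChange.lean

-- ===== PACK-BEGIN S24/M7/H47Level1.lean
section



/-!
# S24 / M1 items D3, D4 (helper47): level-one facts about `j = E₄³ / Δ`

* `exists_E₄_cube_eq_mul_discriminant`, `jFun_surjective` : `j : ℍ → ℂ` is surjective
  (if `E₄³ - c Δ` had no zero, its inverse would be a level-one form of weight `-12`).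
* `jFun_smul` : `j` is `SL(2, ℤ)`-invariant.
* `E₆_I`, `E₄_rho` : `E₆(i) = 0`, `E₄(ρ) = 0`; `jFun_I`, `jFun_rho`; `S_smul_I`, `ST_smul_rho`.
* `analyticOrderAt_jFun_sub_*` : the order of `j - j(z₀)` at `z₀` is `3`, `2`, `1` according to
  `E₄ z₀ = 0`, `E₆ z₀ = 0`, neither.

Built on helper140's `Fermat.Agent.S20.L1.Ramanujan` (Ramanujan identities, `jFun`, `D_jFun`).
-/

set_option autoImplicit false

open UpperHalfPlane ModularForm EisensteinSeries Derivative Filter Topology
open scoped MatrixGroups Manifold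

noncomputable section

namespace Fermat.Agent.S24.M7.H47

open Fermat.Agent.S20.L1

local notation "Δ" => ModularForm.discriminant


/-- Function-level transformation law from slash invariance. -/
lemma smul_eq_of_slash_eq {k : ℤ} {F : ℍ → ℂ} {γ : SL(2, ℤ)} (h : F ∣[k] γ = F) (z : ℍ) :
    F (γ • z) = denom γ z ^ k * F z := by
  have h1 := congrFun h z
  rw [SL_slash_apply] at h1
  have hd : denom γ z ≠ 0 := denom_ne_zero _ _
  rw [← h1, mul_comm, mul_assoc, ← zpow_add₀ hd]
  simp

lemma discriminant_smul_eq (γ : SL(2, ℤ)) (z : ℍ) :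
    Δ (γ • z) = denom γ z ^ (12 : ℤ) * Δ z :=
  smul_eq_of_slash_eq
    (SlashInvariantFormClass.slash_action_eq CuspForm.discriminant _ ⟨γ, rfl⟩) z

lemma E₄_smul_eq (γ : SL(2, ℤ)) (z : ℍ) :
    E₄ (γ • z) = denom γ z ^ (4 : ℤ) * E₄ z :=
  smul_eq_of_slash_eq (levelOne_slash_eq E₄ γ) z

lemma E₆_smul_eq (γ : SL(2, ℤ)) (z : ℍ) :
    E₆ (γ • z) = denom γ z ^ (6 : ℤ) * E₆ z :=
  smul_eq_of_slash_eq (levelOne_slash_eq E₆ γ) z

/-- The weight-12 numerator `E₄³ - c Δ` of `j - c`. -/
def jNum (c : ℂ) : ℍ → ℂ := fun z ↦ E₄ z ^ 3 - c * Δ z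

lemma mdiff_jNum (c : ℂ) : MDiff (jNum c) := by
  have h : jNum c = (E₄ : ℍ → ℂ) ^ 3 - c • (Δ : ℍ → ℂ) := by
    funext z; simp [jNum]
  rw [h]
  exact (mdiff_E₄.pow 3).sub (mdiff_discriminant.const_smul _)

lemma jNum_smul (c : ℂ) (γ : SL(2, ℤ)) (z : ℍ) :
    jNum c (γ • z) = denom γ z ^ (12 : ℤ) * jNum c z := by
  have hd : denom γ z ≠ 0 := denom_ne_zero _ _
  simp only [jNum, discriminant_smul_eq, E₄_smul_eq]
  rw [mul_pow, ← zpow_natCast (denom γ z ^ (4:ℤ)) 3, ← zpow_mul]
  norm_num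
  ring

lemma tendsto_jNum (c : ℂ) : Tendsto (jNum c) atImInfty (𝓝 1) := by
  have h1 : Tendsto (fun z : ℍ ↦ E₄ z ^ 3) atImInfty (𝓝 (1 ^ 3)) := tendsto_E₄.pow 3
  have h2 : Tendsto (fun z : ℍ ↦ c * Δ z) atImInfty (𝓝 (c * 0)) :=
    (discriminant_isZeroAtImInfty).const_mul c
  have h3 := h1.sub h2
  simp only [one_pow, mul_zero, sub_zero] at h3
  exact h3

/-- `E₄³ - c Δ` has a zero on `ℍ`, for every `c`. -/
theorem exists_jNum_eq_zero (c : ℂ) : ∃ z : ℍ, jNum c z = 0 := by
  by_contra hne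
  replace hne : ∀ z : ℍ, jNum c z ≠ 0 := fun z hz ↦ hne ⟨z, hz⟩
  have hol : MDiff (fun z ↦ (1 : ℂ) / jNum c z) :=
    (mdifferentiable_const (c := (1:ℂ))).div (mdiff_jNum c) hne
  have inv : ∀ γ : SL(2, ℤ), (fun z ↦ (1 : ℂ) / jNum c z) ∣[(-12 : ℤ)] γ
      = fun z ↦ (1 : ℂ) / jNum c z := by
    intro γ
    funext z
    have hd : denom γ z ≠ 0 := denom_ne_zero _ _
    rw [SL_slash_apply, jNum_smul]
    have := hne z
    simp only [neg_neg]
    field_simp
  have bdd : IsBoundedAtImInfty (fun z ↦ (1 : ℂ) / jNum c z) := by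
    have h : Tendsto (fun z ↦ (1 : ℂ) / jNum c z) atImInfty (𝓝 (1 / 1)) :=
      (tendsto_const_nhds).div (tendsto_jNum c) one_ne_zero
    exact h.isBigO_one ℝ
  have h0 := ModularFormClass.levelOne_neg_weight_eq_zero (by norm_num)
    (mkLevelOne (-12) _ hol inv bdd)
  have h1 := congrFun h0 UpperHalfPlane.I
  simp only [coe_mkLevelOne, Pi.zero_apply, one_div, inv_eq_zero] at h1
  exact hne _ h1

/-- For every `c : ℂ` there is `z ∈ ℍ` with `E₄(z)³ = c Δ(z)`. -/
theorem exists_E₄_cube_eq_mul_discriminant (c : ℂ) : ∃ z : ℍ, E₄ z ^ 3 = c * Δ z := by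
  obtain ⟨z, hz⟩ := exists_jNum_eq_zero c
  exact ⟨z, sub_eq_zero.mp hz⟩

/-- **`j` is surjective.** -/
theorem jFun_surjective : Function.Surjective jFun := by
  intro c
  obtain ⟨z, hz⟩ := exists_E₄_cube_eq_mul_discriminant c
  exact ⟨z, by rw [jFun, hz, mul_div_assoc, div_self (discriminant_ne_zero z), mul_one]⟩

/-- `j` is `SL(2, ℤ)`-invariant. -/
lemma jFun_smul (γ : SL(2, ℤ)) (z : ℍ) : jFun (γ • z) = jFun z := by
  have hd : denom γ z ≠ 0 := denom_ne_zero _ _
  have hΔ := discriminant_ne_zero z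
  simp only [jFun, discriminant_smul_eq, E₄_smul_eq]
  rw [mul_pow, ← zpow_natCast (denom γ z ^ (4:ℤ)) 3, ← zpow_mul]
  norm_num
  field_simp

/-! ### The elliptic points -/

lemma S_smul_I : ModularGroup.S • UpperHalfPlane.I = UpperHalfPlane.I := by
  rw [modular_S_smul]
  ext
  simp [Complex.inv_I]

/-- `E₆(i) = 0`. -/
theorem E₆_I : E₆ UpperHalfPlane.I = 0 := by
  have h := E₆_smul_eq ModularGroup.S UpperHalfPlane.I
  rw [S_smul_I, ModularGroup.denom_S] at h
  have h6 : ((UpperHalfPlane.I : ℍ) : ℂ) ^ (6 : ℤ) = -1 := by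
    have : ((UpperHalfPlane.I : ℍ) : ℂ) = Complex.I := rfl
    rw [this]
    norm_cast
    rw [show (6 : ℕ) = 2 * 3 by norm_num, pow_mul, Complex.I_sq]
    norm_num
  rw [h6] at h
  have : (2 : ℂ) * E₆ UpperHalfPlane.I = 0 := by linear_combination h
  simpa using this

/-- The elliptic point `ρ = e^{2πi/3} = -1/2 + (√3/2) i`. -/
def rho : ℍ := ⟨-1 / 2 + (Real.sqrt 3 / 2 : ℝ) * Complex.I, by simp⟩

lemma coe_rho : (rho : ℂ) = -1 / 2 + (Real.sqrt 3 / 2 : ℝ) * Complex.I := rfl

lemma rho_sq_add : (rho : ℂ) ^ 2 + (rho : ℂ) + 1 = 0 := by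
  rw [coe_rho]
  have h3 : ((Real.sqrt 3 : ℝ) : ℂ) ^ 2 = 3 := by
    norm_cast
    exact Real.sq_sqrt (by norm_num)
  push_cast
  linear_combination (Complex.I ^ 2 / 4) * h3 + (3 / 4 : ℂ) * Complex.I_sq

lemma ST_smul_rho : (ModularGroup.S * ModularGroup.T) • rho = rho := by
  ext
  rw [coe_specialLinearGroup_apply]
  have h := rho_sq_add
  have hne : (rho : ℂ) + 1 ≠ 0 := by
    intro h1
    have : (rho : ℂ) = -1 := by linear_combination h1
    rw [this] at h
    norm_num at h
  simp [ModularGroup.S, ModularGroup.T]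
  field_simp
  linear_combination -h

lemma denom_ST (z : ℍ) : denom (ModularGroup.S * ModularGroup.T : SL(2, ℤ)) z = (z : ℂ) + 1 := by
  rw [ModularGroup.denom_apply]
  simp [ModularGroup.S, ModularGroup.T, Matrix.mul_apply, Fin.sum_univ_two]

lemma denom_ST_rho : denom (ModularGroup.S * ModularGroup.T : SL(2, ℤ)) rho = (rho : ℂ) + 1 :=
  denom_ST rho

/-- `E₄(ρ) = 0`. -/
theorem E₄_rho : E₄ rho = 0 := by
  have h := E₄_smul_eq (ModularGroup.S * ModularGroup.T) rho
  rw [ST_smul_rho, denom_ST_rho] at h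
  have hr := rho_sq_add
  have h4 : ((rho : ℂ) + 1) ^ (4 : ℤ) = -(rho : ℂ) - 1 := by
    norm_cast
    have h2 : ((rho : ℂ) + 1) ^ 2 = (rho : ℂ) := by linear_combination hr
    rw [show (4 : ℕ) = 2 * 2 by norm_num, pow_mul, h2]
    linear_combination hr
  rw [h4] at h
  have hne : (rho : ℂ) + 2 ≠ 0 := by
    intro h1
    have : (rho : ℂ) = -2 := by linear_combination h1
    rw [this] at hr
    norm_num at hr
  have : ((rho : ℂ) + 2) * E₄ rho = 0 := by linear_combination h
  rcases mul_eq_zero.mp this with h' | h'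
  · exact absurd h' hne
  · exact h'

theorem jFun_I : jFun UpperHalfPlane.I = 1728 := (jFun_eq_1728_iff _).mpr E₆_I

theorem jFun_rho : jFun rho = 0 := (jFun_eq_zero_iff _).mpr E₄_rho



/-! ### Local orders of `j` -/

lemma analyticAt_comp_ofComplex {F : ℍ → ℂ} (hF : MDiff F) (z : ℍ) :
    AnalyticAt ℂ (F ∘ ofComplex) (z : ℂ) :=
  (UpperHalfPlane.mdifferentiable_iff.mp hF).analyticAt
    (isOpen_upperHalfPlaneSet.mem_nhds z.im_pos)

lemma deriv_comp_ofComplex_ne_zero {F : ℍ → ℂ} {z : ℍ} (h : D F z ≠ 0) :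
    deriv (F ∘ ofComplex) (z : ℂ) ≠ 0 := by
  intro h0
  apply h
  simp [normalizedDerivOfComplex, h0]

lemma mdiff_inv_discriminant : MDiff (fun z : ℍ ↦ (Δ z)⁻¹) := by
  have := (mdifferentiable_const (c := (1:ℂ))).div mdiff_discriminant discriminant_ne_zero
  have h : (fun z : ℍ ↦ (Δ z)⁻¹) = (fun _ ↦ (1 : ℂ)) / (Δ : ℍ → ℂ) := by
    funext z; simp
  rw [h]
  exact this

lemma analyticOrderAt_inv_discriminant (z : ℍ) :
    analyticOrderAt ((fun z : ℍ ↦ (Δ z)⁻¹) ∘ ofComplex) (z : ℂ) = 0 := by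
  rw [(analyticAt_comp_ofComplex mdiff_inv_discriminant z).analyticOrderAt_eq_zero]
  simp [discriminant_ne_zero]

/-- Zeros of `E₄` have order one. -/
theorem analyticOrderAt_E₄ {z : ℍ} (h : E₄ z = 0) :
    analyticOrderAt ((E₄ : ℍ → ℂ) ∘ ofComplex) (z : ℂ) = 1 :=
  (analyticAt_comp_ofComplex mdiff_E₄ z).analyticOrderAt_eq_one_of_zero_deriv_ne_zero
    (by simpa using h) (deriv_comp_ofComplex_ne_zero (D_E₄_ne_zero h))

/-- Zeros of `E₆` have order one. -/
theorem analyticOrderAt_E₆ {z : ℍ} (h : E₆ z = 0) :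
    analyticOrderAt ((E₆ : ℍ → ℂ) ∘ ofComplex) (z : ℂ) = 1 :=
  (analyticAt_comp_ofComplex mdiff_E₆ z).analyticOrderAt_eq_one_of_zero_deriv_ne_zero
    (by simpa using h) (deriv_comp_ofComplex_ne_zero (D_E₆_ne_zero h))

/-- At a point with `E₄ E₆ ≠ 0` (i.e. `j ≠ 0, 1728`), `j - j(z₀)` vanishes to order `1`. -/
theorem analyticOrderAt_jFun_sub_generic {z₀ : ℍ} (h4 : E₄ z₀ ≠ 0) (h6 : E₆ z₀ ≠ 0) :
    analyticOrderAt (fun w : ℂ ↦ jFun (ofComplex w) - jFun z₀) (z₀ : ℂ) = 1 := by
  have h := (analyticAt_comp_ofComplex mdiff_jFun z₀).analyticOrderAt_sub_eq_one_of_deriv_ne_zero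
    (deriv_comp_ofComplex_ne_zero (D_jFun_ne_zero h4 h6))
  simpa using h

/-- At a zero of `E₆` (i.e. `j = 1728`), `j - j(z₀)` vanishes to order `2`. -/
theorem analyticOrderAt_jFun_sub_of_E₆ {z₀ : ℍ} (h : E₆ z₀ = 0) :
    analyticOrderAt (fun w : ℂ ↦ jFun (ofComplex w) - jFun z₀) (z₀ : ℂ) = 2 := by
  have hfun : (fun w : ℂ ↦ jFun (ofComplex w) - jFun z₀)
      = ((E₆ : ℍ → ℂ) ∘ ofComplex) ^ 2 * ((fun z : ℍ ↦ (Δ z)⁻¹) ∘ ofComplex) := by
    funext w
    rw [(jFun_eq_1728_iff z₀).mpr h]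
    have hΔ := discriminant_ne_zero (ofComplex w)
    have := E₄_cube_sub_E₆_sq (ofComplex w)
    simp only [jFun, Pi.mul_apply, Pi.pow_apply, Function.comp_apply]
    field_simp
    linear_combination this
  rw [hfun, analyticOrderAt_mul ((analyticAt_comp_ofComplex mdiff_E₆ z₀).pow 2)
    (analyticAt_comp_ofComplex mdiff_inv_discriminant z₀),
    analyticOrderAt_pow (analyticAt_comp_ofComplex mdiff_E₆ z₀), analyticOrderAt_E₆ h,
    analyticOrderAt_inv_discriminant]
  rfl

/-- At a zero of `E₄` (i.e. `j = 0`), `j - j(z₀)` vanishes to order `3`. -/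
theorem analyticOrderAt_jFun_sub_of_E₄ {z₀ : ℍ} (h : E₄ z₀ = 0) :
    analyticOrderAt (fun w : ℂ ↦ jFun (ofComplex w) - jFun z₀) (z₀ : ℂ) = 3 := by
  have hfun : (fun w : ℂ ↦ jFun (ofComplex w) - jFun z₀)
      = ((E₄ : ℍ → ℂ) ∘ ofComplex) ^ 3 * ((fun z : ℍ ↦ (Δ z)⁻¹) ∘ ofComplex) := by
    funext w
    rw [(jFun_eq_zero_iff z₀).mpr h]
    simp only [jFun, Pi.mul_apply, Pi.pow_apply, Function.comp_apply, sub_zero, div_eq_mul_inv]
  rw [hfun, analyticOrderAt_mul ((analyticAt_comp_ofComplex mdiff_E₄ z₀).pow 3)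
    (analyticAt_comp_ofComplex mdiff_inv_discriminant z₀),
    analyticOrderAt_pow (analyticAt_comp_ofComplex mdiff_E₄ z₀), analyticOrderAt_E₄ h,
    analyticOrderAt_inv_discriminant]
  rfl

end Fermat.Agent.S24.M7.H47

end
end
-- ===== PACK-END S24/M7/H47Level1.lean

-- ===== PACK-BEGIN S20/Comb694/Fixed.lean
section


/-!
# Fixed points of `S` and `S * T` on `SL(2,ℤ) ⧸ Gamma0 N`

* `card_fixedBy_S : Nat.card (MulAction.fixedBy (SL(2,ℤ) ⧸ Gamma0 N) S) = nuTwo N`
* `card_fixedBy_ST : Nat.card (MulAction.fixedBy (SL(2,ℤ) ⧸ Gamma0 N) (S * T)) = nuThree N`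
-/

set_option autoImplicit false

namespace Fermat.Agent.S20.Comb694

open Matrix MatrixGroups CongruenceSubgroup

variable (N : ℕ)

/-- From a root of `x² + 1` in `ZMod N` to a fixed point of `S`. -/
noncomputable def rootToFixedS (x : {x : ZMod N // x ^ 2 + 1 = 0}) :
    MulAction.fixedBy (SL(2, ℤ) ⧸ Gamma0 N) ModularGroup.S :=
  ⟨QuotientGroup.mk (colRep (ZMod.cast x.1 : ℤ)), by
    rw [MulAction.mem_fixedBy, S_smul_mk_eq_mk_iff]
    simp only [colRep_apply_zero_zero, colRep_apply_one_zero, ZMod.intCast_zmod_cast,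
      Int.cast_one, one_pow]
    exact x.2⟩

lemma rootToFixedS_bijective : Function.Bijective (rootToFixedS N) := by
  constructor
  · rintro ⟨x, hx⟩ ⟨y, hy⟩ h
    have h' := congrArg Subtype.val h
    simp only [rootToFixedS] at h'
    rw [mk_eq_mk_iff] at h'
    simp only [colRep_apply_zero_zero, colRep_apply_one_zero, ZMod.intCast_zmod_cast,
      Int.cast_one, mul_one, one_mul] at h'
    exact Subtype.ext (sub_eq_zero.mp h')
  · rintro ⟨q, hq⟩
    obtain ⟨g, rfl⟩ := QuotientGroup.mk_surjective q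
    rw [MulAction.mem_fixedBy, S_smul_mk_eq_mk_iff] at hq
    have hinv := c_mul_inv_eq_one N g (-((g 1 0 : ℤ) : ZMod N)) (by linear_combination hq)
    set a : ZMod N := ((g 0 0 : ℤ) : ZMod N) with ha
    set c : ZMod N := ((g 1 0 : ℤ) : ZMod N) with hc
    set i : ZMod N := (-c * ((g 1 1 : ℤ) : ZMod N) ^ 2
        - 2 * a * ((g 0 1 : ℤ) : ZMod N) * ((g 1 1 : ℤ) : ZMod N)
        + ((g 0 1 : ℤ) : ZMod N) ^ 2 * c) with hi
    refine ⟨⟨a * i, ?_⟩, ?_⟩
    · linear_combination (i ^ 2) * hq - (c * i + 1) * hinv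
    · apply Subtype.ext
      simp only [rootToFixedS]
      rw [mk_eq_mk_iff]
      simp only [colRep_apply_zero_zero, colRep_apply_one_zero, ZMod.intCast_zmod_cast,
        Int.cast_one, one_mul]
      linear_combination a * hinv

/-- **(I2)** The number of fixed points of `S` on `SL(2,ℤ) ⧸ Γ₀(N)` is `ν₂(N)`. -/
theorem card_fixedBy_S :
    Nat.card (MulAction.fixedBy (SL(2, ℤ) ⧸ Gamma0 N) ModularGroup.S) = ModularCurve.nuTwo N := by
  rw [ModularCurve.nuTwo]
  exact (Nat.card_eq_of_bijective _ (rootToFixedS_bijective N)).symm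

/-- From a root of `x² + x + 1` in `ZMod N` to a fixed point of `S * T`. -/
noncomputable def rootToFixedST (x : {x : ZMod N // x ^ 2 + x + 1 = 0}) :
    MulAction.fixedBy (SL(2, ℤ) ⧸ Gamma0 N) (ModularGroup.S * ModularGroup.T) :=
  ⟨QuotientGroup.mk (colRep (ZMod.cast x.1 : ℤ)), by
    rw [MulAction.mem_fixedBy, ST_smul_mk_eq_mk_iff]
    simp only [colRep_apply_zero_zero, colRep_apply_one_zero, ZMod.intCast_zmod_cast,
      Int.cast_one, one_pow, mul_one]
    exact x.2⟩

lemma rootToFixedST_bijective : Function.Bijective (rootToFixedST N) := by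
  constructor
  · rintro ⟨x, hx⟩ ⟨y, hy⟩ h
    have h' := congrArg Subtype.val h
    simp only [rootToFixedST] at h'
    rw [mk_eq_mk_iff] at h'
    simp only [colRep_apply_zero_zero, colRep_apply_one_zero, ZMod.intCast_zmod_cast,
      Int.cast_one, mul_one, one_mul] at h'
    exact Subtype.ext (sub_eq_zero.mp h')
  · rintro ⟨q, hq⟩
    obtain ⟨g, rfl⟩ := QuotientGroup.mk_surjective q
    rw [MulAction.mem_fixedBy, ST_smul_mk_eq_mk_iff] at hq
    have hinv := c_mul_inv_eq_one N g (-((g 0 0 : ℤ) : ZMod N) - ((g 1 0 : ℤ) : ZMod N))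
      (by linear_combination hq)
    set a : ZMod N := ((g 0 0 : ℤ) : ZMod N) with ha
    set c : ZMod N := ((g 1 0 : ℤ) : ZMod N) with hc
    set i : ZMod N := ((-a - c) * ((g 1 1 : ℤ) : ZMod N) ^ 2
        - 2 * a * ((g 0 1 : ℤ) : ZMod N) * ((g 1 1 : ℤ) : ZMod N)
        + ((g 0 1 : ℤ) : ZMod N) ^ 2 * c) with hi
    refine ⟨⟨a * i, ?_⟩, ?_⟩
    · linear_combination (i ^ 2) * hq - (c * i + 1 + a * i) * hinv
    · apply Subtype.ext
      simp only [rootToFixedST]
      rw [mk_eq_mk_iff]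
      simp only [colRep_apply_zero_zero, colRep_apply_one_zero, ZMod.intCast_zmod_cast,
        Int.cast_one, one_mul]
      linear_combination a * hinv

/-- **(I3)** The number of fixed points of `S * T` on `SL(2,ℤ) ⧸ Γ₀(N)` is `ν₃(N)`. -/
theorem card_fixedBy_ST :
    Nat.card (MulAction.fixedBy (SL(2, ℤ) ⧸ Gamma0 N) (ModularGroup.S * ModularGroup.T))
      = ModularCurve.nuThree N := by
  rw [ModularCurve.nuThree]
  exact (Nat.card_eq_of_bijective _ (rootToFixedST_bijective N)).symm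

end Fermat.Agent.S20.Comb694

end
-- ===== PACK-END S20/Comb694/Fixed.lean

-- ===== PACK-BEGIN S28/H867/IntZ.lean
section



set_option autoImplicit false
noncomputable section
open ModularCurve HahnSeries Polynomial

namespace Fermat.Agent.S28.H867

section IntZ

variable {A : Type*} [CommRing A]

theorem ringHom_comp_evalAt {B : Type*} [CommRing B] (ψ : LaurentSeries A →+* LaurentSeries B)
    (y : LaurentSeries A) : ψ.comp (evalAt y) = evalAt (ψ y) := by
  apply Polynomial.ringHom_ext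
  · intro a; simp [evalAt]
  · simp [evalAt]

/-- Integrality is transported by ring homomorphisms. -/
theorem isIntegralElem_map {B : Type*} [CommRing B] (ψ : LaurentSeries A →+* LaurentSeries B)
    {y x : LaurentSeries A} (h : (evalAt y).IsIntegralElem x) :
    (evalAt (ψ y)).IsIntegralElem (ψ x) := by
  obtain ⟨P, hP, hPx⟩ := h
  refine ⟨P, hP, ?_⟩
  rw [← ringHom_comp_evalAt, ← Polynomial.hom_eval₂, hPx, map_zero]

/-- Transitivity: `y` integral over `ℤ[j]` and `x` integral over `ℤ[y]` imply `x` integral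
over `ℤ[j]`. -/
theorem isIntegralElem_trans {j y x : LaurentSeries A} (hy : (evalAt j).IsIntegralElem y)
    (hx : (evalAt y).IsIntegralElem x) : (evalAt j).IsIntegralElem x := by
  let _ : Algebra (Polynomial ℤ) (LaurentSeries A) := (evalAt j).toAlgebra
  have hy' : IsIntegral (Polynomial ℤ) y := hy
  set C := integralClosure (Polynomial ℤ) (LaurentSeries A) with hC
  have hyC : y ∈ C := hy'
  obtain ⟨P, hP, hPx⟩ := hx
  let φ : Polynomial ℤ →+* C := (Polynomial.aeval (R := ℤ) (⟨y, hyC⟩ : C)).toRingHom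
  have hφ : (algebraMap C (LaurentSeries A)).comp φ = evalAt y := by
    apply Polynomial.ringHom_ext
    · intro a; simp [φ, evalAt]
    · simp [φ, evalAt]
  have hxC : IsIntegral C x := by
    refine ⟨P.map φ, hP.map _, ?_⟩
    rw [Polynomial.eval₂_map, hφ]
    exact hPx
  exact isIntegral_trans (R := Polynomial ℤ) (A := C) x hxC

end IntZ

section Jd

/-- `j(q^d)` is integral over `ℤ[j]`, given modular polynomials at all primes dividing `d`. -/
theorem isIntegralElem_jd (d : ℕ) (hd : d ≠ 0)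
    (hΦ : ∀ p : ℕ, p.Prime → p ∣ d → ∀ [NeZero p], Nonempty (ModPolyData p)) :
    (evalAt (jqModC ℤ)).IsIntegralElem (@qExpand ℤ _ d ⟨hd⟩ (jqModC ℤ)) := by
  induction d using Nat.recOnMul with
  | zero => exact absurd rfl hd
  | one =>
    rw [qExpand_one_apply]
    refine ⟨Polynomial.X - Polynomial.C Polynomial.X, Polynomial.monic_X_sub_C _, ?_⟩
    simp [evalAt]
  | prime p hp =>
    have : NeZero p := ⟨hp.ne_zero⟩
    obtain ⟨D⟩ := hΦ p hp dvd_rfl
    exact ⟨D.Φ, D.monic, D.eval_jp⟩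
  | mul a b iha ihb =>
    have ha0 : a ≠ 0 := fun h => hd (by rw [h, zero_mul])
    have hb0 : b ≠ 0 := fun h => hd (by rw [h, mul_zero])
    have : NeZero a := ⟨ha0⟩
    have : NeZero b := ⟨hb0⟩
    have h1 := iha ha0 fun p hp hpa => hΦ p hp (hpa.mul_right b)
    have h2 := ihb hb0 fun p hp hpb => hΦ p hp (hpb.mul_left a)
    have h3 := isIntegralElem_map (qExpand ℤ a) h2
    rw [qExpand_qExpand] at h3
    exact isIntegralElem_trans h1 h3

/-- The `integral` field of `CoreData`. -/
theorem coreData_integral (N : ℕ) [NeZero N]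
    (hΦ : ∀ p : ℕ, p.Prime → p ∣ N → ∀ [NeZero p], Nonempty (ModPolyData p)) :
    ∀ (d : ℕ) [NeZero d], d ∣ N →
      ∃ P : Polynomial (Polynomial ℤ), P.Monic ∧
        P.eval₂ (evalAt (jqModC ℤ)) (qExpand ℤ d (jqModC ℤ)) = 0 := by
  intro d hd hdN
  exact isIntegralElem_jd d hd.out fun p hp hpd => hΦ p hp (hpd.trans hdN)

end Jd

end Fermat.Agent.S28.H867

end
end
-- ===== PACK-END S28/H867/IntZ.lean

-- ===== PACK-BEGIN S28/H145/PrimeDegree.lean
section





/-!
# Leaf [L.B2] of the S28 plan: the prime-level degrees are `p + 1`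

From the modular polynomial `Φ_p` (`ModPolyData p`) and `j(q^p) ∉ k(j)` we deduce that
`j(q^p)` has degree exactly `p + 1` over `k(j)` and `j` has degree exactly `p + 1` over
`k(j(q^p))`.
-/

set_option autoImplicit false

noncomputable section

open ModularCurve HahnSeries Polynomial

namespace Fermat.Agent.S28.H145

variable (k : Type*) [Field k]

/-! ### Basic facts on `j` -/

theorem jqModC_ne_zero' : jqModC k ≠ 0 := jqModC_ne_zero_of_nontrivial k

theorem order_jqModC : (jqModC k).order = -1 := by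
  have h1 : (jqModC k).coeff (-1) ≠ 0 := by
    rw [coeff_jqModC_neg_one]; exact one_ne_zero
  refine le_antisymm (HahnSeries.order_le_of_coeff_ne_zero h1) ?_
  by_contra hlt
  rw [not_le] at hlt
  exact (HahnSeries.coeff_order_eq_zero.not.mpr (jqModC_ne_zero' k)) (coeff_jqModC_of_lt k hlt)

theorem isCoprime_order_jqModC (p : ℕ) : IsCoprime (jqModC k).order (p : ℤ) := by
  rw [order_jqModC]
  exact (isCoprime_one_left).neg_left

/-- `j ∉ range V_p` for `p ≥ 2`. -/
theorem jqModC_notMem_range (p : ℕ) [NeZero p] (hp : 2 ≤ p) :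
    jqModC k ∉ (qExpand k p).range := by
  rintro ⟨z, hz⟩
  have h := dvd_order_qExpand (k := k) p z
  rw [hz, order_jqModC] at h
  have h1 : (p : ℤ) ∣ 1 := (dvd_neg.mp h)
  have h2 : (p : ℤ) ≤ 1 := Int.le_of_dvd one_pos h1
  have : (2 : ℤ) ≤ p := by exact_mod_cast hp
  omega

/-! ### Transfer of the modular equation to `k` -/

theorem coeffMap_comp_evalAt {A B : Type*} [CommRing A] [CommRing B] (f : A →+* B)
    (y : LaurentSeries A) :
    (coeffMap f).comp (evalAt y) = evalAt (coeffMap f y) := by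
  refine Polynomial.ringHom_ext' (Subsingleton.elim _ _) ?_
  simp [evalAt]

theorem qExpand_comp_evalAt {A : Type*} [CommRing A] (p : ℕ) [NeZero p] (y : LaurentSeries A) :
    (qExpand A p).comp (evalAt y) = evalAt (qExpand A p y) := by
  refine Polynomial.ringHom_ext' (Subsingleton.elim _ _) ?_
  simp [evalAt]

variable {k} in
theorem modPoly_eval_jp_field {p : ℕ} [NeZero p] (Φ : ModPolyData p) :
    Φ.Φ.eval₂ (evalAt (jqModC k)) (qExpand k p (jqModC k)) = 0 := by
  have h := congrArg (coeffMap (Int.castRingHom k)) Φ.eval_jp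
  rwa [Polynomial.hom_eval₂, coeffMap_comp_evalAt, coeffMap_qExpand, coeffMap_jqModC, map_zero]
    at h

variable {k} in
theorem modPoly_eval_j_field {p : ℕ} [NeZero p] (Φ : ModPolyData p) :
    Φ.Φ.eval₂ (evalAt (qExpand k p (jqModC k))) (jqModC k) = 0 := by
  have h := congrArg (coeffMap (Int.castRingHom k)) Φ.eval_j
  rwa [Polynomial.hom_eval₂, coeffMap_comp_evalAt, coeffMap_qExpand, coeffMap_jqModC, map_zero]
    at h

variable {k} in
/-- `Φ_p(j(q^{p²}), j(q^p)) = 0`. -/
theorem modPoly_eval_jpp_field {p : ℕ} [NeZero p] (Φ : ModPolyData p) :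
    Φ.Φ.eval₂ (evalAt (qExpand k p (jqModC k))) (qExpand k p (qExpand k p (jqModC k))) = 0 := by
  have h := congrArg (qExpand k p) (modPoly_eval_jp_field (k := k) Φ)
  rwa [Polynomial.hom_eval₂, qExpand_comp_evalAt, map_zero] at h

/-! ### Polynomials over intermediate fields -/

section Sub

variable {k}
variable (K : IntermediateField k (LaurentSeries k))

/-- The ring hom `ℤ[Y] → K`, `Y ↦ y`, for `y ∈ K`. -/
def evalAtSub (y : LaurentSeries k) (hy : y ∈ K) : Polynomial ℤ →+* K :=
  Polynomial.eval₂RingHom (Int.castRingHom K) ⟨y, hy⟩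

theorem algebraMap_comp_evalAtSub (y : LaurentSeries k) (hy : y ∈ K) :
    (algebraMap K (LaurentSeries k)).comp (evalAtSub K y hy) = evalAt y := by
  refine Polynomial.ringHom_ext' (Subsingleton.elim _ _) ?_
  simp [evalAtSub, evalAt]

theorem aeval_map_evalAtSub (y : LaurentSeries k) (hy : y ∈ K) (P : Polynomial (Polynomial ℤ))
    (x : LaurentSeries k) :
    Polynomial.aeval x (P.map (evalAtSub K y hy)) = P.eval₂ (evalAt y) x := by
  rw [Polynomial.aeval_def, Polynomial.eval₂_map, algebraMap_comp_evalAtSub]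

end Sub

/-! ### The fields `k(j)` and `k(j(q^p))` -/

section Fields

variable (p : ℕ) [NeZero p]

/-- `k(j(q^p)) = V_p(k(j))`. -/
def jpField : IntermediateField k (LaurentSeries k) :=
  (jField k).map (qExpandAlgHomC k p)

variable {k p}

theorem jqModC_mem_jField : jqModC k ∈ jField k :=
  IntermediateField.mem_adjoin_simple_self k _

theorem jp_mem_jpField : qExpand k p (jqModC k) ∈ jpField k p :=
  (IntermediateField.mem_map _).mpr ⟨jqModC k, jqModC_mem_jField, rfl⟩

theorem jpField_eq_adjoin :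
    jpField k p = IntermediateField.adjoin k {qExpand k p (jqModC k)} := by
  rw [jpField, jField, IntermediateField.adjoin_map]
  simp

theorem mem_range_of_mem_jpField {y : LaurentSeries k} (hy : y ∈ jpField k p) :
    y ∈ (qExpand k p).range := by
  obtain ⟨x, -, rfl⟩ := (IntermediateField.mem_map _).mp hy
  exact ⟨x, rfl⟩

theorem jp_mem_jField_of_jpp_mem
    (h : qExpand k p (qExpand k p (jqModC k)) ∈ jpField k p) :
    qExpand k p (jqModC k) ∈ jField k := by
  obtain ⟨x, hx, hxe⟩ := (IntermediateField.mem_map _).mp h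
  have : x = qExpand k p (jqModC k) := qExpand_injective p hxe
  rwa [← this]

end Fields

/-! ### The degree of `j` over `k(j(q^p))` -/

section Main

variable {k} {p : ℕ} [NeZero p]

/-- A monic polynomial of degree `p` with coefficients in the range of `V_p` cannot kill both
`j` and an element of the range of `V_p`. -/
theorem false_of_monic_natDegree_eq_of_roots (hp : 2 ≤ p) (f : Polynomial (LaurentSeries k))
    (hf : f.Monic) (hdeg : f.natDegree = p) (hcoef : ∀ n, f.coeff n ∈ (qExpand k p).range)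
    (hj : f.eval (jqModC k) = 0) (z : LaurentSeries k) (hz : f.eval (qExpand k p z) = 0) :
    False := by
  have hlift : f ∈ Polynomial.lifts (qExpand k p) :=
    (Polynomial.lifts_iff_coeff_lifts f).mpr fun n => by
      obtain ⟨c, hc⟩ := hcoef n
      exact ⟨c, hc⟩
  obtain ⟨m', hm'map, hm'deg, hm'monic⟩ := Polynomial.lifts_and_natDegree_eq_and_monic hlift hf
  have hroot : m'.IsRoot z := by
    have h1 : (qExpand k p) (m'.eval z) = 0 := by
      rw [← Polynomial.eval₂_hom, ← Polynomial.eval_map, hm'map]; exact hz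
    exact qExpand_injective p (by rw [h1, map_zero])
  have hfac : (X - Polynomial.C z) * (m' /ₘ (X - Polynomial.C z)) = m' := Polynomial.mul_divByMonic_eq_iff_isRoot.mpr hroot
  set m₂ := m' /ₘ (X - Polynomial.C z) with hm₂
  have hm₂deg : m₂.natDegree = p - 1 := by
    rw [hm₂, Polynomial.natDegree_divByMonic _ (Polynomial.monic_X_sub_C z), hm'deg, hdeg,
      Polynomial.natDegree_X_sub_C]
  have hfmap : f = (X - Polynomial.C (qExpand k p z)) * m₂.map (qExpand k p) := by
    rw [← hm'map, ← hfac, Polynomial.map_mul, Polynomial.map_sub, Polynomial.map_X,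
      Polynomial.map_C]
  have hne : jqModC k - qExpand k p z ≠ 0 := by
    intro h
    exact jqModC_notMem_range k p hp ⟨z, (sub_eq_zero.mp h).symm⟩
  have hj2 : (m₂.map (qExpand k p)).eval (jqModC k) = 0 := by
    have := hj
    rw [hfmap, Polynomial.eval_mul, Polynomial.eval_sub, Polynomial.eval_X, Polynomial.eval_C]
      at this
    exact (mul_eq_zero.mp this).resolve_left hne
  have hzero : m₂.map (qExpand k p) = 0 := by
    refine eq_zero_of_eval_eq_zero_of_natDegree_lt p (jqModC k) (jqModC_ne_zero' k)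
      (isCoprime_order_jqModC k p) _ (fun n => ?_) ?_ hj2
    · rw [Polynomial.coeff_map]; exact ⟨_, rfl⟩
    · calc (m₂.map (qExpand k p)).natDegree ≤ m₂.natDegree := Polynomial.natDegree_map_le
        _ = p - 1 := hm₂deg
        _ < p := by omega
  rw [hzero, mul_zero] at hfmap
  exact hf.ne_zero hfmap

/-- **[L.B2], first half.** The minimal polynomial of `j` over `k(j(q^p))` is `Φ_p(X, j(q^p))`,
of degree `p + 1`. -/
theorem minpoly_j_over_jpField (Φ : ModPolyData p) (hp : 2 ≤ p)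
    (hB1 : qExpand k p (jqModC k) ∉ jField k) :
    minpoly (jpField k p) (jqModC k) =
      Φ.Φ.map (evalAtSub (jpField k p) _ jp_mem_jpField) := by
  set K₁ := jpField k p with hK₁
  set P₁ : Polynomial K₁ := Φ.Φ.map (evalAtSub K₁ _ jp_mem_jpField) with hP₁
  have hP₁monic : P₁.Monic := Φ.monic.map _
  have hP₁deg : P₁.natDegree = p + 1 := by
    rw [hP₁, Φ.monic.natDegree_map, Φ.natDegree_eq]
  have hroot_j : Polynomial.aeval (jqModC k) P₁ = 0 := by
    rw [hP₁, aeval_map_evalAtSub]; exact modPoly_eval_j_field Φ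
  have hroot_jpp : Polynomial.aeval (qExpand k p (qExpand k p (jqModC k))) P₁ = 0 := by
    rw [hP₁, aeval_map_evalAtSub]; exact modPoly_eval_jpp_field Φ
  have hint : IsIntegral K₁ (jqModC k) := ⟨P₁, hP₁monic, by rwa [← Polynomial.aeval_def]⟩
  set m := minpoly K₁ (jqModC k) with hm
  have hm_dvd : m ∣ P₁ := minpoly.dvd K₁ _ hroot_j
  have hm_monic : m.Monic := minpoly.monic hint
  have hm_le : m.natDegree ≤ p + 1 :=
    hP₁deg ▸ Polynomial.natDegree_le_of_dvd hm_dvd hP₁monic.ne_zero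
  have hcoef : ∀ n, (m.map (algebraMap K₁ (LaurentSeries k))).coeff n ∈ (qExpand k p).range := by
    intro n
    rw [Polynomial.coeff_map]
    exact mem_range_of_mem_jpField (m.coeff n).2
  have hmj : (m.map (algebraMap K₁ (LaurentSeries k))).eval (jqModC k) = 0 := by
    rw [Polynomial.eval_map, ← Polynomial.aeval_def]; exact minpoly.aeval K₁ _
  -- Claim A
  have hA : p ≤ m.natDegree := by
    by_contra hlt
    rw [not_le] at hlt
    have := eq_zero_of_eval_eq_zero_of_natDegree_lt p (jqModC k) (jqModC_ne_zero' k)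
      (isCoprime_order_jqModC k p) (m.map (algebraMap K₁ (LaurentSeries k))) hcoef
      (by rwa [hm_monic.natDegree_map]) hmj
    exact (hm_monic.map _).ne_zero this
  -- Claim B
  have hB : m.natDegree ≠ p := by
    intro hdeg
    obtain ⟨r, hr⟩ := hm_dvd
    have hr_monic : r.Monic := hm_monic.of_mul_monic_left (hr ▸ hP₁monic)
    have hr_deg : r.natDegree = 1 := by
      have := congrArg Polynomial.natDegree hr
      rw [hm_monic.natDegree_mul hr_monic, hP₁deg, hdeg] at this
      omega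
    have hr_eq : r = X + Polynomial.C (r.coeff 0) := hr_monic.eq_X_add_C hr_deg
    have h0 : Polynomial.aeval (qExpand k p (qExpand k p (jqModC k))) m *
        Polynomial.aeval (qExpand k p (qExpand k p (jqModC k))) r = 0 := by
      rw [← map_mul, ← hr]; exact hroot_jpp
    rcases mul_eq_zero.mp h0 with h1 | h1
    · refine false_of_monic_natDegree_eq_of_roots hp (m.map (algebraMap K₁ (LaurentSeries k)))
        (hm_monic.map _) (by rw [hm_monic.natDegree_map, hdeg]) hcoef hmj
        (qExpand k p (jqModC k)) ?_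
      rw [Polynomial.eval_map, ← Polynomial.aeval_def]; exact h1
    · rw [hr_eq] at h1
      simp only [map_add, Polynomial.aeval_X, Polynomial.aeval_C] at h1
      have hmem : qExpand k p (qExpand k p (jqModC k)) ∈ K₁ := by
        have : qExpand k p (qExpand k p (jqModC k)) =
            -(algebraMap K₁ (LaurentSeries k) (r.coeff 0)) := eq_neg_of_add_eq_zero_left h1
        rw [this]
        exact neg_mem (r.coeff 0).2
      exact hB1 (jp_mem_jField_of_jpp_mem hmem)
  have hdeg : m.natDegree = p + 1 := by omega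
  exact (Polynomial.eq_of_monic_of_dvd_of_natDegree_le hm_monic hP₁monic hm_dvd
    (by rw [hP₁deg, hdeg])).symm

theorem natDegree_minpoly_j_over_jpField (Φ : ModPolyData p) (hp : 2 ≤ p)
    (hB1 : qExpand k p (jqModC k) ∉ jField k) :
    (minpoly (jpField k p) (jqModC k)).natDegree = p + 1 := by
  rw [minpoly_j_over_jpField Φ hp hB1, Φ.monic.natDegree_map, Φ.natDegree_eq]

/-- The minimal polynomial of `j(q^{p²})` over `k(j(q^p))` is also `Φ_p(X, j(q^p))`. -/
theorem minpoly_jpp_over_jpField (Φ : ModPolyData p) (hp : 2 ≤ p)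
    (hB1 : qExpand k p (jqModC k) ∉ jField k) :
    minpoly (jpField k p) (qExpand k p (qExpand k p (jqModC k))) =
      Φ.Φ.map (evalAtSub (jpField k p) _ jp_mem_jpField) := by
  have hP₁monic : (Φ.Φ.map (evalAtSub (jpField k p) _ jp_mem_jpField)).Monic := Φ.monic.map _
  have hroot_j : Polynomial.aeval (jqModC k)
      (Φ.Φ.map (evalAtSub (jpField k p) _ jp_mem_jpField)) = 0 := by
    rw [aeval_map_evalAtSub]; exact modPoly_eval_j_field Φ
  have hint : IsIntegral (jpField k p) (jqModC k) :=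
    ⟨_, hP₁monic, by rwa [← Polynomial.aeval_def]⟩
  have hirr : Irreducible (Φ.Φ.map (evalAtSub (jpField k p) _ jp_mem_jpField)) := by
    rw [← minpoly_j_over_jpField Φ hp hB1]
    exact minpoly.irreducible hint
  refine (minpoly.eq_of_irreducible_of_monic hirr ?_ hP₁monic).symm
  rw [aeval_map_evalAtSub]
  exact modPoly_eval_jpp_field Φ

/-- The ring isomorphism `k(j) ≃ k(j(q^p))` induced by `V_p`. -/
def jFieldEquiv (k : Type*) [Field k] (p : ℕ) [NeZero p] : jField k ≃ₐ[k] jpField k p :=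
  IntermediateField.equivMap (jField k) (qExpandAlgHomC k p)

theorem algebraMap_comp_jFieldEquiv :
    (algebraMap (jpField k p) (LaurentSeries k)).comp (jFieldEquiv k p : jField k →+* jpField k p)
      = (qExpand k p).comp (algebraMap (jField k) (LaurentSeries k)) := by
  ext x
  rfl

/-- **[L.B2], second half.** The minimal polynomial of `j(q^p)` over `k(j)` is `Φ_p(X, j)`. -/
theorem minpoly_jp_over_jField (Φ : ModPolyData p) (hp : 2 ≤ p)
    (hB1 : qExpand k p (jqModC k) ∉ jField k) :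
    minpoly (jField k) (qExpand k p (jqModC k)) =
      Φ.Φ.map (evalAtSub (jField k) _ jqModC_mem_jField) := by
  set K₀ := jField k with hK₀
  set P₀ : Polynomial K₀ := Φ.Φ.map (evalAtSub K₀ _ jqModC_mem_jField) with hP₀
  have hP₀monic : P₀.Monic := Φ.monic.map _
  have hP₀deg : P₀.natDegree = p + 1 := by
    rw [hP₀, Φ.monic.natDegree_map, Φ.natDegree_eq]
  have hroot : Polynomial.aeval (qExpand k p (jqModC k)) P₀ = 0 := by
    rw [hP₀, aeval_map_evalAtSub]; exact modPoly_eval_jp_field Φ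
  have hint : IsIntegral K₀ (qExpand k p (jqModC k)) :=
    ⟨P₀, hP₀monic, by rwa [← Polynomial.aeval_def]⟩
  set m₀ := minpoly K₀ (qExpand k p (jqModC k)) with hm₀
  have hm₀_dvd : m₀ ∣ P₀ := minpoly.dvd K₀ _ hroot
  have hm₀_monic : m₀.Monic := minpoly.monic hint
  -- transport to `k(j(q^p))`
  set g : Polynomial (jpField k p) := m₀.map (jFieldEquiv k p : jField k →+* jpField k p) with hg
  have hg_monic : g.Monic := hm₀_monic.map _
  have hg_deg : g.natDegree = m₀.natDegree := hm₀_monic.natDegree_map _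
  have hg_root : Polynomial.aeval (qExpand k p (qExpand k p (jqModC k))) g = 0 := by
    rw [hg, Polynomial.aeval_def, Polynomial.eval₂_map, algebraMap_comp_jFieldEquiv,
      ← Polynomial.hom_eval₂, ← Polynomial.aeval_def, minpoly.aeval, map_zero]
  have hdvd : minpoly (jpField k p) (qExpand k p (qExpand k p (jqModC k))) ∣ g :=
    minpoly.dvd _ _ hg_root
  rw [minpoly_jpp_over_jpField Φ hp hB1] at hdvd
  have hle : p + 1 ≤ m₀.natDegree := by
    have := Polynomial.natDegree_le_of_dvd hdvd hg_monic.ne_zero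
    rwa [Φ.monic.natDegree_map, Φ.natDegree_eq, hg_deg] at this
  exact (Polynomial.eq_of_monic_of_dvd_of_natDegree_le hm₀_monic hP₀monic hm₀_dvd
    (by rw [hP₀deg]; exact hle)).symm

theorem natDegree_minpoly_jp_over_jField (Φ : ModPolyData p) (hp : 2 ≤ p)
    (hB1 : qExpand k p (jqModC k) ∉ jField k) :
    (minpoly (jField k) (qExpand k p (jqModC k))).natDegree = p + 1 := by
  rw [minpoly_jp_over_jField Φ hp hB1, Φ.monic.natDegree_map, Φ.natDegree_eq]

theorem isIntegral_jp_over_jField (Φ : ModPolyData p) :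
    IsIntegral (jField k) (qExpand k p (jqModC k)) := by
  refine ⟨Φ.Φ.map (evalAtSub (jField k) _ jqModC_mem_jField), Φ.monic.map _, ?_⟩
  rw [← Polynomial.aeval_def, aeval_map_evalAtSub]
  exact modPoly_eval_jp_field Φ

theorem isIntegral_j_over_jpField (Φ : ModPolyData p) :
    IsIntegral (jpField k p) (jqModC k) := by
  refine ⟨Φ.Φ.map (evalAtSub (jpField k p) _ jp_mem_jpField), Φ.monic.map _, ?_⟩
  rw [← Polynomial.aeval_def, aeval_map_evalAtSub]
  exact modPoly_eval_j_field Φ

/-- `[k(j, j(q^p)) : k(j)] = p + 1`. -/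
theorem finrank_adjoin_jp_over_jField (Φ : ModPolyData p) (hp : 2 ≤ p)
    (hB1 : qExpand k p (jqModC k) ∉ jField k) :
    Module.finrank (jField k)
      (IntermediateField.adjoin (jField k) {qExpand k p (jqModC k)}) = p + 1 := by
  have h := IntermediateField.adjoin.finrank (isIntegral_jp_over_jField (k := k) Φ)
  rw [h, natDegree_minpoly_jp_over_jField Φ hp hB1]

/-- `[k(j(q^p), j) : k(j(q^p))] = p + 1`. -/
theorem finrank_adjoin_j_over_jpField (Φ : ModPolyData p) (hp : 2 ≤ p)
    (hB1 : qExpand k p (jqModC k) ∉ jField k) :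
    Module.finrank (jpField k p)
      (IntermediateField.adjoin (jpField k p) {jqModC k}) = p + 1 := by
  have h := IntermediateField.adjoin.finrank (isIntegral_j_over_jpField (k := k) Φ)
  rw [h, natDegree_minpoly_j_over_jpField Φ hp hB1]

end Main

end Fermat.Agent.S28.H145

end

end
-- ===== PACK-END S28/H145/PrimeDegree.lean

-- ===== PACK-BEGIN A2/H12/SheetGraph.lean
section



/-!
# Cell A2 — GRAPH-CONN: the sheet graph of a two-chart model is connected (helper12)

Mathlib-only.  Setting (same as S18/b5 `cech_idempotent_trivial`): `A` a ring, `w : A`,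
`B` an `A`-algebra (the "mid" chart), `Bfin Binf : Subalgebra A B` the two charts.
A finite family of *sheets* is given by ideals `P s` of `B` containing `w`
(in the application: `P s = 𝔪_{V_s} ∩ B_mid` for the Gauss-type valuation rings `V_s`).

* `exists_idem_of_partition` : one chart, CRT-type construction of an element which is `≡ 1` on the sheets
  of one class and `≡ 0` on the others, when sheets of different classes are comaximal.
* `sheetGraph_connected` : if every compatible pair of idempotents mod `w` is trivial (the conclusion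
  of `cech_idempotent_trivial`), the fibres are reduced in the three charts, then any two sheets are
  joined by a chain of sheets, consecutive ones being NOT comaximal in one of the two charts.
* `exists_maximal_of_not_comaximal` : "not comaximal" = "pass through a common closed point".
-/

set_option autoImplicit false

namespace Fermat.Agent.A2.H12

open scoped Classical

section OneChart

variable {C : Type*} [CommRing C] {S : Type*} [Fintype S]

/-- CRT-type separation of two classes of pairwise comaximal ideals. -/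
theorem exists_idem_of_partition (Q : S → Ideal C) (col : S → Prop)
    (hcom : ∀ s t, col s → ¬ col t → ∃ a ∈ Q s, ∃ b ∈ Q t, a + b = 1) :
    ∃ e : C, (∀ s, col s → 1 - e ∈ Q s) ∧ (∀ t, ¬ col t → e ∈ Q t) := by
  -- for `s` in the class: `β s ∈ ⋂_{t ∉ class} Q t`, `β s ≡ 1 mod Q s`
  have hβ : ∀ s, col s → ∃ β : C, (∀ t, ¬ col t → β ∈ Q t) ∧ 1 - β ∈ Q s := by
    intro s hs
    choose! a ha b hb hab using fun t (ht : ¬ col t) => hcom s t hs ht
    refine ⟨∏ t ∈ Finset.univ.filter (fun t => ¬ col t), b t, ?_, ?_⟩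
    · intro t ht
      have hmem : t ∈ Finset.univ.filter (fun t => ¬ col t) := by simp [ht]
      rw [← Finset.mul_prod_erase _ _ hmem]
      exact Ideal.mul_mem_right _ _ (hb t ht)
    · -- product of elements `≡ 1` is `≡ 1`
      have key : ∀ T : Finset S, (∀ t ∈ T, ¬ col t) → 1 - ∏ t ∈ T, b t ∈ Q s := by
        intro T
        induction T using Finset.induction_on with
        | empty => intro _; simp
        | insert t T ht ih =>
          intro hT
          rw [Finset.prod_insert ht]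
          have h1 : 1 - b t ∈ Q s := by
            have := hab t (hT t (Finset.mem_insert_self _ _))
            have h2 : 1 - b t = a t := by rw [← this]; ring
            rw [h2]; exact ha t (hT t (Finset.mem_insert_self _ _))
          have h3 := ih (fun t' ht' => hT t' (Finset.mem_insert_of_mem ht'))
          have : 1 - b t * ∏ t ∈ T, b t = (1 - b t) + b t * (1 - ∏ t ∈ T, b t) := by ring
          rw [this]
          exact Ideal.add_mem _ h1 (Ideal.mul_mem_left _ _ h3)
      exact key _ (fun t ht => by simpa using ht)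
  choose! β hβ1 hβ2 using hβ
  refine ⟨1 - ∏ s ∈ Finset.univ.filter (fun s => col s), (1 - β s), ?_, ?_⟩
  · intro s hs
    have hmem : s ∈ Finset.univ.filter (fun s => col s) := by simp [hs]
    have : 1 - (1 - ∏ s ∈ Finset.univ.filter (fun s => col s), (1 - β s))
        = ∏ s ∈ Finset.univ.filter (fun s => col s), (1 - β s) := by ring
    rw [this, ← Finset.mul_prod_erase _ _ hmem]
    exact Ideal.mul_mem_right _ _ (hβ2 s hs)
  · intro t ht
    have key : ∀ T : Finset S, (∀ s ∈ T, col s) → 1 - ∏ s ∈ T, (1 - β s) ∈ Q t := by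
      intro T
      induction T using Finset.induction_on with
      | empty => intro _; simp
      | insert s T hs ih =>
        intro hT
        rw [Finset.prod_insert hs]
        have h1 : β s ∈ Q t := hβ1 s (hT s (Finset.mem_insert_self _ _)) t ht
        have h3 := ih (fun s' hs' => hT s' (Finset.mem_insert_of_mem hs'))
        have : 1 - (1 - β s) * ∏ s ∈ T, (1 - β s)
            = β s * ∏ s ∈ T, (1 - β s) + (1 - ∏ s ∈ T, (1 - β s)) := by ring
        rw [this]
        exact Ideal.add_mem _ (Ideal.mul_mem_right _ _ h1) h3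
    exact key _ (fun s hs => by simpa using hs)

/-- Two ideals that are not comaximal lie in a common maximal ideal. -/
theorem exists_maximal_of_not_comaximal (I J : Ideal C)
    (h : ¬ ∃ a ∈ I, ∃ b ∈ J, a + b = 1) : ∃ 𝔫 : Ideal C, 𝔫.IsMaximal ∧ I ≤ 𝔫 ∧ J ≤ 𝔫 := by
  have hne : I ⊔ J ≠ ⊤ := by
    intro htop
    apply h
    have h1 : (1 : C) ∈ I ⊔ J := by rw [htop]; trivial
    obtain ⟨a, ha, b, hb, hab⟩ := Submodule.mem_sup.1 h1
    exact ⟨a, ha, b, hb, hab⟩
  obtain ⟨𝔫, h𝔫, hle⟩ := Ideal.exists_le_maximal _ hne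
  exact ⟨𝔫, h𝔫, le_trans le_sup_left hle, le_trans le_sup_right hle⟩

end OneChart

section TwoCharts

variable {A B : Type*} [CommRing A] [CommRing B] [Algebra A B]
variable {S : Type*} [Fintype S]

/-- Sheets `s`, `t` are *separated in the chart `C`* if they are comaximal there. -/
def SepIn (C : Subalgebra A B) (P : S → Ideal B) (s t : S) : Prop :=
  ∃ a ∈ C, a ∈ P s ∧ ∃ b ∈ C, b ∈ P t ∧ a + b = 1

/-- Adjacency in the sheet graph: not separated in one of the two charts. -/
def SheetAdj (Bfin Binf : Subalgebra A B) (P : S → Ideal B) (s t : S) : Prop :=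
  ¬ SepIn Bfin P s t ∨ ¬ SepIn Binf P s t

/-- the contraction of a sheet to a chart, as an ideal of the chart -/
def contr (C : Subalgebra A B) (I : Ideal B) : Ideal C := I.comap (algebraMap C B)

theorem mem_contr (C : Subalgebra A B) (I : Ideal B) (c : C) : c ∈ contr C I ↔ (c : B) ∈ I :=
  Iff.rfl

private theorem exists_chart_idem (C : Subalgebra A B) (P : S → Ideal B) (col : S → Prop)
    (hsep : ∀ s t, col s → ¬ col t → SepIn C P s t) :
    ∃ e ∈ C, (∀ s, col s → 1 - e ∈ P s) ∧ (∀ t, ¬ col t → e ∈ P t) := by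
  obtain ⟨e, he1, he2⟩ := exists_idem_of_partition (C := C) (fun s => contr C (P s)) col (by
    intro s t hs ht
    obtain ⟨a, haC, haP, b, hbC, hbP, hab⟩ := hsep s t hs ht
    exact ⟨⟨a, haC⟩, haP, ⟨b, hbC⟩, hbP, Subtype.ext hab⟩)
  refine ⟨e, e.2, ?_, ?_⟩
  · intro s hs
    have := he1 s hs
    rw [mem_contr] at this
    simpa using this
  · intro t ht
    exact he2 t ht

/-- **GRAPH-CONN.**  `hcech` is literally the conclusion of S18/b5 `cech_idempotent_trivial`
(for all compatible pairs of idempotents).  `hred_*` : reducedness of the special fibre in the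
three charts (`⋂ P s = (w)`).  Then the sheet graph is connected. -/
theorem sheetGraph_connected (w : A) (Bfin Binf : Subalgebra A B) (P : S → Ideal B)
    (hP1 : ∀ s, (1 : B) ∉ P s)
    (hwP : ∀ s, algebraMap A B w ∈ P s)
    (hred_mid : ∀ b : B, (∀ s, b ∈ P s) → ∃ t : B, b = algebraMap A B w * t)
    (hred_fin : ∀ b ∈ Bfin, (∀ s, b ∈ P s) → ∃ t ∈ Bfin, b = algebraMap A B w * t)
    (hred_inf : ∀ b ∈ Binf, (∀ s, b ∈ P s) → ∃ t ∈ Binf, b = algebraMap A B w * t)
    (hcech : ∀ e₁ e₂ : B, e₁ ∈ Bfin → e₂ ∈ Binf →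
      (∃ t ∈ Bfin, e₁ ^ 2 - e₁ = algebraMap A B w * t) →
      (∃ t ∈ Binf, e₂ ^ 2 - e₂ = algebraMap A B w * t) →
      (∃ t : B, e₁ - e₂ = algebraMap A B w * t) →
      ((∃ t ∈ Bfin, e₁ = algebraMap A B w * t) ∧ (∃ t ∈ Binf, e₂ = algebraMap A B w * t)) ∨
      ((∃ t ∈ Bfin, 1 - e₁ = algebraMap A B w * t) ∧
        (∃ t ∈ Binf, 1 - e₂ = algebraMap A B w * t)))
    (s₀ t₀ : S) : Relation.ReflTransGen (SheetAdj Bfin Binf P) s₀ t₀ := by
  by_contra hcon
  set col : S → Prop := fun s => Relation.ReflTransGen (SheetAdj Bfin Binf P) s₀ s with hcol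
  have hs₀ : col s₀ := Relation.ReflTransGen.refl
  have ht₀ : ¬ col t₀ := hcon
  have hsep : ∀ s t, col s → ¬ col t → SepIn Bfin P s t ∧ SepIn Binf P s t := by
    intro s t hs ht
    by_contra h
    apply ht
    refine Relation.ReflTransGen.tail hs ?_
    rcases not_and_or.1 h with h | h
    · exact Or.inl h
    · exact Or.inr h
  obtain ⟨e₁, he₁C, he₁a, he₁b⟩ := exists_chart_idem Bfin P col (fun s t hs ht => (hsep s t hs ht).1)
  obtain ⟨e₂, he₂C, he₂a, he₂b⟩ := exists_chart_idem Binf P col (fun s t hs ht => (hsep s t hs ht).2)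
  have hidem : ∀ e : B, (∀ s, col s → 1 - e ∈ P s) → (∀ t, ¬ col t → e ∈ P t) →
      ∀ s, e ^ 2 - e ∈ P s := by
    intro e ha hb s
    have h : e ^ 2 - e = -(e * (1 - e)) := by ring
    rw [h]
    by_cases hs : col s
    · exact (P s).neg_mem (Ideal.mul_mem_left _ _ (ha s hs))
    · exact (P s).neg_mem (Ideal.mul_mem_right _ _ (hb s hs))
  have h1 := hred_fin _ (Bfin.sub_mem (Bfin.pow_mem he₁C 2) he₁C) (hidem e₁ he₁a he₁b)
  have h2 := hred_inf _ (Binf.sub_mem (Binf.pow_mem he₂C 2) he₂C) (hidem e₂ he₂a he₂b)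
  have h12 : ∃ t : B, e₁ - e₂ = algebraMap A B w * t := by
    apply hred_mid
    intro s
    by_cases hs : col s
    · have : e₁ - e₂ = (1 - e₂) - (1 - e₁) := by ring
      rw [this]
      exact (P s).sub_mem (he₂a s hs) (he₁a s hs)
    · exact (P s).sub_mem (he₁b s hs) (he₂b s hs)
  rcases hcech e₁ e₂ he₁C he₂C h1 h2 h12 with ⟨⟨t, _, ht⟩, _⟩ | ⟨⟨t, _, ht⟩, _⟩
  · -- `e₁ ∈ (w)`, but `1 - e₁ ∈ P s₀`
    apply hP1 s₀
    have h3 : e₁ ∈ P s₀ := by rw [ht]; exact Ideal.mul_mem_right _ _ (hwP s₀)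
    have : (1 : B) = (1 - e₁) + e₁ := by ring
    rw [this]
    exact (P s₀).add_mem (he₁a s₀ hs₀) h3
  · apply hP1 t₀
    have h3 : 1 - e₁ ∈ P t₀ := by rw [ht]; exact Ideal.mul_mem_right _ _ (hwP t₀)
    have : (1 : B) = (1 - e₁) + e₁ := by ring
    rw [this]
    exact (P t₀).add_mem h3 (he₁b t₀ ht₀)

end TwoCharts

end Fermat.Agent.A2.H12

end
-- ===== PACK-END A2/H12/SheetGraph.lean

-- ===== PACK-BEGIN S18/H138/ChartsConst.lean
section


/-!
# S18, Route K, ASM (helper138): constants and finiteness of the charts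

* `mem_range_of_mem_adjoin_inter` : `R[x] ∩ R[x⁻¹] = R` for `x` transcendental over `R`.
* `isIntegral_of_mem_chart_inter` : an element of `F` integral over `R[x]` and over `R[x⁻¹]` is
  integral over `R` (for `R[X]` integrally closed, e.g. `R` a DVR).
* `exists_finite_gens`            : `B_fin` is generated over `R` by finitely many `x ^ j * bs i`.
-/

set_option autoImplicit false
set_option linter.style.haveILetI false

namespace Fermat.Agent.S18.H138

open Polynomial

variable {R : Type*} [CommRing R] {F : Type*} [Field F] [Algebra R F]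

theorem mem_adjoin_singleton_iff {x c : F} :
    c ∈ Algebra.adjoin R ({x} : Set F) ↔ ∃ P : R[X], aeval x P = c := by
  rw [Algebra.adjoin_singleton_eq_range_aeval]
  rfl

/-- `x ^ d * Q(x⁻¹) = (reflect d Q)(x)` for `natDegree Q ≤ d`. -/
theorem pow_mul_aeval_inv {x : F} (hx : x ≠ 0) (Q : R[X]) {d : ℕ} (hd : Q.natDegree ≤ d) :
    x ^ d * aeval x⁻¹ Q = aeval x (reflect d Q) := by
  letI : Invertible x := invertibleOfNonzero hx
  have h := eval₂_reflect_mul_pow (algebraMap R F) x d (reflect d Q)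
    (le_trans natDegree_reflect_le (by simp [hd]))
  rw [reflect_reflect] at h
  rw [invOf_eq_inv] at h
  rw [aeval_def, aeval_def, ← h, mul_comm]

theorem ne_zero_of_transcendental {x : F} (hx : Transcendental R x) : x ≠ 0 := by
  haveI : Nontrivial R := (algebraMap R F).domain_nontrivial
  rintro rfl
  exact hx ⟨X, X_ne_zero, by simp⟩

theorem transcendental_inv {x : F} (hx : Transcendental R x) : Transcendental R x⁻¹ := by
  have hx0 : x ≠ 0 := ne_zero_of_transcendental hx
  rw [transcendental_iff] at hx ⊢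
  intro Q hQ
  have h := pow_mul_aeval_inv (R := R) hx0 Q le_rfl
  rw [hQ, mul_zero] at h
  have h2 := hx _ h.symm
  have := congrArg (reflect Q.natDegree) h2
  rwa [reflect_reflect, reflect_zero] at this

/-- `R[x] ∩ R[x⁻¹] = R` inside `F`, for `x` transcendental over `R`. -/
theorem mem_range_of_mem_adjoin_inter {x : F} (hx : Transcendental R x) {c : F}
    (h1 : c ∈ Algebra.adjoin R ({x} : Set F)) (h2 : c ∈ Algebra.adjoin R ({x⁻¹} : Set F)) :
    c ∈ Set.range (algebraMap R F) := by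
  haveI : Nontrivial R := (algebraMap R F).domain_nontrivial
  have hx0 : x ≠ 0 := ne_zero_of_transcendental hx
  obtain ⟨P, rfl⟩ := mem_adjoin_singleton_iff.1 h1
  obtain ⟨Q, hQ⟩ := mem_adjoin_singleton_iff.1 h2
  have h := pow_mul_aeval_inv (R := R) hx0 Q le_rfl
  rw [hQ] at h
  have h3 : aeval x (X ^ Q.natDegree * P) = aeval x (reflect Q.natDegree Q) := by
    rw [map_mul, map_pow, aeval_X, h]
  have h4 : X ^ Q.natDegree * P = reflect Q.natDegree Q := by
    have := (transcendental_iff.1 hx) (X ^ Q.natDegree * P - reflect Q.natDegree Q)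
      (by rw [map_sub, h3, sub_self])
    exact sub_eq_zero.1 this
  by_cases hP : P = 0
  · subst hP
    exact ⟨0, by simp⟩
  have h5 : (X ^ Q.natDegree * P).natDegree = Q.natDegree + P.natDegree := by
    rw [natDegree_X_pow_mul _ hP, add_comm]
  have h6 : (reflect Q.natDegree Q).natDegree ≤ Q.natDegree :=
    le_trans natDegree_reflect_le (by simp)
  rw [← h4, h5] at h6
  have h7 : P.natDegree = 0 := by omega
  obtain ⟨r, hr⟩ := natDegree_eq_zero.1 h7
  exact ⟨r, by rw [← hr]; simp⟩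

section Integral

theorem isIntegrallyClosed_adjoin_singleton [IsIntegrallyClosed R[X]] {x : F}
    (hx : Transcendental R x) : IsIntegrallyClosed (Algebra.adjoin R ({x} : Set F)) := by
  have hinj : Function.Injective (aeval (R := R) x) :=
    (injective_iff_map_eq_zero _).2 (transcendental_iff.1 hx)
  let e : R[X] ≃ₐ[R] Algebra.adjoin R ({x} : Set F) :=
    (AlgEquiv.ofInjective (aeval (R := R) x) hinj).trans
      (Subalgebra.equivOfEq _ _ (Algebra.adjoin_singleton_eq_range_aeval R x).symm)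
  exact IsIntegrallyClosed.of_equiv e.toRingEquiv

theorem isNoetherianRing_adjoin_singleton [IsNoetherianRing R] {x : F}
    (hx : Transcendental R x) : IsNoetherianRing (Algebra.adjoin R ({x} : Set F)) := by
  have hinj : Function.Injective (aeval (R := R) x) :=
    (injective_iff_map_eq_zero _).2 (transcendental_iff.1 hx)
  let e : R[X] ≃ₐ[R] Algebra.adjoin R ({x} : Set F) :=
    (AlgEquiv.ofInjective (aeval (R := R) x) hinj).trans
      (Subalgebra.equivOfEq _ _ (Algebra.adjoin_singleton_eq_range_aeval R x).symm)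
  exact isNoetherianRing_of_ringEquiv _ e.toRingEquiv

/-- The field generated by `R` and `x` inside `F`. -/
def baseField (R : Type*) [CommRing R] {F : Type*} [Field F] [Algebra R F] (x : F) :
    Subfield F :=
  Subfield.closure (Set.range (algebraMap R F) ∪ {x})

theorem adjoin_le_baseField (x : F) {a : F} (ha : a ∈ Algebra.adjoin R ({x} : Set F)) :
    a ∈ baseField R x := by
  have : a ∈ (Algebra.adjoin R ({x} : Set F)).toSubring := ha
  rw [Algebra.adjoin_eq_ring_closure] at this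
  exact Subfield.subring_closure_le _ this

theorem inv_mem_baseField (x : F) : x⁻¹ ∈ baseField R x :=
  (baseField R x).inv_mem (Subfield.subset_closure (by simp))

theorem baseField_inv (x : F) : baseField R x⁻¹ = baseField R x := by
  apply le_antisymm
  · refine Subfield.closure_le.2 ?_
    rintro y (hy | hy)
    · exact Subfield.subset_closure (Or.inl hy)
    · rw [Set.mem_singleton_iff] at hy
      rw [hy]
      exact inv_mem_baseField x
  · refine Subfield.closure_le.2 ?_
    rintro y (hy | hy)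
    · exact Subfield.subset_closure (Or.inl hy)
    · rw [Set.mem_singleton_iff] at hy
      rw [hy]
      have := inv_mem_baseField (R := R) x⁻¹
      rwa [inv_inv] at this

theorem exists_div_of_mem_baseField (x : F) {z : F} (hz : z ∈ baseField R x) :
    ∃ a ∈ Algebra.adjoin R ({x} : Set F), ∃ b ∈ Algebra.adjoin R ({x} : Set F), z = a / b := by
  obtain ⟨a, ha, b, hb, rfl⟩ := Subfield.mem_closure_iff.1 hz
  rw [← Algebra.adjoin_eq_ring_closure] at ha hb
  exact ⟨a, ha, b, hb, rfl⟩

/-- Coefficients of the minimal polynomial over the fraction field of an integrally closed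
subalgebra `A` of `F` lie in `A`. -/
theorem minpoly_coeff_mem (A : Subalgebra R F) [IsIntegrallyClosed A] (K : Subfield F)
    (hAK : ∀ a ∈ A, a ∈ K) (hfrac : ∀ z ∈ K, ∃ a ∈ A, ∃ b ∈ A, z = a / b)
    {y : F} (hy : IsIntegral A y) (n : ℕ) :
    (((minpoly K y).coeff n : K) : F) ∈ A := by
  let φ : A →+* K :=
    { toFun := fun a => ⟨a, hAK a a.2⟩
      map_one' := rfl
      map_mul' := fun _ _ => rfl
      map_zero' := rfl
      map_add' := fun _ _ => rfl }
  letI : Algebra A K := φ.toAlgebra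
  haveI : IsScalarTower A K F := IsScalarTower.of_algebraMap_eq (fun _ => rfl)
  have hinj : Function.Injective (algebraMap A K) := by
    intro a b hab
    have : (a : F) = b := congrArg (fun t : K => (t : F)) hab
    exact Subtype.ext this
  haveI : FaithfulSMul A K := (faithfulSMul_iff_algebraMap_injective A K).2 hinj
  haveI : IsFractionRing A K := by
    refine IsFractionRing.of_field A K (fun z => ?_)
    obtain ⟨a, ha, b, hb, h⟩ := hfrac z z.2
    exact ⟨⟨a, ha⟩, ⟨b, hb⟩, Subtype.ext h⟩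
  have h := minpoly.isIntegrallyClosed_eq_field_fractions' (R := A) (S := F) K hy
  rw [h, coeff_map]
  exact ((minpoly A y).coeff n).2

/-- An element of `F` integral over `R[x]` and over `R[x⁻¹]` is integral over `R`. -/
theorem isIntegral_of_mem_chart_inter [IsIntegrallyClosed R[X]] {x : F}
    (hx : Transcendental R x) {y : F}
    (h1 : y ∈ chart R ({x} : Set F)) (h2 : y ∈ chart R ({x⁻¹} : Set F)) :
    IsIntegral R y := by
  have hx0 : x ≠ 0 := ne_zero_of_transcendental hx
  have hxi : Transcendental R x⁻¹ := transcendental_inv hx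
  haveI := isIntegrallyClosed_adjoin_singleton (R := R) hx
  haveI := isIntegrallyClosed_adjoin_singleton (R := R) hxi
  set K := baseField R x with hK
  have hc1 : ∀ n, (((minpoly K y).coeff n : K) : F) ∈ Algebra.adjoin R ({x} : Set F) :=
    minpoly_coeff_mem _ K (fun a ha => adjoin_le_baseField x ha)
      (fun z hz => exists_div_of_mem_baseField x hz) h1
  have hc2 : ∀ n, (((minpoly K y).coeff n : K) : F) ∈ Algebra.adjoin R ({x⁻¹} : Set F) :=
    minpoly_coeff_mem _ K (fun a ha => by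
        have := adjoin_le_baseField (R := R) x⁻¹ ha
        rwa [baseField_inv] at this)
      (fun z hz => by
        have hz' : z ∈ baseField R x⁻¹ := by rwa [baseField_inv]
        exact exists_div_of_mem_baseField x⁻¹ hz') h2
  have hc : ∀ n, (((minpoly K y).coeff n : K) : F) ∈ Set.range (algebraMap R F) := fun n =>
    mem_range_of_mem_adjoin_inter hx (hc1 n) (hc2 n)
  have hyK : IsIntegral K y := by
    obtain ⟨p, hp, hp0⟩ := h1
    refine ⟨p.map (⟨⟨⟨fun a => (⟨a, adjoin_le_baseField x a.2⟩ : K), rfl⟩, fun _ _ => rfl⟩,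
      rfl, fun _ _ => rfl⟩ : Algebra.adjoin R ({x} : Set F) →+* K), hp.map _, ?_⟩
    rw [eval₂_map]
    exact hp0
  have hmem : (minpoly K y).map (algebraMap K F) ∈ lifts (algebraMap R F) := by
    rw [lifts_iff_coeff_lifts]
    intro n
    rw [coeff_map]
    exact hc n
  obtain ⟨q, hq, -, hqm⟩ := lifts_and_natDegree_eq_and_monic hmem ((minpoly.monic hyK).map _)
  refine ⟨q, hqm, ?_⟩
  rw [← eval_map, hq, eval_map, ← aeval_def]
  exact minpoly.aeval K y

end Integral

end Fermat.Agent.S18.H138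

end
-- ===== PACK-END S18/H138/ChartsConst.lean

-- ===== PACK-BEGIN S18/H558/CechFG.lean
section




/-!
# S18 / piece b5 (continued): `H¹` of the two-chart cover is finitely generated

`B = B_mid`, `x ∈ B` a unit with inverse `y`, `Bfin ∋ x` finitely generated as a module over
`A[x]`, `Binf ∋ y`, `B = Bfin[1/x]`, and every generator of `Bfin` lies in `x ^ D • Binf`.
Then `B / (Bfin + Binf)` is a finitely generated `A`-module, hence (for noetherian `A`) its
`w`-power torsion is bounded, which is the hypothesis `hH1` of `cech_idempotent_trivial`.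
-/

namespace Fermat.Agent.S18.H558

variable {A B : Type*} [CommRing A] [CommRing B] [Algebra A B]

/-- The two charts together with finitely many explicit elements span `B` over `A`. -/
theorem cech_span_top {ι : Type*} [Finite ι] (x y : B) (hxy : x * y = 1)
    (Bfin Binf : Subalgebra A B) (hx : x ∈ Bfin) (hy : y ∈ Binf)
    (bs : ι → B) (hbs : ∀ i, bs i ∈ Bfin)
    (hgen : ∀ b ∈ Bfin, b ∈ Submodule.span A {z : B | ∃ (j : ℕ) (i : ι), z = x ^ j * bs i})
    (hloc : ∀ b : B, ∃ K : ℕ, x ^ K * b ∈ Bfin)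
    (hinf : ∀ i, ∃ D : ℕ, y ^ D * bs i ∈ Binf) :
    ∃ G : Set B, G.Finite ∧
      Bfin.toSubmodule ⊔ Binf.toSubmodule ⊔ Submodule.span A G = ⊤ := by
  classical
  cases nonempty_fintype ι
  choose Df hDf using hinf
  let D : ℕ := Finset.univ.sup Df
  have hD : ∀ i, Df i ≤ D := fun i => Finset.le_sup (f := Df) (Finset.mem_univ i)
  let G : Set B := (fun p : ι × ℕ => y ^ p.2 * bs p.1) '' ((Finset.univ ×ˢ Finset.range D : Finset (ι × ℕ)) : Set (ι × ℕ))
  refine ⟨G, (Finset.finite_toSet _).image _, ?_⟩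
  set T : Submodule A B := Bfin.toSubmodule ⊔ Binf.toSubmodule ⊔ Submodule.span A G with hT
  have hfinT : ∀ b ∈ Bfin, b ∈ T := fun b hb =>
    Submodule.mem_sup_left (Submodule.mem_sup_left hb)
  have hinfT : ∀ b ∈ Binf, b ∈ T := fun b hb =>
    Submodule.mem_sup_left (Submodule.mem_sup_right hb)
  have hGT : ∀ b ∈ G, b ∈ T := fun b hb =>
    Submodule.mem_sup_right (Submodule.subset_span hb)
  have hyx : ∀ n : ℕ, y ^ n * x ^ n = 1 := fun n => by
    rw [← mul_pow, mul_comm y x, hxy, one_pow]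
  -- the monomials
  have hmono : ∀ (K j : ℕ) (i : ι), y ^ K * (x ^ j * bs i) ∈ T := by
    intro K j i
    rcases le_or_gt K j with hKj | hjK
    · obtain ⟨d, rfl⟩ := Nat.exists_eq_add_of_le hKj
      have : y ^ K * (x ^ (K + d) * bs i) = x ^ d * bs i := by
        rw [pow_add, ← mul_assoc, ← mul_assoc, hyx, one_mul]
      rw [this]
      exact hfinT _ (Bfin.mul_mem (Bfin.pow_mem hx d) (hbs i))
    · obtain ⟨k, rfl⟩ := Nat.exists_eq_add_of_le hjK.le
      have : y ^ (j + k) * (x ^ j * bs i) = y ^ k * bs i := by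
        rw [pow_add, mul_comm (y ^ j) (y ^ k), mul_assoc, ← mul_assoc (y ^ j), hyx, one_mul]
      rw [this]
      rcases le_or_gt (Df i) k with hDk | hkD
      · obtain ⟨d, rfl⟩ := Nat.exists_eq_add_of_le hDk
        have : y ^ (Df i + d) * bs i = y ^ d * (y ^ Df i * bs i) := by
          rw [pow_add]; ring
        rw [this]
        exact hinfT _ (Binf.mul_mem (Binf.pow_mem hy d) (hDf i))
      · apply hGT
        refine ⟨(i, k), ?_, rfl⟩
        simp only [Finset.coe_product, Finset.coe_univ, Finset.coe_range, Set.mem_prod,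
          Set.mem_univ, Set.mem_Iio, true_and]
        exact lt_of_lt_of_le hkD (hD i)
  rw [eq_top_iff]
  rintro b -
  obtain ⟨K, hK⟩ := hloc b
  have hb : b = y ^ K * (x ^ K * b) := by rw [← mul_assoc, hyx, one_mul]
  rw [hb]
  have hspan := hgen _ hK
  refine Submodule.span_induction (p := fun z _ => y ^ K * z ∈ T) ?_ ?_ ?_ ?_ hspan
  · rintro z ⟨j, i, rfl⟩
    exact hmono K j i
  · simp
  · intro u v _ _ hu hv
    rw [mul_add]
    exact T.add_mem hu hv
  · intro a u _ hu
    rw [mul_smul_comm]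
    exact T.smul_mem a hu

/-- Bounded `w`-power torsion of `B / (Bfin + Binf)` from finite generation, for noetherian `A`. -/
theorem cech_h1_bound [IsNoetherianRing A] (w : A) (Bfin Binf : Subalgebra A B)
    (G : Set B) (hG : G.Finite)
    (htop : Bfin.toSubmodule ⊔ Binf.toSubmodule ⊔ Submodule.span A G = ⊤) :
    ∃ c : ℕ, ∀ (n : ℕ) (h : B),
      algebraMap A B w ^ n * h ∈ Bfin.toSubmodule ⊔ Binf.toSubmodule →
      algebraMap A B w ^ c * h ∈ Bfin.toSubmodule ⊔ Binf.toSubmodule := by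
  set S : Submodule A B := Bfin.toSubmodule ⊔ Binf.toSubmodule with hS
  have hfinG : Module.Finite A (Submodule.span A G) := Module.Finite.span_of_finite A hG
  let φ : Submodule.span A G →ₗ[A] B ⧸ S := S.mkQ.comp (Submodule.span A G).subtype
  have hφ : Function.Surjective φ := by
    intro m
    obtain ⟨b, rfl⟩ := S.mkQ_surjective m
    have hb : b ∈ S ⊔ Submodule.span A G := by rw [htop]; trivial
    obtain ⟨s, hs, g, hg, rfl⟩ := Submodule.mem_sup.1 hb
    refine ⟨⟨g, hg⟩, ?_⟩
    change S.mkQ g = S.mkQ (s + g)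
    have hs0 : S.mkQ s = 0 := (Submodule.Quotient.mk_eq_zero S).2 hs
    rw [map_add, hs0, zero_add]
  have hfinQ : Module.Finite A (B ⧸ S) := Module.Finite.of_surjective φ hφ
  obtain ⟨c, hc⟩ := exists_torsion_bound (A := A) (M := B ⧸ S) w
  refine ⟨c, fun n h hn => ?_⟩
  have e : ∀ k : ℕ, algebraMap A B w ^ k * h = w ^ k • h := fun k => by
    rw [Algebra.smul_def, map_pow]
  rw [e] at hn ⊢
  have h1 : w ^ n • (S.mkQ h) = 0 := by
    rw [← map_smul]
    exact (Submodule.Quotient.mk_eq_zero S).2 hn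
  have h2 := hc n _ h1
  rw [← map_smul] at h2
  exact (Submodule.Quotient.mk_eq_zero S).1 h2

/-- **Connectedness of the two-chart model (piece b5).**  Packaged form:
noetherian base `A`, `(w)` prime in `A`, two charts `Bfin ∋ x`, `Binf ∋ x⁻¹` of `B = Bfin[1/x]`
with `Bfin` finite over `A[x]`, `Bfin ∩ Binf = A` and `A / w → Bfin / w` injective.  Then every
compatible pair of idempotents modulo `w` on the two charts is `(0, 0)` or `(1, 1)`. -/
theorem cech_connected [IsNoetherianRing A] {ι : Type*} [Finite ι] (w : A) (x y : B)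
    (hxy : x * y = 1) (Bfin Binf : Subalgebra A B) (hx : x ∈ Bfin) (hy : y ∈ Binf)
    (bs : ι → B) (hbs : ∀ i, bs i ∈ Bfin)
    (hgen : ∀ b ∈ Bfin, b ∈ Submodule.span A {z : B | ∃ (j : ℕ) (i : ι), z = x ^ j * bs i})
    (hloc : ∀ b : B, ∃ K : ℕ, x ^ K * b ∈ Bfin)
    (hinf : ∀ i, ∃ D : ℕ, y ^ D * bs i ∈ Binf)
    (hH0 : ∀ b : B, b ∈ Bfin → b ∈ Binf → ∃ a : A, algebraMap A B a = b)
    (hinj : ∀ a : A, (∃ t ∈ Bfin, algebraMap A B a = algebraMap A B w * t) → w ∣ a)
    (hprime : ∀ a b : A, w ∣ a * b → w ∣ a ∨ w ∣ b)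
    (e₁ e₂ : B) (he₁ : e₁ ∈ Bfin) (he₂ : e₂ ∈ Binf)
    (hi₁ : ∃ t ∈ Bfin, e₁ ^ 2 - e₁ = algebraMap A B w * t)
    (hi₂ : ∃ t ∈ Binf, e₂ ^ 2 - e₂ = algebraMap A B w * t)
    (h₁₂ : ∃ t : B, e₁ - e₂ = algebraMap A B w * t) :
    ((∃ t ∈ Bfin, e₁ = algebraMap A B w * t) ∧ (∃ t ∈ Binf, e₂ = algebraMap A B w * t)) ∨
    ((∃ t ∈ Bfin, 1 - e₁ = algebraMap A B w * t) ∧ (∃ t ∈ Binf, 1 - e₂ = algebraMap A B w * t)) := by
  obtain ⟨G, hG, htop⟩ := cech_span_top x y hxy Bfin Binf hx hy bs hbs hgen hloc hinf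
  obtain ⟨c, hc⟩ := cech_h1_bound w Bfin Binf G hG htop
  exact cech_idempotent_trivial w Bfin Binf c (fun h hh => hc (c + 1) h hh) hH0 hinj hprime
    e₁ e₂ he₁ he₂ hi₁ hi₂ h₁₂

end Fermat.Agent.S18.H558

end
-- ===== PACK-END S18/H558/CechFG.lean

-- ===== PACK-BEGIN A2/H129/Kummer.lean
section



/-!
# A2 / K1: the Kummer dictionary (Prelude language, any `K`, `F`)

`x ∈ Pic0 K F` with `m • x = 0`, `x = [D]`, `m D = div f`.  For a semilinear automorphism `g`:
`(g - 1)² x = 0` as soon as `(g - 1)² f = c · y ^ m` for a constant `c` and a function `y`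
(multiplicative notation `tauSubOne`).

* `KummerTwice g m` : the Kummer-side statement (what K2 + K3 have to prove).
* `unipotent_of_kummerTwice` : `KummerTwice g m → ∀ x, m • x = 0 → g • (g • x - x) = g • x - x`.
-/

set_option autoImplicit false

namespace Fermat.Agent.A2.H129

open AlgebraicCurve

variable {K F : Type*} [Field K] [Field F] [Algebra K F]

/-- **Kummer-side statement.** For every `f ≠ 0` whose divisor is divisible by `m`, the function
`(g - 1)² f = g(g f / f) / (g f / f)` is a constant times an `m`-th power. -/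
def KummerTwice (g : SemilinearAut K F) (m : ℕ) : Prop :=
  ∀ f : F, f ≠ 0 → (∀ v : Place K F, (m : ℤ) ∣ v.ord f) →
    ∃ y : F, ∃ c : K, c ≠ 0 ∧
      tauSubOne (SemilinearAut.toRingAut g) (tauSubOne (SemilinearAut.toRingAut g) f)
        = algebraMap K F c * y ^ m

theorem ord_algebraMap_eq_zero (v : Place K F) (c : K) : v.ord (algebraMap K F c) = 0 := by
  rcases eq_or_ne c 0 with rfl | hc
  · simp
  have h1 : algebraMap K F c ∈ v.toValuationSubring := v.algebraMap_mem' c
  have h2 : algebraMap K F c⁻¹ ∈ v.toValuationSubring := v.algebraMap_mem' c⁻¹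
  have hu : IsUnit (⟨algebraMap K F c, h1⟩ : v.toValuationSubring) := by
    refine IsUnit.of_mul_eq_one (⟨algebraMap K F c⁻¹, h2⟩ : v.toValuationSubring) ?_
    ext
    show algebraMap K F c * algebraMap K F c⁻¹ = 1
    rw [← map_mul, mul_inv_cancel₀ hc, map_one]
  exact v.ord_coe_unit hu.unit

theorem ord_smul_eq (g : SemilinearAut K F) (w : Place K F) (f : F) :
    w.ord (SemilinearAut.toRingAut g f) = (g⁻¹ • w).ord f := by
  have h := SemilinearAut.ord_smul g (g⁻¹ • w) f
  rw [smul_inv_smul] at h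
  exact h

theorem ord_div (v : Place K F) {f h : F} (hf : f ≠ 0) (hh : h ≠ 0) :
    v.ord (f * h⁻¹) = v.ord f - v.ord h := by
  rw [v.ord_mul hf (inv_ne_zero hh), v.ord_inv, sub_eq_add_neg]

theorem ord_pow (v : Place K F) (y : F) (m : ℕ) : v.ord (y ^ m) = m * v.ord y := by
  have := v.ord_zpow y (m : ℤ)
  simpa using this

/-- **K1.**  The Kummer-side statement implies `(g - 1)² = 0` on the `m`-torsion of `Pic0`. -/
theorem unipotent_of_kummerTwice (g : SemilinearAut K F) (m : ℕ) (hm : m ≠ 0)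
    (H : KummerTwice g m) (x : Pic0 K F) (hx : m • x = 0) :
    g • (g • x - x) = g • x - x := by
  obtain ⟨D, rfl⟩ := Pic0.mk_surjective x
  -- the Kummer generator
  have hprin : ((m • D : Divisor.degZero (K := K) (F := F)) : Divisor K F) ∈
      Divisor.principal (K := K) (F := F) := by
    have h0 : Pic0.mk (m • D) = 0 := hx
    have := (QuotientAddGroup.eq_zero_iff (m • D)).1 h0
    simpa [AddSubgroup.mem_addSubgroupOf] using this
  obtain ⟨f, hf, hfD⟩ := hprin
  have hfD' : ∀ v : Place K F, v.ord f = (m : ℤ) * (D : Divisor K F) v := by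
    intro v
    rw [← hfD v]
    simp [Finsupp.smul_apply]
  obtain ⟨y, c, hc, hyc⟩ := H f hf (fun v => ⟨_, hfD' v⟩)
  set τ := SemilinearAut.toRingAut g with hτ
  have hτf : τ f ≠ 0 := by simpa using hf
  have h1 : tauSubOne τ f ≠ 0 := tauSubOne_ne_zero τ hf
  have h2 : tauSubOne τ (tauSubOne τ f) ≠ 0 := tauSubOne_ne_zero τ h1
  have hy : y ≠ 0 := by
    rintro rfl
    rw [zero_pow hm, mul_zero] at hyc
    exact h2 hyc
  have hcF : algebraMap K F c ≠ 0 := by simpa using hc
  -- the divisor `E = (g-1)² D`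
  set E : Divisor.degZero (K := K) (F := F) :=
    SemilinearAut.degZeroSMulHom g (SemilinearAut.degZeroSMulHom g D - D)
      - (SemilinearAut.degZeroSMulHom g D - D) with hE
  have hgoal : g • (g • Pic0.mk D - Pic0.mk D) - (g • Pic0.mk D - Pic0.mk D) = Pic0.mk E := by
    rw [SemilinearAut.pic0_smul_mk]
    rfl
  rw [← sub_eq_zero, hgoal]
  refine (QuotientAddGroup.eq_zero_iff E).2 ?_
  rw [AddSubgroup.mem_addSubgroupOf]
  refine ⟨y, hy, fun w => ?_⟩
  -- compare `m * E w` and `m * ord_w y`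
  have hEw : (E : Divisor K F) w =
      (D : Divisor K F) (g⁻¹ • (g⁻¹ • w)) - (D : Divisor K F) (g⁻¹ • w)
        - ((D : Divisor K F) (g⁻¹ • w) - (D : Divisor K F) w) := by
    simp only [hE, AddSubgroupClass.coe_sub, SemilinearAut.coe_degZeroSMulHom, smul_sub,
      Finsupp.sub_apply, SemilinearAut.divisor_smul_apply]
  have e1 : ∀ (h : F), h ≠ 0 → ∀ v : Place K F,
      v.ord (tauSubOne τ h) = (g⁻¹ • v).ord h - v.ord h := by
    intro h hh v
    have hτh : τ h ≠ 0 := by simpa using hh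
    show v.ord (τ h * h⁻¹) = _
    rw [ord_div v hτh hh, hτ, ord_smul_eq]
  have hord : w.ord (tauSubOne τ (tauSubOne τ f)) =
      (g⁻¹ • (g⁻¹ • w)).ord f - (g⁻¹ • w).ord f - ((g⁻¹ • w).ord f - w.ord f) := by
    rw [e1 _ h1 w, e1 f hf (g⁻¹ • w), e1 f hf w]
  have hord2 : w.ord (tauSubOne τ (tauSubOne τ f)) = (m : ℤ) * w.ord y := by
    rw [hyc, w.ord_mul hcF (pow_ne_zero m hy), ord_algebraMap_eq_zero, zero_add, ord_pow]
  have hmE : (m : ℤ) * (E : Divisor K F) w = (m : ℤ) * w.ord y := by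
    rw [← hord2, hord, hEw, hfD', hfD', hfD']
    ring
  have hm' : (m : ℤ) ≠ 0 := by exact_mod_cast hm
  exact mul_left_cancel₀ hm' hmE

end Fermat.Agent.A2.H129

end
-- ===== PACK-END A2/H129/Kummer.lean

-- ===== PACK-BEGIN S20/H872/Index.lean
section





/-!
# `[SL(2, ℤ) : Γ₀(N)] = ψ(N)` (Dedekind psi function)

Route: `[Γ₀(N) : Γ₀(N p)] = p` if `p ∣ N`, `p + 1` otherwise, and induction on the prime
factorisation.
-/

set_option autoImplicit false

open CongruenceSubgroup Matrix.SpecialLinearGroup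
open scoped MatrixGroups

namespace Fermat.Agent.S20.H872

/-! ### Arithmetic of `dedekindPsi` -/

theorem dedekindPsi_mul_prime_of_dvd {N p : ℕ} (hN : N ≠ 0) (hp : p.Prime) (hpN : p ∣ N) :
    ModularCurve.dedekindPsi (N * p) = p * ModularCurve.dedekindPsi N := by
  unfold ModularCurve.dedekindPsi
  have hset : (N * p).divisors.filter Squarefree = N.divisors.filter Squarefree := by
    ext d
    simp only [Finset.mem_filter, Nat.mem_divisors]
    constructor
    · rintro ⟨⟨hd, _⟩, hsq⟩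
      refine ⟨⟨?_, hN⟩, hsq⟩
      have h2 : d ∣ N ^ 2 := by
        rw [pow_two]
        exact hd.trans (mul_dvd_mul_left N hpN)
      exact (hsq.dvd_pow_iff_dvd two_ne_zero).1 h2
    · rintro ⟨⟨hd, _⟩, hsq⟩
      exact ⟨⟨hd.mul_right p, mul_ne_zero hN hp.ne_zero⟩, hsq⟩
  rw [hset, Finset.mul_sum]
  refine Finset.sum_congr rfl fun d hd => ?_
  have hdN : d ∣ N := (Nat.mem_divisors.1 (Finset.mem_filter.1 hd).1).1
  obtain ⟨e, rfl⟩ := hdN
  have hd0 : 0 < d := Nat.pos_of_ne_zero (by rintro rfl; simp at hN)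
  rw [mul_assoc, Nat.mul_div_cancel_left _ hd0, Nat.mul_div_cancel_left _ hd0, mul_comm]

theorem dedekindPsi_mul_prime_of_not_dvd {N p : ℕ} (hN : N ≠ 0) (hp : p.Prime) (hpN : ¬ p ∣ N) :
    ModularCurve.dedekindPsi (N * p) = (p + 1) * ModularCurve.dedekindPsi N := by
  unfold ModularCurve.dedekindPsi
  have hcop : ∀ d, d ∣ N → Nat.Coprime d p := fun d hd =>
    (Nat.Coprime.symm ((Nat.Prime.coprime_iff_not_dvd hp).2 fun h => hpN (h.trans hd)))
  have hset : (N * p).divisors.filter Squarefree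
      = (N.divisors.filter Squarefree) ∪ (N.divisors.filter Squarefree).image (· * p) := by
    ext d
    simp only [Finset.mem_filter, Nat.mem_divisors, Finset.mem_union, Finset.mem_image]
    constructor
    · rintro ⟨⟨hd, _⟩, hsq⟩
      by_cases hpd : p ∣ d
      · right
        obtain ⟨e, rfl⟩ := hpd
        refine ⟨e, ⟨⟨?_, hN⟩, hsq.squarefree_of_dvd (Dvd.intro_left p rfl)⟩, mul_comm e p⟩
        rw [mul_comm p e] at hd
        exact Nat.dvd_of_mul_dvd_mul_right hp.pos hd
      · left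
        refine ⟨⟨?_, hN⟩, hsq⟩
        have : Nat.Coprime d p := (Nat.Coprime.symm ((Nat.Prime.coprime_iff_not_dvd hp).2 hpd))
        exact this.dvd_of_dvd_mul_right hd
    · rintro (⟨⟨hd, _⟩, hsq⟩ | ⟨e, ⟨⟨he, _⟩, hsq⟩, rfl⟩)
      · exact ⟨⟨hd.mul_right p, mul_ne_zero hN hp.ne_zero⟩, hsq⟩
      · refine ⟨⟨mul_dvd_mul_right he p, mul_ne_zero hN hp.ne_zero⟩, ?_⟩
        exact (Nat.squarefree_mul (hcop e he)).2 ⟨hsq, hp.squarefree⟩
  have hdisj : Disjoint (N.divisors.filter Squarefree)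
      ((N.divisors.filter Squarefree).image (· * p)) := by
    rw [Finset.disjoint_left]
    intro d hd hd'
    simp only [Finset.mem_filter, Nat.mem_divisors, Finset.mem_image] at hd hd'
    obtain ⟨e, _, rfl⟩ := hd'
    exact hpN ((Dvd.intro_left e rfl).trans hd.1.1)
  rw [hset, Finset.sum_union hdisj, Finset.sum_image, add_mul, one_mul, Finset.mul_sum]
  · congr 1
    · refine Finset.sum_congr rfl fun d hd => ?_
      have hdN : d ∣ N := (Nat.mem_divisors.1 (Finset.mem_filter.1 hd).1).1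
      obtain ⟨e, rfl⟩ := hdN
      have hd0 : 0 < d := Nat.pos_of_ne_zero (by rintro rfl; simp at hN)
      rw [mul_assoc, Nat.mul_div_cancel_left _ hd0, Nat.mul_div_cancel_left _ hd0, mul_comm]
    · refine Finset.sum_congr rfl fun d hd => ?_
      exact Nat.mul_div_mul_right N d hp.pos
  · intro a _ b _ hab
    exact Nat.eq_of_mul_eq_mul_right hp.pos hab

/-! ### The relative index `[Γ₀(N) : Γ₀(N p)]` -/

theorem Gamma0_mul_le (N p : ℕ) : Gamma0 (N * p) ≤ Gamma0 N := by
  intro g hg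
  rw [Gamma0_mem, ZMod.intCast_zmod_eq_zero_iff_dvd] at hg ⊢
  exact (Dvd.intro _ (by push_cast; rfl)).trans hg

theorem lowerUni_mem_Gamma0 (N : ℕ) (t : ℤ) : lowerUni ((N : ℤ) * t) ∈ Gamma0 N := by
  rw [Gamma0_mem, ZMod.intCast_zmod_eq_zero_iff_dvd]
  exact Dvd.intro _ rfl

/-- Criterion for equality of cosets in `Γ₀(N) ⧸ Γ₀(N p)`. -/
theorem rel_mk_eq_mk_iff (N p : ℕ) (g g' : SL(2, ℤ)) (hg : g ∈ Gamma0 N) (hg' : g' ∈ Gamma0 N) :
    (QuotientGroup.mk (⟨g, hg⟩ : Gamma0 N) :
        Gamma0 N ⧸ (Gamma0 (N * p)).subgroupOf (Gamma0 N)) = QuotientGroup.mk ⟨g', hg'⟩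
      ↔ ((N : ℤ) * (p : ℤ)) ∣ g 0 0 * g' 1 0 - g 1 0 * g' 0 0 := by
  rw [QuotientGroup.eq, Subgroup.mem_subgroupOf]
  have : (((⟨g, hg⟩ : Gamma0 N)⁻¹ * (⟨g', hg'⟩ : Gamma0 N) : Gamma0 N) : SL(2, ℤ))
      = g⁻¹ * g' := rfl
  rw [this, Gamma0_mem, inv_mul_apply_one_zero, ZMod.intCast_zmod_eq_zero_iff_dvd]
  push_cast
  rfl

theorem Gamma0_dvd (N : ℕ) (g : SL(2, ℤ)) (hg : g ∈ Gamma0 N) : (N : ℤ) ∣ g 1 0 := by
  rwa [Gamma0_mem, ZMod.intCast_zmod_eq_zero_iff_dvd] at hg

/-- Criterion in terms of `γ = c / N`. -/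
theorem rel_mk_eq_mk_iff' {N : ℕ} (hN : N ≠ 0) (p : ℕ) (g g' : SL(2, ℤ)) (hg : g ∈ Gamma0 N)
    (hg' : g' ∈ Gamma0 N) (γ γ' : ℤ) (hγ : g 1 0 = N * γ) (hγ' : g' 1 0 = N * γ') :
    (QuotientGroup.mk (⟨g, hg⟩ : Gamma0 N) :
        Gamma0 N ⧸ (Gamma0 (N * p)).subgroupOf (Gamma0 N)) = QuotientGroup.mk ⟨g', hg'⟩
      ↔ (p : ℤ) ∣ g 0 0 * γ' - γ * g' 0 0 := by
  rw [rel_mk_eq_mk_iff, hγ, hγ']
  have : g 0 0 * ((N : ℤ) * γ') - (N : ℤ) * γ * g' 0 0
      = (N : ℤ) * (g 0 0 * γ' - γ * g' 0 0) := by ring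
  rw [this]
  exact mul_dvd_mul_iff_left (by exact_mod_cast hN)

/-- the affine representatives of `Γ₀(N) ⧸ Γ₀(N p)` -/
noncomputable def relPt (N p : ℕ) (t : ZMod p) :
    Gamma0 N ⧸ (Gamma0 (N * p)).subgroupOf (Gamma0 N) :=
  QuotientGroup.mk ⟨lowerUni ((N : ℤ) * (ZMod.cast t : ℤ)), lowerUni_mem_Gamma0 N _⟩

theorem mk_eq_relPt_iff {N : ℕ} (hN : N ≠ 0) (p : ℕ) [NeZero p] (g : SL(2, ℤ))
    (hg : g ∈ Gamma0 N) (γ : ℤ) (hγ : g 1 0 = N * γ) (t : ZMod p) :
    (QuotientGroup.mk (⟨g, hg⟩ : Gamma0 N) :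
        Gamma0 N ⧸ (Gamma0 (N * p)).subgroupOf (Gamma0 N)) = relPt N p t
      ↔ ((g 0 0 : ℤ) : ZMod p) * t = ((γ : ℤ) : ZMod p) := by
  rw [relPt, rel_mk_eq_mk_iff' hN p g _ hg _ γ (ZMod.cast t : ℤ) hγ rfl]
  rw [lowerUni_apply_zero_zero, mul_one, ← ZMod.intCast_zmod_eq_zero_iff_dvd]
  push_cast
  try simp only [ZMod.intCast_cast, ZMod.cast_id', id_eq]
  exact sub_eq_zero

theorem relPt_injective {N : ℕ} (hN : N ≠ 0) (p : ℕ) [NeZero p] :
    Function.Injective (relPt N p) := by
  intro t t' h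
  rw [relPt, mk_eq_relPt_iff hN p _ _ (ZMod.cast t : ℤ) rfl] at h
  simpa using h.symm

/-- If `a = g 0 0` is nonzero mod the prime `p`, the coset of `g` is an affine point. -/
theorem exists_relPt_of_ne_zero {N : ℕ} (hN : N ≠ 0) (p : ℕ) [Fact p.Prime] (g : SL(2, ℤ))
    (hg : g ∈ Gamma0 N) (ha : ((g 0 0 : ℤ) : ZMod p) ≠ 0) :
    ∃ t : ZMod p,
      (QuotientGroup.mk (⟨g, hg⟩ : Gamma0 N) :
        Gamma0 N ⧸ (Gamma0 (N * p)).subgroupOf (Gamma0 N)) = relPt N p t := by
  obtain ⟨γ, hγ⟩ := Gamma0_dvd N g hg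
  refine ⟨((γ : ℤ) : ZMod p) * (((g 0 0 : ℤ) : ZMod p))⁻¹, ?_⟩
  rw [mk_eq_relPt_iff hN p g hg γ hγ]
  field_simp

theorem card_rel_of_dvd {N p : ℕ} (hN : N ≠ 0) (hp : p.Prime) (hpN : p ∣ N) :
    (Gamma0 (N * p)).relIndex (Gamma0 N) = p := by
  have : Fact p.Prime := ⟨hp⟩
  rw [Subgroup.relIndex, Subgroup.index_eq_card]
  have hbij : Function.Bijective (relPt N p) := by
    refine ⟨relPt_injective hN p, fun x => ?_⟩
    induction x using QuotientGroup.induction_on with
    | H k =>
      obtain ⟨g, hg⟩ := k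
      have ha : ((g 0 0 : ℤ) : ZMod p) ≠ 0 := by
        intro h0
        rw [ZMod.intCast_zmod_eq_zero_iff_dvd] at h0
        have hc : (p : ℤ) ∣ g 1 0 := (Int.natCast_dvd_natCast.2 hpN).trans (Gamma0_dvd N g hg)
        have h1 : (p : ℤ) ∣ 1 := by
          rw [← det_rel g]
          exact dvd_sub (h0.mul_right _) (hc.mul_left _)
        have h2 : p ∣ 1 := by exact_mod_cast h1
        exact hp.one_lt.ne' (Nat.dvd_one.1 h2)
      obtain ⟨t, ht⟩ := exists_relPt_of_ne_zero hN p g hg ha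
      exact ⟨t, ht.symm⟩
  rw [← Nat.card_congr (Equiv.ofBijective _ hbij), Nat.card_eq_fintype_card, ZMod.card]

theorem exists_mem_Gamma0_col {N p : ℕ} (hcop : Nat.Coprime p N) :
    ∃ g : SL(2, ℤ), g ∈ Gamma0 N ∧ g 0 0 = p ∧ g 1 0 = N := by
  have h : IsCoprime (p : ℤ) (N : ℤ) := Nat.isCoprime_iff_coprime.2 hcop
  obtain ⟨u, v, huv⟩ := h
  have hdet : (!![(p : ℤ), -v; (N : ℤ), u]).det = 1 := by
    rw [Matrix.det_fin_two_of]; linear_combination huv
  let g : SL(2, ℤ) := ⟨!![(p : ℤ), -v; (N : ℤ), u], hdet⟩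
  refine ⟨g, ?_, rfl, rfl⟩
  rw [Gamma0_mem]
  change (((N : ℤ) : ℤ) : ZMod N) = 0
  simp

theorem card_rel_of_not_dvd {N p : ℕ} (hN : N ≠ 0) (hp : p.Prime) (hpN : ¬ p ∣ N) :
    (Gamma0 (N * p)).relIndex (Gamma0 N) = p + 1 := by
  have : Fact p.Prime := ⟨hp⟩
  rw [Subgroup.relIndex, Subgroup.index_eq_card]
  obtain ⟨g₀, hg₀, hk0, hk1⟩ :=
    exists_mem_Gamma0_col ((Nat.Prime.coprime_iff_not_dvd hp).2 hpN)
  let f : Option (ZMod p) → Gamma0 N ⧸ (Gamma0 (N * p)).subgroupOf (Gamma0 N) := fun o =>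
    o.elim (QuotientGroup.mk ⟨g₀, hg₀⟩) (relPt N p)
  have hinf : ∀ t : ZMod p,
      (QuotientGroup.mk (⟨g₀, hg₀⟩ : Gamma0 N) :
        Gamma0 N ⧸ (Gamma0 (N * p)).subgroupOf (Gamma0 N)) ≠ relPt N p t := by
    intro t h
    rw [mk_eq_relPt_iff hN p g₀ hg₀ 1 (by rw [hk1, mul_one]), hk0] at h
    simp at h
  have hbij : Function.Bijective f := by
    constructor
    · rintro (_ | t) (_ | t') h
      · rfl
      · exact absurd h (hinf t')
      · exact absurd h.symm (hinf t)
      · exact congrArg some (relPt_injective hN p h)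
    · intro x
      induction x using QuotientGroup.induction_on with
      | H k =>
        obtain ⟨g, hg⟩ := k
        by_cases ha : ((g 0 0 : ℤ) : ZMod p) = 0
        · refine ⟨none, ?_⟩
          obtain ⟨γ, hγ⟩ := Gamma0_dvd N g hg
          change (QuotientGroup.mk (⟨g₀, hg₀⟩ : Gamma0 N) :
            Gamma0 N ⧸ (Gamma0 (N * p)).subgroupOf (Gamma0 N)) = _
          rw [rel_mk_eq_mk_iff' hN p g₀ g hg₀ hg 1 γ (by rw [hk1, mul_one]) hγ, hk0]
          rw [ZMod.intCast_zmod_eq_zero_iff_dvd] at ha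
          exact dvd_sub (Dvd.intro _ rfl) (ha.mul_left _)
        · obtain ⟨t, ht⟩ := exists_relPt_of_ne_zero hN p g hg ha
          exact ⟨some t, ht.symm⟩
  rw [← Nat.card_congr (Equiv.ofBijective _ hbij), Nat.card_eq_fintype_card, Fintype.card_option,
    ZMod.card]

/-! ### The index formula -/

theorem Gamma0_one : Gamma0 1 = ⊤ := by
  ext g
  simp only [Gamma0_mem, Subgroup.mem_top, iff_true]
  exact Subsingleton.elim _ _

/-- **I1**: `[SL(2, ℤ) : Γ₀(N)] = ψ(N)`. -/
theorem index_Gamma0 (N : ℕ) (hN : N ≠ 0) : (Gamma0 N).index = ModularCurve.dedekindPsi N := by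
  induction N using induction_on_primes with
  | zero => exact absurd rfl hN
  | one => rw [Gamma0_one, Subgroup.index_top, ModularCurve.dedekindPsi_one]
  | prime_mul p M hp ih =>
    have hM : M ≠ 0 := by rintro rfl; simp at hN
    have ih' := ih hM
    rw [mul_comm p M, ← Subgroup.relIndex_mul_index (Gamma0_mul_le M p), ih']
    by_cases hpM : p ∣ M
    · rw [card_rel_of_dvd hM hp hpM, dedekindPsi_mul_prime_of_dvd hM hp hpM]
    · rw [card_rel_of_not_dvd hM hp hpM, dedekindPsi_mul_prime_of_not_dvd hM hp hpM]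

/-- **I1**, cardinality form. -/
theorem card_quot_Gamma0 (N : ℕ) [NeZero N] :
    Nat.card (SL(2, ℤ) ⧸ Gamma0 N) = ModularCurve.dedekindPsi N := by
  rw [← Subgroup.index_eq_card]
  exact index_Gamma0 N (NeZero.ne N)

end Fermat.Agent.S20.H872

end
-- ===== PACK-END S20/H872/Index.lean

-- ===== PACK-BEGIN S36/H934/Congr9.lean
section




/-!
# `γ(t₉) ≡ α(t₉)` from `γ(j_d) ≡ α(j_d)`, `d ∣ 9` (helper934, S36 REG / R4, `q = 2` path)

Mathlib only; the level-`9` mirror of helper878's `Congr4`.  `V` a valuation subring of a field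
`L` (application: `V = V_mid`).  Unprimed letters: images under `α` (inclusion
`F_M → F_{q² M}`); primed letters: images under `γ : f(t) ↦ f(t^{q²})`.  The Hauptmoduln are
rational in the `j_d`:

  `U₃(j, j₃) · t₃ = W₃(j, j₃)`          (`Lib.Haupt.t3_lin`; `u3`, `w3` below),
  `U₃(j₃, j₉) · t₃(t³) = W₃(j₃, j₉)`     (`qExpand 3` of it),
  `t₉ · (A B - 243 A + 9 B + 729) = A² B + 18 A B + 27 B + 1458 A`,  `A = t₃`, `B = t₃(t³)`
  (`num9_of_rel`: a formal consequence of `A Q = t₉³`, `B = t₉ Q`, `Q = t₉² + 9 t₉ + 27`),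

so congruences `j_d' ≡ j_d mod 𝔪_V` propagate to `t₉' ≡ t₉ mod 𝔪_V` as soon as the denominators
`U₃(j, j₃)`, `U₃(j₃, j₉)`, `A B - 243 A + 9 B + 729` are units of `V` (Gauss units: their
`t`-expansions have leading coefficient `1`).  This is hypothesis `hx` of `hres_transfer9`.
-/

set_option autoImplicit false

namespace Fermat.Agent.S36.H934

open IsLocalRing

variable {L : Type*} [Field L]

/-! ### The polynomials -/

/-- The denominator `U₃ ∈ ℤ[x, y]` of `t₃ = W₃(j, j₃) / U₃(j, j₃)`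
(same shape as `Lib.Haupt.U3`). -/
def u3 {S : Type*} [CommRing S] (x y : S) : S :=
  729 * x ^ 2 * y + 196830 * x * y ^ 2 + y ^ 3 - 524880 * x ^ 2 + 18821147040 * x * y
    - 103456080 * y ^ 2 + 14229831680000 * x + 276373831680000 * y - 3623878656000000000

/-- The numerator `W₃ ∈ ℤ[x, y]` of `t₃ = W₃(j, j₃) / U₃(j, j₃)`
(same shape as `Lib.Haupt.W3`). -/
def w3 {S : Type*} [CommRing S] (x y : S) : S :=
  x * y ^ 3 + 19129644 * x * y ^ 2 - 756 * y ^ 3 + 531440 * x ^ 2 + 76509442080 * x * y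
    + 23150726640 * y ^ 2 - 48430448640000 * x - 14204206448640000 * y
    + 97844723712000000000

/-- The denominator `A B - 243 A + 9 B + 729` of `t₉` in terms of `A = t₃`, `B = t₃(t³)`
(same shape as in helper890's `Haupt9.t9_mul`). -/
def den9 {S : Type*} [CommRing S] (A B : S) : S := A * B - 243 * A + 9 * B + 729

/-- The numerator `A² B + 18 A B + 27 B + 1458 A` of `t₉` in terms of `A = t₃`,
`B = t₃(t³)` (same shape as the right-hand side of helper890's `Haupt9.t9_mul`). -/
def num9 {S : Type*} [CommRing S] (A B : S) : S :=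
  A ^ 2 * B + 18 * (A * B) + 27 * B + 1458 * A

theorem map_u3 {S T : Type*} [CommRing S] [CommRing T] (f : S →+* T) (x y : S) :
    f (u3 x y) = u3 (f x) (f y) := by
  simp only [u3, map_sub, map_add, map_mul, map_pow, map_ofNat]

theorem map_w3 {S T : Type*} [CommRing S] [CommRing T] (f : S →+* T) (x y : S) :
    f (w3 x y) = w3 (f x) (f y) := by
  simp only [w3, map_sub, map_add, map_mul, map_pow, map_ofNat]

theorem map_den9 {S T : Type*} [CommRing S] [CommRing T] (f : S →+* T) (x y : S) :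
    f (den9 x y) = den9 (f x) (f y) := by
  simp only [den9, map_sub, map_add, map_mul, map_ofNat]

theorem map_num9 {S T : Type*} [CommRing S] [CommRing T] (f : S →+* T) (x y : S) :
    f (num9 x y) = num9 (f x) (f y) := by
  simp only [num9, map_add, map_mul, map_pow, map_ofNat]

/-- The rational formula for `t₉` is a formal consequence of `A Q = t³` and `B = t Q`,
`Q = t² + 9 t + 27`. -/
theorem num9_of_rel {S : Type*} [CommRing S] [IsDomain S] (A B t : S)
    (hA : A * (t ^ 2 + 9 * t + 27) = t ^ 3) (hB : B = t * (t ^ 2 + 9 * t + 27))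
    (hQ : t ^ 2 + 9 * t + 27 ≠ 0) :
    t * den9 A B = num9 A B := by
  apply mul_right_cancel₀ hQ
  subst hB
  rw [den9, num9]
  linear_combination
    (t ^ 2 * (t ^ 2 + 9 * t + 27) - 243 * t - t * (A * (t ^ 2 + 9 * t + 27) + t ^ 3)
      - 18 * t * (t ^ 2 + 9 * t + 27) - 1458) * hA

/-- With `A Q = t³`, `B = t Q`: `den9 A B · Q` is a monic polynomial in `t`. -/
theorem den9_mul_of_rel {S : Type*} [CommRing S] (A B t : S)
    (hA : A * (t ^ 2 + 9 * t + 27) = t ^ 3) (hB : B = t * (t ^ 2 + 9 * t + 27)) :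
    den9 A B * (t ^ 2 + 9 * t + 27)
      = t ^ 6 + 18 * t ^ 5 + 189 * t ^ 4 + 972 * t ^ 3 + 5103 * t ^ 2 + 13122 * t + 19683 := by
  subst hB
  rw [den9]
  linear_combination (t * (t ^ 2 + 9 * t + 27) - 243) * hA

/-! ### Congruences modulo `𝔪_V` -/

theorem mem_of_mem_nonunits9 (V : ValuationSubring L) {a : L} (ha : a ∈ V.nonunits) : a ∈ V :=
  (V.valuation_le_one_iff _).1 ((V.mem_nonunits_iff).1 ha).le

theorem mem_of_sub_mem_nonunits9 (V : ValuationSubring L) {a b : L} (ha : a ∈ V)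
    (hab : b - a ∈ V.nonunits) : b ∈ V := by
  have := add_mem (mem_of_mem_nonunits9 V hab) ha
  simpa using this

theorem mul_mem_nonunits_of_mem9 (V : ValuationSubring L) {a b : L}
    (ha : a ∈ V) (hb : b ∈ V.nonunits) : a * b ∈ V.nonunits := by
  rw [ValuationSubring.mem_nonunits_iff, map_mul, mul_comm]
  exact mul_lt_one_of_lt_of_le ((V.mem_nonunits_iff).1 hb) ((V.valuation_le_one_iff _).2 ha)

theorem valuation_eq_one_of_sub_mem_nonunits9 (V : ValuationSubring L) {a b : L}
    (ha : V.valuation a = 1) (hab : b - a ∈ V.nonunits) : V.valuation b = 1 := by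
  have h1 : V.valuation (b - a) < V.valuation a := by
    rw [ha]; exact (V.mem_nonunits_iff).1 hab
  have h2 := Valuation.map_add_eq_of_lt_right V.valuation h1
  rw [sub_add_cancel] at h2
  rw [h2, ha]

/-- `b - a ∈ 𝔪_V` iff `a`, `b` have the same residue. -/
theorem coe_sub_mem_nonunits_iff9 (V : ValuationSubring L) (a b : V) :
    ((b : L) - (a : L)) ∈ V.nonunits ↔ residue V b = residue V a := by
  have e : ((b : L) - (a : L)) = ((b - a : V) : L) := rfl
  rw [e, ValuationSubring.coe_mem_nonunits_iff, ← residue_eq_zero_iff, map_sub, sub_eq_zero]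

/-- A binary polynomial law respects congruences modulo `𝔪_V`. -/
theorem congr_of_map9 (V : ValuationSubring L) (FL : L → L → L) (FV : V → V → V)
    (Fκ : ResidueField V → ResidueField V → ResidueField V)
    (hL : ∀ a b : V, FL a b = FV a b)
    (hκ : ∀ a b : V, residue V (FV a b) = Fκ (residue V a) (residue V b))
    {x y x' y' : L} (hx : x ∈ V) (hy : y ∈ V)
    (hxx : x' - x ∈ V.nonunits) (hyy : y' - y ∈ V.nonunits) :
    FL x y ∈ V ∧ FL x' y' ∈ V ∧ FL x' y' - FL x y ∈ V.nonunits := by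
  have hx' : x' ∈ V := mem_of_sub_mem_nonunits9 V hx hxx
  have hy' : y' ∈ V := mem_of_sub_mem_nonunits9 V hy hyy
  lift x to V using hx
  lift y to V using hy
  lift x' to V using hx'
  lift y' to V using hy'
  rw [coe_sub_mem_nonunits_iff9] at hxx hyy
  refine ⟨?_, ?_, ?_⟩
  · rw [hL]; exact (FV x y).2
  · rw [hL]; exact (FV x' y').2
  · rw [hL, hL, coe_sub_mem_nonunits_iff9, hκ, hκ, hxx, hyy]

theorem u3_congr (V : ValuationSubring L) {x y x' y' : L} (hx : x ∈ V) (hy : y ∈ V)
    (hxx : x' - x ∈ V.nonunits) (hyy : y' - y ∈ V.nonunits) :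
    u3 x y ∈ V ∧ u3 x' y' ∈ V ∧ u3 x' y' - u3 x y ∈ V.nonunits :=
  congr_of_map9 V u3 u3 u3 (fun a b => (map_u3 V.subtype a b).symm)
    (fun a b => map_u3 (residue V) a b) hx hy hxx hyy

theorem w3_congr (V : ValuationSubring L) {x y x' y' : L} (hx : x ∈ V) (hy : y ∈ V)
    (hxx : x' - x ∈ V.nonunits) (hyy : y' - y ∈ V.nonunits) :
    w3 x y ∈ V ∧ w3 x' y' ∈ V ∧ w3 x' y' - w3 x y ∈ V.nonunits :=
  congr_of_map9 V w3 w3 w3 (fun a b => (map_w3 V.subtype a b).symm)
    (fun a b => map_w3 (residue V) a b) hx hy hxx hyy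

theorem den9_congr (V : ValuationSubring L) {x y x' y' : L} (hx : x ∈ V) (hy : y ∈ V)
    (hxx : x' - x ∈ V.nonunits) (hyy : y' - y ∈ V.nonunits) :
    den9 x y ∈ V ∧ den9 x' y' ∈ V ∧ den9 x' y' - den9 x y ∈ V.nonunits :=
  congr_of_map9 V den9 den9 den9 (fun a b => (map_den9 V.subtype a b).symm)
    (fun a b => map_den9 (residue V) a b) hx hy hxx hyy

theorem num9_congr (V : ValuationSubring L) {x y x' y' : L} (hx : x ∈ V) (hy : y ∈ V)
    (hxx : x' - x ∈ V.nonunits) (hyy : y' - y ∈ V.nonunits) :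
    num9 x y ∈ V ∧ num9 x' y' ∈ V ∧ num9 x' y' - num9 x y ∈ V.nonunits :=
  congr_of_map9 V num9 num9 num9 (fun a b => (map_num9 V.subtype a b).symm)
    (fun a b => map_num9 (residue V) a b) hx hy hxx hyy

/-- If `U t = W`, `U' t' = W'` with `U` a unit of `V`, `U' ≡ U`, `W' ≡ W` modulo `𝔪_V`, then
`t, t' ∈ V` and `t' ≡ t`. -/
theorem lin_congr9 (V : ValuationSubring L) {U W t U' W' t' : L}
    (hU : V.valuation U = 1) (hW : W ∈ V) (hW' : W' ∈ V)
    (h : U * t = W) (h' : U' * t' = W')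
    (hUU : U' - U ∈ V.nonunits) (hWW : W' - W ∈ V.nonunits) :
    t ∈ V ∧ t' ∈ V ∧ t' - t ∈ V.nonunits := by
  have hU' : V.valuation U' = 1 := valuation_eq_one_of_sub_mem_nonunits9 V hU hUU
  have hU0 : U ≠ 0 := fun h0 => by rw [h0, map_zero] at hU; exact zero_ne_one hU
  have hU'0 : U' ≠ 0 := fun h0 => by rw [h0, map_zero] at hU'; exact zero_ne_one hU'
  have ht : t = W * U⁻¹ := by rw [← h]; field_simp
  have ht' : t' = W' * U'⁻¹ := by rw [← h']; field_simp
  have hvt : V.valuation t ≤ 1 := by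
    rw [ht, map_mul, map_inv₀, hU, inv_one, mul_one]
    exact (V.valuation_le_one_iff _).2 hW
  have hvt' : V.valuation t' ≤ 1 := by
    rw [ht', map_mul, map_inv₀, hU', inv_one, mul_one]
    exact (V.valuation_le_one_iff _).2 hW'
  refine ⟨(V.valuation_le_one_iff _).1 hvt, (V.valuation_le_one_iff _).1 hvt', ?_⟩
  have e : t' - t = ((W' - W) - t * (U' - U)) * U'⁻¹ := by
    rw [ht', ht]; field_simp; ring
  have hnum : (W' - W) - t * (U' - U) ∈ V.nonunits :=
    sub_mem hWW (mul_mem_nonunits_of_mem9 V ((V.valuation_le_one_iff _).1 hvt) hUU)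
  rw [ValuationSubring.mem_nonunits_iff, e, map_mul, map_inv₀, hU', inv_one, mul_one]
  exact (V.mem_nonunits_iff).1 hnum

/-- **`t₃' ≡ t₃`** from `j' ≡ j`, `j₃' ≡ j₃`. -/
theorem t3_congr (V : ValuationSubring L) {j j3 t3 j' j3' t3' : L}
    (hj : j ∈ V) (hj3 : j3 ∈ V)
    (c1 : j' - j ∈ V.nonunits) (c3 : j3' - j3 ∈ V.nonunits)
    (hU : V.valuation (u3 j j3) = 1)
    (l : u3 j j3 * t3 = w3 j j3) (l' : u3 j' j3' * t3' = w3 j' j3') :
    t3 ∈ V ∧ t3' ∈ V ∧ t3' - t3 ∈ V.nonunits := by
  obtain ⟨-, -, hu⟩ := u3_congr V hj hj3 c1 c3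
  obtain ⟨hw, hw', hww⟩ := w3_congr V hj hj3 c1 c3
  exact lin_congr9 V hU hw hw' l l' hu hww

/-- **`γ(t₉) ≡ α(t₉)` modulo `𝔪_V`** from `γ(j_d) ≡ α(j_d)`, `d ∈ {1, 3, 9}`.
`A = t₃`, `B = t₃(t³)`. -/
theorem t9_congr (V : ValuationSubring L) {j j3 j9 A B t9 j' j3' j9' A' B' t9' : L}
    (hj : j ∈ V) (hj3 : j3 ∈ V) (hj9 : j9 ∈ V)
    (c1 : j' - j ∈ V.nonunits) (c3 : j3' - j3 ∈ V.nonunits) (c9 : j9' - j9 ∈ V.nonunits)
    (hU : V.valuation (u3 j j3) = 1) (hUe : V.valuation (u3 j3 j9) = 1)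
    (hden : V.valuation (den9 A B) = 1)
    (l1 : u3 j j3 * A = w3 j j3) (l2 : u3 j3 j9 * B = w3 j3 j9)
    (l3 : t9 * den9 A B = num9 A B)
    (l1' : u3 j' j3' * A' = w3 j' j3') (l2' : u3 j3' j9' * B' = w3 j3' j9')
    (l3' : t9' * den9 A' B' = num9 A' B') :
    t9 ∈ V ∧ t9' ∈ V ∧ t9' - t9 ∈ V.nonunits := by
  obtain ⟨hA, -, dA⟩ := t3_congr V hj hj3 c1 c3 hU l1 l1'
  obtain ⟨hB, -, dB⟩ := t3_congr V hj3 hj9 c3 c9 hUe l2 l2'
  obtain ⟨-, -, hd⟩ := den9_congr V hA hB dA dB
  obtain ⟨hn, hn', hnn⟩ := num9_congr V hA hB dA dB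
  exact lin_congr9 V hden hn hn' (by rw [mul_comm]; exact l3) (by rw [mul_comm]; exact l3')
    hd hnn

/-- Variant of `t9_congr` with the level-`9` relations `A Q = t₉³`, `B = t₉ Q` as input
instead of the rational formula. -/
theorem t9_congr_of_rel (V : ValuationSubring L) {j j3 j9 A B t9 j' j3' j9' A' B' t9' : L}
    (hj : j ∈ V) (hj3 : j3 ∈ V) (hj9 : j9 ∈ V)
    (c1 : j' - j ∈ V.nonunits) (c3 : j3' - j3 ∈ V.nonunits) (c9 : j9' - j9 ∈ V.nonunits)
    (hU : V.valuation (u3 j j3) = 1) (hUe : V.valuation (u3 j3 j9) = 1)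
    (hden : V.valuation (den9 A B) = 1)
    (l1 : u3 j j3 * A = w3 j j3) (l2 : u3 j3 j9 * B = w3 j3 j9)
    (rA : A * (t9 ^ 2 + 9 * t9 + 27) = t9 ^ 3) (rB : B = t9 * (t9 ^ 2 + 9 * t9 + 27))
    (rQ : t9 ^ 2 + 9 * t9 + 27 ≠ 0)
    (l1' : u3 j' j3' * A' = w3 j' j3') (l2' : u3 j3' j9' * B' = w3 j3' j9')
    (rA' : A' * (t9' ^ 2 + 9 * t9' + 27) = t9' ^ 3)
    (rB' : B' = t9' * (t9' ^ 2 + 9 * t9' + 27))
    (rQ' : t9' ^ 2 + 9 * t9' + 27 ≠ 0) :
    t9 ∈ V ∧ t9' ∈ V ∧ t9' - t9 ∈ V.nonunits :=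
  t9_congr V hj hj3 hj9 c1 c3 c9 hU hUe hden l1 l2 (num9_of_rel A B t9 rA rB rQ) l1' l2'
    (num9_of_rel A' B' t9' rA' rB' rQ')

end Fermat.Agent.S36.H934

end
-- ===== PACK-END S36/H934/Congr9.lean

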