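import Mathlib.Data.Nat.Factorization.Induction
import Mathlib.Algebra.Squarefree.Basic
import Mathlib.Data.Nat.Squarefree
import Mathlib
import Fermat.Prelude.Def_FLTPrelim_Ramification
import Fermat.Agent.Pack.S36.E5L2
import Fermat.Agent.Pack.S36.E5L1
import Fermat.Agent.Pack.S36.E1L1
import Fermat.Agent.Pack.S36.E5L0
import Fermat.Agent.Pack.S36.E4L2
import Fermat.Agent.Pack.S36.E5L3
import Fermat.Agent.Pack.S36.E1L3
import Fermat.Agent.Pack.S36.E1L0
import Fermat.Agent.Pack.S36.E2L3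
import Fermat.Agent.Pack.S36.E6L1
import Fermat.Agent.Pack.S36.E6L0
import Fermat.Agent.Pack.S36.E6L3
import Fermat.Agent.Pack.S36.E6L2
import Fermat.Agent.Pack.S36.E4L1

-- ===== PACK-BEGIN S20/Comb/Index.lean
section





/-!
# The index of `Gamma0 N` in `SL(2,ℤ)` is the Dedekind psi function

* `index_Gamma0 : (Gamma0 N).index = ModularCurve.dedekindPsi N` (all `N`, including `N = 0`)
* `card_quotient_Gamma0 : Nat.card (SL(2,ℤ) ⧸ Gamma0 N) = ModularCurve.dedekindPsi N`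
-/

set_option autoImplicit false

namespace Fermat.Agent.S20.Comb

open Matrix MatrixGroups CongruenceSubgroup

lemma dedekindPsi_prime_mul_of_dvd (p M : ℕ) (hp : p.Prime) (hM : M ≠ 0) (h : p ∣ M) :
    ModularCurve.dedekindPsi (p * M) = p * ModularCurve.dedekindPsi M := by
  unfold ModularCurve.dedekindPsi
  have hset : (p * M).divisors.filter Squarefree = M.divisors.filter Squarefree := by
    ext d
    simp only [Finset.mem_filter, Nat.mem_divisors]
    constructor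
    · rintro ⟨⟨hd, -⟩, hsq⟩
      refine ⟨⟨?_, hM⟩, hsq⟩
      by_cases hpd : p ∣ d
      · obtain ⟨d', rfl⟩ := hpd
        have hd' : d' ∣ M := (Nat.mul_dvd_mul_iff_left hp.pos).mp hd
        have hcop : Nat.Coprime p d' := by
          rw [Nat.Prime.coprime_iff_not_dvd hp]
          intro hpd'
          have h2 : p * p ∣ p * d' := Nat.mul_dvd_mul_left p hpd'
          have h3 := hsq p h2
          exact hp.one_lt.ne' (Nat.isUnit_iff.mp h3)
        exact Nat.Coprime.mul_dvd_of_dvd_of_dvd hcop h hd'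
      · exact Nat.Coprime.dvd_of_dvd_mul_left
          ((Nat.Prime.coprime_iff_not_dvd hp).mpr hpd).symm hd
    · rintro ⟨⟨hd, -⟩, hsq⟩
      exact ⟨⟨dvd_mul_of_dvd_right hd p, mul_ne_zero hp.ne_zero hM⟩, hsq⟩
  rw [hset, Finset.mul_sum]
  refine Finset.sum_congr rfl fun d hd => ?_
  have hd' : d ∣ M := (Nat.mem_divisors.mp (Finset.mem_filter.mp hd).1).1
  exact Nat.mul_div_assoc p hd'

lemma dedekindPsi_prime_mul_of_not_dvd (p M : ℕ) (hp : p.Prime) (hM : M ≠ 0) (h : ¬ p ∣ M) :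
    ModularCurve.dedekindPsi (p * M) = (p + 1) * ModularCurve.dedekindPsi M := by
  unfold ModularCurve.dedekindPsi
  rw [← Finset.sum_filter_add_sum_filter_not ((p * M).divisors.filter Squarefree) (fun d => p ∣ d)]
  have hset1 : ((p * M).divisors.filter Squarefree).filter (fun d => ¬ p ∣ d)
      = M.divisors.filter Squarefree := by
    ext d
    simp only [Finset.mem_filter, Nat.mem_divisors]
    constructor
    · rintro ⟨⟨⟨hd, -⟩, hsq⟩, hpd⟩
      exact ⟨⟨Nat.Coprime.dvd_of_dvd_mul_left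
        ((Nat.Prime.coprime_iff_not_dvd hp).mpr hpd).symm hd, hM⟩, hsq⟩
    · rintro ⟨⟨hd, -⟩, hsq⟩
      exact ⟨⟨⟨dvd_mul_of_dvd_right hd p, mul_ne_zero hp.ne_zero hM⟩, hsq⟩,
        fun hpd => h (dvd_trans hpd hd)⟩
  have hset2 : ((p * M).divisors.filter Squarefree).filter (fun d => p ∣ d)
      = (M.divisors.filter Squarefree).image (fun d => p * d) := by
    ext d
    simp only [Finset.mem_filter, Nat.mem_divisors, Finset.mem_image]
    constructor
    · rintro ⟨⟨⟨hd, -⟩, hsq⟩, ⟨d', rfl⟩⟩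
      exact ⟨d', ⟨⟨(Nat.mul_dvd_mul_iff_left hp.pos).mp hd, hM⟩, hsq.of_mul_right⟩, rfl⟩
    · rintro ⟨d', ⟨⟨hd', -⟩, hsq'⟩, rfl⟩
      have hcop : Nat.Coprime p d' :=
        (Nat.Prime.coprime_iff_not_dvd hp).mpr fun hpd => h (dvd_trans hpd hd')
      exact ⟨⟨⟨Nat.mul_dvd_mul_left p hd', mul_ne_zero hp.ne_zero hM⟩,
        (Nat.squarefree_mul hcop).mpr ⟨hp.prime.squarefree, hsq'⟩⟩, dvd_mul_right _ _⟩
  rw [hset1, hset2, Finset.sum_image (fun x _ y _ hxy => Nat.eq_of_mul_eq_mul_left hp.pos hxy),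
    add_mul, one_mul, Finset.mul_sum, add_comm]
  congr 1
  · refine Finset.sum_congr rfl fun d hd => ?_
    have hd' : d ∣ M := (Nat.mem_divisors.mp (Finset.mem_filter.mp hd).1).1
    exact Nat.mul_div_assoc p hd'
  · refine Finset.sum_congr rfl fun d hd => ?_
    exact Nat.mul_div_mul_left M d hp.pos

lemma Gamma0_one_eq_top : Gamma0 1 = ⊤ := by
  ext g
  simp only [Gamma0_mem, Subgroup.mem_top, iff_true]
  exact Subsingleton.elim _ _

lemma index_Gamma0_zero : (Gamma0 0).index = 0 := by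
  rw [Subgroup.index]
  haveI : Infinite (SL(2, ℤ) ⧸ Gamma0 0) := by
    refine Infinite.of_injective
      (fun t : ℤ => (QuotientGroup.mk (lowRep t) : SL(2, ℤ) ⧸ Gamma0 0)) ?_
    intro t t' h
    simp only at h
    rw [mk_eq_mk_iff] at h
    simp only [lowRep_apply_zero_zero, lowRep_apply_one_zero, Int.cast_one, one_mul,
      mul_one] at h
    have h' : ((t' - t : ℤ) : ZMod 0) = 0 := h
    have h'' := (ZMod.intCast_zmod_eq_zero_iff_dvd (t' - t) 0).mp h'
    simp only [Nat.cast_zero, zero_dvd_iff] at h''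
    exact (sub_eq_zero.mp h'').symm
  exact Nat.card_eq_zero_of_infinite

lemma dedekindPsi_zero : ModularCurve.dedekindPsi 0 = 0 := by
  simp [ModularCurve.dedekindPsi]

/-- **(I1)** The index of `Γ₀(N)` in `SL(2,ℤ)` is `ψ(N)` (for `N ≠ 0`). -/
theorem index_Gamma0_of_ne_zero (N : ℕ) (hN : N ≠ 0) :
    (Gamma0 N).index = ModularCurve.dedekindPsi N := by
  induction N using induction_on_primes with
  | zero => exact absurd rfl hN
  | one => rw [ModularCurve.dedekindPsi_one, Gamma0_one_eq_top, Subgroup.index_top]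
  | prime_mul p M hp ih =>
    have hM : M ≠ 0 := fun h => hN (by rw [h, mul_zero])
    rw [← Subgroup.relIndex_mul_index (Gamma0_mul_le p M), ih hM]
    by_cases h : p ∣ M
    · rw [relIndex_Gamma0_of_dvd p M hM hp h, dedekindPsi_prime_mul_of_dvd p M hp hM h]
    · rw [relIndex_Gamma0_of_not_dvd p M hM hp h, dedekindPsi_prime_mul_of_not_dvd p M hp hM h]

/-- **(I1)** The index of `Γ₀(N)` in `SL(2,ℤ)` is `ψ(N)` (all `N`; both sides are `0` for
`N = 0`). -/
theorem index_Gamma0 (N : ℕ) : (Gamma0 N).index = ModularCurve.dedekindPsi N := by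
  rcases eq_or_ne N 0 with rfl | hN
  · rw [index_Gamma0_zero, dedekindPsi_zero]
  · exact index_Gamma0_of_ne_zero N hN

/-- **(I1)** `#(SL(2,ℤ) ⧸ Γ₀(N)) = ψ(N)`. -/
theorem card_quotient_Gamma0 (N : ℕ) :
    Nat.card (SL(2, ℤ) ⧸ Gamma0 N) = ModularCurve.dedekindPsi N :=
  index_Gamma0 N

end Fermat.Agent.S20.Comb

end
-- ===== PACK-END S20/Comb/Index.lean

-- ===== PACK-BEGIN S18/H456/ModBasic.lean
section


/-!
# S18 / MOD assembly (helper456, backup MOD-ASM): basic facts on the concrete objects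

Membership lemmas for `Lc`, `Ec`, `Rc`, `Fc` and the "easy" fields of `Alg.GoodModel`
(`charZero`, `R_le`, `R_total`, `E_le_L`, `E_le_F`, `L_algebraic`, `L_algClosed`, `compositum`).
-/

set_option autoImplicit false

noncomputable section

namespace Fermat.Agent.S18.H456

open ModularCurve AlgebraicCurve HahnSeries Fermat.Agent.S18 Fermat.Agent.S18.Mod

variable (M : ℕ) (A : ValuationSubring Qb) (E : IntermediateField ℚ Qb)

/-- The constant `c ∈ Q̄` as an element of `Ω`. -/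
abbrev cst (c : Qb) : Om M := algebraMap Qb (Om M) c

theorem cst_injective : Function.Injective (cst M) := (algebraMap Qb (Om M)).injective

theorem mem_Lc_iff {f : Om M} : f ∈ Lc M ↔ ∃ c : Qb, cst M c = f := Iff.rfl

theorem cst_mem_Lc (c : Qb) : cst M c ∈ Lc M := ⟨c, rfl⟩

theorem mem_Ec_iff {f : Om M} : f ∈ Ec M E ↔ ∃ c ∈ E, cst M c = f := by
  unfold Ec
  rw [Subfield.mem_map]
  rfl

theorem cst_mem_Ec {c : Qb} (hc : c ∈ E) : cst M c ∈ Ec M E := (mem_Ec_iff M E).2 ⟨c, hc, rfl⟩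

theorem cst_mem_Ec_iff {c : Qb} : cst M c ∈ Ec M E ↔ c ∈ E := by
  refine ⟨fun h => ?_, cst_mem_Ec M E⟩
  obtain ⟨c', hc', h⟩ := (mem_Ec_iff M E).1 h
  rwa [← cst_injective M h]

theorem mem_Rc_iff {f : Om M} : f ∈ Rc M A E ↔ ∃ c, c ∈ A ∧ c ∈ E ∧ cst M c = f := by
  unfold Rc
  rw [Subring.mem_map]
  constructor
  · rintro ⟨c, hc, rfl⟩
    exact ⟨c, hc.1, hc.2, rfl⟩
  · rintro ⟨c, hA, hE, rfl⟩
    exact ⟨c, ⟨hA, hE⟩, rfl⟩

theorem cst_mem_Rc {c : Qb} (hA : c ∈ A) (hE : c ∈ E) : cst M c ∈ Rc M A E :=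
  (mem_Rc_iff M A E).2 ⟨c, hA, hE, rfl⟩

theorem cst_mem_Rc_iff {c : Qb} : cst M c ∈ Rc M A E ↔ c ∈ A ∧ c ∈ E := by
  refine ⟨fun h => ?_, fun h => cst_mem_Rc M A E h.1 h.2⟩
  obtain ⟨c', hA, hE, h⟩ := (mem_Rc_iff M A E).1 h
  rw [← cst_injective M h]
  exact ⟨hA, hE⟩

/-! ### The easy fields -/

theorem field_charZero : CharZero (Om M) :=
  charZero_of_injective_algebraMap (algebraMap Qb (Om M)).injective

theorem field_R_le : (Rc M A E : Set (Om M)) ⊆ Ec M E := by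
  intro f hf
  obtain ⟨c, -, hE, rfl⟩ := (mem_Rc_iff M A E).1 hf
  exact cst_mem_Ec M E hE

theorem field_R_total : ∀ e ∈ Ec M E, e ∈ Rc M A E ∨ e⁻¹ ∈ Rc M A E := by
  intro e he
  obtain ⟨c, hE, rfl⟩ := (mem_Ec_iff M E).1 he
  rcases A.mem_or_inv_mem c with h | h
  · exact Or.inl (cst_mem_Rc M A E h hE)
  · right
    rw [← map_inv₀]
    exact cst_mem_Rc M A E h (inv_mem hE)

theorem field_E_le_L : Ec M E ≤ Lc M := by
  intro f hf
  obtain ⟨c, -, rfl⟩ := (mem_Ec_iff M E).1 hf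
  exact cst_mem_Lc M c

theorem field_E_le_F : Ec M E ≤ Fc M E := by
  intro f hf
  exact Subfield.subset_closure (Or.inl hf)

theorem field_L_algebraic : ∀ a ∈ Lc M, IsAlgebraic (Ec M E) a := by
  intro a ha
  obtain ⟨c, rfl⟩ := (mem_Lc_iff M).1 ha
  have hc : IsAlgebraic ℚ c := (AlgebraicClosure.isAlgebraic ℚ).isAlgebraic c
  obtain ⟨p, hp0, hp⟩ := hc
  -- the ring hom ℚ → Ec
  let φ : ℚ →+* Ec M E := algebraMap ℚ (Ec M E)
  refine ⟨p.map φ, (Polynomial.map_ne_zero_iff φ.injective).2 hp0, ?_⟩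
  rw [Polynomial.aeval_def, Polynomial.eval₂_map]
  have hcomp : (algebraMap (Ec M E) (Om M)).comp φ = (algebraMap Qb (Om M)).comp (algebraMap ℚ Qb) :=
    RingHom.ext_rat _ _
  rw [hcomp, ← Polynomial.hom_eval₂]
  rw [Polynomial.aeval_def] at hp
  rw [hp, map_zero]

theorem field_L_algClosed : IsAlgClosed (Lc M) := by
  let e : Qb ≃+* Lc M := RingEquiv.ofBijective (algebraMap Qb (Om M)).rangeRestrictField
    ⟨(algebraMap Qb (Om M)).rangeRestrictField.injective, fun ⟨y, c, hc⟩ => ⟨c, Subtype.ext hc⟩⟩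
  exact IsAlgClosed.of_ringEquiv Qb (Lc M) e

end Fermat.Agent.S18.H456

end
end
-- ===== PACK-END S18/H456/ModBasic.lean

-- ===== PACK-BEGIN S18/H107/QepTransfer.lean
section




/-!
# helper107 — S18 / M3-T : transfer of the `q`-expansion principle between coordinates

`Qep107 Fc R V w y` is the field `qep_fin` of the frozen `GoodModel` for the coordinate `y`
(`qep_inf` is `Qep107 Fc R V w y⁻¹`).

`qep_transfer107`: if QEP holds for the charts of `y₁` and `y₂` (application: `j`, `j⁻¹`) and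
`Spec R[x]` is covered by two comaximal opens `D(g₁)`, `D(g₂)` on which `x` is "controlled" by
`y₁` resp. `y₂` (`OpenData107`), then QEP holds for the chart of `x`.
No noetherian / S2 / finiteness hypothesis is used.
-/

set_option autoImplicit false

namespace Fermat.Agent.S18.H107

open Polynomial Fermat.Agent.S18.Alg

variable {Ω : Type*} [Field Ω]

/-- The `q`-expansion principle on the chart of the coordinate `y`
(= `GoodModel.qep_fin` with `x := y`). -/
def Qep107 (Fc : Subfield Ω) (R V : Subring Ω) (w y : Ω) : Prop :=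
  ∀ b ∈ chart Fc R y, b * w⁻¹ ∈ V → b * w⁻¹ ∈ chart Fc R y

/-- The open `D(g) ⊆ Spec R[x]` is controlled by the chart of `y`:
* `e` is a unit-like multiplier: `e ∈ V`, `e` and `x·e` integral over `R[y]`;
* `y ∈ R[x][1/g]` : `y * g ^ k` integral over `R[x]`;
* `e⁻¹ ∈ R[x][1/g]` : `e * f = g ^ k'` with `f` integral over `R[x]`. -/
structure OpenData107 (Fc : Subfield Ω) (R V : Subring Ω) (x y g e : Ω) : Prop where
  g_mem : g ∈ polyRing R x
  e_mem_Fc : e ∈ Fc
  e_mem_V : e ∈ V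
  e_int : e ∈ intCl107 (polyRing R y)
  xe_int : x * e ∈ intCl107 (polyRing R y)
  y_loc : ∃ k : ℕ, y * g ^ k ∈ intCl107 (polyRing R x)
  e_inv : ∃ f ∈ intCl107 (polyRing R x), ∃ k : ℕ, e * f = g ^ k

theorem OpenData107.exists_pow_mul_mem {Fc : Subfield Ω} {R V : Subring Ω} {w x y g e : Ω}
    (o : OpenData107 Fc R V x y g e) (q : Qep107 Fc R V w y) {b : Ω} (hb : b ∈ chart Fc R x)
    (hz : b * w⁻¹ ∈ V) : ∃ K : ℕ, b * w⁻¹ * g ^ K ∈ intCl107 (polyRing R x) := by
  obtain ⟨hbF, hbI⟩ := hb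
  -- step 1: `b * e ^ D` is integral over `R[y]`
  obtain ⟨D, hD⟩ := exists_pow_mul_isIntegral107 (R' := R) (T := polyRing R y) (y := x) (e := e)
    ((le_polyRing107 R y).trans (le_intCl107 _)) o.e_int o.xe_int hbI
  have hchart : b * e ^ D ∈ chart Fc R y := ⟨Fc.mul_mem hbF (Fc.pow_mem o.e_mem_Fc D), hD⟩
  -- step 2/3: QEP for `y`
  have hV : b * e ^ D * w⁻¹ ∈ V := by
    have : b * e ^ D * w⁻¹ = b * w⁻¹ * e ^ D := by ring
    rw [this]
    exact V.mul_mem hz (V.pow_mem o.e_mem_V D)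
  have h3 := (q _ hchart hV).2
  -- step 4: back to `R[x]`
  obtain ⟨k, hk⟩ := o.y_loc
  have hgI : g ∈ intCl107 (polyRing R x) := le_intCl107 _ o.g_mem
  obtain ⟨D', hD'⟩ := exists_pow_mul_isIntegral107 (R' := R) (T := polyRing R x) (y := y)
    (e := g ^ k) ((le_polyRing107 R x).trans (le_intCl107 _)) ((intCl107 _).pow_mem hgI k) hk h3
  -- step 5: remove `e ^ D`
  obtain ⟨f, hf, k', hef⟩ := o.e_inv
  refine ⟨k' * D + k * D', ?_⟩
  have : b * w⁻¹ * g ^ (k' * D + k * D') = (b * e ^ D * w⁻¹ * (g ^ k) ^ D') * f ^ D := by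
    rw [pow_add, pow_mul, pow_mul, ← hef]
    ring
  rw [this]
  exact (intCl107 _).mul_mem hD' ((intCl107 _).pow_mem hf D)

/-- **QEP transfer.** -/
theorem qep_transfer107 {Fc : Subfield Ω} {R V : Subring Ω} {w x y₁ y₂ g₁ g₂ e₁ e₂ a b : Ω}
    (hw : w ∈ Fc) (q₁ : Qep107 Fc R V w y₁) (q₂ : Qep107 Fc R V w y₂)
    (o₁ : OpenData107 Fc R V x y₁ g₁ e₁) (o₂ : OpenData107 Fc R V x y₂ g₂ e₂)
    (ha : a ∈ polyRing R x) (hb : b ∈ polyRing R x) (hab : a * g₁ + b * g₂ = 1) :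
    Qep107 Fc R V w x := by
  intro c hc hz
  obtain ⟨K₁, h₁⟩ := o₁.exists_pow_mul_mem q₁ hc hz
  obtain ⟨K₂, h₂⟩ := o₂.exists_pow_mul_mem q₂ hc hz
  refine ⟨Fc.mul_mem hc.1 (Fc.inv_mem hw), ?_⟩
  exact mem_intCl107.1 (mem_of_comaximal107 (intCl107 (polyRing R x)) (c * w⁻¹) g₁ g₂ a b
    (le_intCl107 _ o₁.g_mem) (le_intCl107 _ o₂.g_mem) (le_intCl107 _ ha) (le_intCl107 _ hb)
    hab K₁ K₂ h₁ h₂)

end Fermat.Agent.S18.H107

end
-- ===== PACK-END S18/H107/QepTransfer.lean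

-- ===== PACK-BEGIN S18/H845/ConstExtSub.lean
section


/-!
# S18 / d1(c) in the language of `Alg/Spec.lean` (sub-objects of one field `Ω`)

`Ec ≤ Lc`, `Ec ≤ Fc` subfields of `Ω` (char 0), `Lc` algebraic over `Ec`, `Ω = Fc · Lc`.
Every discrete valuation ring `W` of `Fc` containing `Ec` is `O ∩ Fc` for a valuation subring `O`
of `Ω` containing `Lc`, in which a uniformiser of `W` is still a uniformiser.  Consequently a
divisibility statement `m ∣ ord_O(u)` at all `Lc`-places of `Ω` descends to all `Ec`-places of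
`Fc`.
-/

set_option autoImplicit false
set_option linter.unusedSectionVars false

namespace Fermat.Agent.S18.H845

section Sub

variable {Ω : Type*} [Field Ω] [CharZero Ω]

/-- **d1(c), sub-object form.** -/
theorem exists_valuationSubring_over (Lc Ec Fc : Subfield Ω) (E_le_F : Ec ≤ Fc)
    (L_algebraic : ∀ a ∈ Lc, IsAlgebraic Ec a)
    (compositum : Subfield.closure ((Fc : Set Ω) ∪ Lc) = ⊤)
    (W : ValuationSubring Fc) [IsDiscreteValuationRing W]
    (hEW : ∀ e : Fc, (e : Ω) ∈ Ec → e ∈ W) :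
    ∃ O : ValuationSubring Ω, (∀ a ∈ Lc, a ∈ O) ∧ (∀ f : Fc, (f : Ω) ∈ O ↔ f ∈ W) ∧
      IsDiscreteValuationRing O ∧
      (∀ π : W, Irreducible π → ∀ f : Ω, f ≠ 0 →
        ∃ k : ℤ, O.valuation f = O.valuation ((π : Fc) : Ω) ^ k) ∧
      ∀ π : W, Irreducible π → ((π : Fc) : Ω) ∈ O ∧ (((π : Fc) : Ω))⁻¹ ∉ O ∧
        ∀ t ∈ O, t⁻¹ ∉ O → t * (((π : Fc) : Ω))⁻¹ ∈ O := by
  let _ : Algebra Ec Fc := (Subfield.inclusion E_le_F).toAlgebra
  have : IsScalarTower Ec Fc Ω := IsScalarTower.of_algebraMap_eq (fun _ => rfl)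
  have : CharZero Ec := ⟨fun a b h => by
    have h' := congrArg (Subtype.val : Ec → Ω) h
    exact Nat.cast_injective (R := Ω) (by simpa using h')⟩
  have hEV : ∀ c : Ec, algebraMap Ec Fc c ∈ W := fun c => hEW _ c.2
  have hgen : IntermediateField.adjoin Fc {α : Ω | IsAlgebraic Ec α} = ⊤ := by
    rw [← IntermediateField.toSubfield_injective.eq_iff]
    show Subfield.closure (Set.range (algebraMap Fc Ω) ∪ {α : Ω | IsAlgebraic Ec α}) = ⊤
    rw [eq_top_iff, ← compositum]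
    apply Subfield.closure_mono
    rintro x (hx | hx)
    · exact Or.inl ⟨⟨x, hx⟩, rfl⟩
    · exact Or.inr (L_algebraic x hx)
  obtain ⟨O, hcomap, hdvr, hconst, hirr, hval⟩ :=
    exists_dvr_extension (E := Ec) (K := Fc) (L := Ω) W hEV hgen
  refine ⟨O, fun a ha => hconst a (L_algebraic a ha), ?_, hdvr, hval, ?_⟩
  · intro f
    rw [← hcomap]
    rfl
  · intro π hπ
    obtain ⟨hmem, hirrO⟩ := hirr π hπ
    have hπ0 : ((π : Fc) : Ω) ≠ 0 := by
      intro h
      apply hπ.ne_zero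
      apply Subtype.ext
      apply Subtype.ext
      exact h
    have hlt : O.valuation ((π : Fc) : Ω) < 1 := by
      have h1 : ¬ IsUnit (⟨((π : Fc) : Ω), hmem⟩ : O) := hirrO.not_isUnit
      rw [O.valuation_eq_one_iff] at h1
      exact lt_of_le_of_ne ((O.valuation_le_one_iff _).mpr hmem) h1
    have hpos : 0 < O.valuation ((π : Fc) : Ω) :=
      zero_lt_iff.mpr ((Valuation.ne_zero_iff _).mpr hπ0)
    refine ⟨hmem, ?_, ?_⟩
    · intro hinv
      have h1 : O.valuation (((π : Fc) : Ω))⁻¹ ≤ 1 := (O.valuation_le_one_iff _).mpr hinv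
      rw [map_inv₀] at h1
      have h2 : 1 ≤ O.valuation ((π : Fc) : Ω) := by
        rwa [inv_le_one₀ hpos] at h1
      exact absurd hlt (not_lt.mpr h2)
    · intro t ht htinv
      have ht0 : t ≠ 0 := by
        rintro rfl
        rw [inv_zero] at htinv
        exact htinv O.zero_mem
      obtain ⟨k, hk'⟩ := hval π hπ t ht0
      have hk : O.valuation t = O.valuation ((π : Fc) : Ω) ^ k := hk'
      have htlt : O.valuation t < 1 := by
        have h1 : O.valuation t ≤ 1 := (O.valuation_le_one_iff _).mpr ht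
        refine lt_of_le_of_ne h1 ?_
        intro h1'
        apply htinv
        rw [← O.valuation_le_one_iff, map_inv₀, h1', inv_one]
      rw [hk] at htlt
      have hk1 : 1 ≤ k := by
        have := (zpow_lt_one_iff_right_of_lt_one₀ hpos hlt).mp htlt
        omega
      rw [← O.valuation_le_one_iff, map_mul, map_inv₀, hk]
      have : O.valuation ((π : Fc) : Ω) ^ k * (O.valuation ((π : Fc) : Ω))⁻¹ =
          O.valuation ((π : Fc) : Ω) ^ (k - 1) := by
        rw [zpow_sub₀ hpos.ne', zpow_one, div_eq_mul_inv]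
      rw [this]
      exact (zpow_le_one_iff_right_of_lt_one₀ hpos hlt).mpr (by omega)

/-- **Descent of divisibility.**  If `u ∈ Fc` has `m ∣ ord_O(u)` at every valuation subring `O`
of `Ω` containing `Lc` (in the form used by `Alg.AlgMainStatement`), then `m ∣ ord_W(u)` at every
discrete valuation ring `W` of `Fc` containing `Ec`. -/
theorem exists_pow_unit_of_forall_over (Lc Ec Fc : Subfield Ω) (E_le_F : Ec ≤ Fc)
    (L_algebraic : ∀ a ∈ Lc, IsAlgebraic Ec a)
    (compositum : Subfield.closure ((Fc : Set Ω) ∪ Lc) = ⊤)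
    {u : Fc} (hu : u ≠ 0) {m : ℕ}
    (hdiv : ∀ O : ValuationSubring Ω, (∀ a ∈ Lc, a ∈ O) →
      ∃ t : Ω, t ≠ 0 ∧ (u : Ω) * t ^ m ∈ O ∧ ((u : Ω) * t ^ m)⁻¹ ∈ O)
    (W : ValuationSubring Fc) [IsDiscreteValuationRing W]
    (hEW : ∀ e : Fc, (e : Ω) ∈ Ec → e ∈ W) :
    ∃ s : Fc, s ≠ 0 ∧ u * s ^ m ∈ W ∧ (u * s ^ m)⁻¹ ∈ W := by
  obtain ⟨O, hL, hOW, _, hval, hunif⟩ :=
    exists_valuationSubring_over Lc Ec Fc E_le_F L_algebraic compositum W hEW
  obtain ⟨π, hπ⟩ := IsDiscreteValuationRing.exists_irreducible W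
  obtain ⟨hπO, hπinv, _⟩ := hunif π hπ
  have hπ0 : ((π : Fc) : Ω) ≠ 0 := by
    rintro h
    rw [h, inv_zero] at hπinv
    exact hπinv O.zero_mem
  have hπF0 : (π : Fc) ≠ 0 := fun h => hπ0 (by rw [h]; rfl)
  have hpos : 0 < O.valuation ((π : Fc) : Ω) :=
    zero_lt_iff.mpr ((Valuation.ne_zero_iff _).mpr hπ0)
  have hlt : O.valuation ((π : Fc) : Ω) < 1 := by
    refine lt_of_le_of_ne ((O.valuation_le_one_iff _).mpr hπO) ?_
    intro h1
    apply hπinv
    rw [← O.valuation_le_one_iff, map_inv₀, h1, inv_one]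
  obtain ⟨t, ht0, ht1, ht2⟩ := hdiv O hL
  have hunit : O.valuation ((u : Ω) * t ^ m) = 1 := by
    have h1 : O.valuation ((u : Ω) * t ^ m) ≤ 1 := (O.valuation_le_one_iff _).mpr ht1
    have h2 : O.valuation ((u : Ω) * t ^ m)⁻¹ ≤ 1 := (O.valuation_le_one_iff _).mpr ht2
    rw [map_inv₀] at h2
    have h0 : O.valuation ((u : Ω) * t ^ m) ≠ 0 := by
      rw [Valuation.ne_zero_iff]
      exact mul_ne_zero (fun h => hu (Subtype.ext h)) (pow_ne_zero m ht0)
    have h3 : 1 ≤ O.valuation ((u : Ω) * t ^ m) := by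
      rwa [inv_le_one₀ (zero_lt_iff.mpr h0)] at h2
    exact le_antisymm h1 h3
  obtain ⟨k, hk⟩ := hval π hπ t ht0
  -- take `s = π ^ k`
  refine ⟨(π : Fc) ^ k, zpow_ne_zero k hπF0, ?_⟩
  have hval1 : O.valuation (((u * ((π : Fc) ^ k) ^ m : Fc)) : Ω) = 1 := by
    have e : (((u * ((π : Fc) ^ k) ^ m : Fc)) : Ω) = (u : Ω) * (((π : Fc) : Ω) ^ k) ^ m := by
      push_cast
      rfl
    rw [e, map_mul, map_pow, map_zpow₀, ← hk, ← map_pow, ← map_mul]
    exact hunit
  constructor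
  · rw [← hOW, ← O.valuation_le_one_iff]
    exact hval1.le
  · rw [← hOW, ← O.valuation_le_one_iff]
    have e : (((u * ((π : Fc) ^ k) ^ m)⁻¹ : Fc) : Ω) = ((((u * ((π : Fc) ^ k) ^ m : Fc)) : Ω))⁻¹ := by
      push_cast
      rfl
    rw [e, map_inv₀, hval1, inv_one]

end Sub

end Fermat.Agent.S18.H845

end
-- ===== PACK-END S18/H845/ConstExtSub.lean

-- ===== PACK-BEGIN S18/B12/H203/UFDStep.lean
section



/-!
# S18 / b2.5, piece A4: the UFD step (`UFDStepStatement`)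

If every prime factor of `D ≠ 0` lying in the prime ideal `𝔪` is associated to the prime `p`,
then `D = p ^ a * D₁` with `D₁ ∉ 𝔪`.
-/

set_option autoImplicit false

namespace Fermat.Agent.S18.B12.H203

universe u v

/-- In a UFD, a nonzero element of a prime ideal has a prime factor in that ideal. -/
theorem exists_prime_dvd_mem_of_mem {P : Type u} [CommRing P] [IsDomain P]
    [UniqueFactorizationMonoid P] (𝔪 : Ideal P) [h𝔪 : 𝔪.IsPrime] (d : P) (hd0 : d ≠ 0)
    (hd : d ∈ 𝔪) : ∃ π : P, Prime π ∧ π ∣ d ∧ π ∈ 𝔪 := by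
  revert hd0 hd
  refine UniqueFactorizationMonoid.induction_on_prime
    (P := fun d : P => d ≠ 0 → d ∈ 𝔪 → ∃ π : P, Prime π ∧ π ∣ d ∧ π ∈ 𝔪) d ?_ ?_ ?_
  · intro h0 _
    exact absurd rfl h0
  · intro x hx _ hxm
    exact absurd (Ideal.eq_top_of_isUnit_mem 𝔪 hxm hx) h𝔪.ne_top
  · intro a q ha0 hq ih _ hmem
    rcases h𝔪.mem_or_mem hmem with hqm | ham
    · exact ⟨q, hq, dvd_mul_right q a, hqm⟩
    · obtain ⟨π, hπ, hπa, hπm⟩ := ih ha0 ham
      exact ⟨π, hπ, hπa.mul_left q, hπm⟩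

/-- **A4 (UFD step).** -/
theorem ufdStep.{w} : UFDStepStatement.{w} := by
  intro P _ _ _ 𝔪 h𝔪 p hp D hD hass
  obtain ⟨a, D₁, hpD₁, hDeq⟩ := WfDvdMonoid.max_power_factor hD hp.irreducible
  refine ⟨a, D₁, hDeq, ?_⟩
  intro hmem
  have hD₁0 : D₁ ≠ 0 := by
    rintro rfl
    exact hD (by rw [hDeq, mul_zero])
  obtain ⟨π, hπ, hπD₁, hπm⟩ := exists_prime_dvd_mem_of_mem 𝔪 D₁ hD₁0 hmem
  have hπD : π ∣ D := by
    rw [hDeq]
    exact hπD₁.mul_left _
  have hassoc : Associated π p := hass π hπ hπD hπm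
  exact hpD₁ (hassoc.symm.dvd.trans hπD₁)

end Fermat.Agent.S18.B12.H203

end
-- ===== PACK-END S18/B12/H203/UFDStep.lean

-- ===== PACK-BEGIN S18/H274/Tame.lean
section




/-!
# S18 / b2.3 (helper274) — TAME discriminant bound

Mathlib-only, sorry-free.  `Λ` a domain, `t` a prime element, `π : Λ →+* K` a surjection onto a
field of characteristic `0` with kernel `(t)`.  `C` a Dedekind domain which is free of finite rank
over `Λ` with basis `β`.

* `pow_dvd_mul_of_trace_dvd` : if `t ^ a ∣ Tr (y c)` for all `c : C`, then `t ^ a ∣ t * y` in `C`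
  ("`t` times the trace dual is integral").
* `tame_discr_of_residue` : if `y : Fin r → C` is linearly independent modulo `rad (t C)` then
  `¬ t ^ (card ι - r + 1) ∣ discr β`.
* `tameDiscr` : the same in the frozen shape `TameDiscrStatement` of
  `origin/helper33:Fermat/Agent/S18/B12/Spec.lean` (`Λ` a PID containing `ℚ`).
-/

namespace Fermat.Agent.S18.H274

open Module

section

variable {Λ : Type*} [CommRing Λ] [IsDomain Λ]
variable {C : Type*} [CommRing C] [IsDedekindDomain C] [Algebra Λ C]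
variable {ι : Type*} [Fintype ι] [DecidableEq ι] (β : Basis ι Λ C)
variable {K : Type*} [Field K] [CharZero K] (π : Λ →+* K)

include β π in
/-- **`t` times the trace dual is integral.**  If `t ^ a` divides `Tr (y c)` for all `c`, then
`t ^ a` divides `t * y` in `C`. -/
theorem pow_dvd_mul_of_trace_dvd (t : Λ) (ht0 : t ≠ 0) (hπt : π t = 0)
    (hker : ∀ x, π x = 0 → t ∣ x) (y : C) (a : ℕ)
    (hy : ∀ c, t ^ a ∣ Algebra.trace Λ C (y * c)) :
    algebraMap Λ C t ^ a ∣ algebraMap Λ C t * y := by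
  classical
  have hinj : Function.Injective (algebraMap Λ C) := β.algebraMap_injective
  have hτ : algebraMap Λ C t ≠ 0 := fun h => ht0 (hinj (by rw [h, map_zero]))
  obtain ⟨β₀, β₀', z, z₁, h1, hz, hz₁⟩ :=
    exists_split_of_isDedekindDomain (algebraMap Λ C t * y) (algebraMap Λ C t ^ a)
      (pow_ne_zero a hτ)
  have hzc : ∀ c, π (Algebra.trace Λ C (z * c)) = 0 := by
    intro c
    obtain ⟨e, he⟩ := hy (β₀' * c)
    have h2 : t ^ a * Algebra.trace Λ C (z * c) = t ^ a * (t * e) := by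
      calc t ^ a * Algebra.trace Λ C (z * c)
          = Algebra.trace Λ C ((z * algebraMap Λ C t ^ a) * c) := by
            rw [← smul_eq_mul, ← map_smul, Algebra.smul_def, map_pow]
            congr 1; ring
        _ = Algebra.trace Λ C (t • (y * (β₀' * c))) := by
            rw [hz, Algebra.smul_def]
            congr 1; ring
        _ = t ^ a * (t * e) := by
            rw [map_smul, he, smul_eq_mul]; ring
    have h3 := mul_left_cancel₀ (pow_ne_zero a ht0) h2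
    rw [h3, map_mul, hπt, zero_mul]
  obtain ⟨m, c₀, hc₀⟩ := exists_pow_dvd_of_trace_map_eq_zero β π t hker z hzc
  have hβ₀ : β₀ = 1 - z := by rw [← h1]; ring
  have hgeom := mul_neg_geom_sum z (m * a)
  refine ⟨(∑ i ∈ Finset.range (m * a), z ^ i) * z₁ + c₀ ^ a * (algebraMap Λ C t * y), ?_⟩
  have hzma : z ^ (m * a) = algebraMap Λ C t ^ a * c₀ ^ a := by
    rw [pow_mul, hc₀, mul_pow]
  calc algebraMap Λ C t * y
      = (1 - z ^ (m * a)) * (algebraMap Λ C t * y) + z ^ (m * a) * (algebraMap Λ C t * y) := by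
        ring
    _ = (∑ i ∈ Finset.range (m * a), z ^ i) * (β₀ * (algebraMap Λ C t * y))
          + z ^ (m * a) * (algebraMap Λ C t * y) := by
        rw [← hgeom, hβ₀]; ring
    _ = algebraMap Λ C t ^ a *
          ((∑ i ∈ Finset.range (m * a), z ^ i) * z₁ + c₀ ^ a * (algebraMap Λ C t * y)) := by
        rw [← hz₁, hzma]; ring

include π in
/-- **TAME discriminant bound**, residue-field form.  `π : Λ →+* K` a surjection onto a field
of characteristic `0` with kernel `(t)`, `t` prime; `C` Dedekind, free over `Λ` with basis `β`.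
If `y : Fin r → C` is linearly independent modulo `rad (t C)`, then
`t ^ (card ι - r + 1)` does not divide the discriminant of `β`. -/
theorem tame_discr_of_residue [WfDvdMonoid Λ] (hπ : Function.Surjective π)
    (t : Λ) (ht : Prime t) (hπt : π t = 0) (hker : ∀ x, π x = 0 → t ∣ x)
    (r : ℕ) (y : Fin r → C)
    (hy : ∀ a : Fin r → Λ,
        (∑ i, a i • y i) ∈ (Ideal.span {algebraMap Λ C t}).radical → ∀ i, t ∣ a i) :
    ¬ t ^ (Fintype.card ι - r + 1) ∣ Algebra.discr Λ β := by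
  classical
  have ht0 : t ≠ 0 := ht.ne_zero
  have hchar : CharZero Λ := ⟨fun n m h => by
    have := congrArg π h
    simpa using this⟩
  -- Step 1: the discriminant is nonzero
  have hD0 : Algebra.discr Λ β ≠ 0 := discr_ne_zero_of_charZero β
  -- Step 2: `D = t ^ a * D'`
  obtain ⟨a, D', hD', hD⟩ := WfDvdMonoid.max_power_factor hD0 ht.irreducible
  set G := Algebra.traceMatrix Λ β with hG
  have hGdet : G.det = t ^ a * D' := by rw [← hD, Algebra.discr_def]
  have hGsymm : ∀ i k, G i k = G k i := by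
    intro i k
    simp only [hG, Algebra.traceMatrix_apply, Algebra.traceForm_apply, mul_comm]
  have hGapp : ∀ i k, G i k = Algebra.trace Λ C (β i * β k) := by
    intro i k
    simp only [hG, Algebra.traceMatrix_apply, Algebra.traceForm_apply]
  -- trace of `(∑ i, M i j • β i) * β k` is `(G * M) k j`
  have htrcol : ∀ (M : Matrix ι ι Λ) (j k : ι),
      Algebra.trace Λ C ((∑ i, M i j • β i) * β k) = (G * M) k j := by
    intro M j k
    rw [Finset.sum_mul, map_sum, Matrix.mul_apply]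
    refine Finset.sum_congr rfl fun i _ => ?_
    rw [smul_mul_assoc, map_smul, smul_eq_mul, hGsymm k i, hGapp, mul_comm]
  -- Step 3: the matrix `N` with `t • adj G = t ^ a • N`
  have hdual : ∀ j, algebraMap Λ C t ^ a ∣ algebraMap Λ C t * (∑ i, G.adjugate i j • β i) := by
    intro j
    apply pow_dvd_mul_of_trace_dvd β π t ht0 hπt hker
    apply trace_mul_dvd_of_basis β
    intro k
    rw [htrcol, Matrix.mul_adjugate, hGdet, Matrix.smul_apply, Matrix.one_apply, smul_eq_mul]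
    split_ifs
    · rw [mul_one]; exact Dvd.intro _ rfl
    · rw [mul_zero]; exact dvd_zero _
  choose x hx using hdual
  let N : Matrix ι ι Λ := fun i j => β.repr (x j) i
  have hxN : ∀ j, x j = ∑ i, N i j • β i := fun j => (β.sum_repr (x j)).symm
  have hN : ∀ i j, t * G.adjugate i j = t ^ a * N i j := by
    intro i j
    have h1 : β.repr (algebraMap Λ C t * ∑ i, G.adjugate i j • β i) i
        = β.repr (algebraMap Λ C t ^ a * x j) i := by rw [hx j]
    rw [← Algebra.smul_def, map_smul, Finsupp.smul_apply, β.repr_sum_self, ← map_pow,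
      ← Algebra.smul_def, map_smul, Finsupp.smul_apply, smul_eq_mul, smul_eq_mul] at h1
    exact h1
  -- Step 4: `G * N = (t * D') • 1`
  have hGN : G * N = (t * D') • (1 : Matrix ι ι Λ) := by
    ext i j
    apply mul_left_cancel₀ (pow_ne_zero a ht0)
    have h2 : t ^ a * (G * N) i j = t * (G * G.adjugate) i j := by
      rw [Matrix.mul_apply, Matrix.mul_apply, Finset.mul_sum, Finset.mul_sum]
      refine Finset.sum_congr rfl fun k _ => ?_
      rw [mul_left_comm, ← hN, mul_left_comm]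
    rw [h2, Matrix.mul_adjugate, hGdet]
    simp only [Matrix.smul_apply, smul_eq_mul]
    ring
  -- Step 5: the columns of `N` are nilpotent modulo `t`
  have hxrad : ∀ j, x j ∈ (Ideal.span {algebraMap Λ C t}).radical := by
    intro j
    have h3 : ∀ c, π (Algebra.trace Λ C (x j * c)) = 0 := by
      intro c
      have h4 : t ∣ Algebra.trace Λ C (x j * c) := by
        apply trace_mul_dvd_of_basis β
        intro k
        rw [hxN j, htrcol, hGN, Matrix.smul_apply, smul_eq_mul, mul_assoc]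
        exact Dvd.intro _ rfl
      obtain ⟨e, he⟩ := h4
      rw [he, map_mul, hπt, zero_mul]
    obtain ⟨m, hm⟩ := exists_pow_dvd_of_trace_map_eq_zero β π t hker (x j) h3
    rw [Ideal.mem_radical_iff]
    exact ⟨m, Ideal.mem_span_singleton.mpr hm⟩
  -- Step 6: rank bound
  let Nbar : Matrix ι ι K := N.map π
  let Ybar : Matrix ι (Fin r) K := fun i' i => π (β.repr (y i) i')
  let W : Submodule K (ι → K) := LinearMap.range Nbar.mulVecLin
  let f : (Fin r → K) →ₗ[K] ((ι → K) ⧸ W) := W.mkQ ∘ₗ Ybar.mulVecLin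
  have hfinj : Function.Injective f := by
    rw [← LinearMap.ker_eq_bot, LinearMap.ker_eq_bot']
    intro abar habar
    have h5 : Ybar.mulVec abar ∈ W := by
      have : W.mkQ (Ybar.mulVecLin abar) = 0 := habar
      rwa [Submodule.mkQ_apply, Submodule.Quotient.mk_eq_zero] at this
    obtain ⟨vbar, hvbar⟩ := h5
    choose a₀ ha₀ using fun i => hπ (abar i)
    choose v hv using fun j => hπ (vbar j)
    -- the element `e = ∑ a i • y i - ∑ v j • x j` is divisible by `t`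
    have he : algebraMap Λ C t ∣ (∑ i, a₀ i • y i) - ∑ j, v j • x j := by
      apply dvd_of_forall_dvd_repr β
      intro i'
      apply hker
      have h6 := congrFun hvbar i'
      simp only [Matrix.mulVecLin_apply, Matrix.mulVec, dotProduct, Nbar, Ybar,
        Matrix.map_apply] at h6
      rw [map_sub, Finsupp.sub_apply, map_sum, map_sum, Finsupp.finsetSum_apply,
        Finsupp.finsetSum_apply, map_sub, map_sum, map_sum, sub_eq_zero]
      have e1 : ∀ i, π ((β.repr (a₀ i • y i)) i') = π (β.repr (y i) i') * abar i := by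
        intro i
        rw [map_smul, Finsupp.smul_apply, smul_eq_mul, map_mul, ha₀, mul_comm]
      have e2 : ∀ j, π ((β.repr (v j • x j)) i') = π (N i' j) * vbar j := by
        intro j
        rw [map_smul, Finsupp.smul_apply, smul_eq_mul, map_mul, hv, mul_comm]
      simp only [e1, e2]
      exact h6.symm
    -- hence `∑ a i • y i` is in the radical
    have hrad : (∑ i, a₀ i • y i) ∈ (Ideal.span {algebraMap Λ C t}).radical := by
      have h7 : (∑ i, a₀ i • y i) = ((∑ i, a₀ i • y i) - ∑ j, v j • x j) + ∑ j, v j • x j := by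
        ring
      rw [h7]
      refine Ideal.add_mem _ (Ideal.le_radical (Ideal.mem_span_singleton.mpr he)) ?_
      refine Ideal.sum_mem _ fun j _ => ?_
      rw [Algebra.smul_def]
      exact Ideal.mul_mem_left _ _ (hxrad j)
    funext i
    rw [← ha₀ i]
    obtain ⟨e, he'⟩ := hy a₀ hrad i
    rw [he', map_mul, hπt, zero_mul, Pi.zero_apply]
  have hrank : r + Nbar.rank ≤ Fintype.card ι := by
    have h8 := LinearMap.finrank_le_finrank_of_injective hfinj
    have h9 := Submodule.finrank_quotient_add_finrank W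
    rw [Module.finrank_fin_fun, ] at h8
    rw [Module.finrank_fintype_fun_eq_card] at h9
    have h10 : Nbar.rank = finrank K W := rfl
    omega
  -- Step 7: DET-RANK
  have hdetN : t ^ r ∣ N.det := by
    refine dvd_trans (pow_dvd_pow t ?_) (pow_sub_rank_dvd_det π hπ t hker N)
    have : (N.map π).rank = Nbar.rank := rfl
    omega
  -- Step 8: `a + r ≤ card ι`
  have hdet : t ^ a * D' * N.det = t ^ Fintype.card ι * D' ^ Fintype.card ι := by
    rw [← hGdet, ← Matrix.det_mul, hGN, Matrix.det_smul, Matrix.det_one, mul_one, mul_pow]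
  have har : a + r ≤ Fintype.card ι := by
    by_contra hlt
    rw [not_le] at hlt
    obtain ⟨e, he⟩ := hdetN
    obtain ⟨d, hd⟩ : ∃ d, a + r = Fintype.card ι + (d + 1) :=
      ⟨a + r - Fintype.card ι - 1, by omega⟩
    have h11 : t ^ Fintype.card ι * (t * (t ^ d * (D' * e)))
        = t ^ Fintype.card ι * D' ^ Fintype.card ι := by
      rw [← hdet, he]
      have : t ^ a * D' * (t ^ r * e) = t ^ (a + r) * (D' * e) := by ring
      rw [this, hd]
      ring
    have h12 := mul_left_cancel₀ (pow_ne_zero _ ht0) h11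
    exact hD' (ht.dvd_of_dvd_pow (Dvd.intro _ h12))
  -- Step 9: conclusion
  intro hdvd
  rw [hD] at hdvd
  obtain ⟨d, hd⟩ : ∃ d, Fintype.card ι - r + 1 = a + (d + 1) :=
    ⟨Fintype.card ι - r - a, by omega⟩
  rw [hd, pow_add, pow_succ] at hdvd
  have h13 := (mul_dvd_mul_iff_left (pow_ne_zero a ht0)).mp hdvd
  exact hD' (dvd_trans (Dvd.intro_left _ rfl) h13)

end

universe u v

/-- **b2-α (tame discriminant)** in the frozen shape `TameDiscrStatement` of
`origin/helper33:Fermat/Agent/S18/B12/Spec.lean` (unfolded):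
`theorem foo : TameDiscrStatement := fun Λ _ _ _ _ t ht C₀ _ _ _ _ _ n β r y hy =>
   tameDiscr Λ t ht C₀ n β r y hy`. -/
theorem tameDiscr
    (Λ : Type u) [CommRing Λ] [IsDomain Λ] [IsPrincipalIdealRing Λ] [Algebra ℚ Λ]
    (t : Λ) (ht : Prime t)
    (C₀ : Type v) [CommRing C₀] [IsDomain C₀] [IsDedekindDomain C₀] [Algebra Λ C₀]
    [Module.IsTorsionFree Λ C₀]
    (n : ℕ) (β : Module.Basis (Fin n) Λ C₀) (r : ℕ) (y : Fin r → C₀)
    (hy : ∀ a : Fin r → Λ,
        (∑ i, a i • y i) ∈ (Ideal.span {algebraMap Λ C₀ t}).radical → ∀ i, t ∣ a i) :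
    ¬ t ^ (n - r + 1) ∣ Algebra.discr Λ β := by
  have hmax : (Ideal.span {t}).IsMaximal :=
    PrincipalIdealRing.isMaximal_of_irreducible ht.irreducible
  let _ : Field (Λ ⧸ Ideal.span {t}) := Ideal.Quotient.field _
  have hchar : CharZero (Λ ⧸ Ideal.span {t}) := algebraRat.charZero _
  have h := tame_discr_of_residue β (Ideal.Quotient.mk (Ideal.span {t}))
    Ideal.Quotient.mk_surjective t ht
    ((Ideal.Quotient.eq_zero_iff_dvd t t).mpr dvd_rfl)
    (fun x hx => (Ideal.Quotient.eq_zero_iff_dvd t x).mp hx) r y hy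
  rwa [Fintype.card_fin] at h

end Fermat.Agent.S18.H274

end
-- ===== PACK-END S18/H274/Tame.lean

-- ===== PACK-BEGIN S18/H394/KummerEndgame.lean
section




/-!
# S18, Route K, pieces b3+b4 (helper394): the Kummer endgame

Abstract statement (`kummer_endgame_aux`): two charts `B₀, B₁ ⊆ M ⊆ F` over a noetherian local
ring `R`, an element `u ∈ F` of exact order `m` modulo constants and `m`-th powers, and
"local existence" data `σ₀, σ₁` (`σⱼ ^ m * u ≡ 1 mod w Bⱼ`, `σ₀ ≡ σ₁`) are contradictory.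
The proof applies the two-chart connectedness theorem (b5, `H498.idem_trivial_of_cech_finite`)
to the graded Kummer algebra of `Graded.lean`.
-/

set_option autoImplicit false

namespace Fermat.Agent.S18.H394

open Polynomial

section Identities

variable {C : Type*} [CommRing C]

theorem idem_identity (t β ω ν : C) (n : ℕ) (hn : ν * (n : C) = 1) (ht : t ^ n = 1 + ω * β) :
    (ν * ∑ i ∈ Finset.range n, t ^ i) ^ 2 - ν * ∑ i ∈ Finset.range n, t ^ i =
      ω * (ν ^ 2 * β * ∑ i ∈ Finset.range n, ∑ j ∈ Finset.range i, t ^ j) := by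
  set S := ∑ i ∈ Finset.range n, t ^ i with hS
  have h1 : S * (t - 1) = ω * β := by rw [hS, geom_sum_mul, ht]; ring
  have h2 : S * S - (n : C) * S = (∑ i ∈ Finset.range n, ∑ j ∈ Finset.range i, t ^ j) * (ω * β) := by
    have : S * S - (n : C) * S = ∑ i ∈ Finset.range n, (t ^ i - 1) * S := by
      rw [← Finset.sum_mul, Finset.sum_sub_distrib, ← hS]
      simp [sub_mul]
    rw [this, Finset.sum_mul]
    refine Finset.sum_congr rfl fun i _ => ?_
    rw [← geom_sum_mul, mul_assoc, mul_comm (t - 1) S, h1]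
  have h3 : (ν * S) ^ 2 - ν * S = ν ^ 2 * (S * S - (n : C) * S) + ν * (ν * (n : C) - 1) * S := by
    ring
  rw [h3, h2, hn]
  ring

theorem diff_identity (t₀ t₁ : C) (n : ℕ) :
    ∑ i ∈ Finset.range n, t₀ ^ i - ∑ i ∈ Finset.range n, t₁ ^ i =
      (t₀ - t₁) * ∑ i ∈ Finset.range n, ∑ a ∈ Finset.range i, t₀ ^ a * t₁ ^ (i - 1 - a) := by
  rw [← Finset.sum_sub_distrib, Finset.mul_sum]
  refine Finset.sum_congr rfl fun i _ => ?_
  rw [← geom_sum₂_mul, mul_comm]

end Identities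

section Localisation

variable {R F C : Type*} [CommRing R] [Field F] [Algebra R F] [CommRing C] [Algebra F C]
  [Algebra R C] [IsScalarTower R F C]

/-- If `M = B[1/z]` then the Kummer algebra of `M` is the localisation of that of `B`. -/
theorem exists_pow_mul_mem_kummerSub (pb : PowerBasis F C) (u : F)
    (hT : pb.gen ^ pb.dim = algebraMap F C u) (hm0 : 0 < pb.dim)
    (B M : Subalgebra R F) (hB : RootClosed pb.dim B) (hM : RootClosed pb.dim M)
    (z : F) (hz : z ∈ B) (hloc : ∀ y ∈ M, ∃ n : ℕ, z ^ n * y ∈ B)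
    (c : C) (hc : c ∈ kummerSub pb u hT hm0 M hM) :
    ∃ n : ℕ, algebraMap F C z ^ n * c ∈ kummerSub pb u hT hm0 B hB := by
  classical
  have h : ∀ k : Fin pb.dim, ∃ n : ℕ, z ^ n * (co pb k c ^ pb.dim * u ^ (k : ℕ)) ∈ B :=
    fun k => hloc _ (hc k)
  choose N hN using h
  refine ⟨∑ k, N k, fun k => ?_⟩
  rw [← map_pow, co_algebraMap_mul, mem_degSet]
  have hle : N k ≤ (∑ k, N k) * pb.dim := by
    calc N k ≤ ∑ k, N k := Finset.single_le_sum (fun _ _ => Nat.zero_le _) (Finset.mem_univ k)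
      _ ≤ (∑ k, N k) * pb.dim := Nat.le_mul_of_pos_right _ hm0
  obtain ⟨d, hd⟩ := Nat.exists_eq_add_of_le hle
  have : (z ^ (∑ k, N k) * co pb k c) ^ pb.dim * u ^ (k : ℕ)
      = z ^ d * (z ^ N k * (co pb k c ^ pb.dim * u ^ (k : ℕ))) := by
    rw [mul_pow, ← pow_mul, hd, pow_add]
    ring
  rw [this]
  exact B.mul_mem (B.pow_mem hz d) (hN k)

end Localisation

section Main

variable {R F C : Type*} [CommRing R] [IsLocalRing R] [IsNoetherianRing R] [Field F] [Algebra R F]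
  [CommRing C] [Algebra F C] [Algebra R C] [IsScalarTower R F C]

omit [IsLocalRing R] [IsNoetherianRing R] in
/-- The intersection of the two Kummer charts consists of constants. -/
theorem kummerSub_inf (pb : PowerBasis F C) (u : F)
    (hT : pb.gen ^ pb.dim = algebraMap F C u) (hm0 : 0 < pb.dim)
    (B₀ B₁ : Subalgebra R F) (hrc0 : RootClosed pb.dim B₀) (hrc1 : RootClosed pb.dim B₁)
    (hint : ∀ y : F, y ∈ B₀ → y ∈ B₁ → ∃ r : R, algebraMap R F r = y)
    (hord : ∀ i : ℕ, 0 < i → i < pb.dim → ∀ f : F, f ≠ 0 → ∀ r : R,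
        f ^ pb.dim * u ^ i ≠ algebraMap R F r)
    (c : C) (h0 : c ∈ kummerSub pb u hT hm0 B₀ hrc0) (h1 : c ∈ kummerSub pb u hT hm0 B₁ hrc1) :
    ∃ r : R, algebraMap R C r = c := by
  classical
  have hk : ∀ k : Fin pb.dim, (k : ℕ) ≠ 0 → co pb k c = 0 := by
    intro k hk0
    by_contra hne
    obtain ⟨r, hr⟩ := hint _ (h0 k) (h1 k)
    exact hord k (Nat.pos_of_ne_zero hk0) k.2 _ hne r hr.symm
  have h00 : co pb ⟨0, hm0⟩ c ∈ B₀ := mem_of_mem_degSet_zero hrc0 (h0 ⟨0, hm0⟩)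
  have h01 : co pb ⟨0, hm0⟩ c ∈ B₁ := mem_of_mem_degSet_zero hrc1 (h1 ⟨0, hm0⟩)
  obtain ⟨r, hr⟩ := hint _ h00 h01
  refine ⟨r, ?_⟩
  rw [← sum_co pb c, Finset.sum_eq_single (⟨0, hm0⟩ : Fin pb.dim)]
  · rw [← hr, pow_zero, mul_one, ← IsScalarTower.algebraMap_apply]
  · intro k _ hk0
    rw [hk k (fun h => hk0 (Fin.ext h)), map_zero, zero_mul]
  · intro h
    exact absurd (Finset.mem_univ _) h

/-- **Kummer endgame (abstract form).**  See the module docstring. -/
theorem kummer_endgame_aux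
    (pb : PowerBasis F C) (u : F) (hT : pb.gen ^ pb.dim = algebraMap F C u)
    (hm0 : 0 < pb.dim) (hm1 : 1 < pb.dim)
    (ν : R) (hν : ν * (pb.dim : R) = 1)
    (w : R)
    (B₀ B₁ M : Subalgebra R F)
    (hrc0 : RootClosed pb.dim B₀) (hrc1 : RootClosed pb.dim B₁) (hrcM : RootClosed pb.dim M)
    (x : F) (hx0 : x ≠ 0) (hx : x ∈ B₀) (hx' : x⁻¹ ∈ B₁)
    (h0M : B₀ ≤ M) (h1M : B₁ ≤ M)
    (hloc0 : ∀ y ∈ M, ∃ n : ℕ, x ^ n * y ∈ B₀)
    (hloc1 : ∀ y ∈ M, ∃ n : ℕ, x⁻¹ ^ n * y ∈ B₁)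
    (hint : ∀ y : F, y ∈ B₀ → y ∈ B₁ → ∃ r : R, algebraMap R F r = y)
    (ι : Type*) [Finite ι] (g : ι → C)
    (hg : ∀ i, g i ∈ kummerSub pb u hT hm0 B₀ hrc0)
    (hgen : ∀ b ∈ kummerSub pb u hT hm0 B₀ hrc0, ∃ P : ι → Polynomial R,
        b = ∑ᶠ i, Polynomial.aeval (algebraMap F C x) (P i) * g i)
    (hw1 : ∀ b ∈ B₀, algebraMap R F w * b ≠ 1)
    (hord : ∀ i : ℕ, 0 < i → i < pb.dim → ∀ f : F, f ≠ 0 → ∀ r : R,
        f ^ pb.dim * u ^ i ≠ algebraMap R F r)
    (σ₀ σ₁ : F)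
    (h₀ : ∃ b ∈ B₀, σ₀ ^ pb.dim * u - 1 = algebraMap R F w * b)
    (h₁ : ∃ b ∈ B₁, σ₁ ^ pb.dim * u - 1 = algebraMap R F w * b)
    (h₀₁ : ∃ γ : F, σ₀ - σ₁ = algebraMap R F w * γ ∧ γ ^ pb.dim * u ∈ M) : False := by
  classical
  haveI : Fintype ι := Fintype.ofFinite ι
  obtain ⟨b₀, hb₀, hσ₀⟩ := h₀
  obtain ⟨b₁, hb₁, hσ₁⟩ := h₁
  obtain ⟨γ, hγ, hγM⟩ := h₀₁
  -- the three Kummer algebras
  set K0 := kummerSub pb u hT hm0 B₀ hrc0 with hK0
  set K1 := kummerSub pb u hT hm0 B₁ hrc1 with hK1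
  set KM := kummerSub pb u hT hm0 M hrcM with hKM
  have hK0M : K0 ≤ KM := kummerSub_mono hT hm0 hrc0 hrcM h0M
  have hK1M : K1 ≤ KM := kummerSub_mono hT hm0 hrc1 hrcM h1M
  -- basic elements
  have hwC : algebraMap R C w = algebraMap F C (algebraMap R F w) :=
    IsScalarTower.algebraMap_apply R F C w
  have hνC : algebraMap R C ν * ((pb.dim : ℕ) : C) = 1 := by
    rw [← map_natCast (algebraMap R C), ← map_mul, hν, map_one]
  set t₀ : C := algebraMap F C σ₀ * pb.gen with ht₀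
  set t₁ : C := algebraMap F C σ₁ * pb.gen with ht₁
  have hσ₀B : σ₀ ∈ degSet B₀ pb.dim u 1 := by
    rw [mem_degSet, pow_one]
    have : σ₀ ^ pb.dim * u = 1 + algebraMap R F w * b₀ := by rw [← hσ₀]; ring
    rw [this]
    exact B₀.add_mem B₀.one_mem (B₀.mul_mem (B₀.algebraMap_mem w) hb₀)
  have hσ₁B : σ₁ ∈ degSet B₁ pb.dim u 1 := by
    rw [mem_degSet, pow_one]
    have : σ₁ ^ pb.dim * u = 1 + algebraMap R F w * b₁ := by rw [← hσ₁]; ring
    rw [this]
    exact B₁.add_mem B₁.one_mem (B₁.mul_mem (B₁.algebraMap_mem w) hb₁)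
  have ht₀K : t₀ ∈ K0 := by
    have := monomial_mem_kummerSub hT hm0 hrc0 hσ₀B
    rwa [pow_one] at this
  have ht₁K : t₁ ∈ K1 := by
    have := monomial_mem_kummerSub hT hm0 hrc1 hσ₁B
    rwa [pow_one] at this
  have ht₀m : t₀ ^ pb.dim = 1 + algebraMap R C w * algebraMap F C b₀ := by
    rw [ht₀, mul_pow, hT, ← map_pow, ← map_mul, hwC, ← map_mul, ← map_one (algebraMap F C),
      ← map_add]
    congr 1
    rw [← hσ₀]; ring
  have ht₁m : t₁ ^ pb.dim = 1 + algebraMap R C w * algebraMap F C b₁ := by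
    rw [ht₁, mul_pow, hT, ← map_pow, ← map_mul, hwC, ← map_mul, ← map_one (algebraMap F C),
      ← map_add]
    congr 1
    rw [← hσ₁]; ring
  set E₀ : C := algebraMap R C ν * ∑ i ∈ Finset.range pb.dim, t₀ ^ i with hE₀
  set E₁ : C := algebraMap R C ν * ∑ i ∈ Finset.range pb.dim, t₁ ^ i with hE₁
  have hE₀K : E₀ ∈ K0 :=
    K0.mul_mem (K0.algebraMap_mem ν) (K0.sum_mem fun i _ => K0.pow_mem ht₀K i)
  have hE₁K : E₁ ∈ K1 :=
    K1.mul_mem (K1.algebraMap_mem ν) (K1.sum_mem fun i _ => K1.pow_mem ht₁K i)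
  -- idempotent mod `w`
  have hid₀ : ∃ a ∈ K0, E₀ ^ 2 - E₀ = algebraMap R C w * a := by
    refine ⟨_, ?_, idem_identity t₀ (algebraMap F C b₀) (algebraMap R C w) (algebraMap R C ν)
      pb.dim hνC ht₀m⟩
    refine K0.mul_mem (K0.mul_mem (K0.pow_mem (K0.algebraMap_mem ν) 2)
      (algebraMap_mem_kummerSub hT hm0 hrc0 hb₀)) ?_
    exact K0.sum_mem fun i _ => K0.sum_mem fun j _ => K0.pow_mem ht₀K j
  have hid₁ : ∃ a ∈ K1, E₁ ^ 2 - E₁ = algebraMap R C w * a := by
    refine ⟨_, ?_, idem_identity t₁ (algebraMap F C b₁) (algebraMap R C w) (algebraMap R C ν)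
      pb.dim hνC ht₁m⟩
    refine K1.mul_mem (K1.mul_mem (K1.pow_mem (K1.algebraMap_mem ν) 2)
      (algebraMap_mem_kummerSub hT hm0 hrc1 hb₁)) ?_
    exact K1.sum_mem fun i _ => K1.sum_mem fun j _ => K1.pow_mem ht₁K j
  -- compatibility on the overlap
  have hγK : algebraMap F C γ * pb.gen ∈ KM := by
    have hγd : γ ∈ degSet M pb.dim u 1 := by rw [mem_degSet, pow_one]; exact hγM
    have := monomial_mem_kummerSub hT hm0 hrcM hγd
    rwa [pow_one] at this
  have hdiff : ∃ y ∈ KM, E₀ - E₁ = algebraMap R C w * y := by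
    refine ⟨algebraMap R C ν * ((algebraMap F C γ * pb.gen) *
      ∑ i ∈ Finset.range pb.dim, ∑ a ∈ Finset.range i, t₀ ^ a * t₁ ^ (i - 1 - a)), ?_, ?_⟩
    · refine KM.mul_mem (KM.algebraMap_mem ν) (KM.mul_mem hγK ?_)
      exact KM.sum_mem fun i _ => KM.sum_mem fun a _ =>
        KM.mul_mem (KM.pow_mem (hK0M ht₀K) a) (KM.pow_mem (hK1M ht₁K) _)
    · have htt : t₀ - t₁ = algebraMap R C w * (algebraMap F C γ * pb.gen) := by
        rw [ht₀, ht₁, ← sub_mul, ← map_sub, hγ, map_mul, hwC, mul_assoc]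
      rw [hE₀, hE₁, ← mul_sub, diff_identity, htt]
      ring
  -- the ambient ring and the charts
  let C0 : Subalgebra R KM := K0.comap KM.val
  let C1 : Subalgebra R KM := K1.comap KM.val
  have hxK0 : algebraMap F C x ∈ K0 := algebraMap_mem_kummerSub hT hm0 hrc0 hx
  have hxK1 : algebraMap F C x⁻¹ ∈ K1 := algebraMap_mem_kummerSub hT hm0 hrc1 hx'
  let xK : KM := ⟨algebraMap F C x, hK0M hxK0⟩
  let xK' : KM := ⟨algebraMap F C x⁻¹, hK1M hxK1⟩
  have hxx' : xK * xK' = 1 := by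
    apply Subtype.ext
    show algebraMap F C x * algebraMap F C x⁻¹ = 1
    rw [← map_mul, mul_inv_cancel₀ hx0, map_one]
  have hlocK : ∀ y : KM, ∃ n : ℕ, xK ^ n * y ∈ C0 := by
    intro y
    obtain ⟨n, hn⟩ := exists_pow_mul_mem_kummerSub pb u hT hm0 B₀ M hrc0 hrcM x hx hloc0 y y.2
    exact ⟨n, hn⟩
  have hlocK' : ∀ y : KM, ∃ n : ℕ, xK' ^ n * y ∈ C1 := by
    intro y
    obtain ⟨n, hn⟩ := exists_pow_mul_mem_kummerSub pb u hT hm0 B₁ M hrc1 hrcM x⁻¹ hx' hloc1 y y.2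
    exact ⟨n, hn⟩
  let gK : ι → KM := fun i => ⟨g i, hK0M (hg i)⟩
  have hgenK : ∀ b ∈ C0, ∃ P : ι → Polynomial R, b = ∑ᶠ i, Polynomial.aeval xK (P i) * gK i := by
    intro b hb
    obtain ⟨P, hP⟩ := hgen (b : C) hb
    refine ⟨P, Subtype.ext ?_⟩
    rw [hP, finsum_eq_sum_of_fintype, finsum_eq_sum_of_fintype]
    rw [show ((∑ i, Polynomial.aeval xK (P i) * gK i : KM) : C)
        = KM.val (∑ i, Polynomial.aeval xK (P i) * gK i) from rfl, map_sum]
    refine Finset.sum_congr rfl fun i _ => ?_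
    rw [map_mul, ← Polynomial.aeval_algHom_apply]
    rfl
  haveI : Module.Finite R (↥KM ⧸ (Subalgebra.toSubmodule C0 ⊔ Subalgebra.toSubmodule C1)) :=
    H498.finite_cech_quotient C0 C1 xK xK' hxK0 hxK1 hxx' ι gK hg hgenK hlocK
      (fun i => hlocK' (gK i))
  have hintK : ∀ y : KM, y ∈ C0 → y ∈ C1 → ∃ r : R, algebraMap R KM r = y := by
    intro y hy0 hy1
    obtain ⟨r, hr⟩ := kummerSub_inf pb u hT hm0 B₀ B₁ hrc0 hrc1 hint hord (y : C) hy0 hy1
    exact ⟨r, Subtype.ext hr⟩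
  let e₀ : KM := ⟨E₀, hK0M hE₀K⟩
  let e₁ : KM := ⟨E₁, hK1M hE₁K⟩
  have h1K : ∃ a ∈ C0, e₀ ^ 2 - e₀ = algebraMap R KM w * a := by
    obtain ⟨a, ha, h⟩ := hid₀
    exact ⟨⟨a, hK0M ha⟩, ha, Subtype.ext h⟩
  have h2K : ∃ a ∈ C1, e₁ ^ 2 - e₁ = algebraMap R KM w * a := by
    obtain ⟨a, ha, h⟩ := hid₁
    exact ⟨⟨a, hK1M ha⟩, ha, Subtype.ext h⟩
  have h12K : ∃ y : KM, e₀ - e₁ = algebraMap R KM w * y := by
    obtain ⟨y, hy, h⟩ := hdiff
    exact ⟨⟨y, hy⟩, Subtype.ext h⟩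
  have hconcl := H498.idem_trivial_of_cech_finite w C0 C1 hintK e₀ e₁ hE₀K hE₁K h1K h2K h12K
  -- the coefficient of `T` in `E₀`
  let k1 : Fin pb.dim := ⟨1, hm1⟩
  have hco1 : co pb k1 (1 : C) = 0 := by
    have h1 : (1 : C) = algebraMap F C 1 * pb.gen ^ (0 * pb.dim + ((⟨0, hm0⟩ : Fin pb.dim) : ℕ)) := by
      simp
    rw [h1, co_monomial pb hT, if_neg]
    intro h
    have := congrArg Fin.val h
    simp [k1] at this
  have hcoE : co pb k1 E₀ = algebraMap R F ν * σ₀ := by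
    have hE : E₀ = ∑ i : Fin pb.dim,
        algebraMap F C (algebraMap R F ν * σ₀ ^ (i : ℕ)) * pb.gen ^ (0 * pb.dim + (i : ℕ)) := by
      rw [hE₀, ← Fin.sum_univ_eq_sum_range (fun i => t₀ ^ i) pb.dim, Finset.mul_sum]
      refine Finset.sum_congr rfl fun i _ => ?_
      rw [ht₀, mul_pow, zero_mul, zero_add, map_mul, map_pow,
        ← IsScalarTower.algebraMap_apply R F C, mul_assoc]
    rw [hE, map_sum]
    rw [Finset.sum_congr rfl (fun i _ => co_monomial pb hT _ 0 i k1)]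
    rw [Finset.sum_ite_eq' Finset.univ k1]
    simp [k1]
  have hfinal : ∀ a₁ : F, a₁ ∈ degSet B₀ pb.dim u 1 → ∀ ε : F, (ε = 1 ∨ ε = -1) →
      algebraMap R F ν * σ₀ = ε * (algebraMap R F w * a₁) → False := by
    intro a₁ ha₁ ε hε h
    rw [mem_degSet, pow_one] at ha₁
    have hνF : algebraMap R F ν * ((pb.dim : ℕ) : F) = 1 := by
      rw [← map_natCast (algebraMap R F), ← map_mul, hν, map_one]
    have hσ : σ₀ = ((pb.dim : ℕ) : F) * ε * algebraMap R F w * a₁ := by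
      calc σ₀ = (algebraMap R F ν * ((pb.dim : ℕ) : F)) * σ₀ := by rw [hνF, one_mul]
        _ = ((pb.dim : ℕ) : F) * (algebraMap R F ν * σ₀) := by ring
        _ = ((pb.dim : ℕ) : F) * ε * algebraMap R F w * a₁ := by rw [h]; ring
    obtain ⟨d, hd⟩ : ∃ d, pb.dim = d + 1 := Nat.exists_eq_succ_of_ne_zero hm0.ne'
    have hεB : ε ∈ B₀ := by
      rcases hε with rfl | rfl
      · exact B₀.one_mem
      · exact B₀.neg_mem B₀.one_mem
    have hkey : (1 : F) = algebraMap R F w *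
        ((((pb.dim : ℕ) : F) * ε) ^ pb.dim * algebraMap R F w ^ d * (a₁ ^ pb.dim * u) - b₀) := by
      have h1 : σ₀ ^ pb.dim * u = algebraMap R F w *
          ((((pb.dim : ℕ) : F) * ε) ^ pb.dim * algebraMap R F w ^ d * (a₁ ^ pb.dim * u)) := by
        conv_lhs => rw [hσ]
        rw [mul_pow, mul_pow]
        conv_lhs => rw [show algebraMap R F w ^ pb.dim = algebraMap R F w ^ d * algebraMap R F w
          from by rw [hd, pow_succ]]
        ring
      rw [mul_sub, ← h1, ← hσ₀]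
      ring
    refine hw1 _ ?_ hkey.symm
    refine B₀.sub_mem (B₀.mul_mem (B₀.mul_mem (B₀.pow_mem (B₀.mul_mem (natCast_mem B₀ _) hεB) _)
      (B₀.pow_mem (B₀.algebraMap_mem w) d)) ha₁) hb₀
  rcases hconcl with ⟨a, ha, hEa⟩ | ⟨a, ha, hEa⟩
  · have hEa' : E₀ = algebraMap R C w * (a : C) := congrArg Subtype.val hEa
    have h := congrArg (co pb k1) hEa'
    rw [hcoE, hwC, co_algebraMap_mul] at h
    exact hfinal (co pb k1 (a : C)) (ha k1) 1 (Or.inl rfl) (by rw [h, one_mul])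
  · have hEa' : 1 - E₀ = algebraMap R C w * (a : C) := congrArg Subtype.val hEa
    have h := congrArg (co pb k1) hEa'
    rw [map_sub, hco1, hcoE, hwC, co_algebraMap_mul, zero_sub] at h
    refine hfinal (co pb k1 (a : C)) (ha k1) (-1) (Or.inr rfl) ?_
    rw [neg_one_mul, ← h, neg_neg]

end Main

end Fermat.Agent.S18.H394

end
-- ===== PACK-END S18/H394/KummerEndgame.lean

-- ===== PACK-BEGIN S21/H544/IntCBasic.lean
section



/-!
# S21 INT-C (helper544): basic facts on `mob`, proper discontinuity from a partition of unity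
-/

set_option autoImplicit false

open UpperHalfPlane CongruenceSubgroup Filter Topology MeasureTheory
open scoped MatrixGroups ComplexConjugate ContDiff

namespace Fermat.Agent.S21.H544

open Fermat.Agent.S21

theorem mob_mem_Uhp (g : SL(2, ℤ)) (z : ℂ) : mob g z ∈ Uhp :=
  (g • ofComplex z : ℍ).im_pos

theorem ofComplex_mob (g : SL(2, ℤ)) (z : ℂ) : ofComplex (mob g z) = g • ofComplex z := by
  unfold mob
  exact ofComplex_apply _

theorem mob_mul (g h : SL(2, ℤ)) (z : ℂ) : mob (g * h) z = mob g (mob h z) := by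
  unfold mob
  rw [ofComplex_apply, mul_smul]

theorem mob_one {z : ℂ} (hz : z ∈ Uhp) : mob 1 z = z := by
  unfold mob
  rw [one_smul, ofComplex_apply_of_im_pos hz]

theorem mob_inv_mob (g : SL(2, ℤ)) {z : ℂ} (hz : z ∈ Uhp) : mob g⁻¹ (mob g z) = z := by
  rw [← _root_.Fermat.Agent.S21.H544.mob_mul, inv_mul_cancel, _root_.Fermat.Agent.S21.H544.mob_one hz]

theorem mob_mob_inv (g : SL(2, ℤ)) {z : ℂ} (hz : z ∈ Uhp) : mob g (mob g⁻¹ z) = z := by
  rw [← _root_.Fermat.Agent.S21.H544.mob_mul, mul_inv_cancel, _root_.Fermat.Agent.S21.H544.mob_one hz]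

theorem mob_image_Uhp (g : SL(2, ℤ)) : mob g '' Uhp = Uhp := by
  ext w
  constructor
  · rintro ⟨z, _, rfl⟩
    exact _root_.Fermat.Agent.S21.H544.mob_mem_Uhp g z
  · intro hw
    exact ⟨mob g⁻¹ w, _root_.Fermat.Agent.S21.H544.mob_mem_Uhp _ _, mob_mob_inv g hw⟩

theorem continuousOn_mob (g : SL(2, ℤ)) : ContinuousOn (mob g) Uhp := fun _ hz =>
  ((SmallAux.hasStrictDerivAt_mob g hz).hasDerivAt.continuousAt).continuousWithinAt

theorem differentiableAt_mob (g : SL(2, ℤ)) {z : ℂ} (hz : z ∈ Uhp) :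
    DifferentiableAt ℝ (mob g) z :=
  ((SmallAux.hasStrictDerivAt_mob g hz).hasDerivAt.differentiableAt).restrictScalars ℝ

/-- Proper discontinuity of the `SL(2,ℤ)`-action, derived from a partition of unity. -/
theorem finite_mob_mem {χ₁ : ℂ → ℝ} (hχ : IsSL2ZPartition χ₁) (K₁ K₂ : Set ℂ)
    (hK₁ : IsCompact K₁) (h₁ : K₁ ⊆ Uhp) (hK₂ : IsCompact K₂) (h₂ : K₂ ⊆ Uhp) :
    {g : SL(2, ℤ) | ∃ z ∈ K₁, mob g z ∈ K₂}.Finite := by
  have hG₁ := hχ.locfin K₁ hK₁ h₁
  have hG₂ := hχ.locfin K₂ hK₂ h₂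
  refine ((hG₂.prod hG₁).image (fun p : SL(2, ℤ) × SL(2, ℤ) => p.1⁻¹ * p.2)).subset ?_
  rintro γ ⟨z, hz, hw⟩
  have hsum := hχ.sum_eq_one (mob γ z) (h₂ hw)
  obtain ⟨g, hg⟩ : ∃ g : SL(2, ℤ), χ₁ (mob g (mob γ z)) ≠ 0 := by
    by_contra hcon
    simp only [not_exists, not_not] at hcon
    rw [finsum_congr hcon] at hsum
    simp at hsum
  refine ⟨(g, g * γ), ⟨⟨mob γ z, hw, hg⟩, ⟨z, hz, ?_⟩⟩, by simp⟩
  rw [_root_.Fermat.Agent.S21.H544.mob_mul]
  exact hg

end Fermat.Agent.S21.H544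

end
-- ===== PACK-END S21/H544/IntCBasic.lean

-- ===== PACK-BEGIN S21/IntDCore.lean
section




/-!
# S21 / INT-D — folding inequality, multiplicity bounds, finite energy of `u₀`

This file contains the parts of INT-D which do not depend on INT-A, together with versions of
`folding` and `integrable_energy_u0` which take the needed INT-A facts as hypotheses.
-/

set_option autoImplicit false
set_option linter.unusedVariables false

open UpperHalfPlane CongruenceSubgroup MeasureTheory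
open scoped MatrixGroups ContDiff Topology ENNReal

namespace Fermat.Agent.S21

open PartitionAux

/-! ### Multiplicity bounds -/

/-- multiplicity of a compact set -/
theorem mult_compact (K : Set ℂ) (hK : IsCompact K) (hKU : K ⊆ Uhp) :
    ∃ M : ℕ, ∀ w ∈ Uhp, {g : SL(2, ℤ) | mob g w ∈ K}.encard ≤ M := by
  have hfin := finite_mob_inter K hK hKU
  refine ⟨hfin.toFinset.card, fun w _ => ?_⟩
  rcases Set.eq_empty_or_nonempty {g : SL(2, ℤ) | mob g w ∈ K} with hemp | ⟨g₀, hg₀⟩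
  · rw [hemp]; simp
  · have hsub : {g : SL(2, ℤ) | mob g w ∈ K} ⊆
        (fun h => h * g₀) '' {h : SL(2, ℤ) | ∃ z ∈ K, mob h z ∈ K} := by
      intro g hg
      refine ⟨g * g₀⁻¹, ⟨mob g₀ w, hg₀, ?_⟩, by simp⟩
      rw [mob_mob]
      simpa using hg
    calc {g : SL(2, ℤ) | mob g w ∈ K}.encard
        ≤ ((fun h => h * g₀) '' {h : SL(2, ℤ) | ∃ z ∈ K, mob h z ∈ K}).encard :=
          Set.encard_le_encard hsub
      _ ≤ {h : SL(2, ℤ) | ∃ z ∈ K, mob h z ∈ K}.encard := Set.encard_image_le _ _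
      _ = hfin.toFinset.card := hfin.encard_eq_coe_toFinset_card

/-- auxiliary: the shape of an element of `SL(2,ℤ)` mapping a point of a cusp strip to a point
of a cusp strip -/
theorem IntDAux.strip_elt (h : SL(2, ℤ)) (Y : ℝ) {z₀ z : ℂ} (hz₀ : z₀ ∈ strip Y)
    (hz : z ∈ strip Y) (hh : mob h z₀ = z) :
    h 1 0 = 0 ∧ (h 0 0 = 1 ∨ h 0 0 = -1) ∧ h 1 1 = h 0 0 ∧ |h 0 1| ≤ 2 := by
  obtain ⟨hre₀, him₀, -⟩ := hz₀
  obtain ⟨hre, him, -⟩ := hz
  have hz₀U : z₀ ∈ Uhp := lt_of_lt_of_le (by norm_num) him₀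
  have hc : h 1 0 = 0 := by
    apply c_eq_zero_of_two_le_im h z₀ him₀
    rw [hh]
    linarith
  have had : h 0 0 * h 1 1 = 1 := by
    have hdet := h.det_coe
    rw [Matrix.det_fin_two, hc] at hdet
    linarith
  have hcd : cd h z₀ = ((h 1 1 : ℤ) : ℂ) := by simp [cd, hc]
  have hmob := _root_.Fermat.Agent.S21.PartitionAux.mob_eq_div h hz₀U
  rw [hh, hcd] at hmob
  rcases Int.eq_one_or_neg_one_of_mul_eq_one' had with (⟨ha, hd⟩ | ⟨ha, hd⟩)
  · refine ⟨hc, Or.inl ha, by rw [ha, hd], ?_⟩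
    rw [ha, hd] at hmob
    have hre' : z.re = z₀.re + (h 0 1 : ℤ) := by
      rw [hmob]; simp
    have habs : |((h 0 1 : ℤ) : ℝ)| ≤ 2 := by
      rw [abs_le] at hre hre₀ ⊢
      constructor <;> linarith [hre.1, hre.2, hre₀.1, hre₀.2]
    exact_mod_cast habs
  · refine ⟨hc, Or.inr ha, by rw [ha, hd], ?_⟩
    rw [ha, hd] at hmob
    have hre' : z.re = z₀.re - (h 0 1 : ℤ) := by
      rw [hmob]; simp [div_neg]; ring
    have habs : |((h 0 1 : ℤ) : ℝ)| ≤ 2 := by
      rw [abs_le] at hre hre₀ ⊢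
      constructor <;> linarith [hre.1, hre.2, hre₀.1, hre₀.2]
    exact_mod_cast habs

/-- multiplicity of a cusp strip -/
theorem mult_strip (δ : SL(2, ℤ)) (Y : ℝ) (w : ℂ) (hw : w ∈ Uhp) :
    {g : SL(2, ℤ) | mob g w ∈ mob δ '' strip Y}.encard ≤ 10 := by
  rcases Set.eq_empty_or_nonempty {g : SL(2, ℤ) | mob g w ∈ mob δ '' strip Y} with
    hemp | ⟨g₀, z₀, hz₀, hg₀⟩
  · rw [hemp]; simp
  have hkey : ∀ g ∈ {g : SL(2, ℤ) | mob g w ∈ mob δ '' strip Y},
      (δ⁻¹ * g * g₀⁻¹ * δ) 1 0 = 0 ∧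
      ((δ⁻¹ * g * g₀⁻¹ * δ) 0 0 = 1 ∨ (δ⁻¹ * g * g₀⁻¹ * δ) 0 0 = -1) ∧
      (δ⁻¹ * g * g₀⁻¹ * δ) 1 1 = (δ⁻¹ * g * g₀⁻¹ * δ) 0 0 ∧
      |(δ⁻¹ * g * g₀⁻¹ * δ) 0 1| ≤ 2 := by
    rintro g ⟨z, hz, hgz⟩
    have hzU : z ∈ Uhp := lt_of_lt_of_le (by norm_num) hz.2.1
    refine IntDAux.strip_elt _ Y hz₀ hz ?_
    calc mob (δ⁻¹ * g * g₀⁻¹ * δ) z₀ = mob (δ⁻¹ * g * g₀⁻¹) (mob δ z₀) := by rw [mob_mob]
      _ = mob (δ⁻¹ * g * g₀⁻¹) (mob g₀ w) := by rw [hg₀]
      _ = mob (δ⁻¹ * g) w := by rw [mob_mob]; congr 1; group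
      _ = mob δ⁻¹ (mob g w) := by rw [mob_mob]
      _ = mob δ⁻¹ (mob δ z) := by rw [hgz]
      _ = z := by rw [mob_mob, inv_mul_cancel, _root_.Fermat.Agent.S21.PartitionAux.mob_one hzU]
  let f : SL(2, ℤ) → ℤ × ℤ := fun g => ((δ⁻¹ * g * g₀⁻¹ * δ) 0 0, (δ⁻¹ * g * g₀⁻¹ * δ) 0 1)
  let t : Finset (ℤ × ℤ) := ({1, -1} : Finset ℤ) ×ˢ Finset.Icc (-2) 2
  have hmaps : Set.MapsTo f {g : SL(2, ℤ) | mob g w ∈ mob δ '' strip Y} (t : Set (ℤ × ℤ)) := by
    intro g hg
    obtain ⟨-, ha, -, hb⟩ := hkey g hg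
    simp only [Finset.coe_product, Set.mem_prod, Finset.mem_coe, Finset.mem_insert,
      Finset.mem_singleton, Finset.mem_Icc, f, t]
    exact ⟨ha, abs_le.mp hb⟩
  have hinj : Set.InjOn f {g : SL(2, ℤ) | mob g w ∈ mob δ '' strip Y} := by
    intro g hg g' hg' hfg
    obtain ⟨hc, -, hd, -⟩ := hkey g hg
    obtain ⟨hc', -, hd', -⟩ := hkey g' hg'
    have h00 : (δ⁻¹ * g * g₀⁻¹ * δ) 0 0 = (δ⁻¹ * g' * g₀⁻¹ * δ) 0 0 := congrArg Prod.fst hfg
    have h01 : (δ⁻¹ * g * g₀⁻¹ * δ) 0 1 = (δ⁻¹ * g' * g₀⁻¹ * δ) 0 1 := congrArg Prod.snd hfg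
    have heq : δ⁻¹ * g * g₀⁻¹ * δ = δ⁻¹ * g' * g₀⁻¹ * δ := by
      ext i j
      fin_cases i <;> fin_cases j
      · exact h00
      · exact h01
      · exact hc.trans hc'.symm
      · exact (hd.trans h00).trans hd'.symm
    have h1 := mul_right_cancel heq
    have h2 := mul_right_cancel h1
    exact mul_left_cancel h2
  calc {g : SL(2, ℤ) | mob g w ∈ mob δ '' strip Y}.encard
      ≤ (t : Set (ℤ × ℤ)).encard := Set.encard_le_encard_of_injOn hmaps hinj
    _ = t.card := Set.encard_coe_eq_coe_finsetCard t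
    _ = 10 := by
        have : t.card = 10 := by decide
        rw [this]; rfl

/-! ### Finite energy of `u₀` -/

/-- `chi` vanishes off the upper half plane. -/
theorem IntDAux.chi_eq_zero_of_notMem (N : ℕ) (χ₁ : ℂ → ℝ) {z : ℂ} (hz : z ∉ Uhp) :
    chi N χ₁ z = 0 := by
  unfold chi
  exact Set.indicator_of_notMem hz _

/-- where `chi` does not vanish, some translate lies in the support of `χ₁`. -/
theorem IntDAux.exists_of_chi_ne_zero (N : ℕ) {χ₁ : ℂ → ℝ} {z : ℂ} (h : chi N χ₁ z ≠ 0) :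
    z ∈ Uhp ∧ ∃ q : SL(2, ℤ) ⧸ Gamma0 N, χ₁ (mob (Quotient.out q) z) ≠ 0 := by
  have hz : z ∈ Uhp := by
    by_contra hz
    exact h (IntDAux.chi_eq_zero_of_notMem N χ₁ hz)
  refine ⟨hz, ?_⟩
  by_contra hcon
  have hcon' : ∀ q : SL(2, ℤ) ⧸ Gamma0 N, χ₁ (mob (Quotient.out q) z) = 0 := fun q =>
    by_contra fun hq => hcon ⟨q, hq⟩
  apply h
  unfold chi
  rw [Set.indicator_of_mem hz]
  exact finsum_eq_zero_of_forall_eq_zero hcon'

/-- the compact rectangle `{|Re z| ≤ 1, 1/2 ≤ Im z ≤ 2}` -/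
def IntDAux.rect : Set ℂ := Set.Icc (-1 : ℝ) 1 ×ℂ Set.Icc (1 / 2 : ℝ) 2

theorem IntDAux.isCompact_rect : IsCompact IntDAux.rect :=
  Metric.isCompact_of_isClosed_isBounded (isClosed_Icc.reProdIm isClosed_Icc)
    ((Metric.isBounded_Icc (-1 : ℝ) 1).reProdIm (Metric.isBounded_Icc (1 / 2 : ℝ) 2))

theorem IntDAux.rect_subset : IntDAux.rect ⊆ Uhp := by
  intro z hz
  have h := hz.2.1
  exact lt_of_lt_of_le (by norm_num) h

theorem IntDAux.continuousOn_dz {u : ℂ → ℝ} (hu : ContDiffOn ℝ 1 u Uhp) :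
    ContinuousOn (dz u) Uhp := by
  have h1 := hu.continuousOn_fderiv_of_isOpen isOpen_Uhp le_rfl
  have hv : ∀ v : ℂ, ContinuousOn (fun z => ((fderiv ℝ u z v : ℝ) : ℂ)) Uhp := fun v =>
    Complex.continuous_ofReal.comp_continuousOn (h1.clm_apply continuousOn_const)
  unfold dz
  exact (hv 1).sub (continuousOn_const.mul (hv Complex.I))

/-- finite energy of `u₀`, with the continuity of `chi` (INT-A) as a hypothesis -/
theorem IntDAux.integrable_energy_u0_of (N : ℕ) [NeZero N] {χ₁ : ℂ → ℝ}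
    (hχ : IsSL2ZPartition χ₁) (hcont : ContinuousOn (chi N χ₁) Uhp) (u₀ : ℂ → ℝ)
    (hu : ContDiffOn ℝ ∞ u₀ Uhp)
    (hcusp : ∀ (δ : SL(2, ℤ)) (z : ℂ), 2 < z.im → dz u₀ (mob δ z) = 0) :
    Integrable (fun z => ‖dz u₀ z‖ ^ 2 * chi N χ₁ z) := by
  set C : Set ℂ := ⋃ q : SL(2, ℤ) ⧸ Gamma0 N, mob (Quotient.out q)⁻¹ '' IntDAux.rect with hC
  have hCc : IsCompact C := by
    have : Finite (SL(2, ℤ) ⧸ Gamma0 N) := Subgroup.finite_quotient_of_finiteIndex
    refine isCompact_iUnion fun q => ?_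
    exact IntDAux.isCompact_rect.image_of_continuousOn
      ((mob_contDiffOn _).continuousOn.mono IntDAux.rect_subset)
  have hCU : C ⊆ Uhp := by
    intro z hz
    obtain ⟨q, w, -, rfl⟩ := Set.mem_iUnion.mp hz
    exact _root_.Fermat.Agent.S21.PartitionAux.mob_mem_Uhp _ _
  have hsupp : Function.support (fun z => ‖dz u₀ z‖ ^ 2 * chi N χ₁ z) ⊆ C := by
    intro z hz
    rw [Function.mem_support] at hz
    have h1 : chi N χ₁ z ≠ 0 := right_ne_zero_of_mul hz
    have h2 : dz u₀ z ≠ 0 := by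
      intro h0
      apply hz
      rw [h0]; simp
    obtain ⟨hzU, q, hq⟩ := IntDAux.exists_of_chi_ne_zero N h1
    obtain ⟨hre, him⟩ := hχ.supp _ hq
    have hback : mob (Quotient.out q)⁻¹ (mob (Quotient.out q) z) = z := by
      rw [mob_mob, inv_mul_cancel, _root_.Fermat.Agent.S21.PartitionAux.mob_one hzU]
    have him2 : (mob (Quotient.out q) z).im ≤ 2 := by
      by_contra hlt
      rw [not_le] at hlt
      apply h2
      rw [← hback]
      exact hcusp _ _ hlt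
    refine Set.mem_iUnion.mpr ⟨q, mob (Quotient.out q) z, ?_, hback⟩
    exact ⟨abs_le.mp hre, him.le, him2⟩
  have hcontf : ContinuousOn (fun z => ‖dz u₀ z‖ ^ 2 * chi N χ₁ z) Uhp :=
    (((IntDAux.continuousOn_dz (hu.of_le (by simp))).norm).pow 2).mul hcont
  rw [← integrableOn_iff_integrable_of_support_subset hsupp]
  exact (hcontf.mono hCU).integrableOn_compact hCc

/-! ### The folding inequality -/

namespace IntDAux

theorem countable_matrix : Countable (Matrix (Fin 2) (Fin 2) ℤ) := by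
  unfold Matrix; infer_instance

theorem countable_SL2Z : Countable SL(2, ℤ) := by
  have := countable_matrix
  unfold Matrix.SpecialLinearGroup; infer_instance

theorem countable_Gamma0 (N : ℕ) : Countable (Gamma0 N) := by
  have := countable_SL2Z
  infer_instance

theorem injOn_mob (δ : SL(2, ℤ)) {K : Set ℂ} (hKU : K ⊆ Uhp) : Set.InjOn (mob δ) K := by
  intro z hz w hw hzw
  have h := congrArg (mob δ⁻¹) hzw
  rwa [mob_mob, mob_mob, inv_mul_cancel, _root_.Fermat.Agent.S21.PartitionAux.mob_one (hKU hz), _root_.Fermat.Agent.S21.PartitionAux.mob_one (hKU hw)] at h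

theorem abs_det_smulFDeriv (δ : SL(2, ℤ)) {z : ℂ} (hz : z ∈ Uhp) :
    |(smulFDeriv (δ : GL (Fin 2) ℝ) z).det| = 1 / ‖cd δ z‖ ^ 4 := by
  have hpos : (0 : ℝ) < ‖denom (δ : GL (Fin 2) ℝ) z‖ ^ 4 :=
    pow_pos (norm_pos_iff.mpr (denom_ne_zero (δ : GL (Fin 2) ℝ) ⟨z, hz⟩)) 4
  simp only [det_smulFDeriv, SmallAux.cd_eq_denom]
  simp [abs_of_pos hpos]

/-- change of variables for the lower Lebesgue integral under a Möbius transformation -/
theorem lintegral_mob (δ : SL(2, ℤ)) (K : Set ℂ) (hK : MeasurableSet K) (hKU : K ⊆ Uhp)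
    (h : ℂ → ℝ≥0∞) :
    ∫⁻ w in mob δ '' K, h w = ∫⁻ z in K, ENNReal.ofReal (1 / ‖cd δ z‖ ^ 4) * h (mob δ z) := by
  have hd : ∀ z ∈ K, HasFDerivWithinAt (mob δ) (smulFDeriv (δ : GL (Fin 2) ℝ) z) K z :=
    fun z hz =>
      (hasStrictFDerivAt_smul (δ : GL (Fin 2) ℝ) ⟨z, hKU hz⟩).hasFDerivAt.hasFDerivWithinAt
  rw [lintegral_image_eq_lintegral_abs_det_fderiv_mul volume hK hd (injOn_mob δ hKU)]
  refine setLIntegral_congr_fun hK fun z hz => ?_
  show ENNReal.ofReal |(smulFDeriv (δ : GL (Fin 2) ℝ) z).det| * h (mob δ z) = _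
  rw [abs_det_smulFDeriv δ (hKU hz)]

theorem measurableSet_mob_image (δ : SL(2, ℤ)) (K : Set ℂ) (hK : MeasurableSet K)
    (hKU : K ⊆ Uhp) : MeasurableSet (mob δ '' K) :=
  hK.image_of_continuousOn_injOn ((mob_contDiffOn δ).continuousOn.mono hKU) (injOn_mob δ hKU)

theorem aemeasurable_mob (δ : SL(2, ℤ)) (K : Set ℂ) (hKU : K ⊆ Uhp) :
    AEMeasurable (mob δ) (volume.restrict K) :=
  ((mob_contDiffOn δ).continuousOn.aemeasurable isOpen_Uhp.measurableSet).mono_measure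
    (Measure.restrict_mono hKU le_rfl)

end IntDAux

/-- The folding inequality, with the needed INT-A facts as hypotheses. -/
theorem IntDAux.folding_of (N : ℕ) [NeZero N] {χ₁ : ℂ → ℝ}
    (hnn : ∀ z, 0 ≤ chi N χ₁ z) (hmeas : Measurable (chi N χ₁))
    (hlocfin : ∀ z ∈ Uhp, {γ : Gamma0 N | chi N χ₁ (mob (γ : SL(2, ℤ)) z) ≠ 0}.Finite)
    (hsum : ∀ z ∈ Uhp, ∑ᶠ γ : Gamma0 N, chi N χ₁ (mob (γ : SL(2, ℤ)) z) = 1)
    (G : ℂ → ℂ) (hG : ContinuousOn G Uhp)
    (hinv : ∀ γ : Gamma0 N, ∀ z ∈ Uhp,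
      G (mob (γ : SL(2, ℤ)) z) = (cd (γ : SL(2, ℤ)) z) ^ 2 * G z)
    (hfin : Integrable (fun z => ‖G z‖ ^ 2 * chi N χ₁ z))
    (A : Set ℂ) (hA : MeasurableSet A) (hAU : A ⊆ Uhp) (M : ℕ)
    (hM : ∀ w ∈ Uhp, {g : SL(2, ℤ) | mob g w ∈ A}.encard ≤ M) :
    ∫ z in A, ‖G z‖ ^ 2 ≤ M * ∫ z, ‖G z‖ ^ 2 * chi N χ₁ z := by
  classical
  have hcount : Countable (Gamma0 N) := IntDAux.countable_Gamma0 N
  set h : ℂ → ℝ≥0∞ := fun w => ENNReal.ofReal (‖G w‖ ^ 2 * chi N χ₁ w) with hh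
  have hh_meas : AEMeasurable h volume := hfin.aestronglyMeasurable.aemeasurable.ennreal_ofReal
  have hGA : AEMeasurable G (volume.restrict A) :=
    (hG.aemeasurable isOpen_Uhp.measurableSet).mono_measure (Measure.restrict_mono hAU le_rfl)
  -- (a) pointwise partition of unity
  have hone : ∀ z ∈ Uhp, ∑' γ : Gamma0 N, ENNReal.ofReal (chi N χ₁ (mob (γ : SL(2, ℤ)) z)) = 1 := by
    intro z hz
    have hfinz := hlocfin z hz
    have h1 : ∑' γ : Gamma0 N, ENNReal.ofReal (chi N χ₁ (mob (γ : SL(2, ℤ)) z)) =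
        ∑ γ ∈ hfinz.toFinset, ENNReal.ofReal (chi N χ₁ (mob (γ : SL(2, ℤ)) z)) := by
      refine tsum_eq_sum fun γ hγ => ?_
      have : chi N χ₁ (mob (γ : SL(2, ℤ)) z) = 0 := by
        by_contra hne
        exact hγ (hfinz.mem_toFinset.mpr hne)
      rw [this, ENNReal.ofReal_zero]
    have h2 : ∑ᶠ γ : Gamma0 N, chi N χ₁ (mob (γ : SL(2, ℤ)) z) =
        ∑ γ ∈ hfinz.toFinset, chi N χ₁ (mob (γ : SL(2, ℤ)) z) := by
      refine finsum_eq_sum_of_support_subset _ fun γ hγ => ?_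
      exact Finset.mem_coe.mpr (hfinz.mem_toFinset.mpr hγ)
    rw [h1, ← ENNReal.ofReal_sum_of_nonneg (fun γ _ => hnn _), ← h2, hsum z hz,
      ENNReal.ofReal_one]
  have hpt : ∀ z ∈ A, ENNReal.ofReal (‖G z‖ ^ 2) =
      ∑' γ : Gamma0 N, ENNReal.ofReal (‖G z‖ ^ 2 * chi N χ₁ (mob (γ : SL(2, ℤ)) z)) := by
    intro z hz
    have : ∀ γ : Gamma0 N, ENNReal.ofReal (‖G z‖ ^ 2 * chi N χ₁ (mob (γ : SL(2, ℤ)) z)) =
        ENNReal.ofReal (‖G z‖ ^ 2) * ENNReal.ofReal (chi N χ₁ (mob (γ : SL(2, ℤ)) z)) :=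
      fun γ => ENNReal.ofReal_mul (by positivity)
    simp_rw [this]
    rw [ENNReal.tsum_mul_left, hone z (hAU hz), mul_one]
  -- (c) change of variables
  have hcv : ∀ γ : Gamma0 N,
      ∫⁻ z in A, ENNReal.ofReal (‖G z‖ ^ 2 * chi N χ₁ (mob (γ : SL(2, ℤ)) z)) =
        ∫⁻ w in mob (γ : SL(2, ℤ)) '' A, h w := by
    intro γ
    rw [IntDAux.lintegral_mob (γ : SL(2, ℤ)) A hA hAU h]
    refine setLIntegral_congr_fun hA fun z hz => ?_
    have hzU := hAU hz
    have hcd : cd (γ : SL(2, ℤ)) z ≠ 0 := SmallAux.cd_ne_zero _ hzU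
    have hpos : 0 < ‖cd (γ : SL(2, ℤ)) z‖ := norm_pos_iff.mpr hcd
    simp only [hh]
    rw [← ENNReal.ofReal_mul (by positivity), hinv γ z hzU, norm_mul, norm_pow]
    congr 1
    field_simp
  -- measurability of the terms
  have hterm : ∀ γ : Gamma0 N, AEMeasurable
      (fun z => ENNReal.ofReal (‖G z‖ ^ 2 * chi N χ₁ (mob (γ : SL(2, ℤ)) z)))
      (volume.restrict A) := by
    intro γ
    refine ENNReal.measurable_ofReal.comp_aemeasurable ?_
    exact (hGA.norm.pow_const 2).mul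
      (hmeas.comp_aemeasurable (IntDAux.aemeasurable_mob _ A hAU))
  -- (d) the multiplicity bound
  have hmult : ∀ w : ℂ, ∑' γ : Gamma0 N, (mob (γ : SL(2, ℤ)) '' A).indicator h w ≤ M * h w := by
    intro w
    by_cases hw0 : h w = 0
    · have : ∀ γ : Gamma0 N, (mob (γ : SL(2, ℤ)) '' A).indicator h w = 0 := by
        intro γ
        by_cases hmem : w ∈ mob (γ : SL(2, ℤ)) '' A
        · rw [Set.indicator_of_mem hmem, hw0]
        · exact Set.indicator_of_notMem hmem _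
      simp [this, hw0]
    · have hwU : w ∈ Uhp := by
        by_contra hwU
        apply hw0
        simp only [hh]
        rw [IntDAux.chi_eq_zero_of_notMem N χ₁ hwU, mul_zero, ENNReal.ofReal_zero]
      set S : Set (Gamma0 N) := {γ | w ∈ mob (γ : SL(2, ℤ)) '' A} with hS
      have hind : ∀ γ : Gamma0 N, (mob (γ : SL(2, ℤ)) '' A).indicator h w =
          S.indicator (fun _ => h w) γ := by
        intro γ
        by_cases hmem : w ∈ mob (γ : SL(2, ℤ)) '' A
        · rw [Set.indicator_of_mem hmem, Set.indicator_of_mem (show γ ∈ S from hmem)]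
        · rw [Set.indicator_of_notMem hmem, Set.indicator_of_notMem (show γ ∉ S from hmem)]
      simp_rw [hind]
      rw [← tsum_subtype S (fun _ => h w), ENNReal.tsum_set_const]
      have hSle : S.encard ≤ M := by
        refine le_trans ?_ (hM w hwU)
        refine Set.encard_le_encard_of_injOn (f := fun γ : Gamma0 N => ((γ : SL(2, ℤ)))⁻¹) ?_ ?_
        · rintro γ ⟨z, hz, hzw⟩
          show mob ((γ : SL(2, ℤ)))⁻¹ w ∈ A
          rw [← hzw, mob_mob, inv_mul_cancel, _root_.Fermat.Agent.S21.PartitionAux.mob_one (hAU hz)]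
          exact hz
        · intro γ _ γ' _ hγ
          exact Subtype.ext (inv_injective hγ)
      exact mul_le_mul_left (by exact_mod_cast hSle) _
  -- assemble the `lintegral` inequality
  have hlint : ∫⁻ z in A, ENNReal.ofReal (‖G z‖ ^ 2) ≤ M * ∫⁻ w, h w := by
    calc ∫⁻ z in A, ENNReal.ofReal (‖G z‖ ^ 2)
        = ∫⁻ z in A, ∑' γ : Gamma0 N,
            ENNReal.ofReal (‖G z‖ ^ 2 * chi N χ₁ (mob (γ : SL(2, ℤ)) z)) :=
          setLIntegral_congr_fun hA hpt
      _ = ∑' γ : Gamma0 N, ∫⁻ z in A,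
            ENNReal.ofReal (‖G z‖ ^ 2 * chi N χ₁ (mob (γ : SL(2, ℤ)) z)) :=
          lintegral_tsum hterm
      _ = ∑' γ : Gamma0 N, ∫⁻ w, (mob (γ : SL(2, ℤ)) '' A).indicator h w := by
          congr 1
          funext γ
          rw [hcv γ, lintegral_indicator (IntDAux.measurableSet_mob_image _ A hA hAU)]
      _ = ∫⁻ w, ∑' γ : Gamma0 N, (mob (γ : SL(2, ℤ)) '' A).indicator h w :=
          (lintegral_tsum fun γ =>
            hh_meas.indicator (IntDAux.measurableSet_mob_image _ A hA hAU)).symm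
      _ ≤ ∫⁻ w, M * h w := lintegral_mono hmult
      _ = M * ∫⁻ w, h w := lintegral_const_mul'' _ hh_meas
  -- back to Bochner integrals
  have hnn' : 0 ≤ᵐ[volume] fun z => ‖G z‖ ^ 2 * chi N χ₁ z :=
    Filter.Eventually.of_forall fun z => mul_nonneg (by positivity) (hnn z)
  have hI : ∫⁻ w, h w = ENNReal.ofReal (∫ z, ‖G z‖ ^ 2 * chi N χ₁ z) :=
    (ofReal_integral_eq_lintegral_ofReal hfin hnn').symm
  have hInn : 0 ≤ ∫ z, ‖G z‖ ^ 2 * chi N χ₁ z := integral_nonneg_of_ae hnn'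
  rw [integral_eq_lintegral_of_nonneg_ae (Filter.Eventually.of_forall fun z => by positivity)
    (hGA.norm.pow_const 2).aestronglyMeasurable]
  rw [hI] at hlint
  calc (∫⁻ z in A, ENNReal.ofReal (‖G z‖ ^ 2)).toReal
      ≤ ((M : ℝ≥0∞) * ENNReal.ofReal (∫ z, ‖G z‖ ^ 2 * chi N χ₁ z)).toReal :=
        ENNReal.toReal_mono (ENNReal.mul_ne_top (ENNReal.natCast_ne_top M) ENNReal.ofReal_ne_top)
          hlint
    _ = M * ∫ z, ‖G z‖ ^ 2 * chi N χ₁ z := by
        rw [ENNReal.toReal_mul, ENNReal.toReal_natCast, ENNReal.toReal_ofReal hInn]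

end Fermat.Agent.S21

end
-- ===== PACK-END S21/IntDCore.lean

-- ===== PACK-BEGIN S49/Normalize.lean
section



set_option autoImplicit false
open CuspForm CongruenceSubgroup ModularFormClass

namespace Fermat.Agent.S49

variable {N : ℕ}

/-- If the coefficients `b` satisfy eigen-relations with eigenvalues `lam` and `b 0 = b 1 = 0`,
then all coefficients vanish. -/
theorem formal_eq_zero_of_one_eq_zero {e lam b : ℕ → ℂ}
    (hrel : ∀ ℓ : ℕ, ℓ.Prime → ∀ n : ℕ,
      b (n * ℓ) + e ℓ * (if ℓ ∣ n then b (n / ℓ) else 0) = lam ℓ * b n)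
    (h0 : b 0 = 0) (h1 : b 1 = 0) : ∀ n, b n = 0 := by
  intro n
  induction n using Nat.strong_induction_on with
  | _ n ih =>
    rcases Nat.lt_or_ge n 2 with hn | hn
    · interval_cases n
      · exact h0
      · exact h1
    · have hn1 : n ≠ 1 := by omega
      have hℓ : (n.minFac).Prime := Nat.minFac_prime hn1
      obtain ⟨m, hm⟩ := Nat.minFac_dvd n
      have hmpos : 0 < m := by
        rcases Nat.eq_zero_or_pos m with h | h
        · subst h; omega
        · exact h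
      have hmlt : m < n := by
        have := hℓ.one_lt
        nlinarith
      have hrel' := hrel n.minFac hℓ m
      have hnm : m * n.minFac = n := by rw [mul_comm]; exact hm.symm
      rw [hnm, ih m hmlt, mul_zero] at hrel'
      by_cases hd : n.minFac ∣ m
      · rw [if_pos hd] at hrel'
        have hlt : m / n.minFac < n := lt_of_le_of_lt (Nat.div_le_self _ _) hmlt
        rw [ih _ hlt, mul_zero, add_zero] at hrel'
        exact hrel'
      · rw [if_neg hd, mul_zero, add_zero] at hrel'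
        exact hrel'

/-- (E4) A simultaneous eigenvector of the Hecke algebra can be normalised to a normalised
eigenform whose prime coefficients are the eigenvalues. -/
theorem exists_normalized_eigenform [NeZero N] (g : CuspForm (Gamma0 N) 2) (hg : g ≠ 0)
    (χ : heckeAlgebra N 2 (∅ : Set ℕ) →+* ℂ)
    (hχ : ∀ t : heckeAlgebra N 2 (∅ : Set ℕ),
      (t : Module.End ℂ (CuspForm (Gamma0 N) 2)) g = χ t • g) :
    ∃ f : CuspForm (Gamma0 N) 2, f.IsNormalizedEigenform ∧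
      ∀ (ℓ : ℕ) (hℓ : ℓ.Prime) (hℓN : ¬ ℓ ∣ N),
        ModularFormClass.qCoeff f ℓ = χ (heckeAlgebra.T hℓ hℓN (Set.notMem_empty _)) := by
  classical
  -- eigenvalues
  let lam : ℕ → ℂ := fun ℓ =>
    if hℓ : ℓ.Prime then
      if hℓN : ℓ ∣ N then χ (heckeAlgebra.U hℓ hℓN (Set.notMem_empty _))
      else χ (heckeAlgebra.T hℓ hℓN (Set.notMem_empty _))
    else 0
  let e : ℕ → ℂ := fun ℓ => if ℓ ∣ N then (0 : ℂ) else (ℓ : ℂ)
  have hrel : ∀ ℓ : ℕ, ℓ.Prime → ∀ n : ℕ,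
      qCoeff ⇑g (n * ℓ) + e ℓ * (if ℓ ∣ n then qCoeff ⇑g (n / ℓ) else 0)
        = lam ℓ * qCoeff ⇑g n := by
    intro ℓ hℓ n
    by_cases hℓN : ℓ ∣ N
    · have h1 := hχ (heckeAlgebra.U hℓ hℓN (Set.notMem_empty _))
      rw [heckeAlgebra.coe_U] at h1
      have h2 := congrArg (fun F : CuspForm (Gamma0 N) 2 => qCoeff ⇑F n) h1
      simp only [glue_qCoeff_heckeULin hℓ hℓN, glue_qCoeff_smul] at h2
      simp only [e, lam, dif_pos hℓ, dif_pos hℓN, if_pos hℓN, zero_mul, add_zero]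
      exact h2
    · have h1 := hχ (heckeAlgebra.T hℓ hℓN (Set.notMem_empty _))
      rw [heckeAlgebra.coe_T] at h1
      have h2 := congrArg (fun F : CuspForm (Gamma0 N) 2 => qCoeff ⇑F n) h1
      simp only [glue_qCoeff_heckeTLin hℓ hℓN, glue_qCoeff_smul] at h2
      simp only [e, lam, dif_pos hℓ, dif_neg hℓN, if_neg hℓN]
      rw [← h2]
      split_ifs <;> ring
  -- the first coefficient is nonzero
  have hb1 : qCoeff ⇑g 1 ≠ 0 := by
    intro h1
    exact hg (glue_eq_zero_of_qCoeff g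
      (formal_eq_zero_of_one_eq_zero hrel (glue_qCoeff_zero_idx g) h1))
  -- normalise
  refine ⟨(qCoeff ⇑g 1)⁻¹ • g, ?_, ?_⟩
  · apply isNormalizedEigenform_of_isEigensystem
    refine ⟨?_, ?_⟩
    · simp only [glue_qCoeff_smul]
      exact inv_mul_cancel₀ hb1
    · intro ℓ hℓ n
      have hℓ1 := hrel ℓ hℓ 1
      have hnd : ¬ ℓ ∣ 1 := fun h => hℓ.one_lt.ne' (Nat.dvd_one.mp h)
      rw [if_neg hnd, mul_zero, add_zero, one_mul] at hℓ1
      have hn := hrel ℓ hℓ n
      simp only [glue_qCoeff_smul]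
      rw [mul_comm ℓ n]
      have key : (qCoeff ⇑g 1)⁻¹ * qCoeff ⇑g ℓ = lam ℓ := by
        rw [hℓ1]
        field_simp
      calc (qCoeff ⇑g 1)⁻¹ * qCoeff ⇑g (n * ℓ)
            + (if ℓ ∣ N then (0 : ℂ) else (ℓ : ℂ)) *
              (if ℓ ∣ n then (qCoeff ⇑g 1)⁻¹ * qCoeff ⇑g (n / ℓ) else 0)
          = (qCoeff ⇑g 1)⁻¹ * (qCoeff ⇑g (n * ℓ)
              + e ℓ * (if ℓ ∣ n then qCoeff ⇑g (n / ℓ) else 0)) := by
            simp only [e]
            split_ifs <;> ring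
        _ = (qCoeff ⇑g 1)⁻¹ * (lam ℓ * qCoeff ⇑g n) := by rw [hn]
        _ = (qCoeff ⇑g 1)⁻¹ * qCoeff ⇑g ℓ * ((qCoeff ⇑g 1)⁻¹ * qCoeff ⇑g n) := by
            rw [key]; ring
  · intro ℓ hℓ hℓN
    have hℓ1 := hrel ℓ hℓ 1
    have hnd : ¬ ℓ ∣ 1 := fun h => hℓ.one_lt.ne' (Nat.dvd_one.mp h)
    rw [if_neg hnd, mul_zero, add_zero, one_mul] at hℓ1
    rw [glue_qCoeff_smul, hℓ1]
    simp only [lam, dif_pos hℓ, dif_neg hℓN]
    field_simp

end Fermat.Agent.S49

end
-- ===== PACK-END S49/Normalize.lean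

-- ===== PACK-BEGIN Lib/Newform/H803/Main.lean
section



/-!
# The Atkin–Lehner main lemma, `Γ⁰(N)` form on functions (helper803)

`killL k N L F` is `∏_{p ∈ L} (1 - π_p) F` where `π_p = avgT k (N/p) p` is the average over the
translations `T^{j N / p}`.  Main result `main_hat`: if `F` is `Γ⁰(N)`-invariant and
`killL k N L F = 0` for a list `L` of distinct primes dividing `N`, then `F = ∑_{p ∈ L} G_p` with
`G_p` invariant under `Γ⁰(N / p)`; moreover the `G_p` stay in any slash-stable submodule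
containing `F`.
-/

set_option autoImplicit false

namespace Fermat.Agent.Lib.Newform.H803

open Matrix Matrix.SpecialLinearGroup CongruenceSubgroup UpperHalfPlane ModularForm
open scoped MatrixGroups ModularForm

variable {k : ℤ}

/-- `∏_{p ∈ L} (1 - π_p)`. -/
noncomputable def killL (k : ℤ) (N : ℕ) : List ℕ → (ℍ → ℂ) → (ℍ → ℂ)
  | [], F => F
  | p :: L, F => killL k N L F - avgT k (↑(N / p)) p (killL k N L F)

@[simp] theorem killL_nil (N : ℕ) (F : ℍ → ℂ) : killL k N [] F = F := rfl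

theorem killL_cons (N : ℕ) (p : ℕ) (L : List ℕ) (F : ℍ → ℂ) :
    killL k N (p :: L) F = killL k N L F - avgT k (↑(N / p)) p (killL k N L F) := rfl

theorem killL_sub (N : ℕ) (L : List ℕ) (F G : ℍ → ℂ) :
    killL k N L (F - G) = killL k N L F - killL k N L G := by
  induction L with
  | nil => rfl
  | cons p L ih =>
    rw [killL_cons, killL_cons, killL_cons, ih, avgT_sub]
    abel

theorem killL_mem (N : ℕ) (L : List ℕ) {𝒮 : Submodule ℂ (ℍ → ℂ)}
    (h𝒮 : ∀ F ∈ 𝒮, ∀ γ : SL(2, ℤ), F ∣[k] γ ∈ 𝒮) {F : ℍ → ℂ} (hF : F ∈ 𝒮) :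
    killL k N L F ∈ 𝒮 := by
  induction L with
  | nil => exact hF
  | cons p L ih => exact 𝒮.sub_mem ih (avgT_mem _ _ h𝒮 ih)

theorem killL_slInv_Gamma (N : ℕ) (L : List ℕ) {F : ℍ → ℂ} (hF : SlInv k (Gamma N) F) :
    SlInv k (Gamma N) (killL k N L F) := by
  induction L with
  | nil => exact hF
  | cons p L ih => exact ih.sub (avgT_slInv_Gamma _ _ ih)

/-- `killL` commutes with the slash by `g` if `g` commutes with the translations. -/
theorem killL_slash_comm {N : ℕ} (L : List ℕ) {F : ℍ → ℂ} (hF : SlInv k (Gamma N) F)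
    {g : SL(2, ℤ)}
    (hg : ∀ q ∈ L, ∀ j : ℤ, (tU (j * ↑(N / q)) * g) * (g * tU (j * ↑(N / q)))⁻¹ ∈ Gamma N) :
    (killL k N L F) ∣[k] g = killL k N L (F ∣[k] g) := by
  induction L with
  | nil => rfl
  | cons p L ih =>
    have ih' := ih fun q hq => hg q (List.mem_cons_of_mem _ hq)
    rw [killL_cons, killL_cons, sub_slash, ih',
      avgT_slash_comm (killL_slInv_Gamma N L hF) (hg p List.mem_cons_self), ih']

theorem avg_sum {N : ℕ} [NeZero N] (J : Subgroup SL(2, ℤ)) {ι : Type*} (s : Finset ι)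
    (F : ι → ℍ → ℂ) : avg k N J (∑ i ∈ s, F i) = ∑ i ∈ s, avg k N J (F i) := by
  classical
  induction s using Finset.induction_on with
  | empty => simp [avg_zero]
  | insert a s ha ih => rw [Finset.sum_insert ha, Finset.sum_insert ha, avg_add, ih]

/-- `avgT` commutes with `avg`. -/
theorem avgT_avg_comm {N : ℕ} [NeZero N] {J : Subgroup SL(2, ℤ)} {x : ℤ} (p : ℕ) {F : ℍ → ℂ}
    (hF : SlInv k (Gamma N) F)
    (hJ : ∀ γ ∈ J, ∀ j : ℤ, (γ * tU (j * x)) * (tU (j * x) * γ)⁻¹ ∈ Gamma N) :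
    avgT k x p (avg k N J F) = avg k N J (avgT k x p F) := by
  rw [avgT, avgT, avg_smul, avg_sum]
  congr 1
  refine Finset.sum_congr rfl fun j _ => ?_
  exact avg_slash_comm hF fun γ hγ => hJ γ hγ j

/-- `killL` commutes with `avg`. -/
theorem killL_avg_comm {N : ℕ} [NeZero N] {J : Subgroup SL(2, ℤ)} (L : List ℕ) {F : ℍ → ℂ}
    (hF : SlInv k (Gamma N) F)
    (hJ : ∀ q ∈ L, ∀ γ ∈ J, ∀ j : ℤ,
      (γ * tU (j * ↑(N / q))) * (tU (j * ↑(N / q)) * γ)⁻¹ ∈ Gamma N) :
    killL k N L (avg k N J F) = avg k N J (killL k N L F) := by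
  induction L with
  | nil => rfl
  | cons p L ih =>
    have ih' := ih fun q hq => hJ q (List.mem_cons_of_mem _ hq)
    rw [killL_cons, killL_cons, ih', avg_sub,
      avgT_avg_comm p (killL_slInv_Gamma N L hF) (hJ p List.mem_cons_self)]

theorem ord_facts_aux {N p P m : ℕ} (hp : p.Prime) (hpN : p ∣ N) (hPm : P * m = N)
    (hpP : p ∣ P) (hqP : ∀ q : ℕ, q.Prime → q ≠ p → Nat.Coprime q P) :
    m ∣ N / p ∧ N / p ∣ P * m ∧
      ∀ q : ℕ, q.Prime → q ≠ p → q ∣ N → N ∣ m * (N / q) := by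
  refine ⟨?_, ?_, ?_⟩
  · obtain ⟨P', rfl⟩ := hpP
    refine ⟨P', ?_⟩
    have h1 : N = p * (m * P') := by rw [← hPm]; ring
    conv_lhs => rw [h1]
    exact Nat.mul_div_cancel_left _ hp.pos
  · rw [hPm]
    exact Nat.div_dvd_of_dvd hpN
  · intro q hq hqp hqN
    have hcop' : Nat.Coprime q P := hqP q hq hqp
    have hqm : q ∣ m := by
      have : q ∣ P * m := by rw [hPm]; exact hqN
      exact hcop'.dvd_of_dvd_mul_left this
    obtain ⟨m', hm'⟩ := hqm
    refine ⟨m', ?_⟩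
    rw [hm']
    have : q * (N / q) = N := Nat.mul_div_cancel' hqN
    calc q * m' * (N / q) = (q * (N / q)) * m' := by ring
      _ = N * m' := by rw [this]

/-- Arithmetic of the `p`-part and the prime-to-`p` part of `N`. -/
theorem ord_facts {N p : ℕ} (hN : N ≠ 0) (hp : p.Prime) (hpN : p ∣ N) :
    ∃ P m : ℕ, P * m = N ∧ Nat.Coprime P m ∧ m ∣ N / p ∧ N / p ∣ P * m ∧
      ∀ q : ℕ, q.Prime → q ≠ p → q ∣ N → N ∣ m * (N / q) := by
  have hPm := Nat.ordProj_mul_ordCompl_eq_self N p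
  have hcop : Nat.Coprime (ordProj[p] N) (ordCompl[p] N) :=
    (Nat.coprime_ordCompl hp hN).pow_left _
  have hpP : p ∣ ordProj[p] N := Nat.dvd_ordProj_of_dvd hN hp hpN
  have hqP : ∀ q : ℕ, q.Prime → q ≠ p → Nat.Coprime q (ordProj[p] N) := fun q hq hqp =>
    ((Nat.coprime_primes hq hp).mpr hqp).pow_right _
  exact ⟨ordProj[p] N, ordCompl[p] N, hPm, hcop, ord_facts_aux hp hpN hPm hpP hqP⟩

/-- **Atkin–Lehner main lemma**, `Γ⁰(N)`-form. -/
theorem main_hat (N : ℕ) [NeZero N] {𝒮 : Submodule ℂ (ℍ → ℂ)}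
    (h𝒮 : ∀ F ∈ 𝒮, ∀ γ : SL(2, ℤ), F ∣[k] γ ∈ 𝒮) :
    ∀ L : List ℕ, L.Nodup → (∀ p ∈ L, p.Prime ∧ p ∣ N) →
      ∀ F ∈ 𝒮, SlInv k (GammaU N) F → killL k N L F = 0 →
      ∃ G : ℕ → (ℍ → ℂ), (∀ p ∈ L, G p ∈ 𝒮 ∧ SlInv k (GammaU (N / p)) (G p)) ∧
        F = (L.map G).sum := by
  have hN0 : N ≠ 0 := NeZero.ne N
  intro L
  induction L with
  | nil =>
    intro _ _ F _ _ hK
    refine ⟨fun _ => 0, by simp, ?_⟩
    simpa using hK
  | cons p L ih =>
    intro hnd hL F hF𝒮 hF hK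
    obtain ⟨hp, hpN⟩ := hL p List.mem_cons_self
    have hpL : p ∉ L := (List.nodup_cons.mp hnd).1
    have hndL : L.Nodup := (List.nodup_cons.mp hnd).2
    have hL' : ∀ q ∈ L, q.Prime ∧ q ∣ N := fun q hq => hL q (List.mem_cons_of_mem _ hq)
    obtain ⟨P, m, hPm, hcop, hmd, hdN, hq⟩ := ord_facts hN0 hp hpN
    set d : ℕ := N / p with hd
    have hpd : p * d = N := Nat.mul_div_cancel' hpN
    have hdN' : d ∣ N := Nat.div_dvd_of_dvd hpN
    have hmN : m ∣ N := Dvd.intro_left P hPm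
    have hFΓ : SlInv k (Gamma N) F := hF.mono (Gamma_le_GammaU N)
    -- the subgroups
    set J : Subgroup SL(2, ℤ) := Gamma m ⊓ GammaU d with hJ
    have hΓJ : Gamma N ≤ J := le_inf (Gamma_mono hmN) ((Gamma_le_GammaU N).trans (GammaU_mono hdN'))
    -- commutation of `J` with the other translations
    have hJq : ∀ q ∈ L, ∀ γ ∈ J, ∀ j : ℤ,
        (γ * tU (j * ↑(N / q))) * (tU (j * ↑(N / q)) * γ)⁻¹ ∈ Gamma N := by
      intro q hqL γ hγ j
      have hqp : q ≠ p := fun h => hpL (h ▸ hqL)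
      exact comm_mem_Gamma (hq q (hL' q hqL).1 hqp (hL' q hqL).2) hγ.1
        (tU_mem_Gamma (Dvd.intro_left _ rfl))
    have hqJ : ∀ q ∈ L, ∀ γ ∈ Gamma m, ∀ j : ℤ,
        (tU (j * ↑(N / q)) * γ) * (γ * tU (j * ↑(N / q)))⁻¹ ∈ Gamma N := by
      intro q hqL γ hγ j
      have hqp : q ≠ p := fun h => hpL (h ▸ hqL)
      have h1 : N ∣ (N / q) * m := by
        rw [mul_comm]; exact hq q (hL' q hqL).1 hqp (hL' q hqL).2
      exact comm_mem_Gamma h1 (tU_mem_Gamma (Dvd.intro_left _ rfl)) hγ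
    -- `w = killL L F`
    set w : ℍ → ℂ := killL k N L F with hw
    have hwΓ : SlInv k (Gamma N) w := killL_slInv_Gamma N L hFΓ
    have hπw : avgT k (↑d) p w = w := by
      have := hK
      rw [killL_cons, sub_eq_zero] at this
      exact this.symm
    -- `w` is invariant under the translation `tU d`
    have hwT : w ∣[k] tU (↑d) = w := by
      have h1 : w ∣[k] tU ((p : ℤ) * (d : ℤ)) = w := by
        apply hwΓ
        apply tU_mem_Gamma
        rw [← Nat.cast_mul, hpd]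
      have := avgT_slash_tU (k := k) (x := (d : ℤ)) (p := p) (F := w) h1
      rwa [hπw] at this
    -- `w` is invariant under `Γ(m) ⊓ Γ⁰(N)`
    have hwH : SlInv k (Gamma m ⊓ GammaU N) w := by
      intro h hh
      rw [hw, killL_slash_comm L hFΓ (fun q hqL j => hqJ q hqL h hh.1 j), hF h hh.2]
    -- hence under `J`
    have hwJ : SlInv k J w := by
      intro γ hγ
      obtain ⟨i, j, hij⟩ := exists_tU_mul_mem_GammaU hp hγ.2
      rw [hpd] at hij
      have hmem : tU (i * ↑d) * γ * tU (j * ↑d) ∈ Gamma m ⊓ GammaU N := by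
        refine ⟨?_, hij⟩
        have hm' : (m : ℤ) ∣ (d : ℤ) := Int.natCast_dvd_natCast.mpr hmd
        exact Subgroup.mul_mem _ (Subgroup.mul_mem _ (tU_mem_Gamma (Dvd.dvd.mul_left hm' _)) hγ.1)
          (tU_mem_Gamma (Dvd.dvd.mul_left hm' _))
      have h1 := hwH _ hmem
      rw [SlashAction.slash_mul, SlashAction.slash_mul, slash_tU_mul hwT] at h1
      -- `(w ∣ γ) ∣ tU (j d) = w`
      have h2 : ((w ∣[k] γ) ∣[k] tU (j * ↑d)) ∣[k] tU (-j * ↑d) = w ∣[k] tU (-j * ↑d) := by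
        rw [h1]
      rw [← SlashAction.slash_mul, ← tU_add, slash_tU_mul hwT] at h2
      have e : j * (d : ℤ) + -j * (d : ℤ) = 0 := by ring
      rwa [e, tU_zero, SlashAction.slash_one] at h2
    -- the two pieces
    set v₁ : ℍ → ℂ := avg k N J F with hv₁
    have hv₁𝒮 : v₁ ∈ 𝒮 := avg_mem J h𝒮 hF𝒮
    have hv₁J : SlInv k J v₁ := avg_slInv hFΓ
    have hv₁H : SlInv k (Gamma P ⊓ GammaU (P * m)) v₁ := by
      intro h hh
      rw [hv₁, avg_slash_comm hFΓ (g := h), hF h (by rw [← hPm]; exact hh.2)]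
      intro γ hγ
      exact comm_mem_Gamma (by rw [mul_comm, hPm]) hγ.1 hh.1
    have hv₁U : SlInv k (GammaU d) v₁ := by
      intro g hg
      obtain ⟨g₁, hg₁, g₂, hg₂, rfl⟩ := exists_mul_of_mem_GammaU hcop hmd hdN hg
      rw [SlashAction.slash_mul, hv₁J g₁ hg₁, hv₁H g₂ hg₂]
    have hv₂𝒮 : F - v₁ ∈ 𝒮 := 𝒮.sub_mem hF𝒮 hv₁𝒮
    have hv₂U : SlInv k (GammaU N) (F - v₁) := hF.sub (hv₁U.mono (GammaU_mono hdN'))
    have hv₂K : killL k N L (F - v₁) = 0 := by
      rw [killL_sub, hv₁, killL_avg_comm L hFΓ hJq, ← hw, avg_of_slInv hwJ, sub_self]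
    obtain ⟨G, hG, hGsum⟩ := ih hndL hL' (F - v₁) hv₂𝒮 hv₂U hv₂K
    refine ⟨Function.update G p v₁, ?_, ?_⟩
    · intro q hqL
      rcases List.mem_cons.mp hqL with rfl | hqL'
      · rw [Function.update_self]
        exact ⟨hv₁𝒮, hv₁U⟩
      · have hqp : q ≠ p := fun h => hpL (h ▸ hqL')
        rw [Function.update_of_ne hqp]
        exact hG q hqL'
    · rw [List.map_cons, List.sum_cons, Function.update_self]
      have e : L.map (Function.update G p v₁) = L.map G := by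
        apply List.map_congr_left
        intro q hqL
        have hqp : q ≠ p := fun h => hpL (h ▸ hqL)
        rw [Function.update_of_ne hqp]
      rw [e, ← hGsum]
      abel

end Fermat.Agent.Lib.Newform.H803

end
-- ===== PACK-END Lib/Newform/H803/Main.lean

-- ===== PACK-BEGIN Lib/Newform/H263/Eigenform.lean
section
/-
NEWFORM library (helper263) — part 3: consequences of the strict trivial bound for normalized
eigenforms and for the Hecke operators on `S₂(Γ₀(N))`.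

* `norm_qCoeff_lt`            : `‖a_ℓ(f)‖ < ℓ + 1` for a normalized eigenform, `ℓ ∤ N`;
* `qCoeff_sq_ne`              : `a_ℓ(f)² ≠ (ℓ + 1)²`;
* `root_sq_ne_one`            : roots `α` of `X² - a_ℓ X + ℓ` satisfy `α² ≠ 1`;
* `not_isNewAt_of_root`       : an eigenform whose `q`-th coefficient is such a root is not
                                `IsNewAt q` (`q`-old stabilisations are never new at `q`);
* `heckeTLin_sub_smul_injective/bijective`, `ribetDet_injective/bijective`, `isUnit_ribetDet` :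
  `T_ℓ - c` (`‖c‖ ≥ ℓ + 1`) and `ribetDet = T_ℓ² - (ℓ + 1)²` are bijective on `S₂(Γ₀(N))`
  (the determinant of Ribet's level-raising matrix `[[ℓ+1, T_ℓ], [T_ℓ, ℓ+1]]` is invertible
  over `ℂ`).
-/




set_option autoImplicit false

open CongruenceSubgroup ModularFormClass ModularForm UpperHalfPlane

namespace Fermat.Agent.Lib.Newform.H263

variable {N : ℕ}

/-- **Strict trivial bound** for the coefficients of a normalized eigenform at good primes. -/
theorem norm_qCoeff_lt {f : CuspForm (Gamma0 N) 2} (hf : f.IsNormalizedEigenform) {ℓ : ℕ}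
    (hℓ : ℓ.Prime) (hℓN : ¬ ℓ ∣ N) : ‖qCoeff ⇑f ℓ‖ < ℓ + 1 :=
  norm_lt_of_heckeTLin_eq hf.ne_zero hℓ hℓN (H683.heckeTLin_eq_of_eigenform hf hℓ hℓN)

/-- Trivial bound for the coefficients of a normalized eigenform at bad primes. -/
theorem norm_qCoeff_le_of_dvd [NeZero N] {f : CuspForm (Gamma0 N) 2}
    (hf : f.IsNormalizedEigenform) {q : ℕ} (hq : q.Prime) (hqN : q ∣ N) : ‖qCoeff ⇑f q‖ ≤ q :=
  norm_le_of_heckeULin_eq hf.ne_zero hq.ne_zero hqN (H683.heckeULin_eq_of_eigenform hf hq hqN)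

/-- `a_ℓ(f)² ≠ (ℓ + 1)²` for a normalized eigenform and a good prime `ℓ`. -/
theorem qCoeff_sq_ne {f : CuspForm (Gamma0 N) 2} (hf : f.IsNormalizedEigenform) {ℓ : ℕ}
    (hℓ : ℓ.Prime) (hℓN : ¬ ℓ ∣ N) : qCoeff ⇑f ℓ ^ 2 ≠ ((ℓ : ℂ) + 1) ^ 2 :=
  sq_ne_of_heckeTLin_eq hf.ne_zero hℓ hℓN (H683.heckeTLin_eq_of_eigenform hf hℓ hℓN)

/-- The roots of the Hecke polynomial `X² - a_ℓ X + ℓ` of a normalized eigenform at a good prime
are different from `±1`. -/
theorem root_sq_ne_one {f : CuspForm (Gamma0 N) 2} (hf : f.IsNormalizedEigenform) {ℓ : ℕ}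
    (hℓ : ℓ.Prime) (hℓN : ¬ ℓ ∣ N) {α : ℂ} (hα : α ^ 2 - qCoeff ⇑f ℓ * α + ℓ = 0) :
    α ^ 2 ≠ 1 := by
  intro h1
  refine qCoeff_sq_ne hf hℓ hℓN ?_
  have h2 : qCoeff ⇑f ℓ * α = (ℓ : ℂ) + 1 := by
    have := hα
    rw [h1] at this
    linear_combination -this
  calc qCoeff ⇑f ℓ ^ 2 = (qCoeff ⇑f ℓ * α) ^ 2 := by rw [mul_pow, h1, mul_one]
    _ = ((ℓ : ℂ) + 1) ^ 2 := by rw [h2]

/-- An eigenform (of any level) whose `q`-th coefficient is a root of the Hecke polynomial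
`X² - a_q(f) X + q` of a normalized eigenform `f` of level prime to `q` is not `IsNewAt q`:
the `q`-old stabilisations of `f` are never new at `q`. -/
theorem not_isNewAt_of_root {f : CuspForm (Gamma0 N) 2} (hf : f.IsNormalizedEigenform) {q : ℕ}
    (hq : q.Prime) (hqN : ¬ q ∣ N) {M : ℕ} (g : CuspForm (Gamma0 M) 2)
    (hg : qCoeff ⇑g q ^ 2 - qCoeff ⇑f q * qCoeff ⇑g q + q = 0) : ¬ g.IsNewAt q :=
  fun h ↦ root_sq_ne_one hf hq hqN hg h

/-! ### Linear algebra on `S₂(Γ₀(N))` -/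

/-- `T_ℓ - c` is injective on `S₂(Γ₀(N))` as soon as `‖c‖ ≥ ℓ + 1`. -/
theorem heckeTLin_sub_smul_injective {ℓ : ℕ} (hℓ : ℓ.Prime) (hℓN : ¬ ℓ ∣ N) {c : ℂ}
    (hc : (ℓ : ℝ) + 1 ≤ ‖c‖) :
    Function.Injective
      (CuspForm.heckeTLin (N := N) 2 hℓ hℓN - c • (1 : Module.End ℂ (CuspForm (Gamma0 N) 2))) := by
  rw [← LinearMap.ker_eq_bot, LinearMap.ker_eq_bot']
  intro f hf
  by_contra hne
  have h : CuspForm.heckeTLin 2 hℓ hℓN f = c • f := by
    have := hf
    simp only [LinearMap.sub_apply, LinearMap.smul_apply, Module.End.one_apply] at this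
    exact sub_eq_zero.mp this
  exact absurd (norm_lt_of_heckeTLin_eq hne hℓ hℓN h) (not_lt.mpr hc)

/-- `T_ℓ - c` is bijective on `S₂(Γ₀(N))` as soon as `‖c‖ ≥ ℓ + 1`. -/
theorem heckeTLin_sub_smul_bijective {ℓ : ℕ} (hℓ : ℓ.Prime) (hℓN : ¬ ℓ ∣ N) {c : ℂ}
    (hc : (ℓ : ℝ) + 1 ≤ ‖c‖) :
    Function.Bijective
      (CuspForm.heckeTLin (N := N) 2 hℓ hℓN - c • (1 : Module.End ℂ (CuspForm (Gamma0 N) 2))) := by
  have : NeZero N := ⟨fun h0 ↦ hℓN (h0 ▸ dvd_zero ℓ)⟩
  have := H683.finiteDimensional_cuspForm N 2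
  have hinj := heckeTLin_sub_smul_injective (N := N) hℓ hℓN hc
  exact ⟨hinj, LinearMap.surjective_of_injective hinj⟩

/-- Every eigenvalue of `T_ℓ` on `S₂(Γ₀(N))` has norm `< ℓ + 1`. -/
theorem norm_lt_of_hasEigenvalue {ℓ : ℕ} (hℓ : ℓ.Prime) (hℓN : ¬ ℓ ∣ N) {c : ℂ}
    (hc : Module.End.HasEigenvalue (CuspForm.heckeTLin (N := N) 2 hℓ hℓN) c) : ‖c‖ < ℓ + 1 := by
  obtain ⟨f, hf⟩ := hc.exists_hasEigenvector
  exact norm_lt_of_heckeTLin_eq hf.2 hℓ hℓN (hf.apply_eq_smul)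

/-- The endomorphism `T_ℓ² - (ℓ + 1)²` of `S₂(Γ₀(N))`: minus the determinant of Ribet's
level-raising matrix `[[ℓ + 1, T_ℓ], [T_ℓ, ℓ + 1]]`. -/
noncomputable def ribetDet (N : ℕ) {ℓ : ℕ} (hℓ : ℓ.Prime) (hℓN : ¬ ℓ ∣ N) :
    Module.End ℂ (CuspForm (Gamma0 N) 2) :=
  (CuspForm.heckeTLin 2 hℓ hℓN) ^ 2 - (((ℓ : ℂ) + 1) ^ 2) • 1

theorem ribetDet_apply {ℓ : ℕ} (hℓ : ℓ.Prime) (hℓN : ¬ ℓ ∣ N) (f : CuspForm (Gamma0 N) 2) :
    ribetDet N hℓ hℓN f =
      CuspForm.heckeTLin 2 hℓ hℓN (CuspForm.heckeTLin 2 hℓ hℓN f) - (((ℓ : ℂ) + 1) ^ 2) • f := by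
  simp [ribetDet, pow_two]

/-- `T_ℓ² - (ℓ + 1)²` is injective on `S₂(Γ₀(N))`. -/
theorem ribetDet_injective {ℓ : ℕ} (hℓ : ℓ.Prime) (hℓN : ¬ ℓ ∣ N) :
    Function.Injective (ribetDet N hℓ hℓN) := by
  rw [← LinearMap.ker_eq_bot, LinearMap.ker_eq_bot']
  intro f hf
  rw [ribetDet_apply, sub_eq_zero] at hf
  have hnorm : ‖((ℓ : ℂ) + 1)‖ = (ℓ : ℝ) + 1 := by
    have : ((ℓ : ℂ) + 1) = (((ℓ + 1 : ℕ) : ℝ) : ℂ) := by push_cast; ring
    rw [this, Complex.norm_real, Real.norm_of_nonneg (by positivity)]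
    push_cast; ring
  by_contra hne
  by_cases hg : CuspForm.heckeTLin 2 hℓ hℓN f + ((ℓ : ℂ) + 1) • f = 0
  · have h : CuspForm.heckeTLin 2 hℓ hℓN f = (-((ℓ : ℂ) + 1)) • f := by
      exact (eq_neg_of_add_eq_zero_left hg).trans (_root_.neg_smul _ _).symm
    have := norm_lt_of_heckeTLin_eq hne hℓ hℓN h
    rw [norm_neg, hnorm] at this
    exact lt_irrefl _ this
  · have h : CuspForm.heckeTLin 2 hℓ hℓN (CuspForm.heckeTLin 2 hℓ hℓN f + ((ℓ : ℂ) + 1) • f)
        = ((ℓ : ℂ) + 1) • (CuspForm.heckeTLin 2 hℓ hℓN f + ((ℓ : ℂ) + 1) • f) := by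
      rw [map_add, map_smul, hf, smul_add, smul_smul, pow_two]
      abel
    have := norm_lt_of_heckeTLin_eq hg hℓ hℓN h
    rw [hnorm] at this
    exact lt_irrefl _ this

/-- `T_ℓ² - (ℓ + 1)²` is bijective on `S₂(Γ₀(N))`: the determinant of Ribet's matrix
`[[ℓ + 1, T_ℓ], [T_ℓ, ℓ + 1]]` is invertible over `ℂ`. -/
theorem ribetDet_bijective {ℓ : ℕ} (hℓ : ℓ.Prime) (hℓN : ¬ ℓ ∣ N) :
    Function.Bijective (ribetDet N hℓ hℓN) := by
  have : NeZero N := ⟨fun h0 ↦ hℓN (h0 ▸ dvd_zero ℓ)⟩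
  have := H683.finiteDimensional_cuspForm N 2
  have hinj := ribetDet_injective (N := N) hℓ hℓN
  exact ⟨hinj, LinearMap.surjective_of_injective hinj⟩

/-- `T_ℓ² - (ℓ + 1)²` is a unit of `End(S₂(Γ₀(N)))`. -/
theorem isUnit_ribetDet {ℓ : ℕ} (hℓ : ℓ.Prime) (hℓN : ¬ ℓ ∣ N) : IsUnit (ribetDet N hℓ hℓN) :=
  (Module.End.isUnit_iff _).mpr (ribetDet_bijective hℓ hℓN)

end Fermat.Agent.Lib.Newform.H263

end
-- ===== PACK-END Lib/Newform/H263/Eigenform.lean

-- ===== PACK-BEGIN S55/Bridge/InertiaConj.lean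
section


/-!
# S55 bridge: inertia groups of valuation subrings of `ℚ̄` — membership criterion, conjugation,
and normal (Galois) levels unramified outside `S`.
-/

set_option autoImplicit false

namespace Fermat.Agent.S55.Bridge

open IntermediateField
open scoped Pointwise

attribute [local instance] isAlgebraic_Qbar isGalois_Qbar

section inertia

variable (A : ValuationSubring (AlgebraicClosure ℚ))

/-- Membership in the decomposition group, elementwise. -/
theorem mem_decompositionSubgroup_iff (σ : AlgebraicClosure ℚ ≃ₐ[ℚ] AlgebraicClosure ℚ) :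
    σ ∈ A.decompositionSubgroup ℚ ↔ ∀ x, σ x ∈ A ↔ x ∈ A := by
  rw [MulAction.mem_stabilizer_iff]
  constructor
  · intro h x
    have hinv : σ⁻¹ • A = A := by
      conv_lhs => rw [← h]
      rw [inv_smul_smul]
    have h1 := ValuationSubring.mem_pointwise_smul_iff_inv_smul_mem (S := A)
      (g := σ⁻¹) (x := x)
    rw [hinv, inv_inv] at h1
    rw [h1]
    rfl
  · intro h
    apply SetLike.ext
    intro x
    rw [ValuationSubring.mem_pointwise_smul_iff_inv_smul_mem]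
    have h2 := h (σ⁻¹ • x)
    rw [AlgEquiv.smul_def] at h2 ⊢
    rw [← h2]
    have : σ (σ⁻¹ x) = x := by
      show (σ * σ⁻¹) x = x
      rw [mul_inv_cancel]
      rfl
    rw [this]

/-- Membership in the inertia group, elementwise. -/
theorem mem_inertiaSubgroupIn_iff (σ : AlgebraicClosure ℚ ≃ₐ[ℚ] AlgebraicClosure ℚ) :
    σ ∈ A.inertiaSubgroupIn ℚ ↔
      σ ∈ A.decompositionSubgroup ℚ ∧ ∀ z ∈ A, σ z - z ∈ A.nonunits := by
  constructor
  · intro hσ
    have hD : σ ∈ A.decompositionSubgroup ℚ := by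
      obtain ⟨g, -, rfl⟩ := hσ
      exact g.2
    refine ⟨hD, fun z hz => ?_⟩
    rw [ValuationSubring.mem_nonunits_iff]
    exact inertia_val_sub_lt_one A hσ z ((A.valuation_le_one_iff z).2 hz)
  · rintro ⟨hD, h⟩
    refine ⟨⟨σ, hD⟩, ?_, rfl⟩
    show (⟨σ, hD⟩ : A.decompositionSubgroup ℚ) ∈ MonoidHom.ker
      (MulSemiringAction.toRingAut (A.decompositionSubgroup ℚ) (IsLocalRing.ResidueField A))
    rw [MonoidHom.mem_ker]
    apply RingEquiv.ext
    intro y
    obtain ⟨x, rfl⟩ := IsLocalRing.residue_surjective y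
    show (⟨σ, hD⟩ : A.decompositionSubgroup ℚ) • (IsLocalRing.residue A x)
      = IsLocalRing.residue A x
    rw [← IsLocalRing.ResidueField.residue_smul]
    rw [← sub_eq_zero, ← map_sub, IsLocalRing.residue_eq_zero_iff]
    have h3 := h x.1 x.2
    rw [ValuationSubring.mem_nonunits_iff] at h3
    rw [ValuationSubring.valuation_lt_one_iff]
    exact h3

theorem mem_smul_valuationSubring_iff (b : AlgebraicClosure ℚ ≃ₐ[ℚ] AlgebraicClosure ℚ)
    (x : AlgebraicClosure ℚ) : x ∈ b • A ↔ b⁻¹ x ∈ A := by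
  rw [ValuationSubring.mem_pointwise_smul_iff_inv_smul_mem]
  rfl

theorem mem_nonunits_iff_inv_not_mem (x : AlgebraicClosure ℚ) :
    x ∈ A.nonunits ↔ x = 0 ∨ x⁻¹ ∉ A := by
  rw [ValuationSubring.mem_nonunits_iff]
  rcases eq_or_ne x 0 with rfl | hx
  · simp
  · simp only [hx, false_or]
    rw [← A.valuation_le_one_iff, map_inv₀, not_le]
    have hpos : 0 < A.valuation x := by
      rw [zero_lt_iff]
      exact (A.valuation.ne_zero_iff).2 hx
    rw [one_lt_inv₀ hpos]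

theorem mem_nonunits_smul_iff (b : AlgebraicClosure ℚ ≃ₐ[ℚ] AlgebraicClosure ℚ)
    (x : AlgebraicClosure ℚ) : x ∈ (b • A).nonunits ↔ b⁻¹ x ∈ A.nonunits := by
  rw [mem_nonunits_iff_inv_not_mem, mem_nonunits_iff_inv_not_mem, mem_smul_valuationSubring_iff,
    map_inv₀]
  have : b⁻¹ x = 0 ↔ x = 0 := by
    rw [map_eq_zero_iff _ (b⁻¹).injective]
  rw [this]

theorem liesOverPrime_smul (b : AlgebraicClosure ℚ ≃ₐ[ℚ] AlgebraicClosure ℚ) (q : ℕ)
    (hA : A.LiesOverPrime q) : (b • A).LiesOverPrime q := by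
  show (q : AlgebraicClosure ℚ) ∈ (b • A).nonunits
  rw [mem_nonunits_smul_iff, map_natCast]
  exact hA

theorem apply_inv_conj (b σ : AlgebraicClosure ℚ ≃ₐ[ℚ] AlgebraicClosure ℚ)
    (x : AlgebraicClosure ℚ) : b⁻¹ ((b * σ * b⁻¹) x) = σ (b⁻¹ x) := by
  show (b⁻¹ * (b * σ * b⁻¹)) x = (σ * b⁻¹) x
  congr 1
  group

/-- Conjugation carries the inertia group of `A` to that of `b • A`. -/
theorem conj_mem_inertiaSubgroupIn (b σ : AlgebraicClosure ℚ ≃ₐ[ℚ] AlgebraicClosure ℚ)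
    (hσ : σ ∈ A.inertiaSubgroupIn ℚ) : b * σ * b⁻¹ ∈ (b • A).inertiaSubgroupIn ℚ := by
  rw [mem_inertiaSubgroupIn_iff] at hσ ⊢
  obtain ⟨hD, hI⟩ := hσ
  rw [mem_decompositionSubgroup_iff] at hD
  refine ⟨?_, ?_⟩
  · rw [mem_decompositionSubgroup_iff]
    intro x
    rw [mem_smul_valuationSubring_iff, mem_smul_valuationSubring_iff, apply_inv_conj, hD]
  · intro z hz
    rw [mem_smul_valuationSubring_iff] at hz
    rw [mem_nonunits_smul_iff, map_sub, apply_inv_conj]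
    exact hI _ hz

end inertia

section Levels

variable (S : Finset Nat.Primes)

/-- Every finite extension unramified outside `S` is contained in a finite GALOIS extension
unramified outside `S`. -/
theorem exists_galois_level_ge (F : IntermediateField ℚ (AlgebraicClosure ℚ))
    (hF : F.IsUnramifiedOutside S) :
    ∃ L : IntermediateField ℚ (AlgebraicClosure ℚ),
      L.IsUnramifiedOutside S ∧ IsGalois ℚ L ∧ F ≤ L := by
  haveI := hF.1
  haveI : (F.fixingSubgroup.normalCore).Normal := Subgroup.normalCore_normal _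
  -- the normal closure is a finite Galois extension containing `F`
  have hfinN : FiniteDimensional ℚ (IntermediateField.normalClosure ℚ F (AlgebraicClosure ℚ)) :=
    normalClosure.is_finiteDimensional ℚ F (AlgebraicClosure ℚ)
  have hgalN : IsGalois ℚ (IntermediateField.normalClosure ℚ F (AlgebraicClosure ℚ)) :=
    IsGalois.normalClosure ℚ F (AlgebraicClosure ℚ)
  have hnormal : (IntermediateField.normalClosure ℚ F
      (AlgebraicClosure ℚ)).fixingSubgroup.Normal :=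
    (InfiniteGalois.normal_iff_isGalois _).2 hgalN
  have hle : (IntermediateField.normalClosure ℚ F (AlgebraicClosure ℚ)).fixingSubgroup
      ≤ F.fixingSubgroup.normalCore := by
    rw [Subgroup.normal_le_normalCore]
    exact IntermediateField.fixingSubgroup_antitone (IntermediateField.le_normalClosure F)
  obtain ⟨L, hL, hgal, hfix, -⟩ := exists_galois_level_of_subgroup S F.fixingSubgroup.normalCore
    (IntermediateField.normalClosure ℚ F (AlgebraicClosure ℚ)) hfinN hle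
    (by
      intro q hq A hA σ hσ
      rw [Subgroup.normalCore]
      intro b
      have h1 := conj_mem_inertiaSubgroupIn A b σ hσ
      exact hF.2 q hq (b • A) (liesOverPrime_smul A b q hA) h1)
  refine ⟨L, hL, hgal, ?_⟩
  have h2 : L.fixingSubgroup ≤ F.fixingSubgroup := by
    rw [hfix]
    exact Subgroup.normalCore_le _
  rw [← InfiniteGalois.fixedField_fixingSubgroup F, ← InfiniteGalois.fixedField_fixingSubgroup L]
  exact IntermediateField.fixedField_antitone h2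

end Levels

end Fermat.Agent.S55.Bridge

end
-- ===== PACK-END S55/Bridge/InertiaConj.lean

-- ===== PACK-BEGIN S14/H937/Setup.lean
section






/-!
# S14, blocks LOCAL-I / LOCAL-D (helper937): finite-level package

`A` a valuation subring of `ℚ̄`, `K` a number field inside `ℚ̄`, `M/K` a finite Galois extension
inside `ℚ̄`.  We relate `A` to the primes of `𝓞 K` and `𝓞 M` below it, and lift elements of the
inertia / decomposition groups of `Gal(M/K)` to `Gal(ℚ̄/K)`.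
-/

set_option autoImplicit false
set_option linter.style.haveILetI false

open NumberField
open scoped Pointwise

namespace Fermat.Agent.S14.H937

/-- `ℚ̄`. -/
abbrev Qb := AlgebraicClosure ℚ

theorem h937_isAlgebraic : Algebra.IsAlgebraic ℚ Qb := AlgebraicClosure.isAlgebraic ℚ

section toZbar

variable (F : Type*) [Field F] [Algebra F Qb]

/-- The ring hom from the integers of a field mapping to `ℚ̄` to the ring of all algebraic
integers. -/
noncomputable def toZbar : 𝓞 F →+* integralClosure ℤ Qb where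
  toFun x := ⟨algebraMap F Qb (x : F), map_isIntegral_int (algebraMap F Qb) x.2⟩
  map_one' := by ext; simp
  map_mul' x y := by ext; simp
  map_zero' := by ext; simp
  map_add' x y := by ext; simp

theorem toZbar_coe (x : 𝓞 F) : ((toZbar F x : integralClosure ℤ Qb) : Qb) =
    algebraMap F Qb (x : F) := rfl

/-- The prime of `𝓞 F` below a valuation subring of `ℚ̄`. -/
noncomputable def primeOf (A : ValuationSubring Qb) : Ideal (𝓞 F) :=
  (Fermat.Agent.S54.primeBelow A).comap (toZbar F)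

theorem mem_primeOf (A : ValuationSubring Qb) (x : 𝓞 F) :
    x ∈ primeOf F A ↔ algebraMap F Qb (x : F) ∈ A.nonunits := Iff.rfl

instance primeOf_isPrime (A : ValuationSubring Qb) : (primeOf F A).IsPrime :=
  haveI := Fermat.Agent.S54.primeBelow_isPrime A
  Ideal.comap_isPrime _ _

theorem natCast_mem_primeOf (A : ValuationSubring Qb) (ℓ : ℕ) (hA : A.LiesOverPrime ℓ) :
    (ℓ : 𝓞 F) ∈ primeOf F A := by
  rw [mem_primeOf]
  have hA' : (ℓ : Qb) ∈ A.nonunits := hA
  simpa using hA'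

theorem primeOf_ne_bot [CharZero F] (A : ValuationSubring Qb) (ℓ : ℕ) (hℓ : ℓ.Prime)
    (hA : A.LiesOverPrime ℓ) : primeOf F A ≠ ⊥ := by
  intro h
  have h1 := natCast_mem_primeOf F A ℓ hA
  rw [h, Ideal.mem_bot] at h1
  have : (ℓ : 𝓞 F) ≠ 0 := by
    exact_mod_cast hℓ.ne_zero
  exact this h1

end toZbar

section dict

open IsDedekindDomain

variable (F : Type*) [Field F] [NumberField F] [Algebra F Qb]
variable (A : ValuationSubring Qb) (w : HeightOneSpectrum (𝓞 F)) (hw : w.asIdeal = primeOf F A)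

omit [NumberField F] in
theorem integer_mem (x : 𝓞 F) : algebraMap F Qb (x : F) ∈ A :=
  Fermat.Agent.S54.isIntegral_mem_valuationSubring A (map_isIntegral_int (algebraMap F Qb) x.2)

theorem mul_mem_nonunits_left {a b : Qb} (ha : a ∈ A.nonunits) (hb : b ∈ A) :
    a * b ∈ A.nonunits := by
  obtain ⟨h1, h2⟩ := ValuationSubring.mem_nonunits_iff_exists_mem_maximalIdeal.mp ha
  have := Ideal.mul_mem_right (⟨b, hb⟩ : A) _ h2
  exact ValuationSubring.mem_nonunits_iff_exists_mem_maximalIdeal.mpr ⟨_, this⟩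

theorem inv_mem_of_not_mem_nonunits {a : Qb} (ha : a ∉ A.nonunits) : a⁻¹ ∈ A := by
  by_contra h
  exact ha (A.mem_nonunits_iff_or.mpr (Or.inr h))

include hw in
theorem mem_of_valuation_le_one (x : F) (hx : w.valuation F x ≤ 1) :
    algebraMap F Qb x ∈ A := by
  obtain ⟨n, d, hnd⟩ := w.exists_primeCompl_mul_eq_of_integer x hx
  have hd : algebraMap F Qb ((d : 𝓞 F) : F) ∉ A.nonunits := by
    have h1 : (d : 𝓞 F) ∉ primeOf F A := by
      rw [← hw]; exact d.2
    rw [mem_primeOf] at h1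
    exact h1
  have hd0 : algebraMap F Qb ((d : 𝓞 F) : F) ≠ 0 := fun h0 => hd (h0 ▸ A.nonunits.zero_mem)
  have h2 : algebraMap F Qb x = algebraMap F Qb ((n : 𝓞 F) : F) *
      (algebraMap F Qb ((d : 𝓞 F) : F))⁻¹ := by
    rw [eq_mul_inv_iff_mul_eq₀ hd0, ← map_mul]
    congr 1
  rw [h2]
  exact A.mul_mem _ _ (integer_mem F A n) (inv_mem_of_not_mem_nonunits A hd)

include hw in
theorem mem_nonunits_of_valuation_lt_one (x : F) (hx : w.valuation F x < 1) :
    algebraMap F Qb x ∈ A.nonunits := by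
  obtain ⟨n, d, hnd⟩ := w.exists_primeCompl_mul_eq_of_integer x hx.le
  have hd : algebraMap F Qb ((d : 𝓞 F) : F) ∉ A.nonunits := by
    have h1 : (d : 𝓞 F) ∉ primeOf F A := by
      rw [← hw]; exact d.2
    rw [mem_primeOf] at h1
    exact h1
  have hd0 : algebraMap F Qb ((d : 𝓞 F) : F) ≠ 0 := fun h0 => hd (h0 ▸ A.nonunits.zero_mem)
  have hdv : w.valuation F ((d : 𝓞 F) : F) = 1 := by
    rw [HeightOneSpectrum.valuation_of_algebraMap, HeightOneSpectrum.intValuation_eq_one_iff_mem_primeCompl]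
    exact d.2
  have hn : (n : 𝓞 F) ∈ w.asIdeal := by
    rw [← HeightOneSpectrum.valuation_lt_one_iff_mem (K := F)]
    have : w.valuation F ((n : 𝓞 F) : F) = w.valuation F x * w.valuation F ((d : 𝓞 F) : F) := by
      rw [← map_mul]; congr 1; exact hnd.symm
    rw [this, hdv, mul_one]
    exact hx
  rw [hw, mem_primeOf] at hn
  have h2 : algebraMap F Qb x = algebraMap F Qb ((n : 𝓞 F) : F) *
      (algebraMap F Qb ((d : 𝓞 F) : F))⁻¹ := by
    rw [eq_mul_inv_iff_mul_eq₀ hd0, ← map_mul]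
    congr 1
  rw [h2]
  exact mul_mem_nonunits_left A hn (inv_mem_of_not_mem_nonunits A hd)

include hw in
theorem valuation_eq_one_of (x : F) (hx : w.valuation F x = 1) :
    A.valuation (algebraMap F Qb x) = 1 := by
  have hx0 : x ≠ 0 := by
    rintro rfl
    simp at hx
  have h1 := mem_of_valuation_le_one F A w hw x hx.le
  have h2 : w.valuation F x⁻¹ ≤ 1 := by
    rw [map_inv₀, hx, inv_one]
  have h3 := mem_of_valuation_le_one F A w hw x⁻¹ h2
  rw [map_inv₀] at h3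
  apply le_antisymm
  · exact (A.valuation_le_one_iff _).mpr h1
  · have h4 := (A.valuation_le_one_iff _).mpr h3
    rw [map_inv₀] at h4
    have hne : A.valuation (algebraMap F Qb x) ≠ 0 := by
      rw [Valuation.ne_zero_iff]
      simpa using hx0
    exact (inv_le_one₀ (zero_lt_iff.mpr hne)).mp h4

include hw in
theorem valuation_le_one_of_mem (x : F) (hx : algebraMap F Qb x ∈ A) :
    w.valuation F x ≤ 1 := by
  by_contra hcon
  rw [not_le] at hcon
  have hx0 : x ≠ 0 := by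
    rintro rfl
    simp at hcon
  have h1 : w.valuation F x⁻¹ < 1 := by
    rw [map_inv₀]
    exact inv_lt_one_of_one_lt₀ hcon
  have h2 := mem_nonunits_of_valuation_lt_one F A w hw x⁻¹ h1
  rw [map_inv₀, ValuationSubring.mem_nonunits_iff, map_inv₀] at h2
  have h3 := (A.valuation_le_one_iff _).mpr hx
  have hne : A.valuation (algebraMap F Qb x) ≠ 0 := by
    rw [Valuation.ne_zero_iff]
    simpa using hx0
  have h4 : 1 < A.valuation (algebraMap F Qb x) := by
    have := (inv_lt_one₀ (zero_lt_iff.mpr hne)).mp h2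
    exact this
  exact absurd h3 (not_le.mpr h4)

end dict

end Fermat.Agent.S14.H937

end
-- ===== PACK-END S14/H937/Setup.lean

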