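import Mathlib
import Mathlib.NumberTheory.LSeries.Injectivity
import Fermat.Prelude.Def_FLTPrelim_Modularity
import Fermat.Agent.Pack.S36.E5L3
import Fermat.Agent.Pack.S36.E4L0
import Fermat.Agent.Pack.S36.E5L1
import Fermat.Agent.Pack.S36.E1L1
import Fermat.Agent.Pack.S36.E5L0
import Fermat.Agent.Pack.S36.E5L2
import Fermat.Agent.Pack.S36.E6L2
import Fermat.Agent.Pack.S36.E6L0
import Fermat.Agent.Pack.S36.E2L3

-- ===== PACK-BEGIN S37/H700/GaussSpan.lean
section


/-!
# S37 / piece GAUSS (helper700): the integral monomials span `F̄_N` over `L(j)`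
-/

set_option autoImplicit false

noncomputable section

namespace Fermat.Agent.S37.H700

open ModularCurve HahnSeries Polynomial
open Fermat.Agent.S28 (jField intDivisorExpansions)

section IntSeries

variable (K : Type*) [Field K]

/-- Reduction/base change of an element of `ℤ[j(q^d) : d ∣ N]` lies in `K(j(q^d) : d ∣ N)`. -/
theorem coeffMap_intCast_mem_fullC (N : ℕ) {y : LaurentSeries ℤ}
    (hy : y ∈ Subring.closure (intDivisorExpansions N)) :
    coeffMap (Int.castRingHom K) y ∈ modularFunctionFieldFullC K N := by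
  induction hy using Subring.closure_induction with
  | mem x hx =>
    obtain ⟨d, hd, hdN, rfl⟩ := hx
    rw [coeffMap_qExpand, coeffMap_jqModC]
    exact jqModCd_mem_full K N hdN
  | zero => simp
  | one => simp
  | add x y _ _ hx hy => rw [map_add]; exact add_mem hx hy
  | neg x _ hx => rw [map_neg]; exact neg_mem hx
  | mul x y _ _ hx hy => rw [map_mul]; exact mul_mem hx hy

theorem smul_jField_def (c : jField K) (x : LaurentSeries K) :
    c • x = (c : LaurentSeries K) * x := rfl

end IntSeries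

section Span

variable (L : Type*) [Field L] [Algebra ℚ L]

theorem coeffEmb_evalJ (P : ℚ[X]) :
    coeffEmb L (evalJ ℚ P) = evalJ L (P.map (algebraMap ℚ L)) :=
  coeffMap_evalJ _ P

theorem coeffEmb_intCast (y : LaurentSeries ℤ) :
    coeffEmb L (coeffMap (Int.castRingHom ℚ) y) = coeffMap (Int.castRingHom L) y := by
  rw [coeffEmb, coeffMap_coeffMap]
  exact coeffMap_congr (RingHom.ext_int _ _) y

/-- `coeffEmb` maps `ℚ(j)` into `L(j)`. -/
theorem coeffEmb_mem_jField {c : LaurentSeries ℚ} (hc : c ∈ jField ℚ) :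
    coeffEmb L c ∈ jField L := by
  obtain ⟨r, s, hs, hrs⟩ := exists_evalJ_of_mem_jField ℚ hc
  have h := congrArg (coeffEmb L) hrs
  rw [map_mul, coeffEmb_evalJ, coeffEmb_evalJ] at h
  have hs' : evalJ L (s.map (algebraMap ℚ L)) ≠ 0 := by
    rw [Ne, evalJ_eq_zero_iff]
    exact (Polynomial.map_ne_zero_iff (algebraMap ℚ L).injective).mpr hs
  have : coeffEmb L c = evalJ L (r.map (algebraMap ℚ L)) * (evalJ L (s.map (algebraMap ℚ L)))⁻¹ := by
    rw [← h, mul_assoc, mul_inv_cancel₀ hs', mul_one]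
  rw [this]
  exact mul_mem (evalJ_mem_jField L _) (inv_mem (evalJ_mem_jField L _))

variable {n : ℕ} (y : Fin n → LaurentSeries ℤ)

/-- The `L(j)`-span of the base-changed monomials. -/
def spanL : Submodule (jField L) (LaurentSeries L) :=
  Submodule.span (jField L) (Set.range fun i => coeffMap (Int.castRingHom L) (y i))

theorem coeffEmb_mem_spanL {x : LaurentSeries ℚ}
    (hx : x ∈ Submodule.span (jField ℚ)
      (Set.range fun i => coeffMap (Int.castRingHom ℚ) (y i))) :
    coeffEmb L x ∈ spanL L y := by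
  induction hx using Submodule.span_induction with
  | mem x hx =>
    obtain ⟨i, rfl⟩ := hx
    rw [coeffEmb_intCast]
    exact Submodule.subset_span ⟨i, rfl⟩
  | zero => rw [map_zero]; exact zero_mem _
  | add x y _ _ hx hy => rw [map_add]; exact add_mem hx hy
  | smul c x _ hx =>
    rw [smul_jField_def, map_mul]
    exact (spanL L y).smul_mem ⟨coeffEmb L c, coeffEmb_mem_jField L c.2⟩ hx

variable (N : ℕ)
variable (hy_mem : ∀ i, y i ∈ Subring.closure (intDivisorExpansions N))
variable (hy_span : ∀ x ∈ modularFunctionFieldFull N,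
      x ∈ Submodule.span (jField ℚ)
        (Set.range fun i => coeffMap (Int.castRingHom ℚ) (y i)))

include hy_span in
theorem coeffEmb_mem_spanL_of_mem {x : LaurentSeries ℚ} (hx : x ∈ modularFunctionFieldFull N) :
    coeffEmb L x ∈ spanL L y :=
  coeffEmb_mem_spanL L y (hy_span x hx)

include hy_span in
theorem one_mem_spanL : (1 : LaurentSeries L) ∈ spanL L y := by
  have := coeffEmb_mem_spanL_of_mem L y N hy_span (one_mem (modularFunctionFieldFull N))
  rwa [map_one] at this

include hy_mem hy_span in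
theorem gen_mul_gen_mem_spanL (i j : Fin n) :
    coeffMap (Int.castRingHom L) (y i) * coeffMap (Int.castRingHom L) (y j) ∈ spanL L y := by
  rw [← coeffEmb_intCast L (y i), ← coeffEmb_intCast L (y j), ← map_mul]
  refine coeffEmb_mem_spanL_of_mem L y N hy_span (mul_mem ?_ ?_)
  · rw [← modularFunctionFieldFullC_rat]; exact coeffMap_intCast_mem_fullC ℚ N (hy_mem i)
  · rw [← modularFunctionFieldFullC_rat]; exact coeffMap_intCast_mem_fullC ℚ N (hy_mem j)

include hy_mem hy_span in
theorem mul_mem_spanL {a b : LaurentSeries L} (ha : a ∈ spanL L y) (hb : b ∈ spanL L y) :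
    a * b ∈ spanL L y := by
  induction ha using Submodule.span_induction with
  | mem a ha =>
    obtain ⟨i, rfl⟩ := ha
    induction hb using Submodule.span_induction with
    | mem b hb =>
      obtain ⟨j, rfl⟩ := hb
      exact gen_mul_gen_mem_spanL L y N hy_mem hy_span i j
    | zero => rw [mul_zero]; exact zero_mem _
    | add x z _ _ hx hz => rw [mul_add]; exact add_mem hx hz
    | smul c x _ hx =>
      rw [smul_jField_def, mul_left_comm]
      exact (spanL L y).smul_mem c hx
  | zero => rw [zero_mul]; exact zero_mem _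
  | add x z _ _ hx hz => rw [add_mul]; exact add_mem hx hz
  | smul c x _ hx =>
    rw [smul_jField_def, mul_assoc]
    exact (spanL L y).smul_mem c hx

/-- The span as a subalgebra over `L(j)`. -/
def spanAlg : Subalgebra (jField L) (LaurentSeries L) :=
  (spanL L y).toSubalgebra (one_mem_spanL L y N hy_span)
    (fun _ _ ha hb => mul_mem_spanL L y N hy_mem hy_span ha hb)

include hy_mem hy_span in
theorem inv_mem_spanL {a : LaurentSeries L} (ha : a ∈ spanL L y) : a⁻¹ ∈ spanL L y := by
  have hfg : (spanAlg L y N hy_mem hy_span).toSubmodule.FG := by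
    show (spanL L y).FG
    exact Submodule.fg_span (Set.finite_range _)
  have hint : IsIntegral (jField L) a :=
    IsIntegral.of_mem_of_fg (spanAlg L y N hy_mem hy_span) hfg a ha
  exact (spanAlg L y N hy_mem hy_span).inv_mem_of_algebraic
    (x := ⟨a, ha⟩) hint.isAlgebraic

include hy_mem hy_span in
/-- **Spanning over `L`**: every element of `F̄_N = L·F_N` is an `L(j)`-combination of the
integral monomials. -/
theorem mem_spanL_of_mem_baseChange {x : LaurentSeries L}
    (hx : x ∈ laurentBaseChange L (modularFunctionFieldFull N)) : x ∈ spanL L y := by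
  rw [mem_laurentBaseChange_iff] at hx
  induction hx using Subfield.closure_induction with
  | mem x hx =>
    rcases hx with ⟨a, rfl⟩ | ⟨z, hz, rfl⟩
    · have h1 := one_mem_spanL L y N hy_span
      have := (spanL L y).smul_mem
        (⟨algebraMap L (LaurentSeries L) a, (jField L).algebraMap_mem a⟩ : jField L) h1
      rwa [smul_jField_def, mul_one] at this
    · exact coeffEmb_mem_spanL_of_mem L y N hy_span hz
  | one => exact one_mem_spanL L y N hy_span
  | add x z _ _ hx hz => exact add_mem hx hz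
  | neg x _ hx => exact neg_mem hx
  | inv x _ hx => exact inv_mem_spanL L y N hy_mem hy_span hx
  | mul x z _ _ hx hz => exact mul_mem_spanL L y N hy_mem hy_span hx hz

end Span

end Fermat.Agent.S37.H700

end
end
-- ===== PACK-END S37/H700/GaussSpan.lean

-- ===== PACK-BEGIN Lib/RR/Basic.lean
section


/-!
# RR library, layer L1: the spaces `L(D)`

* `L(D) = 0` for `deg D < 0`;
* `L(D + P) ⊆ L(D) + K f₀`;
* `L(D)` is finite-dimensional and `ℓ(D) ≤ deg D + 1` for `deg D ≥ -1`;
* `L(0) = K`, `ℓ(0) = 1`;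
* `ℓ(D + div z) = ℓ(D)`.
-/

set_option autoImplicit false

noncomputable section

open AlgebraicCurve

namespace Fermat.Agent.Lib.RR

variable {K F : Type*} [Field K] [Field F] [Algebra K F]

/-! ### Divisors and degrees -/

theorem degree_eq_sum (D : Divisor K F) :
    Divisor.degree D = ∑ v ∈ D.support, D v * (v.deg : ℤ) := by
  simp [Divisor.degree, Finsupp.liftAddHom_apply, Finsupp.sum]

theorem degree_nonneg {D : Divisor K F} (h : 0 ≤ D) : 0 ≤ Divisor.degree D := by
  rw [degree_eq_sum]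
  refine Finset.sum_nonneg fun v _ => mul_nonneg ?_ (Int.natCast_nonneg _)
  simpa using Finsupp.le_def.mp h v

theorem degree_mono {D D' : Divisor K F} (h : D ≤ D') :
    Divisor.degree D ≤ Divisor.degree D' := by
  have h1 : 0 ≤ D' - D := sub_nonneg.mpr h
  have h2 := degree_nonneg h1
  rw [map_sub] at h2
  linarith

theorem degree_prim (v : Place K F) (hv : v.deg = 1) : Divisor.degree (prim v) = 1 := by
  simp [prim, hv]

@[simp] theorem prim_apply_self (v : Place K F) : prim v v = 1 := by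
  simp [prim]

theorem prim_apply_of_ne {v w : Place K F} (h : w ≠ v) : prim v w = 0 := by
  simp [prim, h.symm]

/-! ### The spaces `L(D)` -/

theorem mem_L_iff {D : Divisor K F} {f : F} :
    f ∈ riemannRochSpace D ↔ ∀ v : Place K F, f = 0 ∨ -D v ≤ v.ord f :=
  mem_riemannRochSpace_iff

theorem L_mono {D D' : Divisor K F} (h : D ≤ D') :
    riemannRochSpace D ≤ riemannRochSpace D' := by
  intro f hf
  rw [mem_L_iff] at hf ⊢
  intro v
  rcases hf v with h0 | h1
  · exact Or.inl h0
  · right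
    have := Finsupp.le_def.mp h v
    omega

/-- A nonzero element of `L(D)` forces `deg D ≥ 0`. -/
theorem degree_nonneg_of_mem_L [HasPrincipalDivisors K F] {D : Divisor K F} {f : F}
    (hf : f ∈ riemannRochSpace D) (hf0 : f ≠ 0) : 0 ≤ Divisor.degree D := by
  obtain ⟨E, hE, hE0⟩ := HasPrincipalDivisors.exists_divisor (K := K) f hf0
  have h1 : 0 ≤ D + E := by
    rw [Finsupp.le_def]
    intro v
    have := (mem_L_iff.mp hf v).resolve_left hf0
    simp only [Finsupp.coe_zero, Pi.zero_apply, Finsupp.coe_add, Pi.add_apply, hE v]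
    omega
  have h2 := degree_nonneg h1
  rw [map_add, hE0, add_zero] at h2
  exact h2

theorem L_eq_bot_of_degree_neg [HasPrincipalDivisors K F] {D : Divisor K F}
    (h : Divisor.degree D < 0) : riemannRochSpace D = ⊥ := by
  rw [eq_bot_iff]
  intro f hf
  rw [Submodule.mem_bot]
  by_contra hf0
  have := degree_nonneg_of_mem_L hf hf0
  omega

/-- One step: `L(D + P) ⊆ L(D) + K f₀` for any `f₀ ∈ L(D + P) \ L(D)`, `P` of degree one. -/
theorem L_add_prim_le (v : Place K F) (hv : v.deg = 1) (D : Divisor K F) {f₀ : F}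
    (hf₀ : f₀ ∈ riemannRochSpace (D + prim v)) (hf₀' : f₀ ∉ riemannRochSpace D) :
    riemannRochSpace (D + prim v) ≤ riemannRochSpace D ⊔ Submodule.span K {f₀} := by
  classical
  have hf₀0 : f₀ ≠ 0 := fun h => hf₀' (h ▸ Submodule.zero_mem _)
  -- the order of `f₀` at `v` is exactly `-(D v + 1)`
  have hord₀ : v.ord f₀ = -(D v + 1) := by
    have h1 := (mem_L_iff.mp hf₀ v).resolve_left hf₀0
    simp only [Finsupp.coe_add, Pi.add_apply, prim_apply_self] at h1
    by_contra hne
    apply hf₀'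
    rw [mem_L_iff]
    intro w
    right
    by_cases hw : w = v
    · subst hw; omega
    · have h2 := (mem_L_iff.mp hf₀ w).resolve_left hf₀0
      simpa [prim_apply_of_ne hw] using h2
  intro f hf
  rcases eq_or_ne f 0 with rfl | hf0
  · exact Submodule.zero_mem _
  have hordf := (mem_L_iff.mp hf v).resolve_left hf0
  simp only [Finsupp.coe_add, Pi.add_apply, prim_apply_self] at hordf
  have hg : 0 ≤ v.ord (f * f₀⁻¹) := by
    rw [v.ord_mul hf0 (inv_ne_zero hf₀0), v.ord_inv, hord₀]; omega
  obtain ⟨c, hc⟩ := exists_const_sub v hv hg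
  have hdecomp : f = (f - c • f₀) + c • f₀ := by ring
  rw [hdecomp]
  refine Submodule.add_mem _ (Submodule.mem_sup_left ?_)
    (Submodule.mem_sup_right (Submodule.smul_mem _ _ (Submodule.mem_span_singleton_self _)))
  have hmem' : f - c • f₀ ∈ riemannRochSpace (D + prim v) :=
    Submodule.sub_mem _ hf (Submodule.smul_mem _ _ hf₀)
  rw [mem_L_iff]
  intro w
  by_cases hw : w = v
  · subst hw
    have hfac : f - c • f₀ = (f * f₀⁻¹ - algebraMap K F c) * f₀ := by
      rw [Algebra.smul_def]; field_simp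
    rcases hc with hc | hc
    · left; rw [hfac, hc, zero_mul]
    · rcases eq_or_ne (f - c • f₀) 0 with h0 | h0
      · exact Or.inl h0
      right
      have hne : f * f₀⁻¹ - algebraMap K F c ≠ 0 := by
        intro h; rw [hfac, h, zero_mul] at h0; exact h0 rfl
      rw [hfac, w.ord_mul hne hf₀0, hord₀]
      omega
  · have h2 := mem_L_iff.mp hmem' w
    simpa [prim_apply_of_ne hw] using h2

/-- One step, dimension form. -/
theorem L_add_prim_finite (v : Place K F) (hv : v.deg = 1) (D : Divisor K F)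
    [Module.Finite K (riemannRochSpace D)] :
    Module.Finite K (riemannRochSpace (D + prim v)) ∧
      ell (D + prim v) ≤ ell D + 1 := by
  classical
  by_cases h : riemannRochSpace (D + prim v) ≤ riemannRochSpace D
  · have hfin : Module.Finite K (riemannRochSpace (D + prim v)) :=
      Submodule.finiteDimensional_of_le h
    exact ⟨hfin, (Submodule.finrank_mono h).trans (Nat.le_succ _)⟩
  · obtain ⟨f₀, hf₀, hf₀'⟩ := SetLike.not_le_iff_exists.mp h
    have hle := L_add_prim_le v hv D hf₀ hf₀'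
    have hfin' : Module.Finite K ↥(riemannRochSpace D ⊔ Submodule.span K {f₀}) := inferInstance
    have hfin : Module.Finite K (riemannRochSpace (D + prim v)) :=
      Submodule.finiteDimensional_of_le hle
    refine ⟨hfin, ?_⟩
    calc ell (D + prim v) ≤ Module.finrank K ↥(riemannRochSpace D ⊔ Submodule.span K {f₀}) :=
          Submodule.finrank_mono hle
      _ ≤ Module.finrank K (riemannRochSpace D) + Module.finrank K (Submodule.span K {f₀}) :=
          Submodule.finrank_add_le_finrank_add_finrank _ _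
      _ ≤ ell D + 1 := by
          have := finrank_span_singleton (K := K) (fun h => hf₀' (h ▸ Submodule.zero_mem _) : f₀ ≠ 0)
          rw [this]; rfl


/-! ### Consequences under the standing hypotheses -/

section FF1

variable [hFF : FF1 K F]

instance (priority := 100) instHasPrincipalDivisors_of_FF1 : HasPrincipalDivisors K F := hFF.hpd

theorem deg_eq_one (v : Place K F) : v.deg = 1 := FF1.deg_eq_one v

@[simp] theorem degree_prim' (v : Place K F) : Divisor.degree (prim v) = 1 :=
  degree_prim v (deg_eq_one v)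

/-- `L(D)` is finite-dimensional, of dimension at most `deg D + 1`. -/
theorem finite_and_ell_le : ∀ (n : ℕ) (D : Divisor K F), Divisor.degree D + 1 ≤ n →
    Module.Finite K (riemannRochSpace D) ∧ ell D ≤ n := by
  intro n
  induction n with
  | zero =>
    intro D hD
    have h : riemannRochSpace D = ⊥ := L_eq_bot_of_degree_neg (by push_cast at hD; omega)
    refine ⟨by rw [h]; infer_instance, ?_⟩
    have h0 : ell D = 0 := by unfold ell; rw [h]; exact finrank_bot K F
    omega
  | succ n ih =>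
    intro D hD
    obtain ⟨v₀⟩ := hFF.nonempty_place
    have hdeg : Divisor.degree (D - prim v₀) + 1 ≤ n := by
      rw [map_sub, degree_prim']; push_cast at hD; omega
    obtain ⟨hfin, hle⟩ := ih (D - prim v₀) hdeg
    have := L_add_prim_finite v₀ (deg_eq_one v₀) (D - prim v₀)
    rw [sub_add_cancel] at this
    exact ⟨this.1, this.2.trans (by omega)⟩

instance finite_L (D : Divisor K F) : Module.Finite K (riemannRochSpace D) :=
  (finite_and_ell_le (Divisor.degree D + 1).toNat D (Int.self_le_toNat _)).1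

theorem ell_le_toNat (D : Divisor K F) : ell D ≤ (Divisor.degree D + 1).toNat :=
  (finite_and_ell_le (Divisor.degree D + 1).toNat D (Int.self_le_toNat _)).2

theorem ell_le_degree_add_one {D : Divisor K F} (h : -1 ≤ Divisor.degree D) :
    (ell D : ℤ) ≤ Divisor.degree D + 1 := by
  have := ell_le_toNat D
  have h2 : ((Divisor.degree D + 1).toNat : ℤ) = Divisor.degree D + 1 :=
    Int.toNat_of_nonneg (by omega)
  omega

theorem ell_eq_zero_of_degree_neg {D : Divisor K F} (h : Divisor.degree D < 0) : ell D = 0 := by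
  unfold ell; rw [L_eq_bot_of_degree_neg h]; exact finrank_bot K F

theorem ell_mono {D D' : Divisor K F} (h : D ≤ D') : ell D ≤ ell D' :=
  Submodule.finrank_mono (L_mono h)

theorem ell_add_prim_le (D : Divisor K F) (v : Place K F) : ell (D + prim v) ≤ ell D + 1 :=
  (L_add_prim_finite v (deg_eq_one v) D).2

/-- Induction principle: from `D` upwards, adding one place at a time. -/
theorem induction_ge {P : Divisor K F → Prop} (D : Divisor K F) (h0 : P D)
    (hstep : ∀ (D' : Divisor K F) (v : Place K F), D ≤ D' → P D' → P (D' + prim v)) :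
    ∀ D', D ≤ D' → P D' := by
  classical
  have key : ∀ (n : ℕ) (D' : Divisor K F), D ≤ D' → Divisor.degree (D' - D) ≤ n → P D' := by
    intro n
    induction n with
    | zero =>
      intro D' hle hdeg
      have hE : 0 ≤ D' - D := sub_nonneg.mpr hle
      have hE0 : D' - D = 0 := by
        by_contra hne
        obtain ⟨v, hv⟩ := Finsupp.support_nonempty_iff.mpr hne
        rw [Finsupp.mem_support_iff] at hv
        have hv0 : 0 ≤ (D' - D) v := by simpa using Finsupp.le_def.mp hE v
        have hge : prim v ≤ D' - D := by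
          rw [Finsupp.le_def]
          intro w
          by_cases hw : w = v
          · subst hw; rw [prim_apply_self]; omega
          · rw [prim_apply_of_ne hw]; simpa using Finsupp.le_def.mp hE w
        have := degree_mono hge
        rw [degree_prim'] at this
        push_cast at hdeg
        omega
      rw [sub_eq_zero] at hE0
      rw [hE0]; exact h0
    | succ n ih =>
      intro D' hle hdeg
      by_cases hE0 : D' - D = 0
      · rw [sub_eq_zero] at hE0
        rw [hE0]; exact h0
      have hE : 0 ≤ D' - D := sub_nonneg.mpr hle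
      obtain ⟨v, hv⟩ := Finsupp.support_nonempty_iff.mpr hE0
      rw [Finsupp.mem_support_iff] at hv
      have hv0 : 0 ≤ (D' - D) v := by simpa using Finsupp.le_def.mp hE v
      have hge : prim v ≤ D' - D := by
        rw [Finsupp.le_def]
        intro w
        by_cases hw : w = v
        · subst hw; rw [prim_apply_self]; omega
        · rw [prim_apply_of_ne hw]; simpa using Finsupp.le_def.mp hE w
      have hle' : D ≤ D' - prim v := by
        have : D + prim v ≤ D' := by
          have := add_le_add_left hge D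
          rwa [sub_add_cancel, add_comm] at this
        exact le_sub_iff_add_le.mpr this
      have hdeg' : Divisor.degree (D' - prim v - D) ≤ n := by
        have : D' - prim v - D = (D' - D) - prim v := by abel
        rw [this, map_sub, degree_prim']
        push_cast at hdeg; omega
      have := hstep (D' - prim v) v hle' (ih (D' - prim v) hle' hdeg')
      rwa [sub_add_cancel] at this
  intro D' hle
  exact key (Divisor.degree (D' - D)).toNat D' hle (Int.self_le_toNat _)

/-- `deg D - ℓ(D)` is monotone in `D`. -/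
theorem degree_sub_ell_mono {D D' : Divisor K F} (h : D ≤ D') :
    Divisor.degree D - ell D ≤ Divisor.degree D' - ell D' := by
  refine induction_ge (P := fun D' => Divisor.degree D - ell D ≤ Divisor.degree D' - ell D')
    D le_rfl ?_ D' h
  intro D'' v _ hP
  have h1 := ell_add_prim_le D'' v
  rw [map_add, degree_prim']
  omega

/-- Functions without poles are constant. -/
theorem L_zero : riemannRochSpace (0 : Divisor K F) = LinearMap.range (Algebra.linearMap K F) := by
  apply le_antisymm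
  · intro f hf
    obtain ⟨v₀⟩ := hFF.nonempty_place
    have hf0 : 0 ≤ v₀.ord f := by
      rcases mem_L_iff.mp hf v₀ with h | h
      · simp [h]
      · simpa using h
    obtain ⟨c, hc⟩ := exists_const_sub v₀ (deg_eq_one v₀) hf0
    have hcL : algebraMap K F c ∈ riemannRochSpace (0 : Divisor K F) := by
      rw [mem_L_iff]; intro v; right; simp [ord_algebraMap]
    have hg : f - algebraMap K F c ∈ riemannRochSpace (0 : Divisor K F) :=
      Submodule.sub_mem _ hf hcL
    have hzero : f - algebraMap K F c = 0 := by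
      by_contra hne
      have hpos := hc.resolve_left hne
      have hmem : f - algebraMap K F c ∈ riemannRochSpace (-prim v₀) := by
        rw [mem_L_iff]
        intro w
        right
        by_cases hw : w = v₀
        · subst hw; simp only [Finsupp.coe_neg, Pi.neg_apply, prim_apply_self, neg_neg]; omega
        · have := (mem_L_iff.mp hg w).resolve_left hne
          simpa [prim_apply_of_ne hw] using this
      have hbot : riemannRochSpace (-prim v₀) = ⊥ :=
        L_eq_bot_of_degree_neg (by rw [map_neg, degree_prim']; omega)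
      rw [hbot, Submodule.mem_bot] at hmem
      exact hne hmem
    exact ⟨c, by rw [Algebra.linearMap_apply]; exact (sub_eq_zero.mp hzero).symm⟩
  · rintro _ ⟨c, rfl⟩
    rw [mem_L_iff]; intro v; right
    simp [ord_algebraMap]

theorem ell_zero : ell (0 : Divisor K F) = 1 := by
  unfold ell
  rw [L_zero]
  have hinj : Function.Injective (Algebra.linearMap K F) := (algebraMap K F).injective
  rw [LinearMap.finrank_range_of_inj hinj]
  exact Module.finrank_self K

/-- The divisor of a nonzero function. -/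
def divOf (z : F) (hz : z ≠ 0) : Divisor K F :=
  (HasPrincipalDivisors.exists_divisor (K := K) z hz).choose

theorem divOf_apply (z : F) (hz : z ≠ 0) (v : Place K F) : divOf z hz v = v.ord z :=
  (HasPrincipalDivisors.exists_divisor (K := K) z hz).choose_spec.1 v

@[simp] theorem degree_divOf (z : F) (hz : z ≠ 0) : Divisor.degree (divOf (K := K) z hz) = 0 :=
  (HasPrincipalDivisors.exists_divisor (K := K) z hz).choose_spec.2

/-- Multiplication by `z` maps `L(D + div z)` isomorphically onto `L(D)`. -/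
theorem ell_add_divOf (D : Divisor K F) (z : F) (hz : z ≠ 0) :
    ell (D + divOf z hz) = ell D := by
  let e : F ≃ₗ[K] F :=
    LinearEquiv.ofLinearMap (LinearMap.mulLeft K z) (LinearMap.mulLeft K z⁻¹)
      (by ext x; simp [hz]) (by ext x; simp [hz])
  have hmap : Submodule.map (e : F →ₗ[K] F) (riemannRochSpace (D + divOf z hz))
      = riemannRochSpace D := by
    ext f
    simp only [Submodule.mem_map, mem_L_iff]
    constructor
    · rintro ⟨g, hg, rfl⟩ v
      rcases hg v with h | h
      · left; simp [e, h]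
      · rcases eq_or_ne g 0 with rfl | hg0
        · left; simp [e]
        right
        show -D v ≤ v.ord (z * g)
        rw [v.ord_mul hz hg0]
        simp only [Finsupp.coe_add, Pi.add_apply, divOf_apply] at h
        omega
    · intro hf
      refine ⟨z⁻¹ * f, fun v => ?_, by simp [e, hz]⟩
      rcases hf v with h | h
      · left; simp [h]
      · rcases eq_or_ne f 0 with rfl | hf0
        · left; simp
        right
        rw [v.ord_mul (inv_ne_zero hz) hf0, v.ord_inv]
        simp only [Finsupp.coe_add, Pi.add_apply, divOf_apply]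
        omega
  unfold ell
  rw [← hmap]
  exact (LinearEquiv.finrank_map_eq e _).symm

end FF1

end Fermat.Agent.Lib.RR

end
end
-- ===== PACK-END Lib/RR/Basic.lean

-- ===== PACK-BEGIN S18/Mod/H216/Family.lean
section


/-!
# S18 / MOD-ASM (helper216): `GoodModelStatement` from `GoodAt`

`GoodAt M A x S` : for EVERY number field `E ⊆ Q̄` the concrete objects
`(Ec M E, Fc M E, Rc M A E, V, w)` (with `V` the subring whose carrier is `VcSet M A E` and `w` some
uniformiser) form an `Alg.GoodModel`.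

`goodModelStatement_of_goodAt` : the frozen MOD deliverable `Mod.GoodModelStatement M ℓ A`
(node_mod of `Integ/Skeleton.lean`) follows from `GoodAt` for every admissible coordinate.
The family is `{ all concrete good models }`; directedness is monotonicity in `E`.
-/

set_option autoImplicit false
set_option linter.style.haveILetI false

noncomputable section

namespace Fermat.Agent.S18.Mod.H216

open ModularCurve AlgebraicCurve HahnSeries Fermat.Agent.S18 Fermat.Agent.S18.Mod

/-- The per-number-field MOD deliverable. -/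
def GoodAt (M : ℕ) (A : ValuationSubring Qb) (x : Om M) (S : Finset (Om M)) : Prop :=
  ∀ E : IntermediateField ℚ Qb, FiniteDimensional ℚ E →
    ∃ (V : Subring (Om M)) (w : Om M), (V : Set (Om M)) = VcSet M A E ∧
      Alg.GoodModel (Lc M) (Ec M E) (Fc M E) (Rc M A E) V w x S

section Mono

variable (M : ℕ) (A : ValuationSubring Qb) {E E' : IntermediateField ℚ Qb}

theorem Ec_mono (h : E ≤ E') : Ec M E ≤ Ec M E' := by
  rintro _ ⟨a, ha, rfl⟩
  exact ⟨a, h ha, rfl⟩

theorem Fc_mono (h : E ≤ E') : Fc M E ≤ Fc M E' :=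
  Subfield.closure_mono (Set.union_subset_union_left _ (Ec_mono M h))

theorem Rc_mono (h : E ≤ E') : Rc M A E ≤ Rc M A E' := by
  rintro _ ⟨a, ha, rfl⟩
  exact ⟨a, ⟨ha.1, h ha.2⟩, rfl⟩

theorem IsIntE_mono (h : E ≤ E') {U : LaurentSeries A} (hU : IsIntE M A E U) :
    IsIntE M A E' U := by
  obtain ⟨h1, f, hf, hfU⟩ := hU
  exact ⟨fun n => h (h1 n), f, Fc_mono M h hf, hfU⟩

theorem VcSet_mono (h : E ≤ E') : VcSet M A E ⊆ VcSet M A E' := by
  rintro f ⟨hf, U₁, U₂, h₁, h₂, hne, heq⟩
  exact ⟨Fc_mono M h hf, U₁, U₂, IsIntE_mono M A h h₁, IsIntE_mono M A h h₂, hne, heq⟩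

end Mono

/-- Every finite set of elements of `Q̄` lies in a number field containing a given one. -/
theorem exists_finite_ge (E : IntermediateField ℚ Qb) (hE : FiniteDimensional ℚ E)
    (T : Set Qb) (hT : T.Finite) :
    ∃ E' : IntermediateField ℚ Qb, FiniteDimensional ℚ E' ∧ E ≤ E' ∧ ∀ a ∈ T, a ∈ E' := by
  haveI := hE
  haveI : Finite T := hT
  haveI : Algebra.IsAlgebraic ℚ Qb := AlgebraicClosure.isAlgebraic ℚ
  haveI : FiniteDimensional ℚ (IntermediateField.adjoin ℚ T) :=
    IntermediateField.finiteDimensional_adjoin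
      (fun x _ => (Algebra.IsAlgebraic.isAlgebraic (R := ℚ) x).isIntegral)
  refine ⟨E ⊔ IntermediateField.adjoin ℚ T, inferInstance, le_sup_left, fun a ha => ?_⟩
  exact (le_sup_right : IntermediateField.adjoin ℚ T ≤ E ⊔ IntermediateField.adjoin ℚ T)
    (IntermediateField.subset_adjoin ℚ T ha)

/-- **MOD assembly, top step**: the frozen `GoodModelStatement` from `GoodAt`. -/
theorem goodModelStatement_of_goodAt (M ℓ : ℕ) (A : ValuationSubring Qb)
    (h : ∀ (x : Om M) (S : Finset (Om M)), IsCoordinate M ℓ x S → GoodAt M A x S) :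
    GoodModelStatement M ℓ A := by
  intro x S hxS
  have hg := h x S hxS
  refine ⟨{p | ∃ E : IntermediateField ℚ Qb, FiniteDimensional ℚ E ∧ p.1 = Ec M E ∧
      p.2.1 = Fc M E ∧ p.2.2.1 = Rc M A E ∧ (p.2.2.2.1 : Set (Om M)) = VcSet M A E ∧
      Alg.GoodModel (Lc M) p.1 p.2.1 p.2.2.1 p.2.2.2.1 p.2.2.2.2 x S}, ?_, ⟨?_, ?_⟩, ?_⟩
  · rintro p ⟨E, hE, h1, h2, h3, h4, -⟩
    exact ⟨E, hE, h1, h2, h3, h4⟩
  · rintro p ⟨E, hE, h1, h2, h3, h4, h5⟩
    exact h5
  · rintro p ⟨E, hE, h1, h2, h3, h4, h5⟩ T hT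
    have hfin : {b : Qb | algebraMap Qb (Om M) b ∈ T}.Finite :=
      T.finite_toSet.preimage (Set.injOn_of_injective (algebraMap Qb (Om M)).injective)
    obtain ⟨E', hE', hle, hT'⟩ := exists_finite_ge E hE _ hfin
    obtain ⟨V', w', hV', hgood'⟩ := hg E' hE'
    refine ⟨(Ec M E', Fc M E', Rc M A E', V', w'), ⟨E', hE', rfl, rfl, rfl, hV', hgood'⟩,
      ⟨?_, ?_, ?_, ?_⟩, ?_⟩
    · rw [h1]; exact Ec_mono M hle
    · rw [h2]; exact Fc_mono M hle
    · rw [h3]; exact Rc_mono M A hle
    · intro f hf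
      have hf' : f ∈ (p.2.2.2.1 : Set (Om M)) := hf
      rw [h4] at hf'
      have := VcSet_mono M A hle hf'
      rw [← hV'] at this
      exact this
    · intro a ha
      obtain ⟨b, rfl⟩ := hT a ha
      exact ⟨b, hT' b ha, rfl⟩
  · intro T
    obtain ⟨E', hE', -, hT'⟩ := exists_finite_ge ⊥ inferInstance (T : Set Qb) T.finite_toSet
    obtain ⟨V', w', hV', hgood'⟩ := hg E' hE'
    exact ⟨E', V', w', hE', fun a ha => hT' a ha, hV', ⟨E', hE', rfl, rfl, rfl, hV', hgood'⟩⟩

end Fermat.Agent.S18.Mod.H216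

end
end
-- ===== PACK-END S18/Mod/H216/Family.lean

-- ===== PACK-BEGIN S18/H107/PolyInt.lean
section




/-!
# helper107 — S18 / M3-T : explicit monic equations (cubic, quartic) give integrality
-/

set_option autoImplicit false

namespace Fermat.Agent.S18.H107

open Polynomial Fermat.Agent.S18.Alg

variable {Ω : Type*} [Field Ω]

theorem mem_intCl_of_cubic107 (T : Subring Ω) (b a₂ a₁ a₀ : Ω) (h₂ : a₂ ∈ T) (h₁ : a₁ ∈ T)
    (h₀ : a₀ ∈ T) (h : b ^ 3 + a₂ * b ^ 2 + a₁ * b + a₀ = 0) : b ∈ intCl107 T := by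
  rw [mem_intCl107]
  refine ⟨X ^ 3 + (C (⟨a₂, h₂⟩ : T) * X ^ 2 + C (⟨a₁, h₁⟩ : T) * X + C (⟨a₀, h₀⟩ : T)),
    monic_X_pow_add (lt_of_le_of_lt degree_quadratic_le (by norm_num)), ?_⟩
  simp only [eval₂_add, eval₂_mul, eval₂_pow, eval₂_X, eval₂_C]
  show b ^ 3 + (a₂ * b ^ 2 + a₁ * b + a₀) = 0
  linear_combination h

theorem mem_intCl_of_quartic107 (T : Subring Ω) (b a₃ a₂ a₁ a₀ : Ω) (h₃ : a₃ ∈ T) (h₂ : a₂ ∈ T)
    (h₁ : a₁ ∈ T) (h₀ : a₀ ∈ T) (h : b ^ 4 + a₃ * b ^ 3 + a₂ * b ^ 2 + a₁ * b + a₀ = 0) :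
    b ∈ intCl107 T := by
  rw [mem_intCl107]
  refine ⟨X ^ 4 + (C (⟨a₃, h₃⟩ : T) * X ^ 3 + C (⟨a₂, h₂⟩ : T) * X ^ 2 + C (⟨a₁, h₁⟩ : T) * X +
      C (⟨a₀, h₀⟩ : T)),
    monic_X_pow_add (lt_of_le_of_lt degree_cubic_le (by norm_num)), ?_⟩
  simp only [eval₂_add, eval₂_mul, eval₂_pow, eval₂_X, eval₂_C]
  show b ^ 4 + (a₃ * b ^ 3 + a₂ * b ^ 2 + a₁ * b + a₀) = 0
  linear_combination h

theorem natCast_mem_polyRing107 (R : Subring Ω) (x : Ω) (n : ℕ) : (n : Ω) ∈ polyRing R x :=
  natCast_mem _ n

end Fermat.Agent.S18.H107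

end
-- ===== PACK-END S18/H107/PolyInt.lean

-- ===== PACK-BEGIN S18/H107/T2Branch.lean
section




/-!
# helper107 — S18 / M3-T : `unramified` for the Hauptmodul `t₂` (`j t² = (t + 256)³`)

From the branch data of the `j`-line (`BranchJ107`): for every constant `c ∉ {-64, 0}`, at a place
`O` with `t ≡ c`, `t - c` is a uniformiser.  (`t = -256` lies over `j = 0` with `e(t/j) = 3`,
`t = 512` over `j = 1728` with `e(t/j) = 2`; only `t = -64`, `0`, `∞` can ramify in `Ω / Lc(t)`.)
-/

set_option autoImplicit false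

namespace Fermat.Agent.S18.H107

variable {Ω : Type*} [Field Ω] [CharZero Ω]

theorem unramified_t2_107 (Lc : Subfield Ω) (j t : Ω) (hrel : j * t ^ 2 = (t + 256) ^ 3)
    (hB : BranchJ107 Lc j) (O : ValuationSubring Ω) (hL : ∀ a ∈ Lc, a ∈ O) (c : Ω) (hc : c ∈ Lc)
    (hc64 : c ≠ -64) (hc0 : c ≠ 0) (hz : t - c ∈ O) (hz' : (t - c)⁻¹ ∉ O) :
    ∀ s ∈ O, s⁻¹ ∉ O → s * (t - c)⁻¹ ∈ O := by
  rw [← OrdLe107.one_iff]
  have hzv : O.valuation (t - c) < 1 := val_lt_one107 O hz hz'
  have hz0 : t - c ≠ 0 := by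
    intro h0
    rw [h0, inv_zero] at hz'
    exact hz' O.zero_mem
  have hcv : O.valuation c = 1 := val_const107 O Lc hL hc hc0
  have htv : O.valuation t = 1 := by
    have : t = c + (t - c) := by ring
    rw [this]
    exact val_add_eq_one107 O hcv hzv
  have ht0 : t ≠ 0 := by
    intro h0
    rw [h0, map_zero] at htv
    exact zero_ne_one htv
  have htO : t ∈ O := (O.valuation_le_one_iff _).1 htv.le
  have hcO : c ∈ O := hL c hc
  have ht2v : O.valuation ((t ^ 2)⁻¹) = 1 := by
    rw [map_inv₀, map_pow, htv, one_pow, inv_one]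
  by_cases h256 : c = -256
  · -- over `j = 0`
    subst h256
    have hy : j = (t - -256) ^ 3 * (t ^ 2)⁻¹ := by
      field_simp
      linear_combination hrel
    have hj0 : j ≠ 0 := by
      rw [hy]
      exact mul_ne_zero (pow_ne_zero _ hz0) (inv_ne_zero (pow_ne_zero _ ht0))
    have hjv : O.valuation j < 1 := by
      rw [hy, map_mul, ht2v, mul_one, map_pow]
      exact pow_lt_one₀ zero_le hzv (by norm_num)
    exact unram_of_factor107 O (k := 3) (by norm_num) hy ht2v hz0
      (hB.zero O hL (mem_of_val_lt_one107 O hjv) (inv_not_mem_of_val_lt_one107 O hj0 hjv))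
  by_cases h512 : c = 512
  · -- over `j = 1728`
    subst h512
    have h576 : O.valuation (576 : Ω) = 1 :=
      val_const107 O Lc hL (ofNat_mem Lc 576) (by norm_num)
    have ht64 : O.valuation (t + 64) = 1 := by
      have : t + 64 = 576 + (t - 512) := by ring
      rw [this]
      exact val_add_eq_one107 O h576 hzv
    have hUv : O.valuation ((t + 64) * (t ^ 2)⁻¹) = 1 := by
      rw [map_mul, ht64, ht2v, mul_one]
    have hy : j - 1728 = (t - 512) ^ 2 * ((t + 64) * (t ^ 2)⁻¹) := by
      field_simp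
      linear_combination hrel
    have hU0 : (t + 64) * (t ^ 2)⁻¹ ≠ 0 := by
      intro h0
      rw [h0, map_zero] at hUv
      exact zero_ne_one hUv
    have hy0 : j - 1728 ≠ 0 := by
      rw [hy]
      exact mul_ne_zero (pow_ne_zero _ hz0) hU0
    have hyv : O.valuation (j - 1728) < 1 := by
      rw [hy, map_mul, hUv, mul_one, map_pow]
      exact pow_lt_one₀ zero_le hzv (by norm_num)
    exact unram_of_factor107 O (k := 2) (by norm_num) hy hUv hz0
      (hB.c1728 O hL (mem_of_val_lt_one107 O hyv) (inv_not_mem_of_val_lt_one107 O hy0 hyv))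
  · -- generic point
    have hc256 : c + 256 ≠ 0 := fun h => h256 (by linear_combination h)
    have hc512 : c - 512 ≠ 0 := fun h => h512 (by linear_combination h)
    have hc64' : c + 64 ≠ 0 := fun h => hc64 (by linear_combination h)
    set a : Ω := (c + 256) ^ 3 * (c ^ 2)⁻¹ with ha
    have haL : a ∈ Lc :=
      Lc.mul_mem (Lc.pow_mem (Lc.add_mem hc (ofNat_mem Lc 256)) 3) (Lc.inv_mem (Lc.pow_mem hc 2))
    have ha0 : a ≠ 0 := mul_ne_zero (pow_ne_zero _ hc256) (inv_ne_zero (pow_ne_zero _ hc0))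
    have ha1728 : a ≠ 1728 := by
      intro h
      have h1 : (c - 512) ^ 2 * (c + 64) = 0 := by
        have h2 : (c + 256) ^ 3 = 1728 * c ^ 2 := by
          rw [ha] at h
          field_simp at h
          linear_combination h
        linear_combination h2
      rcases mul_eq_zero.1 h1 with h3 | h3
      · exact hc512 (pow_eq_zero_iff (by norm_num) |>.1 h3)
      · exact hc64' h3
    -- the cofactor
    set W : Ω := c ^ 2 * t ^ 2 - (196608 * c + 16777216) * t - 16777216 * c with hW
    set W₀ : Ω := c * (c + 256) ^ 2 * (c - 512) with hW₀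
    set W₁ : Ω := c ^ 2 * (t + c) - 196608 * c - 16777216 with hW₁
    have hW₀L : W₀ ∈ Lc :=
      Lc.mul_mem (Lc.mul_mem hc (Lc.pow_mem (Lc.add_mem hc (ofNat_mem Lc 256)) 2))
        (Lc.sub_mem hc (ofNat_mem Lc 512))
    have hW₀0 : W₀ ≠ 0 := mul_ne_zero (mul_ne_zero hc0 (pow_ne_zero _ hc256)) hc512
    have hW₁O : W₁ ∈ O :=
      sub_mem (sub_mem (mul_mem (pow_mem hcO 2) (add_mem htO hcO))
        (mul_mem (ofNat_mem O 196608) hcO)) (ofNat_mem O 16777216)
    have hWv : O.valuation W = 1 := by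
      have e : W = W₀ + (t - c) * W₁ := by
        rw [hW, hW₀, hW₁]
        ring
      rw [e]
      refine val_add_eq_one107 O (val_const107 O Lc hL hW₀L hW₀0) ?_
      rw [map_mul]
      calc O.valuation (t - c) * O.valuation W₁ ≤ O.valuation (t - c) * 1 := by
            gcongr
            exact (O.valuation_le_one_iff _).2 hW₁O
        _ = O.valuation (t - c) := mul_one _
        _ < 1 := hzv
    have hUv : O.valuation (W * (t ^ 2 * c ^ 2)⁻¹) = 1 := by
      rw [map_mul, hWv, one_mul, map_inv₀, map_mul, map_pow, map_pow, htv, hcv, one_pow,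
        mul_one, inv_one]
    have hy : j - a = (t - c) ^ 1 * (W * (t ^ 2 * c ^ 2)⁻¹) := by
      rw [ha, hW]
      field_simp
      linear_combination (c ^ 2) * hrel
    have hU0 : W * (t ^ 2 * c ^ 2)⁻¹ ≠ 0 := by
      intro h0
      rw [h0, map_zero] at hUv
      exact zero_ne_one hUv
    have hy0 : j - a ≠ 0 := by
      rw [hy]
      exact mul_ne_zero (pow_ne_zero _ hz0) hU0
    have hyv : O.valuation (j - a) < 1 := by
      rw [hy, map_mul, hUv, mul_one, pow_one]
      exact hzv
    exact unram_of_factor107 O (k := 1) (by norm_num) hy hUv hz0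
      (hB.generic O hL a haL ha0 ha1728 (mem_of_val_lt_one107 O hyv)
        (inv_not_mem_of_val_lt_one107 O hy0 hyv))

end Fermat.Agent.S18.H107

end
-- ===== PACK-END S18/H107/T2Branch.lean

-- ===== PACK-BEGIN S18/B12/H93/LocalBasis.lean
section



/-!
# S18 / B12 / A2: `LocalBasisStatement` (helper93).

`𝔪 = (w, p)` maximal, `(p, w)` regular on the finite `P`-module `B`: a lift of a basis of `B/𝔪B`
is a basis of `B` locally at `𝔪` (Nakayama twice).
-/

set_option autoImplicit false

namespace Fermat.Agent.S18.B12.H93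

open Pointwise

attribute [local instance] Ideal.Quotient.field

universe u v

theorem localBasis : LocalBasisStatement.{u, v} := by
  intro P _ _ _ B _ _ _ _ w p hmax hreg
  classical
  set 𝔪 : Ideal P := Ideal.span {w, p} with h𝔪
  have hw𝔪 : w ∈ 𝔪 := Ideal.subset_span (by simp)
  have hp𝔪 : p ∈ 𝔪 := Ideal.subset_span (by simp)
  let N : Submodule P B := 𝔪 • ⊤
  have hfin : Module.Finite (P ⧸ 𝔪) (B ⧸ N) := Module.Finite.of_restrictScalars_finite P _ _
  let β := Module.finBasis (P ⧸ 𝔪) (B ⧸ N)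
  have hlift : ∀ i, ∃ x : B, N.mkQ x = β i := fun i => Submodule.mkQ_surjective N _
  choose x hx using hlift
  refine ⟨Module.finrank (P ⧸ 𝔪) (B ⧸ N), x, ?_⟩
  have hmksmul : ∀ (a : P) (y : B ⧸ N), (Ideal.Quotient.mk 𝔪 a) • y = a • y := by
    intro a y
    rw [← Ideal.Quotient.algebraMap_eq, algebraMap_smul]
  -- reduction of a combination
  have hred : ∀ a : Fin (Module.finrank (P ⧸ 𝔪) (B ⧸ N)) → P,
      N.mkQ (∑ i, a i • x i) = ∑ i, (Ideal.Quotient.mk 𝔪 (a i)) • β i := by
    intro a
    rw [map_sum]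
    refine Finset.sum_congr rfl fun i _ => ?_
    rw [map_smul, hx, hmksmul]
  -- spanning modulo `𝔪`
  have hspan : (⊤ : Submodule P B) ≤ Submodule.span P (Set.range x) ⊔ 𝔪 • ⊤ := by
    intro b _
    have hl : ∀ i, ∃ a : P, Ideal.Quotient.mk 𝔪 a = β.repr (N.mkQ b) i :=
      fun i => Ideal.Quotient.mk_surjective _
    choose a ha using hl
    have h1 : N.mkQ (b - ∑ i, a i • x i) = 0 := by
      rw [map_sub, hred, sub_eq_zero]
      conv_lhs => rw [← β.sum_repr (N.mkQ b)]
      exact Finset.sum_congr rfl fun i _ => by rw [ha]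
    have h2 : b - ∑ i, a i • x i ∈ N := by
      rwa [Submodule.mkQ_apply, Submodule.Quotient.mk_eq_zero] at h1
    have h3 : ∑ i, a i • x i ∈ Submodule.span P (Set.range x) :=
      Submodule.sum_mem _ fun i _ => Submodule.smul_mem _ _ (Submodule.subset_span ⟨i, rfl⟩)
    have : b = ∑ i, a i • x i + (b - ∑ i, a i • x i) := by ring
    rw [this]
    exact Submodule.add_mem_sup h3 h2
  obtain ⟨g, hg1, hgle⟩ := Submodule.exists_sub_one_mem_and_smul_le_of_fg_of_le_sup
    (N := Submodule.span P (Set.range x)) (N' := ⊤) (P := ⊤) (I := 𝔪)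
    (Module.finite_def.mp inferInstance) le_rfl hspan
  have hg𝔪 : g ∉ 𝔪 := by
    intro hg
    have : (1 : P) ∈ 𝔪 := by
      have := 𝔪.sub_mem hg hg1
      simpa using this
    exact hmax.ne_top ((Ideal.eq_top_iff_one 𝔪).mpr this)
  have hgB : ∀ b : B, g • b ∈ Submodule.span P (Set.range x) := fun b =>
    hgle (Submodule.smul_mem_pointwise_smul b g ⊤ Submodule.mem_top)
  refine ⟨?_, g, hg𝔪, hgB⟩
  -- linear independence
  let L : (Fin (Module.finrank (P ⧸ 𝔪) (B ⧸ N)) → P) →ₗ[P] B := Fintype.linearCombination P x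
  have hLapp : ∀ a, L a = ∑ i, a i • x i := fun a => Fintype.linearCombination_apply P x a
  set I : Submodule P (Fin (Module.finrank (P ⧸ 𝔪) (B ⧸ N)) → P) := LinearMap.ker L with hI
  have hIfg : I.FG := IsNoetherian.noetherian I
  -- `g • I ≤ 𝔪 • I`
  have hkey : ∀ a ∈ I, g • a ∈ 𝔪 • I := by
    intro a ha
    have ha0 : ∑ i, a i • x i = 0 := by rw [← hLapp]; exact ha
    -- coefficients lie in `𝔪`
    have hmem : ∀ i, a i ∈ 𝔪 := by
      intro i
      have h1 := hred a
      rw [ha0, map_zero] at h1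
      have h2 := (Fintype.linearIndependent_iff.mp β.linearIndependent) _ h1.symm i
      exact Ideal.Quotient.eq_zero_iff_mem.mp h2
    have hdec : ∀ i, ∃ c d : P, c * w + d * p = a i := fun i => Ideal.mem_span_pair.mp (hmem i)
    choose c d hcd using hdec
    have hrel : algebraMap P B p * (∑ i, d i • x i) = algebraMap P B w * (-∑ i, c i • x i) := by
      have : ∑ i, (c i * w + d i * p) • x i = 0 := by
        rw [← ha0]; exact Finset.sum_congr rfl fun i _ => by rw [hcd]
      rw [← Algebra.smul_def, ← Algebra.smul_def, smul_neg, Finset.smul_sum, Finset.smul_sum,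
        eq_neg_iff_add_eq_zero, ← Finset.sum_add_distrib, ← this]
      refine Finset.sum_congr rfl fun i _ => ?_
      rw [smul_smul, smul_smul, ← add_smul]
      congr 1; ring
    obtain ⟨b'', hb1, hb2⟩ := hreg _ _ hrel
    obtain ⟨e, he⟩ := (Submodule.mem_span_range_iff_exists_fun P).mp (hgB b'')
    -- two relations
    have hr1 : (fun i => g * d i - w * e i) ∈ I := by
      rw [hI, LinearMap.mem_ker, hLapp]
      have : ∑ i, (g * d i - w * e i) • x i = g • ∑ i, d i • x i - w • ∑ i, e i • x i := by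
        rw [Finset.smul_sum, Finset.smul_sum, ← Finset.sum_sub_distrib]
        exact Finset.sum_congr rfl fun i _ => by rw [sub_smul, smul_smul, smul_smul]
      rw [this, hb1, he, ← Algebra.smul_def, smul_comm, sub_self]
    have hr2 : (fun i => g * c i + p * e i) ∈ I := by
      rw [hI, LinearMap.mem_ker, hLapp]
      have : ∑ i, (g * c i + p * e i) • x i = g • ∑ i, c i • x i + p • ∑ i, e i • x i := by
        rw [Finset.smul_sum, Finset.smul_sum, ← Finset.sum_add_distrib]
        exact Finset.sum_congr rfl fun i _ => by rw [add_smul, smul_smul, smul_smul]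
      have hc : ∑ i, c i • x i = -(algebraMap P B p * b'') := by rw [← hb2, neg_neg]
      rw [this, hc, he, ← Algebra.smul_def, smul_neg, smul_comm, neg_add_cancel]
    have hsum : g • a = w • (fun i => g * c i + p * e i) + p • (fun i => g * d i - w * e i) := by
      funext i
      simp only [Pi.smul_apply, Pi.add_apply, smul_eq_mul]
      rw [← hcd i]; ring
    rw [hsum]
    exact Submodule.add_mem _ (Submodule.smul_mem_smul hw𝔪 hr2) (Submodule.smul_mem_smul hp𝔪 hr1)
  have hIle : I ≤ 𝔪 • I := by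
    intro a ha
    have h1 : g • a ∈ 𝔪 • I := hkey a ha
    have h2 : (g - 1) • a ∈ 𝔪 • I := Submodule.smul_mem_smul hg1 ha
    have : a = g • a - (g - 1) • a := by rw [sub_smul, one_smul]; abel
    rw [this]
    exact Submodule.sub_mem _ h1 h2
  obtain ⟨r, hr1, hr0⟩ := Submodule.exists_sub_one_mem_and_smul_eq_zero_of_fg_of_le_smul 𝔪 I
    hIfg hIle
  have hrne : r ≠ 0 := by
    rintro rfl
    have : (1 : P) ∈ 𝔪 := by
      have := 𝔪.neg_mem hr1
      simpa using this
    exact hmax.ne_top ((Ideal.eq_top_iff_one 𝔪).mpr this)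
  rw [Fintype.linearIndependent_iff]
  intro a ha i
  have haI : a ∈ I := by rw [hI, LinearMap.mem_ker, hLapp]; exact ha
  have h0 := hr0 a haI
  have h1 := congrFun h0 i
  rw [Pi.smul_apply, smul_eq_mul, Pi.zero_apply] at h1
  exact (mul_eq_zero.mp h1).resolve_left hrne

end Fermat.Agent.S18.B12.H93

end
-- ===== PACK-END S18/B12/H93/LocalBasis.lean

-- ===== PACK-BEGIN S18/B12/H393/DiscrRed.lean
section



/-!
# S18 / Route K / b2.5, piece A3 (helper393): `DiscrRedStatement`

`discrRed : DiscrRedStatement` (exact frozen shape of `B12/Spec2.lean`).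

* `smul_trace_eq_trace_of_quasiBasis` : generic trace lemma.  `M` finite free over `A`,
  `x` a linearly independent family with `g • M ⊆ span x`, `f` an endomorphism with
  `g • f (x j) = ∑ i, m i j • x i`.  Then `g * tr f = tr m`.
  (Proof: `tr (φ ∘ f ∘ ι) = tr (ι ∘ φ ∘ f)` for `ι : span x → M`, `φ = g • _ : M → span x`.)
* `smul_intTrace_eq` : `g * intTrace P B β = tr m` if `g • (β * x j) = ∑ i, m i j • x i`
  (`x` a local basis of `B` over `P`).
* `mk_intTrace_eq_trace` : `intTrace P B β mod w = Tr_{(B/wB)/(P/w)} (β mod w)`.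
-/

set_option autoImplicit false

noncomputable section

namespace Fermat.Agent.S18.B12.H393

open Fermat.Agent.S18.B12

universe u v

section Generic

variable {A : Type*} [CommRing A] {M : Type*} [AddCommGroup M] [Module A M]

/-- **Generic trace lemma.** -/
theorem smul_trace_eq_trace_of_quasiBasis [Module.Free A M] [Module.Finite A M]
    {n : ℕ} (f : M →ₗ[A] M) (x : Fin n → M) (hli : LinearIndependent A x) (g : A)
    (hspan : ∀ y : M, g • y ∈ Submodule.span A (Set.range x))
    (m : Matrix (Fin n) (Fin n) A) (hm : ∀ j, g • f (x j) = ∑ i, m i j • x i) :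
    g * LinearMap.trace A M f = m.trace := by
  classical
  set E : Submodule A M := Submodule.span A (Set.range x) with hE
  let bE : Module.Basis (Fin n) A E := Module.Basis.span hli
  have hbE : ∀ j, ((bE j : E) : M) = x j := fun j => Module.Basis.coe_span_apply hli j
  have : Module.Free A E := Module.Free.of_basis bE
  have : Module.Finite A E := Module.Finite.of_basis bE
  let φ : M →ₗ[A] E :=
    { toFun := fun y => ⟨g • y, hspan y⟩
      map_add' := fun y z => Subtype.ext (by simp [smul_add])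
      map_smul' := fun r y => Subtype.ext (by simp [smul_comm g r]) }
  have h1 : LinearMap.trace A M (E.subtype ∘ₗ (φ ∘ₗ f)) =
      LinearMap.trace A E ((φ ∘ₗ f) ∘ₗ E.subtype) :=
    LinearMap.trace_comp_comm' (φ ∘ₗ f) E.subtype
  have h2 : E.subtype ∘ₗ (φ ∘ₗ f) = g • f := by
    ext y; simp [φ]
  have h3 : LinearMap.toMatrix bE bE ((φ ∘ₗ f) ∘ₗ E.subtype) = m := by
    ext i j
    rw [LinearMap.toMatrix_apply]
    have : ((φ ∘ₗ f) ∘ₗ E.subtype) (bE j) = ∑ i, m i j • bE i := by
      apply Subtype.ext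
      simp only [LinearMap.coe_comp, Function.comp_apply, Submodule.subtype_apply,
        LinearMap.coe_mk, AddHom.coe_mk, φ, hbE]
      rw [hm j, Submodule.coe_sum]
      refine Finset.sum_congr rfl fun i _ => ?_
      rw [Submodule.coe_smul, hbE]
    rw [this, map_sum]
    simp [Finsupp.single_apply, Finset.sum_apply']
  rw [h2, map_smul, smul_eq_mul] at h1
  rw [h1, LinearMap.trace_eq_matrix_trace A bE, h3]

end Generic

section IntTrace

attribute [local instance] FractionRing.liftAlgebra FractionRing.isScalarTower_liftAlgebra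

variable {P : Type u} [CommRing P] [IsDomain P] [IsIntegrallyClosed P]
  {B : Type v} [CommRing B] [IsDomain B] [IsIntegrallyClosed B] [Algebra P B]
  [Module.Finite P B] [Module.IsTorsionFree P B]

/-- `g * intTrace β = tr m` when `g • (β * x j) = ∑ i, m i j • x i` for a quasi-basis `x`. -/
theorem smul_intTrace_eq {n : ℕ} (x : Fin n → B) (hli : LinearIndependent P x) (g : P)
    (hspan : ∀ b : B, g • b ∈ Submodule.span P (Set.range x)) (β : B)
    (m : Matrix (Fin n) (Fin n) P) (hm : ∀ j, g • (β * x j) = ∑ i, m i j • x i) :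
    g * Algebra.intTrace P B β = m.trace := by
  classical
  have : IsIntegralClosure B P (FractionRing B) :=
    IsIntegralClosure.of_isIntegrallyClosed _ _ _
  have : Algebra.IsAlgebraic (FractionRing P) (FractionRing B) :=
    isAlgebraic_of_isFractionRing P B ..
  have hloc : IsLocalization (Algebra.algebraMapSubmonoid B (nonZeroDivisors P))
      (FractionRing B) :=
    IsIntegralClosure.isLocalization _ (FractionRing P) _ _
  have : FiniteDimensional (FractionRing P) (FractionRing B) :=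
    .of_isLocalization P B (nonZeroDivisors P)
  set K := FractionRing P
  set L := FractionRing B
  have hinjBL : Function.Injective (algebraMap B L) := IsFractionRing.injective B L
  -- linear independence over `K`
  have hliP : LinearIndependent P (fun j => algebraMap B L (x j)) := by
    have := hli.map' (IsScalarTower.toAlgHom P B L).toLinearMap
      (LinearMap.ker_eq_bot.mpr hinjBL)
    exact this
  have hliK : LinearIndependent K (fun j => algebraMap B L (x j)) :=
    (LinearIndependent.iff_fractionRing P K).mp hliP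
  -- images of elements of the `P`-span lie in the `K`-span
  have hmemK : ∀ y : B, y ∈ Submodule.span P (Set.range x) →
      algebraMap B L y ∈ Submodule.span K (Set.range fun j => algebraMap B L (x j)) := by
    intro y hy
    rw [Submodule.mem_span_range_iff_exists_fun] at hy
    obtain ⟨c, rfl⟩ := hy
    rw [map_sum]
    refine Submodule.sum_mem _ fun i _ => ?_
    have : algebraMap B L (c i • x i) = algebraMap P K (c i) • algebraMap B L (x i) := by
      rw [Algebra.smul_def, map_mul, ← IsScalarTower.algebraMap_apply,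
        IsScalarTower.algebraMap_apply P K L, ← Algebra.smul_def]
    rw [this]
    exact Submodule.smul_mem _ _ (Submodule.subset_span ⟨i, rfl⟩)
  have hspanK : ∀ ℓ : L, algebraMap P K g • ℓ ∈
      Submodule.span K (Set.range fun j => algebraMap B L (x j)) := by
    intro ℓ
    obtain ⟨⟨b, s⟩, hs⟩ := IsLocalization.surj (Algebra.algebraMapSubmonoid B (nonZeroDivisors P)) ℓ
    obtain ⟨s₀, hs₀, hs₀'⟩ := s.2
    have hs₀K : algebraMap P K s₀ ≠ 0 := by
      have := (IsFractionRing.injective P K).ne (nonZeroDivisors.ne_zero hs₀)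
      simpa using this
    have hℓ : ℓ = (algebraMap P K s₀)⁻¹ • algebraMap B L b := by
      rw [eq_inv_smul_iff₀ hs₀K]
      simp only at hs
      rw [← hs, ← hs₀', Algebra.smul_def, ← IsScalarTower.algebraMap_apply,
        IsScalarTower.algebraMap_apply P B L, mul_comm]
    have hgb : algebraMap P K g • algebraMap B L b = algebraMap B L (g • b) := by
      rw [Algebra.smul_def (A := B), map_mul, ← IsScalarTower.algebraMap_apply,
        IsScalarTower.algebraMap_apply P K L, ← Algebra.smul_def]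
    rw [hℓ, smul_comm, hgb]
    exact Submodule.smul_mem _ _ (hmemK _ (hspan b))
  have hmK : ∀ j, algebraMap P K g • (Algebra.lmul K L (algebraMap B L β)) (algebraMap B L (x j)) =
      ∑ i, (m.map (algebraMap P K)) i j • algebraMap B L (x i) := by
    intro j
    have h := congrArg (algebraMap B L) (hm j)
    rw [map_sum] at h
    have e1 : algebraMap B L (g • (β * x j)) =
        algebraMap P K g • (Algebra.lmul K L (algebraMap B L β)) (algebraMap B L (x j)) := by
      rw [Algebra.smul_def (A := B), map_mul, ← IsScalarTower.algebraMap_apply,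
        IsScalarTower.algebraMap_apply P K L, ← Algebra.smul_def, map_mul]
      rfl
    rw [← e1, h]
    refine Finset.sum_congr rfl fun i _ => ?_
    rw [Matrix.map_apply, Algebra.smul_def (A := B), map_mul, ← IsScalarTower.algebraMap_apply,
      IsScalarTower.algebraMap_apply P K L, ← Algebra.smul_def]
  have key := smul_trace_eq_trace_of_quasiBasis (A := K) (M := L)
    (Algebra.lmul K L (algebraMap B L β)) (fun j => algebraMap B L (x j)) hliK
    (algebraMap P K g) hspanK (m.map (algebraMap P K)) hmK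
  apply IsFractionRing.injective P K
  rw [map_mul, Algebra.algebraMap_intTrace_fractionRing, Algebra.trace_apply, key]
  simp [Matrix.trace, map_sum]

end IntTrace

section Reduction

variable {P : Type u} [CommRing P]
  {B : Type v} [CommRing B] [Algebra P B]

/-- Membership in `w B` (as the ideal `(span {w}).map (algebraMap P B)`). -/
theorem mem_map_span_singleton_iff (w : P) (b : B) :
    b ∈ (Ideal.span {w}).map (algebraMap P B) ↔ ∃ β : B, b = w • β := by
  rw [Ideal.map_span, Set.image_singleton, Ideal.mem_span_singleton']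
  constructor
  · rintro ⟨β, rfl⟩; exact ⟨β, by rw [Algebra.smul_def, mul_comm]⟩
  · rintro ⟨β, rfl⟩; exact ⟨β, by rw [Algebra.smul_def, mul_comm]⟩

theorem mk_sum_smul (w : P) {n : ℕ} (c : Fin n → P) (x : Fin n → B) :
    Ideal.Quotient.mk ((Ideal.span {w}).map (algebraMap P B)) (∑ i, c i • x i) =
      ∑ i, Ideal.Quotient.mk (Ideal.span {w}) (c i) •
        Ideal.Quotient.mk ((Ideal.span {w}).map (algebraMap P B)) (x i) := by
  rw [map_sum]
  refine Finset.sum_congr rfl fun i _ => ?_
  rw [Ideal.Quotient.mk_smul_mk_quotient_map_quotient, Algebra.smul_def]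

/-- The reduction mod `w` of a quasi-basis is linearly independent over `P/(w)`. -/
theorem linearIndependent_mk_of_quasiBasis {w : P} (hw : Prime w) {n : ℕ} (x : Fin n → B)
    (hli : LinearIndependent P x) (g : P) (hg : ¬ w ∣ g)
    (hspan : ∀ b : B, g • b ∈ Submodule.span P (Set.range x)) :
    LinearIndependent (P ⧸ Ideal.span {w})
      (fun j => Ideal.Quotient.mk ((Ideal.span {w}).map (algebraMap P B)) (x j)) := by
  classical
  rw [Fintype.linearIndependent_iff]
  intro cb hcb i
  choose c hc using fun i => Ideal.Quotient.mk_surjective (cb i)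
  have h0 : Ideal.Quotient.mk ((Ideal.span {w}).map (algebraMap P B)) (∑ i, c i • x i) = 0 := by
    rw [mk_sum_smul, ← hcb]
    refine Finset.sum_congr rfl fun i _ => ?_
    rw [hc i]
  rw [Ideal.Quotient.eq_zero_iff_mem, mem_map_span_singleton_iff] at h0
  obtain ⟨β, hβ⟩ := h0
  have hgβ := hspan β
  rw [Submodule.mem_span_range_iff_exists_fun] at hgβ
  obtain ⟨d, hd⟩ := hgβ
  have hrel : ∑ i, (g * c i - w * d i) • x i = 0 := by
    simp only [sub_smul, Finset.sum_sub_distrib, mul_smul]
    rw [← Finset.smul_sum, ← Finset.smul_sum, hβ, hd, smul_comm, sub_self]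
  have := (Fintype.linearIndependent_iff.mp hli) _ hrel i
  have hdvd : w ∣ g * c i := ⟨d i, sub_eq_zero.mp this⟩
  have hwc : w ∣ c i := (hw.dvd_or_dvd hdvd).resolve_left hg
  rw [← hc i, Ideal.Quotient.eq_zero_iff_mem, Ideal.mem_span_singleton]
  exact hwc

theorem smul_mem_span_mk_of_quasiBasis (w : P) {n : ℕ} (x : Fin n → B) (g : P)
    (hspan : ∀ b : B, g • b ∈ Submodule.span P (Set.range x))
    (q : B ⧸ (Ideal.span {w}).map (algebraMap P B)) :
    Ideal.Quotient.mk (Ideal.span {w}) g • q ∈ Submodule.span (P ⧸ Ideal.span {w})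
      (Set.range fun j => Ideal.Quotient.mk ((Ideal.span {w}).map (algebraMap P B)) (x j)) := by
  obtain ⟨b, rfl⟩ := Ideal.Quotient.mk_surjective q
  have h := hspan b
  rw [Submodule.mem_span_range_iff_exists_fun] at h ⊢
  obtain ⟨c, hc⟩ := h
  refine ⟨fun i => Ideal.Quotient.mk (Ideal.span {w}) (c i), ?_⟩
  rw [← mk_sum_smul, hc, Ideal.Quotient.mk_smul_mk_quotient_map_quotient, Algebra.smul_def]

end Reduction

section Main

variable {P : Type u} [CommRing P] [IsDomain P] [IsIntegrallyClosed P]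
  {B : Type v} [CommRing B] [IsDomain B] [IsIntegrallyClosed B] [Algebra P B]
  [Module.Finite P B] [Module.IsTorsionFree P B]

/-- **Trace reduction.** `intTrace P B β mod w` is the trace of `β mod w` on `B/wB` over `P/(w)`. -/
theorem mk_intTrace_eq_trace {w : P} (hw : Prime w) {n : ℕ} (x : Fin n → B)
    (hli : LinearIndependent P x) (g : P) (hg : ¬ w ∣ g)
    (hspan : ∀ b : B, g • b ∈ Submodule.span P (Set.range x))
    [Module.Free (P ⧸ Ideal.span {w}) (B ⧸ (Ideal.span {w}).map (algebraMap P B))]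
    [Module.Finite (P ⧸ Ideal.span {w}) (B ⧸ (Ideal.span {w}).map (algebraMap P B))]
    (β : B) :
    Ideal.Quotient.mk (Ideal.span {w}) (Algebra.intTrace P B β) =
      Algebra.trace (P ⧸ Ideal.span {w}) (B ⧸ (Ideal.span {w}).map (algebraMap P B))
        (Ideal.Quotient.mk _ β) := by
  classical
  have hIp : (Ideal.span {w}).IsPrime := (Ideal.span_singleton_prime hw.ne_zero).mpr hw
  have hex : ∀ j, ∃ c : Fin n → P, ∑ i, c i • x i = g • (β * x j) := fun j =>
    (Submodule.mem_span_range_iff_exists_fun P).mp (hspan (β * x j))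
  choose c hc using hex
  let m : Matrix (Fin n) (Fin n) P := Matrix.of fun i j => c j i
  have hm : ∀ j, g • (β * x j) = ∑ i, m i j • x i := fun j => (hc j).symm
  have hP := smul_intTrace_eq x hli g hspan β m hm
  have hmΛ : ∀ j, Ideal.Quotient.mk (Ideal.span {w}) g •
      (Algebra.lmul (P ⧸ Ideal.span {w}) (B ⧸ (Ideal.span {w}).map (algebraMap P B))
        (Ideal.Quotient.mk _ β)) (Ideal.Quotient.mk _ (x j)) =
      ∑ i, (m.map (Ideal.Quotient.mk (Ideal.span {w}))) i j •
        Ideal.Quotient.mk ((Ideal.span {w}).map (algebraMap P B)) (x i) := by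
    intro j
    have h := congrArg (Ideal.Quotient.mk ((Ideal.span {w}).map (algebraMap P B))) (hm j)
    rw [mk_sum_smul] at h
    rw [show (∑ i, (m.map (Ideal.Quotient.mk (Ideal.span {w}))) i j •
        Ideal.Quotient.mk ((Ideal.span {w}).map (algebraMap P B)) (x i)) =
        ∑ i, Ideal.Quotient.mk (Ideal.span {w}) (m i j) •
          Ideal.Quotient.mk ((Ideal.span {w}).map (algebraMap P B)) (x i) from rfl, ← h]
    change Ideal.Quotient.mk (Ideal.span {w}) g •
      (Ideal.Quotient.mk ((Ideal.span {w}).map (algebraMap P B)) β *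
        Ideal.Quotient.mk ((Ideal.span {w}).map (algebraMap P B)) (x j)) = _
    rw [← map_mul, Ideal.Quotient.mk_smul_mk_quotient_map_quotient, Algebra.smul_def]
  have hΛ := smul_trace_eq_trace_of_quasiBasis (A := P ⧸ Ideal.span {w})
    (M := B ⧸ (Ideal.span {w}).map (algebraMap P B))
    (Algebra.lmul _ _ (Ideal.Quotient.mk _ β))
    (fun j => Ideal.Quotient.mk _ (x j))
    (linearIndependent_mk_of_quasiBasis hw x hli g hg hspan)
    (Ideal.Quotient.mk _ g)
    (smul_mem_span_mk_of_quasiBasis w x g hspan)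
    (m.map (Ideal.Quotient.mk _)) hmΛ
  have hg0 : Ideal.Quotient.mk (Ideal.span {w}) g ≠ 0 := by
    rw [Ne, Ideal.Quotient.eq_zero_iff_mem, Ideal.mem_span_singleton]; exact hg
  apply mul_left_cancel₀ hg0
  rw [Algebra.trace_apply, hΛ, ← map_mul, hP]
  simp [Matrix.trace, map_sum]

/-- **A3.** `DiscrRedStatement` (exact frozen shape of `B12/Spec2.lean`). -/
theorem discrRed : DiscrRedStatement.{u, v} := by
  intro P _ _ _ B _ _ _ _ _ _ w hw 𝔪 _ hw𝔪 n x hx n' bb
  classical
  obtain ⟨hli, g, hg𝔪, hspan⟩ := hx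
  have hgw : ¬ w ∣ g := fun h => hg𝔪 (Ideal.mem_of_dvd 𝔪 h hw𝔪)
  have hIp : (Ideal.span {w}).IsPrime := (Ideal.span_singleton_prime hw.ne_zero).mpr hw
  have hfree : Module.Free (P ⧸ Ideal.span {w}) (B ⧸ (Ideal.span {w}).map (algebraMap P B)) :=
    Module.Free.of_basis bb
  have hfin : Module.Finite (P ⧸ Ideal.span {w}) (B ⧸ (Ideal.span {w}).map (algebraMap P B)) :=
    Module.Finite.of_basis bb
  have hliΛ := linearIndependent_mk_of_quasiBasis hw x hli g hgw hspan
  have hspanΛ := smul_mem_span_mk_of_quasiBasis w x g hspan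
  have hg0 : Ideal.Quotient.mk (Ideal.span {w}) g ≠ 0 := by
    rw [Ne, Ideal.Quotient.eq_zero_iff_mem, Ideal.mem_span_singleton]; exact hgw
  -- ranks
  have hrank : Module.finrank (P ⧸ Ideal.span {w})
      (B ⧸ (Ideal.span {w}).map (algebraMap P B)) = n' := by
    rw [Module.finrank_eq_card_basis bb, Fintype.card_fin]
  have hn : n' = n := by
    apply le_antisymm
    · -- `B/wB` embeds into `span x̄` by multiplication by `ḡ`
      set E := Submodule.span (P ⧸ Ideal.span {w})
        (Set.range fun j => Ideal.Quotient.mk ((Ideal.span {w}).map (algebraMap P B)) (x j))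
      let bE : Module.Basis (Fin n) (P ⧸ Ideal.span {w}) E := Module.Basis.span hliΛ
      have : Module.Free (P ⧸ Ideal.span {w}) E := Module.Free.of_basis bE
      have : Module.Finite (P ⧸ Ideal.span {w}) E := Module.Finite.of_basis bE
      let φ : (B ⧸ (Ideal.span {w}).map (algebraMap P B)) →ₗ[P ⧸ Ideal.span {w}] E :=
        { toFun := fun y => ⟨Ideal.Quotient.mk (Ideal.span {w}) g • y, hspanΛ y⟩
          map_add' := fun y z => Subtype.ext (by simp [smul_add])
          map_smul' := fun r y => Subtype.ext (by simp [smul_comm (Ideal.Quotient.mk _ g) r]) }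
      have hφ : Function.Injective φ := by
        intro y z hyz
        have h1 : Ideal.Quotient.mk (Ideal.span {w}) g • y =
            Ideal.Quotient.mk (Ideal.span {w}) g • z := congrArg Subtype.val hyz
        have h2 : Ideal.Quotient.mk (Ideal.span {w}) g • (y - z) = 0 := by
          rw [smul_sub, h1, sub_self]
        exact sub_eq_zero.mp ((smul_eq_zero.mp h2).resolve_left hg0)
      have h1 := LinearMap.finrank_le_finrank_of_injective hφ
      rw [hrank, Module.finrank_eq_card_basis bE, Fintype.card_fin] at h1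
      exact h1
    · have h1 := hliΛ.fintype_card_le_finrank
      rw [Fintype.card_fin, hrank] at h1
      exact h1
  subst hn
  refine ⟨rfl, ?_⟩
  -- the matrices
  let Pm : Matrix (Fin n') (Fin n') (P ⧸ Ideal.span {w}) :=
    Matrix.of fun i j => bb.repr (Ideal.Quotient.mk _ (x i)) j
  have hex : ∀ i, ∃ c : Fin n' → (P ⧸ Ideal.span {w}),
      ∑ j, c j • Ideal.Quotient.mk ((Ideal.span {w}).map (algebraMap P B)) (x j) =
        Ideal.Quotient.mk (Ideal.span {w}) g • bb i := fun i =>
    (Submodule.mem_span_range_iff_exists_fun _).mp (hspanΛ (bb i))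
  choose V hV using hex
  let Vm : Matrix (Fin n') (Fin n') (P ⧸ Ideal.span {w}) := Matrix.of V
  have hVP : Vm * Pm = Ideal.Quotient.mk (Ideal.span {w}) g • (1 : Matrix _ _ _) := by
    ext i k
    have h := congrArg (fun y => bb.repr y k) (hV i)
    simp only [map_sum, map_smul, Finsupp.coe_finsetSum, Finsupp.coe_smul, Finset.sum_apply,
      Pi.smul_apply, smul_eq_mul, Module.Basis.repr_self, Finsupp.single_apply] at h
    rw [Matrix.mul_apply, Matrix.smul_apply, Matrix.one_apply]
    simp only [Vm, Pm, Matrix.of_apply, smul_eq_mul]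
    rw [h]
  have hdet : Vm.det * Pm.det = Ideal.Quotient.mk (Ideal.span {w}) g ^ n' := by
    rw [← Matrix.det_mul, hVP, Matrix.det_smul, Matrix.det_one, mul_one, Fintype.card_fin]
  obtain ⟨u, hu⟩ := Ideal.Quotient.mk_surjective Pm.det
  obtain ⟨v, hv⟩ := Ideal.Quotient.mk_surjective Vm.det
  refine ⟨u, ?_, ?_⟩
  · intro hu𝔪
    have h1 : Ideal.Quotient.mk (Ideal.span {w}) (v * u - g ^ n') = 0 := by
      rw [map_sub, map_mul, map_pow, hu, hv, hdet, sub_self]
    rw [Ideal.Quotient.eq_zero_iff_mem, Ideal.mem_span_singleton] at h1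
    have h2 : v * u - g ^ n' ∈ 𝔪 := Ideal.mem_of_dvd 𝔪 h1 hw𝔪
    have h3 : g ^ n' ∈ 𝔪 := by
      have := 𝔪.sub_mem (𝔪.mul_mem_left v hu𝔪) h2
      simpa using this
    exact hg𝔪 (Ideal.IsPrime.mem_of_pow_mem inferInstance n' h3)
  · -- discriminants
    have hxb : (fun i => Ideal.Quotient.mk ((Ideal.span {w}).map (algebraMap P B)) (x i)) =
        (Pm.map (algebraMap (P ⧸ Ideal.span {w})
          (B ⧸ (Ideal.span {w}).map (algebraMap P B)))).mulVec bb := by
      funext i
      simp only [Matrix.mulVec, dotProduct, Matrix.map_apply, Pm, Matrix.of_apply]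
      conv_lhs => rw [← bb.sum_repr (Ideal.Quotient.mk _ (x i))]
      refine Finset.sum_congr rfl fun j _ => ?_
      rw [Algebra.smul_def]
    have hdisc : Algebra.discr (P ⧸ Ideal.span {w})
        (fun i => Ideal.Quotient.mk ((Ideal.span {w}).map (algebraMap P B)) (x i)) =
        Pm.det ^ 2 * Algebra.discr (P ⧸ Ideal.span {w}) bb := by
      rw [hxb, Algebra.discr_of_matrix_mulVec]
    rw [hu, ← hdisc, Algebra.discr_def, intDiscr, RingHom.map_det]
    congr 1
    ext i j
    simp only [RingHom.mapMatrix_apply, Matrix.map_apply, Matrix.of_apply,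
      Algebra.traceMatrix_apply, Algebra.traceForm_apply]
    rw [mk_intTrace_eq_trace hw x hli g hgw hspan, map_mul]

end Main

end Fermat.Agent.S18.B12.H393

end
end
-- ===== PACK-END S18/B12/H393/DiscrRed.lean

-- ===== PACK-BEGIN S18/B12/H278/Transfer.lean
section


/-!
# b2-SF core over a PID (helper278)

`Λ` a PID, `t` a prime element, `C` a finite free commutative `Λ`-algebra with basis `b`,
`f : C →ₐ[Λ] L` an injective map into a commutative `Λ`-algebra without `Λ`-torsion.
If `C / rad(tC)` is spanned by `s` elements over `Λ` and `t ^ (n - s + 1) ∤ disc(b)`, then every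
`x : L` integral over `Λ` with `g₀ • x ∈ C` for some `g₀ ≠ 0` satisfies `g • x ∈ C` for some
`g ∉ (t)`:  **`C` is integrally closed in `L ∩ (C ⊗ Frac Λ)` locally at `t`**.

Proof: localise at `(t)` and apply the DVR criterion `mem_range_of_isIntegral` of
`Fermat/Agent/S37/H278/Normal.lean`.
-/

set_option autoImplicit false
set_option linter.style.haveILetI false
set_option linter.unusedSectionVars false

namespace Fermat.Agent.S18.B12.H278

open Module Polynomial Fermat.Agent.S37.H278

section Transfer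

variable {Λ : Type*} [CommRing Λ] [IsDomain Λ] [IsPrincipalIdealRing Λ]
  {C : Type*} [CommRing C] [Algebra Λ C]
  {L : Type*} [CommRing L] [Algebra Λ L]

/-- Divisibility by powers of `t` can be tested in the localisation at `(t)`. -/
theorem pow_dvd_of_pow_dvd_algebraMap {t : Λ} (ht : Prime t) (P : Ideal Λ) [P.IsPrime]
    (hP : P = Ideal.span {t})
    (o : Type*) [CommRing o] [Algebra Λ o] [IsLocalization.AtPrime o P] (k : ℕ) (d : Λ)
    (h : algebraMap Λ o t ^ k ∣ algebraMap Λ o d) : t ^ k ∣ d := by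
  obtain ⟨e, he⟩ := h
  obtain ⟨⟨a, g⟩, hag⟩ := IsLocalization.surj P.primeCompl e
  simp only at hag
  have hinj : Function.Injective (algebraMap Λ o) :=
    IsLocalization.injective o (Ideal.primeCompl_le_nonZeroDivisors P)
  have h1 : g.1 * d = t ^ k * a := by
    apply hinj
    rw [map_mul, map_mul, map_pow, he, ← hag]
    ring
  have hg : ¬ t ∣ g.1 := by
    intro hdiv
    exact g.2 (hP.ge (Ideal.mem_span_singleton.mpr hdiv))
  exact ht.pow_dvd_of_dvd_mul_left k hg ⟨a, h1⟩

/-- The image of `t` is a uniformiser of the localisation at `(t)`. -/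
theorem irreducible_algebraMap_of_atPrime {t : Λ} (P : Ideal Λ) [P.IsPrime]
    (hP : P = Ideal.span {t})
    (o : Type*) [CommRing o] [IsDomain o] [IsDiscreteValuationRing o] [Algebra Λ o]
    [IsLocalization.AtPrime o P] : Irreducible (algebraMap Λ o t) := by
  rw [IsDiscreteValuationRing.irreducible_iff_uniformizer,
    ← IsLocalization.AtPrime.map_eq_maximalIdeal P o, hP, Ideal.map_span, Set.image_singleton]

/-- Transfer of the spanning hypothesis to the localisation. -/
theorem sup_eq_top_of_atPrime {t : Λ} (P : Ideal Λ) [P.IsPrime]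
    (o : Type*) [CommRing o] [Algebra Λ o] [IsLocalization.AtPrime o P]
    (C' : Type*) [CommRing C'] [Algebra C C'] [Algebra o C'] [Algebra Λ C']
    [IsScalarTower Λ o C'] [IsScalarTower Λ C C']
    [IsLocalization (Algebra.algebraMapSubmonoid C P.primeCompl) C']
    (s : ℕ) (y : Fin s → C)
    (hy : ∀ x : C, ∃ a : Fin s → Λ,
        x - ∑ i, a i • y i ∈ (Ideal.span {algebraMap Λ C t}).radical) :
    ((Ideal.span {algebraMap o C' (algebraMap Λ o t)}).radical.restrictScalars o) ⊔
        Submodule.span o (Set.range fun i => algebraMap C C' (y i)) = ⊤ := by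
  rw [eq_top_iff]
  intro c' _
  obtain ⟨⟨c, m⟩, hcm⟩ := IsLocalization.surj (Algebra.algebraMapSubmonoid C P.primeCompl) c'
  obtain ⟨g, hg, hgm⟩ := m.2
  simp only at hcm
  -- `algebraMap g` is a unit of `o`
  obtain ⟨v, hv⟩ := (IsLocalization.map_units o (⟨g, hg⟩ : P.primeCompl)).exists_right_inv
  simp only at hv
  have hc' : c' = v • algebraMap C C' c := by
    rw [← hcm, ← hgm, ← IsScalarTower.algebraMap_apply, IsScalarTower.algebraMap_apply Λ o C',
      Algebra.smul_def, mul_comm c', ← mul_assoc, ← map_mul, mul_comm v, hv, map_one, one_mul]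
  rw [hc']
  refine Submodule.smul_mem _ _ ?_
  obtain ⟨a, ha⟩ := hy c
  have h1 : algebraMap C C' c =
      algebraMap C C' (c - ∑ i, a i • y i) + ∑ i, algebraMap Λ o (a i) • algebraMap C C' (y i) := by
    rw [map_sub, map_sum]
    have : ∀ i, algebraMap C C' (a i • y i) = algebraMap Λ o (a i) • algebraMap C C' (y i) := by
      intro i
      rw [Algebra.smul_def, map_mul, Algebra.smul_def, ← IsScalarTower.algebraMap_apply,
        ← IsScalarTower.algebraMap_apply]
    simp only [this]
    ring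
  rw [h1]
  refine Submodule.add_mem_sup ?_ ?_
  · show algebraMap C C' (c - ∑ i, a i • y i) ∈
      (Ideal.span {algebraMap o C' (algebraMap Λ o t)}).radical
    have h2 := Ideal.map_radical_le (algebraMap C C') (Ideal.mem_map_of_mem (algebraMap C C') ha)
    rw [Ideal.map_span, Set.image_singleton, ← IsScalarTower.algebraMap_apply,
      IsScalarTower.algebraMap_apply Λ o C'] at h2
    exact h2
  · refine Submodule.sum_mem _ fun i _ => Submodule.smul_mem _ _ (Submodule.subset_span ⟨i, rfl⟩)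

/-- Main transfer theorem, with abstract localisations `o = Λ_(t)`, `C' = C_(t)`,
`L' = C' ⊗ Frac o`. -/
theorem exists_smul_mem_range_aux {t : Λ} (ht : Prime t) (P : Ideal Λ) [P.IsPrime]
    (hP : P = Ideal.span {t})
    (o : Type*) [CommRing o] [IsDomain o] [IsDiscreteValuationRing o] [Algebra Λ o]
    [IsLocalization.AtPrime o P]
    (C' : Type*) [CommRing C'] [Algebra C C'] [Algebra o C'] [Algebra Λ C']
    [IsScalarTower Λ o C'] [IsScalarTower Λ C C']
    [IsLocalization (Algebra.algebraMapSubmonoid C P.primeCompl) C']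
    (L' : Type*) [CommRing L'] [Algebra o L'] [Algebra C' L']
    [IsScalarTower o C' L']
    [IsLocalization (Algebra.algebraMapSubmonoid C' (nonZeroDivisors o)) L']
    (hL : ∀ (g : Λ) (l : L), g ≠ 0 → g • l = 0 → l = 0)
    (f : C →ₐ[Λ] L) (hf : Function.Injective f)
    {ι : Type*} [Fintype ι] [DecidableEq ι] (b : Basis ι Λ C) (s : ℕ) (y : Fin s → C)
    (hy : ∀ x : C, ∃ a : Fin s → Λ,
        x - ∑ i, a i • y i ∈ (Ideal.span {algebraMap Λ C t}).radical)
    (hd : ¬ t ^ (Fintype.card ι - s + 1) ∣ Algebra.discr Λ b)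
    (x : L) (hx : IsIntegral Λ x) (hx0 : ∃ g₀ : Λ, g₀ ≠ 0 ∧ g₀ • x ∈ f.range) :
    ∃ g : Λ, ¬ t ∣ g ∧ g • x ∈ f.range := by
  classical
  -- `L'` is an algebra over `K = Frac o`
  have hunitK : ∀ z : nonZeroDivisors o, IsUnit (algebraMap o L' z) := by
    intro z
    rw [IsScalarTower.algebraMap_apply o C' L']
    exact IsLocalization.map_units L' (⟨algebraMap o C' z, ⟨z, z.2, rfl⟩⟩ :
      Algebra.algebraMapSubmonoid C' (nonZeroDivisors o))
  letI : Algebra (FractionRing o) L' :=
    (IsLocalization.lift (M := nonZeroDivisors o) (g := algebraMap o L') hunitK).toAlgebra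
  haveI : IsScalarTower o (FractionRing o) L' :=
    IsScalarTower.of_algebraMap_eq (fun z => (IsLocalization.lift_eq hunitK z).symm)
  obtain ⟨g₀, hg₀, c₀, hc₀'⟩ := hx0
  have hc₀ : f c₀ = g₀ • x := hc₀'
  obtain ⟨p, hpm, hpx⟩ := hx
  let b' : Basis ι o C' := b.localizationLocalization o P.primeCompl C'
  haveI : Module.Free o C' := Module.Free.of_basis b'
  haveI : Module.Finite o C' := Module.Finite.of_basis b'
  haveI : Module.Free Λ C := Module.Free.of_basis b
  have ht' : Irreducible (algebraMap Λ o t) := irreducible_algebraMap_of_atPrime P hP o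
  have hu' := sup_eq_top_of_atPrime (t := t) P o C' s y hy
  have hd' : ¬ algebraMap Λ o t ^ (Fintype.card ι - s + 1) ∣ Algebra.discr o b' := by
    rw [Algebra.discr_localizationLocalization Λ P.primeCompl C' b]
    exact fun h => hd (pow_dvd_of_pow_dvd_algebraMap ht P hP o _ _ h)
  -- the maps
  have hinjΛo : Function.Injective (algebraMap Λ o) :=
    IsLocalization.injective o (Ideal.primeCompl_le_nonZeroDivisors P)
  have hinjC : Function.Injective (algebraMap C C') := by
    apply IsLocalization.injective C' (M := Algebra.algebraMapSubmonoid C P.primeCompl)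
    rintro _ ⟨g, hg, rfl⟩
    rw [mem_nonZeroDivisors_iff_right]
    intro c hc
    have hg0 : g ≠ 0 := fun h => hg (h ▸ P.zero_mem)
    apply smul_eq_zero_imp hg0
    rw [Algebra.smul_def, mul_comm]
    exact hc
  have hinjC' : Function.Injective (algebraMap C' L') := algebraMap_injective_of_free (o := o) L'
  let φ : C →+* L' := (algebraMap C' L').comp (algebraMap C C')
  have hφ : Function.Injective φ := hinjC'.comp hinjC
  let ψ : Λ →+* L' := φ.comp (algebraMap Λ C)
  have hψ : ∀ a, ψ a = algebraMap o L' (algebraMap Λ o a) := by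
    intro a
    show algebraMap C' L' (algebraMap C C' (algebraMap Λ C a)) = _
    rw [← IsScalarTower.algebraMap_apply Λ C C', IsScalarTower.algebraMap_apply Λ o C',
      ← IsScalarTower.algebraMap_apply o C' L']
  have hunit : IsUnit (ψ g₀) := by
    have hmem : algebraMap o C' (algebraMap Λ o g₀) ∈
        Algebra.algebraMapSubmonoid C' (nonZeroDivisors o) :=
      ⟨algebraMap Λ o g₀, mem_nonZeroDivisors_of_ne_zero
        (fun h => hg₀ (hinjΛo (by rw [h, map_zero]))), rfl⟩
    have := IsLocalization.map_units L' (⟨_, hmem⟩ :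
      Algebra.algebraMapSubmonoid C' (nonZeroDivisors o))
    rw [hψ, IsScalarTower.algebraMap_apply o C' L']
    exact this
  obtain ⟨w, hw⟩ := hunit.exists_left_inv
  -- the element `x' = c₀ / g₀` of `L'`
  set x' : L' := w * φ c₀ with hx'
  have hgx' : ψ g₀ * x' = φ c₀ := by
    rw [hx', ← mul_assoc, mul_comm (ψ g₀), hw, one_mul]
  -- `c₀` is a root of the scaled polynomial
  have hq : eval₂ (algebraMap Λ C) c₀ (scaleRoots p g₀) = 0 := by
    apply hf
    rw [map_zero]
    have h1 : f (eval₂ (algebraMap Λ C) c₀ (scaleRoots p g₀)) =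
        eval₂ (algebraMap Λ L) (f c₀) (scaleRoots p g₀) := by
      rw [← Polynomial.aeval_def, ← Polynomial.aeval_def, Polynomial.aeval_algHom_apply]
    rw [h1, hc₀, Algebra.smul_def, scaleRoots_eval₂_mul, hpx, mul_zero]
  have hx'int : IsIntegral o x' := by
    refine ⟨p.map (algebraMap Λ o), hpm.map _, ?_⟩
    rw [eval₂_map]
    have h2 : eval₂ ((algebraMap o L').comp (algebraMap Λ o)) x' p = eval₂ ψ x' p := by
      congr 1
      ext a
      exact (hψ a).symm
    rw [h2]
    have h3 : ψ g₀ ^ p.natDegree * eval₂ ψ x' p = 0 := by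
      rw [← scaleRoots_eval₂_mul, hgx']
      have : eval₂ ψ (φ c₀) (scaleRoots p g₀) = φ (eval₂ (algebraMap Λ C) c₀ (scaleRoots p g₀)) := by
        rw [Polynomial.hom_eval₂]
      rw [this, hq, map_zero]
    have hu2 : IsUnit (ψ g₀ ^ p.natDegree) := hunit.pow _
    exact (hu2.mul_right_eq_zero).mp h3
  -- apply the DVR criterion
  obtain ⟨c', hc'⟩ := mem_range_of_isIntegral (K := FractionRing o) ht' b' s
    (fun i => algebraMap C C' (y i)) hu' hd' x' hx'int
  obtain ⟨⟨c, m⟩, hcm⟩ := IsLocalization.surj (Algebra.algebraMapSubmonoid C P.primeCompl) c'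
  obtain ⟨g, hg, hgm⟩ := m.2
  simp only at hcm
  refine ⟨g, fun hdiv => hg (hP.ge (Ideal.mem_span_singleton.mpr hdiv)), c, ?_⟩
  -- `g • c₀ = g₀ • c` in `C`
  have hkey : g • c₀ = g₀ • c := by
    apply hφ
    have e1 : φ (g • c₀) = ψ g * φ c₀ := by
      rw [Algebra.smul_def, map_mul]; rfl
    have e2 : φ (g₀ • c) = ψ g₀ * φ c := by
      rw [Algebra.smul_def, map_mul]; rfl
    have e3 : φ c = x' * ψ g := by
      show algebraMap C' L' (algebraMap C C' c) = _
      rw [← hcm, map_mul, hc', ← hgm]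
      rfl
    rw [e1, e2, e3, ← hgx']
    ring
  show f c = g • x
  have hfin : g₀ • (f c - g • x) = 0 := by
    rw [smul_sub, smul_comm g₀ g x, ← hc₀, ← map_smul, ← map_smul, hkey, sub_self]
  exact sub_eq_zero.mp (hL g₀ _ hg₀ hfin)

/-- **Normality criterion over a PID, local at a prime `t`.**
`C` finite free `Λ`-algebra with basis `b`, `f : C → L` injective, `L` without `Λ`-torsion.  If
`C / rad(tC)` is spanned by `s` elements and `t ^ (n - s + 1) ∤ disc(b)`, then every `x : L`
integral over `Λ` which is a fraction of an element of `C` lies in `C` locally at `t`. -/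
theorem exists_smul_mem_range_of_isIntegral {t : Λ} (ht : Prime t)
    (hL : ∀ (g : Λ) (l : L), g ≠ 0 → g • l = 0 → l = 0)
    (f : C →ₐ[Λ] L) (hf : Function.Injective f)
    {ι : Type*} [Fintype ι] [DecidableEq ι] (b : Basis ι Λ C) (s : ℕ) (y : Fin s → C)
    (hy : ∀ x : C, ∃ a : Fin s → Λ,
        x - ∑ i, a i • y i ∈ (Ideal.span {algebraMap Λ C t}).radical)
    (hd : ¬ t ^ (Fintype.card ι - s + 1) ∣ Algebra.discr Λ b)
    (x : L) (hx : IsIntegral Λ x) (hx0 : ∃ g₀ : Λ, g₀ ≠ 0 ∧ g₀ • x ∈ f.range) :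
    ∃ g : Λ, ¬ t ∣ g ∧ g • x ∈ f.range := by
  haveI hP : (Ideal.span {t} : Ideal Λ).IsPrime := (Ideal.span_singleton_prime ht.ne_zero).mpr ht
  haveI : IsDiscreteValuationRing (Localization.AtPrime (Ideal.span {t} : Ideal Λ)) :=
    IsLocalization.AtPrime.isDiscreteValuationRing_of_dedekind_domain Λ
      (P := Ideal.span {t}) (by
        rw [Ne, Ideal.span_singleton_eq_bot]; exact ht.ne_zero) _
  exact exists_smul_mem_range_aux ht (Ideal.span {t}) rfl
    (Localization.AtPrime (Ideal.span {t} : Ideal Λ))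
    (Localization (Algebra.algebraMapSubmonoid C (Ideal.span {t} : Ideal Λ).primeCompl))
    (Localization (Algebra.algebraMapSubmonoid
      (Localization (Algebra.algebraMapSubmonoid C (Ideal.span {t} : Ideal Λ).primeCompl))
      (nonZeroDivisors (Localization.AtPrime (Ideal.span {t} : Ideal Λ)))))
    hL f hf b s y hy hd x hx hx0

end Transfer

end Fermat.Agent.S18.B12.H278

end
-- ===== PACK-END S18/B12/H278/Transfer.lean

-- ===== PACK-BEGIN S18/H754/HncMain.lean
section


/-!
# S18 / ALG-FRONT / hNC adapter, main theorem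

`B` Noetherian normal domain inside a field `Ω`, `Lc ≤ Ω` a subfield of constants,
`π = lc * ∏_{c ∈ roots} (x - c)` in `Ω` with pairwise distinct `c ∈ Lc ∖ S`, `lc ∈ Lc ∖ {0}`.
Hypotheses:
* `hw`/`hLc`  : some `w ∈ B` lies in no height-one prime containing `π`, and every constant
  becomes integral over `B` after multiplication by a power of `w` (so `Lc ⊆ O` for every
  valuation ring `O` of `Ω` dominating `B_𝔓`);
* `hunr`     : the `unramified` field of `Alg.GoodModel`, verbatim.
Conclusion: `(π)` is a radical ideal of `B`  (= hypothesis `hNC` of `B12.B2RegularStatement`).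
-/

set_option autoImplicit false

noncomputable section

namespace Fermat.Agent.S18.H754

section Main

variable {B : Type*} [CommRing B] [IsDomain B] [IsNoetherianRing B] [IsIntegrallyClosed B]
  {Ω : Type*} [Field Ω] [Algebra B Ω] [FaithfulSMul B Ω]

omit [IsDomain B] [IsNoetherianRing B] [IsIntegrallyClosed B] [FaithfulSMul B Ω] in
/-- elements integral over `B` lie in every valuation subring containing `B`. -/
theorem mem_valuationSubring_of_isIntegral (O : ValuationSubring Ω)
    (hB : ∀ b : B, algebraMap B Ω b ∈ O) {a : Ω} (ha : IsIntegral B a) : a ∈ O := by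
  obtain ⟨P, hP, hPa⟩ := ha
  let g : B →+* O := (algebraMap B Ω).codRestrict O.toSubring hB
  have hint : IsIntegral O a := by
    refine ⟨P.map g, hP.map g, ?_⟩
    rw [Polynomial.eval₂_map]
    exact hPa
  obtain ⟨y, hy⟩ := IsIntegrallyClosed.isIntegral_iff.1 hint
  rw [← hy]
  exact y.2

/-- **hNC adapter** (abstract form). -/
theorem isRadical_span_of_unramified (Lc : Subfield Ω) (π : B) (hπ : π ≠ 0)
    (w : B) (hw : ∀ 𝔓 : Ideal B, 𝔓.IsPrime → 𝔓.height = 1 → π ∈ 𝔓 → w ∉ 𝔓)
    (hLc : ∀ a ∈ Lc, ∃ n : ℕ, IsIntegral B (algebraMap B Ω w ^ n * a))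
    (x : Ω) (S : Finset Ω) (roots : Finset Ω) (hroots : ∀ c ∈ roots, c ∈ Lc ∧ c ∉ S)
    (lc : Ω) (hlc : lc ∈ Lc) (hlc0 : lc ≠ 0)
    (hfac : algebraMap B Ω π = lc * ∏ c ∈ roots, (x - c))
    (hunr : ∀ O : ValuationSubring Ω, (∀ a ∈ Lc, a ∈ O) → ∀ c ∈ Lc, c ∉ S →
        x - c ∈ O → (x - c)⁻¹ ∉ O → ∀ t ∈ O, t⁻¹ ∉ O → t * (x - c)⁻¹ ∈ O) :
    (Ideal.span {π}).IsRadical := by
  classical
  have hinj : Function.Injective (algebraMap B Ω) := FaithfulSMul.algebraMap_injective B Ω
  refine isRadical_span_singleton_of_local_gen π hπ ?_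
  intro 𝔓 h𝔓 hht hπ𝔓 b hb𝔓
  haveI := h𝔓
  by_cases hb0 : b = 0
  · refine ⟨1, ?_, ?_⟩
    · exact fun h1 => h𝔓.ne_top ((Ideal.eq_top_iff_one _).2 h1)
    · rw [hb0, mul_zero]; exact dvd_zero _
  obtain ⟨O, hBO, hunitO, hnonunitO⟩ := exists_valuationSubring_dominating (Ω := Ω) 𝔓
  set v := O.valuation with hv
  have hvle : ∀ y : Ω, v y ≤ 1 ↔ y ∈ O := fun y => O.valuation_le_one_iff y
  -- valuations of elements of `B`
  have hvB : ∀ b : B, v (algebraMap B Ω b) ≤ 1 := fun b => (hvle _).2 (hBO b)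
  have hvunit : ∀ b : B, b ∉ 𝔓 → v (algebraMap B Ω b) = 1 := by
    intro b hb
    have hb0 : algebraMap B Ω b ≠ 0 := by
      intro h0
      have : b = 0 := hinj (by rw [h0, map_zero])
      exact hb (this ▸ 𝔓.zero_mem)
    have h1 := (hvle _).2 (hunitO b hb)
    rw [map_inv₀] at h1
    have h2 := hvB b
    have hne : v (algebraMap B Ω b) ≠ 0 := (Valuation.ne_zero_iff v).2 hb0
    have h3 : 1 ≤ v (algebraMap B Ω b) := by
      rwa [inv_le_one₀ (zero_lt_iff.2 hne)] at h1
    exact le_antisymm h2 h3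
  have hvlt : ∀ b : B, b ∈ 𝔓 → v (algebraMap B Ω b) < 1 := by
    intro b hb
    by_cases hb0 : b = 0
    · rw [hb0, map_zero, map_zero]; exact zero_lt_one
    have hb0' : algebraMap B Ω b ≠ 0 := fun h0 => hb0 (hinj (by rw [h0, map_zero]))
    have h1 := hnonunitO b hb hb0
    rw [← hvle, map_inv₀, not_le] at h1
    have hne : v (algebraMap B Ω b) ≠ 0 := (Valuation.ne_zero_iff v).2 hb0'
    exact (one_lt_inv₀ (zero_lt_iff.2 hne)).1 h1
  -- constants lie in `O`
  have hLcO : ∀ a ∈ Lc, a ∈ O := by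
    intro a ha
    obtain ⟨n, hn⟩ := hLc a ha
    have h1 : algebraMap B Ω w ^ n * a ∈ O := mem_valuationSubring_of_isIntegral O hBO hn
    have hw𝔓 := hw 𝔓 h𝔓 hht hπ𝔓
    have h2 : v (algebraMap B Ω w ^ n * a) ≤ 1 := (hvle _).2 h1
    rw [map_mul, map_pow, hvunit w hw𝔓, one_pow, one_mul] at h2
    exact (hvle _).1 h2
  have hvLc : ∀ a ∈ Lc, a ≠ 0 → v a = 1 := by
    intro a ha ha0
    have h1 : v a ≤ 1 := (hvle _).2 (hLcO a ha)
    have h2 : v a⁻¹ ≤ 1 := (hvle _).2 (hLcO _ (Lc.inv_mem ha))
    rw [map_inv₀] at h2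
    have hne : v a ≠ 0 := (Valuation.ne_zero_iff v).2 ha0
    have h3 : 1 ≤ v a := by rwa [inv_le_one₀ (zero_lt_iff.2 hne)] at h2
    exact le_antisymm h1 h3
  -- the valuation of `π`
  have hπ0 : algebraMap B Ω π ≠ 0 := fun h0 => hπ (hinj (by rw [h0, map_zero]))
  have hvπ : v (algebraMap B Ω π) < 1 := hvlt π hπ𝔓
  have hprod : v (algebraMap B Ω π) = ∏ c ∈ roots, v (x - c) := by
    rw [hfac, map_mul, hvLc lc hlc hlc0, one_mul, map_prod]
  have hfactor0 : ∀ c ∈ roots, x - c ≠ 0 := by
    intro c hc h0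
    apply hπ0
    rw [hfac, Finset.prod_eq_zero hc h0, mul_zero]
  -- `x ∈ O`
  have hxO : v x ≤ 1 := by
    by_contra hx
    rw [not_le] at hx
    have h1 : ∀ c ∈ roots, 1 ≤ v (x - c) := by
      intro c hc
      have hcv : v c ≤ 1 := (hvle _).2 (hLcO c (hroots c hc).1)
      have : v (x - c) = v x := Valuation.map_sub_eq_of_lt_left v (lt_of_le_of_lt hcv hx)
      rw [this]
      exact hx.le
    have h2 : 1 ≤ ∏ c ∈ roots, v (x - c) := Finset.one_le_prod' h1
    rw [← hprod] at h2
    exact absurd hvπ (not_lt.2 h2)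
  have hfle : ∀ c ∈ roots, v (x - c) ≤ 1 := by
    intro c hc
    have hcv : v c ≤ 1 := (hvle _).2 (hLcO c (hroots c hc).1)
    exact (Valuation.map_sub v x c).trans (max_le hxO hcv)
  -- some factor is a non-unit
  have hex : ∃ c₀ ∈ roots, v (x - c₀) < 1 := by
    by_contra hcon
    have h1 : ∀ c ∈ roots, v (x - c) = 1 := by
      intro c hc
      by_contra hne
      exact hcon ⟨c, hc, lt_of_le_of_ne (hfle c hc) hne⟩
    rw [hprod, Finset.prod_eq_one h1] at hvπ
    exact lt_irrefl _ hvπ
  obtain ⟨c₀, hc₀, hvc₀⟩ := hex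
  have hother : ∀ c ∈ roots.erase c₀, v (x - c) = 1 := by
    intro c hc
    rw [Finset.mem_erase] at hc
    have h1 : x - c = (x - c₀) + (c₀ - c) := by ring
    have h2 : v (c₀ - c) = 1 :=
      hvLc _ (Lc.sub_mem (hroots c₀ hc₀).1 (hroots c hc.2).1) (sub_ne_zero.2 (Ne.symm hc.1))
    rw [h1, Valuation.map_add_eq_of_lt_right v (by rw [h2]; exact hvc₀), h2]
  have hvπ' : v (algebraMap B Ω π) = v (x - c₀) := by
    rw [hprod, ← Finset.mul_prod_erase roots _ hc₀, Finset.prod_eq_one hother, mul_one]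
  -- apply `unramified`
  have hkey : ∀ t : Ω, t ≠ 0 → v t < 1 → v t ≤ v (algebraMap B Ω π) := by
    intro t ht0 hvt
    have hc₀0 := hfactor0 c₀ hc₀
    have hne : v (x - c₀) ≠ 0 := (Valuation.ne_zero_iff v).2 hc₀0
    have hnet : v t ≠ 0 := (Valuation.ne_zero_iff v).2 ht0
    have h1 : (x - c₀)⁻¹ ∉ O := by
      rw [← hvle, map_inv₀, not_le]
      exact (one_lt_inv₀ (zero_lt_iff.2 hne)).2 hvc₀
    have h2 : t⁻¹ ∉ O := by
      rw [← hvle, map_inv₀, not_le]
      exact (one_lt_inv₀ (zero_lt_iff.2 hnet)).2 hvt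
    have h3 := hunr O hLcO c₀ (hroots c₀ hc₀).1 (hroots c₀ hc₀).2
      ((hvle _).1 hvc₀.le) h1 t ((hvle _).1 hvt.le) h2
    rw [← hvle, map_mul, map_inv₀] at h3
    rw [hvπ']
    rwa [← div_eq_mul_inv, div_le_one₀ (zero_lt_iff.2 hne)] at h3
  -- `B_𝔓` is a valuation ring
  have hb0' : algebraMap B Ω b ≠ 0 := fun h0 => hb0 (hinj (by rw [h0, map_zero]))
  obtain ⟨s, hs, hd | hd⟩ := exists_dvd_or_dvd_of_height_one 𝔓 hht b π
  · exact ⟨s, hs, hd⟩
  · obtain ⟨d, hd⟩ := hd
    -- `s π = b d`, so `v d = v π / v b ≥ 1`, so `d ∉ 𝔓`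
    have h1 : v (algebraMap B Ω π) = v (algebraMap B Ω b) * v (algebraMap B Ω d) := by
      have := congrArg (fun y => v (algebraMap B Ω y)) hd
      simp only [map_mul] at this
      rwa [hvunit s hs, one_mul] at this
    have h2 := hkey _ hb0' (hvlt b hb𝔓)
    have hd𝔓 : d ∉ 𝔓 := by
      intro hd𝔓
      have h3 := hvlt d hd𝔓
      have hnb : v (algebraMap B Ω b) ≠ 0 := (Valuation.ne_zero_iff v).2 hb0'
      have h4 : v (algebraMap B Ω b) * v (algebraMap B Ω d) < v (algebraMap B Ω b) * 1 :=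
        mul_lt_mul_of_pos_left h3 (zero_lt_iff.2 hnb)
      rw [mul_one, ← h1] at h4
      exact absurd h2 (not_le.2 h4)
    refine ⟨d, hd𝔓, s, ?_⟩
    rw [mul_comm d b, ← hd, mul_comm]

end Main

end Fermat.Agent.S18.H754

end

end
-- ===== PACK-END S18/H754/HncMain.lean

-- ===== PACK-BEGIN S21/Basic2.lean
section



/-!
# S21 — basic lemmas (continued): the cusp strip, weight-2 invariance of `dz u`
-/

set_option autoImplicit false

open UpperHalfPlane Filter Topology MeasureTheory
open scoped MatrixGroups ContDiff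

namespace Fermat.Agent.S21

theorem strip_subset_Uhp (Y : ℝ) : strip Y ⊆ Uhp := fun z hz => by
  have := hz.2.1
  show 0 < z.im
  linarith

theorem isCompact_strip (Y : ℝ) : IsCompact (strip Y) := by
  have h : strip Y = Complex.equivRealProdCLM.symm '' (Set.Icc (-1 : ℝ) 1 ×ˢ Set.Icc (2 : ℝ) Y) := by
    ext z
    simp only [strip, Set.mem_ofPred_eq, Set.mem_image, Set.mem_prod, Set.mem_Icc, Prod.exists]
    constructor
    · rintro ⟨h1, h2, h3⟩
      refine ⟨z.re, z.im, ⟨abs_le.mp h1, h2, h3⟩, ?_⟩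
      apply Complex.ext <;> simp
    · rintro ⟨a, b, ⟨h1, h2, h3⟩, rfl⟩
      simp only [Complex.equivRealProdCLM_symm_apply_re, Complex.equivRealProdCLM_symm_apply_im]
      exact ⟨abs_le.mpr h1, h2, h3⟩
  rw [h]
  exact (isCompact_Icc.prod isCompact_Icc).image Complex.equivRealProdCLM.symm.continuous

/-- weight-2 invariance of `dz u` for `u` with a period along `γ`. -/
theorem asm_dz_inv {u : ℂ → ℝ} (hu : ContDiffOn ℝ 1 u Uhp) (c : ℝ) (γ : SL(2, ℤ))
    (hper : ∀ z : ℍ, u ↑(γ • z) = u ↑z + c) {z : ℂ} (hz : z ∈ Uhp) :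
    dz u (mob γ z) = (cd γ z) ^ 2 * dz u z := by
  have h1 : (fun w => u (mob γ w)) =ᶠ[𝓝 z] fun w => u w + c := by
    filter_upwards [isOpen_Uhp.mem_nhds hz] with w hw
    have := hper ⟨w, hw⟩
    rw [← mob_coe] at this
    exact this
  have h2 := dz_congr h1
  rw [dz_add_const] at h2
  have hd : DifferentiableAt ℝ u (mob γ z) :=
    (hu.differentiableOn one_ne_zero).differentiableAt (isOpen_Uhp.mem_nhds (mob_mem_Uhp γ z))
  rw [dz_comp_mob u γ z hz hd] at h2
  have hne := cd_ne_zero γ hz
  rw [← h2]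
  field_simp


end Fermat.Agent.S21

end
-- ===== PACK-END S21/Basic2.lean

-- ===== PACK-BEGIN S23/Cap/Descent.lean
section



/-!
# S23 / WP6 : Galois descent for subspaces of `ℂ⟦q⟧`.

Adapter around the abstract dual-basis descent lemma `Fermat.Agent.S23.H683.descent`.
-/

set_option autoImplicit false

namespace Fermat.Agent.S23.Cap

/-- the truncation map `W → ℂ^{B+1}` -/
noncomputable def descentTrunc (W : Submodule ℂ (PowerSeries ℂ)) (B : ℕ) :
    W →ₗ[ℂ] (Fin (B + 1) → ℂ) :=
  LinearMap.pi fun i => (PowerSeries.coeff (R := ℂ) (i : ℕ)).comp W.subtype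

theorem descentTrunc_injective (W : Submodule ℂ (PowerSeries ℂ)) (B : ℕ)
    (hB : ∀ F ∈ W, (∀ n ≤ B, PowerSeries.coeff n F = 0) → F = 0) :
    Function.Injective (descentTrunc W B) := by
  rw [← LinearMap.ker_eq_bot, LinearMap.ker_eq_bot']
  intro F hF
  apply Subtype.ext
  apply hB F.1 F.2
  intro n hn
  have := congrFun hF ⟨n, Nat.lt_succ_of_le hn⟩
  simpa [descentTrunc] using this

/-- **WP6 main statement.** -/
theorem descent (W : Submodule ℂ (PowerSeries ℂ)) (B : ℕ)
    (hB : ∀ F ∈ W, (∀ n ≤ B, PowerSeries.coeff n F = 0) → F = 0)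
    (hσ : ∀ σ : ℂ →+* ℂ, ∀ F ∈ W, F.map σ ∈ W) :
    W ≤ Submodule.span ℂ
      {F | F ∈ W ∧ ∀ n : ℕ, ∃ r : ℚ, PowerSeries.coeff n F = (r : ℂ)} := by
  haveI : FiniteDimensional ℂ W :=
    FiniteDimensional.of_injective (descentTrunc W B) (descentTrunc_injective W B hB)
  let a : ℕ → W →ₗ[ℂ] ℂ := fun n => (PowerSeries.coeff (R := ℂ) n).comp W.subtype
  have hinj : ∀ f : W, (∀ n, a n f = 0) → f = 0 := by
    intro f hf
    apply Subtype.ext
    apply PowerSeries.ext
    intro n
    simpa [a] using hf n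
  have htr : ∀ (σ : ℂ ≃+* ℂ) (f : W), ∃ g : W, ∀ n, a n g = σ (a n f) := by
    intro σ f
    refine ⟨⟨(f : PowerSeries ℂ).map σ.toRingHom, hσ σ.toRingHom f.1 f.2⟩, fun n => ?_⟩
    simp [a]
  have key := Fermat.Agent.S23.H683.descent a hinj htr
  intro F hF
  have hmem : (⟨F, hF⟩ : W) ∈ Submodule.span ℂ {f : W | ∀ n, ∃ r : ℚ, a n f = (r : ℂ)} := by
    rw [key]; trivial
  have h2 := Submodule.mem_map_of_mem (f := W.subtype) hmem
  rw [Submodule.map_span] at h2
  refine Submodule.span_mono ?_ h2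
  rintro _ ⟨f, hf, rfl⟩
  exact ⟨f.2, fun n => by simpa [a] using hf n⟩

end Fermat.Agent.S23.Cap

end
-- ===== PACK-END S23/Cap/Descent.lean

-- ===== PACK-BEGIN Lib/Newform/H958/X/Basic.lean
section



/-!
# NEWFORM block X — basic facts on `Lam` and the Euler polynomials
-/

set_option autoImplicit false

open CongruenceSubgroup Complex Polynomial
open UpperHalfPlane hiding I
open scoped MatrixGroups ModularForm

namespace Fermat.Agent.Lib.Newform.H958.X

open ModularFormClass

variable {N : ℕ} [NeZero N]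

theorem Lam_eq_mellin (f : CuspForm (Gamma0 N) 2) :
    Lam f = mellin (fun t : ℝ => f (ofComplex (I * t))) :=
  CuspForm.Λ_eq_mellin two_pos f

theorem differentiable_Lam (f : CuspForm (Gamma0 N) 2) : Differentiable ℂ (Lam f) :=
  CuspForm.differentiable_Λ two_pos f

theorem Lam_smul (c : ℂ) (f : CuspForm (Gamma0 N) 2) (s : ℂ) :
    Lam (c • f) s = c * Lam f s := by
  rw [Lam_eq_mellin, Lam_eq_mellin]
  have : (fun t : ℝ => (c • f) (ofComplex (I * t))) =
      fun t : ℝ => c • (fun t : ℝ => f (ofComplex (I * t))) t := by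
    funext t
    rfl
  rw [this, mellin_const_smul, smul_eq_mul]

theorem term_eq_div (a : ℕ → ℂ) {s : ℂ} (hs : 2 < s.re) (n : ℕ) :
    LSeries.term a s n = a n / (n : ℂ) ^ s := by
  have hs0 : s ≠ 0 := by
    rintro rfl
    simp at hs
    linarith
  exact LSeries.term_of_ne_zero' hs0 a n

theorem lseriesHasSum_of_hasSum {a : ℕ → ℂ} {s c : ℂ} (hs : 2 < s.re)
    (h : HasSum (fun n : ℕ => a n / (n : ℂ) ^ s) c) : LSeriesHasSum a s c := by
  unfold LSeriesHasSum
  have : LSeries.term a s = fun n : ℕ => a n / (n : ℂ) ^ s :=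
    funext (term_eq_div a hs)
  rw [this]
  exact h

theorem lseries_qCoeff (hD : DirichletSeries) (f : CuspForm (Gamma0 N) 2) {s : ℂ}
    (hs : 2 < s.re) : LSeries (fun n => qCoeff f n) s = Lam f s * (2 / Gammaℂ s) :=
  (lseriesHasSum_of_hasSum hs (hD N f s hs)).LSeries_eq

theorem abscissa_qCoeff_lt_top (hD : DirichletSeries) (f : CuspForm (Gamma0 N) 2) :
    LSeries.abscissaOfAbsConv (fun n => qCoeff f n) < ⊤ := by
  refine lt_of_le_of_lt
    (LSeries.abscissaOfAbsConv_le_of_forall_lt_LSeriesSummable (x := 2) fun y hy => ?_)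
    (EReal.coe_lt_top 2)
  have hy' : 2 < ((y : ℝ) : ℂ).re := by simpa using hy
  exact (lseriesHasSum_of_hasSum hy' (hD N f _ hy')).LSeriesSummable

/-- `Lam f` does not vanish identically on `Re s > 2` if `a_1(f) = 1`. -/
theorem exists_Lam_ne_zero (hD : DirichletSeries) (f : CuspForm (Gamma0 N) 2)
    (h1 : qCoeff f 1 = 1) : ∃ s : ℂ, 2 < s.re ∧ Lam f s ≠ 0 := by
  by_contra hcon
  replace hcon : ∀ s : ℂ, 2 < s.re → Lam f s = 0 := by
    intro s hs
    by_contra h
    exact hcon ⟨s, hs, h⟩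
  have hlim := LSeries.tendsto_atTop (abscissa_qCoeff_lt_top hD f)
  have hzero : (fun x : ℝ => LSeries (fun n => qCoeff f n) x) =ᶠ[Filter.atTop] fun _ => 0 := by
    filter_upwards [Filter.eventually_gt_atTop (2 : ℝ)] with x hx
    have hx' : 2 < ((x : ℝ) : ℂ).re := by simpa using hx
    rw [lseries_qCoeff hD f hx', hcon _ hx', zero_mul]
  have h0 : Filter.Tendsto (fun x : ℝ => LSeries (fun n => qCoeff f n) x) Filter.atTop
      (nhds 0) := (tendsto_const_nhds).congr' hzero.symm
  have := tendsto_nhds_unique hlim h0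
  rw [h1] at this
  exact one_ne_zero this

/-! ## Euler polynomials -/

theorem eulerPoly_coeff_zero (N : ℕ) (a : ℕ → ℂ) (p : ℕ) : (eulerPoly N a p).coeff 0 = 1 := by
  unfold eulerPoly
  split_ifs <;> simp

theorem eulerPoly_ne_zero (N : ℕ) (a : ℕ → ℂ) (p : ℕ) : eulerPoly N a p ≠ 0 := by
  intro h
  have := eulerPoly_coeff_zero N a p
  rw [h] at this
  simp at this

theorem eulerPolyRev_coeff_two (N : ℕ) (a : ℕ → ℂ) (p : ℕ) :
    (eulerPolyRev N a p).coeff 2 = 1 := by
  unfold eulerPolyRev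
  split_ifs <;> simp

theorem eulerPolyRev_ne_zero (N : ℕ) (a : ℕ → ℂ) (p : ℕ) : eulerPolyRev N a p ≠ 0 := by
  intro h
  have := eulerPolyRev_coeff_two N a p
  rw [h] at this
  simp at this

/-- `X² P(p⁻² / X) = P~(X)` for `X ≠ 0`. -/
theorem eval_eulerPolyRev (N : ℕ) (a : ℕ → ℂ) {p : ℕ} (hp : p ≠ 0) {x : ℂ} (hx : x ≠ 0) :
    (eulerPolyRev N a p).eval x = x ^ 2 * (eulerPoly N a p).eval (((p : ℂ) ^ 2)⁻¹ / x) := by
  have hpc : (p : ℂ) ≠ 0 := Nat.cast_ne_zero.mpr hp
  unfold eulerPolyRev eulerPoly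
  split_ifs
  · simp only [eval_add, eval_sub, eval_pow, eval_X, eval_mul, eval_C, eval_zero, eval_one]
    field_simp
    ring
  · simp only [eval_add, eval_sub, eval_pow, eval_X, eval_mul, eval_C, eval_one]
    field_simp

end Fermat.Agent.Lib.Newform.H958.X

end
-- ===== PACK-END Lib/Newform/H958/X/Basic.lean

-- ===== PACK-BEGIN Lib/Newform/H683/XDeplete.lean
section
/-
NEWFORM library, block X (helper683) — **X5 Deplete**: multiplying the Dirichlet series of a
normalized eigenform by the Euler polynomials at the primes of a finite set `T` removes the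
coefficients `a_n` with `gcd(n, T) ≠ 1`.

`deplete_of : DirichletSeries → Deplete` (frozen interface `H958/X/Spec.lean`).
-/



set_option autoImplicit false

open CongruenceSubgroup UpperHalfPlane Complex Polynomial ModularFormClass

namespace Fermat.Agent.Lib.Newform.H683

open Fermat.Agent.Lib.Newform.H958.X

/-! ### Shifting a Dirichlet series by a prime -/

/-- the shift `b ↦ (n ↦ [p ∣ n] b (n / p))` on coefficient sequences -/
def dShift (p : ℕ) (b : ℕ → ℂ) (n : ℕ) : ℂ := if p ∣ n then b (n / p) else 0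

theorem dShift_mul {p : ℕ} (hp : 0 < p) (b : ℕ → ℂ) (m : ℕ) : dShift p b (m * p) = b m := by
  simp [dShift, Nat.mul_div_cancel m hp]

theorem dShift_of_not_dvd {p : ℕ} (b : ℕ → ℂ) {n : ℕ} (h : ¬ p ∣ n) : dShift p b n = 0 := by
  simp [dShift, h]

theorem hasSum_dShift {p : ℕ} (hp : 0 < p) (b : ℕ → ℂ) (s L : ℂ)
    (h : HasSum (fun n : ℕ => b n / (n : ℂ) ^ s) L) :
    HasSum (fun n : ℕ => dShift p b n / (n : ℂ) ^ s) ((p : ℂ) ^ (-s) * L) := by
  have hinj : Function.Injective (fun m : ℕ => m * p) := fun a c hac =>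
    Nat.eq_of_mul_eq_mul_right hp hac
  have hzero : ∀ x : ℕ, x ∉ Set.range (fun m : ℕ => m * p) →
      dShift p b x / (x : ℂ) ^ s = 0 := by
    intro x hx
    have : ¬ p ∣ x := fun ⟨m, hm⟩ => hx ⟨m, by simp [hm, mul_comm]⟩
    simp [dShift, this]
  rw [← hinj.hasSum_iff hzero]
  have hfun : ((fun n : ℕ => dShift p b n / (n : ℂ) ^ s) ∘ fun m : ℕ => m * p)
      = fun m : ℕ => (p : ℂ) ^ (-s) * (b m / (m : ℂ) ^ s) := by
    funext m
    simp only [Function.comp_apply, dShift_mul hp]
    rw [Nat.cast_mul, natCast_mul_natCast_cpow, cpow_neg]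
    field_simp
  rw [hfun]
  exact h.mul_left _

/-! ### The local relation -/

/-- the depleted coefficient sequence -/
noncomputable def depl (T : Finset ℕ) (a : ℕ → ℂ) (n : ℕ) : ℂ :=
  haveI : Decidable (∀ p ∈ T, ¬ p ∣ n) := Classical.dec _
  if ∀ p ∈ T, ¬ p ∣ n then a n else 0

theorem depl_pos {T : Finset ℕ} {a : ℕ → ℂ} {n : ℕ} (h : ∀ p ∈ T, ¬ p ∣ n) :
    depl T a n = a n := by
  unfold depl; exact if_pos h

theorem depl_neg {T : Finset ℕ} {a : ℕ → ℂ} {n : ℕ} (h : ¬ ∀ p ∈ T, ¬ p ∣ n) :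
    depl T a n = 0 := by
  unfold depl; exact if_neg h

theorem depl_insert_eq {N : ℕ} (f : CuspForm (Gamma0 N) 2) (hf : f.IsNormalizedEigenform)
    (T : Finset ℕ) (hT : ∀ q ∈ T, q.Prime) {p : ℕ} (hp : p.Prime) (hpT : p ∉ T) (n : ℕ) :
    depl (insert p T) (qCoeff ⇑f) n =
      depl T (qCoeff ⇑f) n - qCoeff ⇑f p * dShift p (depl T (qCoeff ⇑f)) n
        + (if p ∣ N then 0 else (p : ℂ)) * dShift p (dShift p (depl T (qCoeff ⇑f))) n := by
  have hcond : ∀ m : ℕ, (∀ q ∈ T, ¬ q ∣ m * p) ↔ (∀ q ∈ T, ¬ q ∣ m) := by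
    intro m
    refine forall₂_congr (fun q hq => ?_)
    have hqp : ¬ q ∣ p := fun h =>
      hpT (((Nat.prime_dvd_prime_iff_eq (hT q hq) hp).mp h) ▸ hq)
    constructor
    · exact fun h h' => h (Dvd.dvd.mul_right h' p)
    · intro h h'
      rcases ((hT q hq).dvd_mul).mp h' with h1 | h1
      · exact h h1
      · exact hqp h1
  by_cases hpn : p ∣ n
  · obtain ⟨m, rfl⟩ := hpn
    have hins : ¬ (∀ q ∈ insert p T, ¬ q ∣ p * m) := fun h =>
      h p (Finset.mem_insert_self p T) (dvd_mul_right p m)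
    rw [depl_neg hins, mul_comm p m, dShift_mul hp.pos]
    by_cases hpN : p ∣ N
    · have r := coeff_mul_prime_of_dvd hf hp hpN m
      rw [if_pos hpN, zero_mul, add_zero]
      by_cases hm : ∀ q ∈ T, ¬ q ∣ m
      · rw [depl_pos ((hcond m).mpr hm), depl_pos hm, r]; ring
      · rw [depl_neg (fun h => hm ((hcond m).mp h)), depl_neg hm]; ring
    · have r := coeff_mul_prime_of_not_dvd hf hp hpN m
      rw [if_neg hpN]
      by_cases hpm : p ∣ m
      · obtain ⟨m', rfl⟩ := hpm
        rw [mul_comm p m'] at r ⊢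
        rw [if_pos (dvd_mul_left p m'), Nat.mul_div_cancel m' hp.pos] at r
        rw [dShift_mul hp.pos, dShift_mul hp.pos]
        by_cases hm : ∀ q ∈ T, ¬ q ∣ m'
        · have hm1 : ∀ q ∈ T, ¬ q ∣ m' * p := (hcond m').mpr hm
          have hm2 : ∀ q ∈ T, ¬ q ∣ m' * p * p := (hcond (m' * p)).mpr hm1
          rw [depl_pos hm2, depl_pos hm1, depl_pos hm]
          linear_combination (-1 : ℂ) * r
        · have hm1 : ¬ ∀ q ∈ T, ¬ q ∣ m' * p := fun h => hm ((hcond m').mp h)
          have hm2 : ¬ ∀ q ∈ T, ¬ q ∣ m' * p * p := fun h => hm1 ((hcond (m' * p)).mp h)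
          rw [depl_neg hm2, depl_neg hm1, depl_neg hm]; ring
      · rw [if_neg hpm, add_zero] at r
        rw [dShift_mul hp.pos, dShift_of_not_dvd _ hpm, mul_zero, add_zero]
        by_cases hm : ∀ q ∈ T, ¬ q ∣ m
        · rw [depl_pos ((hcond m).mpr hm), depl_pos hm, r]; ring
        · rw [depl_neg (fun h => hm ((hcond m).mp h)), depl_neg hm]; ring
  · have hiff : (∀ q ∈ insert p T, ¬ q ∣ n) ↔ (∀ q ∈ T, ¬ q ∣ n) := by
      constructor
      · exact fun h q hq => h q (Finset.mem_insert_of_mem hq)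
      · intro h q hq
        rcases Finset.mem_insert.mp hq with rfl | hq
        · exact hpn
        · exact h q hq
    rw [dShift_of_not_dvd _ hpn, dShift_of_not_dvd _ hpn, mul_zero, mul_zero, sub_zero, add_zero]
    by_cases hm : ∀ q ∈ T, ¬ q ∣ n
    · rw [depl_pos (hiff.mpr hm), depl_pos hm]
    · rw [depl_neg (fun h => hm (hiff.mp h)), depl_neg hm]

/-- the Spec's depleted sequence is `depl` -/
theorem ite_eq_depl (T : Finset ℕ) (a : ℕ → ℂ) (n : ℕ) [Decidable (∀ p ∈ T, ¬ p ∣ n)] :
    (if ∀ p ∈ T, ¬ p ∣ n then a n else 0) = depl T a n := by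
  by_cases h : ∀ p ∈ T, ¬ p ∣ n
  · rw [if_pos h, depl_pos h]
  · rw [if_neg h, depl_neg h]

theorem eval_eulerPoly (N : ℕ) (a : ℕ → ℂ) (p : ℕ) (x : ℂ) :
    (eulerPoly N a p).eval x = 1 - a p * x + (if p ∣ N then 0 else (p : ℂ)) * x ^ 2 := by
  unfold eulerPoly
  by_cases h : p ∣ N
  · simp [h]
  · simp [h]

/-- **X5 Deplete**, from the Dirichlet series `X4`. -/
theorem deplete_of (h4 : DirichletSeries) : Deplete := by
  classical
  intro N _ f hf T
  induction T using Finset.induction_on with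
  | empty =>
    intro _ s hs
    simpa using h4 N f s hs
  | insert p T hpT ih =>
    intro hT s hs
    have hp : p.Prime := hT p (Finset.mem_insert_self p T)
    have hT' : ∀ q ∈ T, q.Prime := fun q hq => hT q (Finset.mem_insert_of_mem hq)
    have h0 := ih hT' s hs
    set L : ℂ := Lam f s * (2 / Gammaℂ s) *
      ∏ q ∈ T, (eulerPoly N (qCoeff ⇑f) q).eval ((q : ℂ) ^ (-s)) with hL
    have hb : HasSum (fun n : ℕ => depl T (qCoeff ⇑f) n / (n : ℂ) ^ s) L := by
      convert h0 using 2 with n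
      rw [ite_eq_depl]
    have hb1 := hasSum_dShift hp.pos _ s L hb
    have hb2 := hasSum_dShift hp.pos _ s _ hb1
    have hsum := (hb.sub (hb1.mul_left (qCoeff ⇑f p))).add
      (hb2.mul_left (if p ∣ N then 0 else (p : ℂ)))
    have hfun : (fun n : ℕ => (if ∀ q ∈ insert p T, ¬ q ∣ n then qCoeff ⇑f n else 0)
        / (n : ℂ) ^ s) =
        fun n : ℕ => depl T (qCoeff ⇑f) n / (n : ℂ) ^ s
          - qCoeff ⇑f p * (dShift p (depl T (qCoeff ⇑f)) n / (n : ℂ) ^ s)
          + (if p ∣ N then 0 else (p : ℂ)) *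
              (dShift p (dShift p (depl T (qCoeff ⇑f))) n / (n : ℂ) ^ s) := by
      funext n
      rw [ite_eq_depl, depl_insert_eq f hf T hT' hp hpT n]
      ring
    rw [hfun, Finset.prod_insert hpT, eval_eulerPoly]
    have hval : (L - qCoeff ⇑f p * ((p : ℂ) ^ (-s) * L)
        + (if p ∣ N then 0 else (p : ℂ)) * ((p : ℂ) ^ (-s) * ((p : ℂ) ^ (-s) * L)))
        = Lam f s * (2 / Gammaℂ s) *
          ((1 - qCoeff ⇑f p * (p : ℂ) ^ (-s)
              + (if p ∣ N then 0 else (p : ℂ)) * ((p : ℂ) ^ (-s)) ^ 2) *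
            ∏ q ∈ T, (eulerPoly N (qCoeff ⇑f) q).eval ((q : ℂ) ^ (-s))) := by
      rw [hL]; ring
    rw [hval] at hsum
    exact hsum

end Fermat.Agent.Lib.Newform.H683

end
-- ===== PACK-END Lib/Newform/H683/XDeplete.lean

-- ===== PACK-BEGIN Lib/Newform/H863/OldForms.lean
section



/-!
# NEWFORM library, layer 1 (helper863): Hecke operators and oldforms

Compatibility of `levelIncl`, `degen` with the Hecke operators (all proofs through
`q`-coefficients).
-/

set_option autoImplicit false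

open UpperHalfPlane ModularForm CongruenceSubgroup ModularFormClass CuspForm
open Fermat.Agent.S49

namespace Fermat.Agent.Lib.Newform.H863

/-- Cusp forms of weight 2 on `Γ₀(N)` are determined by their `q`-coefficients. -/
theorem cuspForm_ext_qCoeff {N : ℕ} {f g : CuspForm (Gamma0 N) 2}
    (h : ∀ n, qCoeff ⇑f n = qCoeff ⇑g n) : f = g := by
  have h0 : f - g = 0 := glue_eq_zero_of_qCoeff _ (fun n => by rw [glue_qCoeff_sub, h n, sub_self])
  exact sub_eq_zero.mp h0

theorem heckeTLin_levelIncl {M N ℓ : ℕ} (h : M ∣ N) (hℓ : ℓ.Prime) (hℓN : ¬ ℓ ∣ N)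
    (f : CuspForm (Gamma0 M) 2) :
    CuspForm.heckeTLin 2 hℓ hℓN (levelIncl h f)
      = levelIncl h (CuspForm.heckeTLin 2 hℓ (fun hd => hℓN (hd.trans h)) f) :=
  DFunLike.coe_injective rfl

theorem heckeULin_levelIncl {M N q : ℕ} [NeZero M] [NeZero N] (h : M ∣ N) (hqM : q ∣ M)
    (f : CuspForm (Gamma0 M) 2) :
    CuspForm.heckeULin 2 (hqM.trans h) (levelIncl h f)
      = levelIncl h (CuspForm.heckeULin 2 hqM f) :=
  DFunLike.coe_injective rfl

/-- For a prime `q ∤ M`: `U_q ∘ incl = incl ∘ T_q - q • B_q` from level `M` to level `M q`. -/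
theorem heckeULin_levelIncl_of_not_dvd {M q : ℕ} [NeZero M] [NeZero q] [NeZero (M * q)]
    (hq : q.Prime) (hqM : ¬ q ∣ M) (f : CuspForm (Gamma0 M) 2) :
    CuspForm.heckeULin 2 (Dvd.intro_left M rfl : q ∣ M * q) (levelIncl (Dvd.intro q rfl) f)
      = levelIncl (Dvd.intro q rfl) (CuspForm.heckeTLin 2 hq hqM f) - (q : ℂ) • degen q f := by
  apply cuspForm_ext_qCoeff
  intro n
  rw [glue_qCoeff_heckeULin hq, glue_qCoeff_sub, glue_qCoeff_smul, qCoeff_levelIncl,
    qCoeff_levelIncl, glue_qCoeff_heckeTLin hq hqM, qCoeff_degen]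
  split_ifs <;> ring

/-- `U_q ∘ B_q = incl`. -/
theorem heckeULin_degen {M q : ℕ} [NeZero q] [NeZero (M * q)] (hq : q.Prime)
    (f : CuspForm (Gamma0 M) 2) :
    CuspForm.heckeULin 2 (Dvd.intro_left M rfl : q ∣ M * q) (degen q f)
      = levelIncl (Dvd.intro q rfl) f := by
  apply cuspForm_ext_qCoeff
  intro n
  rw [glue_qCoeff_heckeULin hq, qCoeff_degen, qCoeff_levelIncl, if_pos (Dvd.intro_left n rfl),
    Nat.mul_div_cancel n hq.pos]

/-- `T_ℓ` commutes with `B_d` for `ℓ ∤ M d`. -/
theorem heckeTLin_degen {M d ℓ : ℕ} [NeZero d] (hℓ : ℓ.Prime) (hℓN : ¬ ℓ ∣ M * d)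
    (f : CuspForm (Gamma0 M) 2) :
    CuspForm.heckeTLin 2 hℓ hℓN (degen d f)
      = degen d (CuspForm.heckeTLin 2 hℓ (fun hd => hℓN (hd.mul_right d)) f) := by
  have hℓd : ¬ ℓ ∣ d := fun hd => hℓN (hd.mul_left M)
  have hcop : Nat.Coprime d ℓ := ((Nat.Prime.coprime_iff_not_dvd hℓ).mpr hℓd).symm
  apply cuspForm_ext_qCoeff
  intro n
  rw [glue_qCoeff_heckeTLin hℓ hℓN, qCoeff_degen, qCoeff_degen, qCoeff_degen]
  by_cases hdn : d ∣ n
  · obtain ⟨m, rfl⟩ := hdn
    have hd0 : 0 < d := Nat.pos_of_ne_zero (NeZero.ne d)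
    rw [if_pos (Dvd.intro _ rfl), if_pos ((Dvd.intro m rfl).mul_right ℓ),
      glue_qCoeff_heckeTLin hℓ, Nat.mul_div_cancel_left m hd0, mul_assoc,
      Nat.mul_div_cancel_left (m * ℓ) hd0]
    by_cases hℓm : ℓ ∣ m
    · obtain ⟨r, rfl⟩ := hℓm
      rw [if_pos (Dvd.intro r rfl), if_pos ((Dvd.intro r rfl).mul_left d),
        Nat.mul_div_cancel_left r hℓ.pos,
        show d * (ℓ * r) / ℓ = d * r by
          rw [Nat.mul_left_comm, Nat.mul_div_cancel_left _ hℓ.pos],
        if_pos (Dvd.intro r rfl), Nat.mul_div_cancel_left r hd0]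
    · have : ¬ ℓ ∣ d * m := fun h => hℓm ((Nat.Coprime.dvd_mul_left hcop.symm).mp h)
      rw [if_neg hℓm, if_neg this]
  · have h1 : ¬ d ∣ n * ℓ := fun h => hdn ((Nat.Coprime.dvd_mul_right hcop).mp h)
    rw [if_neg hdn, if_neg h1, zero_add]
    by_cases hℓn : ℓ ∣ n
    · obtain ⟨r, rfl⟩ := hℓn
      have h2 : ¬ d ∣ r := fun h => hdn (h.mul_left ℓ)
      rw [if_pos (Dvd.intro r rfl), Nat.mul_div_cancel_left r hℓ.pos, if_neg h2, mul_zero]
    · rw [if_neg hℓn]

end Fermat.Agent.Lib.Newform.H863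

end
-- ===== PACK-END Lib/Newform/H863/OldForms.lean

-- ===== PACK-BEGIN Lib/Newform/H923/ALTrace.lean
section


/-!
# The trace from `Γ₀(q M)` to `Γ₀(M)` of an Atkin–Lehner translate

For `f` invariant under `Γ₀(q M)` (`q` prime, `q ∤ M`) and an Atkin–Lehner matrix `A` at `q`,
the function `f ∣[k] A + heckeU k q f` is invariant under `Γ₀(M)`
(it is the trace of `f ∣[k] A`, up to normalisation).
-/

set_option autoImplicit false

noncomputable section

namespace Fermat.Agent.Lib.Newform.H923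

open Matrix UpperHalfPlane ModularForm
open scoped MatrixGroups ModularForm OnePoint

theorem IsInt.unique {A : GL (Fin 2) ℝ} {a b c d a' b' c' d' : ℤ} (hA : IsInt A a b c d)
    (hA' : IsInt A a' b' c' d') : a = a' ∧ b = b' ∧ c = c' ∧ d = d' := by
  have h : !![(a : ℝ), (b : ℝ); (c : ℝ), (d : ℝ)] = !![(a' : ℝ), (b' : ℝ); (c' : ℝ), (d' : ℝ)] :=
    hA.symm.trans hA'
  have h00 := congrFun (congrFun h 0) 0
  have h01 := congrFun (congrFun h 0) 1
  have h10 := congrFun (congrFun h 1) 0
  have h11 := congrFun (congrFun h 1) 1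
  simp at h00 h01 h10 h11
  exact ⟨h00, h01, h10, h11⟩

/-- An integral matrix of determinant one with lower left entry divisible by `N` comes from
`Γ₀(N)`. -/
theorem IsInt.exists_mapGL {A : GL (Fin 2) ℝ} {a b c d : ℤ} (hA : IsInt A a b c d)
    (hdet : a * d - b * c = 1) {N : ℕ} (hc : (N : ℤ) ∣ c) :
    ∃ g ∈ CongruenceSubgroup.Gamma0 N, A = Matrix.SpecialLinearGroup.mapGL ℝ g := by
  let g : SL(2, ℤ) := ⟨!![a, b; c, d], by rw [Matrix.det_fin_two_of]; exact hdet⟩
  refine ⟨g, ?_, hA.ext (isInt_mapGL g) rfl rfl rfl rfl⟩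
  rw [CongruenceSubgroup.Gamma0_mem]
  exact (ZMod.intCast_zmod_eq_zero_iff_dvd _ _).mpr hc

theorem InvUnder.slash_isInt {N : ℕ} {k : ℤ} {f : ℍ → ℂ} (hf : InvUnder N k f)
    {A : GL (Fin 2) ℝ} {a b c d : ℤ} (hA : IsInt A a b c d)
    (hdet : a * d - b * c = 1) (hc : (N : ℤ) ∣ c) : f ∣[k] A = f := by
  obtain ⟨g, hg, rfl⟩ := hA.exists_mapGL hdet hc
  exact hf.slash_mapGL hg

/-- The representatives of `Γ₀(q M) \ Γ₀(M)` twisted by the Atkin–Lehner matrix `A`. -/
def alRep (q : ℕ) (A : GL (Fin 2) ℝ) (x : OnePoint (ZMod q)) : GL (Fin 2) ℝ :=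
  x.elim A (fun j ↦ heckeMatrix q j.val)

@[simp] theorem alRep_infty (q : ℕ) (A : GL (Fin 2) ℝ) : alRep q A ∞ = A := rfl

@[simp] theorem alRep_coe (q : ℕ) (A : GL (Fin 2) ℝ) (j : ZMod q) :
    alRep q A j = heckeMatrix q j.val := rfl

theorem slash_add_heckeU_eq_sum {q : ℕ} [NeZero q] (k : ℤ) (A : GL (Fin 2) ℝ) (f : ℍ → ℂ) :
    f ∣[k] A + heckeU k q f = ∑ x : OnePoint (ZMod q), f ∣[k] alRep q A x := by
  rw [heckeU_eq_sum_zmod']
  exact (Fintype.sum_option (fun x : OnePoint (ZMod q) ↦ f ∣[k] alRep q A x)).symm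

/-- Key step: for `g ∈ Γ₀(M)`, right multiplication by `g` permutes the classes of the
representatives `alRep q A x` modulo `Γ₀(q M)`. -/
theorem slash_alRep_mapGL (k : ℤ) {q M : ℕ} (hq : q.Prime) {f : ℍ → ℂ}
    (hf : InvUnder (q * M) k f) {A : GL (Fin 2) ℝ} (hA : IsAL q M A)
    {g : SL(2, ℤ)} (hg : g ∈ CongruenceSubgroup.Gamma0 M)
    (hdet : ¬ ((q : ℕ) : ℤ) ∣ g 0 0 * g 1 1 - g 0 1 * g 1 0) (x : OnePoint (ZMod q)) :
    haveI : Fact q.Prime := ⟨hq⟩
    (f ∣[k] alRep q A x) ∣[k] (Matrix.SpecialLinearGroup.mapGL ℝ g) =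
      f ∣[k] alRep q A (redGL q (g 0 0) (g 0 1) (g 1 0) (g 1 1) hdet • x) := by
  haveI : Fact q.Prime := ⟨hq⟩
  have hq0 : q ≠ 0 := hq.ne_zero
  have hq0' : (q : ℤ) ≠ 0 := by exact_mod_cast hq0
  obtain ⟨a, b, c, d, hInt, h⟩ := id hA
  have hqM : Nat.Coprime q M := by
    have : IsCoprime (q : ℤ) (M : ℤ) := ⟨a * d, -(b * c), by linear_combination h⟩
    exact Nat.isCoprime_iff_coprime.mp this
  have hcopM : IsCoprime (M : ℤ) (q : ℤ) := (Nat.isCoprime_iff_coprime.mpr hqM).symm
  have hgM : (M : ℤ) ∣ g 1 0 :=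
    (ZMod.intCast_zmod_eq_zero_iff_dvd _ _).mp (CongruenceSubgroup.Gamma0_mem.mp hg)
  have hdetg : g 0 0 * g 1 1 - g 0 1 * g 1 0 = 1 := by
    have := g.det_coe
    rwa [Matrix.det_fin_two] at this
  -- the `SL₂(ℤ)`-part of `A`
  have hγ₁det : a * (q * d) - b * (M * c) ≠ 0 := by
    have : a * (q * d) - b * (M * c) = 1 := by linear_combination h
    rw [this]; exact one_ne_zero
  set γ₁ : GL (Fin 2) ℝ := intGL a b (M * c) (q * d) hγ₁det with hγ₁
  have hγ₁Int : IsInt γ₁ a b (M * c) (q * d) := isInt_intGL _ _ _ _ _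
  have hAγ₁ : A = γ₁ * heckeDiagMatrix q := by
    refine hInt.ext (hγ₁Int.mul (isInt_heckeDiagMatrix hq0)) ?_ ?_ ?_ ?_ <;> ring
  obtain ⟨A', a', b', c', d', hA', hdet', h1, -, -, hmul⟩ :=
    exists_hRep_mul (isInt_mapGL g) hdet x
  rw [hdetg] at hdet'
  have hMc' : (M : ℤ) ∣ c' := h1 M hcopM hgM
  obtain ⟨t, ht⟩ := hMc'
  rw [← SlashAction.slash_mul]
  induction x using OnePoint.rec with
  | infty =>
    rw [alRep_infty]
    rw [hRep_infty] at hmul
    rcases hσ : (redGL q (g 0 0) (g 0 1) (g 1 0) (g 1 1) hdet • (∞ : OnePoint (ZMod q))) with _ | j'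
    · -- `∞ ↦ ∞`
      rw [hσ] at hmul
      change heckeDiagMatrix q * _ = A' * heckeDiagMatrix q at hmul
      change f ∣[k] (A * _) = f ∣[k] A
      obtain ⟨-, h01, -, -⟩ := (((isInt_heckeDiagMatrix hq0).mul (isInt_mapGL g)).unique
        (hmul ▸ hA'.mul (isInt_heckeDiagMatrix hq0)))
      have hb' : b' = q * g 0 1 := by linear_combination -h01
      rw [hAγ₁, mul_assoc, hmul, ← mul_assoc]
      have hInt2 := (hγ₁Int.mul hA').mul (isInt_heckeDiagMatrix hq0)
      refine slash_AL_eq hf (hAγ₁ ▸ hA) (isAL_of_dvd hq0 hInt2 ?_ ?_ ?_ ?_)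
      · linear_combination (q : ℤ) * (a' * d' - b' * c') * h + (q : ℤ) * hdet'
      · exact ⟨a * a' + b * c', by ring⟩
      · refine ⟨c * a' + q * d * t, ?_⟩
        rw [ht]; push_cast; ring
      · refine ⟨M * c * g 0 1 + d * d', ?_⟩
        rw [hb']; ring
    · -- `∞ ↦ j'`
      rw [hσ] at hmul
      change heckeDiagMatrix q * _ = A' * heckeMatrix q j'.val at hmul
      change f ∣[k] (A * _) = f ∣[k] heckeMatrix q j'.val
      obtain ⟨h00, -, -, -⟩ := (((isInt_heckeDiagMatrix hq0).mul (isInt_mapGL g)).unique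
        (hmul ▸ hA'.mul (isInt_heckeMatrix hq0 j'.val)))
      have ha' : a' = q * g 0 0 := by linear_combination -h00
      rw [hAγ₁, mul_assoc, hmul, ← mul_assoc, SlashAction.slash_mul]
      congr 1
      refine hf.slash_isInt (hγ₁Int.mul hA') ?_ ?_
      · linear_combination (a' * d' - b' * c') * h + hdet'
      · refine ⟨c * g 0 0 + d * t, ?_⟩
        rw [ha', ht]; push_cast; ring
  | coe j =>
    rw [alRep_coe]
    rw [hRep_coe] at hmul
    rcases hσ : (redGL q (g 0 0) (g 0 1) (g 1 0) (g 1 1) hdet • (j : OnePoint (ZMod q)))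
      with _ | j'
    · -- `j ↦ ∞`
      rw [hσ] at hmul
      change heckeMatrix q j.val * _ = A' * heckeDiagMatrix q at hmul
      change f ∣[k] (heckeMatrix q j.val * _) = f ∣[k] A
      obtain ⟨-, -, -, h11⟩ := (((isInt_heckeMatrix hq0 j.val).mul (isInt_mapGL g)).unique
        (hmul ▸ hA'.mul (isInt_heckeDiagMatrix hq0)))
      have hd' : d' = q * g 1 1 := by linear_combination -h11
      rw [hmul]
      have hInt2 := hA'.mul (isInt_heckeDiagMatrix hq0)
      refine slash_AL_eq hf hA (isAL_of_dvd hq0 hInt2 ?_ ?_ ?_ ?_)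
      · linear_combination (q : ℤ) * hdet'
      · exact ⟨a', by ring⟩
      · refine ⟨t, ?_⟩
        rw [ht]; push_cast; ring
      · refine ⟨g 1 1, ?_⟩
        rw [hd']; ring
    · -- `j ↦ j'`
      rw [hσ] at hmul
      change heckeMatrix q j.val * _ = A' * heckeMatrix q j'.val at hmul
      change f ∣[k] (heckeMatrix q j.val * _) = f ∣[k] heckeMatrix q j'.val
      obtain ⟨-, -, h10, -⟩ := (((isInt_heckeMatrix hq0 j.val).mul (isInt_mapGL g)).unique
        (hmul ▸ hA'.mul (isInt_heckeMatrix hq0 j'.val)))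
      have hc' : c' = q * g 1 0 := by linear_combination -h10
      rw [hmul, SlashAction.slash_mul]
      congr 1
      refine hf.slash_isInt hA' hdet' ?_
      obtain ⟨s, hs⟩ := hgM
      refine ⟨s, ?_⟩
      rw [hc', hs]; push_cast; ring

/-- **Trace formula, invariance part.** For `f` invariant under `Γ₀(q M)` and an Atkin–Lehner
matrix `A` at the prime `q`, the function `f ∣[k] A + U_q f` is invariant under `Γ₀(M)`. -/
theorem invUnder_slash_AL_add_heckeU (k : ℤ) {q M : ℕ} (hq : q.Prime) {f : ℍ → ℂ}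
    (hf : InvUnder (q * M) k f) {A : GL (Fin 2) ℝ} (hA : IsAL q M A) :
    InvUnder M k (f ∣[k] A + heckeU k q f) := by
  haveI : Fact q.Prime := ⟨hq⟩
  haveI : NeZero q := ⟨hq.ne_zero⟩
  rintro _ ⟨g, hg, rfl⟩
  have hdetg : g 0 0 * g 1 1 - g 0 1 * g 1 0 = 1 := by
    have := g.det_coe
    rwa [Matrix.det_fin_two] at this
  have hdet : ¬ ((q : ℕ) : ℤ) ∣ g 0 0 * g 1 1 - g 0 1 * g 1 0 := by
    rw [hdetg]
    intro hd
    have := Int.eq_one_of_dvd_one (by positivity) hd
    exact hq.one_lt.ne' (by exact_mod_cast this)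
  rw [slash_add_heckeU_eq_sum, SlashAction.sum_slash]
  calc ∑ x : OnePoint (ZMod q), (f ∣[k] alRep q A x) ∣[k] (Matrix.SpecialLinearGroup.mapGL ℝ g)
      = ∑ x : OnePoint (ZMod q),
          f ∣[k] alRep q A (redGL q (g 0 0) (g 0 1) (g 1 0) (g 1 1) hdet • x) :=
        Finset.sum_congr rfl fun x _ ↦ slash_alRep_mapGL k hq hf hA hg hdet x
    _ = ∑ x : OnePoint (ZMod q), f ∣[k] alRep q A x :=
        Equiv.sum_comp (MulAction.toPerm (redGL q (g 0 0) (g 0 1) (g 1 0) (g 1 1) hdet))
          (fun x ↦ f ∣[k] alRep q A x)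

end Fermat.Agent.Lib.Newform.H923

end
end
-- ===== PACK-END Lib/Newform/H923/ALTrace.lean

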