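import Mathlib
import Fermat.Prelude.Def_ModularCurve_ArithmeticGalois
import Fermat.Prelude.Def_AlgebraicCurve_DivisorClassGroup
import Mathlib.NumberTheory.ModularForms.EisensteinSeries.QExpansion
import Mathlib.NumberTheory.ModularForms.LevelOne.DimensionFormula
import Fermat.Prelude.Def_ModularCurve_X0ModL
import Fermat.Prelude.Def_AlgebraicCurve_Repartitions
import Fermat.Agent.Pack.S36.E0L1
import Fermat.Agent.Pack.S36.E0L2
import Fermat.Agent.Pack.S36.E0L0
import Fermat.Agent.Pack.S36.E0L3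

-- ===== PACK-BEGIN S30/H529/TateTensor.lean
section



/-!
# S30 helper (helper529): the Tate module of `O ⊗ J`

`J` is an abelian group with an action of a group `G` and commuting endomorphisms `T i`.
We transfer torsion statements from `J` to `O ⊗[ℤ] J` (flatness of `O` over `ℤ`) and apply
the core results of `TateCore`.
-/

set_option autoImplicit false
set_option linter.unusedSectionVars false

namespace Fermat.Agent.S30.H529

open IsLocalRing TensorProduct

noncomputable section

section Transfer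

variable (O : Type*) [CommRing O] [Module.Flat ℤ O]
variable {J : Type*} [AddCommGroup J]

/-- Elements of `O ⊗ J` killed by `m` come from `O ⊗ J[m]`. -/
theorem exists_lTensor_eq_of_smul_eq_zero (m : ℤ) (x : O ⊗[ℤ] J) (hx : m • x = 0) :
    ∃ z : O ⊗[ℤ] LinearMap.ker (m • (LinearMap.id : J →ₗ[ℤ] J)),
      (LinearMap.ker (m • (LinearMap.id : J →ₗ[ℤ] J))).subtype.lTensor O z = x := by
  have hex := LinearMap.exact_subtype_ker_map (m • (LinearMap.id : J →ₗ[ℤ] J))
  have hex2 := Module.Flat.lTensor_exact O hex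
  have h1 : (m • (LinearMap.id : J →ₗ[ℤ] J)).lTensor O x = 0 := by
    rw [LinearMap.lTensor_smul, LinearMap.lTensor_id, LinearMap.smul_apply, LinearMap.id_apply,
      hx]
  obtain ⟨z, hz⟩ := (hex2 x).mp h1
  exact ⟨z, hz⟩

/-- An endomorphism of `J` killing the `m`-torsion of `J` has a base change killing the
`m`-torsion of `O ⊗ J`. -/
theorem baseChange_eq_zero_of_torsion (m : ℤ) (A : J →ₗ[ℤ] J)
    (hA : ∀ y : J, m • y = 0 → A y = 0) (x : O ⊗[ℤ] J) (hx : m • x = 0) :
    A.baseChange O x = 0 := by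
  obtain ⟨z, rfl⟩ := exists_lTensor_eq_of_smul_eq_zero O m x hx
  have h1 : A ∘ₗ (LinearMap.ker (m • (LinearMap.id : J →ₗ[ℤ] J))).subtype = 0 := by
    apply LinearMap.ext
    intro y
    have hy := y.2
    rw [LinearMap.mem_ker, LinearMap.smul_apply, LinearMap.id_apply] at hy
    simpa using hA y hy
  have h2 : A.baseChange O ((LinearMap.ker (m • (LinearMap.id : J →ₗ[ℤ] J))).subtype.lTensor O z)
      = (A ∘ₗ (LinearMap.ker (m • (LinearMap.id : J →ₗ[ℤ] J))).subtype).lTensor O z := by
    rw [LinearMap.lTensor_comp]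
    rfl
  rw [h2, h1, LinearMap.lTensor_zero, LinearMap.zero_apply]

/-- The `m`-torsion of `O ⊗ J` lies in a finitely generated submodule if `J[m]` is finite. -/
theorem exists_fg_of_finite_torsion (m : ℤ) (hfin : {y : J | m • y = 0}.Finite) :
    ∃ Y : Submodule O (O ⊗[ℤ] J), Y.FG ∧ ∀ x : O ⊗[ℤ] J, m • x = 0 → x ∈ Y := by
  set K := LinearMap.ker (m • (LinearMap.id : J →ₗ[ℤ] J)) with hK
  have hKfin : Finite K := by
    have : (K : Set J) = {y : J | m • y = 0} := by
      ext y
      simp [hK]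
    exact Set.finite_coe_iff.mpr (this ▸ hfin)
  have hmod : Module.Finite ℤ K := Module.Finite.of_finite
  refine ⟨LinearMap.range (K.subtype.baseChange O), ?_, ?_⟩
  · rw [LinearMap.range_eq_map]
    exact Submodule.FG.map _ (Module.Finite.fg_top)
  · intro x hx
    obtain ⟨z, hz⟩ := exists_lTensor_eq_of_smul_eq_zero O m x hx
    exact ⟨z, hz⟩

end Transfer

/-! ### The action on `O ⊗ J` -/

section TensorAction

variable (O : Type*) [CommRing O]
variable {G : Type*} [Group G]
variable (J : Type*) [AddCommGroup J] [DistribMulAction G J]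
variable {ι : Type*} (T : ι → J →+ J)

/-- The action of `γ` as a `ℤ`-linear map. -/
def actLin (γ : G) : J →ₗ[ℤ] J := (DistribSMul.toAddMonoidHom J γ).toIntLinearMap

@[simp] theorem actLin_apply (γ : G) (x : J) : actLin J γ x = γ • x := rfl

/-- The action of `G` on `O ⊗ J`. -/
def tensorRep : G →* Module.End O (O ⊗[ℤ] J) where
  toFun γ := (actLin J γ).baseChange O
  map_one' := by
    have h : actLin J (1 : G) = LinearMap.id := by
      ext x
      simp
    rw [h, LinearMap.baseChange_id]
    rfl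
  map_mul' γ δ := by
    have h : actLin J (γ * δ) = actLin J γ ∘ₗ actLin J δ := by
      ext x
      simp [mul_smul]
    rw [h, LinearMap.baseChange_comp]
    rfl

theorem tensorRep_apply (γ : G) (x : O ⊗[ℤ] J) :
    tensorRep O J γ x = (actLin J γ).baseChange O x := rfl

variable {J}

/-- The operators on `O ⊗ J`. -/
def tensorOp (i : ι) : O ⊗[ℤ] J →ₗ[O] O ⊗[ℤ] J := (T i).toIntLinearMap.baseChange O

theorem tensorOp_apply (i : ι) (x : O ⊗[ℤ] J) :
    tensorOp O T i x = (T i).toIntLinearMap.baseChange O x := rfl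

theorem tensorRep_tensorOp (hT : ∀ (i : ι) (γ : G) (x : J), T i (γ • x) = γ • T i x)
    (γ : G) (i : ι) (x : O ⊗[ℤ] J) :
    tensorRep O J γ (tensorOp O T i x) = tensorOp O T i (tensorRep O J γ x) := by
  have h : actLin J γ ∘ₗ (T i).toIntLinearMap = (T i).toIntLinearMap ∘ₗ actLin J γ := by
    ext y
    simp [hT]
  have h2 := congrArg (fun f : J →ₗ[ℤ] J => f.baseChange O x) h
  simp only [LinearMap.baseChange_comp, LinearMap.comp_apply] at h2
  exact h2

end TensorAction

/-! ### Main theorem -/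

section Main

variable (p : ℕ)
variable (O : Type) [CommRing O] [IsDomain O] [IsDiscreteValuationRing O]
  [IsAdicComplete (maximalIdeal O) O] [CharZero O]
variable {G : Type*} [Group G]
variable (J : Type) [AddCommGroup J] [DistribMulAction G J]
variable {ι : Type*} (T : ι → J →+ J) (a : ι → O)

theorem natCast_pow_smul (n : ℕ) (x : O ⊗[ℤ] J) :
    ((p : O)) ^ n • x = ((p ^ n : ℕ) : ℤ) • x := by
  rw [← Int.cast_smul_eq_zsmul O]
  push_cast
  rfl

/-- **Abstract Tate module.**  Let `J` be an abelian group with an action of `G` and commuting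
endomorphisms `T i`, with finite `p`-torsion, and let `v` be a nonzero compatible sequence of
eigenvectors in `(O ⊗ J)[p ^ (n + 1)]`.  Then there is a nonzero finite free `O`-module `M`
with an action `ρ` of `G` such that: elements of `G` fixing `J[p ^ n]` act trivially on
`M / 𝔪 ^ n M`; elements fixing `J[p ^ ∞]` act trivially; quadratic relations
`γ² - T i γ + c = 0` on `J[p ^ ∞]` give `ρ γ² - a i ρ γ + c = 0`. -/
theorem exists_adic_eigenmodule (hpO : (p : O) ∈ maximalIdeal O) (hp0 : p ≠ 0)
    (hT : ∀ (i : ι) (γ : G) (x : J), T i (γ • x) = γ • T i x)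
    (hfin : {x : J | p • x = 0}.Finite)
    (v : ℕ → O ⊗[ℤ] J) (hv0 : (p : O) • v 0 = 0) (hv : ∀ n, (p : O) • v (n + 1) = v n)
    (hne : v ≠ 0) (heig : ∀ i n, tensorOp O T i (v n) = a i • v n) :
    ∃ (M : Type) (_ : AddCommGroup M) (_ : Module O M) (_ : Module.Free O M)
      (_ : Module.Finite O M) (ρ : G →* Module.End O M),
      Nontrivial M ∧
      (∀ (n : ℕ) (γ : G), (∀ x : J, p ^ n • x = 0 → γ • x = x) →
        ∀ m : M, ρ γ m - m ∈ (maximalIdeal O ^ n • ⊤ : Submodule O M)) ∧
      (∀ γ : G, (∀ x : J, (∃ n : ℕ, p ^ n • x = 0) → γ • x = x) → ρ γ = 1) ∧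
      (∀ (γ : G) (i : ι) (c : ℤ),
        (∀ x : J, (∃ n : ℕ, p ^ n • x = 0) → γ • γ • x - T i (γ • x) + c • x = 0) →
        ρ γ * ρ γ - a i • ρ γ + (c : O) • (1 : Module.End O M) = 0) := by
  have hϖ0 : (p : O) ≠ 0 := by exact_mod_cast hp0
  have hX : ∃ Y : Submodule O (O ⊗[ℤ] J), Y.FG ∧ ∀ x : O ⊗[ℤ] J, (p : O) • x = 0 → x ∈ Y := by
    obtain ⟨Y, hY, hYX⟩ := exists_fg_of_finite_torsion O (J := J) (p : ℤ) (by
      have : {y : J | (p : ℤ) • y = 0} = {x : J | p • x = 0} := by
        ext y
        simp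
      rw [this]
      exact hfin)
    refine ⟨Y, hY, fun x hx => hYX x ?_⟩
    have := natCast_pow_smul p O J 1 x
    simp only [pow_one] at this
    rw [← this]
    exact hx
  have hρ := tensorRep_tensorOp O T hT
  have hfree := tateEigen_free (t := tensorOp O T) (a := a) hpO hϖ0 hX
  have hfinite := tateEigen_finite (t := tensorOp O T) (a := a) hpO hϖ0 hX
  -- transfer of relations
  have htrans : ∀ (A : J →ₗ[ℤ] J) (n : ℕ), (∀ y : J, p ^ n • y = 0 → A y = 0) →
      ∀ x : O ⊗[ℤ] J, (p : O) ^ n • x = 0 → A.baseChange O x = 0 := by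
    intro A n hA x hx
    apply baseChange_eq_zero_of_torsion O ((p ^ n : ℕ) : ℤ) A
    · intro y hy
      apply hA
      rwa [natCast_zsmul] at hy
    · rw [← natCast_pow_smul]
      exact hx
  refine ⟨tateEigen (p : O) (tensorOp O T) a, inferInstance, inferInstance, hfree, hfinite,
    tateRep (tensorRep O J) hρ, ?_, ?_, ?_, ?_⟩
  · refine ⟨⟨⟨v, hv0, hv, heig⟩, 0, ?_⟩⟩
    intro h
    exact hne (congrArg Subtype.val h)
  · intro n γ hγ m
    apply tateRep_sub_mem (tensorRep O J) hρ hpO n γ
    intro x hx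
    have h1 := htrans (actLin J γ - LinearMap.id) n (fun y hy => by
      simp [hγ y hy]) x hx
    rw [LinearMap.baseChange_sub, LinearMap.baseChange_id, LinearMap.sub_apply,
      LinearMap.id_apply, sub_eq_zero] at h1
    exact h1
  · intro γ hγ
    apply tateRep_eq_one
    rintro x ⟨n, hx⟩
    have h1 := htrans (actLin J γ - LinearMap.id) n (fun y hy => by
      simp [hγ y ⟨n, hy⟩]) x hx
    rw [LinearMap.baseChange_sub, LinearMap.baseChange_id, LinearMap.sub_apply,
      LinearMap.id_apply, sub_eq_zero] at h1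
    exact h1
  · intro γ i c hγ
    apply tateRep_quadratic
    rintro x ⟨n, hx⟩
    have h1 := htrans (actLin J γ ∘ₗ actLin J γ - (T i).toIntLinearMap ∘ₗ actLin J γ
      + c • LinearMap.id) n (fun y hy => by
        have := hγ y ⟨n, hy⟩
        simpa using this) x hx
    rw [LinearMap.baseChange_add, LinearMap.baseChange_sub, LinearMap.baseChange_comp,
      LinearMap.baseChange_comp, LinearMap.baseChange_smul, LinearMap.baseChange_id] at h1
    simp only [LinearMap.add_apply, LinearMap.sub_apply, LinearMap.comp_apply,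
      LinearMap.smul_apply, LinearMap.id_apply] at h1
    rw [Int.cast_smul_eq_zsmul]
    exact h1

end Main

end

end Fermat.Agent.S30.H529

end
-- ===== PACK-END S30/H529/TateTensor.lean

-- ===== PACK-BEGIN S30/H990/Extract.lean
section
/-
S30 top glue (helper990): pure algebra, part 3.
From a Galois module on which every element satisfies a quadratic relation `g² - a g + d(g) = 0`
(`d` a character, `d c = -1` for an involution `c`) we extract a stable saturated lattice of rank
`1` or `2`.
-/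



set_option autoImplicit false

namespace Fermat.Agent.S30.H990

open Module

section Rel

variable {𝒪 M G : Type*} [CommRing 𝒪] [AddCommGroup M] [Module 𝒪 M] [Group G]

/-- The quadratic relation `ρ(g)² - a ρ(g) + d(g) = 0`. -/
def Rel (ρ : G →* Module.End 𝒪 M) (d : G →* 𝒪ˣ) (g : G) (a : 𝒪) : Prop :=
  ρ g * ρ g - a • ρ g + ((d g : 𝒪ˣ) : 𝒪) • (1 : Module.End 𝒪 M) = 0

variable (ρ : G →* Module.End 𝒪 M) (d : G →* 𝒪ˣ)

theorem rel_apply {g : G} {a : 𝒪} (h : Rel ρ d g a) (x : M) :
    ρ g (ρ g x) - a • ρ g x + ((d g : 𝒪ˣ) : 𝒪) • x = 0 := by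
  have := congrArg (fun f : Module.End 𝒪 M => f x) h
  simpa [Rel] using this

/-- Key identity on eigenvectors of the involution `c`. -/
theorem eigen_key (a : G → 𝒪) (ha : ∀ g, Rel ρ d g (a g)) (c : G) (hc : c * c = 1)
    (hdc : d c = -1) (ε : 𝒪) (u : M) (hu : ρ c u = ε • u) (g : G) :
    ρ c (ρ g u) + ε • ρ g u = (a (g * c) + ε * a g) • u := by
  have hy : ρ c * ρ c = 1 := by rw [← map_mul, hc, map_one]
  have hxy : (ρ g * ρ c) * (ρ g * ρ c) - a (g * c) • (ρ g * ρ c)
      + (-((d g : 𝒪ˣ) : 𝒪)) • (1 : Module.End 𝒪 M) = 0 := by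
    have := ha (g * c)
    unfold Rel at this
    rw [map_mul ρ, map_mul d, hdc] at this
    simpa using this
  have key := anticomm_of_rel (ρ g) (ρ c) (a g) (a (g * c)) (d g) hy (ha g) hxy
  have := congrArg (fun f : Module.End 𝒪 M => f u) key
  simp only [LinearMap.add_apply, Module.End.mul_apply, LinearMap.smul_apply,
    Module.End.one_apply, hu, map_smul] at this
  rw [add_smul, mul_comm ε (a g), mul_smul, ← this]
  abel

end Rel

section Stable

variable {𝒪 M G : Type*} [CommRing 𝒪] [IsDomain 𝒪] [AddCommGroup M] [Module 𝒪 M]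
  [Module.IsTorsionFree 𝒪 M] [Nontrivial M] [Group G]

variable (ρ : G →* Module.End 𝒪 M) (d : G →* 𝒪ˣ)

/-- Existence of an eigenvector of the involution. -/
theorem exists_eigen (h2 : (2 : 𝒪) ≠ 0) (c : G) (hc : c * c = 1) :
    ∃ (ε : 𝒪) (u : M), ε * ε = 1 ∧ u ≠ 0 ∧ ρ c u = ε • u := by
  have hy : ∀ x, ρ c (ρ c x) = x := fun x => by
    have : ρ c * ρ c = 1 := by rw [← map_mul, hc, map_one]
    exact congrArg (fun f : Module.End 𝒪 M => f x) this
  obtain ⟨m, hm⟩ := exists_ne (0 : M)
  by_cases h : ρ c m + m = 0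
  · refine ⟨-1, m, by ring, hm, ?_⟩
    rw [neg_one_smul]; exact eq_neg_of_add_eq_zero_left h
  · refine ⟨1, ρ c m + m, by ring, h, ?_⟩
    rw [map_add, hy, one_smul, add_comm]

theorem exists_stable (h2 : (2 : 𝒪) ≠ 0) (hrel : ∀ g, ∃ a, Rel ρ d g a) (c : G) (hc : c * c = 1)
    (hdc : d c = -1) :
    (∃ v : M, v ≠ 0 ∧ ∀ g, ∃ r : 𝒪, r ≠ 0 ∧ r • ρ g v ∈ Submodule.span 𝒪 {v}) ∨
    (∃ (u w : M) (ε : 𝒪), ε * ε = 1 ∧ u ≠ 0 ∧ w ≠ 0 ∧ ρ c u = ε • u ∧ ρ c w = -ε • w ∧
      (∀ g, ∃ r : 𝒪, r ≠ 0 ∧ r • ρ g u ∈ Submodule.span 𝒪 {u, w}) ∧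
      (∀ g, ∃ r : 𝒪, r ≠ 0 ∧ r • ρ g w ∈ Submodule.span 𝒪 {u, w})) := by
  classical
  choose a ha using hrel
  have hy : ∀ x, ρ c (ρ c x) = x := fun x => by
    have : ρ c * ρ c = 1 := by rw [← map_mul, hc, map_one]
    exact congrArg (fun f : Module.End 𝒪 M => f x) this
  obtain ⟨ε, u, hε, hu0, hu⟩ := exists_eigen ρ h2 c hc
  have hε0 : ε ≠ 0 := by rintro rfl; simp at hε
  have h2ε : (2 : 𝒪) * ε ≠ 0 := mul_ne_zero h2 hε0
  -- `P x = c x + ε x`, `Q x = c x - ε x`
  have hP : ∀ g, ρ c (ρ g u) + ε • ρ g u = (a (g * c) + ε * a g) • u :=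
    fun g => eigen_key ρ d a ha c hc hdc ε u hu g
  have hsplit : ∀ x : M, (2 * ε) • x = (ρ c x + ε • x) - (ρ c x - ε • x) := by
    intro x; rw [mul_smul, two_smul]; abel
  by_cases h1 : ∀ g, ρ c (ρ g u) - ε • ρ g u = 0
  · -- rank one, generated by `u`
    left
    refine ⟨u, hu0, fun g => ⟨2 * ε, h2ε, ?_⟩⟩
    rw [hsplit, h1 g, sub_zero, hP g]
    exact Submodule.smul_mem _ _ (Submodule.mem_span_singleton_self u)
  obtain ⟨g₀, hw0⟩ := not_forall.mp h1
  set w : M := ρ c (ρ g₀ u) - ε • ρ g₀ u with hw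
  have hcw : ρ c w = -ε • w := by
    rw [hw, map_sub, hy, map_smul, smul_sub, smul_smul, neg_mul, hε]
    simp only [neg_smul, one_smul]
    abel
  -- the key identity for `w` (eigenvalue `-ε`)
  have hQw : ∀ g, ρ c (ρ g w) - ε • ρ g w = (a (g * c) + -ε * a g) • w := by
    intro g
    have := eigen_key ρ d a ha c hc hdc (-ε) w hcw g
    rw [← this, neg_smul, sub_eq_add_neg]
  have hwexp : ∀ g, ρ g w = ρ (g * c * g₀) u - ε • ρ (g * g₀) u := by
    intro g
    rw [hw, map_sub, map_smul, map_mul, map_mul, Module.End.mul_apply, Module.End.mul_apply,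
      map_mul, Module.End.mul_apply]
  have hPw : ∀ g, ρ c (ρ g w) + ε • ρ g w
      = ((a (g * c * g₀ * c) + ε * a (g * c * g₀)) - ε * (a (g * g₀ * c) + ε * a (g * g₀))) • u := by
    intro g
    rw [hwexp g, map_sub, map_smul, smul_sub, sub_smul, mul_smul, ← hP (g * c * g₀),
      ← hP (g * g₀), smul_add, smul_smul]
    abel
  by_cases h2' : ∀ g, ρ c (ρ g w) + ε • ρ g w = 0
  · -- rank one, generated by `w`
    left
    refine ⟨w, hw0, fun g => ⟨2 * ε, h2ε, ?_⟩⟩
    rw [hsplit, h2' g, zero_sub, hQw g, ← neg_smul]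
    exact Submodule.smul_mem _ _ (Submodule.mem_span_singleton_self w)
  obtain ⟨g₁, hy0⟩ := not_forall.mp h2'
  right
  set t : 𝒪 := (a (g₁ * c * g₀ * c) + ε * a (g₁ * c * g₀))
      - ε * (a (g₁ * g₀ * c) + ε * a (g₁ * g₀)) with ht
  have hyt : ρ c (ρ g₁ w) + ε • ρ g₁ w = t • u := hPw g₁
  have ht0 : t ≠ 0 := by
    rintro h0
    rw [h0, zero_smul] at hyt
    exact hy0 hyt
  have huS : u ∈ Submodule.span 𝒪 ({u, w} : Set M) := Submodule.subset_span (by simp)
  have hwS : w ∈ Submodule.span 𝒪 ({u, w} : Set M) := Submodule.subset_span (by simp)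
  refine ⟨u, w, ε, hε, hu0, hw0, hu, hcw, ?_, ?_⟩
  · intro g
    -- `t • Q (g u) = Q (g (t u)) = Q (g y)`, `y = c g₁ w + ε g₁ w`
    have hQy : t • (ρ c (ρ g u) - ε • ρ g u)
        = ((a (g * c * g₁ * c) + -ε * a (g * c * g₁))
            + ε * (a (g * g₁ * c) + -ε * a (g * g₁))) • w := by
      have e1 : t • (ρ c (ρ g u) - ε • ρ g u) = ρ c (ρ g (t • u)) - ε • ρ g (t • u) := by
        simp only [map_smul, smul_sub, smul_comm t ε]
      have e2 : ρ g (t • u) = ρ (g * c * g₁) w + ε • ρ (g * g₁) w := by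
        rw [← hyt, map_add, map_smul, map_mul, map_mul, Module.End.mul_apply,
          Module.End.mul_apply, map_mul, Module.End.mul_apply]
      rw [e1, e2, map_add, map_smul, smul_add, add_smul, mul_smul, ← hQw (g * c * g₁),
        ← hQw (g * g₁), smul_sub, smul_smul]
      abel
    refine ⟨2 * ε * t, mul_ne_zero h2ε ht0, ?_⟩
    have : (2 * ε * t) • ρ g u
        = t • (a (g * c) + ε * a g) • u - (t • (ρ c (ρ g u) - ε • ρ g u)) := by
      rw [mul_comm (2 * ε) t, mul_smul, hsplit, hP g, smul_sub]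
    rw [this, hQy]
    exact Submodule.sub_mem _ (Submodule.smul_mem _ _ (Submodule.smul_mem _ _ huS))
      (Submodule.smul_mem _ _ hwS)
  · intro g
    refine ⟨2 * ε, h2ε, ?_⟩
    rw [hsplit, hPw g, hQw g]
    exact Submodule.sub_mem _ (Submodule.smul_mem _ _ huS) (Submodule.smul_mem _ _ hwS)

end Stable

end Fermat.Agent.S30.H990

end
-- ===== PACK-END S30/H990/Extract.lean

-- ===== PACK-BEGIN Lib/Cheb/H764/Count.lean
section



/-!
# CHEB / piece A: `Spec.CountStatement`

For a Galois number field `L/ℚ`, a subgroup `H ≤ Gal(L/ℚ)`, `F = L^H` and a prime `p` not dividing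
the discriminant of `L`:
`#{primes of 𝓞 F of norm p} * |H| = ∑_{P ∣ p, D_P ≤ H} |D_P|`.
-/

set_option autoImplicit false
set_option linter.unusedSectionVars false
set_option linter.unusedVariables false
set_option linter.style.haveILetI false

open NumberField Ideal MulAction
open scoped Pointwise

namespace Fermat.Agent.Lib.Cheb.H764

open Fermat.Agent.Lib.Cheb.Spec

section

variable (L : Type) [Field L] [NumberField L] [IsGalois ℚ L]

/-- the bad set: primes dividing the discriminant -/
noncomputable def badPrimes : Finset ℕ := (NumberField.discr L).natAbs.primeFactors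

lemma not_dvd_discr_of_not_mem_badPrimes {p : ℕ} (hp : p.Prime) (hpB : p ∉ badPrimes L) :
    ¬ (p : ℤ) ∣ NumberField.discr L := by
  intro h
  apply hpB
  rw [badPrimes, Nat.mem_primeFactors]
  refine ⟨hp, ?_, ?_⟩
  · exact Int.natCast_dvd.mp h
  · exact Int.natAbs_ne_zero.mpr (NumberField.discr_ne_zero L)

lemma liesOver_of_mem {F : Type} [Field F] [NumberField F] {p : ℕ} (hp : p.Prime)
    (P : Ideal (𝓞 F)) [P.IsPrime] (hP : (p : 𝓞 F) ∈ P) :
    P.LiesOver (Ideal.span {(p : ℤ)}) := by
  have hp' : Prime (p : ℤ) := Nat.prime_iff_prime_int.mp hp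
  rw [Ideal.liesOver_span_iff (IsPrime.ne_top inferInstance) hp']
  simpa using hP

lemma mem_of_liesOver {F : Type} [Field F] [NumberField F] {p : ℕ} (hp : p.Prime)
    (P : Ideal (𝓞 F)) [P.IsPrime] [hP : P.LiesOver (Ideal.span {(p : ℤ)})] :
    (p : 𝓞 F) ∈ P := by
  have hp' : Prime (p : ℤ) := Nat.prime_iff_prime_int.mp hp
  have := (Ideal.liesOver_span_iff (IsPrime.ne_top inferInstance) hp').mp hP
  simpa using this

lemma ramificationIdx_eq_one_of_not_mem_badPrimes {p : ℕ} (hp : p.Prime) (hpB : p ∉ badPrimes L)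
    (P : Ideal (𝓞 L)) [P.IsPrime] (hP : (p : 𝓞 L) ∈ P) : P.ramificationIdx ℤ = 1 := by
  have hp' : Prime (p : ℤ) := Nat.prime_iff_prime_int.mp hp
  have h := (NumberField.not_dvd_discr_iff_forall_mem L (𝓞 L) hp').mp
    (not_dvd_discr_of_not_mem_badPrimes L hp hpB) P inferInstance (by simpa using hP)
  exact Ideal.ramificationIdx_eq_one_of_isUnramifiedAt

end

section main

variable (L : Type) [Field L] [NumberField L] [IsGalois ℚ L] (H : Subgroup (L ≃ₐ[ℚ] L))

lemma isGaloisGroup_fixedField :
    IsGaloisGroup H (IntermediateField.fixedField H) L :=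
  IsGaloisGroup.subgroup (L ≃ₐ[ℚ] L) ℚ L H

lemma isGaloisGroup_ringOfIntegers :
    IsGaloisGroup H (𝓞 (IntermediateField.fixedField H)) (𝓞 L) := by
  haveI := isGaloisGroup_fixedField L H
  exact IsGaloisGroup.of_isFractionRing H (𝓞 (IntermediateField.fixedField H)) (𝓞 L)
    (IntermediateField.fixedField H) L

lemma span_isPrime {p : ℕ} (hp : p.Prime) : (Ideal.span {(p : ℤ)}).IsPrime :=
  (Ideal.span_singleton_prime (by exact_mod_cast hp.ne_zero)).mpr (Nat.prime_iff_prime_int.mp hp)

/-- data attached to a prime `𝔮` of `𝓞 F` of norm `p` -/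
lemma ef_eq_one_of_absNorm_eq {p : ℕ} (hp : p.Prime) (hpB : p ∉ badPrimes L)
    (q : Ideal (𝓞 (IntermediateField.fixedField H))) [q.IsPrime] (hq : absNorm q = p) :
    q.LiesOver (Ideal.span {(p : ℤ)}) ∧ q.ramificationIdx ℤ * q.inertiaDeg ℤ = 1 := by
  have hmem : (p : 𝓞 (IntermediateField.fixedField H)) ∈ q := by
    have := Ideal.absNorm_mem q
    rwa [hq] at this
  haveI hlo : q.LiesOver (Ideal.span {(p : ℤ)}) := liesOver_of_mem hp q hmem
  refine ⟨hlo, ?_⟩
  have hf : q.inertiaDeg ℤ = 1 := by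
    have h1 := Ideal.pow_inertiaDeg p q
    rw [hq] at h1
    exact Nat.pow_right_injective hp.two_le (by simpa using h1)
  obtain ⟨⟨P, hP1, hP2⟩⟩ := (inferInstance : Nonempty (q.primesOver (𝓞 L)))
  haveI := hP1
  haveI := hP2
  have hPmem : (p : 𝓞 L) ∈ P := by
    have h2 : algebraMap (𝓞 (IntermediateField.fixedField H)) (𝓞 L)
        (p : 𝓞 (IntermediateField.fixedField H)) ∈ P := by
      rw [← Ideal.mem_comap, ← Ideal.under_def, ← Ideal.over_def P q]
      exact hmem
    simpa using h2
  have he := ramificationIdx_eq_one_of_not_mem_badPrimes L hp hpB P hPmem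
  rw [Ideal.ramificationIdx_tower (R := ℤ) q P] at he
  rw [hf, mul_one]
  exact Nat.eq_one_of_mul_eq_one_right he

/-- a prime `P` of `𝓞 L` over `p` with `D_P ≤ H` restricts to a prime of `𝓞 F` of norm `p` -/
lemma absNorm_under_eq {p : ℕ} (hp : p.Prime)
    (P : Ideal (𝓞 L)) [P.IsPrime] (hP : (p : 𝓞 L) ∈ P)
    (hle : stabilizer (L ≃ₐ[ℚ] L) P ≤ H) :
    (P.under (𝓞 (IntermediateField.fixedField H))).IsPrime ∧
      absNorm (P.under (𝓞 (IntermediateField.fixedField H))) = p := by
  haveI := isGaloisGroup_ringOfIntegers L H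
  haveI := span_isPrime hp
  haveI : P.LiesOver (Ideal.span {(p : ℤ)}) := liesOver_of_mem hp P hP
  haveI hqp : (P.under (𝓞 (IntermediateField.fixedField H))).IsPrime := inferInstance
  haveI : (P.under (𝓞 (IntermediateField.fixedField H))).LiesOver (Ideal.span {(p : ℤ)}) :=
    LiesOver.tower_bot P _ _
  refine ⟨hqp, ?_⟩
  have h1 := (ramificationIdx_mul_inertiaDeg_eq_one_iff (G := L ≃ₐ[ℚ] L) H
    (Ideal.span {(p : ℤ)}) (P.under (𝓞 (IntermediateField.fixedField H))) P).mpr hle
  have hf : (P.under (𝓞 (IntermediateField.fixedField H))).inertiaDeg ℤ = 1 :=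
    Nat.eq_one_of_mul_eq_one_left h1
  have h2 := Ideal.pow_inertiaDeg p (P.under (𝓞 (IntermediateField.fixedField H)))
  rw [hf, pow_one] at h2
  exact h2.symm

/-- **Piece A**, for primes not dividing the discriminant. -/
theorem count_of_not_mem_badPrimes {p : ℕ} (hp : p.Prime) (hpB : p ∉ badPrimes L) :
    primeCount (IntermediateField.fixedField H) p * Nat.card H = decompWeight L H p := by
  classical
  haveI := isGaloisGroup_ringOfIntegers L H
  haveI := span_isPrime hp
  have hfinT : {q : Ideal (𝓞 (IntermediateField.fixedField H)) |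
      q.IsPrime ∧ absNorm q = p}.Finite :=
    (Ideal.finite_setOf_absNorm_eq p).subset (fun q h => h.2)
  have hfinS : (primesLe L H p).Finite := by
    refine Set.Finite.subset
      (Algebra.QuasiFinite.finite_primesOver (S := 𝓞 L) (Ideal.span {(p : ℤ)})) ?_
    rintro P ⟨hP1, hP2, -⟩
    haveI := hP1
    exact ⟨hP1, liesOver_of_mem hp P hP2⟩
  -- the left-hand side
  have hL : primeCount (IntermediateField.fixedField H) p = hfinT.toFinset.card := by
    rw [← Set.ncard_eq_toFinset_card _ hfinT, ← Nat.card_coe_set_eq]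
    rfl
  -- the right-hand side
  have hR : decompWeight L H p = ∑ P ∈ hfinS.toFinset, Nat.card (decomp L P) := by
    rw [decompWeight, finsum_set_coe_eq_finsum_mem (f := fun P => Nat.card (decomp L P)),
      finsum_mem_eq_finite_toFinset_sum _ hfinS]
  rw [hL, hR]
  have hmaps : ∀ P ∈ hfinS.toFinset,
      P.under (𝓞 (IntermediateField.fixedField H)) ∈ hfinT.toFinset := by
    intro P hP
    rw [Set.Finite.mem_toFinset] at hP ⊢
    obtain ⟨hP1, hP2, hP3⟩ := hP
    haveI := hP1
    exact absNorm_under_eq L H hp P hP2 hP3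
  rw [← Finset.sum_fiberwise_of_maps_to hmaps, Finset.card_eq_sum_ones, Finset.sum_mul]
  refine Finset.sum_congr rfl fun q hq => ?_
  rw [Set.Finite.mem_toFinset] at hq
  obtain ⟨hq1, hq2⟩ := hq
  haveI := hq1
  obtain ⟨hlo, hef⟩ := ef_eq_one_of_absNorm_eq L H hp hpB q hq2
  haveI := hlo
  rw [one_mul, ← finsum_card_stabilizer_primesOver (G := L ≃ₐ[ℚ] L) H (Ideal.span {(p : ℤ)}) q hef
    (Algebra.QuasiFinite.finite_primesOver (S := 𝓞 L) q) Set.Nonempty.of_subtype,
    ← finsum_mem_coe_finset]
  refine finsum_mem_congr ?_ (fun _ _ => rfl)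
  ext P
  rw [Finset.coe_filter, Set.mem_setOf_eq, Set.Finite.mem_toFinset]
  constructor
  · intro hP
    have hP1 : P.IsPrime := hP.1
    have hP2 : P.LiesOver q := hP.2
    haveI := hP1
    haveI := hP2
    haveI : P.LiesOver (Ideal.span {(p : ℤ)}) := LiesOver.trans P q _
    refine ⟨⟨hP1, mem_of_liesOver hp P, ?_⟩, (Ideal.over_def P q).symm⟩
    exact (ramificationIdx_mul_inertiaDeg_eq_one_iff (G := L ≃ₐ[ℚ] L) H
      (Ideal.span {(p : ℤ)}) q P).mp hef
  · rintro ⟨hP, hP4⟩
    exact ⟨hP.1, ⟨hP4.symm⟩⟩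

/-- **Piece A** of the CHEB library: `Spec.CountStatement`. -/
theorem count : Spec.CountStatement := by
  intro L _ _ _ H
  exact ⟨badPrimes L, fun p hp hpB => count_of_not_mem_badPrimes L H hp hpB⟩

end main

end Fermat.Agent.Lib.Cheb.H764

end
-- ===== PACK-END Lib/Cheb/H764/Count.lean

-- ===== PACK-BEGIN A2/T1/H669/Embed.lean
section



/-!
# WALL A2, piece T1/T2 (helper669): the coefficient embedding `F_E → F̄`

For an intermediate field `E ⊆ ℚ̄` and `F₀ ⊆ ℚ((t))`:

* `iota E F₀ : laurentBaseChange E F₀ →+* laurentBaseChange ℚ̄ F₀` (coefficientwise inclusion);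
* `iota_algebraMap`, `iota_arithmeticRingAut` (compatibility with constants and with the
  coefficientwise Galois action restricted to a stable `E`);
* `exists_iota_eq` : every element of `laurentBaseChange ℚ̄ F₀` is `iota` of an element over any
  intermediate field containing a suitable finite set (finite descent, from `S18.H602`);
* `adjoin_algebraic_eq_top` : `F̄` is generated over `iota F_E` by constants.
-/

set_option autoImplicit false

noncomputable section

namespace Fermat.Agent.A2.T1.H669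

open ModularCurve AlgebraicCurve

/-- The field `ℚ̄`. -/
abbrev Qb : Type := AlgebraicClosure ℚ

variable (E : IntermediateField ℚ _root_.Fermat.Agent.A2.T1.H669.Qb) (F₀ : IntermediateField ℚ (LaurentSeries ℚ))

/-- Coefficientwise inclusion `F_E → F̄`. -/
def iota : ↥(laurentBaseChange E F₀) →+* ↥(laurentBaseChange _root_.Fermat.Agent.A2.T1.H669.Qb F₀) where
  toFun x := ⟨coeffMap (algebraMap E _root_.Fermat.Agent.A2.T1.H669.Qb) (x : LaurentSeries E),
    Fermat.Agent.S18.H602.coeffMap_mem_laurentBaseChange F₀ _ x.2⟩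
  map_one' := Subtype.ext (map_one _)
  map_mul' _ _ := Subtype.ext (map_mul _ _ _)
  map_zero' := Subtype.ext (map_zero _)
  map_add' _ _ := Subtype.ext (map_add _ _ _)

@[simp]
theorem coe_iota (x : ↥(laurentBaseChange E F₀)) :
    ((iota E F₀ x : ↥(laurentBaseChange _root_.Fermat.Agent.A2.T1.H669.Qb F₀)) : LaurentSeries _root_.Fermat.Agent.A2.T1.H669.Qb) =
      coeffMap (algebraMap E _root_.Fermat.Agent.A2.T1.H669.Qb) (x : LaurentSeries E) := rfl

theorem iota_injective : Function.Injective (iota E F₀) := (iota E F₀).injective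

theorem iota_ne_zero {x : ↥(laurentBaseChange E F₀)} (hx : x ≠ 0) : iota E F₀ x ≠ 0 :=
  (map_ne_zero_iff _ (iota_injective E F₀)).2 hx

theorem iota_algebraMap (e : E) :
    iota E F₀ (algebraMap E ↥(laurentBaseChange E F₀) e) =
      algebraMap _root_.Fermat.Agent.A2.T1.H669.Qb ↥(laurentBaseChange _root_.Fermat.Agent.A2.T1.H669.Qb F₀) (algebraMap E _root_.Fermat.Agent.A2.T1.H669.Qb e) :=
  Subtype.ext (Fermat.Agent.S18.H602.coeffMap_algebraMap' (algebraMap E _root_.Fermat.Agent.A2.T1.H669.Qb) e)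

/-- Compatibility with the arithmetic action: if `τE` is the restriction of `τ` to `E`. -/
theorem iota_arithmeticRingAut (τ : _root_.Fermat.Agent.A2.T1.H669.Qb ≃ₐ[ℚ] _root_.Fermat.Agent.A2.T1.H669.Qb) (τE : E ≃ₐ[ℚ] E)
    (hτ : ∀ e : E, ((τE e : E) : _root_.Fermat.Agent.A2.T1.H669.Qb) = τ (e : _root_.Fermat.Agent.A2.T1.H669.Qb)) (x : ↥(laurentBaseChange E F₀)) :
    iota E F₀ (arithmeticRingAut F₀ τE x) = arithmeticRingAut F₀ τ (iota E F₀ x) := by
  apply Subtype.ext
  show coeffMap (algebraMap E _root_.Fermat.Agent.A2.T1.H669.Qb) (coeffMap (τE : E →+* E) (x : LaurentSeries E)) =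
    coeffMap (τ : _root_.Fermat.Agent.A2.T1.H669.Qb →+* _root_.Fermat.Agent.A2.T1.H669.Qb) (coeffMap (algebraMap E _root_.Fermat.Agent.A2.T1.H669.Qb) (x : LaurentSeries E))
  rw [coeffMap_coeffMap, coeffMap_coeffMap]
  exact coeffMap_congr (RingHom.ext fun e => hτ e) _

end Fermat.Agent.A2.T1.H669

end
end
-- ===== PACK-END A2/T1/H669/Embed.lean

-- ===== PACK-BEGIN S24/FFPoint.lean
section




/-!
# S24 / FF layer: the point of `P^1` below a place, residue degree one

Embedding-free algebraic core (helper804).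
-/

set_option autoImplicit false

namespace Fermat.Agent.S24.FF

open AlgebraicCurve Polynomial IntermediateField

variable {K F : Type*} [Field K] [Field F] [Algebra K F]

/-- `ord` of a product of a multiset of nonzero elements with `ord = 0` is `0`. -/
theorem ord_multiset_prod_eq_zero (v : Place K F) (s : Multiset F)
    (h : ∀ y ∈ s, y ≠ 0 ∧ v.ord y = 0) : s.prod ≠ 0 ∧ v.ord s.prod = 0 := by
  induction s using Multiset.induction_on with
  | empty => simp
  | cons a s ih =>
    have ha := h a (Multiset.mem_cons_self a s)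
    have hs := ih (fun y hy => h y (Multiset.mem_cons_of_mem hy))
    rw [Multiset.prod_cons]
    refine ⟨mul_ne_zero ha.1 hs.1, ?_⟩
    rw [v.ord_mul ha.1 hs.1, ha.2, hs.2, add_zero]

/-- If `x` is integral at `v` and no `x - a` vanishes at `v`, every nonzero polynomial
expression in `x` is a unit at `v`. -/
theorem ord_aeval_eq_zero [IsAlgClosed K] (v : Place K F) (x : F) (hx : 0 ≤ v.ord x)
    (hno : ∀ a : K, ¬ 0 < v.ord (x - algebraMap K F a)) (p : K[X]) (hp : aeval x p ≠ 0) :
    v.ord (aeval x p) = 0 := by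
  have hsplit := IsAlgClosed.splits p
  have hp0 : p ≠ 0 := by
    rintro rfl
    simp at hp
  have hprod := hsplit.eq_prod_roots
  have hval : aeval x p = algebraMap K F p.leadingCoeff *
      ((p.roots.map fun a => x - algebraMap K F a)).prod := by
    conv_lhs => rw [hprod]
    simp [aeval_def, eval₂_mul, Polynomial.eval₂_multiset_prod, Multiset.map_map, Function.comp_def]
  rw [hval] at hp ⊢
  have hc : algebraMap K F p.leadingCoeff ≠ 0 := left_ne_zero_of_mul hp
  have hr : ((p.roots.map fun a => x - algebraMap K F a)).prod ≠ 0 := right_ne_zero_of_mul hp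
  have key := ord_multiset_prod_eq_zero v (p.roots.map fun a => x - algebraMap K F a) (by
    intro y hy
    obtain ⟨a, -, rfl⟩ := Multiset.mem_map.mp hy
    have hne : x - algebraMap K F a ≠ 0 := by
      intro h0
      apply hr
      rw [Multiset.prod_eq_zero_iff]
      exact h0 ▸ hy
    refine ⟨hne, ?_⟩
    have h1 : 0 ≤ v.ord (x - algebraMap K F a) :=
      ord_nonneg_of_mem v (sub_mem (mem_of_ord_nonneg v hx) (v.algebraMap_mem' a))
    have h2 := hno a
    omega)
  rw [v.ord_mul hc hr, _root_.Fermat.Agent.S24.FF.ord_algebraMap, key.2, add_zero]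

/-- **FF4, existence.** If `F` is algebraic over `K(x)` and `x` is integral at the place `v`,
then `v` lies over a finite point `a` of the `x`-line. -/
theorem exists_ord_sub_pos [IsAlgClosed K] (v : Place K F) (x : F)
    [halg : Algebra.IsAlgebraic K⟮x⟯ F] (hx : 0 ≤ v.ord x) :
    ∃ a : K, 0 < v.ord (x - algebraMap K F a) := by
  by_contra hno
  rw [not_exists] at hno
  apply v.ne_top'
  -- `K(x) ⊆ O_v`
  have hsub : ∀ y ∈ K⟮x⟯, y ∈ v.toValuationSubring := by
    intro y hy
    obtain ⟨r, s, rfl⟩ := (mem_adjoin_simple_iff K y).mp hy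
    rcases eq_or_ne (aeval x s) 0 with hs | hs
    · rw [hs, div_zero]; exact zero_mem _
    rcases eq_or_ne (aeval x r) 0 with hr | hr
    · rw [hr, zero_div]; exact zero_mem _
    apply mem_of_ord_nonneg v
    rw [div_eq_mul_inv, v.ord_mul hr (inv_ne_zero hs), v.ord_inv,
      ord_aeval_eq_zero v x hx hno r hr, ord_aeval_eq_zero v x hx hno s hs]
    simp
  -- hence every element of `F` is integral over `O_v`
  let φ : K⟮x⟯ →+* v.toValuationSubring :=
    { toFun := fun y => ⟨y, hsub y y.2⟩
      map_one' := rfl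
      map_mul' := fun _ _ => rfl
      map_zero' := rfl
      map_add' := fun _ _ => rfl }
  refine SetLike.ext fun f => ⟨fun _ => ValuationSubring.mem_top f, fun _ => ?_⟩
  have hint : IsIntegral K⟮x⟯ f := (halg.isAlgebraic f).isIntegral
  have hint' : IsIntegral v.toValuationSubring f := by
    obtain ⟨p, hpm, hp⟩ := hint
    refine ⟨p.map φ, hpm.map φ, ?_⟩
    rw [← hp, Polynomial.eval₂_map]
    rfl
  obtain ⟨y, hy⟩ := IsIntegrallyClosed.isIntegral_iff.mp hint'
  rw [← hy]
  exact y.2

/-- **FF4, uniqueness.** -/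
theorem ord_sub_pos_unique (v : Place K F) (x : F) {a b : K}
    (ha : 0 < v.ord (x - algebraMap K F a)) (hb : 0 < v.ord (x - algebraMap K F b)) : a = b := by
  by_contra hab
  have hne : algebraMap K F (b - a) ≠ 0 := by
    rw [Ne, map_eq_zero_iff _ (algebraMap K F).injective, sub_eq_zero]
    exact fun h => hab h.symm
  have h0 := _root_.Fermat.Agent.S24.FF.ord_algebraMap v (b - a)
  have hsum : (x - algebraMap K F a) + (-(x - algebraMap K F b)) = algebraMap K F (b - a) := by
    rw [map_sub]; ring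
  have hxa : x - algebraMap K F a ≠ 0 := by
    intro h; rw [h, v.ord_zero] at ha; exact lt_irrefl _ ha
  have hxb : x - algebraMap K F b ≠ 0 := by
    intro h; rw [h, v.ord_zero] at hb; exact lt_irrefl _ hb
  have hneg : v.ord (-(x - algebraMap K F b)) = v.ord (x - algebraMap K F b) := by
    rw [neg_eq_neg_one_mul, v.ord_mul (neg_ne_zero.mpr one_ne_zero) hxb]
    have : v.ord (-1 : F) = 0 := by
      have := _root_.Fermat.Agent.S24.FF.ord_algebraMap v (-1 : K)
      simpa using this
    rw [this, zero_add]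
  have := ord_add_ge v (f := x - algebraMap K F a) (g := -(x - algebraMap K F b))
    (by rw [hsum]; exact hne)
  rw [hsum, h0, hneg] at this
  have := min_le_iff.mp this
  omega

end Fermat.Agent.S24.FF

end
-- ===== PACK-END S24/FFPoint.lean

-- ===== PACK-BEGIN S24/JFun/QExp.lean
section






/-!
# The `q`-expansion of the analytic `j`-function is the formal `j` of the Prelude

Main results:
* `qExpansion_E₄` : `qExpansion 1 E₄ = ModularCurve.eisenstein4.map (Int.castRingHom ℂ)`;
* `qExpansion_qj` : `qExpansion 1 (τ ↦ q(τ) * j(τ)) = ModularCurve.jNum.map (Int.castRingHom ℂ)`;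
* `hasSum_qj` : `q * j(τ) = ∑ jNum_n q ^ n` for every `τ : ℍ`.
-/

set_option autoImplicit false

namespace Fermat.Agent.S24.JFun

open Filter Topology Complex Metric Function
open UpperHalfPlane hiding I
open ModularForm EisensteinSeries MatrixGroups
open scoped Manifold

local notation "𝕢" => Function.Periodic.qParam

/-- The analytic Euler product `∏ (1 - q ^ (n+1))` as a function of `τ`. -/
noncomputable def eulerFun : ℍ → ℂ := ofQ (fun q : ℂ => ∏' n : ℕ, (1 - q ^ (n + 1)))

theorem eulerFun_apply (τ : ℍ) :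
    eulerFun τ = ∏' n : ℕ, (1 - 𝕢 1 (τ : ℂ) ^ (n + 1)) := rfl

theorem eulerFun_pow_eq_ofQ (k : ℕ) :
    (fun τ => eulerFun τ ^ k) = ofQ (fun q : ℂ => (∏' n : ℕ, (1 - q ^ (n + 1))) ^ k) := rfl

theorem differentiableOn_euler_pow (k : ℕ) :
    DifferentiableOn ℂ (fun q : ℂ => (∏' n : ℕ, (1 - q ^ (n + 1))) ^ k) (ball 0 1) :=
  ModularForm.differentiableOn_tprod_one_sub_pow.fun_pow k

theorem analyticAt_eulerFun_pow (k : ℕ) :
    AnalyticAt ℂ (cuspFunction 1 (fun τ => eulerFun τ ^ k)) 0 := by
  rw [eulerFun_pow_eq_ofQ]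
  exact ofQ_analyticAt (differentiableOn_euler_pow k)

theorem analyticAt_eulerFun : AnalyticAt ℂ (cuspFunction 1 eulerFun) 0 :=
  ofQ_analyticAt ModularForm.differentiableOn_tprod_one_sub_pow

/-- The `q`-expansion of the analytic Euler product is the formal Euler product. -/
theorem qExpansion_eulerFun :
    qExpansion 1 eulerFun = ModularCurve.etaProd.map (Int.castRingHom ℂ) := by
  ext m
  rw [eulerFun, qExpansion_ofQ_coeff ModularForm.differentiableOn_tprod_one_sub_pow,
    iteratedDeriv_tprod_one_sub_pow, PowerSeries.coeff_map]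
  have hm : (m.factorial : ℂ) ≠ 0 := by exact_mod_cast Nat.factorial_ne_zero m
  simp only [eq_intCast]
  field_simp

theorem qExpansion_eulerFun_pow (k : ℕ) :
    qExpansion 1 (fun τ => eulerFun τ ^ k)
      = (ModularCurve.etaProd.map (Int.castRingHom ℂ)) ^ k := by
  induction k with
  | zero =>
    have h : (fun τ : ℍ => eulerFun τ ^ 0) = (1 : ℍ → ℂ) := by
      funext τ
      simp
    rw [h, qExpansion_one, pow_zero]
  | succ k ih =>
    have h : (fun τ : ℍ => eulerFun τ ^ (k + 1)) = (fun τ => eulerFun τ ^ k) * eulerFun := by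
      funext τ
      simp [pow_succ]
    rw [h, qExpansion_mul (analyticAt_eulerFun_pow k) analyticAt_eulerFun, ih,
      qExpansion_eulerFun, pow_succ]

/-- The discriminant as `q` times the 24-th power of the Euler product. -/
theorem discriminant_eq_q_mul_eulerFun (τ : ℍ) :
    ModularForm.discriminant τ = 𝕢 1 (τ : ℂ) * eulerFun τ ^ 24 := by
  rw [discriminant_eq_q_prod, eulerFun_apply]
  congr 1
  have hm : Multipliable (fun n : ℕ => (1 - 𝕢 1 (τ : ℂ) ^ (n + 1))) :=
    (ModularForm.multipliableLocallyUniformlyOn_one_sub_pow.multipliable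
      (qParam_one_mem_ball τ))
  exact hm.tprod_pow 24

/-- The `q`-expansion of `E₄` is the formal Eisenstein series of the Prelude. -/
theorem qExpansion_E₄ :
    qExpansion 1 E₄ = ModularCurve.eisenstein4.map (Int.castRingHom ℂ) := by
  ext m
  rw [PowerSeries.coeff_map, ModularCurve.eisenstein4, PowerSeries.coeff_mk]
  have h := E_qExpansion_coeff (k := 4) (by norm_num) ⟨2, rfl⟩ m
  have hE : (qExpansion 1 E₄).coeff m = (qExpansion 1 (E (k := 4) (by norm_num))).coeff m := rfl
  rw [hE, h]
  by_cases hm : m = 0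
  · simp [hm]
  · simp only [hm, if_false]
    rw [show bernoulli 4 = -1 / 30 by decide +kernel, ArithmeticFunction.sigma_apply]
    push_cast
    norm_num

theorem analyticAt_E₄ : AnalyticAt ℂ (cuspFunction 1 (E₄ : ℍ → ℂ)) 0 :=
  ModularFormClass.analyticAt_cuspFunction_zero E₄ one_pos one_mem_strictPeriods_SL

theorem qExpansion_E₄_cube :
    qExpansion 1 (fun τ => E₄ τ ^ 3)
      = (ModularCurve.eisenstein4.map (Int.castRingHom ℂ)) ^ 3 := by
  have h2 : (fun τ : ℍ => E₄ τ ^ 2) = (E₄ : ℍ → ℂ) * (E₄ : ℍ → ℂ) := by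
    funext τ
    simp [pow_two]
  have h3 : (fun τ : ℍ => E₄ τ ^ 3) = (fun τ : ℍ => E₄ τ ^ 2) * (E₄ : ℍ → ℂ) := by
    funext τ
    simp [pow_succ]
  have ha2 : AnalyticAt ℂ (cuspFunction 1 (fun τ : ℍ => E₄ τ ^ 2)) 0 := by
    rw [h2, cuspFunction_mul analyticAt_E₄.continuousAt analyticAt_E₄.continuousAt]
    exact analyticAt_E₄.mul analyticAt_E₄
  rw [h3, qExpansion_mul ha2 analyticAt_E₄, h2, qExpansion_mul analyticAt_E₄ analyticAt_E₄,
    qExpansion_E₄]
  ring

/-- The function `τ ↦ q(τ) * j(τ)`, holomorphic at the cusp. -/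
noncomputable def qjFun (τ : ℍ) : ℂ := 𝕢 1 (τ : ℂ) * jFun τ

theorem qjFun_apply (τ : ℍ) : qjFun τ = 𝕢 1 (τ : ℂ) * jFun τ := rfl

theorem qParam_one_ne_zero (z : ℂ) : 𝕢 1 z ≠ 0 := by
  unfold Function.Periodic.qParam
  exact Complex.exp_ne_zero _

theorem eulerFun_ne_zero (τ : ℍ) : eulerFun τ ≠ 0 := by
  intro h
  have := discriminant_ne_zero τ
  rw [discriminant_eq_q_mul_eulerFun, h] at this
  simp at this

theorem qjFun_mul_eulerFun (τ : ℍ) : qjFun τ * eulerFun τ ^ 24 = E₄ τ ^ 3 := by
  rw [qjFun_apply, ← jFun_mul_discriminant, discriminant_eq_q_mul_eulerFun]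
  ring

theorem qjFun_eq (τ : ℍ) : qjFun τ = E₄ τ ^ 3 / eulerFun τ ^ 24 := by
  rw [← qjFun_mul_eulerFun, mul_div_cancel_right₀ _ (pow_ne_zero _ (eulerFun_ne_zero τ))]

theorem jFun_vadd (τ : ℍ) : jFun ((1 : ℝ) +ᵥ τ) = jFun τ := by
  rw [← UpperHalfPlane.modular_T_smul, jFun_smul]

theorem qjFun_vadd (τ : ℍ) : qjFun ((1 : ℝ) +ᵥ τ) = qjFun τ := by
  rw [qjFun_apply, qjFun_apply, qParam_one_vadd, jFun_vadd]

theorem qjFun_periodic : Periodic (qjFun ∘ ofComplex) ((1 : ℝ) : ℂ) :=
  periodic_comp_ofComplex_of_vadd qjFun_vadd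

theorem mdiff_qParam : MDiff (fun τ : ℍ => 𝕢 1 (τ : ℂ)) :=
  ofQ_mdiff (g := fun q => q) differentiableOn_id

theorem qjFun_mdiff : MDiff qjFun :=
  mdiff_qParam.mul jFun_mdifferentiable

theorem tendsto_eulerFun : Tendsto eulerFun atImInfty (𝓝 1) := by
  have h := ofQ_tendsto ModularForm.differentiableOn_tprod_one_sub_pow
  simpa [eulerFun] using h

theorem E₄_bdd : IsBoundedAtImInfty (fun τ : ℍ => E₄ τ) :=
  ModularFormClass.bdd_at_infty E₄

theorem qjFun_bdd : IsBoundedAtImInfty qjFun := by
  have h1 : IsBoundedAtImInfty (fun τ : ℍ => E₄ τ ^ 3) := by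
    have := (E₄_bdd.mul E₄_bdd).mul E₄_bdd
    refine this.congr' ?_ (EventuallyEq.refl _ _)
    exact Eventually.of_forall fun τ => by simp [pow_succ]
  have h2 : Tendsto (fun τ : ℍ => (eulerFun τ ^ 24)⁻¹) atImInfty (𝓝 1) := by
    have := (tendsto_eulerFun.pow 24).inv₀ (by simp)
    simpa using this
  have h3 : IsBoundedAtImInfty (fun τ : ℍ => (eulerFun τ ^ 24)⁻¹) := h2.isBigO_one ℝ
  have h4 := h1.mul h3
  refine h4.congr' ?_ (EventuallyEq.refl _ _)
  exact Eventually.of_forall fun τ => by
    simp only [Pi.mul_apply]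
    rw [qjFun_eq, div_eq_mul_inv]

theorem analyticAt_qjFun : AnalyticAt ℂ (cuspFunction 1 qjFun) 0 :=
  analyticAt_cuspFunction_zero one_pos qjFun_periodic qjFun_mdiff qjFun_bdd

/-- **Bridge**: the `q`-expansion of `q · j` is the Prelude's formal power series `jNum`. -/
theorem qExpansion_qjFun :
    qExpansion 1 qjFun = ModularCurve.jNum.map (Int.castRingHom ℂ) := by
  have hfun : qjFun * (fun τ => eulerFun τ ^ 24) = fun τ => E₄ τ ^ 3 := by
    funext τ
    exact qjFun_mul_eulerFun τ
  have h1 : qExpansion 1 qjFun * (ModularCurve.etaProd.map (Int.castRingHom ℂ)) ^ 24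
      = (ModularCurve.eisenstein4.map (Int.castRingHom ℂ)) ^ 3 := by
    rw [← qExpansion_eulerFun_pow, ← qExpansion_mul analyticAt_qjFun (analyticAt_eulerFun_pow 24),
      hfun, qExpansion_E₄_cube]
  have h2 : ModularCurve.jNum * ModularCurve.etaProd ^ 24 = ModularCurve.eisenstein4 ^ 3 := by
    have h := ModularCurve.dedekindEtaUnit_mul_inv
    rw [ModularCurve.dedekindEtaUnit] at h
    rw [ModularCurve.jNum, mul_assoc, mul_comm ModularCurve.dedekindEtaUnitInv, h, mul_one]
  have h3 : (ModularCurve.jNum.map (Int.castRingHom ℂ))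
      * (ModularCurve.etaProd.map (Int.castRingHom ℂ)) ^ 24
      = (ModularCurve.eisenstein4.map (Int.castRingHom ℂ)) ^ 3 := by
    rw [← map_pow, ← map_pow, ← map_mul, h2]
  have hne : (ModularCurve.etaProd.map (Int.castRingHom ℂ)) ^ 24 ≠ 0 := by
    apply pow_ne_zero
    intro h0
    have hc := congrArg (PowerSeries.coeff 0) h0
    rw [PowerSeries.coeff_map, PowerSeries.coeff_zero_eq_constantCoeff,
      ModularCurve.constantCoeff_etaProd] at hc
    simp at hc
  exact mul_right_cancel₀ hne (h1.trans h3.symm)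

/-- **Bridge, summation form**: `q · j(τ) = ∑ₙ jNumₙ qⁿ` for every `τ` in the upper half plane. -/
theorem hasSum_qjFun (τ : ℍ) :
    HasSum (fun n : ℕ => ((ModularCurve.jNum.coeff n : ℤ) : ℂ) * 𝕢 1 (τ : ℂ) ^ n)
      (𝕢 1 (τ : ℂ) * jFun τ) := by
  have h := hasSum_qExpansion one_pos qjFun_periodic qjFun_mdiff qjFun_bdd τ
  rw [qExpansion_qjFun, qjFun_apply] at h
  simpa [PowerSeries.coeff_map, smul_eq_mul] using h

end Fermat.Agent.S24.JFun

end
-- ===== PACK-END S24/JFun/QExp.lean

-- ===== PACK-BEGIN S28/H867/Leaves.lean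
section
/-
S28 [L] (helper867): leaf interface for the degree bookkeeping behind `coreData`.
Only definitions and `Prop`-valued leaf statements live here (no proofs needed).
-/



set_option autoImplicit false

noncomputable section

open ModularCurve HahnSeries IntermediateField

namespace Fermat.Agent.S28.H867

variable (k : Type*) [Field k]

/-- `j(q^p)` as a Laurent series over `k`. -/
abbrev jp (p : ℕ) [NeZero p] : LaurentSeries k := qExpand k p (jqModC k)

/-- `k(j(q^p)) ⊂ k((q))`. -/
def jpField (p : ℕ) [NeZero p] : IntermediateField k (LaurentSeries k) :=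
  IntermediateField.adjoin k {jp k p}

/-- `E_M = k(j(q^d) : d ∣ M)`. -/
abbrev EF (M : ℕ) : IntermediateField k (LaurentSeries k) := modularFunctionFieldFullC k M

/-- `[E_M : k(j)]` (zero if infinite). -/
def degE (M : ℕ) : ℕ := (jField k).relfinrank (EF k M)

/-- The expected degree `ψ(N) = ∏_{p ∣ N} (p + 1) p^{v_p(N) - 1}`. -/
def gFun (N : ℕ) : ℕ := ∏ p ∈ N.primeFactors, (p + 1) * p ^ (N.factorization p - 1)

/-- Leaf [L.I]: `1, j, …, j^{p-1}` are linearly independent over every subfield of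
`k((q^p)) = range V_p`. True for every field `k` and every `p ≥ 1`. -/
def LeafI (p : ℕ) [NeZero p] : Prop :=
  ∀ B : IntermediateField k (LaurentSeries k),
    B ≤ (qExpandAlgHomC k p).fieldRange →
    LinearIndependent B (fun i : Fin p => (jqModC k) ^ (i : ℕ))

/-- Leaf [L.B1]: `j(q^p) ∉ k(j)`. True when `p` is prime and `(p : k) ≠ 0`. -/
def LeafB1 (p : ℕ) [NeZero p] : Prop := jp k p ∉ jField k

/-- Leaf [L.UP]: upper bound in characteristic zero. -/
def LeafUP (N : ℕ) : Prop := ∀ M : ℕ, M ∣ N → degE ℚ M ≤ gFun M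

/-- Prime-level degrees: `[k(j, j_p) : k(j)] = p + 1 = [k(j, j_p) : k(j_p)]`. -/
structure PrimeLevel (p : ℕ) [NeZero p] : Prop where
  deg_j : (jField k).relfinrank (jField k ⊔ jpField k p) = p + 1
  deg_jp : (jpField k p).relfinrank (jField k ⊔ jpField k p) = p + 1

end Fermat.Agent.S28.H867

end

end
-- ===== PACK-END S28/H867/Leaves.lean

-- ===== PACK-BEGIN S28/H88/Theta.lean
section
/-
S28 (Igusa) -- helper88: the derivation `θ = q d/dq` on formal Laurent series
(toolkit for the prime-level step [L2]: `j(q^p) ∉ k(j)`).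
-/


set_option autoImplicit false

noncomputable section

open ModularCurve HahnSeries

namespace Fermat.Agent.S28

section ThetaBasic

variable {R : Type*} [CommRing R]

theorem h88_thetaL_add (f g : LaurentSeries R) :
    thetaL R (f + g) = thetaL R f + thetaL R g := by
  ext n; simp [mul_add]

theorem h88_thetaL_zero : thetaL R (0 : LaurentSeries R) = 0 := by
  ext n; simp

theorem h88_thetaL_neg (f : LaurentSeries R) : thetaL R (-f) = - thetaL R f := by
  ext n; simp

theorem h88_thetaL_sub (f g : LaurentSeries R) :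
    thetaL R (f - g) = thetaL R f - thetaL R g := by
  ext n; simp [mul_sub]

theorem h88_thetaL_support_subset (f : LaurentSeries R) :
    (thetaL R f).support ⊆ f.support := by
  intro n hn
  simp only [HahnSeries.mem_support, thetaL_coeff, ne_eq] at hn ⊢
  intro h; exact hn (by rw [h, mul_zero])

/-- Leibniz rule. -/
theorem h88_thetaL_mul (f g : LaurentSeries R) :
    thetaL R (f * g) = thetaL R f * g + f * thetaL R g := by
  ext n
  rw [HahnSeries.coeff_add, thetaL_coeff, HahnSeries.coeff_mul,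
    HahnSeries.coeff_mul_left' f.isPWO_support (h88_thetaL_support_subset f),
    HahnSeries.coeff_mul_right' g.isPWO_support (h88_thetaL_support_subset g),
    Finset.mul_sum, ← Finset.sum_add_distrib]
  refine Finset.sum_congr rfl fun ij hij => ?_
  rw [Finset.mem_antidiagonal] at hij
  obtain ⟨-, -, h⟩ := hij
  simp only [thetaL_coeff]
  rw [← h]; push_cast; ring

theorem h88_thetaL_single_zero (c : R) : thetaL R (HahnSeries.single (0 : ℤ) c) = 0 := by
  ext n
  rw [thetaL_coeff, HahnSeries.coeff_zero]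
  rcases eq_or_ne n 0 with rfl | hn
  · simp
  · rw [HahnSeries.coeff_single_of_ne hn, mul_zero]

theorem h88_thetaL_C (c : R) : thetaL R (HahnSeries.C c : LaurentSeries R) = 0 :=
  h88_thetaL_single_zero c

theorem h88_thetaL_one : thetaL R (1 : LaurentSeries R) = 0 :=
  h88_thetaL_single_zero 1

theorem h88_thetaL_pow (f : LaurentSeries R) (n : ℕ) :
    thetaL R (f ^ (n + 1)) = ((n + 1 : ℕ) : LaurentSeries R) * f ^ n * thetaL R f := by
  induction n with
  | zero => simp
  | succ n ih =>
    rw [pow_succ, h88_thetaL_mul, ih]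
    push_cast
    ring

/-- `θ` commutes with `q ↦ q^p` up to the factor `p`. -/
theorem h88_thetaL_qExpand (p : ℕ) [NeZero p] (f : LaurentSeries R) :
    thetaL R (qExpand R p f) = (p : LaurentSeries R) * qExpand R p (thetaL R f) := by
  rw [← nsmul_eq_mul]
  ext n
  rw [thetaL_coeff, HahnSeries.coeff_smul]
  by_cases hn : (p : ℤ) ∣ n
  · obtain ⟨m, rfl⟩ := hn
    rw [qExpand_coeff_mul, qExpand_coeff_mul, thetaL_coeff, nsmul_eq_mul]
    push_cast; ring
  · rw [qExpand_coeff_of_not_dvd p _ hn, qExpand_coeff_of_not_dvd p _ hn, mul_zero, smul_zero]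

end ThetaBasic

section CoeffMapCompat

variable {R S : Type*} [CommRing R] [CommRing S]

theorem h88_coeffMap_thetaL (f : R →+* S) (x : LaurentSeries R) :
    coeffMap f (thetaL R x) = thetaL S (coeffMap f x) := by
  ext n
  simp [coeffMap_coeff]

theorem h88_map_map_intCast (f : R →+* S) (P : PowerSeries ℤ) :
    (P.map (Int.castRingHom R)).map f = P.map (Int.castRingHom S) := by
  rw [← RingHom.comp_apply (PowerSeries.map f) (PowerSeries.map (Int.castRingHom R)),
    ← PowerSeries.map_comp, RingHom.ext_int (f.comp (Int.castRingHom R)) (Int.castRingHom S)]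

theorem h88_coeffMap_deltaL (f : R →+* S) : coeffMap f (deltaL R) = deltaL S := by
  rw [deltaL, map_mul, coeffMap_single, map_one, coeffMap_ofPowerSeries, h88_map_map_intCast]
  rfl

theorem h88_coeffMap_deltaInvL (f : R →+* S) : coeffMap f (deltaInvL R) = deltaInvL S := by
  rw [deltaInvL, map_mul, coeffMap_single, map_one, coeffMap_ofPowerSeries, h88_map_map_intCast]
  rfl

theorem h88_coeffMap_unitL (f : R →+* S) (p : ℕ) [NeZero p] :
    coeffMap f (unitL R p) = unitL S p := by
  rw [unitL, map_mul, coeffMap_qExpand, h88_coeffMap_deltaL, h88_coeffMap_deltaInvL]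
  rfl

variable (R) in
theorem h88_deltaL_mul_deltaInvL : deltaL R * deltaInvL R = 1 := by
  rw [deltaL, deltaInvL, mul_mul_mul_comm, HahnSeries.single_mul_single, ← map_mul,
    ← map_mul, dedekindEtaUnit_mul_inv]
  simp

end CoeffMapCompat

end Fermat.Agent.S28

end

end
-- ===== PACK-END S28/H88/Theta.lean

-- ===== PACK-BEGIN S28/H565/EulerProd.lean
section




/-!
# S28 analytic bridge, part 2: the Euler product (helper565)

We show that the formal power series `ModularCurve.etaProd = ∏ (1 - X^(n+1))` of the Prelude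
(defined as a `tprod` in the Pi-topology on `ℤ⟦X⟧`) is the Taylor expansion of the analytic
function `q ↦ ∏' (1 - q^(n+1))` on the unit disc.
-/

set_option autoImplicit false

noncomputable section

open Complex Function Filter Topology
open scoped Real PowerSeries.WithPiTopology

namespace Fermat.Agent.S28.H565

/-- Taylor coefficients at a point are continuous for locally uniform convergence of
holomorphic functions. -/
theorem tendsto_iteratedDeriv_of_tendstoLocallyUniformlyOn {U : Set ℂ} (hU : IsOpen U)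
    (k : ℕ) : ∀ {F : ℕ → ℂ → ℂ} {G : ℂ → ℂ}, (∀ n, DifferentiableOn ℂ (F n) U) →
    TendstoLocallyUniformlyOn F G atTop U → ∀ {z : ℂ}, z ∈ U →
    Tendsto (fun n => iteratedDeriv k (F n) z) atTop (𝓝 (iteratedDeriv k G z)) := by
  induction k with
  | zero =>
    intro F G _ hFG z hz
    simpa [iteratedDeriv_zero] using hFG.tendsto_at hz
  | succ k ih =>
    intro F G hF hFG z hz
    simp only [iteratedDeriv_succ']
    exact ih (F := fun n => deriv (F n)) (G := deriv G) (fun n => (hF n).deriv hU)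
      (hFG.deriv (.of_forall hF) hU) hz

/-- Taylor coefficients of a polynomial function. -/
theorem iteratedDeriv_polynomial_eval_zero (P : Polynomial ℂ) (k : ℕ) :
    iteratedDeriv k (fun q => P.eval q) 0 = (k.factorial : ℂ) * P.coeff k := by
  have h1 : ∀ (k : ℕ) (P : Polynomial ℂ), deriv^[k] (fun q => P.eval q) =
      fun q => ((⇑Polynomial.derivative)^[k] P).eval q := by
    intro k
    induction k with
    | zero => intro P; rfl
    | succ k ih =>
      intro P
      rw [Function.iterate_succ_apply', ih, Function.iterate_succ_apply']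
      funext x
      exact Polynomial.deriv _
  rw [iteratedDeriv_eq_iterate, h1]
  simp only
  rw [← Polynomial.coeff_zero_eq_eval_zero, Polynomial.coeff_iterate_derivative, zero_add,
    Nat.descFactorial_self, nsmul_eq_mul]

/-- The partial Euler products as complex polynomials. -/
def eulerPoly (M : ℕ) : Polynomial ℂ := ∏ n ∈ Finset.range M, (1 - Polynomial.X ^ (n + 1))

theorem eulerPoly_eval (M : ℕ) (q : ℂ) :
    (eulerPoly M).eval q = ∏ n ∈ Finset.range M, (1 - q ^ (n + 1)) := by
  simp [eulerPoly, Polynomial.eval_prod]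

theorem eulerPoly_coeff (M k : ℕ) :
    (eulerPoly M).coeff k =
      ((PowerSeries.coeff k (∏ n ∈ Finset.range M, (1 - PowerSeries.X ^ (n + 1)) :
        PowerSeries ℤ) : ℤ) : ℂ) := by
  have h1 : ((eulerPoly M : Polynomial ℂ) : PowerSeries ℂ) =
      PowerSeries.map (Int.castRingHom ℂ)
        (∏ n ∈ Finset.range M, (1 - PowerSeries.X ^ (n + 1)) : PowerSeries ℤ) := by
    rw [eulerPoly, ← Polynomial.coeToPowerSeries.ringHom_apply, map_prod, map_prod]
    refine Finset.prod_congr rfl fun n _ => ?_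
    simp
  rw [← Polynomial.coeff_coe, h1, PowerSeries.coeff_map]
  rfl

/-- Coefficientwise convergence of the formal partial products to `etaProd`. -/
theorem tendsto_coeff_partial_etaProd (k : ℕ) :
    Tendsto (fun M => ((PowerSeries.coeff k (∏ n ∈ Finset.range M,
      (1 - PowerSeries.X ^ (n + 1)) : PowerSeries ℤ) : ℤ) : ℂ)) atTop
      (𝓝 ((PowerSeries.coeff k ModularCurve.etaProd : ℤ) : ℂ)) := by
  have h1 : HasProd (fun n : ℕ => (1 - PowerSeries.X ^ (n + 1) : PowerSeries ℤ))
      ModularCurve.etaProd :=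
    (PowerSeries.WithPiTopology.multipliable_one_sub_X_pow ℤ).hasProd
  have h2 := h1.tendsto_prod_nat
  have h3 := ((PowerSeries.WithPiTopology.continuous_coeff ℤ k).tendsto _).comp h2
  have h4 : Continuous (fun n : ℤ => (n : ℂ)) := continuous_of_discreteTopology
  exact (h4.tendsto _).comp h3

/-- The Euler function on the unit disc. -/
def eulerFun (q : ℂ) : ℂ := ∏' n : ℕ, (1 - q ^ (n + 1))

theorem differentiableOn_eulerFun : DifferentiableOn ℂ eulerFun (Metric.ball 0 1) :=
  ModularForm.differentiableOn_tprod_one_sub_pow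

theorem tendstoLocallyUniformlyOn_eulerPoly :
    TendstoLocallyUniformlyOn (fun M q => (eulerPoly M).eval q) eulerFun atTop
      (Metric.ball 0 1) := by
  have h := ModularForm.multipliableLocallyUniformlyOn_one_sub_pow.hasProdLocallyUniformlyOn
  have h2 := h.tendstoLocallyUniformlyOn_finsetRange
  refine h2.congr ?_ |>.congr_right ?_
  · intro M q _
    simp [eulerPoly_eval]
  · intro q _
    rfl

/-- The complex version of the formal Euler product. -/
def etaProdC : PowerSeries ℂ := PowerSeries.map (Int.castRingHom ℂ) ModularCurve.etaProd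

theorem taylor_eulerFun (k : ℕ) :
    (k.factorial : ℂ)⁻¹ * iteratedDeriv k eulerFun 0 = PowerSeries.coeff k etaProdC := by
  have h0 : (0 : ℂ) ∈ Metric.ball (0 : ℂ) 1 := Metric.mem_ball_self one_pos
  have h1 := tendsto_iteratedDeriv_of_tendstoLocallyUniformlyOn Metric.isOpen_ball k
    (F := fun M q => (eulerPoly M).eval q) (G := eulerFun)
    (fun M => (Polynomial.differentiable _).differentiableOn)
    tendstoLocallyUniformlyOn_eulerPoly h0
  have h2 : Tendsto (fun M => (k.factorial : ℂ)⁻¹ * iteratedDeriv k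
      (fun q => (eulerPoly M).eval q) 0) atTop
      (𝓝 ((k.factorial : ℂ)⁻¹ * iteratedDeriv k eulerFun 0)) := h1.const_mul _
  have h3 : (fun M => (k.factorial : ℂ)⁻¹ * iteratedDeriv k
      (fun q => (eulerPoly M).eval q) 0) = fun M =>
      ((PowerSeries.coeff k (∏ n ∈ Finset.range M,
      (1 - PowerSeries.X ^ (n + 1)) : PowerSeries ℤ) : ℤ) : ℂ) := by
    funext M
    rw [iteratedDeriv_polynomial_eval_zero, eulerPoly_coeff, ← mul_assoc,
      inv_mul_cancel₀ (by exact_mod_cast Nat.factorial_ne_zero k), one_mul]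
  rw [h3] at h2
  have h4 := tendsto_nhds_unique h2 (tendsto_coeff_partial_etaProd k)
  rw [h4, etaProdC, PowerSeries.coeff_map]
  rfl

/-- **Euler product bridge**: the formal Euler product is the Taylor series of the analytic
Euler product on the unit disc. -/
theorem hasSum_etaProdC {q : ℂ} (hq : ‖q‖ < 1) :
    HasSum (fun k : ℕ => PowerSeries.coeff k etaProdC * q ^ k) (eulerFun q) := by
  have hq' : q ∈ Metric.ball (0 : ℂ) 1 := by simpa using hq
  have := hasSum_taylorSeries_on_ball differentiableOn_eulerFun hq'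
  refine this.congr_fun ?_ |>.mono_left le_rfl
  intro k
  rw [← taylor_eulerFun]
  simp only [sub_zero, smul_eq_mul]
  ring

end Fermat.Agent.S28.H565

end
end
-- ===== PACK-END S28/H565/EulerProd.lean

-- ===== PACK-BEGIN S28/H685/QLaurent.lean
section



/-!
# S28 helper (helper685): convergent Laurent `q`-series

`HasQLaurent h f φ` : the function `f : ℍ → ℂ` is, at every point `τ`, the sum of the Laurent
series `φ` evaluated at `q = exp (2 π i τ / h)`.
-/

set_option autoImplicit false

namespace Fermat.Agent.S28.H685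

open UpperHalfPlane Function Complex Filter HahnSeries
open scoped Topology Manifold

noncomputable section

local notation "𝕢" => Periodic.qParam

/-- `f` is the sum of the Laurent series `φ` in the parameter `q = exp (2 π i τ / h)`. -/
def HasQLaurent (h : ℝ) (f : ℍ → ℂ) (φ : LaurentSeries ℂ) : Prop :=
  ∀ τ : ℍ, HasSum (fun n : ℤ => φ.coeff n * 𝕢 h τ ^ n) (f τ)

theorem ofPS_coeff_of_neg (A : PowerSeries ℂ) {k : ℤ} (hk : k < 0) :
    (HahnSeries.ofPowerSeries ℤ ℂ A).coeff k = 0 := by
  rw [HahnSeries.ofPowerSeries_apply]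
  refine HahnSeries.embDomain_of_notMem_range ?_
  rintro ⟨m, rfl⟩
  exact absurd hk (not_lt.mpr (Int.natCast_nonneg m))

theorem coeff_single_mul_ofPS (k : ℤ) (A : PowerSeries ℂ) (m : ℕ) :
    (HahnSeries.single k (1 : ℂ) * HahnSeries.ofPowerSeries ℤ ℂ A).coeff (m + k) =
      PowerSeries.coeff m A := by
  rw [HahnSeries.coeff_single_mul, one_mul, add_sub_cancel_right,
    HahnSeries.ofPowerSeries_apply_coeff]

theorem coeff_single_mul_ofPS_of_lt (k : ℤ) (A : PowerSeries ℂ) {n : ℤ} (hn : n < k) :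
    (HahnSeries.single k (1 : ℂ) * HahnSeries.ofPowerSeries ℤ ℂ A).coeff n = 0 := by
  rw [HahnSeries.coeff_single_mul, one_mul]
  exact ofPS_coeff_of_neg A (by omega)

/-- The basic shift lemma relating Laurent expansions and power series expansions. -/
theorem hasQLaurent_single_mul_iff (h : ℝ) (f : ℍ → ℂ) (k : ℤ) (A : PowerSeries ℂ) :
    HasQLaurent h f (HahnSeries.single k (1 : ℂ) * HahnSeries.ofPowerSeries ℤ ℂ A) ↔
      HasQExp h (fun τ => f τ * 𝕢 h τ ^ (-k)) A := by
  have hg : Function.Injective (fun m : ℕ => (m : ℤ) + k) := by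
    intro a b hab
    simpa using hab
  refine forall_congr' fun τ => ?_
  have hq : 𝕢 h τ ≠ 0 := Periodic.qParam_ne_zero _
  set φ := HahnSeries.single k (1 : ℂ) * HahnSeries.ofPowerSeries ℤ ℂ A with hφ
  have h0 : ∀ n ∉ Set.range (fun m : ℕ => (m : ℤ) + k), φ.coeff n * 𝕢 h τ ^ n = 0 := by
    intro n hn
    have hlt : n < k := by
      by_contra hge
      rw [not_lt] at hge
      exact hn ⟨(n - k).toNat, by simp; omega⟩
    rw [hφ, coeff_single_mul_ofPS_of_lt k A hlt, zero_mul]
  rw [← hg.hasSum_iff h0]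
  have hfun : ((fun n : ℤ => φ.coeff n * 𝕢 h τ ^ n) ∘ fun m : ℕ => (m : ℤ) + k) =
      fun m : ℕ => (PowerSeries.coeff m A * 𝕢 h τ ^ m) * 𝕢 h τ ^ k := by
    funext m
    simp only [Function.comp_apply, hφ, coeff_single_mul_ofPS]
    rw [zpow_add₀ hq, zpow_natCast]
    ring
  rw [hfun]
  have hk : 𝕢 h τ ^ k ≠ 0 := zpow_ne_zero _ hq
  have hval : f τ = (f τ * 𝕢 h τ ^ (-k)) * 𝕢 h τ ^ k := by
    rw [mul_assoc, ← zpow_add₀ hq]
    simp
  conv_lhs => rw [hval]
  exact hasSum_mul_right_iff hk

theorem algebraMap_eq_C (c : ℂ) :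
    algebraMap ℂ (LaurentSeries ℂ) c = HahnSeries.C c := by
  have h1 : algebraMap ℂ (PowerSeries ℂ) c = PowerSeries.C c := by
    simp
  rw [HahnSeries.algebraMap_apply', h1, HahnSeries.ofPowerSeries_C]

/-- Every Laurent series is a monomial times a power series. -/
theorem laurent_decomp (φ : LaurentSeries ℂ) :
    φ = HahnSeries.single φ.order (1 : ℂ) * HahnSeries.ofPowerSeries ℤ ℂ φ.powerSeriesPart :=
  (LaurentSeries.single_order_mul_powerSeriesPart φ).symm

namespace HasQLaurent

variable {h : ℝ} {f g : ℍ → ℂ} {φ ψ : LaurentSeries ℂ}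

theorem congr_fun (hf : HasQLaurent h f φ) (hfg : ∀ τ, f τ = g τ) : HasQLaurent h g φ :=
  fun τ => hfg τ ▸ hf τ

theorem congr_series (hf : HasQLaurent h f φ) (hφ : φ = ψ) : HasQLaurent h f ψ := hφ ▸ hf

theorem zero : HasQLaurent h (fun _ => 0) 0 := fun τ => by
  simp [hasSum_zero]

theorem add (hf : HasQLaurent h f φ) (hg : HasQLaurent h g ψ) :
    HasQLaurent h (fun τ => f τ + g τ) (φ + ψ) := fun τ => by
  simpa [add_mul] using (hf τ).add (hg τ)

theorem neg (hf : HasQLaurent h f φ) : HasQLaurent h (fun τ => -f τ) (-φ) := fun τ => by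
  simpa using (hf τ).neg

theorem sub (hf : HasQLaurent h f φ) (hg : HasQLaurent h g ψ) :
    HasQLaurent h (fun τ => f τ - g τ) (φ - ψ) := fun τ => by
  simpa [sub_mul] using (hf τ).sub (hg τ)

theorem const_mul (c : ℂ) (hf : HasQLaurent h f φ) :
    HasQLaurent h (fun τ => c * f τ) (HahnSeries.C c * φ) := fun τ => by
  simpa [mul_assoc] using (hf τ).mul_left c

/-- Power series expansions are Laurent expansions. -/
theorem of_hasQExp {A : PowerSeries ℂ} (hf : HasQExp h f A) :
    HasQLaurent h f (HahnSeries.ofPowerSeries ℤ ℂ A) := by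
  have := (hasQLaurent_single_mul_iff h f 0 A).mpr (by simpa using hf)
  simpa using this

theorem hasQExp_of_ofPowerSeries {A : PowerSeries ℂ}
    (hf : HasQLaurent h f (HahnSeries.ofPowerSeries ℤ ℂ A)) : HasQExp h f A := by
  have h1 : HasQLaurent h f (HahnSeries.single 0 (1 : ℂ) * HahnSeries.ofPowerSeries ℤ ℂ A) := by
    simpa using hf
  simpa using (hasQLaurent_single_mul_iff h f 0 A).mp h1

theorem const (c : ℂ) : HasQLaurent h (fun _ => c) (HahnSeries.C c) := by
  have := of_hasQExp (HasQExp.const (h := h) c)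
  simpa using this

theorem one : HasQLaurent h (fun _ => 1) 1 := by
  have := of_hasQExp (HasQExp.one (h := h))
  simpa using this

/-- The monomial `q ^ k`. -/
theorem single (k : ℤ) : HasQLaurent h (fun τ => 𝕢 h τ ^ k) (HahnSeries.single k (1 : ℂ)) := by
  have h1 : HasQExp h (fun τ => 𝕢 h τ ^ k * 𝕢 h τ ^ (-k)) 1 := by
    refine HasQExp.one.congr_fun fun τ => ?_
    rw [← zpow_add₀ (Periodic.qParam_ne_zero _)]
    simp
  have := (hasQLaurent_single_mul_iff h _ k 1).mpr h1
  simpa using this

/-- The power series part of a Laurent expansion. -/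
theorem hasQExp_powerSeriesPart (hf : HasQLaurent h f φ) :
    HasQExp h (fun τ => f τ * 𝕢 h τ ^ (-φ.order)) φ.powerSeriesPart :=
  (hasQLaurent_single_mul_iff h f φ.order φ.powerSeriesPart).mp
    (hf.congr_series (laurent_decomp φ))

theorem mul (hf : HasQLaurent h f φ) (hg : HasQLaurent h g ψ) :
    HasQLaurent h (fun τ => f τ * g τ) (φ * ψ) := by
  have h1 := hf.hasQExp_powerSeriesPart
  have h2 := hg.hasQExp_powerSeriesPart
  have h3 := h1.mul h2
  have h4 : HasQExp h (fun τ => (f τ * g τ) * 𝕢 h τ ^ (-(φ.order + ψ.order)))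
      (φ.powerSeriesPart * ψ.powerSeriesPart) := by
    refine h3.congr_fun fun τ => ?_
    rw [neg_add, zpow_add₀ (Periodic.qParam_ne_zero _)]
    ring
  have h5 := (hasQLaurent_single_mul_iff h _ (φ.order + ψ.order) _).mpr h4
  refine h5.congr_series ?_
  conv_rhs => rw [laurent_decomp φ, laurent_decomp ψ]
  have hs : HahnSeries.single (φ.order + ψ.order) (1 : ℂ) =
      HahnSeries.single φ.order (1 : ℂ) * HahnSeries.single ψ.order (1 : ℂ) := by
    rw [HahnSeries.single_mul_single, one_mul]
  rw [map_mul, hs]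
  exact mul_mul_mul_comm _ _ _ _

theorem pow (hf : HasQLaurent h f φ) (n : ℕ) : HasQLaurent h (fun τ => f τ ^ n) (φ ^ n) := by
  induction n with
  | zero => simpa using one (h := h)
  | succ n ih => simpa [pow_succ] using ih.mul hf

theorem finset_sum {ι : Type*} (s : Finset ι) (F : ι → ℍ → ℂ) (P : ι → LaurentSeries ℂ)
    (hF : ∀ i ∈ s, HasQLaurent h (F i) (P i)) :
    HasQLaurent h (fun τ => ∑ i ∈ s, F i τ) (∑ i ∈ s, P i) := by
  classical
  induction s using Finset.induction_on with
  | empty => simpa using zero (h := h)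
  | insert a s ha ih =>
    simp only [Finset.sum_insert ha]
    exact (hF a (Finset.mem_insert_self a s)).add
      (ih fun i hi => hF i (Finset.mem_insert_of_mem hi))

theorem finset_prod {ι : Type*} (s : Finset ι) (F : ι → ℍ → ℂ) (P : ι → LaurentSeries ℂ)
    (hF : ∀ i ∈ s, HasQLaurent h (F i) (P i)) :
    HasQLaurent h (fun τ => ∏ i ∈ s, F i τ) (∏ i ∈ s, P i) := by
  classical
  induction s using Finset.induction_on with
  | empty => simpa using one (h := h)
  | insert a s ha ih =>
    simp only [Finset.prod_insert ha]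
    exact (hF a (Finset.mem_insert_self a s)).mul
      (ih fun i hi => hF i (Finset.mem_insert_of_mem hi))

/-- Uniqueness of the Laurent coefficients. -/
theorem eq_zero (hh : 0 < h) (hf : HasQLaurent h (fun _ => 0) φ) : φ = 0 := by
  have h1 := hf.hasQExp_powerSeriesPart
  have h2 : φ.powerSeriesPart = 0 := by
    refine HasQExp.eq_zero hh (h1.congr_fun fun τ => ?_)
    simp
  exact (LaurentSeries.powerSeriesPart_eq_zero φ).mp h2

theorem unique (hh : 0 < h) (hf : HasQLaurent h f φ) (hg : HasQLaurent h f ψ) : φ = ψ := by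
  have h1 : HasQLaurent h (fun _ => 0) (φ - ψ) :=
    (hf.sub hg).congr_fun fun τ => sub_self _
  exact sub_eq_zero.mp (h1.eq_zero hh)

/-- If the function vanishes identically then so does the series; pointwise version. -/
theorem eq_of_forall_eq (hh : 0 < h) (hf : HasQLaurent h f φ) (hg : HasQLaurent h g ψ)
    (hfg : ∀ τ, f τ = g τ) : φ = ψ :=
  (hf.congr_fun hfg).unique hh hg

theorem mdifferentiable (hh : 0 < h) (hf : HasQLaurent h f φ) : MDiff f := by
  have h1 := (hf.hasQExp_powerSeriesPart).mdifferentiable hh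
  have h2 : MDiff (fun τ : ℍ => 𝕢 h τ ^ φ.order) := by
    rw [UpperHalfPlane.mdifferentiable_iff]
    have hd : DifferentiableOn ℂ (fun z : ℂ => 𝕢 h z ^ φ.order) {z | 0 < z.im} := by
      intro z _
      exact ((Periodic.differentiable_qParam (h := h)).differentiableAt.zpow
        (Or.inl (Periodic.qParam_ne_zero _))).differentiableWithinAt
    refine hd.congr fun z hz => ?_
    simp only [Function.comp_apply]
    rw [ofComplex_apply_of_im_pos hz]
  have h3 : f = fun τ => (f τ * 𝕢 h τ ^ (-φ.order)) * 𝕢 h τ ^ φ.order := by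
    funext τ
    rw [mul_assoc, ← zpow_add₀ (Periodic.qParam_ne_zero _)]
    simp
  rw [h3]
  exact h1.mul h2

theorem vadd_period (hh : 0 < h) (hf : HasQLaurent h f φ) (τ : ℍ) (τ' : ℍ)
    (hτ : (τ' : ℂ) = τ + h) : f τ' = f τ := by
  have h1 := (hf.hasQExp_powerSeriesPart).vadd_period hh τ τ' hτ
  have h2 := (HasQExp.X (h := h)).vadd_period hh τ τ' hτ
  beta_reduce at h1 h2
  rw [h2] at h1
  exact mul_right_cancel₀ (zpow_ne_zero _ (Periodic.qParam_ne_zero _)) h1

/-- Closure under inverses. -/
theorem inv (hh : 0 < h) (hf : HasQLaurent h f φ) (hf0 : ∀ τ, f τ ≠ 0) (hφ : φ ≠ 0) :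
    HasQLaurent h (fun τ => (f τ)⁻¹) φ⁻¹ := by
  have h1 := hf.hasQExp_powerSeriesPart
  have hA0 : PowerSeries.coeff 0 φ.powerSeriesPart ≠ 0 := by
    rw [LaurentSeries.powerSeriesPart_coeff]
    simpa using (HahnSeries.coeff_order_eq_zero (x := φ)).not.mpr hφ
  have h2 := h1.inv hh (fun τ => mul_ne_zero (hf0 τ)
    (zpow_ne_zero _ (Periodic.qParam_ne_zero _))) hA0
  have h3 : HasQExp h (fun τ => (f τ)⁻¹ * 𝕢 h τ ^ (-(-φ.order))) (φ.powerSeriesPart)⁻¹ := by
    refine h2.congr_fun fun τ => ?_
    rw [mul_inv, ← zpow_neg]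
  have h4 := (hasQLaurent_single_mul_iff h _ (-φ.order) _).mpr h3
  refine h4.congr_series ?_
  have hA0' : PowerSeries.constantCoeff φ.powerSeriesPart ≠ 0 := by
    rwa [← PowerSeries.coeff_zero_eq_constantCoeff]
  symm
  apply inv_eq_of_mul_eq_one_left
  have hs : HahnSeries.single (-φ.order) (1 : ℂ) * HahnSeries.single φ.order (1 : ℂ) = 1 := by
    rw [HahnSeries.single_mul_single, one_mul, neg_add_cancel]
    rfl
  calc HahnSeries.single (-φ.order) (1 : ℂ) * HahnSeries.ofPowerSeries ℤ ℂ (φ.powerSeriesPart)⁻¹ * φ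
      = HahnSeries.single (-φ.order) (1 : ℂ) * HahnSeries.ofPowerSeries ℤ ℂ (φ.powerSeriesPart)⁻¹ *
        (HahnSeries.single φ.order (1 : ℂ) * HahnSeries.ofPowerSeries ℤ ℂ φ.powerSeriesPart) := by
        rw [← laurent_decomp φ]
    _ = (HahnSeries.single (-φ.order) (1 : ℂ) * HahnSeries.single φ.order (1 : ℂ)) *
        HahnSeries.ofPowerSeries ℤ ℂ ((φ.powerSeriesPart)⁻¹ * φ.powerSeriesPart) := by
        rw [map_mul]
        exact mul_mul_mul_comm _ _ _ _
    _ = 1 := by
        rw [hs, PowerSeries.inv_mul_cancel _ hA0', map_one, one_mul]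

theorem div (hh : 0 < h) (hf : HasQLaurent h f φ) (hg : HasQLaurent h g ψ)
    (hg0 : ∀ τ, g τ ≠ 0) (hψ : ψ ≠ 0) :
    HasQLaurent h (fun τ => f τ / g τ) (φ / ψ) := by
  simpa [div_eq_mul_inv] using hf.mul (hg.inv hh hg0 hψ)

/-- Evaluation of polynomials. -/
theorem aeval (hf : HasQLaurent h f φ) (P : Polynomial ℂ) :
    HasQLaurent h (fun τ => P.eval (f τ)) (Polynomial.aeval φ P) := by
  induction P using Polynomial.induction_on' with
  | add p q hp hq =>
    simpa using hp.add hq
  | monomial n a =>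
    have := (hf.pow n).const_mul a
    refine (this.congr_fun fun τ => ?_).congr_series ?_
    · simp
    · rw [Polynomial.aeval_monomial, algebraMap_eq_C]

/-- Evaluation of multivariate polynomials. -/
theorem mvAeval {σ : Type*} (F : σ → ℍ → ℂ) (Φ : σ → LaurentSeries ℂ)
    (hF : ∀ i, HasQLaurent h (F i) (Φ i)) (P : MvPolynomial σ ℂ) :
    HasQLaurent h (fun τ => MvPolynomial.eval (fun i => F i τ) P) (MvPolynomial.aeval Φ P) := by
  induction P using MvPolynomial.induction_on with
  | C a =>
    have := (one (h := h)).const_mul a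
    refine (this.congr_fun fun τ => ?_).congr_series ?_
    · simp
    · rw [MvPolynomial.aeval_C, algebraMap_eq_C, mul_one]
  | add p q hp hq =>
    simpa using hp.add hq
  | mul_X p i hp =>
    simpa using hp.mul (hF i)

end HasQLaurent

end

end Fermat.Agent.S28.H685

end
-- ===== PACK-END S28/H685/QLaurent.lean

-- ===== PACK-BEGIN S24/Alg/Basic.lean
section



/-!
# S24 / ALG — small lemmas on `Place.ord` used by the global assembly (helper984)
-/

set_option autoImplicit false

noncomputable section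

open AlgebraicCurve KaehlerDifferential

namespace Fermat.Agent.S24

variable {K F : Type*} [Field K] [Field F] [Algebra K F]

theorem ord_algebraMap (v : Place K F) (c : K) : v.ord (algebraMap K F c) = 0 := by
  rcases eq_or_ne c 0 with rfl | hc
  · simp
  · have h1 : algebraMap K F c ∈ v.toValuationSubring := v.algebraMap_mem' c
    have h2 : algebraMap K F c⁻¹ ∈ v.toValuationSubring := v.algebraMap_mem' c⁻¹
    have hu : IsUnit (⟨algebraMap K F c, h1⟩ : v.toValuationSubring) := by
      refine IsUnit.of_mul_eq_one (⟨algebraMap K F c⁻¹, h2⟩ : v.toValuationSubring) ?_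
      apply Subtype.ext
      show algebraMap K F c * algebraMap K F c⁻¹ = 1
      rw [← map_mul, mul_inv_cancel₀ hc, map_one]
    have := v.ord_coe_unit hu.unit
    simpa using this

theorem ord_neg (v : Place K F) (x : F) : v.ord (-x) = v.ord x := by
  simp [Place.ord]

theorem le_ord_add (v : Place K F) {x y : F} {k : ℤ} (hx : x = 0 ∨ k ≤ v.ord x)
    (hy : y = 0 ∨ k ≤ v.ord y) : x + y = 0 ∨ k ≤ v.ord (x + y) := by
  have hx' : v.adicValuation x ≤ WithZero.exp (-k) :=
    v.adicValuation_le_exp_iff.mpr (by simpa using hx)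
  have hy' : v.adicValuation y ≤ WithZero.exp (-k) :=
    v.adicValuation_le_exp_iff.mpr (by simpa using hy)
  have := (Valuation.map_add v.adicValuation x y).trans (max_le hx' hy')
  simpa using v.adicValuation_le_exp_iff.mp this

theorem point_unique (v : Place K F) (j : F) {a b : K}
    (ha : 0 < v.ord (j - algebraMap K F a)) (hb : 0 < v.ord (j - algebraMap K F b)) :
    a = b := by
  by_contra hab
  have hsub : (j - algebraMap K F a) + -(j - algebraMap K F b) = algebraMap K F (b - a) := by
    rw [map_sub]; ring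
  have h := le_ord_add v (k := 1) (x := j - algebraMap K F a) (y := -(j - algebraMap K F b))
    (Or.inr ha) (Or.inr (by rw [ord_neg]; exact hb))
  rw [hsub, ord_algebraMap] at h
  rcases h with h | h
  · have : b - a = 0 := by
      have hinj := (algebraMap K F).injective
      exact hinj (by rw [h, map_zero])
    exact hab (sub_eq_zero.mp this).symm
  · omega

theorem not_pos_ord_sub_of_pos_ord_inv (v : Place K F) (j : F) (a : K)
    (hinf : 0 < v.ord j⁻¹) : ¬ 0 < v.ord (j - algebraMap K F a) := by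
  intro ha
  have hj : v.ord j < 0 := by
    have := v.ord_inv j
    omega
  have h := le_ord_add v (k := 0) (x := j - algebraMap K F a) (y := algebraMap K F a)
    (Or.inr ha.le) (Or.inr (by rw [ord_algebraMap]))
  rw [sub_add_cancel] at h
  rcases h with h | h
  · rw [h] at hj; simp at hj
  · omega

section Adjoin

variable (K) in
theorem adjoin_sub_algebraMap (j : F) (a : K) :
    IntermediateField.adjoin K {j - algebraMap K F a} = IntermediateField.adjoin K {j} := by
  apply le_antisymm
  · rw [IntermediateField.adjoin_le_iff, Set.singleton_subset_iff]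
    exact sub_mem (IntermediateField.mem_adjoin_simple_self K j)
      (IntermediateField.algebraMap_mem _ a)
  · rw [IntermediateField.adjoin_le_iff, Set.singleton_subset_iff]
    have h : (j - algebraMap K F a) + algebraMap K F a
        ∈ IntermediateField.adjoin K {j - algebraMap K F a} :=
      add_mem (IntermediateField.mem_adjoin_simple_self K _)
        (IntermediateField.algebraMap_mem _ a)
    simpa using h

variable (K) in
theorem adjoin_inv (j : F) :
    IntermediateField.adjoin K {j⁻¹} = IntermediateField.adjoin K {j} := by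
  apply le_antisymm
  · rw [IntermediateField.adjoin_le_iff, Set.singleton_subset_iff]
    exact inv_mem (IntermediateField.mem_adjoin_simple_self K j)
  · rw [IntermediateField.adjoin_le_iff, Set.singleton_subset_iff]
    have h : (j⁻¹)⁻¹ ∈ IntermediateField.adjoin K {j⁻¹} :=
      inv_mem (IntermediateField.mem_adjoin_simple_self K _)
    simpa using h

theorem finiteDimensional_and_finrank_of_eq {E₁ E₂ : IntermediateField K F} (h : E₁ = E₂)
    [FiniteDimensional ↥E₂ F] :
    FiniteDimensional ↥E₁ F ∧ Module.finrank ↥E₁ F = Module.finrank ↥E₂ F := by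
  subst h
  exact ⟨inferInstance, rfl⟩

end Adjoin

end Fermat.Agent.S24

end
end
-- ===== PACK-END S24/Alg/Basic.lean

-- ===== PACK-BEGIN S15/H386/LeadTerm.lean
section
/-
Row S15, node GEO (helper386): leading terms of Laurent series.

`IsLead x n a` : `x = a q^n + (higher order terms)` (`a = 0` is allowed).  This predicate is
closed under sums, products and weakening of the exponent, so that estimates of the orders of
polynomial expressions need no case distinction on vanishing.  Mathlib-only.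
-/


set_option autoImplicit false

noncomputable section

open HahnSeries

namespace Fermat.Agent.S15.H386

variable {k : Type*} [Field k]

/-- `x = a q^n + (higher order terms)`; `a = 0` is allowed. -/
def IsLead (x : LaurentSeries k) (n : ℤ) (a : k) : Prop :=
  x.coeff n = a ∧ ∀ m < n, x.coeff m = 0

theorem IsLead.coeff_eq {x : LaurentSeries k} {n : ℤ} {a : k} (h : IsLead x n a) :
    x.coeff n = a := h.1

theorem IsLead.coeff_eq_zero {x : LaurentSeries k} {n : ℤ} {a : k} (h : IsLead x n a) {m : ℤ}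
    (hm : m < n) : x.coeff m = 0 := h.2 m hm

theorem IsLead.le_orderTop {x : LaurentSeries k} {n : ℤ} {a : k} (h : IsLead x n a) :
    (n : WithTop ℤ) ≤ x.orderTop :=
  le_orderTop_iff_forall.mpr fun j hj => h.2 j (by exact_mod_cast hj)

theorem isLead_iff_lt_orderTop (x : LaurentSeries k) (n : ℤ) (a : k) :
    IsLead x n a ↔ (n : WithTop ℤ) < (x - single n a).orderTop := by
  constructor
  · intro h
    have h1 : ((n + 1 : ℤ) : WithTop ℤ) ≤ (x - single n a).orderTop := by
      refine le_orderTop_iff_forall.mpr fun j hj => ?_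
      have hj' : j < n + 1 := by exact_mod_cast hj
      rw [HahnSeries.coeff_sub, HahnSeries.coeff_single]
      rcases eq_or_lt_of_le (Int.lt_add_one_iff.mp hj') with rfl | hlt
      · rw [if_pos rfl, h.1, sub_self]
      · rw [if_neg hlt.ne, h.2 j hlt, sub_zero]
    refine lt_of_lt_of_le ?_ h1
    exact_mod_cast Int.lt_add_one_iff.mpr le_rfl
  · intro h
    refine ⟨?_, fun m hm => ?_⟩
    · have := coeff_eq_zero_of_lt_orderTop h
      rw [HahnSeries.coeff_sub, HahnSeries.coeff_single, if_pos rfl] at this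
      exact sub_eq_zero.mp this
    · have := coeff_eq_zero_of_lt_orderTop (lt_trans (by exact_mod_cast hm) h)
      rw [HahnSeries.coeff_sub, HahnSeries.coeff_single, if_neg hm.ne, sub_zero] at this
      exact this

theorem isLead_zero (n : ℤ) : IsLead (0 : LaurentSeries k) n 0 :=
  ⟨rfl, fun _ _ => rfl⟩

theorem isLead_single (n : ℤ) (a : k) : IsLead (single n a : LaurentSeries k) n a :=
  ⟨by rw [HahnSeries.coeff_single, if_pos rfl], fun m hm => by
    rw [HahnSeries.coeff_single, if_neg hm.ne]⟩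

theorem isLead_one : IsLead (1 : LaurentSeries k) 0 1 := by
  rw [← HahnSeries.single_zero_one]
  exact isLead_single 0 1

theorem isLead_intCast (z : ℤ) : IsLead ((z : ℤ) : LaurentSeries k) 0 (z : k) := by
  rw [← HahnSeries.single_zero_intCast]
  exact isLead_single 0 _

theorem IsLead.add {x y : LaurentSeries k} {n : ℤ} {a b : k} (hx : IsLead x n a)
    (hy : IsLead y n b) : IsLead (x + y) n (a + b) :=
  ⟨by rw [HahnSeries.coeff_add, hx.1, hy.1], fun m hm => by
    rw [HahnSeries.coeff_add, hx.2 m hm, hy.2 m hm, add_zero]⟩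

theorem IsLead.neg {x : LaurentSeries k} {n : ℤ} {a : k} (hx : IsLead x n a) :
    IsLead (-x) n (-a) :=
  ⟨by rw [HahnSeries.coeff_neg, hx.1], fun m hm => by
    rw [HahnSeries.coeff_neg, hx.2 m hm, neg_zero]⟩

theorem IsLead.sub {x y : LaurentSeries k} {n : ℤ} {a b : k} (hx : IsLead x n a)
    (hy : IsLead y n b) : IsLead (x - y) n (a - b) := by
  rw [sub_eq_add_neg, sub_eq_add_neg]
  exact hx.add hy.neg

/-- Weakening of the exponent. -/
theorem IsLead.of_lt {x : LaurentSeries k} {n : ℤ} {a : k} (hx : IsLead x n a) {n' : ℤ}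
    (h : n' < n) : IsLead x n' 0 :=
  ⟨hx.2 n' h, fun m hm => hx.2 m (lt_trans hm h)⟩

theorem IsLead.of_le {x : LaurentSeries k} {n : ℤ} {a : k} (hx : IsLead x n a) {n' : ℤ}
    (h : n' ≤ n) : ∃ a', IsLead x n' a' := by
  rcases eq_or_lt_of_le h with rfl | hlt
  · exact ⟨a, hx⟩
  · exact ⟨0, hx.of_lt hlt⟩

theorem IsLead.mul {x y : LaurentSeries k} {n m : ℤ} {a b : k} (hx : IsLead x n a)
    (hy : IsLead y m b) : IsLead (x * y) (n + m) (a * b) := by
  rw [isLead_iff_lt_orderTop]
  have hx' := (isLead_iff_lt_orderTop x n a).mp hx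
  have hy' := (isLead_iff_lt_orderTop y m b).mp hy
  have hsplit : x * y - single (n + m) (a * b) =
      (x - single n a) * y + single n a * (y - single m b) := by
    rw [← HahnSeries.single_mul_single]
    ring
  rw [hsplit]
  refine lt_of_lt_of_le (lt_min ?_ ?_) min_orderTop_le_orderTop_add
  · refine lt_of_lt_of_le ?_ orderTop_add_le_mul
    rw [WithTop.coe_add]
    exact WithTop.add_lt_add_of_lt_of_le (WithTop.coe_ne_top) hx' hy.le_orderTop
  · refine lt_of_lt_of_le ?_ orderTop_add_le_mul
    rw [WithTop.coe_add]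
    exact WithTop.add_lt_add_of_le_of_lt (WithTop.coe_ne_top) orderTop_single_le hy'

theorem IsLead.pow {x : LaurentSeries k} {n : ℤ} {a : k} (hx : IsLead x n a) (i : ℕ) :
    IsLead (x ^ i) (i * n) (a ^ i) := by
  induction i with
  | zero =>
    rw [pow_zero, pow_zero, Nat.cast_zero, zero_mul]
    exact isLead_one
  | succ i ih =>
    rw [pow_succ, pow_succ, Nat.cast_succ, add_mul, one_mul]
    exact ih.mul hx

theorem isLead_sum {ι : Type*} (s : Finset ι) (f : ι → LaurentSeries k) (n : ℤ) (a : ι → k)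
    (h : ∀ i ∈ s, IsLead (f i) n (a i)) : IsLead (∑ i ∈ s, f i) n (∑ i ∈ s, a i) := by
  classical
  induction s using Finset.induction_on with
  | empty => simpa using isLead_zero (k := k) n
  | insert j s hj ih =>
    rw [Finset.sum_insert hj, Finset.sum_insert hj]
    exact (h j (Finset.mem_insert_self j s)).add
      (ih fun i hi => h i (Finset.mem_insert_of_mem hi))

theorem isLead_multiset_prod {ι : Type*} (s : Multiset ι) (f : ι → LaurentSeries k) (n : ι → ℤ)
    (a : ι → k) (h : ∀ i ∈ s, IsLead (f i) (n i) (a i)) :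
    IsLead (s.map f).prod (s.map n).sum (s.map a).prod := by
  induction s using Multiset.induction_on with
  | empty => simpa using isLead_one (k := k)
  | cons j s ih =>
    rw [Multiset.map_cons, Multiset.prod_cons, Multiset.map_cons, Multiset.sum_cons,
      Multiset.map_cons, Multiset.prod_cons]
    exact (h j (Multiset.mem_cons_self j s)).mul
      (ih fun i hi => h i (Multiset.mem_cons_of_mem hi))

/-- Uniqueness of the leading term. -/
theorem IsLead.unique {x : LaurentSeries k} {n n' : ℤ} {a a' : k} (h : IsLead x n a)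
    (h' : IsLead x n' a') (ha : a ≠ 0) (ha' : a' ≠ 0) : n = n' ∧ a = a' := by
  have hn : n = n' := by
    rcases lt_trichotomy n n' with hlt | heq | hgt
    · exact absurd (h.1.symm.trans (h'.2 n hlt)) ha
    · exact heq
    · exact absurd (h'.1.symm.trans (h.2 n' hgt)) ha'
  subst hn
  exact ⟨rfl, h.1.symm.trans h'.1⟩

/-- A series with a nonzero leading term at `n` has no leading term at a bigger exponent. -/
theorem IsLead.le_of_ne_zero {x : LaurentSeries k} {n n' : ℤ} {a a' : k} (h : IsLead x n a)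
    (ha : a ≠ 0) (h' : IsLead x n' a') : n' ≤ n := by
  by_contra hlt
  exact ha (h.1.symm.trans (h'.2 n (not_le.mp hlt)))

end Fermat.Agent.S15.H386

end
end
-- ===== PACK-END S15/H386/LeadTerm.lean

-- ===== PACK-BEGIN S36/Mod3/H860/SheetAbs.lean
section


/-!
# S36 / MOD3 — leaf SHEET, abstract part (helper860; Mathlib only)

`V` a valuation ring of a field `F`.

* `mem_nonunits_comap_iff`, `inv_mem_of_sub_mem_nonunits`, `aeval_sub_aeval_mem_nonunits`,
  `not_C_dvd_expand` : small tools;
* `eval₂_aeval_mem`, `eval₂_kron` : evaluation of two-variable integral polynomials;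
* `exists_pow_congr` : if `b ≡ a ^ q` and `(c ^ q - b) (c - b ^ q) ≡ 0` modulo `𝔪_V` (residue
  characteristic `q`), then `a b c ≡ a ^ k` for some `k > 0`;
* `gauss_mid_abs` : the Gauss property of `x = α(j) α(j_q) c` at a valuation ring `V` lying over
  `V'` along `α`, from the Gauss property of `j` at `V'`.
-/

set_option autoImplicit false
set_option linter.style.haveILetI false
set_option linter.unusedSectionVars false
set_option linter.unusedVariables false

noncomputable section

namespace Fermat.Agent.S36.Mod3.H860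

open Polynomial

section Tools

variable {R F F' : Type*} [CommRing R] [Field F] [Algebra R F] [Field F']

/-- Nonunits of the pull-back of a valuation ring along a homomorphism of fields. -/
theorem mem_nonunits_comap_iff (V : ValuationSubring F) (α : F' →+* F) (f : F') :
    f ∈ (V.comap α).nonunits ↔ α f ∈ V.nonunits := by
  rw [ValuationSubring.mem_nonunits_iff_or, ValuationSubring.mem_nonunits_iff_or,
    ValuationSubring.mem_comap, map_inv₀, map_eq_zero]

/-- a unit plus a non-unit is a unit (inverse form) -/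
theorem inv_mem_of_sub_mem_nonunits (V : ValuationSubring F) {a b : F} (hb0 : b ≠ 0)
    (hb : b ∈ V) (hbi : b⁻¹ ∈ V) (hab : a - b ∈ V.nonunits) : a⁻¹ ∈ V := by
  have h1 : V.valuation b = 1 := by
    apply le_antisymm ((V.valuation_le_one_iff _).mpr hb)
    have h2 : V.valuation b⁻¹ ≤ 1 := (V.valuation_le_one_iff _).mpr hbi
    rw [map_inv₀] at h2
    have hv0 : V.valuation b ≠ 0 := (Valuation.ne_zero_iff _).mpr hb0
    exact (inv_le_one₀ (zero_lt_iff.mpr hv0)).mp h2
  have h3 : V.valuation (a - b) < 1 := (V.mem_nonunits_iff).mp hab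
  have h4 : V.valuation a = 1 := by
    have e : a = b + (a - b) := by ring
    rw [e, ← h1]
    exact Valuation.map_add_eq_of_lt_left _ (by rw [h1]; exact h3)
  rw [← V.valuation_le_one_iff, map_inv₀, h4, inv_one]

/-- polynomial congruence modulo the maximal ideal of a valuation ring -/
theorem aeval_sub_aeval_mem_nonunits (V : ValuationSubring F)
    (hbase : ∀ r : R, algebraMap R F r ∈ V) {x y : F} (hx : x ∈ V) (hy : y ∈ V)
    (hxy : x - y ∈ V.nonunits) (p : Polynomial R) :
    aeval x p - aeval y p ∈ V.nonunits := by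
  set ρ : R →+* V := (algebraMap R F).codRestrict V.toSubring hbase with hρ
  have hsub : (V.subtype : V →+* F).comp ρ = algebraMap R F := by
    ext r; rfl
  have hcoe : ∀ z : V, ((p.eval₂ ρ z : V) : F) = aeval (z : F) p := by
    intro z
    have h := Polynomial.hom_eval₂ p ρ (V.subtype : V →+* F) z
    rw [hsub] at h
    rw [Polynomial.aeval_def]
    exact h
  have hdvd : (⟨x, hx⟩ - ⟨y, hy⟩ : V) ∣ (p.map ρ).eval ⟨x, hx⟩ - (p.map ρ).eval ⟨y, hy⟩ :=
    Polynomial.sub_dvd_eval_sub _ _ _
  obtain ⟨c, hc⟩ := hdvd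
  rw [Polynomial.eval_map, Polynomial.eval_map] at hc
  have hc' : aeval x p - aeval y p = (x - y) * (c : F) := by
    have h := congrArg (V.subtype : V →+* F) hc
    rw [map_sub, map_mul, map_sub] at h
    rw [← hcoe ⟨x, hx⟩, ← hcoe ⟨y, hy⟩]
    exact h
  rw [hc', V.mem_nonunits_iff, map_mul]
  calc V.valuation (x - y) * V.valuation (c : F)
      ≤ V.valuation (x - y) * 1 := mul_le_mul' le_rfl ((V.valuation_le_one_iff _).mpr c.2)
    _ = V.valuation (x - y) := mul_one _
    _ < 1 := (V.mem_nonunits_iff).mp hxy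

/-- `w ∤ p ⟹ w ∤ p(X^k)` -/
theorem not_C_dvd_expand {w : R} {k : ℕ} (hk : 0 < k) {p : Polynomial R}
    (hp : ¬ Polynomial.C w ∣ p) : ¬ Polynomial.C w ∣ Polynomial.expand R k p := by
  intro h
  apply hp
  rw [Polynomial.C_dvd_iff_dvd_coeff] at h ⊢
  intro i
  have := h (i * k)
  rwa [Polynomial.coeff_expand_mul hk] at this

theorem not_C_dvd_of_exists_coeff {w : R} {p : Polynomial R}
    (hp : ∃ i, ¬ w ∣ p.coeff i) : ¬ Polynomial.C w ∣ p := by
  obtain ⟨i, hi⟩ := hp
  intro h
  exact hi ((Polynomial.C_dvd_iff_dvd_coeff _ _).mp h i)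

end Tools

section Kron

variable {F : Type*} [Field F]

/-- evaluation of a two-variable integral polynomial at elements of a valuation ring -/
theorem eval₂_aeval_mem (V : ValuationSubring F) {b c : F} (hb : b ∈ V) (hc : c ∈ V)
    (Θ : Polynomial (Polynomial ℤ)) :
    Θ.eval₂ (Polynomial.aeval (R := ℤ) b).toRingHom c ∈ V := by
  have h := Polynomial.hom_eval₂ Θ (Polynomial.aeval (R := ℤ) (⟨b, hb⟩ : V)).toRingHom
    (V.subtype : V →+* F) ⟨c, hc⟩
  have hcomp : (V.subtype : V →+* F).comp (Polynomial.aeval (R := ℤ) (⟨b, hb⟩ : V)).toRingHom =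
      (Polynomial.aeval (R := ℤ) b).toRingHom := by
    apply Polynomial.ringHom_ext
    · intro n
      simp
    · simp
  rw [hcomp] at h
  have h' : Θ.eval₂ (Polynomial.aeval (R := ℤ) b).toRingHom c =
      ((Θ.eval₂ (Polynomial.aeval (R := ℤ) (⟨b, hb⟩ : V)).toRingHom ⟨c, hc⟩ : V) : F) := h.symm
  rw [h']
  exact Subtype.property _

/-- Kronecker's shape, evaluated -/
theorem eval₂_kron {S : Type*} [CommRing S] (q : ℕ) (Θ : Polynomial (Polynomial ℤ)) (b c : S) :
    (((Polynomial.X : Polynomial (Polynomial ℤ)) ^ q -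
          Polynomial.C (Polynomial.X : Polynomial ℤ)) *
        (Polynomial.X - Polynomial.C ((Polynomial.X : Polynomial ℤ) ^ q)) +
      Polynomial.C (Polynomial.C (q : ℤ)) * Θ).eval₂ (Polynomial.aeval (R := ℤ) b).toRingHom c =
    (c ^ q - b) * (c - b ^ q) + (q : S) * Θ.eval₂ (Polynomial.aeval (R := ℤ) b).toRingHom c := by
  simp [Polynomial.eval₂_add, Polynomial.eval₂_mul, Polynomial.eval₂_sub, Polynomial.eval₂_pow]

/-- the residue of `a b c` is a power of the residue of `a` -/
theorem exists_pow_congr (V : ValuationSubring F) {q : ℕ} (hq : q.Prime)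
    (hqV : (q : F) ∈ V.nonunits) {a b c T : F} (ha : a ∈ V) (hb : b ∈ V) (hc : c ∈ V)
    (hT : T ∈ V) (hfrob : b - a ^ q ∈ V.nonunits)
    (hkron : (c ^ q - b) * (c - b ^ q) + (q : F) * T = 0) :
    ∃ k : ℕ, 0 < k ∧ a * b * c - a ^ k ∈ V.nonunits := by
  haveI : Fact q.Prime := ⟨hq⟩
  set π := IsLocalRing.residue V with hπ
  set A : V := ⟨a, ha⟩ with hA
  set B : V := ⟨b, hb⟩ with hB
  set C : V := ⟨c, hc⟩ with hC
  set T' : V := ⟨T, hT⟩ with hT'
  have hfrob' : π B = π A ^ q := by
    have h3 : ((B - A ^ q : V) : F) ∈ V.nonunits := hfrob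
    rw [ValuationSubring.coe_mem_nonunits_iff, ← IsLocalRing.residue_eq_zero_iff, map_sub,
      map_pow, sub_eq_zero] at h3
    exact h3
  have hq0 : ((q : ℕ) : IsLocalRing.ResidueField V) = 0 := by
    have h3 : (((q : ℕ) : V) : F) ∈ V.nonunits := by
      simpa using hqV
    rw [ValuationSubring.coe_mem_nonunits_iff, ← IsLocalRing.residue_eq_zero_iff,
      map_natCast] at h3
    exact h3
  haveI hCharP : CharP (IsLocalRing.ResidueField V) q :=
    (CharP.charP_iff_prime_eq_zero hq).mpr hq0
  have hκ : (π C ^ q - π B) * (π C - π B ^ q) = 0 := by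
    have h0 : (C ^ q - B) * (C - B ^ q) + ((q : ℕ) : V) * T' = 0 := by
      apply Subtype.ext
      simpa using hkron
    have h := congrArg π h0
    rw [map_add, map_mul, map_mul, map_sub, map_sub, map_pow, map_pow, map_natCast, hq0,
      zero_mul, add_zero, map_zero] at h
    exact h
  have key : ∀ k, π (A * B * C) = π A ^ k → a * b * c - a ^ k ∈ V.nonunits := by
    intro k hk
    have h3 : ((A * B * C - A ^ k : V) : F) ∈ V.nonunits := by
      rw [ValuationSubring.coe_mem_nonunits_iff, ← IsLocalRing.residue_eq_zero_iff, map_sub,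
        map_pow, sub_eq_zero]
      exact hk
    exact h3
  rcases mul_eq_zero.mp hκ with hA | hB
  · have h1 : π C ^ q = π A ^ q := by
      rw [← hfrob']
      exact sub_eq_zero.mp hA
    haveI : ExpChar (IsLocalRing.ResidueField V) q := ExpChar.prime hq
    have h2 : π C = π A := frobenius_inj (IsLocalRing.ResidueField V) q h1
    refine ⟨q + 2, by omega, key _ ?_⟩
    rw [map_mul, map_mul, hfrob', h2]
    ring
  · have h2 : π C = π B ^ q := sub_eq_zero.mp hB
    refine ⟨1 + q + q * q, by omega, key _ ?_⟩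
    rw [map_mul, map_mul, h2, hfrob']
    ring

end Kron

section Mid

variable {R E F F' : Type*} [CommRing R] [Field E] [Algebra R E]
  [Field F] [Algebra E F] [Algebra R F] [IsScalarTower R E F]
  [Field F'] [Algebra E F'] [Algebra R F'] [IsScalarTower R E F']

/-- **Abstract `gauss₂`.**  `V` lies over `V'` along `α`; `j, j_q ∈ V'` with `j_q ≡ j ^ q`;
`c` a root of `Φ(α j_q, Y)`, `Φ` of Kronecker's shape; `j` has the Gauss property at `V'`.  Then
`x = α(j) α(j_q) c` has the Gauss property at `V`. -/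
theorem gauss_mid_abs (α : F' →ₐ[E] F) (V' : ValuationSubring F') (V : ValuationSubring F)
    (hmid : V.comap (α : F' →+* F) = V') (w : R) {q : ℕ} (hq : q.Prime)
    (hqV' : (q : F') ∈ V'.nonunits) (hbase' : ∀ r : R, algebraMap R F' r ∈ V')
    {j jq : F'} {c : F} (hj : j ∈ V') (hjq : jq ∈ V') (hfrob : jq - j ^ q ∈ V'.nonunits)
    (Φ Θ : Polynomial (Polynomial ℤ)) (hΦ : Φ.Monic)
    (hΘ : Φ = ((Polynomial.X : Polynomial (Polynomial ℤ)) ^ q -
          Polynomial.C (Polynomial.X : Polynomial ℤ)) *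
        (Polynomial.X - Polynomial.C ((Polynomial.X : Polynomial ℤ) ^ q)) +
      Polynomial.C (Polynomial.C (q : ℤ)) * Θ)
    (hmod : Φ.eval₂ (Polynomial.aeval (R := ℤ) (α jq)).toRingHom c = 0)
    (hgauss : ∀ p : Polynomial R, ¬ Polynomial.C w ∣ p →
      aeval j p ≠ 0 ∧ aeval j p ∈ V' ∧ (aeval j p)⁻¹ ∈ V')
    (p : Polynomial R) (hp : ¬ Polynomial.C w ∣ p) :
    (aeval (α j * α jq * c) p)⁻¹ ∈ V := by
  have hmem : ∀ f, f ∈ V' → α f ∈ V := fun f hf => by
    rw [← hmid] at hf
    exact hf
  have hnon : ∀ f, f ∈ V'.nonunits → α f ∈ V.nonunits := fun f hf => by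
    rw [← hmid, mem_nonunits_comap_iff] at hf
    exact hf
  have hbase : ∀ r : R, algebraMap R F r ∈ V := by
    intro r
    have e : α (algebraMap R F' r) = algebraMap R F r := by
      rw [IsScalarTower.algebraMap_apply R E F', IsScalarTower.algebraMap_apply R E F,
        α.commutes]
    rw [← e]
    exact hmem _ (hbase' r)
  have hj1 : α j ∈ V := hmem _ hj
  have hjq1 : α jq ∈ V := hmem _ hjq
  -- `c` is integral over `ℤ[α j_q]`
  have hc : c ∈ V := by
    have hint : IsIntegral V c := by
      refine ⟨Φ.map (Polynomial.aeval (R := ℤ) (⟨α jq, hjq1⟩ : V)).toRingHom, hΦ.map _, ?_⟩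
      rw [Polynomial.eval₂_map]
      rw [← hmod]
      congr 1
      apply Polynomial.ringHom_ext
      · intro n
        simp
      · simp
    obtain ⟨y, hy⟩ := IsIntegrallyClosed.isIntegral_iff (R := V) (K := F) |>.mp hint
    rw [← hy]
    exact y.2
  have hqV : (q : F) ∈ V.nonunits := by
    have h := hnon _ hqV'
    rwa [map_natCast] at h
  have hfrob1 : α jq - α j ^ q ∈ V.nonunits := by
    have h := hnon _ hfrob
    rwa [map_sub, map_pow] at h
  have hkron : (c ^ q - α jq) * (c - α jq ^ q) +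
      (q : F) * Θ.eval₂ (Polynomial.aeval (R := ℤ) (α jq)).toRingHom c = 0 := by
    rw [← eval₂_kron, ← hΘ]
    exact hmod
  obtain ⟨k, hk0, hk⟩ := exists_pow_congr V hq hqV hj1 hjq1 hc
    (eval₂_aeval_mem V hjq1 hc Θ) hfrob1 hkron
  have hx : α j * α jq * c ∈ V := V.mul_mem _ _ (V.mul_mem _ _ hj1 hjq1) hc
  have hcong := aeval_sub_aeval_mem_nonunits V hbase hx (pow_mem hj1 k) hk p
  have hu := hgauss (Polynomial.expand R k p) (not_C_dvd_expand hk0 hp)
  have e : aeval (α j ^ k) p = α (aeval j (Polynomial.expand R k p)) := by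
    rw [Polynomial.expand_aeval, ← map_pow]
    exact Polynomial.aeval_algHom_apply (α.restrictScalars R) _ p
  refine inv_mem_of_sub_mem_nonunits V (b := aeval (α j ^ k) p) ?_ ?_ ?_ hcong
  · rw [e]
    exact (_root_.map_ne_zero _).mpr hu.1
  · rw [e]
    exact hmem _ hu.2.1
  · rw [e, ← map_inv₀]
    exact hmem _ hu.2.2

end Mid

end Fermat.Agent.S36.Mod3.H860

end

end
-- ===== PACK-END S36/Mod3/H860/SheetAbs.lean

-- ===== PACK-BEGIN A2/Mod/H994/S2Abs.lean
section


/-!
# WALL A2 / MODASM — S2 (components normal), abstract core (helper994)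

Mathlib only.  `K ⊆ L` fields with valuation subrings `VM`, `V`, an `R`-algebra map `φ : K → L`
(`α` or `β`), coordinates `yM ∈ K`, `y ∈ L` with `y ≡ φ(yM)^e` modulo the maximal ideal of `V`,
`B` = integral closure of `R[y]` in `L`, `p = B ∩ 𝔪_V`.

`isIntegrallyClosed_quotient_of_residue`: if every element of `V` is congruent to some `φ g`,
`g ∈ VM` (residue degree one), and the level-`K` chart is normal modulo `𝔪_VM` (elementwise), then
`B ⧸ p` is integrally closed.

NOTE: `B` is in general NOT integral over `φ(B_K)` (chart at infinity), only modulo `p`; this is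
why the statement is phrased through the residue field of `V`.
-/

set_option autoImplicit false
set_option linter.style.haveILetI false
set_option linter.unusedSectionVars false

namespace Fermat.Agent.A2.Mod.H994

open Polynomial

section Abs

variable {R K L : Type*} [CommRing R] [Field K] [Field L] [Algebra R K] [Algebra R L]

/-- An element integral over `R[y]` lies in every valuation subring containing `R` and `y`. -/
theorem mem_valuationSubring_of_isIntegral_adjoin (V : ValuationSubring L)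
    (hRV : ∀ r : R, algebraMap R L r ∈ V) {y : L} (hy : y ∈ V) {b : L}
    (hb : IsIntegral (Algebra.adjoin R ({y} : Set L)) b) : b ∈ V := by
  obtain ⟨p, hp, hpb⟩ := hb
  let V' : Subalgebra R L :=
    { V.toSubring with
      algebraMap_mem' := hRV }
  have hle : Algebra.adjoin R ({y} : Set L) ≤ V' :=
    Algebra.adjoin_le (by
      intro z hz
      rw [Set.mem_singleton_iff] at hz
      subst hz
      exact hy)
  let j : ↥(Algebra.adjoin R ({y} : Set L)) →+* ↥V :=
    { toFun := fun a => ⟨a.1, hle a.2⟩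
      map_one' := rfl
      map_mul' := fun _ _ => rfl
      map_zero' := rfl
      map_add' := fun _ _ => rfl }
  have hint : IsIntegral V b := by
    refine ⟨p.map j, hp.map j, ?_⟩
    rw [Polynomial.eval₂_map]
    exact hpb
  obtain ⟨v, hv⟩ := (IsIntegrallyClosed.isIntegral_iff (R := V) (K := L)).mp hint
  rw [← hv]
  exact v.2

/-- Integrality over `R[y]` in polynomial form. -/
theorem exists_monic_eval₂_aeval_of_isIntegral_adjoin {y b : L}
    (hb : IsIntegral (Algebra.adjoin R ({y} : Set L)) b) :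
    ∃ p : Polynomial (Polynomial R), p.Monic ∧
      p.eval₂ (Polynomial.aeval (R := R) y).toRingHom b = 0 := by
  obtain ⟨p, hp, hpb⟩ := hb
  set ψ : Polynomial R →ₐ[R] L := Polynomial.aeval (R := R) y with hψ
  have hrange : Algebra.adjoin R ({y} : Set L) = ψ.range :=
    Algebra.adjoin_singleton_eq_range_aeval R y
  have hsurj : ∀ a : ↥(Algebra.adjoin R ({y} : Set L)), ∃ c : Polynomial R, ψ c = a.1 := by
    intro a
    have h1 : a.1 ∈ ψ.range := hrange ▸ a.2
    exact h1
  choose c hc using hsurj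
  -- lift the coefficients
  let q : Polynomial (Polynomial R) :=
    Polynomial.X ^ p.natDegree + ∑ i ∈ Finset.range p.natDegree, Polynomial.C (c (p.coeff i)) *
      Polynomial.X ^ i
  have hdeg : (∑ i ∈ Finset.range p.natDegree, Polynomial.C (c (p.coeff i)) *
      (Polynomial.X : Polynomial (Polynomial R)) ^ i).degree < (p.natDegree : WithBot ℕ) := by
    refine lt_of_le_of_lt (Polynomial.degree_sum_le _ _) ?_
    rw [Finset.sup_lt_iff (WithBot.bot_lt_coe _)]
    intro i hi
    refine lt_of_le_of_lt (Polynomial.degree_C_mul_X_pow_le _ _) ?_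
    exact_mod_cast Finset.mem_range.1 hi
  have hq : q.Monic := Polynomial.monic_X_pow_add hdeg
  refine ⟨q, hq, ?_⟩
  have hp' := hp.as_sum
  have hpb' : Polynomial.eval₂ (algebraMap (↥(Algebra.adjoin R ({y} : Set L))) L) b p = 0 := hpb
  rw [hp'] at hpb'
  simp only [q, Polynomial.eval₂_add, Polynomial.eval₂_pow, Polynomial.eval₂_X,
    Polynomial.eval₂_finsetSum, Polynomial.eval₂_mul, Polynomial.eval₂_C] at hpb' ⊢
  rw [← hpb']
  congr 1
  refine Finset.sum_congr rfl fun i _ => ?_
  congr 1
  exact hc _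

/-- Transitivity: `z` integral over `R[y]` and `b` a root of a monic polynomial with coefficients
in `R[z]` ⟹ `b` integral over `R[y]`. -/
theorem isIntegral_adjoin_of_eval₂ {y z b : L}
    (hz : IsIntegral (Algebra.adjoin R ({y} : Set L)) z)
    (p : Polynomial (Polynomial R)) (hp : p.Monic)
    (hpb : p.eval₂ (Polynomial.aeval (R := R) z).toRingHom b = 0) :
    IsIntegral (Algebra.adjoin R ({y} : Set L)) b := by
  let A := integralClosure (Algebra.adjoin R ({y} : Set L)) L
  have hmem : ∀ a : Polynomial R, Polynomial.aeval (R := R) z a ∈ A := by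
    intro a
    have hle : Algebra.adjoin R ({z} : Set L) ≤ A.restrictScalars R :=
      Algebra.adjoin_le (by
        intro t ht
        rw [Set.mem_singleton_iff] at ht
        subst ht
        exact hz)
    exact hle (Polynomial.aeval_mem_adjoin_singleton R z)
  let ψA : Polynomial R →+* A :=
    (Polynomial.aeval (R := R) z).toRingHom.codRestrict A.toSubring hmem
  have h1 : IsIntegral A b := by
    refine ⟨p.map ψA, hp.map ψA, ?_⟩
    rw [Polynomial.eval₂_map]
    exact hpb
  exact isIntegral_trans (R := ↥(Algebra.adjoin R ({y} : Set L))) (A := A) b h1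

/-- An element of `R[y]`-root form is integral over `R[y]`. -/
theorem isIntegral_adjoin_of_eval₂_self {y b : L}
    (p : Polynomial (Polynomial R)) (hp : p.Monic)
    (hpb : p.eval₂ (Polynomial.aeval (R := R) y).toRingHom b = 0) :
    IsIntegral (Algebra.adjoin R ({y} : Set L)) b :=
  isIntegral_adjoin_of_eval₂
    (isIntegral_algebraMap (R := ↥(Algebra.adjoin R ({y} : Set L)))
      (x := (⟨y, Algebra.subset_adjoin (Set.mem_singleton y)⟩ :
        ↥(Algebra.adjoin R ({y} : Set L))))) p hp hpb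

/-- A monic polynomial relation in elementwise form. -/
theorem monic_eval₂_eq_sum (ψ : Polynomial R →+* L) (Q : Polynomial (Polynomial R))
    (hQ : Q.Monic) (g : L) :
    Q.eval₂ ψ g = g ^ Q.natDegree + ∑ i : Fin Q.natDegree, ψ (Q.coeff i) * g ^ (i : ℕ) := by
  conv_lhs => rw [hQ.as_sum]
  simp only [Polynomial.eval₂_add, Polynomial.eval₂_pow, Polynomial.eval₂_X,
    Polynomial.eval₂_finsetSum, Polynomial.eval₂_mul, Polynomial.eval₂_C]
  rw [Finset.sum_range]

/-- **S2, abstract core.** -/
theorem isIntegrallyClosed_quotient_of_residue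
    (VM : ValuationSubring K) (V : ValuationSubring L) (φ : K →ₐ[R] L)
    (yM : K) (y : L) (e : ℕ)
    (B : Subalgebra R L)
    (hB : ∀ f : L, f ∈ B ↔ IsIntegral (Algebra.adjoin R ({y} : Set L)) f)
    (p : Ideal B) (hp : ∀ b : B, b ∈ p ↔ V.valuation (b : L) < 1)
    (hRVM : ∀ r : R, algebraMap R K r ∈ VM) (hyM : yM ∈ VM)
    (hRV : ∀ r : R, algebraMap R L r ∈ V) (hyV : y ∈ V)
    (hφV : ∀ g ∈ VM, φ g ∈ V)
    (hφm : ∀ g : K, VM.valuation g < 1 → V.valuation (φ g) < 1)
    (hkron : V.valuation (y - φ yM ^ e) < 1)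
    (hres : ∀ f ∈ V, ∃ g ∈ VM, V.valuation (f - φ g) < 1)
    (hnormM : ∀ g ∈ VM, ∀ Q : Polynomial (Polynomial R), Q.Monic →
      VM.valuation (Q.eval₂ (Polynomial.aeval (R := R) yM).toRingHom g) < 1 →
      ∃ b : K, φ b ∈ B ∧ VM.valuation (g - b) < 1) :
    IsIntegrallyClosed (B ⧸ p) := by
  classical
  have hBV : ∀ b ∈ B, b ∈ V := fun b hb =>
    mem_valuationSubring_of_isIntegral_adjoin V hRV hyV ((hB b).1 hb)
  -- the residue map of `V`
  set ρ : V →+* IsLocalRing.ResidueField V := IsLocalRing.residue V with hρdef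
  have hρ : ∀ v : V, ρ v = 0 ↔ V.valuation (v : L) < 1 := fun v => by
    rw [hρdef, IsLocalRing.residue_eq_zero_iff, ValuationSubring.valuation_lt_one_iff]
  have hρeq : ∀ u v : V, V.valuation ((u : L) - v) < 1 → ρ u = ρ v := by
    intro u v h
    have : ρ (u - v) = 0 := (hρ _).2 h
    rwa [map_sub, sub_eq_zero] at this
  -- `B → V → κ`
  let ιB : B →+* V :=
    { toFun := fun b => ⟨b.1, hBV b.1 b.2⟩
      map_one' := rfl
      map_mul' := fun _ _ => rfl
      map_zero' := rfl
      map_add' := fun _ _ => rfl }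
  set ψ : B →+* IsLocalRing.ResidueField V := ρ.comp ιB with hψdef
  have hψ : ∀ b : B, ψ b = 0 ↔ b ∈ p := fun b => by
    rw [hp]
    exact hρ _
  have hker : RingHom.ker ψ = p := by
    ext b
    rw [RingHom.mem_ker, hψ]
  have hprime : p.IsPrime := hker ▸ RingHom.ker_isPrime ψ
  let ι : B ⧸ p →+* IsLocalRing.ResidueField V :=
    Ideal.Quotient.lift p ψ (fun b hb => (hψ b).2 hb)
  have hι : Function.Injective ι := by
    rw [injective_iff_map_eq_zero]
    intro z hz
    obtain ⟨b, rfl⟩ := Ideal.Quotient.mk_surjective z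
    rw [Ideal.Quotient.lift_mk] at hz
    exact Ideal.Quotient.eq_zero_iff_mem.2 ((hψ b).1 hz)
  let ι' : FractionRing (B ⧸ p) →+* IsLocalRing.ResidueField V := IsFractionRing.lift hι
  have hι' : ∀ z : B ⧸ p, ι' (algebraMap (B ⧸ p) (FractionRing (B ⧸ p)) z) = ι z :=
    fun z => IsFractionRing.lift_algebraMap hι z
  refine (isIntegrallyClosed_iff (FractionRing (B ⧸ p))).2 fun {x} hx => ?_
  -- `ξ = ι' x` is integral over `ψ(B)`
  set ξ := ι' x with hξ
  obtain ⟨P, hP, hPx⟩ := hx
  have hPξ : P.eval₂ ι ξ = 0 := by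
    have h1 := congrArg ι' hPx
    rw [Polynomial.hom_eval₂, map_zero] at h1
    have h2 : ι'.comp (algebraMap (B ⧸ p) (FractionRing (B ⧸ p))) = ι :=
      RingHom.ext hι'
    rwa [h2] at h1
  obtain ⟨P', hP'map, -, hP'monic⟩ :=
    Polynomial.lifts_and_natDegree_eq_and_monic (f := Ideal.Quotient.mk p)
      ((Polynomial.mem_lifts _).2
        (Polynomial.map_surjective _ Ideal.Quotient.mk_surjective P)) hP
  have hP'ξ : P'.eval₂ ψ ξ = 0 := by
    rw [← hP'map, Polynomial.eval₂_map] at hPξ
    exact hPξ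
  -- the structure map `R[X] → V → κ`
  let cR : R →+* V := (algebraMap R L).codRestrict V.toSubring hRV
  let evV : Polynomial R →+* V := Polynomial.eval₂RingHom cR ⟨y, hyV⟩
  set ε : Polynomial R →+* IsLocalRing.ResidueField V := ρ.comp evV with hεdef
  have hsub : V.subtype.comp evV = (Polynomial.aeval (R := R) y).toRingHom := by
    apply Polynomial.ringHom_ext
    · intro r
      simp [evV, cR]
    · simp [evV]
  -- every `ψ b` is integral over `ε`
  have hint : ∀ b : B, ε.IsIntegralElem (ψ b) := by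
    intro b
    obtain ⟨q, hq, hqb⟩ := exists_monic_eval₂_aeval_of_isIntegral_adjoin ((hB b.1).1 b.2)
    refine ⟨q, hq, ?_⟩
    have h1 : q.eval₂ evV (ιB b) = 0 := by
      apply V.subtype_injective
      rw [Polynomial.hom_eval₂, hsub, map_zero]
      exact hqb
    have h2 := congrArg ρ h1
    rw [Polynomial.hom_eval₂, map_zero] at h2
    exact h2
  -- transitivity
  have hξint : ε.IsIntegralElem ξ := by
    letI : Algebra (Polynomial R) (IsLocalRing.ResidueField V) := ε.toAlgebra
    let A := integralClosure (Polynomial R) (IsLocalRing.ResidueField V)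
    let ψA : B →+* A := ψ.codRestrict A.toSubring (fun b => hint b)
    have h1 : IsIntegral A ξ := by
      refine ⟨P'.map ψA, hP'monic.map ψA, ?_⟩
      rw [Polynomial.eval₂_map]
      exact hP'ξ
    exact isIntegral_trans (R := Polynomial R) (A := A) ξ h1
  obtain ⟨Pε, hPε, hPεξ⟩ := hξint
  -- lift `ξ`
  obtain ⟨f, hf⟩ := IsLocalRing.residue_surjective (R := V) ξ
  obtain ⟨g, hg, hfg⟩ := hres f.1 f.2
  have hξg : ρ ⟨φ g, hφV g hg⟩ = ξ := by
    rw [← hf]
    refine (hρeq f ⟨φ g, hφV g hg⟩ hfg).symm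
  -- level `K`
  let cRM : R →+* VM := (algebraMap R K).codRestrict VM.toSubring hRVM
  let evVM : Polynomial R →+* VM := Polynomial.eval₂RingHom cRM ⟨yM, hyM⟩
  have hsubM : VM.subtype.comp evVM = (Polynomial.aeval (R := R) yM).toRingHom := by
    apply Polynomial.ringHom_ext
    · intro r
      simp [evVM, cRM]
    · simp [evVM]
  let φV : VM →+* V := (φ.toRingHom.comp VM.subtype).codRestrict V.toSubring
    (fun g => hφV g.1 g.2)
  set Q : Polynomial (Polynomial R) := Pε.map (Polynomial.expand R e : _ →ₐ[R] _).toRingHom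
    with hQ
  have hQmonic : Q.Monic := hPε.map _
  set zM : VM := Q.eval₂ evVM ⟨g, hg⟩ with hzM
  have hcomp : (ρ.comp (φV.comp evVM)).comp (Polynomial.expand R e : _ →ₐ[R] _).toRingHom = ε := by
    apply Polynomial.ringHom_ext
    · intro r
      simp only [RingHom.coe_comp, Function.comp_apply, AlgHom.toRingHom_eq_coe,
        RingHom.coe_coe, Polynomial.expand_C, hεdef]
      congr 1
      apply Subtype.ext
      simp [φV, evVM, evV, cR, cRM]
    · simp only [RingHom.coe_comp, Function.comp_apply, AlgHom.toRingHom_eq_coe,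
        RingHom.coe_coe, Polynomial.expand_X, hεdef, map_pow]
      have h1 : evVM Polynomial.X = ⟨yM, hyM⟩ := by simp [evVM]
      have h2 : evV Polynomial.X = ⟨y, hyV⟩ := by simp [evV]
      rw [h1, h2, ← map_pow]
      refine (hρeq _ _ ?_).symm
      have h3 : ((φV ⟨yM, hyM⟩ ^ e : V) : L) = φ yM ^ e := by
        simp [φV]
      rw [h3]
      exact hkron
  have hzero : ρ (φV zM) = 0 := by
    rw [hzM, Polynomial.hom_eval₂, Polynomial.hom_eval₂, hQ, Polynomial.eval₂_map, hcomp]
    have h1 : ρ (φV ⟨g, hg⟩) = ξ := hξg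
    rw [h1]
    exact hPεξ
  have hzval : V.valuation (φ (zM : K)) < 1 := (hρ (φV zM)).1 hzero
  have hzM1 : VM.valuation (zM : K) < 1 := by
    by_contra hcon
    have hle : VM.valuation (zM : K) ≤ 1 := (VM.valuation_le_one_iff _).2 zM.2
    have heq : VM.valuation (zM : K) = 1 := le_antisymm hle (not_lt.1 hcon)
    have hz0 : (zM : K) ≠ 0 := by
      intro h0
      rw [h0, map_zero] at heq
      exact zero_ne_one heq
    have hinv : (zM : K)⁻¹ ∈ VM := by
      rw [← VM.valuation_le_one_iff, map_inv₀, heq, inv_one]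
    have h1 : V.valuation (φ (zM : K)⁻¹) ≤ 1 := (V.valuation_le_one_iff _).2 (hφV _ hinv)
    have h2 : V.valuation (φ (zM : K)) * V.valuation (φ (zM : K)⁻¹) = 1 := by
      rw [← map_mul, ← map_mul, mul_inv_cancel₀ hz0, map_one, map_one]
    have h3 : V.valuation (φ (zM : K)) * V.valuation (φ (zM : K)⁻¹) < 1 := by
      calc V.valuation (φ (zM : K)) * V.valuation (φ (zM : K)⁻¹)
          ≤ V.valuation (φ (zM : K)) * 1 := mul_le_mul' le_rfl h1
        _ = V.valuation (φ (zM : K)) := mul_one _
        _ < 1 := hzval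
    rw [h2] at h3
    exact lt_irrefl _ h3
  have hzMK : (zM : K) = Q.eval₂ (Polynomial.aeval (R := R) yM).toRingHom g := by
    have h1 : VM.subtype zM = Q.eval₂ (VM.subtype.comp evVM) (VM.subtype ⟨g, hg⟩) := by
      rw [hzM, Polynomial.hom_eval₂]
    rw [hsubM] at h1
    exact h1
  rw [hzMK] at hzM1
  obtain ⟨b₀, hb₀B, hb₀⟩ := hnormM g hg Q hQmonic hzM1
  have hb₁ : V.valuation (φ g - φ b₀) < 1 := by
    rw [← map_sub]
    exact hφm _ hb₀
  have hb₂ : V.valuation ((f : L) - φ b₀) < 1 := by
    have : (f : L) - φ b₀ = ((f : L) - φ g) + (φ g - φ b₀) := by ring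
    rw [this]
    exact Valuation.map_add_lt _ hfg hb₁
  refine ⟨Ideal.Quotient.mk p ⟨φ b₀, hb₀B⟩, ?_⟩
  apply ι'.injective
  rw [hι', ← hξ, ← hf]
  show ψ ⟨φ b₀, hb₀B⟩ = _
  exact (hρeq f (ιB ⟨φ b₀, hb₀B⟩) hb₂).symm

end Abs

end Fermat.Agent.A2.Mod.H994

end
-- ===== PACK-END A2/Mod/H994/S2Abs.lean

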