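import Fermat.Prelude.Def_ModularCurve_JqCoeff
import Mathlib
import Fermat.Prelude.Def_AlgebraicCurve_Correspondence
import Mathlib.Data.Nat.Factorization.Induction
import Mathlib.Algebra.Squarefree.Basic
import Mathlib.Data.Nat.Squarefree
import Fermat.Prelude.Def_ModularCurve_X0ModL
import Fermat.Agent.Pack.S36.E4L3
import Fermat.Agent.Pack.S36.E4L1
import Fermat.Agent.Pack.S36.E4L0
import Fermat.Agent.Pack.S36.E4L2
import Fermat.Agent.Pack.S36.E0L2
import Fermat.Agent.Pack.S36.E5L0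
import Fermat.Agent.Pack.S36.E5L3
import Fermat.Agent.Pack.S36.E0L3

-- ===== PACK-BEGIN S30/H990/Limit.lean
section
/-
S30 top glue (helper990): the quadratic relation for every element of `G_ℚ`.
* `adic_compactness`: a decreasing sequence of nonempty "closed" subsets of a complete ring with
  finite quotients `R ⧸ I ^ n` has a common point.
* `rel_mod_of_mul`: the quadratic relation is stable under multiplication by elements
  congruent to `1`.
* `exists_rel_of_mod`: relations modulo all `𝔪 ^ n` give an exact relation.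
-/


set_option autoImplicit false

namespace Fermat.Agent.S30.H990

section Compactness

variable {R : Type*} [CommRing R] (I : Ideal R)

theorem adic_compactness [IsPrecomplete I R] (hfin : ∀ n, Finite (R ⧸ I ^ n))
    (A : ℕ → Set R) (hne : ∀ n, (A n).Nonempty) (hanti : ∀ m n, m ≤ n → A n ⊆ A m)
    (hclosed : ∀ n a a', a ∈ A n → a' - a ∈ I ^ n → a' ∈ A n) :
    ∃ a, ∀ n, a ∈ A n := by
  classical
  -- `x` is approximable to order `n` by elements of all `A N`
  let Good : ℕ → R → Prop := fun n x => ∀ N, ∃ a ∈ A N, a - x ∈ I ^ n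
  have good0 : Good 0 0 := by
    intro N
    obtain ⟨a, ha⟩ := hne N
    exact ⟨a, ha, by simp⟩
  have step : ∀ n x, Good n x → ∃ y, y - x ∈ I ^ n ∧ Good (n + 1) y := by
    intro n x hx
    choose a ha hax using hx
    have := hfin (n + 1)
    obtain ⟨y₀, hy₀⟩ := Finite.exists_infinite_fiber
      (fun N : ℕ => Ideal.Quotient.mk (I ^ (n + 1)) (a N))
    have hinf : (((fun N : ℕ => Ideal.Quotient.mk (I ^ (n + 1)) (a N)) ⁻¹' {y₀}) : Set ℕ).Infinite :=
      Set.infinite_coe_iff.mp hy₀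
    obtain ⟨N₀, hN₀⟩ := hinf.nonempty
    refine ⟨a N₀, hax N₀, fun N => ?_⟩
    obtain ⟨N', hN', hlt⟩ := hinf.exists_gt N
    refine ⟨a N', hanti N N' hlt.le (ha N'), ?_⟩
    rw [← Ideal.Quotient.eq]
    have h1 : Ideal.Quotient.mk (I ^ (n + 1)) (a N') = y₀ := hN'
    have h2 : Ideal.Quotient.mk (I ^ (n + 1)) (a N₀) = y₀ := hN₀
    rw [h1, h2]
  let s : (n : ℕ) → {x : R // Good n x} := fun n =>
    Nat.rec (motive := fun n => {x : R // Good n x}) ⟨0, good0⟩
      (fun n prev => ⟨(step n prev.1 prev.2).choose, (step n prev.1 prev.2).choose_spec.2⟩) n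
  have hs : ∀ n, (s (n + 1)).1 - (s n).1 ∈ I ^ n := fun n =>
    (step n (s n).1 (s n).2).choose_spec.1
  have hcauchy : ∀ m n, m ≤ n → (s n).1 - (s m).1 ∈ I ^ m := by
    intro m n hmn
    induction n, hmn using Nat.le_induction with
    | base => simp
    | succ n hmn ih =>
      have h1 : (s (n + 1)).1 - (s n).1 ∈ I ^ m := Ideal.pow_le_pow_right hmn (hs n)
      have : (s (n + 1)).1 - (s m).1 = ((s (n + 1)).1 - (s n).1) + ((s n).1 - (s m).1) := by ring
      rw [this]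
      exact (I ^ m).add_mem h1 ih
  obtain ⟨L, hL⟩ := IsPrecomplete.prec' (I := I) (M := R) (fun n => (s n).1) (by
    intro m n hmn
    rw [SModEq.sub_mem, smul_eq_mul, Ideal.mul_top]
    have := hcauchy m n hmn
    rw [← neg_sub]
    exact (I ^ m).neg_mem this)
  refine ⟨L, fun n => ?_⟩
  obtain ⟨a, ha, hax⟩ := (s n).2 n
  refine hclosed n a L ha ?_
  have h1 := hL n
  rw [SModEq.sub_mem, smul_eq_mul, Ideal.mul_top] at h1
  have : L - a = -((s n).1 - L) - (a - (s n).1) := by ring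
  rw [this]
  exact (I ^ n).sub_mem ((I ^ n).neg_mem h1) hax

end Compactness

section ModRel

variable {𝒪 M : Type*} [CommRing 𝒪] [AddCommGroup M] [Module 𝒪 M]

theorem map_mem_smul_top (I : Ideal 𝒪) (f : M →ₗ[𝒪] M) {x : M}
    (hx : x ∈ I • (⊤ : Submodule 𝒪 M)) : f x ∈ I • (⊤ : Submodule 𝒪 M) := by
  refine Submodule.smul_induction_on hx ?_ ?_
  · intro r hr n _
    rw [map_smul]
    exact Submodule.smul_mem_smul hr Submodule.mem_top
  · intro x y hx hy
    rw [map_add]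
    exact Submodule.add_mem _ hx hy

/-- The quadratic relation of `h` passes, modulo `I`, to `h * s` for `s ≡ 1` and `u ≡ 1`. -/
theorem rel_mod_of_mul (I : Ideal 𝒪) (h s : Module.End 𝒪 M) (t b u : 𝒪)
    (hrel : h * h - t • h + b • (1 : Module.End 𝒪 M) = 0)
    (hs : ∀ v, s v - v ∈ I • (⊤ : Submodule 𝒪 M)) (hu : u - 1 ∈ I) (v : M) :
    (h * s) ((h * s) v) - t • (h * s) v + (b * u) • v ∈ I • (⊤ : Submodule 𝒪 M) := by
  have h0 : h (h v) - t • h v + b • v = 0 := by
    have := congrArg (fun f : Module.End 𝒪 M => f v) hrel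
    simpa using this
  have key : (h * s) ((h * s) v) - t • (h * s) v + (b * u) • v
      = h (s (h v) - h v) + h (s (h (s v - v))) - t • h (s v - v) + (b * (u - 1)) • v := by
    simp only [Module.End.mul_apply, map_sub]
    rw [← sub_eq_zero]
    rw [← h0]
    module
  rw [key]
  have m1 : s v - v ∈ I • (⊤ : Submodule 𝒪 M) := hs v
  have m2 : s (h v) - h v ∈ I • (⊤ : Submodule 𝒪 M) := hs (h v)
  refine Submodule.add_mem _ (Submodule.sub_mem _ (Submodule.add_mem _ ?_ ?_) ?_) ?_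
  · exact map_mem_smul_top I h m2
  · exact map_mem_smul_top I h (map_mem_smul_top I s (map_mem_smul_top I h m1))
  · exact Submodule.smul_mem _ _ (map_mem_smul_top I h m1)
  · exact Submodule.smul_mem_smul (I.mul_mem_left _ hu) Submodule.mem_top

end ModRel

section Exact

variable {𝒪 M G : Type*} [CommRing 𝒪] [IsLocalRing 𝒪] [IsNoetherianRing 𝒪]
  [IsPrecomplete (IsLocalRing.maximalIdeal 𝒪) 𝒪] [Finite (IsLocalRing.ResidueField 𝒪)]
  [AddCommGroup M] [Module 𝒪 M] [Module.Finite 𝒪 M] [Group G]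

/-- Relations modulo all powers of the maximal ideal give an exact relation. -/
theorem exists_rel_of_mod (ρ : G →* Module.End 𝒪 M) (d : G →* 𝒪ˣ) (g : G)
    (hmod : ∀ n : ℕ, ∃ a : 𝒪, ∀ v : M,
      ρ g (ρ g v) - a • ρ g v + ((d g : 𝒪ˣ) : 𝒪) • v
        ∈ (IsLocalRing.maximalIdeal 𝒪 ^ n) • (⊤ : Submodule 𝒪 M)) :
    ∃ a, Rel ρ d g a := by
  have hfin : ∀ n, Finite (𝒪 ⧸ IsLocalRing.maximalIdeal 𝒪 ^ n) := by
    intro n
    have : Finite (𝒪 ⧸ IsLocalRing.maximalIdeal 𝒪) :=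
      (inferInstance : Finite (IsLocalRing.ResidueField 𝒪))
    exact Ideal.finite_quotient_pow (IsNoetherian.noetherian _) n
  obtain ⟨a, ha⟩ := adic_compactness (IsLocalRing.maximalIdeal 𝒪) hfin
    (fun n => {a : 𝒪 | ∀ v : M, ρ g (ρ g v) - a • ρ g v + ((d g : 𝒪ˣ) : 𝒪) • v
        ∈ (IsLocalRing.maximalIdeal 𝒪 ^ n) • (⊤ : Submodule 𝒪 M)})
    (fun n => hmod n)
    (fun m n hmn a ha v =>
      Submodule.smul_mono_left (Ideal.pow_le_pow_right hmn) (ha v))
    (fun n a a' ha haa' v => by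
      have : ρ g (ρ g v) - a' • ρ g v + ((d g : 𝒪ˣ) : 𝒪) • v
          = (ρ g (ρ g v) - a • ρ g v + ((d g : 𝒪ˣ) : 𝒪) • v) - (a' - a) • ρ g v := by
        module
      rw [this]
      exact Submodule.sub_mem _ (ha v) (Submodule.smul_mem_smul haa' Submodule.mem_top))
  refine ⟨a, ?_⟩
  unfold Rel
  ext v
  have hv : ρ g (ρ g v) - a • ρ g v + ((d g : 𝒪ˣ) : 𝒪) • v
      ∈ ⨅ i : ℕ, (IsLocalRing.maximalIdeal 𝒪 ^ i) • (⊤ : Submodule 𝒪 M) := by
    rw [Submodule.mem_iInf]
    exact fun n => ha n v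
  rw [Ideal.iInf_pow_smul_eq_bot_of_isLocalRing _ (IsLocalRing.maximalIdeal.isMaximal 𝒪).ne_top,
    Submodule.mem_bot] at hv
  simpa using hv

end Exact

end Fermat.Agent.S30.H990

end
-- ===== PACK-END S30/H990/Limit.lean

-- ===== PACK-BEGIN S24/JFun/Laurent.lean
section



/-!
# Laurent (ℤ-indexed) form of the bridge `j(τ) = ∑ₙ jq_n qⁿ`

Adapters of `hasSum_qjFun` to the Prelude's Laurent series `ModularCurve.jqModC ℂ`.
-/

set_option autoImplicit false

namespace Fermat.Agent.S24.JFun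

open Filter Topology Complex Function
open UpperHalfPlane hiding I
open ModularForm EisensteinSeries MatrixGroups

local notation "𝕢" => Function.Periodic.qParam

/-- Coefficients of the Prelude's Laurent series `jqModC ℂ` in terms of `jNum`. -/
theorem coeff_jqModC_natCast_sub_one (k : ℕ) :
    (ModularCurve.jqModC ℂ).coeff ((k : ℤ) - 1) = ((ModularCurve.jNum.coeff k : ℤ) : ℂ) := by
  rw [ModularCurve.jqModC, HahnSeries.coeff_single_mul, one_mul,
    show ((k : ℤ) - 1 - (-1)) = (k : ℤ) by ring, HahnSeries.ofPowerSeries_apply_coeff,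
    PowerSeries.coeff_map]
  simp

theorem coeff_jqModC_of_lt {n : ℤ} (hn : n < -1) : (ModularCurve.jqModC ℂ).coeff n = 0 := by
  rw [ModularCurve.jqModC, HahnSeries.coeff_single_mul, one_mul]
  exact ModularCurve.ofPowerSeries_coeff_of_neg _ (by omega)

/-- **Bridge, Laurent form**: `j(τ) = ∑_{n ∈ ℤ} (jqModC ℂ)_n qⁿ` for every `τ : ℍ`. -/
theorem hasSum_jFun (τ : ℍ) :
    HasSum (fun n : ℤ => (ModularCurve.jqModC ℂ).coeff n * 𝕢 1 (τ : ℂ) ^ n) (jFun τ) := by
  have hq : 𝕢 1 (τ : ℂ) ≠ 0 := qParam_one_ne_zero _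
  have hinj : Function.Injective (fun k : ℕ => ((k : ℤ) - 1)) := by
    intro a b hab
    simp only [sub_left_inj, Nat.cast_inj] at hab
    exact hab
  have hsupp : ∀ n : ℤ, n ∉ Set.range (fun k : ℕ => ((k : ℤ) - 1)) →
      (ModularCurve.jqModC ℂ).coeff n * 𝕢 1 (τ : ℂ) ^ n = 0 := by
    intro n hn
    have hlt : n < -1 := by
      by_contra hcon
      have hcon : -1 ≤ n := not_lt.mp hcon
      apply hn
      refine ⟨(n + 1).toNat, ?_⟩
      simp only
      rw [Int.toNat_of_nonneg (by omega)]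
      ring
    rw [coeff_jqModC_of_lt hlt, zero_mul]
  rw [← hinj.hasSum_iff hsupp]
  have h := (hasSum_qjFun τ).mul_left ((𝕢 1 (τ : ℂ))⁻¹)
  rw [← mul_assoc, inv_mul_cancel₀ hq, one_mul] at h
  have hfun : ((fun n : ℤ => (ModularCurve.jqModC ℂ).coeff n * 𝕢 1 (τ : ℂ) ^ n) ∘
      fun k : ℕ => ((k : ℤ) - 1))
      = fun i : ℕ => (𝕢 1 (τ : ℂ))⁻¹ *
          (((ModularCurve.jNum.coeff i : ℤ) : ℂ) * 𝕢 1 (τ : ℂ) ^ i) := by
    funext k
    simp only [comp_apply]
    rw [coeff_jqModC_natCast_sub_one, zpow_sub₀ hq, zpow_natCast, zpow_one]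
    field_simp
  rw [hfun]
  exact h

/-- The same with `q` written out as `exp (2πiτ)`. -/
theorem hasSum_jFun_cexp (τ : ℍ) :
    HasSum (fun n : ℤ => (ModularCurve.jqModC ℂ).coeff n *
      Complex.exp (2 * (Real.pi : ℂ) * I * (τ : ℂ)) ^ n) (jFun τ) := by
  have h := hasSum_jFun τ
  have hq : 𝕢 1 (τ : ℂ) = Complex.exp (2 * (Real.pi : ℂ) * I * (τ : ℂ)) := by
    simp [Function.Periodic.qParam]
  rw [hq] at h
  exact h

/-- `ℕ`-indexed form with `q` written out as `exp (2πiτ)`. -/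
theorem hasSum_qjFun_cexp (τ : ℍ) :
    HasSum (fun n : ℕ => ((ModularCurve.jNum.coeff n : ℤ) : ℂ) *
      Complex.exp (2 * (Real.pi : ℂ) * I * (τ : ℂ)) ^ n)
      (Complex.exp (2 * (Real.pi : ℂ) * I * (τ : ℂ)) * jFun τ) := by
  have h := hasSum_qjFun τ
  have hq : 𝕢 1 (τ : ℂ) = Complex.exp (2 * (Real.pi : ℂ) * I * (τ : ℂ)) := by
    simp [Function.Periodic.qParam]
  rw [hq] at h
  exact h

end Fermat.Agent.S24.JFun

end
-- ===== PACK-END S24/JFun/Laurent.lean

-- ===== PACK-BEGIN S37/H818/HeckeComm.lean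
section
/-
S37 / LEVEL TRANSFER (helper818), part 3: a correspondence `a_* b^*` commutes with pullback
along a degeneracy map `i`, at the level of divisors and of `Pic0`.

      F  ==a,b==>  F₁
      |i           |i₁
      v            v
      G  ==a',b'=> G₁          i₁ ∘ a = a' ∘ i,   i₁ ∘ b = b' ∘ i.
-/




set_option autoImplicit false
set_option linter.style.haveILetI false

noncomputable section

namespace Fermat.Agent.S37.H818

open AlgebraicCurve

variable {K F F₁ G G₁ : Type*} [Field K] [Field F] [Field F₁] [Field G] [Field G₁]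
  [Algebra K F] [Algebra K F₁] [Algebra K G] [Algebra K G₁]

theorem pullbackAlong_congr [HasPrincipalDivisors K G] {φ φ' : F →ₐ[K] G} (h : φ = φ')
    (hφ : φ.toRingHom.IsIntegral) (hφ' : φ'.toRingHom.IsIntegral) (D : Divisor K F) :
    Divisor.pullbackAlong φ hφ D = Divisor.pullbackAlong φ' hφ' D := by
  subst h
  rfl

section

variable (a b : F →ₐ[K] F₁) (i : F →ₐ[K] G) (a' b' : G →ₐ[K] G₁) (i₁ : F₁ →ₐ[K] G₁)
  (ha : a.toRingHom.IsIntegral) (hb : b.toRingHom.IsIntegral) (hi : i.toRingHom.IsIntegral)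
  (ha' : a'.toRingHom.IsIntegral) (hb' : b'.toRingHom.IsIntegral)
  (hi₁ : i₁.toRingHom.IsIntegral)
  (hsqa : i₁.comp a = a'.comp i) (hsqb : i₁.comp b = b'.comp i)

variable [HasPrincipalDivisors K G] [HasPrincipalDivisors K G₁] [HasPrincipalDivisors K F₁]

include hsqa hsqb hi₁ in
/-- **Hecke/degeneracy commutation on divisors**:
`i^* (a_* b^* D) = a'_* b'^* (i^* D)`. -/
theorem pullbackAlong_correspondence
    (hfin : FiniteAlong K a) (hN : NormFormulaAlong K a hfin)
    (hfin' : FiniteAlong K a') (hN' : NormFormulaAlong K a' hfin')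
    (hnorm : NormCompat a i a' i₁) (hLG : HasLocalGenerators a ha) (D : Divisor K F) :
    Divisor.pullbackAlong i hi (Divisor.correspondence b a hb ha D) =
      Divisor.correspondence b' a' hb' ha' (Divisor.pullbackAlong i hi D) := by
  have h1 : (i₁.comp b).toRingHom.IsIntegral := RingHom.IsIntegral.trans _ _ hb hi₁
  have h2 : (b'.comp i).toRingHom.IsIntegral := RingHom.IsIntegral.trans _ _ hi hb'
  rw [Divisor.correspondence_apply, Divisor.correspondence_apply,
    pullback_pushforward_eq a i a' i₁ ha hi ha' hi₁ hsqa hfin hN hfin' hN' hnorm hLG,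
    ← pullbackAlong_comp b i₁ hb hi₁ h1, ← pullbackAlong_comp i b' hi hb' h2,
    pullbackAlong_congr hsqb h1 h2]

end

/-! ### Pullback on `Pic0` along a homomorphism -/

section PullbackHom

variable [HasPrincipalDivisors K G] (i : F →ₐ[K] G) (hi : i.toRingHom.IsIntegral)
  (hFI : FundamentalIdentityAlong K i hi)

/-- Pullback of degree-zero divisors along `i`. -/
def pullbackDegZeroAlong :
    Divisor.degZero (K := K) (F := F) →+ Divisor.degZero (K := K) (F := G) :=
  ((Divisor.pullbackAlong i hi).domRestrict (Divisor.degZero (K := K) (F := F))).codRestrict _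
    fun D => Divisor.pullbackAlong_mem_degZero i hi hFI D.2

@[simp]
theorem coe_pullbackDegZeroAlong (D : Divisor.degZero (K := K) (F := F)) :
    (pullbackDegZeroAlong i hi hFI D : Divisor K G) =
      Divisor.pullbackAlong i hi (D : Divisor K F) := rfl

/-- Pullback on `Pic0` along `i` (the map `π^*` of the level transfer). -/
def pullbackPic0Along : Pic0 K F →+ Pic0 K G :=
  QuotientAddGroup.map _ _ (pullbackDegZeroAlong i hi hFI) (by
    rintro ⟨D, hD0⟩ hD
    simp only [AddSubgroup.mem_addSubgroupOf] at hD ⊢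
    exact Divisor.isPrincipal_pullbackAlong i hi hD)

theorem pullbackPic0Along_mk (D : Divisor.degZero (K := K) (F := F)) :
    pullbackPic0Along i hi hFI (Pic0.mk D) = Pic0.mk (pullbackDegZeroAlong i hi hFI D) := rfl

end PullbackHom

section Pic0Comm

variable (a b : F →ₐ[K] F₁) (i : F →ₐ[K] G) (a' b' : G →ₐ[K] G₁) (i₁ : F₁ →ₐ[K] G₁)
  (ha : a.toRingHom.IsIntegral) (hb : b.toRingHom.IsIntegral) (hi : i.toRingHom.IsIntegral)
  (ha' : a'.toRingHom.IsIntegral) (hb' : b'.toRingHom.IsIntegral)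
  (hi₁ : i₁.toRingHom.IsIntegral)
  (hsqa : i₁.comp a = a'.comp i) (hsqb : i₁.comp b = b'.comp i)

variable [HasPrincipalDivisors K G] [HasPrincipalDivisors K G₁] [HasPrincipalDivisors K F₁]

include hsqa hsqb hi₁ in
/-- **Hecke/degeneracy commutation on `Pic0`**: `π^* ∘ T = T' ∘ π^*`, where
`T = a_* b^*` on `Pic0 F`, `T' = a'_* b'^*` on `Pic0 G` and `π^* = i^*`. -/
theorem pullbackPic0Along_correspondence
    (hFIb : FundamentalIdentityAlong K b hb)
    (hfin : FiniteAlong K a) (hN : NormFormulaAlong K a hfin)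
    (hFIb' : FundamentalIdentityAlong K b' hb')
    (hfin' : FiniteAlong K a') (hN' : NormFormulaAlong K a' hfin')
    (hFIi : FundamentalIdentityAlong K i hi)
    (hnorm : NormCompat a i a' i₁) (hLG : HasLocalGenerators a ha) (x : Pic0 K F) :
    pullbackPic0Along i hi hFIi (Pic0.correspondence b a hb ha hFIb hfin hN x) =
      Pic0.correspondence b' a' hb' ha' hFIb' hfin' hN' (pullbackPic0Along i hi hFIi x) := by
  obtain ⟨D, rfl⟩ := Pic0.mk_surjective x
  rw [Pic0.correspondence_mk, pullbackPic0Along_mk, pullbackPic0Along_mk,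
    Pic0.correspondence_mk]
  congr 1
  apply Subtype.ext
  simp only [coe_pullbackDegZeroAlong, Pic0.coe_degZeroCorrespondence]
  exact pullbackAlong_correspondence a b i a' b' i₁ ha hb hi ha' hb' hi₁ hsqa hsqb
    hfin hN hfin' hN' hnorm hLG D

end Pic0Comm

end Fermat.Agent.S37.H818

end

end
-- ===== PACK-END S37/H818/HeckeComm.lean

-- ===== PACK-BEGIN S24/Mod/H997Bridge.lean
section


/-!
# S24 / MOD — analytic interface (`HolBase`) and the bridge `e : R_N → Hol`

`HolBase N` packages a ring `Hol` of functions `ℍ → ℂ` (intended: holomorphic functions on `ℍ`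
invariant under `Γ(N)` and meromorphic at the cusps), stable under the action of `SL(2,ℤ)`,
containing the functions `J d = (τ ↦ j(dτ))` for `d ∣ N`, together with ONE injective expansion
ring hom `qexp : Hol →+* ℂ((z))` (intended: expansion at `i∞` in `z = q^{1/N}`) such that the
expansion of `J d` is the formal series `jq(z^{N d})` of the Prelude.

From this we construct the *bridge* `e : R_N →+* Hol` (injective, `e (j(q^d)) = J d`,
`e c = const (ι c)`), i.e. "formal relation ⇔ analytic relation".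
-/

set_option autoImplicit false

noncomputable section

open ModularCurve HahnSeries UpperHalfPlane
open scoped MatrixGroups

namespace Fermat.Agent.S24.H997

/-- Precomposition of a function on `ℍ` with the action of `g ∈ SL(2,ℤ)`. -/
def compSL (g : SL(2, ℤ)) (f : ℍ → ℂ) : ℍ → ℂ := fun τ => f (g • τ)

@[simp] theorem compSL_apply (g : SL(2, ℤ)) (f : ℍ → ℂ) (τ : ℍ) : compSL g f τ = f (g • τ) := rfl

theorem compSL_one (f : ℍ → ℂ) : compSL 1 f = f := by
  funext τ; simp [compSL]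

theorem compSL_mul (g h : SL(2, ℤ)) (f : ℍ → ℂ) : compSL (g * h) f = compSL h (compSL g f) := by
  funext τ; simp [compSL, mul_smul]

/-- The fixed embedding `ℚ̄ → ℂ`. -/
def ιKAlg : Kbar →ₐ[ℚ] ℂ :=
  haveI : Algebra.IsAlgebraic ℚ (AlgebraicClosure ℚ) := AlgebraicClosure.isAlgebraic ℚ
  IsAlgClosed.lift

/-- The fixed embedding `ℚ̄ → ℂ`. -/
def ιK : Kbar →+* ℂ := ιKAlg.toRingHom

theorem ιK_injective : Function.Injective ιK := ιK.injective

theorem ιK_algebraMap (c : ℚ) : ιK (algebraMap ℚ Kbar c) = (c : ℂ) := by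
  have := ιKAlg.commutes c
  simpa [ιK] using this

/-- Basic analytic interface. -/
structure HolBase (N : ℕ) [NeZero N] where
  /-- the ring of nice functions on `ℍ` -/
  Hol : Subring (ℍ → ℂ)
  const_mem : ∀ c : ℂ, (fun _ : ℍ => c) ∈ Hol
  comp_mem : ∀ (g : SL(2, ℤ)) (f : ℍ → ℂ), f ∈ Hol → compSL g f ∈ Hol
  /-- `J d τ = j(dτ)` -/
  J : ℕ → ℍ → ℂ
  J_mem : ∀ d, d ∣ N → J d ∈ Hol
  J_one_inv : ∀ (g : SL(2, ℤ)) (τ : ℍ), J 1 (g • τ) = J 1 τ
  J_inv : ∀ d, d ∣ N → ∀ g ∈ CongruenceSubgroup.Gamma0 N, ∀ τ : ℍ, J d (g • τ) = J d τ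
  J_distinct : ∀ g : SL(2, ℤ), (∀ τ : ℍ, J N (g • τ) = J N τ) → g ∈ CongruenceSubgroup.Gamma0 N
  /-- expansion at `i∞` in the variable `z = q^{1/N}` -/
  qexp : Hol →+* LaurentSeries ℂ
  qexp_injective : Function.Injective qexp
  qexp_const : ∀ c : ℂ, qexp ⟨_, const_mem c⟩ = HahnSeries.C c
  qexp_J : ∀ (d : ℕ) (hd : d ∣ N) (k : ℤ),
    (qexp ⟨J d, J_mem d hd⟩).coeff k
      = if ((N * d : ℕ) : ℤ) ∣ k then ((jq.coeff (k / ((N * d : ℕ) : ℤ)) : ℚ) : ℂ) else 0

namespace HolBase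

variable {N : ℕ} [NeZero N] (B : HolBase N)

/-- constant functions as elements of `Hol` -/
def constH (c : ℂ) : B.Hol := ⟨_, B.const_mem c⟩

/-- `J d` as an element of `Hol` -/
def JH (d : ℕ) (hd : d ∣ N) : B.Hol := ⟨B.J d, B.J_mem d hd⟩

/-- precomposition with `g ∈ SL(2,ℤ)` as a ring endomorphism of `Hol` -/
def compH (g : SL(2, ℤ)) : B.Hol →+* B.Hol where
  toFun h := ⟨compSL g h.1, B.comp_mem g h.1 h.2⟩
  map_one' := rfl
  map_mul' _ _ := rfl
  map_zero' := rfl
  map_add' _ _ := rfl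

@[simp] theorem compH_apply (g : SL(2, ℤ)) (h : B.Hol) (τ : ℍ) :
    (B.compH g h : ℍ → ℂ) τ = (h : ℍ → ℂ) (g • τ) := rfl

theorem compH_one (h : B.Hol) : B.compH 1 h = h := by
  apply Subtype.ext; funext τ; simp

theorem compH_mul (g g' : SL(2, ℤ)) (h : B.Hol) :
    B.compH (g * g') h = B.compH g' (B.compH g h) := by
  apply Subtype.ext; funext τ; simp [mul_smul]

theorem compH_injective (g : SL(2, ℤ)) : Function.Injective (B.compH g) := by
  intro h h' hh
  have := congrArg (B.compH g⁻¹) hh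
  rwa [← compH_mul, ← compH_mul, mul_inv_cancel, compH_one, compH_one] at this

theorem compH_constH (g : SL(2, ℤ)) (c : ℂ) : B.compH g (B.constH c) = B.constH c := rfl

theorem compH_JH_one (g : SL(2, ℤ)) : B.compH g (B.JH 1 (one_dvd N)) = B.JH 1 (one_dvd N) := by
  apply Subtype.ext; funext τ; exact B.J_one_inv g τ

theorem compH_JH_of_mem (d : ℕ) (hd : d ∣ N) {g : SL(2, ℤ)}
    (hg : g ∈ CongruenceSubgroup.Gamma0 N) : B.compH g (B.JH d hd) = B.JH d hd := by
  apply Subtype.ext; funext τ; exact B.J_inv d hd g hg τ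

/-- The formal comparison map `ℚ̄((q)) → ℂ((z))`, `q ↦ z^N`, coefficients via `ιK`. -/
def Φ (N : ℕ) [NeZero N] : LaurentSeries Kbar →+* LaurentSeries ℂ :=
  (qExpand ℂ N).comp (coeffMap ιK)

theorem Φ_injective : Function.Injective (Φ N) := by
  intro x y h
  have h1 : coeffMap ιK x = coeffMap ιK y := qExpand_injective N h
  ext k
  apply ιK_injective
  have := congrArg (fun s => s.coeff k) h1
  simpa using this

theorem Φ_coeff (x : LaurentSeries Kbar) (k : ℤ) :
    (Φ N x).coeff k = if (N : ℤ) ∣ k then ιK (x.coeff (k / N)) else 0 := by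
  split_ifs with h
  · obtain ⟨m, rfl⟩ := h
    have hN : (N : ℤ) ≠ 0 := by exact_mod_cast NeZero.ne N
    rw [Int.mul_ediv_cancel_left _ hN]
    show (qExpand ℂ N (coeffMap ιK x)).coeff (N * m) = _
    rw [qExpand_coeff_mul]; rfl
  · exact qExpand_coeff_of_not_dvd N _ h

theorem Φ_algebraMap (c : Kbar) :
    Φ N (algebraMap Kbar (LaurentSeries Kbar) c) = HahnSeries.C (ιK c) := by
  rw [algebraMap_laurentSeries_eq_single]
  show qExpand ℂ N (coeffMap ιK (HahnSeries.single 0 c)) = _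
  rw [coeffMap_single, qExpand_single, mul_zero]; rfl

theorem Φ_gen (d : ℕ) [NeZero d] (hd : d ∣ N) :
    Φ N (coeffEmb Kbar (qExpand ℚ d jq)) = B.qexp (B.JH d hd) := by
  ext k
  rw [Φ_coeff]
  show _ = (B.qexp ⟨B.J d, B.J_mem d hd⟩).coeff k
  rw [B.qexp_J d hd k]
  have hN : (N : ℤ) ≠ 0 := by exact_mod_cast NeZero.ne N
  have hd0 : (d : ℤ) ≠ 0 := by exact_mod_cast NeZero.ne d
  by_cases h1 : (N : ℤ) ∣ k
  · obtain ⟨m, rfl⟩ := h1
    rw [if_pos (dvd_mul_right _ _), Int.mul_ediv_cancel_left _ hN, coeffEmb_coeff, ιK_algebraMap]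
    by_cases h2 : (d : ℤ) ∣ m
    · obtain ⟨l, rfl⟩ := h2
      have h3 : ((N * d : ℕ) : ℤ) ∣ (N : ℤ) * (d * l) := ⟨l, by push_cast; ring⟩
      rw [if_pos h3, qExpand_coeff_mul]
      have : (N : ℤ) * (d * l) / ((N * d : ℕ) : ℤ) = l := by
        have h4 : (N : ℤ) * (d * l) = ((N * d : ℕ) : ℤ) * l := by push_cast; ring
        rw [h4, Int.mul_ediv_cancel_left]
        exact_mod_cast (Nat.mul_ne_zero (NeZero.ne N) (NeZero.ne d))
      rw [this]
    · have h3 : ¬ ((N * d : ℕ) : ℤ) ∣ (N : ℤ) * m := by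
        rintro ⟨l, hl⟩
        apply h2
        refine ⟨l, ?_⟩
        have : (N : ℤ) * m = N * (d * l) := by rw [hl]; push_cast; ring
        exact mul_left_cancel₀ hN this
      rw [if_neg h3, qExpand_coeff_of_not_dvd d _ h2]
      simp
  · have h3 : ¬ ((N * d : ℕ) : ℤ) ∣ k := by
      intro h; apply h1
      exact dvd_trans ⟨(d : ℤ), by push_cast; ring⟩ h
    rw [if_neg h1, if_neg h3]

theorem Φ_mem_range {r : LaurentSeries Kbar} (hr : r ∈ RN N) : Φ N r ∈ B.qexp.range := by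
  induction hr using Algebra.adjoin_induction with
  | mem x hx =>
      obtain ⟨y, ⟨d, hne, hd, rfl⟩, rfl⟩ := hx
      exact ⟨B.JH d hd, (B.Φ_gen d hd).symm⟩
  | algebraMap c =>
      exact ⟨B.constH (ιK c), by rw [Φ_algebraMap]; exact B.qexp_const _⟩
  | add _ _ _ _ hx hy => rw [map_add]; exact add_mem hx hy
  | mul _ _ _ _ hx hy => rw [map_mul]; exact mul_mem hx hy

/-- `Hol ≃ range qexp`. -/
def qexpEquiv : B.Hol ≃+* B.qexp.range :=
  RingEquiv.ofBijective B.qexp.rangeRestrict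
    ⟨fun x y h => B.qexp_injective (congrArg Subtype.val h), B.qexp.rangeRestrict_surjective⟩

/-- The bridge `e : R_N →+* Hol`. -/
def bridge : RN N →+* B.Hol :=
  (B.qexpEquiv.symm : B.qexp.range →+* B.Hol).comp
    (((Φ N).comp (RN N).val.toRingHom).codRestrict B.qexp.range fun r => B.Φ_mem_range r.2)

theorem qexp_bridge (r : RN N) : B.qexp (B.bridge r) = Φ N (r : LaurentSeries Kbar) := by
  have h := B.qexpEquiv.apply_symm_apply
    ((((Φ N).comp (RN N).val.toRingHom).codRestrict B.qexp.range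
      fun r => B.Φ_mem_range r.2) r)
  exact congrArg Subtype.val h

theorem bridge_injective : Function.Injective B.bridge := by
  intro r r' h
  apply Subtype.ext
  apply Φ_injective (N := N)
  rw [← qexp_bridge, ← qexp_bridge, h]

theorem bridge_algebraMap (c : Kbar) : B.bridge (algebraMap Kbar (RN N) c) = B.constH (ιK c) := by
  apply B.qexp_injective
  rw [qexp_bridge]
  show Φ N (algebraMap Kbar (LaurentSeries Kbar) c) = _
  rw [Φ_algebraMap]
  exact (B.qexp_const _).symm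

theorem bridge_jR (d : ℕ) [NeZero d] (hd : d ∣ N) : B.bridge (jR N d hd) = B.JH d hd := by
  apply B.qexp_injective
  rw [qexp_bridge]
  exact B.Φ_gen d hd

/-- Every `e r` is `Γ₀(N)`-invariant. -/
theorem compH_bridge_of_mem {g : SL(2, ℤ)} (hg : g ∈ CongruenceSubgroup.Gamma0 N) (r : RN N) :
    B.compH g (B.bridge r) = B.bridge r := by
  obtain ⟨r, hr⟩ := r
  induction hr using Algebra.adjoin_induction with
  | mem x hx =>
      obtain ⟨y, ⟨d, hne, hd, rfl⟩, rfl⟩ := hx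
      have : (⟨coeffEmb Kbar (qExpand ℚ d jq), Algebra.subset_adjoin
          ⟨_, ⟨d, hne, hd, rfl⟩, rfl⟩⟩ : RN N) = jR N d hd := rfl
      rw [this, bridge_jR]
      exact B.compH_JH_of_mem d hd hg
  | algebraMap c =>
      have : (⟨algebraMap Kbar (LaurentSeries Kbar) c, Subalgebra.algebraMap_mem _ c⟩ : RN N)
          = algebraMap Kbar (RN N) c := rfl
      rw [this, bridge_algebraMap]
      rfl
  | add x y hx hy ihx ihy =>
      have : (⟨x + y, add_mem hx hy⟩ : RN N) = ⟨x, hx⟩ + ⟨y, hy⟩ := rfl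
      rw [this, map_add, map_add, ihx, ihy]
  | mul x y hx hy ihx ihy =>
      have : (⟨x * y, mul_mem hx hy⟩ : RN N) = ⟨x, hx⟩ * ⟨y, hy⟩ := rfl
      rw [this, map_mul, map_mul, ihx, ihy]

end HolBase

end Fermat.Agent.S24.H997

end
end
-- ===== PACK-END S24/Mod/H997Bridge.lean

-- ===== PACK-BEGIN S20/Comb694/Index.lean
section





/-!
# The index of `Gamma0 N` in `SL(2,ℤ)` is the Dedekind psi function

* `index_Gamma0 : (Gamma0 N).index = ModularCurve.dedekindPsi N` (all `N`, including `N = 0`)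
* `card_quotient_Gamma0 : Nat.card (SL(2,ℤ) ⧸ Gamma0 N) = ModularCurve.dedekindPsi N`
-/

set_option autoImplicit false

namespace Fermat.Agent.S20.Comb694

open Matrix MatrixGroups CongruenceSubgroup

lemma dedekindPsi_prime_mul_of_dvd (p M : ℕ) (hp : p.Prime) (hM : M ≠ 0) (h : p ∣ M) :
    ModularCurve.dedekindPsi (p * M) = p * ModularCurve.dedekindPsi M := by
  unfold ModularCurve.dedekindPsi
  have hset : (p * M).divisors.filter Squarefree = M.divisors.filter Squarefree := by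
    ext d
    simp only [Finset.mem_filter, Nat.mem_divisors]
    constructor
    · rintro ⟨⟨hd, -⟩, hsq⟩
      refine ⟨⟨?_, hM⟩, hsq⟩
      by_cases hpd : p ∣ d
      · obtain ⟨d', rfl⟩ := hpd
        have hd' : d' ∣ M := (Nat.mul_dvd_mul_iff_left hp.pos).mp hd
        have hcop : Nat.Coprime p d' := by
          rw [Nat.Prime.coprime_iff_not_dvd hp]
          intro hpd'
          have h2 : p * p ∣ p * d' := Nat.mul_dvd_mul_left p hpd'
          have h3 := hsq p h2
          exact hp.one_lt.ne' (Nat.isUnit_iff.mp h3)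
        exact Nat.Coprime.mul_dvd_of_dvd_of_dvd hcop h hd'
      · exact Nat.Coprime.dvd_of_dvd_mul_left
          ((Nat.Prime.coprime_iff_not_dvd hp).mpr hpd).symm hd
    · rintro ⟨⟨hd, -⟩, hsq⟩
      exact ⟨⟨dvd_mul_of_dvd_right hd p, mul_ne_zero hp.ne_zero hM⟩, hsq⟩
  rw [hset, Finset.mul_sum]
  refine Finset.sum_congr rfl fun d hd => ?_
  have hd' : d ∣ M := (Nat.mem_divisors.mp (Finset.mem_filter.mp hd).1).1
  exact Nat.mul_div_assoc p hd'

lemma dedekindPsi_prime_mul_of_not_dvd (p M : ℕ) (hp : p.Prime) (hM : M ≠ 0) (h : ¬ p ∣ M) :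
    ModularCurve.dedekindPsi (p * M) = (p + 1) * ModularCurve.dedekindPsi M := by
  unfold ModularCurve.dedekindPsi
  rw [← Finset.sum_filter_add_sum_filter_not ((p * M).divisors.filter Squarefree) (fun d => p ∣ d)]
  have hset1 : ((p * M).divisors.filter Squarefree).filter (fun d => ¬ p ∣ d)
      = M.divisors.filter Squarefree := by
    ext d
    simp only [Finset.mem_filter, Nat.mem_divisors]
    constructor
    · rintro ⟨⟨⟨hd, -⟩, hsq⟩, hpd⟩
      exact ⟨⟨Nat.Coprime.dvd_of_dvd_mul_left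
        ((Nat.Prime.coprime_iff_not_dvd hp).mpr hpd).symm hd, hM⟩, hsq⟩
    · rintro ⟨⟨hd, -⟩, hsq⟩
      exact ⟨⟨⟨dvd_mul_of_dvd_right hd p, mul_ne_zero hp.ne_zero hM⟩, hsq⟩,
        fun hpd => h (dvd_trans hpd hd)⟩
  have hset2 : ((p * M).divisors.filter Squarefree).filter (fun d => p ∣ d)
      = (M.divisors.filter Squarefree).image (fun d => p * d) := by
    ext d
    simp only [Finset.mem_filter, Nat.mem_divisors, Finset.mem_image]
    constructor
    · rintro ⟨⟨⟨hd, -⟩, hsq⟩, ⟨d', rfl⟩⟩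
      exact ⟨d', ⟨⟨(Nat.mul_dvd_mul_iff_left hp.pos).mp hd, hM⟩, hsq.of_mul_right⟩, rfl⟩
    · rintro ⟨d', ⟨⟨hd', -⟩, hsq'⟩, rfl⟩
      have hcop : Nat.Coprime p d' :=
        (Nat.Prime.coprime_iff_not_dvd hp).mpr fun hpd => h (dvd_trans hpd hd')
      exact ⟨⟨⟨Nat.mul_dvd_mul_left p hd', mul_ne_zero hp.ne_zero hM⟩,
        (Nat.squarefree_mul hcop).mpr ⟨hp.prime.squarefree, hsq'⟩⟩, dvd_mul_right _ _⟩
  rw [hset1, hset2, Finset.sum_image (fun x _ y _ hxy => Nat.eq_of_mul_eq_mul_left hp.pos hxy),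
    add_mul, one_mul, Finset.mul_sum, add_comm]
  congr 1
  · refine Finset.sum_congr rfl fun d hd => ?_
    have hd' : d ∣ M := (Nat.mem_divisors.mp (Finset.mem_filter.mp hd).1).1
    exact Nat.mul_div_assoc p hd'
  · refine Finset.sum_congr rfl fun d hd => ?_
    exact Nat.mul_div_mul_left M d hp.pos

lemma Gamma0_one_eq_top : Gamma0 1 = ⊤ := by
  ext g
  simp only [Gamma0_mem, Subgroup.mem_top, iff_true]
  exact Subsingleton.elim _ _

lemma index_Gamma0_zero : (Gamma0 0).index = 0 := by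
  rw [Subgroup.index]
  haveI : Infinite (SL(2, ℤ) ⧸ Gamma0 0) := by
    refine Infinite.of_injective
      (fun t : ℤ => (QuotientGroup.mk (lowRep t) : SL(2, ℤ) ⧸ Gamma0 0)) ?_
    intro t t' h
    simp only at h
    rw [mk_eq_mk_iff] at h
    simp only [lowRep_apply_zero_zero, lowRep_apply_one_zero, Int.cast_one, one_mul,
      mul_one] at h
    have h' : ((t' - t : ℤ) : ZMod 0) = 0 := h
    have h'' := (ZMod.intCast_zmod_eq_zero_iff_dvd (t' - t) 0).mp h'
    simp only [Nat.cast_zero, zero_dvd_iff] at h''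
    exact (sub_eq_zero.mp h'').symm
  exact Nat.card_eq_zero_of_infinite

lemma dedekindPsi_zero : ModularCurve.dedekindPsi 0 = 0 := by
  simp [ModularCurve.dedekindPsi]

/-- **(I1)** The index of `Γ₀(N)` in `SL(2,ℤ)` is `ψ(N)` (for `N ≠ 0`). -/
theorem index_Gamma0_of_ne_zero (N : ℕ) (hN : N ≠ 0) :
    (Gamma0 N).index = ModularCurve.dedekindPsi N := by
  induction N using induction_on_primes with
  | zero => exact absurd rfl hN
  | one => rw [ModularCurve.dedekindPsi_one, Gamma0_one_eq_top, Subgroup.index_top]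
  | prime_mul p M hp ih =>
    have hM : M ≠ 0 := fun h => hN (by rw [h, mul_zero])
    rw [← Subgroup.relIndex_mul_index (Gamma0_mul_le p M), ih hM]
    by_cases h : p ∣ M
    · rw [relIndex_Gamma0_of_dvd p M hM hp h, dedekindPsi_prime_mul_of_dvd p M hp hM h]
    · rw [relIndex_Gamma0_of_not_dvd p M hM hp h, dedekindPsi_prime_mul_of_not_dvd p M hp hM h]

/-- **(I1)** The index of `Γ₀(N)` in `SL(2,ℤ)` is `ψ(N)` (all `N`; both sides are `0` for
`N = 0`). -/
theorem index_Gamma0 (N : ℕ) : (Gamma0 N).index = ModularCurve.dedekindPsi N := by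
  rcases eq_or_ne N 0 with rfl | hN
  · rw [index_Gamma0_zero, dedekindPsi_zero]
  · exact index_Gamma0_of_ne_zero N hN

/-- **(I1)** `#(SL(2,ℤ) ⧸ Γ₀(N)) = ψ(N)`. -/
theorem card_quotient_Gamma0 (N : ℕ) :
    Nat.card (SL(2, ℤ) ⧸ Gamma0 N) = ModularCurve.dedekindPsi N :=
  index_Gamma0 N

end Fermat.Agent.S20.Comb694

end
-- ===== PACK-END S20/Comb694/Index.lean

-- ===== PACK-BEGIN S28/H565/JExp.lean
section





/-!
# S28 analytic bridge, part 3: the `q`-expansions of `Δ`, `E₄` and `j` (helper565)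

We identify the analytic `q`-expansions of Mathlib's `Δ`, `E₄` and of `j = E₄³/Δ` with the
formal series of the Prelude (`ModularCurve.etaProd`, `ModularCurve.eisenstein4`,
`ModularCurve.jqModC ℂ`).
-/

set_option autoImplicit false

noncomputable section

open UpperHalfPlane Complex Function Filter Topology ModularForm
open scoped Real PowerSeries.WithPiTopology MatrixGroups

namespace Fermat.Agent.S28.H565

local notation "𝕢" => Periodic.qParam

/-- The Taylor series at `0` of a function on the unit disc, as a formal power series. -/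
def taylorPS (G : ℂ → ℂ) : PowerSeries ℂ :=
  PowerSeries.mk fun n => (n.factorial : ℂ)⁻¹ * iteratedDeriv n G 0

theorem hasPExp_of_differentiableOn {G : ℂ → ℂ}
    (hG : DifferentiableOn ℂ G (Metric.ball 0 1)) {h : ℝ} (hh : 0 < h) :
    HasPExp h (fun τ => G (𝕢 h τ)) (taylorPS G) := by
  intro τ
  have hq : 𝕢 h τ ∈ Metric.ball (0 : ℂ) 1 := by
    simpa using Periodic.norm_qParam_lt_one hh τ.im_pos
  have := hasSum_taylorSeries_on_ball hG hq
  refine this.congr_fun ?_ |>.mono_left le_rfl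
  intro k
  simp only [taylorPS, PowerSeries.coeff_mk, sub_zero, smul_eq_mul]
  ring

theorem hasPExp_eulerFun {h : ℝ} (hh : 0 < h) :
    HasPExp h (fun τ => eulerFun (𝕢 h τ)) etaProdC :=
  fun τ => hasSum_etaProdC (Periodic.norm_qParam_lt_one hh τ.im_pos)

theorem eulerFun_zero : eulerFun 0 = 1 := by
  simp [eulerFun]

theorem eulerFun_ne_zero {q : ℂ} (hq : ‖q‖ < 1) : eulerFun q ≠ 0 := by
  rcases eq_or_ne q 0 with rfl | hq0
  · rw [eulerFun_zero]; exact one_ne_zero
  · have him := Periodic.im_invQParam_pos_of_norm_lt_one one_pos hq hq0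
    have h1 := ModularForm.eta_tprod_ne_zero (z := Periodic.invQParam 1 q) him
    have h2 : ∀ n : ℕ, ModularForm.eta_q n (Periodic.invQParam 1 q) = q ^ (n + 1) := by
      intro n
      rw [ModularForm.eta_q_eq_pow]
      congr 1
      have := Periodic.qParam_right_inv one_ne_zero hq0
      simpa [Periodic.qParam] using this
    simpa [eulerFun, h2] using h1

theorem discriminant_eq_eulerFun (τ : ℍ) :
    ModularForm.discriminant τ = 𝕢 1 τ * eulerFun (𝕢 1 τ) ^ 24 := by
  rw [ModularForm.discriminant_eq_q_prod]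
  have hq : ‖𝕢 1 (τ : ℂ)‖ < 1 := Periodic.norm_qParam_lt_one one_pos τ.im_pos
  have h2 : ∀ n : ℕ, ModularForm.eta_q n (τ : ℂ) = 𝕢 1 τ ^ (n + 1) := by
    intro n
    rw [ModularForm.eta_q_eq_pow]
    simp [Periodic.qParam]
  simp only [h2]
  rw [(ModularForm.multipliable_one_sub_pow hq).tprod_pow 24]
  rfl

/-- The complex version of the formal series `dedekindEtaUnit = etaProd ^ 24`. -/
theorem map_dedekindEtaUnit :
    PowerSeries.map (Int.castRingHom ℂ) ModularCurve.dedekindEtaUnit = etaProdC ^ 24 := by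
  rw [ModularCurve.dedekindEtaUnit, map_pow, etaProdC]

/-- The complex version of the formal inverse of `etaProd ^ 24`. -/
def etaInvC : PowerSeries ℂ := PowerSeries.map (Int.castRingHom ℂ) ModularCurve.dedekindEtaUnitInv

theorem etaProdC_pow_mul_etaInvC : etaProdC ^ 24 * etaInvC = 1 := by
  rw [← map_dedekindEtaUnit, etaInvC, ← map_mul, ModularCurve.dedekindEtaUnit_mul_inv, map_one]

theorem hasPExp_eulerFun_pow_inv {h : ℝ} (hh : 0 < h) :
    HasPExp h (fun τ => (eulerFun (𝕢 h τ) ^ 24)⁻¹) etaInvC := by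
  have hd : DifferentiableOn ℂ (fun q => (eulerFun q ^ 24)⁻¹) (Metric.ball 0 1) := by
    refine DifferentiableOn.inv (differentiableOn_eulerFun.pow 24) ?_
    intro q hq
    exact pow_ne_zero _ (eulerFun_ne_zero (by simpa using hq))
  have h1 := hasPExp_of_differentiableOn hd hh
  have h2 := (hasPExp_eulerFun hh).pow 24
  have h3 := h1.mul h2
  have h4 : HasPExp h 1 (taylorPS (fun q => (eulerFun q ^ 24)⁻¹) * etaProdC ^ 24) := by
    refine h3.congr fun τ => ?_
    have hne : eulerFun (𝕢 h τ) ^ 24 ≠ 0 :=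
      pow_ne_zero _ (eulerFun_ne_zero (Periodic.norm_qParam_lt_one hh τ.im_pos))
    simp only [Pi.mul_apply, Pi.pow_apply, Pi.one_apply]
    exact inv_mul_cancel₀ hne
  have h5 : HasPExp h 1 1 := by
    have := HasPExp.const (h := h) 1
    rwa [map_one] at this
  have h6 := h4.unique hh h5
  have h7 : taylorPS (fun q => (eulerFun q ^ 24)⁻¹) = etaInvC := by
    calc taylorPS (fun q => (eulerFun q ^ 24)⁻¹)
        = taylorPS (fun q => (eulerFun q ^ 24)⁻¹) * (etaProdC ^ 24 * etaInvC) := by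
          rw [etaProdC_pow_mul_etaInvC, mul_one]
      _ = etaInvC := by rw [← mul_assoc, h6, one_mul]
  rw [← h7]
  exact h1

/-- The formal `q`-expansion of `Δ`, over `ℂ`. -/
def deltaSeriesC : LaurentSeries ℂ :=
  HahnSeries.single (1 : ℤ) (1 : ℂ) * HahnSeries.ofPowerSeries ℤ ℂ (etaProdC ^ 24)

/-- The formal `q`-expansion of `Δ⁻¹`, over `ℂ`. -/
def deltaInvSeriesC : LaurentSeries ℂ :=
  HahnSeries.single (-1 : ℤ) (1 : ℂ) * HahnSeries.ofPowerSeries ℤ ℂ etaInvC

theorem deltaSeriesC_mul_inv : deltaSeriesC * deltaInvSeriesC = 1 := by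
  rw [deltaSeriesC, deltaInvSeriesC]
  have h1 : HahnSeries.single (1 : ℤ) (1 : ℂ) * HahnSeries.single (-1 : ℤ) (1 : ℂ) = 1 := by
    rw [HahnSeries.single_mul_single]
    simp
  have h2 : HahnSeries.ofPowerSeries ℤ ℂ (etaProdC ^ 24) * HahnSeries.ofPowerSeries ℤ ℂ etaInvC
      = 1 := by
    rw [← map_mul, etaProdC_pow_mul_etaInvC, map_one]
  calc HahnSeries.single (1 : ℤ) (1 : ℂ) * HahnSeries.ofPowerSeries ℤ ℂ (etaProdC ^ 24) *
        (HahnSeries.single (-1 : ℤ) (1 : ℂ) * HahnSeries.ofPowerSeries ℤ ℂ etaInvC)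
      = (HahnSeries.single (1 : ℤ) (1 : ℂ) * HahnSeries.single (-1 : ℤ) (1 : ℂ)) *
        (HahnSeries.ofPowerSeries ℤ ℂ (etaProdC ^ 24) * HahnSeries.ofPowerSeries ℤ ℂ etaInvC) := by
          ring
    _ = 1 := by rw [h1, h2, mul_one]

/-- **`q`-expansion of `Δ`**. -/
theorem hasTExp_discriminant : HasTExp 1 ModularForm.discriminant deltaSeriesC := by
  rw [deltaSeriesC, hasTExp_single_mul_iff]
  refine ((hasPExp_eulerFun one_pos).pow 24).congr fun τ => ?_
  have hq : 𝕢 1 (τ : ℂ) ≠ 0 := Periodic.qParam_ne_zero _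
  rw [discriminant_eq_eulerFun, zpow_neg, zpow_one]
  simp only [Pi.pow_apply]
  field_simp

/-- **`q`-expansion of `Δ⁻¹`**. -/
theorem hasTExp_discriminant_inv :
    HasTExp 1 (fun τ => (ModularForm.discriminant τ)⁻¹) deltaInvSeriesC := by
  rw [deltaInvSeriesC, hasTExp_single_mul_iff]
  refine (hasPExp_eulerFun_pow_inv one_pos).congr fun τ => ?_
  have hq : 𝕢 1 (τ : ℂ) ≠ 0 := Periodic.qParam_ne_zero _
  rw [discriminant_eq_eulerFun, neg_neg, zpow_one, mul_inv]
  field_simp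

/-- The complex version of the formal Eisenstein series `E₄`. -/
def e4C : PowerSeries ℂ := PowerSeries.map (Int.castRingHom ℂ) ModularCurve.eisenstein4

theorem qExpansion_E₄ : qExpansion 1 E₄ = e4C := by
  ext m
  rw [EisensteinSeries.E_qExpansion_coeff _ ⟨2, rfl⟩, e4C, PowerSeries.coeff_map,
    ModularCurve.eisenstein4, PowerSeries.coeff_mk]
  by_cases hm : m = 0
  · simp [hm]
  · rw [if_neg hm, if_neg hm, show bernoulli 4 = -1 / 30 by decide +kernel,
      ArithmeticFunction.sigma_apply, eq_intCast]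
    push_cast
    ring

/-- **`q`-expansion of `E₄`**. -/
theorem hasPExp_E₄ : HasPExp 1 E₄ e4C := by
  intro τ
  have := ModularForm.hasSum_qExpansion E₄ one_pos one_mem_strictPeriods_SL τ
  rwa [qExpansion_E₄] at this

/-- The analytic `j`-function `E₄³/Δ`. -/
def jFun (τ : ℍ) : ℂ := E₄ τ ^ 3 / ModularForm.discriminant τ

theorem jqModC_eq : ModularCurve.jqModC ℂ =
    HahnSeries.single (-1 : ℤ) (1 : ℂ) * HahnSeries.ofPowerSeries ℤ ℂ (e4C ^ 3 * etaInvC) := by
  rw [ModularCurve.jqModC, ModularCurve.jNum, map_mul, map_pow, e4C, etaInvC]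

/-- **`q`-expansion of `j`**: the analytic `j`-function has the Prelude's formal series
`jqModC ℂ` as its convergent Laurent expansion in `q = exp (2πiτ)`. -/
theorem hasTExp_jFun : HasTExp 1 jFun (ModularCurve.jqModC ℂ) := by
  rw [jqModC_eq, hasTExp_single_mul_iff]
  refine ((hasPExp_E₄.pow 3).mul (hasPExp_eulerFun_pow_inv one_pos)).congr fun τ => ?_
  have hq : 𝕢 1 (τ : ℂ) ≠ 0 := Periodic.qParam_ne_zero _
  have hE : eulerFun (𝕢 1 τ) ^ 24 ≠ 0 :=
    pow_ne_zero _ (eulerFun_ne_zero (Periodic.norm_qParam_lt_one one_pos τ.im_pos))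
  simp only [Pi.mul_apply, Pi.pow_apply, jFun]
  rw [discriminant_eq_eulerFun, neg_neg, zpow_one]
  field_simp

end Fermat.Agent.S28.H565

end
end
-- ===== PACK-END S28/H565/JExp.lean

-- ===== PACK-BEGIN A2/H12/DeckTwo.lean
section


/-!
# Cell A2 — route G: the deck lemma for a two-chart model, ring form (helper12)

Mathlib-only.  `R₁`, `R₂` are the two charts of the model of the cover, `Q₁ s`, `Q₂ s` the ideal of
the sheet `s` in the two charts, `ρ₁`, `ρ₂` the restriction of `τ̃⁻¹` to the charts.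

* `fixes_all_two` : if `τ̃` fixes one sheet, is the identity modulo every fixed sheet (`h_triv`),
  a closed point carries at most one sheet of each colour (`h_uni` = COUNT), and the sheet graph
  is connected (`h_conn`), then `τ̃` fixes every sheet.
-/

set_option autoImplicit false

namespace Fermat.Agent.A2.H12

section Two

variable {R₁ R₂ : Type*} [CommRing R₁] [CommRing R₂] {S C : Type*}

/-- adjacency: not comaximal in one of the two charts -/
def TwoAdj (Q₁ : S → Ideal R₁) (Q₂ : S → Ideal R₂) (s t : S) : Prop :=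
  (¬ ∃ a ∈ Q₁ s, ∃ b ∈ Q₁ t, a + b = 1) ∨ (¬ ∃ a ∈ Q₂ s, ∃ b ∈ Q₂ t, a + b = 1)

/-- **Deck lemma, two charts, ring form.** -/
theorem fixes_all_two (ρ₁ : R₁ →+* R₁) (hρ₁ : Function.Surjective ρ₁)
    (ρ₂ : R₂ →+* R₂) (hρ₂ : Function.Surjective ρ₂)
    (Q₁ : S → Ideal R₁) (Q₂ : S → Ideal R₂) (τS : S → S) (col : S → C)
    (hQ₁ : ∀ s b, b ∈ Q₁ (τS s) → ρ₁ b ∈ Q₁ s)
    (hQ₂ : ∀ s b, b ∈ Q₂ (τS s) → ρ₂ b ∈ Q₂ s)
    (h_col : ∀ s, col (τS s) = col s)
    (h_triv₁ : ∀ s, τS s = s → ∀ b, ρ₁ b - b ∈ Q₁ s)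
    (h_triv₂ : ∀ s, τS s = s → ∀ b, ρ₂ b - b ∈ Q₂ s)
    (h_uni₁ : ∀ 𝔫 : Ideal R₁, 𝔫.IsMaximal → ∀ s t, col s = col t →
      Q₁ s ≤ 𝔫 → Q₁ t ≤ 𝔫 → s = t)
    (h_uni₂ : ∀ 𝔫 : Ideal R₂, 𝔫.IsMaximal → ∀ s t, col s = col t →
      Q₂ s ≤ 𝔫 → Q₂ t ≤ 𝔫 → s = t)
    (h_conn : ∀ s t : S, Relation.ReflTransGen (TwoAdj Q₁ Q₂) s t)
    (s₀ : S) (h₀ : τS s₀ = s₀) : ∀ s, τS s = s := by
  classical
  -- points: maximal ideals of the two charts
  let Pt := {𝔫 : Ideal R₁ // 𝔫.IsMaximal} ⊕ {𝔫 : Ideal R₂ // 𝔫.IsMaximal}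
  let inc : S → Pt → Prop := fun s p =>
    Sum.elim (fun 𝔫 => Q₁ s ≤ 𝔫.1) (fun 𝔫 => Q₂ s ≤ 𝔫.1) p
  let τP : Pt → Pt := fun p =>
    Sum.elim
      (fun 𝔫 => Sum.inl ⟨𝔫.1.comap ρ₁, by
        have := 𝔫.2
        exact Ideal.comap_isMaximal_of_surjective ρ₁ hρ₁⟩)
      (fun 𝔫 => Sum.inr ⟨𝔫.1.comap ρ₂, by
        have := 𝔫.2
        exact Ideal.comap_isMaximal_of_surjective ρ₂ hρ₂⟩) p
  refine fixes_all inc col τS τP h_col ?_ ?_ ?_ ?_ s₀ h₀
  · -- incidence is preserved
    rintro s (𝔫 | 𝔫) hsp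
    · intro b hb
      exact hsp (hQ₁ s b hb)
    · intro b hb
      exact hsp (hQ₂ s b hb)
  · -- points of a fixed sheet are fixed
    rintro s (𝔫 | 𝔫) hs hsp
    · have : 𝔫.1.comap ρ₁ = 𝔫.1 := by
        ext b
        rw [Ideal.mem_comap]
        have h1 : ρ₁ b - b ∈ 𝔫.1 := hsp (h_triv₁ s hs b)
        constructor
        · intro h
          have : b = ρ₁ b - (ρ₁ b - b) := by ring
          rw [this]
          exact 𝔫.1.sub_mem h h1
        · intro h
          have : ρ₁ b = (ρ₁ b - b) + b := by ring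
          rw [this]
          exact 𝔫.1.add_mem h1 h
      exact congrArg Sum.inl (Subtype.ext this)
    · have : 𝔫.1.comap ρ₂ = 𝔫.1 := by
        ext b
        rw [Ideal.mem_comap]
        have h1 : ρ₂ b - b ∈ 𝔫.1 := hsp (h_triv₂ s hs b)
        constructor
        · intro h
          have : b = ρ₂ b - (ρ₂ b - b) := by ring
          rw [this]
          exact 𝔫.1.sub_mem h h1
        · intro h
          have : ρ₂ b = (ρ₂ b - b) + b := by ring
          rw [this]
          exact 𝔫.1.add_mem h1 h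
      exact congrArg Sum.inr (Subtype.ext this)
  · -- COUNT
    rintro s t (𝔫 | 𝔫) hs ht hc
    · exact h_uni₁ 𝔫.1 𝔫.2 s t hc hs ht
    · exact h_uni₂ 𝔫.1 𝔫.2 s t hc hs ht
  · -- connectedness
    intro s t
    refine Relation.ReflTransGen.mono ?_ _ _ (h_conn s t)
    rintro a b (h | h)
    · obtain ⟨𝔫, h𝔫, ha, hb⟩ := exists_maximal_of_not_comaximal _ _ h
      exact ⟨Sum.inl ⟨𝔫, h𝔫⟩, ha, hb⟩
    · obtain ⟨𝔫, h𝔫, ha, hb⟩ := exists_maximal_of_not_comaximal _ _ h
      exact ⟨Sum.inr ⟨𝔫, h𝔫⟩, ha, hb⟩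

end Two

end Fermat.Agent.A2.H12

end
-- ===== PACK-END A2/H12/DeckTwo.lean

-- ===== PACK-BEGIN A2/T1/H669/T2.lean
section



/-!
# WALL A2, piece T2 (helper669): divisibility of the divisor descends from `F̄` to `F_E`

`E ⊆ ℚ̄` an intermediate field, `F_E = laurentBaseChange E F₀`, `F̄ = laurentBaseChange ℚ̄ F₀`,
`iota : F_E → F̄`.  If `y ∈ F_E` and `m ∣ ord_v (iota y)` for every `Place` `v` of `F̄ / ℚ̄`, then
for every discrete valuation subring `V` of `F_E` containing `E` we have `y = u · h ^ m` with `u` a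
unit of `V`, i.e. `Spec.DivisibleDiv E m y` (definition unfolded in the statement).

Proof: `S18.H845.exists_dvr_extension` (constant field extensions are unramified) extends `V` to a
discrete valuation subring `B` of `F̄` with the same uniformiser; `B` is a `Place`.
-/

set_option autoImplicit false
set_option synthInstance.maxHeartbeats 400000
set_option maxHeartbeats 1600000

noncomputable section

namespace Fermat.Agent.A2.T1.H669

open ModularCurve AlgebraicCurve

variable (E : IntermediateField ℚ _root_.Fermat.Agent.A2.T1.H669.Qb) (F₀ : IntermediateField ℚ (LaurentSeries ℚ))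

/-- `F̄` as an algebra over `F_E` (via `iota`). -/
@[reducible] def algFEFbar : Algebra ↥(laurentBaseChange E F₀) ↥(laurentBaseChange _root_.Fermat.Agent.A2.T1.H669.Qb F₀) :=
  (iota E F₀).toAlgebra

theorem towerEFEFbar :
    letI := algFEFbar E F₀
    IsScalarTower E ↥(laurentBaseChange E F₀) ↥(laurentBaseChange _root_.Fermat.Agent.A2.T1.H669.Qb F₀) := by
  letI := algFEFbar E F₀
  exact IsScalarTower.of_algebraMap_eq fun e => (iota_algebraMap E F₀ e).symm

theorem isAlgebraic_const (a : _root_.Fermat.Agent.A2.T1.H669.Qb) :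
    IsAlgebraic E (algebraMap _root_.Fermat.Agent.A2.T1.H669.Qb ↥(laurentBaseChange _root_.Fermat.Agent.A2.T1.H669.Qb F₀) a) := by
  have hQ : Algebra.IsAlgebraic ℚ _root_.Fermat.Agent.A2.T1.H669.Qb := AlgebraicClosure.isAlgebraic ℚ
  have ha : IsAlgebraic E a := (hQ.isAlgebraic a).tower_top E
  exact ha.algebraMap

/-- `F̄` is generated over `F_E` by algebraic constants. -/
theorem adjoin_algebraic_eq_top :
    letI := algFEFbar E F₀
    IntermediateField.adjoin ↥(laurentBaseChange E F₀)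
      {α : ↥(laurentBaseChange _root_.Fermat.Agent.A2.T1.H669.Qb F₀) | IsAlgebraic E α} = ⊤ := by
  letI := algFEFbar E F₀
  rw [eq_top_iff]
  rintro ⟨z, hz⟩ -
  have key : ∃ w : ↥(laurentBaseChange _root_.Fermat.Agent.A2.T1.H669.Qb F₀),
      w ∈ IntermediateField.adjoin ↥(laurentBaseChange E F₀)
        {α : ↥(laurentBaseChange _root_.Fermat.Agent.A2.T1.H669.Qb F₀) | IsAlgebraic E α} ∧
      (w : LaurentSeries _root_.Fermat.Agent.A2.T1.H669.Qb) = z := by
    have hz2 := hz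
    rw [mem_laurentBaseChange_iff] at hz2
    induction hz2 using Subfield.closure_induction with
    | mem y hy =>
        rcases hy with ⟨a, rfl⟩ | ⟨z₀, hz₀, rfl⟩
        · exact ⟨algebraMap _root_.Fermat.Agent.A2.T1.H669.Qb ↥(laurentBaseChange _root_.Fermat.Agent.A2.T1.H669.Qb F₀) a,
            IntermediateField.subset_adjoin _ _ (isAlgebraic_const E F₀ a), rfl⟩
        · refine ⟨algebraMap ↥(laurentBaseChange E F₀) ↥(laurentBaseChange _root_.Fermat.Agent.A2.T1.H669.Qb F₀)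
                ⟨coeffEmb E z₀, coeffEmb_mem_laurentBaseChange E hz₀⟩,
            IntermediateField.algebraMap_mem _ _, ?_⟩
          exact Fermat.Agent.S18.H602.coeffMap_coeffEmb' (algebraMap E _root_.Fermat.Agent.A2.T1.H669.Qb) z₀
    | one => exact ⟨1, one_mem _, rfl⟩
    | add x y hx' hy' hx hy =>
        obtain ⟨w₁, hw₁, rfl⟩ := hx ((mem_laurentBaseChange_iff).2 hx')
        obtain ⟨w₂, hw₂, rfl⟩ := hy ((mem_laurentBaseChange_iff).2 hy')
        exact ⟨w₁ + w₂, add_mem hw₁ hw₂, rfl⟩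
    | neg x hx' hx =>
        obtain ⟨w₁, hw₁, rfl⟩ := hx ((mem_laurentBaseChange_iff).2 hx')
        exact ⟨-w₁, neg_mem hw₁, rfl⟩
    | inv x hx' hx =>
        obtain ⟨w₁, hw₁, rfl⟩ := hx ((mem_laurentBaseChange_iff).2 hx')
        exact ⟨w₁⁻¹, inv_mem hw₁, IntermediateField.coe_inv _ _⟩
    | mul x y hx' hy' hx hy =>
        obtain ⟨w₁, hw₁, rfl⟩ := hx ((mem_laurentBaseChange_iff).2 hx')
        obtain ⟨w₂, hw₂, rfl⟩ := hy ((mem_laurentBaseChange_iff).2 hy')
        exact ⟨w₁ * w₂, mul_mem hw₁ hw₂, rfl⟩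
  obtain ⟨w, hw, hwz⟩ := key
  have hwz' : w = ⟨z, hz⟩ := Subtype.ext hwz
  rw [← hwz']
  exact hw

/-- **T2.**  `m ∣ div (iota y)` on `F̄ / ℚ̄` implies `Spec.DivisibleDiv E m y` (unfolded). -/
theorem divisibleDiv_of_ord (m : ℕ) (y : ↥(laurentBaseChange E F₀)) (hy : y ≠ 0)
    (hdiv : ∀ v : Place _root_.Fermat.Agent.A2.T1.H669.Qb ↥(laurentBaseChange _root_.Fermat.Agent.A2.T1.H669.Qb F₀), (m : ℤ) ∣ v.ord (iota E F₀ y)) :
    ∀ V : ValuationSubring ↥(laurentBaseChange E F₀), IsDiscreteValuationRing V →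
      (∀ e : E, algebraMap E ↥(laurentBaseChange E F₀) e ∈ V) →
      ∃ h u : ↥(laurentBaseChange E F₀), h ≠ 0 ∧ u ∈ V ∧ u⁻¹ ∈ V ∧ y = u * h ^ m := by
  intro V hV hEV
  letI := algFEFbar E F₀
  haveI := towerEFEFbar E F₀
  obtain ⟨B, hcomap, hBdvr, hBalg, hBunif, -⟩ :=
    Fermat.Agent.S18.H845.exists_dvr_extension (E := E) (K := ↥(laurentBaseChange E F₀))
      (L := ↥(laurentBaseChange _root_.Fermat.Agent.A2.T1.H669.Qb F₀)) V hEV (adjoin_algebraic_eq_top E F₀)
  obtain ⟨π, hπ⟩ := IsDiscreteValuationRing.exists_irreducible V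
  obtain ⟨hπB, hπirr⟩ := hBunif π hπ
  have hmemV : ∀ x : ↥(laurentBaseChange E F₀), x ∈ V ↔ iota E F₀ x ∈ B := by
    intro x
    rw [← hcomap]
    exact Iff.rfl
  have hπ0 : (π : ↥(laurentBaseChange E F₀)) ≠ 0 := fun h => hπ.ne_zero (Subtype.ext h)
  -- `B` is a place of `F̄ / ℚ̄`
  have hne : B ≠ ⊤ := by
    intro htop
    apply hπirr.not_isUnit
    have hinv : (iota E F₀ (π : ↥(laurentBaseChange E F₀)))⁻¹ ∈ B := by
      rw [htop]; exact ValuationSubring.mem_top _
    refine IsUnit.of_mul_eq_one (⟨_, hinv⟩ : B) (Subtype.ext ?_)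
    exact mul_inv_cancel₀ (iota_ne_zero E F₀ hπ0)
  let v : Place _root_.Fermat.Agent.A2.T1.H669.Qb ↥(laurentBaseChange _root_.Fermat.Agent.A2.T1.H669.Qb F₀) :=
    { toValuationSubring := B
      algebraMap_mem' := fun a => hBalg _ (isAlgebraic_const E F₀ a)
      ne_top' := hne
      isPrincipalIdealRing' := inferInstance }
  obtain ⟨k, hk⟩ := hdiv v
  obtain ⟨u, hu⟩ := v.exists_unit_mul_zpow (iota_ne_zero E F₀ hy)
    (π := (⟨iota E F₀ (π : ↥(laurentBaseChange E F₀)), hπB⟩ : B)) hπirr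
  rw [hk] at hu
  have hu' : iota E F₀ y =
      ((u : B) : ↥(laurentBaseChange _root_.Fermat.Agent.A2.T1.H669.Qb F₀)) *
        (iota E F₀ (π : ↥(laurentBaseChange E F₀))) ^ ((m : ℤ) * k) := hu
  -- the unit over `E`
  set uK : ↥(laurentBaseChange E F₀) :=
    y * ((π : ↥(laurentBaseChange E F₀)) ^ ((m : ℤ) * k))⁻¹ with huK
  have hιuK : iota E F₀ uK = ((u : B) : ↥(laurentBaseChange _root_.Fermat.Agent.A2.T1.H669.Qb F₀)) := by
    rw [huK, map_mul, map_inv₀, map_zpow₀, hu', mul_assoc,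
      mul_inv_cancel₀ (zpow_ne_zero _ (iota_ne_zero E F₀ hπ0)), mul_one]
  refine ⟨(π : ↥(laurentBaseChange E F₀)) ^ k, uK, zpow_ne_zero _ hπ0, ?_, ?_, ?_⟩
  · rw [hmemV, hιuK]; exact (u : B).2
  · rw [hmemV, map_inv₀, hιuK]
    have h1 : ((u⁻¹ : Bˣ) : B) * (u : B) = 1 := by
      rw [← Units.val_mul, inv_mul_cancel, Units.val_one]
    have h2 : (((u⁻¹ : Bˣ) : B) : ↥(laurentBaseChange _root_.Fermat.Agent.A2.T1.H669.Qb F₀)) *
        ((u : B) : ↥(laurentBaseChange _root_.Fermat.Agent.A2.T1.H669.Qb F₀)) = 1 := congrArg Subtype.val h1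
    have h3 : (((u : B) : ↥(laurentBaseChange _root_.Fermat.Agent.A2.T1.H669.Qb F₀)))⁻¹ =
        (((u⁻¹ : Bˣ) : B) : ↥(laurentBaseChange _root_.Fermat.Agent.A2.T1.H669.Qb F₀)) :=
      (eq_inv_of_mul_eq_one_left h2).symm
    rw [h3]; exact ((u⁻¹ : Bˣ) : B).2
  · rw [huK, ← zpow_natCast ((π : ↥(laurentBaseChange E F₀)) ^ k) m, ← zpow_mul,
      mul_comm k (m : ℤ), mul_assoc,
      inv_mul_cancel₀ (zpow_ne_zero _ hπ0), mul_one]

end Fermat.Agent.A2.T1.H669

end
end
-- ===== PACK-END A2/T1/H669/T2.lean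

-- ===== PACK-BEGIN S29/H509/TwistedMF.lean
section


/-!
# Twisted Eisenstein series: modular forms and twisted quotients (helper509, S29 piece TES, file 3)

For a finite index subgroup `Γ ≤ SL(2, ℤ)` and a character `χ : Γ →* ℂˣ` with `χ ^ p = 1`,
trivial on the stabiliser of `∞` in `Γ`:

* `twEisPowMF` : the `p`-th power of the twisted Eisenstein series as a `ModularForm Γ (k * p)`;
* `twEisOneMF` : the untwisted Eisenstein series of `Γ` as a `ModularForm Γ k`;
* `exists_twisted_pair` : the summary statement used downstream.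
-/

set_option autoImplicit false

namespace Fermat.Agent.S29.H509

open ModularForm UpperHalfPlane Matrix CongruenceSubgroup EisensteinSeries Filter Topology
open scoped MatrixGroups Manifold

noncomputable section

/-- Slash action on powers. -/
lemma pow_slash_SL2 (f : ℍ → ℂ) (k : ℤ) (n : ℕ) (A : SL(2, ℤ)) :
    (f ^ n) ∣[k * n] A = (f ∣[k] A) ^ n := by
  ext z
  simp only [SL_slash_apply, Pi.pow_apply, mul_pow]
  congr 1
  rw [← zpow_natCast, ← _root_.zpow_mul, neg_mul]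

lemma isBoundedAtImInfty_pow {f : ℍ → ℂ} (hf : IsBoundedAtImInfty f) (n : ℕ) :
    IsBoundedAtImInfty (f ^ n) := by
  induction n with
  | zero =>
    simp only [pow_zero]
    exact Filter.const_boundedAtFilter _ (1 : ℂ)
  | succ n ih =>
    rw [pow_succ]
    exact Filter.BoundedAtFilter.mul ih hf

lemma norm_eq_one_of_pow_eq_one' {u : ℂˣ} {p : ℕ} (hp : p ≠ 0) (h : u ^ p = 1) :
    ‖(u : ℂ)‖ = 1 := by
  have h1 : (u : ℂ) ^ p = 1 := by
    have := congrArg (fun x : ℂˣ => (x : ℂ)) h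
    simpa using this
  exact Complex.norm_eq_one_of_pow_eq_one h1 hp

variable {Γ : Subgroup SL(2, ℤ)}

/-- The `p`-th power of the twisted Eisenstein series is slash invariant under `Γ`. -/
lemma twEis_pow_slash {χ : Γ →* ℂˣ} (hχ : TrivOnUnip χ) {p : ℕ} (hχp : ∀ γ, χ γ ^ p = 1)
    (k : ℤ) (δ : Γ) :
    (twEis χ k ^ p) ∣[k * p] (δ : SL(2, ℤ)) = twEis χ k ^ p := by
  rw [pow_slash_SL2, twEis_slash hχ]
  ext z
  simp only [Pi.pow_apply, Pi.smul_apply, smul_eq_mul, mul_pow]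
  have h1 : (χ δ : ℂ) ^ p = 1 := by
    have := congrArg (fun x : ℂˣ => (x : ℂ)) (hχp δ)
    simpa using this
  rw [h1, one_mul]

/-- The `p`-th power of the twisted Eisenstein series, as a modular form of weight `k * p`. -/
def twEisPowMF [Γ.FiniteIndex] (χ : Γ →* ℂˣ) (hχ : TrivOnUnip χ) {p : ℕ} (hp : p ≠ 0)
    (hχp : ∀ γ, χ γ ^ p = 1) {k : ℤ} (hk : 3 ≤ k) :
    ModularForm (Γ : Subgroup (GL (Fin 2) ℝ)) (k * p) where
  toFun := twEis χ k ^ p
  slash_action_eq' A hA := by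
    obtain ⟨A, hA, rfl⟩ := hA
    exact twEis_pow_slash hχ hχp k ⟨A, hA⟩
  holo' := (twEis_mdifferentiable (fun γ => norm_eq_one_of_pow_eq_one' hp (hχp γ)) hk).pow p
  bdd_at_cusps' {c} hc := by
    rw [Subgroup.IsArithmetic.isCusp_iff_isCusp_SL2Z] at hc
    rw [OnePoint.isBoundedAt_iff_forall_SL2Z hc]
    intro γ _
    rw [pow_slash_SL2]
    exact isBoundedAtImInfty_pow
      (isBoundedAtImInfty_twEis_slash (fun γ => norm_eq_one_of_pow_eq_one' hp (hχp γ)) hk γ) p

@[simp] lemma twEisPowMF_apply [Γ.FiniteIndex] (χ : Γ →* ℂˣ) (hχ : TrivOnUnip χ) {p : ℕ}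
    (hp : p ≠ 0) (hχp : ∀ γ, χ γ ^ p = 1) {k : ℤ} (hk : 3 ≤ k) (z : ℍ) :
    twEisPowMF χ hχ hp hχp hk z = twEis χ k z ^ p := rfl

lemma twEisPowMF_ne_zero [Γ.FiniteIndex] (χ : Γ →* ℂˣ) (hχ : TrivOnStabInfty χ) {p : ℕ}
    (hp : p ≠ 0) (hχp : ∀ γ, χ γ ^ p = 1) {k : ℤ} (hk : 3 ≤ k) (heven : Even k) :
    twEisPowMF χ hχ.trivOnUnip hp hχp hk ≠ 0 := by
  intro h0
  have hne := twEis_ne_zero (fun γ => norm_eq_one_of_pow_eq_one' hp (hχp γ)) hχ hk heven
  apply hne
  funext z
  have h1 : twEisPowMF χ hχ.trivOnUnip hp hχp hk z = 0 := by rw [h0]; rfl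
  rw [twEisPowMF_apply] at h1
  exact pow_eq_zero_iff hp |>.mp h1

/-- Summary: existence of the twisted Eisenstein series with all the properties used downstream.
For a character `χ` of `Γ` of order dividing `p`, trivial on the stabiliser of `∞`, and every even
weight `k ≥ 4` there is a nonzero holomorphic `E : ℍ → ℂ` with `E ∣[k] δ = χ δ • E` on `Γ`, all
of whose `SL(2, ℤ)`-translates are bounded at `i∞`, and such that `E ^ p` is a modular form of
weight `k * p` on `Γ`. -/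
theorem exists_twisted_eisenstein [Γ.FiniteIndex] (χ : Γ →* ℂˣ) (hχ : TrivOnStabInfty χ)
    {p : ℕ} (hp : p ≠ 0) (hχp : ∀ γ, χ γ ^ p = 1) {k : ℤ} (hk : 3 ≤ k) (heven : Even k) :
    ∃ (E : ℍ → ℂ) (F : ModularForm (Γ : Subgroup (GL (Fin 2) ℝ)) (k * p)),
      MDiff E ∧ E ≠ 0 ∧
      (∀ δ : Γ, E ∣[k] (δ : SL(2, ℤ)) = (χ δ : ℂ) • E) ∧
      (∀ (δ : Γ) (z : ℍ), E ((δ : SL(2, ℤ)) • z) =
        (χ δ : ℂ) * denom (δ : SL(2, ℤ)) z ^ k * E z) ∧
      (∀ A : SL(2, ℤ), IsBoundedAtImInfty (E ∣[k] A)) ∧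
      (∀ z, F z = E z ^ p) ∧ F ≠ 0 :=
  ⟨twEis χ k, twEisPowMF χ hχ.trivOnUnip hp hχp hk,
    twEis_mdifferentiable (fun γ => norm_eq_one_of_pow_eq_one' hp (hχp γ)) hk,
    twEis_ne_zero (fun γ => norm_eq_one_of_pow_eq_one' hp (hχp γ)) hχ hk heven,
    twEis_slash hχ.trivOnUnip k,
    twEis_smul_apply hχ.trivOnUnip k,
    isBoundedAtImInfty_twEis_slash (fun γ => norm_eq_one_of_pow_eq_one' hp (hχp γ)) hk,
    fun _ => rfl,
    twEisPowMF_ne_zero χ hχ hp hχp hk heven⟩

end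

end Fermat.Agent.S29.H509

end
-- ===== PACK-END S29/H509/TwistedMF.lean

-- ===== PACK-BEGIN S24/Alg/LocUniq.lean
section




/-!
# S24 / ALG-LOC: local uniqueness of embeddings

Two embeddings `σ τ : F → C((z))` inducing the same place `v` (with residue field `K`), agreeing
on `K` and on some `t` with `ord_v t > 0`, and having the same leading coefficient on a
uniformizer, are equal.  No completion, no Hensel.
-/

set_option autoImplicit false

noncomputable section

open AlgebraicCurve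

namespace Fermat.Agent.S24.H144

variable {K F : Type*} [Field K] [Field F] [Algebra K F] {C : Type*} [Field C]

/-- The residue field of `v` is `K`: every element of the valuation ring is congruent to a
constant modulo the maximal ideal. -/
def ResidueTrivial (v : Place K F) : Prop :=
  ∀ f ∈ v.toValuationSubring, ∃ a : K, f = algebraMap K F a ∨ 0 < v.ord (f - algebraMap K F a)

/-- First step of the `π`-adic expansion. -/
theorem loc_exists_expand {v : Place K F} (hres : ResidueTrivial v) {π : F} (hπ : v.ord π = 1)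
    {f : F} (hf : f ∈ v.toValuationSubring) :
    ∃ a : K, ∃ f₁ ∈ v.toValuationSubring, f = algebraMap K F a + π * f₁ := by
  have hπ0 : π ≠ 0 := by rintro rfl; simp at hπ
  obtain ⟨a, h | h⟩ := hres f hf
  · exact ⟨a, 0, zero_mem _, by rw [h]; simp⟩
  · have h0 : f - algebraMap K F a ≠ 0 := by
      intro h0; rw [h0, v.ord_zero] at h; exact lt_irrefl _ h
    refine ⟨a, (f - algebraMap K F a) * π⁻¹, ?_, ?_⟩
    · apply loc_mem_of_ord_nonneg
      rw [v.ord_mul h0 (inv_ne_zero hπ0), v.ord_inv, hπ]; omega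
    · field_simp; ring

theorem loc_sub_mul (σ τ : F →+* LaurentSeries C) (f h : F) :
    σ (f * h) - τ (f * h) = (σ f - τ f) * σ h + τ f * (σ h - τ h) := by
  rw [map_mul, map_mul]; ring

/-- Main induction: if `σ π - τ π` has order at least `d`, so has `σ f - τ f` for every `f` in
the valuation ring (up to any bound `r`). -/
theorem loc_sub_big {v : Place K F} (hres : ResidueTrivial v) {π : F} (hπ : v.ord π = 1)
    (ι : K →+* C) (σ τ : F →+* LaurentSeries C)
    (hσK : ∀ c, σ (algebraMap K F c) = HahnSeries.C (ι c))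
    (hτK : ∀ c, τ (algebraMap K F c) = HahnSeries.C (ι c))
    (hσ : Induces σ v) (hτ : Induces τ v)
    (d : ℤ) (hd : LocBig d (σ π - τ π)) :
    ∀ r : ℕ, ∀ f ∈ v.toValuationSubring, LocBig (min d r) (σ f - τ f) := by
  obtain ⟨gτ, hgτ, hτord⟩ := loc_exists_mult v τ hτ
  have hτπ : LocBig 1 (τ π) := by
    refine LocBig.of_le_order ?_
    rw [hτord, hπ, mul_one]; exact_mod_cast hgτ
  intro r
  induction r with
  | zero =>
    intro f hf
    have h1 : LocBig 0 (σ f) := LocBig.of_le_order ((hσ f).mp hf)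
    have h2 : LocBig 0 (τ f) := LocBig.of_le_order ((hτ f).mp hf)
    exact (h1.sub h2).mono (by simp)
  | succ r ih =>
    intro f hf
    obtain ⟨a, f₁, hf₁, rfl⟩ := loc_exists_expand hres hπ hf
    have h1 : σ (algebraMap K F a + π * f₁) - τ (algebraMap K F a + π * f₁)
        = (σ π - τ π) * σ f₁ + τ π * (σ f₁ - τ f₁) := by
      rw [map_add, map_add, hσK, hτK, ← loc_sub_mul]; ring
    rw [h1]
    have h2 : LocBig 0 (σ f₁) := LocBig.of_le_order ((hσ f₁).mp hf₁)
    have h3 : LocBig (d + 0) ((σ π - τ π) * σ f₁) := hd.mul h2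
    have h4 : LocBig (1 + min d r) (τ π * (σ f₁ - τ f₁)) := hτπ.mul (ih f₁ hf₁)
    refine (h3.mono ?_).add (h4.mono ?_)
    · simp
    · push_cast
      rcases le_total d (r : ℤ) with h | h
      · rw [min_eq_left h, min_eq_left (by omega)]; omega
      · rw [min_eq_right h]; exact le_trans (min_le_right _ _) (by omega)

/-- If `σ π = τ π` then `σ = τ`. -/
theorem loc_emb_eq_of_uniformizer_eq {v : Place K F} (hres : ResidueTrivial v) {π : F}
    (hπ : v.ord π = 1) (ι : K →+* C) (σ τ : F →+* LaurentSeries C)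
    (hσK : ∀ c, σ (algebraMap K F c) = HahnSeries.C (ι c))
    (hτK : ∀ c, τ (algebraMap K F c) = HahnSeries.C (ι c))
    (hσ : Induces σ v) (hτ : Induces τ v) (h : σ π = τ π) : σ = τ := by
  have key : ∀ f ∈ v.toValuationSubring, σ f = τ f := by
    intro f hf
    rw [← sub_eq_zero]
    apply LocBig.eq_zero_of_forall
    intro k
    have := loc_sub_big hres hπ ι σ τ hσK hτK hσ hτ k (by rw [h, sub_self]; exact LocBig.zero _)
      k f hf
    rwa [min_self] at this
  ext1 f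
  rcases v.toValuationSubring.mem_or_inv_mem f with hf | hf
  · exact key f hf
  · have := key f⁻¹ hf
    rw [map_inv₀, map_inv₀] at this
    exact inv_injective this

/-- The coefficient at the bound of a power. -/
theorem LocBig.coeff_pow {n : ℤ} {a : LaurentSeries C} (ha : LocBig n a) (k : ℕ) :
    (a ^ k).coeff (k * n) = (a.coeff n) ^ k := by
  induction k with
  | zero => simp [HahnSeries.coeff_one]
  | succ k ih =>
    have h := (ha.pow k).coeff_mul ha
    rw [pow_succ, pow_succ, ← ih, ← h]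
    congr 1
    push_cast; ring

/-- Expansion of `a ^ (k+1) - b ^ (k+1)` to first order in `a - b`. -/
theorem loc_pow_sub_pow_big {g d : ℤ} {a b : LaurentSeries C} (ha : LocBig g a)
    (hb : LocBig g b) (hab : a.coeff g = b.coeff g) (hd : LocBig d (a - b)) (k : ℕ) :
    LocBig (d + k * g) (a ^ (k + 1) - b ^ (k + 1)) ∧
      (a ^ (k + 1) - b ^ (k + 1)).coeff (d + k * g)
        = (k + 1) * (a.coeff g) ^ k * (a - b).coeff d := by
  induction k with
  | zero => simpa using hd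
  | succ k ih =>
    obtain ⟨ih1, ih2⟩ := ih
    have hid : a ^ (k + 1 + 1) - b ^ (k + 1 + 1)
        = (a - b) * a ^ (k + 1) + b * (a ^ (k + 1) - b ^ (k + 1)) := by ring
    have h1 : LocBig (d + ((k + 1 : ℕ) : ℤ) * g) ((a - b) * a ^ (k + 1)) := hd.mul (ha.pow (k + 1))
    have h2 : LocBig (g + (d + k * g)) (b * (a ^ (k + 1) - b ^ (k + 1))) := hb.mul ih1
    have hidx : g + (d + (k : ℤ) * g) = d + ((k + 1 : ℕ) : ℤ) * g := by push_cast; ring
    rw [hidx] at h2
    have c1 : ((a - b) * a ^ (k + 1)).coeff (d + ((k + 1 : ℕ) : ℤ) * g)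
        = (a - b).coeff d * (a.coeff g) ^ (k + 1) := by
      rw [hd.coeff_mul (ha.pow (k + 1)), ha.coeff_pow]
    have c2 : (b * (a ^ (k + 1) - b ^ (k + 1))).coeff (d + ((k + 1 : ℕ) : ℤ) * g)
        = b.coeff g * ((k + 1) * (a.coeff g) ^ k * (a - b).coeff d) := by
      rw [← hidx, hb.coeff_mul ih1, ih2]
    refine ⟨by rw [hid]; exact h1.add h2, ?_⟩
    rw [hid, HahnSeries.coeff_add, c1, c2, ← hab]
    push_cast; ring

/-- **Local uniqueness.** Two embeddings inducing the same place, agreeing on `K` and on `t`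
(`ord_v t > 0`), with the same leading coefficient at a uniformizer, are equal. -/
theorem loc_emb_eq_of_leadingCoeff_eq [CharZero C] {v : Place K F} (hres : ResidueTrivial v)
    {t : F} (ht : 0 < v.ord t) {π : F} (hπ : v.ord π = 1)
    (ι : K →+* C) (σ τ : F →+* LaurentSeries C)
    (hσK : ∀ c, σ (algebraMap K F c) = HahnSeries.C (ι c))
    (hτK : ∀ c, τ (algebraMap K F c) = HahnSeries.C (ι c))
    (hσ : Induces σ v) (hτ : Induces τ v) (hσt : σ t = τ t)
    (hlc : (σ π).leadingCoeff = (τ π).leadingCoeff) : σ = τ := by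
  apply loc_emb_eq_of_uniformizer_eq hres hπ ι σ τ hσK hτK hσ hτ
  by_contra hne
  have hδ : σ π - τ π ≠ 0 := sub_ne_zero.mpr hne
  have hπ0 : π ≠ 0 := by rintro rfl; simp at hπ
  have ht0 : t ≠ 0 := by rintro rfl; simp at ht
  obtain ⟨gσ, hgσ, hσord⟩ := loc_exists_mult v σ hσ
  obtain ⟨gτ, hgτ, hτord⟩ := loc_exists_mult v τ hτ
  -- the two multiplicities agree
  have hg : gσ = gτ := by
    have h1 := hσord t
    rw [hσt, hτord t] at h1
    have h2 : (gτ : ℤ) = gσ := mul_right_cancel₀ ht.ne' h1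
    exact_mod_cast h2.symm
  subst hg
  set g : ℤ := (gσ : ℤ) with hgdef
  have hgpos : 0 < g := Int.natCast_pos.mpr hgσ
  have hoσ : (σ π).order = g := by rw [hσord, hπ, mul_one]
  have hoτ : (τ π).order = g := by rw [hτord, hπ, mul_one]
  have hbσ : LocBig g (σ π) := LocBig.of_le_order hoσ.ge
  have hbτ : LocBig g (τ π) := LocBig.of_le_order hoτ.ge
  have hcoef : (σ π).coeff g = (τ π).coeff g := by
    rw [← hoσ, ← HahnSeries.leadingCoeff_eq, hlc, HahnSeries.leadingCoeff_eq, hoτ, hoσ]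
  have ha0 : (σ π).coeff g ≠ 0 := by
    rw [← hoσ]
    exact HahnSeries.coeff_order_eq_zero.not.mpr ((map_ne_zero σ).mpr hπ0)
  -- the difference `δ`
  set d : ℤ := (σ π - τ π).order with hddef
  have hdbig : LocBig d (σ π - τ π) := LocBig.self_order _
  have hdge : g + 1 ≤ d := by
    have := LocBig.sub_of_leadingCoeff_eq (hoσ.trans hoτ.symm) hlc
    rw [hoσ] at this
    exact this.resolve_left hδ
  have hc0 : (σ π - τ π).coeff d ≠ 0 := HahnSeries.coeff_order_eq_zero.not.mpr hδ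
  -- the exponent
  obtain ⟨k, hk⟩ : ∃ k : ℕ, v.ord t = (k : ℤ) + 1 := ⟨(v.ord t - 1).toNat, by omega⟩
  -- the unit part of `t`
  set u : F := t * (π ^ (k + 1))⁻¹ with hu
  have hpk : π ^ (k + 1) ≠ 0 := pow_ne_zero _ hπ0
  have hu0 : u ≠ 0 := mul_ne_zero ht0 (inv_ne_zero hpk)
  have hut : t = u * π ^ (k + 1) := by rw [hu]; field_simp
  have hordu : v.ord u = 0 := by
    rw [hu, v.ord_mul ht0 (inv_ne_zero hpk), v.ord_inv, loc_ord_pow, hπ, hk]
    push_cast; ring
  have humem : u ∈ v.toValuationSubring := loc_mem_of_ord_nonneg v hordu.ge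
  have hτu : (τ u).order = 0 := by rw [hτord, hordu, mul_zero]
  have hτu0 : (τ u).coeff 0 ≠ 0 := by
    rw [← hτu]
    exact HahnSeries.coeff_order_eq_zero.not.mpr ((map_ne_zero τ).mpr hu0)
  -- `σ u - τ u` has order at least `d`
  have hΔu : LocBig d (σ u - τ u) := by
    have := loc_sub_big hres hπ ι σ τ hσK hτK hσ hτ d hdbig d.toNat u humem
    rwa [Int.toNat_of_nonneg (by omega), min_self] at this
  -- expand `0 = σ t - τ t`
  have hzero : (σ u - τ u) * σ (π ^ (k + 1)) + τ u * (σ (π ^ (k + 1)) - τ (π ^ (k + 1))) = 0 := by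
    rw [← loc_sub_mul, ← hut, hσt, sub_self]
  obtain ⟨hD1, hD2⟩ := loc_pow_sub_pow_big hbσ hbτ hcoef hdbig k
  have hcoeff := congrArg (fun s : LaurentSeries C => s.coeff (d + k * g)) hzero
  simp only [HahnSeries.coeff_add, HahnSeries.coeff_zero] at hcoeff
  -- first term vanishes
  have hfirst : ((σ u - τ u) * σ (π ^ (k + 1))).coeff (d + k * g) = 0 := by
    have hb : LocBig (d + ((k + 1 : ℕ) : ℤ) * g) ((σ u - τ u) * σ (π ^ (k + 1))) := by
      rw [map_pow]
      exact hΔu.mul (hbσ.pow (k + 1))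
    apply hb.coeff_eq_zero
    push_cast
    nlinarith
  -- second term does not
  have hsecond : (τ u * (σ (π ^ (k + 1)) - τ (π ^ (k + 1)))).coeff (d + k * g)
      = (τ u).coeff 0 * ((k + 1) * ((σ π).coeff g) ^ k * (σ π - τ π).coeff d) := by
    have hτu' : LocBig 0 (τ u) := LocBig.of_le_order hτu.ge
    rw [map_pow, map_pow]
    have := hτu'.coeff_mul hD1
    rw [zero_add] at this
    rw [this, hD2]
  rw [hfirst, hsecond, zero_add] at hcoeff
  have hk1 : ((k : C) + 1) ≠ 0 := by exact_mod_cast Nat.succ_ne_zero k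
  exact (mul_ne_zero hτu0 (mul_ne_zero (mul_ne_zero hk1 (pow_ne_zero k ha0)) hc0)) hcoeff

end Fermat.Agent.S24.H144

end
end
-- ===== PACK-END S24/Alg/LocUniq.lean

-- ===== PACK-BEGIN S24/Alg/LocRat.lean
section



/-!
# S24 / ALG-LOC: valuations on the rational subfield `K(t)`

Any two "valuations" of `F` which are trivial on `K` and positive on `t` are proportional on
`K(t)`: on `K(t)` each of them is a multiple of the `t`-adic order.
-/

set_option autoImplicit false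

noncomputable section

open AlgebraicCurve Polynomial IntermediateField

namespace Fermat.Agent.S24.H144

variable {K F : Type*} [Field K] [Field F] [Algebra K F]

/-- An integer valued discrete valuation (with the convention `w 0 = 0`) which is trivial on
`K` and positive at `t`. -/
structure IsTVal (K : Type*) {F : Type*} [Field K] [Field F] [Algebra K F] (t : F)
    (w : F → ℤ) : Prop where
  map_zero : w 0 = 0
  map_mul : ∀ f g : F, f ≠ 0 → g ≠ 0 → w (f * g) = w f + w g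
  map_add : ∀ f g : F, f ≠ 0 → g ≠ 0 → f + g ≠ 0 → min (w f) (w g) ≤ w (f + g)
  map_neg : ∀ f : F, w (-f) = w f
  map_const : ∀ c : K, w (algebraMap K F c) = 0
  pos : 0 < w t

namespace IsTVal

variable {t : F} {w : F → ℤ}

theorem ne_zero_of_ne (hw : IsTVal K t w) {f : F} (h : w f ≠ 0) : f ≠ 0 := by
  rintro rfl; exact h hw.map_zero

theorem t_ne_zero (hw : IsTVal K t w) : t ≠ 0 := hw.ne_zero_of_ne hw.pos.ne'

theorem map_one (hw : IsTVal K t w) : w 1 = 0 := by
  have := hw.map_const 1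
  rwa [_root_.map_one] at this

theorem map_inv (hw : IsTVal K t w) (f : F) : w f⁻¹ = -w f := by
  rcases eq_or_ne f 0 with rfl | hf
  · simp [hw.map_zero]
  have h := hw.map_mul f f⁻¹ hf (inv_ne_zero hf)
  rw [mul_inv_cancel₀ hf, hw.map_one] at h
  omega

theorem map_div (hw : IsTVal K t w) {f g : F} (hf : f ≠ 0) (hg : g ≠ 0) :
    w (f / g) = w f - w g := by
  rw [div_eq_mul_inv, hw.map_mul f g⁻¹ hf (inv_ne_zero hg), hw.map_inv]; ring

/-- Strict case of the ultrametric inequality. -/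
theorem map_add_of_lt (hw : IsTVal K t w) {f g : F} (hf : f ≠ 0) (hg : g ≠ 0)
    (h : w f < w g) : f + g ≠ 0 ∧ w (f + g) = w f := by
  have hfg : f + g ≠ 0 := by
    intro h0
    have : g = -f := by rw [← sub_eq_zero]; rw [sub_neg_eq_add, add_comm]; exact h0
    rw [this, hw.map_neg] at h
    exact lt_irrefl _ h
  refine ⟨hfg, ?_⟩
  have h1 := hw.map_add f g hf hg hfg
  rw [min_eq_left h.le] at h1
  have hng : -g ≠ 0 := neg_ne_zero.mpr hg
  have h2 := hw.map_add (f + g) (-g) hfg hng (by simpa using hf)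
  rw [add_neg_cancel_right, hw.map_neg] at h2
  rcases le_total (w (f + g)) (w g) with h3 | h3
  · rw [min_eq_left h3] at h2; omega
  · rw [min_eq_right h3] at h2; omega

end IsTVal

/-- The order of vanishing of a place at which `t` vanishes is a `t`-valuation. -/
theorem isTVal_ord (v : Place K F) {t : F} (ht : 0 < v.ord t) : IsTVal K t v.ord where
  map_zero := v.ord_zero
  map_mul := fun _ _ hf hg => v.ord_mul hf hg
  map_add := fun _ _ hf hg hfg => loc_ord_add v hf hg hfg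
  map_neg := loc_ord_neg v
  map_const := loc_ord_algebraMap v
  pos := ht

/-- The order of an embedding into Laurent series, constant on `K`, is a `t`-valuation. -/
theorem isTVal_order {C : Type*} [Field C] (σ : F →+* LaurentSeries C) {t : F}
    (hK : ∀ c : K, (σ (algebraMap K F c)).order = 0) (ht : 0 < (σ t).order) :
    IsTVal K t (fun f => (σ f).order) where
  map_zero := by simp
  map_mul := fun _ _ hf hg => loc_order_map_mul σ hf hg
  map_add := fun _ _ _ _ hfg => loc_order_map_add_le σ hfg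
  map_neg := fun f => by simp only [map_neg, HahnSeries.order_neg]
  map_const := hK
  pos := ht

/-- For a nonzero polynomial `p` over `K`, every `t`-valuation of `p(t)` is the same multiple
of the valuation of `t`. -/
theorem loc_exists_mult_aeval (t : F) (p : K[X]) (hp : p ≠ 0) :
    ∃ k : ℕ, (p.coeff 0 = 0 → 0 < k) ∧
      ∀ w : F → ℤ, IsTVal K t w → aeval t p ≠ 0 ∧ w (aeval t p) = k * w t := by
  induction p using Polynomial.recOnHorner with
  | M0 => exact absurd rfl hp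
  | MC p a hp0 ha ih =>
    refine ⟨0, ?_, ?_⟩
    · intro h
      rw [coeff_add, hp0, coeff_C_zero, zero_add] at h
      exact absurd h ha
    · intro w hw
      have haF : algebraMap K F a ≠ 0 := by
        simpa using ha
      rcases eq_or_ne p 0 with rfl | hpne
      · simp only [zero_add, aeval_C]
        exact ⟨haF, by rw [hw.map_const]; simp⟩
      obtain ⟨k, hk, hkw⟩ := ih hpne
      obtain ⟨hne, hval⟩ := hkw w hw
      have hkpos := hk hp0
      have hlt : w (algebraMap K F a) < w (aeval t p) := by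
        rw [hw.map_const, hval]
        exact mul_pos (by exact_mod_cast hkpos) hw.pos
      obtain ⟨h1, h2⟩ := hw.map_add_of_lt haF hne hlt
      rw [map_add, aeval_C, add_comm]
      refine ⟨h1, ?_⟩
      rw [h2, hw.map_const]; simp
  | MX p hpne ih =>
    obtain ⟨k, _, hkw⟩ := ih hpne
    refine ⟨k + 1, fun _ => Nat.succ_pos k, ?_⟩
    intro w hw
    obtain ⟨hne, hval⟩ := hkw w hw
    rw [map_mul, aeval_X]
    refine ⟨mul_ne_zero hne hw.t_ne_zero, ?_⟩
    rw [hw.map_mul _ _ hne hw.t_ne_zero, hval]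
    push_cast; ring

/-- **Valuations on `K(t)`.** For `y ∈ K(t)` there is an integer `n` (the `t`-adic order of `y`)
such that `w y = n * w t` for every `t`-valuation `w`. -/
theorem loc_exists_mult_of_mem_adjoin (t : F) {y : F} (hy : y ∈ K⟮t⟯) :
    ∃ n : ℤ, ∀ w : F → ℤ, IsTVal K t w → w y = n * w t := by
  obtain ⟨r, s, rfl⟩ := (mem_adjoin_simple_iff K y).mp hy
  rcases eq_or_ne r 0 with rfl | hr
  · exact ⟨0, fun w hw => by simp [hw.map_zero]⟩
  rcases eq_or_ne s 0 with rfl | hs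
  · exact ⟨0, fun w hw => by simp [hw.map_zero]⟩
  obtain ⟨kr, _, hkr⟩ := loc_exists_mult_aeval t r hr
  obtain ⟨ks, _, hks⟩ := loc_exists_mult_aeval t s hs
  refine ⟨(kr : ℤ) - ks, fun w hw => ?_⟩
  obtain ⟨hr0, hrv⟩ := hkr w hw
  obtain ⟨hs0, hsv⟩ := hks w hw
  rw [hw.map_div hr0 hs0, hrv, hsv]; ring

/-- Two `t`-valuations are proportional on `K(t)`. -/
theorem loc_tval_proportional (t : F) {y : F} (hy : y ∈ K⟮t⟯) {w₁ w₂ : F → ℤ}
    (h₁ : IsTVal K t w₁) (h₂ : IsTVal K t w₂) : w₂ t * w₁ y = w₁ t * w₂ y := by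
  obtain ⟨n, hn⟩ := loc_exists_mult_of_mem_adjoin (K := K) t hy
  rw [hn w₁ h₁, hn w₂ h₂]; ring

/-- Sign transfer on `K(t)`. -/
theorem loc_tval_nonneg (t : F) {y : F} (hy : y ∈ K⟮t⟯) {w₁ w₂ : F → ℤ}
    (h₁ : IsTVal K t w₁) (h₂ : IsTVal K t w₂) (h : 0 ≤ w₁ y) : 0 ≤ w₂ y := by
  have hprop := loc_tval_proportional t hy h₁ h₂
  have hp1 := h₁.pos
  have hp2 := h₂.pos
  by_contra hneg
  have hneg' : w₂ y < 0 := not_le.mp hneg
  have h3 : w₁ t * w₂ y < 0 := mul_neg_of_pos_of_neg hp1 hneg'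
  have h4 : 0 ≤ w₂ t * w₁ y := mul_nonneg hp2.le h
  omega

end Fermat.Agent.S24.H144

end
end
-- ===== PACK-END S24/Alg/LocRat.lean

-- ===== PACK-BEGIN S28/H386/Toolkit.lean
section
/-
S28 [L] toolkit (helper386): orders of Laurent series, the twist `q ↦ ξ q`,
and the fact that `j` has degree `≥ p` over the range of `V_p = qExpand p`.
-/



set_option autoImplicit false

noncomputable section

open ModularCurve HahnSeries Polynomial

namespace Fermat.Agent.S28.H386

variable {k : Type*} [Field k]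

/-! ### Orders -/

theorem order_eq_of_coeff {x : LaurentSeries k} {n : ℤ} (h1 : x.coeff n ≠ 0)
    (h2 : ∀ m < n, x.coeff m = 0) : x.order = n := by
  refine le_antisymm (HahnSeries.order_le_of_coeff_ne_zero h1) ?_
  by_contra hlt
  rw [not_le] at hlt
  have hx : x ≠ 0 := fun h => h1 (by rw [h]; rfl)
  exact (HahnSeries.coeff_order_eq_zero.not.mpr hx) (h2 _ hlt)

theorem jqModC_ne_zero : jqModC k ≠ 0 := jqModC_ne_zero_of_nontrivial k

theorem order_jqModC : (jqModC k).order = -1 :=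
  order_eq_of_coeff (by rw [coeff_jqModC_neg_one]; exact one_ne_zero)
    (fun _ hm => coeff_jqModC_of_lt k hm)

theorem order_jqModC_pow (i : ℕ) : ((jqModC k) ^ i).order = -(i : ℤ) := by
  rw [HahnSeries.order_pow, order_jqModC]; simp

theorem qExpand_ne_zero (p : ℕ) [NeZero p] {f : LaurentSeries k} (hf : f ≠ 0) :
    qExpand k p f ≠ 0 := fun h => hf (qExpand_injective p (by rw [h, map_zero]))

theorem order_qExpand (p : ℕ) [NeZero p] (f : LaurentSeries k) :
    (qExpand k p f).order = (p : ℤ) * f.order := by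
  by_cases hf : f = 0
  · simp [hf]
  refine order_eq_of_coeff ?_ ?_
  · rw [qExpand_coeff_mul]; exact HahnSeries.coeff_order_eq_zero.not.mpr hf
  · intro m hm
    by_cases hd : (p : ℤ) ∣ m
    · obtain ⟨c, rfl⟩ := hd
      rw [qExpand_coeff_mul]
      refine HahnSeries.coeff_eq_zero_of_lt_order ?_
      have hp : (0 : ℤ) < p := by exact_mod_cast Nat.pos_of_ne_zero (NeZero.ne p)
      exact lt_of_mul_lt_mul_left hm hp.le
    · exact qExpand_coeff_of_not_dvd p f hd

/-- The order of an element of the range of `V_p` is divisible by `p`. -/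
theorem dvd_order_of_mem_range (p : ℕ) [NeZero p] {x : LaurentSeries k}
    (hx : x ∈ Set.range (qExpand k p)) : (p : ℤ) ∣ x.order := by
  obtain ⟨f, rfl⟩ := hx
  rw [order_qExpand]; exact dvd_mul_right _ _

/-! ### `j` has degree at least `p` over the range of `V_p` -/

/-- A nonzero polynomial of degree `< p` with coefficients in the range of `V_p` does not
vanish at `j`. -/
theorem eval_jqModC_ne_zero_of_natDegree_lt (p : ℕ) [NeZero p] (P : (LaurentSeries k)[X])
    (hP : P ≠ 0) (hdeg : P.natDegree < p)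
    (hcoef : ∀ i, P.coeff i ∈ Set.range (qExpand k p)) :
    P.eval (jqModC k) ≠ 0 := by
  classical
  -- valuation of the `i`-th term
  set v : ℕ → ℤ := fun i => (P.coeff i).order - i with hv
  have hsupp : P.support.Nonempty := by
    rwa [Finset.nonempty_iff_ne_empty, Ne, Polynomial.support_eq_empty]
  obtain ⟨i₀, hi₀, hmin⟩ := Finset.exists_min_image P.support v hsupp
  have hlt : ∀ i ∈ P.support, i < p := fun i hi =>
    lt_of_le_of_lt (Polynomial.le_natDegree_of_mem_supp i hi) hdeg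
  have hinj : ∀ i ∈ P.support, i ≠ i₀ → v i ≠ v i₀ := by
    intro i hi hne heq
    obtain ⟨a, ha⟩ := dvd_order_of_mem_range p (hcoef i)
    obtain ⟨b, hb⟩ := dvd_order_of_mem_range p (hcoef i₀)
    have h1 := hlt i hi
    have h2 := hlt i₀ hi₀
    simp only [hv, ha, hb] at heq
    have h3 : (p : ℤ) * (a - b) = (i : ℤ) - i₀ := by linarith
    have h4 : (p : ℤ) ∣ (i : ℤ) - i₀ := ⟨a - b, h3.symm⟩
    have h5 : ((i : ℤ) - i₀) = 0 := by
      apply Int.eq_zero_of_abs_lt_dvd h4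
      rw [abs_lt]; constructor <;> omega
    exact hne (by omega)
  have hterm : ∀ i ∈ P.support, (P.coeff i * (jqModC k) ^ i).order = v i := by
    intro i hi
    have hc : P.coeff i ≠ 0 := Polynomial.mem_support_iff.mp hi
    rw [HahnSeries.order_mul hc (pow_ne_zero _ jqModC_ne_zero), order_jqModC_pow]
    simp [hv, sub_eq_add_neg]
  intro h0
  have hcoeff : (P.eval (jqModC k)).coeff (v i₀) = 0 := by rw [h0]; rfl
  rw [Polynomial.eval_eq_sum, Polynomial.sum_def] at hcoeff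
  have hsum : (∑ n ∈ P.support, P.coeff n * jqModC k ^ n).coeff (v i₀)
      = ∑ n ∈ P.support, (P.coeff n * jqModC k ^ n).coeff (v i₀) := by
    exact map_sum (HahnSeries.coeff.addMonoidHom (v i₀)) _ _
  rw [hsum, Finset.sum_eq_single_of_mem i₀ hi₀] at hcoeff
  · have hc : P.coeff i₀ ≠ 0 := Polynomial.mem_support_iff.mp hi₀
    have hne : P.coeff i₀ * jqModC k ^ i₀ ≠ 0 :=
      mul_ne_zero hc (pow_ne_zero _ jqModC_ne_zero)
    rw [← hterm i₀ hi₀] at hcoeff
    exact (HahnSeries.coeff_order_eq_zero.not.mpr hne) hcoeff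
  · intro i hi hne
    refine HahnSeries.coeff_eq_zero_of_lt_order ?_
    rw [hterm i hi]
    exact lt_of_le_of_ne (hmin i hi) (Ne.symm (hinj i hi hne))

end Fermat.Agent.S28.H386

end
end
-- ===== PACK-END S28/H386/Toolkit.lean

-- ===== PACK-BEGIN S36/Mod3/H96/CuspAbs.lean
section



/-!
# S36 / MOD3, cell REG (R-I): the cusp congruence — ELEMENTARY abstract core (helper96)

Independent route to `H276.CuspCong` (the single input of `regular_i`), with `k = 1`,
`N = q - 1`, `n = 1`.  No modular unit, no Hasse polynomial, no Eisenstein series, no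
`q`-expansion: only

* the Kronecker decomposition `Φ = (Y^q - X)(Y - X^q) + q Θ` over `ℤ`,
* the shape of `Φ` (`S15.H962.IsModularShape`),
* the two modular equations `Φ(j_q, j) = 0 = Φ(j_q, j_{q²})`,
* `π = j_{q²} - j`, `q ρ = π ^ (q - 1)`.

Taylor expansion of `Φ(j_q, ·)` at `j` gives the EXACT identity

  `B² ρ = Θ(j_q, j) - B² j^(q-1) - B Θ_Y(j_q, j) - π (…)`,  `B = j - j_q ^ q`,

and, modulo an ideal `I ∋ π, q, j_q - j ^ q`, after multiplication by `J^(q-1) J_q^(2q)`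
(`J = 1/j`, `J_q = 1/j_q`):

  `ρ (1 - j J_q ^ q)² J^(q-1) ≡ -(1 + J · C₀(J))`   for an integer polynomial `C₀`

(`cusp_core96`).
-/

set_option autoImplicit false

namespace Fermat.Agent.S36.Mod3.H96

open Polynomial
open Fermat.Agent.S15.H962 (IsModularShape)

/-! ## The binomial expansion at a prime -/

section Binom

variable {A : Type*} [CommRing A]

theorem add_pow_prime96 (q : ℕ) (hq : q.Prime) (x y : A) :
    ∃ s : A, (x + y) ^ q = x ^ q + y ^ q + (q : A) * y * (x ^ (q - 1) + y * s) := by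
  obtain ⟨n, rfl⟩ : ∃ n, q = n + 2 := ⟨q - 2, by have := hq.two_le; omega⟩
  refine ⟨∑ m ∈ Finset.range n,
    x ^ (m + 1) * y ^ (n - m - 1) * ((((n + 2).choose (m + 1) / (n + 2) : ℕ)) : A), ?_⟩
  rw [add_pow, Finset.sum_range_succ, Finset.sum_range_succ, Finset.sum_range_succ']
  have hterm : ∀ m ∈ Finset.range n,
      x ^ (m + 1) * y ^ (n + 2 - (m + 1)) * (((n + 2).choose (m + 1) : ℕ) : A)
        = ((n + 2 : ℕ) : A) * y * (y * (x ^ (m + 1) * y ^ (n - m - 1) *
            ((((n + 2).choose (m + 1) / (n + 2) : ℕ)) : A))) := by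
    intro m hm
    rw [Finset.mem_range] at hm
    have hdvd : (n + 2) ∣ (n + 2).choose (m + 1) :=
      hq.dvd_choose_self (by omega) (by omega)
    have e1 : n + 2 - (m + 1) = (n - m - 1) + 2 := by omega
    have e2 : (((n + 2).choose (m + 1) : ℕ) : A)
        = ((n + 2 : ℕ) : A) * ((((n + 2).choose (m + 1) / (n + 2) : ℕ)) : A) := by
      rw [← Nat.cast_mul, Nat.mul_div_cancel' hdvd]
    rw [e1, e2, pow_add]
    ring
  rw [Finset.sum_congr rfl hterm, ← Finset.mul_sum, ← Finset.mul_sum]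
  have e3 : n + 2 - (n + 1) = 1 := by omega
  have e4 : n + 2 - 1 = n + 1 := by omega
  have e5 : (n + 2).choose (n + 1) = n + 2 := by
    rw [show n + 2 = (n + 1) + 1 from rfl, Nat.choose_succ_self_right]
  simp only [pow_zero, Nat.sub_zero, Nat.choose_zero_right, Nat.cast_one, mul_one, one_mul,
    Nat.sub_self, Nat.choose_self, e3, e4, e5, pow_one]
  ring

end Binom

/-! ## Evaluation of two-variable integer polynomials -/

section Ev

variable {A : Type*} [CommRing A]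

/-- `Ψ(x, y)`: inner variable `↦ x`, outer variable `↦ y`. -/
noncomputable def ev96 (Ψ : ℤ[X][X]) (x y : A) : A :=
  Ψ.eval₂ (Polynomial.eval₂RingHom (Int.castRingHom A) x) y

theorem ev96_kron (q : ℕ) (Θ : ℤ[X][X]) (x y : A) :
    ev96 ((X ^ q - C X) * (X - C (X ^ q)) + C (C (q : ℤ)) * Θ) x y
      = (y ^ q - x) * (y - x ^ q) + (q : A) * ev96 Θ x y := by
  simp [ev96, eval₂_add, eval₂_mul, eval₂_sub, eval₂_pow]

theorem ev96_eq_eval_map (Ψ : ℤ[X][X]) (x y : A) :
    ev96 Ψ x y = (Ψ.map (Polynomial.eval₂RingHom (Int.castRingHom A) x)).eval y := by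
  rw [ev96, Polynomial.eval_map]

/-- Taylor expansion in the outer variable. -/
theorem ev96_taylor (Ψ : ℤ[X][X]) (x y t : A) :
    ∃ k : A, ev96 Ψ x (y + t)
      = ev96 Ψ x y + ev96 (derivative Ψ) x y * t + k * t ^ 2 := by
  obtain ⟨k, hk⟩ := Polynomial.binomExpansion
    (Ψ.map (Polynomial.eval₂RingHom (Int.castRingHom A) x)) y t
  refine ⟨k, ?_⟩
  rw [ev96_eq_eval_map, ev96_eq_eval_map, ev96_eq_eval_map, ← Polynomial.derivative_map]
  exact hk

/-- Evaluation commutes with ring homomorphisms. -/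
theorem map_ev96 {B : Type*} [CommRing B] (f : A →+* B) (Ψ : ℤ[X][X]) (x y : A) :
    f (ev96 Ψ x y) = ev96 Ψ (f x) (f y) := by
  unfold ev96
  rw [Polynomial.hom_eval₂]
  congr 1
  apply Polynomial.ringHom_ext
  · intro n
    simp
  · simp

/-- The double sum. -/
theorem ev96_eq_sum (Ψ : ℤ[X][X]) (x y : A) :
    ev96 Ψ x y = ∑ k ∈ Ψ.support, ∑ i ∈ (Ψ.coeff k).support,
      (((Ψ.coeff k).coeff i : ℤ) : A) * x ^ i * y ^ k := by
  unfold ev96
  rw [Polynomial.eval₂_eq_sum, Polynomial.sum_def]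
  refine Finset.sum_congr rfl fun k _ => ?_
  rw [Polynomial.coe_eval₂RingHom, Polynomial.eval₂_eq_sum, Polynomial.sum_def, Finset.sum_mul]
  refine Finset.sum_congr rfl fun i _ => ?_
  simp

end Ev


/-! ## Weighted reversal -/

section Rev

variable {A : Type*} [CommRing A]

theorem pow_mul_pow_of_inv96 {j J : A} (hjJ : j * J = 1) {m D : ℕ} (h : m ≤ D) :
    j ^ m * J ^ D = J ^ (D - m) := by
  obtain ⟨e, rfl⟩ := Nat.exists_eq_add_of_le h
  rw [Nat.add_sub_cancel_left, pow_add, ← mul_assoc, ← mul_pow, hjJ, one_pow, one_mul]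

/-- **Weighted reversal.**  If every monomial `X^i Y^k` of `Ψ` has weight `q i + k < D`
(or weight `≤ D` and coefficient divisible by `q`), then
`Ψ(j^q, j) / j^D ∈ J ℤ[J] + q A`, `J = 1/j`. -/
theorem weighted_rev96 (q : ℕ) {j J : A} (hjJ : j * J = 1) (Ψ : ℤ[X][X]) (D : ℕ)
    (h : ∀ k i, (Ψ.coeff k).coeff i ≠ 0 →
      q * i + k + 1 ≤ D ∨ (q * i + k ≤ D ∧ (q : ℤ) ∣ (Ψ.coeff k).coeff i)) :
    ∃ (c : ℤ[X]) (c' : A),
      ev96 Ψ (j ^ q) j * J ^ D = J * c.eval₂ (Int.castRingHom A) J + (q : A) * c' := by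
  classical
  rw [ev96_eq_sum, Finset.sum_mul]
  -- the predicate is stable under finite sums
  have hsum : ∀ (ι : Type) (s : Finset ι) (f : ι → A),
      (∀ a ∈ s, ∃ (c : ℤ[X]) (c' : A),
        f a = J * c.eval₂ (Int.castRingHom A) J + (q : A) * c') →
      ∃ (c : ℤ[X]) (c' : A),
        ∑ a ∈ s, f a = J * c.eval₂ (Int.castRingHom A) J + (q : A) * c' := by
    intro ι s f hf
    induction s using Finset.induction_on with
    | empty => exact ⟨0, 0, by simp⟩
    | insert a s ha ih =>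
      obtain ⟨c₁, c₁', h₁⟩ := hf a (Finset.mem_insert_self a s)
      obtain ⟨c₂, c₂', h₂⟩ := ih fun b hb => hf b (Finset.mem_insert_of_mem hb)
      refine ⟨c₁ + c₂, c₁' + c₂', ?_⟩
      rw [Finset.sum_insert ha, h₁, h₂, eval₂_add]
      ring
  refine hsum ℕ _ _ fun k _ => ?_
  rw [Finset.sum_mul]
  refine hsum ℕ _ _ fun i hi => ?_
  have hne : (Ψ.coeff k).coeff i ≠ 0 := Polynomial.mem_support_iff.mp hi
  have hpow : (j ^ q) ^ i * j ^ k = j ^ (q * i + k) := by
    rw [← pow_mul, ← pow_add]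
  rcases h k i hne with h1 | ⟨h1, h2⟩
  · obtain ⟨m, hm⟩ := Nat.exists_eq_add_of_le h1
    refine ⟨C ((Ψ.coeff k).coeff i) * X ^ m, 0, ?_⟩
    have e : D - (q * i + k) = m + 1 := by omega
    rw [eval₂_mul, eval₂_C, eval₂_X_pow, mul_zero, add_zero, mul_assoc, mul_assoc,
      ← mul_assoc ((j ^ q) ^ i), hpow, pow_mul_pow_of_inv96 hjJ (by omega : q * i + k ≤ D), e,
      pow_succ, eq_intCast]
    ring
  · obtain ⟨θ, hθ⟩ := h2
    refine ⟨0, (θ : A) * ((j ^ q) ^ i * j ^ k * J ^ D), ?_⟩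
    rw [hθ, eval₂_zero, mul_zero, zero_add]
    push_cast
    ring

end Rev


/-! ## The shape of the Kronecker remainder -/

section Shape

theorem kron_expand96 (q : ℕ) :
    ((X : ℤ[X][X]) ^ q - C X) * (X - C (X ^ q))
      = X ^ (q + 1) - C (X ^ q) * X ^ q - C X * X + C (X ^ (q + 1)) := by
  rw [map_pow, map_pow]
  ring

theorem kron_coeff96 (q : ℕ) (k i : ℕ) :
    ((((X : ℤ[X][X]) ^ q - C X) * (X - C (X ^ q))).coeff k).coeff i
      = (if k = q + 1 then (if i = 0 then 1 else 0) else 0)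
        - (if k = q then (if i = q then 1 else 0) else 0)
        - (if k = 1 then (if i = 1 then 1 else 0) else 0)
        + (if k = 0 then (if i = q + 1 then 1 else 0) else 0) := by
  rw [kron_expand96]
  rw [coeff_add, coeff_sub, coeff_sub, coeff_X_pow, coeff_C_mul_X_pow, coeff_C_mul_X, coeff_C]
  rw [coeff_add, coeff_sub, coeff_sub]
  congr 1
  · congr 1
    · congr 1
      · split_ifs with h1 h2 h2
        · simp [h2]
        · simp [coeff_one, h2]
        · simp
      · split_ifs with h1 h2 h2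
        · simp [h2]
        · simp [coeff_X_pow, h2]
        · simp
    · split_ifs with h1 h2 h2
      · simp [h2]
      · simp [coeff_X, h2]
        exact fun h => h2 h.symm
      · simp
  · split_ifs with h1 h2 h2
    · simp [h2]
    · simp [coeff_X_pow, h2]
    · simp

/-- The support of `Θ` in `Φ = (Y^q - X)(Y - X^q) + q Θ`, `Φ` of modular shape. -/
theorem theta_shape96 (q : ℕ) (hq : 2 ≤ q) {Φ Θ : ℤ[X][X]} (hΦ : IsModularShape q Φ)
    (hK : Φ = (X ^ q - C X) * (X - C (X ^ q)) + C (C (q : ℤ)) * Θ) (k i : ℕ)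
    (hne : (Θ.coeff k).coeff i ≠ 0) : k ≤ q ∧ i ≤ q + 1 ∧ (0 < k → i ≤ q) := by
  have key : (Φ.coeff k).coeff i
      = ((((X : ℤ[X][X]) ^ q - C X) * (X - C (X ^ q))).coeff k).coeff i
        + (q : ℤ) * (Θ.coeff k).coeff i := by
    conv_lhs => rw [hK]
    rw [coeff_add, coeff_add, coeff_C_mul, coeff_C_mul]
  rw [kron_coeff96] at key
  have hq0 : (q : ℤ) ≠ 0 := by
    have : q ≠ 0 := by omega
    exact_mod_cast this
  -- in the bad region `Φ` and the Kronecker product have the same coefficient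
  have hbad : ∀ v : ℤ, (Φ.coeff k).coeff i = v →
      (if k = q + 1 then (if i = 0 then (1 : ℤ) else 0) else 0)
        - (if k = q then (if i = q then 1 else 0) else 0)
        - (if k = 1 then (if i = 1 then 1 else 0) else 0)
        + (if k = 0 then (if i = q + 1 then 1 else 0) else 0) = v → False := by
    intro v hv hv'
    rw [hv, hv'] at key
    have : (q : ℤ) * (Θ.coeff k).coeff i = 0 := by linarith
    rcases mul_eq_zero.mp this with h | h
    · exact hq0 h
    · exact hne h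
  have hΦtop : Φ.coeff (q + 1) = 1 := by
    have := hΦ.monic.coeff_natDegree
    rwa [hΦ.natDegree_eq] at this
  -- the four bad cases
  have c1 : q + 1 < k → False := by
    intro h
    have h0 : Φ.coeff k = 0 :=
      Polynomial.coeff_eq_zero_of_natDegree_lt (by rw [hΦ.natDegree_eq]; exact h)
    refine hbad 0 (by rw [h0, coeff_zero]) ?_
    split_ifs <;> omega
  have c2 : k = q + 1 → False := by
    intro h
    by_cases hi : i = 0
    · refine hbad 1 (by rw [h, hΦtop, hi, coeff_one_zero]) ?_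
      split_ifs <;> omega
    · refine hbad 0 (by rw [h, hΦtop, coeff_one, if_neg hi]) ?_
      split_ifs <;> omega
  have c3 : 0 < k → k ≤ q → q < i → False := by
    intro hk0 hkq hi
    have hdeg : (Φ.coeff k).natDegree ≤ q := by
      rcases Nat.lt_or_ge k q with h' | h'
      · exact hΦ.coeff_mid k hk0 h'
      · have : k = q := by omega
        rw [this, hΦ.coeff_top_natDegree]
    have h0 : (Φ.coeff k).coeff i = 0 :=
      Polynomial.coeff_eq_zero_of_natDegree_lt (by omega)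
    refine hbad 0 h0 ?_
    split_ifs <;> omega
  have c4 : k = 0 → q + 1 < i → False := by
    intro hk0 hi
    have h0 : (Φ.coeff k).coeff i = 0 := by
      rw [hk0]
      exact Polynomial.coeff_eq_zero_of_natDegree_lt
        (by rw [hΦ.coeff_zero_natDegree]; exact hi)
    refine hbad 0 h0 ?_
    split_ifs <;> omega
  have hkq : k ≤ q := by
    by_contra hk
    rw [not_le] at hk
    rcases Nat.lt_or_ge (q + 1) k with h | h
    · exact c1 h
    · exact c2 (by omega)
  refine ⟨hkq, ?_, ?_⟩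
  · by_contra hi
    rw [not_le] at hi
    by_cases hk0 : k = 0
    · exact c4 hk0 hi
    · exact c3 (by omega) hkq (by omega)
  · intro hk
    by_contra hi
    rw [not_le] at hi
    exact c3 hk hkq hi

end Shape


/-! ## The Taylor identity -/

section Core

variable {A : Type*} [CommRing A] [IsDomain A]

/-- **The exact Taylor identity**: `B² ρ = Θ(j_q, j) - B² j^(q-1) - B Θ_Y(j_q, j) - π r`,
`B = j - j_q ^ q`, `q ρ = π ^ (q - 1)`. -/
theorem cusp_taylor96 (q : ℕ) (hq : q.Prime) (Θ : ℤ[X][X]) {j jq π ρ : A}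
    (h1 : (j ^ q - jq) * (j - jq ^ q) + (q : A) * ev96 Θ jq j = 0)
    (h2 : ((j + π) ^ q - jq) * ((j + π) - jq ^ q) + (q : A) * ev96 Θ jq (j + π) = 0)
    (hπ0 : π ≠ 0) (hq0 : (q : A) ≠ 0) (hρ : (q : A) * ρ = π ^ (q - 1)) :
    ∃ r : A, (j - jq ^ q) ^ 2 * ρ
      = ev96 Θ jq j - (j - jq ^ q) ^ 2 * j ^ (q - 1)
        - (j - jq ^ q) * ev96 (derivative Θ) jq j - π * r := by
  obtain ⟨s, hs⟩ := add_pow_prime96 q hq j π
  obtain ⟨k₂, hk₂⟩ := ev96_taylor Θ jq j π
  have hpq : π ^ q = π * ((q : A) * ρ) := by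
    rw [hρ, ← pow_succ']
    congr 1
    have := hq.pos
    omega
  obtain ⟨σ, hσ⟩ : ∃ σ : A, σ = ρ + j ^ (q - 1) + π * s := ⟨_, rfl⟩
  have hδ : (j + π) ^ q = j ^ q + (q : A) * π * σ := by
    linear_combination hs + hpq - (q : A) * π * hσ
  rw [hδ, hk₂] at h2
  have e1 : π * ((j ^ q - jq) + (q : A) * σ * ((j - jq ^ q) + π)
      + (q : A) * (ev96 (derivative Θ) jq j + k₂ * π)) = 0 := by
    linear_combination h2 - h1
  have e2 : (j ^ q - jq) + (q : A) * σ * ((j - jq ^ q) + π)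
      + (q : A) * (ev96 (derivative Θ) jq j + k₂ * π) = 0 := by
    rcases mul_eq_zero.mp e1 with h | h
    · exact absurd h hπ0
    · exact h
  have e3 : (q : A) * ((j - jq ^ q) * (σ * ((j - jq ^ q) + π)
      + ev96 (derivative Θ) jq j + k₂ * π) - ev96 Θ jq j) = 0 := by
    linear_combination (j - jq ^ q) * e2 - h1
  have e4 : (j - jq ^ q) * (σ * ((j - jq ^ q) + π)
      + ev96 (derivative Θ) jq j + k₂ * π) - ev96 Θ jq j = 0 := by
    rcases mul_eq_zero.mp e3 with h | h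
    · exact absurd h hq0
    · exact h
  refine ⟨(j - jq ^ q) ^ 2 * s + (j - jq ^ q) * σ + (j - jq ^ q) * k₂, ?_⟩
  linear_combination e4 - (j - jq ^ q) ^ 2 * hσ


/-- Weighted reversal of `Θ` (weight `< 2 q² + q - 1`). -/
theorem theta_rev96 {B : Type*} [CommRing B] (q : ℕ) (hq : 2 ≤ q) {Φ Θ : ℤ[X][X]}
    (hΦ : IsModularShape q Φ)
    (hK : Φ = (X ^ q - C X) * (X - C (X ^ q)) + C (C (q : ℤ)) * Θ)
    {x u : B} (hxu : x * u = 1) (D : ℕ) (hD : q * q + 2 * q + 1 ≤ D) :
    ∃ (c : ℤ[X]) (c' : B),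
      ev96 Θ (x ^ q) x * u ^ D = u * c.eval₂ (Int.castRingHom B) u + (q : B) * c' := by
  refine weighted_rev96 q hxu Θ D fun k i hne => Or.inl ?_
  obtain ⟨hk, hi, -⟩ := theta_shape96 q hq hΦ hK k i hne
  have h1 : q * i ≤ q * (q + 1) := Nat.mul_le_mul_left q hi
  rw [Nat.mul_succ] at h1
  omega

/-- Weighted reversal of `Θ_Y` (weight `≤ q² + q - 1`, top coefficient divisible by `q`). -/
theorem theta_der_rev96 {B : Type*} [CommRing B] (q : ℕ) (hq : 2 ≤ q) {Φ Θ : ℤ[X][X]}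
    (hΦ : IsModularShape q Φ)
    (hK : Φ = (X ^ q - C X) * (X - C (X ^ q)) + C (C (q : ℤ)) * Θ)
    {x u : B} (hxu : x * u = 1) (D : ℕ) (hD : q * q + q = D + 1) :
    ∃ (c : ℤ[X]) (c' : B),
      ev96 (derivative Θ) (x ^ q) x * u ^ D
        = u * c.eval₂ (Int.castRingHom B) u + (q : B) * c' := by
  refine weighted_rev96 q hxu (derivative Θ) D fun k i hne => ?_
  have hcoef : ((derivative Θ).coeff k).coeff i = (Θ.coeff (k + 1)).coeff i * ((k : ℤ) + 1) := by
    rw [coeff_derivative]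
    have : ((k : ℤ[X]) + 1) = C ((k : ℤ) + 1) := by simp
    rw [this, coeff_mul_C]
  rw [hcoef] at hne ⊢
  have hne' : (Θ.coeff (k + 1)).coeff i ≠ 0 := fun h => hne (by rw [h, zero_mul])
  obtain ⟨hk, -, hi⟩ := theta_shape96 q hq hΦ hK (k + 1) i hne'
  have hi' := hi (Nat.succ_pos k)
  rcases Nat.lt_or_ge i q with h | h
  · left
    have h1 : q * (i + 1) ≤ q * q := Nat.mul_le_mul_left q h
    rw [Nat.mul_succ] at h1
    omega
  · have hiq : i = q := le_antisymm hi' h
    subst hiq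
    rcases Nat.lt_or_ge (k + 1) i with h' | h'
    · left
      omega
    · right
      have hk' : k + 1 = i := le_antisymm hk h'
      refine ⟨by omega, ?_⟩
      refine Dvd.intro_left ((Θ.coeff (k + 1)).coeff i) ?_
      rw [← hk']
      push_cast
      ring

/-- **The cusp congruence, abstract form.** -/
theorem cusp_core96 (I : Ideal A) (q : ℕ) (hq : q.Prime) {Φ Θ : ℤ[X][X]}
    (hΦ : IsModularShape q Φ)
    (hK : Φ = (X ^ q - C X) * (X - C (X ^ q)) + C (C (q : ℤ)) * Θ)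
    {j jq jqq J Jq ρ : A} (hjJ : j * J = 1) (hjqJq : jq * Jq = 1)
    (h1 : ev96 Φ jq j = 0) (h2 : ev96 Φ jq jqq = 0)
    (hπ0 : jqq - j ≠ 0) (hq0 : (q : A) ≠ 0)
    (hπ : jqq - j ∈ I) (hqI : (q : A) ∈ I) (hkron : jq - j ^ q ∈ I)
    (hρ : (q : A) * ρ = (jqq - j) ^ (q - 1)) :
    ∃ C₀ : ℤ[X], ρ * (1 - j * Jq ^ q) ^ 2 * J ^ (q - 1)
      + (1 + J * C₀.eval₂ (Int.castRingHom A) J) ∈ I := by
  have hq2 := hq.two_le
  rw [hK, ev96_kron] at h1 h2
  have h2' : ((j + (jqq - j)) ^ q - jq) * ((j + (jqq - j)) - jq ^ q)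
      + (q : A) * ev96 Θ jq (j + (jqq - j)) = 0 := by
    rw [show j + (jqq - j) = jqq by ring]
    exact h2
  obtain ⟨r, hr⟩ := cusp_taylor96 q hq Θ h1 h2' hπ0 hq0 hρ
  -- the quotient ring
  obtain ⟨mk, hmk⟩ : ∃ mk : A →+* A ⧸ I, mk = Ideal.Quotient.mk I := ⟨_, rfl⟩
  have hmem : ∀ a : A, a ∈ I ↔ mk a = 0 := fun a => by
    rw [hmk]
    exact Ideal.Quotient.eq_zero_iff_mem.symm
  obtain ⟨x, hx⟩ : ∃ x, x = mk j := ⟨_, rfl⟩
  obtain ⟨u, hu⟩ : ∃ u, u = mk J := ⟨_, rfl⟩
  have hxu : x * u = 1 := by rw [hx, hu, ← map_mul, hjJ, map_one]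
  have hπQ : mk (jqq - j) = 0 := (hmem _).mp hπ
  have hqQ : ((q : ℕ) : A ⧸ I) = 0 := by
    have := (hmem _).mp hqI
    rwa [map_natCast] at this
  have hjqQ : mk jq = x ^ q := by
    have := (hmem _).mp hkron
    rw [map_sub, map_pow, sub_eq_zero] at this
    rw [this, hx]
  have hJqQ : mk Jq = u ^ q := by
    have e : Jq - J ^ q = Jq * J ^ q * (j ^ q - jq) := by
      have h3 : J ^ q * j ^ q = 1 := by rw [← mul_pow, mul_comm, hjJ, one_pow]
      linear_combination (-Jq) * h3 + J ^ q * hjqJq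
    have hmemJ : Jq - J ^ q ∈ I := by
      rw [e]
      refine I.mul_mem_left _ ?_
      have := I.neg_mem hkron
      rwa [neg_sub] at this
    have := (hmem _).mp hmemJ
    rw [map_sub, map_pow, sub_eq_zero] at this
    rw [this, hu]
  -- exponents
  obtain ⟨n, hn⟩ : ∃ n, q = n + 1 := ⟨q - 1, by omega⟩
  have hqq : 2 * q ≤ q * q := Nat.mul_le_mul_right q hq2
  obtain ⟨N₂, hN₂⟩ : ∃ N₂, q * q = N₂ + 2 := ⟨q * q - 2, by omega⟩
  -- weighted reversals in the quotient
  obtain ⟨c₁, c₁', hc₁⟩ := theta_rev96 (B := A ⧸ I) q hq2 hΦ hK hxu (2 * (N₂ + 2) + n)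
    (by omega)
  obtain ⟨c₃, c₃', hc₃⟩ := theta_der_rev96 (B := A ⧸ I) q hq2 hΦ hK hxu (N₂ + 2 + n)
    (by omega)
  rw [hqQ, zero_mul, add_zero] at hc₁ hc₃
  -- the image of the Taylor identity
  have hrQ := congrArg mk hr
  simp only [map_sub, map_mul, map_pow, map_ev96, hπQ, zero_mul, sub_zero, hjqQ, ← hx] at hrQ
  -- `B u^(q²) = E`
  have hE : (x - (x ^ q) ^ q) * u ^ (N₂ + 2) = u ^ (N₂ + 1) - 1 := by
    have h4 : (x ^ q) ^ q * u ^ (N₂ + 2) = 1 := by
      rw [← pow_mul, hN₂, ← mul_pow, hxu, one_pow]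
    have h5 : x * u ^ (N₂ + 2) = u ^ (N₂ + 1) := by
      rw [pow_succ, mul_comm (u ^ (N₂ + 1)), ← mul_assoc, hxu, one_mul]
    rw [sub_mul, h4, h5]
  have hxn : x ^ n * u ^ n = 1 := by rw [← mul_pow, hxu, one_pow]
  have hqn : q - 1 = n := by omega
  refine ⟨-c₁ + (X ^ (N₂ + 1) - 1) * c₃ - 2 * X ^ N₂ + X ^ (2 * N₂ + 1), ?_⟩
  rw [hmem]
  have haev : ∀ p : ℤ[X], mk (p.eval₂ (Int.castRingHom A) J)
      = p.eval₂ (Int.castRingHom (A ⧸ I)) u := by
    intro p
    rw [hu, Polynomial.hom_eval₂]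
    congr 1
    exact RingHom.ext_int _ _
  simp only [map_add, map_sub, map_mul, map_pow, map_one, haev, hJqQ, ← hx, ← hu, map_neg,
    eval₂_add, eval₂_sub, eval₂_mul, eval₂_neg, eval₂_pow, eval₂_X, eval₂_one, eval₂_ofNat, hqn]
  rw [hqn] at hrQ
  have hE' : (1 : A ⧸ I) - x * (u ^ q) ^ q = -(u ^ (N₂ + 1) - 1) := by
    rw [← pow_mul, hN₂, pow_succ, mul_comm (u ^ (N₂ + 1)), ← mul_assoc, hxu, one_mul]
    ring
  rw [hE']
  -- multiply the identity by `u ^ (2 q² + n)`
  have key : (u ^ (N₂ + 1) - 1) ^ 2 * mk ρ * u ^ n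
      = u * c₁.eval₂ (Int.castRingHom (A ⧸ I)) u - (u ^ (N₂ + 1) - 1) ^ 2
        - (u ^ (N₂ + 1) - 1) * (u * c₃.eval₂ (Int.castRingHom (A ⧸ I)) u) := by
    rw [← hc₁, ← hc₃, ← hE]
    linear_combination (u ^ (N₂ + 2)) ^ 2 * u ^ n * hrQ
      - (x - (x ^ q) ^ q) ^ 2 * (u ^ (N₂ + 2)) ^ 2 * hxn
  have h2Q : mk 2 = 2 := map_ofNat mk 2
  rw [h2Q]
  linear_combination key

end Core

/-! ## Valuation form -/

section Val

variable {K : Type*} [Field K]

theorem mem_maximalIdeal_iff96 (V : ValuationSubring K) (y : V) :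
    y ∈ IsLocalRing.maximalIdeal V ↔ (y : K) ∈ V.nonunits := by
  rw [ValuationSubring.mem_nonunits_iff_exists_mem_maximalIdeal]
  constructor
  · intro h
    exact ⟨y.2, h⟩
  · rintro ⟨_, h⟩
    exact h

theorem coe_ev96 (V : ValuationSubring K) (Ψ : ℤ[X][X]) (x y : V) :
    ((ev96 Ψ x y : V) : K) = ev96 Ψ (x : K) (y : K) :=
  map_ev96 V.subtype Ψ x y

theorem coe_eval₂_int96 (V : ValuationSubring K) (p : ℤ[X]) (x : V) :
    ((p.eval₂ (Int.castRingHom V) x : V) : K) = p.eval₂ (Int.castRingHom K) (x : K) := by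
  have h := Polynomial.hom_eval₂ p (Int.castRingHom V) V.subtype x
  have e : V.subtype.comp (Int.castRingHom V) = Int.castRingHom K := RingHom.ext_int _ _
  rw [e] at h
  exact h

/-- **The cusp congruence, valuation form.**  `a = j`, `b = j_q`, `c = j_{q²}`, `W = w`,
`q = W U`, `V` the valuation ring of the middle component. -/
theorem cusp_cong_val96 (V : ValuationSubring K) (q : ℕ) (hq : q.Prime) {Φ Θ : ℤ[X][X]}
    (hΦ : IsModularShape q Φ)
    (hK : Φ = (X ^ q - C X) * (X - C (X ^ q)) + C (C (q : ℤ)) * Θ)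
    {a b c W U U' : K}
    (ha0 : a ≠ 0) (ha : a ∈ V) (ha' : a⁻¹ ∈ V)
    (hb0 : b ≠ 0) (hb : b ∈ V) (hb' : b⁻¹ ∈ V)
    (hc0 : c ≠ 0) (hc : c ∈ V) (hc' : c⁻¹ ∈ V)
    (h1 : ev96 Φ b a = 0) (h2 : ev96 Φ b c = 0)
    (hπ0 : c - a ≠ 0) (hπ : c - a ∈ V.nonunits) (hkron : b - a ^ q ∈ V.nonunits)
    (hW0 : W ≠ 0) (hWm : W ∈ V.nonunits) (hU : U ∈ V) (hU' : U' ∈ V) (hUU' : U * U' = 1)
    (hqW : (q : K) = W * U) (hpow : (c - a) ^ (q - 1) * W⁻¹ ∈ V) :
    ∃ C₀ : ℤ[X], ∀ hv g : K, hv = 1 + a⁻¹ * C₀.eval₂ (Int.castRingHom K) a⁻¹ →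
      g = -U' * (1 - a * (b ^ q)⁻¹) ^ 2 →
      (((c - a) * b * (a ^ q * c)⁻¹) ^ (q - 1) * g - W ^ 1 * hv ^ 1) * (W ^ 1)⁻¹
        ∈ V.nonunits := by
  obtain ⟨n, hn⟩ : ∃ n, q = n + 1 := ⟨q - 1, by have := hq.pos; omega⟩
  have hqn : q - 1 = n := by omega
  rw [hqn] at hpow
  -- elements of `V`
  obtain ⟨jV, hjV⟩ : ∃ y : V, (y : K) = a := ⟨⟨a, ha⟩, rfl⟩
  obtain ⟨JV, hJV⟩ : ∃ y : V, (y : K) = a⁻¹ := ⟨⟨a⁻¹, ha'⟩, rfl⟩
  obtain ⟨jqV, hjqV⟩ : ∃ y : V, (y : K) = b := ⟨⟨b, hb⟩, rfl⟩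
  obtain ⟨JqV, hJqV⟩ : ∃ y : V, (y : K) = b⁻¹ := ⟨⟨b⁻¹, hb'⟩, rfl⟩
  obtain ⟨jqqV, hjqqV⟩ : ∃ y : V, (y : K) = c := ⟨⟨c, hc⟩, rfl⟩
  obtain ⟨JqqV, hJqqV⟩ : ∃ y : V, (y : K) = c⁻¹ := ⟨⟨c⁻¹, hc'⟩, rfl⟩
  obtain ⟨ρV, hρV⟩ : ∃ y : V, (y : K) = (c - a) ^ n * W⁻¹ * U' :=
    ⟨⟨(c - a) ^ n * W⁻¹ * U', V.mul_mem _ _ hpow hU'⟩, rfl⟩
  have hWW : W * W⁻¹ = 1 := mul_inv_cancel₀ hW0
  have inj : ∀ {y z : V}, (y : K) = (z : K) → y = z := fun h => Subtype.ext h
  have hjJ : jV * JV = 1 := inj (by push_cast; rw [hjV, hJV, mul_inv_cancel₀ ha0])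
  have hjqJq : jqV * JqV = 1 := inj (by push_cast; rw [hjqV, hJqV, mul_inv_cancel₀ hb0])
  have hjqqJqq : jqqV * JqqV = 1 := inj (by push_cast; rw [hjqqV, hJqqV, mul_inv_cancel₀ hc0])
  have e1 : ev96 Φ jqV jV = 0 := inj (by rw [coe_ev96, hjqV, hjV, h1]; rfl)
  have e2 : ev96 Φ jqV jqqV = 0 := inj (by rw [coe_ev96, hjqV, hjqqV, h2]; rfl)
  have hπ0V : jqqV - jV ≠ 0 := by
    intro h
    apply hπ0
    have := congrArg (fun y : V => (y : K)) h
    simpa [hjqqV, hjV] using this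
  have hqK0 : (q : K) ≠ 0 := by
    rw [hqW]
    intro h
    rcases mul_eq_zero.mp h with h | h
    · exact hW0 h
    · rw [h, zero_mul] at hUU'
      exact zero_ne_one hUU'
  have hq0V : ((q : ℕ) : V) ≠ 0 := by
    intro h
    apply hqK0
    have := congrArg (fun y : V => (y : K)) h
    simpa using this
  have hπV : jqqV - jV ∈ IsLocalRing.maximalIdeal V := by
    rw [mem_maximalIdeal_iff96]
    push_cast
    rw [hjqqV, hjV]
    exact hπ
  have hqV : ((q : ℕ) : V) ∈ IsLocalRing.maximalIdeal V := by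
    rw [mem_maximalIdeal_iff96]
    push_cast
    rw [hqW, mul_comm]
    have := (IsLocalRing.maximalIdeal V).mul_mem_left ⟨U, hU⟩
      ((mem_maximalIdeal_iff96 V ⟨W, V.nonunits_le hWm⟩).mpr hWm)
    rw [mem_maximalIdeal_iff96] at this
    simpa using this
  have hkronV : jqV - jV ^ q ∈ IsLocalRing.maximalIdeal V := by
    rw [mem_maximalIdeal_iff96]
    push_cast
    rw [hjqV, hjV]
    exact hkron
  have hρ : ((q : ℕ) : V) * ρV = (jqqV - jV) ^ (q - 1) := by
    apply inj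
    push_cast
    rw [hρV, hjqqV, hjV, hqW, hqn]
    linear_combination (c - a) ^ n * U * U' * hWW + (c - a) ^ n * hUU'
  obtain ⟨C₀, hC₀⟩ := cusp_core96 (IsLocalRing.maximalIdeal V) q hq hΦ hK hjJ hjqJq e1 e2
    hπ0V hq0V hπV hqV hkronV hρ
  refine ⟨C₀, fun hv g hhv hg => ?_⟩
  -- `z = zcusp`
  obtain ⟨zV, hzV⟩ : ∃ zV : V, zV = jqV * JV ^ n * JqqV := ⟨_, rfl⟩
  have hz1 : zV - 1 ∈ IsLocalRing.maximalIdeal V := by
    have e : zV - 1 = ((jqV - jV ^ q) - jV ^ n * (jqqV - jV)) * (JV ^ n * JqqV) := by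
      have h3 : jV ^ n * JV ^ n = 1 := by rw [← mul_pow, hjJ, one_pow]
      rw [hzV, hn, pow_succ]
      linear_combination (jV ^ n * JV ^ n) * hjqqJqq + h3
    rw [e]
    exact Ideal.mul_mem_right _ _
      (Ideal.sub_mem _ hkronV (Ideal.mul_mem_left _ _ hπV))
  have hzn : zV ^ n - 1 ∈ IsLocalRing.maximalIdeal V := by
    obtain ⟨d, hd⟩ := sub_dvd_pow_sub_pow zV 1 n
    rw [one_pow] at hd
    rw [hd]
    exact Ideal.mul_mem_right _ _ hz1
  have hT : -((ρV * (1 - jV * JqV ^ q) ^ 2 * JV ^ (q - 1)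
        + (1 + JV * C₀.eval₂ (Int.castRingHom V) JV)) * zV ^ n
      - (1 + JV * C₀.eval₂ (Int.castRingHom V) JV) * (zV ^ n - 1))
      ∈ IsLocalRing.maximalIdeal V :=
    neg_mem (Ideal.sub_mem _ (Ideal.mul_mem_right _ _ hC₀) (Ideal.mul_mem_left _ _ hzn))
  rw [mem_maximalIdeal_iff96] at hT
  have key : (((c - a) * b * (a ^ q * c)⁻¹) ^ (q - 1) * g - W ^ 1 * hv ^ 1) * (W ^ 1)⁻¹
      = ((-((ρV * (1 - jV * JqV ^ q) ^ 2 * JV ^ (q - 1)
        + (1 + JV * C₀.eval₂ (Int.castRingHom V) JV)) * zV ^ n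
      - (1 + JV * C₀.eval₂ (Int.castRingHom V) JV) * (zV ^ n - 1)) : V) : K) := by
    push_cast
    rw [coe_eval₂_int96, hzV]
    push_cast
    rw [hρV, hjV, hJV, hJqV, hjqV, hJqqV, hg, hhv, hqn, pow_one, pow_one]
    have ht : (c - a) * b * (a ^ q * c)⁻¹ = (c - a) * (b * (a⁻¹) ^ n * c⁻¹) * a⁻¹ := by
      rw [hn, mul_inv, ← inv_pow, pow_succ]
      ring
    rw [ht, mul_pow, mul_pow, ← inv_pow b q]
    linear_combination (-(1 + a⁻¹ * C₀.eval₂ (Int.castRingHom K) a⁻¹)) * hWW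
  rw [key]
  exact hT

end Val

end Fermat.Agent.S36.Mod3.H96

end
-- ===== PACK-END S36/Mod3/H96/CuspAbs.lean

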