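import Mathlib
import Fermat.Prelude.Def_AlgebraicCurve_BaseChangeGalois
import Fermat.Prelude.Def_ModularCurve_ArithmeticGalois
import Fermat.Prelude.Def_ModularCurve_X0ModL
import Fermat.Prelude.Def_ModularCurve_JqCoeff
import Fermat.Prelude.Def_CuspForm_HeckeGaloisRepDatum
import Fermat.Agent.Pack.S36.E4L3
import Fermat.Agent.Pack.S36.E0L1
import Fermat.Agent.Pack.S36.E4L2
import Fermat.Agent.Pack.S36.E4L0
import Fermat.Agent.Pack.S36.E0L3
import Fermat.Agent.Pack.S36.E5L0
import Fermat.Agent.Pack.S36.E5L3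

-- ===== PACK-BEGIN S35/H991/Flat.lean
section
/-
S35 mid layer (helper991): the flatness bridge.

`exists_lTensor_subtype_eq`: let `J` be an abelian group with finite `m`-torsion, `f c : J → J' c`
a family of additive maps and `K ≤ J` a subgroup containing every `m`-torsion element killed by
all the `f c`.  Then every `m`-torsion element of `O ⊗ J` killed by all the `1 ⊗ f c` comes from
`O ⊗ K` (`O` flat over `ℤ`).
-/


set_option autoImplicit false

namespace Fermat.Agent.S35.H991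

open TensorProduct

section Pi

variable (O : Type*) [CommRing O]
variable {I : Type*} [Finite I] {M : I → Type*} [∀ i, AddCommGroup (M i)]

/-- An element of `O ⊗ ∏ M i` (finite product) all of whose components vanish is zero. -/
theorem eq_zero_of_proj_lTensor_eq_zero (z : O ⊗[ℤ] (∀ i, M i))
    (hz : ∀ i, (LinearMap.proj (R := ℤ) (φ := M) i).lTensor O z = 0) : z = 0 := by
  classical
  have : Fintype I := Fintype.ofFinite I
  have h1 : TensorProduct.piRight ℤ ℤ O M z = 0 := by
    funext i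
    have h2 : ∀ w : O ⊗[ℤ] (∀ i, M i),
        TensorProduct.piRight ℤ ℤ O M w i = (LinearMap.proj (R := ℤ) (φ := M) i).lTensor O w := by
      intro w
      induction w using TensorProduct.induction_on with
      | zero => simp
      | tmul x g => simp
      | add a b ha hb => rw [map_add, map_add, Pi.add_apply, ha, hb]
    rw [h2, hz i]
    rfl
  exact (TensorProduct.piRight ℤ ℤ O M).injective (by rw [h1, map_zero])

end Pi

section Flat

variable (O : Type*) [CommRing O] [Module.Flat ℤ O]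
variable {J : Type*} [AddCommGroup J]

/-- **Flatness bridge.** -/
theorem exists_lTensor_subtype_eq (m : ℕ) (hfin : {x : J | m • x = 0}.Finite)
    {C : Type*} {J' : C → Type*} [∀ c, AddCommGroup (J' c)] (f : ∀ c, J →ₗ[ℤ] J' c)
    (K : Submodule ℤ J) (hK : ∀ x : J, m • x = 0 → (∀ c, f c x = 0) → x ∈ K)
    (y : O ⊗[ℤ] J) (hy : (m : ℤ) • y = 0) (hfy : ∀ c, (f c).lTensor O y = 0) :
    ∃ s : O ⊗[ℤ] K, K.subtype.lTensor O s = y := by
  classical
  -- step 1: `y` comes from `O ⊗ J[m]`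
  set Jm := LinearMap.ker ((m : ℤ) • (LinearMap.id : J →ₗ[ℤ] J)) with hJm
  obtain ⟨y', hy'⟩ := Fermat.Agent.S30.H529.exists_lTensor_eq_of_smul_eq_zero O (m : ℤ) y hy
  have hmem : ∀ x : J, x ∈ Jm ↔ m • x = 0 := by
    intro x
    rw [hJm, LinearMap.mem_ker, LinearMap.smul_apply, LinearMap.id_apply, natCast_zsmul]
  have hJmfin : Finite Jm := by
    have : (Jm : Set J) = {x : J | m • x = 0} := by
      ext x
      exact hmem x
    exact Set.finite_coe_iff.mpr (this ▸ hfin)
  -- step 2: finitely many of the maps suffice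
  have hex : ∀ x : {x : Jm // (x : J) ∉ K}, ∃ c : C, f c (x : Jm) ≠ 0 := by
    rintro ⟨x, hx⟩
    by_contra hcon
    push Not at hcon
    exact hx (hK x ((hmem x).mp x.2) hcon)
  choose c hc using hex
  let F : Jm →ₗ[ℤ] (∀ x : {x : Jm // (x : J) ∉ K}, J' (c x)) :=
    LinearMap.pi fun x => (f (c x)).comp Jm.subtype
  have hFK : ∀ z : Jm, F z = 0 → (z : J) ∈ K := by
    intro z hz
    by_contra hzK
    have := congrFun hz ⟨z, hzK⟩
    exact hc ⟨z, hzK⟩ this
  -- step 3: flatness
  have hexact := Module.Flat.lTensor_exact O (LinearMap.exact_subtype_ker_map F)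
  have hFy : F.lTensor O y' = 0 := by
    apply eq_zero_of_proj_lTensor_eq_zero O
    intro x
    have h1 : (LinearMap.proj (R := ℤ) (φ := fun x : {x : Jm // (x : J) ∉ K} => J' (c x)) x).comp F
        = (f (c x)).comp Jm.subtype := by
      apply LinearMap.ext
      intro z
      rfl
    rw [← LinearMap.comp_apply, ← LinearMap.lTensor_comp, h1, LinearMap.lTensor_comp,
      LinearMap.comp_apply, hy', hfy]
  obtain ⟨s', hs'⟩ := (hexact y').mp hFy
  -- step 4: push to `K`
  let incl : LinearMap.ker F →ₗ[ℤ] K :=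
    { toFun := fun z => ⟨((z : Jm) : J), hFK z z.2⟩
      map_add' := fun a b => rfl
      map_smul' := fun r a => rfl }
  refine ⟨incl.lTensor O s', ?_⟩
  have h2 : K.subtype.comp incl = Jm.subtype.comp (LinearMap.ker F).subtype := by
    apply LinearMap.ext
    intro z
    rfl
  rw [← LinearMap.comp_apply, ← LinearMap.lTensor_comp, h2, LinearMap.lTensor_comp,
    LinearMap.comp_apply, hs', hy']

end Flat

end Fermat.Agent.S35.H991

end
-- ===== PACK-END S35/H991/Flat.lean

-- ===== PACK-BEGIN S30/H990/Lattice.lean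
section
/-
S30 top glue (helper990): pure algebra, part 4.
Restriction of a representation to a stable saturated lattice; congruences pass to saturated
lattices; rank one lattices give characters.
-/


set_option autoImplicit false

namespace Fermat.Agent.S30.H990

open Module Polynomial

section Restrict

variable {𝒪 M G : Type*} [CommRing 𝒪] [AddCommGroup M] [Module 𝒪 M] [Group G]

/-- Restriction of a representation to a stable submodule. -/
def restrictRep (ρ : G →* Module.End 𝒪 M) (Λ : Submodule 𝒪 M)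
    (h : ∀ g, ∀ x ∈ Λ, ρ g x ∈ Λ) : G →* Module.End 𝒪 Λ where
  toFun g := (ρ g).restrict (h g)
  map_one' := by
    ext x
    simp
  map_mul' g g' := by
    ext x
    simp

@[simp] theorem restrictRep_apply (ρ : G →* Module.End 𝒪 M) (Λ : Submodule 𝒪 M)
    (h : ∀ g, ∀ x ∈ Λ, ρ g x ∈ Λ) (g : G) (x : Λ) :
    ((restrictRep ρ Λ h g x : Λ) : M) = ρ g (x : M) := rfl

theorem rel_restrictRep (ρ : G →* Module.End 𝒪 M) (d : G →* 𝒪ˣ) (Λ : Submodule 𝒪 M)
    (h : ∀ g, ∀ x ∈ Λ, ρ g x ∈ Λ) {g : G} {a : 𝒪} (hr : Rel ρ d g a) :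
    Rel (restrictRep ρ Λ h) d g a := by
  unfold Rel
  ext x
  have := rel_apply ρ d hr (x : M)
  simpa using this

end Restrict

section SatCong

variable {𝒪 M : Type*} [CommRing 𝒪] [IsDomain 𝒪] [IsPrincipalIdealRing 𝒪]
  [AddCommGroup M] [Module 𝒪 M]

/-- Congruences modulo an ideal pass to saturated submodules. -/
theorem mem_smul_top_sat (N : Submodule 𝒪 M) (I : Ideal 𝒪) (x : sat N)
    (hx : (x : M) ∈ I • (⊤ : Submodule 𝒪 M)) :
    x ∈ I • (⊤ : Submodule 𝒪 (sat N)) := by
  obtain ⟨ϖ, hϖ⟩ := IsPrincipalIdealRing.principal I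
  have hI : I = Ideal.span {ϖ} := hϖ
  rw [hI, Submodule.ideal_span_singleton_smul, Submodule.mem_smul_pointwise_iff_exists] at hx
  obtain ⟨m, -, hm⟩ := hx
  by_cases h0 : ϖ = 0
  · have : x = 0 := by
      apply Subtype.ext
      rw [← hm, h0, zero_smul]; rfl
    rw [this]; exact Submodule.zero_mem _
  · have hmem : m ∈ sat N := by
      apply mem_sat_of_smul_mem h0
      rw [hm]; exact x.2
    have : x = ϖ • (⟨m, hmem⟩ : sat N) := Subtype.ext hm.symm
    rw [this]
    exact Submodule.smul_mem_smul (hI ▸ Ideal.subset_span (Set.mem_singleton ϖ))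
      Submodule.mem_top

end SatCong

section RankOne

variable {𝒪 V : Type*} [CommRing 𝒪] [IsDomain 𝒪] [AddCommGroup V] [Module 𝒪 V]
  [Module.Free 𝒪 V] [Module.Finite 𝒪 V]

/-- On a free module of rank one every endomorphism is multiplication by its determinant. -/
theorem apply_eq_det_smul (h1 : Module.finrank 𝒪 V = 1) (f : Module.End 𝒪 V) (x : V) :
    f x = LinearMap.det f • x := by
  classical
  let b : Basis (Fin 1) 𝒪 V := Module.finBasisOfFinrankEq 𝒪 V h1
  have hdet : LinearMap.det f = b.repr (f (b 0)) 0 := by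
    rw [← LinearMap.det_toMatrix b f, Matrix.det_fin_one, LinearMap.toMatrix_apply]
  have hb : f (b 0) = LinearMap.det f • b 0 := by
    conv_lhs => rw [← b.sum_repr (f (b 0))]
    rw [Fin.sum_univ_one, hdet]
  have hx : x = b.repr x 0 • b 0 := by
    conv_lhs => rw [← b.sum_repr x]
    rw [Fin.sum_univ_one]
  rw [hx, map_smul, hb, smul_comm]

/-- In a free module of rank one, `r • e ∈ I • ⊤` for a basis vector `e` forces `r ∈ I`. -/
theorem mem_of_smul_basis_mem (h1 : Module.finrank 𝒪 V = 1) (I : Ideal 𝒪) (r : 𝒪)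
    (h : ∀ x : V, r • x ∈ I • (⊤ : Submodule 𝒪 V)) : r ∈ I := by
  classical
  let b : Basis (Fin 1) 𝒪 V := Module.finBasisOfFinrankEq 𝒪 V h1
  have key : ∀ y ∈ I • (⊤ : Submodule 𝒪 V), b.repr y 0 ∈ I := by
    intro y hy
    refine Submodule.smul_induction_on hy ?_ ?_
    · intro i hi n _
      rw [map_smul, Finsupp.smul_apply, smul_eq_mul]
      exact I.mul_mem_right _ hi
    · intro y z hy hz
      rw [map_add, Finsupp.add_apply]
      exact I.add_mem hy hz
  have := key _ (h (b 0))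
  rwa [map_smul, Finsupp.smul_apply, Basis.repr_self, Finsupp.single_eq_same, smul_eq_mul,
    mul_one] at this

end RankOne

end Fermat.Agent.S30.H990

end
-- ===== PACK-END S30/H990/Lattice.lean

-- ===== PACK-BEGIN Lib/Cheb/H761/PrimeSum.lean
section



/-!
# Piece Z of the shared library CHEB: `Spec.PrimeSumStatement`

`∑_p c_F(p) p^(-s) = log (1 / (s - 1)) + O(1)` on `(1, 2]`, where `c_F(p)` is the number of prime
ideals of `𝓞 F` of norm `p`.
-/

set_option autoImplicit false
set_option linter.unusedSectionVars false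
set_option linter.unusedVariables false

namespace Fermat.Agent.Lib.Cheb.H761

open IsDedekindDomain Filter Topology NumberField Ideal

noncomputable section

variable (F : Type*) [Field F] [NumberField F]

/-- At most `[F : ℚ]` primes of `𝓞 F` contain a given rational prime. -/
lemma card_le_of_natCast_mem {p : ℕ} (hp : p.Prime) (T : Finset (HeightOneSpectrum (𝓞 F)))
    (hT : ∀ 𝔭 ∈ T, (p : 𝓞 F) ∈ 𝔭.asIdeal) : T.card ≤ Module.finrank ℤ (𝓞 F) := by
  classical
  have hdvd : ∀ 𝔭 ∈ T, 𝔭.asIdeal ∣ span {(p : 𝓞 F)} := fun 𝔭 h𝔭 =>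
    Ideal.dvd_iff_le.mpr ((span_singleton_le_iff_mem _).mpr (hT 𝔭 h𝔭))
  have hprod : ∏ 𝔭 ∈ T, 𝔭.asIdeal ∣ span {(p : 𝓞 F)} := by
    have := Finset.prod_primes_dvd (s := T.image (fun 𝔭 => 𝔭.asIdeal)) (span {(p : 𝓞 F)})
      (by
        intro a ha
        obtain ⟨𝔭, -, rfl⟩ := Finset.mem_image.mp ha
        exact 𝔭.prime)
      (by
        intro a ha
        obtain ⟨𝔭, h𝔭, rfl⟩ := Finset.mem_image.mp ha
        exact hdvd 𝔭 h𝔭)
    rwa [Finset.prod_image (fun x _ y _ h => HeightOneSpectrum.ext h)] at this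
  have hnorm := Ideal.absNorm_dvd_absNorm_of_le (Ideal.dvd_iff_le.mp hprod)
  rw [Ideal.absNorm_span_natCast, map_prod] at hnorm
  have hle : ∀ 𝔭 ∈ T, p ≤ absNorm 𝔭.asIdeal := by
    intro 𝔭 h𝔭
    have h1 := Ideal.absNorm_dvd_absNorm_of_le (Ideal.dvd_iff_le.mp (hdvd 𝔭 h𝔭))
    rw [Ideal.absNorm_span_natCast] at h1
    obtain ⟨k, -, hk⟩ := (Nat.dvd_prime_pow hp).mp h1
    have hk0 : k ≠ 0 := by
      rintro rfl
      rw [pow_zero, Ideal.absNorm_eq_one_iff] at hk
      exact 𝔭.isPrime.ne_top hk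
    rw [hk]
    exact Nat.le_self_pow hk0 p
  have h2 : p ^ T.card ≤ ∏ 𝔭 ∈ T, absNorm 𝔭.asIdeal := by
    rw [← Finset.prod_const]
    exact Finset.prod_le_prod' hle
  have h3 : ∏ 𝔭 ∈ T, absNorm 𝔭.asIdeal ≤ p ^ Module.finrank ℤ (𝓞 F) :=
    Nat.le_of_dvd (pow_pos hp.pos _) hnorm
  exact (Nat.pow_le_pow_iff_right hp.one_lt).mp (h2.trans h3)

/-- the rational prime below a prime ideal -/
def primeBelow (𝔭 : HeightOneSpectrum (𝓞 F)) : ℕ :=
  haveI := 𝔭.isMaximal
  (Ideal.exists_prime_and_absNorm_eq_pow 𝔭.asIdeal).choose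

lemma primeBelow_spec (𝔭 : HeightOneSpectrum (𝓞 F)) :
    ∃ n, 0 < n ∧ (primeBelow F 𝔭 : 𝓞 F) ∈ 𝔭.asIdeal ∧ (primeBelow F 𝔭).Prime ∧
      absNorm 𝔭.asIdeal = primeBelow F 𝔭 ^ n :=
  haveI := 𝔭.isMaximal
  (Ideal.exists_prime_and_absNorm_eq_pow 𝔭.asIdeal).choose_spec

/-- For a prime of non-prime norm, `N𝔭 ≥ p²`. -/
lemma sq_primeBelow_le (𝔭 : HeightOneSpectrum (𝓞 F)) (h : ¬ (absNorm 𝔭.asIdeal).Prime) :
    primeBelow F 𝔭 ^ 2 ≤ absNorm 𝔭.asIdeal := by
  obtain ⟨n, hn, -, hp, hN⟩ := primeBelow_spec F 𝔭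
  have hn2 : 2 ≤ n := by
    by_contra hlt
    have : n = 1 := by omega
    rw [this, pow_one] at hN
    exact h (hN ▸ hp)
  rw [hN]
  exact Nat.pow_le_pow_right hp.pos hn2

/-- the primes of non-prime norm -/
def highPrimes : Set (HeightOneSpectrum (𝓞 F)) := {𝔭 | ¬ (absNorm 𝔭.asIdeal).Prime}

/-- the constant bounding the contribution of the primes of degree `≥ 2` -/
def highBound : ℝ := (Module.finrank ℤ (𝓞 F) : ℝ) * ∑' n : ℕ, ((n : ℝ) ^ 2)⁻¹

lemma summable_inv_sq : Summable (fun n : ℕ => ((n : ℝ) ^ 2)⁻¹) := by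
  have := (Real.summable_nat_pow_inv (p := 2)).mpr (by norm_num)
  exact this

lemma sum_highPrimes_le {s : ℝ} (hs : 1 ≤ s) (T : Finset (HeightOneSpectrum (𝓞 F)))
    (hT : ∀ 𝔭 ∈ T, ¬ (absNorm 𝔭.asIdeal).Prime) :
    ∑ 𝔭 ∈ T, normPow F s 𝔭.asIdeal ≤ highBound F := by
  classical
  have h1 : ∀ 𝔭 ∈ T, normPow F s 𝔭.asIdeal ≤ (((primeBelow F 𝔭 : ℕ) : ℝ) ^ 2)⁻¹ := by
    intro 𝔭 h𝔭
    have hsq := sq_primeBelow_le F 𝔭 (hT 𝔭 h𝔭)
    obtain ⟨n, hn, -, hp, hN⟩ := primeBelow_spec F 𝔭
    have hpos : (0 : ℝ) < (primeBelow F 𝔭 : ℝ) ^ 2 := by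
      have : (0 : ℝ) < primeBelow F 𝔭 := by exact_mod_cast hp.pos
      positivity
    have hle : ((primeBelow F 𝔭 : ℝ)) ^ 2 ≤ (absNorm 𝔭.asIdeal : ℝ) := by exact_mod_cast hsq
    have h1N : (1 : ℝ) ≤ absNorm 𝔭.asIdeal := by
      have : (1 : ℝ) ≤ (primeBelow F 𝔭 : ℝ) ^ 2 := by
        have : (1 : ℝ) ≤ primeBelow F 𝔭 := by exact_mod_cast hp.one_lt.le
        nlinarith
      linarith
    calc normPow F s 𝔭.asIdeal ≤ normPow F 1 𝔭.asIdeal :=
          normPow_anti F hs 𝔭.asIdeal one_pos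
      _ = (absNorm 𝔭.asIdeal : ℝ)⁻¹ := by
          rw [normPow, Real.rpow_neg_one]
      _ ≤ (((primeBelow F 𝔭 : ℕ) : ℝ) ^ 2)⁻¹ := inv_anti₀ hpos hle
  calc ∑ 𝔭 ∈ T, normPow F s 𝔭.asIdeal
      ≤ ∑ 𝔭 ∈ T, (((primeBelow F 𝔭 : ℕ) : ℝ) ^ 2)⁻¹ := Finset.sum_le_sum h1
    _ = ∑ p ∈ T.image (primeBelow F),
          ∑ 𝔭 ∈ T.filter (fun 𝔭 => primeBelow F 𝔭 = p), (((primeBelow F 𝔭 : ℕ) : ℝ) ^ 2)⁻¹ := by
        rw [Finset.sum_fiberwise_of_maps_to (fun 𝔭 h𝔭 => Finset.mem_image_of_mem _ h𝔭)]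
    _ ≤ ∑ p ∈ T.image (primeBelow F), (Module.finrank ℤ (𝓞 F) : ℝ) * ((p : ℝ) ^ 2)⁻¹ := by
        refine Finset.sum_le_sum fun p hp => ?_
        obtain ⟨𝔮, h𝔮, rfl⟩ := Finset.mem_image.mp hp
        have hcard : (T.filter (fun 𝔭 => primeBelow F 𝔭 = primeBelow F 𝔮)).card ≤
            Module.finrank ℤ (𝓞 F) := by
          obtain ⟨n, -, -, hpr, -⟩ := primeBelow_spec F 𝔮
          refine card_le_of_natCast_mem F hpr _ fun 𝔭 h𝔭 => ?_
          obtain ⟨-, h⟩ := Finset.mem_filter.mp h𝔭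
          obtain ⟨m, -, hmem, -, -⟩ := primeBelow_spec F 𝔭
          rwa [h] at hmem
        calc ∑ 𝔭 ∈ T.filter (fun 𝔭 => primeBelow F 𝔭 = primeBelow F 𝔮),
              (((primeBelow F 𝔭 : ℕ) : ℝ) ^ 2)⁻¹
            = ∑ 𝔭 ∈ T.filter (fun 𝔭 => primeBelow F 𝔭 = primeBelow F 𝔮),
              (((primeBelow F 𝔮 : ℕ) : ℝ) ^ 2)⁻¹ := by
              refine Finset.sum_congr rfl fun 𝔭 h𝔭 => ?_
              rw [(Finset.mem_filter.mp h𝔭).2]
          _ = ((T.filter (fun 𝔭 => primeBelow F 𝔭 = primeBelow F 𝔮)).card : ℝ) *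
              (((primeBelow F 𝔮 : ℕ) : ℝ) ^ 2)⁻¹ := by
              rw [Finset.sum_const, nsmul_eq_mul]
          _ ≤ (Module.finrank ℤ (𝓞 F) : ℝ) * (((primeBelow F 𝔮 : ℕ) : ℝ) ^ 2)⁻¹ := by
              gcongr
    _ = (Module.finrank ℤ (𝓞 F) : ℝ) * ∑ p ∈ T.image (primeBelow F), ((p : ℝ) ^ 2)⁻¹ := by
        rw [Finset.mul_sum]
    _ ≤ highBound F := by
        rw [highBound]
        gcongr
        exact summable_inv_sq.sum_le_tsum _ (fun n _ => by positivity)

lemma highBound_nonneg : 0 ≤ highBound F := by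
  rw [highBound]
  have : 0 ≤ ∑' n : ℕ, ((n : ℝ) ^ 2)⁻¹ := tsum_nonneg fun n => by positivity
  positivity

/-- The primes of degree `≥ 2` contribute at most `highBound F`. -/
theorem tsum_highPrimes_le {s : ℝ} (hs : 1 < s) :
    ∑' 𝔭 : highPrimes F, normPow F s 𝔭.1.asIdeal ≤ highBound F := by
  classical
  have hsum : Summable (fun 𝔭 : highPrimes F => normPow F s 𝔭.1.asIdeal) :=
    (summable_primeSum F hs).subtype _
  refine hsum.tsum_le_of_sum_le fun T => ?_
  have := sum_highPrimes_le F hs.le (T.image Subtype.val) (by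
    intro 𝔭 h𝔭
    obtain ⟨x, -, rfl⟩ := Finset.mem_image.mp h𝔭
    exact x.2)
  rwa [Finset.sum_image (fun x _ y _ h => Subtype.ext h)] at this

/-- the primes of prime norm -/
def lowPrimes : Set (HeightOneSpectrum (𝓞 F)) := {𝔭 | (absNorm 𝔭.asIdeal).Prime}

/-- the norm map on primes of prime norm -/
def lowNorm (𝔭 : lowPrimes F) : Nat.Primes := ⟨absNorm 𝔭.1.asIdeal, 𝔭.2⟩

/-- the fibre of `lowNorm` is the set counted by `Spec.primeCount` -/
def fibreEquiv (p : Nat.Primes) :
    {𝔭 : lowPrimes F // lowNorm F 𝔭 = p} ≃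
      {𝔮 : Ideal (𝓞 F) // 𝔮.IsPrime ∧ Ideal.absNorm 𝔮 = (p : ℕ)} where
  toFun x := ⟨x.1.1.asIdeal, x.1.1.isPrime, congrArg Subtype.val x.2⟩
  invFun 𝔮 := ⟨⟨⟨𝔮.1, 𝔮.2.1, by
      rintro h
      have := 𝔮.2.2
      rw [h, Ideal.absNorm_bot] at this
      exact p.2.ne_zero this.symm⟩, by
      show (absNorm 𝔮.1).Prime
      rw [𝔮.2.2]; exact p.2⟩, Subtype.ext 𝔮.2.2⟩
  left_inv x := by
    apply Subtype.ext
    apply Subtype.ext
    apply HeightOneSpectrum.ext
    rfl
  right_inv 𝔮 := by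
    apply Subtype.ext
    rfl

end

noncomputable section Final

variable (F : Type) [Field F] [NumberField F]

lemma finite_fibre (p : Nat.Primes) : Finite {𝔭 : lowPrimes F // lowNorm F 𝔭 = p} := by
  have hfin : Finite {𝔮 : Ideal (𝓞 F) // 𝔮.IsPrime ∧ Ideal.absNorm 𝔮 = (p : ℕ)} :=
    ((Ideal.finite_setOfPred_absNorm_eq (S := 𝓞 F) (p : ℕ)).subset
      (fun 𝔮 h𝔮 => h𝔮.2)).to_subtype
  exact Finite.of_equiv _ (fibreEquiv F p).symm

lemma card_fibre (p : Nat.Primes) :
    Nat.card {𝔭 : lowPrimes F // lowNorm F 𝔭 = p} = Spec.primeCount F p :=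
  Nat.card_congr (fibreEquiv F p)

lemma tsum_fibre (s : ℝ) (p : Nat.Primes) :
    ∑' x : {𝔭 : lowPrimes F // lowNorm F 𝔭 = p}, normPow F s x.1.1.asIdeal =
      (Spec.primeCount F p : ℝ) * ((p : ℕ) : ℝ) ^ (-s) := by
  have := finite_fibre F p
  have : Fintype {𝔭 : lowPrimes F // lowNorm F 𝔭 = p} := Fintype.ofFinite _
  rw [tsum_fintype]
  have h : ∀ x : {𝔭 : lowPrimes F // lowNorm F 𝔭 = p},
      normPow F s x.1.1.asIdeal = ((p : ℕ) : ℝ) ^ (-s) := by
    intro x
    have := congrArg Subtype.val x.2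
    simp only [lowNorm] at this
    simp only [normPow, this]
  simp only [h, Finset.sum_const, Finset.card_univ, nsmul_eq_mul, ← card_fibre F p,
    Nat.card_eq_fintype_card]

/-- The sum over the primes of prime norm, indexed by the rational primes. -/
theorem tsum_lowPrimes_eq {s : ℝ} (hs : 1 < s) :
    ∑' 𝔭 : lowPrimes F, normPow F s 𝔭.1.asIdeal =
      ∑' p : Nat.Primes, (Spec.primeCount F p : ℝ) * ((p : ℕ) : ℝ) ^ (-s) := by
  have hsum : Summable (fun 𝔭 : lowPrimes F => normPow F s 𝔭.1.asIdeal) :=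
    (summable_primeSum F hs).subtype _
  have hsum' : Summable (fun y : Σ p : Nat.Primes, {𝔭 : lowPrimes F // lowNorm F 𝔭 = p} =>
      normPow F s y.2.1.1.asIdeal) :=
    ((Equiv.sigmaFiberEquiv (lowNorm F)).summable_iff
      (f := fun 𝔭 : lowPrimes F => normPow F s 𝔭.1.asIdeal)).mpr hsum
  calc ∑' 𝔭 : lowPrimes F, normPow F s 𝔭.1.asIdeal
      = ∑' y : Σ p : Nat.Primes, {𝔭 : lowPrimes F // lowNorm F 𝔭 = p},
          normPow F s y.2.1.1.asIdeal :=
        ((Equiv.sigmaFiberEquiv (lowNorm F)).tsum_eq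
          (fun 𝔭 : lowPrimes F => normPow F s 𝔭.1.asIdeal)).symm
    _ = ∑' p : Nat.Primes, ∑' x : {𝔭 : lowPrimes F // lowNorm F 𝔭 = p},
          normPow F s x.1.1.asIdeal := hsum'.tsum_sigma
    _ = _ := tsum_congr fun p => tsum_fibre F s p

/-- **Piece Z**: `Spec.PrimeSumStatement`. -/
theorem primeSum_statement : Spec.PrimeSumStatement := by
  intro F _ _
  obtain ⟨C, hC⟩ := exists_primeSum_bound F
  refine ⟨C + highBound F, fun s hs1 hs2 => ?_⟩
  have h1 := hC s hs1 hs2
  have hsum := summable_primeSum F hs1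
  have hsplit : primeSum F s =
      (∑' 𝔭 : lowPrimes F, normPow F s 𝔭.1.asIdeal) +
        ∑' 𝔭 : highPrimes F, normPow F s 𝔭.1.asIdeal := by
    have hc : highPrimes F = (lowPrimes F)ᶜ := rfl
    rw [primeSum, hc]
    exact ((hsum.subtype _).tsum_add_tsum_compl (hsum.subtype _)).symm
  have hhigh := tsum_highPrimes_le F hs1
  have hhigh0 : 0 ≤ ∑' 𝔭 : highPrimes F, normPow F s 𝔭.1.asIdeal :=
    tsum_nonneg fun _ => normPow_nonneg F s _
  have hlog : Real.log (1 / (s - 1)) = -Real.log (s - 1) := by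
    rw [one_div, Real.log_inv]
  rw [← tsum_lowPrimes_eq F hs1, hlog]
  rw [abs_le] at h1 ⊢
  rw [hsplit] at h1
  constructor <;> linarith [h1.1, h1.2]

end Final

end Fermat.Agent.Lib.Cheb.H761

end
-- ===== PACK-END Lib/Cheb/H761/PrimeSum.lean

-- ===== PACK-BEGIN Lib/Cheb/H993/Glue.lean
section



/-!
# Piece `M` of CHEB: the finite-level Frobenius density theorem from `Z`, `B0`, `A`, `D`

`frobFinite : PrimeSumStatement → PrimeCountBoundStatement → CountStatement → FrobStatement →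
  FrobFiniteStatement`.
-/

set_option autoImplicit false

namespace Fermat.Agent.Lib.Cheb.H993

open NumberField
open scoped Pointwise Classical
open Fermat.Agent.Lib.Cheb

noncomputable section

variable (L : Type) [Field L] [NumberField L]

/-- The primes of `𝓞 L` above `p` whose decomposition group is exactly `X`. -/
def primesEq (X : Subgroup (L ≃ₐ[ℚ] L)) (p : ℕ) : Set (Ideal (𝓞 L)) :=
  {P | P.IsPrime ∧ (p : 𝓞 L) ∈ P ∧ Spec.decomp L P = X}

/-- `|D_P|`. -/
def dcard (P : Ideal (𝓞 L)) : ℕ := Nat.card (Spec.decomp L P)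

theorem finite_above {p : ℕ} (hp : p ≠ 0) : {P : Ideal (𝓞 L) | (p : 𝓞 L) ∈ P}.Finite := by
  refine (Ideal.finite_setOfPred_absNorm_le (S := 𝓞 L) (p ^ Module.finrank ℤ (𝓞 L))).subset ?_
  intro P hP
  have hle : Ideal.span {(p : 𝓞 L)} ≤ P := (Ideal.span_singleton_le_iff_mem P).mpr hP
  have hdvd := Ideal.absNorm_dvd_absNorm_of_le hle
  rw [Ideal.absNorm_span_natCast] at hdvd
  exact Nat.le_of_dvd (pow_pos (Nat.pos_of_ne_zero hp) _) hdvd

theorem finite_primesEq (X : Subgroup (L ≃ₐ[ℚ] L)) {p : ℕ} (hp : p ≠ 0) :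
    (primesEq L X p).Finite :=
  (finite_above L hp).subset fun _ h => h.2.1

theorem finite_primesLe (H : Subgroup (L ≃ₐ[ℚ] L)) {p : ℕ} (hp : p ≠ 0) :
    (Spec.primesLe L H p).Finite :=
  (finite_above L hp).subset fun _ h => h.2.1

/-- The weight of the subgroup `X` at `p`. -/
def wt (X : Subgroup (L ≃ₐ[ℚ] L)) (p : ℕ) : ℕ := ∑ᶠ P ∈ primesEq L X p, dcard L P

theorem decompWeight_eq (H : Subgroup (L ≃ₐ[ℚ] L)) (p : ℕ) :
    Spec.decompWeight L H p = ∑ᶠ P ∈ Spec.primesLe L H p, dcard L P := by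
  unfold Spec.decompWeight dcard
  exact finsum_set_coe_eq_finsum_mem (s := Spec.primesLe L H p)
    (f := fun P => Nat.card (Spec.decomp L P))

variable [IsGalois ℚ L]

theorem primesLe_eq_iUnion (H : Subgroup (L ≃ₐ[ℚ] L)) (p : ℕ) :
    Spec.primesLe L H p = ⋃ X ∈ (below H : Set (Subgroup (L ≃ₐ[ℚ] L))), primesEq L X p := by
  ext P
  simp only [Spec.primesLe, primesEq, Set.mem_iUnion, Finset.mem_coe, mem_below,
    Set.mem_ofPred_eq, exists_prop]
  constructor
  · rintro ⟨h1, h2, h3⟩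
    exact ⟨_, h3, h1, h2, rfl⟩
  · rintro ⟨X, hX, h1, h2, h3⟩
    exact ⟨h1, h2, h3 ▸ hX⟩

theorem decompWeight_eq_sum (H : Subgroup (L ≃ₐ[ℚ] L)) {p : ℕ} (hp : p ≠ 0) :
    Spec.decompWeight L H p = ∑ X ∈ below H, wt L X p := by
  rw [decompWeight_eq, primesLe_eq_iUnion, finsum_mem_biUnion]
  · exact finsum_mem_coe_finset (fun X => ∑ᶠ P ∈ primesEq L X p, dcard L P) (below H)
  · intro X _ Y _ hXY
    rw [Function.onFun, Set.disjoint_left]
    intro P hPX hPY
    exact hXY (hPX.2.2.symm.trans hPY.2.2)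
  · exact (below H).finite_toSet
  · intro X _
    exact finite_primesEq L X hp

theorem exists_of_wt_pos {X : Subgroup (L ≃ₐ[ℚ] L)} {p : ℕ} (h : 0 < wt L X p) :
    ∃ P : Ideal (𝓞 L), P.IsPrime ∧ (p : 𝓞 L) ∈ P ∧ Spec.decomp L P = X := by
  by_contra hcon
  have hempty : primesEq L X p = ∅ := by
    ext P
    simp only [primesEq, Set.mem_ofPred_eq, Set.mem_empty_iff_false, iff_false]
    exact fun hP => hcon ⟨P, hP⟩
  unfold wt at h
  rw [hempty] at h
  simp at h

theorem wt_le_decompWeight_top (X : Subgroup (L ≃ₐ[ℚ] L)) {p : ℕ} (hp : p ≠ 0) :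
    wt L X p ≤ Spec.decompWeight L ⊤ p := by
  rw [decompWeight_eq_sum L ⊤ hp]
  exact Finset.single_le_sum (f := fun X => wt L X p) (fun _ _ => Nat.zero_le _)
    (mem_below.mpr le_top)

/-- **Piece M.** -/
theorem frobFinite (hZ : Spec.PrimeSumStatement) (hB0 : Spec.PrimeCountBoundStatement)
    (hA : Spec.CountStatement) (hD : Spec.FrobStatement) : Spec.FrobFiniteStatement := by
  intro L _ _ _ σ S
  haveI : Fintype (Subgroup (L ≃ₐ[ℚ] L)) := Fintype.ofFinite _
  -- bad primes
  choose BA hBA using fun H : Subgroup (L ≃ₐ[ℚ] L) => hA L H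
  obtain ⟨BD, hBD⟩ := hD L
  let Bad : Finset ℕ := Finset.univ.biUnion BA
  have hBad : ∀ (H : Subgroup (L ≃ₐ[ℚ] L)) (p : ℕ), p ∉ Bad → p ∉ BA H := by
    intro H p hp hpH
    exact hp (Finset.mem_biUnion.mpr ⟨H, Finset.mem_univ _, hpH⟩)
  -- weights
  let v : Subgroup (L ≃ₐ[ℚ] L) → ℕ → ℝ := fun X p =>
    if p.Prime ∧ p ∉ Bad then (wt L X p : ℝ) else 0
  let K : ℝ := (Module.finrank ℚ (IntermediateField.fixedField (⊤ : Subgroup (L ≃ₐ[ℚ] L))) : ℝ) *
    (Nat.card (⊤ : Subgroup (L ≃ₐ[ℚ] L)) : ℝ)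
  have hv0 : ∀ X p, 0 ≤ v X p := by
    intro X p
    simp only [v]
    split_ifs
    · exact Nat.cast_nonneg _
    · exact le_rfl
  have hK0 : 0 ≤ K := by positivity
  have hvK : ∀ X p, v X p ≤ K := by
    intro X p
    simp only [v]
    split_ifs with h
    · have h1 := wt_le_decompWeight_top L X h.1.ne_zero
      have h2 := hBA ⊤ p h.1 (hBad ⊤ p h.2)
      have h3 := hB0 (IntermediateField.fixedField (⊤ : Subgroup (L ≃ₐ[ℚ] L))) p
      have h4 : wt L X p ≤ Module.finrank ℚ (IntermediateField.fixedField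
          (⊤ : Subgroup (L ≃ₐ[ℚ] L))) * Nat.card (⊤ : Subgroup (L ≃ₐ[ℚ] L)) := by
        rw [← h2] at h1
        exact h1.trans (Nat.mul_le_mul_right _ h3)
      simp only [K]
      exact_mod_cast h4
    · exact hK0
  -- the hypothesis of the induction
  have hW : ∀ H : Subgroup (L ≃ₐ[ℚ] L),
      LogAsymp (pSum (fun p => ∑ X ∈ below H, v X p)) (Nat.card H) := by
    intro H
    set F := IntermediateField.fixedField H with hF
    obtain ⟨C, hC⟩ := hZ F
    -- full prime sum of `primeCount F`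
    have h1 : LogAsymp (pSum (fun p => (Spec.primeCount F p : ℝ))) 1 := by
      refine ⟨C, fun s hs1 hs2 => ?_⟩
      rw [one_mul]
      exact hC s hs1 hs2
    -- the part supported on the bad primes
    let b : ℕ → ℝ := fun p => if p ∈ Bad then (Spec.primeCount F p : ℝ) else 0
    have hb0 : ∀ p, 0 ≤ b p := fun p => by
      simp only [b]; split_ifs
      · exact Nat.cast_nonneg _
      · exact le_rfl
    have hbK : ∀ p, b p ≤ (Module.finrank ℚ F : ℝ) := fun p => by
      simp only [b]; split_ifs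
      · exact_mod_cast hB0 F p
      · exact Nat.cast_nonneg _
    have h2 : LogAsymp (pSum b) 0 :=
      LogAsymp.zero_of_bounded (K := (Module.finrank ℚ F : ℝ) * Bad.card) fun s hs1 _ =>
        abs_pSum_le_of_support Bad hb0 hbK (fun p hp => by simp [b, hp]) hs1
    have h3 := (h1.sub h2).const_mul (Nat.card H : ℝ)
    rw [sub_zero, mul_one] at h3
    refine h3.congr fun s hs1 _ => ?_
    -- pointwise identity of the coefficients at primes
    have hc0 : ∀ p, 0 ≤ (Spec.primeCount F p : ℝ) := fun p => Nat.cast_nonneg _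
    have hcK : ∀ p, (Spec.primeCount F p : ℝ) ≤ (Module.finrank ℚ F : ℝ) := fun p => by
      exact_mod_cast hB0 F p
    have hs1' := summable_pSum hc0 hcK hs1
    have hs2' := summable_pSum hb0 hbK hs1
    unfold pSum
    rw [← Summable.tsum_sub hs1' hs2', ← tsum_mul_left]
    congr 1
    funext p
    by_cases hp : (p : ℕ) ∈ Bad
    · have hv : ∀ X, v X p = 0 := fun X => by simp [v, hp]
      simp [hv, b, hp]
    · have hv : ∀ X, v X p = (wt L X p : ℝ) := fun X => by simp [v, hp, p.2]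
      have h5 := decompWeight_eq_sum L H p.2.ne_zero
      have h6 := hBA H p p.2 (hBad H p hp)
      simp only [hv, b, hp, if_false, sub_zero]
      rw [← Nat.cast_sum, ← h5, ← h6]
      push_cast
      ring
  -- apply the induction to `X = zpowers σ`
  have hgens : 0 < gens (Subgroup.zpowers σ) := by
    unfold gens
    haveI : Nonempty {x : L ≃ₐ[ℚ] L // Subgroup.zpowers x = Subgroup.zpowers σ} := ⟨⟨σ, rfl⟩⟩
    exact Nat.card_pos
  obtain ⟨p, hp, hpS, hpos⟩ :=
    exists_pos_of_gens_pos v K hv0 hvK hW (Subgroup.zpowers σ) hgens (S ∪ Bad ∪ BD)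
  have hpS' : p ∉ S := fun h => hpS (Finset.mem_union_left _ (Finset.mem_union_left _ h))
  have hpBad : p ∉ Bad := fun h => hpS (Finset.mem_union_left _ (Finset.mem_union_right _ h))
  have hpBD : p ∉ BD := fun h => hpS (Finset.mem_union_right _ h)
  have hwt : 0 < wt L (Subgroup.zpowers σ) p := by
    have : v (Subgroup.zpowers σ) p = (wt L (Subgroup.zpowers σ) p : ℝ) := by
      simp [v, hp, hpBad]
    rw [this] at hpos
    exact_mod_cast hpos
  obtain ⟨P, hP, hpP, hdec⟩ := exists_of_wt_pos L hwt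
  obtain ⟨hin, τ, hτ, hτd⟩ := hBD p hp hpBD P hP hpP
  exact ⟨p, P, τ, hp, hpS', hP, hpP, hin, hτ, hτd.symm.trans hdec⟩

end

end Fermat.Agent.Lib.Cheb.H993

end
-- ===== PACK-END Lib/Cheb/H993/Glue.lean

-- ===== PACK-BEGIN S36/H756/WireAbs.lean
section





/-!
# S36 engine, cell DESC-WIRE (owner helper756) — generic lemmas

`G ≤ Gal(Q̄/ℚ)` any subgroup, `E = fixedField G`, `F_E = laurentBaseChange E F₀`,
`F̄ = laurentBaseChange Q̄ F₀`, `ι = A2.T1.H669.iota E F₀ : F_E → F̄`.

* `act_iota` : elements of `ι F_E` are `G`-fixed.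
* `exists_iota_eq_of_fixed` : `G`-fixed elements of `F̄` lie in `ι F_E` (T4).
* `descend_const_mul_pow` : if `ι g = c · H ^ m` (`c ∈ Q̄ˣ`, `H ∈ F̄ˣ`, `m > 0`) then
  `g = c₁ · h ^ m` with `c₁ ∈ Eˣ`, `h ∈ F_Eˣ`.
* `pow_primePow_of_pow` : `f ^ C = w ^ (p ^ n)`, `C ≠ 0` ⟹ `f ^ (p ^ v_p(C))` is a `p ^ n`-th
  power.
-/

set_option autoImplicit false
set_option synthInstance.maxHeartbeats 400000
set_option maxHeartbeats 1600000

noncomputable section

namespace Fermat.Agent.S36.H756

open ModularCurve HahnSeries IntermediateField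
open Fermat.Agent.S18.H602 (DescendsTo)
open Fermat.Agent.A2.T1.H669 (iota)

local notation "Q̄" => AlgebraicClosure ℚ

section Iota

variable {F₀ : IntermediateField ℚ (LaurentSeries ℚ)} (G : Subgroup (Q̄ ≃ₐ[ℚ] Q̄))

/-- Elements defined over the fixed field are fixed. -/
theorem act_iota {τ : Q̄ ≃ₐ[ℚ] Q̄} (hτ : τ ∈ G)
    (x : laurentBaseChange (IntermediateField.fixedField G) F₀) :
    arithmeticRingAut F₀ τ (iota (IntermediateField.fixedField G) F₀ x)
      = iota (IntermediateField.fixedField G) F₀ x := by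
  apply Subtype.ext
  show coeffMap (τ : Q̄ →+* Q̄) (coeffMap (algebraMap (IntermediateField.fixedField G) Q̄)
      (x : LaurentSeries (IntermediateField.fixedField G)))
    = coeffMap (algebraMap (IntermediateField.fixedField G) Q̄)
      (x : LaurentSeries (IntermediateField.fixedField G))
  rw [coeffMap_coeffMap]
  refine coeffMap_congr (RingHom.ext fun e => ?_) _
  exact (IntermediateField.mem_fixedField_iff G (e : Q̄)).1 e.2 τ hτ

/-- **T4, `iota` form.** -/
theorem exists_iota_eq_of_fixed (f : laurentBaseChange Q̄ F₀)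
    (hfix : ∀ τ ∈ G, arithmeticRingAut F₀ τ f = f) :
    ∃ y : laurentBaseChange (IntermediateField.fixedField G) F₀,
      iota (IntermediateField.fixedField G) F₀ y = f := by
  obtain ⟨y, hy, hyf⟩ := descendsTo_fixedField_of_fixed G f hfix
  exact ⟨⟨y, hy⟩, Subtype.ext hyf⟩

theorem iota_algebraMap_E (c : IntermediateField.fixedField G) :
    iota (IntermediateField.fixedField G) F₀
        (algebraMap (IntermediateField.fixedField G)
          (laurentBaseChange (IntermediateField.fixedField G) F₀) c)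
      = algebraMap Q̄ (laurentBaseChange Q̄ F₀) (c : Q̄) := by
  apply Subtype.ext
  show coeffMap (algebraMap (IntermediateField.fixedField G) Q̄)
      (algebraMap (IntermediateField.fixedField G)
        (LaurentSeries (IntermediateField.fixedField G)) c)
    = algebraMap Q̄ (LaurentSeries Q̄) (c : Q̄)
  rw [Fermat.Agent.S18.H602.coeffMap_algebraMap']
  rfl

/-- The leading coefficient of `ι g` is (the image of) the leading coefficient of `g`. -/
theorem lcK_iota (g : laurentBaseChange (IntermediateField.fixedField G) F₀) :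
    lcK F₀ (iota (IntermediateField.fixedField G) F₀ g)
      = iota (IntermediateField.fixedField G) F₀
          (algebraMap (IntermediateField.fixedField G)
            (laurentBaseChange (IntermediateField.fixedField G) F₀)
            (g : LaurentSeries (IntermediateField.fixedField G)).leadingCoeff) := by
  rw [iota_algebraMap_E, lcK_apply]
  congr 1
  exact leadingCoeff_coeffMap _ (algebraMap (IntermediateField.fixedField G) Q̄).injective _

/-- **Descent of `constant × m-th power`.** -/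
theorem descend_const_mul_pow {m : ℕ} (hm : 0 < m)
    (g : laurentBaseChange (IntermediateField.fixedField G) F₀) (c : Q̄)
    (H : laurentBaseChange Q̄ F₀) (hc : c ≠ 0) (hH : H ≠ 0)
    (h : iota (IntermediateField.fixedField G) F₀ g
      = algebraMap Q̄ (laurentBaseChange Q̄ F₀) c * H ^ m) :
    ∃ (c₁ : IntermediateField.fixedField G)
      (h₁ : laurentBaseChange (IntermediateField.fixedField G) F₀), c₁ ≠ 0 ∧ h₁ ≠ 0 ∧
      g = algebraMap (IntermediateField.fixedField G)
        (laurentBaseChange (IntermediateField.fixedField G) F₀) c₁ * h₁ ^ m := by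
  set ι := iota (IntermediateField.fixedField G) F₀ with hι
  have hcK : algebraMap Q̄ (laurentBaseChange Q̄ F₀) c ≠ 0 := by simpa using hc
  have hg0 : g ≠ 0 := by
    rintro rfl
    rw [map_zero] at h
    exact mul_ne_zero hcK (pow_ne_zero m hH) h.symm
  have hlH : lcK F₀ H ≠ 0 := lcK_ne_zero hH
  -- the normalised root
  obtain ⟨H₁, hH₁⟩ : ∃ H₁ : laurentBaseChange Q̄ F₀, H₁ = (lcK F₀ H)⁻¹ * H := ⟨_, rfl⟩
  have hH₁0 : H₁ ≠ 0 := by
    rw [hH₁]
    exact mul_ne_zero (inv_ne_zero hlH) hH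
  have hlH₁ : lcK F₀ H₁ = 1 := by
    rw [hH₁, map_mul, map_inv₀, lcK_lcK, inv_mul_cancel₀ hlH]
  -- the constant
  set c₁ : IntermediateField.fixedField G :=
    (g : LaurentSeries (IntermediateField.fixedField G)).leadingCoeff with hc₁
  have hc₁0 : c₁ ≠ 0 := by
    rw [hc₁]
    exact HahnSeries.leadingCoeff_ne_zero.2 fun h0 => hg0 (Subtype.ext h0)
  set C₁ := algebraMap (IntermediateField.fixedField G)
    (laurentBaseChange (IntermediateField.fixedField G) F₀) c₁ with hC₁
  have hC₁0 : C₁ ≠ 0 := by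
    rw [hC₁]
    simpa using hc₁0
  have hιC₁0 : ι C₁ ≠ 0 := Fermat.Agent.A2.T1.H669.iota_ne_zero _ F₀ hC₁0
  have hlc : ι C₁ = algebraMap Q̄ (laurentBaseChange Q̄ F₀) c * (lcK F₀ H) ^ m := by
    have h1 := congrArg (lcK F₀) h
    rw [lcK_iota, map_mul, lcK_algebraMap, map_pow] at h1
    exact h1
  have hpow : H₁ ^ m = ι (C₁⁻¹ * g) := by
    rw [map_mul, map_inv₀, h, hlc, hH₁, mul_pow, inv_pow]
    have : lcK F₀ H ^ m ≠ 0 := pow_ne_zero m hlH
    field_simp
  -- `H₁` is fixed
  have hfix : ∀ τ ∈ G, arithmeticRingAut F₀ τ H₁ = H₁ := by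
    intro τ hτ
    refine fixed_of_pow_fixed hm τ H₁ ?_ ?_
    · rw [hlH₁, map_one]
    · rw [hpow]
      exact act_iota G hτ _
  obtain ⟨h₁, hh₁⟩ := exists_iota_eq_of_fixed G H₁ hfix
  have hh₁0 : h₁ ≠ 0 := by
    rintro rfl
    rw [map_zero] at hh₁
    exact hH₁0 hh₁.symm
  refine ⟨c₁, h₁, hc₁0, hh₁0, ?_⟩
  apply Fermat.Agent.A2.T1.H669.iota_injective _ F₀
  rw [map_mul, map_pow, hh₁, hpow, map_mul, map_inv₀, mul_inv_cancel_left₀ hιC₁0]

end Iota

section Bezout

variable {F : Type*} [Field F]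

theorem zpow_pow_comm' (w : F) (m : ℕ) (u : ℤ) : (w ^ m) ^ u = (w ^ u) ^ m := by
  rw [← zpow_natCast w m, ← zpow_natCast (w ^ u) m, ← zpow_mul, ← zpow_mul, mul_comm]

/-- If `f ^ C` is a `p ^ n`-th power (`C ≠ 0`), then `f ^ (p ^ v_p(C))` is a `p ^ n`-th power. -/
theorem pow_primePow_of_pow {p : ℕ} (hp : p.Prime) {C : ℕ} (hC : C ≠ 0) (n : ℕ) {f w : F}
    (hf : f ≠ 0) (h : f ^ C = w ^ (p ^ n)) :
    ∃ y : F, y ≠ 0 ∧ f ^ (p ^ (C.factorization p)) = y ^ (p ^ n) := by
  obtain ⟨k, hk⟩ : ∃ k, k = C.factorization p := ⟨_, rfl⟩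
  rw [← hk]
  obtain ⟨C', hC'⟩ : p ^ k ∣ C := hk ▸ Nat.ordProj_dvd C p
  have hC'p : ¬ p ∣ C' := by
    have := Nat.not_dvd_ordCompl hp hC
    have e : C / p ^ k = C' := by
      rw [hC', Nat.mul_div_cancel_left _ (pow_pos hp.pos k)]
    rwa [← hk, e] at this
  have hcop : Nat.Coprime C' (p ^ n) :=
    Nat.Coprime.pow_right n ((Nat.Prime.coprime_iff_not_dvd hp).2 hC'p).symm
  obtain ⟨m, hm⟩ : ∃ m, m = p ^ n := ⟨_, rfl⟩
  rw [← hm] at hcop h ⊢
  obtain ⟨u, v, hbez⟩ : ∃ u v : ℤ, (C' : ℤ) * u + (m : ℤ) * v = 1 := by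
    refine ⟨Nat.gcdA C' m, Nat.gcdB C' m, ?_⟩
    have := Nat.gcd_eq_gcd_ab C' m
    rw [hcop.gcd_eq_one] at this
    exact_mod_cast this.symm
  have hm0 : m ≠ 0 := by rw [hm]; exact (pow_pos hp.pos n).ne'
  have hw : w ≠ 0 := by
    rintro rfl
    rw [zero_pow hm0] at h
    exact pow_ne_zero C hf h
  obtain ⟨g, hg⟩ : ∃ g, g = f ^ (p ^ k) := ⟨_, rfl⟩
  rw [← hg]
  have hg0 : g ≠ 0 := by rw [hg]; exact pow_ne_zero _ hf
  have hgC : g ^ C' = w ^ m := by rw [hg, ← pow_mul, ← hC', h]
  refine ⟨w ^ u * g ^ v, mul_ne_zero (zpow_ne_zero u hw) (zpow_ne_zero v hg0), ?_⟩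
  calc g = g ^ (1 : ℤ) := (zpow_one g).symm
    _ = g ^ ((C' : ℤ) * u + (m : ℤ) * v) := by rw [hbez]
    _ = (g ^ C') ^ u * (g ^ m) ^ v := by
        rw [zpow_add₀ hg0, zpow_mul, zpow_mul, zpow_natCast, zpow_natCast]
    _ = (w ^ m) ^ u * (g ^ m) ^ v := by rw [hgC]
    _ = (w ^ u * g ^ v) ^ m := by rw [mul_pow, zpow_pow_comm', zpow_pow_comm']

end Bezout

end Fermat.Agent.S36.H756

end
end
-- ===== PACK-END S36/H756/WireAbs.lean

-- ===== PACK-BEGIN S36/H756/DescPic.lean
section





/-!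
# S36 engine, leaf DESC (owner helper756) — Picard form

* `exists_kummer_data` : an `m`-torsion class `x ∈ Pic0 K F` is `[D]` with `m D = div f`.
* `kummer_cocycle_of_fixed` : if moreover `g • x = x` for a semilinear automorphism `g` (and
  functions without zeros and poles are constant), then `g f = c · h ^ m · f`.
* `exists_fixed_kummer_rep` (**T2**) : for `F = laurentBaseChange Q̄ F₀`, an `m`-torsion class
  fixed by a subgroup `G ≤ Gal(Q̄/ℚ)` is `[D]` with `m D = div f` and `f` fixed by `G`.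
* `JZero.exists_fixed_kummer_rep` : the same for `JZero N`.
-/

set_option autoImplicit false

noncomputable section

namespace Fermat.Agent.S36.H756

open AlgebraicCurve ModularCurve

local notation "Q̄" => AlgebraicClosure ℚ

section Generic

variable {K F : Type*} [Field K] [Field F] [Algebra K F]

variable (K F) in
/-- A function without zeros and poles is a constant. -/
def ConstOfOrdZero : Prop :=
  ∀ u : F, u ≠ 0 → (∀ v : Place K F, v.ord u = 0) → ∃ c : K, algebraMap K F c = u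

theorem ord_const_eq_zero (v : Place K F) (c : K) : v.ord (algebraMap K F c) = 0 := by
  rcases eq_or_ne c 0 with rfl | hc
  · simp
  have h1 : algebraMap K F c ∈ v.toValuationSubring := v.algebraMap_mem' c
  have h2 : algebraMap K F c⁻¹ ∈ v.toValuationSubring := v.algebraMap_mem' c⁻¹
  have hu : IsUnit (⟨algebraMap K F c, h1⟩ : v.toValuationSubring) := by
    refine IsUnit.of_mul_eq_one (⟨algebraMap K F c⁻¹, h2⟩ : v.toValuationSubring) ?_
    ext
    show algebraMap K F c * algebraMap K F c⁻¹ = 1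
    rw [← map_mul, mul_inv_cancel₀ hc, map_one]
  exact v.ord_coe_unit hu.unit

theorem ord_toRingAut (g : SemilinearAut K F) (w : Place K F) (f : F) :
    w.ord (SemilinearAut.toRingAut g f) = (g⁻¹ • w).ord f := by
  have h := SemilinearAut.ord_smul g (g⁻¹ • w) f
  rw [smul_inv_smul] at h
  exact h

theorem ord_npow (v : Place K F) (y : F) (m : ℕ) : v.ord (y ^ m) = m * v.ord y := by
  have := v.ord_zpow y (m : ℤ)
  simpa using this

/-- An `m`-torsion class is the class of a divisor `D` with `m D = div f`. -/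
theorem exists_kummer_data (m : ℕ) (x : Pic0 K F) (hx : m • x = 0) :
    ∃ (D : Divisor.degZero (K := K) (F := F)) (f : F), f ≠ 0 ∧ Pic0.mk D = x ∧
      ∀ v : Place K F, v.ord f = (m : ℤ) * (D : Divisor K F) v := by
  obtain ⟨D, rfl⟩ := Pic0.mk_surjective x
  have hprin : ((m • D : Divisor.degZero (K := K) (F := F)) : Divisor K F) ∈
      Divisor.principal (K := K) (F := F) := by
    have h0 : Pic0.mk (m • D) = 0 := hx
    have := (QuotientAddGroup.eq_zero_iff (m • D)).1 h0
    simpa [AddSubgroup.mem_addSubgroupOf] using this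
  obtain ⟨f, hf, hfD⟩ := hprin
  refine ⟨D, f, hf, rfl, fun v => ?_⟩
  rw [← hfD v]
  simp [Finsupp.smul_apply]

/-- The Kummer cocycle of a fixed class: `g f = c · h ^ m · f`. -/
theorem kummer_cocycle_of_fixed (hconst : ConstOfOrdZero K F) (m : ℕ)
    (D : Divisor.degZero (K := K) (F := F)) (f : F) (hf : f ≠ 0)
    (hfD : ∀ v : Place K F, v.ord f = (m : ℤ) * (D : Divisor K F) v)
    (g : SemilinearAut K F) (hg : g • Pic0.mk D = Pic0.mk D) :
    ∃ c : K, c ≠ 0 ∧ ∃ h : F, h ≠ 0 ∧
      SemilinearAut.toRingAut g f = algebraMap K F c * h ^ m * f := by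
  -- `g D - D = div h`
  have h0 : Pic0.mk (SemilinearAut.degZeroSMulHom g D - D) = 0 := by
    rw [SemilinearAut.pic0_smul_mk] at hg
    have : Pic0.mk (SemilinearAut.degZeroSMulHom g D - D)
        = Pic0.mk (SemilinearAut.degZeroSMulHom g D) - Pic0.mk D := rfl
    rw [this, hg, sub_self]
  have hprin := (QuotientAddGroup.eq_zero_iff (SemilinearAut.degZeroSMulHom g D - D)).1 h0
  rw [AddSubgroup.mem_addSubgroupOf] at hprin
  obtain ⟨h, hh, hhD⟩ := hprin
  have hhD' : ∀ w : Place K F,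
      w.ord h = (D : Divisor K F) (g⁻¹ • w) - (D : Divisor K F) w := by
    intro w
    rw [← hhD w]
    simp only [AddSubgroupClass.coe_sub, SemilinearAut.coe_degZeroSMulHom,
      Finsupp.sub_apply, SemilinearAut.divisor_smul_apply]
  have hgf : SemilinearAut.toRingAut g f ≠ 0 := by simpa using hf
  have hden : h ^ m * f ≠ 0 := mul_ne_zero (pow_ne_zero m hh) hf
  -- the quotient has trivial divisor
  have hu0 : SemilinearAut.toRingAut g f * (h ^ m * f)⁻¹ ≠ 0 :=
    mul_ne_zero hgf (inv_ne_zero hden)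
  have hord : ∀ w : Place K F, w.ord (SemilinearAut.toRingAut g f * (h ^ m * f)⁻¹) = 0 := by
    intro w
    rw [w.ord_mul hgf (inv_ne_zero hden), w.ord_inv, w.ord_mul (pow_ne_zero m hh) hf,
      ord_npow, ord_toRingAut, hfD, hfD, hhD']
    ring
  obtain ⟨c, hc⟩ := hconst _ hu0 hord
  have hc0 : c ≠ 0 := by
    rintro rfl
    rw [map_zero] at hc
    exact hu0 hc.symm
  refine ⟨c, hc0, h, hh, ?_⟩
  rw [mul_assoc, hc, mul_assoc, inv_mul_cancel₀ hden, mul_one]

end Generic

section Modular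

variable {F₀ : IntermediateField ℚ (LaurentSeries ℚ)}

/-- **T2.** An `m`-torsion class of `Pic0` of `laurentBaseChange Q̄ F₀` which is fixed by a
subgroup `G` of `Gal(Q̄/ℚ)` is the class of a divisor `D` with `m D = div f` for a function
`f` fixed by `G`. -/
theorem exists_fixed_kummer_rep
    [HasPrincipalDivisors Q̄ (laurentBaseChange Q̄ F₀)]
    (hconst : ConstOfOrdZero Q̄ (laurentBaseChange Q̄ F₀))
    (G : Subgroup (Q̄ ≃ₐ[ℚ] Q̄)) (m : ℕ)
    (x : Pic0 Q̄ (laurentBaseChange Q̄ F₀)) (hx : m • x = 0)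
    (hG : ∀ τ ∈ G, τ • x = x) :
    ∃ (D : Divisor.degZero (K := Q̄) (F := laurentBaseChange Q̄ F₀))
      (f : laurentBaseChange Q̄ F₀), f ≠ 0 ∧ Pic0.mk D = x ∧
      (∀ v : Place Q̄ (laurentBaseChange Q̄ F₀),
        v.ord f = (m : ℤ) * (D : Divisor Q̄ (laurentBaseChange Q̄ F₀)) v) ∧
      ∀ τ ∈ G, arithmeticRingAut F₀ τ f = f := by
  obtain ⟨D, f, hf, rfl, hfD⟩ := exists_kummer_data m x hx
  have hcoc : ∀ τ ∈ G, ∃ c : Q̄, c ≠ 0 ∧ ∃ h : laurentBaseChange Q̄ F₀, h ≠ 0 ∧
      arithmeticRingAut F₀ τ f = algebraMap Q̄ (laurentBaseChange Q̄ F₀) c * h ^ m * f := by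
    intro τ hτ
    exact kummer_cocycle_of_fixed hconst m D f hf hfD (arithmeticGalois F₀ τ) (hG τ hτ)
  obtain ⟨a, ha, b, hb, hfix⟩ := exists_fixed_rep G m f hf hcoc
  -- the divisor of `b`
  obtain ⟨B, hB, hB0⟩ := HasPrincipalDivisors.exists_divisor (K := Q̄) b hb
  let B' : Divisor.degZero (K := Q̄) (F := laurentBaseChange Q̄ F₀) := ⟨B, hB0⟩
  have haK : algebraMap Q̄ (laurentBaseChange Q̄ F₀) a ≠ 0 := by simpa using ha
  refine ⟨D + B', algebraMap Q̄ (laurentBaseChange Q̄ F₀) a * b ^ m * f,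
    mul_ne_zero (mul_ne_zero haK (pow_ne_zero m hb)) hf, ?_, fun v => ?_, hfix⟩
  · rw [Pic0.mk_add]
    have : Pic0.mk B' = 0 := by
      refine (QuotientAddGroup.eq_zero_iff B').2 ?_
      rw [AddSubgroup.mem_addSubgroupOf]
      exact ⟨b, hb, hB⟩
    rw [this, add_zero]
  · rw [v.ord_mul (mul_ne_zero haK (pow_ne_zero m hb)) hf, v.ord_mul haK (pow_ne_zero m hb),
      ord_const_eq_zero, zero_add, ord_npow, hfD]
    show _ = (m : ℤ) * ((D : Divisor Q̄ (laurentBaseChange Q̄ F₀)) v + B v)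
    rw [hB v]
    ring

end Modular

end Fermat.Agent.S36.H756

end
end
-- ===== PACK-END S36/H756/DescPic.lean

-- ===== PACK-BEGIN S24/Inf/Unique.lean
section


/-!
# S24 / MOD-INF — uniqueness of convergent Laurent expansions, the expansion ring
-/

set_option autoImplicit false

noncomputable section

open HahnSeries ModularCurve UpperHalfPlane Complex
open scoped Real

namespace Fermat.Agent.S24

/-- A power series converging to `0` on the punctured unit disc has zero constant coefficient. -/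
theorem inf_coeff_zero_eq_zero_of_hasSum_zero (a : ℕ → ℂ)
    (h : ∀ z : ℂ, z ≠ 0 → ‖z‖ < 1 → HasSum (fun n => a n * z ^ n) 0) : a 0 = 0 := by
  have hhalf : HasSum (fun n => a n * ((1 / 2 : ℝ) : ℂ) ^ n) 0 :=
    h _ (by norm_num) (by rw [Complex.norm_real]; norm_num)
  have hs1 : Summable (fun n => ‖a (n + 1)‖ * (1 / 2 : ℝ) ^ n) := by
    have h1 : Summable (fun n => ‖a n * ((1 / 2 : ℝ) : ℂ) ^ n‖) := hhalf.summable.norm
    have h2 := (summable_nat_add_iff 1).mpr h1
    have h3 := h2.mul_left 2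
    refine h3.congr fun n => ?_
    rw [norm_mul, norm_pow, Complex.norm_real, pow_succ]
    simp only [Real.norm_eq_abs]
    rw [abs_of_pos (by norm_num : (0 : ℝ) < 1 / 2)]
    ring
  set C : ℝ := ∑' n, ‖a (n + 1)‖ * (1 / 2 : ℝ) ^ n with hC
  have hC0 : 0 ≤ C := tsum_nonneg fun n => by positivity
  have key : ∀ t : ℝ, 0 < t → t ≤ 1 / 2 → ‖a 0‖ ≤ t * C := by
    intro t ht0 ht
    have hz : HasSum (fun n => a n * ((t : ℝ) : ℂ) ^ n) 0 :=
      h _ (by exact_mod_cast ht0.ne') (by
        rw [Complex.norm_real, Real.norm_eq_abs, abs_of_pos ht0]; linarith)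
    have hz' := (hasSum_nat_add_iff' 1).mpr hz
    simp only [Finset.range_one, Finset.sum_singleton, pow_zero, mul_one, zero_sub] at hz'
    have hb : HasSum (fun n => t * (‖a (n + 1)‖ * (1 / 2 : ℝ) ^ n)) (t * C) :=
      hs1.hasSum.mul_left t
    have := hz'.norm_le_of_bounded hb (fun n => by
      rw [norm_mul, norm_pow, Complex.norm_real, Real.norm_eq_abs, abs_of_pos ht0, pow_succ]
      have : t ^ n ≤ (1 / 2 : ℝ) ^ n := pow_le_pow_left₀ ht0.le ht n
      have h0 : 0 ≤ ‖a (n + 1)‖ := norm_nonneg _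
      calc ‖a (n + 1)‖ * (t ^ n * t) = t * (‖a (n + 1)‖ * t ^ n) := by ring
        _ ≤ t * (‖a (n + 1)‖ * (1 / 2 : ℝ) ^ n) := by gcongr)
    rwa [norm_neg] at this
  by_contra hne
  have hpos : 0 < ‖a 0‖ := norm_pos_iff.mpr hne
  set t : ℝ := min (1 / 2) (‖a 0‖ / (2 * (C + 1))) with ht
  have ht0 : 0 < t := lt_min (by norm_num) (by positivity)
  have ht1 : t ≤ 1 / 2 := min_le_left _ _
  have ht2 : t ≤ ‖a 0‖ / (2 * (C + 1)) := min_le_right _ _
  have h1 := key t ht0 ht1
  have h2 : t * C ≤ ‖a 0‖ / (2 * (C + 1)) * C := by gcongr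
  have h3 : ‖a 0‖ / (2 * (C + 1)) * C < ‖a 0‖ := by
    rw [div_mul_eq_mul_div, div_lt_iff₀ (by positivity)]
    nlinarith
  linarith

variable {N : ℕ} [NeZero N]

theorem InfPExp.coeff_zero_eq_zero {ψ : PowerSeries ℂ} (h : InfPExp N (fun _ => 0) ψ) :
    PowerSeries.coeff 0 ψ = 0 := by
  refine inf_coeff_zero_eq_zero_of_hasSum_zero (fun n => PowerSeries.coeff n ψ) ?_
  intro z hz hz1
  obtain ⟨τ, rfl⟩ := exists_infZ_eq N hz hz1
  exact h τ

/-- Uniqueness of the expansion: only the zero series converges to the zero function. -/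
theorem InfExp.eq_zero {φ : LaurentSeries ℂ} (h : InfExp N (fun _ => 0) φ) : φ = 0 := by
  by_contra hφ
  have h1 := h.powerSeriesPart
  simp only [mul_zero] at h1
  have h2 := h1.coeff_zero_eq_zero
  rw [LaurentSeries.powerSeriesPart_coeff] at h2
  simp only [Nat.cast_zero, add_zero] at h2
  exact hφ (coeff_order_eq_zero.mp h2)

theorem InfExp.unique {f : ℍ → ℂ} {φ ψ : LaurentSeries ℂ} (hφ : InfExp N f φ)
    (hψ : InfExp N f ψ) : φ = ψ := by
  have h := hφ.sub hψ
  simp only [sub_self] at h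
  exact sub_eq_zero.mp h.eq_zero

theorem InfExp.unique' {f g : ℍ → ℂ} {φ ψ : LaurentSeries ℂ} (hφ : InfExp N f φ)
    (hψ : InfExp N g ψ) (hfg : ∀ τ, f τ = g τ) : φ = ψ :=
  (hφ.congr hfg).unique hψ

variable (N) in
/-- The ring of functions on `ℍ` admitting a convergent Laurent expansion in
`z = exp (2πiτ/N)` (finitely many negative exponents). -/
def expRing : Subring (ℍ → ℂ) where
  carrier := {f | ∃ φ, InfExp N f φ}
  mul_mem' := by
    rintro f g ⟨φ, hφ⟩ ⟨ψ, hψ⟩
    exact ⟨φ * ψ, hφ.mul hψ⟩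
  one_mem' := ⟨1, InfExp.one⟩
  add_mem' := by
    rintro f g ⟨φ, hφ⟩ ⟨ψ, hψ⟩
    exact ⟨φ + ψ, hφ.add hψ⟩
  zero_mem' := ⟨0, InfExp.zero⟩
  neg_mem' := by
    rintro f ⟨φ, hφ⟩
    exact ⟨-φ, hφ.neg⟩

theorem mem_expRing {f : ℍ → ℂ} : f ∈ expRing N ↔ ∃ φ, InfExp N f φ := Iff.rfl

theorem InfExp.mem_expRing {f : ℍ → ℂ} {φ : LaurentSeries ℂ} (h : InfExp N f φ) :
    f ∈ expRing N := ⟨φ, h⟩

variable (N) in
/-- The expansion at `∞` as a function. -/
def expInfFun (f : expRing N) : LaurentSeries ℂ := Classical.choose f.2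

theorem expInfFun_spec (f : expRing N) : InfExp N (f : ℍ → ℂ) (expInfFun N f) :=
  Classical.choose_spec f.2

theorem InfExp.expInfFun_eq {f : ℍ → ℂ} {φ : LaurentSeries ℂ} (h : InfExp N f φ) :
    expInfFun N ⟨f, h.mem_expRing⟩ = φ :=
  (expInfFun_spec _).unique h

variable (N) in
/-- The expansion at `∞` as a ring homomorphism. -/
def expInf : expRing N →+* LaurentSeries ℂ where
  toFun := expInfFun N
  map_one' := (expInfFun_spec (1 : expRing N)).unique InfExp.one
  map_mul' f g := (expInfFun_spec (f * g)).unique ((expInfFun_spec f).mul (expInfFun_spec g))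
  map_zero' := (expInfFun_spec (0 : expRing N)).unique InfExp.zero
  map_add' f g := (expInfFun_spec (f + g)).unique ((expInfFun_spec f).add (expInfFun_spec g))

theorem expInf_spec (f : expRing N) : InfExp N (f : ℍ → ℂ) (expInf N f) :=
  expInfFun_spec f

theorem InfExp.expInf_eq {f : ℍ → ℂ} {φ : LaurentSeries ℂ} (h : InfExp N f φ) :
    expInf N ⟨f, h.mem_expRing⟩ = φ :=
  h.expInfFun_eq

theorem expInf_injective : Function.Injective (expInf N) := by
  intro f g hfg
  apply Subtype.ext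
  have hf := expInf_spec f
  have hg := expInf_spec g
  rw [hfg] at hf
  exact hf.fun_unique hg

instance expRing_isDomain : IsDomain (expRing N) :=
  Function.Injective.isDomain (expInf N) expInf_injective

end Fermat.Agent.S24

end
end
-- ===== PACK-END S24/Inf/Unique.lean

-- ===== PACK-BEGIN S28/H626/Pair.lean
section
/-
S28 helper (helper626): the gcd lemma for the generators `j(q^d)`:
`j(q^{pre}) ∈ k(j(q^{re}), j(q^{pe}))` for distinct primes `p ≠ r` (invertible in `k`).
-/




set_option autoImplicit false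

noncomputable section

open ModularCurve HahnSeries Polynomial

namespace Fermat.Agent.S28.H626

section Relations

variable (k : Type*) [Field k]

/-- `j(q^d) ∈ k((q))`. -/
abbrev jd (d : ℕ) [NeZero d] : LaurentSeries k := qExpand k d (jqModC k)

theorem jd_congr {d d' : ℕ} [NeZero d] [NeZero d'] (h : d = d') : jd k d = jd k d' := by
  subst h; rfl

/-- the ring hom `ℤ((q)) → k((q))`, `q ↦ q^e`. -/
def levelHom (e : ℕ) [NeZero e] : LaurentSeries ℤ →+* LaurentSeries k :=
  (qExpand k e).comp (coeffMap (Int.castRingHom k))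

theorem levelHom_j (e : ℕ) [NeZero e] : levelHom k e (jqModC ℤ) = jd k e := by
  simp only [levelHom, RingHom.comp_apply, coeffMap_jqModC]

theorem levelHom_jp (e : ℕ) [NeZero e] (p : ℕ) [NeZero p] :
    levelHom k e (qExpand ℤ p (jqModC ℤ)) = jd k (e * p) := by
  simp only [levelHom, RingHom.comp_apply, coeffMap_qExpand, coeffMap_jqModC, qExpand_qExpand]

variable {k}

/-- `Φ_p(j(q^e), j(q^{ep})) = 0`. -/
theorem ev2_jd_up {p : ℕ} [NeZero p] {Φ : Polynomial (Polynomial ℤ)} (hΦ : IsModPoly p Φ)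
    (e : ℕ) [NeZero e] : ev2 Φ (jd k e) (jd k (e * p)) = 0 := by
  have h := congrArg (levelHom k e) hΦ.eval_jp
  rwa [map_ev2, levelHom_j, levelHom_jp, map_zero] at h

/-- `Φ_p(j(q^{ep}), j(q^e)) = 0`. -/
theorem ev2_jd_down {p : ℕ} [NeZero p] {Φ : Polynomial (Polynomial ℤ)} (hΦ : IsModPoly p Φ)
    (e : ℕ) [NeZero e] : ev2 Φ (jd k (e * p)) (jd k e) = 0 := by
  have h := congrArg (levelHom k e) hΦ.eval_j
  rwa [map_ev2, levelHom_j, levelHom_jp, map_zero] at h

theorem jd_ne_of_ne {d d' : ℕ} [NeZero d] [NeZero d'] (h : d ≠ d') : jd k d ≠ jd k d' := by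
  have h1 : jd k d = jTw k 1 d := (jTw_one k d).symm
  have h2 : jd k d' = jTw k 1 d' := (jTw_one k d').symm
  rw [h1, h2]
  exact jTw_ne_of_ne h

end Relations

section Embedding

variable (k : Type*) [Field k] (Ω : Type*) [Field Ω] [Algebra k Ω]

/-- The embedding `k((q)) → Ω((t))`, `q ↦ t^m`. -/
def embHom (m : ℕ) [NeZero m] : LaurentSeries k →+* LaurentSeries Ω :=
  (qExpand Ω m).comp (coeffMap (algebraMap k Ω))

theorem embHom_jd (m : ℕ) [NeZero m] (d : ℕ) [NeZero d] :
    embHom k Ω m (jd k d) = jTw Ω 1 (m * d) := by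
  simp only [embHom, RingHom.comp_apply, jd, coeffMap_qExpand, coeffMap_jqModC, qExpand_qExpand,
    jTw_one]

end Embedding

section Pair

variable {k : Type*} [Field k]

theorem exists_primitiveRoot_unit (Ω : Type*) [Field Ω] (p : ℕ) [HasEnoughRootsOfUnity Ω p]
    (hp : p ≠ 0) : ∃ ζ : Ωˣ, IsPrimitiveRoot ζ p := by
  obtain ⟨ζ, hζ⟩ := HasEnoughRootsOfUnity.exists_primitiveRoot Ω p
  obtain ⟨u, hu⟩ := hζ.isUnit hp
  refine ⟨u, ?_⟩
  rw [← IsPrimitiveRoot.coe_units_iff, hu]
  exact hζ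

/-- **The gcd lemma.** For distinct primes `p ≠ r` invertible in `k`,
`j(q^{pre})` lies in every subfield of `k((q))` containing `j(q^{re})` and `j(q^{pe})`. -/
theorem jd_mem_of_pair {p r : ℕ} [NeZero p] [NeZero r] (hp : p.Prime) (hr : r.Prime)
    (hpr : p ≠ r) [NeZero (p : k)] [NeZero (r : k)]
    {Φp Φr : Polynomial (Polynomial ℤ)} (hΦp : IsModPoly p Φp) (hΦr : IsModPoly r Φr)
    (e : ℕ) [NeZero e] (E : IntermediateField k (LaurentSeries k))
    (h1 : jd k (r * e) ∈ E) (h2 : jd k (p * e) ∈ E) : jd k (p * r * e) ∈ E := by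
  classical
  obtain ⟨ζp, hζp⟩ := exists_primitiveRoot_unit (AlgebraicClosure k) p hp.ne_zero
  obtain ⟨ζr, hζr⟩ := exists_primitiveRoot_unit (AlgebraicClosure k) r hr.ne_zero
  have hp0 : 0 < p := hp.pos
  have hr0 : 0 < r := hr.pos
  have he0 : 0 < e := Nat.pos_of_ne_zero (NeZero.ne e)
  -- the two polynomials over `E`
  set y1 : E := ⟨jd k (r * e), h1⟩ with hy1
  set y2 : E := ⟨jd k (p * e), h2⟩ with hy2
  set ι : LaurentSeries k →+* LaurentSeries (AlgebraicClosure k) :=
    embHom k (AlgebraicClosure k) (p * r) with hι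
  have hP : ((spec Φp y1).map (ι.comp (algebraMap E (LaurentSeries k)))) =
      spec Φp (jTw (AlgebraicClosure k) 1 (r * r * e * p)) := by
    rw [map_spec]
    congr 1
    show ι (jd k (r * e)) = _
    rw [hι, embHom_jd]
    exact jTw_congr _ (by ring)
  have hQ : ((spec Φr y2).map (ι.comp (algebraMap E (LaurentSeries k)))) =
      spec Φr (jTw (AlgebraicClosure k) 1 (p * p * e * r)) := by
    rw [map_spec]
    congr 1
    show ι (jd k (p * e)) = _
    rw [hι, embHom_jd]
    exact jTw_congr _ (by ring)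
  have hx : ι (jd k (p * r * e)) = jTw (AlgebraicClosure k) 1 (r * r * e * p * p) := by
    rw [hι, embHom_jd]
    exact jTw_congr _ (by ring)
  have hmem : jd k (p * r * e) ∈ (algebraMap E (LaurentSeries k)).range := by
    refine mem_range_of_unique_common_root ι (jd k (p * r * e)) (spec Φp y1) (spec Φr y2)
      (spec_monic hΦp.monic y1).ne_zero ?_ ?_ ?_ ?_ ?_
    · -- root of P
      rw [Polynomial.aeval_def, Polynomial.eval₂_eq_eval_map, map_spec, eval_spec]
      show ev2 Φp (jd k (r * e)) (jd k (p * r * e)) = 0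
      rw [jd_congr k (show p * r * e = r * e * p by ring)]
      exact ev2_jd_up hΦp (r * e)
    · rw [Polynomial.aeval_def, Polynomial.eval₂_eq_eval_map, map_spec, eval_spec]
      show ev2 Φr (jd k (p * e)) (jd k (p * r * e)) = 0
      rw [jd_congr k (show p * r * e = p * e * r by ring)]
      exact ev2_jd_up hΦr (p * e)
    · rw [hP]
      exact splits_spec hp.one_lt hΦp hζp (r * r * e)
    · rw [hP, roots_spec hp.one_lt hΦp hζp (r * r * e)]
      exact rootMultiset_nodup hp.one_lt hζp _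
    · intro β hβ hQβ
      rw [hP, roots_spec hp.one_lt hΦp hζp (r * r * e)] at hβ
      rw [hx]
      rcases mem_rootMultiset.mp hβ with hβ1 | ⟨b, -, hβ1⟩
      · exact hβ1
      · exfalso
        have hβroot : β ∈ (spec Φr (jTw (AlgebraicClosure k) 1 (p * p * e * r))).roots := by
          rw [Polynomial.mem_roots (spec_monic hΦr.monic _).ne_zero, Polynomial.IsRoot, ← hQ]
          exact hQβ
        rw [roots_spec hr.one_lt hΦr hζr (p * p * e)] at hβroot
        have hne : r * r ≠ p * p := by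
          intro h
          exact hpr ((Nat.mul_self_inj.mp h).symm)
        rcases mem_rootMultiset.mp hβroot with hβ2 | ⟨c, -, hβ2⟩
        · have h3 := (jTw_inj (hβ1.symm.trans hβ2)).1
          -- r*r*e = p*p*e*r*r
          have h4 : r * r * e * 1 = r * r * e * (p * p) := by
            rw [mul_one]; exact h3.trans (by ring)
          have h5 : 1 = p * p := Nat.eq_of_mul_eq_mul_left (by positivity) h4
          have : 1 < p * p := by nlinarith [hp.one_lt]
          omega
        · have h3 := (jTw_inj (hβ1.symm.trans hβ2)).1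
          exact hne (Nat.eq_of_mul_eq_mul_right he0 h3)
  obtain ⟨z, hz⟩ := hmem
  rw [← hz]
  exact z.2

end Pair

end Fermat.Agent.S28.H626

end

end
-- ===== PACK-END S28/H626/Pair.lean

-- ===== PACK-BEGIN S28/H325/Glue.lean
section




/-!
# S28, piece [L-glue], part 2: from degree bounds to `CoreData`

Input: integrality of the `j(q^d)` over `ℤ[j]`, an upper bound `n` for the degree of
`F = ℚ(j(q^d) : d ∣ N)` over `ℚ(j)` and `n` elements of `K'(j(q^d) : d ∣ N)` which are linearly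
independent over `K'(j)` (for some field `K' ⊇ K`).  Output: `CoreData N K`.
-/

set_option autoImplicit false

noncomputable section

open ModularCurve HahnSeries Polynomial

namespace Fermat.Agent.S28.H325

/-- reduction of integral `q`-series to a ring `k`. -/
abbrev castL (k : Type*) [CommRing k] : LaurentSeries ℤ →+* LaurentSeries k :=
  coeffMap (Int.castRingHom k)

theorem castL_jqModC (k : Type*) [CommRing k] : castL k (jqModC ℤ) = jqModC k :=
  coeffMap_jqModC _

theorem castL_comp {k k' : Type*} [CommRing k] [CommRing k'] (φ : k →+* k')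
    (x : LaurentSeries ℤ) : coeffMap φ (castL k x) = castL k' x := by
  rw [castL, castL, coeffMap_coeffMap]
  exact coeffMap_congr (RingHom.ext_int _ _) x

theorem castL_image_intDivisorExpansions (k : Type*) [Field k] (N : ℕ) :
    castL k '' intDivisorExpansions N = divisorExpansionsC k N := by
  ext x
  constructor
  · rintro ⟨y, ⟨d, hd, hdN, rfl⟩, rfl⟩
    exact ⟨d, hd, hdN, by rw [castL, coeffMap_qExpand, coeffMap_jqModC]⟩
  · rintro ⟨d, hd, hdN, rfl⟩
    exact ⟨_, ⟨d, hd, hdN, rfl⟩, by rw [castL, coeffMap_qExpand, coeffMap_jqModC]⟩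

/-- `jField k` is `k(j)`. -/
theorem jField_eq (k : Type*) [Field k] : jField k = IntermediateField.adjoin k {jqModC k} := rfl

theorem jqModC_mem_jField (k : Type*) [Field k] : jqModC k ∈ jField k :=
  IntermediateField.subset_adjoin k _ (Set.mem_singleton _)

/-- The transfer theorem: linear independence over `K'(j)` of the reductions implies linear
independence over `K(j)` (for a subfield `K → K'`) and over `ℚ(j)`. -/
theorem linearIndependent_transfer {K K' : Type*} [Field K] [Field K'] (φ : K →+* K') {n : ℕ}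
    (Y : Fin n → LaurentSeries ℤ)
    (h : LinearIndependent (jField K') (fun i => castL K' (Y i))) :
    LinearIndependent (jField K) (fun i => castL K (Y i)) ∧
      LinearIndependent (jField ℚ) (fun i => castL ℚ (Y i)) := by
  have h1 : PolyIndep (jqModC K') (fun i => castL K' (Y i)) :=
    polyIndep_of_linearIndependent (fun P hP => (aeval_jqModC_eq_zero_iff K' P).mp hP) h
  constructor
  · apply linearIndependent_of_polyIndep
    apply PolyIndep.of_injective φ φ.injective
    rw [coeffMap_jqModC]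
    simpa only [castL_comp] using h1
  · have h2 : PolyIndep (jqModC ℤ) Y := by
      apply PolyIndep.int_of_field (k := K')
      rw [coeffMap_jqModC]
      exact h1
    have h3 := PolyIndep.rat_of_int h2
    rw [coeffMap_jqModC] at h3
    exact linearIndependent_of_polyIndep h3

/-! ### Integrality and the monomial spanning set -/

theorem castL_comp_evalAt (k : Type*) [CommRing k] :
    (castL k).comp (evalAt (jqModC ℤ)) = evalAt (jqModC k) := by
  refine Polynomial.ringHom_ext' (Subsingleton.elim _ _) ?_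
  simp [evalAt, castL_jqModC]

/-- `ℤ[X] → k(j)`, `X ↦ j`. -/
def evalJField (k : Type*) [Field k] : Polynomial ℤ →+* jField k :=
  Polynomial.eval₂RingHom (Int.castRingHom (jField k)) ⟨jqModC k, jqModC_mem_jField k⟩

theorem algebraMap_comp_evalJField (k : Type*) [Field k] :
    (algebraMap (jField k) (LaurentSeries k)).comp (evalJField k) = evalAt (jqModC k) := by
  refine Polynomial.ringHom_ext' (Subsingleton.elim _ _) ?_
  simp [evalAt, evalJField]

theorem isIntegral_jField_of_monic (k : Type*) [Field k] (d : ℕ) [NeZero d]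
    (h : ∃ P : Polynomial (Polynomial ℤ), P.Monic ∧
      P.eval₂ (evalAt (jqModC ℤ)) (qExpand ℤ d (jqModC ℤ)) = 0) :
    IsIntegral (jField k) (qExpand k d (jqModC k)) := by
  obtain ⟨P, hmonic, hP⟩ := h
  refine ⟨P.map (evalJField k), hmonic.map _, ?_⟩
  rw [Polynomial.eval₂_map, algebraMap_comp_evalJField, ← castL_comp_evalAt]
  have := congrArg (castL k) hP
  rw [Polynomial.hom_eval₂, map_zero, castL, coeffMap_qExpand, coeffMap_jqModC] at this
  exact this

/-- Under integrality, `k(j(q^d) : d ∣ N)` is spanned over `k(j)` by the monomials in the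
`j(q^d)`. -/
theorem mem_span_monomials_of_mem_full (k : Type*) [Field k] (N : ℕ) [NeZero N]
    (hint : ∀ (d : ℕ) [NeZero d], d ∣ N →
      ∃ P : Polynomial (Polynomial ℤ), P.Monic ∧
        P.eval₂ (evalAt (jqModC ℤ)) (qExpand ℤ d (jqModC ℤ)) = 0)
    {x : LaurentSeries k} (hx : x ∈ modularFunctionFieldFullC k N) :
    x ∈ Submodule.span (jField k)
      ((Submonoid.closure (divisorExpansionsC k N) : Submonoid (LaurentSeries k)) :
        Set (LaurentSeries k)) := by
  have halg : ∀ y ∈ divisorExpansionsC k N, IsAlgebraic (jField k) y := by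
    rintro y ⟨d, hd, hdN, rfl⟩
    exact (isIntegral_jField_of_monic k d (hint d hdN)).isAlgebraic
  have h1 : x ∈ IntermediateField.adjoin (jField k) (divisorExpansionsC k N) := by
    have h2 : modularFunctionFieldFullC k N ≤
        (IntermediateField.adjoin (jField k) (divisorExpansionsC k N)).restrictScalars k := by
      rw [modularFunctionFieldFullC, IntermediateField.adjoin_le_iff]
      intro y hy
      exact IntermediateField.subset_adjoin (jField k) _ hy
    exact h2 hx
  have h3 := IntermediateField.adjoin_toSubalgebra_of_isAlgebraic halg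
  have h4 : x ∈ (IntermediateField.adjoin (jField k) (divisorExpansionsC k N)).toSubalgebra := h1
  rw [h3] at h4
  have h5 := Algebra.adjoin_eq_span (R := jField k) (s := divisorExpansionsC k N)
  have h6 : x ∈ Subalgebra.toSubmodule (Algebra.adjoin (jField k) (divisorExpansionsC k N)) := h4
  rw [h5] at h6
  exact h6

theorem monomials_subset_full (k : Type*) [Field k] (N : ℕ) :
    ((Submonoid.closure (divisorExpansionsC k N) : Submonoid (LaurentSeries k)) :
        Set (LaurentSeries k)) ⊆ modularFunctionFieldFullC k N := by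
  intro x hx
  have : Submonoid.closure (divisorExpansionsC k N) ≤
      (modularFunctionFieldFullC k N).toSubalgebra.toSubmonoid := by
    rw [Submonoid.closure_le]
    intro y hy
    exact IntermediateField.subset_adjoin k _ hy
  exact this hx

theorem castL_image_closure (k : Type*) [Field k] (N : ℕ) :
    castL k '' ((Submonoid.closure (intDivisorExpansions N) : Submonoid (LaurentSeries ℤ)) :
        Set (LaurentSeries ℤ)) =
      ((Submonoid.closure (divisorExpansionsC k N) : Submonoid (LaurentSeries k)) :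
        Set (LaurentSeries k)) := by
  rw [← castL_image_intDivisorExpansions]
  have := MonoidHom.map_mclosure ((castL k : LaurentSeries ℤ →+* LaurentSeries k) :
    LaurentSeries ℤ →* LaurentSeries k) (intDivisorExpansions N)
  have h2 := congrArg (fun S : Submonoid (LaurentSeries k) => (S : Set (LaurentSeries k))) this
  simp only [Submonoid.coe_map] at h2
  exact h2

/-! ### Extraction of independent monomials -/

open Cardinal in
/-- If `k(j(q^d) : d ∣ N)` contains `n` elements linearly independent over `k(j)`, then there are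
`n` integral monomials in the `j(q^d)` whose reductions are linearly independent over `k(j)`. -/
theorem exists_monomials_linearIndependent (k : Type*) [Field k] (N : ℕ) [NeZero N]
    (hint : ∀ (d : ℕ) [NeZero d], d ∣ N →
      ∃ P : Polynomial (Polynomial ℤ), P.Monic ∧
        P.eval₂ (evalAt (jqModC ℤ)) (qExpand ℤ d (jqModC ℤ)) = 0)
    (n : ℕ)
    (hL : ∃ x : Fin n → LaurentSeries k, (∀ i, x i ∈ modularFunctionFieldFullC k N) ∧
      LinearIndependent (jField k) x) :
    ∃ Y : Fin n → LaurentSeries ℤ,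
      (∀ i, Y i ∈ Submonoid.closure (intDivisorExpansions N)) ∧
      LinearIndependent (jField k) (fun i => castL k (Y i)) := by
  classical
  obtain ⟨x, hxF, hxli⟩ := hL
  set T : Set (LaurentSeries k) :=
    ((Submonoid.closure (divisorExpansionsC k N) : Submonoid (LaurentSeries k)) :
        Set (LaurentSeries k)) with hT
  obtain ⟨b, hbT, hspan, hli⟩ := exists_linearIndependent (jField k) T
  have hxb : ∀ i, x i ∈ Submodule.span (jField k) b := fun i => by
    rw [hspan]
    exact mem_span_monomials_of_mem_full k N hint (hxF i)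
  have hli' : LinearIndependent (jField k)
      (fun i => (⟨x i, hxb i⟩ : Submodule.span (jField k) b)) := by
    apply LinearIndependent.of_comp (Submodule.span (jField k) b).subtype
    exact hxli
  have h1 := hli'.cardinal_lift_le_rank
  have h2 : Module.rank (jField k) (Submodule.span (jField k) b) = #b := rank_span_set hli
  rw [h2] at h1
  obtain ⟨e⟩ := Cardinal.lift_mk_le'.mp h1
  have hmem : ∀ i, ∃ Y : LaurentSeries ℤ,
      Y ∈ Submonoid.closure (intDivisorExpansions N) ∧ castL k Y = (e i : LaurentSeries k) := by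
    intro i
    have h3 : (e i : LaurentSeries k) ∈ T := hbT (e i).2
    rw [hT, ← castL_image_closure] at h3
    obtain ⟨Y, hY, hYe⟩ := h3
    exact ⟨Y, hY, hYe⟩
  choose Y hY hYe using hmem
  refine ⟨Y, hY, ?_⟩
  have h4 : (fun i => castL k (Y i)) = (fun z : b => (z : LaurentSeries k)) ∘ e := by
    funext i
    exact hYe i
  rw [h4]
  exact hli.comp e e.injective

/-! ### Assembly -/

/-- **Glue.** Degree bounds (upper bound `n` over `ℚ`, lower bound `n` over some field `K' ⊇ K`)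
together with integrality of the `j(q^d)` produce `CoreData N K`. -/
theorem coreData_of_bounds (N : ℕ) [NeZero N] (K : Type) [Field K] {K' : Type*} [Field K']
    (φ : K →+* K') (n : ℕ)
    (hint : ∀ (d : ℕ) [NeZero d], d ∣ N →
      ∃ P : Polynomial (Polynomial ℤ), P.Monic ∧
        P.eval₂ (evalAt (jqModC ℤ)) (qExpand ℤ d (jqModC ℤ)) = 0)
    (hU : ∀ (m : ℕ) (x : Fin m → LaurentSeries ℚ), (∀ i, x i ∈ modularFunctionFieldFull N) →
      LinearIndependent (jField ℚ) x → m ≤ n)
    (hL : ∃ x : Fin n → LaurentSeries K', (∀ i, x i ∈ modularFunctionFieldFullC K' N) ∧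
      LinearIndependent (jField K') x) :
    CoreData N K := by
  obtain ⟨Y, hY, hYli⟩ := exists_monomials_linearIndependent K' N hint n hL
  obtain ⟨hK, hQ⟩ := linearIndependent_transfer φ Y hYli
  refine ⟨⟨n, Y, ?_, ?_, hK⟩, fun d _ hd => hint d hd⟩
  · intro i
    have : Submonoid.closure (intDivisorExpansions N) ≤
        (Subring.closure (intDivisorExpansions N)).toSubmonoid := by
      rw [Submonoid.closure_le]
      exact Subring.subset_closure
    exact this (hY i)
  · intro x hx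
    by_contra hxs
    have hYF : ∀ i, castL ℚ (Y i) ∈ modularFunctionFieldFull N := by
      intro i
      have h1 : castL ℚ (Y i) ∈ castL ℚ ''
          ((Submonoid.closure (intDivisorExpansions N) : Submonoid (LaurentSeries ℤ)) :
            Set (LaurentSeries ℤ)) := ⟨Y i, hY i, rfl⟩
      rw [castL_image_closure] at h1
      exact monomials_subset_full ℚ N h1
    have hcons : LinearIndependent (jField ℚ)
        (Fin.cons x (fun i => castL ℚ (Y i)) : Fin (n + 1) → LaurentSeries ℚ) :=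
      linearIndependent_finCons.mpr ⟨hQ, hxs⟩
    have := hU (n + 1) _ (fun i => by
      refine Fin.cases ?_ (fun j => ?_) i
      · simpa using hx
      · simpa using hYF j) hcons
    omega

end Fermat.Agent.S28.H325

end
end
-- ===== PACK-END S28/H325/Glue.lean

-- ===== PACK-BEGIN S28/H25/ThetaFormal.lean
section




/-!
# The `θ`-identity for `j`, formal part (helper25, S28 piece [A-θ])

`(θ j)⁶ = Δ · j⁴ · (j - 1728)³` in `ℤ((q))`, for the Prelude's formal `j = jqModC ℤ`,
`Δ = q · dedekindEtaUnit`, `θ = q d/dq`, assuming the two bridges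
* `qExpansion 1 E₄ = eisenstein4` (proved here) and
* `qExpansion 1 Δ = X * dedekindEtaUnit` (hypothesis `DeltaBridge`).
-/

set_option autoImplicit false

open UpperHalfPlane hiding I
open ModularForm EisensteinSeries ModularCurve
open scoped MatrixGroups

noncomputable section

namespace Fermat.Agent.S28.H25

section thetaP

variable {R : Type*} [CommRing R]

theorem thetaP_mul (f g : PowerSeries R) :
    thetaP (f * g) = thetaP f * g + f * thetaP g := by
  unfold thetaP
  rw [Derivation.leibniz]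
  simp only [smul_eq_mul]
  ring

theorem thetaP_X : thetaP (PowerSeries.X : PowerSeries R) = PowerSeries.X := by
  unfold thetaP
  rw [PowerSeries.derivative_X, mul_one]

theorem thetaP_pow_three (f : PowerSeries R) :
    thetaP (f ^ 3) = 3 * f ^ 2 * thetaP f := by
  have : f ^ 3 = f * (f * f) := by ring
  rw [this, thetaP_mul, thetaP_mul]
  ring

theorem thetaP_map {S : Type*} [CommRing S] (φ : R →+* S) (f : PowerSeries R) :
    thetaP (f.map φ) = (thetaP f).map φ := by
  ext n
  simp [coeff_thetaP]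

end thetaP

/-- Pure algebra: the `θ`-identity from the two analytic relations, over a field. -/
theorem theta_identity_of_relations {K : Type*} [Field K]
    (E e6 et eti u : PowerSeries K) (h0 : et * eti = 1) (hu : u = E ^ 3 * eti)
    (hi : E ^ 3 - e6 ^ 2 = 1728 * (PowerSeries.X * et))
    (hii : 3 * E ^ 2 * thetaP E * (PowerSeries.X * et) - E ^ 3 * thetaP (PowerSeries.X * et) =
      - (E ^ 2 * e6 * (PowerSeries.X * et))) :
    (thetaP u - u) ^ 6 = et * u ^ 4 * (u - 1728 * PowerSeries.X) ^ 3 := by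
  have heta : et ≠ 0 := by
    rintro rfl
    simp at h0
  have hX : (PowerSeries.X : PowerSeries K) ≠ 0 := PowerSeries.X_ne_zero
  have hueta : u * et = E ^ 3 := by
    rw [hu]
    linear_combination E ^ 3 * h0
  have hθ : thetaP u * et + u * thetaP et = 3 * E ^ 2 * thetaP E := by
    rw [← thetaP_mul, hueta, thetaP_pow_three]
  have hbr : 3 * E ^ 2 * thetaP E * et - E ^ 3 * et - E ^ 3 * thetaP et + E ^ 2 * e6 * et = 0 := by
    have h1 : PowerSeries.X * (3 * E ^ 2 * thetaP E * et - E ^ 3 * et - E ^ 3 * thetaP et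
        + E ^ 2 * e6 * et) = 0 := by
      rw [thetaP_mul, thetaP_X] at hii
      linear_combination hii
    rcases mul_eq_zero.mp h1 with h | h
    · exact absurd h hX
    · exact h
  have h1 : (thetaP u - u) * et = - (E ^ 2 * e6) := by
    apply mul_right_cancel₀ heta
    linear_combination et * hθ + hbr - (thetaP et + et) * hueta
  have h2 : e6 ^ 2 = et * (u - 1728 * PowerSeries.X) := by
    linear_combination -hi - hueta
  have h3 : ((thetaP u - u) * et) ^ 6 = et ^ 6 * (et * u ^ 4 * (u - 1728 * PowerSeries.X) ^ 3) := by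
    calc ((thetaP u - u) * et) ^ 6 = (- (E ^ 2 * e6)) ^ 6 := by rw [h1]
      _ = (E ^ 3) ^ 4 * (e6 ^ 2) ^ 3 := by ring
      _ = (u * et) ^ 4 * (et * (u - 1728 * PowerSeries.X)) ^ 3 := by rw [hueta, h2]
      _ = et ^ 6 * (et * u ^ 4 * (u - 1728 * PowerSeries.X) ^ 3) := by ring
  apply mul_left_cancel₀ (pow_ne_zero 6 heta)
  rw [← h3]
  ring

/-- Bridge B1: the `q`-expansion of `E₄` is the Prelude's `eisenstein4`. -/
theorem qExpansion_E4_eq_eisenstein4 :
    qExpansion 1 E₄ = eisenstein4.map (Int.castRingHom ℂ) := by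
  ext m
  rw [E_qExpansion_coeff _ ⟨2, rfl⟩]
  simp only [eisenstein4, PowerSeries.coeff_map, PowerSeries.coeff_mk]
  split_ifs with h
  · simp
  · norm_num [show bernoulli 4 = -1 / 30 by decide +kernel, ArithmeticFunction.sigma_apply]

/-- Bridge B2 (to be supplied): the `q`-expansion of `Δ` is `q ∏ (1 - qⁿ)²⁴`. -/
def DeltaBridge : Prop :=
  qExpansion 1 ModularForm.discriminant =
    PowerSeries.X * dedekindEtaUnit.map (Int.castRingHom ℂ)

/-- The `θ`-identity in `ℤ⟦q⟧`: with `u = q · j = E₄³ / ∏(1-qⁿ)²⁴`,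
`(θ u - u)⁶ = ∏(1-qⁿ)²⁴ · u⁴ · (u - 1728 q)³`. -/
theorem theta_identity_powerSeries (hΔ : DeltaBridge) :
    (thetaP jNum - jNum) ^ 6 =
      dedekindEtaUnit * jNum ^ 4 * (jNum - 1728 * PowerSeries.X) ^ 3 := by
  have hinj : Function.Injective (PowerSeries.map (Int.castRingHom ℂ)) := by
    intro f g hfg
    ext n
    have := congrArg (PowerSeries.coeff n) hfg
    simpa using this
  apply hinj
  have hΔ' : qExpansion 1 ModularForm.discriminant =
      PowerSeries.X * dedekindEtaUnit.map (Int.castRingHom ℂ) := hΔ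
  have h := theta_identity_of_relations (K := ℂ) (eisenstein4.map (Int.castRingHom ℂ))
    (qExpansion 1 E₆) (dedekindEtaUnit.map (Int.castRingHom ℂ))
    (dedekindEtaUnitInv.map (Int.castRingHom ℂ)) (jNum.map (Int.castRingHom ℂ))
    (by rw [← map_mul, dedekindEtaUnit_mul_inv, map_one])
    (by rw [jNum, map_mul, map_pow])
    (by rw [← qExpansion_E4_eq_eisenstein4, ← hΔ']; exact qExp_E4_cube_sub_E6_sq)
    (by rw [← qExpansion_E4_eq_eisenstein4, ← hΔ']; exact qExp_theta_relation)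
  simp only [map_pow, map_mul, map_sub, map_ofNat, PowerSeries.map_X, ← thetaP_map]
  exact h

end Fermat.Agent.S28.H25

end
end
-- ===== PACK-END S28/H25/ThetaFormal.lean

-- ===== PACK-BEGIN S24/H117/EmbPlace.lean
section


/-!
# S24 / H117 — the place induced by an embedding into Laurent series (LT1)

For a ring homomorphism `σ : F →+* LaurentSeries C` which is "constant on `K`" and nontrivial
(some element has nonzero order), `{f | 0 ≤ (σ f).order}` is a discrete valuation ring of `F`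
containing `K`, i.e. a `Place K F`, and `(σ f).order = k * v.ord f` for a fixed `k > 0`.
-/

set_option autoImplicit false

noncomputable section

open AlgebraicCurve

namespace Fermat.Agent.S24.H117

variable {K F : Type*} [Field K] [Field F] [Algebra K F]
variable {C : Type*} [Field C]

section Laurent

theorem order_inv' (g : LaurentSeries C) : (g⁻¹).order = -g.order := by
  rcases eq_or_ne g 0 with rfl | hg
  · simp
  have h := HahnSeries.order_mul hg (inv_ne_zero hg)
  rw [mul_inv_cancel₀ hg, HahnSeries.order_one] at h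
  omega

theorem order_add_ge' {g h : LaurentSeries C} (hg : 0 ≤ g.order) (hh : 0 ≤ h.order) :
    0 ≤ (g + h).order := by
  rcases eq_or_ne (g + h) 0 with h0 | h0
  · rw [h0, HahnSeries.order_zero]
  · exact le_trans (le_min hg hh) (HahnSeries.min_order_le_order_add h0)

/-- The valuation subring of `C((z))` of series of non-negative order. -/
def OL (C : Type*) [Field C] : ValuationSubring (LaurentSeries C) where
  carrier := {g | 0 ≤ g.order}
  mul_mem' := by
    intro a b ha hb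
    simp only [Set.mem_ofPred_eq] at ha hb ⊢
    rcases eq_or_ne a 0 with rfl | ha0
    · simp
    rcases eq_or_ne b 0 with rfl | hb0
    · simp
    rw [HahnSeries.order_mul ha0 hb0]
    omega
  one_mem' := by simp
  add_mem' := by
    intro a b ha hb
    exact order_add_ge' ha hb
  zero_mem' := by simp
  neg_mem' := by
    intro a ha
    simp only [Set.mem_ofPred_eq] at ha ⊢
    rwa [HahnSeries.order_neg]
  mem_or_inv_mem' := by
    intro a
    simp only [Set.mem_ofPred_eq]
    rw [order_inv']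
    omega

@[simp]
theorem mem_OL {g : LaurentSeries C} : g ∈ OL C ↔ 0 ≤ g.order := Iff.rfl

end Laurent

section Emb

variable (σ : F →+* LaurentSeries C)

/-- The order function of an embedding. -/
def eord (f : F) : ℤ := (σ f).order

@[simp] theorem eord_zero : eord σ 0 = 0 := by simp [eord]

@[simp] theorem eord_one : eord σ 1 = 0 := by simp [eord]

theorem eord_mul {f g : F} (hf : f ≠ 0) (hg : g ≠ 0) :
    eord σ (f * g) = eord σ f + eord σ g := by
  simp only [eord, map_mul]
  exact HahnSeries.order_mul ((map_ne_zero σ).mpr hf) ((map_ne_zero σ).mpr hg)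

theorem eord_inv (f : F) : eord σ f⁻¹ = -eord σ f := by
  simp only [eord, map_inv₀]
  exact order_inv' _

theorem eord_pow (f : F) (n : ℕ) : eord σ (f ^ n) = n * eord σ f := by
  simp only [eord, map_pow, HahnSeries.order_pow, nsmul_eq_mul]

theorem eord_zpow (f : F) (n : ℤ) : eord σ (f ^ n) = n * eord σ f := by
  cases n with
  | ofNat n => simpa using eord_pow σ f n
  | negSucc n =>
    rw [zpow_negSucc, eord_inv, eord_pow]
    simp only [Int.negSucc_eq]
    push_cast
    ring

theorem eord_neg (f : F) : eord σ (-f) = eord σ f := by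
  simp only [eord, map_neg, HahnSeries.order_neg]

theorem eord_add_ge {f g : F} (hfg : f + g ≠ 0) :
    min (eord σ f) (eord σ g) ≤ eord σ (f + g) := by
  simp only [eord, map_add]
  apply HahnSeries.min_order_le_order_add
  rw [← map_add]
  exact (map_ne_zero σ).mpr hfg

/-- The valuation subring of `F` induced by `σ`. -/
def embRing : ValuationSubring F := (OL C).comap σ

@[simp]
theorem mem_embRing {f : F} : f ∈ embRing σ ↔ 0 ≤ eord σ f := Iff.rfl

theorem coe_ne_zero_embRing {a : embRing σ} (ha : a ≠ 0) : (a : F) ≠ 0 :=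
  fun h => ha (Subtype.ext h)

theorem isUnit_embRing_iff {a : embRing σ} (ha : a ≠ 0) : IsUnit a ↔ eord σ (a : F) = 0 := by
  have ha0 : (a : F) ≠ 0 := coe_ne_zero_embRing σ ha
  constructor
  · intro h
    obtain ⟨b, hb⟩ := isUnit_iff_exists_inv.mp h
    have hb' : (a : F) * (b : F) = 1 := congrArg Subtype.val hb
    have hbne : (b : F) ≠ 0 := by
      intro h0
      rw [h0, mul_zero] at hb'
      exact zero_ne_one hb'
    have hsum := eord_mul σ ha0 hbne
    rw [hb', eord_one] at hsum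
    have h1 : 0 ≤ eord σ (a : F) := a.2
    have h2 : 0 ≤ eord σ (b : F) := b.2
    omega
  · intro h0
    have hinv : (a : F)⁻¹ ∈ embRing σ := by
      rw [mem_embRing, eord_inv]; omega
    exact ⟨⟨a, ⟨(a : F)⁻¹, hinv⟩, Subtype.ext (mul_inv_cancel₀ ha0),
      Subtype.ext (inv_mul_cancel₀ ha0)⟩, rfl⟩

/-- If some element has nonzero order, then `embRing σ` is a discrete valuation ring: there is
an element `π` of minimal positive order `k`, and every order is a multiple of `k`. -/
theorem exists_min_pos (hnt : ∃ t : F, eord σ t ≠ 0) :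
    ∃ (k : ℕ) (π : F), 0 < k ∧ π ≠ 0 ∧ eord σ π = k ∧ ∀ f : F, (k : ℤ) ∣ eord σ f := by
  classical
  obtain ⟨t, ht⟩ := hnt
  have hex : ∃ n : ℕ, 0 < n ∧ ∃ f : F, eord σ f = n := by
    rcases lt_or_gt_of_ne ht with h | h
    · refine ⟨(eord σ t⁻¹).toNat, ?_, t⁻¹, ?_⟩
      · rw [eord_inv]; omega
      · rw [eord_inv]; omega
    · exact ⟨(eord σ t).toNat, by omega, t, by omega⟩
  let k := Nat.find hex
  obtain ⟨hk0, π, hπ⟩ := Nat.find_spec hex
  have hmin : ∀ n : ℕ, 0 < n → (∃ f : F, eord σ f = n) → k ≤ n := fun n hn hf =>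
    Nat.find_min' hex ⟨hn, hf⟩
  have hπ0 : π ≠ 0 := by
    rintro rfl
    rw [eord_zero] at hπ
    have : (k : ℤ) = 0 := hπ.symm
    have hk0' : 0 < k := hk0
    omega
  refine ⟨k, π, hk0, hπ0, hπ, fun f => ?_⟩
  rcases eq_or_ne f 0 with rfl | hf
  · simp
  -- division with remainder
  set q := eord σ f / (k : ℤ) with hq
  set r := eord σ f % (k : ℤ) with hr
  have hk0' : (0 : ℤ) < k := by exact_mod_cast hk0
  have hr0 : 0 ≤ r := Int.emod_nonneg _ hk0'.ne'
  have hrk : r < k := Int.emod_lt_of_pos _ hk0'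
  have hdecomp : eord σ f = k * q + r := (Int.mul_ediv_add_emod _ _).symm
  have hg : eord σ (f * π ^ (-q)) = r := by
    rw [eord_mul σ hf (zpow_ne_zero _ hπ0), eord_zpow, hπ, hdecomp]
    ring
  by_cases hr' : r = 0
  · exact Int.dvd_of_emod_eq_zero hr'
  · exfalso
    have := hmin r.toNat (by omega) ⟨_, by rw [hg]; omega⟩
    have hk0'' : 0 < k := hk0
    omega

theorem isDiscreteValuationRing_embRing (hnt : ∃ t : F, eord σ t ≠ 0) :
    IsDiscreteValuationRing (embRing σ) := by
  obtain ⟨k, π, hk0, hπ0, hπ, hdvd⟩ := exists_min_pos σ hnt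
  have hπmem : π ∈ embRing σ := by rw [mem_embRing, hπ]; positivity
  have hk0' : (0 : ℤ) < k := by exact_mod_cast hk0
  apply IsDiscreteValuationRing.ofHasUnitMulPowIrreducibleFactorization
  refine ⟨⟨π, hπmem⟩, ?_, ?_⟩
  · -- irreducible
    have hπne : (⟨π, hπmem⟩ : embRing σ) ≠ 0 := fun h => hπ0 (congrArg Subtype.val h)
    refine ⟨fun hu => ?_, fun a b hab => ?_⟩
    · have := (isUnit_embRing_iff σ hπne).mp hu
      simp only at this
      omega
    · have hab' : π = (a : F) * (b : F) := congrArg Subtype.val hab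
      have ha0 : a ≠ 0 := by
        rintro rfl
        apply hπ0
        simpa using hab'
      have hb0 : b ≠ 0 := by
        rintro rfl
        apply hπ0
        simpa using hab'
      have ha0' : (a : F) ≠ 0 := coe_ne_zero_embRing σ ha0
      have hb0' : (b : F) ≠ 0 := coe_ne_zero_embRing σ hb0
      have hsum := eord_mul σ ha0' hb0'
      rw [← hab', hπ] at hsum
      obtain ⟨ca, hca⟩ := hdvd (a : F)
      obtain ⟨cb, hcb⟩ := hdvd (b : F)
      have h1 : 0 ≤ eord σ (a : F) := a.2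
      have h2 : 0 ≤ eord σ (b : F) := b.2
      rw [isUnit_embRing_iff σ ha0, isUnit_embRing_iff σ hb0]
      have hca0 : 0 ≤ ca := by
        by_contra hneg
        push Not at hneg
        rw [hca] at h1
        nlinarith
      have hcb0 : 0 ≤ cb := by
        by_contra hneg
        push Not at hneg
        rw [hcb] at h2
        nlinarith
      have hsum' : (k : ℤ) * (ca + cb) = k * 1 := by rw [hca, hcb] at hsum; linarith
      have h3 : ca + cb = 1 := mul_left_cancel₀ hk0'.ne' hsum'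
      rcases (show ca = 0 ∨ cb = 0 by omega) with h | h
      · left; rw [hca, h, mul_zero]
      · right; rw [hcb, h, mul_zero]
  · intro x hx
    have hx0 : (x : F) ≠ 0 := coe_ne_zero_embRing σ hx
    obtain ⟨c, hc⟩ := hdvd (x : F)
    have hxnn : 0 ≤ eord σ (x : F) := x.2
    have hc0 : 0 ≤ c := by
      by_contra hneg
      push Not at hneg
      rw [hc] at hxnn
      nlinarith
    refine ⟨c.toNat, ?_⟩
    have hu : eord σ ((x : F) * (π ^ c.toNat)⁻¹) = 0 := by
      rw [eord_mul σ hx0 (inv_ne_zero (pow_ne_zero _ hπ0)), eord_inv, eord_pow, hπ, hc]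
      have : ((c.toNat : ℕ) : ℤ) = c := Int.toNat_of_nonneg hc0
      rw [this]; ring
    have hmem : (x : F) * (π ^ c.toNat)⁻¹ ∈ embRing σ := by
      rw [mem_embRing, hu]
    have hne : (⟨_, hmem⟩ : embRing σ) ≠ 0 := fun h =>
      (mul_ne_zero hx0 (inv_ne_zero (pow_ne_zero _ hπ0))) (congrArg Subtype.val h)
    have hunit : IsUnit (⟨_, hmem⟩ : embRing σ) := (isUnit_embRing_iff σ hne).mpr hu
    refine ⟨hunit.unit, ?_⟩
    apply Subtype.ext
    have hπpow : π ^ c.toNat ≠ 0 := pow_ne_zero _ hπ0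
    show π ^ c.toNat * ((x : F) * (π ^ c.toNat)⁻¹) = (x : F)
    field_simp

/-- The place of `F/K` induced by an embedding `σ : F → C((z))` which has non-negative order on
the constants and is nontrivial. -/
def placeOfEmb (hK : ∀ c : K, 0 ≤ eord σ (algebraMap K F c)) (hnt : ∃ t : F, eord σ t ≠ 0) :
    Place K F where
  toValuationSubring := embRing σ
  algebraMap_mem' := hK
  ne_top' := by
    obtain ⟨t, ht⟩ := hnt
    intro htop
    have h1 : t ∈ embRing σ := htop ▸ ValuationSubring.mem_top t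
    have h2 : t⁻¹ ∈ embRing σ := htop ▸ ValuationSubring.mem_top t⁻¹
    rw [mem_embRing] at h1 h2
    rw [eord_inv] at h2
    omega
  isPrincipalIdealRing' :=
    haveI := isDiscreteValuationRing_embRing σ hnt
    inferInstance

@[simp]
theorem placeOfEmb_toValuationSubring (hK : ∀ c : K, 0 ≤ eord σ (algebraMap K F c))
    (hnt : ∃ t : F, eord σ t ≠ 0) :
    (placeOfEmb σ hK hnt).toValuationSubring = embRing σ := rfl

/-- If the valuation ring of a place `v` is `{f | 0 ≤ ord (σ f)}`, then `ord ∘ σ = k * v.ord`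
for some `k > 0`. -/
theorem exists_mult_of_eq (v : Place K F) (hv : v.toValuationSubring = embRing σ) :
    ∃ k : ℕ, 0 < k ∧ ∀ f : F, eord σ f = k * v.ord f := by
  have hmem : ∀ f : F, f ∈ v.toValuationSubring ↔ 0 ≤ eord σ f := fun f => by
    rw [hv]; rfl
  obtain ⟨π, hπ⟩ := IsDiscreteValuationRing.exists_irreducible v.toValuationSubring
  have hπ0 : (π : F) ≠ 0 := fun h => hπ.ne_zero (Subtype.ext h)
  have hπnn : 0 ≤ eord σ (π : F) := (hmem _).mp π.2
  have hπpos : 0 < eord σ (π : F) := by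
    rcases hπnn.lt_or_eq with h | h
    · exact h
    · exfalso
      have hinv : (π : F)⁻¹ ∈ v.toValuationSubring := by
        rw [hmem, eord_inv]; omega
      apply hπ.not_isUnit
      exact ⟨⟨π, ⟨(π : F)⁻¹, hinv⟩, Subtype.ext (mul_inv_cancel₀ hπ0),
        Subtype.ext (inv_mul_cancel₀ hπ0)⟩, rfl⟩
  refine ⟨(eord σ (π : F)).toNat, by omega, fun f => ?_⟩
  rcases eq_or_ne f 0 with rfl | hf
  · simp
  obtain ⟨u, hu⟩ := v.exists_unit_mul_zpow hf hπ
  have hu0 : ((u : v.toValuationSubring) : F) ≠ 0 := by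
    intro h
    exact u.ne_zero (Subtype.ext h)
  have hu1 : 0 ≤ eord σ ((u : v.toValuationSubring) : F) := (hmem _).mp (u : v.toValuationSubring).2
  have hu2 : 0 ≤ eord σ (((u⁻¹ : v.toValuationSubringˣ) : v.toValuationSubring) : F) :=
    (hmem _).mp ((u⁻¹ : v.toValuationSubringˣ) : v.toValuationSubring).2
  have hmul : ((u : v.toValuationSubring) : F)
      * (((u⁻¹ : v.toValuationSubringˣ) : v.toValuationSubring) : F) = 1 := by
    exact congrArg Subtype.val (Units.mul_inv u)
  have hu2' : eord σ (((u⁻¹ : v.toValuationSubringˣ) : v.toValuationSubring) : F)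
      = - eord σ ((u : v.toValuationSubring) : F) := by
    rw [← eord_inv]
    congr 1
    exact eq_inv_of_mul_eq_one_right hmul
  have hu3 : eord σ ((u : v.toValuationSubring) : F) = 0 := by omega
  conv_lhs => rw [hu]
  rw [eord_mul σ hu0 (zpow_ne_zero _ hπ0), eord_zpow, hu3, zero_add,
    Int.toNat_of_nonneg hπnn]
  ring

theorem exists_mult (hK : ∀ c : K, 0 ≤ eord σ (algebraMap K F c))
    (hnt : ∃ t : F, eord σ t ≠ 0) :
    ∃ k : ℕ, 0 < k ∧ ∀ f : F, eord σ f = k * (placeOfEmb σ hK hnt).ord f :=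
  exists_mult_of_eq σ _ rfl

end Emb

section LocalDataPlaces

variable {X : Type*} {t : F} (L : LocalData K F C X t)

theorem eord_const (x : X) (c : K) : eord (L.σ x) (algebraMap K F c) = 0 := by
  simp only [eord, L.σ_const, HahnSeries.order_C]

theorem eord_t (x : X) : eord (L.σ x) t = L.m := L.σ_t_order x

theorem nontrivial_σ (x : X) : ∃ s : F, eord (L.σ x) s ≠ 0 :=
  ⟨t, by rw [eord_t]; exact_mod_cast L.m_pos.ne'⟩

/-- **LT1.** The place of `F/K` induced by the embedding `L.σ x`. -/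
def placeOf (x : X) : Place K F :=
  placeOfEmb (L.σ x) (fun c => (eord_const L x c).ge) (nontrivial_σ L x)

theorem exists_mult_placeOf (x : X) :
    ∃ k : ℕ, 0 < k ∧ ∀ f : F, ((L.σ x) f).order = k * (placeOf L x).ord f :=
  exists_mult (L.σ x) _ _

/-- The multiplicity `k_x` with `ord_z ∘ σ_x = k_x * ord_{v_x}`. -/
def mult (x : X) : ℕ := (exists_mult_placeOf L x).choose

theorem mult_pos (x : X) : 0 < mult L x := (exists_mult_placeOf L x).choose_spec.1

theorem order_eq (x : X) (f : F) :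
    ((L.σ x) f).order = mult L x * (placeOf L x).ord f :=
  (exists_mult_placeOf L x).choose_spec.2 f

theorem mem_placeOf_iff (x : X) (f : F) :
    f ∈ (placeOf L x).toValuationSubring ↔ 0 ≤ ((L.σ x) f).order := Iff.rfl

theorem ord_placeOf_nonneg_iff (x : X) (f : F) :
    0 ≤ (placeOf L x).ord f ↔ 0 ≤ ((L.σ x) f).order := by
  rw [← mem_iff_ord_nonneg]; rfl

theorem mult_mul_ord_t (x : X) : (mult L x : ℤ) * (placeOf L x).ord t = L.m := by
  rw [← order_eq, L.σ_t_order]

theorem ord_t_pos (x : X) : 0 < (placeOf L x).ord t := by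
  have h := mult_mul_ord_t L x
  have hk : (0 : ℤ) < mult L x := by exact_mod_cast mult_pos L x
  have hm : (0 : ℤ) < L.m := by exact_mod_cast L.m_pos
  by_contra hcon
  push Not at hcon
  nlinarith

theorem placeOf_perm (x : X) : placeOf L (L.perm x) = placeOf L x := by
  apply Place.ext
  ext f
  show 0 ≤ ((L.σ (L.perm x)) f).order ↔ 0 ≤ ((L.σ x) f).order
  rw [L.σ_perm_order]

theorem mult_perm (x : X) : mult L (L.perm x) = mult L x := by
  obtain ⟨π, hπ0, hπ⟩ := exists_ord_eq_one (placeOf L x)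
  have h1 := order_eq L x π
  have h2 := order_eq L (L.perm x) π
  rw [L.σ_perm_order, placeOf_perm, h1, hπ] at h2
  have : (mult L x : ℤ) = mult L (L.perm x) := by linarith
  exact_mod_cast this.symm

end LocalDataPlaces

end Fermat.Agent.S24.H117

end
end
-- ===== PACK-END S24/H117/EmbPlace.lean

-- ===== PACK-BEGIN S24/Alg/LocPlace.lean
section


/-!
# S24 / ALG-LOC, part 2: the place cut out by an embedding into Laurent series
-/

set_option autoImplicit false

noncomputable section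

open AlgebraicCurve

namespace Fermat.Agent.S24.H144

variable {K F : Type*} [Field K] [Field F] [Algebra K F]
variable {C : Type*} [Field C]

/-- The valuation subring of `F` cut out by an embedding `σ : F → C((z))`. -/
def locValSubring (σ : F →+* LaurentSeries C) : ValuationSubring F where
  carrier := {f | 0 ≤ (σ f).order}
  mul_mem' := by
    intro a b ha hb
    simp only [Set.mem_setOf_eq] at ha hb ⊢
    rcases eq_or_ne a 0 with rfl | ha0
    · simp
    rcases eq_or_ne b 0 with rfl | hb0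
    · simp
    rw [loc_order_map_mul σ ha0 hb0]; omega
  one_mem' := by simp [loc_order_map_one]
  add_mem' := by
    intro a b ha hb
    simp only [Set.mem_setOf_eq] at ha hb ⊢
    rcases eq_or_ne (a + b) 0 with h | h
    · rw [h]; simp
    · have := loc_order_map_add_le σ h
      exact le_trans (le_min ha hb) this
  zero_mem' := by simp
  neg_mem' := by
    intro a ha
    simp only [Set.mem_setOf_eq] at ha ⊢
    rw [map_neg, HahnSeries.order_neg]; exact ha
  mem_or_inv_mem' := by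
    intro a
    simp only [Set.mem_setOf_eq]
    rw [loc_order_map_inv]
    omega

@[simp]
theorem mem_locValSubring (σ : F →+* LaurentSeries C) (f : F) :
    f ∈ locValSubring σ ↔ 0 ≤ (σ f).order := Iff.rfl

theorem locValSubring_isPrincipalIdealRing (σ : F →+* LaurentSeries C) :
    IsPrincipalIdealRing (locValSubring σ) := by
  classical
  refine ⟨fun I => ?_⟩
  by_cases hI : I = ⊥
  · rw [hI]; exact ⟨⟨0, by simp⟩⟩
  -- pick a nonzero element of minimal order
  have hne : ∃ n : ℕ, ∃ a ∈ I, a ≠ 0 ∧ (σ (a : F)).order.toNat = n := by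
    obtain ⟨a, ha, ha0⟩ := Submodule.exists_mem_ne_zero_of_ne_bot hI
    exact ⟨_, a, ha, ha0, rfl⟩
  obtain ⟨a, haI, ha0, han⟩ := Nat.find_spec hne
  have hmin : ∀ b ∈ I, b ≠ 0 → (σ (a : F)).order ≤ (σ (b : F)).order := by
    intro b hb hb0
    have h1 : Nat.find hne ≤ (σ (b : F)).order.toNat := Nat.find_min' hne ⟨b, hb, hb0, rfl⟩
    have h2 : 0 ≤ (σ (a : F)).order := a.2
    have h3 : 0 ≤ (σ (b : F)).order := b.2
    omega
  have haF : (a : F) ≠ 0 := by simpa using ha0
  refine ⟨⟨a, le_antisymm ?_ ?_⟩⟩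
  · intro b hb
    rw [Submodule.mem_span_singleton]
    rcases eq_or_ne b 0 with rfl | hb0
    · exact ⟨0, by simp⟩
    have hbF : (b : F) ≠ 0 := by simpa using hb0
    have hq : (b : F) * (a : F)⁻¹ ∈ locValSubring σ := by
      rw [mem_locValSubring, loc_order_map_mul σ hbF (inv_ne_zero haF), loc_order_map_inv]
      have := hmin b hb hb0
      omega
    refine ⟨⟨_, hq⟩, ?_⟩
    ext
    simp [haF]
  · rw [Submodule.span_le]
    intro b hb
    rw [Set.mem_singleton_iff] at hb
    rw [hb]; exact haI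

/-- The place of `F` cut out by an embedding `σ : F → C((z))` which is constant on `K`
and has some element of negative order. -/
def placeOfEmb (σ : F →+* LaurentSeries C)
    (hK : ∀ c : K, 0 ≤ (σ (algebraMap K F c)).order)
    (hneg : ∃ f : F, (σ f).order < 0) : Place K F where
  toValuationSubring := locValSubring σ
  algebraMap_mem' := hK
  ne_top' := by
    obtain ⟨f, hf⟩ := hneg
    intro h
    have : f ∈ locValSubring σ := by rw [h]; exact ValuationSubring.mem_top f
    rw [mem_locValSubring] at this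
    omega
  isPrincipalIdealRing' := locValSubring_isPrincipalIdealRing σ

theorem induces_placeOfEmb (σ : F →+* LaurentSeries C)
    (hK : ∀ c : K, 0 ≤ (σ (algebraMap K F c)).order)
    (hneg : ∃ f : F, (σ f).order < 0) : Induces σ (placeOfEmb σ hK hneg) :=
  fun _ => Iff.rfl

/-- Two places induced by the same embedding coincide. -/
theorem Induces.unique {σ : F →+* LaurentSeries C} {v w : Place K F}
    (hv : Induces σ v) (hw : Induces σ w) : v = w := by
  apply Place.ext
  ext f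
  rw [hv f, hw f]

/-- If two embeddings have the same order function, they induce the same places. -/
theorem Induces.of_order_eq {σ τ : F →+* LaurentSeries C} {v : Place K F}
    (hv : Induces σ v) (h : ∀ f, (τ f).order = (σ f).order) : Induces τ v :=
  fun f => by rw [hv f, h f]

end Fermat.Agent.S24.H144

end
end
-- ===== PACK-END S24/Alg/LocPlace.lean

-- ===== PACK-BEGIN S29/H751/PthRootUHP.lean
section


/-!
# Holomorphic `p`-th roots on `ℍ` and the character of a root (helper751, S29 / P5)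

* `exists_pow_eq_UHP`: a holomorphic `F : ℍ → ℂ` all of whose orders of vanishing are finite and
  divisible by `p` is a `p`-th power of a holomorphic function.
* `eq_of_pow_eq_UHP`: two holomorphic functions on `ℍ` with the same `p`-th power which agree
  at one point where they do not vanish are equal.
* `exists_character_of_pow_eq`: if `U ^ p` is weakly modular of weight `k * p` for a group `Γ`
  of matrices of positive determinant, then `U` is weakly modular of weight `k` with a character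
  `χ : Γ →* ℂˣ`, `χ ^ p = 1`.
-/

set_option autoImplicit false

open Complex Set Metric Filter Topology UpperHalfPlane
open scoped Manifold MatrixGroups

namespace Fermat.Agent.S29.H751

/-- `F ∘ ofComplex` agrees with `u` on the upper half plane when `F τ = u τ`. -/
theorem comp_ofComplex_eqOn (u : ℂ → ℂ) :
    EqOn ((fun τ : ℍ => u τ) ∘ ofComplex) u {z : ℂ | 0 < z.im} := by
  intro z hz
  simp only [Function.comp_apply, ofComplex_apply_of_im_pos hz]

/-- **Holomorphic `p`-th roots on `ℍ`.** -/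
theorem exists_pow_eq_UHP {F : ℍ → ℂ} (hF : MDifferentiable 𝓘(ℂ) 𝓘(ℂ) F) (p : ℕ) (hp : p ≠ 0)
    (hord : ∀ τ : ℍ, ∃ m : ℕ, analyticOrderAt (F ∘ ofComplex) (τ : ℂ) = ((p * m : ℕ) : ℕ∞)) :
    ∃ U : ℍ → ℂ, MDifferentiable 𝓘(ℂ) 𝓘(ℂ) U ∧ ∀ τ : ℍ, U τ ^ p = F τ := by
  obtain ⟨u, hu, hup⟩ := exists_pow_eq_on_upperHalfPlane (G := F ∘ ofComplex) p hp
    (UpperHalfPlane.mdifferentiable_iff.1 hF) (fun z hz => hord ⟨z, hz⟩)
  refine ⟨fun τ => u τ, ?_, fun τ => ?_⟩
  · rw [UpperHalfPlane.mdifferentiable_iff]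
    exact hu.congr (comp_ofComplex_eqOn u)
  · have := hup τ τ.im_pos
    rw [this, comp_ofComplex]

/-- Uniqueness of normalised holomorphic `p`-th roots on `ℍ`. -/
theorem eq_of_pow_eq_UHP {A B : ℍ → ℂ} (hA : MDifferentiable 𝓘(ℂ) 𝓘(ℂ) A)
    (hB : MDifferentiable 𝓘(ℂ) 𝓘(ℂ) B) {p : ℕ} (hp : p ≠ 0)
    (h : ∀ τ : ℍ, A τ ^ p = B τ ^ p) {τ₀ : ℍ} (h0 : A τ₀ = B τ₀) (hne : A τ₀ ≠ 0) : A = B := by
  have hHo : IsOpen {z : ℂ | 0 < z.im} := isOpen_lt continuous_const Complex.continuous_im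
  have hHc : IsPreconnected {z : ℂ | 0 < z.im} :=
    (convex_halfSpace_im_gt 0).isPreconnected
  have key := eqOn_of_pow_eq_of_eq hHo hHc (UpperHalfPlane.mdifferentiable_iff.1 hA)
    (UpperHalfPlane.mdifferentiable_iff.1 hB) hp
    (fun z hz => by
      simp only [Function.comp_apply]
      exact h _)
    (z₀ := (τ₀ : ℂ)) τ₀.im_pos
    (by simp only [Function.comp_apply, ofComplex_apply]; exact h0)
    (by simp only [Function.comp_apply, ofComplex_apply]; exact hne)
  funext τ
  have := key τ.im_pos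
  simpa only [Function.comp_apply, ofComplex_apply] using this

/-- **The character of a `p`-th root.**  Let `Γ` be a group of real matrices of positive
determinant and `U` a holomorphic function on `ℍ`, not identically zero, such that `U ^ p`
is weakly modular of weight `k * p` for `Γ`.  Then `U` is weakly modular of weight `k` up to
a character `χ` of `Γ` with `χ ^ p = 1`. -/
theorem exists_character_of_pow_eq (Γ : Subgroup (GL (Fin 2) ℝ))
    (hdet : ∀ γ ∈ Γ, 0 < (γ.det : ℝ)) (k : ℤ) {p : ℕ} (hp : p ≠ 0) {U : ℍ → ℂ}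
    (hU : MDifferentiable 𝓘(ℂ) 𝓘(ℂ) U) (hne : ∃ τ, U τ ≠ 0)
    (hpow : ∀ γ ∈ Γ, ∀ τ : ℍ, U (γ • τ) ^ p = (denom γ τ ^ k * U τ) ^ p) :
    ∃ χ : Γ →* ℂˣ, (∀ γ, χ γ ^ p = 1) ∧
      ∀ (γ : Γ) (τ : ℍ), U ((γ : GL (Fin 2) ℝ) • τ) = χ γ * denom γ τ ^ k * U τ := by
  classical
  obtain ⟨τ₁, hτ₁⟩ := hne
  -- for each `γ`, the constant
  have key : ∀ γ : Γ, ∃ ζ : ℂˣ, ζ ^ p = 1 ∧
      ∀ τ : ℍ, U ((γ : GL (Fin 2) ℝ) • τ) = ζ * denom γ τ ^ k * U τ := by
    intro γ
    have hB1 : denom (γ : GL (Fin 2) ℝ) τ₁ ^ k * U τ₁ ≠ 0 :=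
      mul_ne_zero (zpow_ne_zero _ (denom_ne_zero _ _)) hτ₁
    have hA1 : U ((γ : GL (Fin 2) ℝ) • τ₁) ≠ 0 := by
      intro h0
      have := hpow γ γ.2 τ₁
      rw [h0, zero_pow hp] at this
      exact pow_ne_zero p hB1 this.symm
    set z : ℂ := U ((γ : GL (Fin 2) ℝ) • τ₁) / (denom (γ : GL (Fin 2) ℝ) τ₁ ^ k * U τ₁) with hz
    have hz0 : z ≠ 0 := div_ne_zero hA1 hB1
    have hzp : z ^ p = 1 := by
      rw [hz, div_pow, hpow γ γ.2 τ₁, div_self (pow_ne_zero p hB1)]
    refine ⟨Units.mk0 z hz0, ?_, ?_⟩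
    · ext
      simp [hzp]
    · intro τ
      have hAd : MDifferentiable 𝓘(ℂ) 𝓘(ℂ) (fun τ : ℍ => U ((γ : GL (Fin 2) ℝ) • τ)) :=
        hU.comp (UpperHalfPlane.mdifferentiable_smul (hdet γ γ.2))
      have hBd : MDifferentiable 𝓘(ℂ) 𝓘(ℂ)
          (fun τ : ℍ => z * denom (γ : GL (Fin 2) ℝ) τ ^ k * U τ) := by
        have h1 : MDifferentiable 𝓘(ℂ) 𝓘(ℂ)
            (fun τ : ℍ => denom (γ : GL (Fin 2) ℝ) τ ^ k) := mdifferentiable_denom_zpow _ k
        have h2 : MDifferentiable 𝓘(ℂ) 𝓘(ℂ)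
            (fun τ : ℍ => z * denom (γ : GL (Fin 2) ℝ) τ ^ k) :=
          (mdifferentiable_const (c := z)).mul h1
        exact h2.mul hU
      have := eq_of_pow_eq_UHP hAd hBd hp (fun τ => by
        rw [hpow γ γ.2 τ, mul_assoc, mul_pow z, hzp, one_mul]) (τ₀ := τ₁)
        (by
          simp only [hz]
          field_simp) hA1
      simpa using congrFun this τ
  choose χ hχp hχ using key
  have hmul : ∀ γ δ : Γ, χ (γ * δ) = χ γ * χ δ := by
    intro γ δ
    have h1 := hχ (γ * δ) τ₁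
    have h2 := hχ γ ((δ : GL (Fin 2) ℝ) • τ₁)
    have h3 := hχ δ τ₁
    have hco : denom ((γ : GL (Fin 2) ℝ) * δ) τ₁ =
        denom (γ : GL (Fin 2) ℝ) (((δ : GL (Fin 2) ℝ) • τ₁ : ℍ) : ℂ) *
          denom (δ : GL (Fin 2) ℝ) τ₁ := by
      rw [denom_cocycle _ _ τ₁.im_ne_zero, coe_smul_of_det_pos (hdet δ δ.2)]
    have hsm : ((γ * δ : Γ) : GL (Fin 2) ℝ) • τ₁ =
        (γ : GL (Fin 2) ℝ) • ((δ : GL (Fin 2) ℝ) • τ₁) := by
      rw [Subgroup.coe_mul, mul_smul]
    rw [hsm, h2, h3, Subgroup.coe_mul, hco, mul_zpow] at h1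
    have hd1 := zpow_ne_zero k (denom_ne_zero (γ : GL (Fin 2) ℝ) ((δ : GL (Fin 2) ℝ) • τ₁))
    have hd2 := zpow_ne_zero k (denom_ne_zero (δ : GL (Fin 2) ℝ) τ₁)
    have h4 : ((χ (γ * δ) : ℂˣ) : ℂ) = (χ γ : ℂ) * (χ δ : ℂ) := by
      have h5 : (χ γ : ℂ) * (χ δ : ℂ) *
          (denom (γ : GL (Fin 2) ℝ) (((δ : GL (Fin 2) ℝ) • τ₁ : ℍ) : ℂ) ^ k *
            denom (δ : GL (Fin 2) ℝ) τ₁ ^ k * U τ₁) =
          (χ (γ * δ) : ℂ) *
          (denom (γ : GL (Fin 2) ℝ) (((δ : GL (Fin 2) ℝ) • τ₁ : ℍ) : ℂ) ^ k *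
            denom (δ : GL (Fin 2) ℝ) τ₁ ^ k * U τ₁) := by
        linear_combination h1
      exact (mul_right_cancel₀ (mul_ne_zero (mul_ne_zero hd1 hd2) hτ₁) h5).symm
    exact Units.ext (by simpa using h4)
  exact ⟨MonoidHom.mk' χ hmul, fun γ => hχp γ, fun γ τ => hχ γ τ⟩

end Fermat.Agent.S29.H751

end
-- ===== PACK-END S29/H751/PthRootUHP.lean

-- ===== PACK-BEGIN S29/Parts.lean
section
/-
S29 row — the REMAINING INPUTS of the final chain, as `Prop`s (row-lead helper269).
`Fermat/Agent/S29/Main.lean` proves  `S29_of_parts : FrobeniusDivisionStatement → RawESStatement →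
M4aStatement → M4bStatement → HCohStatement → (frozen S29 statement)`,  sorry-free.
A piece is DONE when it proves one of these `Prop`s verbatim.
-/


set_option autoImplicit false

noncomputable section

namespace Fermat.Agent.S29

open ModularCurve AlgebraicCurve

/-- EXTERNAL (rows S37/S18): RAW Eichler–Shimura on the `p`-torsion of the Prelude `JZero N`:
inertia at `ℓ ∤ N p` acts trivially and every Frobenius at `ℓ` satisfies `σ² - T_ℓ σ + ℓ = 0`,
`T_ℓ = heckeOperatorBar N ℓ`.  (Implied by `M.ESStatement` of helper30, by `M.RedStatement`, and by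
the frozen S37 together with `HeckeOperatorsCommuteBar`.) -/
def RawESStatement : Prop :=
  ∀ (N p : ℕ) [NeZero N], p.Prime → ∀ (ℓ : ℕ) (hℓ : ℓ.Prime), ¬ ℓ ∣ N * p →
    ∀ A : VQ, A.LiesOverPrime ℓ →
      (∀ σ ∈ A.inertiaSubgroupIn ℚ, ∀ x : JZero N, (p : ℤ) • x = 0 → σ • x = x) ∧
      (∀ σ : GQ, A.IsFrobeniusAt σ ℓ → ∀ x : JZero N, (p : ℤ) • x = 0 →
        σ • σ • x - heckeOperatorBar N ⟨ℓ, hℓ⟩ (σ • x) + (ℓ : ℤ) • x = 0)

/-- PIECE `M4a` (eigensystem occurs in `Hom_par(Γ₀(N), 𝔽_p) ⊗ F`, in coordinates). -/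
def M4aStatement : Prop :=
  ∀ (N : ℕ) [NeZero N] (g : CuspForm (CongruenceSubgroup.Gamma0 N) 2),
    g.IsNormalizedEigenform → ∀ (p : ℕ) [Fact p.Prime] (F : Type) [Field F] [IsAlgClosed F]
    [CharP F p] [Algebra (ZMod p) F] (ψ : integralClosure ℤ ℂ →+* F)
    (a : ℕ → integralClosure ℤ ℂ),
    (∀ ℓ : ℕ, ℓ.Prime → ¬ ℓ ∣ N →
      ((a ℓ : integralClosure ℤ ℂ) : ℂ) = ModularFormClass.qCoeff g ℓ) →
    ∃ (n : ℕ) (w : Fin n → F) (c : Fin n → G0 N → ZMod p),
      LinearIndependent (ZMod p) w ∧ (∀ j, IsParHom (c j)) ∧ (∃ j, c j ≠ 0) ∧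
      ∀ ℓ : ℕ, ℓ.Prime → ¬ ℓ ∣ N * p → ∀ γ : G0 N,
        ∑ j, w j * algebraMap (ZMod p) F (heckeCoh N ℓ (c j) γ)
          = ψ (a ℓ) * ∑ j, w j * algebraMap (ZMod p) F (c j γ)

/-- PIECE `M4b` (the Kummer map / bridge). -/
def M4bStatement : Prop :=
  ∀ (N : ℕ) [NeZero N] (p : ℕ) [Fact p.Prime],
    ∃ κ : (G0 N → ZMod p) → Jp N p,
      (∀ c c', IsParHom c → IsParHom c' → κ (c + c') = κ c + κ c') ∧
      (∀ c, IsParHom c → κ c = 0 → c = 0) ∧
      (∀ ℓ : Nat.Primes, ¬ (ℓ : ℕ) ∣ N * p → ∀ c, IsParHom c →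
        κ (heckeCoh N ℓ c) = heckeJp N p ℓ (κ c))

/-- PIECE `HCoh` (the cohomological Hecke operator preserves parabolic characters), for the
coefficient groups `ℤ/p`. -/
def HCohStatement : Prop :=
  ∀ (N : ℕ) [NeZero N] (p : ℕ) (ℓ : ℕ), ℓ.Prime → ¬ ℓ ∣ N →
    ∀ c : G0 N → ZMod p, IsParHom c → IsParHom (heckeCoh N ℓ c)

end Fermat.Agent.S29

end
end
-- ===== PACK-END S29/Parts.lean

-- ===== PACK-BEGIN S30/H330/AdicDefs.lean
section
/-
S30 (p-adic Galois representation attached to a Hecke eigensystem) -- ADIC MODULE LAYER.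
Interface definitions (sorry-free).  helper330.  Namespace `Fermat.Agent.S30.H330`.

The layer turns
  * the frozen statement S37 (through "torsion relations" on `J₀(N)(ℚ̄)[p^∞]`),
  * a Kummer map on `ℚ/ℤ`-valued parabolic characters (p-adic form of S29 piece M4b),
  * an eigen parabolic character with values in `𝒪'` (characteristic-0 form of S29 piece M4a)
into a nonzero finite free `𝒪'`-module with adically continuous `G_ℚ`-action, unramified outside
`N p`, on which every Frobenius at `ℓ ∉ S` satisfies `σ² - χ(T_ℓ) σ + ℓ = 0` (`HasAdicFrobModule`).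
The top glue of S30 (helper990) consumes `HasAdicFrobModule`.
-/



set_option autoImplicit false

noncomputable section

namespace Fermat.Agent.S30.H330

open Fermat.Agent.S29 ModularCurve

/-- `ℚ/ℤ`, the value group of finite-order characters. -/
abbrev QZ : Type := AddCircle (1 : ℚ)

/-- OUTPUT of the adic module layer: a nonzero finite free `O`-module with an adically continuous
action of `G_ℚ`, unramified at all primes `ℓ ∤ S`, on which all Frobenii at the primes `ℓ` with
`good ℓ` satisfy `σ² - a ℓ • σ + ℓ = 0`. -/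
def HasAdicFrobModule (O : Type) [CommRing O] [IsLocalRing O] (S : ℕ) (good : ℕ → Prop)
    (a : ℕ → O) : Prop :=
  ∃ (M : Type) (_ : AddCommGroup M) (_ : Module O M) (_ : Module.Free O M) (_ : Module.Finite O M)
    (ρ : GQ →* Module.End O M),
    Nontrivial M ∧ GaloisActionIsAdicContinuous O ρ ∧
    (∀ ℓ : ℕ, ℓ.Prime → ¬ ℓ ∣ S → ∀ A : VQ, A.LiesOverPrime ℓ →
      ∀ σ ∈ A.inertiaSubgroupIn ℚ, ρ σ = 1) ∧
    (∀ ℓ : ℕ, ℓ.Prime → good ℓ → ∀ A : VQ, A.LiesOverPrime ℓ →
      ∀ σ : GQ, A.IsFrobeniusAt σ ℓ →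
        ρ σ * ρ σ - a ℓ • ρ σ + (ℓ : O) • (1 : Module.End O M) = 0)

/-- INPUT (K): the Kummer map on `ℚ/ℤ`-valued parabolic characters of `Γ₀(N)`:
additive, injective, onto the torsion of `J₀(N)(ℚ̄)`, Hecke-equivariant.
(`κ c = ` class of `div(h)`, `h` any nonzero meromorphic function on `ℍ ∪ cusps` with
`h(γ z) = exp(2πi c(γ)) h(z)`; S29 piece M4b is the restriction to `(1/p)ℤ/ℤ`.) -/
def KummerStatement (N : ℕ) [NeZero N] (p : ℕ) : Prop :=
  ∃ κ : (G0 N → QZ) → JZero N,
    (∀ c c', IsParHom c → IsParHom c' → κ (c + c') = κ c + κ c') ∧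
    (∀ c, IsParHom c → κ c = 0 → c = 0) ∧
    (∀ x : JZero N, (∃ n : ℕ, (p ^ n) • x = 0) → ∃ c, IsParHom c ∧ κ c = x) ∧
    (∀ ℓ : Nat.Primes, ¬ (ℓ : ℕ) ∣ N * p → ∀ c, IsParHom c →
      κ (heckeCoh N ℓ c) = heckeOperatorBar N ℓ (κ c))

/-- INPUT (P): the eigensystem `χ` occurs in the parabolic cohomology with coefficients in `O`. -/
def ParEigenStatement (N : ℕ) [NeZero N] (S : Finset ℕ) (O : Type) [CommRing O]
    (χ : CuspForm.heckeAlgebra N 2 (↑S : Set ℕ) →+* O) : Prop :=
  ∃ c : G0 N → O, IsParHom c ∧ c ≠ 0 ∧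
    ∀ (ℓ : ℕ) (hℓ : ℓ.Prime) (hℓN : ¬ ℓ ∣ N) (hℓS : ℓ ∉ (↑S : Set ℕ)) (γ : G0 N),
      heckeCoh N ℓ c γ = χ (CuspForm.heckeAlgebra.T hℓ hℓN hℓS) * c γ

/-- INPUT (T): the consequences of S37 on the `p`-power torsion of `J₀(N)(ℚ̄)`
(inertia acts trivially, Eichler–Shimura relation), for all primes `ℓ ∤ N p`. -/
def TorsionRelations (N : ℕ) [NeZero N] (p : ℕ) : Prop :=
  ∀ (ℓ : ℕ) (hℓ : ℓ.Prime), ¬ ℓ ∣ N * p → ∀ A : VQ, A.LiesOverPrime ℓ →
    (∀ σ ∈ A.inertiaSubgroupIn ℚ, ∀ x : JZero N, (∃ n : ℕ, (p ^ n) • x = 0) → σ • x = x) ∧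
    (∀ σ : GQ, A.IsFrobeniusAt σ ℓ → ∀ x : JZero N, (∃ n : ℕ, (p ^ n) • x = 0) →
      σ • σ • x - heckeOperatorBar N ⟨ℓ, hℓ⟩ (σ • x) + ℓ • x = 0)

/-- INPUT (Sm) = S29 piece M3. -/
def SmoothStatement (N : ℕ) [NeZero N] : Prop :=
  ∀ x : JZero N, ∃ L : IntermediateField ℚ (AlgebraicClosure ℚ), FiniteDimensional ℚ L ∧
    ∀ σ : GQ, (∀ y ∈ L, σ y = y) → σ • x = x

/-- INPUT (GH) = S29 piece M2. -/
def GaloisHeckeStatement (N : ℕ) [NeZero N] : Prop :=
  ∀ (σ : GQ) (ℓ : Nat.Primes) (x : JZero N),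
    σ • heckeOperatorBar N ℓ x = heckeOperatorBar N ℓ (σ • x)

/-- The eigenvalue function attached to `χ`. -/
def eigenvalue {N : ℕ} [NeZero N] {S : Finset ℕ} {O : Type} [CommRing O]
    (χ : CuspForm.heckeAlgebra N 2 (↑S : Set ℕ) →+* O) (ℓ : ℕ) : O :=
  open Classical in
  if h : ℓ.Prime ∧ ¬ ℓ ∣ N ∧ ℓ ∉ (↑S : Set ℕ) then χ (CuspForm.heckeAlgebra.T h.1 h.2.1 h.2.2) else 0

end Fermat.Agent.S30.H330

end
end
-- ===== PACK-END S30/H330/AdicDefs.lean

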