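import Mathlib
import Fermat.Prelude.Def_AlgebraicCurve_Repartitions
import Fermat.Prelude.Def_ModularCurve_X0ModL
import Fermat.Agent.Pack.S36.E7L2
import Fermat.Agent.Pack.S36.E7L1
import Fermat.Agent.Pack.S36.E0L1
import Fermat.Agent.Pack.S36.E4L1
import Fermat.Agent.Pack.S36.E7L0
import Fermat.Agent.Pack.S36.E7L3
import Fermat.Agent.Pack.S36.E6L3
import Fermat.Agent.Pack.S36.E6L0
import Fermat.Agent.Pack.S36.E3L2
import Fermat.Agent.Pack.S36.E6L1
import Fermat.Agent.Pack.S36.E4L0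
import Fermat.Agent.Pack.S36.E0L3

-- ===== PACK-BEGIN S30/H990/TwoDim.lean
section
/-
S30 top glue (helper990): pure algebra, part 5: the two-dimensional representation.
-/


set_option autoImplicit false

namespace Fermat.Agent.S30.H990

open Module Polynomial

/-- Output of the extraction: a rank two representation with prescribed characteristic
polynomials, as congruent to `1` as the input data. -/
structure TwoDimOut {𝒪 M G : Type} [CommRing 𝒪] [AddCommGroup M] [Module 𝒪 M] [Group G]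
    (ρ : G →* Module.End 𝒪 M) (d : G →* 𝒪ˣ) : Type 1 where
  V : Type
  [instAddCommGroup : AddCommGroup V]
  [instModule : Module 𝒪 V]
  [instFree : Module.Free 𝒪 V]
  [instFinite : Module.Finite 𝒪 V]
  finrank_eq : Module.finrank 𝒪 V = 2
  ρ₂ : G →* Module.End 𝒪 V
  charpoly_eq : ∀ (g : G) (a : 𝒪), Rel ρ d g a →
    LinearMap.charpoly (ρ₂ g) = X ^ 2 - C a * X + C ((d g : 𝒪ˣ) : 𝒪)
  cong : ∀ (I : Ideal 𝒪) (g : G), (∀ v : M, ρ g v - v ∈ I • (⊤ : Submodule 𝒪 M)) →
    ((d g : 𝒪ˣ) : 𝒪) - 1 ∈ I → ∀ v : V, ρ₂ g v - v ∈ I • (⊤ : Submodule 𝒪 V)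

attribute [instance] TwoDimOut.instAddCommGroup TwoDimOut.instModule TwoDimOut.instFree
  TwoDimOut.instFinite

section Constructions

variable {𝒪 M G : Type} [CommRing 𝒪] [IsDomain 𝒪] [IsPrincipalIdealRing 𝒪]
  [AddCommGroup M] [Module 𝒪 M] [Module.Free 𝒪 M] [Module.Finite 𝒪 M] [Group G]
  (ρ : G →* Module.End 𝒪 M) (d : G →* 𝒪ˣ)

/-- Stability of the saturation of a span, checked on generators. -/
theorem sat_span_stable (s : Set M)
    (h : ∀ g, ∀ x ∈ s, ∃ r : 𝒪, r ≠ 0 ∧ r • ρ g x ∈ Submodule.span 𝒪 s) :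
    ∀ g, ∀ x ∈ sat (Submodule.span 𝒪 s), ρ g x ∈ sat (Submodule.span 𝒪 s) := by
  intro g x hx
  refine map_mem_sat (ρ g) (fun y hy => ?_) hx
  refine map_span_le_sat (ρ g) (fun z hz => ?_) hy
  obtain ⟨r, hr, hrz⟩ := h g z hz
  exact ⟨r, hr, hrz⟩

/-- The rank two case. -/
theorem twoDim_of_rank_two (hrel : ∀ g, ∃ a, Rel ρ d g a) (h2 : (2 : 𝒪) ≠ 0)
    (c : G) (hdc : d c = -1)
    (u w : M) (ε : 𝒪) (hε : ε * ε = 1) (hu0 : u ≠ 0) (hw0 : w ≠ 0)
    (hu : ρ c u = ε • u) (hw : ρ c w = -ε • w)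
    (hsu : ∀ g, ∃ r : 𝒪, r ≠ 0 ∧ r • ρ g u ∈ Submodule.span 𝒪 {u, w})
    (hsw : ∀ g, ∃ r : 𝒪, r ≠ 0 ∧ r • ρ g w ∈ Submodule.span 𝒪 {u, w}) :
    Nonempty (TwoDimOut ρ d) := by
  classical
  have hε0 : ε ≠ 0 := by rintro rfl; simp at hε
  -- linear independence
  have hli : LinearIndependent 𝒪 ![u, w] := by
    rw [LinearIndependent.pair_iff]
    intro s t hst
    have h1 := congrArg (ρ c) hst
    rw [map_add, map_smul, map_smul, hu, hw, map_zero] at h1
    have h3 : (2 * ε * s) • u = 0 := by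
      have : (2 * ε * s) • u = ε • (s • u + t • w) + (s • ε • u + t • (-ε • w)) := by
        module
      rw [this, hst, h1, smul_zero, add_zero]
    have hs : s = 0 := by
      rcases smul_eq_zero.mp h3 with h | h
      · rcases mul_eq_zero.mp h with h | h
        · exact absurd h (mul_ne_zero h2 hε0)
        · exact h
      · exact absurd h hu0
    refine ⟨hs, ?_⟩
    rw [hs, zero_smul, zero_add] at hst
    exact (smul_eq_zero.mp hst).resolve_right hw0
  have hrange : Set.range ![u, w] = ({u, w} : Set M) := by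
    ext x
    simp only [Set.mem_range, Set.mem_insert_iff, Set.mem_singleton_iff]
    constructor
    · rintro ⟨i, rfl⟩
      fin_cases i <;> simp
    · rintro (rfl | rfl)
      · exact ⟨0, rfl⟩
      · exact ⟨1, rfl⟩
  set Λ : Submodule 𝒪 M := sat (Submodule.span 𝒪 ({u, w} : Set M)) with hΛ
  have hfr : Module.finrank 𝒪 Λ = 2 := by
    have := finrank_sat_span ![u, w] hli
    rwa [hrange] at this
  have hstab : ∀ g, ∀ x ∈ Λ, ρ g x ∈ Λ := by
    apply sat_span_stable
    intro g x hx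
    rcases hx with rfl | hx
    · exact hsu g
    · rw [Set.mem_singleton_iff] at hx
      subst hx
      exact hsw g
  have huΛ : u ∈ Λ := le_sat _ (Submodule.subset_span (by simp))
  have hwΛ : w ∈ Λ := le_sat _ (Submodule.subset_span (by simp))
  set ρΛ := restrictRep ρ Λ hstab with hρΛ
  let b : Basis (Fin 2) 𝒪 Λ := Module.finBasisOfFinrankEq 𝒪 Λ hfr
  let A : G →* Matrix (Fin 2) (Fin 2) 𝒪 :=
    ((LinearMap.toMatrixAlgEquiv b : Module.End 𝒪 Λ ≃ₐ[𝒪] Matrix (Fin 2) (Fin 2) 𝒪) :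
      Module.End 𝒪 Λ →* Matrix (Fin 2) (Fin 2) 𝒪).comp ρΛ
  have hA : ∀ g, A g = LinearMap.toMatrixAlgEquiv b (ρΛ g) := fun g => rfl
  have hArel : ∀ g a, Rel ρ d g a →
      A g * A g - a • A g + ((d g : 𝒪ˣ) : 𝒪) • (1 : Matrix (Fin 2) (Fin 2) 𝒪) = 0 := by
    intro g a hr
    have := rel_restrictRep ρ d Λ hstab hr
    unfold Rel at this
    have h' := congrArg (LinearMap.toMatrixAlgEquiv b) this
    simpa only [map_add, map_sub, map_mul, map_smul, map_one, map_zero, hA] using h'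
  have hcns : ¬ ∃ l : 𝒪, A c = l • (1 : Matrix (Fin 2) (Fin 2) 𝒪) := by
    rintro ⟨l, hl⟩
    have h1 : ρΛ c = l • (1 : Module.End 𝒪 Λ) := by
      apply (LinearMap.toMatrixAlgEquiv b).injective
      rw [← hA, hl, map_smul, map_one]
    have e1 : ρ c u = l • u := by
      have := congrArg (fun f : Module.End 𝒪 Λ => ((f ⟨u, huΛ⟩ : Λ) : M)) h1
      exact this
    have e2 : ρ c w = l • w := by
      have := congrArg (fun f : Module.End 𝒪 Λ => ((f ⟨w, hwΛ⟩ : Λ) : M)) h1
      exact this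
    have f1 : l = ε := by
      have : (l - ε) • u = 0 := by rw [sub_smul, ← e1, ← hu, sub_self]
      exact sub_eq_zero.mp ((smul_eq_zero.mp this).resolve_right hu0)
    have f2 : l = -ε := by
      have : (l - -ε) • w = 0 := by rw [sub_smul, ← e2, ← hw, sub_self]
      exact sub_eq_zero.mp ((smul_eq_zero.mp this).resolve_right hw0)
    have : 2 * ε = 0 := by
      have := f1.symm.trans f2
      linear_combination this
    exact mul_ne_zero h2 hε0 this
  refine ⟨{ V := Λ
            finrank_eq := hfr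
            ρ₂ := ρΛ
            charpoly_eq := ?_
            cong := ?_ }⟩
  · intro g a hr
    obtain ⟨ht, hd⟩ := mat2_trace_det_of_rel A d (fun g => by
      obtain ⟨a, ha⟩ := hrel g
      exact ⟨a, hArel g a ha⟩) c hdc hcns g a (hArel g a hr)
    rw [← LinearMap.charpoly_toMatrix (ρΛ g) b]
    have : LinearMap.toMatrix b b (ρΛ g) = A g := rfl
    rw [this, Matrix.charpoly_fin_two, ht, hd]
  · intro I g hg _ v
    have hmem : ((ρΛ g v - v : Λ) : M) ∈ I • (⊤ : Submodule 𝒪 M) := hg (v : M)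
    exact mem_smul_top_sat _ I _ hmem

end Constructions

end Fermat.Agent.S30.H990

end
-- ===== PACK-END S30/H990/TwoDim.lean

-- ===== PACK-BEGIN S30/H649/TateAdapter.lean
section
/-
S30 (p-adic Eichler–Shimura), helper649: PIECE `Tate` of the S30 skeleton (squad-lead helper49).

`exists_adicFrobModule_of_lattice` has EXACTLY the type of the skeleton statement
`Fermat.Agent.S30.exists_adicFrobModule_of_tate` (with `GQ` unfolded).  It is the landed abstract
Tate eigenmodule `Fermat.Agent.S30.H529.exists_adic_galois_eigenmodule` fed with the compatible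
eigen-sequence `n ↦ (κ (n+1)).baseChange 𝒪 v`; the only new mathematics is that this sequence is
nonzero: `𝒪` is flat over `ℤ`, so `(κ n).baseChange 𝒪 v = 0` forces `v ∈ pⁿ (𝒪 ⊗ Λ)`, and
`⋂ₙ 𝔪ⁿ (𝒪 ⊗ Λ) = 0` (Krull).
-/


set_option autoImplicit false

namespace Fermat.Agent.S30.H649

open TensorProduct IsLocalRing

section Nonvanishing

variable {𝒪 : Type*} [CommRing 𝒪] [IsDomain 𝒪] [IsDiscreteValuationRing 𝒪] [CharZero 𝒪]
variable {J : Type*} [AddCommGroup J] {Λ : Type*} [AddCommGroup Λ]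

omit [IsDomain 𝒪] [IsDiscreteValuationRing 𝒪] [CharZero 𝒪] in
/-- An integer acts on `𝒪 ⊗[ℤ] X` as its image in `𝒪`. -/
theorem intCast_smul_tensor {X : Type*} [AddCommGroup X] (m : ℤ) (w : 𝒪 ⊗[ℤ] X) :
    (m : 𝒪) • w = m • w :=
  Int.cast_smul_eq_zsmul 𝒪 m w

omit [IsDiscreteValuationRing 𝒪] in
/-- If the kernel of `κ` is `m Λ`, the kernel of `1 ⊗ κ` on `𝒪 ⊗ Λ` is `m (𝒪 ⊗ Λ)`
(flatness of `𝒪` over `ℤ`). -/
theorem exists_eq_smul_of_baseChange_eq_zero (m : ℤ) (κ : Λ →ₗ[ℤ] J)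
    (hκ : ∀ x : Λ, κ x = 0 ↔ ∃ y : Λ, x = m • y) (v : 𝒪 ⊗[ℤ] Λ)
    (hv : κ.baseChange 𝒪 v = 0) : ∃ z : 𝒪 ⊗[ℤ] Λ, v = (m : 𝒪) • z := by
  have hex : Function.Exact (m • (LinearMap.id : Λ →ₗ[ℤ] Λ)) κ := by
    intro x
    rw [hκ x]
    constructor
    · rintro ⟨y, rfl⟩
      exact ⟨y, rfl⟩
    · rintro ⟨y, rfl⟩
      exact ⟨y, rfl⟩
  have hex2 := Module.Flat.lTensor_exact 𝒪 hex
  have h1 : κ.lTensor 𝒪 v = 0 := hv
  obtain ⟨z, hz⟩ := (hex2 v).mp h1
  refine ⟨z, ?_⟩
  rw [← hz, LinearMap.lTensor_smul, LinearMap.lTensor_id, LinearMap.smul_apply,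
    LinearMap.id_apply, intCast_smul_tensor]

/-- **Nonvanishing of the Kummer sequence.**  If `ker (κ n) = pⁿ Λ` for all `n` and `p ∈ 𝔪`, a
nonzero `v ∈ 𝒪 ⊗ Λ` has a nonzero image under some `1 ⊗ κ n`. -/
theorem exists_baseChange_ne_zero [Module.Finite ℤ Λ] {p : ℕ}
    (hp𝒪 : (p : 𝒪) ∈ maximalIdeal 𝒪) (κ : ℕ → Λ →ₗ[ℤ] J)
    (hκ0 : ∀ (n : ℕ) (x : Λ), κ n x = 0 ↔ ∃ y : Λ, x = ((p : ℤ) ^ n) • y)
    (v : 𝒪 ⊗[ℤ] Λ) (hv : v ≠ 0) : ∃ n : ℕ, (κ n).baseChange 𝒪 v ≠ 0 := by
  by_contra hcon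
  push Not at hcon
  apply hv
  have hmem : ∀ n : ℕ, v ∈ (maximalIdeal 𝒪 ^ n • ⊤ : Submodule 𝒪 (𝒪 ⊗[ℤ] Λ)) := by
    intro n
    obtain ⟨z, hz⟩ := exists_eq_smul_of_baseChange_eq_zero (𝒪 := 𝒪) ((p : ℤ) ^ n) (κ n)
      (hκ0 n) v (hcon n)
    rw [hz]
    refine Submodule.smul_mem_smul ?_ Submodule.mem_top
    have : (((p : ℤ) ^ n : ℤ) : 𝒪) = (p : 𝒪) ^ n := by push_cast; rfl
    rw [this]
    exact Ideal.pow_mem_pow hp𝒪 n
  have hbot : (⨅ i : ℕ, (maximalIdeal 𝒪 ^ i • ⊤ : Submodule 𝒪 (𝒪 ⊗[ℤ] Λ))) = ⊥ :=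
    Ideal.iInf_pow_smul_eq_bot_of_isLocalRing (maximalIdeal 𝒪)
      (Ideal.IsMaximal.ne_top inferInstance)
  have h2 : v ∈ (⨅ i : ℕ, (maximalIdeal 𝒪 ^ i • ⊤ : Submodule 𝒪 (𝒪 ⊗[ℤ] Λ))) :=
    (Submodule.mem_iInf _).mpr hmem
  rw [hbot] at h2
  exact (Submodule.mem_bot 𝒪).mp h2

end Nonvanishing

section Main

/-- **PIECE `Tate`** (type of `Fermat.Agent.S30.exists_adicFrobModule_of_tate`, `GQ` unfolded). -/
theorem exists_adicFrobModule_of_lattice
    {𝒪 : Type} [CommRing 𝒪] [IsDomain 𝒪] [IsDiscreteValuationRing 𝒪]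
    [IsAdicComplete (IsLocalRing.maximalIdeal 𝒪) 𝒪] [Finite (IsLocalRing.ResidueField 𝒪)]
    [CharZero 𝒪] {p : ℕ} (hp : p.Prime) (hp𝒪 : (p : 𝒪) ∈ IsLocalRing.maximalIdeal 𝒪)
    {J : Type} [AddCommGroup J]
    [DistribMulAction (AlgebraicClosure ℚ ≃ₐ[ℚ] AlgebraicClosure ℚ) J]
    {ι : Type} (T : ι → J →ₗ[ℤ] J)
    (hTG : ∀ (i : ι) (σ : AlgebraicClosure ℚ ≃ₐ[ℚ] AlgebraicClosure ℚ) (x : J),
      T i (σ • x) = σ • T i x)
    (hfin : Finite {x : J // (p : ℤ) • x = 0})
    (hsmooth : ∀ x : J, (∃ n : ℕ, ((p : ℤ) ^ n) • x = 0) →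
      ∃ L : IntermediateField ℚ (AlgebraicClosure ℚ), FiniteDimensional ℚ L ∧
        ∀ σ : AlgebraicClosure ℚ ≃ₐ[ℚ] AlgebraicClosure ℚ, (∀ y ∈ L, σ y = y) → σ • x = x)
    {Λ : Type} [AddCommGroup Λ] [Module.Free ℤ Λ] [Module.Finite ℤ Λ]
    (TΛ : ι → Λ →ₗ[ℤ] Λ) (κ : ℕ → Λ →ₗ[ℤ] J)
    (hκ0 : ∀ (n : ℕ) (x : Λ), κ n x = 0 ↔ ∃ y : Λ, x = ((p : ℤ) ^ n) • y)
    (hκs : ∀ (n : ℕ) (x : Λ), (p : ℤ) • κ (n + 1) x = κ n x)
    (hκT : ∀ (i : ι) (n : ℕ) (x : Λ), κ n (TΛ i x) = T i (κ n x))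
    (a : ι → 𝒪) (v : 𝒪 ⊗[ℤ] Λ) (hv : v ≠ 0)
    (hva : ∀ i : ι, (TΛ i).baseChange 𝒪 v = a i • v) :
    ∃ (M : Type) (_ : AddCommGroup M) (_ : Module 𝒪 M) (_ : Module.Free 𝒪 M)
      (_ : Module.Finite 𝒪 M)
      (ρ : (AlgebraicClosure ℚ ≃ₐ[ℚ] AlgebraicClosure ℚ) →* Module.End 𝒪 M),
      Nontrivial M ∧ GaloisActionIsAdicContinuous 𝒪 ρ ∧
      (∀ σ : AlgebraicClosure ℚ ≃ₐ[ℚ] AlgebraicClosure ℚ,
        (∀ x : J, (∃ n : ℕ, ((p : ℤ) ^ n) • x = 0) → σ • x = x) → ρ σ = 1) ∧
      (∀ (σ : AlgebraicClosure ℚ ≃ₐ[ℚ] AlgebraicClosure ℚ) (i : ι) (c : ℤ),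
        (∀ x : J, (∃ n : ℕ, ((p : ℤ) ^ n) • x = 0) →
          σ • σ • x - T i (σ • x) + c • x = 0) →
        ρ σ * ρ σ - a i • ρ σ + (c : 𝒪) • (1 : Module.End 𝒪 M) = 0) := by
  classical
  -- conversions between `ℤ`- and `ℕ`-torsion
  have hpow : ∀ (n : ℕ) (x : J), ((p : ℤ) ^ n) • x = p ^ n • x := by
    intro n x
    rw [← Nat.cast_pow, natCast_zsmul]
  have htors : ∀ x : J, (∃ n : ℕ, p ^ n • x = 0) ↔ (∃ n : ℕ, ((p : ℤ) ^ n) • x = 0) := by
    intro x
    constructor
    · rintro ⟨n, hn⟩; exact ⟨n, by rw [hpow]; exact hn⟩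
    · rintro ⟨n, hn⟩; exact ⟨n, by rw [← hpow]; exact hn⟩
  -- the operators as additive maps
  let T' : ι → J →+ J := fun i => (T i).toAddMonoidHom
  have hT' : ∀ i, (T' i).toIntLinearMap = T i := fun i => LinearMap.ext fun _ => rfl
  have hfin' : {x : J | p • x = 0}.Finite := by
    have h1 : {x : J | (p : ℤ) • x = 0}.Finite := Set.finite_coe_iff.mp hfin
    refine h1.subset fun x hx => ?_
    show (p : ℤ) • x = 0
    rw [natCast_zsmul]
    exact hx
  -- the Kummer sequence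
  have hκzero : ∀ w : 𝒪 ⊗[ℤ] Λ, (κ 0).baseChange 𝒪 w = 0 := by
    have h0 : κ 0 = 0 := by
      apply LinearMap.ext
      intro x
      rw [LinearMap.zero_apply, hκ0 0 x]
      exact ⟨x, by rw [pow_zero, one_smul]⟩
    intro w
    rw [h0, LinearMap.baseChange_zero, LinearMap.zero_apply]
  have hκsucc : ∀ (n : ℕ) (w : 𝒪 ⊗[ℤ] Λ),
      (p : 𝒪) • (κ (n + 1)).baseChange 𝒪 w = (κ n).baseChange 𝒪 w := by
    intro n w
    have h1 : (p : ℤ) • κ (n + 1) = κ n := LinearMap.ext fun x => hκs n x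
    have h2 : ((p : ℤ) : 𝒪) • (κ (n + 1)).baseChange 𝒪 w
        = (p : ℤ) • (κ (n + 1)).baseChange 𝒪 w := intCast_smul_tensor _ _
    rw [Int.cast_natCast] at h2
    rw [h2, ← LinearMap.smul_apply, ← LinearMap.baseChange_smul, h1]
  obtain ⟨n₀, hn₀⟩ := exists_baseChange_ne_zero (𝒪 := 𝒪) hp𝒪 κ hκ0 v hv
  obtain ⟨m₀, rfl⟩ : ∃ m₀, n₀ = m₀ + 1 := by
    cases n₀ with
    | zero => exact absurd (hκzero v) hn₀
    | succ m => exact ⟨m, rfl⟩
  let seq : ℕ → 𝒪 ⊗[ℤ] J := fun n => (κ (n + 1)).baseChange 𝒪 v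
  have hseq0 : (p : 𝒪) • seq 0 = 0 := by
    show (p : 𝒪) • (κ (0 + 1)).baseChange 𝒪 v = 0
    rw [hκsucc 0 v, hκzero v]
  have hseqs : ∀ n, (p : 𝒪) • seq (n + 1) = seq n := fun n => hκsucc (n + 1) v
  have hseqne : seq ≠ 0 := fun h => hn₀ (congrFun h m₀)
  have hseqeig : ∀ i n, H529.tensorOp 𝒪 T' i (seq n) = a i • seq n := by
    intro i n
    show ((T' i).toIntLinearMap.baseChange 𝒪) ((κ (n + 1)).baseChange 𝒪 v)
      = a i • (κ (n + 1)).baseChange 𝒪 v
    have h1 : T i ∘ₗ κ (n + 1) = κ (n + 1) ∘ₗ TΛ i :=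
      LinearMap.ext fun x => (hκT i (n + 1) x).symm
    rw [hT' i, ← LinearMap.comp_apply, ← LinearMap.baseChange_comp, h1,
      LinearMap.baseChange_comp, LinearMap.comp_apply, hva i, map_smul]
  obtain ⟨M, i1, i2, i3, i4, ρ, hnt, hcont, hunr, hquad⟩ :=
    H529.exists_adic_galois_eigenmodule p 𝒪 J T' a hp𝒪 hp.ne_zero
      (fun i γ x => hTG i γ x) hfin'
      (fun x hx => hsmooth x ((htors x).mp hx)) seq hseq0 hseqs hseqne hseqeig
  refine ⟨M, i1, i2, i3, i4, ρ, hnt, hcont, ?_, ?_⟩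
  · intro σ hσ
    exact hunr σ fun x hx => hσ x ((htors x).mp hx)
  · intro σ i c hσ
    exact hquad σ i c fun x hx => hσ x ((htors x).mp hx)

end Main

end Fermat.Agent.S30.H649

end
-- ===== PACK-END S30/H649/TateAdapter.lean

-- ===== PACK-BEGIN S24/Deg/H648D5.lean
section


/-!
# S24 / M6-AN (helper648): the polynomiality principle (D5) in `ExpGrowth` form

A holomorphic `SL₂(ℤ)`-invariant function on `ℍ` of at most exponential growth at `i∞` is a
polynomial in `j = E₄³/Δ`.  (The function-level induction follows helper505's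
`levelOne_structure`, re-proved here from Mathlib only.)
-/

set_option autoImplicit false

noncomputable section

open UpperHalfPlane ModularGroup CongruenceSubgroup ModularForm Filter Asymptotics
  SlashInvariantForm SlashInvariantFormClass ModularFormClass CuspFormClass
open scoped MatrixGroups Manifold Modular Real

namespace Fermat.Agent.S24.H648

/-- `E₄ ^ n` as a modular form of weight `k = 4 n`. -/
def E4pow (n : ℕ) (k : ℤ) (hk : (n : ℤ) * 4 = k) : ModularForm 𝒮ℒ k :=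
  ModularForm.mcast hk (E₄.pow n)

theorem E4pow_apply (n : ℕ) (k : ℤ) (hk : (n : ℤ) * 4 = k) (z : ℍ) :
    E4pow n k hk z = E₄ z ^ n := by
  simp [E4pow]

theorem qExpansion_E4pow_coeff_zero (n : ℕ) (k : ℤ) (hk : (n : ℤ) * 4 = k) :
    (qExpansion 1 (E4pow n k hk)).coeff 0 = 1 := by
  have h4 : (qExpansion 1 E₄).coeff 0 = 1 := EisensteinSeries.E_qExpansion_coeff_zero (by norm_num) (by decide)
  rw [E4pow, ModularForm.qExpansion_mcast,
    ModularForm.qExpansion_pow one_pos one_mem_strictPeriods_SL,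
    PowerSeries.coeff_zero_eq_constantCoeff, map_pow, ← PowerSeries.coeff_zero_eq_constantCoeff,
    h4, one_pow]

/-- Level one structure theorem, function level: a modular form of weight `12 m` is
`Δ^m · P(j)` with `deg P ≤ m`. -/
theorem levelOne_poly (m : ℕ) : ∀ (k : ℤ) (_ : k = 12 * m) (F : ModularForm 𝒮ℒ k),
    ∃ P : Polynomial ℂ, P.natDegree ≤ m ∧
      ∀ z : ℍ, F z = ModularForm.discriminant z ^ m * P.eval (jFun z) := by
  induction m with
  | zero =>
    intro k hk F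
    simp only [Nat.cast_zero, mul_zero] at hk
    subst hk
    obtain ⟨c, hc⟩ := levelOne_weight_zero_const F
    exact ⟨Polynomial.C c, by simp, fun z => by simp [hc]⟩
  | succ m ih =>
    intro k hk F
    set c₀ : ℂ := (qExpansion 1 F).coeff 0 with hc₀
    have hk4 : ((3 * (m + 1) : ℕ) : ℤ) * 4 = k := by rw [hk]; push_cast; ring
    set G : ModularForm 𝒮ℒ k := F - c₀ • E4pow (3 * (m + 1)) k hk4 with hG
    have hGq : qExpansion 1 G
        = qExpansion 1 F - c₀ • qExpansion 1 (E4pow (3 * (m + 1)) k hk4) := by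
      have h1 : (G : ℍ → ℂ) = ⇑F - ⇑(c₀ • E4pow (3 * (m + 1)) k hk4) := rfl
      rw [h1, ModularForm.qExpansion_sub one_pos one_mem_strictPeriods_SL]
      have h2 : (⇑(c₀ • E4pow (3 * (m + 1)) k hk4) : ℍ → ℂ)
          = c₀ • ⇑(E4pow (3 * (m + 1)) k hk4) := rfl
      rw [h2, ModularForm.qExpansion_smul one_pos one_mem_strictPeriods_SL]
    have hG0 : (qExpansion 1 G).coeff 0 = 0 := by
      rw [hGq, map_sub, PowerSeries.coeff_smul, qExpansion_E4pow_coeff_zero]
      simp [hc₀]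
    set H : ModularForm 𝒮ℒ (k - 12) := CuspForm.discriminantEquiv (G.toCuspForm hG0) with hH
    obtain ⟨P, hPdeg, hPval⟩ := ih (k - 12) (by rw [hk]; push_cast; ring) H
    have hGH : ∀ z, G z = ModularForm.discriminant z * H z := fun z => by
      rw [hH, discriminant_mul_discriminantEquiv_apply]; rfl
    have hFG : ∀ z, F z = c₀ * E₄ z ^ (3 * (m + 1)) + G z := fun z => by
      have : G z = F z - c₀ * E4pow (3 * (m + 1)) k hk4 z := rfl
      rw [this, E4pow_apply]; ring
    refine ⟨Polynomial.C c₀ * Polynomial.X ^ (m + 1) + P, ?_, ?_⟩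
    · refine (Polynomial.natDegree_add_le _ _).trans (max_le ?_ (hPdeg.trans (Nat.le_succ m)))
      exact Polynomial.natDegree_C_mul_X_pow_le _ _
    · intro z
      rw [hFG, hGH, hPval, Polynomial.eval_add, Polynomial.eval_mul, Polynomial.eval_C,
        Polynomial.eval_pow, Polynomial.eval_X, jFun_def]
      have hΔ := discriminant_ne_zero z
      have hJ : ModularForm.discriminant z * (E₄ z ^ 3 / ModularForm.discriminant z) = E₄ z ^ 3 :=
        mul_div_cancel₀ _ hΔ
      have : ModularForm.discriminant z ^ (m + 1) *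
          (c₀ * (E₄ z ^ 3 / ModularForm.discriminant z) ^ (m + 1) +
            Polynomial.eval (E₄ z ^ 3 / ModularForm.discriminant z) P) =
          c₀ * (ModularForm.discriminant z * (E₄ z ^ 3 / ModularForm.discriminant z)) ^ (m + 1) +
          ModularForm.discriminant z * (ModularForm.discriminant z ^ m *
            Polynomial.eval (E₄ z ^ 3 / ModularForm.discriminant z) P) := by ring
      rw [this, hJ, pow_mul]


lemma discriminant_smul (γ : SL(2, ℤ)) (τ : ℍ) :
    ModularForm.discriminant (γ • τ) = denom γ τ ^ (12 : ℤ) * ModularForm.discriminant τ := by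
  have : SlashInvariantFormClass (CuspForm 𝒮ℒ 12) Γ(1) 12 :=
    Gamma_one_coe_eq_SL ▸ inferInstance
  exact SlashInvariantForm.slash_action_eqn_SL'' CuspForm.discriminant (mem_Gamma_one γ) τ

lemma discriminant_pow_mul_slash (m : ℕ) (F : ℍ → ℂ)
    (inv : ∀ (γ : SL(2, ℤ)) (τ : ℍ), F (γ • τ) = F τ) (γ : SL(2, ℤ)) :
    (fun z => ModularForm.discriminant z ^ m * F z) ∣[(12 * m : ℤ)] γ
      = fun z => ModularForm.discriminant z ^ m * F z := by
  funext z
  rw [ModularForm.SL_slash_apply]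
  rw [inv, discriminant_smul, mul_pow, ← zpow_natCast (denom γ z ^ (12 : ℤ)) m, ← zpow_mul]
  have hd : denom γ z ≠ 0 := denom_ne_zero _ z
  have : denom γ z ^ ((12 : ℤ) * m) * ModularForm.discriminant z ^ m * F z
      * denom γ z ^ (-(12 * (m : ℤ)))
      = (denom γ z ^ ((12 : ℤ) * m) * denom γ z ^ (-(12 * (m : ℤ))))
        * (ModularForm.discriminant z ^ m * F z) := by ring
  rw [this, ← zpow_add₀ hd]
  simp

/-- `Δ^m · F` as a modular form of weight `12 m`. -/
def mfOfInvariant (m : ℕ) (F : ℍ → ℂ) (hol : MDifferentiable 𝓘(ℂ) 𝓘(ℂ) F)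
    (inv : ∀ (γ : SL(2, ℤ)) (τ : ℍ), F (γ • τ) = F τ)
    (bdd : IsBoundedAtImInfty (fun z => ModularForm.discriminant z ^ m * F z)) :
    ModularForm 𝒮ℒ (12 * m) where
  toFun := fun z => ModularForm.discriminant z ^ m * F z
  slash_action_eq' := fun _ ⟨γ, hγ⟩ => hγ ▸ discriminant_pow_mul_slash m F inv γ
  holo' := by
    have hΔ : MDifferentiable 𝓘(ℂ) 𝓘(ℂ) (ModularForm.discriminant : ℍ → ℂ) :=
      ModularFormClass.holo CuspForm.discriminant
    exact (hΔ.pow m).mul hol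
  bdd_at_cusps' {c} hc := by
    rw [Subgroup.IsArithmetic.isCusp_iff_isCusp_SL2Z] at hc
    rw [OnePoint.isBoundedAt_iff_forall_SL2Z hc]
    intro γ _
    rw [discriminant_pow_mul_slash m F inv γ]
    exact bdd

lemma mfOfInvariant_apply (m : ℕ) (F : ℍ → ℂ) (hol : MDifferentiable 𝓘(ℂ) 𝓘(ℂ) F)
    (inv : ∀ (γ : SL(2, ℤ)) (τ : ℍ), F (γ • τ) = F τ)
    (bdd : IsBoundedAtImInfty (fun z => ModularForm.discriminant z ^ m * F z)) (z : ℍ) :
    mfOfInvariant m F hol inv bdd z = ModularForm.discriminant z ^ m * F z := rfl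

/-- Polynomiality principle, `IsBoundedAtImInfty` form. -/
theorem exists_polynomial_of_isBoundedAtImInfty (m : ℕ) (F : ℍ → ℂ)
    (hol : MDifferentiable 𝓘(ℂ) 𝓘(ℂ) F)
    (inv : ∀ (γ : SL(2, ℤ)) (τ : ℍ), F (γ • τ) = F τ)
    (bdd : IsBoundedAtImInfty (fun z => ModularForm.discriminant z ^ m * F z)) :
    ∃ p : Polynomial ℂ, p.natDegree ≤ m ∧ ∀ τ, F τ = p.eval (jFun τ) := by
  obtain ⟨P, hdeg, hP⟩ := levelOne_poly m (12 * m) rfl (mfOfInvariant m F hol inv bdd)
  refine ⟨P, hdeg, fun τ => ?_⟩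
  have h := hP τ
  rw [mfOfInvariant_apply] at h
  exact mul_left_cancel₀ (pow_ne_zero m (discriminant_ne_zero τ)) h

lemma ExpGrowth.isBigO {F : ℍ → ℂ} {C : ℝ} {m : ℕ}
    (h : ∀ τ : ℍ, 1 ≤ τ.im → ‖F τ‖ ≤ C * Real.exp (2 * π * m * τ.im)) :
    F =O[atImInfty] fun τ : ℍ => Real.exp (2 * π * m * τ.im) := by
  refine IsBigO.of_bound C ?_
  rw [atImInfty, eventually_comap, eventually_atTop]
  refine ⟨1, fun y hy τ hτ => ?_⟩
  rw [Real.norm_of_nonneg (Real.exp_pos _).le]
  exact h τ (hτ ▸ hy)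

/-- **Polynomiality principle (D5), `ExpGrowth` form.** -/
theorem exists_polynomial_of_expGrowth (F : ℍ → ℂ)
    (hol : MDifferentiable 𝓘(ℂ) 𝓘(ℂ) F)
    (inv : ∀ (γ : SL(2, ℤ)) (τ : ℍ), F (γ • τ) = F τ) (gr : ExpGrowth F) :
    ∃ p : Polynomial ℂ, ∀ τ, F τ = p.eval (jFun τ) := by
  obtain ⟨C, m, h⟩ := gr
  have hF := ExpGrowth.isBigO h
  have hΔ : (ModularForm.discriminant : ℍ → ℂ)
      =O[atImInfty] fun τ : ℍ => Real.exp (-2 * π * τ.im / 1) :=
    CuspFormClass.exp_decay_atImInfty CuspForm.discriminant one_pos one_mem_strictPeriods_SL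
  have hprod := (hΔ.pow m).mul hF
  have bdd : IsBoundedAtImInfty (fun z => ModularForm.discriminant z ^ m * F z) := by
    refine hprod.congr_right fun τ => ?_
    rw [← Real.exp_nat_mul, ← Real.exp_add]
    have : (m : ℝ) * (-2 * π * τ.im / 1) + 2 * π * m * τ.im = 0 := by ring
    rw [this, Real.exp_zero]
    rfl
  obtain ⟨p, -, hp⟩ := exists_polynomial_of_isBoundedAtImInfty m F hol inv bdd
  exact ⟨p, hp⟩

section final

variable {N : ℕ} [Fintype (SL(2, ℤ) ⧸ Gamma0 N)]

/-- **M6-AN, unconditional.**  For every good function `f` of level `N` the conjugate product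
`∏ₓ (Y - f ∘ gₓ⁻¹)` has coefficients in `ℂ[j]`. -/
theorem exists_charPoly_jFun {f : ℍ → ℂ} (hf : f ∈ goodRing N) :
    ∃ P : Polynomial (Polynomial ℂ), P.Monic ∧
      P.natDegree = Fintype.card (SL(2, ℤ) ⧸ Gamma0 N) ∧
      ∀ τ : ℍ, P.map (Polynomial.evalRingHom (jFun τ)) = charPolyAt N f τ :=
  exists_charPoly jFun exists_polynomial_of_expGrowth hf

/-- **Function-level `HYP(n)`, unconditional.** -/
theorem exists_charPoly_jFun_eval_eq_zero {f : ℍ → ℂ} (hf : f ∈ goodRing N) :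
    ∃ P : Polynomial (Polynomial ℂ), P.Monic ∧
      P.natDegree = Fintype.card (SL(2, ℤ) ⧸ Gamma0 N) ∧
      ∀ τ : ℍ, (P.map (Polynomial.evalRingHom (jFun τ))).eval (f τ) = 0 :=
  exists_charPoly_eval_eq_zero jFun exists_polynomial_of_expGrowth hf

end final

end Fermat.Agent.S24.H648

end
end
-- ===== PACK-END S24/Deg/H648D5.lean

-- ===== PACK-BEGIN S20/Comb694/OrbitCounts.lean
section




/-!
# Orbit counts of `S` and `S * T` on `SL(2,ℤ) ⧸ Gamma0 N`, and the genus identity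

* `two_mul_card_orbits_S : 2 * #(Q / ⟨S⟩) = ψ(N) + ν₂(N)`
* `three_mul_card_orbits_ST : 3 * #(Q / ⟨S * T⟩) = ψ(N) + 2 * ν₃(N)`
* `genusFormula_eq_of_card_orbits_T` : the Euler-characteristic identity
  `genusFormula N = 1 + (μ - o₂ - o₃ - o∞) / 2`.
-/

set_option autoImplicit false

namespace Fermat.Agent.S20.Comb694

open Matrix MatrixGroups CongruenceSubgroup MulAction Subgroup

/-- `-1` acts trivially on `SL(2,ℤ) ⧸ Γ₀(N)`. -/
lemma neg_one_smul_quotient (N : ℕ) (q : SL(2, ℤ) ⧸ Gamma0 N) : (-1 : SL(2, ℤ)) • q = q := by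
  obtain ⟨g, rfl⟩ := QuotientGroup.mk_surjective q
  rw [smul_mk_eq_mk_iff]
  have h : ∀ i j, ((-1 : SL(2, ℤ)) * g) i j = - g i j := by
    intro i j
    rw [neg_mul, one_mul, Matrix.SpecialLinearGroup.coe_neg, Matrix.neg_apply]
  rw [h, h]
  push_cast
  ring

lemma S_pow_two : ModularGroup.S ^ 2 = (-1 : SL(2, ℤ)) := by
  apply Subtype.ext
  rw [pow_two, Matrix.SpecialLinearGroup.coe_mul, ModularGroup.coe_S,
    Matrix.SpecialLinearGroup.coe_neg, Matrix.SpecialLinearGroup.coe_one]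
  ext i j
  fin_cases i <;> fin_cases j <;> simp [Matrix.mul_apply, Fin.sum_univ_two]

lemma ST_pow_three : (ModularGroup.S * ModularGroup.T) ^ 3 = (-1 : SL(2, ℤ)) := by
  apply Subtype.ext
  rw [pow_succ, pow_two, Matrix.SpecialLinearGroup.coe_mul, Matrix.SpecialLinearGroup.coe_mul,
    coe_S_mul_T, Matrix.SpecialLinearGroup.coe_neg, Matrix.SpecialLinearGroup.coe_one]
  ext i j
  fin_cases i <;> fin_cases j <;> simp [Matrix.mul_apply, Fin.sum_univ_two]

/-- `2 * #(S-orbits) = ψ(N) + ν₂(N)`. -/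
theorem two_mul_card_orbits_S (N : ℕ) [NeZero N] :
    2 * Nat.card (orbitRel.Quotient (zpowers ModularGroup.S) (SL(2, ℤ) ⧸ Gamma0 N))
      = ModularCurve.dedekindPsi N + ModularCurve.nuTwo N := by
  have h := prime_mul_card_orbits (X := SL(2, ℤ) ⧸ Gamma0 N) ModularGroup.S 2 Nat.prime_two
    (fun x => by rw [S_pow_two]; exact neg_one_smul_quotient N x)
  rw [card_quotient_Gamma0, card_fixedBy_S] at h
  exact h.trans (by norm_num)

/-- `3 * #(ST-orbits) = ψ(N) + 2 * ν₃(N)`. -/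
theorem three_mul_card_orbits_ST (N : ℕ) [NeZero N] :
    3 * Nat.card (orbitRel.Quotient (zpowers (ModularGroup.S * ModularGroup.T))
        (SL(2, ℤ) ⧸ Gamma0 N))
      = ModularCurve.dedekindPsi N + 2 * ModularCurve.nuThree N := by
  have h := prime_mul_card_orbits (X := SL(2, ℤ) ⧸ Gamma0 N)
    (ModularGroup.S * ModularGroup.T) 3 Nat.prime_three
    (fun x => by rw [ST_pow_three]; exact neg_one_smul_quotient N x)
  rw [card_quotient_Gamma0, card_fixedBy_ST] at h
  exact h.trans (by norm_num)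

/-- The Euler-characteristic identity: with `μ = #Q`, `o₂`, `o₃`, `o∞` the numbers of orbits of
`S`, `S * T`, `T` on `Q = SL(2,ℤ) ⧸ Γ₀(N)`, one has `genusFormula N = 1 + (μ - o₂ - o₃ - o∞) / 2`,
provided `o∞ = cuspCount N`. -/
theorem genusFormula_eq_of_card_orbits_T (N : ℕ) [NeZero N]
    (hT : Nat.card (orbitRel.Quotient (zpowers ModularGroup.T) (SL(2, ℤ) ⧸ Gamma0 N))
      = ModularCurve.cuspCount N) :
    ModularCurve.genusFormula N
      = 1 + ((Nat.card (SL(2, ℤ) ⧸ Gamma0 N) : ℚ)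
          - (Nat.card (orbitRel.Quotient (zpowers ModularGroup.S) (SL(2, ℤ) ⧸ Gamma0 N)) : ℚ)
          - (Nat.card (orbitRel.Quotient (zpowers (ModularGroup.S * ModularGroup.T))
              (SL(2, ℤ) ⧸ Gamma0 N)) : ℚ)
          - (Nat.card (orbitRel.Quotient (zpowers ModularGroup.T)
              (SL(2, ℤ) ⧸ Gamma0 N)) : ℚ)) / 2 := by
  have h2 := two_mul_card_orbits_S N
  have h3 := three_mul_card_orbits_ST N
  have h2' := congrArg (Nat.cast : ℕ → ℚ) h2
  have h3' := congrArg (Nat.cast : ℕ → ℚ) h3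
  push_cast at h2' h3'
  rw [hT, card_quotient_Gamma0, ModularCurve.genusFormula]
  linear_combination (1 / 4 : ℚ) * h2' + (1 / 6 : ℚ) * h3'

/-- Orbit-count form used by dimension bounds: `μ + 2 - o₂ - o₃ - o∞ = 2 * genusFormula N`. -/
theorem two_mul_genusFormula_of_card_orbits_T (N : ℕ) [NeZero N]
    (hT : Nat.card (orbitRel.Quotient (zpowers ModularGroup.T) (SL(2, ℤ) ⧸ Gamma0 N))
      = ModularCurve.cuspCount N) :
    2 * ModularCurve.genusFormula N
      + (Nat.card (orbitRel.Quotient (zpowers ModularGroup.S) (SL(2, ℤ) ⧸ Gamma0 N)) : ℚ)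
      + (Nat.card (orbitRel.Quotient (zpowers (ModularGroup.S * ModularGroup.T))
          (SL(2, ℤ) ⧸ Gamma0 N)) : ℚ)
      + (Nat.card (orbitRel.Quotient (zpowers ModularGroup.T) (SL(2, ℤ) ⧸ Gamma0 N)) : ℚ)
      = (Nat.card (SL(2, ℤ) ⧸ Gamma0 N) : ℚ) + 2 := by
  rw [genusFormula_eq_of_card_orbits_T N hT]
  ring

end Fermat.Agent.S20.Comb694

end
-- ===== PACK-END S20/Comb694/OrbitCounts.lean

-- ===== PACK-BEGIN Lib/RR/H623/WeakApprox.lean
section




/-!
# Shared library RR (helper623): the weak approximation theorem for places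

Prelude language (`AlgebraicCurve.Place`).  For finitely many places `v ∈ s`, targets `x v : F`
and orders `r v : ℤ` there is `z : F` with `ord_v (z - x v) = r v` for all `v ∈ s`
(Stichtenoth, Thm. 1.3.1).  No hypothesis on `K`, `F`.

* `Big v r f` : `f = 0 ∨ r ≤ ord_v f` with its calculus
* `exists_near_one`, `exists_approx`, `weak_approximation`, `weak_approximation_ge`
-/

set_option autoImplicit false

noncomputable section

namespace Fermat.Agent.Lib.RR.H623

open AlgebraicCurve Fermat.Agent.S24.H117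

variable {K F : Type*} [Field K] [Field F] [Algebra K F]

/-- `f = 0` or `r ≤ ord_v f`. -/
def Big (v : Place K F) (r : ℤ) (f : F) : Prop := f = 0 ∨ r ≤ v.ord f

namespace Big

variable {v : Place K F} {r s : ℤ} {f g : F}

theorem zero (v : Place K F) (r : ℤ) : Big v r (0 : F) := Or.inl rfl

theorem of_le (hf : r ≤ v.ord f) : Big v r f := Or.inr hf

theorem le_ord (h : Big v r f) (hf : f ≠ 0) : r ≤ v.ord f := h.resolve_left hf

theorem mono (h : Big v r f) (hsr : s ≤ r) : Big v s f := by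
  rcases h with h | h
  · exact Or.inl h
  · exact Or.inr (hsr.trans h)

theorem neg (h : Big v r f) : Big v r (-f) := by
  rcases h with h | h
  · exact Or.inl (by rw [h, neg_zero])
  · exact Or.inr (by rwa [_root_.Fermat.Agent.S24.H117.ord_neg])

theorem add (hf : Big v r f) (hg : Big v r g) : Big v r (f + g) := by
  rcases eq_or_ne (f + g) 0 with h0 | h0
  · exact Or.inl h0
  rcases hf with rfl | hf
  · rwa [zero_add]
  rcases hg with rfl | hg
  · rw [add_zero]; exact Or.inr hf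
  exact Or.inr ((le_min hf hg).trans (ord_add_ge v h0))

theorem sub (hf : Big v r f) (hg : Big v r g) : Big v r (f - g) := by
  rw [sub_eq_add_neg]; exact hf.add hg.neg

theorem mul (hf : Big v r f) (hg : Big v s g) : Big v (r + s) (f * g) := by
  rcases hf with rfl | hf
  · exact Or.inl (zero_mul _)
  rcases hg with rfl | hg
  · exact Or.inl (mul_zero _)
  rcases eq_or_ne f 0 with rfl | hf0
  · exact Or.inl (zero_mul _)
  rcases eq_or_ne g 0 with rfl | hg0
  · exact Or.inl (mul_zero _)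
  refine Or.inr ?_
  rw [v.ord_mul hf0 hg0]
  omega

theorem sum {ι : Type*} (t : Finset ι) (φ : ι → F) (h : ∀ i ∈ t, Big v r (φ i)) :
    Big v r (∑ i ∈ t, φ i) := by
  classical
  induction t using Finset.induction_on with
  | empty => simp [zero]
  | insert a t ha ih =>
    rw [Finset.sum_insert ha]
    exact (h a (Finset.mem_insert_self _ _)).add
      (ih fun i hi => h i (Finset.mem_insert_of_mem hi))

theorem self (v : Place K F) (f : F) : Big v (v.ord f) f := Or.inr le_rfl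

end Big

theorem big_iff_adicValuation_le {v : Place K F} {r : ℤ} {f : F} :
    Big v r f ↔ v.adicValuation f ≤ WithZero.exp (-r) := by
  rw [Place.adicValuation_le_exp_iff, neg_neg]
  rfl

/-- **Step 2**: an element close to `1` at `v` and close to `0` at the places of `s`. -/
theorem exists_near_one (v : Place K F) (s : Finset (Place K F)) (hv : v ∉ s) (r : ℤ) :
    ∃ w : F, Big v r (w - 1) ∧ ∀ w' ∈ s, Big w' r w := by
  obtain ⟨u, hu1, hu2⟩ := exists_ord_pos_forall_neg v s hv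
  obtain ⟨n, hn1, hnr⟩ : ∃ n : ℕ, 1 ≤ n ∧ r ≤ (n : ℤ) :=
    ⟨r.toNat + 1, by omega, by have := Int.self_le_toNat r; push_cast; omega⟩
  have hn1' : (1 : ℤ) ≤ n := by exact_mod_cast hn1
  have hu0 : u ≠ 0 := _root_.Fermat.Agent.S24.H117.ne_zero_of_ord_ne_zero v hu1.ne'
  set t : F := u ^ n with ht
  have ht0 : t ≠ 0 := pow_ne_zero _ hu0
  have hvt : (n : ℤ) ≤ v.ord t := by
    rw [ht, _root_.Fermat.Agent.S24.H117.ord_pow]
    nlinarith
  have h1t : v.ord (1 + t) = 0 := by
    have := _root_.Fermat.Agent.S24.H117.ord_add_eq_of_lt v (f := (1 : F)) (g := t) (by rw [v.ord_one]; omega) one_ne_zero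
    rw [this, v.ord_one]
  have hne : (1 : F) + t ≠ 0 := by
    intro h0
    have ht1 : t = -1 := eq_neg_of_add_eq_zero_right h0
    have : v.ord t = 0 := by rw [ht1, _root_.Fermat.Agent.S24.H117.ord_neg, v.ord_one]
    omega
  refine ⟨(1 + t)⁻¹, ?_, ?_⟩
  · have hw : (1 + t)⁻¹ - 1 = -(t / (1 + t)) := by
      field_simp
      ring
    rw [hw]
    apply Big.neg
    apply Big.of_le
    rw [ord_div v ht0 hne, h1t]
    omega
  · intro w' hw'
    have hw't : w'.ord t ≤ -(n : ℤ) := by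
      rw [ht, _root_.Fermat.Agent.S24.H117.ord_pow]
      have := hu2 w' hw'
      nlinarith
    have h1 : w'.ord (t + 1) = w'.ord t :=
      _root_.Fermat.Agent.S24.H117.ord_add_eq_of_lt w' (by rw [w'.ord_one]; omega) ht0
    apply Big.of_le
    rw [w'.ord_inv, add_comm, h1]
    omega

/-- **Step 3**: simultaneous approximation of arbitrary targets to arbitrary precision. -/
theorem exists_approx (s : Finset (Place K F)) (y : Place K F → F) (r : ℤ) :
    ∃ z : F, ∀ v ∈ s, Big v r (z - y v) := by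
  classical
  -- a uniform lower bound for the orders of the targets
  set M : ℤ := ∑ v ∈ s, ∑ v' ∈ s, |v.ord (y v')| with hM
  have hMbound : ∀ v ∈ s, ∀ v' ∈ s, Big v (-M) (y v') := by
    intro v hv v' hv'
    apply Big.of_le
    have h1 : |v.ord (y v')| ≤ ∑ v'' ∈ s, |v.ord (y v'')| :=
      Finset.single_le_sum (f := fun v'' => |v.ord (y v'')|) (fun _ _ => abs_nonneg _) hv'
    have h2 : ∑ v'' ∈ s, |v.ord (y v'')| ≤ M :=
      Finset.single_le_sum (f := fun v₀ : Place K F => ∑ v'' ∈ s, |v₀.ord (y v'')|)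
        (fun _ _ => Finset.sum_nonneg fun _ _ => abs_nonneg _) hv
    have h3 := neg_abs_le (v.ord (y v'))
    omega
  have hex : ∀ v : Place K F, ∃ w : F, Big v (r + M) (w - 1) ∧
      ∀ w' ∈ s.erase v, Big w' (r + M) w :=
    fun v => exists_near_one v (s.erase v) (Finset.notMem_erase v s) (r + M)
  choose w hw1 hw2 using hex
  refine ⟨∑ v' ∈ s, y v' * w v', fun v hv => ?_⟩
  have hsplit : ∑ v' ∈ s, y v' * w v' - y v =
      y v * (w v - 1) + ∑ v' ∈ s.erase v, y v' * w v' := by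
    rw [← Finset.add_sum_erase s _ hv]
    ring
  rw [hsplit]
  refine Big.add ?_ (Big.sum _ _ fun v' hv' => ?_)
  · have := (hMbound v hv v hv).mul (hw1 v)
    exact this.mono (by omega)
  · have hv's : v' ∈ s := Finset.mem_of_mem_erase hv'
    have hvv' : v ∈ s.erase v' :=
      Finset.mem_erase.mpr ⟨(Finset.ne_of_mem_erase hv').symm, hv⟩
    have := (hMbound v hv v' hv's).mul (hw2 v' v hvv')
    exact this.mono (by omega)

theorem exists_ord_eq' (v : Place K F) (n : ℤ) : ∃ c : F, c ≠ 0 ∧ v.ord c = n := by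
  obtain ⟨π, hπ0, hπ1⟩ := _root_.Fermat.Agent.S24.H117.exists_ord_eq_one v
  refine ⟨π ^ n, zpow_ne_zero _ hπ0, ?_⟩
  rw [v.ord_zpow, hπ1, mul_one]

/-- **Weak approximation theorem**, exact orders. -/
theorem weak_approximation (s : Finset (Place K F)) (x : Place K F → F) (r : Place K F → ℤ) :
    ∃ z : F, ∀ v ∈ s, z - x v ≠ 0 ∧ v.ord (z - x v) = r v := by
  classical
  choose c hc0 hc using fun v : Place K F => exists_ord_eq' v (r v)
  set R : ℤ := ∑ v ∈ s, |r v| + 1 with hR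
  have hRbound : ∀ v ∈ s, r v < R := by
    intro v hv
    have h1 : |r v| ≤ ∑ v' ∈ s, |r v'| :=
      Finset.single_le_sum (f := fun v' => |r v'|) (fun _ _ => abs_nonneg _) hv
    have h2 := le_abs_self (r v)
    omega
  obtain ⟨z, hz⟩ := exists_approx s (fun v => x v + c v) R
  refine ⟨z, fun v hv => ?_⟩
  have hdecomp : z - x v = c v + (z - (x v + c v)) := by ring
  have hlt : ∀ e : F, Big v R e → v.ord (c v + e) = v.ord (c v) := by
    intro e he
    rcases eq_or_ne e 0 with rfl | he0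
    · rw [add_zero]
    · exact _root_.Fermat.Agent.S24.H117.ord_add_eq_of_lt v (by have := he.le_ord he0; have := hRbound v hv; rw [hc v]; omega)
        (hc0 v)
  have hord : v.ord (z - x v) = r v := by
    rw [hdecomp, hlt _ (hz v hv), hc v]
  refine ⟨?_, hord⟩
  intro h0
  rcases hz v hv with h | h
  · have : z - x v = c v := by rw [hdecomp, h, add_zero]
    exact hc0 v (this ▸ h0)
  · have h1 : z - (x v + c v) = -(c v) := by
      have : z - (x v + c v) = (z - x v) - c v := by ring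
      rw [this, h0, zero_sub]
    rw [h1, _root_.Fermat.Agent.S24.H117.ord_neg, hc v] at h
    have := hRbound v hv
    omega

/-- **Weak approximation theorem**, `≥` form. -/
theorem weak_approximation_ge (s : Finset (Place K F)) (x : Place K F → F)
    (r : Place K F → ℤ) : ∃ z : F, ∀ v ∈ s, Big v (r v) (z - x v) := by
  obtain ⟨z, hz⟩ := weak_approximation s x r
  exact ⟨z, fun v hv => Big.of_le (hz v hv).2.ge⟩

end Fermat.Agent.Lib.RR.H623

end
end
-- ===== PACK-END Lib/RR/H623/WeakApprox.lean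

-- ===== PACK-BEGIN S36/H630/LabNorm.lean
section


/-!
# S36 engine, LABEL core (helper630), part 4: LAB-NORM (norm compatibility of the values)

`F' ⊆ F` a finite extension of function fields (level `qM'` inside level `q²M'` via `α` or via
`β`), `A ⊆ F'`, `B ⊆ F` the charts, `n` a closed point of `B` over the closed point `N₁` of `A`.

Interface to the cell NR (norm–residue formulas, `S36/H253`, `S36/H203`), elementwise:

* `NormResSplit V' V₁ V₂ e` : `V₁` (`e = f = 1`) and `V₂` (ramification `e`, `f = 1`) are the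
  extensions of `V'`:   `res_{V'} (N y) = res_{V₁} y · (res_{V₂} y) ^ e`;
* `NormResInsep V' V q`    : `V` is the only extension of `V'`, purely inseparable residue
  extension of degree `q`:   `res_{V'} (N y) = (res_V y) ^ q`.

Interface to MOD3 (residue rings of the components):

* `ResLift A B V`      : `B / p_V = A / p_{V'}`  (`f = 1`, `A / p_{V'}` normal);
* `ResLiftPow A B V q` : `(B / p_V) ^ q ⊆ A / p_{V'}`  (purely inseparable of degree `q`).

Results:

* `valAt_norm_split` : values `η₁`, `η₂` of `d` at `n` along `V₁`, `V₂`  ⟹  `N d` has the value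
  `η₁ η₂ ^ e` at `N₁` along `V'`;
* `valAt_norm_insep` : value `η` of `d` at `n` along `V`  ⟹  `N d` has the value `η ^ q` at `N₁`
  along `V'`;
* `label_eq_of_norm` (**the label equation**) : if `u d ^ m ∈ B_{N₁}` (purity at the unique point
  `n` over the node `N₁`) and `N u = k ^ m` with `k ≡ ξ₁` on `V₁'`, `k ≡ ξ₂` on `V₂'`, then

      `ξ₁ · η_FF · η_mid ^ e  ≡  ξ₂ · η_VV ^ q`   modulo `N₁`.
-/

set_option autoImplicit false
set_option linter.unusedSectionVars false

namespace Fermat.Agent.S36.H630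

variable {R : Type*} [CommRing R] {F' : Type*} [Field F'] [Algebra R F']
variable {F : Type*} [Field F] [Algebra R F] [Algebra F' F] [IsScalarTower R F' F]

/-- Norm–residue formula, split case with ramification `e` on the second sheet. -/
def NormResSplit (V' : ValuationSubring F') (V₁ V₂ : ValuationSubring F) (e : ℕ) : Prop :=
  ∀ y : F, y ∈ V₁ → y ∈ V₂ → ∀ y₁ y₂ : F',
    y - algebraMap F' F y₁ ∈ V₁.nonunits → y - algebraMap F' F y₂ ∈ V₂.nonunits →
      Algebra.norm F' y - y₁ * y₂ ^ e ∈ V'.nonunits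

/-- Norm–residue formula, purely inseparable case of degree `q`. -/
def NormResInsep (V' : ValuationSubring F') (V : ValuationSubring F) (q : ℕ) : Prop :=
  ∀ y : F, y ∈ V → ∀ y' : F', y ^ q - algebraMap F' F y' ∈ V.nonunits →
    Algebra.norm F' y - y' ∈ V'.nonunits

/-- The residue ring of `B` on the sheet `V` is the residue ring of `A`. -/
def ResLift (A : Subalgebra R F') (B : Subalgebra R F) (V : ValuationSubring F) : Prop :=
  ∀ b : B, ∃ a : A, (b : F) - algebraMap F' F (a : F') ∈ V.nonunits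

/-- The `q`-th powers of the residue ring of `B` on the sheet `V` lie in the residue ring of
`A`. -/
def ResLiftPow (A : Subalgebra R F') (B : Subalgebra R F) (V : ValuationSubring F) (q : ℕ) :
    Prop :=
  ∀ b : B, ∃ a : A, (b : F) ^ q - algebraMap F' F (a : F') ∈ V.nonunits

section Lift

variable {A : Subalgebra R F'} {B : Subalgebra R F}
variable {N₁ : Ideal A} {n : Ideal B}

/-- `x ^ q - y ^ q ∈ (x - y) V`. -/
theorem pow_sub_pow_mem_nonunits (V : ValuationSubring F) {x y : F} (hx : x ∈ V) (hy : y ∈ V)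
    (h : x - y ∈ V.nonunits) (q : ℕ) : x ^ q - y ^ q ∈ V.nonunits := by
  rw [← geom_sum₂_mul]
  exact vnu_mul_left V h
    (V.sum_mem fun i _ => V.mul_mem _ _ (V.pow_mem hx i) (V.pow_mem hy _))

/-- `x ^ q - y ^ q ∈ (x - y) B`. -/
theorem pow_sub_pow_mem_ideal (I : Ideal B) {x y : B} (h : x - y ∈ I) (q : ℕ) :
    x ^ q - y ^ q ∈ I := by
  rw [← geom_sum₂_mul]
  exact I.mul_mem_left _ h

/-- **Lifting the residue to the base, `f = 1`.**  If `d` has the value `η` at `n` along `V`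
and the residue ring of `B` on `V` is that of `A`, then `d ≡ y₁` on `V` for some `y₁ ∈ A_{N₁}`
with value `η` at `N₁`. -/
theorem exists_lift_of_valAt [n.IsPrime]
    (hAB : ∀ a : A, algebraMap F' F (a : F') ∈ B)
    (hNn : ∀ a : A, a ∈ N₁ ↔ (⟨algebraMap F' F (a : F'), hAB a⟩ : B) ∈ n)
    {V : ValuationSubring F} (hBV : ChartLe B V) (hth : PassThrough B n V)
    (hlift : ResLift A B V) {d : F} {η : R} (h : ValAt B n V d η) :
    ∃ (a₁ b₁ : A), b₁ ∉ N₁ ∧ a₁ - algebraMap R A η * b₁ ∈ N₁ ∧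
      algebraMap F' F (b₁ : F') * d - algebraMap F' F (a₁ : F') ∈ V.nonunits := by
  have hdV : d ∈ V := h.mem hBV hth
  obtain ⟨a, b, hb, hV, hn⟩ := h
  obtain ⟨a₁, ha₁⟩ := hlift a
  obtain ⟨b₁, hb₁⟩ := hlift b
  -- the differences as elements of `B`
  have hda : a - (⟨_, hAB a₁⟩ : B) ∈ n := hth _ ha₁
  have hdb : b - (⟨_, hAB b₁⟩ : B) ∈ n := hth _ hb₁
  refine ⟨a₁, b₁, ?_, ?_, ?_⟩
  · intro h1
    apply hb
    have h2 := (hNn b₁).1 h1
    have : b = (b - (⟨_, hAB b₁⟩ : B)) + (⟨_, hAB b₁⟩ : B) := by ring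
    rw [this]
    exact n.add_mem hdb h2
  · rw [hNn]
    have h3 : (⟨algebraMap F' F ((a₁ - algebraMap R A η * b₁ : A) : F'), hAB _⟩ : B)
        = (a - algebraMap R B η * b) - (a - (⟨_, hAB a₁⟩ : B))
          + algebraMap R B η * (b - (⟨_, hAB b₁⟩ : B)) := by
      apply Subtype.ext
      have e1 : ((a₁ - algebraMap R A η * b₁ : A) : F')
          = (a₁ : F') - algebraMap R F' η * (b₁ : F') := rfl
      show algebraMap F' F ((a₁ - algebraMap R A η * b₁ : A) : F') = _
      rw [e1, map_sub, map_mul, ← IsScalarTower.algebraMap_apply]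
      show _ = ((a : F) - algebraMap R F η * (b : F)) - ((a : F) - algebraMap F' F (a₁ : F'))
          + algebraMap R F η * ((b : F) - algebraMap F' F (b₁ : F'))
      ring
    rw [h3]
    exact n.add_mem (n.sub_mem hn hda) (n.mul_mem_left _ hdb)
  · have : algebraMap F' F (b₁ : F') * d - algebraMap F' F (a₁ : F')
        = ((b : F) * d - a) - ((b : F) - algebraMap F' F (b₁ : F')) * d
          + ((a : F) - algebraMap F' F (a₁ : F')) := by ring
    rw [this]
    exact vnu_add V (vnu_sub V hV (vnu_mul_right V hb₁ hdV)) ha₁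

/-- **Lifting the residue to the base, purely inseparable case.** -/
theorem exists_lift_pow_of_valAt [n.IsPrime]
    (hAB : ∀ a : A, algebraMap F' F (a : F') ∈ B)
    (hNn : ∀ a : A, a ∈ N₁ ↔ (⟨algebraMap F' F (a : F'), hAB a⟩ : B) ∈ n)
    {V : ValuationSubring F} (hBV : ChartLe B V) (hth : PassThrough B n V)
    {q : ℕ} (hlift : ResLiftPow A B V q) {d : F} {η : R} (h : ValAt B n V d η) :
    ∃ (a₁ b₁ : A), b₁ ∉ N₁ ∧ a₁ - algebraMap R A (η ^ q) * b₁ ∈ N₁ ∧
      algebraMap F' F (b₁ : F') * d ^ q - algebraMap F' F (a₁ : F') ∈ V.nonunits := by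
  have hdV : d ∈ V := h.mem hBV hth
  obtain ⟨a, b, hb, hV, hn⟩ := h
  obtain ⟨a₁, ha₁⟩ := hlift a
  obtain ⟨b₁, hb₁⟩ := hlift b
  have hda : a ^ q - (⟨_, hAB a₁⟩ : B) ∈ n := hth _ ha₁
  have hdb : b ^ q - (⟨_, hAB b₁⟩ : B) ∈ n := hth _ hb₁
  have hbq : b ^ q ∉ n := fun h1 => hb (Ideal.IsPrime.mem_of_pow_mem ‹n.IsPrime› q h1)
  have hnq : a ^ q - (algebraMap R B η * b) ^ q ∈ n := pow_sub_pow_mem_ideal n hn q
  refine ⟨a₁, b₁, ?_, ?_, ?_⟩
  · intro h1
    apply hbq
    have h2 := (hNn b₁).1 h1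
    have : b ^ q = (b ^ q - (⟨_, hAB b₁⟩ : B)) + (⟨_, hAB b₁⟩ : B) := by ring
    rw [this]
    exact n.add_mem hdb h2
  · rw [hNn]
    have h3 : (⟨algebraMap F' F ((a₁ - algebraMap R A (η ^ q) * b₁ : A) : F'), hAB _⟩ : B)
        = (a ^ q - (algebraMap R B η * b) ^ q) - (a ^ q - (⟨_, hAB a₁⟩ : B))
          + algebraMap R B (η ^ q) * (b ^ q - (⟨_, hAB b₁⟩ : B)) := by
      apply Subtype.ext
      have e1 : ((a₁ - algebraMap R A (η ^ q) * b₁ : A) : F')
          = (a₁ : F') - algebraMap R F' (η ^ q) * (b₁ : F') := rfl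
      show algebraMap F' F ((a₁ - algebraMap R A (η ^ q) * b₁ : A) : F') = _
      rw [e1, map_sub, map_mul, ← IsScalarTower.algebraMap_apply]
      show _ = ((a : F) ^ q - (algebraMap R F η * (b : F)) ^ q)
          - ((a : F) ^ q - algebraMap F' F (a₁ : F'))
          + algebraMap R F (η ^ q) * ((b : F) ^ q - algebraMap F' F (b₁ : F'))
      rw [map_pow]
      ring
    rw [h3]
    exact n.add_mem (n.sub_mem hnq hda) (n.mul_mem_left _ hdb)
  · have hbd : (b : F) * d ∈ V := V.mul_mem _ _ (hBV b) hdV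
    have h4 : ((b : F) * d) ^ q - (a : F) ^ q ∈ V.nonunits :=
      pow_sub_pow_mem_nonunits V hbd (hBV a) hV q
    have : algebraMap F' F (b₁ : F') * d ^ q - algebraMap F' F (a₁ : F')
        = (((b : F) * d) ^ q - (a : F) ^ q) - ((b : F) ^ q - algebraMap F' F (b₁ : F')) * d ^ q
          + ((a : F) ^ q - algebraMap F' F (a₁ : F')) := by ring
    rw [this]
    exact vnu_add V (vnu_sub V h4 (vnu_mul_right V hb₁ (V.pow_mem hdV q))) ha₁

/-- From `b₁ d ≡ a₁` on `V` with `b₁ ∉ N₁`: `d ≡ a₁ / b₁` on `V`. -/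
theorem sub_div_mem_nonunits [n.IsPrime]
    (hAB : ∀ a : A, algebraMap F' F (a : F') ∈ B)
    (hNn : ∀ a : A, a ∈ N₁ ↔ (⟨algebraMap F' F (a : F'), hAB a⟩ : B) ∈ n)
    {V : ValuationSubring F} (hBV : ChartLe B V) (hth : PassThrough B n V)
    {a₁ b₁ : A} (hb₁ : b₁ ∉ N₁) {y : F}
    (h : algebraMap F' F (b₁ : F') * y - algebraMap F' F (a₁ : F') ∈ V.nonunits) :
    y - algebraMap F' F ((a₁ : F') / (b₁ : F')) ∈ V.nonunits := by
  have hbn : (⟨_, hAB b₁⟩ : B) ∉ n := fun h1 => hb₁ ((hNn b₁).2 h1)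
  have hbu : algebraMap F' F (b₁ : F') ∉ V.nonunits := fun h1 => hbn (hth ⟨_, hAB b₁⟩ h1)
  have hbV : algebraMap F' F (b₁ : F') ∈ V := hBV ⟨_, hAB b₁⟩
  have hb0 : algebraMap F' F (b₁ : F') ≠ 0 := by
    intro h0
    apply hbu
    rw [h0]
    exact vnu_zero V
  have : y - algebraMap F' F ((a₁ : F') / (b₁ : F'))
      = (algebraMap F' F (b₁ : F'))⁻¹
        * (algebraMap F' F (b₁ : F') * y - algebraMap F' F (a₁ : F')) := by
    rw [map_div₀]
    field_simp
  rw [this]
  exact vnu_mul_left V h (vnu_inv_mem V hbV hbu)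

end Lift

section Norm

variable {A : Subalgebra R F'} {B : Subalgebra R F}
variable {N₁ : Ideal A} {n : Ideal B}

/-- a quotient `a₁ / b₁` with `b₁ ∉ N₁` has the value of its numerator -/
theorem valAt_div [N₁.IsPrime] {V' : ValuationSubring F'} {a₁ b₁ : A} (hb₁ : b₁ ∉ N₁) {η : R}
    (hη : a₁ - algebraMap R A η * b₁ ∈ N₁) : ValAt A N₁ V' ((a₁ : F') / (b₁ : F')) η := by
  have hb0 : (b₁ : F') ≠ 0 := by
    intro h0
    apply hb₁
    have : b₁ = 0 := Subtype.ext h0
    rw [this]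
    exact N₁.zero_mem
  exact ValAt.of_frac hb₁ (mul_div_cancel₀ _ hb0) hη

/-- **LAB-NORM, split side.** -/
theorem valAt_norm_split [n.IsPrime] [N₁.IsPrime]
    (hAB : ∀ a : A, algebraMap F' F (a : F') ∈ B)
    (hNn : ∀ a : A, a ∈ N₁ ↔ (⟨algebraMap F' F (a : F'), hAB a⟩ : B) ∈ n)
    {V' : ValuationSubring F'} (hAV' : ChartLe A V') (hth' : PassThrough A N₁ V')
    {V₁ V₂ : ValuationSubring F} (hBV₁ : ChartLe B V₁) (hth₁ : PassThrough B n V₁)
    (hBV₂ : ChartLe B V₂) (hth₂ : PassThrough B n V₂)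
    (hlift₁ : ResLift A B V₁) (hlift₂ : ResLift A B V₂)
    {e : ℕ} (hNR : NormResSplit V' V₁ V₂ e)
    {d : F} {η₁ η₂ : R} (h₁ : ValAt B n V₁ d η₁) (h₂ : ValAt B n V₂ d η₂) :
    ValAt A N₁ V' (Algebra.norm F' d) (η₁ * η₂ ^ e) := by
  obtain ⟨a₁, b₁, hb₁, hη₁, hd₁⟩ := exists_lift_of_valAt hAB hNn hBV₁ hth₁ hlift₁ h₁
  obtain ⟨a₂, b₂, hb₂, hη₂, hd₂⟩ := exists_lift_of_valAt hAB hNn hBV₂ hth₂ hlift₂ h₂
  have hy₁ := sub_div_mem_nonunits hAB hNn hBV₁ hth₁ hb₁ hd₁
  have hy₂ := sub_div_mem_nonunits hAB hNn hBV₂ hth₂ hb₂ hd₂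
  have hN := hNR d (h₁.mem hBV₁ hth₁) (h₂.mem hBV₂ hth₂) _ _ hy₁ hy₂
  have hv₁ : ValAt A N₁ V' ((a₁ : F') / (b₁ : F')) η₁ := valAt_div hb₁ hη₁
  have hv₂ : ValAt A N₁ V' ((a₂ : F') / (b₂ : F')) η₂ := valAt_div hb₂ hη₂
  have hv : ValAt A N₁ V' ((a₁ : F') / (b₁ : F') * ((a₂ : F') / (b₂ : F')) ^ e) (η₁ * η₂ ^ e) :=
    hv₁.mul hAV' hth' (hv₂.pow hAV' hth' e)
  refine hv.congr hAV' ?_
  have : (a₁ : F') / (b₁ : F') * ((a₂ : F') / (b₂ : F')) ^ e - Algebra.norm F' d
      = -(Algebra.norm F' d - (a₁ : F') / (b₁ : F') * ((a₂ : F') / (b₂ : F')) ^ e) := by ring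
  rw [this]
  exact vnu_neg V' hN

/-- **LAB-NORM, purely inseparable side.** -/
theorem valAt_norm_insep [n.IsPrime] [N₁.IsPrime]
    (hAB : ∀ a : A, algebraMap F' F (a : F') ∈ B)
    (hNn : ∀ a : A, a ∈ N₁ ↔ (⟨algebraMap F' F (a : F'), hAB a⟩ : B) ∈ n)
    {V' : ValuationSubring F'} (hAV' : ChartLe A V')
    {V : ValuationSubring F} (hBV : ChartLe B V) (hth : PassThrough B n V)
    {q : ℕ} (hlift : ResLiftPow A B V q) (hNR : NormResInsep V' V q)
    {d : F} {η : R} (h : ValAt B n V d η) :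
    ValAt A N₁ V' (Algebra.norm F' d) (η ^ q) := by
  obtain ⟨a₁, b₁, hb₁, hη₁, hd₁⟩ := exists_lift_pow_of_valAt hAB hNn hBV hth hlift h
  have hy := sub_div_mem_nonunits hAB hNn hBV hth hb₁ hd₁
  have hN := hNR d (h.mem hBV hth) _ hy
  have hv : ValAt A N₁ V' ((a₁ : F') / (b₁ : F')) (η ^ q) := valAt_div hb₁ hη₁
  refine hv.congr hAV' ?_
  have : (a₁ : F') / (b₁ : F') - Algebra.norm F' d
      = -(Algebra.norm F' d - (a₁ : F') / (b₁ : F')) := by ring
  rw [this]
  exact vnu_neg V' hN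

end Norm

end Fermat.Agent.S36.H630

end
-- ===== PACK-END S36/H630/LabNorm.lean

-- ===== PACK-BEGIN S28/H988/Gen.lean
section
/-
S28 / [L.UP] upper bound, helper988.
The generation step (zeta-free): for distinct `p ≠ r` with modular relations
`Φ_p`, `Φ_r` and `e ≠ 0`:  `j(q^{epr}) ∈ k(j(q^{er}), j(q^{ep}))`.
-/




set_option autoImplicit false

noncomputable section

open Polynomial ModularCurve

namespace Fermat.Agent.S28.H988

/-! ### Total versions of `qExpand` and `j(q^e)` -/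

section Basic

variable (k : Type*) [Field k]

/-- `q ↦ q^m`, total in `m` (identity for `m = 0`). -/
def Vm (m : ℕ) : LaurentSeries k →+* LaurentSeries k :=
  if h : m = 0 then RingHom.id _ else @qExpand k _ m ⟨h⟩

theorem Vm_eq (m : ℕ) [NeZero m] : Vm k m = qExpand k m := by
  unfold Vm
  rw [dif_neg (NeZero.ne m)]

theorem Vm_of_ne {m : ℕ} (hm : m ≠ 0) : Vm k m = @qExpand k _ m ⟨hm⟩ := by
  unfold Vm
  rw [dif_neg hm]

theorem Vm_one : Vm k 1 = RingHom.id _ := by
  ext1 f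
  rw [Vm_eq k 1]
  exact qExpand_one_apply f

theorem Vm_injective (m : ℕ) : Function.Injective (Vm k m) := by
  by_cases h : m = 0
  · subst h
    unfold Vm
    rw [dif_pos rfl]
    exact fun _ _ h => h
  · rw [Vm_of_ne k h]
    exact @qExpand_injective k _ m ⟨h⟩

theorem Vm_Vm {m n : ℕ} (hm : m ≠ 0) (hn : n ≠ 0) (f : LaurentSeries k) :
    Vm k m (Vm k n f) = Vm k (m * n) f := by
  have : NeZero m := ⟨hm⟩
  have : NeZero n := ⟨hn⟩
  have : NeZero (m * n) := ⟨Nat.mul_ne_zero hm hn⟩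
  rw [Vm_eq k m, Vm_eq k n, Vm_eq k (m * n)]
  exact qExpand_qExpand n m f

/-- `j(q^e)`, total in `e`. -/
def jd (e : ℕ) : LaurentSeries k := Vm k e (jqModC k)

theorem jd_eq (e : ℕ) [NeZero e] : jd k e = qExpand k e (jqModC k) := by
  unfold jd
  rw [Vm_eq]

theorem jd_one : jd k 1 = jqModC k := by
  unfold jd
  rw [Vm_one]
  rfl

theorem Vm_jd {m e : ℕ} (hm : m ≠ 0) (he : e ≠ 0) : Vm k m (jd k e) = jd k (m * e) := by
  unfold jd
  exact Vm_Vm k hm he _

theorem orderTop_Vm {m : ℕ} (hm : m ≠ 0) (f : LaurentSeries k) (a : ℤ)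
    (h : f.orderTop = (a : WithTop ℤ)) :
    (Vm k m f).orderTop = (((m : ℤ) * a : ℤ) : WithTop ℤ) := by
  have : NeZero m := ⟨hm⟩
  rw [Vm_eq k m]
  have hmpos : (0 : ℤ) < m := by exact_mod_cast Nat.pos_of_ne_zero hm
  apply HahnSeries.orderTop_eq_of_le
  · rw [HahnSeries.mem_support, qExpand_coeff_mul]
    exact HahnSeries.coeff_orderTop_ne h
  · intro g hg
    rw [HahnSeries.mem_support] at hg
    by_cases hdvd : (m : ℤ) ∣ g
    · obtain ⟨c, rfl⟩ := hdvd
      rw [qExpand_coeff_mul] at hg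
      have : (a : WithTop ℤ) ≤ c := by
        rw [← h]; exact HahnSeries.orderTop_le_of_coeff_ne_zero hg
      have hac : a ≤ c := by exact_mod_cast this
      exact mul_le_mul_of_nonneg_left hac hmpos.le
    · exact absurd (qExpand_coeff_of_not_dvd m f hdvd) hg

theorem orderTop_jq : (jqModC k).orderTop = ((-1 : ℤ) : WithTop ℤ) := by
  apply HahnSeries.orderTop_eq_of_le
  · rw [HahnSeries.mem_support, coeff_jqModC_neg_one]
    exact one_ne_zero
  · intro g hg
    rw [HahnSeries.mem_support] at hg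
    by_contra hlt
    exact hg (coeff_jqModC_of_lt k (not_le.mp hlt))

theorem orderTop_jd {e : ℕ} (he : e ≠ 0) :
    (jd k e).orderTop = ((-(e : ℤ) : ℤ) : WithTop ℤ) := by
  unfold jd
  rw [orderTop_Vm k he _ (-1) (orderTop_jq k)]
  congr 1
  ring

theorem jd_ne {e e' : ℕ} (he : e ≠ 0) (he' : e' ≠ 0) (h : e ≠ e') : jd k e ≠ jd k e' := by
  intro heq
  have h1 := orderTop_jd k he
  rw [heq, orderTop_jd k he'] at h1
  have : (-(e' : ℤ)) = -(e : ℤ) := by exact_mod_cast h1
  apply h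
  have : (e' : ℤ) = e := by linarith
  exact_mod_cast this.symm

/-- `Vm` scales orders of nonzero elements. -/
theorem exists_orderTop_Vm (m : ℕ) (hm : m ≠ 0) (c : LaurentSeries k) (hc : Vm k m c ≠ 0) :
    ∃ n : ℤ, (Vm k m c).orderTop = (((m : ℤ) * n : ℤ) : WithTop ℤ) := by
  have hc' : c ≠ 0 := by
    rintro rfl
    exact hc (map_zero _)
  obtain ⟨n, hn⟩ := exists_orderTop_eq c hc'
  exact ⟨n, orderTop_Vm k hm c n hn⟩

/-- `Vm` scales slopes. -/
theorem IsPure.map_Vm {G : Polynomial (LaurentSeries k)} {s : ℤ} (h : IsPure G s) {m : ℕ}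
    (hm : m ≠ 0) : IsPure (G.map (Vm k m)) ((m : ℤ) * s) := by
  have hdeg : (G.map (Vm k m)).natDegree = G.natDegree :=
    natDegree_map_eq_of_injective (Vm_injective k m) G
  have hmpos : (0 : ℤ) < m := by exact_mod_cast Nat.pos_of_ne_zero hm
  refine ⟨h.monic.map _, ?_, ?_⟩
  · intro i
    rw [coeff_map, hdeg]
    by_cases hc : G.coeff i = 0
    · rw [hc, map_zero, HahnSeries.orderTop_zero]; exact le_top
    · obtain ⟨n, hn⟩ := exists_orderTop_eq _ hc
      rw [orderTop_Vm k hm _ n hn]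
      have := h.le_coeff i
      rw [hn] at this
      have h1 : ((G.natDegree : ℤ) - i) * s ≤ n := by exact_mod_cast this
      have h2 : ((G.natDegree : ℤ) - i) * ((m : ℤ) * s) ≤ (m : ℤ) * n := by
        have := mul_le_mul_of_nonneg_left h1 hmpos.le
        linarith
      exact_mod_cast h2
  · rw [coeff_map, hdeg, orderTop_Vm k hm _ _ h.coeff_zero]
    congr 1
    ring

end Basic

/-! ### Specialising a two-variable integral polynomial -/

section PhiAt

variable {S T : Type*} [CommRing S] [CommRing T]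

/-- `Φ(X, y)` for `Φ ∈ ℤ[Y][X]`. -/
def PhiAt (Φ : Polynomial (Polynomial ℤ)) (y : S) : Polynomial S :=
  Φ.map (eval₂RingHom (Int.castRingHom S) y)

theorem PhiAt_map (Φ : Polynomial (Polynomial ℤ)) (y : S) (σ : S →+* T) :
    (PhiAt Φ y).map σ = PhiAt Φ (σ y) := by
  unfold PhiAt
  rw [Polynomial.map_map]
  congr 1
  apply Polynomial.ringHom_ext
  · intro a
    simp
  · simp

theorem PhiAt_monic {Φ : Polynomial (Polynomial ℤ)} (hΦ : Φ.Monic) (y : S) :
    (PhiAt Φ y).Monic := hΦ.map _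

theorem PhiAt_natDegree [Nontrivial S] {Φ : Polynomial (Polynomial ℤ)} (hΦ : Φ.Monic) (y : S) :
    (PhiAt Φ y).natDegree = Φ.natDegree := hΦ.natDegree_map _

end PhiAt

/-! ### Modular relations and the quotient polynomial -/

section Rel

variable (k : Type*) [Field k]

/-- The two modular relations of level `p` over the field `k`:
`Φ(j(q^p), j) = 0` and `Φ(j, j(q^p)) = 0`, for a monic `Φ ∈ ℤ[Y][X]` of degree `p + 1`. -/
structure PhiRel (p : ℕ) (Φ : Polynomial (Polynomial ℤ)) : Prop where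
  monic : Φ.Monic
  natDegree_eq : Φ.natDegree = p + 1
  root_jp : (PhiAt Φ (jqModC k)).IsRoot (jd k p)
  root_j : (PhiAt Φ (jd k p)).IsRoot (jqModC k)

variable {k} {p : ℕ} {Φ : Polynomial (Polynomial ℤ)}

theorem PhiRel.root1 (h : PhiRel k p Φ) (hp : p ≠ 0) {e : ℕ} (he : e ≠ 0) :
    (PhiAt Φ (jd k e)).IsRoot (jd k (e * p)) := by
  have := h.root_jp.map (f := Vm k e)
  rwa [PhiAt_map, Vm_jd k he hp] at this

theorem PhiRel.root2 (h : PhiRel k p Φ) (hp : p ≠ 0) {e : ℕ} (he : e ≠ 0) :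
    (PhiAt Φ (jd k (e * p))).IsRoot (jd k e) := by
  have := h.root_j.map (f := Vm k e)
  rwa [PhiAt_map, Vm_jd k he hp] at this

variable (k) in
/-- The quotient `Φ(X, j(q^e)) / (X - j(q^{ep}))`. -/
def quot (Φ : Polynomial (Polynomial ℤ)) (p e : ℕ) : Polynomial (LaurentSeries k) :=
  PhiAt Φ (jd k e) /ₘ (X - C (jd k (e * p)))

theorem quot_map_Vm (Φ : Polynomial (Polynomial ℤ)) (hp : p ≠ 0) {e m : ℕ} (he : e ≠ 0)
    (hm : m ≠ 0) : (quot k Φ p e).map (Vm k m) = quot k Φ p (m * e) := by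
  unfold quot
  rw [map_divByMonic _ (monic_X_sub_C _), PhiAt_map, Polynomial.map_sub, map_X, map_C,
    Vm_jd k hm he, Vm_jd k hm (Nat.mul_ne_zero he hp), mul_assoc]

theorem PhiRel.quot_spec (h : PhiRel k p Φ) (hp : p ≠ 0) {e : ℕ} (he : e ≠ 0) :
    (X - C (jd k (e * p))) * quot k Φ p e = PhiAt Φ (jd k e) :=
  mul_divByMonic_eq_iff_isRoot.mpr (h.root1 hp he)

theorem PhiRel.quot_monic (h : PhiRel k p Φ) (e : ℕ) : (quot k Φ p e).Monic := by
  unfold quot
  have hm : (PhiAt Φ (jd k e)).Monic := PhiAt_monic h.monic _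
  have hd : (X - C (jd k (e * p)) : Polynomial (LaurentSeries k)).degree
      ≤ (PhiAt Φ (jd k e)).degree := by
    rw [degree_X_sub_C, degree_eq_natDegree hm.ne_zero, PhiAt_natDegree h.monic, h.natDegree_eq]
    exact_mod_cast Nat.le_add_left 1 p
  rw [Monic, leadingCoeff_divByMonic_of_monic (monic_X_sub_C _) hd]
  exact hm

theorem PhiRel.quot_natDegree (h : PhiRel k p Φ) (e : ℕ) : (quot k Φ p e).natDegree = p := by
  unfold quot
  rw [natDegree_divByMonic _ (monic_X_sub_C _), natDegree_X_sub_C, PhiAt_natDegree h.monic,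
    h.natDegree_eq]
  rfl

theorem PhiRel.isPure_quot_self (h : PhiRel k p Φ) (hp : 1 < p) : IsPure (quot k Φ p p) (-1) := by
  have hp0 : p ≠ 0 := by omega
  have hmap : quot k Φ p p = (quot k Φ p 1).map (Vm k p) := by
    rw [quot_map_Vm Φ hp0 one_ne_zero hp0, mul_one]
  refine isPure_of_root p _ (h.quot_monic p) (h.quot_natDegree p) ?_ (jqModC k) (orderTop_jq k) ?_
  · intro i hi
    rw [hmap, coeff_map] at hi ⊢
    exact exists_orderTop_Vm k p hp0 _ hi
  · have h1 := h.root2 hp0 one_ne_zero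
    rw [one_mul, jd_one] at h1
    have h2 := h.quot_spec hp0 hp0
    rw [IsRoot.def, ← h2, eval_mul, eval_sub, eval_X, eval_C] at h1
    rcases mul_eq_zero.mp h1 with h3 | h3
    · exfalso
      have h4 : jd k 1 = jd k (p * p) := by
        rw [jd_one]; exact sub_eq_zero.mp h3
      refine jd_ne k one_ne_zero (Nat.mul_ne_zero hp0 hp0) ?_ h4
      intro h5
      have : 1 < p * p := by nlinarith
      omega
    · exact h3

theorem PhiRel.isPure_quot (h : PhiRel k p Φ) (hp : 1 < p) {m : ℕ} (hm : m ≠ 0) :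
    IsPure (quot k Φ p (m * p)) (-(m : ℤ)) := by
  have hp0 : p ≠ 0 := by omega
  have := (h.isPure_quot_self hp).map_Vm k hm
  rw [quot_map_Vm Φ hp0 hp0 hm] at this
  have e : (m : ℤ) * (-1) = -(m : ℤ) := by ring
  rwa [e] at this

/-- Coprimality of the two quotient polynomials (zeta-free, via Newton polygons). -/
theorem isCoprime_quot {r : ℕ} {Φr : Polynomial (Polynomial ℤ)}
    (hΦ : PhiRel k p Φ) (hΦr : PhiRel k r Φr) (hp : 1 < p) (hr : 1 < r) (hpr : p ≠ r)
    {e : ℕ} (he : e ≠ 0) :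
    IsCoprime (quot k Φ p (e * r)) (quot k Φr r (e * p)) := by
  have hp0 : p ≠ 0 := by omega
  have hr0 : r ≠ 0 := by omega
  have hpr0 : p * r ≠ 0 := Nat.mul_ne_zero hp0 hr0
  rw [← isCoprime_map (Vm k (p * r))]
  rw [quot_map_Vm Φ hp0 (Nat.mul_ne_zero he hr0) hpr0,
    quot_map_Vm Φr hr0 (Nat.mul_ne_zero he hp0) hpr0]
  have e1 : p * r * (e * r) = (e * r * r) * p := by ring
  have e2 : p * r * (e * p) = (e * p * p) * r := by ring
  rw [e1, e2]
  have hm1 : e * r * r ≠ 0 := Nat.mul_ne_zero (Nat.mul_ne_zero he hr0) hr0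
  have hm2 : e * p * p ≠ 0 := Nat.mul_ne_zero (Nat.mul_ne_zero he hp0) hp0
  refine (hΦ.isPure_quot hp hm1).isCoprime (hΦr.isPure_quot hr hm2) ?_
  intro hcon
  have h1 : ((e * r * r : ℕ) : ℤ) = ((e * p * p : ℕ) : ℤ) := by linarith
  have h2 : e * r * r = e * p * p := by exact_mod_cast h1
  have h3 : r * r = p * p := by
    have : e * (r * r) = e * (p * p) := by rw [← mul_assoc, ← mul_assoc]; exact h2
    exact Nat.eq_of_mul_eq_mul_left (Nat.pos_of_ne_zero he) this
  have h4 : r = p := by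
    rcases lt_trichotomy r p with hlt | heq | hgt
    · exact absurd h3 (ne_of_lt (Nat.mul_lt_mul'' hlt hlt))
    · exact heq
    · exact absurd h3 (ne_of_gt (Nat.mul_lt_mul'' hgt hgt))
  exact hpr h4.symm

/-- **Generation step.** If an intermediate field contains `j(q^{er})` and `j(q^{ep})`
(`p ≠ r`), then it contains `j(q^{epr})`. -/
theorem jd_mem_of_mem {r : ℕ} {Φr : Polynomial (Polynomial ℤ)}
    (hΦ : PhiRel k p Φ) (hΦr : PhiRel k r Φr) (hp : 1 < p) (hr : 1 < r) (hpr : p ≠ r)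
    {e : ℕ} (he : e ≠ 0) (F : IntermediateField k (LaurentSeries k))
    (h1 : jd k (e * r) ∈ F) (h2 : jd k (e * p) ∈ F) : jd k (e * p * r) ∈ F := by
  have hp0 : p ≠ 0 := by omega
  have hr0 : r ≠ 0 := by omega
  have hcomm : e * r * p = e * p * r := Nat.mul_right_comm e r p
  set A : Polynomial F := PhiAt Φ (⟨jd k (e * r), h1⟩ : F) with hA
  set B : Polynomial F := PhiAt Φr (⟨jd k (e * p), h2⟩ : F) with hB
  have hAmap : A.map (algebraMap F (LaurentSeries k)) = PhiAt Φ (jd k (e * r)) := by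
    rw [hA, PhiAt_map]; rfl
  have hBmap : B.map (algebraMap F (LaurentSeries k)) = PhiAt Φr (jd k (e * p)) := by
    rw [hB, PhiAt_map]; rfl
  have hAne : A ≠ 0 := (PhiAt_monic hΦ.monic _).ne_zero
  have hrootA : (A.map (algebraMap F (LaurentSeries k))).IsRoot (jd k (e * p * r)) := by
    rw [hAmap, ← hcomm]
    exact hΦ.root1 hp0 (Nat.mul_ne_zero he hr0)
  have hrootB : (B.map (algebraMap F (LaurentSeries k))).IsRoot (jd k (e * p * r)) := by
    rw [hBmap]
    exact hΦr.root1 hr0 (Nat.mul_ne_zero he hp0)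
  have hcop : IsCoprime ((A.map (algebraMap F (LaurentSeries k))) /ₘ (X - C (jd k (e * p * r))))
      ((B.map (algebraMap F (LaurentSeries k))) /ₘ (X - C (jd k (e * p * r)))) := by
    have := isCoprime_quot hΦ hΦr hp hr hpr he
    unfold quot at this
    rw [hcomm] at this
    rwa [hAmap, hBmap]
  obtain ⟨y, hy⟩ := mem_range_of_common_root A B hAne _ hrootA hrootB hcop
  rw [← hy]
  exact y.2

end Rel

end Fermat.Agent.S28.H988

end

end
-- ===== PACK-END S28/H988/Gen.lean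

-- ===== PACK-BEGIN A2/H708/GaussInfModular.lean
section




/-!
# A2 (helper708): `modularFunctionFieldFull N` is generated by integer series

`intGen_full N : IntGen (modularFunctionFieldFull N)` : every element of
`ℚ(j(t^d) : d ∣ N) ⊆ ℚ((t))` is a fraction `P / Q` of series with INTEGER coefficients lying in
the field.  This is the hypothesis `hgen` of the Gauss valuation ring `gaussInf` (all levels `N`,
all residue characteristics).
-/

set_option autoImplicit false

noncomputable section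

namespace Fermat.Agent.A2.H708

open ModularCurve HahnSeries IntermediateField Fermat.Agent.S18.H602

theorem castQ_injective : Function.Injective castQ :=
  coeffMap_injective _ (RingHom.injective_int (Int.castRingHom ℚ))

/-- `j(t^d)` with integer coefficients. -/
def jInt (d : ℕ) [NeZero d] : LaurentSeries ℤ := jqNModC ℤ d

theorem castQ_jInt (d : ℕ) [NeZero d] : castQ (jInt d) = qExpand ℚ d jq := by
  rw [castQ, jInt, coeffMap_jqNModC, jqNModC, jqModC_rat]

theorem castQ_single_zero (a : ℤ) :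
    castQ (HahnSeries.single 0 a) = algebraMap ℚ (LaurentSeries ℚ) (a : ℚ) := by
  rw [castQ, coeffMap_single, algebraMap_laurentSeries_eq_single]
  rfl

/-- fractions of integer series in a subfield of `ℚ((t))`. -/
def IsIntFrac (F₀ : IntermediateField ℚ (LaurentSeries ℚ)) (z : LaurentSeries ℚ) : Prop :=
  ∃ P Q : LaurentSeries ℤ, Q ≠ 0 ∧ castQ Q ∈ F₀ ∧ z * castQ Q = castQ P

theorem castQ_ne_zero {Q : LaurentSeries ℤ} (h : Q ≠ 0) : castQ Q ≠ 0 :=
  fun h0 => h (castQ_injective (h0.trans (map_zero _).symm))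

/-- A field generated over `ℚ` by integer series consists of fractions of integer series. -/
theorem intGen_adjoin (S : Set (LaurentSeries ℤ)) :
    IntGen (IntermediateField.adjoin ℚ (castQ '' S)) := by
  intro z hz
  show IsIntFrac _ z
  induction hz using IntermediateField.adjoin_induction with
  | mem y hy =>
    obtain ⟨s, hs, rfl⟩ := hy
    refine ⟨s, 1, one_ne_zero, ?_, ?_⟩
    · rw [map_one]; exact one_mem _
    · rw [map_one, mul_one]
  | algebraMap c =>
    refine ⟨HahnSeries.single 0 c.num, HahnSeries.single 0 (c.den : ℤ), ?_, ?_, ?_⟩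
    · intro h
      have := congrArg (fun z => z.coeff 0) h
      simp at this
    · rw [castQ_single_zero]
      exact IntermediateField.algebraMap_mem _ _
    · rw [castQ_single_zero, castQ_single_zero, ← map_mul]
      congr 1
      have := Rat.mul_den_eq_num c
      exact_mod_cast this
  | add x y hx hy ihx ihy =>
    obtain ⟨P, Q, h0, hm, he⟩ := ihx
    obtain ⟨P', Q', h0', hm', he'⟩ := ihy
    refine ⟨P * Q' + P' * Q, Q * Q', mul_ne_zero h0 h0', ?_, ?_⟩
    · rw [map_mul]; exact mul_mem hm hm'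
    · rw [map_add, map_mul, map_mul, map_mul, ← he, ← he']
      ring
  | inv x hx ihx =>
    obtain ⟨P, Q, h0, hm, he⟩ := ihx
    by_cases hx0 : x = 0
    · refine ⟨0, 1, one_ne_zero, ?_, ?_⟩
      · rw [map_one]; exact one_mem _
      · rw [hx0, inv_zero, zero_mul, map_zero]
    · have hP : P ≠ 0 := by
        rintro rfl
        rw [map_zero] at he
        rcases mul_eq_zero.mp he with h | h
        · exact hx0 h
        · exact castQ_ne_zero h0 h
      refine ⟨Q, P, hP, ?_, ?_⟩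
      · rw [← he]
        exact mul_mem hx hm
      · rw [← he, ← mul_assoc, inv_mul_cancel₀ hx0, one_mul]
  | mul x y hx hy ihx ihy =>
    obtain ⟨P, Q, h0, hm, he⟩ := ihx
    obtain ⟨P', Q', h0', hm', he'⟩ := ihy
    refine ⟨P * P', Q * Q', mul_ne_zero h0 h0', ?_, ?_⟩
    · rw [map_mul]; exact mul_mem hm hm'
    · rw [map_mul, map_mul, ← he, ← he']
      ring

/-- the integer generators of `modularFunctionFieldFull N`. -/
def intGens (N : ℕ) : Set (LaurentSeries ℤ) :=
  {x | ∃ (d : ℕ) (_ : NeZero d), d ∣ N ∧ x = jInt d}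

theorem castQ_image_intGens (N : ℕ) : castQ '' intGens N = divisorExpansions N := by
  ext x
  constructor
  · rintro ⟨_, ⟨d, hd, hdN, rfl⟩, rfl⟩
    exact ⟨d, hd, hdN, castQ_jInt d⟩
  · rintro ⟨d, hd, hdN, rfl⟩
    exact ⟨jInt d, ⟨d, hd, hdN, rfl⟩, castQ_jInt d⟩

/-- **`ℚ(j(t^d) : d ∣ N)` is generated by integer series** (every level `N`). -/
theorem intGen_full (N : ℕ) : IntGen (modularFunctionFieldFull N) := by
  have h := intGen_adjoin (intGens N)
  rw [castQ_image_intGens] at h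
  exact h

end Fermat.Agent.A2.H708

end
end
-- ===== PACK-END A2/H708/GaussInfModular.lean

-- ===== PACK-BEGIN A2/Mod/H732/SepTwoVal.lean
section



/-!
# A2 / MOD, piece S4 (SepCoord producer), part 2 (helper732): unit discriminant for two
unramified extensions with separable residue fields

Mathlib + `A2/H48` (`TwoVal`, `TwoExt`).  `K` a field with a valuation ring `O` with uniformiser
`ϖ`, `F / K` finite, `V₁ ≠ V₂` valuation rings of `F` over `O`, both with uniformiser `ϖ`,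
`m` a *good* family (`H48.TwoExt.IsGood`: an `O`-basis of `V₁ ∩ V₂`) with `[F : K]` members.
If both residue extensions are separable (liftable elementwise form), then the discriminant of
`m` is a unit of `O`.

* `valIdeal`, `mem_valIdeal`, `valIdeal_isPrime` : the prime `𝒪 ∩ 𝔪_V` of `𝒪 = V₁ ∩ V₂`;
* `discr_unit_of_isGood` : the theorem.
-/

set_option autoImplicit false
set_option linter.style.haveILetI false
set_option linter.unusedSectionVars false

noncomputable section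

namespace Fermat.Agent.A2.Mod.H732

open Polynomial Fermat.Agent.A2.H48

section Ring

variable {K F : Type*} [Field K] [Field F] [Algebra K F]

/-- `𝒪 = V₁ ∩ V₂` as a subring of `F`. -/
def twoRing (V₁ V₂ : ValuationSubring F) : Subring F := V₁.toSubring ⊓ V₂.toSubring

theorem mem_twoRing {V₁ V₂ : ValuationSubring F} {z : F} :
    z ∈ twoRing V₁ V₂ ↔ z ∈ V₁ ∧ z ∈ V₂ := Iff.rfl

/-- The structure map `O → V₁ ∩ V₂`. -/
def twoRingHom {O : ValuationSubring K} {V₁ V₂ : ValuationSubring F}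
    (le₁ : ∀ a ∈ O, algebraMap K F a ∈ V₁) (le₂ : ∀ a ∈ O, algebraMap K F a ∈ V₂) :
    O →+* twoRing V₁ V₂ where
  toFun a := ⟨algebraMap K F (a : K), le₁ a a.2, le₂ a a.2⟩
  map_one' := Subtype.ext (map_one (algebraMap K F))
  map_mul' a b := Subtype.ext (map_mul (algebraMap K F) (a : K) (b : K))
  map_zero' := Subtype.ext (map_zero (algebraMap K F))
  map_add' a b := Subtype.ext (map_add (algebraMap K F) (a : K) (b : K))

/-- The ideal `T ∩ 𝔪_V` of a subring `T ⊆ V`. -/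
def valIdeal (T : Subring F) (V : ValuationSubring F) (hTV : ∀ z ∈ T, z ∈ V) : Ideal T where
  carrier := {s | V.valuation (s : F) < 1}
  add_mem' := fun {a b} ha hb => by
    show V.valuation ((a : F) + (b : F)) < 1
    exact Valuation.map_add_lt _ ha hb
  zero_mem' := by
    show V.valuation ((0 : T) : F) < 1
    rw [ZeroMemClass.coe_zero, map_zero]
    exact zero_lt_one
  smul_mem' := fun c a ha => by
    show V.valuation ((c : F) * (a : F)) < 1
    rw [map_mul]
    calc V.valuation (c : F) * V.valuation (a : F) ≤ 1 * V.valuation (a : F) :=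
          mul_le_mul_left ((V.valuation_le_one_iff _).2 (hTV c c.2)) _
      _ < 1 := by rw [one_mul]; exact ha

theorem mem_valIdeal {T : Subring F} {V : ValuationSubring F} {hTV : ∀ z ∈ T, z ∈ V} {s : T} :
    s ∈ valIdeal T V hTV ↔ V.valuation (s : F) < 1 := Iff.rfl

theorem valIdeal_isPrime (T : Subring F) (V : ValuationSubring F) (hTV : ∀ z ∈ T, z ∈ V) :
    (valIdeal T V hTV).IsPrime := by
  refine ⟨?_, ?_⟩
  · intro h
    have h1 : (1 : T) ∈ valIdeal T V hTV := by rw [h]; trivial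
    rw [mem_valIdeal, OneMemClass.coe_one, map_one] at h1
    exact lt_irrefl _ h1
  · intro a b hab
    rw [mem_valIdeal, Subring.coe_mul, map_mul] at hab
    by_contra hcon
    rw [not_or, mem_valIdeal, mem_valIdeal, not_lt, not_lt] at hcon
    have h1 : (1 : _) ≤ V.valuation (a : F) * V.valuation (b : F) := by
      calc (1 : _) = 1 * 1 := (one_mul 1).symm
        _ ≤ V.valuation (a : F) * V.valuation (b : F) := mul_le_mul' hcon.1 hcon.2
    exact absurd hab (not_lt.2 h1)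

end Ring

section Main

variable {K F : Type*} [Field K] [Field F] [Algebra K F]
variable {O : ValuationSubring K} {V₁ V₂ : ValuationSubring F} {ϖ : K}

/-- `V ∩ K = O` on non-units: for `r ∈ O`, `r` is a non-unit of `O` iff it is one of `V`. -/
theorem val_algebraMap_lt_one_iff (hO : IsUnif O ϖ) (hu : IsUnif V₁ (algebraMap K F ϖ))
    (le₁ : ∀ a ∈ O, algebraMap K F a ∈ V₁) {r : K} (hr : r ∈ O) :
    V₁.valuation (algebraMap K F r) < 1 ↔ O.valuation r < 1 := by
  constructor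
  · intro h
    by_contra hcon
    have h1 : O.valuation r = 1 :=
      le_antisymm ((O.valuation_le_one_iff r).2 hr) (not_lt.1 hcon)
    have hr0 : r ≠ 0 := by
      rintro rfl
      rw [map_zero] at h1
      exact zero_ne_one h1
    have h2 : r⁻¹ ∈ O := by
      rw [← O.valuation_le_one_iff, map_inv₀, h1, inv_one]
    have h3 : V₁.valuation (algebraMap K F r⁻¹) ≤ 1 := (V₁.valuation_le_one_iff _).2 (le₁ _ h2)
    have h4 : V₁.valuation (algebraMap K F r) * V₁.valuation (algebraMap K F r⁻¹) = 1 := by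
      rw [← map_mul, ← map_mul, mul_inv_cancel₀ hr0, map_one, map_one]
    have h5 : V₁.valuation (algebraMap K F r) * V₁.valuation (algebraMap K F r⁻¹) < 1 := by
      calc V₁.valuation (algebraMap K F r) * V₁.valuation (algebraMap K F r⁻¹)
          ≤ V₁.valuation (algebraMap K F r) * 1 := mul_le_mul_right h3 _
        _ < 1 := by rw [mul_one]; exact h
    rw [h4] at h5
    exact lt_irrefl _ h5
  · intro h
    have h1 : r * ϖ⁻¹ ∈ O := hO.mul_inv_mem_iff.2 h
    have h2 : algebraMap K F r = algebraMap K F (r * ϖ⁻¹) * algebraMap K F ϖ := by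
      rw [← map_mul, mul_assoc, inv_mul_cancel₀ hO.ne_zero, mul_one]
    rw [h2, map_mul]
    calc V₁.valuation (algebraMap K F (r * ϖ⁻¹)) * V₁.valuation (algebraMap K F ϖ)
        ≤ 1 * V₁.valuation (algebraMap K F ϖ) :=
          mul_le_mul_left ((V₁.valuation_le_one_iff _).2 (le₁ _ h1)) _
      _ < 1 := by rw [one_mul]; exact hu.val_lt_one

/-- **Unit discriminant.**  In the situation of `H48.TwoExt` (two unramified extensions `V₁ ≠ V₂`
of `O` exhausting the degree), if both residue extensions are separable, then the discriminant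
of every good family `m` is a unit of `O`. -/
theorem discr_unit_of_isGood [FiniteDimensional K F]
    {ι : Type*} [Fintype ι] [DecidableEq ι] {m : ι → F}
    (hO : IsUnif O ϖ) (hu₁ : IsUnif V₁ (algebraMap K F ϖ)) (hu₂ : IsUnif V₂ (algebraMap K F ϖ))
    (le₁ : ∀ a ∈ O, algebraMap K F a ∈ V₁) (le₂ : ∀ a ∈ O, algebraMap K F a ∈ V₂)
    (hne : V₁ ≠ V₂)
    (hm : TwoExt.IsGood O V₁ V₂ ϖ m) (hcard : Fintype.card ι = Module.finrank K F)
    (hs₁ : ∀ f : F, f ∈ V₁ → f ∈ V₂ → ∃ Q : Polynomial O,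
        V₁.valuation (Q.eval₂ ((algebraMap K F).comp O.subtype) f) < 1 ∧
        V₁.valuation ((derivative Q).eval₂ ((algebraMap K F).comp O.subtype) f) = 1)
    (hs₂ : ∀ f : F, f ∈ V₁ → f ∈ V₂ → ∃ Q : Polynomial O,
        V₂.valuation (Q.eval₂ ((algebraMap K F).comp O.subtype) f) < 1 ∧
        V₂.valuation ((derivative Q).eval₂ ((algebraMap K F).comp O.subtype) f) = 1) :
    O.valuation (Algebra.discr K m) = 1 := by
  classical
  set π := algebraMap K F ϖ with hπ
  have hπ0 : π ≠ 0 := hu₁.ne_zero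
  -- the basis of `F / K`
  have hpos : 0 < Module.finrank K F := Module.finrank_pos
  haveI : Nonempty ι := by
    rw [← Fintype.card_pos_iff, hcard]; exact hpos
  set B := basisOfLinearIndependentOfCardEqFinrank (hm.linearIndependent hO) hcard with hBdef
  have hB : ∀ l, B l = m l := fun l => by
    rw [hBdef, coe_basisOfLinearIndependentOfCardEqFinrank]
  -- the ring `S = V₁ ∩ V₂` as an `O`-algebra
  letI algS : Algebra O (twoRing V₁ V₂) := (twoRingHom le₁ le₂).toAlgebra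
  have hcoe_alg : ∀ r : O, ((algebraMap O (twoRing V₁ V₂) r : twoRing V₁ V₂) : F) =
      algebraMap K F (r : K) := fun _ => rfl
  have hsmul : ∀ (r : O) (s : twoRing V₁ V₂), ((r • s : twoRing V₁ V₂) : F) =
      (r : K) • (s : F) := by
    intro r s
    rw [Algebra.smul_def, Subring.coe_mul, hcoe_alg, Algebra.smul_def]
  -- the coordinate map
  let φ : twoRing V₁ V₂ →ₗ[O] (ι → O) :=
    { toFun := fun s l => ⟨B.repr (s : F) l,
        TwoExt.IsGood.repr_mem hO le₁ le₂ hm B hB s.2.1 s.2.2 l⟩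
      map_add' := fun s t => by
        funext l
        apply Subtype.ext
        simp only [Subring.coe_add, map_add, Finsupp.coe_add, Pi.add_apply]
        rfl
      map_smul' := fun r s => by
        funext l
        apply Subtype.ext
        simp only [hsmul, map_smul, Finsupp.coe_smul, Pi.smul_apply, RingHom.id_apply]
        rfl }
  have hφ : ∀ (s : twoRing V₁ V₂) (l : ι), ((φ s l : O) : K) = B.repr (s : F) l := fun _ _ => rfl
  have hφinj : Function.Injective φ := by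
    intro s t hst
    apply Subtype.ext
    apply B.repr.injective
    ext l
    rw [← hφ, ← hφ, hst]
  have hmS : ∀ l, m l ∈ twoRing V₁ V₂ := fun l => ⟨hm.1 l, hm.2.1 l⟩
  have hφm : ∀ l, φ ⟨m l, hmS l⟩ = Pi.single l 1 := by
    intro l
    funext l'
    apply Subtype.ext
    rw [hφ]
    show B.repr (m l) l' = (((Pi.single l (1 : O) : ι → O) l' : O) : K)
    rw [← hB, B.repr_self, Finsupp.single_apply, Pi.single_apply]
    by_cases h : l = l'
    · subst h; simp
    · rw [if_neg h, if_neg (fun h' => h h'.symm)]; rfl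
  have hφsurj : Function.Surjective φ := by
    intro f
    refine ⟨∑ l, f l • (⟨m l, hmS l⟩ : twoRing V₁ V₂), ?_⟩
    rw [map_sum]
    simp only [map_smul, hφm]
    funext l'
    rw [Finset.sum_apply]
    simp only [Pi.smul_apply, Pi.single_apply, smul_eq_mul, mul_ite, mul_one, mul_zero]
    rw [Finset.sum_eq_single l']
    · simp
    · intro l _ hl
      rw [if_neg (fun h => hl h.symm)]
    · intro h
      exact absurd (Finset.mem_univ l') h
  let bS : Module.Basis ι O (twoRing V₁ V₂) :=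
    Module.Basis.ofEquivFun (LinearEquiv.ofBijective φ ⟨hφinj, hφsurj⟩)
  have hbS : ∀ l, bS l = ⟨m l, hmS l⟩ := by
    intro l
    show (Module.Basis.ofEquivFun (LinearEquiv.ofBijective φ ⟨hφinj, hφsurj⟩)) l = _
    rw [Module.Basis.coe_ofEquivFun]
    rw [LinearEquiv.symm_apply_eq]
    exact (hφm l).symm
  have hbSrepr : ∀ (s : twoRing V₁ V₂) (l : ι), ((bS.repr s l : O) : K) = B.repr (s : F) l := by
    intro s l
    show (((Module.Basis.ofEquivFun (LinearEquiv.ofBijective φ ⟨hφinj, hφsurj⟩)).repr s l : O)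
      : K) = _
    rw [Module.Basis.ofEquivFun_repr_apply]
    rfl
  haveI : Module.Free O (twoRing V₁ V₂) := Module.Free.of_basis bS
  haveI : Module.Finite O (twoRing V₁ V₂) := Module.Finite.of_basis bS
  haveI : Algebra.IsIntegral O (twoRing V₁ V₂) := Algebra.IsIntegral.of_finite _ _
  -- the two primes
  set P₁ : Ideal (twoRing V₁ V₂) := valIdeal (twoRing V₁ V₂) V₁ (fun z hz => hz.1) with hP₁
  set P₂ : Ideal (twoRing V₁ V₂) := valIdeal (twoRing V₁ V₂) V₂ (fun z hz => hz.2) with hP₂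
  have hP₁prime : P₁.IsPrime := valIdeal_isPrime _ _ _
  have hP₂prime : P₂.IsPrime := valIdeal_isPrime _ _ _
  have hϖmem : (⟨ϖ, hO.mem⟩ : O) ∈ IsLocalRing.maximalIdeal O :=
    (ValuationSubring.valuation_lt_one_iff O _).2 hO.val_lt_one
  have hmap₁ : Ideal.map (algebraMap O (twoRing V₁ V₂)) (IsLocalRing.maximalIdeal O) ≤ P₁ := by
    rw [Ideal.map_le_iff_le_comap]
    intro r hr
    rw [Ideal.mem_comap, hP₁, mem_valIdeal, hcoe_alg]
    exact (val_algebraMap_lt_one_iff hO hu₁ le₁ r.2).2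
      ((ValuationSubring.valuation_lt_one_iff O r).1 hr)
  have hmap₂ : Ideal.map (algebraMap O (twoRing V₁ V₂)) (IsLocalRing.maximalIdeal O) ≤ P₂ := by
    rw [Ideal.map_le_iff_le_comap]
    intro r hr
    rw [Ideal.mem_comap, hP₂, mem_valIdeal, hcoe_alg]
    exact (val_algebraMap_lt_one_iff hO hu₂ le₂ r.2).2
      ((ValuationSubring.valuation_lt_one_iff O r).1 hr)
  have hinf : P₁ ⊓ P₂ = Ideal.map (algebraMap O (twoRing V₁ V₂)) (IsLocalRing.maximalIdeal O) := by
    refine le_antisymm ?_ (le_inf hmap₁ hmap₂)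
    rintro s ⟨hs1, hs2⟩
    have h1 : (s : F) * π⁻¹ ∈ V₁ := hu₁.mul_inv_mem_iff.2 hs1
    have h2 : (s : F) * π⁻¹ ∈ V₂ := hu₂.mul_inv_mem_iff.2 hs2
    have hs : s = algebraMap O (twoRing V₁ V₂) ⟨ϖ, hO.mem⟩ *
        (⟨(s : F) * π⁻¹, h1, h2⟩ : twoRing V₁ V₂) := by
      apply Subtype.ext
      rw [Subring.coe_mul, hcoe_alg]
      show (s : F) = π * ((s : F) * π⁻¹)
      field_simp
    rw [hs]
    exact Ideal.mul_mem_right _ _ (Ideal.mem_map_of_mem _ hϖmem)
  have hcomap : ∀ P : Ideal (twoRing V₁ V₂), P.IsPrime →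
      Ideal.map (algebraMap O (twoRing V₁ V₂)) (IsLocalRing.maximalIdeal O) ≤ P → P.IsMaximal := by
    intro P hP hle
    haveI := hP
    apply Ideal.isMaximal_of_isIntegral_of_isMaximal_comap (R := O) P
    have : Ideal.comap (algebraMap O (twoRing V₁ V₂)) P = IsLocalRing.maximalIdeal O :=
      ((IsLocalRing.maximalIdeal.isMaximal O).eq_of_le (Ideal.comap_ne_top _ hP.ne_top)
        (Ideal.map_le_iff_le_comap.1 hle)).symm
    rw [this]
    exact IsLocalRing.maximalIdeal.isMaximal O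
  have hP₁max : P₁.IsMaximal := hcomap P₁ hP₁prime hmap₁
  have hP₂max : P₂.IsMaximal := hcomap P₂ hP₂prime hmap₂
  have hPne : P₁ ≠ P₂ := by
    obtain ⟨g, hg1, hg2, hg3⟩ := exists_approx hu₁ hu₂ hne (f := 1) (k := 0) (one_mem _)
      (by rw [pow_zero, one_mul]; exact one_mem _)
    have hgV₂ : g ∈ V₂ := by
      have : g = g * π⁻¹ * π := by field_simp
      rw [this]
      exact mul_mem hg3 hu₂.mem
    intro hP
    have hgP₂ : (⟨g, hg1, hgV₂⟩ : twoRing V₁ V₂) ∈ P₂ := by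
      rw [hP₂, mem_valIdeal]
      exact hu₂.mul_inv_mem_iff.1 hg3
    rw [← hP, hP₁, mem_valIdeal] at hgP₂
    have h1 : V₁.valuation (g - 1) < 1 := hu₁.mul_inv_mem_iff.1 hg2
    have h2 : V₁.valuation (1 : F) < 1 := by
      have : (1 : F) = g - (g - 1) := by ring
      rw [this]
      exact Valuation.map_sub_lt _ hgP₂ h1
    rw [map_one] at h2
    exact lt_irrefl _ h2
  -- evaluation of polynomials
  have hev : ∀ (Q : Polynomial O) (s : twoRing V₁ V₂),
      ((aeval s Q : twoRing V₁ V₂) : F) = Q.eval₂ ((algebraMap K F).comp O.subtype) (s : F) := by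
    intro Q s
    have h := Polynomial.hom_eval₂ Q (algebraMap O (twoRing V₁ V₂)) (twoRing V₁ V₂).subtype s
    rw [aeval_def]
    exact h
  have hsepS₁ : ∀ s : twoRing V₁ V₂, ∃ Q : Polynomial O,
      aeval s Q ∈ P₁ ∧ aeval s (derivative Q) ∉ P₁ := by
    intro s
    obtain ⟨Q, hQ1, hQ2⟩ := hs₁ s s.2.1 s.2.2
    refine ⟨Q, ?_, ?_⟩
    · rw [hP₁, mem_valIdeal, hev]; exact hQ1
    · rw [hP₁, mem_valIdeal, hev, hQ2]; exact lt_irrefl _
  have hsepS₂ : ∀ s : twoRing V₁ V₂, ∃ Q : Polynomial O,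
      aeval s Q ∈ P₂ ∧ aeval s (derivative Q) ∉ P₂ := by
    intro s
    obtain ⟨Q, hQ1, hQ2⟩ := hs₂ s s.2.1 s.2.2
    refine ⟨Q, ?_, ?_⟩
    · rw [hP₂, mem_valIdeal, hev]; exact hQ1
    · rw [hP₂, mem_valIdeal, hev, hQ2]; exact lt_irrefl _
  have hunit : IsUnit (Algebra.discr O bS) :=
    isUnit_discr_of_two_maximal bS P₁ P₂ hP₁max hP₂max hPne hinf hsepS₁ hsepS₂
  -- comparison of traces and discriminants
  have htr : ∀ s : twoRing V₁ V₂, ((Algebra.trace O (twoRing V₁ V₂) s : O) : K) =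
      Algebra.trace K F (s : F) := by
    intro s
    rw [Algebra.trace_eq_matrix_trace bS, Algebra.trace_eq_matrix_trace B, Matrix.trace,
      Matrix.trace]
    rw [← ValuationSubring.algebraMap_apply, map_sum]
    refine Finset.sum_congr rfl fun i _ => ?_
    rw [Matrix.diag_apply, Matrix.diag_apply, Algebra.leftMulMatrix_eq_repr_mul,
      Algebra.leftMulMatrix_eq_repr_mul, ValuationSubring.algebraMap_apply, hbSrepr,
      Subring.coe_mul, hbS, hB]
  have hdiscr : ((Algebra.discr O bS : O) : K) = Algebra.discr K m := by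
    rw [Algebra.discr_def, Algebra.discr_def, ← ValuationSubring.algebraMap_apply,
      RingHom.map_det]
    congr 1
    ext i j
    rw [RingHom.mapMatrix_apply, Matrix.map_apply, Algebra.traceMatrix_apply,
      Algebra.traceMatrix_apply, Algebra.traceForm_apply, Algebra.traceForm_apply,
      ValuationSubring.algebraMap_apply, htr, Subring.coe_mul, hbS, hbS]
  obtain ⟨u, hu⟩ := hunit
  rw [← hdiscr, ← hu]
  exact ValuationSubring.valuation_unit O u

end Main

end Fermat.Agent.A2.Mod.H732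

end
end
-- ===== PACK-END A2/Mod/H732/SepTwoVal.lean

-- ===== PACK-BEGIN Lib/Haupt/Coeffs.lean
section


/-!
# The four formal modular identities, up to the Sturm bound (helper637)

`Phi1 … Phi4 : PowerSeries ℤ` are the differences of the two sides of the modular-form identities
behind the Hauptmodul relations for `Γ₀(2)` and `Γ₀(3)`.  Here we check by a kernel computation
that their coefficients vanish up to the Sturm bound.
-/

set_option autoImplicit false

noncomputable section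

namespace Fermat.Agent.Lib.Haupt

open PowerSeries

/-- The formal `E₄`. -/
abbrev E4Z : PowerSeries ℤ := ModularCurve.eisenstein4

/-- The formal `Δ = X · ∏ (1 - Xⁿ)²⁴` over `ℤ`. -/
def DeltaZ : PowerSeries ℤ := X * ModularCurve.etaProd ^ 24

/-- `f(X^d)`. -/
abbrev ex (d : ℕ) [NeZero d] (f : PowerSeries ℤ) : PowerSeries ℤ := expand d (NeZero.ne d) f

/-- `E₄³ Δ Δ₂ - (Δ + 256 Δ₂)³`. -/
def Phi1 : PowerSeries ℤ :=
  E4Z ^ 3 * (DeltaZ * ex 2 DeltaZ) - (DeltaZ + C 256 * ex 2 DeltaZ) ^ 3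

/-- `E₄(2τ)³ Δ Δ₂ - (Δ + 16 Δ₂)³`. -/
def Phi2 : PowerSeries ℤ :=
  ex 2 E4Z ^ 3 * (DeltaZ * ex 2 DeltaZ) - (DeltaZ + C 16 * ex 2 DeltaZ) ^ 3

/-- `Δ Δ₃ (E₄³ - 756 Δ - 19131876 Δ₃)² - (Δ² + 196830 Δ Δ₃ + 387420489 Δ₃²)²`. -/
def Phi3 : PowerSeries ℤ :=
  (DeltaZ * ex 3 DeltaZ) * (E4Z ^ 3 - (C 756 * DeltaZ + C 19131876 * ex 3 DeltaZ)) ^ 2
    - (DeltaZ ^ 2 + (C 196830 * (DeltaZ * ex 3 DeltaZ) + C 387420489 * ex 3 DeltaZ ^ 2)) ^ 2

/-- `Δ Δ₃ (E₄(3τ)³ - 36 Δ - 756 Δ₃)² - (Δ² + 270 Δ Δ₃ + 729 Δ₃²)²`. -/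
def Phi4 : PowerSeries ℤ :=
  (DeltaZ * ex 3 DeltaZ) * (ex 3 E4Z ^ 3 - (C 36 * DeltaZ + C 756 * ex 3 DeltaZ)) ^ 2
    - (DeltaZ ^ 2 + (C 270 * (DeltaZ * ex 3 DeltaZ) + C 729 * ex 3 DeltaZ ^ 2)) ^ 2

theorem tr_DeltaZ (M : ℕ) : tr M DeltaZ = lshift M 1 (lpow M (lEuler M M) 24) := by
  rw [DeltaZ, ← pow_one (X : PowerSeries ℤ), tr_X_pow_mul, tr_pow, tr_etaProd]

set_option maxRecDepth 1000000 in
theorem tr_Phi1 : tr 13 Phi1 = List.replicate 13 0 := by
  simp only [Phi1, tr_sub, tr_mul, tr_pow, tr_add, tr_C, tr_expand, tr_DeltaZ,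
    tr_eisenstein4]
  decide

end Fermat.Agent.Lib.Haupt

namespace Fermat.Agent.Lib.Haupt

open PowerSeries

set_option maxRecDepth 1000000 in
theorem tr_Phi2 : tr 13 Phi2 = List.replicate 13 0 := by
  simp only [Phi2, tr_sub, tr_mul, tr_pow, tr_add, tr_C, tr_expand, tr_DeltaZ,
    tr_eisenstein4]
  decide

set_option maxRecDepth 1000000 in
theorem tr_Phi3 : tr 37 Phi3 = List.replicate 37 0 := by
  simp only [Phi3, tr_sub, tr_mul, tr_pow, tr_add, tr_C, tr_expand, tr_DeltaZ,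
    tr_eisenstein4]
  decide

set_option maxRecDepth 1000000 in
theorem tr_Phi4 : tr 37 Phi4 = List.replicate 37 0 := by
  simp only [Phi4, tr_sub, tr_mul, tr_pow, tr_add, tr_C, tr_expand, tr_DeltaZ,
    tr_eisenstein4]
  decide

theorem coeff_Phi1 {n : ℕ} (hn : n < 13) : coeff n Phi1 = 0 := coeff_eq_zero_of_tr_eq tr_Phi1 hn
theorem coeff_Phi2 {n : ℕ} (hn : n < 13) : coeff n Phi2 = 0 := coeff_eq_zero_of_tr_eq tr_Phi2 hn
theorem coeff_Phi3 {n : ℕ} (hn : n < 37) : coeff n Phi3 = 0 := coeff_eq_zero_of_tr_eq tr_Phi3 hn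
theorem coeff_Phi4 {n : ℕ} (hn : n < 37) : coeff n Phi4 = 0 := coeff_eq_zero_of_tr_eq tr_Phi4 hn

end Fermat.Agent.Lib.Haupt

end
end
-- ===== PACK-END Lib/Haupt/Coeffs.lean

-- ===== PACK-BEGIN S36/Mod3/H276/CuspVal.lean
section



/-!
# S36 / MOD3, cell REG (R-I) and INC (`cusp_single`): valuations at the cusps (helper276)

Abstract part (Mathlib + `S15.H962.NewtonVal`).  `Φ ∈ ℤ[X][Y]` of modular shape of level `q ≥ 2`
(`S15.H962.IsModularShape`), `a, b, c` in a field `K` with `Φ(a, b) = 0 = Φ(b, c)` (think of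
`a = j`, `b = j_q`, `c = j_{q²}`), `v` a valuation of `K` with `1 < v a` (a "cusp").  The Newton
polygon (`S15.H962.val_root_of_isModularShape`) leaves the four patterns

    (v a, v b, v c) = (A, A^q, A^{q²}), (A, A^q, A), (B^q, B, B^q), (C^{q²}, C^q, C)

and in all of them

* `val_pair`    : `1 < v b`, `v b ≤ v a ^ q`, `v a ≤ v b ^ q`;
* `val_triple`  : `v b ≤ v a ^ (q - 1) * v c`;
* `tcusp_mem`   : `(c - a) * b * (a ^ q * c)⁻¹ ∈ V` for every valuation subring `V` with
                  `a⁻¹ ∈ V` (the local parameter of the middle component at its cusps).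
-/

set_option autoImplicit false

namespace Fermat.Agent.S36.Mod3.H276

open Polynomial
open Fermat.Agent.S15.H962 (IsModularShape eval2 val_root_of_isModularShape)

section Val

variable {K : Type*} [Field K] {Γ₀ : Type*} [LinearOrderedCommGroupWithZero Γ₀]
  (v : Valuation K Γ₀)

/-- The two bounds which hold in both Newton patterns. -/
theorem val_pair {q : ℕ} (hq : 0 < q) {Φ : ℤ[X][X]} (hΦ : IsModularShape q Φ) {a b : K}
    (ha : 1 < v a) (h : eval2 Φ a b = 0) :
    1 < v b ∧ v b ≤ v a ^ q ∧ v a ≤ v b ^ q := by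
  have hq0 : q ≠ 0 := hq.ne'
  rcases val_root_of_isModularShape v hq hΦ ha h with h1 | h1
  · refine ⟨?_, h1.le, ?_⟩
    · rw [h1]
      exact one_lt_pow₀ ha hq0
    · rw [h1, ← pow_mul]
      exact le_self_pow₀ ha.le (Nat.mul_ne_zero hq0 hq0)
  · have hb : 1 < v b := by
      by_contra hcon
      rw [not_lt] at hcon
      have : v b ^ q ≤ 1 := pow_le_one₀ zero_le hcon
      rw [h1] at this
      exact absurd ha (not_lt.mpr this)
    refine ⟨hb, ?_, h1.ge⟩
    calc v b ≤ v b ^ q := le_self_pow₀ hb.le hq0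
      _ = v a := h1
      _ ≤ v a ^ q := le_self_pow₀ ha.le hq0

/-- The bound along the chain `a — b — c`. -/
theorem val_triple {q : ℕ} (hq : 2 ≤ q) {Φ : ℤ[X][X]} (hΦ : IsModularShape q Φ) {a b c : K}
    (ha : 1 < v a) (hab : eval2 Φ a b = 0) (hbc : eval2 Φ b c = 0) :
    v b ≤ v a ^ (q - 1) * v c := by
  have hq0 : 0 < q := by omega
  have hq0' : q ≠ 0 := hq0.ne'
  obtain ⟨hb, -, -⟩ := val_pair v hq0 hΦ ha hab
  obtain ⟨hc, -, -⟩ := val_pair v hq0 hΦ hb hbc
  have hA1 : 1 ≤ v a ^ (q - 1) := one_le_pow₀ ha.le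
  rcases val_root_of_isModularShape v hq0 hΦ hb hbc with h2 | h2
  · -- `v c = v b ^ q`
    calc v b ≤ v b ^ q := le_self_pow₀ hb.le hq0'
      _ = v c := h2.symm
      _ = 1 * v c := (one_mul _).symm
      _ ≤ v a ^ (q - 1) * v c := by gcongr
  · rcases val_root_of_isModularShape v hq0 hΦ ha hab with h1 | h1
    · -- `v b = v a ^ q`, `v c ^ q = v b`: `v c = v a`
      have hca : v c = v a := by
        have h3 : v c ^ q = v a ^ q := by rw [h2, h1]
        rcases lt_trichotomy (v c) (v a) with hlt | heq | hgt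
        · exact absurd h3 (pow_lt_pow_left₀ hlt zero_le hq0').ne
        · exact heq
        · exact absurd h3 (pow_lt_pow_left₀ hgt zero_le hq0').ne'
      rw [hca, h1]
      have : v a ^ (q - 1) * v a = v a ^ q := by
        rw [← pow_succ]
        congr 1
        omega
      rw [this]
    · -- `v b ^ q = v a`, `v c ^ q = v b`
      calc v b ≤ v b ^ q := le_self_pow₀ hb.le hq0'
        _ = v a := h1
        _ ≤ v a ^ (q - 1) := le_self_pow₀ ha.le (by omega)
        _ = v a ^ (q - 1) * 1 := (mul_one _).symm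
        _ ≤ v a ^ (q - 1) * v c := by gcongr

end Val

/-! ## Valuation subrings -/

section ValSub

variable {K : Type*} [Field K]

/-- The two evaluation conventions agree. -/
theorem eval2_eq_aeval (Φ : ℤ[X][X]) (a b : K) :
    eval2 Φ a b = Φ.eval₂ (Polynomial.aeval (R := ℤ) a).toRingHom b := by
  have e : Polynomial.eval₂RingHom (Int.castRingHom K) a =
      (Polynomial.aeval (R := ℤ) a).toRingHom := by
    apply Polynomial.ringHom_ext
    · intro n
      simp
    · simp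
  unfold eval2
  rw [e]

/-- `Φ(a, b) = 0`, `Φ` monic in the outer variable, `a ∈ V` ⟹ `b ∈ V`. -/
theorem mem_of_eval2 {Φ : ℤ[X][X]} (hΦ : Φ.Monic) {a b : K} (h : eval2 Φ a b = 0)
    (V : ValuationSubring K) (ha : a ∈ V) : b ∈ V :=
  H189.mem_valuationSubring_of_monic Φ hΦ (by rw [← eval2_eq_aeval]; exact h) V ha

theorem one_lt_val_iff (V : ValuationSubring K) {a : K} : 1 < V.valuation a ↔ a ∉ V := by
  rw [← V.valuation_le_one_iff, not_le]

/-- `v x ≤ v y`, `y ≠ 0` ⟹ `x / y ∈ V`. -/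
theorem mul_inv_mem_of_val_le (V : ValuationSubring K) {x y : K} (hy : y ≠ 0)
    (h : V.valuation x ≤ V.valuation y) : x * y⁻¹ ∈ V := by
  rw [← V.valuation_le_one_iff, map_mul, map_inv₀]
  have hy0 : V.valuation y ≠ 0 := (Valuation.ne_zero_iff _).mpr hy
  calc V.valuation x * (V.valuation y)⁻¹ ≤ V.valuation y * (V.valuation y)⁻¹ := by gcongr
    _ = 1 := mul_inv_cancel₀ hy0

/-- `v x < v y` ⟹ `x / y ∈ 𝔪_V`. -/
theorem mul_inv_mem_nonunits_of_val_lt (V : ValuationSubring K) {x y : K}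
    (h : V.valuation x < V.valuation y) : x * y⁻¹ ∈ V.nonunits := by
  have hy0 : V.valuation y ≠ 0 := fun h0 => by
    rw [h0] at h
    exact not_lt_zero h
  rw [V.mem_nonunits_iff, map_mul, map_inv₀]
  have hpos : 0 < (V.valuation y)⁻¹ := by
    rw [zero_lt_iff]
    exact inv_ne_zero hy0
  calc V.valuation x * (V.valuation y)⁻¹ < V.valuation y * (V.valuation y)⁻¹ :=
        mul_lt_mul_of_pos_right h hpos
    _ = 1 := mul_inv_cancel₀ hy0

theorem ne_zero_of_not_mem (V : ValuationSubring K) {a : K} (ha : a ∉ V) : a ≠ 0 :=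
  fun h => ha (h ▸ V.zero_mem)

variable {q : ℕ} {Φ : ℤ[X][X]}

/-- `b / a ^ q ∈ V` as soon as `a⁻¹, b⁻¹ ∈ V`  (`j_q / j ^ q` lies in the chart at infinity). -/
theorem pair_mem (hq : 0 < q) (hΦ : IsModularShape q Φ) {a b : K}
    (hab : eval2 Φ a b = 0) (V : ValuationSubring K) (hu : a⁻¹ ∈ V) :
    b * (a ^ q)⁻¹ ∈ V := by
  by_cases ha : a ∈ V
  · have hb : b ∈ V := mem_of_eval2 hΦ.monic hab V ha
    rw [← inv_pow]
    exact V.mul_mem _ _ hb (V.pow_mem hu q)
  · have ha0 := ne_zero_of_not_mem V ha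
    have ha1 := (one_lt_val_iff V).mpr ha
    obtain ⟨-, h2, -⟩ := val_pair V.valuation hq hΦ ha1 hab
    refine mul_inv_mem_of_val_le V (pow_ne_zero q ha0) ?_
    rw [map_pow]
    exact h2

/-- `a / b ^ q ∈ V` as soon as `a⁻¹, b⁻¹ ∈ V`  (`j / j_q ^ q` lies in the chart at infinity). -/
theorem pair_mem' (hq : 0 < q) (hΦ : IsModularShape q Φ) {a b : K}
    (hab : eval2 Φ a b = 0) (V : ValuationSubring K) (hs : b⁻¹ ∈ V) :
    a * (b ^ q)⁻¹ ∈ V := by
  by_cases ha : a ∈ V
  · rw [← inv_pow]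
    exact V.mul_mem _ _ ha (V.pow_mem hs q)
  · have ha1 := (one_lt_val_iff V).mpr ha
    obtain ⟨hb1, -, h3⟩ := val_pair V.valuation hq hΦ ha1 hab
    have hb0 : b ≠ 0 := ne_zero_of_not_mem V ((one_lt_val_iff V).mp hb1)
    refine mul_inv_mem_of_val_le V (pow_ne_zero q hb0) ?_
    rw [map_pow]
    exact h3

/-- **The local parameter at the cusps of the middle component lies in the chart at infinity.** -/
theorem tcusp_mem (hq : 2 ≤ q) (hΦ : IsModularShape q Φ) {a b c : K}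
    (hab : eval2 Φ a b = 0) (hbc : eval2 Φ b c = 0) (V : ValuationSubring K)
    (hu : a⁻¹ ∈ V) (hr : c⁻¹ ∈ V) :
    (c - a) * b * (a ^ q * c)⁻¹ ∈ V := by
  have hq0 : 0 < q := by omega
  by_cases ha : a ∈ V
  · have hb : b ∈ V := mem_of_eval2 hΦ.monic hab V ha
    have hc : c ∈ V := mem_of_eval2 hΦ.monic hbc V hb
    rw [mul_inv, ← inv_pow]
    exact V.mul_mem _ _ (V.mul_mem _ _ (sub_mem hc ha) hb)
      (V.mul_mem _ _ (V.pow_mem hu q) hr)
  · have ha0 := ne_zero_of_not_mem V ha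
    have ha1 := (one_lt_val_iff V).mpr ha
    obtain ⟨hb1, h2, -⟩ := val_pair V.valuation hq0 hΦ ha1 hab
    obtain ⟨hc1, -, -⟩ := val_pair V.valuation hq0 hΦ hb1 hbc
    have hc0 : c ≠ 0 := ne_zero_of_not_mem V ((one_lt_val_iff V).mp hc1)
    have h3 := val_triple V.valuation hq hΦ ha1 hab hbc
    have e : (c - a) * b * (a ^ q * c)⁻¹ = b * (a ^ q)⁻¹ - b * (a ^ (q - 1) * c)⁻¹ := by
      have hqq : a ^ q = a ^ (q - 1) * a := by
        rw [← pow_succ]
        congr 1
        omega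
      rw [hqq]
      field_simp
    rw [e]
    refine sub_mem ?_ ?_
    · refine mul_inv_mem_of_val_le V (pow_ne_zero q ha0) ?_
      rw [map_pow]
      exact h2
    · refine mul_inv_mem_of_val_le V (mul_ne_zero (pow_ne_zero _ ha0) hc0) ?_
      rw [map_mul, map_pow]
      exact h3

/-- At a cusp (`(a b c)⁻¹ ∈ 𝔪_V`) the three inverses are non-units. -/
theorem inv_mem_nonunits_of_cusp (hq : 0 < q) (hΦ : IsModularShape q Φ) {a b c : K}
    (hab : eval2 Φ a b = 0) (hbc : eval2 Φ b c = 0) (habc : a * b * c ≠ 0)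
    (V : ValuationSubring K) (hx : (a * b * c)⁻¹ ∈ V.nonunits) :
    a⁻¹ ∈ V.nonunits ∧ b⁻¹ ∈ V.nonunits ∧ c⁻¹ ∈ V.nonunits := by
  have ha : a ∉ V := by
    intro ha
    have hb : b ∈ V := mem_of_eval2 hΦ.monic hab V ha
    have hc : c ∈ V := mem_of_eval2 hΦ.monic hbc V hb
    have h1 : V.valuation (a * b * c) ≤ 1 :=
      (V.valuation_le_one_iff _).mpr (V.mul_mem _ _ (V.mul_mem _ _ ha hb) hc)
    rw [V.mem_nonunits_iff, map_inv₀] at hx
    have h0 : V.valuation (a * b * c) ≠ 0 := (Valuation.ne_zero_iff _).mpr habc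
    have h2 : 1 ≤ (V.valuation (a * b * c))⁻¹ := (one_le_inv₀ (zero_lt_iff.mpr h0)).mpr h1
    exact absurd hx (not_lt.mpr h2)
  have ha1 := (one_lt_val_iff V).mpr ha
  obtain ⟨hb1, -, -⟩ := val_pair V.valuation hq hΦ ha1 hab
  obtain ⟨hc1, -, -⟩ := val_pair V.valuation hq hΦ hb1 hbc
  have key : ∀ {y : K}, 1 < V.valuation y → y⁻¹ ∈ V.nonunits := by
    intro y hy
    rw [V.mem_nonunits_iff, map_inv₀]
    exact inv_lt_one_of_one_lt₀ hy
  exact ⟨key ha1, key hb1, key hc1⟩

end ValSub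

/-! ## A valuation ring dominating a closed point -/

section Dominate

variable {R : Type*} [CommRing R] {K : Type*} [Field K] [Algebra R K]

/-- Every closed point `𝔪` of a subalgebra `B` of a field is dominated by a valuation ring:
`B ⊆ V` and `𝔪 = B ∩ 𝔪_V`. -/
theorem exists_dominating (B : Subalgebra R K) (𝔪 : Ideal B) (h𝔪 : 𝔪.IsMaximal) :
    ∃ V : ValuationSubring K, (∀ b : B, (b : K) ∈ V) ∧
      ∀ b : B, b ∈ 𝔪 ↔ (b : K) ∈ V.nonunits := by
  classical
  let A : Subring K := B.toSubring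
  let φ : A →+* B := (A.subtype).codRestrict B (fun x => x.2)
  have hI : 𝔪.comap φ ≠ ⊤ := by
    intro h
    have h1 : (1 : A) ∈ 𝔪.comap φ := by rw [h]; trivial
    rw [Ideal.mem_comap, map_one] at h1
    exact h𝔪.ne_top ((Ideal.eq_top_iff_one _).mpr h1)
  obtain ⟨V, hAV, hsub⟩ := Ideal.image_subset_nonunits_valuationSubring (𝔪.comap φ) hI
  have hBV : ∀ b : B, (b : K) ∈ V := fun b => hAV b.2
  have hfwd : ∀ b : B, b ∈ 𝔪 → (b : K) ∈ V.nonunits := by
    intro b hb
    apply hsub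
    refine ⟨⟨b.1, b.2⟩, ?_, rfl⟩
    show φ ⟨b.1, b.2⟩ ∈ 𝔪
    have : φ ⟨b.1, b.2⟩ = b := Subtype.ext rfl
    rw [this]
    exact hb
  refine ⟨V, hBV, fun b => ⟨hfwd b, fun hb => ?_⟩⟩
  by_contra hbm
  obtain ⟨c, i, hi, hc⟩ := h𝔪.exists_inv hbm
  -- `1 - c * b ∈ 𝔪`
  have h1 : ((1 - c * b : B) : K) ∈ V.nonunits := by
    apply hfwd
    have : 1 - c * b = i := by rw [← hc]; ring
    rw [this]
    exact hi
  have h2 : ((c * b : B) : K) ∈ V.nonunits := by
    rw [V.mem_nonunits_iff] at hb ⊢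
    push_cast
    rw [map_mul]
    have hcV : V.valuation (c : K) ≤ 1 := (V.valuation_le_one_iff _).mpr (hBV c)
    calc V.valuation (c : K) * V.valuation (b : K) ≤ 1 * V.valuation (b : K) := by gcongr
      _ = V.valuation (b : K) := one_mul _
      _ < 1 := hb
  rw [V.mem_nonunits_iff] at h1 h2
  have h3 : V.valuation (1 : K) < 1 := by
    have e : (1 : K) = ((1 - c * b : B) : K) + ((c * b : B) : K) := by
      push_cast
      ring
    rw [e]
    exact lt_of_le_of_lt (V.valuation.map_add _ _) (max_lt h1 h2)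
  rw [map_one] at h3
  exact lt_irrefl _ h3

end Dominate

end Fermat.Agent.S36.Mod3.H276

end
-- ===== PACK-END S36/Mod3/H276/CuspVal.lean

-- ===== PACK-BEGIN S28/H386/Twist.lean
section
/-
S28 [L] toolkit (helper386): the twist automorphism `q ↦ ξ q` of `k((q))`.
-/



set_option autoImplicit false

noncomputable section

open ModularCurve HahnSeries Polynomial

namespace Fermat.Agent.S28.H386

variable {k : Type*} [Field k]

/-- Underlying function of the twist `f(q) ↦ f(ξ q)`. -/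
def twistFun (ξ : kˣ) (f : LaurentSeries k) : LaurentSeries k where
  coeff n := ((ξ ^ n : kˣ) : k) * f.coeff n
  isPWO_support' := f.isPWO_support.mono fun n hn => by
    simp only [Function.mem_support, ne_eq] at hn ⊢
    intro h
    exact hn (by rw [h, mul_zero])

@[simp] theorem twistFun_coeff (ξ : kˣ) (f : LaurentSeries k) (n : ℤ) :
    (_root_.Fermat.Agent.S28.H386.twistFun ξ f).coeff n = ((ξ ^ n : kˣ) : k) * f.coeff n := rfl

theorem support_twistFun (ξ : kˣ) (f : LaurentSeries k) :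
    (_root_.Fermat.Agent.S28.H386.twistFun ξ f).support = f.support := by
  ext n
  simp only [HahnSeries.mem_support, _root_.Fermat.Agent.S28.H386.twistFun_coeff, ne_eq, mul_eq_zero, Units.ne_zero, false_or]

/-- The twist `f(q) ↦ f(ξ q)` as a ring homomorphism of `k((q))`. -/
def twist (ξ : kˣ) : LaurentSeries k →+* LaurentSeries k where
  toFun := _root_.Fermat.Agent.S28.H386.twistFun ξ
  map_zero' := by ext n; simp
  map_one' := by
    ext n
    rw [_root_.Fermat.Agent.S28.H386.twistFun_coeff, HahnSeries.coeff_one]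
    split_ifs with h
    · subst h; simp
    · simp
  map_add' x y := by ext n; simp [mul_add]
  map_mul' x y := by
    ext n
    rw [_root_.Fermat.Agent.S28.H386.twistFun_coeff, HahnSeries.coeff_mul, HahnSeries.coeff_mul, Finset.mul_sum]
    refine Finset.sum_congr ?_ fun ij hij => ?_
    · ext ij
      rw [Finset.mem_antidiagonal, Finset.mem_antidiagonal, support_twistFun,
        support_twistFun]
    have hsum : ij.1 + ij.2 = n := (Finset.mem_antidiagonal.mp hij).2.2
    rw [_root_.Fermat.Agent.S28.H386.twistFun_coeff, _root_.Fermat.Agent.S28.H386.twistFun_coeff, ← hsum, zpow_add, Units.val_mul]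
    ring

@[simp] theorem twist_coeff (ξ : kˣ) (f : LaurentSeries k) (n : ℤ) :
    (_root_.Fermat.Agent.S28.H386.twist ξ f).coeff n = ((ξ ^ n : kˣ) : k) * f.coeff n := rfl

theorem twist_one (f : LaurentSeries k) : _root_.Fermat.Agent.S28.H386.twist (1 : kˣ) f = f := by
  ext n; simp

theorem twist_twist (ξ η : kˣ) (f : LaurentSeries k) :
    _root_.Fermat.Agent.S28.H386.twist ξ (_root_.Fermat.Agent.S28.H386.twist η f) = _root_.Fermat.Agent.S28.H386.twist (ξ * η) f := by
  ext n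
  simp only [_root_.Fermat.Agent.S28.H386.twist_coeff, mul_zpow, Units.val_mul]
  ring

theorem twist_injective (ξ : kˣ) : Function.Injective (_root_.Fermat.Agent.S28.H386.twist (k := k) ξ) := by
  intro f g h
  have := congrArg (_root_.Fermat.Agent.S28.H386.twist ξ⁻¹) h
  simpa [twist_twist, twist_one] using this

theorem twist_single (ξ : kˣ) (n : ℤ) (c : k) :
    _root_.Fermat.Agent.S28.H386.twist ξ (HahnSeries.single n c) = HahnSeries.single n (((ξ ^ n : kˣ) : k) * c) := by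
  ext m
  rw [_root_.Fermat.Agent.S28.H386.twist_coeff]
  by_cases h : m = n
  · subst h; simp
  · simp [HahnSeries.coeff_single_of_ne h]

theorem twist_C (ξ : kˣ) (c : k) : _root_.Fermat.Agent.S28.H386.twist ξ (HahnSeries.C c) = HahnSeries.C c := by
  rw [HahnSeries.C_apply, twist_single, zpow_zero, Units.val_one, one_mul]

/-- The twist fixes the range of `V_p` when `ξ ^ p = 1`. -/
theorem twist_qExpand (ξ : kˣ) (p : ℕ) [NeZero p] (hξ : ξ ^ p = 1) (f : LaurentSeries k) :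
    _root_.Fermat.Agent.S28.H386.twist ξ (qExpand k p f) = qExpand k p f := by
  ext n
  rw [_root_.Fermat.Agent.S28.H386.twist_coeff]
  by_cases hd : (p : ℤ) ∣ n
  · obtain ⟨m, rfl⟩ := hd
    rw [zpow_mul, zpow_natCast, hξ, one_zpow, Units.val_one, one_mul]
  · rw [qExpand_coeff_of_not_dvd p f hd, mul_zero]

/-- `twist` commutes with `V_d` up to raising `ξ` to the `d`-th power. -/
theorem qExpand_twist (ξ : kˣ) (d : ℕ) [NeZero d] (f : LaurentSeries k) :
    _root_.Fermat.Agent.S28.H386.twist ξ (qExpand k d f) = qExpand k d (_root_.Fermat.Agent.S28.H386.twist (ξ ^ d) f) := by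
  ext n
  rw [_root_.Fermat.Agent.S28.H386.twist_coeff]
  by_cases hd : (d : ℤ) ∣ n
  · obtain ⟨m, rfl⟩ := hd
    rw [qExpand_coeff_mul, qExpand_coeff_mul, _root_.Fermat.Agent.S28.H386.twist_coeff, zpow_mul, zpow_natCast]
  · rw [qExpand_coeff_of_not_dvd d f hd, qExpand_coeff_of_not_dvd d _ hd, mul_zero]

theorem twist_ne_zero (ξ : kˣ) {f : LaurentSeries k} (hf : f ≠ 0) : _root_.Fermat.Agent.S28.H386.twist ξ f ≠ 0 :=
  fun h => hf (twist_injective ξ (by rw [h, map_zero]))

theorem order_twist (ξ : kˣ) (f : LaurentSeries k) : (_root_.Fermat.Agent.S28.H386.twist ξ f).order = f.order := by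
  by_cases hf : f = 0
  · simp [hf]
  refine order_eq_of_coeff ?_ ?_
  · rw [_root_.Fermat.Agent.S28.H386.twist_coeff]
    exact mul_ne_zero (Units.ne_zero _) (HahnSeries.coeff_order_eq_zero.not.mpr hf)
  · intro m hm
    rw [_root_.Fermat.Agent.S28.H386.twist_coeff, HahnSeries.coeff_eq_zero_of_lt_order hm, mul_zero]

theorem coeff_twist_jqModC_neg_one (ξ : kˣ) :
    (_root_.Fermat.Agent.S28.H386.twist ξ (jqModC k)).coeff (-1) = ((ξ⁻¹ : kˣ) : k) := by
  rw [_root_.Fermat.Agent.S28.H386.twist_coeff, coeff_jqModC_neg_one, mul_one, zpow_neg_one]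

end Fermat.Agent.S28.H386

end
end
-- ===== PACK-END S28/H386/Twist.lean

-- ===== PACK-BEGIN S28/H739/Integrality.lean
section
/-
S28 helper (helper739): piece [L], integrality.  From the modular polynomials `Φ_p` at the
primes `p ∣ N`, every `j(q^d)`, `d ∣ N`, is integral over `ℤ[j]` (the `integral` field of
`CoreData`).
-/





set_option autoImplicit false

noncomputable section

open ModularCurve HahnSeries Polynomial

namespace Fermat.Agent.S28.H739

/-- Transitivity of integrality in the form we need: if `y` is integral over `R` (along `f`) and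
`x` is a root of a monic polynomial whose coefficients are `ℤ`-polynomials in `y`, then `x` is
integral over `R`. -/
theorem isIntegralElem_of_eval₂ {R S : Type*} [CommRing R] [CommRing S] (f : R →+* S) {y x : S}
    (hy : f.IsIntegralElem y) (g : Polynomial ℤ →+* S) (hg : g Polynomial.X = y)
    (Φ : Polynomial (Polynomial ℤ)) (hΦ : Φ.Monic) (h : Φ.eval₂ g x = 0) :
    f.IsIntegralElem x := by
  let _ : Algebra R S := f.toAlgebra
  have hy' : IsIntegral R y := hy
  have hT : Algebra.IsIntegral R (Algebra.adjoin R ({y} : Set S)) :=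
    Algebra.IsIntegral.adjoin (fun z hz => by
      rw [Set.mem_singleton_iff] at hz
      rw [hz]
      exact hy')
  let g' : Polynomial ℤ →+* Algebra.adjoin R ({y} : Set S) :=
    Polynomial.eval₂RingHom (Int.castRingHom _) ⟨y, Algebra.subset_adjoin rfl⟩
  have hg' : (algebraMap (Algebra.adjoin R ({y} : Set S)) S).comp g' = g := by
    refine Polynomial.ringHom_ext' (Subsingleton.elim _ _) ?_
    simp [g', hg]
  have hx : IsIntegral (Algebra.adjoin R ({y} : Set S)) x :=
    ⟨Φ.map g', hΦ.map _, by rw [Polynomial.eval₂_map, hg']; exact h⟩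
  exact isIntegral_trans x hx

/-- `Φ_p(j(q^e), j(q^{ep})) = 0` in `ℤ((q))`. -/
theorem modPoly_eval_level {p : ℕ} [NeZero p] (Φ : ModPolyData p) (e : ℕ) [NeZero e]
    [NeZero (e * p)] :
    Φ.Φ.eval₂ (evalAt (qExpand ℤ e (jqModC ℤ))) (qExpand ℤ (e * p) (jqModC ℤ)) = 0 := by
  have h := congrArg (qExpand ℤ e) Φ.eval_jp
  rwa [Polynomial.hom_eval₂, H145.qExpand_comp_evalAt, qExpand_qExpand, map_zero] at h

/-- **Integrality.** -/
theorem exists_monic_of_modPolyData (N : ℕ)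
    (hΦ : ∀ (p : ℕ) [NeZero p], p.Prime → p ∣ N → Nonempty (ModPolyData p)) :
    ∀ (d : ℕ) [NeZero d], d ∣ N →
      ∃ P : Polynomial (Polynomial ℤ), P.Monic ∧
        P.eval₂ (evalAt (jqModC ℤ)) (qExpand ℤ d (jqModC ℤ)) = 0 := by
  intro d
  induction d using Nat.strong_induction_on with
  | _ d ih =>
    intro inst hd
    by_cases hd1 : d = 1
    · subst hd1
      refine ⟨Polynomial.X - Polynomial.C Polynomial.X, Polynomial.monic_X_sub_C _, ?_⟩
      rw [qExpand_one_apply]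
      simp [evalAt]
    obtain ⟨p, hp, hpd⟩ := Nat.exists_prime_and_dvd hd1
    obtain ⟨e, he⟩ := hpd
    have hde : d = e * p := by rw [he, mul_comm]
    subst hde
    have he0 : e ≠ 0 := by
      rintro rfl
      exact (NeZero.ne (0 * p)) (zero_mul p)
    have inste : NeZero e := ⟨he0⟩
    have instp : NeZero p := ⟨hp.ne_zero⟩
    have hlt : e < e * p := by
      have := hp.one_lt
      have := Nat.pos_of_ne_zero he0
      nlinarith
    have heN : e ∣ N := (Dvd.intro p rfl).trans hd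
    have hpN : p ∣ N := (Dvd.intro_left e rfl).trans hd
    obtain ⟨Φ⟩ := hΦ p hp hpN
    have IH : (evalAt (jqModC ℤ)).IsIntegralElem (qExpand ℤ e (jqModC ℤ)) := ih e hlt heN
    exact isIntegralElem_of_eval₂ (evalAt (jqModC ℤ)) IH (evalAt (qExpand ℤ e (jqModC ℤ)))
      (by simp [evalAt]) Φ.Φ Φ.monic (modPoly_eval_level Φ e)

end Fermat.Agent.S28.H739

end

end
-- ===== PACK-END S28/H739/Integrality.lean

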