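import Mathlib
import Fermat.Statements.S21
import Fermat.Prelude.Def_ModularForm_HeckeOperatorForms
import Fermat.Prelude.Def_ModularCurve_X0ModL
import Fermat.Agent.Pack.S36.E8L3
import Fermat.Agent.Pack.S36.E8L0
import Fermat.Agent.Pack.S36.E8L1
import Fermat.Agent.Pack.S36.E8L2
import Fermat.Agent.Pack.S36.E5L1
import Fermat.Agent.Pack.S36.E5L0
import Fermat.Agent.Pack.S36.E2L3
import Fermat.Agent.Pack.S36.E2L1
import Fermat.Agent.Pack.S36.E6L0
import Fermat.Agent.Pack.S36.E9L1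
import Fermat.Agent.Pack.S36.E9L3

-- ===== PACK-BEGIN S37/H700/GaussNorm.lean
section


/-!
# S37 / piece GAUSS (helper700): normal forms

* `exists_normaliser` : among finitely many elements of `L`, not all zero, one divides all
  the others in the valuation ring `A`.
* `normalize_family`  : a finite family of polynomials over `L`, not all zero, can be scaled
  into `A[X]` such that one member has nonzero reduction.
* `exists_denominator`: every element of the span satisfies `Q(j)·x = ∑ Pᵢ(j)·yᵢ`.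
-/

set_option autoImplicit false

noncomputable section

namespace Fermat.Agent.S37.H700

open ModularCurve HahnSeries Polynomial
open Fermat.Agent.S28 (jField intDivisorExpansions)

section Normalise

variable {L : Type*} [Field L] (A : ValuationSubring L)

theorem exists_normaliser (C : Finset L) (hC : ∃ x ∈ C, x ≠ 0) :
    ∃ x₀ ∈ C, x₀ ≠ 0 ∧ ∀ x ∈ C, x₀⁻¹ * x ∈ A := by
  obtain ⟨x₁, hx₁, hx₁0⟩ := hC
  obtain ⟨x₀, hx₀, hmax⟩ := Finset.exists_max_image C (fun x => A.valuation x) ⟨x₁, hx₁⟩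
  have hx₀0 : x₀ ≠ 0 := by
    intro h
    have h1 := hmax x₁ hx₁
    simp only [h, map_zero] at h1
    exact hx₁0 ((map_eq_zero _).mp (le_antisymm h1 zero_le))
  refine ⟨x₀, hx₀, hx₀0, fun x hx => ?_⟩
  rw [← A.valuation_le_one_iff, map_mul, map_inv₀]
  have hv0 : A.valuation x₀ ≠ 0 := (_root_.map_ne_zero _).mpr hx₀0
  rw [inv_mul_le_iff₀ (lt_of_le_of_ne zero_le hv0.symm), mul_one]
  exact hmax x hx

theorem exists_lift_of_coeff_mem (P : L[X]) (h : ∀ m, P.coeff m ∈ A) :
    ∃ P' : Polynomial A, P'.map A.subtype = P := by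
  have : P ∈ Polynomial.lifts A.subtype := by
    rw [Polynomial.lifts_iff_coeff_lifts]
    intro m
    exact ⟨⟨P.coeff m, h m⟩, rfl⟩
  exact (Polynomial.mem_lifts P).mp this

theorem normalize_family {ι : Type*} [Fintype ι] (P : ι → L[X]) (h : ∃ i, P i ≠ 0) :
    ∃ c : L, c ≠ 0 ∧ ∃ P' : ι → Polynomial A,
      (∀ i, (P' i).map A.subtype = Polynomial.C c * P i) ∧
      ∃ i, (P' i).map (IsLocalRing.residue A) ≠ 0 := by
  classical
  set C : Finset L := Finset.univ.biUnion (fun i => (P i).coeffs) with hCdef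
  have hCne : ∃ x ∈ C, x ≠ 0 := by
    obtain ⟨i, hi⟩ := h
    refine ⟨(P i).leadingCoeff, ?_, Polynomial.leadingCoeff_ne_zero.mpr hi⟩
    rw [hCdef, Finset.mem_biUnion]
    exact ⟨i, Finset.mem_univ _, Polynomial.coeff_mem_coeffs (Polynomial.leadingCoeff_ne_zero.mpr hi)⟩
  obtain ⟨x₀, hx₀C, hx₀0, hx₀⟩ := exists_normaliser A C hCne
  have hcoeff : ∀ i m, x₀⁻¹ * (P i).coeff m ∈ A := by
    intro i m
    by_cases hz : (P i).coeff m = 0
    · rw [hz, mul_zero]; exact A.zero_mem
    · apply hx₀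
      rw [hCdef, Finset.mem_biUnion]
      exact ⟨i, Finset.mem_univ _, Polynomial.coeff_mem_coeffs hz⟩
  have hlift : ∀ i, ∃ P' : Polynomial A, P'.map A.subtype = Polynomial.C x₀⁻¹ * P i := by
    intro i
    apply exists_lift_of_coeff_mem
    intro m
    rw [Polynomial.coeff_C_mul]
    exact hcoeff i m
  choose P' hP' using hlift
  refine ⟨x₀⁻¹, inv_ne_zero hx₀0, P', hP', ?_⟩
  rw [hCdef, Finset.mem_biUnion] at hx₀C
  obtain ⟨i₀, -, hi₀⟩ := hx₀C
  rw [Polynomial.mem_coeffs_iff] at hi₀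
  obtain ⟨m₀, -, hm₀⟩ := hi₀
  refine ⟨i₀, fun hzero => ?_⟩
  have h1 : ((P' i₀).coeff m₀ : L) = 1 := by
    have := congrArg (fun p => Polynomial.coeff p m₀) (hP' i₀)
    simp only [Polynomial.coeff_map, Polynomial.coeff_C_mul] at this
    rw [← hm₀, inv_mul_cancel₀ hx₀0] at this
    exact this
  have h2 : (P' i₀).coeff m₀ = 1 := Subtype.ext h1
  have h3 := congrArg (fun p => Polynomial.coeff p m₀) hzero
  simp only [Polynomial.coeff_map, Polynomial.coeff_zero, h2, map_one] at h3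
  exact one_ne_zero h3

end Normalise

section Denominator

variable (L : Type*) [Field L] {n : ℕ} (y : Fin n → LaurentSeries ℤ)

/-- Every element of the `L(j)`-span has a polynomial denominator. -/
theorem exists_denominator {x : LaurentSeries L} (hx : x ∈ spanL L y) :
    ∃ (Q : L[X]) (P : Fin n → L[X]), Q ≠ 0 ∧
      evalJ L Q * x = ∑ i, evalJ L (P i) * coeffMap (Int.castRingHom L) (y i) := by
  classical
  induction hx using Submodule.span_induction with
  | mem x hx =>
    obtain ⟨i, rfl⟩ := hx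
    refine ⟨1, fun j => if j = i then 1 else 0, one_ne_zero, ?_⟩
    rw [evalJ_one, one_mul, Finset.sum_eq_single i]
    · simp [evalJ_one]
    · intro j _ hj
      simp [hj, evalJ_zero]
    · intro h
      exact absurd (Finset.mem_univ i) h
  | zero =>
    exact ⟨1, fun _ => 0, one_ne_zero, by simp [evalJ_zero]⟩
  | add x z _ _ hx hz =>
    obtain ⟨Q₁, P₁, hQ₁, h₁⟩ := hx
    obtain ⟨Q₂, P₂, hQ₂, h₂⟩ := hz
    refine ⟨Q₁ * Q₂, fun i => Q₂ * P₁ i + Q₁ * P₂ i, mul_ne_zero hQ₁ hQ₂, ?_⟩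
    simp only [evalJ_mul, evalJ_add, add_mul, Finset.sum_add_distrib, mul_assoc]
    rw [← Finset.mul_sum, ← Finset.mul_sum, ← h₁, ← h₂]
    ring
  | smul c x _ hx =>
    obtain ⟨Q, P, hQ, h⟩ := hx
    obtain ⟨r, s, hs, hrs⟩ := exists_evalJ_of_mem_jField L c.2
    refine ⟨s * Q, fun i => r * P i, mul_ne_zero hs hQ, ?_⟩
    simp only [evalJ_mul, mul_assoc]
    rw [← Finset.mul_sum, ← h, smul_jField_def, ← hrs]
    ring

end Denominator

end Fermat.Agent.S37.H700

end
end
-- ===== PACK-END S37/H700/GaussNorm.lean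

-- ===== PACK-BEGIN S18/Mod/H216/IntE.lean
section



/-!
# S18 / MOD (helper216): the ring `intE` of `E`-rational integral series and its two homs

* `toOm : intE M A E →+* Om M`   (injective, image in `Fc M E`),
* `redE : intE M A E →+* κ((q))` (`κ` = residue field of `A`),
* `mem_Vc_iff'` : `f ∈ Vc ↔ ∃ U₁ U₂ : intE, redE U₂ ≠ 0 ∧ f * toOm U₂ = toOm U₁`,
* constants `cInt`, the coordinate `jInt`, and division of a series by a constant (`divC`).
-/

set_option autoImplicit false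
set_option linter.unusedSectionVars false

noncomputable section

namespace Fermat.Agent.S18.Mod.H216

open ModularCurve AlgebraicCurve HahnSeries Fermat.Agent.S18 Fermat.Agent.S18.Mod

variable (M : ℕ) (A : ValuationSubring Qb) (E : IntermediateField ℚ Qb)

/-- `A((q)) → Q̄((q))`. -/
abbrev inclA : LaurentSeries ↥A →+* LaurentSeries Qb := coeffMap A.subtype

/-- `A((q)) → κ((q))`. -/
abbrev redA : LaurentSeries ↥A →+* LaurentSeries (IsLocalRing.ResidueField ↥A) :=
  coeffMap (IsLocalRing.residue ↥A)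

theorem inclA_injective : Function.Injective (inclA A) := H516.incl_injective A

theorem inclA_mem_bar (U : ↥(intE M A E)) :
    inclA A (U : LaurentSeries ↥A) ∈ modularFunctionFieldBar M := by
  obtain ⟨f, -, hfU⟩ := U.2.2
  rw [← hfU]
  exact f.2

/-- The element of `Ω` defined by an integral series. -/
def toOm : ↥(intE M A E) →+* Om M where
  toFun U := ⟨inclA A (U : LaurentSeries ↥A), inclA_mem_bar M A E U⟩
  map_one' := Subtype.ext (by simp)
  map_mul' U W := Subtype.ext (by simp)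
  map_zero' := Subtype.ext (by simp)
  map_add' U W := Subtype.ext (by simp)

@[simp] theorem coe_toOm (U : ↥(intE M A E)) :
    ((toOm M A E U : Om M) : LaurentSeries Qb) = inclA A (U : LaurentSeries ↥A) := rfl

theorem toOm_injective : Function.Injective (toOm M A E) := by
  intro U W h
  apply Subtype.ext
  apply inclA_injective A
  exact congrArg Subtype.val h

theorem toOm_mem_Fc (U : ↥(intE M A E)) : toOm M A E U ∈ Fc M E := by
  obtain ⟨f, hf, hfU⟩ := U.2.2
  have : toOm M A E U = f := Subtype.ext hfU.symm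
  rw [this]
  exact hf

/-- The reduction of an integral series. -/
def redE : ↥(intE M A E) →+* LaurentSeries (IsLocalRing.ResidueField ↥A) :=
  (redA A).comp (intE M A E).subtype

@[simp] theorem redE_apply (U : ↥(intE M A E)) :
    redE M A E U = redA A (U : LaurentSeries ↥A) := rfl

theorem toOm_ne_zero_of_redE {U : ↥(intE M A E)} (h : redE M A E U ≠ 0) :
    toOm M A E U ≠ 0 := by
  intro h0
  apply h
  have : U = 0 := toOm_injective M A E (by rw [h0, map_zero])
  rw [this, map_zero]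

theorem mem_Vc_iff' {f : Om M} :
    f ∈ Vc M A E ↔ ∃ U₁ U₂ : ↥(intE M A E), redE M A E U₂ ≠ 0 ∧
      f * toOm M A E U₂ = toOm M A E U₁ := by
  constructor
  · rintro ⟨-, U₁, U₂, h₁, h₂, hne, heq⟩
    exact ⟨⟨U₁, (mem_intE M A E).mpr h₁⟩, ⟨U₂, (mem_intE M A E).mpr h₂⟩, hne, Subtype.ext heq⟩
  · rintro ⟨U₁, U₂, hne, heq⟩
    have h2 := toOm_ne_zero_of_redE M A E hne
    have hf : f = toOm M A E U₁ * (toOm M A E U₂)⁻¹ := by
      rw [← heq, mul_assoc, mul_inv_cancel₀ h2, mul_one]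
    refine ⟨?_, U₁, U₂, (mem_intE M A E).mp U₁.2, (mem_intE M A E).mp U₂.2, hne, ?_⟩
    · rw [hf]
      exact mul_mem (toOm_mem_Fc M A E U₁) (inv_mem (toOm_mem_Fc M A E U₂))
    · exact congrArg Subtype.val heq

theorem toOm_mem_Vc (U : ↥(intE M A E)) : toOm M A E U ∈ Vc M A E :=
  (mem_Vc_iff' M A E).mpr ⟨U, 1, by rw [map_one]; exact one_ne_zero, by rw [map_one, mul_one]⟩

theorem inv_toOm_mem_Vc {U : ↥(intE M A E)} (h : redE M A E U ≠ 0) :
    (toOm M A E U)⁻¹ ∈ Vc M A E :=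
  (mem_Vc_iff' M A E).mpr ⟨1, U, h, by
    rw [map_one, inv_mul_cancel₀ (toOm_ne_zero_of_redE M A E h)]⟩

/-! ### Constants -/

theorem mem_Ec_iff {r : Om M} : r ∈ Ec M E ↔ ∃ c : Qb, c ∈ E ∧ algebraMap Qb (Om M) c = r := by
  constructor
  · rintro ⟨c, hc, rfl⟩
    exact ⟨c, hc, rfl⟩
  · rintro ⟨c, hc, rfl⟩
    exact ⟨c, hc, rfl⟩

theorem mem_Rc_iff {r : Om M} :
    r ∈ Rc M A E ↔ ∃ c : Qb, c ∈ A ∧ c ∈ E ∧ algebraMap Qb (Om M) c = r := by
  constructor
  · rintro ⟨c, ⟨hcA, hcE⟩, rfl⟩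
    exact ⟨c, hcA, hcE, rfl⟩
  · rintro ⟨c, hcA, hcE, rfl⟩
    exact ⟨c, ⟨hcA, hcE⟩, rfl⟩

theorem coe_algebraMap_Om (c : Qb) :
    ((algebraMap Qb (Om M) c : Om M) : LaurentSeries Qb) = HahnSeries.C c := by
  show algebraMap Qb (LaurentSeries Qb) c = _
  rw [algebraMap_laurentSeries_eq_single, ← HahnSeries.C_apply]

theorem Ec_le_Fc : Ec M E ≤ Fc M E := fun _ h => Subfield.subset_closure (Or.inl h)

theorem Rc_le_Ec : (Rc M A E : Set (Om M)) ⊆ Ec M E := by
  intro r hr
  obtain ⟨c, -, hcE, rfl⟩ := (mem_Rc_iff M A E).mp hr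
  exact (mem_Ec_iff M E).mpr ⟨c, hcE, rfl⟩

theorem C_mem_intE {c : Qb} (hcA : c ∈ A) (hcE : c ∈ E) :
    (HahnSeries.C (⟨c, hcA⟩ : ↥A) : LaurentSeries ↥A) ∈ intE M A E := by
  rw [mem_intE]
  refine ⟨fun n => ?_, algebraMap Qb (Om M) c, Ec_le_Fc M E ((mem_Ec_iff M E).mpr ⟨c, hcE, rfl⟩), ?_⟩
  · rw [HahnSeries.C_apply, HahnSeries.coeff_single]
    split_ifs
    · exact hcE
    · exact zero_mem _
  · rw [coe_algebraMap_Om, H516.coeffMap_C]
    rfl

/-- The constant series of `c ∈ A ∩ E`. -/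
def cInt {c : Qb} (hcA : c ∈ A) (hcE : c ∈ E) : ↥(intE M A E) :=
  ⟨HahnSeries.C (⟨c, hcA⟩ : ↥A), C_mem_intE M A E hcA hcE⟩

theorem toOm_cInt {c : Qb} (hcA : c ∈ A) (hcE : c ∈ E) :
    toOm M A E (cInt M A E hcA hcE) = algebraMap Qb (Om M) c := by
  apply Subtype.ext
  rw [coe_toOm, coe_algebraMap_Om]
  show coeffMap A.subtype (HahnSeries.C (⟨c, hcA⟩ : ↥A)) = _
  rw [H516.coeffMap_C]
  rfl

theorem redE_cInt {c : Qb} (hcA : c ∈ A) (hcE : c ∈ E) :
    redE M A E (cInt M A E hcA hcE) = HahnSeries.C (IsLocalRing.residue ↥A ⟨c, hcA⟩) := by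
  show coeffMap (IsLocalRing.residue ↥A) (HahnSeries.C (⟨c, hcA⟩ : ↥A)) = _
  rw [H516.coeffMap_C]

/-! ### The coordinate `j` -/

theorem coe_jOm : ((jOm M : Om M) : LaurentSeries Qb) = jqModC Qb := by
  show coeffEmb Qb (qExpand ℚ 1 jq) = _
  rw [qExpand_one_apply, H516.coeffEmb_jq]

theorem jOm_mem_Fc : jOm M ∈ Fc M E :=
  Subfield.subset_closure (Or.inr ⟨1, inferInstance, one_dvd M, rfl⟩)

theorem jqModC_mem_intE : (jqModC ↥A : LaurentSeries ↥A) ∈ intE M A E := by
  rw [mem_intE]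
  refine ⟨fun n => ?_, jOm M, jOm_mem_Fc M E, ?_⟩
  · have h : ((jqModC ↥A).coeff n : Qb) = (((jqModC ℤ).coeff n : ℤ) : Qb) := by
      have h1 : jqModC ↥A = coeffMap (Int.castRingHom ↥A) (jqModC ℤ) := (coeffMap_jqModC (Int.castRingHom ↥A)).symm
      rw [h1, coeffMap_coeff]
      simp
    rw [h]
    exact intCast_mem E _
  · rw [coe_jOm, coeffMap_jqModC]

/-- `j` as an integral series. -/
def jInt : ↥(intE M A E) := ⟨jqModC ↥A, jqModC_mem_intE M A E⟩

theorem toOm_jInt : toOm M A E (jInt M A E) = jOm M := by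
  apply Subtype.ext
  rw [coe_toOm, coe_jOm]
  show coeffMap A.subtype (jqModC ↥A) = _
  rw [coeffMap_jqModC]

theorem redE_jInt : redE M A E (jInt M A E) = jqModC (IsLocalRing.ResidueField ↥A) := by
  show coeffMap (IsLocalRing.residue ↥A) (jqModC ↥A) = _
  rw [coeffMap_jqModC]

theorem jOm_mem_Vc : jOm M ∈ Vc M A E := by
  rw [← toOm_jInt M A E]
  exact toOm_mem_Vc M A E _

end Fermat.Agent.S18.Mod.H216

end
end
-- ===== PACK-END S18/Mod/H216/IntE.lean

-- ===== PACK-BEGIN S18/B12/H33/CoreAux.lean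
section



/-!
# S18 b2.5 (helper33): auxiliary lemmas for the assembly of `B2CoreAbsStatement`
-/

set_option autoImplicit false

noncomputable section

namespace Fermat.Agent.S18.B12.H33

open Polynomial

universe u v

section Quot

variable {P : Type u} [CommRing P] (w : P)

/-- `a ∈ (w, p)` iff `mk p ∣ mk a` in `P/(w)`. -/
theorem mem_span_pair_iff_mk_dvd (p a : P) :
    a ∈ Ideal.span {w, p} ↔
      Ideal.Quotient.mk (Ideal.span {w}) p ∣ Ideal.Quotient.mk (Ideal.span {w}) a := by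
  constructor
  · intro h
    rw [Ideal.mem_span_pair] at h
    obtain ⟨c, d, rfl⟩ := h
    refine ⟨Ideal.Quotient.mk _ d, ?_⟩
    have hw0 : Ideal.Quotient.mk (Ideal.span {w}) w = 0 :=
      Ideal.Quotient.eq_zero_iff_mem.mpr (Ideal.mem_span_singleton_self w)
    simp [map_add, map_mul, hw0, mul_comm]
  · rintro ⟨c, hc⟩
    obtain ⟨d, rfl⟩ := Ideal.Quotient.mk_surjective c
    rw [← map_mul, Ideal.Quotient.eq, Ideal.mem_span_singleton] at hc
    obtain ⟨e, he⟩ := hc
    rw [Ideal.mem_span_pair]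
    refine ⟨e, d, ?_⟩
    have : a = w * e + p * d := by linear_combination he
    rw [this]; ring

theorem span_pair_eq_comap (p : P) :
    Ideal.span {w, p} = Ideal.comap (Ideal.Quotient.mk (Ideal.span {w}))
      (Ideal.span {Ideal.Quotient.mk (Ideal.span {w}) p}) := by
  ext a
  rw [mem_span_pair_iff_mk_dvd, Ideal.mem_comap, Ideal.mem_span_singleton]

end Quot

end Fermat.Agent.S18.B12.H33

end
end
-- ===== PACK-END S18/B12/H33/CoreAux.lean

-- ===== PACK-BEGIN S18/H394/KummerMain.lean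
section




/-!
# S18, Route K, pieces b3+b4 (helper394): the Kummer endgame, user-facing form

`kummer_endgame`: two charts `B₀ ∋ x`, `B₁ ∋ x⁻¹` of a "curve over `R`" inside a field `F`
(`M = B₀[1/x] = B₁[x]`, `B₀ ∩ B₁ = R`, `B₀` finite over `R[x]`, all three `m`-root closed), `m`
invertible in `R`, `m ≥ 2`.  Then there is NO `u ∈ Fˣ` such that
* `u` has exact order `m` modulo constants and `m`-th powers (`hord`), and
* `u` is "congruent to an `m`-th power modulo `w`" on both charts, compatibly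
  (`σ₀ ^ m * u ≡ 1 mod w B₀`, `σ₁ ^ m * u ≡ 1 mod w B₁`, `σ₀ ≡ σ₁ mod w`, in the graded sense),
where `w ∈ R` is not a unit of `B₀`.

No Kummer field, no integral closure, no discriminant: the proof applies the two-chart
connectedness theorem (b5) to the graded algebra `⨁ᵢ {f | f ^ m * u ^ i ∈ B} Tⁱ ⊆ F[T]/(T^m - u)`.
-/

set_option autoImplicit false

namespace Fermat.Agent.S18.H394

open Polynomial

variable {R F : Type*} [CommRing R] [IsLocalRing R] [IsNoetherianRing R] [Field F] [Algebra R F]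

/-- **Kummer endgame** (pieces b3+b4+b5 of Route K in one statement). -/
theorem kummer_endgame
    (m : ℕ) (hm : 2 ≤ m) (ν : R) (hν : ν * (m : R) = 1)
    (w : R) (u : F) (hu : u ≠ 0)
    (B₀ B₁ M : Subalgebra R F)
    (hrc0 : RootClosed m B₀) (hrc1 : RootClosed m B₁) (hrcM : RootClosed m M)
    (x : F) (hx0 : x ≠ 0) (hx : x ∈ B₀) (hx' : x⁻¹ ∈ B₁)
    (h0M : B₀ ≤ M) (h1M : B₁ ≤ M)
    (hloc0 : ∀ y ∈ M, ∃ n : ℕ, x ^ n * y ∈ B₀)
    (hloc1 : ∀ y ∈ M, ∃ n : ℕ, x⁻¹ ^ n * y ∈ B₁)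
    (hint : ∀ y : F, y ∈ B₀ → y ∈ B₁ → ∃ r : R, algebraMap R F r = y)
    (hfin : ∃ s : Finset F, ∀ b ∈ B₀, ∃ P : F → Polynomial R,
      b = ∑ β ∈ s, Polynomial.aeval x (P β) * β)
    (hden : ∃ d ∈ B₀, d ≠ 0 ∧ d * u⁻¹ ∈ B₀)
    (hw1 : ∀ b ∈ B₀, algebraMap R F w * b ≠ 1)
    (hord : ∀ i : ℕ, 0 < i → i < m → ∀ f : F, f ≠ 0 → ∀ r : R,
        f ^ m * u ^ i ≠ algebraMap R F r)
    (σ₀ σ₁ : F)
    (h₀ : ∃ b ∈ B₀, σ₀ ^ m * u - 1 = algebraMap R F w * b)
    (h₁ : ∃ b ∈ B₁, σ₁ ^ m * u - 1 = algebraMap R F w * b)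
    (h₀₁ : ∃ γ : F, σ₀ - σ₁ = algebraMap R F w * γ ∧ γ ^ m * u ∈ M) : False := by
  classical
  have hm0 : m ≠ 0 := by omega
  have hp : (X ^ m - C u : F[X]).Monic := monic_X_pow_sub_C u hm0
  set pb := AdjoinRoot.powerBasis' hp with hpb
  have hdim : pb.dim = m := by
    rw [hpb, AdjoinRoot.powerBasis'_dim]
    exact natDegree_X_pow_sub_C
  have hT : pb.gen ^ pb.dim = algebraMap F (AdjoinRoot (X ^ m - C u : F[X])) u := by
    rw [hdim, hpb, AdjoinRoot.powerBasis'_gen]
    have := AdjoinRoot.eval₂_root (X ^ m - C u : F[X])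
    simp only [eval₂_sub, eval₂_pow, eval₂_X, eval₂_C] at this
    rw [sub_eq_zero] at this
    rw [this]
    rfl
  have hd0 : 0 < pb.dim := by omega
  have hd1 : 1 < pb.dim := by omega
  have hrc0' : RootClosed pb.dim B₀ := by rw [hdim]; exact hrc0
  have hrc1' : RootClosed pb.dim B₁ := by rw [hdim]; exact hrc1
  have hrcM' : RootClosed pb.dim M := by rw [hdim]; exact hrcM
  obtain ⟨S, hS, hgen⟩ := kummerSub_fg pb u hu hT hd0 B₀ hrc0' x hx hfin hden
  refine kummer_endgame_aux pb u hT hd0 hd1 ν (by rw [hdim]; exact hν) w B₀ B₁ M hrc0' hrc1' hrcM'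
    x hx0 hx hx' h0M h1M hloc0 hloc1 hint (↥S) (fun c => (c : AdjoinRoot (X ^ m - C u : F[X])))
    (fun c => hS c c.2) ?_ hw1 (by rw [hdim]; exact hord) σ₀ σ₁ (by rw [hdim]; exact h₀)
    (by rw [hdim]; exact h₁) (by rw [hdim]; exact h₀₁)
  intro b hb
  obtain ⟨P, hP⟩ := hgen b hb
  refine ⟨fun c => P c, ?_⟩
  rw [finsum_eq_sum_of_fintype, hP]
  exact (Finset.sum_coe_sort S (fun c => Polynomial.aeval (algebraMap F _ x) (P c) * c)).symm

end Fermat.Agent.S18.H394

end
-- ===== PACK-END S18/H394/KummerMain.lean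

-- ===== PACK-BEGIN Lib/HFree/H412/Trans.lean
section


/-!
# The augmentation kernel of the permutation module is `(S⁻¹ - 1) M + (T - 1) M`

`X = SL(2,ℤ) ⧸ Γ` finite, `M = (X → ℤ)`.  Since `S, T` generate `SL(2,ℤ)`, which acts
transitively on `X`, every `e : X → ℤ` with `∑ e = 0` is of the form
`(S⁻¹ • n - n) + (T • k - k)`.
-/

set_option autoImplicit false

open scoped MatrixGroups
open ModularGroup

namespace Fermat.Agent.Lib.HFree.H412

variable {Γ : Subgroup SL(2, ℤ)}

/-- The subgroup `(S⁻¹ - 1) M + (T - 1) M` of `M = (X → ℤ)`. -/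
def augGen (Γ : Subgroup SL(2, ℤ)) : AddSubgroup ((SL(2, ℤ) ⧸ Γ) → ℤ) where
  carrier := {e | ∃ n k : (SL(2, ℤ) ⧸ Γ) → ℤ,
    e = (permRep ℤ (S⁻¹ : SL(2, ℤ)) n - n) + (permRep ℤ (T : SL(2, ℤ)) k - k)}
  zero_mem' := ⟨0, 0, by simp⟩
  add_mem' := by
    rintro _ _ ⟨n, k, rfl⟩ ⟨n', k', rfl⟩
    refine ⟨n + n', k + k', ?_⟩
    rw [map_add, map_add]
    abel
  neg_mem' := by
    rintro _ ⟨n, k, rfl⟩
    refine ⟨-n, -k, ?_⟩
    rw [map_neg, map_neg]
    abel

theorem mem_augGen {e : (SL(2, ℤ) ⧸ Γ) → ℤ} :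
    e ∈ augGen Γ ↔ ∃ n k : (SL(2, ℤ) ⧸ Γ) → ℤ,
      e = (permRep ℤ (S⁻¹ : SL(2, ℤ)) n - n) + (permRep ℤ (T : SL(2, ℤ)) k - k) := Iff.rfl

open Classical in
theorem single_smul_sub_single_mem (h : SL(2, ℤ)) (x : SL(2, ℤ) ⧸ Γ) :
    (Pi.single (h • x) (1 : ℤ) - Pi.single x 1 : (SL(2, ℤ) ⧸ Γ) → ℤ) ∈ augGen Γ := by
  let H : Subgroup SL(2, ℤ) :=
    { carrier := {h | ∀ x : SL(2, ℤ) ⧸ Γ,
        (Pi.single (h • x) (1 : ℤ) - Pi.single x 1 : (SL(2, ℤ) ⧸ Γ) → ℤ) ∈ augGen Γ}
      one_mem' := fun x => by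
        rw [one_smul, sub_self]
        exact (augGen Γ).zero_mem
      mul_mem' := fun {a b} ha hb x => by
        have h1 := ha (b • x)
        have h2 := hb x
        have := (augGen Γ).add_mem h1 h2
        rw [sub_add_sub_cancel, ← mul_smul] at this
        exact this
      inv_mem' := fun {a} ha x => by
        have h1 := (augGen Γ).neg_mem (ha (a⁻¹ • x))
        rw [smul_inv_smul, neg_sub] at h1
        exact h1 }
  have hS : (S : SL(2, ℤ)) ∈ H := by
    have hS' : (S⁻¹ : SL(2, ℤ)) ∈ H := fun x => by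
      refine ⟨Pi.single x 1, 0, ?_⟩
      rw [permRep_single]
      simp
    have := H.inv_mem hS'
    rwa [inv_inv] at this
  have hT : (T : SL(2, ℤ)) ∈ H := fun x => by
    refine ⟨0, Pi.single x 1, ?_⟩
    rw [permRep_single]
    simp
  have htop : H = ⊤ := by
    rw [eq_top_iff, ← SpecialLinearGroup.SL2Z_generators, Subgroup.closure_le]
    rintro g (rfl | hg)
    · exact hS
    · rw [Set.mem_singleton_iff] at hg
      subst hg
      exact hT
  have : h ∈ H := by rw [htop]; trivial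
  exact this x

open Classical in
/-- **Transitivity lemma.** -/
theorem mem_augGen_of_sum_eq_zero [Fintype (SL(2, ℤ) ⧸ Γ)] (e : (SL(2, ℤ) ⧸ Γ) → ℤ)
    (he : ∑ x, e x = 0) : e ∈ augGen Γ := by
  have h1 : e = ∑ x, e x • (Pi.single x (1 : ℤ) - Pi.single (bpt Γ) 1 :
      (SL(2, ℤ) ⧸ Γ) → ℤ) := by
    simp only [smul_sub, Finset.sum_sub_distrib, ← Finset.sum_smul, he, zero_smul, sub_zero]
    funext y
    rw [Finset.sum_apply]
    simp [Pi.single_apply]
  rw [h1]
  refine (augGen Γ).sum_mem fun x _ => (augGen Γ).zsmul_mem ?_ _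
  obtain ⟨g, hg⟩ := exists_smul_bpt x
  rw [← hg]
  exact single_smul_sub_single_mem g (bpt Γ)

end Fermat.Agent.Lib.HFree.H412

end
-- ===== PACK-END Lib/HFree/H412/Trans.lean

-- ===== PACK-BEGIN S21/Interface.lean
section





/-!
# S21 (Eichler–Shimura, weight 2, Γ₀(N)) — interface statements

The analytic inputs `A1 A2 B C'` (proved by helper381 / helper81; `E1` is in `ConjPartner.lean`
by helper759, `D'` is in `HodgeAssembly.lean`).  Everything else is glue (`Glue.lean`).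
-/

set_option autoImplicit false

open ModularCurve ModularCurve.Period UpperHalfPlane CongruenceSubgroup
open scoped MatrixGroups ComplexConjugate

namespace Fermat.Agent.S21

/-- **A1**: every weight-2 cusp form on `Γ₀(N)` has an equivariant primitive. -/
theorem exists_primitive (N : ℕ) [NeZero N] (f : CuspForm (Gamma0 N) 2) :
    ∃ F : ℍ → ℂ, HasEquivariantPrimitive N f F :=
  H381.exists_hasEquivariantPrimitive f

/-- **A2**: the equivariant primitive is unique (only the derivative and the limit at `i∞` are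
used). -/
theorem primitive_unique (N : ℕ) (f : CuspForm (Gamma0 N) 2) {F₁ F₂ : ℍ → ℂ}
    (h₁ : HasEquivariantPrimitive N f F₁) (h₂ : HasEquivariantPrimitive N f F₂) : F₁ = F₂ :=
  H381.hasEquivariantPrimitive_unique h₁ h₂

/-- **B**: periods of cusp forms vanish on parabolic elements. -/
theorem periodMap_mem_parabolicHoms' (N : ℕ) [NeZero N] (f : CuspForm (Gamma0 N) 2) :
    periodMap N f ∈ parabolicHoms ℂ (Gamma0 N) ℂ :=
  H381.periodMap_mem_parabolicHoms f

/-- **C'**: a cusp form all of whose periods are purely imaginary is zero. -/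
theorem eq_zero_of_re_period_eq_zero (N : ℕ) [NeZero N] (f : CuspForm (Gamma0 N) 2) {F : ℍ → ℂ}
    (hF : HasEquivariantPrimitive N f F)
    (h : ∀ γ : Gamma0 N, (F ((γ : SL(2, ℤ)) • UpperHalfPlane.I) - F UpperHalfPlane.I).re = 0) :
    f = 0 :=
  H81.eq_zero_of_re_period_eq_zero N f hF h

end Fermat.Agent.S21

end
-- ===== PACK-END S21/Interface.lean

-- ===== PACK-BEGIN S23/Cap/BddDenom.lean
section





/-!
# S23 / WP9 : a cusp form on `Γ₀(N)` with rational q-expansion has bounded denominators.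

Math: take the relations (A1), (A2) of WP3 for `f`; all level one forms and `t` have q-expansions
in `IntSpan` (the `ℂ`-span of integral power series, by the landed `LevelOne` leaf); apply the pure
power-series theorem `Fermat.Agent.S23.BddDenom.bdd` (ρ-trick + normality of `ℤ⟦q⟧`).
(helper263, T8.)
-/

set_option autoImplicit false

namespace Fermat.Agent.S23.Cap

open UpperHalfPlane ModularForm ModularFormClass MatrixGroups CongruenceSubgroup

/-- The q-expansion of a level one modular form lies in the `ℂ`-span of integral series. -/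
theorem qx_mem_IntSpan_of_levelOne {k : ℤ} {g : ℍ → ℂ} (hg : IsMF SLZ k g) :
    qx g ∈ BddDenom.IntSpan := by
  obtain ⟨G, rfl⟩ := hg
  have h := LevelOne.levelOne_qExpansion_mem_span k G
  have hsub : Submodule.span ℂ (LevelOne.monoSet k) ≤
      Subalgebra.toSubmodule BddDenom.IntSpan := by
    rw [Submodule.span_le]
    rintro P ⟨a, b, -, rfl⟩
    exact BddDenom.iZC_mem_IntSpan _
  exact hsub h

theorem qx_mem_IntSpan_of_isIntSeries {F : PowerSeries ℂ} (hF : IsIntSeries F) :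
    F ∈ BddDenom.IntSpan :=
  BddDenom.mem_IntSpan_of_int_coeff hF

/-- **WP9 main statement.** -/
theorem bounded_denominators (N : ℕ) [NeZero N] (k : ℤ) (f : ℍ → ℂ) (hf : IsCF (G0 N) k f)
    (hrat : IsRatSeries (qx f)) :
    ∃ D : ℕ, D ≠ 0 ∧ IsIntSeries (qx ((D : ℂ) • f)) := by
  have hfM : IsMF (G0 N) k f := hf.isMF
  obtain ⟨μ, c, hμ, hc, hrel⟩ := exists_monic_relation N k f hf
  obtain ⟨w, t, ht, htint, hdist⟩ := exists_tForm N
  obtain ⟨ν, a, b, hν, ha, hb, hne, hlag⟩ := exists_lagrange N k w f t hfM ht hdist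
  have htI : qx t ∈ BddDenom.IntSpan := qx_mem_IntSpan_of_isIntSeries htint
  -- weights of the terms
  have hcM : ∀ i < μ, IsMF (G0 N) (k * (i + 1)) (c i) := fun i hi =>
    (IsCF.of_levelOne N (hc i hi)).isMF
  have hterm : ∀ i ∈ Finset.range μ, IsMF (G0 N) (k * μ) (c i * f ^ (μ - 1 - i)) := by
    intro i hi
    have hi' : i < μ := Finset.mem_range.mp hi
    refine IsMF.congr_weight ?_ ((hcM i hi').mul (hfM.pow (μ - 1 - i)))
    have : ((μ - 1 - i : ℕ) : ℤ) = (μ : ℤ) - 1 - i := by omega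
    rw [this]
    ring
  -- the monic equation on q-expansions
  have h1 : qx f ^ μ + ∑ i ∈ Finset.range μ, qx (c i) * qx f ^ (μ - 1 - i) = 0 := by
    have h := congrArg qx hrel
    rw [qx_zero, qx_add N (hfM.pow μ) (IsMF.sum _ _ hterm), qx_pow N hfM,
      qx_sum N _ _ (fun _ => k * μ) hterm] at h
    rw [← h]
    congr 1
    refine Finset.sum_congr rfl fun i hi => ?_
    have hi' : i < μ := Finset.mem_range.mp hi
    rw [qx_mul N (hcM i hi') (hfM.pow _), qx_pow N hfM]
  have h1' : qx f ^ μ + ∑ m ∈ Finset.range μ, qx (c (μ - 1 - m)) * qx f ^ m = 0 := by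
    rw [← h1]
    congr 1
    rw [← Finset.sum_range_reflect]
    refine Finset.sum_congr rfl fun m hm => ?_
    have hm' : m < μ := Finset.mem_range.mp hm
    have : μ - 1 - (μ - 1 - m) = m := by omega
    rw [this]
  -- the fraction relation on q-expansions
  have hbM : ∀ j < ν, IsMF (G0 N) (w * ((ν : ℤ) - 1 - j)) (b j) := fun j hj =>
    IsMF.of_levelOne N (hb j hj)
  have haM : ∀ j < ν, IsMF (G0 N) (k + w * ((ν : ℤ) - 1 - j)) (a j) := fun j hj =>
    IsMF.of_levelOne N (ha j hj)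
  have hbt : ∀ j ∈ Finset.range ν, IsMF (G0 N) (w * ((ν : ℤ) - 1)) (b j * t ^ j) := by
    intro j hj
    have hj' : j < ν := Finset.mem_range.mp hj
    refine IsMF.congr_weight ?_ ((hbM j hj').mul (ht.pow j))
    ring
  have hat : ∀ j ∈ Finset.range ν, IsMF (G0 N) (k + w * ((ν : ℤ) - 1)) (a j * t ^ j) := by
    intro j hj
    have hj' : j < ν := Finset.mem_range.mp hj
    refine IsMF.congr_weight ?_ ((haM j hj').mul (ht.pow j))
    ring
  have hDM : IsMF (G0 N) (w * ((ν : ℤ) - 1)) (∑ j ∈ Finset.range ν, b j * t ^ j) :=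
    IsMF.sum _ _ hbt
  have hqD : qx (∑ j ∈ Finset.range ν, b j * t ^ j) =
      ∑ j ∈ Finset.range ν, qx (b j) * qx t ^ j := by
    rw [qx_sum N _ _ (fun _ => w * ((ν : ℤ) - 1)) hbt]
    refine Finset.sum_congr rfl fun j hj => ?_
    have hj' : j < ν := Finset.mem_range.mp hj
    rw [qx_mul N (hbM j hj') (ht.pow j), qx_pow N ht]
  have hqF : qx (∑ j ∈ Finset.range ν, a j * t ^ j) =
      ∑ j ∈ Finset.range ν, qx (a j) * qx t ^ j := by
    rw [qx_sum N _ _ (fun _ => k + w * ((ν : ℤ) - 1)) hat]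
    refine Finset.sum_congr rfl fun j hj => ?_
    have hj' : j < ν := Finset.mem_range.mp hj
    rw [qx_mul N (haM j hj') (ht.pow j), qx_pow N ht]
  have hD0 : (∑ j ∈ Finset.range ν, qx (b j) * qx t ^ j) ≠ 0 := by
    rw [← hqD]
    intro h
    exact hne (eq_zero_of_qx_eq_zero N hDM h)
  have hDF : (∑ j ∈ Finset.range ν, qx (b j) * qx t ^ j) * qx f =
      ∑ j ∈ Finset.range ν, qx (a j) * qx t ^ j := by
    rw [← hqD, ← hqF, ← hlag, qx_mul N hDM hfM]
  have hDI : (∑ j ∈ Finset.range ν, qx (b j) * qx t ^ j) ∈ BddDenom.IntSpan :=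
    Subalgebra.sum_mem _ fun j hj =>
      Subalgebra.mul_mem _ (qx_mem_IntSpan_of_levelOne (hb j (Finset.mem_range.mp hj)))
        (Subalgebra.pow_mem _ htI j)
  have hFI : (∑ j ∈ Finset.range ν, qx (a j) * qx t ^ j) ∈ BddDenom.IntSpan :=
    Subalgebra.sum_mem _ fun j hj =>
      Subalgebra.mul_mem _ (qx_mem_IntSpan_of_levelOne (ha j (Finset.mem_range.mp hj)))
        (Subalgebra.pow_mem _ htI j)
  obtain ⟨c₀, hc₀, hint⟩ := BddDenom.bdd (qx f) hrat μ (fun m => qx (c (μ - 1 - m)))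
    (fun m hm => qx_mem_IntSpan_of_levelOne (hc (μ - 1 - m) (by omega)).isMF) h1'
    _ _ hDI hFI hD0 hDF
  refine ⟨c₀, hc₀.ne', fun n => ?_⟩
  obtain ⟨m, hm⟩ := hint n
  refine ⟨m, ?_⟩
  rw [qx_smul N _ hfM, PowerSeries.coeff_smul, smul_eq_mul]
  exact hm

end Fermat.Agent.S23.Cap

end
-- ===== PACK-END S23/Cap/BddDenom.lean

-- ===== PACK-BEGIN Lib/Newform/H683/XDepleteMain.lean
section
/-
NEWFORM library, block X (helper683) — **X5 Deplete**, unconditional
(`H958.X.dirichletSeries` is on main).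
-/



set_option autoImplicit false

namespace Fermat.Agent.Lib.Newform.H683

/-- **X5 Deplete** (unconditional). -/
theorem deplete : Fermat.Agent.Lib.Newform.H958.X.Deplete :=
  deplete_of Fermat.Agent.Lib.Newform.H958.X.dirichletSeries

end Fermat.Agent.Lib.Newform.H683

end
-- ===== PACK-END Lib/Newform/H683/XDepleteMain.lean

-- ===== PACK-BEGIN Lib/Newform/H923/TraceALProof.lean
section




/-!
# The leaf `TraceAL` of the NEWFORM library

We package the Atkin–Lehner operator `W_q` on cusp forms of level `q M` (`q ∤ M`) as a linear map,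
and prove the frozen interface statement `Fermat.Agent.Lib.Newform.H958.TraceAL`:
`W_q` commutes with all `T_ℓ` (`ℓ ∤ N`) and both `f + U_q (W_q f)` and `W_q f + U_q f` are cusp
forms of level `N / q`.
-/

set_option autoImplicit false

noncomputable section

namespace Fermat.Agent.Lib.Newform.H923

open Matrix UpperHalfPlane ModularForm CongruenceSubgroup
open scoped MatrixGroups ModularForm OnePoint Manifold Pointwise

theorem IsAL.det_pos {q M : ℕ} (hq : q ≠ 0) {A : GL (Fin 2) ℝ} (hA : IsAL q M A) :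
    0 < (A.det : ℝ) := by
  obtain ⟨a, b, c, d, hInt, h⟩ := hA
  rw [hInt.det]
  have : (q * a : ℤ) * (q * d) - b * (q * M * c) = q := by linear_combination (q : ℤ) * h
  rw [this]
  exact_mod_cast Nat.pos_of_ne_zero hq

theorem IsAL.σ_eq {q M : ℕ} (hq : q ≠ 0) {A : GL (Fin 2) ℝ} (hA : IsAL q M A) :
    UpperHalfPlane.σ A = .refl ℝ ℂ := by
  rw [UpperHalfPlane.σ, if_pos (hA.det_pos hq)]

/-- An Atkin–Lehner matrix normalises `Γ₀(q M)` (one inclusion). -/
theorem IsAL.conj_le {q M : ℕ} {A : GL (Fin 2) ℝ} (hA : IsAL q M A) :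
    ConjAct.toConjAct A • (Gamma0 (q * M) : Subgroup (GL (Fin 2) ℝ)) ≤
      (Gamma0 (q * M) : Subgroup (GL (Fin 2) ℝ)) := by
  intro x hx
  rw [Subgroup.mem_pointwise_smul_iff_inv_smul_mem, ← ConjAct.toConjAct_inv,
    ConjAct.toConjAct_smul, inv_inv] at hx
  obtain ⟨g, hg, hgx⟩ := hx
  obtain ⟨g', hg', h⟩ := hA.exists_eq_mul (hA.mul_mapGL hg)
  refine ⟨g', hg', ?_⟩
  have h1 : A * (A⁻¹ * x * A) = x * A := by group
  rw [← hgx] at h1
  rw [h] at h1
  exact mul_right_cancel h1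

theorem IsAL.isCusp_smul {q M : ℕ} {A : GL (Fin 2) ℝ} (hA : IsAL q M A) {c : OnePoint ℝ}
    (hc : IsCusp c (Gamma0 (q * M) : Subgroup (GL (Fin 2) ℝ))) :
    IsCusp (A • c) (Gamma0 (q * M) : Subgroup (GL (Fin 2) ℝ)) :=
  (hc.smul A).mono hA.conj_le

/-- The Atkin–Lehner operator on cusp forms of level `q M`. -/
def alCusp (k : ℤ) {q M : ℕ} {A : GL (Fin 2) ℝ} (hA : IsAL q M A)
    (f : CuspForm (Gamma0 (q * M)) k) : CuspForm (Gamma0 (q * M)) k where
  toFun := ⇑f ∣[k] A
  slash_action_eq' := slash_AL_invariant (invUnder_of_slashInvariantFormClass f) hA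
  holo' := (CuspFormClass.holo f).slash k A
  zero_at_cusps' := fun {c} hc => by
    rw [← OnePoint.IsZeroAt.smul_iff]
    exact CuspFormClass.zero_at_cusps f (hA.isCusp_smul hc)

@[simp] theorem coe_alCusp (k : ℤ) {q M : ℕ} {A : GL (Fin 2) ℝ} (hA : IsAL q M A)
    (f : CuspForm (Gamma0 (q * M)) k) : ⇑(alCusp k hA f) = ⇑f ∣[k] A := rfl

/-- The Atkin–Lehner operator as a linear map. -/
def alLin (k : ℤ) {q M : ℕ} (hq : q ≠ 0) {A : GL (Fin 2) ℝ} (hA : IsAL q M A) :
    CuspForm (Gamma0 (q * M)) k →ₗ[ℂ] CuspForm (Gamma0 (q * M)) k where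
  toFun := alCusp k hA
  map_add' f g := DFunLike.coe_injective <| by
    rw [coe_alCusp, CuspForm.coe_add, SlashAction.add_slash, CuspForm.coe_add, coe_alCusp,
      coe_alCusp]
  map_smul' c f := DFunLike.coe_injective <| by
    rw [coe_alCusp, CuspForm.IsGLPos.coe_smul, ModularForm.smul_slash, hA.σ_eq hq,
      RingHom.id_apply, CuspForm.IsGLPos.coe_smul, coe_alCusp]
    rfl

@[simp] theorem coe_alLin (k : ℤ) {q M : ℕ} (hq : q ≠ 0) {A : GL (Fin 2) ℝ} (hA : IsAL q M A)
    (f : CuspForm (Gamma0 (q * M)) k) : ⇑(alLin k hq hA f) = ⇑f ∣[k] A := rfl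

/-- Cusps of `Γ₀(M)` are cusps of `Γ₀(N)` (both are all of `ℙ¹(ℚ)`). -/
theorem isCusp_Gamma0_of_isCusp_Gamma0 {M N : ℕ} [NeZero M] [NeZero N] {c : OnePoint ℝ}
    (hc : IsCusp c (Gamma0 M : Subgroup (GL (Fin 2) ℝ))) :
    IsCusp c (Gamma0 N : Subgroup (GL (Fin 2) ℝ)) := by
  rw [Subgroup.IsArithmetic.isCusp_iff_isCusp_SL2Z] at hc ⊢
  exact hc

/-- A function which is a cusp form of level `N` and is invariant under `Γ₀(M)` is a cusp form
of level `M`. -/
def descendCusp (k : ℤ) {M N : ℕ} [NeZero M] [NeZero N] (F : CuspForm (Gamma0 N) k)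
    (hinv : InvUnder M k ⇑F) : CuspForm (Gamma0 M) k where
  toFun := ⇑F
  slash_action_eq' := hinv
  holo' := CuspFormClass.holo F
  zero_at_cusps' := fun {c} hc =>
    CuspFormClass.zero_at_cusps F (isCusp_Gamma0_of_isCusp_Gamma0 hc)

@[simp] theorem coe_descendCusp (k : ℤ) {M N : ℕ} [NeZero M] [NeZero N]
    (F : CuspForm (Gamma0 N) k) (hinv : InvUnder M k ⇑F) :
    ⇑(descendCusp k F hinv) = ⇑F := rfl

/-- The statement `TraceAL` for the level written as `q * M`. -/
theorem traceAL_aux {q M : ℕ} [NeZero (q * M)] (hq : q.Prime) (hqM : ¬ q ∣ M) :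
    ∃ W : CuspForm (Gamma0 (q * M)) 2 →ₗ[ℂ] CuspForm (Gamma0 (q * M)) 2,
      (∀ (ℓ : ℕ) (hℓ : ℓ.Prime) (hℓN : ¬ ℓ ∣ q * M) (f : CuspForm (Gamma0 (q * M)) 2),
        W (CuspForm.heckeTLin 2 hℓ hℓN f) = CuspForm.heckeTLin 2 hℓ hℓN (W f)) ∧
      (∀ f : CuspForm (Gamma0 (q * M)) 2, ∃ g : CuspForm (Gamma0 M) 2,
        (⇑g : UpperHalfPlane → ℂ) = ⇑f + ModularForm.heckeU 2 q ⇑(W f)) ∧
      (∀ f : CuspForm (Gamma0 (q * M)) 2, ∃ g : CuspForm (Gamma0 M) 2,
        (⇑g : UpperHalfPlane → ℂ) = ⇑(W f) + ModularForm.heckeU 2 q ⇑f) := by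
  have hq0 : q ≠ 0 := hq.ne_zero
  have hM0 : M ≠ 0 := fun h => NeZero.ne (q * M) (by rw [h, mul_zero])
  haveI : NeZero M := ⟨hM0⟩
  have hcop : Nat.Coprime q M := (Nat.Prime.coprime_iff_not_dvd hq).mpr hqM
  obtain ⟨A, hA⟩ := exists_isAL hq0 hcop
  have hqN : q ∣ q * M := Dvd.intro _ rfl
  refine ⟨alLin 2 hq0 hA, ?_, ?_, ?_⟩
  · intro ℓ hℓ hℓN f
    apply DFunLike.coe_injective
    rw [coe_alLin, CuspForm.coe_heckeTLin_apply, CuspForm.coe_heckeTLin_apply, coe_alLin]
    exact heckeT_slash_AL 2 hq0 hℓ hℓN (invUnder_of_slashInvariantFormClass f) hA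
  · intro f
    have hinv : InvUnder M 2 ⇑(f + CuspForm.heckeULin 2 hqN (alLin 2 hq0 hA f)) := by
      have h1 := invUnder_slash_AL_add_heckeU 2 hq
        (invUnder_of_slashInvariantFormClass (alLin 2 hq0 hA f)) hA
      rw [coe_alLin, slash_AL_slash_AL hq0 (invUnder_of_slashInvariantFormClass f) hA] at h1
      rw [CuspForm.coe_add, CuspForm.coe_heckeULin_apply, coe_alLin]
      exact h1
    refine ⟨descendCusp 2 _ hinv, ?_⟩
    rw [coe_descendCusp, CuspForm.coe_add, CuspForm.coe_heckeULin_apply]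
  · intro f
    have hinv : InvUnder M 2 ⇑(alLin 2 hq0 hA f + CuspForm.heckeULin 2 hqN f) := by
      have h1 := invUnder_slash_AL_add_heckeU 2 hq (invUnder_of_slashInvariantFormClass f) hA
      rw [CuspForm.coe_add, CuspForm.coe_heckeULin_apply, coe_alLin]
      exact h1
    refine ⟨descendCusp 2 _ hinv, ?_⟩
    rw [coe_descendCusp, CuspForm.coe_add, CuspForm.coe_heckeULin_apply]

/-- **The leaf `TraceAL`.** -/
theorem traceAL : Fermat.Agent.Lib.Newform.H958.TraceAL := by
  intro N q _ hq hqN hq2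
  obtain ⟨M, rfl⟩ := hqN
  have hqM : ¬ q ∣ M := by
    intro h
    apply hq2
    rw [pow_two]
    exact Nat.mul_dvd_mul_left q h
  rw [Nat.mul_div_cancel_left M hq.pos]
  exact traceAL_aux hq hqM

end Fermat.Agent.Lib.Newform.H923

end
end
-- ===== PACK-END Lib/Newform/H923/TraceALProof.lean

-- ===== PACK-BEGIN S18/H754/KummerTransfer.lean
section


/-!
# S18 / Route K / étale Kummer cover: transfer between `B` and its localisation `R = B_𝔪`
-/

set_option autoImplicit false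

noncomputable section

namespace Fermat.Agent.S18.H754

open Polynomial IsLocalRing

section Transfer

variable {B : Type*} [CommRing B] [IsDomain B]
  (𝔪 : Ideal B) [h𝔪 : 𝔪.IsPrime]
  (R : Type*) [CommRing R] [Algebra B R] [IsLocalization.AtPrime R 𝔪]

include h𝔪 in
lemma algebraMap_loc_injective : Function.Injective (algebraMap B R) :=
  IsLocalization.injective R 𝔪.primeCompl_le_nonZeroDivisors

lemma disjoint_primeCompl_span {ϖ : B} (hϖ𝔪 : ϖ ∈ 𝔪) :
    Disjoint (𝔪.primeCompl : Set B) (Ideal.span {ϖ} : Ideal B) := by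
  rw [Set.disjoint_left]
  intro x hx hx'
  apply hx
  have h : Ideal.span {ϖ} ≤ 𝔪 := (Ideal.span_singleton_le_iff_mem _).2 hϖ𝔪
  exact h hx'

lemma span_map_singleton (ϖ : B) :
    Ideal.span {algebraMap B R ϖ} = Ideal.map (algebraMap B R) (Ideal.span {ϖ}) := by
  rw [Ideal.map_span, Set.image_singleton]

lemma prime_algebraMap_loc {ϖ : B} (hϖ : Prime ϖ) (hϖ𝔪 : ϖ ∈ 𝔪) :
    Prime (algebraMap B R ϖ) := by
  have h0 : algebraMap B R ϖ ≠ 0 := by
    intro h
    exact hϖ.ne_zero (algebraMap_loc_injective 𝔪 R (by rw [h, map_zero]))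
  rw [← Ideal.span_singleton_prime h0, span_map_singleton]
  exact IsLocalization.isPrime_of_isPrime_disjoint 𝔪.primeCompl R _
    ((Ideal.span_singleton_prime hϖ.ne_zero).2 hϖ) (disjoint_primeCompl_span 𝔪 hϖ𝔪)

lemma not_dvd_algebraMap_loc {ϖ : B} (hϖ : Prime ϖ) (hϖ𝔪 : ϖ ∈ 𝔪) {x : B}
    (hx : x ∉ Ideal.span {ϖ}) : algebraMap B R x ∉ Ideal.span {algebraMap B R ϖ} := by
  intro h
  apply hx
  rw [span_map_singleton] at h
  have := IsLocalization.comap_map_of_isPrime_disjoint 𝔪.primeCompl R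
    ((Ideal.span_singleton_prime hϖ.ne_zero).2 hϖ) (disjoint_primeCompl_span 𝔪 hϖ𝔪)
  rw [← this]
  exact h

lemma maximalIdeal_loc_eq_span_pair [IsLocalRing R] {ϖ t : B} (hϖ𝔪 : ϖ ∈ 𝔪) (ht𝔪 : t ∈ 𝔪)
    (h : ∀ a ∈ 𝔪, ∃ s : B, s ∉ 𝔪 ∧ s * a ∈ Ideal.span {ϖ, t}) :
    maximalIdeal R = Ideal.span {algebraMap B R ϖ, algebraMap B R t} := by
  rw [← IsLocalization.AtPrime.map_eq_maximalIdeal 𝔪 R]
  have hspan : Ideal.span {algebraMap B R ϖ, algebraMap B R t} =
      Ideal.map (algebraMap B R) (Ideal.span {ϖ, t}) := by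
    rw [Ideal.map_span, Set.image_pair]
  apply le_antisymm
  · rw [Ideal.map_le_iff_le_comap]
    intro a ha
    obtain ⟨s, hs, hsa⟩ := h a ha
    rw [Ideal.mem_comap, hspan]
    have h1 : algebraMap B R (s * a) ∈ Ideal.map (algebraMap B R) (Ideal.span {ϖ, t}) :=
      Ideal.mem_map_of_mem _ hsa
    rw [map_mul] at h1
    have hu : IsUnit (algebraMap B R s) := IsLocalization.map_units R (⟨s, hs⟩ : 𝔪.primeCompl)
    exact (Ideal.unit_mul_mem_iff_mem _ hu).1 h1
  · rw [Ideal.span_le]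
    intro x hx
    rcases hx with rfl | hx
    · exact Ideal.mem_map_of_mem _ hϖ𝔪
    · rw [Set.mem_singleton_iff] at hx
      subst hx
      exact Ideal.mem_map_of_mem _ ht𝔪

section Field

variable {F : Type*} [Field F] [Algebra B F] [Algebra R F] [IsScalarTower B R F]

lemma oneModPi_loc {ϖ : B} (hϖ : Prime ϖ) (hϖ𝔪 : ϖ ∈ 𝔪) {u : F} (h : OneModPi ϖ u) :
    OneModPi (algebraMap B R ϖ) u := by
  obtain ⟨a, s, hs, has, hu⟩ := h
  refine ⟨algebraMap B R a, algebraMap B R s, not_dvd_algebraMap_loc 𝔪 R hϖ hϖ𝔪 hs, ?_, ?_⟩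
  · rw [← map_sub, span_map_singleton]
    exact Ideal.mem_map_of_mem _ has
  · rw [← IsScalarTower.algebraMap_apply, ← IsScalarTower.algebraMap_apply]
    exact hu

include 𝔪 in
lemma locallyPow_of_divisibleDivisor [IsDomain R] [IsNoetherianRing R] {p : ℕ} {u : F}
    (h : DivisibleDivisor B p u) (π : R) (hπ : Prime π) : LocallyPow R p u π := by
  haveI hP : (Ideal.span {π}).IsPrime := (Ideal.span_singleton_prime hπ.ne_zero).2 hπ
  have hht : (Ideal.span {π} : Ideal R).height = 1 := by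
    apply le_antisymm
    · refine Ideal.height_le_one_of_isPrincipal_of_mem_minimalPrimes (Ideal.span {π}) _ ?_
      rw [Ideal.minimalPrimes_eq_subsingleton_self]
      exact Set.mem_singleton _
    · rw [Order.one_le_iff_pos, pos_iff_ne_zero]
      intro h0
      rw [Ideal.height_eq_zero_iff, IsDomain.minimalPrimes_eq_singleton_bot] at h0
      rw [Set.mem_singleton_iff, Ideal.span_singleton_eq_bot] at h0
      exact hπ.ne_zero h0
  have hht' : ((Ideal.span {π} : Ideal R).under B).height = 1 := by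
    rw [IsLocalization.height_comap 𝔪.primeCompl, hht]
  obtain ⟨t, a, s, ha, hs, hu⟩ := h ((Ideal.span {π} : Ideal R).under B) inferInstance hht'
  refine ⟨t, algebraMap B R a, algebraMap B R s, ?_, ?_, ?_⟩
  · intro hd
    apply ha
    rw [Ideal.under_def, Ideal.mem_comap, Ideal.mem_span_singleton]
    exact hd
  · intro hd
    apply hs
    rw [Ideal.under_def, Ideal.mem_comap, Ideal.mem_span_singleton]
    exact hd
  · rw [← IsScalarTower.algebraMap_apply, ← IsScalarTower.algebraMap_apply]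
    exact hu

end Field

section Int

variable {F' : Type*} [Field F'] [Algebra B F'] [Algebra R F'] [IsScalarTower B R F']

/-- an element integral over `R = B_𝔪` has a multiple by some `m ∉ 𝔪` integral over `B`. -/
lemma exists_notMem_isIntegral_mul {c : F'} (hc : IsIntegral R c) :
    ∃ m : B, m ∉ 𝔪 ∧ IsIntegral B (algebraMap B F' m * c) := by
  obtain ⟨⟨m, hm⟩, h⟩ := IsIntegral.exists_multiple_integral_of_isLocalization 𝔪.primeCompl c hc
  refine ⟨m, hm, ?_⟩
  rw [← Algebra.smul_def]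
  exact h

/-- `ϖ O'`-membership over `R = B_𝔪` gives `ϖ O'`-membership over `B` (same `O'`). -/
lemma inPiO_of_loc {ϖ : B} (hϖ : Prime ϖ) (hϖ𝔪 : ϖ ∈ 𝔪) {y : F'}
    (h : InPiO (algebraMap B R ϖ) y) : InPiO ϖ y := by
  obtain ⟨s', hs', c, hc, hsc⟩ := h
  obtain ⟨m, hm, hmc⟩ := exists_notMem_isIntegral_mul 𝔪 R hc
  obtain ⟨s₁, ⟨s₂, hs₂⟩, hs⟩ := IsLocalization.exists_mk'_eq 𝔪.primeCompl s'
  have hs12 : s' * algebraMap B R s₂ = algebraMap B R s₁ := by
    rw [← hs]
    exact IsLocalization.mk'_spec R s₁ ⟨s₂, hs₂⟩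
  have hπ' := prime_algebraMap_loc 𝔪 R hϖ hϖ𝔪
  have hs₁ : s₁ ∉ Ideal.span {ϖ} := by
    intro h1
    have h2 : algebraMap B R s₁ ∈ Ideal.span {algebraMap B R ϖ} := by
      rw [span_map_singleton]
      exact Ideal.mem_map_of_mem _ h1
    rw [← hs12, Ideal.mem_span_singleton] at h2
    rw [Ideal.mem_span_singleton] at hs'
    rcases hπ'.dvd_or_dvd h2 with h3 | h3
    · exact hs' h3
    · have hu : IsUnit (algebraMap B R s₂) :=
        IsLocalization.map_units R (⟨s₂, hs₂⟩ : 𝔪.primeCompl)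
      exact hπ'.not_unit (isUnit_of_dvd_unit h3 hu)
  have hm' : m ∉ Ideal.span {ϖ} := by
    intro h1
    apply hm
    have h : Ideal.span {ϖ} ≤ 𝔪 := (Ideal.span_singleton_le_iff_mem _).2 hϖ𝔪
    exact h h1
  refine ⟨s₁ * m, ?_, algebraMap B F' s₂ * (algebraMap B F' m * c),
    isIntegral_algebraMap.mul hmc, ?_⟩
  · intro h1
    rw [Ideal.mem_span_singleton] at h1 hs₁ hm'
    rcases hϖ.dvd_or_dvd h1 with h2 | h2
    · exact hs₁ h2
    · exact hm' h2
  · have e1 : algebraMap B F' s₁ = algebraMap R F' s' * algebraMap B F' s₂ := by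
      rw [IsScalarTower.algebraMap_apply B R F' s₁, ← hs12, map_mul,
        ← IsScalarTower.algebraMap_apply]
    have e2 : algebraMap R F' (algebraMap B R ϖ) = algebraMap B F' ϖ :=
      (IsScalarTower.algebraMap_apply B R F' ϖ).symm
    rw [e2] at hsc
    rw [map_mul, e1]
    calc algebraMap R F' s' * algebraMap B F' s₂ * algebraMap B F' m * y
        = algebraMap B F' s₂ * algebraMap B F' m * (algebraMap R F' s' * y) := by ring
      _ = algebraMap B F' s₂ * algebraMap B F' m * (algebraMap B F' ϖ * c) := by rw [hsc]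
      _ = algebraMap B F' ϖ * (algebraMap B F' s₂ * (algebraMap B F' m * c)) := by ring

/-- `ϖ O'`-membership over `B` gives `ϖ O'`-membership over `R = B_𝔪`. -/
lemma inPiO_to_loc {ϖ : B} (hϖ : Prime ϖ) (hϖ𝔪 : ϖ ∈ 𝔪) {y : F'}
    (h : InPiO ϖ y) : InPiO (algebraMap B R ϖ) y := by
  obtain ⟨s, hs, c, hc, hsc⟩ := h
  refine ⟨algebraMap B R s, not_dvd_algebraMap_loc 𝔪 R hϖ hϖ𝔪 hs, c, hc.tower_top, ?_⟩
  rw [← IsScalarTower.algebraMap_apply, ← IsScalarTower.algebraMap_apply]
  exact hsc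

end Int

end Transfer

end Fermat.Agent.S18.H754

end

end
-- ===== PACK-END S18/H754/KummerTransfer.lean

-- ===== PACK-BEGIN S28/H988/Tower.lean
section
/-
S28 / [L.UP] upper bound, helper988.
The tower step over ANY field `k`:  `E_{Mp} = E_M(j(q^{p^{a+1}}))` and
`[E_{Mp} : E_M] ≤ p + 1` (`p ∤ M`), `≤ p` (`p ∣ M`), where `E_N = k(j(q^d) : d ∣ N)`.
Input: the modular relations `PhiRel k r (Φ r)` for the primes `r ∣ M p`.
-/




set_option autoImplicit false

noncomputable section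

open Polynomial ModularCurve

namespace Fermat.Agent.S28.H988

variable (k : Type*) [Field k]

/-! ### The fields `E_N` -/

theorem jd_mem_full {N d : ℕ} (hN : N ≠ 0) (hd : d ∣ N) :
    jd k d ∈ modularFunctionFieldFullC k N := by
  have hd0 : d ≠ 0 := fun h => hN (by rw [h] at hd; exact Nat.eq_zero_of_zero_dvd hd)
  have : NeZero d := ⟨hd0⟩
  rw [jd_eq k d]
  exact jqModCd_mem_full k N hd

theorem full_le_iff {N : ℕ} (hN : N ≠ 0) (F : IntermediateField k (LaurentSeries k)) :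
    modularFunctionFieldFullC k N ≤ F ↔ ∀ d, d ∣ N → jd k d ∈ F := by
  constructor
  · intro h d hd
    exact h (jd_mem_full k hN hd)
  · intro h
    rw [modularFunctionFieldFullC, IntermediateField.adjoin_le_iff]
    rintro x ⟨d, hne, hdvd, rfl⟩
    have := h d hdvd
    rwa [jd_eq k d] at this

theorem full_mono {M N : ℕ} (hN : N ≠ 0) (h : M ∣ N) :
    modularFunctionFieldFullC k M ≤ modularFunctionFieldFullC k N := by
  have hM : M ≠ 0 := fun h0 => hN (by rw [h0] at h; exact Nat.eq_zero_of_zero_dvd h)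
  rw [full_le_iff k hM]
  intro d hd
  exact jd_mem_full k hN (hd.trans h)

/-! ### Generation -/

variable {k}

/-- **Generation.** If `F ⊇ E_M` contains `j(q^{p^b})` for all `p^b ∣ M p`, then `F ⊇ E_{Mp}`. -/
theorem jd_mem_of_dvd_mul (Φ : ℕ → Polynomial (Polynomial ℤ)) {M p : ℕ} (hM : M ≠ 0)
    (hp : p.Prime) (hΦ : ∀ r, r.Prime → r ∣ M * p → PhiRel k r (Φ r))
    (F : IntermediateField k (LaurentSeries k)) (hF : ∀ d, d ∣ M → jd k d ∈ F)
    (hpow : ∀ b, p ^ b ∣ M * p → jd k (p ^ b) ∈ F) :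
    ∀ d, d ∣ M * p → jd k d ∈ F := by
  intro d
  induction d using Nat.strong_induction_on with
  | _ d ih =>
    intro hd
    have hMp : M * p ≠ 0 := Nat.mul_ne_zero hM hp.ne_zero
    have hd0 : d ≠ 0 := fun h => hMp (by rw [h] at hd; exact Nat.eq_zero_of_zero_dvd hd)
    by_cases hdM : d ∣ M
    · exact hF d hdM
    have hpd : p ∣ d := by
      by_contra hnp
      have hcop : Nat.Coprime d p := (Nat.Coprime.symm ((Nat.Prime.coprime_iff_not_dvd hp).mpr hnp))
      exact hdM (hcop.dvd_of_dvd_mul_right hd)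
    by_cases hex : ∃ r, r.Prime ∧ r ∣ d ∧ r ≠ p
    · obtain ⟨r, hr, hrd, hrp⟩ := hex
      have hcop : Nat.Coprime p r := (Nat.coprime_primes hp hr).mpr (Ne.symm hrp)
      have hprd : p * r ∣ d := hcop.mul_dvd_of_dvd_of_dvd hpd hrd
      obtain ⟨e, he⟩ := hprd
      have hde : d = e * p * r := by rw [he]; ring
      have he0 : e ≠ 0 := by
        rintro rfl
        apply hd0
        rw [hde]; simp
      have h1 : jd k (e * r) ∈ F := by
        apply hF
        have : e * r * p ∣ M * p := by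
          rw [show e * r * p = d by rw [hde]; ring]; exact hd
        exact (Nat.mul_dvd_mul_iff_right hp.pos).mp this
      have h2 : jd k (e * p) ∈ F := by
        apply ih (e * p)
        · rw [hde]
          have : 1 < r := hr.one_lt
          have hpos : 0 < e * p := Nat.pos_of_ne_zero (Nat.mul_ne_zero he0 hp.ne_zero)
          nlinarith
        · exact (Dvd.intro r hde.symm).trans hd
      rw [hde]
      exact jd_mem_of_mem (hΦ p hp (Dvd.intro_left M rfl)) (hΦ r hr (hrd.trans hd))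
        hp.one_lt hr.one_lt (Ne.symm hrp) he0 F h1 h2
    · push Not at hex
      have hdpow : d = p ^ d.primeFactorsList.length :=
        Nat.eq_prime_pow_of_unique_prime_dvd hd0 (fun {r} hr hrd => hex r hr hrd)
      rw [hdpow]
      apply hpow
      rw [← hdpow]
      exact hd

/-! ### The top generator and its polynomial -/

/-- The exponent of the top `p`-power: `p ^ (topExp M p) ∣ M * p` exactly. -/
def topExp (M p : ℕ) : ℕ := M.factorization p + 1

theorem pow_dvd_mul_iff {M p : ℕ} (hM : M ≠ 0) (hp : p.Prime) (b : ℕ) :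
    p ^ b ∣ M * p ↔ b ≤ topExp M p := by
  have hMp : M * p ≠ 0 := Nat.mul_ne_zero hM hp.ne_zero
  rw [hp.pow_dvd_iff_le_factorization hMp, Nat.factorization_mul hM hp.ne_zero]
  simp only [Finsupp.coe_add, Pi.add_apply, hp.factorization_self, topExp]

theorem pow_dvd_iff' {M p : ℕ} (hM : M ≠ 0) (hp : p.Prime) (b : ℕ) :
    p ^ b ∣ M ↔ b + 1 ≤ topExp M p := by
  rw [hp.pow_dvd_iff_le_factorization hM, topExp]
  omega

variable (k) in
/-- The top generator `j(q^{p^{a+1}})`, `a = v_p(M)`. -/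
def topGen (M p : ℕ) : LaurentSeries k := jd k (p ^ topExp M p)

theorem topGen_mem {M p : ℕ} (hM : M ≠ 0) (hp : p.Prime) :
    topGen k M p ∈ modularFunctionFieldFullC k (M * p) :=
  jd_mem_full k (Nat.mul_ne_zero hM hp.ne_zero) ((pow_dvd_mul_iff hM hp _).mpr le_rfl)

/-- **Generation, packaged**: `E_{Mp} = E_M(topGen)`. -/
theorem full_mul_eq (Φ : ℕ → Polynomial (Polynomial ℤ)) {M p : ℕ} (hM : M ≠ 0)
    (hp : p.Prime) (hΦ : ∀ r, r.Prime → r ∣ M * p → PhiRel k r (Φ r)) :
    modularFunctionFieldFullC k (M * p) =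
      (IntermediateField.adjoin (modularFunctionFieldFullC k M) {topGen k M p}).restrictScalars k := by
  have hMp : M * p ≠ 0 := Nat.mul_ne_zero hM hp.ne_zero
  set L' := IntermediateField.adjoin (modularFunctionFieldFullC k M) {topGen k M p} with hL'
  have hsub : ∀ x ∈ modularFunctionFieldFullC k M, x ∈ L'.restrictScalars k := by
    intro x hx
    rw [IntermediateField.mem_restrictScalars]
    exact L'.algebraMap_mem ⟨x, hx⟩
  have htop : topGen k M p ∈ L'.restrictScalars k := by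
    rw [IntermediateField.mem_restrictScalars]
    exact IntermediateField.mem_adjoin_simple_self _ _
  apply le_antisymm
  · rw [full_le_iff k hMp]
    refine jd_mem_of_dvd_mul Φ hM hp hΦ _ (fun d hd => hsub _ (jd_mem_full k hM hd)) ?_
    intro b hb
    rw [pow_dvd_mul_iff hM hp] at hb
    rcases Nat.lt_or_ge b (topExp M p) with hlt | hge
    · exact hsub _ (jd_mem_full k hM ((pow_dvd_iff' hM hp b).mpr hlt))
    · have : b = topExp M p := le_antisymm hb hge
      rw [this]
      exact htop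
  · intro x hx
    rw [IntermediateField.mem_restrictScalars] at hx
    have hle : L' ≤ IntermediateField.extendScalars
        (full_mono k hMp (Dvd.intro p rfl) :
          modularFunctionFieldFullC k M ≤ modularFunctionFieldFullC k (M * p)) := by
      rw [hL', IntermediateField.adjoin_le_iff]
      rintro y hy
      rw [Set.mem_singleton_iff] at hy
      rw [hy]
      exact (IntermediateField.mem_extendScalars _).mpr (topGen_mem hM hp)
    exact (IntermediateField.mem_extendScalars _).mp (hle hx)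

/-! ### The degree of the top generator -/

/-- `topGen` is a root of a monic polynomial over `E_M` of degree `p + 1`, and of degree `p`
if `p ∣ M`. -/
theorem exists_monic_root_topGen (Φ : Polynomial (Polynomial ℤ)) {M p : ℕ} (hM : M ≠ 0)
    (hp : p.Prime) (hΦ : PhiRel k p Φ) :
    ∃ Q : Polynomial (modularFunctionFieldFullC k M), Q.Monic ∧
      Q.natDegree = (if p ∣ M then p else p + 1) ∧ aeval (topGen k M p) Q = 0 := by
  set E := modularFunctionFieldFullC k M with hE
  have hp0 : p ≠ 0 := hp.ne_zero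
  by_cases hpM : p ∣ M
  · rw [if_pos hpM]
    -- `a ≥ 1`
    obtain ⟨a, ha⟩ : ∃ a, topExp M p = a + 2 := by
      have h1 : 1 + 1 ≤ topExp M p := (pow_dvd_iff' hM hp 1).mp (by rwa [pow_one])
      exact ⟨topExp M p - 2, by omega⟩
    have hmemy : jd k (p ^ (a + 1)) ∈ E :=
      jd_mem_full k hM ((pow_dvd_iff' hM hp (a + 1)).mpr (by omega))
    have hmemc : jd k (p ^ a) ∈ E :=
      jd_mem_full k hM ((pow_dvd_iff' hM hp a).mpr (by omega))
    set y : E := ⟨jd k (p ^ (a + 1)), hmemy⟩ with hy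
    set c : E := ⟨jd k (p ^ a), hmemc⟩ with hc
    set A : Polynomial E := PhiAt Φ y with hA
    have hAmap : A.map (algebraMap E (LaurentSeries k)) = PhiAt Φ (jd k (p ^ (a + 1))) := by
      rw [hA, PhiAt_map]; rfl
    have hpa0 : p ^ a ≠ 0 := pow_ne_zero _ hp0
    have hpa1 : p ^ (a + 1) ≠ 0 := pow_ne_zero _ hp0
    have hrootc : A.IsRoot c := by
      have h1 : (A.map (algebraMap E (LaurentSeries k))).IsRoot
          (algebraMap E (LaurentSeries k) c) := by
        rw [hAmap]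
        have := hΦ.root2 hp0 hpa0
        rwa [← pow_succ] at this
      exact IsRoot.of_map h1 (algebraMap E (LaurentSeries k)).injective
    have hAeq : (X - C c) * (A /ₘ (X - C c)) = A := mul_divByMonic_eq_iff_isRoot.mpr hrootc
    have hAmonic : A.Monic := PhiAt_monic hΦ.monic _
    have hAdeg : A.natDegree = p + 1 := by rw [hA, PhiAt_natDegree hΦ.monic, hΦ.natDegree_eq]
    refine ⟨A /ₘ (X - C c), ?_, ?_, ?_⟩
    · have hd : (X - C c : Polynomial E).degree ≤ A.degree := by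
        rw [degree_X_sub_C, degree_eq_natDegree hAmonic.ne_zero, hAdeg]
        exact_mod_cast Nat.le_add_left 1 p
      rw [Monic, leadingCoeff_divByMonic_of_monic (monic_X_sub_C _) hd]
      exact hAmonic
    · rw [natDegree_divByMonic _ (monic_X_sub_C _), natDegree_X_sub_C, hAdeg]
      rfl
    · have hrootA : aeval (topGen k M p) A = 0 := by
        rw [aeval_def, eval₂_eq_eval_map, hAmap]
        have := hΦ.root1 hp0 hpa1
        rw [← pow_succ] at this
        unfold topGen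
        rw [ha]
        exact this
      rw [← hAeq, map_mul, map_sub, aeval_X, aeval_C] at hrootA
      rcases mul_eq_zero.mp hrootA with h | h
      · exfalso
        have h' : topGen k M p = jd k (p ^ a) := sub_eq_zero.mp h
        unfold topGen at h'
        rw [ha] at h'
        refine jd_ne k (pow_ne_zero _ hp0) hpa0 ?_ h'
        intro hcon
        have := Nat.pow_right_injective hp.two_le hcon
        omega
      · exact h
  · rw [if_neg hpM]
    have htop : topExp M p = 1 := by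
      unfold topExp
      rw [Nat.factorization_eq_zero_of_not_dvd hpM]
    have hmemy : jd k 1 ∈ E := jd_mem_full k hM (one_dvd M)
    set y : E := ⟨jd k 1, hmemy⟩ with hy
    set A : Polynomial E := PhiAt Φ y with hA
    have hAmap : A.map (algebraMap E (LaurentSeries k)) = PhiAt Φ (jd k 1) := by
      rw [hA, PhiAt_map]; rfl
    refine ⟨A, PhiAt_monic hΦ.monic _, ?_, ?_⟩
    · rw [hA, PhiAt_natDegree hΦ.monic, hΦ.natDegree_eq]
    · rw [aeval_def, eval₂_eq_eval_map, hAmap]
      have := hΦ.root1 hp0 one_ne_zero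
      rw [one_mul] at this
      unfold topGen
      rw [htop, pow_one]
      exact this

/-- **Tower step.** `0 < [E_{Mp} : E_M] ≤ p + 1`, and `≤ p` if `p ∣ M`. -/
theorem relfinrank_step (Φ : ℕ → Polynomial (Polynomial ℤ)) {M p : ℕ} (hM : M ≠ 0)
    (hp : p.Prime) (hΦ : ∀ r, r.Prime → r ∣ M * p → PhiRel k r (Φ r)) :
    0 < IntermediateField.relfinrank (modularFunctionFieldFullC k M)
        (modularFunctionFieldFullC k (M * p)) ∧
    IntermediateField.relfinrank (modularFunctionFieldFullC k M)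
        (modularFunctionFieldFullC k (M * p)) ≤ (if p ∣ M then p else p + 1) := by
  have hMp : M * p ≠ 0 := Nat.mul_ne_zero hM hp.ne_zero
  have hle : modularFunctionFieldFullC k M ≤ modularFunctionFieldFullC k (M * p) :=
    full_mono k hMp (Dvd.intro p rfl)
  obtain ⟨Q, hQm, hQd, hQr⟩ :=
    exists_monic_root_topGen (Φ p) hM hp (hΦ p hp (Dvd.intro_left M rfl))
  have hint : IsIntegral (modularFunctionFieldFullC k M) (topGen k M p) := ⟨Q, hQm, by
    rwa [← aeval_def]⟩
  have heq : IntermediateField.extendScalars hle =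
      IntermediateField.adjoin (modularFunctionFieldFullC k M) {topGen k M p} := by
    ext x
    rw [IntermediateField.mem_extendScalars, full_mul_eq Φ hM hp hΦ,
      IntermediateField.mem_restrictScalars]
  rw [IntermediateField.relfinrank_eq_finrank_of_le hle, heq,
    IntermediateField.adjoin.finrank hint]
  refine ⟨minpoly.natDegree_pos hint, ?_⟩
  rw [← hQd]
  exact natDegree_le_of_dvd (minpoly.dvd _ _ hQr) hQm.ne_zero

end Fermat.Agent.S28.H988

end

end
-- ===== PACK-END S28/H988/Tower.lean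

-- ===== PACK-BEGIN A2/H48/Qep2Le.lean
section


/-!
# A2 / piece QEP2, part 4 (helper48): the degree hypothesis as an inequality

In `TwoExt` / `GaussPair` the hypothesis `card : f₁ + f₂ = [F : K]` can be weakened to
`[F : K] ≤ f₁ + f₂` (the other inequality is automatic: the lifts of the two families are
linearly independent).  This is the form in which the modular side supplies it (upper bound for
the degree of the function field in characteristic `0`, lower bounds for the residue degrees in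
characteristic `q`).

* `TwoExtLe`, `TwoExtLe.card`, `TwoExtLe.twoExt`;
* `GaussPairLe`, `GaussPairLe.gaussPair`, hence `GaussPairLe.qep2`, `GaussPairLe.reduced`,
  `GaussPairLe.exists_monic_of_mem`.
-/

set_option autoImplicit false
set_option linter.unusedSectionVars false

namespace Fermat.Agent.A2.H48

open Polynomial

section Main

variable {K F : Type*} [Field K] [Field F] [Algebra K F]

/-- `TwoExt` with the degree hypothesis weakened to an inequality. -/
structure TwoExtLe (O : ValuationSubring K) (V₁ V₂ : ValuationSubring F) (ϖ : K)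
    {f₁ f₂ : ℕ} (b : Fin f₁ → F) (c : Fin f₂ → F) : Prop where
  unifO : IsUnif O ϖ
  unif₁ : IsUnif V₁ (algebraMap K F ϖ)
  unif₂ : IsUnif V₂ (algebraMap K F ϖ)
  le₁ : ∀ a ∈ O, algebraMap K F a ∈ V₁
  le₂ : ∀ a ∈ O, algebraMap K F a ∈ V₂
  ne : V₁ ≠ V₂
  arch : ∀ a : K, ∃ k : ℕ, ϖ ^ k * a ∈ O
  b_mem : ∀ i, b i ∈ V₁
  c_mem : ∀ j, c j ∈ V₂
  b_indep : ∀ a : Fin f₁ → K, (∀ i, a i ∈ O) →
    (∑ i, algebraMap K F (a i) * b i) * (algebraMap K F ϖ)⁻¹ ∈ V₁ → ∀ i, a i * ϖ⁻¹ ∈ O
  c_indep : ∀ a : Fin f₂ → K, (∀ j, a j ∈ O) →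
    (∑ j, algebraMap K F (a j) * c j) * (algebraMap K F ϖ)⁻¹ ∈ V₂ → ∀ j, a j * ϖ⁻¹ ∈ O
  le : Module.finrank K F ≤ f₁ + f₂

namespace TwoExtLe

variable {O : ValuationSubring K} {V₁ V₂ : ValuationSubring F} {ϖ : K}
  {f₁ f₂ : ℕ} {b : Fin f₁ → F} {c : Fin f₂ → F}

theorem exists_good [FiniteDimensional K F] (h : TwoExtLe O V₁ V₂ ϖ b c) :
    ∃ m : Fin f₁ ⊕ Fin f₂ → F, TwoExt.IsGood O V₁ V₂ ϖ m := by
  classical
  set π := algebraMap K F ϖ with hπ
  have hπ0 : π ≠ 0 := h.unif₁.ne_zero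
  have hA₁ : ∀ i, ∃ g : F, g ∈ V₁ ∧ (g - b i) * π⁻¹ ∈ V₁ ∧ g * π⁻¹ ∈ V₂ := fun i => by
    obtain ⟨k, hk⟩ := exists_pow_mul_mem h.unifO.mem h.arch V₂ h.le₂
      (Algebra.IsIntegral.isIntegral (R := K) (b i))
    exact exists_approx h.unif₁ h.unif₂ h.ne (h.b_mem i) hk
  have hA₂ : ∀ j, ∃ g : F, g ∈ V₂ ∧ (g - c j) * π⁻¹ ∈ V₂ ∧ g * π⁻¹ ∈ V₁ := fun j => by
    obtain ⟨k, hk⟩ := exists_pow_mul_mem h.unifO.mem h.arch V₁ h.le₁
      (Algebra.IsIntegral.isIntegral (R := K) (c j))
    exact exists_approx h.unif₂ h.unif₁ (Ne.symm h.ne) (h.c_mem j) hk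
  choose g hg1 hg2 hg3 using hA₁
  choose g' hg'1 hg'2 hg'3 using hA₂
  have hgV₂ : ∀ i, g i ∈ V₂ := fun i => by
    have : g i = g i * π⁻¹ * π := by field_simp
    rw [this]; exact mul_mem (hg3 i) h.unif₂.mem
  have hg'V₁ : ∀ j, g' j ∈ V₁ := fun j => by
    have : g' j = g' j * π⁻¹ * π := by field_simp
    rw [this]; exact mul_mem (hg'3 j) h.unif₁.mem
  refine ⟨Sum.elim g g', ?_, ?_, ?_⟩
  · rintro (i | j)
    · exact hg1 i
    · exact hg'V₁ j
  · rintro (i | j)
    · exact hgV₂ i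
    · exact hg'1 j
  · intro a ha hS₁ hS₂
    have hsplit : (∑ l, algebraMap K F (a l) * Sum.elim g g' l) =
        (∑ i, algebraMap K F (a (Sum.inl i)) * g i) +
          ∑ j, algebraMap K F (a (Sum.inr j)) * g' j := by
      rw [Fintype.sum_sum_type]; simp only [Sum.elim_inl, Sum.elim_inr]
    rw [hsplit] at hS₁ hS₂
    rintro (i | j)
    · refine h.b_indep (fun i => a (Sum.inl i)) (fun i => ha _) ?_ i
      have e1 : (∑ i, algebraMap K F (a (Sum.inl i)) * b i) * π⁻¹ =
          ((∑ i, algebraMap K F (a (Sum.inl i)) * g i) +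
            ∑ j, algebraMap K F (a (Sum.inr j)) * g' j) * π⁻¹
          - ∑ i, algebraMap K F (a (Sum.inl i)) * ((g i - b i) * π⁻¹)
          - ∑ j, algebraMap K F (a (Sum.inr j)) * (g' j * π⁻¹) := by
        have hW : ∑ i, algebraMap K F (a (Sum.inl i)) * ((g i - b i) * π⁻¹) =
            (∑ i, algebraMap K F (a (Sum.inl i)) * g i) * π⁻¹ -
              (∑ i, algebraMap K F (a (Sum.inl i)) * b i) * π⁻¹ := by
          rw [Finset.sum_mul, Finset.sum_mul, ← Finset.sum_sub_distrib]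
          exact Finset.sum_congr rfl fun i _ => by ring
        have hZ : ∑ j, algebraMap K F (a (Sum.inr j)) * (g' j * π⁻¹) =
            (∑ j, algebraMap K F (a (Sum.inr j)) * g' j) * π⁻¹ := by
          rw [Finset.sum_mul]
          exact Finset.sum_congr rfl fun j _ => by ring
        rw [hW, hZ]; ring
      rw [e1]
      refine sub_mem (sub_mem hS₁ (sum_mem fun i _ => mul_mem (h.le₁ _ (ha _)) (hg2 i)))
        (sum_mem fun j _ => mul_mem (h.le₁ _ (ha _)) (hg'3 j))
    · refine h.c_indep (fun j => a (Sum.inr j)) (fun j => ha _) ?_ j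
      have e1 : (∑ j, algebraMap K F (a (Sum.inr j)) * c j) * π⁻¹ =
          ((∑ i, algebraMap K F (a (Sum.inl i)) * g i) +
            ∑ j, algebraMap K F (a (Sum.inr j)) * g' j) * π⁻¹
          - ∑ j, algebraMap K F (a (Sum.inr j)) * ((g' j - c j) * π⁻¹)
          - ∑ i, algebraMap K F (a (Sum.inl i)) * (g i * π⁻¹) := by
        have hW : ∑ j, algebraMap K F (a (Sum.inr j)) * ((g' j - c j) * π⁻¹) =
            (∑ j, algebraMap K F (a (Sum.inr j)) * g' j) * π⁻¹ -
              (∑ j, algebraMap K F (a (Sum.inr j)) * c j) * π⁻¹ := by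
          rw [Finset.sum_mul, Finset.sum_mul, ← Finset.sum_sub_distrib]
          exact Finset.sum_congr rfl fun j _ => by ring
        have hZ : ∑ i, algebraMap K F (a (Sum.inl i)) * (g i * π⁻¹) =
            (∑ i, algebraMap K F (a (Sum.inl i)) * g i) * π⁻¹ := by
          rw [Finset.sum_mul]
          exact Finset.sum_congr rfl fun i _ => by ring
        rw [hW, hZ]; ring
      rw [e1]
      refine sub_mem (sub_mem hS₂ (sum_mem fun j _ => mul_mem (h.le₂ _ (ha _)) (hg'2 j)))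
        (sum_mem fun i _ => mul_mem (h.le₂ _ (ha _)) (hg3 i))

/-- The fundamental inequality is an equality. -/
theorem card [FiniteDimensional K F] (h : TwoExtLe O V₁ V₂ ϖ b c) :
    f₁ + f₂ = Module.finrank K F := by
  obtain ⟨m, hm⟩ := h.exists_good
  have hli := TwoExt.IsGood.linearIndependent h.unifO hm
  have h1 := hli.fintype_card_le_finrank
  rw [Fintype.card_sum, Fintype.card_fin, Fintype.card_fin] at h1
  exact le_antisymm h1 h.le

theorem twoExt [FiniteDimensional K F] (h : TwoExtLe O V₁ V₂ ϖ b c) :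
    TwoExt O V₁ V₂ ϖ b c where
  unifO := h.unifO
  unif₁ := h.unif₁
  unif₂ := h.unif₂
  le₁ := h.le₁
  le₂ := h.le₂
  ne := h.ne
  arch := h.arch
  b_mem := h.b_mem
  c_mem := h.c_mem
  b_indep := h.b_indep
  c_indep := h.c_indep
  card := h.card

end TwoExtLe

end Main

section Gauss

variable {R : Type*} [CommRing R] [IsDomain R] [UniqueFactorizationMonoid R]
variable {K F : Type*} [Field K] [Field F] [Algebra R[X] K] [IsFractionRing R[X] K]
  [Algebra K F] [Algebra R[X] F] [IsScalarTower R[X] K F]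

/-- `GaussPair` with the degree hypothesis weakened to an inequality. -/
structure GaussPairLe (ϖ : R) (V₁ V₂ : ValuationSubring F)
    {f₁ f₂ : ℕ} (b : Fin f₁ → F) (c : Fin f₂ → F) : Prop where
  prime : Prime ϖ
  unif₁ : IsUnif V₁ (algebraMap R[X] F (C ϖ))
  unif₂ : IsUnif V₂ (algebraMap R[X] F (C ϖ))
  poly₁ : ∀ P : R[X], algebraMap R[X] F P ∈ V₁
  poly₂ : ∀ P : R[X], algebraMap R[X] F P ∈ V₂
  gauss₁ : ∀ P : R[X], ¬ C ϖ ∣ P → (algebraMap R[X] F P)⁻¹ ∈ V₁
  gauss₂ : ∀ P : R[X], ¬ C ϖ ∣ P → (algebraMap R[X] F P)⁻¹ ∈ V₂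
  ne : V₁ ≠ V₂
  b_mem : ∀ i, b i ∈ V₁
  c_mem : ∀ j, c j ∈ V₂
  b_indep : ∀ a : Fin f₁ → R[X],
    (∑ i, algebraMap R[X] F (a i) * b i) * (algebraMap R[X] F (C ϖ))⁻¹ ∈ V₁ → ∀ i, C ϖ ∣ a i
  c_indep : ∀ a : Fin f₂ → R[X],
    (∑ j, algebraMap R[X] F (a j) * c j) * (algebraMap R[X] F (C ϖ))⁻¹ ∈ V₂ → ∀ j, C ϖ ∣ a j
  le : Module.finrank K F ≤ f₁ + f₂

namespace GaussPairLe

variable {ϖ : R} {V₁ V₂ : ValuationSubring F} {f₁ f₂ : ℕ} {b : Fin f₁ → F} {c : Fin f₂ → F}

theorem gaussRing_eq (h : GaussPairLe (K := K) ϖ V₁ V₂ b c) :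
    gaussRing K V₁ = gaussRing K V₂ := by
  apply le_antisymm
  · intro a ha
    obtain ⟨P, Q, hQ, rfl⟩ := exists_div_of_mem_gaussRing h.prime h.unif₁ h.poly₁ h.gauss₁ ha
    exact div_mem_gaussRing h.poly₂ h.gauss₂ P hQ
  · intro a ha
    obtain ⟨P, Q, hQ, rfl⟩ := exists_div_of_mem_gaussRing h.prime h.unif₂ h.poly₂ h.gauss₂ ha
    exact div_mem_gaussRing h.poly₁ h.gauss₁ P hQ

theorem twoExtLe (h : GaussPairLe (K := K) ϖ V₁ V₂ b c) :
    TwoExtLe (gaussRing K V₁) V₁ V₂ (algebraMap R[X] K (C ϖ)) b c where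
  unifO := isUnif_gaussRing h.unif₁
  unif₁ := by rw [map_eq]; exact h.unif₁
  unif₂ := by rw [map_eq]; exact h.unif₂
  le₁ := fun a ha => mem_gaussRing.1 ha
  le₂ := fun a ha => mem_gaussRing.1 (h.gaussRing_eq ▸ ha)
  ne := h.ne
  arch := arch_gaussRing h.prime h.poly₁ h.gauss₁
  b_mem := h.b_mem
  c_mem := h.c_mem
  b_indep := fun a ha hsum i =>
    indep_gaussRing h.prime h.unif₁ h.poly₁ h.gauss₁ h.b_indep a ha hsum i
  c_indep := fun a ha hsum j => by
    rw [h.gaussRing_eq]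
    exact indep_gaussRing h.prime h.unif₂ h.poly₂ h.gauss₂ h.c_indep a
      (fun j => h.gaussRing_eq ▸ ha j) hsum j
  le := h.le

/-- The fundamental inequality is an equality: `[F : K] = f₁ + f₂`. -/
theorem card [FiniteDimensional K F] (h : GaussPairLe (K := K) ϖ V₁ V₂ b c) :
    f₁ + f₂ = Module.finrank K F := h.twoExtLe.card

theorem gaussPair [FiniteDimensional K F] (h : GaussPairLe (K := K) ϖ V₁ V₂ b c) :
    GaussPair (K := K) ϖ V₁ V₂ b c where
  prime := h.prime
  unif₁ := h.unif₁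
  unif₂ := h.unif₂
  poly₁ := h.poly₁
  poly₂ := h.poly₂
  gauss₁ := h.gauss₁
  gauss₂ := h.gauss₂
  ne := h.ne
  b_mem := h.b_mem
  c_mem := h.c_mem
  b_indep := h.b_indep
  c_indep := h.c_indep
  card := h.card

/-- **`q`-expansion principle for the two-component model** (inequality form). -/
theorem qep2 [FiniteDimensional K F] (h : GaussPairLe (K := K) ϖ V₁ V₂ b c) {u : F}
    (hu : IsIntegral R[X] u)
    (h₁ : u * (algebraMap R[X] F (C ϖ))⁻¹ ∈ V₁) (h₂ : u * (algebraMap R[X] F (C ϖ))⁻¹ ∈ V₂) :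
    IsIntegral R[X] (u * (algebraMap R[X] F (C ϖ))⁻¹) :=
  h.gaussPair.qep2 hu h₁ h₂

/-- The special fibre is reduced (inequality form). -/
theorem reduced [FiniteDimensional K F] (h : GaussPairLe (K := K) ϖ V₁ V₂ b c) {u : F}
    (hu : IsIntegral R[X] u) {k : ℕ}
    (h₁ : u ^ k * (algebraMap R[X] F (C ϖ))⁻¹ ∈ V₁)
    (h₂ : u ^ k * (algebraMap R[X] F (C ϖ))⁻¹ ∈ V₂) :
    IsIntegral R[X] (u * (algebraMap R[X] F (C ϖ))⁻¹) :=
  h.gaussPair.reduced hu h₁ h₂

/-- No third extension (inequality form). -/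
theorem exists_monic_of_mem [FiniteDimensional K F] (h : GaussPairLe (K := K) ϖ V₁ V₂ b c)
    {u : F} (hu₁ : u ∈ V₁) (hu₂ : u ∈ V₂) :
    ∃ p : K[X], p.Monic ∧ (∀ i, p.coeff i ∈ gaussRing K V₁) ∧ aeval u p = 0 :=
  h.gaussPair.exists_monic_of_mem hu₁ hu₂

end GaussPairLe

end Gauss

end Fermat.Agent.A2.H48

end
-- ===== PACK-END A2/H48/Qep2Le.lean

-- ===== PACK-BEGIN S18/H576/Objects.lean
section


/-!
# S18 / MOD-ASM (helper576): basic facts about the concrete objects of `Mod/Defs.lean`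
-/

set_option autoImplicit false

noncomputable section

namespace Fermat.Agent.S18.H576

open ModularCurve AlgebraicCurve HahnSeries Fermat.Agent.S18 Fermat.Agent.S18.Mod

variable {M : ℕ} {A : ValuationSubring Qb} {E : IntermediateField ℚ Qb}

/-- The inclusion of the constants. -/
abbrev iota (M : ℕ) : Qb →+* Om M := algebraMap Qb (Om M)

theorem iota_injective (M : ℕ) : Function.Injective (iota M) :=
  (algebraMap Qb (Om M)).injective

theorem coe_iota (a : Qb) :
    ((iota M a : Om M) : LaurentSeries Qb) = algebraMap Qb (LaurentSeries Qb) a := rfl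

theorem coe_iota_single (a : Qb) :
    ((iota M a : Om M) : LaurentSeries Qb) = HahnSeries.single 0 a := by
  rw [coe_iota, algebraMap_laurentSeries_eq_single]

theorem mem_Lc_iff {y : Om M} : y ∈ Lc M ↔ ∃ a : Qb, iota M a = y := by
  unfold Lc
  exact RingHom.mem_fieldRange

theorem mem_Ec_iff {y : Om M} : y ∈ Ec M E ↔ ∃ a : Qb, a ∈ E ∧ iota M a = y := by
  unfold Ec
  rw [Subfield.mem_map]
  constructor
  · rintro ⟨a, ha, rfl⟩
    exact ⟨a, ha, rfl⟩
  · rintro ⟨a, ha, rfl⟩
    exact ⟨a, ha, rfl⟩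

theorem mem_Rc_iff {y : Om M} : y ∈ Rc M A E ↔ ∃ a : Qb, a ∈ A ∧ a ∈ E ∧ iota M a = y := by
  unfold Rc
  rw [Subring.mem_map]
  constructor
  · rintro ⟨a, ha, rfl⟩
    rw [Subring.mem_inf] at ha
    exact ⟨a, ha.1, ha.2, rfl⟩
  · rintro ⟨a, haA, haE, rfl⟩
    exact ⟨a, Subring.mem_inf.mpr ⟨haA, haE⟩, rfl⟩

theorem iota_mem_Lc (a : Qb) : iota M a ∈ Lc M := mem_Lc_iff.mpr ⟨a, rfl⟩

theorem iota_mem_Ec {a : Qb} (ha : a ∈ E) : iota M a ∈ Ec M E := mem_Ec_iff.mpr ⟨a, ha, rfl⟩

theorem iota_mem_Rc {a : Qb} (haA : a ∈ A) (haE : a ∈ E) : iota M a ∈ Rc M A E :=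
  mem_Rc_iff.mpr ⟨a, haA, haE, rfl⟩

theorem iota_mem_Ec_iff {a : Qb} : iota M a ∈ Ec M E ↔ a ∈ E := by
  constructor
  · intro h
    obtain ⟨b, hb, hab⟩ := mem_Ec_iff.mp h
    rwa [← iota_injective M hab]
  · exact iota_mem_Ec

theorem iota_mem_Rc_iff {a : Qb} : iota M a ∈ Rc M A E ↔ a ∈ A ∧ a ∈ E := by
  constructor
  · intro h
    obtain ⟨b, hbA, hbE, hab⟩ := mem_Rc_iff.mp h
    rw [← iota_injective M hab]
    exact ⟨hbA, hbE⟩
  · exact fun h => iota_mem_Rc h.1 h.2

theorem Rc_subset_Ec : (Rc M A E : Set (Om M)) ⊆ Ec M E := by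
  intro y hy
  obtain ⟨a, -, haE, rfl⟩ := mem_Rc_iff.mp hy
  exact iota_mem_Ec haE

theorem Ec_le_Lc : Ec M E ≤ Lc M := by
  intro y hy
  obtain ⟨a, -, rfl⟩ := mem_Ec_iff.mp hy
  exact iota_mem_Lc a

theorem Ec_le_Fc : Ec M E ≤ Fc M E := by
  intro y hy
  exact Subfield.subset_closure (Or.inl hy)

theorem Rc_total : ∀ e ∈ Ec M E, e ∈ Rc M A E ∨ e⁻¹ ∈ Rc M A E := by
  intro e he
  obtain ⟨a, haE, rfl⟩ := mem_Ec_iff.mp he
  rcases A.mem_or_inv_mem a with h | h
  · exact Or.inl (iota_mem_Rc h haE)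
  · right
    rw [← map_inv₀]
    exact iota_mem_Rc h (inv_mem haE)

instance charZero_Om (M : ℕ) : CharZero (Om M) :=
  charZero_of_injective_algebraMap (iota_injective M)

theorem isAlgebraic_Ec_of_mem_Lc : ∀ a ∈ Lc M, IsAlgebraic (Ec M E) a := by
  intro a ha
  obtain ⟨b, rfl⟩ := mem_Lc_iff.mp ha
  have hb : IsAlgebraic ℚ b := (AlgebraicClosure.isAlgebraic ℚ).isAlgebraic b
  have h1 : IsAlgebraic ℚ (iota M b) := hb.algebraMap
  exact h1.tower_top (Ec M E)

theorem isAlgClosed_Lc (M : ℕ) : IsAlgClosed (Lc M) := by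
  have e : Qb ≃+* (Lc M) := RingEquiv.ofBijective (iota M).rangeRestrictField
    ⟨fun a b h => iota_injective M (congrArg Subtype.val h),
      fun ⟨y, hy⟩ => by
        obtain ⟨a, rfl⟩ := mem_Lc_iff.mp hy
        exact ⟨a, rfl⟩⟩
  exact IsAlgClosed.of_ringEquiv Qb (Lc M) e

end Fermat.Agent.S18.H576

end
end
-- ===== PACK-END S18/H576/Objects.lean

-- ===== PACK-BEGIN S36/H253/NormVal.lean
section


/-!
# Valuation of a norm: `v (N y) = ∑ f i * v i (y)` (helper253)

Mathlib only (on top of `NormRam.lean`).  Same setting as `norm_red_ram`: `F / K` finite, `O` a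
valuation subring of `K` with uniformiser `ϖ`, `V i` pairwise incomparable valuation subrings of
`F` over `O` with uniformisers `t i`, `ϖ = unit * t i ^ e i` in `V i`, surjective reductions
`π : O → k`, `ρ i : V i → κ i`, `∑ e i * [κ i : k] = [F : K]`.

* `RamFamily.norm_mem_pow` : `y ∈ ⋂ V i`, `v i₀ (y) ≤ v i₀ (t i₀)` ⇒ `N y ∈ ϖ ^ #(J i₀) * O`.
* `exists_ramFamily` : adapted families exist.
* `val_norm_eq_one` : `y` a unit at all `V i` ⇒ `N y` is a unit of `O`.
* `exists_unif_multi` : simultaneous uniformisers `T i` (`v i (T i) = v i (t i)`, units elsewhere).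
* `val_norm_ram` (**NV**) : `v i (y) = v i (t i) ^ a i` for all `i` ⇒
  `v (N y) = v ϖ ^ ∑ i, [κ i : k] * a i`.
* `exists_zpow_val` : if the value group of `O` is generated by `v ϖ`, that of `V i` is
  generated by `v i (t i)`.
-/

set_option autoImplicit false
set_option linter.unusedSectionVars false

namespace Fermat.Agent.S36.H253

open scoped BigOperators
open Fermat.Agent.S35.H253

section Col

variable {K F : Type*} [Field K] [Field F] [Algebra K F]
variable {O : ValuationSubring K} {ϖ : K} {ι : Type*} [Fintype ι] [DecidableEq ι]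
  {V : ι → ValuationSubring F}
  {t : ι → F} {e : ι → ℕ} {J : ι → Type*} [∀ i, Fintype (J i)]
  {r : (i : ι) → J i → Fin (e i) → F}

/-- In an adapted family the top layer `s = e i₀ - 1` of the block `i₀` is multiplied into
`ϖ * ⋂ V i` by every `y ∈ ⋂ V i` with `v i₀ (y) ≤ v i₀ (t i₀)`. -/
theorem RamFamily.top_mul_mem (h : RamFamily O ϖ V t e r) {y : F} (hy : ∀ i, y ∈ V i)
    (i₀ : ι) (hy0 : (V i₀).valuation y ≤ (V i₀).valuation (t i₀))
    (l : Idx e J) (hl1 : l.1.1 = i₀) (hl2 : (l.1.2 : ℕ) + 1 = e l.1.1) (i : ι) :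
    y * fam t e r l * (algebraMap K F ϖ)⁻¹ ∈ V i := by
  have hϖF : algebraMap K F ϖ ≠ 0 := by
    rw [Ne, map_eq_zero]; exact h.ne_zero
  have hpos : 0 < (V i).valuation (algebraMap K F ϖ) := by
    rw [Valuation.pos_iff]; exact hϖF
  rw [← (V i).valuation_le_one_iff, map_mul, map_inv₀]
  have key : (V i).valuation (y * fam t e r l) ≤ (V i).valuation (algebraMap K F ϖ) := by
    by_cases hi : i = l.1.1
    · subst hi
      subst hl1
      unfold fam
      have hpow : (V l.1.1).valuation (t l.1.1) ^ e l.1.1 =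
          (V l.1.1).valuation (t l.1.1) * (V l.1.1).valuation (t l.1.1) ^ (l.1.2 : ℕ) := by
        rw [← pow_succ', hl2]
      rw [map_mul, map_mul, map_pow, h.ram, hpow]
      calc (V l.1.1).valuation y *
            ((V l.1.1).valuation (r l.1.1 l.2 l.1.2) * (V l.1.1).valuation (t l.1.1) ^ (l.1.2 : ℕ))
          ≤ (V l.1.1).valuation (t l.1.1) *
            (1 * (V l.1.1).valuation (t l.1.1) ^ (l.1.2 : ℕ)) := by
            gcongr
            exact ((V l.1.1).valuation_le_one_iff _).2 (h.r_mem _ _ _)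
        _ = _ := by rw [one_mul]
    · rw [map_mul]
      calc (V i).valuation y * (V i).valuation (fam t e r l)
          ≤ 1 * (V i).valuation (algebraMap K F ϖ) := by
            gcongr
            · exact ((V i).valuation_le_one_iff _).2 (hy i)
            · exact h.small l.1.1 l.2 l.1.2 i hi
        _ = _ := one_mul _
  calc (V i).valuation (y * fam t e r l) * ((V i).valuation (algebraMap K F ϖ))⁻¹
      ≤ (V i).valuation (algebraMap K F ϖ) * ((V i).valuation (algebraMap K F ϖ))⁻¹ := by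
        gcongr
    _ = 1 := mul_inv_cancel₀ hpos.ne'

/-- The number of indices in the top layer of the block `i₀`. -/
theorem RamFamily.prod_top (h : RamFamily O ϖ V t e r) {M : Type*} [CommMonoid M] (c : M)
    (i₀ : ι) :
    (∏ l : Idx e J, if (l.1.1 = i₀ ∧ (l.1.2 : ℕ) + 1 = e l.1.1) then c else 1) =
      c ^ Fintype.card (J i₀) := by
  classical
  rw [Fintype.prod_sigma]
  have h1 : ∀ a : Blk e, (∏ j : J a.1,
      if ((⟨a, j⟩ : Idx e J).1.1 = i₀ ∧ ((⟨a, j⟩ : Idx e J).1.2 : ℕ) + 1 =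
        e (⟨a, j⟩ : Idx e J).1.1) then c else 1) =
      if (a.1 = i₀ ∧ (a.2 : ℕ) + 1 = e a.1) then c ^ Fintype.card (J a.1) else 1 := by
    intro a
    by_cases hc : a.1 = i₀ ∧ (a.2 : ℕ) + 1 = e a.1
    · rw [if_pos hc]
      simp only [if_pos hc]
      rw [Finset.prod_const, Finset.card_univ]
    · rw [if_neg hc]
      simp only [if_neg hc]
      rw [Finset.prod_const_one]
  rw [Finset.prod_congr rfl fun a _ => h1 a, Fintype.prod_sigma]
  rw [Finset.prod_eq_single i₀]
  · have he := h.e_pos i₀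
    rw [Finset.prod_eq_single (⟨e i₀ - 1, by omega⟩ : Fin (e i₀))]
    · rw [if_pos]
      exact ⟨rfl, by simp only; omega⟩
    · intro s _ hs
      rw [if_neg]
      rintro ⟨-, h2⟩
      apply hs
      apply Fin.ext
      simp only at h2 ⊢
      omega
    · intro hh; exact absurd (Finset.mem_univ _) hh
  · intro i _ hi
    refine Finset.prod_eq_one fun s _ => ?_
    rw [if_neg]
    rintro ⟨h2, -⟩
    exact hi h2
  · intro hh; exact absurd (Finset.mem_univ _) hh

/-- **Column divisibility.**  If `y ∈ ⋂ V i` and `v i₀ (y) ≤ v i₀ (t i₀)`, then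
`N_{F/K} y ∈ ϖ ^ #(J i₀) * O`. -/
theorem RamFamily.norm_mem_pow (h : RamFamily O ϖ V t e r)
    (hcard : ∑ i, e i * Fintype.card (J i) = Module.finrank K F)
    {y : F} (hy : ∀ i, y ∈ V i) (i₀ : ι)
    (hy0 : (V i₀).valuation y ≤ (V i₀).valuation (t i₀)) :
    ∃ w : K, w ∈ O ∧ Algebra.norm K y = ϖ ^ Fintype.card (J i₀) * w := by
  classical
  have hcard' : Fintype.card (Idx e J) = Module.finrank K F := by
    rw [RamFamily.card_idx]; exact hcard
  by_cases hne : Nonempty (Idx e J)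
  · set bas : Module.Basis (Idx e J) K F :=
      basisOfLinearIndependentOfCardEqFinrank h.linearIndependent hcard' with hbasdef
    have hbas : ⇑bas = fam t e r := coe_basisOfLinearIndependentOfCardEqFinrank _ _
    set A := h.intMatrix bas hbas hy with hA
    have hnorm := h.norm_eq_det_intMatrix bas hbas hy
    have hϖO : ϖ ∈ O := (O.valuation_le_one_iff _).1 h.unifO.le
    have hϖF : algebraMap K F ϖ ≠ 0 := by
      rw [Ne, map_eq_zero]; exact h.ne_zero
    let cond : Idx e J → Prop := fun l => l.1.1 = i₀ ∧ (l.1.2 : ℕ) + 1 = e l.1.1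
    have zmem : ∀ l, cond l → ∀ i, y * fam t e r l * (algebraMap K F ϖ)⁻¹ ∈ V i :=
      fun l hl i => h.top_mul_mem hy i₀ hy0 l hl.1 hl.2 i
    let D : Idx e J → O := fun l => if cond l then ⟨ϖ, hϖO⟩ else 1
    let A' : Matrix (Idx e J) (Idx e J) O := fun k l =>
      if hc : cond l then
        ⟨bas.repr (y * fam t e r l * (algebraMap K F ϖ)⁻¹) k,
          h.repr_mem bas hbas (zmem l hc) k⟩
      else A k l
    have hAeq : A = A' * Matrix.diagonal D := by
      ext k l
      rw [Matrix.mul_diagonal]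
      by_cases hc : cond l
      · simp only [A', D, dif_pos hc, if_pos hc]
        show bas.repr (y * fam t e r l) k =
          bas.repr (y * fam t e r l * (algebraMap K F ϖ)⁻¹) k * ϖ
        have e1 : y * fam t e r l = ϖ • (y * fam t e r l * (algebraMap K F ϖ)⁻¹) := by
          rw [Algebra.smul_def, mul_comm (algebraMap K F ϖ), inv_mul_cancel_right₀ hϖF]
        conv_lhs => rw [e1]
        rw [map_smul, Finsupp.smul_apply, smul_eq_mul, mul_comm]
      · simp only [A', D, dif_neg hc, if_neg hc, mul_one]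
    have hdet : A.det = A'.det * ⟨ϖ, hϖO⟩ ^ Fintype.card (J i₀) := by
      rw [hAeq, Matrix.det_mul, Matrix.det_diagonal]
      congr 1
      exact h.prod_top (⟨ϖ, hϖO⟩ : O) i₀
    refine ⟨(A'.det : O), (A'.det).2, ?_⟩
    rw [hnorm, hdet, mul_comm]
    rfl
  · rw [not_nonempty_iff] at hne
    have hJ : Fintype.card (J i₀) = 0 := by
      rw [Fintype.card_eq_zero_iff]
      refine ⟨fun j => hne.false ⟨⟨i₀, ⟨0, h.e_pos i₀⟩⟩, j⟩⟩
    have hfin : ¬ Module.Finite K F := by
      intro hfin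
      have := Module.finrank_pos (R := K) (M := F)
      rw [← hcard', Fintype.card_eq_zero] at this
      exact lt_irrefl _ this
    refine ⟨1, one_mem _, ?_⟩
    rw [hJ, pow_zero, one_mul, Algebra.norm_eq_one_of_not_module_finite hfin]

end Col

section Unif

variable {F : Type*} [Field F]

/-- **Simultaneous uniformisers.**  For pairwise incomparable valuation rings `V i` and a
generator `τ ≠ 0` of the maximal ideal of `V i` there is `T` with `v i (T) = v i (τ)` which is a
unit at every other `V i'`. -/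
theorem exists_unif_multi {ι : Type*} [Fintype ι] (V : ι → ValuationSubring F)
    (hinc : ∀ i i', i ≠ i' → ¬ V i ≤ V i') (i : ι) {τ : F} (hτ0 : τ ≠ 0)
    (hτ : (V i).valuation τ < 1)
    (hgen : ∀ z : F, (V i).valuation z < 1 → (V i).valuation z ≤ (V i).valuation τ) :
    ∃ T : F, (V i).valuation T = (V i).valuation τ ∧
      ∀ i', i' ≠ i → (V i').valuation T = 1 := by
  classical
  obtain ⟨u, hu1, hu2, hu3⟩ := exists_multiplier V τ
  obtain ⟨E, hE1, hE2⟩ := exists_idem_multi V hinc i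
  have hτmem : τ ∈ V i := ((V i).valuation_le_one_iff _).1 hτ.le
  have hui : (V i).valuation u = 1 := hu3 i hτmem
  have hτpos : 0 < (V i).valuation τ := by rw [Valuation.pos_iff]; exact hτ0
  have hEmem : ∀ i', E ∈ V i' := fun i' => by
    by_cases hi : i' = i
    · subst hi
      have : E = 1 - (1 - E) := by ring
      rw [this]
      exact sub_mem (one_mem _) (((V i').valuation_le_one_iff _).1 hE1.le)
    · exact ((V i').valuation_le_one_iff _).1 (hE2 i' hi).le
  set E' := 1 - (1 - E) ^ 2 with hE'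
  have h1 : (V i).valuation (1 - E') < (V i).valuation τ := by
    have e1 : 1 - E' = (1 - E) ^ 2 := by rw [hE']; ring
    rw [e1, map_pow, pow_two]
    calc (V i).valuation (1 - E) * (V i).valuation (1 - E)
        ≤ (V i).valuation τ * (V i).valuation (1 - E) := by
          gcongr; exact hgen _ hE1
      _ < (V i).valuation τ * 1 := by gcongr
      _ = (V i).valuation τ := mul_one _
  have hE'i : (V i).valuation E' = 1 := by
    have e1 : E' = 1 - (1 - E') := by ring
    rw [e1]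
    exact Valuation.map_one_sub_of_lt _ (lt_trans h1 hτ)
  have hE'2 : ∀ i', i' ≠ i → (V i').valuation E' < 1 := by
    intro i' hi
    have e1 : E' = E * (1 + (1 - E)) := by rw [hE']; ring
    rw [e1]
    exact val_mul_lt_one_left (V i') (hE2 i' hi)
      (((V i').valuation_le_one_iff _).2
        (add_mem (one_mem _) (sub_mem (one_mem _) (hEmem i'))))
  refine ⟨E' * (τ * u) + (1 - E'), ?_, ?_⟩
  · have hA : (V i).valuation (E' * (τ * u)) = (V i).valuation τ := by
      rw [map_mul, map_mul, hE'i, hui, one_mul, mul_one]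
    rw [Valuation.map_add_eq_of_lt_left _ (by rw [hA]; exact h1), hA]
  · intro i' hi
    have hB : (V i').valuation (1 - E') = 1 := Valuation.map_one_sub_of_lt _ (hE'2 i' hi)
    have hA : (V i').valuation (E' * (τ * u)) < 1 :=
      val_mul_lt_one_left (V i') (hE'2 i' hi) (((V i').valuation_le_one_iff _).2 (hu2 i'))
    rw [add_comm, Valuation.map_add_eq_of_lt_left _ (by rw [hB]; exact hA), hB]

/-- `∏ x ^ b i = x ^ ∑ b i` for integer exponents in a commutative group with zero. -/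
theorem prod_zpow_eq_zpow_sum {G₀ : Type*} [CommGroupWithZero G₀] {x : G₀} (hx : x ≠ 0)
    {ι : Type*} (s : Finset ι) (b : ι → ℤ) : ∏ i ∈ s, x ^ b i = x ^ ∑ i ∈ s, b i := by
  classical
  induction s using Finset.induction_on with
  | empty => simp
  | insert i s hi ih => rw [Finset.prod_insert hi, Finset.sum_insert hi, ih, zpow_add₀ hx]

end Unif

section NV

variable {K F : Type*} [Field K] [Field F] [Algebra K F]

/-- The norm commutes with integer powers of nonzero elements. -/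
theorem norm_zpow_of_ne_zero {x : F} (hx : x ≠ 0) (n : ℤ) :
    Algebra.norm K (x ^ n) = Algebra.norm K x ^ n := by
  have h1 : ((Units.map (Algebra.norm K : F →* K) ((Units.mk0 x hx) ^ n) : Kˣ) : K) =
      (((Units.map (Algebra.norm K : F →* K) (Units.mk0 x hx)) ^ n : Kˣ) : K) := by
    rw [map_zpow]
  rw [Units.coe_map, Units.val_zpow_eq_zpow_val, Units.val_zpow_eq_zpow_val,
    Units.coe_map] at h1
  exact h1

variable {ι : Type*} [Fintype ι] [Nonempty ι]
    {O : ValuationSubring K} {ϖ : K} {V : ι → ValuationSubring F} {t : ι → F} {e : ι → ℕ}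
    (hover : ∀ i, Over O (V i)) (hinc : ∀ i i', i ≠ i' → ¬ V i ≤ V i')
    (hϖ0 : ϖ ≠ 0) (hϖ : O.valuation ϖ < 1)
    (hgenO : ∀ a : K, O.valuation a < 1 → O.valuation a ≤ O.valuation ϖ)
    (ht : ∀ i, (V i).valuation (t i) < 1)
    (hgen : ∀ i (z : F), (V i).valuation z < 1 → (V i).valuation z ≤ (V i).valuation (t i))
    (hram : ∀ i, (V i).valuation (algebraMap K F ϖ) = (V i).valuation (t i) ^ e i)
    {k : Type*} [Field k] {κ : ι → Type*} [∀ i, Field (κ i)] [∀ i, Algebra k (κ i)]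
    [∀ i, Module.Finite k (κ i)]
    (π : O →+* k) (ρ : ∀ i, V i →+* κ i)
    (hπ : Function.Surjective π) (hρ : ∀ i, Function.Surjective (ρ i))
    (hc : ∀ i (a : O), ρ i ⟨algebraMap K F a, ((hover i) a).2 a.2⟩ = algebraMap k (κ i) (π a))
    (hdeg : ∑ i, e i * Module.finrank k (κ i) = Module.finrank K F)

include hover hinc hϖ0 hϖ hgenO ht hgen hram hπ hρ hc in
/-- Adapted families exist (the construction used in `norm_red_ram`). -/
theorem exists_ramFamily [DecidableEq ι] :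
    ∃ r : (i : ι) → Fin (Module.finrank k (κ i)) → Fin (e i) → F, RamFamily O ϖ V t e r := by
  classical
  have hker : ∀ i (z : V i), ρ i z = 0 ↔ (V i).valuation (z : F) < 1 :=
    fun i z => map_eq_zero_iff_val_lt_one (ρ i) (hρ i) z
  have hkerO : ∀ a : O, π a = 0 ↔ O.valuation (a : K) < 1 :=
    fun a => map_eq_zero_iff_val_lt_one π hπ a
  choose E hE1 hE2 using fun i => exists_idem_multi V hinc i
  have hEmem : ∀ i i', E i ∈ V i' := fun i i' => by
    by_cases hi : i' = i
    · subst hi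
      have : E i' = 1 - (1 - E i') := by ring
      rw [this]
      exact sub_mem (one_mem _) (((V i').valuation_le_one_iff _).1 (hE1 i').le)
    · exact ((V i').valuation_le_one_iff _).1 (hE2 i i' hi).le
  have hρE : ∀ i, ρ i ⟨E i, hEmem i i⟩ = 1 := fun i => by
    have h0 : ρ i (1 - ⟨E i, hEmem i i⟩) = 0 := (hker i _).2 (hE1 i)
    rw [map_sub, map_one, sub_eq_zero] at h0
    exact h0.symm
  set N := ∑ i, e i with hNdef
  have hNe : ∀ i, e i ≤ N := fun i =>
    Finset.single_le_sum (f := e) (fun _ _ => Nat.zero_le _) (Finset.mem_univ i)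
  have hEN : ∀ i i', i' ≠ i → (V i').valuation (E i ^ N) ≤ (V i').valuation (algebraMap K F ϖ) :=
    fun i i' hi => by
      rw [map_pow, hram]
      calc (V i').valuation (E i) ^ N ≤ (V i').valuation (t i') ^ N :=
            pow_le_pow_left₀ zero_le (hgen i' _ (hE2 i i' hi)) N
        _ ≤ (V i').valuation (t i') ^ e i' := pow_le_pow_of_le_one zero_le (ht i').le (hNe i')
  let J : ι → Type := fun i => Fin (Module.finrank k (κ i))
  let b₀ : ∀ i, Module.Basis (J i) k (κ i) := fun i => Module.finBasis k (κ i)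
  choose z hz using fun (i : ι) (j : J i) => hρ i (b₀ i j)
  choose G hG1 hG2 using fun (i : ι) (j : J i) => exists_lift_multi V hinc i (z i j).2
  have hρG : ∀ i j, ρ i ⟨G i j, hG1 i j i⟩ = b₀ i j := fun i j => by
    rw [← hz i j, ← sub_eq_zero, ← map_sub, hker]
    exact hG2 i j
  choose u hu1 hu2 hu3 using fun i => exists_multiplier V (t i)
  have htmem : ∀ i, t i ∈ V i := fun i => ((V i).valuation_le_one_iff _).1 (ht i).le
  have hρu : ∀ i, ρ i ⟨u i, hu1 i i⟩ ≠ 0 := fun i h0 => by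
    have := (hker i _).1 h0
    simp only at this
    rw [hu3 i i (htmem i)] at this
    exact lt_irrefl _ this
  let r : (i : ι) → J i → Fin (e i) → F := fun i j s => E i ^ N * G i j * u i ^ (s : ℕ)
  have hrmem : ∀ i j s, r i j s ∈ V i := fun i j s =>
    mul_mem (mul_mem (pow_mem (hEmem i i) _) (hG1 i j i)) (pow_mem (hu1 i i) _)
  have hρr : ∀ i j s, ρ i ⟨r i j s, hrmem i j s⟩ =
      ρ i ⟨u i, hu1 i i⟩ ^ (s : ℕ) * b₀ i j := fun i j (s : Fin (e i)) => by
    have e1 : (⟨r i j s, hrmem i j s⟩ : V i) =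
        ⟨E i, hEmem i i⟩ ^ N * ⟨G i j, hG1 i j i⟩ * ⟨u i, hu1 i i⟩ ^ (s : ℕ) := rfl
    rw [e1, map_mul, map_mul, map_pow, map_pow, hρE, one_pow, one_mul, hρG, mul_comm]
  refine ⟨r, ?_⟩
  exact
    { isOver := hover
      ne_zero := hϖ0
      unifO := hϖ
      genO := hgenO
      unif := ht
      ram := hram
      r_mem := hrmem
      small := by
        intro i j s i' hi
        have e1 : r i j s * t i ^ (s : ℕ) = E i ^ N * (G i j * (t i * u i) ^ (s : ℕ)) := by
          simp only [r]; ring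
        rw [e1, map_mul]
        calc (V i').valuation (E i ^ N) * (V i').valuation (G i j * (t i * u i) ^ (s : ℕ))
            ≤ (V i').valuation (algebraMap K F ϖ) * 1 := by
              gcongr
              · exact hEN i i' hi
              · exact ((V i').valuation_le_one_iff _).2
                  (mul_mem (hG1 i j i') (pow_mem (hu2 i i') _))
          _ = _ := mul_one _
      indep := by
        intro i s a ha hsmall j
        have hmem : (∑ j, algebraMap K F (a j) * r i j s) ∈ V i :=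
          ((V i).valuation_le_one_iff _).1 hsmall.le
        have h0 : ρ i ⟨_, hmem⟩ = 0 := (hker i ⟨_, hmem⟩).2 hsmall
        have e1 : (⟨_, hmem⟩ : V i) =
            ∑ j, (⟨algebraMap K F (a j), ((hover i) (a j)).2 (ha j)⟩ : V i) *
              ⟨r i j s, hrmem i j s⟩ := by
          apply Subtype.ext
          rw [AddSubmonoidClass.coe_finsetSum]
          simp only [MulMemClass.coe_mul]
        rw [e1, map_sum] at h0
        have h1 : ρ i ⟨u i, hu1 i i⟩ ^ (s : ℕ) * ∑ j, π ⟨a j, ha j⟩ • b₀ i j = 0 := by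
          rw [← h0, Finset.mul_sum]
          refine Finset.sum_congr rfl fun j _ => ?_
          rw [map_mul, hρr, Algebra.smul_def, ← hc]
          ring
        have h2 : ∑ j, π ⟨a j, ha j⟩ • b₀ i j = 0 :=
          (mul_eq_zero.1 h1).resolve_left (pow_ne_zero _ (hρu i))
        have := Fintype.linearIndependent_iff.1 (b₀ i).linearIndependent _ h2 j
        exact (hkerO ⟨a j, ha j⟩).1 this }

include hover hinc hϖ0 hϖ hgenO ht hgen hram hπ hρ hc hdeg

/-- `N_{F/K}` maps `⋂ V i` into `O`. -/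
theorem norm_mem_ram {y : F} (hy : ∀ i, y ∈ V i) : Algebra.norm K y ∈ O :=
  (norm_red_ram hover hinc hϖ0 hϖ hgenO ht hgen hram π ρ hπ hρ hc hdeg hy).1

/-- If `y ∈ ⋂ V i` lies in the maximal ideal of `V i₀`, then
`N_{F/K} y ∈ ϖ ^ [κ i₀ : k] * O`. -/
theorem norm_mem_pow_ram {y : F} (hy : ∀ i, y ∈ V i) (i₀ : ι)
    (hy0 : (V i₀).valuation y < 1) :
    ∃ w : K, w ∈ O ∧ Algebra.norm K y = ϖ ^ Module.finrank k (κ i₀) * w := by
  classical
  obtain ⟨r, hfam⟩ := exists_ramFamily hover hinc hϖ0 hϖ hgenO ht hgen hram π ρ hπ hρ hc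
  have hcard : ∑ i, e i * Fintype.card (Fin (Module.finrank k (κ i))) = Module.finrank K F := by
    rw [← hdeg]
    exact Finset.sum_congr rfl fun i _ => by rw [Fintype.card_fin]
  obtain ⟨w, hw, hN⟩ := hfam.norm_mem_pow hcard hy i₀ (hgen i₀ y hy0)
  refine ⟨w, hw, ?_⟩
  rw [hN, Fintype.card_fin]

/-- If `y` is a unit at every `V i`, then `N_{F/K} y` is a unit of `O`. -/
theorem val_norm_eq_one {y : F} (hy : ∀ i, (V i).valuation y = 1) :
    O.valuation (Algebra.norm K y) = 1 := by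
  have hy0 : y ≠ 0 := by
    obtain ⟨i⟩ := (inferInstance : Nonempty ι)
    intro h0
    have := hy i
    rw [h0, map_zero] at this
    exact zero_ne_one this
  have hmem : ∀ i, y ∈ V i := fun i => ((V i).valuation_le_one_iff _).1 (hy i).le
  have hmem' : ∀ i, y⁻¹ ∈ V i := fun i =>
    ((V i).valuation_le_one_iff _).1 (by rw [map_inv₀, hy i, inv_one])
  have h1 := norm_mem_ram hover hinc hϖ0 hϖ hgenO ht hgen hram π ρ hπ hρ hc hdeg hmem
  have h2 := norm_mem_ram hover hinc hϖ0 hϖ hgenO ht hgen hram π ρ hπ hρ hc hdeg hmem'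
  have e1 : Algebra.norm K y * Algebra.norm K y⁻¹ = 1 := by
    rw [← map_mul, mul_inv_cancel₀ hy0, map_one]
  have l1 := (O.valuation_le_one_iff _).2 h1
  have l2 := (O.valuation_le_one_iff _).2 h2
  have e2 : O.valuation (Algebra.norm K y) * O.valuation (Algebra.norm K y⁻¹) = 1 := by
    rw [← map_mul, e1, map_one]
  refine le_antisymm l1 ?_
  calc (1 : O.ValueGroup) = O.valuation (Algebra.norm K y) * O.valuation (Algebra.norm K y⁻¹) :=
        e2.symm
    _ ≤ O.valuation (Algebra.norm K y) * 1 := by gcongr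
    _ = _ := mul_one _

/-- **NV: the valuation of a norm.**  If `v i (y) = v i (t i) ^ a i` for all `i`, then
`v (N_{F/K} y) = v ϖ ^ ∑ i, [κ i : k] * a i`. -/
theorem val_norm_ram {y : F} (a : ι → ℤ)
    (hya : ∀ i, (V i).valuation y = (V i).valuation (t i) ^ a i) :
    O.valuation (Algebra.norm K y) =
      O.valuation ϖ ^ (∑ i, (Module.finrank k (κ i) : ℤ) * a i) := by
  classical
  obtain ⟨r, hfam⟩ := exists_ramFamily hover hinc hϖ0 hϖ hgenO ht hgen hram π ρ hπ hρ hc
  have ht0 : ∀ i, t i ≠ 0 := hfam.t_ne_zero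
  have he : ∀ i, 0 < e i := hfam.e_pos
  have htpos : ∀ i, 0 < (V i).valuation (t i) := hfam.val_t_pos
  have hvϖ : O.valuation ϖ ≠ 0 := by rw [Ne, Valuation.zero_iff]; exact hϖ0
  have hϖF : algebraMap K F ϖ ≠ 0 := by rw [Ne, map_eq_zero]; exact hϖ0
  choose T hT1 hT2 using fun i => exists_unif_multi V hinc i (ht0 i) (ht i) (hgen i)
  have hTmem : ∀ i i', T i ∈ V i' := fun i i' => by
    rw [← (V i').valuation_le_one_iff]
    by_cases hi : i' = i
    · subst hi; rw [hT1]; exact (ht i').le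
    · rw [hT2 i i' hi]
  have hT0 : ∀ i, T i ≠ 0 := fun i h0 => by
    have := hT1 i
    rw [h0, map_zero] at this
    exact (htpos i).ne this
  have hprod : ∀ (b : ι → ℤ) (i' : ι),
      (V i').valuation (∏ i, T i ^ b i) = (V i').valuation (t i') ^ b i' := by
    intro b i'
    rw [map_prod, Finset.prod_eq_single i']
    · rw [map_zpow₀, hT1]
    · intro i _ hi
      rw [map_zpow₀, hT2 i i' (Ne.symm hi), one_zpow]
    · intro hh; exact absurd (Finset.mem_univ _) hh
  choose w hwO hwN using fun i =>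
    norm_mem_pow_ram hover hinc hϖ0 hϖ hgenO ht hgen hram π ρ hπ hρ hc hdeg (hTmem i) i
      (by rw [hT1]; exact ht i)
  -- the product trick
  set P := ∏ i, T i ^ ((e i : ℕ) : ℤ) with hPdef
  have hP : ∀ i', (V i').valuation P = (V i').valuation (algebraMap K F ϖ) := by
    intro i'
    rw [hPdef, hprod, zpow_natCast, hram]
  set U := P * (algebraMap K F ϖ)⁻¹ with hUdef
  have hU : ∀ i, (V i).valuation U = 1 := by
    intro i
    rw [hUdef, map_mul, map_inv₀, hP, mul_inv_cancel₀]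
    rw [Ne, Valuation.zero_iff]; exact hϖF
  have hNU := val_norm_eq_one hover hinc hϖ0 hϖ hgenO ht hgen hram π ρ hπ hρ hc hdeg hU
  have hNP : Algebra.norm K P = ϖ ^ Module.finrank K F * Algebra.norm K U := by
    have e1 : P = algebraMap K F ϖ * U := by
      rw [hUdef, mul_comm, inv_mul_cancel_right₀ hϖF]
    conv_lhs => rw [e1]
    rw [map_mul, Algebra.norm_algebraMap]
  have hNP' : Algebra.norm K P = ϖ ^ Module.finrank K F * ∏ i, w i ^ e i := by
    rw [hPdef, map_prod]
    have e1 : ∀ i, Algebra.norm K (T i ^ ((e i : ℕ) : ℤ)) =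
        ϖ ^ (e i * Module.finrank k (κ i)) * w i ^ e i := by
      intro i
      rw [zpow_natCast, map_pow, hwN, mul_pow, ← pow_mul, mul_comm (e i)]
    rw [Finset.prod_congr rfl fun i _ => e1 i, Finset.prod_mul_distrib,
      Finset.prod_pow_eq_pow_sum, hdeg]
  have hw1 : O.valuation (∏ i, w i ^ e i) = 1 := by
    have e1 : ∏ i, w i ^ e i = Algebra.norm K U :=
      mul_left_cancel₀ (pow_ne_zero (Module.finrank K F) hϖ0) (hNP'.symm.trans hNP)
    rw [e1, hNU]
  have hwv : ∀ i, O.valuation (w i) = 1 := by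
    intro i
    by_contra hne
    have hle : ∀ j, O.valuation (w j) ≤ 1 := fun j => (O.valuation_le_one_iff _).2 (hwO j)
    have hlt : O.valuation (w i) < 1 := lt_of_le_of_ne (hle i) hne
    have hbad : O.valuation (∏ i, w i ^ e i) < 1 := by
      rw [map_prod, ← Finset.mul_prod_erase _ _ (Finset.mem_univ i)]
      have h1 : ∏ j ∈ Finset.univ.erase i, O.valuation (w j ^ e j) ≤ 1 :=
        Finset.prod_le_one' fun j _ => by
          rw [map_pow]; exact pow_le_one₀ zero_le (hle j)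
      calc O.valuation (w i ^ e i) * ∏ j ∈ Finset.univ.erase i, O.valuation (w j ^ e j)
          ≤ O.valuation (w i ^ e i) * 1 := by gcongr
        _ = O.valuation (w i) ^ e i := by rw [mul_one, map_pow]
        _ ≤ O.valuation (w i) ^ 1 := pow_le_pow_of_le_one zero_le hlt.le (he i)
        _ < 1 := by rw [pow_one]; exact hlt
    rw [hw1] at hbad
    exact lt_irrefl _ hbad
  have hNT : ∀ i, O.valuation (Algebra.norm K (T i)) =
      O.valuation ϖ ^ Module.finrank k (κ i) := by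
    intro i
    rw [hwN, map_mul, map_pow, hwv, mul_one]
  -- general `y`
  set Q := ∏ i, T i ^ a i with hQdef
  have hQ : ∀ i', (V i').valuation Q = (V i').valuation (t i') ^ a i' := hprod a
  have hQ0 : Q ≠ 0 := Finset.prod_ne_zero_iff.2 fun i _ => zpow_ne_zero _ (hT0 i)
  have hy' : ∀ i, (V i).valuation (y * Q⁻¹) = 1 := by
    intro i
    rw [map_mul, map_inv₀, hya, hQ, mul_inv_cancel₀ (zpow_ne_zero _ (htpos i).ne')]
  have hNy' := val_norm_eq_one hover hinc hϖ0 hϖ hgenO ht hgen hram π ρ hπ hρ hc hdeg hy'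
  have e1 : y = (y * Q⁻¹) * Q := by rw [inv_mul_cancel_right₀ hQ0]
  conv_lhs => rw [e1]
  rw [map_mul, map_mul, hNy', one_mul, hQdef, map_prod, map_prod]
  have e2 : ∀ i, O.valuation (Algebra.norm K (T i ^ a i)) =
      O.valuation ϖ ^ ((Module.finrank k (κ i) : ℤ) * a i) := by
    intro i
    rw [norm_zpow_of_ne_zero (hT0 i), map_zpow₀, hNT, ← zpow_natCast, ← zpow_mul]
  rw [Finset.prod_congr rfl fun i _ => e2 i]
  exact prod_zpow_eq_zpow_sum hvϖ _ _

end NV

section Dvr

variable {K F : Type*} [Field K] [Field F] [Algebra K F]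

/-- In a valuation ring whose maximal ideal is generated by `τ`, an element some power of whose
valuation is a power of `v τ` has itself valuation a power of `v τ`. -/
theorem exists_zpow_val_of_pow {V : ValuationSubring F} {τ y : F} (hτ0 : τ ≠ 0)
    (hτ : V.valuation τ < 1)
    (hgen : ∀ z : F, V.valuation z < 1 → V.valuation z ≤ V.valuation τ)
    {d : ℕ} (hd : 0 < d) {s : ℤ} (h : V.valuation y ^ d = V.valuation τ ^ s) :
    ∃ n : ℤ, V.valuation y = V.valuation τ ^ n := by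
  have hτpos : 0 < V.valuation τ := by rw [Valuation.pos_iff]; exact hτ0
  have hτne : V.valuation τ ≠ 0 := hτpos.ne'
  set a : ℤ := s / (d : ℤ) with ha
  have hdZ : (0 : ℤ) < (d : ℤ) := by exact_mod_cast hd
  obtain ⟨r, hr⟩ : ∃ r : ℕ, (r : ℤ) = s % (d : ℤ) :=
    ⟨(s % (d : ℤ)).toNat, Int.toNat_of_nonneg (Int.emod_nonneg _ hdZ.ne')⟩
  have hrd : r < d := by
    have := Int.emod_lt_of_pos s hdZ
    rw [← hr] at this
    exact_mod_cast this
  have hs : s = a * (d : ℤ) + (r : ℤ) := by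
    rw [hr, ha, mul_comm]; exact (Int.mul_ediv_add_emod s d).symm
  set δ := y * (τ ^ a)⁻¹ with hδ
  have hδd : V.valuation δ ^ d = V.valuation τ ^ r := by
    rw [hδ, map_mul, map_inv₀, map_zpow₀, mul_pow, h, hs, zpow_add₀ hτne, zpow_mul,
      zpow_natCast, zpow_natCast, inv_pow]
    rw [mul_comm ((V.valuation τ ^ a) ^ d), mul_assoc,
      mul_inv_cancel₀ (pow_ne_zero _ (zpow_ne_zero _ hτne)), mul_one]
  have hδ1 : V.valuation δ = 1 := by
    rcases lt_trichotomy (V.valuation δ) 1 with hlt | heq | hgt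
    · exfalso
      have h1 : V.valuation δ ^ d ≤ V.valuation τ ^ d :=
        pow_le_pow_left₀ zero_le (hgen _ hlt) d
      have h2 : V.valuation τ ^ d < V.valuation τ ^ r :=
        pow_lt_pow_right_of_lt_one₀ hτpos hτ hrd
      rw [hδd] at h1
      exact lt_irrefl _ (lt_of_le_of_lt h1 h2)
    · exact heq
    · exfalso
      have h1 : 1 < V.valuation δ ^ d := one_lt_pow₀ hgt hd.ne'
      have h2 : V.valuation τ ^ r ≤ 1 := pow_le_one₀ zero_le hτ.le
      rw [hδd] at h1
      exact lt_irrefl _ (lt_of_lt_of_le h1 h2)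
  refine ⟨a, ?_⟩
  have e1 : y = δ * τ ^ a := by
    rw [hδ, inv_mul_cancel_right₀ (zpow_ne_zero _ hτ0)]
  conv_lhs => rw [e1]
  rw [map_mul, hδ1, one_mul, map_zpow₀]

/-- For `y ≠ 0` algebraic over `K`, some power `v (y) ^ d` (`d ≥ 1`) is the valuation of a
nonzero element of `K`. -/
theorem exists_pow_val_eq [Algebra.IsAlgebraic K F] (V : ValuationSubring F) {y : F}
    (hy : y ≠ 0) :
    ∃ d : ℕ, 0 < d ∧ ∃ c : K, c ≠ 0 ∧ V.valuation y ^ d = V.valuation (algebraMap K F c) := by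
  classical
  obtain ⟨p, hp0, hp⟩ := (Algebra.IsAlgebraic.isAlgebraic (R := K) y)
  rw [Polynomial.aeval_def, Polynomial.eval₂_eq_sum, Polynomial.sum_def] at hp
  set g : ℕ → F := fun j => algebraMap K F (p.coeff j) * y ^ j with hg
  have hg0 : ∀ j ∈ p.support, V.valuation (g j) ≠ 0 := by
    intro j hj
    rw [Ne, Valuation.zero_iff, hg]
    simp only
    refine mul_ne_zero ?_ (pow_ne_zero _ hy)
    rw [Ne, map_eq_zero]
    exact Polynomial.mem_support_iff.1 hj
  have hsupp : p.support.Nonempty := by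
    rw [Finset.nonempty_iff_ne_empty, Ne, Polynomial.support_eq_empty]; exact hp0
  obtain ⟨j₀, hj₀, hmax⟩ := Finset.exists_max_image p.support (fun j => V.valuation (g j)) hsupp
  have hex : ∃ j₁ ∈ p.support, j₁ ≠ j₀ ∧ V.valuation (g j₁) = V.valuation (g j₀) := by
    by_contra hcon
    push Not at hcon
    have hlt : ∀ i ∈ p.support \ {j₀}, V.valuation (g i) < V.valuation (g j₀) := by
      intro i hi
      rw [Finset.mem_sdiff, Finset.mem_singleton] at hi
      exact lt_of_le_of_ne (hmax i hi.1) (hcon i hi.1 hi.2)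
    have := Valuation.map_sum_eq_of_lt V.valuation hj₀ hlt
    rw [hp, map_zero] at this
    exact hg0 j₀ hj₀ this.symm
  obtain ⟨j₁, hj₁, hne, heq⟩ := hex
  have hc₀ : p.coeff j₀ ≠ 0 := Polynomial.mem_support_iff.1 hj₀
  have hc₁ : p.coeff j₁ ≠ 0 := Polynomial.mem_support_iff.1 hj₁
  have hvy : V.valuation y ≠ 0 := by rw [Ne, Valuation.zero_iff]; exact hy
  have hv₀ : V.valuation (algebraMap K F (p.coeff j₀)) ≠ 0 := by
    rw [Ne, Valuation.zero_iff, map_eq_zero]; exact hc₀
  have hv₁ : V.valuation (algebraMap K F (p.coeff j₁)) ≠ 0 := by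
    rw [Ne, Valuation.zero_iff, map_eq_zero]; exact hc₁
  simp only [hg, map_mul, map_pow] at heq
  -- `v c₁ * v y ^ j₁ = v c₀ * v y ^ j₀`
  rcases Nat.lt_or_gt_of_ne hne with hlt | hgt
  · -- `j₁ < j₀` : `v y ^ (j₀ - j₁) = v (c₁ / c₀)`
    refine ⟨j₀ - j₁, by omega, p.coeff j₁ / p.coeff j₀, div_ne_zero hc₁ hc₀, ?_⟩
    rw [map_div₀, map_div₀, eq_div_iff hv₀]
    have e1 : V.valuation y ^ j₀ = V.valuation y ^ (j₀ - j₁) * V.valuation y ^ j₁ := by
      rw [← pow_add]; congr 1; omega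
    rw [e1] at heq
    have e2 : V.valuation (algebraMap K F (p.coeff j₁)) * V.valuation y ^ j₁ =
        (V.valuation y ^ (j₀ - j₁) * V.valuation (algebraMap K F (p.coeff j₀))) *
          V.valuation y ^ j₁ := by
      rw [heq]; ac_rfl
    exact (mul_right_cancel₀ (pow_ne_zero _ hvy) e2).symm
  · refine ⟨j₁ - j₀, by omega, p.coeff j₀ / p.coeff j₁, div_ne_zero hc₀ hc₁, ?_⟩
    rw [map_div₀, map_div₀, eq_div_iff hv₁]
    have e1 : V.valuation y ^ j₁ = V.valuation y ^ (j₁ - j₀) * V.valuation y ^ j₀ := by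
      rw [← pow_add]; congr 1; omega
    rw [e1] at heq
    have e2 : V.valuation (algebraMap K F (p.coeff j₀)) * V.valuation y ^ j₀ =
        (V.valuation y ^ (j₁ - j₀) * V.valuation (algebraMap K F (p.coeff j₁))) *
          V.valuation y ^ j₀ := by
      rw [← heq]; ac_rfl
    exact (mul_right_cancel₀ (pow_ne_zero _ hvy) e2).symm

/-- Over a valuation ring `O`, the valuation of `V` on `K` is determined by that of `O`:
units of `O` are units of `V`. -/
theorem Over_val_eq_one {O : ValuationSubring K} {V : ValuationSubring F} (h : Over O V)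
    {a : K} (ha : O.valuation a = 1) : V.valuation (algebraMap K F a) = 1 := by
  refine le_antisymm ((h.val_le_one_iff a).2 ha.le) ?_
  rw [← not_lt, h.val_lt_one_iff, ha]
  exact lt_irrefl _

/-- **Discreteness goes up.**  If the value group of `O` is generated by `v ϖ` and the maximal
ideal of `V` (over `O`, in an algebraic extension) is generated by `τ` with
`ϖ = unit * τ ^ e`, then the value group of `V` is generated by `v τ`. -/
theorem exists_zpow_val [Algebra.IsAlgebraic K F] {O : ValuationSubring K} {ϖ : K}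
    {V : ValuationSubring F} {τ : F} (hover : Over O V) (hϖ0 : ϖ ≠ 0)
    (hdvr : ∀ a : K, a ≠ 0 → ∃ n : ℤ, O.valuation a = O.valuation ϖ ^ n)
    (hτ0 : τ ≠ 0) (hτ : V.valuation τ < 1)
    (hgen : ∀ z : F, V.valuation z < 1 → V.valuation z ≤ V.valuation τ)
    {e : ℕ} (hram : V.valuation (algebraMap K F ϖ) = V.valuation τ ^ e)
    {y : F} (hy : y ≠ 0) : ∃ n : ℤ, V.valuation y = V.valuation τ ^ n := by
  obtain ⟨d, hd, c, hc0, hdc⟩ := exists_pow_val_eq (K := K) V hy
  obtain ⟨n, hn⟩ := hdvr c hc0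
  have hvϖ : O.valuation ϖ ≠ 0 := by rw [Ne, Valuation.zero_iff]; exact hϖ0
  have hunit : O.valuation (c * (ϖ ^ n)⁻¹) = 1 := by
    rw [map_mul, map_inv₀, map_zpow₀, hn, mul_inv_cancel₀ (zpow_ne_zero _ hvϖ)]
  have h1 := Over_val_eq_one hover hunit
  have hc : V.valuation (algebraMap K F c) = V.valuation τ ^ ((e : ℤ) * n) := by
    have e1 : c = (c * (ϖ ^ n)⁻¹) * ϖ ^ n := by
      rw [inv_mul_cancel_right₀ (zpow_ne_zero _ hϖ0)]
    conv_lhs => rw [e1]
    rw [map_mul, map_mul, h1, one_mul, map_zpow₀, map_zpow₀, hram, ← zpow_natCast, ← zpow_mul]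
  exact exists_zpow_val_of_pow hτ0 hτ hgen hd (hdc.trans hc)

end Dvr

section NVdvr

variable {K F : Type*} [Field K] [Field F] [Algebra K F]

/-- **NV, discrete form.**  In the setting of `norm_red_ram`, if moreover the value group of `O`
is generated by `v ϖ` and `F / K` is algebraic: every `y ≠ 0` has `v i (y) = v i (t i) ^ a i`
and `v (N_{F/K} y) = v ϖ ^ ∑ i, [κ i : k] * a i`. -/
theorem val_norm_ram_dvr [Algebra.IsAlgebraic K F] {ι : Type*} [Fintype ι] [Nonempty ι]
    {O : ValuationSubring K} {ϖ : K} {V : ι → ValuationSubring F} {t : ι → F} {e : ι → ℕ}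
    (hover : ∀ i, Over O (V i)) (hinc : ∀ i i', i ≠ i' → ¬ V i ≤ V i')
    (hϖ0 : ϖ ≠ 0) (hϖ : O.valuation ϖ < 1)
    (hdvr : ∀ a : K, a ≠ 0 → ∃ n : ℤ, O.valuation a = O.valuation ϖ ^ n)
    (ht : ∀ i, (V i).valuation (t i) < 1)
    (hgen : ∀ i (z : F), (V i).valuation z < 1 → (V i).valuation z ≤ (V i).valuation (t i))
    (hram : ∀ i, (V i).valuation (algebraMap K F ϖ) = (V i).valuation (t i) ^ e i)
    {k : Type*} [Field k] {κ : ι → Type*} [∀ i, Field (κ i)] [∀ i, Algebra k (κ i)]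
    [∀ i, Module.Finite k (κ i)]
    (π : O →+* k) (ρ : ∀ i, V i →+* κ i)
    (hπ : Function.Surjective π) (hρ : ∀ i, Function.Surjective (ρ i))
    (hc : ∀ i (a : O), ρ i ⟨algebraMap K F a, ((hover i) a).2 a.2⟩ = algebraMap k (κ i) (π a))
    (hdeg : ∑ i, e i * Module.finrank k (κ i) = Module.finrank K F)
    {y : F} (hy : y ≠ 0) :
    ∃ a : ι → ℤ, (∀ i, (V i).valuation y = (V i).valuation (t i) ^ a i) ∧
      O.valuation (Algebra.norm K y) =
        O.valuation ϖ ^ (∑ i, (Module.finrank k (κ i) : ℤ) * a i) := by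
  classical
  have hvϖ : O.valuation ϖ ≠ 0 := by rw [Ne, Valuation.zero_iff]; exact hϖ0
  have hgenO : ∀ a : K, O.valuation a < 1 → O.valuation a ≤ O.valuation ϖ := by
    intro a ha
    by_cases ha0 : a = 0
    · rw [ha0, map_zero]; exact zero_le
    obtain ⟨n, hn⟩ := hdvr a ha0
    rw [hn] at ha ⊢
    -- `v ϖ ^ n < 1` forces `n ≥ 1`
    have hn1 : 1 ≤ n := by
      by_contra hcon
      have hle : n ≤ 0 := by omega
      have : (1 : O.ValueGroup) ≤ O.valuation ϖ ^ n := by
        obtain ⟨m, hm⟩ : ∃ m : ℕ, n = -(m : ℤ) := ⟨(-n).toNat, by omega⟩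
        rw [hm, zpow_neg, zpow_natCast]
        exact (one_le_inv₀ (pow_pos (zero_lt_iff.2 hvϖ) _)).2 (pow_le_one₀ zero_le hϖ.le)
      exact lt_irrefl _ (lt_of_le_of_lt this ha)
    obtain ⟨m, hm⟩ : ∃ m : ℕ, n = (m : ℤ) + 1 := ⟨(n - 1).toNat, by omega⟩
    rw [hm, zpow_add₀ hvϖ, zpow_one, zpow_natCast]
    calc O.valuation ϖ ^ m * O.valuation ϖ ≤ 1 * O.valuation ϖ := by
          gcongr; exact pow_le_one₀ zero_le hϖ.le
      _ = _ := one_mul _
  have ht0 : ∀ i, t i ≠ 0 := by
    intro i h0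
    have h1 := hram i
    by_cases he : e i = 0
    · rw [he, pow_zero] at h1
      have := (hover i).val_lt_one_iff ϖ |>.2 hϖ
      rw [h1] at this
      exact lt_irrefl _ this
    · rw [h0, map_zero, zero_pow he, Valuation.zero_iff, map_eq_zero] at h1
      exact hϖ0 h1
  choose a ha using fun i =>
    exists_zpow_val (hover i) hϖ0 hdvr (ht0 i) (ht i) (hgen i) (hram i) hy
  exact ⟨a, ha, val_norm_ram hover hinc hϖ0 hϖ hgenO ht hgen hram π ρ hπ hρ hc hdeg a ha⟩

end NVdvr

end Fermat.Agent.S36.H253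

end
-- ===== PACK-END S36/H253/NormVal.lean

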