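import Mathlib
import Fermat.Prelude.Def_AlgebraicCurve_Correspondence
import Fermat.Prelude.Def_AlgebraicCurve_DivisorPushPull
import Fermat.Prelude.Thm_ModularCurve_coeffMap_qExpand
import Fermat.Agent.Pack.S36.E7L1
import Fermat.Agent.Pack.S36.E7L0
import Fermat.Agent.Pack.S36.E4L2
import Fermat.Agent.Pack.S36.E4L1
import Fermat.Agent.Pack.S36.E7L3
import Fermat.Agent.Pack.S36.E0L0
import Fermat.Agent.Pack.S36.E0L2
import Fermat.Agent.Pack.S36.E0L3
import Fermat.Agent.Pack.S36.E6L1
import Fermat.Agent.Pack.S36.E2L1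

-- ===== PACK-BEGIN S24/Deg/H457_Main.lean
section


/-!
# S24 / DEG-ALG (helper457), part 4: the degree bound for `FF N / Kbar(jF N)`

`finiteDimensional_and_finrank_le`: from the interface hypothesis `Hyp ℂ N n` (relations over `ℂ`)
we get `FiniteDimensional Kbar⟮jF N⟯ (FF N)` and `finrank ≤ n`.
-/

set_option autoImplicit false

noncomputable section

open Polynomial ModularCurve IntermediateField

namespace Fermat.Agent.S24.Deg457

/-- Lemma X: a bivariate relation gives integrality + degree bound over an intermediate field. -/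
theorem isIntegral_and_natDegree_le_of_relation {K M E : Type*} [Field K] [Field M] [Field E]
    [Algebra K M] [Algebra M E] [Algebra K E] [IsScalarTower K M E] (j : M)
    (hj : ∀ t : K[X], t ≠ 0 → aeval j t ≠ 0) (x : E) (Q : K[X][X]) (hQ0 : Q ≠ 0) (n : ℕ)
    (hQn : Q.natDegree ≤ n)
    (hQ : Q.eval₂ ((aeval (algebraMap M E j) : K[X] →ₐ[K] E).toRingHom) x = 0) :
    IsIntegral M x ∧ (minpoly M x).natDegree ≤ n := by
  set φ : K[X] →+* M := (aeval j : K[X] →ₐ[K] M).toRingHom with hφ
  have hφinj : Function.Injective φ := by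
    rw [injective_iff_map_eq_zero]
    intro t ht
    by_contra h0
    exact hj t h0 ht
  have hp0 : Q.map φ ≠ 0 := by
    rw [Ne, Polynomial.map_eq_zero_iff hφinj]
    exact hQ0
  have hcomp : (algebraMap M E).comp φ = (aeval (algebraMap M E j) : K[X] →ₐ[K] E).toRingHom := by
    refine Polynomial.ringHom_ext ?_ ?_
    · intro c
      simp [hφ, ← IsScalarTower.algebraMap_apply]
    · simp [hφ]
  have hroot : aeval x (Q.map φ) = 0 := by
    rw [aeval_def, eval₂_map, hcomp]
    exact hQ
  have hint : IsIntegral M x := (IsAlgebraic.isIntegral ⟨Q.map φ, hp0, hroot⟩)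
  refine ⟨hint, ?_⟩
  have h1 := minpoly.degree_le_of_ne_zero M x hp0 hroot
  have h2 := natDegree_le_natDegree h1
  exact h2.trans ((natDegree_map_le).trans hQn)

/-- an embedding `ℚ̄ → ℂ` -/
def iotaC : Kbar →+* ℂ := by
  haveI : Algebra.IsAlgebraic ℚ (AlgebraicClosure ℚ) := AlgebraicClosure.isAlgebraic ℚ
  exact ((IsAlgClosed.lift : AlgebraicClosure ℚ →ₐ[ℚ] ℂ) : AlgebraicClosure ℚ →+* ℂ)

variable (N : ℕ) [NeZero N]

theorem coe_jF : ((jF N : FF N) : LaurentSeries Kbar) = JK Kbar := rfl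

/-- **Degree bound** (DEG-ALG): from the analytic interface hypothesis over `ℂ`. -/
theorem finiteDimensional_and_finrank_le (n : ℕ) (hyp : Hyp ℂ N n) :
    FiniteDimensional ↥(IntermediateField.adjoin Kbar {jF N}) (FF N) ∧
      Module.finrank ↥(IntermediateField.adjoin Kbar {jF N}) (FF N) ≤ n := by
  refine finiteDimensional_and_finrank_le_of_forall_natDegree_minpoly_le n fun x => ?_
  obtain ⟨Q, hQ0, hQn, hQ⟩ := algDeg_of_mem_field iotaC hyp x.2
  have hinc : Function.Injective (algebraMap (FF N) (LaurentSeries Kbar)) :=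
    (algebraMap (FF N) (LaurentSeries Kbar)).injective
  refine isIntegral_and_natDegree_le_of_relation (K := Kbar)
    (AdjoinSimple.gen Kbar (jF N)) ?_ x Q hQ0 n hQn ?_
  · intro t ht h0
    apply aeval_JK_ne_zero Kbar ht
    have h1 := congrArg (algebraMap ↥(IntermediateField.adjoin Kbar {jF N}) (FF N)) h0
    rw [← aeval_algebraMap_apply, map_zero, AdjoinSimple.algebraMap_gen] at h1
    have h2 := congrArg (algebraMap (FF N) (LaurentSeries Kbar)) h1
    rw [← aeval_algebraMap_apply, map_zero] at h2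
    exact h2
  · apply hinc
    rw [map_zero, Polynomial.hom_eval₂, AdjoinSimple.algebraMap_gen]
    have hcomp : (algebraMap (FF N) (LaurentSeries Kbar)).comp
        ((aeval (jF N) : Kbar[X] →ₐ[Kbar] FF N).toRingHom) = evJ (JK Kbar) := by
      refine Polynomial.ringHom_ext ?_ ?_
      · intro c
        simp [evJ, ← IsScalarTower.algebraMap_apply]
      · simp [evJ]
        rfl
    rw [hcomp]
    exact hQ

end Fermat.Agent.S24.Deg457

end
end
-- ===== PACK-END S24/Deg/H457_Main.lean

-- ===== PACK-BEGIN S29/H801/M1Abstract.lean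
section
/-
S29 / M1 (helper801), part 2: two correspondences `T₁ = a₁_* b₁^*`, `T₂ = a₂_* b₂^*` on a function
field `F` commute, on divisors and on `Pic0`, as soon as there is a common cover `F₁₂`

            a₁,b₁                 A₂,B₂
      F  =========>  F₁      F₁ =========> F₁₂
            a₂,b₂                 A₁,B₁
      F  =========>  F₂      F₂ =========> F₁₂

with `A₂ ∘ a₁ = A₁ ∘ a₂`, `B₂ ∘ b₁ = B₁ ∘ b₂`, `B₁ ∘ a₂ = A₂ ∘ b₁`, `B₂ ∘ a₁ = A₁ ∘ b₂`, and the two
mixed squares satisfy base change (helper818's `pullback_pushforward_eq`).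
Then `T₁ T₂ = (A₂ a₁)_* (B₁ b₂)^* = (A₁ a₂)_* (B₂ b₁)^* = T₂ T₁`.
-/





set_option autoImplicit false
set_option linter.style.haveILetI false

noncomputable section

namespace Fermat.Agent.S29.H801

open AlgebraicCurve Fermat.Agent.S37.H818

variable {K F F₁ F₂ F₁₂ : Type*} [Field K] [Field F] [Field F₁] [Field F₂] [Field F₁₂]
  [Algebra K F] [Algebra K F₁] [Algebra K F₂] [Algebra K F₁₂]

theorem pushforwardAlong_congr {G G' : Type*} [Field G] [Field G'] [Algebra K G] [Algebra K G']
    {φ φ' : G →ₐ[K] G'} (h : φ = φ')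
    (hφ : φ.toRingHom.IsIntegral) (hφ' : φ'.toRingHom.IsIntegral) (D : Divisor K G') :
    Divisor.pushforwardAlong φ hφ D = Divisor.pushforwardAlong φ' hφ' D := by
  subst h
  rfl

section

variable (a₁ b₁ : F →ₐ[K] F₁) (a₂ b₂ : F →ₐ[K] F₂)
  (A₂ B₂ : F₁ →ₐ[K] F₁₂) (A₁ B₁ : F₂ →ₐ[K] F₁₂)
  (ha₁ : a₁.toRingHom.IsIntegral) (hb₁ : b₁.toRingHom.IsIntegral)
  (ha₂ : a₂.toRingHom.IsIntegral) (hb₂ : b₂.toRingHom.IsIntegral)
  (hA₂ : A₂.toRingHom.IsIntegral) (hB₂ : B₂.toRingHom.IsIntegral)
  (hA₁ : A₁.toRingHom.IsIntegral) (hB₁ : B₁.toRingHom.IsIntegral)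
  (hAA : A₂.comp a₁ = A₁.comp a₂) (hBB : B₂.comp b₁ = B₁.comp b₂)
  (hsq₁ : B₁.comp a₂ = A₂.comp b₁) (hsq₂ : B₂.comp a₁ = A₁.comp b₂)

variable [HasPrincipalDivisors K F₁] [HasPrincipalDivisors K F₂] [HasPrincipalDivisors K F₁₂]

include hsq₁ hB₁ hA₂ in
/-- `T₁ T₂ = (A₂ a₁)_* (B₁ b₂)^*`. -/
theorem correspondence_correspondence_eq
    (hfin₂ : FiniteAlong K a₂) (hN₂ : NormFormulaAlong K a₂ hfin₂)
    (hfinA₂ : FiniteAlong K A₂) (hNA₂ : NormFormulaAlong K A₂ hfinA₂)
    (hnorm₁ : NormCompat a₂ b₁ A₂ B₁) (hLG₂ : HasLocalGenerators a₂ ha₂)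
    (hAa : (A₂.comp a₁).toRingHom.IsIntegral) (hBb : (B₁.comp b₂).toRingHom.IsIntegral)
    (D : Divisor K F) :
    Divisor.correspondence b₁ a₁ hb₁ ha₁ (Divisor.correspondence b₂ a₂ hb₂ ha₂ D) =
      Divisor.pushforwardAlong (A₂.comp a₁) hAa (Divisor.pullbackAlong (B₁.comp b₂) hBb D) := by
  rw [Divisor.correspondence_apply, Divisor.correspondence_apply,
    pullback_pushforward_eq a₂ b₁ A₂ B₁ ha₂ hb₁ hA₂ hB₁ hsq₁ hfin₂ hN₂ hfinA₂ hNA₂ hnorm₁ hLG₂,
    ← pushforwardAlong_comp a₁ A₂ ha₁ hA₂ hAa, ← pullbackAlong_comp b₂ B₁ hb₂ hB₁ hBb]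

include hAA hBB hsq₁ hsq₂ hA₁ hA₂ hB₁ hB₂ in
/-- **Commutation of two correspondences on divisors.** -/
theorem correspondence_comm
    (hfin₁ : FiniteAlong K a₁) (hN₁ : NormFormulaAlong K a₁ hfin₁)
    (hfin₂ : FiniteAlong K a₂) (hN₂ : NormFormulaAlong K a₂ hfin₂)
    (hfinA₁ : FiniteAlong K A₁) (hNA₁ : NormFormulaAlong K A₁ hfinA₁)
    (hfinA₂ : FiniteAlong K A₂) (hNA₂ : NormFormulaAlong K A₂ hfinA₂)
    (hnorm₁ : NormCompat a₂ b₁ A₂ B₁) (hnorm₂ : NormCompat a₁ b₂ A₁ B₂)
    (hLG₁ : HasLocalGenerators a₁ ha₁) (hLG₂ : HasLocalGenerators a₂ ha₂)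
    (D : Divisor K F) :
    Divisor.correspondence b₁ a₁ hb₁ ha₁ (Divisor.correspondence b₂ a₂ hb₂ ha₂ D) =
      Divisor.correspondence b₂ a₂ hb₂ ha₂ (Divisor.correspondence b₁ a₁ hb₁ ha₁ D) := by
  have hAa : (A₂.comp a₁).toRingHom.IsIntegral := RingHom.IsIntegral.trans _ _ ha₁ hA₂
  have hAa' : (A₁.comp a₂).toRingHom.IsIntegral := RingHom.IsIntegral.trans _ _ ha₂ hA₁
  have hBb : (B₁.comp b₂).toRingHom.IsIntegral := RingHom.IsIntegral.trans _ _ hb₂ hB₁
  have hBb' : (B₂.comp b₁).toRingHom.IsIntegral := RingHom.IsIntegral.trans _ _ hb₁ hB₂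
  rw [correspondence_correspondence_eq a₁ b₁ a₂ b₂ A₂ B₁ ha₁ hb₁ ha₂ hb₂ hA₂ hB₁ hsq₁
      hfin₂ hN₂ hfinA₂ hNA₂ hnorm₁ hLG₂ hAa hBb D,
    correspondence_correspondence_eq a₂ b₂ a₁ b₁ A₁ B₂ ha₂ hb₂ ha₁ hb₁ hA₁ hB₂ hsq₂
      hfin₁ hN₁ hfinA₁ hNA₁ hnorm₂ hLG₁ hAa' hBb' D,
    pushforwardAlong_congr hAA hAa hAa', pullbackAlong_congr hBB.symm hBb hBb']

include hAA hBB hsq₁ hsq₂ hA₁ hA₂ hB₁ hB₂ in
/-- **Commutation of two correspondences on `Pic0`.** -/
theorem pic0_correspondence_comm
    (hFI₁ : FundamentalIdentityAlong K b₁ hb₁) (hFI₂ : FundamentalIdentityAlong K b₂ hb₂)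
    (hfin₁ : FiniteAlong K a₁) (hN₁ : NormFormulaAlong K a₁ hfin₁)
    (hfin₂ : FiniteAlong K a₂) (hN₂ : NormFormulaAlong K a₂ hfin₂)
    (hfinA₁ : FiniteAlong K A₁) (hNA₁ : NormFormulaAlong K A₁ hfinA₁)
    (hfinA₂ : FiniteAlong K A₂) (hNA₂ : NormFormulaAlong K A₂ hfinA₂)
    (hnorm₁ : NormCompat a₂ b₁ A₂ B₁) (hnorm₂ : NormCompat a₁ b₂ A₁ B₂)
    (hLG₁ : HasLocalGenerators a₁ ha₁) (hLG₂ : HasLocalGenerators a₂ ha₂)
    (x : Pic0 K F) :
    Pic0.correspondence b₁ a₁ hb₁ ha₁ hFI₁ hfin₁ hN₁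
        (Pic0.correspondence b₂ a₂ hb₂ ha₂ hFI₂ hfin₂ hN₂ x) =
      Pic0.correspondence b₂ a₂ hb₂ ha₂ hFI₂ hfin₂ hN₂
        (Pic0.correspondence b₁ a₁ hb₁ ha₁ hFI₁ hfin₁ hN₁ x) := by
  obtain ⟨D, rfl⟩ := Pic0.mk_surjective x
  rw [Pic0.correspondence_mk, Pic0.correspondence_mk, Pic0.correspondence_mk,
    Pic0.correspondence_mk]
  congr 1
  apply Subtype.ext
  simp only [Pic0.coe_degZeroCorrespondence]
  exact correspondence_comm a₁ b₁ a₂ b₂ A₂ B₂ A₁ B₁ ha₁ hb₁ ha₂ hb₂ hA₂ hB₂ hA₁ hB₁ hAA hBB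
    hsq₁ hsq₂ hfin₁ hN₁ hfin₂ hN₂ hfinA₁ hNA₁ hfinA₂ hNA₂ hnorm₁ hnorm₂ hLG₁ hLG₂ D

end

end Fermat.Agent.S29.H801

end

end
-- ===== PACK-END S29/H801/M1Abstract.lean

-- ===== PACK-BEGIN S24/Mod/H997Local.lean
section


/-!
# S24 / MOD — construction of `LocalData` from an abstract expansion with rotation data
-/

set_option autoImplicit false

noncomputable section

open ModularCurve HahnSeries UpperHalfPlane
open scoped MatrixGroups

namespace Fermat.Agent.S24.H997

/-! ### The "rotation relation" on Laurent series -/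

/-- `b` has the same order as `a`, and leading coefficient `ζ ^ order * (leading coeff of a)`. -/
def RotRel (ζ : ℂ) (a b : LaurentSeries ℂ) : Prop :=
  b.order = a.order ∧ b.leadingCoeff = ζ ^ a.order * a.leadingCoeff

namespace RotRel

variable {ζ : ℂ} {a b a' b' : LaurentSeries ℂ}

theorem zero : RotRel ζ 0 0 := ⟨rfl, by simp⟩

theorem eq_zero_iff (h : RotRel ζ a b) (hζ : ζ ≠ 0) : b = 0 ↔ a = 0 := by
  rw [← leadingCoeff_eq_zero (x := b), ← leadingCoeff_eq_zero (x := a), h.2]
  simp [zpow_ne_zero _ hζ]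

theorem mul (hζ : ζ ≠ 0) (h : RotRel ζ a b) (h' : RotRel ζ a' b') :
    RotRel ζ (a * a') (b * b') := by
  by_cases ha : a = 0
  · have hb : b = 0 := (h.eq_zero_iff hζ).mpr ha
    simp only [ha, hb, zero_mul]; exact zero
  by_cases ha' : a' = 0
  · have hb' : b' = 0 := (h'.eq_zero_iff hζ).mpr ha'
    simp only [ha', hb', mul_zero]; exact zero
  have hb : b ≠ 0 := fun hb => ha ((h.eq_zero_iff hζ).mp hb)
  have hb' : b' ≠ 0 := fun hb' => ha' ((h'.eq_zero_iff hζ).mp hb')
  have hab : a.leadingCoeff * a'.leadingCoeff ≠ 0 :=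
    mul_ne_zero (leadingCoeff_ne_zero.mpr ha) (leadingCoeff_ne_zero.mpr ha')
  have hbb : b.leadingCoeff * b'.leadingCoeff ≠ 0 :=
    mul_ne_zero (leadingCoeff_ne_zero.mpr hb) (leadingCoeff_ne_zero.mpr hb')
  refine ⟨?_, ?_⟩
  · rw [order_mul_of_ne_zero hab, order_mul_of_ne_zero hbb, h.1, h'.1]
  · rw [leadingCoeff_mul, leadingCoeff_mul, order_mul_of_ne_zero hab, h.2, h'.2, zpow_add₀ hζ]
    ring

theorem one : RotRel ζ 1 1 := ⟨rfl, by simp⟩

theorem order_inv' {x : LaurentSeries ℂ} (hx : x ≠ 0) : x⁻¹.order = -x.order := by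
  have hxi : x⁻¹ ≠ 0 := inv_ne_zero hx
  have h : x.leadingCoeff * x⁻¹.leadingCoeff ≠ 0 :=
    mul_ne_zero (leadingCoeff_ne_zero.mpr hx) (leadingCoeff_ne_zero.mpr hxi)
  have := order_mul_of_ne_zero h
  rw [mul_inv_cancel₀ hx, order_one] at this
  omega

theorem leadingCoeff_inv' {x : LaurentSeries ℂ} (hx : x ≠ 0) :
    x⁻¹.leadingCoeff = (x.leadingCoeff)⁻¹ := by
  have := leadingCoeff_mul x x⁻¹
  rw [mul_inv_cancel₀ hx, leadingCoeff_one] at this
  exact eq_inv_of_mul_eq_one_right this.symm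

theorem inv (hζ : ζ ≠ 0) (h : RotRel ζ a b) : RotRel ζ a⁻¹ b⁻¹ := by
  by_cases ha : a = 0
  · have hb : b = 0 := (h.eq_zero_iff hζ).mpr ha
    simp only [ha, hb, inv_zero]; exact zero
  have hb : b ≠ 0 := fun hb => ha ((h.eq_zero_iff hζ).mp hb)
  refine ⟨?_, ?_⟩
  · rw [order_inv' hb, order_inv' ha, h.1]
  · rw [leadingCoeff_inv' hb, leadingCoeff_inv' ha, order_inv' ha, h.2, mul_inv, zpow_neg]

theorem div (hζ : ζ ≠ 0) (h : RotRel ζ a b) (h' : RotRel ζ a' b') :
    RotRel ζ (a / a') (b / b') := by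
  rw [div_eq_mul_inv, div_eq_mul_inv]
  exact h.mul hζ (h'.inv hζ)

end RotRel

variable {N : ℕ} [NeZero N]

/-- An abstract injective expansion ring hom on `Hol`. -/
structure Expansion (B : HolBase N) where
  E : B.Hol →+* LaurentSeries ℂ
  inj : Function.Injective E
  const : ∀ c : ℂ, E (B.constH c) = HahnSeries.C c

/-- Rotation data for an expansion: precomposition with `ε` rotates the local coordinate
by the primitive `m`-th root of unity `ζ` (to first order). -/
structure RotData (B : HolBase N) (X : Expansion B) (ε : SL(2, ℤ)) where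
  m : ℕ
  m_pos : 0 < m
  ζ : ℂ
  hζ : IsPrimitiveRoot ζ m
  rot : ∀ h : B.Hol, RotRel ζ (X.E h) (X.E (B.compH ε h))

namespace HolBase

variable (B : HolBase N) (X : Expansion B)

/-- the ring hom `R_N → ℂ((z))`, `r ↦ E (e r ∘ g⁻¹)` -/
def sG (g : SL(2, ℤ)) : RN N →+* LaurentSeries ℂ :=
  X.E.comp ((B.compH g⁻¹).comp B.bridge)

theorem sG_apply (g : SL(2, ℤ)) (r : RN N) :
    B.sG X g r = X.E (B.compH g⁻¹ (B.bridge r)) := rfl

theorem sG_injective (g : SL(2, ℤ)) : Function.Injective (B.sG X g) :=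
  X.inj.comp ((B.compH_injective g⁻¹).comp B.bridge_injective)

/-- the embedding `FF N → ℂ((z))` attached to `g` -/
def sigmaG (g : SL(2, ℤ)) : FF N →+* LaurentSeries ℂ :=
  liftF (B.sG X g) (B.sG_injective X g)

theorem sigmaG_inclRN (g : SL(2, ℤ)) (r : RN N) :
    B.sigmaG X g (inclRN N r) = X.E (B.compH g⁻¹ (B.bridge r)) :=
  liftF_inclRN _ _ r

theorem sigmaG_algebraMap (g : SL(2, ℤ)) (c : Kbar) :
    B.sigmaG X g (algebraMap Kbar (FF N) c) = HahnSeries.C (ιK c) := by
  rw [sigmaG, liftF_algebraMap, sG_apply, bridge_algebraMap, compH_constH, X.const]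

theorem sigmaG_jF (g : SL(2, ℤ)) :
    B.sigmaG X g (jF N) = X.E (B.JH 1 (one_dvd N)) := by
  rw [← inclRN_jR_one, sigmaG_inclRN, bridge_jR, compH_JH_one]

theorem sG_mul_of_mem (g : SL(2, ℤ)) {δ : SL(2, ℤ)} (hδ : δ ∈ CongruenceSubgroup.Gamma0 N) :
    B.sG X (g * δ) = B.sG X g := by
  ext1 r
  rw [sG_apply, sG_apply, mul_inv_rev, compH_mul,
    B.compH_bridge_of_mem (inv_mem hδ)]

theorem sigmaG_mul_of_mem (g : SL(2, ℤ)) {δ : SL(2, ℤ)}
    (hδ : δ ∈ CongruenceSubgroup.Gamma0 N) : B.sigmaG X (g * δ) = B.sigmaG X g := by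
  unfold sigmaG
  congr 1
  exact B.sG_mul_of_mem X g hδ

theorem sigmaG_eq_of_mk_eq {g g' : SL(2, ℤ)}
    (h : (g : XX N) = (g' : XX N)) : B.sigmaG X g = B.sigmaG X g' := by
  have hmem : g⁻¹ * g' ∈ CongruenceSubgroup.Gamma0 N := QuotientGroup.eq.mp h
  have := B.sigmaG_mul_of_mem X g hmem
  rw [mul_inv_cancel_left] at this
  exact this.symm

/-- the embedding attached to a coset -/
def sigmaX (x : XX N) : FF N →+* LaurentSeries ℂ := B.sigmaG X (Quotient.out x)

theorem sigmaX_mk (g : SL(2, ℤ)) : B.sigmaX X (g : XX N) = B.sigmaG X g :=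
  B.sigmaG_eq_of_mk_eq X (QuotientGroup.out_eq' _)

theorem sigmaX_injective : Function.Injective (B.sigmaX X) := by
  intro x y hxy
  obtain ⟨g, rfl⟩ := QuotientGroup.mk_surjective x
  obtain ⟨g', rfl⟩ := QuotientGroup.mk_surjective y
  rw [sigmaX_mk, sigmaX_mk] at hxy
  have h1 := congrArg (fun s => s (inclRN N (jR N N dvd_rfl))) hxy
  simp only [sigmaG_inclRN, bridge_jR] at h1
  have h2 := X.inj h1
  apply QuotientGroup.eq.mpr
  apply B.J_distinct
  intro τ
  have h3 := congrArg (fun h : B.Hol => (h : ℍ → ℂ) (g' • τ)) h2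
  simp only [compH_apply] at h3
  rw [← mul_smul, ← mul_smul, inv_mul_cancel, one_smul] at h3
  exact h3

theorem rotRel_sigmaG (ε : SL(2, ℤ)) (R : RotData B X ε) (g : SL(2, ℤ)) (f : FF N) :
    RotRel R.ζ (B.sigmaG X g f) (B.sigmaG X (ε⁻¹ * g) f) := by
  have hζ : R.ζ ≠ 0 := R.hζ.ne_zero R.m_pos.ne'
  obtain ⟨r, t, -, rfl⟩ := exists_div_inclRN N f
  rw [map_div₀, map_div₀]
  have key : ∀ r : RN N, RotRel R.ζ (B.sigmaG X g (inclRN N r))
      (B.sigmaG X (ε⁻¹ * g) (inclRN N r)) := by
    intro r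
    rw [sigmaG_inclRN, sigmaG_inclRN, mul_inv_rev, inv_inv, compH_mul]
    exact R.rot _
  exact (key r).div hζ (key t)

/-- `LocalData` from an expansion with rotation data. -/
def mkLocalData (ε : SL(2, ℤ)) (R : RotData B X ε) (t : FF N) (u : LaurentSeries ℂ)
    (ht : ∀ g : SL(2, ℤ), B.sigmaG X g t = u) (hu : u.order = (R.m : ℤ)) :
    LocalData Kbar (FF N) ℂ (XX N) t where
  m := R.m
  m_pos := R.m_pos
  ζ := R.ζ
  hζ := R.hζ
  ι := ιK
  perm := permOf N ε⁻¹
  σ := B.sigmaX X
  σ_inj := B.sigmaX_injective X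
  σ_const x c := B.sigmaG_algebraMap X _ c
  σ_t_eq x y := by
    show B.sigmaG X _ t = B.sigmaG X _ t
    rw [ht, ht]
  σ_t_order x := by
    show (B.sigmaG X _ t).order = _
    rw [ht, hu]
  σ_perm_order x f := by
    obtain ⟨g, rfl⟩ := QuotientGroup.mk_surjective x
    have h : permOf N ε⁻¹ (g : XX N) = ((ε⁻¹ * g : SL(2, ℤ)) : XX N) := rfl
    rw [h, sigmaX_mk, sigmaX_mk]
    exact (B.rotRel_sigmaG X ε R g f).1
  σ_perm_leadingCoeff x f := by
    obtain ⟨g, rfl⟩ := QuotientGroup.mk_surjective x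
    have h : permOf N ε⁻¹ (g : XX N) = ((ε⁻¹ * g : SL(2, ℤ)) : XX N) := rfl
    rw [h, sigmaX_mk, sigmaX_mk]
    exact (B.rotRel_sigmaG X ε R g f).2

@[simp] theorem mkLocalData_perm (ε : SL(2, ℤ)) (R : RotData B X ε) (t : FF N)
    (u : LaurentSeries ℂ) (ht : ∀ g : SL(2, ℤ), B.sigmaG X g t = u)
    (hu : u.order = (R.m : ℤ)) :
    (B.mkLocalData X ε R t u ht hu).perm = permOf N ε⁻¹ := rfl

end HolBase

end Fermat.Agent.S24.H997

end
end
-- ===== PACK-END S24/Mod/H997Local.lean

-- ===== PACK-BEGIN S18/H138/Connected.lean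
section



/-!
# S18, Route K, ASM (helper138): the special fibre of the `x`-line model is connected

Setting: `R` a noetherian domain with `R[X]` integrally closed (e.g. a DVR), `w ∈ R` a prime
element, `F` a field of characteristic `0` containing `R`, `x ∈ F` transcendental over `R`,
`F` finite over the subfield `baseField R x` generated by `R` and `x`, and `R` integrally closed
in `F` (i.e. `Frac R` is algebraically closed in `F` and `R` is normal).

`B_fin = chart R {x}`, `B_inf = chart R {x⁻¹}`, `B_mid = chart R {x, x⁻¹}` are the integral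
closures of `R[x]`, `R[x⁻¹]`, `R[x, x⁻¹]` in `F`.

**Theorem** (`connected_special_fibre`).  If `e₁ ∈ B_fin`, `e₂ ∈ B_inf` are idempotent modulo
`w` (in their charts) and `e₁ ≡ e₂ mod w B_mid`, then `(e₁, e₂) ≡ (0, 0)` or `(1, 1)` modulo `w`.

This is the statement "`H⁰(X_k, O) = k`" for the normal model `X = Spec B_fin ∪ Spec B_inf`,
proved by the two-chart Čech argument of `H558.cech_connected` (`H¹(X, O)` is a finitely
generated `R`-module).
-/

set_option autoImplicit false
set_option linter.style.haveILetI false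

namespace Fermat.Agent.S18.H138

open Polynomial

variable {R : Type*} [CommRing R] {F : Type*} [Field F] [Algebra R F]

/-- Elements of the base field integral over an integrally closed subalgebra with that
fraction field lie in the subalgebra. -/
theorem mem_of_isIntegral_of_mem (A : Subalgebra R F) [IsIntegrallyClosed A] (K : Subfield F)
    (hAK : ∀ a ∈ A, a ∈ K) (hfrac : ∀ z ∈ K, ∃ a ∈ A, ∃ b ∈ A, z = a / b)
    {z : F} (hzK : z ∈ K) (hz : IsIntegral A z) : z ∈ A := by
  have h := minpoly_coeff_mem A K hAK hfrac hz 0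
  have h2 : minpoly K z = X - C (⟨z, hzK⟩ : K) :=
    minpoly.eq_X_sub_C_of_algebraMap_inj (⟨z, hzK⟩ : K) (algebraMap K F).injective
  rw [h2] at h
  simp only [coeff_sub, coeff_X_zero, coeff_C_zero, zero_sub] at h
  have : -(-z) ∈ A := A.neg_mem h
  simpa using this

/-- `R / w → B_fin / w` is injective. -/
theorem dvd_of_algebraMap_eq_mul [IsIntegrallyClosed R[X]]
    (hinjR : Function.Injective (algebraMap R F)) {x : F} (hx : Transcendental R x)
    (w a : R) {t : F} (ht : t ∈ chart R ({x} : Set F))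
    (h : algebraMap R F a = algebraMap R F w * t) : w ∣ a := by
  by_cases hw : w = 0
  · subst hw
    rw [map_zero, zero_mul] at h
    have : a = 0 := hinjR (by rw [h, map_zero])
    rw [this]
  have hwF : algebraMap R F w ≠ 0 := fun h0 => hw (hinjR (by rw [h0, map_zero]))
  haveI := isIntegrallyClosed_adjoin_singleton (R := R) hx
  have htK : t ∈ baseField R x := by
    have : t = algebraMap R F a / algebraMap R F w := by
      rw [h, mul_div_cancel_left₀ _ hwF]
    rw [this]
    exact (baseField R x).div_mem (Subfield.subset_closure (Or.inl ⟨a, rfl⟩))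
      (Subfield.subset_closure (Or.inl ⟨w, rfl⟩))
  have htA : t ∈ Algebra.adjoin R ({x} : Set F) :=
    mem_of_isIntegral_of_mem _ (baseField R x) (fun a ha => adjoin_le_baseField x ha)
      (fun z hz => exists_div_of_mem_baseField x hz) htK ht
  obtain ⟨P, rfl⟩ := mem_adjoin_singleton_iff.1 htA
  have h3 : aeval x (C a - C w * P) = 0 := by
    rw [map_sub, map_mul, aeval_C, aeval_C, h, sub_self]
  have h4 := (transcendental_iff.1 hx) _ h3
  have h5 : C a = C w * P := sub_eq_zero.1 h4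
  refine ⟨P.coeff 0, ?_⟩
  have := congrArg (fun p : R[X] => p.coeff 0) h5
  simpa using this

section Finite

variable [IsNoetherianRing R] [IsIntegrallyClosed R[X]] [CharZero F]

/-- `B_fin` is generated as an `R`-module by finitely many families `x ^ j * bs i`. -/
theorem exists_finite_gens {x : F} (hx : Transcendental R x)
    [FiniteDimensional (baseField R x) F] :
    ∃ (n : ℕ) (bs : Fin n → F), (∀ i, bs i ∈ chart R ({x} : Set F)) ∧
      ∀ b ∈ chart R ({x} : Set F),
        b ∈ Submodule.span R {z : F | ∃ (j : ℕ) (i : Fin n), z = x ^ j * bs i} := by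
  classical
  set A : Subalgebra R F := Algebra.adjoin R ({x} : Set F) with hA
  set K : Subfield F := baseField R x with hK
  haveI := isIntegrallyClosed_adjoin_singleton (R := R) hx
  haveI := isNoetherianRing_adjoin_singleton (R := R) hx
  let φ : A →+* K :=
    { toFun := fun a => ⟨a, adjoin_le_baseField x a.2⟩
      map_one' := rfl
      map_mul' := fun _ _ => rfl
      map_zero' := rfl
      map_add' := fun _ _ => rfl }
  letI : Algebra A K := φ.toAlgebra
  haveI : IsScalarTower A K F := IsScalarTower.of_algebraMap_eq (fun _ => rfl)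
  have hinj : Function.Injective (algebraMap A K) := by
    intro a b hab
    have : (a : F) = b := congrArg (fun t : K => (t : F)) hab
    exact Subtype.ext this
  haveI : FaithfulSMul A K := (faithfulSMul_iff_algebraMap_injective A K).2 hinj
  haveI : IsFractionRing A K := by
    refine IsFractionRing.of_field A K (fun z => ?_)
    obtain ⟨a, ha, b, hb, h⟩ := exists_div_of_mem_baseField (R := R) x z.2
    exact ⟨⟨a, ha⟩, ⟨b, hb⟩, Subtype.ext h⟩
  haveI : CharZero K := (algebraMap K F).charZero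
  haveI : Module.Finite A (integralClosure A F) :=
    IsIntegralClosure.finite A K F (integralClosure A F)
  obtain ⟨n, s, hs⟩ := Module.Finite.exists_fin (R := A) (M := integralClosure A F)
  refine ⟨n, fun i => (s i : F), fun i => (s i).2, ?_⟩
  intro b hb
  set T : Submodule R F :=
    Submodule.span R {z : F | ∃ (j : ℕ) (i : Fin n), z = x ^ j * (s i : F)} with hT
  -- `T` is stable under multiplication by `x`, hence by `A`
  have hxT : ∀ z ∈ T, x * z ∈ T := by
    intro z hz
    induction hz using Submodule.span_induction with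
    | mem z hz =>
      obtain ⟨j, i, rfl⟩ := hz
      exact Submodule.subset_span ⟨j + 1, i, by ring⟩
    | zero => simp
    | add y z _ _ hy hz => rw [mul_add]; exact T.add_mem hy hz
    | smul r z _ hz => rw [mul_smul_comm]; exact T.smul_mem r hz
  have hAT : ∀ a ∈ A, ∀ z ∈ T, a * z ∈ T := by
    intro a ha
    induction ha using Algebra.adjoin_induction with
    | mem y hy =>
      rw [Set.mem_singleton_iff] at hy
      subst hy
      exact hxT
    | algebraMap r =>
      intro z hz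
      rw [← Algebra.smul_def]
      exact T.smul_mem r hz
    | add y z _ _ hy hz =>
      intro u hu
      rw [add_mul]
      exact T.add_mem (hy u hu) (hz u hu)
    | mul y z _ _ hy hz =>
      intro u hu
      rw [mul_assoc]
      exact hy _ (hz u hu)
  have hb' : (⟨b, hb⟩ : integralClosure A F) ∈ Submodule.span A (Set.range s) := by
    rw [hs]; trivial
  have key : ∀ c : integralClosure A F, c ∈ Submodule.span A (Set.range s) → (c : F) ∈ T := by
    intro c hc
    induction hc using Submodule.span_induction with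
    | mem c hc =>
      obtain ⟨i, rfl⟩ := hc
      exact Submodule.subset_span ⟨0, i, by simp⟩
    | zero => simp
    | add y z _ _ hy hz => exact T.add_mem hy hz
    | smul a z _ hz => exact hAT a a.2 _ hz
  exact key _ hb'

/-- **Connectedness of the special fibre of the normal `x`-line model.** -/
theorem connected_special_fibre
    (hinjR : Function.Injective (algebraMap R F))
    (hRF : ∀ y : F, IsIntegral R y → y ∈ Set.range (algebraMap R F))
    {x : F} (hx : Transcendental R x) [FiniteDimensional (baseField R x) F]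
    (w : R) (hw : Prime w)
    (e₁ e₂ : F) (he₁ : e₁ ∈ chart R ({x} : Set F)) (he₂ : e₂ ∈ chart R ({x⁻¹} : Set F))
    (hi₁ : ∃ t ∈ chart R ({x} : Set F), e₁ ^ 2 - e₁ = algebraMap R F w * t)
    (hi₂ : ∃ t ∈ chart R ({x⁻¹} : Set F), e₂ ^ 2 - e₂ = algebraMap R F w * t)
    (h₁₂ : ∃ t ∈ chart R ({x, x⁻¹} : Set F), e₁ - e₂ = algebraMap R F w * t) :
    ((∃ t ∈ chart R ({x} : Set F), e₁ = algebraMap R F w * t) ∧
      (∃ t ∈ chart R ({x⁻¹} : Set F), e₂ = algebraMap R F w * t)) ∨
    ((∃ t ∈ chart R ({x} : Set F), 1 - e₁ = algebraMap R F w * t) ∧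
      (∃ t ∈ chart R ({x⁻¹} : Set F), 1 - e₂ = algebraMap R F w * t)) := by
  have hx0 : x ≠ 0 := ne_zero_of_transcendental hx
  obtain ⟨n, bs, hbs, hgen⟩ := exists_finite_gens (R := R) hx
  exact cech_connected_sub (ι := Fin n) w x x⁻¹ (mul_inv_cancel₀ hx0)
    (chart R {x}) (chart R {x⁻¹}) (chart R {x, x⁻¹})
    (chart_mono (by simp)) (chart_mono (by simp))
    (mem_chart_of_mem rfl) (mem_chart_of_mem rfl) bs hbs hgen
    (fun b hb => exists_pow_mul_mem_chart hx0 hb)
    (fun i => exists_inv_pow_mul_mem_chart hx0 (hbs i))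
    (fun b hbf hbi => by
      obtain ⟨a, ha⟩ := hRF b (isIntegral_of_mem_chart_inter hx hbf hbi)
      exact ⟨a, ha⟩)
    (fun a ⟨t, ht, h⟩ => dvd_of_algebraMap_eq_mul hinjR hx w a ht h)
    (fun a b h => hw.dvd_or_dvd h)
    e₁ e₂ he₁ he₂ hi₁ hi₂ h₁₂

end Finite

end Fermat.Agent.S18.H138

end
-- ===== PACK-END S18/H138/Connected.lean

-- ===== PACK-BEGIN S29/H812/OrdSum.lean
section





/-!
# S29 / H812 — order of a finite sum with a unique strictly minimal term, and local
"indicator" functions at the places of a finite set (from weak approximation).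
-/

set_option autoImplicit false

noncomputable section

open AlgebraicCurve WithZero

namespace Fermat.Agent.S29.H812

open Fermat.Agent.S24

variable {K F : Type*} [Field K] [Field F] [Algebra K F] (v : Place K F)

/-- If one term of a finite sum has strictly smaller order than all other nonzero terms, then the
sum is nonzero and has the order of that term. -/
theorem ord_sum_eq_of_lt {ι : Type*} (s : Finset ι) (f : ι → F) (j : ι) (hj : j ∈ s)
    (hfj : f j ≠ 0) (h : ∀ i ∈ s, i ≠ j → f i = 0 ∨ v.ord (f j) < v.ord (f i)) :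
    (∑ i ∈ s, f i) ≠ 0 ∧ v.ord (∑ i ∈ s, f i) = v.ord (f j) := by
  classical
  have key : v.adicValuation (∑ i ∈ s, f i) = v.adicValuation (f j) := by
    apply Valuation.map_sum_eq_of_lt _ hj
    intro i hi
    rw [Finset.mem_sdiff, Finset.mem_singleton] at hi
    by_cases hi0 : f i = 0
    · rw [hi0, map_zero]
      exact zero_lt_iff.mpr (v.adicValuation_ne_zero hfj)
    · rcases h i hi.1 hi.2 with h0 | hlt
      · exact absurd h0 hi0
      · rw [H504.adicValuation_eq_exp_neg_ord v hi0, H504.adicValuation_eq_exp_neg_ord v hfj,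
          exp_lt_exp]
        omega
  have hne : (∑ i ∈ s, f i) ≠ 0 := by
    intro h0
    rw [h0, map_zero] at key
    exact v.adicValuation_ne_zero hfj key.symm
  refine ⟨hne, ?_⟩
  rw [H504.adicValuation_eq_exp_neg_ord v hne, H504.adicValuation_eq_exp_neg_ord v hfj] at key
  have := WithZero.exp_injective key
  omega

/-- `ord` of a finite sum is at least a common lower bound of the orders of the nonzero terms,
provided the sum is nonzero. -/
theorem le_ord_sum {ι : Type*} (s : Finset ι) (f : ι → F) (m : ℤ)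
    (h : ∀ i ∈ s, f i = 0 ∨ m ≤ v.ord (f i)) (hne : (∑ i ∈ s, f i) ≠ 0) :
    m ≤ v.ord (∑ i ∈ s, f i) := by
  classical
  have key : v.adicValuation (∑ i ∈ s, f i) ≤ exp (-m) := by
    apply Valuation.map_sum_le
    intro i hi
    by_cases hi0 : f i = 0
    · rw [hi0, map_zero]; exact zero_le
    · rcases h i hi with h0 | hle
      · exact absurd h0 hi0
      · rw [H504.adicValuation_eq_exp_neg_ord v hi0, exp_le_exp]
        omega
  rw [H504.adicValuation_eq_exp_neg_ord v hne, exp_le_exp] at key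
  omega

/-- Membership version: a finite sum of elements of the valuation ring is in the valuation
ring. -/
theorem ord_one_add_of_neg {f : F} (hf : v.ord f < 0) :
    1 + f ≠ 0 ∧ v.ord (1 + f) = v.ord f := by
  have hf0 : f ≠ 0 := H117.ne_zero_of_ord_ne_zero v hf.ne
  have h := H117.ord_add_eq_of_lt v (f := f) (g := 1) (by rw [v.ord_one]; exact hf) hf0
  rw [add_comm] at h
  refine ⟨?_, h⟩
  intro h0
  rw [h0, v.ord_zero] at h
  omega

theorem ord_one_add_of_pos {f : F} (hf : 0 < v.ord f) :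
    1 + f ≠ 0 ∧ v.ord (1 + f) = 0 := by
  have h := H117.ord_add_eq_of_lt v (f := 1) (g := f) (by rw [v.ord_one]; exact hf) one_ne_zero
  rw [v.ord_one] at h
  refine ⟨?_, h⟩
  intro h0
  have hf1 : f = -1 := by linear_combination h0
  rw [hf1, H117.ord_neg, v.ord_one] at hf
  exact lt_irrefl _ hf

/-- **Indicator functions.**  For a place `w` and a finite set `s` of other places there is
`ε` with `ε ≡ 1` at `w` (i.e. `ord_w (1 - ε) > 0`, `ord_w ε = 0`) and `ord_{w'} ε > 0`,
`ord_{w'} (1 - ε) = 0` for `w' ∈ s`. -/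
theorem exists_indicator (w : Place K F) (s : Finset (Place K F)) (hw : w ∉ s) :
    ∃ ε : F, ε ≠ 0 ∧ 1 - ε ≠ 0 ∧ w.ord ε = 0 ∧ 0 < w.ord (1 - ε) ∧
      ∀ w' ∈ s, 0 < w'.ord ε ∧ w'.ord (1 - ε) = 0 := by
  obtain ⟨f, hf1, hf2⟩ := H117.exists_ord_neg_forall_pos w s hw
  have hf0 : f ≠ 0 := H117.ne_zero_of_ord_ne_zero w hf1.ne
  obtain ⟨h1, h2⟩ := ord_one_add_of_neg w hf1
  have hinv : (1 + f)⁻¹ ≠ 0 := inv_ne_zero h1
  have hε : 1 - f / (1 + f) = (1 + f)⁻¹ := by field_simp; ring
  refine ⟨f / (1 + f), div_ne_zero hf0 h1, by rw [hε]; exact hinv, ?_, ?_, ?_⟩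
  · rw [H117.ord_div w hf0 h1, h2]; ring
  · rw [hε, w.ord_inv, h2]; omega
  · intro w' hw'
    obtain ⟨h3, h4⟩ := ord_one_add_of_pos w' (hf2 w' hw')
    constructor
    · rw [H117.ord_div w' hf0 h3, h4]; have := hf2 w' hw'; omega
    · rw [hε, w'.ord_inv, h4]; rfl

end Fermat.Agent.S29.H812

end
end
-- ===== PACK-END S29/H812/OrdSum.lean

-- ===== PACK-BEGIN S37/H818/PushPull.lean
section
/-
S37 / LEVEL TRANSFER (helper818), part 6: `i_* i^* = [G : F]` on divisors, from the norm formula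
alone; consequences: `SumRamificationInertia`, `FundamentalIdentityAlong`, and
`π^* x = 0 → [G:F] • x = 0` on `Pic0`.
-/




set_option autoImplicit false
set_option linter.style.haveILetI false

noncomputable section

namespace Fermat.Agent.S37.H818

open AlgebraicCurve

variable {K F G : Type*} [Field K] [Field F] [Field G] [Algebra K F] [Algebra K G]

section

variable (i : F →ₐ[K] G) (hi : i.toRingHom.IsIntegral)
variable [HasPrincipalDivisors K G]

/-- The defect of `i_* i^* = d`. -/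
def ppDefect : Divisor K F →+ Divisor K F :=
  (Divisor.pushforwardAlong i hi).comp (Divisor.pullbackAlong i hi) -
    (finrankAlong K i : ℤ) • AddMonoidHom.id (Divisor K F)

theorem ppDefect_apply (D : Divisor K F) :
    ppDefect i hi D =
      Divisor.pushforwardAlong i hi (Divisor.pullbackAlong i hi D) - (finrankAlong K i : ℤ) • D :=
  rfl

theorem ppDefect_single_apply_of_ne (v : Place K F) (n : ℤ) (u : Place K F) (hu : u ≠ v) :
    ppDefect i hi (Finsupp.single v n) u = 0 := by
  classical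
  rw [ppDefect_apply, Finsupp.sub_apply, Finsupp.smul_apply, Finsupp.single_eq_of_ne hu,
    smul_zero, sub_zero, Divisor.pullbackAlong_single, map_sum, Finset.sum_apply']
  refine Finset.sum_eq_zero fun W hW => ?_
  rw [Divisor.pushforwardAlong_single]
  refine Finsupp.single_eq_of_ne ?_
  rw [Place.mem_fiberAlong.mp hW]
  exact hu

theorem ppDefect_principal (hfin : FiniteAlong K i) (hN : NormFormulaAlong K i hfin)
    {f : F} (hf : f ≠ 0) {D : Divisor K F} (hD : ∀ v, D v = v.ord f) :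
    ppDefect i hi D = 0 := by
  rw [ppDefect_apply, sub_eq_zero]
  ext u
  have hD' : ∀ W : Place K G, Divisor.pullbackAlong i hi D W = W.ord (i f) := by
    intro W
    letI := algebraAlong i
    haveI := isScalarTower_along i
    haveI := isIntegral_along i hi
    exact Divisor.pullback_apply_eq_ord (F' := G) hD W
  have h1 : Divisor.pushforwardAlong i hi (Divisor.pullbackAlong i hi D) u =
      u.ord (f ^ finrankAlong K i) := by
    letI := algebraAlong i
    haveI := isScalarTower_along i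
    haveI := isIntegral_along i hi
    haveI : Module.Finite F G := hfin
    have hf' : i f ≠ 0 := by simpa using hf
    have := hN (i f) hf' _ hD' u
    rw [show Divisor.pushforwardAlong i hi (Divisor.pullbackAlong i hi D) =
      Divisor.pushforward F (Divisor.pullbackAlong i hi D) from rfl, this]
    have hnorm : Algebra.norm F (i f) = f ^ Module.finrank F G :=
      Algebra.norm_algebraMap (S := G) f
    rw [hnorm]
    rfl
  rw [h1, Finsupp.smul_apply, hD, smul_eq_mul]
  have := u.ord_zpow f (finrankAlong K i : ℤ)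
  rwa [zpow_natCast] at this

variable [HasPrincipalDivisors K F]

/-- `i_* i^* = [G : F]` on divisors. -/
theorem pushforward_pullback_eq (hfin : FiniteAlong K i) (hN : NormFormulaAlong K i hfin)
    (D : Divisor K F) :
    Divisor.pushforwardAlong i hi (Divisor.pullbackAlong i hi D) = (finrankAlong K i : ℤ) • D := by
  classical
  rw [← sub_eq_zero, ← ppDefect_apply]
  set δ := ppDefect i hi with hδ
  suffices h : ∀ w : Place K F, δ (Finsupp.single w 1) = 0 by
    induction D using Finsupp.induction with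
    | zero => simp
    | single_add w n D _ _ ih =>
      rw [map_add, ih, add_zero]
      have : Finsupp.single w n = n • Finsupp.single w (1 : ℤ) := by
        rw [Finsupp.smul_single, smul_eq_mul, mul_one]
      rw [this, map_zsmul, h w, smul_zero]
  intro w₀
  ext u
  rw [Finsupp.zero_apply]
  by_cases hu : u = w₀
  swap
  · exact ppDefect_single_apply_of_ne i hi w₀ 1 u hu
  subst hu
  obtain ⟨f, hf0, hfu⟩ := exists_ord_eq_one u
  obtain ⟨D, hD, -⟩ := HasPrincipalDivisors.exists_divisor (K := K) f hf0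
  have h0 : δ D = 0 := ppDefect_principal i hi hfin hN hf0 hD
  have hsum : δ D u = ∑ w ∈ D.support, δ (Finsupp.single w (D w)) u := by
    conv_lhs => rw [← Finsupp.sum_single D]
    rw [Finsupp.sum, map_sum, Finset.sum_apply']
  have hu₀ : u ∈ D.support := by
    rw [Finsupp.mem_support_iff, hD, hfu]
    exact one_ne_zero
  rw [Finset.sum_eq_single_of_mem u hu₀ (fun w _ hw =>
    ppDefect_single_apply_of_ne i hi w (D w) u (Ne.symm hw)), h0, Finsupp.zero_apply, hD,
    hfu] at hsum
  exact hsum.symm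

/-- The fundamental identity `∑ e f = n` follows from the norm formula. -/
theorem fundamentalIdentityAlong_of_normFormula (hfin : FiniteAlong K i)
    (hN : NormFormulaAlong K i hfin) : FundamentalIdentityAlong K i hi := by
  classical
  letI := algebraAlong i
  haveI := isScalarTower_along i
  haveI := isIntegral_along i hi
  refine ⟨fun v => ?_⟩
  have h := congrArg Divisor.degree (pushforward_pullback_eq i hi hfin hN (Finsupp.single v 1))
  rw [Divisor.degree_pushforwardAlong, map_zsmul, Divisor.degree_single, one_mul,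
    show Divisor.pullbackAlong i hi (Finsupp.single v 1) =
      Divisor.pullback G (Finsupp.single v 1) from rfl,
    Divisor.pullback_single, map_sum] at h
  simp only [Divisor.degree_single, one_mul, smul_eq_mul] at h
  rw [h]
  rfl

/-- `π^* x = 0` implies `[G : F] • x = 0`. -/
theorem nsmul_eq_zero_of_pullbackPic0Along_eq_zero (hfin : FiniteAlong K i)
    (hN : NormFormulaAlong K i hfin) (hFI : FundamentalIdentityAlong K i hi)
    (x : Pic0 K F) (hx : pullbackPic0Along i hi hFI x = 0) :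
    (finrankAlong K i) • x = 0 := by
  obtain ⟨D, rfl⟩ := Pic0.mk_surjective x
  rw [pullbackPic0Along_mk] at hx
  have hprin : Divisor.IsPrincipal (Divisor.pullbackAlong i hi (D : Divisor K F)) := by
    have := (QuotientAddGroup.eq_zero_iff _).mp hx
    rw [AddSubgroup.mem_addSubgroupOf] at this
    exact this
  have hpush := Divisor.isPrincipal_pushforwardAlong i hi hfin hN hprin
  rw [pushforward_pullback_eq i hi hfin hN] at hpush
  have : (finrankAlong K i) • (Pic0.mk D) = Pic0.mk ((finrankAlong K i) • D) := rfl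
  rw [this]
  refine (QuotientAddGroup.eq_zero_iff _).mpr ?_
  rw [AddSubgroup.mem_addSubgroupOf]
  have hcoe : (((finrankAlong K i) • D : Divisor.degZero (K := K) (F := F)) : Divisor K F) =
      (finrankAlong K i : ℤ) • (D : Divisor K F) := by
    rw [AddSubgroupClass.coe_nsmul, natCast_zsmul]
  rw [hcoe]
  exact hpush

end

end Fermat.Agent.S37.H818

end

end
-- ===== PACK-END S37/H818/PushPull.lean

-- ===== PACK-BEGIN S35/H858/NormBC.lean
section





/-!
# S35, cell FROB, leaf QNF (helper858) — norms commute with the constant field extension `E ⊆ ℚ̄`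

`E ⊆ ℚ̄` an intermediate field, `F₀ ⊆ ℚ((t))`, `F_E = laurentBaseChange E F₀`,
`F̄ = laurentBaseChange ℚ̄ F₀`, `iota : F_E → F̄` (helper669).

* `constFamily E F₀`          : the constants `ε_j`, `ε` an `E`-basis of `ℚ̄`, as elements of `F̄`;
* `linearIndependent_const`   : they are linearly independent over `F_E` (coefficientwise);
* `span_const_eq_top`         : they span `F̄` over `F_E` (`F̄ = F_E[ℚ̄]`, as `ℚ̄ / E` is algebraic);
* `constBasis E F₀`           : the resulting `F_E`-basis of `F̄`;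
* `iota_normAlong`            : for compatible `ψ : F_{0,E} → F_{1,E}`, `ψ' : F̄_0 → F̄_1` with
  `ψ'` finite: `iota (N_ψ y) = N_ψ' (iota y)`;
* `finiteAlong_of_bar`        : `ψ'` finite ⟹ `ψ` finite;
* `iota_normAlong_alpha`, `iota_normAlong_beta` : the modular instances
  (`heckeAlphaBar`, `heckeBetaBar`).
-/

set_option autoImplicit false
set_option linter.style.haveILetI false
set_option synthInstance.maxHeartbeats 400000
set_option maxHeartbeats 1600000

noncomputable section

namespace Fermat.Agent.S35.H858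

open ModularCurve AlgebraicCurve Module Fermat.Agent.A2.T1.H669

variable (E : IntermediateField ℚ Qb) (F₀ : IntermediateField ℚ (LaurentSeries ℚ))

/-- The index set of a basis of `ℚ̄` over `E`. -/
abbrev JE : Type := Basis.ofVectorSpaceIndex E Qb

/-- A basis of `ℚ̄` over `E`. -/
def epsE : Basis (JE E) E Qb := Basis.ofVectorSpace E Qb

/-- The constants `ε_j` as elements of `F̄`. -/
def constFamily (j : JE E) : ↥(laurentBaseChange Qb F₀) :=
  algebraMap Qb ↥(laurentBaseChange Qb F₀) (epsE E j)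

theorem coeff_smul_const (g : ↥(laurentBaseChange E F₀)) (e : Qb) (n : ℤ) :
    ((iota E F₀ g * algebraMap Qb ↥(laurentBaseChange Qb F₀) e :
        ↥(laurentBaseChange Qb F₀)) : LaurentSeries Qb).coeff n =
      ((g : LaurentSeries E).coeff n) • e := by
  have h1 : ((iota E F₀ g * algebraMap Qb ↥(laurentBaseChange Qb F₀) e :
        ↥(laurentBaseChange Qb F₀)) : LaurentSeries Qb) =
      coeffMap (algebraMap E Qb) (g : LaurentSeries E) * HahnSeries.single 0 e := by
    rw [← algebraMap_laurentSeries_eq_single]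
    rfl
  rw [h1, HahnSeries.coeff_mul_single_zero, coeffMap_coeff, Algebra.smul_def]

/-- The constants `ε_j` are linearly independent over `F_E`. -/
theorem linearIndependent_const :
    letI := algFEFbar E F₀
    LinearIndependent ↥(laurentBaseChange E F₀) (constFamily E F₀) := by
  letI := algFEFbar E F₀
  rw [linearIndependent_iff']
  intro s g hg i hi
  apply Subtype.ext
  apply HahnSeries.ext
  funext n
  have h1 : ∑ j ∈ s, ((g j : LaurentSeries E).coeff n) • (epsE E j) = 0 := by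
    let φ : ↥(laurentBaseChange Qb F₀) →+ Qb :=
      (HahnSeries.coeff.addMonoidHom n).comp
        ((laurentBaseChange Qb F₀).val : ↥(laurentBaseChange Qb F₀) →+ LaurentSeries Qb)
    have h2 : φ (∑ j ∈ s, g j • constFamily E F₀ j) = 0 := by
      rw [hg, map_zero]
    rw [map_sum] at h2
    rw [← h2]
    refine Finset.sum_congr rfl fun j _ => ?_
    rw [← coeff_smul_const E F₀ (g j) (epsE E j) n]
    rfl
  exact linearIndependent_iff'.mp (epsE E).linearIndependent s
    (fun j => (g j : LaurentSeries E).coeff n) h1 i hi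

/-- `F̄` is generated over `F_E` by the constants. -/
theorem adjoin_const_eq_top :
    letI := algFEFbar E F₀
    IntermediateField.adjoin ↥(laurentBaseChange E F₀)
      (Set.range (algebraMap Qb ↥(laurentBaseChange Qb F₀))) = ⊤ := by
  letI := algFEFbar E F₀
  rw [eq_top_iff]
  rintro ⟨z, hz⟩ -
  have key : ∃ w : ↥(laurentBaseChange Qb F₀),
      w ∈ IntermediateField.adjoin ↥(laurentBaseChange E F₀)
        (Set.range (algebraMap Qb ↥(laurentBaseChange Qb F₀))) ∧
      (w : LaurentSeries Qb) = z := by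
    have hz2 := hz
    rw [mem_laurentBaseChange_iff] at hz2
    induction hz2 using Subfield.closure_induction with
    | mem y hy =>
        rcases hy with ⟨a, rfl⟩ | ⟨z₀, hz₀, rfl⟩
        · exact ⟨algebraMap Qb ↥(laurentBaseChange Qb F₀) a,
            IntermediateField.subset_adjoin _ _ ⟨a, rfl⟩, rfl⟩
        · refine ⟨algebraMap ↥(laurentBaseChange E F₀) ↥(laurentBaseChange Qb F₀)
                ⟨coeffEmb E z₀, coeffEmb_mem_laurentBaseChange E hz₀⟩,
            IntermediateField.algebraMap_mem _ _, ?_⟩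
          exact Fermat.Agent.S18.H602.coeffMap_coeffEmb' (algebraMap E Qb) z₀
    | one => exact ⟨1, one_mem _, rfl⟩
    | add x y hx' hy' hx hy =>
        obtain ⟨w₁, hw₁, rfl⟩ := hx ((mem_laurentBaseChange_iff).2 hx')
        obtain ⟨w₂, hw₂, rfl⟩ := hy ((mem_laurentBaseChange_iff).2 hy')
        exact ⟨w₁ + w₂, add_mem hw₁ hw₂, rfl⟩
    | neg x hx' hx =>
        obtain ⟨w₁, hw₁, rfl⟩ := hx ((mem_laurentBaseChange_iff).2 hx')
        exact ⟨-w₁, neg_mem hw₁, rfl⟩
    | inv x hx' hx =>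
        obtain ⟨w₁, hw₁, rfl⟩ := hx ((mem_laurentBaseChange_iff).2 hx')
        exact ⟨w₁⁻¹, inv_mem hw₁, IntermediateField.coe_inv _ _⟩
    | mul x y hx' hy' hx hy =>
        obtain ⟨w₁, hw₁, rfl⟩ := hx ((mem_laurentBaseChange_iff).2 hx')
        obtain ⟨w₂, hw₂, rfl⟩ := hy ((mem_laurentBaseChange_iff).2 hy')
        exact ⟨w₁ * w₂, mul_mem hw₁ hw₂, rfl⟩
  obtain ⟨w, hw, hwz⟩ := key
  have hwz' : w = ⟨z, hz⟩ := Subtype.ext hwz
  rw [← hwz']
  exact hw

/-- Every constant is an `F_E`-combination of the `ε_j`. -/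
theorem const_mem_span (e : Qb) :
    letI := algFEFbar E F₀
    algebraMap Qb ↥(laurentBaseChange Qb F₀) e ∈
      Submodule.span ↥(laurentBaseChange E F₀) (Set.range (constFamily E F₀)) := by
  letI := algFEFbar E F₀
  have h1 : e = ∑ j ∈ ((epsE E).repr e).support, ((epsE E).repr e j) • epsE E j := by
    conv_lhs => rw [← (epsE E).linearCombination_repr e]
    rw [Finsupp.linearCombination_apply, Finsupp.sum]
  rw [h1, map_sum]
  refine Submodule.sum_mem _ fun j _ => ?_
  have h2 : algebraMap Qb ↥(laurentBaseChange Qb F₀) (((epsE E).repr e j) • epsE E j) =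
      (algebraMap E ↥(laurentBaseChange E F₀) ((epsE E).repr e j)) • constFamily E F₀ j := by
    rw [Algebra.smul_def, Algebra.smul_def, map_mul]
    congr 1
    exact (iota_algebraMap E F₀ _).symm
  rw [h2]
  exact Submodule.smul_mem _ _ (Submodule.subset_span ⟨j, rfl⟩)

/-- The constants `ε_j` span `F̄` over `F_E`. -/
theorem span_const_eq_top :
    letI := algFEFbar E F₀
    Submodule.span ↥(laurentBaseChange E F₀) (Set.range (constFamily E F₀)) = ⊤ := by
  letI := algFEFbar E F₀
  haveI := towerEFEFbar E F₀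
  have halg : ∀ x ∈ Set.range (algebraMap Qb ↥(laurentBaseChange Qb F₀)),
      IsAlgebraic ↥(laurentBaseChange E F₀) x := by
    rintro _ ⟨a, rfl⟩
    exact (isAlgebraic_const E F₀ a).tower_top ↥(laurentBaseChange E F₀)
  have h1 := IntermediateField.adjoin_toSubalgebra_of_isAlgebraic halg
  rw [adjoin_const_eq_top E F₀] at h1
  have h2 := Algebra.adjoin_eq_span (R := ↥(laurentBaseChange E F₀))
    (s := Set.range (algebraMap Qb ↥(laurentBaseChange Qb F₀)))
  rw [← h1] at h2
  have h3 : (Submonoid.closure (Set.range (algebraMap Qb ↥(laurentBaseChange Qb F₀))) :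
      Set ↥(laurentBaseChange Qb F₀)) = Set.range (algebraMap Qb ↥(laurentBaseChange Qb F₀)) := by
    have : Set.range (algebraMap Qb ↥(laurentBaseChange Qb F₀)) =
        ((MonoidHom.mrange ((algebraMap Qb ↥(laurentBaseChange Qb F₀) : Qb →+* _) :
          Qb →* ↥(laurentBaseChange Qb F₀)) : Submonoid _) : Set _) := by
      ext x; simp
    rw [this, Submonoid.closure_eq]
  rw [h3] at h2
  rw [eq_top_iff]
  have h4 : Submodule.span ↥(laurentBaseChange E F₀)
      (Set.range (algebraMap Qb ↥(laurentBaseChange Qb F₀))) ≤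
      Submodule.span ↥(laurentBaseChange E F₀) (Set.range (constFamily E F₀)) := by
    rw [Submodule.span_le]
    rintro _ ⟨e, rfl⟩
    exact const_mem_span E F₀ e
  refine le_trans ?_ h4
  rw [← h2]
  intro z _
  exact @Algebra.mem_top ↥(laurentBaseChange E F₀) ↥(laurentBaseChange Qb F₀) _ _ _ z

/-- The `F_E`-basis `ε_j` of `F̄`. -/
def constBasis :
    letI := algFEFbar E F₀
    Basis (JE E) ↥(laurentBaseChange E F₀) ↥(laurentBaseChange Qb F₀) :=
  letI := algFEFbar E F₀
  Basis.mk (linearIndependent_const E F₀) (span_const_eq_top E F₀).ge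

theorem constBasis_apply (j : JE E) :
    letI := algFEFbar E F₀
    constBasis E F₀ j = algebraMap Qb ↥(laurentBaseChange Qb F₀) (epsE E j) := by
  letI := algFEFbar E F₀
  exact Basis.mk_apply (linearIndependent_const E F₀) (span_const_eq_top E F₀).ge j

/-! ## Norms -/

section Norm

variable (F₁ : IntermediateField ℚ (LaurentSeries ℚ))
variable (ψ : ↥(laurentBaseChange E F₀) →ₐ[E] ↥(laurentBaseChange E F₁))
  (ψ' : ↥(laurentBaseChange Qb F₀) →ₐ[Qb] ↥(laurentBaseChange Qb F₁))

/-- If `ψ'` (over `ℚ̄`) is finite, so is `ψ` (over `E`). -/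
theorem finiteAlong_of_bar (hc : ∀ a, iota E F₁ (ψ a) = ψ' (iota E F₀ a))
    (hfin : FiniteAlong Qb ψ') : FiniteAlong E ψ := by
  letI a1 : Algebra ↥(laurentBaseChange E F₀) ↥(laurentBaseChange E F₁) := algebraAlong ψ
  letI a2 : Algebra ↥(laurentBaseChange E F₀) ↥(laurentBaseChange Qb F₀) := algFEFbar E F₀
  letI a3 : Algebra ↥(laurentBaseChange Qb F₀) ↥(laurentBaseChange Qb F₁) := algebraAlong ψ'
  letI a4 : Algebra ↥(laurentBaseChange E F₁) ↥(laurentBaseChange Qb F₁) := algFEFbar E F₁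
  letI a5 : Algebra ↥(laurentBaseChange E F₀) ↥(laurentBaseChange Qb F₁) :=
    ((iota E F₁).comp ψ.toRingHom).toAlgebra
  haveI t1 : IsScalarTower ↥(laurentBaseChange E F₀) ↥(laurentBaseChange E F₁)
      ↥(laurentBaseChange Qb F₁) := IsScalarTower.of_algebraMap_eq fun a => rfl
  haveI t2 : IsScalarTower ↥(laurentBaseChange E F₀) ↥(laurentBaseChange Qb F₀)
      ↥(laurentBaseChange Qb F₁) := IsScalarTower.of_algebraMap_eq fun a => hc a
  haveI : Module.Finite ↥(laurentBaseChange Qb F₀) ↥(laurentBaseChange Qb F₁) := hfin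
  have hε : ∀ j, constBasis E F₁ j =
      algebraMap ↥(laurentBaseChange Qb F₀) ↥(laurentBaseChange Qb F₁) (constBasis E F₀ j) := by
    intro j
    rw [constBasis_apply, constBasis_apply]
    exact (ψ'.commutes _).symm
  exact finite_of_common_basis (constBasis E F₀) (constBasis E F₁) hε

/-- **Norms commute with the constant field extension.** -/
theorem iota_normAlong (hc : ∀ a, iota E F₁ (ψ a) = ψ' (iota E F₀ a))
    (hfin : FiniteAlong Qb ψ') (y : ↥(laurentBaseChange E F₁)) :
    iota E F₀ (Fermat.Agent.S29.H395.normAlong ψ y) =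
      Fermat.Agent.S29.H395.normAlong ψ' (iota E F₁ y) := by
  letI a1 : Algebra ↥(laurentBaseChange E F₀) ↥(laurentBaseChange E F₁) := algebraAlong ψ
  letI a2 : Algebra ↥(laurentBaseChange E F₀) ↥(laurentBaseChange Qb F₀) := algFEFbar E F₀
  letI a3 : Algebra ↥(laurentBaseChange Qb F₀) ↥(laurentBaseChange Qb F₁) := algebraAlong ψ'
  letI a4 : Algebra ↥(laurentBaseChange E F₁) ↥(laurentBaseChange Qb F₁) := algFEFbar E F₁
  letI a5 : Algebra ↥(laurentBaseChange E F₀) ↥(laurentBaseChange Qb F₁) :=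
    ((iota E F₁).comp ψ.toRingHom).toAlgebra
  haveI t1 : IsScalarTower ↥(laurentBaseChange E F₀) ↥(laurentBaseChange E F₁)
      ↥(laurentBaseChange Qb F₁) := IsScalarTower.of_algebraMap_eq fun a => rfl
  haveI t2 : IsScalarTower ↥(laurentBaseChange E F₀) ↥(laurentBaseChange Qb F₀)
      ↥(laurentBaseChange Qb F₁) := IsScalarTower.of_algebraMap_eq fun a => hc a
  haveI : Module.Finite ↥(laurentBaseChange Qb F₀) ↥(laurentBaseChange Qb F₁) := hfin
  have hε : ∀ j, constBasis E F₁ j =
      algebraMap ↥(laurentBaseChange Qb F₀) ↥(laurentBaseChange Qb F₁) (constBasis E F₀ j) := by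
    intro j
    rw [constBasis_apply, constBasis_apply]
    exact (ψ'.commutes _).symm
  haveI : Module.Finite ↥(laurentBaseChange E F₀) ↥(laurentBaseChange E F₁) :=
    finite_of_common_basis (constBasis E F₀) (constBasis E F₁) hε
  exact norm_algebraMap_of_common_basis (constBasis E F₀) (constBasis E F₁) hε y

end Norm

/-! ## The modular instances -/

section Modular

variable (M q : ℕ) [NeZero M] [NeZero q]

theorem iota_heckeAlphaBar (a : ↥(laurentBaseChange E (modularFunctionFieldFull M))) :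
    iota E (modularFunctionFieldFull (M * q)) (heckeAlphaBar E M q a) =
      heckeAlphaBar Qb M q (iota E (modularFunctionFieldFull M) a) :=
  Subtype.ext (by rw [coe_iota, coe_heckeAlphaBar, coe_heckeAlphaBar, coe_iota])

theorem iota_heckeBetaBar (a : ↥(laurentBaseChange E (modularFunctionFieldFull M))) :
    iota E (modularFunctionFieldFull (M * q)) (heckeBetaBar E M q a) =
      heckeBetaBar Qb M q (iota E (modularFunctionFieldFull M) a) :=
  Subtype.ext (by
    rw [coe_iota, coe_heckeBetaBar, coe_heckeBetaBar, coe_iota, coeffMap_qExpand])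

/-- The norm along `α` commutes with `E ⊆ ℚ̄`. -/
theorem iota_normAlong_alpha (hfin : FiniteAlong Qb (heckeAlphaBar Qb M q))
    (y : ↥(laurentBaseChange E (modularFunctionFieldFull (M * q)))) :
    iota E (modularFunctionFieldFull M)
        (Fermat.Agent.S29.H395.normAlong (heckeAlphaBar E M q) y) =
      Fermat.Agent.S29.H395.normAlong (heckeAlphaBar Qb M q)
        (iota E (modularFunctionFieldFull (M * q)) y) :=
  iota_normAlong E _ _ _ _ (iota_heckeAlphaBar E M q) hfin y

/-- The norm along `β` commutes with `E ⊆ ℚ̄`. -/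
theorem iota_normAlong_beta (hfin : FiniteAlong Qb (heckeBetaBar Qb M q))
    (y : ↥(laurentBaseChange E (modularFunctionFieldFull (M * q)))) :
    iota E (modularFunctionFieldFull M)
        (Fermat.Agent.S29.H395.normAlong (heckeBetaBar E M q) y) =
      Fermat.Agent.S29.H395.normAlong (heckeBetaBar Qb M q)
        (iota E (modularFunctionFieldFull (M * q)) y) :=
  iota_normAlong E _ _ _ _ (iota_heckeBetaBar E M q) hfin y

end Modular

end Fermat.Agent.S35.H858

end
end
-- ===== PACK-END S35/H858/NormBC.lean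

-- ===== PACK-BEGIN A2/H489/TwoExtC.lean
section


/-!
# A2 / M1-abs, part C (helper489): residues and the counting argument
-/

set_option autoImplicit false

namespace Fermat.Agent.A2.H489

open IsDedekindDomain IsLocalRing

section Residue

variable (K : Type*) {A L : Type*} [CommRing A] [IsDomain A] [IsDiscreteValuationRing A]
  [Field K] [Algebra A K] [IsFractionRing A K]
  [Field L] [Algebra K L] [Algebra A L] [IsScalarTower A K L]
  [FiniteDimensional K L] [Algebra.IsSeparable K L]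

theorem mul_mem_nonunits {V : ValuationSubring L} {x y : L} (hx : x ∈ V) (hy : y ∈ V.nonunits) :
    x * y ∈ V.nonunits := by
  rw [ValuationSubring.mem_nonunits_iff] at hy ⊢
  rw [map_mul]
  exact Right.mul_lt_one_of_le_of_lt ((ValuationSubring.valuation_le_one_iff V x).mpr hx) hy

include K in
/-- every element of `V` is congruent modulo the maximal ideal to an element of the integral
closure of `A`. -/
theorem IsOver.exists_sub_mem_nonunits {V : ValuationSubring L} (hV : IsOver A V)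
    {x : L} (hx : x ∈ V) :
    ∃ s : integralClosure A L, x - algebraMap (integralClosure A L) L s ∈ V.nonunits := by
  have : IsDedekindDomain (integralClosure A L) := integralClosure.isDedekindDomain A K L
  have : IsFractionRing (integralClosure A L) L :=
    integralClosure.isFractionRing_of_finite_extension K L
  have hne : V ≠ ⊤ := hV.ne_top K
  set v := centerSpec V hV.mem_integralClosure hne with hvdef
  have hVv : V = (v.valuation L).valuationSubring :=
    eq_valuationSubring_centerSpec V hV.mem_integralClosure hne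
  have hx' : v.valuation L x ≤ 1 := by
    rw [hVv] at hx
    exact hx
  obtain ⟨n, d, hnd⟩ := v.exists_primeCompl_mul_eq_of_integer x hx'
  have hd : (d : integralClosure A L) ∉ v.asIdeal := d.2
  obtain ⟨d', i, hi, hdi⟩ := v.isMaximal.exists_inv hd
  refine ⟨n * d', ?_⟩
  have hi' : algebraMap (integralClosure A L) L i ∈ V.nonunits :=
    (mem_center_iff V hV.mem_integralClosure i).mp hi
  have key : x - algebraMap (integralClosure A L) L (n * d')
      = x * algebraMap (integralClosure A L) L i := by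
    have h1 : algebraMap (integralClosure A L) L (d' * (d : integralClosure A L) + i) = 1 := by
      rw [hdi, map_one]
    rw [map_add, map_mul] at h1
    rw [map_mul]
    linear_combination (algebraMap (integralClosure A L) L d') * hnd - x * h1
  rw [key]
  exact mul_mem_nonunits hx hi'

/-- Lifts `s i` of elements `u i ∈ V` with independent residues have independent residues in the
quotient of the integral closure by the centre. -/
theorem IsOver.linearIndependent_mk {V : ValuationSubring L} (hV : IsOver A V)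
    [hlo : (center V hV.mem_integralClosure).LiesOver (maximalIdeal A)] {f : ℕ}
    (u : Fin f → L) (s : Fin f → integralClosure A L)
    (hs : ∀ i, u i - algebraMap (integralClosure A L) L (s i) ∈ V.nonunits)
    (hind : ∀ a : Fin f → A, (∑ i, algebraMap A L (a i) * u i) ∈ V.nonunits →
      ∀ i, a i ∈ maximalIdeal A) :
    LinearIndependent (A ⧸ maximalIdeal A)
      (fun i => Ideal.Quotient.mk (center V hV.mem_integralClosure) (s i)) := by
  rw [Fintype.linearIndependent_iff]
  intro c hc i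
  choose a ha using fun i => Ideal.Quotient.mk_surjective (c i)
  have h1 : ∀ i, c i • Ideal.Quotient.mk (center V hV.mem_integralClosure) (s i)
      = Ideal.Quotient.mk (center V hV.mem_integralClosure)
          (algebraMap A (integralClosure A L) (a i) * s i) := by
    intro i
    rw [Algebra.smul_def, ← ha i, Ideal.Quotient.algebraMap_mk_of_liesOver, map_mul]
  simp only [h1] at hc
  rw [← map_sum, Ideal.Quotient.eq_zero_iff_mem, mem_center_iff] at hc
  have h2 : (∑ i, algebraMap A L (a i) * u i)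
      = algebraMap (integralClosure A L) L
          (∑ i, algebraMap A (integralClosure A L) (a i) * s i)
        + ∑ i, algebraMap A L (a i) * (u i - algebraMap (integralClosure A L) L (s i)) := by
    rw [map_sum, ← Finset.sum_add_distrib]
    refine Finset.sum_congr rfl fun i _ => ?_
    rw [map_mul, ← IsScalarTower.algebraMap_apply]
    ring
  have h3 : (∑ i, algebraMap A L (a i) * u i) ∈ V.nonunits := by
    rw [h2]
    refine add_mem hc (sum_mem fun i _ => ?_)
    exact mul_mem_nonunits (hV.mem _) (hs i)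
  have h4 := hind a h3 i
  rw [← ha i]
  exact Ideal.Quotient.eq_zero_iff_mem.mpr h4

include K in
/-- A family of `f` elements of `V` whose residues are independent over the residue field of
`A` bounds the inertia degree of the centre from below. -/
theorem IsOver.le_inertiaDeg {V : ValuationSubring L} (hV : IsOver A V) {f : ℕ}
    (u : Fin f → L) (hu : ∀ i, u i ∈ V)
    (hind : ∀ a : Fin f → A, (∑ i, algebraMap A L (a i) * u i) ∈ V.nonunits →
      ∀ i, a i ∈ maximalIdeal A) :
    f ≤ Ideal.inertiaDeg' (maximalIdeal A) (center V hV.mem_integralClosure) := by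
  have hlo := hV.center_liesOver
  have hfin : Module.Finite A (integralClosure A L) := IsIntegralClosure.finite A K L _
  rw [Ideal.inertiaDeg'_algebraMap]
  choose s hs using fun i => hV.exists_sub_mem_nonunits K (hu i)
  have hli := hV.linearIndependent_mk u s hs hind
  have h5 := hli.fintype_card_le_finrank
  simpa using h5

end Residue

section Count

variable (K : Type*) {A L : Type*} [CommRing A] [IsDomain A] [IsDiscreteValuationRing A]
  [Field K] [Algebra A K] [IsFractionRing A K]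
  [Field L] [Algebra K L] [Algebra A L] [IsScalarTower A K L]
  [FiniteDimensional K L] [Algebra.IsSeparable K L]

include K in
/-- **Counting core.**  Two distinct valuation subrings over `A` whose inertia degrees add up to
at least `[L : K]` are the only ones, are unramified, and the bounds are equalities. -/
theorem twoExt_core {V₁ V₂ : ValuationSubring L} (h₁ : IsOver A V₁) (h₂ : IsOver A V₂)
    (hne : V₁ ≠ V₂) {f₁ f₂ : ℕ} (hf : Module.finrank K L ≤ f₁ + f₂)
    (hf₁ : f₁ ≤ Ideal.inertiaDeg' (maximalIdeal A) (center V₁ h₁.mem_integralClosure))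
    (hf₂ : f₂ ≤ Ideal.inertiaDeg' (maximalIdeal A) (center V₂ h₂.mem_integralClosure)) :
    (∀ P : Ideal (integralClosure A L), P.IsPrime → P.LiesOver (maximalIdeal A) →
        P = center V₁ h₁.mem_integralClosure ∨ P = center V₂ h₂.mem_integralClosure) ∧
      Ideal.ramificationIdx' (maximalIdeal A) (center V₁ h₁.mem_integralClosure) = 1 ∧
      Ideal.ramificationIdx' (maximalIdeal A) (center V₂ h₂.mem_integralClosure) = 1 ∧
      Ideal.inertiaDeg' (maximalIdeal A) (center V₁ h₁.mem_integralClosure) = f₁ ∧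
      Ideal.inertiaDeg' (maximalIdeal A) (center V₂ h₂.mem_integralClosure) = f₂ := by
  have hD : IsDedekindDomain (integralClosure A L) := integralClosure.isDedekindDomain A K L
  have hFr : IsFractionRing (integralClosure A L) L :=
    integralClosure.isFractionRing_of_finite_extension K L
  have hfin : Module.Finite A (integralClosure A L) := IsIntegralClosure.finite A K L _
  have hTF : Module.IsTorsionFree A (integralClosure A L) := by
    rw [Module.isTorsionFree_iff_algebraMap_injective]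
    intro a b hab
    apply algebraMap_injective_AL A K L
    have := congrArg (algebraMap (integralClosure A L) L) hab
    rwa [← IsScalarTower.algebraMap_apply, ← IsScalarTower.algebraMap_apply] at this
  have hlo₁ := h₁.center_liesOver
  have hlo₂ := h₂.center_liesOver
  have hp0 : maximalIdeal A ≠ ⊥ := IsDiscreteValuationRing.not_a_field A
  set P₁ := center V₁ h₁.mem_integralClosure with hP₁
  set P₂ := center V₂ h₂.mem_integralClosure with hP₂
  have hP₁₂ : P₁ ≠ P₂ := fun h =>
    hne (eq_of_center_eq V₁ V₂ h₁.mem_integralClosure h₂.mem_integralClosure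
      (h₁.ne_top K) (h₂.ne_top K) h)
  have hmem₁ : P₁ ∈ IsDedekindDomain.primesOverFinset (maximalIdeal A) (integralClosure A L) :=
    (IsDedekindDomain.mem_primesOverFinset_iff hp0 _).mpr ⟨inferInstance, hlo₁⟩
  have hmem₂ : P₂ ∈ IsDedekindDomain.primesOverFinset (maximalIdeal A) (integralClosure A L) :=
    (IsDedekindDomain.mem_primesOverFinset_iff hp0 _).mpr ⟨inferInstance, hlo₂⟩
  have hsum := by
    set_option linter.deprecated false in
    exact Ideal.sum_ramification_inertia (integralClosure A L) K L hp0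
  have hpos : ∀ P ∈ IsDedekindDomain.primesOverFinset (maximalIdeal A) (integralClosure A L),
      1 ≤ Ideal.ramificationIdx' (maximalIdeal A) P ∧
      1 ≤ Ideal.inertiaDeg' (maximalIdeal A) P := by
    intro P hP
    obtain ⟨hPp, hPl⟩ := (IsDedekindDomain.mem_primesOverFinset_iff hp0 _).mp hP
    exact ⟨Nat.one_le_iff_ne_zero.mpr
        (Ideal.IsDedekindDomain.ramificationIdx'_ne_zero_of_liesOver P hp0),
      Nat.one_le_iff_ne_zero.mpr (Ideal.inertiaDeg'_ne_zero (maximalIdeal A) P)⟩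
  rw [← Finset.add_sum_erase _ _ hmem₁] at hsum
  have hmem₂' : P₂ ∈ (IsDedekindDomain.primesOverFinset (maximalIdeal A) (integralClosure A L)).erase P₁ :=
    Finset.mem_erase.mpr ⟨hP₁₂.symm, hmem₂⟩
  rw [← Finset.add_sum_erase _ _ hmem₂'] at hsum
  set T := ((IsDedekindDomain.primesOverFinset (maximalIdeal A) (integralClosure A L)).erase P₁).erase P₂ with hT
  have hrest : T.card ≤ ∑ P ∈ T, Ideal.ramificationIdx' (maximalIdeal A) P *
      Ideal.inertiaDeg' (maximalIdeal A) P := by
    rw [Finset.card_eq_sum_ones]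
    refine Finset.sum_le_sum fun P hP => ?_
    have hP' : P ∈ IsDedekindDomain.primesOverFinset (maximalIdeal A) (integralClosure A L) :=
      Finset.mem_of_mem_erase (Finset.mem_of_mem_erase hP)
    exact Right.one_le_mul (hpos P hP').1 (hpos P hP').2
  obtain ⟨he₁, hi₁⟩ := hpos P₁ hmem₁
  obtain ⟨he₂, hi₂⟩ := hpos P₂ hmem₂
  have hm₁ : Ideal.inertiaDeg' (maximalIdeal A) P₁ ≤
      Ideal.ramificationIdx' (maximalIdeal A) P₁ * Ideal.inertiaDeg' (maximalIdeal A) P₁ :=
    Nat.le_mul_of_pos_left _ he₁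
  have hm₂ : Ideal.inertiaDeg' (maximalIdeal A) P₂ ≤
      Ideal.ramificationIdx' (maximalIdeal A) P₂ * Ideal.inertiaDeg' (maximalIdeal A) P₂ :=
    Nat.le_mul_of_pos_left _ he₂
  have hT0 : T.card = 0 := by omega
  have hi₁' : Ideal.inertiaDeg' (maximalIdeal A) P₁ = f₁ := by omega
  have hi₂' : Ideal.inertiaDeg' (maximalIdeal A) P₂ = f₂ := by omega
  have hem₁ : Ideal.ramificationIdx' (maximalIdeal A) P₁ *
      Ideal.inertiaDeg' (maximalIdeal A) P₁ = Ideal.inertiaDeg' (maximalIdeal A) P₁ := by omega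
  have hem₂ : Ideal.ramificationIdx' (maximalIdeal A) P₂ *
      Ideal.inertiaDeg' (maximalIdeal A) P₂ = Ideal.inertiaDeg' (maximalIdeal A) P₂ := by omega
  refine ⟨?_, ?_, ?_, hi₁', hi₂'⟩
  · intro P hPp hPl
    have hP : P ∈ IsDedekindDomain.primesOverFinset (maximalIdeal A) (integralClosure A L) :=
      (IsDedekindDomain.mem_primesOverFinset_iff hp0 _).mpr ⟨hPp, hPl⟩
    by_contra hcon
    rw [not_or] at hcon
    have : P ∈ T := Finset.mem_erase.mpr ⟨hcon.2, Finset.mem_erase.mpr ⟨hcon.1, hP⟩⟩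
    rw [Finset.card_eq_zero] at hT0
    rw [hT0] at this
    exact absurd this (Finset.notMem_empty _)
  · exact Nat.eq_of_mul_eq_mul_right (by omega : 0 < Ideal.inertiaDeg' (maximalIdeal A) P₁)
      (by rw [hem₁, one_mul])
  · exact Nat.eq_of_mul_eq_mul_right (by omega : 0 < Ideal.inertiaDeg' (maximalIdeal A) P₂)
      (by rw [hem₂, one_mul])

end Count

end Fermat.Agent.A2.H489

end
-- ===== PACK-END A2/H489/TwoExtC.lean

-- ===== PACK-BEGIN S36/H972/EisSplit.lean
section




/-!
# S36 / MOD3 (helper972): the two extensions of a discrete valuation in an "Eisenstein-split"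
simple extension

Mathlib-only (+ `H48.IsUnif`).  `O ⊆ K` a discrete valuation ring with uniformiser `ϖ`
(elementwise: `IsUnif O ϖ` + `arch`), `L = K(y)` finite over `K`, `Ψ ∈ O[X]` the minimal
polynomial of `y`, and

  `Ψ = (X - a) (X - c) ^ n + ϖ G`,  `a - c ∈ Oˣ`,  `G(c) ∈ Oˣ`,  `n ≥ 1`.

Then `L` has EXACTLY two valuation subrings over `O`:

* `V_a` : `y ≡ a`, unramified (`ϖ` is a uniformiser), residue degree `1`;
* `V_c` : `π := y - c` is a uniformiser, `π ^ n = ϖ · unit`, residue degree `1`.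

Application (S36, level `q² M'` over level `q M'`): `y = j_{q²}`, `c = j`, `a = j^{q²}`,
`Ψ = Φ_q(j_q, Y) / (Y - j)`, `n = q - 1`: `V_a = V_FF` (Gauss valuation), `V_c = V_mid`.
-/

set_option autoImplicit false
set_option linter.style.haveILetI false
set_option linter.unusedSectionVars false

noncomputable section

namespace Fermat.Agent.S36.H972

open Fermat.Agent.A2.H48 Polynomial

section DVR

variable {K : Type*} [Field K] {O : ValuationSubring K} {ϖ : K}

theorem mem_or_mul_inv_mem (hO : IsUnif O ϖ) {x : K} (hx : x ∈ O) :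
    x⁻¹ ∈ O ∨ x * ϖ⁻¹ ∈ O := by
  by_cases h : x⁻¹ ∈ O
  · exact Or.inl h
  · exact Or.inr (hO.gen x hx h)

/-- Every nonzero element is `ϖ ^ n · unit`. -/
theorem exists_pow_mul_unit (hO : IsUnif O ϖ) (harch : ∀ a : K, ∃ k : ℕ, ϖ ^ k * a ∈ O)
    {x : K} (hx : x ∈ O) (hx0 : x ≠ 0) :
    ∃ (n : ℕ) (u : K), u ∈ O ∧ u⁻¹ ∈ O ∧ x = ϖ ^ n * u := by
  classical
  have hϖ0 : ϖ ≠ 0 := hO.ne_zero
  have hex : ∃ k : ℕ, ϖ ^ k * x⁻¹ ∈ O := harch x⁻¹
  set n := Nat.find hex with hn
  have hn1 : ϖ ^ n * x⁻¹ ∈ O := Nat.find_spec hex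
  refine ⟨n, x * (ϖ ^ n)⁻¹, ?_, ?_, ?_⟩
  · rcases Nat.eq_zero_or_pos n with h0 | hpos
    · rw [h0, pow_zero, inv_one, mul_one]; exact hx
    · have hmin : ¬ ϖ ^ (n - 1) * x⁻¹ ∈ O := Nat.find_min hex (by omega)
      have h1 : (ϖ ^ (n - 1) * x⁻¹)⁻¹ ∈ O := (O.mem_or_inv_mem _).resolve_left hmin
      have h2 := hO.gen _ h1 (by rwa [inv_inv])
      have h3 : (ϖ ^ (n - 1) * x⁻¹)⁻¹ * ϖ⁻¹ = x * (ϖ ^ n)⁻¹ := by
        have : ϖ ^ n = ϖ ^ (n - 1) * ϖ := by
          rw [← pow_succ]; congr 1; omega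
        rw [this]
        field_simp
      rwa [h3] at h2
  · have : (x * (ϖ ^ n)⁻¹)⁻¹ = ϖ ^ n * x⁻¹ := by field_simp
    rw [this]; exact hn1
  · field_simp

theorem isUnit_of_inv_mem {u : O} (hu0 : (u : K) ≠ 0) (hu : (u : K)⁻¹ ∈ O) : IsUnit u := by
  refine IsUnit.of_mul_eq_one ⟨(u : K)⁻¹, hu⟩ ?_
  apply Subtype.ext
  push_cast
  exact mul_inv_cancel₀ hu0

theorem inv_mem_of_isUnit {u : O} (hu : IsUnit u) : (u : K)⁻¹ ∈ O := by
  obtain ⟨v, hv⟩ := hu.exists_right_inv
  have h1 : (u : K) * (v : K) = 1 := by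
    have := congrArg (fun x : O => (x : K)) hv
    simpa using this
  rw [inv_eq_of_mul_eq_one_right h1]
  exact v.2

theorem isDiscreteValuationRing_of_isUnif (hO : IsUnif O ϖ)
    (harch : ∀ a : K, ∃ k : ℕ, ϖ ^ k * a ∈ O) : IsDiscreteValuationRing O := by
  apply IsDiscreteValuationRing.ofHasUnitMulPowIrreducibleFactorization
  have hϖ0 : ϖ ≠ 0 := hO.ne_zero
  refine ⟨⟨ϖ, hO.mem⟩, ?_, ?_⟩
  · rw [irreducible_iff]
    refine ⟨fun hu => hO.inv_not_mem (inv_mem_of_isUnit hu), ?_⟩
    intro a b hab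
    have hab' : ϖ = (a : K) * (b : K) := by
      have := congrArg (fun x : O => (x : K)) hab
      simpa using this
    have ha0 : (a : K) ≠ 0 := by
      intro h0; rw [h0, zero_mul] at hab'; exact hϖ0 hab'
    have hb0 : (b : K) ≠ 0 := by
      intro h0; rw [h0, mul_zero] at hab'; exact hϖ0 hab'
    by_contra hcon
    rw [not_or] at hcon
    have ha : (a : K)⁻¹ ∉ O := fun h => hcon.1 (isUnit_of_inv_mem ha0 h)
    have hb : (b : K)⁻¹ ∉ O := fun h => hcon.2 (isUnit_of_inv_mem hb0 h)
    have h1 := hO.gen _ a.2 ha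
    have h2 := hO.gen _ b.2 hb
    apply hO.inv_not_mem
    have h3 : ϖ⁻¹ = ((a : K) * ϖ⁻¹) * ((b : K) * ϖ⁻¹) := by
      have : ((a : K) * ϖ⁻¹) * ((b : K) * ϖ⁻¹) = ((a : K) * (b : K)) * (ϖ⁻¹ * ϖ⁻¹) := by ring
      rw [this, ← hab']
      field_simp
    rw [h3]
    exact mul_mem h1 h2
  · intro x hx
    have hx0 : (x : K) ≠ 0 := fun h0 => hx (Subtype.ext h0)
    obtain ⟨n, u, hu, hu', hxu⟩ := exists_pow_mul_unit hO harch x.2 hx0
    have hu0 : u ≠ 0 := by
      rintro rfl
      rw [mul_zero] at hxu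
      exact hx0 hxu
    refine ⟨n, ?_⟩
    have hunit : IsUnit (⟨u, hu⟩ : O) := isUnit_of_inv_mem hu0 hu'
    refine ⟨hunit.unit, ?_⟩
    apply Subtype.ext
    rw [IsUnit.unit_spec]
    push_cast
    exact hxu.symm

end DVR

section Core

variable {K L : Type*} [Field K] [Field L] [Algebra K L]
variable (O : ValuationSubring K) (y : L)

/-- `O → L`. -/
def phi : O →+* L := (algebraMap K L).comp O.subtype

theorem phi_apply (a : O) : phi (L := L) O a = algebraMap K L (a : K) := rfl

theorem phi_injective : Function.Injective (phi (L := L) O) :=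
  (algebraMap K L).injective.comp Subtype.val_injective

/-- `S₀ = O[y] ⊆ L`. -/
def adjoinRing : Subring L := (Polynomial.eval₂RingHom (phi O) y).range

/-- `O[X] → O[y]`, `P ↦ P(y)`. -/
def evS : O[X] →+* adjoinRing O y := (Polynomial.eval₂RingHom (phi O) y).rangeRestrict

theorem coe_evS (P : O[X]) : ((evS O y P : adjoinRing O y) : L) = P.eval₂ (phi O) y := rfl

theorem evS_surjective : Function.Surjective (evS O y) :=
  RingHom.rangeRestrict_surjective _

theorem eval₂_phi_eq_aeval (P : O[X]) :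
    P.eval₂ (phi O) y = Polynomial.aeval y (P.map O.subtype) := by
  rw [Polynomial.aeval_def, Polynomial.eval₂_map]
  rfl

variable {O y}

/-- **Presentation** `O[y] = O[X] / (Ψ)`. -/
theorem dvd_of_eval₂_eq_zero {Ψ : O[X]} (hΨ : Ψ.Monic)
    (hmin : minpoly K y = Ψ.map O.subtype) {P : O[X]} (hP : P.eval₂ (phi O) y = 0) :
    Ψ ∣ P := by
  have hΨy : Ψ.eval₂ (phi O) y = 0 := by
    rw [eval₂_phi_eq_aeval, ← hmin, minpoly.aeval]
  rw [← Polynomial.modByMonic_eq_zero_iff_dvd hΨ]
  by_contra hR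
  have hRy : (P %ₘ Ψ).eval₂ (phi O) y = 0 := by
    have h1 := Polynomial.modByMonic_add_div P Ψ
    have h2 : P.eval₂ (phi O) y =
        (P %ₘ Ψ).eval₂ (phi O) y + Ψ.eval₂ (phi O) y * (P /ₘ Ψ).eval₂ (phi O) y := by
      conv_lhs => rw [← h1]
      rw [Polynomial.eval₂_add, Polynomial.eval₂_mul]
    rw [hP, hΨy, zero_mul, add_zero] at h2
    exact h2.symm
  have hinj : Function.Injective (O.subtype : O →+* K) := Subtype.val_injective
  have hR' : (P %ₘ Ψ).map O.subtype ≠ 0 := by
    intro h0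
    apply hR
    exact Polynomial.map_injective _ hinj (by rw [h0, Polynomial.map_zero])
  have hle := minpoly.degree_le_of_ne_zero K y hR' (by rw [← eval₂_phi_eq_aeval]; exact hRy)
  rw [hmin, Polynomial.degree_map_eq_of_injective hinj,
    Polynomial.degree_map_eq_of_injective hinj] at hle
  exact absurd (Polynomial.degree_modByMonic_lt P hΨ) (not_lt.2 hle)

variable (O y) in
/-- The ideal of `O[y]` of the `P(y)` with `P(r) ∈ ϖ O`. -/
def maxAt (ϖ : K) (r : O) : Ideal (adjoinRing O y) where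
  carrier := {s | ∃ P : O[X], evS O y P = s ∧ ((P.eval r : O) : K) * ϖ⁻¹ ∈ O}
  zero_mem' := ⟨0, by simp, by simp⟩
  add_mem' := by
    rintro s₁ s₂ ⟨P₁, h₁, h₁'⟩ ⟨P₂, h₂, h₂'⟩
    refine ⟨P₁ + P₂, by rw [map_add, h₁, h₂], ?_⟩
    rw [Polynomial.eval_add]
    push_cast
    rw [add_mul]
    exact add_mem h₁' h₂'
  smul_mem' := by
    rintro c s ⟨P, h, h'⟩
    obtain ⟨Q, rfl⟩ := evS_surjective O y c
    refine ⟨Q * P, by rw [map_mul, h, smul_eq_mul], ?_⟩
    rw [Polynomial.eval_mul]
    push_cast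
    rw [mul_assoc]
    exact mul_mem (Q.eval r).2 h'

theorem evS_mem_maxAt_of {ϖ : K} {r : O} {P : O[X]} (h : ((P.eval r : O) : K) * ϖ⁻¹ ∈ O) :
    evS O y P ∈ maxAt O y ϖ r :=
  ⟨P, rfl, h⟩

theorem evS_mem_maxAt_iff {ϖ : K} {r : O} {Ψ : O[X]} (hΨ : Ψ.Monic)
    (hmin : minpoly K y = Ψ.map O.subtype) (hr : ((Ψ.eval r : O) : K) * ϖ⁻¹ ∈ O) (P : O[X]) :
    evS O y P ∈ maxAt O y ϖ r ↔ ((P.eval r : O) : K) * ϖ⁻¹ ∈ O := by
  constructor
  · rintro ⟨P', hP', h'⟩
    have h0 : (P - P').eval₂ (phi O) y = 0 := by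
      have := congrArg (fun s : adjoinRing O y => (s : L)) hP'
      simp only [coe_evS] at this
      rw [Polynomial.eval₂_sub, this, sub_self]
    obtain ⟨Q, hQ⟩ := dvd_of_eval₂_eq_zero hΨ hmin h0
    have h1 : P.eval r = P'.eval r + Ψ.eval r * Q.eval r := by
      have := congrArg (Polynomial.eval r) hQ
      rw [Polynomial.eval_sub, Polynomial.eval_mul] at this
      rw [← this]; ring
    rw [h1]
    push_cast
    have : ((P'.eval r : O) : K) + ((Ψ.eval r : O) : K) * ((Q.eval r : O) : K) =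
        ((P'.eval r : O) : K) + ((Ψ.eval r : O) : K) * ((Q.eval r : O) : K) := rfl
    rw [add_mul]
    refine add_mem h' ?_
    have : ((Ψ.eval r : O) : K) * ((Q.eval r : O) : K) * ϖ⁻¹ =
        (((Ψ.eval r : O) : K) * ϖ⁻¹) * ((Q.eval r : O) : K) := by ring
    rw [this]
    exact mul_mem hr (Q.eval r).2
  · exact evS_mem_maxAt_of

theorem isMaximal_maxAt {ϖ : K} (hO : IsUnif O ϖ) {r : O} {Ψ : O[X]} (hΨ : Ψ.Monic)
    (hmin : minpoly K y = Ψ.map O.subtype) (hr : ((Ψ.eval r : O) : K) * ϖ⁻¹ ∈ O) :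
    (maxAt O y ϖ r).IsMaximal := by
  rw [Ideal.isMaximal_iff]
  constructor
  · intro h1
    have h2 : evS O y 1 ∈ maxAt O y ϖ r := by rwa [map_one]
    rw [evS_mem_maxAt_iff hΨ hmin hr] at h2
    apply hO.inv_not_mem
    simpa using h2
  · intro J x hIJ hxI hxJ
    obtain ⟨P, rfl⟩ := evS_surjective O y x
    have hPr : ¬ ((P.eval r : O) : K) * ϖ⁻¹ ∈ O := fun h => hxI (evS_mem_maxAt_of h)
    have hu : ((P.eval r : O) : K)⁻¹ ∈ O :=
      (mem_or_mul_inv_mem hO (P.eval r).2).resolve_right hPr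
    have hu0 : ((P.eval r : O) : K) ≠ 0 := by
      intro h0
      apply hPr
      rw [h0, zero_mul]
      exact zero_mem _
    set v : O := ⟨((P.eval r : O) : K)⁻¹, hu⟩ with hv
    have hvu : v * P.eval r = 1 := by
      apply Subtype.ext
      push_cast
      exact inv_mul_cancel₀ hu0
    have h3 : evS O y (Polynomial.C v * (P - Polynomial.C (P.eval r))) ∈ maxAt O y ϖ r := by
      apply evS_mem_maxAt_of
      simp
    have h4 : (1 : adjoinRing O y) =
        evS O y (Polynomial.C v) * evS O y P -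
          evS O y (Polynomial.C v * (P - Polynomial.C (P.eval r))) := by
      rw [← map_mul, ← map_sub]
      have : Polynomial.C v * P - Polynomial.C v * (P - Polynomial.C (P.eval r)) = 1 := by
        rw [mul_sub, sub_sub_cancel, ← Polynomial.C_mul, hvu, Polynomial.C_1]
      rw [this, map_one]
    rw [h4]
    exact J.sub_mem (J.mul_mem_left _ hxJ) (hIJ h3)


theorem coe_evS_C (k : O) :
    ((evS O y (Polynomial.C k) : adjoinRing O y) : L) = algebraMap K L (k : K) := by
  rw [coe_evS, Polynomial.eval₂_C]; rfl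

theorem coe_evS_X_sub_C (r : O) :
    ((evS O y (Polynomial.X - Polynomial.C r) : adjoinRing O y) : L) =
      y - algebraMap K L (r : K) := by
  rw [coe_evS, Polynomial.eval₂_sub, Polynomial.eval₂_X, Polynomial.eval₂_C]; rfl

theorem evS_C_mem_maxAt {ϖ : K} (hO : IsUnif O ϖ) (r : O) (k : O) :
    evS O y (Polynomial.C (⟨ϖ, hO.mem⟩ * k)) ∈ maxAt O y ϖ r := by
  apply evS_mem_maxAt_of
  rw [Polynomial.eval_C]
  push_cast
  have : ϖ * (k : K) * ϖ⁻¹ = (k : K) := by
    have := hO.ne_zero
    field_simp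
  rw [this]
  exact k.2

theorem evS_X_sub_C_mem_maxAt {ϖ : K} (r : O) :
    evS O y (Polynomial.X - Polynomial.C r) ∈ maxAt O y ϖ r := by
  apply evS_mem_maxAt_of
  simp

theorem exists_decomp_of_mem_maxAt {ϖ : K} (hO : IsUnif O ϖ) {r : O} {s : adjoinRing O y}
    (hs : s ∈ maxAt O y ϖ r) :
    ∃ s₁ s₂ : adjoinRing O y,
      s = evS O y (Polynomial.C ⟨ϖ, hO.mem⟩) * s₁ +
        evS O y (Polynomial.X - Polynomial.C r) * s₂ := by
  obtain ⟨P, rfl, hP⟩ := hs
  obtain ⟨P₁, hP₁⟩ := Polynomial.X_sub_C_dvd_sub_C_eval (a := r) (p := P)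
  have hϖ0 : ϖ ≠ 0 := hO.ne_zero
  have h1 : P.eval r = ⟨ϖ, hO.mem⟩ * ⟨((P.eval r : O) : K) * ϖ⁻¹, hP⟩ := by
    apply Subtype.ext
    push_cast
    field_simp
  refine ⟨evS O y (Polynomial.C ⟨((P.eval r : O) : K) * ϖ⁻¹, hP⟩), evS O y P₁, ?_⟩
  have h2 : P = Polynomial.C ⟨ϖ, hO.mem⟩ * Polynomial.C ⟨((P.eval r : O) : K) * ϖ⁻¹, hP⟩ +
      (Polynomial.X - Polynomial.C r) * P₁ := by
    rw [← hP₁, ← Polynomial.C_mul, ← h1]
    ring
  conv_lhs => rw [h2]
  rw [map_add, map_mul, map_mul]

end Core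

section Main

variable {K L : Type*} [Field K] [Field L] [Algebra K L]
variable {O : ValuationSubring K} {y : L} {ϖ : K}

/-- Clearing denominators. -/
theorem exists_pow_mul_coeff_mem (harch : ∀ a : K, ∃ k : ℕ, ϖ ^ k * a ∈ O) (hO : IsUnif O ϖ)
    (p : K[X]) : ∃ k : ℕ, ∀ i, ϖ ^ k * p.coeff i ∈ O := by
  classical
  choose kk hkk using harch
  refine ⟨p.support.sup fun i => kk (p.coeff i), fun i => ?_⟩
  by_cases hi : i ∈ p.support
  · have hle : kk (p.coeff i) ≤ p.support.sup fun i => kk (p.coeff i) :=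
      Finset.le_sup (f := fun i => kk (p.coeff i)) hi
    obtain ⟨d, hd⟩ := Nat.exists_eq_add_of_le hle
    rw [hd, pow_add, mul_assoc, mul_comm (ϖ ^ d), ← mul_assoc]
    exact mul_mem (hkk _) (pow_mem hO.mem d)
  · rw [Polynomial.notMem_support_iff.1 hi, mul_zero]
    exact zero_mem _

theorem isFracOf_adjoinRing (hO : IsUnif O ϖ) (harch : ∀ a : K, ∃ k : ℕ, ϖ ^ k * a ∈ O)
    (hgen : ∀ f : L, ∃ P : K[X], Polynomial.aeval y P = f) : IsFracOf (adjoinRing O y) := by
  intro f
  obtain ⟨p, rfl⟩ := hgen f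
  obtain ⟨k, hk⟩ := exists_pow_mul_coeff_mem harch hO p
  have hlift : Polynomial.C (ϖ ^ k) * p ∈ Polynomial.lifts (O.subtype : O →+* K) := by
    rw [Polynomial.lifts_iff_coeff_lifts]
    intro i
    rw [Polynomial.coeff_C_mul]
    exact ⟨⟨_, hk i⟩, rfl⟩
  obtain ⟨P, hP⟩ := (Polynomial.mem_lifts _).1 hlift
  refine ⟨evS O y P, evS O y (Polynomial.C (⟨ϖ, hO.mem⟩ ^ k)), ?_, ?_⟩
  · intro h0
    have h1 : algebraMap K L (ϖ ^ k) = 0 := by
      have h2 := congrArg (fun s : adjoinRing O y => (s : L)) h0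
      simp only [coe_evS_C] at h2
      simpa using h2
    exact (map_ne_zero (algebraMap K L)).2 (pow_ne_zero k hO.ne_zero) h1
  · rw [coe_evS_C, coe_evS, eval₂_phi_eq_aeval, hP, map_mul, Polynomial.aeval_C]
    push_cast
    ring


/-- Hypotheses of the Eisenstein-split theorem. -/
structure EisData (O : ValuationSubring K) (ϖ : K) (y : L) (Ψ G : O[X]) (a c : O) (n : ℕ) :
    Prop where
  unif : IsUnif O ϖ
  arch : ∀ a : K, ∃ k : ℕ, ϖ ^ k * a ∈ O
  monic : Ψ.Monic
  minpoly_eq : minpoly K y = Ψ.map O.subtype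
  gen : ∀ f : L, ∃ P : K[X], Polynomial.aeval y P = f
  pos : 1 ≤ n
  dec : Ψ = (Polynomial.X - Polynomial.C a) * (Polynomial.X - Polynomial.C c) ^ n +
    Polynomial.C ⟨ϖ, unif.mem⟩ * G
  unit_sub : IsUnit (a - c)
  unit_G : IsUnit (G.eval c)

namespace EisData

variable {Ψ G : O[X]} {a c : O} {n : ℕ} (h : EisData O ϖ y Ψ G a c n)

/-- The uniformiser of `O` as an element of `O`. -/
abbrev pi₀ : O := ⟨ϖ, h.unif.mem⟩

include h

theorem isNoetherianRing : IsNoetherianRing (adjoinRing O y) := by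
  haveI := isDiscreteValuationRing_of_isUnif h.unif h.arch
  exact isNoetherianRing_of_surjective O[X] _ (evS O y) (evS_surjective O y)

theorem eval_a : Ψ.eval a = h.pi₀ * G.eval a := by
  conv_lhs => rw [h.dec]
  simp

theorem eval_c : Ψ.eval c = h.pi₀ * G.eval c := by
  conv_lhs => rw [h.dec]
  have hn : n ≠ 0 := by have := h.pos; omega
  simp [hn]

theorem eval_a_mem : ((Ψ.eval a : O) : K) * ϖ⁻¹ ∈ O := by
  rw [h.eval_a]
  push_cast
  have : ϖ * ((G.eval a : O) : K) * ϖ⁻¹ = ((G.eval a : O) : K) := by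
    have := h.unif.ne_zero
    field_simp
  rw [this]
  exact (G.eval a).2

theorem eval_c_mem : ((Ψ.eval c : O) : K) * ϖ⁻¹ ∈ O := by
  rw [h.eval_c]
  push_cast
  have : ϖ * ((G.eval c : O) : K) * ϖ⁻¹ = ((G.eval c : O) : K) := by
    have := h.unif.ne_zero
    field_simp
  rw [this]
  exact (G.eval c).2

theorem isMaximal_a : (maxAt O y ϖ a).IsMaximal :=
  isMaximal_maxAt h.unif h.monic h.minpoly_eq h.eval_a_mem

theorem isMaximal_c : (maxAt O y ϖ c).IsMaximal :=
  isMaximal_maxAt h.unif h.monic h.minpoly_eq h.eval_c_mem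

theorem notMem_of_isUnit {r : O} (hr : ((Ψ.eval r : O) : K) * ϖ⁻¹ ∈ O) {P : O[X]}
    (hP : IsUnit (P.eval r)) : evS O y P ∉ maxAt O y ϖ r := by
  rw [evS_mem_maxAt_iff h.monic h.minpoly_eq hr]
  intro hmem
  apply h.unif.inv_not_mem
  have hu := inv_mem_of_isUnit hP
  have hu0 : ((P.eval r : O) : K) ≠ 0 := by
    intro h0
    exact hP.ne_zero (Subtype.ext h0)
  have : ϖ⁻¹ = (((P.eval r : O) : K) * ϖ⁻¹) * ((P.eval r : O) : K)⁻¹ := by field_simp
  rw [this]
  exact mul_mem hmem hu

theorem rel : evS O y (Polynomial.X - Polynomial.C a) * evS O y (Polynomial.X - Polynomial.C c) ^ n +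
    evS O y (Polynomial.C h.pi₀) * evS O y G = 0 := by
  have h0 : evS O y Ψ = 0 := by
    apply Subtype.ext
    rw [coe_evS, eval₂_phi_eq_aeval, ← h.minpoly_eq, minpoly.aeval]
    rfl
  have h1 := h0
  rw [h.dec, map_add, map_mul, map_mul, map_pow] at h1
  exact h1

theorem G_notMem : evS O y G ∉ maxAt O y ϖ c :=
  h.notMem_of_isUnit h.eval_c_mem h.unit_G

theorem alpha_notMem : evS O y (Polynomial.X - Polynomial.C a) ∉ maxAt O y ϖ c := by
  apply h.notMem_of_isUnit h.eval_c_mem
  rw [Polynomial.eval_sub, Polynomial.eval_X, Polynomial.eval_C]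
  have : c - a = -(a - c) := by ring
  rw [this]
  exact h.unit_sub.neg

theorem pi_notMem : evS O y (Polynomial.X - Polynomial.C c) ∉ maxAt O y ϖ a := by
  apply h.notMem_of_isUnit h.eval_a_mem
  rw [Polynomial.eval_sub, Polynomial.eval_X, Polynomial.eval_C]
  exact h.unit_sub

theorem pi_pow_notMem : evS O y (Polynomial.X - Polynomial.C c) ^ n ∉ maxAt O y ϖ a := by
  intro hmem
  haveI := h.isMaximal_a
  exact h.pi_notMem (Ideal.IsPrime.mem_of_pow_mem inferInstance n hmem)

theorem evS_pi₀_ne_zero : evS O y (Polynomial.C h.pi₀) ≠ 0 := by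
  intro h0
  have h1 := congrArg (fun s : adjoinRing O y => (s : L)) h0
  simp only [coe_evS_C] at h1
  exact (map_ne_zero (algebraMap K L)).2 h.unif.ne_zero (by simpa using h1)

theorem evS_pi₀_mem (r : O) : evS O y (Polynomial.C h.pi₀) ∈ maxAt O y ϖ r := by
  have := evS_C_mem_maxAt (y := y) h.unif r 1
  rwa [mul_one] at this

/-- `𝔪_a O[y]_{𝔪_a} = ϖ O[y]_{𝔪_a}`. -/
theorem locGen_a : LocGen (adjoinRing O y) (maxAt O y ϖ a) (evS O y (Polynomial.C h.pi₀)) where
  mem := h.evS_pi₀_mem a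
  ne_zero := h.evS_pi₀_ne_zero
  gen := by
    intro s hs
    obtain ⟨s₁, s₂, rfl⟩ := exists_decomp_of_mem_maxAt h.unif hs
    refine ⟨evS O y (Polynomial.X - Polynomial.C c) ^ n,
      evS O y (Polynomial.X - Polynomial.C c) ^ n * s₁ - evS O y G * s₂, h.pi_pow_notMem, ?_⟩
    have hrel := h.rel
    have h2 : evS O y (Polynomial.X - Polynomial.C a) *
        evS O y (Polynomial.X - Polynomial.C c) ^ n =
        - (evS O y (Polynomial.C h.pi₀) * evS O y G) := eq_neg_of_add_eq_zero_left hrel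
    calc (evS O y (Polynomial.C h.pi₀) * s₁ + evS O y (Polynomial.X - Polynomial.C a) * s₂) *
          evS O y (Polynomial.X - Polynomial.C c) ^ n
        = evS O y (Polynomial.C h.pi₀) * s₁ * evS O y (Polynomial.X - Polynomial.C c) ^ n +
          (evS O y (Polynomial.X - Polynomial.C a) *
            evS O y (Polynomial.X - Polynomial.C c) ^ n) * s₂ := by ring
      _ = evS O y (Polynomial.C h.pi₀) *
          (evS O y (Polynomial.X - Polynomial.C c) ^ n * s₁ - evS O y G * s₂) := by
        rw [h2]; ring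

theorem evS_pi_ne_zero : evS O y (Polynomial.X - Polynomial.C c) ≠ 0 := by
  intro h0
  have hrel := h.rel
  rw [h0, zero_pow (by have := h.pos; omega), mul_zero, zero_add] at hrel
  rcases mul_eq_zero.1 hrel with h1 | h1
  · exact h.evS_pi₀_ne_zero h1
  · apply h.G_notMem
    rw [h1]
    exact (maxAt O y ϖ c).zero_mem

/-- `𝔪_c O[y]_{𝔪_c} = (y - c) O[y]_{𝔪_c}`. -/
theorem locGen_c :
    LocGen (adjoinRing O y) (maxAt O y ϖ c) (evS O y (Polynomial.X - Polynomial.C c)) where
  mem := evS_X_sub_C_mem_maxAt c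
  ne_zero := h.evS_pi_ne_zero
  gen := by
    intro s hs
    obtain ⟨s₁, s₂, rfl⟩ := exists_decomp_of_mem_maxAt h.unif hs
    obtain ⟨m, hm⟩ : ∃ m, n = m + 1 := ⟨n - 1, by have := h.pos; omega⟩
    refine ⟨evS O y G, evS O y G * s₂ - evS O y (Polynomial.X - Polynomial.C a) *
      evS O y (Polynomial.X - Polynomial.C c) ^ m * s₁, h.G_notMem, ?_⟩
    have hrel := h.rel
    have h2 : evS O y (Polynomial.C h.pi₀) * evS O y G =
        - (evS O y (Polynomial.X - Polynomial.C a) *
          evS O y (Polynomial.X - Polynomial.C c) ^ n) := eq_neg_of_add_eq_zero_right hrel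
    calc (evS O y (Polynomial.C h.pi₀) * s₁ + evS O y (Polynomial.X - Polynomial.C c) * s₂) *
          evS O y G
        = (evS O y (Polynomial.C h.pi₀) * evS O y G) * s₁ +
          evS O y (Polynomial.X - Polynomial.C c) * s₂ * evS O y G := by ring
      _ = evS O y (Polynomial.X - Polynomial.C c) *
          (evS O y G * s₂ - evS O y (Polynomial.X - Polynomial.C a) *
            evS O y (Polynomial.X - Polynomial.C c) ^ m * s₁) := by
        rw [h2, hm, pow_succ]; ring

theorem isFracOf : IsFracOf (adjoinRing O y) := isFracOf_adjoinRing h.unif h.arch h.gen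

/-- The unramified extension `V_a` (`y ≡ a`). -/
def Va : ValuationSubring L :=
  @locVal L _ (adjoinRing O y) (maxAt O y ϖ a) (evS O y (Polynomial.C h.pi₀))
    h.isNoetherianRing h.isMaximal_a h.locGen_a h.isFracOf

/-- The ramified extension `V_c` (`y ≡ c`, uniformiser `y - c`). -/
def Vc : ValuationSubring L :=
  @locVal L _ (adjoinRing O y) (maxAt O y ϖ c) (evS O y (Polynomial.X - Polynomial.C c))
    h.isNoetherianRing h.isMaximal_c h.locGen_c h.isFracOf


/-! ### Properties of `V_a` and `V_c` -/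

theorem coe_pi₀ : ((evS O y (Polynomial.C h.pi₀) : adjoinRing O y) : L) = algebraMap K L ϖ :=
  coe_evS_C _

theorem mem_Va_iff {f : L} :
    f ∈ h.Va ↔ ∃ s t : adjoinRing O y, t ∉ maxAt O y ϖ a ∧ f * (t : L) = (s : L) :=
  @mem_locVal_iff L _ _ _ _ h.isNoetherianRing h.isMaximal_a h.locGen_a h.isFracOf f

theorem mem_Vc_iff {f : L} :
    f ∈ h.Vc ↔ ∃ s t : adjoinRing O y, t ∉ maxAt O y ϖ c ∧ f * (t : L) = (s : L) :=
  @mem_locVal_iff L _ _ _ _ h.isNoetherianRing h.isMaximal_c h.locGen_c h.isFracOf f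

theorem isUnif_Va : IsUnif h.Va (algebraMap K L ϖ) := by
  have := @isUnif_locVal L _ _ _ _ h.isNoetherianRing h.isMaximal_a h.locGen_a h.isFracOf
  rwa [h.coe_pi₀] at this

theorem isUnif_Vc : IsUnif h.Vc (y - algebraMap K L (c : K)) := by
  have := @isUnif_locVal L _ _ _ _ h.isNoetherianRing h.isMaximal_c h.locGen_c h.isFracOf
  rwa [coe_evS_X_sub_C] at this

theorem coe_mem_Va (s : adjoinRing O y) : (s : L) ∈ h.Va :=
  @coe_mem_locVal L _ _ _ _ h.isNoetherianRing h.isMaximal_a h.locGen_a h.isFracOf s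

theorem coe_mem_Vc (s : adjoinRing O y) : (s : L) ∈ h.Vc :=
  @coe_mem_locVal L _ _ _ _ h.isNoetherianRing h.isMaximal_c h.locGen_c h.isFracOf s

theorem y_mem_Va : y ∈ h.Va := by
  have := h.coe_mem_Va (evS O y Polynomial.X)
  rwa [coe_evS, Polynomial.eval₂_X] at this

theorem y_mem_Vc : y ∈ h.Vc := by
  have := h.coe_mem_Vc (evS O y Polynomial.X)
  rwa [coe_evS, Polynomial.eval₂_X] at this

/-- `y ≡ a` modulo `ϖ V_a`. -/
theorem sub_a_mem : (y - algebraMap K L (a : K)) * (algebraMap K L ϖ)⁻¹ ∈ h.Va := by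
  have := @mul_inv_mem_locVal_of_mem L _ _ _ _ h.isNoetherianRing h.isMaximal_a h.locGen_a
    h.isFracOf _ (evS_X_sub_C_mem_maxAt (y := y) (ϖ := ϖ) a)
  rwa [coe_evS_X_sub_C, h.coe_pi₀] at this

/-- `(y - c) ^ n = ϖ · unit` in `V_c`. -/
theorem exists_unit_Vc :
    ∃ u : L, u ∈ h.Vc ∧ u⁻¹ ∈ h.Vc ∧ (y - algebraMap K L (c : K)) ^ n = algebraMap K L ϖ * u := by
  have hα := @inv_mem_locVal_of_notMem L _ _ _ _ h.isNoetherianRing h.isMaximal_c h.locGen_c
    h.isFracOf _ h.alpha_notMem
  have hG := @inv_mem_locVal_of_notMem L _ _ _ _ h.isNoetherianRing h.isMaximal_c h.locGen_c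
    h.isFracOf _ h.G_notMem
  have hα0 : ((evS O y (Polynomial.X - Polynomial.C a) : adjoinRing O y) : L) ≠ 0 :=
    @coe_ne_zero_of_notMem L _ _ _ h.isNoetherianRing h.isMaximal_c _ h.alpha_notMem
  have hG0 : ((evS O y G : adjoinRing O y) : L) ≠ 0 :=
    @coe_ne_zero_of_notMem L _ _ _ h.isNoetherianRing h.isMaximal_c _ h.G_notMem
  have hrel := congrArg (fun s : adjoinRing O y => (s : L)) h.rel
  simp only [Subring.coe_add, Subring.coe_mul, Subring.coe_pow, Subring.coe_zero] at hrel
  rw [h.coe_pi₀, coe_evS_X_sub_C c] at hrel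
  refine ⟨-((evS O y G : adjoinRing O y) : L) *
    ((evS O y (Polynomial.X - Polynomial.C a) : adjoinRing O y) : L)⁻¹, ?_, ?_, ?_⟩
  · exact mul_mem (neg_mem (h.coe_mem_Vc _)) hα
  · have : (-((evS O y G : adjoinRing O y) : L) *
        ((evS O y (Polynomial.X - Polynomial.C a) : adjoinRing O y) : L)⁻¹)⁻¹ =
        -((evS O y (Polynomial.X - Polynomial.C a) : adjoinRing O y) : L) *
          ((evS O y G : adjoinRing O y) : L)⁻¹ := by
      field_simp
    rw [this]
    exact mul_mem (neg_mem (h.coe_mem_Vc _)) hG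
  · have h2 : (y - algebraMap K L (c : K)) ^ n *
        ((evS O y (Polynomial.X - Polynomial.C a) : adjoinRing O y) : L) =
        -(algebraMap K L ϖ * ((evS O y G : adjoinRing O y) : L)) := by
      rw [eq_neg_iff_add_eq_zero, ← hrel]; ring
    field_simp
    rw [h2]

theorem algebraMap_mem_locVal_iff {r : O} {z : adjoinRing O y}
    (hm : (maxAt O y ϖ r).IsMaximal) (hz : LocGen (adjoinRing O y) (maxAt O y ϖ r) z) (k : K) :
    algebraMap K L k ∈ @locVal L _ (adjoinRing O y) (maxAt O y ϖ r) z h.isNoetherianRing hm hz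
      h.isFracOf ↔ k ∈ O := by
  constructor
  · intro hk
    by_contra hkO
    have hk0 : k ≠ 0 := by
      rintro rfl
      exact hkO (zero_mem _)
    have h1 : k⁻¹ ∈ O := (O.mem_or_inv_mem k).resolve_left hkO
    have h2 : k⁻¹ * ϖ⁻¹ ∈ O := h.unif.gen _ h1 (by rwa [inv_inv])
    have h3 : evS O y (Polynomial.C (h.pi₀ * ⟨k⁻¹ * ϖ⁻¹, h2⟩)) ∈ maxAt O y ϖ r :=
      evS_C_mem_maxAt h.unif r _
    have h4 : ((evS O y (Polynomial.C (h.pi₀ * ⟨k⁻¹ * ϖ⁻¹, h2⟩)) : adjoinRing O y) : L) =
        (algebraMap K L k)⁻¹ := by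
      rw [coe_evS_C, ← map_inv₀]
      congr 1
      push_cast
      have := h.unif.ne_zero
      field_simp
    have h5 : evS O y (Polynomial.C (h.pi₀ * ⟨k⁻¹ * ϖ⁻¹, h2⟩)) ≠ 0 := by
      intro h0
      rw [h0] at h4
      have : (algebraMap K L k)⁻¹ = 0 := by rw [← h4]; rfl
      rw [inv_eq_zero] at this
      exact (map_ne_zero (algebraMap K L)).2 hk0 this
    have h6 := @inv_notMem_locVal_of_mem L _ _ _ _ h.isNoetherianRing hm hz h.isFracOf _ h3 h5
    rw [h4, inv_inv] at h6
    exact h6 hk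
  · intro hk
    have := @coe_mem_locVal L _ _ _ _ h.isNoetherianRing hm hz h.isFracOf
      (evS O y (Polynomial.C ⟨k, hk⟩))
    rwa [coe_evS_C] at this

theorem algebraMap_mem_Va_iff (k : K) : algebraMap K L k ∈ h.Va ↔ k ∈ O :=
  h.algebraMap_mem_locVal_iff h.isMaximal_a h.locGen_a k

theorem algebraMap_mem_Vc_iff (k : K) : algebraMap K L k ∈ h.Vc ↔ k ∈ O :=
  h.algebraMap_mem_locVal_iff h.isMaximal_c h.locGen_c k

theorem residue_locVal {r : O} {z : adjoinRing O y}
    (hm : (maxAt O y ϖ r).IsMaximal) (hz : LocGen (adjoinRing O y) (maxAt O y ϖ r) z)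
    {f : L} (hf : f ∈ @locVal L _ (adjoinRing O y) (maxAt O y ϖ r) z h.isNoetherianRing hm hz
      h.isFracOf) :
    ∃ g ∈ O, (f - algebraMap K L g) * (z : L)⁻¹ ∈
      @locVal L _ (adjoinRing O y) (maxAt O y ϖ r) z h.isNoetherianRing hm hz h.isFracOf := by
  obtain ⟨s, hs⟩ := @exists_sub_mem_locVal L _ _ _ _ h.isNoetherianRing hm hz h.isFracOf f hf
  obtain ⟨P, rfl⟩ := evS_surjective O y s
  refine ⟨(P.eval r : O), (P.eval r).2, ?_⟩
  have h1 : evS O y (P - Polynomial.C (P.eval r)) ∈ maxAt O y ϖ r := by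
    apply evS_mem_maxAt_of
    simp
  have h2 := @mul_inv_mem_locVal_of_mem L _ _ _ _ h.isNoetherianRing hm hz h.isFracOf _ h1
  have h3 : ((evS O y (P - Polynomial.C (P.eval r)) : adjoinRing O y) : L) =
      ((evS O y P : adjoinRing O y) : L) - algebraMap K L ((P.eval r : O) : K) := by
    rw [map_sub, AddSubgroupClass.coe_sub, coe_evS_C]
  rw [h3] at h2
  have h4 : (f - algebraMap K L ((P.eval r : O) : K)) * (z : L)⁻¹ =
      (f - ((evS O y P : adjoinRing O y) : L)) * (z : L)⁻¹ +
        (((evS O y P : adjoinRing O y) : L) - algebraMap K L ((P.eval r : O) : K)) * (z : L)⁻¹ := by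
    ring
  rw [h4]
  exact add_mem hs h2

/-- Residue degree one at `V_a`. -/
theorem residue_Va {f : L} (hf : f ∈ h.Va) :
    ∃ g ∈ O, (f - algebraMap K L g) * (algebraMap K L ϖ)⁻¹ ∈ h.Va := by
  have := h.residue_locVal h.isMaximal_a h.locGen_a hf
  rwa [h.coe_pi₀] at this

/-- Residue degree one at `V_c`. -/
theorem residue_Vc {f : L} (hf : f ∈ h.Vc) :
    ∃ g ∈ O, (f - algebraMap K L g) * (y - algebraMap K L (c : K))⁻¹ ∈ h.Vc := by
  have := h.residue_locVal h.isMaximal_c h.locGen_c hf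
  rwa [coe_evS_X_sub_C] at this

theorem Va_ne_Vc : h.Va ≠ h.Vc := by
  intro heq
  have h1 := h.isUnif_Vc.inv_not_mem
  have h2 := @inv_mem_locVal_of_notMem L _ _ _ _ h.isNoetherianRing h.isMaximal_a h.locGen_a
    h.isFracOf _ h.pi_notMem
  rw [coe_evS_X_sub_C] at h2
  apply h1
  rw [← heq]
  exact h2


omit h in
theorem val_lt_one_of_inv_notMem {V' : ValuationSubring L} {x : L} (hx : x ∈ V')
    (hx' : x⁻¹ ∉ V') : V'.valuation x < 1 := by
  have h1 : V'.valuation x ≤ 1 := (V'.valuation_le_one_iff x).2 hx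
  rcases lt_or_eq_of_le h1 with h2 | h2
  · exact h2
  · exfalso
    apply hx'
    rw [← V'.valuation_le_one_iff, map_inv₀, h2, inv_one]

omit h in
theorem inv_notMem_of_val_lt_one {V' : ValuationSubring L} {x : L} (hx0 : x ≠ 0)
    (hx : V'.valuation x < 1) : x⁻¹ ∉ V' := by
  intro hmem
  have h1 : V'.valuation x⁻¹ ≤ 1 := (V'.valuation_le_one_iff _).2 hmem
  rw [map_inv₀] at h1
  have h2 : V'.valuation x ≠ 0 := (Valuation.ne_zero_iff _).2 hx0
  have h3 : 1 ≤ V'.valuation x := by
    rwa [inv_le_one₀ (zero_lt_iff.2 h2)] at h1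
  exact absurd hx (not_lt.2 h3)

theorem y_mem_of_le (V' : ValuationSubring L)
    (hV' : ∀ k : K, algebraMap K L k ∈ V' ↔ k ∈ O) : y ∈ V' := by
  let ψ : O →+* V' := (phi O).codRestrict V' (fun a => (hV' _).2 a.2)
  have hint : IsIntegral V' y := by
    refine ⟨Ψ.map ψ, h.monic.map ψ, ?_⟩
    rw [Polynomial.eval₂_map]
    have hcomp : (algebraMap V' L).comp ψ = phi O := by
      ext a
      rfl
    rw [hcomp, eval₂_phi_eq_aeval, ← h.minpoly_eq, minpoly.aeval]
  obtain ⟨z, hz⟩ := IsIntegrallyClosed.isIntegral_iff.1 hint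
  rw [← hz]
  exact z.2

theorem coe_mem_of_le (V' : ValuationSubring L)
    (hV' : ∀ k : K, algebraMap K L k ∈ V' ↔ k ∈ O) (s : adjoinRing O y) : (s : L) ∈ V' := by
  have hy := h.y_mem_of_le V' hV'
  obtain ⟨P, rfl⟩ := evS_surjective O y s
  rw [coe_evS]
  induction P using Polynomial.induction_on' with
  | add p q hp hq =>
    rw [Polynomial.eval₂_add]
    exact add_mem hp hq
  | monomial n a =>
    rw [Polynomial.eval₂_monomial]
    exact mul_mem ((hV' _).2 a.2) (pow_mem hy n)

/-- **Uniqueness**: `V_a` and `V_c` are the only valuation subrings of `L` over `O`. -/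
theorem eq_Va_or_eq_Vc (V' : ValuationSubring L)
    (hV' : ∀ k : K, algebraMap K L k ∈ V' ↔ k ∈ O) : V' = h.Va ∨ V' = h.Vc := by
  have hS := h.coe_mem_of_le V' hV'
  have hϖ : V'.valuation (algebraMap K L ϖ) < 1 := by
    apply val_lt_one_of_inv_notMem ((hV' _).2 h.unif.mem)
    rw [← map_inv₀, hV']
    exact h.unif.inv_not_mem
  have hrel := congrArg (fun s : adjoinRing O y => (s : L)) h.rel
  simp only [Subring.coe_add, Subring.coe_mul, Subring.coe_pow, Subring.coe_zero] at hrel
  rw [h.coe_pi₀] at hrel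
  set α : L := ((evS O y (Polynomial.X - Polynomial.C a) : adjoinRing O y) : L) with hα
  set π : L := ((evS O y (Polynomial.X - Polynomial.C c) : adjoinRing O y) : L) with hπ
  set g : L := ((evS O y G : adjoinRing O y) : L) with hg
  have hαV : V'.valuation α ≤ 1 := (V'.valuation_le_one_iff _).2 (hS _)
  have hπV : V'.valuation π ≤ 1 := (V'.valuation_le_one_iff _).2 (hS _)
  have hgV : V'.valuation g ≤ 1 := (V'.valuation_le_one_iff _).2 (hS _)
  have hprod : V'.valuation α * V'.valuation π ^ n < 1 := by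
    have h1 : α * π ^ n = -(algebraMap K L ϖ * g) := eq_neg_of_add_eq_zero_left hrel
    have h2 : V'.valuation (α * π ^ n) = V'.valuation (algebraMap K L ϖ) * V'.valuation g := by
      rw [h1, Valuation.map_neg, map_mul]
    rw [map_mul, map_pow] at h2
    rw [h2]
    calc V'.valuation (algebraMap K L ϖ) * V'.valuation g
        ≤ V'.valuation (algebraMap K L ϖ) * 1 := mul_le_mul_right hgV _
      _ < 1 := by rw [mul_one]; exact hϖ
  have hcases : V'.valuation α < 1 ∨ V'.valuation π < 1 := by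
    by_contra hcon
    rw [not_or, not_lt, not_lt] at hcon
    have h1 : V'.valuation α = 1 := le_antisymm hαV hcon.1
    have h2 : V'.valuation π = 1 := le_antisymm hπV hcon.2
    rw [h1, h2, one_pow, one_mul] at hprod
    exact lt_irrefl _ hprod
  have key : ∀ (r : O) (z : L), z = ((evS O y (Polynomial.X - Polynomial.C r) : adjoinRing O y) : L) →
      V'.valuation z < 1 → ∀ s : adjoinRing O y, s ∈ maxAt O y ϖ r → s ≠ 0 → (s : L)⁻¹ ∉ V' := by
    intro r z hz hzV s hs hs0
    obtain ⟨s₁, s₂, rfl⟩ := exists_decomp_of_mem_maxAt h.unif hs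
    apply inv_notMem_of_val_lt_one (fun h0 => hs0 (Subtype.ext h0))
    push_cast
    rw [h.coe_pi₀, ← hz]
    apply Valuation.map_add_lt
    · rw [map_mul]
      calc V'.valuation (algebraMap K L ϖ) * V'.valuation (s₁ : L)
          ≤ V'.valuation (algebraMap K L ϖ) * 1 :=
            mul_le_mul_right ((V'.valuation_le_one_iff _).2 (hS _)) _
        _ < 1 := by rw [mul_one]; exact hϖ
    · rw [map_mul]
      calc V'.valuation z * V'.valuation (s₂ : L)
          ≤ V'.valuation z * 1 :=
            mul_le_mul_right ((V'.valuation_le_one_iff _).2 (hS _)) _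
        _ < 1 := by rw [mul_one]; exact hzV
  rcases hcases with h1 | h1
  · left
    exact @eq_locVal_of_le L _ _ _ _ h.isNoetherianRing h.isMaximal_a h.locGen_a h.isFracOf V' hS
      (key a α rfl h1)
  · right
    exact @eq_locVal_of_le L _ _ _ _ h.isNoetherianRing h.isMaximal_c h.locGen_c h.isFracOf V' hS
      (key c π rfl h1)

end EisData

/-- **Eisenstein-split theorem** (packaged form). -/
theorem exists_two_extensions {Ψ G : O[X]} {a c : O} {n : ℕ} (h : EisData O ϖ y Ψ G a c n) :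
    ∃ Va Vc : ValuationSubring L,
      (∀ k : K, algebraMap K L k ∈ Va ↔ k ∈ O) ∧
      (∀ k : K, algebraMap K L k ∈ Vc ↔ k ∈ O) ∧
      y ∈ Va ∧ y ∈ Vc ∧
      IsUnif Va (algebraMap K L ϖ) ∧
      (y - algebraMap K L (a : K)) * (algebraMap K L ϖ)⁻¹ ∈ Va ∧
      IsUnif Vc (y - algebraMap K L (c : K)) ∧
      (∃ u : L, u ∈ Vc ∧ u⁻¹ ∈ Vc ∧
        (y - algebraMap K L (c : K)) ^ n = algebraMap K L ϖ * u) ∧
      (∀ f ∈ Va, ∃ g ∈ O, (f - algebraMap K L g) * (algebraMap K L ϖ)⁻¹ ∈ Va) ∧
      (∀ f ∈ Vc, ∃ g ∈ O, (f - algebraMap K L g) * (y - algebraMap K L (c : K))⁻¹ ∈ Vc) ∧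
      (∀ V' : ValuationSubring L, (∀ k : K, algebraMap K L k ∈ V' ↔ k ∈ O) →
        V' = Va ∨ V' = Vc) ∧
      Va ≠ Vc :=
  ⟨h.Va, h.Vc, h.algebraMap_mem_Va_iff, h.algebraMap_mem_Vc_iff, h.y_mem_Va, h.y_mem_Vc,
    h.isUnif_Va, h.sub_a_mem, h.isUnif_Vc, h.exists_unit_Vc, fun _ hf => h.residue_Va hf,
    fun _ hf => h.residue_Vc hf, h.eq_Va_or_eq_Vc, h.Va_ne_Vc⟩

/-! ### Producing the hypotheses -/

/-- `L = K[y]` from the degree. -/
theorem gen_of_natDegree_eq [FiniteDimensional K L] {Ψ : O[X]}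
    (hmin : minpoly K y = Ψ.map O.subtype) (hdeg : Ψ.natDegree = Module.finrank K L) :
    ∀ f : L, ∃ P : K[X], Polynomial.aeval y P = f := by
  have hinj : Function.Injective (O.subtype : O →+* K) := Subtype.val_injective
  have htop : IntermediateField.adjoin K {y} = ⊤ := by
    rw [Field.primitive_element_iff_minpoly_natDegree_eq, hmin,
      Polynomial.natDegree_map_eq_of_injective hinj, hdeg]
  intro f
  have hf : f ∈ (IntermediateField.adjoin K {y}).toSubalgebra := by
    rw [htop]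
    exact IntermediateField.mem_top
  rw [IntermediateField.adjoin_simple_toSubalgebra_of_isAlgebraic
    (Algebra.IsAlgebraic.isAlgebraic y), Algebra.adjoin_singleton_eq_range_aeval] at hf
  exact hf

/-- The minimal polynomial from a monic annihilating polynomial of prime degree `[L : K]`. -/
theorem minpoly_eq_map_of_prime [FiniteDimensional K L] {Ψ : O[X]} (hΨ : Ψ.Monic)
    (hprime : (Module.finrank K L).Prime) (hdeg : Ψ.natDegree = Module.finrank K L)
    (hy : Ψ.eval₂ (phi O) y = 0) (hyK : y ∉ (algebraMap K L).range) :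
    minpoly K y = Ψ.map O.subtype := by
  have hinj : Function.Injective (O.subtype : O →+* K) := Subtype.val_injective
  have hint : IsIntegral K y := Algebra.IsIntegral.isIntegral y
  have hdvd : minpoly K y ∣ Ψ.map O.subtype :=
    minpoly.dvd K y (by rw [← eval₂_phi_eq_aeval]; exact hy)
  have h1 : (minpoly K y).natDegree ∣ Module.finrank K L := by
    rw [← IntermediateField.adjoin.finrank hint]
    exact ⟨_, (Module.finrank_mul_finrank K (IntermediateField.adjoin K {y}) L).symm⟩
  have h2 : (minpoly K y).natDegree = Module.finrank K L := by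
    rcases (Nat.dvd_prime hprime).1 h1 with h3 | h3
    · exfalso
      exact hyK ((minpoly.natDegree_eq_one_iff).1 h3)
    · exact h3
  symm
  refine Polynomial.eq_of_monic_of_dvd_of_natDegree_le (minpoly.monic hint) (hΨ.map _) hdvd ?_
  rw [Polynomial.natDegree_map_eq_of_injective hinj, hdeg, h2]

end Main

end Fermat.Agent.S36.H972

end
end
-- ===== PACK-END S36/H972/EisSplit.lean

-- ===== PACK-BEGIN S37/H818/NormCompat.lean
section
/-
S37 / LEVEL TRANSFER (helper818), part 5: norm compatibility for a square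

      F  --a-->  F₁
      |i         |i₁
      v          v
      G  --a'->  G₁

with `[F₁ : F] = [G₁ : G]` and `G₁ = G · i₁(F₁)`:  `N_{G₁/G}(i₁ f) = i (N_{F₁/F} f)`.
-/




set_option autoImplicit false
set_option linter.style.haveILetI false

noncomputable section

namespace Fermat.Agent.S37.H818

open AlgebraicCurve

section Abstract

variable {F F₁ G G₁ : Type*} [Field F] [Field F₁] [Field G] [Field G₁]
  [Algebra F F₁] [Algebra G G₁] (i : F →+* G) (i₁ : F₁ →+* G₁)
  (hsq : ∀ x : F, i₁ (algebraMap F F₁ x) = algebraMap G G₁ (i x))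

include hsq in
theorem map_smul_square (c : F) (x : F₁) : i₁ (c • x) = i c • i₁ x := by
  rw [Algebra.smul_def, Algebra.smul_def, map_mul, hsq]

include hsq in
/-- The image of a basis spans a subspace closed under multiplication containing `i₁(F₁)`. -/
theorem span_image_basis_eq_top {n : ℕ} (e : Module.Basis (Fin n) F F₁)
    (hgen : Algebra.adjoin G (Set.range i₁) = ⊤) :
    Submodule.span G (Set.range fun j => i₁ (e j)) = ⊤ := by
  set S : Submodule G G₁ := Submodule.span G (Set.range fun j => i₁ (e j)) with hS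
  have hgenS : ∀ f : F₁, i₁ f ∈ S := by
    intro f
    have hf : f = ∑ j, e.repr f j • e j := (e.sum_repr f).symm
    rw [hf, map_sum]
    refine Submodule.sum_mem _ fun j _ => ?_
    rw [map_smul_square i i₁ hsq]
    exact Submodule.smul_mem _ _ (Submodule.subset_span ⟨j, rfl⟩)
  have hmul : ∀ x ∈ S, ∀ y ∈ S, x * y ∈ S := by
    intro x hx y hy
    induction hx using Submodule.span_induction with
    | mem x hx =>
      obtain ⟨j, rfl⟩ := hx
      induction hy using Submodule.span_induction with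
      | mem y hy =>
        obtain ⟨k, rfl⟩ := hy
        simp only
        rw [← map_mul]
        exact hgenS _
      | zero => rw [mul_zero]; exact S.zero_mem
      | add y z _ _ hy hz => rw [mul_add]; exact S.add_mem hy hz
      | smul c y _ hy => rw [mul_smul_comm]; exact S.smul_mem c hy
    | zero => rw [zero_mul]; exact S.zero_mem
    | add x z _ _ hx hz => rw [add_mul]; exact S.add_mem hx hz
    | smul c x _ hx => rw [smul_mul_assoc]; exact S.smul_mem c hx
  rw [eq_top_iff]
  intro x _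
  have hx : x ∈ Algebra.adjoin G (Set.range i₁) := by rw [hgen]; exact Algebra.mem_top
  induction hx using Algebra.adjoin_induction with
  | mem y hy =>
    obtain ⟨f, rfl⟩ := hy
    exact hgenS f
  | algebraMap g =>
    have h1 : (1 : G₁) ∈ S := by
      have := hgenS 1
      rwa [map_one] at this
    have : algebraMap G G₁ g = g • (1 : G₁) := by rw [Algebra.smul_def, mul_one]
    rw [this]
    exact S.smul_mem g h1
  | add y z _ _ hy hz => exact S.add_mem (hy trivial) (hz trivial)
  | mul y z _ _ hy hz => exact hmul _ (hy trivial) _ (hz trivial)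

include hsq in
/-- Norm compatibility, abstract form. -/
theorem norm_square [Module.Finite F F₁] [Module.Finite G G₁]
    (hdeg : Module.finrank G G₁ = Module.finrank F F₁)
    (hgen : Algebra.adjoin G (Set.range i₁) = ⊤) (f : F₁) :
    Algebra.norm G (i₁ f) = i (Algebra.norm F f) := by
  classical
  set n := Module.finrank F F₁ with hn
  let e : Module.Basis (Fin n) F F₁ := Module.finBasis F F₁
  have hspan := span_image_basis_eq_top i i₁ hsq e hgen
  have hcard : Fintype.card (Fin n) = Module.finrank G G₁ := by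
    rw [Fintype.card_fin, hdeg]
  let e' : Module.Basis (Fin n) G G₁ :=
    basisOfTopLeSpanOfCardEqFinrank (fun j => i₁ (e j)) hspan.ge hcard
  have he' : ∀ j, e' j = i₁ (e j) := fun j => by
    simp [e', coe_basisOfTopLeSpanOfCardEqFinrank]
  rw [Algebra.norm_eq_matrix_det e' (i₁ f), Algebra.norm_eq_matrix_det e f, RingHom.map_det]
  congr 1
  ext k j
  rw [RingHom.mapMatrix_apply, Matrix.map_apply, Algebra.leftMulMatrix_eq_repr_mul,
    Algebra.leftMulMatrix_eq_repr_mul, he']
  have hprod : i₁ f * i₁ (e j) = ∑ k, i (e.repr (f * e j) k) • e' k := by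
    rw [← map_mul]
    conv_lhs => rw [← e.sum_repr (f * e j)]
    rw [map_sum]
    refine Finset.sum_congr rfl fun k _ => ?_
    rw [map_smul_square i i₁ hsq, he']
  rw [hprod, e'.repr_sum_self]

end Abstract

section Along

variable {K F F₁ G G₁ : Type*} [Field K] [Field F] [Field F₁] [Field G] [Field G₁]
  [Algebra K F] [Algebra K F₁] [Algebra K G] [Algebra K G₁]

/-- `NormCompat` from equality of degrees and generation `G₁ = a'(G)[i₁(F₁)]`. -/
theorem normCompat_of_finrank_eq (a : F →ₐ[K] F₁) (i : F →ₐ[K] G) (a' : G →ₐ[K] G₁)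
    (i₁ : F₁ →ₐ[K] G₁) (hsq : i₁.comp a = a'.comp i)
    (hfin : FiniteAlong K a) (hfin' : FiniteAlong K a')
    (hdeg : finrankAlong K a' = finrankAlong K a)
    (hgen : (letI := algebraAlong a'; Algebra.adjoin G (Set.range i₁)) = ⊤) :
    NormCompat a i a' i₁ := by
  intro f
  letI := algebraAlong a
  letI := algebraAlong a'
  haveI : Module.Finite F F₁ := hfin
  haveI : Module.Finite G G₁ := hfin'
  refine norm_square (i : F →+* G) (i₁ : F₁ →+* G₁) (fun x => ?_) hdeg ?_ f
  · exact congrArg (fun φ : F →ₐ[K] G₁ => φ x) hsq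
  · exact hgen

end Along

end Fermat.Agent.S37.H818

end

end
-- ===== PACK-END S37/H818/NormCompat.lean

-- ===== PACK-BEGIN S36/H890/Unit9B.lean
section


/-!
# `g₉` is a unit of every chart in residue characteristic `2` (helper890, S36 cell REG, `q = 2`)

Mathlib + `S18.H138.chart` only.

* `three_inv_mem_of_two_mem_nonunits` : `2 ∈ 𝔪_V ⟹ 3⁻¹ ∈ V`;
* `exists_g9_unit` : `B` a subalgebra of `F` containing `j`, `t`, `3⁻¹`, with
  `j t⁹ Q(t) = (t + 9)³ (t³ + 243 Q(t))³`: for every `k` there are `g, g' ∈ B` with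
  `g = (Q(t)⁵ (t³)⁻¹) ^ k` in `F` and `g g' = 1`;
* `not_mem_of_mul_eq_one` : a unit of `B` lies in no proper ideal — so `g ∉ 𝔪` at EVERY closed
  point `𝔪` of the chart: hypothesis `hg` of `H878.principalAt_of_unit_self'` with the `g` of
  `H934.hres_transfer9`.
-/

set_option autoImplicit false

noncomputable section

namespace Fermat.Agent.S36.H890

open Fermat.Agent.S18.H138

/-- `2 ∈ 𝔪_V ⟹ 3` is a unit of `V`. -/
theorem three_inv_mem_of_two_mem_nonunits {L : Type*} [Field L] (V : ValuationSubring L)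
    (h2 : (2 : L) ∈ V.nonunits) : (3 : L)⁻¹ ∈ V := by
  have hv2 : V.valuation (2 : L) < 1 := (V.mem_nonunits_iff).1 h2
  have hv1 : V.valuation (1 : L) = 1 := map_one _
  have h3 : V.valuation (3 : L) = 1 := by
    have e : (3 : L) = 2 + 1 := by norm_num
    rw [e]
    have := Valuation.map_add_eq_of_lt_right V.valuation (x := (2 : L)) (y := (1 : L))
      (by rw [hv1]; exact hv2)
    rw [this, hv1]
  rw [← V.valuation_le_one_iff, map_inv₀, h3, inv_one]

theorem not_mem_of_mul_eq_one {B : Type*} [CommRing B] {g g' : B} (h : g * g' = 1)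
    (𝔪 : Ideal B) (h𝔪 : 𝔪 ≠ ⊤) : g ∉ 𝔪 := fun hg =>
  h𝔪 ((Ideal.eq_top_iff_one 𝔪).2 (h ▸ 𝔪.mul_mem_right g' hg))

section Sub

variable {R F : Type*} [CommRing R] [Field F] [CharZero F] [Algebra R F]

/-- **`g₉ ^ k` is a unit of `B`.** -/
theorem exists_g9_unit (B : Subalgebra R F) {j t : F} (hj : j ∈ B) (ht : t ∈ B)
    (h3 : (3 : F)⁻¹ ∈ B)
    (hrel : j * (t ^ 9 * (t ^ 2 + 9 * t + 27))
      = (t + 9) ^ 3 * (t ^ 3 + 243 * (t ^ 2 + 9 * t + 27)) ^ 3) (k : ℕ) :
    ∃ g g' : B, (g : F) = ((t ^ 2 + 9 * t + 27) ^ 5 * (t ^ 3)⁻¹) ^ k ∧ g * g' = 1 := by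
  have hg := g9_mem_of_rel9 B hj ht h3 hrel
  have hg' := g9_inv_mem_of_rel9 B hj ht h3 hrel
  have hc := mul_cofactor_of_rel9 hrel
  have hcQ := quad_mul_cofactor_of_rel9 hrel
  have ht0 : t ≠ 0 := by
    rintro rfl
    rw [zero_mul] at hc
    exact h9_three_pow_ne_zero 30 hc.symm
  have hQ0 : t ^ 2 + 9 * t + 27 ≠ 0 := by
    intro h
    rw [h, zero_mul] at hcQ
    exact h9_three_pow_ne_zero 18 hcQ.symm
  have hg0 : (t ^ 2 + 9 * t + 27) ^ 5 * (t ^ 3)⁻¹ ≠ 0 :=
    mul_ne_zero (pow_ne_zero 5 hQ0) (inv_ne_zero (pow_ne_zero 3 ht0))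
  refine ⟨⟨_, pow_mem hg k⟩, ⟨_, pow_mem hg' k⟩, rfl, ?_⟩
  apply Subtype.ext
  show ((t ^ 2 + 9 * t + 27) ^ 5 * (t ^ 3)⁻¹) ^ k
      * (((t ^ 2 + 9 * t + 27) ^ 5 * (t ^ 3)⁻¹)⁻¹) ^ k = 1
  rw [← mul_pow, mul_inv_cancel₀ hg0, one_pow]

/-- The same in the chart `B = chart R S`, from `j ∈ B` and `3⁻¹ ∈ B` only. -/
theorem exists_g9_unit_chart (S : Set F) {j t : F} (hj : j ∈ chart R S)
    (h3 : (3 : F)⁻¹ ∈ chart R S)
    (hrel : j * (t ^ 9 * (t ^ 2 + 9 * t + 27))
      = (t + 9) ^ 3 * (t ^ 3 + 243 * (t ^ 2 + 9 * t + 27)) ^ 3) (k : ℕ) :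
    ∃ g g' : chart R S, (g : F) = ((t ^ 2 + 9 * t + 27) ^ 5 * (t ^ 3)⁻¹) ^ k ∧ g * g' = 1 :=
  exists_g9_unit (chart R S) hj (mem_chart_of_rel9 S hj hrel) h3 hrel k

end Sub

end Fermat.Agent.S36.H890

end
end
-- ===== PACK-END S36/H890/Unit9B.lean

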