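import Fermat.Prelude.Def_ModularCurve_HeckeModule
import Fermat.Prelude.Def_EllipticCurve_FrobeniusTrace
import Mathlib
import Fermat.Prelude.Def_CuspForm_HeckeAlgebra
import Fermat.Prelude.Def_ModularCurve_PeriodHomPair
import Fermat.Prelude.Thm_Subgroup_IsArithmetic_exists_nat_mem_strictPeriods_conj
import Fermat.Agent.Pack.S36.E7L2
import Fermat.Agent.Pack.S36.E7L3
import Fermat.Agent.Pack.S36.E5L3
import Fermat.Agent.Pack.S36.E7L0
import Fermat.Agent.Pack.S36.E0L0
import Fermat.Agent.Pack.S36.E1L1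
import Fermat.Agent.Pack.S36.E8L0
import Fermat.Agent.Pack.S36.E5L2
import Fermat.Agent.Pack.S36.E8L3
import Fermat.Agent.Pack.S36.E8L2
import Fermat.Agent.Pack.S36.E1L3
import Fermat.Agent.Pack.S36.E5L0
import Fermat.Agent.Pack.S36.E8L1
import Fermat.Agent.Pack.S36.E1L0
import Fermat.Agent.Pack.S36.E2L3
import Fermat.Agent.Pack.S36.E9L0

-- ===== PACK-BEGIN S24/Alg/LocSurj.lean
section





/-!
# S24 / ALG-LOC, part 2 (LOC2): every place over `t = 0` is induced by an embedding

For local data `L : LocalData K F C X t` with `[F : F₀] = |X|` (`F₀ ⊆ K(t)`), every place `v` of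
`F/K` with `ord_v t > 0` is the place cut out by one of the embeddings `L.σ x`.
-/

set_option autoImplicit false

noncomputable section

open AlgebraicCurve Polynomial IntermediateField

namespace Fermat.Agent.S24.H144

variable {K F : Type*} [Field K] [Field F] [Algebra K F]
variable {C : Type*} [Field C] {X : Type*} {t : F}

theorem loc_order_const (L : LocalData K F C X t) (x : X) (c : K) :
    (L.σ x (algebraMap K F c)).order = 0 := by
  rw [L.σ_const]; exact HahnSeries.order_C

theorem loc_order_t_pos (L : LocalData K F C X t) (x : X) : 0 < (L.σ x t).order := by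
  rw [L.σ_t_order]; exact_mod_cast L.m_pos

theorem loc_isTVal (L : LocalData K F C X t) (x : X) :
    IsTVal K t (fun f => (L.σ x f).order) :=
  isTVal_order (L.σ x) (loc_order_const L x) (loc_order_t_pos L x)

/-- The place of `F` cut out by the embedding `L.σ x`. -/
def locPlace (L : LocalData K F C X t) (x : X) : Place K F :=
  placeOfEmb (L.σ x) (fun c => (loc_order_const L x c).ge)
    ⟨t⁻¹, by rw [loc_order_map_inv]; have := loc_order_t_pos L x; omega⟩

theorem loc_induces_locPlace (L : LocalData K F C X t) (x : X) :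
    Induces (L.σ x) (locPlace L x) :=
  induces_placeOfEmb _ _ _

theorem loc_mem_locPlace (L : LocalData K F C X t) (x : X) (f : F) :
    f ∈ (locPlace L x).toValuationSubring ↔ 0 ≤ (L.σ x f).order :=
  loc_induces_locPlace L x f

/-- All the embeddings `L.σ x` agree on `K(t)`. -/
theorem loc_agree (L : LocalData K F C X t) (x y : X) {c : F} (hc : c ∈ K⟮t⟯) :
    L.σ x c = L.σ y c := by
  induction hc using IntermediateField.adjoin_induction with
  | mem c hc =>
    rw [Set.mem_singleton_iff] at hc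
    rw [hc]; exact L.σ_t_eq x y
  | algebraMap c => rw [L.σ_const, L.σ_const]
  | add a b _ _ iha ihb => rw [map_add, map_add, iha, ihb]
  | inv a _ iha => rw [map_inv₀, map_inv₀, iha]
  | mul a b _ _ iha ihb => rw [map_mul, map_mul, iha, ihb]

/-- The subring of Laurent series of non-negative order. -/
def locPowerSubring (C : Type*) [Field C] : Subring (LaurentSeries C) :=
  (locValSubring (RingHom.id (LaurentSeries C))).toSubring

theorem mem_locPowerSubring {s : LaurentSeries C} : s ∈ locPowerSubring C ↔ 0 ≤ s.order :=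
  Iff.rfl

/-- **Integrality criterion.** If all conjugates `L.σ x u` have non-negative order, then `u` lies
in the valuation ring of every place `v` at which `t` vanishes. -/
theorem loc_mem_of_forall_order_nonneg [CharZero K] [Finite X] (L : LocalData K F C X t)
    (F₀ : IntermediateField K F) (hF₀ : F₀ ≤ K⟮t⟯) [FiniteDimensional F₀ F]
    (hrank : Module.finrank F₀ F = Nat.card X)
    (v : Place K F) (hv : 0 < v.ord t) (u : F) (hu : ∀ x, 0 ≤ (L.σ x u).order) :
    u ∈ v.toValuationSubring := by
  classical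
  -- `X` is nonempty
  have hX : Nonempty X := by
    have hpos : 0 < Module.finrank F₀ F := Module.finrank_pos
    rw [hrank] at hpos
    exact (Nat.card_pos_iff.mp hpos).1
  obtain ⟨x₀⟩ := hX
  have hagree : ∀ (x y : X) (c : F₀), L.σ x (algebraMap F₀ F c) = L.σ y (algebraMap F₀ F c) :=
    fun x y c => loc_agree L x y (hF₀ c.2)
  -- coefficients of the minimal polynomial have non-negative order
  have hcoeff : ∀ i, (algebraMap F₀ F ((minpoly F₀ u).coeff i)) ∈ v.toValuationSubring := by
    intro i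
    have h1 := loc_minpoly_coeff_mem (F₀ := F₀) L.σ L.σ_inj hagree hrank (locPowerSubring C) u
      (fun x => mem_locPowerSubring.mpr (hu x)) x₀ i
    rw [mem_locPowerSubring] at h1
    apply loc_mem_of_ord_nonneg
    exact loc_tval_nonneg (K := K) t (hF₀ ((minpoly F₀ u).coeff i).2) (loc_isTVal L x₀)
      (isTVal_ord v hv) h1
  -- hence `u` is integral over the valuation ring
  have hint : IsIntegral F₀ u := Algebra.IsIntegral.isIntegral u
  have hmonic : ((minpoly F₀ u).map (algebraMap F₀ F)).Monic := (minpoly.monic hint).map _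
  have hlift : (minpoly F₀ u).map (algebraMap F₀ F)
      ∈ Polynomial.lifts (algebraMap v.toValuationSubring F) := by
    rw [lifts_iff_coeff_lifts]
    intro i
    rw [coeff_map]
    exact ⟨⟨_, hcoeff i⟩, rfl⟩
  obtain ⟨q, hq, _, hqm⟩ := lifts_and_degree_eq_and_monic hlift hmonic
  have hroot : eval₂ (algebraMap v.toValuationSubring F) u q = 0 := by
    rw [← eval_map, hq, eval_map, ← aeval_def]
    exact minpoly.aeval F₀ u
  have hintv : IsIntegral v.toValuationSubring u := ⟨q, hqm, hroot⟩
  obtain ⟨y, hy⟩ := IsIntegrallyClosed.isIntegral_iff.mp hintv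
  rw [← hy]; exact y.2

/-- **LOC2.** Every place at which `t` vanishes is induced by one of the embeddings. -/
theorem loc_exists_emb [CharZero K] [Finite X] (L : LocalData K F C X t)
    (F₀ : IntermediateField K F) (hF₀ : F₀ ≤ K⟮t⟯) [FiniteDimensional F₀ F]
    (hrank : Module.finrank F₀ F = Nat.card X)
    (v : Place K F) (hv : 0 < v.ord t) : ∃ x, Induces (L.σ x) v := by
  classical
  by_contra hno
  have hne : ∀ x, v ≠ locPlace L x := by
    intro x hx
    exact hno ⟨x, hx ▸ loc_induces_locPlace L x⟩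
  have : Fintype X := Fintype.ofFinite X
  have hvS : v ∉ Finset.univ.image (locPlace L) := by
    intro h
    obtain ⟨x, _, hx⟩ := Finset.mem_image.mp h
    exact hne x hx.symm
  obtain ⟨u, huv, huS⟩ := loc_exists_pole_zeros v _ hvS
  have hu : ∀ x, 0 ≤ (L.σ x u).order := by
    intro x
    have h1 := huS (locPlace L x) (Finset.mem_image_of_mem _ (Finset.mem_univ x))
    exact (loc_mem_locPlace L x u).mp (loc_mem_of_ord_nonneg _ h1.le)
  have := loc_ord_nonneg_of_mem v (loc_mem_of_forall_order_nonneg L F₀ hF₀ hrank v hv u hu)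
  omega

end Fermat.Agent.S24.H144

end
end
-- ===== PACK-END S24/Alg/LocSurj.lean

-- ===== PACK-BEGIN S24/H504/FF1.lean
section



/-!
# The fundamental inequality `n ≤ ∑_{v | t} e_v` from local embedding data

Dedekind-free: every embedding `σ x` induces a place over `t = 0`, and at most `e_v = v(t)`
embeddings induce a given place `v` (rigidity, `card_induces_le`).
-/

set_option autoImplicit false

namespace Fermat.Agent.S24.H504

open AlgebraicCurve

variable {K F : Type*} [Field K] [Field F] [Algebra K F]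
variable {C : Type*} [Field C] {X : Type*} {t : F}

theorem LocalData.order_const_nonneg (L : LocalData K F C X t) (x : X) (c : K) :
    0 ≤ (L.σ x (algebraMap K F c)).order := by
  rw [L.σ_const, HahnSeries.order_C]

theorem LocalData.exists_order_ne_zero (L : LocalData K F C X t) (x : X) :
    ∃ f : F, (L.σ x f).order ≠ 0 :=
  ⟨t, by rw [L.σ_t_order]; exact_mod_cast L.m_pos.ne'⟩

/-- The place of `F/K` induced by the embedding `σ x`. -/
noncomputable def LocalData.placeAt (L : LocalData K F C X t) (x : X) : Place K F :=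
  placeOfEmb (L.σ x) (LocalData.order_const_nonneg L x) (LocalData.exists_order_ne_zero L x)

theorem LocalData.induces_placeAt (L : LocalData K F C X t) (x : X) :
    Induces (L.σ x) (LocalData.placeAt L x) :=
  induces_placeOfEmb _ _ _

theorem LocalData.ord_t_pos_of_induces (L : LocalData K F C X t) {x : X} {v : Place K F}
    (h : Induces (L.σ x) v) : 0 < v.ord t := by
  have hm : 0 < (L.σ x t).order := by rw [L.σ_t_order]; exact_mod_cast L.m_pos
  have h1 := (h.order_nonneg_iff t).mp hm.le
  have h2 := (h.order_eq_zero_iff t).not.mp hm.ne'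
  omega

theorem LocalData.placeAt_ord_t_pos (L : LocalData K F C X t) (x : X) :
    0 < (LocalData.placeAt L x).ord t :=
  LocalData.ord_t_pos_of_induces L (LocalData.induces_placeAt L x)

theorem LocalData.placeAt_eq_iff (L : LocalData K F C X t) (x : X) (v : Place K F) :
    LocalData.placeAt L x = v ↔ Induces (L.σ x) v :=
  ⟨fun h => h ▸ LocalData.induces_placeAt L x,
    fun h => (LocalData.induces_placeAt L x).unique h⟩

/-- **Fibre bound** in `LocalData` language: at most `v(t)` of the embeddings induce `v`. -/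
theorem LocalData.card_fibre_le [IsAlgClosed K] [CharZero C] [Finite X]
    [Algebra.IsAlgebraic (IntermediateField.adjoin K {t}) F]
    (L : LocalData K F C X t) (v : Place K F) (hv : 0 < v.ord t) :
    (Nat.card {x : X // Induces (L.σ x) v} : ℤ) ≤ v.ord t := by
  have := card_induces_le hv L.ι L.σ L.σ_inj L.σ_const L.σ_t_eq
  have h2 : ((v.ord t).toNat : ℤ) = v.ord t := Int.toNat_of_nonneg hv.le
  rw [← h2]
  exact_mod_cast this

/-- **Fundamental inequality (FF1).** `n = #X ≤ ∑_{v over t = 0} v(t)`. -/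
theorem LocalData.card_le_sum_ord [IsAlgClosed K] [CharZero C] [Finite X]
    [Algebra.IsAlgebraic (IntermediateField.adjoin K {t}) F]
    (L : LocalData K F C X t) (s : Finset (Place K F)) (hs : ∀ v, v ∈ s ↔ 0 < v.ord t) :
    (Nat.card X : ℤ) ≤ ∑ v ∈ s, v.ord t := by
  classical
  have := Fintype.ofFinite X
  have hmaps : ∀ x ∈ (Finset.univ : Finset X), LocalData.placeAt L x ∈ s :=
    fun x _ => (hs _).mpr (LocalData.placeAt_ord_t_pos L x)
  have hcard := Finset.card_eq_sum_card_fiberwise hmaps
  rw [Nat.card_eq_fintype_card, ← Finset.card_univ, hcard]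
  push_cast
  apply Finset.sum_le_sum
  intro v hv
  have hfib := LocalData.card_fibre_le L v ((hs v).mp hv)
  refine le_trans (le_of_eq ?_) hfib
  congr 1
  rw [Nat.card_eq_fintype_card, Fintype.card_subtype]
  congr 1
  ext x
  simp only [Finset.mem_filter, Finset.mem_univ, true_and]
  exact LocalData.placeAt_eq_iff L x v

end Fermat.Agent.S24.H504

end
-- ===== PACK-END S24/H504/FF1.lean

-- ===== PACK-BEGIN S29/H222/ESKSpec.lean
section
/-
S29 / helper222 — piece ESK: the Eichler–Shimura input of layer M ("ES raw": inertia acts trivially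
on `J₀(N)(ℚ̄)[m]`, Frobenius satisfies `σ² - T_ℓ σ + ℓ = 0` on `J₀(N)(ℚ̄)[m]`) DIRECTLY from the
S18 hub `CoreStatement N A m`, WITHOUT S37 (no special fibre, no place reduction map, no `J'`, no
commutativity of Hecke operators).

This file: the interface (definitions + the two target statements as `Prop`s).
-/





set_option autoImplicit false

noncomputable section

namespace Fermat.Agent.S29.H222

open ModularCurve AlgebraicCurve HahnSeries
open Fermat.Agent.S18 (Qb IsInt toF CoreStatement)

/-- The absolute Galois group of `ℚ`. -/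
abbrev GQ' : Type := Qb ≃ₐ[ℚ] Qb

/-- The norm along `α : F_N → F_{Nℓ}` (inclusion) of `β y` (`β = q ↦ q^ℓ`): the function whose
divisor is `T_ℓ (div y)` for the Prelude Hecke correspondence. -/
def heckeNorm (N ℓ : ℕ) [NeZero N] [NeZero ℓ] (y : modularFunctionFieldBar N) :
    modularFunctionFieldBar N :=
  letI := algebraAlong (heckeAlphaBar Qb N ℓ)
  Algebra.norm (modularFunctionFieldBar N) (heckeBetaBar Qb N ℓ y)

/-- **NORM-ID** (piece NKI of the S37 row): the norm along `α` of `β y` has `q`-expansion the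
formal Kronecker norm `V_ℓ y · det (secMat ℓ y)` (`Fermat.Agent.S37.H400.kronNorm`, on main). -/
def NormId (N ℓ : ℕ) [NeZero N] [NeZero ℓ] : Prop :=
  ∀ y : modularFunctionFieldBar N,
    ((heckeNorm N ℓ y : modularFunctionFieldBar N) : LaurentSeries Qb)
      = Fermat.Agent.S37.H400.kronNorm ℓ (y : LaurentSeries Qb)

/-- Target (U): inertia at `A` acts trivially on the `m`-torsion of `J₀(N)(ℚ̄)`. -/
def InertiaTrivialOn (N : ℕ) (A : ValuationSubring Qb) (m : ℕ) : Prop :=
  ∀ τ ∈ A.inertiaSubgroupIn ℚ, ∀ x : JZero N, (m : ℤ) • x = 0 → τ • x = x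

/-- Target (F): every Frobenius element at `A` satisfies the Eichler–Shimura relation
`σ² - T_ℓ σ + ℓ = 0` on the `m`-torsion of `J₀(N)(ℚ̄)` (`T_ℓ` = the RAW Prelude operator). -/
def FrobQuadraticOn (N : ℕ) [NeZero N] (ℓ : ℕ) (hℓ : ℓ.Prime) (A : ValuationSubring Qb)
    (m : ℕ) : Prop :=
  ∀ σ : GQ', A.IsFrobeniusAt σ ℓ → ∀ x : JZero N, (m : ℤ) • x = 0 →
    σ • σ • x - heckeOperatorBar N ⟨ℓ, hℓ⟩ (σ • x) + (ℓ : ℤ) • x = 0

/-- The statement of piece ESK-U. -/
def ESKInertiaStatement : Prop :=
  ∀ (N : ℕ) [NeZero N] (m : ℕ), m ≠ 0 → ∀ A : ValuationSubring Qb,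
    CoreStatement N A m → PrincipalGeneratedByIntegral A (IsLocalRing.residue A) N →
      InertiaTrivialOn N A m

/-- The statement of piece ESK-F. -/
def ESKFrobStatement : Prop :=
  ∀ (N : ℕ) [NeZero N] (ℓ : ℕ) (hℓ : ℓ.Prime) (m : ℕ), m ≠ 0 → ∀ A : ValuationSubring Qb,
    A.LiesOverPrime ℓ →
    CoreStatement N A m → PrincipalGeneratedByIntegral A (IsLocalRing.residue A) N →
    (haveI : NeZero ℓ := ⟨hℓ.ne_zero⟩; HeckeInputsAlong Qb N ℓ) →
    (haveI : NeZero ℓ := ⟨hℓ.ne_zero⟩; NormId N ℓ) →
      FrobQuadraticOn N ℓ hℓ A m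

end Fermat.Agent.S29.H222

end
end
-- ===== PACK-END S29/H222/ESKSpec.lean

-- ===== PACK-BEGIN S30/H709/PeriodLattice.lean
section






/-!
# S30-OCC, the period lattice

`perFun N γ` is the period functional `f ↦ ∫_z^{γ z} f` on `S₂(Γ₀(N))` (Prelude `periodMap`),
`perLattice N` is the subgroup of the dual of `S₂(Γ₀(N))` generated by the period functionals.
It is a finitely generated free abelian group; under the hypothesis `PeriodHecke N fac`
(Hecke-equivariance of the period map: `λ_γ ∘ T_ℓ = ∑_{δ ∈ fac ℓ γ} λ_δ`) it is stable under the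
transposes of all elements of the Hecke algebra, and the Hecke algebra acts faithfully on it
(`perRho`, `perRho_injective`).
-/

set_option autoImplicit false

noncomputable section

namespace Fermat.Agent.S30.H709

open CongruenceSubgroup ModularCurve ModularCurve.Period
open scoped MatrixGroups

/-- `SL(2, ℤ)` is finitely generated. -/
theorem fg_SL2Z : Group.FG SL(2, ℤ) :=
  Group.fg_iff.mpr ⟨{ModularGroup.S, ModularGroup.T}, SpecialLinearGroup.SL2Z_generators,
    Set.toFinite _⟩

/-- `Γ₀(N)` is finitely generated (Schreier). -/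
theorem fg_Gamma0 (N : ℕ) [NeZero N] : Group.FG (Gamma0 N) := by
  have := fg_SL2Z
  exact Subgroup.fg_of_index_ne_zero (Gamma0 N)

section PerFun

variable (N : ℕ) [NeZero N]

/-- The period functional `λ_γ : f ↦ periodMap N f γ` on weight-2 cusp forms. -/
def perFun (γ : Gamma0 N) : Module.Dual ℂ (CuspForm (Gamma0 N) 2) where
  toFun f := periodMap N f (Additive.ofMul γ)
  map_add' f g := by rw [Fermat.Agent.S21.H381.periodMap_add]; rfl
  map_smul' a f := by rw [Fermat.Agent.S21.H381.periodMap_smul]; rfl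

theorem perFun_apply (γ : Gamma0 N) (f : CuspForm (Gamma0 N) 2) :
    perFun N γ f = periodMap N f (Additive.ofMul γ) := rfl

theorem perFun_mul (γ δ : Gamma0 N) : perFun N (γ * δ) = perFun N γ + perFun N δ := by
  refine LinearMap.ext fun f => ?_
  rw [LinearMap.add_apply, perFun_apply, perFun_apply, perFun_apply, ofMul_mul, map_add]

theorem perFun_one : perFun N 1 = 0 := by
  refine LinearMap.ext fun f => ?_
  rw [perFun_apply, ofMul_one, map_zero, LinearMap.zero_apply]

theorem perFun_inv (γ : Gamma0 N) : perFun N γ⁻¹ = - perFun N γ := by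
  refine LinearMap.ext fun f => ?_
  rw [LinearMap.neg_apply, perFun_apply, perFun_apply, ofMul_inv, map_neg]

/-- Period functionals vanish on elements of trace `±2`. -/
theorem perFun_eq_zero_of_trace (γ : Gamma0 N)
    (hγ : ((γ : SL(2, ℤ)) : Matrix (Fin 2) (Fin 2) ℤ).trace ^ 2 = 4) : perFun N γ = 0 := by
  refine LinearMap.ext fun f => ?_
  rw [perFun_apply, LinearMap.zero_apply]
  exact (mem_parabolicHoms_iff.mp (Fermat.Agent.S21.H381.periodMap_mem_parabolicHoms f)) γ hγ

/-- The period map is injective on cusp forms. -/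
theorem periodMap_eq_zero {f : CuspForm (Gamma0 N) 2} (hf : periodMap N f = 0) : f = 0 := by
  have hinj := Fermat.Agent.S21.H81.injective_periodHomPair_of N
    (Fermat.Agent.S21.H381.existsPeriodMapLinear N)
    (fun f => Fermat.Agent.S21.H381.exists_hasEquivariantPrimitive f)
  have h0 : periodHomPair N (f, f) = periodHomPair N 0 := by
    rw [Fermat.Agent.S21.H381.periodHomPair_apply, hf, map_zero, map_zero]
    simp
  have := hinj h0
  exact congrArg Prod.fst this

/-- The period lattice: the subgroup of the dual of `S₂(Γ₀(N))` generated by the period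
functionals. -/
def perLattice : Submodule ℤ (Module.Dual ℂ (CuspForm (Gamma0 N) 2)) :=
  Submodule.span ℤ (Set.range (perFun N))

theorem perFun_mem_perLattice (γ : Gamma0 N) : perFun N γ ∈ perLattice N :=
  Submodule.subset_span ⟨γ, rfl⟩

theorem perLattice_fg : (perLattice N).FG := by
  obtain ⟨G, hG, hfin⟩ := Group.fg_iff.mp (fg_Gamma0 N)
  have hle : perLattice N ≤ Submodule.span ℤ (perFun N '' G) := by
    refine Submodule.span_le.mpr ?_
    rintro _ ⟨γ, rfl⟩
    have hγ : γ ∈ Subgroup.closure G := by rw [hG]; exact Subgroup.mem_top γ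
    induction hγ using Subgroup.closure_induction with
    | mem x hx => exact Submodule.subset_span ⟨x, hx, rfl⟩
    | one => rw [perFun_one]; exact Submodule.zero_mem _
    | mul x y _ _ hx hy => rw [perFun_mul]; exact Submodule.add_mem _ hx hy
    | inv x _ hx => rw [perFun_inv]; exact Submodule.neg_mem _ hx
  have heq : perLattice N = Submodule.span ℤ (perFun N '' G) :=
    le_antisymm hle (Submodule.span_mono (Set.image_subset_range _ _))
  rw [heq]
  exact Submodule.fg_span (hfin.image _)

instance perLattice_finite : Module.Finite ℤ (perLattice N) :=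
  Module.Finite.iff_fg.mpr (perLattice_fg N)

instance perLattice_free : Module.Free ℤ (perLattice N) :=
  Module.free_of_finite_type_torsion_free'

end PerFun

section Hecke

variable (N : ℕ) [NeZero N]

/-- **Hypothesis `PeriodHecke`** (Hecke-equivariance of the period map, to be supplied by the
`M4a`/`E2a` owners): for every prime `ℓ ∤ N`, the period of `T_ℓ f` along `γ` is the sum of the
periods of `f` along the elements of the multiset `fac ℓ γ`
(`= {γ'ᵢ}` with `αᵢ γ = γ'ᵢ α_{π i}`, `αᵢ` the standard coset representatives of `T_ℓ`). -/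
def PeriodHecke (fac : ℕ → Gamma0 N → Multiset (Gamma0 N)) : Prop :=
  ∀ (ℓ : ℕ) (hℓ : ℓ.Prime) (hℓN : ¬ ℓ ∣ N) (f : CuspForm (Gamma0 N) 2) (γ : Gamma0 N),
    periodMap N (CuspForm.heckeTLin 2 hℓ hℓN f) (Additive.ofMul γ)
      = ((fac ℓ γ).map fun δ => periodMap N f (Additive.ofMul δ)).sum

variable {N}

theorem PeriodHecke.transpose_perFun {fac : ℕ → Gamma0 N → Multiset (Gamma0 N)}
    (hPH : PeriodHecke N fac) {ℓ : ℕ} (hℓ : ℓ.Prime) (hℓN : ¬ ℓ ∣ N) (γ : Gamma0 N) :
    Module.Dual.transpose (CuspForm.heckeTLin 2 hℓ hℓN) (perFun N γ)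
      = ((fac ℓ γ).map (perFun N)).sum := by
  refine LinearMap.ext fun f => ?_
  rw [Module.Dual.transpose_apply, LinearMap.comp_apply, perFun_apply, hPH ℓ hℓ hℓN f γ]
  have : ∀ m : Multiset (Gamma0 N),
      ((m.map (perFun N)).sum : Module.Dual ℂ (CuspForm (Gamma0 N) 2)) f
        = (m.map fun δ => periodMap N f (Additive.ofMul δ)).sum := by
    intro m
    induction m using Multiset.induction_on with
    | empty => simp
    | cons a m ih =>
      rw [Multiset.map_cons, Multiset.sum_cons, LinearMap.add_apply, ih, Multiset.map_cons,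
        Multiset.sum_cons, perFun_apply]
  rw [this]

/-- Under `PeriodHecke`, and when `S` contains the primes dividing `N`, the period lattice is
stable under the transpose of every element of the Hecke algebra. -/
theorem transpose_mem_perLattice {fac : ℕ → Gamma0 N → Multiset (Gamma0 N)}
    (hPH : PeriodHecke N fac) {S : Set ℕ} (hNS : ∀ q : ℕ, q.Prime → q ∣ N → q ∈ S)
    {t : Module.End ℂ (CuspForm (Gamma0 N) 2)} (ht : t ∈ CuspForm.heckeAlgebra N 2 S)
    {x : Module.Dual ℂ (CuspForm (Gamma0 N) 2)} (hx : x ∈ perLattice N) :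
    Module.Dual.transpose t x ∈ perLattice N := by
  induction ht using Algebra.adjoin_induction generalizing x with
  | mem t ht =>
    rcases ht with ⟨ℓ, hℓ, hℓN, -, rfl⟩ | ⟨q, hqN, hq, hqS, rfl⟩
    · induction hx using Submodule.span_induction with
      | mem y hy =>
        obtain ⟨γ, rfl⟩ := hy
        rw [hPH.transpose_perFun hℓ hℓN γ]
        refine multiset_sum_mem _ ?_
        intro z hz
        obtain ⟨δ, -, rfl⟩ := Multiset.mem_map.mp hz
        exact perFun_mem_perLattice N δ
      | zero => rw [map_zero]; exact Submodule.zero_mem _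
      | add y z _ _ hy hz => rw [map_add]; exact Submodule.add_mem _ hy hz
      | smul n y _ hy =>
        have : Module.Dual.transpose (CuspForm.heckeTLin 2 hℓ hℓN) (n • y)
            = n • Module.Dual.transpose (CuspForm.heckeTLin 2 hℓ hℓN) y := map_zsmul _ _ _
        rw [this]
        exact Submodule.smul_mem _ _ hy
    · exact absurd (hNS q hq hqN) hqS
  | algebraMap n =>
    have : Module.Dual.transpose (algebraMap ℤ (Module.End ℂ (CuspForm (Gamma0 N) 2)) n) x
        = n • x := by
      refine LinearMap.ext fun f => ?_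
      rw [Module.Dual.transpose_apply, LinearMap.comp_apply, Module.algebraMap_end_apply,
        map_zsmul, LinearMap.smul_apply]
    rw [this]
    exact Submodule.smul_mem _ _ hx
  | add t s _ _ iht ihs =>
    rw [map_add, LinearMap.add_apply]
    exact Submodule.add_mem _ (iht hx) (ihs hx)
  | mul t s _ _ iht ihs =>
    have : Module.Dual.transpose (t * s) x
        = Module.Dual.transpose s (Module.Dual.transpose t x) := by
      refine LinearMap.ext fun f => ?_
      simp only [Module.Dual.transpose_apply, LinearMap.comp_apply, Module.End.mul_apply]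
    rw [this]
    exact ihs (iht hx)

/-- The transpose of a Hecke operator, restricted to the period lattice. -/
def perRhoAux {fac : ℕ → Gamma0 N → Multiset (Gamma0 N)}
    (hPH : PeriodHecke N fac) {S : Set ℕ} (hNS : ∀ q : ℕ, q.Prime → q ∣ N → q ∈ S)
    (t : CuspForm.heckeAlgebra N 2 S) : Module.End ℤ (perLattice N) :=
  ((Module.Dual.transpose (R := ℂ)
      (t : Module.End ℂ (CuspForm (Gamma0 N) 2))).restrictScalars ℤ).restrict
        (p := perLattice N) (q := perLattice N) (fun _ hx => transpose_mem_perLattice hPH hNS t.2 hx)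

theorem perRhoAux_apply {fac : ℕ → Gamma0 N → Multiset (Gamma0 N)}
    (hPH : PeriodHecke N fac) {S : Set ℕ} (hNS : ∀ q : ℕ, q.Prime → q ∣ N → q ∈ S)
    (t : CuspForm.heckeAlgebra N 2 S) (x : perLattice N) (f : CuspForm (Gamma0 N) 2) :
    ((perRhoAux hPH hNS t x : perLattice N) : Module.Dual ℂ (CuspForm (Gamma0 N) 2)) f
      = (x : Module.Dual ℂ (CuspForm (Gamma0 N) 2))
          ((t : Module.End ℂ (CuspForm (Gamma0 N) 2)) f) :=
  rfl

/-- The action of the Hecke algebra on the period lattice (by transposes). -/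
def perRho {fac : ℕ → Gamma0 N → Multiset (Gamma0 N)}
    (hPH : PeriodHecke N fac) {S : Set ℕ} (hNS : ∀ q : ℕ, q.Prime → q ∣ N → q ∈ S) :
    CuspForm.heckeAlgebra N 2 S →+* Module.End ℤ (perLattice N) where
  toFun t := perRhoAux hPH hNS t
  map_one' := by
    refine LinearMap.ext fun x => Subtype.ext ?_
    refine LinearMap.ext fun f => ?_
    rw [perRhoAux_apply]
    rfl
  map_mul' t s := by
    refine LinearMap.ext fun x => Subtype.ext ?_
    refine LinearMap.ext fun f => ?_
    rw [Module.End.mul_apply, perRhoAux_apply, perRhoAux_apply, perRhoAux_apply, mul_comm t s]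
    rfl
  map_zero' := by
    refine LinearMap.ext fun x => Subtype.ext ?_
    refine LinearMap.ext fun f => ?_
    rw [perRhoAux_apply]
    simp
  map_add' t s := by
    refine LinearMap.ext fun x => Subtype.ext ?_
    refine LinearMap.ext fun f => ?_
    rw [LinearMap.add_apply, Submodule.coe_add, LinearMap.add_apply, perRhoAux_apply,
      perRhoAux_apply, perRhoAux_apply, Subalgebra.coe_add, LinearMap.add_apply, map_add]

theorem perRho_apply_apply {fac : ℕ → Gamma0 N → Multiset (Gamma0 N)}
    (hPH : PeriodHecke N fac) {S : Set ℕ} (hNS : ∀ q : ℕ, q.Prime → q ∣ N → q ∈ S)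
    (t : CuspForm.heckeAlgebra N 2 S) (x : perLattice N) (f : CuspForm (Gamma0 N) 2) :
    ((perRho hPH hNS t x : perLattice N) : Module.Dual ℂ (CuspForm (Gamma0 N) 2)) f
      = (x : Module.Dual ℂ (CuspForm (Gamma0 N) 2))
          ((t : Module.End ℂ (CuspForm (Gamma0 N) 2)) f) :=
  rfl

/-- The Hecke algebra acts faithfully on the period lattice. -/
theorem perRho_injective {fac : ℕ → Gamma0 N → Multiset (Gamma0 N)}
    (hPH : PeriodHecke N fac) {S : Set ℕ} (hNS : ∀ q : ℕ, q.Prime → q ∣ N → q ∈ S) :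
    Function.Injective (perRho hPH hNS : CuspForm.heckeAlgebra N 2 S →+* _) := by
  rw [injective_iff_map_eq_zero]
  intro t ht
  apply Subtype.ext
  refine LinearMap.ext fun f => ?_
  rw [ZeroMemClass.coe_zero, LinearMap.zero_apply]
  apply periodMap_eq_zero N
  refine AddMonoidHom.ext fun γ => ?_
  obtain ⟨γ, rfl⟩ : ∃ γ' : Gamma0 N, Additive.ofMul γ' = γ := ⟨Additive.toMul γ, rfl⟩
  have h1 := congrArg (fun u : Module.End ℤ (perLattice N) =>
    ((u ⟨perFun N γ, perFun_mem_perLattice N γ⟩ : perLattice N) :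
      Module.Dual ℂ (CuspForm (Gamma0 N) 2)) f) ht
  simp only [perRho_apply_apply, perFun_apply,
    LinearMap.zero_apply, ZeroMemClass.coe_zero] at h1
  rw [h1, AddMonoidHom.zero_apply]

end Hecke

end Fermat.Agent.S30.H709

end
end
-- ===== PACK-END S30/H709/PeriodLattice.lean

-- ===== PACK-BEGIN Lib/RR/Zeros.lean
section



/-!
# RR library, layer L2: the zeros of `x` number at most `[F : K(x)]`  (Stichtenoth 1.3.3)

Proof.  Let `P_1, …, P_r` be distinct zeros of `x`, `e_i = ord_{P_i} x`.  Choose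
uniformizers `t_i` at `P_i` and (approximation) `s_i` with `ord_{P_i} s_i = 0` and
`ord_{P_k} s_i ≥ M` for `k ≠ i`, `M` large.  The `∑ e_i` elements `t_i ^ a * s_i`
(`0 ≤ a < e_i`) are linearly independent over `K(x)`: the order of a nonzero element of `K(x)`
at `P_i` is `n * e_i` with `n` independent of `i`; in a nontrivial relation pick the term with
lexicographically least `(n, a)`; at its place it has strictly smaller order than all others.
-/

set_option autoImplicit false

noncomputable section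

open AlgebraicCurve Polynomial

namespace Fermat.Agent.Lib.RR

variable {K F : Type*} [Field K] [Field F] [Algebra K F]

theorem add_ne_zero_of_ord_lt (v : Place K F) {f g : F}
    (h : v.ord f < v.ord g) : f + g ≠ 0 := by
  intro h0
  have : g = -f := by rw [← sub_eq_zero, sub_neg_eq_add, add_comm]; exact h0
  rw [this, ord_neg] at h
  exact lt_irrefl _ h

theorem aeval_mem (v : Place K F) {x : F} (hx : 0 ≤ v.ord x) (p : K[X]) :
    aeval x p ∈ v.toValuationSubring := by
  induction p using Polynomial.induction_on' with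
  | add p q hp hq => rw [map_add]; exact add_mem hp hq
  | monomial n c =>
    rw [aeval_monomial]
    exact mul_mem (v.algebraMap_mem' c) (pow_mem (mem_of_ord_nonneg v hx) n)

/-- A polynomial in `x` with nonzero constant term is a unit at every zero of `x`. -/
theorem aeval_of_coeff_zero_ne (v : Place K F) {x : F} (hx : 0 < v.ord x) {p : K[X]}
    (hp : p.coeff 0 ≠ 0) : aeval x p ≠ 0 ∧ v.ord (aeval x p) = 0 := by
  have hdecomp : aeval x p = algebraMap K F (p.coeff 0) + aeval x p.divX * x := by
    conv_lhs => rw [← Polynomial.divX_mul_X_add p]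
    simp [add_comm]
  have hc0 : algebraMap K F (p.coeff 0) ≠ 0 := by
    simpa using hp
  have hc : v.ord (algebraMap K F (p.coeff 0)) = 0 := ord_algebraMap v _
  rcases eq_or_ne (aeval x p.divX * x) 0 with h0 | h0
  · rw [hdecomp, h0, add_zero]; exact ⟨hc0, hc⟩
  · have hx0 : x ≠ 0 := right_ne_zero_of_mul h0
    have hr0 : aeval x p.divX ≠ 0 := left_ne_zero_of_mul h0
    have hr : 0 ≤ v.ord (aeval x p.divX) := ord_nonneg_of_mem v (aeval_mem v hx.le _)
    have hlt : v.ord (algebraMap K F (p.coeff 0)) < v.ord (aeval x p.divX * x) := by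
      rw [hc, v.ord_mul hr0 hx0]; omega
    rw [hdecomp]
    exact ⟨add_ne_zero_of_ord_lt v hlt, by rw [ord_add_eq_of_lt v hc0 h0 hlt, hc]⟩

/-- The order of a nonzero polynomial in `x` at a zero of `x`. -/
theorem aeval_ord (v : Place K F) {x : F} (hx : 0 < v.ord x) {p : K[X]} (hp : p ≠ 0) :
    aeval x p ≠ 0 ∧ v.ord (aeval x p) = (p.rootMultiplicity 0 : ℤ) * v.ord x := by
  obtain ⟨q, hq, hq'⟩ := Polynomial.exists_eq_pow_rootMultiplicity_mul_and_not_dvd p hp 0
  have hq0 : q.coeff 0 ≠ 0 := by
    intro h; apply hq'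
    rw [C_0, sub_zero]; exact Polynomial.X_dvd_iff.mpr h
  obtain ⟨h1, h2⟩ := aeval_of_coeff_zero_ne v hx hq0
  have hx0 : x ≠ 0 := ne_zero_of_ord_ne_zero v hx.ne'
  have hval : aeval x p = x ^ (p.rootMultiplicity 0) * aeval x q := by
    conv_lhs => rw [hq]
    simp
  rw [hval]
  refine ⟨mul_ne_zero (pow_ne_zero _ hx0) h1, ?_⟩
  rw [v.ord_mul (pow_ne_zero _ hx0) h1, ord_pow, h2, add_zero]

/-- **Lemma A**: the order of a nonzero element of `K(x)` at a zero `v` of `x` is a multiple
`n * ord_v x`, with `n` independent of `v`. -/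
theorem exists_ord_eq_mul {x : F} (c : IntermediateField.adjoin K {x}) (hc : c ≠ 0) :
    ∃ n : ℤ, ∀ v : Place K F, 0 < v.ord x → v.ord (c : F) = n * v.ord x := by
  obtain ⟨r, s, hrs⟩ := (IntermediateField.mem_adjoin_simple_iff K (c : F)).mp c.2
  have hcF : (c : F) ≠ 0 := by simpa using hc
  have hr : r ≠ 0 := by
    rintro rfl; apply hcF; rw [hrs]; simp
  have hs : s ≠ 0 := by
    rintro rfl; apply hcF; rw [hrs]; simp
  refine ⟨(r.rootMultiplicity 0 : ℤ) - (s.rootMultiplicity 0 : ℤ), fun v hv => ?_⟩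
  obtain ⟨hr1, hr2⟩ := aeval_ord v hv hr
  obtain ⟨hs1, hs2⟩ := aeval_ord v hv hs
  rw [hrs, div_eq_mul_inv, v.ord_mul hr1 (inv_ne_zero hs1), v.ord_inv, hr2, hs2]
  ring


/-- **L2** (zeros): the zeros of `x`, counted with multiplicity, number at most `[F : K(x)]`. -/
theorem sum_ord_le_finrank (hdeg : ∀ v : Place K F, v.deg = 1) (x : F)
    [FiniteDimensional (IntermediateField.adjoin K {x}) F]
    (S : Finset (Place K F)) (hS : ∀ v ∈ S, 0 < v.ord x) :
    ∑ v ∈ S, v.ord x ≤ (Module.finrank (IntermediateField.adjoin K {x}) F : ℤ) := by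
  classical
  have _ := hdeg
  -- multiplicities
  set e : Place K F → ℕ := fun v => (v.ord x).toNat with he
  have he_cast : ∀ v ∈ S, (e v : ℤ) = v.ord x := fun v hv =>
    Int.toNat_of_nonneg (hS v hv).le
  -- uniformizers
  choose t ht using fun v : Place K F => exists_ord_eq_one v
  have ht0 : ∀ v, t v ≠ 0 := fun v => ne_zero_of_ord_ne_zero v (by rw [ht v]; omega)
  -- the bound `M`
  set M : ℕ := ∑ v ∈ S, e v + ∑ v ∈ S, ∑ w ∈ S, e w * (v.ord (t w)).natAbs with hM
  have hMbound : ∀ v ∈ S, ∀ w ∈ S, e v + e w * (v.ord (t w)).natAbs ≤ M := by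
    intro v hv w hw
    have h1 : e v ≤ ∑ v ∈ S, e v := Finset.single_le_sum (fun _ _ => Nat.zero_le _) hv
    have h2 : e w * (v.ord (t w)).natAbs ≤ ∑ w ∈ S, e w * (v.ord (t w)).natAbs :=
      Finset.single_le_sum (f := fun w => e w * (v.ord (t w)).natAbs)
        (fun _ _ => Nat.zero_le _) hw
    have h3 : ∑ w ∈ S, e w * (v.ord (t w)).natAbs
        ≤ ∑ v ∈ S, ∑ w ∈ S, e w * (v.ord (t w)).natAbs :=
      Finset.single_le_sum (f := fun v => ∑ w ∈ S, e w * (v.ord (t w)).natAbs)
        (fun _ _ => Nat.zero_le _) hv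
    omega
  -- approximating units
  choose s hs0 hsv hsw using fun w : Place K F =>
    exists_unit_zeros w (S.erase w) (Finset.notMem_erase w S) M
  -- the family
  let I := Σ v : S, Fin (e v)
  let b : I → F := fun i => t i.1 ^ (i.2 : ℕ) * s i.1
  have hb0 : ∀ i, b i ≠ 0 := fun i => mul_ne_zero (pow_ne_zero _ (ht0 _)) (hs0 _)
  -- orders of the family
  have hb_self : ∀ (i : I) (v : Place K F), v = i.1 → v.ord (b i) = ((i.2 : ℕ) : ℤ) := by
    rintro i v rfl
    show (i.1 : Place K F).ord (t i.1 ^ (i.2 : ℕ) * s i.1) = _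
    rw [Place.ord_mul _ (pow_ne_zero _ (ht0 _)) (hs0 _), ord_pow, ht, hsv]
    simp
  have hb_other : ∀ (i : I) (v : Place K F), v ∈ S → v ≠ i.1 → (e v : ℤ) ≤ v.ord (b i) := by
    intro i v hv hne
    show (e v : ℤ) ≤ v.ord (t i.1 ^ (i.2 : ℕ) * s i.1)
    rw [Place.ord_mul _ (pow_ne_zero _ (ht0 _)) (hs0 _), ord_pow]
    have h1 : (M : ℤ) ≤ v.ord (s i.1) :=
      hsw i.1 v (Finset.mem_erase.mpr ⟨hne, hv⟩)
    have h2 := hMbound v hv i.1 i.1.2
    have h3 : ((i.2 : ℕ) : ℤ) < e i.1 := by exact_mod_cast i.2.2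
    have h4 : -(((v.ord (t i.1)).natAbs : ℕ) : ℤ) ≤ v.ord (t i.1) := by
      rw [Int.natCast_natAbs]; exact neg_abs_le _
    have h5 : -((e i.1 : ℤ) * ((v.ord (t i.1)).natAbs : ℤ)) ≤ ((i.2 : ℕ) : ℤ) * v.ord (t i.1) := by
      have h6 : (0 : ℤ) ≤ ((i.2 : ℕ) : ℤ) := Int.natCast_nonneg _
      have h7 : (0 : ℤ) ≤ ((v.ord (t i.1)).natAbs : ℤ) := Int.natCast_nonneg _
      nlinarith
    have h2' : (e v : ℤ) + (e i.1 : ℤ) * ((v.ord (t i.1)).natAbs : ℤ) ≤ M := by
      exact_mod_cast h2
    omega
  -- linear independence over `K(x)`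
  have hli : LinearIndependent (IntermediateField.adjoin K {x}) b := by
    rw [Fintype.linearIndependent_iff]
    intro g hg
    by_contra hcon
    simp only [not_forall] at hcon
    obtain ⟨j, hj⟩ := hcon
    -- orders of the coefficients
    have hn : ∀ i : I, ∃ n : ℤ, g i ≠ 0 →
        ∀ v : Place K F, 0 < v.ord x → v.ord ((g i : F)) = n * v.ord x := by
      intro i
      by_cases hgi : g i = 0
      · exact ⟨0, fun h => absurd hgi h⟩
      · obtain ⟨n, hn⟩ := exists_ord_eq_mul (g i) hgi
        exact ⟨n, fun _ => hn⟩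
    choose n hn using hn
    set E : ℤ := ∑ v ∈ S, (e v : ℤ) with hE
    have hE_ge : ∀ v ∈ S, (e v : ℤ) ≤ E := fun v hv =>
      Finset.single_le_sum (f := fun v => (e v : ℤ)) (fun _ _ => Int.natCast_nonneg _) hv
    let T : Finset I := Finset.univ.filter fun i => g i ≠ 0
    have hT : T.Nonempty := ⟨j, by simp [T, hj]⟩
    obtain ⟨i₀, hi₀T, hmin⟩ := T.exists_min_image (fun i => n i * E + ((i.2 : ℕ) : ℤ)) hT
    have hgi₀ : g i₀ ≠ 0 := by simpa [T] using hi₀T
    set v₀ : Place K F := i₀.1.1 with hv₀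
    have hv₀S : v₀ ∈ S := i₀.1.2
    have hv₀x : 0 < v₀.ord x := hS v₀ hv₀S
    have ha₀ : ((i₀.2 : ℕ) : ℤ) < e v₀ := by exact_mod_cast i₀.2.2
    have he₀ : (e v₀ : ℤ) = v₀.ord x := he_cast v₀ hv₀S
    let y : I → F := fun i => (g i : F) * b i
    have hy : ∀ i, g i • b i = y i := fun i => by
      show g i • b i = (g i : F) * b i
      rw [Algebra.smul_def]; rfl
    have hgF : ∀ i, g i ≠ 0 → (g i : F) ≠ 0 := fun i h => by simpa using h
    have hy₀ : y i₀ ≠ 0 := mul_ne_zero (hgF i₀ hgi₀) (hb0 i₀)
    have hord₀ : v₀.ord (y i₀) = n i₀ * v₀.ord x + ((i₀.2 : ℕ) : ℤ) := by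
      show v₀.ord ((g i₀ : F) * b i₀) = _
      rw [v₀.ord_mul (hgF i₀ hgi₀) (hb0 i₀), hn i₀ hgi₀ v₀ hv₀x, hb_self i₀ v₀ rfl]
    have hothers : ∀ i ∈ Finset.univ.erase i₀, y i = 0 ∨ v₀.ord (y i₀) < v₀.ord (y i) := by
      intro i hi
      have hne : i ≠ i₀ := Finset.ne_of_mem_erase hi
      by_cases hgi : g i = 0
      · left; show (g i : F) * b i = 0; rw [hgi]; simp
      right
      have hiT : i ∈ T := by simp [T, hgi]
      have hmin_i := hmin i hiT
      have hai : ((i.2 : ℕ) : ℤ) < e i.1 := by exact_mod_cast i.2.2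
      have hai0 : (0 : ℤ) ≤ ((i.2 : ℕ) : ℤ) := Int.natCast_nonneg _
      have ha₀0 : (0 : ℤ) ≤ ((i₀.2 : ℕ) : ℤ) := Int.natCast_nonneg _
      have hEi : (e i.1 : ℤ) ≤ E := hE_ge i.1 i.1.2
      have hE₀ : (e v₀ : ℤ) ≤ E := hE_ge v₀ hv₀S
      -- `n i ≥ n i₀`
      have hnge : n i₀ ≤ n i := by
        by_contra hlt
        have hlt' : n i + 1 ≤ n i₀ := by omega
        have : (n i + 1) * E ≤ n i₀ * E :=
          mul_le_mul_of_nonneg_right hlt' (by linarith)
        nlinarith
      have hordi : v₀.ord (y i) = n i * v₀.ord x + v₀.ord (b i) := by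
        show v₀.ord ((g i : F) * b i) = _
        rw [v₀.ord_mul (hgF i hgi) (hb0 i), hn i hgi v₀ hv₀x]
      rw [hord₀, hordi]
      by_cases hvi : (i.1 : Place K F) = v₀
      · -- same place
        have hbi : v₀.ord (b i) = ((i.2 : ℕ) : ℤ) := hb_self i v₀ hvi.symm
        rw [hbi]
        rcases hnge.lt_or_eq with hlt | heq
        · have hlt' : n i₀ + 1 ≤ n i := by omega
          have : (n i₀ + 1) * v₀.ord x ≤ n i * v₀.ord x :=
            mul_le_mul_of_nonneg_right hlt' hv₀x.le
          nlinarith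
        · have h1 : ((i₀.2 : ℕ) : ℤ) ≤ ((i.2 : ℕ) : ℤ) := by
            rw [heq] at hmin_i; linarith
          have h2 : ((i₀.2 : ℕ) : ℤ) ≠ ((i.2 : ℕ) : ℤ) := by
            intro h
            apply hne
            have h3 : (i.2 : ℕ) = (i₀.2 : ℕ) := by exact_mod_cast h.symm
            have h4 : i.1 = i₀.1 := Subtype.ext hvi
            obtain ⟨iv, ia⟩ := i
            obtain ⟨jv, ja⟩ := i₀
            simp only at h4 h3
            subst h4
            congr 1
            exact Fin.ext h3
          rw [heq]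
          omega
      · -- different place
        have hbi : (e v₀ : ℤ) ≤ v₀.ord (b i) := hb_other i v₀ hv₀S (fun h => hvi h.symm)
        have : n i₀ * v₀.ord x ≤ n i * v₀.ord x :=
          mul_le_mul_of_nonneg_right hnge hv₀x.le
        omega
    have hsum : y i₀ + ∑ i ∈ Finset.univ.erase i₀, y i = 0 := by
      rw [Finset.add_sum_erase _ _ (Finset.mem_univ i₀)]
      simpa [hy] using hg
    rcases ord_sum_gt v₀ (Finset.univ.erase i₀) y (v₀.ord (y i₀)) hothers with h0 | hgt
    · rw [h0, add_zero] at hsum; exact hy₀ hsum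
    · have : ∑ i ∈ Finset.univ.erase i₀, y i = -y i₀ := by
        rw [← sub_eq_zero, sub_neg_eq_add, add_comm]; exact hsum
      rw [this, ord_neg] at hgt
      exact lt_irrefl _ hgt
  have hcard := hli.fintype_card_le_finrank
  have hcardI : Fintype.card I = ∑ v ∈ S, e v := by
    simp only [I, Fintype.card_sigma, Fintype.card_fin]
    exact Finset.sum_coe_sort S e
  rw [hcardI] at hcard
  have hsum : ∑ v ∈ S, v.ord x = ((∑ v ∈ S, e v : ℕ) : ℤ) := by
    push_cast
    exact Finset.sum_congr rfl fun v hv => (he_cast v hv).symm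
  rw [hsum]
  exact_mod_cast hcard


theorem sum_ord_le_finrank_of_eq (hdeg : ∀ v : Place K F, v.deg = 1) (x : F)
    (L : IntermediateField K F) (hL : L = IntermediateField.adjoin K {x})
    [FiniteDimensional L F]
    (S : Finset (Place K F)) (hS : ∀ v ∈ S, 0 < v.ord x) :
    ∑ v ∈ S, v.ord x ≤ (Module.finrank L F : ℤ) := by
  subst hL
  exact sum_ord_le_finrank hdeg x S hS

theorem adjoin_inv_eq (x : F) :
    IntermediateField.adjoin K {x} = IntermediateField.adjoin K {x⁻¹} := by
  apply le_antisymm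
  · rw [IntermediateField.adjoin_simple_le_iff]
    have := inv_mem (IntermediateField.mem_adjoin_simple_self K x⁻¹)
    rwa [inv_inv] at this
  · rw [IntermediateField.adjoin_simple_le_iff]
    exact inv_mem (IntermediateField.mem_adjoin_simple_self K x)

/-- **L2** (poles): the poles of `x`, counted with multiplicity, number at most `[F : K(x)]`. -/
theorem sum_neg_ord_le_finrank (hdeg : ∀ v : Place K F, v.deg = 1) (x : F)
    [FiniteDimensional (IntermediateField.adjoin K {x}) F]
    (S : Finset (Place K F)) (hS : ∀ v ∈ S, v.ord x < 0) :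
    ∑ v ∈ S, -v.ord x ≤ (Module.finrank (IntermediateField.adjoin K {x}) F : ℤ) := by
  have h := sum_ord_le_finrank_of_eq hdeg x⁻¹ (IntermediateField.adjoin K {x})
    (adjoin_inv_eq x) S (fun v hv => by rw [v.ord_inv]; have := hS v hv; omega)
  simpa [Place.ord_inv] using h

end Fermat.Agent.Lib.RR

end
end
-- ===== PACK-END Lib/RR/Zeros.lean

-- ===== PACK-BEGIN S18/Mod/H216/Asm.lean
section




/-!
# S18 / MOD-ASM (helper216): node_mod from the six PARTS at the concrete objects

Targets for the MOD owners (exact statements; `E` ranges over ALL number fields `E ⊆ Q̄`):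

| part | statement to prove | content |
|---|---|---|
| G-R   | `PartRStatement M A`         | `A ∩ E` is a DVR of `E`, finite residue field (needs `A.LiesOverPrime ℓ`) |
| G-FLD | `PartFldStatement M x`       | constants, `x` transcendental, `[Fc : Ec(x)] < ∞` |
| G-V   | `PartVStatement M A x`       | `Vc M A E` is the Gauss valuation ring (needs S28 `CoreData`, i.e. `ℓ ∤ M`) |
| G-QEP | `PartQepStatement M A x`     | q-expansion principle on the charts `R[x]`, `R[x⁻¹]` |
| G-SEP | `PartSepStatement M A x`     | separability of the residue field of `Vc` over `κ(x̄)` |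
| G-BR  | `PartBrStatement M A x S`    | branch values |

`goodAt_of_parts` : the six statements give `GoodAt M A x S`.
`goodModelStatement_of_parts` : the frozen node `Mod.GoodModelStatement M ℓ A` from the six
statements for `x = j` (`ℓ ≥ 5`) and `GoodAt` for the Hauptmodul coordinates (`ℓ = 2, 3`; M3-T).
-/

set_option autoImplicit false

noncomputable section

namespace Fermat.Agent.S18.Mod.H216

open ModularCurve AlgebraicCurve HahnSeries Fermat.Agent.S18 Fermat.Agent.S18.Mod
open Fermat.Agent.S18.Alg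

/-- **G-R** at the concrete objects. -/
def PartRStatement (M : ℕ) (A : ValuationSubring Qb) : Prop :=
  ∀ E : IntermediateField ℚ Qb, FiniteDimensional ℚ E →
    ∃ w : Om M, PartR (Ec M E) (Rc M A E) w

/-- **G-FLD** at the concrete objects. -/
def PartFldStatement (M : ℕ) (x : Om M) : Prop :=
  ∀ E : IntermediateField ℚ Qb, FiniteDimensional ℚ E →
    PartFld (Lc M) (Ec M E) (Fc M E) x

/-- **G-V** at the concrete objects, for every uniformiser `w`. -/
def PartVStatement (M : ℕ) (A : ValuationSubring Qb) (x : Om M) : Prop :=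
  ∀ E : IntermediateField ℚ Qb, FiniteDimensional ℚ E →
    ∀ w : Om M, PartR (Ec M E) (Rc M A E) w →
      PartV (Fc M E) (Rc M A E) (Vc M A E) w x

/-- **G-QEP** at the concrete objects, for every uniformiser `w`. -/
def PartQepStatement (M : ℕ) (A : ValuationSubring Qb) (x : Om M) : Prop :=
  ∀ E : IntermediateField ℚ Qb, FiniteDimensional ℚ E →
    ∀ w : Om M, PartR (Ec M E) (Rc M A E) w →
      PartQep (Fc M E) (Rc M A E) (Vc M A E) w x

/-- **G-SEP** at the concrete objects, for every uniformiser `w`. -/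
def PartSepStatement (M : ℕ) (A : ValuationSubring Qb) (x : Om M) : Prop :=
  ∀ E : IntermediateField ℚ Qb, FiniteDimensional ℚ E →
    ∀ w : Om M, PartR (Ec M E) (Rc M A E) w →
      PartSep (Rc M A E) (Vc M A E) w x

/-- **G-BR** at the concrete objects. -/
def PartBrStatement (M : ℕ) (A : ValuationSubring Qb) (x : Om M) (S : Finset (Om M)) : Prop :=
  ∀ E : IntermediateField ℚ Qb, FiniteDimensional ℚ E →
    PartBr (Lc M) (Rc M A E) x S

theorem charZero_Om (M : ℕ) : CharZero (Om M) :=
  charZero_of_injective_algebraMap (algebraMap Qb (Om M)).injective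

/-- The six parts give `GoodAt`. -/
theorem goodAt_of_parts {M : ℕ} {A : ValuationSubring Qb} {x : Om M} {S : Finset (Om M)}
    (hR : PartRStatement M A) (hF : PartFldStatement M x) (hV : PartVStatement M A x)
    (hQ : PartQepStatement M A x) (hS : PartSepStatement M A x)
    (hB : PartBrStatement M A x S) : GoodAt M A x S := by
  intro E hE
  obtain ⟨w, hw⟩ := hR E hE
  exact ⟨Vc M A E, w, coe_Vc M A E,
    goodModel_of_parts (charZero_Om M) hw (hF E hE) (hV E hE w hw) (hQ E hE w hw)
      (hS E hE w hw) (hB E hE)⟩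

/-- **MOD assembly**: the frozen node `Mod.GoodModelStatement M ℓ A` from the parts for the
coordinate `j` (used when `ℓ ≥ 5`) and `GoodAt` for the Hauptmodul coordinates (`ℓ = 2, 3`). -/
theorem goodModelStatement_of_parts (M ℓ : ℕ) (A : ValuationSubring Qb)
    (hR : 5 ≤ ℓ → PartRStatement M A)
    (hF : 5 ≤ ℓ → PartFldStatement M (jOm M))
    (hV : 5 ≤ ℓ → PartVStatement M A (jOm M))
    (hQ : 5 ≤ ℓ → PartQepStatement M A (jOm M))
    (hS : 5 ≤ ℓ → PartSepStatement M A (jOm M))
    (hB : 5 ≤ ℓ → ∀ S : Finset (Om M), (∀ s, s ∈ S ↔ s = 0 ∨ s = 1728) →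
      PartBrStatement M A (jOm M) S)
    (ht : ¬ 5 ≤ ℓ → ∀ (x : Om M) (S : Finset (Om M)), IsCoordinate M ℓ x S → GoodAt M A x S) :
    GoodModelStatement M ℓ A := by
  refine goodModelStatement_of_goodAt M ℓ A fun x S hxS => ?_
  by_cases h5 : 5 ≤ ℓ
  · rcases hxS with ⟨-, rfl, hS'⟩ | ⟨h | h, -⟩
    · exact goodAt_of_parts (hR h5) (hF h5) (hV h5) (hQ h5) (hS h5) (hB h5 S hS')
    · omega
    · omega
  · exact ht h5 x S hxS

end Fermat.Agent.S18.Mod.H216

end
end
-- ===== PACK-END S18/Mod/H216/Asm.lean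

-- ===== PACK-BEGIN S18/H456/ModFields.lean
section


/-!
# S18 / MOD assembly (helper456): the fields `compositum`, `E_closed_in_F`, `x_mem`,
`x_transcendental` of `Alg.GoodModel` for the concrete objects
-/

set_option autoImplicit false

noncomputable section

namespace Fermat.Agent.S18.H456

open ModularCurve AlgebraicCurve HahnSeries Fermat.Agent.S18 Fermat.Agent.S18.Mod

/-! ### Algebraic Laurent series are constant -/

section LaurentConst

variable {K : Type*} [Field K]

/-- A Laurent series over a field `K` which is algebraic over `K` is constant. -/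
theorem laurent_const_of_isAlgebraic (f : LaurentSeries K) (hf : IsAlgebraic K f) :
    ∃ c : K, f = algebraMap K (LaurentSeries K) c := by
  have key : ∀ g : LaurentSeries K, IsAlgebraic K g →
      ∃ y : PowerSeries K, algebraMap (PowerSeries K) (LaurentSeries K) y = g := by
    intro g hg
    obtain ⟨p, hpm, hp⟩ := hg.isIntegral
    have h2 : IsIntegral (PowerSeries K) g := by
      refine ⟨p.map (PowerSeries.C (R := K)), hpm.map _, ?_⟩
      rw [Polynomial.eval₂_map]
      exact hp
    exact IsIntegrallyClosed.isIntegral_iff.mp h2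
  obtain ⟨y, hy⟩ := key f hf
  set c₀ := PowerSeries.constantCoeff y with hc₀
  by_cases hg : y - PowerSeries.C c₀ = 0
  · refine ⟨c₀, ?_⟩
    rw [← hy, sub_eq_zero.mp hg]
    rfl
  · exfalso
    have hg' : algebraMap (PowerSeries K) (LaurentSeries K) (y - PowerSeries.C c₀) ≠ 0 := by
      intro h
      exact hg ((injective_iff_map_eq_zero _).1
        (IsFractionRing.injective (PowerSeries K) (LaurentSeries K)) _ h)
    have halg : IsAlgebraic K (algebraMap (PowerSeries K) (LaurentSeries K)
        (y - PowerSeries.C c₀)) := by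
      rw [map_sub, hy]
      refine hf.sub ?_
      have : algebraMap (PowerSeries K) (LaurentSeries K) (PowerSeries.C c₀) =
          algebraMap K (LaurentSeries K) c₀ := rfl
      rw [this]
      exact isAlgebraic_algebraMap c₀
    obtain ⟨z, hz⟩ := key _ halg.inv
    have h1 : algebraMap (PowerSeries K) (LaurentSeries K) ((y - PowerSeries.C c₀) * z) =
        algebraMap (PowerSeries K) (LaurentSeries K) 1 := by
      rw [map_mul, hz, map_one, mul_inv_cancel₀ hg']
    have h2 := IsFractionRing.injective (PowerSeries K) (LaurentSeries K) h1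
    have h3 := congrArg (PowerSeries.constantCoeff (R := K)) h2
    rw [map_mul, map_sub, PowerSeries.constantCoeff_C, ← hc₀, sub_self, zero_mul, map_one] at h3
    exact zero_ne_one h3

end LaurentConst

variable (M : ℕ) (A : ValuationSubring Qb) (E : IntermediateField ℚ Qb)

/-! ### Coefficients of elements of `Fc` lie in `E` -/

/-- The subfield of `Q̄((q))` of series with coefficients in `E`. -/
def coeffField : Subfield (LaurentSeries Qb) :=
  (coeffMap (algebraMap E Qb)).fieldRange

theorem mem_coeffField_iff {g : LaurentSeries Qb} :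
    g ∈ coeffField E ↔ ∃ h : LaurentSeries E, coeffMap (algebraMap E Qb) h = g := Iff.rfl

theorem coeff_mem_of_mem_coeffField {g : LaurentSeries Qb} (hg : g ∈ coeffField E) (n : ℤ) :
    g.coeff n ∈ E := by
  obtain ⟨h, rfl⟩ := hg
  rw [coeffMap_coeff]
  exact (h.coeff n).2

theorem val_cst (c : Qb) : ((cst M c : Om M) : LaurentSeries Qb) =
    HahnSeries.single 0 c := by
  show algebraMap Qb (LaurentSeries Qb) c = _
  exact algebraMap_laurentSeries_eq_single Qb c

theorem coeffEmb_mem_coeffField (z : LaurentSeries ℚ) : coeffEmb Qb z ∈ coeffField E := by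
  refine ⟨coeffMap (algebraMap ℚ E) z, ?_⟩
  rw [coeffMap_coeffMap, coeffEmb]
  exact coeffMap_congr (RingHom.ext_rat _ _) z

theorem val_mem_coeffField {f : Om M} (hf : f ∈ Fc M E) :
    (f : LaurentSeries Qb) ∈ coeffField E := by
  unfold Fc at hf
  induction hf using Subfield.closure_induction with
  | mem y hy =>
      rcases hy with hy | hy
      · obtain ⟨c, hc, rfl⟩ := (mem_Ec_iff M E).1 hy
        rw [val_cst]
        exact ⟨HahnSeries.single 0 ⟨c, hc⟩, by rw [coeffMap_single]; rfl⟩
      · obtain ⟨d, hd, hdM, rfl⟩ := hy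
        exact coeffEmb_mem_coeffField E _
  | one => exact one_mem _
  | add x y _ _ hx hy => exact add_mem hx hy
  | neg x _ hx => exact neg_mem hx
  | inv x _ hx =>
      show ((x⁻¹ : Om M) : LaurentSeries Qb) ∈ _
      rw [show ((x⁻¹ : Om M) : LaurentSeries Qb) = (x : LaurentSeries Qb)⁻¹ from rfl]
      exact inv_mem hx
  | mul x y _ _ hx hy => exact mul_mem hx hy

theorem coeff_mem_of_mem_Fc {f : Om M} (hf : f ∈ Fc M E) (n : ℤ) :
    (f : LaurentSeries Qb).coeff n ∈ E :=
  coeff_mem_of_mem_coeffField E (val_mem_coeffField M E hf) n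

/-! ### Elements of `ℚ(j_d)` lie in `Fc` -/

theorem ratCast_mem_Fc (c : ℚ) : cst M (algebraMap ℚ Qb c) ∈ Fc M E :=
  field_E_le_F M E (cst_mem_Ec M E (E.algebraMap_mem c))

/-- The image of `z ∈ ℚ(j_d : d ∣ M)` in `Ω`. -/
def ofFull [NeZero M] (z : LaurentSeries ℚ) (hz : z ∈ modularFunctionFieldFull M) : Om M :=
  ⟨coeffEmb Qb z, coeffEmb_mem_laurentBaseChange Qb hz⟩

theorem ofFull_mem_Fc [NeZero M] (z : LaurentSeries ℚ) (hz : z ∈ modularFunctionFieldFull M) :
    ofFull M z hz ∈ Fc M E := by
  have hz' := hz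
  unfold modularFunctionFieldFull at hz'
  -- induction over the adjoin, keeping track of membership
  have key : ∀ y (hy : y ∈ IntermediateField.adjoin ℚ (divisorExpansions M)),
      ∃ h : y ∈ modularFunctionFieldFull M, ofFull M y h ∈ Fc M E := by
    intro y hy
    induction hy using IntermediateField.adjoin_induction with
    | mem y hy =>
        obtain ⟨d, hd, hdM, rfl⟩ := hy
        refine ⟨jqd_mem_full M hdM, ?_⟩
        exact Subfield.subset_closure (Or.inr ⟨d, hd, hdM, rfl⟩)
    | algebraMap c =>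
        refine ⟨(modularFunctionFieldFull M).algebraMap_mem c, ?_⟩
        have : ofFull M (algebraMap ℚ (LaurentSeries ℚ) c)
            ((modularFunctionFieldFull M).algebraMap_mem c) = cst M (algebraMap ℚ Qb c) := by
          apply Subtype.ext
          show coeffEmb Qb (algebraMap ℚ (LaurentSeries ℚ) c) = _
          rw [val_cst, coeffEmb, algebraMap_laurentSeries_eq_single, coeffMap_single]
        rw [this]
        exact ratCast_mem_Fc M E c
    | add x y _ _ hx hy =>
        obtain ⟨hx1, hx2⟩ := hx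
        obtain ⟨hy1, hy2⟩ := hy
        refine ⟨add_mem hx1 hy1, ?_⟩
        have : ofFull M (x + y) (add_mem hx1 hy1) = ofFull M x hx1 + ofFull M y hy1 :=
          Subtype.ext (map_add (coeffEmb Qb) x y)
        rw [this]
        exact add_mem hx2 hy2
    | inv x _ hx =>
        obtain ⟨hx1, hx2⟩ := hx
        refine ⟨inv_mem hx1, ?_⟩
        have : ofFull M x⁻¹ (inv_mem hx1) = (ofFull M x hx1)⁻¹ :=
          Subtype.ext (map_inv₀ (coeffEmb Qb) x)
        rw [this]
        exact inv_mem hx2
    | mul x y _ _ hx hy =>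
        obtain ⟨hx1, hx2⟩ := hx
        obtain ⟨hy1, hy2⟩ := hy
        refine ⟨mul_mem hx1 hy1, ?_⟩
        have : ofFull M (x * y) (mul_mem hx1 hy1) = ofFull M x hx1 * ofFull M y hy1 :=
          Subtype.ext (map_mul (coeffEmb Qb) x y)
        rw [this]
        exact mul_mem hx2 hy2
  obtain ⟨_, h⟩ := key z hz'
  exact h

/-! ### `compositum` -/

theorem field_compositum [NeZero M] :
    Subfield.closure ((Fc M E : Set (Om M)) ∪ Lc M) = ⊤ := by
  rw [eq_top_iff]
  rintro ⟨f, hf⟩ -
  set T : Subfield (Om M) := Subfield.closure ((Fc M E : Set (Om M)) ∪ Lc M) with hT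
  let val : Om M →+* LaurentSeries Qb := (modularFunctionFieldBar M).val.toRingHom
  have hle : Subfield.closure
        (Set.range (algebraMap Qb (LaurentSeries Qb)) ∪
          (⇑(coeffEmb Qb) '' (modularFunctionFieldFull M : Set (LaurentSeries ℚ)))) ≤
      T.map val := by
    rw [Subfield.closure_le]
    rintro y (⟨c, rfl⟩ | ⟨z, hz, rfl⟩)
    · exact ⟨cst M c, Subfield.subset_closure (Or.inr (cst_mem_Lc M c)), rfl⟩
    · exact ⟨ofFull M z hz, Subfield.subset_closure (Or.inl (ofFull_mem_Fc M E z hz)), rfl⟩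
  obtain ⟨t, ht, htf⟩ := hle (mem_laurentBaseChange_iff.1 hf)
  have : t = ⟨f, hf⟩ := Subtype.ext htf
  rw [← this]
  exact ht

end Fermat.Agent.S18.H456

end
end
-- ===== PACK-END S18/H456/ModFields.lean

-- ===== PACK-BEGIN S20/Comb/OrbitCounts.lean
section




/-!
# Orbit counts of `S` and `S * T` on `SL(2,ℤ) ⧸ Gamma0 N`, and the genus identity

* `two_mul_card_orbits_S : 2 * #(Q / ⟨S⟩) = ψ(N) + ν₂(N)`
* `three_mul_card_orbits_ST : 3 * #(Q / ⟨S * T⟩) = ψ(N) + 2 * ν₃(N)`
* `genusFormula_eq_of_card_orbits_T` : the Euler-characteristic identity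
  `genusFormula N = 1 + (μ - o₂ - o₃ - o∞) / 2`.
-/

set_option autoImplicit false

namespace Fermat.Agent.S20.Comb

open Matrix MatrixGroups CongruenceSubgroup MulAction Subgroup

/-- `-1` acts trivially on `SL(2,ℤ) ⧸ Γ₀(N)`. -/
lemma neg_one_smul_quotient (N : ℕ) (q : SL(2, ℤ) ⧸ Gamma0 N) : (-1 : SL(2, ℤ)) • q = q := by
  obtain ⟨g, rfl⟩ := QuotientGroup.mk_surjective q
  rw [smul_mk_eq_mk_iff]
  have h : ∀ i j, ((-1 : SL(2, ℤ)) * g) i j = - g i j := by
    intro i j
    rw [neg_mul, one_mul, Matrix.SpecialLinearGroup.coe_neg, Matrix.neg_apply]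
  rw [h, h]
  push_cast
  ring

lemma S_pow_two : ModularGroup.S ^ 2 = (-1 : SL(2, ℤ)) := by
  apply Subtype.ext
  rw [pow_two, Matrix.SpecialLinearGroup.coe_mul, ModularGroup.coe_S,
    Matrix.SpecialLinearGroup.coe_neg, Matrix.SpecialLinearGroup.coe_one]
  ext i j
  fin_cases i <;> fin_cases j <;> simp [Matrix.mul_apply, Fin.sum_univ_two]

lemma ST_pow_three : (ModularGroup.S * ModularGroup.T) ^ 3 = (-1 : SL(2, ℤ)) := by
  apply Subtype.ext
  rw [pow_succ, pow_two, Matrix.SpecialLinearGroup.coe_mul, Matrix.SpecialLinearGroup.coe_mul,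
    coe_S_mul_T, Matrix.SpecialLinearGroup.coe_neg, Matrix.SpecialLinearGroup.coe_one]
  ext i j
  fin_cases i <;> fin_cases j <;> simp [Matrix.mul_apply, Fin.sum_univ_two]

/-- `2 * #(S-orbits) = ψ(N) + ν₂(N)`. -/
theorem two_mul_card_orbits_S (N : ℕ) [NeZero N] :
    2 * Nat.card (orbitRel.Quotient (zpowers ModularGroup.S) (SL(2, ℤ) ⧸ Gamma0 N))
      = ModularCurve.dedekindPsi N + ModularCurve.nuTwo N := by
  have h := prime_mul_card_orbits (X := SL(2, ℤ) ⧸ Gamma0 N) ModularGroup.S 2 Nat.prime_two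
    (fun x => by rw [S_pow_two]; exact neg_one_smul_quotient N x)
  rw [card_quotient_Gamma0, card_fixedBy_S] at h
  exact h.trans (by norm_num)

/-- `3 * #(ST-orbits) = ψ(N) + 2 * ν₃(N)`. -/
theorem three_mul_card_orbits_ST (N : ℕ) [NeZero N] :
    3 * Nat.card (orbitRel.Quotient (zpowers (ModularGroup.S * ModularGroup.T))
        (SL(2, ℤ) ⧸ Gamma0 N))
      = ModularCurve.dedekindPsi N + 2 * ModularCurve.nuThree N := by
  have h := prime_mul_card_orbits (X := SL(2, ℤ) ⧸ Gamma0 N)
    (ModularGroup.S * ModularGroup.T) 3 Nat.prime_three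
    (fun x => by rw [ST_pow_three]; exact neg_one_smul_quotient N x)
  rw [card_quotient_Gamma0, card_fixedBy_ST] at h
  exact h.trans (by norm_num)

/-- The Euler-characteristic identity: with `μ = #Q`, `o₂`, `o₃`, `o∞` the numbers of orbits of
`S`, `S * T`, `T` on `Q = SL(2,ℤ) ⧸ Γ₀(N)`, one has `genusFormula N = 1 + (μ - o₂ - o₃ - o∞) / 2`,
provided `o∞ = cuspCount N`. -/
theorem genusFormula_eq_of_card_orbits_T (N : ℕ) [NeZero N]
    (hT : Nat.card (orbitRel.Quotient (zpowers ModularGroup.T) (SL(2, ℤ) ⧸ Gamma0 N))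
      = ModularCurve.cuspCount N) :
    ModularCurve.genusFormula N
      = 1 + ((Nat.card (SL(2, ℤ) ⧸ Gamma0 N) : ℚ)
          - (Nat.card (orbitRel.Quotient (zpowers ModularGroup.S) (SL(2, ℤ) ⧸ Gamma0 N)) : ℚ)
          - (Nat.card (orbitRel.Quotient (zpowers (ModularGroup.S * ModularGroup.T))
              (SL(2, ℤ) ⧸ Gamma0 N)) : ℚ)
          - (Nat.card (orbitRel.Quotient (zpowers ModularGroup.T)
              (SL(2, ℤ) ⧸ Gamma0 N)) : ℚ)) / 2 := by
  have h2 := two_mul_card_orbits_S N
  have h3 := three_mul_card_orbits_ST N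
  have h2' := congrArg (Nat.cast : ℕ → ℚ) h2
  have h3' := congrArg (Nat.cast : ℕ → ℚ) h3
  push_cast at h2' h3'
  rw [hT, card_quotient_Gamma0, ModularCurve.genusFormula]
  linear_combination (1 / 4 : ℚ) * h2' + (1 / 6 : ℚ) * h3'

/-- Orbit-count form used by dimension bounds: `μ + 2 - o₂ - o₃ - o∞ = 2 * genusFormula N`. -/
theorem two_mul_genusFormula_of_card_orbits_T (N : ℕ) [NeZero N]
    (hT : Nat.card (orbitRel.Quotient (zpowers ModularGroup.T) (SL(2, ℤ) ⧸ Gamma0 N))
      = ModularCurve.cuspCount N) :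
    2 * ModularCurve.genusFormula N
      + (Nat.card (orbitRel.Quotient (zpowers ModularGroup.S) (SL(2, ℤ) ⧸ Gamma0 N)) : ℚ)
      + (Nat.card (orbitRel.Quotient (zpowers (ModularGroup.S * ModularGroup.T))
          (SL(2, ℤ) ⧸ Gamma0 N)) : ℚ)
      + (Nat.card (orbitRel.Quotient (zpowers ModularGroup.T) (SL(2, ℤ) ⧸ Gamma0 N)) : ℚ)
      = (Nat.card (SL(2, ℤ) ⧸ Gamma0 N) : ℚ) + 2 := by
  rw [genusFormula_eq_of_card_orbits_T N hT]
  ring

end Fermat.Agent.S20.Comb

end
-- ===== PACK-END S20/Comb/OrbitCounts.lean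

-- ===== PACK-BEGIN S18/H107/T2Qep.lean
section






/-!
# helper107 — S18 / M3-T : QEP for the Hauptmodul `t = t₂` of `X₀(2)` (case `ℓ = 3`)

Input: the relation `j * t ^ 2 = (t + 256) ^ 3`, `2⁻¹ ∈ R`, QEP for the charts of `j` and `j⁻¹`.
Output: QEP for the charts of `t` and `t⁻¹` (`qep_t2_fin107`, `qep_t2_inf107`).
-/

set_option autoImplicit false

namespace Fermat.Agent.S18.H107

open Polynomial Fermat.Agent.S18.Alg

variable {Ω : Type*} [Field Ω]

/-- The Hauptmodul relation for `X₀(2)` together with the needed side conditions. -/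
structure HauptT2107 (Fc : Subfield Ω) (R V : Subring Ω) (j t : Ω) : Prop where
  rel : j * t ^ 2 = (t + 256) ^ 3
  two_inv : (2 : Ω)⁻¹ ∈ R
  two_ne : (2 : Ω) ≠ 0
  j_ne : j ≠ 0
  t_mem_Fc : t ∈ Fc
  t_mem_V : t ∈ V
  t256_inv_mem_V : (t + 256)⁻¹ ∈ V

namespace HauptT2107

variable {Fc : Subfield Ω} {R V : Subring Ω} {j t : Ω}

theorem c256_ne (h : HauptT2107 Fc R V j t) : (256 : Ω) ≠ 0 := by
  have : (256 : Ω) = 2 ^ 8 := by norm_num
  rw [this]
  exact pow_ne_zero _ h.two_ne

theorem inv256_mem (h : HauptT2107 Fc R V j t) : (256 : Ω)⁻¹ ∈ R := by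
  have := R.pow_mem h.two_inv 8
  have e : ((2 : Ω)⁻¹) ^ 8 = (256 : Ω)⁻¹ := by norm_num
  rwa [e] at this

theorem t_ne (h : HauptT2107 Fc R V j t) : t ≠ 0 := by
  intro ht
  have := h.rel
  rw [ht] at this
  have h256 := h.c256_ne
  have h3 : (256 : Ω) ^ 3 = 0 := by
    have e : ((0 : Ω) + 256) ^ 3 = 256 ^ 3 := by ring
    rw [← e, ← this]
    ring
  exact h256 (pow_eq_zero_iff (by norm_num) |>.1 h3)

theorem t256_ne (h : HauptT2107 Fc R V j t) : t + 256 ≠ 0 := by
  intro ht
  have := h.rel
  rw [ht] at this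
  have h0 : j * t ^ 2 = 0 := by rw [this]; ring
  rcases mul_eq_zero.1 h0 with hj | ht0
  · exact h.j_ne hj
  · exact h.t_ne (pow_eq_zero_iff (by norm_num) |>.1 ht0)

/-- `t` is integral over `R[j]`. -/
theorem t_int (h : HauptT2107 Fc R V j t) : t ∈ intCl107 (polyRing R j) := by
  refine mem_intCl_of_cubic107 _ t (768 - j) 196608 16777216 ?_ (ofNat_mem _ _) (ofNat_mem _ _) ?_
  · exact Subring.sub_mem _ (ofNat_mem _ _) (self_mem_polyRing107 R j)
  · linear_combination -h.rel

/-- `h = t / (t + 256)` is integral over `R[j⁻¹]`. -/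
theorem h_int (h : HauptT2107 Fc R V j t) : t * (t + 256)⁻¹ ∈ intCl107 (polyRing R j⁻¹) := by
  refine mem_intCl_of_cubic107 _ _ (-1) 0 (256 * j⁻¹) ?_ (Subring.zero_mem _) ?_ ?_
  · exact Subring.neg_mem _ (Subring.one_mem _)
  · exact Subring.mul_mem _ (ofNat_mem _ _) (self_mem_polyRing107 R j⁻¹)
  · have hj := h.j_ne
    have ht := h.t256_ne
    field_simp
    linear_combination (-256 : Ω) * h.rel

/-- `t⁻¹` is integral over `R[j]` (uses `2⁻¹ ∈ R`). -/
theorem tinv_int (h : HauptT2107 Fc R V j t) : t⁻¹ ∈ intCl107 (polyRing R j) := by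
  have h256 := h.inv256_mem
  have hR := le_polyRing107 R j
  refine mem_intCl_of_cubic107 _ _ (3 * (256 : Ω)⁻¹) ((768 - j) * ((256 : Ω)⁻¹) ^ 3)
    (((256 : Ω)⁻¹) ^ 3) ?_ ?_ ?_ ?_
  · exact Subring.mul_mem _ (ofNat_mem _ _) (hR h256)
  · exact Subring.mul_mem _ (Subring.sub_mem _ (ofNat_mem _ _) (self_mem_polyRing107 R j))
      (Subring.pow_mem _ (hR h256) 3)
  · exact Subring.pow_mem _ (hR h256) 3
  · have ht := h.t_ne
    have hc := h.c256_ne
    field_simp
    linear_combination -h.rel

theorem open1_fin (h : HauptT2107 Fc R V j t) : OpenData107 Fc R V t j t 1 where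
  g_mem := self_mem_polyRing107 R t
  e_mem_Fc := Fc.one_mem
  e_mem_V := V.one_mem
  e_int := Subring.one_mem _
  xe_int := by rw [mul_one]; exact h.t_int
  y_loc := ⟨2, by
    rw [h.rel]
    exact le_intCl107 _ (Subring.pow_mem _
      (Subring.add_mem _ (self_mem_polyRing107 R t) (ofNat_mem _ _)) 3)⟩
  e_inv := ⟨1, Subring.one_mem _, 0, by simp⟩

theorem open2_fin (h : HauptT2107 Fc R V j t) :
    OpenData107 Fc R V t j⁻¹ (t + 256) (256 * (t + 256)⁻¹) where
  g_mem := Subring.add_mem _ (self_mem_polyRing107 R t) (ofNat_mem _ _)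
  e_mem_Fc := Fc.mul_mem (ofNat_mem _ _)
    (Fc.inv_mem (Fc.add_mem h.t_mem_Fc (ofNat_mem _ _)))
  e_mem_V := V.mul_mem (ofNat_mem _ _) h.t256_inv_mem_V
  e_int := by
    have e : 256 * (t + 256)⁻¹ = 1 - t * (t + 256)⁻¹ := by
      have ht := h.t256_ne
      field_simp
      ring
    rw [e]
    exact Subring.sub_mem _ (Subring.one_mem _) h.h_int
  xe_int := by
    have e : t * (256 * (t + 256)⁻¹) = 256 * (t * (t + 256)⁻¹) := by ring
    rw [e]
    exact Subring.mul_mem _ (ofNat_mem _ _) h.h_int
  y_loc := ⟨3, by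
    have e : j⁻¹ * (t + 256) ^ 3 = t ^ 2 := by
      have hj := h.j_ne
      field_simp
      linear_combination -h.rel
    rw [e]
    exact le_intCl107 _ (Subring.pow_mem _ (self_mem_polyRing107 R t) 2)⟩
  e_inv := ⟨(t + 256) * (256 : Ω)⁻¹,
    le_intCl107 _ (Subring.mul_mem _ (Subring.add_mem _ (self_mem_polyRing107 R t) (ofNat_mem _ _))
      (le_polyRing107 R t h.inv256_mem)), 0, by
    have ht := h.t256_ne
    have hc := h.c256_ne
    field_simp⟩

theorem open1_inf (h : HauptT2107 Fc R V j t) : OpenData107 Fc R V t⁻¹ j t⁻¹ 1 where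
  g_mem := self_mem_polyRing107 R t⁻¹
  e_mem_Fc := Fc.one_mem
  e_mem_V := V.one_mem
  e_int := Subring.one_mem _
  xe_int := by rw [mul_one]; exact h.tinv_int
  y_loc := ⟨1, by
    have e : j * t⁻¹ ^ 1 = (1 + 256 * t⁻¹) ^ 3 := by
      have ht := h.t_ne
      field_simp
      linear_combination h.rel
    rw [e]
    exact le_intCl107 _ (Subring.pow_mem _ (Subring.add_mem _ (Subring.one_mem _)
      (Subring.mul_mem _ (ofNat_mem _ _) (self_mem_polyRing107 R t⁻¹))) 3)⟩
  e_inv := ⟨1, Subring.one_mem _, 0, by simp⟩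

theorem open2_inf (h : HauptT2107 Fc R V j t) :
    OpenData107 Fc R V t⁻¹ j⁻¹ (1 + 256 * t⁻¹) (t * (t + 256)⁻¹) where
  g_mem := Subring.add_mem _ (Subring.one_mem _)
    (Subring.mul_mem _ (ofNat_mem _ _) (self_mem_polyRing107 R t⁻¹))
  e_mem_Fc := Fc.mul_mem h.t_mem_Fc (Fc.inv_mem (Fc.add_mem h.t_mem_Fc (ofNat_mem _ _)))
  e_mem_V := V.mul_mem h.t_mem_V h.t256_inv_mem_V
  e_int := h.h_int
  xe_int := by
    have e : t⁻¹ * (t * (t + 256)⁻¹) = (1 - t * (t + 256)⁻¹) * (256 : Ω)⁻¹ := by
      have ht := h.t_ne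
      have ht' := h.t256_ne
      have hc := h.c256_ne
      field_simp
      ring
    rw [e]
    exact Subring.mul_mem _ (Subring.sub_mem _ (Subring.one_mem _) h.h_int)
      (le_intCl107 _ (le_polyRing107 R j⁻¹ h.inv256_mem))
  y_loc := ⟨3, by
    have e : j⁻¹ * (1 + 256 * t⁻¹) ^ 3 = t⁻¹ := by
      have hj := h.j_ne
      have ht := h.t_ne
      field_simp
      linear_combination -h.rel
    rw [e]
    exact le_intCl107 _ (self_mem_polyRing107 R t⁻¹)⟩
  e_inv := ⟨1 + 256 * t⁻¹, le_intCl107 _ (Subring.add_mem _ (Subring.one_mem _)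
      (Subring.mul_mem _ (ofNat_mem _ _) (self_mem_polyRing107 R t⁻¹))), 0, by
    have ht := h.t_ne
    have ht' := h.t256_ne
    field_simp⟩

/-- **QEP for the chart of `t₂`.** -/
theorem qep_fin (h : HauptT2107 Fc R V j t) {w : Ω} (hw : w ∈ Fc)
    (q₁ : Qep107 Fc R V w j) (q₂ : Qep107 Fc R V w j⁻¹) : Qep107 Fc R V w t := by
  refine qep_transfer107 (a := -(256 : Ω)⁻¹) (b := (256 : Ω)⁻¹) hw q₁ q₂ h.open1_fin h.open2_fin
    (Subring.neg_mem _ (le_polyRing107 R t h.inv256_mem)) (le_polyRing107 R t h.inv256_mem) ?_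
  have hc := h.c256_ne
  field_simp
  ring

/-- **QEP for the chart of `t₂⁻¹`.** -/
theorem qep_inf (h : HauptT2107 Fc R V j t) {w : Ω} (hw : w ∈ Fc)
    (q₁ : Qep107 Fc R V w j) (q₂ : Qep107 Fc R V w j⁻¹) : Qep107 Fc R V w t⁻¹ := by
  refine qep_transfer107 (a := -256) (b := 1) hw q₁ q₂ h.open1_inf h.open2_inf
    (Subring.neg_mem _ (ofNat_mem _ _)) (Subring.one_mem _) ?_
  ring

end HauptT2107

end Fermat.Agent.S18.H107

end
-- ===== PACK-END S18/H107/T2Qep.lean

-- ===== PACK-BEGIN S18/H203/LiftBasis.lean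
section


/-!
# S18 / b1 (helper203): lifting a basis of the special fibre — local freeness along `w = 0`

`S` a Noetherian integrally closed domain, `w ∈ S` prime, `S̄ = S ⧸ (w)`, `B` the integral
closure of `S` in a finite extension `F` of `K = Frac S`, finite over `S`, `B̄ = B ⧸ (w) B`.
Let `b : ι → B` be a finite family whose reduction is an `S̄`-basis of `B̄`.  Then

* `exists_smul_mem_span` : there is `r ∈ S`, `r ≡ 1 mod w`, with `r • B ⊆ span_S b`
  (Nakayama), i.e. `b` generates `B` over the localisation `S[1/r]`;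
* `linearIndependent_lift` : `b` is linearly independent over `S`;
* `basisOfLift` : the image of `b` in `F` is a `K`-basis of `F`; in particular
  `card ι = [F : K]` (`card_eq_finrank`).

So `B` is free with basis `b` over the semi-local ring `(1 + w S)⁻¹ S`, in particular over the
local rings of `S` at all primes containing `w`: "B is locally free of rank `[F : K]` along the
special fibre".
-/

set_option autoImplicit false

namespace Fermat.Agent.S18.H203

open Ideal

section

variable {S B : Type*} [CommRing S] [CommRing B] [Algebra S B]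

/-- The reduction map `B → B ⧸ (w) B`. -/
abbrev redB (w : S) : B →+* B ⧸ (Ideal.span {w}).map (algebraMap S B) :=
  Ideal.Quotient.mk _

/-- The reduction map `S → S ⧸ (w)`. -/
abbrev redS (w : S) : S →+* S ⧸ Ideal.span {w} :=
  Ideal.Quotient.mk _

theorem redB_smul (w : S) (s : S) (β : B) :
    redB w (s • β) = redS w s • redB (S := S) w β := by
  rw [Ideal.Quotient.mk_smul_mk_quotient_map_quotient, Algebra.smul_def]

theorem redB_eq_zero_iff (w : S) (β : B) :
    redB (S := S) w β = 0 ↔ algebraMap S B w ∣ β := by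
  rw [Ideal.Quotient.eq_zero_iff_mem, mem_map_span_singleton_iff]

theorem redS_eq_zero_iff (w : S) (s : S) : redS w s = 0 ↔ w ∣ s := by
  rw [Ideal.Quotient.eq_zero_iff_mem, Ideal.mem_span_singleton]

variable {ι : Type*} [Fintype ι]

/-- Every element of `B` is congruent mod `w` to an `S`-combination of the lifts. -/
theorem exists_sum_add_mul (w : S) (b : ι → B)
    (hspan : Submodule.span (S ⧸ Ideal.span {w}) (Set.range fun i => redB (S := S) w (b i)) = ⊤)
    (β : B) : ∃ (c : ι → S) (β' : B), β = ∑ i, c i • b i + algebraMap S B w * β' := by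
  have hβ : redB (S := S) w β ∈
      Submodule.span (S ⧸ Ideal.span {w}) (Set.range fun i => redB (S := S) w (b i)) := by
    rw [hspan]; exact Submodule.mem_top
  obtain ⟨cb, hcb⟩ := (Submodule.mem_span_range_iff_exists_fun _).mp hβ
  choose c hc using fun i => Ideal.Quotient.mk_surjective (cb i)
  have h1 : redB (S := S) w (β - ∑ i, c i • b i) = 0 := by
    rw [map_sub, map_sum, ← hcb, sub_eq_zero]
    refine Finset.sum_congr rfl fun i _ => ?_
    rw [redB_smul, hc i]
  rw [redB_eq_zero_iff] at h1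
  obtain ⟨β', hβ'⟩ := h1
  exact ⟨c, β', by rw [← hβ']; ring⟩

/-- **Nakayama**: a single `r ≡ 1 mod w` with `r • B ⊆ span_S b`. -/
theorem exists_smul_mem_span [Module.Finite S B] (w : S) (b : ι → B)
    (hspan : Submodule.span (S ⧸ Ideal.span {w}) (Set.range fun i => redB (S := S) w (b i)) = ⊤) :
    ∃ r : S, r - 1 ∈ Ideal.span {w} ∧
      ∀ β : B, r • β ∈ Submodule.span S (Set.range b) := by
  set N : Submodule S B := Submodule.span S (Set.range b) with hN
  have hfg : (⊤ : Submodule S (B ⧸ N)).FG := Module.finite_def.mp inferInstance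
  have hle : (⊤ : Submodule S (B ⧸ N)) ≤ Ideal.span {w} • ⊤ := by
    intro x _
    obtain ⟨β, rfl⟩ := N.mkQ_surjective x
    obtain ⟨c, β', hβ⟩ := exists_sum_add_mul w b hspan β
    have h1 : N.mkQ β = w • N.mkQ β' := by
      rw [hβ, map_add, ← map_smul, Algebra.smul_def]
      have h2 : N.mkQ (∑ i, c i • b i) = 0 := by
        rw [Submodule.mkQ_apply, Submodule.Quotient.mk_eq_zero]
        exact Submodule.sum_mem _ fun i _ =>
          Submodule.smul_mem _ _ (Submodule.subset_span ⟨i, rfl⟩)
      rw [h2, zero_add]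
    rw [h1]
    exact Submodule.smul_mem_smul (Ideal.mem_span_singleton_self w) Submodule.mem_top
  obtain ⟨r, hr1, hr⟩ :=
    Submodule.exists_sub_one_mem_and_smul_eq_zero_of_fg_of_le_smul (Ideal.span {w}) ⊤ hfg hle
  refine ⟨r, hr1, fun β => ?_⟩
  have h3 := hr (N.mkQ β) Submodule.mem_top
  rw [← map_smul, Submodule.mkQ_apply, Submodule.Quotient.mk_eq_zero] at h3
  exact h3

end

section Indep

variable {S B : Type*} [CommRing S] [IsDomain S] [IsNoetherianRing S]
  [CommRing B] [Algebra S B] [Module.IsTorsionFree S B]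
  {ι : Type*} [Fintype ι]

/-- In a Noetherian domain, an element divisible by all powers of a prime element is zero. -/
theorem eq_zero_of_forall_pow_dvd {w : S} (hw : Prime w) {a : S} (h : ∀ k : ℕ, w ^ k ∣ a) :
    a = 0 := by
  by_contra ha
  have hfin : FiniteMultiplicity w a := FiniteMultiplicity.of_not_isUnit hw.not_isUnit ha
  obtain ⟨n, hn⟩ := hfin
  exact hn (h (n + 1))

/-- **Linear independence of the lifts.** -/
theorem linearIndependent_lift {w : S} (hw : Prime w) (b : ι → B)
    (hli : LinearIndependent (S ⧸ Ideal.span {w}) fun i => redB (S := S) w (b i)) :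
    LinearIndependent S b := by
  rw [Fintype.linearIndependent_iff]
  intro a ha
  -- all coefficients are divisible by all powers of `w`
  have key : ∀ k : ℕ, ∀ a : ι → S, ∑ i, a i • b i = 0 → ∀ i, w ^ k ∣ a i := by
    intro k
    induction k with
    | zero => intro a _ i; simp
    | succ k ih =>
      intro a ha i
      have h1 := ih a ha
      choose a' ha' using h1
      have h2 : ∑ i, a' i • b i = 0 := by
        have h3 : w ^ k • ∑ i, a' i • b i = 0 := by
          rw [Finset.smul_sum, ← ha]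
          refine Finset.sum_congr rfl fun i _ => ?_
          rw [smul_smul, ← ha' i]
        exact (smul_eq_zero_iff_right (pow_ne_zero k hw.ne_zero)).mp h3
      have h4 : ∑ i, redS w (a' i) • redB (S := S) w (b i) = 0 := by
        have := congrArg (redB (S := S) w) h2
        rw [map_sum, map_zero] at this
        rw [← this]
        refine Finset.sum_congr rfl fun i _ => ?_
        rw [redB_smul]
      have h5 := Fintype.linearIndependent_iff.mp hli _ h4 i
      rw [redS_eq_zero_iff] at h5
      obtain ⟨c, hc⟩ := h5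
      exact ⟨c, by rw [ha' i, hc, pow_succ]; ring⟩
  intro i
  exact eq_zero_of_forall_pow_dvd hw fun k => key k a ha i

end Indep

end Fermat.Agent.S18.H203

end
-- ===== PACK-END S18/H203/LiftBasis.lean

-- ===== PACK-BEGIN S18/B12/H444/GenericDiscr.lean
section




/-!
# S18 / b2.5 / A5 (helper444): the generic-fibre discriminant bound

Frozen statement: `GenericDiscrStatement` of `Fermat/Agent/S18/B12/Spec2.lean` (helper33);
exact-shape theorem `genericDiscr : GenericDiscrStatement` in `GenericDiscrSpec.lean`.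

Main theorem here (abstract over the localisations `Λ = P[1/w]`, `C₀ = B[1/w]`):

    theorem genericDiscr_abs  -- P int. closed noetherian domain, B normal finite torsion-free / P,
        (w : P) (hw0 : w ≠ 0) Λ C₀ [IsLocalization (powers w) Λ]
        [IsLocalization (algebraMapSubmonoid B (powers w)) C₀] [IsPrincipalIdealRing Λ] [Algebra ℚ Λ]
        (π : P) (hπ : Prime π) (hπw : ¬ π ∣ w) (n) (x : Fin n → B) (hli : LinearIndependent P x)
        (g : P) (hgπ : ¬ π ∣ g) (hg : ∀ b, g • b ∈ span P (range x)) (r) (y : Fin r → B)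
        (hy : ∀ a, ∑ i, a i • y i ∈ (span {algebraMap P B π}).radical → ∀ i, π ∣ a i) :
        ¬ π ^ (n - r + 1) ∣ (Matrix.of fun i j => Algebra.intTrace P B (x i * x j)).det

Proof: `C₀` is a Dedekind domain, free of rank `n` over the PID `Λ`; the integral trace localises
(`Algebra.intTrace_eq_of_isLocalization`); the base-change matrix `U` from a `Λ`-basis `β` of `C₀`
to `x` has `t ∤ det U` (`t` = image of `π`), so `t^k ∣ disc(x) = det U² · disc β` forces
`t^k ∣ disc β`, contradicting helper274's tame bound `H274.tameDiscr`.  The independence of `y`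
modulo `rad(t C₀)` descends from `B` by clearing denominators and the regular-sequence lemma
`dvd_of_mul_eq_mul` (A0-type, via helper203's `isIntegral_of_isIntegral_mul`).
-/

set_option autoImplicit false

noncomputable section

namespace Fermat.Agent.S18.B12.H444

open Polynomial Module Matrix

universe u v

section RegSeq

variable {P : Type u} [CommRing P] [IsDomain P] [IsIntegrallyClosed P]
  {B : Type v} [CommRing B] [IsDomain B] [IsIntegrallyClosed B] [Algebra P B]
  [Algebra.IsIntegral P B] [Module.IsTorsionFree P B]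

/-- Regular sequence (A0-type): `π` prime in `P`, `π ∤ u`, `u z ∈ π B` implies `z ∈ π B`. -/
theorem dvd_of_mul_eq_mul {π u : P} (hπ : Prime π) (hu : ¬ π ∣ u) {z b : B}
    (h : algebraMap P B u * z = algebraMap P B π * b) :
    ∃ b'' : B, z = algebraMap P B π * b'' := by
  let K := FractionRing P
  let F := FractionRing B
  letI : Algebra K F := FractionRing.liftAlgebra P F
  haveI : IsScalarTower P K F := FractionRing.isScalarTower_liftAlgebra P F
  have hinjPB : Function.Injective (algebraMap P B) := FaithfulSMul.algebraMap_injective P B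
  have hπB : algebraMap P B π ≠ 0 := (map_ne_zero_iff _ hinjPB).mpr hπ.ne_zero
  have hπF : algebraMap P F π ≠ 0 := by
    rw [IsScalarTower.algebraMap_apply P B F]
    exact (map_ne_zero_iff _ (IsFractionRing.injective B F)).mpr hπB
  set ζ : F := (algebraMap P F π)⁻¹ * algebraMap B F z with hζ
  have h1 : algebraMap P F π * ζ = algebraMap B F z := by
    rw [hζ, mul_inv_cancel_left₀ hπF]
  have h2 : algebraMap P F u * ζ = algebraMap B F b := by
    have h' := congrArg (algebraMap B F) h
    rw [map_mul, map_mul, ← IsScalarTower.algebraMap_apply P B F,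
      ← IsScalarTower.algebraMap_apply P B F] at h'
    rw [hζ, mul_left_comm, h', inv_mul_cancel_left₀ hπF]
  have hint : IsIntegral P ζ := by
    refine Fermat.Agent.S18.H203.isIntegral_of_isIntegral_mul K hπ hu ?_ ?_
    · rw [h1]
      exact (Algebra.IsIntegral.isIntegral (R := P) z).map (IsScalarTower.toAlgHom P B F)
    · rw [h2]
      exact (Algebra.IsIntegral.isIntegral (R := P) b).map (IsScalarTower.toAlgHom P B F)
  have hintB : IsIntegral B ζ := hint.tower_top
  obtain ⟨b'', hb''⟩ := (IsIntegrallyClosed.isIntegral_iff (R := B) (K := F)).mp hintB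
  refine ⟨b'', ?_⟩
  apply IsFractionRing.injective B F
  rw [map_mul, hb'', ← h1, IsScalarTower.algebraMap_apply P B F]

end RegSeq

section Loc

theorem powers_le_nonZeroDivisors' {P : Type u} [CommRing P] [IsDomain P] (w : P) (hw0 : w ≠ 0) :
    Submonoid.powers w ≤ nonZeroDivisors P := by
  rintro a ⟨k, rfl⟩
  exact mem_nonZeroDivisors_of_ne_zero (pow_ne_zero k hw0)

theorem map_powers_le_nonZeroDivisors' {P : Type u} [CommRing P] [IsDomain P]
    (B : Type v) [CommRing B] [IsDomain B] [Algebra P B] [Module.IsTorsionFree P B]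
    (w : P) (hw0 : w ≠ 0) :
    Algebra.algebraMapSubmonoid B (Submonoid.powers w) ≤ nonZeroDivisors B := by
  rintro a ⟨b, ⟨k, rfl⟩, rfl⟩
  refine mem_nonZeroDivisors_of_ne_zero ?_
  exact (map_ne_zero_iff _ (FaithfulSMul.algebraMap_injective P B)).mpr (pow_ne_zero k hw0)

theorem isDomain_loc {P : Type u} [CommRing P] [IsDomain P]
    (B : Type v) [CommRing B] [IsDomain B] [Algebra P B] [Module.IsTorsionFree P B]
    (w : P) (C₀ : Type v) [CommRing C₀] [Algebra B C₀]
    [IsLocalization (Algebra.algebraMapSubmonoid B (Submonoid.powers w)) C₀]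
    (hw0 : w ≠ 0) : IsDomain C₀ :=
  IsLocalization.isDomain_of_le_nonZeroDivisors _ (map_powers_le_nonZeroDivisors' B w hw0)

theorem injective_algebraMap_loc {P : Type u} [CommRing P] [IsDomain P]
    (B : Type v) [CommRing B] [IsDomain B] [Algebra P B] [Module.IsTorsionFree P B]
    (w : P)
    (Λ : Type u) [CommRing Λ] [Algebra P Λ] [IsLocalization (Submonoid.powers w) Λ]
    (C₀ : Type v) [CommRing C₀] [Algebra B C₀] [Algebra Λ C₀] [Algebra P C₀]
    [IsScalarTower P Λ C₀] [IsScalarTower P B C₀]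
    [IsLocalization (Algebra.algebraMapSubmonoid B (Submonoid.powers w)) C₀]
    (hw0 : w ≠ 0) : Function.Injective (algebraMap Λ C₀) := by
  have hBC : Function.Injective (algebraMap B C₀) :=
    IsLocalization.injective C₀ (map_powers_le_nonZeroDivisors' B w hw0)
  have hPB : Function.Injective (algebraMap P B) := FaithfulSMul.algebraMap_injective P B
  rw [injective_iff_map_eq_zero]
  intro a ha
  obtain ⟨⟨p, s⟩, hps⟩ := IsLocalization.surj (Submonoid.powers w) a
  simp only at hps
  have h1 : algebraMap Λ C₀ (algebraMap P Λ p) = 0 := by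
    rw [← hps, map_mul, ha, zero_mul]
  rw [← IsScalarTower.algebraMap_apply, IsScalarTower.algebraMap_apply P B C₀] at h1
  have h2 : p = 0 := by
    have := (map_eq_zero_iff _ hBC).mp h1
    exact (map_eq_zero_iff _ hPB).mp this
  rw [h2, map_zero] at hps
  have hu : IsUnit (algebraMap P Λ s) := IsLocalization.map_units Λ s
  exact (hu.mul_left_eq_zero).mp hps

theorem isDedekindDomain_loc {P : Type u} [CommRing P] [IsDomain P] [IsNoetherianRing P]
    (B : Type v) [CommRing B] [IsDomain B] [IsIntegrallyClosed B] [Algebra P B]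
    [Module.Finite P B] [Module.IsTorsionFree P B]
    (w : P)
    (Λ : Type u) [CommRing Λ] [Algebra P Λ] [IsLocalization (Submonoid.powers w) Λ]
    (C₀ : Type v) [CommRing C₀] [Algebra B C₀] [Algebra Λ C₀] [Algebra P C₀]
    [IsScalarTower P Λ C₀] [IsScalarTower P B C₀]
    [IsLocalization (Algebra.algebraMapSubmonoid B (Submonoid.powers w)) C₀]
    [IsDomain Λ] [IsPrincipalIdealRing Λ] (hw0 : w ≠ 0) :
    IsDedekindDomain C₀ := by
  have : IsDomain C₀ := isDomain_loc B w C₀ hw0
  have : IsNoetherianRing B := IsNoetherianRing.of_finite P B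
  have : IsNoetherianRing C₀ :=
    IsLocalization.isNoetherianRing (Algebra.algebraMapSubmonoid B (Submonoid.powers w)) C₀
      inferInstance
  have : IsIntegrallyClosed C₀ :=
    isIntegrallyClosed_of_isLocalization C₀ _ (map_powers_le_nonZeroDivisors' B w hw0)
  have : Module.Finite Λ C₀ := Module.Finite.of_isLocalization P B (Submonoid.powers w)
  have : Algebra.IsIntegral Λ C₀ := Algebra.IsIntegral.of_finite Λ C₀
  have : Ring.DimensionLEOne C₀ := Ring.DimensionLEOne.of_isIntegral Λ C₀
  exact { }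

end Loc

section Abstract

variable {P : Type u} [CommRing P] [IsDomain P]
  (w : P)
  (Λ : Type u) [CommRing Λ] [Algebra P Λ] [IsLocalization (Submonoid.powers w) Λ]

include w in
omit [IsDomain P] in
theorem not_dvd_pow_of_not_dvd {π : P} (hπ : Prime π) (hπw : ¬ π ∣ w) (k : ℕ) : ¬ π ∣ w ^ k :=
  fun h => hπw (hπ.dvd_of_dvd_pow h)

omit [IsDomain P] in
theorem disjoint_powers {π : P} (hπ : Prime π) (hπw : ¬ π ∣ w) :
    Disjoint (Submonoid.powers w : Set P) (Ideal.span {π} : Ideal P) := by
  rw [Set.disjoint_left]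
  rintro a ⟨k, rfl⟩ ha
  exact not_dvd_pow_of_not_dvd w hπ hπw k (Ideal.mem_span_singleton.mp ha)

theorem prime_map {π : P} (hπ : Prime π) (hπw : ¬ π ∣ w) (hw0 : w ≠ 0) :
    Prime (algebraMap P Λ π) := by
  have hinj : Function.Injective (algebraMap P Λ) :=
    IsLocalization.injective Λ (powers_le_nonZeroDivisors' w hw0)
  have h0 : algebraMap P Λ π ≠ 0 := (map_ne_zero_iff _ hinj).mpr hπ.ne_zero
  rw [← Ideal.span_singleton_prime h0]
  have := IsLocalization.isPrime_of_isPrime_disjoint (Submonoid.powers w) Λ (Ideal.span {π})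
    ((Ideal.span_singleton_prime hπ.ne_zero).mpr hπ) (disjoint_powers w hπ hπw)
  rwa [Ideal.map_span, Set.image_singleton] at this

omit [IsDomain P] in
theorem dvd_of_map_dvd {π : P} (hπ : Prime π) (hπw : ¬ π ∣ w) {a : P}
    (h : algebraMap P Λ π ∣ algebraMap P Λ a) : π ∣ a := by
  have h1 := IsLocalization.under_map_of_isPrime_disjoint (Submonoid.powers w) Λ
    ((Ideal.span_singleton_prime hπ.ne_zero).mpr hπ) (disjoint_powers w hπ hπw)
  have h2 : a ∈ (Ideal.map (algebraMap P Λ) (Ideal.span {π})).under P := by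
    rw [Ideal.under_def, Ideal.mem_comap, Ideal.map_span, Set.image_singleton]
    exact Ideal.mem_span_singleton.mpr h
  rw [h1] at h2
  exact Ideal.mem_span_singleton.mp h2

end Abstract
section Loc2

/-- The trace of `B[1/w]` over `P[1/w]` restricts to the integral trace of `B` over `P`. -/
theorem map_intTrace_eq_trace {P : Type u} [CommRing P] [IsDomain P] [IsIntegrallyClosed P]
    (B : Type v) [CommRing B] [IsDomain B] [IsIntegrallyClosed B] [Algebra P B]
    [Module.Finite P B] [Module.IsTorsionFree P B]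
    (w : P)
    (Λ : Type u) [CommRing Λ] [Algebra P Λ] [IsLocalization (Submonoid.powers w) Λ]
    (C₀ : Type v) [CommRing C₀] [Algebra B C₀] [Algebra Λ C₀] [Algebra P C₀]
    [IsScalarTower P Λ C₀] [IsScalarTower P B C₀]
    [IsLocalization (Algebra.algebraMapSubmonoid B (Submonoid.powers w)) C₀]
    [IsDomain Λ] [IsPrincipalIdealRing Λ] (hw0 : w ≠ 0) (b : B) :
    algebraMap P Λ (Algebra.intTrace P B b) = Algebra.trace Λ C₀ (algebraMap B C₀ b) := by
  have : IsDomain C₀ := isDomain_loc B w C₀ hw0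
  have : IsIntegrallyClosed C₀ :=
    isIntegrallyClosed_of_isLocalization C₀ _ (map_powers_le_nonZeroDivisors' B w hw0)
  have : Module.Finite Λ C₀ := Module.Finite.of_isLocalization P B (Submonoid.powers w)
  have : Module.IsTorsionFree Λ C₀ :=
    isTorsionFree_iff_algebraMap_injective.mpr (injective_algebraMap_loc B w Λ C₀ hw0)
  have : Module.Free Λ C₀ := Module.free_of_finite_type_torsion_free'
  rw [Algebra.intTrace_eq_of_isLocalization P B (Submonoid.powers w) (Aₘ := Λ) (Bₘ := C₀) b,
    Algebra.intTrace_eq_trace]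

/-- Radical membership descends from `B[1/w]` to `B` (regular sequence `π, w`). -/
theorem mem_radical_of_map_mem_radical {P : Type u} [CommRing P] [IsDomain P]
    [IsIntegrallyClosed P]
    (B : Type v) [CommRing B] [IsDomain B] [IsIntegrallyClosed B] [Algebra P B]
    [Module.Finite P B] [Module.IsTorsionFree P B]
    (w : P)
    (Λ : Type u) [CommRing Λ] [Algebra P Λ]
    (C₀ : Type v) [CommRing C₀] [Algebra B C₀] [Algebra Λ C₀] [Algebra P C₀]
    [IsScalarTower P Λ C₀] [IsScalarTower P B C₀]
    [IsLocalization (Algebra.algebraMapSubmonoid B (Submonoid.powers w)) C₀]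
    (hw0 : w ≠ 0) {π : P} (hπ : Prime π) (hπw : ¬ π ∣ w) {z : B}
    (h : algebraMap B C₀ z ∈ (Ideal.span {algebraMap Λ C₀ (algebraMap P Λ π)}).radical) :
    z ∈ (Ideal.span {algebraMap P B π}).radical := by
  have hBC : Function.Injective (algebraMap B C₀) :=
    IsLocalization.injective C₀ (map_powers_le_nonZeroDivisors' B w hw0)
  obtain ⟨N, hN⟩ := h
  obtain ⟨c, hc⟩ := Ideal.mem_span_singleton'.mp hN
  obtain ⟨⟨b, s⟩, hbs⟩ :=
    IsLocalization.surj (Algebra.algebraMapSubmonoid B (Submonoid.powers w)) c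
  simp only at hbs
  obtain ⟨s', ⟨k, rfl⟩, hs'⟩ := s.2
  have hs'' : (s : B) = algebraMap P B (w ^ k) := hs'.symm
  have e1 : algebraMap Λ C₀ (algebraMap P Λ π) = algebraMap B C₀ (algebraMap P B π) := by
    rw [← IsScalarTower.algebraMap_apply, ← IsScalarTower.algebraMap_apply]
  have key : algebraMap P B (w ^ k) * z ^ N = algebraMap P B π * b := by
    apply hBC
    rw [map_mul, map_mul, map_pow (algebraMap B C₀) z N, ← hc, e1, ← hbs, hs'']
    ring
  have hnd : ¬ π ∣ w ^ k := fun h => hπw (hπ.dvd_of_dvd_pow h)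
  obtain ⟨b'', hb''⟩ := dvd_of_mul_eq_mul hπ hnd key
  refine ⟨N, Ideal.mem_span_singleton'.mpr ⟨b'', ?_⟩⟩
  rw [hb'', mul_comm]

/-- A local spanning family stays spanning (up to `g`) after inverting `w`. -/
theorem smul_mem_span_loc {P : Type u} [CommRing P]
    (B : Type v) [CommRing B] [Algebra P B]
    (w : P)
    (Λ : Type u) [CommRing Λ] [Algebra P Λ] [IsLocalization (Submonoid.powers w) Λ]
    (C₀ : Type v) [CommRing C₀] [Algebra B C₀] [Algebra Λ C₀] [Algebra P C₀]
    [IsScalarTower P Λ C₀] [IsScalarTower P B C₀]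
    [IsLocalization (Algebra.algebraMapSubmonoid B (Submonoid.powers w)) C₀]
    {n : ℕ} (x : Fin n → B) (g : P)
    (hg : ∀ b : B, g • b ∈ Submodule.span P (Set.range x)) (c : C₀) :
    algebraMap P Λ g • c ∈ Submodule.span Λ (Set.range (algebraMap B C₀ ∘ x)) := by
  obtain ⟨⟨b, s⟩, hbs⟩ :=
    IsLocalization.surj (Algebra.algebraMapSubmonoid B (Submonoid.powers w)) c
  simp only at hbs
  obtain ⟨s', ⟨k, rfl⟩, hs'⟩ := s.2
  have hs'' : (s : B) = algebraMap P B (w ^ k) := hs'.symm
  have hu : IsUnit (algebraMap P Λ (w ^ k)) :=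
    IsLocalization.map_units Λ (⟨w ^ k, k, rfl⟩ : Submonoid.powers w)
  obtain ⟨v, hv⟩ := hu.exists_left_inv
  -- `c = v • ι b`
  have hc : c = v • algebraMap B C₀ b := by
    rw [← hbs, hs'', ← IsScalarTower.algebraMap_apply P B C₀,
      IsScalarTower.algebraMap_apply P Λ C₀, Algebra.smul_def, ← mul_assoc, mul_comm _ c,
      mul_assoc, ← map_mul, hv, map_one, mul_one]
  -- `ι (g • b)` lies in the span
  have h1 : algebraMap B C₀ (g • b) ∈ Submodule.span Λ (Set.range (algebraMap B C₀ ∘ x)) := by
    have h2 := hg b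
    have h3 : (IsScalarTower.toAlgHom P B C₀).toLinearMap (g • b) ∈
        Submodule.map (IsScalarTower.toAlgHom P B C₀).toLinearMap
          (Submodule.span P (Set.range x)) := Submodule.mem_map_of_mem h2
    rw [Submodule.map_span, ← Set.range_comp] at h3
    have h4 : Submodule.span P (Set.range ((IsScalarTower.toAlgHom P B C₀).toLinearMap ∘ x)) ≤
        (Submodule.span Λ (Set.range (algebraMap B C₀ ∘ x))).restrictScalars P :=
      Submodule.span_le_restrictScalars P Λ _
    exact h4 h3
  have h5 : algebraMap P Λ g • c = v • algebraMap B C₀ (g • b) := by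
    rw [hc, Algebra.smul_def g b, map_mul, ← IsScalarTower.algebraMap_apply P B C₀,
      IsScalarTower.algebraMap_apply P Λ C₀, ← Algebra.smul_def, smul_comm]
  rw [h5]
  exact Submodule.smul_mem _ _ h1

end Loc2

section Main

/-- **A5, abstract form.**  `Λ = P[1/w]` a PID containing `ℚ`, `C₀ = B[1/w]`. -/
theorem genericDiscr_abs {P : Type u} [CommRing P] [IsDomain P] [IsIntegrallyClosed P]
    [IsNoetherianRing P]
    (B : Type v) [CommRing B] [IsDomain B] [IsIntegrallyClosed B] [Algebra P B]
    [Module.Finite P B] [Module.IsTorsionFree P B]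
    (w : P) (hw0 : w ≠ 0)
    (Λ : Type u) [CommRing Λ] [Algebra P Λ] [IsLocalization (Submonoid.powers w) Λ]
    (C₀ : Type v) [CommRing C₀] [Algebra B C₀] [Algebra Λ C₀] [Algebra P C₀]
    [IsScalarTower P Λ C₀] [IsScalarTower P B C₀]
    [IsLocalization (Algebra.algebraMapSubmonoid B (Submonoid.powers w)) C₀]
    [IsDomain Λ] [IsPrincipalIdealRing Λ] [Algebra ℚ Λ]
    (π : P) (hπ : Prime π) (hπw : ¬ π ∣ w)
    (n : ℕ) (x : Fin n → B) (hli : LinearIndependent P x)
    (g : P) (hgπ : ¬ π ∣ g) (hg : ∀ b : B, g • b ∈ Submodule.span P (Set.range x))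
    (r : ℕ) (y : Fin r → B)
    (hy : ∀ a : Fin r → P,
      (∑ i, a i • y i) ∈ (Ideal.span {algebraMap P B π}).radical → ∀ i, π ∣ a i) :
    ¬ π ^ (n - r + 1) ∣ (Matrix.of fun i j => Algebra.intTrace P B (x i * x j)).det := by
  classical
  have hD : IsDedekindDomain C₀ := isDedekindDomain_loc B w Λ C₀ hw0
  have : Module.Finite Λ C₀ := Module.Finite.of_isLocalization P B (Submonoid.powers w)
  have hinjΛ := injective_algebraMap_loc B w Λ C₀ hw0
  have : Module.IsTorsionFree Λ C₀ := isTorsionFree_iff_algebraMap_injective.mpr hinjΛ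
  have : Module.Free Λ C₀ := Module.free_of_finite_type_torsion_free'
  have hinjP : Function.Injective (algebraMap P Λ) :=
    IsLocalization.injective Λ (powers_le_nonZeroDivisors' w hw0)
  set t := algebraMap P Λ π with ht_def
  have ht : Prime t := prime_map w Λ hπ hπw hw0
  set x' : Fin n → C₀ := algebraMap B C₀ ∘ x with hx'
  have hli' : LinearIndependent Λ x' :=
    hli.localization_localization (Rₛ := Λ) (Submonoid.powers w) C₀
  have hg0 : algebraMap P Λ g ≠ 0 := by
    intro h
    apply hgπ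
    have : g = 0 := hinjP (by rw [h, map_zero])
    rw [this]
    exact dvd_zero π
  have hspan : ∀ c : C₀, algebraMap P Λ g • c ∈ Submodule.span Λ (Set.range x') :=
    fun c => smul_mem_span_loc B w Λ C₀ x g hg c
  -- rank
  have hn : Module.finrank Λ C₀ = n := by
    apply le_antisymm
    · let φ : C₀ →ₗ[Λ] Submodule.span Λ (Set.range x') :=
        LinearMap.codRestrict _ (algebraMap P Λ g • LinearMap.id) hspan
      have hφ : Function.Injective φ := by
        intro c c' hcc
        have h1 : algebraMap P Λ g • c = algebraMap P Λ g • c' := congrArg Subtype.val hcc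
        exact smul_right_injective C₀ hg0 h1
      calc Module.finrank Λ C₀
          ≤ Module.finrank Λ (Submodule.span Λ (Set.range x')) :=
            LinearMap.finrank_le_finrank_of_injective hφ
        _ ≤ Fintype.card (Fin n) := finrank_range_le_card x'
        _ = n := Fintype.card_fin n
    · have := hli'.fintype_card_le_finrank
      simpa using this
  let β : Module.Basis (Fin n) Λ C₀ := Module.finBasisOfFinrankEq Λ C₀ hn
  let U : Matrix (Fin n) (Fin n) Λ := fun i j => β.repr (x' i) j
  have hU : x' = (U.map (algebraMap Λ C₀)) *ᵥ β := by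
    ext i
    simp only [Matrix.mulVec, dotProduct]
    calc x' i = ∑ j, β.repr (x' i) j • β j := (β.sum_repr (x' i)).symm
      _ = _ := Finset.sum_congr rfl (fun j _ => by rw [Matrix.map_apply, Algebra.smul_def])
  have hV : ∀ j, ∃ c : Fin n → Λ, ∑ i, c i • x' i = algebraMap P Λ g • β j := fun j =>
    (Submodule.mem_span_range_iff_exists_fun Λ).mp (hspan (β j))
  choose V hVeq using hV
  have hVU : (Matrix.of V) * U = algebraMap P Λ g • (1 : Matrix (Fin n) (Fin n) Λ) := by
    ext j l
    have h1 := congrArg (fun z => β.repr z l) (hVeq j)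
    simp only [map_sum, map_smul, Finsupp.coe_finsetSum, Finsupp.coe_smul, Finset.sum_apply,
      Pi.smul_apply, smul_eq_mul, Module.Basis.repr_self] at h1
    rw [Matrix.mul_apply, Matrix.smul_apply, Matrix.one_apply, smul_eq_mul]
    simp only [Matrix.of_apply, U]
    rw [h1, Finsupp.single_apply]
  have hdetU : ¬ t ∣ U.det := by
    intro hdvd
    have h1 : (Matrix.of V).det * U.det = (algebraMap P Λ g) ^ n := by
      rw [← Matrix.det_mul, hVU, Matrix.det_smul, Matrix.det_one, mul_one, Fintype.card_fin]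
    have h2 : t ∣ algebraMap P Λ g ^ n := h1 ▸ Dvd.dvd.mul_left hdvd _
    have h3 : t ∣ algebraMap P Λ g := ht.dvd_of_dvd_pow h2
    exact hgπ (dvd_of_map_dvd w Λ hπ hπw h3)
  have hdisc : algebraMap P Λ ((Matrix.of fun i j => Algebra.intTrace P B (x i * x j)).det)
      = U.det ^ 2 * Algebra.discr Λ β := by
    rw [← Algebra.discr_of_matrix_mulVec, ← hU, Algebra.discr_def, RingHom.map_det]
    congr 1
    ext i j
    simp only [RingHom.mapMatrix_apply, Matrix.map_apply, Matrix.of_apply,
      Algebra.traceMatrix_apply, Algebra.traceForm_apply, hx', Function.comp_apply]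
    rw [map_intTrace_eq_trace B w Λ C₀ hw0, map_mul]
  have hy' : ∀ a : Fin r → Λ,
      (∑ i, a i • (algebraMap B C₀ ∘ y) i) ∈ (Ideal.span {algebraMap Λ C₀ t}).radical →
        ∀ i, t ∣ a i := by
    intro a ha i
    obtain ⟨s, hs⟩ := IsLocalization.exist_integer_multiples_of_finite (Submonoid.powers w) a
    choose a' ha' using hs
    have hz : algebraMap B C₀ (∑ i, a' i • y i) =
        algebraMap Λ C₀ (algebraMap P Λ (s : P)) * ∑ i, a i • (algebraMap B C₀ ∘ y) i := by
      rw [map_sum, Finset.mul_sum]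
      refine Finset.sum_congr rfl fun i _ => ?_
      rw [Algebra.smul_def (a' i) (y i), map_mul, ← IsScalarTower.algebraMap_apply P B C₀,
        IsScalarTower.algebraMap_apply P Λ C₀, ha' i, Algebra.smul_def, map_mul,
        Algebra.smul_def, Function.comp_apply]
      ring
    have hmem : algebraMap B C₀ (∑ i, a' i • y i) ∈
        (Ideal.span {algebraMap Λ C₀ (algebraMap P Λ π)}).radical := by
      rw [hz]
      exact Ideal.mul_mem_left _ _ ha
    have h1 : π ∣ a' i :=
      hy a' (mem_radical_of_map_mem_radical B w Λ C₀ hw0 hπ hπw hmem) i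
    have h2 : t ∣ algebraMap P Λ (a' i) := map_dvd (algebraMap P Λ) h1
    rw [ha' i, Algebra.smul_def] at h2
    exact ((IsLocalization.map_units Λ s).dvd_mul_left).mp h2
  have htame := Fermat.Agent.S18.H274.tameDiscr Λ t ht C₀ n β r (algebraMap B C₀ ∘ y) hy'
  intro hdvd
  apply htame
  have h4 : t ^ (n - r + 1) ∣ U.det ^ 2 * Algebra.discr Λ β := by
    rw [← hdisc, ht_def, ← map_pow]
    exact map_dvd (algebraMap P Λ) hdvd
  exact ht.pow_dvd_of_dvd_mul_left _ (fun h => hdetU (ht.dvd_of_dvd_pow h)) h4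

end Main

end Fermat.Agent.S18.B12.H444

end
end
-- ===== PACK-END S18/B12/H444/GenericDiscr.lean

-- ===== PACK-BEGIN S29/M4a/Top.lean
section
/-
S29 / M4a-TOP (helper391) — `exists_eigen_parHom` (interface `M4a` of `SkeletonM.lean`, exact
statement) from the output of helper201's E2 layer (`H201.exists_eigen_parabolicHom`, plus the
torsion clause which is needed for `p = 2, 3`).

* `M4aTop_E2Output`            : the E2 output as a `Prop`.
* `M4aTop_exists_eigen_parHom` : `M4aTop_E2Output → ` conclusion of `exists_eigen_parHom`.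
-/


set_option autoImplicit false

noncomputable section

namespace Fermat.Agent.S29

open CongruenceSubgroup Matrix.SpecialLinearGroup ModularCurve.Period
open scoped MatrixGroups

/-- Output of the E2 layer in helper201's shape (`H201.exists_eigen_parabolicHom`), together with
the torsion clause: a nonzero parabolic character `χ : Γ₀(N) → F`, trivial on elements of finite
order, with `T_ℓ χ = ψ(a_ℓ) χ` for every prime `ℓ ∤ N`. -/
def M4aTop_E2Output (N : ℕ) (g : CuspForm (Gamma0 N) 2) (F : Type) [Field F]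
    (ψ : integralClosure ℤ ℂ →+* F) : Prop :=
  ∃ χ : Additive (Gamma0 N) →+ F, χ ≠ 0 ∧ IsParabolicHom (Gamma0 N) χ ∧
    (∀ (γ : Gamma0 N) (n : ℕ), 0 < n → γ ^ n = 1 → χ (Additive.ofMul γ) = 0) ∧
    ∀ (ℓ : ℕ) [Fact ℓ.Prime] (hℓN : ¬ ℓ ∣ N),
      ∃ a : integralClosure ℤ ℂ, (a : ℂ) = ModularFormClass.qCoeff g ℓ ∧
        H201.heckeHom ℓ hℓN F χ = (AddMonoidHom.mulLeft (ψ a)).comp χ

theorem M4aTop_fg_SL2Z : Group.FG SL(2, ℤ) :=
  Group.fg_iff.mpr ⟨{ModularGroup.S, ModularGroup.T}, SpecialLinearGroup.SL2Z_generators,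
    Set.toFinite _⟩

theorem M4aTop_fg_Gamma0 (N : ℕ) [NeZero N] : Group.FG (Gamma0 N) := by
  have := M4aTop_fg_SL2Z
  infer_instance

/-- The values of an additive character of a finitely generated group lie in the span of the values
on a finite generating set. -/
theorem M4aTop_mem_span {G : Type*} [Group G] {R M : Type*} [Ring R] [AddCommGroup M]
    [Module R M] (χ : Additive G →+ M) (S : Set G) (hS : Subgroup.closure S = ⊤) (γ : G) :
    χ (Additive.ofMul γ) ∈ Submodule.span R ((fun x : G => χ (Additive.ofMul x)) '' S) := by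
  have hγ : γ ∈ Subgroup.closure S := hS ▸ Subgroup.mem_top γ
  induction hγ using Subgroup.closure_induction with
  | mem x hx => exact Submodule.subset_span ⟨x, hx, rfl⟩
  | one => rw [ofMul_one, map_zero]; exact Submodule.zero_mem _
  | mul x y _ _ hx hy => rw [ofMul_mul, map_add]; exact Submodule.add_mem _ hx hy
  | inv x _ hx => rw [ofMul_inv, map_neg]; exact Submodule.neg_mem _ hx

/-- **M4a-TOP.**  The conclusion of `exists_eigen_parHom` (`SkeletonM.lean`) from the output of the
E2 layer. -/
theorem M4aTop_exists_eigen_parHom (N : ℕ) [NeZero N]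
    {g : CuspForm (CongruenceSubgroup.Gamma0 N) 2} {p : ℕ} [Fact p.Prime] {F : Type} [Field F]
    [Algebra (ZMod p) F]
    (ψ : integralClosure ℤ ℂ →+* F) (a : ℕ → integralClosure ℤ ℂ)
    (ha : ∀ ℓ : ℕ, ℓ.Prime → ¬ ℓ ∣ N →
      ((a ℓ : integralClosure ℤ ℂ) : ℂ) = ModularFormClass.qCoeff g ℓ)
    (hE2 : M4aTop_E2Output N g F ψ) :
    ∃ (n : ℕ) (w : Fin n → F) (c : Fin n → G0 N → ZMod p),
      LinearIndependent (ZMod p) w ∧ (∀ j, IsParHom (c j)) ∧ (∃ j, c j ≠ 0) ∧
      ∀ ℓ : ℕ, ℓ.Prime → ¬ ℓ ∣ N * p → ∀ γ : G0 N,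
        ∑ j, w j * algebraMap (ZMod p) F (heckeCoh N ℓ (c j) γ)
          = ψ (a ℓ) * ∑ j, w j * algebraMap (ZMod p) F (c j γ) := by
  obtain ⟨χ, hχ0, hpar, htor, hecke⟩ := hE2
  -- a finite generating set
  obtain ⟨S, hS, hSfin⟩ := Group.fg_iff.mp (M4aTop_fg_Gamma0 N)
  set W : Submodule (ZMod p) F :=
    Submodule.span (ZMod p) ((fun x : Gamma0 N => χ (Additive.ofMul x)) '' S) with hW
  have hmem : ∀ γ : Gamma0 N, χ (Additive.ofMul γ) ∈ W := fun γ => M4aTop_mem_span χ S hS γ
  have : Module.Finite (ZMod p) W := Module.Finite.span_of_finite (ZMod p) (hSfin.image _)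
  let b := Module.finBasis (ZMod p) W
  -- the coordinates
  let X : G0 N → W := fun γ => ⟨χ (Additive.ofMul γ), hmem γ⟩
  have hXmul : ∀ γ γ' : G0 N, X (γ * γ') = X γ + X γ' := fun γ γ' =>
    Subtype.ext (by simp only [X, ofMul_mul, map_add, Submodule.coe_add])
  have hX0 : ∀ γ : G0 N, χ (Additive.ofMul γ) = 0 → X γ = 0 := fun γ h => Subtype.ext h
  have hsum : ∀ γ : G0 N, χ (Additive.ofMul γ)
      = ∑ j, (b j : F) * algebraMap (ZMod p) F (b.repr (X γ) j) := by
    intro γ
    have h1 := congrArg (fun x : W => (x : F)) (b.sum_repr (X γ))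
    simp only [Submodule.coe_sum, Submodule.coe_smul] at h1
    rw [show χ (Additive.ofMul γ) = ((X γ : W) : F) from rfl, ← h1]
    refine Finset.sum_congr rfl fun j _ => ?_
    rw [Algebra.smul_def, mul_comm]
  refine ⟨Module.finrank (ZMod p) W, fun j => (b j : F), fun j γ => b.repr (X γ) j, ?_, ?_, ?_, ?_⟩
  · exact b.linearIndependent.map' W.subtype (Submodule.ker_subtype W)
  · intro j
    refine ⟨fun γ γ' => ?_, fun γ hγ => ?_, fun γ n hn hγ => ?_⟩
    · show b.repr (X (γ * γ')) j = b.repr (X γ) j + b.repr (X γ') j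
      rw [hXmul, map_add, Finsupp.add_apply]
    · show b.repr (X γ) j = 0
      have h4 : (((γ : Gamma0 N) : SL(2, ℤ)) : Matrix (Fin 2) (Fin 2) ℤ).trace ^ 2 = 4 := by
        have h5 : G0.mat γ = (((γ : Gamma0 N) : SL(2, ℤ)) : Matrix (Fin 2) (Fin 2) ℤ) := rfl
        rw [h5] at hγ
        rcases hγ with h | h <;> rw [h] <;> norm_num
      rw [hX0 γ (hpar γ h4), map_zero, Finsupp.zero_apply]
    · show b.repr (X γ) j = 0
      rw [hX0 γ (htor γ n hn hγ), map_zero, Finsupp.zero_apply]
  · by_contra hcon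
    rw [not_exists] at hcon
    replace hcon : ∀ j, (fun γ : G0 N => b.repr (X γ) j) = 0 := fun j => not_not.mp (hcon j)
    apply hχ0
    ext γ
    have hz : X (Additive.toMul γ) = 0 := by
      apply b.repr.injective
      ext j
      rw [map_zero, Finsupp.zero_apply]
      exact congrFun (hcon j) (Additive.toMul γ)
    show χ (Additive.ofMul (Additive.toMul γ)) = 0
    exact congrArg (fun x : W => (x : F)) hz
  · intro ℓ hℓ hℓNp γ
    have : Fact ℓ.Prime := ⟨hℓ⟩
    have hℓN : ¬ ℓ ∣ N := fun h => hℓNp (Dvd.dvd.mul_right h p)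
    obtain ⟨a', ha', hT⟩ := hecke ℓ hℓN
    have haa : a' = a ℓ := Subtype.ext (by rw [ha', ha ℓ hℓ hℓN])
    subst haa
    have hTγ : ∑ x : OnePoint (ZMod ℓ), χ (Additive.ofMul (H201.trf hℓN γ x))
        = ψ (a ℓ) * χ (Additive.ofMul γ) := DFunLike.congr_fun hT (Additive.ofMul γ)
    rw [← hsum γ, ← hTγ]
    -- expand the Hecke operator on coordinates
    have hco : ∀ j, heckeCoh N ℓ (fun γ => b.repr (X γ) j) γ
        = ∑ x : OnePoint (ZMod ℓ), b.repr (X (H201.trf hℓN γ x)) j := fun j =>
      M4aTop_heckeCoh_eq_sum_trf hℓN _ γ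
    simp only [hco, map_sum, Finset.mul_sum]
    rw [Finset.sum_comm]
    refine Finset.sum_congr rfl fun x _ => ?_
    exact (hsum (H201.trf hℓN γ x)).symm

end Fermat.Agent.S29

end
end
-- ===== PACK-END S29/M4a/Top.lean

-- ===== PACK-BEGIN S22/H262/Nice.lean
section




set_option autoImplicit false

/-!
# Towers exist for `f ∣[k] A`, `f` a cusp form on `Γ₀(N)`, `A` an integer matrix of positive
determinant.
-/

open Complex Filter Function Metric Set
open UpperHalfPlane hiding I
open scoped Real Topology Manifold ModularForm MatrixGroups Pointwise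

namespace Fermat.Agent.S22.H262

open Matrix.SpecialLinearGroup in
theorem hasTower_slash_SL {N : ℕ} [NeZero N] {k : ℤ}
    (f : CuspForm (CongruenceSubgroup.Gamma0 N) k) (g : SL(2, ℤ)) :
    HasTower (⇑f ∣[k] (mapGL ℝ g)) := by
  obtain ⟨M, hM, hper⟩ := Subgroup.IsArithmetic.exists_nat_mem_strictPeriods_conj
    ((CongruenceSubgroup.Gamma0 N).map (mapGL ℝ))
  have hM' : (0 : ℝ) < M := by exact_mod_cast hM
  have h1 := hper g⁻¹
  rw [map_inv] at h1
  let F := CuspForm.translate f (mapGL ℝ g)
  have hF : ⇑F = ⇑f ∣[k] (mapGL ℝ g) := rfl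
  rw [← hF]
  refine exists_isTower hM' (SlashInvariantFormClass.periodic_comp_ofComplex F h1)
    (CuspFormClass.holo F) ?_
  rw [hF]
  exact CuspFormClass.zero_at_infty_slash f g

end Fermat.Agent.S22.H262

end
-- ===== PACK-END S22/H262/Nice.lean

-- ===== PACK-BEGIN Lib/Newform/H263/XStrict.lean
section
/-
NEWFORM library (helper263) — block X leaf **STRICT**: the strict trivial bound in the exact shape
of the frozen interface `Fermat.Agent.Lib.Newform.H958.X.StrictBound`.
-/



set_option autoImplicit false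

namespace Fermat.Agent.Lib.Newform.H263

/-- **STRICT** (block X): `a_ℓ(g)² ≠ (ℓ + 1)²` for a normalized eigenform `g` of level `N` and a
prime `ℓ ∤ N`. -/
theorem strictBound : H958.X.StrictBound :=
  fun _N _ _g hg _ℓ hℓ hℓN ↦ qCoeff_sq_ne hg hℓ hℓN

end Fermat.Agent.Lib.Newform.H263

end
-- ===== PACK-END Lib/Newform/H263/XStrict.lean

-- ===== PACK-BEGIN A2/H489/TwoExtD.lean
section


/-!
# A2 / M1-abs, part D (helper489): the theorem `TwoExt`

`A` a discrete valuation ring with fraction field `K`, `L/K` finite separable,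
`V₁ ≠ V₂` valuation subrings of `L` over `A`, with families `u₁ : Fin f₁ → V₁`,
`u₂ : Fin f₂ → V₂` whose residues are linearly independent over the residue field of `A`, and
`[L : K] ≤ f₁ + f₂`.  Then

* `twoExt_only`        : `V₁`, `V₂` are the only valuation subrings of `L` over `A`;
* `twoExt_uniformizer` : a uniformiser of `A` is a uniformiser of `V₁` and `V₂` (`e = 1`);
* `twoExt_integral`    : `x` is integral over `A` iff `x ∈ V₁ ∩ V₂`;
* `twoExt_span`        : the residues of `u₁` (`u₂`) span the residue field of `V₁` (`V₂`).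
-/

set_option autoImplicit false

namespace Fermat.Agent.A2.H489

open IsDedekindDomain IsLocalRing WithZero

section Val

variable {S F : Type*} [CommRing S] [IsDedekindDomain S] [Field F] [Algebra S F]
  [IsFractionRing S F]

theorem valuation_eq_exp_neg_one (v : HeightOneSpectrum S) {w : S} (hw : w ∈ v.asIdeal)
    (hw2 : w ∉ v.asIdeal ^ 2) : v.valuation F (algebraMap S F w) = exp (-1 : ℤ) := by
  have hw0 : w ≠ 0 := by
    rintro rfl
    exact hw2 (Ideal.zero_mem _)
  rw [HeightOneSpectrum.valuation_of_algebraMap]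
  have h1 : v.intValuation w < 1 := (v.intValuation_lt_one_iff_mem w).mpr hw
  have h2 : ¬ v.intValuation w ≤ exp (-((2 : ℕ) : ℤ)) := fun h =>
    hw2 ((v.intValuation_le_pow_iff_mem w 2).mp h)
  rw [v.intValuation_if_neg hw0] at h1 h2 ⊢
  rw [← exp_zero, exp_lt_exp] at h1
  rw [exp_le_exp] at h2
  congr 1
  push_cast at h2
  omega

theorem mul_inv_mem_of_lt_one (v : HeightOneSpectrum S) {w : S} (hw : w ∈ v.asIdeal)
    (hw2 : w ∉ v.asIdeal ^ 2) {x : F} (hx : v.valuation F x < 1) :
    v.valuation F (x * (algebraMap S F w)⁻¹) ≤ 1 := by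
  have hv := valuation_eq_exp_neg_one (F := F) v hw hw2
  rw [map_mul, map_inv₀, hv]
  have h1 : x = 0 ∨ x ≠ 0 := eq_or_ne x 0
  rcases h1 with rfl | hx0
  · simp
  have hne : v.valuation F x ≠ 0 := (Valuation.ne_zero_iff _).mpr hx0
  have h3 : v.valuation F x ≤ exp (-1 : ℤ) := by
    rw [← lt_mul_exp_iff_le (by simp)]
    rw [← exp_add]
    simpa using hx
  calc v.valuation F x * (exp (-1 : ℤ))⁻¹ ≤ exp (-1 : ℤ) * (exp (-1 : ℤ))⁻¹ :=
        mul_le_mul_left h3 _
    _ = 1 := mul_inv_cancel₀ (by simp)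

theorem mem_nonunits_valuationSubring_iff (v : HeightOneSpectrum S) (x : F) :
    x ∈ (v.valuation F).valuationSubring.nonunits ↔ v.valuation F x < 1 := by
  rw [ValuationSubring.mem_nonunits_iff_or]
  rcases eq_or_ne x 0 with rfl | hx
  · simp
  · have hne : v.valuation F x ≠ 0 := (Valuation.ne_zero_iff _).mpr hx
    rw [Valuation.mem_valuationSubring_iff, map_inv₀, not_le]
    constructor
    · rintro (h | h)
      · exact absurd h hx
      · exact (one_lt_inv₀ (zero_lt_iff.mpr hne)).mp h
    · intro h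
      exact Or.inr ((one_lt_inv₀ (zero_lt_iff.mpr hne)).mpr h)

end Val

section Main

variable (K : Type*) {A L : Type*} [CommRing A] [IsDomain A] [IsDiscreteValuationRing A]
  [Field K] [Algebra A K] [IsFractionRing A K]
  [Field L] [Algebra K L] [Algebra A L] [IsScalarTower A K L]
  [FiniteDimensional K L] [Algebra.IsSeparable K L]

/-- Hypotheses of `TwoExt`. -/
structure TwoExtHyp (K A : Type*) {L : Type*} [CommRing A] [IsDomain A]
    [IsDiscreteValuationRing A] [Field K] [Algebra A K]
    [Field L] [Algebra K L] [Algebra A L]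
    (V₁ V₂ : ValuationSubring L) {f₁ f₂ : ℕ} (u₁ : Fin f₁ → L) (u₂ : Fin f₂ → L) : Prop where
  over₁ : IsOver A V₁
  over₂ : IsOver A V₂
  ne : V₁ ≠ V₂
  deg : Module.finrank K L ≤ f₁ + f₂
  mem₁ : ∀ i, u₁ i ∈ V₁
  mem₂ : ∀ i, u₂ i ∈ V₂
  indep₁ : ∀ a : Fin f₁ → A, (∑ i, algebraMap A L (a i) * u₁ i) ∈ V₁.nonunits →
    ∀ i, a i ∈ maximalIdeal A
  indep₂ : ∀ a : Fin f₂ → A, (∑ i, algebraMap A L (a i) * u₂ i) ∈ V₂.nonunits →
    ∀ i, a i ∈ maximalIdeal A

variable {K} {V₁ V₂ : ValuationSubring L} {f₁ f₂ : ℕ} {u₁ : Fin f₁ → L} {u₂ : Fin f₂ → L}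

omit [IsFractionRing A K] [IsScalarTower A K L] [FiniteDimensional K L]
  [Algebra.IsSeparable K L] in
theorem TwoExtHyp.symm (h : TwoExtHyp K A V₁ V₂ u₁ u₂) : TwoExtHyp K A V₂ V₁ u₂ u₁ where
  over₁ := h.over₂
  over₂ := h.over₁
  ne := h.ne.symm
  deg := by have := h.deg; omega
  mem₁ := h.mem₂
  mem₂ := h.mem₁
  indep₁ := h.indep₂
  indep₂ := h.indep₁

theorem TwoExtHyp.core (h : TwoExtHyp K A V₁ V₂ u₁ u₂) :
    (∀ P : Ideal (integralClosure A L), P.IsPrime → P.LiesOver (maximalIdeal A) →
        P = center V₁ h.over₁.mem_integralClosure ∨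
        P = center V₂ h.over₂.mem_integralClosure) ∧
      Ideal.ramificationIdx' (maximalIdeal A) (center V₁ h.over₁.mem_integralClosure) = 1 ∧
      Ideal.ramificationIdx' (maximalIdeal A) (center V₂ h.over₂.mem_integralClosure) = 1 ∧
      Ideal.inertiaDeg' (maximalIdeal A) (center V₁ h.over₁.mem_integralClosure) = f₁ ∧
      Ideal.inertiaDeg' (maximalIdeal A) (center V₂ h.over₂.mem_integralClosure) = f₂ :=
  twoExt_core K h.over₁ h.over₂ h.ne h.deg
    (h.over₁.le_inertiaDeg K u₁ h.mem₁ h.indep₁) (h.over₂.le_inertiaDeg K u₂ h.mem₂ h.indep₂)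

/-- **TwoExt (1)**: `V₁` and `V₂` are the only valuation subrings of `L` over `A`. -/
theorem TwoExtHyp.only (h : TwoExtHyp K A V₁ V₂ u₁ u₂) {V : ValuationSubring L}
    (hV : IsOver A V) : V = V₁ ∨ V = V₂ := by
  have hD : IsDedekindDomain (integralClosure A L) := integralClosure.isDedekindDomain A K L
  have hFr : IsFractionRing (integralClosure A L) L :=
    integralClosure.isFractionRing_of_finite_extension K L
  rcases h.core.1 (center V hV.mem_integralClosure) inferInstance hV.center_liesOver with h1 | h1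
  · exact Or.inl (eq_of_center_eq V V₁ hV.mem_integralClosure h.over₁.mem_integralClosure
      (hV.ne_top K) (h.over₁.ne_top K) h1)
  · exact Or.inr (eq_of_center_eq V V₂ hV.mem_integralClosure h.over₂.mem_integralClosure
      (hV.ne_top K) (h.over₂.ne_top K) h1)

include K in
/-- `e = 1` in valuation form. -/
theorem IsOver.mul_inv_mem_of_ramificationIdx_eq_one {V : ValuationSubring L} (hV : IsOver A V)
    (he : Ideal.ramificationIdx' (maximalIdeal A) (center V hV.mem_integralClosure) = 1)
    {w : A} (hw : Irreducible w) {x : L} (hx : x ∈ V.nonunits) :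
    x * (algebraMap A L w)⁻¹ ∈ V := by
  have hD : IsDedekindDomain (integralClosure A L) := integralClosure.isDedekindDomain A K L
  have hFr : IsFractionRing (integralClosure A L) L :=
    integralClosure.isFractionRing_of_finite_extension K L
  have hne : V ≠ ⊤ := hV.ne_top K
  set v := centerSpec V hV.mem_integralClosure hne with hvdef
  have hVv : V = (v.valuation L).valuationSubring :=
    eq_valuationSubring_centerSpec V hV.mem_integralClosure hne
  have hwmax : w ∈ maximalIdeal A := by
    rw [IsLocalRing.mem_maximalIdeal, _root_.mem_nonunits_iff]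
    exact hw.not_isUnit
  have hw1 : algebraMap A (integralClosure A L) w ∈ v.asIdeal := by
    show algebraMap A (integralClosure A L) w ∈ center V hV.mem_integralClosure
    rw [mem_center_iff, ← IsScalarTower.algebraMap_apply]
    exact hV.nonunit w hwmax
  have hmap : Ideal.map (algebraMap A (integralClosure A L)) (maximalIdeal A)
      = Ideal.span {algebraMap A (integralClosure A L) w} := by
    rw [hw.maximalIdeal_eq, Ideal.map_span, Set.image_singleton]
  have hle : Ideal.map (algebraMap A (integralClosure A L)) (maximalIdeal A)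
      ≤ center V hV.mem_integralClosure := by
    rw [hmap, Ideal.span_singleton_le_iff_mem]
    exact hw1
  have hw2 : algebraMap A (integralClosure A L) w ∉ v.asIdeal ^ 2 := by
    intro hmem
    have h2 : Ideal.map (algebraMap A (integralClosure A L)) (maximalIdeal A)
        ≤ center V hV.mem_integralClosure ^ 2 := by
      rw [hmap, Ideal.span_singleton_le_iff_mem]
      exact hmem
    exact ((Ideal.ramificationIdx'_ne_one_iff hle).mpr h2) he
  have hx' : v.valuation L x < 1 := by
    rw [← mem_nonunits_valuationSubring_iff, ← hVv]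
    exact hx
  have key := mul_inv_mem_of_lt_one (F := L) v hw1 hw2 hx'
  rw [← IsScalarTower.algebraMap_apply] at key
  rw [hVv]
  exact key

/-- **TwoExt (2)**: a uniformiser of `A` is a uniformiser of `V₁`. -/
theorem TwoExtHyp.uniformizer₁ (h : TwoExtHyp K A V₁ V₂ u₁ u₂) {w : A} (hw : Irreducible w)
    {x : L} (hx : x ∈ V₁.nonunits) : x * (algebraMap A L w)⁻¹ ∈ V₁ :=
  h.over₁.mul_inv_mem_of_ramificationIdx_eq_one (K := K) h.core.2.1 hw hx

/-- **TwoExt (2')**: a uniformiser of `A` is a uniformiser of `V₂`. -/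
theorem TwoExtHyp.uniformizer₂ (h : TwoExtHyp K A V₁ V₂ u₁ u₂) {w : A} (hw : Irreducible w)
    {x : L} (hx : x ∈ V₂.nonunits) : x * (algebraMap A L w)⁻¹ ∈ V₂ :=
  h.over₂.mul_inv_mem_of_ramificationIdx_eq_one (K := K) h.core.2.2.1 hw hx

/-- **TwoExt (3)**: the integral closure of `A` in `L` is `V₁ ∩ V₂`. -/
theorem TwoExtHyp.isIntegral_iff (h : TwoExtHyp K A V₁ V₂ u₁ u₂) (x : L) :
    IsIntegral A x ↔ x ∈ V₁ ∧ x ∈ V₂ := by
  constructor
  · intro hx
    exact ⟨h.over₁.integral_mem hx, h.over₂.integral_mem hx⟩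
  · rintro ⟨hx₁, hx₂⟩
    have hD : IsDedekindDomain (integralClosure A L) := integralClosure.isDedekindDomain A K L
    have hFr : IsFractionRing (integralClosure A L) L :=
      integralClosure.isFractionRing_of_finite_extension K L
    have hint : Algebra.IsIntegral A (integralClosure A L) :=
      IsIntegralClosure.isIntegral_algebra A L
    have key : ∀ v : HeightOneSpectrum (integralClosure A L), v.valuation L x ≤ 1 := by
      intro v
      have hmax : (v.asIdeal.comap (algebraMap A (integralClosure A L))).IsMaximal :=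
        Ideal.isMaximal_comap_of_isIntegral_of_isMaximal v.asIdeal
      have hlo : v.asIdeal.LiesOver (maximalIdeal A) :=
        ⟨(IsLocalRing.eq_maximalIdeal hmax).symm⟩
      rcases h.core.1 v.asIdeal v.isPrime hlo with h1 | h1
      · have := eq_valuationSubring_of_center V₁ h.over₁.mem_integralClosure
          (h.over₁.ne_top K) v h1
        rw [this] at hx₁
        exact hx₁
      · have := eq_valuationSubring_of_center V₂ h.over₂.mem_integralClosure
          (h.over₂.ne_top K) v h1
        rw [this] at hx₂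
        exact hx₂
    obtain ⟨c, hc⟩ := HeightOneSpectrum.mem_integers_of_valuation_le_one L x key
    rw [← hc]
    exact c.2

include K in
/-- spanning of the residue field by an independent family of the right size -/
theorem IsOver.exists_sub_sum_mem_nonunits {V : ValuationSubring L} (hV : IsOver A V) {f : ℕ}
    (hf : Ideal.inertiaDeg' (maximalIdeal A) (center V hV.mem_integralClosure) = f)
    (u : Fin f → L) (hu : ∀ i, u i ∈ V)
    (hind : ∀ a : Fin f → A, (∑ i, algebraMap A L (a i) * u i) ∈ V.nonunits →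
      ∀ i, a i ∈ maximalIdeal A) {x : L} (hx : x ∈ V) :
    ∃ a : Fin f → A, x - ∑ i, algebraMap A L (a i) * u i ∈ V.nonunits := by
  have hlo := hV.center_liesOver
  have hfin : Module.Finite A (integralClosure A L) := IsIntegralClosure.finite A K L _
  rw [Ideal.inertiaDeg'_algebraMap] at hf
  choose s hs using fun i => hV.exists_sub_mem_nonunits K (hu i)
  have hli := hV.linearIndependent_mk u s hs hind
  have hcard : Fintype.card (Fin f)
      = Module.finrank (A ⧸ maximalIdeal A)
          (integralClosure A L ⧸ center V hV.mem_integralClosure) := by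
    rw [hf, Fintype.card_fin]
  let _ : Field (A ⧸ maximalIdeal A) := Ideal.Quotient.field (maximalIdeal A)
  have hspan := LinearIndependent.span_eq_top_of_card_eq_finrank' (K := A ⧸ maximalIdeal A)
    hli hcard
  obtain ⟨t, ht⟩ := hV.exists_sub_mem_nonunits K hx
  have hmem : Ideal.Quotient.mk (center V hV.mem_integralClosure) t ∈
      Submodule.span (A ⧸ maximalIdeal A)
        (Set.range fun i => Ideal.Quotient.mk (center V hV.mem_integralClosure) (s i)) := by
    rw [hspan]
    exact Submodule.mem_top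
  rw [Submodule.mem_span_range_iff_exists_fun] at hmem
  obtain ⟨c, hc⟩ := hmem
  choose a ha using fun i => Ideal.Quotient.mk_surjective (c i)
  refine ⟨a, ?_⟩
  have h1 : ∀ i, c i • Ideal.Quotient.mk (center V hV.mem_integralClosure) (s i)
      = Ideal.Quotient.mk (center V hV.mem_integralClosure)
          (algebraMap A (integralClosure A L) (a i) * s i) := by
    intro i
    rw [Algebra.smul_def, ← ha i, Ideal.Quotient.algebraMap_mk_of_liesOver, map_mul]
  simp only [h1] at hc
  rw [← map_sum, Ideal.Quotient.eq, mem_center_iff] at hc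
  have h2 : x - ∑ i, algebraMap A L (a i) * u i
      = (x - algebraMap (integralClosure A L) L t)
        - algebraMap (integralClosure A L) L
            (∑ i, algebraMap A (integralClosure A L) (a i) * s i - t)
        - ∑ i, algebraMap A L (a i) * (u i - algebraMap (integralClosure A L) L (s i)) := by
    rw [map_sub, map_sum]
    have h3 : ∀ i, algebraMap (integralClosure A L) L
        (algebraMap A (integralClosure A L) (a i) * s i)
        = algebraMap A L (a i) * algebraMap (integralClosure A L) L (s i) := by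
      intro i
      rw [map_mul, ← IsScalarTower.algebraMap_apply]
    simp only [h3, mul_sub, Finset.sum_sub_distrib]
    ring
  rw [h2]
  refine sub_mem (sub_mem ht hc) (sum_mem fun i _ => ?_)
  exact mul_mem_nonunits (hV.mem _) (hs i)

/-- **TwoExt (4)**: the residues of `u₁` span the residue field of `V₁`. -/
theorem TwoExtHyp.span₁ (h : TwoExtHyp K A V₁ V₂ u₁ u₂) {x : L} (hx : x ∈ V₁) :
    ∃ a : Fin f₁ → A, x - ∑ i, algebraMap A L (a i) * u₁ i ∈ V₁.nonunits :=
  h.over₁.exists_sub_sum_mem_nonunits (K := K) h.core.2.2.2.1 u₁ h.mem₁ h.indep₁ hx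

/-- **TwoExt (4')**: the residues of `u₂` span the residue field of `V₂`. -/
theorem TwoExtHyp.span₂ (h : TwoExtHyp K A V₁ V₂ u₁ u₂) {x : L} (hx : x ∈ V₂) :
    ∃ a : Fin f₂ → A, x - ∑ i, algebraMap A L (a i) * u₂ i ∈ V₂.nonunits :=
  h.over₂.exists_sub_sum_mem_nonunits (K := K) h.core.2.2.2.2 u₂ h.mem₂ h.indep₂ hx

end Main

end Fermat.Agent.A2.H489

end
-- ===== PACK-END A2/H489/TwoExtD.lean

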