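import Mathlib
import Fermat.Prelude.Def_ModularCurve_X0ModL
import Fermat.Prelude.Def_ModularCurve_ArithmeticGalois
import Fermat.Agent.Pack.S36.E7L2
import Fermat.Agent.Pack.S36.E7L1
import Fermat.Agent.Pack.S36.E7L3
import Fermat.Agent.Pack.S36.E6L2
import Fermat.Agent.Pack.S36.E3L1
import Fermat.Agent.Pack.S36.E5L1
import Fermat.Agent.Pack.S36.E6L0
import Fermat.Agent.Pack.S36.E4L1
import Fermat.Agent.Pack.S36.E3L3

-- ===== PACK-BEGIN Lib/Cheb/H761/PrimeCountBound.lean
section


/-!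
# Piece B0 of the shared library CHEB: `Spec.PrimeCountBoundStatement`

There are at most `[F : ℚ]` prime ideals of `𝓞 F` of any given norm.
-/

set_option autoImplicit false

namespace Fermat.Agent.Lib.Cheb.H761

open IsDedekindDomain NumberField Ideal

/-- A nonzero prime ideal of norm `n` contains the least prime factor of `n`. -/
lemma minFac_mem_of_absNorm_eq {F : Type} [Field F] [NumberField F]
    (𝔭 : HeightOneSpectrum (𝓞 F)) : ((absNorm 𝔭.asIdeal).minFac : 𝓞 F) ∈ 𝔭.asIdeal := by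
  have := 𝔭.isMaximal
  obtain ⟨p, n, hn, hmem, hp, hN⟩ := Ideal.exists_prime_and_absNorm_eq_pow 𝔭.asIdeal
  rw [hN, hp.pow_minFac hn.ne']
  exact hmem

/-- **Piece B0**: `Spec.PrimeCountBoundStatement`. -/
theorem primeCountBound_statement : Spec.PrimeCountBoundStatement := by
  classical
  intro F _ _ p
  rw [Spec.primeCount]
  have hfinset : {𝔮 : Ideal (𝓞 F) | 𝔮.IsPrime ∧ Ideal.absNorm 𝔮 = p}.Finite :=
    (Ideal.finite_setOfPred_absNorm_eq (S := 𝓞 F) p).subset (fun 𝔮 h𝔮 => h𝔮.2)
  have hd : 1 ≤ Module.finrank ℚ F := Module.finrank_pos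
  rcases Nat.eq_zero_or_pos p with rfl | hp0
  · -- only the zero ideal has norm `0`
    have hsub : Subsingleton {𝔮 : Ideal (𝓞 F) // 𝔮.IsPrime ∧ Ideal.absNorm 𝔮 = 0} := by
      refine ⟨fun a b => Subtype.ext ?_⟩
      rw [Ideal.absNorm_eq_zero_iff.mp a.2.2, Ideal.absNorm_eq_zero_iff.mp b.2.2]
    exact (Finite.card_le_one_iff_subsingleton.mpr hsub).trans hd
  · have hfin : Finite {𝔮 : Ideal (𝓞 F) // 𝔮.IsPrime ∧ Ideal.absNorm 𝔮 = p} :=
      hfinset.to_subtype
    have : Fintype {𝔮 : Ideal (𝓞 F) // 𝔮.IsPrime ∧ Ideal.absNorm 𝔮 = p} := Fintype.ofFinite _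
    rw [Nat.card_eq_fintype_card]
    by_cases hne : Nonempty {𝔮 : Ideal (𝓞 F) // 𝔮.IsPrime ∧ Ideal.absNorm 𝔮 = p}
    · -- every such prime contains `p.minFac`, which is prime
      let ι : {𝔮 : Ideal (𝓞 F) // 𝔮.IsPrime ∧ Ideal.absNorm 𝔮 = p} → HeightOneSpectrum (𝓞 F) :=
        fun 𝔮 => ⟨𝔮.1, 𝔮.2.1, by
          rintro h
          have := 𝔮.2.2
          rw [h, Ideal.absNorm_bot] at this
          omega⟩
      have hι : Function.Injective ι := by
        intro a b h
        apply Subtype.ext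
        exact congrArg HeightOneSpectrum.asIdeal h
      have hp1 : p ≠ 1 := by
        rintro rfl
        obtain ⟨𝔮⟩ := hne
        exact 𝔮.2.1.ne_top (Ideal.absNorm_eq_one_iff.mp 𝔮.2.2)
      have hprime : p.minFac.Prime := Nat.minFac_prime hp1
      have hcard := card_le_of_natCast_mem F hprime (Finset.univ.image ι) (by
        intro 𝔭 h𝔭
        obtain ⟨𝔮, -, rfl⟩ := Finset.mem_image.mp h𝔭
        have := minFac_mem_of_absNorm_eq (ι 𝔮)
        have hN : absNorm (ι 𝔮).asIdeal = p := 𝔮.2.2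
        rwa [hN] at this)
      rw [Finset.card_image_of_injective _ hι, Finset.card_univ,
        NumberField.RingOfIntegers.rank] at hcard
      exact hcard
    · rw [not_nonempty_iff] at hne
      rw [Fintype.card_eq_zero]
      exact Nat.zero_le _

end Fermat.Agent.Lib.Cheb.H761

end
-- ===== PACK-END Lib/Cheb/H761/PrimeCountBound.lean

-- ===== PACK-BEGIN S24/H624/SL2Z.lean
section


/-!
# `SL(2, ℤ)` acting on holomorphic functions; divisibility of orders at elliptic points
-/

set_option autoImplicit false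

namespace Fermat.Agent.S24.H624

open UpperHalfPlane Complex
open scoped Manifold Topology MatrixGroups

theorem det_coe_SL_pos (γ : SL(2, ℤ)) : 0 < ((γ : GL (Fin 2) ℝ).det.val : ℝ) := by
  simp

theorem det_coe_SL (γ : SL(2, ℤ)) : ((γ : GL (Fin 2) ℝ).det.val : ℝ) = 1 := by
  simp

/-- Precomposition with `γ ∈ SL(2, ℤ)` as an algebra endomorphism of `holoRing`. -/
noncomputable def precompSL (γ : SL(2, ℤ)) : holoRing →ₐ[ℂ] holoRing where
  toFun f := ⟨fun τ => (f : ℍ → ℂ) (γ • τ), mdiff_comp_smul (det_coe_SL_pos γ) f.2⟩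
  map_one' := rfl
  map_mul' _ _ := rfl
  map_zero' := rfl
  map_add' _ _ := rfl
  commutes' _ := rfl

@[simp]
theorem precompSL_apply (γ : SL(2, ℤ)) (f : holoRing) (τ : ℍ) :
    (precompSL γ f : ℍ → ℂ) τ = (f : ℍ → ℂ) (γ • τ) := rfl

theorem precompSL_one (f : holoRing) : precompSL 1 f = f := by
  ext τ
  simp

theorem precompSL_mul (γ δ : SL(2, ℤ)) (f : holoRing) :
    precompSL (γ * δ) f = precompSL δ (precompSL γ f) := by
  ext τ
  simp [mul_smul]

/-- Left action of `SL(2, ℤ)` on holomorphic functions: `(γ • f) τ = f (γ⁻¹ • τ)`. -/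
noncomputable instance instMulSemiringActionHoloRing : MulSemiringAction SL(2, ℤ) holoRing where
  smul γ f := precompSL γ⁻¹ f
  one_smul f := by
    show precompSL (1 : SL(2, ℤ))⁻¹ f = f
    rw [inv_one, precompSL_one]
  mul_smul γ δ f := by
    show precompSL (γ * δ)⁻¹ f = precompSL γ⁻¹ (precompSL δ⁻¹ f)
    rw [mul_inv_rev, precompSL_mul]
  smul_zero γ := map_zero _
  smul_add γ f g := map_add _ f g
  smul_one γ := map_one _
  smul_mul γ f g := map_mul _ f g

theorem smul_holoRing_apply (γ : SL(2, ℤ)) (f : holoRing) (τ : ℍ) :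
    ((γ • f : holoRing) : ℍ → ℂ) τ = (f : ℍ → ℂ) (γ⁻¹ • τ) := rfl

theorem smul_holoRing_def (γ : SL(2, ℤ)) (f : holoRing) : γ • f = precompSL γ⁻¹ f := rfl

instance instSMulCommClassHoloRing : SMulCommClass SL(2, ℤ) ℂ holoRing where
  smul_comm γ c f := by
    ext τ
    rfl

theorem ordAt_precompSL (γ : SL(2, ℤ)) (f : holoRing) (τ : ℍ) :
    ordAt τ (precompSL γ f : ℍ → ℂ) = ordAt (γ • τ) (f : ℍ → ℂ) :=
  ordAt_comp_smul (det_coe_SL_pos γ) (f : ℍ → ℂ) τ

theorem ordAt_smul_holoRing (γ : SL(2, ℤ)) (f : holoRing) (τ : ℍ) :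
    ordAt (γ • τ) ((γ • f : holoRing) : ℍ → ℂ) = ordAt τ (f : ℍ → ℂ) := by
  rw [smul_holoRing_def, ordAt_precompSL, inv_smul_smul]

/-- Rotation lemma for `SL(2, ℤ)`: if `γ` fixes `τ` and `f ≠ 0` is `γ`-invariant of order `n`
at `τ`, then `(c τ + d) ^ (2 n) = 1`. -/
theorem denom_pow_eq_one {γ : SL(2, ℤ)} {f : ℍ → ℂ} (hf : MDiff f) (hf0 : f ≠ 0) {τ : ℍ}
    (hτ : γ • τ = τ) (hinv : ∀ z : ℍ, f (γ • z) = f z) :
    denom (γ : GL (Fin 2) ℝ) (τ : ℂ) ^ (2 * (ordAt τ f).toNat) = 1 := by
  have h := rotation_lemma (g := (γ : GL (Fin 2) ℝ)) (det_coe_SL_pos γ) hf hf0 hτ hinv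
  rw [det_coe_SL γ] at h
  have hd : denom (γ : GL (Fin 2) ℝ) (τ : ℂ) ≠ 0 := denom_ne_zero _ τ
  rw [Complex.ofReal_one, div_pow, one_pow, ← pow_mul] at h
  have h2 := (div_eq_one_iff_eq (pow_ne_zero _ hd)).mp h
  exact h2.symm

/-- The quadratic relation satisfied by `λ = c τ + d` at a fixed point:
`λ ^ 2 - (a + d) λ + 1 = 0`. -/
theorem denom_sq_eq_of_fixed {γ : SL(2, ℤ)} {τ : ℍ} (hτ : γ • τ = τ) :
    denom (γ : GL (Fin 2) ℝ) (τ : ℂ) ^ 2
      = (((γ 0 0 + γ 1 1 : ℤ) : ℂ)) * denom (γ : GL (Fin 2) ℝ) (τ : ℂ) - 1 := by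
  have hd : denom (γ : GL (Fin 2) ℝ) (τ : ℂ) ≠ 0 := denom_ne_zero _ τ
  have h1 : ((γ • τ : ℍ) : ℂ) = num (γ : GL (Fin 2) ℝ) τ / denom (γ : GL (Fin 2) ℝ) τ :=
    coe_smul_of_det_pos (det_coe_SL_pos γ) τ
  rw [hτ] at h1
  have h2 : (τ : ℂ) * denom (γ : GL (Fin 2) ℝ) τ = num (γ : GL (Fin 2) ℝ) τ :=
    (eq_div_iff hd).mp h1
  have hdet : ((γ 0 0 : ℤ) : ℂ) * ((γ 1 1 : ℤ) : ℂ) - ((γ 0 1 : ℤ) : ℂ) * ((γ 1 0 : ℤ) : ℂ) = 1 := by
    have := γ.det_coe
    rw [Matrix.det_fin_two] at this
    exact_mod_cast this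
  have hnum : num (γ : GL (Fin 2) ℝ) (τ : ℂ) = ((γ 0 0 : ℤ) : ℂ) * τ + ((γ 0 1 : ℤ) : ℂ) := by
    simp [num]
  have hden : denom (γ : GL (Fin 2) ℝ) (τ : ℂ) = ((γ 1 0 : ℤ) : ℂ) * τ + ((γ 1 1 : ℤ) : ℂ) := by
    simp [denom]
  rw [hnum, hden] at h2
  rw [hden]
  push_cast
  linear_combination (((γ 1 0 : ℤ) : ℂ)) * h2 - hdet

/-- At a fixed point of an element of trace `0`, invariant functions vanish to even order. -/
theorem even_ordAt_of_trace_zero {γ : SL(2, ℤ)} {f : ℍ → ℂ} (hf : MDiff f) (hf0 : f ≠ 0)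
    {τ : ℍ} (hτ : γ • τ = τ) (htr : γ 0 0 + γ 1 1 = 0) (hinv : ∀ z : ℍ, f (γ • z) = f z) :
    Even (ordAt τ f).toNat := by
  have h1 := denom_pow_eq_one hf hf0 hτ hinv
  have h2 := denom_sq_eq_of_fixed hτ
  rw [htr] at h2
  simp only [Int.cast_zero, zero_mul, zero_sub] at h2
  rw [pow_mul, h2] at h1
  by_contra hodd
  rw [Nat.not_even_iff_odd] at hodd
  rw [hodd.neg_one_pow] at h1
  norm_num at h1

theorem three_dvd_of_root {μ : ℂ} (hμ : μ ^ 2 + μ + 1 = 0) {n : ℕ} (hn : μ ^ n = 1) : 3 ∣ n := by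
  have h3 : μ ^ 3 = 1 := by linear_combination (μ - 1) * hμ
  have hμ1 : μ ≠ 1 := by
    rintro rfl
    norm_num at hμ
  have hμ2 : μ ^ 2 ≠ 1 := by
    intro h
    have : μ = -2 := by linear_combination hμ - h
    rw [this] at h
    norm_num at h
  have hdiv : μ ^ n = μ ^ (n % 3) := by
    conv_lhs => rw [← Nat.div_add_mod n 3, pow_add, pow_mul, h3, one_pow, one_mul]
  rw [hdiv] at hn
  have hlt : n % 3 < 3 := Nat.mod_lt _ (by norm_num)
  interval_cases h : n % 3
  · exact Nat.dvd_of_mod_eq_zero h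
  · rw [pow_one] at hn; exact absurd hn hμ1
  · exact absurd hn hμ2

/-- At a fixed point of an element of trace `±1`, invariant functions vanish to order divisible
by `3`. -/
theorem three_dvd_ordAt_of_trace {γ : SL(2, ℤ)} {f : ℍ → ℂ} (hf : MDiff f) (hf0 : f ≠ 0)
    {τ : ℍ} (hτ : γ • τ = τ) (htr : γ 0 0 + γ 1 1 = 1 ∨ γ 0 0 + γ 1 1 = -1)
    (hinv : ∀ z : ℍ, f (γ • z) = f z) :
    3 ∣ (ordAt τ f).toNat := by
  have h1 := denom_pow_eq_one hf hf0 hτ hinv
  have h2 := denom_sq_eq_of_fixed hτ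
  rw [pow_mul] at h1
  set lam := denom (γ : GL (Fin 2) ℝ) (τ : ℂ) with hlam
  refine three_dvd_of_root (μ := lam ^ 2) ?_ h1
  rcases htr with htr | htr
  · rw [htr] at h2
    simp only [Int.cast_one, one_mul] at h2
    linear_combination (lam ^ 2 + lam + 1) * h2
  · rw [htr] at h2
    simp only [Int.cast_neg, Int.cast_one, neg_mul, one_mul] at h2
    linear_combination (lam ^ 2 - lam + 1) * h2

end Fermat.Agent.S24.H624

end
-- ===== PACK-END S24/H624/SL2Z.lean

-- ===== PACK-BEGIN S24/H864/FF3c.lean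
section


/-!
# S24 / ALG / FF1+FF3 (part c): the fundamental identity, abstract form

`R ⊆ S` Dedekind domains, `S` finite over `R`, `F = Frac S`, `p = (τ)` a maximal ideal of `R`
with residue field `K` (algebraically closed).  Then the places `v` of `F/K` with `0 < v(τ)`
(assumed to contain `R` in their valuation ring) correspond to the primes of `S` over `p`, and
`∑_v v(τ) = rank_R S`.
-/

set_option autoImplicit false

noncomputable section

open AlgebraicCurve IsDedekindDomain

namespace Fermat.Agent.S24.H864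

/-- universe-polymorphic version of `IsAlgClosed.of_ringEquiv` -/
theorem isAlgClosed_of_ringEquiv {k : Type*} {k' : Type*} [Field k] [Field k'] [IsAlgClosed k]
    (e : k ≃+* k') : IsAlgClosed k' := by
  apply IsAlgClosed.of_exists_root
  intro p hmp hp
  have hpe : (p.map e.symm.toRingHom).degree ≠ 0 := by
    rw [Polynomial.degree_map]
    exact ne_of_gt (Polynomial.degree_pos_of_irreducible hp)
  rcases IsAlgClosed.exists_root (k := k) (p.map e.symm.toRingHom) hpe with ⟨x, hx⟩
  use e x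
  rw [Polynomial.IsRoot] at hx
  apply e.symm.injective
  rw [map_zero, ← hx]
  clear hx hpe hp hmp
  induction p using Polynomial.induction_on <;> simp_all

section Rel

variable {K F : Type*} [Field K] [Field F] [Algebra K F]
variable {S : Type*} [CommRing S] [IsDedekindDomain S] [Algebra S F] [IsFractionRing S F]
  [Algebra K S] [IsScalarTower K S F]
variable {R : Type*} [CommRing R] [IsDomain R] [Algebra R S] [Algebra R F] [IsScalarTower R S F]
  [Module.Finite R S]

omit [IsDedekindDomain S] [IsFractionRing S F] [Algebra K S] [IsScalarTower K S F] [IsDomain R] in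
/-- valuation rings are integrally closed: `S ⊆ O_v` as soon as `R ⊆ O_v`. -/
theorem algebraMap_mem_of_base (v : Place K F)
    (hR : ∀ r : R, algebraMap R F r ∈ v.toValuationSubring) (s : S) :
    algebraMap S F s ∈ v.toValuationSubring := by
  have hint : IsIntegral R s := Algebra.IsIntegral.isIntegral s
  obtain ⟨P, hP, hPs⟩ := hint
  set φ : R →+* v.toValuationSubring :=
    (algebraMap R F).codRestrict v.toValuationSubring.toSubring hR with hφ
  have hcomp : (algebraMap v.toValuationSubring F).comp φ = algebraMap R F := by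
    ext r; rfl
  have h1 : IsIntegral v.toValuationSubring (algebraMap S F s) := by
    refine ⟨P.map φ, hP.map φ, ?_⟩
    rw [Polynomial.eval₂_map, hcomp]
    have h2 := congrArg (algebraMap S F) hPs
    rw [map_zero, Polynomial.hom_eval₂, ← IsScalarTower.algebraMap_eq] at h2
    exact h2
  obtain ⟨y, hy⟩ := IsIntegrallyClosed.isIntegral_iff.mp h1
  rw [← hy]
  exact y.2

variable (p : Ideal R) [hpmax : p.IsMaximal] (τ : R)

omit [IsFractionRing S F] [Algebra K S] [IsScalarTower K S F] [Algebra R F] [IsScalarTower R S F]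
  [Module.Finite R S] [IsDedekindDomain S] [IsDomain R] hpmax in
theorem algebraMap_mem_of_primesOver (hp : p = Ideal.span {τ}) (q : p.primesOver S) :
    algebraMap R S τ ∈ q.1 := by
  have h1 : τ ∈ p := by rw [hp]; exact Ideal.mem_span_singleton_self τ
  have h2 := q.1.over_def p
  rw [h2] at h1
  exact h1

omit [IsFractionRing S F] [Algebra K S] [IsScalarTower K S F] [Algebra R F] [IsScalarTower R S F]
  [Module.Finite R S] [IsDedekindDomain S] [IsDomain R] hpmax in
theorem primesOver_ne_bot (hp : p = Ideal.span {τ}) (hτ : τ ≠ 0)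
    (hinj : Function.Injective (algebraMap R S)) (q : p.primesOver S) : q.1 ≠ ⊥ := by
  intro h
  have h1 := algebraMap_mem_of_primesOver p τ hp q
  rw [h, Ideal.mem_bot] at h1
  exact hτ (hinj (by rw [h1, map_zero]))

/-- the height one prime attached to a prime over `p` -/
def wOf (hp : p = Ideal.span {τ}) (hτ : τ ≠ 0)
    (hinj : Function.Injective (algebraMap R S)) (q : p.primesOver S) : HeightOneSpectrum S :=
  ⟨q.1, q.2.1, primesOver_ne_bot p τ hp hτ hinj q⟩

omit hpmax [Module.Finite R S] in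
theorem ord_wOf (hp : p = Ideal.span {τ}) (hτ : τ ≠ 0)
    (hinj : Function.Injective (algebraMap R S)) (q : p.primesOver S) :
    (Place.ofHeightOneSpectrum (K := K) (F := F) (wOf p τ hp hτ hinj q)).ord (algebraMap R F τ)
      = (q.1.ramificationIdx R : ℤ) := by
  have hτ' : algebraMap R S τ ≠ 0 := fun h => hτ (hinj (by rw [h, map_zero]))
  rw [IsScalarTower.algebraMap_apply R S F, ord_ofHeightOneSpectrum_algebraMap _ hτ']
  have hmap : p.map (algebraMap R S) = Ideal.span {algebraMap R S τ} := by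
    rw [hp, Ideal.map_span, Set.image_singleton]
  have hne : p.map (algebraMap R S) ≠ ⊥ := by
    rw [hmap, Ne, Ideal.span_singleton_eq_bot]
    exact hτ'
  rw [Ideal.IsDedekindDomain.ramificationIdx_eq_multiplicity p q.1 hne, hmap]
  rfl

section Inertia

variable [IsAlgClosed K] [Algebra K R] [IsScalarTower K R S]

omit [IsFractionRing S F] [Algebra K S] [IsScalarTower K S F] [Algebra R F] [IsScalarTower R S F]
  [IsDedekindDomain S] [IsDomain R] [Algebra K F] [IsScalarTower K R S] in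
/-- residue field `K` algebraically closed ⟹ all inertia degrees are `1`. -/
theorem inertiaDeg_eq_one (hres : ∀ r : R, ∃ c : K, r - algebraMap K R c ∈ p)
    (q : p.primesOver S) : q.1.inertiaDeg R = 1 := by
  haveI : q.1.IsMaximal := Ideal.primesOver.isMaximal q
  rw [Ideal.inertiaDeg_eq_of_isMaximal p q.1]
  letI : Field (R ⧸ p) := Ideal.Quotient.field p
  letI : Field (S ⧸ q.1) := Ideal.Quotient.field q.1
  -- `K ≃ R ⧸ p`
  let f : K →+* R ⧸ p := (Ideal.Quotient.mk p).comp (algebraMap K R)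
  have hf : Function.Bijective f := by
    refine ⟨f.injective, fun y => ?_⟩
    obtain ⟨r, rfl⟩ := Ideal.Quotient.mk_surjective y
    obtain ⟨c, hc⟩ := hres r
    refine ⟨c, ?_⟩
    show Ideal.Quotient.mk p (algebraMap K R c) = Ideal.Quotient.mk p r
    rw [eq_comm, Ideal.Quotient.eq]
    exact hc
  haveI : IsAlgClosed (R ⧸ p) := isAlgClosed_of_ringEquiv (RingEquiv.ofBijective f hf)
  haveI : Algebra.IsIntegral (R ⧸ p) (S ⧸ q.1) := inferInstance
  have hbij : Function.Bijective (algebraMap (R ⧸ p) (S ⧸ q.1)) :=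
    IsAlgClosed.algebraMap_bijective_of_isIntegral
  have htop : (⊥ : Subalgebra (R ⧸ p) (S ⧸ q.1)) = ⊤ :=
    (Algebra.surjective_algebraMap_iff.mp hbij.2).symm
  exact Subalgebra.bot_eq_top_iff_finrank_eq_one.mp htop

end Inertia

section Main

variable [IsAlgClosed K] [Algebra K R] [IsScalarTower K R S] [Module.Flat R S]

/-- **Fundamental identity, abstract form.** -/
theorem fundamental_identity_abstract
    (hp : p = Ideal.span {τ}) (hτ : τ ≠ 0) (hinj : Function.Injective (algebraMap R S))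
    (hres : ∀ r : R, ∃ c : K, r - algebraMap K R c ∈ p)
    (hR : ∀ v : Place K F, 0 < v.ord (algebraMap R F τ) →
      ∀ r : R, algebraMap R F r ∈ v.toValuationSubring)
    (s : Finset (Place K F)) (hs : ∀ v, v ∈ s ↔ 0 < v.ord (algebraMap R F τ)) :
    ∑ v ∈ s, v.ord (algebraMap R F τ) = (Module.finrank R S : ℤ) := by
  classical
  haveI : Fintype (p.primesOver S) := (Algebra.QuasiFinite.finite_primesOver p).fintype
  have hsum := Ideal.sum_ramification_inertia_eq_finrank p S
  have hτ' : algebraMap R S τ ≠ 0 := fun h => hτ (hinj (by rw [h, map_zero]))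
  set g : p.primesOver S → Place K F :=
    fun q => Place.ofHeightOneSpectrum (K := K) (wOf p τ hp hτ hinj q) with hg
  have hg_inj : Function.Injective g := by
    intro q q' h
    have h1 : wOf p τ hp hτ hinj q = wOf p τ hp hτ hinj q' :=
      ofHeightOneSpectrum_injective (K := K) (F := F) h
    exact Subtype.ext (congrArg HeightOneSpectrum.asIdeal h1)
  have hg_ord : ∀ q, (g q).ord (algebraMap R F τ) = (q.1.ramificationIdx R : ℤ) :=
    fun q => ord_wOf p τ hp hτ hinj q
  have himg : Finset.univ.image g = s := by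
    ext v
    rw [Finset.mem_image, hs]
    constructor
    · rintro ⟨q, -, rfl⟩
      rw [hg_ord]
      exact_mod_cast Ideal.ramificationIdx_pos q.1 R
    · intro hv
      have hS := algebraMap_mem_of_base (S := S) v (hR v hv)
      have hv' : 0 < v.ord (algebraMap S F (algebraMap R S τ)) := by
        rwa [← IsScalarTower.algebraMap_apply R S F]
      obtain ⟨w, hw, hwq⟩ := exists_heightOneSpectrum_of_place v hS hτ' hv'
      have hle : p ≤ w.asIdeal.under R := by
        rw [hp, Ideal.span_singleton_le_iff_mem, Ideal.under_def, Ideal.mem_comap, hwq]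
        exact (mem_primeOfPlace v hS hτ').mpr hv'
      have hne : w.asIdeal.under R ≠ ⊤ := (Ideal.IsPrime.under R w.asIdeal).ne_top
      have hq : w.asIdeal ∈ p.primesOver S := ⟨w.isPrime, ⟨hpmax.eq_of_le hne hle⟩⟩
      refine ⟨⟨w.asIdeal, hq⟩, Finset.mem_univ _, ?_⟩
      rw [← hw]
      show Place.ofHeightOneSpectrum (K := K) (wOf p τ hp hτ hinj ⟨w.asIdeal, hq⟩) = _
      congr 1
  rw [← himg, Finset.sum_image (fun a _ b _ h => hg_inj h)]
  simp_rw [hg_ord]
  rw [← hsum]
  push_cast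
  refine Finset.sum_congr rfl fun q _ => ?_
  rw [inertiaDeg_eq_one p hres q, Nat.cast_one, mul_one]

end Main

end Rel

end Fermat.Agent.S24.H864

end
end
-- ===== PACK-END S24/H864/FF3c.lean

-- ===== PACK-BEGIN S28/H867/Transfer.lean
section



set_option autoImplicit false
noncomputable section
open ModularCurve HahnSeries IntermediateField Polynomial

namespace Fermat.Agent.S28.H867

section Transfer

variable (k : Type*) [Field k]

/-- `coeffMap` commutes with `evalAt`. -/
theorem coeffMap_comp_evalAt (y : LaurentSeries ℤ) :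
    (coeffMap (Int.castRingHom k)).comp (evalAt y) = evalAt (coeffMap (Int.castRingHom k) y) := by
  apply Polynomial.ringHom_ext
  · intro a
    simp [evalAt]
  · simp [evalAt]

/-- `qExpand` commutes with `evalAt`. -/
theorem qExpand_comp_evalAt (p : ℕ) [NeZero p] (y : LaurentSeries k) :
    (qExpand k p).comp (evalAt y) = evalAt (qExpand k p y) := by
  apply Polynomial.ringHom_ext
  · intro a
    simp [evalAt]
  · simp [evalAt]

variable {k} in
theorem eval₂_evalAt_transfer (Φ : Polynomial (Polynomial ℤ)) (y x : LaurentSeries ℤ)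
    (h : Φ.eval₂ (evalAt y) x = 0) :
    Φ.eval₂ (evalAt (coeffMap (Int.castRingHom k) y)) (coeffMap (Int.castRingHom k) x) = 0 := by
  rw [← coeffMap_comp_evalAt, ← Polynomial.hom_eval₂, h, map_zero]

variable {k} in
theorem eval₂_evalAt_qExpand (p : ℕ) [NeZero p] (Φ : Polynomial (Polynomial ℤ))
    (y x : LaurentSeries k) (h : Φ.eval₂ (evalAt y) x = 0) :
    Φ.eval₂ (evalAt (qExpand k p y)) (qExpand k p x) = 0 := by
  rw [← qExpand_comp_evalAt, ← Polynomial.hom_eval₂, h, map_zero]

theorem coeffMap_jp (p : ℕ) [NeZero p] :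
    coeffMap (Int.castRingHom k) (qExpand ℤ p (jqModC ℤ)) = jp k p := by
  rw [coeffMap_qExpand, coeffMap_jqModC]

/-- `Φ_p(j_p, j) = 0` over `k`. -/
theorem modPoly_eval_jp_field {p : ℕ} [NeZero p] (D : ModPolyData p) :
    D.Φ.eval₂ (evalAt (jqModC k)) (jp k p) = 0 := by
  have := eval₂_evalAt_transfer (k := k) D.Φ _ _ D.eval_jp
  rwa [coeffMap_jp, coeffMap_jqModC] at this

/-- `Φ_p(j, j_p) = 0` over `k`. -/
theorem modPoly_eval_j_field {p : ℕ} [NeZero p] (D : ModPolyData p) :
    D.Φ.eval₂ (evalAt (jp k p)) (jqModC k) = 0 := by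
  have := eval₂_evalAt_transfer (k := k) D.Φ _ _ D.eval_j
  rwa [coeffMap_jp, coeffMap_jqModC] at this

end Transfer

section PolyOver

variable {k : Type*} [Field k]

/-- The polynomial `Φ(X, y)` with coefficients in a subfield `A ∋ y`. -/
def polyOver (A : IntermediateField k (LaurentSeries k)) (y : A) (Φ : Polynomial (Polynomial ℤ)) :
    Polynomial A :=
  Φ.map (Polynomial.aeval (R := ℤ) y).toRingHom

theorem polyOver_monic (A : IntermediateField k (LaurentSeries k)) (y : A)
    {Φ : Polynomial (Polynomial ℤ)} (h : Φ.Monic) : (polyOver A y Φ).Monic :=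
  h.map _

theorem polyOver_natDegree (A : IntermediateField k (LaurentSeries k)) (y : A)
    {Φ : Polynomial (Polynomial ℤ)} (h : Φ.Monic) : (polyOver A y Φ).natDegree = Φ.natDegree :=
  h.natDegree_map _

theorem aeval_polyOver (A : IntermediateField k (LaurentSeries k)) (y : A)
    (Φ : Polynomial (Polynomial ℤ)) (x : LaurentSeries k) :
    Polynomial.aeval x (polyOver A y Φ) = Φ.eval₂ (evalAt (y : LaurentSeries k)) x := by
  rw [polyOver, Polynomial.aeval_def, Polynomial.eval₂_map]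
  congr 1
  apply Polynomial.ringHom_ext
  · intro a
    simp [evalAt]
  · simp [evalAt]

end PolyOver

end Fermat.Agent.S28.H867

end
end
-- ===== PACK-END S28/H867/Transfer.lean

-- ===== PACK-BEGIN S28/H626/Tower.lean
section
/-
S28 helper (helper626): generation of `k(j(q^d) : d ∣ Mp)` over `k(j(q^d) : d ∣ M)` by a single
element, and the degree bounds `≤ p + 1` (`p ∤ M`), `≤ p` (`p ∣ M`).
-/




set_option autoImplicit false

noncomputable section

open ModularCurve HahnSeries Polynomial IntermediateField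

namespace Fermat.Agent.S28.H626

section Hyp

variable (k : Type*) [Field k]

/-- Hypothesis package for level `N`: every prime `p ∣ N` is invertible in `k` and has a
modular polynomial. -/
def HasModPolys (N : ℕ) : Prop :=
  ∀ p (hp : p.Prime), p ∣ N →
    (p : k) ≠ 0 ∧ ∃ Φ : Polynomial (Polynomial ℤ), @IsModPoly p ⟨hp.ne_zero⟩ Φ

variable {k}

theorem HasModPolys.mono {N M : ℕ} (H : HasModPolys k N) (h : M ∣ N) : HasModPolys k M :=
  fun p hp hpM => H p hp (hpM.trans h)

end Hyp

section Generation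

variable {k : Type*} [Field k]

/-- **Generation.** If an intermediate field `E` contains `j(q^d)` for all `d ∣ M` and
`j(q^{p^{b+1}})` for the exact power `p^b ∥ M`, then it contains `j(q^d)` for all `d ∣ M p`. -/
theorem jd_mem_of_gen {M p : ℕ} (hp : p.Prime) (H : HasModPolys k (M * p))
    (E : IntermediateField k (LaurentSeries k))
    (h1 : ∀ (d : ℕ) [NeZero d], d ∣ M → jd k d ∈ E)
    (h2 : ∀ (b : ℕ) [NeZero (p ^ (b + 1))], p ^ b ∣ M → ¬ p ^ (b + 1) ∣ M →
      jd k (p ^ (b + 1)) ∈ E) :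
    ∀ (d : ℕ) [NeZero d], d ∣ M * p → jd k d ∈ E := by
  intro d
  induction d using Nat.strong_induction_on with
  | _ d ih =>
    intro inst hd
    by_cases hdM : d ∣ M
    · exact h1 d hdM
    have hpd : p ∣ d := by
      by_contra hpd
      have hcop : Nat.Coprime d p := ((Nat.Prime.coprime_iff_not_dvd hp).2 hpd).symm
      exact hdM (hcop.dvd_of_dvd_mul_right hd)
    obtain ⟨g, rfl⟩ := hpd
    have hg0 : g ≠ 0 := by
      rintro rfl
      exact (NeZero.ne (p * 0)) (mul_zero p)
    have hgM : g ∣ M := by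
      rw [mul_comm M p] at hd
      exact Nat.dvd_of_mul_dvd_mul_left hp.pos hd
    have : NeZero p := ⟨hp.ne_zero⟩
    by_cases hg : ∃ r, r.Prime ∧ r ∣ g ∧ r ≠ p
    · obtain ⟨r, hr, ⟨e, rfl⟩, hrp⟩ := hg
      have he0 : e ≠ 0 := by
        rintro rfl
        exact hg0 (mul_zero r)
      have : NeZero r := ⟨hr.ne_zero⟩
      have : NeZero e := ⟨he0⟩
      have hrM : r ∣ M * p := (Dvd.intro e rfl : r ∣ r * e).trans (hgM.trans (Dvd.intro p rfl))
      obtain ⟨hpk, Φp, hΦp⟩ := H p hp (Dvd.intro_left M rfl)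
      obtain ⟨hrk, Φr, hΦr⟩ := H r hr hrM
      have : NeZero (p : k) := ⟨hpk⟩
      have : NeZero (r : k) := ⟨hrk⟩
      have m1 : jd k (r * e) ∈ E := h1 (r * e) hgM
      have m2 : jd k (p * e) ∈ E := by
        refine ih (p * e) ?_ ?_
        · have : e < r * e := by
            have := hr.one_lt
            have he : 0 < e := Nat.pos_of_ne_zero he0
            nlinarith
          exact Nat.mul_lt_mul_of_pos_left this hp.pos
        · refine Dvd.dvd.trans ?_ hd
          exact mul_dvd_mul_left p (Dvd.intro_left r rfl)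
      have := jd_mem_of_pair hp hr hrp.symm hΦp hΦr e E m1 m2
      rwa [jd_congr k (show p * r * e = p * (r * e) by ring)] at this
    · have hg' : ∀ {r : ℕ}, r.Prime → r ∣ g → r = p := by
        intro r hr hrg
        by_contra hne
        exact hg ⟨r, hr, hrg, hne⟩
      have hgp := Nat.eq_prime_pow_of_unique_prime_dvd hg0 hg'
      set b := g.primeFactorsList.length with hb
      have hd' : p * g = p ^ (b + 1) := by rw [pow_succ, mul_comm, ← hgp]
      have : NeZero (p ^ (b + 1)) := ⟨pow_ne_zero _ hp.ne_zero⟩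
      rw [jd_congr k hd']
      refine h2 b ?_ ?_
      · rw [← hgp]; exact hgM
      · rw [← hd']; exact hdM

end Generation

/-! ### Degree of a simple extension, in `relrank` form -/

section Degree

variable {K L : Type*} [Field K] [Field L] [Algebra K L]

/-- If `A ≤ B ≤ A(x)`, `x ∈ B` and `x` is a root of a monic `P ∈ A[X]`, then `[B : A] ≤ deg P`. -/
theorem relrank_le_natDegree (A B : IntermediateField K L) (hAB : A ≤ B)
    (x : L) (P : Polynomial A) (hP : P.Monic) (hx : Polynomial.aeval x P = 0)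
    (hB : B ≤ (IntermediateField.adjoin A {x}).restrictScalars K) (hxB : x ∈ B) :
    IntermediateField.relrank A B ≤ (P.natDegree : Cardinal) := by
  have hint : IsIntegral A x := ⟨P, hP, hx⟩
  have hBeq : B = (IntermediateField.adjoin A {x}).restrictScalars K := by
    refine le_antisymm hB ?_
    rw [IntermediateField.restrictScalars_adjoin_eq_sup]
    refine sup_le hAB ?_
    rw [IntermediateField.adjoin_le_iff]
    intro y hy
    rw [Set.mem_singleton_iff] at hy
    rw [hy]
    exact hxB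
  rw [IntermediateField.relrank_eq_rank_of_le hAB]
  have hext : IntermediateField.extendScalars hAB = IntermediateField.adjoin A {x} := by
    ext y
    rw [IntermediateField.mem_extendScalars, hBeq]
    rfl
  rw [hext]
  have := IntermediateField.adjoin.finiteDimensional hint
  rw [← Module.finrank_eq_rank, IntermediateField.adjoin.finrank hint, Nat.cast_le]
  exact Polynomial.natDegree_le_natDegree (minpoly.degree_le_of_ne_zero A x hP.ne_zero hx)

end Degree

/-! ### The tower steps -/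

section Steps

variable {k : Type*} [Field k]

theorem jd_mem_full (N : ℕ) [NeZero N] (d : ℕ) [NeZero d] (hd : d ∣ N) :
    jd k d ∈ modularFunctionFieldFullC k N :=
  jqModCd_mem_full k N hd

theorem full_le_of_forall_mem (N : ℕ) [NeZero N] (E : IntermediateField k (LaurentSeries k))
    (h : ∀ (d : ℕ) [NeZero d], d ∣ N → jd k d ∈ E) : modularFunctionFieldFullC k N ≤ E := by
  rw [modularFunctionFieldFullC, IntermediateField.adjoin_le_iff]
  rintro x ⟨d, hne, hdvd, rfl⟩
  exact h d hdvd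

theorem jd_one : jd k 1 = jqModC k := qExpand_one_apply _

/-- uniqueness of the exact exponent -/
theorem exact_pow_unique {p M a b : ℕ} (ha : p ^ a ∣ M) (ha' : ¬ p ^ (a + 1) ∣ M)
    (hb : p ^ b ∣ M) (hb' : ¬ p ^ (b + 1) ∣ M) : b = a := by
  rcases lt_trichotomy b a with h | h | h
  · exact absurd ((pow_dvd_pow p (Nat.succ_le_of_lt h)).trans ha) hb'
  · exact h
  · exact absurd ((pow_dvd_pow p (Nat.succ_le_of_lt h)).trans hb) ha'

/-- **Generation, packaged.** `k(j_d : d ∣ Mp) ≤ k(j_d : d ∣ M)(j_{p^{a+1}})` for `p^a ∥ M`. -/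
theorem full_mul_le_adjoin {M p a : ℕ} [NeZero M] [NeZero (M * p)] [NeZero (p ^ (a + 1))]
    (hp : p.Prime) (H : HasModPolys k (M * p))
    (ha : p ^ a ∣ M) (ha' : ¬ p ^ (a + 1) ∣ M) :
    modularFunctionFieldFullC k (M * p) ≤
      (IntermediateField.adjoin (modularFunctionFieldFullC k M)
        {jd k (p ^ (a + 1))}).restrictScalars k := by
  refine full_le_of_forall_mem (M * p) _ ?_
  refine jd_mem_of_gen hp H _ ?_ ?_
  · intro d _ hd
    rw [IntermediateField.mem_restrictScalars]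
    exact IntermediateField.algebraMap_mem _ (⟨jd k d, jd_mem_full M d hd⟩ :
      modularFunctionFieldFullC k M)
  · intro b _ hb hb'
    have hba : b = a := exact_pow_unique ha ha' hb hb'
    subst hba
    rw [IntermediateField.mem_restrictScalars]
    exact IntermediateField.subset_adjoin _ _ (Set.mem_singleton _)

/-- **Step, `p ∤ M`**: `[k(j_d : d ∣ Mp) : k(j_d : d ∣ M)] ≤ p + 1`. -/
theorem relrank_full_step_of_not_dvd {M p : ℕ} [NeZero M] [NeZero (M * p)]
    (hp : p.Prime) (H : HasModPolys k (M * p)) (hpM : ¬ p ∣ M) :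
    IntermediateField.relrank (modularFunctionFieldFullC k M)
      (modularFunctionFieldFullC k (M * p)) ≤ ((p + 1 : ℕ) : Cardinal) := by
  have instp : NeZero p := ⟨hp.ne_zero⟩
  have instp1 : NeZero (p ^ (0 + 1)) := ⟨pow_ne_zero _ hp.ne_zero⟩
  obtain ⟨-, Φ, hΦ⟩ := H p hp (Dvd.intro_left M rfl)
  have hAB : modularFunctionFieldFullC k M ≤ modularFunctionFieldFullC k (M * p) :=
    full_degeneracyC_le k (Dvd.intro p rfl)
  have hj : jqModC k ∈ modularFunctionFieldFullC k M := jqModC_mem_full k M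
  have hx : jd k (p ^ (0 + 1)) = jd k p := jd_congr k (by simp)
  have key := relrank_le_natDegree (modularFunctionFieldFullC k M)
    (modularFunctionFieldFullC k (M * p)) hAB (jd k (p ^ (0 + 1)))
    (spec Φ (⟨jqModC k, hj⟩ : modularFunctionFieldFullC k M)) (spec_monic hΦ.monic _) ?_
    (full_mul_le_adjoin hp H (by simp) (by simpa using hpM)) ?_
  · rwa [spec_natDegree hΦ.monic, hΦ.natDegree_eq] at key
  · rw [Polynomial.aeval_def, Polynomial.eval₂_eq_eval_map, map_spec, eval_spec, hx]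
    show ev2 Φ (jqModC k) (jd k p) = 0
    have := ev2_jd_up (k := k) hΦ 1
    rwa [jd_one, jd_congr k (one_mul p)] at this
  · rw [hx]
    exact jd_mem_full (M * p) p (Dvd.intro_left M rfl)

/-- **Step, `p ∣ M`**: `[k(j_d : d ∣ Mp) : k(j_d : d ∣ M)] ≤ p`. -/
theorem relrank_full_step_of_dvd {M p : ℕ} [NeZero M] [NeZero (M * p)]
    (hp : p.Prime) (H : HasModPolys k (M * p)) (hpM : p ∣ M) :
    IntermediateField.relrank (modularFunctionFieldFullC k M)
      (modularFunctionFieldFullC k (M * p)) ≤ ((p : ℕ) : Cardinal) := by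
  classical
  have instp : NeZero p := ⟨hp.ne_zero⟩
  obtain ⟨-, Φ, hΦ⟩ := H p hp (Dvd.intro_left M rfl)
  -- the exact exponent
  obtain ⟨a, M', hM', hMeq⟩ := Nat.exists_eq_pow_mul_and_not_dvd (NeZero.ne M) p hp.ne_one
  have ha : p ^ a ∣ M := ⟨M', hMeq⟩
  have ha' : ¬ p ^ (a + 1) ∣ M := by
    rintro ⟨c, hc⟩
    apply hM'
    have h3 : p ^ a * M' = p ^ a * (p * c) := by rw [← hMeq, hc, pow_succ]; ring
    exact ⟨c, Nat.eq_of_mul_eq_mul_left (pow_pos hp.pos a) h3⟩
  have ha1 : a ≠ 0 := by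
    rintro rfl
    apply hM'
    rw [pow_zero, one_mul] at hMeq
    rwa [← hMeq]
  obtain ⟨a', rfl⟩ := Nat.exists_eq_succ_of_ne_zero ha1
  have inst1 : NeZero (p ^ (a' + 1 + 1)) := ⟨pow_ne_zero _ hp.ne_zero⟩
  have inst2 : NeZero (p ^ (a' + 1)) := ⟨pow_ne_zero _ hp.ne_zero⟩
  have inst3 : NeZero (p ^ a') := ⟨pow_ne_zero _ hp.ne_zero⟩
  have hAB : modularFunctionFieldFullC k M ≤ modularFunctionFieldFullC k (M * p) :=
    full_degeneracyC_le k (Dvd.intro p rfl)
  have hy : jd k (p ^ (a' + 1)) ∈ modularFunctionFieldFullC k M := jd_mem_full M _ ha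
  have hz : jd k (p ^ a') ∈ modularFunctionFieldFullC k M :=
    jd_mem_full M _ ((pow_dvd_pow p (Nat.le_succ a')).trans ha)
  set y' : modularFunctionFieldFullC k M := ⟨jd k (p ^ (a' + 1)), hy⟩ with hy'
  set z' : modularFunctionFieldFullC k M := ⟨jd k (p ^ a'), hz⟩ with hz'
  set x : LaurentSeries k := jd k (p ^ (a' + 1 + 1)) with hxdef
  -- `z'` is a root of `P₀ = Φ(y', X)`
  have hroot : (spec Φ y').IsRoot z' := by
    rw [Polynomial.IsRoot, eval_spec]
    apply (algebraMap (modularFunctionFieldFullC k M) (LaurentSeries k)).injective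
    rw [map_ev2, map_zero]
    show ev2 Φ (jd k (p ^ (a' + 1))) (jd k (p ^ a')) = 0
    have := ev2_jd_down (k := k) hΦ (p ^ a')
    rwa [jd_congr k (show p ^ a' * p = p ^ (a' + 1) from (pow_succ p a').symm)] at this
  have hfac : (Polynomial.X - Polynomial.C z') * (spec Φ y' /ₘ (Polynomial.X - Polynomial.C z')) = spec Φ y' :=
    Polynomial.mul_divByMonic_eq_iff_isRoot.mpr hroot
  have hmonic0 : (spec Φ y').Monic := spec_monic hΦ.monic _
  have hmonic : (spec Φ y' /ₘ (Polynomial.X - Polynomial.C z')).Monic := by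
    refine Polynomial.Monic.of_mul_monic_left (Polynomial.monic_X_sub_C z') ?_
    rw [hfac]
    exact hmonic0
  have hdeg : (spec Φ y' /ₘ (Polynomial.X - Polynomial.C z')).natDegree = p := by
    rw [Polynomial.natDegree_divByMonic _ (Polynomial.monic_X_sub_C z'),
      spec_natDegree hΦ.monic, hΦ.natDegree_eq, Polynomial.natDegree_X_sub_C]
    rfl
  have hx0 : Polynomial.aeval x (spec Φ y') = 0 := by
    rw [Polynomial.aeval_def, Polynomial.eval₂_eq_eval_map, map_spec, eval_spec]
    show ev2 Φ (jd k (p ^ (a' + 1))) (jd k (p ^ (a' + 1 + 1))) = 0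
    have := ev2_jd_up (k := k) hΦ (p ^ (a' + 1))
    rwa [jd_congr k (show p ^ (a' + 1) * p = p ^ (a' + 1 + 1) from (pow_succ p (a' + 1)).symm)]
      at this
  have hxz : x - jd k (p ^ a') ≠ 0 := by
    rw [sub_ne_zero]
    refine jd_ne_of_ne ?_
    intro h
    have := Nat.pow_right_injective hp.two_le h
    omega
  have hx1 : Polynomial.aeval x (spec Φ y' /ₘ (Polynomial.X - Polynomial.C z')) = 0 := by
    have h := hx0
    rw [← hfac, map_mul, map_sub, Polynomial.aeval_X, Polynomial.aeval_C] at h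
    rcases mul_eq_zero.mp h with h | h
    · exact absurd h hxz
    · exact h
  have key := relrank_le_natDegree (modularFunctionFieldFullC k M)
    (modularFunctionFieldFullC k (M * p)) hAB x
    (spec Φ y' /ₘ (Polynomial.X - Polynomial.C z')) hmonic hx1
    (full_mul_le_adjoin hp H ha ha') ?_
  · rwa [hdeg] at key
  · refine jd_mem_full (M * p) _ ?_
    rw [pow_succ]
    exact mul_dvd_mul_right ha p

end Steps

end Fermat.Agent.S28.H626

end

end
-- ===== PACK-END S28/H626/Tower.lean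

-- ===== PACK-BEGIN S28/H807/Points.lean
section
/-
S28 / helper807 — the points `(τ+b)/p` and `pτ` of the upper half plane, the nome `q(τ)`,
and `q`-expansions of functions on `ℍ`.
-/



set_option autoImplicit false
set_option maxHeartbeats 400000

noncomputable section

open ModularCurve Polynomial Matrix UpperHalfPlane Complex

namespace Fermat.Agent.S28.H807

/-- The nome `q(τ) = exp(2πiτ)`. -/
def nome (τ : ℍ) : ℂ := Complex.exp (2 * Real.pi * Complex.I * (τ : ℂ))

theorem nome_ne_zero (τ : ℍ) : nome τ ≠ 0 := Complex.exp_ne_zero _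

theorem nome_eq_qParam (τ : ℍ) : nome τ = Function.Periodic.qParam 1 (τ : ℂ) := by
  simp [nome, Function.Periodic.qParam]

/-- `f` has the (everywhere convergent) `q`-expansion `c`. -/
def HasQExp (c : LaurentSeries ℂ) (F : ℍ → ℂ) : Prop :=
  ∀ τ : ℍ, HasLSum c (nome τ) (F τ)

theorem hasQExp_iff (c : LaurentSeries ℂ) (F : ℍ → ℂ) :
    HasQExp c F ↔ ∀ τ : ℍ, HasSum (fun n : ℤ => c.coeff n *
      (Function.Periodic.qParam 1 (τ : ℂ)) ^ n) (F τ) := by
  unfold HasQExp HasLSum
  simp only [nome_eq_qParam]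

/-- The point `(τ + b)/p`. -/
def divShift (p : ℕ) [NeZero p] (b : ℤ) (τ : ℍ) : ℍ :=
  ⟨((τ : ℂ) + (b : ℂ)) / (p : ℂ), by
    have hp : (0 : ℝ) < (p : ℝ) := by exact_mod_cast Nat.pos_of_ne_zero (NeZero.ne p)
    have h1 : (((τ : ℂ) + (b : ℂ)) / (p : ℂ)).im = (τ : ℂ).im / (p : ℝ) := by
      rw [show ((p : ℂ)) = ((p : ℝ) : ℂ) by push_cast; rfl, Complex.div_ofReal_im]
      simp
    rw [h1]
    exact div_pos τ.im_pos hp⟩

/-- The point `pτ`. -/
def mulNat (p : ℕ) [NeZero p] (τ : ℍ) : ℍ :=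
  ⟨(p : ℂ) * (τ : ℂ), by
    have hp : (0 : ℝ) < (p : ℝ) := by exact_mod_cast Nat.pos_of_ne_zero (NeZero.ne p)
    have h1 : ((p : ℂ) * (τ : ℂ)).im = (p : ℝ) * (τ : ℂ).im := by
      rw [show ((p : ℂ)) = ((p : ℝ) : ℂ) by push_cast; rfl, Complex.im_ofReal_mul]
    rw [h1]
    exact mul_pos hp τ.im_pos⟩

@[simp] theorem coe_divShift (p : ℕ) [NeZero p] (b : ℤ) (τ : ℍ) :
    ((divShift p b τ : ℍ) : ℂ) = ((τ : ℂ) + (b : ℂ)) / (p : ℂ) := rfl

@[simp] theorem coe_mulNat (p : ℕ) [NeZero p] (τ : ℍ) :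
    ((mulNat p τ : ℍ) : ℂ) = (p : ℂ) * (τ : ℂ) := rfl

theorem nome_mulNat (p : ℕ) [NeZero p] (τ : ℍ) : nome (mulNat p τ) = nome τ ^ p := by
  unfold nome
  rw [← Complex.exp_nat_mul, coe_mulNat]
  congr 1; ring

theorem nome_divShift_pow (p : ℕ) [NeZero p] (b : ℤ) (τ : ℍ) :
    nome (divShift p b τ) ^ p = nome τ := by
  have hp : (p : ℂ) ≠ 0 := by exact_mod_cast NeZero.ne p
  unfold nome
  rw [← Complex.exp_nat_mul, coe_divShift]
  have : (p : ℂ) * (2 * Real.pi * Complex.I * (((τ : ℂ) + (b : ℂ)) / (p : ℂ)))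
      = 2 * Real.pi * Complex.I * (τ : ℂ) + (b : ℂ) * (2 * Real.pi * Complex.I) := by
    field_simp
  rw [this, Complex.exp_add, Complex.exp_int_mul_two_pi_mul_I, mul_one]

theorem nome_divShift_injective (p : ℕ) [NeZero p] (τ : ℍ) :
    Function.Injective (fun b : Fin p => nome (divShift p ((b : ℕ) : ℤ) τ)) := by
  have hp : (p : ℂ) ≠ 0 := by exact_mod_cast NeZero.ne p
  intro b b' h
  simp only [nome] at h
  rw [Complex.exp_eq_exp_iff_exists_int] at h
  obtain ⟨n, hn⟩ := h
  simp only [coe_divShift] at hn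
  have hpi : (2 * Real.pi * Complex.I : ℂ) ≠ 0 := by
    simp [Real.pi_ne_zero]
  have h1 : ((τ : ℂ) + ((b : ℕ) : ℤ)) / (p : ℂ) = ((τ : ℂ) + ((b' : ℕ) : ℤ)) / (p : ℂ) + n := by
    have := hn
    have h2 : 2 * Real.pi * Complex.I * (((τ : ℂ) + ((b : ℕ) : ℤ)) / (p : ℂ))
        = 2 * Real.pi * Complex.I * (((τ : ℂ) + ((b' : ℕ) : ℤ)) / (p : ℂ) + n) := by
      rw [this]; ring
    exact mul_left_cancel₀ hpi h2
  have h3 : (((b : ℕ) : ℤ) : ℂ) = (((b' : ℕ) : ℤ) : ℂ) + (n : ℂ) * (p : ℂ) := by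
    field_simp at h1
    linear_combination h1
  have h4 : ((b : ℕ) : ℤ) = ((b' : ℕ) : ℤ) + n * (p : ℤ) := by exact_mod_cast h3
  have hb := b.2
  have hb' := b'.2
  have hn0 : n = 0 := by
    by_contra hne
    rcases lt_or_gt_of_ne hne with hlt | hgt
    · have : n ≤ -1 := by omega
      have : n * (p : ℤ) ≤ -1 * (p : ℤ) := by
        apply mul_le_mul_of_nonneg_right this; positivity
      omega
    · have : 1 ≤ n := by omega
      have : 1 * (p : ℤ) ≤ n * (p : ℤ) := by
        apply mul_le_mul_of_nonneg_right this; positivity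
      omega
  rw [hn0] at h4
  apply Fin.ext
  omega

/-- **Generic analytic theorem**: the coefficients of `(X - e)·charpoly(secMat p g)` have
convergent `q`-expansions, with values the coefficients of
`(X - E(τ)) ∏_b (X - G((τ+b)/p))`. -/
theorem hasQExp_coeff_mul_charpoly (p : ℕ) [NeZero p] (g e : LaurentSeries ℂ) (G E : ℍ → ℂ)
    (hG : HasQExp g G) (hE : HasQExp e E) (k : ℕ) :
    HasQExp (((X - C e) * (secMat p g).charpoly).coeff k)
      (fun τ => ((X - C (E τ)) *
        ∏ b : Fin p, (X - C (G (divShift p ((b : ℕ) : ℤ) τ)))).coeff k) := by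
  intro τ
  exact hasLSum_coeff_mul_charpoly g e (nome τ)
    (fun b : Fin p => nome (divShift p ((b : ℕ) : ℤ) τ))
    (fun b => nome_ne_zero _) (fun b => nome_divShift_pow p _ τ)
    (nome_divShift_injective p τ)
    (fun b => G (divShift p ((b : ℕ) : ℤ) τ)) (fun b => hG _) (E τ) (hE τ) k

/-- `q`-expansion of `τ ↦ F(pτ)`. -/
theorem HasQExp.mulNat {c : LaurentSeries ℂ} {F : ℍ → ℂ} (h : HasQExp c F) (p : ℕ) [NeZero p] :
    HasQExp (ModularCurve.qExpand ℂ p c) (fun τ => F (mulNat p τ)) := by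
  intro τ
  apply HasLSum.expand
  rw [← nome_mulNat]
  exact h _

theorem HasQExp.mul {c d : LaurentSeries ℂ} {F G : ℍ → ℂ} (h1 : HasQExp c F)
    (h2 : HasQExp d G) : HasQExp (c * d) (fun τ => F τ * G τ) :=
  fun τ => (h1 τ).mul (nome_ne_zero τ) (h2 τ)

theorem HasQExp.add {c d : LaurentSeries ℂ} {F G : ℍ → ℂ} (h1 : HasQExp c F)
    (h2 : HasQExp d G) : HasQExp (c + d) (fun τ => F τ + G τ) :=
  fun τ => (h1 τ).add (h2 τ)

theorem hasQExp_C (a : ℂ) : HasQExp (HahnSeries.C a) (fun _ => a) :=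
  fun _ => hasLSum_C _ a

theorem HasQExp.unique {c : LaurentSeries ℂ} {F G : ℍ → ℂ} (h1 : HasQExp c F)
    (h2 : HasQExp c G) : F = G :=
  funext fun τ => (h1 τ).unique (h2 τ)

end Fermat.Agent.S28.H807

end

end
-- ===== PACK-END S28/H807/Points.lean

-- ===== PACK-BEGIN S18/H754/KummerLocal.lean
section




/-!
# S18 / Route K / étale Kummer cover: the LOCAL lifting theorem

`R` a Noetherian local domain with `𝔪 = (ϖ, t)`, `ϖ` prime (so `R` is a UFD), `u ∈ Frac R` with
`u ≡ 1 mod ϖ` which is locally a unit times a `p`-th power at every prime element.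
Then `u = w (d/c)^p` with `w ∈ Rˣ`, `ϖ ∤ c, d` and `c ≡ σ d mod ϖ` for a unit `σ`, and the Kummer
idempotents lift to elements integral over `R`.
-/

set_option autoImplicit false

noncomputable section

namespace Fermat.Agent.S18.H754

open Polynomial IsLocalRing

section Local

variable {R : Type*} [CommRing R] [IsDomain R] [IsNoetherianRing R] [IsLocalRing R]
  {F : Type*} [Field F] [Algebra R F] [IsFractionRing R F]

/-- Normal form of a locally-`p`-th-power `u ≡ 1 mod ϖ` over a regular local ring of the shape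
`𝔪 = (ϖ, t)`. -/
theorem exists_kummer_normal_form (ϖ t : R) (hϖ : Prime ϖ)
    (hm : maximalIdeal R = Ideal.span {ϖ, t})
    (p : ℕ) (hp : 0 < p) (u : F) (h1 : OneModPi ϖ u)
    (hdiv : ∀ π : R, Prime π → LocallyPow R p u π) :
    ∃ (c d : R) (w σ : Rˣ), ¬ ϖ ∣ c ∧ ¬ ϖ ∣ d ∧
      u * algebraMap R F c ^ p = algebraMap R F w * algebraMap R F d ^ p ∧
      ϖ ∣ c - σ * d := by
  classical
  haveI : UniqueFactorizationMonoid R := ufd_of_regular_pair ϖ t hϖ hm
  have hinj : Function.Injective (algebraMap R F) := IsFractionRing.injective R F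
  obtain ⟨a, s, hs, has, hu⟩ := h1
  rw [Ideal.mem_span_singleton] at hs has
  have ha : ¬ ϖ ∣ a := by
    intro h
    apply hs
    have := dvd_sub h has
    rwa [sub_sub_cancel] at this
  have ha0 : a ≠ 0 := fun h => ha (h ▸ dvd_zero _)
  have hs0 : s ≠ 0 := fun h => hs (h ▸ dvd_zero _)
  have hsF : algebraMap R F s ≠ 0 := fun h => hs0 (hinj (by rw [h, map_zero]))
  have haF : algebraMap R F a ≠ 0 := fun h => ha0 (hinj (by rw [h, map_zero]))
  have hu0 : u ≠ 0 := by
    rintro rfl
    rw [zero_mul] at hu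
    exact haF hu.symm
  obtain ⟨s₀, hs₀, w, hw⟩ := exists_unit_mul_pow (R := R) p hp u hu0 hdiv
  obtain ⟨c, ⟨d, hd⟩, hrel, hcd⟩ := IsFractionRing.exists_reduced_fraction R (K := F) s₀
  have hd0 : d ≠ 0 := nonZeroDivisors.ne_zero hd
  have hdF : algebraMap R F d ≠ 0 := fun h => hd0 (hinj (by rw [h, map_zero]))
  rw [IsFractionRing.mk'_eq_div] at hcd
  simp only at hcd hrel
  -- the key equation in `R`
  have key : a * c ^ p = w * s * d ^ p := by
    apply hinj
    simp only [map_mul, map_pow]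
    rw [← hu, ← hw, ← hcd, div_pow]
    field_simp
  have hc : ¬ ϖ ∣ c := by
    intro h
    have h2 : ϖ ∣ (w : R) * s * d ^ p := by
      rw [← key]
      exact Dvd.dvd.mul_left (dvd_pow h hp.ne') a
    rcases hϖ.dvd_or_dvd h2 with h3 | h3
    · rcases hϖ.dvd_or_dvd h3 with h4 | h4
      · exact hϖ.not_unit (isUnit_of_dvd_unit h4 w.isUnit)
      · exact hs h4
    · exact hϖ.not_unit (hrel h (hϖ.dvd_of_dvd_pow h3))
  have hd' : ¬ ϖ ∣ d := by
    intro h
    have h2 : ϖ ∣ a * c ^ p := by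
      rw [key]
      exact Dvd.dvd.mul_left (dvd_pow h hp.ne') _
    rcases hϖ.dvd_or_dvd h2 with h3 | h3
    · exact ha h3
    · exact hc (hϖ.dvd_of_dvd_pow h3)
  -- pass to the quotient `R/ϖ`, a local principal ideal domain
  haveI hprime : (Ideal.span {ϖ}).IsPrime := (Ideal.span_singleton_prime hϖ.ne_zero).mpr hϖ
  haveI hpid : IsPrincipalIdealRing (R ⧸ Ideal.span {ϖ}) :=
    isPrincipalIdealRing_quotient_of_regular_pair ϖ t hϖ hm
  haveI : Nontrivial (R ⧸ Ideal.span {ϖ}) := Ideal.Quotient.nontrivial_iff.mpr hprime.ne_top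
  haveI : IsLocalRing (R ⧸ Ideal.span {ϖ}) :=
    IsLocalRing.of_surjective' (Ideal.Quotient.mk _) Ideal.Quotient.mk_surjective
  haveI : IsDomain (R ⧸ Ideal.span {ϖ}) := Ideal.Quotient.isDomain _
  haveI : ValuationRing (R ⧸ Ideal.span {ϖ}) :=
    ValuationRing.iff_local_bezout_domain.mpr ⟨inferInstance, inferInstance⟩
  set mk := Ideal.Quotient.mk (Ideal.span {ϖ}) with hmk
  have hmk0 : ∀ x : R, mk x = 0 ↔ ϖ ∣ x := fun x => by
    rw [hmk, Ideal.Quotient.eq_zero_iff_mem, Ideal.mem_span_singleton]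
  have hmc : mk c ≠ 0 := fun h => hc ((hmk0 c).1 h)
  have hmd : mk d ≠ 0 := fun h => hd' ((hmk0 d).1 h)
  have hms : mk s ≠ 0 := fun h => hs ((hmk0 s).1 h)
  have hmas : mk a = mk s := by
    rw [← sub_eq_zero, ← map_sub]
    exact (hmk0 _).2 has
  have hmw : IsUnit (mk (w : R)) := w.isUnit.map mk
  have key' : mk c ^ p = mk (w : R) * mk d ^ p := by
    have := congrArg mk key
    simp only [map_mul, map_pow] at this
    rw [hmas] at this
    have h3 : mk s * mk c ^ p = mk s * (mk (w : R) * mk d ^ p) := by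
      rw [this]; ring
    exact mul_left_cancel₀ hms h3
  have hx : ∃ x : R ⧸ Ideal.span {ϖ}, IsUnit x ∧ mk c = x * mk d := by
    rcases ValuationRing.dvd_total (mk c) (mk d) with ⟨y, hy⟩ | ⟨y, hy⟩
    · -- `mk d = mk c * y`
      have h4 : mk c ^ p * 1 = mk c ^ p * (mk (w : R) * y ^ p) := by
        rw [mul_one]
        conv_lhs => rw [key', hy, mul_pow]
        ring
      have h5 : 1 = mk (w : R) * y ^ p := mul_left_cancel₀ (pow_ne_zero p hmc) h4
      have h6 : IsUnit (y ^ p) := IsUnit.of_mul_eq_one_right _ h5.symm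
      have h7 : IsUnit y := (isUnit_pow_iff hp.ne').1 h6
      obtain ⟨y', rfl⟩ := h7
      refine ⟨((y'⁻¹ : (R ⧸ Ideal.span {ϖ})ˣ) : R ⧸ Ideal.span {ϖ}), Units.isUnit _, ?_⟩
      rw [hy]
      rw [mul_comm (mk c), ← mul_assoc, Units.inv_mul, one_mul]
    · -- `mk c = mk d * y`
      have h4 : mk d ^ p * y ^ p = mk d ^ p * mk (w : R) := by
        rw [← mul_pow, ← hy, key']
        ring
      have h5 : y ^ p = mk (w : R) := mul_left_cancel₀ (pow_ne_zero p hmd) h4
      have h7 : IsUnit y := (isUnit_pow_iff hp.ne').1 (h5 ▸ hmw)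
      exact ⟨y, h7, by rw [hy, mul_comm]⟩
  obtain ⟨x, hxu, hxc⟩ := hx
  obtain ⟨σ', rfl⟩ := Ideal.Quotient.mk_surjective x
  have hσ' : IsUnit σ' := by
    rw [← IsLocalRing.notMem_maximalIdeal]
    intro hmem
    obtain ⟨y, hy⟩ := hxu.exists_right_inv
    obtain ⟨y', rfl⟩ := Ideal.Quotient.mk_surjective y
    have h8 : ϖ ∣ σ' * y' - 1 := by
      rw [← hmk0, map_sub, map_mul, map_one, sub_eq_zero]
      exact hy
    have h9 : ϖ ∈ maximalIdeal R := by
      rw [hm]
      exact Ideal.subset_span (Set.mem_insert _ _)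
    have h10 : σ' * y' - 1 ∈ maximalIdeal R := Ideal.mem_of_dvd _ h8 h9
    have h11 : σ' * y' ∈ maximalIdeal R := Ideal.mul_mem_right _ _ hmem
    have h12 : (1 : R) ∈ maximalIdeal R := by
      have := Ideal.sub_mem _ h11 h10
      rwa [sub_sub_cancel] at this
    exact (Ideal.ne_top_iff_one _).1 (IsLocalRing.maximalIdeal.isMaximal R).ne_top h12
  obtain ⟨σ, rfl⟩ := hσ'
  refine ⟨c, d, w, σ, hc, hd', ?_, ?_⟩
  · rw [← hw, ← hcd, div_pow]
    field_simp
  · rw [← hmk0, map_sub, map_mul, sub_eq_zero]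
    exact hxc

section Lift

variable {F' : Type*} [Field F'] [Algebra F F'] [Algebra R F'] [IsScalarTower R F F']

omit [IsNoetherianRing R] [IsLocalRing R] in
lemma faithfulSMul_of_tower (R F F' : Type*) [CommRing R] [IsDomain R] [Field F] [Algebra R F]
    [IsFractionRing R F] [Field F'] [Algebra F F'] [Algebra R F'] [IsScalarTower R F F'] :
    FaithfulSMul R F' := by
  rw [faithfulSMul_iff_algebraMap_injective]
  rw [IsScalarTower.algebraMap_eq R F F']
  exact (algebraMap F F').injective.comp (IsFractionRing.injective R F)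

/-- **Local lifting theorem** for the Kummer idempotents. -/
theorem kummer_lift_local (ϖ t : R) (hϖ : Prime ϖ)
    (hm : maximalIdeal R = Ideal.span {ϖ, t})
    (p : ℕ) (hp : 0 < p) (hpu : IsUnit (p : R))
    (u : F) (z : F') (hz : z ^ p = algebraMap F F' u) (h1 : OneModPi ϖ u)
    (hdiv : ∀ π : R, Prime π → LocallyPow R p u π) (η : R) :
    ∃ b : F', IsIntegral R b ∧ InPiO ϖ (b - kummerIdem p η z) := by
  classical
  haveI : FaithfulSMul R F' := faithfulSMul_of_tower R F F'
  have hinj' : Function.Injective (algebraMap R F') := FaithfulSMul.algebraMap_injective R F'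
  obtain ⟨c, d, w, σ, hc, hd, hcd, hσ⟩ := exists_kummer_normal_form ϖ t hϖ hm p hp u h1 hdiv
  have hc0 : c ≠ 0 := fun h => hc (h ▸ dvd_zero _)
  have hd0 : d ≠ 0 := fun h => hd (h ▸ dvd_zero _)
  have hcF : algebraMap R F' c ≠ 0 := fun h => hc0 (hinj' (by rw [h, map_zero]))
  have hdF : algebraMap R F' d ≠ 0 := fun h => hd0 (hinj' (by rw [h, map_zero]))
  have hcd' : algebraMap F F' u * algebraMap R F' c ^ p =
      algebraMap R F' w * algebraMap R F' d ^ p := by
    have := congrArg (algebraMap F F') hcd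
    simpa only [map_mul, map_pow, ← IsScalarTower.algebraMap_apply] using this
  -- `θ = z c / d`, `θ ^ p = w`
  set θ : F' := z * algebraMap R F' c / algebraMap R F' d with hθ
  have hθp : θ ^ p = algebraMap R F' w := by
    rw [hθ, div_pow, mul_pow, hz, hcd']
    field_simp
  have hθi : IsIntegral R θ := by
    refine IsIntegral.of_pow hp ?_
    rw [hθp]
    exact isIntegral_algebraMap
  -- `z c = θ d`
  have hzc : algebraMap R F' c * z = θ * algebraMap R F' d := by
    rw [hθ]
    field_simp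
  set τ : R := ((σ⁻¹ : Rˣ) : R) with hτ
  set y : F' := θ * algebraMap R F' τ with hy
  have hyi : IsIntegral R y := hθi.mul isIntegral_algebraMap
  have hyO : y ∈ Oloc (F' := F') ϖ hϖ := mem_Oloc_of_isIntegral hϖ hyi
  have hcs : c ∉ Ideal.span {ϖ} := by
    rw [Ideal.mem_span_singleton]
    exact hc
  have hzO : z ∈ Oloc (F' := F') ϖ hϖ := by
    refine ⟨c, hcs, ?_⟩
    rw [hzc]
    exact hθi.mul isIntegral_algebraMap
  -- `y ≡ z mod ϖ O'`
  obtain ⟨r, hr⟩ := hσ
  have hr' : τ * c - d = ϖ * (τ * r) := by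
    have h2 : τ * (c - σ * d) = τ * c - d := by
      rw [mul_sub, ← mul_assoc, hτ, Units.inv_mul, one_mul]
    rw [← h2, hr]
    ring
  have hyz : InPiO ϖ (y - z) := by
    refine ⟨c, hcs, θ * algebraMap R F' (τ * r), hθi.mul isIntegral_algebraMap, ?_⟩
    have h3 : algebraMap R F' c * (y - z) = θ * algebraMap R F' (τ * c - d) := by
      rw [mul_sub, hzc, hy, map_sub, map_mul]
      ring
    rw [h3, hr', map_mul]
    ring
  -- the lift
  have hpinv : ((p : F'))⁻¹ = algebraMap R F' ((hpu.unit⁻¹ : Rˣ) : R) := by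
    have h4 : algebraMap R F' ((hpu.unit⁻¹ : Rˣ) : R) * (p : F') = 1 := by
      rw [← map_natCast (algebraMap R F') p, ← map_mul]
      rw [IsUnit.val_inv_mul hpu, map_one]
    exact (eq_inv_of_mul_eq_one_left h4).symm
  refine ⟨(p : F')⁻¹ * ∑ a ∈ Finset.range p, algebraMap R F' (η ^ a) * y ^ a, ?_, ?_⟩
  · rw [hpinv]
    refine isIntegral_algebraMap.mul ?_
    refine IsIntegral.sum _ fun a _ => ?_
    exact isIntegral_algebraMap.mul (hyi.pow a)
  · have h5 : (p : F')⁻¹ * ∑ a ∈ Finset.range p, algebraMap R F' (η ^ a) * y ^ a -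
        kummerIdem p η z =
        (p : F')⁻¹ * ∑ a ∈ Finset.range p, algebraMap R F' (η ^ a) * (y ^ a - z ^ a) := by
      rw [kummerIdem, ← mul_sub, ← Finset.sum_sub_distrib]
      congr 1
      refine Finset.sum_congr rfl fun a _ => ?_
      ring
    rw [h5, hpinv]
    refine InPiO.mul_left hϖ (algebraMap_mem_Oloc hϖ _) ?_
    refine InPiO.sum hϖ _ _ fun a _ => ?_
    refine InPiO.mul_left hϖ (algebraMap_mem_Oloc hϖ _) ?_
    exact InPiO.pow_sub_pow hϖ hyO hzO hyz a

end Lift

end Local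

end Fermat.Agent.S18.H754

end

end
-- ===== PACK-END S18/H754/KummerLocal.lean

-- ===== PACK-BEGIN S18/H576/Skel.lean
section


/-!
# S18 / MOD-ASM (helper576): `node_mod` from field lemmas about the concrete objects

Skeleton: each `field_*` lemma below is one field (or group of fields) of
`Alg.GoodModel (Lc M) (Ec M E) (Fc M E) (Rc M A E) V w x S` for the concrete objects of
`Mod/Defs.lean`.  `goodModelStatement_of_fields` assembles them into `Mod.GoodModelStatement`.
-/

set_option autoImplicit false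

noncomputable section

namespace Fermat.Agent.S18.H576

open ModularCurve AlgebraicCurve HahnSeries Fermat.Agent.S18 Fermat.Agent.S18.Mod

/-- The part of `GoodModel` that does not mention `V`, `w`, `x`, `S`. -/
structure FieldFacts (M : ℕ) (A : ValuationSubring Qb) (E : IntermediateField ℚ Qb) : Prop where
  R_le : (Rc M A E : Set (Om M)) ⊆ Ec M E
  R_total : ∀ e ∈ Ec M E, e ∈ Rc M A E ∨ e⁻¹ ∈ Rc M A E
  E_le_L : Ec M E ≤ Lc M
  E_le_F : Ec M E ≤ Fc M E
  L_algebraic : ∀ a ∈ Lc M, IsAlgebraic (Ec M E) a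
  L_algClosed : IsAlgClosed (Lc M)
  E_closed_in_F : ∀ f ∈ Fc M E, IsAlgebraic (Ec M E) f → f ∈ Ec M E
  compositum : Subfield.closure ((Fc M E : Set (Om M)) ∪ Lc M) = ⊤

/-- The uniformiser facts. -/
structure UnifFacts (M : ℕ) (A : ValuationSubring Qb) (E : IntermediateField ℚ Qb)
    (w : Om M) : Prop where
  w_mem : w ∈ Rc M A E
  w_ne_zero : w ≠ 0
  w_inv_not_mem : w⁻¹ ∉ Rc M A E
  w_gen : ∀ r ∈ Rc M A E, r⁻¹ ∉ Rc M A E → r * w⁻¹ ∈ Rc M A E
  w_discrete : ∀ r ∈ Rc M A E, r ≠ 0 →
    ∃ n : ℕ, r * (w⁻¹) ^ n ∈ Rc M A E ∧ (r * (w⁻¹) ^ n)⁻¹ ∈ Rc M A E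
  residue_perfect : ∃ p : ℕ, p.Prime ∧ (p : Om M) * w⁻¹ ∈ Rc M A E ∧
    ∀ r ∈ Rc M A E, ∃ s ∈ Rc M A E, (r - s ^ p) * w⁻¹ ∈ Rc M A E

/-- The coordinate facts. -/
structure CoordFacts (M : ℕ) (E : IntermediateField ℚ Qb) (x : Om M) : Prop where
  x_mem : x ∈ Fc M E
  x_transcendental : Transcendental (Lc M) x
  finite : ∃ s : Finset (Om M), (s : Set (Om M)) ⊆ Fc M E ∧
    ∀ f ∈ Fc M E, f ∈ Submodule.span (Alg.ratField (Ec M E) x) (s : Set (Om M))

/-- The Gauss valuation ring facts. -/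
structure ValFacts (M : ℕ) (A : ValuationSubring Qb) (E : IntermediateField ℚ Qb)
    (V : Subring (Om M)) (w x : Om M) : Prop where
  V_le : (V : Set (Om M)) ⊆ Fc M E
  x_mem_V : x ∈ V
  V_total : ∀ f ∈ Fc M E, f ∈ V ∨ f⁻¹ ∈ V
  R_le_V : Rc M A E ≤ V
  w_inv_not_mem_V : w⁻¹ ∉ V
  V_gen : ∀ f ∈ V, f⁻¹ ∉ V → f * w⁻¹ ∈ V
  gauss : ∀ P : Polynomial (Om M), (∀ i, P.coeff i ∈ Rc M A E) →
    (∃ i, P.coeff i ≠ 0 ∧ (P.coeff i)⁻¹ ∈ Rc M A E) → (P.eval x)⁻¹ ∈ V
  separable : ∀ f ∈ V, ∃ P : Polynomial (Om M),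
    (∀ i, P.coeff i ∈ Alg.polyRing (Rc M A E) x) ∧
    P.eval f * w⁻¹ ∈ V ∧ (Polynomial.derivative P).eval f ≠ 0 ∧
    ((Polynomial.derivative P).eval f)⁻¹ ∈ V

/-- The `q`-expansion principle on both charts. -/
structure QepFacts (M : ℕ) (A : ValuationSubring Qb) (E : IntermediateField ℚ Qb)
    (V : Subring (Om M)) (w x : Om M) : Prop where
  qep_fin : ∀ b ∈ Alg.chart (Fc M E) (Rc M A E) x, b * w⁻¹ ∈ V →
    b * w⁻¹ ∈ Alg.chart (Fc M E) (Rc M A E) x
  qep_inf : ∀ b ∈ Alg.chart (Fc M E) (Rc M A E) x⁻¹, b * w⁻¹ ∈ V →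
    b * w⁻¹ ∈ Alg.chart (Fc M E) (Rc M A E) x⁻¹

/-- The branch facts. -/
structure BranchFacts (M : ℕ) (A : ValuationSubring Qb) (E : IntermediateField ℚ Qb)
    (x : Om M) (S : Finset (Om M)) : Prop where
  S_mem : ∀ s ∈ S, s ∈ Rc M A E
  S_distinct : ∀ s ∈ S, ∀ t ∈ S, s ≠ t → (s - t)⁻¹ ∈ Rc M A E
  S_unit : ∀ s ∈ S, s ≠ 0 → s⁻¹ ∈ Rc M A E
  unramified : ∀ O : ValuationSubring (Om M), (∀ a ∈ Lc M, a ∈ O) → ∀ c ∈ Lc M, c ∉ S →
    x - c ∈ O → (x - c)⁻¹ ∉ O → ∀ t ∈ O, t⁻¹ ∉ O → t * (x - c)⁻¹ ∈ O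

/-- Assembly of one `GoodModel` from the six groups of facts. -/
theorem goodModel_of_facts {M : ℕ} {A : ValuationSubring Qb} {E : IntermediateField ℚ Qb}
    {V : Subring (Om M)} {w x : Om M} {S : Finset (Om M)}
    (hcz : CharZero (Om M))
    (hF : FieldFacts M A E) (hU : UnifFacts M A E w) (hC : CoordFacts M E x)
    (hV : ValFacts M A E V w x) (hQ : QepFacts M A E V w x) (hB : BranchFacts M A E x S) :
    Alg.GoodModel (Lc M) (Ec M E) (Fc M E) (Rc M A E) V w x S where
  charZero := hcz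
  R_le := hF.R_le
  R_total := hF.R_total
  w_mem := hU.w_mem
  w_ne_zero := hU.w_ne_zero
  w_inv_not_mem := hU.w_inv_not_mem
  w_gen := hU.w_gen
  w_discrete := hU.w_discrete
  residue_perfect := hU.residue_perfect
  E_le_L := hF.E_le_L
  E_le_F := hF.E_le_F
  L_algebraic := hF.L_algebraic
  L_algClosed := hF.L_algClosed
  E_closed_in_F := hF.E_closed_in_F
  compositum := hF.compositum
  x_mem := hC.x_mem
  x_transcendental := hC.x_transcendental
  finite := hC.finite
  V_le := hV.V_le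
  x_mem_V := hV.x_mem_V
  V_total := hV.V_total
  R_le_V := hV.R_le_V
  w_inv_not_mem_V := hV.w_inv_not_mem_V
  V_gen := hV.V_gen
  gauss := hV.gauss
  qep_fin := hQ.qep_fin
  qep_inf := hQ.qep_inf
  separable := hV.separable
  S_mem := hB.S_mem
  S_distinct := hB.S_distinct
  S_unit := hB.S_unit
  unramified := hB.unramified

end Fermat.Agent.S18.H576

end
end
-- ===== PACK-END S18/H576/Skel.lean

-- ===== PACK-BEGIN S18/H438/Front/PolyAlg.lean
section


/-!
# S18 / ALG-FRONT (helper438), part 7: the chart as an `R[X]`-algebra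

`B = chartRing R z` (integral closure of `R[z]` in `F`) is an `R[X]`-algebra via `X ↦ z`:

* `chartPolyHom R z : R[X] →+* chartRing R z`, `chartPolyAlgebra R z` (a `def`, use with `letI`);
* `chartPolyHom_C_eq_chartUnif` : `C w ↦ ϖ`;
* `chartPolyHom_injective`, `chartPoly_finite`, `chartPoly_isTorsionFree`
  (the instance hypotheses of `B12.B2RegularStatement` and of `H425.hsep_poly`).
-/

set_option autoImplicit false
set_option linter.style.haveILetI false
set_option linter.unusedSectionVars false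

noncomputable section

namespace Fermat.Agent.S18.H438

open Polynomial

variable {F : Type*} [Field F] (R : Subring F) (z : F)

/-- `R[X] → R[z]`, `X ↦ z`. -/
def basePolyHom : R[X] →+* baseRing R z :=
  (Polynomial.aeval (⟨z, self_mem_baseRing R z⟩ : baseRing R z)).toRingHom

theorem coe_basePolyHom (P : R[X]) :
    ((basePolyHom R z P : baseRing R z) : F) = Polynomial.aeval z P := by
  have : ((basePolyHom R z P : baseRing R z) : F) =
      (baseRing R z).val (Polynomial.aeval (⟨z, self_mem_baseRing R z⟩ : baseRing R z) P) := rfl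
  rw [this, ← Polynomial.aeval_algHom_apply]
  rfl

theorem basePolyHom_surjective : Function.Surjective (basePolyHom R z) := by
  rintro ⟨a, ha⟩
  obtain ⟨P, hP⟩ := exists_aeval_eq_of_mem_baseRing R z ha
  exact ⟨P, Subtype.ext (by rw [coe_basePolyHom, hP])⟩

/-- `R[X] → B`, `X ↦ z`. -/
def chartPolyHom : R[X] →+* chartRing R z :=
  (algebraMap (baseRing R z) (chartRing R z)).comp (basePolyHom R z)

theorem coe_chartPolyHom (P : R[X]) :
    ((chartPolyHom R z P : chartRing R z) : F) = Polynomial.aeval z P :=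
  coe_basePolyHom R z P

theorem chartPolyHom_C_eq_chartUnif {w : F} (hwR : w ∈ R) :
    chartPolyHom R z (C (⟨w, hwR⟩ : R)) = chartUnif (z := z) hwR := by
  apply Subtype.ext
  rw [coe_chartPolyHom, Polynomial.aeval_C]
  rfl

theorem chartPolyHom_injective (hz : Transcendental R z) :
    Function.Injective (chartPolyHom R z) := by
  intro P Q hPQ
  have h := congrArg (fun b : chartRing R z => (b : F)) hPQ
  simp only [coe_chartPolyHom] at h
  exact (transcendental_iff_injective.1 hz) h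

/-- The `R[X]`-algebra structure on the chart (`X ↦ z`). -/
@[reducible] def chartPolyAlgebra : Algebra R[X] (chartRing R z) := (chartPolyHom R z).toAlgebra

theorem chartPoly_isTorsionFree (hz : Transcendental R z) :
    letI := chartPolyAlgebra R z
    Module.IsTorsionFree R[X] (chartRing R z) := by
  letI := chartPolyAlgebra R z
  refine Module.IsTorsionFree.of_smul_eq_zero (R := R[X]) (M := chartRing R z) fun r m h => ?_
  rw [Algebra.smul_def] at h
  rcases mul_eq_zero.1 h with h | h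
  · left
    exact chartPolyHom_injective R z hz (by rw [map_zero]; exact h)
  · exact Or.inr h

section Instances

attribute [local instance] FractionRing.liftAlgebra

variable [CharZero F] [hfin : FiniteDimensional (FractionRing (baseRing R z)) F]
  [IsDiscreteValuationRing R]

theorem chartPoly_finite (hz : Transcendental R z) :
    letI := chartPolyAlgebra R z
    Module.Finite R[X] (chartRing R z) := by
  letI a1 : Algebra R[X] (baseRing R z) := (basePolyHom R z).toAlgebra
  letI := chartPolyAlgebra R z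
  haveI : IsScalarTower R[X] (baseRing R z) (chartRing R z) :=
    IsScalarTower.of_algebraMap_eq (fun _ => rfl)
  haveI : Module.Finite R[X] (baseRing R z) :=
    Module.Finite.of_surjective (Algebra.linearMap R[X] (baseRing R z))
      (basePolyHom_surjective R z)
  haveI := chartRing_finite R z hz
  exact Module.Finite.trans (baseRing R z) (chartRing R z)

end Instances

end Fermat.Agent.S18.H438

end
end
-- ===== PACK-END S18/H438/Front/PolyAlg.lean

-- ===== PACK-BEGIN A2/Mod/H189/ChartChangeT2.lean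
section


/-!
# Cell A2 / MOD, GOODRED part G3 (helper189): from the `t₂`-charts to the `j`-charts (`q = 3`)

Abstract setting (Mathlib only): `F` a field over `R`, `2` a unit of `R`, `t, j ∈ F` with
`j t² = (t + 256)³` (`t` = Hauptmodul of `X₀(2)`), `j ≠ 0`; `V` a subring of `F` containing `R`
in which `t` and `t + 256` are units (the Gauss valuation ring), `w : F`.

* `goodOn_j_of_t2`    : `GoodOn` for the chart of `R[t]` ⟹ `GoodOn` for the chart of `R[j]`
  (`IC(R[j]) = IC(R[t])[1/t]`);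
* `goodOn_jinv_of_t2` : `GoodOn` for the charts of `R[t]` and `R[1/t]` ⟹ `GoodOn` for the chart of
  `R[1/j]`  (`IC(R[1/j]) = IC(R[u])`, `u = 1/(t+256)`, glued from `IC(R[t])[1/(t+256)]` and
  `IC(R[1/t])[1/(1+256/t)]`).
-/

set_option autoImplicit false

namespace Fermat.Agent.A2.Mod.H189

variable {R : Type*} [CommRing R] {F : Type*} [Field F] [Algebra R F]

/-- `R[y] ⊆ F`. -/
abbrev Aof (R : Type*) [CommRing R] {F : Type*} [Field F] [Algebra R F] (y : F) :
    Subalgebra R F := Algebra.adjoin R ({y} : Set F)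

theorem self_mem_Aof (y : F) : y ∈ Aof R y := Algebra.subset_adjoin rfl

theorem Aof_le {y : F} {B : Subalgebra R F} (hy : y ∈ B) : Aof R y ≤ B :=
  Algebra.adjoin_le (by
    intro x hx
    rw [Set.mem_singleton_iff] at hx
    rw [hx]
    exact hy)

theorem ofNat_mem_sub (A : Subalgebra R F) (n : ℕ) [n.AtLeastTwo] : (OfNat.ofNat n : F) ∈ A := by
  have : (OfNat.ofNat n : F) = algebraMap R F (OfNat.ofNat n) := (map_ofNat _ n).symm
  rw [this]
  exact A.algebraMap_mem _

section T2

variable {V : Subring F} {w : F} {t j : F} (i : R)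

include i in
theorem t2_facts (hi : (256 : R) * i = 1) (hj : j ≠ 0) (hrel : j * t ^ 2 = (t + 256) ^ 3) :
    (256 : F) * algebraMap R F i = 1 ∧ (256 : F) ≠ 0 ∧ t ≠ 0 ∧ t + 256 ≠ 0 := by
  have h1 : (256 : F) * algebraMap R F i = 1 := by
    have := congrArg (algebraMap R F) hi
    rwa [map_mul, map_one, map_ofNat] at this
  have h2 : (256 : F) ≠ 0 := fun h => by rw [h, zero_mul] at h1; exact zero_ne_one h1
  have h3 : t ≠ 0 := by
    intro h
    rw [h] at hrel
    simp only [ne_eq, OfNat.ofNat_ne_zero, not_false_eq_true, zero_pow, mul_zero, zero_add] at hrel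
    exact pow_ne_zero 3 h2 hrel.symm
  refine ⟨h1, h2, h3, fun h => ?_⟩
  rw [h] at hrel
  simp only [ne_eq, OfNat.ofNat_ne_zero, not_false_eq_true, zero_pow, mul_eq_zero,
    pow_eq_zero_iff] at hrel
  rcases hrel with h | h
  · exact hj h
  · exact h3 h

include i in
/-- **`t₂ → j`, finite chart.** -/
theorem goodOn_j_of_t2 (hi : (256 : R) * i = 1) (hj : j ≠ 0) (hrel : j * t ^ 2 = (t + 256) ^ 3)
    (htV : t ∈ V) (htV' : t⁻¹ ∈ V) (hg : GoodOn V w (Aof R t)) : GoodOn V w (Aof R j) := by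
  obtain ⟨hi', h256, ht0, -⟩ := t2_facts i hi hj hrel
  have hjeq : j = (t + 256) ^ 3 * t⁻¹ ^ 2 := by
    field_simp
    exact hrel
  refine (hg.loc (self_mem_Aof t) ht0 htV htV').congr ?_ ?_
  · -- `R[t, 1/t]` is integral over `R[j]`
    intro a ha
    refine isIntegral_of_mem_locSub (A' := Aof R j) (fun a ha => ?_) ?_ ha
    · refine isIntegral_of_mem_adjoin (A := Aof R j) (S := {t}) (fun x hx => ?_) ha
      rw [Set.mem_singleton_iff] at hx
      subst hx
      -- `t ^ 3 + (768 - j) t ^ 2 + 196608 t + 16777216 = 0`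
      refine isIntegral_of_cubic (a := 1) (v := 1) (c₂ := 768 - j) (c₁ := 196608)
        (c₀ := 16777216) (Subalgebra.one_mem _) (one_mul 1)
        (Subalgebra.sub_mem _ (ofNat_mem_sub _ 768) (self_mem_Aof j))
        (ofNat_mem_sub _ 196608) (ofNat_mem_sub _ 16777216) ?_
      linear_combination -hrel
    · -- `1 / t`
      refine isIntegral_of_cubic (a := 16777216) (v := algebraMap R F (i ^ 3))
        (c₂ := 196608) (c₁ := 768 - j) (c₀ := 1) (Subalgebra.algebraMap_mem _ _) ?_
        (ofNat_mem_sub _ 196608)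
        (Subalgebra.sub_mem _ (ofNat_mem_sub _ 768) (self_mem_Aof j)) (Subalgebra.one_mem _) ?_
      · rw [map_pow]
        have : (16777216 : F) = 256 ^ 3 := by norm_num
        rw [this, ← mul_pow, mul_comm, hi', one_pow]
      · field_simp
        linear_combination -hrel
  · -- `R[j] ⊆ R[t, 1/t]`
    intro a ha
    refine isIntegral_of_mem (Aof_le (B := locSub (Aof R t) t) ?_ ha)
    rw [hjeq]
    refine Subalgebra.mul_mem _ (Subalgebra.pow_mem _ (Subalgebra.add_mem _
      (le_locSub _ _ (self_mem_Aof t)) (ofNat_mem_sub _ 256)) 3)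
      (Subalgebra.pow_mem _ (inv_mem_locSub _ _) 2)

include i in
/-- **`t₂ → j`, chart at infinity.** -/
theorem goodOn_jinv_of_t2 (hi : (256 : R) * i = 1) (hj : j ≠ 0)
    (hrel : j * t ^ 2 = (t + 256) ^ 3) (hRV : ∀ r : R, algebraMap R F r ∈ V)
    (htV : t ∈ V) (htV' : t⁻¹ ∈ V) (huV : (t + 256)⁻¹ ∈ V)
    (hg : GoodOn V w (Aof R t)) (hg' : GoodOn V w (Aof R t⁻¹)) : GoodOn V w (Aof R j⁻¹) := by
  obtain ⟨hi', h256, ht0, htu0⟩ := t2_facts i hi hj hrel
  have h256V : (256 : F) ∈ V := by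
    have := hRV 256
    rwa [map_ofNat] at this
  set u : F := (t + 256)⁻¹ with hu
  have hu0 : u ≠ 0 := inv_ne_zero htu0
  have htu : t * u = 1 - 256 * u := by
    rw [hu]
    field_simp
    ring
  have hjinv : j⁻¹ = (1 - 256 * u) ^ 2 * u := by
    rw [← htu, hu]
    field_simp
    linear_combination -hrel
  have h1u0 : 1 - 256 * u ≠ 0 := by
    rw [← htu]
    exact mul_ne_zero ht0 hu0
  have h1t0 : 1 + 256 * t⁻¹ ≠ 0 := by
    have : 1 + 256 * t⁻¹ = (t + 256) * t⁻¹ := by field_simp
    rw [this]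
    exact mul_ne_zero htu0 (inv_ne_zero ht0)
  have hinv1 : (1 - 256 * u)⁻¹ = 1 + 256 * t⁻¹ := by
    rw [← htu, hu]
    field_simp
  have hinv2 : (1 + 256 * t⁻¹)⁻¹ = 1 - 256 * u := by
    rw [← hinv1, inv_inv]
  -- the chart of `R[u]`
  have hgu : GoodOn V w (Aof R u) := by
    refine GoodOn.glue (s₁ := u) (s₂ := 1 - 256 * u) (α := 256) (β := 1)
      (adjoin_subset_subring hRV (by
        intro x hx
        rw [Set.mem_singleton_iff] at hx
        rw [hx]
        exact huV))
      (self_mem_Aof u)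
      (Subalgebra.sub_mem _ (Subalgebra.one_mem _)
        (Subalgebra.mul_mem _ (ofNat_mem_sub _ 256) (self_mem_Aof u)))
      (ofNat_mem_sub _ 256) (Subalgebra.one_mem _) (by ring) ?_ ?_
    · -- `R[u, 1/u] = R[t, 1/(t+256)]`
      refine (hg.loc (s := t + 256) (Subalgebra.add_mem _ (self_mem_Aof t) (ofNat_mem_sub _ 256))
        htu0 (V.add_mem htV h256V) huV).of_le_of_le ?_ ?_
      · refine locSub_le (Aof_le ?_) ?_
        · -- `t = 1/u - 256`
          have : t = u⁻¹ - 256 := by rw [hu, inv_inv]; ring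
          rw [this]
          exact Subalgebra.sub_mem _ (inv_mem_locSub _ _) (ofNat_mem_sub _ 256)
        · exact le_locSub _ _ (self_mem_Aof u)
      · refine locSub_le (Aof_le ?_) ?_
        · exact inv_mem_locSub _ _
        · rw [hu, inv_inv]
          exact le_locSub _ _ (Subalgebra.add_mem _ (self_mem_Aof t) (ofNat_mem_sub _ 256))
    · -- `R[u, 1/(1-256u)] = R[1/t, 1/(1+256/t)]`
      refine (hg'.loc (s := 1 + 256 * t⁻¹)
        (Subalgebra.add_mem _ (Subalgebra.one_mem _)
          (Subalgebra.mul_mem _ (ofNat_mem_sub _ 256) (self_mem_Aof t⁻¹)))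
        h1t0 (V.add_mem V.one_mem (V.mul_mem h256V htV')) ?_).of_le_of_le ?_ ?_
      · rw [hinv2, ← htu]
        exact V.mul_mem htV huV
      · refine locSub_le (Aof_le ?_) ?_
        · -- `1/t = i ((1 - 256 u)⁻¹ - 1)`
          have : t⁻¹ = algebraMap R F i * ((1 - 256 * u)⁻¹ - 1) := by
            rw [hinv1]
            linear_combination (-t⁻¹) * hi'
          rw [this]
          exact Subalgebra.mul_mem _ (Subalgebra.algebraMap_mem _ _)
            (Subalgebra.sub_mem _ (inv_mem_locSub _ _) (Subalgebra.one_mem _))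
        · rw [hinv2]
          exact le_locSub _ _ (Subalgebra.sub_mem _ (Subalgebra.one_mem _)
            (Subalgebra.mul_mem _ (ofNat_mem_sub _ 256) (self_mem_Aof u)))
      · refine locSub_le (Aof_le ?_) ?_
        · -- `u = (1/t) (1 + 256/t)⁻¹`
          have : u = t⁻¹ * (1 + 256 * t⁻¹)⁻¹ := by
            rw [hinv2, ← htu]
            field_simp
          rw [this]
          exact Subalgebra.mul_mem _ (le_locSub _ _ (self_mem_Aof t⁻¹)) (inv_mem_locSub _ _)
        · rw [hinv1]
          exact le_locSub _ _ (Subalgebra.add_mem _ (Subalgebra.one_mem _)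
            (Subalgebra.mul_mem _ (ofNat_mem_sub _ 256) (self_mem_Aof t⁻¹)))
  -- `IC(R[1/j]) = IC(R[u])`
  refine hgu.congr ?_ ?_
  · intro a ha
    refine isIntegral_of_mem_adjoin (A := Aof R j⁻¹) (S := {u}) (fun x hx => ?_) ha
    rw [Set.mem_singleton_iff] at hx
    subst hx
    -- `65536 u ^ 3 - 512 u ^ 2 + u - 1/j = 0`
    refine isIntegral_of_cubic (a := 65536) (v := algebraMap R F (i ^ 2))
      (c₂ := -512) (c₁ := 1) (c₀ := -j⁻¹) (Subalgebra.algebraMap_mem _ _) ?_
      (Subalgebra.neg_mem _ (ofNat_mem_sub _ 512)) (Subalgebra.one_mem _)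
      (Subalgebra.neg_mem _ (self_mem_Aof j⁻¹)) ?_
    · rw [map_pow]
      have : (65536 : F) = 256 ^ 2 := by norm_num
      rw [this, ← mul_pow, mul_comm, hi', one_pow]
    · rw [hjinv]
      ring
  · intro a ha
    refine isIntegral_of_mem (Aof_le (B := Aof R u) ?_ ha)
    rw [hjinv]
    exact Subalgebra.mul_mem _ (Subalgebra.pow_mem _ (Subalgebra.sub_mem _ (Subalgebra.one_mem _)
      (Subalgebra.mul_mem _ (ofNat_mem_sub _ 256) (self_mem_Aof u))) 2) (self_mem_Aof u)

end T2

end Fermat.Agent.A2.Mod.H189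

end
-- ===== PACK-END A2/Mod/H189/ChartChangeT2.lean

-- ===== PACK-BEGIN A2/H129/KummerJZero.lean
section



/-!
# A2 / K1 for `JZero N`: the wall A2 from its Kummer form

`A2Kummer N m σ` is the Kummer-side statement for the arithmetic Galois action of `σ` on
`Q̄(X₀(N)) ⊂ Q̄((q))`; `unipotent_JZero_of_kummer` turns it into `(σ - 1)² = 0` on `J₀(N)[m]`.
-/

set_option autoImplicit false

namespace Fermat.Agent.A2.H129

open AlgebraicCurve ModularCurve

/-- The Kummer form of wall A2 for one `σ`: for every `f ∈ Q̄(X₀(N))^×` whose divisor is divisible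
by `m`, `(σ-1)² f` is a constant times an `m`-th power. -/
def A2Kummer (N m : ℕ) (σ : AlgebraicClosure ℚ ≃ₐ[ℚ] AlgebraicClosure ℚ) : Prop :=
  KummerTwice (K := AlgebraicClosure ℚ) (F := modularFunctionFieldBar N)
    (arithmeticGalois (modularFunctionFieldFull N) σ) m

theorem unipotent_JZero_of_kummer (N m : ℕ) (hm : m ≠ 0)
    (σ : AlgebraicClosure ℚ ≃ₐ[ℚ] AlgebraicClosure ℚ) (H : A2Kummer N m σ)
    (x : JZero N) (hx : m • x = 0) :
    σ • (σ • x - x) = σ • x - x := by
  have h := unipotent_of_kummerTwice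
    (arithmeticGalois (modularFunctionFieldFull N) σ) m hm H x hx
  exact h

end Fermat.Agent.A2.H129

end
-- ===== PACK-END A2/H129/KummerJZero.lean

-- ===== PACK-BEGIN S36/H253/NormRam.lean
section


/-!
# Norms commute with reduction: several extensions WITH ramification (helper253)

Mathlib only (on top of `S35/H253/NormRed2.lean`).  `F / K` a finite field extension, `O` a
valuation subring of `K` with uniformiser `ϖ`, `V i` (`i : ι`, finite) valuation subrings of `F`
lying over `O`, `t i` an element of the maximal ideal of `V i` with `ϖ = unit * t i ^ e i` in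
`V i`, reductions `π : O → k`, `ρ i : V i → κ i`.

`RamFamily` : an adapted family `m (i, s, j) = r i j s * t i ^ s` (`s < e i`, `j : J i`), where
the `r i j s` are residually independent at `V i` and `m (i, s, j) ∈ ϖ V i'` for `i' ≠ i`.

`RamFamily.norm_red` : if the residues of the `r i · s` are bases of `κ i / k` and
`∑ i, e i * #(J i) = [F : K]`, then for `y ∈ ⋂ V i`

  `N_{F/K} y ∈ O`   and   `π (N_{F/K} y) = ∏ i, N_{κ i / k} (ρ i y) ^ e i`.
-/

set_option autoImplicit false
set_option linter.unusedSectionVars false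

namespace Fermat.Agent.S36.H253

open scoped BigOperators
open Fermat.Agent.S35.H253

section Defs

variable {K F : Type*} [Field K] [Field F] [Algebra K F]

/-- The hypotheses on an adapted family (see the module docstring). -/
structure RamFamily (O : ValuationSubring K) (ϖ : K) {ι : Type*} (V : ι → ValuationSubring F)
    (t : ι → F) (e : ι → ℕ) {J : ι → Type*} [∀ i, Fintype (J i)]
    (r : (i : ι) → J i → Fin (e i) → F) : Prop where
  isOver : ∀ i, Over O (V i)
  ne_zero : ϖ ≠ 0
  unifO : O.valuation ϖ < 1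
  genO : ∀ a : K, O.valuation a < 1 → O.valuation a ≤ O.valuation ϖ
  unif : ∀ i, (V i).valuation (t i) < 1
  ram : ∀ i, (V i).valuation (algebraMap K F ϖ) = (V i).valuation (t i) ^ (e i)
  r_mem : ∀ i j s, r i j s ∈ V i
  small : ∀ i j (s : Fin (e i)) i', i' ≠ i →
    (V i').valuation (r i j s * t i ^ (s : ℕ)) ≤ (V i').valuation (algebraMap K F ϖ)
  indep : ∀ i (s : Fin (e i)) (a : J i → K), (∀ j, a j ∈ O) →
    (V i).valuation (∑ j, algebraMap K F (a j) * r i j s) < 1 → ∀ j, O.valuation (a j) < 1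

/-- Index type of the blocks: `(i, s)` with `s < e i`. -/
abbrev Blk {ι : Type*} (e : ι → ℕ) : Type _ := Σ i : ι, Fin (e i)

/-- Index type of the adapted family. -/
abbrev Idx {ι : Type*} (e : ι → ℕ) (J : ι → Type*) : Type _ := Σ a : Blk e, J a.1

/-- The adapted family `m (i, s, j) = r i j s * t i ^ s`. -/
def fam {ι : Type*} (t : ι → F) (e : ι → ℕ) {J : ι → Type*}
    (r : (i : ι) → J i → Fin (e i) → F) : Idx e J → F :=
  fun l => r l.1.1 l.2 l.1.2 * t l.1.1 ^ (l.1.2 : ℕ)

end Defs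

namespace RamFamily

variable {K F : Type*} [Field K] [Field F] [Algebra K F]
variable {O : ValuationSubring K} {ϖ : K} {ι : Type*} [Fintype ι] [DecidableEq ι]
  {V : ι → ValuationSubring F}
  {t : ι → F} {e : ι → ℕ} {J : ι → Type*} [∀ i, Fintype (J i)]
  {r : (i : ι) → J i → Fin (e i) → F}

theorem t_ne_zero (h : RamFamily O ϖ V t e r) (i : ι) : t i ≠ 0 := by
  intro h0
  have h1 := h.ram i
  by_cases he : e i = 0
  · rw [he, pow_zero] at h1
    have := (h.isOver i).val_lt_one_iff ϖ |>.2 h.unifO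
    rw [h1] at this
    exact lt_irrefl _ this
  · rw [h0, map_zero, zero_pow he, Valuation.zero_iff, map_eq_zero] at h1
    exact h.ne_zero h1

theorem val_t_pos (h : RamFamily O ϖ V t e r) (i : ι) : 0 < (V i).valuation (t i) := by
  rw [Valuation.pos_iff]; exact h.t_ne_zero i

theorem e_pos (h : RamFamily O ϖ V t e r) (i : ι) : 0 < e i := by
  rcases Nat.eq_zero_or_pos (e i) with he | he
  · have h1 := h.ram i
    rw [he, pow_zero] at h1
    have := (h.isOver i).val_lt_one_iff ϖ |>.2 h.unifO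
    rw [h1] at this
    exact absurd this (lt_irrefl _)
  · exact he

/-- Elements of the maximal ideal of `O` are divisible by `ϖ` in every `V i`. -/
theorem val_le_of_small (h : RamFamily O ϖ V t e r) (i : ι) {a : K} (ha : O.valuation a < 1) :
    (V i).valuation (algebraMap K F a) ≤ (V i).valuation (algebraMap K F ϖ) := by
  have h1 : O.valuation (a * ϖ⁻¹) ≤ 1 := by
    rw [map_mul, map_inv₀]
    have hpos : 0 < O.valuation ϖ := by rw [Valuation.pos_iff]; exact h.ne_zero
    calc O.valuation a * (O.valuation ϖ)⁻¹ ≤ O.valuation ϖ * (O.valuation ϖ)⁻¹ := by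
          gcongr; exact h.genO a ha
      _ = 1 := mul_inv_cancel₀ hpos.ne'
  have h2 := ((h.isOver i).val_le_one_iff _).2 h1
  have h3 : algebraMap K F a = algebraMap K F (a * ϖ⁻¹) * algebraMap K F ϖ := by
    rw [← map_mul, inv_mul_cancel_right₀ h.ne_zero]
  rw [h3, map_mul]
  calc (V i).valuation (algebraMap K F (a * ϖ⁻¹)) * (V i).valuation (algebraMap K F ϖ)
      ≤ 1 * (V i).valuation (algebraMap K F ϖ) := by gcongr
    _ = _ := one_mul _

theorem val_pow_le_pow (h : RamFamily O ϖ V t e r) (i : ι) {a b : ℕ} (hab : a ≤ b) :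
    (V i).valuation (t i) ^ b ≤ (V i).valuation (t i) ^ a :=
  pow_le_pow_of_le_one zero_le (h.unif i).le hab

theorem fam_mem (h : RamFamily O ϖ V t e r) (l : Idx e J) (i : ι) : fam t e r l ∈ V i := by
  rw [← (V i).valuation_le_one_iff]
  by_cases hi : i = l.1.1
  · subst hi
    unfold fam
    rw [map_mul, map_pow]
    calc (V l.1.1).valuation (r l.1.1 l.2 l.1.2) * (V l.1.1).valuation (t l.1.1) ^ (l.1.2 : ℕ)
        ≤ 1 * 1 := by
          gcongr
          · exact ((V l.1.1).valuation_le_one_iff _).2 (h.r_mem _ _ _)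
          · exact pow_le_one₀ zero_le (h.unif _).le
      _ = 1 := one_mul 1
  · refine le_trans (h.small l.1.1 l.2 l.1.2 i hi) ?_
    exact ((h.isOver i).val_lt_one_iff ϖ |>.2 h.unifO).le

theorem sum_split (a : Idx e J → K) (a₀ : Blk e) :
    ∑ l, algebraMap K F (a l) * fam t e r l =
      (∑ j : J a₀.1, algebraMap K F (a ⟨a₀, j⟩) * fam t e r ⟨a₀, j⟩) +
        ∑ b ∈ Finset.univ.erase a₀,
          ∑ j : J b.1, algebraMap K F (a ⟨b, j⟩) * fam t e r ⟨b, j⟩ := by
  rw [Fintype.sum_sigma, ← Finset.add_sum_erase _ _ (Finset.mem_univ a₀)]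

theorem val_coeff_le_one (h : RamFamily O ϖ V t e r) (i : ι) {a : K} (ha : a ∈ O) :
    (V i).valuation (algebraMap K F a) ≤ 1 :=
  ((h.isOver i).val_le_one_iff a).2 ((O.valuation_le_one_iff a).2 ha)

/-- The part of an integral combination outside the block `(i, s)` is divisible by
`t i ^ (s + 1)` in `V i`, provided the coefficients of the lower levels of the block `i` are
small. -/
theorem val_rest_le (h : RamFamily O ϖ V t e r) (a : Idx e J → K) (ha : ∀ l, a l ∈ O)
    (i : ι) (s : Fin (e i))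
    (hlow : ∀ (s' : Fin (e i)) (j' : J i), (s' : ℕ) < (s : ℕ) →
      O.valuation (a ⟨⟨i, s'⟩, j'⟩) < 1) :
    (V i).valuation (∑ b ∈ Finset.univ.erase (⟨i, s⟩ : Blk e),
        ∑ j : J b.1, algebraMap K F (a ⟨b, j⟩) * fam t e r ⟨b, j⟩) ≤
        (V i).valuation (t i) ^ ((s : ℕ) + 1) := by
  have hle : (s : ℕ) + 1 ≤ e i := s.2
  refine Valuation.map_sum_le _ fun b hb => Valuation.map_sum_le _ fun j' _ => ?_
  have hb' : b ≠ ⟨i, s⟩ := Finset.ne_of_mem_erase hb
  obtain ⟨i', s'⟩ := b
  rw [map_mul]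
  by_cases hi : i' = i
  · subst hi
    have hne : s' ≠ s := fun hh => hb' (by rw [hh])
    rcases lt_or_gt_of_ne (fun hh => hne (Fin.ext hh) : (s' : ℕ) ≠ (s : ℕ)) with hlt | hgt
    · -- lower level: coefficient small
      have h1 : O.valuation (a ⟨⟨i', s'⟩, j'⟩) < 1 := hlow s' j' hlt
      have h2 := h.val_le_of_small i' h1
      have h3 : (V i').valuation (fam t e r ⟨⟨i', s'⟩, j'⟩) ≤ 1 :=
        ((V i').valuation_le_one_iff _).2 (h.fam_mem _ _)
      calc (V i').valuation (algebraMap K F (a ⟨⟨i', s'⟩, j'⟩)) *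
            (V i').valuation (fam t e r ⟨⟨i', s'⟩, j'⟩)
          ≤ (V i').valuation (algebraMap K F ϖ) * 1 := by gcongr
        _ = (V i').valuation (t i') ^ (e i') := by rw [mul_one, h.ram]
        _ ≤ (V i').valuation (t i') ^ ((s : ℕ) + 1) := h.val_pow_le_pow i' hle
    · -- higher level
      have h3 : (V i').valuation (fam t e r ⟨⟨i', s'⟩, j'⟩) ≤
          (V i').valuation (t i') ^ (s' : ℕ) := by
        unfold fam
        rw [map_mul, map_pow]
        calc (V i').valuation (r i' j' s') * (V i').valuation (t i') ^ (s' : ℕ)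
            ≤ 1 * (V i').valuation (t i') ^ (s' : ℕ) := by
              gcongr
              exact ((V i').valuation_le_one_iff _).2 (h.r_mem _ _ _)
          _ = _ := one_mul _
      calc (V i').valuation (algebraMap K F (a ⟨⟨i', s'⟩, j'⟩)) *
            (V i').valuation (fam t e r ⟨⟨i', s'⟩, j'⟩)
          ≤ 1 * (V i').valuation (t i') ^ (s' : ℕ) := by
            gcongr
            exact h.val_coeff_le_one i' (ha _)
        _ = (V i').valuation (t i') ^ (s' : ℕ) := one_mul _
        _ ≤ (V i').valuation (t i') ^ ((s : ℕ) + 1) := h.val_pow_le_pow i' (by omega)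
  · -- another valuation
    have h3 := h.small i' j' s' i (fun hh => hi hh.symm)
    calc (V i).valuation (algebraMap K F (a ⟨⟨i', s'⟩, j'⟩)) *
          (V i).valuation (fam t e r ⟨⟨i', s'⟩, j'⟩)
        ≤ 1 * (V i).valuation (algebraMap K F ϖ) := by
          gcongr
          · exact h.val_coeff_le_one i (ha _)
          · exact h3
      _ = (V i).valuation (t i) ^ (e i) := by rw [one_mul, h.ram]
      _ ≤ (V i).valuation (t i) ^ ((s : ℕ) + 1) := h.val_pow_le_pow i hle

theorem block_eq (a : Idx e J → K) (i : ι) (s : Fin (e i)) :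
    (∑ j : J i, algebraMap K F (a ⟨⟨i, s⟩, j⟩) * r i j s) * t i ^ (s : ℕ) =
      (∑ l, algebraMap K F (a l) * fam t e r l) -
        ∑ b ∈ Finset.univ.erase (⟨i, s⟩ : Blk e),
          ∑ j : J b.1, algebraMap K F (a ⟨b, j⟩) * fam t e r ⟨b, j⟩ := by
  rw [sum_split a ⟨i, s⟩, Finset.sum_mul, add_sub_cancel_right]
  refine Finset.sum_congr rfl fun j _ => ?_
  unfold fam; ring

/-- **Key lemma.**  If an integral combination of the adapted family is divisible by `t i ^ s₀`
in `V i` (`s₀ ≤ e i`), then its coefficients in the block `i` at the levels `s < s₀` lie in the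
maximal ideal of `O`. -/
theorem coeff_small_below (h : RamFamily O ϖ V t e r) (a : Idx e J → K) (ha : ∀ l, a l ∈ O)
    (i : ι) : ∀ s₀ : ℕ, s₀ ≤ e i →
    (V i).valuation (∑ l, algebraMap K F (a l) * fam t e r l) ≤ (V i).valuation (t i) ^ s₀ →
    ∀ (s : Fin (e i)) (j : J i), (s : ℕ) < s₀ → O.valuation (a ⟨⟨i, s⟩, j⟩) < 1 := by
  intro s₀
  induction s₀ with
  | zero => intro _ _ s j hs; exact absurd hs (Nat.not_lt_zero _)
  | succ s₀ ih =>
    intro hle hz s j hs
    have IH := ih (Nat.le_of_succ_le hle) (hz.trans (h.val_pow_le_pow i (Nat.le_succ s₀)))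
    by_cases hs' : (s : ℕ) < s₀
    · exact IH s j hs'
    have hss : (s : ℕ) = s₀ := by omega
    refine h.indep i s (fun j => a ⟨⟨i, s⟩, j⟩) (fun j => ha _) ?_ j
    have hrest := h.val_rest_le a ha i s (fun s' j' hlt => IH s' j' (by omega))
    have hval : (V i).valuation ((∑ j : J i, algebraMap K F (a ⟨⟨i, s⟩, j⟩) * r i j s) *
        t i ^ (s : ℕ)) ≤ (V i).valuation (t i) ^ ((s : ℕ) + 1) := by
      rw [block_eq a i s]
      exact Valuation.map_sub_le _ (by rw [hss]; exact hz) hrest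
    rw [map_mul, map_pow, pow_succ'] at hval
    have hpos : 0 < (V i).valuation (t i) ^ (s : ℕ) := pow_pos (h.val_t_pos i) _
    have := le_of_mul_le_mul_right hval hpos
    exact lt_of_le_of_lt this (h.unif i)

/-- **Level identification.**  If an integral combination `z` of the adapted family equals
`rz * t i ^ s` with `rz ∈ V i`, then the block `(i, s)` of the coefficients computes the residue
of `rz`. -/
theorem block_congr (h : RamFamily O ϖ V t e r) (a : Idx e J → K) (ha : ∀ l, a l ∈ O)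
    (i : ι) (s : Fin (e i)) {rz : F} (hrz : rz ∈ V i)
    (hz : (∑ l, algebraMap K F (a l) * fam t e r l) = rz * t i ^ (s : ℕ)) :
    (V i).valuation ((∑ j : J i, algebraMap K F (a ⟨⟨i, s⟩, j⟩) * r i j s) - rz) < 1 := by
  have hzle : (V i).valuation (∑ l, algebraMap K F (a l) * fam t e r l) ≤
      (V i).valuation (t i) ^ (s : ℕ) := by
    rw [hz, map_mul, map_pow]
    calc (V i).valuation rz * (V i).valuation (t i) ^ (s : ℕ)
        ≤ 1 * (V i).valuation (t i) ^ (s : ℕ) := by
          gcongr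
          exact ((V i).valuation_le_one_iff _).2 hrz
      _ = _ := one_mul _
  have hlow := h.coeff_small_below a ha i (s : ℕ) s.2.le hzle
  have hrest := h.val_rest_le a ha i s (fun s' j' hlt => hlow s' j' hlt)
  have e1 : ((∑ j : J i, algebraMap K F (a ⟨⟨i, s⟩, j⟩) * r i j s) - rz) * t i ^ (s : ℕ) =
      -(∑ b ∈ Finset.univ.erase (⟨i, s⟩ : Blk e),
          ∑ j : J b.1, algebraMap K F (a ⟨b, j⟩) * fam t e r ⟨b, j⟩) := by
    rw [sub_mul, block_eq a i s, hz]; ring
  have hval : (V i).valuation (((∑ j : J i, algebraMap K F (a ⟨⟨i, s⟩, j⟩) * r i j s) - rz) *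
      t i ^ (s : ℕ)) ≤ (V i).valuation (t i) ^ ((s : ℕ) + 1) := by
    rw [e1, Valuation.map_neg]; exact hrest
  rw [map_mul, map_pow, pow_succ'] at hval
  have hpos : 0 < (V i).valuation (t i) ^ (s : ℕ) := pow_pos (h.val_t_pos i) _
  exact lt_of_le_of_lt (le_of_mul_le_mul_right hval hpos) (h.unif i)

/-- **Lattice lemma.**  An integral combination divisible by `ϖ` in every `V i` has all its
coefficients in the maximal ideal of `O`. -/
theorem coeff_small (h : RamFamily O ϖ V t e r) (a : Idx e J → K) (ha : ∀ l, a l ∈ O)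
    (hz : ∀ i, (V i).valuation (∑ l, algebraMap K F (a l) * fam t e r l) ≤
      (V i).valuation (algebraMap K F ϖ)) (l : Idx e J) : O.valuation (a l) < 1 := by
  obtain ⟨⟨i, s⟩, j⟩ := l
  exact h.coeff_small_below a ha i (e i) le_rfl (by rw [← h.ram]; exact hz i) s j s.2

/-- Coordinates of elements of `⋂ V i` with respect to the adapted family lie in `O`. -/
theorem coeff_mem (h : RamFamily O ϖ V t e r) (a : Idx e J → K)
    (hz : ∀ i, (∑ l, algebraMap K F (a l) * fam t e r l) ∈ V i) (l : Idx e J) : a l ∈ O := by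
  classical
  by_contra hl
  have : Nonempty (Idx e J) := ⟨l⟩
  obtain ⟨l₀, hl₀⟩ := Finite.exists_max (fun l => O.valuation (a l))
  have hbig : 1 < O.valuation (a l₀) := by
    have : ¬ O.valuation (a l) ≤ 1 := fun hh => hl ((O.valuation_le_one_iff _).1 hh)
    exact lt_of_lt_of_le (not_le.1 this) (hl₀ l)
  have h0 : a l₀ ≠ 0 := by
    intro h0; rw [h0, map_zero] at hbig; exact not_lt.2 zero_le_one hbig
  have hinv : O.valuation (a l₀)⁻¹ < 1 := by
    rw [map_inv₀]; exact inv_lt_one_of_one_lt₀ hbig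
  set c : Idx e J → K := fun l => a l * (a l₀)⁻¹ with hc
  have hcO : ∀ l, c l ∈ O := fun l => by
    rw [← O.valuation_le_one_iff, hc, map_mul, map_inv₀]
    have hpos : 0 < O.valuation (a l₀) := lt_trans zero_lt_one hbig
    calc O.valuation (a l) * (O.valuation (a l₀))⁻¹
        ≤ O.valuation (a l₀) * (O.valuation (a l₀))⁻¹ := by gcongr; exact hl₀ l
      _ = 1 := mul_inv_cancel₀ hpos.ne'
  have hsum : (∑ l, algebraMap K F (c l) * fam t e r l) =
      (∑ l, algebraMap K F (a l) * fam t e r l) * algebraMap K F (a l₀)⁻¹ := by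
    rw [Finset.sum_mul]
    refine Finset.sum_congr rfl fun l _ => ?_
    rw [hc, map_mul]; ring
  have hs : ∀ i, (V i).valuation (∑ l, algebraMap K F (c l) * fam t e r l) ≤
      (V i).valuation (algebraMap K F ϖ) := fun i => by
    rw [hsum, map_mul]
    calc (V i).valuation (∑ l, algebraMap K F (a l) * fam t e r l) *
          (V i).valuation (algebraMap K F (a l₀)⁻¹)
        ≤ 1 * (V i).valuation (algebraMap K F ϖ) := by
          gcongr
          · exact ((V i).valuation_le_one_iff _).2 (hz i)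
          · exact h.val_le_of_small i hinv
      _ = _ := one_mul _
  have hlt := h.coeff_small c hcO hs l₀
  have hc₀ : c l₀ = 1 := by rw [hc]; exact mul_inv_cancel₀ h0
  rw [hc₀, map_one] at hlt
  exact lt_irrefl _ hlt

theorem eq_zero_of_sum_eq_zero (h : RamFamily O ϖ V t e r) (a : Idx e J → K)
    (hz : (∑ l, algebraMap K F (a l) * fam t e r l) = 0) (l : Idx e J) : a l = 0 := by
  classical
  by_contra hl
  have : Nonempty (Idx e J) := ⟨l⟩
  obtain ⟨l₀, hl₀⟩ := Finite.exists_max (fun l => O.valuation (a l))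
  have hpos : 0 < O.valuation (a l₀) :=
    lt_of_lt_of_le (by rw [Valuation.pos_iff]; exact hl) (hl₀ l)
  have h0 : a l₀ ≠ 0 := by
    intro h0; rw [h0, map_zero] at hpos; exact lt_irrefl _ hpos
  set c : Idx e J → K := fun l => a l * (a l₀)⁻¹ with hc
  have hcO : ∀ l, c l ∈ O := fun l => by
    rw [← O.valuation_le_one_iff, hc, map_mul, map_inv₀]
    calc O.valuation (a l) * (O.valuation (a l₀))⁻¹
        ≤ O.valuation (a l₀) * (O.valuation (a l₀))⁻¹ := by gcongr; exact hl₀ l
      _ = 1 := mul_inv_cancel₀ hpos.ne'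
  have hsum : (∑ l, algebraMap K F (c l) * fam t e r l) =
      (∑ l, algebraMap K F (a l) * fam t e r l) * algebraMap K F (a l₀)⁻¹ := by
    rw [Finset.sum_mul]
    refine Finset.sum_congr rfl fun l _ => ?_
    rw [hc, map_mul]; ring
  rw [hz, zero_mul] at hsum
  have hlt := h.coeff_small c hcO (fun i => by rw [hsum, map_zero]; exact zero_le) l₀
  have hc₀ : c l₀ = 1 := by rw [hc]; exact mul_inv_cancel₀ h0
  rw [hc₀, map_one] at hlt
  exact lt_irrefl _ hlt

theorem linearIndependent (h : RamFamily O ϖ V t e r) : LinearIndependent K (fam t e r) := by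
  rw [Fintype.linearIndependent_iff]
  intro a ha l
  refine h.eq_zero_of_sum_eq_zero a ?_ l
  rw [← ha]
  exact Finset.sum_congr rfl fun l _ => (Algebra.smul_def _ _).symm

theorem sum_repr_eq (bas : Module.Basis (Idx e J) K F) (hbas : ⇑bas = fam t e r) (z : F) :
    (∑ l, algebraMap K F (bas.repr z l) * fam t e r l) = z := by
  conv_rhs => rw [← bas.sum_repr z]
  refine Finset.sum_congr rfl fun l _ => ?_
  rw [Algebra.smul_def, hbas]

/-- Coordinates of elements of `⋂ V i` in an adapted basis lie in `O`. -/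
theorem repr_mem (h : RamFamily O ϖ V t e r) (bas : Module.Basis (Idx e J) K F)
    (hbas : ⇑bas = fam t e r) {z : F} (hz : ∀ i, z ∈ V i) (l : Idx e J) :
    bas.repr z l ∈ O :=
  h.coeff_mem (fun l => bas.repr z l) (fun i => by rw [sum_repr_eq bas hbas]; exact hz i) l

/-- The matrix, with entries in `O`, of multiplication by `y ∈ ⋂ V i` in an adapted basis. -/
noncomputable def intMatrix (h : RamFamily O ϖ V t e r) (bas : Module.Basis (Idx e J) K F)
    (hbas : ⇑bas = fam t e r) {y : F} (hy : ∀ i, y ∈ V i) :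
    Matrix (Idx e J) (Idx e J) O :=
  fun k l => ⟨bas.repr (y * fam t e r l) k,
    h.repr_mem bas hbas (fun i => mul_mem (hy i) (h.fam_mem l i)) k⟩

theorem intMatrix_map [DecidableEq (Idx e J)] (h : RamFamily O ϖ V t e r)
    (bas : Module.Basis (Idx e J) K F) (hbas : ⇑bas = fam t e r) {y : F}
    (hy : ∀ i, y ∈ V i) :
    (h.intMatrix bas hbas hy).map O.subtype = Algebra.leftMulMatrix bas y := by
  ext k l
  rw [Matrix.map_apply, Algebra.leftMulMatrix_eq_repr_mul, hbas]
  rfl

theorem norm_eq_det_intMatrix [DecidableEq (Idx e J)] (h : RamFamily O ϖ V t e r)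
    (bas : Module.Basis (Idx e J) K F) (hbas : ⇑bas = fam t e r) {y : F}
    (hy : ∀ i, y ∈ V i) :
    Algebra.norm K y = (((h.intMatrix bas hbas hy).det : O) : K) := by
  rw [Algebra.norm_eq_matrix_det bas, ← h.intMatrix_map bas hbas hy]
  have := RingHom.map_det O.subtype (h.intMatrix bas hbas hy)
  rw [RingHom.mapMatrix_apply] at this
  rw [← this]
  rfl

theorem card_idx : Fintype.card (Idx e J) = ∑ i, e i * Fintype.card (J i) := by
  rw [Fintype.card_sigma, Fintype.sum_sigma]
  refine Finset.sum_congr rfl fun i _ => ?_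
  show ∑ _s : Fin (e i), Fintype.card (J i) = _
  rw [Finset.sum_const, Finset.card_univ, Fintype.card_fin, smul_eq_mul]

end RamFamily

section Norm

variable {K F : Type*} [Field K] [Field F] [Algebra K F]
variable {O : ValuationSubring K} {ϖ : K} {ι : Type*} [Fintype ι] [DecidableEq ι]
  {V : ι → ValuationSubring F}
  {t : ι → F} {e : ι → ℕ} {J : ι → Type*} [∀ i, Fintype (J i)]
  {r : (i : ι) → J i → Fin (e i) → F}
  {k : Type*} [Field k] {κ : ι → Type*} [∀ i, Field (κ i)] [∀ i, Algebra k (κ i)]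

/-- The order of the blocks: lexicographic in `(i, s)`, decreasing in `s`. -/
noncomputable def blkKey [LinearOrder ι] (e : ι → ℕ) (a : Blk e) : ι ×ₗ ℕᵒᵈ :=
  toLex (a.1, OrderDual.toDual (a.2 : ℕ))

theorem blkKey_injective [LinearOrder ι] (e : ι → ℕ) : Function.Injective (blkKey e) := by
  rintro ⟨i, s⟩ ⟨i', s'⟩ hh
  have h0 := toLex.injective hh
  have h1 : i = i' := (Prod.mk.inj h0).1
  subst h1
  have h2 : (s : ℕ) = (s' : ℕ) := OrderDual.toDual.injective (Prod.mk.inj h0).2
  rw [Fin.ext h2]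

theorem blkKey_lt_iff [LinearOrder ι] (e : ι → ℕ) (a a' : Blk e) :
    blkKey e a < blkKey e a' ↔ a.1 < a'.1 ∨ (a.1 = a'.1 ∧ (a'.2 : ℕ) < (a.2 : ℕ)) := by
  unfold blkKey
  rw [Prod.Lex.toLex_lt_toLex]
  simp only [OrderDual.toDual_lt_toDual]

/-- Type synonym of `Blk e` carrying the block order (`Sigma` types have another order). -/
def BlkO {ι : Type*} (e : ι → ℕ) : Type _ := Blk e

/-- The identity `Blk e → BlkO e`. -/
def toBlkO {ι : Type*} (e : ι → ℕ) (a : Blk e) : BlkO e := a

noncomputable instance instLinearOrderBlkO [LinearOrder ι] (e : ι → ℕ) : LinearOrder (BlkO e) :=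
  LinearOrder.lift' (fun a : BlkO e => blkKey e a) (blkKey_injective e)

instance instFintypeBlkO (e : ι → ℕ) : Fintype (BlkO e) :=
  inferInstanceAs (Fintype (Blk e))

theorem toBlkO_lt_iff [LinearOrder ι] (e : ι → ℕ) (a a' : Blk e) :
    toBlkO e a < toBlkO e a' ↔ a.1 < a'.1 ∨ (a.1 = a'.1 ∧ (a'.2 : ℕ) < (a.2 : ℕ)) :=
  blkKey_lt_iff e a a'

theorem prod_blkO {M : Type*} [CommMonoid M] (e : ι → ℕ) (f : BlkO e → M) :
    ∏ a : BlkO e, f a = ∏ i : ι, ∏ s : Fin (e i), f (toBlkO e ⟨i, s⟩) :=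
  Fintype.prod_sigma (fun a : Blk e => f (toBlkO e a))

/-- **Norms commute with reduction: several extensions with ramification.** -/
theorem RamFamily.norm_red [Nonempty ι] (h : RamFamily O ϖ V t e r)
    (hcard : ∑ i, e i * Fintype.card (J i) = Module.finrank K F)
    (π : O →+* k) (ρ : ∀ i, V i →+* κ i)
    (hπ : ∀ a : O, O.valuation (a : K) < 1 → π a = 0)
    (hρ : ∀ i (z : V i), (V i).valuation (z : F) < 1 → ρ i z = 0)
    (hc : ∀ i (a : O), ρ i ⟨algebraMap K F a, ((h.isOver i) a).2 a.2⟩ = algebraMap k (κ i) (π a))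
    (b : ∀ i, Fin (e i) → Module.Basis (J i) k (κ i))
    (hb : ∀ i j s, ρ i ⟨r i j s, h.r_mem i j s⟩ = b i s j)
    {y : F} (hy : ∀ i, y ∈ V i) :
    ∃ hN : Algebra.norm K y ∈ O,
      π ⟨Algebra.norm K y, hN⟩ = ∏ i, Algebra.norm k (ρ i ⟨y, hy i⟩) ^ e i := by
  classical
  let _ : LinearOrder ι := LinearOrder.lift' (Fintype.equivFin ι) (Equiv.injective _)
  have hlt : ∀ a a' : Blk e, toBlkO e a < toBlkO e a' ↔
      a.1 < a'.1 ∨ (a.1 = a'.1 ∧ (a'.2 : ℕ) < (a.2 : ℕ)) :=
    fun a a' => toBlkO_lt_iff e a a'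
  -- nonemptiness of the index type
  have hne : Nonempty (Idx e J) := by
    obtain ⟨i₀⟩ := (inferInstance : Nonempty ι)
    have s₀ : Fin (e i₀) := ⟨0, h.e_pos i₀⟩
    have : Nonempty (J i₀) := by
      by_contra hemp
      rw [not_nonempty_iff] at hemp
      have : Subsingleton (κ i₀) :=
        ⟨fun x y => (b i₀ s₀).ext_elem fun j => (IsEmpty.false j).elim⟩
      exact one_ne_zero (Subsingleton.elim (1 : κ i₀) 0)
    obtain ⟨j₀⟩ := this
    exact ⟨⟨⟨i₀, s₀⟩, j₀⟩⟩
  have hcard' : Fintype.card (Idx e J) = Module.finrank K F := by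
    rw [RamFamily.card_idx]; exact hcard
  set bas : Module.Basis (Idx e J) K F :=
    basisOfLinearIndependentOfCardEqFinrank h.linearIndependent hcard' with hbasdef
  have hbas : ⇑bas = fam t e r := coe_basisOfLinearIndependentOfCardEqFinrank _ _
  set A := h.intMatrix bas hbas hy with hA
  have hnorm := h.norm_eq_det_intMatrix bas hbas hy
  have hAO : ∀ l k', ((A k' l : O) : K) ∈ O := fun l k' => (A k' l).2
  have hcol : ∀ l, (∑ k', algebraMap K F ((A k' l : O) : K) * fam t e r k') =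
      y * fam t e r l := fun l => RamFamily.sum_repr_eq bas hbas (y * fam t e r l)
  -- block triangularity of the reduced matrix
  have htri : (π.mapMatrix A).BlockTriangular (fun l : Idx e J => toBlkO e l.1) := by
    intro k' l hkl
    rw [RingHom.mapMatrix_apply, Matrix.map_apply]
    refine hπ _ ?_
    obtain ⟨⟨i', s'⟩, j'⟩ := k'
    obtain ⟨⟨i, s⟩, j⟩ := l
    rcases (hlt _ _).1 hkl with hii | ⟨hii, hss⟩
    · -- different valuations
      have hi : i' ≠ i := fun hh => (ne_of_lt hii) hh.symm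
      refine h.coeff_small_below (fun k' => ((A k' ⟨⟨i, s⟩, j⟩ : O) : K))
        (fun k' => hAO _ k') i' (e i') le_rfl ?_ s' j' s'.2
      rw [hcol, ← h.ram, map_mul]
      calc (V i').valuation y * (V i').valuation (fam t e r ⟨⟨i, s⟩, j⟩)
          ≤ 1 * (V i').valuation (algebraMap K F ϖ) := by
            gcongr
            · exact ((V i').valuation_le_one_iff _).2 (hy i')
            · exact h.small i j s i' hi
        _ = _ := one_mul _
    · -- same valuation, lower level
      simp only at hii hss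
      subst hii
      refine h.coeff_small_below (fun k' => ((A k' ⟨⟨i, s⟩, j⟩ : O) : K))
        (fun k' => hAO _ k') i (s : ℕ) s.2.le ?_ s' j' hss
      rw [hcol]
      unfold fam
      simp only
      rw [map_mul, map_mul, map_pow]
      calc (V i).valuation y * ((V i).valuation (r i j s) * (V i).valuation (t i) ^ (s : ℕ))
          ≤ 1 * (1 * (V i).valuation (t i) ^ (s : ℕ)) := by
            gcongr
            · exact ((V i).valuation_le_one_iff _).2 (hy i)
            · exact ((V i).valuation_le_one_iff _).2 (h.r_mem _ _ _)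
        _ = _ := by rw [one_mul, one_mul]
  -- the diagonal blocks
  have hblock : ∀ (i : ι) (s : Fin (e i)),
      ((π.mapMatrix A).toSquareBlock (fun l : Idx e J => toBlkO e l.1) (toBlkO e ⟨i, s⟩)).det =
      Algebra.norm k (ρ i ⟨y, hy i⟩) := by
    intro i s
    let ε : J i ≃ {l : Idx e J // toBlkO e l.1 = toBlkO e ⟨i, s⟩} :=
      (Equiv.sigmaSubtype (β := fun a : Blk e => J a.1) (⟨i, s⟩ : Blk e)).symm
    refine (Matrix.det_submatrix_equiv_self ε _).symm.trans ?_
    rw [Algebra.norm_eq_matrix_det (b i s)]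
    congr 1
    ext j' j
    rw [Matrix.submatrix_apply, Algebra.leftMulMatrix_eq_repr_mul]
    show π (A ⟨⟨i, s⟩, j'⟩ ⟨⟨i, s⟩, j⟩) = _
    -- the congruence
    have hrz : y * r i j s ∈ V i := mul_mem (hy i) (h.r_mem i j s)
    have hcong := h.block_congr (fun k' => ((A k' ⟨⟨i, s⟩, j⟩ : O) : K)) (fun k' => hAO _ k')
      i s hrz (by rw [hcol]; unfold fam; ring)
    have hmem : (∑ j' : J i, algebraMap K F ((A ⟨⟨i, s⟩, j'⟩ ⟨⟨i, s⟩, j⟩ : O) : K) * r i j' s)
        ∈ V i := by
      refine sum_mem fun j' _ => mul_mem ?_ (h.r_mem _ _ _)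
      exact ((h.isOver i) _).2 (hAO _ _)
    have h0 : ρ i (⟨_, hmem⟩ - ⟨y * r i j s, hrz⟩) = 0 := hρ i _ hcong
    rw [map_sub, sub_eq_zero] at h0
    have e1 : (⟨_, hmem⟩ : V i) = ∑ j' : J i,
        (⟨algebraMap K F ((A ⟨⟨i, s⟩, j'⟩ ⟨⟨i, s⟩, j⟩ : O) : K),
          ((h.isOver i) _).2 (hAO _ _)⟩ : V i) * ⟨r i j' s, h.r_mem i j' s⟩ := by
      apply Subtype.ext
      rw [AddSubmonoidClass.coe_finsetSum]
      simp only [MulMemClass.coe_mul]
    have e2 : (⟨y * r i j s, hrz⟩ : V i) = ⟨y, hy i⟩ * ⟨r i j s, h.r_mem i j s⟩ := rfl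
    rw [e1, e2, map_sum, map_mul, hb] at h0
    have h1 : ρ i ⟨y, hy i⟩ * b i s j =
        ∑ j' : J i, π (A ⟨⟨i, s⟩, j'⟩ ⟨⟨i, s⟩, j⟩) • b i s j' := by
      rw [← h0]
      refine Finset.sum_congr rfl fun j' _ => ?_
      rw [map_mul, hb, Algebra.smul_def, ← hc]
    rw [h1, (b i s).repr_sum_self]
  have hN : Algebra.norm K y ∈ O := by rw [hnorm]; exact (A.det).2
  refine ⟨hN, ?_⟩
  have e0 : (⟨Algebra.norm K y, hN⟩ : O) = A.det := Subtype.ext hnorm
  rw [e0, RingHom.map_det, htri.det_fintype, prod_blkO]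
  refine Finset.prod_congr rfl fun i _ => ?_
  rw [Finset.prod_congr rfl (fun s _ => hblock i s), Finset.prod_const, Finset.card_univ,
    Fintype.card_fin]

end Norm

section Main

variable {K F : Type*} [Field K] [Field F] [Algebra K F]

/-- Multiplication by a nonzero element of an extension field, as a linear equivalence. -/
noncomputable def mulLinearEquiv (k : Type*) {κ : Type*} [Field k] [Field κ] [Algebra k κ]
    (c : κ) (hc : c ≠ 0) : κ ≃ₗ[k] κ :=
  LinearEquiv.ofLinearMap (LinearMap.mulLeft k c) (LinearMap.mulLeft k c⁻¹)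
    (by ext x; simp [hc]) (by ext x; simp [hc])

@[simp] theorem mulLinearEquiv_apply (k : Type*) {κ : Type*} [Field k] [Field κ] [Algebra k κ]
    (c : κ) (hc : c ≠ 0) (x : κ) : mulLinearEquiv k c hc x = c * x := rfl

/-- **Norms commute with reduction: `r` extensions with ramification.**
`O ⊆ K` a valuation ring with uniformiser `ϖ`; `V i ⊆ F` pairwise incomparable valuation rings
over `O` with uniformisers `t i`, `ϖ = unit * t i ^ e i` in `V i`; surjective reductions
`π : O → k`, `ρ i : V i → κ i` onto fields with `κ i / k` finite; `∑ e i * [κ i : k] = [F : K]`.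
Then for `y ∈ ⋂ V i`: `N_{F/K} y ∈ O` and `π (N y) = ∏ i, N_{κ i / k} (ρ i y) ^ e i`. -/
theorem norm_red_ram {ι : Type*} [Fintype ι] [Nonempty ι]
    {O : ValuationSubring K} {ϖ : K} {V : ι → ValuationSubring F} {t : ι → F} {e : ι → ℕ}
    (hover : ∀ i, Over O (V i)) (hinc : ∀ i i', i ≠ i' → ¬ V i ≤ V i')
    (hϖ0 : ϖ ≠ 0) (hϖ : O.valuation ϖ < 1)
    (hgenO : ∀ a : K, O.valuation a < 1 → O.valuation a ≤ O.valuation ϖ)
    (ht : ∀ i, (V i).valuation (t i) < 1)
    (hgen : ∀ i (z : F), (V i).valuation z < 1 → (V i).valuation z ≤ (V i).valuation (t i))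
    (hram : ∀ i, (V i).valuation (algebraMap K F ϖ) = (V i).valuation (t i) ^ e i)
    {k : Type*} [Field k] {κ : ι → Type*} [∀ i, Field (κ i)] [∀ i, Algebra k (κ i)]
    [∀ i, Module.Finite k (κ i)]
    (π : O →+* k) (ρ : ∀ i, V i →+* κ i)
    (hπ : Function.Surjective π) (hρ : ∀ i, Function.Surjective (ρ i))
    (hc : ∀ i (a : O), ρ i ⟨algebraMap K F a, ((hover i) a).2 a.2⟩ = algebraMap k (κ i) (π a))
    (hdeg : ∑ i, e i * Module.finrank k (κ i) = Module.finrank K F)
    {y : F} (hy : ∀ i, y ∈ V i) :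
    ∃ hN : Algebra.norm K y ∈ O,
      π ⟨Algebra.norm K y, hN⟩ = ∏ i, Algebra.norm k (ρ i ⟨y, hy i⟩) ^ e i := by
  classical
  have hker : ∀ i (z : V i), ρ i z = 0 ↔ (V i).valuation (z : F) < 1 :=
    fun i z => map_eq_zero_iff_val_lt_one (ρ i) (hρ i) z
  have hkerO : ∀ a : O, π a = 0 ↔ O.valuation (a : K) < 1 :=
    fun a => map_eq_zero_iff_val_lt_one π hπ a
  -- idempotents
  choose E hE1 hE2 using fun i => exists_idem_multi V hinc i
  have hEmem : ∀ i i', E i ∈ V i' := fun i i' => by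
    by_cases hi : i' = i
    · subst hi
      have : E i' = 1 - (1 - E i') := by ring
      rw [this]
      exact sub_mem (one_mem _) (((V i').valuation_le_one_iff _).1 (hE1 i').le)
    · exact ((V i').valuation_le_one_iff _).1 (hE2 i i' hi).le
  have hρE : ∀ i, ρ i ⟨E i, hEmem i i⟩ = 1 := fun i => by
    have h0 : ρ i (1 - ⟨E i, hEmem i i⟩) = 0 := (hker i _).2 (hE1 i)
    rw [map_sub, map_one, sub_eq_zero] at h0
    exact h0.symm
  set N := ∑ i, e i with hNdef
  have hNe : ∀ i, e i ≤ N := fun i =>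
    Finset.single_le_sum (f := e) (fun _ _ => Nat.zero_le _) (Finset.mem_univ i)
  have hEN : ∀ i i', i' ≠ i → (V i').valuation (E i ^ N) ≤ (V i').valuation (algebraMap K F ϖ) :=
    fun i i' hi => by
      rw [map_pow, hram]
      calc (V i').valuation (E i) ^ N ≤ (V i').valuation (t i') ^ N :=
            pow_le_pow_left₀ zero_le (hgen i' _ (hE2 i i' hi)) N
        _ ≤ (V i').valuation (t i') ^ e i' := pow_le_pow_of_le_one zero_le (ht i').le (hNe i')
  -- residue bases and their lifts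
  let J : ι → Type := fun i => Fin (Module.finrank k (κ i))
  let b₀ : ∀ i, Module.Basis (J i) k (κ i) := fun i => Module.finBasis k (κ i)
  choose z hz using fun (i : ι) (j : J i) => hρ i (b₀ i j)
  choose G hG1 hG2 using fun (i : ι) (j : J i) => exists_lift_multi V hinc i (z i j).2
  have hρG : ∀ i j, ρ i ⟨G i j, hG1 i j i⟩ = b₀ i j := fun i j => by
    rw [← hz i j, ← sub_eq_zero, ← map_sub, hker]
    exact hG2 i j
  -- uniformisers in the intersection
  choose u hu1 hu2 hu3 using fun i => exists_multiplier V (t i)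
  have htmem : ∀ i, t i ∈ V i := fun i => ((V i).valuation_le_one_iff _).1 (ht i).le
  have hρu : ∀ i, ρ i ⟨u i, hu1 i i⟩ ≠ 0 := fun i h0 => by
    have := (hker i _).1 h0
    simp only at this
    rw [hu3 i i (htmem i)] at this
    exact lt_irrefl _ this
  -- the adapted family
  let r : (i : ι) → J i → Fin (e i) → F := fun i j s => E i ^ N * G i j * u i ^ (s : ℕ)
  have hrmem : ∀ i j s, r i j s ∈ V i := fun i j s =>
    mul_mem (mul_mem (pow_mem (hEmem i i) _) (hG1 i j i)) (pow_mem (hu1 i i) _)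
  have hρr : ∀ i j s, ρ i ⟨r i j s, hrmem i j s⟩ =
      ρ i ⟨u i, hu1 i i⟩ ^ (s : ℕ) * b₀ i j := fun i j (s : Fin (e i)) => by
    have e1 : (⟨r i j s, hrmem i j s⟩ : V i) =
        ⟨E i, hEmem i i⟩ ^ N * ⟨G i j, hG1 i j i⟩ * ⟨u i, hu1 i i⟩ ^ (s : ℕ) := rfl
    rw [e1, map_mul, map_mul, map_pow, map_pow, hρE, one_pow, one_mul, hρG, mul_comm]
  have hfam : RamFamily O ϖ V t e r :=
    { isOver := hover
      ne_zero := hϖ0
      unifO := hϖ
      genO := hgenO
      unif := ht
      ram := hram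
      r_mem := hrmem
      small := by
        intro i j s i' hi
        have e1 : r i j s * t i ^ (s : ℕ) = E i ^ N * (G i j * (t i * u i) ^ (s : ℕ)) := by
          simp only [r]; ring
        rw [e1, map_mul]
        calc (V i').valuation (E i ^ N) * (V i').valuation (G i j * (t i * u i) ^ (s : ℕ))
            ≤ (V i').valuation (algebraMap K F ϖ) * 1 := by
              gcongr
              · exact hEN i i' hi
              · exact ((V i').valuation_le_one_iff _).2
                  (mul_mem (hG1 i j i') (pow_mem (hu2 i i') _))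
          _ = _ := mul_one _
      indep := by
        intro i s a ha hsmall j
        have hmem : (∑ j, algebraMap K F (a j) * r i j s) ∈ V i :=
          ((V i).valuation_le_one_iff _).1 hsmall.le
        have h0 : ρ i ⟨_, hmem⟩ = 0 := (hker i ⟨_, hmem⟩).2 hsmall
        have e1 : (⟨_, hmem⟩ : V i) =
            ∑ j, (⟨algebraMap K F (a j), ((hover i) (a j)).2 (ha j)⟩ : V i) *
              ⟨r i j s, hrmem i j s⟩ := by
          apply Subtype.ext
          rw [AddSubmonoidClass.coe_finsetSum]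
          simp only [MulMemClass.coe_mul]
        rw [e1, map_sum] at h0
        have h1 : ρ i ⟨u i, hu1 i i⟩ ^ (s : ℕ) * ∑ j, π ⟨a j, ha j⟩ • b₀ i j = 0 := by
          rw [← h0, Finset.mul_sum]
          refine Finset.sum_congr rfl fun j _ => ?_
          rw [map_mul, hρr, Algebra.smul_def, ← hc]
          ring
        have h2 : ∑ j, π ⟨a j, ha j⟩ • b₀ i j = 0 :=
          (mul_eq_zero.1 h1).resolve_left (pow_ne_zero _ (hρu i))
        have := Fintype.linearIndependent_iff.1 (b₀ i).linearIndependent _ h2 j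
        exact (hkerO ⟨a j, ha j⟩).1 this }
  refine hfam.norm_red (J := J) ?_ π ρ (fun a ha => (hkerO a).2 ha)
    (fun i z hz => (hker i z).2 hz) hc
    (fun i s => (b₀ i).map (mulLinearEquiv k (ρ i ⟨u i, hu1 i i⟩ ^ (s : ℕ))
      (pow_ne_zero _ (hρu i)))) ?_ hy
  · rw [← hdeg]
    refine Finset.sum_congr rfl fun i _ => ?_
    rw [Fintype.card_fin]
  · intro i j s
    rw [hρr, Module.Basis.map_apply, mulLinearEquiv_apply]

end Main

end Fermat.Agent.S36.H253

end
-- ===== PACK-END S36/H253/NormRam.lean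

-- ===== PACK-BEGIN A2/Mod/H372/Branch.lean
section




/-!
# A2 / MODASM S3, generic part (helper372): the branches are Dedekind

Mathlib + `A2.H372` only.

* `dimensionLEOne_quotient_of_integral` : `B` integral over `R[y]` (`R` local), `p` a prime of
  `B` containing the maximal ideal of `R` ⟹ every nonzero prime of `B ⧸ p` is maximal;
* `isDedekindDomain_quotient_of_integral` : if moreover `B` is noetherian and `B ⧸ p` is
  integrally closed, then `B ⧸ p` is a Dedekind domain;
* `exists_isBranchUnif_of_quotient` : local generators of the branch `B ⧸ P` in terms of a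
  parametrisation `α : A → B` onto `B ⧸ P`;
* `KronCong.sup_isRadical_of_quotient` : transversality (`SSChart.transversal`) from the
  semilinear Kronecker congruences when the branch `B ⧸ P₁` is Dedekind.
-/

set_option autoImplicit false
set_option linter.style.haveILetI false

namespace Fermat.Agent.A2.Mod.H372

open Polynomial

section Dim

variable {R B : Type*} [CommRing R] [IsLocalRing R] [CommRing B]

/-- Every nonzero prime of `B ⧸ p` is maximal. -/
theorem dimensionLEOne_quotient_of_integral (c : R →+* B) (y : B)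
    (hint : ∀ b : B, (Polynomial.eval₂RingHom c y).IsIntegralElem b)
    (p : Ideal B) [p.IsPrime] (hp : ∀ r ∈ IsLocalRing.maximalIdeal R, c r ∈ p) :
    Ring.DimensionLEOne (B ⧸ p) := by
  let k := IsLocalRing.ResidueField R
  let ι : k →+* B ⧸ p :=
    Ideal.Quotient.lift (IsLocalRing.maximalIdeal R) ((Ideal.Quotient.mk p).comp c)
      (fun r hr => Ideal.Quotient.eq_zero_iff_mem.mpr (hp r hr))
  let θ : Polynomial k →+* B ⧸ p := Polynomial.eval₂RingHom ι (Ideal.Quotient.mk p y)
  have hθ : θ.IsIntegral := by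
    intro z
    obtain ⟨b, rfl⟩ := Ideal.Quotient.mk_surjective z
    have h1 := isIntegralElem_map (Polynomial.eval₂RingHom c y) (Ideal.Quotient.mk p) (hint b)
    refine isIntegralElem_of_forall_exists _ _ (fun f => ?_) h1
    refine ⟨f.map (IsLocalRing.residue R), ?_⟩
    show Polynomial.eval₂ ι (Ideal.Quotient.mk p y) (f.map (IsLocalRing.residue R)) = _
    rw [Polynomial.eval₂_map, RingHom.comp_apply, Polynomial.coe_eval₂RingHom,
      Polynomial.hom_eval₂]
    rfl
  letI := θ.toAlgebra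
  haveI : Algebra.IsIntegral (Polynomial k) (B ⧸ p) := ⟨hθ⟩
  refine ⟨fun {𝔮} h𝔮 hprime => ?_⟩
  have hne : 𝔮.comap (algebraMap (Polynomial k) (B ⧸ p)) ≠ ⊥ := fun h =>
    h𝔮 (Ideal.eq_bot_of_comap_eq_bot h)
  have hmax : (𝔮.comap (algebraMap (Polynomial k) (B ⧸ p))).IsMaximal :=
    Ring.DimensionLEOne.maximalOfPrime hne (Ideal.comap_isPrime _ _)
  exact Ideal.isMaximal_of_isIntegral_of_isMaximal_comap 𝔮 hmax

/-- The branch `B ⧸ p` is a Dedekind domain. -/
theorem isDedekindDomain_quotient_of_integral [IsNoetherianRing B] (c : R →+* B) (y : B)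
    (hint : ∀ b : B, (Polynomial.eval₂RingHom c y).IsIntegralElem b)
    (p : Ideal B) [p.IsPrime] (hp : ∀ r ∈ IsLocalRing.maximalIdeal R, c r ∈ p)
    [IsIntegrallyClosed (B ⧸ p)] : IsDedekindDomain (B ⧸ p) :=
  { dimensionLEOne_quotient_of_integral c y hint p hp with
    toIsDomain := inferInstance }

end Dim

section Branch

variable {A B : Type*} [CommRing A] [CommRing B]

open Fermat.Agent.A2.H372 in
/-- If the branch `B ⧸ P` is a Dedekind domain and `α` is onto `B ⧸ P`, every prime `n ⊇ P` has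
a local generator in the sense of `IsBranchUnif`. -/
theorem exists_isBranchUnif_of_quotient (α : A →+* B) (P n : Ideal B) [n.IsPrime]
    (hP : P ≤ n) [IsDedekindDomain (B ⧸ P)] (hα : ∀ b : B, ∃ a : A, b - α a ∈ P) :
    ∃ a₀ : A, IsBranchUnif α P n a₀ := by
  let ψ : B ⧸ P →+* B ⧸ n := Ideal.Quotient.factor hP
  let m : Ideal (B ⧸ P) := RingHom.ker ψ
  have : m.IsPrime := RingHom.ker_isPrime ψ
  have hmem : ∀ b : B, Ideal.Quotient.mk P b ∈ m ↔ b ∈ n := by
    intro b
    simp only [m, ψ, RingHom.mem_ker, Ideal.Quotient.factor_mk, Ideal.Quotient.eq_zero_iff_mem]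
  have hmk : ∀ z : B ⧸ P, ∃ a : A, z = Ideal.Quotient.mk P (α a) := by
    intro z
    obtain ⟨b, rfl⟩ := Ideal.Quotient.mk_surjective z
    obtain ⟨a, ha⟩ := hα b
    exact ⟨a, Ideal.Quotient.eq.mpr ha⟩
  obtain ⟨a₀', ha₀', hgen⟩ := H372.exists_local_generator_of_isDedekindDomain _ m
  obtain ⟨a₀, rfl⟩ := hmk a₀'
  refine ⟨a₀, (hmem _).mp ha₀', fun a ha => ?_⟩
  obtain ⟨s', y', hs', hsy'⟩ := hgen _ ((hmem (α a)).mpr ha)
  obtain ⟨s, rfl⟩ := hmk s'
  obtain ⟨y, rfl⟩ := hmk y'
  refine ⟨s, y, fun h => hs' ((hmem _).mpr h), ?_⟩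
  have h0 : Ideal.Quotient.mk P (α s * α a - α a₀ * α y) = 0 := by
    rw [map_sub, map_mul, map_mul, hsy', sub_self]
  exact Ideal.Quotient.eq_zero_iff_mem.mp h0

open Fermat.Agent.A2.H372 in
/-- **Transversality** when the first branch `B ⧸ P₁` is a Dedekind domain. -/
theorem sup_isRadical_of_quotient {q : ℕ} (hq : 2 ≤ q) {α β : A →+* B}
    {P₁ P₂ : Ideal B} (h : KronCong q α β P₁ P₂) (hα : ∀ b : B, ∃ a : A, b - α a ∈ P₁)
    [IsDedekindDomain (B ⧸ P₁)] : (P₁ ⊔ P₂).IsRadical :=
  h.sup_isRadical hq hα fun n hn hP₁ _ =>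
    haveI := hn.isPrime
    exists_isBranchUnif_of_quotient α P₁ n hP₁ hα

end Branch

end Fermat.Agent.A2.Mod.H372

end
-- ===== PACK-END A2/Mod/H372/Branch.lean

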