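import Mathlib
import Fermat.Prelude.Def_ModularForm_HeckeOperatorForms
import Fermat.Prelude.Thm_ModularFormClass_qCoeff_heckeT
import Fermat.Prelude.Thm_ModularForm_sturm_bound_Gamma0
import Fermat.Prelude.Def_ModularCurve_HeckeOperator
import Fermat.Prelude.Def_FLTPrelim_Ramification
import Fermat.Prelude.Def_ModularCurve_ArithmeticGalois
import Fermat.Agent.Pack.S36.E7L1
import Fermat.Agent.Pack.S36.E5L3
import Fermat.Agent.Pack.S36.E8L1
import Fermat.Agent.Pack.S36.E5L2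
import Fermat.Agent.Pack.S36.E8L2
import Fermat.Agent.Pack.S36.E1L1
import Fermat.Agent.Pack.S36.E5L0
import Fermat.Agent.Pack.S36.E8L3
import Fermat.Agent.Pack.S36.E1L0
import Fermat.Agent.Pack.S36.E8L0
import Fermat.Agent.Pack.S36.E2L0
import Fermat.Agent.Pack.S36.E6L3
import Fermat.Agent.Pack.S36.E2L3
import Fermat.Agent.Pack.S36.E6L0
import Fermat.Agent.Pack.S36.E0L3
import Fermat.Agent.Pack.S36.E9L3
import Fermat.Agent.Pack.S36.E7L3
import Fermat.Agent.Pack.S36.E9L1

-- ===== PACK-BEGIN S29/H942/MeroRootGlue.lean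
section


/-!
# Gluing meromorphic `p`-th roots along an exhaustion by simply connected open sets
-/

set_option autoImplicit false

noncomputable section

open Filter Topology Set Complex MeromorphicOn Function

namespace Fermat.Agent.S29.H942

/-- Existence of a root in normal form on a simply connected open set on which `f` has finitely
many zeros and poles. -/
theorem exists_isNFRootOn_of_finite {f : ℂ → ℂ} {U : Set ℂ}
    (hUc : IsSimplyConnected U) (hU : IsOpen U) (hf : MeromorphicOn f U)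
    (h₂f : ∀ x ∈ U, meromorphicOrderAt f x ≠ ⊤) (h₃f : (divisor f U).support.Finite)
    {p : ℕ} (hp : p ≠ 0) (hdiv : ∀ x ∈ U, (p : ℤ) ∣ (meromorphicOrderAt f x).untop₀) :
    ∃ h : ℂ → ℂ, IsNFRootOn h f U p := by
  have hdiv' : ∀ z, (p : ℤ) ∣ divisor f U z := by
    intro z
    by_cases hz : z ∈ U
    · rw [divisor_apply hf hz]
      exact hdiv z hz
    · have : divisor f U z = 0 := by
        rw [divisor_def]
        simp [hz]
      rw [this]
      exact dvd_zero _
  obtain ⟨h, hh, hpow⟩ := exists_meromorphicOn_pow_eq_of_finite hUc hU hf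
    (fun u => h₂f u u.2) h₃f hp hdiv'
  exact ⟨_, isNFRootOn_toMeromorphicNFOn hU hh hpow⟩

/-- Multiplying a root by a root of unity gives a root. -/
lemma IsNFRootOn.const_mul {h f : ℂ → ℂ} {V : Set ℂ} {p : ℕ} (hh : IsNFRootOn h f V p)
    {ζ : ℂ} (hζ : ζ ^ p = 1) (hζ0 : ζ ≠ 0) : IsNFRootOn (fun z => ζ * h z) f V p := by
  refine ⟨fun x hx => ?_, fun x hx => ?_⟩
  · have := (hh.1 hx).smul_analytic (g := fun _ : ℂ => ζ) analyticAt_const hζ0
    exact this
  · filter_upwards [hh.2 x hx] with y hy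
    simp only [Pi.pow_apply] at hy ⊢
    rw [mul_pow, hζ, one_mul, hy]

/-- A root (of a function of finite order) on a nonempty open set is non-zero somewhere. -/
lemma IsNFRootOn.exists_ne_zero {h f : ℂ → ℂ} {V : Set ℂ} {p : ℕ} (hp : p ≠ 0)
    (hh : IsNFRootOn h f V p) (hV : IsOpen V) (hne : V.Nonempty)
    (hf : ∀ x ∈ V, meromorphicOrderAt f x ≠ ⊤) : ∃ y ∈ V, h y ≠ 0 := by
  obtain ⟨x, hx⟩ := hne
  have h1 := hh.eventually_ne_zero hp hx (hf x hx)
  have h2 : V ∈ 𝓝[≠] x := mem_nhdsWithin_of_mem_nhds (hV.mem_nhds hx)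
  obtain ⟨y, hy1, hy2⟩ := (h1.and h2).exists
  exact ⟨y, hy2, hy1⟩

/-- **Gluing.** -/
theorem exists_isNFRootOn_iUnion {f : ℂ → ℂ} {p : ℕ} (hp : p ≠ 0) (V : ℕ → Set ℂ)
    (hVo : ∀ n, IsOpen (V n)) (hVsc : ∀ n, IsSimplyConnected (V n)) (hmono : Monotone V)
    (hf : ∀ n, MeromorphicOn f (V n)) (hford : ∀ n, ∀ x ∈ V n, meromorphicOrderAt f x ≠ ⊤)
    (hfin : ∀ n, (divisor f (V n)).support.Finite)
    (hdiv : ∀ n, ∀ x ∈ V n, (p : ℤ) ∣ (meromorphicOrderAt f x).untop₀) :
    ∃ h : ℂ → ℂ, IsNFRootOn h f (⋃ n, V n) p := by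
  classical
  -- roots on each `V n`
  have h1 : ∀ n, ∃ h : ℂ → ℂ, IsNFRootOn h f (V n) p := fun n =>
    exists_isNFRootOn_of_finite (hVsc n) (hVo n) (hf n) (hford n) (hfin n) hp (hdiv n)
  choose H hH using h1
  have hpc : ∀ n, IsPreconnected (V n) := fun n =>
    (hVsc n).isPathConnected.isConnected.isPreconnected
  have hV0 : ∀ n, V 0 ⊆ V n := fun n => hmono (Nat.zero_le n)
  -- normalisation against `H 0` on `V 0`
  have h2 : ∀ n, ∃ ζ : ℂ, ζ ^ p = 1 ∧ ∀ x ∈ V 0, H n x = ζ * H 0 x := fun n =>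
    IsNFRootOn.exists_eq_mul hp (hVo 0) (hpc 0) (hford 0) (hH 0) ((hH n).mono (hV0 n))
  choose ζ hζ hζH using h2
  have hζ0 : ∀ n, ζ n ≠ 0 := by
    intro n h0
    have := hζ n
    rw [h0, zero_pow hp] at this
    exact zero_ne_one this
  set H' : ℕ → ℂ → ℂ := fun n z => (ζ n)⁻¹ * H n z with hH'def
  have hH' : ∀ n, IsNFRootOn (H' n) f (V n) p := fun n =>
    (hH n).const_mul (by rw [inv_pow, hζ n, inv_one]) (inv_ne_zero (hζ0 n))
  have hH'0 : ∀ n, ∀ x ∈ V 0, H' n x = H 0 x := by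
    intro n x hx
    simp only [hH'def]
    rw [hζH n x hx, ← mul_assoc, inv_mul_cancel₀ (hζ0 n), one_mul]
  obtain ⟨y₀, hy₀V, hy₀⟩ := (hH 0).exists_ne_zero hp (hVo 0) (hVsc 0).nonempty (hford 0)
  -- compatibility
  have h3 : ∀ n m, n ≤ m → ∀ x ∈ V n, H' m x = H' n x := by
    intro n m hnm x hx
    obtain ⟨ξ, -, hξH⟩ := IsNFRootOn.exists_eq_mul hp (hVo n) (hpc n) (hford n) (hH' n)
      ((hH' m).mono (hmono hnm))
    have h4 := hξH y₀ (hV0 n hy₀V)
    rw [hH'0 m y₀ hy₀V, hH'0 n y₀ hy₀V] at h4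
    have h5 : ξ = 1 := by
      have : (ξ - 1) * H 0 y₀ = 0 := by rw [sub_mul, one_mul, ← h4, sub_self]
      rcases mul_eq_zero.1 this with h | h
      · exact sub_eq_zero.1 h
      · exact absurd h hy₀
    rw [hξH x hx, h5, one_mul]
  -- the glued function
  set idx : ℂ → ℕ := fun z => if hz : ∃ n, z ∈ V n then Nat.find hz else 0 with hidx
  set h : ℂ → ℂ := fun z => H' (idx z) z with hh
  have h6 : ∀ m, ∀ x ∈ V m, h x = H' m x := by
    intro m x hx
    have hex : ∃ n, x ∈ V n := ⟨m, hx⟩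
    have hi : idx x = Nat.find hex := by simp only [hidx, dif_pos hex]
    have hle : idx x ≤ m := by rw [hi]; exact Nat.find_min' hex hx
    have hmem : x ∈ V (idx x) := by rw [hi]; exact Nat.find_spec hex
    exact (h3 (idx x) m hle x hmem).symm
  refine ⟨h, fun x hx => ?_, fun x hx => ?_⟩
  · obtain ⟨m, hm⟩ := mem_iUnion.1 hx
    have heq : h =ᶠ[𝓝 x] H' m := by
      filter_upwards [(hVo m).mem_nhds hm] with y hy using h6 m y hy
    exact (meromorphicNFAt_congr heq).2 ((hH' m).1 hm)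
  · obtain ⟨m, hm⟩ := mem_iUnion.1 hx
    have hVn : V m ∈ 𝓝[≠] x := mem_nhdsWithin_of_mem_nhds ((hVo m).mem_nhds hm)
    filter_upwards [(hH' m).2 x hm, hVn] with y hy hyV
    simp only [Pi.pow_apply] at hy ⊢
    rw [h6 m y hyV, hy]

end Fermat.Agent.S29.H942

end
end
-- ===== PACK-END S29/H942/MeroRootGlue.lean

-- ===== PACK-BEGIN S28/H326/Hecke.lean
section
/-
S28 / helper326: the analytic input `HeckeInput p` from the Prelude Hecke operator `T_p`
on level-one modular forms and the level-one structure theorem (helper505).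
-/






set_option autoImplicit false
set_option linter.unusedSectionVars false

noncomputable section

namespace Fermat.Agent.S28.H326

open ModularCurve HahnSeries UpperHalfPlane ModularForm MatrixGroups

/-! ### `T_p` on level one forms -/

theorem gamma0_one_coe :
    ((CongruenceSubgroup.Gamma0 1 : Subgroup SL(2, ℤ)) : Subgroup (GL (Fin 2) ℝ)) = 𝒮ℒ := by
  have h : CongruenceSubgroup.Gamma0 1 = ⊤ := by
    ext g
    simp [CongruenceSubgroup.Gamma0_mem, Subsingleton.elim (_ : ZMod 1) 0]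
  rw [h, MonoidHom.range_eq_map]

/-- `T_p f` as a level one modular form. -/
def heckeForm (k : ℤ) {p : ℕ} (hp : p.Prime) (f : ModularForm 𝒮ℒ k) : ModularForm 𝒮ℒ k where
  toFun := ModularForm.heckeT k p ⇑f
  slash_action_eq' := fun γ hγ =>
    ModularForm.heckeT_slash_eq_self_of_mem_Gamma0 (N := 1) k hp
      (by rw [Nat.dvd_one]; exact hp.one_lt.ne')
      (fun γ' hγ' => SlashInvariantFormClass.slash_action_eq f γ' (gamma0_one_coe ▸ hγ'))
      γ (gamma0_one_coe.symm ▸ hγ)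
  holo' := ModularForm.mdifferentiable_heckeT (ModularFormClass.holo f) k p
  bdd_at_cusps' := fun hc => ModularFormClass.isBoundedAt_heckeT f p hc

theorem coe_heckeForm (k : ℤ) {p : ℕ} (hp : p.Prime) (f : ModularForm 𝒮ℒ k) :
    ⇑(heckeForm k hp f) = ModularForm.heckeT k p ⇑f := rfl

theorem qExpansion_heckeForm_coeff (k : ℤ) {p : ℕ} (hp : p.Prime) (f : ModularForm 𝒮ℒ k)
    (n : ℕ) :
    (qExpansion 1 (heckeForm k hp f)).coeff n =
      (qExpansion 1 f).coeff (n * p) +
        if p ∣ n then (p : ℂ) ^ (k - 1) * (qExpansion 1 f).coeff (n / p) else 0 := by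
  have := ModularFormClass.qCoeff_heckeT f one_mem_strictPeriods_SL hp.ne_zero n
  simpa [ModularFormClass.qCoeff, coe_heckeForm, ModularForm.coeffHeckeT] using this

/-! ### The forms `E₄^{3a} Δ^r` -/

/-- `Δ` as a modular form -/
def deltaForm : ModularForm 𝒮ℒ 12 := CuspForm.toModularFormₗ CuspForm.discriminant

theorem qExpansion_deltaForm : qExpansion 1 deltaForm = H505.deltaC :=
  H505.qExpansion_discriminant_eq_deltaC

/-- `E₄^{3a} Δ^r` -/
def monoE4Delta (a r : ℕ) (k : ℤ) (hk : ((3 * a : ℕ) : ℤ) * 4 + ((r : ℕ) : ℤ) * 12 = k) :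
    ModularForm 𝒮ℒ k :=
  ModularForm.mcast hk ((E₄.pow (3 * a)).mul (deltaForm.pow r))

theorem toC_EZ : toC EZ = H505.e4C ^ 3 := by
  rw [EZ, map_pow, H505.e4C]

theorem toC_DZ : toC DZ = H505.deltaC := by
  rw [DZ, map_mul, PowerSeries.map_X, H505.deltaC, dedekindEtaUnit, map_pow]

theorem qExpansion_monoE4Delta (a r : ℕ) (k : ℤ)
    (hk : ((3 * a : ℕ) : ℤ) * 4 + ((r : ℕ) : ℤ) * 12 = k) :
    qExpansion 1 (monoE4Delta a r k hk) = toC (EZ ^ a * DZ ^ r) := by
  rw [monoE4Delta, ModularForm.qExpansion_mcast,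
    ModularForm.qExpansion_mul one_pos one_mem_strictPeriods_SL,
    ModularForm.qExpansion_pow one_pos one_mem_strictPeriods_SL,
    ModularForm.qExpansion_pow one_pos one_mem_strictPeriods_SL,
    H505.qExpansion_E₄_eq_e4C, qExpansion_deltaForm, map_mul, map_pow, map_pow, toC_EZ, toC_DZ,
    ← pow_mul]

/-! ### Integrality by leading terms, over `ℂ` -/

theorem C_mul_coeff (c : ℂ) (x : LaurentSeries ℂ) (n : ℤ) :
    (HahnSeries.C c * x).coeff n = c * x.coeff n := by
  rw [HahnSeries.C_mul_eq_smul, HahnSeries.coeff_smul, smul_eq_mul]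

theorem aeval_jC_coeff (Q : Polynomial ℂ) {n : ℕ} (hn : Q.natDegree ≤ n) :
    (Polynomial.aeval (jqModC ℂ) Q).coeff (-(n : ℤ)) = Q.coeff n := by
  rw [H505.aeval_laurent_eq_eval₂, Polynomial.eval₂_eq_sum_range' _ (Nat.lt_succ_of_le hn),
    HahnSeries.coeff_sum, Finset.sum_range_succ]
  rw [Finset.sum_eq_zero, zero_add, C_mul_coeff, coeff_jqModC_pow_self, mul_one]
  intro i hi
  rw [C_mul_coeff, coeff_jqModC_pow_of_lt ℂ (by have := Finset.mem_range.mp hi; omega),
    mul_zero]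

theorem exists_int_poly_of_kap (Q : Polynomial ℂ) (x : LaurentSeries ℤ)
    (h : Polynomial.aeval (jqModC ℂ) Q = kap x) :
    ∃ Q' : Polynomial ℤ, Polynomial.aeval (jqModC ℤ) Q' = x := by
  suffices H : ∀ d : ℕ, ∀ (Q : Polynomial ℂ) (x : LaurentSeries ℤ), Q.natDegree < d →
      Polynomial.aeval (jqModC ℂ) Q = kap x →
        ∃ Q' : Polynomial ℤ, Polynomial.aeval (jqModC ℤ) Q' = x from
    H (Q.natDegree + 1) Q x (Nat.lt_succ_self _) h
  intro d
  induction d with
  | zero => intro Q x hQ; omega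
  | succ d ih =>
    intro Q x hQ hx
    have hle : Q.natDegree ≤ d := Nat.lt_succ_iff.mp hQ
    have hlead := aeval_jC_coeff Q hle
    rw [hx, coeffMap_coeff] at hlead
    set m : ℤ := x.coeff (-(d : ℤ)) with hm
    set Q1 : Polynomial ℂ := Q - Polynomial.C (Q.coeff d) * Polynomial.X ^ d with hQ1
    have hx1 : Polynomial.aeval (jqModC ℂ) Q1 = kap (x - (m : LaurentSeries ℤ) * jqModC ℤ ^ d) := by
      rw [hQ1, map_sub, map_mul, Polynomial.aeval_C, map_pow, Polynomial.aeval_X, hx, map_sub,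
        map_mul, map_pow, coeffMap_jqModC, ← hlead]
      congr 2
      rw [H505.algebraMap_laurent_eq_C, map_intCast]
      simp
    by_cases h0 : Q1 = 0
    · refine ⟨Polynomial.C m * Polynomial.X ^ d, ?_⟩
      rw [h0, map_zero] at hx1
      have h1 : x - (m : LaurentSeries ℤ) * jqModC ℤ ^ d = 0 :=
        kap_injective (by rw [← hx1, map_zero])
      rw [map_mul, Polynomial.aeval_C, map_pow, Polynomial.aeval_X]
      rw [sub_eq_zero] at h1
      rw [h1]
      simp
    · have hdeg : Q1.natDegree < d := by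
        have h1 : Q1.natDegree ≤ d := by
          refine (Polynomial.natDegree_sub_le _ _).trans (max_le hle ?_)
          exact Polynomial.natDegree_C_mul_X_pow_le _ _
        rcases Nat.lt_or_ge Q1.natDegree d with h2 | h2
        · exact h2
        · have h3 : Q1.natDegree = d := le_antisymm h1 h2
          have h4 : Q1.coeff d = 0 := by simp [hQ1]
          have h5 : Q1.leadingCoeff = 0 := by rw [Polynomial.leadingCoeff, h3, h4]
          exact absurd (Polynomial.leadingCoeff_eq_zero.mp h5) h0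
      obtain ⟨Q', hQ'⟩ := ih Q1 _ hdeg hx1
      refine ⟨Q' + Polynomial.C m * Polynomial.X ^ d, ?_⟩
      rw [map_add, hQ', map_mul, Polynomial.aeval_C, map_pow, Polynomial.aeval_X]
      simp

/-! ### The Hecke input -/

theorem kap_heckeL_eq_gen (p : ℕ) [NeZero p] (hp : p.Prime) (φ : PowerSeries ℤ) (k' : ℕ) (k : ℤ)
    (hk' : k = (k' : ℤ)) (F : ModularForm 𝒮ℒ k) (hF : qExpansion 1 F = toC φ) :
    kap (heckeL p k' φ) =
      (p : LaurentSeries ℂ) * ofPS (qExpansion 1 (heckeForm k hp F)) := by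
  have hp0 : (p : ℂ) ≠ 0 := Nat.cast_ne_zero.mpr hp.ne_zero
  ext n
  rw [heckeL]
  simp only [map_add, map_mul, map_pow, map_natCast, coeffMap_qExpand, kap_ofPS, toC_UpZ]
  rw [HahnSeries.coeff_add, ← Nat.cast_pow, natCast_mul_coeff, natCast_mul_coeff,
    natCast_mul_coeff]
  rcases lt_or_ge n 0 with hn | hn
  · rw [ofPS_coeff_neg _ hn, ofPS_coeff_neg _ hn, mul_zero, add_zero]
    have := cBase_coeff_neg p (toC φ) hn
    rw [cBase, RingHom.comp_apply] at this
    rw [this, mul_zero]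
  · lift n to ℕ using hn
    rw [ofPS_coeff_nat, ofPS_coeff_nat, qExpansion_heckeForm_coeff, hF, coeff_Up]
    by_cases hdvd : p ∣ n
    · obtain ⟨m, rfl⟩ := hdvd
      rw [if_pos (dvd_mul_right p m)]
      have h1 : ((p * m : ℕ) : ℤ) = (p : ℤ) * m := by push_cast; ring
      rw [h1, qExpand_coeff_mul, ofPS_coeff_nat, Nat.mul_div_cancel_left m hp.pos]
      have h2 : (p : ℂ) * (p : ℂ) ^ (k - 1) = ((p ^ k' : ℕ) : ℂ) := by
        rw [hk', ← zpow_one_add₀ hp0]
        push_cast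
        rw [show (1 : ℤ) + ((k' : ℤ) - 1) = (k' : ℤ) by ring, zpow_natCast]
      rw [mul_add, ← mul_assoc, h2]
      ring
    · rw [if_neg hdvd, add_zero]
      have h1 : ¬ (p : ℤ) ∣ (n : ℤ) := by exact_mod_cast hdvd
      rw [qExpand_coeff_of_not_dvd p _ h1, mul_zero, zero_add]

theorem kap_heckeL_eq (p : ℕ) [NeZero p] (hp : p.Prime) (a r : ℕ) (k : ℤ)
    (hk : ((3 * a : ℕ) : ℤ) * 4 + ((r : ℕ) : ℤ) * 12 = k) :
    kap (heckeL p (12 * (a + r)) (EZ ^ a * DZ ^ r)) =
      (p : LaurentSeries ℂ) *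
        ofPS (qExpansion 1 (heckeForm k hp (monoE4Delta a r k hk))) :=
  kap_heckeL_eq_gen p hp _ _ k (by rw [← hk]; push_cast; ring) _ (qExpansion_monoE4Delta a r k hk)

/-- **The Hecke input holds.** -/
theorem heckeInput (p : ℕ) [NeZero p] (hp : p.Prime) : HeckeInput p := by
  intro a r
  have hk : ((3 * a : ℕ) : ℤ) * 4 + ((r : ℕ) : ℤ) * 12 = (12 * ((a + r : ℕ) : ℤ)) := by
    push_cast; ring
  obtain ⟨P, -, -, hP⟩ := H505.levelOne_structure (a + r) _ rfl
    (heckeForm _ hp (monoE4Delta a r _ hk))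
  have h1 := kap_heckeL_eq p hp a r _ hk
  rw [hP] at h1
  have hD : HahnSeries.ofPowerSeries ℤ ℂ H505.deltaC = kap deltaZ := by
    rw [deltaZ, kap_ofPS, toC_DZ]
  have h2 : Polynomial.aeval (jqModC ℂ) (Polynomial.C (p : ℂ) * P) =
      kap (heckeL p (12 * (a + r)) (EZ ^ a * DZ ^ r) * deltaInvZ ^ (a + r)) := by
    have h3 : kap deltaZ * kap deltaInvZ = 1 := by
      rw [← map_mul, deltaZ_mul_deltaInvZ, map_one]
    have h4 : (p : LaurentSeries ℂ) = HahnSeries.C (p : ℂ) := by simp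
    have h5 : kap (heckeL p (12 * (a + r)) (EZ ^ a * DZ ^ r) * deltaInvZ ^ (a + r)) =
        kap (heckeL p (12 * (a + r)) (EZ ^ a * DZ ^ r)) * kap deltaInvZ ^ (a + r) := by
      rw [map_mul, map_pow]
    have h6 : Polynomial.aeval (jqModC ℂ) (Polynomial.C (p : ℂ) * P) =
        HahnSeries.C (p : ℂ) * Polynomial.aeval (jqModC ℂ) P := by
      rw [map_mul, Polynomial.aeval_C, H505.algebraMap_laurent_eq_C]
    rw [h5, h6, h1, hD, h4]
    calc HahnSeries.C (p : ℂ) * Polynomial.aeval (jqModC ℂ) P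
        = HahnSeries.C (p : ℂ) * Polynomial.aeval (jqModC ℂ) P *
            (kap deltaZ * kap deltaInvZ) ^ (a + r) := by rw [h3, one_pow, mul_one]
      _ = _ := by rw [mul_pow]; ring
  obtain ⟨Q', hQ'⟩ := exists_int_poly_of_kap _ _ h2
  refine ⟨Q', ?_⟩
  rw [hQ', mul_assoc, ← mul_pow, mul_comm deltaInvZ, deltaZ_mul_deltaInvZ, one_pow, mul_one]

end Fermat.Agent.S28.H326

end
end
-- ===== PACK-END S28/H326/Hecke.lean

-- ===== PACK-BEGIN S18/H333/Sturm.lean
section






/-!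
# S18 / c3 (helper333): the formal level-2 / level-3 identities via the Sturm bound
-/

set_option autoImplicit false
set_option linter.unusedSectionVars false

noncomputable section

namespace Fermat.Agent.S18.H333

open UpperHalfPlane ModularForm CongruenceSubgroup MatrixGroups EisensteinSeries

/-- coefficient map `ℤ⟦X⟧ → ℂ⟦X⟧` -/
abbrev toCs : PowerSeries ℤ →+* PowerSeries ℂ := PowerSeries.map (Int.castRingHom ℂ)

theorem toCs_injective : Function.Injective toCs := by
  intro f g h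
  ext n
  have := congrArg (PowerSeries.coeff n) h
  simpa using this

theorem toCs_zsmul (c : ℤ) (f : PowerSeries ℤ) : toCs (c • f) = (c : ℂ) • toCs f := by
  ext n
  rw [PowerSeries.coeff_map, map_zsmul, PowerSeries.coeff_smul, PowerSeries.coeff_map]
  simp

theorem toCs_Vser (p : ℕ) (f : PowerSeries ℤ) : toCs (Vser p f) = Vser p (toCs f) :=
  Vser_map _ _ _

/-- `Δ` as a level-one modular form -/
def DeltaMF : ModularForm 𝒮ℒ 12 := CuspForm.toModularFormₗ CuspForm.discriminant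

theorem qExpansion_E4 : qExpansion 1 E₄ = toCs Ez :=
  Fermat.Agent.S28.H505.qExpansion_E₄_eq_e4C

theorem qExpansion_DeltaMF : qExpansion 1 DeltaMF = toCs Dz := by
  have h : qExpansion 1 DeltaMF = Fermat.Agent.S28.H505.deltaC :=
    Fermat.Agent.S28.H505.qExpansion_discriminant_eq_deltaC
  rw [h, Fermat.Agent.S28.H505.deltaC, Dz, map_mul, map_pow, PowerSeries.map_X]

variable (p : ℕ) [NeZero p]

local notation "Γp" => (Gamma0 p : Subgroup (GL (Fin 2) ℝ))

theorem qExp_restr {k : ℤ} (H : ModularForm 𝒮ℒ k) :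
    qExpansion 1 (restr p H) = qExpansion 1 H := rfl

theorem qExp_mul {a b : ℤ} (f : ModularForm Γp a) (g : ModularForm Γp b) :
    qExpansion 1 (f.mul g) = qExpansion 1 f * qExpansion 1 g :=
  ModularForm.qExpansion_mul one_pos (_root_.Fermat.Agent.S18.H333.one_mem_strictPeriods_Gamma0 p) f g

theorem qExp_add {a : ℤ} (f g : ModularForm Γp a) :
    qExpansion 1 (⇑(f + g)) = qExpansion 1 f + qExpansion 1 g := by
  rw [FunLike.coe_add]
  exact ModularForm.qExpansion_add one_pos (_root_.Fermat.Agent.S18.H333.one_mem_strictPeriods_Gamma0 p) f g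

theorem qExp_sub {a : ℤ} (f g : ModularForm Γp a) :
    qExpansion 1 (⇑(f - g)) = qExpansion 1 f - qExpansion 1 g := by
  rw [FunLike.coe_sub]
  exact ModularForm.qExpansion_sub one_pos (_root_.Fermat.Agent.S18.H333.one_mem_strictPeriods_Gamma0 p) f g

theorem qExp_smul {a : ℤ} (c : ℂ) (f : ModularForm Γp a) :
    qExpansion 1 (⇑(c • f)) = c • qExpansion 1 f := by
  rw [FunLike.coe_smul]
  exact ModularForm.qExpansion_smul one_pos (_root_.Fermat.Agent.S18.H333.one_mem_strictPeriods_Gamma0 p) c f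

theorem qExp_pow {a : ℤ} (f : ModularForm Γp a) (n : ℕ) :
    qExpansion 1 (f.pow n) = qExpansion 1 f ^ n :=
  ModularForm.qExpansion_pow one_pos (_root_.Fermat.Agent.S18.H333.one_mem_strictPeriods_Gamma0 p) f n

/-- the Sturm bound in the form we use: vanishing of `q`-expansion coefficients below `n`
with `k * ψ(p) / 12 < n` forces a form whose `q`-expansion comes from `ℤ⟦X⟧` to vanish. -/
theorem series_eq_zero_of_sturm {k : ℤ} (F : ModularForm Γp k) (Φ : PowerSeries ℤ)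
    (hF : qExpansion 1 F = toCs Φ) (n : ℕ)
    (hn : (k * ((Gamma0 p).index : ℤ)).toNat / 12 < n) (hΦ : tl n Φ = tzero n) : Φ = 0 := by
  have hzero : F = 0 := by
    refine ModularForm.sturm_bound_Gamma0 p F fun m hm => ?_
    rw [hF, PowerSeries.coeff_map, (tl_eq_tzero_iff n Φ).mp hΦ m (lt_of_le_of_lt hm hn), map_zero]
  apply toCs_injective
  rw [map_zero, ← hF, hzero]
  exact qExpansion_zero 1

/-! ### level 2 -/

theorem index_Gamma0_two : (Gamma0 2).index = 3 := by
  rw [Fermat.Agent.S20.Comb.index_Gamma0]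
  decide +kernel

theorem index_Gamma0_three : (Gamma0 3).index = 4 := by
  rw [Fermat.Agent.S20.Comb.index_Gamma0]
  decide +kernel

/-- `E₄³` on `Γ₀(p)`, weight 12 -/
def EcubeF : ModularForm Γp 12 := ((restr p E₄).pow 3).mcast (by norm_num)

/-- `E₄(p·)³` on `Γ₀(p)`, weight 12 -/
def EpcubeF : ModularForm Γp 12 := ((raise p E₄).pow 3).mcast (by norm_num)

/-- `Δ` on `Γ₀(p)` -/
def XF : ModularForm Γp 12 := restr p DeltaMF

/-- `Δ(p·)` on `Γ₀(p)` -/
def YF : ModularForm Γp 12 := raise p DeltaMF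

theorem qExp_EcubeF : qExpansion 1 (EcubeF p) = toCs (Ez ^ 3) := by
  rw [EcubeF, ModularForm.qExpansion_mcast, qExp_pow, qExp_restr, qExpansion_E4, map_pow]

theorem qExp_EpcubeF : qExpansion 1 (EpcubeF p) = toCs (Vser p Ez ^ 3) := by
  rw [EpcubeF, ModularForm.qExpansion_mcast, qExp_pow, qExpansion_raise, qExpansion_E4, map_pow,
    toCs_Vser]

theorem qExp_XF : qExpansion 1 (XF p) = toCs Dz := by
  rw [XF, qExp_restr, qExpansion_DeltaMF]

theorem qExp_YF : qExpansion 1 (YF p) = toCs (Vser p Dz) := by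
  rw [YF, qExpansion_raise, qExpansion_DeltaMF, toCs_Vser]

/-- the weight-36 form `E³ X Y - (X + c Y)³` -/
def cubicF (E : ModularForm Γp 12) (c : ℤ) : ModularForm Γp ((12 + 12) + 12) :=
  ((E.mul (XF p)).mul (YF p)) -
    (((XF p + (c : ℂ) • YF p).mul (XF p + (c : ℂ) • YF p)).mul (XF p + (c : ℂ) • YF p))

theorem qExp_cubicF (E : ModularForm Γp 12) (c : ℤ) (e : PowerSeries ℤ)
    (hE : qExpansion 1 E = toCs e) :
    qExpansion 1 (cubicF p E c) =
      toCs (e * Dz * Vser p Dz - (Dz + c • Vser p Dz) ^ 3) := by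
  rw [cubicF, qExp_sub, qExp_mul, qExp_mul, qExp_mul, qExp_mul, qExp_add, qExp_smul, hE, qExp_XF,
    qExp_YF, map_sub, map_mul, map_mul, map_pow, map_add, toCs_zsmul]
  ring

theorem Phi2a_eq_zero : Phi2a = 0 := by
  refine series_eq_zero_of_sturm 2 (cubicF 2 (EcubeF 2) 256) Phi2a ?_ 10 ?_ tl_Phi2a
  · rw [qExp_cubicF 2 _ 256 _ (qExp_EcubeF 2)]; rfl
  · rw [index_Gamma0_two]; decide

theorem Phi2b_eq_zero : Phi2b = 0 := by
  refine series_eq_zero_of_sturm 2 (cubicF 2 (EpcubeF 2) 16) Phi2b ?_ 10 ?_ tl_Phi2b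
  · rw [qExp_cubicF 2 _ 16 _ (qExp_EpcubeF 2)]; rfl
  · rw [index_Gamma0_two]; decide

/-! ### level 3 -/

/-- the weight-48 form `A² - X Y (E - B)²`, `A = X² + c₂ X Y + c₄ Y²`, `B = c₁ X + c₃ Y` -/
def quarticF (E : ModularForm Γp 12) (c₁ c₂ c₃ c₄ : ℤ) :
    ModularForm Γp ((12 + 12) + (12 + 12)) :=
  (((XF p).mul (XF p) + (c₂ : ℂ) • (XF p).mul (YF p) + (c₄ : ℂ) • (YF p).mul (YF p)).mul
    ((XF p).mul (XF p) + (c₂ : ℂ) • (XF p).mul (YF p) + (c₄ : ℂ) • (YF p).mul (YF p))) -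
  ((XF p).mul (YF p)).mul
    ((E - ((c₁ : ℂ) • XF p + (c₃ : ℂ) • YF p)).mul (E - ((c₁ : ℂ) • XF p + (c₃ : ℂ) • YF p)))

theorem qExp_quarticF (E : ModularForm Γp 12) (c₁ c₂ c₃ c₄ : ℤ) (e : PowerSeries ℤ)
    (hE : qExpansion 1 E = toCs e) :
    qExpansion 1 (quarticF p E c₁ c₂ c₃ c₄) =
      toCs ((Dz * Dz + c₂ • (Dz * Vser p Dz) + c₄ • (Vser p Dz * Vser p Dz)) *
          (Dz * Dz + c₂ • (Dz * Vser p Dz) + c₄ • (Vser p Dz * Vser p Dz)) -
        (Dz * Vser p Dz) * ((e - (c₁ • Dz + c₃ • Vser p Dz)) * (e - (c₁ • Dz + c₃ • Vser p Dz)))) := by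
  simp only [quarticF, qExp_sub, qExp_mul, qExp_add, qExp_smul, hE, qExp_XF, qExp_YF, map_sub,
    map_mul, map_add, toCs_zsmul]

theorem Phi3a_eq_zero : Phi3a = 0 := by
  refine series_eq_zero_of_sturm 3 (quarticF 3 (EcubeF 3) 756 196830 19131876 387420489) Phi3a
    ?_ 17 ?_ tl_Phi3a
  · rw [qExp_quarticF 3 _ _ _ _ _ _ (qExp_EcubeF 3)]; rfl
  · rw [index_Gamma0_three]; decide

theorem Phi3b_eq_zero : Phi3b = 0 := by
  refine series_eq_zero_of_sturm 3 (quarticF 3 (EpcubeF 3) 36 270 756 729) Phi3b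
    ?_ 17 ?_ tl_Phi3b
  · rw [qExp_quarticF 3 _ _ _ _ _ _ (qExp_EpcubeF 3)]; rfl
  · rw [index_Gamma0_three]; decide

end Fermat.Agent.S18.H333

end
end
-- ===== PACK-END S18/H333/Sturm.lean

-- ===== PACK-BEGIN S18/H107/T3Qep.lean
section






/-!
# helper107 — S18 / M3-T : QEP for the Hauptmodul `t = t₃` of `X₀(3)` (case `ℓ = 2`)

Input: the relation `j * t ^ 3 = (t + 27) * (t + 243) ^ 3`, `3⁻¹ ∈ R`, QEP for the charts of `j`
and `j⁻¹`.  Output: QEP for the charts of `t` and `t⁻¹`.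
-/

set_option autoImplicit false

namespace Fermat.Agent.S18.H107

open Polynomial Fermat.Agent.S18.Alg

variable {Ω : Type*} [Field Ω]

/-- The Hauptmodul relation for `X₀(3)` together with the needed side conditions. -/
structure HauptT3107 (Fc : Subfield Ω) (R V : Subring Ω) (j t : Ω) : Prop where
  rel : j * t ^ 3 = (t + 27) * (t + 243) ^ 3
  three_inv : (3 : Ω)⁻¹ ∈ R
  three_ne : (3 : Ω) ≠ 0
  j_ne : j ≠ 0
  t_mem_Fc : t ∈ Fc
  t_mem_V : t ∈ V
  t27_inv_mem_V : (t + 27)⁻¹ ∈ V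

namespace HauptT3107

variable {Fc : Subfield Ω} {R V : Subring Ω} {j t : Ω}

theorem c27_ne (h : HauptT3107 Fc R V j t) : (27 : Ω) ≠ 0 := by
  have : (27 : Ω) = 3 ^ 3 := by norm_num
  rw [this]
  exact pow_ne_zero _ h.three_ne

theorem c243_ne (h : HauptT3107 Fc R V j t) : (243 : Ω) ≠ 0 := by
  have : (243 : Ω) = 3 ^ 5 := by norm_num
  rw [this]
  exact pow_ne_zero _ h.three_ne

theorem c6561_ne (h : HauptT3107 Fc R V j t) : (6561 : Ω) ≠ 0 := by
  have : (6561 : Ω) = 3 ^ 8 := by norm_num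
  rw [this]
  exact pow_ne_zero _ h.three_ne

theorem cBig_ne (h : HauptT3107 Fc R V j t) : (387420489 : Ω) ≠ 0 := by
  have : (387420489 : Ω) = 3 ^ 18 := by norm_num
  rw [this]
  exact pow_ne_zero _ h.three_ne

theorem inv27_mem (h : HauptT3107 Fc R V j t) : (27 : Ω)⁻¹ ∈ R := by
  have := R.pow_mem h.three_inv 3
  have e : ((3 : Ω)⁻¹) ^ 3 = (27 : Ω)⁻¹ := by norm_num
  rwa [e] at this

theorem inv6561_mem (h : HauptT3107 Fc R V j t) : (6561 : Ω)⁻¹ ∈ R := by
  have := R.pow_mem h.three_inv 8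
  have e : ((3 : Ω)⁻¹) ^ 8 = (6561 : Ω)⁻¹ := by norm_num
  rwa [e] at this

theorem invBig_mem (h : HauptT3107 Fc R V j t) : (387420489 : Ω)⁻¹ ∈ R := by
  have := R.pow_mem h.three_inv 18
  have e : ((3 : Ω)⁻¹) ^ 18 = (387420489 : Ω)⁻¹ := by norm_num
  rwa [e] at this

theorem t_ne (h : HauptT3107 Fc R V j t) : t ≠ 0 := by
  intro ht
  have := h.rel
  rw [ht] at this
  have h0 : (27 : Ω) * 243 ^ 3 = 0 := by
    have e : ((0 : Ω) + 27) * (0 + 243) ^ 3 = 27 * 243 ^ 3 := by ring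
    rw [← e, ← this]
    ring
  rcases mul_eq_zero.1 h0 with h1 | h1
  · exact h.c27_ne h1
  · exact h.c243_ne (pow_eq_zero_iff (by norm_num) |>.1 h1)

theorem t27_ne (h : HauptT3107 Fc R V j t) : t + 27 ≠ 0 := by
  intro ht
  have := h.rel
  rw [ht] at this
  have h0 : j * t ^ 3 = 0 := by rw [this]; ring
  rcases mul_eq_zero.1 h0 with hj | ht0
  · exact h.j_ne hj
  · exact h.t_ne (pow_eq_zero_iff (by norm_num) |>.1 ht0)

theorem t243_ne (h : HauptT3107 Fc R V j t) : t + 243 ≠ 0 := by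
  intro ht
  have := h.rel
  rw [ht] at this
  have h0 : j * t ^ 3 = 0 := by rw [this]; ring
  rcases mul_eq_zero.1 h0 with hj | ht0
  · exact h.j_ne hj
  · exact h.t_ne (pow_eq_zero_iff (by norm_num) |>.1 ht0)

/-- `t` is integral over `R[j]`. -/
theorem t_int (h : HauptT3107 Fc R V j t) : t ∈ intCl107 (polyRing R j) := by
  refine mem_intCl_of_quartic107 _ t (756 - j) 196830 19131876 387420489 ?_ (ofNat_mem _ _)
    (ofNat_mem _ _) (ofNat_mem _ _) ?_
  · exact Subring.sub_mem _ (ofNat_mem _ _) (self_mem_polyRing107 R j)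
  · linear_combination -h.rel

/-- `h₁ = t / (t + 27)` is integral over `R[j⁻¹]`. -/
theorem h_int (h : HauptT3107 Fc R V j t) : t * (t + 27)⁻¹ ∈ intCl107 (polyRing R j⁻¹) := by
  have hj' := self_mem_polyRing107 R j⁻¹
  refine mem_intCl_of_quartic107 _ _ (-1 - 13824 * j⁻¹) (46656 * j⁻¹) (-(52488 * j⁻¹))
    (19683 * j⁻¹) ?_ ?_ ?_ ?_ ?_
  · exact Subring.sub_mem _ (Subring.neg_mem _ (Subring.one_mem _))
      (Subring.mul_mem _ (ofNat_mem _ _) hj')
  · exact Subring.mul_mem _ (ofNat_mem _ _) hj'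
  · exact Subring.neg_mem _ (Subring.mul_mem _ (ofNat_mem _ _) hj')
  · exact Subring.mul_mem _ (ofNat_mem _ _) hj'
  · have hj := h.j_ne
    have ht := h.t27_ne
    field_simp
    linear_combination (-27 : Ω) * h.rel

/-- `t⁻¹` is integral over `R[j]` (uses `3⁻¹ ∈ R`). -/
theorem tinv_int (h : HauptT3107 Fc R V j t) : t⁻¹ ∈ intCl107 (polyRing R j) := by
  have hB := le_polyRing107 R j h.invBig_mem
  refine mem_intCl_of_quartic107 _ _ (19131876 * (387420489 : Ω)⁻¹) (196830 * (387420489 : Ω)⁻¹)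
    ((756 - j) * (387420489 : Ω)⁻¹) ((387420489 : Ω)⁻¹) ?_ ?_ ?_ hB ?_
  · exact Subring.mul_mem _ (ofNat_mem _ _) hB
  · exact Subring.mul_mem _ (ofNat_mem _ _) hB
  · exact Subring.mul_mem _ (Subring.sub_mem _ (ofNat_mem _ _) (self_mem_polyRing107 R j)) hB
  · have ht := h.t_ne
    have hc := h.cBig_ne
    field_simp
    linear_combination -h.rel

theorem open1_fin (h : HauptT3107 Fc R V j t) : OpenData107 Fc R V t j t 1 where
  g_mem := self_mem_polyRing107 R t
  e_mem_Fc := Fc.one_mem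
  e_mem_V := V.one_mem
  e_int := Subring.one_mem _
  xe_int := by rw [mul_one]; exact h.t_int
  y_loc := ⟨3, by
    rw [h.rel]
    have ht := self_mem_polyRing107 R t
    exact le_intCl107 _ (Subring.mul_mem _ (Subring.add_mem _ ht (ofNat_mem _ _))
      (Subring.pow_mem _ (Subring.add_mem _ ht (ofNat_mem _ _)) 3))⟩
  e_inv := ⟨1, Subring.one_mem _, 0, by simp⟩

theorem open2_fin (h : HauptT3107 Fc R V j t) :
    OpenData107 Fc R V t j⁻¹ ((t + 27) * (t + 243)) (27 * (t + 27)⁻¹) where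
  g_mem := by
    have ht := self_mem_polyRing107 R t
    exact Subring.mul_mem _ (Subring.add_mem _ ht (ofNat_mem _ _))
      (Subring.add_mem _ ht (ofNat_mem _ _))
  e_mem_Fc := Fc.mul_mem (ofNat_mem _ _)
    (Fc.inv_mem (Fc.add_mem h.t_mem_Fc (ofNat_mem _ _)))
  e_mem_V := V.mul_mem (ofNat_mem _ _) h.t27_inv_mem_V
  e_int := by
    have e : 27 * (t + 27)⁻¹ = 1 - t * (t + 27)⁻¹ := by
      have ht := h.t27_ne
      field_simp
      ring
    rw [e]
    exact Subring.sub_mem _ (Subring.one_mem _) h.h_int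
  xe_int := by
    have e : t * (27 * (t + 27)⁻¹) = 27 * (t * (t + 27)⁻¹) := by ring
    rw [e]
    exact Subring.mul_mem _ (ofNat_mem _ _) h.h_int
  y_loc := ⟨3, by
    have e : j⁻¹ * ((t + 27) * (t + 243)) ^ 3 = t ^ 3 * (t + 27) ^ 2 := by
      have hj := h.j_ne
      field_simp
      linear_combination (-(t + 27) ^ 2) * h.rel
    rw [e]
    have ht := self_mem_polyRing107 R t
    exact le_intCl107 _ (Subring.mul_mem _ (Subring.pow_mem _ ht 3)
      (Subring.pow_mem _ (Subring.add_mem _ ht (ofNat_mem _ _)) 2))⟩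
  e_inv := ⟨(t + 27) * (27 : Ω)⁻¹,
    le_intCl107 _ (Subring.mul_mem _ (Subring.add_mem _ (self_mem_polyRing107 R t) (ofNat_mem _ _))
      (le_polyRing107 R t h.inv27_mem)), 0, by
    have ht := h.t27_ne
    have hc := h.c27_ne
    field_simp⟩

theorem open1_inf (h : HauptT3107 Fc R V j t) : OpenData107 Fc R V t⁻¹ j t⁻¹ 1 where
  g_mem := self_mem_polyRing107 R t⁻¹
  e_mem_Fc := Fc.one_mem
  e_mem_V := V.one_mem
  e_int := Subring.one_mem _
  xe_int := by rw [mul_one]; exact h.tinv_int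
  y_loc := ⟨1, by
    have e : j * t⁻¹ ^ 1 = (1 + 27 * t⁻¹) * (1 + 243 * t⁻¹) ^ 3 := by
      have ht := h.t_ne
      field_simp
      linear_combination h.rel
    rw [e]
    have hs := self_mem_polyRing107 R t⁻¹
    exact le_intCl107 _ (Subring.mul_mem _
      (Subring.add_mem _ (Subring.one_mem _) (Subring.mul_mem _ (ofNat_mem _ _) hs))
      (Subring.pow_mem _ (Subring.add_mem _ (Subring.one_mem _)
        (Subring.mul_mem _ (ofNat_mem _ _) hs)) 3))⟩
  e_inv := ⟨1, Subring.one_mem _, 0, by simp⟩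

theorem open2_inf (h : HauptT3107 Fc R V j t) :
    OpenData107 Fc R V t⁻¹ j⁻¹ ((1 + 27 * t⁻¹) * (1 + 243 * t⁻¹)) (t * (t + 27)⁻¹) where
  g_mem := by
    have hs := self_mem_polyRing107 R t⁻¹
    exact Subring.mul_mem _
      (Subring.add_mem _ (Subring.one_mem _) (Subring.mul_mem _ (ofNat_mem _ _) hs))
      (Subring.add_mem _ (Subring.one_mem _) (Subring.mul_mem _ (ofNat_mem _ _) hs))
  e_mem_Fc := Fc.mul_mem h.t_mem_Fc (Fc.inv_mem (Fc.add_mem h.t_mem_Fc (ofNat_mem _ _)))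
  e_mem_V := V.mul_mem h.t_mem_V h.t27_inv_mem_V
  e_int := h.h_int
  xe_int := by
    have e : t⁻¹ * (t * (t + 27)⁻¹) = (1 - t * (t + 27)⁻¹) * (27 : Ω)⁻¹ := by
      have ht := h.t_ne
      have ht' := h.t27_ne
      have hc := h.c27_ne
      field_simp
      ring
    rw [e]
    exact Subring.mul_mem _ (Subring.sub_mem _ (Subring.one_mem _) h.h_int)
      (le_intCl107 _ (le_polyRing107 R j⁻¹ h.inv27_mem))
  y_loc := ⟨3, by
    have e : j⁻¹ * ((1 + 27 * t⁻¹) * (1 + 243 * t⁻¹)) ^ 3 = t⁻¹ * (1 + 27 * t⁻¹) ^ 2 := by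
      have hj := h.j_ne
      have ht := h.t_ne
      field_simp
      linear_combination (-(t + 27) ^ 2) * h.rel
    rw [e]
    have hs := self_mem_polyRing107 R t⁻¹
    exact le_intCl107 _ (Subring.mul_mem _ hs (Subring.pow_mem _
      (Subring.add_mem _ (Subring.one_mem _) (Subring.mul_mem _ (ofNat_mem _ _) hs)) 2))⟩
  e_inv := ⟨1 + 27 * t⁻¹, le_intCl107 _ (Subring.add_mem _ (Subring.one_mem _)
      (Subring.mul_mem _ (ofNat_mem _ _) (self_mem_polyRing107 R t⁻¹))), 0, by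
    have ht := h.t_ne
    have ht' := h.t27_ne
    field_simp⟩

/-- **QEP for the chart of `t₃`.** -/
theorem qep_fin (h : HauptT3107 Fc R V j t) {w : Ω} (hw : w ∈ Fc)
    (q₁ : Qep107 Fc R V w j) (q₂ : Qep107 Fc R V w j⁻¹) : Qep107 Fc R V w t := by
  have h6 := le_polyRing107 R t h.inv6561_mem
  refine qep_transfer107 (a := -((t + 270) * (6561 : Ω)⁻¹)) (b := (6561 : Ω)⁻¹) hw q₁ q₂
    h.open1_fin h.open2_fin
    (Subring.neg_mem _ (Subring.mul_mem _
      (Subring.add_mem _ (self_mem_polyRing107 R t) (ofNat_mem _ _)) h6)) h6 ?_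
  have hc := h.c6561_ne
  field_simp
  ring

/-- **QEP for the chart of `t₃⁻¹`.** -/
theorem qep_inf (h : HauptT3107 Fc R V j t) {w : Ω} (hw : w ∈ Fc)
    (q₁ : Qep107 Fc R V w j) (q₂ : Qep107 Fc R V w j⁻¹) : Qep107 Fc R V w t⁻¹ := by
  refine qep_transfer107 (a := -(270 + 6561 * t⁻¹)) (b := 1) hw q₁ q₂ h.open1_inf h.open2_inf
    (Subring.neg_mem _ (Subring.add_mem _ (ofNat_mem _ _)
      (Subring.mul_mem _ (ofNat_mem _ _) (self_mem_polyRing107 R t⁻¹)))) (Subring.one_mem _) ?_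
  ring

end HauptT3107

end Fermat.Agent.S18.H107

end
-- ===== PACK-END S18/H107/T3Qep.lean

-- ===== PACK-BEGIN S18/H438/Front/Divisor.lean
section





/-!
# S18 / ALG-FRONT (helper438), part 8: `H754.DivisibleDivisor` for a chart

* `divisibleDivisor_of_places` (generic, Mathlib + `H754/KummerSpec`): `B` a Noetherian
  integrally closed domain with fraction field `F`, `ϖ ∈ B` prime, `u ≡ 1 mod ϖ`
  (`H754.OneModPi ϖ u`), and at every discrete valuation subring `W ⊇ B[1/ϖ]` of `F` the element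
  `u` is a unit times an `m`-th power.  Then `H754.DivisibleDivisor B m u`.
* `GoodModelFront.exists_pow_unit_of_dvr` : the place hypothesis from the divisor hypothesis of
  `Alg.AlgMainStatement` (over valuation subrings of `Ω` containing `Lc`), via
  `H845.exists_pow_unit_of_forall_over`.
* `GoodModelFront.divisibleDivisor` : `H754.DivisibleDivisor B m u` for ANY realisation `B` of a
  chart of a good model (`B ⊇ R`, `ϖ ↦ w`).
-/

set_option autoImplicit false
set_option linter.style.haveILetI false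
set_option linter.unusedSectionVars false

noncomputable section

namespace Fermat.Agent.S18.H438

/-- **`DivisibleDivisor` from the places over `B[1/ϖ]`.** -/
theorem divisibleDivisor_of_places {B : Type*} [CommRing B] [IsDomain B] [IsNoetherianRing B]
    [IsIntegrallyClosed B] {F : Type*} [Field F] [Algebra B F] [IsFractionRing B F]
    (ϖ : B) (hϖ : Prime ϖ) (u : F) (hu1 : H754.OneModPi ϖ u) (m : ℕ)
    (hplace : ∀ W : ValuationSubring F, IsDiscreteValuationRing W →
      (∀ b : B, algebraMap B F b ∈ W) → (algebraMap B F ϖ)⁻¹ ∈ W →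
      ∃ s : F, s ≠ 0 ∧ u * s ^ m ∈ W ∧ (u * s ^ m)⁻¹ ∈ W) :
    H754.DivisibleDivisor B m u := by
  have hinj : Function.Injective (algebraMap B F) := IsFractionRing.injective B F
  obtain ⟨a₀, s₀, hs₀, has₀, hu₀⟩ := hu1
  have ha₀ : a₀ ∉ Ideal.span {ϖ} := by
    intro ha
    apply hs₀
    have := Ideal.sub_mem _ ha has₀
    simpa using this
  have hu0 : u ≠ 0 := by
    rintro rfl
    rw [zero_mul] at hu₀
    have : a₀ = 0 := hinj (by rw [← hu₀, map_zero])
    exact ha₀ (this ▸ Ideal.zero_mem _)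
  intro 𝔭 h𝔭 hht
  haveI := h𝔭
  by_cases hϖ𝔭 : ϖ ∈ 𝔭
  · -- `𝔭 = (ϖ)`
    have hP : (Ideal.span {ϖ} : Ideal B).IsPrime :=
      (Ideal.span_singleton_prime hϖ.ne_zero).2 hϖ
    have hle : Ideal.span {ϖ} ≤ 𝔭 := (Ideal.span_singleton_le_iff_mem _).2 hϖ𝔭
    have hne : (Ideal.span {ϖ} : Ideal B) ≠ ⊥ := by
      rw [Ne, Ideal.span_singleton_eq_bot]; exact hϖ.ne_zero
    have h1 : 𝔭.height ≤ (Ideal.span {ϖ} : Ideal B).height := by
      rw [hht, Order.one_le_iff_pos, pos_iff_ne_zero, Ne, Ideal.height_eq_zero_iff_eq_bot]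
      exact hne
    have heq : Ideal.span {ϖ} = 𝔭 := Ideal.eq_of_le_of_height_le (h := hle) (h_height := h1)
    refine ⟨1, a₀, s₀, ?_, ?_, ?_⟩
    · rw [← heq]; exact ha₀
    · rw [← heq]; exact hs₀
    · rw [one_pow, mul_one]; exact hu₀
  · -- a horizontal prime: `B_𝔭` is a DVR containing `B[1/ϖ]`
    obtain ⟨W, hW, hmem⟩ := exists_dvr_of_height_one (F := F) 𝔭 hht
    have h1𝔭 : (1 : B) ∉ 𝔭 := fun h => h𝔭.ne_top ((Ideal.eq_top_iff_one _).2 h)
    have hBW : ∀ b : B, algebraMap B F b ∈ W := fun b =>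
      (hmem _).2 ⟨b, 1, h1𝔭, by rw [map_one, mul_one]⟩
    have hϖ0 : algebraMap B F ϖ ≠ 0 := fun h => hϖ.ne_zero (hinj (by rw [h, map_zero]))
    have hϖW : (algebraMap B F ϖ)⁻¹ ∈ W :=
      (hmem _).2 ⟨1, ϖ, hϖ𝔭, by rw [inv_mul_cancel₀ hϖ0, map_one]⟩
    obtain ⟨t, ht0, h1, h2⟩ := hplace W hW hBW hϖW
    obtain ⟨a, s, hs, has⟩ := (hmem _).1 h1
    obtain ⟨a', s', hs', has'⟩ := (hmem _).1 h2
    refine ⟨t, a, s, ?_, hs, has⟩
    intro ha
    have hut : u * t ^ m ≠ 0 := mul_ne_zero hu0 (pow_ne_zero _ ht0)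
    have h3 : algebraMap B F (a * a') = algebraMap B F (s * s') := by
      rw [map_mul, map_mul, ← has, ← has']
      field_simp
    have h4 : a * a' = s * s' := hinj h3
    have h5 : s * s' ∈ 𝔭 := h4 ▸ 𝔭.mul_mem_right _ ha
    rcases h𝔭.mem_or_mem h5 with h | h
    · exact hs h
    · exact hs' h

open Alg

variable {Ω : Type*} [Field Ω] {Lc Ec Fc : Subfield Ω} {R V : Subring Ω} {w x : Ω}
  {S : Finset Ω}

namespace GoodModelFront

variable (G : GoodModel Lc Ec Fc R V w x S)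

include G

/-- A valuation subring of `Fc` containing `R` and `w⁻¹` contains `Ec`. -/
theorem ec_mem_of_inv_mem (W : ValuationSubring Fc) (hRW : ∀ r ∈ Rf Fc R, r ∈ W)
    (hwW : (wf G)⁻¹ ∈ W) : ∀ e : Fc, (e : Ω) ∈ Ec → e ∈ W := by
  intro e he
  rcases G.R_total e he with h1 | h1
  · exact hRW e h1
  · by_cases he0 : e = 0
    · rw [he0]; exact W.zero_mem
    have he0' : (e : Ω) ≠ 0 := fun h => he0 (Subtype.ext h)
    obtain ⟨n, -, hn⟩ := G.w_discrete (e : Ω)⁻¹ h1 (inv_ne_zero he0')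
    have hmem : (e⁻¹ * (wf G)⁻¹ ^ n)⁻¹ ∈ W := hRW _ hn
    have hw0 : wf G ≠ 0 := wf_ne_zero G
    have : e = (e⁻¹ * (wf G)⁻¹ ^ n)⁻¹ * (wf G)⁻¹ ^ n := by
      field_simp
    rw [this]
    exact mul_mem hmem (pow_mem hwW n)

/-- **The place hypothesis** of `divisibleDivisor_of_places` from the divisor hypothesis of
`Alg.AlgMainStatement`. -/
theorem exists_pow_unit_of_dvr {u : Fc} (hu : u ≠ 0) {m : ℕ}
    (hdiv : ∀ O : ValuationSubring Ω, (∀ a ∈ Lc, a ∈ O) →
      ∃ t : Ω, t ≠ 0 ∧ (u : Ω) * t ^ m ∈ O ∧ ((u : Ω) * t ^ m)⁻¹ ∈ O)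
    (W : ValuationSubring Fc) (hW : IsDiscreteValuationRing W)
    (hRW : ∀ r ∈ Rf Fc R, r ∈ W) (hwW : (wf G)⁻¹ ∈ W) :
    ∃ s : Fc, s ≠ 0 ∧ u * s ^ m ∈ W ∧ (u * s ^ m)⁻¹ ∈ W := by
  haveI := G.charZero
  exact H845.exists_pow_unit_of_forall_over Lc Ec Fc G.E_le_F G.L_algebraic G.compositum hu hdiv W
    (ec_mem_of_inv_mem G W hRW hwW)

/-- **`DivisibleDivisor` for any realisation `B` of a chart of a good model.** -/
theorem divisibleDivisor {B : Type*} [CommRing B] [IsDomain B] [IsNoetherianRing B]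
    [IsIntegrallyClosed B] [Algebra B Fc] [IsFractionRing B Fc]
    (hRB : ∀ r ∈ Rf Fc R, ∃ b : B, algebraMap B Fc b = r)
    (ϖ : B) (hϖ : Prime ϖ) (hϖw : algebraMap B Fc ϖ = wf G)
    {u : Fc} (hu1 : H754.OneModPi ϖ u) {m : ℕ}
    (hdiv : ∀ O : ValuationSubring Ω, (∀ a ∈ Lc, a ∈ O) →
      ∃ t : Ω, t ≠ 0 ∧ (u : Ω) * t ^ m ∈ O ∧ ((u : Ω) * t ^ m)⁻¹ ∈ O) :
    H754.DivisibleDivisor B m u := by
  have hinj : Function.Injective (algebraMap B Fc) := IsFractionRing.injective B Fc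
  have hu0 : u ≠ 0 := by
    obtain ⟨a₀, s₀, hs₀, has₀, hu₀⟩ := hu1
    rintro rfl
    rw [zero_mul] at hu₀
    have : a₀ = 0 := hinj (by rw [← hu₀, map_zero])
    apply hs₀
    have := Ideal.sub_mem _ (this ▸ Ideal.zero_mem (Ideal.span {ϖ}) : a₀ ∈ Ideal.span {ϖ}) has₀
    simpa using this
  refine divisibleDivisor_of_places ϖ hϖ u hu1 m fun W hW hBW hϖW => ?_
  refine exists_pow_unit_of_dvr G hu0 hdiv W hW (fun r hr => ?_) (by rwa [hϖw] at hϖW)
  obtain ⟨b, hb⟩ := hRB r hr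
  rw [← hb]
  exact hBW b

end GoodModelFront

end Fermat.Agent.S18.H438

end
end
-- ===== PACK-END S18/H438/Front/Divisor.lean

-- ===== PACK-BEGIN S22/H262/IntMat.lean
section


set_option autoImplicit false

/-!
# Integer matrices of positive determinant inside `GL₂(ℝ)`; Hermite decomposition
-/

open Complex Filter Function Metric Set
open UpperHalfPlane hiding I
open scoped Real Topology Manifold ModularForm MatrixGroups

namespace Fermat.Agent.S22.H262

open Matrix.SpecialLinearGroup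

/-- Integer matrices of positive determinant, as a submonoid of `GL₂(ℝ)`. -/
def posInt : Submonoid (GL (Fin 2) ℝ) where
  carrier := {A | (∀ i j, ∃ m : ℤ, A i j = m) ∧ 0 < A.det.val}
  one_mem' := by
    refine ⟨fun i j => ?_, by simp⟩
    by_cases h : i = j
    · exact ⟨1, by simp [h]⟩
    · exact ⟨0, by simp [h]⟩
  mul_mem' := by
    rintro A B ⟨hA, hA'⟩ ⟨hB, hB'⟩
    refine ⟨fun i j => ?_, ?_⟩
    · obtain ⟨a0, ha0⟩ := hA i 0
      obtain ⟨a1, ha1⟩ := hA i 1
      obtain ⟨b0, hb0⟩ := hB 0 j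
      obtain ⟨b1, hb1⟩ := hB 1 j
      refine ⟨a0 * b0 + a1 * b1, ?_⟩
      simp only [Matrix.GeneralLinearGroup.coe_mul, Matrix.mul_apply, Fin.sum_univ_two, ha0, ha1,
        hb0, hb1]
      push_cast
      ring
    · rw [map_mul, Units.val_mul]
      exact mul_pos hA' hB'

theorem mem_posInt {A : GL (Fin 2) ℝ} :
    A ∈ posInt ↔ (∀ i j, ∃ m : ℤ, A i j = m) ∧ 0 < A.det.val := Iff.rfl

theorem det_pos_of_mem_posInt {A : GL (Fin 2) ℝ} (hA : A ∈ posInt) : 0 < A.det.val := hA.2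

theorem mapGL_mem_posInt (g : SL(2, ℤ)) : (mapGL ℝ g : GL (Fin 2) ℝ) ∈ posInt := by
  refine ⟨fun i j => ⟨g i j, by simp⟩, by simp⟩

/-- Integer vectors in `ℂ²`. -/
def Vint : Set (ℂ × ℂ) := {v | ∃ x y : ℤ, v = ((x : ℂ), (y : ℂ))}

theorem actV_mem_Vint {A : GL (Fin 2) ℝ} (hA : A ∈ posInt) {v : ℂ × ℂ} (hv : v ∈ Vint) :
    actV A v ∈ Vint := by
  obtain ⟨x, y, rfl⟩ := hv
  obtain ⟨a, ha⟩ := hA.1 0 0
  obtain ⟨b, hb⟩ := hA.1 0 1
  obtain ⟨c, hc⟩ := hA.1 1 0
  obtain ⟨d, hd⟩ := hA.1 1 1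
  refine ⟨a * x + b * y, c * x + d * y, ?_⟩
  simp only [actV, ha, hb, hc, hd]
  push_cast
  rfl

/-- The element of `GL₂(ℝ)` attached to an integer matrix with positive determinant. -/
noncomputable def glOfInt (M : Matrix (Fin 2) (Fin 2) ℤ) (hM : 0 < M.det) : GL (Fin 2) ℝ :=
  Matrix.GeneralLinearGroup.mkOfDetNeZero (M.map (Int.castRingHom ℝ)) (by
    have : (M.map (Int.castRingHom ℝ)).det = ((M.det : ℤ) : ℝ) := by
      rw [← RingHom.mapMatrix_apply, ← RingHom.map_det]
      rfl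
    rw [this]
    exact_mod_cast hM.ne')

theorem glOfInt_apply (M : Matrix (Fin 2) (Fin 2) ℤ) (hM : 0 < M.det) (i j : Fin 2) :
    (glOfInt M hM) i j = (M i j : ℝ) := rfl

theorem det_glOfInt (M : Matrix (Fin 2) (Fin 2) ℤ) (hM : 0 < M.det) :
    (glOfInt M hM).det.val = (M.det : ℝ) := by
  rw [Matrix.GeneralLinearGroup.val_det_apply]
  show (M.map (Int.castRingHom ℝ)).det = _
  rw [← RingHom.mapMatrix_apply, ← RingHom.map_det]
  rfl

theorem glOfInt_mem_posInt (M : Matrix (Fin 2) (Fin 2) ℤ) (hM : 0 < M.det) :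
    glOfInt M hM ∈ posInt :=
  ⟨fun i j => ⟨M i j, rfl⟩, by rw [det_glOfInt]; exact_mod_cast hM⟩

theorem exists_eq_glOfInt {A : GL (Fin 2) ℝ} (hA : A ∈ posInt) :
    ∃ (M : Matrix (Fin 2) (Fin 2) ℤ) (hM : 0 < M.det), A = glOfInt M hM := by
  choose m hm using hA.1
  let M : Matrix (Fin 2) (Fin 2) ℤ := Matrix.of m
  have hAM : (A : Matrix (Fin 2) (Fin 2) ℝ) = M.map (Int.castRingHom ℝ) := by
    ext i j
    simp [M, hm i j]
  have hdet : ((M.det : ℤ) : ℝ) = A.det.val := by
    rw [Matrix.GeneralLinearGroup.val_det_apply, hAM, ← RingHom.mapMatrix_apply,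
      ← RingHom.map_det]
    rfl
  have hM : 0 < M.det := by
    have := hA.2
    rw [← hdet] at this
    exact_mod_cast this
  refine ⟨M, hM, ?_⟩
  ext i j
  rw [glOfInt_apply]
  exact hm i j

/-- Hermite decomposition of integer matrices with nonzero determinant. -/
theorem exists_SL_mul_upper (m : ℤ) (hm : m ≠ 0) (A : FixedDetMatrix (Fin 2) ℤ m) :
    ∃ (g : SL(2, ℤ)) (D : FixedDetMatrix (Fin 2) ℤ m), D.1 1 0 = 0 ∧ A.1 = g.1 * D.1 := by
  induction A using FixedDetMatrices.induction_on hm with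
  | h0 A h _ _ _ => exact ⟨1, A, h, by simp⟩
  | hS B ih =>
    obtain ⟨g, D, hD, hB⟩ := ih
    exact ⟨ModularGroup.S * g, D, hD, by
      rw [FixedDetMatrices.smul_coe, hB, Matrix.SpecialLinearGroup.coe_mul, Matrix.mul_assoc]⟩
  | hT B ih =>
    obtain ⟨g, D, hD, hB⟩ := ih
    exact ⟨ModularGroup.T * g, D, hD, by
      rw [FixedDetMatrices.smul_coe, hB, Matrix.SpecialLinearGroup.coe_mul, Matrix.mul_assoc]⟩

/-- Hermite decomposition inside `GL₂(ℝ)`. -/
theorem exists_mapGL_mul_upper {A : GL (Fin 2) ℝ} (hA : A ∈ posInt) :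
    ∃ (g : SL(2, ℤ)) (δ : GL (Fin 2) ℝ), δ ∈ posInt ∧ δ 1 0 = 0 ∧ A = mapGL ℝ g * δ := by
  obtain ⟨M, hM, rfl⟩ := exists_eq_glOfInt hA
  obtain ⟨g, D, hD, hMD⟩ := exists_SL_mul_upper M.det hM.ne' ⟨M, rfl⟩
  have hDdet : 0 < D.1.det := by rw [D.2]; exact hM
  refine ⟨g, glOfInt D.1 hDdet, glOfInt_mem_posInt _ _, ?_, ?_⟩
  · rw [glOfInt_apply, hD]
    simp
  · ext i j
    simp only [Matrix.GeneralLinearGroup.coe_mul, Matrix.mul_apply, Fin.sum_univ_two,
      glOfInt_apply]
    have := congrFun (congrFun hMD i) j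
    simp only [Matrix.mul_apply, Fin.sum_univ_two] at this
    have h2 : (M i j : ℝ) = ((g.1 i 0 * D.1 0 j + g.1 i 1 * D.1 1 j : ℤ) : ℝ) := by
      exact_mod_cast congrArg (Int.cast : ℤ → ℝ) this
    rw [h2]
    simp

end Fermat.Agent.S22.H262

end
-- ===== PACK-END S22/H262/IntMat.lean

-- ===== PACK-BEGIN S21/H81/U0Final.lean
section




/-!
# S21 — piece MS-C, exact interface statement

`Fermat.Agent.S21.H81.exists_u0` is verbatim the statement `exists_u0` of
`Fermat/Agent/S21/MSInterface.lean` (helper201), obtained from `exists_u0_of` by plugging in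
MS-A (`exists_partition_SL2Z`, helper896), G2 (`c_eq_zero_of_two_le_im`, helper896) and
MS-B (`exists_section`, helper944).
-/

set_option autoImplicit false

open UpperHalfPlane CongruenceSubgroup
open scoped MatrixGroups ContDiff

namespace Fermat.Agent.S21.H81

/-- **MS-C** (strong form): the initial function `u₀` with periods `φ`, constant high in every
cusp. -/
theorem exists_u0_const (N : ℕ) [NeZero N] (φ : Additive (Gamma0 N) →+ ℝ)
    (hφ : ModularCurve.Period.IsParabolicHom (Gamma0 N) φ) :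
    ∃ (u₀ : ℂ → ℝ) (c : SL(2, ℤ) → ℝ), ContDiffOn ℝ ∞ u₀ Uhp ∧
      (∀ (γ : Gamma0 N) (z : ℍ),
        u₀ ↑((γ : SL(2, ℤ)) • z) = u₀ ↑z + φ (Additive.ofMul γ)) ∧
      (∀ (δ : SL(2, ℤ)) (z : ℂ), 2 ≤ z.im → u₀ (mob δ z) = c δ) ∧
      (∀ (δ : SL(2, ℤ)) (z : ℂ), 2 < z.im → dz u₀ (mob δ z) = 0) :=
  exists_u0_of N φ exists_partition_SL2Z c_eq_zero_of_two_le_im (exists_section N φ hφ)

/-- **MS-C**: the initial function `u₀` with periods `φ`, locally constant high in every cusp.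
(Verbatim the statement `exists_u0` of `MSInterface.lean`.) -/
theorem exists_u0 (N : ℕ) [NeZero N] (φ : Additive (Gamma0 N) →+ ℝ)
    (hφ : ModularCurve.Period.IsParabolicHom (Gamma0 N) φ) :
    ∃ u₀ : ℂ → ℝ, ContDiffOn ℝ ∞ u₀ Uhp ∧
      (∀ (γ : Gamma0 N) (z : ℍ), u₀ ↑((γ : SL(2, ℤ)) • z) = u₀ ↑z + φ (Additive.ofMul γ)) ∧
      (∀ (δ : SL(2, ℤ)) (z : ℂ), 2 < z.im → dz u₀ (mob δ z) = 0) := by
  obtain ⟨u₀, -, h1, h2, -, h4⟩ := exists_u0_const N φ hφ
  exact ⟨u₀, h1, h2, h4⟩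

end Fermat.Agent.S21.H81

end
-- ===== PACK-END S21/H81/U0Final.lean

-- ===== PACK-BEGIN S21/H544/IntCDens.lean
section


/-!
# S21 INT-C (helper544): the Dirichlet density and its behaviour under symmetrization
-/

set_option autoImplicit false

open UpperHalfPlane CongruenceSubgroup Filter Topology MeasureTheory
open scoped MatrixGroups ComplexConjugate ContDiff

namespace Fermat.Agent.S21.H544

open Fermat.Agent.S21

/-- The Dirichlet form density `u_x η_x + u_y η_y`. -/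
noncomputable def dens (u η : ℂ → ℝ) (w : ℂ) : ℝ :=
  fderiv ℝ u w 1 * fderiv ℝ η w 1 + fderiv ℝ u w Complex.I * fderiv ℝ η w Complex.I

theorem dens_eq_re (u η : ℂ → ℝ) (w : ℂ) : dens u η w = (conj (dz u w) * dz η w).re := by
  unfold dens dz
  simp

theorem dens_eq_zero_of_notMem_tsupport {u η : ℂ → ℝ} {w : ℂ} (hw : w ∉ tsupport η) :
    dens u η w = 0 := by
  have h : fderiv ℝ η w = 0 := by
    have h0 : η =ᶠ[𝓝 w] fun _ => (0 : ℝ) := notMem_tsupport_iff_eventuallyEq.mp hw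
    rw [h0.fderiv_eq]
    simp
  simp [dens, h]

/-- Behaviour of the density under composition with a Möbius transformation. -/
theorem dens_comp_mob (u η : ℂ → ℝ) (g : SL(2, ℤ)) {z : ℂ} (hz : z ∈ Uhp)
    (hη : DifferentiableAt ℝ η (mob g z))
    (hinv : dz u (mob g z) = (cd g z) ^ 2 * dz u z) :
    dens u (fun w => η (mob g w)) z = dens u η (mob g z) / ‖cd g z‖ ^ 4 := by
  rw [dens_eq_re, dens_eq_re, dz_comp_mob η g z hz hη, hinv]
  have hc : cd g z ≠ 0 := SmallAux.cd_ne_zero g hz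
  set c := cd g z with hcdef
  set a := dz u z
  set b := dz η (mob g z)
  have hc4 : ((‖c‖ ^ 4 : ℝ) : ℂ) = c ^ 2 * (conj c) ^ 2 := by
    rw [← mul_pow, Complex.mul_conj, Complex.normSq_eq_norm_sq]
    push_cast
    ring
  have hcc : conj c ≠ 0 := by simpa using hc
  have key : conj a * (b / c ^ 2) = (conj (c ^ 2 * a) * b) / ((‖c‖ ^ 4 : ℝ) : ℂ) := by
    rw [hc4]
    simp only [map_mul, map_pow]
    field_simp
  rw [key, Complex.div_ofReal_re]

end Fermat.Agent.S21.H544

end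
-- ===== PACK-END S21/H544/IntCDens.lean

-- ===== PACK-BEGIN Lib/Newform/H958/X/Eigen.lean
section




/-!
# NEWFORM block X — step X2: a newform is an eigenvector of the Fricke involution,
and the functional equation of its `L`-function
-/

set_option autoImplicit false

open CongruenceSubgroup Complex Polynomial
open UpperHalfPlane hiding I
open scoped MatrixGroups ModularForm

namespace Fermat.Agent.Lib.Newform.H958.X

open ModularFormClass ModularForm

variable {N : ℕ} [NeZero N]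

theorem det_frickeMatrix (N : ℕ) [NeZero N] : ((frickeMatrix N).det : ℝ) = N := by
  rw [Matrix.GeneralLinearGroup.val_det_apply]
  simp [frickeMatrix, Matrix.det_fin_two_of]

theorem σ_frickeMatrix (N : ℕ) [NeZero N] : UpperHalfPlane.σ (frickeMatrix N) = .refl ℝ ℂ := by
  have hN : (0 : ℝ) < N := Nat.cast_pos.mpr (Nat.pos_of_ne_zero (NeZero.ne N))
  rw [UpperHalfPlane.σ, if_pos (by rw [det_frickeMatrix]; exact hN)]

theorem smul_slash_frickeMatrix (N : ℕ) [NeZero N] (c : ℂ) (f : ℍ → ℂ) :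
    (c • f) ∣[(2 : ℤ)] frickeMatrix N = c • (f ∣[(2 : ℤ)] frickeMatrix N) := by
  rw [ModularForm.smul_slash, σ_frickeMatrix, ContinuousAlgEquiv.refl_apply]

/-- **X2**: the Fricke involution acts on a newform by a sign. -/
theorem frickeEigen_of (hO : FrickeOp) (hI : FrickeInvol) (hH : FrickeHecke) (hM : MultOne)
    (hET : Fermat.Agent.Lib.Newform.H958.EigenT)
    {f : CuspForm (Gamma0 N) 2} (hf : f.IsNewform) :
    ∃ w : ℂ, w ^ 2 = 1 ∧ ∀ f' : CuspForm (Gamma0 N) 2,
      (⇑f' : ℍ → ℂ) = ⇑f ∣[(2 : ℤ)] frickeMatrix N → f' = w • f := by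
  obtain ⟨f₁, hf₁⟩ := hO N f
  -- `f₁` is an eigenvector of all `T_ℓ`
  have heig : ∀ (ℓ : ℕ) (hℓ : ℓ.Prime) (hℓN : ¬ ℓ ∣ N),
      CuspForm.heckeTLin 2 hℓ hℓN f₁ = qCoeff f ℓ • f₁ := by
    intro ℓ hℓ hℓN
    apply DFunLike.coe_injective
    have h1 := congrArg (fun F : CuspForm (Gamma0 N) 2 => (⇑F : ℍ → ℂ))
      (hET N f hf.1 ℓ hℓ hℓN)
    simp only [CuspForm.coe_heckeTLin_apply] at h1
    rw [CuspForm.coe_heckeTLin_apply, hf₁, hH N ℓ hℓ hℓN f, h1]
    have h2 : (⇑(qCoeff f ℓ • f) : ℍ → ℂ) = qCoeff f ℓ • (⇑f : ℍ → ℂ) := rfl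
    have h3 : (⇑(qCoeff f ℓ • f₁) : ℍ → ℂ) = qCoeff f ℓ • (⇑f₁ : ℍ → ℂ) := rfl
    rw [h2, h3, smul_slash_frickeMatrix, hf₁]
  have hf₁w := hM N f hf f₁ heig
  set w := qCoeff f₁ 1 with hw
  refine ⟨w, ?_, ?_⟩
  · -- `f = (f ∣ W) ∣ W = w² f`
    have h4 : (⇑f : ℍ → ℂ) = (w * w) • (⇑f : ℍ → ℂ) := by
      have h5 := hI N (⇑f : ℍ → ℂ)
      rw [← hf₁] at h5
      have h6 : (⇑f₁ : ℍ → ℂ) = w • (⇑f : ℍ → ℂ) := by
        rw [hf₁w]
        rfl
      rw [h6, smul_slash_frickeMatrix, ← hf₁, h6, smul_smul] at h5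
      exact h5.symm
    have hfne : (⇑f : ℍ → ℂ) ≠ 0 := by
      intro h
      exact hf.ne_zero (DFunLike.coe_injective h)
    have h7 : (1 - w * w) • (⇑f : ℍ → ℂ) = 0 := by
      rw [sub_smul, one_smul, ← h4, sub_self]
    rcases smul_eq_zero.mp h7 with h | h
    · rw [pow_two]
      exact (sub_eq_zero.mp h).symm
    · exact absurd h hfne
  · intro f' hf'
    have : f' = f₁ := DFunLike.coe_injective (by rw [hf', hf₁])
    rw [this]
    exact hf₁w

/-- Functional equation of a newform: `Λ_f(2 - s) = - w N^{s-1} Λ_f(s)`, `w = ±1`. -/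
theorem functionalEq_newform_of (hO : FrickeOp) (hI : FrickeInvol) (hH : FrickeHecke)
    (hM : MultOne) (hET : Fermat.Agent.Lib.Newform.H958.EigenT)
    {f : CuspForm (Gamma0 N) 2} (hf : f.IsNewform) :
    ∃ w : ℂ, w ^ 2 = 1 ∧ ∀ s : ℂ, Lam f (2 - s) = -(w * (N : ℂ) ^ (s - 1)) * Lam f s := by
  obtain ⟨w, hw, hfw⟩ := frickeEigen_of hO hI hH hM hET hf
  obtain ⟨f₁, hf₁⟩ := hO N f
  refine ⟨w, hw, fun s => ?_⟩
  rw [functionalEq N f f₁ hf₁ s, hfw f₁ hf₁, Lam_smul]
  ring

end Fermat.Agent.Lib.Newform.H958.X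

end
-- ===== PACK-END Lib/Newform/H958/X/Eigen.lean

-- ===== PACK-BEGIN Lib/Newform/H683/SpecLeaves.lean
section
/-
NEWFORM library (helper683) — the leaves `EigenT`, `EigenU` (and, again, `Occurs`, `Descent`)
of the frozen interface `Fermat.Agent.Lib.Newform.H958` (Spec.lean), from `H683/Eigen.lean`
and `H683/Extract.lean`.
-/



set_option autoImplicit false

open CongruenceSubgroup ModularFormClass ModularForm UpperHalfPlane

namespace Fermat.Agent.Lib.Newform.H683

theorem eigenT : Fermat.Agent.Lib.Newform.H958.EigenT :=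
  fun _ _ hg _ hp hpN => heckeTLin_eq_of_eigenform hg hp hpN

theorem eigenU : Fermat.Agent.Lib.Newform.H958.EigenU :=
  fun _ _ _ hg _ hp hpN => heckeULin_eq_of_eigenform hg hp hpN

theorem occurs' : Fermat.Agent.Lib.Newform.H958.Occurs := by
  intro M _ h hh P a heig
  refine exists_normalizedEigenform_of_eigenvector (fun ℓ => ℓ ∈ P) a h hh ?_
  intro ℓ hℓ hℓM hP
  have := congrArg (fun g : CuspForm (Gamma0 M) 2 => (⇑g : ℍ → ℂ)) (heig ℓ hℓ hℓM hP)
  simpa using this

theorem descent' : Fermat.Agent.Lib.Newform.H958.Descent :=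
  fun N _ f hf => exists_newform_below (NeZero.ne N) f hf

end Fermat.Agent.Lib.Newform.H683

end
-- ===== PACK-END Lib/Newform/H683/SpecLeaves.lean

-- ===== PACK-BEGIN A2/Mod/Spec.lean
section






/-!
# WALL A2 / MOD — frozen CONCRETE leaves (architect: deputy helper994)

Level `N = M * q`, `q` prime, `q ∤ M`.  `P` a valuation subring of `Q̄` over `q`, `E ⊆ Q̄` an
intermediate field such that `R = R_E = P ∩ E` is a discrete valuation ring with uniformiser `w`
(number field, or a finite extension of the inertia field).  `k = R / w` (automatically perfect).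

* `F_N = FE E N = E(j_d : d ∣ N) ⊆ E((t))`, `j_d = j(t^d)`;
* `α = heckeAlphaBar E M q : F_M → F_N` (inclusion), `β = heckeBetaBar E M q` (`t ↦ t^q`, `j_d ↦ j_{dq}`);
* `V∞` = Gauss valuation ring of the `t`-expansion (`H708.gaussInf`, here via the predicate `IsVinf`);
* `W` = Fricke involution of `F_N` over `E` (`j_d ↦ j_{N/d}`), `V₀ := V∞.comap W`;
* **coordinate `x := j · j_q`** (NOT `j`, NOT `j + j_q`):  `j, j_q` are integral over `ℤ[x]` and
  `1/j, 1/j_q` are integral over `ℤ[1/x]` (leaf `ChartCompat`), hence BOTH `α` and `β` map the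
  level-`M` charts for the coordinate `j` (finite chart AND chart at infinity) into the level-`N`
  charts for the coordinate `x`; `x̄ = j̄^(q+1)` on `C∞`, `x̄ = j̄_q^(q+1)` on `C₀`: separable (tame)
  on both components;  `[F_N : E(x)] = 2 ψ(N) = 2 (q+1) ψ(M)`, residue degrees `ψ(N)` and `ψ(N)`.

Every `def …Statement : Prop` below is ONE leaf: prove `theorem foo : FooStatement` in
`Fermat/Agent/A2/Mod/H<seat>/*.lean` (namespace `Fermat.Agent.A2.Mod.H<seat>`), importing this file.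
The abstract pieces on main (H48 QEP2, H492 M4, H372 T-ALG, H168/H132 nodes, H296/H373/H969 normal)
turn the leaves + `GoodRedAt` (level `M`, = output of S18 b2) into helper13's `SSChart`s (MODASM).
-/

set_option autoImplicit false
set_option synthInstance.maxHeartbeats 400000
set_option maxHeartbeats 1600000

noncomputable section

namespace Fermat.Agent.A2.Mod

open ModularCurve HahnSeries Polynomial

/-- The field `ℚ̄`. -/
abbrev Qb : Type := AlgebraicClosure ℚ

/-! ## Objects -/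

section Defs

variable (P : ValuationSubring _root_.Fermat.Agent.A2.Mod.Qb) (E : IntermediateField ℚ _root_.Fermat.Agent.A2.Mod.Qb) (N : ℕ)

/-- `R_E = P ∩ E`. -/
abbrev RE : ValuationSubring E := P.comap (algebraMap E _root_.Fermat.Agent.A2.Mod.Qb)

/-- `F_{N,E} = E(j(t^d) : d ∣ N) ⊆ E((t))`. -/
abbrev FE : IntermediateField E (LaurentSeries E) :=
  laurentBaseChange E (modularFunctionFieldFull N)

/-- The constant `r ∈ R_E` as an element of `F_{N,E}`. -/
def cE (r : _root_.Fermat.Agent.A2.Mod.RE P E) : _root_.Fermat.Agent.A2.Mod.FE E N := algebraMap E (_root_.Fermat.Agent.A2.Mod.FE E N) (r : E)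

/-- The generator `j_d = j(t^d)` of `F_{N,E}`, `d ∣ N`. -/
def jE (d : ℕ) [NeZero d] (hd : d ∣ N) : _root_.Fermat.Agent.A2.Mod.FE E N :=
  ⟨coeffEmb E (qExpand ℚ d jq), coeffEmb_mem_laurentBaseChange E (jqd_mem_full N hd)⟩

/-- Evaluation of a polynomial over `R_E` at an element of `F_{N,E}`. -/
def ev (x : _root_.Fermat.Agent.A2.Mod.FE E N) (a : Polynomial (_root_.Fermat.Agent.A2.Mod.RE P E)) : _root_.Fermat.Agent.A2.Mod.FE E N :=
  a.eval₂ ((algebraMap E (_root_.Fermat.Agent.A2.Mod.FE E N)).comp (_root_.Fermat.Agent.A2.Mod.RE P E).subtype) x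

/-- `V` is the Gauss valuation ring `V∞` of `F_{N,E}` with respect to `R_E`
(`= H708.gaussInf (RE P E) (modularFunctionFieldFull N) _ _`). -/
def IsVinf (V : ValuationSubring (_root_.Fermat.Agent.A2.Mod.FE E N)) : Prop :=
  ∀ f : _root_.Fermat.Agent.A2.Mod.FE E N, f ∈ V ↔
    H708.IsGaussInt (_root_.Fermat.Agent.A2.Mod.RE P E) (modularFunctionFieldFull N) (f : LaurentSeries E)

/-- `W` is the Fricke involution of `F_{N,E}` over `E`: `j_d ↦ j_{N/d}`. -/
def IsFricke (W : _root_.Fermat.Agent.A2.Mod.FE E N ≃ₐ[E] _root_.Fermat.Agent.A2.Mod.FE E N) : Prop :=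
  (∀ (d d' : ℕ) [NeZero d] [NeZero d'] (hd : d ∣ N) (hd' : d' ∣ N), d * d' = N →
    W (jE E N d hd) = jE E N d' hd') ∧ ∀ f, W (W f) = f

/-- `f ∈ w · V`. -/
def InW (V : ValuationSubring (_root_.Fermat.Agent.A2.Mod.FE E N)) (w : _root_.Fermat.Agent.A2.Mod.RE P E) (f : _root_.Fermat.Agent.A2.Mod.FE E N) : Prop :=
  f * (cE P E N w)⁻¹ ∈ V

/-- Residues of the family `b` are linearly independent over `k[x̄]`, in the elementwise form used
by `H48.GaussPair`: `∑ aᵢ(x) bᵢ ∈ w V ⟹ w ∣ aᵢ` for all `i`. -/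
def IndepMod (V : ValuationSubring (_root_.Fermat.Agent.A2.Mod.FE E N)) (w : _root_.Fermat.Agent.A2.Mod.RE P E) (x : _root_.Fermat.Agent.A2.Mod.FE E N) {n : ℕ}
    (b : Fin n → _root_.Fermat.Agent.A2.Mod.FE E N) : Prop :=
  ∀ a : Fin n → Polynomial (_root_.Fermat.Agent.A2.Mod.RE P E),
    InW P E N V w (∑ i, ev P E N x (a i) * b i) → ∀ i, Polynomial.C w ∣ a i

/-- The chart: elements of `F_{N,E}` integral over `R_E[x]` (as a set; `R_E[x]` = image of `ev`). -/
def chart (x : _root_.Fermat.Agent.A2.Mod.FE E N) : Set (_root_.Fermat.Agent.A2.Mod.FE E N) :=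
  {f | ∃ p : Polynomial (Polynomial (_root_.Fermat.Agent.A2.Mod.RE P E)), p.Monic ∧
    p.eval₂ (Polynomial.eval₂RingHom ((algebraMap E (_root_.Fermat.Agent.A2.Mod.FE E N)).comp (_root_.Fermat.Agent.A2.Mod.RE P E).subtype) x) f = 0}

end Defs

/-! ## Standing hypotheses of all leaves -/

/-- The standing hypotheses: `q` prime, `q ∤ M`, `P` over `q`, `R_E` a DVR with uniformiser `w`. -/
structure Setting (P : ValuationSubring _root_.Fermat.Agent.A2.Mod.Qb) (E : IntermediateField ℚ _root_.Fermat.Agent.A2.Mod.Qb) (M q : ℕ)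
    (w : _root_.Fermat.Agent.A2.Mod.RE P E) : Prop where
  q_prime : q.Prime
  q_not_dvd : ¬ q ∣ M
  M_ne_zero : M ≠ 0
  lies_over : P.LiesOverPrime q
  dvr : IsDiscreteValuationRing (_root_.Fermat.Agent.A2.Mod.RE P E)
  unif : Irreducible w

section Leaves

variable (P : ValuationSubring _root_.Fermat.Agent.A2.Mod.Qb) (E : IntermediateField ℚ _root_.Fermat.Agent.A2.Mod.Qb) (M q : ℕ) [NeZero M] [NeZero q]
  (w : _root_.Fermat.Agent.A2.Mod.RE P E)

/-- The coordinate `x = j · j_q` of level `M * q`. -/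
def xE : _root_.Fermat.Agent.A2.Mod.FE E (M * q) :=
  jE E (M * q) 1 (one_dvd _) * jE E (M * q) q (dvd_mul_left q M)

/-- `α : F_M → F_{Mq}`, the inclusion. -/
abbrev αE : _root_.Fermat.Agent.A2.Mod.FE E M →ₐ[E] _root_.Fermat.Agent.A2.Mod.FE E (M * q) := heckeAlphaBar E M q

/-- `β : F_M → F_{Mq}`, `t ↦ t^q`. -/
abbrev βE : _root_.Fermat.Agent.A2.Mod.FE E M →ₐ[E] _root_.Fermat.Agent.A2.Mod.FE E (M * q) := heckeBetaBar E M q

/-! ### L1  VINF: the Gauss valuation exists at every level (owner: helper708 / helper553) -/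

/-- **L1.** The Gauss valuation ring exists (any level `N`):
`H708.gaussInf` + `H708.IntGen (modularFunctionFieldFull N)` + `attainsMax_of_isNoetherianRing`. -/
def VinfExistsStatement : Prop :=
  ∀ N : ℕ, N ≠ 0 → IsDiscreteValuationRing (_root_.Fermat.Agent.A2.Mod.RE P E) →
    ∃ V : ValuationSubring (_root_.Fermat.Agent.A2.Mod.FE E N), IsVinf P E N V

/-- **L2.** `w` is a uniformiser of `V∞`, `V∞ ∩ E = R_E`, and the generators `j_d` are units. -/
def VinfBasicStatement : Prop :=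
  ∀ N : ℕ, N ≠ 0 → IsDiscreteValuationRing (_root_.Fermat.Agent.A2.Mod.RE P E) → Irreducible w →
    ∀ V : ValuationSubring (_root_.Fermat.Agent.A2.Mod.FE E N), IsVinf P E N V →
      H48.IsUnif V (cE P E N w) ∧
      (∀ e : E, algebraMap E (_root_.Fermat.Agent.A2.Mod.FE E N) e ∈ V ↔ e ∈ _root_.Fermat.Agent.A2.Mod.RE P E) ∧
      ∀ (d : ℕ) [NeZero d] (hd : d ∣ N), jE E N d hd ∈ V ∧ (jE E N d hd)⁻¹ ∈ V

/-- **L3.** Gauss property for every "polar" element: if `u ∈ F_N` is the image of an `R`-integral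
series `t^{-a}(c + …)`, `a > 0`, `c` a unit of `R`, then every `p ∈ R[X]` not divisible by `w`
gives a unit `p(u)` of `V∞`.  (Applied to `u = x`, `W x`, and with `V∞ ∋ u⁻¹`.) -/
def VinfGaussStatement : Prop :=
  ∀ N : ℕ, N ≠ 0 → IsDiscreteValuationRing (_root_.Fermat.Agent.A2.Mod.RE P E) → Irreducible w →
    ∀ V : ValuationSubring (_root_.Fermat.Agent.A2.Mod.FE E N), IsVinf P E N V →
    ∀ (u : _root_.Fermat.Agent.A2.Mod.FE E N) (U : LaurentSeries (_root_.Fermat.Agent.A2.Mod.RE P E)) (a : ℕ), 0 < a →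
      (u : LaurentSeries E) = H708.incl (_root_.Fermat.Agent.A2.Mod.RE P E) U →
      (∀ n : ℤ, n < -(a : ℤ) → U.coeff n = 0) → IsUnit (U.coeff (-(a : ℤ))) →
      ∀ p : Polynomial (_root_.Fermat.Agent.A2.Mod.RE P E), ¬ Polynomial.C w ∣ p →
        ev P E N u p ∈ V ∧ (ev P E N u p)⁻¹ ∈ V

/-! ### L4  W: the Fricke involution at level `E` (from H528 `wF`, `wF_rat` over `Q̄`) -/

/-- **L4.** The Fricke involution exists over `E` (restrict `H528.wF` to `E(j_d : d ∣ N)`). -/
def FrickeExistsStatement : Prop :=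
  ∀ N : ℕ, N ≠ 0 → ∃ W : _root_.Fermat.Agent.A2.Mod.FE E N ≃ₐ[E] _root_.Fermat.Agent.A2.Mod.FE E N, IsFricke E N W

/-- **L5.** Compatibility of Fricke involutions of levels `M` and `Mq` with `α`, `β`:
`W_N ∘ α = β ∘ W_M` and `W_N ∘ β = α ∘ W_M`. -/
def FrickeCompatStatement : Prop :=
  ∀ (WM : _root_.Fermat.Agent.A2.Mod.FE E M ≃ₐ[E] _root_.Fermat.Agent.A2.Mod.FE E M) (WN : _root_.Fermat.Agent.A2.Mod.FE E (M * q) ≃ₐ[E] _root_.Fermat.Agent.A2.Mod.FE E (M * q)),
    IsFricke E M WM → IsFricke E (M * q) WN →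
    ∀ f : _root_.Fermat.Agent.A2.Mod.FE E M, WN (αE E M q f) = βE E M q (WM f) ∧ WN (βE E M q f) = αE E M q (WM f)

/-- **L6.** `V₀ := V∞ ∘ W ≠ V∞` at level `Mq` (level-`E` form of `H528.comapW_ne`). -/
def VzeroNeStatement : Prop :=
  Setting P E M q w →
    ∀ (V : ValuationSubring (_root_.Fermat.Agent.A2.Mod.FE E (M * q))) (W : _root_.Fermat.Agent.A2.Mod.FE E (M * q) ≃ₐ[E] _root_.Fermat.Agent.A2.Mod.FE E (M * q)),
      IsVinf P E (M * q) V → IsFricke E (M * q) W →
      V.comap (W : _root_.Fermat.Agent.A2.Mod.FE E (M * q) →+* _root_.Fermat.Agent.A2.Mod.FE E (M * q)) ≠ V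

/-- **L7.** At level `M` (good reduction) the Fricke involution preserves `V∞`
(uniqueness of the extension of the Gauss valuation of `E(j)`: residue degree `ψ(M)` = degree). -/
def FrickeStableStatement : Prop :=
  Setting P E M q w →
    ∀ (V : ValuationSubring (_root_.Fermat.Agent.A2.Mod.FE E M)) (W : _root_.Fermat.Agent.A2.Mod.FE E M ≃ₐ[E] _root_.Fermat.Agent.A2.Mod.FE E M),
      IsVinf P E M V → IsFricke E M W → ∀ f ∈ V, W f ∈ V

/-! ### L8–L10  degrees and residue independence (from `S28.CoreData M k`, on main) -/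

/-- **L8.** `[F_{Mq} : E(x)] = 2 (q+1) ψ(M)`, `x` transcendental over `E`,
and `E` is algebraically closed in `F_{Mq}`. -/
def DegStatement : Prop :=
  q.Prime → ¬ q ∣ M →
    Transcendental E (xE E M q) ∧
    Module.finrank (IntermediateField.adjoin E ({xE E M q} : Set (_root_.Fermat.Agent.A2.Mod.FE E (M * q))))
      (_root_.Fermat.Agent.A2.Mod.FE E (M * q)) = 2 * ((q + 1) * dedekindPsi M) ∧
    ∀ f : _root_.Fermat.Agent.A2.Mod.FE E (M * q), IsAlgebraic E f → f ∈ (algebraMap E (_root_.Fermat.Agent.A2.Mod.FE E (M * q))).range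

/-- **L9.** Residue independence on `C∞`: there are `(q+1) ψ(M)` elements of `α(V∞_M)·j^a`
(`bᵢ = α(yᵢ) j^a`, `yᵢ` the `ψ(M)` monomials of `S28.CoreData M k`, `0 ≤ a ≤ q`) in `V∞`
whose residues are independent over `k[x̄]`, `x̄ = j̄^(q+1)`. -/
def IndInfStatement : Prop :=
  Setting P E M q w →
    ∀ V : ValuationSubring (_root_.Fermat.Agent.A2.Mod.FE E (M * q)), IsVinf P E (M * q) V →
      ∃ b : Fin ((q + 1) * dedekindPsi M) → _root_.Fermat.Agent.A2.Mod.FE E (M * q),
        (∀ i, b i ∈ V) ∧ IndepMod P E (M * q) V w (xE E M q) b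

/-- **L10.** Residue independence on `C₀`: the same for `V₀ = V∞ ∘ W`
(`cᵢ = β(yᵢ') j_q^a`; apply `W` and use L7 at level `M`). -/
def IndZeroStatement : Prop :=
  Setting P E M q w →
    ∀ (V : ValuationSubring (_root_.Fermat.Agent.A2.Mod.FE E (M * q))) (W : _root_.Fermat.Agent.A2.Mod.FE E (M * q) ≃ₐ[E] _root_.Fermat.Agent.A2.Mod.FE E (M * q)),
      IsVinf P E (M * q) V → IsFricke E (M * q) W →
      ∃ c : Fin ((q + 1) * dedekindPsi M) → _root_.Fermat.Agent.A2.Mod.FE E (M * q),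
        (∀ i, W (c i) ∈ V) ∧
        IndepMod P E (M * q) (V.comap (W : _root_.Fermat.Agent.A2.Mod.FE E (M * q) →+* _root_.Fermat.Agent.A2.Mod.FE E (M * q))) w (xE E M q) c

/-! ### L11–L12  residue fields and Kronecker (semilinear form, `k` perfect) -/

/-- **L11.** Residue degree one over level `M` on `C∞`: every element of `V∞` (level `Mq`) is
congruent modulo `w V∞` to `α g`, `g ∈ V∞_M`. -/
def ResInfStatement : Prop :=
  Setting P E M q w →
    ∀ (VM : ValuationSubring (_root_.Fermat.Agent.A2.Mod.FE E M)) (V : ValuationSubring (_root_.Fermat.Agent.A2.Mod.FE E (M * q))),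
      IsVinf P E M VM → IsVinf P E (M * q) V →
      ∀ f ∈ V, ∃ g ∈ VM, InW P E (M * q) V w (f - αE E M q g)

/-- **L12.** Kronecker congruence, semilinear form: for `a ∈ V∞_M` there is `a' ∈ V∞_M`
(`ā' = ā` with coefficients twisted by the inverse Frobenius of `k`) with
`β a ≡ (α a')^q mod w V∞`.  (On `C₀` the swapped congruence follows from L5 and L7.) -/
def KronStatement : Prop :=
  Setting P E M q w →
    ∀ (VM : ValuationSubring (_root_.Fermat.Agent.A2.Mod.FE E M)) (V : ValuationSubring (_root_.Fermat.Agent.A2.Mod.FE E (M * q))),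
      IsVinf P E M VM → IsVinf P E (M * q) V →
      ∀ a ∈ VM, ∃ a' ∈ VM, InW P E (M * q) V w (βE E M q a - (αE E M q a') ^ q)

/-! ### L13  chart compatibility (from `S28.ModPolyData q`, on main) -/

/-- **L13.** `j, j_q` are integral over `ℤ[x]` and `1/j, 1/j_q` are integral over `ℤ[1/x]`,
`x = j j_q` (monicity of `Φ_q` in each variable suffices). -/
def ChartCompatStatement : Prop :=
  q.Prime →
    (jE E (M * q) 1 (one_dvd _) ∈ chart P E (M * q) (xE E M q)) ∧
    (jE E (M * q) q (dvd_mul_left q M) ∈ chart P E (M * q) (xE E M q)) ∧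
    ((jE E (M * q) 1 (one_dvd _))⁻¹ ∈ chart P E (M * q) (xE E M q)⁻¹) ∧
    ((jE E (M * q) q (dvd_mul_left q M))⁻¹ ∈ chart P E (M * q) (xE E M q)⁻¹)

/-! ### L14  inertia acts trivially on both residue fields -/

/-- The restriction to `E` of an automorphism of `Q̄` stabilising `E`. -/
def resE (τ : _root_.Fermat.Agent.A2.Mod.Qb ≃ₐ[ℚ] _root_.Fermat.Agent.A2.Mod.Qb) (hτ : ∀ e : _root_.Fermat.Agent.A2.Mod.Qb, e ∈ E → τ e ∈ E ∧ τ.symm e ∈ E) : E ≃ₐ[ℚ] E :=
  AlgEquiv.ofBijective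
    { toFun := fun e => ⟨τ (e : _root_.Fermat.Agent.A2.Mod.Qb), (hτ e e.2).1⟩
      map_one' := Subtype.ext (map_one τ)
      map_mul' := fun a b => Subtype.ext (map_mul τ (a : _root_.Fermat.Agent.A2.Mod.Qb) (b : _root_.Fermat.Agent.A2.Mod.Qb))
      map_zero' := Subtype.ext (map_zero τ)
      map_add' := fun a b => Subtype.ext (map_add τ (a : _root_.Fermat.Agent.A2.Mod.Qb) (b : _root_.Fermat.Agent.A2.Mod.Qb))
      commutes' := fun r => Subtype.ext (τ.commutes r) }
    ⟨fun a b hab => Subtype.ext (τ.injective (congrArg Subtype.val hab)),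
      fun b => ⟨⟨τ.symm (b : _root_.Fermat.Agent.A2.Mod.Qb), (hτ b b.2).2⟩, Subtype.ext (τ.apply_symm_apply (b : _root_.Fermat.Agent.A2.Mod.Qb))⟩⟩

/-- **L14.** For `τ` in the inertia group of `P` stabilising `E`: `τ` stabilises `V∞` and `V₀`,
acts trivially on both residue fields, and commutes with `W`. -/
def InertiaStatement : Prop :=
  ∀ N : ℕ, N ≠ 0 → IsDiscreteValuationRing (_root_.Fermat.Agent.A2.Mod.RE P E) → Irreducible w →
    ∀ (V : ValuationSubring (_root_.Fermat.Agent.A2.Mod.FE E N)) (W : _root_.Fermat.Agent.A2.Mod.FE E N ≃ₐ[E] _root_.Fermat.Agent.A2.Mod.FE E N),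
      IsVinf P E N V → IsFricke E N W →
      ∀ (τ : _root_.Fermat.Agent.A2.Mod.Qb ≃ₐ[ℚ] _root_.Fermat.Agent.A2.Mod.Qb) (hτ : ∀ e : _root_.Fermat.Agent.A2.Mod.Qb, e ∈ E → τ e ∈ E ∧ τ.symm e ∈ E),
        τ ∈ P.inertiaSubgroupIn ℚ →
        (∀ f : _root_.Fermat.Agent.A2.Mod.FE E N, arithmeticRingAut (modularFunctionFieldFull N) (resE E τ hτ) (W f) =
          W (arithmeticRingAut (modularFunctionFieldFull N) (resE E τ hτ) f)) ∧
        ∀ f ∈ V, InW P E N V w
          (arithmeticRingAut (modularFunctionFieldFull N) (resE E τ hτ) f - f)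

/-! ### HYPOTHESIS at level `M` (output of S18 b2 — NOT a leaf of MOD) -/

/-- **Good reduction at level `M`** in the chart of the coordinate `y` (`y = j` and `y = j⁻¹`),
elementwise: (qep) `B_M ∩ w V∞ = w B_M`; (normal) the image of `B_M` in the residue field of `V∞`
is integrally closed in it, i.e. `B_M / w B_M` is a normal domain with fraction field `κ(V∞)`. -/
structure GoodRedAt (VM : ValuationSubring (_root_.Fermat.Agent.A2.Mod.FE E M)) (y : _root_.Fermat.Agent.A2.Mod.FE E M) : Prop where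
  qep : ∀ b ∈ chart P E M y, InW P E M VM w b → b * (cE P E M w)⁻¹ ∈ chart P E M y
  normal : ∀ f ∈ VM,
    (∃ (n : ℕ) (c : Fin n → _root_.Fermat.Agent.A2.Mod.FE E M), (∀ i, c i ∈ chart P E M y) ∧
      InW P E M VM w (f ^ n + ∑ i : Fin n, c i * f ^ (i : ℕ))) →
    ∃ b ∈ chart P E M y, InW P E M VM w (f - b)

end Leaves

end Fermat.Agent.A2.Mod

end

end
-- ===== PACK-END A2/Mod/Spec.lean

-- ===== PACK-BEGIN S36/H630/LabEq.lean
section


/-!
# S36 engine, LABEL core (helper630), part 5: the label equation at a point over a node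

Setting of `LabNorm.lean`.  `N₁` is a node of level `qM'` (both sheets `V₁'`, `V₂'` of `F'` pass
through it), `n` the unique closed point of level `q²M'` over it (via `α`; the same theorem is
used via `β` with the roles of `FF` and `VV` exchanged).  Sheets of `F` through `n`:
`V_FF`, `V_mid` over `V₁'` (`e = 1`, `e = q - 1`, `f = 1`), `V_VV` over `V₂'` (purely
inseparable of degree `q`).

`u ∈ F` with purity datum `d` at `n`, in the form `u d ^ m t = b'`, `t ∈ A ∖ N₁`, `b' ∈ B`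
(local denominators: `S36/H153.exists_denominator_of_unique`), and `N u = k ^ m` (the class is
`q`-new), `k ≡ ξ₁` on `V₁'`, `k ≡ ξ₂` on `V₂'` (constants, since `N u ≡ 1` on both sheets).

**Theorem** (`label_eq_of_norm`).  If `d` has the values `η_FF`, `η_mid`, `η_VV` at `n` along the
three sheets, then  `ξ₁ η_FF η_mid ^ e ≡ ξ₂ η_VV ^ q`  modulo `N₁`.
-/

set_option autoImplicit false
set_option linter.unusedSectionVars false

namespace Fermat.Agent.S36.H630

variable {R : Type*} [CommRing R] {F' : Type*} [Field F'] [Algebra R F']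
variable {F : Type*} [Field F] [Algebra R F] [Algebra F' F] [IsScalarTower R F' F]

/-- **The label equation.** -/
theorem label_eq_of_norm {A : Subalgebra R F'} {B : Subalgebra R F}
    {N₁ : Ideal A} {n : Ideal B} [n.IsPrime] [N₁.IsPrime]
    (hAB : ∀ a : A, algebraMap F' F (a : F') ∈ B)
    (hNn : ∀ a : A, a ∈ N₁ ↔ (⟨algebraMap F' F (a : F'), hAB a⟩ : B) ∈ n)
    (hnormA : ∀ b : B, Algebra.norm F' (b : F) ∈ A)
    {m : ℕ} (hrootA : ∀ z : F', z ^ m ∈ A → z ∈ A)
    {V₁' V₂' : ValuationSubring F'}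
    (hAV₁' : ChartLe A V₁') (hth₁' : PassThrough A N₁ V₁')
    (hAV₂' : ChartLe A V₂') (hth₂' : PassThrough A N₁ V₂')
    {VFF Vmid VVV : ValuationSubring F}
    (hBFF : ChartLe B VFF) (hthFF : PassThrough B n VFF)
    (hBmid : ChartLe B Vmid) (hthmid : PassThrough B n Vmid)
    (hBVV : ChartLe B VVV) (hthVV : PassThrough B n VVV)
    (hliftFF : ResLift A B VFF) (hliftmid : ResLift A B Vmid)
    {e q : ℕ} (hliftVV : ResLiftPow A B VVV q)
    (hNR₁ : NormResSplit V₁' VFF Vmid e) (hNR₂ : NormResInsep V₂' VVV q)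
    {u d : F} {t : A} (ht : t ∉ N₁) {b' : B}
    (hpure : u * d ^ m * algebraMap F' F (t : F') = b')
    {k : F'} (hk : Algebra.norm F' u = k ^ m) {ξ₁ ξ₂ : R}
    (hξ₁ : k - algebraMap R F' ξ₁ ∈ V₁'.nonunits) (hξ₂ : k - algebraMap R F' ξ₂ ∈ V₂'.nonunits)
    {ηFF ηmid ηVV : R}
    (hFF : ValAt B n VFF d ηFF) (hmid : ValAt B n Vmid d ηmid) (hVV : ValAt B n VVV d ηVV) :
    algebraMap R A (ξ₁ * (ηFF * ηmid ^ e) - ξ₂ * ηVV ^ q) ∈ N₁ := by
  have hN₁top : N₁ ≠ ⊤ := Ideal.IsPrime.ne_top ‹N₁.IsPrime›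
  set D : ℕ := Module.finrank F' F with hD
  set δ : F' := k * Algebra.norm F' d with hδ
  -- `δ ^ m t ^ D = N b'`
  have h1 : δ ^ m * (t : F') ^ D = Algebra.norm F' (b' : F) := by
    rw [← hpure, map_mul, map_mul, map_pow, hk, Algebra.norm_algebraMap, hδ, mul_pow]
  -- `δ t ^ D ∈ A`
  have h2 : (δ * (t : F') ^ D) ^ m ∈ A := by
    rcases Nat.eq_zero_or_pos m with hm0 | hm0
    · rw [hm0, pow_zero]
      exact A.one_mem
    · obtain ⟨j, hj⟩ : ∃ j, m = j + 1 := ⟨m - 1, (Nat.sub_add_cancel hm0).symm⟩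
      have h3 : (δ * (t : F') ^ D) ^ m
          = Algebra.norm F' (b' : F) * ((t : F') ^ D) ^ j := by
        rw [← h1, mul_pow]
        have h33 : ((t : F') ^ D) ^ m = ((t : F') ^ D) ^ j * (t : F') ^ D := by
          rw [hj, pow_succ]
        rw [h33]
        ring
      rw [h3]
      exact A.mul_mem (hnormA b') (A.pow_mem (A.pow_mem t.2 D) j)
  have h4 : δ * (t : F') ^ D ∈ A := hrootA _ h2
  set c' : A := ⟨_, h4⟩ with hc'
  have htD : t ^ D ∉ N₁ := fun h => ht (Ideal.IsPrime.mem_of_pow_mem ‹N₁.IsPrime› D h)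
  have hsc : ((t ^ D : A) : F') * δ = c' := by
    show ((t ^ D : A) : F') * δ = δ * (t : F') ^ D
    push_cast
    ring
  -- the two values of `δ`
  have hv₁ : ValAt A N₁ V₁' δ (ξ₁ * (ηFF * ηmid ^ e)) :=
    (ValAt.const hN₁top hξ₁).mul hAV₁' hth₁'
      (valAt_norm_split hAB hNn hAV₁' hth₁' hBFF hthFF hBmid hthmid hliftFF hliftmid hNR₁
        hFF hmid)
  have hv₂ : ValAt A N₁ V₂' δ (ξ₂ * ηVV ^ q) :=
    (ValAt.const hN₁top hξ₂).mul hAV₂' hth₂'
      (valAt_norm_insep hAB hNn hAV₂' hBVV hthVV hliftVV hNR₂ hVV)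
  have e₁ := hv₁.frac_mem hAV₁' hth₁' hsc
  have e₂ := hv₂.frac_mem hAV₂' hth₂' hsc
  have h5 : algebraMap R A (ξ₁ * (ηFF * ηmid ^ e) - ξ₂ * ηVV ^ q) * t ^ D ∈ N₁ := by
    have : algebraMap R A (ξ₁ * (ηFF * ηmid ^ e) - ξ₂ * ηVV ^ q) * t ^ D
        = (c' - algebraMap R A (ξ₂ * ηVV ^ q) * t ^ D)
          - (c' - algebraMap R A (ξ₁ * (ηFF * ηmid ^ e)) * t ^ D) := by
      rw [map_sub]
      ring
    rw [this]
    exact N₁.sub_mem e₂ e₁
  rcases (Ideal.IsPrime.mem_or_mem ‹N₁.IsPrime› h5) with h6 | h6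
  · exact h6
  · exact absurd h6 htD

end Fermat.Agent.S36.H630

end
-- ===== PACK-END S36/H630/LabEq.lean

-- ===== PACK-BEGIN S28/H88/Degree.lean
section
/-
S28 (Igusa) -- helper88: [L.I] `1, j, …, j^{p-1}` are independent over `k((q^p))`, and
[L.B2] the degree of `j(q^p)` over `k(j)` is `p + 1`.
-/


set_option autoImplicit false

noncomputable section

open ModularCurve HahnSeries

namespace Fermat.Agent.S28

section Independence

variable (k : Type*) [Field k]

theorem h88_order_qExpand (p : ℕ) [NeZero p] {x : LaurentSeries k} (hx : x ≠ 0) :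
    (qExpand k p x).order = (p : ℤ) * x.order := by
  have hVx : qExpand k p x ≠ 0 := fun h => hx (qExpand_injective p (by rw [h, map_zero]))
  apply le_antisymm
  · apply HahnSeries.order_le_of_coeff_ne_zero
    rw [qExpand_coeff_mul]
    exact HahnSeries.coeff_order_eq_zero.not.mpr hx
  · have h := HahnSeries.coeff_order_eq_zero.not.mpr hVx
    by_cases hdvd : (p : ℤ) ∣ (qExpand k p x).order
    · obtain ⟨m, hm⟩ := hdvd
      have h' : (qExpand k p x).coeff ((p : ℤ) * m) ≠ 0 := by rw [← hm]; exact h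
      rw [qExpand_coeff_mul] at h'
      have h2 := HahnSeries.order_le_of_coeff_ne_zero h'
      rw [hm]
      exact mul_le_mul_of_nonneg_left h2 (by positivity)
    · exact absurd (qExpand_coeff_of_not_dvd p x hdvd) h

theorem h88_order_jqModC : (jqModC k).order = -1 := by
  have hne : jqModC k ≠ 0 := jqModC_ne_zero_of_nontrivial k
  apply le_antisymm
  · exact HahnSeries.order_le_of_coeff_ne_zero (by rw [coeff_jqModC_neg_one]; exact one_ne_zero)
  · by_contra h
    rw [not_le] at h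
    have h0 := coeff_jqModC_of_lt k (by omega : (jqModC k).order < -1)
    exact (HahnSeries.coeff_order_eq_zero.not.mpr hne) h0

/-- **[L.I]**, elementary form: `1, j, …, j^{p-1}` are linearly independent over the
image of `q ↦ q^p`. -/
theorem h88_linIndep_core (p : ℕ) [NeZero p] (c : ℕ → LaurentSeries k)
    (h : ∑ i ∈ Finset.range p, qExpand k p (c i) * (jqModC k) ^ i = 0) :
    ∀ i ∈ Finset.range p, c i = 0 := by
  classical
  by_contra hcon
  rw [not_forall] at hcon
  obtain ⟨i₁, hcon⟩ := hcon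
  rw [Classical.not_imp] at hcon
  obtain ⟨hi₁, hci₁⟩ := hcon
  have hj0 : jqModC k ≠ 0 := jqModC_ne_zero_of_nontrivial k
  have hS : ((Finset.range p).filter (fun i => c i ≠ 0)).Nonempty :=
    ⟨i₁, Finset.mem_filter.mpr ⟨hi₁, hci₁⟩⟩
  obtain ⟨i₀, hi₀S, hmin⟩ := Finset.exists_min_image _
    (fun i => (qExpand k p (c i) * (jqModC k) ^ i).order) hS
  have hi₀ := Finset.mem_filter.mp hi₀S
  have hV : ∀ i, c i ≠ 0 → qExpand k p (c i) ≠ 0 := fun i hci h0 =>
    hci (qExpand_injective p (by rw [h0, map_zero]))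
  have hord : ∀ i, c i ≠ 0 →
      (qExpand k p (c i) * (jqModC k) ^ i).order = (p : ℤ) * (c i).order - i := by
    intro i hci
    rw [HahnSeries.order_mul (hV i hci) (pow_ne_zero _ hj0), HahnSeries.order_pow,
      h88_order_qExpand k p hci, h88_order_jqModC]
    simp
    ring
  have hne : ∀ i, c i ≠ 0 → qExpand k p (c i) * (jqModC k) ^ i ≠ 0 := fun i hci =>
    mul_ne_zero (hV i hci) (pow_ne_zero _ hj0)
  have hcoeff : (∑ i ∈ Finset.range p, qExpand k p (c i) * (jqModC k) ^ i).coeff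
      (qExpand k p (c i₀) * (jqModC k) ^ i₀).order = 0 := by
    rw [h, HahnSeries.coeff_zero]
  rw [HahnSeries.coeff_sum, Finset.sum_eq_single_of_mem i₀ hi₀.1] at hcoeff
  · exact (HahnSeries.coeff_order_eq_zero.not.mpr (hne i₀ hi₀.2)) hcoeff
  · intro i hi hii₀
    by_cases hci : c i = 0
    · rw [hci, map_zero, zero_mul, HahnSeries.coeff_zero]
    · apply HahnSeries.coeff_eq_zero_of_lt_order
      have h1 := hmin i (Finset.mem_filter.mpr ⟨hi, hci⟩)
      rw [hord i hci, hord i₀ hi₀.2] at h1 ⊢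
      rcases lt_or_eq_of_le h1 with h2 | h2
      · exact h2
      · exfalso
        have hip := Finset.mem_range.mp hi
        have hi₀p := Finset.mem_range.mp hi₀.1
        have hdvd : (p : ℤ) ∣ (i₀ : ℤ) - i := ⟨(c i₀).order - (c i).order, by linarith⟩
        have h0 := Int.eq_zero_of_abs_lt_dvd hdvd (by rw [abs_lt]; constructor <;> omega)
        omega

/-- **[L.I]**, polynomial form: no nonzero polynomial of degree `< p` over `k((q^p))`
vanishes at `j`. -/
theorem h88_aeval_ne_zero_of_natDegree_lt (p : ℕ) [NeZero p]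
    (Q : Polynomial (qExpandAlgHomC k p).fieldRange) (hQ : Q ≠ 0) (hdeg : Q.natDegree < p) :
    Polynomial.aeval (jqModC k) Q ≠ 0 := by
  intro h
  rw [Polynomial.aeval_eq_sum_range' hdeg] at h
  have hc : ∀ i, ∃ y, qExpand k p y = (Q.coeff i : LaurentSeries k) := fun i =>
    AlgHom.mem_fieldRange.mp (Q.coeff i).2
  choose c hc using hc
  have h' : ∑ i ∈ Finset.range p, qExpand k p (c i) * (jqModC k) ^ i = 0 := by
    rw [← h]
    refine Finset.sum_congr rfl fun i _ => ?_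
    rw [hc, Algebra.smul_def]
    rfl
  have h0 := h88_linIndep_core k p c h'
  apply hQ
  refine Polynomial.ext fun i => ?_
  by_cases hi : i < p
  · have h1 : (Q.coeff i : LaurentSeries k) = 0 := by
      rw [← hc, h0 i (Finset.mem_range.mpr hi), map_zero]
    rw [Polynomial.coeff_zero]
    exact ZeroMemClass.coe_eq_zero.mp h1
  · rw [Polynomial.coeff_eq_zero_of_natDegree_lt (by omega), Polynomial.coeff_zero]

/-- **[L.I]**, `LinearIndependent` form. -/
theorem h88_linearIndependent_pow (p : ℕ) [NeZero p] :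
    LinearIndependent (qExpandAlgHomC k p).fieldRange
      (fun i : Fin p => (jqModC k) ^ (i : ℕ)) := by
  rw [Fintype.linearIndependent_iff]
  intro g hg i
  have hc : ∀ i : Fin p, ∃ y, qExpand k p y = (g i : LaurentSeries k) := fun i =>
    AlgHom.mem_fieldRange.mp (g i).2
  choose c hc using hc
  have h' : ∑ n ∈ Finset.range p,
      qExpand k p (if h : n < p then c ⟨n, h⟩ else 0) * (jqModC k) ^ n = 0 := by
    rw [Finset.sum_range, ← hg]
    refine Finset.sum_congr rfl fun i _ => ?_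
    rw [dif_pos i.2, Fin.eta, hc, Algebra.smul_def]
    rfl
  have h0 := h88_linIndep_core k p _ h' i (Finset.mem_range.mpr i.2)
  rw [dif_pos i.2, Fin.eta] at h0
  have h1 : (g i : LaurentSeries k) = 0 := by rw [← hc, h0, map_zero]
  exact ZeroMemClass.coe_eq_zero.mp h1

end Independence

section Degree

variable (k : Type*) [Field k] (p : ℕ) [NeZero p]

theorem h88_comp_evalAt {A A' : Type*} [CommRing A] [CommRing A']
    (g : LaurentSeries A →+* LaurentSeries A') (y : LaurentSeries A) :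
    g.comp (evalAt y) = evalAt (g y) := by
  apply Polynomial.ringHom_ext
  · intro a
    simp [evalAt]
  · simp [evalAt]

/-- `Φ(j_p, j) = 0` over `k`. -/
theorem h88_modPoly_eval_jp (Φ : ModPolyData p) :
    Φ.Φ.eval₂ (evalAt (jqModC k)) (qExpand k p (jqModC k)) = 0 := by
  have h := congrArg (coeffMap (Int.castRingHom k)) Φ.eval_jp
  rw [Polynomial.hom_eval₂, map_zero, h88_comp_evalAt, coeffMap_qExpand, coeffMap_jqModC] at h
  exact h

/-- `Φ(j, j_p) = 0` over `k`. -/
theorem h88_modPoly_eval_j (Φ : ModPolyData p) :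
    Φ.Φ.eval₂ (evalAt (qExpand k p (jqModC k))) (jqModC k) = 0 := by
  have h := congrArg (coeffMap (Int.castRingHom k)) Φ.eval_j
  rw [Polynomial.hom_eval₂, map_zero, h88_comp_evalAt, coeffMap_qExpand, coeffMap_jqModC] at h
  exact h

/-- `Φ(j_{p²}, j_p) = 0` over `k`. -/
theorem h88_modPoly_eval_jpp (Φ : ModPolyData p) :
    Φ.Φ.eval₂ (evalAt (qExpand k p (jqModC k)))
      (qExpand k p (qExpand k p (jqModC k))) = 0 := by
  have h := congrArg (qExpand k p) (h88_modPoly_eval_jp k p Φ)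
  rw [Polynomial.hom_eval₂, map_zero, h88_comp_evalAt] at h
  exact h

/-- Specialisation `ℤ[Y] → E`, `Y ↦ y`, for an intermediate field `E ∋ y`. -/
def h88_evalSub (E : IntermediateField k (LaurentSeries k)) {y : LaurentSeries k}
    (hy : y ∈ E) : Polynomial ℤ →+* E :=
  (Polynomial.aeval (R := ℤ) (⟨y, hy⟩ : E)).toRingHom

theorem h88_algebraMap_comp_evalSub (E : IntermediateField k (LaurentSeries k))
    {y : LaurentSeries k} (hy : y ∈ E) :
    (algebraMap E (LaurentSeries k)).comp (h88_evalSub k E hy) = evalAt y := by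
  apply Polynomial.ringHom_ext
  · intro a
    simp [evalAt, h88_evalSub]
  · simp [evalAt, h88_evalSub]

theorem h88_aeval_map_evalSub (E : IntermediateField k (LaurentSeries k))
    {y : LaurentSeries k} (hy : y ∈ E) (Φ : Polynomial (Polynomial ℤ))
    (x : LaurentSeries k) :
    Polynomial.aeval x (Φ.map (h88_evalSub k E hy)) = Φ.eval₂ (evalAt y) x := by
  rw [Polynomial.aeval_def, Polynomial.eval₂_map, h88_algebraMap_comp_evalSub]

theorem h88_jp_mem_map :
    qExpand k p (jqModC k) ∈ (jField k).map (qExpandAlgHomC k p) :=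
  (IntermediateField.mem_map (jField k)).mpr ⟨jqModC k, h88_jqModC_mem_jField k, rfl⟩

theorem h88_map_le_fieldRange :
    (jField k).map (qExpandAlgHomC k p) ≤ (qExpandAlgHomC k p).fieldRange := by
  intro x hx
  obtain ⟨y, -, hy⟩ := (IntermediateField.mem_map (jField k)).mp hx
  exact AlgHom.mem_fieldRange.mpr ⟨y, hy⟩

theorem h88_jqModC_ne_qExpand (hp1 : 1 < p) (y : LaurentSeries k) :
    jqModC k ≠ qExpand k p y := by
  intro h
  have h1 := coeff_jqModC_neg_one k
  rw [h, qExpand_coeff_of_not_dvd p y] at h1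
  · exact zero_ne_one h1
  · intro hdvd
    have h2 : (p : ℤ) ∣ 1 := (dvd_neg).mp hdvd
    have h3 := Int.le_of_dvd (by norm_num) h2
    have h4 : (1 : ℤ) < p := by exact_mod_cast hp1
    omega

/-- The modular polynomial specialised at `Y = j_p`, over `K₁ = k(j_p) = V_p(k(j))`. -/
def h88_Phi1 (Φ : ModPolyData p) :
    Polynomial ((jField k).map (qExpandAlgHomC k p)) :=
  Φ.Φ.map (h88_evalSub k _ (h88_jp_mem_map k p))

/-- The modular polynomial specialised at `Y = j`, over `k(j)`. -/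
def h88_Phi0 (Φ : ModPolyData p) : Polynomial (jField k) :=
  Φ.Φ.map (h88_evalSub k _ (h88_jqModC_mem_jField k))

theorem h88_Phi1_monic (Φ : ModPolyData p) : (h88_Phi1 k p Φ).Monic := Φ.monic.map _

theorem h88_Phi0_monic (Φ : ModPolyData p) : (h88_Phi0 k p Φ).Monic := Φ.monic.map _

theorem h88_Phi1_natDegree (Φ : ModPolyData p) : (h88_Phi1 k p Φ).natDegree = p + 1 := by
  rw [h88_Phi1, Φ.monic.natDegree_map, Φ.natDegree_eq]

theorem h88_Phi0_natDegree (Φ : ModPolyData p) : (h88_Phi0 k p Φ).natDegree = p + 1 := by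
  rw [h88_Phi0, Φ.monic.natDegree_map, Φ.natDegree_eq]

theorem h88_Phi1_aeval_j (Φ : ModPolyData p) :
    Polynomial.aeval (jqModC k) (h88_Phi1 k p Φ) = 0 := by
  rw [h88_Phi1, h88_aeval_map_evalSub]
  exact h88_modPoly_eval_j k p Φ

theorem h88_Phi1_aeval_jpp (Φ : ModPolyData p) :
    Polynomial.aeval (qExpand k p (qExpand k p (jqModC k))) (h88_Phi1 k p Φ) = 0 := by
  rw [h88_Phi1, h88_aeval_map_evalSub]
  exact h88_modPoly_eval_jpp k p Φ

theorem h88_Phi0_aeval_jp (Φ : ModPolyData p) :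
    Polynomial.aeval (qExpand k p (jqModC k)) (h88_Phi0 k p Φ) = 0 := by
  rw [h88_Phi0, h88_aeval_map_evalSub]
  exact h88_modPoly_eval_jp k p Φ

theorem h88_isIntegral_j_K1 (Φ : ModPolyData p) :
    IsIntegral ((jField k).map (qExpandAlgHomC k p)) (jqModC k) :=
  ⟨h88_Phi1 k p Φ, h88_Phi1_monic k p Φ, h88_Phi1_aeval_j k p Φ⟩

theorem h88_isIntegral_jp (Φ : ModPolyData p) :
    IsIntegral (jField k) (qExpand k p (jqModC k)) :=
  ⟨h88_Phi0 k p Φ, h88_Phi0_monic k p Φ, h88_Phi0_aeval_jp k p Φ⟩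

/-- Key step: a polynomial over `K₁ ⊆ k((q^p))` vanishing at `j` is zero or has degree `≥ p`. -/
theorem h88_le_natDegree_of_aeval_j_eq_zero
    (Q : Polynomial ((jField k).map (qExpandAlgHomC k p))) (hQ : Q ≠ 0)
    (h : Polynomial.aeval (jqModC k) Q = 0) : p ≤ Q.natDegree := by
  by_contra hlt
  rw [not_le] at hlt
  let incl : ((jField k).map (qExpandAlgHomC k p)) →+* (qExpandAlgHomC k p).fieldRange :=
    (IntermediateField.inclusion (h88_map_le_fieldRange k p)).toRingHom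
  have hinj : Function.Injective incl :=
    (IntermediateField.inclusion (h88_map_le_fieldRange k p)).toRingHom.injective
  have h1 : Q.map incl ≠ 0 := (Polynomial.map_ne_zero_iff hinj).mpr hQ
  have h2 : (Q.map incl).natDegree < p := by
    rw [Polynomial.natDegree_map_eq_of_injective hinj]; exact hlt
  apply h88_aeval_ne_zero_of_natDegree_lt k p (Q.map incl) h1 h2
  rw [Polynomial.aeval_def, Polynomial.eval₂_map]
  exact h

/-- **[L.B2], first half**: the minimal polynomial of `j` over `K₁ = k(j_p)` is `Φ_p(X, j_p)`,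
of degree `p + 1`. -/
theorem h88_minpoly_j_eq_Phi1 (hpk : (p : k) ≠ 0) (hp1 : 1 < p) (Φ : ModPolyData p)
    (W : UnitPolyData p)
    (hθ : (thetaL ℤ (jqModC ℤ)) ^ 6 = deltaL ℤ * (jqModC ℤ) ^ 4 * (jqModC ℤ - 1728) ^ 3) :
    minpoly ((jField k).map (qExpandAlgHomC k p)) (jqModC k) = h88_Phi1 k p Φ := by
  have hint := h88_isIntegral_j_K1 k p Φ
  have hm_monic := minpoly.monic hint
  have hm_dvd : minpoly ((jField k).map (qExpandAlgHomC k p)) (jqModC k) ∣ h88_Phi1 k p Φ :=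
    minpoly.dvd _ _ (h88_Phi1_aeval_j k p Φ)
  have hm_ge := h88_le_natDegree_of_aeval_j_eq_zero k p _ hm_monic.ne_zero (minpoly.aeval _ _)
  have hm_le : (minpoly ((jField k).map (qExpandAlgHomC k p)) (jqModC k)).natDegree ≤ p + 1 := by
    rw [← h88_Phi1_natDegree k p Φ]
    exact Polynomial.natDegree_le_of_dvd hm_dvd (h88_Phi1_monic k p Φ).ne_zero
  have hm_eq : (minpoly ((jField k).map (qExpandAlgHomC k p)) (jqModC k)).natDegree = p + 1 := by
    by_contra hne
    have hmp : (minpoly ((jField k).map (qExpandAlgHomC k p)) (jqModC k)).natDegree = p := by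
      omega
    obtain ⟨R, hR⟩ := hm_dvd
    have hRmonic : R.Monic := hm_monic.of_mul_monic_left (hR ▸ h88_Phi1_monic k p Φ)
    have hRdeg : R.natDegree = 1 := by
      have h := congrArg Polynomial.natDegree hR
      rw [hm_monic.natDegree_mul hRmonic, h88_Phi1_natDegree, hmp] at h
      omega
    have hR' : R = Polynomial.X + Polynomial.C (R.coeff 0) := hRmonic.eq_X_add_C hRdeg
    have h1 : Polynomial.aeval (qExpand k p (qExpand k p (jqModC k)))
          (minpoly ((jField k).map (qExpandAlgHomC k p)) (jqModC k))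
        * Polynomial.aeval (qExpand k p (qExpand k p (jqModC k))) R = 0 := by
      rw [← map_mul, ← hR]
      exact h88_Phi1_aeval_jpp k p Φ
    rcases mul_eq_zero.mp h1 with h2 | h2
    · -- `m` has the root `j_{p²} ∈ k((q^p))`: split off a linear factor over `k((q^p))`
      let incl : ((jField k).map (qExpandAlgHomC k p)) →+* (qExpandAlgHomC k p).fieldRange :=
        (IntermediateField.inclusion (h88_map_le_fieldRange k p)).toRingHom
      have hinj : Function.Injective incl :=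
        (IntermediateField.inclusion (h88_map_le_fieldRange k p)).toRingHom.injective
      let b₂ : (qExpandAlgHomC k p).fieldRange :=
        ⟨qExpand k p (qExpand k p (jqModC k)),
          AlgHom.mem_fieldRange.mpr ⟨qExpand k p (jqModC k), rfl⟩⟩
      have hroot : ((minpoly ((jField k).map (qExpandAlgHomC k p)) (jqModC k)).map incl).IsRoot
          b₂ := by
        rw [Polynomial.IsRoot.def]
        apply (algebraMap (qExpandAlgHomC k p).fieldRange (LaurentSeries k)).injective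
        rw [map_zero, Polynomial.eval_map, Polynomial.hom_eval₂]
        exact h2
      obtain ⟨M', hM'⟩ := Polynomial.dvd_iff_isRoot.mpr hroot
      have hmapne : (minpoly ((jField k).map (qExpandAlgHomC k p)) (jqModC k)).map incl ≠ 0 :=
        (Polynomial.map_ne_zero_iff hinj).mpr hm_monic.ne_zero
      have hM'ne : M' ≠ 0 := by
        intro h0
        rw [h0, mul_zero] at hM'
        exact hmapne hM'
      have hM'deg : M'.natDegree < p := by
        have h := congrArg Polynomial.natDegree hM'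
        rw [Polynomial.natDegree_map_eq_of_injective hinj, hmp,
          Polynomial.natDegree_mul (Polynomial.X_sub_C_ne_zero b₂) hM'ne,
          Polynomial.natDegree_X_sub_C] at h
        omega
      apply h88_aeval_ne_zero_of_natDegree_lt k p M' hM'ne hM'deg
      have h3 : Polynomial.aeval (jqModC k)
          ((minpoly ((jField k).map (qExpandAlgHomC k p)) (jqModC k)).map incl) = 0 := by
        rw [Polynomial.aeval_def, Polynomial.eval₂_map]
        exact minpoly.aeval _ _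
      rw [hM', map_mul, map_sub, Polynomial.aeval_X, Polynomial.aeval_C] at h3
      rcases mul_eq_zero.mp h3 with h4 | h4
      · exact absurd (sub_eq_zero.mp h4) (h88_jqModC_ne_qExpand k p hp1 _)
      · exact h4
    · -- `j_{p²} ∈ K₁ = V_p(k(j))`, hence `j_p ∈ k(j)`
      rw [hR', map_add, Polynomial.aeval_X, Polynomial.aeval_C] at h2
      have h3 : qExpand k p (qExpand k p (jqModC k))
          ∈ (jField k).map (qExpandAlgHomC k p) := by
        have h4 : qExpand k p (qExpand k p (jqModC k))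
            = -(algebraMap ((jField k).map (qExpandAlgHomC k p)) (LaurentSeries k)
                (R.coeff 0)) := eq_neg_of_add_eq_zero_left h2
        rw [h4]
        exact neg_mem (R.coeff 0).2
      obtain ⟨r, hr, hVr⟩ := (IntermediateField.mem_map (jField k)).mp h3
      have hr' : r = qExpand k p (jqModC k) := qExpand_injective p hVr
      exact h88_jp_not_mem_jField k p hpk hp1 W hθ (hr' ▸ hr)
  exact (Polynomial.eq_of_monic_of_dvd_of_natDegree_le hm_monic (h88_Phi1_monic k p Φ) hm_dvd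
    (by rw [h88_Phi1_natDegree, hm_eq])).symm

theorem h88_irreducible_Phi1 (hpk : (p : k) ≠ 0) (hp1 : 1 < p) (Φ : ModPolyData p)
    (W : UnitPolyData p)
    (hθ : (thetaL ℤ (jqModC ℤ)) ^ 6 = deltaL ℤ * (jqModC ℤ) ^ 4 * (jqModC ℤ - 1728) ^ 3) :
    Irreducible (h88_Phi1 k p Φ) := by
  rw [← h88_minpoly_j_eq_Phi1 k p hpk hp1 Φ W hθ]
  exact minpoly.irreducible (h88_isIntegral_j_K1 k p Φ)

theorem h88_natDegree_minpoly_j (hpk : (p : k) ≠ 0) (hp1 : 1 < p) (Φ : ModPolyData p)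
    (W : UnitPolyData p)
    (hθ : (thetaL ℤ (jqModC ℤ)) ^ 6 = deltaL ℤ * (jqModC ℤ) ^ 4 * (jqModC ℤ - 1728) ^ 3) :
    (minpoly ((jField k).map (qExpandAlgHomC k p)) (jqModC k)).natDegree = p + 1 := by
  rw [h88_minpoly_j_eq_Phi1 k p hpk hp1 Φ W hθ, h88_Phi1_natDegree]

/-- **[L.B2]**: the minimal polynomial of `j(q^p)` over `k(j)` has degree `p + 1`. -/
theorem h88_natDegree_minpoly_jp (hpk : (p : k) ≠ 0) (hp1 : 1 < p) (Φ : ModPolyData p)
    (W : UnitPolyData p)
    (hθ : (thetaL ℤ (jqModC ℤ)) ^ 6 = deltaL ℤ * (jqModC ℤ) ^ 4 * (jqModC ℤ - 1728) ^ 3) :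
    (minpoly (jField k) (qExpand k p (jqModC k))).natDegree = p + 1 := by
  have hint := h88_isIntegral_jp k p Φ
  have hm_monic := minpoly.monic hint
  apply le_antisymm
  · rw [← h88_Phi0_natDegree k p Φ]
    exact Polynomial.natDegree_le_of_dvd (minpoly.dvd _ _ (h88_Phi0_aeval_jp k p Φ))
      (h88_Phi0_monic k p Φ).ne_zero
  · -- transport the minimal polynomial through `V_p`
    let e : (jField k) →+* ((jField k).map (qExpandAlgHomC k p)) :=
      ((jField k).equivMap (qExpandAlgHomC k p)).toAlgHom.toRingHom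
    have hcomp : (algebraMap ((jField k).map (qExpandAlgHomC k p)) (LaurentSeries k)).comp e
        = (qExpand k p).comp (algebraMap (jField k) (LaurentSeries k)) := by
      ext x
      rfl
    have hQ : Polynomial.aeval (qExpand k p (qExpand k p (jqModC k)))
        ((minpoly (jField k) (qExpand k p (jqModC k))).map e) = 0 := by
      rw [Polynomial.aeval_def, Polynomial.eval₂_map, hcomp, ← Polynomial.hom_eval₂,
        ← Polynomial.aeval_def, minpoly.aeval, map_zero]
    have hirr := h88_irreducible_Phi1 k p hpk hp1 Φ W hθ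
    have hmin := minpoly.eq_of_irreducible_of_monic hirr (h88_Phi1_aeval_jpp k p Φ)
      (h88_Phi1_monic k p Φ)
    have hdvd := minpoly.dvd _ _ hQ
    rw [← hmin] at hdvd
    have h1 := Polynomial.natDegree_le_of_dvd hdvd ((hm_monic.map e).ne_zero)
    rw [h88_Phi1_natDegree, hm_monic.natDegree_map] at h1
    exact h1

end Degree

end Fermat.Agent.S28

end

end
-- ===== PACK-END S28/H88/Degree.lean

-- ===== PACK-BEGIN A2/Mod/H189/ChartChangeT3.lean
section


/-!
# Cell A2 / MOD, GOODRED part G3 (helper189): from the `t₃`-charts to the `j`-charts (`q = 2`)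

Abstract setting (Mathlib only): `F` a field over `R`, `3` a unit of `R`, `t, j ∈ F` with
`j t³ = (t + 27)(t + 243)³` (`t` = Hauptmodul of `X₀(3)`), `j ≠ 0`; `V` a subring of `F`
containing `R` in which `t`, `t + 27`, `t + 243` are units (the Gauss valuation ring), `w : F`.

* `goodOn_j_of_t3`    : `GoodOn` for the chart of `R[t]` ⟹ `GoodOn` for the chart of `R[j]`;
* `goodOn_jinv_of_t3` : `GoodOn` for the charts of `R[t]` and `R[1/t]` ⟹ `GoodOn` for the chart of
  `R[1/j]`  (`IC(R[1/j]) = IC(R[u₁, u₂])`, `u₁ = 1/(t+27)`, `u₂ = 1/(t+243)`, glued from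
  `IC(R[t])[1/((t+27)(t+243))]` and `IC(R[1/t])[1/((1+27/t)(1+243/t))]`).
-/

set_option autoImplicit false

namespace Fermat.Agent.A2.Mod.H189

variable {R : Type*} [CommRing R] {F : Type*} [Field F] [Algebra R F]

section T3

variable {V : Subring F} {w : F} {t j : F} (i : R)

include i in
theorem t3_facts (hi : (3 : R) * i = 1) (hj : j ≠ 0)
    (hrel : j * t ^ 3 = (t + 27) * (t + 243) ^ 3) :
    (3 : F) * algebraMap R F i = 1 ∧ (3 : F) ≠ 0 ∧ t ≠ 0 ∧ t + 27 ≠ 0 ∧ t + 243 ≠ 0 := by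
  have h1 : (3 : F) * algebraMap R F i = 1 := by
    have := congrArg (algebraMap R F) hi
    rwa [map_mul, map_one, map_ofNat] at this
  have h2 : (3 : F) ≠ 0 := fun h => by rw [h, zero_mul] at h1; exact zero_ne_one h1
  have h27 : (27 : F) ≠ 0 := by
    have : (27 : F) = 3 ^ 3 := by norm_num
    rw [this]
    exact pow_ne_zero 3 h2
  have h243 : (243 : F) ≠ 0 := by
    have : (243 : F) = 3 ^ 5 := by norm_num
    rw [this]
    exact pow_ne_zero 5 h2
  have h3 : t ≠ 0 := by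
    intro h
    rw [h] at hrel
    simp only [ne_eq, OfNat.ofNat_ne_zero, not_false_eq_true, zero_pow, mul_zero, zero_add] at hrel
    exact mul_ne_zero h27 (pow_ne_zero 3 h243) hrel.symm
  have hjt : j * t ^ 3 ≠ 0 := mul_ne_zero hj (pow_ne_zero 3 h3)
  refine ⟨h1, h2, h3, fun h => hjt ?_, fun h => hjt ?_⟩
  · rw [hrel, h, zero_mul]
  · rw [hrel, h]
    simp

include i in
/-- **`t₃ → j`, finite chart.** -/
theorem goodOn_j_of_t3 (hi : (3 : R) * i = 1) (hj : j ≠ 0)
    (hrel : j * t ^ 3 = (t + 27) * (t + 243) ^ 3)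
    (htV : t ∈ V) (htV' : t⁻¹ ∈ V) (hg : GoodOn V w (Aof R t)) : GoodOn V w (Aof R j) := by
  obtain ⟨hi', h3, ht0, -, -⟩ := t3_facts i hi hj hrel
  have hjeq : j = (t + 27) * (t + 243) ^ 3 * t⁻¹ ^ 3 := by
    field_simp
    exact hrel
  refine (hg.loc (self_mem_Aof t) ht0 htV htV').congr ?_ ?_
  · intro a ha
    refine isIntegral_of_mem_locSub (A' := Aof R j) (fun a ha => ?_) ?_ ha
    · refine isIntegral_of_mem_adjoin (A := Aof R j) (S := {t}) (fun x hx => ?_) ha
      rw [Set.mem_singleton_iff] at hx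
      subst hx
      refine isIntegral_of_quartic (a := 1) (v := 1) (c₃ := 756 - j) (c₂ := 196830)
        (c₁ := 19131876) (c₀ := 387420489) (Subalgebra.one_mem _) (one_mul 1)
        (Subalgebra.sub_mem _ (ofNat_mem_sub _ 756) (self_mem_Aof j))
        (ofNat_mem_sub _ 196830) (ofNat_mem_sub _ 19131876) (ofNat_mem_sub _ 387420489) ?_
      linear_combination -hrel
    · refine isIntegral_of_quartic (a := 387420489) (v := algebraMap R F (i ^ 18))
        (c₃ := 19131876) (c₂ := 196830) (c₁ := 756 - j) (c₀ := 1)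
        (Subalgebra.algebraMap_mem _ _) ?_
        (ofNat_mem_sub _ 19131876) (ofNat_mem_sub _ 196830)
        (Subalgebra.sub_mem _ (ofNat_mem_sub _ 756) (self_mem_Aof j)) (Subalgebra.one_mem _) ?_
      · rw [map_pow]
        have : (387420489 : F) = 3 ^ 18 := by norm_num
        rw [this, ← mul_pow, mul_comm, hi', one_pow]
      · field_simp
        linear_combination -hrel
  · intro a ha
    refine isIntegral_of_mem (Aof_le (B := locSub (Aof R t) t) ?_ ha)
    rw [hjeq]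
    refine Subalgebra.mul_mem _ (Subalgebra.mul_mem _ (Subalgebra.add_mem _
        (le_locSub _ _ (self_mem_Aof t)) (ofNat_mem_sub _ 27))
      (Subalgebra.pow_mem _ (Subalgebra.add_mem _
        (le_locSub _ _ (self_mem_Aof t)) (ofNat_mem_sub _ 243)) 3))
      (Subalgebra.pow_mem _ (inv_mem_locSub _ _) 3)

include i in
/-- **`t₃ → j`, chart at infinity.** -/
theorem goodOn_jinv_of_t3 (hi : (3 : R) * i = 1) (hj : j ≠ 0)
    (hrel : j * t ^ 3 = (t + 27) * (t + 243) ^ 3) (hRV : ∀ r : R, algebraMap R F r ∈ V)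
    (htV : t ∈ V) (htV' : t⁻¹ ∈ V) (hu₁V : (t + 27)⁻¹ ∈ V) (hu₂V : (t + 243)⁻¹ ∈ V)
    (hg : GoodOn V w (Aof R t)) (hg' : GoodOn V w (Aof R t⁻¹)) : GoodOn V w (Aof R j⁻¹) := by
  obtain ⟨hi', h3, ht0, ht27, ht243⟩ := t3_facts i hi hj hrel
  have hi27 : (27 : F) * algebraMap R F (i ^ 3) = 1 := by
    rw [map_pow]
    have : (27 : F) = 3 ^ 3 := by norm_num
    rw [this, ← mul_pow, hi', one_pow]
  have h27V : (27 : F) ∈ V := by
    have := hRV 27
    rwa [map_ofNat] at this
  have h243V : (243 : F) ∈ V := by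
    have := hRV 243
    rwa [map_ofNat] at this
  set u₁ : F := (t + 27)⁻¹ with hu₁
  set u₂ : F := (t + 243)⁻¹ with hu₂
  have hu₁0 : u₁ ≠ 0 := inv_ne_zero ht27
  have hu₂0 : u₂ ≠ 0 := inv_ne_zero ht243
  have htu₁ : t * u₁ = 1 - 27 * u₁ := by
    rw [hu₁]
    field_simp
    ring
  have htu₂ : t * u₂ = 1 - 243 * u₂ := by
    rw [hu₂]
    field_simp
    ring
  have hjinv : j⁻¹ = (1 - 243 * u₂) ^ 2 * (1 - 27 * u₁) * u₂ := by
    rw [← htu₁, ← htu₂, hu₁, hu₂]
    field_simp
    linear_combination -hrel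
  have h1u₁0 : 1 - 27 * u₁ ≠ 0 := by
    rw [← htu₁]
    exact mul_ne_zero ht0 hu₁0
  have h1u₂0 : 1 - 243 * u₂ ≠ 0 := by
    rw [← htu₂]
    exact mul_ne_zero ht0 hu₂0
  have hinv1 : (1 - 27 * u₁)⁻¹ = 1 + 27 * t⁻¹ := by
    rw [← htu₁, hu₁]
    field_simp
  have hinv2 : (1 - 243 * u₂)⁻¹ = 1 + 243 * t⁻¹ := by
    rw [← htu₂, hu₂]
    field_simp
  -- the two denominators
  set D : F := (t + 27) * (t + 243) with hD
  set D' : F := (1 + 27 * t⁻¹) * (1 + 243 * t⁻¹) with hD'
  have hD0 : D ≠ 0 := mul_ne_zero ht27 ht243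
  have hDinv : D⁻¹ = u₁ * u₂ := by rw [hD, mul_inv]
  have hD'inv : D'⁻¹ = (1 - 27 * u₁) * (1 - 243 * u₂) := by
    rw [hD', mul_inv, ← hinv1, ← hinv2, inv_inv, inv_inv]
  have hD'0 : D' ≠ 0 := by
    intro h
    rw [h, inv_zero] at hD'inv
    exact mul_ne_zero h1u₁0 h1u₂0 hD'inv.symm
  -- the chart of `R[u₁, u₂]`
  set A' : Subalgebra R F := Algebra.adjoin R ({u₁, u₂} : Set F) with hA'
  have hu₁A : u₁ ∈ A' := Algebra.subset_adjoin (Set.mem_insert _ _)
  have hu₂A : u₂ ∈ A' := Algebra.subset_adjoin (Set.mem_insert_of_mem _ rfl)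
  have hA'le : ∀ {B : Subalgebra R F}, u₁ ∈ B → u₂ ∈ B → A' ≤ B := by
    intro B h1 h2
    refine Algebra.adjoin_le ?_
    rintro x (hx | hx)
    · rw [hx]; exact h1
    · rw [Set.mem_singleton_iff] at hx
      rw [hx]; exact h2
  have hgA : GoodOn V w A' := by
    refine GoodOn.glue (s₁ := u₁) (s₂ := 1 - 27 * u₁) (α := 27) (β := 1)
      (adjoin_subset_subring hRV (by
        rintro x (hx | hx)
        · rw [hx]; exact hu₁V
        · rw [Set.mem_singleton_iff] at hx
          rw [hx]; exact hu₂V))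
      hu₁A
      (Subalgebra.sub_mem _ (Subalgebra.one_mem _)
        (Subalgebra.mul_mem _ (ofNat_mem_sub _ 27) hu₁A))
      (ofNat_mem_sub _ 27) (Subalgebra.one_mem _) (by ring) ?_ ?_
    · -- `R[u₁, u₂, 1/u₁] = R[t, 1/D]`
      refine (hg.loc (s := D) (Subalgebra.mul_mem _
          (Subalgebra.add_mem _ (self_mem_Aof t) (ofNat_mem_sub _ 27))
          (Subalgebra.add_mem _ (self_mem_Aof t) (ofNat_mem_sub _ 243)))
        hD0 (V.mul_mem (V.add_mem htV h27V) (V.add_mem htV h243V)) ?_).of_le_of_le ?_ ?_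
      · rw [hDinv]
        exact V.mul_mem hu₁V hu₂V
      · refine locSub_le (Aof_le ?_) ?_
        · have : t = u₁⁻¹ - 27 := by rw [hu₁, inv_inv]; ring
          rw [this]
          exact Subalgebra.sub_mem _ (inv_mem_locSub _ _) (ofNat_mem_sub _ 27)
        · rw [hDinv]
          exact le_locSub _ _ (Subalgebra.mul_mem _ hu₁A hu₂A)
      · refine locSub_le (hA'le ?_ ?_) ?_
        · have : u₁ = (t + 243) * D⁻¹ := by
            rw [hD, hu₁]
            field_simp
          rw [this]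
          exact Subalgebra.mul_mem _ (le_locSub _ _
            (Subalgebra.add_mem _ (self_mem_Aof t) (ofNat_mem_sub _ 243))) (inv_mem_locSub _ _)
        · have : u₂ = (t + 27) * D⁻¹ := by
            rw [hD, hu₂]
            field_simp
          rw [this]
          exact Subalgebra.mul_mem _ (le_locSub _ _
            (Subalgebra.add_mem _ (self_mem_Aof t) (ofNat_mem_sub _ 27))) (inv_mem_locSub _ _)
        · rw [hu₁, inv_inv]
          exact le_locSub _ _ (Subalgebra.add_mem _ (self_mem_Aof t) (ofNat_mem_sub _ 27))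
    · -- `R[u₁, u₂, 1/(1 - 27 u₁)] = R[1/t, 1/D']`
      refine (hg'.loc (s := D') (Subalgebra.mul_mem _
          (Subalgebra.add_mem _ (Subalgebra.one_mem _)
            (Subalgebra.mul_mem _ (ofNat_mem_sub _ 27) (self_mem_Aof t⁻¹)))
          (Subalgebra.add_mem _ (Subalgebra.one_mem _)
            (Subalgebra.mul_mem _ (ofNat_mem_sub _ 243) (self_mem_Aof t⁻¹))))
        hD'0 (V.mul_mem (V.add_mem V.one_mem (V.mul_mem h27V htV'))
          (V.add_mem V.one_mem (V.mul_mem h243V htV'))) ?_).of_le_of_le ?_ ?_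
      · rw [hD'inv, ← htu₁, ← htu₂]
        exact V.mul_mem (V.mul_mem htV hu₁V) (V.mul_mem htV hu₂V)
      · refine locSub_le (Aof_le ?_) ?_
        · have : t⁻¹ = algebraMap R F (i ^ 3) * ((1 - 27 * u₁)⁻¹ - 1) := by
            rw [hinv1]
            linear_combination (-t⁻¹) * hi27
          rw [this]
          exact Subalgebra.mul_mem _ (Subalgebra.algebraMap_mem _ _)
            (Subalgebra.sub_mem _ (inv_mem_locSub _ _) (Subalgebra.one_mem _))
        · rw [hD'inv]
          exact le_locSub _ _ (Subalgebra.mul_mem _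
            (Subalgebra.sub_mem _ (Subalgebra.one_mem _)
              (Subalgebra.mul_mem _ (ofNat_mem_sub _ 27) hu₁A))
            (Subalgebra.sub_mem _ (Subalgebra.one_mem _)
              (Subalgebra.mul_mem _ (ofNat_mem_sub _ 243) hu₂A)))
      · refine locSub_le (hA'le ?_ ?_) ?_
        · have : u₁ = t⁻¹ * (1 + 243 * t⁻¹) * D'⁻¹ := by
            rw [hD', hu₁]
            field_simp
          rw [this]
          exact Subalgebra.mul_mem _ (le_locSub _ _ (Subalgebra.mul_mem _ (self_mem_Aof t⁻¹)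
            (Subalgebra.add_mem _ (Subalgebra.one_mem _)
              (Subalgebra.mul_mem _ (ofNat_mem_sub _ 243) (self_mem_Aof t⁻¹)))))
            (inv_mem_locSub _ _)
        · have : u₂ = t⁻¹ * (1 + 27 * t⁻¹) * D'⁻¹ := by
            rw [hD', hu₂]
            field_simp
          rw [this]
          exact Subalgebra.mul_mem _ (le_locSub _ _ (Subalgebra.mul_mem _ (self_mem_Aof t⁻¹)
            (Subalgebra.add_mem _ (Subalgebra.one_mem _)
              (Subalgebra.mul_mem _ (ofNat_mem_sub _ 27) (self_mem_Aof t⁻¹)))))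
            (inv_mem_locSub _ _)
        · rw [hinv1]
          exact le_locSub _ _ (Subalgebra.add_mem _ (Subalgebra.one_mem _)
            (Subalgebra.mul_mem _ (ofNat_mem_sub _ 27) (self_mem_Aof t⁻¹)))
  -- `IC(R[1/j]) = IC(R[u₁, u₂])`
  refine hgA.congr ?_ ?_
  · intro a ha
    refine isIntegral_of_mem_adjoin (A := Aof R j⁻¹) (S := {u₁, u₂}) (fun x hx => ?_) ha
    rcases hx with hx | hx
    · rw [hx]
      -- `(1 - 27 u₁)³ u₁ = (1/j) (1 + 216 u₁)³`
      have hrel₁ : (1 - 27 * u₁) ^ 3 * u₁ = j⁻¹ * (1 + 216 * u₁) ^ 3 := by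
        rw [hjinv, hu₁, hu₂]
        field_simp
        ring
      refine isIntegral_of_quartic (a := -19683) (v := algebraMap R F (-(i ^ 9)))
        (c₃ := 2187 - 10077696 * j⁻¹) (c₂ := -81 - 139968 * j⁻¹) (c₁ := 1 - 648 * j⁻¹)
        (c₀ := -j⁻¹) (Subalgebra.algebraMap_mem _ _) ?_ ?_ ?_ ?_ ?_ ?_
      · rw [map_neg, map_pow]
        have : (-19683 : F) = -(3 ^ 9) := by norm_num
        rw [this, neg_mul_neg, ← mul_pow, mul_comm, hi', one_pow]
      · exact Subalgebra.sub_mem _ (ofNat_mem_sub _ 2187)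
          (Subalgebra.mul_mem _ (ofNat_mem_sub _ 10077696) (self_mem_Aof j⁻¹))
      · exact Subalgebra.sub_mem _ (Subalgebra.neg_mem _ (ofNat_mem_sub _ 81))
          (Subalgebra.mul_mem _ (ofNat_mem_sub _ 139968) (self_mem_Aof j⁻¹))
      · exact Subalgebra.sub_mem _ (Subalgebra.one_mem _)
          (Subalgebra.mul_mem _ (ofNat_mem_sub _ 648) (self_mem_Aof j⁻¹))
      · exact Subalgebra.neg_mem _ (self_mem_Aof j⁻¹)
      · linear_combination hrel₁
    · rw [Set.mem_singleton_iff] at hx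
      rw [hx]
      -- `(1 - 243 u₂)³ u₂ = (1/j) (1 - 216 u₂)`
      have hrel₂ : (1 - 243 * u₂) ^ 3 * u₂ = j⁻¹ * (1 - 216 * u₂) := by
        rw [hjinv, hu₁, hu₂]
        field_simp
        ring
      refine isIntegral_of_quartic (a := -14348907) (v := algebraMap R F (-(i ^ 15)))
        (c₃ := 177147) (c₂ := -729) (c₁ := 1 + 216 * j⁻¹)
        (c₀ := -j⁻¹) (Subalgebra.algebraMap_mem _ _) ?_ ?_ ?_ ?_ ?_ ?_
      · rw [map_neg, map_pow]
        have : (-14348907 : F) = -(3 ^ 15) := by norm_num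
        rw [this, neg_mul_neg, ← mul_pow, mul_comm, hi', one_pow]
      · exact ofNat_mem_sub _ 177147
      · exact Subalgebra.neg_mem _ (ofNat_mem_sub _ 729)
      · exact Subalgebra.add_mem _ (Subalgebra.one_mem _)
          (Subalgebra.mul_mem _ (ofNat_mem_sub _ 216) (self_mem_Aof j⁻¹))
      · exact Subalgebra.neg_mem _ (self_mem_Aof j⁻¹)
      · linear_combination hrel₂
  · intro a ha
    refine isIntegral_of_mem (Aof_le (B := A') ?_ ha)
    rw [hjinv]
    exact Subalgebra.mul_mem _ (Subalgebra.mul_mem _ (Subalgebra.pow_mem _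
      (Subalgebra.sub_mem _ (Subalgebra.one_mem _)
        (Subalgebra.mul_mem _ (ofNat_mem_sub _ 243) hu₂A)) 2)
      (Subalgebra.sub_mem _ (Subalgebra.one_mem _)
        (Subalgebra.mul_mem _ (ofNat_mem_sub _ 27) hu₁A))) hu₂A

end T3

end Fermat.Agent.A2.Mod.H189

end
-- ===== PACK-END A2/Mod/H189/ChartChangeT3.lean

-- ===== PACK-BEGIN A2/T0/H669/T0.lean
section




/-!
# WALL A2, piece T0 (helper669): Kummer form of the wall ⇒ the wall

Interface of `origin/helper13:Fermat/Agent/A2/{Spec,Skel}.lean` (`target_of_kummerTarget`), stated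
here with the two definitions `KummerTarget`, `Target` of `Spec.lean` UNFOLDED (so that this file
only imports files which are on main).  `Spec.act N τ` is by definition
`arithmeticRingAut (modularFunctionFieldFull N) τ`.

* `a2Kummer_of_kummer`          : one `τ`; pointwise Kummer statement ⇒ `H129.A2Kummer N m τ`
                                  (the hypothesis consumed by `H909` / TRANSFER).
* `unipotent_of_kummer`         : one `τ`; pointwise Kummer statement ⇒ `τ•τ•x + x = 2•τ•x`.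
* `target_of_kummerTarget`      : `KummerTarget N q m → Target N q m` (both unfolded), VERBATIM the
                                  statement T0 of `Skel.lean` after `unfold KummerTarget Target act`.
* `a2Kummer_of_kummerTarget`    : `KummerTarget N q m → ∀ P | q, ∀ τ ∈ I_P, H129.A2Kummer N m τ`.
-/

set_option autoImplicit false

noncomputable section

namespace Fermat.Agent.A2.T0.H669

open ModularCurve AlgebraicCurve

/-- The pointwise Kummer statement for one `τ` (body of `Spec.KummerTarget`). -/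
def KummerAt (N m : ℕ) (τ : AlgebraicClosure ℚ ≃ₐ[ℚ] AlgebraicClosure ℚ) : Prop :=
  ∀ f : modularFunctionFieldBar N, f ≠ 0 →
    (∀ v : Place (AlgebraicClosure ℚ) (modularFunctionFieldBar N), (m : ℤ) ∣ v.ord f) →
    ∃ h : modularFunctionFieldBar N, h ≠ 0 ∧
      arithmeticRingAut (modularFunctionFieldFull N) τ
          (arithmeticRingAut (modularFunctionFieldFull N) τ f) * f =
        h ^ m * (arithmeticRingAut (modularFunctionFieldFull N) τ f) ^ 2

/-- `(τ-1)² f = τ²f · f / (τ f)²` in the notation of `H129`. -/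
theorem tauSubOne_tauSubOne_eq {F : Type*} [Field F] (τ : F ≃+* F) {f : F} (hf : f ≠ 0) :
    H129.tauSubOne τ (H129.tauSubOne τ f) = τ (τ f) * f * ((τ f) ^ 2)⁻¹ := by
  have hτf : τ f ≠ 0 := (map_ne_zero_iff τ τ.injective).2 hf
  unfold H129.tauSubOne
  rw [map_mul, map_inv₀, mul_inv, inv_inv]
  field_simp

/-- One `τ`: the pointwise Kummer statement gives `H129.A2Kummer`. -/
theorem a2Kummer_of_kummer (N m : ℕ) (τ : AlgebraicClosure ℚ ≃ₐ[ℚ] AlgebraicClosure ℚ)
    (h : KummerAt N m τ) : H129.A2Kummer N m τ := by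
  intro f hf hdiv
  obtain ⟨y, _, hy⟩ := h f hf hdiv
  refine ⟨y, 1, one_ne_zero, ?_⟩
  rw [toRingAut_arithmeticGalois, tauSubOne_tauSubOne_eq _ hf, hy, map_one, one_mul]
  have hτf : arithmeticRingAut (modularFunctionFieldFull N) τ f ≠ 0 :=
    (map_ne_zero_iff _ (arithmeticRingAut (modularFunctionFieldFull N) τ).injective).2 hf
  field_simp

/-- One `τ`: the pointwise Kummer statement gives `(τ - 1)² = 0` on `J₀(N)[m]`. -/
theorem unipotent_of_kummer (N m : ℕ) (hm : 0 < m)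
    (τ : AlgebraicClosure ℚ ≃ₐ[ℚ] AlgebraicClosure ℚ) (h : KummerAt N m τ)
    (x : JZero N) (hx : m • x = 0) :
    τ • (τ • x) + x = 2 • (τ • x) := by
  have h1 := H129.unipotent_JZero_of_kummer N m hm.ne' τ (a2Kummer_of_kummer N m τ h) x hx
  rw [smul_sub] at h1
  rw [two_nsmul]
  have h2 : τ • (τ • x) = τ • x - x + τ • x := by
    rw [← h1]; abel
  rw [h2]; abel

/-- **T0** (`target_of_kummerTarget` of `Skel.lean`, definitions unfolded). -/
theorem target_of_kummerTarget (N q m : ℕ) (hm : 0 < m)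
    (h : ∀ P : ValuationSubring (AlgebraicClosure ℚ), P.LiesOverPrime q →
      ∀ τ ∈ P.inertiaSubgroupIn ℚ, ∀ f : modularFunctionFieldBar N, f ≠ 0 →
        (∀ v : Place (AlgebraicClosure ℚ) (modularFunctionFieldBar N), (m : ℤ) ∣ v.ord f) →
        ∃ h : modularFunctionFieldBar N, h ≠ 0 ∧
          arithmeticRingAut (modularFunctionFieldFull N) τ
              (arithmeticRingAut (modularFunctionFieldFull N) τ f) * f =
            h ^ m * (arithmeticRingAut (modularFunctionFieldFull N) τ f) ^ 2) :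
    ∀ P : ValuationSubring (AlgebraicClosure ℚ), P.LiesOverPrime q →
      ∀ τ ∈ P.inertiaSubgroupIn ℚ, ∀ x : JZero N, m • x = 0 →
        τ • (τ • x) + x = 2 • (τ • x) :=
  fun P hP τ hτ x hx => unipotent_of_kummer N m hm τ (h P hP τ hτ) x hx

/-- **T0'** : the form consumed by `H909` (TRANSFER): `H129.A2Kummer` for every inertia
element at `q`. -/
theorem a2Kummer_of_kummerTarget (N q m : ℕ)
    (h : ∀ P : ValuationSubring (AlgebraicClosure ℚ), P.LiesOverPrime q →
      ∀ τ ∈ P.inertiaSubgroupIn ℚ, ∀ f : modularFunctionFieldBar N, f ≠ 0 →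
        (∀ v : Place (AlgebraicClosure ℚ) (modularFunctionFieldBar N), (m : ℤ) ∣ v.ord f) →
        ∃ h : modularFunctionFieldBar N, h ≠ 0 ∧
          arithmeticRingAut (modularFunctionFieldFull N) τ
              (arithmeticRingAut (modularFunctionFieldFull N) τ f) * f =
            h ^ m * (arithmeticRingAut (modularFunctionFieldFull N) τ f) ^ 2) :
    ∀ P : ValuationSubring (AlgebraicClosure ℚ), P.LiesOverPrime q →
      ∀ τ ∈ P.inertiaSubgroupIn ℚ, H129.A2Kummer N m τ :=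
  fun P hP τ hτ => a2Kummer_of_kummer N m τ (h P hP τ hτ)

end Fermat.Agent.A2.T0.H669

end
end
-- ===== PACK-END A2/T0/H669/T0.lean

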