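import Mathlib
import Fermat.Prelude.Def_AlgebraicCurve_DivisorClassGroup
import Fermat.Prelude.Def_CuspForm_HeckeAlgebra
import Fermat.Prelude.Def_ModularForm_HeckeOperator
import Fermat.Agent.Pack.S36.E7L2
import Fermat.Agent.Pack.S36.E1L0
import Fermat.Agent.Pack.S36.E1L3
import Fermat.Agent.Pack.S36.E8L1
import Fermat.Agent.Pack.S36.E8L3
import Fermat.Agent.Pack.S36.E1L1
import Fermat.Agent.Pack.S36.E5L0
import Fermat.Agent.Pack.S36.E8L2
import Fermat.Agent.Pack.S36.E5L1
import Fermat.Agent.Pack.S36.E2L0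
import Fermat.Agent.Pack.S36.E8L0
import Fermat.Agent.Pack.S36.E4L0
import Fermat.Agent.Pack.S36.E7L1
import Fermat.Agent.Pack.S36.E2L1
import Fermat.Agent.Pack.S36.E5L2
import Fermat.Agent.Pack.S36.E6L1
import Fermat.Agent.Pack.S36.E4L1
import Fermat.Agent.Pack.S36.E7L0

-- ===== PACK-BEGIN S30/H330/AdicAssembly.lean
section
/-
S30 -- ADIC MODULE LAYER, pieces 2-4 (helper330): eigenvector, finiteness of `J[p]`, assembly.
`hasAdicFrobModule_of_inputs` : (K) + (P) + (T) + (Sm) + (GH)  ⟹  `HasAdicFrobModule`.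
-/



set_option autoImplicit false

noncomputable section

namespace Fermat.Agent.S30.H330

open Fermat.Agent.S29 ModularCurve
open scoped MatrixGroups

/-! ### Generalities on parabolic characters -/

section ParHom

variable {N : ℕ}

theorem isParHom_zero {A : Type*} [AddCommGroup A] : IsParHom (0 : G0 N → A) :=
  ⟨fun _ _ => by simp, fun _ _ => rfl, fun _ _ _ _ => rfl⟩

theorem isParHom_add {A : Type*} [AddCommGroup A] {c c' : G0 N → A} (hc : IsParHom c)
    (hc' : IsParHom c') : IsParHom (c + c') :=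
  ⟨fun γ γ' => by simp only [Pi.add_apply, hc.map_mul, hc'.map_mul]; abel,
    fun γ h => by simp only [Pi.add_apply, hc.parabolic γ h, hc'.parabolic γ h, add_zero],
    fun γ n hn h => by
      simp only [Pi.add_apply, hc.elliptic γ n hn h, hc'.elliptic γ n hn h, add_zero]⟩

theorem isParHom_nsmul {A : Type*} [AddCommGroup A] {c : G0 N → A} (hc : IsParHom c) (n : ℕ) :
    IsParHom (n • c) := by
  induction n with
  | zero => rw [zero_nsmul]; exact isParHom_zero
  | succ n ih => rw [succ_nsmul]; exact isParHom_add ih hc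

/-- Push-forward of a parabolic character along an additive map. -/
theorem isParHom_comp {A B : Type*} [AddCommGroup A] [AddCommGroup B] {c : G0 N → A}
    (hc : IsParHom c) (φ : A →+ B) : IsParHom (fun γ => φ (c γ)) :=
  ⟨fun γ γ' => by simp only [hc.map_mul, map_add],
    fun γ h => by simp only [hc.parabolic γ h, map_zero],
    fun γ n hn h => by simp only [hc.elliptic γ n hn h, map_zero]⟩

theorem isParHom_map_one {A : Type*} [AddCommGroup A] {c : G0 N → A} (hc : IsParHom c) :
    c 1 = 0 := by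
  have := hc.map_mul 1 1
  rw [mul_one] at this
  exact left_eq_add.mp this

theorem heckeCoh_comp {A B : Type*} [AddCommGroup A] [AddCommGroup B] (ℓ : ℕ) (c : G0 N → A)
    (φ : A →+ B) : heckeCoh N ℓ (fun γ => φ (c γ)) = fun γ => φ (heckeCoh N ℓ c γ) := by
  funext γ
  simp only [heckeCoh, map_sum]

end ParHom

/-! ### Consequences of the Kummer statement -/

section Kummer

variable {N : ℕ}

theorem kummer_zero {κ : (G0 N → QZ) → JZero N}
    (hadd : ∀ c c', IsParHom c → IsParHom c' → κ (c + c') = κ c + κ c') : κ 0 = 0 := by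
  have := hadd 0 0 isParHom_zero isParHom_zero
  rw [add_zero] at this
  exact left_eq_add.mp this

theorem kummer_nsmul {κ : (G0 N → QZ) → JZero N}
    (hadd : ∀ c c', IsParHom c → IsParHom c' → κ (c + c') = κ c + κ c') {c : G0 N → QZ}
    (hc : IsParHom c) (n : ℕ) : κ (n • c) = n • κ c := by
  induction n with
  | zero => rw [zero_nsmul, zero_nsmul]; exact kummer_zero hadd
  | succ n ih => rw [succ_nsmul, succ_nsmul, hadd _ _ (isParHom_nsmul hc n) hc, ih]

end Kummer

/-! ### Piece 3: finiteness of the `p`-torsion -/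

section Fin

variable {N : ℕ} [NeZero N]

theorem fg_SL2Z : Group.FG SL(2, ℤ) := by
  rw [Group.fg_iff]
  exact ⟨{ModularGroup.S, ModularGroup.T}, SpecialLinearGroup.SL2Z_generators,
    Set.toFinite _⟩

theorem fg_G0 : Group.FG (G0 N) := by
  have := fg_SL2Z
  exact Subgroup.fg_of_index_ne_zero (CongruenceSubgroup.Gamma0 N)

/-- The `p`-torsion of `ℚ/ℤ` is finite. -/
theorem finite_QZ_torsion {p : ℕ} (hp : p.Prime) : {y : QZ | p • y = 0}.Finite := by
  have h1 := AddCircle.finite_setOfPred_addOrderOf_eq (1 : ℚ) (n := 1) one_pos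
  have hp' := AddCircle.finite_setOfPred_addOrderOf_eq (1 : ℚ) (n := p) hp.pos
  refine (h1.union hp').subset ?_
  intro y hy
  have hdvd : addOrderOf y ∣ p := addOrderOf_dvd_of_nsmul_eq_zero hy
  rcases (Nat.dvd_prime hp).mp hdvd with h | h
  · exact Or.inl h
  · exact Or.inr h

/-- A parabolic character as a monoid homomorphism. -/
def parHomToMonoidHom {c : G0 N → QZ} (hc : IsParHom c) : G0 N →* Multiplicative QZ where
  toFun γ := Multiplicative.ofAdd (c γ)
  map_one' := by rw [isParHom_map_one hc]; rfl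
  map_mul' γ γ' := by rw [hc.map_mul]; rfl

omit [NeZero N] in
theorem parHom_ext {S₀ : Set (G0 N)} (hS₀ : Subgroup.closure S₀ = ⊤) {c c' : G0 N → QZ}
    (hc : IsParHom c) (hc' : IsParHom c') (h : ∀ s ∈ S₀, c s = c' s) : c = c' := by
  have heq : parHomToMonoidHom hc = parHomToMonoidHom hc' := by
    refine MonoidHom.eq_of_eqOn_dense hS₀ ?_
    intro s hs
    show Multiplicative.ofAdd (c s) = Multiplicative.ofAdd (c' s)
    rw [h s hs]
  funext γ
  have := congrArg (fun φ : G0 N →* Multiplicative QZ => Multiplicative.toAdd (φ γ)) heq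
  exact this

/-- The set of parabolic characters of exponent `p` is finite. -/
theorem finite_parHom_torsion {p : ℕ} (hp : p.Prime) :
    {c : G0 N → QZ | IsParHom c ∧ p • c = 0}.Finite := by
  classical
  obtain ⟨S₀, hS₀, hS₀fin⟩ := Group.fg_iff.mp (fg_G0 (N := N))
  have : Finite S₀ := hS₀fin.to_subtype
  let f : (G0 N → QZ) → (S₀ → QZ) := fun c s => c s
  refine Set.Finite.of_finite_image (f := f) ?_ ?_
  · refine (Set.Finite.pi (t := fun _ : S₀ => {y : QZ | p • y = 0})
      (fun _ => finite_QZ_torsion hp)).subset ?_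
    rintro _ ⟨c, ⟨-, hc⟩, rfl⟩
    intro s _
    show p • c s = 0
    have := congrFun hc s
    simpa using this
  · rintro c ⟨hc, -⟩ c' ⟨hc', -⟩ h
    refine parHom_ext hS₀ hc hc' fun s hs => ?_
    exact congrFun h ⟨s, hs⟩

/-- PIECE 3: finiteness of the `p`-torsion of `J₀(N)(ℚ̄)`. -/
theorem finite_torsion {p : ℕ} [Fact p.Prime] (hK : KummerStatement N p) :
    {x : JZero N | p • x = 0}.Finite := by
  obtain ⟨κ, hadd, hinj, hsurj, -⟩ := hK
  refine ((finite_parHom_torsion (N := N) (Fact.out : p.Prime)).image κ).subset ?_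
  intro x hx
  obtain ⟨c, hc, rfl⟩ := hsurj x ⟨1, by simpa using hx⟩
  refine ⟨c, ⟨hc, ?_⟩, rfl⟩
  apply hinj _ (isParHom_nsmul hc p)
  rw [kummer_nsmul hadd hc]
  exact hx

end Fin

/-! ### Piece 2: the eigenvector -/

section Eigen

/-- A nonzero additive character `ϑ : L → ℚ/ℤ` killing `O`, with `ϑ(1/ϖ) ≠ 0`. -/
theorem exists_character {O : Type} [CommRing O] [IsDomain O] {ϖ : O} (hϖ : Irreducible ϖ) :
    ∃ ϑ : FractionRing O →+ QZ, (∀ r : O, ϑ (algebraMap O (FractionRing O) r) = 0) ∧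
      ϑ ((algebraMap O (FractionRing O) ϖ)⁻¹) ≠ 0 := by
  let Osub : AddSubgroup (FractionRing O) := (algebraMap O (FractionRing O)).toAddMonoidHom.range
  have hne : (QuotientAddGroup.mk ((algebraMap O (FractionRing O) ϖ)⁻¹) : FractionRing O ⧸ Osub)
      ≠ 0 := by
    intro h
    rw [QuotientAddGroup.eq_zero_iff] at h
    obtain ⟨r, hr⟩ := h
    have hϖ0 : algebraMap O (FractionRing O) ϖ ≠ 0 := algebraMap_irreducible_ne_zero hϖ
    have h1 : algebraMap O (FractionRing O) (r * ϖ) = algebraMap O (FractionRing O) 1 := by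
      rw [map_mul, map_one]
      have : algebraMap O (FractionRing O) r = (algebraMap O (FractionRing O) ϖ)⁻¹ := hr
      rw [this, inv_mul_cancel₀ hϖ0]
    have h2 : r * ϖ = 1 := IsFractionRing.injective O (FractionRing O) h1
    exact hϖ.not_isUnit (IsUnit.of_mul_eq_one r (by rw [mul_comm]; exact h2))
  obtain ⟨ϑ₀, hϑ₀⟩ := CharacterModule.exists_character_apply_ne_zero_of_ne_zero hne
  refine ⟨(show (FractionRing O ⧸ Osub) →+ QZ from ϑ₀).comp (QuotientAddGroup.mk' Osub),
    fun r => ?_, hϑ₀⟩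
  show ϑ₀ (QuotientAddGroup.mk (algebraMap O (FractionRing O) r)) = 0
  have : (QuotientAddGroup.mk (algebraMap O (FractionRing O) r) : FractionRing O ⧸ Osub) = 0 := by
    rw [QuotientAddGroup.eq_zero_iff]
    exact ⟨r, rfl⟩
  rw [this, map_zero]

theorem eigenvalue_eq {N : ℕ} [NeZero N] {S : Finset ℕ} {O : Type} [CommRing O]
    (χ : CuspForm.heckeAlgebra N 2 (↑S : Set ℕ) →+* O) {ℓ : ℕ} (hℓ : ℓ.Prime) (hℓN : ¬ ℓ ∣ N)
    (hℓS : ℓ ∉ (↑S : Set ℕ)) : eigenvalue χ ℓ = χ (CuspForm.heckeAlgebra.T hℓ hℓN hℓS) := by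
  unfold eigenvalue
  rw [dif_pos ⟨hℓ, hℓN, hℓS⟩]

/-- PIECE 2: the eigenvector `f(x) = κ(γ ↦ ϑ(c(γ) x))`. -/
theorem exists_eigenHom {p : ℕ} [Fact p.Prime] {N : ℕ} [NeZero N] {S : Finset ℕ}
    (hpS : p ∈ S) (hNS : ∀ q : ℕ, q.Prime → q ∣ N → q ∈ S)
    {O : Type} [CommRing O] [IsDomain O] [IsDiscreteValuationRing O]
    (χ : CuspForm.heckeAlgebra N 2 (↑S : Set ℕ) →+* O)
    (hK : KummerStatement N p) (hP : ParEigenStatement N S O χ) :
    ∃ f : FractionRing O →+ JZero N,
      (∀ r : O, f (algebraMap O (FractionRing O) r) = 0) ∧ f ≠ 0 ∧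
      ∀ (ℓ : Nat.Primes), (ℓ : ℕ) ∉ S → ∀ x,
        heckeOperatorBar N ℓ (f x) =
          f (algebraMap O (FractionRing O) (eigenvalue χ ℓ) * x) := by
  classical
  obtain ⟨κ, hadd, hinj, -, hhecke⟩ := hK
  obtain ⟨c, hc, hc0, hceig⟩ := hP
  obtain ⟨ϖ, hϖ⟩ := IsDiscreteValuationRing.exists_irreducible O
  obtain ⟨ϑ, hϑ0, hϑ1⟩ := exists_character hϖ
  -- the additive map `r ↦ ϑ (r x)`
  let φ : FractionRing O → (O →+ QZ) := fun x =>
    ϑ.comp ((AddMonoidHom.mulRight x).comp (algebraMap O (FractionRing O)).toAddMonoidHom)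
  have hφ : ∀ x r, φ x r = ϑ (algebraMap O (FractionRing O) r * x) := fun x r => rfl
  let cx : FractionRing O → (G0 N → QZ) := fun x γ => φ x (c γ)
  have hcx : ∀ x, IsParHom (cx x) := fun x => isParHom_comp hc (φ x)
  have hcx_add : ∀ x y, cx (x + y) = cx x + cx y := by
    intro x y
    funext γ
    show φ (x + y) (c γ) = φ x (c γ) + φ y (c γ)
    rw [hφ, hφ, hφ, mul_add, map_add]
  let f : FractionRing O →+ JZero N := AddMonoidHom.mk' (fun x => κ (cx x)) (fun x y => by
    show κ (cx (x + y)) = κ (cx x) + κ (cx y)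
    rw [hcx_add, hadd _ _ (hcx x) (hcx y)])
  have hf : ∀ x, f x = κ (cx x) := fun x => rfl
  refine ⟨f, fun r => ?_, ?_, fun ℓ hℓS x => ?_⟩
  · rw [hf]
    have : cx (algebraMap O (FractionRing O) r) = 0 := by
      funext γ
      show φ _ (c γ) = 0
      rw [hφ, ← map_mul]
      exact hϑ0 _
    rw [this]
    exact kummer_zero hadd
  · intro hf0
    obtain ⟨γ₀, hγ₀⟩ : ∃ γ₀, c γ₀ ≠ 0 := by
      by_contra h
      push Not at h
      exact hc0 (funext h)
    have hcγ : algebraMap O (FractionRing O) (c γ₀) ≠ 0 := by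
      simpa using hγ₀
    set x₀ : FractionRing O :=
      (algebraMap O (FractionRing O) (c γ₀))⁻¹ * (algebraMap O (FractionRing O) ϖ)⁻¹ with hx₀
    have h1 : κ (cx x₀) = 0 := by
      rw [← hf, hf0]
      rfl
    have h2 := hinj _ (hcx x₀) h1
    have h3 : cx x₀ γ₀ = 0 := by rw [h2]; rfl
    apply hϑ1
    have h4 : cx x₀ γ₀ = ϑ ((algebraMap O (FractionRing O) ϖ)⁻¹) := by
      show φ x₀ (c γ₀) = _
      rw [hφ, hx₀, mul_inv_cancel_left₀ hcγ]
    rw [← h4, h3]
  · have hℓ : (ℓ : ℕ).Prime := ℓ.2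
    have hℓN : ¬ (ℓ : ℕ) ∣ N := fun h => hℓS (hNS _ hℓ h)
    have hℓS' : (ℓ : ℕ) ∉ (↑S : Set ℕ) := by simpa using hℓS
    have hℓNp : ¬ (ℓ : ℕ) ∣ N * p := by
      intro h
      rcases (Nat.Prime.dvd_mul hℓ).mp h with h | h
      · exact hℓN h
      · have : (ℓ : ℕ) = p := (Nat.prime_dvd_prime_iff_eq hℓ (Fact.out : p.Prime)).mp h
        exact hℓS (this ▸ hpS)
    rw [hf, hf, ← hhecke ℓ hℓNp _ (hcx x)]
    congr 1
    rw [show cx x = fun γ => φ x (c γ) from rfl, heckeCoh_comp]
    funext γ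
    show φ x (heckeCoh N ℓ c γ) = φ _ (c γ)
    rw [hφ, hφ, hceig ℓ hℓ hℓN hℓS' γ, eigenvalue_eq χ hℓ hℓN hℓS']
    congr 1
    rw [map_mul (algebraMap O (FractionRing O))]
    ring

end Eigen

/-! ### Piece 4: assembly -/

/-- ASSEMBLY of the adic module layer: (K) + (P) + (T) + (Sm) + (GH) ⟹ `HasAdicFrobModule`. -/
theorem hasAdicFrobModule_of_inputs {p : ℕ} [Fact p.Prime] {N : ℕ} [NeZero N] {S : Finset ℕ}
    (hpS : p ∈ S) (hNS : ∀ q : ℕ, q.Prime → q ∣ N → q ∈ S)
    {O : Type} [CommRing O] [IsDomain O] [IsDiscreteValuationRing O]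
    [IsAdicComplete (IsLocalRing.maximalIdeal O) O] [Finite (IsLocalRing.ResidueField O)]
    [CharZero O] (hpO : (p : O) ∈ IsLocalRing.maximalIdeal O)
    (χ : CuspForm.heckeAlgebra N 2 (↑S : Set ℕ) →+* O)
    (hK : KummerStatement N p) (hP : ParEigenStatement N S O χ) (hT : TorsionRelations N p)
    (hSm : SmoothStatement N) (hGH : GaloisHeckeStatement N) :
    HasAdicFrobModule O (N * p) (fun ℓ => ℓ ∉ S) (eigenvalue χ) := by
  classical
  obtain ⟨f, hf0, hf, hfe⟩ := exists_eigenHom hpS hNS χ hK hP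
  have hfin := finite_torsion hK
  -- index set of Hecke operators
  let t : {ℓ : Nat.Primes // (ℓ : ℕ) ∉ S} → JZero N →+ JZero N := fun i =>
    (heckeOperatorBar N i.1).toAddMonoidHom
  let a : {ℓ : Nat.Primes // (ℓ : ℕ) ∉ S} → O := fun i => eigenvalue χ (i.1 : ℕ)
  have ht : ∀ i (σ : GQ) (x : JZero N), σ • t i x = t i (σ • x) := fun i σ x => hGH σ i.1 x
  obtain ⟨M, i1, i2, i3, i4, ρ, hnt, hcont, hunr, hquad⟩ :=
    adicModule_of_torsion (J := JZero N) (Fact.out : p.Prime) hpO (fun x => hSm x) hfin t ht a f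
      hf0 hf (fun i x => hfe i.1 i.2 x)
  refine ⟨M, i1, i2, i3, i4, ρ, hnt, hcont, ?_, ?_⟩
  · intro ℓ hℓ hℓNp A hA σ hσ
    exact hunr σ fun x hx => (hT ℓ hℓ hℓNp A hA).1 σ hσ x hx
  · intro ℓ hℓ hℓS A hA σ hσ
    have hℓN : ¬ ℓ ∣ N := fun h => hℓS (hNS _ hℓ h)
    have hℓNp : ¬ ℓ ∣ N * p := by
      intro h
      rcases (Nat.Prime.dvd_mul hℓ).mp h with h | h
      · exact hℓN h
      · have : ℓ = p := (Nat.prime_dvd_prime_iff_eq hℓ (Fact.out : p.Prime)).mp h
        exact hℓS (this ▸ hpS)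
    exact hquad ⟨⟨ℓ, hℓ⟩, hℓS⟩ ℓ σ fun x hx => (hT ℓ hℓ hℓNp A hA).2 σ hσ x hx

end Fermat.Agent.S30.H330

end
end
-- ===== PACK-END S30/H330/AdicAssembly.lean

-- ===== PACK-BEGIN S28/H326/Polys.lean
section
/-
S28 / helper326: from the Hecke input to the polynomials
`W = ∏ (X - w i)` and `Φ = ∏ (X - y i)` with coefficients in `ℤ[j(t^p)]`.
-/




set_option autoImplicit false
set_option linter.unusedSectionVars false

noncomputable section

namespace Fermat.Agent.S28.H326

open ModularCurve HahnSeries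

/-! ### Series without negative part -/

/-- Laurent series over `ℂ` without terms of negative degree. -/
def NonNeg : Subring (LaurentSeries ℂ) where
  carrier := {x | ∀ n : ℤ, n < 0 → x.coeff n = 0}
  mul_mem' {x y} hx hy n hn := by
    rw [HahnSeries.coeff_mul]
    refine Finset.sum_eq_zero fun ij hij => ?_
    rw [Finset.mem_antidiagonal] at hij
    rcases lt_or_ge ij.1 0 with h1 | h1
    · rw [hx _ h1, zero_mul]
    · have h2 : ij.2 < 0 := by
        have := hij.2.2
        omega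
      rw [hy _ h2, mul_zero]
  one_mem' n hn := by
    rw [HahnSeries.coeff_one, if_neg hn.ne]
  add_mem' {x y} hx hy n hn := by
    rw [HahnSeries.coeff_add, hx n hn, hy n hn, add_zero]
  zero_mem' n _ := HahnSeries.coeff_zero
  neg_mem' {x} hx n hn := by
    rw [HahnSeries.coeff_neg, hx n hn, neg_zero]

theorem C_mem_NonNeg (c : ℂ) : HahnSeries.C c ∈ NonNeg := fun n hn => by
  show (HahnSeries.single 0 c).coeff n = 0
  exact HahnSeries.coeff_single_of_ne hn.ne

variable (p : ℕ) [NeZero p]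

theorem qExpand_mem_NonNeg {x : LaurentSeries ℂ} (hx : x ∈ NonNeg) :
    qExpand ℂ p x ∈ NonNeg := fun n hn => by
  by_cases h : (p : ℤ) ∣ n
  · obtain ⟨m, rfl⟩ := h
    rw [qExpand_coeff_mul]
    refine hx m ?_
    have hp : (0 : ℤ) < p := by exact_mod_cast Nat.pos_of_ne_zero (NeZero.ne p)
    by_contra hm
    rw [not_lt] at hm
    have := mul_nonneg hp.le hm
    omega
  · exact qExpand_coeff_of_not_dvd p _ h

theorem ofPS_mem_NonNeg (g : PowerSeries ℂ) : ofPS g ∈ NonNeg := fun _ hn => ofPS_coeff_neg g hn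

theorem conj_mem_NonNeg (i : Option (Fin p)) (g : PowerSeries ℂ) : conj p i g ∈ NonNeg := by
  cases i with
  | none => exact qExpand_mem_NonNeg p (qExpand_mem_NonNeg p (ofPS_mem_NonNeg g))
  | some b => exact ofPS_mem_NonNeg _

theorem cBase_mem_NonNeg (g : PowerSeries ℂ) : cBase p g ∈ NonNeg :=
  qExpand_mem_NonNeg p (ofPS_mem_NonNeg g)

/-- An element of `ℚ[j(t^p)]` without negative part is a constant. -/
theorem exists_const_of_mem_Bsub_of_mem_NonNeg {x : LaurentSeries ℂ} (hB : x ∈ Bsub p)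
    (hN : x ∈ NonNeg) : ∃ c : ℚ, x = algebraMap ℚ (LaurentSeries ℂ) c := by
  obtain ⟨Q, rfl⟩ := hB
  rcases Nat.eq_zero_or_pos Q.natDegree with h0 | hpos
  · refine ⟨Q.coeff 0, ?_⟩
    rw [Polynomial.eq_C_of_natDegree_eq_zero h0]
    simp
  · exfalso
    have h1 := aeval_jP_coeff p Q le_rfl
    have hneg : -((p : ℤ) * (Q.natDegree : ℤ)) < 0 := by
      have hp : (0 : ℤ) < p := by exact_mod_cast Nat.pos_of_ne_zero (NeZero.ne p)
      have hd : (0 : ℤ) < Q.natDegree := by exact_mod_cast hpos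
      have := mul_pos hp hd
      omega
    have h2 : (Polynomial.aeval (jP p) Q).coeff (-((p : ℤ) * (Q.natDegree : ℤ))) = 0 :=
      hN _ hneg
    rw [h1] at h2
    have h3 : Q.coeff Q.natDegree = 0 := by exact_mod_cast h2
    have h4 : Q = 0 := Polynomial.leadingCoeff_eq_zero.mp h3
    rw [h4] at hpos
    simp at hpos

/-! ### The unit part of the `w i` -/

/-- the unit `∏ (1 - qⁿ)²⁴` over `ℂ` -/
def UC : PowerSeries ℂ := toC dedekindEtaUnit
/-- its inverse -/
def UinvC : PowerSeries ℂ := toC dedekindEtaUnitInv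

theorem DC_eq : DC = PowerSeries.X * UC := by
  rw [DC, DZ, map_mul, PowerSeries.map_X, UC]

theorem UC_mul_UinvC : UC * UinvC = 1 := by
  rw [UC, UinvC, ← map_mul, dedekindEtaUnit_mul_inv, map_one]

theorem delInv_eq : delInv p = HahnSeries.single (-(p : ℤ)) 1 * cBase p UinvC := by
  rw [delInv, deltaInvZ, map_mul, map_mul, coeffMap_single, qExpand_single, kap_ofPS, cBase,
    RingHom.comp_apply, UinvC, map_one, mul_neg, mul_one]

/-- exponent of the monomial part of `w i` -/
def wExp : Option (Fin p) → ℤ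
  | none => (p : ℤ) * p - p
  | some _ => 1 - p

/-- leading constant of `conj i X` -/
def wConst : Option (Fin p) → ℂ
  | none => 1
  | some b => zeta p ^ (b : ℕ)

/-- degree of `conj i X` -/
def xExp : Option (Fin p) → ℤ
  | none => (p : ℤ) * p
  | some _ => 1

theorem conj_X (i : Option (Fin p)) :
    conj p i PowerSeries.X = HahnSeries.C (wConst p i) * HahnSeries.single (xExp p i) 1 := by
  cases i with
  | none =>
    simp only [conj, cInf, cBase, RingHom.comp_apply, wConst, xExp, map_one, one_mul]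
    rw [HahnSeries.ofPowerSeries_X, qExpand_single, qExpand_single, mul_one]
  | some b =>
    simp only [conj, cB, RingHom.comp_apply, wConst, xExp]
    rw [PowerSeries.rescale_X, map_mul, HahnSeries.ofPowerSeries_C, HahnSeries.ofPowerSeries_X]

theorem wExp_eq (i : Option (Fin p)) : wExp p i = xExp p i - p := by
  cases i <;> simp [wExp, xExp]

/-- the power series part of `w i` -/
def wUnit (i : Option (Fin p)) : LaurentSeries ℂ :=
  scal p i * HahnSeries.C (wConst p i) * conj p i UC * cBase p UinvC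

theorem w_eq (i : Option (Fin p)) : w p i = HahnSeries.single (wExp p i) 1 * wUnit p i := by
  have h : HahnSeries.single (wExp p i) (1 : ℂ) =
      HahnSeries.single (xExp p i) 1 * HahnSeries.single (-(p : ℤ)) 1 := by
    rw [HahnSeries.single_mul_single, wExp_eq, mul_one, sub_eq_add_neg]
  rw [w, wUnit, DC_eq, map_mul, conj_X, delInv_eq, h]
  ring

theorem scal_mem_NonNeg (i : Option (Fin p)) : scal p i ∈ NonNeg := by
  cases i with
  | none => exact Subring.pow_mem _ (natCast_mem _ p) 12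
  | some b => exact Subring.one_mem _

theorem wUnit_mem_NonNeg (i : Option (Fin p)) : wUnit p i ∈ NonNeg :=
  Subring.mul_mem _ (Subring.mul_mem _ (Subring.mul_mem _ (scal_mem_NonNeg p i)
    (C_mem_NonNeg _)) (conj_mem_NonNeg p i UC)) (cBase_mem_NonNeg p UinvC)

theorem prod_single {ι : Type*} (s : Finset ι) (e : ι → ℤ) :
    ∏ i ∈ s, HahnSeries.single (e i) (1 : ℂ) = HahnSeries.single (∑ i ∈ s, e i) 1 := by
  classical
  induction s using Finset.induction_on with
  | empty => simp
  | insert a s ha ih =>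
    rw [Finset.prod_insert ha, Finset.sum_insert ha, ih, HahnSeries.single_mul_single, mul_one]

theorem sum_wExp : ∑ i, wExp p i = 0 := by
  rw [Fintype.sum_option]
  simp only [wExp, Finset.sum_const, Finset.card_univ, Fintype.card_fin, nsmul_eq_mul]
  ring

theorem prod_w_mem_NonNeg : ∏ i, w p i ∈ NonNeg := by
  simp only [w_eq]
  rw [Finset.prod_mul_distrib, prod_single, sum_wExp]
  have : HahnSeries.single (0 : ℤ) (1 : ℂ) = 1 := rfl
  rw [this, one_mul]
  exact Subring.prod_mem _ fun i _ => wUnit_mem_NonNeg p i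

/-! ### Nonvanishing -/

theorem toC_injective : Function.Injective toC := by
  intro x y h
  ext n
  have := congrArg (fun z => PowerSeries.coeff n z) h
  simpa using this

theorem conj_injective (i : Option (Fin p)) : Function.Injective (conj p i) := by
  cases i with
  | none =>
    exact (qExpand_injective p).comp ((qExpand_injective p).comp
      HahnSeries.ofPowerSeries_injective)
  | some b =>
    exact HahnSeries.ofPowerSeries_injective.comp
      (PowerSeries.rescale_injective (pow_ne_zero _ (zeta_ne_zero p)))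

theorem DZ_ne_zero : DZ ≠ 0 := by
  intro h
  have h1 : DZ.coeff 1 = 1 := by
    rw [DZ, show (1 : ℕ) = 0 + 1 from rfl, PowerSeries.coeff_succ_X_mul,
      PowerSeries.coeff_zero_eq_constantCoeff, constantCoeff_dedekindEtaUnit]
  rw [h] at h1
  simp at h1

theorem DC_ne_zero : DC ≠ 0 := fun h => DZ_ne_zero (toC_injective (by rw [← DC, h, map_zero]))

theorem delInv_ne_zero : delInv p ≠ 0 := fun h => by
  have := del_mul_delInv p
  rw [h, mul_zero] at this
  exact zero_ne_one this

theorem scal_ne_zero (i : Option (Fin p)) : scal p i ≠ 0 := by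
  cases i with
  | none =>
    refine pow_ne_zero _ fun h => ?_
    have h1 := natCast_mul_coeff p 1 0
    rw [mul_one, h, HahnSeries.coeff_zero, HahnSeries.coeff_one, if_pos rfl, mul_one] at h1
    exact NeZero.ne p (by exact_mod_cast h1.symm)
  | some b => exact one_ne_zero

theorem w_ne_zero (i : Option (Fin p)) : w p i ≠ 0 := by
  rw [w]
  refine mul_ne_zero (mul_ne_zero (scal_ne_zero p i) ?_) (delInv_ne_zero p)
  rw [Ne, map_eq_zero_iff _ (conj_injective p i)]
  exact DC_ne_zero

/-! ### The polynomial `W` -/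

/-- `W = ∏ (X - w i)` over `ℂ((t))` -/
def WPoly : Polynomial (LaurentSeries ℂ) := ∏ i, (Polynomial.X - Polynomial.C (w p i))

theorem WPoly_monic : (WPoly p).Monic :=
  Polynomial.monic_prod_of_monic _ _ fun _ _ => Polynomial.monic_X_sub_C _

theorem WPoly_natDegree : (WPoly p).natDegree = p + 1 := by
  rw [WPoly, Polynomial.natDegree_prod_of_monic _ _ fun i _ => Polynomial.monic_X_sub_C _]
  simp

theorem WPoly_coeff_mem (h : HeckeInput p) (n : ℕ) : (WPoly p).coeff n ∈ Bsub p :=
  prod_X_sub_C_mem_of_psum_mem (Bsub p) (w p) (fun m _ => sum_w_pow_mem p h m) n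

theorem WPoly_eval (i : Option (Fin p)) : (WPoly p).eval (w p i) = 0 := by
  rw [WPoly, Polynomial.eval_prod]
  exact Finset.prod_eq_zero (Finset.mem_univ i) (by simp)

theorem WPoly_coeff_zero : (WPoly p).coeff 0 = ∏ i, (-(w p i)) := by
  rw [Polynomial.coeff_zero_eq_eval_zero, WPoly, Polynomial.eval_prod]
  simp

theorem exists_WPoly_coeff_zero (h : HeckeInput p) :
    ∃ c : ℚ, c ≠ 0 ∧ (WPoly p).coeff 0 = algebraMap ℚ (LaurentSeries ℂ) c := by
  have hN : (WPoly p).coeff 0 ∈ NonNeg := by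
    rw [WPoly_coeff_zero]
    have : ∏ i, (-(w p i)) = (∏ _i : Option (Fin p), (-1 : LaurentSeries ℂ)) * ∏ i, w p i := by
      rw [← Finset.prod_mul_distrib]
      refine Finset.prod_congr rfl fun i _ => ?_
      ring
    rw [this]
    exact Subring.mul_mem _ (Subring.prod_mem _ fun _ _ => Subring.neg_mem _ (Subring.one_mem _))
      (prod_w_mem_NonNeg p)
  obtain ⟨c, hc⟩ := exists_const_of_mem_Bsub_of_mem_NonNeg p (WPoly_coeff_mem p h 0) hN
  refine ⟨c, ?_, hc⟩
  rintro rfl
  rw [map_zero, WPoly_coeff_zero] at hc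
  rw [Finset.prod_eq_zero_iff] at hc
  obtain ⟨i, -, hi⟩ := hc
  exact w_ne_zero p i (neg_eq_zero.mp hi)

end Fermat.Agent.S28.H326

end
end
-- ===== PACK-END S28/H326/Polys.lean

-- ===== PACK-BEGIN Lib/RR/H443/Discrete.lean
section




/-!
# RR bridge (helper443), part 1: valuation rings of a function field are discrete

Characteristic-free.  Let `F / K` be a field extension such that `F` is finite over `K(x)` for
every transcendental `x`.  Then every valuation subring `O ≠ ⊤` of `F` containing `K` is a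
principal ideal ring (Stichtenoth, Thm. 1.1.6), hence defines a `Place K F`.
-/

set_option autoImplicit false

noncomputable section

open AlgebraicCurve Polynomial IntermediateField

namespace Fermat.Agent.Lib.RR.H443

variable {K F : Type*} [Field K] [Field F] [Algebra K F]

section Valuation

variable {Γ : Type*} [LinearOrderedCommGroupWithZero Γ] (v : Valuation F Γ)

/-- A finite sum whose nonzero terms have pairwise distinct valuations vanishes only if all
terms vanish. -/
theorem eq_zero_of_sum_eq_zero {ι : Type*} (s : Finset ι) (f : ι → F)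
    (hinj : ∀ i ∈ s, ∀ j ∈ s, f i ≠ 0 → f j ≠ 0 → v (f i) = v (f j) → i = j)
    (hsum : ∑ i ∈ s, f i = 0) : ∀ i ∈ s, f i = 0 := by
  classical
  by_contra hcon
  push Not at hcon
  obtain ⟨i₁, hi₁, hfi₁⟩ := hcon
  have hne : (s.filter fun i => f i ≠ 0).Nonempty := ⟨i₁, Finset.mem_filter.mpr ⟨hi₁, hfi₁⟩⟩
  obtain ⟨i₀, hi₀, hmax⟩ := Finset.exists_max_image _ (fun i => v (f i)) hne
  rw [Finset.mem_filter] at hi₀
  have hv0 : v (f i₀) ≠ 0 := (Valuation.ne_zero_iff v).mpr hi₀.2
  have hrest : v (∑ j ∈ s.erase i₀, f j) < v (f i₀) := by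
    refine Valuation.map_sum_lt v hv0 fun j hj => ?_
    rw [Finset.mem_erase] at hj
    by_cases hfj : f j = 0
    · rw [hfj, map_zero]
      exact zero_lt_iff.mpr hv0
    · have hle := hmax j (Finset.mem_filter.mpr ⟨hj.2, hfj⟩)
      refine lt_of_le_of_ne hle fun heq => hj.1 ?_
      exact hinj j hj.2 i₀ hi₀.1 hfj hi₀.2 heq
  have htot : v (∑ j ∈ s, f j) = v (f i₀) := by
    rw [← Finset.add_sum_erase s f hi₀.1]
    exact Valuation.map_add_eq_of_lt_left v hrest
  rw [hsum, map_zero] at htot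
  exact hv0 htot.symm

variable (hK : ∀ a : K, a ≠ 0 → v (algebraMap K F a) = 1)

include hK in
theorem v_algebraMap_le_one (a : K) : v (algebraMap K F a) ≤ 1 := by
  rcases eq_or_ne a 0 with rfl | ha
  · simp
  · exact (hK a ha).le

include hK in
theorem v_aeval_le_one {x : F} (hx : v x ≤ 1) (p : K[X]) : v (aeval x p) ≤ 1 := by
  rw [aeval_eq_sum_range]
  refine Valuation.map_sum_le v fun i _ => ?_
  rw [Algebra.smul_def, map_mul, map_pow]
  exact mul_le_one' (v_algebraMap_le_one v hK _) (pow_le_one' hx i)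

include hK in
/-- `v (p(x)) = 1` when `p(0) ≠ 0` and `v x < 1`. -/
theorem v_aeval_eq_one {x : F} (hx : v x < 1) (p : K[X]) (hp : p.coeff 0 ≠ 0) :
    v (aeval x p) = 1 := by
  have hdecomp : aeval x p = algebraMap K F (p.coeff 0) + x * aeval x p.divX := by
    have := congrArg (aeval x) (Polynomial.divX_mul_X_add p)
    simp only [map_add, map_mul, aeval_X, aeval_C] at this
    rw [← this]
    ring
  rw [hdecomp]
  have h1 : v (x * aeval x p.divX) < v (algebraMap K F (p.coeff 0)) := by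
    rw [hK _ hp, map_mul]
    calc v x * v (aeval x p.divX) ≤ v x * 1 :=
          mul_le_mul' le_rfl (v_aeval_le_one v hK hx.le _)
      _ = v x := mul_one _
      _ < 1 := hx
  rw [Valuation.map_add_eq_of_lt_left v h1, hK _ hp]

include hK in
/-- `v (p(x)) = v(x) ^ ord₀ p` for `p ≠ 0`, when `v x < 1`. -/
theorem v_aeval {x : F} (hx : v x < 1) (p : K[X]) (hp : p ≠ 0) :
    v (aeval x p) = v x ^ p.rootMultiplicity 0 := by
  obtain ⟨q, hq, hndvd⟩ := Polynomial.exists_eq_pow_rootMultiplicity_mul_and_not_dvd p hp 0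
  have hq0 : q.coeff 0 ≠ 0 := by
    intro h0
    apply hndvd
    rw [map_zero, sub_zero]
    exact Polynomial.X_dvd_iff.mpr h0
  conv_lhs => rw [hq]
  rw [map_zero, sub_zero, map_mul, map_pow, aeval_X, map_mul, map_pow,
    v_aeval_eq_one v hK hx q hq0, mul_one]

include hK in
/-- **Chain lemma** (Stichtenoth 1.1.6 (a)). -/
theorem chain_le_finrank {x : F} (hx0 : x ≠ 0) (hx : v x < 1) [FiniteDimensional K⟮x⟯ F]
    {m : ℕ} (y : Fin m → F) (hy1 : ∀ i, v (y i) < 1) (hyx : ∀ i, v x ≤ v (y i))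
    (hmono : StrictMono fun i => v (y i)) :
    m ≤ Module.finrank K⟮x⟯ F := by
  classical
  have hvx0 : v x ≠ 0 := (Valuation.ne_zero_iff v).mpr hx0
  have hy0 : ∀ i, y i ≠ 0 := fun i h => by
    have := hyx i
    rw [h, map_zero] at this
    exact hvx0 (le_antisymm this zero_le)
  open scoped IntermediateField.algebraAdjoinAdjoin in
  have hli : LinearIndependent K⟮x⟯ y := by
    rw [← LinearIndependent.iff_fractionRing (R := Algebra.adjoin K {x}) (K := K⟮x⟯)]
    rw [Fintype.linearIndependent_iff]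
    intro c hc i
    -- choose polynomials
    have hex : ∀ j, ∃ p : K[X], aeval x p = (c j : F) := fun j => by
      have : (c j : F) ∈ (aeval x : K[X] →ₐ[K] F).range := by
        rw [← Algebra.adjoin_singleton_eq_range_aeval]
        exact (c j).2
      exact this
    choose p hp using hex
    have hsum : ∑ j ∈ Finset.univ, aeval x (p j) * y j = 0 := by
      rw [← hc]
      refine Finset.sum_congr rfl fun j _ => ?_
      rw [hp j]
      rfl
    have hval : ∀ j, aeval x (p j) * y j ≠ 0 →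
        v (aeval x (p j) * y j) = v x ^ (p j).rootMultiplicity 0 * v (y j) := by
      intro j hj
      have hpj : p j ≠ 0 := by
        rintro h
        rw [h, map_zero, zero_mul] at hj
        exact hj rfl
      rw [map_mul, v_aeval v hK hx (p j) hpj]
    have key := eq_zero_of_sum_eq_zero v Finset.univ (fun j => aeval x (p j) * y j) (by
      intro i _ j _ hi hj heq
      rw [hval i hi, hval j hj] at heq
      -- wlog on the multiplicities
      have aux : ∀ (a b : ℕ) (i j : Fin m), a ≤ b →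
          v x ^ a * v (y i) = v x ^ b * v (y j) → i = j := by
        intro a b i j hab h
        obtain ⟨d, rfl⟩ := Nat.exists_eq_add_of_le hab
        rw [pow_add, mul_assoc] at h
        have hpa : v x ^ a ≠ 0 := pow_ne_zero _ hvx0
        have h' : v (y i) = v x ^ d * v (y j) := mul_left_cancel₀ hpa h
        rcases Nat.eq_zero_or_pos d with rfl | hd
        · rw [pow_zero, one_mul] at h'
          exact hmono.injective h'
        · exfalso
          have h1 : v x ^ d ≤ v x := by
            calc v x ^ d = v x ^ (d - 1 + 1) := by rw [Nat.sub_add_cancel hd]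
              _ = v x ^ (d - 1) * v x := pow_succ _ _
              _ ≤ 1 * v x := mul_le_mul' (pow_le_one' hx.le _) le_rfl
              _ = v x := one_mul _
          have h2 : v x ^ d * v (y j) < v x := by
            calc v x ^ d * v (y j) ≤ v x * v (y j) := mul_le_mul' h1 le_rfl
              _ < v x * 1 := by
                  exact mul_lt_mul_of_pos_left (hy1 j) (zero_lt_iff.mpr hvx0)
              _ = v x := mul_one _
          have h3 := hyx i
          rw [h'] at h3
          exact absurd h2 (not_lt.mpr h3)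
      rcases le_total ((p i).rootMultiplicity 0) ((p j).rootMultiplicity 0) with h | h
      · exact aux _ _ i j h heq
      · exact (aux _ _ j i h heq.symm).symm) hsum
    have hi := key i (Finset.mem_univ i)
    have : aeval x (p i) = 0 := (mul_eq_zero.mp hi).resolve_right (hy0 i)
    apply Subtype.ext
    rw [← hp i, this]
    rfl
  simpa using hli.fintype_card_le_finrank

end Valuation

section ValuationSubring

variable (O : ValuationSubring F)

/-- The valuation of a valuation subring containing `K` is trivial on `Kˣ`. -/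
theorem valuation_algebraMap_eq_one (hK : ∀ a : K, algebraMap K F a ∈ O) (a : K) (ha : a ≠ 0) :
    O.valuation (algebraMap K F a) = 1 := by
  have h1 : O.valuation (algebraMap K F a) ≤ 1 := (O.valuation_le_one_iff _).mpr (hK a)
  have h2 : O.valuation (algebraMap K F a⁻¹) ≤ 1 := (O.valuation_le_one_iff _).mpr (hK a⁻¹)
  have hne : algebraMap K F a ≠ 0 := (map_ne_zero (algebraMap K F)).mpr ha
  have hv0 : O.valuation (algebraMap K F a) ≠ 0 := (Valuation.ne_zero_iff _).mpr hne
  have hprod : O.valuation (algebraMap K F a) * O.valuation (algebraMap K F a⁻¹) = 1 := by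
    rw [← map_mul, ← map_mul, mul_inv_cancel₀ ha, map_one, map_one]
  have h3 : 1 ≤ O.valuation (algebraMap K F a) := by
    by_contra hlt
    rw [not_le] at hlt
    have h4 : O.valuation (algebraMap K F a) * O.valuation (algebraMap K F a⁻¹) < 1 := by
      calc O.valuation (algebraMap K F a) * O.valuation (algebraMap K F a⁻¹)
          ≤ O.valuation (algebraMap K F a) * 1 := mul_le_mul' le_rfl h2
        _ = O.valuation (algebraMap K F a) := mul_one _
        _ < 1 := hlt
    rw [hprod] at h4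
    exact lt_irrefl _ h4
  exact le_antisymm h1 h3

/-- A nonzero nonunit of a valuation subring containing `K` is transcendental over `K`. -/
theorem transcendental_of_valuation_lt_one (hK : ∀ a : K, algebraMap K F a ∈ O) {x : F}
    (hx : O.valuation x < 1) (hx0 : x ≠ 0) : Transcendental K x := by
  intro halg
  have hint : IsIntegral K x := halg.isIntegral
  have hinv : x⁻¹ ∈ Algebra.adjoin K {x} := by
    have h := IntermediateField.adjoin_simple_toSubalgebra_of_isAlgebraic halg
    have hmem' : x⁻¹ ∈ K⟮x⟯ := inv_mem (mem_adjoin_simple_self K x)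
    have hmem : x⁻¹ ∈ (K⟮x⟯).toSubalgebra := hmem'
    rwa [h] at hmem
  have hxO : x ∈ O := (O.valuation_le_one_iff _).mp hx.le
  let S : Subalgebra K F := { O.toSubring with algebraMap_mem' := hK }
  have hle : Algebra.adjoin K {x} ≤ S :=
    Algebra.adjoin_le (Set.singleton_subset_iff.mpr (show x ∈ S from hxO))
  have hinvO : x⁻¹ ∈ O := hle hinv
  have h1 : O.valuation x⁻¹ ≤ 1 := (O.valuation_le_one_iff _).mpr hinvO
  have hv0 : O.valuation x ≠ 0 := (Valuation.ne_zero_iff _).mpr hx0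
  have h2 : O.valuation x * O.valuation x⁻¹ = 1 := by
    rw [← map_mul, mul_inv_cancel₀ hx0, map_one]
  have h3 : O.valuation x * O.valuation x⁻¹ < 1 := by
    calc O.valuation x * O.valuation x⁻¹ ≤ O.valuation x * 1 := mul_le_mul' le_rfl h1
      _ = O.valuation x := mul_one _
      _ < 1 := hx
  rw [h2] at h3
  exact lt_irrefl _ h3

/-- **Stichtenoth 1.1.6**: divisibility is well-founded in a valuation ring of a function
field. -/
theorem wfDvdMonoid_of_finite (hK : ∀ a : K, algebraMap K F a ∈ O)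
    (hfin : ∀ x : F, Transcendental K x → FiniteDimensional K⟮x⟯ F) : WfDvdMonoid O := by
  constructor
  rw [wellFounded_iff_isEmpty_descending_chain]
  refine ⟨fun ⟨f, hf⟩ => ?_⟩
  set v := O.valuation with hv
  have hne : ∀ n, ((f (n + 1) : O) : F) ≠ 0 := fun n h => by
    have := (hf n).1
    exact this (Subtype.ext h)
  have hle1 : ∀ n, v (f n : F) ≤ 1 := fun n => (O.valuation_le_one_iff _).mpr (f n).2
  have hstep : ∀ n, v (f (n + 1) : F) < v (f (n + 2) : F) := by
    intro n
    obtain ⟨-, c, hc, hfc⟩ := hf (n + 1)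
    have hcv : v (c : F) < 1 := by
      have : c ∈ IsLocalRing.maximalIdeal O := by
        rw [IsLocalRing.mem_maximalIdeal, mem_nonunits_iff]
        exact hc
      exact (O.valuation_lt_one_iff c).mp this
    have h0 : v (f (n + 2) : F) ≠ 0 := (Valuation.ne_zero_iff _).mpr (hne (n + 1))
    have : (f (n + 1) : F) = (f (n + 1 + 1) : F) * (c : F) := by
      rw [hfc]; rfl
    rw [this, map_mul]
    calc v (f (n + 1 + 1) : F) * v (c : F) < v (f (n + 1 + 1) : F) * 1 :=
          mul_lt_mul_of_pos_left hcv (zero_lt_iff.mpr h0)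
      _ = v (f (n + 2) : F) := mul_one _
  have hmono : StrictMono fun n : ℕ => v (f (n + 1) : F) := strictMono_nat_of_lt_succ hstep
  have hlt1 : ∀ n, v (f (n + 1) : F) < 1 := fun n => lt_of_lt_of_le (hstep n) (hle1 _)
  set x : F := (f 1 : F) with hx
  have hx0 : x ≠ 0 := hne 0
  have hxt : Transcendental K x := transcendental_of_valuation_lt_one O hK (hlt1 0) hx0
  have := hfin x hxt
  have key := chain_le_finrank v (valuation_algebraMap_eq_one O hK) hx0 (hlt1 0)
    (m := Module.finrank K⟮x⟯ F + 1) (fun i => (f (i.1 + 1) : F)) (fun i => hlt1 _)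
    (fun i => hmono.monotone (Nat.zero_le _)) (fun i j hij => hmono hij)
  omega

/-- A valuation subring `≠ ⊤` of a function field, containing the constants, is a place. -/
def placeOfValuationSubring (hK : ∀ a : K, algebraMap K F a ∈ O) (hO : O ≠ ⊤)
    (hfin : ∀ x : F, Transcendental K x → FiniteDimensional K⟮x⟯ F) : Place K F where
  toValuationSubring := O
  algebraMap_mem' := hK
  ne_top' := hO
  isPrincipalIdealRing' := by
    have h := wfDvdMonoid_of_finite O hK hfin
    exact ((IsBezout.TFAE (R := O)).out 3 1).mp h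

@[simp]
theorem placeOfValuationSubring_toValuationSubring (hK : ∀ a : K, algebraMap K F a ∈ O)
    (hO : O ≠ ⊤) (hfin : ∀ x : F, Transcendental K x → FiniteDimensional K⟮x⟯ F) :
    (placeOfValuationSubring O hK hO hfin).toValuationSubring = O := rfl

end ValuationSubring

section Existence

variable (hfin : ∀ x : F, Transcendental K x → FiniteDimensional K⟮x⟯ F)

include hfin in
/-- Every transcendental element has a zero. -/
theorem exists_place_ord_pos {t : F} (ht : Transcendental K t) :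
    ∃ v : Place K F, 0 < v.ord t := by
  have ht0 : t ≠ 0 := fun h => ht (h ▸ isAlgebraic_zero)
  let A : Subring F := (Algebra.adjoin K {t}).toSubring
  have htA : t ∈ A := Algebra.self_mem_adjoin_singleton K t
  let I : Ideal A := Ideal.span {⟨t, htA⟩}
  have hI : I ≠ ⊤ := by
    intro h
    rw [Ideal.eq_top_iff_one, Ideal.mem_span_singleton'] at h
    obtain ⟨g, hg⟩ := h
    have hgF : (g : F) * t = 1 := congrArg Subtype.val hg
    have hgmem : (g : F) ∈ (aeval t : K[X] →ₐ[K] F).range := by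
      rw [← Algebra.adjoin_singleton_eq_range_aeval]
      exact g.2
    obtain ⟨p, hp⟩ := hgmem
    have hp' : aeval t p = (g : F) := hp
    apply ht
    refine ⟨p * X - 1, ?_, ?_⟩
    · intro h0
      have := congrArg (fun q => Polynomial.coeff q 0) h0
      simp at this
    · simp [hp', hgF]
  obtain ⟨B, hAB, hIB⟩ := Ideal.image_subset_nonunits_valuationSubring I hI
  have hK : ∀ a : K, algebraMap K F a ∈ B := fun a =>
    hAB ((Algebra.adjoin K {t}).algebraMap_mem a)
  have htB : t ∈ B.nonunits := hIB ⟨⟨t, htA⟩, Ideal.subset_span rfl, rfl⟩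
  have htv : B.valuation t < 1 := (B.mem_nonunits_iff).mp htB
  have hB : B ≠ ⊤ := by
    intro h
    have h1 : t⁻¹ ∈ B := h ▸ ValuationSubring.mem_top _
    have h2 : B.valuation t⁻¹ ≤ 1 := (B.valuation_le_one_iff _).mpr h1
    have h3 : B.valuation t * B.valuation t⁻¹ = 1 := by
      rw [← map_mul, mul_inv_cancel₀ ht0, map_one]
    have h4 : B.valuation t * B.valuation t⁻¹ < 1 := by
      calc B.valuation t * B.valuation t⁻¹ ≤ B.valuation t * 1 := mul_le_mul' le_rfl h2
        _ = B.valuation t := mul_one _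
        _ < 1 := htv
    rw [h3] at h4
    exact lt_irrefl _ h4
  refine ⟨placeOfValuationSubring B hK hB hfin, ?_⟩
  set v := placeOfValuationSubring B hK hB hfin with hv
  have hmem : (⟨t, (B.valuation_le_one_iff _).mp htv.le⟩ : v.toValuationSubring) ∈
      IsLocalRing.maximalIdeal v.toValuationSubring :=
    (B.valuation_lt_one_iff _).mpr htv
  rcases (mem_maximalIdeal_iff v _).mp hmem with h | h
  · exact absurd h ht0
  · exact h

include hfin in
/-- Every transcendental element has a pole. -/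
theorem exists_place_ord_neg {t : F} (ht : Transcendental K t) :
    ∃ v : Place K F, v.ord t < 0 := by
  have ht' : Transcendental K t⁻¹ := fun h => ht (by simpa using h.inv)
  obtain ⟨v, hv⟩ := exists_place_ord_pos hfin ht'
  refine ⟨v, ?_⟩
  rw [v.ord_inv] at hv
  omega

end Existence

end Fermat.Agent.Lib.RR.H443

end
end
-- ===== PACK-END Lib/RR/H443/Discrete.lean

-- ===== PACK-BEGIN S18/H107/Base.lean
section






/-!
# helper107 — S18 / M3-T : `BaseModel107` = `GoodModel` without the branch-set fields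

`BaseModel107 Lc Ec Fc R V w x` consists of all fields of the frozen `Alg.GoodModel` (v4) except
`S_mem`, `S_distinct`, `S_unit`, `unramified`.  For `x = j` it holds for every `ℓ ∤ M`
(including `ℓ = 2, 3`, where `GoodModel … j {0, 1728}` is FALSE because `0 ≡ 1728`).

Generic transfer lemmas `j ↦ t` for the easy fields: `transcendental`, `finite`, `separable`,
`t ∈ V` (integral closedness of `V` in `Fc`).
-/

set_option autoImplicit false

namespace Fermat.Agent.S18.H107

open Polynomial Fermat.Agent.S18.Alg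

variable {Ω : Type*} [Field Ω]

/-- All fields of `Alg.GoodModel` that do not mention the branch set `S`. -/
structure BaseModel107 (Lc Ec Fc : Subfield Ω) (R V : Subring Ω) (w x : Ω) : Prop where
  charZero : CharZero Ω
  R_le : (R : Set Ω) ⊆ Ec
  R_total : ∀ e ∈ Ec, e ∈ R ∨ e⁻¹ ∈ R
  w_mem : w ∈ R
  w_ne_zero : w ≠ 0
  w_inv_not_mem : w⁻¹ ∉ R
  w_gen : ∀ r ∈ R, r⁻¹ ∉ R → r * w⁻¹ ∈ R
  w_discrete : ∀ r ∈ R, r ≠ 0 → ∃ n : ℕ, r * (w⁻¹) ^ n ∈ R ∧ (r * (w⁻¹) ^ n)⁻¹ ∈ R
  residue_perfect : ∃ p : ℕ, p.Prime ∧ (p : Ω) * w⁻¹ ∈ R ∧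
    ∀ r ∈ R, ∃ s ∈ R, (r - s ^ p) * w⁻¹ ∈ R
  E_le_L : Ec ≤ Lc
  E_le_F : Ec ≤ Fc
  L_algebraic : ∀ a ∈ Lc, IsAlgebraic Ec a
  L_algClosed : IsAlgClosed Lc
  E_closed_in_F : ∀ f ∈ Fc, IsAlgebraic Ec f → f ∈ Ec
  compositum : Subfield.closure ((Fc : Set Ω) ∪ Lc) = ⊤
  x_mem : x ∈ Fc
  x_transcendental : Transcendental Lc x
  finite : ∃ s : Finset Ω, (s : Set Ω) ⊆ Fc ∧
    ∀ f ∈ Fc, f ∈ Submodule.span (ratField Ec x) (s : Set Ω)
  V_le : (V : Set Ω) ⊆ Fc
  V_total : ∀ f ∈ Fc, f ∈ V ∨ f⁻¹ ∈ V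
  R_le_V : R ≤ V
  w_inv_not_mem_V : w⁻¹ ∉ V
  V_gen : ∀ f ∈ V, f⁻¹ ∉ V → f * w⁻¹ ∈ V
  x_mem_V : x ∈ V
  gauss : ∀ P : Polynomial Ω, (∀ i, P.coeff i ∈ R) → (∃ i, P.coeff i ≠ 0 ∧ (P.coeff i)⁻¹ ∈ R) →
    (P.eval x)⁻¹ ∈ V
  qep_fin : ∀ b ∈ chart Fc R x, b * w⁻¹ ∈ V → b * w⁻¹ ∈ chart Fc R x
  qep_inf : ∀ b ∈ chart Fc R x⁻¹, b * w⁻¹ ∈ V → b * w⁻¹ ∈ chart Fc R x⁻¹
  separable : ∀ f ∈ V, ∃ P : Polynomial Ω, (∀ i, P.coeff i ∈ polyRing R x) ∧
    P.eval f * w⁻¹ ∈ V ∧ (Polynomial.derivative P).eval f ≠ 0 ∧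
    ((Polynomial.derivative P).eval f)⁻¹ ∈ V

theorem baseModel_of_goodModel107 {Lc Ec Fc : Subfield Ω} {R V : Subring Ω} {w x : Ω}
    {S : Finset Ω} (h : GoodModel Lc Ec Fc R V w x S) : BaseModel107 Lc Ec Fc R V w x where
  charZero := h.charZero
  R_le := h.R_le
  R_total := h.R_total
  w_mem := h.w_mem
  w_ne_zero := h.w_ne_zero
  w_inv_not_mem := h.w_inv_not_mem
  w_gen := h.w_gen
  w_discrete := h.w_discrete
  residue_perfect := h.residue_perfect
  E_le_L := h.E_le_L
  E_le_F := h.E_le_F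
  L_algebraic := h.L_algebraic
  L_algClosed := h.L_algClosed
  E_closed_in_F := h.E_closed_in_F
  compositum := h.compositum
  x_mem := h.x_mem
  x_transcendental := h.x_transcendental
  finite := h.finite
  V_le := h.V_le
  V_total := h.V_total
  R_le_V := h.R_le_V
  w_inv_not_mem_V := h.w_inv_not_mem_V
  V_gen := h.V_gen
  x_mem_V := h.x_mem_V
  gauss := h.gauss
  qep_fin := h.qep_fin
  qep_inf := h.qep_inf
  separable := h.separable

theorem BaseModel107.toGoodModel {Lc Ec Fc : Subfield Ω} {R V : Subring Ω} {w x : Ω}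
    (h : BaseModel107 Lc Ec Fc R V w x) (S : Finset Ω) (S_mem : ∀ s ∈ S, s ∈ R)
    (S_distinct : ∀ s ∈ S, ∀ t ∈ S, s ≠ t → (s - t)⁻¹ ∈ R)
    (S_unit : ∀ s ∈ S, s ≠ 0 → s⁻¹ ∈ R)
    (unramified : ∀ O : ValuationSubring Ω, (∀ a ∈ Lc, a ∈ O) → ∀ c ∈ Lc, c ∉ S →
      x - c ∈ O → (x - c)⁻¹ ∉ O → ∀ t ∈ O, t⁻¹ ∉ O → t * (x - c)⁻¹ ∈ O) :
    GoodModel Lc Ec Fc R V w x S where
  charZero := h.charZero
  R_le := h.R_le
  R_total := h.R_total
  w_mem := h.w_mem
  w_ne_zero := h.w_ne_zero
  w_inv_not_mem := h.w_inv_not_mem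
  w_gen := h.w_gen
  w_discrete := h.w_discrete
  residue_perfect := h.residue_perfect
  E_le_L := h.E_le_L
  E_le_F := h.E_le_F
  L_algebraic := h.L_algebraic
  L_algClosed := h.L_algClosed
  E_closed_in_F := h.E_closed_in_F
  compositum := h.compositum
  x_mem := h.x_mem
  x_transcendental := h.x_transcendental
  finite := h.finite
  V_le := h.V_le
  V_total := h.V_total
  R_le_V := h.R_le_V
  w_inv_not_mem_V := h.w_inv_not_mem_V
  V_gen := h.V_gen
  x_mem_V := h.x_mem_V
  gauss := h.gauss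
  qep_fin := h.qep_fin
  qep_inf := h.qep_inf
  separable := h.separable
  S_mem := S_mem
  S_distinct := S_distinct
  S_unit := S_unit
  unramified := unramified

/-- A subring `V` that is "total at `b`" contains `b` as soon as `b` is integral over a subring
of `V` (valuation rings are integrally closed). -/
theorem mem_of_isIntegral_of_total107 (V T : Subring Ω) (hT : T ≤ V) {b : Ω}
    (hb : b ∈ V ∨ b⁻¹ ∈ V) (hint : IsIntegral T b) : b ∈ V := by
  rcases hb with h | h
  · exact h
  obtain ⟨P, hP, hc, hPb⟩ := (isIntegral_iff_exists_poly107 T b).1 hint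
  rcases eq_or_ne b 0 with rfl | hb0
  · exact V.zero_mem
  have hn : P.natDegree ≠ 0 := by
    intro h0
    have h1 : P = 1 := by
      have := Polynomial.eq_C_of_natDegree_eq_zero h0
      rw [this, ← h0]
      have hl : P.coeff P.natDegree = 1 := hP
      rw [hl, map_one]
    rw [h1, eval_one] at hPb
    exact one_ne_zero hPb
  obtain ⟨n, hn'⟩ := Nat.exists_eq_succ_of_ne_zero hn
  rw [eval_eq_sum_range, hn', Finset.sum_range_succ] at hPb
  have hlead : P.coeff (n + 1) = 1 := by
    have : P.coeff P.natDegree = 1 := hP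
    rwa [hn'] at this
  rw [hlead, one_mul] at hPb
  -- `b = - ∑ i < n+1, a_i * (b⁻¹) ^ (n - i)`
  have key : b = -∑ i ∈ Finset.range (n + 1), P.coeff i * (b⁻¹) ^ (n - i) := by
    have h1 : b ^ (n + 1) = -∑ i ∈ Finset.range (n + 1), P.coeff i * b ^ i := by
      linear_combination hPb
    calc b = b ^ (n + 1) * (b⁻¹) ^ n := by
          rw [pow_succ, inv_pow]
          field_simp
      _ = (-∑ i ∈ Finset.range (n + 1), P.coeff i * b ^ i) * (b⁻¹) ^ n := by rw [h1]
      _ = -∑ i ∈ Finset.range (n + 1), P.coeff i * (b⁻¹) ^ (n - i) := by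
          rw [neg_mul, Finset.sum_mul]
          congr 1
          refine Finset.sum_congr rfl fun i hi => ?_
          have hi' : i ≤ n := Nat.lt_succ_iff.1 (Finset.mem_range.1 hi)
          have e : (b⁻¹) ^ n = (b⁻¹) ^ i * (b⁻¹) ^ (n - i) := by
            rw [← pow_add, Nat.add_sub_cancel' hi']
          rw [e, mul_assoc, ← mul_assoc (b ^ i), inv_pow b i,
            mul_inv_cancel₀ (pow_ne_zero _ hb0), one_mul]
  rw [key]
  refine V.neg_mem (V.sum_mem fun i _ => V.mul_mem (hT (hc i)) (V.pow_mem h _))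

theorem ratField_le107 {Ec : Subfield Ω} {x y : Ω} (h : x ∈ ratField Ec y) :
    ratField Ec x ≤ ratField Ec y := by
  refine Subfield.closure_le.2 ?_
  rintro c (hc | hc)
  · exact Subfield.subset_closure (Or.inl hc)
  · rw [Set.mem_singleton_iff] at hc
    rw [hc]
    exact h

theorem self_mem_ratField107 (Ec : Subfield Ω) (x : Ω) : x ∈ ratField Ec x :=
  Subfield.subset_closure (Or.inr rfl)

theorem natCast_mem_ratField107 (Ec : Subfield Ω) (x : Ω) (n : ℕ) [n.AtLeastTwo] :
    (OfNat.ofNat n : Ω) ∈ ratField Ec x := ofNat_mem _ n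

/-- Spans over a bigger subfield are bigger. -/
theorem span_mono_subfield107 {K₁ K₂ : Subfield Ω} (h : K₁ ≤ K₂) (s : Set Ω) {f : Ω}
    (hf : f ∈ Submodule.span K₁ s) : f ∈ Submodule.span K₂ s := by
  induction hf using Submodule.span_induction with
  | mem x hx => exact Submodule.subset_span hx
  | zero => exact Submodule.zero_mem _
  | add x y _ _ hx hy => exact Submodule.add_mem _ hx hy
  | smul a x _ hx =>
    have : a • x = (⟨(a : Ω), h a.2⟩ : K₂) • x := rfl
    rw [this]
    exact Submodule.smul_mem _ _ hx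

theorem finite_transfer107 {Ec Fc : Subfield Ω} {j t : Ω} (hj : j ∈ ratField Ec t)
    (h : ∃ s : Finset Ω, (s : Set Ω) ⊆ Fc ∧
      ∀ f ∈ Fc, f ∈ Submodule.span (ratField Ec j) (s : Set Ω)) :
    ∃ s : Finset Ω, (s : Set Ω) ⊆ Fc ∧
      ∀ f ∈ Fc, f ∈ Submodule.span (ratField Ec t) (s : Set Ω) := by
  obtain ⟨s, hs, hspan⟩ := h
  exact ⟨s, hs, fun f hf => span_mono_subfield107 (ratField_le107 hj) _ (hspan f hf)⟩

/-- `separable` passes from `j` to `t` when `j * e ∈ R[t]` for some `e ∈ R[t]` that is a unit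
of `V`. -/
theorem separable_transfer107 {R V : Subring Ω} {w j t e : Ω} (he : e ∈ polyRing R t)
    (hje : j * e ∈ polyRing R t) (heV : e ∈ V) (heV' : e⁻¹ ∈ V) (he0 : e ≠ 0)
    (h : ∀ f ∈ V, ∃ P : Polynomial Ω, (∀ i, P.coeff i ∈ polyRing R j) ∧
      P.eval f * w⁻¹ ∈ V ∧ (Polynomial.derivative P).eval f ≠ 0 ∧
      ((Polynomial.derivative P).eval f)⁻¹ ∈ V) :
    ∀ f ∈ V, ∃ P : Polynomial Ω, (∀ i, P.coeff i ∈ polyRing R t) ∧
      P.eval f * w⁻¹ ∈ V ∧ (Polynomial.derivative P).eval f ≠ 0 ∧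
      ((Polynomial.derivative P).eval f)⁻¹ ∈ V := by
  intro f hf
  obtain ⟨P, hc, hPf, hd0, hdV⟩ := h f hf
  have hex : ∀ i, ∃ d : ℕ, ∀ d', d ≤ d' → P.coeff i * e ^ d' ∈ polyRing R t := fun i =>
    exists_pow_mul_mem107 (le_polyRing107 R t) he hje (hc i)
  choose d hd using hex
  set D := (Finset.range (P.natDegree + 1)).sup d with hD
  have hDi : ∀ i, P.coeff i * e ^ D ∈ polyRing R t := by
    intro i
    by_cases hi : i ∈ Finset.range (P.natDegree + 1)
    · exact hd i D (Finset.le_sup hi)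
    · rw [Finset.mem_range, not_lt] at hi
      rw [coeff_eq_zero_of_natDegree_lt (by omega), zero_mul]
      exact Subring.zero_mem _
  refine ⟨C (e ^ D) * P, fun i => ?_, ?_, ?_, ?_⟩
  · rw [coeff_C_mul, mul_comm]
    exact hDi i
  · rw [eval_mul, eval_C, mul_assoc]
    exact V.mul_mem (V.pow_mem heV D) hPf
  · rw [derivative_C_mul, eval_mul, eval_C]
    exact mul_ne_zero (pow_ne_zero _ he0) hd0
  · rw [derivative_C_mul, eval_mul, eval_C, mul_inv, ← inv_pow]
    exact V.mul_mem (V.pow_mem heV' D) hdV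

end Fermat.Agent.S18.H107

end
-- ===== PACK-END S18/H107/Base.lean

-- ===== PACK-BEGIN S18/H438/Front/Transport2.lean
section


/-!
# S18 / ALG-FRONT (helper438), part 5: transport of charts and of the `q`-expansion principle

* `mem_baseRing_iff`  : `a ∈ R[z] ⊆ Fc`  ↔  `(a : Ω) ∈ Alg.polyRing R z`;
* `mem_chartRing_iff` : `b ∈ chartRing (Rf Fc R) z`  ↔  `(b : Ω) ∈ Alg.chart Fc R z`;
* `transcendental_xf`, `transcendental_xf_inv`;
* `qep_fin`, `qep_inf` in the form used by `Front/Gauss.lean`.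
-/

set_option autoImplicit false
set_option linter.style.haveILetI false
set_option linter.unusedSectionVars false

noncomputable section

namespace Fermat.Agent.S18.H438

open Alg Polynomial

variable {Ω : Type*} [Field Ω] {Lc Ec Fc : Subfield Ω} {R V : Subring Ω} {w x : Ω}
  {S : Finset Ω}

section Generic

variable (Fc R) (z : Fc)

/-- `R[z] ⊆ Fc` maps into `polyRing R z ⊆ Ω`. -/
theorem coe_mem_polyRing_of_mem_baseRing {a : Fc} (ha : a ∈ baseRing (Rf Fc R) z) :
    (a : Ω) ∈ polyRing R (z : Ω) := by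
  unfold baseRing at ha
  induction ha using Algebra.adjoin_induction with
  | mem y hy =>
    rw [Set.mem_singleton_iff] at hy
    subst hy
    exact Subring.subset_closure (Or.inr rfl)
  | algebraMap r => exact Subring.subset_closure (Or.inl r.2)
  | add y y' _ _ hy hy' => exact (polyRing R (z : Ω)).add_mem hy hy'
  | mul y y' _ _ hy hy' => exact (polyRing R (z : Ω)).mul_mem hy hy'

/-- `polyRing R z ⊆ Ω` comes from `R[z] ⊆ Fc`, provided `R ⊆ Fc`. -/
theorem exists_mem_baseRing_of_mem_polyRing (hR : ∀ r ∈ R, r ∈ Fc) {c : Ω}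
    (hc : c ∈ polyRing R (z : Ω)) : ∃ a ∈ baseRing (Rf Fc R) z, (a : Ω) = c := by
  have hle : polyRing R (z : Ω) ≤ (baseRing (Rf Fc R) z).toSubring.map Fc.subtype := by
    unfold polyRing
    rw [Subring.closure_le]
    rintro y (hy | hy)
    · refine ⟨⟨y, hR y hy⟩, ?_, rfl⟩
      exact (baseRing (Rf Fc R) z).algebraMap_mem (⟨⟨y, hR y hy⟩, hy⟩ : Rf Fc R)
    · rw [Set.mem_singleton_iff] at hy
      subst hy
      exact ⟨z, self_mem_baseRing (Rf Fc R) z, rfl⟩
  obtain ⟨a, ha, rfl⟩ := hle hc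
  exact ⟨a, ha, rfl⟩

theorem mem_baseRing_iff (hR : ∀ r ∈ R, r ∈ Fc) {a : Fc} :
    a ∈ baseRing (Rf Fc R) z ↔ (a : Ω) ∈ polyRing R (z : Ω) := by
  refine ⟨coe_mem_polyRing_of_mem_baseRing Fc R z, fun h => ?_⟩
  obtain ⟨a', ha', h'⟩ := exists_mem_baseRing_of_mem_polyRing Fc R z hR h
  rwa [← Subtype.ext h']

/-- the comparison map `R[z] → polyRing R z` -/
def baseToPoly : baseRing (Rf Fc R) z →+* polyRing R (z : Ω) :=
  (Fc.subtype.comp (baseRing (Rf Fc R) z).toSubring.subtype).codRestrict (polyRing R (z : Ω))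
    (fun a => coe_mem_polyRing_of_mem_baseRing Fc R z a.2)

theorem coe_baseToPoly (a : baseRing (Rf Fc R) z) :
    ((baseToPoly Fc R z a : polyRing R (z : Ω)) : Ω) = ((a : Fc) : Ω) := rfl

theorem algebraMap_comp_baseToPoly :
    (algebraMap (polyRing R (z : Ω)) Ω).comp (baseToPoly Fc R z) =
      Fc.subtype.comp (algebraMap (baseRing (Rf Fc R) z) Fc) := rfl

theorem baseToPoly_surjective (hR : ∀ r ∈ R, r ∈ Fc) :
    Function.Surjective (baseToPoly Fc R z) := by
  rintro ⟨c, hc⟩
  obtain ⟨a, ha, h⟩ := exists_mem_baseRing_of_mem_polyRing Fc R z hR hc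
  exact ⟨⟨a, ha⟩, Subtype.ext h⟩

/-- integrality over `R[z]` (inside `Fc`) is integrality over `polyRing R z` (inside `Ω`) -/
theorem isIntegral_baseRing_iff (hR : ∀ r ∈ R, r ∈ Fc) {b : Fc} :
    IsIntegral (baseRing (Rf Fc R) z) b ↔ IsIntegral (polyRing R (z : Ω)) (b : Ω) := by
  constructor
  · intro h
    exact IsIntegral.map_of_comp_eq (baseToPoly Fc R z) Fc.subtype
      (algebraMap_comp_baseToPoly Fc R z) h
  · rintro ⟨q, hq, hqb⟩
    -- lift the monic polynomial along the surjection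
    obtain ⟨p, hpq, hpdeg, hpmonic⟩ :=
      Polynomial.lifts_and_degree_eq_and_monic
        ((Polynomial.mem_lifts q).2 (by
          have hsurj := Polynomial.map_surjective (baseToPoly Fc R z)
            (baseToPoly_surjective Fc R z hR)
          exact hsurj q)) hq
    refine ⟨p, hpmonic, ?_⟩
    have h1 : Fc.subtype (Polynomial.eval₂ (algebraMap (baseRing (Rf Fc R) z) Fc) b p) = 0 := by
      rw [Polynomial.hom_eval₂, ← algebraMap_comp_baseToPoly, ← Polynomial.eval₂_map, hpq]
      exact hqb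
    exact Fc.subtype_injective (by rw [h1, map_zero])

theorem mem_chartRing_iff (hR : ∀ r ∈ R, r ∈ Fc) {b : Fc} :
    b ∈ chartRing (Rf Fc R) z ↔ (b : Ω) ∈ chart Fc R (z : Ω) := by
  show IsIntegral (baseRing (Rf Fc R) z) b ↔ _
  rw [isIntegral_baseRing_iff Fc R z hR]
  exact ⟨fun h => ⟨b.2, h⟩, fun h => h.2⟩

end Generic

namespace GoodModelFront

variable (G : GoodModel Lc Ec Fc R V w x S)

include G

/-- `x` is transcendental over `R`. -/
theorem transcendental_xf : Transcendental (Rf Fc R) (xf G) := by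
  rintro ⟨p, hp0, hp⟩
  let i : Rf Fc R →+* Lc :=
    (Fc.subtype.comp (Rf Fc R).subtype).codRestrict Lc.toSubring
      (fun r => G.E_le_L (G.R_le r.2))
  have hi : Function.Injective i := by
    intro a b hab
    apply Subtype.ext
    apply Subtype.ext
    exact congrArg (fun t : Lc => (t : Ω)) hab
  have hcomp : (algebraMap Lc Ω).comp i = Fc.subtype.comp (algebraMap (Rf Fc R) Fc) := rfl
  apply G.x_transcendental
  refine ⟨p.map i, (Polynomial.map_ne_zero_iff hi).2 hp0, ?_⟩
  rw [Polynomial.aeval_def, Polynomial.eval₂_map, hcomp]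
  have h1 := Polynomial.hom_eval₂ p (algebraMap (Rf Fc R) Fc) Fc.subtype (xf G)
  rw [Polynomial.aeval_def] at hp
  rw [hp, map_zero] at h1
  exact h1.symm

theorem transcendental_xf_inv : Transcendental (Rf Fc R) (xf G)⁻¹ :=
  fun h => transcendental_xf G (IsAlgebraic.inv_iff.1 h)

/-- `qep` on the finite chart, in `Fc`. -/
theorem qep_fin' : ∀ b ∈ chartRing (Rf Fc R) (xf G), b * (wf G)⁻¹ ∈ Vf G →
    b * (wf G)⁻¹ ∈ chartRing (Rf Fc R) (xf G) := by
  intro b hb hbV
  rw [mem_chartRing_iff Fc R _ (fun r hr => R_le_Fc G hr)] at hb ⊢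
  exact G.qep_fin _ hb hbV

/-- `qep` on the chart at infinity, in `Fc`. -/
theorem qep_inf' : ∀ b ∈ chartRing (Rf Fc R) (xf G)⁻¹, b * (wf G)⁻¹ ∈ Vf G →
    b * (wf G)⁻¹ ∈ chartRing (Rf Fc R) (xf G)⁻¹ := by
  intro b hb hbV
  rw [mem_chartRing_iff Fc R _ (fun r hr => R_le_Fc G hr)] at hb ⊢
  exact G.qep_inf _ hb hbV

end GoodModelFront

end Fermat.Agent.S18.H438

end
end
-- ===== PACK-END S18/H438/Front/Transport2.lean

-- ===== PACK-BEGIN S18/B12/H278/SF.lean
section


/-!
# b2-SF and b2-SF' (helper278): proofs of the frozen statements `SFIdemStatement` and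
`SFLatticeStatement` of `Fermat/Agent/S18/B12/Spec.lean`.

Both are instances of `exists_smul_mem_range_of_isIntegral` (`Transfer.lean`), which is the
localisation at `(t)` of the DVR normality criterion `mem_range_of_isIntegral`
(`Fermat/Agent/S37/H278/Normal.lean`).
-/

set_option autoImplicit false
set_option linter.style.haveILetI false
set_option linter.unusedSectionVars false

namespace Fermat.Agent.S18.B12.H278

open Module Polynomial Fermat.Agent.S37.H278

universe u v

/-- An idempotent is integral. -/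
theorem isIntegral_of_mul_self_eq {Λ : Type*} [CommRing Λ] [Nontrivial Λ] {L : Type*} [CommRing L] [Algebra Λ L]
    {ε : L} (hε : ε * ε = ε) : IsIntegral Λ ε := by
  refine ⟨X ^ 2 - X, ?_, ?_⟩
  · apply monic_X_pow_sub
    rw [degree_X]
    norm_num
  · simp [pow_two, hε]

/-- **b2-SF'** (= frozen statement `SFIdemStatement` of `B12/Spec.lean`, unfolded). -/
theorem sfIdem :
  ∀ (Λ : Type u) [CommRing Λ] [IsDomain Λ] [IsPrincipalIdealRing Λ] (t : Λ) (_ : Prime t)
    (L : Type v) [CommRing L] [Algebra Λ L] [Module.IsTorsionFree Λ L] (C : Subalgebra Λ L)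
    (n : ℕ) (b : Module.Basis (Fin n) Λ C)
    (s : ℕ) (y : Fin s → C)
    (_ : ∀ x : C, ∃ a : Fin s → Λ,
        x - ∑ i, a i • y i ∈ (Ideal.span {algebraMap Λ C t}).radical),
    Algebra.discr Λ b ≠ 0 → ¬ t ^ (n - s + 1) ∣ Algebra.discr Λ b →
    ∀ ε : L, ε * ε = ε → (∃ g₀ : Λ, g₀ ≠ 0 ∧ g₀ • ε ∈ C) → ∃ g : Λ, ¬ t ∣ g ∧ g • ε ∈ C := by
  intro Λ _ _ _ t ht L _ _ _ C n b s y hy _ hd ε hε hε0
  have hL : ∀ (g : Λ) (l : L), g ≠ 0 → g • l = 0 → l = 0 := by
    intro g l hg h
    have hreg : IsSMulRegular L g := Module.IsTorsionFree.isSMulRegular (IsRegular.of_ne_zero hg)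
    exact hreg (by simpa using h)
  have hx0 : ∃ g₀ : Λ, g₀ ≠ 0 ∧ g₀ • ε ∈ (C.val : C →ₐ[Λ] L).range := by
    obtain ⟨g₀, h0, h1⟩ := hε0
    exact ⟨g₀, h0, ⟨⟨_, h1⟩, rfl⟩⟩
  obtain ⟨g, hg, c, hc⟩ := exists_smul_mem_range_of_isIntegral ht hL C.val
    Subtype.val_injective b s y hy (by simpa using hd) ε (isIntegral_of_mul_self_eq hε) hx0
  refine ⟨g, hg, ?_⟩
  have hc' : (c : L) = g • ε := hc
  rw [← hc']
  exact c.2

/-- An injective linear map between free modules of the same finite rank over a domain has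
torsion cokernel: `d • N ⊆ range f` for some `d ≠ 0` (`d` = determinant). -/
theorem exists_smul_mem_range_of_injective {Λ : Type*} [CommRing Λ] [IsDomain Λ]
    {M N : Type*} [AddCommGroup M] [AddCommGroup N] [Module Λ M] [Module Λ N]
    {ι : Type*} [Fintype ι] [DecidableEq ι] (b : Basis ι Λ M) (bt : Basis ι Λ N)
    (f : M →ₗ[Λ] N) (hf : Function.Injective f) :
    ∃ d : Λ, d ≠ 0 ∧ ∀ z : N, d • z ∈ LinearMap.range f := by
  classical
  set A := LinearMap.toMatrix b bt f with hA
  have hdet : A.det ≠ 0 := by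
    intro h0
    obtain ⟨v, hv, hAv⟩ := Matrix.exists_mulVec_eq_zero_iff.mpr h0
    have h1 : f (b.equivFun.symm v) = 0 := by
      apply bt.equivFun.injective
      rw [map_zero]
      have := LinearMap.toMatrix_mulVec_repr b bt f (b.equivFun.symm v)
      rw [← hA] at this
      have hv' : ⇑(b.repr (b.equivFun.symm v)) = v := by
        rw [← Basis.equivFun_apply, LinearEquiv.apply_symm_apply]
      rw [hv', hAv] at this
      funext i
      have := congrFun this i
      simpa using this.symm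
    have h2 : b.equivFun.symm v = 0 := hf (by rw [h1, map_zero])
    apply hv
    have := congrArg b.equivFun h2
    rw [LinearEquiv.apply_symm_apply, map_zero] at this
    exact this
  refine ⟨A.det, hdet, fun z => ⟨Matrix.toLin bt b A.adjugate z, ?_⟩⟩
  have h3 : f ∘ₗ Matrix.toLin bt b A.adjugate = A.det • LinearMap.id := by
    conv_lhs => rw [← Matrix.toLin_toMatrix b bt f, ← hA]
    rw [← Matrix.toLin_mul, Matrix.mul_adjugate, map_smul, Matrix.toLin_one]
  have := LinearMap.congr_fun h3 z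
  simpa using this

/-- **b2-SF** (= frozen statement `SFLatticeStatement` of `B12/Spec.lean`, unfolded). -/
theorem sfLattice :
  ∀ (Λ : Type u) [CommRing Λ] [IsDomain Λ] [IsPrincipalIdealRing Λ] (t : Λ) (_ : Prime t)
    (L : Type v) [CommRing L] [Algebra Λ L] (C Ct : Subalgebra Λ L) (_ : C ≤ Ct)
    (n : ℕ) (b : Module.Basis (Fin n) Λ C) (_ : Module.Basis (Fin n) Λ Ct)
    (s : ℕ) (y : Fin s → C)
    (_ : ∀ x : C, ∃ a : Fin s → Λ,
        x - ∑ i, a i • y i ∈ (Ideal.span {algebraMap Λ C t}).radical),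
    Algebra.discr Λ b ≠ 0 → ¬ t ^ (n - s + 1) ∣ Algebra.discr Λ b →
    ∀ x ∈ Ct, ∃ g : Λ, ¬ t ∣ g ∧ g • x ∈ C := by
  intro Λ _ _ _ t ht L _ _ C Ct hle n b bt s y hy _ hd x hx
  haveI : Module.Free Λ Ct := Module.Free.of_basis bt
  have hL : ∀ (g : Λ) (l : Ct), g ≠ 0 → g • l = 0 → l = 0 := by
    intro g l hg h
    exact smul_eq_zero_imp hg h
  have hf : Function.Injective (Subalgebra.inclusion hle) := Subalgebra.inclusion_injective hle
  haveI : Module.Finite Λ Ct := Module.Finite.of_basis bt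
  have hxint : IsIntegral Λ (⟨x, hx⟩ : Ct) := Algebra.IsIntegral.isIntegral _
  obtain ⟨d, hd0, hdr⟩ := exists_smul_mem_range_of_injective b bt
    (Subalgebra.inclusion hle).toLinearMap hf
  have hx0 : ∃ g₀ : Λ, g₀ ≠ 0 ∧ g₀ • (⟨x, hx⟩ : Ct) ∈ (Subalgebra.inclusion hle).range := by
    obtain ⟨c, hc⟩ := hdr ⟨x, hx⟩
    exact ⟨d, hd0, c, hc⟩
  obtain ⟨g, hg, c, hc⟩ := exists_smul_mem_range_of_isIntegral ht hL (Subalgebra.inclusion hle)
    hf b s y hy (by simpa using hd) ⟨x, hx⟩ hxint hx0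
  refine ⟨g, hg, ?_⟩
  have hc' : ((Subalgebra.inclusion hle c : Ct) : L) = g • x := congrArg Subtype.val hc
  rw [← hc']
  exact c.2

end Fermat.Agent.S18.B12.H278

end
-- ===== PACK-END S18/B12/H278/SF.lean

-- ===== PACK-BEGIN S18/H754/HncTyped.lean
section


/-!
# S18 / ALG-FRONT / hNC adapter, typed form

The hypothesis `hNC` of `B12.B2RegularStatement`, from the `unramified` field of `Alg.GoodModel`:

    hNC_typed : ∀ π : R[X], Prime π → ¬ Associated π (C w) → (∀ c ∈ S, ¬ Associated π (X - C c)) →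
        (Ideal.span {algebraMap R[X] B π}).IsRadical

for `R` a DVR of characteristic `0`, `B` a finite torsion-free integrally closed `R[X]`-algebra,
domain, with `C w` prime in `B`, embedded in a field `Ω` with an algebraically closed subfield of
constants `Lc ⊇ R`, algebraic over `R`.
-/

set_option autoImplicit false

noncomputable section

namespace Fermat.Agent.S18.H754

open Polynomial

section Dvd

variable {A B : Type*} [CommRing A] [IsDomain A] [IsIntegrallyClosed A]
  [CommRing B] [IsDomain B] [Algebra A B] [Module.IsTorsionFree A B] [Algebra.IsIntegral A B]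

/-- Divisibility in an integral torsion-free extension domain of an integrally closed domain
descends. -/
theorem dvd_of_algebraMap_dvd {a q : A} (ha : a ≠ 0)
    (h : algebraMap A B a ∣ algebraMap A B q) : a ∣ q := by
  have hinj : Function.Injective (algebraMap A B) := FaithfulSMul.algebraMap_injective A B
  obtain ⟨b, hb⟩ := h
  have hbint : IsIntegral A b := Algebra.IsIntegral.isIntegral b
  set p : A[X] := C a * X - C q with hp
  have hpb : aeval b p = 0 := by
    rw [hp, map_sub, map_mul, aeval_C, aeval_C, aeval_X, hb, sub_self]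
  have hdvd : minpoly A b ∣ p := minpoly.isIntegrallyClosed_dvd hbint hpb
  have hp1 : p.coeff 1 = a := by
    rw [hp]
    simp
  have hp0 : p ≠ 0 := by
    intro h0
    rw [h0, coeff_zero] at hp1
    exact ha hp1.symm
  have hpdeg : p.natDegree ≤ 1 := by
    rw [hp]
    refine (natDegree_sub_le _ _).trans (max_le ?_ ?_)
    · exact (natDegree_C_mul_X a ha).le
    · rw [natDegree_C]; exact Nat.zero_le _
  have hmdeg : (minpoly A b).natDegree ≤ 1 := (natDegree_le_of_dvd hdvd hp0).trans hpdeg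
  have hmpos : 0 < (minpoly A b).natDegree := minpoly.natDegree_pos hbint
  have hm1 : (minpoly A b).natDegree = 1 := le_antisymm hmdeg hmpos
  have hmonic : (minpoly A b).Monic := minpoly.monic hbint
  have hmeq := eq_X_add_C_of_natDegree_le_one hmdeg
  have hlead : (minpoly A b).coeff 1 = 1 := by
    have := hmonic.coeff_natDegree
    rwa [hm1] at this
  rw [hlead, C_1, one_mul] at hmeq
  have hmb : aeval b (minpoly A b) = 0 := minpoly.aeval A b
  rw [hmeq, map_add, aeval_X, aeval_C] at hmb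
  have hb' : b = algebraMap A B (-(minpoly A b).coeff 0) := by
    rw [map_neg]
    exact eq_neg_of_add_eq_zero_left hmb
  refine ⟨-(minpoly A b).coeff 0, ?_⟩
  apply hinj
  rw [map_mul, ← hb', hb]

end Dvd

section Constants

variable {R : Type*} [CommRing R] [IsDomain R] [IsDiscreteValuationRing R]
  {Ω : Type*} [Field Ω]

/-- An element algebraic over a DVR `R` becomes integral after multiplication by a power of the
uniformiser. -/
theorem exists_pow_mul_isIntegralElem (ι : R →+* Ω) (w : R) (hw : Irreducible w)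
    (a : Ω) (ha : ∃ p : R[X], p ≠ 0 ∧ eval₂ ι a p = 0) :
    ∃ n : ℕ, ι.IsIntegralElem (ι w ^ n * a) := by
  letI : Algebra R Ω := ι.toAlgebra
  have halg : IsAlgebraic R a := by
    obtain ⟨p, hp0, hp⟩ := ha
    exact ⟨p, hp0, by rw [aeval_def]; exact hp⟩
  obtain ⟨y, hy0, hy⟩ := halg.exists_integral_multiple
  obtain ⟨n, u, rfl⟩ := IsDiscreteValuationRing.eq_unit_mul_pow_irreducible hy0 hw
  refine ⟨n, ?_⟩
  have h1 : IsIntegral R ((((u⁻¹ : Rˣ) : R)) • ((u : R) * w ^ n) • a) :=
    IsIntegral.smul _ hy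
  have h2 : (((u⁻¹ : Rˣ) : R)) • ((u : R) * w ^ n) • a = ι w ^ n * a := by
    rw [smul_smul, ← mul_assoc, Units.inv_mul, one_mul, Algebra.smul_def, map_pow]
    rfl
  rw [h2] at h1
  exact h1

variable [CharZero R]

/-- Factorisation over the constants of a nonconstant irreducible polynomial over `R`: pairwise
distinct roots. -/
theorem exists_factorization_of_irreducible (ι : R →+* Ω) (hι : Function.Injective ι)
    (Lc : Subfield Ω) (hLcl : IsAlgClosed Lc) (hRL : ∀ r, ι r ∈ Lc)
    (π : R[X]) (hπ : Irreducible π) (hdeg : π.natDegree ≠ 0) :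
    ∃ (roots : Finset Ω) (lc : Ω), lc ∈ Lc ∧ lc ≠ 0 ∧
      (∀ c ∈ roots, c ∈ Lc ∧ eval₂ ι c π = 0) ∧
      ∀ x : Ω, eval₂ ι x π = lc * ∏ c ∈ roots, (x - c) := by
  classical
  haveI := hLcl
  let K := FractionRing R
  have hprim : π.IsPrimitive := hπ.isPrimitive hdeg
  have hK : Irreducible (π.map (algebraMap R K)) :=
    (hprim.irreducible_iff_irreducible_map_fraction_map).1 hπ
  haveI : CharZero K := charZero_of_injective_algebraMap (IsFractionRing.injective R K)
  have hsepK : (π.map (algebraMap R K)).Separable := hK.separable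
  let ιL : R →+* Lc := ι.codRestrict Lc hRL
  have hιL : Function.Injective ιL := by
    intro a b hab
    apply hι
    exact congrArg Subtype.val hab
  let φ : K →+* Lc := IsFractionRing.lift hιL
  have hφ : φ.comp (algebraMap R K) = ιL := by
    ext r
    exact congrArg Subtype.val (IsFractionRing.lift_algebraMap hιL r)
  set Q : Lc[X] := π.map ιL with hQ
  have hQ' : Q = (π.map (algebraMap R K)).map φ := by
    rw [Polynomial.map_map, hφ]
  have hsepQ : Q.Separable := by
    rw [hQ']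
    exact hsepK.map
  have hsplit : Q.Splits := IsAlgClosed.splits Q
  have hQfac := hsplit.eq_prod_roots
  have hnodup : Q.roots.Nodup := nodup_roots hsepQ
  have hQ0 : Q ≠ 0 := by
    rw [hQ]
    exact (Polynomial.map_ne_zero_iff hιL).2 hπ.ne_zero
  have hsub : (Lc.subtype).comp ιL = ι := by
    ext r
    rfl
  have heval : ∀ x : Ω, eval₂ ι x π = eval₂ Lc.subtype x Q := by
    intro x
    rw [hQ, eval₂_map, hsub]
  refine ⟨Q.roots.toFinset.map ⟨Subtype.val, Subtype.val_injective⟩, (Q.leadingCoeff : Ω),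
    Q.leadingCoeff.2, ?_, ?_, ?_⟩
  · intro h0
    have : Q.leadingCoeff = 0 := Subtype.ext h0
    exact hQ0 (leadingCoeff_eq_zero.1 this)
  · intro c hc
    rw [Finset.mem_map] at hc
    obtain ⟨a, ha, rfl⟩ := hc
    rw [Multiset.mem_toFinset] at ha
    refine ⟨a.2, ?_⟩
    have hroot : Q.eval a = 0 := (mem_roots hQ0).1 ha
    rw [heval]
    change eval₂ Lc.subtype (Lc.subtype a) Q = 0
    rw [eval₂_at_apply, hroot, map_zero]
  · intro x
    rw [heval]
    conv_lhs => rw [hQfac]
    rw [eval₂_mul, eval₂_C, eval₂_multiset_prod, Multiset.map_map, Finset.prod_map,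
      Finset.prod_eq_multiset_prod, Multiset.toFinset_val, Multiset.dedup_eq_self.2 hnodup]
    congr 2
    refine Multiset.map_congr rfl fun a _ => ?_
    simp [eval₂_sub, eval₂_X, eval₂_C]

end Constants

section Typed

variable (R : Type*) [CommRing R] [IsDomain R] [IsDiscreteValuationRing R] [CharZero R]
  (B : Type*) [CommRing B] [IsDomain B] [IsIntegrallyClosed B] [Algebra R[X] B]
  [Module.Finite R[X] B] [Module.IsTorsionFree R[X] B]
  {Ω : Type*} [Field Ω] [Algebra B Ω] [FaithfulSMul B Ω]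

/-- **hNC, typed form** = the hypothesis `hNC` of `B12.B2RegularStatement`, from the `unramified`
field of `Alg.GoodModel` (with `x = algebraMap B Ω (algebraMap R[X] B X)`). -/
theorem hNC_typed (w : R) (hw : Irreducible w)
    (hwB : Prime (algebraMap R[X] B (C w)))
    (Lc : Subfield Ω) (hLcl : IsAlgClosed Lc)
    (hRL : ∀ r : R, algebraMap B Ω (algebraMap R[X] B (C r)) ∈ Lc)
    (hLalg : ∀ a ∈ Lc, ∃ p : R[X], p ≠ 0 ∧
      eval₂ ((algebraMap B Ω).comp ((algebraMap R[X] B).comp C)) a p = 0)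
    (S : Finset R) (SΩ : Finset Ω)
    (hS : ∀ c ∈ SΩ, ∃ s ∈ S, algebraMap B Ω (algebraMap R[X] B (C s)) = c)
    (hunr : ∀ O : ValuationSubring Ω, (∀ a ∈ Lc, a ∈ O) → ∀ c ∈ Lc, c ∉ SΩ →
        algebraMap B Ω (algebraMap R[X] B X) - c ∈ O →
        (algebraMap B Ω (algebraMap R[X] B X) - c)⁻¹ ∉ O →
        ∀ t ∈ O, t⁻¹ ∉ O → t * (algebraMap B Ω (algebraMap R[X] B X) - c)⁻¹ ∈ O) :
    ∀ π : R[X], Prime π → ¬ Associated π (C w) → (∀ c ∈ S, ¬ Associated π (X - C c)) →
        (Ideal.span {algebraMap R[X] B π}).IsRadical := by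
  classical
  intro π hπ hπw hπS
  haveI : IsNoetherianRing B := IsNoetherianRing.of_finite R[X] B
  haveI : Algebra.IsIntegral R[X] B := Algebra.IsIntegral.of_finite R[X] B
  have hinjRB : Function.Injective (algebraMap R[X] B) :=
    FaithfulSMul.algebraMap_injective R[X] B
  have hinjBΩ : Function.Injective (algebraMap B Ω) := FaithfulSMul.algebraMap_injective B Ω
  set ι : R →+* Ω := (algebraMap B Ω).comp ((algebraMap R[X] B).comp C) with hιdef
  have hι : Function.Injective ι := by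
    intro a b hab
    exact C_injective (hinjRB (hinjBΩ hab))
  have hwprime : Prime w := hw.prime
  have hCw : Irreducible (C w : R[X]) := (prime_C_iff.2 hwprime).irreducible
  -- `π` is not constant
  have hdeg : π.natDegree ≠ 0 := by
    intro h0
    obtain ⟨r, hr⟩ : ∃ r : R, π = C r := ⟨π.coeff 0, eq_C_of_natDegree_eq_zero h0⟩
    have hrp : Prime r := by
      rw [hr] at hπ
      exact prime_C_iff.1 hπ
    have hass : Associated r w :=
      IsDiscreteValuationRing.associated_of_irreducible R hrp.irreducible hw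
    apply hπw
    rw [hr]
    obtain ⟨u, hu⟩ := hass
    refine ⟨Units.map (C : R →+* R[X]).toMonoidHom u, ?_⟩
    simp only [Units.coe_map, RingHom.toMonoidHom_eq_coe, MonoidHom.coe_coe]
    rw [← map_mul, hu]
  have hπ'0 : algebraMap R[X] B π ≠ 0 := by
    intro h0
    exact hπ.ne_zero (hinjRB (by rw [h0, map_zero]))
  -- `w` lies in no height-one prime containing `π`
  have hwP : ∀ 𝔓 : Ideal B, 𝔓.IsPrime → 𝔓.height = 1 → algebraMap R[X] B π ∈ 𝔓 →
      algebraMap R[X] B (C w) ∉ 𝔓 := by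
    intro 𝔓 h𝔓 hht hπ𝔓 hw𝔓
    haveI := h𝔓
    haveI hwI : (Ideal.span {algebraMap R[X] B (C w)}).IsPrime :=
      (Ideal.span_singleton_prime hwB.ne_zero).2 hwB
    have hle : Ideal.span {algebraMap R[X] B (C w)} ≤ 𝔓 :=
      (Ideal.span_singleton_le_iff_mem _).2 hw𝔓
    by_cases heq : Ideal.span {algebraMap R[X] B (C w)} = 𝔓
    · rw [← heq, Ideal.mem_span_singleton] at hπ𝔓
      have hCw0 : (C w : R[X]) ≠ 0 := hCw.ne_zero
      have hdvd : (C w : R[X]) ∣ π := dvd_of_algebraMap_dvd (B := B) hCw0 hπ𝔓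
      exact hπw (hCw.associated_of_dvd hπ.irreducible hdvd).symm
    · have hlt : Ideal.span {algebraMap R[X] B (C w)} < 𝔓 := lt_of_le_of_ne hle heq
      have hfin : (Ideal.span {algebraMap R[X] B (C w)}).FiniteHeight := by
        refine ⟨Or.inr ?_⟩
        intro htop
        have h2 := Ideal.height_mono hle
        rw [htop, hht, top_le_iff] at h2
        exact ENat.one_ne_top h2
      have h3 := Ideal.height_strict_mono_of_isPrime hlt
      rw [hht, ENat.lt_one_iff_eq_zero] at h3
      rw [Ideal.height_eq_zero_iff, IsDomain.minimalPrimes_eq_singleton_bot,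
        Set.mem_singleton_iff, Ideal.span_singleton_eq_bot] at h3
      exact hwB.ne_zero h3
  -- constants become integral after multiplication by a power of `w`
  have hLc' : ∀ a ∈ Lc, ∃ n : ℕ,
      IsIntegral B (algebraMap B Ω (algebraMap R[X] B (C w)) ^ n * a) := by
    intro a ha
    obtain ⟨n, P, hP, hPa⟩ := exists_pow_mul_isIntegralElem ι w hw a (hLalg a ha)
    refine ⟨n, P.map ((algebraMap R[X] B).comp C), hP.map _, ?_⟩
    rw [eval₂_map]
    exact hPa
  -- factorisation of `π` over the constants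
  obtain ⟨roots, lc, hlc, hlc0, hroots, hfac⟩ :=
    exists_factorization_of_irreducible ι hι Lc hLcl hRL π hπ.irreducible hdeg
  have hcomp : (algebraMap B Ω).comp (algebraMap R[X] B) =
      eval₂RingHom ι (algebraMap B Ω (algebraMap R[X] B X)) := by
    apply Polynomial.ringHom_ext
    · intro r
      simp [hιdef]
    · simp
  have hfac' : algebraMap B Ω (algebraMap R[X] B π) =
      lc * ∏ c ∈ roots, (algebraMap B Ω (algebraMap R[X] B X) - c) := by
    rw [← hfac]
    have := congrArg (fun f : R[X] →+* Ω => f π) hcomp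
    simpa using this
  have hroots' : ∀ c ∈ roots, c ∈ Lc ∧ c ∉ SΩ := by
    intro c hc
    refine ⟨(hroots c hc).1, fun hcS => ?_⟩
    obtain ⟨s, hs, rfl⟩ := hS c hcS
    have h1 := (hroots _ hc).2
    change eval₂ ι (ι s) π = 0 at h1
    rw [eval₂_at_apply] at h1
    have h2 : π.eval s = 0 := hι (by rw [h1, map_zero])
    have h3 : (X - C s : R[X]) ∣ π := dvd_iff_isRoot.2 h2
    exact hπS s hs ((prime_X_sub_C s).irreducible.associated_of_dvd hπ.irreducible h3).symm
  exact isRadical_span_of_unramified Lc (algebraMap R[X] B π) hπ'0 (algebraMap R[X] B (C w))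
    hwP hLc' (algebraMap B Ω (algebraMap R[X] B X)) SΩ roots hroots' lc hlc hlc0 hfac' hunr

end Typed

end Fermat.Agent.S18.H754

end

end
-- ===== PACK-END S18/H754/HncTyped.lean

-- ===== PACK-BEGIN S30/H829/OccAdic.lean
section
/-
S30 / p-adic layer (helper829) — piece OCC-adic: the eigensystem of ANY ring homomorphism
`χ : 𝕋 = heckeAlgebra N 2 S → O` (`O` any domain, e.g. a `p`-adic DVR or a field of any
characteristic) occurs in the parabolic homomorphisms `Hom_par(Γ₀(N), O)`.

Transfer-independent core: the eigen-property is stated through the period map, so that the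
Hecke-equivariance of the period map (S29 piece E2a) turns it into `heckeHom ℓ φ = χ(T_ℓ) • φ`.
-/





set_option autoImplicit false

open CongruenceSubgroup ModularCurve ModularCurve.Period
open scoped MatrixGroups

namespace Fermat.Agent.S30.H829

/-- `SL(2, ℤ)` is finitely generated (by `S` and `T`). -/
instance instGroupFGSL2Z : Group.FG SL(2, ℤ) :=
  Group.fg_iff.mpr ⟨{ModularGroup.S, ModularGroup.T}, SpecialLinearGroup.SL2Z_generators,
    Set.toFinite _⟩

/-- `Γ₀(N)` is finitely generated (Schreier). -/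
theorem group_fg_Gamma0 (N : ℕ) [NeZero N] : Group.FG (Gamma0 N) := inferInstance

/-- The period map is injective. -/
theorem periodMap_injective (N : ℕ) [NeZero N] :
    Function.Injective (Fermat.Agent.S21.H381.periodMapLin N) := by
  rw [injective_iff_map_eq_zero]
  intro f hf
  obtain ⟨F, hF⟩ := Fermat.Agent.S21.H381.exists_hasEquivariantPrimitive f
  refine Fermat.Agent.S21.H81.eq_zero_of_re_period_eq_zero N f hF fun γ => ?_
  have h1 := Fermat.Agent.S21.H381.periodMap_apply hF γ UpperHalfPlane.I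
  have h2 : periodMap N f (Additive.ofMul γ) = 0 := by
    have := DFunLike.congr_fun hf (Additive.ofMul γ)
    simpa using this
  rw [← h1, h2]
  rfl

/-- The tautological action of the Hecke algebra on cusp forms. -/
@[reducible] noncomputable def heckeAlgebraModule (N : ℕ) [NeZero N] (S : Set ℕ) :
    Module (CuspForm.heckeAlgebra N 2 S) (CuspForm (Gamma0 N) 2) :=
  Module.compHom (CuspForm (Gamma0 N) 2) (CuspForm.heckeAlgebra N 2 S).val.toRingHom

theorem heckeAlgebraModule_smul (N : ℕ) [NeZero N] (S : Set ℕ)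
    (t : CuspForm.heckeAlgebra N 2 S) (f : CuspForm (Gamma0 N) 2) :
    (letI := heckeAlgebraModule N S; t • f) = t.1 f := rfl

/-- **OCC-adic, core form.**  For every ring homomorphism `χ` from the Hecke algebra to a domain
`O` there is a nonzero parabolic homomorphism `φ : Γ₀(N) → O` such that for every Hecke operator
`t` and all `b, b'` with `periodMap f b' = periodMap (t f) b` for all cusp forms `f`,
`φ b' = χ t * φ b`. -/
theorem exists_eigen_parabolicHom_core (N : ℕ) [NeZero N] (S : Set ℕ)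
    {O : Type*} [CommRing O] [IsDomain O] (χ : CuspForm.heckeAlgebra N 2 S →+* O) :
    ∃ φ : Additive (Gamma0 N) →+ O, φ ≠ 0 ∧ IsParabolicHom (Gamma0 N) φ ∧
      ∀ (t : CuspForm.heckeAlgebra N 2 S) (b b' : Additive (Gamma0 N)),
        (∀ f : CuspForm (Gamma0 N) 2, periodMap N f b' = periodMap N (t.1 f) b) →
          φ b' = χ t * φ b := by
  letI := heckeAlgebraModule N S
  haveI : Group.FG (Gamma0 N) := group_fg_Gamma0 N
  have hfaith : ∀ t : CuspForm.heckeAlgebra N 2 S,
      (∀ f : CuspForm (Gamma0 N) 2, t • f = 0) → t = 0 := by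
    intro t ht
    apply Subtype.ext
    apply LinearMap.ext
    intro f
    exact ht f
  obtain ⟨φ, hφ0, hφe, hφv⟩ := exists_eigen_hom (𝕋 := CuspForm.heckeAlgebra N 2 S)
    (S := CuspForm (Gamma0 N) 2) (K := ℂ) (Γ := Additive (Gamma0 N)) hfaith
    (Fermat.Agent.S21.H381.periodMapLin N).toAddMonoidHom
    (periodMap_injective N) χ
  refine ⟨φ, hφ0, ?_, ?_⟩
  · intro γ hγ
    apply hφv
    intro f
    exact (mem_parabolicHoms_iff.mp (Fermat.Agent.S21.H381.periodMap_mem_parabolicHoms f)) γ hγ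
  · intro t b b' h
    exact hφe t b b' h

end Fermat.Agent.S30.H829

end
-- ===== PACK-END S30/H829/OccAdic.lean

-- ===== PACK-BEGIN S29/HCoh.lean
section



/-!
# S29 layer M, piece `HCoh` (wrapper with the exact skeleton statement; proof in `H149/HCoh.lean`)
-/

set_option autoImplicit false

noncomputable section

namespace Fermat.Agent.S29

open ModularCurve AlgebraicCurve Polynomial
open scoped TensorProduct

section

variable (N : ℕ) [NeZero N]

/-- PIECE `HCoh` (pure group theory): for a prime `ℓ ∤ N` the factorisation `heckeFac` exists, is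
unique, permutes the index set, and `heckeCoh` preserves parabolic characters. -/
theorem isParHom_heckeCoh {ℓ : ℕ} (hℓ : ℓ.Prime) (hℓN : ¬ ℓ ∣ N) {A : Type*} [AddCommGroup A]
    {c : G0 N → A} (hc : IsParHom c) : IsParHom (heckeCoh N ℓ c) :=
  H149.isParHom_heckeCoh hℓ hℓN hc

end

end Fermat.Agent.S29

end
end
-- ===== PACK-END S29/HCoh.lean

-- ===== PACK-BEGIN S21/IntD.lean
section



/-!
# S21 / INT-D — folding inequality and finite energy of `u₀` (exact interface statements)

`mult_compact` and `mult_strip` are in `IntDCore.lean`.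
-/

set_option autoImplicit false
set_option linter.unusedVariables false

open UpperHalfPlane CongruenceSubgroup MeasureTheory
open scoped MatrixGroups ContDiff

namespace Fermat.Agent.S21

section INT

variable (N : ℕ) [NeZero N] {χ₁ : ℂ → ℝ}

theorem folding (hχ : IsSL2ZPartition χ₁) (G : ℂ → ℂ) (hG : ContinuousOn G Uhp)
    (hinv : ∀ γ : Gamma0 N, ∀ z ∈ Uhp,
      G (mob (γ : SL(2, ℤ)) z) = (cd (γ : SL(2, ℤ)) z) ^ 2 * G z)
    (hfin : Integrable (fun z => ‖G z‖ ^ 2 * chi N χ₁ z))
    (A : Set ℂ) (hA : MeasurableSet A) (hAU : A ⊆ Uhp) (M : ℕ)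
    (hM : ∀ w ∈ Uhp, {g : SL(2, ℤ) | mob g w ∈ A}.encard ≤ M) :
    ∫ z in A, ‖G z‖ ^ 2 ≤ M * ∫ z, ‖G z‖ ^ 2 * chi N χ₁ z := by
  refine IntDAux.folding_of N (chi_nonneg N hχ) (measurable_chi N hχ) (fun z hz => ?_)
    (chi_sum_eq_one N hχ) G hG hinv hfin A hA hAU M hM
  refine (chi_locfin N hχ {z} isCompact_singleton (by simpa using hz)).subset ?_
  intro γ hγ
  exact ⟨z, rfl, hγ⟩

/-- finite energy of `u₀` -/
theorem integrable_energy_u0 (hχ : IsSL2ZPartition χ₁) (u₀ : ℂ → ℝ)
    (hu : ContDiffOn ℝ ∞ u₀ Uhp)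
    (hcusp : ∀ (δ : SL(2, ℤ)) (z : ℂ), 2 < z.im → dz u₀ (mob δ z) = 0) :
    Integrable (fun z => ‖dz u₀ z‖ ^ 2 * chi N χ₁ z) :=
  IntDAux.integrable_energy_u0_of N hχ (continuousOn_chi N hχ) u₀ hu hcusp

end INT

end Fermat.Agent.S21

end
-- ===== PACK-END S21/IntD.lean

-- ===== PACK-BEGIN S29/H201/E2.lean
section






/-!
# S29 / P5-E2 (helper201) — the eigensystem of a normalized eigenform occurs in
`Hom_par(Γ₀(N), F)`, `F` any field of characteristic `q > 0`.
-/

set_option autoImplicit false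

open CongruenceSubgroup Matrix.SpecialLinearGroup UpperHalfPlane ModularCurve ModularCurve.Period
open scoped MatrixGroups

namespace Fermat.Agent.S29.H201

variable {N : ℕ}

/-- The period map is injective (from helper81's injectivity of `periodHomPair`). -/
theorem periodMap_ne_zero [NeZero N] {g : CuspForm (Gamma0 N) 2} (hg : g ≠ 0) :
    periodMap N g ≠ 0 := by
  intro h
  have hinj := Fermat.Agent.S21.H81.injective_periodHomPair_of N
    (Fermat.Agent.S21.H381.existsPeriodMapLinear N)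
    (fun f => Fermat.Agent.S21.H381.exists_hasEquivariantPrimitive f)
  have h0 : periodMap N (0 : CuspForm (Gamma0 N) 2) = 0 :=
    (Fermat.Agent.S21.H381.periodMapLin N).map_zero
  have h1 : periodHomPair N (g, 0) = 0 := by
    rw [Fermat.Agent.S21.H381.periodHomPair_apply, h, h0]
    simp
  have h2 := hinj (h1.trans (map_zero (periodHomPair N)).symm)
  exact hg (congrArg Prod.fst h2)

theorem isNormalizedEigenform_ne_zero {g : CuspForm (Gamma0 N) 2}
    (hg : g.IsNormalizedEigenform) : g ≠ 0 := by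
  rintro rfl
  have h1 := hg.qCoeff_one
  have h0 : ModularFormClass.qCoeff (⇑(0 : CuspForm (Gamma0 N) 2)) 1 = 0 := by
    unfold ModularFormClass.qCoeff
    rw [FunLike.coe_zero, qExpansion_zero]
    simp
  rw [h0] at h1
  exact zero_ne_one h1

instance instFGSL2Z : Group.FG SL(2, ℤ) := by
  rw [Group.fg_iff]
  exact ⟨{ModularGroup.S, ModularGroup.T}, SpecialLinearGroup.SL2Z_generators, by simp⟩

theorem fg_Gamma0 [NeZero N] : AddGroup.FG (Additive (Gamma0 N)) := by
  haveI : Group.FG (Gamma0 N) := inferInstance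
  exact AddGroup.fg_iff_mul_fg.mpr ‹_›

/-- **E2c, strong form**: for a normalized eigenform `g` of level `N ≥ 1`, a field `F` of
characteristic `q > 0` and a ring hom `ψ : ℤ̄ → F`, there is a nonzero parabolic homomorphism
`χ : Γ₀(N) → F`, vanishing on every element on which the period of `g` vanishes (in particular
on all elements of finite order), with `T_ℓ χ = ψ(a_ℓ) χ` for every prime `ℓ ∤ N`. -/
theorem exists_eigen_parabolicHom_strong [NeZero N] {g : CuspForm (Gamma0 N) 2}
    (hg : g.IsNormalizedEigenform)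
    {F : Type*} [Field F] (q : ℕ) [Fact q.Prime] [CharP F q]
    (ψ : integralClosure ℤ ℂ →+* F) :
    ∃ χ : Additive (Gamma0 N) →+ F, χ ≠ 0 ∧ IsParabolicHom (Gamma0 N) χ ∧
      (∀ γ : Gamma0 N, periodMap N g (Additive.ofMul γ) = 0 → χ (Additive.ofMul γ) = 0) ∧
      (∀ γ : Gamma0 N, IsOfFinOrder γ → χ (Additive.ofMul γ) = 0) ∧
      ∀ (ℓ : ℕ) [Fact ℓ.Prime] (hℓN : ¬ ℓ ∣ N),
        ∃ a : integralClosure ℤ ℂ, (a : ℂ) = ModularFormClass.qCoeff g ℓ ∧
          heckeHom ℓ hℓN F χ = (AddMonoidHom.mulLeft (ψ a)).comp χ := by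
  set v : Additive (Gamma0 N) →+ ℂ := periodMap N g with hv
  have hv0 : v ≠ 0 := periodMap_ne_zero (isNormalizedEigenform_ne_zero hg)
  set L : AddSubgroup ℂ := v.range with hLdef
  have hLfg : L.FG := by
    haveI := fg_Gamma0 (N := N)
    rw [hLdef, ← AddGroup.fg_iff_addSubgroup_fg]
    exact AddGroup.fg_of_surjective (f := v.rangeRestrict) v.rangeRestrict_surjective
  have hL0 : L ≠ ⊥ := by
    intro h
    apply hv0
    refine AddMonoidHom.ext fun γ => ?_
    have : v γ ∈ L := ⟨γ, rfl⟩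
    rw [h, AddSubgroup.mem_bot] at this
    simpa using this
  -- the Hecke eigenvalue relation on periods
  have hT : ∀ (ℓ : ℕ) [Fact ℓ.Prime] (hℓN : ¬ ℓ ∣ N),
      heckeHom ℓ hℓN ℂ v = (AddMonoidHom.mulLeft (ModularFormClass.qCoeff g ℓ)).comp v := by
    intro ℓ _ hℓN
    have hℓ : ℓ.Prime := Fact.out
    rw [hv, ← periodMap_heckeTLin hℓ hℓN g, heckeTLin_eq_smul_of_isNormalizedEigenform hg hℓ hℓN,
      Fermat.Agent.S21.H381.periodMap_smul]
    refine AddMonoidHom.ext fun γ => ?_
    rfl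
  have hmult : ∀ (ℓ : ℕ) [Fact ℓ.Prime] (_hℓN : ¬ ℓ ∣ N), ∀ y ∈ L,
      ModularFormClass.qCoeff g ℓ * y ∈ L := by
    intro ℓ _ hℓN y hy
    obtain ⟨γ, rfl⟩ := hy
    obtain ⟨γ, rfl⟩ : ∃ γ' : Gamma0 N, Additive.ofMul γ' = γ := ⟨Additive.toMul γ, rfl⟩
    have h1 := DFunLike.congr_fun (hT ℓ hℓN) (Additive.ofMul γ)
    rw [heckeHom_apply] at h1
    have h2 : ModularFormClass.qCoeff g ℓ * v (Additive.ofMul γ)
        = ∑ x : OnePoint (ZMod ℓ), v (Additive.ofMul (trf hℓN γ x)) := h1.symm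
    rw [h2]
    exact L.sum_mem fun x _ => ⟨_, rfl⟩
  obtain ⟨μ, hμ0, hμ⟩ := exists_eigen_functional L hLfg hL0 q ψ
  set vr : Additive (Gamma0 N) →+ L := v.rangeRestrict with hvr
  have hker : ∀ γ : Gamma0 N, v (Additive.ofMul γ) = 0 → (μ.comp vr) (Additive.ofMul γ) = 0 := by
    intro γ h2
    have h3 : vr (Additive.ofMul γ) = 0 := Subtype.ext h2
    rw [AddMonoidHom.comp_apply, h3, map_zero]
  refine ⟨μ.comp vr, ?_, ?_, hker, ?_, ?_⟩
  · intro h
    apply hμ0
    refine AddMonoidHom.ext fun y => ?_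
    obtain ⟨γ, hγ⟩ := y.2
    have h1 := DFunLike.congr_fun h γ
    have h2 : vr γ = y := Subtype.ext hγ
    rw [AddMonoidHom.comp_apply, h2] at h1
    simpa using h1
  · intro γ hγ
    have h1 := Fermat.Agent.S21.H381.periodMap_mem_parabolicHoms g
    rw [mem_parabolicHoms_iff] at h1
    exact hker γ (h1 γ hγ)
  · intro γ hγ
    apply hker
    obtain ⟨n, hn, hγn⟩ := hγ.exists_pow_eq_one
    have h1 : (n : ℂ) * v (Additive.ofMul γ) = 0 := by
      have h2 : v (Additive.ofMul (γ ^ n)) = n • v (Additive.ofMul γ) := by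
        rw [ofMul_pow, map_nsmul]
      rw [hγn] at h2
      have h3 : v (Additive.ofMul (1 : Gamma0 N)) = 0 := by
        rw [ofMul_one, map_zero]
      rw [h3, nsmul_eq_mul] at h2
      exact h2.symm
    rcases mul_eq_zero.mp h1 with h | h
    · exact absurd (by exact_mod_cast h) hn.ne'
    · exact h
  · intro ℓ _ hℓN
    have hint : IsIntegral ℤ (ModularFormClass.qCoeff g ℓ) :=
      isIntegral_of_mul_mem L hLfg hL0 _ (hmult ℓ hℓN)
    refine ⟨⟨ModularFormClass.qCoeff g ℓ, hint⟩, rfl, ?_⟩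
    rw [heckeHom_comp]
    refine AddMonoidHom.ext fun γ => ?_
    obtain ⟨γ, rfl⟩ : ∃ γ' : Gamma0 N, Additive.ofMul γ' = γ := ⟨Additive.toMul γ, rfl⟩
    have h1 : heckeHom ℓ hℓN L vr (Additive.ofMul γ)
        = ⟨ModularFormClass.qCoeff g ℓ * (vr (Additive.ofMul γ) : ℂ),
            hmult ℓ hℓN _ (vr (Additive.ofMul γ)).2⟩ := by
      apply Subtype.ext
      have h2 := DFunLike.congr_fun (heckeHom_comp hℓN L.subtype vr) (Additive.ofMul γ)
      have h3 : L.subtype.comp vr = v := AddMonoidHom.ext fun γ' => rfl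
      rw [h3, hT ℓ hℓN] at h2
      exact h2.symm
    rw [AddMonoidHom.comp_apply, h1]
    exact hμ ⟨ModularFormClass.qCoeff g ℓ, hint⟩ (hmult ℓ hℓN) (vr (Additive.ofMul γ))

/-- **E2c**: for a normalized eigenform `g` of level `N ≥ 1`, a field `F` of characteristic
`q > 0` and a ring hom `ψ : ℤ̄ → F`, there is a nonzero parabolic homomorphism
`χ : Γ₀(N) → F` with `T_ℓ χ = ψ(a_ℓ) χ` for every prime `ℓ ∤ N`. -/
theorem exists_eigen_parabolicHom [NeZero N] {g : CuspForm (Gamma0 N) 2}
    (hg : g.IsNormalizedEigenform)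
    {F : Type*} [Field F] (q : ℕ) [Fact q.Prime] [CharP F q]
    (ψ : integralClosure ℤ ℂ →+* F) :
    ∃ χ : Additive (Gamma0 N) →+ F, χ ≠ 0 ∧ IsParabolicHom (Gamma0 N) χ ∧
      ∀ (ℓ : ℕ) [Fact ℓ.Prime] (hℓN : ¬ ℓ ∣ N),
        ∃ a : integralClosure ℤ ℂ, (a : ℂ) = ModularFormClass.qCoeff g ℓ ∧
          heckeHom ℓ hℓN F χ = (AddMonoidHom.mulLeft (ψ a)).comp χ := by
  obtain ⟨χ, h1, h2, -, -, h3⟩ := exists_eigen_parabolicHom_strong hg q ψ
  exact ⟨χ, h1, h2, h3⟩

end Fermat.Agent.S29.H201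

end
-- ===== PACK-END S29/H201/E2.lean

-- ===== PACK-BEGIN S23/Cap/Converse.lean
section



/-!
# S23 / Cap : from formal relations back to a cusp form
(adapter around helper803's `Converse.lean`, `ConversePkg.lean`, `ConverseQ.lean`).
-/

set_option autoImplicit false

namespace Fermat.Agent.S23.Cap

open UpperHalfPlane ModularForm ModularFormClass MatrixGroups CongruenceSubgroup
open scoped Manifold

/-- **WP4 main statement.** -/
theorem exists_cuspForm_of_relations (N : ℕ) [NeZero N] (k w' : ℤ) (U V : ℍ → ℂ)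
    (hU : IsMF (G0 N) w' U) (hV : IsMF (G0 N) (w' + k) V) (hU0 : U ≠ 0)
    (μ : ℕ) (hμ : 0 < μ) (c : ℕ → ℍ → ℂ) (hc : ∀ i < μ, IsCF SLZ (k * (i + 1)) (c i))
    (G : PowerSeries ℂ) (h1 : qx U * G = qx V)
    (h2 : G ^ μ + ∑ i ∈ Finset.range μ, qx (c i) * G ^ (μ - 1 - i) = 0) :
    ∃ g : ℍ → ℂ, IsCF (G0 N) k g ∧ qx g = G := by
  obtain ⟨Uf, rfl⟩ := hU
  obtain ⟨Vf, rfl⟩ := hV
  have hUf : Uf ≠ 0 := fun h => hU0 (by rw [h]; rfl)
  have hb : ∀ i < μ, ∃ (wi : ℤ) (B : CuspForm 𝒮ℒ wi), wi = k * ((μ : ℤ) - i) ∧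
      ⇑B = c (μ - 1 - i) := by
    intro i hi
    obtain ⟨B, hB⟩ := hc (μ - 1 - i) (by omega)
    refine ⟨_, B, ?_, hB⟩
    have : ((μ - 1 - i : ℕ) : ℤ) = (μ : ℤ) - 1 - i := by omega
    rw [this]; ring
  have hmonic : G ^ μ + ∑ i ∈ Finset.range μ, qExpansion 1 (c (μ - 1 - i)) * G ^ i = 0 := by
    rw [← h2]
    congr 1
    rw [← Finset.sum_range_reflect]
    refine Finset.sum_congr rfl fun i hi => ?_
    have : i < μ := Finset.mem_range.mp hi
    have h' : μ - 1 - (μ - 1 - i) = i := by omega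
    rw [h']
  obtain ⟨F, hF⟩ := Fermat.Agent.S23.Conv.exists_cuspForm_Gamma0_qExpansion_eq N
    (k := k) (w := w') (m := w' + k) rfl Vf Uf hUf hμ (fun i => c (μ - 1 - i)) hb G
    (by rw [mul_comm]; exact h1) hmonic
  exact ⟨F, ⟨F, rfl⟩, hF⟩

end Fermat.Agent.S23.Cap

end
-- ===== PACK-END S23/Cap/Converse.lean

-- ===== PACK-BEGIN Lib/Newform/H803/Bridge.lean
section





/-!
# Bridge between `Γ₀(N)` cusp forms and `Γ⁰(N)`-invariant functions (helper803)
-/

set_option autoImplicit false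

namespace Fermat.Agent.Lib.Newform.H803

open Matrix Matrix.SpecialLinearGroup CongruenceSubgroup UpperHalfPlane ModularForm OnePoint
open scoped MatrixGroups ModularForm Manifold Pointwise Real

variable {k : ℤ}

/-! ### Conjugation by diagonal matrices -/

theorem mem_Gamma0_iff_dvd {N : ℕ} {g : SL(2, ℤ)} : g ∈ Gamma0 N ↔ (N : ℤ) ∣ g 1 0 := by
  rw [Gamma0_mem, ZMod.intCast_zmod_eq_zero_iff_dvd]

/-- `diag(1, N) γ = γ' diag(1, N)` with `γ' ∈ Γ₀(N)` for `γ ∈ Γ⁰(N)`. -/
theorem heckeMatrix_zero_mul_mapGL {N : ℕ} (hN : N ≠ 0) {g : SL(2, ℤ)} (hg : g ∈ GammaU N) :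
    ∃ g' ∈ Gamma0 N, heckeMatrix N 0 * mapGL ℝ g = mapGL ℝ g' * heckeMatrix N 0 := by
  obtain ⟨e, he⟩ := mem_GammaU.mp hg
  have hdet := det_eq_one' g
  obtain ⟨g', hg'⟩ : ∃ g' : SL(2, ℤ),
      (g' : Matrix (Fin 2) (Fin 2) ℤ) = !![g 0 0, e; N * g 1 0, g 1 1] := by
    refine ⟨⟨!![g 0 0, e; N * g 1 0, g 1 1], ?_⟩, rfl⟩
    rw [Matrix.det_fin_two_of]
    linear_combination hdet + (g 1 0) * he
  refine ⟨g', ?_, ?_⟩
  · rw [mem_Gamma0_iff_dvd]
    have : g' 1 0 = N * g 1 0 := by rw [hg']; rfl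
    rw [this]
    exact Dvd.intro _ rfl
  · apply Units.ext
    rw [Units.val_mul, Units.val_mul, val_heckeMatrix hN, mapGL_coe_matrix, mapGL_coe_matrix]
    have he' : ((g 0 1 : ℤ) : ℝ) = N * e := by exact_mod_cast he
    ext i j
    fin_cases i <;> fin_cases j <;>
      simp [Matrix.mul_apply, Fin.sum_univ_two, he', hg'] <;> ring

/-- `diag(d, 1) γ = γ' diag(d, 1)` with `γ' ∈ Γ⁰(d)` for `γ ∈ Γ₀(d)`. -/
theorem heckeDiagMatrix_mul_mapGL {d : ℕ} (hd : d ≠ 0) {g : SL(2, ℤ)} (hg : g ∈ Gamma0 d) :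
    ∃ g' ∈ GammaU d, heckeDiagMatrix d * mapGL ℝ g = mapGL ℝ g' * heckeDiagMatrix d := by
  obtain ⟨e, he⟩ := mem_Gamma0_iff_dvd.mp hg
  have hdet := det_eq_one' g
  obtain ⟨g', hg'⟩ : ∃ g' : SL(2, ℤ),
      (g' : Matrix (Fin 2) (Fin 2) ℤ) = !![g 0 0, d * g 0 1; e, g 1 1] := by
    refine ⟨⟨!![g 0 0, d * g 0 1; e, g 1 1], ?_⟩, rfl⟩
    rw [Matrix.det_fin_two_of]
    linear_combination hdet + (g 0 1) * he
  refine ⟨g', ?_, ?_⟩
  · rw [mem_GammaU]
    have : g' 0 1 = d * g 0 1 := by rw [hg']; rfl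
    rw [this]
    exact Dvd.intro _ rfl
  · apply Units.ext
    rw [Units.val_mul, Units.val_mul, val_heckeDiagMatrix hd, mapGL_coe_matrix, mapGL_coe_matrix]
    have he' : ((g 1 0 : ℤ) : ℝ) = d * e := by exact_mod_cast he
    ext i j
    fin_cases i <;> fin_cases j <;>
      simp [Matrix.mul_apply, Fin.sum_univ_two, he', hg'] <;> ring

/-- Upper triangular rational matrices. -/
noncomputable def upperTriQ (a b d : ℚ) (had : a * d ≠ 0) : GL (Fin 2) ℚ :=
  Matrix.GeneralLinearGroup.mkOfDetNeZero !![a, b; 0, d]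
    (by rwa [Matrix.det_fin_two_of, mul_zero, sub_zero])

theorem heckeMatrix_eq_map {p : ℕ} (hp : p ≠ 0) (j : ℕ) :
    heckeMatrix p j =
      (upperTriQ 1 j p (by rw [one_mul]; exact_mod_cast hp)).map (Rat.castHom ℝ) := by
  apply Units.ext
  rw [val_heckeMatrix hp]
  ext i j
  fin_cases i <;> fin_cases j <;> simp [upperTriQ]

theorem heckeDiagMatrix_eq_map {p : ℕ} (hp : p ≠ 0) :
    heckeDiagMatrix p =
      (upperTriQ p 0 1 (by rw [mul_one]; exact_mod_cast hp)).map (Rat.castHom ℝ) := by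
  apply Units.ext
  rw [val_heckeDiagMatrix hp]
  ext i j
  fin_cases i <;> fin_cases j <;> simp [upperTriQ]

theorem IsCuspidal.slash_heckeMatrix {F : ℍ → ℂ} (hF : IsCuspidal k F) {p : ℕ} (hp : p ≠ 0)
    (j : ℕ) : IsCuspidal k (F ∣[k] heckeMatrix p j) := by
  rw [heckeMatrix_eq_map hp]
  exact hF.slash_rat _

theorem IsCuspidal.slash_heckeDiagMatrix {F : ℍ → ℂ} (hF : IsCuspidal k F) {p : ℕ} (hp : p ≠ 0) :
    IsCuspidal k (F ∣[k] heckeDiagMatrix p) := by
  rw [heckeDiagMatrix_eq_map hp]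
  exact hF.slash_rat _

theorem sl_slash_mapGL (F : ℍ → ℂ) (γ : SL(2, ℤ)) : F ∣[k] γ = F ∣[k] (mapGL ℝ γ) := rfl

/-- The hat transform `f ↦ f ∣ diag(1, N)` of a `Γ₀(N)`-invariant function is
`Γ⁰(N)`-invariant. -/
theorem slInv_hat {N : ℕ} (hN : N ≠ 0) {f : ℍ → ℂ} (hf : SlInv k (Gamma0 N) f) :
    SlInv k (GammaU N) (f ∣[k] heckeMatrix N 0) := by
  intro g hg
  obtain ⟨g', hg', e⟩ := heckeMatrix_zero_mul_mapGL hN hg
  rw [sl_slash_mapGL, ← SlashAction.slash_mul, e, SlashAction.slash_mul,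
    ← sl_slash_mapGL, hf g' hg']

/-- The inverse transform `G ↦ G ∣ diag(d, 1)` of a `Γ⁰(d)`-invariant function is
`Γ₀(d)`-invariant. -/
theorem slInv_unhat {d : ℕ} (hd : d ≠ 0) {G : ℍ → ℂ} (hG : SlInv k (GammaU d) G) :
    SlInv k (Gamma0 d) (G ∣[k] heckeDiagMatrix d) := by
  intro g hg
  obtain ⟨g', hg', e⟩ := heckeDiagMatrix_mul_mapGL hd hg
  rw [sl_slash_mapGL, ← SlashAction.slash_mul, e, SlashAction.slash_mul,
    ← sl_slash_mapGL, hG g' hg']

theorem slInv_of_cuspForm {Γ : Subgroup SL(2, ℤ)} (f : CuspForm Γ k) :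
    SlInv k Γ (f : ℍ → ℂ) := fun γ hγ =>
  f.slash_action_eq' _ ⟨γ, hγ, rfl⟩

end Fermat.Agent.Lib.Newform.H803

end
-- ===== PACK-END Lib/Newform/H803/Bridge.lean

-- ===== PACK-BEGIN S55/Bridge/H594/PrimeBelow.lean
section



/-!
# S55 bridge (helper594): valuation subrings of `ℚ̄` versus primes of `ℤ̄`

For a valuation subring `A` of `ℚ̄` lying over a prime number `q`, the decomposition group of `A`
is the stabiliser of the prime `primeBelow A` of the ring `ℤ̄` of all algebraic integers, and the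
inertia group of `A` is the inertia group of `primeBelow A`.
-/

set_option autoImplicit false

namespace Fermat.Agent.S55.Bridge.H594

open Fermat.Agent.S54 Fermat.Agent.S55.Bridge
open scoped Pointwise

attribute [local instance] isAlgebraic_Qbar isGalois_Qbar

section basic

variable (A : ValuationSubring (AlgebraicClosure ℚ))

/-- Algebraic integers lie in every valuation subring. -/
theorem coe_mem (b : integralClosure ℤ (AlgebraicClosure ℚ)) : (b : AlgebraicClosure ℚ) ∈ A :=
  isIntegral_mem_valuationSubring A b.2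

theorem coe_smul (σ : AlgebraicClosure ℚ ≃ₐ[ℚ] AlgebraicClosure ℚ)
    (b : integralClosure ℤ (AlgebraicClosure ℚ)) :
    ((σ • b : integralClosure ℤ (AlgebraicClosure ℚ)) : AlgebraicClosure ℚ) = σ b := rfl

/-- `σ` stabilises `primeBelow A` iff it preserves membership. -/
theorem smul_primeBelow_eq_iff (σ : AlgebraicClosure ℚ ≃ₐ[ℚ] AlgebraicClosure ℚ) :
    σ • primeBelow A = primeBelow A ↔
      ∀ b : integralClosure ℤ (AlgebraicClosure ℚ), σ • b ∈ primeBelow A ↔ b ∈ primeBelow A := by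
  constructor
  · intro h b
    conv_lhs => rw [← h]
    exact Ideal.smul_mem_pointwise_smul_iff
  · intro h
    ext b
    rw [Ideal.mem_pointwise_smul_iff_inv_smul_mem]
    rw [← h (σ⁻¹ • b), smul_inv_smul]

/-- If `σ` preserves the prime below `A`, it maps `A` into `A`. -/
theorem map_mem_of_smul_primeBelow {q : ℕ} (hq : q.Prime) (hA : A.LiesOverPrime q)
    (τ : AlgebraicClosure ℚ ≃ₐ[ℚ] AlgebraicClosure ℚ)
    (hτ : ∀ b : integralClosure ℤ (AlgebraicClosure ℚ), τ • b ∈ primeBelow A ↔ b ∈ primeBelow A)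
    (x : AlgebraicClosure ℚ) (hx : x ∈ A) : τ x ∈ A := by
  obtain ⟨b, s, hb, hs, hsA, hxs⟩ := (mem_valuationSubring_iff A q hq hA x).mp hx
  refine (mem_valuationSubring_iff A q hq hA (τ x)).mpr
    ⟨τ b, τ s, hb.map τ, hs.map τ, ?_, ?_⟩
  · exact (hτ ⟨s, hs⟩).not.mpr hsA
  · rw [← map_mul, hxs]

/-- The decomposition group of `A` is the stabiliser of the prime of `ℤ̄` below `A`. -/
theorem mem_decompositionSubgroup_iff_smul_primeBelow {q : ℕ} (hq : q.Prime)
    (hA : A.LiesOverPrime q) (σ : AlgebraicClosure ℚ ≃ₐ[ℚ] AlgebraicClosure ℚ) :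
    σ ∈ A.decompositionSubgroup ℚ ↔ σ • primeBelow A = primeBelow A := by
  rw [smul_primeBelow_eq_iff]
  constructor
  · intro hσ b
    have h1 := (mem_decompositionSubgroup_iff A σ).mp hσ
    rw [mem_primeBelow, mem_primeBelow, coe_smul, ValuationSubring.mem_nonunits_iff_or,
      ValuationSubring.mem_nonunits_iff_or, ← map_inv₀, h1, map_eq_zero_iff σ σ.injective]
  · intro hσ
    rw [mem_decompositionSubgroup_iff]
    intro x
    constructor
    · intro hx
      have h2 : ∀ b : integralClosure ℤ (AlgebraicClosure ℚ),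
          σ⁻¹ • b ∈ primeBelow A ↔ b ∈ primeBelow A := by
        intro b
        rw [← hσ (σ⁻¹ • b), smul_inv_smul]
      have := map_mem_of_smul_primeBelow A hq hA σ⁻¹ h2 (σ x) hx
      simpa using this
    · exact map_mem_of_smul_primeBelow A hq hA σ hσ x

/-- An integral element outside the prime below `A` has valuation `1`. -/
theorem valuation_eq_one_of_not_mem_nonunits {s : AlgebraicClosure ℚ} (hs : IsIntegral ℤ s)
    (hsA : s ∉ A.nonunits) : A.valuation s = 1 := by
  have h1 : A.valuation s ≤ 1 :=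
    (A.valuation_le_one_iff _).mpr (isIntegral_mem_valuationSubring A hs)
  rw [ValuationSubring.mem_nonunits_iff, not_lt] at hsA
  exact le_antisymm h1 hsA

/-- The inertia group of `A` is the inertia group of the prime of `ℤ̄` below `A`. -/
theorem mem_inertiaSubgroupIn_iff_primeBelow {q : ℕ} (hq : q.Prime)
    (hA : A.LiesOverPrime q) (σ : AlgebraicClosure ℚ ≃ₐ[ℚ] AlgebraicClosure ℚ) :
    σ ∈ A.inertiaSubgroupIn ℚ ↔
      ∀ b : integralClosure ℤ (AlgebraicClosure ℚ), σ • b - b ∈ primeBelow A := by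
  constructor
  · intro hσ b
    exact ((mem_inertiaSubgroupIn_iff A σ).mp hσ).2 b (coe_mem A b)
  · intro hσ
    have hstab : ∀ b : integralClosure ℤ (AlgebraicClosure ℚ),
        σ • b ∈ primeBelow A ↔ b ∈ primeBelow A := by
      intro b
      constructor
      · intro h
        have := (primeBelow A).sub_mem h (hσ b)
        simpa using this
      · intro h
        have := (primeBelow A).add_mem (hσ b) h
        simpa using this
    have hD : σ ∈ A.decompositionSubgroup ℚ :=
      (mem_decompositionSubgroup_iff_smul_primeBelow A hq hA σ).mpr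
        ((smul_primeBelow_eq_iff A σ).mpr hstab)
    rw [mem_inertiaSubgroupIn_iff]
    refine ⟨hD, fun z hz => ?_⟩
    obtain ⟨b, s, hb, hs, hsA, hzs⟩ := (mem_valuationSubring_iff A q hq hA z).mp hz
    have hs0 : s ≠ 0 := fun h => hsA (h ▸ A.nonunits.zero_mem)
    have hσs0 : σ s ≠ 0 := (map_ne_zero_iff σ σ.injective).mpr hs0
    have hσsA : σ s ∉ A.nonunits := (hstab ⟨s, hs⟩).not.mpr hsA
    have hvs : A.valuation s = 1 := valuation_eq_one_of_not_mem_nonunits A hs hsA
    have hvσs : A.valuation (σ s) = 1 :=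
      valuation_eq_one_of_not_mem_nonunits A (hs.map σ) hσsA
    have hz' : z = b / s := by rw [← hzs]; field_simp
    have hnum : (σ b - b) * s - b * (σ s - s) ∈ A.nonunits := by
      rw [ValuationSubring.mem_nonunits_iff]
      have h1 : A.valuation ((σ b - b) * s) < 1 := by
        rw [map_mul, hvs, mul_one]
        exact (ValuationSubring.mem_nonunits_iff A).mp (hσ ⟨b, hb⟩)
      have h2 : A.valuation (b * (σ s - s)) < 1 := by
        rw [map_mul]
        have hb1 : A.valuation b ≤ 1 :=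
          (A.valuation_le_one_iff _).mpr (isIntegral_mem_valuationSubring A hb)
        have hs1 : A.valuation (σ s - s) < 1 :=
          (ValuationSubring.mem_nonunits_iff A).mp (hσ ⟨s, hs⟩)
        exact mul_lt_one_of_nonneg_of_lt_one_right hb1 zero_le hs1
      exact lt_of_le_of_lt (Valuation.map_sub _ _ _) (max_lt h1 h2)
    have hval : σ z - z = ((σ b - b) * s - b * (σ s - s)) / (s * σ s) := by
      rw [hz', map_div₀]
      field_simp
      ring
    rw [hval, ValuationSubring.mem_nonunits_iff, map_div₀, map_mul, hvs, hvσs, mul_one,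
      div_one]
    exact (ValuationSubring.mem_nonunits_iff A).mp hnum

end basic

end Fermat.Agent.S55.Bridge.H594

end
-- ===== PACK-END S55/Bridge/H594/PrimeBelow.lean

-- ===== PACK-BEGIN A2/T1/H669/T1Core.lean
section


/-!
# WALL A2, piece T1, core (helper669): from finite levels to `F̄`

`kummerTarget_of_levels` : the Kummer form of the wall (`Spec.KummerTarget`, unfolded) follows from
the corresponding statement at ONE suitable level `E ⊆ ℚ̄` for each finite set of constants:

  for every finite `S ⊆ ℚ̄` there are an intermediate field `E ⊇ S`, an automorphism `τE` of `E`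
  which is the restriction of `τ`, such that for every `y ∈ F_E^×` with `DivisibleDiv E m y`
  (unfolded: `y = u · h^m` at every discrete valuation subring of `F_E` containing `E`) the
  element `(τE - 1)² y` is an `m`-th power in `F_E`.

This file imports only files which are on main (Prelude, `S18.H602`, `S18.H845`); the
instantiation from ALG / MOD / IF of `origin/helper13:Fermat/Agent/A2/Skel.lean` is `T1.lean`.
-/

set_option autoImplicit false
set_option synthInstance.maxHeartbeats 400000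
set_option maxHeartbeats 1600000

noncomputable section

namespace Fermat.Agent.A2.T1.H669

open ModularCurve AlgebraicCurve

/-- A finite-dimensional intermediate field is contained in every intermediate field containing
a suitable finite set. -/
theorem exists_finset_le (E₀ : IntermediateField ℚ _root_.Fermat.Agent.A2.T1.H669.Qb) [FiniteDimensional ℚ E₀] :
    ∃ S : Finset _root_.Fermat.Agent.A2.T1.H669.Qb, ∀ E : IntermediateField ℚ _root_.Fermat.Agent.A2.T1.H669.Qb, (∀ s ∈ S, s ∈ E) → E₀ ≤ E := by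
  classical
  let b := Module.finBasis ℚ E₀
  refine ⟨Finset.univ.image fun i => ((b i : E₀) : _root_.Fermat.Agent.A2.T1.H669.Qb), fun E hE x hx => ?_⟩
  have hx' : (⟨x, hx⟩ : E₀) = ∑ i, (b.repr ⟨x, hx⟩ i) • b i := (b.sum_repr ⟨x, hx⟩).symm
  have hcoe : x = ((∑ i, (b.repr ⟨x, hx⟩ i) • b i : E₀) : _root_.Fermat.Agent.A2.T1.H669.Qb) :=
    congrArg (fun z : E₀ => (z : _root_.Fermat.Agent.A2.T1.H669.Qb)) hx'
  rw [hcoe, IntermediateField.coe_sum]
  refine sum_mem fun i _ => ?_
  have hi : ((b i : E₀) : _root_.Fermat.Agent.A2.T1.H669.Qb) ∈ E := hE _ (Finset.mem_image.2 ⟨i, Finset.mem_univ i, rfl⟩)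
  rw [IntermediateField.coe_smul, Algebra.smul_def]
  exact mul_mem (E.algebraMap_mem _) hi

/-- Every element of `F̄` comes from `F_E` for every intermediate field `E` containing a suitable
finite set of constants. -/
theorem exists_finset_descent (F₀ : IntermediateField ℚ (LaurentSeries ℚ))
    (f : ↥(laurentBaseChange _root_.Fermat.Agent.A2.T1.H669.Qb F₀)) :
    ∃ S : Finset _root_.Fermat.Agent.A2.T1.H669.Qb, ∀ E : IntermediateField ℚ _root_.Fermat.Agent.A2.T1.H669.Qb, (∀ s ∈ S, s ∈ E) →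
      ∃ y : ↥(laurentBaseChange E F₀), iota E F₀ y = f := by
  obtain ⟨E₀, hE₀fin, y₀, hy₀mem, hy₀⟩ :=
    Fermat.Agent.S18.H602.exists_finite_descent (F₀ := F₀) f.2
  haveI := hE₀fin
  obtain ⟨S, hS⟩ := exists_finset_le E₀
  refine ⟨S, fun E hSE => ?_⟩
  obtain ⟨y₁, hy₁mem, hy₁⟩ :=
    Fermat.Agent.S18.H602.DescendsTo.mono (hS E hSE)
      (⟨y₀, hy₀mem, hy₀⟩ : Fermat.Agent.S18.H602.DescendsTo F₀ E₀ (f : LaurentSeries _root_.Fermat.Agent.A2.T1.H669.Qb))
  exact ⟨⟨y₁, hy₁mem⟩, Subtype.ext hy₁⟩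

/-- **T1, core.**  One `τ`: the Kummer statement on `F̄` from the Kummer statement at suitable
finite levels. -/
theorem kummer_of_levels (F₀ : IntermediateField ℚ (LaurentSeries ℚ)) (m : ℕ)
    (τ : _root_.Fermat.Agent.A2.T1.H669.Qb ≃ₐ[ℚ] _root_.Fermat.Agent.A2.T1.H669.Qb)
    (hlevel : ∀ S : Finset _root_.Fermat.Agent.A2.T1.H669.Qb, ∃ E : IntermediateField ℚ _root_.Fermat.Agent.A2.T1.H669.Qb, (∀ s ∈ S, s ∈ E) ∧
      ∃ τE : E ≃ₐ[ℚ] E, (∀ e : E, ((τE e : E) : _root_.Fermat.Agent.A2.T1.H669.Qb) = τ (e : _root_.Fermat.Agent.A2.T1.H669.Qb)) ∧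
        ∀ y : ↥(laurentBaseChange E F₀), y ≠ 0 →
          (∀ V : ValuationSubring ↥(laurentBaseChange E F₀), IsDiscreteValuationRing V →
            (∀ e : E, algebraMap E ↥(laurentBaseChange E F₀) e ∈ V) →
            ∃ h u : ↥(laurentBaseChange E F₀), h ≠ 0 ∧ u ∈ V ∧ u⁻¹ ∈ V ∧ y = u * h ^ m) →
          ∃ h : ↥(laurentBaseChange E F₀), h ≠ 0 ∧
            arithmeticRingAut F₀ τE (arithmeticRingAut F₀ τE y) * y =
              h ^ m * (arithmeticRingAut F₀ τE y) ^ 2)
    (f : ↥(laurentBaseChange _root_.Fermat.Agent.A2.T1.H669.Qb F₀)) (hf : f ≠ 0)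
    (hdiv : ∀ v : Place _root_.Fermat.Agent.A2.T1.H669.Qb ↥(laurentBaseChange _root_.Fermat.Agent.A2.T1.H669.Qb F₀), (m : ℤ) ∣ v.ord f) :
    ∃ h : ↥(laurentBaseChange _root_.Fermat.Agent.A2.T1.H669.Qb F₀), h ≠ 0 ∧
      arithmeticRingAut F₀ τ (arithmeticRingAut F₀ τ f) * f =
        h ^ m * (arithmeticRingAut F₀ τ f) ^ 2 := by
  obtain ⟨S, hS⟩ := exists_finset_descent F₀ f
  obtain ⟨E, hSE, τE, hτE, hE⟩ := hlevel S
  obtain ⟨y, hιy⟩ := hS E hSE
  have hy0 : y ≠ 0 := by
    rintro h0
    apply hf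
    rw [← hιy, h0, map_zero]
  obtain ⟨h, hh0, hh⟩ := hE y hy0
    (divisibleDiv_of_ord E F₀ m y hy0 (fun v => by rw [hιy]; exact hdiv v))
  refine ⟨iota E F₀ h, iota_ne_zero E _ hh0, ?_⟩
  have := congrArg (iota E F₀) hh
  rw [map_mul, map_mul, map_pow, map_pow,
    iota_arithmeticRingAut E F₀ τ τE hτE,
    iota_arithmeticRingAut E F₀ τ τE hτE, hιy] at this
  exact this

end Fermat.Agent.A2.T1.H669

end
end
-- ===== PACK-END A2/T1/H669/T1Core.lean

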