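import Mathlib
import Fermat.Prelude.Def_EllipticCurve_FrobeniusTrace
import Fermat.Prelude.Def_AlgebraicCurve_DivisorClassGroup
import Fermat.Prelude.Def_ModularCurve_X0ModL
import Fermat.Prelude.Def_ModularCurve_JqCoeff
import Fermat.Prelude.Def_AlgebraicCurve_Correspondence
import Fermat.Agent.Pack.S36.E7L2
import Fermat.Agent.Pack.S36.E7L1
import Fermat.Agent.Pack.S36.E0L2
import Fermat.Agent.Pack.S36.E4L1
import Fermat.Agent.Pack.S36.E0L1
import Fermat.Agent.Pack.S36.E7L3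
import Fermat.Agent.Pack.S36.E4L2
import Fermat.Agent.Pack.S36.E4L3
import Fermat.Agent.Pack.S36.E7L0
import Fermat.Agent.Pack.S36.E6L0
import Fermat.Agent.Pack.S36.E0L3

-- ===== PACK-BEGIN S35/H991/NewSub.lean
section
/-
S35 mid layer (helper991): the adic eigenmodule of the NEW part.

Abstract setting: `J` a Galois module with finite `p`-torsion and commuting operators `T i`;
`f c : J → J' c` a family of operator-equivariant additive maps ("degeneracy maps") such that the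
eigensystem `a` does NOT occur in the Tate modules of the `J' c`.  Then the adic eigenmodule can be
built inside the Galois-stable subgroup

  `newSub f = {x | ∀ γ c, f c (γ • x) = 0}`,

so that it inherits every quadratic relation which holds on the `p`-power torsion of `newSub f`
only (not necessarily on all of `J[p^∞]`).

Main result: `exists_adic_eigenmodule_new`.
-/



set_option autoImplicit false

namespace Fermat.Agent.S35.H991

open TensorProduct IsLocalRing Fermat.Agent.S30.H529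

section NewSub

variable {G : Type*} [Group G] {J : Type*} [AddCommGroup J] [DistribMulAction G J]
variable {C : Type*} {J' : C → Type*} [∀ c, AddCommGroup (J' c)]

/-- The `G`-stable subgroup of `J` cut out by the additive maps `f c`. -/
def newSub (G : Type*) [Group G] [DistribMulAction G J] (f : ∀ c, J →+ J' c) :
    Submodule ℤ J where
  carrier := {x | ∀ (γ : G) (c : C), f c (γ • x) = 0}
  zero_mem' := by
    intro γ c
    rw [smul_zero, map_zero]
  add_mem' := by
    intro x y hx hy γ c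
    rw [smul_add, map_add, hx γ c, hy γ c, add_zero]
  smul_mem' := by
    intro r x hx γ c
    have h1 : γ • (r • x) = r • (γ • x) := by
      have := map_zsmul (DistribSMul.toAddMonoidHom J γ) r x
      exact this
    rw [h1, map_zsmul, hx γ c, smul_zero]

theorem mem_newSub {f : ∀ c, J →+ J' c} {x : J} :
    x ∈ newSub G f ↔ ∀ (γ : G) (c : C), f c (γ • x) = 0 := Iff.rfl

theorem smul_mem_newSub {f : ∀ c, J →+ J' c} (γ : G) {x : J} (hx : x ∈ newSub G f) :
    γ • x ∈ newSub G f := by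
  intro γ' c
  rw [← mul_smul]
  exact hx (γ' * γ) c

/-- The Galois action on the new subgroup. -/
@[reducible] def newSubAction (f : ∀ c, J →+ J' c) : DistribMulAction G (newSub G f) where
  smul γ x := ⟨γ • (x : J), smul_mem_newSub γ x.2⟩
  one_smul x := Subtype.ext (one_smul G (x : J))
  mul_smul γ δ x := Subtype.ext (mul_smul γ δ (x : J))
  smul_zero γ := Subtype.ext (smul_zero γ)
  smul_add γ x y := Subtype.ext (smul_add γ (x : J) (y : J))

end NewSub

section Main

/-- The absolute Galois group of `ℚ`. -/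
local notation "Γℚ" => (AlgebraicClosure ℚ ≃ₐ[ℚ] AlgebraicClosure ℚ)

variable {O : Type} [CommRing O] [IsDomain O] [IsDiscreteValuationRing O]
  [IsAdicComplete (maximalIdeal O) O] [CharZero O]

/-- **The adic eigenmodule of the new part.** -/
theorem exists_adic_eigenmodule_new {p : ℕ} (hpO : (p : O) ∈ maximalIdeal O) (hp0 : p ≠ 0)
    {J : Type} [AddCommGroup J] [DistribMulAction Γℚ J]
    {ι : Type} (T : ι → J →+ J) (a : ι → O)
    (hT : ∀ (i : ι) (γ : Γℚ) (x : J), T i (γ • x) = γ • T i x)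
    (hfin : {x : J | p • x = 0}.Finite)
    (hsm : ∀ x : J, (∃ n : ℕ, p ^ n • x = 0) →
      ∃ L : IntermediateField ℚ (AlgebraicClosure ℚ), FiniteDimensional ℚ L ∧
        ∀ σ : Γℚ, (∀ y ∈ L, σ y = y) → σ • x = x)
    {C : Type} {J' : C → Type} [∀ c, AddCommGroup (J' c)]
    (T' : ∀ c, ι → J' c →+ J' c) (f : ∀ c, J →+ J' c)
    (hf : ∀ (c : C) (i : ι) (x : J), f c (T i x) = T' c i (f c x))
    (hexcl : ∀ (c : C) (z : ℕ → O ⊗[ℤ] J' c), (p : O) • z 0 = 0 →
      (∀ n, (p : O) • z (n + 1) = z n) →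
      (∀ i n, tensorOp O (T' c) i (z n) = a i • z n) → z = 0)
    (v : ℕ → O ⊗[ℤ] J) (hv0 : (p : O) • v 0 = 0) (hv : ∀ n, (p : O) • v (n + 1) = v n)
    (hne : v ≠ 0) (heig : ∀ i n, tensorOp O T i (v n) = a i • v n) :
    ∃ (M : Type) (_ : AddCommGroup M) (_ : Module O M) (_ : Module.Free O M)
      (_ : Module.Finite O M) (ρ : Γℚ →* Module.End O M),
      Nontrivial M ∧ GaloisActionIsAdicContinuous O ρ ∧
      (∀ γ : Γℚ,
        (∀ x : J, (∃ n : ℕ, p ^ n • x = 0) → (∀ (γ' : Γℚ) (c : C), f c (γ' • x) = 0) →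
          γ • x = x) → ρ γ = 1) ∧
      (∀ (γ : Γℚ) (i : ι) (c : ℤ),
        (∀ x : J, (∃ n : ℕ, p ^ n • x = 0) → (∀ (γ' : Γℚ) (c' : C), f c' (γ' • x) = 0) →
          γ • γ • x - T i (γ • x) + c • x = 0) →
        ρ γ * ρ γ - a i • ρ γ + (c : O) • (1 : Module.End O M) = 0) ∧
      (∀ (γ : Γℚ) (b c : ℤ),
        (∀ x : J, (∃ n : ℕ, p ^ n • x = 0) → (∀ (γ' : Γℚ) (c' : C), f c' (γ' • x) = 0) →
          γ • γ • x - b • (γ • x) + c • x = 0) →
        ρ γ * ρ γ - (b : O) • ρ γ + (c : O) • (1 : Module.End O M) = 0) := by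
  classical
  -- the new subgroup, with its Galois action
  let K : Submodule ℤ J := newSub Γℚ f
  letI actK : DistribMulAction Γℚ K := newSubAction f
  have hsmulK : ∀ (γ : Γℚ) (x : K), ((γ • x : K) : J) = γ • (x : J) := fun _ _ => rfl
  -- the operators on `K`
  have hTK : ∀ (i : ι) (x : J), x ∈ K → T i x ∈ K := by
    intro i x hx γ c
    rw [← hT, hf, hx γ c, map_zero]
  let TK : ι ⊕ ℤ → K →+ K := fun j =>
    match j with
    | Sum.inl i =>
      { toFun := fun x => ⟨T i (x : J), hTK i (x : J) x.2⟩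
        map_zero' := Subtype.ext (map_zero (T i))
        map_add' := fun x y => Subtype.ext (map_add (T i) (x : J) (y : J)) }
    | Sum.inr b => zsmulAddGroupHom b
  let aK : ι ⊕ ℤ → O := fun j =>
    match j with
    | Sum.inl i => a i
    | Sum.inr b => (b : O)
  have hTKl : ∀ (i : ι) (x : K), ((TK (Sum.inl i) x : K) : J) = T i (x : J) := fun _ _ => rfl
  have hTKr : ∀ (b : ℤ) (x : K), TK (Sum.inr b) x = b • x := fun _ _ => rfl
  have hTKG : ∀ (j : ι ⊕ ℤ) (γ : Γℚ) (x : K), TK j (γ • x) = γ • TK j x := by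
    intro j γ x
    cases j with
    | inl i =>
      apply Subtype.ext
      rw [hTKl, hsmulK, hsmulK, hTKl]
      exact hT i γ (x : J)
    | inr b =>
      rw [hTKr, hTKr]
      apply Subtype.ext
      rw [hsmulK]
      have h1 : (((b • (γ • x) : K)) : J) = b • (γ • (x : J)) := rfl
      have h2 : ((b • x : K) : J) = b • (x : J) := rfl
      rw [h1, h2]
      exact (map_zsmul (DistribSMul.toAddMonoidHom J γ) b (x : J)).symm
  have hfinK : {x : K | p • x = 0}.Finite := by
    refine Set.Finite.of_finite_image (f := fun x : K => (x : J)) ?_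
      (fun x _ y _ h => Subtype.ext h)
    refine hfin.subset ?_
    rintro _ ⟨x, hx, rfl⟩
    show p • (x : J) = 0
    have : ((p • x : K) : J) = 0 := by rw [hx]; rfl
    exact this
  have hsmK : ∀ x : K, (∃ n : ℕ, p ^ n • x = 0) →
      ∃ L : IntermediateField ℚ (AlgebraicClosure ℚ), FiniteDimensional ℚ L ∧
        ∀ σ : Γℚ, (∀ y ∈ L, σ y = y) → σ • x = x := by
    rintro x ⟨n, hn⟩
    obtain ⟨L, hL, hLx⟩ := hsm (x : J) ⟨n, by
      have : ((p ^ n • x : K) : J) = 0 := by rw [hn]; rfl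
      exact this⟩
    exact ⟨L, hL, fun σ hσ => Subtype.ext (hLx σ hσ)⟩
  -- the eigen-sequence lies in `O ⊗ K`
  have hvpow : ∀ n, ((p ^ (n + 1) : ℕ) : ℤ) • v n = 0 := by
    intro n
    have h1 : (p : O) ^ (n + 1) • v n = 0 :=
      tate_pow_succ_smul (ϖ := (p : O)) (t := tensorOp O T) (a := a) ⟨hv0, hv, heig⟩ n
    rw [← natCast_pow_smul]
    exact h1
  have hinj : Function.Injective (K.subtype.baseChange O) := by
    have := Module.Flat.lTensor_preserves_injective_linearMap (M := O) K.subtype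
      K.injective_subtype
    exact this
  -- vanishing of the images under the degeneracy maps
  have hvan : ∀ (γ : Γℚ) (c : C) (n : ℕ),
      ((f c).toIntLinearMap.comp (actLin J γ)).baseChange O (v n) = 0 := by
    intro γ c n
    have hz := hexcl c (fun n => ((f c).toIntLinearMap.comp (actLin J γ)).baseChange O (v n))
      (by rw [← map_smul, hv0, map_zero])
      (fun n => by rw [← map_smul, hv n])
      (fun i n => by
        show ((T' c i).toIntLinearMap.baseChange O)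
            (((f c).toIntLinearMap.comp (actLin J γ)).baseChange O (v n))
          = a i • ((f c).toIntLinearMap.comp (actLin J γ)).baseChange O (v n)
        have h1 : (T' c i).toIntLinearMap.comp ((f c).toIntLinearMap.comp (actLin J γ))
            = ((f c).toIntLinearMap.comp (actLin J γ)).comp (T i).toIntLinearMap := by
          apply LinearMap.ext
          intro x
          show T' c i (f c (γ • x)) = f c (γ • T i x)
          rw [← hT, hf]
        rw [← LinearMap.comp_apply, ← LinearMap.baseChange_comp, h1, LinearMap.baseChange_comp,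
          LinearMap.comp_apply]
        have h2 : (T i).toIntLinearMap.baseChange O (v n) = a i • v n := heig i n
        rw [h2, map_smul])
    exact congrFun hz n
  have hlift : ∀ n, ∃ s : O ⊗[ℤ] K, K.subtype.baseChange O s = v n := by
    intro n
    have hfin' : {x : J | p ^ (n + 1) • x = 0}.Finite := finite_torsion_pow J p hfin (n + 1)
    obtain ⟨s, hs⟩ := exists_lTensor_subtype_eq O (p ^ (n + 1)) hfin'
      (C := Γℚ × C) (J' := fun γc => J' γc.2)
      (fun γc => (f γc.2).toIntLinearMap.comp (actLin J γc.1)) K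
      (fun x _ hx γ c => hx (γ, c)) (v n) (hvpow n) (fun γc => hvan γc.1 γc.2 n)
    exact ⟨s, hs⟩
  choose s hs using hlift
  have hs0 : (p : O) • s 0 = 0 := by
    apply hinj
    rw [map_smul, hs, hv0, map_zero]
  have hss : ∀ n, (p : O) • s (n + 1) = s n := by
    intro n
    apply hinj
    rw [map_smul, hs, hs, hv n]
  have hsne : s ≠ 0 := by
    intro h
    apply hne
    funext n
    rw [← hs n, h]
    simp
  have hseig : ∀ j n, tensorOp O TK j (s n) = aK j • s n := by
    intro j n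
    cases j with
    | inl i =>
      apply hinj
      show K.subtype.baseChange O ((TK (Sum.inl i)).toIntLinearMap.baseChange O (s n))
        = K.subtype.baseChange O (a i • s n)
      have h1 : K.subtype.comp (TK (Sum.inl i)).toIntLinearMap
          = (T i).toIntLinearMap.comp K.subtype := by
        apply LinearMap.ext
        intro x
        rfl
      rw [← LinearMap.comp_apply, ← LinearMap.baseChange_comp, h1, LinearMap.baseChange_comp,
        LinearMap.comp_apply, hs, map_smul, hs]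
      exact heig i n
    | inr b =>
      show (TK (Sum.inr b)).toIntLinearMap.baseChange O (s n) = (b : O) • s n
      have h1 : (TK (Sum.inr b)).toIntLinearMap = b • (LinearMap.id : K →ₗ[ℤ] K) := by
        apply LinearMap.ext
        intro x
        rfl
      rw [h1, LinearMap.baseChange_smul, LinearMap.baseChange_id, LinearMap.smul_apply,
        LinearMap.id_apply, Int.cast_smul_eq_zsmul]
  obtain ⟨M, i1, i2, i3, i4, ρ, hnt, hcont, hunr, hquad⟩ :=
    exists_adic_galois_eigenmodule p O K TK aK hpO hp0 hTKG hfinK hsmK s hs0 hss hsne hseig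
  refine ⟨M, i1, i2, i3, i4, ρ, hnt, hcont, ?_, ?_, ?_⟩
  · intro γ hγ
    refine hunr γ ?_
    rintro x ⟨n, hn⟩
    apply Subtype.ext
    rw [hsmulK]
    refine hγ (x : J) ⟨n, ?_⟩ x.2
    have : ((p ^ n • x : K) : J) = 0 := by rw [hn]; rfl
    exact this
  · intro γ i c hγ
    refine hquad γ (Sum.inl i) c ?_
    rintro x ⟨n, hn⟩
    apply Subtype.ext
    have h1 := hγ (x : J) ⟨n, by
      have : ((p ^ n • x : K) : J) = 0 := by rw [hn]; rfl
      exact this⟩ x.2
    exact h1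
  · intro γ b c hγ
    have h2 := hquad γ (Sum.inr b) c ?_
    · exact h2
    rintro x ⟨n, hn⟩
    apply Subtype.ext
    have h1 := hγ (x : J) ⟨n, by
      have : ((p ^ n • x : K) : J) = 0 := by rw [hn]; rfl
      exact this⟩ x.2
    exact h1

end Main

end Fermat.Agent.S35.H991

end
-- ===== PACK-END S35/H991/NewSub.lean

-- ===== PACK-BEGIN S55/H414/CycloPow.lean
section




/-!
# S55, leaf CYC-INF (helper414), part 3: the cyclotomic character mod `N` on `G_ℚ`, Frobenius

* `cycloPow N : G_ℚ →* (ZMod N)ˣ`, `σ ζ_N = ζ_N ^ (cycloPow N σ)`, with kernel the fixing subgroup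
  of `ℚ(ζ_N)`;
* every valuation subring `A` of `ℚ̄` over a prime `q` has a Frobenius element
  (`exists_isFrobeniusAt`, the proof of `Fermat.Agent.S54.exists_frobenius` for a given `A`);
* a Frobenius element at `A | q`, `q ∤ N`, acts on `ζ_N` by `ζ ↦ ζ ^ q`;
* hence for `q ≠ p` the local degree of `ℚ(ζ_{p^n})` at `A` is divisible by `p ^ k` for `n ≫ 0`.
-/

set_option autoImplicit false

namespace Fermat.Agent.S55.H414

open ExtCitation Fermat.Agent.S55.Bridge

/-- The cyclotomic character modulo `N` of `G_ℚ`. -/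
noncomputable def cycloPow (N : ℕ) [NeZero N] :
    (AlgebraicClosure ℚ ≃ₐ[ℚ] AlgebraicClosure ℚ) →* (ZMod N)ˣ :=
  (zetaBar_spec N).autToPow ℚ

theorem cycloPow_spec (N : ℕ) [NeZero N] (σ : AlgebraicClosure ℚ ≃ₐ[ℚ] AlgebraicClosure ℚ) :
    σ (zetaBar N) = zetaBar N ^ ((cycloPow N σ : (ZMod N)ˣ) : ZMod N).val :=
  ((zetaBar_spec N).autToPow_spec ℚ σ).symm

/-- Two powers of a primitive `N`-th root of unity agree iff the exponents agree in `ZMod N`. -/
theorem pow_eq_pow_iff_natCast_eq {R : Type*} [CommRing R] [IsDomain R] {ζ : R} {N : ℕ}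
    [NeZero N] (hζ : IsPrimitiveRoot ζ N) (a b : ℕ) :
    ζ ^ a = ζ ^ b ↔ (a : ZMod N) = (b : ZMod N) := by
  obtain ⟨u, rfl⟩ := hζ.isUnit (NeZero.ne N)
  have hu : IsPrimitiveRoot u N := IsPrimitiveRoot.coe_units_iff.1 hζ
  rw [ZMod.natCast_eq_natCast_iff, ← Units.val_pow_eq_pow_val, ← Units.val_pow_eq_pow_val,
    Units.val_inj, pow_eq_pow_iff_modEq, ← hu.eq_orderOf]

/-- Characterisation of the value of the cyclotomic character. -/
theorem cycloPow_eq_iff (N : ℕ) [NeZero N] (σ : AlgebraicClosure ℚ ≃ₐ[ℚ] AlgebraicClosure ℚ)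
    (u : (ZMod N)ˣ) :
    cycloPow N σ = u ↔ σ (zetaBar N) = zetaBar N ^ (u : ZMod N).val := by
  rw [cycloPow_spec, pow_eq_pow_iff_natCast_eq (zetaBar_spec N), ZMod.natCast_zmod_val,
    ZMod.natCast_zmod_val]
  exact Units.ext_iff

/-- If `σ ζ = ζ ^ a` then `cycloPow N σ` is the class of `a`. -/
theorem coe_cycloPow_of_apply_eq_pow (N : ℕ) [NeZero N]
    (σ : AlgebraicClosure ℚ ≃ₐ[ℚ] AlgebraicClosure ℚ) (a : ℕ)
    (h : σ (zetaBar N) = zetaBar N ^ a) :
    ((cycloPow N σ : (ZMod N)ˣ) : ZMod N) = (a : ZMod N) := by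
  rw [cycloPow_spec, pow_eq_pow_iff_natCast_eq (zetaBar_spec N), ZMod.natCast_zmod_val] at h
  exact h

theorem ker_cycloPow (N : ℕ) [NeZero N] :
    (cycloPow N).ker = (cycloLevel N).fixingSubgroup := by
  ext σ
  rw [MonoidHom.mem_ker, mem_fixingSubgroup_cycloLevel_iff, cycloPow_eq_iff]
  have h1 : zetaBar N ^ ((1 : (ZMod N)ˣ) : ZMod N).val = zetaBar N := by
    conv_rhs => rw [← pow_one (zetaBar N)]
    rw [pow_eq_pow_iff_natCast_eq (zetaBar_spec N), ZMod.natCast_zmod_val, Units.val_one,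
      Nat.cast_one]
  rw [h1]

/-- The local degree `[D : D ∩ G_F]` for `F = ℚ(ζ_N)` is the order of the image of `D` under the
cyclotomic character. -/
theorem relIndex_fixingSubgroup_cycloLevel (N : ℕ) [NeZero N]
    (D : Subgroup (AlgebraicClosure ℚ ≃ₐ[ℚ] AlgebraicClosure ℚ)) :
    (cycloLevel N).fixingSubgroup.relIndex D = Nat.card (D.map (cycloPow N)) := by
  rw [← ker_cycloPow, Subgroup.relIndex_ker]

/-- The local degree `[D : D ∩ G_F]` is the order of the image of `D` in `Gal(F/ℚ)`. -/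
theorem relIndex_fixingSubgroup_eq_card_map_restrictNormalHom
    (F : IntermediateField ℚ (AlgebraicClosure ℚ)) [Normal ℚ F]
    (D : Subgroup (AlgebraicClosure ℚ ≃ₐ[ℚ] AlgebraicClosure ℚ)) :
    F.fixingSubgroup.relIndex D = Nat.card (D.map (AlgEquiv.restrictNormalHom F)) := by
  have hker : (AlgEquiv.restrictNormalHom (F := ℚ) (K₁ := AlgebraicClosure ℚ) F).ker
      = F.fixingSubgroup := by
    ext x
    rw [MonoidHom.mem_ker, IntermediateField.mem_fixingSubgroup_iff]
    constructor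
    · intro h a ha
      have h1 := AlgEquiv.restrictNormal_commutes x F ⟨a, ha⟩
      have h2 : x.restrictNormal F = 1 := h
      rw [h2] at h1
      exact h1.symm
    · intro h
      apply AlgEquiv.ext
      intro a
      apply Subtype.ext
      have h1 := AlgEquiv.restrictNormal_commutes x F a
      have h2 := h a a.2
      exact h1.trans h2
  rw [← hker, Subgroup.relIndex_ker]

/-- Every valuation subring of `ℚ̄` over a prime number `ℓ` has a Frobenius element. -/
theorem exists_isFrobeniusAt (A : ValuationSubring (AlgebraicClosure ℚ)) (ℓ : ℕ) (hℓ : ℓ.Prime)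
    (hA : A.LiesOverPrime ℓ) :
    ∃ σ : AlgebraicClosure ℚ ≃ₐ[ℚ] AlgebraicClosure ℚ, A.IsFrobeniusAt σ ℓ := by
  open Fermat.Agent.S54 in
  open scoped Pointwise in
  have : Algebra.IsAlgebraic ℚ (AlgebraicClosure ℚ) := AlgebraicClosure.isAlgebraic ℚ
  have := primeBelow_isPrime A
  have hℓQ : (ℓ : integralClosure ℤ (AlgebraicClosure ℚ)) ∈ primeBelow A := by
    rw [mem_primeBelow]
    exact hA
  obtain ⟨σ, hσQ', hσF⟩ := exists_frob_integralClosure ℓ hℓ (primeBelow A) hℓQ
  have hσQ : ∀ x, σ • x ∈ primeBelow A ↔ x ∈ primeBelow A := by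
    intro x
    conv_lhs => rw [← hσQ']
    exact Ideal.smul_mem_pointwise_smul_iff
  have key : ∀ τ : AlgebraicClosure ℚ ≃ₐ[ℚ] AlgebraicClosure ℚ,
      (∀ x, τ • x ∈ primeBelow A ↔ x ∈ primeBelow A) → ∀ x ∈ A, τ x ∈ A := by
    intro τ hτ x hx
    obtain ⟨b, s, hb, hs, hsA, hxs⟩ := (mem_valuationSubring_iff A ℓ hℓ hA x).mp hx
    refine (mem_valuationSubring_iff A ℓ hℓ hA (τ x)).mpr
      ⟨τ b, τ s, hb.map τ, hs.map τ, ?_, ?_⟩
    · exact (hτ ⟨s, hs⟩).not.mpr hsA
    · rw [← map_mul, hxs]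
  have hσA : σ ∈ A.decompositionSubgroup ℚ := by
    rw [MulAction.mem_stabilizer_iff]
    ext x
    rw [ValuationSubring.mem_smul_pointwise_iff_exists]
    constructor
    · rintro ⟨s, hs, rfl⟩
      exact key σ hσQ s hs
    · intro hx
      refine ⟨σ⁻¹ • x, key σ⁻¹ ?_ x hx, by simp⟩
      intro y
      rw [← hσQ (σ⁻¹ • y)]
      simp
  refine ⟨σ, hσA, ?_⟩
  intro x
  obtain ⟨a, rfl⟩ := IsLocalRing.residue_surjective x
  obtain ⟨b, s, hb, hs, hsA, hxs⟩ := (mem_valuationSubring_iff A ℓ hℓ hA a).mp a.2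
  have hbA : b ∈ A := isIntegral_mem_valuationSubring A hb
  have hsA' : s ∈ A := isIntegral_mem_valuationSubring A hs
  have hint : ∀ (y : AlgebraicClosure ℚ) (hy : IsIntegral ℤ y),
      (⟨σ, hσA⟩ : A.decompositionSubgroup ℚ) •
        IsLocalRing.residue A ⟨y, isIntegral_mem_valuationSubring A hy⟩ =
      (IsLocalRing.residue A ⟨y, isIntegral_mem_valuationSubring A hy⟩) ^ ℓ := by
    intro y hy
    rw [← IsLocalRing.ResidueField.residue_smul, ← map_pow, ← sub_eq_zero, ← map_sub,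
      IsLocalRing.residue_eq_zero_iff, ← ValuationSubring.coe_mem_nonunits_iff]
    exact hσF ⟨y, hy⟩
  have h1 : IsLocalRing.residue A a * IsLocalRing.residue A ⟨s, hsA'⟩ =
      IsLocalRing.residue A ⟨b, hbA⟩ := by
    rw [← map_mul]
    congr 1
    exact Subtype.ext hxs
  have h2 : IsLocalRing.residue A ⟨s, hsA'⟩ ≠ 0 := by
    rw [Ne, IsLocalRing.residue_eq_zero_iff, ← ValuationSubring.coe_mem_nonunits_iff]
    exact hsA
  have h3 := congrArg (fun z => (⟨σ, hσA⟩ : A.decompositionSubgroup ℚ) • z) h1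
  simp only [smul_mul'] at h3
  rw [hint s hs, hint b hb, ← h1, mul_pow] at h3
  exact mul_right_cancel₀ (pow_ne_zero _ h2) h3

/-- A Frobenius element at `A` is congruent to the `q`-th power map on `A`. -/
theorem IsFrobeniusAt_val_sub_pow_lt_one {A : ValuationSubring (AlgebraicClosure ℚ)}
    {σ : AlgebraicClosure ℚ ≃ₐ[ℚ] AlgebraicClosure ℚ} {q : ℕ} (hσ : A.IsFrobeniusAt σ q)
    (z : AlgebraicClosure ℚ) (hz : z ∈ A) : A.valuation (σ z - z ^ q) < 1 := by
  obtain ⟨hσD, hF⟩ := hσ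
  have h2 := hF (IsLocalRing.residue A ⟨z, hz⟩)
  rw [← IsLocalRing.ResidueField.residue_smul, ← map_pow] at h2
  have h3 : ((⟨σ, hσD⟩ : A.decompositionSubgroup ℚ) • (⟨z, hz⟩ : A)) - (⟨z, hz⟩ : A) ^ q
      ∈ IsLocalRing.maximalIdeal A := by
    rw [← Ideal.Quotient.eq]
    exact h2
  rw [ValuationSubring.valuation_lt_one_iff] at h3
  exact h3

/-- A Frobenius element at `A | q` acts on `N`-th roots of unity (`N` a unit at `A`) by
`ζ ↦ ζ ^ q`. -/
theorem IsFrobeniusAt_apply_root {A : ValuationSubring (AlgebraicClosure ℚ)}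
    {σ : AlgebraicClosure ℚ ≃ₐ[ℚ] AlgebraicClosure ℚ} {q : ℕ} (hσ : A.IsFrobeniusAt σ q)
    {N : ℕ} (hN : N ≠ 0) (hNv : A.valuation (N : AlgebraicClosure ℚ) = 1)
    {z : AlgebraicClosure ℚ} (hz : z ^ N = 1) : σ z = z ^ q := by
  by_contra hne
  have hσz : (σ z) ^ N = 1 := by rw [← map_pow, hz, map_one]
  have hzq : (z ^ q) ^ N = 1 := by rw [← pow_mul, mul_comm, pow_mul, hz, one_pow]
  have h1 := val_sub_roots_eq_one (A := A) hN hNv hσz hzq hne
  have hzA : z ∈ A := (A.valuation_le_one_iff z).1 (valuation_eq_one_of_pow_eq_one A hN hz).le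
  have h2 := IsFrobeniusAt_val_sub_pow_lt_one hσ z hzA
  rw [h1] at h2
  exact lt_irrefl _ h2

/-- **CYC-INF, case `q ≠ p`.** For a valuation subring `A` of `ℚ̄` over a prime `q ≠ p` and every
`k`, for all large `n` the local degree at `A` of `ℚ(ζ_{p^n})/ℚ` is divisible by `p ^ k`. -/
theorem exists_forall_pow_dvd_relIndex_of_ne (p : ℕ) [Fact p.Prime] (q : ℕ) (hq : q.Prime)
    (hqp : q ≠ p) (A : ValuationSubring (AlgebraicClosure ℚ)) (hA : A.LiesOverPrime q) (k : ℕ) :
    ∃ n₀ : ℕ, ∀ n, n₀ ≤ n →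
      p ^ k ∣ (cycloLevel (p ^ n)).fixingSubgroup.relIndex (A.decompositionSubgroup ℚ) := by
  have hp : p.Prime := Fact.out
  obtain ⟨n₀, hn₀⟩ := exists_forall_pow_dvd_orderOf p q hp hq.two_le k
  obtain ⟨σ, hσ⟩ := exists_isFrobeniusAt A q hq hA
  refine ⟨n₀, fun n hn => ?_⟩
  rw [relIndex_fixingSubgroup_cycloLevel]
  have hNv : A.valuation ((p ^ n : ℕ) : AlgebraicClosure ℚ) = 1 := by
    rw [Nat.cast_pow, map_pow, val_prime_eq_one (A := A) hA hq hp hqp, one_pow]
  have hζ : σ (zetaBar (p ^ n)) = zetaBar (p ^ n) ^ q :=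
    IsFrobeniusAt_apply_root hσ (NeZero.ne _) hNv (zetaBar_spec (p ^ n)).pow_eq_one
  have hu := coe_cycloPow_of_apply_eq_pow (p ^ n) σ q hζ
  have hdvd := hn₀ n hn (cycloPow (p ^ n) σ) hu
  have hmem : cycloPow (p ^ n) σ ∈ (A.decompositionSubgroup ℚ).map (cycloPow (p ^ n)) :=
    Subgroup.mem_map_of_mem _ hσ.mem_decompositionSubgroup
  have h2 : orderOf (cycloPow (p ^ n) σ) ∣
      Nat.card ((A.decompositionSubgroup ℚ).map (cycloPow (p ^ n))) := by
    have := Subgroup.orderOf_dvd_natCard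
      ((A.decompositionSubgroup ℚ).map (cycloPow (p ^ n))) hmem
    exact this
  exact hdvd.trans h2

end Fermat.Agent.S55.H414

end
-- ===== PACK-END S55/H414/CycloPow.lean

-- ===== PACK-BEGIN Lib/Cheb/H476/Core.lean
section






/-!
# CHEB piece F6 (bridge), part 2: from a prime of a Galois number field inside `ℚ̄`
to a valuation subring of `ℚ̄` with a Frobenius element
-/

set_option autoImplicit false

open NumberField
open scoped Pointwise

namespace Fermat.Agent.Lib.Cheb.H476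

open Fermat.Agent.Lib.Cheb.Spec

/-- The inclusion of the ring of integers of a subfield of `ℚ̄` into `ℚ̄`. -/
noncomputable def incl (L : IntermediateField ℚ Qb) : 𝓞 L →+* Qb :=
  (algebraMap L Qb).comp (algebraMap (𝓞 L) L)

theorem incl_apply (L : IntermediateField ℚ Qb) (x : 𝓞 L) :
    incl L x = ((x : L) : Qb) := rfl

theorem incl_injective (L : IntermediateField ℚ Qb) : Function.Injective (incl L) := by
  intro x y h
  have h1 : ((x : L) : Qb) = ((y : L) : Qb) := h
  exact RingOfIntegers.ext (Subtype.ext h1)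

theorem incl_isIntegral (L : IntermediateField ℚ Qb) (x : 𝓞 L) : IsIntegral ℤ (incl L x) := by
  have h1 : IsIntegral ℤ (x : L) := RingOfIntegers.isIntegral_coe x
  exact h1.map (IsScalarTower.toAlgHom ℤ L Qb)

/-- A valuation subring of `ℚ̄` whose maximal ideal contains a given proper ideal of the ring of
integers of a subfield. -/
theorem exists_valuationSubring_over (L : IntermediateField ℚ Qb) (P : Ideal (𝓞 L))
    (hP : P ≠ ⊤) : ∃ A : ValuationSubring Qb, ∀ x ∈ P, incl L x ∈ A.nonunits := by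
  let I : Ideal (incl L).range := P.map (incl L).rangeRestrict
  have hI : I ≠ ⊤ := by
    intro h
    have h1 : (1 : (incl L).range) ∈ I := by rw [h]; trivial
    rw [Ideal.mem_map_iff_of_surjective _ (incl L).rangeRestrict_surjective] at h1
    obtain ⟨x, hx, hx1⟩ := h1
    have h2 : incl L x = incl L 1 := by
      have := congrArg Subtype.val hx1
      simpa using this
    have h3 : x = 1 := incl_injective L h2
    exact hP ((Ideal.eq_top_iff_one P).mpr (h3 ▸ hx))
  obtain ⟨A, -, hA⟩ := Ideal.image_subset_nonunits_valuationSubring I hI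
  refine ⟨A, fun x hx => hA ⟨(incl L).rangeRestrict x, Ideal.mem_map_of_mem _ hx, rfl⟩⟩

/-- The maximal ideal of `A` cuts out exactly `P`. -/
theorem incl_mem_nonunits_iff (L : IntermediateField ℚ Qb) [NumberField L]
    (A : ValuationSubring Qb) (P : Ideal (𝓞 L)) (hP : P.IsMaximal)
    (hA : ∀ x ∈ P, incl L x ∈ A.nonunits) (x : 𝓞 L) :
    incl L x ∈ A.nonunits ↔ x ∈ P := by
  refine ⟨fun hx => ?_, hA x⟩
  by_contra hxP
  obtain ⟨y, m, hm, hxy⟩ := hP.exists_inv hxP
  have h1 : incl L y * incl L x + incl L m = 1 := by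
    rw [← map_mul, ← map_add, hxy, map_one]
  have hy : A.valuation (incl L y) ≤ 1 :=
    (A.valuation_le_one_iff _).mpr
      (Fermat.Agent.S54.isIntegral_mem_valuationSubring A (incl_isIntegral L y))
  have hx' : A.valuation (incl L x) < 1 := A.mem_nonunits_iff.mp hx
  have hm' : A.valuation (incl L m) < 1 := A.mem_nonunits_iff.mp (hA m hm)
  have h2 : A.valuation (incl L y * incl L x) < 1 := by
    rw [map_mul]
    exact mul_lt_of_le_one_of_lt hy hx'
  have h3 : A.valuation (incl L y * incl L x + incl L m) < 1 :=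
    lt_of_le_of_lt (A.valuation.map_add _ _) (max_lt h2 hm')
  rw [h1, map_one] at h3
  exact lt_irrefl _ h3


/-- The prime of `ℤ` below a prime of `𝓞 L` containing the prime number `p` has residue field of
cardinality `p`. -/
theorem card_quot_under (L : IntermediateField ℚ Qb) [NumberField L] (p : ℕ) (hp : p.Prime)
    (P : Ideal (𝓞 L)) (hP : P.IsPrime) (hpP : (p : 𝓞 L) ∈ P) :
    Nat.card (ℤ ⧸ P.under ℤ) = p := by
  have : Fact p.Prime := ⟨hp⟩
  have hle : Ideal.span {(p : ℤ)} ≤ P.under ℤ := by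
    rw [Ideal.span_le, Set.singleton_subset_iff]
    show algebraMap ℤ (𝓞 L) (p : ℤ) ∈ P
    simpa using hpP
  have hne : P.under ℤ ≠ ⊤ := (Ideal.IsPrime.under ℤ P).ne_top
  have heq : Ideal.span {(p : ℤ)} = P.under ℤ :=
    (Int.ideal_span_isMaximal_of_prime p).eq_of_le hne hle
  rw [← heq, Int.card_ideal_quot]

/-- **Core of the bridge.**  A prime `P` of a Galois number field `L ⊆ ℚ̄` above `p`, with trivial
inertia group and arithmetic Frobenius `τ`, is induced by a valuation subring `A` of `ℚ̄`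
over `p` carrying a Frobenius element `φ` which restricts to `τ`; the inertia group of `A` acts
trivially on `L`. -/
theorem exists_frobenius_restrict (L : IntermediateField ℚ Qb) [NumberField L] [IsGalois ℚ L]
    (p : ℕ) (hp : p.Prime) (P : Ideal (𝓞 L)) (hP : P.IsPrime) (hpP : (p : 𝓞 L) ∈ P)
    (hI : InertiaTrivial L P) (τ : L ≃ₐ[ℚ] L) (hτ : IsArithFrobAt ℤ τ P) :
    ∃ (A : ValuationSubring Qb) (φ : GQ), A.LiesOverPrime p ∧ A.IsFrobeniusAt φ p ∧
      (∀ ι ∈ A.inertiaSubgroupIn ℚ, ∀ x : L, ι (x : Qb) = x) ∧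
      (∀ x : L, φ (x : Qb) = (τ x : L)) := by
  have hP0 : P ≠ ⊥ := by
    intro h
    rw [h, Ideal.mem_bot] at hpP
    exact hp.ne_zero (by exact_mod_cast hpP)
  have hPmax : P.IsMaximal := hP.isMaximal hP0
  obtain ⟨A, hA⟩ := exists_valuationSubring_over L P hP.ne_top
  have hAp : A.LiesOverPrime p := by
    have h := hA _ hpP
    have h' : incl L (p : 𝓞 L) = (p : Qb) := by simp
    rw [h'] at h
    exact h
  obtain ⟨φ, hφ, hφF⟩ := exists_frobenius_at p hp A hAp
  have hmem := incl_mem_nonunits_iff L A P hPmax hA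
  have hres : ∀ (g : GQ) (x : L), ((AlgEquiv.restrictNormal g L x : L) : Qb) = g (x : Qb) :=
    fun g x => AlgEquiv.restrictNormal_commutes g L x
  have hcard := card_quot_under L p hp P hP hpP
  refine ⟨A, φ, hAp, hφ, ?_, ?_⟩
  · intro ι hι x
    have h1 : AlgEquiv.restrictNormal ι L = 1 := by
      apply hI
      intro y
      rw [← hmem]
      have h2 : incl L (AlgEquiv.restrictNormal ι L • y - y) = ι (incl L y) - incl L y := by
        rw [map_sub]
        congr 1
        exact hres ι y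
      rw [h2]
      exact sub_mem_nonunits_of_mem_inertia A ι hι _
        (Fermat.Agent.S54.isIntegral_mem_valuationSubring A (incl_isIntegral L y))
    rw [← hres, h1]
    rfl
  · have h1 : IsArithFrobAt ℤ (AlgEquiv.restrictNormal φ L) P := by
      intro y
      rw [hcard]
      rw [← hmem]
      have h2 : incl L ((MulSemiringAction.toAlgHom ℤ (𝓞 L) (AlgEquiv.restrictNormal φ L)) y
          - y ^ p) = φ (incl L y) - incl L y ^ p := by
        rw [map_sub, map_pow]
        congr 1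
        exact hres φ y
      rw [h2]
      exact hφF ⟨incl L y, incl_isIntegral L y⟩
    have h2 := IsArithFrobAt.mul_inv_mem_inertia h1 hτ
    have h3 : AlgEquiv.restrictNormal φ L * τ⁻¹ = 1 := hI _ h2
    have h4 : AlgEquiv.restrictNormal φ L = τ := mul_inv_eq_one.mp h3
    intro x
    rw [← hres, h4]

end Fermat.Agent.Lib.Cheb.H476

end
-- ===== PACK-END Lib/Cheb/H476/Core.lean

-- ===== PACK-BEGIN S24/FFSum.lean
section





/-!
# S24 / FF layer: zeros of a coordinate function, `∑ ord_v(t) = [F : K(t)]`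

Bridge between the Prelude's `Place K F` and the primes of the integral closure of `K[t]`
in `F`, and the fundamental identity.  (helper804)
-/

set_option autoImplicit false

namespace Fermat.Agent.S24.FF

open AlgebraicCurve Polynomial IntermediateField IsDedekindDomain

open scoped IntermediateField.algebraAdjoinAdjoin

variable {K F : Type*} [Field K] [Field F] [Algebra K F]

variable (K) in
/-- `K[t] ⊆ F`. -/
abbrev coordRing (t : F) : Subalgebra K F := Algebra.adjoin K {t}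

variable (K) in
/-- The integral closure of `K[t]` in `F`. -/
abbrev intRing (t : F) : Subalgebra (coordRing K t) F := integralClosure (coordRing K t) F

variable (K) in
/-- `t` is a coordinate function on the curve with function field `F`: transcendental over `K`
with `F` finite over `K(t)`. -/
class IsCoord (t : F) : Prop where
  transcendental : Transcendental K t
  finite : FiniteDimensional K⟮t⟯ F

variable {t : F}

instance instFiniteOfIsCoord [h : IsCoord K t] : FiniteDimensional K⟮t⟯ F := h.finite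

instance instPIDCoordRing [h : IsCoord K t] : IsPrincipalIdealRing (coordRing K t) :=
  IsPrincipalIdealRing.of_surjective
    (algEquivOfTranscendental K t h.transcendental : K[X] →+* coordRing K t)
    (algEquivOfTranscendental K t h.transcendental).surjective

instance instDedekindIntRing [CharZero K] [IsCoord K t] : IsDedekindDomain (intRing K t) :=
  integralClosure.isDedekindDomain (coordRing K t) K⟮t⟯ F

instance instFractionIntRing [IsCoord K t] : IsFractionRing (intRing K t) F :=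
  integralClosure.isFractionRing_of_finite_extension K⟮t⟯ F

instance instFiniteIntRing [CharZero K] [IsCoord K t] :
    Module.Finite (coordRing K t) (intRing K t) :=
  IsIntegralClosure.finite (coordRing K t) K⟮t⟯ F (intRing K t)

/-- Any transcendental element is a coordinate as soon as one coordinate exists. -/
theorem IsCoord.of_transcendental {x : F} [hx : IsCoord K x] {y : F} (hy : Transcendental K y) :
    IsCoord K y :=
  ⟨hy, finiteDimensional_adjoin_of_transcendental hx.transcendental hy⟩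

section placeOfPrime

variable [CharZero K] [IsCoord K t]

variable (K t) in
/-- The place attached to a nonzero prime of the integral closure of `K[t]`. -/
noncomputable def placeOfPrime (q : HeightOneSpectrum (intRing K t)) : Place K F :=
  Place.ofHeightOneSpectrum (K := K) q

theorem placeOfPrime_toValuationSubring (q : HeightOneSpectrum (intRing K t)) :
    (placeOfPrime K t q).toValuationSubring = (q.valuation F).valuationSubring := rfl

theorem ord_placeOfPrime (q : HeightOneSpectrum (intRing K t)) (f : F) :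
    (placeOfPrime K t q).ord f = -WithZero.log (q.valuation F f) := by
  rcases eq_or_ne f 0 with rfl | hf
  · simp
  obtain ⟨π, hπ⟩ := q.valuation_exists_uniformizer F
  have hπ0 : π ≠ 0 := by
    rintro rfl
    rw [map_zero] at hπ
    exact WithZero.exp_ne_zero hπ.symm
  symm
  refine ordLike_eq_ord (fun f => -WithZero.log (q.valuation F f)) ?_ (placeOfPrime K t q) ?_
    hπ0 ?_ hf
  · intro f g hf hg
    simp only [map_mul]
    rw [WithZero.log_mul ((Valuation.ne_zero_iff _).mpr hf) ((Valuation.ne_zero_iff _).mpr hg)]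
    ring
  · intro f hf
    rw [placeOfPrime_toValuationSubring, Valuation.mem_valuationSubring_iff,
      neg_nonneg, WithZero.log_le_iff_le_exp ((Valuation.ne_zero_iff _).mpr hf)]
    simp
  · simp [hπ]

end placeOfPrime

end Fermat.Agent.S24.FF

end
-- ===== PACK-END S24/FFSum.lean

-- ===== PACK-BEGIN S24/Inf/Subst.lean
section


/-!
# S24 / MOD-INF — substitution `τ ↦ (aτ + b)/d` in convergent Laurent expansions
-/

set_option autoImplicit false

noncomputable section

open HahnSeries ModularCurve UpperHalfPlane Complex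
open scoped Real

namespace Fermat.Agent.S24

/-- The map `τ ↦ (aτ + b)/d` of `ℍ` (the identity if `a = 0` or `d = 0`). -/
def infAff (a : ℕ) (b : ℤ) (d : ℕ) (τ : ℍ) : ℍ :=
  if h : 0 < a ∧ 0 < d then
    ⟨((a : ℂ) * τ + b) / d, by
      have ha : (0 : ℝ) < a := by exact_mod_cast h.1
      have hd : (0 : ℝ) < d := by exact_mod_cast h.2
      have e : (((a : ℂ) * τ + b) / d).im = a * τ.im / d := by
        have : ((a : ℂ) * τ + b) / d = (((a : ℝ) : ℂ) * τ + ((b : ℝ) : ℂ)) / ((d : ℝ) : ℂ) := by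
          push_cast; rfl
        rw [this, Complex.div_ofReal_im]
        simp
      rw [e]
      have := τ.im_pos
      positivity⟩
  else τ

theorem infAff_coe {a d : ℕ} (ha : 0 < a) (hd : 0 < d) (b : ℤ) (τ : ℍ) :
    (infAff a b d τ : ℂ) = ((a : ℂ) * τ + b) / d := by
  rw [infAff, dif_pos ⟨ha, hd⟩]

@[simp]
theorem infAff_one_zero_one (τ : ℍ) : infAff 1 0 1 τ = τ := by
  apply UpperHalfPlane.ext
  rw [infAff_coe one_pos one_pos]
  simp

/-- The unit `exp (2πi b/n)` of `ℂ`. -/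
def infRoot (b : ℤ) (n : ℕ) : ℂˣ :=
  Units.mk0 (Complex.exp (2 * π * Complex.I * b / n)) (Complex.exp_ne_zero _)

@[simp]
theorem infRoot_coe (b : ℤ) (n : ℕ) :
    ((infRoot b n : ℂˣ) : ℂ) = Complex.exp (2 * π * Complex.I * b / n) := rfl

theorem infRoot_zpow_coe (b : ℤ) (n : ℕ) (k : ℤ) :
    (((infRoot b n) ^ k : ℂˣ) : ℂ) = Complex.exp (2 * π * Complex.I * b / n) ^ k := by
  rw [Units.val_zpow_eq_zpow_val, infRoot_coe]

theorem infRoot_zero (n : ℕ) : infRoot 0 n = 1 := by
  apply Units.ext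
  simp

/-- Key computation: `z_M((aτ+b)/d) = exp(2πi b/(dM)) · z_N(τ)^e` when `e·d·M = a·N`. -/
theorem infZ_infAff {M N a d e : ℕ} (b : ℤ) (ha : 0 < a) (hd : 0 < d) (hM : 0 < M)
    (hN : 0 < N) (he : e * (d * M) = a * N) (τ : ℍ) :
    infZ M (infAff a b d τ) = (infRoot b (d * M) : ℂ) * infZ N τ ^ e := by
  rw [infZ_def, infZ_def, infAff_coe ha hd, infRoot_coe, ← Complex.exp_nat_mul, ← Complex.exp_add]
  congr 1
  have hd' : (d : ℂ) ≠ 0 := by exact_mod_cast hd.ne'
  have hM' : (M : ℂ) ≠ 0 := by exact_mod_cast hM.ne'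
  have hN' : (N : ℂ) ≠ 0 := by exact_mod_cast hN.ne'
  have he' : (e : ℂ) * ((d : ℂ) * M) = a * N := by exact_mod_cast congrArg (Nat.cast : ℕ → ℂ) he
  push_cast
  field_simp
  linear_combination (-(τ : ℂ)) * he'

/-- **Substitution (general form).** If `z_M(u τ) = c · z_N(τ)^k` then `f ∘ u` has the
expansion `φ(c · z^k)` in `z_N`. -/
theorem InfExp.subst {M N : ℕ} {f : ℍ → ℂ} {φ : LaurentSeries ℂ} (hf : InfExp M f φ)
    (u : ℍ → ℍ) (c : ℂˣ) (k : ℕ) [NeZero k]
    (hu : ∀ τ : ℍ, infZ M (u τ) = (c : ℂ) * infZ N τ ^ k) :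
    InfExp N (fun τ => f (u τ)) (qExpand ℂ k (infTwist c φ)) := by
  intro τ
  have h := hf (u τ)
  rw [hu τ] at h
  have he0 : (k : ℤ) ≠ 0 := by exact_mod_cast NeZero.ne k
  have hinj : Function.Injective (fun n : ℤ => (k : ℤ) * n) :=
    mul_right_injective₀ he0
  have hrange : ∀ m : ℤ, m ∉ Set.range (fun n : ℤ => (k : ℤ) * n) →
      (qExpand ℂ k (infTwist c φ)).coeff m * infZ N τ ^ m = 0 := by
    intro m hm
    rw [qExpand_coeff_of_not_dvd k _ (fun ⟨j, hj⟩ => hm ⟨j, hj.symm⟩), zero_mul]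
  rw [← hinj.hasSum_iff hrange]
  convert h using 1
  funext n
  simp only [Function.comp_apply, qExpand_coeff_mul, infTwist_coeff]
  rw [mul_zpow, ← zpow_natCast (infZ N τ) k, ← zpow_mul, Units.val_zpow_eq_zpow_val]
  ring

/-- **Substitution.** If `φ` converges to `f` in `z_M`, then `f ∘ (τ ↦ (aτ+b)/d)` has the
expansion `φ(u · z_N^e)` in `z_N`, `u = exp(2πi b/(dM))`, `e = aN/(dM)`. -/
theorem InfExp.comp_infAff {M N a d e : ℕ} [NeZero e] (b : ℤ) (ha : 0 < a) (hd : 0 < d)
    (hM : 0 < M) (hN : 0 < N) (he : e * (d * M) = a * N) {f : ℍ → ℂ} {φ : LaurentSeries ℂ}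
    (hf : InfExp M f φ) :
    InfExp N (fun τ => f (infAff a b d τ)) (qExpand ℂ e (infTwist (infRoot b (d * M)) φ)) :=
  hf.subst (infAff a b d) (infRoot b (d * M)) e (infZ_infAff b ha hd hM hN he)

/-- Translation `τ ↦ τ + 1`: the expansion in `z_N` is twisted by `ζ_N = exp(2πi/N)`. -/
theorem InfExp.comp_translate {N : ℕ} [NeZero N] {f : ℍ → ℂ} {φ : LaurentSeries ℂ}
    (hf : InfExp N f φ) (b : ℤ) :
    InfExp N (fun τ => f (infAff 1 b 1 τ)) (infTwist (infRoot b N) φ) := by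
  have hN : 0 < N := Nat.pos_of_ne_zero (NeZero.ne N)
  have h := hf.comp_infAff (e := 1) b one_pos one_pos hN hN (by ring)
  rw [qExpand_one_apply, one_mul] at h
  exact h

end Fermat.Agent.S24

end
end
-- ===== PACK-END S24/Inf/Subst.lean

-- ===== PACK-BEGIN S28/H565/PolyPrinciple.lean
section






/-!
# S28 analytic bridge, part 4: the polynomial principle (helper565)

A holomorphic function on `ℍ` which is invariant under `SL(2, ℤ)` and has a convergent Laurent
expansion at `∞` (finitely many negative exponents) is a polynomial in `j`; consequently its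
expansion is the same polynomial in the formal series `jqModC ℂ`.
-/

set_option autoImplicit false

noncomputable section

open UpperHalfPlane Complex Function Filter Topology ModularForm
open scoped Real MatrixGroups Manifold

namespace Fermat.Agent.S28.H565

local notation "𝕢" => Periodic.qParam
local notation "Δ" => ModularForm.discriminant

theorem discriminant_slash (γ : SL(2, ℤ)) : (Δ ∣[(12 : ℤ)] γ) = Δ :=
  SlashInvariantForm.slash_action_generators_SL2Z discriminant_S_invariant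
    discriminant_T_invariant γ

theorem discriminant_smul (γ : SL(2, ℤ)) (τ : ℍ) :
    Δ (γ • τ) = ((γ 1 0 : ℂ) * τ + (γ 1 1 : ℂ)) ^ (12 : ℤ) * Δ τ :=
  (slash_action_eq'_iff 12 Δ γ τ).mp (congrFun (discriminant_slash γ) τ)

theorem E₄_smul (γ : SL(2, ℤ)) (τ : ℍ) :
    E₄ (γ • τ) = ((γ 1 0 : ℂ) * τ + (γ 1 1 : ℂ)) ^ (4 : ℤ) * E₄ τ := by
  have h : (⇑E₄ ∣[(4 : ℤ)] γ) = ⇑E₄ :=
    SlashInvariantForm.slash_action_eqn E₄ _ ⟨γ, rfl⟩
  exact (slash_action_eq'_iff 4 E₄ γ τ).mp (congrFun h τ)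

theorem denom_ne_zero' (γ : SL(2, ℤ)) (τ : ℍ) : ((γ 1 0 : ℂ) * τ + (γ 1 1 : ℂ)) ≠ 0 := by
  have := UpperHalfPlane.denom_ne_zero (γ : GL (Fin 2) ℝ) τ
  simpa [UpperHalfPlane.denom] using this

/-- `j` is invariant under `SL(2, ℤ)`. -/
theorem jFun_smul (γ : SL(2, ℤ)) (τ : ℍ) : jFun (γ • τ) = jFun τ := by
  have hd := denom_ne_zero' γ τ
  have hΔ := discriminant_ne_zero τ
  simp only [jFun]
  rw [discriminant_smul, E₄_smul]
  rw [mul_pow, ← zpow_natCast (((γ 1 0 : ℂ) * τ + (γ 1 1 : ℂ)) ^ (4 : ℤ)) 3, ← zpow_mul]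
  norm_num
  field_simp

theorem mdifferentiable_discriminant : MDiff Δ := CuspForm.discriminant.holo'

theorem mdifferentiable_jFun : MDiff jFun := by
  have h1 : MDiff (fun τ => E₄ τ ^ 3) := (ModularFormClass.holo E₄).pow 3
  exact h1.div mdifferentiable_discriminant discriminant_ne_zero

theorem E₄_pow_three (τ : ℍ) : E₄ τ ^ 3 = jFun τ * Δ τ := by
  rw [jFun, div_mul_cancel₀ _ (discriminant_ne_zero τ)]

theorem hasPExp_modularForm {k : ℤ} (G : ModularForm 𝒮ℒ k) :
    HasPExp 1 G (qExpansion 1 G) :=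
  fun τ => ModularForm.hasSum_qExpansion G one_pos one_mem_strictPeriods_SL τ

theorem constantCoeff_e4C : PowerSeries.constantCoeff e4C = 1 := by
  rw [e4C, ← PowerSeries.coeff_zero_eq_constantCoeff, PowerSeries.coeff_map,
    PowerSeries.coeff_zero_eq_constantCoeff, ModularCurve.constantCoeff_eisenstein4]
  simp

/-- Level one modular forms of weight `12 m` are of the form `Q(j) Δ^m` with `deg Q ≤ m`. -/
theorem exists_polynomial_of_modularForm (m : ℕ) : ∀ (k : ℤ), k = 12 * m →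
    ∀ G : ModularForm 𝒮ℒ k,
      ∃ Q : Polynomial ℂ, Q.natDegree ≤ m ∧ ∀ τ, G τ = Q.eval (jFun τ) * Δ τ ^ m := by
  induction m with
  | zero =>
    intro k hk G
    have hk0 : k = 0 := by simpa using hk
    obtain ⟨c, hc⟩ := ModularFormClass.levelOne_weight_zero_const (ModularForm.mcast hk0 G)
    refine ⟨Polynomial.C c, by simp, fun τ => ?_⟩
    have := congrFun hc τ
    simpa using this
  | succ m ih =>
    intro k hk G
    set c : ℂ := PowerSeries.coeff 0 (qExpansion 1 G) with hc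
    have hw : ((3 * (m + 1) : ℕ) : ℤ) * 4 = k := by rw [hk]; push_cast; ring
    set E4pow : ModularForm 𝒮ℒ k := ModularForm.mcast hw (E₄.pow (3 * (m + 1))) with hE4pow
    have hE4pow_apply : ∀ τ, E4pow τ = E₄ τ ^ (3 * (m + 1)) := by
      intro τ
      rw [hE4pow, ModularForm.coe_mcast, ModularForm.coe_pow]
      rfl
    set G₁ : ModularForm 𝒮ℒ k := G - c • E4pow with hG₁
    have hG₁_apply : ∀ τ, G₁ τ = G τ - c * E₄ τ ^ (3 * (m + 1)) := by
      intro τ
      simp [hG₁, hE4pow_apply]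
    have hexp1 : HasPExp 1 G₁ (qExpansion 1 G - c • e4C ^ (3 * (m + 1))) := by
      refine ((hasPExp_modularForm G).sub ((hasPExp_E₄.pow (3 * (m + 1))).smul c)).congr ?_
      intro τ
      simp [hG₁_apply]
    have hq : qExpansion 1 G₁ = qExpansion 1 G - c • e4C ^ (3 * (m + 1)) :=
      (hasPExp_modularForm G₁).unique one_pos hexp1
    have hcusp : PowerSeries.coeff 0 (qExpansion 1 G₁) = 0 := by
      rw [hq, map_sub, PowerSeries.coeff_smul, ← hc]
      simp [constantCoeff_e4C]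
    have hw' : k - 12 = 12 * (m : ℤ) := by rw [hk]; push_cast; ring
    obtain ⟨Q', hQ'deg, hQ'⟩ := ih (k - 12) hw' (CuspForm.discriminantEquiv (G₁.toCuspForm hcusp))
    refine ⟨Polynomial.C c * Polynomial.X ^ (m + 1) + Q', ?_, fun τ => ?_⟩
    · refine (Polynomial.natDegree_add_le _ _).trans (max_le ?_ (hQ'deg.trans (Nat.le_succ m)))
      exact Polynomial.natDegree_C_mul_X_pow_le c (m + 1)
    · have h1 := hQ' τ
      rw [CuspForm.discriminantEquiv_apply, ModularForm.toCuspForm_apply, hG₁_apply] at h1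
      have hΔ := discriminant_ne_zero τ
      have h2 : G τ - c * E₄ τ ^ (3 * (m + 1)) = Q'.eval (jFun τ) * Δ τ ^ m * Δ τ := by
        rw [← h1, div_mul_cancel₀ _ hΔ]
      have h3 : E₄ τ ^ (3 * (m + 1)) = (jFun τ * Δ τ) ^ (m + 1) := by
        rw [pow_mul, E₄_pow_three]
      rw [h3] at h2
      simp only [Polynomial.eval_add, Polynomial.eval_mul, Polynomial.eval_C, Polynomial.eval_pow,
        Polynomial.eval_X]
      linear_combination h2

/-- `q = t^N` for the parameters `q = exp (2πiτ)` and `t = exp (2πiτ/N)`. -/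
theorem qParam_one_eq_pow (N : ℕ) (hN : N ≠ 0) (z : ℂ) : 𝕢 1 z = 𝕢 N z ^ N := by
  have h := qParam_mul_pow 1 N hN z 1
  rw [one_mul, mul_one, zpow_one, zpow_natCast] at h
  exact h.symm

theorem isBoundedAtImInfty_mul_discriminant_pow {N : ℕ} [NeZero N] {f : ℍ → ℂ}
    {φ : LaurentSeries ℂ} (hexp : HasTExp N f φ) (m : ℕ) (hm : 0 ≤ φ.order + N * m) :
    IsBoundedAtImInfty (fun τ => f τ * Δ τ ^ m) := by
  have hN : (0 : ℝ) < N := by exact_mod_cast Nat.pos_of_ne_zero (NeZero.ne N)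
  obtain ⟨k, hk⟩ := Int.eq_ofNat_of_zero_le hm
  have b1 := hexp.hasPExp.isBoundedAtImInfty hN
  have b2 := ((HasPExp.X (h := N)).pow k).isBoundedAtImInfty hN
  have b3 := ((hasPExp_eulerFun one_pos).pow (24 * m)).isBoundedAtImInfty one_pos
  have b := (b1.mul b2).mul b3
  have hfun : (fun τ : ℍ => f τ * Δ τ ^ m) =
      ((fun τ : ℍ => f τ * 𝕢 N τ ^ (-φ.order)) * ((fun τ : ℍ => 𝕢 N τ) ^ k)) *
        ((fun τ : ℍ => eulerFun (𝕢 1 τ)) ^ (24 * m)) := by
    funext τ
    have ht : 𝕢 N (τ : ℂ) ≠ 0 := Periodic.qParam_ne_zero _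
    simp only [Pi.mul_apply, Pi.pow_apply]
    rw [discriminant_eq_eulerFun, qParam_one_eq_pow N (NeZero.ne N)]
    have e1 : 𝕢 N (τ : ℂ) ^ (-φ.order) * 𝕢 N (τ : ℂ) ^ k = 𝕢 N (τ : ℂ) ^ (N * m) := by
      rw [← zpow_natCast (𝕢 N (τ : ℂ)) k, ← zpow_add₀ ht, ← hk, ← zpow_natCast]
      congr 1
      push_cast
      ring
    rw [mul_pow, ← pow_mul]
    linear_combination (-(f τ * eulerFun (𝕢 N (τ : ℂ) ^ N) ^ (24 * m))) * e1
  rw [hfun]
  exact b

/-- **Polynomial principle.** A holomorphic `SL(2, ℤ)`-invariant function on `ℍ` with a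
convergent Laurent expansion `φ` in `t = exp (2πiτ/N)` is a polynomial `Q` in `j`, and
`φ = Q (j(t^N))` as formal Laurent series. -/
theorem exists_polynomial_of_invariant {N : ℕ} [NeZero N] {f : ℍ → ℂ} {φ : LaurentSeries ℂ}
    (hf : MDiff f) (hinv : ∀ (γ : SL(2, ℤ)) (τ : ℍ), f (γ • τ) = f τ)
    (hexp : HasTExp N f φ) :
    ∃ Q : Polynomial ℂ, (∀ τ, f τ = Q.eval (jFun τ)) ∧
      φ = Polynomial.aeval (ModularCurve.qExpand ℂ N (ModularCurve.jqModC ℂ)) Q := by
  have hN : (0 : ℝ) < N := by exact_mod_cast Nat.pos_of_ne_zero (NeZero.ne N)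
  set m : ℕ := (-φ.order).toNat with hm
  have hm0 : 0 ≤ φ.order + N * m := by
    have h1 : -φ.order ≤ (m : ℤ) := Int.self_le_toNat _
    have h2 : (1 : ℤ) ≤ N := by exact_mod_cast Nat.pos_of_ne_zero (NeZero.ne N)
    nlinarith [Int.natCast_nonneg m]
  have hbdd := isBoundedAtImInfty_mul_discriminant_pow hexp m hm0
  have hslash : ∀ γ : SL(2, ℤ),
      ((fun τ => f τ * Δ τ ^ m) ∣[(12 * m : ℤ)] γ) = fun τ => f τ * Δ τ ^ m := by
    intro γ
    funext τ
    rw [slash_action_eq'_iff, hinv, discriminant_smul, mul_pow, ← zpow_natCast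
      (((γ 1 0 : ℂ) * τ + (γ 1 1 : ℂ)) ^ (12 : ℤ)) m, ← zpow_mul]
    ring
  let G : ModularForm 𝒮ℒ (12 * m) :=
    { toFun := fun τ => f τ * Δ τ ^ m
      slash_action_eq' := fun _ ⟨γ, hγ⟩ => hγ ▸ hslash γ
      holo' := hf.mul (mdifferentiable_discriminant.pow m)
      bdd_at_cusps' := fun {c} hc => by
        rw [Subgroup.IsArithmetic.isCusp_iff_isCusp_SL2Z] at hc
        rw [OnePoint.isBoundedAt_iff_forall_SL2Z hc]
        intro γ _
        rw [hslash γ]
        exact hbdd }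
  obtain ⟨Q, -, hQ⟩ := exists_polynomial_of_modularForm m _ rfl G
  have hfQ : ∀ τ, f τ = Q.eval (jFun τ) := by
    intro τ
    have h1 : f τ * Δ τ ^ m = Q.eval (jFun τ) * Δ τ ^ m := hQ τ
    exact mul_right_cancel₀ (pow_ne_zero m (discriminant_ne_zero τ)) h1
  refine ⟨Q, hfQ, ?_⟩
  have h1 : HasTExp N jFun (ModularCurve.qExpand ℂ N (ModularCurve.jqModC ℂ)) :=
    hasTExp_jFun.qExpand_one N
  have h2 := h1.polynomial_aeval Q
  have h3 : HasTExp N f (Polynomial.aeval (ModularCurve.qExpand ℂ N (ModularCurve.jqModC ℂ)) Q) :=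
    h2.congr fun τ => (hfQ τ).symm
  exact hexp.unique hN h3

end Fermat.Agent.S28.H565

end
end
-- ===== PACK-END S28/H565/PolyPrinciple.lean

-- ===== PACK-BEGIN S28/H685/JFun.lean
section





/-!
# S28 helper (helper685): the analytic `j`-function and its formal `q`-expansion

* `jFun τ = E₄ τ ^ 3 / Δ τ`, holomorphic on `ℍ`, invariant under `SL(2, ℤ)`.
* `hasQLaurent_jFun` : `jFun` is the sum of the Prelude's formal series `ModularCurve.jqModC ℂ`
  (the image of `ModularCurve.jq` in `ℂ((q))`).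
* `exists_polynomial_of_S_invariant` : **the `j`-polynomial principle**.
* `exists_polynomial_of_S_invariant_of_mem` : integrality of the polynomial.
-/

set_option autoImplicit false

namespace Fermat.Agent.S28.H685

open UpperHalfPlane Function Complex Filter HahnSeries ModularForm SlashInvariantForm
  ModularFormClass EisensteinSeries
open scoped Topology Manifold MatrixGroups

noncomputable section

local notation "𝕢" => Periodic.qParam

/-- The analytic `j`-function (normalised as `q⁻¹ + 744 + ⋯`). -/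
def jFun (τ : ℍ) : ℂ := E₄ τ ^ 3 / ModularForm.discriminant τ

/-- The formal `q`-expansion of `E₄`, with complex coefficients. -/
def eisenstein4C : PowerSeries ℂ := ModularCurve.eisenstein4.map (Int.castRingHom ℂ)

theorem qExpansion_E4_eq : qExpansion 1 E₄ = eisenstein4C := by
  ext m
  rw [E_qExpansion_coeff _ ⟨2, rfl⟩]
  simp only [eisenstein4C, ModularCurve.eisenstein4, PowerSeries.coeff_map, PowerSeries.coeff_mk]
  split_ifs with h
  · simp
  · rw [show bernoulli 4 = -1 / 30 by decide +kernel, ArithmeticFunction.sigma_apply]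
    simp only [eq_intCast]
    push_cast
    norm_num

theorem hasQExp_E4 : HasQExp 1 E₄ eisenstein4C := by
  intro τ
  have := ModularForm.hasSum_qExpansion E₄ one_pos one_mem_strictPeriods_SL τ
  rwa [qExpansion_E4_eq] at this

theorem discriminant_eq_etaC (τ : ℍ) :
    ModularForm.discriminant τ = 𝕢 1 τ * etaC (𝕢 1 τ) ^ 24 := by
  rw [discriminant_eq_q_prod]
  congr 1
  have hq : ‖𝕢 1 (τ : ℂ)‖ < 1 := Periodic.norm_qParam_lt_one one_pos τ.im_pos
  rw [etaC, ← (multipliable_one_sub_pow hq).tprod_pow]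

theorem etaC_qParam_ne_zero (τ : ℍ) : etaC (𝕢 1 τ) ≠ 0 := by
  intro h0
  have := discriminant_ne_zero τ
  rw [discriminant_eq_etaC, h0] at this
  simp at this

/-- The formal series `η^24 / q`, with complex coefficients. -/
def dedekindEtaUnitC : PowerSeries ℂ := ModularCurve.dedekindEtaUnit.map (Int.castRingHom ℂ)

theorem dedekindEtaUnitC_eq : dedekindEtaUnitC = etaProdC ^ 24 := by
  rw [dedekindEtaUnitC, ModularCurve.dedekindEtaUnit, map_pow, etaProdC]

theorem hasQExp_dedekindEtaUnitC : HasQExp 1 (fun τ => etaC (𝕢 1 τ) ^ 24) dedekindEtaUnitC := by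
  rw [dedekindEtaUnitC_eq]
  exact hasQExp_etaC.pow 24

theorem dedekindEtaUnitC_inv :
    dedekindEtaUnitC⁻¹ = ModularCurve.dedekindEtaUnitInv.map (Int.castRingHom ℂ) := by
  have h0 : PowerSeries.constantCoeff dedekindEtaUnitC ≠ 0 := by
    rw [dedekindEtaUnitC, ← PowerSeries.coeff_zero_eq_constantCoeff, PowerSeries.coeff_map,
      PowerSeries.coeff_zero_eq_constantCoeff, ModularCurve.constantCoeff_dedekindEtaUnit]
    simp
  symm
  rw [PowerSeries.eq_inv_iff_mul_eq_one h0, dedekindEtaUnitC, ← map_mul, mul_comm,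
    ModularCurve.dedekindEtaUnit_mul_inv, map_one]

/-- The formal numerator of `j`, with complex coefficients. -/
def jNumC : PowerSeries ℂ := ModularCurve.jNum.map (Int.castRingHom ℂ)

theorem jNumC_eq : jNumC = eisenstein4C ^ 3 * dedekindEtaUnitC⁻¹ := by
  rw [jNumC, ModularCurve.jNum, map_mul, map_pow, dedekindEtaUnitC_inv, eisenstein4C]

theorem constantCoeff_jNumC : PowerSeries.constantCoeff jNumC = 1 := by
  rw [jNumC, ← PowerSeries.coeff_zero_eq_constantCoeff, PowerSeries.coeff_map,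
    PowerSeries.coeff_zero_eq_constantCoeff, ModularCurve.constantCoeff_jNum]
  simp

theorem hasQExp_jNumC : HasQExp 1 (fun τ => E₄ τ ^ 3 * (etaC (𝕢 1 τ) ^ 24)⁻¹) jNumC := by
  rw [jNumC_eq]
  refine (hasQExp_E4.pow 3).mul (hasQExp_dedekindEtaUnitC.inv one_pos
    (fun τ => pow_ne_zero _ (etaC_qParam_ne_zero τ)) ?_)
  rw [dedekindEtaUnitC, PowerSeries.coeff_map, PowerSeries.coeff_zero_eq_constantCoeff,
    ModularCurve.constantCoeff_dedekindEtaUnit]
  simp

theorem jqModC_eq : ModularCurve.jqModC ℂ =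
    HahnSeries.single (-1 : ℤ) (1 : ℂ) * HahnSeries.ofPowerSeries ℤ ℂ jNumC := rfl

/-- **Bridge**: the analytic `j`-function is the sum of the Prelude's formal series `jq`. -/
theorem hasQLaurent_jFun : HasQLaurent 1 jFun (ModularCurve.jqModC ℂ) := by
  rw [jqModC_eq, hasQLaurent_single_mul_iff]
  refine hasQExp_jNumC.congr_fun fun τ => ?_
  have hq : 𝕢 1 (τ : ℂ) ≠ 0 := Periodic.qParam_ne_zero _
  have hη := etaC_qParam_ne_zero τ
  rw [jFun, discriminant_eq_etaC]
  simp only [neg_neg, zpow_one]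
  field_simp

/-- `jFun` in the explicit `HasSum` form, in terms of `ModularCurve.jq`. -/
theorem hasSum_jq (τ : ℍ) :
    HasSum (fun n : ℤ => ((ModularCurve.jq.coeff n : ℚ) : ℂ) * 𝕢 1 τ ^ n) (jFun τ) := by
  have := hasQLaurent_jFun τ
  have hc : ∀ n : ℤ, (ModularCurve.jqModC ℂ).coeff n = ((ModularCurve.jq.coeff n : ℚ) : ℂ) := by
    intro n
    rw [← ModularCurve.jqModC_rat, ← ModularCurve.map_jqModC (algebraMap ℚ ℂ),
      HahnSeries.map_coeff]
    rfl
  simpa only [hc] using this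

theorem jFun_S (τ : ℍ) : jFun (ModularGroup.S • τ) = jFun τ := by
  have hS : ((ModularGroup.S : SL(2, ℤ)) : GL (Fin 2) ℝ) ∈ 𝒮ℒ := ⟨ModularGroup.S, rfl⟩
  have h1 : E₄ (ModularGroup.S • τ) = _ := slash_action_eqn'' E₄ hS τ
  have h2 : CuspForm.discriminant (ModularGroup.S • τ) = _ :=
    slash_action_eqn'' CuspForm.discriminant hS τ
  have hd : denom ((ModularGroup.S : SL(2, ℤ)) : GL (Fin 2) ℝ) τ ≠ 0 := denom_ne_zero _ _
  have hΔ := discriminant_ne_zero τ
  rw [CuspForm.coe_discriminant] at h2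
  rw [jFun, jFun]
  rw [h1, h2]
  rw [div_eq_div_iff (mul_ne_zero (zpow_ne_zero _ hd) hΔ) hΔ]
  rw [mul_pow, ← zpow_natCast, ← zpow_mul]
  norm_num
  ring

theorem jFun_T (τ : ℍ) : jFun (ModularGroup.T • τ) = jFun τ :=
  hasQLaurent_jFun.T_invariant τ

theorem mdifferentiable_jFun : MDiff jFun :=
  hasQLaurent_jFun.mdifferentiable one_pos

/-- **The `j`-polynomial principle.**  A function on `ℍ` which is the sum of a convergent
Laurent series `φ` in `q = exp (2 π i τ)` with exponents `≥ -m` and which is invariant under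
`τ ↦ -1/τ` is a polynomial of degree `≤ m` in `j`; the same identity holds formally. -/
theorem exists_polynomial_of_S_invariant (m : ℕ) (F : ℍ → ℂ) (φ : LaurentSeries ℂ)
    (hφ : ∀ n : ℤ, n < -(m : ℤ) → φ.coeff n = 0) (hF : HasQLaurent 1 F φ)
    (hS : ∀ τ, F (ModularGroup.S • τ) = F τ) :
    ∃ P : Polynomial ℂ, P.natDegree ≤ m ∧ φ = Polynomial.aeval (ModularCurve.jqModC ℂ) P ∧
      ∀ τ, F τ = P.eval (jFun τ) :=
  exists_polynomial_of_S_invariant_aux jFun jNumC constantCoeff_jNumC hasQLaurent_jFun jFun_S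
    m F φ hφ hF hS

/-- Version without an a priori bound on the pole order. -/
theorem exists_polynomial_of_S_invariant' (F : ℍ → ℂ) (φ : LaurentSeries ℂ)
    (hF : HasQLaurent 1 F φ) (hS : ∀ τ, F (ModularGroup.S • τ) = F τ) :
    ∃ P : Polynomial ℂ, φ = Polynomial.aeval (ModularCurve.jqModC ℂ) P ∧
      ∀ τ, F τ = P.eval (jFun τ) := by
  obtain ⟨P, -, h1, h2⟩ := exists_polynomial_of_S_invariant (-φ.order).toNat F φ
    (fun n hn => HahnSeries.coeff_eq_zero_of_lt_order (by omega)) hF hS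
  exact ⟨P, h1, h2⟩

end

end Fermat.Agent.S28.H685

end
-- ===== PACK-END S28/H685/JFun.lean

-- ===== PACK-BEGIN S28/H25/ThetaLaurent.lean
section




/-!
# The `θ`-identity for `j` in `ℤ((q))` (helper25, S28 piece [A-θ])

`(θ j)⁶ = Δ · j⁴ · (j - 1728)³` for `j = jqModC ℤ`, `Δ = q ∏ (1 - qⁿ)²⁴`, `θ = q d/dq`,
under the bridge hypothesis `DeltaBridge`.
-/

set_option autoImplicit false

open ModularCurve HahnSeries

noncomputable section

namespace Fermat.Agent.S28.H25

/-- `θ = q d/dq` on Laurent series: multiplies the coefficient of `qⁿ` by `n`.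
(Same definition as `thetaL` in helper28's skeleton.) -/
def thetaLaurent (R : Type*) [CommRing R] (f : LaurentSeries R) : LaurentSeries R where
  coeff n := (n : R) * f.coeff n
  isPWO_support' := f.isPWO_support.mono fun n hn => by
    simp only [Function.mem_support, ne_eq] at hn ⊢
    intro h
    exact hn (by rw [h, mul_zero])

@[simp] theorem thetaLaurent_coeff (R : Type*) [CommRing R] (f : LaurentSeries R) (n : ℤ) :
    (thetaLaurent R f).coeff n = (n : R) * f.coeff n := rfl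

theorem thetaLaurent_single_neg_one_mul {R : Type*} [CommRing R] (u : PowerSeries R) :
    thetaLaurent R (single (-1 : ℤ) 1 * ofPowerSeries ℤ R u) =
      single (-1 : ℤ) 1 * ofPowerSeries ℤ R (thetaP u - u) := by
  ext n
  rw [thetaLaurent_coeff, coeff_single_mul, coeff_single_mul, one_mul, one_mul, sub_neg_eq_add]
  rcases le_or_gt 0 (n + 1) with hn | hn
  · obtain ⟨m, hm⟩ := Int.eq_ofNat_of_zero_le hn
    rw [hm, ofPowerSeries_apply_coeff, ofPowerSeries_apply_coeff, map_sub, coeff_thetaP]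
    have hn' : (n : R) = (m : R) - 1 := by
      have : n = (m : ℤ) - 1 := by omega
      rw [this]
      push_cast
      ring
    rw [hn']
    ring
  · rw [ofPowerSeries_coeff_of_neg _ hn, ofPowerSeries_coeff_of_neg _ hn, mul_zero]

theorem jNum_map_int : jNum.map (Int.castRingHom ℤ) = jNum := by
  ext n
  simp

theorem jqModC_int_eq : jqModC ℤ = single (-1 : ℤ) 1 * ofPowerSeries ℤ ℤ jNum := by
  rw [jqModC, jNum_map_int]

/-- The formal discriminant `Δ = q ∏ (1 - qⁿ)²⁴` in `ℤ((q))`. -/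
def deltaLaurentInt : LaurentSeries ℤ :=
  single (1 : ℤ) 1 * ofPowerSeries ℤ ℤ dedekindEtaUnit

/-- **θ-identity**: `(θ j)⁶ = Δ · j⁴ · (j - 1728)³` in `ℤ((q))`. -/
theorem theta_identity_laurent (hΔ : DeltaBridge) :
    (thetaLaurent ℤ (jqModC ℤ)) ^ 6 =
      deltaLaurentInt * (jqModC ℤ) ^ 4 * (jqModC ℤ - 1728) ^ 3 := by
  have hP := theta_identity_powerSeries hΔ
  have hst : (single (-1 : ℤ) (1 : ℤ) : LaurentSeries ℤ) * single (1 : ℤ) (1 : ℤ) = 1 := by
    rw [single_mul_single]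
    simp
  have hj' : jqModC ℤ - 1728 =
      single (-1 : ℤ) 1 * ofPowerSeries ℤ ℤ (jNum - 1728 * PowerSeries.X) := by
    rw [jqModC_int_eq, map_sub, map_mul, ofPowerSeries_X, map_ofNat (ofPowerSeries ℤ ℤ) 1728]
    linear_combination (1728 : LaurentSeries ℤ) * hst
  have hP' : (ofPowerSeries ℤ ℤ (thetaP jNum - jNum)) ^ 6 =
      ofPowerSeries ℤ ℤ dedekindEtaUnit * (ofPowerSeries ℤ ℤ jNum) ^ 4 *
        (ofPowerSeries ℤ ℤ (jNum - 1728 * PowerSeries.X)) ^ 3 := by
    rw [← map_pow, hP]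
    simp only [map_mul, map_pow]
  rw [hj', jqModC_int_eq, thetaLaurent_single_neg_one_mul, deltaLaurentInt]
  linear_combination (single (-1 : ℤ) (1 : ℤ) : LaurentSeries ℤ) ^ 6 * hP' -
    (single (-1 : ℤ) (1 : ℤ) : LaurentSeries ℤ) ^ 6 * ofPowerSeries ℤ ℤ dedekindEtaUnit *
      (ofPowerSeries ℤ ℤ jNum) ^ 4 * (ofPowerSeries ℤ ℤ (jNum - 1728 * PowerSeries.X)) ^ 3 * hst

end Fermat.Agent.S28.H25

end
end
-- ===== PACK-END S28/H25/ThetaLaurent.lean

-- ===== PACK-BEGIN A2/H12/WallG.lean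
section


/-!
# Cell A2 — route G: the WALL assembly in field form (helper12)

Mathlib-only.  Setting: `L` a field (the split Kummer cover), `R → L` the base ring, `w ∈ R`,
three charts `Bfin, Binf ≤ Bmid` (subalgebras of `L`), a finite family of *sheets* `s ↦ M s`,
`M s` an additive subgroup of `L` absorbing `Bmid` (in the application `M s = 𝔪_{W_s}` is the maximal
ideal of the valuation ring of the sheet, or a height-one prime of `Bmid`), a ring automorphism
`τ` of `L` (the lift `τ̃`) preserving the charts and permuting the sheets by `τS`.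

* `sheetGraph_connected_sub` : GRAPH-CONN in this language
  (`hcech` = conclusion of `S18.H138.connected_special_fibre` for `L`).
* `wallG_fixes`  : `τ̃` fixes one sheet + `h_triv` + COUNT (`h_uni_*`) + reduced fibres + `hcech`
                   ⟹ `τ̃` fixes every sheet.
* `wallG_comm`   : free action of `Γ` on the sheets, `τ̃` normalises `Γ` ⟹ `τ̃` commutes with `Γ`.
* `wallG`        : all together, Kummer conclusion: `σ (τ̃ y / y) = τ̃ y / y` for all `σ ∈ Γ`.
-/

set_option autoImplicit false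

namespace Fermat.Agent.A2.H12

open scoped Classical

section Val

variable {R : Type*} [CommRing R] {L : Type*} [Field L] [Algebra R L]

/-- The ideal of a chart `C` cut out by an additive subgroup `M` of `L` absorbing `C`. -/
def chartIdeal (C : Subalgebra R L) (M : AddSubgroup L) (habs : ∀ c ∈ C, ∀ a ∈ M, c * a ∈ M) :
    Ideal C where
  carrier := {c | (c : L) ∈ M}
  add_mem' := fun ha hb => M.add_mem ha hb
  zero_mem' := M.zero_mem
  smul_mem' := fun c a ha => habs c c.2 a ha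

theorem mem_chartIdeal (C : Subalgebra R L) (M : AddSubgroup L)
    (habs : ∀ c ∈ C, ∀ a ∈ M, c * a ∈ M) (c : C) :
    c ∈ chartIdeal C M habs ↔ (c : L) ∈ M := Iff.rfl

variable {S : Type*}

/-- Sheets `s`, `t` are separated in the chart `C` (comaximal there). -/
def SepAt (C : Subalgebra R L) (M : S → AddSubgroup L) (s t : S) : Prop :=
  ∃ a ∈ C, a ∈ M s ∧ ∃ b ∈ C, b ∈ M t ∧ a + b = 1

/-- Adjacency in the sheet graph: not separated in one of the two charts. -/
def SubAdj (Bfin Binf : Subalgebra R L) (M : S → AddSubgroup L) (s t : S) : Prop :=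
  ¬ SepAt Bfin M s t ∨ ¬ SepAt Binf M s t

private theorem exists_chart_idem_sub [Fintype S] (C : Subalgebra R L) (M : S → AddSubgroup L)
    (habs : ∀ s, ∀ c ∈ C, ∀ a ∈ M s, c * a ∈ M s) (col : S → Prop)
    (hsep : ∀ s t, col s → ¬ col t → SepAt C M s t) :
    ∃ e ∈ C, (∀ s, col s → 1 - e ∈ M s) ∧ (∀ t, ¬ col t → e ∈ M t) := by
  obtain ⟨e, he1, he2⟩ := exists_idem_of_partition (C := C)
    (fun s => chartIdeal C (M s) (habs s)) col (by
      intro s t hs ht
      obtain ⟨a, haC, haP, b, hbC, hbP, hab⟩ := hsep s t hs ht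
      exact ⟨⟨a, haC⟩, haP, ⟨b, hbC⟩, hbP, Subtype.ext hab⟩)
  refine ⟨e, e.2, ?_, ?_⟩
  · intro s hs
    have := he1 s hs
    rw [mem_chartIdeal] at this
    simpa using this
  · intro t ht
    exact he2 t ht

/-- **GRAPH-CONN, field form.** -/
theorem sheetGraph_connected_sub [Fintype S] (w : R) (Bfin Binf Bmid : Subalgebra R L)
    (M : S → AddSubgroup L)
    (habs : ∀ s, ∀ c ∈ Bmid, ∀ a ∈ M s, c * a ∈ M s)
    (hfm : Bfin ≤ Bmid) (him : Binf ≤ Bmid)
    (hM1 : ∀ s, (1 : L) ∉ M s) (hwM : ∀ s, algebraMap R L w ∈ M s)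
    (hred_mid : ∀ b ∈ Bmid, (∀ s, b ∈ M s) → ∃ t ∈ Bmid, b = algebraMap R L w * t)
    (hred_fin : ∀ b ∈ Bfin, (∀ s, b ∈ M s) → ∃ t ∈ Bfin, b = algebraMap R L w * t)
    (hred_inf : ∀ b ∈ Binf, (∀ s, b ∈ M s) → ∃ t ∈ Binf, b = algebraMap R L w * t)
    (hcech : ∀ e₁ e₂ : L, e₁ ∈ Bfin → e₂ ∈ Binf →
      (∃ t ∈ Bfin, e₁ ^ 2 - e₁ = algebraMap R L w * t) →
      (∃ t ∈ Binf, e₂ ^ 2 - e₂ = algebraMap R L w * t) →
      (∃ t ∈ Bmid, e₁ - e₂ = algebraMap R L w * t) →
      ((∃ t ∈ Bfin, e₁ = algebraMap R L w * t) ∧ (∃ t ∈ Binf, e₂ = algebraMap R L w * t)) ∨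
      ((∃ t ∈ Bfin, 1 - e₁ = algebraMap R L w * t) ∧
        (∃ t ∈ Binf, 1 - e₂ = algebraMap R L w * t)))
    (s₀ t₀ : S) : Relation.ReflTransGen (SubAdj Bfin Binf M) s₀ t₀ := by
  by_contra hcon
  set col : S → Prop := fun s => Relation.ReflTransGen (SubAdj Bfin Binf M) s₀ s with hcol
  have hs₀ : col s₀ := Relation.ReflTransGen.refl
  have ht₀ : ¬ col t₀ := hcon
  have hsep : ∀ s t, col s → ¬ col t → SepAt Bfin M s t ∧ SepAt Binf M s t := by
    intro s t hs ht
    by_contra h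
    apply ht
    refine Relation.ReflTransGen.tail hs ?_
    rcases not_and_or.1 h with h | h
    · exact Or.inl h
    · exact Or.inr h
  obtain ⟨e₁, he₁C, he₁a, he₁b⟩ := exists_chart_idem_sub Bfin M
    (fun s c hc => habs s c (hfm hc)) col (fun s t hs ht => (hsep s t hs ht).1)
  obtain ⟨e₂, he₂C, he₂a, he₂b⟩ := exists_chart_idem_sub Binf M
    (fun s c hc => habs s c (him hc)) col (fun s t hs ht => (hsep s t hs ht).2)
  -- `e (1 - e) ∈ M s` for every sheet
  have hidem : ∀ e ∈ Bmid, (∀ s, col s → 1 - e ∈ M s) → (∀ t, ¬ col t → e ∈ M t) →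
      ∀ s, e ^ 2 - e ∈ M s := by
    intro e heB ha hb s
    by_cases hs : col s
    · have h : e ^ 2 - e = -(e * (1 - e)) := by ring
      rw [h]
      exact (M s).neg_mem (habs s e heB _ (ha s hs))
    · have h : e ^ 2 - e = -((1 - e) * e) := by ring
      rw [h]
      exact (M s).neg_mem (habs s _ (Bmid.sub_mem Bmid.one_mem heB) _ (hb s hs))
  have h1 := hred_fin _ (Bfin.sub_mem (Bfin.pow_mem he₁C 2) he₁C)
    (hidem e₁ (hfm he₁C) he₁a he₁b)
  have h2 := hred_inf _ (Binf.sub_mem (Binf.pow_mem he₂C 2) he₂C)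
    (hidem e₂ (him he₂C) he₂a he₂b)
  have h12 : ∃ t ∈ Bmid, e₁ - e₂ = algebraMap R L w * t := by
    apply hred_mid _ (Bmid.sub_mem (hfm he₁C) (him he₂C))
    intro s
    by_cases hs : col s
    · have : e₁ - e₂ = (1 - e₂) - (1 - e₁) := by ring
      rw [this]
      exact (M s).sub_mem (he₂a s hs) (he₁a s hs)
    · exact (M s).sub_mem (he₁b s hs) (he₂b s hs)
  have hwmul : ∀ s, ∀ t ∈ Bfin, algebraMap R L w * t ∈ M s := by
    intro s t ht
    rw [mul_comm]
    exact habs s t (hfm ht) _ (hwM s)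
  rcases hcech e₁ e₂ he₁C he₂C h1 h2 h12 with ⟨⟨t, htC, ht⟩, _⟩ | ⟨⟨t, htC, ht⟩, _⟩
  · -- `e₁ ∈ (w)`, but `1 - e₁ ∈ M s₀`
    apply hM1 s₀
    have h3 : e₁ ∈ M s₀ := by rw [ht]; exact hwmul s₀ t htC
    have : (1 : L) = (1 - e₁) + e₁ := by ring
    rw [this]
    exact (M s₀).add_mem (he₁a s₀ hs₀) h3
  · apply hM1 t₀
    have h3 : 1 - e₁ ∈ M t₀ := by rw [ht]; exact hwmul t₀ t htC
    have : (1 : L) = (1 - e₁) + e₁ := by ring
    rw [this]
    exact (M t₀).add_mem h3 (he₁b t₀ ht₀)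

/-- **Route G, step "τ̃ fixes every sheet".** -/
theorem wallG_fixes [Fintype S] (w : R) (Bfin Binf Bmid : Subalgebra R L)
    (M : S → AddSubgroup L)
    (habs : ∀ s, ∀ c ∈ Bmid, ∀ a ∈ M s, c * a ∈ M s)
    (hfm : Bfin ≤ Bmid) (him : Binf ≤ Bmid)
    (hM1 : ∀ s, (1 : L) ∉ M s) (hwM : ∀ s, algebraMap R L w ∈ M s)
    (hred_mid : ∀ b ∈ Bmid, (∀ s, b ∈ M s) → ∃ t ∈ Bmid, b = algebraMap R L w * t)
    (hred_fin : ∀ b ∈ Bfin, (∀ s, b ∈ M s) → ∃ t ∈ Bfin, b = algebraMap R L w * t)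
    (hred_inf : ∀ b ∈ Binf, (∀ s, b ∈ M s) → ∃ t ∈ Binf, b = algebraMap R L w * t)
    (hcech : ∀ e₁ e₂ : L, e₁ ∈ Bfin → e₂ ∈ Binf →
      (∃ t ∈ Bfin, e₁ ^ 2 - e₁ = algebraMap R L w * t) →
      (∃ t ∈ Binf, e₂ ^ 2 - e₂ = algebraMap R L w * t) →
      (∃ t ∈ Bmid, e₁ - e₂ = algebraMap R L w * t) →
      ((∃ t ∈ Bfin, e₁ = algebraMap R L w * t) ∧ (∃ t ∈ Binf, e₂ = algebraMap R L w * t)) ∨
      ((∃ t ∈ Bfin, 1 - e₁ = algebraMap R L w * t) ∧
        (∃ t ∈ Binf, 1 - e₂ = algebraMap R L w * t)))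
    (τ : L ≃+* L) (hτfin : ∀ b, b ∈ Bfin ↔ τ b ∈ Bfin) (hτinf : ∀ b, b ∈ Binf ↔ τ b ∈ Binf)
    (τS : S → S) (hτM : ∀ s b, b ∈ M s ↔ τ b ∈ M (τS s))
    {C : Type*} (col : S → C) (h_col : ∀ s, col (τS s) = col s)
    (h_triv : ∀ s, τS s = s → ∀ b, b ∈ Bfin ∨ b ∈ Binf → τ b - b ∈ M s)
    (h_uni_fin : ∀ 𝔫 : Ideal Bfin, 𝔫.IsMaximal → ∀ s t, col s = col t →
      (∀ c : Bfin, (c : L) ∈ M s → c ∈ 𝔫) → (∀ c : Bfin, (c : L) ∈ M t → c ∈ 𝔫) → s = t)
    (h_uni_inf : ∀ 𝔫 : Ideal Binf, 𝔫.IsMaximal → ∀ s t, col s = col t →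
      (∀ c : Binf, (c : L) ∈ M s → c ∈ 𝔫) → (∀ c : Binf, (c : L) ∈ M t → c ∈ 𝔫) → s = t)
    (s₀ : S) (h₀ : τS s₀ = s₀) : ∀ s, τS s = s := by
  -- the restrictions of `τ⁻¹` to the two charts
  have hsymm_fin : ∀ b ∈ Bfin, (τ.symm : L →+* L) b ∈ Bfin := by
    intro b hb
    rw [hτfin]
    simpa using hb
  have hsymm_inf : ∀ b ∈ Binf, (τ.symm : L →+* L) b ∈ Binf := by
    intro b hb
    rw [hτinf]
    simpa using hb
  let ρ₁ : Bfin →+* Bfin := RingHom.restrict (τ.symm : L →+* L) Bfin Bfin hsymm_fin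
  let ρ₂ : Binf →+* Binf := RingHom.restrict (τ.symm : L →+* L) Binf Binf hsymm_inf
  have hρ₁ : ∀ b : Bfin, ((ρ₁ b : Bfin) : L) = τ.symm (b : L) := fun b => rfl
  have hρ₂ : ∀ b : Binf, ((ρ₂ b : Binf) : L) = τ.symm (b : L) := fun b => rfl
  have hsurj₁ : Function.Surjective ρ₁ := by
    intro b
    refine ⟨⟨τ (b : L), (hτfin _).1 b.2⟩, Subtype.ext ?_⟩
    rw [hρ₁]
    simp
  have hsurj₂ : Function.Surjective ρ₂ := by
    intro b
    refine ⟨⟨τ (b : L), (hτinf _).1 b.2⟩, Subtype.ext ?_⟩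
    rw [hρ₂]
    simp
  refine fixes_all_two ρ₁ hsurj₁ ρ₂ hsurj₂
    (fun s => chartIdeal Bfin (M s) (fun c hc => habs s c (hfm hc)))
    (fun s => chartIdeal Binf (M s) (fun c hc => habs s c (him hc)))
    τS col ?_ ?_ h_col ?_ ?_ ?_ ?_ ?_ s₀ h₀
  · intro s b hb
    rw [mem_chartIdeal] at hb ⊢
    rw [hρ₁, hτM s]
    simpa using hb
  · intro s b hb
    rw [mem_chartIdeal] at hb ⊢
    rw [hρ₂, hτM s]
    simpa using hb
  · intro s hs b
    rw [mem_chartIdeal]
    have h := h_triv s hs (τ.symm (b : L)) (Or.inl (hsymm_fin _ b.2))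
    have h2 : ((ρ₁ b - b : Bfin) : L) = -(τ (τ.symm (b : L)) - τ.symm (b : L)) := by
      rw [Subalgebra.coe_sub, hρ₁]
      simp
    rw [h2]
    exact (M s).neg_mem h
  · intro s hs b
    rw [mem_chartIdeal]
    have h := h_triv s hs (τ.symm (b : L)) (Or.inr (hsymm_inf _ b.2))
    have h2 : ((ρ₂ b - b : Binf) : L) = -(τ (τ.symm (b : L)) - τ.symm (b : L)) := by
      rw [Subalgebra.coe_sub, hρ₂]
      simp
    rw [h2]
    exact (M s).neg_mem h
  · intro 𝔫 h𝔫 s t hc hs ht
    exact h_uni_fin 𝔫 h𝔫 s t hc (fun c hcM => hs hcM) (fun c hcM => ht hcM)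
  · intro 𝔫 h𝔫 s t hc hs ht
    exact h_uni_inf 𝔫 h𝔫 s t hc (fun c hcM => hs hcM) (fun c hcM => ht hcM)
  · intro s t
    refine Relation.ReflTransGen.mono ?_ _ _
      (sheetGraph_connected_sub w Bfin Binf Bmid M habs hfm him hM1 hwM hred_mid hred_fin
        hred_inf hcech s t)
    rintro a b (h | h)
    · left
      rintro ⟨c, hc, d, hd, hcd⟩
      exact h ⟨c.1, c.2, hc, d.1, d.2, hd, congrArg Subtype.val hcd⟩
    · right
      rintro ⟨c, hc, d, hd, hcd⟩
      exact h ⟨c.1, c.2, hc, d.1, d.2, hd, congrArg Subtype.val hcd⟩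

/-- **Route G, group part.**  `Γ` acts freely on the sheets, `τ̃` normalises `Γ` and fixes every
sheet: then `τ̃` commutes with `Γ`. -/
theorem wallG_comm (M : S → AddSubgroup L) (τ : L ≃+* L)
    (hall : ∀ s b, b ∈ M s ↔ τ b ∈ M s)
    (Γ : Subgroup (L ≃+* L))
    (hΓM : ∀ σ ∈ Γ, ∀ s, ∃ s', ∀ b, b ∈ M s ↔ σ b ∈ M s')
    (hfree : ∀ σ ∈ Γ, ∀ s, (∀ b, b ∈ M s ↔ σ b ∈ M s) → σ = 1)
    (hnorm : ∀ σ ∈ Γ, τ * σ * τ⁻¹ ∈ Γ) (s₀ : S) :
    ∀ σ ∈ Γ, ∀ b, τ (σ b) = σ (τ b) := by
  intro σ hσ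
  have hρ : σ⁻¹ * (τ * σ * τ⁻¹) ∈ Γ := Γ.mul_mem (Γ.inv_mem hσ) (hnorm σ hσ)
  obtain ⟨s', hs'⟩ := hΓM σ hσ s₀
  have h1 : σ⁻¹ * (τ * σ * τ⁻¹) = 1 := by
    refine hfree _ hρ s₀ (fun b => ?_)
    have e1 : (σ⁻¹ * (τ * σ * τ⁻¹)) b = σ.symm (τ (σ (τ.symm b))) := rfl
    rw [e1]
    -- `b ∈ M s₀ ↔ τ⁻¹ b ∈ M s₀ ↔ σ τ⁻¹ b ∈ M s' ↔ τ σ τ⁻¹ b ∈ M s' ↔ σ⁻¹ τ σ τ⁻¹ b ∈ M s₀`
    have a1 : b ∈ M s₀ ↔ τ.symm b ∈ M s₀ := by
      rw [hall s₀ (τ.symm b)]
      simp
    have a2 : τ.symm b ∈ M s₀ ↔ σ (τ.symm b) ∈ M s' := hs' _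
    have a3 : σ (τ.symm b) ∈ M s' ↔ τ (σ (τ.symm b)) ∈ M s' := hall s' _
    have a4 : σ.symm (τ (σ (τ.symm b))) ∈ M s₀ ↔ τ (σ (τ.symm b)) ∈ M s' := by
      rw [hs' (σ.symm (τ (σ (τ.symm b))))]
      simp
    rw [a1, a2, a3, a4]
  have h2 : τ * σ * τ⁻¹ = σ := by
    have := congrArg (fun ρ => σ * ρ) h1
    simpa [mul_assoc] using this
  have h3 : τ * σ = σ * τ := by
    have := congrArg (fun ρ => ρ * τ) h2
    simpa [mul_assoc] using this
  intro b
  have := congrArg (fun ρ : L ≃+* L => ρ b) h3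
  simpa using this

/-- **Route G: the WALL, field form.**  Under the hypotheses of `wallG_fixes` and `wallG_comm`,
for every Kummer generator `y` (each `σ ∈ Γ` multiplies `y` by a `τ̃`-fixed root of unity) the
quotient `τ̃ y / y` is `Γ`-invariant. -/
theorem wallG [Fintype S] (w : R) (Bfin Binf Bmid : Subalgebra R L)
    (M : S → AddSubgroup L)
    (habs : ∀ s, ∀ c ∈ Bmid, ∀ a ∈ M s, c * a ∈ M s)
    (hfm : Bfin ≤ Bmid) (him : Binf ≤ Bmid)
    (hM1 : ∀ s, (1 : L) ∉ M s) (hwM : ∀ s, algebraMap R L w ∈ M s)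
    (hred_mid : ∀ b ∈ Bmid, (∀ s, b ∈ M s) → ∃ t ∈ Bmid, b = algebraMap R L w * t)
    (hred_fin : ∀ b ∈ Bfin, (∀ s, b ∈ M s) → ∃ t ∈ Bfin, b = algebraMap R L w * t)
    (hred_inf : ∀ b ∈ Binf, (∀ s, b ∈ M s) → ∃ t ∈ Binf, b = algebraMap R L w * t)
    (hcech : ∀ e₁ e₂ : L, e₁ ∈ Bfin → e₂ ∈ Binf →
      (∃ t ∈ Bfin, e₁ ^ 2 - e₁ = algebraMap R L w * t) →
      (∃ t ∈ Binf, e₂ ^ 2 - e₂ = algebraMap R L w * t) →
      (∃ t ∈ Bmid, e₁ - e₂ = algebraMap R L w * t) →
      ((∃ t ∈ Bfin, e₁ = algebraMap R L w * t) ∧ (∃ t ∈ Binf, e₂ = algebraMap R L w * t)) ∨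
      ((∃ t ∈ Bfin, 1 - e₁ = algebraMap R L w * t) ∧
        (∃ t ∈ Binf, 1 - e₂ = algebraMap R L w * t)))
    (τ : L ≃+* L) (hτfin : ∀ b, b ∈ Bfin ↔ τ b ∈ Bfin) (hτinf : ∀ b, b ∈ Binf ↔ τ b ∈ Binf)
    (hτM : ∀ s, ∃ s', ∀ b, b ∈ M s ↔ τ b ∈ M s')
    (hMinj : Function.Injective M)
    {C : Type*} (col : S → C)
    (h_col : ∀ s s', (∀ b, b ∈ M s ↔ τ b ∈ M s') → col s' = col s)
    (h_triv : ∀ s, (∀ b, b ∈ M s ↔ τ b ∈ M s) → ∀ b, b ∈ Bfin ∨ b ∈ Binf → τ b - b ∈ M s)
    (h_uni_fin : ∀ 𝔫 : Ideal Bfin, 𝔫.IsMaximal → ∀ s t, col s = col t →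
      (∀ c : Bfin, (c : L) ∈ M s → c ∈ 𝔫) → (∀ c : Bfin, (c : L) ∈ M t → c ∈ 𝔫) → s = t)
    (h_uni_inf : ∀ 𝔫 : Ideal Binf, 𝔫.IsMaximal → ∀ s t, col s = col t →
      (∀ c : Binf, (c : L) ∈ M s → c ∈ 𝔫) → (∀ c : Binf, (c : L) ∈ M t → c ∈ 𝔫) → s = t)
    (s₀ : S) (h₀ : ∀ b, b ∈ M s₀ ↔ τ b ∈ M s₀)
    (Γ : Subgroup (L ≃+* L))
    (hΓM : ∀ σ ∈ Γ, ∀ s, ∃ s', ∀ b, b ∈ M s ↔ σ b ∈ M s')
    (hfree : ∀ σ ∈ Γ, ∀ s, (∀ b, b ∈ M s ↔ σ b ∈ M s) → σ = 1)
    (hnorm : ∀ σ ∈ Γ, τ * σ * τ⁻¹ ∈ Γ)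
    (y : L) (hy : y ≠ 0) (hζ : ∀ σ ∈ Γ, ∃ ζ : L, σ y = ζ * y ∧ τ ζ = ζ) :
    ∀ σ ∈ Γ, σ (τ y / y) = τ y / y := by
  choose τS hτS using hτM
  -- a sheet `s'` with `τ (M s) = M s'` is `τS s`
  have huniq : ∀ s s', (∀ b, b ∈ M s ↔ τ b ∈ M s') → τS s = s' := by
    intro s s' h
    apply hMinj
    ext c
    have h1 := hτS s (τ.symm c)
    have h2 := h (τ.symm c)
    simp only [RingEquiv.apply_symm_apply] at h1 h2
    rw [← h1, h2]
  have hfix := wallG_fixes w Bfin Binf Bmid M habs hfm him hM1 hwM hred_mid hred_fin hred_inf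
    hcech τ hτfin hτinf τS hτS col (fun s => h_col s (τS s) (hτS s))
    (fun s hs b hb => h_triv s (fun c => by
      have := hτS s c
      rwa [hs] at this) b hb)
    h_uni_fin h_uni_inf s₀ (huniq s₀ s₀ h₀)
  have hall : ∀ s b, b ∈ M s ↔ τ b ∈ M s := by
    intro s b
    have := hτS s b
    rwa [hfix s] at this
  have hcomm := wallG_comm M τ hall Γ hΓM hfree hnorm s₀
  exact kummer_of_commute (Γ : Set (L ≃+* L)) τ y hy (fun g hg => hcomm g hg y)
    (fun g hg => hζ g hg)

end Val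

end Fermat.Agent.A2.H12

end
-- ===== PACK-END A2/H12/WallG.lean

-- ===== PACK-BEGIN S37/H818/GaloisEquiv.lean
section
/-
S37 / LEVEL TRANSFER (helper818), part 7: pullback of divisors / `Pic0` classes along `i`
commutes with intertwined semilinear automorphisms (Galois equivariance of `π^*`).
-/




set_option autoImplicit false
set_option linter.style.haveILetI false

noncomputable section

namespace Fermat.Agent.S37.H818

open AlgebraicCurve
open scoped Pointwise

variable {K F G : Type*} [Field K] [Field F] [Field G] [Algebra K F] [Algebra K G]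

section

variable (i : F →ₐ[K] G) (hi : i.toRingHom.IsIntegral)
  {g : SemilinearAut K F} {g' : SemilinearAut K G}
  (h : SemilinearAut.IntertwinesAlong (i : F →+* G) g g')

theorem mem_restrictAlong_iff (W : Place K G) (x : F) :
    x ∈ (W.restrictAlong i hi).toValuationSubring ↔ i x ∈ W.toValuationSubring := Iff.rfl

include h in
theorem restrictAlong_smul (W : Place K G) :
    (g' • W).restrictAlong i hi = g • (W.restrictAlong i hi) := by
  apply Place.ext
  ext x
  rw [mem_restrictAlong_iff, SemilinearAut.smul_toValuationSubring,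
    SemilinearAut.smul_toValuationSubring,
    ValuationSubring.mem_pointwise_smul_iff_inv_smul_mem,
    ValuationSubring.mem_pointwise_smul_iff_inv_smul_mem, mem_restrictAlong_iff]
  have := h.inv x
  simp only [RingHom.coe_coe] at this
  rw [this]

include h hi in
theorem ramificationIndexAlong_smul (W : Place K G) :
    Place.ramificationIndexAlong i (g' • W) = Place.ramificationIndexAlong i W := by
  obtain ⟨f, -, hf⟩ := exists_ord_eq_one (W.restrictAlong i hi)
  have h1 := Place.ord_restrictAlong i hi W f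
  rw [hf, mul_one] at h1
  have h2 := Place.ord_restrictAlong i hi (g' • W) (g • f)
  rw [restrictAlong_smul i hi h W, SemilinearAut.ord_smul, hf, mul_one] at h2
  have h3 : i (g • f) = g' • (i f) := by
    have := h f
    simp only [RingHom.coe_coe] at this
    exact this.symm
  rw [h3, SemilinearAut.ord_smul, h1] at h2
  exact_mod_cast h2.symm

variable [HasPrincipalDivisors K G]

include h in
/-- Pullback of divisors is equivariant. -/
theorem pullbackAlong_smul (D : Divisor K F) :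
    Divisor.pullbackAlong i hi (g • D) = g' • Divisor.pullbackAlong i hi D := by
  ext W
  rw [Divisor.pullbackAlong_apply, SemilinearAut.divisor_smul_apply,
    SemilinearAut.divisor_smul_apply, Divisor.pullbackAlong_apply,
    restrictAlong_smul i hi h.inv W, ramificationIndexAlong_smul i hi h.inv W]

include h in
/-- `π^*` is equivariant on `Pic0`. -/
theorem pullbackPic0Along_smul (hFI : FundamentalIdentityAlong K i hi) (x : Pic0 K F) :
    pullbackPic0Along i hi hFI (g • x) = g' • pullbackPic0Along i hi hFI x := by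
  obtain ⟨D, rfl⟩ := Pic0.mk_surjective x
  rw [SemilinearAut.pic0_smul_mk, pullbackPic0Along_mk, pullbackPic0Along_mk,
    SemilinearAut.pic0_smul_mk]
  congr 1
  apply Subtype.ext
  simp only [coe_pullbackDegZeroAlong, SemilinearAut.coe_degZeroSMulHom]
  exact pullbackAlong_smul i hi h D

end

end Fermat.Agent.S37.H818

end

end
-- ===== PACK-END S37/H818/GaloisEquiv.lean

-- ===== PACK-BEGIN S24/H117/Integral.lean
section




/-!
# S24 / H117 — integrality at all places over `t = 0` from the embeddings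

Key lemma for LT2: if `F / E` (`E ⊆ K(t)`) has degree `#X` and `L : LocalData K F C X t`, then an
element `f : F` whose images under all the embeddings `L.σ x` have non-negative order has
non-negative order at **every** place `v` of `F` with `0 < v.ord t`.
-/

set_option autoImplicit false
set_option linter.style.haveILetI false

noncomputable section

open AlgebraicCurve Polynomial IntermediateField

namespace Fermat.Agent.S24.H117

variable {K F : Type*} [Field K] [Field F] [Algebra K F]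
variable {C : Type*} [Field C] {X : Type*}
variable {t : F} (L : LocalData K F C X t)

theorem σ_aeval_eq (x y : X) (p : K[X]) : L.σ x (aeval t p) = L.σ y (aeval t p) := by
  rw [aeval_eq_sum_range]
  simp only [map_sum, Algebra.smul_def, map_mul, map_pow, L.σ_const, L.σ_t_eq x y]

/-- All the embeddings of a `LocalData` agree on `K(t)`. -/
theorem σ_eq_of_mem_adjoin (x y : X) {e : F} (he : e ∈ K⟮t⟯) : L.σ x e = L.σ y e := by
  obtain ⟨r, s, rfl⟩ := (mem_adjoin_simple_iff K e).mp he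
  rw [map_div₀, map_div₀, σ_aeval_eq L x y r, σ_aeval_eq L x y s]

variable [CharZero K]

/-- **Integrality lemma.** -/
theorem ord_nonneg_of_forall_order_nonneg
    (E : IntermediateField K F) (hE : E ≤ K⟮t⟯) [FiniteDimensional E F]
    (hrank : Module.finrank E F = Nat.card X)
    (f : F) (hf : ∀ x, 0 ≤ ((L.σ x) f).order)
    (v : Place K F) (hv : 0 < v.ord t) : 0 ≤ v.ord f := by
  classical
  have hXne : Nonempty X := by
    have h0 : 0 < Nat.card X := hrank ▸ Module.finrank_pos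
    exact (Nat.card_pos_iff.mp h0).1
  obtain ⟨x₀⟩ := hXne
  have : CharZero E := charZero_of_injective_algebraMap (algebraMap K E).injective
  let σ₀ : E →+* LaurentSeries C := (L.σ x₀).comp (algebraMap E F)
  letI algELS : Algebra E (LaurentSeries C) := σ₀.toAlgebra
  -- the embeddings as `E`-algebra homomorphisms into the algebraic closure
  let τ : X → (F →ₐ[E] AlgebraicClosure (LaurentSeries C)) := fun x =>
    { toRingHom := (algebraMap (LaurentSeries C) (AlgebraicClosure (LaurentSeries C))).comp (L.σ x)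
      commutes' := fun e => by
        show algebraMap (LaurentSeries C) (AlgebraicClosure (LaurentSeries C)) (L.σ x (e : F))
          = algebraMap (LaurentSeries C) (AlgebraicClosure (LaurentSeries C)) (L.σ x₀ (e : F))
        rw [σ_eq_of_mem_adjoin L x x₀ (hE e.2)] }
  have hτapply : ∀ x g, τ x g
      = algebraMap (LaurentSeries C) (AlgebraicClosure (LaurentSeries C)) (L.σ x g) :=
    fun _ _ => rfl
  have hτinj : Function.Injective τ := by
    intro x y hxy
    apply L.σ_inj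
    ext g : 1
    have := DFunLike.congr_fun hxy g
    rw [hτapply, hτapply] at this
    exact (algebraMap (LaurentSeries C) (AlgebraicClosure (LaurentSeries C))).injective this
  have hcard : Nat.card (F →ₐ[E] AlgebraicClosure (LaurentSeries C)) = Nat.card X := by
    rw [← hrank, ← Fintype.card_eq_nat_card]
    exact AlgHom.card E F (AlgebraicClosure (LaurentSeries C))
  have hτsurj : Function.Surjective τ :=
    ((Nat.bijective_iff_injective_and_card τ).mpr ⟨hτinj, hcard.symm⟩).2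
  -- the minimal polynomial of `f`
  have hfint : IsIntegral E f := Algebra.IsIntegral.isIntegral f
  have hPmonic : (minpoly E f).Monic := minpoly.monic hfint
  -- coefficients of the minimal polynomial are integral at `x₀`
  have hcoeff : ∀ i, 0 ≤ ((L.σ x₀) (((minpoly E f).coeff i : E) : F)).order := by
    intro i
    have hint : IsIntegral (OL C)
        (((minpoly E f).map (algebraMap E (AlgebraicClosure (LaurentSeries C)))).coeff i) := by
      refine Polynomial.isIntegral_coeff_of_factors _ ?_ (IsAlgClosed.splits _) ?_ i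
      · rw [(hPmonic.map _).leadingCoeff]
        exact isIntegral_one
      · intro r hr
        have hr' : r ∈ (minpoly E f).rootSet (AlgebraicClosure (LaurentSeries C)) := by
          rw [mem_rootSet']
          refine ⟨(hPmonic.map _).ne_zero, ?_⟩
          rw [IsRoot, eval_map_algebraMap] at hr
          exact hr
        rw [← Algebra.IsAlgebraic.range_eval_eq_rootSet_minpoly] at hr'
        obtain ⟨ψ, rfl⟩ := hr'
        obtain ⟨x, rfl⟩ := hτsurj ψ
        show IsIntegral (OL C) (τ x f)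
        rw [hτapply]
        have : algebraMap (LaurentSeries C) (AlgebraicClosure (LaurentSeries C)) (L.σ x f)
            = algebraMap (OL C) (AlgebraicClosure (LaurentSeries C)) ⟨L.σ x f, hf x⟩ := rfl
        rw [this]
        exact isIntegral_algebraMap
    rw [coeff_map] at hint
    have h2 : IsIntegral (OL C) (σ₀ ((minpoly E f).coeff i)) := by
      have : algebraMap E (AlgebraicClosure (LaurentSeries C)) ((minpoly E f).coeff i)
          = algebraMap (LaurentSeries C) (AlgebraicClosure (LaurentSeries C))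
            (σ₀ ((minpoly E f).coeff i)) := rfl
      rw [this] at hint
      exact (isIntegral_algebraMap_iff
        (algebraMap (LaurentSeries C) (AlgebraicClosure (LaurentSeries C))).injective).mp hint
    obtain ⟨y, hy⟩ := IsIntegrallyClosed.isIntegral_iff.mp h2
    have : σ₀ ((minpoly E f).coeff i) ∈ OL C := hy ▸ y.2
    exact this
  -- transfer to `v`
  have hcoeffv : ∀ i, (((minpoly E f).coeff i : E) : F) ∈ v.toValuationSubring := fun i =>
    mem_of_ord_nonneg v (ord_nonneg_of_mem_adjoin (hE ((minpoly E f).coeff i).2) hv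
      (ord_t_pos L x₀) ((ord_placeOf_nonneg_iff L x₀ _).mpr (hcoeff i)))
  -- `f` is integral over `O_v`
  have hint : IsIntegral v.toValuationSubring f := by
    have hlifts : (minpoly E f).map (algebraMap E F)
        ∈ Polynomial.lifts (algebraMap v.toValuationSubring F) := by
      rw [lifts_iff_coeff_lifts]
      intro n
      rw [coeff_map]
      exact ⟨⟨_, hcoeffv n⟩, rfl⟩
    obtain ⟨q, hq, -, hqm⟩ := lifts_and_natDegree_eq_and_monic hlifts (hPmonic.map _)
    refine ⟨q, hqm, ?_⟩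
    rw [← eval_map, hq, eval_map_algebraMap]
    exact minpoly.aeval E f
  obtain ⟨y, hy⟩ := IsIntegrallyClosed.isIntegral_iff.mp hint
  exact ord_nonneg_of_mem v (hy ▸ y.2)

end Fermat.Agent.S24.H117

end
end
-- ===== PACK-END S24/H117/Integral.lean

-- ===== PACK-BEGIN S36/H153/IncCtx.lean
section



/-!
# S36 engine, cell INCIDENCE (helper153) — the fields `incidence`, `unique_α`, `unique_β` of
`Eng.TripleCtx`, in chart / valuation-subring vocabulary

Imports: Mathlib + `S18.H138.Charts` (for `chart`) + `H153.Incidence/IncFull` (abstract part).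
The statements are written with `Eng.Through` / `Eng.IsTriple` UNFOLDED
(`Through B 𝔪 V := ∀ b : B, (b : F) ∈ V.nonunits → b ∈ 𝔪`), so this file does not depend on
`S36/Eng/Spec.lean`; `IncSpec.lean` restates the results in the vocabulary of the Spec.

Setting: `F'` (level `q M'`), `F` (level `q² M'`) fields, `α β : F' →+* F`,
`B' ⊆ F'`, `B ⊆ F` subalgebras over `R` (the finite charts), valuation subrings
`V₁ V₂ V₃` of `F` (`FF`, `mid`, `VV`) and `V₁' V₂'` of `F'` (`∞`, `0`).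

Hypotheses (`ChartInc`), all of them elementwise:

* `B ⊆ V₁ ∩ V₂ ∩ V₃`;  `α B' ⊆ B`, `β B' ⊆ B`;  `B` integral over `α B'` and over `β B'`;
  `B'` integrally closed in `F'`;
* the comap table of the Spec;
* `w`-cover: a product `b₁ b₂ ^ e b₃` with `bᵢ ∈ B ∩ 𝔪_{Vᵢ}` is divisible by `w` in `B`
  (from `Qep3` and the multiplicities `1, q - 1, 1`: `mul_of_qep3`);
* incomparability at level `q`: `B' ∩ 𝔪_{V₁'} ⊄ 𝔪_{V₂'}` and `B' ∩ 𝔪_{V₂'} ⊄ 𝔪_{V₁'}`;
* radicial: `b ^ k ≡ α b' mod 𝔪_{V₃}` and `b ^ k ≡ β b' mod 𝔪_{V₁}` for suitable `k > 0`,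
  `b' ∈ B'` (purely inseparable residue extensions of degree `q`, `k = q`).

Results: `ChartInc.incData` (the abstract `IncData` of `Incidence.lean`), and the three fields
`ChartInc.incidence`, `ChartInc.unique_α`, `ChartInc.unique_β` for maximal ideals (prime ideals
for `incidence`).
-/

set_option autoImplicit false
set_option linter.style.haveILetI false
set_option linter.unusedSectionVars false

namespace Fermat.Agent.S36.H153

open Fermat.Agent.S18.H138 (chart)

/-! ## Vertical primes of a subalgebra -/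

section VPrime

variable {R F : Type*} [CommRing R] [Field F] [Algebra R F]

theorem nonunits_add_mem (V : ValuationSubring F) {a b : F} (ha : a ∈ V.nonunits)
    (hb : b ∈ V.nonunits) : a + b ∈ V.nonunits := by
  rw [ValuationSubring.mem_nonunits_iff] at ha hb ⊢
  exact lt_of_le_of_lt (V.valuation.map_add a b) (max_lt ha hb)

theorem nonunits_mul_mem (V : ValuationSubring F) {a b : F} (ha : a ∈ V)
    (hb : b ∈ V.nonunits) : a * b ∈ V.nonunits := by
  rw [ValuationSubring.mem_nonunits_iff] at hb ⊢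
  rw [map_mul]
  have h1 : V.valuation a ≤ 1 := (V.valuation_le_one_iff a).mpr ha
  calc V.valuation a * V.valuation b ≤ 1 * V.valuation b := by gcongr
    _ = V.valuation b := one_mul _
    _ < 1 := hb

theorem nonunits_sub_mem (V : ValuationSubring F) {a b : F} (ha : a ∈ V.nonunits)
    (hb : b ∈ V.nonunits) : a - b ∈ V.nonunits := by
  have h : -b ∈ V.nonunits := by
    rw [ValuationSubring.mem_nonunits_iff] at hb ⊢
    rwa [Valuation.map_neg]
  simpa [sub_eq_add_neg] using nonunits_add_mem V ha h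

theorem mem_of_mem_nonunits (V : ValuationSubring F) {a : F} (ha : a ∈ V.nonunits) : a ∈ V := by
  rw [ValuationSubring.mem_nonunits_iff] at ha
  exact (V.valuation_le_one_iff a).mp ha.le

theorem mem_nonunits_or_of_mul (V : ValuationSubring F) {a b : F} (ha : a ∈ V) (hb : b ∈ V)
    (hab : a * b ∈ V.nonunits) : a ∈ V.nonunits ∨ b ∈ V.nonunits := by
  rw [ValuationSubring.mem_nonunits_iff] at hab
  by_contra hcon
  push Not at hcon
  obtain ⟨h1, h2⟩ := hcon
  rw [ValuationSubring.mem_nonunits_iff, not_lt] at h1 h2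
  have h1' : V.valuation a = 1 := le_antisymm ((V.valuation_le_one_iff a).mpr ha) h1
  have h2' : V.valuation b = 1 := le_antisymm ((V.valuation_le_one_iff b).mpr hb) h2
  rw [map_mul, h1', h2', one_mul] at hab
  exact lt_irrefl _ hab

theorem one_not_mem_nonunits (V : ValuationSubring F) : (1 : F) ∉ V.nonunits := by
  rw [ValuationSubring.mem_nonunits_iff, map_one]
  exact lt_irrefl _

theorem pow_mem_nonunits (V : ValuationSubring F) {a : F} (ha : a ∈ V.nonunits) {k : ℕ}
    (hk : 0 < k) : a ^ k ∈ V.nonunits := by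
  obtain ⟨j, rfl⟩ : ∃ j, k = j + 1 := ⟨k - 1, by omega⟩
  rw [pow_succ]
  exact nonunits_mul_mem V (V.pow_mem (mem_of_mem_nonunits V ha) j) ha

/-- Membership in the maximal ideal of a comap, for a homomorphism of fields. -/
theorem mem_nonunits_comap {F' : Type*} [Field F'] (α : F' →+* F) (V : ValuationSubring F)
    (b : F') : b ∈ (V.comap α).nonunits ↔ α b ∈ V.nonunits := by
  rw [ValuationSubring.mem_nonunits_iff, ValuationSubring.mem_nonunits_iff]
  by_cases hb : b = 0
  · subst hb; simp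
  · have hαb : α b ≠ 0 := (map_ne_zero α).mpr hb
    constructor
    · intro h
      by_contra hcon
      rw [not_lt] at hcon
      have h1 : (α b)⁻¹ ∈ V := by
        rw [← V.valuation_le_one_iff, map_inv₀]
        exact inv_le_one_of_one_le₀ hcon
      have h2 : b⁻¹ ∈ V.comap α := by
        rw [ValuationSubring.mem_comap, map_inv₀]; exact h1
      have h3 : (V.comap α).valuation b⁻¹ ≤ 1 := ((V.comap α).valuation_le_one_iff _).mpr h2
      rw [map_inv₀] at h3
      have h4 : (V.comap α).valuation b ≠ 0 := ((V.comap α).valuation.ne_zero_iff).mpr hb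
      have h5 : 1 ≤ (V.comap α).valuation b := by
        have := (inv_le_one₀ (zero_lt_iff.mpr h4)).mp h3
        exact this
      exact absurd h (not_lt.mpr h5)
    · intro h
      by_contra hcon
      rw [not_lt] at hcon
      have h1 : b⁻¹ ∈ V.comap α := by
        rw [← (V.comap α).valuation_le_one_iff, map_inv₀]
        exact inv_le_one_of_one_le₀ hcon
      have h2 : (α b)⁻¹ ∈ V := by
        rw [ValuationSubring.mem_comap, map_inv₀] at h1; exact h1
      have h3 : V.valuation (α b)⁻¹ ≤ 1 := (V.valuation_le_one_iff _).mpr h2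
      rw [map_inv₀] at h3
      have h4 : V.valuation (α b) ≠ 0 := (V.valuation.ne_zero_iff).mpr hαb
      have h5 : 1 ≤ V.valuation (α b) := (inv_le_one₀ (zero_lt_iff.mpr h4)).mp h3
      exact absurd h (not_lt.mpr h5)

/-- The vertical prime `B ∩ 𝔪_V` of a subalgebra `B ⊆ V`. -/
def vprime (B : Subalgebra R F) (V : ValuationSubring F) (hBV : ∀ b ∈ B, b ∈ V) : Ideal B where
  carrier := {b | (b : F) ∈ V.nonunits}
  zero_mem' := by
    show ((0 : B) : F) ∈ V.nonunits
    rw [ValuationSubring.mem_nonunits_iff]; simp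
  add_mem' := fun {a b} ha hb => by
    show ((a + b : B) : F) ∈ V.nonunits
    rw [Subalgebra.coe_add]
    exact nonunits_add_mem V ha hb
  smul_mem' := fun c b hb => by
    show ((c • b : B) : F) ∈ V.nonunits
    rw [smul_eq_mul, Subalgebra.coe_mul]
    exact nonunits_mul_mem V (hBV _ c.2) hb

theorem mem_vprime {B : Subalgebra R F} {V : ValuationSubring F} {hBV : ∀ b ∈ B, b ∈ V} {b : B} :
    b ∈ vprime B V hBV ↔ (b : F) ∈ V.nonunits := Iff.rfl

theorem vprime_isPrime (B : Subalgebra R F) (V : ValuationSubring F) (hBV : ∀ b ∈ B, b ∈ V) :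
    (vprime B V hBV).IsPrime := by
  refine ⟨?_, ?_⟩
  · intro h
    have h1 : (1 : B) ∈ vprime B V hBV := by rw [h]; trivial
    rw [mem_vprime, Subalgebra.coe_one] at h1
    exact one_not_mem_nonunits V h1
  · intro a b hab
    rw [mem_vprime, Subalgebra.coe_mul] at hab
    exact mem_nonunits_or_of_mul V (hBV _ a.2) (hBV _ b.2) hab

/-- `Through B 𝔪 V` (unfolded) is `vprime B V ≤ 𝔪`. -/
theorem through_iff {B : Subalgebra R F} {V : ValuationSubring F} {hBV : ∀ b ∈ B, b ∈ V}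
    {𝔪 : Ideal B} : (∀ b : B, (b : F) ∈ V.nonunits → b ∈ 𝔪) ↔ vprime B V hBV ≤ 𝔪 :=
  Iff.rfl

/-- A chart is contained in every valuation subring containing `R` and the coordinate. -/
theorem chart_le_valuationSubring (V : ValuationSubring F) {S : Set F}
    (hR : ∀ r : R, algebraMap R F r ∈ V) (hS : ∀ s ∈ S, s ∈ V) : ∀ b ∈ chart R S, b ∈ V := by
  intro b hb
  rw [Fermat.Agent.S18.H138.mem_chart] at hb
  have hadj : ∀ a ∈ Algebra.adjoin R S, a ∈ V := by
    intro a ha
    induction ha using Algebra.adjoin_induction with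
    | mem y hy => exact hS y hy
    | algebraMap r => exact hR r
    | add y z _ _ hy hz => exact V.add_mem _ _ hy hz
    | mul y z _ _ hy hz => exact V.mul_mem _ _ hy hz
  obtain ⟨p, hp, hpb⟩ := hb
  have hint : IsIntegral V b := by
    refine ⟨p.map ((Algebra.adjoin R S).val.toRingHom.codRestrict V (fun a => hadj a a.2)),
      hp.map _, ?_⟩
    rw [Polynomial.eval₂_map]
    exact hpb
  obtain ⟨y, hy⟩ := (IsIntegrallyClosed.isIntegral_iff (R := V) (K := F)).mp hint
  rw [← hy]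
  exact y.2

end VPrime

/-! ## Restriction of a field homomorphism to subalgebras -/

section Res

variable {R F F' : Type*} [CommRing R] [Field F] [Algebra R F] [Field F'] [Algebra R F']

/-- The restriction of `α : F' → F` to subalgebras `B' → B`. -/
def resHom (α : F' →+* F) (B' : Subalgebra R F') (B : Subalgebra R F)
    (h : ∀ b ∈ B', α b ∈ B) : B' →+* B :=
  (α.comp B'.val.toRingHom).codRestrict B (fun b => h b b.2)

@[simp]
theorem coe_resHom (α : F' →+* F) (B' : Subalgebra R F') (B : Subalgebra R F)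
    (h : ∀ b ∈ B', α b ∈ B) (b : B') : ((resHom α B' B h b : B) : F) = α (b : F') := rfl

theorem resHom_injective (α : F' →+* F) (B' : Subalgebra R F') (B : Subalgebra R F)
    (h : ∀ b ∈ B', α b ∈ B) : Function.Injective (resHom α B' B h) := by
  intro a b hab
  have h1 : α (a : F') = α (b : F') := congrArg (fun z : B => (z : F)) hab
  exact Subtype.ext (α.injective h1)

theorem resHom_isIntegral (α : F' →+* F) (B' : Subalgebra R F') (B : Subalgebra R F)
    (h : ∀ b ∈ B', α b ∈ B)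
    (hint : ∀ b ∈ B, ∃ p : Polynomial F', p.Monic ∧ (∀ i, p.coeff i ∈ B') ∧
      (p.map α).eval b = 0) : (resHom α B' B h).IsIntegral := by
  intro b
  obtain ⟨p, hp, hc, he⟩ := hint b b.2
  have hl : p ∈ Polynomial.lifts B'.val.toRingHom := by
    rw [Polynomial.lifts_iff_coeff_lifts]
    intro n
    exact ⟨⟨p.coeff n, hc n⟩, rfl⟩
  obtain ⟨P, hPp, -, hPm⟩ := Polynomial.lifts_and_degree_eq_and_monic hl hp
  refine ⟨P, hPm, ?_⟩
  apply Subtype.ext
  have h1 : ((Polynomial.eval₂ (resHom α B' B h) b P : B) : F) =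
      Polynomial.eval₂ (B.val.toRingHom.comp (resHom α B' B h)) (b : F) P := by
    have := Polynomial.hom_eval₂ P (resHom α B' B h) B.val.toRingHom b
    simpa using this
  rw [h1]
  have h2 : B.val.toRingHom.comp (resHom α B' B h) = α.comp B'.val.toRingHom := by
    ext z; rfl
  rw [h2, ← Polynomial.eval₂_map, hPp, Polynomial.eval₂_eq_eval_map]
  simpa using he

theorem comap_vprime (α : F' →+* F) (B' : Subalgebra R F') (B : Subalgebra R F)
    (h : ∀ b ∈ B', α b ∈ B) (V : ValuationSubring F) (V' : ValuationSubring F')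
    (hBV : ∀ b ∈ B, b ∈ V) (hBV' : ∀ b ∈ B', b ∈ V') (hcomap : V.comap α = V') :
    (vprime B V hBV).comap (resHom α B' B h) = vprime B' V' hBV' := by
  ext b
  rw [Ideal.mem_comap, mem_vprime, mem_vprime, coe_resHom, ← hcomap, mem_nonunits_comap]

/-- A subalgebra of a field which is integrally closed in the field is an integrally closed
domain. -/
theorem isIntegrallyClosed_of_closed (B' : Subalgebra R F')
    (hcl : ∀ f : F', IsIntegral B' f → f ∈ B') : IsIntegrallyClosed B' := by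
  haveI : IsIntegrallyClosedIn B' F' := by
    rw [isIntegrallyClosedIn_iff]
    refine ⟨Subtype.val_injective, fun {x} hx => ⟨⟨x, hcl x hx⟩, rfl⟩⟩
  exact IsIntegrallyClosed.of_isIntegrallyClosedIn B' F'

/-- Charts are integrally closed in the ambient field. -/
theorem chart_closed (S : Set F') (f : F') (hf : IsIntegral (chart R S) f) : f ∈ chart R S := by
  rw [Fermat.Agent.S18.H138.mem_chart]
  have h1 : IsIntegral (integralClosure (Algebra.adjoin R S) F') f := hf
  exact isIntegral_trans (A := integralClosure (Algebra.adjoin R S) F') f h1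

end Res

/-! ## The chart-level incidence datum -/

section Chart

variable {R F F' : Type*} [CommRing R] [Field F] [Algebra R F] [Field F'] [Algebra R F']

/-- **Chart-level incidence hypotheses** (all elementwise; see the header). -/
structure ChartInc (w : R) (e : ℕ) (α β : F' →+* F) (B' : Subalgebra R F') (B : Subalgebra R F)
    (V₁ V₂ V₃ : ValuationSubring F) (V₁' V₂' : ValuationSubring F') : Prop where
  B_le₁ : ∀ b ∈ B, b ∈ V₁
  B_le₂ : ∀ b ∈ B, b ∈ V₂
  B_le₃ : ∀ b ∈ B, b ∈ V₃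
  chart_α : ∀ b ∈ B', α b ∈ B
  chart_β : ∀ b ∈ B', β b ∈ B
  int_α : ∀ b ∈ B, ∃ p : Polynomial F', p.Monic ∧ (∀ i, p.coeff i ∈ B') ∧ (p.map α).eval b = 0
  int_β : ∀ b ∈ B, ∃ p : Polynomial F', p.Monic ∧ (∀ i, p.coeff i ∈ B') ∧ (p.map β).eval b = 0
  closed' : ∀ f : F', IsIntegral B' f → f ∈ B'
  comap_α₁ : V₁.comap α = V₁'
  comap_α₂ : V₂.comap α = V₁'
  comap_α₃ : V₃.comap α = V₂'
  comap_β₁ : V₁.comap β = V₁'
  comap_β₂ : V₂.comap β = V₂'
  comap_β₃ : V₃.comap β = V₂'
  α_w : α (algebraMap R F' w) = algebraMap R F w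
  β_w : β (algebraMap R F' w) = algebraMap R F w
  w_mem₁ : algebraMap R F w ∈ V₁.nonunits
  w_mem₃ : algebraMap R F w ∈ V₃.nonunits
  /-- `w B ⊇ p_FF · p_mid ^ e · p_VV` -/
  cover : ∀ b₁ b₂ b₃ : B, (b₁ : F) ∈ V₁.nonunits → (b₂ : F) ∈ V₂.nonunits →
    (b₃ : F) ∈ V₃.nonunits → ∃ c : B, b₁ * b₂ ^ e * b₃ = algebraMap R B w * c
  /-- the two vertical primes of level `q` are incomparable -/
  inc₁₂ : ∃ b' ∈ B', b' ∈ V₁'.nonunits ∧ b' ∉ V₂'.nonunits
  inc₂₁ : ∃ b' ∈ B', b' ∈ V₂'.nonunits ∧ b' ∉ V₁'.nonunits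
  /-- `VV` is radicial over level `q` via `α` -/
  rad_α : ∀ b ∈ B, ∃ k : ℕ, 0 < k ∧ ∃ b' ∈ B', b ^ k - α b' ∈ V₃.nonunits
  /-- `FF` is radicial over level `q` via `β` -/
  rad_β : ∀ b ∈ B, ∃ k : ℕ, 0 < k ∧ ∃ b' ∈ B', b ^ k - β b' ∈ V₁.nonunits

namespace ChartInc

variable {w : R} {e : ℕ} {α β : F' →+* F} {B' : Subalgebra R F'} {B : Subalgebra R F}
  {V₁ V₂ V₃ : ValuationSubring F} {V₁' V₂' : ValuationSubring F'}

theorem B'_le₁ (D : ChartInc w e α β B' B V₁ V₂ V₃ V₁' V₂') : ∀ b ∈ B', b ∈ V₁' := by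
  intro b hb
  rw [← D.comap_α₁, ValuationSubring.mem_comap]
  exact D.B_le₁ _ (D.chart_α b hb)

theorem B'_le₂ (D : ChartInc w e α β B' B V₁ V₂ V₃ V₁' V₂') : ∀ b ∈ B', b ∈ V₂' := by
  intro b hb
  rw [← D.comap_α₃, ValuationSubring.mem_comap]
  exact D.B_le₃ _ (D.chart_α b hb)

/-- The two degeneracy maps on the charts. -/
noncomputable abbrev aHom (D : ChartInc w e α β B' B V₁ V₂ V₃ V₁' V₂') : B' →+* B :=
  resHom α B' B D.chart_α

noncomputable abbrev bHom (D : ChartInc w e α β B' B V₁ V₂ V₃ V₁' V₂') : B' →+* B :=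
  resHom β B' B D.chart_β

/-- The cover statement: a prime of `B` containing `w` lies on one of the three components. -/
theorem cover_prime (D : ChartInc w e α β B' B V₁ V₂ V₃ V₁' V₂') (p : Ideal B) (hp : p.IsPrime)
    (hw : algebraMap R B w ∈ p) :
    vprime B V₁ D.B_le₁ ≤ p ∨ vprime B V₂ D.B_le₂ ≤ p ∨ vprime B V₃ D.B_le₃ ≤ p := by
  by_contra hcon
  push Not at hcon
  obtain ⟨h1, h2, h3⟩ := hcon
  obtain ⟨b₁, hb₁, hb₁p⟩ := Set.not_subset.mp h1
  obtain ⟨b₂, hb₂, hb₂p⟩ := Set.not_subset.mp h2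
  obtain ⟨b₃, hb₃, hb₃p⟩ := Set.not_subset.mp h3
  obtain ⟨c, hc⟩ := D.cover b₁ b₂ b₃ hb₁ hb₂ hb₃
  have hmem : b₁ * b₂ ^ e * b₃ ∈ p := by rw [hc]; exact p.mul_mem_right _ hw
  rcases hp.mem_or_mem hmem with h12 | h3'
  · rcases hp.mem_or_mem h12 with h1' | h2'
    · exact hb₁p h1'
    · exact hb₂p (hp.mem_of_pow_mem e h2')
  · exact hb₃p h3'

/-- **The abstract incidence datum of the charts.** -/
theorem incData (D : ChartInc w e α β B' B V₁ V₂ V₃ V₁' V₂') :
    IncData D.aHom D.bHom (vprime B' V₁' D.B'_le₁) (vprime B' V₂' D.B'_le₂)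
      (vprime B V₁ D.B_le₁) (vprime B V₂ D.B_le₂) (vprime B V₃ D.B_le₃) := by
  have aint := resHom_isIntegral α B' B D.chart_α D.int_α
  have bint := resHom_isIntegral β B' B D.chart_β D.int_β
  have aFF := comap_vprime α B' B D.chart_α V₁ V₁' D.B_le₁ D.B'_le₁ D.comap_α₁
  have amid := comap_vprime α B' B D.chart_α V₂ V₁' D.B_le₂ D.B'_le₁ D.comap_α₂
  have aVV := comap_vprime α B' B D.chart_α V₃ V₂' D.B_le₃ D.B'_le₂ D.comap_α₃
  have bFF := comap_vprime β B' B D.chart_β V₁ V₁' D.B_le₁ D.B'_le₁ D.comap_β₁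
  have bmid := comap_vprime β B' B D.chart_β V₂ V₂' D.B_le₂ D.B'_le₂ D.comap_β₂
  have bVV := comap_vprime β B' B D.chart_β V₃ V₂' D.B_le₃ D.B'_le₂ D.comap_β₃
  have h12 : ¬ vprime B' V₁' D.B'_le₁ ≤ vprime B' V₂' D.B'_le₂ := by
    obtain ⟨b', hb', h1, h2⟩ := D.inc₁₂
    intro hle
    exact h2 (hle (show (⟨b', hb'⟩ : B') ∈ vprime B' V₁' D.B'_le₁ from h1))
  have h21 : ¬ vprime B' V₂' D.B'_le₂ ≤ vprime B' V₁' D.B'_le₁ := by
    obtain ⟨b', hb', h1, h2⟩ := D.inc₂₁
    intro hle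
    exact h2 (hle (show (⟨b', hb'⟩ : B') ∈ vprime B' V₂' D.B'_le₂ from h1))
  -- `w` at level `q`
  have hw₂' : algebraMap R B' w ∈ vprime B' V₂' D.B'_le₂ := by
    show ((algebraMap R B' w : B') : F') ∈ V₂'.nonunits
    rw [← D.comap_α₃, mem_nonunits_comap]
    have : α ((algebraMap R B' w : B') : F') = algebraMap R F w := D.α_w
    rw [this]; exact D.w_mem₃
  have hw₁' : algebraMap R B' w ∈ vprime B' V₁' D.B'_le₁ := by
    show ((algebraMap R B' w : B') : F') ∈ V₁'.nonunits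
    rw [← D.comap_α₁, mem_nonunits_comap]
    have : α ((algebraMap R B' w : B') : F') = algebraMap R F w := D.α_w
    rw [this]; exact D.w_mem₁
  have haw : D.aHom (algebraMap R B' w) = algebraMap R B w := Subtype.ext D.α_w
  have hbw : D.bHom (algebraMap R B' w) = algebraMap R B w := Subtype.ext D.β_w
  haveI := vprime_isPrime B V₁ D.B_le₁
  haveI := vprime_isPrime B V₂ D.B_le₂
  haveI := vprime_isPrime B V₃ D.B_le₃
  refine
    { a_inj := resHom_injective α B' B D.chart_α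
      b_inj := resHom_injective β B' B D.chart_β
      a_int := aint
      b_int := bint
      primeP1 := vprime_isPrime B' V₁' D.B'_le₁
      primeP2 := vprime_isPrime B' V₂' D.B'_le₂
      primeFF := vprime_isPrime B V₁ D.B_le₁
      primeMid := vprime_isPrime B V₂ D.B_le₂
      primeVV := vprime_isPrime B V₃ D.B_le₃
      a_FF := aFF
      a_mid := amid
      a_VV := aVV
      b_FF := bFF
      b_mid := bmid
      b_VV := bVV
      a_only := ?_
      b_only := ?_
      a_rad := ?_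
      b_rad := ?_ }
  · -- `VV` is the only prime over `C₂'` via `α`
    intro p hp hc
    refine only_of_cover D.aHom aint (P := vprime B' V₂' D.B'_le₂)
      (p₁ := vprime B V₁ D.B_le₁) (p₂ := vprime B V₂ D.B_le₂) (p₃ := vprime B V₃ D.B_le₃)
      hw₂' (fun p hp hwp => D.cover_prime p hp (haw ▸ hwp)) ?_ ?_ aVV p hp hc
    · rw [aFF]; exact h12
    · rw [amid]; exact h12
  · -- `FF` is the only prime over `C₁'` via `β`
    intro p hp hc
    refine only_of_cover D.bHom bint (P := vprime B' V₁' D.B'_le₁)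
      (p₁ := vprime B V₃ D.B_le₃) (p₂ := vprime B V₂ D.B_le₂) (p₃ := vprime B V₁ D.B_le₁)
      hw₁' (fun p hp hwp => ?_) ?_ ?_ bFF p hp hc
    · rcases D.cover_prime p hp (hbw ▸ hwp) with h | h | h
      · exact Or.inr (Or.inr h)
      · exact Or.inr (Or.inl h)
      · exact Or.inl h
    · rw [bVV]; exact h21
    · rw [bmid]; exact h21
  · intro b
    obtain ⟨k, hk, b', hb', h⟩ := D.rad_α b b.2
    exact ⟨k, hk, ⟨b', hb'⟩, h⟩
  · intro b
    obtain ⟨k, hk, b', hb', h⟩ := D.rad_β b b.2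
    exact ⟨k, hk, ⟨b', hb'⟩, h⟩

/-- **Field `incidence` of `Eng.TripleCtx`** (for prime ideals): a point of the chart on two of
the three components is a triple point. -/
theorem incidence (D : ChartInc w e α β B' B V₁ V₂ V₃ V₁' V₂') (𝔪 : Ideal B) (h𝔪 : 𝔪.IsPrime)
    (h : ((∀ b : B, (b : F) ∈ V₁.nonunits → b ∈ 𝔪) ∧ (∀ b : B, (b : F) ∈ V₂.nonunits → b ∈ 𝔪)) ∨
      ((∀ b : B, (b : F) ∈ V₁.nonunits → b ∈ 𝔪) ∧ (∀ b : B, (b : F) ∈ V₃.nonunits → b ∈ 𝔪)) ∨
      ((∀ b : B, (b : F) ∈ V₂.nonunits → b ∈ 𝔪) ∧ (∀ b : B, (b : F) ∈ V₃.nonunits → b ∈ 𝔪))) :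
    (∀ b : B, (b : F) ∈ V₁.nonunits → b ∈ 𝔪) ∧ (∀ b : B, (b : F) ∈ V₂.nonunits → b ∈ 𝔪) ∧
      (∀ b : B, (b : F) ∈ V₃.nonunits → b ∈ 𝔪) := by
  haveI := h𝔪
  haveI : IsIntegrallyClosed B' := isIntegrallyClosed_of_closed B' D.closed'
  exact D.incData.triple_of_two 𝔪 h

/-- The contraction of a maximal ideal along an integral map, order form. -/
theorem comap_eq_of_forall {A C : Type*} [CommRing A] [CommRing C] (a : A →+* C)
    (ha : a.IsIntegral) (𝔪 𝔪' : Ideal C) (h𝔪 : 𝔪.IsMaximal) (h𝔪' : 𝔪'.IsMaximal)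
    (h : ∀ x : A, a x ∈ 𝔪 → a x ∈ 𝔪') : 𝔪'.comap a = 𝔪.comap a := by
  haveI := h𝔪
  haveI := h𝔪'
  haveI : (𝔪.comap a).IsMaximal := Ideal.isMaximal_comap_of_isIntegral_of_isMaximal' a ha 𝔪
  have hne : 𝔪'.comap a ≠ ⊤ := (Ideal.comap_isPrime a 𝔪').ne_top
  exact (Ideal.IsMaximal.eq_of_le ‹(𝔪.comap a).IsMaximal› hne (fun x hx => h x hx)).symm

/-- **Field `unique_α` of `Eng.TripleCtx`**: a closed point on `VV` (in particular a triple
point) is the only closed point of the chart over its image under `α`. -/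
theorem unique_α_of_vv (D : ChartInc w e α β B' B V₁ V₂ V₃ V₁' V₂') (𝔪 𝔪' : Ideal B)
    (h𝔪 : 𝔪.IsMaximal) (h𝔪' : 𝔪'.IsMaximal)
    (ht : ∀ b : B, (b : F) ∈ V₃.nonunits → b ∈ 𝔪)
    (h : ∀ (b' : F') (hb' : b' ∈ B'), (⟨α b', D.chart_α b' hb'⟩ : B) ∈ 𝔪 →
      (⟨α b', D.chart_α b' hb'⟩ : B) ∈ 𝔪') : 𝔪' = 𝔪 := by
  haveI : IsIntegrallyClosed B' := isIntegrallyClosed_of_closed B' D.closed'
  haveI := h𝔪.isPrime
  haveI := h𝔪'.isPrime
  have hc : 𝔪'.comap D.aHom = 𝔪.comap D.aHom :=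
    comap_eq_of_forall D.aHom D.incData.a_int 𝔪 𝔪' h𝔪 h𝔪' (fun x hx => h x.1 x.2 hx)
  exact D.incData.unique_over_a 𝔪 𝔪' ht hc

theorem unique_α (D : ChartInc w e α β B' B V₁ V₂ V₃ V₁' V₂') (𝔪 𝔪' : Ideal B)
    (h𝔪 : 𝔪.IsMaximal) (h𝔪' : 𝔪'.IsMaximal)
    (ht : (∀ b : B, (b : F) ∈ V₁.nonunits → b ∈ 𝔪) ∧ (∀ b : B, (b : F) ∈ V₂.nonunits → b ∈ 𝔪) ∧
      (∀ b : B, (b : F) ∈ V₃.nonunits → b ∈ 𝔪))
    (h : ∀ (b' : F') (hb' : b' ∈ B'), (⟨α b', D.chart_α b' hb'⟩ : B) ∈ 𝔪 →
      (⟨α b', D.chart_α b' hb'⟩ : B) ∈ 𝔪') : 𝔪' = 𝔪 :=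
  D.unique_α_of_vv 𝔪 𝔪' h𝔪 h𝔪' ht.2.2 h

/-- **Field `unique_β` of `Eng.TripleCtx`**: a closed point on `FF` (in particular a triple
point) is the only closed point of the chart over its image under `β`. -/
theorem unique_β_of_ff (D : ChartInc w e α β B' B V₁ V₂ V₃ V₁' V₂') (𝔪 𝔪' : Ideal B)
    (h𝔪 : 𝔪.IsMaximal) (h𝔪' : 𝔪'.IsMaximal)
    (ht : ∀ b : B, (b : F) ∈ V₁.nonunits → b ∈ 𝔪)
    (h : ∀ (b' : F') (hb' : b' ∈ B'), (⟨β b', D.chart_β b' hb'⟩ : B) ∈ 𝔪 →
      (⟨β b', D.chart_β b' hb'⟩ : B) ∈ 𝔪') : 𝔪' = 𝔪 := by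
  haveI : IsIntegrallyClosed B' := isIntegrallyClosed_of_closed B' D.closed'
  haveI := h𝔪.isPrime
  haveI := h𝔪'.isPrime
  have hc : 𝔪'.comap D.bHom = 𝔪.comap D.bHom :=
    comap_eq_of_forall D.bHom D.incData.b_int 𝔪 𝔪' h𝔪 h𝔪' (fun x hx => h x.1 x.2 hx)
  exact D.incData.unique_over_b 𝔪 𝔪' ht hc

theorem unique_β (D : ChartInc w e α β B' B V₁ V₂ V₃ V₁' V₂') (𝔪 𝔪' : Ideal B)
    (h𝔪 : 𝔪.IsMaximal) (h𝔪' : 𝔪'.IsMaximal)
    (ht : (∀ b : B, (b : F) ∈ V₁.nonunits → b ∈ 𝔪) ∧ (∀ b : B, (b : F) ∈ V₂.nonunits → b ∈ 𝔪) ∧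
      (∀ b : B, (b : F) ∈ V₃.nonunits → b ∈ 𝔪))
    (h : ∀ (b' : F') (hb' : b' ∈ B'), (⟨β b', D.chart_β b' hb'⟩ : B) ∈ 𝔪 →
      (⟨β b', D.chart_β b' hb'⟩ : B) ∈ 𝔪') : 𝔪' = 𝔪 :=
  D.unique_β_of_ff 𝔪 𝔪' h𝔪 h𝔪' ht.1 h

end ChartInc

end Chart

/-! ## Adapters for the hypotheses `cover`, `rad_α`, `rad_β` -/

section Adapters

variable {R F F' : Type*} [CommRing R] [Field F] [Algebra R F] [Field F'] [Algebra R F']

/-- `cover` from the `q`-expansion principle `Qep3` (unfolded) and the multiplicities: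
`w` divides every element of `𝔪_{V₁}` and of `𝔪_{V₃}`, and the `e`-th power of every element of
`𝔪_{V₂}` (`e = q - 1`). -/
theorem cover_of_qep (w : R) (e : ℕ) (B : Subalgebra R F) (V₁ V₂ V₃ : ValuationSubring F)
    (hB₁ : ∀ b ∈ B, b ∈ V₁) (hB₂ : ∀ b ∈ B, b ∈ V₂) (hB₃ : ∀ b ∈ B, b ∈ V₃)
    (qep : ∀ b : B, (b : F) * (algebraMap R F w)⁻¹ ∈ V₁ → (b : F) * (algebraMap R F w)⁻¹ ∈ V₂ →
      (b : F) * (algebraMap R F w)⁻¹ ∈ V₃ → ∃ c : B, b = algebraMap R B w * c)
    (u₁ : ∀ f ∈ V₁.nonunits, f * (algebraMap R F w)⁻¹ ∈ V₁)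
    (u₂ : ∀ f ∈ V₂.nonunits, f ^ e * (algebraMap R F w)⁻¹ ∈ V₂)
    (u₃ : ∀ f ∈ V₃.nonunits, f * (algebraMap R F w)⁻¹ ∈ V₃)
    (b₁ b₂ b₃ : B) (h₁ : (b₁ : F) ∈ V₁.nonunits) (h₂ : (b₂ : F) ∈ V₂.nonunits)
    (h₃ : (b₃ : F) ∈ V₃.nonunits) : ∃ c : B, b₁ * b₂ ^ e * b₃ = algebraMap R B w * c := by
  refine qep (b₁ * b₂ ^ e * b₃) ?_ ?_ ?_
  · have : ((b₁ * b₂ ^ e * b₃ : B) : F) * (algebraMap R F w)⁻¹ =
        ((b₁ : F) * (algebraMap R F w)⁻¹) * ((b₂ : F) ^ e * (b₃ : F)) := by
      push_cast; ring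
    rw [this]
    exact V₁.mul_mem _ _ (u₁ _ h₁)
      (V₁.mul_mem _ _ (V₁.pow_mem (hB₁ _ b₂.2) e) (hB₁ _ b₃.2))
  · have : ((b₁ * b₂ ^ e * b₃ : B) : F) * (algebraMap R F w)⁻¹ =
        ((b₂ : F) ^ e * (algebraMap R F w)⁻¹) * ((b₁ : F) * (b₃ : F)) := by
      push_cast; ring
    rw [this]
    exact V₂.mul_mem _ _ (u₂ _ h₂) (V₂.mul_mem _ _ (hB₂ _ b₁.2) (hB₂ _ b₃.2))
  · have : ((b₁ * b₂ ^ e * b₃ : B) : F) * (algebraMap R F w)⁻¹ =
        ((b₃ : F) * (algebraMap R F w)⁻¹) * ((b₁ : F) * (b₂ : F) ^ e) := by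
      push_cast; ring
    rw [this]
    exact V₃.mul_mem _ _ (u₃ _ h₃)
      (V₃.mul_mem _ _ (hB₃ _ b₁.2) (V₃.pow_mem (hB₃ _ b₂.2) e))

/-- The hypothesis `u₂` of `cover_of_qep` from a uniformiser `t ≠ 0` of `V₂` with
`w = unit · t ^ e`  (field `ram₂` of the Spec). -/
theorem pow_div_mem_of_ram (V : ValuationSubring F) (ϖ t : F) (e : ℕ) (ht : t ≠ 0)
    (hunif : ∀ f ∈ V.nonunits, f * t⁻¹ ∈ V) (hram : (ϖ * (t ^ e)⁻¹)⁻¹ ∈ V) :
    ∀ f ∈ V.nonunits, f ^ e * ϖ⁻¹ ∈ V := by
  intro f hf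
  by_cases hϖ : ϖ = 0
  · subst hϖ
    simp [V.zero_mem]
  have h1 : f ^ e * ϖ⁻¹ = (f * t⁻¹) ^ e * (ϖ * (t ^ e)⁻¹)⁻¹ := by
    have hte : t ^ e ≠ 0 := pow_ne_zero e ht
    rw [mul_pow, inv_pow, mul_inv, inv_inv]
    field_simp
  rw [h1]
  exact V.mul_mem _ _ (V.pow_mem (hunif f hf) e) hram

/-- Congruent elements of `V` have congruent values under a polynomial with coefficients in
`V`. -/
theorem eval_sub_eval_mem_nonunits (V : ValuationSubring F) (p : Polynomial F)
    (hp : ∀ i, p.coeff i ∈ V) {a b : F} (ha : a ∈ V) (hb : b ∈ V) (hab : a - b ∈ V.nonunits) :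
    p.eval a - p.eval b ∈ V.nonunits := by
  obtain ⟨c, hc⟩ : ∃ c ∈ V, p.eval a - p.eval b = c * (a - b) := by
    have key : ∀ n : ℕ, ∃ c ∈ V, a ^ n - b ^ n = c * (a - b) := by
      intro n
      induction n with
      | zero => exact ⟨0, V.zero_mem, by simp⟩
      | succ n ih =>
        obtain ⟨c, hcV, hc⟩ := ih
        refine ⟨a ^ n + c * b, V.add_mem _ _ (V.pow_mem ha n) (V.mul_mem _ _ hcV hb), ?_⟩
        have : a ^ (n + 1) - b ^ (n + 1) = a ^ n * (a - b) + (a ^ n - b ^ n) * b := by ring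
        rw [this, hc]; ring
    choose c hcV hc using key
    refine ⟨∑ i ∈ p.support, p.coeff i * c i,
      V.toSubring.sum_mem (fun i _ => V.mul_mem _ _ (hp i) (hcV i)), ?_⟩
    rw [Polynomial.eval_eq_sum, Polynomial.eval_eq_sum, Polynomial.sum, Polynomial.sum,
      ← Finset.sum_sub_distrib, Finset.sum_mul]
    refine Finset.sum_congr rfl (fun i _ => ?_)
    rw [← mul_sub, hc i]; ring
  obtain ⟨hcV, hc⟩ := hc
  rw [hc]
  exact nonunits_mul_mem V hcV hab

/-- **Radicial from valuation-level inseparability and normality of the component of level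
`q`.**  If every element of `V` has its `k`-th power congruent modulo `𝔪_V` to an element of
`β F'`, and `B'` is `NormalAlong V' = V.comap β` (unfolded), then every element of `B` has its
`k`-th power congruent modulo `𝔪_V` to an element of `β B'`. -/
theorem rad_of_insep_normal (β : F' →+* F) (B' : Subalgebra R F') (B : Subalgebra R F)
    (V : ValuationSubring F) (V' : ValuationSubring F') (k : ℕ)
    (hBV : ∀ b ∈ B, b ∈ V) (hBV' : ∀ b ∈ B', b ∈ V') (hcomap : V.comap β = V')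
    (hint : ∀ b ∈ B, ∃ p : Polynomial F', p.Monic ∧ (∀ i, p.coeff i ∈ B') ∧
      (p.map β).eval b = 0)
    (insep : ∀ f ∈ V, ∃ g : F', f ^ k - β g ∈ V.nonunits)
    (normal' : ∀ (f : F') (p : Polynomial B'), p.Monic →
      Polynomial.aeval f p ∈ V'.nonunits → ∃ b : B', f - (b : F') ∈ V'.nonunits) :
    ∀ b ∈ B, ∃ b' ∈ B', b ^ k - β b' ∈ V.nonunits := by
  intro b hb
  have hbk : b ^ k ∈ B := B.pow_mem hb k
  obtain ⟨g, hg⟩ := insep b (hBV b hb)
  obtain ⟨p, hp, hc, he⟩ := hint (b ^ k) hbk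
  -- `β g ∈ V`
  have hβg : β g ∈ V := by
    have h1 : β g = b ^ k - (b ^ k - β g) := by ring
    rw [h1]
    exact V.toSubring.sub_mem (hBV _ hbk) (mem_of_mem_nonunits V hg)
  -- `p(g) ∈ 𝔪_{V'}`
  have hcoef : ∀ i, (p.map β).coeff i ∈ V := by
    intro i
    rw [Polynomial.coeff_map]
    have : p.coeff i ∈ V' := hBV' _ (hc i)
    rw [← hcomap, ValuationSubring.mem_comap] at this
    exact this
  have h2 : (p.map β).eval (β g) ∈ V.nonunits := by
    have h3 := eval_sub_eval_mem_nonunits V (p.map β) hcoef (hBV _ hbk) hβg hg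
    rw [he, zero_sub] at h3
    have h4 : -(-(Polynomial.eval (β g) (Polynomial.map β p))) ∈ V.nonunits := by
      rw [ValuationSubring.mem_nonunits_iff] at h3 ⊢
      rwa [Valuation.map_neg]
    simpa using h4
  have h5 : p.eval g ∈ V'.nonunits := by
    rw [← hcomap, mem_nonunits_comap, ← Polynomial.eval₂_hom, ← Polynomial.eval_map]
    exact h2
  -- lift the coefficients to `B'`
  have hl : p ∈ Polynomial.lifts B'.val.toRingHom := by
    rw [Polynomial.lifts_iff_coeff_lifts]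
    intro n
    exact ⟨⟨p.coeff n, hc n⟩, rfl⟩
  obtain ⟨P, hPp, -, hPm⟩ := Polynomial.lifts_and_degree_eq_and_monic hl hp
  have h6 : Polynomial.aeval g P = p.eval g := by
    rw [← hPp, Polynomial.eval_map]
    rfl
  obtain ⟨b', hb'⟩ := normal' g P hPm (h6 ▸ h5)
  refine ⟨b', b'.2, ?_⟩
  have h7 : β (g - (b' : F')) ∈ V.nonunits := by
    rw [← mem_nonunits_comap, hcomap]; exact hb'
  have h8 : b ^ k - β (b' : F') = (b ^ k - β g) + β (g - (b' : F')) := by
    rw [map_sub]; ring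
  rw [h8]
  exact nonunits_add_mem V hg h7

end Adapters

end Fermat.Agent.S36.H153

end
-- ===== PACK-END S36/H153/IncCtx.lean

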