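import Mathlib
import Fermat.Prelude.Def_ModularCurve_HeckeModule
import Fermat.Prelude.Def_ModularCurve_X0ModL
import Fermat.Agent.Pack.S36.E9L0
import Fermat.Agent.Pack.S36.E0L0
import Fermat.Agent.Pack.S36.E9L3
import Fermat.Agent.Pack.S36.E0L3
import Fermat.Agent.Pack.S36.E9L1
import Fermat.Agent.Pack.S36.E10L2
import Fermat.Agent.Pack.S36.E9L2
import Fermat.Agent.Pack.S36.E7L2
import Fermat.Agent.Pack.S36.E5L1
import Fermat.Agent.Pack.S36.E7L3
import Fermat.Agent.Pack.S36.E5L2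
import Fermat.Agent.Pack.S36.E10L1
import Fermat.Agent.Pack.S36.E10L3
import Fermat.Agent.Pack.S36.E1L1
import Fermat.Agent.Pack.S36.E8L3
import Fermat.Agent.Pack.S36.E4L1
import Fermat.Agent.Pack.S36.E10L0
import Fermat.Agent.Pack.S36.E8L1

-- ===== PACK-BEGIN S29/H801/M1Modular.lean
section
/-
S29 / M1 (helper801), part 3: the Prelude Hecke operators `heckeOperatorAlong L N ℓ` commute
(`HeckeOperatorsCommuteBar N` for `L = ℚ̄`), from

* `hi`  : the Prelude's `HeckeInputsAlong` at all levels (piece HI),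
* `lg`  : local generators along the degeneracy maps `α` (weak approximation),
* `nc`  : norm compatibility of the mixed squares (`F_{Nℓℓ'} = F_{Nℓ} ⊗_{F_N} F_{Nℓ'}`).

No places ↔ points dictionary is used.
-/




set_option autoImplicit false
set_option linter.style.haveILetI false

noncomputable section

namespace Fermat.Agent.S29.H801

open AlgebraicCurve ModularCurve Fermat.Agent.S37.H818

variable (L : Type*) [Field L] [Algebra ℚ L]

/-- The function field of level `N` over `L` (as a type). -/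
abbrev FB (N : ℕ) [NeZero N] : Type _ := ↥(laurentBaseChange L (modularFunctionFieldFull N))

section Retarget

variable (M ℓ M' : ℕ) [NeZero M] [NeZero ℓ] [NeZero M']

/-- `heckeAlphaBar L M ℓ` with codomain level renamed along `M * ℓ = M'`. -/
def alphaTo (h : M * ℓ = M') : _root_.Fermat.Agent.S29.H801.FB L M →ₐ[L] _root_.Fermat.Agent.S29.H801.FB L M' := by
  subst h
  exact heckeAlphaBar L M ℓ

/-- `heckeBetaBar L M ℓ` with codomain level renamed along `M * ℓ = M'`. -/
def betaTo (h : M * ℓ = M') : _root_.Fermat.Agent.S29.H801.FB L M →ₐ[L] _root_.Fermat.Agent.S29.H801.FB L M' := by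
  subst h
  exact heckeBetaBar L M ℓ

variable {M ℓ M'}

@[simp] theorem coe_alphaTo (h : M * ℓ = M') (x : _root_.Fermat.Agent.S29.H801.FB L M) :
    ((alphaTo L M ℓ M' h x : _root_.Fermat.Agent.S29.H801.FB L M') : LaurentSeries L) = (x : LaurentSeries L) := by
  subst h
  exact coe_heckeAlphaBar M ℓ x

@[simp] theorem coe_betaTo (h : M * ℓ = M') (x : _root_.Fermat.Agent.S29.H801.FB L M) :
    ((betaTo L M ℓ M' h x : _root_.Fermat.Agent.S29.H801.FB L M') : LaurentSeries L) = qExpand L ℓ (x : LaurentSeries L) := by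
  subst h
  exact coe_heckeBetaBar M ℓ x

theorem alphaTo_rfl : alphaTo L M ℓ (M * ℓ) rfl = heckeAlphaBar L M ℓ := rfl

theorem betaTo_rfl : betaTo L M ℓ (M * ℓ) rfl = heckeBetaBar L M ℓ := rfl

theorem alphaTo_integral (h : M * ℓ = M') (hα : HeckeAlphaBarIntegral L M ℓ) :
    (alphaTo L M ℓ M' h).toRingHom.IsIntegral := by
  subst h
  exact hα

theorem betaTo_integral (h : M * ℓ = M') (hβ : HeckeBetaBarIntegral L M ℓ) :
    (betaTo L M ℓ M' h).toRingHom.IsIntegral := by
  subst h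
  exact hβ

theorem alphaTo_finite (h : M * ℓ = M') (hfin : FiniteAlong L (heckeAlphaBar L M ℓ)) :
    FiniteAlong L (alphaTo L M ℓ M' h) := by
  subst h
  exact hfin

theorem alphaTo_normFormula (h : M * ℓ = M') (hfin : FiniteAlong L (heckeAlphaBar L M ℓ))
    (hN : NormFormulaAlong L (heckeAlphaBar L M ℓ) hfin) :
    NormFormulaAlong L (alphaTo L M ℓ M' h) (alphaTo_finite L h hfin) := by
  subst h
  exact hN

theorem hasPrincipalDivisors_of_eq (h : M * ℓ = M')
    (hP : HasPrincipalDivisors L (_root_.Fermat.Agent.S29.H801.FB L (M * ℓ))) : HasPrincipalDivisors L (_root_.Fermat.Agent.S29.H801.FB L M') := by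
  subst h
  exact hP

end Retarget

/-- The inputs of the commutation theorem. -/
structure M1Inputs : Prop where
  /-- piece `HI` at all levels -/
  hi : ∀ (M ℓ : ℕ) [NeZero M] [NeZero ℓ], ℓ.Prime → HeckeInputsAlong L M ℓ
  /-- local generators along `α` -/
  lg : ∀ (M ℓ : ℕ) [NeZero M] [NeZero ℓ], ℓ.Prime → ∀ hα : HeckeAlphaBarIntegral L M ℓ,
    HasLocalGenerators (heckeAlphaBar L M ℓ) hα
  /-- norm compatibility of the mixed square
  `F_N --α_{ℓ'}--> F_{Nℓ'}`, `F_N --β_ℓ--> F_{Nℓ}`, `F_{Nℓ} --α_{ℓ'}--> F_{Nℓℓ'}`,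
  `F_{Nℓ'} --β_ℓ--> F_{Nℓℓ'}`. -/
  nc : ∀ (N ℓ ℓ' : ℕ) [NeZero N] [NeZero ℓ] [NeZero ℓ'], ℓ.Prime → ℓ'.Prime → ℓ ≠ ℓ' →
    NormCompat (heckeAlphaBar L N ℓ') (heckeBetaBar L N ℓ) (heckeAlphaBar L (N * ℓ) ℓ')
      (betaTo L (N * ℓ') ℓ (N * ℓ * ℓ') (Nat.mul_right_comm N ℓ' ℓ))

variable {L}

theorem M1Inputs.nc' (H : M1Inputs L) (N ℓ ℓ' M' : ℕ) [NeZero N] [NeZero ℓ] [NeZero ℓ']
    [NeZero M'] (hℓ : ℓ.Prime) (hℓ' : ℓ'.Prime) (hne : ℓ ≠ ℓ')
    (h₁ : N * ℓ * ℓ' = M') (h₂ : N * ℓ' * ℓ = M') :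
    NormCompat (heckeAlphaBar L N ℓ') (heckeBetaBar L N ℓ) (alphaTo L (N * ℓ) ℓ' M' h₁)
      (betaTo L (N * ℓ') ℓ M' h₂) := by
  subst h₁
  exact H.nc N ℓ ℓ' hℓ hℓ' hne

section Relations

variable (N ℓ ℓ' : ℕ) [NeZero N] [NeZero ℓ] [NeZero ℓ']

theorem rel_AA :
    (heckeAlphaBar L (N * ℓ) ℓ').comp (heckeAlphaBar L N ℓ) =
      (alphaTo L (N * ℓ') ℓ (N * ℓ * ℓ') (Nat.mul_right_comm N ℓ' ℓ)).comp
        (heckeAlphaBar L N ℓ') := by
  refine AlgHom.ext fun x => Subtype.ext ?_
  simp only [AlgHom.comp_apply, coe_heckeAlphaBar, coe_alphaTo]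

theorem rel_BB :
    (heckeBetaBar L (N * ℓ) ℓ').comp (heckeBetaBar L N ℓ) =
      (betaTo L (N * ℓ') ℓ (N * ℓ * ℓ') (Nat.mul_right_comm N ℓ' ℓ)).comp
        (heckeBetaBar L N ℓ') := by
  refine AlgHom.ext fun x => Subtype.ext ?_
  simp only [AlgHom.comp_apply, coe_heckeBetaBar, coe_betaTo]
  rw [qExpand_qExpand, qExpand_qExpand]
  exact qExpand_congr (mul_comm ℓ' ℓ) _

theorem rel_sq₁ :
    (betaTo L (N * ℓ') ℓ (N * ℓ * ℓ') (Nat.mul_right_comm N ℓ' ℓ)).comp (heckeAlphaBar L N ℓ') =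
      (heckeAlphaBar L (N * ℓ) ℓ').comp (heckeBetaBar L N ℓ) := by
  refine AlgHom.ext fun x => Subtype.ext ?_
  simp only [AlgHom.comp_apply, coe_heckeAlphaBar, coe_heckeBetaBar, coe_betaTo]

theorem rel_sq₂ :
    (heckeBetaBar L (N * ℓ) ℓ').comp (heckeAlphaBar L N ℓ) =
      (alphaTo L (N * ℓ') ℓ (N * ℓ * ℓ') (Nat.mul_right_comm N ℓ' ℓ)).comp
        (heckeBetaBar L N ℓ') := by
  refine AlgHom.ext fun x => Subtype.ext ?_
  simp only [AlgHom.comp_apply, coe_heckeAlphaBar, coe_heckeBetaBar, coe_alphaTo]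

end Relations

/-- **Commutation of the Prelude Hecke operators** `heckeOperatorAlong L N ℓ` for two
distinct primes. -/
theorem heckeOperatorAlong_comm_of_ne (H : M1Inputs L) (N ℓ ℓ' : ℕ) [NeZero N] [NeZero ℓ]
    [NeZero ℓ'] (hℓ : ℓ.Prime) (hℓ' : ℓ'.Prime) (hne : ℓ ≠ ℓ')
    (x : Pic0 L (laurentBaseChange L (modularFunctionFieldFull N))) :
    heckeOperatorAlong L N ℓ (heckeOperatorAlong L N ℓ' x) =
      heckeOperatorAlong L N ℓ' (heckeOperatorAlong L N ℓ x) := by
  obtain ⟨hα₁, hβ₁, hP₁, hfin₁, hFI₁, hN₁⟩ := H.hi N ℓ hℓ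
  obtain ⟨hα₂, hβ₂, hP₂, hfin₂, hFI₂, hN₂⟩ := H.hi N ℓ' hℓ'
  obtain ⟨hαA₂, hβB₂, hP₁₂, hfinA₂, hFIB₂, hNA₂⟩ := H.hi (N * ℓ) ℓ' hℓ'
  obtain ⟨hαA₁, hβB₁, hP₂₁, hfinA₁, hFIB₁, hNA₁⟩ := H.hi (N * ℓ') ℓ hℓ
  rw [heckeOperatorAlong_eq hα₁ hβ₁ hFI₁ hfin₁ hN₁, heckeOperatorAlong_eq hα₂ hβ₂ hFI₂ hfin₂ hN₂]
  have hc : N * ℓ' * ℓ = N * ℓ * ℓ' := Nat.mul_right_comm N ℓ' ℓ
  exact pic0_correspondence_comm
    (heckeAlphaBar L N ℓ) (heckeBetaBar L N ℓ) (heckeAlphaBar L N ℓ') (heckeBetaBar L N ℓ')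
    (heckeAlphaBar L (N * ℓ) ℓ') (heckeBetaBar L (N * ℓ) ℓ')
    (alphaTo L (N * ℓ') ℓ (N * ℓ * ℓ') hc) (betaTo L (N * ℓ') ℓ (N * ℓ * ℓ') hc)
    hα₁ hβ₁ hα₂ hβ₂ hαA₂ hβB₂ (alphaTo_integral L hc hαA₁) (betaTo_integral L hc hβB₁)
    (rel_AA N ℓ ℓ') (rel_BB N ℓ ℓ') (rel_sq₁ N ℓ ℓ') (rel_sq₂ N ℓ ℓ')
    hFI₁ hFI₂ hfin₁ hN₁ hfin₂ hN₂
    (alphaTo_finite L hc hfinA₁) (alphaTo_normFormula L hc hfinA₁ hNA₁) hfinA₂ hNA₂
    (H.nc N ℓ ℓ' hℓ hℓ' hne)
    (H.nc' N ℓ' ℓ (N * ℓ * ℓ') hℓ' hℓ hne.symm hc rfl)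
    (H.lg N ℓ hℓ hα₁) (H.lg N ℓ' hℓ' hα₂) x

/-- **Piece M1**: `HeckeOperatorsCommuteBar N` from the inputs over `ℚ̄`. -/
theorem heckeOperatorsCommuteBar_of_inputs (H : M1Inputs (AlgebraicClosure ℚ)) (N : ℕ)
    [NeZero N] : HeckeOperatorsCommuteBar N := by
  intro ℓ ℓ'
  by_cases hne : (ℓ : ℕ) = ℓ'
  · have : ℓ = ℓ' := Subtype.ext hne
    subst this
    rfl
  · haveI : NeZero (ℓ : ℕ) := ⟨ℓ.2.ne_zero⟩
    haveI : NeZero (ℓ' : ℕ) := ⟨ℓ'.2.ne_zero⟩
    ext x
    simp only [Module.End.mul_apply, heckeOperatorBar_apply]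
    exact heckeOperatorAlong_comm_of_ne H N ℓ ℓ' ℓ.2 ℓ'.2 hne x

end Fermat.Agent.S29.H801

end

end
-- ===== PACK-END S29/H801/M1Modular.lean

-- ===== PACK-BEGIN S24/Count/H324Interface.lean
section




/-!
# S24 — COUNT interface, exact frozen shapes (helper324)

The four COUNT interface theorems of `Fermat/Agent/S24/Count.lean` (skeleton of helper984),
proved in the exact shapes `numOrbits (permOf N g)`, assembled from

* `Fermat.Agent.S20.Comb694` (helper694): index of `Γ₀(N)`, fixed points and orbit counts of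
  `S` and `S * T`;
* `Fermat.Agent.S20.CuspCount360` (helper360): orbits of `T`.

The only new ingredient is the bridge between orbits of the cyclic group generated by the
permutation `MulAction.toPerm g` and orbits of the cyclic group generated by `g`.
-/

set_option autoImplicit false

noncomputable section

open ModularCurve MulAction Subgroup
open scoped MatrixGroups

namespace Fermat.Agent.S24.H324

section Bridge

variable {G X : Type*} [Group G] [MulAction G X]

/-- The orbit relation of `⟨toPerm g⟩ ≤ Perm X` is the orbit relation of `⟨g⟩ ≤ G`. -/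
theorem orbitRel_zpowers_toPerm (g : G) :
    orbitRel (zpowers (MulAction.toPerm g : Equiv.Perm X)) X = orbitRel (zpowers g) X := by
  ext x y
  simp only [orbitRel_apply]
  constructor
  · rintro ⟨⟨π, hπ⟩, rfl⟩
    obtain ⟨k, rfl⟩ := Subgroup.mem_zpowers_iff.mp hπ
    refine ⟨⟨g ^ k, zpow_mem_zpowers g k⟩, ?_⟩
    have h : (MulAction.toPerm g : Equiv.Perm X) ^ k = MulAction.toPerm (g ^ k) :=
      (map_zpow (MulAction.toPermHom G X) g k).symm
    change g ^ k • y = ((MulAction.toPerm g : Equiv.Perm X) ^ k) y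
    rw [h]
    rfl
  · rintro ⟨⟨h, hh⟩, rfl⟩
    obtain ⟨k, rfl⟩ := Subgroup.mem_zpowers_iff.mp hh
    refine ⟨⟨(MulAction.toPerm g : Equiv.Perm X) ^ k, zpow_mem_zpowers _ k⟩, ?_⟩
    have h : (MulAction.toPerm g : Equiv.Perm X) ^ k = MulAction.toPerm (g ^ k) :=
      (map_zpow (MulAction.toPermHom G X) g k).symm
    change ((MulAction.toPerm g : Equiv.Perm X) ^ k) y = g ^ k • y
    rw [h]
    rfl

/-- `numOrbits (toPerm g)` is the number of orbits of the cyclic group generated by `g`. -/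
theorem numOrbits_toPerm (g : G) :
    numOrbits (MulAction.toPerm g : Equiv.Perm X)
      = Nat.card (orbitRel.Quotient (zpowers g) X) := by
  unfold numOrbits
  refine Nat.card_congr (Quotient.congr (Equiv.refl X) ?_)
  intro x y
  have h := orbitRel_zpowers_toPerm (X := X) g
  exact iff_of_eq (congrArg (fun s : Setoid X => s x y) h)

/-- `numOrbits` only depends on the cyclic group generated by the permutation. -/
theorem numOrbits_congr_zpowers {π π' : Equiv.Perm X} (h : zpowers π = zpowers π') :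
    numOrbits π = numOrbits π' := by
  unfold numOrbits
  rw [h]

/-- A permutation and its inverse have the same number of orbits. -/
theorem numOrbits_inv (π : Equiv.Perm X) : numOrbits π⁻¹ = numOrbits π :=
  numOrbits_congr_zpowers zpowers_inv

/-- `g⁻¹` and `g` have the same number of orbits. -/
theorem numOrbits_toPerm_inv (g : G) :
    numOrbits (MulAction.toPerm g⁻¹ : Equiv.Perm X)
      = numOrbits (MulAction.toPerm g : Equiv.Perm X) := by
  have h : (MulAction.toPerm g⁻¹ : Equiv.Perm X) = (MulAction.toPerm g : Equiv.Perm X)⁻¹ :=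
    map_inv (MulAction.toPermHom G X) g
  rw [h, numOrbits_inv]

/-- Conjugate elements have the same number of orbits. -/
theorem numOrbits_toPerm_conj (g h : G) :
    numOrbits (MulAction.toPerm (h * g * h⁻¹) : Equiv.Perm X)
      = numOrbits (MulAction.toPerm g : Equiv.Perm X) := by
  rw [numOrbits_toPerm, numOrbits_toPerm]
  refine Nat.card_congr (Quotient.congr (MulAction.toPerm h⁻¹) ?_)
  intro x y
  change x ∈ MulAction.orbit (zpowers (h * g * h⁻¹)) y ↔
    (h⁻¹ • x) ∈ MulAction.orbit (zpowers g) (h⁻¹ • y)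
  constructor
  · rintro ⟨⟨u, hu⟩, rfl⟩
    obtain ⟨k, rfl⟩ := Subgroup.mem_zpowers_iff.mp hu
    refine ⟨⟨g ^ k, zpow_mem_zpowers g k⟩, ?_⟩
    change g ^ k • h⁻¹ • y = h⁻¹ • ((h * g * h⁻¹) ^ k • y)
    have : (h * g * h⁻¹) ^ k = h * g ^ k * h⁻¹ := by
      rw [← conj_zpow]
    rw [this, smul_smul, smul_smul]
    congr 1
    group
  · rintro ⟨⟨u, hu⟩, hxy⟩
    obtain ⟨k, rfl⟩ := Subgroup.mem_zpowers_iff.mp hu
    refine ⟨⟨(h * g * h⁻¹) ^ k, zpow_mem_zpowers _ k⟩, ?_⟩
    change (h * g * h⁻¹) ^ k • y = x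
    have hxy' : g ^ k • h⁻¹ • y = h⁻¹ • x := hxy
    have : (h * g * h⁻¹) ^ k = h * g ^ k * h⁻¹ := by
      rw [← conj_zpow]
    rw [this, mul_smul, mul_smul, hxy', smul_inv_smul]

end Bridge

variable (N : ℕ)

theorem numOrbits_permOf (g : SL(2, ℤ)) :
    numOrbits (permOf N g)
      = Nat.card (orbitRel.Quotient (zpowers g) (SL(2, ℤ) ⧸ CongruenceSubgroup.Gamma0 N)) :=
  numOrbits_toPerm g

theorem card_XX : Nat.card (XX N) = dedekindPsi N :=
  Fermat.Agent.S20.Comb694.card_quotient_Gamma0 N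

theorem numOrbits_permOf_inv (g : SL(2, ℤ)) :
    numOrbits (permOf N g⁻¹) = numOrbits (permOf N g) :=
  numOrbits_toPerm_inv g

theorem numOrbits_permOf_conj (g h : SL(2, ℤ)) :
    numOrbits (permOf N (h * g * h⁻¹)) = numOrbits (permOf N g) :=
  numOrbits_toPerm_conj g h

variable [NeZero N]

theorem two_mul_numOrbits_S :
    2 * numOrbits (permOf N ModularGroup.S) = dedekindPsi N + nuTwo N := by
  rw [numOrbits_permOf]
  exact Fermat.Agent.S20.Comb694.two_mul_card_orbits_S N

theorem three_mul_numOrbits_ST :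
    3 * numOrbits (permOf N (ModularGroup.S * ModularGroup.T))
      = dedekindPsi N + 2 * nuThree N := by
  rw [numOrbits_permOf]
  exact Fermat.Agent.S20.Comb694.three_mul_card_orbits_ST N

theorem numOrbits_T : numOrbits (permOf N ModularGroup.T) = cuspCount N := by
  rw [numOrbits_permOf]
  exact Fermat.Agent.S20.CuspCount360.card_orbits_T N

end Fermat.Agent.S24.H324

end
end
-- ===== PACK-END S24/Count/H324Interface.lean

-- ===== PACK-BEGIN S28/H626/Upper.lean
section
/-
S28 helper (helper626): the upper bound `[k(j(q^d) : d ∣ N) : k(j)] ≤ ψ(N)` for every field `k`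
in which `N` is invertible, from the prime-level modular polynomials; and its
linear-independence / spanning forms.
-/




set_option autoImplicit false

noncomputable section

open ModularCurve HahnSeries Polynomial IntermediateField

namespace Fermat.Agent.S28.H626

/-! ### Arithmetic of `dedekindPsi` -/

section Psi

theorem psi_mul_prime_of_dvd {N p : ℕ} (hN : N ≠ 0) (hp : p.Prime) (hpN : p ∣ N) :
    dedekindPsi (N * p) = p * dedekindPsi N := by
  unfold dedekindPsi
  have hset : (N * p).divisors.filter Squarefree = N.divisors.filter Squarefree := by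
    ext d
    simp only [Finset.mem_filter, Nat.mem_divisors]
    constructor
    · rintro ⟨⟨hd, _⟩, hsq⟩
      refine ⟨⟨?_, hN⟩, hsq⟩
      have h2 : d ∣ N ^ 2 := by
        rw [pow_two]
        exact hd.trans (mul_dvd_mul_left N hpN)
      exact (hsq.dvd_pow_iff_dvd two_ne_zero).1 h2
    · rintro ⟨⟨hd, _⟩, hsq⟩
      exact ⟨⟨hd.mul_right p, mul_ne_zero hN hp.ne_zero⟩, hsq⟩
  rw [hset, Finset.mul_sum]
  refine Finset.sum_congr rfl fun d hd => ?_
  have hdN : d ∣ N := (Nat.mem_divisors.1 (Finset.mem_filter.1 hd).1).1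
  obtain ⟨e, rfl⟩ := hdN
  have hd0 : 0 < d := Nat.pos_of_ne_zero (by rintro rfl; simp at hN)
  rw [mul_assoc, Nat.mul_div_cancel_left _ hd0, Nat.mul_div_cancel_left _ hd0, mul_comm]

theorem psi_mul_prime_of_not_dvd {N p : ℕ} (hN : N ≠ 0) (hp : p.Prime) (hpN : ¬ p ∣ N) :
    dedekindPsi (N * p) = (p + 1) * dedekindPsi N := by
  unfold dedekindPsi
  have hcop : ∀ d, d ∣ N → Nat.Coprime d p := fun d hd =>
    (Nat.Coprime.symm ((Nat.Prime.coprime_iff_not_dvd hp).2 fun h => hpN (h.trans hd)))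
  have hset : (N * p).divisors.filter Squarefree
      = (N.divisors.filter Squarefree) ∪ (N.divisors.filter Squarefree).image (· * p) := by
    ext d
    simp only [Finset.mem_filter, Nat.mem_divisors, Finset.mem_union, Finset.mem_image]
    constructor
    · rintro ⟨⟨hd, _⟩, hsq⟩
      by_cases hpd : p ∣ d
      · right
        obtain ⟨e, rfl⟩ := hpd
        refine ⟨e, ⟨⟨?_, hN⟩, hsq.squarefree_of_dvd (Dvd.intro_left p rfl)⟩, mul_comm e p⟩
        rw [mul_comm p e] at hd
        exact Nat.dvd_of_mul_dvd_mul_right hp.pos hd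
      · left
        refine ⟨⟨?_, hN⟩, hsq⟩
        have : Nat.Coprime d p := (Nat.Coprime.symm ((Nat.Prime.coprime_iff_not_dvd hp).2 hpd))
        exact this.dvd_of_dvd_mul_right hd
    · rintro (⟨⟨hd, _⟩, hsq⟩ | ⟨e, ⟨⟨he, _⟩, hsq⟩, rfl⟩)
      · exact ⟨⟨hd.mul_right p, mul_ne_zero hN hp.ne_zero⟩, hsq⟩
      · refine ⟨⟨mul_dvd_mul_right he p, mul_ne_zero hN hp.ne_zero⟩, ?_⟩
        exact (Nat.squarefree_mul (hcop e he)).2 ⟨hsq, hp.squarefree⟩
  have hdisj : Disjoint (N.divisors.filter Squarefree)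
      ((N.divisors.filter Squarefree).image (· * p)) := by
    rw [Finset.disjoint_left]
    intro d hd hd'
    simp only [Finset.mem_filter, Nat.mem_divisors, Finset.mem_image] at hd hd'
    obtain ⟨e, _, rfl⟩ := hd'
    exact hpN ((Dvd.intro_left e rfl).trans hd.1.1)
  rw [hset, Finset.sum_union hdisj, Finset.sum_image, add_mul, one_mul, Finset.mul_sum]
  · congr 1
    · refine Finset.sum_congr rfl fun d hd => ?_
      have hdN : d ∣ N := (Nat.mem_divisors.1 (Finset.mem_filter.1 hd).1).1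
      obtain ⟨e, rfl⟩ := hdN
      have hd0 : 0 < d := Nat.pos_of_ne_zero (by rintro rfl; simp at hN)
      rw [mul_assoc, Nat.mul_div_cancel_left _ hd0, Nat.mul_div_cancel_left _ hd0, mul_comm]
    · refine Finset.sum_congr rfl fun d hd => ?_
      exact Nat.mul_div_mul_right N d hp.pos
  · intro a _ b _ hab
    exact Nat.eq_of_mul_eq_mul_right hp.pos hab

end Psi

/-! ### The upper bound -/

section Upper

variable {k : Type*} [Field k]

theorem full_one_eq : modularFunctionFieldFullC k 1 = IntermediateField.adjoin k {jqModC k} := by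
  apply le_antisymm
  · refine full_le_of_forall_mem 1 _ ?_
    intro d _ hd
    have hd1 : d = 1 := Nat.dvd_one.mp hd
    rw [jd_congr k hd1, jd_one]
    exact IntermediateField.subset_adjoin _ _ (Set.mem_singleton _)
  · rw [IntermediateField.adjoin_le_iff]
    intro y hy
    rw [Set.mem_singleton_iff] at hy
    rw [hy]
    exact jqModC_mem_full k 1

/-- **Upper bound**, `relrank` form (a `Cardinal` inequality, so it includes finiteness). -/
theorem relrank_full_le (N : ℕ) [NeZero N] (H : HasModPolys k N) :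
    IntermediateField.relrank (modularFunctionFieldFullC k 1) (modularFunctionFieldFullC k N) ≤
      ((dedekindPsi N : ℕ) : Cardinal) := by
  revert H
  have main : ∀ n : ℕ, ∀ (N : ℕ) [NeZero N], N = n → HasModPolys k N →
      IntermediateField.relrank (modularFunctionFieldFullC k 1) (modularFunctionFieldFullC k N) ≤
        ((dedekindPsi N : ℕ) : Cardinal) := by
    intro n
    induction n using Nat.strong_induction_on with
    | _ n ih =>
      intro N instN hNn H
      by_cases hN1 : N = 1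
      · subst hN1
        rw [IntermediateField.relrank_self, dedekindPsi_one, Nat.cast_one]
      obtain ⟨p, hp, hpN⟩ := Nat.exists_prime_and_dvd hN1
      obtain ⟨M, hM⟩ := hpN
      have hNM : N = M * p := by rw [hM, mul_comm]
      subst hNM
      have hM0 : M ≠ 0 := by
        rintro rfl
        exact (NeZero.ne (0 * p)) (zero_mul p)
      have instM : NeZero M := ⟨hM0⟩
      have hlt : M < n := by
        rw [← hNn]
        have := hp.one_lt
        have hMpos : 0 < M := Nat.pos_of_ne_zero hM0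
        nlinarith
      have IH := ih M hlt M rfl (H.mono (Dvd.intro p rfl))
      have h1 : modularFunctionFieldFullC k 1 ≤ modularFunctionFieldFullC k M :=
        full_degeneracyC_le k (one_dvd M)
      have h2 : modularFunctionFieldFullC k M ≤ modularFunctionFieldFullC k (M * p) :=
        full_degeneracyC_le k (Dvd.intro p rfl)
      rw [← IntermediateField.relrank_mul_relrank h1 h2]
      by_cases hpM : p ∣ M
      · rw [psi_mul_prime_of_dvd hM0 hp hpM, mul_comm p, Nat.cast_mul]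
        exact mul_le_mul' IH (relrank_full_step_of_dvd hp H hpM)
      · rw [psi_mul_prime_of_not_dvd hM0 hp hpM, mul_comm (p + 1), Nat.cast_mul]
        exact mul_le_mul' IH (relrank_full_step_of_not_dvd hp H hpM)
  exact main N N rfl

/-- `k(j) ≤ k(j(q^d) : d ∣ N)`. -/
theorem adjoin_j_le_full (N : ℕ) [NeZero N] :
    IntermediateField.adjoin k {jqModC k} ≤ modularFunctionFieldFullC k N := by
  rw [IntermediateField.adjoin_le_iff]
  intro y hy
  rw [Set.mem_singleton_iff] at hy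
  rw [hy]
  exact jqModC_mem_full k N

/-- **Upper bound** over `k(j) = IntermediateField.adjoin k {j}`. -/
theorem relrank_adjoin_j_full_le (N : ℕ) [NeZero N] (H : HasModPolys k N) :
    IntermediateField.relrank (IntermediateField.adjoin k {jqModC k})
      (modularFunctionFieldFullC k N) ≤ ((dedekindPsi N : ℕ) : Cardinal) := by
  rw [← full_one_eq]
  exact relrank_full_le N H

/-- The function field as a finite-dimensional `k(j)`-vector space: rank bound. -/
theorem rank_extendScalars_le (N : ℕ) [NeZero N] (H : HasModPolys k N) :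
    Module.rank (IntermediateField.adjoin k {jqModC k})
      (IntermediateField.extendScalars (adjoin_j_le_full (k := k) N)) ≤
        ((dedekindPsi N : ℕ) : Cardinal) := by
  rw [← IntermediateField.relrank_eq_rank_of_le]
  exact relrank_adjoin_j_full_le N H

theorem finiteDimensional_extendScalars (N : ℕ) [NeZero N] (H : HasModPolys k N) :
    FiniteDimensional (IntermediateField.adjoin k {jqModC k})
      (IntermediateField.extendScalars (adjoin_j_le_full (k := k) N)) := by
  rw [FiniteDimensional, ← Module.rank_lt_aleph0_iff]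
  exact lt_of_le_of_lt (rank_extendScalars_le N H) (Cardinal.nat_lt_aleph0 _)

theorem finrank_extendScalars_le (N : ℕ) [NeZero N] (H : HasModPolys k N) :
    Module.finrank (IntermediateField.adjoin k {jqModC k})
      (IntermediateField.extendScalars (adjoin_j_le_full (k := k) N)) ≤ dedekindPsi N := by
  have := finiteDimensional_extendScalars N H
  have h := rank_extendScalars_le N H
  rw [← Module.finrank_eq_rank, Nat.cast_le] at h
  exact h

/-- **Upper bound, linear-independence form.** A family of elements of `k(j(q^d) : d ∣ N)` which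
is linearly independent over `k(j)` has at most `ψ(N)` members. -/
theorem card_le_of_linearIndependent (N : ℕ) [NeZero N] (H : HasModPolys k N)
    {ι : Type*} [Fintype ι] (v : ι → LaurentSeries k)
    (hv : ∀ i, v i ∈ modularFunctionFieldFullC k N)
    (hli : LinearIndependent (IntermediateField.adjoin k {jqModC k}) v) :
    Fintype.card ι ≤ dedekindPsi N := by
  have := finiteDimensional_extendScalars N H
  set B := IntermediateField.extendScalars (adjoin_j_le_full (k := k) N) with hB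
  let w : ι → B := fun i => ⟨v i, hv i⟩
  have hw : LinearIndependent (IntermediateField.adjoin k {jqModC k}) w := by
    refine LinearIndependent.of_comp (B.val.toLinearMap) ?_
    exact hli
  exact (hw.fintype_card_le_finrank).trans (finrank_extendScalars_le N H)

/-- **Upper bound, spanning form.** A family of at least `ψ(N)` elements of
`k(j(q^d) : d ∣ N)` which is linearly independent over `k(j)` spans `k(j(q^d) : d ∣ N)`
over `k(j)`. -/
theorem mem_span_of_linearIndependent (N : ℕ) [NeZero N] (H : HasModPolys k N)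
    {ι : Type*} [Fintype ι] (v : ι → LaurentSeries k)
    (hv : ∀ i, v i ∈ modularFunctionFieldFullC k N)
    (hli : LinearIndependent (IntermediateField.adjoin k {jqModC k}) v)
    (hcard : dedekindPsi N ≤ Fintype.card ι)
    {x : LaurentSeries k} (hx : x ∈ modularFunctionFieldFullC k N) :
    x ∈ Submodule.span (IntermediateField.adjoin k {jqModC k}) (Set.range v) := by
  classical
  have := finiteDimensional_extendScalars N H
  set B := IntermediateField.extendScalars (adjoin_j_le_full (k := k) N) with hB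
  let w : ι → B := fun i => ⟨v i, hv i⟩
  have hw : LinearIndependent (IntermediateField.adjoin k {jqModC k}) w := by
    refine LinearIndependent.of_comp (B.val.toLinearMap) ?_
    exact hli
  have hcard' : Fintype.card ι = Module.finrank (IntermediateField.adjoin k {jqModC k}) B :=
    le_antisymm hw.fintype_card_le_finrank ((finrank_extendScalars_le N H).trans hcard)
  have htop : Submodule.span (IntermediateField.adjoin k {jqModC k}) (Set.range w) = ⊤ :=
    hw.span_eq_top_of_card_eq_finrank' hcard'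
  have hxB : (⟨x, hx⟩ : B) ∈ Submodule.span (IntermediateField.adjoin k {jqModC k})
      (Set.range w) := by
    rw [htop]; exact Submodule.mem_top
  have := Submodule.apply_mem_span_image_of_mem_span (B.val.toLinearMap) hxB
  have himg : (B.val.toLinearMap) '' (Set.range w) = Set.range v := by
    ext y
    constructor
    · rintro ⟨_, ⟨i, rfl⟩, rfl⟩
      exact ⟨i, rfl⟩
    · rintro ⟨i, rfl⟩
      exact ⟨w i, ⟨i, rfl⟩, rfl⟩
  rw [himg] at this
  exact this

end Upper

end Fermat.Agent.S28.H626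

end

end
-- ===== PACK-END S28/H626/Upper.lean

-- ===== PACK-BEGIN S29/H942/MeroRoot.lean
section


/-!
# `p`-th roots of meromorphic functions on the upper half plane

Main result: `exists_meromorphic_root_upperHalfPlane`. If `f` is meromorphic on the upper half
plane `{z | 0 < z.im}`, nowhere locally zero, and all its orders are divisible by `p ≠ 0`, then
there is a function `h`, meromorphic (in normal form) on the upper half plane, with `h ^ p = f`
away from a discrete set.  The root is unique up to a `p`-th root of unity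
(`IsNFRootOn.exists_eq_mul`).
-/

set_option autoImplicit false

noncomputable section

open Filter Topology Set Complex MeromorphicOn Function Metric

namespace Fermat.Agent.S29.H942

/-- The upper half plane as a subset of `ℂ`. -/
def uhpSet : Set ℂ := {z : ℂ | 0 < z.im}

lemma mem_uhpSet {z : ℂ} : z ∈ uhpSet ↔ 0 < z.im := Iff.rfl

lemma isOpen_uhpSet : IsOpen uhpSet := isOpen_lt continuous_const Complex.continuous_im

/-- The centres of the exhausting balls. -/
def exhCenter (n : ℕ) : ℂ := ((n : ℝ) + 1 : ℝ) * I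

/-- The radii of the exhausting balls. -/
def exhRadius (n : ℕ) : ℝ := (n : ℝ) + 1 - 1 / ((n : ℝ) + 2)

lemma exhRadius_pos (n : ℕ) : 0 < exhRadius n := by
  unfold exhRadius
  have h1 : (0 : ℝ) ≤ n := Nat.cast_nonneg n
  have h2 : 1 / ((n : ℝ) + 2) < 1 := by
    rw [div_lt_one (by linarith)]
    linarith
  linarith

lemma exhRadius_lt (n : ℕ) : exhRadius n < (n : ℝ) + 1 := by
  unfold exhRadius
  have h1 : (0 : ℝ) ≤ n := Nat.cast_nonneg n
  have h2 : 0 < 1 / ((n : ℝ) + 2) := by positivity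
  linarith

lemma exhCenter_im (n : ℕ) : (exhCenter n).im = (n : ℝ) + 1 := by
  simp [exhCenter]

lemma exhCenter_re (n : ℕ) : (exhCenter n).re = 0 := by
  simp [exhCenter]

lemma closedBall_exh_subset (n : ℕ) : closedBall (exhCenter n) (exhRadius n) ⊆ uhpSet := by
  intro z hz
  rw [mem_closedBall, dist_eq_norm] at hz
  have h1 : |(z - exhCenter n).im| ≤ ‖z - exhCenter n‖ := Complex.abs_im_le_norm _
  have h2 : (z - exhCenter n).im = z.im - ((n : ℝ) + 1) := by
    rw [Complex.sub_im, exhCenter_im]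
  have h3 := (abs_le.1 (h1.trans hz)).1
  rw [h2] at h3
  have h4 := exhRadius_lt n
  rw [mem_uhpSet]
  linarith

lemma ball_exh_subset (n : ℕ) : ball (exhCenter n) (exhRadius n) ⊆ uhpSet :=
  ball_subset_closedBall.trans (closedBall_exh_subset n)

lemma ball_exh_mono : Monotone fun n => ball (exhCenter n) (exhRadius n) := by
  refine monotone_nat_of_le_succ fun n => ?_
  apply ball_subset_ball'
  have hd : dist (exhCenter n) (exhCenter (n + 1)) = 1 := by
    rw [dist_eq_norm]
    have : exhCenter n - exhCenter (n + 1) = -I := by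
      simp only [exhCenter]
      push_cast
      ring
    rw [this, norm_neg, Complex.norm_I]
  rw [hd]
  unfold exhRadius
  have h1 : (0 : ℝ) ≤ n := Nat.cast_nonneg n
  have h2 : 1 / (((n + 1 : ℕ) : ℝ) + 2) ≤ 1 / ((n : ℝ) + 2) := by
    apply one_div_le_one_div_of_le (by linarith)
    push_cast
    linarith
  push_cast at h2 ⊢
  linarith

lemma iUnion_ball_exh : (⋃ n, ball (exhCenter n) (exhRadius n)) = uhpSet := by
  apply Subset.antisymm
  · exact iUnion_subset fun n => ball_exh_subset n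
  · intro z hz
    rw [mem_uhpSet] at hz
    obtain ⟨n, hn⟩ := exists_nat_gt ((z.re ^ 2 + z.im ^ 2 + 2) / (2 * z.im))
    refine mem_iUnion.2 ⟨n, ?_⟩
    rw [mem_ball, dist_eq_norm]
    have hR : (0 : ℝ) < (n : ℝ) + 1 := by positivity
    have hr := exhRadius_pos n
    have hlt : (z.re ^ 2 + z.im ^ 2 + 2) < 2 * z.im * ((n : ℝ) + 1) := by
      have := (div_lt_iff₀ (by linarith : (0 : ℝ) < 2 * z.im)).1 hn
      nlinarith
    have hsq : ‖z - exhCenter n‖ ^ 2 < exhRadius n ^ 2 := by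
      have h1 : ‖z - exhCenter n‖ ^ 2 = z.re ^ 2 + (z.im - ((n : ℝ) + 1)) ^ 2 := by
        rw [Complex.sq_norm, Complex.normSq_apply, Complex.sub_re, Complex.sub_im,
          exhCenter_re, exhCenter_im]
        ring
      rw [h1]
      have h2 : exhRadius n ^ 2 ≥ ((n : ℝ) + 1) ^ 2 - 2 := by
        unfold exhRadius
        have h0 : (0 : ℝ) ≤ n := Nat.cast_nonneg n
        have h3 : 0 < 1 / ((n : ℝ) + 2) := by positivity
        have h4 : ((n : ℝ) + 1) * (1 / ((n : ℝ) + 2)) ≤ 1 := by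
          rw [mul_one_div, div_le_one (by linarith)]
          linarith
        nlinarith [sq_nonneg (1 / ((n : ℝ) + 2))]
      nlinarith
    exact lt_of_pow_lt_pow_left₀ 2 hr.le hsq

/-- **Meromorphic `p`-th roots on the upper half plane** (normal form version). -/
theorem exists_isNFRootOn_upperHalfPlane {f : ℂ → ℂ} (hf : MeromorphicOn f uhpSet)
    (hford : ∀ z ∈ uhpSet, meromorphicOrderAt f z ≠ ⊤) {p : ℕ} (hp : p ≠ 0)
    (hdiv : ∀ z ∈ uhpSet, (p : ℤ) ∣ (meromorphicOrderAt f z).untop₀) :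
    ∃ h : ℂ → ℂ, IsNFRootOn h f uhpSet p := by
  have := exists_isNFRootOn_iUnion (f := f) hp (fun n => ball (exhCenter n) (exhRadius n))
    (fun n => isOpen_ball)
    (fun n => isSimplyConnected_of_convex (convex_ball _ _)
      ⟨exhCenter n, mem_ball_self (exhRadius_pos n)⟩)
    ball_exh_mono
    (fun n => hf.mono_set (ball_exh_subset n))
    (fun n x hx => hford x (ball_exh_subset n hx))
    (fun n => divisor_support_finite_of_subset (hf.mono_set (closedBall_exh_subset n))
      (isCompact_closedBall _ _) ball_subset_closedBall)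
    (fun n x hx => hdiv x (ball_exh_subset n hx))
  rwa [iUnion_ball_exh] at this

/-- Roots in normal form are roots modulo equality on codiscrete sets. -/
lemma IsNFRootOn.eventuallyEq_codiscreteWithin {h f : ℂ → ℂ} {V : Set ℂ} {p : ℕ}
    (hh : IsNFRootOn h f V p) : (h ^ p) =ᶠ[codiscreteWithin V] f := by
  rw [EventuallyEq, eventually_iff, mem_codiscreteWithin_iff_forall_mem_nhdsNE]
  intro x hx
  filter_upwards [hh.2 x hx] with y hy
  exact Or.inl hy

/-- **Meromorphic `p`-th roots on the upper half plane.** -/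
theorem exists_meromorphic_root_upperHalfPlane {f : ℂ → ℂ}
    (hf : MeromorphicOn f {z : ℂ | 0 < z.im})
    (hford : ∀ z : ℂ, 0 < z.im → meromorphicOrderAt f z ≠ ⊤) {p : ℕ} (hp : p ≠ 0)
    (hdiv : ∀ z : ℂ, 0 < z.im → (p : ℤ) ∣ (meromorphicOrderAt f z).untop₀) :
    ∃ h : ℂ → ℂ, MeromorphicNFOn h {z : ℂ | 0 < z.im} ∧
      (∀ z : ℂ, 0 < z.im → (h ^ p) =ᶠ[𝓝[≠] z] f) ∧
      (h ^ p) =ᶠ[codiscreteWithin {z : ℂ | 0 < z.im}] f := by
  obtain ⟨h, hh⟩ := exists_isNFRootOn_upperHalfPlane (f := f) hf hford hp hdiv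
  exact ⟨h, hh.1, hh.2, hh.eventuallyEq_codiscreteWithin⟩

/-- **Uniqueness of meromorphic `p`-th roots on the upper half plane** up to a root of unity. -/
theorem meromorphic_root_upperHalfPlane_unique {f h₁ h₂ : ℂ → ℂ}
    (hford : ∀ z : ℂ, 0 < z.im → meromorphicOrderAt f z ≠ ⊤) {p : ℕ} (hp : p ≠ 0)
    (h₁NF : MeromorphicNFOn h₁ {z : ℂ | 0 < z.im})
    (h₁pow : ∀ z : ℂ, 0 < z.im → (h₁ ^ p) =ᶠ[𝓝[≠] z] f)
    (h₂NF : MeromorphicNFOn h₂ {z : ℂ | 0 < z.im})
    (h₂pow : ∀ z : ℂ, 0 < z.im → (h₂ ^ p) =ᶠ[𝓝[≠] z] f) :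
    ∃ ζ : ℂ, ζ ^ p = 1 ∧ ∀ z : ℂ, 0 < z.im → h₂ z = ζ * h₁ z := by
  have hconv : Convex ℝ uhpSet := by
    have : uhpSet = Complex.im ⁻¹' (Ioi 0) := rfl
    rw [this]
    exact (convex_Ioi (0 : ℝ)).is_linear_preimage Complex.imLm.isLinear
  exact IsNFRootOn.exists_eq_mul hp isOpen_uhpSet hconv.isPreconnected hford
    ⟨h₁NF, h₁pow⟩ ⟨h₂NF, h₂pow⟩

end Fermat.Agent.S29.H942

end
end
-- ===== PACK-END S29/H942/MeroRoot.lean

-- ===== PACK-BEGIN S29/H395/AnalyticKron.lean
section
/-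
S29 / layer M / bridge BR, piece NORM (analytic half, `q`-expansions) — helper395.

**Analytic Kronecker norm.**  If `a : ℍ → ℂ` has the (everywhere convergent) `q`-expansion `A` at
`i∞` (`InfExp 1 a A`, S24), then

  `heckeProd ℓ a τ = a (ℓ τ) * ∏_{j < ℓ} a ((τ + j) / ℓ)`

has the `q`-expansion `kronNorm ℓ A = V_ℓ A * det (secMat ℓ A)` (helper400's formal Kronecker norm,
which row S37 identifies with the `q`-expansion of `Nm_α (β y)`).
-/






set_option autoImplicit false

noncomputable section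

open CongruenceSubgroup Matrix.SpecialLinearGroup UpperHalfPlane ModularCurve HahnSeries
open scoped MatrixGroups Real Polynomial OnePoint
open P2MW.S_ModularForm_heckeT_slash_eq_self_of_mem_Gamma0.ModularForm.HeckeSlashInvariance

namespace Fermat.Agent.S29.H395

open Fermat.Agent.S24 Fermat.Agent.S37.H340 Fermat.Agent.S37.H400

/-! ### `InfExp` bookkeeping -/

theorem infExp_finset_prod {N : ℕ} {ι : Type*} (s : Finset ι) (f : ι → ℍ → ℂ)
    (φ : ι → LaurentSeries ℂ) (h : ∀ i ∈ s, InfExp N (f i) (φ i)) :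
    InfExp N (fun τ => ∏ i ∈ s, f i τ) (∏ i ∈ s, φ i) := by
  classical
  induction s using Finset.induction_on with
  | empty => simpa using (InfExp.one (N := N))
  | insert i s hi ih =>
    have h1 := h i (Finset.mem_insert_self i s)
    have h2 := ih fun j hj => h j (Finset.mem_insert_of_mem hj)
    have := h1.mul h2
    simpa [Finset.prod_insert hi] using this

theorem infZ_pow_eq (ℓ : ℕ) [NeZero ℓ] (τ : ℍ) : infZ ℓ τ ^ ℓ = infZ 1 τ := by
  rw [infZ_def, infZ_def, ← Complex.exp_nat_mul]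
  congr 1
  have hℓ : (ℓ : ℂ) ≠ 0 := by exact_mod_cast NeZero.ne ℓ
  field_simp
  simp

/-- Descent of the variable: an expansion in `z_ℓ = q^{1/ℓ}` which only involves powers of
`z_ℓ^ℓ = q` is an expansion in `q`. -/
theorem infExp_of_qExpand {ℓ : ℕ} [NeZero ℓ] {f : ℍ → ℂ} {φ : LaurentSeries ℂ}
    (h : InfExp ℓ f (qExpand ℂ ℓ φ)) : InfExp 1 f φ := by
  intro τ
  have h1 := h τ
  have he0 : (ℓ : ℤ) ≠ 0 := by exact_mod_cast NeZero.ne ℓ
  have hinj : Function.Injective (fun n : ℤ => (ℓ : ℤ) * n) := mul_right_injective₀ he0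
  have hrange : ∀ m : ℤ, m ∉ Set.range (fun n : ℤ => (ℓ : ℤ) * n) →
      (qExpand ℂ ℓ φ).coeff m * infZ ℓ τ ^ m = 0 := by
    intro m hm
    rw [qExpand_coeff_of_not_dvd ℓ _ (fun ⟨j, hj⟩ => hm ⟨j, hj.symm⟩), zero_mul]
  rw [← hinj.hasSum_iff hrange] at h1
  convert h1 using 1
  funext n
  simp only [Function.comp_apply, qExpand_coeff_mul]
  rw [← infZ_pow_eq ℓ τ, ← zpow_natCast (infZ ℓ τ) ℓ, ← zpow_mul]

/-! ### The Hecke representatives as affine maps -/

section Rep

variable {ℓ : ℕ} [Fact ℓ.Prime]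

theorem heckeRep_infty_smul (τ : ℍ) : _root_.P2MW.S_ModularForm_heckeT_slash_eq_self_of_mem_Gamma0.ModularForm.HeckeSlashInvariance.heckeRep ℓ ∞ • τ = infAff ℓ 0 1 τ := by
  have hℓ : ℓ ≠ 0 := (Fact.out : ℓ.Prime).ne_zero
  apply UpperHalfPlane.ext
  rw [heckeRep_infty, ModularForm.coe_heckeDiagMatrix_smul hℓ,
    infAff_coe (Nat.pos_of_ne_zero hℓ) one_pos]
  simp

theorem heckeRep_coe_smul (j : ZMod ℓ) (τ : ℍ) :
    _root_.P2MW.S_ModularForm_heckeT_slash_eq_self_of_mem_Gamma0.ModularForm.HeckeSlashInvariance.heckeRep ℓ (j : OnePoint (ZMod ℓ)) • τ = infAff 1 (j.val : ℤ) ℓ τ := by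
  have hℓ : ℓ ≠ 0 := (Fact.out : ℓ.Prime).ne_zero
  apply UpperHalfPlane.ext
  rw [heckeRep_coe, ModularForm.coe_heckeMatrix_smul hℓ,
    infAff_coe one_pos (Nat.pos_of_ne_zero hℓ)]
  simp

theorem heckeProd_eq (a : ℍ → ℂ) (τ : ℍ) :
    heckeProd ℓ a τ = a (infAff ℓ 0 1 τ) * ∏ j : ZMod ℓ, a (infAff 1 (j.val : ℤ) ℓ τ) := by
  rw [heckeProd_apply]
  have h := Fintype.prod_option (fun x : OnePoint (ZMod ℓ) => a (_root_.P2MW.S_ModularForm_heckeT_slash_eq_self_of_mem_Gamma0.ModularForm.HeckeSlashInvariance.heckeRep ℓ x • τ))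
  rw [show (∏ x : OnePoint (ZMod ℓ), a (_root_.P2MW.S_ModularForm_heckeT_slash_eq_self_of_mem_Gamma0.ModularForm.HeckeSlashInvariance.heckeRep ℓ x • τ))
      = ∏ x : Option (ZMod ℓ), a (_root_.P2MW.S_ModularForm_heckeT_slash_eq_self_of_mem_Gamma0.ModularForm.HeckeSlashInvariance.heckeRep ℓ x • τ) from rfl, h]
  congr 1
  · exact congrArg a (heckeRep_infty_smul τ)
  · exact Finset.prod_congr rfl fun j _ => congrArg a (heckeRep_coe_smul j τ)

end Rep

/-! ### Expansions of the translates -/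

section Translates

variable {ℓ : ℕ} [NeZero ℓ] {a : ℍ → ℂ} {A : LaurentSeries ℂ}

theorem infExp_comp_mul (ha : InfExp 1 a A) :
    InfExp 1 (fun τ => a (infAff ℓ 0 1 τ)) (qExpand ℂ ℓ A) := by
  have hℓ : 0 < ℓ := Nat.pos_of_ne_zero (NeZero.ne ℓ)
  have h := ha.comp_infAff (N := 1) (e := ℓ) 0 hℓ one_pos one_pos one_pos (by ring)
  rwa [infRoot_zero, infTwist_one] at h

theorem infExp_comp_div (ha : InfExp 1 a A) (j : ℤ) :
    InfExp ℓ (fun τ => a (infAff 1 j ℓ τ)) (infTwist (infRoot j ℓ) A) := by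
  have hℓ : 0 < ℓ := Nat.pos_of_ne_zero (NeZero.ne ℓ)
  have h := ha.comp_infAff (N := ℓ) (e := 1) j one_pos hℓ one_pos hℓ (by ring)
  rwa [qExpand_one_apply, mul_one] at h

end Translates

/-! ### The formal product formula -/

section Formal

variable (ℓ : ℕ) [NeZero ℓ]

/-- `ζ_ℓ = exp (2πi/ℓ)`. -/
def zetaL : ℂ := Complex.exp (2 * π * Complex.I / ℓ)

theorem isPrimitiveRoot_zetaL : IsPrimitiveRoot (zetaL ℓ) ℓ :=
  Complex.isPrimitiveRoot_exp ℓ (NeZero.ne ℓ)

omit [NeZero ℓ] in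
theorem infRoot_eq_zetaL_pow (b : ℕ) : ((infRoot (b : ℤ) ℓ : ℂˣ) : ℂ) = zetaL ℓ ^ b := by
  rw [infRoot_coe, zetaL, ← Complex.exp_nat_mul]
  congr 1
  push_cast
  ring

theorem zpw_eq_zpow {w : ℂ} (hw : w ^ ℓ = 1) (hw0 : w ≠ 0) (n : ℤ) : zpw ℓ w n = w ^ n := by
  unfold zpw
  have hℓ : (0 : ℤ) < ℓ := by exact_mod_cast Nat.pos_of_ne_zero (NeZero.ne ℓ)
  have h1 : n = (ℓ : ℤ) * (n / ℓ) + n % ℓ := (Int.mul_ediv_add_emod n ℓ).symm
  have h2 : 0 ≤ n % (ℓ : ℤ) := Int.emod_nonneg n hℓ.ne'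
  conv_rhs => rw [h1]
  rw [zpow_add₀ hw0, zpow_mul, zpow_natCast, hw, one_zpow, one_mul]
  conv_rhs => rw [← Int.toNat_of_nonneg h2]
  rw [zpow_natCast]

theorem tw_eq_infTwist (b : ℕ) (A : LaurentSeries ℂ) :
    tw ℓ (zetaL ℓ ^ b) A = infTwist (infRoot (b : ℤ) ℓ) A := by
  ext n
  rw [tw_coeff, infTwist_coeff, Units.val_zpow_eq_zpow_val, infRoot_eq_zetaL_pow, mul_comm]
  congr 1
  have hζ := (isPrimitiveRoot_zetaL ℓ)
  refine zpw_eq_zpow ℓ ?_ (pow_ne_zero _ (hζ.ne_zero (NeZero.ne ℓ))) n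
  rw [← pow_mul, mul_comm, pow_mul, hζ.pow_eq_one, one_pow]

theorem kronMat_eq_secMat (A : LaurentSeries ℂ) : kronMat ℓ A = secMat ℓ A := by
  ext i j n
  rw [kronMat_apply, secMat_apply', sect_coeff, secL_coeff]

/-- **Product formula** `∏_{b < ℓ} A(ζ^b z) = (det secMat A)(z^ℓ)`. -/
theorem prod_infTwist_eq (A : LaurentSeries ℂ) :
    ∏ b : Fin ℓ, infTwist (infRoot ((b : ℕ) : ℤ) ℓ) A = qExpand ℂ ℓ (secMat ℓ A).det := by
  classical
  have h := kron_map_qExpand_eq_prod (isPrimitiveRoot_zetaL ℓ) A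
  have h0 : (Polynomial.map (qExpand ℂ ℓ) (kron ℓ A)).coeff 0
      = (∏ b : Fin ℓ, (Polynomial.X - Polynomial.C (tw ℓ (zetaL ℓ ^ (b : ℕ)) A))).coeff 0 := by
    rw [h]
  rw [Polynomial.coeff_map, kron, Polynomial.coeff_zero_eq_eval_zero (∏ b : Fin ℓ, _),
    Polynomial.eval_prod] at h0
  simp only [Polynomial.eval_sub, Polynomial.eval_X, Polynomial.eval_C, zero_sub] at h0
  rw [Finset.prod_neg, Finset.card_univ, Fintype.card_fin] at h0
  have hdet := Matrix.det_eq_sign_charpoly_coeff (kronMat ℓ A)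
  rw [Fintype.card_fin] at hdet
  rw [← kronMat_eq_secMat, hdet, map_mul, map_pow, map_neg, map_one, h0, ← mul_assoc,
    ← mul_pow]
  simp only [neg_mul_neg, one_mul, one_pow]
  exact Finset.prod_congr rfl fun b _ => (tw_eq_infTwist ℓ b A).symm

end Formal

/-! ### The main statement -/

/-- **Analytic Kronecker norm**: `heckeProd ℓ a` has the `q`-expansion `kronNorm ℓ A`. -/
theorem infExp_heckeProd {ℓ : ℕ} [Fact ℓ.Prime] {a : ℍ → ℂ} {A : LaurentSeries ℂ}
    (ha : InfExp 1 a A) : InfExp 1 (heckeProd ℓ a) (kronNorm ℓ A) := by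
  have h1 : InfExp 1 (fun τ => a (infAff ℓ 0 1 τ)) (qExpand ℂ ℓ A) := infExp_comp_mul ha
  have h2 : InfExp ℓ (fun τ => ∏ b : Fin ℓ, a (infAff 1 ((b : ℕ) : ℤ) ℓ τ))
      (∏ b : Fin ℓ, infTwist (infRoot ((b : ℕ) : ℤ) ℓ) A) :=
    infExp_finset_prod Finset.univ _ _ fun b _ => infExp_comp_div ha _
  rw [prod_infTwist_eq] at h2
  have h3 := infExp_of_qExpand h2
  have h4 := h1.mul h3
  rw [kronNorm]
  refine h4.congr fun τ => ?_
  rw [heckeProd_eq]
  congr 1
  -- reindex `Fin ℓ ≃ ZMod ℓ`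
  refine Finset.prod_nbij' (fun b : Fin ℓ => ((b : ℕ) : ZMod ℓ))
    (fun j : ZMod ℓ => ⟨j.val, ZMod.val_lt j⟩) (fun _ _ => Finset.mem_univ _)
    (fun _ _ => Finset.mem_univ _) (fun b _ => ?_) (fun j _ => ?_) (fun b _ => ?_)
  · exact Fin.ext (ZMod.val_natCast_of_lt b.2)
  · exact ZMod.natCast_zmod_val j
  · rw [ZMod.val_natCast_of_lt b.2]

end Fermat.Agent.S29.H395

end

end
-- ===== PACK-END S29/H395/AnalyticKron.lean

-- ===== PACK-BEGIN S29/H222/ESKInt.lean
section
/-
S29 / helper222 — piece ESK, part 1: integral series (`S18.IsInt`) and the action of the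
decomposition group of `A` on them.
-/


set_option autoImplicit false
set_option linter.style.haveILetI false

noncomputable section

namespace Fermat.Agent.S29.H222

open ModularCurve AlgebraicCurve HahnSeries IsLocalRing
open Fermat.Agent.S18 (Qb IsInt toF CoreStatement)

variable {A : ValuationSubring Qb} {N : ℕ}

/-! ### Basic algebra of integral series -/

theorem esk_coeffMap_subtype_injective :
    Function.Injective (coeffMap A.subtype : LaurentSeries A → LaurentSeries Qb) := by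
  intro x y hxy
  ext k
  have := congrArg (fun z => z.coeff k) hxy
  simpa using this

theorem isInt_one : IsInt A N (1 : LaurentSeries A) :=
  ⟨by rw [map_one]; exact one_mem _, by rw [map_one]; exact one_mem _,
    by rw [map_one]; exact one_ne_zero⟩

theorem isInt_mul {U V : LaurentSeries A} (hU : IsInt A N U) (hV : IsInt A N V) :
    IsInt A N (U * V) :=
  ⟨by rw [map_mul]; exact mul_mem hU.1 hV.1, by rw [map_mul]; exact mul_mem hU.2.1 hV.2.1,
    by rw [map_mul]; exact mul_ne_zero hU.2.2 hV.2.2⟩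

theorem isInt_pow {U : LaurentSeries A} (hU : IsInt A N U) (n : ℕ) : IsInt A N (U ^ n) :=
  ⟨by rw [map_pow]; exact pow_mem hU.1 n, by rw [map_pow]; exact pow_mem hU.2.1 n,
    by rw [map_pow]; exact pow_ne_zero n hU.2.2⟩

theorem toF_ne_zero {U : LaurentSeries A} (hU : IsInt A N U) : toF hU ≠ 0 := by
  intro h0
  have h1 : coeffMap A.subtype U = 0 := congrArg Subtype.val h0
  have h2 : U = 0 := esk_coeffMap_subtype_injective (by rw [h1, map_zero])
  exact hU.2.2 (by rw [h2, map_zero])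

@[simp] theorem coe_toF {U : LaurentSeries A} (hU : IsInt A N U) :
    ((toF hU : modularFunctionFieldBar N) : LaurentSeries Qb) = coeffMap A.subtype U := rfl

theorem toF_mul {U V : LaurentSeries A} (hU : IsInt A N U) (hV : IsInt A N V) :
    toF (isInt_mul hU hV) = toF hU * toF hV :=
  Subtype.ext (map_mul _ _ _)

theorem toF_pow {U : LaurentSeries A} (hU : IsInt A N U) (n : ℕ) :
    toF (isInt_pow hU n) = toF hU ^ n :=
  Subtype.ext (map_pow _ _ _)

theorem toF_congr {U V : LaurentSeries A} (hU : IsInt A N U) (hV : IsInt A N V) (h : U = V) :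
    toF hU = toF hV := by
  subst h; rfl

/-! ### Coefficientwise ring homomorphisms preserve the function field in characteristic `ℓ` -/

theorem coeffMap_mem_fullC {k : Type*} [Field k] (φ : k →+* k) {x : LaurentSeries k}
    (hx : x ∈ modularFunctionFieldFullC k N) :
    coeffMap φ x ∈ modularFunctionFieldFullC k N := by
  unfold modularFunctionFieldFullC at hx
  induction hx using IntermediateField.adjoin_induction with
  | mem y hy =>
      obtain ⟨d, hne, hd, rfl⟩ := hy
      haveI := hne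
      rw [coeffMap_qExpand, coeffMap_jqModC]
      exact jqModCd_mem_full k N hd
  | algebraMap c =>
      rw [coeffMap_algebraMap]
      exact (modularFunctionFieldFullC k N).algebraMap_mem _
  | add y z _ _ hy hz => rw [map_add]; exact add_mem hy hz
  | inv y _ hy => rw [map_inv₀]; exact inv_mem hy
  | mul y z _ _ hy hz => rw [map_mul]; exact mul_mem hy hz

theorem coeffMap_ne_zero_of_injective {R S : Type*} [CommRing R] [CommRing S] (φ : R →+* S)
    (hφ : Function.Injective φ) {x : LaurentSeries R} (hx : x ≠ 0) : coeffMap φ x ≠ 0 := by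
  intro h
  apply hx
  ext n
  have hn := congrArg (fun y : LaurentSeries S => y.coeff n) h
  simp only [coeffMap_coeff, HahnSeries.coeff_zero] at hn ⊢
  exact hφ (by rw [hn, map_zero])

/-! ### The decomposition group acts on integral series -/

/-- The ring endomorphism of `A` induced by an element of the decomposition group. -/
def decA (g : A.decompositionSubgroup ℚ) : A →+* A :=
  MulSemiringAction.toRingHom (A.decompositionSubgroup ℚ) A g

@[simp] theorem coe_decA (g : A.decompositionSubgroup ℚ) (a : A) :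
    ((decA g a : A) : Qb) = (g : Qb ≃ₐ[ℚ] Qb) (a : Qb) := rfl

/-- The ring endomorphism of the residue field induced by an element of the decomposition
group. -/
def decK (g : A.decompositionSubgroup ℚ) : ResidueField A →+* ResidueField A :=
  MulSemiringAction.toRingHom (A.decompositionSubgroup ℚ) (ResidueField A) g

theorem decK_residue (g : A.decompositionSubgroup ℚ) (a : A) :
    decK g (residue A a) = residue A (decA g a) := rfl

theorem decK_injective (g : A.decompositionSubgroup ℚ) : Function.Injective (decK g) :=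
  (decK g).injective

/-- The coefficientwise action of the decomposition group on `A((q))`. -/
def galA (g : A.decompositionSubgroup ℚ) : LaurentSeries A →+* LaurentSeries A :=
  coeffMap (decA g)

theorem coeffMap_subtype_galA (g : A.decompositionSubgroup ℚ) (U : LaurentSeries A) :
    coeffMap A.subtype (galA g U)
      = coeffMap (((g : Qb ≃ₐ[ℚ] Qb)) : Qb →+* Qb) (coeffMap A.subtype U) := by
  rw [galA, coeffMap_coeffMap, coeffMap_coeffMap]
  exact coeffMap_congr (RingHom.ext fun a => rfl) U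

theorem coeffMap_residue_galA (g : A.decompositionSubgroup ℚ) (U : LaurentSeries A) :
    coeffMap (residue A) (galA g U) = coeffMap (decK g) (coeffMap (residue A) U) := by
  rw [galA, coeffMap_coeffMap, coeffMap_coeffMap]
  exact coeffMap_congr (RingHom.ext fun a => rfl) U

theorem isInt_galA (g : A.decompositionSubgroup ℚ) {U : LaurentSeries A} (hU : IsInt A N U) :
    IsInt A N (galA g U) := by
  refine ⟨?_, ?_, ?_⟩
  · rw [coeffMap_subtype_galA]
    exact coeffMap_mem_laurentBaseChange (g : Qb ≃ₐ[ℚ] Qb) hU.1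
  · rw [coeffMap_residue_galA]
    exact coeffMap_mem_fullC _ hU.2.1
  · rw [coeffMap_residue_galA]
    exact coeffMap_ne_zero_of_injective _ (decK_injective g) hU.2.2

theorem toF_galA (g : A.decompositionSubgroup ℚ) {U : LaurentSeries A} (hU : IsInt A N U) :
    toF (isInt_galA g hU)
      = arithmeticGalois (modularFunctionFieldFull N) (g : Qb ≃ₐ[ℚ] Qb) • toF hU := by
  apply Subtype.ext
  rw [coe_arithmeticGalois_smul]
  exact coeffMap_subtype_galA g U

end Fermat.Agent.S29.H222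

end
end
-- ===== PACK-END S29/H222/ESKInt.lean

-- ===== PACK-BEGIN Lib/RR/H443/LSpace.lean
section


/-!
# RR bridge (helper443), part 2: the spaces `L(D)` without `HasPrincipalDivisors`

Characteristic-free.  Under the hypotheses `Hyp K F` (all places have degree one, `F` is finite
over `K(x)` for every transcendental `x`, `K` is algebraically closed in `F`) we prove
`L(0) = K`, finite-dimensionality of `L(D)` and `ℓ(D) ≤ deg D + 1` for `D ≥ 0`, *without*
assuming that principal divisors have degree zero.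
-/

set_option autoImplicit false

noncomputable section

open AlgebraicCurve Polynomial IntermediateField
open Fermat.Agent.Lib.RR

namespace Fermat.Agent.Lib.RR.H443

variable {K F : Type*} [Field K] [Field F] [Algebra K F]

variable (K F) in
/-- Hypotheses of the bridge: a function field of one variable with constant field `K`, all of
whose places have degree one. -/
structure Hyp : Prop where
  deg_eq_one : ∀ v : Place K F, v.deg = 1
  finite : ∀ x : F, Transcendental K x → FiniteDimensional K⟮x⟯ F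
  const : ∀ f : F, IsAlgebraic K f → f ∈ (algebraMap K F).range

/-- Functions without poles are constant (no `HasPrincipalDivisors` needed). -/
theorem L_zero_eq (h : Hyp K F) :
    riemannRochSpace (0 : Divisor K F) = LinearMap.range (Algebra.linearMap K F) := by
  apply le_antisymm
  · intro f hf
    by_contra hcon
    have htr : Transcendental K f := fun halg => hcon (by
      obtain ⟨c, hc⟩ := h.const f halg
      exact ⟨c, hc⟩)
    obtain ⟨v, hv⟩ := exists_place_ord_neg h.finite htr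
    rcases mem_L_iff.mp hf v with h0 | h0
    · rw [h0, v.ord_zero] at hv
      exact lt_irrefl _ hv
    · simp only [Finsupp.coe_zero, Pi.zero_apply, neg_zero] at h0
      omega
  · rintro _ ⟨c, rfl⟩
    rw [mem_L_iff]
    intro v
    right
    simp [ord_algebraMap]

theorem finite_L_zero (h : Hyp K F) : Module.Finite K (riemannRochSpace (0 : Divisor K F)) := by
  rw [L_zero_eq h]
  infer_instance

theorem ell_zero_eq (h : Hyp K F) : ell (0 : Divisor K F) = 1 := by
  unfold ell
  rw [L_zero_eq h]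
  have hinj : Function.Injective (Algebra.linearMap K F) := (algebraMap K F).injective
  rw [LinearMap.finrank_range_of_inj hinj]
  exact Module.finrank_self K

theorem prim_le_of_pos {D : Divisor K F} (hD : 0 ≤ D) {v : Place K F} (hv : D v ≠ 0) :
    prim v ≤ D := by
  rw [Finsupp.le_def]
  intro w
  have hw0 : 0 ≤ D w := by simpa using Finsupp.le_def.mp hD w
  by_cases hw : w = v
  · subst hw
    rw [prim_apply_self]
    omega
  · rw [prim_apply_of_ne hw]
    exact hw0

/-- `L(D)` is finite-dimensional of dimension `≤ deg D + 1` for effective `D`. -/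
theorem finite_and_ell_le_of_nonneg (h : Hyp K F) :
    ∀ (n : ℕ) (D : Divisor K F), 0 ≤ D → Divisor.degree D ≤ n →
      Module.Finite K (riemannRochSpace D) ∧ (ell D : ℤ) ≤ Divisor.degree D + 1 := by
  intro n
  induction n with
  | zero =>
    intro D hD hdeg
    have hD0 : D = 0 := by
      by_contra hne
      obtain ⟨v, hv⟩ := Finsupp.support_nonempty_iff.mpr hne
      rw [Finsupp.mem_support_iff] at hv
      have := degree_mono (prim_le_of_pos hD hv)
      rw [degree_prim v (h.deg_eq_one v)] at this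
      push_cast at hdeg
      omega
    subst hD0
    refine ⟨finite_L_zero h, ?_⟩
    rw [ell_zero_eq h, map_zero]
    norm_num
  | succ n ih =>
    intro D hD hdeg
    by_cases hD0 : D = 0
    · subst hD0
      refine ⟨finite_L_zero h, ?_⟩
      rw [ell_zero_eq h, map_zero]
      norm_num
    obtain ⟨v, hv⟩ := Finsupp.support_nonempty_iff.mpr hD0
    rw [Finsupp.mem_support_iff] at hv
    have hle := prim_le_of_pos hD hv
    have hD' : 0 ≤ D - prim v := sub_nonneg.mpr hle
    have hdeg' : Divisor.degree (D - prim v) ≤ n := by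
      rw [map_sub, degree_prim v (h.deg_eq_one v)]
      push_cast at hdeg
      omega
    obtain ⟨hfin, hell⟩ := ih (D - prim v) hD' hdeg'
    have := L_add_prim_finite v (h.deg_eq_one v) (D - prim v)
    rw [sub_add_cancel] at this
    refine ⟨this.1, ?_⟩
    have h2 := this.2
    rw [map_sub, degree_prim v (h.deg_eq_one v)] at hell
    have h3 : (ell D : ℤ) ≤ (ell (D - prim v) : ℤ) + 1 := by exact_mod_cast h2
    omega

theorem finite_L_of_nonneg (h : Hyp K F) {D : Divisor K F} (hD : 0 ≤ D) :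
    Module.Finite K (riemannRochSpace D) :=
  (finite_and_ell_le_of_nonneg h (Divisor.degree D).toNat D hD (Int.self_le_toNat _)).1

theorem ell_le_of_nonneg (h : Hyp K F) {D : Divisor K F} (hD : 0 ≤ D) :
    (ell D : ℤ) ≤ Divisor.degree D + 1 :=
  (finite_and_ell_le_of_nonneg h (Divisor.degree D).toNat D hD (Int.self_le_toNat _)).2

/-- `L(D)` is finite-dimensional for every divisor `D`. -/
theorem finite_L (h : Hyp K F) (D : Divisor K F) : Module.Finite K (riemannRochSpace D) := by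
  have hle : D ≤ D ⊔ 0 := le_sup_left
  have hfin := finite_L_of_nonneg h (D := D ⊔ 0) le_sup_right
  exact Submodule.finiteDimensional_of_le (L_mono hle)

end Fermat.Agent.Lib.RR.H443

end
end
-- ===== PACK-END Lib/RR/H443/LSpace.lean

-- ===== PACK-BEGIN S18/H456/ModCoord.lean
section


/-!
# S18 / MOD assembly (helper456): `E_closed_in_F`, `x_mem`, `x_transcendental`
-/

set_option autoImplicit false

noncomputable section

namespace Fermat.Agent.S18.H456

open ModularCurve AlgebraicCurve HahnSeries Fermat.Agent.S18 Fermat.Agent.S18.Mod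

variable (M : ℕ) (A : ValuationSubring Qb) (E : IntermediateField ℚ Qb)

/-- `Q̄ ≃ Lc`. -/
def LcEquiv : Qb ≃+* Lc M :=
  RingEquiv.ofBijective (algebraMap Qb (Om M)).rangeRestrictField
    ⟨(algebraMap Qb (Om M)).rangeRestrictField.injective, fun ⟨_, c, hc⟩ => ⟨c, Subtype.ext hc⟩⟩

theorem cst_LcEquiv_symm (y : Lc M) : cst M ((LcEquiv M).symm y) = (y : Om M) := by
  have h := (LcEquiv M).apply_symm_apply y
  exact congrArg Subtype.val h

/-- An element of `Ω` which is algebraic over a field of constants is constant. -/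
theorem exists_cst_of_isAlgebraic (K₀ : Subfield (Om M)) (hK : K₀ ≤ Lc M) (f : Om M)
    (hf : IsAlgebraic K₀ f) : ∃ c : Qb, f = cst M c := by
  obtain ⟨p, hp0, hp⟩ := hf
  let ψ : K₀ →+* Qb := ((LcEquiv M).symm : Lc M →+* Qb).comp (Subfield.inclusion hK)
  have hψ : ∀ y : K₀, cst M (ψ y) = (y : Om M) := fun y =>
    cst_LcEquiv_symm M (Subfield.inclusion hK y)
  let val : Om M →+* LaurentSeries Qb := (modularFunctionFieldBar M).val.toRingHom
  have hcomp : val.comp (algebraMap K₀ (Om M)) =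
      (algebraMap Qb (LaurentSeries Qb)).comp ψ := by
    ext1 y
    show ((algebraMap K₀ (Om M) y : Om M) : LaurentSeries Qb) =
      algebraMap Qb (LaurentSeries Qb) (ψ y)
    have : (algebraMap K₀ (Om M) y : Om M) = cst M (ψ y) := (hψ y).symm
    rw [this]
    rfl
  have halg : IsAlgebraic Qb (f : LaurentSeries Qb) := by
    refine ⟨p.map ψ, (Polynomial.map_ne_zero_iff ψ.injective).2 hp0, ?_⟩
    rw [Polynomial.aeval_def, Polynomial.eval₂_map, ← hcomp]
    have h := Polynomial.hom_eval₂ p (algebraMap K₀ (Om M)) val f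
    rw [Polynomial.aeval_def] at hp
    rw [hp, map_zero] at h
    exact h.symm
  obtain ⟨c, hc⟩ := laurent_const_of_isAlgebraic _ halg
  exact ⟨c, Subtype.ext hc⟩

theorem field_E_closed_in_F : ∀ f ∈ Fc M E, IsAlgebraic (Ec M E) f → f ∈ Ec M E := by
  intro f hf halg
  obtain ⟨c, rfl⟩ := exists_cst_of_isAlgebraic M (Ec M E) (field_E_le_L M E) f halg
  have h := coeff_mem_of_mem_Fc M E hf 0
  rw [val_cst, HahnSeries.coeff_single_same] at h
  exact cst_mem_Ec M E h

/-! ### The coordinate -/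

/-- The data of an integral `q`-expansion `q⁻¹ + …` of the coordinate. -/
def HasIntExp [NeZero M] (x : Om M) : Prop :=
  ∃ X : LaurentSeries ℤ, X.coeff (-1) = 1 ∧ (∀ k : ℤ, k < -1 → X.coeff k = 0) ∧
     (x : LaurentSeries Qb) = coeffMap (Int.castRingHom Qb) X ∧
     coeffMap (Int.castRingHom ℚ) X ∈ modularFunctionFieldFull M

theorem val_jOm [NeZero M] : ((jOm M : Om M) : LaurentSeries Qb) = jqModC Qb := by
  show coeffEmb Qb (qExpand ℚ 1 jq) = _
  rw [qExpand_one_apply]
  exact coeffMap_jqModC (algebraMap ℚ Qb)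

theorem hasIntExp_jOm [NeZero M] : HasIntExp M (jOm M) := by
  refine ⟨jqModC ℤ, coeff_jqModC_neg_one ℤ, fun k hk => coeff_jqModC_of_lt ℤ hk, ?_, ?_⟩
  · rw [val_jOm, coeffMap_jqModC]
  · rw [coeffMap_jqModC]
    exact modularFunctionField_le_full M (jq_mem M)

theorem hasIntExp_of_isCoordinate [NeZero M] {ℓ : ℕ} {x : Om M} {S : Finset (Om M)}
    (hx : IsCoordinate M ℓ x S) : HasIntExp M x := by
  rcases hx with ⟨-, rfl, -⟩ | ⟨-, h⟩
  · exact hasIntExp_jOm M
  · exact h

theorem coeff_neg_one_of_hasIntExp [NeZero M] {x : Om M} (hx : HasIntExp M x) :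
    (x : LaurentSeries Qb).coeff (-1) = 1 := by
  obtain ⟨X, h1, -, h3, -⟩ := hx
  rw [h3, coeffMap_coeff, h1, map_one]

theorem coeff_of_lt_of_hasIntExp [NeZero M] {x : Om M} (hx : HasIntExp M x) {k : ℤ}
    (hk : k < -1) : (x : LaurentSeries Qb).coeff k = 0 := by
  obtain ⟨X, -, h2, h3, -⟩ := hx
  rw [h3, coeffMap_coeff, h2 k hk, map_zero]

theorem mem_Fc_of_hasIntExp [NeZero M] {x : Om M} (hx : HasIntExp M x) : x ∈ Fc M E := by
  obtain ⟨X, -, -, h3, h4⟩ := hx
  have : x = ofFull M _ h4 := by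
    apply Subtype.ext
    rw [h3]
    show _ = coeffEmb Qb (coeffMap (Int.castRingHom ℚ) X)
    rw [coeffEmb, coeffMap_coeffMap]
    exact coeffMap_congr (RingHom.ext_int _ _) X
  rw [this]
  exact ofFull_mem_Fc M E _ h4

theorem transcendental_of_hasIntExp [NeZero M] {x : Om M} (hx : HasIntExp M x) :
    Transcendental (Lc M) x := by
  intro halg
  obtain ⟨c, hc⟩ := exists_cst_of_isAlgebraic M (Lc M) le_rfl x halg
  have h := coeff_neg_one_of_hasIntExp M hx
  rw [hc, val_cst, HahnSeries.coeff_single_of_ne (by decide)] at h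
  exact zero_ne_one h

theorem field_x_mem [NeZero M] {ℓ : ℕ} {x : Om M} {S : Finset (Om M)}
    (hx : IsCoordinate M ℓ x S) : x ∈ Fc M E :=
  mem_Fc_of_hasIntExp M E (hasIntExp_of_isCoordinate M hx)

theorem field_x_transcendental [NeZero M] {ℓ : ℕ} {x : Om M} {S : Finset (Om M)}
    (hx : IsCoordinate M ℓ x S) : Transcendental (Lc M) x :=
  transcendental_of_hasIntExp M (hasIntExp_of_isCoordinate M hx)

end Fermat.Agent.S18.H456

end
end
-- ===== PACK-END S18/H456/ModCoord.lean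

-- ===== PACK-BEGIN S18/H107/T2Model.lean
section






/-!
# helper107 — S18 / M3-T : the good model for the coordinate `t₂` (case `ℓ = 3`)

`goodModel_t2_107` : from the `j`-model WITHOUT branch-set fields (`BaseModel107 … j`, true for
every `ℓ ∤ M`), the branch data of the `j`-line in characteristic `0` (`BranchJ107`), the identity
`j t² = (t + 256)³`, `2⁻¹ ∈ R`, `t ∈ Fc ∩ V` and the Gauss property of `t`, we get the frozen
`Alg.GoodModel Lc Ec Fc R V w t S` with `S = {0, -64}`.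
-/

set_option autoImplicit false

namespace Fermat.Agent.S18.H107

open Polynomial Fermat.Agent.S18.Alg

variable {Ω : Type*} [Field Ω]

theorem ne_zero_of_transcendental107 {Lc : Subfield Ω} {j : Ω} (h : Transcendental Lc j) :
    j ≠ 0 := by
  rintro rfl
  exact h isAlgebraic_zero

/-- `gauss` applied to `X + C a`. -/
theorem gauss_X_add_C107 {R V : Subring Ω} {t : Ω}
    (hgauss : ∀ P : Polynomial Ω, (∀ i, P.coeff i ∈ R) →
      (∃ i, P.coeff i ≠ 0 ∧ (P.coeff i)⁻¹ ∈ R) → (P.eval t)⁻¹ ∈ V)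
    {a : Ω} (ha : a ∈ R) : (t + a)⁻¹ ∈ V := by
  have := hgauss (X + C a) (fun i => ?_) ⟨1, ?_, ?_⟩
  · simpa using this
  · rw [coeff_add, coeff_X, coeff_C]
    split_ifs
    · exact R.add_mem R.one_mem ha
    · exact R.add_mem R.one_mem R.zero_mem
    · exact R.add_mem R.zero_mem ha
    · exact R.add_mem R.zero_mem R.zero_mem
  · simp [coeff_X]
  · simp [coeff_X, R.one_mem]

theorem gauss_X107 {R V : Subring Ω} {t : Ω}
    (hgauss : ∀ P : Polynomial Ω, (∀ i, P.coeff i ∈ R) →
      (∃ i, P.coeff i ≠ 0 ∧ (P.coeff i)⁻¹ ∈ R) → (P.eval t)⁻¹ ∈ V) : t⁻¹ ∈ V := by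
  have := gauss_X_add_C107 hgauss R.zero_mem
  rwa [add_zero] at this

theorem goodModel_t2_107 {Lc Ec Fc : Subfield Ω} {R V : Subring Ω} {w j t : Ω} {S : Finset Ω}
    (hb : BaseModel107 Lc Ec Fc R V w j) (hB : BranchJ107 Lc j)
    (hrel : j * t ^ 2 = (t + 256) ^ 3) (htF : t ∈ Fc) (htV : t ∈ V) (h2 : (2 : Ω)⁻¹ ∈ R)
    (hgauss : ∀ P : Polynomial Ω, (∀ i, P.coeff i ∈ R) →
      (∃ i, P.coeff i ≠ 0 ∧ (P.coeff i)⁻¹ ∈ R) → (P.eval t)⁻¹ ∈ V)
    (hS : ∀ s, s ∈ S ↔ s = 0 ∨ s = -64) :
    GoodModel Lc Ec Fc R V w t S := by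
  have := hb.charZero
  have hj0 : j ≠ 0 := ne_zero_of_transcendental107 hb.x_transcendental
  have hH : HauptT2107 Fc R V j t :=
    { rel := hrel
      two_inv := h2
      two_ne := two_ne_zero
      j_ne := hj0
      t_mem_Fc := htF
      t_mem_V := htV
      t256_inv_mem_V := gauss_X_add_C107 hgauss (ofNat_mem R 256) }
  have ht0 : t ≠ 0 := hH.t_ne
  have hwF : w ∈ Fc := hb.E_le_F (hb.R_le hb.w_mem)
  have htinvV : t⁻¹ ∈ V := gauss_X107 hgauss
  have h64 : (64 : Ω)⁻¹ ∈ R := by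
    have := R.pow_mem h2 6
    have e : ((2 : Ω)⁻¹) ^ 6 = (64 : Ω)⁻¹ := by norm_num
    rwa [e] at this
  -- `j ∈ Ec(t)`
  have hjrat : j ∈ ratField Ec t := by
    have e : j = (t + 256) ^ 3 * (t ^ 2)⁻¹ := by
      field_simp
      linear_combination hrel
    rw [e]
    have ht := self_mem_ratField107 Ec t
    exact mul_mem (pow_mem (add_mem ht (ofNat_mem _ 256)) 3) (inv_mem (pow_mem ht 2))
  -- transcendence of `t`
  have htr : Transcendental Lc t := by
    intro halg
    apply hb.x_transcendental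
    have e : j = (t + 256) ^ 3 * (t ^ 2)⁻¹ := by
      field_simp
      linear_combination hrel
    rw [e]
    have h256 : IsAlgebraic Lc (256 : Ω) := by
      have : (256 : Ω) = algebraMap Lc Ω (256 : Lc) := by
        rw [map_ofNat]
      rw [this]
      exact isAlgebraic_algebraMap _
    exact ((halg.add h256).pow 3).mul (halg.pow 2).inv
  refine (show BaseModel107 Lc Ec Fc R V w t from
    { charZero := hb.charZero
      R_le := hb.R_le
      R_total := hb.R_total
      w_mem := hb.w_mem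
      w_ne_zero := hb.w_ne_zero
      w_inv_not_mem := hb.w_inv_not_mem
      w_gen := hb.w_gen
      w_discrete := hb.w_discrete
      residue_perfect := hb.residue_perfect
      E_le_L := hb.E_le_L
      E_le_F := hb.E_le_F
      L_algebraic := hb.L_algebraic
      L_algClosed := hb.L_algClosed
      E_closed_in_F := hb.E_closed_in_F
      compositum := hb.compositum
      x_mem := htF
      x_transcendental := htr
      finite := finite_transfer107 hjrat hb.finite
      V_le := hb.V_le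
      V_total := hb.V_total
      R_le_V := hb.R_le_V
      w_inv_not_mem_V := hb.w_inv_not_mem_V
      V_gen := hb.V_gen
      x_mem_V := htV
      gauss := hgauss
      qep_fin := hH.qep_fin hwF hb.qep_fin hb.qep_inf
      qep_inf := hH.qep_inf hwF hb.qep_fin hb.qep_inf
      separable := separable_transfer107 (e := t ^ 2)
        (Subring.pow_mem _ (self_mem_polyRing107 R t) 2)
        (by
          rw [hrel]
          exact Subring.pow_mem _
            (Subring.add_mem _ (self_mem_polyRing107 R t) (ofNat_mem _ 256)) 3)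
        (V.pow_mem htV 2) (by rw [← inv_pow]; exact V.pow_mem htinvV 2) (pow_ne_zero _ ht0)
        hb.separable }).toGoodModel S ?_ ?_ ?_ ?_
  · intro s hs
    rcases (hS s).1 hs with rfl | rfl
    · exact R.zero_mem
    · exact R.neg_mem (ofNat_mem R 64)
  · intro s hs s' hs' hne
    rcases (hS s).1 hs with rfl | rfl <;> rcases (hS s').1 hs' with rfl | rfl
    · exact absurd rfl hne
    · have e : ((0 : Ω) - -64)⁻¹ = (64 : Ω)⁻¹ := by norm_num
      rw [e]
      exact h64
    · have e : ((-64 : Ω) - 0)⁻¹ = -(64 : Ω)⁻¹ := by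
        rw [sub_zero, inv_neg]
      rw [e]
      exact R.neg_mem h64
    · exact absurd rfl hne
  · intro s hs hs0
    rcases (hS s).1 hs with rfl | rfl
    · exact absurd rfl hs0
    · rw [inv_neg]
      exact R.neg_mem h64
  · intro O hL c hc hcS hz hz'
    have hc0 : c ≠ 0 := fun h => hcS ((hS c).2 (Or.inl h))
    have hc64 : c ≠ -64 := fun h => hcS ((hS c).2 (Or.inr h))
    exact unramified_t2_107 Lc j t hrel hB O hL c hc hc64 hc0 hz hz'

end Fermat.Agent.S18.H107

end
-- ===== PACK-END S18/H107/T2Model.lean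

-- ===== PACK-BEGIN S18/H438/Front/Finite.lean
section



/-!
# S18 / ALG-FRONT (helper438), part 6: finiteness and constants

For `G : Alg.GoodModel Lc Ec Fc R V w x S`, inside the field `Fc`:

* `GoodModelFront.isIntegral_Rf_mem_range` : `R` is integrally closed in `Fc`
  (hypothesis `hRF` of `H138.connected_special_fibre`);
* `GoodModelFront.finiteDimensional_baseField` : `Fc` is finite over `H138.baseField R x`;
* `GoodModelFront.finiteDimensional_fractionRing` / `_inv` : `Fc` is finite over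
  `FractionRing (baseRing R z)` for `z = x`, `z = x⁻¹` (hypothesis of `Front/Chart.lean`).
-/

set_option autoImplicit false
set_option linter.style.haveILetI false
set_option linter.unusedSectionVars false

noncomputable section

namespace Fermat.Agent.S18.H438

open Alg Polynomial

/-- Finite-dimensionality from a span statement inside an ambient field. -/
theorem finiteDimensional_of_span_subfield {K F Ω : Type*} [Field K] [Field F] [Field Ω]
    [Algebra K F] (ι : F →+* Ω) (E' : Subfield Ω)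
    (hE' : ∀ c ∈ E', ∃ k : K, ι (algebraMap K F k) = c)
    (s : Finset Ω) (hs : ∀ a ∈ s, ∃ f : F, ι f = a)
    (hspan : ∀ f : F, ι f ∈ Submodule.span E' (s : Set Ω)) :
    FiniteDimensional K F := by
  classical
  choose! g hg using hs
  refine (Module.finite_def (R := K) (M := F)).2 ⟨s.image g, ?_⟩
  rw [eq_top_iff]
  rintro f -
  obtain ⟨c, -, hc⟩ := Submodule.mem_span_finset.1 (hspan f)
  have hk : ∀ a : Ω, ∃ k : K, ι (algebraMap K F k) = (c a : Ω) := fun a => hE' _ (c a).2
  choose k hk using hk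
  have hf : f = ∑ a ∈ s, k a • g a := by
    apply ι.injective
    rw [← hc, map_sum]
    refine Finset.sum_congr rfl fun a ha => ?_
    have h1 : ι (k a • g a) = (c a : Ω) * a := by
      rw [Algebra.smul_def, map_mul, hk, hg a ha]
    rw [h1]
    rfl
  rw [hf]
  refine Submodule.sum_mem _ fun a ha => Submodule.smul_mem _ _ (Submodule.subset_span ?_)
  exact Finset.mem_coe.2 (Finset.mem_image_of_mem g ha)

variable {Ω : Type*} [Field Ω] {Lc Ec Fc : Subfield Ω} {R V : Subring Ω} {w x : Ω}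
  {S : Finset Ω}

namespace GoodModelFront

variable (G : GoodModel Lc Ec Fc R V w x S)

include G

/-- a subfield of `Ω` containing `R` and `x` contains `Ec(x)` -/
theorem ratField_le_of_mem (T : Subfield Ω) (hR : ∀ r ∈ R, r ∈ T) (hx : x ∈ T) :
    ratField Ec x ≤ T := by
  unfold ratField
  rw [Subfield.closure_le]
  rintro e (he | he)
  · rcases G.R_total e he with h | h
    · exact hR _ h
    · have := T.inv_mem (hR _ h)
      rwa [inv_inv] at this
  · rw [Set.mem_singleton_iff] at he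
    rw [he]
    exact hx

/-- **`Fc` is finite over any field `K → Fc` whose image contains `R` and `x`.** -/
theorem finiteDimensional_of_mem {K : Type*} [Field K] [Algebra K Fc]
    (hR : ∀ r : Rf Fc R, ∃ k : K, algebraMap K Fc k = (r : Fc))
    (hx : ∃ k : K, algebraMap K Fc k = xf G) : FiniteDimensional K Fc := by
  obtain ⟨s, hs, hspan⟩ := G.finite
  refine finiteDimensional_of_span_subfield Fc.subtype (ratField Ec x) ?_ s
    (fun a ha => ⟨⟨a, hs ha⟩, rfl⟩) (fun f => hspan f f.2)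
  have hle : ratField Ec x ≤ ((algebraMap K Fc).fieldRange).map Fc.subtype := by
    refine ratField_le_of_mem G _ (fun r hr => ?_) ?_
    · obtain ⟨k, hk⟩ := hR ⟨⟨r, R_le_Fc G hr⟩, hr⟩
      exact ⟨algebraMap K Fc k, ⟨k, rfl⟩, by rw [hk]; rfl⟩
    · obtain ⟨k, hk⟩ := hx
      exact ⟨algebraMap K Fc k, ⟨k, rfl⟩, by rw [hk]; rfl⟩
  intro c hc
  obtain ⟨f, ⟨k, rfl⟩, hf⟩ := hle hc
  exact ⟨k, hf⟩

/-- `Fc` is finite over `H138.baseField R x`. -/
theorem finiteDimensional_baseField :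
    FiniteDimensional (H138.baseField (Rf Fc R) (xf G)) Fc :=
  finiteDimensional_of_mem G
    (fun r => ⟨⟨(r : Fc), Subfield.subset_closure (Or.inl ⟨r, rfl⟩)⟩, rfl⟩)
    ⟨⟨xf G, Subfield.subset_closure (Or.inr rfl)⟩, rfl⟩

/-- `Fc` is finite over `H138.baseField R x⁻¹`. -/
theorem finiteDimensional_baseField_inv :
    FiniteDimensional (H138.baseField (Rf Fc R) (xf G)⁻¹) Fc := by
  rw [H138.baseField_inv]
  exact finiteDimensional_baseField G

section Frac

attribute [local instance] FractionRing.liftAlgebra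

/-- `Fc` is finite over `Frac (R[x])`. -/
theorem finiteDimensional_fractionRing :
    FiniteDimensional (FractionRing (baseRing (Rf Fc R) (xf G))) Fc :=
  finiteDimensional_of_mem G
    (fun r => ⟨algebraMap (baseRing (Rf Fc R) (xf G)) _
        (algebraMap (Rf Fc R) (baseRing (Rf Fc R) (xf G)) r), by
      rw [← IsScalarTower.algebraMap_apply]; rfl⟩)
    ⟨algebraMap (baseRing (Rf Fc R) (xf G)) _ ⟨xf G, self_mem_baseRing _ _⟩, by
      rw [← IsScalarTower.algebraMap_apply]; rfl⟩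

/-- `Fc` is finite over `Frac (R[x⁻¹])`. -/
theorem finiteDimensional_fractionRing_inv :
    FiniteDimensional (FractionRing (baseRing (Rf Fc R) (xf G)⁻¹)) Fc :=
  finiteDimensional_of_mem G
    (fun r => ⟨algebraMap (baseRing (Rf Fc R) (xf G)⁻¹) _
        (algebraMap (Rf Fc R) (baseRing (Rf Fc R) (xf G)⁻¹) r), by
      rw [← IsScalarTower.algebraMap_apply]; rfl⟩)
    ⟨(algebraMap (baseRing (Rf Fc R) (xf G)⁻¹) _ ⟨(xf G)⁻¹, self_mem_baseRing _ _⟩)⁻¹, by
      rw [map_inv₀, ← IsScalarTower.algebraMap_apply]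
      show ((xf G)⁻¹)⁻¹ = xf G
      rw [inv_inv]⟩

end Frac

/-- the valuation ring `R` of the field `Ec` -/
def Re : ValuationSubring Ec :=
  { R.comap Ec.subtype with
    mem_or_inv_mem' := fun e => by
      rcases G.R_total e e.2 with h | h
      · exact Or.inl h
      · exact Or.inr h }

theorem mem_Re {e : Ec} : e ∈ Re G ↔ (e : Ω) ∈ R := Iff.rfl

/-- **`R` is integrally closed in `Fc`.** -/
theorem isIntegral_Rf_mem_range (y : Fc) (hy : IsIntegral (Rf Fc R) y) :
    y ∈ Set.range (algebraMap (Rf Fc R) Fc) := by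
  obtain ⟨p, hpm, hp⟩ := hy
  -- `y` is algebraic over `Ec`, hence lies in `Ec`
  let φ : Rf Fc R →+* Ec :=
    (Fc.subtype.comp (Rf Fc R).subtype).codRestrict Ec.toSubring (fun r => G.R_le r.2)
  have hcomp : (algebraMap Ec Ω).comp φ = Fc.subtype.comp (algebraMap (Rf Fc R) Fc) := rfl
  have hφ : Function.Injective φ := by
    intro a b hab
    apply Subtype.ext
    apply Subtype.ext
    exact congrArg (fun t : Ec => (t : Ω)) hab
  have hyΩ : Polynomial.eval₂ ((algebraMap Ec Ω).comp φ) (y : Ω) p = 0 := by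
    rw [hcomp]
    have h1 := Polynomial.hom_eval₂ p (algebraMap (Rf Fc R) Fc) Fc.subtype y
    rw [hp, map_zero] at h1
    exact h1.symm
  have halg : IsAlgebraic Ec (y : Ω) := by
    refine ⟨p.map φ, (Polynomial.map_ne_zero_iff hφ).2 hpm.ne_zero, ?_⟩
    rw [Polynomial.aeval_def, Polynomial.eval₂_map]
    exact hyΩ
  have hyE : (y : Ω) ∈ Ec := G.E_closed_in_F y y.2 halg
  -- integrality over the valuation ring `Re`
  letI : Algebra (Rf Fc R) Ec := φ.toAlgebra
  have hint : IsIntegral (Rf Fc R) (⟨(y : Ω), hyE⟩ : Ec) := by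
    refine ⟨p, hpm, ?_⟩
    apply Ec.subtype_injective
    rw [Polynomial.hom_eval₂, map_zero]
    exact hyΩ
  have hmem : (⟨(y : Ω), hyE⟩ : Ec) ∈ Re G :=
    mem_valuationSubring_of_isIntegral (Re G) (fun a => a.2) hint
  exact ⟨⟨y, hmem⟩, rfl⟩

end GoodModelFront

end Fermat.Agent.S18.H438

end
end
-- ===== PACK-END S18/H438/Front/Finite.lean

-- ===== PACK-BEGIN S18/B12/H33/Core.lean
section



/-!
# S18 b2.5 (helper33): `B2CoreAbsStatement` from the assembly pieces A0, A2, A2', A3, A4, A5, A5'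
-/

set_option autoImplicit false

noncomputable section

namespace Fermat.Agent.S18.B12.H33

open Polynomial

universe u v

section Setup

variable {P : Type u} [CommRing P] [IsDomain P] [UniqueFactorizationMonoid P] [IsNoetherianRing P]
  {B : Type v} [CommRing B] [IsDomain B] [IsIntegrallyClosed B] [Algebra P B]
  [Module.Finite P B] [Module.IsTorsionFree P B]

/-- Local bases restrict to smaller ideals. -/
theorem IsLocalBasis.mono {𝔪 𝔫 : Ideal P} (h𝔫 : 𝔫 ≤ 𝔪) {n : ℕ} {x : Fin n → B}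
    (hx : IsLocalBasis P B 𝔪 n x) : IsLocalBasis P B 𝔫 n x := by
  obtain ⟨hli, g, hg, hsp⟩ := hx
  exact ⟨hli, g, fun h => hg (h𝔫 h), hsp⟩

/-- For a local basis at `𝔪 ∋ π` (prime), `π ∣ ∑ aᵢ xᵢ` in `B` forces `π ∣ aᵢ`. -/
theorem IsLocalBasis.dvd_coeff {𝔪 : Ideal P} {n : ℕ} {x : Fin n → B}
    (hx : IsLocalBasis P B 𝔪 n x) {π : P} (hπ : Prime π) (hπ𝔪 : π ∈ 𝔪)
    (a : Fin n → P) (h : (∑ i, a i • x i) ∈ Ideal.span {algebraMap P B π}) (i : Fin n) :
    π ∣ a i := by
  obtain ⟨hli, g, hg, hsp⟩ := hx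
  rw [Ideal.mem_span_singleton] at h
  obtain ⟨b, hb⟩ := h
  have hgb := hsp b
  rw [Submodule.mem_span_range_iff_exists_fun] at hgb
  obtain ⟨c, hc⟩ := hgb
  -- ∑ (g aᵢ - π cᵢ) xᵢ = 0
  have hrel : ∑ j, (g * a j - π * c j) • x j = 0 := by
    have h1 : ∑ j, (g * a j - π * c j) • x j
        = g • (∑ j, a j • x j) - π • (∑ j, c j • x j) := by
      rw [Finset.smul_sum, Finset.smul_sum, ← Finset.sum_sub_distrib]
      refine Finset.sum_congr rfl fun j _ => ?_
      rw [sub_smul, mul_smul, mul_smul]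
    rw [h1, hc, hb, Algebra.smul_def, Algebra.smul_def, Algebra.smul_def]
    ring
  have hz := Fintype.linearIndependent_iff.mp hli _ hrel i
  have hdvd : π ∣ g * a i := ⟨c i, by linear_combination hz⟩
  rcases hπ.dvd_or_dvd hdvd with h | h
  · exact absurd (Ideal.mem_of_dvd 𝔪 h hπ𝔪) hg
  · exact h

end Setup

end Fermat.Agent.S18.B12.H33

namespace Fermat.Agent.S18.B12.H33

open Polynomial

universe u v

set_option linter.unusedSectionVars false
set_option linter.unusedVariables false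

section Main

variable {P : Type u} [CommRing P] [IsDomain P] (w : P)
  {B : Type v} [CommRing B] [Algebra P B]


/-- Reduction of a radical-membership from `B` to `B/wB`. -/
theorem mk_sub_sum_mem_radical {r : ℕ} (y : Fin r → B) (q : P) (t : (P ⧸ Ideal.span {w}))
    (hqt : Associated (Ideal.Quotient.mk (Ideal.span {w}) q) t)
    (c : B) (a : Fin r → P)
    (h : c - ∑ i, a i • y i ∈ (Ideal.span {algebraMap P B w, algebraMap P B q}).radical) :
    (Ideal.Quotient.mk ((Ideal.span {w}).map (algebraMap P B)) c : (B ⧸ (Ideal.span {w}).map (algebraMap P B)))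
      - ∑ i, (Ideal.Quotient.mk (Ideal.span {w}) (a i)) •
          (Ideal.Quotient.mk ((Ideal.span {w}).map (algebraMap P B)) (y i) : (B ⧸ (Ideal.span {w}).map (algebraMap P B))) ∈
      (Ideal.span {algebraMap (P ⧸ Ideal.span {w}) (B ⧸ (Ideal.span {w}).map (algebraMap P B)) t}).radical := by
  obtain ⟨k, hk⟩ := h
  refine ⟨k, ?_⟩
  have e1 : (Ideal.Quotient.mk ((Ideal.span {w}).map (algebraMap P B)) c : (B ⧸ (Ideal.span {w}).map (algebraMap P B)))
      - ∑ i, (Ideal.Quotient.mk (Ideal.span {w}) (a i)) •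
          (Ideal.Quotient.mk ((Ideal.span {w}).map (algebraMap P B)) (y i) : (B ⧸ (Ideal.span {w}).map (algebraMap P B)))
      = Ideal.Quotient.mk ((Ideal.span {w}).map (algebraMap P B)) (c - ∑ i, a i • y i) := by
    rw [map_sub, map_sum]
    congr 1
  rw [e1, ← map_pow]
  rw [Ideal.mem_span_pair] at hk
  obtain ⟨c₁, c₂, hc⟩ := hk
  rw [← hc, map_add, map_mul, map_mul]
  have hw0 : Ideal.Quotient.mk ((Ideal.span {w}).map (algebraMap P B)) (algebraMap P B w) = 0 :=
    Ideal.Quotient.eq_zero_iff_mem.mpr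
      (Ideal.mem_map_of_mem _ (Ideal.mem_span_singleton_self w))
  rw [hw0, mul_zero, zero_add]
  have hq' : Ideal.Quotient.mk ((Ideal.span {w}).map (algebraMap P B)) (algebraMap P B q)
      = algebraMap (P ⧸ Ideal.span {w}) (B ⧸ (Ideal.span {w}).map (algebraMap P B)) (Ideal.Quotient.mk (Ideal.span {w}) q) := rfl
  rw [hq']
  obtain ⟨v, hv⟩ := hqt
  rw [Ideal.mem_span_singleton]
  refine Dvd.dvd.mul_left ?_ _
  rw [← hv, map_mul]
  exact ⟨algebraMap (P ⧸ Ideal.span {w}) (B ⧸ (Ideal.span {w}).map (algebraMap P B)) ((v⁻¹ : (P ⧸ Ideal.span {w})ˣ) : (P ⧸ Ideal.span {w})), by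
    rw [mul_assoc, ← map_mul, Units.mul_inv, map_one, mul_one]⟩

end Main

end Fermat.Agent.S18.B12.H33

end
end
-- ===== PACK-END S18/B12/H33/Core.lean

-- ===== PACK-BEGIN S30/H829/OccAdicHecke.lean
section
/-
S30 / p-adic layer (helper829) — piece OCC-adic, final form (`heckeHom` of S29/H201):
for EVERY ring homomorphism `χ : heckeAlgebra N 2 S → O` into a domain `O` (any characteristic:
`p`-adic DVRs, number rings, finite fields, ...) there is a nonzero parabolic homomorphism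
`φ : Γ₀(N) → O` with `T_ℓ φ = χ(T_ℓ) • φ` for all primes `ℓ ∤ N`, `ℓ ∉ S`.
-/



set_option autoImplicit false

open CongruenceSubgroup ModularCurve ModularCurve.Period
open scoped MatrixGroups

namespace Fermat.Agent.S30.H829

open Fermat.Agent.S29.H201

/-- The (ordered) sum in `Additive Γ₀(N)` of the transfer elements of `γ`. -/
noncomputable def trfSum {N : ℕ} (ℓ : ℕ) [Fact ℓ.Prime] (hℓN : ¬ ℓ ∣ N) (γ : Gamma0 N) :
    Additive (Gamma0 N) :=
  ((Finset.univ : Finset (OnePoint (ZMod ℓ))).toList.map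
    (fun x => Additive.ofMul (trf hℓN γ x))).sum

theorem map_trfSum {N : ℕ} (ℓ : ℕ) [Fact ℓ.Prime] (hℓN : ¬ ℓ ∣ N) {A : Type*} [AddCommGroup A]
    (ψ : Additive (Gamma0 N) →+ A) (γ : Gamma0 N) :
    ψ (trfSum ℓ hℓN γ) = heckeHom ℓ hℓN A ψ (Additive.ofMul γ) := by
  rw [heckeHom_apply, trfSum, map_list_sum, List.map_map]
  exact Finset.sum_map_toList (Finset.univ : Finset (OnePoint (ZMod ℓ)))
    (fun x => ψ (Additive.ofMul (trf hℓN γ x)))

/-- **OCC-adic.**  Every ring homomorphism from the Hecke algebra to a domain occurs as a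
Hecke eigensystem in `Hom_par(Γ₀(N), O)`. -/
theorem exists_eigen_parabolicHom_adic (N : ℕ) [NeZero N] (S : Set ℕ)
    {O : Type*} [CommRing O] [IsDomain O] (χ : CuspForm.heckeAlgebra N 2 S →+* O) :
    ∃ φ : Additive (Gamma0 N) →+ O, φ ≠ 0 ∧ IsParabolicHom (Gamma0 N) φ ∧
      ∀ (ℓ : ℕ) [Fact ℓ.Prime] (hℓ : ℓ.Prime) (hℓN : ¬ ℓ ∣ N) (hℓS : ℓ ∉ S),
        heckeHom ℓ hℓN O φ
          = (AddMonoidHom.mulLeft (χ (CuspForm.heckeAlgebra.T hℓ hℓN hℓS))).comp φ := by
  obtain ⟨φ, hφ0, hφpar, hφ⟩ := exists_eigen_parabolicHom_core N S χ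
  refine ⟨φ, hφ0, hφpar, ?_⟩
  intro ℓ _ hℓ hℓN hℓS
  ext γ
  have h := hφ (CuspForm.heckeAlgebra.T hℓ hℓN hℓS) γ (trfSum ℓ hℓN (Additive.toMul γ)) (by
    intro f
    rw [map_trfSum, CuspForm.heckeAlgebra.coe_T, periodMap_heckeTLin hℓ hℓN f]
    rfl)
  rw [map_trfSum] at h
  exact h

end Fermat.Agent.S30.H829

end
-- ===== PACK-END S30/H829/OccAdicHecke.lean

-- ===== PACK-BEGIN S21/H544/IntCSym.lean
section


/-!
# S21 INT-C (helper544): derivative of the symmetrization `sym N η`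
-/

set_option autoImplicit false

open UpperHalfPlane CongruenceSubgroup Filter Topology MeasureTheory
open scoped MatrixGroups ComplexConjugate ContDiff

namespace Fermat.Agent.S21.H544

open Fermat.Agent.S21

variable (N : ℕ) {χ₁ : ℂ → ℝ}

/-- Local finiteness of the `Γ₀(N)`-translates of the support of a test function. -/
theorem exists_finset_eventually (hχ : IsSL2ZPartition χ₁) {η : ℂ → ℝ} (hη : IsTest η)
    {z₀ : ℂ} (hz₀ : z₀ ∈ Uhp) :
    ∃ S : Finset (Gamma0 N), ∀ᶠ z in 𝓝 z₀,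
      z ∈ Uhp ∧ ∀ γ : Gamma0 N, γ ∉ S → mob (γ : SL(2, ℤ)) z ∉ tsupport η := by
  obtain ⟨r, hr, hball⟩ := Metric.isOpen_iff.mp isOpen_Uhp z₀ hz₀
  have hV : IsCompact (Metric.closedBall z₀ (r / 2)) := isCompact_closedBall _ _
  have hVU : Metric.closedBall z₀ (r / 2) ⊆ Uhp :=
    (Metric.closedBall_subset_ball (by linarith)).trans hball
  have hG := finite_mob_mem hχ _ _ hV hVU hη.2.1 hη.2.2
  have hS : {γ : Gamma0 N | (γ : SL(2, ℤ)) ∈
      {g : SL(2, ℤ) | ∃ z ∈ Metric.closedBall z₀ (r / 2), mob g z ∈ tsupport η}}.Finite :=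
    hG.preimage (Subtype.val_injective.injOn)
  refine ⟨hS.toFinset, ?_⟩
  filter_upwards [Metric.closedBall_mem_nhds z₀ (by linarith : 0 < r / 2)] with z hz
  refine ⟨hVU hz, fun γ hγ hmem => hγ ?_⟩
  rw [Set.Finite.mem_toFinset]
  exact ⟨z, hz, hmem⟩

/-- The derivative of `sym N η` is a locally finite sum. -/
theorem fderiv_sym (hχ : IsSL2ZPartition χ₁) {η : ℂ → ℝ} (hη : IsTest η)
    {z₀ : ℂ} (hz₀ : z₀ ∈ Uhp) :
    ∃ S : Finset (Gamma0 N), (∀ γ : Gamma0 N, γ ∉ S → mob (γ : SL(2, ℤ)) z₀ ∉ tsupport η) ∧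
      fderiv ℝ (sym N η) z₀ = ∑ γ ∈ S, fderiv ℝ (fun z => η (mob (γ : SL(2, ℤ)) z)) z₀ := by
  obtain ⟨S, hS⟩ := exists_finset_eventually N hχ hη hz₀
  refine ⟨S, fun γ hγ => (hS.self_of_nhds).2 γ hγ, ?_⟩
  have heq : sym N η =ᶠ[𝓝 z₀] fun z => ∑ γ ∈ S, η (mob (γ : SL(2, ℤ)) z) := by
    filter_upwards [hS] with z hz
    unfold sym
    refine finsum_eq_sum_of_support_subset _ ?_
    intro γ hγ
    by_contra hγS
    exact hz.2 γ hγS (subset_tsupport _ hγ)
  rw [heq.fderiv_eq]
  have hdiff : ∀ γ ∈ S, DifferentiableAt ℝ (fun z => η (mob ((γ : Gamma0 N) : SL(2, ℤ)) z)) z₀ :=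
    fun γ _ => ((hη.1.differentiable (by simp)).differentiableAt).comp z₀
      (differentiableAt_mob _ hz₀)
  exact fderiv_fun_sum hdiff

/-- The density of `u` against `sym N η` as a locally finite sum. -/
theorem dens_sym (hχ : IsSL2ZPartition χ₁) (u : ℂ → ℝ)
    (hinv : ∀ γ : Gamma0 N, ∀ z ∈ Uhp,
      dz u (mob (γ : SL(2, ℤ)) z) = (cd (γ : SL(2, ℤ)) z) ^ 2 * dz u z)
    {η : ℂ → ℝ} (hη : IsTest η) {z : ℂ} (hz : z ∈ Uhp) :
    ∃ S : Finset (Gamma0 N), (∀ γ : Gamma0 N, γ ∉ S → mob (γ : SL(2, ℤ)) z ∉ tsupport η) ∧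
      dens u (sym N η) z
        = ∑ γ ∈ S, dens u η (mob (γ : SL(2, ℤ)) z) / ‖cd (γ : SL(2, ℤ)) z‖ ^ 4 := by
  obtain ⟨S, hS, hfd⟩ := fderiv_sym N hχ hη hz
  refine ⟨S, hS, ?_⟩
  have h1 : dens u (sym N η) z
      = ∑ γ ∈ S, dens u (fun w => η (mob ((γ : Gamma0 N) : SL(2, ℤ)) w)) z := by
    unfold dens
    rw [hfd]
    simp only [FunLike.coe_sum, Finset.sum_apply, Finset.mul_sum]
    rw [← Finset.sum_add_distrib]
  rw [h1]
  refine Finset.sum_congr rfl fun γ _ => ?_
  exact dens_comp_mob u η _ hz ((hη.1.differentiable (by simp)).differentiableAt)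
    (hinv γ z hz)

end Fermat.Agent.S21.H544

end
-- ===== PACK-END S21/H544/IntCSym.lean

-- ===== PACK-BEGIN S36/H193/Clopen.lean
section


/-!
# S36 engine, leaf CLOPEN (helper193), part 1: gluing a generic idempotent, radical version

Setting of `S18.H138.connected_special_fibre`: `R` a noetherian domain with `R[X]` integrally
closed (a DVR), `w ∈ R` prime, `F` a field of characteristic `0`, `x ∈ F` transcendental, `F`
finite over `baseField R x`, `R` integrally closed in `F`.  The charts are the integral closures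
of `R[x]`, `R[x⁻¹]`, `R[x, x⁻¹]` in `F`.

`𝒲` is a finite set of valuation subrings of `F` (the *sheets*: the components of the special
fibre), each containing the charts and having `w` as a non-unit.  No discreteness, no
uniformiser and **no reducedness of the special fibre** is assumed: the only link between the
charts and the sheets is the *radical* `q`-expansion principle

  `QepRad 𝒲 w C` : an element of the chart `C` lying in the maximal ideal of every sheet is
                   nilpotent modulo `w C`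

(the sheets are all the components of the special fibre of `C`).  For a reduced special fibre
this is `A2.H12.RedConclusion`; at level `q²` (`q B = p_FF ∩ p_mid^(q-1) ∩ p_VV`) only the
radical form holds.

**Theorem** (`clopen_idem`).  Let `e₀ ∈ F` be `≡ 0` or `≡ 1` on every sheet.  If at every closed
point `𝔫 ∋ w` of the two charts `chart {x}`, `chart {x⁻¹}` all sheets through `𝔫` are of the same
kind, then `e₀ ≡ 0` on all sheets or `e₀ ≡ 1` on all sheets.

This is the purely topological step "a locally constant function on a connected special fibre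
is constant"; it needs no purity datum and works for any number of branches through a point.
-/

set_option autoImplicit false
set_option linter.style.haveILetI false

namespace Fermat.Agent.S36.H193

open Fermat.Agent.S18.H138

variable {R : Type*} [CommRing R] {F : Type*} [Field F] [Algebra R F]

section Nonunits

variable (W : ValuationSubring F)

theorem nu_mem {a : F} (ha : a ∈ W.nonunits) : a ∈ W := W.nonunits_subset ha

theorem nu_zero : (0 : F) ∈ W.nonunits := by
  rw [ValuationSubring.mem_nonunits_iff, map_zero]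
  exact zero_lt_one

theorem nu_add {a b : F} (ha : a ∈ W.nonunits) (hb : b ∈ W.nonunits) :
    a + b ∈ W.nonunits := by
  rw [ValuationSubring.mem_nonunits_iff] at *
  exact Valuation.map_add_lt _ ha hb

theorem nu_neg {a : F} (ha : a ∈ W.nonunits) : -a ∈ W.nonunits := by
  rw [ValuationSubring.mem_nonunits_iff] at *
  rwa [Valuation.map_neg]

theorem nu_sub {a b : F} (ha : a ∈ W.nonunits) (hb : b ∈ W.nonunits) :
    a - b ∈ W.nonunits := by
  rw [ValuationSubring.mem_nonunits_iff] at *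
  exact Valuation.map_sub_lt _ ha hb

theorem nu_mul_left {a c : F} (ha : a ∈ W.nonunits) (hc : c ∈ W) : c * a ∈ W.nonunits := by
  rw [ValuationSubring.mem_nonunits_iff] at ha ⊢
  rw [map_mul]
  have h1 : W.valuation c ≤ 1 := (W.valuation_le_one_iff c).2 hc
  calc W.valuation c * W.valuation a ≤ 1 * W.valuation a := by gcongr
    _ = W.valuation a := one_mul _
    _ < 1 := ha

theorem nu_mul_right {a c : F} (ha : a ∈ W.nonunits) (hc : c ∈ W) : a * c ∈ W.nonunits := by
  rw [mul_comm]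
  exact nu_mul_left W ha hc

theorem nu_one_not : (1 : F) ∉ W.nonunits := by
  rw [ValuationSubring.mem_nonunits_iff, map_one]
  exact lt_irrefl _

theorem nu_pow {a : F} (ha : a ∈ W.nonunits) {n : ℕ} (hn : n ≠ 0) : a ^ n ∈ W.nonunits := by
  obtain ⟨k, rfl⟩ := Nat.exists_eq_succ_of_ne_zero hn
  rw [pow_succ]
  exact nu_mul_left W ha (W.pow_mem (nu_mem W ha) k)

/-- not both kinds at once -/
theorem nu_not_both {e : F} (h0 : e ∈ W.nonunits) (h1 : 1 - e ∈ W.nonunits) : False := by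
  have := nu_add W h0 h1
  rw [add_sub_cancel] at this
  exact nu_one_not W this

/-- The lifted idempotent `1 - (1 - e ^ n) ^ n` is of the same kind as `e`. -/
theorem nu_lift_zero {e : F} (he : e ∈ W.nonunits) {n : ℕ} (hn : n ≠ 0) :
    1 - (1 - e ^ n) ^ n ∈ W.nonunits := by
  have h1 : 1 - (1 - e ^ n) ^ n = (∑ i ∈ Finset.range n, (1 - e ^ n) ^ i) * e ^ n := by
    have := geom_sum_mul_neg (1 - e ^ n) n
    rw [← this]
    ring
  rw [h1]
  refine nu_mul_left W (nu_pow W he hn) ?_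
  exact W.sum_mem fun i _ => W.pow_mem (W.sub_mem W.one_mem (W.pow_mem (nu_mem W he) n)) i

theorem nu_lift_one {e : F} (he : 1 - e ∈ W.nonunits) {n : ℕ} (hn : n ≠ 0) :
    1 - (1 - (1 - e ^ n) ^ n) ∈ W.nonunits := by
  have heW : e ∈ W := by
    have : e = 1 - (1 - e) := by ring
    rw [this]
    exact W.sub_mem W.one_mem (nu_mem W he)
  have h1 : 1 - e ^ n = (∑ i ∈ Finset.range n, e ^ i) * (1 - e) := geom_sum_mul_neg e n |>.symm
  have h2 : 1 - e ^ n ∈ W.nonunits := by
    rw [h1]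
    exact nu_mul_left W he (W.sum_mem fun i _ => W.pow_mem heW i)
  have h3 : 1 - (1 - (1 - e ^ n) ^ n) = (1 - e ^ n) ^ n := by ring
  rw [h3]
  exact nu_pow W h2 hn

end Nonunits

/-- `b` lies in the maximal ideal of every sheet. -/
def InJ (𝒲 : Set (ValuationSubring F)) (b : F) : Prop :=
  ∀ W ∈ 𝒲, b ∈ W.nonunits

/-- The sheet `W` passes through the closed point `𝔫` of the chart `C`. -/
def Through (C : Subalgebra R F) (𝔫 : Ideal C) (W : ValuationSubring F) : Prop :=
  ∀ c : C, (c : F) ∈ W.nonunits → c ∈ 𝔫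

/-- The **radical `q`-expansion principle** for the chart `C`: an element of `C` vanishing on
every sheet is nilpotent modulo `w C`. -/
def QepRad (𝒲 : Set (ValuationSubring F)) (w : R) (C : Subalgebra R F) : Prop :=
  ∀ b ∈ C, InJ 𝒲 b → ∃ N : ℕ, ∃ t ∈ C, b ^ N = algebraMap R F w * t

theorem InJ.add {𝒲 : Set (ValuationSubring F)} {a b : F} (ha : InJ 𝒲 a) (hb : InJ 𝒲 b) :
    InJ 𝒲 (a + b) := fun W hW => nu_add W (ha W hW) (hb W hW)

theorem InJ.sub {𝒲 : Set (ValuationSubring F)} {a b : F} (ha : InJ 𝒲 a) (hb : InJ 𝒲 b) :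
    InJ 𝒲 (a - b) := fun W hW => nu_sub W (ha W hW) (hb W hW)

theorem InJ.neg {𝒲 : Set (ValuationSubring F)} {a : F} (ha : InJ 𝒲 a) :
    InJ 𝒲 (-a) := fun W hW => nu_neg W (ha W hW)

theorem InJ.zero (𝒲 : Set (ValuationSubring F)) : InJ 𝒲 (0 : F) := fun W _ => nu_zero W

theorem InJ.mul_left {𝒲 : Set (ValuationSubring F)} {a c : F} (ha : InJ 𝒲 a)
    (hc : ∀ W ∈ 𝒲, c ∈ W) : InJ 𝒲 (c * a) := fun W hW => nu_mul_left W (ha W hW) (hc W hW)

/-- A reduced `q`-expansion principle is in particular a radical one. -/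
theorem QepRad.of_red {𝒲 : Set (ValuationSubring F)} {w : R} {C : Subalgebra R F}
    (h : ∀ b ∈ C, InJ 𝒲 b → ∃ t ∈ C, b = algebraMap R F w * t) : QepRad 𝒲 w C := by
  intro b hb hJ
  obtain ⟨t, ht, h1⟩ := h b hb hJ
  exact ⟨1, t, ht, by rw [pow_one, h1]⟩

section RegIdeal

/-- The *regularity ideal* of `e₀` on the chart `C`, modulo the radical: the denominators
`s ∈ C` such that `s e₀` is congruent on every sheet to an element of `C`. -/
def regIdealJ (𝒲 : Set (ValuationSubring F)) (C : Subalgebra R F)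
    (hC : ∀ W ∈ 𝒲, ∀ c ∈ C, c ∈ W) (e₀ : F) : Ideal C where
  carrier := {s | ∃ e ∈ C, InJ 𝒲 ((s : F) * e₀ - e)}
  add_mem' := by
    rintro a b ⟨e, he, h⟩ ⟨e', he', h'⟩
    refine ⟨e + e', C.add_mem he he', ?_⟩
    have : ((a + b : C) : F) * e₀ - (e + e') = ((a : F) * e₀ - e) + ((b : F) * e₀ - e') := by
      push_cast; ring
    rw [this]
    exact h.add h'
  zero_mem' := ⟨0, C.zero_mem, by simpa using InJ.zero 𝒲⟩
  smul_mem' := by
    rintro c a ⟨e, he, h⟩
    refine ⟨c * e, C.mul_mem c.2 he, ?_⟩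
    have : ((c • a : C) : F) * e₀ - c * e = (c : F) * ((a : F) * e₀ - e) := by
      rw [smul_eq_mul]; push_cast; ring
    rw [this]
    exact h.mul_left fun W hW => hC W hW c c.2

/-- A denominator outside `𝔫` vanishing on finitely many sheets that do not pass through `𝔫`. -/
theorem exists_prod_avoid {C : Subalgebra R F} (𝔫 : Ideal C) [h𝔫 : 𝔫.IsPrime]
    (𝒮 : Finset (ValuationSubring F)) (hC : ∀ W ∈ 𝒮, ∀ c ∈ C, c ∈ W)
    (h : ∀ W ∈ 𝒮, ¬ Through C 𝔫 W) :
    ∃ s : C, s ∉ 𝔫 ∧ ∀ W ∈ 𝒮, (s : F) ∈ W.nonunits := by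
  classical
  induction 𝒮 using Finset.induction_on with
  | empty =>
    refine ⟨1, ?_, by simp⟩
    intro h1
    exact h𝔫.ne_top ((Ideal.eq_top_iff_one _).2 h1)
  | insert V 𝒮 hV ih =>
    obtain ⟨s, hs, hsW⟩ := ih (fun W hW => hC W (Finset.mem_insert_of_mem hW))
      (fun W hW => h W (Finset.mem_insert_of_mem hW))
    have hVn := h V (Finset.mem_insert_self V 𝒮)
    rw [Through] at hVn
    push Not at hVn
    obtain ⟨c, hcV, hcn⟩ := hVn
    refine ⟨c * s, ?_, ?_⟩
    · intro hmem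
      rcases h𝔫.mem_or_mem hmem with h1 | h1
      · exact hcn h1
      · exact hs h1
    · intro W hW
      rw [Finset.mem_insert] at hW
      push_cast
      rcases hW with rfl | hW
      · exact nu_mul_right W hcV (hC W (Finset.mem_insert_self W 𝒮) s s.2)
      · exact nu_mul_left W (hsW W hW) (hC W (Finset.mem_insert_of_mem hW) c c.2)

/-- If `e₀` is `≡ 0` or `≡ 1` on every sheet and the sheets through any closed point `𝔫 ∋ w` of
the chart `C` are of the same kind, then `e₀` is congruent on every sheet to an element of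
`C`. -/
theorem exists_chart_rep_rad {𝒲 : Set (ValuationSubring F)} (h𝒲 : 𝒲.Finite)
    {C : Subalgebra R F} (hC : ∀ W ∈ 𝒲, ∀ c ∈ C, c ∈ W) (w : R)
    (hwW : ∀ W ∈ 𝒲, algebraMap R F w ∈ W.nonunits) {e₀ : F}
    (he₀ : ∀ W ∈ 𝒲, e₀ ∈ W.nonunits ∨ 1 - e₀ ∈ W.nonunits)
    (hloc : ∀ 𝔫 : Ideal C, 𝔫.IsMaximal → algebraMap R C w ∈ 𝔫 →
      ∀ W ∈ 𝒲, ∀ W' ∈ 𝒲, Through C 𝔫 W → Through C 𝔫 W' →
        (e₀ ∈ W.nonunits → e₀ ∈ W'.nonunits)) :
    ∃ e ∈ C, InJ 𝒲 (e₀ - e) := by
  classical
  have he₀W : ∀ W ∈ 𝒲, e₀ ∈ W := by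
    intro W hW
    rcases he₀ W hW with h | h
    · exact nu_mem W h
    · have : e₀ = 1 - (1 - e₀) := by ring
      rw [this]
      exact W.sub_mem W.one_mem (nu_mem W h)
  have hw : algebraMap R C w ∈ regIdealJ 𝒲 C hC e₀ := by
    refine ⟨0, C.zero_mem, ?_⟩
    rw [sub_zero]
    intro W hW
    exact nu_mul_right W (hwW W hW) (he₀W W hW)
  have htop : regIdealJ 𝒲 C hC e₀ = ⊤ := by
    by_contra hne
    obtain ⟨𝔫, h𝔫, hle⟩ := Ideal.exists_le_maximal _ hne
    haveI := h𝔫.isPrime
    have hw𝔫 := hle hw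
    by_cases hex : ∃ W ∈ 𝒲, Through C 𝔫 W ∧ e₀ ∈ W.nonunits
    · -- all sheets through `𝔫` are of kind `0`
      obtain ⟨W₀, hW₀, hth₀, hk₀⟩ := hex
      set 𝒮 : Finset (ValuationSubring F) :=
        h𝒲.toFinset.filter fun W => e₀ ∉ W.nonunits with h𝒮
      have h𝒮mem : ∀ W, W ∈ 𝒮 ↔ W ∈ 𝒲 ∧ e₀ ∉ W.nonunits := by
        intro W
        rw [h𝒮, Finset.mem_filter, Set.Finite.mem_toFinset]
      obtain ⟨s, hs, hsW⟩ := exists_prod_avoid 𝔫 𝒮
        (fun W hW => hC W ((h𝒮mem W).1 hW).1)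
        (fun W hW hth => ((h𝒮mem W).1 hW).2
          (hloc 𝔫 h𝔫 hw𝔫 W₀ hW₀ W ((h𝒮mem W).1 hW).1 hth₀ hth hk₀))
      refine hs (hle ⟨0, C.zero_mem, ?_⟩)
      rw [sub_zero]
      intro W hW
      by_cases hk : e₀ ∈ W.nonunits
      · exact nu_mul_left W hk (hC W hW s s.2)
      · exact nu_mul_right W (hsW W ((h𝒮mem W).2 ⟨hW, hk⟩)) (he₀W W hW)
    · -- all sheets through `𝔫` are of kind `1`
      push Not at hex
      set 𝒮 : Finset (ValuationSubring F) :=
        h𝒲.toFinset.filter fun W => e₀ ∈ W.nonunits with h𝒮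
      have h𝒮mem : ∀ W, W ∈ 𝒮 ↔ W ∈ 𝒲 ∧ e₀ ∈ W.nonunits := by
        intro W
        rw [h𝒮, Finset.mem_filter, Set.Finite.mem_toFinset]
      obtain ⟨s, hs, hsW⟩ := exists_prod_avoid 𝔫 𝒮
        (fun W hW => hC W ((h𝒮mem W).1 hW).1)
        (fun W hW hth => hex W ((h𝒮mem W).1 hW).1 hth ((h𝒮mem W).1 hW).2)
      refine hs (hle ⟨s, s.2, ?_⟩)
      intro W hW
      have hsW' : (s : F) ∈ W := hC W hW s s.2
      by_cases hk : e₀ ∈ W.nonunits
      · have h1 := hsW W ((h𝒮mem W).2 ⟨hW, hk⟩)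
        exact nu_sub W (nu_mul_right W h1 (he₀W W hW)) h1
      · have h1 : 1 - e₀ ∈ W.nonunits := (he₀ W hW).resolve_left hk
        have : (s : F) * e₀ - s = -((s : F) * (1 - e₀)) := by ring
        rw [this]
        exact nu_neg W (nu_mul_left W h1 hsW')
  have h1 : (1 : C) ∈ regIdealJ 𝒲 C hC e₀ := by rw [htop]; trivial
  obtain ⟨e, he, h⟩ := h1
  refine ⟨e, he, ?_⟩
  simpa using h

end RegIdeal

section Lift

variable {A : Type*} [CommRing A]

/-- Lifting idempotents modulo a nilpotent: if `(e² - e) ^ n ∈ w A` then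
`E = 1 - (1 - e ^ n) ^ n` is idempotent modulo `w A`. -/
theorem exists_idem_lift (w e : A) (n : ℕ) (h : ∃ t, (e ^ 2 - e) ^ n = w * t) :
    ∃ t, (1 - (1 - e ^ n) ^ n) ^ 2 - (1 - (1 - e ^ n) ^ n) = w * t := by
  set I : Ideal A := Ideal.span {w} with hI
  have h0 : (Ideal.Quotient.mk I e - Ideal.Quotient.mk I e ^ 2) ^ n = 0 := by
    rw [← map_pow, ← map_sub, ← map_pow, Ideal.Quotient.eq_zero_iff_mem]
    obtain ⟨t, ht⟩ := h
    have : (e - e ^ 2) ^ n = (-1) ^ n * (e ^ 2 - e) ^ n := by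
      rw [← mul_pow]; congr 1; ring
    rw [this, ht, hI]
    refine Ideal.mem_span_singleton'.2 ⟨(-1) ^ n * t, by ring⟩
  have h1 := isIdempotentElem_one_sub_one_sub_pow_pow (Ideal.Quotient.mk I e) n h0
  have h2 : Ideal.Quotient.mk I ((1 - (1 - e ^ n) ^ n) ^ 2 - (1 - (1 - e ^ n) ^ n)) = 0 := by
    have h3 : Ideal.Quotient.mk I (1 - (1 - e ^ n) ^ n) =
        1 - (1 - Ideal.Quotient.mk I e ^ n) ^ n := by
      simp only [map_sub, map_one, map_pow]
    rw [map_sub, map_pow, h3, sub_eq_zero, pow_two]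
    exact h1
  rw [Ideal.Quotient.eq_zero_iff_mem, hI] at h2
  obtain ⟨t, ht⟩ := Ideal.mem_span_singleton'.1 h2
  exact ⟨t, by rw [← ht, mul_comm]⟩

/-- Two idempotents modulo `w A` whose difference is nilpotent modulo `w A` are congruent. -/
theorem idem_congr_of_nilpotent (w a b : A) (ha : ∃ t, a ^ 2 - a = w * t)
    (hb : ∃ t, b ^ 2 - b = w * t) (n : ℕ) (h : ∃ t, (a - b) ^ n = w * t) :
    ∃ t, a - b = w * t := by
  set I : Ideal A := Ideal.span {w} with hI
  have hmem : ∀ c : A, (∃ t, c = w * t) → Ideal.Quotient.mk I c = 0 := by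
    rintro c ⟨t, rfl⟩
    rw [Ideal.Quotient.eq_zero_iff_mem, hI]
    exact Ideal.mem_span_singleton'.2 ⟨t, by ring⟩
  have ha' : IsIdempotentElem (Ideal.Quotient.mk I a) := by
    have := hmem _ ha
    rw [map_sub, map_pow, sub_eq_zero, pow_two] at this
    exact this
  have hb' : IsIdempotentElem (Ideal.Quotient.mk I b) := by
    have := hmem _ hb
    rw [map_sub, map_pow, sub_eq_zero, pow_two] at this
    exact this
  have hn : IsNilpotent (Ideal.Quotient.mk I a - Ideal.Quotient.mk I b) := by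
    refine ⟨n, ?_⟩
    rw [← map_sub, ← map_pow]
    exact hmem _ h
  have heq := eq_of_isNilpotent_sub_of_isIdempotentElem ha' hb' hn
  have h2 : Ideal.Quotient.mk I (a - b) = 0 := by
    rw [map_sub, heq, sub_self]
  rw [Ideal.Quotient.eq_zero_iff_mem, hI] at h2
  obtain ⟨t, ht⟩ := Ideal.mem_span_singleton'.1 h2
  exact ⟨t, by rw [← ht, mul_comm]⟩

end Lift

section Sub

/-- `exists_idem_lift` inside a subalgebra of `F`. -/
theorem exists_idem_lift_sub (C : Subalgebra R F) (w : R) {e : F} (he : e ∈ C) (n : ℕ)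
    (h : ∃ t ∈ C, (e ^ 2 - e) ^ n = algebraMap R F w * t) :
    ∃ t ∈ C, (1 - (1 - e ^ n) ^ n) ^ 2 - (1 - (1 - e ^ n) ^ n) = algebraMap R F w * t := by
  obtain ⟨t, ht, h1⟩ := h
  obtain ⟨t', ht'⟩ := exists_idem_lift (algebraMap R C w) (⟨e, he⟩ : C) n
    ⟨⟨t, ht⟩, Subtype.ext (by push_cast; exact h1)⟩
  refine ⟨t', t'.2, ?_⟩
  have := congrArg (fun c : C => (c : F)) ht'
  simpa using this

/-- `idem_congr_of_nilpotent` inside a subalgebra of `F`. -/
theorem idem_congr_of_nilpotent_sub (C : Subalgebra R F) (w : R) {a b : F} (ha : a ∈ C)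
    (hb : b ∈ C) (hia : ∃ t ∈ C, a ^ 2 - a = algebraMap R F w * t)
    (hib : ∃ t ∈ C, b ^ 2 - b = algebraMap R F w * t) (n : ℕ)
    (h : ∃ t ∈ C, (a - b) ^ n = algebraMap R F w * t) :
    ∃ t ∈ C, a - b = algebraMap R F w * t := by
  obtain ⟨t₁, ht₁, h1⟩ := hia
  obtain ⟨t₂, ht₂, h2⟩ := hib
  obtain ⟨t₃, ht₃, h3⟩ := h
  obtain ⟨t', ht'⟩ := idem_congr_of_nilpotent (algebraMap R C w) (⟨a, ha⟩ : C) (⟨b, hb⟩ : C)
    ⟨⟨t₁, ht₁⟩, Subtype.ext (by push_cast; exact h1)⟩
    ⟨⟨t₂, ht₂⟩, Subtype.ext (by push_cast; exact h2)⟩ n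
    ⟨⟨t₃, ht₃⟩, Subtype.ext (by push_cast; exact h3)⟩
  refine ⟨t', t'.2, ?_⟩
  have := congrArg (fun c : C => (c : F)) ht'
  simpa using this

end Sub

section Main

variable [IsNoetherianRing R] [IsIntegrallyClosed (Polynomial R)] [CharZero F]

/-- **CLOPEN, idempotent form.**  A function on the sheets of the special fibre with values in
`{0, 1}`, induced by an element `e₀` of `F`, which is constant on the sheets through every closed
point of the two charts, is constant.  The special fibre may be non-reduced (`QepRad`). -/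
theorem clopen_idem
    (hinjR : Function.Injective (algebraMap R F))
    (hRF : ∀ y : F, IsIntegral R y → y ∈ Set.range (algebraMap R F))
    {x : F} (hx : Transcendental R x) [FiniteDimensional (baseField R x) F]
    (w : R) (hw : Prime w)
    {𝒲 : Set (ValuationSubring F)} (h𝒲 : 𝒲.Finite)
    (hmid : ∀ W ∈ 𝒲, ∀ c ∈ chart R ({x, x⁻¹} : Set F), c ∈ W)
    (hwW : ∀ W ∈ 𝒲, algebraMap R F w ∈ W.nonunits)
    (qep_fin : QepRad 𝒲 w (chart R ({x} : Set F)))
    (qep_inf : QepRad 𝒲 w (chart R ({x⁻¹} : Set F)))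
    (qep_mid : QepRad 𝒲 w (chart R ({x, x⁻¹} : Set F)))
    {e₀ : F} (he₀ : ∀ W ∈ 𝒲, e₀ ∈ W.nonunits ∨ 1 - e₀ ∈ W.nonunits)
    (hloc_fin : ∀ 𝔫 : Ideal (chart R ({x} : Set F)), 𝔫.IsMaximal →
      algebraMap R (chart R ({x} : Set F)) w ∈ 𝔫 →
      ∀ W ∈ 𝒲, ∀ W' ∈ 𝒲, Through _ 𝔫 W → Through _ 𝔫 W' →
        (e₀ ∈ W.nonunits → e₀ ∈ W'.nonunits))
    (hloc_inf : ∀ 𝔫 : Ideal (chart R ({x⁻¹} : Set F)), 𝔫.IsMaximal →
      algebraMap R (chart R ({x⁻¹} : Set F)) w ∈ 𝔫 →
      ∀ W ∈ 𝒲, ∀ W' ∈ 𝒲, Through _ 𝔫 W → Through _ 𝔫 W' →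
        (e₀ ∈ W.nonunits → e₀ ∈ W'.nonunits)) :
    InJ 𝒲 e₀ ∨ InJ 𝒲 (1 - e₀) := by
  have hfm : chart R ({x} : Set F) ≤ chart R ({x, x⁻¹} : Set F) := chart_mono (by simp)
  have him : chart R ({x⁻¹} : Set F) ≤ chart R ({x, x⁻¹} : Set F) := chart_mono (by simp)
  have hfin : ∀ W ∈ 𝒲, ∀ c ∈ chart R ({x} : Set F), c ∈ W :=
    fun W hW c hc => hmid W hW c (hfm hc)
  have hinf : ∀ W ∈ 𝒲, ∀ c ∈ chart R ({x⁻¹} : Set F), c ∈ W :=
    fun W hW c hc => hmid W hW c (him hc)
  obtain ⟨e₁, he₁, h₁⟩ := exists_chart_rep_rad h𝒲 hfin w hwW he₀ hloc_fin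
  obtain ⟨e₂, he₂, h₂⟩ := exists_chart_rep_rad h𝒲 hinf w hwW he₀ hloc_inf
  -- kinds of `e₁`, `e₂`
  have hk0 : ∀ {e : F}, InJ 𝒲 (e₀ - e) → ∀ W ∈ 𝒲, e₀ ∈ W.nonunits → e ∈ W.nonunits := by
    intro e he W hW h0
    have : e = e₀ - (e₀ - e) := by ring
    rw [this]
    exact nu_sub W h0 (he W hW)
  have hk1 : ∀ {e : F}, InJ 𝒲 (e₀ - e) → ∀ W ∈ 𝒲, 1 - e₀ ∈ W.nonunits →
      1 - e ∈ W.nonunits := by
    intro e he W hW h0
    have : 1 - e = (1 - e₀) + (e₀ - e) := by ring
    rw [this]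
    exact nu_add W h0 (he W hW)
  have hsq : ∀ {C : Subalgebra R F}, (∀ W ∈ 𝒲, ∀ c ∈ C, c ∈ W) → ∀ {e : F}, e ∈ C →
      InJ 𝒲 (e₀ - e) → InJ 𝒲 (e ^ 2 - e) := by
    intro C hC e heC he W hW
    have heW : e ∈ W := hC W hW e heC
    rcases he₀ W hW with h | h
    · have : e ^ 2 - e = (e - 1) * e := by ring
      rw [this]
      exact nu_mul_left W (hk0 he W hW h) (W.sub_mem heW W.one_mem)
    · have : e ^ 2 - e = -(e * (1 - e)) := by ring
      rw [this]
      exact nu_neg W (nu_mul_left W (hk1 he W hW h) heW)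
  -- nilpotency exponents
  obtain ⟨N₁, t₁, ht₁, hN₁⟩ := qep_fin _ (Subalgebra.sub_mem _ (Subalgebra.pow_mem _ he₁ 2) he₁)
    (hsq hfin he₁ h₁)
  obtain ⟨N₂, t₂, ht₂, hN₂⟩ := qep_inf _ (Subalgebra.sub_mem _ (Subalgebra.pow_mem _ he₂ 2) he₂)
    (hsq hinf he₂ h₂)
  set n₁ := N₁ + 1 with hn₁
  set n₂ := N₂ + 1 with hn₂
  set E₁ : F := 1 - (1 - e₁ ^ n₁) ^ n₁ with hE₁
  set E₂ : F := 1 - (1 - e₂ ^ n₂) ^ n₂ with hE₂
  have hE₁C : E₁ ∈ chart R ({x} : Set F) :=
    Subalgebra.sub_mem _ (Subalgebra.one_mem _) (Subalgebra.pow_mem _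
      (Subalgebra.sub_mem _ (Subalgebra.one_mem _) (Subalgebra.pow_mem _ he₁ _)) _)
  have hE₂C : E₂ ∈ chart R ({x⁻¹} : Set F) :=
    Subalgebra.sub_mem _ (Subalgebra.one_mem _) (Subalgebra.pow_mem _
      (Subalgebra.sub_mem _ (Subalgebra.one_mem _) (Subalgebra.pow_mem _ he₂ _)) _)
  have hi₁ : ∃ t ∈ chart R ({x} : Set F), E₁ ^ 2 - E₁ = algebraMap R F w * t := by
    refine exists_idem_lift_sub _ w he₁ n₁ ⟨t₁ * (e₁ ^ 2 - e₁), ?_, ?_⟩
    · exact Subalgebra.mul_mem _ ht₁
        (Subalgebra.sub_mem _ (Subalgebra.pow_mem _ he₁ 2) he₁)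
    · rw [hn₁, pow_succ, hN₁]; ring
  have hi₂ : ∃ t ∈ chart R ({x⁻¹} : Set F), E₂ ^ 2 - E₂ = algebraMap R F w * t := by
    refine exists_idem_lift_sub _ w he₂ n₂ ⟨t₂ * (e₂ ^ 2 - e₂), ?_, ?_⟩
    · exact Subalgebra.mul_mem _ ht₂
        (Subalgebra.sub_mem _ (Subalgebra.pow_mem _ he₂ 2) he₂)
    · rw [hn₂, pow_succ, hN₂]; ring
  -- kinds of `E₁`, `E₂`
  have hE₁0 : ∀ W ∈ 𝒲, e₀ ∈ W.nonunits → E₁ ∈ W.nonunits := fun W hW h =>
    nu_lift_zero W (hk0 h₁ W hW h) (Nat.succ_ne_zero _)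
  have hE₁1 : ∀ W ∈ 𝒲, 1 - e₀ ∈ W.nonunits → 1 - E₁ ∈ W.nonunits := fun W hW h =>
    nu_lift_one W (hk1 h₁ W hW h) (Nat.succ_ne_zero _)
  have hE₂0 : ∀ W ∈ 𝒲, e₀ ∈ W.nonunits → E₂ ∈ W.nonunits := fun W hW h =>
    nu_lift_zero W (hk0 h₂ W hW h) (Nat.succ_ne_zero _)
  have hE₂1 : ∀ W ∈ 𝒲, 1 - e₀ ∈ W.nonunits → 1 - E₂ ∈ W.nonunits := fun W hW h =>
    nu_lift_one W (hk1 h₂ W hW h) (Nat.succ_ne_zero _)
  have hdJ : InJ 𝒲 (E₁ - E₂) := by
    intro W hW
    rcases he₀ W hW with h | h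
    · exact nu_sub W (hE₁0 W hW h) (hE₂0 W hW h)
    · have : E₁ - E₂ = (1 - E₂) - (1 - E₁) := by ring
      rw [this]
      exact nu_sub W (hE₂1 W hW h) (hE₁1 W hW h)
  obtain ⟨M, t₃, ht₃, hM⟩ := qep_mid _ (Subalgebra.sub_mem _ (hfm hE₁C) (him hE₂C)) hdJ
  have h₁₂ : ∃ t ∈ chart R ({x, x⁻¹} : Set F), E₁ - E₂ = algebraMap R F w * t := by
    refine idem_congr_of_nilpotent_sub _ w (hfm hE₁C) (him hE₂C) ?_ ?_ M ⟨t₃, ht₃, hM⟩
    · obtain ⟨t, ht, h⟩ := hi₁
      exact ⟨t, hfm ht, h⟩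
    · obtain ⟨t, ht, h⟩ := hi₂
      exact ⟨t, him ht, h⟩
  rcases connected_special_fibre hinjR hRF hx w hw E₁ E₂ hE₁C hE₂C hi₁ hi₂ h₁₂ with
    ⟨⟨t, ht, h⟩, _⟩ | ⟨⟨t, ht, h⟩, _⟩
  · left
    intro W hW
    have hE : E₁ ∈ W.nonunits := by
      rw [h]
      exact nu_mul_right W (hwW W hW) (hfin W hW t ht)
    rcases he₀ W hW with h0 | h1
    · exact h0
    · exact (nu_not_both W hE (hE₁1 W hW h1)).elim
  · right
    intro W hW
    have hE : 1 - E₁ ∈ W.nonunits := by
      rw [h]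
      exact nu_mul_right W (hwW W hW) (hfin W hW t ht)
    rcases he₀ W hW with h0 | h1
    · exact (nu_not_both W (hE₁0 W hW h0) hE).elim
    · exact h1

end Main

end Fermat.Agent.S36.H193

end
-- ===== PACK-END S36/H193/Clopen.lean

-- ===== PACK-BEGIN S36/H153/ChartMap.lean
section


/-!
# S36 engine, cell INCIDENCE (helper153) — field homomorphisms map charts to charts

`map_mem_chart` : if `α : F' → F` is `R`-linear and maps the generators `S'` into `chart R S`,
then `α (chart R S') ⊆ chart R S`.  (Mathlib + `S18.H138.Charts` only.)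
-/

set_option autoImplicit false
set_option linter.style.haveILetI false
set_option linter.unusedSectionVars false

namespace Fermat.Agent.S36.H153

open Fermat.Agent.S18.H138 (chart)

section

variable {R F F' : Type*} [CommRing R] [Field F] [Algebra R F] [Field F'] [Algebra R F']

theorem map_mem_chart (α : F' →+* F) (hα : ∀ r : R, α (algebraMap R F' r) = algebraMap R F r)
    (S' : Set F') (S : Set F) (hS : ∀ s ∈ S', α s ∈ chart R S) :
    ∀ b ∈ chart R S', α b ∈ chart R S := by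
  have hadj : ∀ a ∈ Algebra.adjoin R S', α a ∈ chart R S := by
    intro a ha
    induction ha using Algebra.adjoin_induction with
    | mem y hy => exact hS y hy
    | algebraMap r => rw [hα]; exact Subalgebra.algebraMap_mem _ r
    | add y z _ _ hy hz => rw [map_add]; exact Subalgebra.add_mem _ hy hz
    | mul y z _ _ hy hz => rw [map_mul]; exact Subalgebra.mul_mem _ hy hz
  intro b hb
  rw [Fermat.Agent.S18.H138.mem_chart] at hb
  obtain ⟨p, hp, hpb⟩ := hb
  apply chart_closed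
  refine ⟨p.map ((α.comp (Algebra.adjoin R S').val.toRingHom).codRestrict (chart R S)
    (fun a => hadj a a.2)), hp.map _, ?_⟩
  rw [Polynomial.eval₂_map]
  have h1 := Polynomial.hom_eval₂ p (algebraMap (Algebra.adjoin R S') F') α b
  rw [hpb, map_zero] at h1
  rw [h1]
  rfl

/-- Special case: one generator. -/
theorem map_mem_chart_singleton (α : F' →+* F)
    (hα : ∀ r : R, α (algebraMap R F' r) = algebraMap R F r) (y : F') (S : Set F)
    (hy : α y ∈ chart R S) : ∀ b ∈ chart R ({y} : Set F'), α b ∈ chart R S :=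
  map_mem_chart α hα _ S (fun s hs => by rw [Set.mem_singleton_iff.mp hs]; exact hy)

end

end Fermat.Agent.S36.H153

end
-- ===== PACK-END S36/H153/ChartMap.lean

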