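import Mathlib
import Fermat.Prelude.Def_EllipticCurve_FrobeniusTrace
import Mathlib.Analysis.Complex.UpperHalfPlane.MoebiusAction
import Mathlib.NumberTheory.ModularForms.CongruenceSubgroups
import Mathlib.NumberTheory.ModularForms.CuspFormSubmodule
import Fermat.Agent.Pack.S36.E9L3
import Fermat.Agent.Pack.S36.E0L1
import Fermat.Agent.Pack.S36.E9L2
import Fermat.Agent.Pack.S36.E9L0
import Fermat.Agent.Pack.S36.E9L1
import Fermat.Agent.Pack.S36.E4L1
import Fermat.Agent.Pack.S36.E7L0
import Fermat.Agent.Pack.S36.E10L1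
import Fermat.Agent.Pack.S36.E5L3
import Fermat.Agent.Pack.S36.E1L1
import Fermat.Agent.Pack.S36.E8L1
import Fermat.Agent.Pack.S36.E10L2
import Fermat.Agent.Pack.S36.E10L3
import Fermat.Agent.Pack.S36.E2L3
import Fermat.Agent.Pack.S36.E6L1
import Fermat.Agent.Pack.S36.E4L3

-- ===== PACK-BEGIN S30/H990/TwoDim1.lean
section
/-
S30 top glue (helper990): pure algebra, part 6: the rank one case and the conclusion of the
extraction.
-/


set_option autoImplicit false

namespace Fermat.Agent.S30.H990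

open Module Polynomial

section PiCong

variable {𝒪 : Type} [CommRing 𝒪]

/-- A vector with all coordinates in `I` lies in `I • ⊤`. -/
theorem pi_mem_smul_top (I : Ideal 𝒪) (y : Fin 2 → 𝒪) (hy : ∀ i, y i ∈ I) :
    y ∈ I • (⊤ : Submodule 𝒪 (Fin 2 → 𝒪)) := by
  classical
  rw [pi_eq_sum_univ' y]
  refine Submodule.sum_mem _ (fun i _ => ?_)
  exact Submodule.smul_mem_smul (hy i) Submodule.mem_top

end PiCong

section Constructions

variable {𝒪 M G : Type} [CommRing 𝒪] [IsDomain 𝒪] [IsPrincipalIdealRing 𝒪]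
  [AddCommGroup M] [Module 𝒪 M] [Module.Free 𝒪 M] [Module.Finite 𝒪 M] [Group G]
  (ρ : G →* Module.End 𝒪 M) (d : G →* 𝒪ˣ)

/-- The rank one case. -/
theorem twoDim_of_rank_one (v : M) (hv0 : v ≠ 0)
    (hsv : ∀ g, ∃ r : 𝒪, r ≠ 0 ∧ r • ρ g v ∈ Submodule.span 𝒪 {v}) :
    Nonempty (TwoDimOut ρ d) := by
  classical
  have hli : LinearIndependent 𝒪 (fun _ : Fin 1 => v) := by
    rw [linearIndependent_unique_iff]
    exact hv0
  have hrange : Set.range (fun _ : Fin 1 => v) = ({v} : Set M) := Set.range_const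
  set Λ : Submodule 𝒪 M := sat (Submodule.span 𝒪 ({v} : Set M)) with hΛ
  have hfr : Module.finrank 𝒪 Λ = 1 := by
    have := finrank_sat_span (fun _ : Fin 1 => v) hli
    rwa [hrange] at this
  have hstab : ∀ g, ∀ x ∈ Λ, ρ g x ∈ Λ := by
    apply sat_span_stable
    intro g x hx
    rw [Set.mem_singleton_iff] at hx
    subst hx
    exact hsv g
  have hvΛ : v ∈ Λ := le_sat _ (Submodule.subset_span (by simp))
  set ρΛ := restrictRep ρ Λ hstab with hρΛ
  -- the character
  let ψ : G →* 𝒪ˣ := (LinearMap.det.comp ρΛ).toHomUnits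
  have hψ : ∀ g (x : Λ), ρΛ g x = ((ψ g : 𝒪ˣ) : 𝒪) • x := fun g x =>
    apply_eq_det_smul hfr (ρΛ g) x
  have hψrel : ∀ g a, Rel ρ d g a →
      ((ψ g : 𝒪ˣ) : 𝒪) * ((ψ g : 𝒪ˣ) : 𝒪) - a * ((ψ g : 𝒪ˣ) : 𝒪) + ((d g : 𝒪ˣ) : 𝒪) = 0 := by
    intro g a hr
    have h1 := rel_apply ρΛ d (rel_restrictRep ρ d Λ hstab hr) ⟨v, hvΛ⟩
    rw [hψ g ⟨v, hvΛ⟩, map_smul, hψ g ⟨v, hvΛ⟩] at h1
    have h2 : (((ψ g : 𝒪ˣ) : 𝒪) * ((ψ g : 𝒪ˣ) : 𝒪) - a * ((ψ g : 𝒪ˣ) : 𝒪) + ((d g : 𝒪ˣ) : 𝒪))
        • (⟨v, hvΛ⟩ : Λ) = 0 := by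
      rw [← h1]
      module
    have hne : (⟨v, hvΛ⟩ : Λ) ≠ 0 := fun h => hv0 (congrArg Subtype.val h)
    exact (smul_eq_zero.mp h2).resolve_right hne
  -- the diagonal representation
  let δ : G →* (Fin 2 → 𝒪) :=
    { toFun := fun g => ![((ψ g : 𝒪ˣ) : 𝒪), ((d g * (ψ g)⁻¹ : 𝒪ˣ) : 𝒪)]
      map_one' := by
        ext i
        fin_cases i <;> simp
      map_mul' := fun g h => by
        ext i
        fin_cases i
        · simp
        · simp only [map_mul, mul_inv_rev, Units.val_mul, Fin.mk_one, Fin.isValue, Pi.mul_apply,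
            Matrix.cons_val_one, Matrix.cons_val_zero]
          ring }
  let A : G →* Matrix (Fin 2) (Fin 2) 𝒪 :=
    ((Matrix.diagonalRingHom (Fin 2) 𝒪 : (Fin 2 → 𝒪) →+* Matrix (Fin 2) (Fin 2) 𝒪) :
      (Fin 2 → 𝒪) →* Matrix (Fin 2) (Fin 2) 𝒪).comp δ
  let ρ₂ : G →* Module.End 𝒪 (Fin 2 → 𝒪) :=
    ((Matrix.toLinAlgEquiv' : Matrix (Fin 2) (Fin 2) 𝒪 ≃ₐ[𝒪] Module.End 𝒪 (Fin 2 → 𝒪)) :
      Matrix (Fin 2) (Fin 2) 𝒪 →* Module.End 𝒪 (Fin 2 → 𝒪)).comp A
  have hρ₂ : ∀ g, ρ₂ g = Matrix.toLin' (Matrix.diagonal (δ g)) := fun g => rfl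
  have hδ0 : ∀ g, δ g 0 = ((ψ g : 𝒪ˣ) : 𝒪) := fun g => rfl
  have hδ1 : ∀ g, δ g 1 = ((d g * (ψ g)⁻¹ : 𝒪ˣ) : 𝒪) := fun g => rfl
  refine ⟨{ V := Fin 2 → 𝒪
            finrank_eq := by simp
            ρ₂ := ρ₂
            charpoly_eq := ?_
            cong := ?_ }⟩
  · intro g a hr
    rw [hρ₂, Matrix.charpoly_toLin', Matrix.charpoly_fin_two, Matrix.trace_diagonal,
      Matrix.det_diagonal, Fin.sum_univ_two, Fin.prod_univ_two, hδ0, hδ1]
    have h := hψrel g a hr
    have hinv : ((ψ g : 𝒪ˣ) : 𝒪) * (((ψ g)⁻¹ : 𝒪ˣ) : 𝒪) = 1 := by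
      rw [← Units.val_mul, mul_inv_cancel, Units.val_one]
    have ha : ((ψ g : 𝒪ˣ) : 𝒪) + ((d g * (ψ g)⁻¹ : 𝒪ˣ) : 𝒪) = a := by
      rw [Units.val_mul]
      linear_combination (((ψ g)⁻¹ : 𝒪ˣ) : 𝒪) * h + (a - ((ψ g : 𝒪ˣ) : 𝒪)) * hinv
    have hd : ((ψ g : 𝒪ˣ) : 𝒪) * ((d g * (ψ g)⁻¹ : 𝒪ˣ) : 𝒪) = ((d g : 𝒪ˣ) : 𝒪) := by
      rw [Units.val_mul]
      linear_combination ((d g : 𝒪ˣ) : 𝒪) * hinv
    rw [ha, hd]
  · intro I g hg hdg x
    -- `ψ g - 1 ∈ I`
    have hψI : ((ψ g : 𝒪ˣ) : 𝒪) - 1 ∈ I := by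
      apply mem_of_smul_basis_mem hfr I
      intro y
      have hmem : ((ρΛ g y - y : Λ) : M) ∈ I • (⊤ : Submodule 𝒪 M) := hg (y : M)
      have := mem_smul_top_sat _ I _ hmem
      rwa [hψ g y, ← one_smul 𝒪 y, smul_smul, mul_one, ← sub_smul] at this
    have hinv : ((ψ g : 𝒪ˣ) : 𝒪) * (((ψ g)⁻¹ : 𝒪ˣ) : 𝒪) = 1 := by
      rw [← Units.val_mul, mul_inv_cancel, Units.val_one]
    have hδI : ((d g * (ψ g)⁻¹ : 𝒪ˣ) : 𝒪) - 1 ∈ I := by
      have : ((d g * (ψ g)⁻¹ : 𝒪ˣ) : 𝒪) - 1
          = (((ψ g)⁻¹ : 𝒪ˣ) : 𝒪) * ((((d g : 𝒪ˣ) : 𝒪) - 1) - (((ψ g : 𝒪ˣ) : 𝒪) - 1)) := by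
        rw [Units.val_mul]
        linear_combination hinv
      rw [this]
      exact I.mul_mem_left _ (I.sub_mem hdg hψI)
    apply pi_mem_smul_top
    intro i
    rw [hρ₂, Matrix.toLin'_apply, Pi.sub_apply, Matrix.mulVec_diagonal]
    have : δ g i * x i - x i = (δ g i - 1) * x i := by ring
    rw [this]
    apply I.mul_mem_right
    fin_cases i
    · exact hψI
    · exact hδI

/-- Conclusion of the extraction: from a nonzero finite free module on which every group element
satisfies a quadratic relation with constant term `d g`, and an involution `c` with `d c = -1`,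
one gets a rank two representation with the expected characteristic polynomials. -/
theorem exists_twoDim [Nontrivial M] (h2 : (2 : 𝒪) ≠ 0) (hrel : ∀ g, ∃ a, Rel ρ d g a)
    (c : G) (hc : c * c = 1) (hdc : d c = -1) : Nonempty (TwoDimOut ρ d) := by
  rcases exists_stable ρ d h2 hrel c hc hdc with ⟨v, hv0, hsv⟩ |
    ⟨u, w, ε, hε, hu0, hw0, hu, hw, hsu, hsw⟩
  · exact twoDim_of_rank_one ρ d v hv0 hsv
  · exact twoDim_of_rank_two ρ d hrel h2 c hdc u w ε hε hu0 hw0 hu hw hsu hsw

end Constructions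

end Fermat.Agent.S30.H990

end
-- ===== PACK-END S30/H990/TwoDim1.lean

-- ===== PACK-BEGIN Lib/Cheb/H476/Bridge.lean
section





/-!
# CHEB piece F6 (bridge): `Spec.BridgeDivisionStatement` and `Spec.BridgeStatement`

From the finite-level statements (Galois number fields, primes of rings of integers, Mathlib's
`IsArithFrobAt`) to the Prelude-level statements (valuation subrings of `ℚ̄`, Prelude's
`IsFrobeniusAt`, `inertiaSubgroupIn`).
-/

set_option autoImplicit false
set_option linter.style.haveILetI false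

open NumberField
open scoped Pointwise

namespace Fermat.Agent.Lib.Cheb.H476

open Fermat.Agent.Lib.Cheb.Spec

/-- The normal closure of a finite extension of `ℚ` inside `ℚ̄` is a number field. -/
theorem numberField_normalClosure (E : IntermediateField ℚ Qb) [FiniteDimensional ℚ E] :
    NumberField (IntermediateField.normalClosure ℚ E Qb) :=
  { to_charZero := inferInstance
    to_finiteDimensional := inferInstance }

/-- The normal closure of a finite extension of `ℚ` inside `ℚ̄` is Galois over `ℚ`. -/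
theorem isGalois_normalClosure (E : IntermediateField ℚ Qb) [FiniteDimensional ℚ E] :
    IsGalois ℚ (IntermediateField.normalClosure ℚ E Qb) := by
  haveI : Algebra.IsAlgebraic ℚ Qb := AlgebraicClosure.isAlgebraic ℚ
  haveI : IsAlgClosure ℚ Qb := ⟨inferInstance, inferInstance⟩
  haveI : Normal ℚ Qb := IsAlgClosure.normal ℚ Qb
  have hn : Normal ℚ (IntermediateField.normalClosure ℚ E Qb) := normalClosure.normal ℚ E Qb
  exact isGalois_iff.mpr ⟨inferInstance, hn⟩

theorem restrictNormal_coe (L : IntermediateField ℚ Qb) [Normal ℚ L] (g : GQ) (x : L) :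
    ((AlgEquiv.restrictNormal g L x : L) : Qb) = g (x : Qb) :=
  AlgEquiv.restrictNormal_commutes g L x

theorem restrictNormal_pow (L : IntermediateField ℚ Qb) [Normal ℚ L] (g : GQ) (n : ℕ) :
    AlgEquiv.restrictNormal (g ^ n) L = (AlgEquiv.restrictNormal g L) ^ n :=
  map_pow (AlgEquiv.restrictNormalHom L) g n

/-- **F6 / W5, Tier 1**: the bridge from the finite-level Frobenius density theorem to the
Prelude-level division statement. -/
theorem bridgeDivision : BridgeDivisionStatement := by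
  intro hF E hE σ S
  haveI := hE
  haveI := numberField_normalClosure E
  haveI := isGalois_normalClosure E
  obtain ⟨p, P, τ, hp, hpS, hP, hpP, hI, hτ, hz⟩ :=
    hF (IntermediateField.normalClosure ℚ E Qb)
      (AlgEquiv.restrictNormal σ (IntermediateField.normalClosure ℚ E Qb)) S
  obtain ⟨A, φ, hAp, hφ, hin, hφτ⟩ :=
    exists_frobenius_restrict (IntermediateField.normalClosure ℚ E Qb) p hp P hP hpP hI τ hτ
  have h1 : τ ∈ Subgroup.zpowers
      (AlgEquiv.restrictNormal σ (IntermediateField.normalClosure ℚ E Qb)) :=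
    hz ▸ Subgroup.mem_zpowers τ
  have h2 : AlgEquiv.restrictNormal σ (IntermediateField.normalClosure ℚ E Qb) ∈
      Subgroup.zpowers τ := hz.symm ▸ Subgroup.mem_zpowers _
  obtain ⟨k, hk⟩ := (isOfFinOrder_of_finite
    (AlgEquiv.restrictNormal σ (IntermediateField.normalClosure ℚ E Qb))).mem_powers_iff_mem_zpowers.mpr h1
  obtain ⟨j, hj⟩ := (isOfFinOrder_of_finite τ).mem_powers_iff_mem_zpowers.mpr h2
  replace hk : AlgEquiv.restrictNormal σ (IntermediateField.normalClosure ℚ E Qb) ^ k = τ := hk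
  replace hj : τ ^ j = AlgEquiv.restrictNormal σ (IntermediateField.normalClosure ℚ E Qb) := hj
  have hEL : E ≤ IntermediateField.normalClosure ℚ E Qb := IntermediateField.le_normalClosure E
  refine ⟨p, A, φ, k, j, hp, hpS, hAp, hφ, ?_, ?_, ?_⟩
  · intro ι hι x hx
    exact hin ι hι ⟨x, hEL hx⟩
  · intro x hx
    have h3 := hφτ ⟨x, hEL hx⟩
    rw [← hk, ← restrictNormal_pow, restrictNormal_coe] at h3
    exact h3
  · intro x hx
    have h4 : AlgEquiv.restrictNormal (φ ^ j) (IntermediateField.normalClosure ℚ E Qb) =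
        AlgEquiv.restrictNormal σ (IntermediateField.normalClosure ℚ E Qb) := by
      rw [restrictNormal_pow, ← hj]
      congr 1
      apply AlgEquiv.ext
      intro y
      apply Subtype.ext
      rw [restrictNormal_coe]
      exact hφτ y
    have h5 := restrictNormal_coe (IntermediateField.normalClosure ℚ E Qb) (φ ^ j) ⟨x, hEL hx⟩
    rw [h4, restrictNormal_coe] at h5
    exact h5.symm

/-- **Bridge, Tier 2**: from finite-level qualitative Chebotarev to the Prelude-level
statement. -/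
theorem bridge : BridgeStatement := by
  intro hF E hE σ S
  haveI := hE
  haveI := numberField_normalClosure E
  haveI := isGalois_normalClosure E
  obtain ⟨p, P, hp, hpS, hP, hpP, hI, hτ⟩ :=
    hF (IntermediateField.normalClosure ℚ E Qb)
      (AlgEquiv.restrictNormal σ (IntermediateField.normalClosure ℚ E Qb)) S
  obtain ⟨A, φ, hAp, hφ, hin, hφτ⟩ :=
    exists_frobenius_restrict (IntermediateField.normalClosure ℚ E Qb) p hp P hP hpP hI _ hτ
  have hEL : E ≤ IntermediateField.normalClosure ℚ E Qb := IntermediateField.le_normalClosure E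
  refine ⟨p, A, φ, hp, hpS, hAp, hφ, ?_, ?_⟩
  · intro ι hι x hx
    exact hin ι hι ⟨x, hEL hx⟩
  · intro x hx
    have h3 := hφτ ⟨x, hEL hx⟩
    rw [restrictNormal_coe] at h3
    exact h3

end Fermat.Agent.Lib.Cheb.H476

end
-- ===== PACK-END Lib/Cheb/H476/Bridge.lean

-- ===== PACK-BEGIN S24/Mod/H997Core.lean
section


/-!
# S24 / MOD — the analytic interface `AnalyticCore N` and the assembly of the modular package

`AnalyticCore N` is the complete list of analytic facts needed (besides the degree bound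
`[FF N : ℚ̄(j)] ≤ |SL₂(ℤ)/Γ₀(N)|`) to produce all the `LocalData` of helper984's interface
`ModularPackage N`.
-/

set_option autoImplicit false

noncomputable section

open ModularCurve HahnSeries UpperHalfPlane
open scoped MatrixGroups

namespace Fermat.Agent.S24.H997

variable {N : ℕ} [NeZero N]

/-- Local data at a point of `ℍ` lying over `a = J(τ₀)`: an expansion (Taylor expansion at `τ₀`),
rotation data for the stabilising element `ε`, and the order of vanishing of `J - a`. -/
structure PointData (B : HolBase N) (a : ℂ) (ε : SL(2, ℤ)) where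
  X : Expansion B
  R : RotData B X ε
  order_J : (X.E (B.JH 1 (one_dvd N) - B.constH a)).order = (R.m : ℤ)

/-- **The analytic interface.** -/
structure AnalyticCore (N : ℕ) [NeZero N] extends HolBase N where
  /-- generic points: `J - a` has a simple zero at some `τ₀` -/
  generic : ∀ a : ℂ, a ≠ 0 → a ≠ 1728 → PointData toHolBase a 1

  /-- the point `i` over `1728`, rotation by `S` -/
  at1728 : PointData toHolBase 1728 ModularGroup.S
  /-- the point `ρ` over `0`, rotation by `S * T` -/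
  at0 : PointData toHolBase 0 (ModularGroup.S * ModularGroup.T)
  /-- the cusp `∞`: `qexp (h ∘ T)` is `qexp h` with `z` replaced by `ζ z` -/
  infζ : ℂ
  inf_hζ : IsPrimitiveRoot infζ N
  inf_shift : ∀ (h : Hol) (n : ℤ),
    (qexp (toHolBase.compH ModularGroup.T h)).coeff n = infζ ^ n * (qexp h).coeff n

namespace HolBase

variable (B : HolBase N)

/-- the expansion at `∞` -/
def qexpExpansion : Expansion B := ⟨B.qexp, B.qexp_injective, B.qexp_const⟩

theorem qexp_J_one_coeff (k : ℤ) :
    (B.qexp (B.JH 1 (one_dvd N))).coeff k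
      = if (N : ℤ) ∣ k then ((jq.coeff (k / (N : ℤ)) : ℚ) : ℂ) else 0 := by
  have := B.qexp_J 1 (one_dvd N) k
  simpa [JH] using this

theorem qexp_J_one_ne_zero : B.qexp (B.JH 1 (one_dvd N)) ≠ 0 := by
  apply ne_zero_of_coeff_ne_zero (g := -(N : ℤ))
  rw [qexp_J_one_coeff, if_pos (dvd_neg.mpr dvd_rfl)]
  have hN : (N : ℤ) ≠ 0 := by exact_mod_cast NeZero.ne N
  rw [Int.neg_ediv_of_dvd dvd_rfl, Int.ediv_self hN, coeff_jq_neg_one]
  simp

theorem order_qexp_J_one : (B.qexp (B.JH 1 (one_dvd N))).order = -(N : ℤ) := by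
  have hN : (N : ℤ) ≠ 0 := by exact_mod_cast NeZero.ne N
  have hNpos : (0 : ℤ) < N := by exact_mod_cast Nat.pos_of_ne_zero (NeZero.ne N)
  apply le_antisymm
  · apply order_le_of_coeff_ne_zero
    rw [qexp_J_one_coeff, if_pos (dvd_neg.mpr dvd_rfl)]
    rw [Int.neg_ediv_of_dvd dvd_rfl, Int.ediv_self hN, coeff_jq_neg_one]
    simp
  · by_contra hlt
    replace hlt := lt_of_not_ge hlt
    have h0 := coeff_order_eq_zero.not.mpr B.qexp_J_one_ne_zero
    apply h0
    rw [qexp_J_one_coeff]
    split_ifs with hdvd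
    · obtain ⟨m, hm⟩ := hdvd
      rw [hm, Int.mul_ediv_cancel_left _ hN]
      have : m < -1 := by
        rw [hm] at hlt
        by_contra hge
        replace hge := le_of_not_gt hge
        have : (N : ℤ) * m ≥ N * (-1) := mul_le_mul_of_nonneg_left hge hNpos.le
        linarith
      rw [coeff_jq_of_lt this]
      simp
    · rfl

end HolBase

/-- Rotation data from a coefficientwise statement `coeff_n (E (h ∘ ε)) = ζ^n coeff_n (E h)`. -/
def RotData.ofCoeff (B : HolBase N) (X : Expansion B) (ε : SL(2, ℤ)) (m : ℕ) (m_pos : 0 < m)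
    (ζ : ℂ) (hζ : IsPrimitiveRoot ζ m)
    (h : ∀ (f : B.Hol) (n : ℤ), (X.E (B.compH ε f)).coeff n = ζ ^ n * (X.E f).coeff n) :
    RotData B X ε where
  m := m
  m_pos := m_pos
  ζ := ζ
  hζ := hζ
  rot f := by
    have hζ0 : ζ ≠ 0 := hζ.ne_zero m_pos.ne'
    by_cases hf : X.E f = 0
    · have : X.E (B.compH ε f) = 0 := by
        ext n; rw [h, hf]; simp
      rw [hf, this]; exact RotRel.zero
    · have hf' : X.E (B.compH ε f) ≠ 0 := by
        intro h0
        apply hf
        ext n
        have := congrArg (fun s => s.coeff n) h0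
        simp only [h, coeff_zero, mul_eq_zero, zpow_ne_zero n hζ0, false_or] at this
        simpa using this
      have hord : (X.E (B.compH ε f)).order = (X.E f).order := by
        apply le_antisymm
        · apply order_le_of_coeff_ne_zero
          rw [h]
          exact mul_ne_zero (zpow_ne_zero _ hζ0) (coeff_order_eq_zero.not.mpr hf)
        · apply order_le_of_coeff_ne_zero
          have := coeff_order_eq_zero.not.mpr hf'
          rw [h] at this
          exact right_ne_zero_of_mul this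
      refine ⟨hord, ?_⟩
      rw [leadingCoeff_eq, leadingCoeff_eq, hord, h]

theorem numOrbits_inv {X : Type*} (π : Equiv.Perm X) : numOrbits π⁻¹ = numOrbits π := by
  unfold numOrbits
  rw [Subgroup.zpowers_inv]

theorem permOf_inv (N : ℕ) [NeZero N] (g : SL(2, ℤ)) : permOf N g⁻¹ = (permOf N g)⁻¹ := by
  ext x
  simp [permOf]

theorem permOf_one (N : ℕ) [NeZero N] : permOf N 1 = 1 := by
  ext x
  simp [permOf]

namespace AnalyticCore

variable (A : AnalyticCore N)

/-- rotation data at the cusp -/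
def infRot : RotData A.toHolBase A.toHolBase.qexpExpansion ModularGroup.T :=
  RotData.ofCoeff A.toHolBase A.toHolBase.qexpExpansion ModularGroup.T N
    (Nat.pos_of_ne_zero (NeZero.ne N)) A.infζ A.inf_hζ A.inf_shift

/-- the local data at `∞` -/
def dataInf : LocalData Kbar (FF N) ℂ (XX N) (jF N)⁻¹ :=
  A.toHolBase.mkLocalData A.toHolBase.qexpExpansion ModularGroup.T A.infRot (jF N)⁻¹
    (A.qexp (A.toHolBase.JH 1 (one_dvd N)))⁻¹
    (fun g => by rw [map_inv₀, HolBase.sigmaG_jF]; rfl)
    (by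
      rw [RotRel.order_inv' A.toHolBase.qexp_J_one_ne_zero, A.toHolBase.order_qexp_J_one, neg_neg]
      rfl)

theorem sigmaG_sub {a : Kbar} {ε : SL(2, ℤ)} (P : PointData A.toHolBase (ιK a) ε)
    (g : SL(2, ℤ)) :
    A.toHolBase.sigmaG P.X g (jF N - algebraMap Kbar (FF N) a)
      = P.X.E (A.toHolBase.JH 1 (one_dvd N) - A.toHolBase.constH (ιK a)) := by
  rw [map_sub, HolBase.sigmaG_jF, HolBase.sigmaG_algebraMap, map_sub, P.X.const]

/-- the local data attached to point data over `a` -/
def dataOfPoint {a : Kbar} {ε : SL(2, ℤ)} (P : PointData A.toHolBase (ιK a) ε) :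
    LocalData Kbar (FF N) ℂ (XX N) (jF N - algebraMap Kbar (FF N) a) :=
  A.toHolBase.mkLocalData P.X ε P.R _ _ (fun g => A.sigmaG_sub P g) P.order_J

/-- all the embeddings `σ_x` agree on `ℚ̄(j)` -/
theorem sigmaX_eq_on_adjoin (X : Expansion A.toHolBase) (x y : XX N) {f : FF N}
    (hf : f ∈ IntermediateField.adjoin Kbar {jF N}) :
    A.toHolBase.sigmaX X x f = A.toHolBase.sigmaX X y f := by
  induction hf using IntermediateField.adjoin_induction with
  | mem z hz =>
      rw [Set.mem_singleton_iff] at hz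
      subst hz
      show A.toHolBase.sigmaG X _ (jF N) = A.toHolBase.sigmaG X _ (jF N)
      rw [HolBase.sigmaG_jF, HolBase.sigmaG_jF]
  | algebraMap c =>
      show A.toHolBase.sigmaG X _ _ = A.toHolBase.sigmaG X _ _
      rw [HolBase.sigmaG_algebraMap, HolBase.sigmaG_algebraMap]
  | add z w _ _ hz hw => rw [map_add, map_add, hz, hw]
  | inv z _ hz => rw [map_inv₀, map_inv₀, hz]
  | mul z w _ _ hz hw => rw [map_mul, map_mul, hz, hw]

/-- lower bound for the degree: `|SL₂(ℤ)/Γ₀(N)| ≤ [FF N : ℚ̄(j)]`. -/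
theorem card_le_finrank (A : AnalyticCore N)
    [FiniteDimensional ↥(IntermediateField.adjoin Kbar {jF N}) (FF N)] :
    Nat.card (XX N) ≤ Module.finrank ↥(IntermediateField.adjoin Kbar {jF N}) (FF N) := by
  classical
  set E := IntermediateField.adjoin Kbar {jF N} with hE
  let X := A.toHolBase.qexpExpansion
  let x0 : XX N := ((1 : SL(2, ℤ)) : XX N)
  let ψ : ↥E →+* LaurentSeries ℂ := (A.toHolBase.sigmaX X x0).comp (algebraMap ↥E (FF N))
  letI : Algebra ↥E (LaurentSeries ℂ) := ψ.toAlgebra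
  let a : XX N → (FF N →ₐ[↥E] LaurentSeries ℂ) := fun x =>
    { A.toHolBase.sigmaX X x with
      commutes' := fun y => A.sigmaX_eq_on_adjoin X x x0 y.2 }
  have ha : Function.Injective a := by
    intro x y hxy
    apply A.toHolBase.sigmaX_injective X
    refine RingHom.ext fun f => ?_
    exact congrArg (fun φ : FF N →ₐ[↥E] LaurentSeries ℂ => φ f) hxy
  haveI : Module.Free ↥E (FF N) := Module.Free.of_divisionRing ↥E (FF N)
  haveI : Module.Finite ↥E (FF N) := ‹FiniteDimensional ↥E (FF N)›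
  haveI : Finite (FF N →ₐ[↥E] LaurentSeries ℂ) := Finite.algHom ↥E (FF N) (LaurentSeries ℂ)
  calc Nat.card (XX N) ≤ Nat.card (FF N →ₐ[↥E] LaurentSeries ℂ) :=
        Nat.card_le_card_of_injective a ha
    _ ≤ Module.finrank ↥E (FF N) := card_algHom_le_finrank ↥E (FF N) (LaurentSeries ℂ)

/-- the local data over a finite point `a : ℚ̄` -/
def dataFin (a : Kbar) : LocalData Kbar (FF N) ℂ (XX N) (jF N - algebraMap Kbar (FF N) a) :=
  letI := Classical.propDecidable
  if h0 : a = 0 then
    A.dataOfPoint (a := a) (ε := ModularGroup.S * ModularGroup.T)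
      (by rw [h0, map_zero]; exact A.at0)
  else if h1 : a = 1728 then
    A.dataOfPoint (a := a) (ε := ModularGroup.S)
      (by
        have : ιK a = 1728 := by rw [h1]; exact map_ofNat ιK 1728
        rw [this]; exact A.at1728)
  else
    A.dataOfPoint (a := a) (ε := 1)
      (A.generic (ιK a)
        (fun h => h0 (ιK_injective (by rw [h, map_zero])))
        (fun h => h1 (ιK_injective (by rw [h]; exact (map_ofNat ιK 1728).symm))))

theorem dataFin_perm_generic (a : Kbar) (h0 : a ≠ 0) (h1 : a ≠ 1728) :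
    (A.dataFin a).perm = 1 := by
  unfold dataFin
  rw [dif_neg h0, dif_neg h1]
  show permOf N 1⁻¹ = 1
  rw [inv_one, permOf_one]

theorem dataFin_zero_perm :
    numOrbits (A.dataFin 0).perm = numOrbits (permOf N (ModularGroup.S * ModularGroup.T)) := by
  unfold dataFin
  rw [dif_pos rfl]
  show numOrbits (permOf N (ModularGroup.S * ModularGroup.T)⁻¹) = _
  rw [permOf_inv, numOrbits_inv]

theorem dataFin_1728_perm :
    numOrbits (A.dataFin 1728).perm = numOrbits (permOf N ModularGroup.S) := by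
  have h0 : (1728 : Kbar) ≠ 0 := by norm_num
  unfold dataFin
  rw [dif_neg h0, dif_pos rfl]
  show numOrbits (permOf N ModularGroup.S⁻¹) = _
  rw [permOf_inv, numOrbits_inv]

theorem dataInf_perm :
    numOrbits A.dataInf.perm = numOrbits (permOf N ModularGroup.T) := by
  show numOrbits (permOf N ModularGroup.T⁻¹) = _
  rw [permOf_inv, numOrbits_inv]

/-- **Assembly.**  All fields of helper984's `ModularPackage N` from the analytic core and the
degree bound. -/
theorem modularPackage_fields (A : AnalyticCore N)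
    (hfd : FiniteDimensional ↥(IntermediateField.adjoin Kbar {jF N}) (FF N))
    (hle : Module.finrank ↥(IntermediateField.adjoin Kbar {jF N}) (FF N) ≤ Nat.card (XX N)) :
    ∃ (dataFin : ∀ a : Kbar, LocalData Kbar (FF N) ℂ (XX N) (jF N - algebraMap Kbar (FF N) a))
      (dataInf : LocalData Kbar (FF N) ℂ (XX N) (jF N)⁻¹),
      Module.finrank ↥(IntermediateField.adjoin Kbar {jF N}) (FF N) = Nat.card (XX N) ∧
      (∀ a : Kbar, a ≠ 0 → a ≠ 1728 → (dataFin a).perm = 1) ∧
      numOrbits (dataFin 0).perm = numOrbits (permOf N (ModularGroup.S * ModularGroup.T)) ∧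
      numOrbits (dataFin 1728).perm = numOrbits (permOf N ModularGroup.S) ∧
      numOrbits dataInf.perm = numOrbits (permOf N ModularGroup.T) :=
  ⟨A.dataFin, A.dataInf, le_antisymm hle A.card_le_finrank, A.dataFin_perm_generic,
    A.dataFin_zero_perm, A.dataFin_1728_perm, A.dataInf_perm⟩

end AnalyticCore

end Fermat.Agent.S24.H997

end
end
-- ===== PACK-END S24/Mod/H997Core.lean

-- ===== PACK-BEGIN S24/H624/Germ.lean
section


/-!
# Taylor coefficients of germs; leading coefficient under Möbius transformations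
-/

set_option autoImplicit false

namespace Fermat.Agent.S24.H624

open UpperHalfPlane Complex
open scoped Manifold Topology MatrixGroups

/-- `n`-th Taylor coefficient at `z₀` of a function `ℂ → ℂ`. -/
noncomputable def germCoeff (z₀ : ℂ) (F : ℂ → ℂ) (n : ℕ) : ℂ :=
  iteratedDeriv n F z₀ / (n.factorial : ℂ)

theorem taylorCoeff_eq_germCoeff (τ : ℍ) (f : ℍ → ℂ) (n : ℕ) :
    taylorCoeff τ f n = germCoeff (τ : ℂ) (f ∘ ofComplex) n := rfl

theorem germCoeff_congr {F G : ℂ → ℂ} {z₀ : ℂ} (h : F =ᶠ[𝓝 z₀] G) (n : ℕ) :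
    germCoeff z₀ F n = germCoeff z₀ G n := by
  unfold germCoeff
  rw [h.iteratedDeriv_eq]

theorem germCoeff_zero_idx (z₀ : ℂ) (F : ℂ → ℂ) : germCoeff z₀ F 0 = F z₀ := by
  simp [germCoeff]

theorem germCoeff_mul {F G : ℂ → ℂ} {z₀ : ℂ} (hF : AnalyticAt ℂ F z₀) (hG : AnalyticAt ℂ G z₀)
    (n : ℕ) :
    germCoeff z₀ (F * G) n
      = ∑ p ∈ Finset.HasAntidiagonal.antidiagonal n, germCoeff z₀ F p.1 * germCoeff z₀ G p.2 := by
  unfold germCoeff
  have hF' : ContDiffAt ℂ n F z₀ := hF.contDiffAt.of_le (by exact_mod_cast le_top)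
  have hG' : ContDiffAt ℂ n G z₀ := hG.contDiffAt.of_le (by exact_mod_cast le_top)
  rw [iteratedDeriv_mul hF' hG',
    Finset.Nat.sum_antidiagonal_eq_sum_range_succ
      (fun i j => iteratedDeriv i F z₀ / (i.factorial : ℂ)
        * (iteratedDeriv j G z₀ / (j.factorial : ℂ))) n,
    Finset.sum_div]
  refine Finset.sum_congr rfl fun i hi => ?_
  have hi' : i ≤ n := Nat.lt_succ_iff.mp (Finset.mem_range.mp hi)
  have h1 : (n.choose i : ℂ)
      = (n.factorial : ℂ) / ((i.factorial : ℂ) * ((n - i).factorial : ℂ)) := by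
    rw [Nat.choose_eq_factorial_div_factorial hi']
    rw [Nat.cast_div (Nat.factorial_mul_factorial_dvd_factorial hi')
      (by exact_mod_cast (Nat.mul_pos (Nat.factorial_pos _) (Nat.factorial_pos _)).ne')]
    push_cast
    rfl
  rw [h1]
  have hn : (n.factorial : ℂ) ≠ 0 := by exact_mod_cast (Nat.factorial_pos n).ne'
  have hi0 : (i.factorial : ℂ) ≠ 0 := by exact_mod_cast (Nat.factorial_pos i).ne'
  have hni : ((n - i).factorial : ℂ) ≠ 0 := by exact_mod_cast (Nat.factorial_pos (n - i)).ne'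
  field_simp

theorem germCoeff_sub_id (z₀ : ℂ) (n : ℕ) :
    germCoeff z₀ (fun z => z - z₀) n = if n = 1 then 1 else 0 := by
  unfold germCoeff
  rcases n with _ | _ | n
  · simp
  · have h : deriv (fun z : ℂ => z - z₀) = fun _ => (1 : ℂ) := by
      funext z
      simp
    rw [iteratedDeriv_succ', h]
    simp
  · have h : deriv (fun z : ℂ => z - z₀) = fun _ => (1 : ℂ) := by
      funext z
      simp
    rw [iteratedDeriv_succ', h, iteratedDeriv_succ']
    simp

theorem germCoeff_sub_mul {G : ℂ → ℂ} {z₀ : ℂ} (hG : AnalyticAt ℂ G z₀) (n : ℕ) :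
    germCoeff z₀ (fun z => (z - z₀) * G z) (n + 1) = germCoeff z₀ G n := by
  have hF : AnalyticAt ℂ (fun z : ℂ => z - z₀) z₀ := by fun_prop
  have := germCoeff_mul hF hG (n + 1)
  rw [show (fun z => (z - z₀) * G z) = (fun z : ℂ => z - z₀) * G from rfl, this]
  rw [Finset.sum_eq_single (1, n)]
  · rw [germCoeff_sub_id]
    simp
  · rintro ⟨i, j⟩ hij hne
    rw [germCoeff_sub_id]
    have hsum : i + j = n + 1 := by simpa using hij
    have hi : i ≠ 1 := by
      rintro rfl
      apply hne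
      have : j = n := by omega
      rw [this]
    simp [hi]
  · intro h
    exfalso
    apply h
    simp
    omega

theorem germCoeff_pow_mul {G : ℂ → ℂ} {z₀ : ℂ} (hG : AnalyticAt ℂ G z₀) (n : ℕ) :
    germCoeff z₀ (fun z => (z - z₀) ^ n * G z) n = G z₀ := by
  induction n generalizing G with
  | zero => simp [germCoeff_zero_idx]
  | succ n ih =>
    have hG' : AnalyticAt ℂ (fun z => (z - z₀) ^ n * G z) z₀ := by fun_prop
    have h1 : (fun z => (z - z₀) ^ (n + 1) * G z)
        = fun z => (z - z₀) * ((z - z₀) ^ n * G z) := by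
      funext z
      ring
    rw [h1, germCoeff_sub_mul hG', ih hG]

/-- Leading Taylor coefficient via a local factorisation. -/
theorem germCoeff_of_eventuallyEq {F u : ℂ → ℂ} {z₀ : ℂ} (hu : AnalyticAt ℂ u z₀) {n : ℕ}
    (h : ∀ᶠ z in 𝓝 z₀, F z = (z - z₀) ^ n * u z) : germCoeff z₀ F n = u z₀ := by
  rw [germCoeff_congr (G := fun z => (z - z₀) ^ n * u z) h, germCoeff_pow_mul hu]

/-- **Leading coefficient form of the rotation lemma.**  If `f` has order `n` at `g • τ`, the
`n`-th Taylor coefficient of `f ∘ g` at `τ` is `(g'(τ)) ^ n` times that of `f` at `g • τ`. -/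
theorem taylorCoeff_comp_smul {g : GL (Fin 2) ℝ} (hg : 0 < g.det.val) {f : ℍ → ℂ} (hf : MDiff f)
    (τ : ℍ) {n : ℕ} (hn : ordAt (g • τ) f = n) :
    taylorCoeff τ (fun z : ℍ => f (g • z)) n
      = (((g.det.val : ℝ) : ℂ) / denom g (τ : ℂ) ^ 2) ^ n * taylorCoeff (g • τ) f n := by
  have hord : analyticOrderAt (f ∘ ofComplex) ((g • τ : ℍ) : ℂ) = (n : ℕ∞) := by
    rw [← ordAt_def, hn]
  obtain ⟨u, hu, -, hfu⟩ :=
    ((analyticAt_of_mdiff hf (g • τ)).analyticOrderAt_eq_natCast).mp hord
  have hd : denom g (τ : ℂ) ≠ 0 := denom_ne_zero g τ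
  have hmτ : moeb g (τ : ℂ) = ((g • τ : ℍ) : ℂ) := moeb_coe hg τ
  have hman : AnalyticAt ℂ (moeb g) (τ : ℂ) := analyticAt_moeb g hd
  have hmcont : ContinuousAt (moeb g) (τ : ℂ) := hman.continuousAt
  set c : ℂ := ((g.det.val : ℝ) : ℂ) with hc
  -- right-hand side: value of u at g τ
  have hR : taylorCoeff (g • τ) f n = u ((g • τ : ℍ) : ℂ) := by
    rw [taylorCoeff_eq_germCoeff]
    refine germCoeff_of_eventuallyEq hu ?_
    filter_upwards [hfu] with z hz
    rw [hz, smul_eq_mul]
  -- left-hand side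
  have h2 : ∀ᶠ z in 𝓝 (τ : ℂ), (f ∘ ofComplex) (moeb g z)
      = (moeb g z - ((g • τ : ℍ) : ℂ)) ^ n • u (moeb g z) := by
    have : Filter.Tendsto (moeb g) (𝓝 (τ : ℂ)) (𝓝 ((g • τ : ℍ) : ℂ)) := by
      have := hmcont.tendsto
      rwa [hmτ] at this
    exact this.eventually hfu
  have h3 : ∀ᶠ z in 𝓝 (τ : ℂ), denom g z ≠ 0 :=
    (hasDerivAt_denom g _).continuousAt.eventually_ne hd
  have hden_an : AnalyticAt ℂ (fun z => denom g z * denom g (τ : ℂ)) (τ : ℂ) := by
    have : (fun z => denom g z * denom g (τ : ℂ))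
        = fun w : ℂ => (((g 1 0 : ℝ) : ℂ) * w + ((g 1 1 : ℝ) : ℂ)) * denom g (τ : ℂ) := by
      funext w; simp [denom]
    rw [this]
    fun_prop
  have hU : AnalyticAt ℂ (fun z => (c / (denom g z * denom g (τ : ℂ))) ^ n * u (moeb g z))
      (τ : ℂ) := by
    have h1 : AnalyticAt ℂ (fun z => c / (denom g z * denom g (τ : ℂ))) (τ : ℂ) :=
      analyticAt_const.div hden_an (mul_ne_zero hd hd)
    have h2' : AnalyticAt ℂ (fun z => u (moeb g z)) (τ : ℂ) := by
      have : AnalyticAt ℂ u (moeb g (τ : ℂ)) := by rw [hmτ]; exact hu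
      exact AnalyticAt.fun_comp this hman
    exact (h1.pow n).mul h2'
  have hL : taylorCoeff τ (fun z : ℍ => f (g • z)) n
      = (c / (denom g (τ : ℂ) * denom g (τ : ℂ))) ^ n * u (moeb g (τ : ℂ)) := by
    rw [taylorCoeff_eq_germCoeff]
    refine germCoeff_of_eventuallyEq (u := fun z => (c / (denom g z * denom g (τ : ℂ))) ^ n
      * u (moeb g z)) hU ?_
    filter_upwards [eventuallyEq_comp_smul hg f τ, h2, h3] with z e1 e2 e3
    rw [e1]
    simp only [Function.comp_apply] at e2 ⊢
    rw [e2, ← hmτ, moeb_sub_moeb g e3 hd, smul_eq_mul, ← mul_assoc, ← mul_pow]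
    congr 2
    ring
  rw [hL, hR, hmτ, sq]

/-- `SL(2, ℤ)` version for the left action `(γ • f) τ = f (γ⁻¹ • τ)`. -/
theorem taylorCoeff_smul_holoRing (γ : SL(2, ℤ)) (f : holoRing) (τ : ℍ) {n : ℕ}
    (hn : ordAt (γ⁻¹ • τ) (f : ℍ → ℂ) = n) :
    taylorCoeff τ ((γ • f : holoRing) : ℍ → ℂ) n
      = (1 / denom ((γ⁻¹ : SL(2, ℤ)) : GL (Fin 2) ℝ) (τ : ℂ) ^ 2) ^ n
        * taylorCoeff (γ⁻¹ • τ) (f : ℍ → ℂ) n := by
  have h := taylorCoeff_comp_smul (g := ((γ⁻¹ : SL(2, ℤ)) : GL (Fin 2) ℝ))
    (det_coe_SL_pos γ⁻¹) f.2 τ (n := n) hn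
  rw [det_coe_SL, Complex.ofReal_one] at h
  exact h

end Fermat.Agent.S24.H624

end
-- ===== PACK-END S24/H624/Germ.lean

-- ===== PACK-BEGIN S24/Inf/HNF.lean
section




/-!
# S24 / MOD-INF — Hermite normal form of `diag(d,1)·γ` and its action on `ℍ`
-/

set_option autoImplicit false

noncomputable section

open UpperHalfPlane Complex Matrix
open scoped MatrixGroups

namespace Fermat.Agent.S24

theorem inf_sl_det (γ : SL(2, ℤ)) : γ 0 0 * γ 1 1 - γ 0 1 * γ 1 0 = 1 := by
  have := γ.det_coe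
  rw [Matrix.det_fin_two] at this
  exact this

/-- **Hermite normal form.** For `γ ∈ SL₂(ℤ)` and `d > 0` there are `γ' ∈ SL₂(ℤ)` and an upper
triangular matrix `[[a,b],[0,d']]`, `a d' = d`, with `diag(d,1)·γ = γ'·[[a,b],[0,d']]`
(written entrywise). -/
theorem inf_exists_hnf (d : ℕ) (hd : 0 < d) (γ : SL(2, ℤ)) :
    ∃ (γ' : SL(2, ℤ)) (a d' : ℕ) (b : ℤ), 0 < a ∧ 0 < d' ∧ a * d' = d ∧
      (d : ℤ) * γ 0 0 = γ' 0 0 * a ∧ (d : ℤ) * γ 0 1 = γ' 0 0 * b + γ' 0 1 * d' ∧
      γ 1 0 = γ' 1 0 * a ∧ γ 1 1 = γ' 1 0 * b + γ' 1 1 * d' := by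
  have hdet := inf_sl_det γ
  generalize γ 0 0 = p at hdet ⊢
  generalize γ 0 1 = q at hdet ⊢
  generalize γ 1 0 = r at hdet ⊢
  generalize γ 1 1 = s at hdet ⊢
  have hgpos : 0 < Int.gcd (d : ℤ) r := Int.gcd_pos_of_ne_zero_left _ (by exact_mod_cast hd.ne')
  obtain ⟨d₁, r₁, hcop, hd₁, hr₁⟩ := Int.exists_gcd_one hgpos
  generalize Int.gcd (d : ℤ) r = a at hgpos hd₁ hr₁
  have ha0 : (0 : ℤ) < a := by exact_mod_cast hgpos
  have hd0 : (0 : ℤ) < d := by exact_mod_cast hd
  have hd₁pos : 0 < d₁ := by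
    by_contra h
    rw [not_lt] at h
    have : d₁ * (a : ℤ) ≤ 0 := mul_nonpos_of_nonpos_of_nonneg h ha0.le
    omega
  -- coprimality of the first column
  have hc1 : IsCoprime d₁ r₁ := Int.isCoprime_iff_gcd_eq_one.mpr hcop
  have hc2 : IsCoprime p r₁ := by
    refine ⟨s, -(q * a), ?_⟩
    rw [hr₁] at hdet
    linear_combination hdet
  have hc3 : IsCoprime (d₁ * p) r₁ := hc1.mul_left hc2
  obtain ⟨v, u', hbez⟩ := hc3
  -- `v * (d₁ p) + u' * r₁ = 1`; the new matrix is `[[d₁ p, -u'], [r₁, v]]`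
  refine ⟨⟨!![d₁ * p, -u'; r₁, v], by rw [Matrix.det_fin_two_of]; linear_combination hbez⟩,
    a, d₁.toNat, v * (d : ℤ) * q + u' * s, hgpos, by omega, ?_, ?_, ?_, ?_, ?_⟩
  · have : ((a * d₁.toNat : ℕ) : ℤ) = (d : ℤ) := by
      push_cast
      rw [Int.toNat_of_nonneg hd₁pos.le, hd₁]
      ring
    exact_mod_cast this
  · simp only [Matrix.of_apply, Matrix.cons_val', Matrix.cons_val_zero, Matrix.cons_val_fin_one]
    rw [hd₁]; ring
  · simp only [Matrix.of_apply, Matrix.cons_val', Matrix.cons_val_zero, Matrix.cons_val_one,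
      Matrix.cons_val_fin_one, Int.toNat_of_nonneg hd₁pos.le]
    rw [hr₁] at hdet
    rw [hd₁]
    linear_combination (-(a * d₁ * q) : ℤ) * hbez + (-(d₁ * u') : ℤ) * hdet
  · simp only [Matrix.of_apply, Matrix.cons_val', Matrix.cons_val_zero, Matrix.cons_val_one,
      Matrix.cons_val_fin_one]
    exact hr₁
  · simp only [Matrix.of_apply, Matrix.cons_val', Matrix.cons_val_zero, Matrix.cons_val_one,
      Matrix.cons_val_fin_one, Int.toNat_of_nonneg hd₁pos.le]
    rw [hr₁] at hdet
    rw [hd₁]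
    linear_combination (-s : ℤ) * hbez + (v * d₁ : ℤ) * hdet

theorem inf_sl_denom_ne_zero (γ : SL(2, ℤ)) (τ : ℍ) :
    ((γ 1 0 : ℤ) : ℂ) * τ + ((γ 1 1 : ℤ) : ℂ) ≠ 0 := by
  have h := UpperHalfPlane.denom_ne_zero (γ : GL (Fin 2) ℝ) τ
  simpa [UpperHalfPlane.denom] using h

theorem inf_sl_smul_coe (γ : SL(2, ℤ)) (τ : ℍ) :
    ((γ • τ : ℍ) : ℂ) = (((γ 0 0 : ℤ) : ℂ) * τ + ((γ 0 1 : ℤ) : ℂ)) /
      (((γ 1 0 : ℤ) : ℂ) * τ + ((γ 1 1 : ℤ) : ℂ)) := by
  rw [UpperHalfPlane.coe_specialLinearGroup_apply]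
  simp

/-- The matrix identity `diag(d,1)·γ = γ'·[[a,b],[0,d']]` on the level of `ℍ`. -/
theorem inf_aff_smul_eq {d a d' : ℕ} {b : ℤ} (hd : 0 < d) (ha : 0 < a) (hd' : 0 < d')
    (γ γ' : SL(2, ℤ))
    (h00 : (d : ℤ) * γ 0 0 = γ' 0 0 * a) (h01 : (d : ℤ) * γ 0 1 = γ' 0 0 * b + γ' 0 1 * d')
    (h10 : γ 1 0 = γ' 1 0 * a) (h11 : γ 1 1 = γ' 1 0 * b + γ' 1 1 * d') (τ : ℍ) :
    infAff d 0 1 (γ • τ) = γ' • infAff a b d' τ := by
  apply UpperHalfPlane.ext
  rw [infAff_coe hd one_pos, inf_sl_smul_coe γ' (infAff a b d' τ), infAff_coe ha hd',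
    inf_sl_smul_coe γ τ]
  have hden := inf_sl_denom_ne_zero γ τ
  have hden' := inf_sl_denom_ne_zero γ' (infAff a b d' τ)
  rw [infAff_coe ha hd'] at hden'
  have hd'0 : (d' : ℂ) ≠ 0 := by exact_mod_cast hd'.ne'
  have e00 : (d : ℂ) * ((γ 0 0 : ℤ) : ℂ) = ((γ' 0 0 : ℤ) : ℂ) * a := by exact_mod_cast h00
  have e01 : (d : ℂ) * ((γ 0 1 : ℤ) : ℂ) = ((γ' 0 0 : ℤ) : ℂ) * b + ((γ' 0 1 : ℤ) : ℂ) * d' := by
    exact_mod_cast h01
  have e10 : ((γ 1 0 : ℤ) : ℂ) = ((γ' 1 0 : ℤ) : ℂ) * a := by exact_mod_cast h10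
  have e11 : ((γ 1 1 : ℤ) : ℂ) = ((γ' 1 0 : ℤ) : ℂ) * b + ((γ' 1 1 : ℤ) : ℂ) * d' := by
    exact_mod_cast h11
  have hden'' : ((γ' 1 0 : ℤ) : ℂ) * (((a : ℂ) * τ + b) / d') + ((γ' 1 1 : ℤ) : ℂ) =
      (((γ 1 0 : ℤ) : ℂ) * τ + ((γ 1 1 : ℤ) : ℂ)) / d' := by
    rw [e10, e11]
    field_simp
    ring
  have hnum : ((γ' 0 0 : ℤ) : ℂ) * (((a : ℂ) * τ + b) / d') + ((γ' 0 1 : ℤ) : ℂ) =
      ((d : ℂ) * (((γ 0 0 : ℤ) : ℂ) * τ + ((γ 0 1 : ℤ) : ℂ))) / d' := by
    rw [mul_add, ← mul_assoc, e00, e01]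
    field_simp
    ring
  rw [hnum, hden'']
  field_simp
  simp

end Fermat.Agent.S24

end
end
-- ===== PACK-END S24/Inf/HNF.lean

-- ===== PACK-BEGIN S29/H801/M1LG.lean
section
/-
S29 / M1 (helper801), part 6: local generators along any integral map of function fields,
from the weak approximation theorem of the shared library RR (helper623).
-/




set_option autoImplicit false
set_option linter.style.haveILetI false

noncomputable section

namespace Fermat.Agent.S29.H801

open AlgebraicCurve Fermat.Agent.S37.H818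

variable {K F F₁ : Type*} [Field K] [Field F] [Field F₁] [Algebra K F] [Algebra K F₁]

/-- **Local generators** exist along every integral map (fibres are finite as soon as the
target has principal divisors): weak approximation on the fibre. -/
theorem hasLocalGenerators_of_hasPrincipalDivisors [HasPrincipalDivisors K F₁]
    (a : F →ₐ[K] F₁) (ha : a.toRingHom.IsIntegral) : HasLocalGenerators a ha := by
  classical
  intro w
  obtain ⟨z, hz⟩ := Fermat.Agent.Lib.RR.H623.weak_approximation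
    (Place.fiberAlong a ha (w.restrictAlong a ha)) (fun _ => (0 : F₁))
    (fun v => if v = w then 1 else 0)
  have hw : w ∈ Place.fiberAlong a ha (w.restrictAlong a ha) := Place.mem_fiberAlong.mpr rfl
  refine ⟨z, ?_, ?_, ?_⟩
  · have := (hz w hw).1
    simpa using this
  · have := (hz w hw).2
    simp only [sub_zero, if_true] at this
    rw [this]
    exact one_ne_zero
  · intro w' hne hres
    have := (hz w' (Place.mem_fiberAlong.mpr hres)).2
    simpa [hne] using this

end Fermat.Agent.S29.H801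

end

end
-- ===== PACK-END S29/H801/M1LG.lean

-- ===== PACK-BEGIN S28/H867/Prime.lean
section



set_option autoImplicit false
noncomputable section
open ModularCurve HahnSeries IntermediateField Polynomial

namespace Fermat.Agent.S28.H867

section Prime

variable (k : Type*) [Field k]

theorem jq_mem_jField : jqModC k ∈ jField k := mem_adjoin_simple_self k _

theorem jp_mem_jpField (p : ℕ) [NeZero p] : jp k p ∈ jpField k p := mem_adjoin_simple_self k _

theorem jpField_le_fieldRange (p : ℕ) [NeZero p] :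
    jpField k p ≤ (qExpandAlgHomC k p).fieldRange := by
  rw [jpField, adjoin_simple_le_iff]
  exact ⟨jqModC k, rfl⟩

theorem qExpand_injective' (p : ℕ) [NeZero p] : Function.Injective (qExpand k p) :=
  (qExpand k p).injective

/-- natDegree of the minimal polynomial of `j` over a subfield of `range V_p` is `≥ p`. -/
theorem le_natDegree_minpoly {p : ℕ} [NeZero p] (hI : LeafI k p)
    (B : IntermediateField k (LaurentSeries k)) (hB : B ≤ (qExpandAlgHomC k p).fieldRange)
    (hint : IsIntegral B (jqModC k)) : p ≤ (minpoly B (jqModC k)).natDegree := by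
  rw [← relfinrank_sup_adjoin_simple B hint]
  refine le_relfinrank_of_linearIndependent le_sup_left ?_ _ ?_ (hI B hB)
  · rw [relfinrank_sup_adjoin_simple B hint]
    exact (minpoly.natDegree_pos hint).ne'
  · intro i
    exact pow_mem ((le_sup_right : adjoin k {jqModC k} ≤ _) (mem_adjoin_simple_self k _)) _

theorem primeLevel_of_leaves {p : ℕ} [NeZero p] (hp : p.Prime) (D : ModPolyData p)
    (hI : LeafI k p) (hB1 : LeafB1 k p) : PrimeLevel k p := by
  set j := jqModC k with hj
  set A := jpField k p with hA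
  set R := (qExpandAlgHomC k p).fieldRange with hR
  have hAR : A ≤ R := jpField_le_fieldRange k p
  let y : A := ⟨jp k p, jp_mem_jpField k p⟩
  set ΦA := polyOver A y D.Φ with hΦA
  have hΦmonic : ΦA.Monic := polyOver_monic A y D.monic
  have hΦdeg : ΦA.natDegree = p + 1 := by
    rw [hΦA, polyOver_natDegree A y D.monic, D.natDegree_eq]
  have hΦj : Polynomial.aeval j ΦA = 0 := by
    rw [hΦA, aeval_polyOver]; exact modPoly_eval_j_field k D
  have hΦjpp : Polynomial.aeval (qExpand k p (jp k p)) ΦA = 0 := by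
    rw [hΦA, aeval_polyOver]
    exact eval₂_evalAt_qExpand p D.Φ _ _ (modPoly_eval_jp_field k D)
  have hint : IsIntegral A j := ⟨ΦA, hΦmonic, by rwa [Polynomial.aeval_def] at hΦj⟩
  set m := minpoly A j with hm
  have hmdvd : m ∣ ΦA := minpoly.dvd A j hΦj
  have hmmonic : m.Monic := minpoly.monic hint
  have hmle : m.natDegree ≤ p + 1 := by
    rw [← hΦdeg]
    exact Polynomial.natDegree_le_of_dvd hmdvd hΦmonic.ne_zero
  have hmge : p ≤ m.natDegree := le_natDegree_minpoly k hI A hAR hint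
  -- the key step: the degree is not `p`
  have hmne : m.natDegree ≠ p := by
    intro hmp
    obtain ⟨c, hc⟩ := hmdvd
    have hcmonic : c.Monic := hmmonic.of_mul_monic_left (hc ▸ hΦmonic)
    have hcdeg : c.natDegree = 1 := by
      have := congrArg Polynomial.natDegree hc
      rw [hmmonic.natDegree_mul hcmonic, hΦdeg, hmp] at this
      omega
    have hroot : Polynomial.aeval (qExpand k p (jp k p)) m *
        Polynomial.aeval (qExpand k p (jp k p)) c = 0 := by
      rw [← map_mul, ← hc, hΦjpp]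
    rcases mul_eq_zero.mp hroot with h0 | h0
    · -- `j_{p²}` is a root of `m`, but `m` is irreducible of degree `p ≥ 2` over `R`
      set incl : A →+* R := (IntermediateField.inclusion hAR).toRingHom with hincl
      have hcomp : (algebraMap R (LaurentSeries k)).comp incl = algebraMap A (LaurentSeries k) :=
        rfl
      set m' := m.map incl with hm'
      have hm'monic : m'.Monic := hmmonic.map _
      have hm'deg : m'.natDegree = p := by rw [hm', hmmonic.natDegree_map, hmp]
      have hm'eval : ∀ x : LaurentSeries k, Polynomial.aeval x m' = Polynomial.aeval x m := by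
        intro x
        rw [hm', Polynomial.aeval_def, Polynomial.eval₂_map, hcomp, ← Polynomial.aeval_def]
      have hintR : IsIntegral R j := by
        refine ⟨m', hm'monic, ?_⟩
        rw [← Polynomial.aeval_def, hm'eval]
        exact minpoly.aeval A j
      have hdvd : minpoly R j ∣ m' := minpoly.dvd R j (by rw [hm'eval]; exact minpoly.aeval A j)
      have hge : p ≤ (minpoly R j).natDegree := le_natDegree_minpoly k hI R le_rfl hintR
      have heq : m' = minpoly R j :=
        Polynomial.eq_of_monic_of_dvd_of_natDegree_le (minpoly.monic hintR) hm'monic hdvd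
          (by rw [hm'deg]; exact hge)
      have hirr : Irreducible m' := heq ▸ minpoly.irreducible hintR
      let r : R := ⟨qExpand k p (jp k p), ⟨jp k p, rfl⟩⟩
      have hr : m'.IsRoot r := by
        have h1 : Polynomial.aeval (algebraMap R (LaurentSeries k) r) m' = 0 := by
          rw [hm'eval]; exact h0
        rw [Polynomial.aeval_algebraMap_apply] at h1
        have h3 : Polynomial.aeval r m' = 0 :=
          (algebraMap R (LaurentSeries k)).injective (by rw [h1, map_zero])
        simpa [Polynomial.IsRoot] using h3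
      have hdeg1 := Polynomial.degree_eq_one_of_irreducible_of_root hirr hr
      have : m'.natDegree = 1 := Polynomial.natDegree_eq_of_degree_eq_some hdeg1
      have h2 := hp.two_le
      omega
    · -- `j_{p²} ∈ A`, hence `j_p ∈ k(j)`
      have hc' : c = Polynomial.X + Polynomial.C (c.coeff 0) :=
        hcmonic.eq_X_add_C hcdeg
      rw [hc'] at h0
      simp only [map_add, Polynomial.aeval_X, Polynomial.aeval_C] at h0
      have hmem : qExpand k p (jp k p) ∈ A := by
        have : qExpand k p (jp k p) = -(algebraMap A (LaurentSeries k) (c.coeff 0)) :=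
          eq_neg_of_add_eq_zero_left h0
        rw [this]
        exact neg_mem (c.coeff 0).2
      rw [hA, jpField_eq_map] at hmem
      obtain ⟨x, hx, hxe⟩ := hmem
      have : x = jp k p := qExpand_injective' k p hxe
      exact hB1 (this ▸ hx)
  have hmdeg : m.natDegree = p + 1 := by omega
  have hmΦ : ΦA = m :=
    Polynomial.eq_of_monic_of_dvd_of_natDegree_le hmmonic hΦmonic hmdvd (by rw [hΦdeg, hmdeg])
  have hdeg_jp : A.relfinrank (jField k ⊔ A) = p + 1 := by
    rw [sup_comm, jField, relfinrank_sup_adjoin_simple A hint, ← hm, hmdeg]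
  refine ⟨?_, hdeg_jp⟩
  -- transport along `V_p`
  set x := qExpand k p (jp k p) with hx
  have hintx : IsIntegral A x := ⟨ΦA, hΦmonic, by rwa [Polynomial.aeval_def] at hΦjpp⟩
  have hirr : Irreducible ΦA := hmΦ ▸ minpoly.irreducible hint
  have hminx : ΦA = minpoly A x := minpoly.eq_of_irreducible_of_monic hirr hΦjpp hΦmonic
  have h1 : A.relfinrank (A ⊔ adjoin k {x}) = p + 1 := by
    rw [relfinrank_sup_adjoin_simple A hintx, ← hminx, hΦdeg]
  have h2 : A ⊔ adjoin k {x} = (jField k ⊔ jpField k p).map (qExpandAlgHomC k p) := by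
    rw [IntermediateField.map_sup, ← jpField_eq_map, jpField, adjoin_map, Set.image_singleton]
    rfl
  rw [h2, hA, jpField_eq_map, relfinrank_map_map] at h1
  rw [jpField_eq_map]
  exact h1

end Prime

end Fermat.Agent.S28.H867

end
end
-- ===== PACK-END S28/H867/Prime.lean

-- ===== PACK-BEGIN S29/H812/Fiber.lean
section


/-!
# S29 / H812 — the fibre of a place in a finite extension of function fields:
adapted families, the coordinate lemma, linear independence and the fundamental inequality.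
-/

set_option autoImplicit false

noncomputable section

open AlgebraicCurve

namespace Fermat.Agent.S29.H812

open Fermat.Agent.S24

section Single

variable {K F : Type*} [Field K] [Field F] [Algebra K F]

/-- An element with prescribed order `i` at `w` and order at least `B` at the places of `s`. -/
theorem exists_ord_eq_and_ge (w : Place K F) (s : Finset (Place K F)) (hw : w ∉ s) (i B : ℕ) :
    ∃ u : F, u ≠ 0 ∧ w.ord u = i ∧ (∀ w' ∈ s, (B : ℤ) ≤ w'.ord u) := by
  obtain ⟨ε, hε0, -, hε1, -, hε2⟩ := exists_indicator w s hw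
  obtain ⟨π, hπ0, hπ1⟩ := H117.exists_ord_eq_one w
  set T : ℕ := ∑ w' ∈ s, (w'.ord π).natAbs with hT
  set M : ℕ := B + i * T with hM
  have hπi : π ^ i ≠ 0 := pow_ne_zero _ hπ0
  have hεM : ε ^ M ≠ 0 := pow_ne_zero _ hε0
  refine ⟨π ^ i * ε ^ M, mul_ne_zero hπi hεM, ?_, ?_⟩
  · rw [w.ord_mul hπi hεM, H117.ord_pow, H117.ord_pow, hπ1, hε1]; ring
  · intro w' hw'
    rw [w'.ord_mul hπi hεM, H117.ord_pow, H117.ord_pow]
    have h1 : (1 : ℤ) ≤ w'.ord ε := (hε2 w' hw').1
    have h2 : ((w'.ord π).natAbs : ℤ) ≤ (T : ℤ) := by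
      have : (w'.ord π).natAbs ≤ T := Finset.single_le_sum (f := fun w' : Place K F =>
        (w'.ord π).natAbs) (fun _ _ => Nat.zero_le _) hw'
      exact_mod_cast this
    have h3 : -((w'.ord π).natAbs : ℤ) ≤ w'.ord π := by
      omega
    have h4 : (M : ℤ) ≤ (M : ℤ) * w'.ord ε := by
      have hM0 : (0 : ℤ) ≤ (M : ℤ) := Int.natCast_nonneg _
      nlinarith
    have h5 : -((i : ℤ) * (T : ℤ)) ≤ (i : ℤ) * w'.ord π := by
      have hi0 : (0 : ℤ) ≤ (i : ℤ) := Int.natCast_nonneg _
      nlinarith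
    have h6 : (M : ℤ) = B + i * T := by rw [hM]; push_cast; ring
    linarith

/-- A uniformiser at `w` which is a unit at all places of `s`. -/
theorem exists_ord_eq_one_and_zero (w : Place K F) (s : Finset (Place K F)) (hw : w ∉ s) :
    ∃ ϖ : F, ϖ ≠ 0 ∧ w.ord ϖ = 1 ∧ (∀ w' ∈ s, w'.ord ϖ = 0) := by
  obtain ⟨ε, hε0, hε0', hε1, hε1', hε2⟩ := exists_indicator w s hw
  obtain ⟨u, hu0, hu1, hu2⟩ := exists_ord_eq_and_ge w s hw 1 1
  have hsq : (1 - ε) ^ 2 ≠ 0 := pow_ne_zero _ hε0'
  have hlt : w.ord u < w.ord ((1 - ε) ^ 2) := by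
    rw [H117.ord_pow, hu1]; push_cast; omega
  have h1 : w.ord (u + (1 - ε) ^ 2) = w.ord u := H117.ord_add_eq_of_lt w hlt hu0
  have hne : u + (1 - ε) ^ 2 ≠ 0 := by
    intro h0
    rw [h0, w.ord_zero, hu1] at h1
    simp at h1
  refine ⟨u + (1 - ε) ^ 2, hne, by rw [h1, hu1]; rfl, ?_⟩
  intro w' hw'
  have hlt' : w'.ord ((1 - ε) ^ 2) < w'.ord u := by
    rw [H117.ord_pow, (hε2 w' hw').2]
    have := hu2 w' hw'
    push_cast at this ⊢
    omega
  rw [add_comm, H117.ord_add_eq_of_lt w' hlt' hsq, H117.ord_pow, (hε2 w' hw').2]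
  ring

end Single

section Relative

variable {K F F' : Type*} [Field K] [Field F] [Field F']
  [Algebra K F] [Algebra K F'] [Algebra F F'] [IsScalarTower K F F']
  [Algebra.IsIntegral F F']

/-- Order of a scalar multiple at a place above `v`. -/
theorem ord_smul_of_restrict {v : Place K F} {w : Place K F'} (hw : w.restrict F = v)
    {c : F} (hc : c ≠ 0) {u : F'} (hu : u ≠ 0) :
    w.ord (c • u) = (w.ramificationIndex F : ℤ) * v.ord c + w.ord u := by
  rw [Algebra.smul_def, w.ord_mul (by simpa using hc) hu, w.ord_restrict, hw]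

/-- **Coordinate lemma.**  Let `u a` (`a : ι`) be a family adapted to the places `wt a` above `v`:
`ord_{wt a} (u a) = idx a < e(wt a)` and `ord_{w'} (u a) ≥ e(w')` at the other places `w' = wt b`.
For a nonzero coefficient vector `c`, the combination `∑ c a • u a` is nonzero and, at a suitable
place `wt a₀`, has order `e · m + idx a₀` where `m = ord_v (c a₀)` is the minimum of the orders of
the nonzero coefficients. -/
theorem coord_lemma (v : Place K F) {ι : Type*} [Fintype ι] (wt : ι → Place K F') (idx : ι → ℕ)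
    (u : ι → F') (hfib : ∀ a, (wt a).restrict F = v)
    (hidx : ∀ a, idx a < (wt a).ramificationIndex F)
    (hu0 : ∀ a, u a ≠ 0) (hu1 : ∀ a, (wt a).ord (u a) = idx a)
    (hu2 : ∀ a b, wt b ≠ wt a → (((wt b).ramificationIndex F : ℕ) : ℤ) ≤ (wt b).ord (u a))
    (hinj : ∀ a b, wt a = wt b → idx a = idx b → a = b)
    (c : ι → F) (hc : ∃ a, c a ≠ 0) :
    ∃ a₀, c a₀ ≠ 0 ∧ (∀ a, c a ≠ 0 → v.ord (c a₀) ≤ v.ord (c a)) ∧
      (∑ a, c a • u a) ≠ 0 ∧
      (wt a₀).ord (∑ a, c a • u a)
        = ((wt a₀).ramificationIndex F : ℤ) * v.ord (c a₀) + idx a₀ := by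
  classical
  -- first minimisation: the order of the coefficient
  set S : Finset ι := Finset.univ.filter fun a => c a ≠ 0 with hS
  have hSne : S.Nonempty := by
    obtain ⟨a, ha⟩ := hc
    exact ⟨a, by simp [hS, ha]⟩
  obtain ⟨a₁, ha₁S, ha₁min⟩ := Finset.exists_min_image S (fun a => v.ord (c a)) hSne
  -- second minimisation: the index, among the minimal coefficients
  set S' : Finset ι := S.filter fun a => v.ord (c a) = v.ord (c a₁) with hS'
  have hS'ne : S'.Nonempty := ⟨a₁, by simp [hS', ha₁S]⟩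
  obtain ⟨a₀, ha₀S', ha₀min⟩ := Finset.exists_min_image S' idx hS'ne
  have ha₀S : a₀ ∈ S := (Finset.mem_filter.mp ha₀S').1
  have hc₀ : c a₀ ≠ 0 := (Finset.mem_filter.mp ha₀S).2
  have hm₀ : v.ord (c a₀) = v.ord (c a₁) := (Finset.mem_filter.mp ha₀S').2
  have hmin : ∀ a, c a ≠ 0 → v.ord (c a₀) ≤ v.ord (c a) := by
    intro a ha
    rw [hm₀]
    exact ha₁min a (by simp [hS, ha])
  have hepos : 0 < (wt a₀).ramificationIndex F := (wt a₀).ramificationIndex_pos (F := F)
  have hterm₀ : c a₀ • u a₀ ≠ 0 := smul_ne_zero hc₀ (hu0 a₀)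
  have hord₀ : (wt a₀).ord (c a₀ • u a₀)
      = ((wt a₀).ramificationIndex F : ℤ) * v.ord (c a₀) + idx a₀ := by
    rw [ord_smul_of_restrict (hfib a₀) hc₀ (hu0 a₀), hu1]
  have key := ord_sum_eq_of_lt (wt a₀) Finset.univ (fun a => c a • u a) a₀ (Finset.mem_univ _)
    hterm₀ (by
      intro a _ hne
      by_cases hca : c a = 0
      · left; simp [hca]
      right
      rw [hord₀, ord_smul_of_restrict (hfib a₀) hca (hu0 a)]
      have hle := hmin a hca
      have hi₀ := hidx a₀
      have he : (0 : ℤ) < ((wt a₀).ramificationIndex F : ℤ) := by exact_mod_cast hepos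
      by_cases hw : wt a = wt a₀
      · -- same place
        have hua : (wt a₀).ord (u a) = idx a := by rw [← hw, hu1]
        rw [hua]
        rcases eq_or_lt_of_le hle with heq | hlt
        · have haS' : a ∈ S' := by
            simp only [hS', hS, Finset.mem_filter, Finset.mem_univ, true_and]
            exact ⟨hca, by rw [← heq, hm₀]⟩
          have h1 := ha₀min a haS'
          have h2 : idx a ≠ idx a₀ := fun h => hne (hinj a a₀ hw h)
          have h3 : idx a₀ < idx a := lt_of_le_of_ne h1 (Ne.symm h2)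
          rw [← heq]
          have : ((idx a₀ : ℕ) : ℤ) < (idx a : ℤ) := by exact_mod_cast h3
          linarith
        · have h1 : ((wt a₀).ramificationIndex F : ℤ) * (v.ord (c a₀) + 1)
              ≤ ((wt a₀).ramificationIndex F : ℤ) * v.ord (c a) :=
            mul_le_mul_of_nonneg_left (by omega) he.le
          have h2 : ((idx a₀ : ℕ) : ℤ) < ((wt a₀).ramificationIndex F : ℤ) := by
            exact_mod_cast hi₀
          have h3 : (0 : ℤ) ≤ (idx a : ℤ) := Int.natCast_nonneg _
          nlinarith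
      · -- different place
        have hua := hu2 a a₀ (fun h => hw h.symm)
        have h1 : ((wt a₀).ramificationIndex F : ℤ) * v.ord (c a₀)
              ≤ ((wt a₀).ramificationIndex F : ℤ) * v.ord (c a) :=
            mul_le_mul_of_nonneg_left hle he.le
        have h2 : ((idx a₀ : ℕ) : ℤ) < ((wt a₀).ramificationIndex F : ℤ) := by
            exact_mod_cast hi₀
        linarith)
  exact ⟨a₀, hc₀, hmin, key.1, by rw [key.2, hord₀]⟩

end Relative

end Fermat.Agent.S29.H812

end
end
-- ===== PACK-END S29/H812/Fiber.lean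

-- ===== PACK-BEGIN S24/Alg/LocFund.lean
section



/-!
# S24 / ALG-LOC: the fundamental inequality from local data (no Dedekind theory)

For `L : LocalData K F C X t`: at most `ord_v t` of the embeddings `L.σ x` induce a given
place `v` (with residue field `K`).  Hence `|X| ≤ ∑_{v | t} ord_v t`.
-/

set_option autoImplicit false

noncomputable section

open AlgebraicCurve Polynomial

namespace Fermat.Agent.S24.H144

variable {K F : Type*} [Field K] [Field F] [Algebra K F]
variable {C : Type*} [Field C] {X : Type*} {t : F}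

theorem loc_coeff_zero_C (c : C) : (HahnSeries.C c : LaurentSeries C).coeff 0 = c := by
  simp [HahnSeries.C, HahnSeries.coeff_single_same]

/-- The place induced by `L.σ x` lies over `t = 0`. -/
theorem loc_ord_t_pos_of_induces (L : LocalData K F C X t) {x : X} {v : Place K F}
    (hx : Induces (L.σ x) v) : 0 < v.ord t := by
  obtain ⟨g, hg, hord⟩ := loc_exists_mult v (L.σ x) hx
  have h1 := hord t
  have h2 := loc_order_t_pos L x
  rw [h1] at h2
  have hg' : (0 : ℤ) < g := Int.natCast_pos.mpr hg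
  exact (mul_pos_iff_of_pos_left hg').mp h2

/-- **Fibre bound.** At most `ord_v t` of the embeddings induce the place `v`. -/
theorem loc_fibre_card_le [CharZero C] (L : LocalData K F C X t) (v : Place K F)
    (hv : 0 < v.ord t) (hres : ResidueTrivial v) (T : Finset X)
    (hT : ∀ x ∈ T, Induces (L.σ x) v) : (T.card : ℤ) ≤ v.ord t := by
  classical
  obtain ⟨π, hπ⟩ := loc_exists_ord_eq_one v
  have hπ0 : π ≠ 0 := by rintro rfl; simp at hπ
  have ht0 : t ≠ 0 := by rintro rfl; simp at hv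
  obtain ⟨k, hk⟩ : ∃ k : ℕ, v.ord t = (k : ℤ) + 1 := ⟨(v.ord t - 1).toNat, by omega⟩
  -- the unit part of `t`
  set u : F := t * (π ^ (k + 1))⁻¹ with hu
  have hpk : π ^ (k + 1) ≠ 0 := pow_ne_zero _ hπ0
  have hu0 : u ≠ 0 := mul_ne_zero ht0 (inv_ne_zero hpk)
  have hut : t = u * π ^ (k + 1) := by rw [hu]; field_simp
  have hordu : v.ord u = 0 := by
    rw [hu, v.ord_mul ht0 (inv_ne_zero hpk), v.ord_inv, loc_ord_pow, hπ, hk]
    push_cast; ring
  have humem : u ∈ v.toValuationSubring := loc_mem_of_ord_nonneg v hordu.ge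
  -- the residue of `u`
  obtain ⟨c, hc⟩ := hres u humem
  have hucoeff : ∀ x ∈ T, (L.σ x u).coeff 0 = L.ι c := by
    intro x hx
    rcases hc with hc | hc
    · rw [hc, L.σ_const, loc_coeff_zero_C]
    · obtain ⟨g, hg, hord⟩ := loc_exists_mult v (L.σ x) (hT x hx)
      have h1 : 0 < (L.σ x (u - algebraMap K F c)).order := by
        rw [hord]
        exact mul_pos (Int.natCast_pos.mpr hg) hc
      have h2 : (L.σ x (u - algebraMap K F c)).coeff 0 = 0 :=
        HahnSeries.coeff_eq_zero_of_lt_order h1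
      rw [map_sub, HahnSeries.coeff_sub, L.σ_const, loc_coeff_zero_C, sub_eq_zero] at h2
      exact h2
  -- the key relation
  have hrel : ∀ x ∈ T, L.ι c * ((L.σ x π).leadingCoeff) ^ (k + 1) = (L.σ x t).leadingCoeff := by
    intro x hx
    obtain ⟨g, hg, hord⟩ := loc_exists_mult v (L.σ x) (hT x hx)
    have hou : LocBig 0 (L.σ x u) := LocBig.of_le_order (by rw [hord, hordu, mul_zero])
    have hoπ : (L.σ x π).order = g := by rw [hord, hπ, mul_one]
    have hbπ : LocBig (g : ℤ) (L.σ x π) := LocBig.of_le_order hoπ.ge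
    have hot : (L.σ x t).order = ((k + 1 : ℕ) : ℤ) * g := by
      rw [hord, hk]; push_cast; ring
    have h1 := hou.coeff_mul (hbπ.pow (k + 1))
    rw [hbπ.coeff_pow, zero_add, ← map_pow, ← map_mul, ← hut, hucoeff x hx] at h1
    have e1 : (L.σ x π).leadingCoeff = (L.σ x π).coeff g := by
      rw [HahnSeries.leadingCoeff_eq, hoπ]
    have e2 : (L.σ x t).leadingCoeff = (L.σ x t).coeff (((k + 1 : ℕ) : ℤ) * g) := by
      rw [HahnSeries.leadingCoeff_eq, hot]
    rw [e1, e2, h1]
  have hιc : ∀ x ∈ T, L.ι c ≠ 0 := by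
    intro x hx
    rw [← hucoeff x hx]
    obtain ⟨g, hg, hord⟩ := loc_exists_mult v (L.σ x) (hT x hx)
    have ho : (L.σ x u).order = 0 := by rw [hord, hordu, mul_zero]
    rw [← ho]
    exact HahnSeries.coeff_order_eq_zero.not.mpr ((map_ne_zero (L.σ x)).mpr hu0)
  rcases T.eq_empty_or_nonempty with rfl | ⟨x₀, hx₀⟩
  · simp only [Finset.card_empty, Nat.cast_zero]; exact hv.le
  -- all leading coefficients are `(k+1)`-th roots of the same element
  set A : C := (L.σ x₀ t).leadingCoeff * (L.ι c)⁻¹ with hA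
  have hroot : ∀ x ∈ T, (L.σ x π).leadingCoeff ∈ (nthRoots (k + 1) A).toFinset := by
    intro x hx
    rw [Multiset.mem_toFinset, mem_nthRoots (Nat.succ_pos k), hA, L.σ_t_eq x₀ x, ← hrel x hx]
    field_simp [hιc x hx]
  have hinj : Set.InjOn (fun x => (L.σ x π).leadingCoeff) (T : Set X) := by
    intro x hx y hy hxy
    apply L.σ_inj
    exact loc_emb_eq_of_leadingCoeff_eq hres hv hπ L.ι (L.σ x) (L.σ y) (L.σ_const x)
      (L.σ_const y) (hT x hx) (hT y hy) (L.σ_t_eq x y) hxy
  have h1 : T.card ≤ (nthRoots (k + 1) A).toFinset.card :=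
    Finset.card_le_card_of_injOn _ hroot hinj
  have h2 : (nthRoots (k + 1) A).toFinset.card ≤ k + 1 :=
    (Multiset.toFinset_card_le _).trans (card_nthRoots _ _)
  rw [hk]
  have : T.card ≤ k + 1 := h1.trans h2
  exact_mod_cast this

/-- **Fundamental inequality** `|X| ≤ ∑_{v | t} ord_v t`, hypothesis-explicit version. -/
theorem loc_card_le_sum_of_residueTrivial [CharZero C] [Finite X] (L : LocalData K F C X t)
    (hres : ∀ v : Place K F, 0 < v.ord t → ResidueTrivial v)
    (s : Finset (Place K F)) (hs : ∀ v, v ∈ s ↔ 0 < v.ord t) :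
    (Nat.card X : ℤ) ≤ ∑ v ∈ s, v.ord t := by
  classical
  have : Fintype X := Fintype.ofFinite X
  rw [Nat.card_eq_fintype_card, ← Finset.card_univ,
    Finset.card_eq_sum_card_image (locPlace L) Finset.univ]
  push_cast
  have himg : Finset.univ.image (locPlace L) ⊆ s := by
    intro v hv
    obtain ⟨x, _, rfl⟩ := Finset.mem_image.mp hv
    exact (hs _).mpr (loc_ord_t_pos_of_induces L (loc_induces_locPlace L x))
  refine le_trans (Finset.sum_le_sum fun v hv => ?_)
    (Finset.sum_le_sum_of_subset_of_nonneg himg fun v hv _ => ((hs v).mp hv).le)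
  have hvpos : 0 < v.ord t := (hs v).mp (himg hv)
  apply loc_fibre_card_le L v hvpos (hres v hvpos)
  intro x hx
  rw [Finset.mem_filter] at hx
  rw [← hx.2]
  exact loc_induces_locPlace L x

end Fermat.Agent.S24.H144

end
end
-- ===== PACK-END S24/Alg/LocFund.lean

-- ===== PACK-BEGIN S18/B12/H203/RedBasisAbs.lean
section






/-!
# S18 / b2.5, piece A5': reduced basis at a prime `s` with `P/(s)` a PID (`RedBasisAbsStatement`)

Adapter: `H693.exists_redBasis` applied to `B/sB` over `P/(s)`, which is finite and torsion-free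
(`H203.isTorsionFree_quotient`, `H203.finite_quotient`).
-/

set_option autoImplicit false

noncomputable section

namespace Fermat.Agent.S18.B12.H203

open Fermat.Agent.S18.H203

universe u v

/-- Nilpotency in `B/sB` is membership in `rad (sB)`. -/
theorem isNilpotent_redB_iff {P : Type*} {B : Type*} [CommRing P] [CommRing B] [Algebra P B]
    (s : P) (b : B) :
    IsNilpotent (redB (S := P) s b) ↔ b ∈ (Ideal.span {algebraMap P B s}).radical := by
  rw [← map_span_singleton_eq]
  constructor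
  · rintro ⟨k, hk⟩
    rw [← map_pow, Ideal.Quotient.eq_zero_iff_mem] at hk
    exact ⟨k, hk⟩
  · rintro ⟨k, hk⟩
    refine ⟨k, ?_⟩
    rw [← map_pow, Ideal.Quotient.eq_zero_iff_mem]
    exact hk

/-- **A5' (reduced basis at a prime `s` with `P/(s)` a PID).** -/
theorem redBasisAbs.{u₁, v₁} : RedBasisAbsStatement.{u₁, v₁} := by
  intro P _ _ _ B _ _ _ _ _ _ s hs hpid
  let _ : Algebra (FractionRing P) (FractionRing B) := FractionRing.liftAlgebra P _
  have : IsScalarTower P (FractionRing P) (FractionRing B) :=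
    FractionRing.isScalarTower_liftAlgebra P (FractionRing B)
  have : IsIntegralClosure B P (FractionRing B) :=
    IsIntegralClosure.of_isIntegrallyClosed _ _ _
  have hprime : (Ideal.span {s}).IsPrime := (Ideal.span_singleton_prime hs.ne_zero).mpr hs
  have hdom : IsDomain (P ⧸ Ideal.span {s}) := Ideal.Quotient.isDomain _
  have htf : Module.IsTorsionFree (P ⧸ Ideal.span {s})
      (B ⧸ (Ideal.span {s}).map (algebraMap P B)) :=
    isTorsionFree_quotient (B := B) (FractionRing P) (FractionRing B) hs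
  have hfin : Module.Finite (P ⧸ Ideal.span {s})
      (B ⧸ (Ideal.span {s}).map (algebraMap P B)) := finite_quotient (B := B) (Ideal.span {s})
  obtain ⟨r, yb, h1, h2⟩ := Fermat.Agent.S18.B12.H693.exists_redBasis (P ⧸ Ideal.span {s})
    (B ⧸ (Ideal.span {s}).map (algebraMap P B))
  choose y hy using fun i => Ideal.Quotient.mk_surjective (yb i)
  have hsum : ∀ a : Fin r → P,
      redB (S := P) s (∑ i, a i • y i) = ∑ i, redS s (a i) • yb i := by
    intro a
    rw [map_sum]
    refine Finset.sum_congr rfl fun i _ => ?_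
    rw [redB_smul, ← hy i]
  refine ⟨r, y, ?_, ?_⟩
  · intro a ha i
    have h3 : IsNilpotent (∑ i, redS s (a i) • yb i) := by
      rw [← hsum]
      exact (isNilpotent_redB_iff s _).mpr ha
    have h4 := congrFun (h1 _ h3) i
    exact (redS_eq_zero_iff s (a i)).mp h4
  · intro b
    obtain ⟨ab, hab⟩ := h2 (redB (S := P) s b)
    choose a ha using fun i => Ideal.Quotient.mk_surjective (ab i)
    refine ⟨a, ?_⟩
    rw [← isNilpotent_redB_iff, map_sub, hsum]
    have : (fun i => redS s (a i)) = ab := funext ha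
    simp only [this] at *
    have hfun : (∑ i, redS s (a i) • yb i) = ∑ i, ab i • yb i :=
      Finset.sum_congr rfl fun i _ => by rw [← ha i]
    rw [hfun]
    exact hab

end Fermat.Agent.S18.B12.H203

end
end
-- ===== PACK-END S18/B12/H203/RedBasisAbs.lean

-- ===== PACK-BEGIN S22/H262/Lattice.lean
section



set_option autoImplicit false

/-!
# The period lattice: functionals, Hecke stability
-/

open Complex Filter Function Metric Set
open UpperHalfPlane hiding I
open scoped Real Topology Manifold ModularForm MatrixGroups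

namespace Fermat.Agent.S22.H262

open Matrix.SpecialLinearGroup CuspForm

variable {N : ℕ} [NeZero N] {n : ℕ}

theorem hasTower_slash_posInt (f : CuspForm (CongruenceSubgroup.Gamma0 N) ((n : ℤ) + 2))
    {A : GL (Fin 2) ℝ} (hA : A ∈ posInt) : HasTower (⇑f ∣[(n : ℤ) + 2] A) := by
  obtain ⟨g, δ, hδ, h10, rfl⟩ := exists_mapGL_mul_upper hA
  rw [SlashAction.slash_mul]
  exact (hasTower_slash_SL f g).slash_upper n δ hδ.2 h10

theorem hasTower_cuspForm (f : CuspForm (CongruenceSubgroup.Gamma0 N) ((n : ℤ) + 2)) :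
    HasTower (⇑f) := by
  have := hasTower_slash_posInt f (one_mem posInt)
  rwa [SlashAction.slash_one] at this

theorem hasTower_slash_slash (f : CuspForm (CongruenceSubgroup.Gamma0 N) ((n : ℤ) + 2))
    {A B : GL (Fin 2) ℝ} (hA : A ∈ posInt) (hB : B ∈ posInt) :
    HasTower ((⇑f ∣[(n : ℤ) + 2] A) ∣[(n : ℤ) + 2] B) := by
  rw [← SlashAction.slash_mul]
  exact hasTower_slash_posInt f (mul_mem hA hB)

theorem smul_slash_pos (k : ℤ) {A : GL (Fin 2) ℝ} (hA : 0 < A.det.val) (c : ℂ) (h : ℍ → ℂ) :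
    (c • h) ∣[k] A = c • (h ∣[k] A) := by
  rw [ModularForm.smul_slash, UpperHalfPlane.σ, if_pos hA]
  rfl

/-- The functional `f ↦ c_{f|B}(A)(v)`. -/
noncomputable def lamG (N : ℕ) [NeZero N] (n : ℕ) (B A : posInt) (v : ℂ × ℂ) :
    Module.Dual ℂ (CuspForm (CongruenceSubgroup.Gamma0 N) ((n : ℤ) + 2)) where
  toFun f := cocyc n (⇑f ∣[(n : ℤ) + 2] (B : GL (Fin 2) ℝ)) A v
  map_add' f g := by
    rw [FunLike.coe_add, SlashAction.add_slash]
    exact cocyc_add n _ (hasTower_slash_posInt f B.2) (hasTower_slash_posInt g B.2)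
      (hasTower_slash_slash f B.2 A.2) (hasTower_slash_slash g B.2 A.2) v
  map_smul' c f := by
    rw [FunLike.coe_smul, smul_slash_pos _ B.2.2, RingHom.id_apply, smul_eq_mul]
    exact cocyc_smul n _ A.2.2 (hasTower_slash_posInt f B.2) (hasTower_slash_slash f B.2 A.2) c v

theorem lamG_apply (B A : posInt) (v : ℂ × ℂ)
    (f : CuspForm (CongruenceSubgroup.Gamma0 N) ((n : ℤ) + 2)) :
    lamG N n B A v f = cocyc n (⇑f ∣[(n : ℤ) + 2] (B : GL (Fin 2) ℝ)) A v := rfl

/-- The functional `f ↦ c_f(A)(v)`. -/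
noncomputable def lam (N : ℕ) [NeZero N] (n : ℕ) (A : posInt) (v : ℂ × ℂ) :
    Module.Dual ℂ (CuspForm (CongruenceSubgroup.Gamma0 N) ((n : ℤ) + 2)) :=
  lamG N n 1 A v

theorem lam_apply (A : posInt) (v : ℂ × ℂ)
    (f : CuspForm (CongruenceSubgroup.Gamma0 N) ((n : ℤ) + 2)) :
    lam N n A v f = cocyc n (⇑f) A v := by
  rw [lam, lamG_apply]
  simp

/-- The period lattice. -/
noncomputable def periodLattice (N : ℕ) [NeZero N] (n : ℕ) :
    Submodule ℤ (Module.Dual ℂ (CuspForm (CongruenceSubgroup.Gamma0 N) ((n : ℤ) + 2))) :=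
  Submodule.span ℤ {l | ∃ (A : posInt) (v : ℂ × ℂ), v ∈ Vint ∧ l = lam N n A v}

theorem lam_mem_periodLattice (A : posInt) {v : ℂ × ℂ} (hv : v ∈ Vint) :
    lam N n A v ∈ periodLattice N n :=
  Submodule.subset_span ⟨A, v, hv, rfl⟩

/-- Key identity: `c_{f|δ}(A) = c_f(δ A)` for upper triangular `δ`. -/
theorem cocyc_slash_upper (f : CuspForm (CongruenceSubgroup.Gamma0 N) ((n : ℤ) + 2))
    {δ A : GL (Fin 2) ℝ} (hδ : δ ∈ posInt) (h10 : δ 1 0 = 0) (hA : A ∈ posInt) (v : ℂ × ℂ) :
    cocyc n (⇑f ∣[(n : ℤ) + 2] δ) A v = cocyc n (⇑f) (δ * A) v := by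
  rw [cocyc_mul n δ A hδ.2 hA.2 (hasTower_cuspForm f) (hasTower_slash_posInt f hδ)
    (hasTower_slash_posInt f (mul_mem hδ hA)), cocyc_upper n (hasTower_cuspForm f) δ hδ.2 h10,
    zero_add]

theorem heckeMatrix_mem_posInt {p : ℕ} (hp : p ≠ 0) (j : ℕ) :
    ModularForm.heckeMatrix p j ∈ posInt := by
  refine ⟨fun i k => ?_, ModularForm.det_heckeMatrix_pos p j⟩
  have h := ModularForm.val_heckeMatrix hp j
  fin_cases i <;> fin_cases k
  · exact ⟨1, by simp [h]⟩
  · exact ⟨j, by simp [h]⟩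
  · exact ⟨0, by simp [h]⟩
  · exact ⟨p, by simp [h]⟩

theorem heckeDiagMatrix_mem_posInt {p : ℕ} (hp : p ≠ 0) :
    ModularForm.heckeDiagMatrix p ∈ posInt := by
  refine ⟨fun i k => ?_, ModularForm.det_heckeDiagMatrix_pos p⟩
  have h := ModularForm.val_heckeDiagMatrix hp
  fin_cases i <;> fin_cases k
  · exact ⟨p, by simp [h]⟩
  · exact ⟨0, by simp [h]⟩
  · exact ⟨0, by simp [h]⟩
  · exact ⟨1, by simp [h]⟩

theorem heckeMatrix_one_zero {p : ℕ} (hp : p ≠ 0) (j : ℕ) :
    (ModularForm.heckeMatrix p j) 1 0 = 0 := by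
  simp [ModularForm.val_heckeMatrix hp j]

theorem heckeDiagMatrix_one_zero {p : ℕ} (hp : p ≠ 0) :
    (ModularForm.heckeDiagMatrix p) 1 0 = 0 := by
  simp [ModularForm.val_heckeDiagMatrix hp]

theorem cocyc_heckeU (f : CuspForm (CongruenceSubgroup.Gamma0 N) ((n : ℤ) + 2))
    {p : ℕ} (hp : p ≠ 0) (A : posInt) (v : ℂ × ℂ) :
    cocyc n (ModularForm.heckeU ((n : ℤ) + 2) p ⇑f) A v =
      ∑ j ∈ Finset.range p,
        lam N n (⟨ModularForm.heckeMatrix p j, heckeMatrix_mem_posInt hp j⟩ * A) v f := by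
  rw [ModularForm.heckeU_def, cocyc_sum n _ _ _
    (fun j _ => hasTower_slash_posInt f (heckeMatrix_mem_posInt hp j))
    (fun j _ => hasTower_slash_slash f (heckeMatrix_mem_posInt hp j) A.2)]
  refine Finset.sum_congr rfl fun j _ => ?_
  rw [lam_apply, cocyc_slash_upper f (heckeMatrix_mem_posInt hp j) (heckeMatrix_one_zero hp j)
    A.2]
  rfl

theorem cocyc_heckeT (f : CuspForm (CongruenceSubgroup.Gamma0 N) ((n : ℤ) + 2))
    {p : ℕ} (hp : p ≠ 0) (A : posInt) (v : ℂ × ℂ) :
    cocyc n (ModularForm.heckeT ((n : ℤ) + 2) p ⇑f) A v =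
      (∑ j ∈ Finset.range p,
        lam N n (⟨ModularForm.heckeMatrix p j, heckeMatrix_mem_posInt hp j⟩ * A) v f) +
      lam N n (⟨ModularForm.heckeDiagMatrix p, heckeDiagMatrix_mem_posInt hp⟩ * A) v f := by
  have hU : HasTower (ModularForm.heckeU ((n : ℤ) + 2) p ⇑f) := by
    rw [ModularForm.heckeU_def]
    exact (tower_sum _ _
      (fun j _ => hasTower_slash_posInt f (heckeMatrix_mem_posInt hp j))).1
  have hUA : HasTower (ModularForm.heckeU ((n : ℤ) + 2) p ⇑f ∣[(n : ℤ) + 2]
      (A : GL (Fin 2) ℝ)) := by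
    rw [ModularForm.heckeU_def, SlashAction.sum_slash]
    exact (tower_sum _ _
      (fun j _ => hasTower_slash_slash f (heckeMatrix_mem_posInt hp j) A.2)).1
  rw [ModularForm.heckeT_eq_heckeU_add, cocyc_add n _ hU
    (hasTower_slash_posInt f (heckeDiagMatrix_mem_posInt hp)) hUA
    (hasTower_slash_slash f (heckeDiagMatrix_mem_posInt hp) A.2), cocyc_heckeU f hp,
    lam_apply, cocyc_slash_upper f (heckeDiagMatrix_mem_posInt hp)
      (heckeDiagMatrix_one_zero hp) A.2]
  rfl

/-- The period lattice is stable under the Hecke generators. -/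
theorem periodLattice_stable (S : Set ℕ) (T : Module.End ℂ
    (CuspForm (CongruenceSubgroup.Gamma0 N) ((n : ℤ) + 2)))
    (hT : T ∈ heckeGenerators N ((n : ℤ) + 2) S) (l : Module.Dual ℂ
    (CuspForm (CongruenceSubgroup.Gamma0 N) ((n : ℤ) + 2))) (hl : l ∈ periodLattice N n) :
    l ∘ₗ T ∈ periodLattice N n := by
  induction hl using Submodule.span_induction with
  | zero => rw [LinearMap.zero_comp]; exact Submodule.zero_mem _
  | add x y _ _ hx hy => rw [LinearMap.add_comp]; exact Submodule.add_mem _ hx hy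
  | smul a x _ hx =>
    have : (a • x) ∘ₗ T = a • (x ∘ₗ T) := by
      ext f
      simp
    rw [this]
    exact Submodule.smul_mem _ a hx
  | mem x hx =>
    obtain ⟨A, v, hv, rfl⟩ := hx
    rcases hT with ⟨ℓ, hℓ, hℓN, -, rfl⟩ | ⟨q, hqN, hq, -, rfl⟩
    · have hℓ0 : ℓ ≠ 0 := hℓ.ne_zero
      have : lam N n A v ∘ₗ heckeTLin ((n : ℤ) + 2) hℓ hℓN =
          (∑ j ∈ Finset.range ℓ,
            lam N n (⟨ModularForm.heckeMatrix ℓ j, heckeMatrix_mem_posInt hℓ0 j⟩ * A) v) +
          lam N n (⟨ModularForm.heckeDiagMatrix ℓ, heckeDiagMatrix_mem_posInt hℓ0⟩ * A) v := by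
        ext f
        rw [LinearMap.comp_apply, lam_apply, CuspForm.coe_heckeTLin_apply, cocyc_heckeT f hℓ0]
        simp
      rw [this]
      exact Submodule.add_mem _ (Submodule.sum_mem _ fun j _ => lam_mem_periodLattice _ hv)
        (lam_mem_periodLattice _ hv)
    · have hq0 : q ≠ 0 := hq.ne_zero
      have : lam N n A v ∘ₗ heckeULin ((n : ℤ) + 2) hqN =
          (∑ j ∈ Finset.range q,
            lam N n (⟨ModularForm.heckeMatrix q j, heckeMatrix_mem_posInt hq0 j⟩ * A) v) := by
        ext f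
        rw [LinearMap.comp_apply, lam_apply, CuspForm.coe_heckeULin_apply, cocyc_heckeU f hq0]
        simp
      rw [this]
      exact Submodule.sum_mem _ fun j _ => lam_mem_periodLattice _ hv

end Fermat.Agent.S22.H262

end
-- ===== PACK-END S22/H262/Lattice.lean

-- ===== PACK-BEGIN S55/Bridge/H594/Lift.lean
section



/-!
# S55 bridge (helper594), piece B14: lifting decomposition and inertia elements

`F ⊂ ℚ̄` a normal intermediate field, `A` a valuation subring of `ℚ̄` over a prime number `q`.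

* `exists_decomposition_lift`: every `τ ∈ Gal(F/ℚ)` stabilising the prime of `𝓞_F` below `A`
  is the restriction of an element of the decomposition group of `A`;
* `exists_inertia_lift`: every `τ ∈ Gal(F/ℚ)` acting trivially on `𝓞_F` modulo the prime below
  `A` is the restriction of an element of the inertia group of `A`.
-/

set_option autoImplicit false
set_option linter.style.haveILetI false

namespace Fermat.Agent.S55.Bridge.H594

open Fermat.Agent.S54 Fermat.Agent.S55.Bridge
open scoped Pointwise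

attribute [local instance] isAlgebraic_Qbar isGalois_Qbar

section lift

variable (F : IntermediateField ℚ (AlgebraicClosure ℚ))

/-- An algebraic integer fixed by `Gal(ℚ̄/F)` lies in `F`. -/
theorem coe_mem_of_forall_fixingSubgroup_smul_eq
    (b : integralClosure ℤ (AlgebraicClosure ℚ))
    (hb : ∀ h : F.fixingSubgroup, h • b = b) : (b : AlgebraicClosure ℚ) ∈ F := by
  have h1 : (b : AlgebraicClosure ℚ) ∈ IntermediateField.fixedField F.fixingSubgroup := by
    intro h
    exact congrArg Subtype.val (hb h)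
  rwa [InfiniteGalois.fixedField_fixingSubgroup] at h1

variable [Normal ℚ F]

theorem restrictNormalHom_apply (σ : AlgebraicClosure ℚ ≃ₐ[ℚ] AlgebraicClosure ℚ) (x : F) :
    ((AlgEquiv.restrictNormalHom F σ x : F) : AlgebraicClosure ℚ) = σ (x : AlgebraicClosure ℚ) :=
  AlgEquiv.restrictNormal_commutes σ F x

theorem restrictNormalHom_eq_one_of_mem_fixingSubgroup
    (h : AlgebraicClosure ℚ ≃ₐ[ℚ] AlgebraicClosure ℚ) (hh : h ∈ F.fixingSubgroup) :
    AlgEquiv.restrictNormalHom F h = 1 := by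
  apply AlgEquiv.ext
  intro x
  apply Subtype.ext
  rw [restrictNormalHom_apply]
  exact (IntermediateField.mem_fixingSubgroup_iff F h).mp hh x x.2

variable (A : ValuationSubring (AlgebraicClosure ℚ))

/-- **B14, decomposition part.**  If `τ ∈ Gal(F/ℚ)` preserves the non-units of `A` among the
integers of `F`, then `τ` lifts to the decomposition group of `A`. -/
theorem exists_decomposition_lift {q : ℕ} (hq : q.Prime) (hA : A.LiesOverPrime q)
    (τ : F ≃ₐ[ℚ] F)
    (hτ : ∀ x : F, IsIntegral ℤ x →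
      (((τ x : F) : AlgebraicClosure ℚ) ∈ A.nonunits ↔ (x : AlgebraicClosure ℚ) ∈ A.nonunits)) :
    ∃ σ ∈ A.decompositionSubgroup ℚ, AlgEquiv.restrictNormalHom F σ = τ := by
  letI : TopologicalSpace (integralClosure ℤ (AlgebraicClosure ℚ)) := ⊥
  haveI : DiscreteTopology (integralClosure ℤ (AlgebraicClosure ℚ)) := ⟨rfl⟩
  haveI := continuousSMul_integralClosure
  haveI := primeBelow_isPrime A
  obtain ⟨τ₀, hτ₀⟩ := AlgEquiv.restrictNormalHom_surjective (F := ℚ) (K₁ := F)
    (AlgebraicClosure ℚ) τ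
  haveI : (τ₀ • primeBelow A).IsPrime := by
    rw [Ideal.pointwise_smul_eq_comap]
    exact Ideal.comap_isPrime _ _
  have hPQ : ∀ b : integralClosure ℤ (AlgebraicClosure ℚ),
      (∀ h : F.fixingSubgroup, h • b = b) → (b ∈ primeBelow A ↔ b ∈ τ₀ • primeBelow A) := by
    intro b hb
    have hbF : (b : AlgebraicClosure ℚ) ∈ F := coe_mem_of_forall_fixingSubgroup_smul_eq F b hb
    rw [Ideal.mem_pointwise_smul_iff_inv_smul_mem, mem_primeBelow, mem_primeBelow, coe_smul]
    -- `x = τ⁻¹ b`
    have hx : IsIntegral ℤ (τ⁻¹ ⟨(b : AlgebraicClosure ℚ), hbF⟩ : F) := by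
      have hbint : IsIntegral ℤ (⟨(b : AlgebraicClosure ℚ), hbF⟩ : F) := by
        have := b.2
        exact (isIntegral_algebraMap_iff
          (FaithfulSMul.algebraMap_injective F (AlgebraicClosure ℚ))).mp this
      exact hbint.map (τ⁻¹ : F ≃ₐ[ℚ] F)
    have h1 := hτ _ hx
    have h2 : τ (τ⁻¹ ⟨(b : AlgebraicClosure ℚ), hbF⟩ : F) = ⟨(b : AlgebraicClosure ℚ), hbF⟩ := by
      show (τ * τ⁻¹) _ = _
      rw [mul_inv_cancel]; rfl
    rw [h2] at h1
    have h3 : ((τ⁻¹ ⟨(b : AlgebraicClosure ℚ), hbF⟩ : F) : AlgebraicClosure ℚ) =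
        τ₀⁻¹ (b : AlgebraicClosure ℚ) := by
      rw [← hτ₀, ← map_inv, restrictNormalHom_apply]
    rw [h3] at h1
    exact h1
  obtain ⟨h, hh⟩ := exists_smul_eq_of_forall_fixed_mem_iff (B := integralClosure ℤ (AlgebraicClosure ℚ))
    F.fixingSubgroup (InfiniteGalois.fixingSubgroup_isClosed F) (τ₀ • primeBelow A)
    (primeBelow A) (fun b hb => (hPQ b hb).symm)
  refine ⟨(h : AlgebraicClosure ℚ ≃ₐ[ℚ] AlgebraicClosure ℚ) * τ₀, ?_, ?_⟩
  · rw [mem_decompositionSubgroup_iff_smul_primeBelow A hq hA, mul_smul, ← hh]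
  · rw [map_mul, restrictNormalHom_eq_one_of_mem_fixingSubgroup F h h.2, one_mul, hτ₀]

/-- **B14, inertia part.**  If `τ ∈ Gal(F/ℚ)` acts trivially modulo the non-units of `A` on the
integers of `F`, then `τ` lifts to the inertia group of `A`. -/
theorem exists_inertia_lift {q : ℕ} (hq : q.Prime) (hA : A.LiesOverPrime q)
    (τ : F ≃ₐ[ℚ] F)
    (hτ : ∀ x : F, IsIntegral ℤ x →
      ((τ x : F) : AlgebraicClosure ℚ) - (x : AlgebraicClosure ℚ) ∈ A.nonunits) :
    ∃ σ ∈ A.inertiaSubgroupIn ℚ, AlgEquiv.restrictNormalHom F σ = τ := by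
  letI : TopologicalSpace (integralClosure ℤ (AlgebraicClosure ℚ)) := ⊥
  haveI : DiscreteTopology (integralClosure ℤ (AlgebraicClosure ℚ)) := ⟨rfl⟩
  haveI := continuousSMul_integralClosure
  haveI := primeBelow_isPrime A
  have hτ' : ∀ x : F, IsIntegral ℤ x →
      (((τ x : F) : AlgebraicClosure ℚ) ∈ A.nonunits ↔
        (x : AlgebraicClosure ℚ) ∈ A.nonunits) := by
    intro x hx
    constructor
    · intro h
      have := A.nonunits.sub_mem h (hτ x hx)
      simpa using this
    · intro h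
      have := A.nonunits.add_mem (hτ x hx) h
      simpa using this
  obtain ⟨σ₁, hσ₁D, hσ₁⟩ := exists_decomposition_lift F A hq hA τ hτ'
  have hσ₁P : σ₁ • primeBelow A = primeBelow A :=
    (mem_decompositionSubgroup_iff_smul_primeBelow A hq hA σ₁).mp hσ₁D
  have hfix : ∀ b : integralClosure ℤ (AlgebraicClosure ℚ),
      (∀ h : F.fixingSubgroup, h • b = b) → σ₁ • b - b ∈ primeBelow A := by
    intro b hb
    have hbF : (b : AlgebraicClosure ℚ) ∈ F := coe_mem_of_forall_fixingSubgroup_smul_eq F b hb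
    have hbint : IsIntegral ℤ (⟨(b : AlgebraicClosure ℚ), hbF⟩ : F) :=
      (isIntegral_algebraMap_iff
        (FaithfulSMul.algebraMap_injective F (AlgebraicClosure ℚ))).mp b.2
    have h1 := hτ _ hbint
    rw [← hσ₁, restrictNormalHom_apply] at h1
    exact h1
  obtain ⟨h, hhP, hh⟩ := exists_stabilizer_congr_of_forall_fixed
    (B := integralClosure ℤ (AlgebraicClosure ℚ)) F.fixingSubgroup
    (InfiniteGalois.fixingSubgroup_isClosed F) (primeBelow A) σ₁ hσ₁P hfix
  have hhP' : ∀ b : integralClosure ℤ (AlgebraicClosure ℚ),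
      b ∈ primeBelow A → (h : AlgebraicClosure ℚ ≃ₐ[ℚ] AlgebraicClosure ℚ)⁻¹ • b ∈ primeBelow A := by
    intro b hb
    have := (smul_primeBelow_eq_iff A _).mp hhP
      ((h : AlgebraicClosure ℚ ≃ₐ[ℚ] AlgebraicClosure ℚ)⁻¹ • b)
    rw [smul_inv_smul] at this
    exact this.mp hb
  refine ⟨(h : AlgebraicClosure ℚ ≃ₐ[ℚ] AlgebraicClosure ℚ)⁻¹ * σ₁, ?_, ?_⟩
  · rw [mem_inertiaSubgroupIn_iff_primeBelow A hq hA]
    intro b
    have h1 : σ₁ • b - (h : AlgebraicClosure ℚ ≃ₐ[ℚ] AlgebraicClosure ℚ) • b ∈ primeBelow A := by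
      have := (primeBelow A).neg_mem (hh b)
      simpa using this
    have h2 := hhP' _ h1
    rw [smul_sub, inv_smul_smul] at h2
    rw [mul_smul]
    exact h2
  · rw [map_mul, map_inv, restrictNormalHom_eq_one_of_mem_fixingSubgroup F h h.2, inv_one,
      one_mul, hσ₁]

end lift

end Fermat.Agent.S55.Bridge.H594

end
-- ===== PACK-END S55/Bridge/H594/Lift.lean

-- ===== PACK-BEGIN A2/Mod/H732/SepGauss.lean
section



/-!
# A2 / MOD, piece S4 (SepCoord producer), part 3 (helper732): integral basis with discriminant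
prime to `ϖ`, in the `H48.GaussPair` framework

`R` factorial with prime `ϖ`, `R[X]` integrally closed, `K = Frac R[X]`, `F / K` finite,
`GaussPair ϖ V₁ V₂ b c` (two extensions of the Gauss valuation, `e = 1`, residue degrees
`f₁ + f₂ = [F : K]`) with separable residue extensions (liftable elementwise form over `R[X]`).
Then there are `[F : K]` elements of `F`, integral over `R[X]`, `K`-linearly independent, whose
discriminant is `d(X)` with `d ∈ R[X]` not divisible by `ϖ`.

* `GaussPair.exists_mul_isIntegral` : elements of `V₁ ∩ V₂` are integral over `R[X]` up to a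
  denominator prime to `ϖ`;
* `GaussPair.exists_integral_basis_discr` : the theorem.
-/

set_option autoImplicit false
set_option linter.style.haveILetI false
set_option linter.unusedSectionVars false

noncomputable section

namespace Fermat.Agent.A2.Mod.H732

open Polynomial Fermat.Agent.A2.H48

variable {R : Type*} [CommRing R] [IsDomain R] [UniqueFactorizationMonoid R]
variable {K F : Type*} [Field K] [Field F] [Algebra R[X] K] [IsFractionRing R[X] K]
  [Algebra K F] [Algebra R[X] F] [IsScalarTower R[X] K F]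
variable {ϖ : R} {V₁ V₂ : ValuationSubring F} {f₁ f₂ : ℕ} {b : Fin f₁ → F} {c : Fin f₂ → F}

/-- Elements of `V₁ ∩ V₂` are integral over `R[X]` up to a denominator prime to `ϖ`. -/
theorem exists_mul_isIntegral [FiniteDimensional K F] (h : GaussPair (K := K) ϖ V₁ V₂ b c)
    {z : F} (hz₁ : z ∈ V₁) (hz₂ : z ∈ V₂) :
    ∃ g : R[X], ¬ C ϖ ∣ g ∧ IsIntegral R[X] (algebraMap R[X] F g * z) := by
  classical
  obtain ⟨p, hp, hpc, hpz⟩ := h.exists_monic_of_mem hz₁ hz₂
  have hex : ∀ i : ℕ, ∃ P Q : R[X], ¬ C ϖ ∣ Q ∧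
      p.coeff i = algebraMap R[X] K P / algebraMap R[X] K Q := fun i =>
    exists_div_of_mem_gaussRing h.prime h.unif₁ h.poly₁ h.gauss₁ (hpc i)
  choose P Q hQ hPQ using hex
  have hQ0 : ∀ i, algebraMap R[X] K (Q i) ≠ 0 := by
    intro i h0
    have := (IsFractionRing.injective R[X] K) (h0.trans (map_zero _).symm)
    exact hQ i (this ▸ dvd_zero _)
  set g : R[X] := ∏ i ∈ Finset.range p.natDegree, Q i with hg
  have hgϖ : ¬ C ϖ ∣ g := by
    rw [hg, (prime_C h.prime).dvd_finsetProd_iff]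
    rintro ⟨i, -, hi⟩
    exact hQ i hi
  have hgcoef : ∀ i ∈ Finset.range p.natDegree,
      p.coeff i * algebraMap R[X] K g ∈ Set.range (algebraMap R[X] K) := by
    intro i hi
    refine ⟨P i * ∏ j ∈ (Finset.range p.natDegree).erase i, Q j, ?_⟩
    rw [hg, ← Finset.mul_prod_erase _ _ hi, map_mul, map_mul, hPQ i]
    field_simp [hQ0 i]
  refine ⟨g, hgϖ, ?_⟩
  set q := p.scaleRoots (algebraMap R[X] K g) with hq
  have hqm : q.Monic := (monic_scaleRoots_iff _).2 hp
  have hqlift : q ∈ lifts (algebraMap R[X] K) := by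
    rw [lifts_iff_coeff_lifts]
    intro i
    rw [hq, coeff_scaleRoots]
    rcases lt_trichotomy i p.natDegree with hi | hi | hi
    · obtain ⟨r, hr⟩ : ∃ r, p.natDegree - i = r + 1 := ⟨p.natDegree - i - 1, by omega⟩
      obtain ⟨a, ha⟩ := hgcoef i (Finset.mem_range.2 hi)
      refine ⟨a * g ^ r, ?_⟩
      rw [map_mul, map_pow, ha, hr, pow_succ]
      ring
    · refine ⟨1, ?_⟩
      rw [hi, hp.coeff_natDegree, Nat.sub_self, pow_zero, mul_one, map_one]
    · refine ⟨0, ?_⟩
      rw [coeff_eq_zero_of_natDegree_lt hi, zero_mul, map_zero]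
  obtain ⟨q', hq', -, hq'm⟩ := lifts_and_natDegree_eq_and_monic hqlift hqm
  refine ⟨q', hq'm, ?_⟩
  have e : eval₂ (algebraMap R[X] F) (algebraMap R[X] F g * z) q' =
      aeval (algebraMap K F (algebraMap R[X] K g) * z) (q'.map (algebraMap R[X] K)) := by
    rw [aeval_def, eval₂_map, ← IsScalarTower.algebraMap_eq, map_eq]
  rw [e, hq', hq]
  exact scaleRoots_aeval_eq_zero hpz

/-- **Integral basis with discriminant prime to `ϖ`.** -/
theorem exists_integral_basis_discr [FiniteDimensional K F] [IsIntegrallyClosed R[X]]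
    (h : GaussPair (K := K) ϖ V₁ V₂ b c)
    (hs₁ : ∀ f : F, f ∈ V₁ → f ∈ V₂ → ∃ Q : R[X][X],
        V₁.valuation (Q.eval₂ (algebraMap R[X] F) f) < 1 ∧
        V₁.valuation ((derivative Q).eval₂ (algebraMap R[X] F) f) = 1)
    (hs₂ : ∀ f : F, f ∈ V₁ → f ∈ V₂ → ∃ Q : R[X][X],
        V₂.valuation (Q.eval₂ (algebraMap R[X] F) f) < 1 ∧
        V₂.valuation ((derivative Q).eval₂ (algebraMap R[X] F) f) = 1) :
    ∃ y : Fin (f₁ + f₂) → F, (∀ i, IsIntegral R[X] (y i)) ∧ LinearIndependent K y ∧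
      ∃ d : R[X], ¬ C ϖ ∣ d ∧ algebraMap R[X] K d = Algebra.discr K y := by
  classical
  have T := h.twoExt
  set O := gaussRing K V₁ with hOdef
  set ϖK := algebraMap R[X] K (C ϖ) with hϖK
  obtain ⟨m, hm⟩ := T.exists_good
  have hcard : Fintype.card (Fin f₁ ⊕ Fin f₂) = Module.finrank K F := by
    rw [Fintype.card_sum, Fintype.card_fin, Fintype.card_fin, h.card]
  haveI : Nonempty (Fin f₁ ⊕ Fin f₂) := by
    rw [← Fintype.card_pos_iff, hcard]; exact Module.finrank_pos
  -- polynomials over `R[X]` as polynomials over the Gauss ring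
  let ψ : R[X] →+* O :=
    { toFun := fun P => ⟨algebraMap R[X] K P, by
        rw [hOdef, mem_gaussRing, map_eq]; exact h.poly₁ P⟩
      map_one' := Subtype.ext (map_one _)
      map_mul' := fun P Q => Subtype.ext (map_mul _ P Q)
      map_zero' := Subtype.ext (map_zero _)
      map_add' := fun P Q => Subtype.ext (map_add _ P Q) }
  have hψ : ((algebraMap K F).comp O.subtype).comp ψ = algebraMap R[X] F := by
    ext P
    · show algebraMap K F (algebraMap R[X] K (C P)) = algebraMap R[X] F (C P)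
      exact map_eq (C P)
    · show algebraMap K F (algebraMap R[X] K X) = algebraMap R[X] F X
      exact map_eq X
  have hconv : ∀ (Q : R[X][X]) (f : F),
      (Q.map ψ).eval₂ ((algebraMap K F).comp O.subtype) f = Q.eval₂ (algebraMap R[X] F) f := by
    intro Q f
    rw [eval₂_map, hψ]
  have hs₁' : ∀ f : F, f ∈ V₁ → f ∈ V₂ → ∃ Q : Polynomial O,
      V₁.valuation (Q.eval₂ ((algebraMap K F).comp O.subtype) f) < 1 ∧
      V₁.valuation ((derivative Q).eval₂ ((algebraMap K F).comp O.subtype) f) = 1 := by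
    intro f hf1 hf2
    obtain ⟨Q, hQ1, hQ2⟩ := hs₁ f hf1 hf2
    refine ⟨Q.map ψ, ?_, ?_⟩
    · rw [hconv]; exact hQ1
    · rw [derivative_map, hconv]; exact hQ2
  have hs₂' : ∀ f : F, f ∈ V₁ → f ∈ V₂ → ∃ Q : Polynomial O,
      V₂.valuation (Q.eval₂ ((algebraMap K F).comp O.subtype) f) < 1 ∧
      V₂.valuation ((derivative Q).eval₂ ((algebraMap K F).comp O.subtype) f) = 1 := by
    intro f hf1 hf2
    obtain ⟨Q, hQ1, hQ2⟩ := hs₂ f hf1 hf2
    refine ⟨Q.map ψ, ?_, ?_⟩
    · rw [hconv]; exact hQ1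
    · rw [derivative_map, hconv]; exact hQ2
  have hdm : O.valuation (Algebra.discr K m) = 1 :=
    discr_unit_of_isGood T.unifO T.unif₁ T.unif₂ T.le₁ T.le₂ T.ne hm hcard hs₁' hs₂'
  -- clearing denominators
  have hex : ∀ l, ∃ g : R[X], ¬ C ϖ ∣ g ∧ IsIntegral R[X] (algebraMap R[X] F g * m l) :=
    fun l => exists_mul_isIntegral h (hm.1 l) (hm.2.1 l)
  choose g hgϖ hgint using hex
  set G : R[X] := ∏ l, g l with hG
  have hGϖ : ¬ C ϖ ∣ G := by
    rw [hG, (prime_C h.prime).dvd_finsetProd_iff]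
    rintro ⟨l, -, hl⟩
    exact hgϖ l hl
  set GK : K := algebraMap R[X] K G with hGK
  have hGK0 : GK ≠ 0 := by
    intro h0
    have := (IsFractionRing.injective R[X] K) (h0.trans (map_zero _).symm)
    exact hGϖ (this ▸ dvd_zero _)
  set y₀ : Fin f₁ ⊕ Fin f₂ → F := fun l => algebraMap R[X] F G * m l with hy₀
  have hy₀int : ∀ l, IsIntegral R[X] (y₀ l) := by
    intro l
    have e : y₀ l = algebraMap R[X] F (∏ l' ∈ Finset.univ.erase l, g l') *
        (algebraMap R[X] F (g l) * m l) := by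
      rw [hy₀, hG, ← Finset.mul_prod_erase _ _ (Finset.mem_univ l), map_mul]
      ring
    rw [e]
    exact isIntegral_algebraMap.mul (hgint l)
  have hy₀smul : ∀ l, y₀ l = GK • m l := by
    intro l
    rw [hy₀, Algebra.smul_def, hGK, map_eq]
  -- the discriminant of `y₀`
  have hdy₀ : Algebra.discr K y₀ = (GK ^ 2) ^ (f₁ + f₂) * Algebra.discr K m := by
    have hmat : Algebra.traceMatrix K y₀ = GK ^ 2 • Algebra.traceMatrix K m := by
      ext i j
      rw [Matrix.smul_apply, Algebra.traceMatrix_apply, Algebra.traceMatrix_apply,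
        Algebra.traceForm_apply, Algebra.traceForm_apply, hy₀smul, hy₀smul, smul_mul_smul_comm,
        map_smul, pow_two]
    rw [Algebra.discr_def, Algebra.discr_def, hmat, Matrix.det_smul, Fintype.card_sum,
      Fintype.card_fin, Fintype.card_fin]
  have hGKinv : O.valuation GK = 1 := by
    have h1 : GK ∈ O := by rw [hOdef, mem_gaussRing, hGK, map_eq]; exact h.poly₁ G
    have h2 : GK⁻¹ ∈ O := by
      rw [hOdef, mem_gaussRing, map_inv₀, hGK, map_eq]; exact h.gauss₁ G hGϖ
    have h3 : O.valuation GK ≤ 1 := (O.valuation_le_one_iff _).2 h1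
    have h4 : O.valuation GK⁻¹ ≤ 1 := (O.valuation_le_one_iff _).2 h2
    rw [map_inv₀] at h4
    have h5 : O.valuation GK ≠ 0 := (Valuation.ne_zero_iff _).2 hGK0
    have h6 : 1 ≤ O.valuation GK := (inv_le_one₀ (zero_lt_iff.2 h5)).1 h4
    exact le_antisymm h3 h6
  have hvy₀ : O.valuation (Algebra.discr K y₀) = 1 := by
    rw [hdy₀, map_mul, map_pow, map_pow, hGKinv, hdm, one_pow, one_pow, one_mul]
  have hli₀ : LinearIndependent K y₀ := by
    by_contra hcon
    rw [Algebra.discr_zero_of_not_linearIndependent K hcon, map_zero] at hvy₀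
    exact zero_ne_one hvy₀
  -- reindexing
  let B₀ : Module.Basis (Fin f₁ ⊕ Fin f₂) K F :=
    basisOfLinearIndependentOfCardEqFinrank hli₀ hcard
  have hB₀ : ⇑B₀ = y₀ := coe_basisOfLinearIndependentOfCardEqFinrank hli₀ hcard
  refine ⟨y₀ ∘ finSumFinEquiv.symm, fun i => hy₀int _, ?_, ?_⟩
  · exact hli₀.comp _ finSumFinEquiv.symm.injective
  · have hre : Algebra.discr K (y₀ ∘ finSumFinEquiv.symm) = Algebra.discr K y₀ := by
      have := Algebra.discr_reindex K B₀ finSumFinEquiv
      rwa [hB₀] at this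
    obtain ⟨d, hd⟩ := (IsIntegrallyClosed.isIntegral_iff (R := R[X]) (K := K)).1
      (Algebra.discr_isIntegral K hy₀int)
    refine ⟨d, ?_, ?_⟩
    · rintro ⟨d', rfl⟩
      rw [map_mul] at hd
      have h1 : O.valuation (algebraMap R[X] K (C ϖ) * algebraMap R[X] K d') = 1 := by
        rw [hd]; exact hvy₀
      rw [map_mul] at h1
      have h2 : O.valuation (algebraMap R[X] K (C ϖ)) < 1 := T.unifO.val_lt_one
      have h3 : O.valuation (algebraMap R[X] K d') ≤ 1 := by
        rw [O.valuation_le_one_iff, hOdef, mem_gaussRing, map_eq]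
        exact h.poly₁ d'
      have h4 : O.valuation (algebraMap R[X] K (C ϖ)) * O.valuation (algebraMap R[X] K d') < 1 := by
        calc O.valuation (algebraMap R[X] K (C ϖ)) * O.valuation (algebraMap R[X] K d')
            ≤ O.valuation (algebraMap R[X] K (C ϖ)) * 1 := mul_le_mul_right h3 _
          _ < 1 := by rw [mul_one]; exact h2
      rw [h1] at h4
      exact lt_irrefl _ h4
    · rw [hd, hre]

end Fermat.Agent.A2.Mod.H732

end
end
-- ===== PACK-END A2/Mod/H732/SepGauss.lean

-- ===== PACK-BEGIN Lib/Haupt/Analytic.lean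
section





/-!
# `q`-expansions of `E₄`, `Δ` and their level-raised versions (helper637)
-/

set_option autoImplicit false

open UpperHalfPlane ModularForm CongruenceSubgroup MatrixGroups
open Matrix.SpecialLinearGroup Filter Topology
open scoped Manifold

noncomputable section

namespace Fermat.Agent.Lib.Haupt

open Fermat.Agent.S24.JFun

local notation "𝕢" => Function.Periodic.qParam

/-- The discriminant as a level-one modular form. -/
def DeltaMF : ModularForm 𝒮ℒ 12 := CuspForm.toModularFormₗ CuspForm.discriminant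

theorem coe_DeltaMF : (DeltaMF : ℍ → ℂ) = ModularForm.discriminant := rfl

theorem analyticAt_qParam : AnalyticAt ℂ (cuspFunction 1 (fun τ : ℍ => 𝕢 1 (τ : ℂ))) 0 :=
  ofQ_analyticAt (g := fun q => q) differentiableOn_id

theorem qExpansion_qParam : qExpansion 1 (fun τ : ℍ => 𝕢 1 (τ : ℂ)) = PowerSeries.X := by
  ext m
  rw [PowerSeries.coeff_X]
  refine qExpansion_coeff_unique_fun (c := fun m => if m = 1 then 1 else 0) analyticAt_qParam
    (fun τ => ?_) m
  have h := hasSum_ite_eq (1 : ℕ) (𝕢 1 (τ : ℂ))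
  have hfun : (fun m : ℕ => (if m = 1 then (1 : ℂ) else 0) • 𝕢 1 (τ : ℂ) ^ m)
      = fun m : ℕ => if m = 1 then 𝕢 1 (τ : ℂ) else 0 := by
    funext m
    split_ifs with hm
    · rw [hm, pow_one, one_smul]
    · rw [zero_smul]
  rw [hfun]
  exact h

theorem qExpansion_DeltaMF :
    qExpansion 1 DeltaMF = DeltaZ.map (Int.castRingHom ℂ) := by
  have hfun : (DeltaMF : ℍ → ℂ) = (fun τ : ℍ => 𝕢 1 (τ : ℂ)) * (fun τ => eulerFun τ ^ 24) := by
    funext τ
    rw [coe_DeltaMF]
    exact discriminant_eq_q_mul_eulerFun τ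
  rw [hfun, qExpansion_mul analyticAt_qParam (analyticAt_eulerFun_pow 24), qExpansion_qParam,
    qExpansion_eulerFun_pow, DeltaZ, map_mul, map_pow, PowerSeries.map_X]

theorem qExpansion_E4 :
    qExpansion 1 (E₄ : ModularForm 𝒮ℒ 4) = ModularCurve.eisenstein4.map (Int.castRingHom ℂ) :=
  qExpansion_E₄

end Fermat.Agent.Lib.Haupt

end
end
-- ===== PACK-END Lib/Haupt/Analytic.lean

-- ===== PACK-BEGIN S28/H386/PrimeLevel.lean
section
/-
S28 [L] (helper386): prime level.  From `ModPolyData p` (the modular polynomial `Φ_p` with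
`Φ_p(j_p, j) = 0 = Φ_p(j, j_p)`) we derive, purely formally in `k((q))`:

* `Φ_p(X, j) = (X - j_p) · B'` with `B'` irreducible over `k((q))` of degree `p`;
* degrees of `j_p` over fields containing `j`, and of `j` over subfields of the range of `V_p`.
-/



set_option autoImplicit false

noncomputable section

open ModularCurve HahnSeries Polynomial

namespace Fermat.Agent.S28.H386

/-! ### Generalities on `Φ(X, y)` -/

section PhiAt

variable {S T : Type*} [CommRing S] [CommRing T]

/-- Evaluation `ℤ[Y] → S`, `Y ↦ y` (instance-free form). -/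
def intEval (y : S) : Polynomial ℤ →+* S := Polynomial.eval₂RingHom (Int.castRingHom S) y

@[simp] theorem intEval_X (y : S) : intEval y Polynomial.X = y := by simp [intEval]

theorem eq_intEval (h : Polynomial ℤ →+* S) : h = intEval (h Polynomial.X) := by
  refine Polynomial.ringHom_ext' (Subsingleton.elim _ _) ?_
  simp

theorem ringHom_comp_intEval (g : S →+* T) (y : S) :
    g.comp (intEval y) = intEval (g y) := by
  rw [eq_intEval (g.comp (intEval y))]; simp

/-- `Φ(X, y)` as a polynomial over `S`. -/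
def phiAt (Φ : Polynomial (Polynomial ℤ)) (y : S) : S[X] :=
  Φ.map (intEval y)

theorem phiAt_map (Φ : Polynomial (Polynomial ℤ)) (g : S →+* T) (y : S) :
    (phiAt Φ y).map g = phiAt Φ (g y) := by
  rw [phiAt, Polynomial.map_map, ringHom_comp_intEval, phiAt]

theorem eval_phiAt (Φ : Polynomial (Polynomial ℤ)) (y x : S) :
    (phiAt Φ y).eval x = Φ.eval₂ (intEval y) x :=
  Polynomial.eval_map _ _

theorem phiAt_monic {Φ : Polynomial (Polynomial ℤ)} (h : Φ.Monic) (y : S) :
    (phiAt Φ y).Monic := h.map _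

theorem natDegree_phiAt [Nontrivial S] {Φ : Polynomial (Polynomial ℤ)} (h : Φ.Monic) (y : S) :
    (phiAt Φ y).natDegree = Φ.natDegree := h.natDegree_map _

theorem eval_phiAt_hom (Φ : Polynomial (Polynomial ℤ)) (g : S →+* T) (y x : S) :
    (phiAt Φ (g y)).eval (g x) = g ((phiAt Φ y).eval x) := by
  rw [← phiAt_map, Polynomial.eval_map, Polynomial.eval₂_hom]

theorem evalAt_eq_intEval {A : Type*} [CommRing A] (y : LaurentSeries A) :
    evalAt y = intEval y := by
  rw [eq_intEval (evalAt y)]; simp [evalAt]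

end PhiAt

variable {k : Type*} [Field k]

/-- `j(q^d)`. -/
abbrev jd (k : Type*) [Field k] (d : ℕ) [NeZero d] : LaurentSeries k := qExpand k d (jqModC k)

theorem jd_ne_zero (d : ℕ) [NeZero d] : jd k d ≠ 0 := qExpand_ne_zero d jqModC_ne_zero

theorem order_jd (d : ℕ) [NeZero d] : (jd k d).order = -(d : ℤ) := by
  rw [jd, order_qExpand, order_jqModC]; ring

theorem jd_injective {d e : ℕ} [NeZero d] [NeZero e] (h : jd k d = jd k e) : d = e := by
  have := congrArg HahnSeries.order h
  rw [order_jd, order_jd] at this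
  omega

theorem qExpand_jd (e d : ℕ) [NeZero e] [NeZero d] :
    qExpand k e (jd k d) = jd k (e * d) := qExpand_qExpand d e _

theorem coeffMap_comp_evalAt (k : Type*) [Field k] (y : LaurentSeries ℤ) :
    (coeffMap (Int.castRingHom k)).comp (evalAt y)
      = intEval (coeffMap (Int.castRingHom k) y) := by
  rw [evalAt_eq_intEval, ringHom_comp_intEval]

section Data

variable {p : ℕ} [NeZero p] (D : ModPolyData p)

/-- `Φ_p(j_p, j) = 0` over any field. -/
theorem eval_jp_field (k : Type*) [Field k] :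
    (phiAt D.Φ (jqModC k)).eval (jd k p) = 0 := by
  have h := congrArg (coeffMap (Int.castRingHom k)) D.eval_jp
  rw [Polynomial.hom_eval₂, map_zero, coeffMap_comp_evalAt, coeffMap_qExpand,
    coeffMap_jqModC] at h
  rw [eval_phiAt]
  exact h

/-- `Φ_p(j, j_p) = 0` over any field. -/
theorem eval_j_field (k : Type*) [Field k] :
    (phiAt D.Φ (jd k p)).eval (jqModC k) = 0 := by
  have h := congrArg (coeffMap (Int.castRingHom k)) D.eval_j
  rw [Polynomial.hom_eval₂, map_zero, coeffMap_comp_evalAt, coeffMap_qExpand,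
    coeffMap_jqModC] at h
  rw [eval_phiAt]
  exact h

/-- `Φ_p(j_{dp}, j_d) = 0`. -/
theorem eval_jdp (k : Type*) [Field k] (d : ℕ) [NeZero d] :
    (phiAt D.Φ (jd k d)).eval (jd k (d * p)) = 0 := by
  have h := congrArg (qExpand k d) (eval_jp_field D k)
  rw [map_zero, ← eval_phiAt_hom, qExpand_jd] at h
  exact h

/-- `Φ_p(j_d, j_{dp}) = 0`. -/
theorem eval_jd (k : Type*) [Field k] (d : ℕ) [NeZero d] :
    (phiAt D.Φ (jd k (d * p))).eval (jd k d) = 0 := by
  have h := congrArg (qExpand k d) (eval_j_field D k)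
  rw [map_zero, ← eval_phiAt_hom, qExpand_jd] at h
  exact h

end Data

/-! ### The factorisation `Φ_p(X, j) = (X - j_p) · B'` over `k((q))` -/

section Factor

variable {p : ℕ} [NeZero p] (D : ModPolyData p) (k : Type*) [Field k]

/-- The cofactor `B' = Φ_p(X, j) / (X - j_p)`. -/
def cofB : (LaurentSeries k)[X] := phiAt D.Φ (jqModC k) /ₘ (X - Polynomial.C (jd k p))

theorem phiAt_j_eq : phiAt D.Φ (jqModC k) = (X - Polynomial.C (jd k p)) * cofB D k :=
  (Polynomial.mul_divByMonic_eq_iff_isRoot.mpr (eval_jp_field D k)).symm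

theorem cofB_monic : (cofB D k).Monic := by
  have h := phiAt_monic D.monic (jqModC k)
  rw [phiAt_j_eq] at h
  exact (Polynomial.monic_X_sub_C _).of_mul_monic_left h

theorem natDegree_cofB : (cofB D k).natDegree = p := by
  rw [cofB, Polynomial.natDegree_divByMonic _ (Polynomial.monic_X_sub_C _),
    natDegree_phiAt D.monic, D.natDegree_eq, Polynomial.natDegree_X_sub_C]
  omega

theorem cofB_ne_one : cofB D k ≠ 1 := by
  intro h
  have := natDegree_cofB D k
  rw [h, Polynomial.natDegree_one] at this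
  exact NeZero.ne p this.symm

theorem cofB_ne_zero : cofB D k ≠ 0 := (cofB_monic D k).ne_zero

/-- `Φ_p(X, j_p) = (X - j_{p²}) · V_p(B')`. -/
theorem phiAt_jp_eq :
    phiAt D.Φ (jd k p) = (X - Polynomial.C (qExpand k p (jd k p))) * (cofB D k).map (qExpand k p) := by
  have h := congrArg (Polynomial.map (qExpand k p)) (phiAt_j_eq D k)
  rw [phiAt_map, Polynomial.map_mul, Polynomial.map_sub, Polynomial.map_X,
    Polynomial.map_C] at h
  exact h

theorem jq_ne_qExpand_jd (hp : 1 < p) : jqModC k ≠ qExpand k p (jd k p) := by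
  intro h
  have := congrArg HahnSeries.order h
  rw [order_jqModC, order_qExpand, order_jd] at this
  have hp' : (1 : ℤ) < p := by exact_mod_cast hp
  nlinarith

theorem eval_j_cofB_map (hp : 1 < p) :
    ((cofB D k).map (qExpand k p)).eval (jqModC k) = 0 := by
  have h := eval_j_field D k
  rw [phiAt_jp_eq, Polynomial.eval_mul, Polynomial.eval_sub, Polynomial.eval_X,
    Polynomial.eval_C, mul_eq_zero] at h
  rcases h with h | h
  · exact absurd (sub_eq_zero.mp h) (jq_ne_qExpand_jd k hp)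
  · exact h

/-- `B'` is the "minimal polynomial of `j` over the range of `V_p`", in lifted form. -/
theorem cofB_dvd_of_eval_map (hp : 1 < p) (G : (LaurentSeries k)[X])
    (h : (G.map (qExpand k p)).eval (jqModC k) = 0) : cofB D k ∣ G := by
  rw [← Polynomial.modByMonic_eq_zero_iff_dvd (cofB_monic D k)]
  by_contra hR
  have hdeg : (G %ₘ cofB D k).natDegree < p := by
    have := Polynomial.natDegree_modByMonic_lt G (cofB_monic D k) (cofB_ne_one D k)
    rwa [natDegree_cofB] at this
  have hG := Polynomial.modByMonic_add_div G (cofB D k)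
  have h2 : ((G %ₘ cofB D k).map (qExpand k p)).eval (jqModC k) = 0 := by
    have h3 := congrArg (fun P => (P.map (qExpand k p)).eval (jqModC k)) hG
    simp only [Polynomial.map_add, Polynomial.map_mul, Polynomial.eval_add,
      Polynomial.eval_mul, eval_j_cofB_map D k hp, zero_mul, add_zero] at h3
    rw [h3, h]
  refine eval_jqModC_ne_zero_of_natDegree_lt p ((G %ₘ cofB D k).map (qExpand k p)) ?_ ?_ ?_ h2
  · exact (Polynomial.map_ne_zero_iff (qExpand_injective p)).mpr hR
  · exact lt_of_le_of_lt Polynomial.natDegree_map_le hdeg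
  · intro i
    rw [Polynomial.coeff_map]
    exact ⟨_, rfl⟩

/-- `B'` is irreducible over `k((q))`. -/
theorem cofB_irreducible (hp : 1 < p) : Irreducible (cofB D k) := by
  rw [(cofB_monic D k).irreducible_iff_natDegree]
  refine ⟨cofB_ne_one D k, fun f g hf hg hfg => ?_⟩
  have hdeg : f.natDegree + g.natDegree = p := by
    rw [← hf.natDegree_mul hg, hfg, natDegree_cofB]
  have hev := eval_j_cofB_map D k hp
  rw [← hfg, Polynomial.map_mul, Polynomial.eval_mul, mul_eq_zero] at hev
  rcases hev with h | h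
  · have hd := Polynomial.natDegree_le_of_dvd (cofB_dvd_of_eval_map D k hp f h) hf.ne_zero
    rw [natDegree_cofB] at hd
    right; omega
  · have hd := Polynomial.natDegree_le_of_dvd (cofB_dvd_of_eval_map D k hp g h) hg.ne_zero
    rw [natDegree_cofB] at hd
    left; omega

/-- `B'` has no roots in `k((q))`. -/
theorem cofB_eval_ne_zero (hp : 1 < p) (c : LaurentSeries k) : (cofB D k).eval c ≠ 0 := by
  intro h
  have h1 := Polynomial.degree_eq_one_of_irreducible_of_root (cofB_irreducible D k hp) h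
  have h2 : (cofB D k).natDegree = 1 :=
    Polynomial.natDegree_eq_of_degree_eq_some (by rw [h1]; rfl)
  rw [natDegree_cofB] at h2
  omega

end Factor

/-! ### Degrees over intermediate fields -/

section Fields

variable {p : ℕ} [NeZero p] (D : ModPolyData p) {k : Type*} [Field k]

include D

theorem aeval_phiAt_mk (F : IntermediateField k (LaurentSeries k)) {y : LaurentSeries k}
    (hy : y ∈ F) (x : LaurentSeries k) :
    Polynomial.aeval x (phiAt D.Φ (⟨y, hy⟩ : F)) = (phiAt D.Φ y).eval x := by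
  rw [Polynomial.aeval_def, Polynomial.eval₂_eq_eval_map, phiAt_map]
  rfl

/-- (U1) `j_{dp}` is integral over any field containing `j_d`. -/
theorem isIntegral_jdp (F : IntermediateField k (LaurentSeries k)) (d : ℕ) [NeZero d]
    (hj : jd k d ∈ F) : IsIntegral F (jd k (d * p)) :=
  ⟨phiAt D.Φ (⟨jd k d, hj⟩ : F), phiAt_monic D.monic _, by
    rw [← Polynomial.aeval_def, aeval_phiAt_mk, eval_jdp]⟩

/-- (U1) `j_{dp}` has degree `≤ p + 1` over any field containing `j_d`. -/
theorem natDegree_minpoly_jdp_le (F : IntermediateField k (LaurentSeries k)) (d : ℕ) [NeZero d]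
    (hj : jd k d ∈ F) : (minpoly F (jd k (d * p))).natDegree ≤ p + 1 := by
  have hdvd : minpoly F (jd k (d * p)) ∣ phiAt D.Φ (⟨jd k d, hj⟩ : F) :=
    minpoly.dvd F _ (by rw [aeval_phiAt_mk, eval_jdp])
  have := Polynomial.natDegree_le_of_dvd hdvd (phiAt_monic D.monic _).ne_zero
  rwa [natDegree_phiAt D.monic, D.natDegree_eq] at this

/-- `j_d` is integral over any field containing `j_{dp}`. -/
theorem isIntegral_jd_of_jdp (F : IntermediateField k (LaurentSeries k)) (d : ℕ) [NeZero d]
    (hj : jd k (d * p) ∈ F) : IsIntegral F (jd k d) :=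
  ⟨phiAt D.Φ (⟨jd k (d * p), hj⟩ : F), phiAt_monic D.monic _, by
    rw [← Polynomial.aeval_def, aeval_phiAt_mk, eval_jd]⟩

theorem natDegree_minpoly_jd_of_jdp_le (F : IntermediateField k (LaurentSeries k)) (d : ℕ)
    [NeZero d] (hj : jd k (d * p) ∈ F) : (minpoly F (jd k d)).natDegree ≤ p + 1 := by
  have hdvd : minpoly F (jd k d) ∣ phiAt D.Φ (⟨jd k (d * p), hj⟩ : F) :=
    minpoly.dvd F _ (by rw [aeval_phiAt_mk, eval_jd])
  have := Polynomial.natDegree_le_of_dvd hdvd (phiAt_monic D.monic _).ne_zero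
  rwa [natDegree_phiAt D.monic, D.natDegree_eq] at this

/-- (U2) If `j_d` and `j_{dp}` lie in `F`, then `j_{dp²}` is a root of a monic polynomial of
degree `p` over `F`. -/
theorem exists_monic_natDegree_eq_aeval_jdpp (hp : 1 < p)
    (F : IntermediateField k (LaurentSeries k)) (d : ℕ) [NeZero d]
    (hj : jd k d ∈ F) (hjp : jd k (d * p) ∈ F) :
    ∃ Q : F[X], Q.Monic ∧ Q.natDegree = p ∧ Polynomial.aeval (jd k (d * p * p)) Q = 0 := by
  set A₀ : F[X] := phiAt D.Φ (⟨jd k (d * p), hjp⟩ : F) with hA₀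
  set a : F := ⟨jd k d, hj⟩ with ha
  have hroot : A₀.IsRoot a := by
    have h1 : algebraMap F (LaurentSeries k) (A₀.eval a) = 0 := by
      rw [← Polynomial.aeval_algebraMap_apply_eq_algebraMap_eval, aeval_phiAt_mk]
      exact eval_jd D k d
    exact (map_eq_zero_iff _ (algebraMap F (LaurentSeries k)).injective).mp h1
  have hfac : (X - Polynomial.C a) * (A₀ /ₘ (X - Polynomial.C a)) = A₀ :=
    Polynomial.mul_divByMonic_eq_iff_isRoot.mpr hroot
  have hA₀monic : A₀.Monic := phiAt_monic D.monic _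
  refine ⟨A₀ /ₘ (X - Polynomial.C a), ?_, ?_, ?_⟩
  · have h := hA₀monic
    rw [← hfac] at h
    exact (Polynomial.monic_X_sub_C _).of_mul_monic_left h
  · rw [Polynomial.natDegree_divByMonic _ (Polynomial.monic_X_sub_C _),
      natDegree_phiAt D.monic, D.natDegree_eq, Polynomial.natDegree_X_sub_C]
    omega
  · have h0 : Polynomial.aeval (jd k (d * p * p)) A₀ = 0 := by
      rw [aeval_phiAt_mk]; exact eval_jdp D k (d * p)
    rw [← hfac, map_mul, mul_eq_zero] at h0
    rcases h0 with h0 | h0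
    · exfalso
      rw [map_sub, Polynomial.aeval_X, Polynomial.aeval_C, sub_eq_zero] at h0
      have h1 : jd k (d * p * p) = jd k d := h0
      have h2 := jd_injective h1
      have hd : 0 < d := Nat.pos_of_ne_zero (NeZero.ne d)
      have : d * 1 < d * p * p := by
        rw [mul_assoc]
        exact Nat.mul_lt_mul_of_pos_left (by nlinarith) hd
      omega
    · exact h0

theorem natDegree_minpoly_jdpp_le (hp : 1 < p)
    (F : IntermediateField k (LaurentSeries k)) (d : ℕ) [NeZero d]
    (hj : jd k d ∈ F) (hjp : jd k (d * p) ∈ F) :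
    (minpoly F (jd k (d * p * p))).natDegree ≤ p := by
  obtain ⟨Q, hQ, hdeg, h0⟩ := exists_monic_natDegree_eq_aeval_jdpp D hp F d hj hjp
  have := Polynomial.natDegree_le_of_dvd (minpoly.dvd F _ h0) hQ.ne_zero
  rwa [hdeg] at this

/-- (b2) If `j ∈ F` and `j_p ∉ F` then `j_p` has degree exactly `p + 1` over `F`. -/
theorem natDegree_minpoly_jp_eq (hp : 1 < p) (F : IntermediateField k (LaurentSeries k))
    (hj : jqModC k ∈ F) (hjp : jd k p ∉ F) :
    (minpoly F (jd k p)).natDegree = p + 1 := by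
  have hj1 : jd k 1 ∈ F := by rwa [jd, qExpand_one_apply]
  have hint : IsIntegral F (jd k p) := by
    have := isIntegral_jdp D F 1 hj1
    simpa using this
  set m := minpoly F (jd k p) with hm
  have hmonic : m.Monic := minpoly.monic hint
  set mL := m.map (algebraMap F (LaurentSeries k)) with hmL
  have hmLmonic : mL.Monic := hmonic.map _
  have hroot : mL.IsRoot (jd k p) := by
    show mL.eval (jd k p) = 0
    rw [hmL, Polynomial.eval_map, ← Polynomial.aeval_def]
    exact minpoly.aeval F _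
  have hfac : (X - Polynomial.C (jd k p)) * (mL /ₘ (X - Polynomial.C (jd k p))) = mL :=
    Polynomial.mul_divByMonic_eq_iff_isRoot.mpr hroot
  set m2 := mL /ₘ (X - Polynomial.C (jd k p)) with hm2
  have hm2monic : m2.Monic := by
    have h := hmLmonic
    rw [← hfac] at h
    exact (Polynomial.monic_X_sub_C _).of_mul_monic_left h
  have hdvd0 : m ∣ phiAt D.Φ (⟨jqModC k, hj⟩ : F) :=
    minpoly.dvd F _ (by rw [aeval_phiAt_mk]; exact eval_jp_field D k)
  have hdvd : mL ∣ phiAt D.Φ (jqModC k) := by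
    have := Polynomial.map_dvd (algebraMap F (LaurentSeries k)) hdvd0
    rwa [phiAt_map] at this
  rw [← hfac, phiAt_j_eq] at hdvd
  have hdvd2 : m2 ∣ cofB D k :=
    (mul_dvd_mul_iff_left (Polynomial.X_sub_C_ne_zero _)).mp hdvd
  obtain ⟨r, hr⟩ := hdvd2
  have hrmonic : r.Monic := by
    have h := cofB_monic D k
    rw [hr] at h
    exact hm2monic.of_mul_monic_left h
  have hdegsum : m2.natDegree + r.natDegree = p := by
    rw [← hm2monic.natDegree_mul hrmonic, ← hr, natDegree_cofB]
  have hmLdeg : mL.natDegree = 1 + m2.natDegree := by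
    rw [← hfac, (Polynomial.monic_X_sub_C _).natDegree_mul hm2monic,
      Polynomial.natDegree_X_sub_C]
  have hmdeg : m.natDegree = mL.natDegree := (hmonic.natDegree_map _).symm
  rcases ((cofB_monic D k).irreducible_iff_natDegree.mp (cofB_irreducible D k hp)).2 m2 r
    hm2monic hrmonic hr.symm with h | h
  · exfalso
    have h1 : m.natDegree = 1 := by omega
    have h2 : m.degree = 1 := by
      rw [Polynomial.degree_eq_natDegree hmonic.ne_zero, h1]; rfl
    obtain ⟨y, hy⟩ := minpoly.mem_range_of_degree_eq_one F (jd k p) h2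
    exact hjp (hy ▸ y.2)
  · omega

/-- (b1) `j` has degree at least `p` over any subfield of the range of `V_p` containing `j_p`. -/
theorem le_natDegree_minpoly_j (hp : 1 < p) (F : IntermediateField k (LaurentSeries k))
    (hF : ∀ x ∈ F, x ∈ Set.range (qExpand k p)) (hjp : jd k p ∈ F) :
    p ≤ (minpoly F (jqModC k)).natDegree := by
  have hjp1 : jd k (1 * p) ∈ F := by simpa using hjp
  have hint : IsIntegral F (jqModC k) := by
    have := isIntegral_jd_of_jdp D F 1 hjp1
    rwa [jd, qExpand_one_apply] at this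
  set m := minpoly F (jqModC k) with hm
  have hmonic : m.Monic := minpoly.monic hint
  set mL := m.map (algebraMap F (LaurentSeries k)) with hmL
  have hlift : mL ∈ Polynomial.lifts (qExpand k p) := by
    rw [Polynomial.lifts_iff_coeff_lifts]
    intro n
    rw [hmL, Polynomial.coeff_map]
    exact hF _ (m.coeff n).2
  obtain ⟨G, hG⟩ := (Polynomial.mem_lifts _).mp hlift
  have hev : (G.map (qExpand k p)).eval (jqModC k) = 0 := by
    rw [hG, hmL, Polynomial.eval_map, ← Polynomial.aeval_def]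
    exact minpoly.aeval F _
  have hGne : G ≠ 0 := by
    intro h
    rw [h, Polynomial.map_zero] at hG
    exact (hmonic.map (algebraMap F (LaurentSeries k))).ne_zero hG.symm
  have h1 := Polynomial.natDegree_le_of_dvd (cofB_dvd_of_eval_map D k hp G hev) hGne
  rw [natDegree_cofB] at h1
  have h2 : G.natDegree = mL.natDegree := by
    rw [← hG, Polynomial.natDegree_map_eq_of_injective (qExpand_injective p)]
  have h3 : mL.natDegree = m.natDegree := hmonic.natDegree_map _
  omega

/-- (b3) `j` has degree exactly `p + 1` over any subfield `F` of the range of `V_p` with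
`j_p ∈ F` and `j_{p²} ∉ F`. -/
theorem natDegree_minpoly_j_eq (hp : 1 < p) (F : IntermediateField k (LaurentSeries k))
    (hF : ∀ x ∈ F, x ∈ Set.range (qExpand k p)) (hjp : jd k p ∈ F)
    (hjpp : qExpand k p (jd k p) ∉ F) :
    (minpoly F (jqModC k)).natDegree = p + 1 := by
  have hjp1 : jd k (1 * p) ∈ F := by simpa using hjp
  have hint : IsIntegral F (jqModC k) := by
    have := isIntegral_jd_of_jdp D F 1 hjp1
    rwa [jd, qExpand_one_apply] at this
  have hge := le_natDegree_minpoly_j D hp F hF hjp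
  set m := minpoly F (jqModC k) with hm
  have hmonic : m.Monic := minpoly.monic hint
  set A₀ : F[X] := phiAt D.Φ (⟨jd k p, hjp⟩ : F) with hA₀
  have hA₀monic : A₀.Monic := phiAt_monic D.monic _
  have hdvd : m ∣ A₀ := minpoly.dvd F _ (by rw [aeval_phiAt_mk]; exact eval_j_field D k)
  obtain ⟨N, hN⟩ := hdvd
  have hNmonic : N.Monic := by
    have h := hA₀monic
    rw [hN] at h
    exact hmonic.of_mul_monic_left h
  have hdegsum : m.natDegree + N.natDegree = p + 1 := by
    rw [← hmonic.natDegree_mul hNmonic, ← hN, natDegree_phiAt D.monic, D.natDegree_eq]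
  by_contra hne
  have hN1 : N.natDegree = 1 := by omega
  have hNeq := hNmonic.eq_X_add_C hN1
  set c : F := N.coeff 0 with hc
  have hrootN : N.eval (-c) = 0 := by
    rw [hNeq]; simp
  have hrootA : A₀.eval (-c) = 0 := by
    rw [hN, Polynomial.eval_mul, hrootN, mul_zero]
  have hrootL : (phiAt D.Φ (jd k p)).eval ((-c : F) : LaurentSeries k) = 0 := by
    have h1 : algebraMap F (LaurentSeries k) (A₀.eval (-c)) = 0 := by rw [hrootA, map_zero]
    rw [← Polynomial.aeval_algebraMap_apply_eq_algebraMap_eval, aeval_phiAt_mk] at h1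
    exact h1
  obtain ⟨c', hc'⟩ := hF _ (-c).2
  rw [phiAt_jp_eq, Polynomial.eval_mul, Polynomial.eval_sub, Polynomial.eval_X,
    Polynomial.eval_C, mul_eq_zero] at hrootL
  rcases hrootL with h | h
  · apply hjpp
    rw [← sub_eq_zero.mp h]
    exact (-c).2
  · rw [← hc', Polynomial.eval_map, Polynomial.eval₂_at_apply] at h
    exact cofB_eval_ne_zero D k hp c'
      ((map_eq_zero_iff _ (qExpand_injective p)).mp h)

end Fields

end Fermat.Agent.S28.H386

end
end
-- ===== PACK-END S28/H386/PrimeLevel.lean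

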