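import Mathlib
import Fermat.Prelude.Def_AlgebraicCurve_DivisorClassGroup
import Fermat.Prelude.Def_ModularCurve_X0ModL
import Mathlib.RingTheory.PowerSeries.Expand
import Fermat.Agent.Pack.S36.E9L1
import Fermat.Agent.Pack.S36.E4L3
import Fermat.Agent.Pack.S36.E4L2
import Fermat.Agent.Pack.S36.E7L2
import Fermat.Agent.Pack.S36.E9L2
import Fermat.Agent.Pack.S36.E9L0
import Fermat.Agent.Pack.S36.E4L0
import Fermat.Agent.Pack.S36.E0L0
import Fermat.Agent.Pack.S36.E7L0
import Fermat.Agent.Pack.S36.E0L1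
import Fermat.Agent.Pack.S36.E10L0
import Fermat.Agent.Pack.S36.E10L2
import Fermat.Agent.Pack.S36.E5L3
import Fermat.Agent.Pack.S36.E10L1
import Fermat.Agent.Pack.S36.E8L1
import Fermat.Agent.Pack.S36.E1L1
import Fermat.Agent.Pack.S36.E10L3
import Fermat.Agent.Pack.S36.E3L2
import Fermat.Agent.Pack.S36.E1L0
import Fermat.Agent.Pack.S36.E3L3

-- ===== PACK-BEGIN Lib/Cheb/FrobFinite.lean
section





/-!
# CHEB, Tier 1, finite level: the qualitative Frobenius density theorem for Galois number fields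

Assembly of the pieces `Z`, `B0` (helper761), `A` (helper764), `D` (helper943), `M` (helper993).
-/

set_option autoImplicit false

namespace Fermat.Agent.Lib.Cheb

/-- **Frobenius density theorem (qualitative), finite level.**  For a Galois number field `L`,
`σ ∈ Gal(L/ℚ)` and a finite set `S` of primes there are a prime `p ∉ S`, a prime `P` of `𝓞 L`
above `p` with trivial inertia and an arithmetic Frobenius `τ` at `P` with `⟨τ⟩ = ⟨σ⟩`. -/
theorem frobFinite : Spec.FrobFiniteStatement :=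
  H993.frobFinite H761.primeSum_statement H761.primeCountBound_statement H764.count
    H943.frobStatement

end Fermat.Agent.Lib.Cheb

end
-- ===== PACK-END Lib/Cheb/FrobFinite.lean

-- ===== PACK-BEGIN S24/FFDict.lean
section




/-!
# S24 / FF layer: dictionary between places and primes of the integral closure of `K[t]`
(helper804)
-/

set_option autoImplicit false
set_option linter.unusedSectionVars false

namespace Fermat.Agent.S24.FF

open AlgebraicCurve Polynomial IntermediateField IsDedekindDomain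

open scoped IntermediateField.algebraAdjoinAdjoin

variable {K F : Type*} [Field K] [Field F] [Algebra K F] {t : F}

/-- `K[t] ⊆ O_v` when `t` is integral at `v`. -/
theorem mem_of_mem_coordRing (v : Place K F) (ht : 0 ≤ v.ord t) {r : F}
    (hr : r ∈ coordRing K t) : r ∈ v.toValuationSubring := by
  induction hr using Algebra.adjoin_induction with
  | mem x hx =>
    rw [Set.mem_singleton_iff] at hx
    subst hx
    exact mem_of_ord_nonneg v ht
  | algebraMap a => exact v.algebraMap_mem' a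
  | add x y _ _ hx hy => exact add_mem hx hy
  | mul x y _ _ hx hy => exact mul_mem hx hy

/-- The integral closure of `K[t]` is contained in `O_v` when `t` is integral at `v`. -/
theorem mem_of_mem_intRing (v : Place K F) (ht : 0 ≤ v.ord t) {s : F}
    (hs : s ∈ intRing K t) : s ∈ v.toValuationSubring := by
  let φ : coordRing K t →+* v.toValuationSubring :=
    { toFun := fun y => ⟨y, mem_of_mem_coordRing v ht y.2⟩
      map_one' := rfl
      map_mul' := fun _ _ => rfl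
      map_zero' := rfl
      map_add' := fun _ _ => rfl }
  obtain ⟨p, hpm, hp⟩ := hs
  have hint' : IsIntegral v.toValuationSubring s := by
    refine ⟨p.map φ, hpm.map φ, ?_⟩
    rw [← hp, Polynomial.eval₂_map]
    rfl
  obtain ⟨y, hy⟩ := IsIntegrallyClosed.isIntegral_iff.mp hint'
  rw [← hy]
  exact y.2

/-- The inclusion of the integral closure of `K[t]` into `O_v`. -/
def toPlaceRing (v : Place K F) (ht : 0 ≤ v.ord t) : intRing K t →+* v.toValuationSubring where
  toFun s := ⟨s, mem_of_mem_intRing v ht s.2⟩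
  map_one' := rfl
  map_mul' _ _ := rfl
  map_zero' := rfl
  map_add' _ _ := rfl

@[simp] theorem coe_toPlaceRing (v : Place K F) (ht : 0 ≤ v.ord t) (s : intRing K t) :
    ((toPlaceRing v ht s : v.toValuationSubring) : F) = (s : F) := rfl

/-- The center of the place `v` on the integral closure of `K[t]`. -/
def center (v : Place K F) (ht : 0 ≤ v.ord t) : Ideal (intRing K t) :=
  Ideal.comap (toPlaceRing v ht) (IsLocalRing.maximalIdeal v.toValuationSubring)

instance center_isPrime (v : Place K F) (ht : 0 ≤ v.ord t) : (center v ht).IsPrime := by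
  unfold center
  infer_instance

theorem mem_center_iff (v : Place K F) (ht : 0 ≤ v.ord t) (s : intRing K t) :
    s ∈ center v ht ↔ (s : F) ∈ v.toValuationSubring.nonunits := by
  rw [center, Ideal.mem_comap]
  exact ValuationSubring.coe_mem_nonunits_iff.symm

theorem mem_nonunits_valuationSubring_iff {Γ₀ : Type*} [LinearOrderedCommGroupWithZero Γ₀]
    (w : Valuation F Γ₀) (x : F) : x ∈ w.valuationSubring.nonunits ↔ w x < 1 := by
  rw [ValuationSubring.mem_nonunits_iff]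
  exact (Valuation.isEquiv_valuation_valuationSubring w).lt_one_iff_lt_one.symm

variable (K t) in
/-- `t` as an element of `K[t]`. -/
def tR : coordRing K t := ⟨t, Algebra.self_mem_adjoin_singleton K t⟩

variable (K t) in
/-- `t` as an element of the integral closure of `K[t]`. -/
def tS : intRing K t := algebraMap (coordRing K t) (intRing K t) (tR K t)

@[simp] theorem coe_tR : ((tR K t : coordRing K t) : F) = t := rfl

@[simp] theorem coe_tS : ((tS K t : intRing K t) : F) = t := rfl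

section withCoord

variable [CharZero K] [IsCoord K t]

theorem center_ne_bot (v : Place K F) (ht : 0 < v.ord t) : center v ht.le ≠ ⊥ := by
  intro h
  have ht0 : t ≠ 0 := by
    rintro rfl
    simp at ht
  have htS : tS K t ∈ center v ht.le :=
    (mem_center_iff v ht.le _).mpr ((ord_pos_iff_mem_nonunits v ht0).mp ht)
  rw [h, Ideal.mem_bot] at htS
  apply ht0
  have := congrArg (fun s : intRing K t => (s : F)) htS
  simpa using this

/-- The center of `v` as a height-one prime. -/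
def centerPrime (v : Place K F) (ht : 0 < v.ord t) : HeightOneSpectrum (intRing K t) :=
  ⟨center v ht.le, inferInstance, center_ne_bot v ht⟩

@[simp] theorem centerPrime_asIdeal (v : Place K F) (ht : 0 < v.ord t) :
    (centerPrime v ht).asIdeal = center v ht.le := rfl

/-- **Dictionary, surjectivity**: a place at which `t` vanishes is the place of its center. -/
theorem placeOfPrime_centerPrime (v : Place K F) (ht : 0 < v.ord t) :
    placeOfPrime K t (centerPrime v ht) = v := by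
  apply Place.ext
  rw [placeOfPrime_toValuationSubring,
    ← HeightOneSpectrum.valuationSubringAtPrime_eq_valuationSubring]
  refine ValuationSubring.eq_of_le_of_ne_top _ ?_ v.ne_top'
  rintro x ⟨a, s, hs, rfl⟩
  have ha : (a : F) ∈ v.toValuationSubring := mem_of_mem_intRing v ht.le a.2
  have hs' : (s : F) ∉ v.toValuationSubring.nonunits := fun h =>
    hs ((mem_center_iff v ht.le s).mpr h)
  have hsinv : (s : F)⁻¹ ∈ v.toValuationSubring := by
    by_contra hcon
    exact hs' ((ValuationSubring.mem_nonunits_iff_or _).mpr (Or.inr hcon))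
  exact mul_mem ha hsinv

theorem ord_t_placeOfPrime_nonneg (q : HeightOneSpectrum (intRing K t)) :
    0 ≤ (placeOfPrime K t q).ord t := by
  apply ord_nonneg_of_mem
  rw [placeOfPrime_toValuationSubring, Valuation.mem_valuationSubring_iff]
  exact q.valuation_le_one (tS K t)

/-- **Dictionary, injectivity**: the center of the place of `q` is `q`. -/
theorem center_placeOfPrime (q : HeightOneSpectrum (intRing K t)) :
    center (placeOfPrime K t q) (ord_t_placeOfPrime_nonneg q) = q.asIdeal := by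
  ext s
  rw [mem_center_iff, placeOfPrime_toValuationSubring, mem_nonunits_valuationSubring_iff]
  exact q.valuation_lt_one_iff_mem s

theorem placeOfPrime_injective :
    Function.Injective (placeOfPrime K t : HeightOneSpectrum (intRing K t) → Place K F) := by
  intro q q' h
  have h1 := center_placeOfPrime q
  have h2 := center_placeOfPrime q'
  apply HeightOneSpectrum.ext
  rw [← h1, ← h2]
  congr 1

/-- `t` vanishes at the place of `q` iff `t ∈ q`. -/
theorem ord_t_placeOfPrime_pos_iff (ht0 : t ≠ 0) (q : HeightOneSpectrum (intRing K t)) :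
    0 < (placeOfPrime K t q).ord t ↔ tS K t ∈ q.asIdeal := by
  rw [ord_pos_iff_mem_nonunits _ ht0, placeOfPrime_toValuationSubring,
    mem_nonunits_valuationSubring_iff]
  exact q.valuation_lt_one_iff_mem (tS K t)

end withCoord

end Fermat.Agent.S24.FF

end
-- ===== PACK-END S24/FFDict.lean

-- ===== PACK-BEGIN S24/Deg/H457_Bridge.lean
section





/-!
# S24 / DEG (helper457), bridge: the formal interface hypothesis `Hyp ℂ N n` from function level

Inputs: helper648 (conjugate product, `exists_charPoly_eval_eq_zero`), helper708 (`HasQExp`),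
helper264 (`hasSum_jFun`).  Remaining explicit hypotheses: the polynomiality principle `D5` for
`jFun` and the growth bound of `jFun` on the fundamental domain.
-/

set_option autoImplicit false

noncomputable section

open UpperHalfPlane ModularGroup CongruenceSubgroup Polynomial ModularCurve
open scoped MatrixGroups Manifold Modular Real

namespace Fermat.Agent.S24.Deg457

open Fermat.Agent.S24.H648 Fermat.Agent.S24.H708 Fermat.Agent.S24.JFun

/-- `τ ↦ d τ` on the upper half plane -/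
def scaleH (d : ℕ) [NeZero d] (τ : ℍ) : ℍ :=
  UpperHalfPlane.mk ((d : ℂ) * τ) (by
    have hd : (0 : ℝ) < d := by exact_mod_cast Nat.pos_of_ne_zero (NeZero.ne d)
    have : ((d : ℂ) * (τ : ℂ)).im = d * τ.im := by simp
    rw [this]
    exact mul_pos hd τ.im_pos)

theorem coe_scaleH (d : ℕ) [NeZero d] (τ : ℍ) : ((scaleH d τ : ℍ) : ℂ) = (d : ℂ) * τ := rfl

theorem coeff_JK_complex (n : ℤ) : (jqModC ℂ).coeff n = algebraMap ℚ ℂ (jq.coeff n) := by
  rw [← JK_eq, JK, coeffEmb_coeff]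

/-- the `q`-expansion of `τ ↦ j(dτ)` is `j(q^d)`. -/
theorem hasQExp_jFun_scale (d : ℕ) [NeZero d] :
    HasQExp 1 (fun τ => _root_.Fermat.Agent.S24.JFun.jFun (scaleH d τ)) (coeffEmb ℂ (qExpand ℚ d jq)) := by
  have hd : 0 < d := Nat.pos_of_ne_zero (NeZero.ne d)
  refine HasQExp.of_hasSum
    (mdifferentiable_J_scale jFun_mdifferentiable d hd (scaleH d) (coe_scaleH d)) ?_
  intro τ
  have h := hasSum_jFun (scaleH d τ)
  have hinj : Function.Injective (fun n : ℤ => (d : ℤ) * n) := by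
    intro a b hab
    have hd' : (d : ℤ) ≠ 0 := by exact_mod_cast hd.ne'
    exact mul_left_cancel₀ hd' hab
  have hsupp : ∀ m : ℤ, m ∉ Set.range (fun n : ℤ => (d : ℤ) * n) →
      (coeffEmb ℂ (qExpand ℚ d jq)).coeff m * qh 1 τ ^ m = 0 := by
    intro m hm
    have hndvd : ¬ (d : ℤ) ∣ m := by
      rintro ⟨k, rfl⟩
      exact hm ⟨k, rfl⟩
    rw [coeffEmb_coeff, qExpand_coeff_of_not_dvd d jq hndvd, map_zero, zero_mul]
  rw [← hinj.hasSum_iff hsupp]
  have hq : Function.Periodic.qParam 1 ((scaleH d τ : ℍ) : ℂ) = qh 1 τ ^ d := by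
    rw [qh_apply, coe_scaleH]
    simp only [Function.Periodic.qParam, Nat.cast_one, Complex.ofReal_one, div_one]
    rw [← Complex.exp_nat_mul]
    congr 1
    ring
  have hfun : ((fun m : ℤ => (coeffEmb ℂ (qExpand ℚ d jq)).coeff m * qh 1 τ ^ m) ∘
      fun n : ℤ => (d : ℤ) * n)
      = fun n : ℤ => (jqModC ℂ).coeff n *
          Function.Periodic.qParam 1 ((scaleH d τ : ℍ) : ℂ) ^ n := by
    funext n
    simp only [Function.comp_apply]
    rw [coeffEmb_coeff, qExpand_coeff_mul, coeff_JK_complex, hq, ← zpow_natCast, ← zpow_mul]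
  rw [hfun]
  exact h

variable (N : ℕ) [NeZero N]

/-- every element of `A_ℂ` is the `q`-expansion of a good function. -/
theorem exists_goodRing_hasQExp
    (hJfd : ∃ C : ℝ, ∀ τ : ℍ, τ ∈ 𝒟 → ‖_root_.Fermat.Agent.S24.JFun.jFun τ‖ ≤ C * Real.exp (2 * π * τ.im))
    {b : LaurentSeries ℂ} (hb : b ∈ AK ℂ N) :
    ∃ f : ℍ → ℂ, f ∈ goodRing N ∧ HasQExp 1 f b := by
  unfold AK at hb
  induction hb using Algebra.adjoin_induction with
  | mem x hx =>
    obtain ⟨y, ⟨d, hd, hdN, rfl⟩, rfl⟩ := hx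
    haveI := hd
    refine ⟨fun τ => _root_.Fermat.Agent.S24.JFun.jFun (scaleH d τ), ?_, hasQExp_jFun_scale d⟩
    exact J_scale_mem_goodRing N jFun_mdifferentiable _root_.Fermat.Agent.S24.JFun.jFun_smul hJfd d
      (Nat.pos_of_ne_zero (NeZero.ne d)) hdN (scaleH d) (coe_scaleH d)
  | algebraMap c =>
    refine ⟨fun _ => c, (goodRing N).algebraMap_mem c, ?_⟩
    have : algebraMap ℂ (LaurentSeries ℂ) c = HahnSeries.C c := by
      rw [algebraMap_laurentSeries_eq_single]; rfl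
    rw [this]
    exact HasQExp.const 1 c
  | add x y _ _ hx hy =>
    obtain ⟨f, hf, hfx⟩ := hx
    obtain ⟨g, hg, hgy⟩ := hy
    exact ⟨f + g, (goodRing N).add_mem hf hg, hfx.add hgy⟩
  | mul x y _ _ hx hy =>
    obtain ⟨f, hf, hfx⟩ := hx
    obtain ⟨g, hg, hgy⟩ := hy
    exact ⟨f * g, (goodRing N).mul_mem hf hg, hfx.mul hgy⟩

theorem hasQExp_jFun : HasQExp 1 _root_.Fermat.Agent.S24.JFun.jFun (JK ℂ) := by
  have h := hasQExp_jFun_scale 1
  rw [qExpand_one_apply] at h
  have hfun : (fun τ => _root_.Fermat.Agent.S24.JFun.jFun (scaleH 1 τ)) = _root_.Fermat.Agent.S24.JFun.jFun := by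
    funext τ
    congr 1
    apply UpperHalfPlane.ext
    rw [coe_scaleH]
    simp
  rw [hfun] at h
  exact h

/-- transfer of univariate polynomial expressions in `j` -/
theorem hasQExp_aeval (p : ℂ[X]) :
    HasQExp 1 (fun τ => p.eval (_root_.Fermat.Agent.S24.JFun.jFun τ)) (aeval (JK ℂ) p) := by
  induction p using Polynomial.induction_on' with
  | add p q hp hq =>
    have := hp.add hq
    rw [map_add]
    convert this using 1
    funext τ
    simp
  | monomial n c =>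
    have h1 := (HasQExp.const 1 c).mul (hasQExp_jFun.pow n)
    rw [aeval_monomial]
    have : algebraMap ℂ (LaurentSeries ℂ) c = HahnSeries.C c := by
      rw [algebraMap_laurentSeries_eq_single]; rfl
    rw [this]
    convert h1 using 1
    funext τ
    simp

/-- transfer of bivariate polynomial expressions -/
theorem hasQExp_eval₂ (P : ℂ[X][X]) {f : ℍ → ℂ} {b : LaurentSeries ℂ} (hf : HasQExp 1 f b) :
    HasQExp 1 (fun τ => (P.map (Polynomial.evalRingHom (_root_.Fermat.Agent.S24.JFun.jFun τ))).eval (f τ))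
      (P.eval₂ (evJ (JK ℂ)) b) := by
  induction P using Polynomial.induction_on' with
  | add p q hp hq =>
    have := hp.add hq
    rw [eval₂_add]
    convert this using 1
    funext τ
    simp
  | monomial n p =>
    have h1 := (hasQExp_aeval p).mul (hf.pow n)
    rw [eval₂_monomial, evJ_apply]
    convert h1 using 1
    funext τ
    simp

/-- **The interface hypothesis over `ℂ`**, from D5 and the growth bound of `j`. -/
theorem hyp_complex
    (hD5 : ∀ F : ℍ → ℂ, MDifferentiable 𝓘(ℂ) 𝓘(ℂ) F →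
      (∀ (γ : SL(2, ℤ)) (τ : ℍ), F (γ • τ) = F τ) → ExpGrowth F →
      ∃ p : ℂ[X], ∀ τ, F τ = p.eval (_root_.Fermat.Agent.S24.JFun.jFun τ))
    (hJfd : ∃ C : ℝ, ∀ τ : ℍ, τ ∈ 𝒟 → ‖_root_.Fermat.Agent.S24.JFun.jFun τ‖ ≤ C * Real.exp (2 * π * τ.im)) :
    Hyp ℂ N (Nat.card (XX N)) := by
  intro b hb
  obtain ⟨f, hf, hfb⟩ := exists_goodRing_hasQExp N hJfd hb
  haveI : Finite (SL(2, ℤ) ⧸ Gamma0 N) := inferInstanceAs (Finite (XX N))
  letI : Fintype (SL(2, ℤ) ⧸ Gamma0 N) := Fintype.ofFinite _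
  obtain ⟨P, hPm, hPn, hP⟩ := exists_charPoly_eval_eq_zero (N := N) _root_.Fermat.Agent.S24.JFun.jFun hD5 hf
  refine ⟨P, hPm, ?_, ?_⟩
  · rw [hPn, Nat.card_eq_fintype_card]
  · have h1 := hasQExp_eval₂ P hfb
    rw [h1.eq_zero_iff]
    funext τ
    exact hP τ

end Fermat.Agent.S24.Deg457

end
end
-- ===== PACK-END S24/Deg/H457_Bridge.lean

-- ===== PACK-BEGIN S24/H864/FF3d.lean
section



/-!
# S24 / ALG / FF1+FF3 (part d): the fundamental identity `∑_{v(t)>0} v(t) = [F : K(t)]`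
-/

set_option autoImplicit false

noncomputable section

open AlgebraicCurve IntermediateField IsDedekindDomain
open scoped IntermediateField.algebraAdjoinAdjoin

namespace Fermat.Agent.S24.H864

variable {K F : Type*} [Field K] [Field F] [Algebra K F]

section Inst

variable (K) (t : F)

theorem polyRing_isPrincipalIdealRing (ht : Transcendental K t) :
    IsPrincipalIdealRing (polyRing K t) :=
  IsPrincipalIdealRing.of_surjective (polyEquiv K t ht).toAlgHom.toRingHom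
    (polyEquiv K t ht).surjective

theorem tR_ne_zero (ht : Transcendental K t) : tR K t ≠ 0 := by
  intro h
  have h1 : t = 0 := congrArg Subtype.val h
  rw [h1] at ht
  exact ht (isAlgebraic_zero)

theorem tR_prime (ht : Transcendental K t) : Prime (tR K t) := by
  rw [← polyEquiv_X K t ht]
  exact (MulEquiv.prime_iff (polyEquiv K t ht).toMulEquiv).mpr Polynomial.prime_X

theorem exists_sub_mem_span_tR (ht : Transcendental K t) (r : polyRing K t) :
    ∃ c : K, r - algebraMap K (polyRing K t) c ∈ Ideal.span {tR K t} := by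
  obtain ⟨P, rfl⟩ := (polyEquiv K t ht).surjective r
  refine ⟨P.coeff 0, ?_⟩
  rw [Ideal.mem_span_singleton']
  refine ⟨polyEquiv K t ht P.divX, ?_⟩
  rw [← polyEquiv_X K t ht, ← map_mul, ← AlgEquiv.commutes (polyEquiv K t ht), ← map_sub]
  congr 1
  conv_rhs => rw [← Polynomial.divX_mul_X_add P]
  simp [Polynomial.algebraMap_eq]

theorem coe_mem_valuationSubring_of_ord_nonneg (v : Place K F) (hv : 0 ≤ v.ord t)
    (r : polyRing K t) : (r : F) ∈ v.toValuationSubring := by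
  obtain ⟨r, hr⟩ := r
  show r ∈ v.toValuationSubring
  induction hr using Algebra.adjoin_induction with
  | mem x hx =>
      rw [Set.mem_singleton_iff] at hx
      rw [hx]
      exact (FF.mem_iff_ord_nonneg v).mpr hv
  | algebraMap c => exact v.algebraMap_mem' c
  | add x y _ _ hx hy => exact add_mem hx hy
  | mul x y _ _ hx hy => exact mul_mem hx hy

end Inst

section Main

variable [IsAlgClosed K] [CharZero K]

/-- **Fundamental identity (FF1).**  For `t` transcendental over `K` with `F / K(t)` finite,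
the zeros of `t`, counted with multiplicity, are `[F : K(t)]` in number. -/
theorem fundamental_identity (t : F) (ht : Transcendental K t)
    [FiniteDimensional ↥(IntermediateField.adjoin K {t}) F]
    (s : Finset (Place K F)) (hs : ∀ v : Place K F, v ∈ s ↔ 0 < v.ord t) :
    ∑ v ∈ s, v.ord t = (Module.finrank ↥(IntermediateField.adjoin K {t}) F : ℤ) := by
  haveI : IsPrincipalIdealRing (polyRing K t) := polyRing_isPrincipalIdealRing K t ht
  haveI : IsScalarTower (polyRing K t) (integralClosure (polyRing K t) F) F :=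
    Subalgebra.isScalarTower_mid _
  haveI : IsFractionRing (integralClosure (polyRing K t) F) F :=
    integralClosure.isFractionRing_of_finite_extension K⟮t⟯ F
  haveI : IsDedekindDomain (integralClosure (polyRing K t) F) :=
    IsIntegralClosure.isDedekindDomain (polyRing K t) K⟮t⟯ F (integralClosure (polyRing K t) F)
  haveI : Module.Finite (polyRing K t) (integralClosure (polyRing K t) F) :=
    IsIntegralClosure.finite (polyRing K t) K⟮t⟯ F (integralClosure (polyRing K t) F)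
  have hfin : Module.finrank K⟮t⟯ F
      = Module.finrank (polyRing K t) (integralClosure (polyRing K t) F) :=
    IsFractionRing.finrank_eq (polyRing K t) K⟮t⟯ (integralClosure (polyRing K t) F) F
  have hprime : (Ideal.span {tR K t}).IsPrime :=
    (Ideal.span_singleton_prime (tR_ne_zero K t ht)).mpr (tR_prime K t ht)
  have hne : Ideal.span {tR K t} ≠ ⊥ := by
    rw [Ne, Ideal.span_singleton_eq_bot]
    exact tR_ne_zero K t ht
  haveI hmax : (Ideal.span {tR K t}).IsMaximal := hprime.isMaximal hne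
  have hinj : Function.Injective
      (algebraMap (polyRing K t) (integralClosure (polyRing K t) F)) := by
    intro a b hab
    have := congrArg (algebraMap (integralClosure (polyRing K t) F) F) hab
    rw [← IsScalarTower.algebraMap_apply, ← IsScalarTower.algebraMap_apply] at this
    exact Subtype.ext this
  rw [hfin]
  exact fundamental_identity_abstract (K := K) (F := F)
    (S := integralClosure (polyRing K t) F) (R := polyRing K t)
    (Ideal.span {tR K t}) (tR K t) rfl (tR_ne_zero K t ht) hinj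
    (exists_sub_mem_span_tR K t ht)
    (fun v hv r => coe_mem_valuationSubring_of_ord_nonneg K t v hv.le r) s hs

end Main

end Fermat.Agent.S24.H864

end
end
-- ===== PACK-END S24/H864/FF3d.lean

-- ===== PACK-BEGIN S28/H807/SAction.lean
section
/-
S28 / helper807 — the action of `S : τ ↦ -1/τ` on the `p+1` conjugates
`{E(τ)} ∪ {G((τ+b)/p) : b < p}`: abstract permutation lemma + the point identities in `ℍ`.
-/



set_option autoImplicit false
set_option maxHeartbeats 400000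

noncomputable section

open ModularCurve Polynomial Matrix UpperHalfPlane Complex
open scoped MatrixGroups

namespace Fermat.Agent.S28.H807

section Perm

variable (p : ℕ) [Fact p.Prime]

/-- `b ↦ -1/b` on nonzero residues, on representatives in `Fin p`. -/
def negInvFin (b : Fin p) : Fin p :=
  ⟨(-((b : ℕ) : ZMod p)⁻¹).val, ZMod.val_lt _⟩

theorem negInvFin_cast (b : Fin p) :
    (((negInvFin p b : Fin p) : ℕ) : ZMod p) = -((b : ℕ) : ZMod p)⁻¹ := by
  simp [negInvFin]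

theorem cast_ne_zero_of_ne_zero {b : Fin p} (hb : (b : ℕ) ≠ 0) : (((b : ℕ) : ZMod p)) ≠ 0 := by
  intro h
  rw [ZMod.natCast_eq_zero_iff] at h
  have := Nat.le_of_dvd (Nat.pos_of_ne_zero hb) h
  exact absurd b.2 (not_lt.mpr this)

theorem negInvFin_ne_zero {b : Fin p} (hb : (b : ℕ) ≠ 0) : ((negInvFin p b : Fin p) : ℕ) ≠ 0 := by
  intro h
  have h1 := negInvFin_cast p b
  rw [h] at h1
  simp only [Nat.cast_zero] at h1
  have h2 : (((b : ℕ) : ZMod p))⁻¹ = 0 := by
    have := h1.symm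
    rwa [neg_eq_zero] at this
  rw [inv_eq_zero] at h2
  exact cast_ne_zero_of_ne_zero p hb h2

theorem negInvFin_negInvFin {b : Fin p} (_hb : (b : ℕ) ≠ 0) :
    negInvFin p (negInvFin p b) = b := by
  apply Fin.ext
  show (-(((negInvFin p b : Fin p) : ℕ) : ZMod p)⁻¹).val = (b : ℕ)
  rw [negInvFin_cast, inv_neg, neg_neg, inv_inv, ZMod.val_natCast_of_lt b.2]

theorem dvd_mul_negInvFin_add_one {b : Fin p} (hb : (b : ℕ) ≠ 0) :
    (p : ℤ) ∣ ((b : ℕ) : ℤ) * (((negInvFin p b : Fin p) : ℕ) : ℤ) + 1 := by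
  have h1 : ((((b : ℕ) : ℤ) * (((negInvFin p b : Fin p) : ℕ) : ℤ) + 1 : ℤ) : ZMod p) = 0 := by
    push_cast
    rw [negInvFin_cast, mul_neg, mul_inv_cancel₀ (cast_ne_zero_of_ne_zero p hb)]
    ring
  exact (ZMod.intCast_zmod_eq_zero_iff_dvd _ p).mp h1

/-- The permutation of `P¹(𝔽_p) = Option (Fin p)` induced by `S`. -/
def sPermFun : Option (Fin p) → Option (Fin p)
  | none => some ⟨0, (Fact.out : p.Prime).pos⟩
  | some b => if (b : ℕ) = 0 then none else some (negInvFin p b)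

theorem sPermFun_involutive : Function.Involutive (sPermFun p) := by
  intro i
  cases i with
  | none => simp [sPermFun]
  | some b =>
    by_cases hb : (b : ℕ) = 0
    · simp only [sPermFun, hb, if_true]
      congr 1
      exact Fin.ext hb.symm
    · simp only [sPermFun, hb, if_false, negInvFin_ne_zero p hb]
      rw [negInvFin_negInvFin p hb]

/-- **Abstract `S`-invariance**: if the conjugates at `τ'` are obtained from those at `τ` by
the permutation `sPermFun`, the two products agree. -/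
theorem prod_conj_eq_of_perm (E E' : ℂ) (G G' : Fin p → ℂ)
    (ha : E' = G ⟨0, (Fact.out : p.Prime).pos⟩)
    (hb : G' ⟨0, (Fact.out : p.Prime).pos⟩ = E)
    (hc : ∀ b : Fin p, (b : ℕ) ≠ 0 → G' b = G (negInvFin p b)) :
    (X - C E') * ∏ b : Fin p, (X - C (G' b)) = (X - C E) * ∏ b : Fin p, (X - C (G b)) := by
  set f : Option (Fin p) → ℂ := fun i => Option.elim i E G with hf
  set f' : Option (Fin p) → ℂ := fun i => Option.elim i E' G' with hf'
  have h1 : (X - C E) * ∏ b : Fin p, (X - C (G b)) = ∏ i : Option (Fin p), (X - C (f i)) := by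
    rw [Fintype.prod_option]; rfl
  have h2 : (X - C E') * ∏ b : Fin p, (X - C (G' b)) = ∏ i : Option (Fin p), (X - C (f' i)) := by
    rw [Fintype.prod_option]; rfl
  have h3 : ∀ i, f' i = f (sPermFun p i) := by
    intro i
    cases i with
    | none => simp [hf, hf', sPermFun, ha]
    | some b =>
      by_cases hb0 : (b : ℕ) = 0
      · have hb1 : b = ⟨0, (Fact.out : p.Prime).pos⟩ := Fin.ext hb0
        subst hb1
        show G' ⟨0, (Fact.out : p.Prime).pos⟩ = f (sPermFun p (some ⟨0, (Fact.out : p.Prime).pos⟩))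
        rw [hb]
        simp [hf, sPermFun]
      · simp [hf, hf', sPermFun, hb0, hc b hb0]
  rw [h1, h2]
  rw [← Equiv.prod_comp ((sPermFun_involutive p).toPerm _) (fun i => (X - C (f i)))]
  apply Finset.prod_congr rfl
  intro i _
  rw [h3 i]
  rfl

end Perm

section PointIdentities

variable (p : ℕ) [NeZero p]

theorem mulNat_S_smul (τ : ℍ) :
    mulNat p (ModularGroup.S • τ) = ModularGroup.S • divShift p 0 τ := by
  have hp : (p : ℂ) ≠ 0 := by exact_mod_cast NeZero.ne p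
  have hτ : (τ : ℂ) ≠ 0 := ne_zero τ
  apply UpperHalfPlane.ext
  rw [modular_S_smul, modular_S_smul]
  simp only [coe_mulNat, coe_divShift, Int.cast_zero, add_zero]
  field_simp

theorem divShift_zero_S_smul (τ : ℍ) :
    divShift p 0 (ModularGroup.S • τ) = ModularGroup.S • mulNat p τ := by
  have hp : (p : ℂ) ≠ 0 := by exact_mod_cast NeZero.ne p
  have hτ : (τ : ℂ) ≠ 0 := ne_zero τ
  apply UpperHalfPlane.ext
  rw [modular_S_smul, modular_S_smul]
  simp only [coe_mulNat, coe_divShift, Int.cast_zero, add_zero]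
  field_simp

theorem mulNat_divShift (b : ℤ) (τ : ℍ) :
    mulNat p (divShift p b τ) = ModularGroup.T ^ b • τ := by
  have hp : (p : ℂ) ≠ 0 := by exact_mod_cast NeZero.ne p
  apply UpperHalfPlane.ext
  rw [modular_T_zpow_smul]
  simp only [coe_mulNat, coe_divShift, UpperHalfPlane.coe_vadd]
  field_simp
  push_cast
  ring

/-- The matrix `[[B, -k], [p, -B']]` with `B B' + 1 = p k`. -/
def conjMat (B B' k : ℤ) (h : B * B' + 1 = (p : ℤ) * k) : SL(2, ℤ) :=
  ⟨!![B, -k; (p : ℤ), -B'], by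
    rw [Matrix.det_fin_two_of]
    linarith⟩

theorem conjMat_smul (B B' k : ℤ) (h : B * B' + 1 = (p : ℤ) * k) (τ : ℍ) :
    conjMat p B B' k h • divShift p B' τ = divShift p B (ModularGroup.S • τ) := by
  have hp : (p : ℂ) ≠ 0 := by exact_mod_cast NeZero.ne p
  have hτ : (τ : ℂ) ≠ 0 := ne_zero τ
  have hk : (B : ℂ) * (B' : ℂ) + 1 = (p : ℂ) * (k : ℂ) := by exact_mod_cast h
  apply UpperHalfPlane.ext
  rw [coe_specialLinearGroup_apply, modular_S_smul]
  simp only [coe_divShift, conjMat]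
  simp only [Matrix.of_apply, Matrix.cons_val',
    Matrix.cons_val_zero, Matrix.cons_val_one, Matrix.cons_val_fin_one, algebraMap_int_eq,
    eq_intCast, Int.cast_neg, Int.cast_natCast, Complex.ofReal_intCast, Complex.ofReal_neg,
    Complex.ofReal_natCast]
  have hden : (p : ℂ) * (((τ : ℂ) + (B' : ℂ)) / (p : ℂ)) + -(B' : ℂ) = (τ : ℂ) := by
    field_simp; ring
  rw [hden]
  field_simp
  linear_combination hk

theorem denom_conjMat (B B' k : ℤ) (h : B * B' + 1 = (p : ℤ) * k) (τ : ℍ) :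
    denom (conjMat p B B' k h) (divShift p B' τ) = (τ : ℂ) := by
  have hp : (p : ℂ) ≠ 0 := by exact_mod_cast NeZero.ne p
  rw [ModularGroup.denom_apply]
  simp only [coe_divShift, conjMat]
  simp only [Matrix.of_apply, Matrix.cons_val',
    Matrix.cons_val_zero, Matrix.cons_val_one, Matrix.cons_val_fin_one]
  push_cast
  field_simp
  ring

end PointIdentities

end Fermat.Agent.S28.H807

end

end
-- ===== PACK-END S28/H807/SAction.lean

-- ===== PACK-BEGIN S35/H891/DeckF.lean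
section


/-!
# S35, cell FROB — the deck lemma for a FROBENIUS lift (helper891)

Variant of helper12's route-G wall (`Fermat/Agent/A2/H12/{Deck,DeckTwo,WallG}.lean`) for a ring
automorphism `φ̃` of the cover which does NOT act trivially on the residue rings of the sheets
(a lift of a Frobenius element).  The hypothesis `h_triv` of `A2.H12.wallG` is replaced by

* `h_node` : if `φ̃` fixes the sheet `s` and a second sheet `t ≠ s` passes through the closed
  point `𝔫` of `s`, then `φ̃⁻¹` maps `𝔫` into itself (crossing points on a fixed sheet are fixed),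

and the root-of-unity hypothesis `τ ζ = ζ` by `φ̃ ζ = ζ ^ Q`.  Conclusion: `φ̃ y / y ^ Q` is
invariant under the Galois group.

Mathlib + `A2.H12` (definitions `Adj`, `TwoAdj`, `SubAdj`, `SepAt`, `chartIdeal`, lemmas
`sheetGraph_connected_sub`, `wallG_comm`, `exists_maximal_of_not_comaximal`).
-/

set_option autoImplicit false

namespace Fermat.Agent.S35.H891

open Fermat.Agent.A2.H12

open scoped Classical

section Graph

variable {S P : Type*}

/-- **Graph lemma, node form.**  As `A2.H12.fixes_all`, but only the points of a fixed sheet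
through which a SECOND sheet passes are assumed to be fixed. -/
theorem fixes_all_node {C : Type*} (inc : S → P → Prop) (col : S → C) (τS : S → S)
    (τP : P → P)
    (h_col : ∀ s, col (τS s) = col s)
    (h_inc : ∀ s p, inc s p → inc (τS s) (τP p))
    (h_fix : ∀ s t p, τS s = s → s ≠ t → inc s p → inc t p → τP p = p)
    (h_uni : ∀ s t p, inc s p → inc t p → col s = col t → s = t)
    (h_conn : ∀ s t : S, Relation.ReflTransGen (Adj inc) s t)
    (s₀ : S) (h₀ : τS s₀ = s₀) : ∀ s, τS s = s := by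
  intro s
  have key : ∀ a b, Relation.ReflTransGen (Adj inc) a b → τS a = a → τS b = b := by
    intro a b hab
    induction hab with
    | refl => exact id
    | @tail b c _ hbc ih =>
      intro ha
      have hb := ih ha
      by_cases hbc' : b = c
      · rw [← hbc']; exact hb
      · obtain ⟨p, hbp, hcp⟩ := hbc
        have hp : τP p = p := h_fix b c p hb hbc' hbp hcp
        have h1 := h_inc _ p hcp
        rw [hp] at h1
        exact h_uni _ _ p h1 hcp (h_col _)
  exact key s₀ s (h_conn s₀ s) h₀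

end Graph

section Two

variable {R₁ R₂ : Type*} [CommRing R₁] [CommRing R₂] {S C : Type*}

/-- **Deck lemma, two charts, ring form, node version.** -/
theorem fixes_all_two_node (ρ₁ : R₁ →+* R₁) (hρ₁ : Function.Surjective ρ₁)
    (ρ₂ : R₂ →+* R₂) (hρ₂ : Function.Surjective ρ₂)
    (Q₁ : S → Ideal R₁) (Q₂ : S → Ideal R₂) (τS : S → S) (col : S → C)
    (hQ₁ : ∀ s b, b ∈ Q₁ (τS s) → ρ₁ b ∈ Q₁ s)
    (hQ₂ : ∀ s b, b ∈ Q₂ (τS s) → ρ₂ b ∈ Q₂ s)
    (h_col : ∀ s, col (τS s) = col s)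
    (h_node₁ : ∀ s t, τS s = s → s ≠ t → ∀ 𝔫 : Ideal R₁, 𝔫.IsMaximal → Q₁ s ≤ 𝔫 → Q₁ t ≤ 𝔫 →
      ∀ b ∈ 𝔫, ρ₁ b ∈ 𝔫)
    (h_node₂ : ∀ s t, τS s = s → s ≠ t → ∀ 𝔫 : Ideal R₂, 𝔫.IsMaximal → Q₂ s ≤ 𝔫 → Q₂ t ≤ 𝔫 →
      ∀ b ∈ 𝔫, ρ₂ b ∈ 𝔫)
    (h_uni₁ : ∀ 𝔫 : Ideal R₁, 𝔫.IsMaximal → ∀ s t, col s = col t →
      Q₁ s ≤ 𝔫 → Q₁ t ≤ 𝔫 → s = t)
    (h_uni₂ : ∀ 𝔫 : Ideal R₂, 𝔫.IsMaximal → ∀ s t, col s = col t →
      Q₂ s ≤ 𝔫 → Q₂ t ≤ 𝔫 → s = t)
    (h_conn : ∀ s t : S, Relation.ReflTransGen (TwoAdj Q₁ Q₂) s t)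
    (s₀ : S) (h₀ : τS s₀ = s₀) : ∀ s, τS s = s := by
  classical
  let Pt := {𝔫 : Ideal R₁ // 𝔫.IsMaximal} ⊕ {𝔫 : Ideal R₂ // 𝔫.IsMaximal}
  let inc : S → Pt → Prop := fun s p =>
    Sum.elim (fun 𝔫 => Q₁ s ≤ 𝔫.1) (fun 𝔫 => Q₂ s ≤ 𝔫.1) p
  let τP : Pt → Pt := fun p =>
    Sum.elim
      (fun 𝔫 => Sum.inl ⟨𝔫.1.comap ρ₁, by
        have := 𝔫.2
        exact Ideal.comap_isMaximal_of_surjective ρ₁ hρ₁⟩)
      (fun 𝔫 => Sum.inr ⟨𝔫.1.comap ρ₂, by
        have := 𝔫.2
        exact Ideal.comap_isMaximal_of_surjective ρ₂ hρ₂⟩) p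
  refine fixes_all_node inc col τS τP h_col ?_ ?_ ?_ ?_ s₀ h₀
  · -- incidence is preserved
    rintro s (𝔫 | 𝔫) hsp
    · intro b hb
      exact hsp (hQ₁ s b hb)
    · intro b hb
      exact hsp (hQ₂ s b hb)
  · -- crossing points of a fixed sheet are fixed
    rintro s t (𝔫 | 𝔫) hs hst hsp htp
    · have hle : 𝔫.1 ≤ 𝔫.1.comap ρ₁ := fun b hb =>
        Ideal.mem_comap.2 (h_node₁ s t hs hst 𝔫.1 𝔫.2 hsp htp b hb)
      have hmax : (𝔫.1.comap ρ₁).IsMaximal := by
        have := 𝔫.2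
        exact Ideal.comap_isMaximal_of_surjective ρ₁ hρ₁
      have : 𝔫.1.comap ρ₁ = 𝔫.1 := (𝔫.2.eq_of_le hmax.ne_top hle).symm
      exact congrArg Sum.inl (Subtype.ext this)
    · have hle : 𝔫.1 ≤ 𝔫.1.comap ρ₂ := fun b hb =>
        Ideal.mem_comap.2 (h_node₂ s t hs hst 𝔫.1 𝔫.2 hsp htp b hb)
      have hmax : (𝔫.1.comap ρ₂).IsMaximal := by
        have := 𝔫.2
        exact Ideal.comap_isMaximal_of_surjective ρ₂ hρ₂
      have : 𝔫.1.comap ρ₂ = 𝔫.1 := (𝔫.2.eq_of_le hmax.ne_top hle).symm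
      exact congrArg Sum.inr (Subtype.ext this)
  · -- COUNT
    rintro s t (𝔫 | 𝔫) hs ht hc
    · exact h_uni₁ 𝔫.1 𝔫.2 s t hc hs ht
    · exact h_uni₂ 𝔫.1 𝔫.2 s t hc hs ht
  · -- connectedness
    intro s t
    refine Relation.ReflTransGen.mono ?_ _ _ (h_conn s t)
    rintro a b (h | h)
    · obtain ⟨𝔫, h𝔫, ha, hb⟩ := exists_maximal_of_not_comaximal _ _ h
      exact ⟨Sum.inl ⟨𝔫, h𝔫⟩, ha, hb⟩
    · obtain ⟨𝔫, h𝔫, ha, hb⟩ := exists_maximal_of_not_comaximal _ _ h
      exact ⟨Sum.inr ⟨𝔫, h𝔫⟩, ha, hb⟩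

end Two

section Kummer

variable {L : Type*} [Field L]

/-- **Kummer part, Frobenius version.**  If `τ` commutes with every `g ∈ G` on `y`, and every
`g ∈ G` multiplies `y` by a root of unity `ζ` with `τ ζ = ζ ^ Q`, then `τ y / y ^ Q` is fixed
by `G`. -/
theorem kummer_of_commute_pow (G : Set (L ≃+* L)) (τ : L ≃+* L) (y : L) (hy : y ≠ 0) (Q : ℕ)
    (h_comm : ∀ g ∈ G, τ (g y) = g (τ y))
    (h_char : ∀ g ∈ G, ∃ ζ : L, g y = ζ * y ∧ τ ζ = ζ ^ Q) :
    ∀ g ∈ G, g (τ y / y ^ Q) = τ y / y ^ Q := by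
  intro g hg
  obtain ⟨ζ, hζ, hτζ⟩ := h_char g hg
  have h1 : g (τ y) = ζ ^ Q * τ y := by
    rw [← h_comm g hg, hζ, map_mul, hτζ]
  have hζ0 : ζ ≠ 0 := by
    rintro rfl
    rw [zero_mul] at hζ
    exact hy ((map_eq_zero_iff g g.injective).1 hζ)
  have hyQ : y ^ Q ≠ 0 := pow_ne_zero _ hy
  have hζQ : ζ ^ Q ≠ 0 := pow_ne_zero _ hζ0
  rw [map_div₀, h1, map_pow, hζ, mul_pow]
  field_simp

end Kummer

section Val

variable {R : Type*} [CommRing R] {L : Type*} [Field L] [Algebra R L] {S : Type*}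

/-- **Frobenius wall, step "φ̃ fixes every sheet".** -/
theorem wallF_fixes [Fintype S] (w : R) (Bfin Binf Bmid : Subalgebra R L)
    (M : S → AddSubgroup L)
    (habs : ∀ s, ∀ c ∈ Bmid, ∀ a ∈ M s, c * a ∈ M s)
    (hfm : Bfin ≤ Bmid) (him : Binf ≤ Bmid)
    (hM1 : ∀ s, (1 : L) ∉ M s) (hwM : ∀ s, algebraMap R L w ∈ M s)
    (hred_mid : ∀ b ∈ Bmid, (∀ s, b ∈ M s) → ∃ t ∈ Bmid, b = algebraMap R L w * t)
    (hred_fin : ∀ b ∈ Bfin, (∀ s, b ∈ M s) → ∃ t ∈ Bfin, b = algebraMap R L w * t)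
    (hred_inf : ∀ b ∈ Binf, (∀ s, b ∈ M s) → ∃ t ∈ Binf, b = algebraMap R L w * t)
    (hcech : ∀ e₁ e₂ : L, e₁ ∈ Bfin → e₂ ∈ Binf →
      (∃ t ∈ Bfin, e₁ ^ 2 - e₁ = algebraMap R L w * t) →
      (∃ t ∈ Binf, e₂ ^ 2 - e₂ = algebraMap R L w * t) →
      (∃ t ∈ Bmid, e₁ - e₂ = algebraMap R L w * t) →
      ((∃ t ∈ Bfin, e₁ = algebraMap R L w * t) ∧ (∃ t ∈ Binf, e₂ = algebraMap R L w * t)) ∨
      ((∃ t ∈ Bfin, 1 - e₁ = algebraMap R L w * t) ∧
        (∃ t ∈ Binf, 1 - e₂ = algebraMap R L w * t)))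
    (τ : L ≃+* L) (hτfin : ∀ b, b ∈ Bfin ↔ τ b ∈ Bfin) (hτinf : ∀ b, b ∈ Binf ↔ τ b ∈ Binf)
    (τS : S → S) (hτM : ∀ s b, b ∈ M s ↔ τ b ∈ M (τS s))
    {C : Type*} (col : S → C) (h_col : ∀ s, col (τS s) = col s)
    (h_node_fin : ∀ s t, τS s = s → s ≠ t → ∀ 𝔫 : Ideal Bfin, 𝔫.IsMaximal →
      (∀ c : Bfin, (c : L) ∈ M s → c ∈ 𝔫) → (∀ c : Bfin, (c : L) ∈ M t → c ∈ 𝔫) →
      ∀ c : Bfin, c ∈ 𝔫 → ∀ h : τ.symm (c : L) ∈ Bfin, (⟨τ.symm (c : L), h⟩ : Bfin) ∈ 𝔫)
    (h_node_inf : ∀ s t, τS s = s → s ≠ t → ∀ 𝔫 : Ideal Binf, 𝔫.IsMaximal →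
      (∀ c : Binf, (c : L) ∈ M s → c ∈ 𝔫) → (∀ c : Binf, (c : L) ∈ M t → c ∈ 𝔫) →
      ∀ c : Binf, c ∈ 𝔫 → ∀ h : τ.symm (c : L) ∈ Binf, (⟨τ.symm (c : L), h⟩ : Binf) ∈ 𝔫)
    (h_uni_fin : ∀ 𝔫 : Ideal Bfin, 𝔫.IsMaximal → ∀ s t, col s = col t →
      (∀ c : Bfin, (c : L) ∈ M s → c ∈ 𝔫) → (∀ c : Bfin, (c : L) ∈ M t → c ∈ 𝔫) → s = t)
    (h_uni_inf : ∀ 𝔫 : Ideal Binf, 𝔫.IsMaximal → ∀ s t, col s = col t →
      (∀ c : Binf, (c : L) ∈ M s → c ∈ 𝔫) → (∀ c : Binf, (c : L) ∈ M t → c ∈ 𝔫) → s = t)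
    (s₀ : S) (h₀ : τS s₀ = s₀) : ∀ s, τS s = s := by
  have hsymm_fin : ∀ b ∈ Bfin, (τ.symm : L →+* L) b ∈ Bfin := by
    intro b hb
    rw [hτfin]
    simpa using hb
  have hsymm_inf : ∀ b ∈ Binf, (τ.symm : L →+* L) b ∈ Binf := by
    intro b hb
    rw [hτinf]
    simpa using hb
  let ρ₁ : Bfin →+* Bfin := RingHom.restrict (τ.symm : L →+* L) Bfin Bfin hsymm_fin
  let ρ₂ : Binf →+* Binf := RingHom.restrict (τ.symm : L →+* L) Binf Binf hsymm_inf
  have hρ₁ : ∀ b : Bfin, ((ρ₁ b : Bfin) : L) = τ.symm (b : L) := fun b => rfl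
  have hρ₂ : ∀ b : Binf, ((ρ₂ b : Binf) : L) = τ.symm (b : L) := fun b => rfl
  have hsurj₁ : Function.Surjective ρ₁ := by
    intro b
    refine ⟨⟨τ (b : L), (hτfin _).1 b.2⟩, Subtype.ext ?_⟩
    rw [hρ₁]
    simp
  have hsurj₂ : Function.Surjective ρ₂ := by
    intro b
    refine ⟨⟨τ (b : L), (hτinf _).1 b.2⟩, Subtype.ext ?_⟩
    rw [hρ₂]
    simp
  refine fixes_all_two_node ρ₁ hsurj₁ ρ₂ hsurj₂
    (fun s => chartIdeal Bfin (M s) (fun c hc => habs s c (hfm hc)))
    (fun s => chartIdeal Binf (M s) (fun c hc => habs s c (him hc)))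
    τS col ?_ ?_ h_col ?_ ?_ ?_ ?_ ?_ s₀ h₀
  · intro s b hb
    rw [mem_chartIdeal] at hb ⊢
    rw [hρ₁, hτM s]
    simpa using hb
  · intro s b hb
    rw [mem_chartIdeal] at hb ⊢
    rw [hρ₂, hτM s]
    simpa using hb
  · intro s t hs hst 𝔫 h𝔫 hsn htn b hb
    exact h_node_fin s t hs hst 𝔫 h𝔫 (fun c hc => hsn hc) (fun c hc => htn hc) b hb
      (hsymm_fin _ b.2)
  · intro s t hs hst 𝔫 h𝔫 hsn htn b hb
    exact h_node_inf s t hs hst 𝔫 h𝔫 (fun c hc => hsn hc) (fun c hc => htn hc) b hb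
      (hsymm_inf _ b.2)
  · intro 𝔫 h𝔫 s t hc hs ht
    exact h_uni_fin 𝔫 h𝔫 s t hc (fun c hcM => hs hcM) (fun c hcM => ht hcM)
  · intro 𝔫 h𝔫 s t hc hs ht
    exact h_uni_inf 𝔫 h𝔫 s t hc (fun c hcM => hs hcM) (fun c hcM => ht hcM)
  · intro s t
    refine Relation.ReflTransGen.mono ?_ _ _
      (sheetGraph_connected_sub w Bfin Binf Bmid M habs hfm him hM1 hwM hred_mid hred_fin
        hred_inf hcech s t)
    rintro a b (h | h)
    · left
      rintro ⟨c, hc, d, hd, hcd⟩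
      exact h ⟨c.1, c.2, hc, d.1, d.2, hd, congrArg Subtype.val hcd⟩
    · right
      rintro ⟨c, hc, d, hd, hcd⟩
      exact h ⟨c.1, c.2, hc, d.1, d.2, hd, congrArg Subtype.val hcd⟩

/-- **The Frobenius wall, field form.**  Under the hypotheses of `wallF_fixes` and
`A2.H12.wallG_comm`, for every Kummer generator `y` (each `σ ∈ Γ` multiplies `y` by a root of
unity `ζ` with `φ̃ ζ = ζ ^ Q`) the quotient `φ̃ y / y ^ Q` is `Γ`-invariant. -/
theorem wallF [Fintype S] (w : R) (Bfin Binf Bmid : Subalgebra R L)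
    (M : S → AddSubgroup L)
    (habs : ∀ s, ∀ c ∈ Bmid, ∀ a ∈ M s, c * a ∈ M s)
    (hfm : Bfin ≤ Bmid) (him : Binf ≤ Bmid)
    (hM1 : ∀ s, (1 : L) ∉ M s) (hwM : ∀ s, algebraMap R L w ∈ M s)
    (hred_mid : ∀ b ∈ Bmid, (∀ s, b ∈ M s) → ∃ t ∈ Bmid, b = algebraMap R L w * t)
    (hred_fin : ∀ b ∈ Bfin, (∀ s, b ∈ M s) → ∃ t ∈ Bfin, b = algebraMap R L w * t)
    (hred_inf : ∀ b ∈ Binf, (∀ s, b ∈ M s) → ∃ t ∈ Binf, b = algebraMap R L w * t)
    (hcech : ∀ e₁ e₂ : L, e₁ ∈ Bfin → e₂ ∈ Binf →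
      (∃ t ∈ Bfin, e₁ ^ 2 - e₁ = algebraMap R L w * t) →
      (∃ t ∈ Binf, e₂ ^ 2 - e₂ = algebraMap R L w * t) →
      (∃ t ∈ Bmid, e₁ - e₂ = algebraMap R L w * t) →
      ((∃ t ∈ Bfin, e₁ = algebraMap R L w * t) ∧ (∃ t ∈ Binf, e₂ = algebraMap R L w * t)) ∨
      ((∃ t ∈ Bfin, 1 - e₁ = algebraMap R L w * t) ∧
        (∃ t ∈ Binf, 1 - e₂ = algebraMap R L w * t)))
    (τ : L ≃+* L) (hτfin : ∀ b, b ∈ Bfin ↔ τ b ∈ Bfin) (hτinf : ∀ b, b ∈ Binf ↔ τ b ∈ Binf)
    (hτM : ∀ s, ∃ s', ∀ b, b ∈ M s ↔ τ b ∈ M s')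
    (hMinj : Function.Injective M)
    {C : Type*} (col : S → C)
    (h_col : ∀ s s', (∀ b, b ∈ M s ↔ τ b ∈ M s') → col s' = col s)
    (h_node_fin : ∀ s t, (∀ b, b ∈ M s ↔ τ b ∈ M s) → s ≠ t → ∀ 𝔫 : Ideal Bfin, 𝔫.IsMaximal →
      (∀ c : Bfin, (c : L) ∈ M s → c ∈ 𝔫) → (∀ c : Bfin, (c : L) ∈ M t → c ∈ 𝔫) →
      ∀ c : Bfin, c ∈ 𝔫 → ∀ h : τ.symm (c : L) ∈ Bfin, (⟨τ.symm (c : L), h⟩ : Bfin) ∈ 𝔫)
    (h_node_inf : ∀ s t, (∀ b, b ∈ M s ↔ τ b ∈ M s) → s ≠ t → ∀ 𝔫 : Ideal Binf, 𝔫.IsMaximal →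
      (∀ c : Binf, (c : L) ∈ M s → c ∈ 𝔫) → (∀ c : Binf, (c : L) ∈ M t → c ∈ 𝔫) →
      ∀ c : Binf, c ∈ 𝔫 → ∀ h : τ.symm (c : L) ∈ Binf, (⟨τ.symm (c : L), h⟩ : Binf) ∈ 𝔫)
    (h_uni_fin : ∀ 𝔫 : Ideal Bfin, 𝔫.IsMaximal → ∀ s t, col s = col t →
      (∀ c : Bfin, (c : L) ∈ M s → c ∈ 𝔫) → (∀ c : Bfin, (c : L) ∈ M t → c ∈ 𝔫) → s = t)
    (h_uni_inf : ∀ 𝔫 : Ideal Binf, 𝔫.IsMaximal → ∀ s t, col s = col t →
      (∀ c : Binf, (c : L) ∈ M s → c ∈ 𝔫) → (∀ c : Binf, (c : L) ∈ M t → c ∈ 𝔫) → s = t)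
    (s₀ : S) (h₀ : ∀ b, b ∈ M s₀ ↔ τ b ∈ M s₀)
    (Γ : Subgroup (L ≃+* L))
    (hΓM : ∀ σ ∈ Γ, ∀ s, ∃ s', ∀ b, b ∈ M s ↔ σ b ∈ M s')
    (hfree : ∀ σ ∈ Γ, ∀ s, (∀ b, b ∈ M s ↔ σ b ∈ M s) → σ = 1)
    (hnorm : ∀ σ ∈ Γ, τ * σ * τ⁻¹ ∈ Γ)
    (y : L) (hy : y ≠ 0) (Q : ℕ) (hζ : ∀ σ ∈ Γ, ∃ ζ : L, σ y = ζ * y ∧ τ ζ = ζ ^ Q) :
    ∀ σ ∈ Γ, σ (τ y / y ^ Q) = τ y / y ^ Q := by
  choose τS hτS using hτM
  have huniq : ∀ s s', (∀ b, b ∈ M s ↔ τ b ∈ M s') → τS s = s' := by
    intro s s' h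
    apply hMinj
    ext c
    have h1 := hτS s (τ.symm c)
    have h2 := h (τ.symm c)
    simp only [RingEquiv.apply_symm_apply] at h1 h2
    rw [← h1, h2]
  have hfixiff : ∀ s, τS s = s → ∀ b, b ∈ M s ↔ τ b ∈ M s := by
    intro s hs c
    have := hτS s c
    rwa [hs] at this
  have hfix := wallF_fixes w Bfin Binf Bmid M habs hfm him hM1 hwM hred_mid hred_fin hred_inf
    hcech τ hτfin hτinf τS hτS col (fun s => h_col s (τS s) (hτS s))
    (fun s t hs hst => h_node_fin s t (hfixiff s hs) hst)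
    (fun s t hs hst => h_node_inf s t (hfixiff s hs) hst)
    h_uni_fin h_uni_inf s₀ (huniq s₀ s₀ h₀)
  have hall : ∀ s b, b ∈ M s ↔ τ b ∈ M s := fun s => hfixiff s (hfix s)
  have hcomm := wallG_comm M τ hall Γ hΓM hfree hnorm s₀
  exact kummer_of_commute_pow (Γ : Set (L ≃+* L)) τ y hy Q (fun g hg => hcomm g hg y)
    (fun g hg => hζ g hg)

end Val

end Fermat.Agent.S35.H891

end
-- ===== PACK-END S35/H891/DeckF.lean

-- ===== PACK-BEGIN S28/H685/JIntegral.lean
section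




/-!
# S28 helper (helper685): integrality in the `j`-polynomial principle (J4)

If `P(j)` has all its Laurent coefficients in a subring `C₀ ⊆ ℂ`, then so has `P`.
Combined with `exists_polynomial_of_S_invariant` this gives the polynomial principle with
coefficients in `C₀`.  Also the versions for the parameter `q^(1/N)`.
-/

set_option autoImplicit false

namespace Fermat.Agent.S28.H685

open UpperHalfPlane Function Complex Filter HahnSeries ModularForm
open scoped Topology Manifold MatrixGroups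

noncomputable section

local notation "𝕢" => Periodic.qParam

theorem jqModC_pow_eq (n : ℕ) : ModularCurve.jqModC ℂ ^ n =
    HahnSeries.single (-(n : ℤ)) (1 : ℂ) * HahnSeries.ofPowerSeries ℤ ℂ (jNumC ^ n) := by
  rw [jqModC_eq, hauptmodul_pow]

/-- The coefficients of the powers of `j` are integers. -/
theorem coeff_jqModC_pow_mem (C₀ : Subring ℂ) (n : ℕ) (k : ℤ) :
    (ModularCurve.jqModC ℂ ^ n).coeff k ∈ C₀ := by
  have h : (ModularCurve.jqModC ℂ ^ n).coeff k =
      (((ModularCurve.jqModC ℤ ^ n).coeff k : ℤ) : ℂ) := by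
    rw [← ModularCurve.map_jqModC (Int.castRingHom ℂ)]
    have hpow : ((ModularCurve.jqModC ℤ).map (Int.castRingHom ℂ)) ^ n =
        (ModularCurve.jqModC ℤ ^ n).map (Int.castRingHom ℂ) := by
      induction n with
      | zero =>
        ext g
        simp only [pow_zero, HahnSeries.map_coeff, HahnSeries.coeff_one]
        split_ifs <;> simp
      | succ n ih =>
        rw [pow_succ, pow_succ, ih]
        exact (HahnSeries.map_mul (Int.castRingHom ℂ).toNonUnitalRingHom).symm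
    rw [hpow, HahnSeries.map_coeff]
    rfl
  rw [h]
  exact intCast_mem C₀ _

/-- **(J4)** If `P(j)` has all its coefficients in the subring `C₀`, so has `P`. -/
theorem coeff_mem_of_aeval_jqModC (C₀ : Subring ℂ) :
    ∀ (m : ℕ) (P : Polynomial ℂ), P.natDegree ≤ m →
      (∀ k : ℤ, (Polynomial.aeval (ModularCurve.jqModC ℂ) P).coeff k ∈ C₀) →
      ∀ i, P.coeff i ∈ C₀ := by
  intro m
  induction m with
  | zero =>
    intro P hP hc i
    rw [Polynomial.eq_C_of_natDegree_le_zero hP] at hc ⊢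
    have h0 := hc 0
    rw [Polynomial.aeval_C, algebraMap_eq_C] at h0
    have h1 : (HahnSeries.C (P.coeff 0) : LaurentSeries ℂ).coeff 0 = P.coeff 0 := by
      simp
    rw [h1] at h0
    rw [Polynomial.coeff_C]
    split_ifs
    · exact h0
    · exact C₀.zero_mem
  | succ m ih =>
    intro P hP hc i
    set a := P.coeff (m + 1) with ha
    set Q := P - Polynomial.C a * Polynomial.X ^ (m + 1) with hQ
    have hQdeg : Q.natDegree ≤ m := by
      rw [Polynomial.natDegree_le_iff_coeff_eq_zero]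
      intro N hN
      rw [hQ, Polynomial.coeff_sub, Polynomial.coeff_C_mul, Polynomial.coeff_X_pow]
      rcases Nat.lt_or_ge (m + 1) N with h1 | h1
      · rw [Polynomial.coeff_eq_zero_of_natDegree_lt (lt_of_le_of_lt hP h1),
          if_neg (by omega), mul_zero, sub_zero]
      · have : N = m + 1 := by omega
        rw [if_pos this, this, mul_one, sub_self]
    -- the coefficient `a` is the coefficient of `q^{-(m+1)}` in `P(j)`
    have haeval : Polynomial.aeval (ModularCurve.jqModC ℂ) P =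
        Polynomial.aeval (ModularCurve.jqModC ℂ) Q +
          HahnSeries.C a * ModularCurve.jqModC ℂ ^ (m + 1) := by
      rw [hQ, map_sub, map_mul, map_pow, Polynomial.aeval_X, Polynomial.aeval_C,
        algebraMap_eq_C]
      ring
    have hQlow : ∀ k : ℤ, k < -(m : ℤ) →
        (Polynomial.aeval (ModularCurve.jqModC ℂ) Q).coeff k = 0 := by
      intro k hk
      rw [Polynomial.aeval_eq_sum_range' (Nat.lt_succ_of_le hQdeg)]
      rw [HahnSeries.coeff_sum]
      refine Finset.sum_eq_zero fun n hn => ?_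
      have hn' : n ≤ m := Nat.lt_succ_iff.mp (Finset.mem_range.mp hn)
      rw [Algebra.smul_def, algebraMap_eq_C, HahnSeries.C_mul_eq_smul, HahnSeries.coeff_smul,
        jqModC_pow_eq, coeff_single_mul_ofPS_of_lt _ _ (by omega), smul_zero]
    have haC : a ∈ C₀ := by
      have h1 := hc (-((m + 1 : ℕ) : ℤ))
      rw [haeval, HahnSeries.coeff_add, hQlow _ (by push_cast; omega), zero_add,
        HahnSeries.C_mul_eq_smul, HahnSeries.coeff_smul, jqModC_eq,
        coeff_hauptmodul_pow_self _ constantCoeff_jNumC, smul_eq_mul, mul_one] at h1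
      exact h1
    have hQc : ∀ k : ℤ, (Polynomial.aeval (ModularCurve.jqModC ℂ) Q).coeff k ∈ C₀ := by
      intro k
      have h1 := hc k
      rw [haeval, HahnSeries.coeff_add, HahnSeries.C_mul_eq_smul, HahnSeries.coeff_smul,
        smul_eq_mul] at h1
      have h2 : a * (ModularCurve.jqModC ℂ ^ (m + 1)).coeff k ∈ C₀ :=
        C₀.mul_mem haC (coeff_jqModC_pow_mem C₀ _ _)
      have := C₀.sub_mem h1 h2
      simpa using this
    have hQi := ih Q hQdeg hQc i
    have hPi : P.coeff i = Q.coeff i + (Polynomial.C a * Polynomial.X ^ (m + 1)).coeff i := by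
      rw [hQ, Polynomial.coeff_sub]
      ring
    rw [hPi]
    refine C₀.add_mem hQi ?_
    rw [Polynomial.coeff_C_mul, Polynomial.coeff_X_pow]
    split_ifs
    · simpa using haC
    · simp

/-- **The `j`-polynomial principle with coefficients in a subring.** -/
theorem exists_polynomial_of_S_invariant_of_mem (C₀ : Subring ℂ) (F : ℍ → ℂ)
    (φ : LaurentSeries ℂ) (hφ : ∀ n : ℤ, φ.coeff n ∈ C₀) (hF : HasQLaurent 1 F φ)
    (hS : ∀ τ, F (ModularGroup.S • τ) = F τ) :
    ∃ P : Polynomial ℂ, (∀ i, P.coeff i ∈ C₀) ∧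
      φ = Polynomial.aeval (ModularCurve.jqModC ℂ) P ∧ ∀ τ, F τ = P.eval (jFun τ) := by
  obtain ⟨P, h1, h2⟩ := exists_polynomial_of_S_invariant' F φ hF hS
  exact ⟨P, coeff_mem_of_aeval_jqModC C₀ P.natDegree P le_rfl (fun k => h1 ▸ hφ k), h1, h2⟩

end

end Fermat.Agent.S28.H685

end
-- ===== PACK-END S28/H685/JIntegral.lean

-- ===== PACK-BEGIN S37/H700/GaussMain.lean
section


/-!
# S37 / piece GAUSS (helper700): consequences of `S28.CoreData N k`

`A ⊆ Q̄` a valuation subring, `k = A/𝔪`, `F̄_N = Q̄(j(q^d) : d ∣ N) ⊆ Q̄((q))`,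
`F_k = k(j(q^d) : d ∣ N) ⊆ k((q))`.  From `CoreData N k` (output of row S28):

* `normal_form`     : for `u ∈ A((q)) ∩ F̄_N` there are `Q, Pᵢ ∈ A[X]` with
  `Q(j)·u = ∑ Pᵢ(j)·yᵢ` in `A((q))` and `Q mod 𝔪 ≠ 0`;
* `reduction_mem`   : (G1) the coefficientwise reduction of `u` lies in `F_k`;
* `pgi`             : (G2) `PrincipalGeneratedByIntegral A (residue A) N`.
-/

set_option autoImplicit false

noncomputable section

namespace Fermat.Agent.S37.H700

open ModularCurve HahnSeries Polynomial AlgebraicCurve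
open Fermat.Agent.S28 (jField intDivisorExpansions CoreData)

/-- The field `Q̄`. -/
abbrev Qb : Type := AlgebraicClosure ℚ

section Main

variable (N : ℕ) [NeZero N] (A : ValuationSubring Qb)

/-- Reductions of the integral monomials are linearly independent over `k(j)`: pointwise form. -/
theorem eq_zero_of_sum_evalJ_eq_zero {K : Type*} [Field K] {n : ℕ} (yK : Fin n → LaurentSeries K)
    (hind : LinearIndependent (jField K) yK) (P : Fin n → K[X])
    (h : ∑ i, evalJ K (P i) * yK i = 0) : ∀ i, P i = 0 := by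
  intro i
  have h' : ∑ i, (⟨evalJ K (P i), evalJ_mem_jField K (P i)⟩ : jField K) • yK i = 0 := by
    simpa only [smul_jField_def] using h
  have := Fintype.linearIndependent_iff.mp hind _ h' i
  exact (evalJ_eq_zero_iff K).mp (congrArg Subtype.val this)

theorem evalJ_C {R : Type*} [CommRing R] (c : R) :
    evalJ R (Polynomial.C c) = HahnSeries.C c := by
  unfold evalJ
  rw [Polynomial.eval₂_C]

variable {N A}

omit [NeZero N] in
/-- **Normal form** of a Gauss-integral element of `F̄_N`. -/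
theorem normal_form {n : ℕ} (y : Fin n → LaurentSeries ℤ)
    (hy_mem : ∀ i, y i ∈ Subring.closure (intDivisorExpansions N))
    (hy_span : ∀ x ∈ modularFunctionFieldFull N,
      x ∈ Submodule.span (jField ℚ) (Set.range fun i => coeffMap (Int.castRingHom ℚ) (y i)))
    (hy_ind : LinearIndependent (jField (IsLocalRing.ResidueField A))
      (fun i => coeffMap (Int.castRingHom (IsLocalRing.ResidueField A)) (y i)))
    (u : LaurentSeries A) (hu : coeffMap A.subtype u ∈ modularFunctionFieldBar N) :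
    ∃ (Q : Polynomial A) (P : Fin n → Polynomial A),
      evalJ A Q * u = ∑ i, evalJ A (P i) * coeffMap (Int.castRingHom A) (y i) ∧
      Q.map (IsLocalRing.residue A) ≠ 0 := by
  classical
  obtain ⟨Q₀, P₀, hQ₀, h₀⟩ := exists_denominator Qb y
    (mem_spanL_of_mem_baseChange Qb y N hy_mem hy_span hu)
  -- normalise the family `Q₀, P₀ i`
  obtain ⟨c, hc, P', hP', i₀, hi₀⟩ := normalize_family A
    (fun o : Option (Fin n) => o.elim Q₀ P₀) ⟨none, hQ₀⟩
  have hQ' : (P' none).map A.subtype = Polynomial.C c * Q₀ := hP' none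
  have hPi : ∀ i, (P' (some i)).map A.subtype = Polynomial.C c * P₀ i := fun i => hP' (some i)
  have hid : evalJ A (P' none) * u =
      ∑ i, evalJ A (P' (some i)) * coeffMap (Int.castRingHom A) (y i) := by
    apply coeffMap_injective A.subtype_injective
    rw [map_mul, map_sum, coeffMap_evalJ, hQ', evalJ_mul, mul_assoc, h₀, Finset.mul_sum]
    refine Finset.sum_congr rfl fun i _ => ?_
    rw [map_mul, coeffMap_evalJ, hPi, evalJ_mul, coeffMap_coeffMap, mul_assoc]
    congr 2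
  refine ⟨P' none, fun i => P' (some i), hid, fun hzero => ?_⟩
  -- if `Q` reduces to zero, linear independence kills all `P i`, contradiction
  have hred := congrArg (coeffMap (IsLocalRing.residue A)) hid
  rw [map_mul, map_sum, coeffMap_evalJ, hzero, evalJ_zero, zero_mul] at hred
  have hred' : ∑ i, evalJ (IsLocalRing.ResidueField A) ((P' (some i)).map (IsLocalRing.residue A)) *
      coeffMap (Int.castRingHom (IsLocalRing.ResidueField A)) (y i) = 0 := by
    rw [hred]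
    refine Finset.sum_congr rfl fun i _ => ?_
    rw [map_mul, coeffMap_evalJ, coeffMap_coeffMap]
    congr 1
  have hall := eq_zero_of_sum_evalJ_eq_zero _ hy_ind _ hred'
  rcases i₀ with _ | i
  · exact hi₀ hzero
  · exact hi₀ (hall i)

/-- **(G1)** The coefficientwise reduction of a Gauss-integral element of `F̄_N` lies in
`F_k = k(j(q^d) : d ∣ N)`. -/
theorem reduction_mem (hcore : CoreData N (IsLocalRing.ResidueField A))
    (u : LaurentSeries A) (hu : coeffMap A.subtype u ∈ modularFunctionFieldBar N) :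
    coeffMap (IsLocalRing.residue A) u ∈
      modularFunctionFieldFullC (IsLocalRing.ResidueField A) N := by
  obtain ⟨n, y, hy_mem, hy_span, hy_ind⟩ := hcore.exists_basis
  obtain ⟨Q, P, hid, hQ⟩ := normal_form y hy_mem hy_span hy_ind u hu
  have hred := congrArg (coeffMap (IsLocalRing.residue A)) hid
  rw [map_mul, map_sum, coeffMap_evalJ] at hred
  have hQ0 : evalJ (IsLocalRing.ResidueField A) (Q.map (IsLocalRing.residue A)) ≠ 0 :=
    fun h => hQ ((evalJ_eq_zero_iff _).mp h)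
  have hjF : jField (IsLocalRing.ResidueField A) ≤
      modularFunctionFieldFullC (IsLocalRing.ResidueField A) N := by
    rw [jField, IntermediateField.adjoin_le_iff]
    rintro x rfl
    exact jqModC_mem_full _ N
  have hmem : ∀ R : Polynomial (IsLocalRing.ResidueField A),
      evalJ (IsLocalRing.ResidueField A) R ∈
        modularFunctionFieldFullC (IsLocalRing.ResidueField A) N :=
    fun R => hjF (evalJ_mem_jField _ R)
  have : coeffMap (IsLocalRing.residue A) u =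
      (evalJ (IsLocalRing.ResidueField A) (Q.map (IsLocalRing.residue A)))⁻¹ *
        ∑ i, coeffMap (IsLocalRing.residue A)
          (evalJ A (P i) * coeffMap (Int.castRingHom A) (y i)) := by
    rw [← hred, ← mul_assoc, inv_mul_cancel₀ hQ0, one_mul]
  rw [this]
  refine mul_mem (inv_mem (hmem _)) (sum_mem fun i _ => ?_)
  rw [map_mul, coeffMap_evalJ, coeffMap_coeffMap]
  refine mul_mem (hmem _) ?_
  have := coeffMap_intCast_mem_fullC (IsLocalRing.ResidueField A) N (hy_mem i)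
  rwa [coeffMap_congr (RingHom.ext_int _ (Int.castRingHom (IsLocalRing.ResidueField A))) (y i)]


/-- Constants have order zero at every place. -/
theorem ord_algebraMap_eq_zero {K F : Type*} [Field K] [Field F] [Algebra K F]
    (v : Place K F) {c : K} (hc : c ≠ 0) : v.ord (algebraMap K F c) = 0 := by
  have h1 : (⟨algebraMap K F c, v.algebraMap_mem' c⟩ : v.toValuationSubring) *
      ⟨algebraMap K F c⁻¹, v.algebraMap_mem' c⁻¹⟩ = 1 := by
    apply Subtype.ext
    show algebraMap K F c * algebraMap K F c⁻¹ = 1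
    rw [← map_mul, mul_inv_cancel₀ hc, map_one]
  have h2 : (⟨algebraMap K F c⁻¹, v.algebraMap_mem' c⁻¹⟩ : v.toValuationSubring) *
      ⟨algebraMap K F c, v.algebraMap_mem' c⟩ = 1 := by
    rw [mul_comm]; exact h1
  exact v.ord_coe_unit ⟨_, _, h1, h2⟩

omit [NeZero N] in
theorem jField_le_bar : jField Qb ≤ modularFunctionFieldBar N := by
  rw [jField, IntermediateField.adjoin_le_iff]
  rintro x rfl
  have h1 : jqModC ℚ ∈ modularFunctionFieldFull N := by
    rw [← modularFunctionFieldFullC_rat]; exact jqModC_mem_full ℚ N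
  have := coeffEmb_mem_laurentBaseChange Qb h1
  rwa [coeffEmb, coeffMap_jqModC] at this

omit [NeZero N] in
theorem C_mem_bar (c : Qb) : (HahnSeries.C c : LaurentSeries Qb) ∈ modularFunctionFieldBar N := by
  have := (modularFunctionFieldBar N).algebraMap_mem c
  rwa [algebraMap_laurentSeries_eq_single] at this

/-- **(G2)** PGI: every principal divisor of `F̄_N` is a difference of two divisors of
Gauss-integral functions with nonzero reduction in `F_k`. -/
theorem pgi (hcore : CoreData N (IsLocalRing.ResidueField A))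
    [HasPrincipalDivisors Qb (modularFunctionFieldBar N)] :
    PrincipalGeneratedByIntegral A (IsLocalRing.residue A) N := by
  classical
  obtain ⟨n, y, hy_mem, hy_span, hy_ind⟩ := hcore.exists_basis
  intro D hD
  obtain ⟨f, hf0, hDf⟩ := hD
  have hfU : (f : LaurentSeries Qb) ≠ 0 := fun h => hf0 (Subtype.ext h)
  obtain ⟨Q₀, P₀, hQ₀, h₀⟩ := exists_denominator Qb y
    (mem_spanL_of_mem_baseChange Qb y N hy_mem hy_span f.2)
  have hQ₀e : evalJ Qb Q₀ ≠ 0 := fun h => hQ₀ ((evalJ_eq_zero_iff Qb).mp h)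
  have hP₀ : ∃ i, P₀ i ≠ 0 := by
    by_contra hcon
    push Not at hcon
    have : evalJ Qb Q₀ * (f : LaurentSeries Qb) = 0 := by
      rw [h₀]
      exact Finset.sum_eq_zero fun i _ => by rw [hcon i, evalJ_zero, zero_mul]
    exact (mul_ne_zero hQ₀e hfU) this
  -- normalise `Q₀` and the `P₀ i` separately
  obtain ⟨cQ, hcQ, Q', hQ', u₀, hQ'red⟩ := normalize_family A (fun _ : Unit => Q₀) ⟨(), hQ₀⟩
  obtain ⟨cP, hcP, P', hP', i₀, hi₀⟩ := normalize_family A P₀ hP₀
  set b : LaurentSeries A := evalJ A (Q' ()) with hb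
  set a : LaurentSeries A := ∑ i, evalJ A (P' i) * coeffMap (Int.castRingHom A) (y i) with ha
  have hbL : coeffMap A.subtype b = HahnSeries.C cQ * evalJ Qb Q₀ := by
    rw [hb, coeffMap_evalJ, hQ' (), evalJ_mul, evalJ_C]
  have haL : coeffMap A.subtype a = HahnSeries.C cP * (evalJ Qb Q₀ * (f : LaurentSeries Qb)) := by
    rw [ha, map_sum, h₀, Finset.mul_sum]
    refine Finset.sum_congr rfl fun i _ => ?_
    rw [map_mul, coeffMap_evalJ, hP' i, evalJ_mul, evalJ_C, coeffMap_coeffMap, mul_assoc]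
    congr 2
  have hQmem : evalJ Qb Q₀ ∈ modularFunctionFieldBar N := jField_le_bar (evalJ_mem_jField Qb Q₀)
  have hbmem : coeffMap A.subtype b ∈ modularFunctionFieldBar N := by
    rw [hbL]; exact mul_mem (C_mem_bar cQ) hQmem
  have hamem : coeffMap A.subtype a ∈ modularFunctionFieldBar N := by
    rw [haL]; exact mul_mem (C_mem_bar cP) (mul_mem hQmem f.2)
  -- reductions
  have hbred : coeffMap (IsLocalRing.residue A) b ≠ 0 := by
    rw [hb, coeffMap_evalJ]
    exact fun h => hQ'red ((evalJ_eq_zero_iff _).mp h)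
  have hared : coeffMap (IsLocalRing.residue A) a ≠ 0 := by
    intro h
    rw [ha, map_sum] at h
    have h' : ∑ i, evalJ (IsLocalRing.ResidueField A) ((P' i).map (IsLocalRing.residue A)) *
        coeffMap (Int.castRingHom (IsLocalRing.ResidueField A)) (y i) = 0 := by
      rw [← h]
      refine Finset.sum_congr rfl fun i _ => ?_
      rw [map_mul, coeffMap_evalJ, coeffMap_coeffMap]
      congr 1
    exact hi₀ (eq_zero_of_sum_evalJ_eq_zero _ hy_ind _ h' i₀)
  -- the elements of `F̄_N`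
  set aF : modularFunctionFieldBar N := ⟨coeffMap A.subtype a, hamem⟩ with haF
  set bF : modularFunctionFieldBar N := ⟨coeffMap A.subtype b, hbmem⟩ with hbF
  set qF : modularFunctionFieldBar N := ⟨evalJ Qb Q₀, hQmem⟩ with hqF
  have hqF0 : qF ≠ 0 := fun h => hQ₀e (congrArg Subtype.val h)
  have haF_eq : aF = algebraMap Qb (modularFunctionFieldBar N) cP * (qF * f) := by
    apply Subtype.ext
    show coeffMap A.subtype a = algebraMap Qb (LaurentSeries Qb) cP * (evalJ Qb Q₀ * f)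
    rw [haL, algebraMap_laurentSeries_eq_single]; rfl
  have hbF_eq : bF = algebraMap Qb (modularFunctionFieldBar N) cQ * qF := by
    apply Subtype.ext
    show coeffMap A.subtype b = algebraMap Qb (LaurentSeries Qb) cQ * evalJ Qb Q₀
    rw [hbL, algebraMap_laurentSeries_eq_single]; rfl
  have hord : ∀ v : Place Qb (modularFunctionFieldBar N), v.ord f = v.ord aF - v.ord bF := by
    intro v
    have hcP' : algebraMap Qb (modularFunctionFieldBar N) cP ≠ 0 :=
      (_root_.map_ne_zero _).mpr hcP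
    have hcQ' : algebraMap Qb (modularFunctionFieldBar N) cQ ≠ 0 :=
      (_root_.map_ne_zero _).mpr hcQ
    rw [haF_eq, hbF_eq, v.ord_mul hcP' (mul_ne_zero hqF0 hf0), v.ord_mul hqF0 hf0,
      v.ord_mul hcQ' hqF0, ord_algebraMap_eq_zero v hcP, ord_algebraMap_eq_zero v hcQ]
    ring
  obtain ⟨Ea, hEa, -⟩ := HasPrincipalDivisors.exists_divisor (K := Qb) aF
    (fun h => hared (by
      have : coeffMap A.subtype a = 0 := congrArg Subtype.val h
      rw [(coeffMap_injective A.subtype_injective) (this.trans (map_zero _).symm), map_zero]))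
  obtain ⟨Eb, hEb, -⟩ := HasPrincipalDivisors.exists_divisor (K := Qb) bF
    (fun h => hbred (by
      have : coeffMap A.subtype b = 0 := congrArg Subtype.val h
      rw [(coeffMap_injective A.subtype_injective) (this.trans (map_zero _).symm), map_zero]))
  have hDeq : D = Ea - Eb := by
    ext v
    rw [Finsupp.sub_apply, hDf v, hEa v, hEb v, hord v]
  rw [hDeq]
  refine AddSubgroup.sub_mem _ (AddSubgroup.subset_closure ?_) (AddSubgroup.subset_closure ?_)
  · exact ⟨a, hamem, reduction_mem hcore a hamem, hared, hEa⟩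
  · exact ⟨b, hbmem, reduction_mem hcore b hbmem, hbred, hEb⟩

end Main

end Fermat.Agent.S37.H700

end
end
-- ===== PACK-END S37/H700/GaussMain.lean

-- ===== PACK-BEGIN S18/H333/HauptPS.lean
section



/-!
# S18 / c3 (helper333): power-series preliminaries for the Hauptmoduln

* `Vser p` is the ring homomorphism `PowerSeries.expand p`;
* `Zz = X² η₁¹² η₃¹²` with `Zz² = Δ Δ₃`, and the LINEAR level-3 identities
  `A3a = Zz (E₄³ - B3a)`, `A3b = Zz (E₄(q³)³ - B3b)` (sign fixed by the `q²`-coefficient).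
-/

set_option autoImplicit false

noncomputable section

namespace Fermat.Agent.S18.H333

open PowerSeries ModularCurve

theorem Vser_eq_expand (p : ℕ) (hp : p ≠ 0) (f : PowerSeries ℤ) :
    Vser p f = PowerSeries.expand p hp f := by
  ext n
  rw [coeff_Vser, PowerSeries.coeff_expand]

theorem Vser_mul (p : ℕ) (hp : p ≠ 0) (f g : PowerSeries ℤ) :
    Vser p (f * g) = Vser p f * Vser p g := by
  simp only [Vser_eq_expand p hp, map_mul]

theorem Vser_pow (p : ℕ) (hp : p ≠ 0) (f : PowerSeries ℤ) (n : ℕ) :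
    Vser p (f ^ n) = Vser p f ^ n := by
  simp only [Vser_eq_expand p hp, map_pow]

theorem Vser_one (p : ℕ) (hp : p ≠ 0) : Vser p (1 : PowerSeries ℤ) = 1 := by
  simp only [Vser_eq_expand p hp, map_one]

theorem Vser_X (p : ℕ) (hp : p ≠ 0) : Vser p (X : PowerSeries ℤ) = X ^ p := by
  rw [Vser_eq_expand p hp, PowerSeries.expand_X]

/-- `η¹²` -/
def eta12 : PowerSeries ℤ := etaProd ^ 12

/-- `η⁻¹²` -/
def eta12Inv : PowerSeries ℤ := eta12.invOfUnit 1

theorem constantCoeff_eta12 : PowerSeries.constantCoeff eta12 = 1 := by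
  rw [eta12, map_pow, constantCoeff_etaProd, one_pow]

theorem eta12_mul_inv : eta12 * eta12Inv = 1 :=
  PowerSeries.mul_invOfUnit _ _ (by rw [constantCoeff_eta12]; rfl)

theorem eta12_sq : eta12 * eta12 = dedekindEtaUnit := by
  rw [eta12, dedekindEtaUnit]; ring

theorem Dz_eq : Dz = X * dedekindEtaUnit := rfl

theorem Vser_Dz (p : ℕ) (hp : p ≠ 0) : Vser p Dz = X ^ p * Vser p dedekindEtaUnit := by
  rw [Dz_eq, Vser_mul p hp, Vser_X p hp]

/-- `q² η₁¹² η₃¹²` -/
def Zz : PowerSeries ℤ := X ^ 2 * eta12 * Vser 3 eta12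

theorem Zz_sq : Zz * Zz = Dz * Vser 3 Dz := by
  rw [Vser_Dz 3 (by norm_num), Dz_eq, ← eta12_sq, Vser_mul 3 (by norm_num), Zz]
  ring

theorem tl_eta12 (n : ℕ) : tl n eta12 = tpow n (etaLrec n n) 12 := by
  rw [eta12, tl_pow, tl_etaProd]

theorem tl_Zz (n : ℕ) : tl n Zz =
    tmul n (tmul n (tpow n (tX n) 2) (tpow n (etaLrec n n) 12))
      (tV n 3 (tpow n (etaLrec n n) 12)) := by
  rw [Zz, tl_mul, tl_mul, tl_pow, tl_X, tl_Vser _ _ (by norm_num), tl_eta12]

theorem tl_Ez_3 : tl 3 Ez = [1, 240, 2160] := by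
  rw [tl_Ez]; decide +kernel

theorem tl_Dz_3 : tl 3 Dz = [0, 1, -24] := by
  rw [tl_Dz]; decide +kernel

theorem coeff_two_ne_of_tl {f : PowerSeries ℤ} {a b c : ℤ} (h : tl 3 f = [a, b, c]) (hc : c ≠ 0) :
    f ≠ 0 := by
  intro h0
  have h2 := tl_getD 3 f (i := 2) (by norm_num)
  rw [h, h0] at h2
  simp at h2
  exact hc h2

/-- linear form of `(t₃+27)(t₃+243)³ = j t₃³` -/
theorem A3a_eq : A3a = Zz * (Ez ^ 3 - B3a) := by
  have h := Phi3a_eq_zero
  rw [Phi3a, ← Zz_sq] at h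
  have hprod : (A3a - Zz * (Ez ^ 3 - B3a)) * (A3a + Zz * (Ez ^ 3 - B3a)) = 0 := by
    linear_combination h
  rcases mul_eq_zero.mp hprod with h1 | h1
  · exact sub_eq_zero.mp h1
  · exfalso
    have htl : tl 3 (A3a + Zz * (Ez ^ 3 - B3a)) = [0, 0, 2] := by
      rw [A3a, B3a]
      simp only [tl_sub, tl_mul, tl_pow, tl_add, tl_smul, tl_Vser _ _ (show 0 < 3 by norm_num),
        tl_Dz_3, tl_Ez_3, tl_Zz]
      decide +kernel
    exact coeff_two_ne_of_tl htl (by norm_num) h1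

/-- linear form of `(t₃+27)(t₃+3)³ = j(q³) t₃` -/
theorem A3b_eq : A3b = Zz * (Vser 3 Ez ^ 3 - B3b) := by
  have h := Phi3b_eq_zero
  rw [Phi3b, ← Zz_sq] at h
  have hprod : (A3b - Zz * (Vser 3 Ez ^ 3 - B3b)) * (A3b + Zz * (Vser 3 Ez ^ 3 - B3b)) = 0 := by
    linear_combination h
  rcases mul_eq_zero.mp hprod with h1 | h1
  · exact sub_eq_zero.mp h1
  · exfalso
    have htl : tl 3 (A3b + Zz * (Vser 3 Ez ^ 3 - B3b)) = [0, 0, 2] := by
      rw [A3b, B3b]
      simp only [tl_sub, tl_mul, tl_pow, tl_add, tl_smul, tl_Vser _ _ (show 0 < 3 by norm_num),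
        tl_Dz_3, tl_Ez_3, tl_Zz]
      decide +kernel
    exact coeff_two_ne_of_tl htl (by norm_num) h1

end Fermat.Agent.S18.H333

end
end
-- ===== PACK-END S18/H333/HauptPS.lean

-- ===== PACK-BEGIN S18/B12/H444/GenericDiscrSpec.lean
section




/-!
# S18 / b2.5 / A5 (helper444): `GenericDiscrStatement` in the exact frozen shape

`theorem genericDiscr : GenericDiscrStatement` (frozen in `B12/Spec2.lean`, squad-lead helper33),
from `genericDiscr_abs` (`GenericDiscr.lean`) with `Λ := Localization.Away w`,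
`C₀ := Localization (algebraMapSubmonoid B (powers w))` and helper274's tame discriminant bound
(`H274.tameDiscr`, on main).
-/

set_option autoImplicit false

noncomputable section

namespace Fermat.Agent.S18.B12.H444

open Polynomial Module

universe u v

/-- A commutative ring in which all positive integers are units is a `ℚ`-algebra. -/
def ratAlgebraOfUnits (Λ : Type u) [CommRing Λ] (h : ∀ m : ℕ, m ≠ 0 → IsUnit ((m : ℕ) : Λ)) :
    Algebra ℚ Λ :=
  RingHom.toAlgebra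
    (IsLocalization.lift (M := nonZeroDivisors ℤ) (S := ℚ) (g := Int.castRingHom Λ)
      (fun y => by
        have hy : (y : ℤ) ≠ 0 := nonZeroDivisors.coe_ne_zero y
        have hn : (y : ℤ).natAbs ≠ 0 := Int.natAbs_ne_zero.mpr hy
        have hu := h _ hn
        rcases Int.natAbs_eq (y : ℤ) with h1 | h1
        · have : Int.castRingHom Λ (y : ℤ) = (((y : ℤ).natAbs : ℕ) : Λ) := by
            conv_lhs => rw [h1]
            simp
          rw [this]; exact hu
        · have : Int.castRingHom Λ (y : ℤ) = -(((y : ℤ).natAbs : ℕ) : Λ) := by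
            conv_lhs => rw [h1]
            simp
          rw [this]; exact hu.neg))

theorem not_dvd_of_not_associated {P : Type u} [CommRing P] [IsDomain P] {π w : P}
    (hπ : Prime π) (hw : Prime w) (h : ¬ Associated π w) : ¬ π ∣ w := by
  rintro ⟨c, hc⟩
  rcases hw.irreducible.isUnit_or_isUnit hc with h1 | h1
  · exact hπ.not_isUnit h1
  · exact h ⟨h1.unit, by simp [hc]⟩

/-- **A5** in the exact frozen shape of `B12/Spec2.lean`. -/
theorem genericDiscr : GenericDiscrStatement.{u, v} := by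
  intro P _ _ _ _ w hw hPID hunits B _ _ _ _ _ _ π hπ hπw n x hx r y hy
  obtain ⟨hli, g, hgπ, hg⟩ := hx
  have hw0 : w ≠ 0 := hw.ne_zero
  let Λ := Localization.Away w
  let C₀ := Localization (Algebra.algebraMapSubmonoid B (Submonoid.powers w))
  letI : Algebra Λ C₀ := localizationAlgebra (Submonoid.powers w) B
  haveI : IsScalarTower P Λ C₀ := IsScalarTower.of_algebraMap_eq'
    (by rw [RingHom.algebraMap_toAlgebra, IsLocalization.map_comp, ← IsScalarTower.algebraMap_eq])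
  haveI : IsDomain Λ := IsLocalization.isDomain_localization (powers_le_nonZeroDivisors' w hw0)
  haveI : IsPrincipalIdealRing Λ := hPID
  letI : Algebra ℚ Λ := ratAlgebraOfUnits Λ (fun m hm => by
    have := hunits m hm
    rwa [map_natCast] at this)
  unfold intDiscr
  exact genericDiscr_abs B w hw0 Λ C₀ π hπ (not_dvd_of_not_associated hπ hw hπw) n x hli g
    (fun h => hgπ (Ideal.mem_span_singleton.mpr h)) hg r y hy

end Fermat.Agent.S18.B12.H444

end
end
-- ===== PACK-END S18/B12/H444/GenericDiscrSpec.lean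

-- ===== PACK-BEGIN S18/B12/H84/Stmt.lean
section





/-!
# S18 / b2.5 / A8 + A9 (helper84): the `Spec3`-typed statements

* `a9 : RegularAlongOfDedekindStatement`
* `a8_of_sfLattice : SFLatticeStatement → IntClosedOfDiscrStatement`
* `a8 : IntClosedOfDiscrStatement` (unconditional, with Theorem L = `H278.sfLattice` on main)
-/

set_option autoImplicit false

namespace Fermat.Agent.S18.B12.H84

universe u v

/-- **A9**, exact frozen shape. -/
theorem a9 : B12.RegularAlongOfDedekindStatement.{u} :=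
  fun B _ ϖ hD 𝔪 h𝔪 hϖ => regularAlongOfDedekind B ϖ hD 𝔪 h𝔪 hϖ

/-- **A8** from Theorem L, exact frozen shapes. -/
theorem a8_of_sfLattice (hSF : B12.SFLatticeStatement.{u, v}) :
    B12.IntClosedOfDiscrStatement.{u, v} :=
  fun Λ _ _ _ C _ _ _ n b hdisc hbound =>
    intClosedOfDiscr_of_sfLattice hSF Λ C n b hdisc hbound

/-- **A8**, exact frozen shape, unconditional (Theorem L from `H278.sfLattice`). -/
theorem a8 : B12.IntClosedOfDiscrStatement.{u, v} :=
  a8_of_sfLattice H278.sfLattice.{u, v}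

end Fermat.Agent.S18.B12.H84

end
-- ===== PACK-END S18/B12/H84/Stmt.lean

-- ===== PACK-BEGIN S29/H201/PeTensor.lean
section



/-!
# S29 layer M, piece E2 (helper201): `F ⊗ peHoms` versus `F`-valued homomorphisms

* `evalT γ : F ⊗[ZMod p] peHoms N p →ₗ[F] F` — evaluation at `γ`;
* `eq_zero_of_evalT_eq_zero` — an element of `F ⊗ peHoms` is determined by its evaluations;
* `exists_tensor_of_hom` — every `F`-valued "pe" homomorphism comes from `F ⊗ peHoms`.
-/

set_option autoImplicit false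

open CongruenceSubgroup Matrix.SpecialLinearGroup ModularCurve ModularCurve.Period
open scoped MatrixGroups TensorProduct
open Fermat.Agent.S29.M (peHoms)

namespace Fermat.Agent.S29.H201

variable {N : ℕ} {p : ℕ} {F : Type} [Field F] [Algebra (ZMod p) F]

/-- "pe": vanishing on parabolic elements (`tr² = 4`) and on elements of finite order. -/
def IsPe {A : Type*} [AddCommGroup A] (χ : Additive (Gamma0 N) →+ A) : Prop :=
  (∀ γ : Gamma0 N,
      ((γ : SL(2, ℤ)) : Matrix (Fin 2) (Fin 2) ℤ).trace ^ 2 = 4 → χ (Additive.ofMul γ) = 0) ∧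
    (∀ γ : Gamma0 N, IsOfFinOrder γ → χ (Additive.ofMul γ) = 0)

theorem isPe_of_mem_peHoms (χ : peHoms N p) : IsPe (χ : Additive (Gamma0 N) →+ ZMod p) := χ.2

/-- evaluation at `γ`, as a `ZMod p`-linear map `peHoms → F`. -/
noncomputable def evalPe (N p : ℕ) (F : Type) [Field F] [Algebra (ZMod p) F] (γ : Gamma0 N) :
    peHoms N p →ₗ[ZMod p] F where
  toFun χ := algebraMap (ZMod p) F ((χ : Additive (Gamma0 N) →+ ZMod p) (Additive.ofMul γ))
  map_add' χ χ' := by
    show algebraMap (ZMod p) F (_ + _) = _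
    rw [map_add]
  map_smul' c χ := by
    show algebraMap (ZMod p) F (c • _) = _
    rw [smul_eq_mul, map_mul, Algebra.smul_def]
    rfl

/-- evaluation at `γ` on `F ⊗ peHoms`. -/
noncomputable def evalT (N p : ℕ) (F : Type) [Field F] [Algebra (ZMod p) F] (γ : Gamma0 N) :
    F ⊗[ZMod p] (peHoms N p) →ₗ[F] F :=
  LinearMap.liftBaseChange F (evalPe N p F γ)

theorem evalT_tmul (γ : Gamma0 N) (f : F) (χ : peHoms N p) :
    evalT N p F γ (f ⊗ₜ χ)
      = f * algebraMap (ZMod p) F ((χ : Additive (Gamma0 N) →+ ZMod p) (Additive.ofMul γ)) := by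
  rw [evalT, LinearMap.liftBaseChange_tmul, smul_eq_mul]
  rfl

/-- An element of `F ⊗ peHoms` is determined by its evaluations. -/
theorem eq_zero_of_evalT_eq_zero [Fact p.Prime] (c : F ⊗[ZMod p] (peHoms N p))
    (h : ∀ γ : Gamma0 N, evalT N p F γ c = 0) : c = 0 := by
  classical
  set ℬ := Module.Free.chooseBasis (ZMod p) F with hℬ
  obtain ⟨w, rfl⟩ := TensorProduct.eq_repr_basis_left ℬ c
  have hw : ∀ i ∈ w.support, w i = 0 := by
    intro i hi
    apply Subtype.ext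
    refine AddMonoidHom.ext fun γ => ?_
    obtain ⟨γ, rfl⟩ : ∃ γ' : Gamma0 N, Additive.ofMul γ' = γ := ⟨Additive.toMul γ, rfl⟩
    have h1 := h γ
    rw [Finsupp.sum, map_sum] at h1
    have h2 : ∑ j ∈ w.support,
        ((w j : Additive (Gamma0 N) →+ ZMod p) (Additive.ofMul γ)) • ℬ j = 0 := by
      rw [← h1]
      refine Finset.sum_congr rfl fun j _ => ?_
      rw [evalT_tmul, Algebra.smul_def, mul_comm]
    have h3 := linearIndependent_iff'.mp ℬ.linearIndependent w.support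
      (fun j => (w j : Additive (Gamma0 N) →+ ZMod p) (Additive.ofMul γ)) h2 i hi
    exact h3
  rw [Finsupp.sum]
  refine Finset.sum_eq_zero fun i hi => ?_
  rw [hw i hi, TensorProduct.tmul_zero]

/-- Every `F`-valued "pe" homomorphism of the finitely generated group `Γ₀(N)` comes from
`F ⊗ peHoms`. -/
theorem exists_tensor_of_hom [Fact p.Prime] [NeZero N] (χ : Additive (Gamma0 N) →+ F)
    (hχ : IsPe χ) :
    ∃ c : F ⊗[ZMod p] (peHoms N p),
      ∀ γ : Gamma0 N, evalT N p F γ c = χ (Additive.ofMul γ) := by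
  classical
  obtain ⟨S, hS⟩ := (fg_Gamma0 (N := N)).out
  set E : Submodule (ZMod p) F := Submodule.span (ZMod p) (χ '' (S : Set (Additive (Gamma0 N))))
    with hE
  have hfg : E.FG := Submodule.fg_span ((Finset.finite_toSet S).image χ)
  haveI : Module.Finite (ZMod p) E := Module.Finite.iff_fg.mpr hfg
  have hmem : ∀ γ : Additive (Gamma0 N), χ γ ∈ E := by
    intro γ
    have hγ : γ ∈ AddSubgroup.closure (S : Set (Additive (Gamma0 N))) := by
      rw [hS]; trivial
    induction hγ using AddSubgroup.closure_induction with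
    | mem x hx => exact Submodule.subset_span ⟨x, hx, rfl⟩
    | zero => rw [map_zero]; exact E.zero_mem
    | add x y _ _ hx hy => rw [map_add]; exact E.add_mem hx hy
    | neg x _ hx => rw [map_neg]; exact E.neg_mem hx
  let χE : Additive (Gamma0 N) →+ E := χ.codRestrict E hmem
  set b := Module.finBasis (ZMod p) E with hb
  let coord : Fin (Module.finrank (ZMod p) E) → (Additive (Gamma0 N) →+ ZMod p) := fun i =>
    (((Finsupp.lapply i : (Fin (Module.finrank (ZMod p) E) →₀ ZMod p) →ₗ[ZMod p] ZMod p).comp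
      b.repr.toLinearMap).toAddMonoidHom).comp χE
  have hcoord : ∀ i γ, coord i γ = b.repr (χE γ) i := fun i γ => rfl
  have hzero : ∀ γ : Additive (Gamma0 N), χ γ = 0 → ∀ i, coord i γ = 0 := by
    intro γ h0 i
    have h1 : χE γ = 0 := Subtype.ext h0
    rw [hcoord, h1, map_zero]
    rfl
  have hpe : ∀ i, coord i ∈ peHoms N p := fun i =>
    ⟨fun γ hγ => hzero _ (hχ.1 γ hγ) i, fun γ hγ => hzero _ (hχ.2 γ hγ) i⟩
  refine ⟨∑ i, ((b i : E) : F) ⊗ₜ[ZMod p] (⟨coord i, hpe i⟩ : peHoms N p), fun γ => ?_⟩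
  rw [map_sum]
  have h1 : ∀ i, evalT N p F γ (((b i : E) : F) ⊗ₜ[ZMod p] (⟨coord i, hpe i⟩ : peHoms N p))
      = (((b.repr (χE (Additive.ofMul γ)) i) • b i : E) : F) := by
    intro i
    rw [evalT_tmul, Submodule.coe_smul, Algebra.smul_def, mul_comm]
    rfl
  rw [Finset.sum_congr rfl fun i _ => h1 i, ← Submodule.coe_sum, b.sum_repr]
  rfl

end Fermat.Agent.S29.H201

end
-- ===== PACK-END S29/H201/PeTensor.lean

-- ===== PACK-BEGIN Lib/Newform/H803/QSeries.lean
section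



/-!
# `q`-series of the hat transform and of the operators `avgT`, `killL` (helper803)
-/

set_option autoImplicit false

namespace Fermat.Agent.Lib.Newform.H803

open Matrix Matrix.SpecialLinearGroup CongruenceSubgroup UpperHalfPlane ModularForm
open scoped MatrixGroups ModularForm Manifold Real

variable {k : ℤ}

/-- `F(τ) = ∑ c_n e^{2πi n τ / N}`. -/
def HasQN (N : ℕ) (c : ℕ → ℂ) (F : ℍ → ℂ) : Prop :=
  ∀ τ : ℍ, HasSum (fun n : ℕ => c n * Complex.exp (2 * π * Complex.I * n * τ / N)) (F τ)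

theorem HasQN.eq_zero {N : ℕ} {c : ℕ → ℂ} {F : ℍ → ℂ} (h : HasQN N c F) (hc : ∀ n, c n = 0) :
    F = 0 := by
  funext τ
  have h1 := h τ
  simp only [hc, zero_mul] at h1
  exact h1.unique hasSum_zero

theorem HasQN.sub {N : ℕ} {c c' : ℕ → ℂ} {F F' : ℍ → ℂ} (h : HasQN N c F) (h' : HasQN N c' F') :
    HasQN N (fun n => c n - c' n) (F - F') := by
  intro τ
  have := (h τ).sub (h' τ)
  simpa [sub_mul] using this

theorem coe_tU_smul (x : ℤ) (τ : ℍ) : ((tU x • τ : ℍ) : ℂ) = τ + x := by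
  rw [tU_eq_T_zpow, ModularGroup.coe_T_zpow_smul_eq]

theorem slash_tU_apply (F : ℍ → ℂ) (x : ℤ) (τ : ℍ) : (F ∣[k] tU x) τ = F (tU x • τ) := by
  rw [ModularForm.SL_slash_apply]
  have : denom (tU x) τ = 1 := by
    rw [ModularGroup.denom_apply]
    simp
  rw [this, _root_.one_zpow, mul_one]

/-- The sum of the `p`-th roots of unity to the power `n`. -/
theorem sum_exp_eq {p : ℕ} (hp : p ≠ 0) (n : ℕ) :
    ∑ j ∈ Finset.range p, Complex.exp (2 * π * Complex.I * n * j / p) =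
      if p ∣ n then (p : ℂ) else 0 := by
  have hprim := Complex.isPrimitiveRoot_exp p hp
  set ζ : ℂ := Complex.exp (2 * π * Complex.I / p) with hζ
  have e : ∀ j : ℕ, Complex.exp (2 * π * Complex.I * n * j / p) = (ζ ^ n) ^ j := by
    intro j
    rw [hζ, ← Complex.exp_nat_mul, ← Complex.exp_nat_mul]
    congr 1
    ring
  simp only [e]
  split_ifs with h
  · have h1 : ζ ^ n = 1 := (hprim.pow_eq_one_iff_dvd n).mpr h
    simp [h1]
  · have h1 : ζ ^ n ≠ 1 := fun h1 => h ((hprim.pow_eq_one_iff_dvd n).mp h1)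
    have h2 := geom_sum_mul (ζ ^ n) p
    have h3 : (ζ ^ n) ^ p = 1 := by
      rw [← pow_mul, mul_comm, pow_mul, hprim.pow_eq_one, one_pow]
    rw [h3, sub_self] at h2
    rcases mul_eq_zero.mp h2 with h4 | h4
    · exact h4
    · exact absurd (sub_eq_zero.mp h4) h1

/-- `q`-series of `avgT`. -/
theorem hasQN_avgT {N : ℕ} {c : ℕ → ℂ} {F : ℍ → ℂ} (h : HasQN N c F) {p : ℕ} (hp : p ≠ 0)
    (hpN : p ∣ N) (hN : N ≠ 0) :
    HasQN N (fun n => if p ∣ n then c n else 0) (avgT k (↑(N / p)) p F) := by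
  intro τ
  have hN' : (N : ℂ) ≠ 0 := by exact_mod_cast hN
  have hp' : (p : ℂ) ≠ 0 := by exact_mod_cast hp
  have hval : avgT k (↑(N / p)) p F τ =
      (p : ℂ)⁻¹ * ∑ j ∈ Finset.range p, F (tU ((j : ℤ) * ↑(N / p)) • τ) := by
    simp only [Fermat.Agent.Lib.Newform.H803.avgT, Pi.smul_apply, Finset.sum_apply,
      slash_tU_apply, smul_eq_mul]
  rw [hval]
  have hsum : HasSum (fun n : ℕ => ∑ j ∈ Finset.range p,
      c n * Complex.exp (2 * π * Complex.I * n * ((tU ((j : ℤ) * ↑(N / p)) • τ : ℍ) : ℂ) / N))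
      (∑ j ∈ Finset.range p, F (tU ((j : ℤ) * ↑(N / p)) • τ)) :=
    hasSum_sum fun j _ => h (tU ((j : ℤ) * ↑(N / p)) • τ)
  have hsum' := hsum.mul_left ((p : ℂ)⁻¹)
  have hfun : (fun n : ℕ => (if p ∣ n then c n else 0) *
      Complex.exp (2 * π * Complex.I * n * τ / N)) = fun n : ℕ => (p : ℂ)⁻¹ *
      ∑ j ∈ Finset.range p,
        c n * Complex.exp (2 * π * Complex.I * n * ((tU ((j : ℤ) * ↑(N / p)) • τ : ℍ) : ℂ) / N) := by
    funext n
    have e : ∀ j : ℕ, c n * Complex.exp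
      (2 * π * Complex.I * n * ((tU ((j : ℤ) * ↑(N / p)) • τ : ℍ) : ℂ) / N) =
      (c n * Complex.exp (2 * π * Complex.I * n * τ / N)) *
        Complex.exp (2 * π * Complex.I * n * j / p) := by
      intro j
      rw [coe_tU_smul, mul_assoc (c n), ← Complex.exp_add]
      congr 2
      have hd : ((N / p : ℕ) : ℂ) = (N : ℂ) / p := by
        rw [Nat.cast_div hpN hp']
      have hcast : (((j : ℤ) * ((N / p : ℕ) : ℤ) : ℤ) : ℂ) = (j : ℂ) * ((N : ℂ) / p) := by
        rw [Int.cast_mul, Int.cast_natCast, Int.cast_natCast, hd]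
      rw [hcast]
      field_simp
    simp only [e, ← Finset.mul_sum, sum_exp_eq hp]
    split_ifs with hpn
    · field_simp
    · simp
  rw [hfun]
  exact hsum'

theorem HasQN.congr {N : ℕ} {c c' : ℕ → ℂ} {F : ℍ → ℂ} (h : HasQN N c F)
    (hc : ∀ n, c n = c' n) : HasQN N c' F := by
  have : c = c' := funext hc
  rwa [← this]

/-- `q`-series of `killL`. -/
theorem hasQN_killL {N : ℕ} (hN : N ≠ 0) {c : ℕ → ℂ} {F : ℍ → ℂ} (h : HasQN N c F) :
    ∀ L : List ℕ, (∀ p ∈ L, p ≠ 0 ∧ p ∣ N) →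
      HasQN N (fun n => if ∃ p ∈ L, p ∣ n then 0 else c n) (killL k N L F)
  | [], _ => by
    rw [killL_nil]
    exact h.congr fun n => by simp
  | p :: L, hL => by
    have ih := hasQN_killL hN h L (fun q hq => hL q (List.mem_cons_of_mem _ hq))
    have h1 := hasQN_avgT (k := k) ih (hL p List.mem_cons_self).1 (hL p List.mem_cons_self).2 hN
    have h2 := ih.sub h1
    rw [killL_cons]
    refine h2.congr fun n => ?_
    by_cases hp : p ∣ n <;> by_cases hq : ∃ q ∈ L, q ∣ n <;> simp [hp, hq]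

/-- `q`-series of the hat transform. -/
theorem hasQN_hat {N : ℕ} (hN : N ≠ 0) {f : ℍ → ℂ} {a : ℕ → ℂ}
    (hf : ∀ τ : ℍ, HasSum (fun m : ℕ => a m * Function.Periodic.qParam 1 τ ^ m) (f τ)) :
    HasQN N (fun n => (N : ℂ)⁻¹ * a n) (f ∣[k] heckeMatrix N 0) := by
  intro τ
  rw [slash_heckeMatrix_apply k hN 0 f τ]
  have h1 := (hf (heckeMatrix N 0 • τ)).mul_left ((N : ℂ)⁻¹)
  have hfun : (fun n : ℕ => (N : ℂ)⁻¹ * a n * Complex.exp (2 * π * Complex.I * n * τ / N)) =
      fun m : ℕ => (N : ℂ)⁻¹ *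
        (a m * Function.Periodic.qParam 1 ((heckeMatrix N 0 • τ : ℍ) : ℂ) ^ m) := by
    funext n
    rw [mul_assoc, Function.Periodic.qParam, ← Complex.exp_nat_mul, coe_heckeMatrix_smul hN]
    congr 3
    push_cast
    ring
  rw [hfun]
  exact h1

end Fermat.Agent.Lib.Newform.H803

end
-- ===== PACK-END Lib/Newform/H803/QSeries.lean

-- ===== PACK-BEGIN S36/H630/UnitNorm.lean
section


/-!
# S36 engine, LABEL core (helper630), part 10: the label equation from UNITS-ONLY norm–residue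
formulas (the shape of the fields `nr_α₁, nr_α₂, nr_β₁, nr_β₂` of `Eng.TripleCtx`)

* `NormResSplitU V' V₁ V₂ e` : `res_{V'} (N y) = res_{V₁} y · (res_{V₂} y) ^ e` for `y` a unit of
  `V₁` and of `V₂` (body of `nr_α₁` / `nr_β₁`, with `algebraMap F' F` for the degeneracy map);
* `NormResInsepU V q` : `N y ≡ y ^ q` on `V` for units `y` of `V` (body of `nr_α₂` / `nr_β₂`);
* `resLiftPow_of_insepU` : `ResLiftPow` from `NormResInsepU` and `N B ⊆ A`;
* `valAt_norm_splitU`, `valAt_norm_insepU` : LAB-NORM for values which are units at the point;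
* `label_eq_of_normU` : the label equation.
-/

set_option autoImplicit false
set_option linter.unusedSectionVars false

namespace Fermat.Agent.S36.H630

variable {R : Type*} [CommRing R] {F' : Type*} [Field F'] [Algebra R F']
variable {F : Type*} [Field F] [Algebra R F] [Algebra F' F] [IsScalarTower R F' F]

/-- Norm–residue formula, split case, for units. -/
def NormResSplitU (V' : ValuationSubring F') (V₁ V₂ : ValuationSubring F) (e : ℕ) : Prop :=
  ∀ y : F, (y ≠ 0 ∧ y ∈ V₁ ∧ y⁻¹ ∈ V₁) → (y ≠ 0 ∧ y ∈ V₂ ∧ y⁻¹ ∈ V₂) → ∀ x₁ x₂ : F',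
    algebraMap F' F x₁ - y ∈ V₁.nonunits → algebraMap F' F x₂ - y ∈ V₂.nonunits →
      Algebra.norm F' y - x₁ * x₂ ^ e ∈ V'.nonunits

/-- Norm–residue formula, purely inseparable case of degree `q`, for units. -/
def NormResInsepU (V : ValuationSubring F) (q : ℕ) : Prop :=
  ∀ y : F, (y ≠ 0 ∧ y ∈ V ∧ y⁻¹ ∈ V) →
    algebraMap F' F (Algebra.norm F' y) - y ^ q ∈ V.nonunits

section NormU

variable {A : Subalgebra R F'} {B : Subalgebra R F}
variable {N₁ : Ideal A} {n : Ideal B}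

/-- `ResLiftPow` from the purely inseparable norm–residue formula. -/
theorem resLiftPow_of_insepU (hnormA : ∀ b : B, Algebra.norm F' (b : F) ∈ A)
    {V : ValuationSubring F} (hBV : ChartLe B V) {q : ℕ} (hq : q ≠ 0)
    (hNR : NormResInsepU (F' := F') V q) : ResLiftPow A B V q := by
  intro b
  by_cases hb : (b : F) ∈ V.nonunits
  · refine ⟨0, ?_⟩
    have : (b : F) ^ q - algebraMap F' F ((0 : A) : F') = (b : F) ^ q := by
      rw [ZeroMemClass.coe_zero, map_zero, sub_zero]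
    rw [this]
    exact vnu_pow V hb hq
  · refine ⟨⟨_, hnormA b⟩, ?_⟩
    have hb0 : (b : F) ≠ 0 := fun h0 => hb (h0 ▸ vnu_zero V)
    have h1 := hNR (b : F) ⟨hb0, hBV b, vnu_inv_mem V (hBV b) hb⟩
    have : (b : F) ^ q - algebraMap F' F (Algebra.norm F' (b : F))
        = -(algebraMap F' F (Algebra.norm F' (b : F)) - (b : F) ^ q) := by ring
    rw [this]
    exact vnu_neg V h1

/-- **LAB-NORM, split side, unit values.** -/
theorem valAt_norm_splitU [n.IsPrime] [N₁.IsPrime]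
    (hAB : ∀ a : A, algebraMap F' F (a : F') ∈ B)
    (hNn : ∀ a : A, a ∈ N₁ ↔ (⟨algebraMap F' F (a : F'), hAB a⟩ : B) ∈ n)
    {V' : ValuationSubring F'} (hAV' : ChartLe A V') (hth' : PassThrough A N₁ V')
    {V₁ V₂ : ValuationSubring F} (hBV₁ : ChartLe B V₁) (hth₁ : PassThrough B n V₁)
    (hBV₂ : ChartLe B V₂) (hth₂ : PassThrough B n V₂)
    (hlift₁ : ResLift A B V₁) (hlift₂ : ResLift A B V₂)
    {e : ℕ} (hNR : NormResSplitU V' V₁ V₂ e)
    {d : F} {η₁ η₂ : R} (hη₁n : algebraMap R B η₁ ∉ n) (hη₂n : algebraMap R B η₂ ∉ n)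
    (h₁ : ValAt B n V₁ d η₁) (h₂ : ValAt B n V₂ d η₂) :
    ValAt A N₁ V' (Algebra.norm F' d) (η₁ * η₂ ^ e) := by
  obtain ⟨a₁, b₁, hb₁, hη₁, hd₁⟩ := exists_lift_of_valAt hAB hNn hBV₁ hth₁ hlift₁ h₁
  obtain ⟨a₂, b₂, hb₂, hη₂, hd₂⟩ := exists_lift_of_valAt hAB hNn hBV₂ hth₂ hlift₂ h₂
  have hy₁ := sub_div_mem_nonunits hAB hNn hBV₁ hth₁ hb₁ hd₁
  have hy₂ := sub_div_mem_nonunits hAB hNn hBV₂ hth₂ hb₂ hd₂
  have hy₁' : algebraMap F' F ((a₁ : F') / (b₁ : F')) - d ∈ V₁.nonunits := by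
    have := vnu_neg V₁ hy₁
    rwa [neg_sub] at this
  have hy₂' : algebraMap F' F ((a₂ : F') / (b₂ : F')) - d ∈ V₂.nonunits := by
    have := vnu_neg V₂ hy₂
    rwa [neg_sub] at this
  have hdV₁ := h₁.mem hBV₁ hth₁
  have hdV₂ := h₂.mem hBV₂ hth₂
  have hdu₁ := h₁.not_nonunits hBV₁ hth₁ hη₁n
  have hd0 : d ≠ 0 := fun h0 => hdu₁ (h0 ▸ vnu_zero V₁)
  have hN := hNR d ⟨hd0, hdV₁, vnu_inv_mem V₁ hdV₁ hdu₁⟩
    ⟨hd0, hdV₂, vnu_inv_mem V₂ hdV₂ (h₂.not_nonunits hBV₂ hth₂ hη₂n)⟩ _ _ hy₁' hy₂'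
  have hv₁ : ValAt A N₁ V' ((a₁ : F') / (b₁ : F')) η₁ := valAt_div hb₁ hη₁
  have hv₂ : ValAt A N₁ V' ((a₂ : F') / (b₂ : F')) η₂ := valAt_div hb₂ hη₂
  have hv : ValAt A N₁ V' ((a₁ : F') / (b₁ : F') * ((a₂ : F') / (b₂ : F')) ^ e) (η₁ * η₂ ^ e) :=
    hv₁.mul hAV' hth' (hv₂.pow hAV' hth' e)
  refine hv.congr hAV' ?_
  have : (a₁ : F') / (b₁ : F') * ((a₂ : F') / (b₂ : F')) ^ e - Algebra.norm F' d
      = -(Algebra.norm F' d - (a₁ : F') / (b₁ : F') * ((a₂ : F') / (b₂ : F')) ^ e) := by ring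
  rw [this]
  exact vnu_neg V' hN

/-- **LAB-NORM, purely inseparable side, unit values.** -/
theorem valAt_norm_insepU [n.IsPrime] [N₁.IsPrime]
    (hAB : ∀ a : A, algebraMap F' F (a : F') ∈ B)
    (hNn : ∀ a : A, a ∈ N₁ ↔ (⟨algebraMap F' F (a : F'), hAB a⟩ : B) ∈ n)
    (hnormA : ∀ b : B, Algebra.norm F' (b : F) ∈ A)
    {V' : ValuationSubring F'} (hAV' : ChartLe A V')
    {V : ValuationSubring F} (hBV : ChartLe B V) (hth : PassThrough B n V)
    (hcomap : ∀ y' : F', algebraMap F' F y' ∈ V.nonunits → y' ∈ V'.nonunits)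
    {q : ℕ} (hq : q ≠ 0) (hNR : NormResInsepU (F' := F') V q)
    {d : F} {η : R} (hηn : algebraMap R B η ∉ n) (h : ValAt B n V d η) :
    ValAt A N₁ V' (Algebra.norm F' d) (η ^ q) := by
  have hlift : ResLiftPow A B V q := resLiftPow_of_insepU hnormA hBV hq hNR
  obtain ⟨a₁, b₁, hb₁, hη₁, hd₁⟩ := exists_lift_pow_of_valAt hAB hNn hBV hth hlift h
  have hy := sub_div_mem_nonunits hAB hNn hBV hth hb₁ hd₁
  have hdV := h.mem hBV hth
  have hdu := h.not_nonunits hBV hth hηn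
  have hd0 : d ≠ 0 := fun h0 => hdu (h0 ▸ vnu_zero V)
  have hN := hNR d ⟨hd0, hdV, vnu_inv_mem V hdV hdu⟩
  have hN' : Algebra.norm F' d - (a₁ : F') / (b₁ : F') ∈ V'.nonunits := by
    apply hcomap
    rw [map_sub]
    have : algebraMap F' F (Algebra.norm F' d) - algebraMap F' F ((a₁ : F') / (b₁ : F'))
        = (algebraMap F' F (Algebra.norm F' d) - d ^ q)
          + (d ^ q - algebraMap F' F ((a₁ : F') / (b₁ : F'))) := by ring
    rw [this]
    exact vnu_add V hN hy
  have hv : ValAt A N₁ V' ((a₁ : F') / (b₁ : F')) (η ^ q) := valAt_div hb₁ hη₁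
  refine hv.congr hAV' ?_
  have : (a₁ : F') / (b₁ : F') - Algebra.norm F' d
      = -(Algebra.norm F' d - (a₁ : F') / (b₁ : F')) := by ring
  rw [this]
  exact vnu_neg V' hN'

/-- **The label equation, from units-only norm–residue formulas.** -/
theorem label_eq_of_normU [n.IsPrime] [N₁.IsPrime]
    (hAB : ∀ a : A, algebraMap F' F (a : F') ∈ B)
    (hNn : ∀ a : A, a ∈ N₁ ↔ (⟨algebraMap F' F (a : F'), hAB a⟩ : B) ∈ n)
    (hnormA : ∀ b : B, Algebra.norm F' (b : F) ∈ A)
    {m : ℕ} (hrootA : ∀ z : F', z ^ m ∈ A → z ∈ A)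
    {V₁' V₂' : ValuationSubring F'}
    (hAV₁' : ChartLe A V₁') (hth₁' : PassThrough A N₁ V₁')
    (hAV₂' : ChartLe A V₂') (hth₂' : PassThrough A N₁ V₂')
    {VFF Vmid VVV : ValuationSubring F}
    (hBFF : ChartLe B VFF) (hthFF : PassThrough B n VFF)
    (hBmid : ChartLe B Vmid) (hthmid : PassThrough B n Vmid)
    (hBVV : ChartLe B VVV) (hthVV : PassThrough B n VVV)
    (hliftFF : ResLift A B VFF) (hliftmid : ResLift A B Vmid)
    (hcomap : ∀ y' : F', algebraMap F' F y' ∈ VVV.nonunits → y' ∈ V₂'.nonunits)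
    {e q : ℕ} (hq : q ≠ 0)
    (hNR₁ : NormResSplitU V₁' VFF Vmid e) (hNR₂ : NormResInsepU (F' := F') VVV q)
    {u d : F} {t : A} (ht : t ∉ N₁) {b' : B}
    (hpure : u * d ^ m * algebraMap F' F (t : F') = b')
    {k : F'} (hk : Algebra.norm F' u = k ^ m) {ξ₁ ξ₂ : R}
    (hξ₁ : k - algebraMap R F' ξ₁ ∈ V₁'.nonunits) (hξ₂ : k - algebraMap R F' ξ₂ ∈ V₂'.nonunits)
    {ηFF ηmid ηVV : R}
    (hηFF : algebraMap R B ηFF ∉ n) (hηmid : algebraMap R B ηmid ∉ n)
    (hηVV : algebraMap R B ηVV ∉ n)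
    (hFF : ValAt B n VFF d ηFF) (hmid : ValAt B n Vmid d ηmid) (hVV : ValAt B n VVV d ηVV) :
    algebraMap R A (ξ₁ * (ηFF * ηmid ^ e) - ξ₂ * ηVV ^ q) ∈ N₁ := by
  have hN₁top : N₁ ≠ ⊤ := Ideal.IsPrime.ne_top ‹N₁.IsPrime›
  set D : ℕ := Module.finrank F' F with hD
  set δ : F' := k * Algebra.norm F' d with hδ
  -- `δ ^ m t ^ D = N b'`
  have h1 : δ ^ m * (t : F') ^ D = Algebra.norm F' (b' : F) := by
    rw [← hpure, map_mul, map_mul, map_pow, hk, Algebra.norm_algebraMap, hδ, mul_pow]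
  -- `δ t ^ D ∈ A`
  have h2 : (δ * (t : F') ^ D) ^ m ∈ A := by
    rcases Nat.eq_zero_or_pos m with hm0 | hm0
    · rw [hm0, pow_zero]
      exact A.one_mem
    · obtain ⟨j, hj⟩ : ∃ j, m = j + 1 := ⟨m - 1, (Nat.sub_add_cancel hm0).symm⟩
      have h3 : (δ * (t : F') ^ D) ^ m
          = Algebra.norm F' (b' : F) * ((t : F') ^ D) ^ j := by
        rw [← h1, mul_pow]
        have h33 : ((t : F') ^ D) ^ m = ((t : F') ^ D) ^ j * (t : F') ^ D := by
          rw [hj, pow_succ]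
        rw [h33]
        ring
      rw [h3]
      exact A.mul_mem (hnormA b') (A.pow_mem (A.pow_mem t.2 D) j)
  have h4 : δ * (t : F') ^ D ∈ A := hrootA _ h2
  set c' : A := ⟨_, h4⟩ with hc'
  have htD : t ^ D ∉ N₁ := fun h => ht (Ideal.IsPrime.mem_of_pow_mem ‹N₁.IsPrime› D h)
  have hsc : ((t ^ D : A) : F') * δ = c' := by
    show ((t ^ D : A) : F') * δ = δ * (t : F') ^ D
    push_cast
    ring
  -- the two values of `δ`
  have hv₁ : ValAt A N₁ V₁' δ (ξ₁ * (ηFF * ηmid ^ e)) :=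
    (ValAt.const hN₁top hξ₁).mul hAV₁' hth₁'
      (valAt_norm_splitU hAB hNn hAV₁' hth₁' hBFF hthFF hBmid hthmid hliftFF hliftmid hNR₁
        hηFF hηmid hFF hmid)
  have hv₂ : ValAt A N₁ V₂' δ (ξ₂ * ηVV ^ q) :=
    (ValAt.const hN₁top hξ₂).mul hAV₂' hth₂'
      (valAt_norm_insepU hAB hNn hnormA hAV₂' hBVV hthVV hcomap hq hNR₂ hηVV hVV)
  have e₁ := hv₁.frac_mem hAV₁' hth₁' hsc
  have e₂ := hv₂.frac_mem hAV₂' hth₂' hsc
  have h5 : algebraMap R A (ξ₁ * (ηFF * ηmid ^ e) - ξ₂ * ηVV ^ q) * t ^ D ∈ N₁ := by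
    have : algebraMap R A (ξ₁ * (ηFF * ηmid ^ e) - ξ₂ * ηVV ^ q) * t ^ D
        = (c' - algebraMap R A (ξ₂ * ηVV ^ q) * t ^ D)
          - (c' - algebraMap R A (ξ₁ * (ηFF * ηmid ^ e)) * t ^ D) := by
      rw [map_sub]
      ring
    rw [this]
    exact N₁.sub_mem e₂ e₁
  rcases (Ideal.IsPrime.mem_or_mem ‹N₁.IsPrime› h5) with h6 | h6
  · exact h6
  · exact absurd h6 htD

end NormU

end Fermat.Agent.S36.H630

end
-- ===== PACK-END S36/H630/UnitNorm.lean

-- ===== PACK-BEGIN A2/Alg/H754/SmoothAbs.lean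
section





/-!
# A2 / ALG / P-S (helper754): purity at a smooth point of the special fibre, abstract form

`B` a Noetherian integrally closed domain with fraction field `F`, `ϖ ≠ 0` with
`(ϖ) = p ⊓ p'` (two incomparable primes), `B / p` Dedekind, `n` a maximal ideal with `p ≤ n`,
`¬ p' ≤ n`.  If `u ∈ Fˣ` has divisor divisible by `m` at every height-one prime
(`S18.H754.DivisibleDivisor`) and is a unit at `p`, then there is `d ∈ Fˣ` with `u d ^ m` a unit
at `n` and `d` a unit at `p` and at `p'`.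

Proof: `B_n` is a Noetherian local domain, `ϖ` is prime in `B_n` and `𝔪 B_n = (ϖ, t)`, so `B_n`
is a UFD (`S18.H754.ufd_of_regular_pair`) and `u = ε s ^ (-m)` (`S18.H754.exists_unit_mul_pow`).
Then `s` is a unit at `p`, and `s = υ ϖ ^ j` at `p'`; correct by `g ^ (-j)`, `g := g₀ ^ 2 + ϖ`,
`g₀ ∈ p' ∖ n`.
-/

set_option autoImplicit false
set_option linter.style.haveILetI false

noncomputable section

namespace Fermat.Agent.A2.Alg.H754

open IsLocalRing
open Fermat.Agent.S18.H754 (DivisibleDivisor LocallyPow)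

variable {B F : Type*} [CommRing B] [IsDomain B] [Field F] [Algebra B F] [IsFractionRing B F]

section Components

omit [IsDomain B] in
/-- local generation of `p` by `ϖ` away from `p'`. -/
lemma exists_mul_eq_of_mem (ϖ : B) (p p' : Ideal B) (hinf : p ⊓ p' = Ideal.span {ϖ}) {g b : B}
    (hg : g ∈ p') (hb : b ∈ p) : ∃ c : B, g * b = ϖ * c := by
  have h : g * b ∈ p ⊓ p' := ⟨p.mul_mem_left g hb, p'.mul_mem_right b hg⟩
  rw [hinf, Ideal.mem_span_singleton] at h
  exact h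

omit [IsDomain B] in
lemma mem_minimalPrimes_of_inf (ϖ : B) (p p' : Ideal B) [hp : p.IsPrime]
    (hinf : p ⊓ p' = Ideal.span {ϖ}) (h21 : ¬ p' ≤ p) :
    p ∈ (Ideal.span {ϖ}).minimalPrimes := by
  refine ⟨⟨hp, ?_⟩, ?_⟩
  · rw [← hinf]
    exact inf_le_left
  · rintro q ⟨hq, hle⟩ hqp
    have h1 : p * p' ≤ q := le_trans Ideal.mul_le_inf (hinf ▸ hle)
    rcases (Ideal.IsPrime.mul_le hq).1 h1 with h | h
    · exact h
    · exact absurd (le_trans h hqp) h21

lemma height_eq_one_of_inf [IsNoetherianRing B] (ϖ : B) (hϖ : ϖ ≠ 0) (p p' : Ideal B)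
    [hp : p.IsPrime] (hinf : p ⊓ p' = Ideal.span {ϖ}) (h21 : ¬ p' ≤ p) : p.height = 1 := by
  apply le_antisymm
  · exact Ideal.height_le_one_of_isPrincipal_of_mem_minimalPrimes (Ideal.span {ϖ}) p
      (mem_minimalPrimes_of_inf ϖ p p' hinf h21)
  · rw [Order.one_le_iff_pos, pos_iff_ne_zero, Ne, Ideal.height_eq_zero_iff_eq_bot]
    intro h0
    have : ϖ ∈ p := by
      have : ϖ ∈ p ⊓ p' := hinf ▸ Ideal.mem_span_singleton_self ϖ
      exact this.1
    rw [h0, Ideal.mem_bot] at this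
    exact hϖ this

end Components

section Unif

variable [IsNoetherianRing B] [IsIntegrallyClosed B]

/-- At a height-one prime `𝔮` whose localisation has uniformiser `ϖ`, every nonzero element of
`F` is a unit at `𝔮` times an integer power of `ϖ`. -/
theorem exists_zpow_locU (𝔮 : Ideal B) [h𝔮 : 𝔮.IsPrime] (h : 𝔮.height = 1) (ϖ : B) (hϖ0 : ϖ ≠ 0)
    (hϖ : ϖ ∈ 𝔮) (hgen : ∀ a ∈ 𝔮, ∃ g : B, g ∉ 𝔮 ∧ ∃ c : B, g * a = ϖ * c) {f : F}
    (hf : f ≠ 0) :
    ∃ (j : ℤ) (υ : F), LocU 𝔮 υ ∧ f = υ * (algebraMap B F ϖ) ^ j := by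
  obtain ⟨W, hdvr, hW⟩ := Fermat.Agent.S18.H438.exists_dvr_of_height_one (F := F) 𝔮 h
  haveI := hdvr
  have h1𝔮 : (1 : B) ∉ 𝔮 := fun h1 => h𝔮.ne_top ((Ideal.eq_top_iff_one _).2 h1)
  have hinj : Function.Injective (algebraMap B F) := IsFractionRing.injective B F
  have hϖF : algebraMap B F ϖ ≠ 0 := fun h0 => hϖ0 (hinj (by rw [h0, map_zero]))
  have hϖW : algebraMap B F ϖ ∈ W := (hW _).2 ⟨ϖ, 1, h1𝔮, by rw [map_one, mul_one]⟩
  -- units of `W`
  have hunit : ∀ x : W, IsUnit x ↔ LocU 𝔮 (x : F) := by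
    intro x
    constructor
    · intro hx
      obtain ⟨y, hy⟩ := isUnit_iff_exists_inv.1 hx
      have hxy : (x : F) * (y : F) = 1 := by
        have := congrArg (Subtype.val) hy
        simpa using this
      have hx0 : (x : F) ≠ 0 := left_ne_zero_of_mul_eq_one hxy
      rw [locU_iff_of_valuationSubring 𝔮 W hW hx0]
      refine ⟨x.2, ?_⟩
      rw [inv_eq_of_mul_eq_one_right hxy]
      exact y.2
    · intro hx
      have hx0 := hx.ne_zero
      obtain ⟨-, h2⟩ := (locU_iff_of_valuationSubring 𝔮 W hW hx0).1 hx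
      exact isUnit_iff_exists_inv.2 ⟨⟨(x : F)⁻¹, h2⟩, Subtype.ext (mul_inv_cancel₀ hx0)⟩
  have hirr : Irreducible (⟨algebraMap B F ϖ, hϖW⟩ : W) := by
    rw [IsDiscreteValuationRing.irreducible_iff_uniformizer]
    ext x
    rw [IsLocalRing.mem_maximalIdeal, mem_nonunits_iff, Ideal.mem_span_singleton]
    constructor
    · intro hx
      obtain ⟨a, s, hs, has⟩ := (hW x).1 x.2
      have ha : a ∈ 𝔮 := by
        by_contra ha
        exact hx ((hunit x).2 ⟨a, s, ha, hs, has⟩)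
      obtain ⟨g, hg, c, hc⟩ := hgen a ha
      have hgs : g * s ∉ 𝔮 := fun hgs => (h𝔮.mem_or_mem hgs).elim hg hs
      have hgsF : algebraMap B F (g * s) ≠ 0 := LocU.algebraMap_ne_zero hgs
      have hy : algebraMap B F c * (algebraMap B F (g * s))⁻¹ ∈ W :=
        (hW _).2 ⟨c, g * s, hgs, by rw [mul_assoc, inv_mul_cancel₀ hgsF, mul_one]⟩
      refine ⟨⟨_, hy⟩, Subtype.ext ?_⟩
      change (x : F) = algebraMap B F ϖ * (algebraMap B F c * (algebraMap B F (g * s))⁻¹)
      have e : (x : F) * algebraMap B F (g * s) = algebraMap B F ϖ * algebraMap B F c := by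
        rw [map_mul, mul_comm (algebraMap B F g), ← mul_assoc, has, ← map_mul, ← map_mul,
          mul_comm a g, hc]
      rw [← mul_assoc, ← e, mul_assoc, mul_inv_cancel₀ hgsF, mul_one]
    · rintro ⟨y, rfl⟩ hu
      have hu' : IsUnit (⟨algebraMap B F ϖ, hϖW⟩ : W) := isUnit_of_mul_isUnit_left hu
      obtain ⟨a, b, ha, hb, hab⟩ := (hunit _).1 hu'
      apply ha
      have : a = ϖ * b := hinj (by rw [map_mul]; exact hab.symm)
      rw [this]
      exact 𝔮.mul_mem_right b hϖ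
  have key : ∀ x : W, x ≠ 0 →
      ∃ (j : ℕ) (υ : F), LocU 𝔮 υ ∧ (x : F) = υ * (algebraMap B F ϖ) ^ j := by
    intro x hx
    obtain ⟨j, υ, hxυ⟩ := IsDiscreteValuationRing.eq_unit_mul_pow_irreducible hx hirr
    refine ⟨j, ((υ : W) : F), (hunit _).1 υ.isUnit, ?_⟩
    rw [hxυ]
    rfl
  rcases W.mem_or_inv_mem f with hfW | hfW
  · obtain ⟨j, υ, hυ, e⟩ := key ⟨f, hfW⟩ (fun h0 => hf (congrArg Subtype.val h0))
    exact ⟨j, υ, hυ, by rw [zpow_natCast]; exact e⟩
  · obtain ⟨j, υ, hυ, e⟩ := key ⟨f⁻¹, hfW⟩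
      (fun h0 => inv_ne_zero hf (congrArg Subtype.val h0))
    refine ⟨-j, υ⁻¹, hυ.inv, ?_⟩
    have e' : f⁻¹ = υ * algebraMap B F ϖ ^ j := e
    rw [zpow_neg, zpow_natCast, ← mul_inv, ← e', inv_inv]

end Unif

section Main

variable [IsNoetherianRing B] [IsIntegrallyClosed B]

/-- **Purity at a smooth point, abstract form.** -/
theorem pure_smooth_abs (ϖ : B) (hϖ : ϖ ≠ 0) (p p' : Ideal B) [hp : p.IsPrime]
    [hp' : p'.IsPrime] (hinf : p ⊓ p' = Ideal.span {ϖ}) (h12 : ¬ p ≤ p') (h21 : ¬ p' ≤ p)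
    (hD : IsDedekindDomain (B ⧸ p))
    (n : Ideal B) (hn : n.IsMaximal) (hpn : p ≤ n) (hp'n : ¬ p' ≤ n)
    (m : ℕ) (hm : 0 < m) (u : F) (hu : u ≠ 0)
    (hdiv : DivisibleDivisor B m u) (hup : LocU p u) :
    ∃ d : F, d ≠ 0 ∧ LocU n (u * d ^ m) ∧ LocU p d ∧ LocU p' d := by
  classical
  haveI hnp : n.IsPrime := hn.isPrime
  have h1n : (1 : B) ∉ n := fun h1 => hnp.ne_top ((Ideal.eq_top_iff_one _).2 h1)
  have hinj : Function.Injective (algebraMap B F) := IsFractionRing.injective B F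
  obtain ⟨g₀, hg₀p', hg₀n⟩ := SetLike.not_le_iff_exists.1 hp'n
  obtain ⟨h₀, hh₀p, hh₀p'⟩ := SetLike.not_le_iff_exists.1 h12
  have hϖpp : ϖ ∈ p ⊓ p' := hinf ▸ Ideal.mem_span_singleton_self ϖ
  have hϖp : ϖ ∈ p := hϖpp.1
  have hϖp' : ϖ ∈ p' := hϖpp.2
  have hϖn : ϖ ∈ n := hpn hϖp
  have hϖF : algebraMap B F ϖ ≠ 0 := fun h0 => hϖ (hinj (by rw [h0, map_zero]))
  -- local generator of `n` modulo `p`
  obtain ⟨t, htn, hreg⟩ : ∃ t ∈ n, ∀ a ∈ n, ∃ s : B, s ∉ n ∧ s * a ∈ Ideal.span {ϖ, t} := by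
    haveI := hD
    have hsurj : Function.Surjective (Ideal.Quotient.mk p) := Ideal.Quotient.mk_surjective
    have hM : (n.map (Ideal.Quotient.mk p)).IsMaximal := by
      haveI := hn
      exact Ideal.IsMaximal.map_of_surjective_of_ker_le hsurj (by rw [Ideal.mk_ker]; exact hpn)
    obtain ⟨tb, htb, sb, hsb, hall⟩ :=
      Fermat.Agent.S18.B12.H84.exists_local_generator (n.map (Ideal.Quotient.mk p)) hM
    obtain ⟨t, rfl⟩ := hsurj tb
    obtain ⟨s, rfl⟩ := hsurj sb
    have hmem : ∀ b : B, Ideal.Quotient.mk p b ∈ n.map (Ideal.Quotient.mk p) ↔ b ∈ n := by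
      intro b
      rw [← Ideal.mem_comap, Ideal.comap_map_of_surjective _ hsurj, ← RingHom.ker_eq_comap_bot,
        Ideal.mk_ker, sup_eq_left.2 hpn]
    have hsn : s ∉ n := fun h => hsb ((hmem s).2 h)
    refine ⟨t, (hmem t).1 htb, fun a ha => ⟨g₀ * s, ?_, ?_⟩⟩
    · exact fun h => (hnp.mem_or_mem h).elim hg₀n hsn
    · have h1 := hall _ ((hmem a).2 ha)
      rw [Ideal.mem_span_singleton'] at h1
      obtain ⟨cb, hcb⟩ := h1
      obtain ⟨c, rfl⟩ := hsurj cb
      have hd : s * a - c * t ∈ p := by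
        rw [← Ideal.Quotient.eq, map_mul, map_mul]
        exact hcb.symm
      obtain ⟨e, he⟩ := exists_mul_eq_of_mem ϖ p p' hinf hg₀p' hd
      rw [Ideal.mem_span_pair]
      refine ⟨e, g₀ * c, ?_⟩
      linear_combination (-1 : B) * he
  -- the local ring `A = B_n ⊆ F`
  let A : Subalgebra B F :=
    Localization.subalgebra.ofField F n.primeCompl n.primeCompl_le_nonZeroDivisors
  haveI : IsLocalization.AtPrime A n := (inferInstance : IsLocalization n.primeCompl A)
  haveI : IsLocalRing A := IsLocalization.AtPrime.isLocalRing A n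
  haveI : IsNoetherianRing A := IsLocalization.isNoetherianRing n.primeCompl A inferInstance
  have hmapp : Ideal.span {algebraMap B A ϖ} = Ideal.map (algebraMap B A) p := by
    apply le_antisymm
    · rw [Ideal.span_singleton_le_iff_mem]
      exact Ideal.mem_map_of_mem _ hϖp
    · rw [Ideal.map_le_iff_le_comap]
      intro b hb
      obtain ⟨c, hc⟩ := exists_mul_eq_of_mem ϖ p p' hinf hg₀p' hb
      rw [Ideal.mem_comap]
      have hu : IsUnit (algebraMap B A g₀) :=
        IsLocalization.map_units A (⟨g₀, hg₀n⟩ : n.primeCompl)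
      have h2 : algebraMap B A g₀ * algebraMap B A b ∈ Ideal.span {algebraMap B A ϖ} := by
        rw [← map_mul, hc, map_mul]
        exact Ideal.mul_mem_right _ _ (Ideal.mem_span_singleton_self _)
      exact (Ideal.unit_mul_mem_iff_mem _ hu).1 h2
  have hprime : Prime (algebraMap B A ϖ) := by
    have h0 : algebraMap B A ϖ ≠ 0 := fun h =>
      hϖ (IsLocalization.injective A n.primeCompl_le_nonZeroDivisors (by rw [h, map_zero]))
    rw [← Ideal.span_singleton_prime h0, hmapp]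
    refine IsLocalization.isPrime_of_isPrime_disjoint n.primeCompl A p hp ?_
    rw [Set.disjoint_left]
    intro x hx hx'
    exact hx (hpn hx')
  have hmax : maximalIdeal A = Ideal.span {algebraMap B A ϖ, algebraMap B A t} :=
    Fermat.Agent.S18.H754.maximalIdeal_loc_eq_span_pair n A hϖn htn hreg
  haveI : UniqueFactorizationMonoid A :=
    Fermat.Agent.S18.H754.ufd_of_regular_pair _ _ hprime hmax
  obtain ⟨s, hs0, ε, hε⟩ := Fermat.Agent.S18.H754.exists_unit_mul_pow (R := A) m hm u hu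
    (fun π hπ => Fermat.Agent.S18.H754.locallyPow_of_divisibleDivisor n A hdiv π hπ)
  -- `u * s ^ m` is a unit at `n`
  have hUn : LocU n (u * s ^ m) := by
    have hne : u * s ^ m ≠ 0 := mul_ne_zero hu (pow_ne_zero _ hs0)
    refine locU_of_frac_of_inv_frac n hne ?_ ?_
    · rw [hε]
      exact (Fermat.Agent.S18.H438.mem_ofField_primeCompl_iff n _).1 (ε : A).2
    · have e : (u * s ^ m)⁻¹ = algebraMap A F ((ε⁻¹ : Aˣ) : A) := by
        rw [hε]
        apply inv_eq_of_mul_eq_one_left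
        rw [← map_mul, Units.inv_mul, map_one]
      rw [e]
      exact (Fermat.Agent.S18.H438.mem_ofField_primeCompl_iff n _).1 ((ε⁻¹ : Aˣ) : A).2
  -- `s` is a unit at `p`
  have hhtp : p.height = 1 := height_eq_one_of_inf ϖ hϖ p p' hinf h21
  have hhtp' : p'.height = 1 :=
    height_eq_one_of_inf ϖ hϖ p' p (by rw [inf_comm]; exact hinf) h12
  have hsp : LocU p s := by
    obtain ⟨W, -, hW⟩ := Fermat.Agent.S18.H438.exists_dvr_of_height_one (F := F) p hhtp
    refine locU_of_pow p W hW hm ?_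
    have h1 : LocU p (s ^ m * u) := by
      rw [mul_comm]
      exact hUn.mono hpn
    exact h1.of_mul_left hup
  -- `s` at `p'`
  have hgen' : ∀ a ∈ p', ∃ g : B, g ∉ p' ∧ ∃ c : B, g * a = ϖ * c := by
    intro a ha
    refine ⟨h₀, hh₀p', ?_⟩
    obtain ⟨c, hc⟩ := exists_mul_eq_of_mem ϖ p p' hinf ha hh₀p
    exact ⟨c, by rw [mul_comm, hc]⟩
  obtain ⟨j, υ, hυ, hsυ⟩ := exists_zpow_locU p' hhtp' ϖ hϖ hϖp' hgen' hs0
  -- the correcting element
  have hgn : g₀ ^ 2 + ϖ ∉ n := by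
    intro h
    have h2 : g₀ ^ 2 ∈ n := by
      have := n.sub_mem h hϖn
      rwa [add_sub_cancel_right] at this
    exact hg₀n (hnp.mem_of_pow_mem 2 h2)
  have hgp' : LocU p' (algebraMap B F (g₀ ^ 2 + ϖ) * (algebraMap B F ϖ)⁻¹) := by
    obtain ⟨c, hc⟩ := exists_mul_eq_of_mem ϖ p p' hinf hg₀p' hh₀p
    have hh2 : h₀ ^ 2 ∉ p' := fun h => hh₀p' (hp'.mem_of_pow_mem 2 h)
    refine ⟨ϖ * c ^ 2 + h₀ ^ 2, h₀ ^ 2, ?_, hh2, ?_⟩
    · intro h
      apply hh2
      have := p'.sub_mem h (p'.mul_mem_right (c ^ 2) hϖp')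
      rwa [add_sub_cancel_left] at this
    · have key : (g₀ ^ 2 + ϖ) * h₀ ^ 2 = ϖ * (ϖ * c ^ 2 + h₀ ^ 2) := by
        linear_combination (g₀ * h₀ + ϖ * c) * hc
      rw [mul_right_comm, ← map_mul, key, map_mul, mul_right_comm, mul_inv_cancel₀ hϖF, one_mul]
  have hGn : LocU n (algebraMap B F (g₀ ^ 2 + ϖ)) := LocU.of_notMem hgn h1n
  have hG0 : algebraMap B F (g₀ ^ 2 + ϖ) ≠ 0 := hGn.ne_zero
  refine ⟨s * (algebraMap B F (g₀ ^ 2 + ϖ)) ^ (-j), mul_ne_zero hs0 (zpow_ne_zero _ hG0), ?_, ?_,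
    ?_⟩
  · have e : u * (s * (algebraMap B F (g₀ ^ 2 + ϖ)) ^ (-j)) ^ m =
        (u * s ^ m) * ((algebraMap B F (g₀ ^ 2 + ϖ)) ^ (-j)) ^ m := by
      rw [mul_pow, mul_assoc]
    rw [e]
    exact hUn.mul ((hGn.zpow (-j)).pow m)
  · exact hsp.mul ((hGn.mono hpn).zpow (-j))
  · have e : s * (algebraMap B F (g₀ ^ 2 + ϖ)) ^ (-j) =
        υ * (algebraMap B F (g₀ ^ 2 + ϖ) * (algebraMap B F ϖ)⁻¹) ^ (-j) := by
      rw [hsυ, mul_zpow, inv_zpow', neg_neg]
      ring
    rw [e]
    exact hυ.mul (hgp'.zpow (-j))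

end Main

end Fermat.Agent.A2.Alg.H754

end

end
-- ===== PACK-END A2/Alg/H754/SmoothAbs.lean

-- ===== PACK-BEGIN S36/H153/IncCusp.lean
section



/-!
# S36 engine, cell INCIDENCE (helper153) — the field `cusp_single` of `Eng.TripleCtx`
(chart / valuation-subring vocabulary) and the builder of `ChartInc` for charts

* `chartInc_of_chart` : `ChartInc` for `B' = chart R {x'}`, `B = chart R {x}` from hypotheses in
  the shape of the fields of `Eng.TripleCtx` (+ incomparability at level `q` + radicial);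
* `cusp_single_of`    : the points at infinity of level `q²` lie on ONE component, from
  "cusps are not nodes" at level `q` (`hnode`, = `CuspNode.no_node_at_infinity` in A2 vocabulary),
  the two Kronecker congruences at infinity and the comap table.

Mathlib + `S18.H138.Charts` only.
-/

set_option autoImplicit false
set_option linter.style.haveILetI false
set_option linter.unusedSectionVars false

namespace Fermat.Agent.S36.H153

open Fermat.Agent.S18.H138 (chart)

section Builder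

variable {R F F' : Type*} [CommRing R] [Field F] [Algebra R F] [Field F'] [Algebra R F']

/-- **Builder**: the chart-level incidence datum of the finite charts `chart R {x'}`,
`chart R {x}` from hypotheses in the shape of the fields of `Eng.TripleCtx`. -/
theorem chartInc_of_chart (w : R) (e : ℕ) (α β : F' →+* F) (x : F) (x' : F')
    (V₁ V₂ V₃ : ValuationSubring F) (V₁' V₂' : ValuationSubring F')
    (hR₁ : ∀ r : R, algebraMap R F r ∈ V₁) (hR₂ : ∀ r : R, algebraMap R F r ∈ V₂)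
    (hR₃ : ∀ r : R, algebraMap R F r ∈ V₃)
    (hx₁ : x ∈ V₁) (hx₂ : x ∈ V₂) (hx₃ : x ∈ V₃)
    (chart_α : ∀ b ∈ chart R ({x'} : Set F'), α b ∈ chart R ({x} : Set F))
    (chart_β : ∀ b ∈ chart R ({x'} : Set F'), β b ∈ chart R ({x} : Set F))
    (int_α : ∀ b ∈ chart R ({x} : Set F), ∃ p : Polynomial F', p.Monic ∧
      (∀ i, p.coeff i ∈ chart R ({x'} : Set F')) ∧ (p.map α).eval b = 0)
    (int_β : ∀ b ∈ chart R ({x} : Set F), ∃ p : Polynomial F', p.Monic ∧
      (∀ i, p.coeff i ∈ chart R ({x'} : Set F')) ∧ (p.map β).eval b = 0)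
    (comap_α₁ : V₁.comap α = V₁') (comap_α₂ : V₂.comap α = V₁') (comap_α₃ : V₃.comap α = V₂')
    (comap_β₁ : V₁.comap β = V₁') (comap_β₂ : V₂.comap β = V₂') (comap_β₃ : V₃.comap β = V₂')
    (α_w : α (algebraMap R F' w) = algebraMap R F w)
    (β_w : β (algebraMap R F' w) = algebraMap R F w)
    (w_mem₁ : algebraMap R F w ∈ V₁.nonunits) (w_mem₃ : algebraMap R F w ∈ V₃.nonunits)
    (qep : ∀ b : chart R ({x} : Set F), (b : F) * (algebraMap R F w)⁻¹ ∈ V₁ →
      (b : F) * (algebraMap R F w)⁻¹ ∈ V₂ → (b : F) * (algebraMap R F w)⁻¹ ∈ V₃ →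
      ∃ c : chart R ({x} : Set F), b = algebraMap R (chart R ({x} : Set F)) w * c)
    (u₁ : ∀ f ∈ V₁.nonunits, f * (algebraMap R F w)⁻¹ ∈ V₁)
    (u₂ : ∀ f ∈ V₂.nonunits, f ^ e * (algebraMap R F w)⁻¹ ∈ V₂)
    (u₃ : ∀ f ∈ V₃.nonunits, f * (algebraMap R F w)⁻¹ ∈ V₃)
    (inc₁₂ : ∃ b' ∈ chart R ({x'} : Set F'), b' ∈ V₁'.nonunits ∧ b' ∉ V₂'.nonunits)
    (inc₂₁ : ∃ b' ∈ chart R ({x'} : Set F'), b' ∈ V₂'.nonunits ∧ b' ∉ V₁'.nonunits)
    (rad_α : ∀ b ∈ chart R ({x} : Set F), ∃ k : ℕ, 0 < k ∧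
      ∃ b' ∈ chart R ({x'} : Set F'), b ^ k - α b' ∈ V₃.nonunits)
    (rad_β : ∀ b ∈ chart R ({x} : Set F), ∃ k : ℕ, 0 < k ∧
      ∃ b' ∈ chart R ({x'} : Set F'), b ^ k - β b' ∈ V₁.nonunits) :
    ChartInc w e α β (chart R ({x'} : Set F')) (chart R ({x} : Set F)) V₁ V₂ V₃ V₁' V₂' := by
  have hB₁ : ∀ b ∈ chart R ({x} : Set F), b ∈ V₁ :=
    chart_le_valuationSubring V₁ hR₁ (fun s hs => by rw [Set.mem_singleton_iff.mp hs]; exact hx₁)
  have hB₂ : ∀ b ∈ chart R ({x} : Set F), b ∈ V₂ :=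
    chart_le_valuationSubring V₂ hR₂ (fun s hs => by rw [Set.mem_singleton_iff.mp hs]; exact hx₂)
  have hB₃ : ∀ b ∈ chart R ({x} : Set F), b ∈ V₃ :=
    chart_le_valuationSubring V₃ hR₃ (fun s hs => by rw [Set.mem_singleton_iff.mp hs]; exact hx₃)
  exact
    { B_le₁ := hB₁
      B_le₂ := hB₂
      B_le₃ := hB₃
      chart_α := chart_α
      chart_β := chart_β
      int_α := int_α
      int_β := int_β
      closed' := chart_closed _
      comap_α₁ := comap_α₁
      comap_α₂ := comap_α₂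
      comap_α₃ := comap_α₃
      comap_β₁ := comap_β₁
      comap_β₂ := comap_β₂
      comap_β₃ := comap_β₃
      α_w := α_w
      β_w := β_w
      w_mem₁ := w_mem₁
      w_mem₃ := w_mem₃
      cover := cover_of_qep w e _ V₁ V₂ V₃ hB₁ hB₂ hB₃ qep u₁ u₂ u₃
      inc₁₂ := inc₁₂
      inc₂₁ := inc₂₁
      rad_α := rad_α
      rad_β := rad_β }

end Builder

section Cusp

variable {R F F' : Type*} [CommRing R] [Field F] [Algebra R F] [Field F'] [Algebra R F']

/-- **Field `cusp_single` of `Eng.TripleCtx`** (abstract form).  `Bi' ⊆ F'`, `Bi ⊆ F` the charts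
at infinity of level `q`, `q²`; `u = 1/j`, `u_q = 1/j_q` at level `q`; `z = 1/(j j_q j_{q²})`.
A prime of `Bi` containing `z` lies on at most one of the three components. -/
theorem cusp_single_of (α β : F' →+* F) (Bi' : Subalgebra R F') (Bi : Subalgebra R F)
    (V₁ V₂ V₃ : ValuationSubring F) (V₁' V₂' : ValuationSubring F')
    (hB₁ : ∀ b ∈ Bi, b ∈ V₁) (hB₂ : ∀ b ∈ Bi, b ∈ V₂) (hB₃ : ∀ b ∈ Bi, b ∈ V₃)
    (chart_α : ∀ b ∈ Bi', α b ∈ Bi) (chart_β : ∀ b ∈ Bi', β b ∈ Bi)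
    (comap_α₁ : V₁.comap α = V₁') (comap_α₂ : V₂.comap α = V₁') (comap_α₃ : V₃.comap α = V₂')
    (comap_β₁ : V₁.comap β = V₁') (comap_β₂ : V₂.comap β = V₂') (comap_β₃ : V₃.comap β = V₂')
    (u uq : F') (hu : u ∈ Bi') (huq : uq ∈ Bi') (hab : α uq = β u) (e : ℕ) (he : 0 < e)
    (h1 : uq - u ^ e ∈ V₁'.nonunits) (h2 : u - uq ^ e ∈ V₂'.nonunits)
    (hnode : ∀ N : Ideal Bi', N.IsPrime → (∀ b : Bi', (b : F') ∈ V₁'.nonunits → b ∈ N) →
      (∀ b : Bi', (b : F') ∈ V₂'.nonunits → b ∈ N) →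
      (⟨u * uq, Bi'.mul_mem hu huq⟩ : Bi') ∉ N)
    (𝔪 : Ideal Bi) (h𝔪 : 𝔪.IsPrime) (z : Bi) (hz : (z : F) = α u * α uq * β uq)
    (hzm : z ∈ 𝔪) :
    ¬ ((∀ b : Bi, (b : F) ∈ V₁.nonunits → b ∈ 𝔪) ∧ (∀ b : Bi, (b : F) ∈ V₂.nonunits → b ∈ 𝔪)) ∧
    ¬ ((∀ b : Bi, (b : F) ∈ V₁.nonunits → b ∈ 𝔪) ∧ (∀ b : Bi, (b : F) ∈ V₃.nonunits → b ∈ 𝔪)) ∧
    ¬ ((∀ b : Bi, (b : F) ∈ V₂.nonunits → b ∈ 𝔪) ∧ (∀ b : Bi, (b : F) ∈ V₃.nonunits → b ∈ 𝔪)) := by
  haveI := h𝔪
  have hB₁' : ∀ b ∈ Bi', b ∈ V₁' := fun b hb => by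
    rw [← comap_α₁, ValuationSubring.mem_comap]; exact hB₁ _ (chart_α b hb)
  have hB₂' : ∀ b ∈ Bi', b ∈ V₂' := fun b hb => by
    rw [← comap_α₃, ValuationSubring.mem_comap]; exact hB₃ _ (chart_α b hb)
  have key : ∀ h : ((vprime Bi V₁ hB₁ ≤ 𝔪 ∧ vprime Bi V₂ hB₂ ≤ 𝔪) ∨
      (vprime Bi V₁ hB₁ ≤ 𝔪 ∧ vprime Bi V₃ hB₃ ≤ 𝔪) ∨
      (vprime Bi V₂ hB₂ ≤ 𝔪 ∧ vprime Bi V₃ hB₃ ≤ 𝔪)), False := by
    intro h
    have hfin := finite_of_two_components (resHom α Bi' Bi chart_α) (resHom β Bi' Bi chart_β)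
      (P1 := vprime Bi' V₁' hB₁') (P2 := vprime Bi' V₂' hB₂')
      (pFF := vprime Bi V₁ hB₁) (pmid := vprime Bi V₂ hB₂) (pVV := vprime Bi V₃ hB₃)
      (comap_vprime α Bi' Bi chart_α V₁ V₁' hB₁ hB₁' comap_α₁).ge
      (comap_vprime α Bi' Bi chart_α V₃ V₂' hB₃ hB₂' comap_α₃).ge
      (comap_vprime α Bi' Bi chart_α V₂ V₁' hB₂ hB₁' comap_α₂).ge
      (comap_vprime β Bi' Bi chart_β V₁ V₁' hB₁ hB₁' comap_β₁).ge
      (comap_vprime β Bi' Bi chart_β V₂ V₂' hB₂ hB₂' comap_β₂).ge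
      (comap_vprime β Bi' Bi chart_β V₃ V₂' hB₃ hB₂' comap_β₃).ge
      (u := ⟨u, hu⟩) (uq := ⟨uq, huq⟩) (e := e) he (Subtype.ext hab)
      (show ((⟨uq, huq⟩ - ⟨u, hu⟩ ^ e : Bi') : F') ∈ V₁'.nonunits from h1)
      (show ((⟨u, hu⟩ - ⟨uq, huq⟩ ^ e : Bi') : F') ∈ V₂'.nonunits from h2)
      (fun N hN hP1 hP2 => hnode N hN hP1 hP2) 𝔪 h
    apply hfin
    have hzeq : z = resHom α Bi' Bi chart_α ⟨u, hu⟩ * resHom α Bi' Bi chart_α ⟨uq, huq⟩ *
        resHom β Bi' Bi chart_β ⟨uq, huq⟩ := Subtype.ext hz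
    rw [← hzeq]
    exact hzm
  refine ⟨fun h => key (Or.inl h), fun h => key (Or.inr (Or.inl h)),
    fun h => key (Or.inr (Or.inr h))⟩

end Cusp

end Fermat.Agent.S36.H153

end
-- ===== PACK-END S36/H153/IncCusp.lean

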