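import Fermat.Prelude.Def_GaloisRep_ComplexConjugation
import Mathlib
import Fermat.Prelude.Def_AlgebraicCurve_Correspondence
import Fermat.Agent.Pack.S36.E9L2
import Fermat.Agent.Pack.S36.E0L3
import Fermat.Agent.Pack.S36.E7L0
import Fermat.Agent.Pack.S36.E9L0
import Fermat.Agent.Pack.S36.E0L1
import Fermat.Agent.Pack.S36.E9L1
import Fermat.Agent.Pack.S36.E7L3
import Fermat.Agent.Pack.S36.E1L0
import Fermat.Agent.Pack.S36.E1L1
import Fermat.Agent.Pack.S36.E10L1
import Fermat.Agent.Pack.S36.E10L3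
import Fermat.Agent.Pack.S36.E10L0
import Fermat.Agent.Pack.S36.E8L0
import Fermat.Agent.Pack.S36.E2L3
import Fermat.Agent.Pack.S36.E5L1
import Fermat.Agent.Pack.S36.E8L1
import Fermat.Agent.Pack.S36.E10L2
import Fermat.Agent.Pack.S36.E6L0

-- ===== PACK-BEGIN S36/H36/TateInv.lean
section
/-
S36 mid layer (helper36): the adic eigenmodule WITHOUT INVARIANTS.

Extension of helper529's `S30.H529.exists_adic_eigenmodule` / `exists_adic_galois_eigenmodule`
and of helper991's `S35.H991.exists_adic_eigenmodule_new` by one more transfer principle: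

  if a subset `H` of the group fixes only a BOUNDED part of the `p`-power torsion
  (`∀ x ∈ J[p^∞], (∀ τ ∈ H, τ • x = x) → p ^ k • x = 0`), then `H` has no nonzero fixed vector
  in the adic eigenmodule.

The module is the same one (`tateEigen`, the eigen-part of the Tate module of `O ⊗ J`); the
transfer uses the flatness bridge `S35.H991.exists_lTensor_subtype_eq`.
-/


set_option autoImplicit false
set_option linter.unusedSectionVars false

namespace Fermat.Agent.S36.H36

open IsLocalRing TensorProduct Fermat.Agent.S30.H529 Fermat.Agent.S35.H991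

noncomputable section

section Bounded

variable (O : Type*) [CommRing O] [Module.Flat ℤ O]
variable {G : Type*} [Group G] {J : Type*} [AddCommGroup J] [DistribMulAction G J]

/-- **Bounded invariants, tensor form.**  If the `H`-fixed part of `J[m]` is killed by `c`, then
so is the `H`-fixed part of `(O ⊗ J)[m]`. -/
theorem smul_eq_zero_of_fixed (m : ℕ) (hfin : {x : J | m • x = 0}.Finite) (H : Set G) (c : ℕ)
    (hc : ∀ x : J, m • x = 0 → (∀ τ ∈ H, τ • x = x) → c • x = 0)
    (y : O ⊗[ℤ] J) (hy : (m : ℤ) • y = 0)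
    (hfix : ∀ τ ∈ H, (actLin J τ).baseChange O y = y) : (c : ℤ) • y = 0 := by
  set K : Submodule ℤ J := LinearMap.ker ((c : ℤ) • (LinearMap.id : J →ₗ[ℤ] J)) with hK
  have hmemK : ∀ x : J, x ∈ K ↔ c • x = 0 := by
    intro x
    rw [hK, LinearMap.mem_ker, LinearMap.smul_apply, LinearMap.id_apply, natCast_zsmul]
  obtain ⟨s, hs⟩ := exists_lTensor_subtype_eq O m hfin (C := H) (J' := fun _ => J)
    (fun τ => actLin J (τ : G) - LinearMap.id) K
    (fun x hx hfx => (hmemK x).mpr (hc x hx (fun τ hτ => by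
      have := hfx ⟨τ, hτ⟩
      simpa [sub_eq_zero] using this)))
    y hy (fun τ => by
      have h1 := hfix (τ : G) τ.2
      have h2 : (actLin J (τ : G) - LinearMap.id).lTensor O y
          = (actLin J (τ : G)).baseChange O y - y := by
        rw [LinearMap.lTensor_sub, LinearMap.lTensor_id, LinearMap.sub_apply,
          LinearMap.id_apply]
        rfl
      rw [h2, h1, sub_self])
  have h0 : (c : ℤ) • (LinearMap.id : K →ₗ[ℤ] K) = 0 := by
    apply LinearMap.ext
    intro x
    apply Subtype.ext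
    have := (hmemK (x : J)).mp x.2
    simpa using this
  have h1 : (c : ℤ) • s = 0 := by
    have : (c : ℤ) • s = ((c : ℤ) • (LinearMap.id : K →ₗ[ℤ] K)).lTensor O s := by
      rw [LinearMap.lTensor_smul, LinearMap.lTensor_id, LinearMap.smul_apply,
        LinearMap.id_apply]
    rw [this, h0, LinearMap.lTensor_zero, LinearMap.zero_apply]
  rw [← hs, ← map_zsmul, h1, map_zero]

end Bounded

section Main

variable (p : ℕ)
variable (O : Type) [CommRing O] [IsDomain O] [IsDiscreteValuationRing O]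
  [IsAdicComplete (maximalIdeal O) O] [CharZero O]
variable {G : Type*} [Group G]
variable (J : Type) [AddCommGroup J] [DistribMulAction G J]
variable {ι : Type*} (T : ι → J →+ J) (a : ι → O)

/-- **Abstract Tate module, with the no-invariants transfer.**  Same module and same clauses as
`S30.H529.exists_adic_eigenmodule`, plus: a subset `H ⊆ G` whose fixed points in `J[p^∞]` are
killed by `p ^ k` has no nonzero fixed vector in the module. -/
theorem exists_adic_eigenmodule_inv (hpO : (p : O) ∈ maximalIdeal O) (hp0 : p ≠ 0)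
    (hT : ∀ (i : ι) (γ : G) (x : J), T i (γ • x) = γ • T i x)
    (hfin : {x : J | p • x = 0}.Finite)
    (v : ℕ → O ⊗[ℤ] J) (hv0 : (p : O) • v 0 = 0) (hv : ∀ n, (p : O) • v (n + 1) = v n)
    (hne : v ≠ 0) (heig : ∀ i n, tensorOp O T i (v n) = a i • v n) :
    ∃ (M : Type) (_ : AddCommGroup M) (_ : Module O M) (_ : Module.Free O M)
      (_ : Module.Finite O M) (ρ : G →* Module.End O M),
      Nontrivial M ∧
      (∀ (n : ℕ) (γ : G), (∀ x : J, p ^ n • x = 0 → γ • x = x) →
        ∀ m : M, ρ γ m - m ∈ (maximalIdeal O ^ n • ⊤ : Submodule O M)) ∧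
      (∀ γ : G, (∀ x : J, (∃ n : ℕ, p ^ n • x = 0) → γ • x = x) → ρ γ = 1) ∧
      (∀ (γ : G) (i : ι) (c : ℤ),
        (∀ x : J, (∃ n : ℕ, p ^ n • x = 0) → γ • γ • x - T i (γ • x) + c • x = 0) →
        ρ γ * ρ γ - a i • ρ γ + (c : O) • (1 : Module.End O M) = 0) ∧
      (∀ (H : Set G) (k : ℕ),
        (∀ x : J, (∃ n : ℕ, p ^ n • x = 0) → (∀ τ ∈ H, τ • x = x) → p ^ k • x = 0) →
        ∀ m : M, (∀ τ ∈ H, ρ τ m = m) → m = 0) := by
  have hϖ0 : (p : O) ≠ 0 := by exact_mod_cast hp0
  have hX : ∃ Y : Submodule O (O ⊗[ℤ] J), Y.FG ∧ ∀ x : O ⊗[ℤ] J, (p : O) • x = 0 → x ∈ Y := by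
    obtain ⟨Y, hY, hYX⟩ := exists_fg_of_finite_torsion O (J := J) (p : ℤ) (by
      have : {y : J | (p : ℤ) • y = 0} = {x : J | p • x = 0} := by
        ext y
        simp
      rw [this]
      exact hfin)
    refine ⟨Y, hY, fun x hx => hYX x ?_⟩
    have := natCast_pow_smul p O J 1 x
    simp only [pow_one] at this
    rw [← this]
    exact hx
  have hρ := tensorRep_tensorOp O T hT
  have hfree := tateEigen_free (t := tensorOp O T) (a := a) hpO hϖ0 hX
  have hfinite := tateEigen_finite (t := tensorOp O T) (a := a) hpO hϖ0 hX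
  -- transfer of relations
  have htrans : ∀ (A : J →ₗ[ℤ] J) (n : ℕ), (∀ y : J, p ^ n • y = 0 → A y = 0) →
      ∀ x : O ⊗[ℤ] J, (p : O) ^ n • x = 0 → A.baseChange O x = 0 := by
    intro A n hA x hx
    apply baseChange_eq_zero_of_torsion O ((p ^ n : ℕ) : ℤ) A
    · intro y hy
      apply hA
      rwa [natCast_zsmul] at hy
    · rw [← natCast_pow_smul]
      exact hx
  refine ⟨tateEigen (p : O) (tensorOp O T) a, inferInstance, inferInstance, hfree, hfinite,
    tateRep (tensorRep O J) hρ, ?_, ?_, ?_, ?_, ?_⟩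
  · refine ⟨⟨⟨v, hv0, hv, heig⟩, 0, ?_⟩⟩
    intro h
    exact hne (congrArg Subtype.val h)
  · intro n γ hγ m
    apply tateRep_sub_mem (tensorRep O J) hρ hpO n γ
    intro x hx
    have h1 := htrans (actLin J γ - LinearMap.id) n (fun y hy => by
      simp [hγ y hy]) x hx
    rw [LinearMap.baseChange_sub, LinearMap.baseChange_id, LinearMap.sub_apply,
      LinearMap.id_apply, sub_eq_zero] at h1
    exact h1
  · intro γ hγ
    apply tateRep_eq_one
    rintro x ⟨n, hx⟩
    have h1 := htrans (actLin J γ - LinearMap.id) n (fun y hy => by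
      simp [hγ y ⟨n, hy⟩]) x hx
    rw [LinearMap.baseChange_sub, LinearMap.baseChange_id, LinearMap.sub_apply,
      LinearMap.id_apply, sub_eq_zero] at h1
    exact h1
  · intro γ i c hγ
    apply tateRep_quadratic
    rintro x ⟨n, hx⟩
    have h1 := htrans (actLin J γ ∘ₗ actLin J γ - (T i).toIntLinearMap ∘ₗ actLin J γ
      + c • LinearMap.id) n (fun y hy => by
        have := hγ y ⟨n, hy⟩
        simpa using this) x hx
    rw [LinearMap.baseChange_add, LinearMap.baseChange_sub, LinearMap.baseChange_comp,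
      LinearMap.baseChange_comp, LinearMap.baseChange_smul, LinearMap.baseChange_id] at h1
    simp only [LinearMap.add_apply, LinearMap.sub_apply, LinearMap.comp_apply,
      LinearMap.smul_apply, LinearMap.id_apply] at h1
    rw [Int.cast_smul_eq_zsmul]
    exact h1
  · -- the no-invariants transfer
    intro H k hH m hm
    have hcomp : ∀ n, ((p ^ k : ℕ) : ℤ) • (m : ℕ → O ⊗[ℤ] J) n = 0 := by
      intro n
      refine smul_eq_zero_of_fixed O (p ^ (n + 1)) (finite_torsion_pow J p hfin (n + 1)) H (p ^ k)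
        (fun x hx hfx => hH x ⟨n + 1, hx⟩ hfx) _ ?_ ?_
      · rw [← natCast_pow_smul]
        exact tate_pow_succ_smul m.2 n
      · intro τ hτ
        have h1 := congrArg (fun w : tateEigen (p : O) (tensorOp O T) a => (w : ℕ → O ⊗[ℤ] J) n)
          (hm τ hτ)
        exact h1
    apply Subtype.ext
    funext n
    have h1 := tate_pow_smul m.2 k n
    rw [← h1, natCast_pow_smul]
    exact hcomp (n + k)

end Main

end

end Fermat.Agent.S36.H36

end
-- ===== PACK-END S36/H36/TateInv.lean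

-- ===== PACK-BEGIN S30/H990/Cyclo.lean
section
/-
S30 top glue (helper990): the `p`-adic cyclotomic character with values in a complete local ring
`𝒪` with `p ∈ 𝔪`: Frobenius elements, inertia, complex conjugation, continuity.
-/




set_option autoImplicit false

namespace Fermat.Agent.S30.H990

open Fermat.Agent.S55.H414 Fermat.Agent.S55.Bridge

section PadicHom

variable (p : ℕ) [Fact p.Prime]

/-- Ring homomorphisms from `ℤ_[p]` to a ring killed by a power of `p` are unique. -/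
theorem padicInt_ringHom_ext {R : Type*} [Ring R] (m : ℕ) (hm : (p : R) ^ m = 0)
    (f g : ℤ_[p] →+* R) : f = g := by
  have key : ∀ (h : ℤ_[p] →+* R) (x : ℤ_[p]), h x = ((x.appr m : ℕ) : R) := by
    intro h x
    have := PadicInt.appr_spec m x
    rw [Ideal.mem_span_singleton'] at this
    obtain ⟨y, hy⟩ := this
    have hx : x = y * (p : ℤ_[p]) ^ m + ((x.appr m : ℕ) : ℤ_[p]) := by rw [hy]; ring
    conv_lhs => rw [hx]
    rw [map_add, map_mul, map_pow, map_natCast, map_natCast, hm, mul_zero, zero_add]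
  ext x
  rw [key f, key g]

variable (𝒪 : Type) [CommRing 𝒪] [IsLocalRing 𝒪]
  [IsAdicComplete (IsLocalRing.maximalIdeal 𝒪) 𝒪]

/-- A complete local ring with `p` in its maximal ideal is a `ℤ_[p]`-algebra. -/
theorem exists_padicInt_ringHom (hp : (p : 𝒪) ∈ IsLocalRing.maximalIdeal 𝒪) :
    Nonempty (ℤ_[p] →+* 𝒪) := by
  classical
  have hpow : ∀ n, (p : 𝒪 ⧸ IsLocalRing.maximalIdeal 𝒪 ^ n) ^ n = 0 := by
    intro n
    have : (p : 𝒪 ⧸ IsLocalRing.maximalIdeal 𝒪 ^ n) ^ n
        = Ideal.Quotient.mk (IsLocalRing.maximalIdeal 𝒪 ^ n) ((p : 𝒪) ^ n) := by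
      simp
    rw [this, Ideal.Quotient.eq_zero_iff_mem]
    exact Ideal.pow_mem_pow hp n
  have hzero : ∀ n, ((p ^ n : ℕ) : 𝒪 ⧸ IsLocalRing.maximalIdeal 𝒪 ^ n) = 0 := by
    intro n
    rw [Nat.cast_pow]
    exact hpow n
  let f : (n : ℕ) → ℤ_[p] →+* 𝒪 ⧸ IsLocalRing.maximalIdeal 𝒪 ^ n := fun n =>
    haveI := ringChar.charP (𝒪 ⧸ IsLocalRing.maximalIdeal 𝒪 ^ n)
    (ZMod.castHom ((ringChar.spec _ _).mp (hzero n))
      (𝒪 ⧸ IsLocalRing.maximalIdeal 𝒪 ^ n)).comp (PadicInt.toZModPow n)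
  refine ⟨IsAdicComplete.liftRingHom (IsLocalRing.maximalIdeal 𝒪) f ?_⟩
  intro m n hle
  exact padicInt_ringHom_ext p m (hpow m) _ _

end PadicHom

section CycloZp

variable (p : ℕ) [Fact p.Prime]

/-- The `p`-adic cyclotomic character of `G_ℚ`. -/
noncomputable def cycloZp : GQ →* ℤ_[p]ˣ :=
  (cyclotomicCharacter (AlgebraicClosure ℚ) p).comp
    (MulSemiringAction.toRingAut GQ (AlgebraicClosure ℚ))

theorem cycloZp_spec (σ : GQ) (n : ℕ) :
    σ (zetaBar (p ^ n)) =
      zetaBar (p ^ n) ^ ((PadicInt.toZModPow n) ((cycloZp p σ : ℤ_[p]ˣ) : ℤ_[p])).val :=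
  cyclotomicCharacter.spec p (MulSemiringAction.toRingAut GQ (AlgebraicClosure ℚ) σ)
    (zetaBar (p ^ n)) (zetaBar_spec (p ^ n)).pow_eq_one

/-- The value of the cyclotomic character is determined by the action on the roots of unity
`ζ_{p^n}`. -/
theorem toZModPow_cycloZp (σ : GQ) (n : ℕ) (a : ℕ)
    (h : σ (zetaBar (p ^ n)) = zetaBar (p ^ n) ^ a) :
    (PadicInt.toZModPow n) ((cycloZp p σ : ℤ_[p]ˣ) : ℤ_[p]) = (a : ZMod (p ^ n)) := by
  have h1 := cycloZp_spec p σ n
  rw [h, pow_eq_pow_iff_natCast_eq (zetaBar_spec (p ^ n)), ZMod.natCast_zmod_val] at h1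
  exact h1.symm

theorem cycloZp_eq_of_forall (σ : GQ) (x : ℤ_[p])
    (h : ∀ n, ∃ a : ℕ, σ (zetaBar (p ^ n)) = zetaBar (p ^ n) ^ a ∧
      (a : ZMod (p ^ n)) = PadicInt.toZModPow n x) :
    ((cycloZp p σ : ℤ_[p]ˣ) : ℤ_[p]) = x := by
  rw [← PadicInt.ext_of_toZModPow]
  intro n
  obtain ⟨a, ha, hax⟩ := h n
  rw [toZModPow_cycloZp p σ n a ha, hax]

/-- Frobenius elements at `ℓ ≠ p`. -/
theorem cycloZp_frobenius {ℓ : ℕ} (hℓ : ℓ.Prime) (hℓp : ℓ ≠ p)
    (A : ValuationSubring (AlgebraicClosure ℚ)) (hA : A.LiesOverPrime ℓ) (σ : GQ)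
    (hσ : A.IsFrobeniusAt σ ℓ) : ((cycloZp p σ : ℤ_[p]ˣ) : ℤ_[p]) = (ℓ : ℤ_[p]) := by
  have hp : p.Prime := Fact.out
  apply cycloZp_eq_of_forall
  intro n
  have hNv : A.valuation ((p ^ n : ℕ) : AlgebraicClosure ℚ) = 1 := by
    rw [Nat.cast_pow, map_pow, val_prime_eq_one (A := A) hA hℓ hp hℓp, one_pow]
  refine ⟨ℓ, IsFrobeniusAt_apply_root hσ (NeZero.ne _) hNv (zetaBar_spec (p ^ n)).pow_eq_one, ?_⟩
  rw [map_natCast]

/-- Inertia at `q ≠ p`. -/
theorem cycloZp_inertia {q : ℕ} (hq : q.Prime) (hqp : q ≠ p)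
    (P : ValuationSubring (AlgebraicClosure ℚ)) (hP : P.LiesOverPrime q) (σ : GQ)
    (hσ : σ ∈ P.inertiaSubgroupIn ℚ) : cycloZp p σ = 1 := by
  have hp : p.Prime := Fact.out
  apply Units.ext
  rw [Units.val_one]
  apply cycloZp_eq_of_forall
  intro n
  have hNv : P.valuation ((p ^ n : ℕ) : AlgebraicClosure ℚ) = 1 := by
    rw [Nat.cast_pow, map_pow, val_prime_eq_one (A := P) hP hq hp hqp, one_pow]
  have h1 := inertia_le_fixingSubgroup_cycloLevel (p ^ n) P hNv hσ
  rw [mem_fixingSubgroup_cycloLevel_iff] at h1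
  refine ⟨1, by rw [h1, pow_one], ?_⟩
  rw [Nat.cast_one, map_one]

/-- Complex conjugation inverts roots of unity. -/
theorem complexConjugation_root {N : ℕ} (hN : N ≠ 0) {z : AlgebraicClosure ℚ} (hz : z ^ N = 1) :
    complexConjugation z = z⁻¹ := by
  apply complexEmbedding.toRingHom.injective
  show complexEmbedding (complexConjugation z) = complexEmbedding z⁻¹
  rw [complexEmbedding_complexConjugation, map_inv₀]
  have h1 : (complexEmbedding z) ^ N = 1 := by rw [← map_pow, hz, map_one]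
  exact (Complex.inv_eq_conj (Complex.norm_eq_one_of_pow_eq_one h1 hN)).symm

/-- Complex conjugation. -/
theorem cycloZp_complexConjugation : cycloZp p complexConjugation = -1 := by
  have hp : p.Prime := Fact.out
  apply Units.ext
  rw [Units.val_neg, Units.val_one]
  apply cycloZp_eq_of_forall
  intro n
  have hz := (zetaBar_spec (p ^ n)).pow_eq_one
  have hpos : 0 < p ^ n := pos_of_ne_zero (NeZero.ne _)
  refine ⟨p ^ n - 1, ?_, ?_⟩
  · rw [complexConjugation_root (NeZero.ne (p ^ n)) hz]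
    apply inv_eq_of_mul_eq_one_right
    rw [← pow_succ', Nat.sub_add_cancel hpos, hz]
  · rw [Nat.cast_sub hpos, Nat.cast_one, ZMod.natCast_self, zero_sub, map_neg, map_one]

/-- Continuity. -/
theorem cycloZp_sub_one_mem (n : ℕ) (σ : GQ) (h : ∀ x ∈ cycloLevel (p ^ n), σ x = x) :
    ((cycloZp p σ : ℤ_[p]ˣ) : ℤ_[p]) - 1 ∈ Ideal.span {(p : ℤ_[p]) ^ n} := by
  rw [← PadicInt.ker_toZModPow, RingHom.mem_ker, map_sub, map_one, sub_eq_zero]
  have h1 : σ (zetaBar (p ^ n)) = zetaBar (p ^ n) ^ 1 := by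
    rw [pow_one]
    exact h _ (zetaBar_mem_cycloLevel (p ^ n))
  rw [toZModPow_cycloZp p σ n 1 h1, Nat.cast_one]

end CycloZp

section Cyclo

variable (p : ℕ) [Fact p.Prime] (𝒪 : Type) [CommRing 𝒪] [IsLocalRing 𝒪]
  [IsAdicComplete (IsLocalRing.maximalIdeal 𝒪) 𝒪]

/-- The `p`-adic cyclotomic character with values in `𝒪`. -/
theorem exists_cyclo (hp : (p : 𝒪) ∈ IsLocalRing.maximalIdeal 𝒪) :
    ∃ d : GQ →* 𝒪ˣ,
      (∀ ℓ : ℕ, ℓ.Prime → ℓ ≠ p → ∀ A : ValuationSubring (AlgebraicClosure ℚ),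
        A.LiesOverPrime ℓ → ∀ σ : GQ, A.IsFrobeniusAt σ ℓ → ((d σ : 𝒪ˣ) : 𝒪) = (ℓ : 𝒪)) ∧
      (∀ q : ℕ, q.Prime → q ≠ p → ∀ P : ValuationSubring (AlgebraicClosure ℚ),
        P.LiesOverPrime q → ∀ σ ∈ P.inertiaSubgroupIn ℚ, d σ = 1) ∧
      d complexConjugation = -1 ∧
      (∀ (n : ℕ) (σ : GQ), (∀ x ∈ cycloLevel (p ^ n), σ x = x) →
        ((d σ : 𝒪ˣ) : 𝒪) - 1 ∈ IsLocalRing.maximalIdeal 𝒪 ^ n) := by
  obtain ⟨φ⟩ := exists_padicInt_ringHom p 𝒪 hp
  refine ⟨(Units.map (φ : ℤ_[p] →* 𝒪)).comp (cycloZp p), ?_, ?_, ?_, ?_⟩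
  · intro ℓ hℓ hℓp A hA σ hσ
    show φ ((cycloZp p σ : ℤ_[p]ˣ) : ℤ_[p]) = (ℓ : 𝒪)
    rw [cycloZp_frobenius p hℓ hℓp A hA σ hσ, map_natCast]
  · intro q hq hqp P hP σ hσ
    rw [MonoidHom.comp_apply, cycloZp_inertia p hq hqp P hP σ hσ, map_one]
  · rw [MonoidHom.comp_apply, cycloZp_complexConjugation]
    apply Units.ext
    show φ ((-1 : ℤ_[p]ˣ) : ℤ_[p]) = ((-1 : 𝒪ˣ) : 𝒪)
    rw [Units.val_neg, Units.val_one, Units.val_neg, Units.val_one, map_neg, map_one]
  · intro n σ h
    have h1 := cycloZp_sub_one_mem p n σ h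
    rw [Ideal.mem_span_singleton'] at h1
    obtain ⟨y, hy⟩ := h1
    show φ ((cycloZp p σ : ℤ_[p]ˣ) : ℤ_[p]) - 1 ∈ IsLocalRing.maximalIdeal 𝒪 ^ n
    have : φ ((cycloZp p σ : ℤ_[p]ˣ) : ℤ_[p]) - 1 = φ y * (p : 𝒪) ^ n := by
      rw [← map_one φ, ← map_sub, ← hy, map_mul, map_pow, map_natCast]
    rw [this]
    exact Ideal.mul_mem_left _ _ (Ideal.pow_mem_pow hp n)

end Cyclo

end Fermat.Agent.S30.H990

end
-- ===== PACK-END S30/H990/Cyclo.lean

-- ===== PACK-BEGIN Ribet/H801/PushPic0.lean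
section
/-
RIBET / W-DEG (helper801), part 1 (generic, Prelude language):
the push-forward `a_* : Pic0 K F₁ →+ Pic0 K F` along an integral map `a : F →ₐ[K] F₁` of function
fields with norm formula, its equivariance under semilinear automorphisms, and its commutation
with correspondences:

      a_* ∘ (ψ₁_* φ₁^*) = (ψ_* φ^*) ∘ a_*

for a commutative diagram `a' ∘ φ = φ₁ ∘ a`, `a' ∘ ψ = ψ₁ ∘ a` whose `φ`-square satisfies base change
(helper818's `pullback_pushforward_eq`).
-/






set_option autoImplicit false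
set_option linter.style.haveILetI false

noncomputable section

namespace Fermat.Agent.Ribet.H801

open AlgebraicCurve Fermat.Agent.S37.H818 Fermat.Agent.S29.H801

variable {K F F₁ G G₁ : Type*} [Field K] [Field F] [Field F₁] [Field G] [Field G₁]
  [Algebra K F] [Algebra K F₁] [Algebra K G] [Algebra K G₁]

section Def

variable (a : F →ₐ[K] F₁) (ha : a.toRingHom.IsIntegral)

/-- Push-forward of degree-zero divisors along `a`. -/
def pushDegZero :
    Divisor.degZero (K := K) (F := F₁) →+ Divisor.degZero (K := K) (F := F) :=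
  ((Divisor.pushforwardAlong a ha).domRestrict
    (Divisor.degZero (K := K) (F := F₁))).codRestrict _
    (fun D => Divisor.pushforwardAlong_mem_degZero a ha D.2)

@[simp]
theorem coe_pushDegZero (D : Divisor.degZero (K := K) (F := F₁)) :
    (pushDegZero a ha D : Divisor K F) = Divisor.pushforwardAlong a ha (D : Divisor K F₁) :=
  rfl

variable (hfin : FiniteAlong K a) (hN : NormFormulaAlong K a hfin)

/-- **Push-forward on `Pic0`** along `a`. -/
def pushPic0 : Pic0 K F₁ →+ Pic0 K F :=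
  QuotientAddGroup.map _ _ (pushDegZero a ha) (by
    rintro ⟨D, hD0⟩ hD
    simp only [AddSubgroup.mem_addSubgroupOf] at hD ⊢
    exact Divisor.isPrincipal_pushforwardAlong a ha hfin hN hD)

theorem pushPic0_mk (D : Divisor.degZero (K := K) (F := F₁)) :
    pushPic0 a ha hfin hN (Pic0.mk D) = Pic0.mk (pushDegZero a ha D) :=
  rfl

end Def

section Smul

variable (a : F →ₐ[K] F₁) (ha : a.toRingHom.IsIntegral)
  (hfin : FiniteAlong K a) (hN : NormFormulaAlong K a hfin)
  {g : SemilinearAut K F} {g' : SemilinearAut K F₁}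

/-- The push-forward on `Pic0` commutes with intertwined semilinear automorphisms. -/
theorem pushPic0_smul (h : SemilinearAut.IntertwinesAlong (a : F →+* F₁) g g')
    (x : Pic0 K F₁) :
    pushPic0 a ha hfin hN (g' • x) = g • pushPic0 a ha hfin hN x := by
  obtain ⟨D, rfl⟩ := Pic0.mk_surjective x
  rw [SemilinearAut.pic0_smul_mk, pushPic0_mk, pushPic0_mk, SemilinearAut.pic0_smul_mk]
  refine congrArg Pic0.mk (Subtype.ext ?_)
  rw [coe_pushDegZero, SemilinearAut.coe_degZeroSMulHom, SemilinearAut.coe_degZeroSMulHom,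
    coe_pushDegZero]
  exact Fermat.Agent.S29.H571.pushforwardAlong_smul a ha h (D : Divisor K F₁)

end Smul

section Correspondence

variable (a : F →ₐ[K] F₁) (φ ψ : F →ₐ[K] G) (φ₁ ψ₁ : F₁ →ₐ[K] G₁) (a' : G →ₐ[K] G₁)
  (ha : a.toRingHom.IsIntegral) (hφ : φ.toRingHom.IsIntegral) (hψ : ψ.toRingHom.IsIntegral)
  (hφ₁ : φ₁.toRingHom.IsIntegral) (hψ₁ : ψ₁.toRingHom.IsIntegral)
  (ha' : a'.toRingHom.IsIntegral)
  (hsqφ : φ₁.comp a = a'.comp φ) (hsqψ : ψ₁.comp a = a'.comp ψ)

variable [HasPrincipalDivisors K G] [HasPrincipalDivisors K G₁] [HasPrincipalDivisors K F₁]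

include hsqφ hsqψ ha' in
/-- `a_* ∘ (ψ₁_* φ₁^*) = (ψ_* φ^*) ∘ a_*` on divisors. -/
theorem pushforwardAlong_correspondence
    (hfin : FiniteAlong K a) (hN : NormFormulaAlong K a hfin)
    (hfin' : FiniteAlong K a') (hN' : NormFormulaAlong K a' hfin')
    (hnorm : NormCompat a φ a' φ₁) (hLG : HasLocalGenerators a ha) (D : Divisor K F₁) :
    Divisor.pushforwardAlong a ha (Divisor.correspondence φ₁ ψ₁ hφ₁ hψ₁ D) =
      Divisor.correspondence φ ψ hφ hψ (Divisor.pushforwardAlong a ha D) := by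
  have h1 : (ψ₁.comp a).toRingHom.IsIntegral := RingHom.IsIntegral.trans _ _ ha hψ₁
  have h2 : (a'.comp ψ).toRingHom.IsIntegral := RingHom.IsIntegral.trans _ _ hψ ha'
  rw [Divisor.correspondence_apply, Divisor.correspondence_apply,
    pullback_pushforward_eq a φ a' φ₁ ha hφ ha' hφ₁ hsqφ hfin hN hfin' hN' hnorm hLG,
    ← pushforwardAlong_comp a ψ₁ ha hψ₁ h1, ← pushforwardAlong_comp ψ a' hψ ha' h2]
  exact pushforwardAlong_congr hsqψ h1 h2 _

include hsqφ hsqψ ha' in
/-- **`a_*` intertwines the correspondences on `Pic0`.** -/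
theorem pushPic0_correspondence
    (hFI : FundamentalIdentityAlong K φ hφ) (hFI₁ : FundamentalIdentityAlong K φ₁ hφ₁)
    (hfinψ : FiniteAlong K ψ) (hNψ : NormFormulaAlong K ψ hfinψ)
    (hfinψ₁ : FiniteAlong K ψ₁) (hNψ₁ : NormFormulaAlong K ψ₁ hfinψ₁)
    (hfin : FiniteAlong K a) (hN : NormFormulaAlong K a hfin)
    (hfin' : FiniteAlong K a') (hN' : NormFormulaAlong K a' hfin')
    (hnorm : NormCompat a φ a' φ₁) (hLG : HasLocalGenerators a ha) (x : Pic0 K F₁) :
    pushPic0 a ha hfin hN (Pic0.correspondence φ₁ ψ₁ hφ₁ hψ₁ hFI₁ hfinψ₁ hNψ₁ x) =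
      Pic0.correspondence φ ψ hφ hψ hFI hfinψ hNψ (pushPic0 a ha hfin hN x) := by
  obtain ⟨D, rfl⟩ := Pic0.mk_surjective x
  rw [Pic0.correspondence_mk, pushPic0_mk, pushPic0_mk, Pic0.correspondence_mk]
  congr 1
  apply Subtype.ext
  simp only [Pic0.coe_degZeroCorrespondence, coe_pushDegZero]
  exact pushforwardAlong_correspondence a φ ψ φ₁ ψ₁ a' ha hφ hψ hφ₁ hψ₁ ha' hsqφ hsqψ
    hfin hN hfin' hN' hnorm hLG D

end Correspondence

end Fermat.Agent.Ribet.H801

end

end
-- ===== PACK-END Ribet/H801/PushPic0.lean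

-- ===== PACK-BEGIN Lib/HI/H864/RelAbstract.lean
section



/-!
# Lib / HI (helper864): places over a principal maximal ideal, abstract form

`R ⊆ S` Dedekind domains (`R` any domain for the first part), `S` finite over `R`, `F = Frac S`,
`p = (τ)` a maximal ideal of `R`.  The places `v` of `F / K` whose valuation ring contains `R` and
with `0 < v(τ)` are exactly the places `placeOf q` attached to the primes `q` of `S` over `p`.
Consequences: sums over these places are sums over `p.primesOver S`.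
-/

set_option autoImplicit false
set_option linter.unusedSectionVars false
set_option linter.style.haveILetI false
set_option linter.unusedVariables false

noncomputable section

open AlgebraicCurve IsDedekindDomain

namespace Fermat.Agent.Lib.HI.H864

open Fermat.Agent.S24 Fermat.Agent.S24.H864

section Rel

variable {K F : Type*} [Field K] [Field F] [Algebra K F]
variable {S : Type*} [CommRing S] [IsDedekindDomain S] [Algebra S F] [IsFractionRing S F]
  [Algebra K S] [IsScalarTower K S F]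
variable {R : Type*} [CommRing R] [IsDomain R] [Algebra R S] [Algebra R F] [IsScalarTower R S F]
  [Module.Finite R S]
variable (p : Ideal R) [hpmax : p.IsMaximal] (τ : R)

/-- the place of `F` attached to a prime of `S` over `p` -/
def placeOf (hp : p = Ideal.span {τ}) (hτ : τ ≠ 0)
    (hinj : Function.Injective (algebraMap R S)) (q : p.primesOver S) : Place K F :=
  Place.ofHeightOneSpectrum (K := K) (wOf p τ hp hτ hinj q)

omit hpmax [Module.Finite R S] in
theorem placeOf_injective (hp : p = Ideal.span {τ}) (hτ : τ ≠ 0)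
    (hinj : Function.Injective (algebraMap R S)) :
    Function.Injective (placeOf (K := K) (F := F) p τ hp hτ hinj) := by
  intro q q' h
  have h1 : wOf p τ hp hτ hinj q = wOf p τ hp hτ hinj q' :=
    ofHeightOneSpectrum_injective (K := K) (F := F) h
  exact Subtype.ext (congrArg HeightOneSpectrum.asIdeal h1)

omit hpmax [Module.Finite R S] in
theorem ord_placeOf_tau (hp : p = Ideal.span {τ}) (hτ : τ ≠ 0)
    (hinj : Function.Injective (algebraMap R S)) (q : p.primesOver S) :
    (placeOf (K := K) (F := F) p τ hp hτ hinj q).ord (algebraMap R F τ)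
      = (q.1.ramificationIdx R : ℤ) :=
  ord_wOf p τ hp hτ hinj q

omit hpmax [Module.Finite R S] in
theorem ord_placeOf_algebraMap (hp : p = Ideal.span {τ}) (hτ : τ ≠ 0)
    (hinj : Function.Injective (algebraMap R S)) (q : p.primesOver S) {a : S} (ha : a ≠ 0) :
    (placeOf (K := K) (F := F) p τ hp hτ hinj q).ord (algebraMap S F a)
      = (multiplicity q.1 (Ideal.span {a}) : ℤ) :=
  ord_ofHeightOneSpectrum_algebraMap (K := K) (F := F) (wOf p τ hp hτ hinj q) ha

omit hpmax [Module.Finite R S] in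
theorem algebraMap_mem_placeOf (hp : p = Ideal.span {τ}) (hτ : τ ≠ 0)
    (hinj : Function.Injective (algebraMap R S)) (q : p.primesOver S) (a : S) :
    algebraMap S F a ∈ (placeOf (K := K) (F := F) p τ hp hτ hinj q).toValuationSubring := by
  rw [placeOf, Place.ofHeightOneSpectrum_toValuationSubring, Valuation.mem_valuationSubring_iff]
  exact HeightOneSpectrum.valuation_le_one _ a

theorem exists_placeOf_eq (hp : p = Ideal.span {τ}) (hτ : τ ≠ 0)
    (hinj : Function.Injective (algebraMap R S)) (v : Place K F)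
    (hv : 0 < v.ord (algebraMap R F τ))
    (hR : ∀ r : R, algebraMap R F r ∈ v.toValuationSubring) :
    ∃ q : p.primesOver S, placeOf (K := K) (F := F) p τ hp hτ hinj q = v := by
  have hτ' : algebraMap R S τ ≠ 0 := fun h => hτ (hinj (by rw [h, map_zero]))
  have hS := algebraMap_mem_of_base (S := S) v hR
  have hv' : 0 < v.ord (algebraMap S F (algebraMap R S τ)) := by
    rwa [← IsScalarTower.algebraMap_apply R S F]
  obtain ⟨w, hw, hwq⟩ := exists_heightOneSpectrum_of_place v hS hτ' hv'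
  have hle : p ≤ w.asIdeal.under R := by
    rw [hp, Ideal.span_singleton_le_iff_mem, Ideal.under_def, Ideal.mem_comap, hwq]
    exact (mem_primeOfPlace v hS hτ').mpr hv'
  have hne : w.asIdeal.under R ≠ ⊤ := (Ideal.IsPrime.under R w.asIdeal).ne_top
  have hq : w.asIdeal ∈ p.primesOver S := ⟨w.isPrime, ⟨hpmax.eq_of_le hne hle⟩⟩
  refine ⟨⟨w.asIdeal, hq⟩, ?_⟩
  rw [← hw]
  show Place.ofHeightOneSpectrum (K := K) (wOf p τ hp hτ hinj ⟨w.asIdeal, hq⟩) = _
  congr 1

/-- The places over `p` are the image of `placeOf`. -/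
theorem image_placeOf [Fintype (p.primesOver S)] [DecidableEq (Place K F)]
    (hp : p = Ideal.span {τ}) (hτ : τ ≠ 0)
    (hinj : Function.Injective (algebraMap R S))
    (s : Finset (Place K F))
    (hs : ∀ v, v ∈ s ↔ (0 < v.ord (algebraMap R F τ) ∧
      ∀ r : R, algebraMap R F r ∈ v.toValuationSubring)) :
    Finset.univ.image (placeOf (K := K) (F := F) p τ hp hτ hinj) = s := by
  ext v
  rw [Finset.mem_image, hs]
  constructor
  · rintro ⟨q, -, rfl⟩
    refine ⟨?_, fun r => ?_⟩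
    · rw [ord_placeOf_tau]
      exact_mod_cast Ideal.ramificationIdx_pos q.1 R
    · rw [IsScalarTower.algebraMap_apply R S F]
      exact algebraMap_mem_placeOf p τ hp hτ hinj q _
  · rintro ⟨hv, hR⟩
    obtain ⟨q, hq⟩ := exists_placeOf_eq p τ hp hτ hinj v hv hR
    exact ⟨q, Finset.mem_univ _, hq⟩

/-- Sums over the places over `p` are sums over `p.primesOver S`. -/
theorem sum_places_eq_sum_primesOver [Fintype (p.primesOver S)]
    (hp : p = Ideal.span {τ}) (hτ : τ ≠ 0)
    (hinj : Function.Injective (algebraMap R S))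
    (s : Finset (Place K F))
    (hs : ∀ v, v ∈ s ↔ (0 < v.ord (algebraMap R F τ) ∧
      ∀ r : R, algebraMap R F r ∈ v.toValuationSubring))
    (h : Place K F → ℤ) :
    ∑ v ∈ s, h v = ∑ q : p.primesOver S, h (placeOf (K := K) (F := F) p τ hp hτ hinj q) := by
  classical
  rw [← image_placeOf p τ hp hτ hinj s hs,
    Finset.sum_image (fun a _ b _ hab => placeOf_injective p τ hp hτ hinj hab)]

section Main

variable [IsAlgClosed K] [Algebra K R] [IsScalarTower K R S] [Module.Flat R S]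

/-- **Relative fundamental identity, abstract form.** -/
theorem sum_ord_tau_eq_finrank
    (hp : p = Ideal.span {τ}) (hτ : τ ≠ 0) (hinj : Function.Injective (algebraMap R S))
    (hres : ∀ r : R, ∃ c : K, r - algebraMap K R c ∈ p)
    (s : Finset (Place K F))
    (hs : ∀ v, v ∈ s ↔ (0 < v.ord (algebraMap R F τ) ∧
      ∀ r : R, algebraMap R F r ∈ v.toValuationSubring)) :
    ∑ v ∈ s, v.ord (algebraMap R F τ) = (Module.finrank R S : ℤ) := by
  classical
  haveI : Fintype (p.primesOver S) := (Algebra.QuasiFinite.finite_primesOver p).fintype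
  have hsum := Ideal.sum_ramification_inertia_eq_finrank p S
  rw [sum_places_eq_sum_primesOver p τ hp hτ hinj s hs, ← hsum]
  push_cast
  refine Finset.sum_congr rfl fun q _ => ?_
  rw [ord_placeOf_tau, inertiaDeg_eq_one p hres q, Nat.cast_one, mul_one]

end Main

end Rel

section Norm

variable {K F : Type*} [Field K] [Field F] [Algebra K F]
variable {S : Type*} [CommRing S] [IsDedekindDomain S] [Algebra S F] [IsFractionRing S F]
  [Algebra K S] [IsScalarTower K S F]
variable {R : Type*} [CommRing R] [IsDedekindDomain R] [Algebra R S] [Algebra R F]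
  [IsScalarTower R S F] [Module.Finite R S] [Module.IsTorsionFree R S]
  [PerfectField (FractionRing R)]
variable [IsAlgClosed K] [Algebra K R] [IsScalarTower K R S]
variable (p : Ideal R) [hpmax : p.IsMaximal] (τ : R)

/-- **Norm formula, abstract form**: the sum of the orders of `a ∈ S` at the places over `p`
is the multiplicity of `p` in the ideal generated by the norm of `a`. -/
theorem sum_ord_eq_multiplicity_intNorm
    (hp : p = Ideal.span {τ}) (hτ : τ ≠ 0) (hinj : Function.Injective (algebraMap R S))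
    (hres : ∀ r : R, ∃ c : K, r - algebraMap K R c ∈ p)
    (s : Finset (Place K F))
    (hs : ∀ v, v ∈ s ↔ (0 < v.ord (algebraMap R F τ) ∧
      ∀ r : R, algebraMap R F r ∈ v.toValuationSubring))
    {a : S} (ha : a ≠ 0) :
    ∑ v ∈ s, v.ord (algebraMap S F a)
      = (multiplicity p (Ideal.span {Algebra.intNorm R S a}) : ℤ) := by
  classical
  haveI : Fintype (p.primesOver S) := (Algebra.QuasiFinite.finite_primesOver p).fintype
  have hp0 : p ≠ ⊥ := by
    rw [hp, Ne, Ideal.span_singleton_eq_bot]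
    exact hτ
  have hI : Ideal.span {a} ≠ (⊥ : Ideal S) := by
    rw [Ne, Ideal.span_singleton_eq_bot]
    exact ha
  rw [sum_places_eq_sum_primesOver p τ hp hτ hinj s hs, ← Ideal.relNorm_singleton,
    multiplicity_relNorm_eq_sum p hp0 _ hI]
  push_cast
  refine Finset.sum_congr rfl fun q _ => ?_
  rw [ord_placeOf_algebraMap p τ hp hτ hinj q ha, inertiaDeg_eq_one p hres q, Nat.cast_one,
    one_mul]

end Norm

end Fermat.Agent.Lib.HI.H864

end
end
-- ===== PACK-END Lib/HI/H864/RelAbstract.lean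

-- ===== PACK-BEGIN S28/H25/Theta.lean
section





/-!
# [A-θ] The `θ`-identity `(θ j)⁶ = Δ · j⁴ · (j - 1728)³` in `ℤ((q))` (helper25)

Unconditional, in the exact shape of the captain skeleton
(`Fermat.Agent.S28.thetaL`, `Fermat.Agent.S28.deltaL`, Prelude `jqModC`).
-/

set_option autoImplicit false

open UpperHalfPlane hiding I
open ModularCurve HahnSeries

noncomputable section

namespace Fermat.Agent.S28.H25

/-- Bridge B2: `qExpansion 1 Δ = q ∏ (1 - qⁿ)²⁴` (from helper685's eta bridge). -/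
theorem deltaBridge : DeltaBridge := by
  have h1 : Fermat.Agent.S28.H685.HasQExp 1 (fun τ => ModularForm.discriminant τ)
      (PowerSeries.X * Fermat.Agent.S28.H685.dedekindEtaUnitC) :=
    (Fermat.Agent.S28.H685.HasQExp.X.mul
      Fermat.Agent.S28.H685.hasQExp_dedekindEtaUnitC).congr_fun
      (fun τ => (Fermat.Agent.S28.H685.discriminant_eq_etaC τ).symm)
  have h2 : Fermat.Agent.S28.H685.HasQExp 1 (fun τ => ModularForm.discriminant τ)
      (qExpansion 1 ModularForm.discriminant) := by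
    intro τ
    exact ModularForm.hasSum_qExpansion (discForm) one_pos
      one_mem_strictPeriods_SL τ
  exact h2.unique one_pos h1

theorem thetaL_eq_thetaLaurent (R : Type*) [CommRing R] (f : LaurentSeries R) :
    Fermat.Agent.S28.thetaL R f = thetaLaurent R f := rfl

theorem deltaL_int_eq : Fermat.Agent.S28.deltaL ℤ = deltaLaurentInt := by
  have h : dedekindEtaUnit.map (Int.castRingHom ℤ) = dedekindEtaUnit := by
    ext n
    simp
  rw [Fermat.Agent.S28.deltaL, deltaLaurentInt, h]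

/-- **[A-θ]** `(θ j)⁶ = Δ · j⁴ · (j - 1728)³` in `ℤ((q))`. -/
theorem theta_identity :
    (Fermat.Agent.S28.thetaL ℤ (jqModC ℤ)) ^ 6 =
      Fermat.Agent.S28.deltaL ℤ * (jqModC ℤ) ^ 4 * (jqModC ℤ - 1728) ^ 3 := by
  rw [thetaL_eq_thetaLaurent, deltaL_int_eq]
  exact theta_identity_laurent deltaBridge

end Fermat.Agent.S28.H25

end
end
-- ===== PACK-END S28/H25/Theta.lean

-- ===== PACK-BEGIN A2/H12/GSpec.lean
section



/-!
# Cell A2 — route G: the hub definitions and leaf conclusions of the ALG assembly (helper12)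

Definitions only (plus trivial lemmas), no `sorry`.  See `GAsm.lean` for the assembly theorem
`algG` and `origin/helper12:coord/A2-wallG.md` for the plan.

Setting: `R` the base ring (a DVR in the application), `w : R` the uniformiser, `F` the function
field, `x : F` the coordinate, `L ⊇ F` a cover.  Charts of any field `K ⊇ R[x]` are the
`S18.H138.chart R {x}`, `chart R {x⁻¹}`, `chart R {x, x⁻¹}`.

* `IsSheet w x W`    : the valuation subring `W` of `K` extends the Gauss valuation of `R[x]`.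
* `SplitAt`, `HorDiv`, `IsKummerSplit` : Kummer covers `L = F(g_i^{1/m})` with `m ∣ div g_i` on the
  generic fibre and `g_i` an `m`-th power in the residue field of every sheet of `F`.
* `SheetsConclusion`, `RedConclusion`, `ConstConclusion`, `CountConclusion`, `CoverConclusion` :
  the conclusions of the leaves `SHEETS`, `RED`, `CONST`, `COUNT`, `COVER`.
-/

set_option autoImplicit false

namespace Fermat.Agent.A2.H12

open Polynomial
open Fermat.Agent.S18.H138 (chart baseField)

universe u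

section Hub

variable {R : Type u} [CommRing R] {K : Type u} [Field K] [Algebra R K]

/-- `W` is a *sheet* of `K`: a valuation subring containing `R[x]` in which `w` is a non-unit and
which induces the Gauss valuation on `R[x]` (a polynomial in `x` with a coefficient not divisible
by `w` is a unit of `W`). -/
def IsSheet (w : R) (x : K) (W : ValuationSubring K) : Prop :=
  (∀ r : R, algebraMap R K r ∈ W) ∧ x ∈ W ∧ algebraMap R K w ∈ W.nonunits ∧
    ∀ P : R[X], (∃ i, ¬ w ∣ P.coeff i) → (aeval x P)⁻¹ ∈ W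

end Hub

section Cover

variable {R : Type u} [CommRing R] {F : Type u} [Field F] [Algebra R F]

/-- `g` is an `m`-th power in the residue field of `V` (and a unit of `V`). -/
def SplitAt (m : ℕ) (V : ValuationSubring F) (g : F) : Prop :=
  ∃ u : F, u ∈ V ∧ u⁻¹ ∈ V ∧ g - u ^ m ∈ V.nonunits

variable (R) in
/-- `m ∣ div g` on the generic fibre: at every discrete valuation ring of `F` containing
`Frac R`, `g` is a unit times an `m`-th power. -/
def HorDiv (m : ℕ) (g : F) : Prop :=
  ∀ V : ValuationSubring F, IsDiscreteValuationRing V →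
    (∀ r : R, r ≠ 0 → algebraMap R F r ∈ V ∧ (algebraMap R F r)⁻¹ ∈ V) →
    ∃ h u : F, h ≠ 0 ∧ u ∈ V ∧ u⁻¹ ∈ V ∧ g = u * h ^ m

variable (L : Type u) [Field L] [Algebra F L] [Algebra R L] [IsScalarTower R F L]

/-- `L / F` is a finite Galois Kummer cover generated by `m`-th roots of elements `g i` of `F`
with `m ∣ div (g i)` on the generic fibre and split at every sheet of `F`. -/
structure IsKummerSplit (w : R) (x : F) (m : ℕ) : Prop where
  finite : FiniteDimensional F L
  galois : IsGalois F L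
  gen : ∃ (n : ℕ) (y : Fin n → L) (g : Fin n → F),
    (∀ i, g i ≠ 0) ∧ (∀ i, y i ^ m = algebraMap F L (g i)) ∧
    IntermediateField.adjoin F (Set.range y) = ⊤ ∧
    (∀ i, HorDiv R m (g i)) ∧ ∀ i, ∀ V : ValuationSubring F, IsSheet w x V → SplitAt m V (g i)

/-- Conclusion of leaf **SHEETS**. -/
structure SheetsConclusion (w : R) (x : F) : Prop where
  /-- finitely many sheets -/
  finite : {W : ValuationSubring L | IsSheet w (algebraMap F L x) W}.Finite
  /-- every sheet of `F` extends to `L` -/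
  exists_over : ∀ V : ValuationSubring F, IsSheet w x V →
    ∃ W : ValuationSubring L, IsSheet w (algebraMap F L x) W ∧ W.comap (algebraMap F L) = V
  /-- `w` is a uniformiser of every sheet of `L` -/
  unif : ∀ W : ValuationSubring L, IsSheet w (algebraMap F L x) W →
    ∀ a ∈ W.nonunits, ∃ b ∈ W, a = algebraMap R L w * b
  /-- residue degree one -/
  resdeg : ∀ W : ValuationSubring L, IsSheet w (algebraMap F L x) W →
    ∀ b ∈ W, ∃ c : F, b - algebraMap F L c ∈ W.nonunits
  /-- the Galois group is transitive on the sheets over a sheet of `F` -/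
  trans : ∀ W W' : ValuationSubring L, IsSheet w (algebraMap F L x) W →
    IsSheet w (algebraMap F L x) W' → W.comap (algebraMap F L) = W'.comap (algebraMap F L) →
    ∃ σ : L ≃ₐ[F] L, ∀ b, b ∈ W ↔ σ b ∈ W'
  /-- the decomposition groups are trivial -/
  free : ∀ W : ValuationSubring L, IsSheet w (algebraMap F L x) W →
    ∀ σ : L ≃ₐ[F] L, (∀ b, b ∈ W ↔ σ b ∈ W) → σ = 1

/-- Conclusion of leaf **RED**: the special fibre of each of the three charts of `L` is reduced
and all its components are sheets. -/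
def RedConclusion (w : R) (x : F) : Prop :=
  ∀ T : Set L, T = {algebraMap F L x} ∨ T = {(algebraMap F L x)⁻¹} ∨
      T = {algebraMap F L x, (algebraMap F L x)⁻¹} →
    ∀ b ∈ chart R T, (∀ W : ValuationSubring L, IsSheet w (algebraMap F L x) W → b ∈ W.nonunits) →
      ∃ t ∈ chart R T, b = algebraMap R L w * t

/-- Conclusion of leaf **CONST**: `R` is integrally closed in `L` and `L` is finite over
`Frac R (x)`. -/
structure ConstConclusion (x : F) : Prop where
  closed : ∀ y : L, IsIntegral R y → y ∈ Set.range (algebraMap R L)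
  finite : FiniteDimensional (baseField R (algebraMap F L x)) L

/-- **COUNT** for one chart `T`: through a closed point of the chart passes at most one sheet
of each colour (colour = the sheet of `F` below). -/
def CountAt (w : R) (x : F) (T : Set L) : Prop :=
  ∀ 𝔫 : Ideal (chart R T), 𝔫.IsMaximal → ∀ W W' : ValuationSubring L,
    IsSheet w (algebraMap F L x) W → IsSheet w (algebraMap F L x) W' →
    W.comap (algebraMap F L) = W'.comap (algebraMap F L) →
    (∀ c : chart R T, (c : L) ∈ W.nonunits → c ∈ 𝔫) →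
    (∀ c : chart R T, (c : L) ∈ W'.nonunits → c ∈ 𝔫) → W = W'

/-- Conclusion of leaf **COUNT**. -/
def CountConclusion (w : R) (x : F) : Prop :=
  CountAt L w x {algebraMap F L x} ∧ CountAt L w x {(algebraMap F L x)⁻¹}

end Cover

section CoverExists

variable {R : Type u} [CommRing R] {F : Type u} [Field F] [Algebra R F]

/-- Conclusion of leaf **COVER**: a Kummer-split cover of `F` containing an `m`-th root of `g`
to which `τ` lifts. -/
def CoverConclusion (w : R) (x : F) (m : ℕ) (τ : F ≃+* F) (g : F) : Prop :=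
  ∃ (L : Type u) (_ : Field L) (_ : Algebra F L) (_ : Algebra R L) (_ : IsScalarTower R F L),
    IsKummerSplit L w x m ∧ ∃ (τ' : L ≃+* L) (y : L),
      (∀ f : F, τ' (algebraMap F L f) = algebraMap F L (τ f)) ∧ y ^ m = algebraMap F L g

end CoverExists

end Fermat.Agent.A2.H12

end
-- ===== PACK-END A2/H12/GSpec.lean

-- ===== PACK-BEGIN S24/H117/LocalThm.lean
section




/-!
# S24 / H117 — the local theorem (LT2, LT3)

For `L : LocalData K F C X t` with `[F : E] = #X` (`E ⊆ K(t)`):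

* `exists_placeOf_eq` (LT2): every place `v` of `F/K` with `0 < v.ord t` is induced by one of
  the embeddings `L.σ x`;
* `localThm` (LT3): if moreover `#X ≤ ∑_{v | t} v.ord t`, then the places over `t = 0`
  correspond bijectively to the cycles of `L.perm`, and `v.ord t` is the length of the cycle.
-/

set_option autoImplicit false
set_option linter.style.haveILetI false

noncomputable section

open AlgebraicCurve IntermediateField

namespace Fermat.Agent.S24.H117

variable {K F : Type*} [Field K] [Field F] [Algebra K F] [CharZero K]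
variable {C : Type*} [Field C] {X : Type*} [Finite X]
variable {t : F} (L : LocalData K F C X t)

omit [CharZero K] [Finite X] in
theorem order_leadingCoeff_iterate (x : X) (f : F) (i : ℕ) :
    (L.σ ((L.perm ^ i) x) f).order = (L.σ x f).order ∧
      (L.σ ((L.perm ^ i) x) f).leadingCoeff
        = (L.ζ ^ (L.σ x f).order) ^ i * (L.σ x f).leadingCoeff := by
  induction i with
  | zero => simp
  | succ n ih =>
    rw [pow_succ', Equiv.Perm.mul_apply]
    refine ⟨by rw [L.σ_perm_order, ih.1], ?_⟩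
    rw [L.σ_perm_leadingCoeff, ih.1, ih.2, pow_succ]
    ring

omit [CharZero K] [Finite X] in
/-- The ramification index `e = ord_v t` divides every period of `x` under `perm`. -/
theorem ord_t_dvd_of_pow_apply_eq (x : X) (i : ℕ) (hi : (L.perm ^ i) x = x) :
    (placeOf L x).ord t ∣ (i : ℤ) := by
  obtain ⟨π, hπ0, hπ⟩ := exists_ord_eq_one (placeOf L x)
  have hord : (L.σ x π).order = mult L x := by rw [order_eq, hπ, mul_one]
  have hlc : (L.σ x π).leadingCoeff ≠ 0 :=
    HahnSeries.leadingCoeff_ne_zero.mpr ((map_ne_zero (L.σ x)).mpr hπ0)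
  have h := (order_leadingCoeff_iterate L x π i).2
  rw [hi, hord, zpow_natCast] at h
  have h1 : (L.ζ ^ mult L x) ^ i = 1 := by
    have : (L.ζ ^ mult L x) ^ i * (L.σ x π).leadingCoeff = 1 * (L.σ x π).leadingCoeff := by
      rw [one_mul]; exact h.symm
    exact mul_right_cancel₀ hlc this
  rw [← pow_mul] at h1
  have h2 : L.m ∣ mult L x * i := (L.hζ.pow_eq_one_iff_dvd _).mp h1
  have h3 : ((mult L x : ℤ) * (placeOf L x).ord t) ∣ (mult L x : ℤ) * i := by
    rw [mult_mul_ord_t]
    exact_mod_cast h2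
  have hk : (mult L x : ℤ) ≠ 0 := by exact_mod_cast (mult_pos L x).ne'
  exact (mul_dvd_mul_iff_left hk).mp h3

variable (E : IntermediateField K F) (hE : E ≤ K⟮t⟯) [FiniteDimensional E F]
  (hrank : Module.finrank E F = Nat.card X)

include hE hrank in
/-- **LT2.** Every place over `t = 0` is induced by one of the embeddings. -/
theorem exists_placeOf_eq (v : Place K F) (hv : 0 < v.ord t) : ∃ x, placeOf L x = v := by
  classical
  by_contra hcon
  push Not at hcon
  haveI : Fintype X := Fintype.ofFinite X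
  have hvs : v ∉ Finset.univ.image (placeOf L) := by
    intro h
    obtain ⟨x, -, hx⟩ := Finset.mem_image.mp h
    exact hcon x hx
  obtain ⟨f, hf1, hf2⟩ := exists_ord_neg_forall_pos v _ hvs
  have hf3 : ∀ x, 0 ≤ ((L.σ x) f).order := fun x =>
    (ord_placeOf_nonneg_iff L x f).mp
      (hf2 _ (Finset.mem_image_of_mem _ (Finset.mem_univ x))).le
  have := ord_nonneg_of_forall_order_nonneg L E hE hrank f hf3 v hv
  omega

include hE hrank in
theorem mem_image_placeOf_iff [Fintype X] [DecidableEq (Place K F)] (v : Place K F) :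
    v ∈ Finset.univ.image (placeOf L) ↔ 0 < v.ord t := by
  constructor
  · intro h
    obtain ⟨x, -, rfl⟩ := Finset.mem_image.mp h
    exact ord_t_pos L x
  · intro h
    obtain ⟨x, rfl⟩ := exists_placeOf_eq L E hE hrank v h
    exact Finset.mem_image_of_mem _ (Finset.mem_univ x)

include L hE hrank in
/-- The set of places over `t = 0` is finite. -/
theorem finite_places_over : {v : Place K F | 0 < v.ord t}.Finite := by
  classical
  haveI : Fintype X := Fintype.ofFinite X
  refine (Finset.univ.image (placeOf L)).finite_toSet.subset ?_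
  intro v hv
  exact (mem_image_placeOf_iff L E hE hrank v).mpr hv

include hE hrank in
/-- **LT3 (local theorem).**  Assume the fundamental inequality `#X ≤ ∑_{v | t} ord_v t`.
Then the places over `t = 0` are in bijection with the cycles of `perm`, the ramification index
of the place induced by `x` is the length of the cycle through `x`, and
`∑_{v | t} ord_v t = #X`. -/
theorem localThm (s : Finset (Place K F)) (hs : ∀ v, v ∈ s ↔ 0 < v.ord t)
    (hsum : (Nat.card X : ℤ) ≤ ∑ v ∈ s, v.ord t) :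
    s.card = numOrbits L.perm ∧
      (∀ x, (Nat.card (MulAction.orbit (Subgroup.zpowers L.perm) x) : ℤ) = (placeOf L x).ord t) ∧
      (∑ v ∈ s, v.ord t = Nat.card X) := by
  classical
  haveI : Fintype X := Fintype.ofFinite X
  have hs' : s = Finset.univ.image (placeOf L) := by
    ext v
    rw [hs, mem_image_placeOf_iff L E hE hrank]
  subst hs'
  have hcast : ∀ v ∈ Finset.univ.image (placeOf L), (((v.ord t).toNat : ℕ) : ℤ) = v.ord t := by
    intro v hv
    exact Int.toNat_of_nonneg ((hs v).mp hv).le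
  have hsumNat : Fintype.card X ≤ ∑ v ∈ Finset.univ.image (placeOf L), (v.ord t).toNat := by
    have : (Nat.card X : ℤ) ≤ ((∑ v ∈ Finset.univ.image (placeOf L), (v.ord t).toNat : ℕ) : ℤ) := by
      rw [Nat.cast_sum, Finset.sum_congr rfl hcast]
      exact hsum
    rw [Nat.card_eq_fintype_card] at this
    exact_mod_cast this
  obtain ⟨h1, h2, h3⟩ := orbit_count_squeeze L.perm (placeOf L) (fun v => (v.ord t).toNat)
    (placeOf_perm L)
    (fun x i hi => by
      have := ord_t_dvd_of_pow_apply_eq L x i hi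
      have hpos := ord_t_pos L x
      exact Int.natCast_dvd_natCast.mp (by rwa [Int.toNat_of_nonneg hpos.le]))
    hsumNat
  refine ⟨by rw [numOrbits, h1], fun x => ?_, ?_⟩
  · rw [h2 x]
    exact Int.toNat_of_nonneg (ord_t_pos L x).le
  · have : ((∑ v ∈ Finset.univ.image (placeOf L), (v.ord t).toNat : ℕ) : ℤ) = Fintype.card X := by
      exact_mod_cast h3
    rw [Nat.cast_sum, Finset.sum_congr rfl hcast] at this
    rw [this, Nat.card_eq_fintype_card]

end Fermat.Agent.S24.H117

end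
end
-- ===== PACK-END S24/H117/LocalThm.lean

-- ===== PACK-BEGIN S29/H395/Strip.lean
section
/-
S29 / layer M / bridge BR, piece NORM — helper395.

Growth lemma: a continuous, `M`-periodic function on `ℍ` of at most exponential growth on
`im τ ≥ 1` has at most exponential growth on every half plane `im τ ≥ c`, `c > 0`.
Consequence: composition with `τ ↦ (a τ + b) / d` preserves exponential growth.
-/



set_option autoImplicit false
set_option linter.style.haveILetI false

noncomputable section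

open UpperHalfPlane
open scoped Real

namespace Fermat.Agent.S29.H395

open Fermat.Agent.S24 Fermat.Agent.S24.H648

theorem periodic_int_of_periodic {F : ℍ → ℂ} {M : ℝ} (hper : ∀ τ : ℍ, F (M +ᵥ τ) = F τ)
    (k : ℤ) (τ : ℍ) : F ((k * M : ℝ) +ᵥ τ) = F τ := by
  induction k using Int.induction_on generalizing τ with
  | zero => simp
  | succ n ih =>
    have : (((n : ℤ) + 1 : ℤ) * M : ℝ) +ᵥ τ = M +ᵥ (((n : ℤ) * M : ℝ) +ᵥ τ) := by
      rw [vadd_vadd]; congr 1; push_cast; ring
    rw [this, hper, ih]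
  | pred n ih =>
    have h1 := hper ((((-(n : ℤ) - 1 : ℤ)) * M : ℝ) +ᵥ τ)
    have : M +ᵥ ((((-(n : ℤ) - 1 : ℤ)) * M : ℝ) +ᵥ τ) = (((-(n : ℤ) : ℤ)) * M : ℝ) +ᵥ τ := by
      rw [vadd_vadd]; congr 1; push_cast; ring
    rw [this] at h1
    rw [← h1, ih]

/-- Boundedness on a horizontal strip `c ≤ im τ ≤ 1` of a continuous periodic function. -/
theorem exists_bound_strip {F : ℍ → ℂ} (hF : Continuous F) {M : ℝ} (hM : 0 < M)
    (hper : ∀ τ : ℍ, F (M +ᵥ τ) = F τ) {c : ℝ} (hc : 0 < c) :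
    ∃ B : ℝ, 0 ≤ B ∧ ∀ τ : ℍ, c ≤ τ.im → τ.im ≤ 1 → ‖F τ‖ ≤ B := by
  -- the compact rectangle
  let K : Set ℂ := Set.Icc (0 : ℝ) M ×ℂ Set.Icc c 1
  have hK : IsCompact K := isCompact_Icc.reProdIm isCompact_Icc
  have hpos : ∀ z ∈ K, 0 < z.im := fun z hz => lt_of_lt_of_le hc hz.2.1
  haveI : CompactSpace K := isCompact_iff_compactSpace.mp hK
  let g : K → ℍ := fun z => ⟨z.1, hpos z.1 z.2⟩
  have hg : Continuous g := by
    rw [UpperHalfPlane.isEmbedding_coe.continuous_iff]
    exact continuous_subtype_val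
  obtain ⟨B, hB⟩ := (isCompact_range (hF.comp hg)).exists_bound_of_continuousOn
    (f := fun w : ℂ => w) continuousOn_id
  refine ⟨max B 0, le_max_right _ _, fun τ h1 h2 => ?_⟩
  -- translate the real part into `[0, M)`
  set k : ℤ := -⌊τ.re / M⌋ with hk
  have hτ' := periodic_int_of_periodic hper k τ
  set τ' : ℍ := ((k * M : ℝ) +ᵥ τ) with hτ'def
  have hre : τ'.re = k * M + τ.re := by rw [hτ'def, UpperHalfPlane.vadd_re]
  have him : τ'.im = τ.im := by rw [hτ'def, UpperHalfPlane.vadd_im]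
  have hfl := Int.floor_le (τ.re / M)
  have hfl' := Int.lt_floor_add_one (τ.re / M)
  have hkc : (k : ℝ) = -(⌊τ.re / M⌋ : ℝ) := by rw [hk]; push_cast; ring
  have h0 : 0 ≤ τ'.re := by
    rw [hre, hkc]
    have : (⌊τ.re / M⌋ : ℝ) * M ≤ τ.re := by
      have := mul_le_mul_of_nonneg_right hfl hM.le
      rwa [div_mul_cancel₀ _ hM.ne'] at this
    linarith
  have h1' : τ'.re ≤ M := by
    rw [hre, hkc]
    have : τ.re < ((⌊τ.re / M⌋ : ℝ) + 1) * M := by
      have := mul_lt_mul_of_pos_right hfl' hM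
      rwa [div_mul_cancel₀ _ hM.ne'] at this
    linarith
  have hmem : (τ' : ℂ) ∈ K := by
    refine ⟨⟨?_, ?_⟩, ⟨?_, ?_⟩⟩
    · simpa using h0
    · simpa using h1'
    · simpa [him] using h1
    · simpa [him] using h2
  have hb := hB (F τ') ⟨⟨(τ' : ℂ), hmem⟩, by
    show F (g ⟨(τ' : ℂ), hmem⟩) = F τ'
    congr 1⟩
  rw [← hτ']
  exact le_trans hb (le_max_left _ _)

/-- Exponential growth on `im τ ≥ c` for every `c > 0`. -/
theorem expGrowth_halfPlane {F : ℍ → ℂ} (hF : Continuous F) {M : ℝ} (hM : 0 < M)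
    (hper : ∀ τ : ℍ, F (M +ᵥ τ) = F τ) (hgr : ExpGrowth F) {c : ℝ} (hc : 0 < c) :
    ∃ (C : ℝ) (m : ℕ), 0 ≤ C ∧
      ∀ τ : ℍ, c ≤ τ.im → ‖F τ‖ ≤ C * Real.exp (2 * π * m * τ.im) := by
  obtain ⟨C0, m, h0⟩ := hgr
  obtain ⟨B, hB0, hB⟩ := exists_bound_strip hF hM hper hc
  refine ⟨max |C0| B, m, le_trans (abs_nonneg _) (le_max_left _ _), fun τ hτ => ?_⟩
  have hexp : 1 ≤ Real.exp (2 * π * m * τ.im) := by
    apply Real.one_le_exp
    have := τ.im_pos
    positivity
  by_cases h1 : 1 ≤ τ.im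
  · calc ‖F τ‖ ≤ C0 * Real.exp (2 * π * m * τ.im) := h0 τ h1
      _ ≤ |C0| * Real.exp (2 * π * m * τ.im) := by
          gcongr; exact le_abs_self _
      _ ≤ max |C0| B * Real.exp (2 * π * m * τ.im) := by
          gcongr; exact le_max_left _ _
  · have := hB τ hτ (le_of_not_ge h1)
    calc ‖F τ‖ ≤ B := this
      _ ≤ max |C0| B := le_max_right _ _
      _ = max |C0| B * 1 := (mul_one _).symm
      _ ≤ max |C0| B * Real.exp (2 * π * m * τ.im) :=
          mul_le_mul_of_nonneg_left hexp (le_trans (abs_nonneg _) (le_max_left _ _))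

theorem infAff_im {a d : ℕ} (ha : 0 < a) (hd : 0 < d) (b : ℤ) (τ : ℍ) :
    (infAff a b d τ).im = a * τ.im / d := by
  have h := congrArg Complex.im (infAff_coe ha hd b τ)
  rw [UpperHalfPlane.coe_im] at h
  rw [h]
  have : ((a : ℂ) * τ + b) / d = (((a : ℝ) : ℂ) * τ + ((b : ℝ) : ℂ)) / ((d : ℝ) : ℂ) := by
    push_cast; rfl
  rw [this, Complex.div_ofReal_im]
  simp

/-- Composition with `τ ↦ (a τ + b) / d` preserves exponential growth (for continuous periodic
functions). -/
theorem expGrowth_comp_infAff {F : ℍ → ℂ} (hF : Continuous F) {M : ℝ} (hM : 0 < M)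
    (hper : ∀ τ : ℍ, F (M +ᵥ τ) = F τ) (hgr : ExpGrowth F) {a d : ℕ} (ha : 0 < a) (hd : 0 < d)
    (b : ℤ) : ExpGrowth (fun τ => F (infAff a b d τ)) := by
  have hc : (0 : ℝ) < (a : ℝ) / d := by positivity
  obtain ⟨C, m, hC, h⟩ := expGrowth_halfPlane hF hM hper hgr hc
  refine ⟨C, m * a, fun τ hτ => ?_⟩
  have him := infAff_im ha hd b τ
  have h1 : (a : ℝ) / d ≤ (infAff a b d τ).im := by
    rw [him]
    have : (a : ℝ) * 1 / d ≤ a * τ.im / d := by gcongr
    simpa using this
  have h2 : (infAff a b d τ).im ≤ a * τ.im := by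
    rw [him]
    have hd1 : (1 : ℝ) ≤ d := by exact_mod_cast hd
    have := τ.im_pos
    exact div_le_self (by positivity) hd1
  calc ‖F (infAff a b d τ)‖ ≤ C * Real.exp (2 * π * m * (infAff a b d τ).im) := h _ h1
    _ ≤ C * Real.exp (2 * π * (m * a : ℕ) * τ.im) := by
        refine mul_le_mul_of_nonneg_left (Real.exp_le_exp.mpr ?_) hC
        push_cast
        have hpi := Real.pi_pos
        have : (2 * π * m) * (infAff a b d τ).im ≤ (2 * π * m) * (a * τ.im) :=
          mul_le_mul_of_nonneg_left h2 (by positivity)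
        linarith

end Fermat.Agent.S29.H395

end

end
-- ===== PACK-END S29/H395/Strip.lean

-- ===== PACK-BEGIN S30/H709/Occ.lean
section



/-!
# S30-OCC: every eigensystem of the Hecke algebra occurs in the period lattice

Main result `exists_adic_eigen_lattice`.  Input: the Hecke-equivariance of the period map
(`PeriodHecke N fac`, a hypothesis) and a ring homomorphism `χ : heckeAlgebra N 2 S →+* A` to an
arbitrary domain `A` (for S30: `A = 𝒪'`; for S29: `A = F` a field of characteristic `p`).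
Output: a lattice of integer-valued parabolic characters `c j : Γ₀(N) → ℤ` (`j : Fin r`), stable
under the cohomological Hecke operators with integer matrices `τ ℓ`, saturated and linearly
independent, and a nonzero vector `w : Fin r → A` such that `v = ∑ j, w j • c j` is an eigenvector
with eigenvalues `χ (T_ℓ)`.
-/

set_option autoImplicit false

noncomputable section

namespace Fermat.Agent.S30.H709

open CongruenceSubgroup ModularCurve ModularCurve.Period
open scoped MatrixGroups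

variable {N : ℕ} [NeZero N]

/-- The class of the period functional `λ_γ` in the period lattice. -/
def perCls (N : ℕ) [NeZero N] (γ : Gamma0 N) : perLattice N :=
  ⟨perFun N γ, perFun_mem_perLattice N γ⟩

theorem perCls_mul (γ δ : Gamma0 N) : perCls N (γ * δ) = perCls N γ + perCls N δ :=
  Subtype.ext (perFun_mul N γ δ)

theorem perCls_one : perCls N 1 = 0 := Subtype.ext (perFun_one N)

theorem perCls_eq_zero_of_trace (γ : Gamma0 N)
    (hγ : ((γ : SL(2, ℤ)) : Matrix (Fin 2) (Fin 2) ℤ).trace ^ 2 = 4) : perCls N γ = 0 :=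
  Subtype.ext (perFun_eq_zero_of_trace N γ hγ)

/-- The classes `perCls γ` generate the period lattice. -/
theorem perCls_induction {P : perLattice N → Prop} (h0 : P 0)
    (hadd : ∀ x y, P x → P y → P (x + y)) (hneg : ∀ x, P x → P (-x))
    (hcls : ∀ γ, P (perCls N γ)) (x : perLattice N) : P x := by
  obtain ⟨x, hx⟩ := x
  induction hx using Submodule.span_induction with
  | mem y hy =>
    obtain ⟨γ, rfl⟩ := hy
    exact hcls γ
  | zero => exact h0
  | add y z hy hz ihy ihz => exact hadd ⟨y, hy⟩ ⟨z, hz⟩ ihy ihz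
  | smul n y hy ihy =>
    have hsm : ∀ (k : ℕ), P (k • (⟨y, hy⟩ : perLattice N)) := by
      intro k
      induction k with
      | zero => rw [zero_smul]; exact h0
      | succ k ih => rw [succ_nsmul]; exact hadd _ _ ih ihy
    have key : P (n • (⟨y, hy⟩ : perLattice N)) := by
      rcases Int.eq_nat_or_neg n with ⟨k, rfl | rfl⟩
      · rw [natCast_zsmul]; exact hsm k
      · rw [neg_smul, natCast_zsmul]; exact hneg _ (hsm k)
    exact key

theorem perRho_perCls {fac : ℕ → Gamma0 N → Multiset (Gamma0 N)}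
    (hPH : PeriodHecke N fac) {S : Set ℕ} (hNS : ∀ q : ℕ, q.Prime → q ∣ N → q ∈ S)
    {ℓ : ℕ} (hℓ : ℓ.Prime) (hℓN : ¬ ℓ ∣ N) (hℓS : ℓ ∉ S) (γ : Gamma0 N) :
    perRho hPH hNS (CuspForm.heckeAlgebra.T hℓ hℓN hℓS) (perCls N γ)
      = ((fac ℓ γ).map (perCls N)).sum := by
  apply Subtype.ext
  have h1 : ((perRho hPH hNS (CuspForm.heckeAlgebra.T hℓ hℓN hℓS) (perCls N γ) : perLattice N) :
      Module.Dual ℂ (CuspForm (Gamma0 N) 2))
      = Module.Dual.transpose (CuspForm.heckeTLin 2 hℓ hℓN) (perFun N γ) := rfl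
  rw [h1, hPH.transpose_perFun hℓ hℓN γ]
  have h2 : ∀ m : Multiset (Gamma0 N),
      (((m.map (perCls N)).sum : perLattice N) : Module.Dual ℂ (CuspForm (Gamma0 N) 2))
        = (m.map (perFun N)).sum := by
    intro m
    induction m using Multiset.induction_on with
    | empty => simp
    | cons a m ih =>
      rw [Multiset.map_cons, Multiset.sum_cons, Submodule.coe_add, ih, Multiset.map_cons,
        Multiset.sum_cons]
      rfl
  rw [h2]

/-- **S30-OCC** (adic `M4a`).  Every ring homomorphism `χ` from the Hecke algebra (away from a set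
`S` containing the primes dividing `N`) to a domain `A` occurs in the lattice of integral parabolic
characters spanned by the period functionals. -/
theorem exists_adic_eigen_lattice {fac : ℕ → Gamma0 N → Multiset (Gamma0 N)}
    (hPH : PeriodHecke N fac) {S : Set ℕ} (hNS : ∀ q : ℕ, q.Prime → q ∣ N → q ∈ S)
    {A : Type*} [CommRing A] [IsDomain A] (χ : CuspForm.heckeAlgebra N 2 S →+* A) :
    ∃ (r : ℕ) (c : Fin r → (Additive (Gamma0 N) →+ ℤ)) (τ : ℕ → Matrix (Fin r) (Fin r) ℤ)
      (w : Fin r → A),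
      (∀ j, IsParabolicHom (Gamma0 N) (c j)) ∧
      (∀ (m : ℤ) (a : Fin r → ℤ),
        (∀ γ : Gamma0 N, m ∣ ∑ j, a j * c j (Additive.ofMul γ)) → ∀ j, m ∣ a j) ∧
      (∀ (ℓ : ℕ) (_ : ℓ.Prime) (_ : ¬ ℓ ∣ N) (_ : ℓ ∉ S) (j : Fin r) (γ : Gamma0 N),
        ((fac ℓ γ).map fun δ => c j (Additive.ofMul δ)).sum
          = ∑ k, τ ℓ j k * c k (Additive.ofMul γ)) ∧
      w ≠ 0 ∧
      ∀ (ℓ : ℕ) (hℓ : ℓ.Prime) (hℓN : ¬ ℓ ∣ N) (hℓS : ℓ ∉ S) (k : Fin r),
        ∑ j, w j * ((τ ℓ j k : ℤ) : A) = χ (CuspForm.heckeAlgebra.T hℓ hℓN hℓS) * w k := by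
  classical
  let b := Module.finBasis ℤ (perLattice N)
  let c : Fin (Module.finrank ℤ (perLattice N)) → (Additive (Gamma0 N) →+ ℤ) := fun j =>
    { toFun := fun γ => b.repr (perCls N (Additive.toMul γ)) j
      map_zero' := by
        rw [toMul_zero, perCls_one, map_zero]
        rfl
      map_add' := fun γ δ => by
        rw [toMul_add, perCls_mul, map_add]
        rfl }
  have hc : ∀ j (γ : Gamma0 N), c j (Additive.ofMul γ) = b.repr (perCls N γ) j := fun _ _ => rfl
  let τ : ℕ → Matrix (Fin (Module.finrank ℤ (perLattice N)))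
      (Fin (Module.finrank ℤ (perLattice N))) ℤ := fun ℓ =>
    if h : ℓ.Prime ∧ ¬ ℓ ∣ N ∧ ℓ ∉ S then
      Matrix.of fun j k => b.repr (perRho hPH hNS (CuspForm.heckeAlgebra.T h.1 h.2.1 h.2.2) (b k)) j
    else 0
  have hτ : ∀ (ℓ : ℕ) (hℓ : ℓ.Prime) (hℓN : ¬ ℓ ∣ N) (hℓS : ℓ ∉ S) (j k),
      τ ℓ j k = b.repr (perRho hPH hNS (CuspForm.heckeAlgebra.T hℓ hℓN hℓS) (b k)) j := by
    intro ℓ hℓ hℓN hℓS j k
    simp only [τ, dif_pos (show ℓ.Prime ∧ ¬ ℓ ∣ N ∧ ℓ ∉ S from ⟨hℓ, hℓN, hℓS⟩), Matrix.of_apply]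
  obtain ⟨w, hw0, hw⟩ := exists_eigen_coeffs (perRho hPH hNS) (perRho_injective hPH hNS) b χ
  refine ⟨Module.finrank ℤ (perLattice N), c, τ, w, ?_, ?_, ?_, hw0, ?_⟩
  · intro j γ hγ
    rw [hc, perCls_eq_zero_of_trace γ hγ, map_zero]
    rfl
  · intro m a ha k
    let Λ : perLattice N →ₗ[ℤ] ℤ := ∑ j, a j • b.coord j
    have hΛ : ∀ x, Λ x = ∑ j, a j * b.repr x j := by
      intro x
      simp only [Λ, LinearMap.sum_apply, LinearMap.smul_apply, Module.Basis.coord_apply,
        smul_eq_mul]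
    have hall : ∀ x : perLattice N, m ∣ Λ x := by
      intro x
      induction x using perCls_induction with
      | h0 => rw [map_zero]; exact dvd_zero m
      | hadd x y hx hy => rw [map_add]; exact dvd_add hx hy
      | hneg x hx => rw [map_neg]; exact (dvd_neg).mpr hx
      | hcls γ => rw [hΛ]; exact ha γ
    have hk : Λ (b k) = a k := by
      rw [hΛ]
      simp [Module.Basis.repr_self, Finsupp.single_apply]
    rw [← hk]
    exact hall (b k)
  · intro ℓ hℓ hℓN hℓS j γ
    have h1 : ((fac ℓ γ).map fun δ => c j (Additive.ofMul δ)).sum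
        = b.coord j (((fac ℓ γ).map (perCls N)).sum) := by
      rw [map_multiset_sum, Multiset.map_map]
      rfl
    rw [h1, ← perRho_perCls hPH hNS hℓ hℓN hℓS γ]
    conv_lhs => rw [← b.sum_repr (perCls N γ)]
    rw [map_sum, map_sum]
    refine Finset.sum_congr rfl fun k _ => ?_
    rw [map_zsmul, map_zsmul, hτ ℓ hℓ hℓN hℓS, hc, smul_eq_mul, Module.Basis.coord_apply, mul_comm]
  · intro ℓ hℓ hℓN hℓS k
    rw [← hw (CuspForm.heckeAlgebra.T hℓ hℓN hℓS) k]
    refine Finset.sum_congr rfl fun j _ => ?_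
    rw [hτ ℓ hℓ hℓN hℓS]

end Fermat.Agent.S30.H709

end
end
-- ===== PACK-END S30/H709/Occ.lean

-- ===== PACK-BEGIN S28/H326/Conj.lean
section
/-
S28 / helper326: the conjugates `y i` of `j(t^(p²))`; power sums; lifting to `ℤ[Y][X]`.
-/



set_option autoImplicit false
set_option linter.unusedSectionVars false

noncomputable section

namespace Fermat.Agent.S28.H326

open ModularCurve HahnSeries

variable (p : ℕ) [NeZero p]

/-! ### The conjugates of `j` -/

/-- `j(t^(p²))` and `j(ζ^b t)` -/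
def y : Option (Fin p) → LaurentSeries ℂ
  | none => qExpand ℂ p (jP p)
  | some b => HahnSeries.C ((zeta p ^ (b : ℕ))⁻¹) * HahnSeries.single (-1 : ℤ) 1 *
      cB p b (toC jNum)

theorem jC_mul_ofPS_DC : jqModC ℂ * ofPS DC = ofPS EC := by
  have := congrArg kap jq_mul_deltaZ
  rwa [map_mul, coeffMap_jqModC, deltaZ, kap_ofPS, kap_ofPS] at this

theorem y_mul_conj (i : Option (Fin p)) : y p i * conj p i DC = conj p i EC := by
  cases i with
  | none =>
    simp only [y, conj, cInf, cBase, RingHom.comp_apply, jP]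
    rw [← map_mul, ← map_mul, jC_mul_ofPS_DC]
  | some b =>
    simp only [y, conj]
    have hE : EC = toC jNum * UC := by
      rw [EC, UC, ← map_mul, jNum_mul_unit]
    rw [DC_eq, hE, map_mul, map_mul]
    have hX : cB p b PowerSeries.X =
        HahnSeries.C (zeta p ^ (b : ℕ)) * HahnSeries.single (1 : ℤ) 1 := by
      rw [cB, RingHom.comp_apply, PowerSeries.rescale_X, map_mul, HahnSeries.ofPowerSeries_C,
        HahnSeries.ofPowerSeries_X]
    rw [hX]
    have h1 : HahnSeries.C ((zeta p ^ (b : ℕ))⁻¹) * HahnSeries.C (zeta p ^ (b : ℕ)) =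
        (1 : LaurentSeries ℂ) := by
      rw [← map_mul, inv_mul_cancel₀ (pow_ne_zero _ (zeta_ne_zero p)), map_one]
    have h2 : HahnSeries.single (-1 : ℤ) (1 : ℂ) * HahnSeries.single (1 : ℤ) 1 = 1 := by
      rw [HahnSeries.single_mul_single]
      simp
    calc HahnSeries.C ((zeta p ^ (b : ℕ))⁻¹) * HahnSeries.single (-1 : ℤ) 1 *
          cB p b (toC jNum) * (HahnSeries.C (zeta p ^ (b : ℕ)) * HahnSeries.single (1 : ℤ) 1 *
            cB p b UC)
        = (HahnSeries.C ((zeta p ^ (b : ℕ))⁻¹) * HahnSeries.C (zeta p ^ (b : ℕ))) *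
            (HahnSeries.single (-1 : ℤ) (1 : ℂ) * HahnSeries.single (1 : ℤ) 1) *
            (cB p b (toC jNum) * cB p b UC) := by ring
      _ = _ := by rw [h1, h2, one_mul, one_mul]

theorem y_mul_w (i : Option (Fin p)) : y p i * w p i = Y p i := by
  rw [w, Y, ← y_mul_conj p i]
  ring

/-! ### Power sums of the `y i` -/

/-- polynomials over `ℂ((t))` with coefficients in `ℚ[j(t^p)]` -/
abbrev BPoly : Subsemiring (Polynomial (LaurentSeries ℂ)) :=
  Polynomial.lifts ((Bsub p).val : (Bsub p) →+* LaurentSeries ℂ)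

theorem mem_BPoly_iff (F : Polynomial (LaurentSeries ℂ)) :
    F ∈ BPoly p ↔ ∀ n, F.coeff n ∈ Bsub p := by
  rw [Polynomial.lifts_iff_coeff_lifts]
  constructor
  · intro h n
    obtain ⟨x, hx⟩ := h n
    rw [← hx]
    exact x.2
  · intro h n
    exact ⟨⟨F.coeff n, h n⟩, rfl⟩

theorem sum_Y_pow_mul_eval_mem (h : HeckeInput p) (a : ℕ) {F : Polynomial (LaurentSeries ℂ)}
    (hF : F ∈ BPoly p) : ∑ i, Y p i ^ a * F.eval (w p i) ∈ Bsub p := by
  have h1 : ∀ i, Y p i ^ a * F.eval (w p i) =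
      ∑ r ∈ Finset.range (F.natDegree + 1), F.coeff r * (Y p i ^ a * w p i ^ r) := by
    intro i
    rw [Polynomial.eval_eq_sum_range, Finset.mul_sum]
    exact Finset.sum_congr rfl fun r _ => by ring
  simp only [h1]
  rw [Finset.sum_comm]
  refine Subalgebra.sum_mem _ fun r _ => ?_
  rw [← Finset.mul_sum]
  obtain ⟨P, hP⟩ := sum_Y_pow_mul_w_pow p h a r
  rw [hP]
  exact Subalgebra.mul_mem _ ((mem_BPoly_iff p F).mp hF r) (theta_mem_Bsub p P)

/-- the polynomial `G` with `w i * G(w i) = 1` -/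
theorem exists_inv_poly (h : HeckeInput p) :
    ∃ G : Polynomial (LaurentSeries ℂ), G ∈ BPoly p ∧ ∀ i, w p i * G.eval (w p i) = 1 := by
  obtain ⟨c, hc0, hc⟩ := exists_WPoly_coeff_zero p h
  refine ⟨Polynomial.C (algebraMap ℚ (LaurentSeries ℂ) (-c⁻¹)) * (WPoly p).divX, ?_, ?_⟩
  · rw [mem_BPoly_iff]
    intro n
    rw [Polynomial.coeff_C_mul, Polynomial.coeff_divX]
    exact Subalgebra.mul_mem _ (Subalgebra.algebraMap_mem _ _) (WPoly_coeff_mem p h _)
  · intro i
    have h1 := WPoly_eval p i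
    rw [← Polynomial.divX_mul_X_add (WPoly p), Polynomial.eval_add, Polynomial.eval_mul,
      Polynomial.eval_X, Polynomial.eval_C, hc] at h1
    rw [Polynomial.eval_mul, Polynomial.eval_C]
    have h2 : (WPoly p).divX.eval (w p i) * w p i = -algebraMap ℚ (LaurentSeries ℂ) c :=
      eq_neg_of_add_eq_zero_left h1
    calc w p i * (algebraMap ℚ (LaurentSeries ℂ) (-c⁻¹) * (WPoly p).divX.eval (w p i))
        = algebraMap ℚ (LaurentSeries ℂ) (-c⁻¹) * ((WPoly p).divX.eval (w p i) * w p i) := by ring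
      _ = algebraMap ℚ (LaurentSeries ℂ) (-c⁻¹) * (-algebraMap ℚ (LaurentSeries ℂ) c) := by rw [h2]
      _ = algebraMap ℚ (LaurentSeries ℂ) (-c⁻¹ * -c) := by
        rw [map_mul, map_neg (algebraMap ℚ (LaurentSeries ℂ)) c]
      _ = 1 := by
        rw [neg_mul_neg, inv_mul_cancel₀ hc0, map_one]

theorem sum_y_pow_mem (h : HeckeInput p) (m : ℕ) : ∑ i, y p i ^ m ∈ Bsub p := by
  obtain ⟨G, hG, hGw⟩ := exists_inv_poly p h
  have h1 : ∀ i, y p i ^ m = Y p i ^ m * (G ^ m).eval (w p i) := by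
    intro i
    rw [Polynomial.eval_pow, ← mul_pow, ← y_mul_w, mul_assoc, hGw, mul_one]
  simp only [h1]
  exact sum_Y_pow_mul_eval_mem p h m (Subsemiring.pow_mem _ hG m)

/-! ### The polynomial `Φ` -/

/-- `Φ = ∏ (X - y i)` over `ℂ((t))` -/
def PhiPoly : Polynomial (LaurentSeries ℂ) := ∏ i, (Polynomial.X - Polynomial.C (y p i))

theorem PhiPoly_monic : (PhiPoly p).Monic :=
  Polynomial.monic_prod_of_monic _ _ fun _ _ => Polynomial.monic_X_sub_C _

theorem PhiPoly_natDegree : (PhiPoly p).natDegree = p + 1 := by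
  rw [PhiPoly, Polynomial.natDegree_prod_of_monic _ _ fun i _ => Polynomial.monic_X_sub_C _]
  simp

theorem PhiPoly_coeff_mem (h : HeckeInput p) (n : ℕ) : (PhiPoly p).coeff n ∈ Bsub p :=
  prod_X_sub_C_mem_of_psum_mem (Bsub p) (y p) (fun m _ => sum_y_pow_mem p h m) n

theorem PhiPoly_eval (i : Option (Fin p)) : (PhiPoly p).eval (y p i) = 0 := by
  rw [PhiPoly, Polynomial.eval_prod]
  exact Finset.prod_eq_zero (Finset.mem_univ i) (by simp)

/-! ### Integrality -/

theorem prod_X_sub_C_coeff_mem_subring (S : Subring (LaurentSeries ℂ)) {ι : Type*} [Fintype ι]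
    (z : ι → LaurentSeries ℂ) (hz : ∀ i, z i ∈ S) (n : ℕ) :
    (∏ i, (Polynomial.X - Polynomial.C (z i))).coeff n ∈ S := by
  have : (∏ i, (Polynomial.X - Polynomial.C (z i))) =
      (∏ i, (Polynomial.X - Polynomial.C (⟨z i, hz i⟩ : S))).map S.subtype := by
    rw [Polynomial.map_prod]
    refine Finset.prod_congr rfl fun i _ => ?_
    simp
  rw [this, Polynomial.coeff_map]
  exact Subtype.property _

theorem C_mem_IntCoeff {c : ℂ} (hc : IsIntegral ℤ c) : HahnSeries.C c ∈ IntCoeff := fun n => by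
  show IsIntegral ℤ ((HahnSeries.single 0 c).coeff n)
  rcases eq_or_ne n 0 with rfl | hn
  · rw [HahnSeries.coeff_single_same]; exact hc
  · rw [HahnSeries.coeff_single_of_ne hn]; exact isIntegral_zero

theorem single_one_mem_IntCoeff (e : ℤ) : HahnSeries.single e (1 : ℂ) ∈ IntCoeff := fun n => by
  rcases eq_or_ne n e with rfl | hn
  · rw [HahnSeries.coeff_single_same]; exact isIntegral_one
  · rw [HahnSeries.coeff_single_of_ne hn]; exact isIntegral_zero

theorem conj_mem_IntCoeff (i : Option (Fin p)) (g : PowerSeries ℤ) :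
    conj p i (toC g) ∈ IntCoeff := by
  cases i with
  | none =>
    simp only [conj, cInf, cBase, RingHom.comp_apply]
    rw [← kap_ofPS]
    exact qExpand_mem_IntCoeff p (qExpand_mem_IntCoeff p (kap_mem_IntCoeff _))
  | some b => exact cB_mem_IntCoeff p b g

theorem scal_mem_IntCoeff (i : Option (Fin p)) : scal p i ∈ IntCoeff := by
  cases i with
  | none => exact Subring.pow_mem _ (natCast_mem _ p) 12
  | some b => exact Subring.one_mem _

theorem w_mem_IntCoeff (i : Option (Fin p)) : w p i ∈ IntCoeff :=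
  Subring.mul_mem _ (Subring.mul_mem _ (scal_mem_IntCoeff p i) (conj_mem_IntCoeff p i DZ))
    (delInv_mem_IntCoeff p)

theorem zeta_pow_inv_isIntegral (b : ℕ) : IsIntegral ℤ ((zeta p ^ b)⁻¹) := by
  have h0 : zeta p ^ (p - 1) * zeta p = 1 := by
    rw [← pow_succ, Nat.sub_add_cancel (Nat.pos_of_ne_zero (NeZero.ne p)), zeta_pow_self]
  have h : (zeta p ^ b)⁻¹ = (zeta p ^ (p - 1)) ^ b := by
    rw [← inv_pow]
    congr 1
    exact (eq_inv_of_mul_eq_one_left h0).symm
  rw [h]
  exact ((zeta_isIntegral p).pow _).pow _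

theorem y_mem_IntCoeff (i : Option (Fin p)) : y p i ∈ IntCoeff := by
  cases i with
  | none =>
    simp only [y]
    have := jP_pow_mem_IntCoeff p 1
    rw [pow_one] at this
    exact qExpand_mem_IntCoeff p this
  | some b =>
    simp only [y]
    exact Subring.mul_mem _ (Subring.mul_mem _ (C_mem_IntCoeff (zeta_pow_inv_isIntegral p b))
      (single_one_mem_IntCoeff _)) (cB_mem_IntCoeff p b jNum)

/-! ### Lifting to `ℤ[Y][X]` -/

theorem exists_lift (F : Polynomial (LaurentSeries ℂ)) (hmonic : F.Monic)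
    (hB : ∀ n, F.coeff n ∈ Bsub p) (hI : ∀ n, F.coeff n ∈ IntCoeff) :
    ∃ Φ : Polynomial (Polynomial ℤ), Φ.Monic ∧ Φ.natDegree = F.natDegree ∧
      Φ.map (theta p) = F := by
  have hl : F ∈ Polynomial.lifts (theta p) := by
    rw [Polynomial.lifts_iff_coeff_lifts]
    intro n
    obtain ⟨Q, hQ⟩ := hB n
    have hQ' : Polynomial.aeval (jP p) Q = F.coeff n := hQ
    obtain ⟨Q', hQ''⟩ := exists_int_poly_of_integral p Q (hQ' ▸ hI n)
    exact ⟨Q', by rw [theta_eq_aeval, hQ'', hQ']⟩
  obtain ⟨Φ, h1, h2, h3⟩ := Polynomial.lifts_and_natDegree_eq_and_monic hl hmonic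
  exact ⟨Φ, h3, h2, h1⟩

/-- **The unit polynomial over `ℤ[j]`**. -/
theorem exists_W (h : HeckeInput p) :
    ∃ W : Polynomial (Polynomial ℤ), W.Monic ∧ W.natDegree = p + 1 ∧
      W.map (theta p) = WPoly p := by
  obtain ⟨W, h1, h2, h3⟩ := exists_lift p (WPoly p) (WPoly_monic p) (WPoly_coeff_mem p h)
    (fun n => prod_X_sub_C_coeff_mem_subring IntCoeff _ (w_mem_IntCoeff p) n)
  exact ⟨W, h1, h2.trans (WPoly_natDegree p), h3⟩

/-- **The modular polynomial over `ℤ[j]`**. -/
theorem exists_Phi (h : HeckeInput p) :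
    ∃ Φ : Polynomial (Polynomial ℤ), Φ.Monic ∧ Φ.natDegree = p + 1 ∧
      Φ.map (theta p) = PhiPoly p := by
  obtain ⟨Φ, h1, h2, h3⟩ := exists_lift p (PhiPoly p) (PhiPoly_monic p) (PhiPoly_coeff_mem p h)
    (fun n => prod_X_sub_C_coeff_mem_subring IntCoeff _ (y_mem_IntCoeff p) n)
  exact ⟨Φ, h1, h2.trans (PhiPoly_natDegree p), h3⟩

end Fermat.Agent.S28.H326

end
end
-- ===== PACK-END S28/H326/Conj.lean

-- ===== PACK-BEGIN S18/Mod/H216/Eval.lean
section



/-!
# S18 / MOD (helper216): polynomials in `j` over `A ∩ E` — the evaluation dictionary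

`S0 A E = A ∩ E ⊆ Q̄`,  `eRc : S0 ≃+* Rc M A E`,  `resS : S0 →+* κ`,
`Uev : (S0)[X] →+* intE M A E`, `X ↦ j`, with

* `toOm_Uev` : `toOm (Uev p) = evR (Rc M A E) (jOm M) (p.map eRc)`   (value in `Ω`),
* `redE_Uev` : `redE (Uev p) = evJ (p.map resS)`                      (reduction),
* `redE_Uev_ne_zero_iff` : `redE (Uev p) ≠ 0 ↔ p.map resS ≠ 0`.
-/

set_option autoImplicit false
set_option linter.unusedSectionVars false

noncomputable section

namespace Fermat.Agent.S18.Mod.H216

open ModularCurve AlgebraicCurve HahnSeries Polynomial Fermat.Agent.S18 Fermat.Agent.S18.Mod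

variable (M : ℕ) (A : ValuationSubring Qb) (E : IntermediateField ℚ Qb)

/-- `A ∩ E` as a subring of `Q̄`. -/
abbrev S0 : Subring Qb := A.toSubring ⊓ E.toSubfield.toSubring

theorem Rc_eq_map : Rc M A E = (S0 A E).map (algebraMap Qb (Om M)) := rfl

/-- `A ∩ E ≃ Rc`. -/
def eRc : ↥(S0 A E) ≃+* ↥(Rc M A E) :=
  Subring.equivMapOfInjective (S0 A E) (algebraMap Qb (Om M)) (algebraMap Qb (Om M)).injective

@[simp] theorem coe_eRc (c : ↥(S0 A E)) :
    ((eRc M A E c : ↥(Rc M A E)) : Om M) = algebraMap Qb (Om M) (c : Qb) := rfl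

/-- `A ∩ E → A`. -/
def s0ToA : ↥(S0 A E) →+* ↥A := Subring.inclusion (inf_le_left : S0 A E ≤ A.toSubring)

@[simp] theorem coe_s0ToA (c : ↥(S0 A E)) : ((s0ToA A E c : ↥A) : Qb) = (c : Qb) := rfl

/-- The residue map on `A ∩ E`. -/
def resS : ↥(S0 A E) →+* IsLocalRing.ResidueField ↥A :=
  (IsLocalRing.residue ↥A).comp (s0ToA A E)

/-- Constant series. -/
def cS : ↥(S0 A E) →+* ↥(intE M A E) where
  toFun c := cInt M A E c.2.1 c.2.2
  map_one' := Subtype.ext (by simp [cInt]; rfl)
  map_mul' a b := Subtype.ext (by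
    show HahnSeries.C (⟨(a : Qb) * (b : Qb), _⟩ : ↥A) = HahnSeries.C _ * HahnSeries.C _
    rw [← map_mul]
    rfl)
  map_zero' := Subtype.ext (by simp [cInt]; rfl)
  map_add' a b := Subtype.ext (by
    show HahnSeries.C (⟨(a : Qb) + (b : Qb), _⟩ : ↥A) = HahnSeries.C _ + HahnSeries.C _
    rw [← map_add]
    rfl)

theorem toOm_cS (c : ↥(S0 A E)) : toOm M A E (cS M A E c) = algebraMap Qb (Om M) (c : Qb) :=
  toOm_cInt M A E c.2.1 c.2.2

theorem redE_cS (c : ↥(S0 A E)) : redE M A E (cS M A E c) = HahnSeries.C (resS A E c) :=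
  redE_cInt M A E c.2.1 c.2.2

/-- Evaluation at `j` of polynomials over `A ∩ E`, as integral series. -/
def Uev : (↥(S0 A E))[X] →+* ↥(intE M A E) := Polynomial.eval₂RingHom (cS M A E) (jInt M A E)

theorem toOm_Uev (p : (↥(S0 A E))[X]) :
    toOm M A E (Uev M A E p) =
      evR (Rc M A E) (jOm M) (p.map (eRc M A E : ↥(S0 A E) →+* ↥(Rc M A E))) := by
  have h : (toOm M A E).comp (Uev M A E) =
      (evR (Rc M A E) (jOm M)).comp
        (Polynomial.mapRingHom (eRc M A E : ↥(S0 A E) →+* ↥(Rc M A E))) := by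
    apply Polynomial.ringHom_ext
    · intro c
      simp only [RingHom.comp_apply, Uev, Polynomial.coe_eval₂RingHom, Polynomial.eval₂_C,
        Polynomial.coe_mapRingHom, Polynomial.map_C, evR_C]
      rw [toOm_cS]
      rfl
    · simp only [RingHom.comp_apply, Uev, Polynomial.coe_eval₂RingHom, Polynomial.eval₂_X,
        Polynomial.coe_mapRingHom, Polynomial.map_X, evR_X]
      exact toOm_jInt M A E
  exact RingHom.congr_fun h p

theorem redE_Uev (p : (↥(S0 A E))[X]) :
    redE M A E (Uev M A E p) = H516.evJ (p.map (resS A E)) := by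
  have h : (redE M A E).comp (Uev M A E) =
      (Polynomial.eval₂RingHom (HahnSeries.C (Γ := ℤ) (R := IsLocalRing.ResidueField ↥A))
        (jqModC (IsLocalRing.ResidueField ↥A))).comp (Polynomial.mapRingHom (resS A E)) := by
    apply Polynomial.ringHom_ext
    · intro c
      simp only [RingHom.comp_apply, Uev, Polynomial.coe_eval₂RingHom, Polynomial.eval₂_C,
        Polynomial.coe_mapRingHom, Polynomial.map_C]
      exact redE_cS M A E c
    · simp only [RingHom.comp_apply, Uev, Polynomial.coe_eval₂RingHom, Polynomial.eval₂_X,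
        Polynomial.coe_mapRingHom, Polynomial.map_X]
      exact redE_jInt M A E
  exact RingHom.congr_fun h p

theorem redE_Uev_eq_zero_iff (p : (↥(S0 A E))[X]) :
    redE M A E (Uev M A E p) = 0 ↔ p.map (resS A E) = 0 := by
  rw [redE_Uev, H516.evJ_eq_zero_iff]

/-- Every polynomial over `Rc` comes from a polynomial over `A ∩ E`. -/
theorem evR_eq_toOm_Uev (p : (↥(Rc M A E))[X]) :
    evR (Rc M A E) (jOm M) p =
      toOm M A E (Uev M A E (p.map ((eRc M A E).symm : ↥(Rc M A E) →+* ↥(S0 A E)))) := by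
  rw [toOm_Uev, Polynomial.map_map]
  have : ((eRc M A E : ↥(S0 A E) →+* ↥(Rc M A E)).comp
      ((eRc M A E).symm : ↥(Rc M A E) →+* ↥(S0 A E))) = RingHom.id _ := by
    ext c
    simp
  rw [this, Polynomial.map_id]

end Fermat.Agent.S18.Mod.H216

end
end
-- ===== PACK-END S18/Mod/H216/Eval.lean

-- ===== PACK-BEGIN S18/H394/ChartInst.lean
section



/-!
# S18, Route K (helper394): instances for the charts `H138.chart R {x}`

For `R` noetherian with `R[X]` integrally closed, `F` of characteristic `0`, `x ∈ F` transcendental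
over `R` and `F` finite over `baseField R x`: the chart `B = chart R {x}` (integral closure of
`R[x]` in `F`), as a type, is a noetherian integrally closed domain with fraction field `F`.
-/

set_option autoImplicit false
set_option linter.style.haveILetI false

namespace Fermat.Agent.S18.H394

open Polynomial
open Fermat.Agent.S18.H138 (chart baseField)

section ChartInst

variable {R : Type*} [CommRing R] {F : Type*} [Field F] [Algebra R F]
variable [IsNoetherianRing R] [IsIntegrallyClosed R[X]] [CharZero F]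

theorem chart_instances {x : F} (hx : Transcendental R x)
    [FiniteDimensional (baseField R x) F] :
    IsNoetherianRing (chart R ({x} : Set F)) ∧ IsIntegrallyClosed (chart R ({x} : Set F)) ∧
      IsFractionRing (chart R ({x} : Set F)) F := by
  classical
  set A : Subalgebra R F := Algebra.adjoin R ({x} : Set F) with hA
  set K : Subfield F := baseField R x with hK
  haveI := H138.isIntegrallyClosed_adjoin_singleton (R := R) hx
  haveI := H138.isNoetherianRing_adjoin_singleton (R := R) hx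
  let φ : A →+* K :=
    { toFun := fun a => ⟨a, H138.adjoin_le_baseField x a.2⟩
      map_one' := rfl
      map_mul' := fun _ _ => rfl
      map_zero' := rfl
      map_add' := fun _ _ => rfl }
  letI : Algebra A K := φ.toAlgebra
  haveI : IsScalarTower A K F := IsScalarTower.of_algebraMap_eq (fun _ => rfl)
  have hinj : Function.Injective (algebraMap A K) := by
    intro a b hab
    have : (a : F) = b := congrArg (fun t : K => (t : F)) hab
    exact Subtype.ext this
  haveI : FaithfulSMul A K := (faithfulSMul_iff_algebraMap_injective A K).2 hinj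
  haveI : IsFractionRing A K := by
    refine IsFractionRing.of_field A K (fun z => ?_)
    obtain ⟨a, ha, b, hb, h⟩ := H138.exists_div_of_mem_baseField (R := R) x z.2
    exact ⟨⟨a, ha⟩, ⟨b, hb⟩, Subtype.ext h⟩
  haveI : CharZero K := (algebraMap K F).charZero
  have h1 : IsNoetherianRing (integralClosure A F) := integralClosure.isNoetherianRing (K := K) F
  have h2 : IsIntegrallyClosed (integralClosure A F) :=
    integralClosure.isIntegrallyClosedOfFiniteExtension K
  have h3 : IsFractionRing (integralClosure A F) F :=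
    integralClosure.isFractionRing_of_finite_extension K F
  exact ⟨h1, h2, h3⟩

end ChartInst

end Fermat.Agent.S18.H394

end
-- ===== PACK-END S18/H394/ChartInst.lean

-- ===== PACK-BEGIN Lib/HFree/H412/Lift.lean
section


/-!
# Lifting parabolic characters modulo `m` to `ℤ`

`Γ ≤ SL(2,ℤ)` of finite index with `-1 ∈ Γ`.  Every additive character `c : Γ → ℤ/m` which kills
the elements of finite order and the elements of trace `2` is the reduction modulo `m` of an
additive character `c' : Γ → ℤ` killing all elements of trace `±2`.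

Equivalently: `H = Γ^ab / ⟨parabolic, elliptic⟩` (`= H₁` of the compactified modular curve) is
torsion-free.
-/

set_option autoImplicit false

open scoped MatrixGroups
open ModularGroup

namespace Fermat.Agent.Lib.HFree.H412

open Fermat.Agent.S20.H270 (Umat IsCocycle exists_cocycle S_sq_eq_neg_one Umat_cube_eq_neg_one
  T_eq_S_inv_mul_Umat rho_S_S rho_U_U_U exists_conj_T_zpow_of_trace_sq)

variable {Γ : Subgroup SL(2, ℤ)}

theorem S_pow_four : (S : SL(2, ℤ)) ^ 4 = 1 := by decide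

theorem Umat_pow_six : Umat ^ 6 = 1 := by decide

section Closed

variable {A : Type*} [AddCommGroup A]

theorem shap_pow_fixed_of_finOrder {c : Γ → A}
    (hfin : ∀ (γ : Γ) (n : ℕ), 0 < n → γ ^ n = 1 → c γ = 0) (g : SL(2, ℤ)) (N : ℕ) (hN : 0 < N)
    (hg : g ^ N = 1) (y : SL(2, ℤ) ⧸ Γ) (j : ℕ) (hj : (g ^ j)⁻¹ • y = y) :
    shap c (g ^ j) y = 0 := by
  rw [shap_apply]
  refine hfin _ N hN (Subtype.ext ?_)
  show (tw (g ^ j) y) ^ N = 1
  rw [tw_of_fixed hj]
  have h1 : ((Quotient.out y)⁻¹ * g ^ j * Quotient.out y) ^ N =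
      (Quotient.out y)⁻¹ * (g ^ j) ^ N * Quotient.out y := by
    have := conj_pow (a := (Quotient.out y)⁻¹) (b := g ^ j) (i := N)
    rwa [inv_inv] at this
  rw [h1, ← pow_mul, mul_comm j N, pow_mul, hg, one_pow, mul_one, inv_mul_cancel]

theorem trace_conj_T_pow (δ : SL(2, ℤ)) (j : ℕ) :
    ((δ⁻¹ * T ^ j * δ : SL(2, ℤ)) : Matrix (Fin 2) (Fin 2) ℤ).trace = 2 := by
  have h1 : ((δ⁻¹ * T ^ j * δ : SL(2, ℤ)) : Matrix (Fin 2) (Fin 2) ℤ).trace =
      ((δ * (δ⁻¹ * T ^ j) : SL(2, ℤ)) : Matrix (Fin 2) (Fin 2) ℤ).trace := by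
    rw [Matrix.SpecialLinearGroup.coe_mul, Matrix.SpecialLinearGroup.coe_mul (δ)
      (δ⁻¹ * T ^ j), Matrix.trace_mul_comm]
  rw [h1, mul_inv_cancel_left, ← zpow_natCast, coe_T_zpow, Matrix.trace_fin_two]
  simp

theorem shap_T_pow_fixed {c : Γ → A}
    (hpar : ∀ γ : Γ, ((γ : SL(2, ℤ)) : Matrix (Fin 2) (Fin 2) ℤ).trace = 2 → c γ = 0)
    (y : SL(2, ℤ) ⧸ Γ) (j : ℕ) (hj : ((T : SL(2, ℤ)) ^ j)⁻¹ • y = y) :
    shap c ((T : SL(2, ℤ)) ^ j) y = 0 := by
  rw [shap_apply]
  refine hpar _ ?_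
  show ((tw (T ^ j) y : SL(2, ℤ)) : Matrix (Fin 2) (Fin 2) ℤ).trace = 2
  rw [tw_of_fixed hj]
  exact trace_conj_T_pow _ j

end Closed

section Red

variable (m : ℕ)

/-- Reduction modulo `m` of integer valued functions. -/
def red {X : Type*} (n : X → ℤ) : X → ZMod m := fun x => ((n x : ℤ) : ZMod m)

theorem red_apply {X : Type*} (n : X → ℤ) (x : X) : red m n x = ((n x : ℤ) : ZMod m) := rfl

theorem red_permRep {G X : Type*} [Group G] [MulAction G X] (g : G) (n : X → ℤ) :
    red m (permRep ℤ g n) = permRep (ZMod m) g (red m n) := rfl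

theorem red_add {X : Type*} (n n' : X → ℤ) : red m (n + n') = red m n + red m n' := by
  funext x
  simp [red_apply]

theorem red_sub {X : Type*} (n n' : X → ℤ) : red m (n - n') = red m n - red m n' := by
  funext x
  simp [red_apply]

/-- A lift of a `ZMod m`-valued function. -/
def liftFun [NeZero m] {X : Type*} (f : X → ZMod m) : X → ℤ := fun x => ((f x).val : ℤ)

theorem red_liftFun [NeZero m] {X : Type*} (f : X → ZMod m) : red m (liftFun m f) = f := by
  funext x
  simp [red_apply, liftFun]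

theorem isCocycle_red {z : SL(2, ℤ) → ((SL(2, ℤ) ⧸ Γ) → ℤ)} (hz : IsCocycle (permRep ℤ) z) :
    IsCocycle (permRep (ZMod m)) (fun g => red m (z g)) := by
  intro g h
  show red m (z (g * h)) = red m (z g) + permRep (ZMod m) g (red m (z h))
  rw [hz g h, red_add, red_permRep]

end Red

theorem isCocycle_sub {A : Type*} [AddCommGroup A] {z z' : SL(2, ℤ) → ((SL(2, ℤ) ⧸ Γ) → A)}
    (hz : IsCocycle (permRep A) z) (hz' : IsCocycle (permRep A) z') :
    IsCocycle (permRep A) (fun g => z g - z' g) := by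
  intro g h
  show z (g * h) - z' (g * h) = z g - z' g + permRep A g (z h - z' h)
  rw [hz g h, hz' g h, map_sub]
  abel

/-- Two cocycles agreeing at `S` and `U = S T` are equal. -/
theorem cocycle_ext {A : Type*} [AddCommGroup A] {z z' : SL(2, ℤ) → ((SL(2, ℤ) ⧸ Γ) → A)}
    (hz : IsCocycle (permRep A) z) (hz' : IsCocycle (permRep A) z')
    (hS : z S = z' S) (hU : z Umat = z' Umat) (g : SL(2, ℤ)) : z g = z' g := by
  have := (isCocycle_sub hz hz').eq_zero_of_S_U (sub_eq_zero.mpr hS) (sub_eq_zero.mpr hU) g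
  exact sub_eq_zero.mp this

theorem coboundary_S_add {A : Type*} [AddCommGroup A] (hneg : (-1 : SL(2, ℤ)) ∈ Γ)
    (n : (SL(2, ℤ) ⧸ Γ) → A) :
    (permRep A (S : SL(2, ℤ)) n - n) + permRep A (S : SL(2, ℤ)) (permRep A (S : SL(2, ℤ)) n - n)
      = 0 := by
  rw [map_sub, rho_S_S _ (permRep_neg_one A hneg)]
  abel

theorem coboundary_U_add {A : Type*} [AddCommGroup A] (hneg : (-1 : SL(2, ℤ)) ∈ Γ)
    (n : (SL(2, ℤ) ⧸ Γ) → A) :
    (permRep A Umat n - n) + permRep A Umat (permRep A Umat n - n)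
      + permRep A Umat (permRep A Umat (permRep A Umat n - n)) = 0 := by
  simp only [map_sub]
  rw [rho_U_U_U _ (permRep_neg_one A hneg)]
  abel

theorem sum_coboundary {A : Type*} [AddCommGroup A] [Fintype (SL(2, ℤ) ⧸ Γ)] (g : SL(2, ℤ))
    (n : (SL(2, ℤ) ⧸ Γ) → A) : ∑ x, (permRep A g n - n) x = 0 := by
  simp only [Pi.sub_apply, Finset.sum_sub_distrib]
  rw [sum_permRep, sub_self]

/-- The compatibility defect of a triple of potentials. -/
def defect {A : Type*} [AddCommGroup A] (n₁ n₂ n₃ : (SL(2, ℤ) ⧸ Γ) → A) : (SL(2, ℤ) ⧸ Γ) → A :=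
  permRep A (S⁻¹ : SL(2, ℤ)) ((permRep A Umat n₂ - n₂) - (permRep A (S : SL(2, ℤ)) n₁ - n₁))
    - (permRep A (T : SL(2, ℤ)) n₃ - n₃)

theorem defect_apply {A : Type*} [AddCommGroup A] (n₁ n₂ n₃ : (SL(2, ℤ) ⧸ Γ) → A)
    (x : SL(2, ℤ) ⧸ Γ) :
    defect n₁ n₂ n₃ x = (n₂ ((T⁻¹ : SL(2, ℤ)) • x) - n₂ ((S : SL(2, ℤ)) • x)
      - (n₁ x - n₁ ((S : SL(2, ℤ)) • x))) - (n₃ ((T⁻¹ : SL(2, ℤ)) • x) - n₃ x) := by
  have hUS : (Umat⁻¹ : SL(2, ℤ)) • ((S : SL(2, ℤ)) • x) = (T⁻¹ : SL(2, ℤ)) • x := by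
    rw [← mul_smul]
    congr 1
    rw [T_eq_S_inv_mul_Umat]
    group
  have hSS : (S⁻¹ : SL(2, ℤ)) • ((S : SL(2, ℤ)) • x) = x := inv_smul_smul _ _
  simp only [defect, Pi.sub_apply, permRep_apply, inv_inv, hUS, hSS]

theorem red_defect (m : ℕ) (n₁ n₂ n₃ : (SL(2, ℤ) ⧸ Γ) → ℤ) :
    red m (defect n₁ n₂ n₃) = defect (red m n₁) (red m n₂) (red m n₃) := by
  funext x
  rw [red_apply, defect_apply, defect_apply]
  simp [red_apply]

theorem sum_defect {A : Type*} [AddCommGroup A] [Fintype (SL(2, ℤ) ⧸ Γ)]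
    (n₁ n₂ n₃ : (SL(2, ℤ) ⧸ Γ) → A) : ∑ x, defect n₁ n₂ n₃ x = 0 := by
  have h1 : ∑ x, defect n₁ n₂ n₃ x =
      ∑ x, permRep A (S⁻¹ : SL(2, ℤ))
        ((permRep A Umat n₂ - n₂) - (permRep A (S : SL(2, ℤ)) n₁ - n₁)) x
        - ∑ x, (permRep A (T : SL(2, ℤ)) n₃ - n₃) x := by
    rw [← Finset.sum_sub_distrib]
    rfl
  rw [h1, sum_coboundary, sub_zero, sum_permRep]
  have h2 : ∑ x, ((permRep A Umat n₂ - n₂) - (permRep A (S : SL(2, ℤ)) n₁ - n₁)) x =
      ∑ x, (permRep A Umat n₂ - n₂) x - ∑ x, (permRep A (S : SL(2, ℤ)) n₁ - n₁) x := by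
    rw [← Finset.sum_sub_distrib]
    rfl
  rw [h2, sum_coboundary, sum_coboundary, sub_zero]

/-- Potentials modulo `m` with vanishing defect lift to integral potentials with vanishing
defect. -/
theorem exists_lift_potentials [Γ.FiniteIndex] (m : ℕ) [NeZero m]
    (m₁ m₂ m₃ : (SL(2, ℤ) ⧸ Γ) → ZMod m) (h : defect m₁ m₂ m₃ = 0) :
    ∃ n₁ n₂ n₃ : (SL(2, ℤ) ⧸ Γ) → ℤ, red m n₁ = m₁ ∧ red m n₂ = m₂ ∧ red m n₃ = m₃ ∧
      defect n₁ n₂ n₃ = 0 := by
  classical
  have : Finite (SL(2, ℤ) ⧸ Γ) := Subgroup.finite_quotient_of_finiteIndex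
  letI : Fintype (SL(2, ℤ) ⧸ Γ) := Fintype.ofFinite _
  have hm0 : (m : ℤ) ≠ 0 := by exact_mod_cast NeZero.ne m
  have hdred : red m (defect (liftFun m m₁) (liftFun m m₂) (liftFun m m₃)) = 0 := by
    rw [red_defect, red_liftFun, red_liftFun, red_liftFun, h]
  have hddvd : ∀ x, ∃ e : ℤ, defect (liftFun m m₁) (liftFun m m₂) (liftFun m m₃) x = m * e := by
    intro x
    have h1 : ((defect (liftFun m m₁) (liftFun m m₂) (liftFun m m₃) x : ℤ) : ZMod m) = 0 :=
      congrFun hdred x
    exact (ZMod.intCast_zmod_eq_zero_iff_dvd _ m).mp h1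
  choose e he using hddvd
  have hesum : ∑ x, e x = 0 := by
    have h1 : (m : ℤ) * ∑ x, e x = 0 := by
      rw [Finset.mul_sum, ← sum_defect (liftFun m m₁) (liftFun m m₂) (liftFun m m₃)]
      exact Finset.sum_congr rfl fun x _ => (he x).symm
    exact (mul_eq_zero.mp h1).resolve_left hm0
  obtain ⟨n'', k'', hek⟩ := mem_augGen.mp (mem_augGen_of_sum_eq_zero e hesum)
  refine ⟨fun x => liftFun m m₁ x - m * n'' x, liftFun m m₂, fun x => liftFun m m₃ x + m * k'' x,
    ?_, red_liftFun m m₂, ?_, ?_⟩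
  · funext x
    have : red m (liftFun m m₁) x = m₁ x := congrFun (red_liftFun m m₁) x
    simp only [red_apply] at this
    simp [red_apply, this]
  · funext x
    have : red m (liftFun m m₃) x = m₃ x := congrFun (red_liftFun m m₃) x
    simp only [red_apply] at this
    simp [red_apply, this]
  · funext x
    have hdx := he x
    have hex := congrFun hek x
    rw [defect_apply] at hdx
    rw [defect_apply]
    simp only [Pi.sub_apply, Pi.add_apply, permRep_apply, inv_inv, Pi.zero_apply] at hex ⊢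
    rw [hex] at hdx
    linear_combination hdx

/-- **Main lifting theorem**, abstract form. -/
theorem exists_lift_addChar [Γ.FiniteIndex] (hneg : (-1 : SL(2, ℤ)) ∈ Γ) (m : ℕ) [NeZero m]
    (c : Γ → ZMod m) (hc : IsAddChar c)
    (hfin : ∀ (γ : Γ) (n : ℕ), 0 < n → γ ^ n = 1 → c γ = 0)
    (hpar : ∀ γ : Γ, ((γ : SL(2, ℤ)) : Matrix (Fin 2) (Fin 2) ℤ).trace = 2 → c γ = 0) :
    ∃ c' : Γ → ℤ, IsAddChar c' ∧
      (∀ γ : Γ, ((γ : SL(2, ℤ)) : Matrix (Fin 2) (Fin 2) ℤ).trace = 2 ∨
        ((γ : SL(2, ℤ)) : Matrix (Fin 2) (Fin 2) ℤ).trace = -2 → c' γ = 0) ∧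
      ∀ γ : Γ, ((c' γ : ℤ) : ZMod m) = c γ := by
  classical
  have : Finite (SL(2, ℤ) ⧸ Γ) := Subgroup.finite_quotient_of_finiteIndex
  -- the Shapiro cocycle
  have hz : IsCocycle (permRep (ZMod m)) (shap c) := isCocycle_shap hc
  -- it is a coboundary on `S`, `U`, `T`
  obtain ⟨m₁, hm₁⟩ := exists_eq_coboundary_at hz S
    (fun y j hj => shap_pow_fixed_of_finOrder hfin S 4 (by norm_num) S_pow_four y j hj)
  obtain ⟨m₂, hm₂⟩ := exists_eq_coboundary_at hz Umat
    (fun y j hj => shap_pow_fixed_of_finOrder hfin Umat 6 (by norm_num) Umat_pow_six y j hj)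
  obtain ⟨m₃, hm₃⟩ := exists_eq_coboundary_at hz T (fun y j hj => shap_T_pow_fixed hpar y j hj)
  have hdef : defect m₁ m₂ m₃ = 0 := by
    unfold defect
    rw [← hm₁, ← hm₂, ← hm₃, hz.map_T]
    exact sub_self _
  obtain ⟨n₁, n₂, n₃, hred₁, hred₂, -, hdefZ⟩ := exists_lift_potentials m m₁ m₂ m₃ hdef
  have hnegZ := permRep_neg_one (Γ := Γ) ℤ hneg
  obtain ⟨z', hz', hz'S, hz'U⟩ := exists_cocycle (permRep ℤ) hnegZ
    (permRep ℤ (S : SL(2, ℤ)) n₁ - n₁) (permRep ℤ Umat n₂ - n₂)
    (coboundary_S_add hneg n₁) (coboundary_U_add hneg n₂)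
  -- value at `T`
  have hz'T : z' T = permRep ℤ (T : SL(2, ℤ)) n₃ - n₃ := by
    rw [hz'.map_T, hz'S, hz'U]
    exact sub_eq_zero.mp hdefZ
  -- the lifted character
  refine ⟨resChar z', isAddChar_resChar hz', ?_, ?_⟩
  · -- parabolic
    have hchar := isAddChar_resChar hz'
    have hkey : ∀ (g : SL(2, ℤ)) (k : ℤ) (hmem : g * T ^ k * g⁻¹ ∈ Γ),
        z' (g * T ^ k * g⁻¹) (bpt Γ) = 0 := by
      intro g k hmem
      rw [cocycle_conj_bpt hz' g (T ^ k) hmem, cocycle_zpow_of_coboundary hz' T n₃ hz'T k,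
        Pi.sub_apply, permRep_apply, sub_eq_zero]
      congr 1
      have h1 : (g * T ^ k * g⁻¹)⁻¹ • bpt Γ = bpt Γ := inv_smul_bpt_of_mem hmem
      calc ((T : SL(2, ℤ)) ^ k)⁻¹ • g⁻¹ • bpt Γ
          = g⁻¹ • ((g * T ^ k * g⁻¹)⁻¹ • bpt Γ) := by
            rw [← mul_smul, ← mul_smul]
            congr 1
            group
        _ = g⁻¹ • bpt Γ := by rw [h1]
    have hnegone : resChar z' ⟨-1, hneg⟩ = 0 := by
      have h1 : (⟨-1, hneg⟩ : Γ) * ⟨-1, hneg⟩ = 1 := by
        apply Subtype.ext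
        show (-1 : SL(2, ℤ)) * -1 = 1
        simp
      have h2 := hchar ⟨-1, hneg⟩ ⟨-1, hneg⟩
      rw [h1, hchar.map_one] at h2
      omega
    intro γ hγ
    have htr : ((γ : SL(2, ℤ)) : Matrix (Fin 2) (Fin 2) ℤ).trace ^ 2 = 4 := by
      rcases hγ with h | h <;> rw [h] <;> norm_num
    obtain ⟨g, k, hk | hk⟩ := exists_conj_T_zpow_of_trace_sq (γ : SL(2, ℤ)) htr
    · have hmem : g * T ^ k * g⁻¹ ∈ Γ := hk ▸ γ.2
      show z' (γ : SL(2, ℤ)) (bpt Γ) = 0
      rw [hk]
      exact hkey g k hmem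
    · have hmem : g * T ^ k * g⁻¹ ∈ Γ := by
        have h1 : g * T ^ k * g⁻¹ = -1 * (γ : SL(2, ℤ)) := by
          rw [hk]
          simp
        rw [h1]
        exact Γ.mul_mem hneg γ.2
      have h2 : γ = ⟨-1, hneg⟩ * ⟨g * T ^ k * g⁻¹, hmem⟩ := by
        apply Subtype.ext
        show (γ : SL(2, ℤ)) = -1 * (g * T ^ k * g⁻¹)
        rw [hk]
        simp
      rw [h2, hchar, hnegone, zero_add]
      exact hkey g k hmem
  · -- reduction
    intro γ
    have hzr := isCocycle_red m hz'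
    have h1 : (fun g => red m (z' g)) (γ : SL(2, ℤ)) = shap c (γ : SL(2, ℤ)) := by
      refine cocycle_ext hzr hz ?_ ?_ _
      · show red m (z' S) = shap c S
        rw [hz'S, red_sub, red_permRep, hred₁, hm₁]
      · show red m (z' Umat) = shap c Umat
        rw [hz'U, red_sub, red_permRep, hred₂, hm₂]
    have h2 := congrFun h1 (bpt Γ)
    rw [shap_bpt hc] at h2
    exact h2

end Fermat.Agent.Lib.HFree.H412

end
-- ===== PACK-END Lib/HFree/H412/Lift.lean

-- ===== PACK-BEGIN S23/Cap/Galois.lean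
section





/-!
# S23 / WP8 : the q-expansions of `S_k(Γ₀(N))` are stable under ring endomorphisms of `ℂ`.
-/

set_option autoImplicit false

namespace Fermat.Agent.S23.Cap

open UpperHalfPlane ModularForm ModularFormClass MatrixGroups CongruenceSubgroup

/-- `σ`-conjugate of a level one modular form. -/
theorem levelOne_conj (σ : ℂ →+* ℂ) (k : ℤ) (f : ℍ → ℂ) (hf : IsMF SLZ k f) :
    ∃ f' : ℍ → ℂ, IsMF SLZ k f' ∧ qx f' = (qx f).map σ := by
  obtain ⟨F, rfl⟩ := hf
  obtain ⟨g, hg⟩ := Fermat.Agent.S23.LevelOne.levelOne_transport_ringHom σ k F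
  exact ⟨g, ⟨g, rfl⟩, hg⟩

/-- `σ`-conjugate of a level one cusp form. -/
theorem levelOne_conj_cusp (σ : ℂ →+* ℂ) (k : ℤ) (f : ℍ → ℂ) (hf : IsCF SLZ k f) :
    ∃ f' : ℍ → ℂ, IsCF SLZ k f' ∧ qx f' = (qx f).map σ := by
  obtain ⟨F, rfl⟩ := hf
  obtain ⟨g, hg⟩ := Fermat.Agent.S23.LevelOne.levelOne_transport_cusp_ringHom σ k F
  exact ⟨g, ⟨g, rfl⟩, hg⟩

/-- q-expansion of `Σ_j b_j t^j` for level one `b_j` and a level `Γ₀(N)` form `t`. -/
theorem qx_sum_mul_pow (N : ℕ) [NeZero N] (w : ℤ) (t : ℍ → ℂ) (ht : IsMF (G0 N) w t)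
    (ν : ℕ) (b : ℕ → ℍ → ℂ) (wt : ℕ → ℤ) (hb : ∀ j < ν, IsMF SLZ (wt j) (b j)) :
    qx (∑ j ∈ Finset.range ν, b j * t ^ j) = ∑ j ∈ Finset.range ν, qx (b j) * qx t ^ j := by
  rw [qx_sum N (Finset.range ν) (fun j => b j * t ^ j) (fun j => wt j + w * j)
    (fun j hj => ((hb j (Finset.mem_range.mp hj)).of_levelOne N).mul (ht.pow j))]
  refine Finset.sum_congr rfl fun j hj => ?_
  rw [qx_mul N ((hb j (Finset.mem_range.mp hj)).of_levelOne N) (ht.pow j), qx_pow N ht]

/-- **WP8 main statement.** -/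
theorem galois_stable (N : ℕ) [NeZero N] (k : ℤ) (σ : ℂ →+* ℂ) (f : ℍ → ℂ)
    (hf : IsCF (G0 N) k f) :
    ∃ g : ℍ → ℂ, IsCF (G0 N) k g ∧ qx g = (qx f).map σ := by
  obtain ⟨w, t, ht, htint, hdist⟩ := exists_tForm N
  obtain ⟨μ, c, hμ, hc, hrel⟩ := exists_monic_relation N k f hf
  obtain ⟨ν, a, b, hν, ha, hb, hU0, hUV⟩ := exists_lagrange N k w f t hf.isMF ht hdist
  have hfM : IsMF (G0 N) k f := hf.isMF
  -- the `σ`-conjugates of the level one coefficients
  choose! c' hc' hc'q using fun i (hi : i < μ) => levelOne_conj_cusp σ _ (c i) (hc i hi)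
  choose! a' ha' ha'q using fun j (hj : j < ν) => levelOne_conj σ _ (a j) (ha j hj)
  choose! b' hb' hb'q using fun j (hj : j < ν) => levelOne_conj σ _ (b j) (hb j hj)
  have htσ : (qx t).map σ = qx t := htint.isRatSeries.map_eq σ
  -- the conjugate numerator and denominator
  have hU : IsMF (G0 N) (w * ((ν : ℤ) - 1)) (∑ j ∈ Finset.range ν, b' j * t ^ j) :=
    IsMF.sum _ _ fun j hj =>
      (((hb' j (Finset.mem_range.mp hj)).of_levelOne N).mul (ht.pow j)).congr_weight (by ring)
  have hV : IsMF (G0 N) (w * ((ν : ℤ) - 1) + k) (∑ j ∈ Finset.range ν, a' j * t ^ j) :=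
    IsMF.sum _ _ fun j hj =>
      (((ha' j (Finset.mem_range.mp hj)).of_levelOne N).mul (ht.pow j)).congr_weight (by ring)
  have hU₀ : IsMF (G0 N) (w * ((ν : ℤ) - 1)) (∑ j ∈ Finset.range ν, b j * t ^ j) :=
    IsMF.sum _ _ fun j hj =>
      (((hb j (Finset.mem_range.mp hj)).of_levelOne N).mul (ht.pow j)).congr_weight (by ring)
  have hqU : qx (∑ j ∈ Finset.range ν, b' j * t ^ j)
      = (qx (∑ j ∈ Finset.range ν, b j * t ^ j)).map σ := by
    rw [qx_sum_mul_pow N w t ht ν b' _ hb', qx_sum_mul_pow N w t ht ν b _ hb, map_sum]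
    refine Finset.sum_congr rfl fun j hj => ?_
    rw [map_mul, map_pow, htσ, hb'q j (Finset.mem_range.mp hj)]
  have hqV : qx (∑ j ∈ Finset.range ν, a' j * t ^ j)
      = (qx (∑ j ∈ Finset.range ν, a j * t ^ j)).map σ := by
    rw [qx_sum_mul_pow N w t ht ν a' _ ha', qx_sum_mul_pow N w t ht ν a _ ha, map_sum]
    refine Finset.sum_congr rfl fun j hj => ?_
    rw [map_mul, map_pow, htσ, ha'q j (Finset.mem_range.mp hj)]
  have hσinj : Function.Injective (PowerSeries.map σ) := by
    intro P Q h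
    ext n
    have := congrArg (PowerSeries.coeff n) h
    simpa using σ.injective this
  have hU0' : (∑ j ∈ Finset.range ν, b' j * t ^ j) ≠ 0 := by
    intro h
    rw [h, qx_zero] at hqU
    have h0 : qx (∑ j ∈ Finset.range ν, b j * t ^ j) = 0 :=
      hσinj (by rw [← hqU, map_zero])
    exact hU0 (eq_zero_of_qx_eq_zero N hU₀ h0)
  have h1 : qx (∑ j ∈ Finset.range ν, b' j * t ^ j) * (qx f).map σ
      = qx (∑ j ∈ Finset.range ν, a' j * t ^ j) := by
    rw [hqU, hqV, ← map_mul, ← qx_mul N hU₀ hfM, hUV]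
  have h2 : ((qx f).map σ) ^ μ
      + ∑ i ∈ Finset.range μ, qx (c' i) * ((qx f).map σ) ^ (μ - 1 - i) = 0 := by
    have h := congrArg qx hrel
    have hterm : ∀ i ∈ Finset.range μ,
        IsMF (G0 N) (k * (i + 1) + k * ((μ - 1 - i : ℕ) : ℤ)) (c i * f ^ (μ - 1 - i)) :=
      fun i hi => (((hc i (Finset.mem_range.mp hi)).isMF).of_levelOne N).mul (hfM.pow _)
    rw [qx_zero, qx_add N (hfM.pow μ) (IsMF.sum (k := k * μ) _ _ fun i hi =>
        (hterm i hi).congr_weight (by
          have : i < μ := Finset.mem_range.mp hi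
          push_cast [Nat.sub_sub, Nat.cast_sub (show 1 + i ≤ μ by omega)]
          ring)),
      qx_pow N hfM, qx_sum N _ _ _ hterm] at h
    have h' := congrArg (PowerSeries.map σ) h
    rw [map_zero, map_add, map_pow, map_sum] at h'
    rw [← h']
    congr 1
    refine Finset.sum_congr rfl fun i hi => ?_
    rw [qx_mul N (((hc i (Finset.mem_range.mp hi)).isMF).of_levelOne N) (hfM.pow _),
      qx_pow N hfM, map_mul, map_pow, hc'q i (Finset.mem_range.mp hi)]
  exact exists_cuspForm_of_relations N k _ _ _ hU hV hU0' μ hμ c' hc' _ h1 h2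

end Fermat.Agent.S23.Cap

end
-- ===== PACK-END S23/Cap/Galois.lean

-- ===== PACK-BEGIN A2/Mod/Asm.lean
section



/-!
# WALL A2 / MODASM — sub-assemblies and the top assembly (row-lead helper13)

`Fermat/Agent/A2/Mod/Spec.lean` (deputy helper994) freezes the concrete leaves L1–L14 and the
level-`M` hypothesis `GoodRedAt`.  This file freezes the five SUB-ASSEMBLIES which turn the leaves
into the fields of `ModSSData` (`ModDefs.lean`), and proves the top assembly
`modSSData_of_parts` (sorry-free).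

Objects (level `N = M * q`, coordinate `x = j · j_q`):

* `chartAlg P E N y` : the chart of the coordinate `y` as a subalgebra
  (`Bf = chartAlg x`, `Bi = chartAlg x⁻¹`);
* `IsCut P E N w V B p` : `p = B ∩ w V` (the component of the special fibre of `B` cut out by
  the valuation ring `V`).

Sub-assemblies (each ONE `Prop`; prove `theorem foo : FooStatement P E M q w` in
`Fermat/Agent/A2/Mod/H<seat>/*.lean`):

* `S1Statement` (two components): for `y ∈ {x, x⁻¹}` there are primes `p∞ = B ∩ w V∞`,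
  `p₀ = B ∩ w V₀`, incomparable, with `p∞ ⊓ p₀ = (w)`.
  [H48 `GaussPair.qep2` from L2, L3, L6, L8, L9, L10; incomparability from `H48.exists_approx`.]
* `S2Statement` (components normal): `B ⧸ p∞`, `B ⧸ p₀` are integrally closed.
  [M4: L11, L13, `GoodRedAt`; `B = α(B_M) + p∞`, `B = β(B_M) + p₀` (L5, L7 for the second).
  NOTE: at infinity `B` is integral over `α(B_M)` only MODULO `p∞` (`1/j_q ≡ (1/j)^q`).]
* `S3Statement` (ordinary double points): `(p∞ ⊔ p₀).IsRadical`.
  [H372 `KronCong.sup_isRadical_of_isDedekindDomain` from L12 (+ L5, L7), S2.]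
* `S4Statement` (`SepCoord`, ROUTE G ONLY).
* `StauStatement` (inertia): `τ x = x`, `τ b - b ∈ w B` on both charts.  [L14 + S1.]
-/

set_option autoImplicit false
set_option linter.unusedSectionVars false
set_option synthInstance.maxHeartbeats 400000
set_option maxHeartbeats 1600000

noncomputable section

namespace Fermat.Agent.A2.Mod

open ModularCurve HahnSeries Polynomial

section Objects

variable (P : ValuationSubring _root_.Fermat.Agent.A2.Mod.Qb) (E : IntermediateField ℚ _root_.Fermat.Agent.A2.Mod.Qb) (N : ℕ)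

/-- The chart of the coordinate `y` as a subalgebra of `F_{N,E}`: the integral closure of
`R_E[y]`. -/
def chartAlg (y : _root_.Fermat.Agent.A2.Mod.FE E N) : Subalgebra (_root_.Fermat.Agent.A2.Mod.RE P E) (_root_.Fermat.Agent.A2.Mod.FE E N) :=
  (integralClosure (Algebra.adjoin (_root_.Fermat.Agent.A2.Mod.RE P E) ({y} : Set (_root_.Fermat.Agent.A2.Mod.FE E N))) (_root_.Fermat.Agent.A2.Mod.FE E N)).restrictScalars
    (_root_.Fermat.Agent.A2.Mod.RE P E)

theorem mem_chartAlg {y f : _root_.Fermat.Agent.A2.Mod.FE E N} :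
    f ∈ chartAlg P E N y ↔ IsIntegral (Algebra.adjoin (_root_.Fermat.Agent.A2.Mod.RE P E) ({y} : Set (_root_.Fermat.Agent.A2.Mod.FE E N))) f :=
  Iff.rfl

/-- `p = B ∩ w V`. -/
def IsCut (w : _root_.Fermat.Agent.A2.Mod.RE P E) (V : ValuationSubring (_root_.Fermat.Agent.A2.Mod.FE E N)) (B : Subalgebra (_root_.Fermat.Agent.A2.Mod.RE P E) (_root_.Fermat.Agent.A2.Mod.FE E N))
    (p : Ideal B) : Prop :=
  ∀ b : B, b ∈ p ↔ InW P E N V w (b : _root_.Fermat.Agent.A2.Mod.FE E N)

end Objects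

section SubAssemblies

variable (P : ValuationSubring _root_.Fermat.Agent.A2.Mod.Qb) (E : IntermediateField ℚ _root_.Fermat.Agent.A2.Mod.Qb) (M q : ℕ) [NeZero M] [NeZero q]
  (w : _root_.Fermat.Agent.A2.Mod.RE P E)

/-- `y` is one of the two coordinates `x`, `x⁻¹` of level `M * q`. -/
def IsCoord (y : _root_.Fermat.Agent.A2.Mod.FE E (M * q)) : Prop := y = xE E M q ∨ y = (xE E M q)⁻¹

/-- The level-`M` coordinate attached to a level-`Mq` coordinate: `j` for `x`, `j⁻¹` for `x⁻¹`. -/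
def IsCoordPair (yM : _root_.Fermat.Agent.A2.Mod.FE E M) (y : _root_.Fermat.Agent.A2.Mod.FE E (M * q)) : Prop :=
  (yM = jE E M 1 (one_dvd _) ∧ y = xE E M q) ∨
    (yM = (jE E M 1 (one_dvd _))⁻¹ ∧ y = (xE E M q)⁻¹)

/-- **S1 (two components).** -/
def S1Statement : Prop :=
  Setting P E M q w →
    ∀ (V : ValuationSubring (_root_.Fermat.Agent.A2.Mod.FE E (M * q))) (W : _root_.Fermat.Agent.A2.Mod.FE E (M * q) ≃ₐ[E] _root_.Fermat.Agent.A2.Mod.FE E (M * q)),
      IsVinf P E (M * q) V → IsFricke E (M * q) W →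
      ∀ y : _root_.Fermat.Agent.A2.Mod.FE E (M * q), IsCoord E M q y →
        ∃ p₁ p₂ : Ideal (chartAlg P E (M * q) y),
          IsCut P E (M * q) w V (chartAlg P E (M * q) y) p₁ ∧
          IsCut P E (M * q) w (V.comap (W : _root_.Fermat.Agent.A2.Mod.FE E (M * q) →+* _root_.Fermat.Agent.A2.Mod.FE E (M * q)))
            (chartAlg P E (M * q) y) p₂ ∧
          p₁.IsPrime ∧ p₂.IsPrime ∧ ¬ p₁ ≤ p₂ ∧ ¬ p₂ ≤ p₁ ∧
          p₁ ⊓ p₂ = Ideal.span {algebraMap (_root_.Fermat.Agent.A2.Mod.RE P E) (chartAlg P E (M * q) y) w}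

/-- **S2 (components normal)**, given good reduction at level `M` in the corresponding chart. -/
def S2Statement : Prop :=
  Setting P E M q w →
    ∀ (VM : ValuationSubring (_root_.Fermat.Agent.A2.Mod.FE E M)) (V : ValuationSubring (_root_.Fermat.Agent.A2.Mod.FE E (M * q)))
      (W : _root_.Fermat.Agent.A2.Mod.FE E (M * q) ≃ₐ[E] _root_.Fermat.Agent.A2.Mod.FE E (M * q)),
      IsVinf P E M VM → IsVinf P E (M * q) V → IsFricke E (M * q) W →
      ∀ (yM : _root_.Fermat.Agent.A2.Mod.FE E M) (y : _root_.Fermat.Agent.A2.Mod.FE E (M * q)), IsCoordPair E M q yM y →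
        GoodRedAt P E M w VM yM →
        ∀ p₁ p₂ : Ideal (chartAlg P E (M * q) y),
          IsCut P E (M * q) w V (chartAlg P E (M * q) y) p₁ →
          IsCut P E (M * q) w (V.comap (W : _root_.Fermat.Agent.A2.Mod.FE E (M * q) →+* _root_.Fermat.Agent.A2.Mod.FE E (M * q)))
            (chartAlg P E (M * q) y) p₂ →
          IsIntegrallyClosed (chartAlg P E (M * q) y ⧸ p₁) ∧
          IsIntegrallyClosed (chartAlg P E (M * q) y ⧸ p₂)

/-- **S3 (ordinary double points)**, given good reduction at level `M`. -/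
def S3Statement : Prop :=
  Setting P E M q w →
    ∀ (VM : ValuationSubring (_root_.Fermat.Agent.A2.Mod.FE E M)) (V : ValuationSubring (_root_.Fermat.Agent.A2.Mod.FE E (M * q)))
      (W : _root_.Fermat.Agent.A2.Mod.FE E (M * q) ≃ₐ[E] _root_.Fermat.Agent.A2.Mod.FE E (M * q)),
      IsVinf P E M VM → IsVinf P E (M * q) V → IsFricke E (M * q) W →
      ∀ (yM : _root_.Fermat.Agent.A2.Mod.FE E M) (y : _root_.Fermat.Agent.A2.Mod.FE E (M * q)), IsCoordPair E M q yM y →
        GoodRedAt P E M w VM yM →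
        ∀ p₁ p₂ : Ideal (chartAlg P E (M * q) y),
          IsCut P E (M * q) w V (chartAlg P E (M * q) y) p₁ →
          IsCut P E (M * q) w (V.comap (W : _root_.Fermat.Agent.A2.Mod.FE E (M * q) →+* _root_.Fermat.Agent.A2.Mod.FE E (M * q)))
            (chartAlg P E (M * q) y) p₂ →
          (p₁ ⊔ p₂).IsRadical

/-- **S4 (separating coordinate; route G only).** -/
def S4Statement : Prop :=
  Setting P E M q w →
    ∀ (VM : ValuationSubring (_root_.Fermat.Agent.A2.Mod.FE E M)), IsVinf P E M VM →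
      GoodRedAt P E M w VM (jE E M 1 (one_dvd _)) →
      GoodRedAt P E M w VM (jE E M 1 (one_dvd _))⁻¹ →
      SepCoord (_root_.Fermat.Agent.A2.Mod.RE P E) E (xE E M q) (chartAlg P E (M * q) (xE E M q)) ∧
        SepCoord (_root_.Fermat.Agent.A2.Mod.RE P E) E (xE E M q)⁻¹ (chartAlg P E (M * q) (xE E M q)⁻¹)

/-- **Sτ (inertia acts trivially on the special fibre of both charts).** -/
def StauStatement : Prop :=
  Setting P E M q w →
    ∀ (τ : _root_.Fermat.Agent.A2.Mod.Qb ≃ₐ[ℚ] _root_.Fermat.Agent.A2.Mod.Qb) (τE : E ≃ₐ[ℚ] E), τ ∈ P.inertiaSubgroupIn ℚ →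
      (∀ e : E, ((τE e : E) : _root_.Fermat.Agent.A2.Mod.Qb) = τ (e : _root_.Fermat.Agent.A2.Mod.Qb)) →
      arithmeticRingAut (modularFunctionFieldFull (M * q)) τE (xE E M q) = xE E M q ∧
      ∀ y : _root_.Fermat.Agent.A2.Mod.FE E (M * q), IsCoord E M q y → ∀ b ∈ chartAlg P E (M * q) y,
        ∃ c ∈ chartAlg P E (M * q) y,
          arithmeticRingAut (modularFunctionFieldFull (M * q)) τE b - b =
            algebraMap (_root_.Fermat.Agent.A2.Mod.RE P E) (_root_.Fermat.Agent.A2.Mod.FE E (M * q)) w * c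

end SubAssemblies

section Top

variable (P : ValuationSubring _root_.Fermat.Agent.A2.Mod.Qb) (E : IntermediateField ℚ _root_.Fermat.Agent.A2.Mod.Qb) (M q : ℕ) [NeZero M] [NeZero q]

/-- The level-`M` hypothesis of MODASM (output of S18 b2): good reduction at level `M` in the
two charts of the coordinate `j`. -/
def GoodRedHyp : Prop :=
  ∀ (w : _root_.Fermat.Agent.A2.Mod.RE P E) (VM : ValuationSubring (_root_.Fermat.Agent.A2.Mod.FE E M)), Irreducible w → IsVinf P E M VM →
    GoodRedAt P E M w VM (jE E M 1 (one_dvd _)) ∧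
      GoodRedAt P E M w VM (jE E M 1 (one_dvd _))⁻¹

/-- The semistable chart `SSChart w (chartAlg y)` from S1, S2, S3. -/
theorem nonempty_ssChart (w : _root_.Fermat.Agent.A2.Mod.RE P E) (hS : Setting P E M q w)
    (hS1 : S1Statement P E M q w) (hS2 : S2Statement P E M q w) (hS3 : S3Statement P E M q w)
    (VM : ValuationSubring (_root_.Fermat.Agent.A2.Mod.FE E M)) (V : ValuationSubring (_root_.Fermat.Agent.A2.Mod.FE E (M * q)))
    (W : _root_.Fermat.Agent.A2.Mod.FE E (M * q) ≃ₐ[E] _root_.Fermat.Agent.A2.Mod.FE E (M * q))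
    (hVM : IsVinf P E M VM) (hV : IsVinf P E (M * q) V) (hW : IsFricke E (M * q) W)
    (yM : _root_.Fermat.Agent.A2.Mod.FE E M) (y : _root_.Fermat.Agent.A2.Mod.FE E (M * q)) (hy : IsCoordPair E M q yM y)
    (hgood : GoodRedAt P E M w VM yM) :
    Nonempty (SSChart w (chartAlg P E (M * q) y)) := by
  have hy' : IsCoord E M q y := by
    rcases hy with ⟨-, h⟩ | ⟨-, h⟩
    · exact Or.inl h
    · exact Or.inr h
  obtain ⟨p₁, p₂, hc₁, hc₂, hp₁, hp₂, h₁₂, h₂₁, hinf⟩ := hS1 hS V W hV hW y hy'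
  obtain ⟨hn₁, hn₂⟩ := hS2 hS VM V W hVM hV hW yM y hy hgood p₁ p₂ hc₁ hc₂
  have hrad := hS3 hS VM V W hVM hV hW yM y hy hgood p₁ p₂ hc₁ hc₂
  exact ⟨{ p₁ := p₁
           p₂ := p₂
           prime₁ := hp₁
           prime₂ := hp₂
           ne := fun h => h₁₂ (h ▸ le_refl p₁)
           not_le₁₂ := h₁₂
           not_le₂₁ := h₂₁
           inf_eq := hinf
           normal₁ := hn₁
           normal₂ := hn₂
           transversal := hrad }⟩

theorem dedekindPsi_pos_of_ne_zero (n : ℕ) (hn : n ≠ 0) : 0 < dedekindPsi n := by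
  unfold dedekindPsi
  have h1 : (1 : ℕ) ∈ n.divisors.filter (fun d => Squarefree d) := by
    simp [hn]
  calc 0 < n / 1 := by simpa using Nat.pos_of_ne_zero hn
    _ ≤ _ := Finset.single_le_sum (f := fun d => n / d) (fun _ _ => Nat.zero_le _) h1

/-- **MODASM, top assembly** (level `M * q`): the leaves L1, L4, L8, the sub-assemblies S1–S4,
Sτ and the level-`M` hypothesis `GoodRedHyp` give the semistable model `ModSSData`. -/
theorem modSSData_of_parts (hq : q.Prime) (hqM : ¬ q ∣ M) (hP : P.LiesOverPrime q)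
    (hdvr : IsDiscreteValuationRing (_root_.Fermat.Agent.A2.Mod.RE P E))
    (hVM : ∃ VM : ValuationSubring (_root_.Fermat.Agent.A2.Mod.FE E M), IsVinf P E M VM)
    (hV : ∃ V : ValuationSubring (_root_.Fermat.Agent.A2.Mod.FE E (M * q)), IsVinf P E (M * q) V)
    (hW : ∃ W : _root_.Fermat.Agent.A2.Mod.FE E (M * q) ≃ₐ[E] _root_.Fermat.Agent.A2.Mod.FE E (M * q), IsFricke E (M * q) W)
    (hDeg : DegStatement E M q)
    (hS1 : ∀ w, S1Statement P E M q w) (hS2 : ∀ w, S2Statement P E M q w)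
    (hS3 : ∀ w, S3Statement P E M q w) (hS4 : ∀ w, S4Statement P E M q w)
    (hSτ : ∀ w, StauStatement P E M q w)
    (hgood : GoodRedHyp P E M) :
    Nonempty (ModSSData P E (M * q)) := by
  obtain ⟨VM, hVM⟩ := hVM
  obtain ⟨V, hV⟩ := hV
  obtain ⟨W, hW⟩ := hW
  obtain ⟨hx, hfr, hconst⟩ := hDeg hq hqM
  have hS : ∀ w : _root_.Fermat.Agent.A2.Mod.RE P E, Irreducible w → Setting P E M q w := fun w hw =>
    { q_prime := hq
      q_not_dvd := hqM
      M_ne_zero := NeZero.ne M
      lies_over := hP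
      dvr := hdvr
      unif := hw }
  obtain ⟨w₀, hw₀⟩ := IsDiscreteValuationRing.exists_irreducible (_root_.Fermat.Agent.A2.Mod.RE P E)
  have hpos : 0 < Module.finrank (IntermediateField.adjoin E ({xE E M q} : Set (_root_.Fermat.Agent.A2.Mod.FE E (M * q))))
      (_root_.Fermat.Agent.A2.Mod.FE E (M * q)) := by
    rw [hfr]
    have h1 := dedekindPsi_pos_of_ne_zero M (NeZero.ne M)
    positivity
  have hfin : FiniteDimensional (IntermediateField.adjoin E ({xE E M q} : Set (_root_.Fermat.Agent.A2.Mod.FE E (M * q))))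
      (_root_.Fermat.Agent.A2.Mod.FE E (M * q)) := Module.finite_of_finrank_pos hpos
  have hg₀ := hgood w₀ VM hw₀ hVM
  have hsep := hS4 w₀ (hS w₀ hw₀) VM hVM hg₀.1 hg₀.2
  exact ⟨{ x := xE E M q
           hx := hx
           hfin := hfin
           hconst := hconst
           Bf := chartAlg P E (M * q) (xE E M q)
           Bi := chartAlg P E (M * q) (xE E M q)⁻¹
           hBf := fun _ => Iff.rfl
           hBi := fun _ => Iff.rfl
           cf := fun w hw => nonempty_ssChart P E M q w (hS w hw) (hS1 w) (hS2 w) (hS3 w)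
             VM V W hVM hV hW _ _ (Or.inl ⟨rfl, rfl⟩) (hgood w VM hw hVM).1
           ci := fun w hw => nonempty_ssChart P E M q w (hS w hw) (hS1 w) (hS2 w) (hS3 w)
             VM V W hVM hV hW _ _ (Or.inr ⟨rfl, rfl⟩) (hgood w VM hw hVM).2
           sf := hsep.1
           si := hsep.2
           hτx := fun hE τ hτ => ((hSτ w₀) (hS w₀ hw₀) τ (hE.res τ hτ) hτ (fun _ => rfl)).1
           hτf := fun hE τ hτ w hw b hb =>
             ((hSτ w) (hS w hw) τ (hE.res τ hτ) hτ (fun _ => rfl)).2 _ (Or.inl rfl) b hb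
           hτi := fun hE τ hτ w hw b hb =>
             ((hSτ w) (hS w hw) τ (hE.res τ hτ) hτ (fun _ => rfl)).2 _ (Or.inr rfl) b hb }⟩

/-- **MODASM, top assembly without `SepCoord`** (route S; shape of the hypothesis `hMOD` of
`T1.H849.kummerTarget_of_parts_of` with `SS := SSChart`, `Sep := True`). -/
theorem exists_model_of_parts (hq : q.Prime) (hqM : ¬ q ∣ M) (hP : P.LiesOverPrime q)
    (hdvr : IsDiscreteValuationRing (_root_.Fermat.Agent.A2.Mod.RE P E))
    (hVM : ∃ VM : ValuationSubring (_root_.Fermat.Agent.A2.Mod.FE E M), IsVinf P E M VM)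
    (hV : ∃ V : ValuationSubring (_root_.Fermat.Agent.A2.Mod.FE E (M * q)), IsVinf P E (M * q) V)
    (hW : ∃ W : _root_.Fermat.Agent.A2.Mod.FE E (M * q) ≃ₐ[E] _root_.Fermat.Agent.A2.Mod.FE E (M * q), IsFricke E (M * q) W)
    (hDeg : DegStatement E M q)
    (hS1 : ∀ w, S1Statement P E M q w) (hS2 : ∀ w, S2Statement P E M q w)
    (hS3 : ∀ w, S3Statement P E M q w) (hSτ : ∀ w, StauStatement P E M q w)
    (hgood : GoodRedHyp P E M) :
    ∃ (x : _root_.Fermat.Agent.A2.Mod.FE E (M * q)) (Bf Bi : Subalgebra (_root_.Fermat.Agent.A2.Mod.RE P E) (_root_.Fermat.Agent.A2.Mod.FE E (M * q))),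
      Transcendental E x ∧
      FiniteDimensional (IntermediateField.adjoin E ({x} : Set (_root_.Fermat.Agent.A2.Mod.FE E (M * q)))) (_root_.Fermat.Agent.A2.Mod.FE E (M * q)) ∧
      (∀ f : _root_.Fermat.Agent.A2.Mod.FE E (M * q), IsAlgebraic E f → f ∈ (algebraMap E (_root_.Fermat.Agent.A2.Mod.FE E (M * q))).range) ∧
      (∀ f : _root_.Fermat.Agent.A2.Mod.FE E (M * q), f ∈ Bf ↔
        IsIntegral (Algebra.adjoin (_root_.Fermat.Agent.A2.Mod.RE P E) ({x} : Set (_root_.Fermat.Agent.A2.Mod.FE E (M * q)))) f) ∧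
      (∀ f : _root_.Fermat.Agent.A2.Mod.FE E (M * q), f ∈ Bi ↔
        IsIntegral (Algebra.adjoin (_root_.Fermat.Agent.A2.Mod.RE P E) ({x⁻¹} : Set (_root_.Fermat.Agent.A2.Mod.FE E (M * q)))) f) ∧
      (∀ w : _root_.Fermat.Agent.A2.Mod.RE P E, Irreducible w → Nonempty (SSChart w Bf)) ∧
      (∀ w : _root_.Fermat.Agent.A2.Mod.RE P E, Irreducible w → Nonempty (SSChart w Bi)) ∧
      (∀ τ ∈ P.inertiaSubgroupIn ℚ, ∀ τE : E ≃ₐ[ℚ] E,
        (∀ e : E, ((τE e : E) : _root_.Fermat.Agent.A2.Mod.Qb) = τ (e : _root_.Fermat.Agent.A2.Mod.Qb)) →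
        arithmeticRingAut (modularFunctionFieldFull (M * q)) τE x = x) ∧
      (∀ τ ∈ P.inertiaSubgroupIn ℚ, ∀ τE : E ≃ₐ[ℚ] E,
        (∀ e : E, ((τE e : E) : _root_.Fermat.Agent.A2.Mod.Qb) = τ (e : _root_.Fermat.Agent.A2.Mod.Qb)) →
        ∀ w : _root_.Fermat.Agent.A2.Mod.RE P E, Irreducible w → ∀ b ∈ Bf, ∃ c ∈ Bf,
          arithmeticRingAut (modularFunctionFieldFull (M * q)) τE b - b =
            algebraMap (_root_.Fermat.Agent.A2.Mod.RE P E) (_root_.Fermat.Agent.A2.Mod.FE E (M * q)) w * c) ∧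
      (∀ τ ∈ P.inertiaSubgroupIn ℚ, ∀ τE : E ≃ₐ[ℚ] E,
        (∀ e : E, ((τE e : E) : _root_.Fermat.Agent.A2.Mod.Qb) = τ (e : _root_.Fermat.Agent.A2.Mod.Qb)) →
        ∀ w : _root_.Fermat.Agent.A2.Mod.RE P E, Irreducible w → ∀ b ∈ Bi, ∃ c ∈ Bi,
          arithmeticRingAut (modularFunctionFieldFull (M * q)) τE b - b =
            algebraMap (_root_.Fermat.Agent.A2.Mod.RE P E) (_root_.Fermat.Agent.A2.Mod.FE E (M * q)) w * c) := by
  obtain ⟨VM, hVM⟩ := hVM
  obtain ⟨V, hV⟩ := hV
  obtain ⟨W, hW⟩ := hW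
  obtain ⟨hx, hfr, hconst⟩ := hDeg hq hqM
  have hS : ∀ w : _root_.Fermat.Agent.A2.Mod.RE P E, Irreducible w → Setting P E M q w := fun w hw =>
    { q_prime := hq
      q_not_dvd := hqM
      M_ne_zero := NeZero.ne M
      lies_over := hP
      dvr := hdvr
      unif := hw }
  obtain ⟨w₀, hw₀⟩ := IsDiscreteValuationRing.exists_irreducible (_root_.Fermat.Agent.A2.Mod.RE P E)
  have hpos : 0 < Module.finrank (IntermediateField.adjoin E ({xE E M q} : Set (_root_.Fermat.Agent.A2.Mod.FE E (M * q))))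
      (_root_.Fermat.Agent.A2.Mod.FE E (M * q)) := by
    rw [hfr]
    have h1 := dedekindPsi_pos_of_ne_zero M (NeZero.ne M)
    positivity
  have hfin : FiniteDimensional (IntermediateField.adjoin E ({xE E M q} : Set (_root_.Fermat.Agent.A2.Mod.FE E (M * q))))
      (_root_.Fermat.Agent.A2.Mod.FE E (M * q)) := Module.finite_of_finrank_pos hpos
  refine ⟨xE E M q, chartAlg P E (M * q) (xE E M q), chartAlg P E (M * q) (xE E M q)⁻¹,
    hx, hfin, hconst, fun _ => Iff.rfl, fun _ => Iff.rfl, ?_, ?_, ?_, ?_, ?_⟩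
  · exact fun w hw => nonempty_ssChart P E M q w (hS w hw) (hS1 w) (hS2 w) (hS3 w)
      VM V W hVM hV hW _ _ (Or.inl ⟨rfl, rfl⟩) (hgood w VM hw hVM).1
  · exact fun w hw => nonempty_ssChart P E M q w (hS w hw) (hS1 w) (hS2 w) (hS3 w)
      VM V W hVM hV hW _ _ (Or.inr ⟨rfl, rfl⟩) (hgood w VM hw hVM).2
  · exact fun τ hτ τE hτE => ((hSτ w₀) (hS w₀ hw₀) τ τE hτ hτE).1
  · exact fun τ hτ τE hτE w hw b hb =>
      ((hSτ w) (hS w hw) τ τE hτ hτE).2 _ (Or.inl rfl) b hb
  · exact fun τ hτ τE hτE w hw b hb =>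
      ((hSτ w) (hS w hw) τ τE hτ hτE).2 _ (Or.inr rfl) b hb

end Top

end Fermat.Agent.A2.Mod

end
end
-- ===== PACK-END A2/Mod/Asm.lean

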