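import Mathlib
import Fermat.Prelude.Def_AlgebraicCurve_DivisorClassGroup
import Fermat.Prelude.Def_FLTPrelim_Ramification
import Fermat.Agent.Pack.S36.E11L3
import Fermat.Agent.Pack.S36.E11L2
import Fermat.Agent.Pack.S36.E11L1
import Fermat.Agent.Pack.S36.E0L0
import Fermat.Agent.Pack.S36.E11L0
import Fermat.Agent.Pack.S36.E1L1
import Fermat.Agent.Pack.S36.E10L3
import Fermat.Agent.Pack.S36.E10L2
import Fermat.Agent.Pack.S36.E8L0
import Fermat.Agent.Pack.S36.E9L3
import Fermat.Agent.Pack.S36.E10L0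
import Fermat.Agent.Pack.S36.E9L2
import Fermat.Agent.Pack.S36.E3L3
import Fermat.Agent.Pack.S36.E3L1

-- ===== PACK-BEGIN S36/H36/NewInv.lean
section
/-
S36 mid layer (helper36): the adic eigenmodule of the NEW part, without inertia invariants.

`exists_adic_galois_eigenmodule_inv` : helper529's `exists_adic_galois_eigenmodule` plus the
no-invariants transfer of `TateInv.lean`.

`exists_adic_eigenmodule_new_inv` : helper991's `exists_adic_eigenmodule_new` (eigenmodule built
inside `newSub f = {x | ∀ γ c, f c (γ • x) = 0}`) plus the no-invariants transfer: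

  if `H ⊆ Gal(ℚ̄/ℚ)` fixes only a part killed by `p ^ k` of the `p`-power torsion of the new
  subgroup, then `H` has no nonzero fixed vector in the eigenmodule.
-/


set_option autoImplicit false
set_option linter.unusedSectionVars false

namespace Fermat.Agent.S36.H36

open IsLocalRing TensorProduct Fermat.Agent.S30.H529 Fermat.Agent.S35.H991

noncomputable section

/-- The absolute Galois group of `ℚ`. -/
local notation "Γℚ" => (AlgebraicClosure ℚ ≃ₐ[ℚ] AlgebraicClosure ℚ)

section Galois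

variable (p : ℕ)
variable (O : Type) [CommRing O] [IsDomain O] [IsDiscreteValuationRing O]
  [IsAdicComplete (maximalIdeal O) O] [CharZero O]
variable (J : Type) [AddCommGroup J] [DistribMulAction Γℚ J]
variable {ι : Type*} (T : ι → J →+ J) (a : ι → O)

/-- **Adic eigenmodule from a smooth Galois module with finite `p`-torsion**, with the
no-invariants transfer. -/
theorem exists_adic_galois_eigenmodule_inv (hpO : (p : O) ∈ maximalIdeal O) (hp0 : p ≠ 0)
    (hT : ∀ (i : ι) (γ : Γℚ) (x : J), T i (γ • x) = γ • T i x)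
    (hfin : {x : J | p • x = 0}.Finite)
    (hsm : ∀ x : J, (∃ n : ℕ, p ^ n • x = 0) →
      ∃ L : IntermediateField ℚ (AlgebraicClosure ℚ), FiniteDimensional ℚ L ∧
        ∀ σ : Γℚ, (∀ y ∈ L, σ y = y) → σ • x = x)
    (v : ℕ → O ⊗[ℤ] J) (hv0 : (p : O) • v 0 = 0) (hv : ∀ n, (p : O) • v (n + 1) = v n)
    (hne : v ≠ 0) (heig : ∀ i n, tensorOp O T i (v n) = a i • v n) :
    ∃ (M : Type) (_ : AddCommGroup M) (_ : Module O M) (_ : Module.Free O M)
      (_ : Module.Finite O M) (ρ : Γℚ →* Module.End O M),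
      Nontrivial M ∧ GaloisActionIsAdicContinuous O ρ ∧
      (∀ γ : Γℚ, (∀ x : J, (∃ n : ℕ, p ^ n • x = 0) → γ • x = x) → ρ γ = 1) ∧
      (∀ (γ : Γℚ) (i : ι) (c : ℤ),
        (∀ x : J, (∃ n : ℕ, p ^ n • x = 0) → γ • γ • x - T i (γ • x) + c • x = 0) →
        ρ γ * ρ γ - a i • ρ γ + (c : O) • (1 : Module.End O M) = 0) ∧
      (∀ (H : Set Γℚ) (k : ℕ),
        (∀ x : J, (∃ n : ℕ, p ^ n • x = 0) → (∀ τ ∈ H, τ • x = x) → p ^ k • x = 0) →
        ∀ m : M, (∀ τ ∈ H, ρ τ m = m) → m = 0) := by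
  obtain ⟨M, i1, i2, i3, i4, ρ, hnt, hcont, hunr, hquad, hinv⟩ :=
    exists_adic_eigenmodule_inv p O J T a hpO hp0 hT hfin v hv0 hv hne heig
  refine ⟨M, i1, i2, i3, i4, ρ, hnt, ?_, hunr, hquad, hinv⟩
  intro n
  obtain ⟨L, hL, hLfix⟩ := exists_common_level {x : J | p ^ n • x = 0}
    (finite_torsion_pow J p hfin n) (fun x hx => hsm x ⟨n, hx⟩)
  exact ⟨L, hL, fun σ hσ m => hcont n σ (fun x hx => hLfix σ hσ x hx) m⟩

end Galois

section New

variable {O : Type} [CommRing O] [IsDomain O] [IsDiscreteValuationRing O]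
  [IsAdicComplete (maximalIdeal O) O] [CharZero O]

/-- **The adic eigenmodule of the new part, with the no-invariants transfer.** -/
theorem exists_adic_eigenmodule_new_inv {p : ℕ} (hpO : (p : O) ∈ maximalIdeal O) (hp0 : p ≠ 0)
    {J : Type} [AddCommGroup J] [DistribMulAction Γℚ J]
    {ι : Type} (T : ι → J →+ J) (a : ι → O)
    (hT : ∀ (i : ι) (γ : Γℚ) (x : J), T i (γ • x) = γ • T i x)
    (hfin : {x : J | p • x = 0}.Finite)
    (hsm : ∀ x : J, (∃ n : ℕ, p ^ n • x = 0) →
      ∃ L : IntermediateField ℚ (AlgebraicClosure ℚ), FiniteDimensional ℚ L ∧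
        ∀ σ : Γℚ, (∀ y ∈ L, σ y = y) → σ • x = x)
    {C : Type} {J' : C → Type} [∀ c, AddCommGroup (J' c)]
    (T' : ∀ c, ι → J' c →+ J' c) (f : ∀ c, J →+ J' c)
    (hf : ∀ (c : C) (i : ι) (x : J), f c (T i x) = T' c i (f c x))
    (hexcl : ∀ (c : C) (z : ℕ → O ⊗[ℤ] J' c), (p : O) • z 0 = 0 →
      (∀ n, (p : O) • z (n + 1) = z n) →
      (∀ i n, tensorOp O (T' c) i (z n) = a i • z n) → z = 0)
    (v : ℕ → O ⊗[ℤ] J) (hv0 : (p : O) • v 0 = 0) (hv : ∀ n, (p : O) • v (n + 1) = v n)
    (hne : v ≠ 0) (heig : ∀ i n, tensorOp O T i (v n) = a i • v n) :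
    ∃ (M : Type) (_ : AddCommGroup M) (_ : Module O M) (_ : Module.Free O M)
      (_ : Module.Finite O M) (ρ : Γℚ →* Module.End O M),
      Nontrivial M ∧ GaloisActionIsAdicContinuous O ρ ∧
      (∀ γ : Γℚ,
        (∀ x : J, (∃ n : ℕ, p ^ n • x = 0) → (∀ (γ' : Γℚ) (c : C), f c (γ' • x) = 0) →
          γ • x = x) → ρ γ = 1) ∧
      (∀ (γ : Γℚ) (i : ι) (c : ℤ),
        (∀ x : J, (∃ n : ℕ, p ^ n • x = 0) → (∀ (γ' : Γℚ) (c' : C), f c' (γ' • x) = 0) →
          γ • γ • x - T i (γ • x) + c • x = 0) →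
        ρ γ * ρ γ - a i • ρ γ + (c : O) • (1 : Module.End O M) = 0) ∧
      (∀ (H : Set Γℚ) (k : ℕ),
        (∀ x : J, (∃ n : ℕ, p ^ n • x = 0) → (∀ (γ' : Γℚ) (c' : C), f c' (γ' • x) = 0) →
          (∀ τ ∈ H, τ • x = x) → p ^ k • x = 0) →
        ∀ m : M, (∀ τ ∈ H, ρ τ m = m) → m = 0) := by
  classical
  -- the new subgroup, with its Galois action
  let K : Submodule ℤ J := newSub Γℚ f
  letI actK : DistribMulAction Γℚ K := newSubAction f
  have hsmulK : ∀ (γ : Γℚ) (x : K), ((γ • x : K) : J) = γ • (x : J) := fun _ _ => rfl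
  -- the operators on `K`
  have hTK : ∀ (i : ι) (x : J), x ∈ K → T i x ∈ K := by
    intro i x hx γ c
    rw [← hT, hf, hx γ c, map_zero]
  let TK : ι → K →+ K := fun i =>
      { toFun := fun x => ⟨T i (x : J), hTK i (x : J) x.2⟩
        map_zero' := Subtype.ext (map_zero (T i))
        map_add' := fun x y => Subtype.ext (map_add (T i) (x : J) (y : J)) }
  have hTKl : ∀ (i : ι) (x : K), ((TK i x : K) : J) = T i (x : J) := fun _ _ => rfl
  have hTKG : ∀ (i : ι) (γ : Γℚ) (x : K), TK i (γ • x) = γ • TK i x := by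
    intro i γ x
    apply Subtype.ext
    rw [hTKl, hsmulK, hsmulK, hTKl]
    exact hT i γ (x : J)
  have hcoe_pow : ∀ (n : ℕ) (x : K), p ^ n • x = 0 → p ^ n • (x : J) = 0 := by
    intro n x hn
    have : ((p ^ n • x : K) : J) = 0 := by rw [hn]; rfl
    exact this
  have hfinK : {x : K | p • x = 0}.Finite := by
    refine Set.Finite.of_finite_image (f := fun x : K => (x : J)) ?_
      (fun x _ y _ h => Subtype.ext h)
    refine hfin.subset ?_
    rintro _ ⟨x, hx, rfl⟩
    show p • (x : J) = 0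
    have : ((p • x : K) : J) = 0 := by rw [hx]; rfl
    exact this
  have hsmK : ∀ x : K, (∃ n : ℕ, p ^ n • x = 0) →
      ∃ L : IntermediateField ℚ (AlgebraicClosure ℚ), FiniteDimensional ℚ L ∧
        ∀ σ : Γℚ, (∀ y ∈ L, σ y = y) → σ • x = x := by
    rintro x ⟨n, hn⟩
    obtain ⟨L, hL, hLx⟩ := hsm (x : J) ⟨n, hcoe_pow n x hn⟩
    exact ⟨L, hL, fun σ hσ => Subtype.ext (hLx σ hσ)⟩
  -- the eigen-sequence lies in `O ⊗ K`
  have hvpow : ∀ n, ((p ^ (n + 1) : ℕ) : ℤ) • v n = 0 := by
    intro n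
    have h1 : (p : O) ^ (n + 1) • v n = 0 :=
      tate_pow_succ_smul (ϖ := (p : O)) (t := tensorOp O T) (a := a) ⟨hv0, hv, heig⟩ n
    rw [← natCast_pow_smul]
    exact h1
  have hinj : Function.Injective (K.subtype.baseChange O) := by
    have := Module.Flat.lTensor_preserves_injective_linearMap (M := O) K.subtype
      K.injective_subtype
    exact this
  -- vanishing of the images under the degeneracy maps
  have hvan : ∀ (γ : Γℚ) (c : C) (n : ℕ),
      ((f c).toIntLinearMap.comp (actLin J γ)).baseChange O (v n) = 0 := by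
    intro γ c n
    have hz := hexcl c (fun n => ((f c).toIntLinearMap.comp (actLin J γ)).baseChange O (v n))
      (by rw [← map_smul, hv0, map_zero])
      (fun n => by rw [← map_smul, hv n])
      (fun i n => by
        show ((T' c i).toIntLinearMap.baseChange O)
            (((f c).toIntLinearMap.comp (actLin J γ)).baseChange O (v n))
          = a i • ((f c).toIntLinearMap.comp (actLin J γ)).baseChange O (v n)
        have h1 : (T' c i).toIntLinearMap.comp ((f c).toIntLinearMap.comp (actLin J γ))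
            = ((f c).toIntLinearMap.comp (actLin J γ)).comp (T i).toIntLinearMap := by
          apply LinearMap.ext
          intro x
          show T' c i (f c (γ • x)) = f c (γ • T i x)
          rw [← hT, hf]
        rw [← LinearMap.comp_apply, ← LinearMap.baseChange_comp, h1, LinearMap.baseChange_comp,
          LinearMap.comp_apply]
        have h2 : (T i).toIntLinearMap.baseChange O (v n) = a i • v n := heig i n
        rw [h2, map_smul])
    exact congrFun hz n
  have hlift : ∀ n, ∃ s : O ⊗[ℤ] K, K.subtype.baseChange O s = v n := by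
    intro n
    have hfin' : {x : J | p ^ (n + 1) • x = 0}.Finite := finite_torsion_pow J p hfin (n + 1)
    obtain ⟨s, hs⟩ := exists_lTensor_subtype_eq O (p ^ (n + 1)) hfin'
      (C := Γℚ × C) (J' := fun γc => J' γc.2)
      (fun γc => (f γc.2).toIntLinearMap.comp (actLin J γc.1)) K
      (fun x _ hx γ c => hx (γ, c)) (v n) (hvpow n) (fun γc => hvan γc.1 γc.2 n)
    exact ⟨s, hs⟩
  choose s hs using hlift
  have hs0 : (p : O) • s 0 = 0 := by
    apply hinj
    rw [map_smul, hs, hv0, map_zero]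
  have hss : ∀ n, (p : O) • s (n + 1) = s n := by
    intro n
    apply hinj
    rw [map_smul, hs, hs, hv n]
  have hsne : s ≠ 0 := by
    intro h
    apply hne
    funext n
    rw [← hs n, h]
    simp
  have hseig : ∀ i n, tensorOp O TK i (s n) = a i • s n := by
    intro i n
    apply hinj
    show K.subtype.baseChange O ((TK i).toIntLinearMap.baseChange O (s n))
      = K.subtype.baseChange O (a i • s n)
    have h1 : K.subtype.comp (TK i).toIntLinearMap
        = (T i).toIntLinearMap.comp K.subtype := by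
      apply LinearMap.ext
      intro x
      rfl
    rw [← LinearMap.comp_apply, ← LinearMap.baseChange_comp, h1, LinearMap.baseChange_comp,
      LinearMap.comp_apply, hs, map_smul, hs]
    exact heig i n
  obtain ⟨M, i1, i2, i3, i4, ρ, hnt, hcont, hunr, hquad, hinv⟩ :=
    exists_adic_galois_eigenmodule_inv p O K TK a hpO hp0 hTKG hfinK hsmK s hs0 hss hsne hseig
  refine ⟨M, i1, i2, i3, i4, ρ, hnt, hcont, ?_, ?_, ?_⟩
  · intro γ hγ
    refine hunr γ ?_
    rintro x ⟨n, hn⟩
    apply Subtype.ext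
    rw [hsmulK]
    exact hγ (x : J) ⟨n, hcoe_pow n x hn⟩ x.2
  · intro γ i c hγ
    refine hquad γ i c ?_
    rintro x ⟨n, hn⟩
    apply Subtype.ext
    exact hγ (x : J) ⟨n, hcoe_pow n x hn⟩ x.2
  · intro H k hH
    refine hinv H k ?_
    rintro x ⟨n, hn⟩ hfix
    apply Subtype.ext
    have h1 := hH (x : J) ⟨n, hcoe_pow n x hn⟩ x.2
      (fun τ hτ => by
        have := congrArg (Subtype.val) (hfix τ hτ)
        exact this)
    exact h1

end New

end

end Fermat.Agent.S36.H36

end
-- ===== PACK-END S36/H36/NewInv.lean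

-- ===== PACK-BEGIN S24/FFIdentity.lean
section




/-!
# S24 / FF layer: the fundamental identity `∑_{v(t) > 0} ord_v(t) = [F : K(t)]`
(helper804)
-/

set_option autoImplicit false
set_option linter.unusedSectionVars false

namespace Fermat.Agent.S24.FF

open AlgebraicCurve Polynomial IntermediateField IsDedekindDomain

open scoped IntermediateField.algebraAdjoinAdjoin

/-- Abstract criterion: if every element of `S` is congruent mod `q` to an element of `R`,
the inertia degree of `q` is one. -/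
theorem inertiaDeg_eq_one_of_forall_exists {R S : Type*} [CommRing R] [CommRing S] [Algebra R S]
    (p : Ideal R) (q : Ideal S) [q.LiesOver p] [p.IsMaximal] [q.IsMaximal]
    (h : ∀ s : S, ∃ r : R, s - algebraMap R S r ∈ q) : q.inertiaDeg R = 1 := by
  rw [Ideal.inertiaDeg_eq_of_isMaximal p q]
  let _ : Field (R ⧸ p) := Ideal.Quotient.field _
  rw [finrank_eq_one_iff_of_nonzero' (1 : S ⧸ q) one_ne_zero]
  intro w
  obtain ⟨s, rfl⟩ := Ideal.Quotient.mk_surjective w
  obtain ⟨r, hr⟩ := h s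
  refine ⟨Ideal.Quotient.mk _ r, ?_⟩
  rw [Algebra.smul_def, mul_one, Ideal.Quotient.algebraMap_mk_of_liesOver, eq_comm,
    Ideal.Quotient.eq]
  exact hr

variable {K F : Type*} [Field K] [Field F] [Algebra K F] {t : F}

instance instTowerCoordIntRing : IsScalarTower (coordRing K t) (intRing K t) F :=
  IsScalarTower.of_algebraMap_eq (fun _ => rfl)

section

variable [CharZero K] [IsCoord K t]

theorem t_ne_zero (ht : Transcendental K t) : t ≠ 0 := by
  rintro rfl
  exact ht isAlgebraic_zero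

theorem tS_ne_zero : tS K t ≠ 0 := by
  intro h
  apply t_ne_zero (IsCoord.transcendental (K := K) (t := t))
  have := congrArg (fun s : intRing K t => (s : F)) h
  simpa using this

theorem irreducible_tR : Irreducible (tR K t) := by
  have h := Polynomial.irreducible_X (R := K)
  have e := algEquivOfTranscendental K t (IsCoord.transcendental (K := K) (t := t))
  rw [tR, ← algEquivOfTranscendental_apply_X K t (IsCoord.transcendental (K := K) (t := t))]
  exact (MulEquiv.irreducible_iff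
    (algEquivOfTranscendental K t (IsCoord.transcendental (K := K) (t := t)))).mpr h

variable (K t) in
/-- The maximal ideal `(t)` of `K[t]`. -/
def tIdeal : Ideal (coordRing K t) := Ideal.span {tR K t}

instance tIdeal_isMaximal : (tIdeal K t).IsMaximal :=
  PrincipalIdealRing.isMaximal_of_irreducible irreducible_tR

theorem map_tIdeal :
    (tIdeal K t).map (algebraMap (coordRing K t) (intRing K t)) = Ideal.span {tS K t} := by
  rw [tIdeal, Ideal.map_span, Set.image_singleton]
  rfl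

theorem map_tIdeal_ne_bot :
    (tIdeal K t).map (algebraMap (coordRing K t) (intRing K t)) ≠ ⊥ := by
  rw [map_tIdeal, Ne, Ideal.span_singleton_eq_bot]
  exact tS_ne_zero

theorem liesOver_iff (q : Ideal (intRing K t)) [hq : q.IsPrime] :
    q.LiesOver (tIdeal K t) ↔ tS K t ∈ q := by
  constructor
  · intro h
    have : tR K t ∈ q.under (coordRing K t) := by
      rw [← h.over]
      exact Ideal.subset_span rfl
    exact this
  · intro h
    refine ⟨?_⟩
    apply (tIdeal_isMaximal (K := K) (t := t)).eq_of_le (Ideal.IsPrime.under _ q).ne_top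
    rw [tIdeal, Ideal.span_le, Set.singleton_subset_iff]
    exact h

/-- `ord_v(t)` at the place of a prime `q` over `(t)` is the ramification index of `q`. -/
theorem ord_t_eq_ramificationIdx (q : HeightOneSpectrum (intRing K t))
    [hq : q.asIdeal.LiesOver (tIdeal K t)] :
    (placeOfPrime K t q).ord t = (q.asIdeal.ramificationIdx (coordRing K t) : ℤ) := by
  have := q.isPrime
  rw [Ideal.IsDedekindDomain.ramificationIdx_eq_multiplicity (tIdeal K t) q.asIdeal
    map_tIdeal_ne_bot, map_tIdeal, ord_placeOfPrime]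
  have h1 : q.valuation F t = q.intValuation (tS K t) := q.valuation_of_algebraMap (tS K t)
  rw [h1, q.intValuation_eq_exp_neg_multiplicity tS_ne_zero]
  simp

/-- The residue degree of every prime over `(t)` is one. -/
theorem inertiaDeg_eq_one [IsAlgClosed K] (q : HeightOneSpectrum (intRing K t))
    [hq : q.asIdeal.LiesOver (tIdeal K t)] :
    q.asIdeal.inertiaDeg (coordRing K t) = 1 := by
  have : q.asIdeal.IsMaximal := q.isPrime.isMaximal q.ne_bot
  refine inertiaDeg_eq_one_of_forall_exists (tIdeal K t) q.asIdeal fun s => ?_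
  have hsO : (s : F) ∈ (placeOfPrime K t q).toValuationSubring :=
    mem_of_mem_intRing _ (ord_t_placeOfPrime_nonneg q) s.2
  obtain ⟨a, ha⟩ := exists_const_sub_mem_nonunits (placeOfPrime K t q)
    (IsCoord.transcendental (K := K) (t := t)) hsO
  refine ⟨algebraMap K (coordRing K t) a, ?_⟩
  rw [← center_placeOfPrime q, mem_center_iff]
  exact ha

/-- The height-one prime attached to a prime over `(t)`. -/
def primeOfOver (q : (tIdeal K t).primesOver (intRing K t)) :
    HeightOneSpectrum (intRing K t) :=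
  ⟨q.1, q.2.1, fun h => tS_ne_zero (K := K) (t := t) (by
    have h1 := (liesOver_iff q.1 (hq := q.2.1)).mp q.2.2
    rw [h] at h1
    exact h1)⟩

@[simp] theorem primeOfOver_asIdeal (q : (tIdeal K t).primesOver (intRing K t)) :
    (primeOfOver q).asIdeal = q.1 := rfl

instance primeOfOver_liesOver (q : (tIdeal K t).primesOver (intRing K t)) :
    (primeOfOver q).asIdeal.LiesOver (tIdeal K t) := q.2.2

/-- The place attached to a prime over `(t)`. -/
noncomputable def placeOfOver (q : (tIdeal K t).primesOver (intRing K t)) : Place K F :=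
  placeOfPrime K t (primeOfOver q)

theorem placeOfOver_injective :
    Function.Injective (placeOfOver : (tIdeal K t).primesOver (intRing K t) → Place K F) := by
  intro q q' h
  have := placeOfPrime_injective h
  apply Subtype.ext
  exact congrArg HeightOneSpectrum.asIdeal this

theorem ord_t_placeOfOver_pos (q : (tIdeal K t).primesOver (intRing K t)) :
    0 < (placeOfOver q).ord t := by
  rw [placeOfOver, ord_t_placeOfPrime_pos_iff (t_ne_zero (IsCoord.transcendental (K := K)))]
  exact (liesOver_iff q.1 (hq := q.2.1)).mp q.2.2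

theorem exists_placeOfOver_eq (v : Place K F) (ht : 0 < v.ord t) :
    ∃ q : (tIdeal K t).primesOver (intRing K t), placeOfOver q = v := by
  have ht0 : t ≠ 0 := t_ne_zero (IsCoord.transcendental (K := K))
  have hmem : tS K t ∈ center v ht.le :=
    (mem_center_iff v ht.le _).mpr ((ord_pos_iff_mem_nonunits v ht0).mp ht)
  refine ⟨⟨center v ht.le, center_isPrime v ht.le, (liesOver_iff _).mpr hmem⟩, ?_⟩
  exact placeOfPrime_centerPrime v ht

theorem range_placeOfOver :
    Set.range (placeOfOver : (tIdeal K t).primesOver (intRing K t) → Place K F) =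
      {v : Place K F | 0 < v.ord t} := by
  ext v
  constructor
  · rintro ⟨q, rfl⟩
    exact ord_t_placeOfOver_pos q
  · intro hv
    exact exists_placeOfOver_eq v hv

theorem sum_placeOfOver [IsAlgClosed K] :
    ∑ q : (tIdeal K t).primesOver (intRing K t), (placeOfOver q).ord t =
      (Module.finrank K⟮t⟯ F : ℤ) := by
  have h := Ideal.sum_ramification_inertia_eq_finrank (tIdeal K t) (intRing K t)
  rw [IsFractionRing.finrank_eq (coordRing K t) K⟮t⟯ (intRing K t) F, ← h]
  push_cast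
  refine Finset.sum_congr rfl fun q _ => ?_
  have h1 := inertiaDeg_eq_one (primeOfOver q)
  rw [primeOfOver_asIdeal] at h1
  rw [placeOfOver, ord_t_eq_ramificationIdx (primeOfOver q), h1]
  simp

end

section final

/-- **Fundamental identity, finiteness**: a coordinate function has finitely many zeros. -/
theorem finite_setOf_ord_pos [CharZero K] (ht : Transcendental K t)
    [FiniteDimensional K⟮t⟯ F] : {v : Place K F | 0 < v.ord t}.Finite := by
  have : IsCoord K t := ⟨ht, inferInstance⟩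
  rw [← range_placeOfOver]
  exact Set.finite_range _

/-- **Fundamental identity**: `∑_{v(t) > 0} ord_v(t) = [F : K(t)]`. -/
theorem sum_ord_eq_finrank [IsAlgClosed K] [CharZero K] (ht : Transcendental K t)
    [FiniteDimensional K⟮t⟯ F] (s : Finset (Place K F)) (hs : ∀ v, v ∈ s ↔ 0 < v.ord t) :
    ∑ v ∈ s, v.ord t = (Module.finrank K⟮t⟯ F : ℤ) := by
  have : IsCoord K t := ⟨ht, inferInstance⟩
  rw [← sum_placeOfOver]
  symm
  refine Finset.sum_bij (fun q _ => placeOfOver q) ?_ ?_ ?_ ?_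
  · intro q _
    exact (hs _).mpr (ord_t_placeOfOver_pos q)
  · intro q _ q' _ h
    exact placeOfOver_injective h
  · intro v hv
    obtain ⟨q, hq⟩ := exists_placeOfOver_eq v ((hs v).mp hv)
    exact ⟨q, Finset.mem_univ _, hq⟩
  · intro q _
    rfl

/-- Skeleton form of the fundamental identity (helper864 FF3b). -/
theorem sum_ord_pos_eq_finrank [IsAlgClosed K] [CharZero K] (ht : Transcendental K t)
    [FiniteDimensional K⟮t⟯ F] :
    ∑ v ∈ (finite_setOf_ord_pos ht).toFinset, v.ord t = (Module.finrank K⟮t⟯ F : ℤ) :=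
  sum_ord_eq_finrank ht _ (fun v => by simp)

end final

end Fermat.Agent.S24.FF

end
-- ===== PACK-END S24/FFIdentity.lean

-- ===== PACK-BEGIN S24/Inf/Gen.lean
section


/-!
# S24 / MOD-INF — expansions at `∞` of the functions `J((aτ+b)/d)` and distinctness

Everything is stated for an abstract function `J : ℍ → ℂ` satisfying
* `hinv : ∀ γ : SL(2, ℤ), ∀ τ, J (γ • τ) = J τ`,
* `hexp : InfExp 1 J infJq` (the `q`-expansion of `J` is the Prelude series `jq`).
-/

set_option autoImplicit false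

noncomputable section

open HahnSeries ModularCurve UpperHalfPlane Complex Matrix
open scoped Real MatrixGroups

namespace Fermat.Agent.S24

/-- The Prelude series `jq` with complex coefficients. -/
def infJq : LaurentSeries ℂ := coeffEmb ℂ jq

theorem infJq_coeff (n : ℤ) : infJq.coeff n = ((jq.coeff n : ℚ) : ℂ) := rfl

theorem infJq_coeff_neg_one : infJq.coeff (-1) = 1 := by
  rw [infJq_coeff, coeff_jq_neg_one]; simp

theorem infJq_coeff_of_lt {k : ℤ} (hk : k < -1) : infJq.coeff k = 0 := by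
  rw [infJq_coeff, coeff_jq_of_lt hk]; simp

theorem infJq_order : infJq.order = -1 :=
  inf_order_eq_of_coeff (by rw [infJq_coeff_neg_one]; exact one_ne_zero)
    (fun _ hm => infJq_coeff_of_lt hm)

theorem infJq_leadingCoeff : infJq.leadingCoeff = 1 := by
  rw [leadingCoeff_eq, infJq_order, infJq_coeff_neg_one]

theorem infJq_ne_zero : infJq ≠ 0 := by
  intro h
  have := infJq_coeff_neg_one
  rw [h] at this
  simp at this

/-- The expansion of `J((aτ+b)/d)` in `z = exp(2πiτ/N)`, where `e = aN/d`. -/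
def infGenExp (e : ℕ) [NeZero e] (b : ℤ) (d : ℕ) : LaurentSeries ℂ :=
  qExpand ℂ e (infTwist (infRoot b d) infJq)

theorem infGenExp_order (e : ℕ) [NeZero e] (b : ℤ) (d : ℕ) :
    (infGenExp e b d).order = -(e : ℤ) := by
  rw [infGenExp, inf_qExpand_order, infTwist_order, infJq_order]
  ring

theorem infGenExp_leadingCoeff (e : ℕ) [NeZero e] (b : ℤ) (d : ℕ) :
    (infGenExp e b d).leadingCoeff = (((infRoot b d)⁻¹ : ℂˣ) : ℂ) := by
  rw [infGenExp, inf_qExpand_leadingCoeff, infTwist_leadingCoeff, infJq_leadingCoeff, infJq_order,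
    one_mul, _root_.zpow_neg_one]

theorem infGenExp_ne_zero (e : ℕ) [NeZero e] (b : ℤ) (d : ℕ) : infGenExp e b d ≠ 0 := by
  rw [infGenExp, Ne, inf_qExpand_eq_zero_iff, infTwist_eq_zero_iff]
  exact infJq_ne_zero

section Abstract

variable {J : ℍ → ℂ}

/-- Expansion of `J((aτ+b)/d)` in `z = exp(2πiτ/N)` when `e·d = a·N`. -/
theorem inf_J_infAff_exp (hexp : InfExp 1 J infJq) {N a d e : ℕ} [NeZero e] (b : ℤ)
    (ha : 0 < a) (hd : 0 < d) (hN : 0 < N) (he : e * d = a * N) :
    InfExp N (fun τ => J (infAff a b d τ)) (infGenExp e b d) := by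
  have h := hexp.comp_infAff (e := e) b ha hd one_pos hN (by rw [mul_one]; exact he)
  rw [mul_one] at h
  exact h

/-- The function `τ ↦ J(dτ)` has the expansion `jq(z^{dN})` in `z = exp(2πiτ/N)`. -/
theorem inf_J_mul_exp (hexp : InfExp 1 J infJq) {N d : ℕ} (hd : 0 < d) (hN : 0 < N) :
    haveI : NeZero (d * N) := ⟨(Nat.mul_pos hd hN).ne'⟩
    InfExp N (fun τ => J (infAff d 0 1 τ)) (qExpand ℂ (d * N) infJq) := by
  have : NeZero (d * N) := ⟨(Nat.mul_pos hd hN).ne'⟩
  have h := inf_J_infAff_exp hexp (e := d * N) 0 hd one_pos hN (by ring)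
  rw [infGenExp, infRoot_zero, infTwist_one] at h
  exact h

/-- For `d ∣ N` and `γ ∈ SL₂(ℤ)`, the function `τ ↦ J(d·γτ)` has a convergent expansion in
`z = exp(2πiτ/N)`. -/
theorem inf_J_mul_smul_mem_expRing (hinv : ∀ (γ : SL(2, ℤ)) (τ : ℍ), J (γ • τ) = J τ)
    (hexp : InfExp 1 J infJq) {N d : ℕ} [NeZero N] (hdN : d ∣ N) (γ : SL(2, ℤ)) :
    (fun τ => J (infAff d 0 1 (γ • τ))) ∈ expRing N := by
  have hN : 0 < N := Nat.pos_of_ne_zero (NeZero.ne N)
  have hd : 0 < d := Nat.pos_of_dvd_of_pos hdN hN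
  obtain ⟨γ', a, d', b, ha, hd', had, h00, h01, h10, h11⟩ := inf_exists_hnf d hd γ
  have hd'N : d' ∣ N := (Dvd.intro_left a had).trans hdN
  obtain ⟨c, hc⟩ := hd'N
  have hc0 : 0 < c := by
    rcases Nat.eq_zero_or_pos c with h | h
    · rw [h, mul_zero] at hc; omega
    · exact h
  have : NeZero (a * c) := ⟨(Nat.mul_pos ha hc0).ne'⟩
  have h := inf_J_infAff_exp hexp (e := a * c) (N := N) b ha hd' hN (by rw [hc]; ring)
  refine ⟨_, h.congr fun τ => ?_⟩
  rw [inf_aff_smul_eq hd ha hd' γ γ' h00 h01 h10 h11 τ, hinv]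

end Abstract

end Fermat.Agent.S24

namespace Fermat.Agent.S24

open HahnSeries ModularCurve UpperHalfPlane Complex Matrix
open scoped Real MatrixGroups

theorem inf_SL2_mul_inv_10 (γ γ' : SL(2, ℤ)) :
    (γ * γ'⁻¹) 1 0 = γ 1 0 * γ' 1 1 - γ 1 1 * γ' 1 0 := by
  rw [Matrix.SpecialLinearGroup.SL2_inv_expl γ']
  simp [Matrix.SpecialLinearGroup.coe_mul, Matrix.mul_apply, Fin.sum_univ_two]
  ring

theorem infRoot_eq_iff {b b₁ : ℤ} {d : ℕ} (hd : 0 < d) :
    infRoot b d = infRoot b₁ d ↔ (d : ℤ) ∣ b - b₁ := by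
  have hd0 : (d : ℂ) ≠ 0 := by exact_mod_cast hd.ne'
  have hpi : (2 * π * Complex.I : ℂ) ≠ 0 := Complex.two_pi_I_ne_zero
  rw [← Units.val_inj, infRoot_coe, infRoot_coe, Complex.exp_eq_exp_iff_exists_int]
  constructor
  · rintro ⟨n, hn⟩
    refine ⟨n, ?_⟩
    field_simp at hn
    have h4 : b = b₁ + d * n := by exact_mod_cast hn
    linarith
  · rintro ⟨n, hn⟩
    refine ⟨n, ?_⟩
    have h1 : (b : ℂ) = b₁ + d * n := by
      have : b = b₁ + d * n := by linarith
      exact_mod_cast this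
    rw [h1]
    field_simp

section Distinct

variable {J : ℍ → ℂ}

/-- **Distinctness.**  If `J(N·γτ) = J(N·γ'τ)` for all `τ`, then `γ γ'⁻¹ ∈ Γ₀(N)`. -/
theorem inf_distinct (hinv : ∀ (γ : SL(2, ℤ)) (τ : ℍ), J (γ • τ) = J τ)
    (hexp : InfExp 1 J infJq) {N : ℕ} [NeZero N] (γ γ' : SL(2, ℤ))
    (h : ∀ τ, J (infAff N 0 1 (γ • τ)) = J (infAff N 0 1 (γ' • τ))) :
    γ * γ'⁻¹ ∈ CongruenceSubgroup.Gamma0 N := by
  have hN : 0 < N := Nat.pos_of_ne_zero (NeZero.ne N)
  obtain ⟨g, a, d, b, ha, hd, had, h00, h01, h10, h11⟩ := inf_exists_hnf N hN γ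
  obtain ⟨g', a', d', b', ha', hd', had', h00', h01', h10', h11'⟩ := inf_exists_hnf N hN γ'
  have : NeZero (a * a) := ⟨(Nat.mul_pos ha ha).ne'⟩
  have : NeZero (a' * a') := ⟨(Nat.mul_pos ha' ha').ne'⟩
  have e1 := inf_J_infAff_exp hexp (e := a * a) (N := N) b ha hd hN (by rw [← had]; ring)
  have e2 := inf_J_infAff_exp hexp (e := a' * a') (N := N) b' ha' hd' hN (by rw [← had']; ring)
  have hfun : ∀ τ, J (infAff a b d τ) = J (infAff a' b' d' τ) := by
    intro τ
    have := h τ
    rwa [inf_aff_smul_eq hN ha hd γ g h00 h01 h10 h11 τ, hinv,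
      inf_aff_smul_eq hN ha' hd' γ' g' h00' h01' h10' h11' τ, hinv] at this
  have heq : infGenExp (a * a) b d = infGenExp (a' * a') b' d' := e1.unique' e2 hfun
  -- compare orders
  have hord := congrArg HahnSeries.order heq
  rw [infGenExp_order, infGenExp_order] at hord
  have haa : a * a = a' * a' := by
    have : ((a * a : ℕ) : ℤ) = ((a' * a' : ℕ) : ℤ) := by linarith
    exact_mod_cast this
  have haeq : a = a' := Nat.mul_self_inj.mp haa
  subst haeq
  have hdeq : d = d' := by
    have : a * d = a * d' := by rw [had, had']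
    exact Nat.eq_of_mul_eq_mul_left ha this
  subst hdeq
  -- compare leading coefficients
  have hlc := congrArg HahnSeries.leadingCoeff heq
  rw [infGenExp_leadingCoeff, infGenExp_leadingCoeff] at hlc
  have hroot : infRoot b d = infRoot b' d := by
    have := Units.val_inj.mp hlc
    exact inv_injective this
  obtain ⟨k, hk⟩ := (infRoot_eq_iff hd).mp hroot
  -- conclude
  rw [CongruenceSubgroup.Gamma0_mem, ZMod.intCast_zmod_eq_zero_iff_dvd, inf_SL2_mul_inv_10]
  have hNad : (N : ℤ) = a * d := by exact_mod_cast had.symm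
  refine ⟨g 1 0 * g' 1 1 - g 1 1 * g' 1 0 - k * g 1 0 * g' 1 0, ?_⟩
  have hb : b = b' + d * k := by linarith
  rw [h10, h11, h10', h11', hNad, hb]
  ring

end Distinct

end Fermat.Agent.S24

end
end
-- ===== PACK-END S24/Inf/Gen.lean

-- ===== PACK-BEGIN S24/Count.lean
section



/-!
# S24 — counting on `SL₂(ℤ)/Γ₀(N) ≅ ℙ¹(ℤ/N)`

INTERFACE FILE (statements frozen by helper984 @4630f4b), proofs filled in by helper324 from
`Fermat.Agent.S24.H324` (which assembles helper694's `S20.Comb` and helper360's `CuspCount360`).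
-/

set_option autoImplicit false

noncomputable section

open ModularCurve
open scoped MatrixGroups

namespace Fermat.Agent.S24

variable (N : ℕ) [NeZero N]

theorem card_XX : Nat.card (XX N) = dedekindPsi N :=
  H324.card_XX N

theorem two_mul_numOrbits_S :
    2 * numOrbits (permOf N ModularGroup.S) = dedekindPsi N + nuTwo N :=
  H324.two_mul_numOrbits_S N

theorem three_mul_numOrbits_ST :
    3 * numOrbits (permOf N (ModularGroup.S * ModularGroup.T))
      = dedekindPsi N + 2 * nuThree N :=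
  H324.three_mul_numOrbits_ST N

theorem numOrbits_T : numOrbits (permOf N ModularGroup.T) = cuspCount N :=
  H324.numOrbits_T N

end Fermat.Agent.S24

end
end
-- ===== PACK-END S24/Count.lean

-- ===== PACK-BEGIN S24/H864/FF3f.lean
section


/-!
# S24 / ALG / FF1, existence form: the zeros of a transcendental `t` form a finite set `s` and
`∑_{v ∈ s} v(t) = [F : K(t)]`  (exact shape of `Alg/Open.lean` `open_fundamental_eq`).
-/

set_option autoImplicit false

noncomputable section

open AlgebraicCurve IntermediateField IsDedekindDomain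
open scoped IntermediateField.algebraAdjoinAdjoin

namespace Fermat.Agent.S24.H864

section Rel

variable {K F : Type*} [Field K] [Field F] [Algebra K F]
variable {S : Type*} [CommRing S] [IsDedekindDomain S] [Algebra S F] [IsFractionRing S F]
  [Algebra K S] [IsScalarTower K S F]
variable {R : Type*} [CommRing R] [IsDomain R] [Algebra R S] [Algebra R F] [IsScalarTower R S F]
  [Module.Finite R S]
variable (p : Ideal R) [hpmax : p.IsMaximal] (τ : R)

/-- the set of zeros of `τ` is finite -/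
theorem exists_finset_zeros_abstract
    (hp : p = Ideal.span {τ}) (hτ : τ ≠ 0) (hinj : Function.Injective (algebraMap R S))
    (hR : ∀ v : Place K F, 0 < v.ord (algebraMap R F τ) →
      ∀ r : R, algebraMap R F r ∈ v.toValuationSubring) :
    ∃ s : Finset (Place K F), ∀ v, v ∈ s ↔ 0 < v.ord (algebraMap R F τ) := by
  classical
  haveI : Fintype (p.primesOver S) := (Algebra.QuasiFinite.finite_primesOver p).fintype
  have hτ' : algebraMap R S τ ≠ 0 := fun h => hτ (hinj (by rw [h, map_zero]))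
  set g : p.primesOver S → Place K F :=
    fun q => Place.ofHeightOneSpectrum (K := K) (wOf p τ hp hτ hinj q) with hg
  have hg_ord : ∀ q, (g q).ord (algebraMap R F τ) = (q.1.ramificationIdx R : ℤ) :=
    fun q => ord_wOf p τ hp hτ hinj q
  refine ⟨Finset.univ.image g, fun v => ?_⟩
  rw [Finset.mem_image]
  constructor
  · rintro ⟨q, -, rfl⟩
    rw [hg_ord]
    exact_mod_cast Ideal.ramificationIdx_pos q.1 R
  · intro hv
    have hS := algebraMap_mem_of_base (S := S) v (hR v hv)
    have hv' : 0 < v.ord (algebraMap S F (algebraMap R S τ)) := by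
      rwa [← IsScalarTower.algebraMap_apply R S F]
    obtain ⟨w, hw, hwq⟩ := exists_heightOneSpectrum_of_place v hS hτ' hv'
    have hle : p ≤ w.asIdeal.under R := by
      rw [hp, Ideal.span_singleton_le_iff_mem, Ideal.under_def, Ideal.mem_comap, hwq]
      exact (mem_primeOfPlace v hS hτ').mpr hv'
    have hne : w.asIdeal.under R ≠ ⊤ := (Ideal.IsPrime.under R w.asIdeal).ne_top
    have hq : w.asIdeal ∈ p.primesOver S := ⟨w.isPrime, ⟨hpmax.eq_of_le hne hle⟩⟩
    refine ⟨⟨w.asIdeal, hq⟩, Finset.mem_univ _, ?_⟩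
    rw [← hw]
    show Place.ofHeightOneSpectrum (K := K) (wOf p τ hp hτ hinj ⟨w.asIdeal, hq⟩) = _
    congr 1

end Rel

section Main

variable {K F : Type*} [Field K] [Field F] [Algebra K F] [IsAlgClosed K] [CharZero K]

/-- the zeros of a transcendental `t` are finite in number -/
theorem exists_finset_zeros (t : F) (ht : Transcendental K t)
    [FiniteDimensional ↥(IntermediateField.adjoin K {t}) F] :
    ∃ s : Finset (Place K F), ∀ v : Place K F, v ∈ s ↔ 0 < v.ord t := by
  haveI : IsPrincipalIdealRing (polyRing K t) := polyRing_isPrincipalIdealRing K t ht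
  haveI : IsScalarTower (polyRing K t) (integralClosure (polyRing K t) F) F :=
    Subalgebra.isScalarTower_mid _
  haveI : IsFractionRing (integralClosure (polyRing K t) F) F :=
    integralClosure.isFractionRing_of_finite_extension K⟮t⟯ F
  haveI : IsDedekindDomain (integralClosure (polyRing K t) F) :=
    IsIntegralClosure.isDedekindDomain (polyRing K t) K⟮t⟯ F (integralClosure (polyRing K t) F)
  haveI : Module.Finite (polyRing K t) (integralClosure (polyRing K t) F) :=
    IsIntegralClosure.finite (polyRing K t) K⟮t⟯ F (integralClosure (polyRing K t) F)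
  have hprime : (Ideal.span {tR K t}).IsPrime :=
    (Ideal.span_singleton_prime (tR_ne_zero K t ht)).mpr (tR_prime K t ht)
  have hne : Ideal.span {tR K t} ≠ ⊥ := by
    rw [Ne, Ideal.span_singleton_eq_bot]
    exact tR_ne_zero K t ht
  haveI hmax : (Ideal.span {tR K t}).IsMaximal := hprime.isMaximal hne
  have hinj : Function.Injective
      (algebraMap (polyRing K t) (integralClosure (polyRing K t) F)) := by
    intro a b hab
    have := congrArg (algebraMap (integralClosure (polyRing K t) F) F) hab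
    rw [← IsScalarTower.algebraMap_apply, ← IsScalarTower.algebraMap_apply] at this
    exact Subtype.ext this
  exact exists_finset_zeros_abstract (K := K) (F := F)
    (S := integralClosure (polyRing K t) F) (R := polyRing K t)
    (Ideal.span {tR K t}) (tR K t) rfl (tR_ne_zero K t ht) hinj
    (fun v hv r => coe_mem_valuationSubring_of_ord_nonneg K t v hv.le r)

/-- **FF1 (fundamental equality)**, exact shape of `Alg/Open.lean` `open_fundamental_eq`. -/
theorem fundamental_eq (t : F) (ht : Transcendental K t)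
    [FiniteDimensional ↥(IntermediateField.adjoin K {t}) F] :
    ∃ s : Finset (Place K F), (∀ v : Place K F, v ∈ s ↔ 0 < v.ord t) ∧
      ∑ v ∈ s, v.ord t = (Module.finrank ↥(IntermediateField.adjoin K {t}) F : ℤ) := by
  obtain ⟨s, hs⟩ := exists_finset_zeros t ht
  exact ⟨s, hs, fundamental_identity t ht s hs⟩

end Main

end Fermat.Agent.S24.H864

end
end
-- ===== PACK-END S24/H864/FF3f.lean

-- ===== PACK-BEGIN S29/H222/ESKDiv.lean
section
/-
S29 / helper222 — piece ESK, part 2: divisors of functions (`IsDivOf`), their behaviour under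
products, powers and semilinear automorphisms, and the decomposition of a principal divisor as a
difference of divisors of INTEGRAL series (from the Prelude's `PrincipalGeneratedByIntegral`).
-/


set_option autoImplicit false
set_option linter.style.haveILetI false

noncomputable section

namespace Fermat.Agent.S29.H222

open ModularCurve AlgebraicCurve HahnSeries IsLocalRing
open Fermat.Agent.S18 (Qb IsInt toF CoreStatement)

section Generic

variable {K F : Type*} [Field K] [Field F] [Algebra K F]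

/-- `D` is the divisor of the function `f`. -/
def IsDivOf (f : F) (D : Divisor K F) : Prop := ∀ v : Place K F, D v = v.ord f

theorem IsDivOf.mul {f g : F} {D E : Divisor K F} (hf0 : f ≠ 0) (hg0 : g ≠ 0)
    (hf : IsDivOf f D) (hg : IsDivOf g E) : IsDivOf (f * g) (D + E) := fun v => by
  rw [Finsupp.add_apply, hf v, hg v, v.ord_mul hf0 hg0]

theorem esk_ord_pow (v : Place K F) (f : F) (n : ℕ) : v.ord (f ^ n) = n * v.ord f := by
  have := v.ord_zpow f (n : ℤ)
  simpa using this

theorem IsDivOf.pow {f : F} {D : Divisor K F} (hf : IsDivOf f D) (n : ℕ) :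
    IsDivOf (f ^ n) ((n : ℤ) • D) := fun v => by
  rw [Finsupp.smul_apply, hf v, esk_ord_pow, smul_eq_mul]

theorem IsDivOf.smul {f : F} {D : Divisor K F} (g : SemilinearAut K F) (hf : IsDivOf f D) :
    IsDivOf (g • f) (g • D) := fun w => by
  rw [SemilinearAut.divisor_smul_apply, hf (g⁻¹ • w)]
  have h := SemilinearAut.ord_smul g (g⁻¹ • w) f
  rw [smul_inv_smul] at h
  exact h.symm

theorem esk_ord_algebraMap (v : Place K F) {c : K} (hc : c ≠ 0) :
    v.ord (algebraMap K F c) = 0 := by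
  have h1 : algebraMap K F c ∈ v.toValuationSubring := v.algebraMap_mem' c
  have h2 : algebraMap K F c⁻¹ ∈ v.toValuationSubring := v.algebraMap_mem' c⁻¹
  let u : (v.toValuationSubring)ˣ :=
    { val := ⟨algebraMap K F c, h1⟩
      inv := ⟨algebraMap K F c⁻¹, h2⟩
      val_inv := by
        apply Subtype.ext
        show algebraMap K F c * algebraMap K F c⁻¹ = 1
        rw [← map_mul, mul_inv_cancel₀ hc, map_one]
      inv_val := by
        apply Subtype.ext
        show algebraMap K F c⁻¹ * algebraMap K F c = 1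
        rw [← map_mul, inv_mul_cancel₀ hc, map_one] }
  exact v.ord_coe_unit u

/-- **Kummer criterion**: if `V₁ = c · y ^ m · V₂` and `div V₁ - div V₂ = m • E` (`m ≠ 0`), then
`E` is the divisor of `y`; in particular `E` is principal. -/
theorem isDivOf_of_eq_const_mul_pow {m : ℕ} (hm : m ≠ 0) {V₁ V₂ y : F} {c : K} (hc : c ≠ 0)
    (hy : y ≠ 0) (hV₂ : V₂ ≠ 0) (h : V₁ = algebraMap K F c * y ^ m * V₂)
    {E : Divisor K F} (hE : ∀ v : Place K F, (m : ℤ) * E v = v.ord V₁ - v.ord V₂) :
    IsDivOf y E := fun v => by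
  have hc' : algebraMap K F c ≠ 0 := by
    simpa using hc
  have h1 : v.ord V₁ = (m : ℤ) * v.ord y + v.ord V₂ := by
    rw [h, v.ord_mul (mul_ne_zero hc' (pow_ne_zero m hy)) hV₂,
      v.ord_mul hc' (pow_ne_zero m hy), esk_ord_algebraMap v hc, esk_ord_pow, zero_add]
  have h2 : (m : ℤ) * E v = (m : ℤ) * v.ord y := by rw [hE v, h1]; ring
  exact mul_left_cancel₀ (Int.natCast_ne_zero.mpr hm) h2

end Generic

variable {A : ValuationSubring Qb} {N : ℕ}

/-- A principal divisor is the difference of the divisors of two integral series. -/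
theorem exists_isInt_of_principal
    (hpgi : PrincipalGeneratedByIntegral A (residue A) N)
    {D : Divisor Qb (modularFunctionFieldBar N)}
    (hD : D ∈ Divisor.principal (K := Qb) (F := modularFunctionFieldBar N)) :
    ∃ (U₁ U₂ : LaurentSeries A) (h₁ : IsInt A N U₁) (h₂ : IsInt A N U₂)
      (D₁ D₂ : Divisor Qb (modularFunctionFieldBar N)),
      IsDivOf (toF h₁) D₁ ∧ IsDivOf (toF h₂) D₂ ∧ D = D₁ - D₂ := by
  have hD' := hpgi hD
  clear hD
  induction hD' using AddSubgroup.closure_induction with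
  | mem E hE =>
      obtain ⟨y, hy, hyk, hne, hEy⟩ := hE
      refine ⟨y, 1, ⟨hy, hyk, hne⟩, isInt_one, E, 0, fun v => hEy v, fun v => ?_, by simp⟩
      have : toF (isInt_one (A := A) (N := N)) = 1 := Subtype.ext (map_one _)
      rw [this]
      simp
  | zero =>
      refine ⟨1, 1, isInt_one, isInt_one, 0, 0, fun v => ?_, fun v => ?_, by simp⟩ <;>
      · have : toF (isInt_one (A := A) (N := N)) = 1 := Subtype.ext (map_one _)
        rw [this]
        simp
  | add E E' _ _ hE hE' =>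
      obtain ⟨U₁, U₂, h₁, h₂, D₁, D₂, hd₁, hd₂, rfl⟩ := hE
      obtain ⟨U₁', U₂', h₁', h₂', D₁', D₂', hd₁', hd₂', rfl⟩ := hE'
      refine ⟨U₁ * U₁', U₂ * U₂', isInt_mul h₁ h₁', isInt_mul h₂ h₂', D₁ + D₁', D₂ + D₂',
        ?_, ?_, by abel⟩
      · rw [toF_mul h₁ h₁']
        exact hd₁.mul (toF_ne_zero h₁) (toF_ne_zero h₁') hd₁'
      · rw [toF_mul h₂ h₂']
        exact hd₂.mul (toF_ne_zero h₂) (toF_ne_zero h₂') hd₂'
  | neg E _ hE =>
      obtain ⟨U₁, U₂, h₁, h₂, D₁, D₂, hd₁, hd₂, rfl⟩ := hE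
      exact ⟨U₂, U₁, h₂, h₁, D₂, D₁, hd₂, hd₁, by abel⟩

end Fermat.Agent.S29.H222

end
end
-- ===== PACK-END S29/H222/ESKDiv.lean

-- ===== PACK-BEGIN S18/H456/ModS.lean
section



/-!
# S18 / MOD assembly (helper456): the fields `S_mem`, `S_distinct`, `S_unit` of `Alg.GoodModel`
-/

set_option autoImplicit false

noncomputable section

namespace Fermat.Agent.S18.H456

open ModularCurve AlgebraicCurve HahnSeries Fermat.Agent.S18 Fermat.Agent.S18.Mod

variable (M : ℕ) (A : ValuationSubring Qb) (E : IntermediateField ℚ Qb)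

/-- An integer prime to `ℓ` is a unit of `A`. -/
theorem inv_intCast_mem_A {ℓ : ℕ} (hA : A.LiesOverPrime ℓ) (n : ℤ)
    (hn : IsCoprime n (ℓ : ℤ)) : ((n : Qb))⁻¹ ∈ A := by
  obtain ⟨a, b, hab⟩ := hn
  have hℓ : A.valuation (ℓ : Qb) < 1 := (ValuationSubring.mem_nonunits_iff A).1 hA
  have hle : ∀ k : ℤ, A.valuation (k : Qb) ≤ 1 := fun k =>
    (A.valuation_le_one_iff _).2 (intCast_mem A k)
  rw [← A.valuation_le_one_iff, map_inv₀]
  by_contra hcon
  have hlt : A.valuation (n : Qb) < 1 := by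
    by_contra h
    push Not at h
    have h1 : A.valuation (n : Qb) = 1 := le_antisymm (hle n) h
    rw [h1, inv_one] at hcon
    exact hcon le_rfl
  have h1 : A.valuation ((a : Qb) * n + b * ℓ) < 1 := by
    refine lt_of_le_of_lt (A.valuation.map_add _ _) (max_lt ?_ ?_)
    · rw [map_mul]
      calc A.valuation (a : Qb) * A.valuation (n : Qb) ≤ 1 * A.valuation (n : Qb) :=
            mul_le_mul_left (hle a) _
        _ = A.valuation (n : Qb) := one_mul _
        _ < 1 := hlt
    · rw [map_mul]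
      calc A.valuation (b : Qb) * A.valuation (ℓ : Qb) ≤ 1 * A.valuation (ℓ : Qb) :=
            mul_le_mul_left (hle b) _
        _ = A.valuation (ℓ : Qb) := one_mul _
        _ < 1 := hℓ
  have h2 : ((a : Qb) * n + b * ℓ) = 1 := by
    have := congrArg (Int.cast : ℤ → Qb) hab
    push_cast at this
    exact this
  rw [h2, map_one] at h1
  exact lt_irrefl _ h1

theorem cst_intCast (n : ℤ) : cst M (n : Qb) = (n : Om M) := map_intCast _ n

theorem intCast_mem_Rc (n : ℤ) : (n : Om M) ∈ Rc M A E := by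
  rw [← cst_intCast]
  exact cst_mem_Rc M A E (intCast_mem A n) (intCast_mem E n)

theorem inv_intCast_mem_Rc {ℓ : ℕ} (hA : A.LiesOverPrime ℓ) (n : ℤ)
    (hn : IsCoprime n (ℓ : ℤ)) : ((n : Om M))⁻¹ ∈ Rc M A E := by
  rw [← cst_intCast, ← map_inv₀]
  exact cst_mem_Rc M A E (inv_intCast_mem_A A hA n hn) (inv_mem (intCast_mem E n))

/-- The three fields `S_mem`, `S_distinct`, `S_unit` for `S = {0, b}`, `b` an integer prime
to `ℓ`. -/
theorem S_fields_of_int {ℓ : ℕ} (hA : A.LiesOverPrime ℓ) (b : ℤ) (hb : IsCoprime b (ℓ : ℤ))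
    (S : Finset (Om M)) (hS : ∀ s, s ∈ S ↔ s = 0 ∨ s = (b : Om M)) :
    (∀ s ∈ S, s ∈ Rc M A E) ∧
    (∀ s ∈ S, ∀ t ∈ S, s ≠ t → (s - t)⁻¹ ∈ Rc M A E) ∧
    (∀ s ∈ S, s ≠ 0 → s⁻¹ ∈ Rc M A E) := by
  have hb' : IsCoprime (-b) (ℓ : ℤ) := hb.neg_left
  refine ⟨?_, ?_, ?_⟩
  · intro s hs
    rcases (hS s).1 hs with rfl | rfl
    · exact zero_mem _
    · exact intCast_mem_Rc M A E b
  · intro s hs t ht hst
    rcases (hS s).1 hs with rfl | rfl <;> rcases (hS t).1 ht with rfl | rfl
    · exact absurd rfl hst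
    · rw [zero_sub]
      have := inv_intCast_mem_Rc M A E hA (-b) hb'
      rwa [Int.cast_neg] at this
    · rw [sub_zero]
      exact inv_intCast_mem_Rc M A E hA b hb
    · exact absurd rfl hst
  · intro s hs hs0
    rcases (hS s).1 hs with rfl | rfl
    · exact absurd rfl hs0
    · exact inv_intCast_mem_Rc M A E hA b hb

/-- **S-fields** for an admissible coordinate (`ℓ` prime). -/
theorem field_S [NeZero M] {ℓ : ℕ} (hℓ : ℓ.Prime) (hA : A.LiesOverPrime ℓ) {x : Om M}
    {S : Finset (Om M)} (hx : IsCoordinate M ℓ x S) :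
    (∀ s ∈ S, s ∈ Rc M A E) ∧
    (∀ s ∈ S, ∀ t ∈ S, s ≠ t → (s - t)⁻¹ ∈ Rc M A E) ∧
    (∀ s ∈ S, s ≠ 0 → s⁻¹ ∈ Rc M A E) := by
  rcases hx with ⟨h5, -, hS⟩ | ⟨⟨h3, -, hS⟩ | ⟨h2, -, hS⟩, -⟩
  · refine S_fields_of_int M A E hA 1728 ?_ S (fun s => by rw [hS s]; norm_num)
    have h1728 : (1728 : ℤ) = 2 ^ 6 * 3 ^ 3 := by norm_num
    rw [h1728]
    have h2 : IsCoprime (2 : ℤ) (ℓ : ℤ) := by
      rw [Int.isCoprime_iff_gcd_eq_one]
      exact (Nat.coprime_primes Nat.prime_two hℓ).2 (by omega)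
    have h3 : IsCoprime (3 : ℤ) (ℓ : ℤ) := by
      rw [Int.isCoprime_iff_gcd_eq_one]
      exact (Nat.coprime_primes Nat.prime_three hℓ).2 (by omega)
    exact (h2.pow_left).mul_left (h3.pow_left)
  · subst h3
    refine S_fields_of_int M A E hA (-64) ?_ S (fun s => by rw [hS s]; norm_num)
    have h64 : (-64 : ℤ) = -(2 ^ 6) := by norm_num
    rw [h64]
    have h2 : IsCoprime (2 : ℤ) ((3 : ℕ) : ℤ) := by
      rw [Int.isCoprime_iff_gcd_eq_one]; decide
    exact (h2.pow_left).neg_left
  · subst h2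
    refine S_fields_of_int M A E hA (-27) ?_ S (fun s => by rw [hS s]; norm_num)
    have h27 : (-27 : ℤ) = -(3 ^ 3) := by norm_num
    rw [h27]
    have h3 : IsCoprime (3 : ℤ) ((2 : ℕ) : ℤ) := by
      rw [Int.isCoprime_iff_gcd_eq_one]; decide
    exact (h3.pow_left).neg_left

end Fermat.Agent.S18.H456

end
end
-- ===== PACK-END S18/H456/ModS.lean

-- ===== PACK-BEGIN S18/H107/T3Model.lean
section







/-!
# helper107 — S18 / M3-T : the good model for the coordinate `t₃` (case `ℓ = 2`)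

`goodModel_t3_107` : from the `j`-model WITHOUT branch-set fields (`BaseModel107 … j`, true for
every `ℓ ∤ M`), the branch data of the `j`-line in characteristic `0` (`BranchJ107`), the identity
`j t³ = (t + 27)(t + 243)³`, `3⁻¹ ∈ R`, `t ∈ Fc ∩ V` and the Gauss property of `t`, we get the
frozen `Alg.GoodModel Lc Ec Fc R V w t S` with `S = {0, -27}`.
-/

set_option autoImplicit false

namespace Fermat.Agent.S18.H107

open Polynomial Fermat.Agent.S18.Alg

variable {Ω : Type*} [Field Ω]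

theorem goodModel_t3_107 {Lc Ec Fc : Subfield Ω} {R V : Subring Ω} {w j t : Ω} {S : Finset Ω}
    (hb : BaseModel107 Lc Ec Fc R V w j) (hB : BranchJ107 Lc j)
    (hrel : j * t ^ 3 = (t + 27) * (t + 243) ^ 3) (htF : t ∈ Fc) (htV : t ∈ V)
    (h3 : (3 : Ω)⁻¹ ∈ R)
    (hgauss : ∀ P : Polynomial Ω, (∀ i, P.coeff i ∈ R) →
      (∃ i, P.coeff i ≠ 0 ∧ (P.coeff i)⁻¹ ∈ R) → (P.eval t)⁻¹ ∈ V)
    (hS : ∀ s, s ∈ S ↔ s = 0 ∨ s = -27) :
    GoodModel Lc Ec Fc R V w t S := by
  have := hb.charZero
  have hj0 : j ≠ 0 := ne_zero_of_transcendental107 hb.x_transcendental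
  have hH : HauptT3107 Fc R V j t :=
    { rel := hrel
      three_inv := h3
      three_ne := three_ne_zero
      j_ne := hj0
      t_mem_Fc := htF
      t_mem_V := htV
      t27_inv_mem_V := gauss_X_add_C107 hgauss (ofNat_mem R 27) }
  have ht0 : t ≠ 0 := hH.t_ne
  have hwF : w ∈ Fc := hb.E_le_F (hb.R_le hb.w_mem)
  have htinvV : t⁻¹ ∈ V := gauss_X107 hgauss
  have h64 : (27 : Ω)⁻¹ ∈ R := hH.inv27_mem
  -- `j ∈ Ec(t)`
  have hjrat : j ∈ ratField Ec t := by
    have e : j = (t + 27) * (t + 243) ^ 3 * (t ^ 3)⁻¹ := by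
      field_simp
      linear_combination hrel
    rw [e]
    have ht := self_mem_ratField107 Ec t
    exact mul_mem (mul_mem (add_mem ht (ofNat_mem _ 27)) (pow_mem (add_mem ht (ofNat_mem _ 243)) 3))
      (inv_mem (pow_mem ht 3))
  -- transcendence of `t`
  have htr : Transcendental Lc t := by
    intro halg
    apply hb.x_transcendental
    have e : j = (t + 27) * (t + 243) ^ 3 * (t ^ 3)⁻¹ := by
      field_simp
      linear_combination hrel
    rw [e]
    have h27 : IsAlgebraic Lc (27 : Ω) := by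
      have : (27 : Ω) = algebraMap Lc Ω (27 : Lc) := by
        rw [map_ofNat]
      rw [this]
      exact isAlgebraic_algebraMap _
    have h243 : IsAlgebraic Lc (243 : Ω) := by
      have : (243 : Ω) = algebraMap Lc Ω (243 : Lc) := by
        rw [map_ofNat]
      rw [this]
      exact isAlgebraic_algebraMap _
    exact ((halg.add h27).mul ((halg.add h243).pow 3)).mul (halg.pow 3).inv
  refine (show BaseModel107 Lc Ec Fc R V w t from
    { charZero := hb.charZero
      R_le := hb.R_le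
      R_total := hb.R_total
      w_mem := hb.w_mem
      w_ne_zero := hb.w_ne_zero
      w_inv_not_mem := hb.w_inv_not_mem
      w_gen := hb.w_gen
      w_discrete := hb.w_discrete
      residue_perfect := hb.residue_perfect
      E_le_L := hb.E_le_L
      E_le_F := hb.E_le_F
      L_algebraic := hb.L_algebraic
      L_algClosed := hb.L_algClosed
      E_closed_in_F := hb.E_closed_in_F
      compositum := hb.compositum
      x_mem := htF
      x_transcendental := htr
      finite := finite_transfer107 hjrat hb.finite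
      V_le := hb.V_le
      V_total := hb.V_total
      R_le_V := hb.R_le_V
      w_inv_not_mem_V := hb.w_inv_not_mem_V
      V_gen := hb.V_gen
      x_mem_V := htV
      gauss := hgauss
      qep_fin := hH.qep_fin hwF hb.qep_fin hb.qep_inf
      qep_inf := hH.qep_inf hwF hb.qep_fin hb.qep_inf
      separable := separable_transfer107 (e := t ^ 3)
        (Subring.pow_mem _ (self_mem_polyRing107 R t) 3)
        (by
          rw [hrel]
          exact Subring.mul_mem _ (Subring.add_mem _ (self_mem_polyRing107 R t) (ofNat_mem _ 27))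
            (Subring.pow_mem _
              (Subring.add_mem _ (self_mem_polyRing107 R t) (ofNat_mem _ 243)) 3))
        (V.pow_mem htV 3) (by rw [← inv_pow]; exact V.pow_mem htinvV 3) (pow_ne_zero _ ht0)
        hb.separable }).toGoodModel S ?_ ?_ ?_ ?_
  · intro s hs
    rcases (hS s).1 hs with rfl | rfl
    · exact R.zero_mem
    · exact R.neg_mem (ofNat_mem R 27)
  · intro s hs s' hs' hne
    rcases (hS s).1 hs with rfl | rfl <;> rcases (hS s').1 hs' with rfl | rfl
    · exact absurd rfl hne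
    · have e : ((0 : Ω) - -27)⁻¹ = (27 : Ω)⁻¹ := by norm_num
      rw [e]
      exact h64
    · have e : ((-27 : Ω) - 0)⁻¹ = -(27 : Ω)⁻¹ := by
        rw [sub_zero, inv_neg]
      rw [e]
      exact R.neg_mem h64
    · exact absurd rfl hne
  · intro s hs hs0
    rcases (hS s).1 hs with rfl | rfl
    · exact absurd rfl hs0
    · rw [inv_neg]
      exact R.neg_mem h64
  · intro O hL c hc hcS hz hz'
    have hc0 : c ≠ 0 := fun h => hcS ((hS c).2 (Or.inl h))
    have hc64 : c ≠ -27 := fun h => hcS ((hS c).2 (Or.inr h))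
    exact unramified_t3_107 Lc j t hrel hB O hL c hc hc64 hc0 hz hz'

end Fermat.Agent.S18.H107

end
-- ===== PACK-END S18/H107/T3Model.lean

-- ===== PACK-BEGIN A2/Mod/H708/Vinf.lean
section



/-!
# A2 / MOD leaves L1 `VinfExists` and L2 `VinfBasic` (helper708)

Exact shapes of `Fermat/Agent/A2/Mod/Spec.lean` (architect helper994):

* `vinfE P E N : ValuationSubring (FE E N)` — the Gauss valuation ring at `∞` over `R_E = P ∩ E`
  (`= H708.gaussInf`), for `R_E` noetherian;
* `isVinf_vinfE`, `eq_vinfE_of_isVinf` (the predicate `IsVinf` determines `V`);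
* `vinfExists : VinfExistsStatement P E`                                              (L1);
* `vinfBasic : VinfBasicStatement P E w`                                              (L2);
* reusable: `mem_of_isVinf_of_incl`, `inv_mem_of_isVinf_of_incl` (functions with an `R_E`-integral,
  resp. primitive `R_E`-integral, expansion are integral, resp. units),
  `algebraMap_mem_iff_of_isVinf`, `exists_const_mul_unit_of_isVinf`, `red_castA_jInt_ne_zero`.
-/

set_option autoImplicit false
set_option synthInstance.maxHeartbeats 400000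
set_option maxHeartbeats 1600000

noncomputable section

namespace Fermat.Agent.A2.Mod.H708

open ModularCurve HahnSeries Polynomial
open Fermat.Agent.A2

variable (P : ValuationSubring _root_.Fermat.Agent.A2.Mod.Qb) (E : IntermediateField ℚ _root_.Fermat.Agent.A2.Mod.Qb)

/-- The Gauss valuation ring at `∞` of `F_{N,E}` over `R_E` (`R_E` noetherian, e.g. a DVR). -/
def vinfE (N : ℕ) [IsNoetherianRing (_root_.Fermat.Agent.A2.Mod.RE P E)] : ValuationSubring (_root_.Fermat.Agent.A2.Mod.FE E N) :=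
  H708.gaussInf (_root_.Fermat.Agent.A2.Mod.RE P E) (modularFunctionFieldFull N) (H708.intGen_full N)
    (H708.attainsMax_of_isNoetherianRing (_root_.Fermat.Agent.A2.Mod.RE P E) (modularFunctionFieldFull N))

theorem isVinf_vinfE (N : ℕ) [IsNoetherianRing (_root_.Fermat.Agent.A2.Mod.RE P E)] : IsVinf P E N (vinfE P E N) :=
  fun _ => Iff.rfl

variable {P E}

/-- `IsVinf` determines the valuation ring. -/
theorem eq_vinfE_of_isVinf {N : ℕ} [IsNoetherianRing (_root_.Fermat.Agent.A2.Mod.RE P E)] {V : ValuationSubring (_root_.Fermat.Agent.A2.Mod.FE E N)}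
    (hV : IsVinf P E N V) : V = vinfE P E N := by
  ext f
  rw [hV f]
  exact Iff.rfl

/-- functions with an `R_E`-integral expansion lie in `V∞`. -/
theorem mem_of_isVinf_of_incl {N : ℕ} {V : ValuationSubring (_root_.Fermat.Agent.A2.Mod.FE E N)} (hV : IsVinf P E N V)
    {f : _root_.Fermat.Agent.A2.Mod.FE E N} (U : LaurentSeries (_root_.Fermat.Agent.A2.Mod.RE P E))
    (h : (f : LaurentSeries E) = H708.incl (_root_.Fermat.Agent.A2.Mod.RE P E) U) : f ∈ V := by
  rw [hV f, h]
  exact H708.IsGaussInt.of_incl U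

/-- functions with a primitive `R_E`-integral expansion are units of `V∞`. -/
theorem inv_mem_of_isVinf_of_incl {N : ℕ} {V : ValuationSubring (_root_.Fermat.Agent.A2.Mod.FE E N)} (hV : IsVinf P E N V)
    {f : _root_.Fermat.Agent.A2.Mod.FE E N} (U : LaurentSeries (_root_.Fermat.Agent.A2.Mod.RE P E))
    (h : (f : LaurentSeries E) = H708.incl (_root_.Fermat.Agent.A2.Mod.RE P E) U) (hU : H708.red (_root_.Fermat.Agent.A2.Mod.RE P E) U ≠ 0) :
    f⁻¹ ∈ V := by
  rw [hV f⁻¹]
  have hf0 : (f : LaurentSeries E) ≠ 0 := by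
    rw [h]
    exact H708.incl_ne_zero (_root_.Fermat.Agent.A2.Mod.RE P E) (H708.ne_zero_of_red_ne_zero (_root_.Fermat.Agent.A2.Mod.RE P E) hU)
  refine ⟨1, U, hU, h ▸ f.2, ?_⟩
  rw [IntermediateField.coe_inv, ← h, inv_mul_cancel₀ hf0, map_one]

/-- `V∞ ∩ E = R_E`. -/
theorem algebraMap_mem_iff_of_isVinf {N : ℕ} [IsNoetherianRing (_root_.Fermat.Agent.A2.Mod.RE P E)]
    {V : ValuationSubring (_root_.Fermat.Agent.A2.Mod.FE E N)} (hV : IsVinf P E N V) (e : E) :
    algebraMap E (_root_.Fermat.Agent.A2.Mod.FE E N) e ∈ V ↔ e ∈ _root_.Fermat.Agent.A2.Mod.RE P E := by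
  rw [eq_vinfE_of_isVinf hV]
  exact H708.algebraMap_mem_gaussInf_iff _ _ e

/-- value group of `V∞` = value group of `R_E`. -/
theorem exists_const_mul_unit_of_isVinf {N : ℕ} [IsNoetherianRing (_root_.Fermat.Agent.A2.Mod.RE P E)]
    {V : ValuationSubring (_root_.Fermat.Agent.A2.Mod.FE E N)} (hV : IsVinf P E N V) {f : _root_.Fermat.Agent.A2.Mod.FE E N} (hf : f ≠ 0) :
    ∃ c : E, c ≠ 0 ∧ V.valuation (f * (algebraMap E (_root_.Fermat.Agent.A2.Mod.FE E N) c)⁻¹) = 1 := by
  rw [eq_vinfE_of_isVinf hV]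
  exact H708.exists_const_mul_unit _ _ hf

/-- the reduction of `j(t^d)` is nonzero. -/
theorem red_castA_jInt_ne_zero (d : ℕ) [NeZero d] :
    H708.red (_root_.Fermat.Agent.A2.Mod.RE P E) (H708.castA (_root_.Fermat.Agent.A2.Mod.RE P E) (H708.jInt d)) ≠ 0 := by
  have h1 : H708.red (_root_.Fermat.Agent.A2.Mod.RE P E) (H708.castA (_root_.Fermat.Agent.A2.Mod.RE P E) (H708.jInt d))
      = jqNModC (IsLocalRing.ResidueField (_root_.Fermat.Agent.A2.Mod.RE P E)) d := by
    show coeffMap _ (coeffMap _ (jqNModC ℤ d)) = _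
    rw [coeffMap_jqNModC, coeffMap_jqNModC]
  rw [h1]
  intro h0
  have h2 : (jqNModC (IsLocalRing.ResidueField (_root_.Fermat.Agent.A2.Mod.RE P E)) d).coeff ((d : ℤ) * (-1)) = 1 := by
    rw [jqNModC, qExpand_coeff_mul, coeff_jqModC_neg_one]
  rw [h0] at h2
  simp at h2

/-- `j_d` has the `R_E`-integral expansion `j(t^d) ∈ ℤ((t))`. -/
theorem coe_jE_eq (N d : ℕ) [NeZero d] (hd : d ∣ N) :
    ((jE E N d hd : _root_.Fermat.Agent.A2.Mod.FE E N) : LaurentSeries E)
      = H708.incl (_root_.Fermat.Agent.A2.Mod.RE P E) (H708.castA (_root_.Fermat.Agent.A2.Mod.RE P E) (H708.jInt d)) := by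
  rw [H708.incl_castA, H708.castQ_jInt]
  rfl

section L1

variable (P E)

/-- **L1** (`VinfExistsStatement`): the Gauss valuation ring exists at every level. -/
theorem vinfExists : VinfExistsStatement P E := by
  intro N _ hdvr
  have := hdvr
  exact ⟨vinfE P E N, isVinf_vinfE P E N⟩

end L1

section L2

variable (P E) (w : _root_.Fermat.Agent.A2.Mod.RE P E)

/-- **L2** (`VinfBasicStatement`): `w` is a uniformiser of `V∞`, `V∞ ∩ E = R_E`, and the
generators `j_d` are units of `V∞`. -/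
theorem vinfBasic : VinfBasicStatement P E w := by
  intro N _ hdvr hw V hV
  have := hdvr
  have hw0 : (w : E) ≠ 0 := fun h => hw.ne_zero (Subtype.ext h)
  refine ⟨⟨?_, ?_, ?_⟩, fun e => algebraMap_mem_iff_of_isVinf hV e, ?_⟩
  · -- `w ∈ V`
    exact (algebraMap_mem_iff_of_isVinf hV (w : E)).mpr w.2
  · -- `w⁻¹ ∉ V`
    intro h
    have h1 : (cE P E N w)⁻¹ = algebraMap E (_root_.Fermat.Agent.A2.Mod.FE E N) ((w : E)⁻¹) := by
      rw [cE, map_inv₀]
    rw [h1] at h
    have h2 : (w : E)⁻¹ ∈ _root_.Fermat.Agent.A2.Mod.RE P E := (algebraMap_mem_iff_of_isVinf hV _).mp h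
    refine hw.not_isUnit (IsUnit.of_mul_eq_one (⟨(w : E)⁻¹, h2⟩ : _root_.Fermat.Agent.A2.Mod.RE P E) ?_)
    exact Subtype.ext (mul_inv_cancel₀ hw0)
  · -- every non-unit is divisible by `w`
    intro f hf hfinv
    have hf0 : f ≠ 0 := by
      rintro rfl
      exact hfinv (by rw [inv_zero]; exact V.zero_mem)
    obtain ⟨c, hc, hu⟩ := exists_const_mul_unit_of_isVinf hV hf0
    have hcF : algebraMap E (_root_.Fermat.Agent.A2.Mod.FE E N) c ≠ 0 := by
      rw [Ne, map_eq_zero]
      exact hc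
    -- `v(f) = v(c)`
    have hvf : V.valuation f = V.valuation (algebraMap E (_root_.Fermat.Agent.A2.Mod.FE E N) c) := by
      rw [map_mul, map_inv₀] at hu
      have hv0 : V.valuation (algebraMap E (_root_.Fermat.Agent.A2.Mod.FE E N) c) ≠ 0 :=
        (Valuation.ne_zero_iff _).mpr hcF
      calc V.valuation f
          = V.valuation f * (V.valuation (algebraMap E (_root_.Fermat.Agent.A2.Mod.FE E N) c))⁻¹ *
              V.valuation (algebraMap E (_root_.Fermat.Agent.A2.Mod.FE E N) c) := by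
            rw [mul_assoc, inv_mul_cancel₀ hv0, mul_one]
        _ = V.valuation (algebraMap E (_root_.Fermat.Agent.A2.Mod.FE E N) c) := by rw [hu, one_mul]
    have hcV : algebraMap E (_root_.Fermat.Agent.A2.Mod.FE E N) c ∈ V := by
      rw [← ValuationSubring.valuation_le_one_iff, ← hvf, ValuationSubring.valuation_le_one_iff]
      exact hf
    have hcinvV : (algebraMap E (_root_.Fermat.Agent.A2.Mod.FE E N) c)⁻¹ ∉ V := by
      rw [← ValuationSubring.valuation_le_one_iff, map_inv₀, ← hvf, ← map_inv₀,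
        ValuationSubring.valuation_le_one_iff]
      exact hfinv
    have hcR : c ∈ _root_.Fermat.Agent.A2.Mod.RE P E := (algebraMap_mem_iff_of_isVinf hV c).mp hcV
    have hcinvR : c⁻¹ ∉ _root_.Fermat.Agent.A2.Mod.RE P E := by
      intro h
      exact hcinvV (by rw [← map_inv₀]; exact (algebraMap_mem_iff_of_isVinf hV _).mpr h)
    -- `c` is a non-unit of `R_E`, hence divisible by `w`
    have hnu : ¬ IsUnit (⟨c, hcR⟩ : _root_.Fermat.Agent.A2.Mod.RE P E) := by
      intro hunit
      obtain ⟨d, hd⟩ := hunit.exists_right_inv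
      apply hcinvR
      have h3 : c * (d : E) = 1 := congrArg Subtype.val hd
      have h4 : c⁻¹ = (d : E) := inv_eq_of_mul_eq_one_right h3
      rw [h4]
      exact d.2
    have hmem : (⟨c, hcR⟩ : _root_.Fermat.Agent.A2.Mod.RE P E) ∈ IsLocalRing.maximalIdeal (_root_.Fermat.Agent.A2.Mod.RE P E) :=
      (IsLocalRing.mem_maximalIdeal _).mpr hnu
    rw [(IsDiscreteValuationRing.irreducible_iff_uniformizer w).mp hw,
      Ideal.mem_span_singleton] at hmem
    obtain ⟨d, hd⟩ := hmem
    have hcd : c = (w : E) * (d : E) := congrArg Subtype.val hd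
    have hdV : algebraMap E (_root_.Fermat.Agent.A2.Mod.FE E N) (d : E) ∈ V := (algebraMap_mem_iff_of_isVinf hV _).mpr d.2
    have hunitV : f * (algebraMap E (_root_.Fermat.Agent.A2.Mod.FE E N) c)⁻¹ ∈ V := by
      rw [← ValuationSubring.valuation_le_one_iff, hu]
    have hkey : f * (cE P E N w)⁻¹
        = f * (algebraMap E (_root_.Fermat.Agent.A2.Mod.FE E N) c)⁻¹ * algebraMap E (_root_.Fermat.Agent.A2.Mod.FE E N) (d : E) := by
      have hwF : cE P E N w ≠ 0 := by
        rw [cE, Ne, map_eq_zero]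
        exact hw0
      have hcF' : algebraMap E (_root_.Fermat.Agent.A2.Mod.FE E N) c = cE P E N w * algebraMap E (_root_.Fermat.Agent.A2.Mod.FE E N) (d : E) := by
        rw [cE, ← map_mul, hcd]
      have hdF : algebraMap E (_root_.Fermat.Agent.A2.Mod.FE E N) (d : E) ≠ 0 := by
        intro h0
        rw [h0, mul_zero] at hcF'
        exact hcF hcF'
      rw [hcF']
      field_simp
    rw [hkey]
    exact V.mul_mem _ _ hunitV hdV
  · -- the `j_d` are units
    intro d _ hd
    exact ⟨mem_of_isVinf_of_incl hV _ (coe_jE_eq N d hd),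
      inv_mem_of_isVinf_of_incl hV _ (coe_jE_eq N d hd) (red_castA_jInt_ne_zero d)⟩

end L2

end Fermat.Agent.A2.Mod.H708

end
end
-- ===== PACK-END A2/Mod/H708/Vinf.lean

-- ===== PACK-BEGIN S18/H576/Coeff.lean
section


/-!
# S18 / MOD-ASM (helper576): coefficients of `Fc`, `E_closed_in_F`, `compositum`
-/

set_option autoImplicit false

noncomputable section

namespace Fermat.Agent.S18.H576

open ModularCurve AlgebraicCurve HahnSeries Fermat.Agent.S18 Fermat.Agent.S18.Mod

variable {M : ℕ} {A : ValuationSubring Qb} {E : IntermediateField ℚ Qb}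

/-- The coercion `Ω → Q̄((q))` as a ring homomorphism. -/
abbrev valOm (M : ℕ) : Om M →+* LaurentSeries Qb := (modularFunctionFieldBar M).val.toRingHom

theorem valOm_apply (y : Om M) : valOm M y = (y : LaurentSeries Qb) := rfl

theorem valOm_injective (M : ℕ) : Function.Injective (valOm M) := Subtype.val_injective

/-- Laurent series over `Q̄` all of whose coefficients lie in `E`. -/
def coeffSub (E : IntermediateField ℚ Qb) : Subfield (LaurentSeries Qb) :=
  (coeffMap (algebraMap E Qb)).fieldRange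

theorem mem_coeffSub_iff {f : LaurentSeries Qb} :
    f ∈ coeffSub E ↔ ∀ n : ℤ, f.coeff n ∈ E := by
  constructor
  · rintro ⟨g, rfl⟩ n
    rw [coeffMap_coeff]
    exact (g.coeff n).2
  · intro h
    refine ⟨⟨fun n => ⟨f.coeff n, h n⟩, ?_⟩, ?_⟩
    · refine f.isPWO_support.mono ?_
      intro n hn
      simp only [Function.mem_support, ne_eq] at hn ⊢
      intro h0
      exact hn (Subtype.ext h0)
    · ext n
      rfl

theorem coe_mem_coeffSub_of_mem_Fc {f : Om M} (hf : f ∈ Fc M E) :
    (f : LaurentSeries Qb) ∈ coeffSub E := by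
  have hle : Fc M E ≤ (coeffSub E).comap (valOm M) := by
    unfold Fc
    rw [Subfield.closure_le]
    rintro y (hy | hy)
    · obtain ⟨a, ha, rfl⟩ := mem_Ec_iff.mp hy
      show (iota M a : LaurentSeries Qb) ∈ coeffSub E
      rw [coe_iota_single, mem_coeffSub_iff]
      intro n
      by_cases hn : n = 0
      · subst hn
        rw [HahnSeries.coeff_single_same]
        exact ha
      · rw [HahnSeries.coeff_single_of_ne hn]
        exact zero_mem E
    · obtain ⟨d, hd, hdM, rfl⟩ := hy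
      show (jd M d hdM : LaurentSeries Qb) ∈ coeffSub E
      rw [mem_coeffSub_iff]
      intro n
      show (coeffEmb Qb (qExpand ℚ d jq)).coeff n ∈ E
      rw [coeffEmb_coeff]
      exact E.algebraMap_mem _
  exact hle hf

theorem coeff_mem_of_mem_Fc {f : Om M} (hf : f ∈ Fc M E) (n : ℤ) :
    (f : LaurentSeries Qb).coeff n ∈ E :=
  mem_coeffSub_iff.mp (coe_mem_coeffSub_of_mem_Fc hf) n

/-- A constant lying in `Fc` lies in `Ec`. -/
theorem mem_E_of_iota_mem_Fc {c : Qb} (h : iota M c ∈ Fc M E) : c ∈ E := by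
  have := coeff_mem_of_mem_Fc h 0
  rwa [coe_iota_single, HahnSeries.coeff_single_same] at this

/-- An element of `Ω` algebraic over `Q̄` is a constant. -/
theorem exists_iota_eq_of_isAlgebraic {f : Om M} (hf : IsAlgebraic Qb f) :
    ∃ c : Qb, iota M c = f := by
  have hint : IsIntegral Qb f := hf.isIntegral
  refine ⟨-(minpoly Qb f).coeff 0, ?_⟩
  have hq : (minpoly Qb f).leadingCoeff = 1 := minpoly.monic hint
  have h : (minpoly Qb f).degree = 1 :=
    IsAlgClosed.degree_eq_one_of_irreducible Qb (minpoly.irreducible hint)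
  have : Polynomial.aeval f (minpoly Qb f) = 0 := minpoly.aeval Qb f
  rw [Polynomial.eq_X_add_C_of_degree_eq_one h, hq, Polynomial.C_1, one_mul,
    Polynomial.aeval_add, Polynomial.aeval_X, Polynomial.aeval_C,
    add_eq_zero_iff_eq_neg] at this
  exact (map_neg (algebraMap Qb (Om M)) ((minpoly Qb f).coeff 0)).symm ▸ this.symm

theorem isAlgebraic_rat_of_mem_Ec {e : Om M} (he : e ∈ Ec M E) : IsAlgebraic ℚ e := by
  obtain ⟨a, -, rfl⟩ := mem_Ec_iff.mp he
  exact ((AlgebraicClosure.isAlgebraic ℚ).isAlgebraic a).algebraMap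

theorem E_closed_in_F : ∀ f ∈ Fc M E, IsAlgebraic (Ec M E) f → f ∈ Ec M E := by
  intro f hf halg
  haveI : Algebra.IsAlgebraic ℚ (Ec M E) := by
    refine ⟨fun e => ?_⟩
    have h := isAlgebraic_rat_of_mem_Ec e.2
    exact (isAlgebraic_algebraMap_iff (A := Om M) (algebraMap (Ec M E) (Om M)).injective).mp h
  have h1 : IsAlgebraic ℚ f := halg.restrictScalars ℚ
  have h2 : IsAlgebraic Qb f := h1.tower_top Qb
  obtain ⟨c, rfl⟩ := exists_iota_eq_of_isAlgebraic h2
  exact iota_mem_Ec (mem_E_of_iota_mem_Fc hf)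

/-- The image of `ℚ(j_d : d ∣ M)` in `Q̄((q))` lies in (the image of) `Fc`. -/
theorem coeffEmb_mem_map_Fc {z : LaurentSeries ℚ} (hz : z ∈ modularFunctionFieldFull M) :
    coeffEmb Qb z ∈ (Fc M E).map (valOm M) := by
  have hle : (modularFunctionFieldFull M).toSubfield ≤
      ((Fc M E).map (valOm M)).comap (coeffEmb Qb) := by
    unfold modularFunctionFieldFull
    rw [IntermediateField.adjoin_toSubfield, Subfield.closure_le]
    rintro y (⟨r, rfl⟩ | ⟨d, hd, hdM, rfl⟩)
    · show coeffEmb Qb (algebraMap ℚ (LaurentSeries ℚ) r) ∈ (Fc M E).map (valOm M)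
      refine ⟨iota M (algebraMap ℚ Qb r), Ec_le_Fc (iota_mem_Ec (E.algebraMap_mem r)), ?_⟩
      rw [valOm_apply, coe_iota_single, algebraMap_laurentSeries_eq_single, coeffEmb, coeffMap_single]
    · exact ⟨jd M d hdM, Subfield.subset_closure (Or.inr ⟨d, hd, hdM, rfl⟩), rfl⟩
  exact hle hz

theorem exists_mem_Fc_of_mem_full {z : LaurentSeries ℚ} (hz : z ∈ modularFunctionFieldFull M) :
    ∃ f ∈ Fc M E, (f : LaurentSeries Qb) = coeffEmb Qb z := by
  obtain ⟨f, hf, hfz⟩ := coeffEmb_mem_map_Fc (E := E) hz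
  exact ⟨f, hf, hfz⟩

theorem compositum_eq_top : Subfield.closure ((Fc M E : Set (Om M)) ∪ Lc M) = ⊤ := by
  rw [eq_top_iff]
  rintro y -
  set T : Subfield (Om M) := Subfield.closure ((Fc M E : Set (Om M)) ∪ Lc M) with hT
  have hle : (modularFunctionFieldBar M).toSubfield ≤ T.map (valOm M) := by
    show (laurentBaseChange Qb (modularFunctionFieldFull M)).toSubfield ≤ _
    unfold laurentBaseChange
    rw [IntermediateField.adjoin_toSubfield, Subfield.closure_le]
    rintro z (⟨a, rfl⟩ | ⟨z0, hz0, rfl⟩)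
    · exact ⟨iota M a, Subfield.subset_closure (Or.inr (iota_mem_Lc a)), rfl⟩
    · obtain ⟨f, hf, hfz⟩ := exists_mem_Fc_of_mem_full (E := E) hz0
      exact ⟨f, Subfield.subset_closure (Or.inl hf), hfz⟩
  obtain ⟨t, ht, hty⟩ := hle y.2
  have : t = y := valOm_injective M hty
  exact this ▸ ht

theorem fieldFacts (M : ℕ) (A : ValuationSubring Qb) (E : IntermediateField ℚ Qb) :
    FieldFacts M A E where
  R_le := Rc_subset_Ec
  R_total := Rc_total
  E_le_L := Ec_le_Lc
  E_le_F := Ec_le_Fc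
  L_algebraic := isAlgebraic_Ec_of_mem_Lc
  L_algClosed := isAlgClosed_Lc M
  E_closed_in_F := E_closed_in_F
  compositum := compositum_eq_top

end Fermat.Agent.S18.H576

end
end
-- ===== PACK-END S18/H576/Coeff.lean

-- ===== PACK-BEGIN S36/H253/FundIneq.lean
section


/-!
# The fundamental inequality with ramification, and its equality case (helper253)

Mathlib only (on top of `NormVal.lean`).  `F / K` finite, `O ⊆ K` a DISCRETE valuation subring
(`hdvr`: every nonzero valuation is an integral power of `v ϖ`), `V i` (`i : ι`, finite) pairwise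
incomparable valuation subrings of `F` over `O`, reductions `π : O → k`, `ρ i : V i → κ i`
(surjective), and LOWER-BOUND data `τ i ∈ m_{V i}` with `v i (ϖ) = v i (τ i) ^ E i`.

* `fund_ineq_indep` : for `k`-linearly independent families `b i : J i → κ i`,
  `∑ i, E i * #(J i) ≤ [F : K]`.
* `finite_residue`, `fund_ineq` : `κ i / k` is finite and `∑ i, E i * [κ i : k] ≤ [F : K]`.
* `finrank_eq_of_fund_eq`, `gen_of_fund_eq`, `eq_of_fund_eq` : the equality case
  (`∑ i, E i * f i = [F : K]` with `f i ≤ [κ i : k]`): `[κ i : k] = f i`, `τ i` generates the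
  maximal ideal of `V i`, and the `V i` are ALL the valuation subrings of `F` over `O`.
* `norm_red_ram_lb`, `val_norm_ram_lb` : `norm_red_ram` and `val_norm_ram` from lower-bound data.
-/

set_option autoImplicit false
set_option linter.unusedSectionVars false

namespace Fermat.Agent.S36.H253

open scoped BigOperators
open Fermat.Agent.S35.H253

section Helpers

variable {K F : Type*} [Field K] [Field F] [Algebra K F]

/-- In a linearly ordered group with zero: if `0 < x < 1` and `x ^ n < 1` (`n : ℤ`), then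
`x ^ n ≤ x`. -/
theorem zpow_le_self_of_lt_one {Γ : Type*} [LinearOrderedCommGroupWithZero Γ] {x : Γ}
    (hx0 : x ≠ 0) (hx : x < 1) {n : ℤ} (hn : x ^ n < 1) : x ^ n ≤ x := by
  have hn1 : 1 ≤ n := by
    by_contra hcon
    have hle : n ≤ 0 := by omega
    have : (1 : Γ) ≤ x ^ n := by
      obtain ⟨m, hm⟩ : ∃ m : ℕ, n = -(m : ℤ) := ⟨(-n).toNat, by omega⟩
      rw [hm, zpow_neg, zpow_natCast]
      exact (one_le_inv₀ (pow_pos (zero_lt_iff.2 hx0) _)).2 (pow_le_one₀ zero_le hx.le)
    exact lt_irrefl _ (lt_of_le_of_lt this hn)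
  obtain ⟨m, hm⟩ : ∃ m : ℕ, n = (m : ℤ) + 1 := ⟨(n - 1).toNat, by omega⟩
  rw [hm, zpow_add₀ hx0, zpow_one, zpow_natCast]
  calc x ^ m * x ≤ 1 * x := by
        gcongr; exact pow_le_one₀ zero_le hx.le
    _ = x := one_mul _

/-- A discrete valuation ring has a generator of its maximal ideal. -/
theorem genO_of_dvr {O : ValuationSubring K} {ϖ : K} (hϖ0 : ϖ ≠ 0) (hϖ : O.valuation ϖ < 1)
    (hdvr : ∀ a : K, a ≠ 0 → ∃ n : ℤ, O.valuation a = O.valuation ϖ ^ n)
    (a : K) (ha : O.valuation a < 1) : O.valuation a ≤ O.valuation ϖ := by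
  have hvϖ : O.valuation ϖ ≠ 0 := by rw [Ne, Valuation.zero_iff]; exact hϖ0
  by_cases ha0 : a = 0
  · rw [ha0, map_zero]; exact zero_le
  obtain ⟨n, hn⟩ := hdvr a ha0
  rw [hn] at ha ⊢
  exact zpow_le_self_of_lt_one hvϖ hϖ ha

/-- Over a valuation ring `O`, the valuation of `V` on `K` is determined by that of `O`. -/
theorem Over_val_zpow {O : ValuationSubring K} {V : ValuationSubring F} (h : Over O V)
    {ϖ c : K} (hϖ0 : ϖ ≠ 0) {n : ℤ} (hn : O.valuation c = O.valuation ϖ ^ n) :
    V.valuation (algebraMap K F c) = V.valuation (algebraMap K F ϖ) ^ n := by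
  have hvϖ : O.valuation ϖ ≠ 0 := by rw [Ne, Valuation.zero_iff]; exact hϖ0
  have hunit : O.valuation (c * (ϖ ^ n)⁻¹) = 1 := by
    rw [map_mul, map_inv₀, map_zpow₀, hn, mul_inv_cancel₀ (zpow_ne_zero _ hvϖ)]
  have h1 := Over_val_eq_one h hunit
  have e1 : c = (c * (ϖ ^ n)⁻¹) * ϖ ^ n := by
    rw [inv_mul_cancel_right₀ (zpow_ne_zero _ hϖ0)]
  conv_lhs => rw [e1]
  rw [map_mul, map_mul, h1, one_mul, map_zpow₀, map_zpow₀]

/-- Over a discrete valuation ring, in an algebraic extension, every element of the maximal ideal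
of `V` has a power divisible by the uniformiser of `O`. -/
theorem exists_pow_le_of_dvr [Algebra.IsAlgebraic K F] {O : ValuationSubring K} {ϖ : K}
    {V : ValuationSubring F} (hover : Over O V) (hϖ0 : ϖ ≠ 0) (hϖ : O.valuation ϖ < 1)
    (hdvr : ∀ a : K, a ≠ 0 → ∃ n : ℤ, O.valuation a = O.valuation ϖ ^ n)
    {z : F} (hz : V.valuation z < 1) :
    ∃ N : ℕ, V.valuation z ^ N ≤ V.valuation (algebraMap K F ϖ) := by
  by_cases hz0 : z = 0
  · exact ⟨1, by rw [hz0, map_zero, pow_one]; exact zero_le⟩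
  obtain ⟨d, hd, c, hc0, hdc⟩ := exists_pow_val_eq (K := K) V hz0
  obtain ⟨n, hn⟩ := hdvr c hc0
  have hc := Over_val_zpow hover hϖ0 hn
  have hϖV : V.valuation (algebraMap K F ϖ) < 1 := (hover.val_lt_one_iff ϖ).2 hϖ
  have hϖV0 : V.valuation (algebraMap K F ϖ) ≠ 0 := by
    rw [Ne, Valuation.zero_iff, map_eq_zero]; exact hϖ0
  refine ⟨d, ?_⟩
  rw [hdc, hc]
  refine zpow_le_self_of_lt_one hϖV0 hϖV ?_
  rw [← hc, ← hdc]
  exact pow_lt_one₀ zero_le hz hd.ne'

/-- **Bezout in the value group.**  If `0 < x < y < 1` and `y ^ d = x ^ S` (`d ≥ 1`), then `x`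
is a proper power `(y ^ a * x ^ b) ^ m`, `m ≥ 2`. -/
theorem exists_root_of_between {Γ : Type*} [LinearOrderedCommGroupWithZero Γ] {x y : Γ}
    (hx0 : 0 < x) (hxy : x < y) (hy : y < 1) {d : ℕ} (hd : 0 < d) {S : ℤ}
    (h : y ^ d = x ^ S) :
    ∃ (a b : ℤ) (m : ℕ), 2 ≤ m ∧ (y ^ a * x ^ b) ^ m = x := by
  have hx1 : x < 1 := lt_trans hxy hy
  have hxne : x ≠ 0 := hx0.ne'
  have hSpos : 0 < S := by
    by_contra hcon
    have hle : S ≤ 0 := not_lt.1 hcon
    have h1 : x ^ (0 : ℤ) ≤ x ^ S := zpow_le_zpow_right_of_le_one₀ hx0 hx1.le hle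
    rw [zpow_zero, ← h] at h1
    exact absurd (pow_lt_one₀ zero_le hy hd.ne') (not_lt.2 h1)
  have hSd : S < d := by
    by_contra hcon
    have hle : (d : ℤ) ≤ S := not_lt.1 hcon
    have h1 : x ^ S ≤ x ^ (d : ℤ) := zpow_le_zpow_right_of_le_one₀ hx0 hx1.le hle
    rw [zpow_natCast, ← h] at h1
    exact absurd (pow_lt_pow_left₀ hxy zero_le hd.ne') (not_lt.2 h1)
  set g := Int.gcd S d with hgdef
  have hbez : (g : ℤ) = S * Int.gcdA S d + (d : ℤ) * Int.gcdB S d := Int.gcd_eq_gcd_ab S d
  have hgS : (g : ℤ) ∣ S := Int.gcd_dvd_left S d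
  have hgd : (g : ℤ) ∣ (d : ℤ) := Int.gcd_dvd_right S d
  have hgle : (g : ℤ) ≤ S := Int.le_of_dvd hSpos hgS
  have hgpos : 0 < g := Int.gcd_pos_of_ne_zero_left _ hSpos.ne'
  obtain ⟨m, hm⟩ := Int.natCast_dvd_natCast.1 hgd
  have hm2 : 2 ≤ m := by
    by_contra hcon
    have hm1 : m ≤ 1 := by omega
    have : d ≤ g := by
      rw [hm]
      calc g * m ≤ g * 1 := Nat.mul_le_mul_left _ hm1
        _ = g := mul_one _
    have : (d : ℤ) ≤ g := by exact_mod_cast this
    omega
  refine ⟨Int.gcdA S d, Int.gcdB S d, m, hm2, ?_⟩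
  set a := Int.gcdA S d
  set b := Int.gcdB S d
  have hyne : y ≠ 0 := (lt_trans hx0 hxy).ne'
  have e1 : (y ^ a * x ^ b) ^ d = x ^ g := by
    rw [← zpow_natCast (y ^ a * x ^ b) d, mul_zpow, ← zpow_mul, ← zpow_mul, mul_comm a (d : ℤ),
      zpow_mul, zpow_natCast y d, h, ← zpow_mul, ← zpow_add₀ hxne, ← zpow_natCast x g, hbez,
      mul_comm b (d : ℤ)]
  have e2 : ((y ^ a * x ^ b) ^ m) ^ g = x ^ g := by
    rw [← pow_mul, mul_comm m g, ← hm, e1]
  exact (pow_left_inj₀ zero_le zero_le hgpos.ne').1 e2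

/-- **Comparable extensions are equal** (discrete base, algebraic extension). -/
theorem eq_of_le_of_over [Algebra.IsAlgebraic K F] {O : ValuationSubring K} {ϖ : K}
    {W V : ValuationSubring F} (hW : Over O W) (hV : Over O V) (hϖ0 : ϖ ≠ 0)
    (hϖ : O.valuation ϖ < 1)
    (hdvr : ∀ a : K, a ≠ 0 → ∃ n : ℤ, O.valuation a = O.valuation ϖ ^ n)
    (hle : W ≤ V) : W = V := by
  refine le_antisymm hle fun x hx => ?_
  by_contra hxW
  have hxW' : 1 < W.valuation x := by
    rw [← not_le, W.valuation_le_one_iff]; exact hxW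
  have hx0 : x ≠ 0 := by
    intro h0; rw [h0, map_zero] at hxW'; exact not_lt_zero hxW'
  have hyW : W.valuation x⁻¹ < 1 := by
    rw [map_inv₀]; exact inv_lt_one_of_one_lt₀ hxW'
  obtain ⟨N, hN⟩ := exists_pow_le_of_dvr hW hϖ0 hϖ hdvr hyW
  have hϖF : algebraMap K F ϖ ≠ 0 := by rw [Ne, map_eq_zero]; exact hϖ0
  have hmemW : x⁻¹ ^ N * (algebraMap K F ϖ)⁻¹ ∈ W := by
    rw [← W.valuation_le_one_iff, map_mul, map_pow, map_inv₀ _ (algebraMap K F ϖ)]
    have hpos : 0 < W.valuation (algebraMap K F ϖ) := by rw [Valuation.pos_iff]; exact hϖF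
    calc W.valuation x⁻¹ ^ N * (W.valuation (algebraMap K F ϖ))⁻¹
        ≤ W.valuation (algebraMap K F ϖ) * (W.valuation (algebraMap K F ϖ))⁻¹ := by gcongr
      _ = 1 := mul_inv_cancel₀ hpos.ne'
  have hmemV := hle hmemW
  have hxV : V.valuation x ≤ 1 := (V.valuation_le_one_iff _).2 hx
  have hyV : V.valuation x⁻¹ ≤ 1 :=
    (V.valuation_le_one_iff _).2 (hle ((W.valuation_le_one_iff _).1 hyW.le))
  have hyV1 : V.valuation x⁻¹ = 1 := by
    refine le_antisymm hyV ?_
    rw [map_inv₀]
    exact (one_le_inv₀ (by rw [Valuation.pos_iff]; exact hx0)).2 hxV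
  have hϖV : V.valuation (algebraMap K F ϖ) < 1 := (hV.val_lt_one_iff ϖ).2 hϖ
  have hbad : 1 < V.valuation (x⁻¹ ^ N * (algebraMap K F ϖ)⁻¹) := by
    rw [map_mul, map_pow, hyV1, one_pow, one_mul, map_inv₀]
    exact (one_lt_inv₀ (by rw [Valuation.pos_iff]; exact hϖF)).2 hϖV
  exact absurd ((V.valuation_le_one_iff _).2 hmemV) (not_le.2 hbad)

/-- The lower bound `E` of the ramification index is positive. -/
theorem E_pos_of_ram {O : ValuationSubring K} {ϖ : K} {V : ValuationSubring F} {τ : F} {E : ℕ}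
    (hover : Over O V) (hϖ : O.valuation ϖ < 1)
    (hram : V.valuation (algebraMap K F ϖ) = V.valuation τ ^ E) : 0 < E := by
  rcases Nat.eq_zero_or_pos E with he | he
  · rw [he, pow_zero] at hram
    have := hover.val_lt_one_iff ϖ |>.2 hϖ
    rw [hram] at this
    exact absurd this (lt_irrefl _)
  · exact he

end Helpers

section Closure

variable {K F : Type*} [Field K] [Field F] [Algebra K F]
variable {O : ValuationSubring K} {ϖ : K} {ι : Type*} [Fintype ι] [DecidableEq ι]
  {V : ι → ValuationSubring F}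
  {t : ι → F} {e : ι → ℕ} {J : ι → Type*} [∀ i, Fintype (J i)]
  {r : (i : ι) → J i → Fin (e i) → F}

/-- If an adapted family is a basis, `⋂ V i` is contained in every valuation ring of `F`
over `O` (it is the integral closure of `O`). -/
theorem RamFamily.mem_of_forall_mem [Module.Finite K F] (h : RamFamily O ϖ V t e r)
    (hcard : ∑ i, e i * Fintype.card (J i) = Module.finrank K F)
    {W : ValuationSubring F} (hW : Over O W) {x : F} (hx : ∀ i, x ∈ V i) : x ∈ W := by
  classical
  have hcard' : Fintype.card (Idx e J) = Module.finrank K F := by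
    rw [RamFamily.card_idx]; exact hcard
  have hne : Nonempty (Idx e J) := by
    rw [← Fintype.card_pos_iff, hcard']
    exact Module.finrank_pos
  set bas : Module.Basis (Idx e J) K F :=
    basisOfLinearIndependentOfCardEqFinrank h.linearIndependent hcard' with hbasdef
  have hbas : ⇑bas = fam t e r := coe_basisOfLinearIndependentOfCardEqFinrank _ _
  by_contra hxW
  have hxW' : 1 < W.valuation x := by
    rw [← not_le, W.valuation_le_one_iff]; exact hxW
  obtain ⟨l₀, -, hmax⟩ := Finset.exists_max_image (Finset.univ : Finset (Idx e J))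
    (fun l => W.valuation (fam t e r l)) Finset.univ_nonempty
  have hl₀ : 0 < W.valuation (fam t e r l₀) := by
    rw [Valuation.pos_iff, ← hbas]; exact bas.ne_zero l₀
  have hrepr : x * fam t e r l₀ =
      ∑ l, algebraMap K F (bas.repr (x * fam t e r l₀) l) * fam t e r l :=
    (RamFamily.sum_repr_eq bas hbas _).symm
  have hle : W.valuation (x * fam t e r l₀) ≤ W.valuation (fam t e r l₀) := by
    rw [hrepr]
    refine Valuation.map_sum_le _ fun l _ => ?_
    rw [map_mul]
    have hmem : bas.repr (x * fam t e r l₀) l ∈ O :=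
      h.repr_mem bas hbas (fun i => mul_mem (hx i) (h.fam_mem l₀ i)) l
    calc W.valuation (algebraMap K F (bas.repr (x * fam t e r l₀) l)) *
          W.valuation (fam t e r l)
        ≤ 1 * W.valuation (fam t e r l₀) := by
          gcongr
          · exact (hW.val_le_one_iff _).2 ((O.valuation_le_one_iff _).2 hmem)
          · exact hmax l (Finset.mem_univ l)
      _ = _ := one_mul _
  have hgt : W.valuation (fam t e r l₀) < W.valuation (x * fam t e r l₀) := by
    rw [map_mul]
    calc W.valuation (fam t e r l₀) = 1 * W.valuation (fam t e r l₀) := (one_mul _).symm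
      _ < W.valuation x * W.valuation (fam t e r l₀) := by gcongr
  exact absurd hle (not_le.2 hgt)

end Closure

section Ineq

variable {K F : Type*} [Field K] [Field F] [Algebra K F]
variable {ι : Type*} [Fintype ι]
    {O : ValuationSubring K} {ϖ : K} {V : ι → ValuationSubring F} {τ : ι → F} {E : ι → ℕ}
    (hover : ∀ i, Over O (V i)) (hinc : ∀ i i', i ≠ i' → ¬ V i ≤ V i')
    (hϖ0 : ϖ ≠ 0) (hϖ : O.valuation ϖ < 1)
    (hgenO : ∀ a : K, O.valuation a < 1 → O.valuation a ≤ O.valuation ϖ)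
    (hτ : ∀ i, (V i).valuation (τ i) < 1)
    (hrad : ∀ i (z : F), (V i).valuation z < 1 →
      ∃ N : ℕ, (V i).valuation z ^ N ≤ (V i).valuation (algebraMap K F ϖ))
    (hram : ∀ i, (V i).valuation (algebraMap K F ϖ) = (V i).valuation (τ i) ^ E i)
    {k : Type*} [Field k] {κ : ι → Type*} [∀ i, Field (κ i)] [∀ i, Algebra k (κ i)]
    (π : O →+* k) (ρ : ∀ i, V i →+* κ i)
    (hπ : Function.Surjective π) (hρ : ∀ i, Function.Surjective (ρ i))
    (hc : ∀ i (a : O), ρ i ⟨algebraMap K F a, ((hover i) a).2 a.2⟩ = algebraMap k (κ i) (π a))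

include hover hinc hϖ0 hϖ hgenO hτ hrad hram hπ hρ hc

/-- Adapted families exist for any residually independent families `b i : J i → κ i`
(no generator of the maximal ideal of `V i` is needed, only `hrad`). -/
theorem exists_ramFamily_of_indep [DecidableEq ι] {J : ι → Type*} [∀ i, Fintype (J i)]
    (b : ∀ i, J i → κ i) (hb : ∀ i, LinearIndependent k (b i)) :
    ∃ r : (i : ι) → J i → Fin (E i) → F, RamFamily O ϖ V τ E r := by
  classical
  have hker : ∀ i (z : V i), ρ i z = 0 ↔ (V i).valuation (z : F) < 1 :=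
    fun i z => map_eq_zero_iff_val_lt_one (ρ i) (hρ i) z
  have hkerO : ∀ a : O, π a = 0 ↔ O.valuation (a : K) < 1 :=
    fun a => map_eq_zero_iff_val_lt_one π hπ a
  choose E' hE1 hE2 using fun i => exists_idem_multi V hinc i
  have hEmem : ∀ i i', E' i ∈ V i' := fun i i' => by
    by_cases hi : i' = i
    · subst hi
      have : E' i' = 1 - (1 - E' i') := by ring
      rw [this]
      exact sub_mem (one_mem _) (((V i').valuation_le_one_iff _).1 (hE1 i').le)
    · exact ((V i').valuation_le_one_iff _).1 (hE2 i i' hi).le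
  have hρE : ∀ i, ρ i ⟨E' i, hEmem i i⟩ = 1 := fun i => by
    have h0 : ρ i (1 - ⟨E' i, hEmem i i⟩) = 0 := (hker i _).2 (hE1 i)
    rw [map_sub, map_one, sub_eq_zero] at h0
    exact h0.symm
  -- a uniform exponent
  have hNex : ∀ i i', ∃ N : ℕ, i' ≠ i →
      (V i').valuation (E' i) ^ N ≤ (V i').valuation (algebraMap K F ϖ) := fun i i' => by
    by_cases hi : i' = i
    · exact ⟨0, fun h => absurd hi h⟩
    · obtain ⟨N, hN⟩ := hrad i' (E' i) (hE2 i i' hi)
      exact ⟨N, fun _ => hN⟩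
  choose Nf hNf using hNex
  set N := ∑ i, ∑ i', Nf i i' with hNdef
  have hNle : ∀ i i', Nf i i' ≤ N := fun i i' => by
    have h1 : Nf i i' ≤ ∑ i'', Nf i i'' :=
      Finset.single_le_sum (f := fun i'' => Nf i i'') (fun _ _ => Nat.zero_le _)
        (Finset.mem_univ i')
    have h2 : ∑ i'', Nf i i'' ≤ N :=
      Finset.single_le_sum (f := fun i => ∑ i'', Nf i i'') (fun _ _ => Nat.zero_le _)
        (Finset.mem_univ i)
    exact le_trans h1 h2
  have hEN : ∀ i i', i' ≠ i →
      (V i').valuation (E' i ^ N) ≤ (V i').valuation (algebraMap K F ϖ) :=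
    fun i i' hi => by
      rw [map_pow]
      calc (V i').valuation (E' i) ^ N ≤ (V i').valuation (E' i) ^ Nf i i' :=
            pow_le_pow_of_le_one zero_le (hE2 i i' hi).le (hNle i i')
        _ ≤ _ := hNf i i' hi
  choose z hz using fun (i : ι) (j : J i) => hρ i (b i j)
  choose G hG1 hG2 using fun (i : ι) (j : J i) => exists_lift_multi V hinc i (z i j).2
  have hρG : ∀ i j, ρ i ⟨G i j, hG1 i j i⟩ = b i j := fun i j => by
    rw [← hz i j, ← sub_eq_zero, ← map_sub, hker]
    exact hG2 i j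
  choose u hu1 hu2 hu3 using fun i => exists_multiplier V (τ i)
  have hτmem : ∀ i, τ i ∈ V i := fun i => ((V i).valuation_le_one_iff _).1 (hτ i).le
  have hρu : ∀ i, ρ i ⟨u i, hu1 i i⟩ ≠ 0 := fun i h0 => by
    have := (hker i _).1 h0
    simp only at this
    rw [hu3 i i (hτmem i)] at this
    exact lt_irrefl _ this
  let r : (i : ι) → J i → Fin (E i) → F := fun i j s => E' i ^ N * G i j * u i ^ (s : ℕ)
  have hrmem : ∀ i j s, r i j s ∈ V i := fun i j s =>
    mul_mem (mul_mem (pow_mem (hEmem i i) _) (hG1 i j i)) (pow_mem (hu1 i i) _)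
  have hρr : ∀ i j s, ρ i ⟨r i j s, hrmem i j s⟩ =
      ρ i ⟨u i, hu1 i i⟩ ^ (s : ℕ) * b i j := fun i j (s : Fin (E i)) => by
    have e1 : (⟨r i j s, hrmem i j s⟩ : V i) =
        ⟨E' i, hEmem i i⟩ ^ N * ⟨G i j, hG1 i j i⟩ * ⟨u i, hu1 i i⟩ ^ (s : ℕ) := rfl
    rw [e1, map_mul, map_mul, map_pow, map_pow, hρE, one_pow, one_mul, hρG, mul_comm]
  refine ⟨r, ?_⟩
  exact
    { isOver := hover
      ne_zero := hϖ0
      unifO := hϖ
      genO := hgenO
      unif := hτ
      ram := hram
      r_mem := hrmem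
      small := by
        intro i j s i' hi
        have e1 : r i j s * τ i ^ (s : ℕ) = E' i ^ N * (G i j * (τ i * u i) ^ (s : ℕ)) := by
          simp only [r]; ring
        rw [e1, map_mul]
        calc (V i').valuation (E' i ^ N) * (V i').valuation (G i j * (τ i * u i) ^ (s : ℕ))
            ≤ (V i').valuation (algebraMap K F ϖ) * 1 := by
              gcongr
              · exact hEN i i' hi
              · exact ((V i').valuation_le_one_iff _).2
                  (mul_mem (hG1 i j i') (pow_mem (hu2 i i') _))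
          _ = _ := mul_one _
      indep := by
        intro i s a ha hsmall j
        have hmem : (∑ j, algebraMap K F (a j) * r i j s) ∈ V i :=
          ((V i).valuation_le_one_iff _).1 hsmall.le
        have h0 : ρ i ⟨_, hmem⟩ = 0 := (hker i ⟨_, hmem⟩).2 hsmall
        have e1 : (⟨_, hmem⟩ : V i) =
            ∑ j, (⟨algebraMap K F (a j), ((hover i) (a j)).2 (ha j)⟩ : V i) *
              ⟨r i j s, hrmem i j s⟩ := by
          apply Subtype.ext
          rw [AddSubmonoidClass.coe_finsetSum]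
          simp only [MulMemClass.coe_mul]
        rw [e1, map_sum] at h0
        have h1 : ρ i ⟨u i, hu1 i i⟩ ^ (s : ℕ) * ∑ j, π ⟨a j, ha j⟩ • b i j = 0 := by
          rw [← h0, Finset.mul_sum]
          refine Finset.sum_congr rfl fun j _ => ?_
          rw [map_mul, hρr, Algebra.smul_def, ← hc]
          ring
        have h2 : ∑ j, π ⟨a j, ha j⟩ • b i j = 0 :=
          (mul_eq_zero.1 h1).resolve_left (pow_ne_zero _ (hρu i))
        have := Fintype.linearIndependent_iff.1 (hb i) _ h2 j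
        exact (hkerO ⟨a j, ha j⟩).1 this }

/-- **Fundamental inequality with ramification** (independent-family form):
`∑ i, E i * #(J i) ≤ [F : K]`. -/
theorem fund_ineq_indep [Module.Finite K F] {J : ι → Type*} [∀ i, Fintype (J i)]
    (b : ∀ i, J i → κ i) (hb : ∀ i, LinearIndependent k (b i)) :
    ∑ i, E i * Fintype.card (J i) ≤ Module.finrank K F := by
  classical
  obtain ⟨r, hfam⟩ := exists_ramFamily_of_indep hover hinc hϖ0 hϖ hgenO hτ hrad hram π ρ hπ hρ
    hc b hb
  have h1 := hfam.linearIndependent.fintype_card_le_finrank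
  rwa [RamFamily.card_idx] at h1

omit [Fintype ι] hinc in
/-- **Residue extensions are finite.** -/
theorem finite_residue [Module.Finite K F] (i₀ : ι) : Module.Finite k (κ i₀) := by
  classical
  by_contra hfin
  set n := Module.finrank K F with hn
  have hrank : ((n + 1 : ℕ) : Cardinal) ≤ Module.rank k (κ i₀) := by
    have h1 : ¬ Module.rank k (κ i₀) < Cardinal.aleph0 :=
      fun h => hfin (Module.rank_lt_aleph0_iff.1 h)
    exact le_trans (Cardinal.natCast_lt_aleph0).le (not_lt.1 h1)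
  obtain ⟨s, hs, hsi⟩ := le_rank_iff_exists_linearIndependent_finset.1 hrank
  have key := fund_ineq_indep (ι := Unit) (V := fun _ => V i₀) (τ := fun _ => τ i₀)
    (E := fun _ => E i₀) (κ := fun _ => κ i₀) (fun _ => hover i₀)
    (fun i i' h => absurd (Subsingleton.elim i i') h) hϖ0 hϖ hgenO (fun _ => hτ i₀)
    (fun _ => hrad i₀) (fun _ => hram i₀) π (fun _ => ρ i₀) hπ (fun _ => hρ i₀)
    (fun _ => hc i₀) (J := fun _ => ((s : Set (κ i₀)) : Type _))
    (fun _ => ((↑) : ((s : Set (κ i₀)) : Type _) → κ i₀)) (fun _ => hsi)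
  have hcard : Fintype.card ((s : Set (κ i₀)) : Type _) = n + 1 := by
    rw [← hs]; simp
  simp only [Finset.univ_unique, Finset.sum_singleton, hcard] at key
  have hE := E_pos_of_ram (hover i₀) hϖ (hram i₀)
  have h2 : n + 1 ≤ E i₀ * (n + 1) := Nat.le_mul_of_pos_left _ hE
  have h3 : E i₀ * (n + 1) ≤ n := key
  exact absurd (le_trans h2 h3) (Nat.not_succ_le_self n)

/-- **Fundamental inequality with ramification**: `∑ i, E i * [κ i : k] ≤ [F : K]`. -/
theorem fund_ineq [Module.Finite K F] :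
    ∑ i, E i * Module.finrank k (κ i) ≤ Module.finrank K F := by
  classical
  have hfin : ∀ i, Module.Finite k (κ i) := fun i =>
    finite_residue hover hϖ0 hϖ hgenO hτ hrad hram π ρ hπ hρ hc i
  have key := fund_ineq_indep hover hinc hϖ0 hϖ hgenO hτ hrad hram π ρ hπ hρ hc
    (J := fun i => Fin (Module.finrank k (κ i))) (fun i => Module.finBasis k (κ i))
    (fun i => (Module.finBasis k (κ i)).linearIndependent)
  simpa only [Fintype.card_fin] using key

/-- **Equality case, residue degrees.**  If lower bounds `f i ≤ [κ i : k]` satisfy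
`∑ i, E i * f i = [F : K]`, then `[κ i : k] = f i`. -/
theorem finrank_eq_of_fund_eq [Module.Finite K F] (f : ι → ℕ)
    (hf : ∀ i, f i ≤ Module.finrank k (κ i))
    (heq : ∑ i, E i * f i = Module.finrank K F) (i : ι) :
    Module.finrank k (κ i) = f i := by
  classical
  have key := fund_ineq hover hinc hϖ0 hϖ hgenO hτ hrad hram π ρ hπ hρ hc
  by_contra hne
  have hlt : f i < Module.finrank k (κ i) := lt_of_le_of_ne (hf i) (Ne.symm hne)
  have hsum : ∑ i, E i * f i < ∑ i, E i * Module.finrank k (κ i) := by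
    refine Finset.sum_lt_sum (fun j _ => Nat.mul_le_mul_left _ (hf j)) ⟨i, Finset.mem_univ i, ?_⟩
    exact Nat.mul_lt_mul_of_pos_left hlt (E_pos_of_ram (hover i) hϖ (hram i))
  rw [heq] at hsum
  exact absurd key (not_le.2 hsum)

end Ineq

section Eq

variable {K F : Type*} [Field K] [Field F] [Algebra K F]
variable {ι : Type*} [Fintype ι]
    {O : ValuationSubring K} {ϖ : K} {V : ι → ValuationSubring F} {τ : ι → F} {E : ι → ℕ}
    (hover : ∀ i, Over O (V i)) (hinc : ∀ i i', i ≠ i' → ¬ V i ≤ V i')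
    (hϖ0 : ϖ ≠ 0) (hϖ : O.valuation ϖ < 1)
    (hdvr : ∀ a : K, a ≠ 0 → ∃ n : ℤ, O.valuation a = O.valuation ϖ ^ n)
    (hτ : ∀ i, (V i).valuation (τ i) < 1)
    (hram : ∀ i, (V i).valuation (algebraMap K F ϖ) = (V i).valuation (τ i) ^ E i)
    {k : Type*} [Field k] {κ : ι → Type*} [∀ i, Field (κ i)] [∀ i, Algebra k (κ i)]
    (π : O →+* k) (ρ : ∀ i, V i →+* κ i)
    (hπ : Function.Surjective π) (hρ : ∀ i, Function.Surjective (ρ i))
    (hc : ∀ i (a : O), ρ i ⟨algebraMap K F a, ((hover i) a).2 a.2⟩ = algebraMap k (κ i) (π a))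

include hover hinc hϖ0 hϖ hdvr hτ hram hπ hρ hc

/-- `fund_ineq` over a discrete base. -/
theorem fund_ineq_dvr [Module.Finite K F] :
    ∑ i, E i * Module.finrank k (κ i) ≤ Module.finrank K F :=
  fund_ineq hover hinc hϖ0 hϖ (genO_of_dvr hϖ0 hϖ hdvr) hτ
    (fun i _ hz => exists_pow_le_of_dvr (hover i) hϖ0 hϖ hdvr hz) hram π ρ hπ hρ hc

omit [Fintype ι] hinc in
/-- `finite_residue` over a discrete base. -/
theorem finite_residue_dvr [Module.Finite K F] (i : ι) : Module.Finite k (κ i) :=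
  finite_residue hover hϖ0 hϖ (genO_of_dvr hϖ0 hϖ hdvr) hτ
    (fun i _ hz => exists_pow_le_of_dvr (hover i) hϖ0 hϖ hdvr hz) hram π ρ hπ hρ hc i

/-- **Equality case, uniformisers.**  If `∑ i, E i * [κ i : k] = [F : K]`, then `τ i` generates
the maximal ideal of `V i`. -/
theorem gen_of_fund_eq [Module.Finite K F]
    (hdeg : ∑ i, E i * Module.finrank k (κ i) = Module.finrank K F) (i₀ : ι) (z : F)
    (hz : (V i₀).valuation z < 1) : (V i₀).valuation z ≤ (V i₀).valuation (τ i₀) := by
  classical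
  by_contra hcon
  rw [not_le] at hcon
  have hz0 : z ≠ 0 := by
    intro h0
    rw [h0, map_zero] at hcon
    exact not_lt_zero hcon
  have hτ0 : τ i₀ ≠ 0 := by
    intro h0
    have h1 := hram i₀
    have he := E_pos_of_ram (hover i₀) hϖ (hram i₀)
    rw [h0, map_zero, zero_pow he.ne', Valuation.zero_iff, map_eq_zero] at h1
    exact hϖ0 h1
  have hτpos : 0 < (V i₀).valuation (τ i₀) := by rw [Valuation.pos_iff]; exact hτ0
  -- `v z ^ d = v τ ^ S`
  obtain ⟨d, hd, c, hc0, hdc⟩ := exists_pow_val_eq (K := K) (V i₀) hz0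
  obtain ⟨n, hn⟩ := hdvr c hc0
  have hcv := Over_val_zpow (hover i₀) hϖ0 hn
  have hS : (V i₀).valuation z ^ d = (V i₀).valuation (τ i₀) ^ ((E i₀ : ℤ) * n) := by
    rw [hdc, hcv, hram, ← zpow_natCast, ← zpow_mul]
  obtain ⟨a, b, m, hm2, hroot⟩ := exists_root_of_between hτpos hcon hz hd hS
  -- the better uniformiser
  set τ' : F := z ^ a * τ i₀ ^ b with hτ'
  have hvτ' : (V i₀).valuation τ' ^ m = (V i₀).valuation (τ i₀) := by
    rw [hτ', map_mul, map_zpow₀, map_zpow₀]; exact hroot
  have hτ'lt : (V i₀).valuation τ' < 1 := by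
    by_contra hge
    rw [not_lt] at hge
    have : 1 ≤ (V i₀).valuation τ' ^ m := one_le_pow₀ hge
    rw [hvτ'] at this
    exact absurd (hτ i₀) (not_lt.2 this)
  have key := fund_ineq_dvr (τ := Function.update τ i₀ τ')
    (E := Function.update E i₀ (m * E i₀)) hover hinc hϖ0 hϖ hdvr
    (fun i => by
      by_cases hi : i = i₀
      · subst hi; rw [Function.update_self]; exact hτ'lt
      · rw [Function.update_of_ne hi]; exact hτ i)
    (fun i => by
      by_cases hi : i = i₀
      · subst hi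
        rw [Function.update_self, Function.update_self, pow_mul, hvτ']
        exact hram i
      · rw [Function.update_of_ne hi, Function.update_of_ne hi]; exact hram i)
    π ρ hπ hρ hc
  have hfin := finite_residue_dvr hover hϖ0 hϖ hdvr hτ hram π ρ hπ hρ hc i₀
  have hfpos : 0 < Module.finrank k (κ i₀) := Module.finrank_pos
  have hEpos := E_pos_of_ram (hover i₀) hϖ (hram i₀)
  have hlt : ∑ i, E i * Module.finrank k (κ i) <
      ∑ i, Function.update E i₀ (m * E i₀) i * Module.finrank k (κ i) := by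
    refine Finset.sum_lt_sum (fun i _ => ?_) ⟨i₀, Finset.mem_univ i₀, ?_⟩
    · by_cases hi : i = i₀
      · subst hi
        rw [Function.update_self]
        exact Nat.mul_le_mul_right _ (Nat.le_mul_of_pos_left _ (by omega))
      · rw [Function.update_of_ne hi]
    · rw [Function.update_self]
      refine Nat.mul_lt_mul_of_pos_right ?_ hfpos
      calc E i₀ = 1 * E i₀ := (one_mul _).symm
        _ < m * E i₀ := Nat.mul_lt_mul_of_pos_right (by omega) hEpos
  rw [hdeg] at hlt
  exact absurd key (not_le.2 hlt)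

/-- **Equality case, completeness.**  If `∑ i, E i * [κ i : k] = [F : K]`, every valuation
subring of `F` over `O` is one of the `V i`. -/
theorem eq_of_fund_eq [Module.Finite K F]
    (hdeg : ∑ i, E i * Module.finrank k (κ i) = Module.finrank K F)
    {W : ValuationSubring F} (hW : Over O W) : ∃ i, W = V i := by
  classical
  by_contra hcon
  push Not at hcon
  have hgenO := genO_of_dvr hϖ0 hϖ hdvr
  have hrad : ∀ i (z : F), (V i).valuation z < 1 →
      ∃ N : ℕ, (V i).valuation z ^ N ≤ (V i).valuation (algebraMap K F ϖ) :=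
    fun i _ hz => exists_pow_le_of_dvr (hover i) hϖ0 hϖ hdvr hz
  have hfin : ∀ i, Module.Finite k (κ i) := fun i =>
    finite_residue_dvr hover hϖ0 hϖ hdvr hτ hram π ρ hπ hρ hc i
  -- `ι` is nonempty
  have hne : Nonempty ι := by
    by_contra hemp
    rw [not_nonempty_iff] at hemp
    have h0 : Module.finrank K F = 0 := by
      rw [← hdeg]; exact Finset.sum_eq_zero fun i _ => (hemp.false i).elim
    exact absurd (Module.finrank_pos (R := K) (M := F)) (by rw [h0]; exact lt_irrefl 0)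
  obtain ⟨i₁⟩ := hne
  -- the extended family
  let V' : Option ι → ValuationSubring F := fun o => o.elim W V
  have hinc' : ∀ o o', o ≠ o' → ¬ V' o ≤ V' o' := by
    intro o o' hoo'
    rcases o with _ | i <;> rcases o' with _ | i'
    · exact absurd rfl hoo'
    · intro hle
      exact hcon i' (eq_of_le_of_over hW (hover i') hϖ0 hϖ hdvr hle)
    · intro hle
      exact hcon i (eq_of_le_of_over (hover i) hW hϖ0 hϖ hdvr hle).symm
    · exact hinc i i' (fun h => hoo' (by rw [h]))
  obtain ⟨E₀, hE1, hE2⟩ := exists_idem_multi V' hinc' none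
  have hy : ∀ i, (V i).valuation (1 - E₀) = 1 := fun i =>
    Valuation.map_one_sub_of_lt _ (hE2 (some i) (by simp))
  have hy0 : (1 - E₀) ≠ 0 := by
    intro h0
    have := hy i₁
    rw [h0, map_zero] at this
    exact zero_ne_one this
  have hx : ∀ i, (1 - E₀)⁻¹ ∈ V i := fun i => by
    rw [← (V i).valuation_le_one_iff, map_inv₀, hy i, inv_one]
  have hxW : (1 - E₀)⁻¹ ∉ W := by
    rw [← W.valuation_le_one_iff, not_le, map_inv₀]
    exact (one_lt_inv₀ (by rw [Valuation.pos_iff]; exact hy0)).2 hE1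
  obtain ⟨r, hfam⟩ := exists_ramFamily_of_indep hover hinc hϖ0 hϖ hgenO hτ hrad hram π ρ hπ hρ
    hc (J := fun i => Fin (Module.finrank k (κ i))) (fun i => Module.finBasis k (κ i))
    (fun i => (Module.finBasis k (κ i)).linearIndependent)
  have hcard : ∑ i, E i * Fintype.card (Fin (Module.finrank k (κ i))) =
      Module.finrank K F := by
    rw [← hdeg]
    exact Finset.sum_congr rfl fun i _ => by rw [Fintype.card_fin]
  exact hxW (hfam.mem_of_forall_mem hcard hW hx)

/-- **`norm_red_ram` from lower-bound data.**  `O` discrete, `τ i ∈ m_{V i}` with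
`v i (ϖ) = v i (τ i) ^ E i`, `f i ≤ [κ i : k]`, `∑ i, E i * f i = [F : K]`.  Then for
`y ∈ ⋂ V i`: `N_{F/K} y ∈ O` and `π (N y) = ∏ i, N_{κ i / k} (ρ i y) ^ E i`. -/
theorem norm_red_ram_lb [Module.Finite K F] (f : ι → ℕ)
    (hf : ∀ i, f i ≤ Module.finrank k (κ i))
    (heq : ∑ i, E i * f i = Module.finrank K F)
    {y : F} (hy : ∀ i, y ∈ V i) :
    ∃ hN : Algebra.norm K y ∈ O,
      π ⟨Algebra.norm K y, hN⟩ = ∏ i, Algebra.norm k (ρ i ⟨y, hy i⟩) ^ E i := by
  classical
  have hgenO := genO_of_dvr hϖ0 hϖ hdvr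
  have hrad : ∀ i (z : F), (V i).valuation z < 1 →
      ∃ N : ℕ, (V i).valuation z ^ N ≤ (V i).valuation (algebraMap K F ϖ) :=
    fun i _ hz => exists_pow_le_of_dvr (hover i) hϖ0 hϖ hdvr hz
  have hfin : ∀ i, Module.Finite k (κ i) := fun i =>
    finite_residue_dvr hover hϖ0 hϖ hdvr hτ hram π ρ hπ hρ hc i
  have hfr := finrank_eq_of_fund_eq hover hinc hϖ0 hϖ hgenO hτ hrad hram π ρ hπ hρ hc f hf heq
  have hdeg : ∑ i, E i * Module.finrank k (κ i) = Module.finrank K F := by
    rw [← heq]; exact Finset.sum_congr rfl fun i _ => by rw [hfr i]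
  have hgen := gen_of_fund_eq hover hinc hϖ0 hϖ hdvr hτ hram π ρ hπ hρ hc hdeg
  have hne : Nonempty ι := by
    by_contra hemp
    rw [not_nonempty_iff] at hemp
    have h0 : Module.finrank K F = 0 := by
      rw [← hdeg]; exact Finset.sum_eq_zero fun i _ => (hemp.false i).elim
    exact absurd (Module.finrank_pos (R := K) (M := F)) (by rw [h0]; exact lt_irrefl 0)
  exact norm_red_ram hover hinc hϖ0 hϖ hgenO hτ hgen hram π ρ hπ hρ hc hdeg hy

/-- **`val_norm_ram` from lower-bound data.**  Same hypotheses as `norm_red_ram_lb`.  Every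
`y ≠ 0` has `v i (y) = v i (τ i) ^ a i` with `a i : ℤ`, and
`v (N_{F/K} y) = v ϖ ^ ∑ i, f i * a i`. -/
theorem val_norm_ram_lb [Module.Finite K F] (f : ι → ℕ)
    (hf : ∀ i, f i ≤ Module.finrank k (κ i))
    (heq : ∑ i, E i * f i = Module.finrank K F)
    {y : F} (hy : y ≠ 0) :
    ∃ a : ι → ℤ, (∀ i, (V i).valuation y = (V i).valuation (τ i) ^ a i) ∧
      O.valuation (Algebra.norm K y) = O.valuation ϖ ^ (∑ i, (f i : ℤ) * a i) := by
  classical
  have hgenO := genO_of_dvr hϖ0 hϖ hdvr
  have hrad : ∀ i (z : F), (V i).valuation z < 1 →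
      ∃ N : ℕ, (V i).valuation z ^ N ≤ (V i).valuation (algebraMap K F ϖ) :=
    fun i _ hz => exists_pow_le_of_dvr (hover i) hϖ0 hϖ hdvr hz
  have hfin : ∀ i, Module.Finite k (κ i) := fun i =>
    finite_residue_dvr hover hϖ0 hϖ hdvr hτ hram π ρ hπ hρ hc i
  have hfr := finrank_eq_of_fund_eq hover hinc hϖ0 hϖ hgenO hτ hrad hram π ρ hπ hρ hc f hf heq
  have hdeg : ∑ i, E i * Module.finrank k (κ i) = Module.finrank K F := by
    rw [← heq]; exact Finset.sum_congr rfl fun i _ => by rw [hfr i]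
  have hgen := gen_of_fund_eq hover hinc hϖ0 hϖ hdvr hτ hram π ρ hπ hρ hc hdeg
  have hne : Nonempty ι := by
    by_contra hemp
    rw [not_nonempty_iff] at hemp
    have h0 : Module.finrank K F = 0 := by
      rw [← hdeg]; exact Finset.sum_eq_zero fun i _ => (hemp.false i).elim
    exact absurd (Module.finrank_pos (R := K) (M := F)) (by rw [h0]; exact lt_irrefl 0)
  obtain ⟨a, ha, hN⟩ := val_norm_ram_dvr hover hinc hϖ0 hϖ hdvr hτ hgen hram π ρ hπ hρ hc hdeg hy
  refine ⟨a, ha, ?_⟩
  rw [hN]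
  congr 1
  exact Finset.sum_congr rfl fun i _ => by rw [hfr i]

end Eq

end Fermat.Agent.S36.H253

end
-- ===== PACK-END S36/H253/FundIneq.lean

-- ===== PACK-BEGIN S28/H748/Conj.lean
section





/-!
# S28 / H748 — the conjugates of `j(dτ)` and of `Δ(dτ)/Δ(τ)` under `SL(2,ℤ)`

For `d ∣ N` and `γ ∈ SL(2,ℤ)` the functions `τ ↦ j(d·γτ)` and `τ ↦ Δ(d·γτ)/Δ(γτ)` are
`j((aτ+b)/δ)` and `δ⁻¹² Δ((aτ+b)/δ)/Δ(τ)` for the Hermite data `(a,b,δ)` of `(d,γ)`; all of them
have convergent Laurent expansions in `t = exp(2πiτ/N)` with coefficients in `ℤ[ζ_N, 1/N]`.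
-/

set_option autoImplicit false

noncomputable section

open UpperHalfPlane HahnSeries ModularCurve Fermat.Agent.S24
open scoped Real MatrixGroups Manifold

namespace Fermat.Agent.S28.H748

local notation "Δ" => ModularForm.discriminant

/-! ### Laurent series with coefficients in a subring -/

/-- Laurent series all of whose coefficients lie in the subring `S`. -/
def coeffSub (S : Subring ℂ) : Subring (LaurentSeries ℂ) where
  carrier := {φ | ∀ n, φ.coeff n ∈ S}
  zero_mem' := fun n => by simp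
  one_mem' := fun n => by
    rw [HahnSeries.coeff_one]
    split_ifs
    · exact S.one_mem
    · exact S.zero_mem
  add_mem' := fun hx hy n => by
    rw [HahnSeries.coeff_add]
    exact S.add_mem (hx n) (hy n)
  neg_mem' := fun hx n => by
    rw [HahnSeries.coeff_neg]
    exact S.neg_mem (hx n)
  mul_mem' := fun hx hy n => by
    rw [HahnSeries.coeff_mul]
    exact S.sum_mem fun ij _ => S.mul_mem (hx _) (hy _)

theorem mem_coeffSub {S : Subring ℂ} {φ : LaurentSeries ℂ} :
    φ ∈ coeffSub S ↔ ∀ n, φ.coeff n ∈ S := Iff.rfl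

theorem qExpand_mem_coeffSub {S : Subring ℂ} (e : ℕ) [NeZero e] {φ : LaurentSeries ℂ}
    (h : φ ∈ coeffSub S) : qExpand ℂ e φ ∈ coeffSub S := by
  intro n
  by_cases hn : (e : ℤ) ∣ n
  · obtain ⟨k, rfl⟩ := hn
    rw [qExpand_coeff_mul]
    exact h k
  · rw [qExpand_coeff_of_not_dvd e φ hn]
    exact S.zero_mem

theorem infTwist_mem_coeffSub {S : Subring ℂ} (u : ℂˣ) (hu : ∀ k : ℤ, ((u ^ k : ℂˣ) : ℂ) ∈ S)
    {φ : LaurentSeries ℂ} (h : φ ∈ coeffSub S) : infTwist u φ ∈ coeffSub S := by
  intro n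
  rw [infTwist_coeff]
  exact S.mul_mem (h n) (hu n)

theorem coeffMap_int_mem_coeffSub (S : Subring ℂ) (x : LaurentSeries ℤ) :
    coeffMap (Int.castRingHom ℂ) x ∈ coeffSub S := by
  intro n
  rw [coeffMap_coeff]
  exact intCast_mem S _

theorem C_mem_coeffSub {S : Subring ℂ} {c : ℂ} (hc : c ∈ S) :
    (HahnSeries.C c : LaurentSeries ℂ) ∈ coeffSub S := by
  intro n
  rw [HahnSeries.C_apply, HahnSeries.coeff_single]
  split_ifs
  · exact hc
  · exact S.zero_mem

theorem jqModC_mem_coeffSub (S : Subring ℂ) : jqModC ℂ ∈ coeffSub S := by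
  rw [← coeffMap_jqModC (Int.castRingHom ℂ)]
  exact coeffMap_int_mem_coeffSub S _

theorem single_one_mem_coeffSub (S : Subring ℂ) (k : ℤ) :
    (HahnSeries.single k (1 : ℂ) : LaurentSeries ℂ) ∈ coeffSub S := by
  intro n
  rw [HahnSeries.coeff_single]
  split_ifs
  · exact S.one_mem
  · exact S.zero_mem

theorem ofPowerSeries_map_int_mem_coeffSub (S : Subring ℂ) (p : PowerSeries ℤ) :
    HahnSeries.ofPowerSeries ℤ ℂ (PowerSeries.map (Int.castRingHom ℂ) p) ∈ coeffSub S := by
  rw [← coeffMap_ofPowerSeries]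
  exact coeffMap_int_mem_coeffSub S _

theorem deltaSeriesC_mem_coeffSub (S : Subring ℂ) : H565.deltaSeriesC ∈ coeffSub S := by
  rw [H565.deltaSeriesC, H565.etaProdC, ← map_pow]
  exact (coeffSub S).mul_mem (single_one_mem_coeffSub S 1) (ofPowerSeries_map_int_mem_coeffSub S _)

theorem deltaInvSeriesC_mem_coeffSub (S : Subring ℂ) : H565.deltaInvSeriesC ∈ coeffSub S := by
  rw [H565.deltaInvSeriesC, H565.etaInvC]
  exact (coeffSub S).mul_mem (single_one_mem_coeffSub S (-1))
    (ofPowerSeries_map_int_mem_coeffSub S _)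

/-! ### The coefficient ring `ℤ[ζ_N, 1/N]` -/

/-- `ℤ[ζ_N, 1/N] ⊂ ℂ`. -/
def coeffRing (N : ℕ) : Subring ℂ :=
  Subring.closure ({Complex.exp (2 * Real.pi * Complex.I / N), (N : ℂ)⁻¹} : Set ℂ)

theorem zeta_mem_coeffRing (N : ℕ) : Complex.exp (2 * Real.pi * Complex.I / N) ∈ coeffRing N :=
  Subring.subset_closure (by simp)

theorem inv_mem_coeffRing (N : ℕ) : (N : ℂ)⁻¹ ∈ coeffRing N :=
  Subring.subset_closure (by simp)

theorem zeta_pow_self (N : ℕ) [NeZero N] : Complex.exp (2 * Real.pi * Complex.I / N) ^ N = 1 := by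
  rw [← Complex.exp_nat_mul]
  have hN : (N : ℂ) ≠ 0 := by exact_mod_cast NeZero.ne N
  rw [mul_div_cancel₀ _ hN]
  exact Complex.exp_two_pi_mul_I

theorem zeta_zpow_mem_coeffRing (N : ℕ) [NeZero N] (k : ℤ) :
    Complex.exp (2 * Real.pi * Complex.I / N) ^ k ∈ coeffRing N := by
  have hN : (N : ℤ) ≠ 0 := by exact_mod_cast NeZero.ne N
  have h0 : Complex.exp (2 * Real.pi * Complex.I / N) ≠ 0 := Complex.exp_ne_zero _
  have hk : k = (N : ℤ) * (k / N) + k % N := (Int.mul_ediv_add_emod k N).symm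
  have hnn : 0 ≤ k % (N : ℤ) := Int.emod_nonneg k hN
  obtain ⟨m, hm⟩ := Int.eq_ofNat_of_zero_le hnn
  rw [hk, zpow_add₀ h0, zpow_mul, zpow_natCast, zeta_pow_self, one_zpow, one_mul, hm, zpow_natCast]
  exact (coeffRing N).pow_mem (zeta_mem_coeffRing N) m

theorem infRoot_zpow_mem_coeffRing {N δ : ℕ} [NeZero N] (hδ : 0 < δ) (hδN : δ ∣ N) (b k : ℤ) :
    ((infRoot b δ ^ k : ℂˣ) : ℂ) ∈ coeffRing N := by
  obtain ⟨c, rfl⟩ := hδN
  rw [infRoot_zpow_coe]
  have hδ0 : (δ : ℂ) ≠ 0 := by exact_mod_cast hδ.ne'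
  have hc0 : (c : ℂ) ≠ 0 := by
    intro h
    have : c = 0 := by exact_mod_cast h
    exact NeZero.ne (δ * c) (by rw [this, mul_zero])
  have h1 : Complex.exp (2 * Real.pi * Complex.I * b / δ)
      = Complex.exp (2 * Real.pi * Complex.I / ((δ * c : ℕ) : ℂ)) ^ (b * c) := by
    rw [← Complex.exp_int_mul]
    congr 1
    push_cast
    field_simp
  rw [h1, ← zpow_mul]
  exact zeta_zpow_mem_coeffRing (δ * c) _

theorem natCast_inv_mem_coeffRing {N δ : ℕ} [NeZero N] (hδN : δ ∣ N) :
    ((δ : ℂ))⁻¹ ∈ coeffRing N := by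
  obtain ⟨c, rfl⟩ := hδN
  have hδ0 : (δ : ℂ) ≠ 0 := by
    intro h
    have : δ = 0 := by exact_mod_cast h
    exact NeZero.ne (δ * c) (by rw [this, zero_mul])
  have hc0 : (c : ℂ) ≠ 0 := by
    intro h
    have : c = 0 := by exact_mod_cast h
    exact NeZero.ne (δ * c) (by rw [this, mul_zero])
  have h1 : ((δ : ℂ))⁻¹ = (c : ℂ) * (((δ * c : ℕ) : ℂ))⁻¹ := by
    push_cast
    field_simp
  rw [h1]
  exact (coeffRing (δ * c)).mul_mem (natCast_mem (coeffRing (δ * c)) c) (inv_mem_coeffRing _)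

/-! ### Level-one expansions in the `InfExp` language -/

theorem infExp_iff_hasTExp {N : ℕ} {f : ℍ → ℂ} {φ : LaurentSeries ℂ} :
    InfExp N f φ ↔ H565.HasTExp (N : ℝ) f φ := Iff.rfl

theorem infExp_of_hasTExp_one {f : ℍ → ℂ} {φ : LaurentSeries ℂ} (h : H565.HasTExp 1 f φ) :
    InfExp 1 f φ := by
  rw [infExp_iff_hasTExp, Nat.cast_one]
  exact h

theorem infExp_one_jFun : InfExp 1 H565.jFun (jqModC ℂ) :=
  infExp_of_hasTExp_one H565.hasTExp_jFun

theorem infExp_one_delta : InfExp 1 Δ H565.deltaSeriesC :=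
  infExp_of_hasTExp_one H565.hasTExp_discriminant

theorem infExp_one_deltaInv : InfExp 1 (fun τ => (Δ τ)⁻¹) H565.deltaInvSeriesC :=
  infExp_of_hasTExp_one H565.hasTExp_discriminant_inv

theorem infExp_level {N : ℕ} [NeZero N] {f : ℍ → ℂ} {φ : LaurentSeries ℂ} (h : InfExp 1 f φ) :
    InfExp N f (qExpand ℂ N φ) := by
  rw [infExp_iff_hasTExp] at h ⊢
  rw [Nat.cast_one] at h
  exact h.qExpand_one N

theorem InfExp.mdiff748 {N : ℕ} [NeZero N] {f : ℍ → ℂ} {φ : LaurentSeries ℂ} (h : InfExp N f φ) :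
    MDiff f :=
  H205.ConvTo.mdiff (N := N) (φ := φ) h

/-! ### The conjugate functions -/

/-- `τ ↦ j((aτ+b)/δ)`. -/
def conjJ (a b δ : ℕ) (τ : ℍ) : ℂ := H565.jFun (infAff a b δ τ)

/-- `τ ↦ δ⁻¹² Δ((aτ+b)/δ) / Δ(τ)`. -/
def conjU (a b δ : ℕ) (τ : ℍ) : ℂ := ((δ : ℂ)⁻¹) ^ 12 * Δ (infAff a b δ τ) * (Δ τ)⁻¹

theorem exists_infExp_comp_infAff {N a δ : ℕ} (b : ℤ) [NeZero N] (ha : 0 < a) (hδ : 0 < δ)
    (hδN : δ ∣ N) {f : ℍ → ℂ} {φ : LaurentSeries ℂ} (hf : InfExp 1 f φ)
    (hφ : φ ∈ coeffSub (coeffRing N)) :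
    ∃ ψ, InfExp N (fun τ => f (infAff a b δ τ)) ψ ∧ ψ ∈ coeffSub (coeffRing N) := by
  obtain ⟨c, hc⟩ := hδN
  have hN : 0 < N := Nat.pos_of_ne_zero (NeZero.ne N)
  have hcpos : 0 < c := by
    rcases Nat.eq_zero_or_pos c with h | h
    · subst h
      simp at hc
      omega
    · exact h
  haveI : NeZero (a * c) := ⟨(Nat.mul_pos ha hcpos).ne'⟩
  refine ⟨qExpand ℂ (a * c) (infTwist (infRoot b (δ * 1)) φ),
    InfExp.comp_infAff (M := 1) b ha hδ one_pos hN (by rw [hc]; ring) hf, ?_⟩
  apply qExpand_mem_coeffSub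
  apply infTwist_mem_coeffSub _ _ hφ
  intro k
  rw [mul_one]
  exact infRoot_zpow_mem_coeffRing hδ ⟨c, hc⟩ b k

theorem exists_infExp_conjJ {N a δ : ℕ} (b : ℕ) [NeZero N] (ha : 0 < a) (hδ : 0 < δ)
    (hδN : δ ∣ N) :
    ∃ ψ, InfExp N (conjJ a b δ) ψ ∧ ψ ∈ coeffSub (coeffRing N) :=
  exists_infExp_comp_infAff (b : ℤ) ha hδ hδN infExp_one_jFun (jqModC_mem_coeffSub _)

theorem exists_infExp_conjU {N a δ : ℕ} (b : ℕ) [NeZero N] (ha : 0 < a) (hδ : 0 < δ)
    (hδN : δ ∣ N) :
    ∃ ψ, InfExp N (conjU a b δ) ψ ∧ ψ ∈ coeffSub (coeffRing N) := by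
  obtain ⟨ψ, hψ, hψm⟩ := exists_infExp_comp_infAff (N := N) (b : ℤ) ha hδ hδN infExp_one_delta
    (deltaSeriesC_mem_coeffSub _)
  have h2 : InfExp N (fun τ => (Δ τ)⁻¹) (qExpand ℂ N H565.deltaInvSeriesC) :=
    infExp_level infExp_one_deltaInv
  have h3 := ((InfExp.const (N := N) (((δ : ℂ)⁻¹) ^ 12)).mul hψ).mul h2
  refine ⟨_, h3, ?_⟩
  refine (coeffSub _).mul_mem ((coeffSub _).mul_mem (C_mem_coeffSub ?_) hψm)
    (qExpand_mem_coeffSub N (deltaInvSeriesC_mem_coeffSub _))
  exact (coeffRing N).pow_mem (natCast_inv_mem_coeffRing hδN) 12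

/-! ### Hermite normal form: the conjugates of `j(dτ)` and `Δ(dτ)/Δ(τ)` -/

open H628 in
theorem hermite_data {d : ℕ} (hd : 0 < d) (γ : SL(2, ℤ)) :
    ∃ γ' : SL(2, ℤ), ∀ τ : ℍ,
      infAff d 0 1 (γ • τ) = γ' • infAff (hermA d γ) (hermB d γ) (hermD d γ) τ ∧
      ((γ' 1 0 : ℂ) * (infAff (hermA d γ) (hermB d γ) (hermD d γ) τ : ℂ) + (γ' 1 1 : ℂ)) *
          (hermD d γ : ℂ) = (γ 1 0 : ℂ) * τ + (γ 1 1 : ℂ) := by
  obtain ⟨γ', hmat⟩ := hermite_spec hd γ
  refine ⟨γ', fun τ => ?_⟩
  have hA := hermA_pos hd γ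
  have hD := hermD_pos hd γ
  set σ := infAff (hermA d γ) (hermB d γ) (hermD d γ) τ with hσdef
  have hσ : (σ : ℂ) = ((hermA d γ : ℂ) * τ + (hermB d γ : ℂ)) / (hermD d γ : ℂ) := by
    rw [hσdef, infAff_coe hA hD]
    push_cast
    rfl
  have h00 := congrFun (congrFun hmat 0) 0
  have h01 := congrFun (congrFun hmat 0) 1
  have h10 := congrFun (congrFun hmat 1) 0
  have h11 := congrFun (congrFun hmat 1) 1
  simp only [Matrix.mul_apply, Fin.sum_univ_two, Matrix.of_apply, Matrix.cons_val',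
    Matrix.cons_val_zero, Matrix.cons_val_one, Matrix.empty_val', Matrix.cons_val_fin_one,
    zero_mul, add_zero, one_mul, zero_add, mul_zero] at h00 h01 h10 h11
  have c00 : (d : ℂ) * (γ 0 0 : ℂ) = (γ' 0 0 : ℂ) * (hermA d γ : ℂ) := by exact_mod_cast h00
  have c01 : (d : ℂ) * (γ 0 1 : ℂ) =
      (γ' 0 0 : ℂ) * (hermB d γ : ℂ) + (γ' 0 1 : ℂ) * (hermD d γ : ℂ) := by
    exact_mod_cast h01
  have c10 : (γ 1 0 : ℂ) = (γ' 1 0 : ℂ) * (hermA d γ : ℂ) := by exact_mod_cast h10
  have c11 : (γ 1 1 : ℂ) = (γ' 1 0 : ℂ) * (hermB d γ : ℂ) + (γ' 1 1 : ℂ) * (hermD d γ : ℂ) := by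
    exact_mod_cast h11
  have hD0 : (hermD d γ : ℂ) ≠ 0 := by exact_mod_cast hD.ne'
  have hden1 := int_lin_ne_zero _ _ (SL2_bottom_ne_zero γ) τ
  have hden2 := int_lin_ne_zero _ _ (SL2_bottom_ne_zero γ') σ
  have hnum : (γ' 0 0 : ℂ) * σ + (γ' 0 1 : ℂ)
      = (d : ℂ) * ((γ 0 0 : ℂ) * τ + (γ 0 1 : ℂ)) / (hermD d γ : ℂ) := by
    rw [hσ]; field_simp; linear_combination (-(τ : ℂ)) * c00 - c01
  have hdenom : (γ' 1 0 : ℂ) * σ + (γ' 1 1 : ℂ)
      = ((γ 1 0 : ℂ) * τ + (γ 1 1 : ℂ)) / (hermD d γ : ℂ) := by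
    rw [hσ]; field_simp; linear_combination (-(τ : ℂ)) * c10 - c11
  constructor
  · apply UpperHalfPlane.ext
    rw [infAff_coe hd one_pos, SL2_coe_smul, SL2_coe_smul, hnum, hdenom]
    simp only [Int.cast_zero, add_zero, Nat.cast_one, div_one]
    field_simp
  · rw [hdenom]
    field_simp

open H628 in
theorem conjJ_smul {d : ℕ} (hd : 0 < d) (γ : SL(2, ℤ)) (τ : ℍ) :
    conjJ d 0 1 (γ • τ) = conjJ (hermA d γ) (hermB d γ) (hermD d γ) τ := by
  obtain ⟨γ', h⟩ := hermite_data hd γ
  have h1 := (h τ).1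
  simp only [conjJ, Nat.cast_zero]
  rw [h1, H565.jFun_smul]

open H628 in
theorem conjU_smul {d : ℕ} (hd : 0 < d) (γ : SL(2, ℤ)) (τ : ℍ) :
    conjU d 0 1 (γ • τ) = conjU (hermA d γ) (hermB d γ) (hermD d γ) τ := by
  obtain ⟨γ', h⟩ := hermite_data hd γ
  obtain ⟨h1, h2⟩ := h τ
  have hD0 : (hermD d γ : ℂ) ≠ 0 := by exact_mod_cast (hermD_pos hd γ).ne'
  have hden1 := H565.denom_ne_zero' γ τ
  have hΔ := ModularForm.discriminant_ne_zero τ
  simp only [conjU, Nat.cast_zero, Nat.cast_one, inv_one, one_pow, one_mul]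
  rw [h1, H565.discriminant_smul γ' _, H565.discriminant_smul γ τ, ← h2]
  rw [← h2] at hden1
  have hx : ((γ' 1 0 : ℂ) *
      (infAff (hermA d γ) (hermB d γ) (hermD d γ) τ : ℂ) + (γ' 1 1 : ℂ)) ≠ 0 :=
    left_ne_zero_of_mul hden1
  norm_cast
  field_simp

end Fermat.Agent.S28.H748

end

end
-- ===== PACK-END S28/H748/Conj.lean

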