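import Mathlib
import Fermat.Prelude.Thm_ModularCurve_coeffMap_qExpand
import Fermat.Agent.Pack.S36.E11L2
import Fermat.Agent.Pack.S36.E9L3
import Fermat.Agent.Pack.S36.E11L1
import Fermat.Agent.Pack.S36.E7L1
import Fermat.Agent.Pack.S36.E0L3
import Fermat.Agent.Pack.S36.E4L1
import Fermat.Agent.Pack.S36.E1L1
import Fermat.Agent.Pack.S36.E11L3
import Fermat.Agent.Pack.S36.E11L0
import Fermat.Agent.Pack.S36.E10L2
import Fermat.Agent.Pack.S36.E10L1
import Fermat.Agent.Pack.S36.E8L1
import Fermat.Agent.Pack.S36.E6L0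
import Fermat.Agent.Pack.S36.E10L3
import Fermat.Agent.Pack.S36.E3L3
import Fermat.Agent.Pack.S36.E10L0
import Fermat.Agent.Pack.S36.E4L3
import Fermat.Agent.Pack.S36.E9L2
import Fermat.Agent.Pack.S36.E7L3

-- ===== PACK-BEGIN S24/Deg/H457_Degree.lean
section



/-!
# S24 / DEG (helper457): the degree fields of `ModularPackage`, unconditionally

`degree_fields N : FiniteDimensional ℚ̄(j) (FF N) ∧ finrank ℚ̄(j) (FF N) ≤ |SL₂(ℤ)/Γ₀(N)|`.

Chain: helper648 (conjugate product + D5 + growth of `j`, function level)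
→ `hyp_complex` (formal relations over `ℂ`, via helper708 `HasQExp` and helper264 `hasSum_jFun`)
→ `finiteDimensional_and_finrank_le` (descent `ℂ → ℚ̄` + primitive element).
-/

set_option autoImplicit false

noncomputable section

open UpperHalfPlane ModularGroup CongruenceSubgroup Polynomial ModularCurve
open scoped MatrixGroups Manifold Modular Real

namespace Fermat.Agent.S24.Deg457

theorem jFun_eq_H648 : Fermat.Agent.S24.JFun.jFun = Fermat.Agent.S24.H648.jFun := rfl

/-- the interface hypothesis over `ℂ`, unconditionally -/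
theorem hyp_complex_card (N : ℕ) [NeZero N] : Hyp ℂ N (Nat.card (XX N)) := by
  refine hyp_complex N ?_ ?_
  · rw [jFun_eq_H648]
    exact Fermat.Agent.S24.H648.exists_polynomial_of_expGrowth
  · rw [jFun_eq_H648]
    exact Fermat.Agent.S24.H648.jFun_bound_fd

/-- **The degree fields of helper984's `ModularPackage N`** (upper bound half). -/
theorem degree_fields (N : ℕ) [NeZero N] :
    FiniteDimensional ↥(IntermediateField.adjoin Kbar {jF N}) (FF N) ∧
      Module.finrank ↥(IntermediateField.adjoin Kbar {jF N}) (FF N) ≤ Nat.card (XX N) :=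
  finiteDimensional_and_finrank_le N _ (hyp_complex_card N)

end Fermat.Agent.S24.Deg457

end
end
-- ===== PACK-END S24/Deg/H457_Degree.lean

-- ===== PACK-BEGIN S24/H624/Laurent.lean
section


/-!
# Laurent expansion of quotients of holomorphic functions; `SL(2, ℤ)`-action and the
leading-coefficient form of the rotation lemma

`MerH := FractionRing holoRing` is the field of quotients of holomorphic functions on `ℍ`.
`laurentAt τ : MerH →+* LaurentSeries ℂ` is the (injective) Laurent expansion at `τ` in the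
coordinate `z - τ`.
-/

set_option autoImplicit false

namespace Fermat.Agent.S24.H624

open UpperHalfPlane Complex
open scoped Manifold Topology MatrixGroups

/-! ### order and leading coefficient of a power series viewed as a Laurent series -/

section PowerSeriesCoe

variable {R : Type*} [CommRing R]

theorem coeff_ofPowerSeries_nat (φ : PowerSeries R) (n : ℕ) :
    (HahnSeries.ofPowerSeries ℤ R φ).coeff (n : ℤ) = PowerSeries.coeff n φ := by
  simp

theorem coeff_ofPowerSeries_neg (φ : PowerSeries R) {i : ℤ} (hi : i < 0) :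
    (HahnSeries.ofPowerSeries ℤ R φ).coeff i = 0 := by
  have := PowerSeries.coeff_coe (R := R) (f := φ) i
  rw [if_pos hi] at this
  exact this

theorem order_ofPowerSeries {φ : PowerSeries R} {n : ℕ} (hn : φ.order = n) :
    (HahnSeries.ofPowerSeries ℤ R φ).order = (n : ℤ) := by
  have hφn : PowerSeries.coeff n φ ≠ 0 := ((PowerSeries.order_eq_nat).mp hn).1
  have hlt : ∀ i < n, PowerSeries.coeff i φ = 0 := ((PowerSeries.order_eq_nat).mp hn).2
  set x := HahnSeries.ofPowerSeries ℤ R φ with hx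
  have hxn : x.coeff (n : ℤ) ≠ 0 := by rw [hx, coeff_ofPowerSeries_nat]; exact hφn
  have hx0 : x ≠ 0 := fun h => hxn (by rw [h]; rfl)
  have hle : x.order ≤ n := HahnSeries.order_le_of_coeff_ne_zero hxn
  have hco : x.coeff x.order ≠ 0 := fun h => hx0 (HahnSeries.coeff_order_eq_zero.mp h)
  have hnn : 0 ≤ x.order := by
    by_contra hneg
    exact hco (coeff_ofPowerSeries_neg φ (not_le.mp hneg))
  obtain ⟨k, hk⟩ := Int.eq_ofNat_of_zero_le hnn
  rw [hk, coeff_ofPowerSeries_nat] at hco
  have hkn : n ≤ k := by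
    by_contra hlt'
    exact hco (hlt k (not_le.mp hlt'))
  rw [hk] at hle ⊢
  have : (k : ℤ) ≤ n := hle
  omega

theorem leadingCoeff_ofPowerSeries {φ : PowerSeries R} {n : ℕ} (hn : φ.order = n) :
    (HahnSeries.ofPowerSeries ℤ R φ).leadingCoeff = PowerSeries.coeff n φ := by
  rw [HahnSeries.leadingCoeff_eq, order_ofPowerSeries hn, coeff_ofPowerSeries_nat]

end PowerSeriesCoe

/-! ### transfer of order / leading coefficient relations to the fraction field -/

section Transfer

variable {A : Type*} [CommRing A] [IsDomain A] {K : Type*} [Field K] [Algebra A K]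
  [IsFractionRing A K] {C : Type*} [Field C]

theorem order_div_of_ne_zero {x y : LaurentSeries C} (hx : x ≠ 0) (hy : y ≠ 0) :
    (x / y).order = x.order - y.order := by
  have hxy : x / y ≠ 0 := div_ne_zero hx hy
  have h := HahnSeries.order_mul hxy hy
  rw [div_mul_cancel₀ x hy] at h
  omega

theorem leadingCoeff_div_of_ne_zero {x y : LaurentSeries C} (hy : y ≠ 0) :
    (x / y).leadingCoeff = x.leadingCoeff / y.leadingCoeff := by
  have h := HahnSeries.leadingCoeff_mul (x / y) y
  rw [div_mul_cancel₀ x hy] at h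
  rw [h, mul_div_assoc, div_self (HahnSeries.leadingCoeff_ne_zero.mpr hy), mul_one]

/-- If two embeddings `φ ψ : K → C((z))` of a fraction field satisfy
`ord (φ a) = ord (ψ a)` and `lc (φ a) = ζ ^ ord (ψ a) * lc (ψ a)` on the ring `A`, they do so
on all of `K`. -/
theorem order_leadingCoeff_transfer (φ ψ : K →+* LaurentSeries C) (ζ : C) (hζ : ζ ≠ 0)
    (h : ∀ a : A, a ≠ 0 → (φ (algebraMap A K a)).order = (ψ (algebraMap A K a)).order ∧
      (φ (algebraMap A K a)).leadingCoeff
        = ζ ^ (ψ (algebraMap A K a)).order * (ψ (algebraMap A K a)).leadingCoeff)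
    (x : K) :
    (φ x).order = (ψ x).order ∧
      (φ x).leadingCoeff = ζ ^ (ψ x).order * (ψ x).leadingCoeff := by
  obtain ⟨a, b, hb, rfl⟩ := IsFractionRing.div_surjective (A := A) x
  have hb0 : b ≠ 0 := nonZeroDivisors.ne_zero hb
  have hbK : algebraMap A K b ≠ 0 := by
    intro h0
    exact hb0 ((IsFractionRing.injective A K) (by rw [h0, map_zero]))
  by_cases ha0 : a = 0
  · subst ha0
    simp
  have haK : algebraMap A K a ≠ 0 := by
    intro h0
    exact ha0 ((IsFractionRing.injective A K) (by rw [h0, map_zero]))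
  have hφa : φ (algebraMap A K a) ≠ 0 := (map_ne_zero φ).mpr haK
  have hφb : φ (algebraMap A K b) ≠ 0 := (map_ne_zero φ).mpr hbK
  have hψa : ψ (algebraMap A K a) ≠ 0 := (map_ne_zero ψ).mpr haK
  have hψb : ψ (algebraMap A K b) ≠ 0 := (map_ne_zero ψ).mpr hbK
  obtain ⟨ha1, ha2⟩ := h a ha0
  obtain ⟨hb1, hb2⟩ := h b hb0
  rw [map_div₀, map_div₀, order_div_of_ne_zero hφa hφb, order_div_of_ne_zero hψa hψb,
    leadingCoeff_div_of_ne_zero hφb, leadingCoeff_div_of_ne_zero hψb, ha1, hb1, ha2, hb2]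
  refine ⟨rfl, ?_⟩
  rw [zpow_sub₀ hζ]
  have h1 : ζ ^ (ψ (algebraMap A K b)).order ≠ 0 := zpow_ne_zero _ hζ
  have h2 : (ψ (algebraMap A K b)).leadingCoeff ≠ 0 := HahnSeries.leadingCoeff_ne_zero.mpr hψb
  field_simp

end Transfer

/-! ### the field `MerH` and its Laurent expansions -/

/-- The field of quotients of holomorphic functions on the upper half-plane. -/
abbrev MerH : Type := FractionRing holoRing

/-- Taylor expansion at `τ` as a ring hom into Laurent series. -/
noncomputable def taylorLaurent (τ : ℍ) : holoRing →+* LaurentSeries ℂ :=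
  (HahnSeries.ofPowerSeries ℤ ℂ).comp (taylorAt τ : holoRing →+* PowerSeries ℂ)

theorem taylorLaurent_apply (τ : ℍ) (f : holoRing) :
    taylorLaurent τ f = HahnSeries.ofPowerSeries ℤ ℂ (taylorAt τ f) := rfl

theorem taylorLaurent_injective (τ : ℍ) : Function.Injective (taylorLaurent τ) := by
  intro f g h
  exact taylorAt_injective τ (HahnSeries.ofPowerSeries_injective h)

/-- Laurent expansion at `τ` (coordinate `z - τ`) of a quotient of holomorphic functions. -/
noncomputable def laurentAt (τ : ℍ) : MerH →+* LaurentSeries ℂ :=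
  IsFractionRing.lift (taylorLaurent_injective τ)

@[simp]
theorem laurentAt_algebraMap (τ : ℍ) (f : holoRing) :
    laurentAt τ (algebraMap holoRing MerH f) = HahnSeries.ofPowerSeries ℤ ℂ (taylorAt τ f) :=
  IsFractionRing.lift_algebraMap (taylorLaurent_injective τ) f

theorem laurentAt_injective (τ : ℍ) : Function.Injective (laurentAt τ) :=
  (laurentAt τ).injective

theorem laurentAt_const (τ : ℍ) (c : ℂ) :
    laurentAt τ (algebraMap holoRing MerH (algebraMap ℂ holoRing c)) = HahnSeries.C c := by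
  rw [laurentAt_algebraMap, AlgHom.commutes, PowerSeries.algebraMap_apply,
    Algebra.algebraMap_self, RingHom.id_apply, HahnSeries.ofPowerSeries_C]

theorem order_laurentAt_algebraMap (τ : ℍ) {f : holoRing} (hf : f ≠ 0) :
    (laurentAt τ (algebraMap holoRing MerH f)).order = ((ordAt τ (f : ℍ → ℂ)).toNat : ℤ) := by
  rw [laurentAt_algebraMap]
  refine order_ofPowerSeries ?_
  rw [order_taylorAt, ENat.natCast_toNat (ordAt_ne_top f.2 (fun h => hf (Subtype.ext h)) τ)]

theorem leadingCoeff_laurentAt_algebraMap (τ : ℍ) {f : holoRing} (hf : f ≠ 0) :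
    (laurentAt τ (algebraMap holoRing MerH f)).leadingCoeff
      = taylorCoeff τ (f : ℍ → ℂ) (ordAt τ (f : ℍ → ℂ)).toNat := by
  rw [laurentAt_algebraMap, leadingCoeff_ofPowerSeries (n := (ordAt τ (f : ℍ → ℂ)).toNat),
    coeff_taylorAt]
  rw [order_taylorAt, ENat.natCast_toNat (ordAt_ne_top f.2 (fun h => hf (Subtype.ext h)) τ)]

/-! ### the `SL(2, ℤ)`-action on `MerH` -/

/-- The action of `SL(2, ℤ)` on `MerH` extending `(γ • f) τ = f (γ⁻¹ • τ)`. -/
noncomputable instance instMulSemiringActionMerH : MulSemiringAction SL(2, ℤ) MerH :=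
  IsFractionRing.mulSemiringAction SL(2, ℤ) holoRing MerH

theorem smul_algebraMap_MerH (γ : SL(2, ℤ)) (f : holoRing) :
    γ • algebraMap holoRing MerH f = algebraMap holoRing MerH (γ • f) :=
  IsFractionRing.ringEquivOfRingEquiv_algebraMap (MulSemiringAction.toRingEquiv SL(2, ℤ) holoRing γ) f

/-- The ring automorphism of `MerH` given by `γ`. -/
noncomputable def merSL (γ : SL(2, ℤ)) : MerH ≃+* MerH :=
  MulSemiringAction.toRingEquiv SL(2, ℤ) MerH γ

@[simp]
theorem merSL_apply (γ : SL(2, ℤ)) (F : MerH) : merSL γ F = γ • F := rfl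

/-- **Rotation lemma, order + leading coefficient form**, on `MerH`. -/
theorem laurentAt_smul (γ : SL(2, ℤ)) (τ : ℍ) (F : MerH) :
    (laurentAt τ (γ • F)).order = (laurentAt (γ⁻¹ • τ) F).order ∧
    (laurentAt τ (γ • F)).leadingCoeff
      = (1 / denom ((γ⁻¹ : SL(2, ℤ)) : GL (Fin 2) ℝ) (τ : ℂ) ^ 2) ^ (laurentAt (γ⁻¹ • τ) F).order
        * (laurentAt (γ⁻¹ • τ) F).leadingCoeff := by
  have hd : denom ((γ⁻¹ : SL(2, ℤ)) : GL (Fin 2) ℝ) (τ : ℂ) ≠ 0 := denom_ne_zero _ τ
  have hζ : (1 / denom ((γ⁻¹ : SL(2, ℤ)) : GL (Fin 2) ℝ) (τ : ℂ) ^ 2) ≠ 0 :=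
    one_div_ne_zero (pow_ne_zero _ hd)
  refine order_leadingCoeff_transfer (A := holoRing)
    ((laurentAt τ).comp (merSL γ : MerH →+* MerH)) (laurentAt (γ⁻¹ • τ)) _ hζ ?_ F
  intro f hf
  have hγf : γ • f ≠ 0 := by
    intro h
    apply hf
    have := congrArg (fun g => γ⁻¹ • g) h
    simpa using this
  have hord : ordAt τ ((γ • f : holoRing) : ℍ → ℂ) = ordAt (γ⁻¹ • τ) (f : ℍ → ℂ) := by
    have := ordAt_smul_holoRing γ f (γ⁻¹ • τ)
    rwa [smul_inv_smul] at this
  have hne := ordAt_ne_top f.2 (fun h => hf (Subtype.ext h)) (γ⁻¹ • τ)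
  simp only [RingHom.coe_comp, RingHom.coe_coe, Function.comp_apply, merSL_apply]
  rw [smul_algebraMap_MerH, order_laurentAt_algebraMap τ hγf,
    order_laurentAt_algebraMap _ hf, leadingCoeff_laurentAt_algebraMap τ hγf,
    leadingCoeff_laurentAt_algebraMap _ hf, hord]
  refine ⟨rfl, ?_⟩
  rw [zpow_natCast]
  exact taylorCoeff_smul_holoRing γ f τ (ENat.natCast_toNat hne).symm

theorem order_laurentAt_smul (γ : SL(2, ℤ)) (τ : ℍ) (F : MerH) :
    (laurentAt τ (γ • F)).order = (laurentAt (γ⁻¹ • τ) F).order :=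
  (laurentAt_smul γ τ F).1

theorem leadingCoeff_laurentAt_smul (γ : SL(2, ℤ)) (τ : ℍ) (F : MerH) :
    (laurentAt τ (γ • F)).leadingCoeff
      = (1 / denom ((γ⁻¹ : SL(2, ℤ)) : GL (Fin 2) ℝ) (τ : ℂ) ^ 2) ^ (laurentAt (γ⁻¹ • τ) F).order
        * (laurentAt (γ⁻¹ • τ) F).leadingCoeff :=
  (laurentAt_smul γ τ F).2

/-- Fixed-point version, in exactly the shape of the `LocalData` fields
`σ_perm_order` / `σ_perm_leadingCoeff`. -/
theorem laurentAt_smul_of_fixed {γ : SL(2, ℤ)} {τ : ℍ} (hτ : γ • τ = τ) (F : MerH) :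
    (laurentAt τ (γ • F)).order = (laurentAt τ F).order ∧
    (laurentAt τ (γ • F)).leadingCoeff
      = (1 / denom ((γ⁻¹ : SL(2, ℤ)) : GL (Fin 2) ℝ) (τ : ℂ) ^ 2) ^ (laurentAt τ F).order
        * (laurentAt τ F).leadingCoeff := by
  have h := laurentAt_smul γ τ F
  have hfix : γ⁻¹ • τ = τ := by
    rw [inv_smul_eq_iff, hτ]
  rwa [hfix] at h

end Fermat.Agent.S24.H624

end
-- ===== PACK-END S24/H624/Laurent.lean

-- ===== PACK-BEGIN S24/H864/FF3e.lean
section



/-!
# S24 / ALG / FF3: a principal divisor has degree zero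
-/

set_option autoImplicit false

noncomputable section

open AlgebraicCurve IntermediateField

namespace Fermat.Agent.S24.H864

variable {K F : Type*} [Field K] [Field F] [Algebra K F]

theorem adjoin_simple_inv_eq (f : F) : K⟮f⁻¹⟯ = K⟮f⟯ := by
  apply le_antisymm
  · rw [IntermediateField.adjoin_simple_le_iff]
    exact inv_mem (IntermediateField.mem_adjoin_simple_self K f)
  · rw [IntermediateField.adjoin_simple_le_iff]
    have h := inv_mem (IntermediateField.mem_adjoin_simple_self K f⁻¹)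
    rwa [inv_inv] at h

theorem transcendental_inv {f : F} (hf : Transcendental K f) : Transcendental K f⁻¹ := by
  intro h
  apply hf
  have := h.inv
  rwa [inv_inv] at this

variable [IsAlgClosed K] [CharZero K]

/-- the number of zeros equals the number of poles -/
theorem sum_ord_pos_eq_sum_ord_neg (f : F) (hf : Transcendental K f)
    [FiniteDimensional ↥(IntermediateField.adjoin K {f}) F]
    (sp sn : Finset (Place K F)) (hsp : ∀ v : Place K F, v ∈ sp ↔ 0 < v.ord f)
    (hsn : ∀ v : Place K F, v ∈ sn ↔ v.ord f < 0) :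
    ∑ v ∈ sp, v.ord f + ∑ v ∈ sn, v.ord f = 0 := by
  have h1 := fundamental_identity f hf sp hsp
  have hfi : Transcendental K f⁻¹ := transcendental_inv hf
  haveI : FiniteDimensional ↥(IntermediateField.adjoin K {f⁻¹}) F := by
    rw [adjoin_simple_inv_eq]; infer_instance
  have hsn' : ∀ v : Place K F, v ∈ sn ↔ 0 < v.ord f⁻¹ := by
    intro v
    rw [hsn, Place.ord_inv]
    omega
  have h2 := fundamental_identity f⁻¹ hfi sn hsn'
  have h3 : Module.finrank ↥(IntermediateField.adjoin K {f⁻¹}) F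
      = Module.finrank ↥(IntermediateField.adjoin K {f}) F := by
    rw [adjoin_simple_inv_eq]
  have h4 : ∑ v ∈ sn, v.ord f = -∑ v ∈ sn, v.ord f⁻¹ := by
    rw [← Finset.sum_neg_distrib]
    refine Finset.sum_congr rfl fun v _ => ?_
    rw [Place.ord_inv, neg_neg]
  rw [h1, h4, h2, h3]
  ring

/-- **FF3.**  A principal divisor has degree zero. -/
theorem degree_principal (j : F) (hj : Transcendental K j)
    [FiniteDimensional ↥(IntermediateField.adjoin K {j}) F] (f : F) (hf : f ≠ 0)
    (D : Divisor K F) (hD : ∀ v : Place K F, D v = v.ord f) : Divisor.degree D = 0 := by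
  classical
  have hdeg : Divisor.degree D = ∑ v ∈ D.support, v.ord f := by
    show Finsupp.liftAddHom (fun v : Place K F => AddMonoidHom.mulRight (v.deg : ℤ)) D = _
    rw [Finsupp.liftAddHom_apply, Finsupp.sum]
    refine Finset.sum_congr rfl fun v _ => ?_
    rw [AddMonoidHom.coe_mulRight, hD v, FF.deg_eq_one v hj]
    simp
  rw [hdeg]
  by_cases hfK : f ∈ (algebraMap K F).range
  · obtain ⟨c, rfl⟩ := hfK
    refine Finset.sum_eq_zero fun v _ => FF.ord_algebraMap v c
  · have hft : Transcendental K f := FF.transcendental_of_not_mem_range hfK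
    haveI : FiniteDimensional ↥(IntermediateField.adjoin K {f}) F :=
      FF.finiteDimensional_adjoin_of_transcendental hj hft
    have hsupp : ∀ v : Place K F, v ∈ D.support ↔ v.ord f ≠ 0 := by
      intro v
      rw [Finsupp.mem_support_iff, hD v]
    set sp := D.support.filter (fun v => 0 < v.ord f) with hsp
    set sn := D.support.filter (fun v => v.ord f < 0) with hsn
    have hsp' : ∀ v : Place K F, v ∈ sp ↔ 0 < v.ord f := by
      intro v
      rw [hsp, Finset.mem_filter, hsupp]
      constructor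
      · exact fun h => h.2
      · exact fun h => ⟨by omega, h⟩
    have hsn' : ∀ v : Place K F, v ∈ sn ↔ v.ord f < 0 := by
      intro v
      rw [hsn, Finset.mem_filter, hsupp]
      constructor
      · exact fun h => h.2
      · exact fun h => ⟨by omega, h⟩
    have hkey := sum_ord_pos_eq_sum_ord_neg f hft sp sn hsp' hsn'
    have hunion : D.support = sp ∪ sn := by
      ext v
      rw [Finset.mem_union, hsp', hsn', hsupp]
      omega
    have hdisj : Disjoint sp sn := by
      rw [Finset.disjoint_left]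
      intro v h1 h2
      rw [hsp'] at h1
      rw [hsn'] at h2
      omega
    rw [hunion, Finset.sum_union hdisj]
    exact hkey

end Fermat.Agent.S24.H864

end
end
-- ===== PACK-END S24/H864/FF3e.lean

-- ===== PACK-BEGIN S28/H807/Families.lean
section
/-
S28 / helper807 — `S`-invariance of the two families of conjugates:
* `j`-family: `{J(pτ)} ∪ {J((τ+b)/p)}` for an `SL(2,ℤ)`-invariant `J`;
* unit family: `{p¹² D(pτ)/D(τ)} ∪ {D((τ+b)/p)/D(τ)}` for a weight-12 form `D`.
-/



set_option autoImplicit false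
set_option maxHeartbeats 400000

noncomputable section

open ModularCurve Polynomial Matrix UpperHalfPlane Complex
open scoped MatrixGroups

namespace Fermat.Agent.S28.H807

variable (p : ℕ) [NeZero p]

/-- The polynomial `(X - E(τ)) ∏_b (X - G((τ+b)/p))`. -/
def conjPoly (E G : ℍ → ℂ) (τ : ℍ) : Polynomial ℂ :=
  (X - C (E τ)) * ∏ b : Fin p, (X - C (G (divShift p ((b : ℕ) : ℤ) τ)))

theorem conjPoly_S_of (hp : p.Prime) (E G : ℍ → ℂ)
    (ha : ∀ τ : ℍ, E (ModularGroup.S • τ) = G (divShift p 0 τ))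
    (hb : ∀ τ : ℍ, G (divShift p 0 (ModularGroup.S • τ)) = E τ)
    (hc : ∀ (B B' k : ℤ) (_ : B * B' + 1 = (p : ℤ) * k) (τ : ℍ),
      G (divShift p B (ModularGroup.S • τ)) = G (divShift p B' τ))
    (τ : ℍ) : conjPoly p E G (ModularGroup.S • τ) = conjPoly p E G τ := by
  have : Fact p.Prime := ⟨hp⟩
  unfold conjPoly
  apply prod_conj_eq_of_perm p (E τ) (E (ModularGroup.S • τ))
    (fun b => G (divShift p ((b : ℕ) : ℤ) τ))
    (fun b => G (divShift p ((b : ℕ) : ℤ) (ModularGroup.S • τ)))
  · simpa using ha τ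
  · simpa using hb τ
  · intro b hb0
    obtain ⟨k, hk⟩ := dvd_mul_negInvFin_add_one p hb0
    exact hc _ _ k hk τ

/-- `S`-invariance for the `j`-family. -/
theorem conjPoly_J_S (hp : p.Prime) (J : ℍ → ℂ)
    (hJ : ∀ (γ : SL(2, ℤ)) (τ : ℍ), J (γ • τ) = J τ) (τ : ℍ) :
    conjPoly p (fun τ => J (mulNat p τ)) J (ModularGroup.S • τ)
      = conjPoly p (fun τ => J (mulNat p τ)) J τ := by
  apply conjPoly_S_of p hp
  · intro τ
    rw [mulNat_S_smul, hJ]
  · intro τ
    rw [divShift_zero_S_smul, hJ]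
  · intro B B' k h τ
    rw [← conjMat_smul p B B' k h, hJ]

/-- The function `τ' ↦ D(τ')/D(pτ')`, whose values at `(τ+b)/p` are `D((τ+b)/p)/D(τ)`. -/
def unitG (D : ℍ → ℂ) (τ : ℍ) : ℂ := D τ / D (mulNat p τ)

/-- The function `τ ↦ p¹² D(pτ)/D(τ)`. -/
def unitE (D : ℍ → ℂ) (τ : ℍ) : ℂ := (p : ℂ) ^ 12 * D (mulNat p τ) / D τ

/-- `S`-invariance for the unit family. -/
theorem conjPoly_unit_S (hp : p.Prime) (D : ℍ → ℂ) (hD0 : ∀ τ, D τ ≠ 0)
    (hD : ∀ (γ : SL(2, ℤ)) (τ : ℍ), D (γ • τ) = (denom γ τ) ^ 12 * D τ) (τ : ℍ) :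
    conjPoly p (unitE p D) (unitG p D) (ModularGroup.S • τ)
      = conjPoly p (unitE p D) (unitG p D) τ := by
  have hpc : (p : ℂ) ≠ 0 := by exact_mod_cast NeZero.ne p
  have hS : ∀ z : ℍ, D (ModularGroup.S • z) = (z : ℂ) ^ 12 * D z := by
    intro z
    rw [hD, ModularGroup.denom_S]
  have hT : ∀ (n : ℤ) (z : ℍ), D (ModularGroup.T ^ n • z) = D z := by
    intro n z
    rw [hD]
    have : denom ((ModularGroup.T ^ n : SL(2, ℤ)) : GL (Fin 2) ℝ) z = 1 := by
      rw [ModularGroup.denom_apply]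
      simp [ModularGroup.coe_T_zpow]
    rw [this, one_pow, one_mul]
  apply conjPoly_S_of p hp
  · intro τ
    have hτ : (τ : ℂ) ≠ 0 := ne_zero τ
    unfold unitE unitG
    rw [mulNat_S_smul, hS, hS, mulNat_divShift, hT]
    have h1 : ((divShift p 0 τ : ℍ) : ℂ) = (τ : ℂ) / (p : ℂ) := by simp
    rw [h1]
    have := hD0 τ
    field_simp
  · intro τ
    have hτ : (τ : ℂ) ≠ 0 := ne_zero τ
    unfold unitE unitG
    rw [mulNat_divShift, hT, divShift_zero_S_smul, hS, hS]
    have h1 : ((mulNat p τ : ℍ) : ℂ) = (p : ℂ) * (τ : ℂ) := by simp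
    rw [h1]
    have := hD0 τ
    field_simp
  · intro B B' k h τ
    have hτ : (τ : ℂ) ≠ 0 := ne_zero τ
    unfold unitG
    rw [mulNat_divShift, hT, mulNat_divShift, hT, ← conjMat_smul p B B' k h, hD,
      denom_conjMat, hS]
    have := hD0 τ
    field_simp

end Fermat.Agent.S28.H807

end

end
-- ===== PACK-END S28/H807/Families.lean

-- ===== PACK-BEGIN S28/H589/Descent.lean
section








/-!
# S28 / A-Φ, A-W descent, formal part 2 (helper589): from `ℂ[Y][X]` to `ℤ[Y][X]`

`descent`: let `Φ ∈ ℂ[Y][X]` be monic of degree `p+1` in `X`, and `g, f ∈ ℤ((q))` with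
`ord f` prime to `p`, `f ≠ V_p g`, such that in `ℂ((q))`
`Φ(X := g, Y := j) = 0` and `Φ(X := f, Y := V_p j) = 0`.
Then `Φ` has integer coefficients: `Φ(X, j) = (X - g) · χ` where `χ` is the characteristic
polynomial of the section matrix of `f` (which lives over `ℤ((q))`).
-/

set_option autoImplicit false

noncomputable section

open ModularCurve HahnSeries Polynomial

namespace Fermat.Agent.S28.H589

/-- Base change of coefficients `ℤ((q)) → ℂ((q))`. -/
abbrev iotaC : LaurentSeries ℤ →+* LaurentSeries ℂ := coeffMap (Int.castRingHom ℂ)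

theorem iotaC_injective : Function.Injective iotaC := by
  intro x y h
  ext k
  have := congrArg (fun z => z.coeff k) h
  simp only [coeffMap_coeff, Int.coe_castRingHom] at this
  exact_mod_cast this

theorem iotaC_eq_zero_iff (x : LaurentSeries ℤ) : iotaC x = 0 ↔ x = 0 := by
  constructor
  · intro h
    exact iotaC_injective (by rw [h, map_zero])
  · rintro rfl
    exact map_zero _

theorem iotaC_coeff_eq_zero_iff (x : LaurentSeries ℤ) (n : ℤ) :
    (iotaC x).coeff n = 0 ↔ x.coeff n = 0 := by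
  simp only [coeffMap_coeff, Int.coe_castRingHom, Int.cast_eq_zero]

theorem order_iotaC (x : LaurentSeries ℤ) : (iotaC x).order = x.order := by
  by_cases hx : x = 0
  · subst hx
    simp
  · have hx' : iotaC x ≠ 0 := fun h => hx ((iotaC_eq_zero_iff x).mp h)
    apply le_antisymm
    · apply HahnSeries.order_le_of_coeff_ne_zero
      rw [Ne, iotaC_coeff_eq_zero_iff]
      exact fun h => hx (HahnSeries.coeff_order_eq_zero.mp h)
    · apply HahnSeries.order_le_of_coeff_ne_zero
      rw [Ne, ← iotaC_coeff_eq_zero_iff]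
      exact fun h => hx' (HahnSeries.coeff_order_eq_zero.mp h)

/-- Evaluation `ℂ[Y] → ℂ((q))`, `Y ↦ y`. -/
def evC (y : LaurentSeries ℂ) : Polynomial ℂ →+* LaurentSeries ℂ :=
  Polynomial.eval₂RingHom HahnSeries.C y

theorem evC_apply (y : LaurentSeries ℂ) (P : Polynomial ℂ) :
    evC y P = Polynomial.eval₂ HahnSeries.C y P := rfl

theorem evC_eq_aeval (y : LaurentSeries ℂ) (P : Polynomial ℂ) :
    evC y P = Polynomial.aeval y P := by
  rw [evC_apply, Polynomial.aeval_def]
  congr 1
  ext c : 1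
  exact (Fermat.Agent.S28.H685.algebraMap_eq_C c).symm

theorem qExpand_comp_evC (p : ℕ) [NeZero p] (y : LaurentSeries ℂ) :
    (qExpand ℂ p).comp (evC y) = evC (qExpand ℂ p y) := by
  refine Polynomial.ringHom_ext (fun c => ?_) ?_
  · simp [evC]
  · simp [evC]

theorem iotaC_comp_evalAt (y : LaurentSeries ℤ) :
    iotaC.comp (evalAt y) = (evC (iotaC y)).comp (Polynomial.mapRingHom (Int.castRingHom ℂ)) := by
  refine Polynomial.ringHom_ext' (Subsingleton.elim _ _) ?_
  simp [evalAt, evC]

/-- Transfer of a vanishing relation from `ℂ((q))` to `ℤ((q))`. -/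
theorem eval₂_evalAt_eq_zero_of (Ψ : Polynomial (Polynomial ℤ)) (y x : LaurentSeries ℤ)
    (h : (Ψ.map (Polynomial.mapRingHom (Int.castRingHom ℂ))).eval₂ (evC (iotaC y)) (iotaC x) = 0) :
    Ψ.eval₂ (evalAt y) x = 0 := by
  apply iotaC_injective
  rw [Polynomial.hom_eval₂, iotaC_comp_evalAt, ← Polynomial.eval₂_map, h, map_zero]

/-- **Descent.** -/
theorem descent (p : ℕ) [NeZero p]
    (Φ : Polynomial (Polynomial ℂ)) (hΦ : Φ.Monic) (n : ℕ) (hdeg : Φ.natDegree = n)
    (hn : n = p + 1)
    (g f : LaurentSeries ℤ) (hf0 : f ≠ 0) (hford : IsCoprime f.order (p : ℤ))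
    (hne : f ≠ qExpand ℤ p g)
    (h1 : Φ.eval₂ (evC (jqModC ℂ)) (iotaC g) = 0)
    (h2 : Φ.eval₂ (evC (qExpand ℂ p (jqModC ℂ))) (iotaC f) = 0) :
    ∃ Ψ : Polynomial (Polynomial ℤ), Ψ.Monic ∧ Ψ.natDegree = n ∧
      Ψ.eval₂ (evalAt (jqModC ℤ)) g = 0 ∧
      Ψ.eval₂ (evalAt (qExpand ℤ p (jqModC ℤ))) f = 0 := by
  classical
  subst hn
  set V : LaurentSeries ℂ →+* LaurentSeries ℂ := qExpand ℂ p with hV
  set a : LaurentSeries ℂ := iotaC g with ha
  set x : LaurentSeries ℂ := iotaC f with hx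
  -- the polynomial over `ℂ((q))`
  set Φ₁ : Polynomial (LaurentSeries ℂ) := Φ.map (evC (jqModC ℂ)) with hΦ₁
  have hΦ₁m : Φ₁.Monic := hΦ.map _
  have hΦ₁d : Φ₁.natDegree = p + 1 := by rw [hΦ₁, hΦ.natDegree_map, hdeg]
  have hroot : Φ₁.IsRoot a := by
    rw [Polynomial.IsRoot, hΦ₁, Polynomial.eval_map]; exact h1
  obtain ⟨G, hG⟩ := Polynomial.dvd_iff_isRoot.mpr hroot
  have hGm : G.Monic := by
    have : ((X - Polynomial.C a) * G).Monic := hG ▸ hΦ₁m
    exact (Polynomial.monic_X_sub_C a).of_mul_monic_left this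
  have hGd : G.natDegree = p := by
    have h := congrArg Polynomial.natDegree hG
    rw [hΦ₁d, (Polynomial.monic_X_sub_C a).natDegree_mul hGm, Polynomial.natDegree_X_sub_C] at h
    omega
  -- apply `V` to the coefficients
  have hmapV : Φ.map (evC (V (jqModC ℂ))) = (X - Polynomial.C (V a)) * G.map V := by
    have h := congrArg (Polynomial.map V) hG
    rw [hΦ₁, Polynomial.map_map, qExpand_comp_evC] at h
    rw [h, Polynomial.map_mul, Polynomial.map_sub, Polynomial.map_X, Polynomial.map_C]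
  have hxa : x - V a ≠ 0 := by
    intro h
    apply hne
    apply iotaC_injective
    rw [coeffMap_qExpand]
    exact sub_eq_zero.mp h
  have hGV : (G.map V).eval x = 0 := by
    have h := h2
    rw [← Polynomial.eval_map, hmapV, Polynomial.eval_mul, Polynomial.eval_sub,
      Polynomial.eval_X, Polynomial.eval_C] at h
    exact (mul_eq_zero.mp h).resolve_left hxa
  -- the section charpoly
  obtain ⟨χ, hχm, hχd, hχ⟩ := exists_section_charpoly p f
  set χ' : Polynomial (LaurentSeries ℂ) := χ.map iotaC with hχ'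
  have hχ'm : χ'.Monic := hχm.map _
  have hχ'd : χ'.natDegree = p := by rw [hχ', hχm.natDegree_map, hχd]
  have hχ'V : (χ'.map V).eval x = 0 := by
    have h := congrArg iotaC hχ
    rw [Polynomial.eval_map, Polynomial.hom_eval₂, map_zero] at h
    rw [hχ', Polynomial.map_map, Polynomial.eval_map]
    have hcomp : V.comp iotaC = iotaC.comp (qExpand ℤ p) := by
      ext y : 1
      exact (coeffMap_qExpand (Int.castRingHom ℂ) p y).symm
    rw [hcomp]
    exact h
  -- `G = χ'`
  have hD : G - χ' = 0 := by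
    have hVinj : Function.Injective (Polynomial.map V) :=
      Polynomial.map_injective V (qExpand_injective p)
    apply hVinj
    rw [Polynomial.map_zero]
    have hx0 : x ≠ 0 := fun h => hf0 ((iotaC_eq_zero_iff f).mp h)
    have hxord : IsCoprime x.order (p : ℤ) := by rw [hx, order_iotaC]; exact hford
    refine Fermat.Agent.S28.H145.eq_zero_of_eval_eq_zero_of_natDegree_lt p x hx0 hxord _
      (fun m => ?_) ?_ ?_
    · rw [Polynomial.coeff_map]
      exact ⟨_, rfl⟩
    · refine lt_of_le_of_lt Polynomial.natDegree_map_le ?_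
      by_cases hz : G - χ' = 0
      · rw [hz, Polynomial.natDegree_zero]
        exact Nat.pos_of_ne_zero (NeZero.ne p)
      · have hdeg' : (G - χ').degree < G.degree := by
          apply Polynomial.degree_sub_lt_left
          · rw [Polynomial.degree_eq_natDegree hGm.ne_zero,
              Polynomial.degree_eq_natDegree hχ'm.ne_zero, hGd, hχ'd]
          · exact hGm.ne_zero
          · rw [hGm.leadingCoeff, hχ'm.leadingCoeff]
        rw [Polynomial.degree_eq_natDegree hGm.ne_zero, hGd] at hdeg'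
        exact (Polynomial.natDegree_lt_iff_degree_lt hz).mpr hdeg'
    · rw [Polynomial.map_sub, Polynomial.eval_sub, hGV, hχ'V, sub_zero]
  have hGχ : G = χ' := sub_eq_zero.mp hD
  -- coefficients of `Φ₁` are in the image of `ℤ((q))`
  set Θ : Polynomial (LaurentSeries ℤ) := (X - Polynomial.C g) * χ with hΘ
  have hΦ₁Θ : Φ₁ = Θ.map iotaC := by
    rw [hG, hGχ, hΘ, Polynomial.map_mul, Polynomial.map_sub, Polynomial.map_X, Polynomial.map_C]
  -- every coefficient of `Φ` has integer coefficients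
  set C₀ : Subring ℂ := (Int.castRingHom ℂ).range with hC₀
  have hcoef : ∀ k i, (Φ.coeff k).coeff i ∈ C₀ := by
    intro k
    refine Fermat.Agent.S28.H685.coeff_mem_of_aeval_jqModC C₀ (Φ.coeff k).natDegree (Φ.coeff k)
      le_rfl (fun m => ?_)
    have h : Polynomial.aeval (jqModC ℂ) (Φ.coeff k) = iotaC (Θ.coeff k) := by
      rw [← evC_eq_aeval, ← Polynomial.coeff_map, ← hΦ₁, hΦ₁Θ, Polynomial.coeff_map]
    rw [h, coeffMap_coeff]
    exact ⟨_, rfl⟩
  -- lift `Φ`
  have hlift : Φ ∈ Polynomial.lifts (Polynomial.mapRingHom (Int.castRingHom ℂ)) := by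
    rw [Polynomial.lifts_iff_coeff_lifts]
    intro k
    have hk : Φ.coeff k ∈ Polynomial.lifts (Int.castRingHom ℂ) := by
      rw [Polynomial.lifts_iff_coeff_lifts]
      intro i
      exact hcoef k i
    obtain ⟨q, hq⟩ := (Polynomial.mem_lifts _).mp hk
    exact ⟨q, hq⟩
  obtain ⟨Ψ, hΨ, hΨd, hΨm⟩ := Polynomial.lifts_and_natDegree_eq_and_monic hlift hΦ
  refine ⟨Ψ, hΨm, by rw [hΨd, hdeg], ?_, ?_⟩
  · apply eval₂_evalAt_eq_zero_of
    rw [hΨ, coeffMap_jqModC]
    exact h1
  · apply eval₂_evalAt_eq_zero_of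
    rw [hΨ, coeffMap_qExpand, coeffMap_jqModC]
    exact h2

end Fermat.Agent.S28.H589

end

end
-- ===== PACK-END S28/H589/Descent.lean

-- ===== PACK-BEGIN S29/H395/GoodProd.lean
section
/-
S29 / layer M / bridge BR, piece NORM — helper395.

`heckeProd ℓ` preserves the landed ring `S24.H648.goodRing N` (holomorphic, `Γ₀(N)`-invariant, all
`SL₂(ℤ)`-translates of at most exponential growth), for a prime `ℓ ∤ N`.
-/



set_option autoImplicit false
set_option linter.style.haveILetI false

noncomputable section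

open CongruenceSubgroup Matrix.SpecialLinearGroup UpperHalfPlane
open scoped MatrixGroups Real Manifold OnePoint
open P2MW.S_ModularForm_heckeT_slash_eq_self_of_mem_Gamma0.ModularForm.HeckeSlashInvariance

namespace Fermat.Agent.S29.H395

open Fermat.Agent.S24 Fermat.Agent.S24.H648 Fermat.Agent.S29.H201

/-! ### Finite products -/

theorem mdiff_finset_prod {ι : Type*} (s : Finset ι) (f : ι → ℍ → ℂ)
    (h : ∀ i ∈ s, MDifferentiable 𝓘(ℂ) 𝓘(ℂ) (f i)) :
    MDifferentiable 𝓘(ℂ) 𝓘(ℂ) (fun τ => ∏ i ∈ s, f i τ) := by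
  classical
  induction s using Finset.induction_on with
  | empty => simpa using (mdifferentiable_const : MDifferentiable 𝓘(ℂ) 𝓘(ℂ) (fun _ : ℍ => (1 : ℂ)))
  | insert i s hi ih =>
    have h1 := h i (Finset.mem_insert_self i s)
    have h2 := ih fun j hj => h j (Finset.mem_insert_of_mem hj)
    have := h1.mul h2
    have e : (fun τ => ∏ j ∈ insert i s, f j τ) = f i * fun τ => ∏ j ∈ s, f j τ := by
      funext τ
      simp [Finset.prod_insert hi]
    rw [e]
    exact this

theorem expGrowth_finset_prod {ι : Type*} (s : Finset ι) (f : ι → ℍ → ℂ)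
    (h : ∀ i ∈ s, ExpGrowth (f i)) : ExpGrowth (fun τ => ∏ i ∈ s, f i τ) := by
  classical
  induction s using Finset.induction_on with
  | empty => simpa using expGrowth_const 1
  | insert i s hi ih =>
    have h1 := h i (Finset.mem_insert_self i s)
    have h2 := ih fun j hj => h j (Finset.mem_insert_of_mem hj)
    have := h1.mul h2
    have e : (fun τ => ∏ j ∈ insert i s, f j τ) = f i * fun τ => ∏ j ∈ s, f j τ := by
      funext τ
      simp [Finset.prod_insert hi]
    rw [e]
    exact this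

/-! ### Holomorphy -/

section Hol

variable {ℓ : ℕ} [Fact ℓ.Prime]

omit [Fact ℓ.Prime] in
theorem heckeRep_det_pos (x : OnePoint (ZMod ℓ)) : 0 < ((_root_.P2MW.S_ModularForm_heckeT_slash_eq_self_of_mem_Gamma0.ModularForm.HeckeSlashInvariance.heckeRep ℓ x).det : ℝ) := by
  induction x using OnePoint.rec with
  | infty => exact ModularForm.det_heckeDiagMatrix_pos ℓ
  | coe j => exact ModularForm.det_heckeMatrix_pos ℓ j.val

theorem mdiff_heckeProd {U : ℍ → ℂ} (hU : MDifferentiable 𝓘(ℂ) 𝓘(ℂ) U) :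
    MDifferentiable 𝓘(ℂ) 𝓘(ℂ) (heckeProd ℓ U) := by
  refine mdiff_finset_prod Finset.univ (fun x τ => U (_root_.P2MW.S_ModularForm_heckeT_slash_eq_self_of_mem_Gamma0.ModularForm.HeckeSlashInvariance.heckeRep ℓ x • τ)) fun x _ => ?_
  exact hU.comp (UpperHalfPlane.mdifferentiable_smul (heckeRep_det_pos x))

end Hol

/-! ### Periodicity of the translates of an invariant function -/

theorem conj_T_pow_mem_Gamma0 (N : ℕ) (g : SL(2, ℤ)) :
    g * ModularGroup.T ^ (N : ℤ) * g⁻¹ ∈ Gamma0 N := by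
  have h1 : ModularGroup.T ^ (N : ℤ) ∈ Gamma N := by
    have := ModularGroup_T_pow_mem_Gamma (N : ℤ) (N : ℤ) dvd_rfl
    simpa using this
  have h2 : g * ModularGroup.T ^ (N : ℤ) * g⁻¹ ∈ Gamma N := (Gamma_normal N).conj_mem _ h1 g
  rw [Gamma0_mem]
  exact (Gamma_mem.mp h2).2.2.1

theorem translate_periodic {N : ℕ} {G : ℍ → ℂ}
    (hG : ∀ γ ∈ Gamma0 N, ∀ τ : ℍ, G (γ • τ) = G τ) (g : SL(2, ℤ)) (τ : ℍ) :
    G (g • ((N : ℝ) +ᵥ τ)) = G (g • τ) := by
  have h1 : ((N : ℝ) +ᵥ τ) = ModularGroup.T ^ (N : ℤ) • τ := by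
    rw [UpperHalfPlane.modular_T_zpow_smul]; simp
  have h2 : g • (ModularGroup.T ^ (N : ℤ) • τ)
      = (g * ModularGroup.T ^ (N : ℤ) * g⁻¹) • (g • τ) := by
    rw [← mul_smul, ← mul_smul, inv_mul_cancel_right]
  rw [h1, h2, hG _ (conj_T_pow_mem_Gamma0 N g)]

theorem continuous_translate {G : ℍ → ℂ} (hG : MDifferentiable 𝓘(ℂ) 𝓘(ℂ) G) (g : SL(2, ℤ)) :
    Continuous (fun τ : ℍ => G (g • τ)) := by
  have h : MDifferentiable 𝓘(ℂ) 𝓘(ℂ) (fun τ : ℍ => G (g • τ)) :=
    hG.comp (UpperHalfPlane.mdifferentiable_smul (g := (g : GL (Fin 2) ℝ)) (by simp))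
  exact h.continuous

/-! ### The main statement -/

section Main

variable {N : ℕ} [NeZero N] {ℓ : ℕ} [Fact ℓ.Prime]

/-- Growth of a single factor `τ ↦ G (heckeRep x • g • τ)`. -/
theorem expGrowth_factor {G : ℍ → ℂ} (hG : G ∈ goodRing N) (g : SL(2, ℤ))
    (x : OnePoint (ZMod ℓ)) : ExpGrowth (fun τ => G (_root_.P2MW.S_ModularForm_heckeT_slash_eq_self_of_mem_Gamma0.ModularForm.HeckeSlashInvariance.heckeRep ℓ x • (g • τ))) := by
  obtain ⟨hmd, hinv, hgr⟩ := hG
  have hℓ1 : ¬ ℓ ∣ 1 := (Fact.out : ℓ.Prime).one_lt.ne' ∘ Nat.dvd_one.mp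
  have hℓ : 0 < ℓ := (Fact.out : ℓ.Prime).pos
  obtain ⟨g', -, hg'⟩ := heckeRep_mul hℓ1 g (one_dvd _) x
  have hNpos : (0 : ℝ) < (N : ℝ) := by exact_mod_cast Nat.pos_of_ne_zero (NeZero.ne N)
  have key : ∀ τ : ℍ, G (_root_.P2MW.S_ModularForm_heckeT_slash_eq_self_of_mem_Gamma0.ModularForm.HeckeSlashInvariance.heckeRep ℓ x • (g • τ))
      = G (g' • (_root_.P2MW.S_ModularForm_heckeT_slash_eq_self_of_mem_Gamma0.ModularForm.HeckeSlashInvariance.heckeRep ℓ (redMatrix ℓ g • x) • τ)) := by
    intro τ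
    show G (_root_.P2MW.S_ModularForm_heckeT_slash_eq_self_of_mem_Gamma0.ModularForm.HeckeSlashInvariance.heckeRep ℓ x • (mapGL ℝ g • τ)) = G (mapGL ℝ g' • (_root_.P2MW.S_ModularForm_heckeT_slash_eq_self_of_mem_Gamma0.ModularForm.HeckeSlashInvariance.heckeRep ℓ (redMatrix ℓ g • x) • τ))
    rw [← mul_smul, ← mul_smul, hg']
  have hF := continuous_translate hmd g'
  have hper := translate_periodic hinv g'
  generalize redMatrix ℓ g • x = y at key
  induction y using OnePoint.rec with
  | infty =>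
    have := expGrowth_comp_infAff hF hNpos hper (hgr g') hℓ one_pos 0
    have e : (fun τ => G (_root_.P2MW.S_ModularForm_heckeT_slash_eq_self_of_mem_Gamma0.ModularForm.HeckeSlashInvariance.heckeRep ℓ x • (g • τ))) = fun τ => G (g' • infAff ℓ 0 1 τ) := by
      funext τ
      rw [key τ, heckeRep_infty_smul]
    rw [e]
    exact this
  | coe j =>
    have := expGrowth_comp_infAff hF hNpos hper (hgr g') one_pos hℓ (j.val : ℤ)
    have e : (fun τ => G (_root_.P2MW.S_ModularForm_heckeT_slash_eq_self_of_mem_Gamma0.ModularForm.HeckeSlashInvariance.heckeRep ℓ x • (g • τ)))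
        = fun τ => G (g' • infAff 1 (j.val : ℤ) ℓ τ) := by
      funext τ
      rw [key τ, heckeRep_coe_smul]
    rw [e]
    exact this

/-- **`heckeProd ℓ` preserves good functions** (`ℓ ∤ N` prime). -/
theorem heckeProd_mem_goodRing (hℓN : ¬ ℓ ∣ N) {G : ℍ → ℂ} (hG : G ∈ goodRing N) :
    heckeProd ℓ G ∈ goodRing N := by
  refine ⟨mdiff_heckeProd hG.1, fun γ hγ τ => ?_, fun g => ?_⟩
  · have h := heckeProd_smul hℓN (h := G) (c := fun _ => 1)
      (fun γ τ => by rw [one_mul]; exact hG.2.1 _ γ.2 τ) ⟨γ, hγ⟩ τ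
    simpa using h
  · exact expGrowth_finset_prod Finset.univ
      (fun x τ => G (_root_.P2MW.S_ModularForm_heckeT_slash_eq_self_of_mem_Gamma0.ModularForm.HeckeSlashInvariance.heckeRep ℓ x • (g • τ))) fun x _ => expGrowth_factor hG g x

end Main

end Fermat.Agent.S29.H395

end

end
-- ===== PACK-END S29/H395/GoodProd.lean

-- ===== PACK-BEGIN S30/H709/OccJ.lean
section


/-!
# S30-OCC, transport to the Jacobian: occurrence of `χ` in `𝒪 ⊗ J` modulo every power of `p`

`KummerSystem` is the interface expected from the Kummer layer (`M4b` for all `pⁿ`): maps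
`κ n : (Γ₀(N) → ℤ) → J` (the class attached to `c mod pⁿ`), additive on integral parabolic
characters, compatible (`p • κ (n+1) = κ n`, `κ 0 = 0`), Hecke-equivariant, and injective modulo `p`
at level `1`.

`exists_occ_tensor`: from `PeriodHecke` and a `KummerSystem`, every `χ : heckeAlgebra N 2 S →+* 𝒪`
(`𝒪` a local principal ideal domain of characteristic `0` with `p ∈ 𝔪`) occurs in `𝒪 ⊗ J` with
exact order `pⁿ⁺¹` for every `n`: exactly the hypothesis `hocc` of
`Fermat.Agent.S30.H349.nonempty_adicEigenModule_of_tower`.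
-/

set_option autoImplicit false

noncomputable section

namespace Fermat.Agent.S30.H709

open CongruenceSubgroup ModularCurve ModularCurve.Period TensorProduct IsLocalRing
open scoped MatrixGroups

/-- Integral parabolic characters of `Γ₀(N)`, as plain functions. -/
def IsParZ {N : ℕ} (c : Gamma0 N → ℤ) : Prop :=
  (∀ γ δ : Gamma0 N, c (γ * δ) = c γ + c δ) ∧
    ∀ γ : Gamma0 N, ((γ : SL(2, ℤ)) : Matrix (Fin 2) (Fin 2) ℤ).trace ^ 2 = 4 → c γ = 0

theorem IsParZ.zero {N : ℕ} : IsParZ (0 : Gamma0 N → ℤ) :=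
  ⟨fun _ _ => by simp, fun _ _ => rfl⟩

theorem IsParZ.add {N : ℕ} {c c' : Gamma0 N → ℤ} (h : IsParZ c) (h' : IsParZ c') :
    IsParZ (c + c') :=
  ⟨fun γ δ => by simp only [Pi.add_apply, h.1 γ δ, h'.1 γ δ]; ring,
    fun γ hγ => by simp only [Pi.add_apply, h.2 γ hγ, h'.2 γ hγ, add_zero]⟩

theorem IsParZ.neg {N : ℕ} {c : Gamma0 N → ℤ} (h : IsParZ c) : IsParZ (-c) :=
  ⟨fun γ δ => by simp only [Pi.neg_apply, h.1 γ δ]; ring,
    fun γ hγ => by simp only [Pi.neg_apply, h.2 γ hγ, neg_zero]⟩

theorem IsParZ.smul {N : ℕ} {c : Gamma0 N → ℤ} (h : IsParZ c) (a : ℤ) : IsParZ (a • c) :=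
  ⟨fun γ δ => by simp only [Pi.smul_apply, smul_eq_mul, h.1 γ δ]; ring,
    fun γ hγ => by simp only [Pi.smul_apply, smul_eq_mul, h.2 γ hγ, mul_zero]⟩

theorem IsParZ.sum {N : ℕ} {ι : Type*} (s : Finset ι) (f : ι → Gamma0 N → ℤ)
    (h : ∀ i ∈ s, IsParZ (f i)) : IsParZ (∑ i ∈ s, f i) := by
  classical
  induction s using Finset.induction_on with
  | empty => rw [Finset.sum_empty]; exact IsParZ.zero
  | insert a s ha ih =>
    rw [Finset.sum_insert ha]
    exact (h a (Finset.mem_insert_self a s)).add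
      (ih fun i hi => h i (Finset.mem_insert_of_mem hi))

/-- The cohomological Hecke operator on functions `Γ₀(N) → ℤ` attached to `fac`. -/
def heckeFn {N : ℕ} (fac : ℕ → Gamma0 N → Multiset (Gamma0 N)) (ℓ : ℕ) (c : Gamma0 N → ℤ) :
    Gamma0 N → ℤ :=
  fun γ => ((fac ℓ γ).map c).sum

/-- **Interface of the Kummer layer for all powers of `p`.**  `κ n c` is the class in `J[pⁿ]`
attached to the character `c mod pⁿ` (for S30: `J = JZero N`, `T ℓ` the Hecke operator). -/
structure KummerSystem (N : ℕ) (fac : ℕ → Gamma0 N → Multiset (Gamma0 N)) (S : Set ℕ) (p : ℕ)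
    (J : Type*) [AddCommGroup J] (T : Nat.Primes → J →+ J) where
  /-- the Kummer maps -/
  κ : ℕ → (Gamma0 N → ℤ) → J
  map_add : ∀ n c c', IsParZ c → IsParZ c' → κ n (c + c') = κ n c + κ n c'
  map_zero_level : ∀ c, IsParZ c → κ 0 c = 0
  compat : ∀ n c, IsParZ c → p • κ (n + 1) c = κ n c
  inj : ∀ c, IsParZ c → κ 1 c = 0 → ∀ γ, (p : ℤ) ∣ c γ
  hecke : ∀ (n : ℕ) (ℓ : Nat.Primes), ¬ (ℓ : ℕ) ∣ N → (ℓ : ℕ) ∉ S → ∀ c, IsParZ c →
    T ℓ (κ n c) = κ n (heckeFn fac ℓ c)

namespace KummerSystem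

variable {N : ℕ} {fac : ℕ → Gamma0 N → Multiset (Gamma0 N)} {S : Set ℕ} {p : ℕ}
  {J : Type*} [AddCommGroup J] {T : Nat.Primes → J →+ J} (K : KummerSystem N fac S p J T)

theorem map_zero (n : ℕ) : K.κ n 0 = 0 := by
  have h := K.map_add n 0 0 IsParZ.zero IsParZ.zero
  rw [add_zero] at h
  exact left_eq_add.mp h

theorem map_neg (n : ℕ) {c : Gamma0 N → ℤ} (hc : IsParZ c) : K.κ n (-c) = - K.κ n c := by
  have h := K.map_add n c (-c) hc hc.neg
  rw [add_neg_cancel, K.map_zero] at h
  exact (neg_eq_of_add_eq_zero_right h.symm).symm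

theorem map_nsmul (n : ℕ) {c : Gamma0 N → ℤ} (hc : IsParZ c) (k : ℕ) :
    K.κ n (k • c) = k • K.κ n c := by
  induction k with
  | zero => rw [zero_smul, zero_smul, K.map_zero]
  | succ k ih =>
    rw [succ_nsmul, succ_nsmul, K.map_add n _ _ (by simpa using hc.smul (k : ℤ)) hc, ih]

theorem map_zsmul (n : ℕ) {c : Gamma0 N → ℤ} (hc : IsParZ c) (a : ℤ) :
    K.κ n (a • c) = a • K.κ n c := by
  rcases Int.eq_nat_or_neg a with ⟨k, rfl | rfl⟩
  · rw [natCast_zsmul, natCast_zsmul, K.map_nsmul n hc]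
  · rw [neg_smul, neg_smul, natCast_zsmul, natCast_zsmul,
      K.map_neg n (by simpa using hc.smul (k : ℤ)), K.map_nsmul n hc]

theorem map_sum (n : ℕ) {ι : Type*} (s : Finset ι) (f : ι → Gamma0 N → ℤ)
    (h : ∀ i ∈ s, IsParZ (f i)) : K.κ n (∑ i ∈ s, f i) = ∑ i ∈ s, K.κ n (f i) := by
  classical
  induction s using Finset.induction_on with
  | empty => rw [Finset.sum_empty, Finset.sum_empty, K.map_zero]
  | insert a s ha ih =>
    rw [Finset.sum_insert ha, Finset.sum_insert ha,
      K.map_add n _ _ (h a (Finset.mem_insert_self a s))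
        (IsParZ.sum s f fun i hi => h i (Finset.mem_insert_of_mem hi)),
      ih fun i hi => h i (Finset.mem_insert_of_mem hi)]

theorem pow_smul (n k : ℕ) {c : Gamma0 N → ℤ} (hc : IsParZ c) :
    p ^ k • K.κ (n + k) c = K.κ n c := by
  induction k with
  | zero => rw [pow_zero, one_smul, add_zero]
  | succ k ih =>
    rw [pow_succ, mul_smul, ← add_assoc, K.compat (n + k) c hc, ih]

end KummerSystem

/-- In a local principal ideal domain every nonzero vector is a nonzero multiple of a vector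
with a unit coordinate. -/
theorem exists_primitive_vector {O : Type*} [CommRing O] [IsDomain O] [IsLocalRing O]
    [IsPrincipalIdealRing O] {r : ℕ} (w : Fin r → O) (hw : w ≠ 0) :
    ∃ (g : O) (w' : Fin r → O), g ≠ 0 ∧ (∀ j, w j = g * w' j) ∧ ∃ j, IsUnit (w' j) := by
  classical
  obtain ⟨g, hg⟩ := (IsPrincipalIdealRing.principal (Ideal.span (Set.range w))).principal
  have hmem : ∀ j, w j ∈ Ideal.span ({g} : Set O) := by
    intro j
    have : w j ∈ Ideal.span (Set.range w) := Ideal.subset_span ⟨j, rfl⟩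
    rw [hg] at this
    exact this
  have hdiv : ∀ j, ∃ a, w j = g * a := fun j => by
    obtain ⟨a, ha⟩ := Ideal.mem_span_singleton'.mp (hmem j)
    exact ⟨a, by rw [← ha, mul_comm]⟩
  choose w' hw' using hdiv
  have hg0 : g ≠ 0 := by
    rintro rfl
    apply hw
    funext j
    rw [hw' j, zero_mul]
    rfl
  have hgmem : g ∈ Ideal.span (Set.range w) := by
    rw [hg]
    exact Ideal.subset_span rfl
  obtain ⟨a, ha⟩ := Ideal.mem_span_range_iff_exists_fun.mp hgmem
  have hone : ∑ j, a j * w' j = 1 := by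
    have h1 : g * ∑ j, a j * w' j = g * 1 := by
      rw [mul_one, Finset.mul_sum]
      conv_rhs => rw [← ha]
      refine Finset.sum_congr rfl fun j _ => ?_
      rw [hw' j]
      ring
    exact mul_left_cancel₀ hg0 h1
  refine ⟨g, w', hg0, hw', ?_⟩
  by_contra hcon
  rw [not_exists] at hcon
  have hmax : ∑ j, a j * w' j ∈ maximalIdeal O :=
    Ideal.sum_mem _ fun j _ => Ideal.mul_mem_left _ _ ((mem_maximalIdeal _).mpr (hcon j))
  rw [hone] at hmax
  exact (mem_maximalIdeal _).mp hmax isUnit_one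

section Nonvanishing

variable {O : Type*} [CommRing O] [IsDomain O] [CharZero O] {J : Type*} [AddCommGroup J]

/-- The `j`-th coordinate `O ⊗ ℤʳ → O`. -/
def coordTensor (O : Type*) [CommRing O] {r : ℕ} (j : Fin r) : O ⊗[ℤ] (Fin r → ℤ) →+ O :=
  (TensorProduct.lift (LinearMap.mk₂ ℤ (fun (o : O) (a : Fin r → ℤ) => a j • o)
    (fun o o' a => by simp only [smul_add])
    (fun t o a => smul_comm (a j) t o)
    (fun o a a' => by simp only [Pi.add_apply, add_smul])
    (fun t o a => by simp only [Pi.smul_apply, smul_eq_mul, mul_smul]))).toAddMonoidHom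

omit [IsDomain O] [CharZero O] in
theorem coordTensor_tmul {r : ℕ} (j : Fin r) (o : O) (a : Fin r → ℤ) :
    coordTensor O j (o ⊗ₜ[ℤ] a) = a j • o := by
  simp only [coordTensor, LinearMap.toAddMonoidHom_coe, TensorProduct.lift.tmul,
    LinearMap.mk₂_apply]

/-- Flatness: if `φ : ℤʳ → J` has kernel inside `p ℤʳ` and `∑ wⱼ ⊗ φ(eⱼ) = 0` in `O ⊗ J`,
then `p` divides every `wⱼ`. -/
theorem dvd_of_tensor_eq_zero {r : ℕ} (φ : (Fin r → ℤ) →ₗ[ℤ] J) (m : ℤ)
    (hker : ∀ a : Fin r → ℤ, φ a = 0 → ∀ j, m ∣ a j) (w : Fin r → O)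
    (hz : ∑ j, w j ⊗ₜ[ℤ] φ (Pi.single j 1) = 0) (j : Fin r) : (m : O) ∣ w j := by
  classical
  let z : O ⊗[ℤ] (Fin r → ℤ) := ∑ k, w k ⊗ₜ[ℤ] (Pi.single k (1 : ℤ))
  have hzφ : LinearMap.lTensor O φ z = 0 := by
    rw [map_sum, ← hz]
    refine Finset.sum_congr rfl fun k _ => ?_
    rw [LinearMap.lTensor_tmul]
  have hex := Module.Flat.lTensor_exact O (LinearMap.exact_subtype_ker_map φ)
  obtain ⟨t, ht⟩ := (hex z).mp hzφ
  have hzj : coordTensor O j z = w j := by
    rw [map_sum]
    simp only [coordTensor_tmul]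
    rw [Finset.sum_eq_single j]
    · rw [Pi.single_eq_same, one_smul]
    · intro k _ hk
      rw [Pi.single_eq_of_ne (Ne.symm hk), zero_smul]
    · intro h
      exact absurd (Finset.mem_univ j) h
  have hall : ∀ t : O ⊗[ℤ] LinearMap.ker φ,
      (m : O) ∣ coordTensor O j (LinearMap.lTensor O (LinearMap.ker φ).subtype t) := by
    intro t
    induction t using TensorProduct.induction_on with
    | zero => rw [map_zero, map_zero]; exact dvd_zero _
    | tmul o a =>
      rw [LinearMap.lTensor_tmul, coordTensor_tmul]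
      obtain ⟨b, hb⟩ := hker a.1 (LinearMap.mem_ker.mp a.2) j
      rw [Submodule.subtype_apply, hb, mul_smul, zsmul_eq_mul]
      exact Dvd.intro _ rfl
    | add x y hx hy => rw [map_add, map_add]; exact dvd_add hx hy
  rw [← hzj, ← ht]
  exact hall t

end Nonvanishing

section Main

variable {N : ℕ} [NeZero N]

/-- **Occurrence of `χ` in `𝒪 ⊗ J` modulo every power of `p`**: the hypothesis `hocc` of the
`p`-adic module layer, from `PeriodHecke` and a `KummerSystem`. -/
theorem exists_occ_tensor {fac : ℕ → Gamma0 N → Multiset (Gamma0 N)}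
    (hPH : PeriodHecke N fac) {S : Set ℕ} (hNS : ∀ q : ℕ, q.Prime → q ∣ N → q ∈ S)
    {O : Type*} [CommRing O] [IsDomain O] [IsLocalRing O] [IsPrincipalIdealRing O] [CharZero O]
    (χ : CuspForm.heckeAlgebra N 2 S →+* O)
    {p : ℕ} (hpO : (p : O) ∈ maximalIdeal O)
    {J : Type*} [AddCommGroup J] {T : Nat.Primes → J →+ J}
    (K : KummerSystem N fac S p J T) (n : ℕ) :
    ∃ x : O ⊗[ℤ] J, (p : O) ^ (n + 1) • x = 0 ∧ (p : O) ^ n • x ≠ 0 ∧
      ∀ (ℓ : ℕ) (hℓ : ℓ.Prime) (hℓN : ¬ ℓ ∣ N) (hℓS : ℓ ∉ S),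
        (T ⟨ℓ, hℓ⟩).toIntLinearMap.baseChange O x
          = χ (CuspForm.heckeAlgebra.T hℓ hℓN hℓS) • x := by
  classical
  obtain ⟨r, c, τ, w₀, hpar, hsat, hτ, hw₀, heig₀⟩ := exists_adic_eigen_lattice hPH hNS χ
  obtain ⟨g, w, hg0, hgw, j₀, hj₀⟩ := exists_primitive_vector w₀ hw₀
  -- the eigen-relation for the primitive vector
  have heig : ∀ (ℓ : ℕ) (hℓ : ℓ.Prime) (hℓN : ¬ ℓ ∣ N) (hℓS : ℓ ∉ S) (k : Fin r),
      ∑ j, w j * ((τ ℓ j k : ℤ) : O) = χ (CuspForm.heckeAlgebra.T hℓ hℓN hℓS) * w k := by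
    intro ℓ hℓ hℓN hℓS k
    have h := heig₀ ℓ hℓ hℓN hℓS k
    apply mul_left_cancel₀ hg0
    rw [Finset.mul_sum]
    calc ∑ j, g * (w j * ((τ ℓ j k : ℤ) : O)) = ∑ j, w₀ j * ((τ ℓ j k : ℤ) : O) := by
          refine Finset.sum_congr rfl fun j _ => ?_
          rw [hgw j]; ring
      _ = χ (CuspForm.heckeAlgebra.T hℓ hℓN hℓS) * w₀ k := h
      _ = g * (χ (CuspForm.heckeAlgebra.T hℓ hℓN hℓS) * w k) := by rw [hgw k]; ring
  -- the characters as functions
  let cf : Fin r → Gamma0 N → ℤ := fun j γ => c j (Additive.ofMul γ)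
  have hcf : ∀ j, IsParZ (cf j) := fun j =>
    ⟨fun γ δ => by simp only [cf, ofMul_mul, map_add], fun γ hγ => hpar j γ hγ⟩
  have hheckeFn : ∀ (ℓ : ℕ) (hℓ : ℓ.Prime) (hℓN : ¬ ℓ ∣ N) (hℓS : ℓ ∉ S) (j : Fin r),
      heckeFn fac ℓ (cf j) = ∑ k, τ ℓ j k • cf k := by
    intro ℓ hℓ hℓN hℓS j
    funext γ
    rw [heckeFn, hτ ℓ hℓ hℓN hℓS j γ, Finset.sum_apply]
    rfl
  -- the eigenclass at level `m`
  let x : ℕ → O ⊗[ℤ] J := fun m => ∑ j, w j ⊗ₜ[ℤ] K.κ m (cf j)
  have hx_pow : ∀ m k : ℕ, (p : O) ^ k • x (m + k) = x m := by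
    intro m k
    simp only [x]
    rw [Finset.smul_sum]
    refine Finset.sum_congr rfl fun j _ => ?_
    rw [← K.pow_smul m k (hcf j), TensorProduct.tmul_smul, ← Nat.cast_pow,
      Nat.cast_smul_eq_nsmul]
  have hx0 : x 0 = 0 := by
    simp only [x]
    refine Finset.sum_eq_zero fun j _ => ?_
    rw [K.map_zero_level _ (hcf j), TensorProduct.tmul_zero]
  refine ⟨x (n + 1), ?_, ?_, ?_⟩
  · have := hx_pow 0 (n + 1)
    rw [zero_add] at this
    rw [this, hx0]
  · have h1 := hx_pow 1 n
    rw [add_comm 1 n] at h1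
    rw [h1]
    intro hzero
    -- `x 1 = 0` forces `p ∣ w j₀`, impossible for a unit
    let φ : (Fin r → ℤ) →ₗ[ℤ] J :=
      { toFun := fun a => ∑ j, a j • K.κ 1 (cf j)
        map_add' := fun a b => by
          simp only [Pi.add_apply, add_smul, Finset.sum_add_distrib]
        map_smul' := fun t a => by
          simp only [Pi.smul_apply, smul_eq_mul, mul_smul, Finset.smul_sum, RingHom.id_apply] }
    have hφ : ∀ a : Fin r → ℤ, φ a = K.κ 1 (∑ j, a j • cf j) := by
      intro a
      rw [K.map_sum 1 Finset.univ (fun j => a j • cf j) fun j _ => (hcf j).smul (a j)]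
      show ∑ j, a j • K.κ 1 (cf j) = _
      refine Finset.sum_congr rfl fun j _ => ?_
      rw [K.map_zsmul 1 (hcf j)]
    have hker : ∀ a : Fin r → ℤ, φ a = 0 → ∀ j, (p : ℤ) ∣ a j := by
      intro a ha
      rw [hφ] at ha
      have hdiv := K.inj _ (IsParZ.sum Finset.univ (fun j => a j • cf j)
        fun j _ => (hcf j).smul (a j)) ha
      refine hsat (p : ℤ) a fun γ => ?_
      have := hdiv γ
      simpa [Finset.sum_apply, cf] using this
    have hsingle : ∀ j, φ (Pi.single j 1) = K.κ 1 (cf j) := by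
      intro j
      show ∑ k, (Pi.single j (1 : ℤ) : Fin r → ℤ) k • K.κ 1 (cf k) = _
      rw [Finset.sum_eq_single j]
      · rw [Pi.single_eq_same, one_smul]
      · intro k _ hk
        rw [Pi.single_eq_of_ne hk, zero_smul]
      · intro h
        exact absurd (Finset.mem_univ j) h
    have hz : ∑ j, w j ⊗ₜ[ℤ] φ (Pi.single j 1) = 0 := by
      rw [← hzero]
      refine Finset.sum_congr rfl fun j _ => ?_
      rw [hsingle]
    have hdvd := dvd_of_tensor_eq_zero φ (p : ℤ) hker w hz j₀
    rw [Int.cast_natCast] at hdvd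
    have hmem : w j₀ ∈ maximalIdeal O := by
      obtain ⟨b, hb⟩ := hdvd
      rw [hb]
      exact Ideal.mul_mem_right _ _ hpO
    exact (mem_maximalIdeal _).mp hmem hj₀
  · intro ℓ hℓ hℓN hℓS
    simp only [x]
    rw [map_sum, Finset.smul_sum]
    have h1 : ∀ j, (T ⟨ℓ, hℓ⟩).toIntLinearMap.baseChange O (w j ⊗ₜ[ℤ] K.κ (n + 1) (cf j))
        = ∑ k, (w j * ((τ ℓ j k : ℤ) : O)) ⊗ₜ[ℤ] K.κ (n + 1) (cf k) := by
      intro j
      rw [LinearMap.baseChange_tmul, AddMonoidHom.coe_toIntLinearMap,
        K.hecke (n + 1) ⟨ℓ, hℓ⟩ hℓN hℓS _ (hcf j), hheckeFn ℓ hℓ hℓN hℓS j,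
        K.map_sum (n + 1) Finset.univ (fun k => τ ℓ j k • cf k)
          fun k _ => (hcf k).smul (τ ℓ j k), TensorProduct.tmul_sum]
      refine Finset.sum_congr rfl fun k _ => ?_
      rw [K.map_zsmul (n + 1) (hcf k), TensorProduct.tmul_smul, TensorProduct.smul_tmul',
        zsmul_eq_mul, mul_comm]
    rw [Finset.sum_congr rfl fun j _ => h1 j, Finset.sum_comm]
    refine Finset.sum_congr rfl fun k _ => ?_
    rw [← TensorProduct.sum_tmul, heig ℓ hℓ hℓN hℓS k, TensorProduct.smul_tmul', smul_eq_mul]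

end Main

end Fermat.Agent.S30.H709

end
end
-- ===== PACK-END S30/H709/OccJ.lean

-- ===== PACK-BEGIN S18/H438/Front/H138Charts.lean
section




/-!
# S18 / ALG-FRONT (helper438), part 9: the hypotheses of `H394.kummer_charts_of_regular`
on the chart `H138.chart R {x}` of a good model

For `G : Alg.GoodModel Lc Ec Fc R V w x S`, with `R' := Rf Fc R` (a type), `x' := xf G : Fc`,
`w' := wR G : R'` and `B := H138.chart R' {x'}`:

* `GoodModelFront.prime_chart`            : `Prime (algebraMap R' B w')`;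
* `GoodModelFront.oneModPi_chart`         : `(u - 1) / w ∈ V` ⟹ `H754.OneModPi (algebraMap R' B w') u`;
* `GoodModelFront.divisibleDivisor_chart` : `H754.DivisibleDivisor B m u` from the divisor
  hypothesis of `Alg.AlgMainStatement`.

The chart at infinity is obtained by applying these to `H425.goodModel_inv G`.
-/

set_option autoImplicit false
set_option linter.style.haveILetI false
set_option linter.unusedSectionVars false

noncomputable section

namespace Fermat.Agent.S18.H438

open Alg Polynomial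

section Equiv

variable {F : Type*} [Field F] (R : Subring F) (z : F)

/-- The identity `chartRing R z ≃ H138.chart R {z}`. -/
def chartEquiv138 : chartRing R z ≃+* H138.chart R ({z} : Set F) where
  toFun c := ⟨c.1, c.2⟩
  invFun c := ⟨c.1, c.2⟩
  left_inv _ := rfl
  right_inv _ := rfl
  map_mul' _ _ := rfl
  map_add' _ _ := rfl

theorem chartEquiv138_chartUnif {w : F} (hwR : w ∈ R) :
    chartEquiv138 R z (chartUnif (z := z) hwR) =
      algebraMap R (H138.chart R ({z} : Set F)) ⟨w, hwR⟩ := rfl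

theorem prime_chart138 {w : F} (hwR : w ∈ R) (h : Prime (chartUnif (z := z) hwR)) :
    Prime (algebraMap R (H138.chart R ({z} : Set F)) ⟨w, hwR⟩) := by
  rw [← chartEquiv138_chartUnif]
  exact (MulEquiv.prime_iff (chartEquiv138 R z).toMulEquiv).2 h

theorem oneModPi_chart138 {w : F} (hwR : w ∈ R) {u : F}
    (h : H754.OneModPi (chartUnif (z := z) hwR) u) :
    H754.OneModPi (algebraMap R (H138.chart R ({z} : Set F)) ⟨w, hwR⟩) u := by
  obtain ⟨a, s, hs, has, hu⟩ := h
  refine ⟨chartEquiv138 R z a, chartEquiv138 R z s, ?_, ?_, hu⟩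
  · rw [Ideal.mem_span_singleton] at hs ⊢
    rw [← chartEquiv138_chartUnif]
    intro h
    exact hs ((map_dvd_iff (chartEquiv138 R z)).1 h)
  · rw [Ideal.mem_span_singleton] at has ⊢
    rw [← chartEquiv138_chartUnif, ← map_sub]
    exact (map_dvd_iff (chartEquiv138 R z)).2 has

end Equiv

variable {Ω : Type*} [Field Ω] {Lc Ec Fc : Subfield Ω} {R V : Subring Ω} {w x : Ω}
  {S : Finset Ω}

namespace GoodModelFront

variable (G : GoodModel Lc Ec Fc R V w x S)

/-- the uniformiser as an element of the ring `R` -/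
def wR : Rf Fc R := ⟨wf G, wf_mem_Rf G⟩

@[simp] theorem coe_wR : ((wR G : Rf Fc R) : Fc) = wf G := rfl

section

attribute [local instance] FractionRing.liftAlgebra

include G in
/-- instances on `chartRing R x` -/
theorem chartRing_instances :
    IsFractionRing (chartRing (Rf Fc R) (xf G)) Fc ∧
      IsNoetherianRing (chartRing (Rf Fc R) (xf G)) := by
  haveI := charZero_Fc G
  haveI := isDiscreteValuationRing_Rf G
  haveI := finiteDimensional_fractionRing G
  exact ⟨chartRing_isFractionRing _ _, chartRing_isNoetherianRing _ _ (transcendental_xf G)⟩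

end

/-- **`w` is prime in the chart.** -/
theorem prime_chart :
    Prime (algebraMap (Rf Fc R) (H138.chart (Rf Fc R) ({xf G} : Set Fc)) (wR G)) :=
  prime_chart138 (Rf Fc R) (xf G) (wf_mem_Rf G)
    (prime_chartUnif (V := Vf G) (wf_mem_Rf G) (wf_ne_zero G) (Rf_le_Vf G) (xf_mem_Vf G)
      (wf_inv_not_mem_Vf G) (Vf_gen G) (qep_fin' G))

/-- **`u ≡ 1 mod w` on the chart.** -/
theorem oneModPi_chart {u : Fc} (hu : ((u : Ω) - 1) * w⁻¹ ∈ V) :
    H754.OneModPi (algebraMap (Rf Fc R) (H138.chart (Rf Fc R) ({xf G} : Set Fc)) (wR G)) u := by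
  obtain ⟨i1, i2⟩ := chartRing_instances G
  refine oneModPi_chart138 (Rf Fc R) (xf G) (wf_mem_Rf G)
    (oneModPi_of_sub_one_mem (V := Vf G) (wf_mem_Rf G) (wf_ne_zero G) (Rf_le_Vf G) (xf_mem_Vf G)
      (wf_inv_not_mem_Vf G) (Vf_gen G) (qep_fin' G) ?_)
  exact hu

include G in
/-- instances on `H138.chart R {x}` -/
theorem chart_instances138 :
    IsNoetherianRing (H138.chart (Rf Fc R) ({xf G} : Set Fc)) ∧
      IsIntegrallyClosed (H138.chart (Rf Fc R) ({xf G} : Set Fc)) ∧
      IsFractionRing (H138.chart (Rf Fc R) ({xf G} : Set Fc)) Fc := by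
  haveI := charZero_Fc G
  haveI := isDiscreteValuationRing_Rf G
  haveI := finiteDimensional_baseField G
  exact H394.chart_instances (transcendental_xf G)

/-- **`m ∣ div u` on the chart**, from the divisor hypothesis of `Alg.AlgMainStatement`. -/
theorem divisibleDivisor_chart {u : Fc} (hu : ((u : Ω) - 1) * w⁻¹ ∈ V) {m : ℕ}
    (hdiv : ∀ O : ValuationSubring Ω, (∀ a ∈ Lc, a ∈ O) →
      ∃ t : Ω, t ≠ 0 ∧ (u : Ω) * t ^ m ∈ O ∧ ((u : Ω) * t ^ m)⁻¹ ∈ O) :
    H754.DivisibleDivisor (H138.chart (Rf Fc R) ({xf G} : Set Fc)) m u := by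
  obtain ⟨i1, i2, i3⟩ := chart_instances138 G
  exact divisibleDivisor G
    (fun r hr => ⟨algebraMap (Rf Fc R) (H138.chart (Rf Fc R) ({xf G} : Set Fc)) ⟨r, hr⟩, rfl⟩)
    _ (prime_chart G) rfl (oneModPi_chart G hu) hdiv

end GoodModelFront

end Fermat.Agent.S18.H438

end
end
-- ===== PACK-END S18/H438/Front/H138Charts.lean

-- ===== PACK-BEGIN A2/H489/GaussFrameA.lean
section


/-!
# A2 / M1mod-FRAME part A (helper489): Gauss normal form over a discrete valuation ring

`R` a discrete valuation ring, `E = Frac R`, `L ⊇ E` a field, `x ∈ L`.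

* `exists_eq_pow_mul_prim` : a nonzero `p ∈ R[X]` is `w ^ n` times a primitive polynomial
  (primitive := nonzero modulo the maximal ideal);
* `exists_normal_form_adjoin` : every element `a ∈ E(x)` satisfies
  `a · Q(x) = c · P(x)` with `c ∈ E` and `P, Q ∈ R[X]` primitive;
* `IsGaussOver R V x` : the valuation subring `V` of `L` contains `R`, `x`, its maximal ideal
  contains `𝔪_R`, and `P(x)` is a unit of `V` for every primitive `P ∈ R[X]`
  (i.e. `V` induces the Gauss valuation on `E(x)`);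
* `IsGaussOver.mem_iff`, `IsGaussOver.mem_nonunits_iff` : `V ∩ E(x)` and `𝔪_V ∩ E(x)` in terms of
  normal forms (independent of `V`).
-/

set_option autoImplicit false

namespace Fermat.Agent.A2.H489

open IsLocalRing Polynomial IntermediateField

section Prim

variable {R : Type*} [CommRing R] [IsDomain R] [IsDiscreteValuationRing R]

omit [IsDomain R] [IsDiscreteValuationRing R] in
/-- primitive polynomials over a local ring: nonzero modulo the maximal ideal -/
theorem map_residue_eq_zero_iff [IsLocalRing R] (P : R[X]) :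
    P.map (residue R) = 0 ↔ ∀ i, P.coeff i ∈ maximalIdeal R := by
  constructor
  · intro h i
    have := congrArg (fun p => p.coeff i) h
    simp only [coeff_map, coeff_zero] at this
    exact (residue_eq_zero_iff _).mp this
  · intro h
    ext i
    simp only [coeff_map, coeff_zero]
    exact (residue_eq_zero_iff _).mpr (h i)

theorem exists_eq_C_mul_of_map_residue_eq_zero {w : R} (hw : Irreducible w) {P : R[X]}
    (h : P.map (residue R) = 0) : ∃ P' : R[X], P = C w * P' := by
  have h1 : C w ∣ P := by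
    rw [C_dvd_iff_dvd_coeff]
    intro i
    have := (map_residue_eq_zero_iff P).mp h i
    rw [hw.maximalIdeal_eq, Ideal.mem_span_singleton] at this
    exact this
  exact h1

/-- A nonzero polynomial over a DVR is a power of the uniformiser times a primitive polynomial. -/
theorem exists_eq_pow_mul_prim {w : R} (hw : Irreducible w) {p : R[X]} (hp : p ≠ 0) :
    ∃ (n : ℕ) (P : R[X]), p = C (w ^ n) * P ∧ P.map (residue R) ≠ 0 := by
  classical
  let _ : StrongNormalizationMonoid R := UniqueFactorizationMonoid.strongNormalizationMonoid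
  let _ : NormalizedGCDMonoid R := UniqueFactorizationMonoid.toNormalizedGCDMonoid R
  have hc : p.content ≠ 0 := fun h => hp (content_eq_zero_iff.mp h)
  obtain ⟨n, hn⟩ := IsDiscreteValuationRing.associated_pow_irreducible hc hw
  obtain ⟨u, hu⟩ := hn.symm
  -- `w ^ n * u = content`
  refine ⟨n, C (u : R) * p.primPart, ?_, ?_⟩
  · conv_lhs => rw [p.eq_C_content_mul_primPart]
    rw [← mul_assoc, ← C_mul, hu]
  · intro h
    rw [Polynomial.map_mul, map_C] at h
    have hu' : (C (residue R (u : R)) : (ResidueField R)[X]) ≠ 0 := by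
      rw [Ne, C_eq_zero, residue_eq_zero_iff]
      intro hmem
      exact (IsLocalRing.mem_maximalIdeal _).mp hmem u.isUnit
    rcases mul_eq_zero.mp h with h1 | h1
    · exact hu' h1
    · obtain ⟨P', hP'⟩ := exists_eq_C_mul_of_map_residue_eq_zero hw h1
      have hprim := p.isPrimitive_primPart
      have := hprim w ⟨P', hP'⟩
      exact hw.not_isUnit this

end Prim

section NormalForm

variable {R E L : Type*} [CommRing R] [IsDomain R] [IsDiscreteValuationRing R]
  [Field E] [Algebra R E] [IsFractionRing R E]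
  [Field L] [Algebra E L] [Algebra R L] [IsScalarTower R E L]

omit [IsDiscreteValuationRing R] in
/-- clearing denominators -/
theorem exists_aeval_eq_of_polynomial (x : L) {p : E[X]} (hp : p ≠ 0) :
    ∃ (d : R) (P : R[X]), d ≠ 0 ∧ P ≠ 0 ∧ algebraMap R L d * aeval x p = aeval x P := by
  obtain ⟨b, hbM, hb⟩ := IsLocalization.integerNormalization_spec (nonZeroDivisors R) p
  refine ⟨b, IsLocalization.integerNormalization (nonZeroDivisors R) p,
    nonZeroDivisors.ne_zero hbM, ?_, ?_⟩
  · rw [Ne, IsFractionRing.integerNormalization_eq_zero_iff]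
    exact hp
  · have h1 := congrArg (aeval x) hb
    rw [aeval_map_algebraMap] at h1
    rw [h1, ← Algebra.smul_def]
    have h2 : (b • p : E[X]) = C (algebraMap R E b) * p := by
      rw [Algebra.smul_def]
      rfl
    rw [h2, map_mul, aeval_C, ← IsScalarTower.algebraMap_apply R E L, Algebra.smul_def]

omit [IsDiscreteValuationRing R] in
theorem algebraMap_RL_ne_zero (E : Type*) {R L : Type*} [CommRing R] [IsDomain R]
    [Field E] [Algebra R E] [IsFractionRing R E]
    [Field L] [Algebra E L] [Algebra R L] [IsScalarTower R E L]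
    {d : R} (hd : d ≠ 0) : algebraMap R L d ≠ 0 := by
  rw [IsScalarTower.algebraMap_apply R E L]
  intro h
  have h1 : algebraMap R E d = 0 := (algebraMap E L).injective (by rw [h, map_zero])
  exact hd ((IsFractionRing.injective R E) (by rw [h1, map_zero]))

/-- **Gauss normal form** in `E(x)`: `a · Q(x) = c · P(x)` with `P`, `Q` primitive. -/
theorem exists_normal_form_adjoin {w : R} (hw : Irreducible w) (x : L) {a : L}
    (ha : a ∈ E⟮x⟯) (ha0 : a ≠ 0) :
    ∃ (c : E) (P Q : R[X]), c ≠ 0 ∧ P.map (residue R) ≠ 0 ∧ Q.map (residue R) ≠ 0 ∧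
      a * aeval x Q = algebraMap E L c * aeval x P := by
  obtain ⟨r, s, hrs⟩ := (mem_adjoin_simple_iff E a).mp ha
  have hs0 : aeval x s ≠ 0 := by
    intro h
    rw [h, div_zero] at hrs
    exact ha0 hrs
  have hr0 : aeval x r ≠ 0 := by
    intro h
    rw [h, zero_div] at hrs
    exact ha0 hrs
  have hs : s ≠ 0 := by
    rintro rfl
    exact hs0 (map_zero _)
  have hr : r ≠ 0 := by
    rintro rfl
    exact hr0 (map_zero _)
  obtain ⟨dr, R', hdr, hR', eR⟩ := exists_aeval_eq_of_polynomial (R := R) x hr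
  obtain ⟨ds, S', hds, hS', eS⟩ := exists_aeval_eq_of_polynomial (R := R) x hs
  obtain ⟨n, R₀, hR₀, hR₀p⟩ := exists_eq_pow_mul_prim hw hR'
  obtain ⟨m, S₀, hS₀, hS₀p⟩ := exists_eq_pow_mul_prim hw hS'
  have hw0 : algebraMap R L w ≠ 0 := algebraMap_RL_ne_zero E hw.ne_zero
  have hwE : algebraMap R E w ≠ 0 := fun h =>
    hw.ne_zero ((IsFractionRing.injective R E) (by rw [h, map_zero]))
  have hdrE : algebraMap R E dr ≠ 0 := fun h =>
    hdr ((IsFractionRing.injective R E) (by rw [h, map_zero]))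
  have hdsE : algebraMap R E ds ≠ 0 := fun h =>
    hds ((IsFractionRing.injective R E) (by rw [h, map_zero]))
  refine ⟨algebraMap R E ds * algebraMap R E w ^ n / (algebraMap R E dr * algebraMap R E w ^ m),
    R₀, S₀, ?_, hR₀p, hS₀p, ?_⟩
  · exact div_ne_zero (mul_ne_zero hdsE (pow_ne_zero _ hwE))
      (mul_ne_zero hdrE (pow_ne_zero _ hwE))
  · rw [hR₀, map_mul, aeval_C, map_pow] at eR
    rw [hS₀, map_mul, aeval_C, map_pow] at eS
    have hdrL : algebraMap R L dr ≠ 0 := algebraMap_RL_ne_zero E hdr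
    have hdsL : algebraMap R L ds ≠ 0 := algebraMap_RL_ne_zero E hds
    have e1 : a * aeval x s = aeval x r := by
      rw [hrs, div_mul_cancel₀ _ hs0]
    rw [map_div₀, map_mul, map_mul, map_pow, map_pow, ← IsScalarTower.algebraMap_apply R E L,
      ← IsScalarTower.algebraMap_apply R E L, ← IsScalarTower.algebraMap_apply R E L]
    rw [div_mul_eq_mul_div, eq_div_iff (mul_ne_zero hdrL (pow_ne_zero _ hw0))]
    have e2 : algebraMap R L dr * (algebraMap R L w ^ m * aeval x S₀) * a
        = algebraMap R L dr * (algebraMap R L ds * aeval x r) := by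
      rw [← eS, ← e1]; ring
    calc a * aeval x S₀ * (algebraMap R L dr * algebraMap R L w ^ m)
        = algebraMap R L dr * (algebraMap R L w ^ m * aeval x S₀) * a := by ring
      _ = algebraMap R L dr * (algebraMap R L ds * aeval x r) := e2
      _ = algebraMap R L ds * (algebraMap R L dr * aeval x r) := by ring
      _ = algebraMap R L ds * (algebraMap R L w ^ n * aeval x R₀) := by rw [eR]
      _ = algebraMap R L ds * algebraMap R L w ^ n * aeval x R₀ := by ring

end NormalForm

section Gauss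

/-- `V` induces the Gauss valuation on `E(x)` (with respect to the local ring `R`): it lies over
`R`, contains `x`, and `P(x)` is a unit of `V` for every primitive polynomial `P ∈ R[X]`. -/
structure IsGaussOver (R : Type*) {L : Type*} [CommRing R] [IsLocalRing R] [Field L]
    [Algebra R L] (V : ValuationSubring L) (x : L) : Prop where
  isOver : IsOver R V
  mem : x ∈ V
  prim : ∀ P : R[X], aeval x P ∈ V.nonunits → P.map (residue R) = 0

variable {R E L : Type*} [CommRing R] [IsDomain R] [IsDiscreteValuationRing R]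
  [Field E] [Algebra R E] [IsFractionRing R E]
  [Field L] [Algebra E L] [Algebra R L] [IsScalarTower R E L]
  {V : ValuationSubring L} {x : L}

omit [IsDomain R] [IsDiscreteValuationRing R] in
theorem IsOver.aeval_mem [IsLocalRing R] (h : IsOver R V) (hx : x ∈ V) (P : R[X]) :
    aeval x P ∈ V := by
  rw [aeval_def, eval₂_eq_sum, Polynomial.sum]
  exact sum_mem fun i _ => mul_mem (h.mem _) (pow_mem hx _)

omit [IsDomain R] [IsDiscreteValuationRing R] in
theorem IsGaussOver.aeval_mem [IsLocalRing R] (h : IsGaussOver R V x) (P : R[X]) :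
    aeval x P ∈ V :=
  h.isOver.aeval_mem h.mem P

omit [IsDomain R] [IsDiscreteValuationRing R] in
theorem IsGaussOver.inv_aeval_mem [IsLocalRing R] (h : IsGaussOver R V x) {P : R[X]}
    (hP : P.map (residue R) ≠ 0) : (aeval x P)⁻¹ ∈ V := by
  have h1 := h.aeval_mem P
  have h2 : aeval x P ∉ V.nonunits := fun hn => hP (h.prim P hn)
  rw [ValuationSubring.mem_nonunits_iff, not_lt] at h2
  rw [← ValuationSubring.valuation_le_one_iff, map_inv₀]
  have h3 := (ValuationSubring.valuation_le_one_iff V _).mpr h1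
  have h4 : V.valuation (aeval x P) = 1 := le_antisymm h3 h2
  rw [h4, inv_one]

omit [IsDomain R] [IsDiscreteValuationRing R] in
theorem IsGaussOver.aeval_ne_zero [IsLocalRing R] (h : IsGaussOver R V x) {P : R[X]}
    (hP : P.map (residue R) ≠ 0) : aeval x P ≠ 0 := by
  intro h0
  apply hP
  apply h.prim
  rw [h0, ValuationSubring.mem_nonunits_iff, map_zero]
  exact zero_lt_one

omit [IsDomain R] [IsDiscreteValuationRing R] in
theorem IsGaussOver.aeval_mem_nonunits [IsLocalRing R] (h : IsGaussOver R V x) {P : R[X]}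
    (hP : P.map (residue R) = 0) : aeval x P ∈ V.nonunits := by
  rw [aeval_def, eval₂_eq_sum, Polynomial.sum, ValuationSubring.mem_nonunits_iff]
  refine Valuation.map_sum_lt _ one_ne_zero fun i _ => ?_
  rw [← ValuationSubring.mem_nonunits_iff, mul_comm]
  exact mul_mem_nonunits (pow_mem h.mem _)
    (h.isOver.nonunit _ ((map_residue_eq_zero_iff P).mp hP i))

/-- `V ∩ E = R`. -/
theorem IsOver.const_mem_iff (hV : IsOver R V) (c : E) :
    algebraMap E L c ∈ V ↔ ∃ r : R, algebraMap R E r = c := by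
  constructor
  · intro hc
    rcases ValuationRing.isInteger_or_isInteger R c with ⟨r, hr⟩ | ⟨r, hr⟩
    · exact ⟨r, hr⟩
    · by_cases hc0 : c = 0
      · exact ⟨0, by rw [map_zero, hc0]⟩
      by_cases hu : IsUnit r
      · obtain ⟨u, rfl⟩ := hu
        refine ⟨(↑u⁻¹ : R), ?_⟩
        have h1 : algebraMap R E (↑u⁻¹ : R) * algebraMap R E (u : R) = 1 := by
          rw [← map_mul, Units.inv_mul, map_one]
        have hr' : algebraMap R E (u : R) = c⁻¹ := hr
        rw [hr'] at h1
        field_simp at h1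
        exact h1
      · exfalso
        have hm : r ∈ maximalIdeal R := (IsLocalRing.mem_maximalIdeal r).mpr hu
        have h1 := hV.nonunit r hm
        have hr' : algebraMap R E r = c⁻¹ := hr
        rw [IsScalarTower.algebraMap_apply R E L, hr', map_inv₀] at h1
        have h2 := mul_mem_nonunits hc h1
        have hc0' : algebraMap E L c ≠ 0 := by
          rw [Ne, map_eq_zero]
          exact hc0
        rw [mul_inv_cancel₀ hc0', ValuationSubring.mem_nonunits_iff, map_one] at h2
        exact lt_irrefl _ h2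
  · rintro ⟨r, rfl⟩
    rw [← IsScalarTower.algebraMap_apply]
    exact hV.mem r

/-- `𝔪_V ∩ E = 𝔪_R`. -/
theorem IsOver.const_mem_nonunits_iff (hV : IsOver R V) (c : E) :
    algebraMap E L c ∈ V.nonunits ↔ ∃ r ∈ maximalIdeal R, algebraMap R E r = c := by
  constructor
  · intro hc
    obtain ⟨r, rfl⟩ := (hV.const_mem_iff c).mp (ValuationSubring.nonunits_subset hc)
    rw [← IsScalarTower.algebraMap_apply] at hc
    exact ⟨r, (hV.mem_nonunits_iff r).mp hc, rfl⟩
  · rintro ⟨r, hr, rfl⟩
    rw [← IsScalarTower.algebraMap_apply]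
    exact hV.nonunit r hr

/-- `V ∩ E(x)` in terms of Gauss normal forms. -/
theorem IsGaussOver.mem_iff (h : IsGaussOver R V x) {a : L} (ha : a ∈ E⟮x⟯) :
    a ∈ V ↔ ∃ P Q : R[X], Q.map (residue R) ≠ 0 ∧ a * aeval x Q = aeval x P := by
  constructor
  · intro haV
    by_cases ha0 : a = 0
    · exact ⟨0, 1, by rw [Polynomial.map_one]; exact one_ne_zero, by rw [ha0, zero_mul, map_zero]⟩
    obtain ⟨w, hw⟩ := IsDiscreteValuationRing.exists_irreducible R
    obtain ⟨c, P, Q, -, hP, hQ, e⟩ := exists_normal_form_adjoin (E := E) hw x ha ha0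
    have hc : algebraMap E L c ∈ V := by
      have h1 : algebraMap E L c = a * aeval x Q * (aeval x P)⁻¹ := by
        rw [e, mul_assoc, mul_inv_cancel₀ (h.aeval_ne_zero hP), mul_one]
      rw [h1]
      exact mul_mem (mul_mem haV (h.aeval_mem Q)) (h.inv_aeval_mem hP)
    obtain ⟨r, rfl⟩ := (h.isOver.const_mem_iff c).mp hc
    refine ⟨C r * P, Q, hQ, ?_⟩
    rw [e, map_mul, aeval_C, ← IsScalarTower.algebraMap_apply]
  · rintro ⟨P, Q, hQ, e⟩
    have h1 : a = aeval x P * (aeval x Q)⁻¹ := by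
      rw [← e, mul_assoc, mul_inv_cancel₀ (h.aeval_ne_zero hQ), mul_one]
    rw [h1]
    exact mul_mem (h.aeval_mem P) (h.inv_aeval_mem hQ)

/-- `𝔪_V ∩ E(x)` in terms of Gauss normal forms. -/
theorem IsGaussOver.mem_nonunits_iff (h : IsGaussOver R V x) {a : L} (ha : a ∈ E⟮x⟯) :
    a ∈ V.nonunits ↔ ∃ P Q : R[X], Q.map (residue R) ≠ 0 ∧ P.map (residue R) = 0 ∧
      a * aeval x Q = aeval x P := by
  constructor
  · intro haV
    by_cases ha0 : a = 0
    · exact ⟨0, 1, by rw [Polynomial.map_one]; exact one_ne_zero, Polynomial.map_zero _,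
        by rw [ha0, zero_mul, map_zero]⟩
    obtain ⟨w, hw⟩ := IsDiscreteValuationRing.exists_irreducible R
    obtain ⟨c, P, Q, -, hP, hQ, e⟩ := exists_normal_form_adjoin (E := E) hw x ha ha0
    have hc : algebraMap E L c ∈ V.nonunits := by
      have h1 : algebraMap E L c = aeval x Q * (aeval x P)⁻¹ * a := by
        rw [mul_comm _ a, ← mul_assoc, e, mul_assoc, mul_inv_cancel₀ (h.aeval_ne_zero hP),
          mul_one]
      rw [h1]
      exact mul_mem_nonunits (mul_mem (h.aeval_mem Q) (h.inv_aeval_mem hP)) haV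
    obtain ⟨r, hr, rfl⟩ := (h.isOver.const_mem_nonunits_iff c).mp hc
    refine ⟨C r * P, Q, hQ, ?_, ?_⟩
    · rw [Polynomial.map_mul, map_C, (residue_eq_zero_iff r).mpr hr, C_0, zero_mul]
    · rw [e, map_mul, aeval_C, ← IsScalarTower.algebraMap_apply]
  · rintro ⟨P, Q, hQ, hP, e⟩
    have h1 : a = (aeval x Q)⁻¹ * aeval x P := by
      rw [← e, mul_comm a, ← mul_assoc, inv_mul_cancel₀ (h.aeval_ne_zero hQ), one_mul]
    rw [h1]
    exact mul_mem_nonunits (h.inv_aeval_mem hQ) (h.aeval_mem_nonunits hP)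

/-- Two valuation subrings inducing the Gauss valuation agree on `E(x)`. -/
theorem IsGaussOver.mem_iff_mem {V' : ValuationSubring L} (h : IsGaussOver R V x)
    (h' : IsGaussOver R V' x) {a : L} (ha : a ∈ E⟮x⟯) : a ∈ V ↔ a ∈ V' := by
  rw [h.mem_iff (E := E) ha, h'.mem_iff (E := E) ha]

theorem IsGaussOver.mem_nonunits_iff_mem {V' : ValuationSubring L} (h : IsGaussOver R V x)
    (h' : IsGaussOver R V' x) {a : L} (ha : a ∈ E⟮x⟯) : a ∈ V.nonunits ↔ a ∈ V'.nonunits := by
  rw [h.mem_nonunits_iff (E := E) ha, h'.mem_nonunits_iff (E := E) ha]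

end Gauss

end Fermat.Agent.A2.H489

end
-- ===== PACK-END A2/H489/GaussFrameA.lean

-- ===== PACK-BEGIN A2/Mod/H900/L7Core.lean
section



/-!
# A2 / MOD leaf L7 (helper900): Fricke stability of the Gauss valuation, core

`L ⊇ ℚ` a field, `A` a valuation subring of `L`, `k` its residue field, `N` a level with
`S28.CoreData N k` (true when `char k ∤ N`), `F = laurentBaseChange L (F_N)`.

* `exists_decomp` : every `f ≠ 0` of `F` satisfies
  `f · G(j) = c · ∑ᵢ Hᵢ(j) yᵢ` with `G, Hᵢ ∈ A[X]` having a coefficient `1`, `c ∈ Lˣ`,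
  `yᵢ ∈ ℤ[j_d : d ∣ N]` the S28 monomials (refined form of `S18.H516.exists_gauss_decomp`);
* `isGaussInt_iff_of_decomp` : `f` is Gauss-integral iff `c ∈ A`.
-/

set_option autoImplicit false
set_option linter.unusedSectionVars false
set_option synthInstance.maxHeartbeats 400000
set_option maxHeartbeats 1600000

noncomputable section

namespace Fermat.Agent.A2.Mod.H900

open ModularCurve HahnSeries Polynomial IntermediateField Fermat.Agent.S28

section Generic

variable {L : Type} [Field L] [Algebra ℚ L] (A : ValuationSubring L)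
variable (N : ℕ) [NeZero N]

/-- the residue map of `A`. -/
abbrev resA : A →+* IsLocalRing.ResidueField A := IsLocalRing.residue A

/-- integer series in `L((t))`. -/
abbrev castL (L : Type) [Field L] : LaurentSeries ℤ →+* LaurentSeries L :=
  coeffMap (Int.castRingHom L)

/-- **Refined Gauss decomposition** along the S28 basis. -/
theorem exists_decomp (core : CoreData N (IsLocalRing.ResidueField A)) {f : LaurentSeries L}
    (hf : f ∈ laurentBaseChange L (modularFunctionFieldFull N)) (hf0 : f ≠ 0) :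
    ∃ (n : ℕ) (y : Fin n → LaurentSeries ℤ) (c : L) (G : A[X]) (H : Fin n → A[X]),
      (∀ i, y i ∈ Subring.closure (intDivisorExpansions N)) ∧
      LinearIndependent (jField (IsLocalRing.ResidueField A))
        (fun i => coeffMap (Int.castRingHom (IsLocalRing.ResidueField A)) (y i)) ∧
      c ≠ 0 ∧ (∃ m, G.coeff m = 1) ∧ (∃ i m, (H i).coeff m = 1) ∧
      f * S18.H516.evJ (G.map A.subtype) =
        HahnSeries.C c * ∑ i, S18.H516.evJ ((H i).map A.subtype) * castL L (y i) := by
  classical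
  obtain ⟨n, y, hy, hspan, hli⟩ := core.exists_basis
  have hS : S18.H516.SpansQ N y := ⟨hy, hspan⟩
  have hfs := (S18.H516.mem_baseChange_iff_mem_spanL L hS).mp hf
  obtain ⟨G, H, hG, hGH⟩ := S18.H516.exists_cleared L _ hfs
  have hGne : S18.H516.evJ G ≠ 0 := fun h => hG ((S18.H516.evJ_eq_zero_iff L).mp h)
  have hH : ∃ i, H i ≠ 0 := by
    by_contra hcon
    push Not at hcon
    have : S18.H516.evJ G * f = 0 := by
      rw [hGH]
      exact Finset.sum_eq_zero fun i _ => by rw [hcon i, S18.H516.evJ_zero, zero_mul]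
    rcases mul_eq_zero.mp this with h | h
    · exact hGne h
    · exact hf0 h
  obtain ⟨g0, G', hg0, hG', i1, m1, hG1⟩ :=
    S18.H516.exists_scale A (fun _ : Fin 1 => G) ⟨0, hG⟩
  obtain rfl : i1 = 0 := Subsingleton.elim _ _
  obtain ⟨h0, H', hh0, hH', i0, m0, hH1⟩ := S18.H516.exists_scale A H hH
  refine ⟨n, y, h0 * g0⁻¹, G' 0, H', hy, hli, mul_ne_zero hh0 (inv_ne_zero hg0), ⟨m1, hG1⟩,
    ⟨i0, m0, hH1⟩, ?_⟩
  have h1 : ∀ i, S18.H516.evJ ((H' i).map A.subtype) = HahnSeries.C h0⁻¹ * S18.H516.evJ (H i) := by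
    intro i
    rw [hH' i, S18.H516.evJ_mul, S18.H516.evJ_C]
  have h2 : S18.H516.evJ ((G' 0).map A.subtype) = HahnSeries.C g0⁻¹ * S18.H516.evJ G := by
    rw [hG' 0, S18.H516.evJ_mul, S18.H516.evJ_C]
  have h3 : ∑ i, S18.H516.evJ ((H' i).map A.subtype) * castL L (y i) =
      HahnSeries.C h0⁻¹ * (S18.H516.evJ G * f) := by
    rw [hGH, Finset.mul_sum]
    refine Finset.sum_congr rfl fun i _ => ?_
    rw [h1 i]
    ring
  rw [h2, h3, map_mul]
  have hC : HahnSeries.C (Γ := ℤ) h0 * HahnSeries.C h0⁻¹ = 1 := by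
    rw [← map_mul, mul_inv_cancel₀ hh0, map_one]
  calc f * (HahnSeries.C g0⁻¹ * S18.H516.evJ G)
      = (HahnSeries.C (Γ := ℤ) h0 * HahnSeries.C h0⁻¹) *
          (HahnSeries.C g0⁻¹ * (S18.H516.evJ G * f)) := by
        rw [hC]; ring
    _ = HahnSeries.C h0 * HahnSeries.C g0⁻¹ *
          (HahnSeries.C h0⁻¹ * (S18.H516.evJ G * f)) := by ring

/-- In a refined decomposition, `f` is Gauss-integral iff the constant is integral. -/
theorem isGaussInt_iff_of_decomp {n : ℕ} {y : Fin n → LaurentSeries ℤ} {c : L} {G : A[X]}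
    {H : Fin n → A[X]} {f : LaurentSeries L}
    (hli : LinearIndependent (jField (IsLocalRing.ResidueField A))
      (fun i => coeffMap (Int.castRingHom (IsLocalRing.ResidueField A)) (y i)))
    (hG : ∃ m, G.coeff m = 1) (hH : ∃ i m, (H i).coeff m = 1)
    (he : f * S18.H516.evJ (G.map A.subtype) =
      HahnSeries.C c * ∑ i, S18.H516.evJ ((H i).map A.subtype) * castL L (y i)) :
    H708.IsGaussInt A (modularFunctionFieldFull N) f ↔ c ∈ A := by
  classical
  set U₂ : LaurentSeries A := S18.H516.evJ G with hU₂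
  set U₁ : LaurentSeries A := ∑ i, S18.H516.evJ (H i) * H708.castA A (y i) with hU₁
  have hU₂L : H708.incl A U₂ = S18.H516.evJ (G.map A.subtype) := by
    rw [hU₂, H708.incl, S18.H516.coeffMap_evJ]
  have hU₁L : H708.incl A U₁ = ∑ i, S18.H516.evJ ((H i).map A.subtype) * castL L (y i) := by
    rw [hU₁, map_sum]
    refine Finset.sum_congr rfl fun i _ => ?_
    rw [map_mul, H708.incl, S18.H516.coeffMap_evJ, H708.castA, coeffMap_coeffMap,
      show (A.subtype.comp (Int.castRingHom A)) = Int.castRingHom L from RingHom.ext_int _ _]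
  have hU₂k : H708.red A U₂ = S18.H516.evJ (G.map (IsLocalRing.residue A)) := by
    rw [hU₂, H708.red, S18.H516.coeffMap_evJ]
  have hU₁k : H708.red A U₁ = ∑ i, S18.H516.evJ ((H i).map (IsLocalRing.residue A)) *
      coeffMap (Int.castRingHom (IsLocalRing.ResidueField A)) (y i) := by
    rw [hU₁, map_sum]
    refine Finset.sum_congr rfl fun i _ => ?_
    rw [map_mul, H708.red, S18.H516.coeffMap_evJ, H708.castA, coeffMap_coeffMap,
      show ((IsLocalRing.residue A).comp (Int.castRingHom A)) =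
        Int.castRingHom (IsLocalRing.ResidueField A) from RingHom.ext_int _ _]
  have h₂ : H708.red A U₂ ≠ 0 := by
    rw [hU₂k]
    intro h1
    obtain ⟨m1, hG1⟩ := hG
    have h2 := (S18.H516.evJ_eq_zero_iff _).mp h1
    have h3 := congrArg (fun P : (IsLocalRing.ResidueField A)[X] => P.coeff m1) h2
    simp only [Polynomial.coeff_map, Polynomial.coeff_zero, hG1, map_one] at h3
    exact one_ne_zero h3
  have h₁ : H708.red A U₁ ≠ 0 := by
    rw [hU₁k]
    intro h0'
    obtain ⟨i0, m0, hH1⟩ := hH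
    have hli' := Fintype.linearIndependent_iff.mp hli
      (fun i => (⟨S18.H516.evJ ((H i).map (IsLocalRing.residue A)),
        S18.H516.evJ_mem_jField _ _⟩ : jField (IsLocalRing.ResidueField A))) h0' i0
    have h1 : S18.H516.evJ ((H i0).map (IsLocalRing.residue A)) = 0 :=
      congrArg Subtype.val hli'
    have h2 := (S18.H516.evJ_eq_zero_iff _).mp h1
    have h3 := congrArg (fun P : (IsLocalRing.ResidueField A)[X] => P.coeff m0) h2
    simp only [Polynomial.coeff_map, Polynomial.coeff_zero, hH1, map_one] at h3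
    exact one_ne_zero h3
  have hm₂ : H708.incl A U₂ ∈ laurentBaseChange L (modularFunctionFieldFull N) := by
    rw [hU₂L]
    exact S18.H516.jField_le_baseChange L (S18.H516.evJ_mem_jField L _)
  have he' : f * H708.incl A U₂ = H708.cst c * H708.incl A U₁ := by
    rw [hU₂L, hU₁L, he, H708.cst, algebraMap_laurentSeries_eq_single, HahnSeries.C_apply]
  exact H708.isGaussInt_iff_of_normal_form h₁ h₂ hm₂ he'

end Generic

section Fricke

variable {L : Type} [Field L] [Algebra ℚ L] (A : ValuationSubring L)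
variable (N : ℕ) [NeZero N]

/-- `F_{N,L}`. -/
abbrev FL (L : Type) [Field L] [Algebra ℚ L] (N : ℕ) : IntermediateField L (LaurentSeries L) :=
  laurentBaseChange L (modularFunctionFieldFull N)

/-- the generator `j_d` of `F_{N,L}`. -/
def jL (L : Type) [Field L] [Algebra ℚ L] (N : ℕ) (d : ℕ) [NeZero d] (hd : d ∣ N) : FL L N :=
  ⟨coeffEmb L (qExpand ℚ d jq), coeffEmb_mem_laurentBaseChange L (jqd_mem_full N hd)⟩

theorem coe_jL (d : ℕ) [NeZero d] (hd : d ∣ N) :
    ((jL L N d hd : FL L N) : LaurentSeries L) = qExpand L d (jqModC L) := by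
  show coeffEmb L (qExpand ℚ d jq) = _
  rw [coeffEmb, coeffMap_qExpand, ← jqModC_rat, coeffMap_jqModC]

theorem castL_gen (d : ℕ) [NeZero d] :
    castL L (qExpand ℤ d (jqModC ℤ)) = qExpand L d (jqModC L) := by
  rw [castL, coeffMap_qExpand, coeffMap_jqModC]

/-- `W` is a Fricke involution on generators. -/
def FrickeOnGens (W : FL L N ≃ₐ[L] FL L N) : Prop :=
  ∀ (d d' : ℕ) [NeZero d] [NeZero d'] (hd : d ∣ N) (hd' : d' ∣ N), d * d' = N →
    W (jL L N d hd) = jL L N d' hd'

variable {N}

/-- the S28 monomials and their Fricke images are integer series. -/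
theorem exists_int_of_closure {W : FL L N ≃ₐ[L] FL L N} (hW : FrickeOnGens N W)
    {y : LaurentSeries ℤ} (hy : y ∈ Subring.closure (intDivisorExpansions N)) :
    ∃ (g : FL L N) (y' : LaurentSeries ℤ), (g : LaurentSeries L) = castL L y ∧
      ((W g : FL L N) : LaurentSeries L) = castL L y' := by
  induction hy using Subring.closure_induction with
  | mem x hx =>
    obtain ⟨d, hd, hdN, rfl⟩ := hx
    have hN : N ≠ 0 := NeZero.ne N
    have hd0 : N / d ≠ 0 := by
      intro h
      rcases (Nat.div_eq_zero_iff).mp h with h1 | h1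
      · exact (NeZero.ne d) h1
      · exact absurd (Nat.le_of_dvd (Nat.pos_of_ne_zero hN) hdN) (not_le.mpr h1)
    have : NeZero (N / d) := ⟨hd0⟩
    refine ⟨jL L N d hdN, qExpand ℤ (N / d) (jqModC ℤ), ?_, ?_⟩
    · rw [coe_jL, castL_gen]
    · rw [hW d (N / d) hdN (Nat.div_dvd_of_dvd hdN) (Nat.mul_div_cancel' hdN), coe_jL, castL_gen]
  | zero => exact ⟨0, 0, by simp, by simp⟩
  | one => exact ⟨1, 1, by simp, by simp⟩
  | add x y _ _ hx hy =>
    obtain ⟨g, y', h1, h2⟩ := hx
    obtain ⟨g', y'', h1', h2'⟩ := hy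
    exact ⟨g + g', y' + y'', by rw [IntermediateField.coe_add, h1, h1', map_add],
      by rw [map_add, IntermediateField.coe_add, h2, h2', map_add]⟩
  | neg x _ hx =>
    obtain ⟨g, y', h1, h2⟩ := hx
    exact ⟨-g, -y', by rw [IntermediateField.coe_neg, h1, map_neg],
      by rw [map_neg, IntermediateField.coe_neg, h2, map_neg]⟩
  | mul x y _ _ hx hy =>
    obtain ⟨g, y', h1, h2⟩ := hx
    obtain ⟨g', y'', h1', h2'⟩ := hy
    exact ⟨g * g', y' * y'', by rw [IntermediateField.coe_mul, h1, h1', map_mul],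
      by rw [map_mul, IntermediateField.coe_mul, h2, h2', map_mul]⟩

/-- evaluation of a polynomial at `j = j_1` inside `F_{N,L}`: its series is `evJ`. -/
theorem coe_aeval_jL (Q : L[X]) :
    ((aeval (jL L N 1 (one_dvd N)) Q : FL L N) : LaurentSeries L) = S18.H516.evJ Q := by
  have h := Polynomial.aeval_algHom_apply (FL L N).val (jL L N 1 (one_dvd N)) Q
  have h1 : (FL L N).val (jL L N 1 (one_dvd N)) = jqModC L := by
    show ((jL L N 1 (one_dvd N) : FL L N) : LaurentSeries L) = _
    rw [coe_jL, qExpand_one_apply]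
  rw [h1] at h
  show (FL L N).val (aeval (jL L N 1 (one_dvd N)) Q) = _
  rw [← h, S18.H516.aeval_eq_evJ]

/-- evaluation of a polynomial at `j_N` inside `F_{N,L}`: its series is `qExpand N ∘ evJ`. -/
theorem coe_aeval_jL_top (Q : L[X]) :
    ((aeval (jL L N N dvd_rfl) Q : FL L N) : LaurentSeries L) =
      qExpand L N (S18.H516.evJ Q) := by
  have h := Polynomial.aeval_algHom_apply (FL L N).val (jL L N N dvd_rfl) Q
  have h1 : (FL L N).val (jL L N N dvd_rfl) = qExpandAlgHomC L N (jqModC L) := by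
    show ((jL L N N dvd_rfl : FL L N) : LaurentSeries L) = _
    rw [coe_jL, qExpandAlgHomC_apply]
  rw [h1, Polynomial.aeval_algHom_apply] at h
  show (FL L N).val (aeval (jL L N N dvd_rfl) Q) = _
  rw [← h, qExpandAlgHomC_apply, S18.H516.aeval_eq_evJ]

/-- **L7, core form.**  If `W` is an `L`-automorphism of `F_{N,L}` with `W j_d = j_{N/d}` and
`S28.CoreData N k` holds for the residue field `k` of `A`, then `W` preserves Gauss-integrality. -/
theorem frickeStable_core (core : CoreData N (IsLocalRing.ResidueField A))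
    {W : FL L N ≃ₐ[L] FL L N} (hW : FrickeOnGens N W) (f : FL L N)
    (hf : H708.IsGaussInt A (modularFunctionFieldFull N) (f : LaurentSeries L)) :
    H708.IsGaussInt A (modularFunctionFieldFull N) ((W f : FL L N) : LaurentSeries L) := by
  classical
  by_cases hf0 : f = 0
  · rw [hf0, map_zero]
    exact H708.IsGaussInt.zero
  have hf0' : (f : LaurentSeries L) ≠ 0 := fun h => hf0 (Subtype.ext h)
  obtain ⟨n, y, c, G, H, hy, hli, hc, hG, hH, he⟩ := exists_decomp A N core f.2 hf0'
  have hcA : c ∈ A := (isGaussInt_iff_of_decomp A N hli hG hH he).mp hf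
  -- the monomials inside `F`
  have hY : ∀ i, ∃ (g : FL L N) (y' : LaurentSeries ℤ), (g : LaurentSeries L) = castL L (y i) ∧
      ((W g : FL L N) : LaurentSeries L) = castL L y' := fun i => exists_int_of_closure hW (hy i)
  choose Y y' hY1 hY2 using hY
  -- the equation inside `F`
  have heF : f * aeval (jL L N 1 (one_dvd N)) (G.map A.subtype) =
      algebraMap L (FL L N) c *
        ∑ i, aeval (jL L N 1 (one_dvd N)) ((H i).map A.subtype) * Y i := by
    apply Subtype.ext
    rw [IntermediateField.coe_mul, IntermediateField.coe_mul, coe_aeval_jL, he,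
      IntermediateField.coe_sum]
    congr 1
    · show HahnSeries.C c = algebraMap L (LaurentSeries L) c
      rw [algebraMap_laurentSeries_eq_single, HahnSeries.C_apply]
    · refine Finset.sum_congr rfl fun i _ => ?_
      rw [IntermediateField.coe_mul, coe_aeval_jL, hY1 i]
  have hWj : W (jL L N 1 (one_dvd N)) = jL L N N dvd_rfl :=
    hW 1 N (one_dvd N) dvd_rfl (one_mul N)
  have hWaeval : ∀ Q : L[X], W (aeval (jL L N 1 (one_dvd N)) Q) = aeval (jL L N N dvd_rfl) Q := by
    intro Q
    have := Polynomial.aeval_algHom_apply (W : FL L N →ₐ[L] FL L N) (jL L N 1 (one_dvd N)) Q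
    rw [AlgEquiv.coe_toAlgHom, hWj] at this
    exact this.symm
  have heW := congrArg W heF
  rw [map_mul, map_mul, AlgEquiv.commutes, map_sum, hWaeval] at heW
  have heW' : ((W f : FL L N) : LaurentSeries L) *
      qExpand L N (S18.H516.evJ (G.map A.subtype)) =
      HahnSeries.C c * ∑ i, qExpand L N (S18.H516.evJ ((H i).map A.subtype)) * castL L (y' i) := by
    have h := congrArg (fun z : FL L N => (z : LaurentSeries L)) heW
    simp only [IntermediateField.coe_mul, IntermediateField.coe_sum] at h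
    rw [coe_aeval_jL_top] at h
    rw [h]
    congr 1
    · show algebraMap L (LaurentSeries L) c = HahnSeries.C c
      rw [algebraMap_laurentSeries_eq_single, HahnSeries.C_apply]
    · refine Finset.sum_congr rfl fun i _ => ?_
      rw [map_mul, hWaeval, IntermediateField.coe_mul, coe_aeval_jL_top, hY2 i]
  -- the integral model of `W f`
  set U₂ : LaurentSeries A := qExpand A N (S18.H516.evJ G) with hU₂
  set U₁ : LaurentSeries A := H708.cstA A ⟨c, hcA⟩ *
    ∑ i, qExpand A N (S18.H516.evJ (H i)) * H708.castA A (y' i) with hU₁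
  have hU₂L : H708.incl A U₂ = qExpand L N (S18.H516.evJ (G.map A.subtype)) := by
    rw [hU₂, H708.incl, coeffMap_qExpand, S18.H516.coeffMap_evJ]
  have hU₁L : H708.incl A U₁ =
      HahnSeries.C c * ∑ i, qExpand L N (S18.H516.evJ ((H i).map A.subtype)) * castL L (y' i) := by
    rw [hU₁, map_mul, H708.incl_cstA, H708.cst, algebraMap_laurentSeries_eq_single,
      HahnSeries.C_apply, map_sum]
    congr 1
    refine Finset.sum_congr rfl fun i _ => ?_
    rw [map_mul, H708.incl, coeffMap_qExpand, S18.H516.coeffMap_evJ, H708.castA,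
      coeffMap_coeffMap,
      show (A.subtype.comp (Int.castRingHom A)) = Int.castRingHom L from RingHom.ext_int _ _]
  refine ⟨U₁, U₂, ?_, ?_, ?_⟩
  · rw [hU₂, H708.red, coeffMap_qExpand, S18.H516.coeffMap_evJ]
    intro h1
    have h1' : S18.H516.evJ (G.map (IsLocalRing.residue A)) = 0 :=
      qExpand_injective N (by rw [h1, map_zero])
    obtain ⟨m1, hG1⟩ := hG
    have h2 := (S18.H516.evJ_eq_zero_iff _).mp h1'
    have h3 := congrArg (fun P : (IsLocalRing.ResidueField A)[X] => P.coeff m1) h2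
    simp only [Polynomial.coeff_map, Polynomial.coeff_zero, hG1, map_one] at h3
    exact one_ne_zero h3
  · rw [hU₂L, ← coe_aeval_jL_top]
    exact (aeval (jL L N N dvd_rfl) (G.map A.subtype) : FL L N).2
  · rw [hU₂L, hU₁L, heW']

end Fricke

end Fermat.Agent.A2.Mod.H900

end
end
-- ===== PACK-END A2/Mod/H900/L7Core.lean

-- ===== PACK-BEGIN A2/T1/H669/T1.lean
section





/-!
# WALL A2, piece T1 (helper669): assembly `ALG + MOD + IF ⇒ KummerTarget`

`t1 : T1Statement` (interface v2 of `Fermat/Agent/A2/{Spec,ModDefs}.lean`, helper13):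
`AlgSSStatement → IFStatement → ModSSStatement → KummerTarget N q m`.

Proof: descend `f` to a finite level `E₀` (`S18.H602.exists_finite_descent`), enlarge to a good
level `E` (IF), translate `m ∣ div f` on `F̄` into `DivisibleDiv E m y` (T2), apply ALG to the
semistable model (MOD) with `τ := arithmeticRingAut (res τ)`, push the result to `F̄` by `iota`.
-/

set_option autoImplicit false
set_option synthInstance.maxHeartbeats 400000
set_option maxHeartbeats 1600000

noncomputable section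

namespace Fermat.Agent.A2.T1.H669

open ModularCurve AlgebraicCurve Fermat.Agent.A2

/-- The restriction of an element of the decomposition group to `R_E`. -/
def resR {P : ValuationSubring _root_.Fermat.Agent.A2.T1.H669.Qb} {E : IntermediateField ℚ _root_.Fermat.Agent.A2.T1.H669.Qb} (hE : GoodField P E)
    (τ : _root_.Fermat.Agent.A2.T1.H669.Qb ≃ₐ[ℚ] _root_.Fermat.Agent.A2.T1.H669.Qb) (hτ : τ ∈ P.inertiaSubgroupIn ℚ) : ↥(RE P E) ≃+* ↥(RE P E) where
  toFun r := ⟨hE.res τ hτ (r : E), by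
    have hd := Fermat.Agent.A2.H708.mem_decomposition_of_mem_inertiaIn P hτ
    show ((hE.res τ hτ (r : E) : E) : _root_.Fermat.Agent.A2.T1.H669.Qb) ∈ P
    exact Fermat.Agent.A2.H708.apply_mem_of_mem_decomposition P hd r.2⟩
  invFun r := ⟨(hE.res τ hτ).symm (r : E), by
    have hd := Fermat.Agent.A2.H708.mem_decomposition_of_mem_inertiaIn P hτ
    show (((hE.res τ hτ).symm (r : E) : E) : _root_.Fermat.Agent.A2.T1.H669.Qb) ∈ P
    have h1 : τ (((hE.res τ hτ).symm (r : E) : E) : _root_.Fermat.Agent.A2.T1.H669.Qb) = ((r : E) : _root_.Fermat.Agent.A2.T1.H669.Qb) := by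
      have := (hE.res τ hτ).apply_symm_apply (r : E)
      exact congrArg (fun z : E => (z : _root_.Fermat.Agent.A2.T1.H669.Qb)) this
    refine Fermat.Agent.A2.H708.mem_of_apply_mem_of_mem_decomposition P hd ?_
    rw [h1]; exact r.2⟩
  left_inv r := Subtype.ext ((hE.res τ hτ).symm_apply_apply (r : E))
  right_inv r := Subtype.ext ((hE.res τ hτ).apply_symm_apply (r : E))
  map_mul' a b := Subtype.ext (map_mul (hE.res τ hτ) (a : E) (b : E))
  map_add' a b := Subtype.ext (map_add (hE.res τ hτ) (a : E) (b : E))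

theorem natCast_mem_maximalIdeal_RE {P : ValuationSubring _root_.Fermat.Agent.A2.T1.H669.Qb} (E : IntermediateField ℚ _root_.Fermat.Agent.A2.T1.H669.Qb)
    {q : ℕ} (hP : P.LiesOverPrime q) :
    ((q : ℕ) : ↥(RE P E)) ∈ IsLocalRing.maximalIdeal ↥(RE P E) := by
  rw [IsLocalRing.mem_maximalIdeal, mem_nonunits_iff]
  intro hu
  obtain ⟨u, hu⟩ := hu
  have h1 : ((q : ℕ) : ↥(RE P E)) * ((u⁻¹ : (↥(RE P E))ˣ) : ↥(RE P E)) = 1 := by
    rw [← hu]; exact u.mul_inv
  have h2 : ((q : ℕ) : _root_.Fermat.Agent.A2.T1.H669.Qb) * (((((u⁻¹ : (↥(RE P E))ˣ) : ↥(RE P E)) : E) : _root_.Fermat.Agent.A2.T1.H669.Qb)) = 1 := by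
    have := congrArg (fun z : ↥(RE P E) => (((z : E)) : _root_.Fermat.Agent.A2.T1.H669.Qb)) h1
    simpa using this
  have hmem : (((((u⁻¹ : (↥(RE P E))ˣ) : ↥(RE P E)) : E) : _root_.Fermat.Agent.A2.T1.H669.Qb)) ∈ P :=
    ((u⁻¹ : (↥(RE P E))ˣ) : ↥(RE P E)).2
  have hq0 : ((q : ℕ) : _root_.Fermat.Agent.A2.T1.H669.Qb) ≠ 0 := left_ne_zero_of_mul_eq_one h2
  have hval : P.valuation ((q : ℕ) : _root_.Fermat.Agent.A2.T1.H669.Qb) < 1 :=
    (ValuationSubring.mem_nonunits_iff P).1 hP
  have hval2 : P.valuation (((((u⁻¹ : (↥(RE P E))ˣ) : ↥(RE P E)) : E) : _root_.Fermat.Agent.A2.T1.H669.Qb)) ≤ 1 :=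
    (ValuationSubring.valuation_le_one_iff P _).2 hmem
  have : P.valuation (1 : _root_.Fermat.Agent.A2.T1.H669.Qb) < 1 := by
    rw [← h2, map_mul]
    calc P.valuation ((q : ℕ) : _root_.Fermat.Agent.A2.T1.H669.Qb) * P.valuation _
        ≤ P.valuation ((q : ℕ) : _root_.Fermat.Agent.A2.T1.H669.Qb) * 1 := by gcongr
      _ < 1 := by rwa [mul_one]
  rw [map_one] at this
  exact lt_irrefl _ this

/-- Iterates of the restriction of `τ` to a stable level. -/
theorem coe_res_iterate {P : ValuationSubring _root_.Fermat.Agent.A2.T1.H669.Qb} {E : IntermediateField ℚ _root_.Fermat.Agent.A2.T1.H669.Qb}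
    (hE : GoodField P E) (τ : _root_.Fermat.Agent.A2.T1.H669.Qb ≃ₐ[ℚ] _root_.Fermat.Agent.A2.T1.H669.Qb) (hτ : τ ∈ P.inertiaSubgroupIn ℚ) (k : ℕ) (e : E) :
    (((⇑(hE.res τ hτ))^[k] e : E) : _root_.Fermat.Agent.A2.T1.H669.Qb) = (⇑τ)^[k] (e : _root_.Fermat.Agent.A2.T1.H669.Qb) := by
  induction k with
  | zero => rfl
  | succ k ih =>
      rw [Function.iterate_succ_apply', Function.iterate_succ_apply', ← ih]
      rfl

/-- Coefficients of the iterates of the arithmetic action. -/
theorem coeff_arithmeticRingAut_iterate (F₀ : IntermediateField ℚ (LaurentSeries ℚ))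
    {E : IntermediateField ℚ _root_.Fermat.Agent.A2.T1.H669.Qb} (σ : E ≃ₐ[ℚ] E) (k : ℕ) (f : ↥(laurentBaseChange E F₀))
    (n : ℤ) :
    (((⇑(arithmeticRingAut F₀ σ))^[k] f : ↥(laurentBaseChange E F₀)) :
        LaurentSeries E).coeff n = (⇑σ)^[k] ((f : LaurentSeries E).coeff n) := by
  induction k with
  | zero => rfl
  | succ k ih =>
      rw [Function.iterate_succ_apply', Function.iterate_succ_apply', ← ih]
      rfl

/-- The arithmetic action of an inertia element on a good level has finite order. -/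
theorem finite_order_arithmeticRingAut (F₀ : IntermediateField ℚ (LaurentSeries ℚ))
    {P : ValuationSubring _root_.Fermat.Agent.A2.T1.H669.Qb} {E : IntermediateField ℚ _root_.Fermat.Agent.A2.T1.H669.Qb}
    (hE : GoodField P E) (τ : _root_.Fermat.Agent.A2.T1.H669.Qb ≃ₐ[ℚ] _root_.Fermat.Agent.A2.T1.H669.Qb) (hτ : τ ∈ P.inertiaSubgroupIn ℚ) :
    ∃ r : ℕ, 0 < r ∧ ∀ f : ↥(laurentBaseChange E F₀),
      (⇑(arithmeticRingAut F₀ (hE.res τ hτ)))^[r] f = f := by
  obtain ⟨r, hr0, hr⟩ := hE.finite_order τ hτ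
  refine ⟨r, hr0, fun f => Subtype.ext (HahnSeries.ext (funext fun n => ?_))⟩
  rw [coeff_arithmeticRingAut_iterate]
  apply Subtype.ext
  rw [coe_res_iterate]
  exact hr _ (SetLike.coe_mem _)

/-- **T1** (interface v2): `ALG + IF + MOD ⟹ KummerTarget`. -/
theorem t1 : T1Statement := by
  intro hALG hIF hMOD N q m hq hqN hq2 hN hm hqm P hP τ hτ f hf hdiv
  refine kummer_of_levels (modularFunctionFieldFull N) m τ (fun S => ?_) f hf hdiv
  -- a good level containing `S`
  obtain ⟨E, hSE, hE⟩ := hIF q hq P hP S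
  refine ⟨E, hSE, hE.res τ hτ, fun e => rfl, fun y hy0 hdd => ?_⟩
  -- the model
  obtain ⟨D⟩ := hMOD P E N q hq hqN hq2 hN hP hE
  haveI : IsDiscreteValuationRing ↥(RE P E) := hE.dvr
  haveI : HenselianLocalRing ↥(RE P E) := hE.henselian
  haveI : IsAlgClosed (IsLocalRing.ResidueField ↥(RE P E)) := hE.algClosed
  obtain ⟨w, hw⟩ := IsDiscreteValuationRing.exists_irreducible ↥(RE P E)
  obtain ⟨cf⟩ := D.cf w hw
  obtain ⟨ci⟩ := D.ci w hw
  -- ALG
  have hconcl : AlgSSConclusion E m
      (arithmeticRingAut (modularFunctionFieldFull N) (hE.res τ hτ)) :=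
    hALG (R := ↥(RE P E)) (E := E) (F := ↥(FE E N)) w hw q m hq
      (natCast_mem_maximalIdeal_RE E hP) hm hqm D.x D.hx D.hfin D.hconst D.Bf D.Bi D.hBf D.hBi
      cf ci D.sf D.si
      (arithmeticRingAut (modularFunctionFieldFull N) (hE.res τ hτ))
      (hE.res τ hτ).toRingEquiv (resR hE τ hτ)
      (fun e => arithmeticRingAut_algebraMap (modularFunctionFieldFull N) (hE.res τ hτ) e)
      (fun r => rfl)
      (D.hτx hE τ hτ)
      (finite_order_arithmeticRingAut (modularFunctionFieldFull N) hE τ hτ)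
      (D.hτf hE τ hτ w hw) (D.hτi hE τ hτ w hw)
  exact hconcl y hy0 hdd

end Fermat.Agent.A2.T1.H669

end
end
-- ===== PACK-END A2/T1/H669/T1.lean

-- ===== PACK-BEGIN A2/Mod/H732/SepCoord.lean
section




/-!
# A2 / MOD, piece S4 (SepCoord producer), part 4 (helper732): `Spec.SepCoord` VERBATIM

Context of `AlgSSStatement` (`R` a DVR with uniformiser `w`, `E = Frac R`, `F / E(x)` finite,
`x` transcendental, `B` = integral closure of `R[x]` in `F`).  Hypotheses = the elementwise
`H48.GaussPairLe` data for the coordinate `x` (two valuation rings `V₁ ≠ V₂` of `F` with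
uniformiser `w`, containing `R[x]`, Gauss property, residue-independent families `b`, `c` with
`[F : E(x)] ≤ f₁ + f₂`) + separability of both residue extensions (liftable elementwise form).
Conclusion: `SepCoord R E x B`.

* `polyToAdjoin`, `isFractionRing_adjoin` : `E(x) = IntermediateField.adjoin E {x}` is the
  fraction field of `R[X]` (`X ↦ x`);
* `sepCoord_of_gauss` : the theorem.
-/

set_option autoImplicit false
set_option linter.style.haveILetI false
set_option linter.unusedSectionVars false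

noncomputable section

namespace Fermat.Agent.A2.Mod.H732

open Polynomial Fermat.Agent.A2.H48

section Frac

variable {R E F : Type*} [CommRing R] [IsDomain R]
  [Field E] [Algebra R E] [IsFractionRing R E]
  [Field F] [Algebra E F] [Algebra R F] [IsScalarTower R E F]

theorem aeval_mem_adjoin_simple (x : F) (P : R[X]) :
    aeval x P ∈ IntermediateField.adjoin E ({x} : Set F) := by
  have h1 : aeval x P = aeval x (P.map (algebraMap R E)) := (aeval_map_algebraMap E x P).symm
  rw [h1, IntermediateField.mem_adjoin_simple_iff]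
  exact ⟨P.map (algebraMap R E), 1, by simp⟩

/-- `R[X] → E(x)`, `X ↦ x`. -/
def polyToAdjoin (x : F) : R[X] →+* IntermediateField.adjoin E ({x} : Set F) where
  toFun P := ⟨aeval x P, aeval_mem_adjoin_simple x P⟩
  map_one' := Subtype.ext (map_one _)
  map_mul' P Q := Subtype.ext (map_mul _ P Q)
  map_zero' := Subtype.ext (map_zero _)
  map_add' P Q := Subtype.ext (map_add _ P Q)

theorem coe_polyToAdjoin (x : F) (P : R[X]) :
    ((polyToAdjoin (E := E) x P : IntermediateField.adjoin E ({x} : Set F)) : F) = aeval x P :=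
  rfl

theorem transcendental_of_tower {x : F} (hx : Transcendental E x) : Transcendental R x := by
  intro halg
  obtain ⟨P, hP0, hP⟩ := halg
  apply hx
  refine ⟨P.map (algebraMap R E), ?_, ?_⟩
  · rwa [Ne, Polynomial.map_eq_zero_iff (IsFractionRing.injective R E)]
  · rw [aeval_map_algebraMap]; exact hP

theorem polyToAdjoin_injective {x : F} (hx : Transcendental E x) :
    Function.Injective (polyToAdjoin (R := R) (E := E) x) := by
  rw [injective_iff_map_eq_zero]
  intro P hP
  have h : aeval x P = 0 := congrArg Subtype.val hP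
  exact transcendental_iff.1 (transcendental_of_tower hx) P h

/-- `E(x)` is the fraction field of `R[X]`. -/
theorem isFractionRing_adjoin {x : F} (hx : Transcendental E x) :
    letI : Algebra R[X] (IntermediateField.adjoin E ({x} : Set F)) :=
      (polyToAdjoin (E := E) x).toAlgebra
    IsFractionRing R[X] (IntermediateField.adjoin E ({x} : Set F)) := by
  letI : Algebra R[X] (IntermediateField.adjoin E ({x} : Set F)) :=
    (polyToAdjoin (E := E) x).toAlgebra
  haveI : FaithfulSMul R[X] (IntermediateField.adjoin E ({x} : Set F)) :=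
    (faithfulSMul_iff_algebraMap_injective _ _).2 (polyToAdjoin_injective hx)
  apply IsFractionRing.of_field
  intro z
  obtain ⟨r, s, hz⟩ := (IntermediateField.mem_adjoin_simple_iff E (z : F)).1 z.2
  obtain ⟨br, hbrM, hbr⟩ := IsLocalization.integerNormalization_spec (nonZeroDivisors R) r
  obtain ⟨bs, hbsM, hbs⟩ := IsLocalization.integerNormalization_spec (nonZeroDivisors R) s
  set r' := IsLocalization.integerNormalization (nonZeroDivisors R) r with hr'
  set s' := IsLocalization.integerNormalization (nonZeroDivisors R) s with hs'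
  have hb0 : ∀ b ∈ nonZeroDivisors R, algebraMap R F b ≠ 0 := by
    intro b hb
    rw [IsScalarTower.algebraMap_apply R E F]
    exact (_root_.map_ne_zero _).2
      ((map_ne_zero_iff _ (IsFractionRing.injective R E)).2 (nonZeroDivisors.ne_zero hb))
  have hbr0 := hb0 br hbrM
  have hbs0 := hb0 bs hbsM
  have hsm : ∀ (b : R) (t : E[X]), aeval x (b • t) = algebraMap R F b * aeval x t := by
    intro b t
    have e1 : b • t = C (algebraMap R E b) * t := by
      rw [← smul_eq_C_mul, algebraMap_smul]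
    rw [e1, map_mul, aeval_C, ← IsScalarTower.algebraMap_apply]
  have hr1 : aeval x r' = algebraMap R F br * aeval x r := by
    rw [← aeval_map_algebraMap E x r', hbr, hsm]
  have hs1 : aeval x s' = algebraMap R F bs * aeval x s := by
    rw [← aeval_map_algebraMap E x s', hbs, hsm]
  refine ⟨C bs * r', C br * s', Subtype.ext ?_⟩
  show (z : F) = _
  rw [IntermediateField.coe_div]
  show (z : F) = aeval x (C bs * r') / aeval x (C br * s')
  rw [map_mul, map_mul, aeval_C, aeval_C, hr1, hs1, hz]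
  by_cases hs0 : aeval x s = 0
  · rw [hs0]; simp
  · field_simp

end Frac

section Main

variable {R E F : Type*} [CommRing R] [IsDomain R] [IsDiscreteValuationRing R]
  [Field E] [Algebra R E] [IsFractionRing R E]
  [Field F] [Algebra E F] [Algebra R F] [IsScalarTower R E F]

/-- `C w ∣ d` iff `d` vanishes modulo the maximal ideal. -/
theorem C_dvd_of_map_residue_eq_zero {w : R} (hw : Irreducible w) {d : R[X]}
    (hd : d.map (IsLocalRing.residue R) = 0) : C w ∣ d := by
  rw [Polynomial.C_dvd_iff_dvd_coeff]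
  intro i
  have h1 : IsLocalRing.residue R (d.coeff i) = 0 := by
    have := congrArg (fun q => q.coeff i) hd
    simpa using this
  have h2 : d.coeff i ∈ IsLocalRing.maximalIdeal R := (IsLocalRing.residue_eq_zero_iff _).1 h1
  rw [hw.maximalIdeal_eq, Ideal.mem_span_singleton] at h2
  exact h2

/-- **`SepCoord` from the two Gauss valuations with separable residue fields.** -/
theorem sepCoord_of_gauss
    (w : R) (hw : Irreducible w) (x : F) (hx : Transcendental E x)
    (hfin : FiniteDimensional (IntermediateField.adjoin E ({x} : Set F)) F)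
    (B : Subalgebra R F)
    (hB : ∀ f : F, IsIntegral (Algebra.adjoin R ({x} : Set F)) f → f ∈ B)
    (V₁ V₂ : ValuationSubring F) (hne : V₁ ≠ V₂)
    (hu₁ : IsUnif V₁ (algebraMap R F w)) (hu₂ : IsUnif V₂ (algebraMap R F w))
    (hp₁ : ∀ P : R[X], aeval x P ∈ V₁) (hp₂ : ∀ P : R[X], aeval x P ∈ V₂)
    (hg₁ : ∀ P : R[X], ¬ C w ∣ P → (aeval x P)⁻¹ ∈ V₁)
    (hg₂ : ∀ P : R[X], ¬ C w ∣ P → (aeval x P)⁻¹ ∈ V₂)
    {f₁ f₂ : ℕ} (b : Fin f₁ → F) (c : Fin f₂ → F)
    (hb : ∀ i, b i ∈ V₁) (hc : ∀ j, c j ∈ V₂)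
    (hbi : ∀ a : Fin f₁ → R[X],
      (∑ i, aeval x (a i) * b i) * (algebraMap R F w)⁻¹ ∈ V₁ → ∀ i, C w ∣ a i)
    (hci : ∀ a : Fin f₂ → R[X],
      (∑ j, aeval x (a j) * c j) * (algebraMap R F w)⁻¹ ∈ V₂ → ∀ j, C w ∣ a j)
    (hdeg : Module.finrank (IntermediateField.adjoin E ({x} : Set F)) F ≤ f₁ + f₂)
    (hs₁ : ∀ f : F, f ∈ V₁ → f ∈ V₂ → ∃ Q : R[X][X],
        V₁.valuation (Q.eval₂ ((aeval x : R[X] →ₐ[R] F) : R[X] →+* F) f) < 1 ∧
        V₁.valuation ((derivative Q).eval₂ ((aeval x : R[X] →ₐ[R] F) : R[X] →+* F) f) = 1)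
    (hs₂ : ∀ f : F, f ∈ V₁ → f ∈ V₂ → ∃ Q : R[X][X],
        V₂.valuation (Q.eval₂ ((aeval x : R[X] →ₐ[R] F) : R[X] →+* F) f) < 1 ∧
        V₂.valuation ((derivative Q).eval₂ ((aeval x : R[X] →ₐ[R] F) : R[X] →+* F) f) = 1) :
    SepCoord R E x B := by
  classical
  letI algF : Algebra R[X] F := ((aeval x : R[X] →ₐ[R] F) : R[X] →+* F).toAlgebra
  letI algK : Algebra R[X] (IntermediateField.adjoin E ({x} : Set F)) :=
    (polyToAdjoin (E := E) x).toAlgebra
  haveI : IsScalarTower R[X] (IntermediateField.adjoin E ({x} : Set F)) F :=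
    IsScalarTower.of_algebraMap_eq (fun P => rfl)
  haveI : IsFractionRing R[X] (IntermediateField.adjoin E ({x} : Set F)) :=
    isFractionRing_adjoin hx
  haveI := hfin
  have hmap : ∀ P : R[X], algebraMap R[X] F P = aeval x P := fun P => rfl
  have hC : algebraMap R[X] F (C w) = algebraMap R F w := by rw [hmap, aeval_C]
  have G : GaussPairLe (K := IntermediateField.adjoin E ({x} : Set F)) w V₁ V₂ b c :=
    { prime := hw.prime
      unif₁ := by rw [hC]; exact hu₁
      unif₂ := by rw [hC]; exact hu₂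
      poly₁ := hp₁
      poly₂ := hp₂
      gauss₁ := hg₁
      gauss₂ := hg₂
      ne := hne
      b_mem := hb
      c_mem := hc
      b_indep := fun a ha => hbi a (by rw [← hC]; exact ha)
      c_indep := fun a ha => hci a (by rw [← hC]; exact ha)
      le := hdeg }
  obtain ⟨y, hyint, hyli, d, hd, hdd⟩ := exists_integral_basis_discr G.gaussPair hs₁ hs₂
  refine ⟨f₁ + f₂, y, fun i => hB _ ?_, hyli, G.card, d, fun h0 => hd ?_, ?_⟩
  · obtain ⟨q, hqm, hq⟩ := hyint i
    let θ : R[X] →+* Algebra.adjoin R ({x} : Set F) :=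
      { toFun := fun P => ⟨aeval x P, aeval_mem_adjoin_singleton R x⟩
        map_one' := Subtype.ext (map_one _)
        map_mul' := fun P Q => Subtype.ext (map_mul _ P Q)
        map_zero' := Subtype.ext (map_zero _)
        map_add' := fun P Q => Subtype.ext (map_add _ P Q) }
    refine ⟨q.map θ, hqm.map θ, ?_⟩
    rw [eval₂_map]
    exact hq
  · exact C_dvd_of_map_residue_eq_zero hw h0
  · rw [← hdd]
    rfl

end Main

end Fermat.Agent.A2.Mod.H732

end
end
-- ===== PACK-END A2/Mod/H732/SepCoord.lean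

-- ===== PACK-BEGIN S28/Theta/Main.lean
section
/-
S28 / (A-θ): the formal identity `(θ j)⁶ = Δ · j⁴ · (j - 1728)³` in `ℤ((q))`.

Analytic input: `Theta/Bracket.lean` (Rankin–Cohen bracket of `Δ` and `E₄`, Sturm bound) and
Mathlib's `Δ = (E₄³ - E₆²)/1728`; bridges to the formal series of the Prelude from
`H685` (helper685); Leibniz rule for `θ` from `H88/Theta.lean` (helper88).
-/






set_option autoImplicit false

open UpperHalfPlane hiding I
open Complex Filter Function Topology
open scoped Real Manifold MatrixGroups ModularForm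
open Derivative ModularForm ModularCurve HahnSeries

noncomputable section

namespace Fermat.Agent.S28

local notation "𝕢" => Periodic.qParam
local notation "Δ" => ModularForm.discriminant

/-! ### Bridges -/

lemma th327_qExpansion_Δ :
    qExpansion 1 Δ = PowerSeries.X * H685.dedekindEtaUnitC := by
  have h1 : H685.HasQExp 1 Δ (PowerSeries.X * H685.dedekindEtaUnitC) :=
    (H685.HasQExp.X.mul H685.hasQExp_dedekindEtaUnitC).congr_fun
      fun τ => (H685.discriminant_eq_etaC τ).symm
  have h2 : H685.HasQExp 1 Δ (qExpansion 1 Δ) := fun τ => by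
    have := th327_good_Δ.hasSum τ
    simpa [smul_eq_mul] using this
  exact H685.HasQExp.unique one_pos h2 h1

lemma th327_qExpansion_E₄ :
    qExpansion 1 E₄ = eisenstein4.map (Int.castRingHom ℂ) := H685.qExpansion_E4_eq

/-! ### `θ` on power series versus Laurent series -/

lemma th327_thetaL_ofPowerSeries {R : Type*} [CommRing R] (P : PowerSeries R) :
    thetaL R (HahnSeries.ofPowerSeries ℤ R P) = HahnSeries.ofPowerSeries ℤ R (th327_thetaP P) := by
  ext n
  rw [thetaL_coeff]
  rcases le_or_gt 0 n with hn | hn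
  · lift n to ℕ using hn
    rw [HahnSeries.ofPowerSeries_apply_coeff, HahnSeries.ofPowerSeries_apply_coeff, th327_thetaP_coeff]
    push_cast
    rfl
  · rw [ofPowerSeries_coeff_of_neg _ hn, ofPowerSeries_coeff_of_neg _ hn, mul_zero]

/-! ### The identity over `ℂ` -/

/-- `a = E₄`, `b = E₆`, `c = Δ` as Laurent series over `ℂ`. -/
def th327_a : LaurentSeries ℂ := HahnSeries.ofPowerSeries ℤ ℂ (qExpansion 1 E₄)
def th327_b : LaurentSeries ℂ := HahnSeries.ofPowerSeries ℤ ℂ (qExpansion 1 E₆)

lemma th327_ofPowerSeries_Δ :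
    HahnSeries.ofPowerSeries ℤ ℂ (qExpansion 1 Δ) = deltaL ℂ := by
  rw [th327_qExpansion_Δ, map_mul, HahnSeries.ofPowerSeries_X, deltaL]
  rfl

lemma th327_bracket_laurent :
    3 * (deltaL ℂ * thetaL ℂ th327_a) - th327_a * thetaL ℂ (deltaL ℂ)
      + th327_b * deltaL ℂ = 0 := by
  have h := congrArg (HahnSeries.ofPowerSeries ℤ ℂ) th327_bracket_qExpansion
  rw [map_zero, map_add, map_sub, map_mul, map_mul, Algebra.smul_def, map_mul, map_mul,
    ← th327_thetaL_ofPowerSeries, ← th327_thetaL_ofPowerSeries, th327_ofPowerSeries_Δ] at h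
  rw [← h]
  simp only [th327_a, th327_b]
  congr 3
  rw [map_ofNat, map_ofNat]

lemma th327_cube_sub_sq_laurent :
    th327_a ^ 3 - th327_b ^ 2 = 1728 * deltaL ℂ := by
  have h := congrArg (HahnSeries.ofPowerSeries ℤ ℂ) th327_cube_sub_sq_qExpansion
  rw [map_sub, map_pow, map_pow, Algebra.smul_def, map_mul, th327_ofPowerSeries_Δ] at h
  rw [show th327_a ^ 3 - th327_b ^ 2 = _ from h]
  congr 1
  rw [map_ofNat, map_ofNat]

lemma th327_j_mul_delta : jqModC ℂ * deltaL ℂ = th327_a ^ 3 := by
  rw [th327_a, th327_qExpansion_E₄, jqModC, deltaL, mul_mul_mul_comm,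
    HahnSeries.single_mul_single, ← map_mul, ← map_pow]
  have h1 : (jNum.map (Int.castRingHom ℂ)) * (dedekindEtaUnit.map (Int.castRingHom ℂ)) =
      (eisenstein4.map (Int.castRingHom ℂ)) ^ 3 := by
    rw [← map_mul, ← map_pow, jNum, mul_assoc, mul_comm dedekindEtaUnitInv,
      dedekindEtaUnit_mul_inv, mul_one]
  rw [h1]
  simp

lemma th327_deltaL_cancel {x y : LaurentSeries ℂ} (h : x * deltaL ℂ = y * deltaL ℂ) : x = y := by
  have := congrArg (· * deltaInvL ℂ) h
  simpa [mul_assoc, h88_deltaL_mul_deltaInvL] using this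

lemma th327_thetaL_j_mul_delta :
    thetaL ℂ (jqModC ℂ) * deltaL ℂ = - (th327_a ^ 2 * th327_b) := by
  have h1 := congrArg (thetaL ℂ) th327_j_mul_delta
  rw [h88_thetaL_mul, h88_thetaL_pow th327_a 2] at h1
  have h2 := th327_bracket_laurent
  have h3 := th327_j_mul_delta
  apply th327_deltaL_cancel
  push_cast at h1
  linear_combination (deltaL ℂ) * h1 - (thetaL ℂ (deltaL ℂ)) * h3 + th327_a ^ 2 * h2

lemma th327_deltaL_pow_cancel (n : ℕ) {x y : LaurentSeries ℂ}
    (h : x * deltaL ℂ ^ n = y * deltaL ℂ ^ n) : x = y := by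
  induction n with
  | zero => simpa using h
  | succ n ih =>
    apply ih
    apply th327_deltaL_cancel
    rw [mul_assoc, mul_assoc, ← pow_succ]
    exact h

/-- The `θ`-identity over `ℂ`. -/
theorem th327_theta_identity_complex :
    (thetaL ℂ (jqModC ℂ)) ^ 6 = deltaL ℂ * (jqModC ℂ) ^ 4 * (jqModC ℂ - 1728) ^ 3 := by
  have h1 := th327_thetaL_j_mul_delta
  have h2 := th327_cube_sub_sq_laurent
  have h3 := th327_j_mul_delta
  apply th327_deltaL_pow_cancel 6
  have e1 : (thetaL ℂ (jqModC ℂ)) ^ 6 * deltaL ℂ ^ 6 = (th327_a ^ 2 * th327_b) ^ 6 := by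
    rw [← mul_pow, h1]; ring
  have e2 : (deltaL ℂ * (jqModC ℂ) ^ 4 * (jqModC ℂ - 1728) ^ 3) * deltaL ℂ ^ 6 =
      (jqModC ℂ * deltaL ℂ) ^ 4 * (jqModC ℂ * deltaL ℂ - 1728 * deltaL ℂ) ^ 3 := by
    ring
  have e3 : th327_a ^ 3 - 1728 * deltaL ℂ = th327_b ^ 2 := by
    linear_combination h2
  rw [e1, e2, h3, e3]
  ring

/-! ### Descent to `ℤ` -/

lemma th327_coeffMap_intCast_injective :
    Function.Injective (coeffMap (Int.castRingHom ℂ)) := by
  intro x y h
  ext n
  have := congrArg (fun z => z.coeff n) h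
  simp only [coeffMap_coeff, eq_intCast] at this
  exact_mod_cast this

/-- **(A-θ)** `(θ j)⁶ = Δ · j⁴ · (j - 1728)³` in `ℤ((q))`.
(Same statement as the stub `theta_identity` of the captain skeleton.) -/
theorem th327_theta_identity :
    (thetaL ℤ (jqModC ℤ)) ^ 6 = deltaL ℤ * (jqModC ℤ) ^ 4 * (jqModC ℤ - 1728) ^ 3 := by
  apply th327_coeffMap_intCast_injective
  rw [map_pow, h88_coeffMap_thetaL, map_mul, map_mul, map_pow, map_pow, map_sub,
    coeffMap_jqModC, h88_coeffMap_deltaL, map_ofNat]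
  exact th327_theta_identity_complex

/-- The `θ`-identity over an arbitrary commutative ring. -/
theorem th327_theta_identity_ring (R : Type*) [CommRing R] :
    (thetaL R (jqModC R)) ^ 6 = deltaL R * (jqModC R) ^ 4 * (jqModC R - 1728) ^ 3 := by
  have h := congrArg (coeffMap (Int.castRingHom R)) th327_theta_identity
  rw [map_pow, h88_coeffMap_thetaL, map_mul, map_mul, map_pow, map_pow, map_sub,
    coeffMap_jqModC, h88_coeffMap_deltaL, map_ofNat] at h
  exact h

end Fermat.Agent.S28

end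
end
-- ===== PACK-END S28/Theta/Main.lean

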