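import Fermat.Prelude.Def_AlgebraicCurve_DivisorPushPull
import Mathlib
import Fermat.Prelude.Def_ModularCurve_X0ModL
import Fermat.Prelude.Def_AlgebraicCurve_Correspondence
import Fermat.Agent.Pack.S36.E11L1
import Fermat.Agent.Pack.S36.E7L0
import Fermat.Agent.Pack.S36.E11L3
import Fermat.Agent.Pack.S36.E7L1
import Fermat.Agent.Pack.S36.E10L1
import Fermat.Agent.Pack.S36.E9L0
import Fermat.Agent.Pack.S36.E5L1
import Fermat.Agent.Pack.S36.E10L0
import Fermat.Agent.Pack.S36.E0L3
import Fermat.Agent.Pack.S36.E4L1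
import Fermat.Agent.Pack.S36.E10L2
import Fermat.Agent.Pack.S36.E9L3
import Fermat.Agent.Pack.S36.E3L3

-- ===== PACK-BEGIN S30/H990/Glue.lean
section
/-
S30 top glue (helper990): assembly.
`result_of : ChebWeak → HasAdicEigenModules → <frozen statement S30>` (with `𝒪'' := 𝒪'`).
-/




set_option autoImplicit false

namespace Fermat.Agent.S30.H990

open Polynomial Fermat.Agent.S55.H414

section Assembly

variable {p N : ℕ} [Fact p.Prime] [NeZero N] {S : Finset ℕ}
  {𝒪 : Type} [CommRing 𝒪] [IsDomain 𝒪] [IsDiscreteValuationRing 𝒪]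
  [IsAdicComplete (IsLocalRing.maximalIdeal 𝒪) 𝒪] [Finite (IsLocalRing.ResidueField 𝒪)]
  {χ : CuspForm.heckeAlgebra N 2 (↑S : Set ℕ) →+* 𝒪}

/-- The quadratic relation modulo `𝔪 ^ n` for every element of `G_ℚ`. -/
theorem exists_rel_mod (hcheb : ChebWeak) (hpS : p ∈ S)
    (hNS : ∀ q : ℕ, q.Prime → q ∣ N → q ∈ S) (E : AdicEigenModule p N S 𝒪 χ)
    (d : GQ →* 𝒪ˣ)
    (hdfrob : ∀ ℓ : ℕ, ℓ.Prime → ℓ ≠ p → ∀ A : ValuationSubring (AlgebraicClosure ℚ),
      A.LiesOverPrime ℓ → ∀ σ : GQ, A.IsFrobeniusAt σ ℓ → ((d σ : 𝒪ˣ) : 𝒪) = (ℓ : 𝒪))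
    (hdcont : ∀ (n : ℕ) (σ : GQ), (∀ x ∈ cycloLevel (p ^ n), σ x = x) →
      ((d σ : 𝒪ˣ) : 𝒪) - 1 ∈ IsLocalRing.maximalIdeal 𝒪 ^ n)
    (g : GQ) (n : ℕ) :
    ∃ a : 𝒪, ∀ v : E.M, E.ρ g (E.ρ g v) - a • E.ρ g v + ((d g : 𝒪ˣ) : 𝒪) • v
      ∈ (IsLocalRing.maximalIdeal 𝒪 ^ n) • (⊤ : Submodule 𝒪 E.M) := by
  obtain ⟨L₁, hL₁fin, hL₁⟩ := E.cont n
  have : FiniteDimensional ℚ L₁ := hL₁fin
  have hLfin : FiniteDimensional ℚ ↥(L₁ ⊔ cycloLevel (p ^ n)) :=
    IntermediateField.finiteDimensional_sup L₁ (cycloLevel (p ^ n))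
  obtain ⟨ℓ, hℓ, hℓS, A, hA, τ, hτ, j, hj⟩ := hcheb (L₁ ⊔ cycloLevel (p ^ n)) hLfin g S
  have hℓp : ℓ ≠ p := fun h => hℓS (h ▸ hpS)
  have hℓN : ¬ ℓ ∣ N := fun h => hℓS (hNS ℓ hℓ h)
  have hℓS' : ℓ ∉ (↑S : Set ℕ) := fun h => hℓS (Finset.mem_coe.mp h)
  -- `g = τ ^ j * σ` with `σ` fixing `L`
  set σ : GQ := (τ ^ j)⁻¹ * g with hσ
  have hg : g = τ ^ j * σ := by rw [hσ, mul_inv_cancel_left]
  have hσfix : ∀ x ∈ L₁ ⊔ cycloLevel (p ^ n), σ x = x := by
    intro x hx
    have h1 : σ x = (τ ^ j)⁻¹ (g x) := rfl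
    rw [h1, hj x hx]
    exact (τ ^ j).symm_apply_apply x
  have hs : ∀ v : E.M, E.ρ σ v - v
      ∈ (IsLocalRing.maximalIdeal 𝒪 ^ n) • (⊤ : Submodule 𝒪 E.M) :=
    hL₁ σ (fun x hx => hσfix x ((le_sup_left : L₁ ≤ L₁ ⊔ cycloLevel (p ^ n)) hx))
  have hu : ((d σ : 𝒪ˣ) : 𝒪) - 1 ∈ IsLocalRing.maximalIdeal 𝒪 ^ n :=
    hdcont n σ (fun x hx =>
      hσfix x ((le_sup_right : cycloLevel (p ^ n) ≤ L₁ ⊔ cycloLevel (p ^ n)) hx))
  have hfrob := E.frob ℓ hℓ hℓN hℓS' A hA τ hτ
  obtain ⟨t, ht⟩ := lucas (E.ρ τ) (χ (CuspForm.heckeAlgebra.T hℓ hℓN hℓS')) (ℓ : 𝒪) hfrob j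
  refine ⟨t, fun v => ?_⟩
  have key := rel_mod_of_mul (IsLocalRing.maximalIdeal 𝒪 ^ n) (E.ρ τ ^ j) (E.ρ σ) t
    ((ℓ : 𝒪) ^ j) ((d σ : 𝒪ˣ) : 𝒪) ht hs hu v
  have hρg : E.ρ g = E.ρ τ ^ j * E.ρ σ := by rw [hg, map_mul, map_pow]
  have hdg : ((d g : 𝒪ˣ) : 𝒪) = (ℓ : 𝒪) ^ j * ((d σ : 𝒪ˣ) : 𝒪) := by
    rw [hg, map_mul, map_pow, Units.val_mul, Units.val_pow_eq_pow_val,
      hdfrob ℓ hℓ hℓp A hA τ hτ]
  rw [hρg, hdg]
  exact key

/-- From an adic eigenmodule to a two-dimensional adic Galois representation. -/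
theorem exists_galoisRepAdic [CharZero 𝒪] (hcheb : ChebWeak) (hpS : p ∈ S)
    (hNS : ∀ q : ℕ, q.Prime → q ∣ N → q ∈ S)
    (hp𝒪 : (p : 𝒪) ∈ IsLocalRing.maximalIdeal 𝒪) (E : AdicEigenModule p N S 𝒪 χ) :
    ∃ ρ : GaloisRepAdic 𝒪,
      (∀ (ℓ : ℕ) (hℓ : ℓ.Prime) (hℓN : ¬ ℓ ∣ N) (hℓS : ℓ ∉ (↑S : Set ℕ)),
        ∀ A : ValuationSubring (AlgebraicClosure ℚ), A.LiesOverPrime ℓ →
          ∀ σ : AlgebraicClosure ℚ ≃ₐ[ℚ] AlgebraicClosure ℚ, A.IsFrobeniusAt σ ℓ →
            LinearMap.charpoly (ρ.ρ σ) =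
              X ^ 2 - C (χ (CuspForm.heckeAlgebra.T hℓ hℓN hℓS)) * X + C ((ℓ : 𝒪))) ∧
      (∀ q : ℕ, q.Prime → ¬ q ∣ N → q ≠ p → ρ.IsUnramifiedAt q) := by
  obtain ⟨d, hdfrob, hdinert, hdc, hdcont⟩ := exists_cyclo p 𝒪 hp𝒪
  have hrel : ∀ g : GQ, ∃ a, Rel E.ρ d g a := fun g =>
    exists_rel_of_mod E.ρ d g (fun n => exists_rel_mod hcheb hpS hNS E d hdfrob hdcont g n)
  have h2 : (2 : 𝒪) ≠ 0 := two_ne_zero
  obtain ⟨T⟩ := exists_twoDim E.ρ d h2 hrel complexConjugation complexConjugation_mul_self hdc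
  refine ⟨{ V := T.V
            finrank_eq := T.finrank_eq
            ρ := T.ρ₂
            isAdicContinuous := ?_ }, ?_, ?_⟩
  · intro n
    obtain ⟨L₁, hL₁fin, hL₁⟩ := E.cont n
    have : FiniteDimensional ℚ L₁ := hL₁fin
    refine ⟨L₁ ⊔ cycloLevel (p ^ n),
      IntermediateField.finiteDimensional_sup L₁ (cycloLevel (p ^ n)), fun σ hσ v => ?_⟩
    refine T.cong (IsLocalRing.maximalIdeal 𝒪 ^ n) σ ?_ ?_ v
    · exact hL₁ σ (fun x hx => hσ x ((le_sup_left : L₁ ≤ L₁ ⊔ cycloLevel (p ^ n)) hx))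
    · exact hdcont n σ (fun x hx =>
        hσ x ((le_sup_right : cycloLevel (p ^ n) ≤ L₁ ⊔ cycloLevel (p ^ n)) hx))
  · intro ℓ hℓ hℓN hℓS A hA σ hσ
    have hℓp : ℓ ≠ p := fun h => hℓS (Finset.mem_coe.mpr (h ▸ hpS))
    have hr : Rel E.ρ d σ (χ (CuspForm.heckeAlgebra.T hℓ hℓN hℓS)) := by
      unfold Rel
      rw [hdfrob ℓ hℓ hℓp A hA σ hσ]
      exact E.frob ℓ hℓ hℓN hℓS A hA σ hσ
    have := T.charpoly_eq σ _ hr
    rw [hdfrob ℓ hℓ hℓp A hA σ hσ] at this
    exact this
  · intro q hq hqN hqp P hP σ hσ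
    have h1 : E.ρ σ = 1 := E.unram q hq hqN hqp P hP σ hσ
    have h2 : d σ = 1 := hdinert q hq hqp P hP σ hσ
    have h3 := T.cong ⊥ σ (fun v => by rw [h1]; simp) (by rw [h2]; simp)
    ext v
    have h4 := h3 v
    rw [Submodule.bot_smul, Submodule.mem_bot, sub_eq_zero] at h4
    simpa using h4

end Assembly

/-- **S30 from the Chebotarev hypothesis and the adic eigenmodules.** -/
theorem result_of (hcheb : ChebWeak) (hmod : HasAdicEigenModules) :
    ∀ (p : ℕ) [Fact p.Prime] (N : ℕ) [NeZero N] (S : Finset ℕ)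
      (_hpS : p ∈ S) (_hNS : ∀ q : ℕ, q.Prime → q ∣ N → q ∈ S)
      (𝒪' : Type) [CommRing 𝒪'] [IsDomain 𝒪'] [IsDiscreteValuationRing 𝒪']
      [IsAdicComplete (IsLocalRing.maximalIdeal 𝒪') 𝒪'] [Finite (IsLocalRing.ResidueField 𝒪')]
      [CharZero 𝒪'] (_hp𝒪' : (p : 𝒪') ∈ IsLocalRing.maximalIdeal 𝒪')
      (χ : CuspForm.heckeAlgebra N 2 (↑S : Set ℕ) →+* 𝒪'),
      ∃ (𝒪'' : Type) (_ : CommRing 𝒪'') (_ : IsDomain 𝒪'') (_ : IsDiscreteValuationRing 𝒪'')
        (_ : IsAdicComplete (IsLocalRing.maximalIdeal 𝒪'') 𝒪'')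
        (_ : Finite (IsLocalRing.ResidueField 𝒪'')) (_ : CharZero 𝒪'')
        (_ : Algebra 𝒪' 𝒪'') (_ : Module.Finite 𝒪' 𝒪'') (_ : IsLocalHom (algebraMap 𝒪' 𝒪'')),
      Function.Injective (algebraMap 𝒪' 𝒪'') ∧
      ∃ ρ : GaloisRepAdic 𝒪'',
        (∀ (ℓ : ℕ) (hℓ : ℓ.Prime) (hℓN : ¬ ℓ ∣ N) (hℓS : ℓ ∉ (↑S : Set ℕ)),
          ∀ A : ValuationSubring (AlgebraicClosure ℚ), A.LiesOverPrime ℓ →
            ∀ σ : AlgebraicClosure ℚ ≃ₐ[ℚ] AlgebraicClosure ℚ, A.IsFrobeniusAt σ ℓ →
              LinearMap.charpoly (ρ.ρ σ) =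
                X ^ 2 - C (algebraMap 𝒪' 𝒪'' (χ (CuspForm.heckeAlgebra.T hℓ hℓN hℓS))) * X
                  + C ((ℓ : 𝒪''))) ∧
        (∀ q : ℕ, q.Prime → ¬ q ∣ N → q ≠ p → ρ.IsUnramifiedAt q) := by
  intro p _ N _ S hpS hNS 𝒪' _ _ _ _ _ _ hp𝒪' χ
  obtain ⟨E⟩ := hmod p N S hpS hNS 𝒪' hp𝒪' χ
  obtain ⟨ρ, hρ1, hρ2⟩ := exists_galoisRepAdic hcheb hpS hNS hp𝒪' E
  exact ⟨𝒪', inferInstance, inferInstance, inferInstance, inferInstance, inferInstance,
    inferInstance, Algebra.id 𝒪', Module.Finite.self 𝒪', isLocalHom_id 𝒪',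
    Function.injective_id, ρ, hρ1, hρ2⟩

end Fermat.Agent.S30.H990

end
-- ===== PACK-END S30/H990/Glue.lean

-- ===== PACK-BEGIN Lib/HI/H864/RelPlace.lean
section




/-!
# Lib / HI (helper864): the fibre of a place in a finite extension of function fields

`K` algebraically closed of characteristic `0`, `F'/F` a finite extension of function fields of
one variable over `K`, `v` a place of `F`.  With `R = O_v` and `S` the integral closure of `R` in
`F'`:

* `sum_fiber_ord_uniformizer` : `∑_{w | v} w(τ) = [F' : F]` for a uniformizer `τ` of `v`;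
* `sum_fiber_ord_eq_ord_norm` : `∑_{w | v} w(f) = v(N_{F'/F} f)`.
-/

set_option autoImplicit false
set_option linter.unusedSectionVars false
set_option linter.style.haveILetI false
set_option linter.unusedVariables false

noncomputable section

open AlgebraicCurve IsDedekindDomain IntermediateField

namespace Fermat.Agent.Lib.HI.H864

open Fermat.Agent.S24

section

variable {K F F' : Type*} [Field K] [Field F] [Field F'] [Algebra K F] [Algebra K F']
  [Algebra F F'] [IsScalarTower K F F']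

theorem flat_of_torsionFree (R S : Type*) [CommRing R] [IsDedekindDomain R] [CommRing S]
    [Algebra R S] [Module.IsTorsionFree R S] : Module.Flat R S := inferInstance

theorem torsionFree_integralClosure (v : Place K F) :
    Module.IsTorsionFree v.toValuationSubring (integralClosure v.toValuationSubring F') :=
  inferInstance

theorem isScalarTower_valuationSubring (v : Place K F) :
    IsScalarTower K v.toValuationSubring F' :=
  IsScalarTower.of_algebraMap_eq fun a => by
    rw [IsScalarTower.algebraMap_apply K F F']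
    rfl

/-- `ord` on the valuation ring is the multiplicity of the maximal ideal. -/
theorem ord_coe_eq_multiplicity (v : Place K F) {r : v.toValuationSubring} (hr : r ≠ 0) :
    v.ord (r : F) = (multiplicity (IsLocalRing.maximalIdeal v.toValuationSubring)
      (Ideal.span {r}) : ℤ) := by
  show -(WithZero.log (v.heightOneSpectrum.valuation F (algebraMap v.toValuationSubring F r))) = _
  rw [HeightOneSpectrum.valuation_of_algebraMap,
    HeightOneSpectrum.intValuation_eq_exp_neg_multiplicity _ hr, WithZero.log_exp, neg_neg,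
    Place.heightOneSpectrum_asIdeal]

section Fiber

variable [Algebra.IsIntegral F F']

/-- A place `w` of `F'` restricts to `v` iff its valuation ring contains `O_v`. -/
theorem restrict_eq_iff (v : Place K F) (w : Place K F') :
    w.restrict F = v ↔
      ∀ r : v.toValuationSubring, algebraMap F F' (r : F) ∈ w.toValuationSubring := by
  constructor
  · rintro rfl r
    exact (Place.mem_restrict_iff w).mp r.2
  · intro h
    apply Place.ext
    symm
    refine ValuationSubring.eq_of_le_of_ne_top _ ?_ (w.restrict F).ne_top'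
    intro r hr
    exact (Place.mem_restrict_iff w).mpr (h ⟨r, hr⟩)

theorem ord_algebraMap_of_restrict_eq {v : Place K F} {w : Place K F'} (hw : w.restrict F = v)
    (f : F) : w.ord (algebraMap F F' f) = (w.ramificationIndex F : ℤ) * v.ord f := by
  rw [w.ord_restrict f, hw]

theorem ord_uniformizer_of_restrict_eq {v : Place K F} {w : Place K F'} (hw : w.restrict F = v)
    {τ : v.toValuationSubring} (hτ : Irreducible τ) :
    w.ord (algebraMap F F' (τ : F)) = (w.ramificationIndex F : ℤ) := by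
  rw [ord_algebraMap_of_restrict_eq hw, v.ord_coe_irreducible hτ, mul_one]

theorem fiber_iff [HasPrincipalDivisors K F'] (v : Place K F) {τ : v.toValuationSubring}
    (hτ : Irreducible τ) (w : Place K F') :
    w ∈ v.fiber F' ↔ (0 < w.ord (algebraMap v.toValuationSubring F' τ) ∧
      ∀ r : v.toValuationSubring, algebraMap v.toValuationSubring F' r ∈ w.toValuationSubring) := by
  rw [Place.mem_fiber, restrict_eq_iff]
  constructor
  · intro h
    refine ⟨?_, h⟩
    have hw : w.restrict F = v := (restrict_eq_iff v w).mpr h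
    show 0 < w.ord (algebraMap F F' (τ : F))
    rw [ord_uniformizer_of_restrict_eq hw hτ]
    exact_mod_cast w.ramificationIndex_pos (F := F)
  · rintro ⟨-, h⟩
    exact h

end Fiber

section Main

variable [IsAlgClosed K] [CharZero K] [FiniteDimensional F F'] [HasPrincipalDivisors K F']

theorem exists_const_sub_mem_maximalIdeal (x : F) (hx : Transcendental K x)
    [FiniteDimensional K⟮x⟯ F] (v : Place K F) (r : v.toValuationSubring) :
    ∃ c : K, r - algebraMap K v.toValuationSubring c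
      ∈ IsLocalRing.maximalIdeal v.toValuationSubring := by
  obtain ⟨a, ha⟩ := FF.exists_const_sub_mem_nonunits v hx r.2
  refine ⟨a, ?_⟩
  rw [← ValuationSubring.coe_mem_nonunits_iff]
  exact ha

/-- **Relative fundamental identity** for a uniformizer. -/
theorem sum_fiber_ord_uniformizer (x : F) (hx : Transcendental K x)
    [FiniteDimensional K⟮x⟯ F] (v : Place K F) {τ : v.toValuationSubring}
    (hτ : Irreducible τ) :
    ∑ w ∈ v.fiber F', w.ord (algebraMap F F' (τ : F)) = (Module.finrank F F' : ℤ) := by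
  haveI : Module.IsTorsionFree v.toValuationSubring (integralClosure v.toValuationSubring F') :=
    torsionFree_integralClosure v
  haveI : Module.Flat v.toValuationSubring (integralClosure v.toValuationSubring F') :=
    flat_of_torsionFree _ _
  haveI : IsScalarTower K v.toValuationSubring F' := isScalarTower_valuationSubring v
  haveI : CharZero F := charZero_of_injective_algebraMap (algebraMap K F).injective
  haveI : IsScalarTower v.toValuationSubring (integralClosure v.toValuationSubring F') F' :=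
    Subalgebra.isScalarTower_mid _
  haveI : IsFractionRing (integralClosure v.toValuationSubring F') F' :=
    integralClosure.isFractionRing_of_finite_extension F F'
  haveI : IsDedekindDomain (integralClosure v.toValuationSubring F') :=
    IsIntegralClosure.isDedekindDomain v.toValuationSubring F F'
      (integralClosure v.toValuationSubring F')
  haveI : Module.Finite v.toValuationSubring (integralClosure v.toValuationSubring F') :=
    IsIntegralClosure.finite v.toValuationSubring F F' (integralClosure v.toValuationSubring F')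
  have hfin : Module.finrank F F'
      = Module.finrank v.toValuationSubring (integralClosure v.toValuationSubring F') :=
    IsFractionRing.finrank_eq v.toValuationSubring F (integralClosure v.toValuationSubring F') F'
  haveI hmax : (IsLocalRing.maximalIdeal v.toValuationSubring).IsMaximal :=
    IsLocalRing.maximalIdeal.isMaximal _
  have hinj : Function.Injective
      (algebraMap v.toValuationSubring (integralClosure v.toValuationSubring F')) := by
    intro a b hab
    have := congrArg (algebraMap (integralClosure v.toValuationSubring F') F') hab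
    rw [← IsScalarTower.algebraMap_apply, ← IsScalarTower.algebraMap_apply] at this
    exact Subtype.ext ((algebraMap F F').injective this)
  rw [hfin]
  exact sum_ord_tau_eq_finrank (K := K) (F := F')
    (S := integralClosure v.toValuationSubring F') (R := v.toValuationSubring)
    (IsLocalRing.maximalIdeal v.toValuationSubring) τ hτ.maximalIdeal_eq hτ.ne_zero hinj
    (exists_const_sub_mem_maximalIdeal x hx v) (v.fiber F') (fiber_iff v hτ)

/-- Over an algebraically closed constant field all inertia degrees are `1`. -/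
theorem place_inertiaDeg_eq_one (x : F) (hx : Transcendental K x) [FiniteDimensional K⟮x⟯ F]
    (x' : F') (hx' : Transcendental K x') [FiniteDimensional K⟮x'⟯ F'] (w : Place K F') :
    w.inertiaDeg F = 1 := by
  have h := w.deg_restrict_mul_inertiaDeg (F := F)
  rw [FF.deg_eq_one (w.restrict F) hx, FF.deg_eq_one w hx', one_mul] at h
  exact h

/-- **`∑ e f = n`** in the language of places. -/
theorem sumRamificationInertia (x : F) (hx : Transcendental K x) [FiniteDimensional K⟮x⟯ F]
    (x' : F') (hx' : Transcendental K x') [FiniteDimensional K⟮x'⟯ F'] :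
    SumRamificationInertia K F F' where
  sum_ramificationIndex_mul_inertiaDeg v := by
    obtain ⟨τ, hτ⟩ := IsDiscreteValuationRing.exists_irreducible v.toValuationSubring
    rw [← sum_fiber_ord_uniformizer x hx v hτ]
    refine Finset.sum_congr rfl fun w hw => ?_
    rw [ord_uniformizer_of_restrict_eq (Place.mem_fiber.mp hw) hτ,
      place_inertiaDeg_eq_one x hx x' hx' w, Nat.cast_one, mul_one]

/-- Norm formula for integral elements. -/
theorem sum_fiber_ord_integral (x : F) (hx : Transcendental K x)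
    [FiniteDimensional K⟮x⟯ F] (v : Place K F)
    {a : integralClosure v.toValuationSubring F'} (ha : a ≠ 0) :
    ∑ w ∈ v.fiber F', w.ord (a : F') = v.ord (Algebra.norm F (a : F')) := by
  obtain ⟨τ, hτ⟩ := IsDiscreteValuationRing.exists_irreducible v.toValuationSubring
  haveI : Module.IsTorsionFree v.toValuationSubring (integralClosure v.toValuationSubring F') :=
    torsionFree_integralClosure v
  haveI : IsScalarTower K v.toValuationSubring F' := isScalarTower_valuationSubring v
  haveI : CharZero F := charZero_of_injective_algebraMap (algebraMap K F).injective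
  haveI : CharZero v.toValuationSubring :=
    charZero_of_injective_algebraMap (algebraMap K v.toValuationSubring).injective
  haveI : CharZero (FractionRing v.toValuationSubring) :=
    charZero_of_injective_algebraMap
      (IsFractionRing.injective v.toValuationSubring (FractionRing v.toValuationSubring))
  haveI : PerfectField (FractionRing v.toValuationSubring) := PerfectField.ofCharZero
  haveI : IsScalarTower v.toValuationSubring (integralClosure v.toValuationSubring F') F' :=
    Subalgebra.isScalarTower_mid _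
  haveI : IsFractionRing (integralClosure v.toValuationSubring F') F' :=
    integralClosure.isFractionRing_of_finite_extension F F'
  haveI : IsDedekindDomain (integralClosure v.toValuationSubring F') :=
    IsIntegralClosure.isDedekindDomain v.toValuationSubring F F'
      (integralClosure v.toValuationSubring F')
  haveI : Module.Finite v.toValuationSubring (integralClosure v.toValuationSubring F') :=
    IsIntegralClosure.finite v.toValuationSubring F F' (integralClosure v.toValuationSubring F')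
  haveI hmax : (IsLocalRing.maximalIdeal v.toValuationSubring).IsMaximal :=
    IsLocalRing.maximalIdeal.isMaximal _
  have hinj : Function.Injective
      (algebraMap v.toValuationSubring (integralClosure v.toValuationSubring F')) := by
    intro a b hab
    have := congrArg (algebraMap (integralClosure v.toValuationSubring F') F') hab
    rw [← IsScalarTower.algebraMap_apply, ← IsScalarTower.algebraMap_apply] at this
    exact Subtype.ext ((algebraMap F F').injective this)
  have h1 := sum_ord_eq_multiplicity_intNorm (K := K) (F := F')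
    (S := integralClosure v.toValuationSubring F') (R := v.toValuationSubring)
    (IsLocalRing.maximalIdeal v.toValuationSubring) τ hτ.maximalIdeal_eq hτ.ne_zero hinj
    (exists_const_sub_mem_maximalIdeal x hx v) (v.fiber F') (fiber_iff v hτ) ha
  have h3 : algebraMap v.toValuationSubring F
      (Algebra.intNorm v.toValuationSubring (integralClosure v.toValuationSubring F') a)
        = Algebra.norm F (algebraMap (integralClosure v.toValuationSubring F') F' a) :=
    Algebra.algebraMap_intNorm (A := v.toValuationSubring) (K := F) (L := F')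
      (B := integralClosure v.toValuationSubring F') a
  have ha' : (a : F') ≠ 0 := fun h => ha (Subtype.ext h)
  have hn0 : Algebra.intNorm v.toValuationSubring (integralClosure v.toValuationSubring F') a
      ≠ 0 := by
    intro h0
    rw [h0, map_zero] at h3
    exact (Algebra.norm_ne_zero_iff.mpr ha') h3.symm
  have h2 := ord_coe_eq_multiplicity v hn0
  have h4 : (algebraMap (integralClosure v.toValuationSubring F') F' a) = (a : F') := rfl
  rw [h4] at h1 h3
  rw [h1, ← h2, ← h3]
  rfl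

/-- **Norm formula**: `∑_{w | v} w(f) = v(N_{F'/F} f)`. -/
theorem sum_fiber_ord_eq_ord_norm (x : F) (hx : Transcendental K x)
    [FiniteDimensional K⟮x⟯ F] (v : Place K F) {f : F'} (hf : f ≠ 0) :
    ∑ w ∈ v.fiber F', w.ord f = v.ord (Algebra.norm F f) := by
  haveI : CharZero F := charZero_of_injective_algebraMap (algebraMap K F).injective
  haveI : IsScalarTower v.toValuationSubring (integralClosure v.toValuationSubring F') F' :=
    Subalgebra.isScalarTower_mid _
  haveI : IsFractionRing (integralClosure v.toValuationSubring F') F' :=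
    integralClosure.isFractionRing_of_finite_extension F F'
  obtain ⟨a, b, hb, hab⟩ :=
    IsFractionRing.div_surjective (A := integralClosure v.toValuationSubring F') f
  have hb0 : b ≠ 0 := nonZeroDivisors.ne_zero hb
  have hb' : (b : F') ≠ 0 := fun h => hb0 (Subtype.ext h)
  have hfb : f * (b : F') = (a : F') := by
    have h1 : algebraMap (integralClosure v.toValuationSubring F') F' a = (a : F') := rfl
    have h2 : algebraMap (integralClosure v.toValuationSubring F') F' b = (b : F') := rfl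
    rw [h1, h2] at hab
    rw [← hab, div_mul_cancel₀ _ hb']
  have ha' : (a : F') ≠ 0 := by
    rw [← hfb]
    exact mul_ne_zero hf hb'
  have ha0 : a ≠ 0 := fun h => ha' (by rw [h]; rfl)
  have hA := sum_fiber_ord_integral x hx v ha0
  have hB := sum_fiber_ord_integral x hx v hb0
  have hsum : ∑ w ∈ v.fiber F', w.ord (a : F')
      = ∑ w ∈ v.fiber F', w.ord f + ∑ w ∈ v.fiber F', w.ord (b : F') := by
    rw [← Finset.sum_add_distrib]
    refine Finset.sum_congr rfl fun w _ => ?_
    rw [← hfb, w.ord_mul hf hb']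
  have hnorm : Algebra.norm F (a : F') = Algebra.norm F f * Algebra.norm F (b : F') := by
    rw [← hfb, map_mul]
  have hNf : Algebra.norm F f ≠ 0 := Algebra.norm_ne_zero_iff.mpr hf
  have hNb : Algebra.norm F (b : F') ≠ 0 := Algebra.norm_ne_zero_iff.mpr hb'
  rw [hnorm, v.ord_mul hNf hNb] at hA
  omega

/-- **Push-forward of principal divisors is given by the norm.** -/
theorem pushforwardNormFormula (x : F) (hx : Transcendental K x) [FiniteDimensional K⟮x⟯ F]
    (x' : F') (hx' : Transcendental K x') [FiniteDimensional K⟮x'⟯ F'] :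
    Divisor.PushforwardNormFormula K F F' := by
  classical
  intro f hf D hD v
  rw [Divisor.pushforward_apply, ← sum_fiber_ord_eq_ord_norm x hx v hf]
  have h1 : ∀ w ∈ D.support, (if w.restrict F = v then D w * (w.inertiaDeg F : ℤ) else 0)
      = if w ∈ v.fiber F' then w.ord f else 0 := by
    intro w _
    by_cases hwv : w.restrict F = v
    · rw [if_pos hwv, if_pos (Place.mem_fiber.mpr hwv), hD,
        place_inertiaDeg_eq_one x hx x' hx' w, Nat.cast_one, mul_one]
    · rw [if_neg hwv, if_neg (fun h => hwv (Place.mem_fiber.mp h))]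
  rw [Finset.sum_congr rfl h1, ← Finset.sum_filter]
  refine Finset.sum_subset (fun w hw => (Finset.mem_filter.mp hw).2) ?_
  intro w hw hnot
  rw [Finset.mem_filter, not_and_or] at hnot
  rcases hnot with h | h
  · rw [Finsupp.mem_support_iff, not_not, hD] at h
    exact h
  · exact absurd hw h

end Main

end

end Fermat.Agent.Lib.HI.H864

end
end
-- ===== PACK-END Lib/HI/H864/RelPlace.lean

-- ===== PACK-BEGIN A2/H12/GLemmas.lean
section


/-!
# Cell A2 — route G: glue lemmas for the ALG assembly (helper12)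

Elementary facts on sheets (`IsSheet`), charts and ring automorphisms.
-/

set_option autoImplicit false

namespace Fermat.Agent.A2.H12

open Polynomial
open Fermat.Agent.S18.H138 (chart baseField)

universe u

section Sheets

variable {R : Type u} [CommRing R] {K : Type u} [Field K] [Algebra R K]

theorem mul_mem_nonunits (W : ValuationSubring K) {a c : K} (ha : a ∈ W.nonunits) (hc : c ∈ W) :
    c * a ∈ W.nonunits := by
  rw [ValuationSubring.mem_nonunits_iff] at ha ⊢
  rw [map_mul]
  have h1 : W.valuation c ≤ 1 := (W.valuation_le_one_iff c).2 hc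
  calc W.valuation c * W.valuation a ≤ 1 * W.valuation a := by gcongr
    _ = W.valuation a := one_mul _
    _ < 1 := ha

theorem one_not_mem_nonunits (W : ValuationSubring K) : (1 : K) ∉ W.nonunits := by
  rw [ValuationSubring.mem_nonunits_iff, map_one]
  exact lt_irrefl _

/-- membership in a valuation subring in terms of its nonunits -/
theorem mem_iff_inv_not_mem_nonunits (W : ValuationSubring K) {b : K} (hb : b ≠ 0) :
    b ∈ W ↔ b⁻¹ ∉ W.nonunits := by
  rw [ValuationSubring.inv_mem_nonunits_iff]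
  constructor
  · intro h h'
    rcases h' with h' | h'
    · exact hb h'
    · exact h' h
  · intro h
    by_contra h'
    exact h (Or.inr h')

/-- nonunits of a comap along a ring homomorphism of fields -/
theorem mem_nonunits_comap {K' : Type*} [Field K'] (W : ValuationSubring K') (ψ : K →+* K')
    (b : K) : b ∈ (W.comap ψ).nonunits ↔ ψ b ∈ W.nonunits := by
  rw [ValuationSubring.mem_nonunits_iff_or, ValuationSubring.mem_nonunits_iff_or,
    ValuationSubring.mem_comap, map_inv₀, map_eq_zero]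

theorem IsSheet.not_dvd_one {w : R} {x : K} {W : ValuationSubring K} (hW : IsSheet w x W) :
    ¬ w ∣ 1 := by
  rintro ⟨c, hc⟩
  have h1 : algebraMap R K w * algebraMap R K c = 1 := by
    rw [← map_mul, ← hc, map_one]
  have h2 := mul_mem_nonunits W hW.2.2.1 (hW.1 c)
  rw [mul_comm, h1] at h2
  exact one_not_mem_nonunits W h2

theorem IsSheet.inv_mem {w : R} {x : K} {W : ValuationSubring K} (hW : IsSheet w x W) :
    x⁻¹ ∈ W := by
  have := hW.2.2.2 X ⟨1, by simpa using hW.not_dvd_one⟩
  simpa using this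

/-- An element integral over a subalgebra contained in a valuation subring lies in it. -/
theorem mem_of_isIntegral_of_le (W : ValuationSubring K) (A : Subalgebra R K)
    (hA : ∀ a ∈ A, a ∈ W) {c : K} (hc : IsIntegral A c) : c ∈ W := by
  let φ : A →+* W :=
    { toFun := fun a => ⟨a, hA a a.2⟩
      map_one' := rfl
      map_mul' := fun _ _ => rfl
      map_zero' := rfl
      map_add' := fun _ _ => rfl }
  have h1 : IsIntegral W ((RingHom.id K) c) :=
    IsIntegral.map_of_comp_eq (R := A) (S := K) (T := W) (U := K) φ (RingHom.id K)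
      (by ext; rfl) hc
  obtain ⟨y, hy⟩ := (IsIntegrallyClosed.isIntegral_iff (R := W) (K := K)).1 h1
  have : (y : K) = c := hy
  rw [← this]
  exact y.2

/-- The charts lie in every sheet. -/
theorem IsSheet.chart_le {w : R} {x : K} {W : ValuationSubring K} (hW : IsSheet w x W)
    {T : Set K} (hT : T ⊆ {x, x⁻¹}) {c : K} (hc : c ∈ chart R T) : c ∈ W := by
  refine mem_of_isIntegral_of_le W (Algebra.adjoin R T) ?_ hc
  intro a ha
  induction ha using Algebra.adjoin_induction with
  | mem y hy =>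
    rcases hT hy with rfl | rfl
    · exact hW.2.1
    · exact hW.inv_mem
  | algebraMap r => exact hW.1 r
  | add y z _ _ hy hz => exact W.add_mem _ _ hy hz
  | mul y z _ _ hy hz => exact W.mul_mem _ _ hy hz

/-- Transport of a sheet along a ring automorphism compatible with `R` and fixing `x`. -/
theorem IsSheet.comap {w : R} {x : K} {W : ValuationSubring K} (hW : IsSheet w x W)
    (ψ : K ≃+* K) (ρ : R ≃+* R) (hψR : ∀ r, ψ (algebraMap R K r) = algebraMap R K (ρ r))
    (hρw : ∀ r, w ∣ r ↔ w ∣ ρ r) (hψx : ψ x = x) :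
    IsSheet w x (W.comap (ψ : K →+* K)) := by
  refine ⟨?_, ?_, ?_, ?_⟩
  · intro r
    rw [ValuationSubring.mem_comap]
    change ψ (algebraMap R K r) ∈ W
    rw [hψR]
    exact hW.1 _
  · rw [ValuationSubring.mem_comap]
    change ψ x ∈ W
    rw [hψx]
    exact hW.2.1
  · rw [mem_nonunits_comap]
    change ψ (algebraMap R K w) ∈ W.nonunits
    rw [hψR]
    obtain ⟨c, hc⟩ := (hρw w).1 dvd_rfl
    rw [hc, map_mul, mul_comm]
    exact mul_mem_nonunits W hW.2.2.1 (hW.1 c)
  · intro P hP
    rw [ValuationSubring.mem_comap]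
    change ψ ((aeval x P)⁻¹) ∈ W
    have h1 : ψ (aeval x P) = aeval x (P.map (ρ : R →+* R)) := by
      rw [aeval_def, aeval_def, eval₂_map]
      have := Polynomial.hom_eval₂ P (algebraMap R K) (ψ : K →+* K) x
      rw [show (ψ : K →+* K) (eval₂ (algebraMap R K) x P) = ψ (eval₂ (algebraMap R K) x P)
        from rfl] at this
      rw [this]
      congr 1
      · ext r
        exact hψR r
    rw [map_inv₀, h1]
    apply hW.2.2.2
    obtain ⟨i, hi⟩ := hP
    refine ⟨i, ?_⟩
    rw [coeff_map]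
    intro hdvd
    exact hi ((hρw _).2 hdvd)

/-- nonunits determine membership: automorphism version -/
theorem mem_iff_of_nonunits_iff (ψ : K ≃+* K) (W W' : ValuationSubring K)
    (h : ∀ b, b ∈ W.nonunits ↔ ψ b ∈ W'.nonunits) : ∀ b, b ∈ W ↔ ψ b ∈ W' := by
  intro b
  by_cases hb : b = 0
  · subst hb
    simp [W.zero_mem, W'.zero_mem]
  · have hψb : ψ b ≠ 0 := by
      intro h0
      exact hb ((map_eq_zero_iff ψ ψ.injective).1 h0)
    rw [mem_iff_inv_not_mem_nonunits W hb, mem_iff_inv_not_mem_nonunits W' hψb, h b⁻¹, map_inv₀]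

theorem nonunits_iff_of_mem_iff (ψ : K ≃+* K) (W W' : ValuationSubring K)
    (h : ∀ b, b ∈ W ↔ ψ b ∈ W') : ∀ b, b ∈ W.nonunits ↔ ψ b ∈ W'.nonunits := by
  intro b
  rw [ValuationSubring.mem_nonunits_iff_or, ValuationSubring.mem_nonunits_iff_or, h b⁻¹,
    map_inv₀, map_eq_zero_iff ψ ψ.injective]

/-- A ring endomorphism compatible with `R` and mapping `T` into `R[T]` maps the chart into
itself. -/
theorem chart_map_mem {T : Set K} (ψ : K →+* K)
    (hψR : ∀ r : R, ∃ r' : R, ψ (algebraMap R K r) = algebraMap R K r')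
    (hψT : ∀ t ∈ T, ψ t ∈ Algebra.adjoin R T) {b : K} (hb : b ∈ chart R T) :
    ψ b ∈ chart R T := by
  have hadj : ∀ a ∈ Algebra.adjoin R T, ψ a ∈ Algebra.adjoin R T := by
    intro a ha
    induction ha using Algebra.adjoin_induction with
    | mem y hy => exact hψT y hy
    | algebraMap r =>
      obtain ⟨r', hr'⟩ := hψR r
      rw [hr']
      exact Subalgebra.algebraMap_mem _ _
    | add y z _ _ hy hz => rw [map_add]; exact Subalgebra.add_mem _ hy hz
    | mul y z _ _ hy hz => rw [map_mul]; exact Subalgebra.mul_mem _ hy hz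
  let φ : Algebra.adjoin R T →+* Algebra.adjoin R T := RingHom.restrict ψ _ _ hadj
  exact IsIntegral.map_of_comp_eq (R := Algebra.adjoin R T) (S := K)
    (T := Algebra.adjoin R T) (U := K) φ ψ (by ext; rfl) hb

end Sheets

section Tower

variable {R : Type u} [CommRing R] {F : Type u} [Field F] [Algebra R F]
variable {L : Type u} [Field L] [Algebra F L] [Algebra R L] [IsScalarTower R F L]

/-- The restriction of a sheet of `L` to `F` is a sheet of `F`. -/
theorem IsSheet.comap_algebraMap {w : R} {x : F} {W : ValuationSubring L}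
    (hW : IsSheet w (algebraMap F L x) W) : IsSheet w x (W.comap (algebraMap F L)) := by
  refine ⟨?_, ?_, ?_, ?_⟩
  · intro r
    rw [ValuationSubring.mem_comap, ← IsScalarTower.algebraMap_apply]
    exact hW.1 r
  · rw [ValuationSubring.mem_comap]
    exact hW.2.1
  · rw [mem_nonunits_comap, ← IsScalarTower.algebraMap_apply]
    exact hW.2.2.1
  · intro P hP
    rw [ValuationSubring.mem_comap, map_inv₀, ← aeval_algebraMap_apply]
    exact hW.2.2.2 P hP

end Tower

end Fermat.Agent.A2.H12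

end
-- ===== PACK-END A2/H12/GLemmas.lean

-- ===== PACK-BEGIN S24/H504/FF3Local.lean
section



/-!
# Local norm formula: `∑_x ord_z (σ_x f) = m · ∑_{v | t} ord_v f`
-/

set_option autoImplicit false
set_option linter.style.haveILetI false
set_option linter.unusedSectionVars false

namespace Fermat.Agent.S24.H504

open AlgebraicCurve IntermediateField

variable {K F : Type*} [Field K] [Field F] [Algebra K F]
variable {C : Type*} [Field C] {X : Type*} {t : F}

/-- `F` is algebraic over `K(t)` as soon as it is finite over a subfield of `K(t)`. -/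
theorem isAlgebraic_adjoin_of_le (E : IntermediateField K F) (hE : E ≤ K⟮t⟯)
    [FiniteDimensional E F] : Algebra.IsAlgebraic K⟮t⟯ F := by
  letI : Algebra E K⟮t⟯ := (IntermediateField.inclusion hE).toRingHom.toAlgebra
  haveI : IsScalarTower E K⟮t⟯ F := IsScalarTower.of_algebraMap_eq (fun x => rfl)
  exact Algebra.IsAlgebraic.tower_top (K := E) K⟮t⟯

theorem induces_placeOf (L : LocalData K F C X t) (x : X) :
    Induces (L.σ x) (H117.placeOf L x) :=
  fun f => H117.mem_placeOf_iff L x f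

theorem placeOf_eq_iff_induces (L : LocalData K F C X t) (x : X) (v : Place K F) :
    H117.placeOf L x = v ↔ Induces (L.σ x) v :=
  ⟨fun h => h ▸ induces_placeOf L x, fun h => (induces_placeOf L x).unique h⟩

section

variable [IsAlgClosed K] [CharZero K] [CharZero C] [Finite X]
variable (L : LocalData K F C X t)
variable (E : IntermediateField K F) (hE : E ≤ K⟮t⟯) [FiniteDimensional E F]
  (hrank : Module.finrank E F = Nat.card X)

include L hE hrank in
/-- **FF1 (equality).** `∑_{v | t} v(t) = #X = [F : E]`. -/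
theorem sum_ord_eq_card (s : Finset (Place K F)) (hs : ∀ v, v ∈ s ↔ 0 < v.ord t) :
    ∑ v ∈ s, v.ord t = Nat.card X := by
  haveI := isAlgebraic_adjoin_of_le (t := t) E hE
  exact (H117.localThm L E hE hrank s hs (LocalData.card_le_sum_ord L s hs)).2.2

include hE hrank in
theorem card_places_eq_numOrbits (s : Finset (Place K F)) (hs : ∀ v, v ∈ s ↔ 0 < v.ord t) :
    s.card = numOrbits L.perm := by
  haveI := isAlgebraic_adjoin_of_le (t := t) E hE
  exact (H117.localThm L E hE hrank s hs (LocalData.card_le_sum_ord L s hs)).1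

omit [IsAlgClosed K] [CharZero K] [CharZero C] in
theorem sum_card_fibre [Fintype X] [DecidableEq (Place K F)] (s : Finset (Place K F))
    (hs : ∀ v, v ∈ s ↔ 0 < v.ord t) :
    ∑ v ∈ s, (Finset.univ.filter (fun x => H117.placeOf L x = v)).card = Fintype.card X := by
  have hmaps : ∀ x ∈ (Finset.univ : Finset X), H117.placeOf L x ∈ s :=
    fun x _ => (hs _).mpr (H117.ord_t_pos L x)
  rw [← Finset.card_univ, Finset.card_eq_sum_card_fiberwise hmaps]

include hE hrank in
/-- Exactly `v(t)` embeddings induce a place `v` over `t = 0`. -/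
theorem card_fibre_eq [Fintype X] [DecidableEq (Place K F)] (v : Place K F)
    (hv : 0 < v.ord t) :
    ((Finset.univ.filter (fun x => H117.placeOf L x = v)).card : ℤ) = v.ord t := by
  haveI := isAlgebraic_adjoin_of_le (t := t) E hE
  have hfin : {v : Place K F | 0 < v.ord t}.Finite := H117.finite_places_over L E hE hrank
  set s := hfin.toFinset with hsdef
  have hs : ∀ v, v ∈ s ↔ 0 < v.ord t := fun v => by simp [hsdef]
  have hle : ∀ w ∈ s, ((Finset.univ.filter (fun x => H117.placeOf L x = w)).card : ℤ)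
      ≤ w.ord t := by
    intro w hw
    have := LocalData.card_fibre_le L w ((hs w).mp hw)
    have hc : Nat.card {x : X // Induces (L.σ x) w}
        = (Finset.univ.filter (fun x => H117.placeOf L x = w)).card := by
      haveI : Fintype {x : X // Induces (L.σ x) w} := Fintype.ofFinite _
      rw [Nat.card_eq_fintype_card]
      exact Fintype.card_of_subtype _ (fun x => by
        simp only [Finset.mem_filter, Finset.mem_univ, true_and]
        exact placeOf_eq_iff_induces L x w)
    rw [← hc]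
    exact this
  have h1 := sum_ord_eq_card L E hE hrank s hs
  have h2 := sum_card_fibre L s hs
  have h3 : ∑ w ∈ s, (w.ord t
      - ((Finset.univ.filter (fun x => H117.placeOf L x = w)).card : ℤ)) = 0 := by
    rw [Finset.sum_sub_distrib, h1, ← Nat.cast_sum, h2, Nat.card_eq_fintype_card]
    ring
  have h4 := (Finset.sum_eq_zero_iff_of_nonneg (fun w hw => sub_nonneg.mpr (hle w hw))).mp h3
    v ((hs v).mpr hv)
  linarith

include hE hrank in
/-- **Local norm formula.** -/
theorem sum_order_eq [Fintype X] (s : Finset (Place K F))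
    (hs : ∀ v, v ∈ s ↔ 0 < v.ord t) (f : F) :
    ∑ x, (L.σ x f).order = L.m * ∑ v ∈ s, v.ord f := by
  classical
  have hmaps : ∀ x ∈ (Finset.univ : Finset X), H117.placeOf L x ∈ s :=
    fun x _ => (hs _).mpr (H117.ord_t_pos L x)
  rw [← Finset.sum_fiberwise_of_maps_to hmaps, Finset.mul_sum]
  apply Finset.sum_congr rfl
  intro v hv
  have hv' : 0 < v.ord t := (hs v).mp hv
  have hcard := card_fibre_eq L E hE hrank v hv'
  have hterm : ∀ x ∈ Finset.univ.filter (fun x => H117.placeOf L x = v),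
      v.ord t * (L.σ x f).order = L.m * v.ord f := by
    intro x hx
    have hx' : H117.placeOf L x = v := (Finset.mem_filter.mp hx).2
    have h1 := H117.order_eq L x f
    have h2 := H117.mult_mul_ord_t L x
    rw [hx'] at h1 h2
    rw [h1, ← h2]
    ring
  have hsum : v.ord t * ∑ x ∈ Finset.univ.filter (fun x => H117.placeOf L x = v),
      (L.σ x f).order = v.ord t * (L.m * v.ord f) := by
    rw [Finset.mul_sum, Finset.sum_congr rfl hterm, Finset.sum_const, nsmul_eq_mul, hcard]
  exact mul_left_cancel₀ hv'.ne' hsum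

end

end Fermat.Agent.S24.H504

end
-- ===== PACK-END S24/H504/FF3Local.lean

-- ===== PACK-BEGIN S18/Mod/H216/PartVj.lean
section


/-!
# S18 / MOD (helper216): G-V for the coordinate `j` — the fields that need no basis

For a uniformiser `w` (`PartR (Ec M E) (Rc M A E) w`):
`R_le_V`, `w_inv_not_mem_V`, `V_gen`, `gauss` for `V = Vc M A E`, `x = jOm M`.
(`V_total` needs the S28 basis: see `Basis.lean`.)
-/

set_option autoImplicit false
set_option linter.unusedSectionVars false

noncomputable section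

namespace Fermat.Agent.S18.Mod.H216

open ModularCurve AlgebraicCurve HahnSeries Polynomial Fermat.Agent.S18 Fermat.Agent.S18.Mod

variable (M : ℕ) (A : ValuationSubring Qb) (E : IntermediateField ℚ Qb)

/-! ### Units and non-units of `A` -/

theorem residue_eq_zero_of_inv_not_mem {c : Qb} (hc : c ∈ A) (hinv : c⁻¹ ∉ A) :
    IsLocalRing.residue ↥A ⟨c, hc⟩ = 0 := by
  rw [IsLocalRing.residue_eq_zero_iff, IsLocalRing.mem_maximalIdeal, mem_nonunits_iff]
  rintro ⟨u, hu⟩
  apply hinv
  have h1 : (⟨c, hc⟩ : ↥A) * ((u⁻¹ : (↥A)ˣ) : ↥A) = 1 := by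
    rw [← hu]
    exact u.mul_inv
  have h2 : c * ((((u⁻¹ : (↥A)ˣ) : ↥A) : Qb)) = 1 := congrArg Subtype.val h1
  have h3 : c⁻¹ = ((((u⁻¹ : (↥A)ˣ) : ↥A) : Qb)) := inv_eq_of_mul_eq_one_right h2
  rw [h3]
  exact SetLike.coe_mem _

theorem residue_ne_zero_of_inv_mem {c : Qb} (hc : c ∈ A) (hc0 : c ≠ 0) (hinv : c⁻¹ ∈ A) :
    IsLocalRing.residue ↥A ⟨c, hc⟩ ≠ 0 := by
  rw [Ne, IsLocalRing.residue_eq_zero_iff, IsLocalRing.mem_maximalIdeal, mem_nonunits_iff, not_not]
  exact IsUnit.of_mul_eq_one (⟨c⁻¹, hinv⟩ : ↥A) (Subtype.ext (mul_inv_cancel₀ hc0))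

theorem inv_not_mem_of_residue_eq_zero {c : Qb} (hc : c ∈ A) (hc0 : c ≠ 0)
    (h : IsLocalRing.residue ↥A ⟨c, hc⟩ = 0) : c⁻¹ ∉ A :=
  fun hinv => residue_ne_zero_of_inv_mem A hc hc0 hinv h

/-! ### Constants -/

theorem algebraMap_mem_Rc_iff {c : Qb} : algebraMap Qb (Om M) c ∈ Rc M A E ↔ c ∈ A ∧ c ∈ E := by
  constructor
  · intro h
    obtain ⟨c', hA, hE, hcc⟩ := (mem_Rc_iff M A E).mp h
    have : c' = c := (algebraMap Qb (Om M)).injective hcc
    exact this ▸ ⟨hA, hE⟩
  · rintro ⟨hA, hE⟩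
    exact (mem_Rc_iff M A E).mpr ⟨c, hA, hE, rfl⟩

/-- The uniformiser data extracted from `PartR`. -/
theorem exists_unif {w : Om M} (hR : PartR (Ec M E) (Rc M A E) w) :
    ∃ c : Qb, c ∈ A ∧ c ∈ E ∧ c ≠ 0 ∧ c⁻¹ ∉ A ∧ algebraMap Qb (Om M) c = w := by
  obtain ⟨c, hA, hE, rfl⟩ := (mem_Rc_iff M A E).mp hR.w_mem
  refine ⟨c, hA, hE, ?_, ?_, rfl⟩
  · intro h0
    apply hR.w_ne_zero
    rw [h0, map_zero]
  · intro hinv
    apply hR.w_inv_not_mem
    rw [← map_inv₀]
    exact (algebraMap_mem_Rc_iff M A E).mpr ⟨hinv, inv_mem hE⟩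

theorem R_le_V : Rc M A E ≤ Vc M A E := by
  intro r hr
  obtain ⟨c, hA, hE, rfl⟩ := (mem_Rc_iff M A E).mp hr
  rw [← toOm_cInt M A E hA hE]
  exact toOm_mem_Vc M A E _

theorem w_inv_not_mem_V {w : Om M} (hR : PartR (Ec M E) (Rc M A E) w) : w⁻¹ ∉ Vc M A E := by
  obtain ⟨c, hA, hE, hc0, hcinv, rfl⟩ := exists_unif M A E hR
  intro h
  obtain ⟨U₁, U₂, hne, heq⟩ := (mem_Vc_iff' M A E).mp h
  have hw0 : algebraMap Qb (Om M) c ≠ 0 := hR.w_ne_zero
  have h1 : toOm M A E U₂ = toOm M A E (cInt M A E hA hE * U₁) := by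
    rw [map_mul, toOm_cInt, ← heq, ← mul_assoc, mul_inv_cancel₀ hw0, one_mul]
  have h2 : U₂ = cInt M A E hA hE * U₁ := toOm_injective M A E h1
  apply hne
  rw [h2, map_mul, redE_cInt, residue_eq_zero_of_inv_not_mem A hA hcinv, map_zero, zero_mul]

/-! ### Division of a series by the uniformiser -/

open Classical in
/-- Coefficientwise division by `c` (junk value `0` when the quotient is not in `A`). -/
def divC (c : Qb) : ZeroHom ↥A ↥A where
  toFun a := if h : (a : Qb) * c⁻¹ ∈ A then ⟨(a : Qb) * c⁻¹, h⟩ else 0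
  map_zero' := by
    have h : ((0 : ↥A) : Qb) * c⁻¹ ∈ A := by simp
    rw [dif_pos h]
    apply Subtype.ext
    simp

open Classical in
theorem divC_apply {c : Qb} {a : ↥A} (h : (a : Qb) * c⁻¹ ∈ A) :
    ((divC A c a : ↥A) : Qb) = (a : Qb) * c⁻¹ := by
  show ((if h : (a : Qb) * c⁻¹ ∈ A then (⟨(a : Qb) * c⁻¹, h⟩ : ↥A) else 0 : ↥A) : Qb) = _
  rw [dif_pos h]

theorem algebraMap_LS_eq_C (c : Qb) :
    algebraMap Qb (LaurentSeries Qb) c = HahnSeries.C c := by
  rw [algebraMap_laurentSeries_eq_single, ← HahnSeries.C_apply]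

/-- A series with zero reduction is divisible by the uniformiser inside `intE`. -/
theorem exists_eq_unif_mul {w : Om M} (hR : PartR (Ec M E) (Rc M A E) w)
    {U : ↥(intE M A E)} (hU : redE M A E U = 0) :
    ∃ U' : ↥(intE M A E), toOm M A E U = w * toOm M A E U' := by
  obtain ⟨c, hA, hE, hc0, hcinv, rfl⟩ := exists_unif M A E hR
  have hUE : ∀ n, (((U : LaurentSeries ↥A).coeff n : ↥A) : Qb) ∈ E :=
    ((mem_intE M A E).mp U.2).1
  have hres : ∀ n, IsLocalRing.residue ↥A ((U : LaurentSeries ↥A).coeff n) = 0 := by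
    intro n
    have := congrArg (fun z : LaurentSeries (IsLocalRing.ResidueField ↥A) => z.coeff n) hU
    simpa using this
  have hdiv : ∀ n, (((U : LaurentSeries ↥A).coeff n : ↥A) : Qb) * c⁻¹ ∈ A := by
    intro n
    set a := (U : LaurentSeries ↥A).coeff n with ha
    by_cases ha0 : (a : Qb) = 0
    · rw [ha0, zero_mul]
      exact zero_mem _
    have hr : algebraMap Qb (Om M) (a : Qb) ∈ Rc M A E :=
      (algebraMap_mem_Rc_iff M A E).mpr ⟨a.2, hUE n⟩
    have hrinv : (algebraMap Qb (Om M) (a : Qb))⁻¹ ∉ Rc M A E := by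
      rw [← map_inv₀, algebraMap_mem_Rc_iff]
      rintro ⟨h, -⟩
      exact inv_not_mem_of_residue_eq_zero A a.2 ha0 (hres n) h
    have := hR.w_gen _ hr hrinv
    rw [← map_inv₀, ← map_mul, algebraMap_mem_Rc_iff] at this
    exact this.1
  set U' : LaurentSeries ↥A := (U : LaurentSeries ↥A).map (divC A c) with hU'
  have hcoeff : ∀ n, ((U'.coeff n : ↥A) : Qb) = (((U : LaurentSeries ↥A).coeff n : ↥A) : Qb) * c⁻¹ :=
    fun n => divC_apply A (hdiv n)
  have hmul : inclA A (U : LaurentSeries ↥A) = HahnSeries.C c * inclA A U' := by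
    ext n
    rw [HahnSeries.C_mul_eq_smul, HahnSeries.coeff_smul]
    show (((U : LaurentSeries ↥A).coeff n : ↥A) : Qb) = c • ((U'.coeff n : ↥A) : Qb)
    rw [hcoeff, smul_eq_mul]
    field_simp
  have hw0 : algebraMap Qb (Om M) c ≠ 0 := hR.w_ne_zero
  have hincl : inclA A U' =
      (((algebraMap Qb (Om M) c)⁻¹ * toOm M A E U : Om M) : LaurentSeries Qb) := by
    have hC0 : (HahnSeries.C c : LaurentSeries Qb) ≠ 0 := by
      rw [← coe_algebraMap_Om M c]
      exact fun h => hw0 (Subtype.ext h)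
    push_cast
    rw [algebraMap_LS_eq_C, coe_toOm, hmul, ← mul_assoc, inv_mul_cancel₀ hC0, one_mul]
  have hmem : U' ∈ intE M A E := by
    rw [mem_intE]
    refine ⟨fun n => ?_, (algebraMap Qb (Om M) c)⁻¹ * toOm M A E U, ?_, hincl.symm⟩
    · rw [hcoeff]
      exact mul_mem (hUE n) (inv_mem hE)
    · exact mul_mem (inv_mem (Ec_le_Fc M E ((mem_Ec_iff M E).mpr ⟨c, hE, rfl⟩)))
        (toOm_mem_Fc M A E U)
  refine ⟨⟨U', hmem⟩, ?_⟩
  apply Subtype.ext
  push_cast
  rw [algebraMap_LS_eq_C, coe_toOm, coe_toOm]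
  exact hmul

theorem V_gen {w : Om M} (hR : PartR (Ec M E) (Rc M A E) w) :
    ∀ f ∈ Vc M A E, f⁻¹ ∉ Vc M A E → f * w⁻¹ ∈ Vc M A E := by
  intro f hf hfinv
  obtain ⟨U₁, U₂, hne, heq⟩ := (mem_Vc_iff' M A E).mp hf
  have hw0 := hR.w_ne_zero
  have h1 : redE M A E U₁ = 0 := by
    by_contra h1
    apply hfinv
    have hU1 := toOm_ne_zero_of_redE M A E h1
    have hf0 : f ≠ 0 := by
      intro h0
      rw [h0, zero_mul] at heq
      exact hU1 heq.symm
    refine (mem_Vc_iff' M A E).mpr ⟨U₂, U₁, h1, ?_⟩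
    rw [← heq, ← mul_assoc, inv_mul_cancel₀ hf0, one_mul]
  obtain ⟨U', hU'⟩ := exists_eq_unif_mul M A E hR h1
  refine (mem_Vc_iff' M A E).mpr ⟨U', U₂, hne, ?_⟩
  rw [mul_right_comm, heq, hU', mul_comm w, mul_assoc, mul_inv_cancel₀ hw0, mul_one]

/-! ### The Gauss property -/

theorem gauss_j (P : Polynomial (Om M)) (hP : ∀ i, P.coeff i ∈ Rc M A E)
    (hu : ∃ i, P.coeff i ≠ 0 ∧ (P.coeff i)⁻¹ ∈ Rc M A E) :
    (P.eval (jOm M))⁻¹ ∈ Vc M A E := by
  have hlifts : P ∈ Polynomial.lifts (Rc M A E).subtype :=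
    (Polynomial.lifts_iff_coeff_lifts P).mpr fun i => ⟨⟨P.coeff i, hP i⟩, rfl⟩
  obtain ⟨p, hp⟩ := (Polynomial.mem_lifts P).mp hlifts
  have hev : P.eval (jOm M) = evR (Rc M A E) (jOm M) p := by
    rw [← hp, evR_apply, Polynomial.eval_map]
  rw [hev, evR_eq_toOm_Uev]
  apply inv_toOm_mem_Vc
  rw [Ne, redE_Uev_eq_zero_iff]
  obtain ⟨i, hi0, hiinv⟩ := hu
  intro h0
  have h1 := congrArg (fun q => q.coeff i) h0
  simp only [Polynomial.coeff_map, Polynomial.coeff_zero] at h1
  set c := (eRc M A E).symm (p.coeff i) with hc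
  have hcP : algebraMap Qb (Om M) (c : Qb) = P.coeff i := by
    have h2 : ((eRc M A E c : ↥(Rc M A E)) : Om M) = ((p.coeff i : ↥(Rc M A E)) : Om M) := by
      rw [hc, RingEquiv.apply_symm_apply]
    rw [coe_eRc] at h2
    rw [h2, ← hp, Polynomial.coeff_map]
    rfl
  have hc0 : (c : Qb) ≠ 0 := by
    intro h
    apply hi0
    rw [← hcP, h, map_zero]
  have hcinv : (c : Qb)⁻¹ ∈ A := by
    rw [← hcP, ← map_inv₀, algebraMap_mem_Rc_iff] at hiinv
    exact hiinv.1
  exact residue_ne_zero_of_inv_mem A c.2.1 hc0 hcinv h1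

end Fermat.Agent.S18.Mod.H216

end
end
-- ===== PACK-END S18/Mod/H216/PartVj.lean

-- ===== PACK-BEGIN S18/H394/KummerCharts.lean
section






/-!
# S18, Route K (helper394): the Kummer endgame on the charts of the `x`-line model

Typed core of `node_alg`.  Setting (as in `H138/Connected.lean`): `R` a noetherian local domain
with `R[X]` integrally closed (e.g. a DVR), `F` a field of characteristic `0` containing `R`,
`x ∈ F` transcendental over `R`, `F` finite over `baseField R x`, `R` integrally closed in `F`;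
charts `B₀ = chart R {x}`, `B₁ = chart R {x⁻¹}`, `M = chart R {x, x⁻¹}` (integral closures of
`R[x]`, `R[x⁻¹]`, `R[x, x⁻¹]` in `F`), `w ∈ R` a non-unit, `m` invertible in `R`.

* `kummer_charts`: the hypotheses `hrc`, `hloc`, `hint`, `hfin`, `hden`, `hw1` of
  `H394.kummer_endgame` are discharged for the charts; conclusion: `u` does NOT have exact order
  `m` modulo `Frac(R)ˣ (Fˣ)^m`.
* `kummer_charts_prime`: for `m` prime, `u = r ^ a * y ^ m` with `r ∈ R`, `a ∈ ℤ`, `y ∈ F`.
* `kummer_charts_of_regular`: the same from the chartwise hypotheses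
  `Prime w`, `H754.RegularAlong w` (b2), `H754.OneModPi w u`, `H754.DivisibleDivisor B m u`
  (via `H214.local_existence`; the saturation hypothesis `hsat` is proved here).
-/

set_option autoImplicit false
set_option linter.style.haveILetI false

namespace Fermat.Agent.S18.H394

open Polynomial
open Fermat.Agent.S18.H138 (chart baseField)

section Basic

variable {R : Type*} [CommRing R] {F : Type*} [Field F] [Algebra R F]

theorem rootClosed_chart (S : Set F) {m : ℕ} (hm : 0 < m) : RootClosed m (chart R S) := by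
  intro f hf
  rw [H138.mem_chart] at hf ⊢
  exact IsIntegral.of_pow hm hf

theorem chart_inv_pair (x : F) :
    chart R ({x⁻¹, x⁻¹⁻¹} : Set F) = chart R ({x, x⁻¹} : Set F) := by
  rw [inv_inv, Set.pair_comm]

theorem subalgebra_dvd_iff (B : Subalgebra R F) (w : R) (s : B) :
    algebraMap R B w ∣ s ↔ ∃ c ∈ B, (s : F) = algebraMap R F w * c := by
  constructor
  · rintro ⟨c, hc⟩
    exact ⟨c, c.2, by rw [hc]; rfl⟩
  · rintro ⟨c, hc, h⟩
    exact ⟨⟨c, hc⟩, Subtype.ext h⟩

/-- Elementary unmixedness inside the fraction field. -/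
theorem mem_of_mul_mem_of_prime (B : Subalgebra R F) (w : R)
    (hw : Prime (algebraMap R B w)) (s : B) (hs : ¬ algebraMap R B w ∣ s) (g : F)
    (h1 : algebraMap R F w * g ∈ B) (h2 : (s : F) * g ∈ B) : g ∈ B := by
  have hw0 : algebraMap R F w ≠ 0 := by
    intro h
    apply hw.ne_zero
    exact Subtype.ext h
  have hdvd : algebraMap R B w ∣ s * ⟨_, h1⟩ := by
    refine ⟨⟨_, h2⟩, Subtype.ext ?_⟩
    change (s : F) * (algebraMap R F w * g) = algebraMap R F w * ((s : F) * g)
    ring
  rcases hw.dvd_or_dvd hdvd with h | h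
  · exact absurd h hs
  · obtain ⟨c, hc, h3⟩ := (subalgebra_dvd_iff B w _).mp h
    have : g = c := mul_left_cancel₀ hw0 h3
    rw [this]; exact hc

end Basic

section Charts

variable {R : Type*} [CommRing R] {F : Type*} [Field F] [Algebra R F]
variable [IsNoetherianRing R] [IsIntegrallyClosed R[X]] [CharZero F]

/-- Finite generation of the chart in the form used by `kummer_endgame`. -/
theorem exists_finset_gens {x : F} (hx : Transcendental R x)
    [FiniteDimensional (baseField R x) F] :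
    ∃ s : Finset F, ∀ b ∈ chart R ({x} : Set F), ∃ P : F → R[X],
      b = ∑ β ∈ s, aeval x (P β) * β := by
  classical
  obtain ⟨n, bs, -, hgen⟩ := H138.exists_finite_gens (R := R) hx
  refine ⟨Finset.univ.image bs, fun b hb => ?_⟩
  have key : ∀ z ∈ Submodule.span R {z : F | ∃ (j : ℕ) (i : Fin n), z = x ^ j * bs i},
      ∃ P : F → R[X], z = ∑ β ∈ Finset.univ.image bs, aeval x (P β) * β := by
    intro z hz
    induction hz using Submodule.span_induction with
    | mem z hz =>
      obtain ⟨j, i, rfl⟩ := hz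
      refine ⟨fun β => if β = bs i then X ^ j else 0, ?_⟩
      rw [Finset.sum_eq_single (bs i)]
      · simp
      · intro β _ hβ
        simp [hβ]
      · intro h
        exact absurd (Finset.mem_image_of_mem bs (Finset.mem_univ i)) h
    | zero => exact ⟨fun _ => 0, by simp⟩
    | add y z _ _ hy hz =>
      obtain ⟨P, hP⟩ := hy
      obtain ⟨Q, hQ⟩ := hz
      refine ⟨fun β => P β + Q β, ?_⟩
      rw [hP, hQ, ← Finset.sum_add_distrib]
      refine Finset.sum_congr rfl fun β _ => ?_
      rw [map_add, add_mul]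
    | smul r z _ hz =>
      obtain ⟨P, hP⟩ := hz
      refine ⟨fun β => C r * P β, ?_⟩
      rw [hP, Finset.smul_sum]
      refine Finset.sum_congr rfl fun β _ => ?_
      rw [map_mul, aeval_C, Algebra.smul_def, mul_assoc]
  exact key b (hgen b hb)

/-- Every element of `F` has a denominator in the chart. -/
theorem exists_den {x : F} (hx : Transcendental R x) [FiniteDimensional (baseField R x) F]
    (z : F) : ∃ d ∈ chart R ({x} : Set F), d ≠ 0 ∧ d * z ∈ chart R ({x} : Set F) := by
  obtain ⟨-, -, hfr⟩ := chart_instances (R := R) hx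
  obtain ⟨a, b, hb, hab⟩ := IsFractionRing.div_surjective (A := chart R ({x} : Set F)) z
  have hb0 : (b : F) ≠ 0 := by
    intro h
    exact nonZeroDivisors.ne_zero hb (Subtype.ext h)
  refine ⟨b, b.2, hb0, ?_⟩
  have : (b : F) * z = a := by
    rw [← hab]
    change (b : F) * ((a : F) / (b : F)) = a
    field_simp
  rw [this]
  exact a.2

/-- `C w ∣ Q` if `Q(x) ∈ w B₀`. -/
theorem dvd_coeff_of_aeval_eq_mul {x : F} (hx : Transcendental R x)
    (hinjR : Function.Injective (algebraMap R F)) (w : R) (hw0 : w ≠ 0) (Q : R[X]) {t : F}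
    (ht : t ∈ chart R ({x} : Set F)) (h : aeval x Q = algebraMap R F w * t) (n : ℕ) :
    w ∣ Q.coeff n := by
  have hwF : algebraMap R F w ≠ 0 := fun h0 => hw0 (hinjR (by rw [h0, map_zero]))
  haveI := H138.isIntegrallyClosed_adjoin_singleton (R := R) hx
  have htK : t ∈ baseField R x := by
    have : t = aeval x Q / algebraMap R F w := by
      rw [h, mul_div_cancel_left₀ _ hwF]
    rw [this]
    refine (baseField R x).div_mem (H138.adjoin_le_baseField x ?_)
      (Subfield.subset_closure (Or.inl ⟨w, rfl⟩))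
    exact H138.mem_adjoin_singleton_iff.2 ⟨Q, rfl⟩
  have htA : t ∈ Algebra.adjoin R ({x} : Set F) :=
    H138.mem_of_isIntegral_of_mem _ (baseField R x) (fun a ha => H138.adjoin_le_baseField x ha)
      (fun z hz => H138.exists_div_of_mem_baseField x hz) htK ht
  obtain ⟨P, rfl⟩ := H138.mem_adjoin_singleton_iff.1 htA
  have h3 : aeval x (Q - C w * P) = 0 := by
    rw [map_sub, map_mul, aeval_C, h, sub_self]
  have h4 := (transcendental_iff.1 hx) _ h3
  have h5 : Q = C w * P := sub_eq_zero.1 h4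
  refine ⟨P.coeff n, ?_⟩
  rw [h5, coeff_C_mul]

variable [IsLocalRing R]

/-- **The Kummer endgame on the charts.** -/
theorem kummer_charts
    (hinjR : Function.Injective (algebraMap R F))
    (hRF : ∀ y : F, IsIntegral R y → y ∈ Set.range (algebraMap R F))
    {x : F} (hx : Transcendental R x) [FiniteDimensional (baseField R x) F]
    (w : R) (hw : ¬ IsUnit w)
    (m : ℕ) (hm : 2 ≤ m) (ν : R) (hν : ν * (m : R) = 1)
    (u : F) (hu : u ≠ 0) (σ₀ σ₁ : F)
    (h₀ : ∃ b ∈ chart R ({x} : Set F), σ₀ ^ m * u - 1 = algebraMap R F w * b)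
    (h₁ : ∃ b ∈ chart R ({x⁻¹} : Set F), σ₁ ^ m * u - 1 = algebraMap R F w * b)
    (h₀₁ : ∃ γ : F, σ₀ - σ₁ = algebraMap R F w * γ ∧ γ ^ m * u ∈ chart R ({x, x⁻¹} : Set F)) :
    ∃ i : ℕ, 0 < i ∧ i < m ∧ ∃ f : F, f ≠ 0 ∧ ∃ r : R, f ^ m * u ^ i = algebraMap R F r := by
  by_contra hcon
  push Not at hcon
  have hx0 : x ≠ 0 := H138.ne_zero_of_transcendental hx
  have hm0 : 0 < m := by omega
  refine kummer_endgame m hm ν hν w u hu (chart R ({x} : Set F)) (chart R ({x⁻¹} : Set F))
    (chart R ({x, x⁻¹} : Set F)) (rootClosed_chart _ hm0) (rootClosed_chart _ hm0)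
    (rootClosed_chart _ hm0) x hx0 (H138.mem_chart_of_mem rfl) (H138.mem_chart_of_mem rfl)
    (H138.chart_mono (by simp)) (H138.chart_mono (by simp)) ?_ ?_ ?_ (exists_finset_gens hx) ?_ ?_
    (fun i hi him f hf r => hcon i hi him f hf r) σ₀ σ₁ h₀ h₁ h₀₁
  · intro y hy
    exact H138.exists_pow_mul_mem_chart hx0 hy
  · intro y hy
    refine H138.exists_pow_mul_mem_chart (inv_ne_zero hx0) ?_
    rw [chart_inv_pair]
    exact hy
  · intro y hy0 hy1
    obtain ⟨r, hr⟩ := hRF y (H138.isIntegral_of_mem_chart_inter hx hy0 hy1)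
    exact ⟨r, hr⟩
  · obtain ⟨d, hd, hd0, hdu⟩ := exists_den (R := R) hx u⁻¹
    exact ⟨d, hd, hd0, hdu⟩
  · intro b hb h
    apply hw
    have := H138.dvd_of_algebraMap_eq_mul hinjR hx w 1 hb (by rw [map_one, h])
    exact isUnit_of_dvd_one this

/-- For prime `m`: `u` is a constant times an `m`-th power. -/
theorem kummer_charts_prime
    (hinjR : Function.Injective (algebraMap R F))
    (hRF : ∀ y : F, IsIntegral R y → y ∈ Set.range (algebraMap R F))
    {x : F} (hx : Transcendental R x) [FiniteDimensional (baseField R x) F]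
    (w : R) (hw : ¬ IsUnit w)
    (m : ℕ) (hm : m.Prime) (ν : R) (hν : ν * (m : R) = 1)
    (u : F) (hu : u ≠ 0) (σ₀ σ₁ : F)
    (h₀ : ∃ b ∈ chart R ({x} : Set F), σ₀ ^ m * u - 1 = algebraMap R F w * b)
    (h₁ : ∃ b ∈ chart R ({x⁻¹} : Set F), σ₁ ^ m * u - 1 = algebraMap R F w * b)
    (h₀₁ : ∃ γ : F, σ₀ - σ₁ = algebraMap R F w * γ ∧ γ ^ m * u ∈ chart R ({x, x⁻¹} : Set F)) :
    ∃ (r : R) (a : ℤ) (y : F), r ≠ 0 ∧ u = algebraMap R F r ^ a * y ^ m := by
  obtain ⟨i, hi0, him, f, hf, r, hr⟩ :=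
    kummer_charts hinjR hRF hx w hw m hm.two_le ν hν u hu σ₀ σ₁ h₀ h₁ h₀₁
  have hr0 : r ≠ 0 := by
    rintro rfl
    rw [map_zero] at hr
    exact mul_ne_zero (pow_ne_zero m hf) (pow_ne_zero i hu) hr
  have hrF : algebraMap R F r ≠ 0 := fun h => hr0 (hinjR (by rw [h, map_zero]))
  have hcop : Nat.Coprime i m :=
    ((Nat.Prime.coprime_iff_not_dvd hm).mpr (Nat.not_dvd_of_pos_of_lt hi0 him)).symm
  -- Bezout
  have hbez : (i : ℤ) * Nat.gcdA i m + (m : ℤ) * Nat.gcdB i m = 1 := by
    have := Nat.gcd_eq_gcd_ab i m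
    rw [hcop.gcd_eq_one] at this
    exact_mod_cast this.symm
  set a : ℤ := Nat.gcdA i m with ha
  set b : ℤ := Nat.gcdB i m with hb
  refine ⟨r, a, f⁻¹ ^ a * u ^ b, hr0, ?_⟩
  have e1 : (f ^ m * u ^ i) ^ a = f ^ ((m : ℤ) * a) * u ^ ((i : ℤ) * a) := by
    rw [mul_zpow, ← zpow_natCast f m, ← zpow_natCast u i, ← zpow_mul, ← zpow_mul]
  have e2 : (f⁻¹ ^ a * u ^ b) ^ m = f ^ (-((m : ℤ) * a)) * u ^ ((m : ℤ) * b) := by
    rw [mul_pow, ← zpow_natCast (f⁻¹ ^ a) m, ← zpow_natCast (u ^ b) m, ← zpow_mul, ← zpow_mul,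
      inv_zpow', mul_comm a (m : ℤ), mul_comm b (m : ℤ)]
  rw [← hr, e1, e2]
  have e3 : f ^ ((m : ℤ) * a) * u ^ ((i : ℤ) * a) * (f ^ (-((m : ℤ) * a)) * u ^ ((m : ℤ) * b))
      = (f ^ ((m : ℤ) * a) * f ^ (-((m : ℤ) * a))) * (u ^ ((i : ℤ) * a) * u ^ ((m : ℤ) * b)) := by
    ring
  rw [e3, ← zpow_add₀ hf, ← zpow_add₀ hu, add_neg_cancel, zpow_zero, one_mul, hbez, zpow_one]

end Charts

end Fermat.Agent.S18.H394

end
-- ===== PACK-END S18/H394/KummerCharts.lean

-- ===== PACK-BEGIN S28/H988/Upper.lean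
section
/-
S28 / [L.UP] upper bound, helper988.
`[E_N : k(j)] ≤ ψ(N)` over ANY field `k`, from the modular relations at the primes dividing `N`;
adapter from the captain's `ModPolyData`.
-/






set_option autoImplicit false

noncomputable section

open Polynomial ModularCurve

namespace Fermat.Agent.S28.H988

variable (k : Type*) [Field k]

/-- Adapter: the captain's `ModPolyData p` gives the relations over every field. -/
theorem phiRel_of_modPolyData (p : ℕ) [NeZero p] (D : Fermat.Agent.S28.ModPolyData p) :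
    PhiRel k p D.Φ := by
  set c : LaurentSeries ℤ →+* LaurentSeries k := coeffMap (Int.castRingHom k) with hc
  have hcj : c (jqModC ℤ) = jqModC k := coeffMap_jqModC _
  have hcjp : c (qExpand ℤ p (jqModC ℤ)) = jd k p := by
    rw [hc, coeffMap_qExpand, coeffMap_jqModC, jd_eq]
  have hcomp : ∀ y : LaurentSeries ℤ,
      c.comp (Fermat.Agent.S28.evalAt y) = eval₂RingHom (Int.castRingHom (LaurentSeries k)) (c y) := by
    intro y
    apply Polynomial.ringHom_ext
    · intro a
      simp [Fermat.Agent.S28.evalAt]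
    · simp [Fermat.Agent.S28.evalAt]
  refine ⟨D.monic, D.natDegree_eq, ?_, ?_⟩
  · have := congrArg c D.eval_jp
    rw [map_zero, Polynomial.hom_eval₂, hcomp, hcj, hcjp, eval₂_eq_eval_map] at this
    exact this
  · have := congrArg c D.eval_j
    rw [map_zero, Polynomial.hom_eval₂, hcomp, hcj, hcjp, eval₂_eq_eval_map] at this
    exact this

theorem full_one : modularFunctionFieldFullC k 1 = IntermediateField.adjoin k {jqModC k} := by
  apply le_antisymm
  · rw [full_le_iff k one_ne_zero]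
    intro d hd
    rw [Nat.dvd_one.mp hd, jd_one]
    exact IntermediateField.mem_adjoin_simple_self k _
  · rw [IntermediateField.adjoin_le_iff]
    rintro x hx
    rw [Set.mem_singleton_iff] at hx
    rw [hx]
    exact jqModC_mem_full k 1

variable {k}

/-- **Upper bound.** `0 < [E_N : E_1] ≤ ψ(N)`. -/
theorem relfinrank_full_le (Φ : ℕ → Polynomial (Polynomial ℤ)) (N : ℕ) (hN : N ≠ 0)
    (hΦ : ∀ r, r.Prime → r ∣ N → PhiRel k r (Φ r)) :
    0 < IntermediateField.relfinrank (modularFunctionFieldFullC k 1)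
        (modularFunctionFieldFullC k N) ∧
    IntermediateField.relfinrank (modularFunctionFieldFullC k 1)
        (modularFunctionFieldFullC k N) ≤ dedekindPsi N := by
  induction N using induction_on_primes with
  | zero => exact absurd rfl hN
  | one =>
    rw [IntermediateField.relfinrank_self, dedekindPsi_one]
    exact ⟨Nat.one_pos, le_rfl⟩
  | prime_mul p M hp ih =>
    have hM : M ≠ 0 := by rintro rfl; simp at hN
    rw [mul_comm p M] at hΦ ⊢
    have ih' := ih hM (fun r hr hrM => hΦ r hr (hrM.trans (Dvd.intro p rfl)))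
    have hstep := relfinrank_step Φ hM hp hΦ
    have hMp : M * p ≠ 0 := Nat.mul_ne_zero hM hp.ne_zero
    have h1 : modularFunctionFieldFullC k 1 ≤ modularFunctionFieldFullC k M :=
      full_mono k hM (one_dvd M)
    have h2 : modularFunctionFieldFullC k M ≤ modularFunctionFieldFullC k (M * p) :=
      full_mono k hMp (Dvd.intro p rfl)
    rw [← IntermediateField.relfinrank_mul_relfinrank h1 h2]
    refine ⟨Nat.mul_pos ih'.1 hstep.1, ?_⟩
    by_cases hpM : p ∣ M
    · rw [if_pos hpM] at hstep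
      rw [Fermat.Agent.S20.H872.dedekindPsi_mul_prime_of_dvd hM hp hpM, mul_comm]
      exact Nat.mul_le_mul hstep.2 ih'.2
    · rw [if_neg hpM] at hstep
      rw [Fermat.Agent.S20.H872.dedekindPsi_mul_prime_of_not_dvd hM hp hpM, mul_comm]
      exact Nat.mul_le_mul hstep.2 ih'.2

/-- **Upper bound**, existential form of the hypothesis. -/
theorem relfinrank_full_le' (N : ℕ) (hN : N ≠ 0)
    (hΦ : ∀ r : ℕ, r.Prime → r ∣ N → ∃ Φ : Polynomial (Polynomial ℤ), PhiRel k r Φ) :
    0 < IntermediateField.relfinrank (modularFunctionFieldFullC k 1)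
        (modularFunctionFieldFullC k N) ∧
    IntermediateField.relfinrank (modularFunctionFieldFullC k 1)
        (modularFunctionFieldFullC k N) ≤ dedekindPsi N := by
  classical
  set Φ : ℕ → Polynomial (Polynomial ℤ) := fun r =>
    if h : r.Prime ∧ r ∣ N then (hΦ r h.1 h.2).choose else 0 with hΦdef
  refine relfinrank_full_le Φ N hN ?_
  intro r hr hrN
  have hΦr : Φ r = (hΦ r hr hrN).choose := by
    rw [hΦdef]
    simp only
    rw [dif_pos ⟨hr, hrN⟩]
  rw [hΦr]
  exact (hΦ r hr hrN).choose_spec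

/-- **Upper bound from the captain's interface**, over any field `k`:
`0 < [k(j(q^d) : d ∣ N) : k(j)] ≤ ψ(N)`. -/
theorem relfinrank_jField_full_le (N : ℕ) (hN : N ≠ 0)
    (hΦ : ∀ (r : ℕ) (hr : r.Prime), r ∣ N →
      Nonempty (@Fermat.Agent.S28.ModPolyData r ⟨hr.ne_zero⟩)) :
    0 < IntermediateField.relfinrank (Fermat.Agent.S28.jField k)
        (modularFunctionFieldFullC k N) ∧
    IntermediateField.relfinrank (Fermat.Agent.S28.jField k)
        (modularFunctionFieldFullC k N) ≤ dedekindPsi N := by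
  have hj : Fermat.Agent.S28.jField k = modularFunctionFieldFullC k 1 := (full_one k).symm
  rw [hj]
  refine relfinrank_full_le' N hN ?_
  intro r hr hrN
  have : NeZero r := ⟨hr.ne_zero⟩
  obtain ⟨D⟩ := hΦ r hr hrN
  exact ⟨D.Φ, phiRel_of_modPolyData k r D⟩

/-- The same over `ℚ`, for the Prelude's `modularFunctionFieldFull`. -/
theorem relfinrank_jField_modularFunctionFieldFull_le (N : ℕ) (hN : N ≠ 0)
    (hΦ : ∀ (r : ℕ) (hr : r.Prime), r ∣ N →
      Nonempty (@Fermat.Agent.S28.ModPolyData r ⟨hr.ne_zero⟩)) :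
    0 < IntermediateField.relfinrank (Fermat.Agent.S28.jField ℚ) (modularFunctionFieldFull N) ∧
    IntermediateField.relfinrank (Fermat.Agent.S28.jField ℚ) (modularFunctionFieldFull N)
      ≤ dedekindPsi N :=
  relfinrank_jField_full_le (k := ℚ) N hN hΦ

end Fermat.Agent.S28.H988

end

end
-- ===== PACK-END S28/H988/Upper.lean

-- ===== PACK-BEGIN S28/H88/Kronecker.lean
section
/-
S28-derived shared brick -- helper88: Frobenius on Laurent series in characteristic `p`
(`f ^ p = V_p (f^{(p)})`) and the Kronecker congruence for the modular polynomial: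
`Φ_p(X, Y) ≡ (X^p - Y)(X - Y^p) mod p`, derived formally from `ModPolyData p`.
-/


set_option autoImplicit false

noncomputable section

open ModularCurve HahnSeries

namespace Fermat.Agent.S28

section Frobenius

variable (k : Type*) [Field k] (p : ℕ) [hp : Fact p.Prime] [CharP k p] [NeZero p]

omit hp [NeZero p] in
theorem h88_charP_laurent : CharP (LaurentSeries k) p :=
  charP_of_injective_ringHom (f := (HahnSeries.C : k →+* LaurentSeries k))
    HahnSeries.C_injective p

omit hp [CharP k p] in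
/-- If all coefficients of `x` below `N` vanish, all coefficients of `x ^ p` below `p * N`
vanish. -/
theorem h88_coeff_pow_eq_zero {x : LaurentSeries k} {N : ℤ} (hx : ∀ i < N, x.coeff i = 0)
    {n : ℤ} (hn : n < (p : ℤ) * N) : (x ^ p).coeff n = 0 := by
  by_cases hx0 : x = 0
  · rw [hx0, zero_pow (NeZero.ne p), HahnSeries.coeff_zero]
  · apply HahnSeries.coeff_eq_zero_of_lt_order
    rw [HahnSeries.order_pow, nsmul_eq_mul]
    have h1 : N ≤ x.order := by
      by_contra hlt
      rw [not_le] at hlt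
      exact (HahnSeries.coeff_order_eq_zero.not.mpr hx0) (hx _ hlt)
    have hp0 : (0 : ℤ) ≤ (p : ℤ) := by positivity
    have h2 : (p : ℤ) * N ≤ (p : ℤ) * x.order := mul_le_mul_of_nonneg_left h1 hp0
    exact lt_of_lt_of_le hn h2

/-- **Frobenius on Laurent series** in characteristic `p`: `f ^ p = V_p (f^{(p)})`, where
`f^{(p)}` raises every coefficient to the `p`-th power. -/
theorem h88_pow_char_eq_qExpand (f : LaurentSeries k) :
    f ^ p = qExpand k p (coeffMap (frobenius k p) f) := by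
  have : CharP (LaurentSeries k) p := h88_charP_laurent k p
  have hp1 : (1 : ℤ) ≤ p := by exact_mod_cast Nat.pos_of_ne_zero (NeZero.ne p)
  ext n
  -- cut `f` at `N`
  obtain ⟨N, hN⟩ : ∃ N : ℤ, n < (p : ℤ) * N := by
    refine ⟨|n| + 1, ?_⟩
    have h1 : n ≤ |n| := le_abs_self n
    have h2 : (0 : ℤ) ≤ |n| := abs_nonneg n
    nlinarith
  set A : LaurentSeries k :=
    ∑ i ∈ Finset.Ico f.order N, HahnSeries.single i (f.coeff i) with hA
  have hAcoeff : ∀ i, A.coeff i = if i ∈ Finset.Ico f.order N then f.coeff i else 0 := by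
    intro i
    rw [hA, HahnSeries.coeff_sum]
    by_cases hi : i ∈ Finset.Ico f.order N
    · rw [if_pos hi, Finset.sum_eq_single_of_mem i hi, HahnSeries.coeff_single_same]
      intro i' _ hne
      exact HahnSeries.coeff_single_of_ne (Ne.symm hne)
    · rw [if_neg hi]
      apply Finset.sum_eq_zero
      intro i' hi'
      apply HahnSeries.coeff_single_of_ne
      rintro rfl
      exact hi hi'
  have hB : ∀ i < N, (f - A).coeff i = 0 := by
    intro i hi
    rw [HahnSeries.coeff_sub, hAcoeff]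
    by_cases hio : f.order ≤ i
    · rw [if_pos (Finset.mem_Ico.mpr ⟨hio, hi⟩), sub_self]
    · rw [if_neg (fun h => hio (Finset.mem_Ico.mp h).1), sub_zero]
      exact HahnSeries.coeff_eq_zero_of_lt_order (not_le.mp hio)
  have hsplit : f ^ p = A ^ p + (f - A) ^ p := by
    rw [← add_pow_char, add_sub_cancel]
  have hApow : A ^ p = ∑ i ∈ Finset.Ico f.order N,
      HahnSeries.single ((p : ℤ) * i) (f.coeff i ^ p) := by
    rw [hA, sum_pow_char]
    refine Finset.sum_congr rfl fun i _ => ?_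
    rw [HahnSeries.single_pow, nsmul_eq_mul]
  rw [hsplit, HahnSeries.coeff_add, h88_coeff_pow_eq_zero k p hB hN, add_zero, hApow,
    HahnSeries.coeff_sum]
  by_cases hdvd : (p : ℤ) ∣ n
  · obtain ⟨i₀, rfl⟩ := hdvd
    rw [qExpand_coeff_mul, coeffMap_coeff, frobenius_def]
    have hi₀N : i₀ < N := by
      by_contra hge
      rw [not_lt] at hge
      have : (p : ℤ) * N ≤ (p : ℤ) * i₀ := mul_le_mul_of_nonneg_left hge (by positivity)
      omega
    have hpne : (p : ℤ) ≠ 0 := by exact_mod_cast NeZero.ne p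
    by_cases hio : f.order ≤ i₀
    · rw [Finset.sum_eq_single_of_mem i₀ (Finset.mem_Ico.mpr ⟨hio, hi₀N⟩),
        HahnSeries.coeff_single_same]
      intro i' _ hne
      apply HahnSeries.coeff_single_of_ne
      intro h
      exact hne (mul_left_cancel₀ hpne h).symm
    · rw [HahnSeries.coeff_eq_zero_of_lt_order (not_le.mp hio), zero_pow (NeZero.ne p)]
      apply Finset.sum_eq_zero
      intro i' hi'
      apply HahnSeries.coeff_single_of_ne
      intro h
      have h1 : i₀ = i' := mul_left_cancel₀ hpne h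
      exact hio (h1 ▸ (Finset.mem_Ico.mp hi').1)
  · rw [qExpand_coeff_of_not_dvd p _ hdvd]
    apply Finset.sum_eq_zero
    intro i' _
    apply HahnSeries.coeff_single_of_ne
    rintro rfl
    exact hdvd ⟨i', rfl⟩

end Frobenius

section FrobeniusZMod

variable (p : ℕ) [hp : Fact p.Prime] [NeZero p]

/-- Over `𝔽_p`: `V_p f = f ^ p`. -/
theorem h88_qExpand_zmod (f : LaurentSeries (ZMod p)) :
    qExpand (ZMod p) p f = f ^ p := by
  rw [h88_pow_char_eq_qExpand (ZMod p) p f]
  congr 1
  ext n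
  rw [coeffMap_coeff, frobenius_def, ZMod.pow_card]

end FrobeniusZMod

section Kronecker

open Polynomial

variable (p : ℕ) [hp : Fact p.Prime] [NeZero p]

/-- The modular polynomial reduced mod `p`, in `𝔽_p[Y][X]`. -/
def h88_PhiBar (Φ : ModPolyData p) : Polynomial (Polynomial (ZMod p)) :=
  Φ.Φ.map (Polynomial.mapRingHom (Int.castRingHom (ZMod p)))

theorem h88_PhiBar_monic (Φ : ModPolyData p) : (h88_PhiBar p Φ).Monic := Φ.monic.map _

theorem h88_PhiBar_natDegree (Φ : ModPolyData p) : (h88_PhiBar p Φ).natDegree = p + 1 := by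
  rw [h88_PhiBar, Φ.monic.natDegree_map, Φ.natDegree_eq]

theorem h88_aeval_comp_mapRingHom (k : Type*) [Field k] (y : LaurentSeries k) :
    ((Polynomial.aeval (R := k) y).toRingHom).comp
        (Polynomial.mapRingHom (Int.castRingHom k)) = evalAt y := by
  apply Polynomial.ringHom_ext
  · intro a
    simp [evalAt]
  · simp [evalAt]

/-- `Ψ(j^p, j) = 0` where `Ψ = Φ mod p`. -/
theorem h88_PhiBar_eval_jp (Φ : ModPolyData p) :
    (h88_PhiBar p Φ).eval₂ (Polynomial.aeval (R := ZMod p) (jqModC (ZMod p))).toRingHom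
      ((jqModC (ZMod p)) ^ p) = 0 := by
  rw [h88_PhiBar, Polynomial.eval₂_map, h88_aeval_comp_mapRingHom, ← h88_qExpand_zmod]
  exact h88_modPoly_eval_jp (ZMod p) p Φ

/-- `Ψ(j, j^p) = 0` where `Ψ = Φ mod p`. -/
theorem h88_PhiBar_eval_j (Φ : ModPolyData p) :
    (h88_PhiBar p Φ).eval₂ (Polynomial.aeval (R := ZMod p) ((jqModC (ZMod p)) ^ p)).toRingHom
      (jqModC (ZMod p)) = 0 := by
  rw [h88_PhiBar, Polynomial.eval₂_map, h88_aeval_comp_mapRingHom, ← h88_qExpand_zmod]
  exact h88_modPoly_eval_j (ZMod p) p Φ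

/-- `Ψ(Y^p, Y) = 0` as a polynomial identity. -/
theorem h88_PhiBar_eval_X_pow (Φ : ModPolyData p) :
    (h88_PhiBar p Φ).eval ((Polynomial.X : Polynomial (ZMod p)) ^ p) = 0 := by
  apply h88_aeval_jqModC_injective (ZMod p)
  rw [map_zero]
  have h := Polynomial.hom_eval₂ (h88_PhiBar p Φ) (RingHom.id (Polynomial (ZMod p)))
    (Polynomial.aeval (R := ZMod p) (jqModC (ZMod p))).toRingHom
    ((Polynomial.X : Polynomial (ZMod p)) ^ p)
  rw [Polynomial.eval₂_id, RingHom.comp_id] at h
  have h2 : (Polynomial.aeval (R := ZMod p) (jqModC (ZMod p))).toRingHom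
      ((Polynomial.X : Polynomial (ZMod p)) ^ p) = (jqModC (ZMod p)) ^ p := by
    simp
  rw [h2, h88_PhiBar_eval_jp] at h
  exact h

theorem h88_aeval_pow_eq_qExpand (c : Polynomial (ZMod p)) :
    Polynomial.aeval ((jqModC (ZMod p)) ^ p) c
      = qExpand (ZMod p) p (Polynomial.aeval (jqModC (ZMod p)) c) := by
  rw [← h88_qExpand_zmod]
  exact Polynomial.aeval_algHom_apply (qExpandAlgHomC (ZMod p) p) (jqModC (ZMod p)) c

/-- A polynomial `R ∈ 𝔽_p[Y][X]` of `X`-degree `< p` with `R(j, j^p) = 0` vanishes. -/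
theorem h88_eq_zero_of_eval_j_pow (R : Polynomial (Polynomial (ZMod p)))
    (hdeg : R.natDegree < p)
    (h : R.eval₂ (Polynomial.aeval (R := ZMod p) ((jqModC (ZMod p)) ^ p)).toRingHom
      (jqModC (ZMod p)) = 0) : R = 0 := by
  rw [Polynomial.eval₂_eq_sum_range' _ hdeg] at h
  have h' : ∑ i ∈ Finset.range p,
      qExpand (ZMod p) p (Polynomial.aeval (jqModC (ZMod p)) (R.coeff i))
        * (jqModC (ZMod p)) ^ i = 0 := by
    rw [← h]
    refine Finset.sum_congr rfl fun i _ => ?_
    rw [← h88_aeval_pow_eq_qExpand]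
    rfl
  have h0 := h88_linIndep_core (ZMod p) p
    (fun i => Polynomial.aeval (jqModC (ZMod p)) (R.coeff i)) h'
  refine Polynomial.ext fun i => ?_
  rw [Polynomial.coeff_zero]
  by_cases hi : i < p
  · apply h88_aeval_jqModC_injective (ZMod p)
    rw [map_zero]
    exact h0 i (Finset.mem_range.mpr hi)
  · exact Polynomial.coeff_eq_zero_of_natDegree_lt (by omega)

/-- **Kronecker congruence**: `Φ_p(X, Y) ≡ (X^p - Y)(X - Y^p) mod p`. -/
theorem h88_kronecker (Φ : ModPolyData p) :
    h88_PhiBar p Φ =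
      ((Polynomial.X : Polynomial (Polynomial (ZMod p))) ^ p
          - Polynomial.C (Polynomial.X : Polynomial (ZMod p)))
        * (Polynomial.X - Polynomial.C ((Polynomial.X : Polynomial (ZMod p)) ^ p)) := by
  have hp0 : p ≠ 0 := NeZero.ne p
  have hp2 : 2 ≤ p := hp.out.two_le
  obtain ⟨D, hD⟩ : ∃ D : Polynomial (Polynomial (ZMod p)),
      D = (Polynomial.X : Polynomial (Polynomial (ZMod p))) ^ p
        - Polynomial.C (Polynomial.X : Polynomial (ZMod p)) := ⟨_, rfl⟩
  rw [← hD]
  have hDmonic : D.Monic := by rw [hD]; exact Polynomial.monic_X_pow_sub_C _ hp0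
  have hDdeg : D.natDegree = p := by rw [hD]; exact Polynomial.natDegree_X_pow_sub_C
  have hD1 : D ≠ 1 := by
    intro h1
    have := congrArg Polynomial.natDegree h1
    rw [hDdeg, Polynomial.natDegree_one] at this
    exact hp0 this
  have hdiv := Polynomial.modByMonic_add_div (h88_PhiBar p Φ) D
  -- the remainder vanishes
  have hRdeg : (h88_PhiBar p Φ %ₘ D).natDegree < p := by
    have := Polynomial.natDegree_modByMonic_lt (h88_PhiBar p Φ) hDmonic hD1
    rwa [hDdeg] at this
  have hevD : D.eval₂ (Polynomial.aeval (R := ZMod p) ((jqModC (ZMod p)) ^ p)).toRingHom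
      (jqModC (ZMod p)) = 0 := by
    rw [hD, Polynomial.eval₂_sub, Polynomial.eval₂_pow, Polynomial.eval₂_X, Polynomial.eval₂_C]
    simp
  have hevR : (h88_PhiBar p Φ %ₘ D).eval₂
      (Polynomial.aeval (R := ZMod p) ((jqModC (ZMod p)) ^ p)).toRingHom
      (jqModC (ZMod p)) = 0 := by
    have h := h88_PhiBar_eval_j p Φ
    rw [← hdiv, Polynomial.eval₂_add, Polynomial.eval₂_mul, hevD, zero_mul, add_zero] at h
    exact h
  have hR0 : h88_PhiBar p Φ %ₘ D = 0 := h88_eq_zero_of_eval_j_pow p _ hRdeg hevR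
  rw [hR0, zero_add] at hdiv
  -- the quotient is monic of degree one
  have hmon : (D * (h88_PhiBar p Φ /ₘ D)).Monic := by
    rw [hdiv]; exact h88_PhiBar_monic p Φ
  have hQmonic : (h88_PhiBar p Φ /ₘ D).Monic := hDmonic.of_mul_monic_left hmon
  have hQdeg : (h88_PhiBar p Φ /ₘ D).natDegree = 1 := by
    have h := congrArg Polynomial.natDegree hdiv
    rw [hDmonic.natDegree_mul hQmonic, hDdeg, h88_PhiBar_natDegree] at h
    omega
  have hQ := hQmonic.eq_X_add_C hQdeg
  -- evaluate at `X = Y ^ p`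
  have hev := h88_PhiBar_eval_X_pow p Φ
  have hDev : D.eval ((Polynomial.X : Polynomial (ZMod p)) ^ p)
      = ((Polynomial.X : Polynomial (ZMod p)) ^ p) ^ p - Polynomial.X := by
    rw [hD, Polynomial.eval_sub, Polynomial.eval_pow, Polynomial.eval_X, Polynomial.eval_C]
  have hQev : (h88_PhiBar p Φ /ₘ D).eval ((Polynomial.X : Polynomial (ZMod p)) ^ p)
      = (Polynomial.X : Polynomial (ZMod p)) ^ p + (h88_PhiBar p Φ /ₘ D).coeff 0 := by
    conv_lhs => rw [hQ, Polynomial.eval_add, Polynomial.eval_X, Polynomial.eval_C]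
  rw [← hdiv, Polynomial.eval_mul, hDev, hQev] at hev
  have hne : ((Polynomial.X : Polynomial (ZMod p)) ^ p) ^ p - Polynomial.X ≠ 0 := by
    intro h0
    have h1 := congrArg (fun q => Polynomial.coeff q 1) h0
    simp only [Polynomial.coeff_sub, Polynomial.coeff_X_one, Polynomial.coeff_zero] at h1
    rw [← pow_mul, Polynomial.coeff_X_pow, if_neg (by nlinarith), zero_sub] at h1
    exact one_ne_zero (neg_eq_zero.mp h1)
  have hc : (h88_PhiBar p Φ /ₘ D).coeff 0 = -((Polynomial.X : Polynomial (ZMod p)) ^ p) := by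
    rcases mul_eq_zero.mp hev with h | h
    · exact absurd h hne
    · exact eq_neg_of_add_eq_zero_right h
  rw [← hdiv]
  conv_lhs => rw [hQ, hc, Polynomial.C_neg, ← sub_eq_add_neg]

/-- Kronecker congruence over any commutative ring `k` of characteristic `p`. -/
theorem h88_kronecker_charP (k : Type*) [CommRing k] [CharP k p] (Φ : ModPolyData p) :
    Φ.Φ.map (Polynomial.mapRingHom (Int.castRingHom k)) =
      ((Polynomial.X : Polynomial (Polynomial k)) ^ p
          - Polynomial.C (Polynomial.X : Polynomial k))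
        * (Polynomial.X - Polynomial.C ((Polynomial.X : Polynomial k) ^ p)) := by
  have h := congrArg (Polynomial.map (Polynomial.mapRingHom (ZMod.castHom (dvd_refl p) k)))
    (h88_kronecker p Φ)
  rw [h88_PhiBar, Polynomial.map_map] at h
  have hcomp : (Polynomial.mapRingHom (ZMod.castHom (dvd_refl p) k)).comp
      (Polynomial.mapRingHom (Int.castRingHom (ZMod p)))
      = Polynomial.mapRingHom (Int.castRingHom k) := by
    apply Polynomial.ringHom_ext
    · intro a
      simp
    · simp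
  rw [hcomp] at h
  rw [h]
  simp

/-- Kronecker congruence over `ℤ`: `Φ_p = (X^p - Y)(X - Y^p) + p · Θ`. -/
theorem h88_kronecker_int (Φ : ModPolyData p) :
    ∃ Θ : Polynomial (Polynomial ℤ), Φ.Φ =
      ((Polynomial.X : Polynomial (Polynomial ℤ)) ^ p
          - Polynomial.C (Polynomial.X : Polynomial ℤ))
        * (Polynomial.X - Polynomial.C ((Polynomial.X : Polynomial ℤ) ^ p))
        + Polynomial.C (Polynomial.C (p : ℤ)) * Θ := by
  set G : Polynomial (Polynomial ℤ) := Φ.Φ -
      ((Polynomial.X : Polynomial (Polynomial ℤ)) ^ p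
          - Polynomial.C (Polynomial.X : Polynomial ℤ))
        * (Polynomial.X - Polynomial.C ((Polynomial.X : Polynomial ℤ) ^ p)) with hG
  have hG0 : G.map (Polynomial.mapRingHom (Int.castRingHom (ZMod p))) = 0 := by
    rw [hG, Polynomial.map_sub]
    have h := h88_kronecker p Φ
    rw [h88_PhiBar] at h
    rw [h]
    simp
  have hdvd : ∀ i j, (p : ℤ) ∣ (G.coeff i).coeff j := by
    intro i j
    have h1 := congrArg (fun q => (Polynomial.coeff q i).coeff j) hG0
    simp only [Polynomial.coeff_map, Polynomial.coe_mapRingHom, Polynomial.coeff_zero] at h1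
    exact (ZMod.intCast_zmod_eq_zero_iff_dvd _ p).mp h1
  have hdvd2 : Polynomial.C (Polynomial.C (p : ℤ)) ∣ G := by
    rw [Polynomial.C_dvd_iff_dvd_coeff]
    intro i
    rw [Polynomial.C_dvd_iff_dvd_coeff]
    intro j
    exact hdvd i j
  obtain ⟨Θ, hΘ⟩ := hdvd2
  exact ⟨Θ, by rw [← hΘ, hG]; ring⟩

end Kronecker

end Fermat.Agent.S28

end

end
-- ===== PACK-END S28/H88/Kronecker.lean

-- ===== PACK-BEGIN A2/Mod/H553/Vinf.lean
section



/-!
# A2 / MOD leaves L1 `VinfExists`, L2 `VinfBasic` (helper553)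

Level `E` Gauss valuation `V∞` of `F_{N,E} = E(j_d : d ∣ N)` over `R_E = P ∩ E` (a DVR):

* `VinfE P E N` : the valuation subring (`= H708.gaussInf`), `isVinf_VinfE`, `IsVinf.eq`;
* `mem_of_int`, `inv_mem_of_int` : functions with integral `t`-expansion lie in `V∞`; if a
  coefficient is `±1` they are units of `V∞`;
* `vinfExists : VinfExistsStatement P E`  (L1);
* `vinfBasic : VinfBasicStatement P E w`  (L2).
-/

set_option autoImplicit false
set_option synthInstance.maxHeartbeats 400000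
set_option maxHeartbeats 1600000
set_option linter.unusedSectionVars false
set_option linter.style.haveILetI false

noncomputable section

namespace Fermat.Agent.A2.Mod.H553

open ModularCurve HahnSeries Polynomial
open Fermat.Agent.A2 Fermat.Agent.A2.Mod

variable (P : ValuationSubring _root_.Fermat.Agent.A2.Mod.Qb) (E : IntermediateField ℚ _root_.Fermat.Agent.A2.Mod.Qb)

/-- the Gauss valuation ring at `∞` of `F_{N,E}` -/
def VinfE (N : ℕ) [IsNoetherianRing ↥(_root_.Fermat.Agent.A2.Mod.RE P E)] : ValuationSubring ↥(_root_.Fermat.Agent.A2.Mod.FE E N) :=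
  H708.gaussInf (_root_.Fermat.Agent.A2.Mod.RE P E) (modularFunctionFieldFull N) (H708.intGen_full N)
    (H708.attainsMax_of_isNoetherianRing (_root_.Fermat.Agent.A2.Mod.RE P E) (modularFunctionFieldFull N))

theorem isVinf_VinfE (N : ℕ) [IsNoetherianRing ↥(_root_.Fermat.Agent.A2.Mod.RE P E)] : IsVinf P E N (VinfE P E N) :=
  fun _ => Iff.rfl

variable {P E}

theorem eq_VinfE_of_isVinf {N : ℕ} [IsNoetherianRing ↥(_root_.Fermat.Agent.A2.Mod.RE P E)] {V : ValuationSubring ↥(_root_.Fermat.Agent.A2.Mod.FE E N)}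
    (hV : IsVinf P E N V) : V = VinfE P E N := by
  ext f
  rw [hV f]
  exact ((isVinf_VinfE P E N) f).symm

/-- integral series, in `E((t))` -/
theorem coeffEmb_castQ (g : LaurentSeries ℤ) :
    coeffEmb (↥E) (H708.castQ g) = H708.incl (_root_.Fermat.Agent.A2.Mod.RE P E) (H708.castA (_root_.Fermat.Agent.A2.Mod.RE P E) g) :=
  (H708.incl_castA (_root_.Fermat.Agent.A2.Mod.RE P E) g).symm

/-- functions with integral `t`-expansion lie in `V∞` -/
theorem mem_of_int {N : ℕ} {V : ValuationSubring ↥(_root_.Fermat.Agent.A2.Mod.FE E N)} (hV : IsVinf P E N V)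
    {f : ↥(_root_.Fermat.Agent.A2.Mod.FE E N)} {g : LaurentSeries ℤ}
    (hfg : (f : LaurentSeries ↥E) = coeffEmb (↥E) (H708.castQ g)) : f ∈ V := by
  rw [hV f, hfg, coeffEmb_castQ (P := P)]
  exact H708.IsGaussInt.of_incl _

theorem red_castA_ne_zero {g : LaurentSeries ℤ} {k : ℤ}
    (hk : g.coeff k = 1 ∨ g.coeff k = -1) :
    H708.red (_root_.Fermat.Agent.A2.Mod.RE P E) (H708.castA (_root_.Fermat.Agent.A2.Mod.RE P E) g) ≠ 0 := by
  rw [H708.red_ne_zero_iff]
  refine ⟨k, ?_⟩
  have h1 : (((H708.castA (_root_.Fermat.Agent.A2.Mod.RE P E) g).coeff k : ↥(_root_.Fermat.Agent.A2.Mod.RE P E)) : ↥E) = ((g.coeff k : ℤ) : ↥E) := by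
    show ((((g.coeff k : ℤ) : ↥(_root_.Fermat.Agent.A2.Mod.RE P E))) : ↥E) = _
    simp
  rw [h1]
  rcases hk with hk | hk
  · rw [hk]; simp
  · rw [hk]; simp

/-- functions with integral `t`-expansion having a coefficient `±1` are units of `V∞` -/
theorem inv_mem_of_int {N : ℕ} {V : ValuationSubring ↥(_root_.Fermat.Agent.A2.Mod.FE E N)} (hV : IsVinf P E N V)
    {f : ↥(_root_.Fermat.Agent.A2.Mod.FE E N)} {g : LaurentSeries ℤ} {k : ℤ}
    (hfg : (f : LaurentSeries ↥E) = coeffEmb (↥E) (H708.castQ g))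
    (hk : g.coeff k = 1 ∨ g.coeff k = -1) : f⁻¹ ∈ V := by
  rw [hV f⁻¹]
  have hf : (f : LaurentSeries ↥E) = H708.incl (_root_.Fermat.Agent.A2.Mod.RE P E) (H708.castA (_root_.Fermat.Agent.A2.Mod.RE P E) g) := by
    rw [hfg, coeffEmb_castQ (P := P)]
  have hred := red_castA_ne_zero (P := P) (E := E) hk
  have hne : H708.incl (_root_.Fermat.Agent.A2.Mod.RE P E) (H708.castA (_root_.Fermat.Agent.A2.Mod.RE P E) g) ≠ 0 :=
    H708.incl_ne_zero _ (H708.ne_zero_of_red_ne_zero _ hred)
  refine ⟨1, H708.castA (_root_.Fermat.Agent.A2.Mod.RE P E) g, hred, ?_, ?_⟩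
  · rw [← hf]
    exact f.2
  · rw [IntermediateField.coe_inv, hf, inv_mul_cancel₀ hne, map_one]

/-- the generators `j_d` as integral series -/
theorem coe_jE (N d : ℕ) [NeZero d] (hd : d ∣ N) :
    ((jE E N d hd : ↥(_root_.Fermat.Agent.A2.Mod.FE E N)) : LaurentSeries ↥E) = coeffEmb (↥E) (H708.castQ (H708.jInt d)) := by
  rw [H708.castQ_jInt]
  rfl

theorem coeff_jInt_top (d : ℕ) [NeZero d] : (H708.jInt d).coeff (-(d : ℤ)) = 1 := by
  have h := coeff_jqModC_pow_self ℤ 1
  rw [H708.jInt, jqNModC,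
    show (-(d : ℤ)) = (d : ℤ) * (-((1 : ℕ) : ℤ)) by push_cast; ring, qExpand_coeff_mul]
  simpa using h

variable (P E)

/-- **L1.** -/
theorem vinfExists : VinfExistsStatement P E := by
  intro N _ hdvr
  haveI := hdvr
  exact ⟨VinfE P E N, isVinf_VinfE P E N⟩

/-- `V∞ ∩ E = R_E`. -/
theorem algebraMap_mem_iff {N : ℕ} [IsNoetherianRing ↥(_root_.Fermat.Agent.A2.Mod.RE P E)] {V : ValuationSubring ↥(_root_.Fermat.Agent.A2.Mod.FE E N)}
    (hV : IsVinf P E N V) (e : ↥E) : algebraMap ↥E ↥(_root_.Fermat.Agent.A2.Mod.FE E N) e ∈ V ↔ e ∈ _root_.Fermat.Agent.A2.Mod.RE P E := by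
  rw [eq_VinfE_of_isVinf hV]
  exact H708.algebraMap_mem_gaussInf_iff _ _ e

/-- every nonzero function is a constant times a unit of `V∞` -/
theorem exists_const_mul_unit {N : ℕ} [IsNoetherianRing ↥(_root_.Fermat.Agent.A2.Mod.RE P E)]
    {V : ValuationSubring ↥(_root_.Fermat.Agent.A2.Mod.FE E N)} (hV : IsVinf P E N V) {f : ↥(_root_.Fermat.Agent.A2.Mod.FE E N)} (hf : f ≠ 0) :
    ∃ c : ↥E, c ≠ 0 ∧ V.valuation (f * (algebraMap ↥E ↥(_root_.Fermat.Agent.A2.Mod.FE E N) c)⁻¹) = 1 := by
  rw [eq_VinfE_of_isVinf hV]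
  exact H708.exists_const_mul_unit _ _ hf

/-- **L2.** -/
theorem vinfBasic (w : _root_.Fermat.Agent.A2.Mod.RE P E) : VinfBasicStatement P E w := by
  intro N _ hdvr hw V hV
  haveI := hdvr
  have hw0 : (w : ↥E) ≠ 0 := by
    intro h0
    exact hw.ne_zero (Subtype.ext h0)
  have hwinv : ((w : ↥E))⁻¹ ∉ _root_.Fermat.Agent.A2.Mod.RE P E := by
    intro hmem
    apply hw.not_isUnit
    refine isUnit_iff_exists_inv.mpr ⟨⟨_, hmem⟩, Subtype.ext ?_⟩
    show (w : ↥E) * ((w : ↥E))⁻¹ = 1
    exact mul_inv_cancel₀ hw0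
  refine ⟨⟨?_, ?_, ?_⟩, fun e => algebraMap_mem_iff P E hV e, ?_⟩
  · exact (algebraMap_mem_iff P E hV _).mpr w.2
  · intro hmem
    have h1 : (cE P E N w)⁻¹ = algebraMap ↥E ↥(_root_.Fermat.Agent.A2.Mod.FE E N) ((w : ↥E))⁻¹ := (map_inv₀ _ _).symm
    rw [h1] at hmem
    exact hwinv ((algebraMap_mem_iff P E hV _).mp hmem)
  · intro f hfV hfinv
    rcases eq_or_ne f 0 with rfl | hf0
    · rw [zero_mul]; exact V.zero_mem
    obtain ⟨c, hc0, hu⟩ := exists_const_mul_unit P E hV hf0
    obtain ⟨u, hu_def⟩ : ∃ u : ↥(_root_.Fermat.Agent.A2.Mod.FE E N), u = f * (algebraMap ↥E ↥(_root_.Fermat.Agent.A2.Mod.FE E N) c)⁻¹ := ⟨_, rfl⟩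
    rw [← hu_def] at hu
    have hcF : algebraMap ↥E ↥(_root_.Fermat.Agent.A2.Mod.FE E N) c ≠ 0 :=
      (map_ne_zero_iff _ (algebraMap ↥E ↥(_root_.Fermat.Agent.A2.Mod.FE E N)).injective).mpr hc0
    have hu0 : u ≠ 0 := by
      rw [hu_def]
      exact mul_ne_zero hf0 (inv_ne_zero hcF)
    have huV : u ∈ V := (V.valuation_le_one_iff _).mp hu.le
    have huinvV : u⁻¹ ∈ V := by
      rw [← V.valuation_le_one_iff, map_inv₀, hu, inv_one]
    have hfu : f = u * algebraMap ↥E ↥(_root_.Fermat.Agent.A2.Mod.FE E N) c := by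
      rw [hu_def, mul_assoc, inv_mul_cancel₀ hcF, mul_one]
    -- `c ∈ R`
    have hcV : algebraMap ↥E ↥(_root_.Fermat.Agent.A2.Mod.FE E N) c ∈ V := by
      have : algebraMap ↥E ↥(_root_.Fermat.Agent.A2.Mod.FE E N) c = u⁻¹ * f := by
        rw [hfu, ← mul_assoc, inv_mul_cancel₀ hu0, one_mul]
      rw [this]
      exact V.mul_mem _ _ huinvV hfV
    have hcR : c ∈ _root_.Fermat.Agent.A2.Mod.RE P E := (algebraMap_mem_iff P E hV c).mp hcV
    -- `c` is not a unit of `R`
    have hcnu : ¬ IsUnit (⟨c, hcR⟩ : ↥(_root_.Fermat.Agent.A2.Mod.RE P E)) := by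
      intro hunit
      obtain ⟨d, hd⟩ := isUnit_iff_exists_inv.mp hunit
      have hd' : c * (d : ↥E) = 1 := congrArg Subtype.val hd
      have hdinv : c⁻¹ = (d : ↥E) := by
        rw [inv_eq_iff_eq_inv]
        exact eq_inv_of_mul_eq_one_left hd'
      apply hfinv
      have : f⁻¹ = u⁻¹ * algebraMap ↥E ↥(_root_.Fermat.Agent.A2.Mod.FE E N) (d : ↥E) := by
        rw [hfu, mul_inv, ← hdinv, map_inv₀]
      rw [this]
      exact V.mul_mem _ _ huinvV ((algebraMap_mem_iff P E hV _).mpr d.2)
    have hcm : (⟨c, hcR⟩ : ↥(_root_.Fermat.Agent.A2.Mod.RE P E)) ∈ IsLocalRing.maximalIdeal ↥(_root_.Fermat.Agent.A2.Mod.RE P E) :=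
      (IsLocalRing.mem_maximalIdeal _).mpr hcnu
    rw [hw.maximalIdeal_eq, Ideal.mem_span_singleton'] at hcm
    obtain ⟨r, hr⟩ := hcm
    have hr' : (r : ↥E) * (w : ↥E) = c := congrArg Subtype.val hr
    have hcwF : cE P E N w ≠ 0 :=
      (map_ne_zero_iff _ (algebraMap ↥E ↥(_root_.Fermat.Agent.A2.Mod.FE E N)).injective).mpr hw0
    have hcr : algebraMap ↥E ↥(_root_.Fermat.Agent.A2.Mod.FE E N) c = algebraMap ↥E ↥(_root_.Fermat.Agent.A2.Mod.FE E N) (r : ↥E) * cE P E N w := by
      rw [← hr', map_mul]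
      rfl
    have : f * (cE P E N w)⁻¹ = u * algebraMap ↥E ↥(_root_.Fermat.Agent.A2.Mod.FE E N) (r : ↥E) := by
      rw [hfu, hcr, mul_assoc, mul_assoc, mul_inv_cancel₀ hcwF, mul_one]
    rw [this]
    exact V.mul_mem _ _ huV ((algebraMap_mem_iff P E hV _).mpr r.2)
  · intro d _ hd
    exact ⟨mem_of_int hV (coe_jE N d hd),
      inv_mem_of_int hV (coe_jE N d hd) (Or.inl (coeff_jInt_top d))⟩

end Fermat.Agent.A2.Mod.H553

end
end
-- ===== PACK-END A2/Mod/H553/Vinf.lean

-- ===== PACK-BEGIN A2/Mod/H816/L3.lean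
section



/-!
# A2 / MOD leaf L3 (helper816): `vinfGauss : VinfGaussStatement P E w`

If `u ∈ F_N` is the image of an `R`-integral series `U = t^{-a}(c + …)`, `a > 0`, `c ∈ Rˣ`, then
for every `p ∈ R[X]` not divisible by the uniformiser `w`, `p(u)` is a unit of the Gauss
valuation ring `V∞`.

Proof: `p(u)` is the image of the integral series `Q = p(U)`; its reduction is `p̄(Ū) ≠ 0`
(`L3Poly.eval₂_C_ne_zero_of_polar`), so `Q` is primitive, and `p(u) = Q / 1`, `p(u)⁻¹ = 1 / Q`
are Gauss-integral.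
-/

set_option autoImplicit false
set_option synthInstance.maxHeartbeats 400000
set_option maxHeartbeats 1600000

noncomputable section

namespace Fermat.Agent.A2.Mod.H816

open ModularCurve HahnSeries Polynomial Fermat.Agent.A2 Fermat.Agent.A2.Mod

variable (P : ValuationSubring _root_.Fermat.Agent.A2.Mod.Qb) (E : IntermediateField ℚ _root_.Fermat.Agent.A2.Mod.Qb)

/-- `coeffMap` commutes with constants. -/
theorem coeffMap_comp_C {R S : Type*} [CommRing R] [CommRing S] (f : R →+* S) :
    (coeffMap f).comp (HahnSeries.C : R →+* LaurentSeries R) =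
      (HahnSeries.C : S →+* LaurentSeries S).comp f := by
  ext r : 1
  show coeffMap f (HahnSeries.single 0 r) = HahnSeries.single 0 (f r)
  exact coeffMap_single f 0 r

/-- The integral series `p(U)`. -/
def polyAt (p : Polynomial (_root_.Fermat.Agent.A2.Mod.RE P E)) (U : LaurentSeries (_root_.Fermat.Agent.A2.Mod.RE P E)) : LaurentSeries (_root_.Fermat.Agent.A2.Mod.RE P E) :=
  p.eval₂ (HahnSeries.C : _root_.Fermat.Agent.A2.Mod.RE P E →+* LaurentSeries (_root_.Fermat.Agent.A2.Mod.RE P E)) U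

theorem incl_polyAt (N : ℕ) (p : Polynomial (_root_.Fermat.Agent.A2.Mod.RE P E)) (U : LaurentSeries (_root_.Fermat.Agent.A2.Mod.RE P E))
    (u : _root_.Fermat.Agent.A2.Mod.FE E N) (hu : (u : LaurentSeries E) = H708.incl (_root_.Fermat.Agent.A2.Mod.RE P E) U) :
    ((ev P E N u p : _root_.Fermat.Agent.A2.Mod.FE E N) : LaurentSeries E) = H708.incl (_root_.Fermat.Agent.A2.Mod.RE P E) (polyAt P E p U) := by
  unfold ev polyAt
  have h1 : ((p.eval₂ ((algebraMap E (_root_.Fermat.Agent.A2.Mod.FE E N)).comp (_root_.Fermat.Agent.A2.Mod.RE P E).subtype) u : _root_.Fermat.Agent.A2.Mod.FE E N) :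
      LaurentSeries E) =
      p.eval₂ (((_root_.Fermat.Agent.A2.Mod.FE E N).val : _root_.Fermat.Agent.A2.Mod.FE E N →+* LaurentSeries E).comp
        ((algebraMap E (_root_.Fermat.Agent.A2.Mod.FE E N)).comp (_root_.Fermat.Agent.A2.Mod.RE P E).subtype)) (u : LaurentSeries E) :=
    Polynomial.hom_eval₂ p _ ((_root_.Fermat.Agent.A2.Mod.FE E N).val : _root_.Fermat.Agent.A2.Mod.FE E N →+* LaurentSeries E) u
  rw [h1, hu]
  rw [H708.incl, Polynomial.hom_eval₂, coeffMap_comp_C]
  congr 1
  ext r : 1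
  show ((algebraMap E (_root_.Fermat.Agent.A2.Mod.FE E N) (r : E) : _root_.Fermat.Agent.A2.Mod.FE E N) : LaurentSeries E) =
    HahnSeries.C ((r : E))
  rw [IntermediateField.coe_algebraMap_apply, algebraMap_laurentSeries_eq_single]
  rfl

theorem red_polyAt (p : Polynomial (_root_.Fermat.Agent.A2.Mod.RE P E)) (U : LaurentSeries (_root_.Fermat.Agent.A2.Mod.RE P E)) :
    H708.red (_root_.Fermat.Agent.A2.Mod.RE P E) (polyAt P E p U) =
      (p.map (IsLocalRing.residue (_root_.Fermat.Agent.A2.Mod.RE P E))).eval₂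
        (HahnSeries.C : IsLocalRing.ResidueField (_root_.Fermat.Agent.A2.Mod.RE P E) →+*
          LaurentSeries (IsLocalRing.ResidueField (_root_.Fermat.Agent.A2.Mod.RE P E))) (H708.red (_root_.Fermat.Agent.A2.Mod.RE P E) U) := by
  unfold polyAt
  rw [H708.red, Polynomial.hom_eval₂, coeffMap_comp_C, Polynomial.eval₂_map]

/-- The reduction of `p` is nonzero if `w ∤ p`. -/
theorem map_residue_ne_zero [IsDiscreteValuationRing (_root_.Fermat.Agent.A2.Mod.RE P E)] {w : _root_.Fermat.Agent.A2.Mod.RE P E} (hw : Irreducible w)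
    {p : Polynomial (_root_.Fermat.Agent.A2.Mod.RE P E)} (hp : ¬ Polynomial.C w ∣ p) :
    p.map (IsLocalRing.residue (_root_.Fermat.Agent.A2.Mod.RE P E)) ≠ 0 := by
  intro h
  apply hp
  rw [Polynomial.C_dvd_iff_dvd_coeff]
  intro i
  have h1 : (p.map (IsLocalRing.residue (_root_.Fermat.Agent.A2.Mod.RE P E))).coeff i = 0 := by rw [h]; simp
  rw [Polynomial.coeff_map, IsLocalRing.residue_eq_zero_iff] at h1
  rw [(IsDiscreteValuationRing.irreducible_iff_uniformizer w).mp hw,
    Ideal.mem_span_singleton] at h1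
  exact h1

/-- **L3.** -/
theorem vinfGauss (w : _root_.Fermat.Agent.A2.Mod.RE P E) : VinfGaussStatement P E w := by
  intro N _hN hdvr hw V hV u U a ha hu h0 hc p hp
  have := hdvr
  set Q := polyAt P E p U with hQ
  have hincl := incl_polyAt P E N p U u hu
  -- `Q` is primitive
  have hred : H708.red (_root_.Fermat.Agent.A2.Mod.RE P E) Q ≠ 0 := by
    rw [hQ, red_polyAt]
    refine eval₂_C_ne_zero_of_polar (a := -(a : ℤ)) (by omega) ?_ ?_
      (map_residue_ne_zero P E hw hp)
    · intro n hn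
      show (IsLocalRing.residue (_root_.Fermat.Agent.A2.Mod.RE P E)) (U.coeff n) = 0
      rw [h0 n hn, map_zero]
    · show (IsLocalRing.residue (_root_.Fermat.Agent.A2.Mod.RE P E)) (U.coeff (-(a : ℤ))) ≠ 0
      rw [Ne, IsLocalRing.residue_eq_zero_iff]
      exact fun hmem => (IsLocalRing.mem_maximalIdeal _).mp hmem hc
  have hQ0 : Q ≠ 0 := H708.ne_zero_of_red_ne_zero _ hred
  have hne : ((ev P E N u p : _root_.Fermat.Agent.A2.Mod.FE E N) : LaurentSeries E) ≠ 0 := by
    rw [hincl]; exact H708.incl_ne_zero _ hQ0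
  have hmemF : H708.incl (_root_.Fermat.Agent.A2.Mod.RE P E) Q ∈ laurentBaseChange E (modularFunctionFieldFull N) := by
    rw [← hincl]; exact (ev P E N u p).2
  constructor
  · rw [hV, hincl]
    exact H708.IsGaussInt.of_incl Q
  · rw [hV]
    refine ⟨1, Q, hred, hmemF, ?_⟩
    have hcoe : (((ev P E N u p)⁻¹ : _root_.Fermat.Agent.A2.Mod.FE E N) : LaurentSeries E) =
        ((ev P E N u p : _root_.Fermat.Agent.A2.Mod.FE E N) : LaurentSeries E)⁻¹ := rfl
    rw [hcoe, ← hincl, map_one]
    exact inv_mul_cancel₀ hne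

end Fermat.Agent.A2.Mod.H816

end

end
-- ===== PACK-END A2/Mod/H816/L3.lean

-- ===== PACK-BEGIN A2/Mod/H549/L14.lean
section



/-!
# A2 / MOD, leaf L14 (Inertia) (helper549)

`inertia : Mod.InertiaStatement P E w` (statement of `Fermat/Agent/A2/Mod/Spec.lean`, verbatim).

Generic part (any field `L ⊇ ℚ`, any valuation subring `A` of `L`, any `F₀ ⊆ ℚ((t))`):

* `isGaussInt_coeffMap` : `σ f` is Gauss-integral (`H708.IsGaussInt`) if `f` is and `σ A ⊆ A`.
* `isGaussInt_sub_div` : if moreover `σ a - a ∈ 𝔪_A` for all `a ∈ A` and `w` generates `𝔪_A`,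
  then `(σ f - f) / w` is Gauss-integral.

Modular part:

* `fricke_comm` : a ring endomorphism `W` of `L(j_d : d ∣ N)` which is the identity on `L` and
  maps every `j_d` to a `σ`-fixed element commutes with the coefficientwise action of `σ`.

Instantiation at `L = E ⊆ ℚ̄`, `A = P ∩ E`:

* `inertia_core` : leaf L14 with the definitions of `Spec.lean` unfolded (`τE` any restriction of
  `τ` to `E`);
* `inertia` : leaf L14.
-/

set_option autoImplicit false

noncomputable section

namespace Fermat.Agent.A2.Mod.H549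

open ModularCurve HahnSeries Fermat.Agent.A2

/-! ## Generic part -/

section generic

variable {L : Type*} [Field L] [Algebra ℚ L] (A : ValuationSubring L)
  (F₀ : IntermediateField ℚ (LaurentSeries ℚ))

/-- the restriction of `σ` to `A` -/
def resA (σ : L ≃ₐ[ℚ] L) (hσA : ∀ a ∈ A, σ a ∈ A) : A →+* A where
  toFun x := ⟨σ x, hσA x x.2⟩
  map_one' := Subtype.ext (map_one σ)
  map_mul' x y := Subtype.ext (map_mul σ (x : L) (y : L))
  map_zero' := Subtype.ext (map_zero σ)
  map_add' x y := Subtype.ext (map_add σ (x : L) (y : L))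

variable {A}

theorem incl_coeffMap_resA (σ : L ≃ₐ[ℚ] L) (hσA : ∀ a ∈ A, σ a ∈ A) (U : LaurentSeries A) :
    H708.incl A (coeffMap (resA A σ hσA) U) = coeffMap (σ : L →+* L) (H708.incl A U) := by
  rw [H708.incl, coeffMap_coeffMap, coeffMap_coeffMap]
  exact coeffMap_congr (RingHom.ext fun _ => rfl) U

theorem residue_resA (σ : L ≃ₐ[ℚ] L) (hσA : ∀ a ∈ A, σ a ∈ A)
    (hσI : ∀ a ∈ A, σ a - a ∈ A.nonunits) (x : A) :
    IsLocalRing.residue A (resA A σ hσA x) = IsLocalRing.residue A x := by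
  rw [← sub_eq_zero, ← map_sub, IsLocalRing.residue_eq_zero_iff,
    ← ValuationSubring.coe_mem_nonunits_iff]
  exact hσI x x.2

theorem red_coeffMap_resA (σ : L ≃ₐ[ℚ] L) (hσA : ∀ a ∈ A, σ a ∈ A)
    (hσI : ∀ a ∈ A, σ a - a ∈ A.nonunits) (U : LaurentSeries A) :
    H708.red A (coeffMap (resA A σ hσA) U) = H708.red A U := by
  ext n
  simp only [coeffMap_coeff]
  exact residue_resA σ hσA hσI _

theorem red_coeffMap_resA_ne_zero (σ : L ≃ₐ[ℚ] L) (hσA : ∀ a ∈ A, σ a ∈ A)
    {U : LaurentSeries A} (hU : H708.red A U ≠ 0) :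
    H708.red A (coeffMap (resA A σ hσA) U) ≠ 0 := by
  obtain ⟨n, hn⟩ := (H708.red_ne_zero_iff A U).mp hU
  refine (H708.red_ne_zero_iff A _).mpr ⟨n, ?_⟩
  have hunit : IsUnit (U.coeff n) := (ValuationSubring.valuation_eq_one_iff A _).mpr hn
  have h2 : IsUnit (resA A σ hσA (U.coeff n)) := hunit.map (resA A σ hσA)
  rw [coeffMap_coeff]
  exact (ValuationSubring.valuation_eq_one_iff A _).mp h2

omit [Algebra ℚ L] in
/-- dividing an integral series with coefficients in `w A` by `w`. -/
theorem exists_cstA_mul_eq (w : A) (hw0 : w ≠ 0) (U : LaurentSeries A)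
    (h : ∀ n, w ∣ U.coeff n) : ∃ U' : LaurentSeries A, H708.cstA A w * U' = U := by
  choose d hd using h
  have hsupp : Function.support d ⊆ U.support := by
    intro n hn
    rw [Function.mem_support] at hn
    rw [HahnSeries.mem_support, hd n]
    exact mul_ne_zero hw0 hn
  refine ⟨⟨d, U.isPWO_support.mono hsupp⟩, ?_⟩
  apply HahnSeries.ext
  funext n
  rw [H708.cstA, HahnSeries.coeff_single_zero_mul]
  exact (hd n).symm

/-- `σ f` is Gauss-integral if `f` is (`σ` in the decomposition group). -/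
theorem isGaussInt_coeffMap (σ : L ≃ₐ[ℚ] L) (hσA : ∀ a ∈ A, σ a ∈ A)
    {f : LaurentSeries L} (hf : H708.IsGaussInt A F₀ f) :
    H708.IsGaussInt A F₀ (coeffMap (σ : L →+* L) f) := by
  obtain ⟨U₁, U₂, hred, hmem, heq⟩ := hf
  refine ⟨coeffMap (resA A σ hσA) U₁, coeffMap (resA A σ hσA) U₂,
    red_coeffMap_resA_ne_zero σ hσA hred, ?_, ?_⟩
  · rw [incl_coeffMap_resA]
    exact coeffMap_mem_laurentBaseChange σ hmem
  · rw [incl_coeffMap_resA, incl_coeffMap_resA, ← map_mul, heq]

/-- **Inertia acts trivially modulo `w`** on the Gauss-integral elements: `(σ f - f) / w` is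
Gauss-integral. -/
theorem isGaussInt_sub_div (σ : L ≃ₐ[ℚ] L) (hσA : ∀ a ∈ A, σ a ∈ A)
    (hσI : ∀ a ∈ A, σ a - a ∈ A.nonunits) (w : A) (hw0 : w ≠ 0)
    (hw : ∀ a : A, (a : L) ∈ A.nonunits → w ∣ a)
    {f : LaurentSeries L} (hf : H708.IsGaussInt A F₀ f) :
    H708.IsGaussInt A F₀ ((coeffMap (σ : L →+* L) f - f) * (H708.cst (w : L))⁻¹) := by
  obtain ⟨U₁, U₂, hred, hmem, heq⟩ := hf
  have e1 : coeffMap (σ : L →+* L) f * H708.incl A (coeffMap (resA A σ hσA) U₂)
      = H708.incl A (coeffMap (resA A σ hσA) U₁) := by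
    rw [incl_coeffMap_resA, incl_coeffMap_resA, ← map_mul, heq]
  have hred3 : H708.red A (coeffMap (resA A σ hσA) U₁ * U₂ - U₁ * coeffMap (resA A σ hσA) U₂)
      = 0 := by
    rw [map_sub, map_mul, map_mul, red_coeffMap_resA σ hσA hσI, red_coeffMap_resA σ hσA hσI,
      sub_self]
  have hdiv : ∀ n, w ∣
      (coeffMap (resA A σ hσA) U₁ * U₂ - U₁ * coeffMap (resA A σ hσA) U₂).coeff n := by
    intro n
    refine hw _ ?_
    rw [ValuationSubring.mem_nonunits_iff]
    exact (H708.red_eq_zero_iff A _).mp hred3 n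
  obtain ⟨U₃, hU₃⟩ := exists_cstA_mul_eq w hw0 _ hdiv
  have hwL : (w : L) ≠ 0 := fun h => hw0 (Subtype.ext h)
  have hcst : H708.cst (w : L) ≠ 0 := H708.cst_ne_zero hwL
  refine ⟨U₃, U₂ * coeffMap (resA A σ hσA) U₂, ?_, ?_, ?_⟩
  · rw [map_mul]
    exact mul_ne_zero hred (red_coeffMap_resA_ne_zero σ hσA hred)
  · rw [map_mul, incl_coeffMap_resA]
    exact mul_mem hmem (coeffMap_mem_laurentBaseChange σ hmem)
  · have key : H708.cst (w : L) * H708.incl A U₃
        = (coeffMap (σ : L →+* L) f - f) * H708.incl A (U₂ * coeffMap (resA A σ hσA) U₂) := by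
      rw [← H708.incl_cstA, ← map_mul, hU₃, map_sub, map_mul, map_mul, map_mul, ← e1, ← heq]
      ring
    rw [mul_right_comm, ← key, mul_comm (H708.cst (w : L)), mul_assoc,
      mul_inv_cancel₀ hcst, mul_one]

end generic

/-! ## The Fricke involution commutes with the Galois action -/

section fricke

variable {L : Type*} [Field L] [Algebra ℚ L] (N : ℕ)

/-- the generator `j_d` of `L(j_d : d ∣ N)` -/
def jL (L : Type*) [Field L] [Algebra ℚ L] (N : ℕ) (d : ℕ) [NeZero d] (hd : d ∣ N) :
    ↥(laurentBaseChange L (modularFunctionFieldFull N)) :=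
  ⟨coeffEmb L (qExpand ℚ d jq), coeffEmb_mem_laurentBaseChange L (jqd_mem_full N hd)⟩

/-- the coefficientwise action as a ring homomorphism -/
abbrev galHom (σ : L ≃ₐ[ℚ] L) : ↥(laurentBaseChange L (modularFunctionFieldFull N)) →+*
    ↥(laurentBaseChange L (modularFunctionFieldFull N)) :=
  ((arithmeticRingAut (modularFunctionFieldFull N) σ : _ ≃+* _) : _ →+* _)

/-- the subfield of `σ`-fixed elements -/
def fixSub (σ : L ≃ₐ[ℚ] L) : Subfield ↥(laurentBaseChange L (modularFunctionFieldFull N)) :=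
  RingHom.eqLocusField (galHom N σ) (RingHom.id _)

theorem mem_fixSub {σ : L ≃ₐ[ℚ] L} {g : ↥(laurentBaseChange L (modularFunctionFieldFull N))} :
    g ∈ fixSub N σ ↔ arithmeticRingAut (modularFunctionFieldFull N) σ g = g := Iff.rfl

theorem algebraMap_rat_mem_fixSub (σ : L ≃ₐ[ℚ] L) (c : ℚ) :
    algebraMap L ↥(laurentBaseChange L (modularFunctionFieldFull N)) (algebraMap ℚ L c)
      ∈ fixSub N σ := by
  rw [mem_fixSub, arithmeticRingAut_algebraMap, AlgEquiv.commutes]

/-- If `W` maps every generator `j_d` to a `σ`-fixed element, it maps every rational function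
to a `σ`-fixed element. -/
theorem fricke_rat_fixed
    (W : ↥(laurentBaseChange L (modularFunctionFieldFull N)) →+*
      ↥(laurentBaseChange L (modularFunctionFieldFull N)))
    (hWc : ∀ c : L, W (algebraMap L _ c) = algebraMap L _ c)
    (σ : L ≃ₐ[ℚ] L)
    (hW : ∀ (d : ℕ) [NeZero d] (hd : d ∣ N), W (jL L N d hd) ∈ fixSub N σ)
    {z : LaurentSeries ℚ} (hz : z ∈ modularFunctionFieldFull N)
    (g : ↥(laurentBaseChange L (modularFunctionFieldFull N)))
    (hg : (g : LaurentSeries L) = coeffEmb L z) : W g ∈ fixSub N σ := by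
  -- the subfield of `ℚ((t))` of all `z` such that `W (coeffEmb z)` is fixed
  let K' : Subfield (LaurentSeries ℚ) :=
    (((fixSub N σ).comap W).map
      (algebraMap ↥(laurentBaseChange L (modularFunctionFieldFull N)) (LaurentSeries L))).comap
        (coeffEmb L : LaurentSeries ℚ →+* LaurentSeries L)
  have h1 : Set.range (algebraMap ℚ (LaurentSeries ℚ)) ⊆ (K' : Set (LaurentSeries ℚ)) := by
    rintro _ ⟨c, rfl⟩
    refine ⟨algebraMap L ↥(laurentBaseChange L (modularFunctionFieldFull N))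
      (algebraMap ℚ L c), ?_, ?_⟩
    · show W _ ∈ fixSub N σ
      rw [hWc]
      exact algebraMap_rat_mem_fixSub N σ c
    · exact (Fermat.Agent.S18.H602.coeffMap_algebraMap' (algebraMap ℚ L) c).symm
  have h2 : divisorExpansions N ⊆ (K' : Set (LaurentSeries ℚ)) := by
    rintro _ ⟨d, hne, hd, rfl⟩
    haveI := hne
    exact ⟨jL L N d hd, hW d hd, rfl⟩
  have hle : (modularFunctionFieldFull N).toSubfield ≤ K' :=
    IntermediateField.adjoin_le_subfield ℚ _ h1 h2
  obtain ⟨g', hg', hgg'⟩ := hle hz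
  have : g' = g := Subtype.ext (hgg'.trans hg.symm)
  rw [← this]
  exact hg'

/-- **`τ W = W τ`.**  A ring endomorphism `W` of `L(j_d : d ∣ N)` which is the identity on `L` and
maps every generator `j_d` to a `σ`-fixed element commutes with the coefficientwise action of
`σ`. -/
theorem fricke_comm
    (W : ↥(laurentBaseChange L (modularFunctionFieldFull N)) →+*
      ↥(laurentBaseChange L (modularFunctionFieldFull N)))
    (hWc : ∀ c : L, W (algebraMap L _ c) = algebraMap L _ c)
    (σ : L ≃ₐ[ℚ] L)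
    (hW : ∀ (d : ℕ) [NeZero d] (hd : d ∣ N), W (jL L N d hd) ∈ fixSub N σ)
    (f : ↥(laurentBaseChange L (modularFunctionFieldFull N))) :
    arithmeticRingAut (modularFunctionFieldFull N) σ (W f)
      = W (arithmeticRingAut (modularFunctionFieldFull N) σ f) := by
  let S : Subfield ↥(laurentBaseChange L (modularFunctionFieldFull N)) :=
    RingHom.eqLocusField ((galHom N σ).comp W) (W.comp (galHom N σ))
  let K : Subfield (LaurentSeries L) :=
    S.map (algebraMap ↥(laurentBaseChange L (modularFunctionFieldFull N)) (LaurentSeries L))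
  have h1 : Set.range (algebraMap L (LaurentSeries L)) ⊆ (K : Set (LaurentSeries L)) := by
    rintro _ ⟨c, rfl⟩
    refine ⟨algebraMap L ↥(laurentBaseChange L (modularFunctionFieldFull N)) c, ?_, rfl⟩
    show arithmeticRingAut (modularFunctionFieldFull N) σ (W (algebraMap L _ c))
      = W (arithmeticRingAut (modularFunctionFieldFull N) σ (algebraMap L _ c))
    rw [hWc, arithmeticRingAut_algebraMap, hWc]
  have h2 : (⇑(coeffEmb L) '' ((modularFunctionFieldFull N : IntermediateField ℚ
      (LaurentSeries ℚ)) : Set (LaurentSeries ℚ))) ⊆ (K : Set (LaurentSeries L)) := by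
    rintro _ ⟨z, hz, rfl⟩
    refine ⟨⟨coeffEmb L z, coeffEmb_mem_laurentBaseChange L hz⟩, ?_, rfl⟩
    show arithmeticRingAut (modularFunctionFieldFull N) σ (W _)
      = W (arithmeticRingAut (modularFunctionFieldFull N) σ _)
    have e1 := fricke_rat_fixed N W hWc σ hW hz
      ⟨coeffEmb L z, coeffEmb_mem_laurentBaseChange L hz⟩ rfl
    rw [mem_fixSub] at e1
    have e2 : arithmeticRingAut (modularFunctionFieldFull N) σ
        ⟨coeffEmb L z, coeffEmb_mem_laurentBaseChange L hz⟩
        = ⟨coeffEmb L z, coeffEmb_mem_laurentBaseChange L hz⟩ :=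
      Subtype.ext (coeffMap_coeffEmb σ z)
    rw [e1, e2]
  have hle : (laurentBaseChange L (modularFunctionFieldFull N)).toSubfield ≤ K :=
    IntermediateField.adjoin_le_subfield L _ h1 h2
  obtain ⟨g, hg, hgf⟩ := hle f.2
  have : g = f := Subtype.ext hgf
  rw [← this]
  exact hg

end fricke

/-! ## Instantiation at `L = E ⊆ ℚ̄`, `A = P ∩ E` -/

section inst

/-- nonunits of a comap -/
theorem mem_nonunits_comap {K L : Type*} [Field K] [Field L] (A : ValuationSubring L)
    (φ : K →+* L) (x : K) : x ∈ (A.comap φ).nonunits ↔ φ x ∈ A.nonunits := by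
  rw [ValuationSubring.mem_nonunits_iff_or, ValuationSubring.mem_nonunits_iff_or,
    ValuationSubring.mem_comap, map_inv₀, map_eq_zero]

variable (P : ValuationSubring (AlgebraicClosure ℚ))
  (E : IntermediateField ℚ (AlgebraicClosure ℚ))

/-- **Leaf L14 (Inertia)**, with the definitions of `A2/Mod/Spec.lean` unfolded.
`τ` in the inertia group of `P`, `τE` its restriction to `E`, `R = P ∩ E` a DVR with uniformiser
`w`, `V` the Gauss valuation ring of `F_{N,E}`, `W` the Fricke involution: then `τ W = W τ` and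
`(τ f - f) / w ∈ V` for all `f ∈ V`. -/
theorem inertia_core (w : ↥(P.comap (algebraMap ↥E (AlgebraicClosure ℚ)))) (N : ℕ) (hN : N ≠ 0)
    (_hdvr : IsDiscreteValuationRing ↥(P.comap (algebraMap ↥E (AlgebraicClosure ℚ))))
    (hw : Irreducible w)
    (V : ValuationSubring ↥(laurentBaseChange ↥E (modularFunctionFieldFull N)))
    (W : ↥(laurentBaseChange ↥E (modularFunctionFieldFull N)) ≃ₐ[↥E]
      ↥(laurentBaseChange ↥E (modularFunctionFieldFull N)))
    (hV : ∀ f : ↥(laurentBaseChange ↥E (modularFunctionFieldFull N)), f ∈ V ↔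
      H708.IsGaussInt (P.comap (algebraMap ↥E (AlgebraicClosure ℚ)))
        (modularFunctionFieldFull N) (f : LaurentSeries ↥E))
    (hW : ∀ (d d' : ℕ) [NeZero d] [NeZero d'] (hd : d ∣ N) (hd' : d' ∣ N), d * d' = N →
      W (jL ↥E N d hd) = jL ↥E N d' hd')
    (τ : AlgebraicClosure ℚ ≃ₐ[ℚ] AlgebraicClosure ℚ) (τE : ↥E ≃ₐ[ℚ] ↥E)
    (hτE : ∀ e : ↥E, ((τE e : ↥E) : AlgebraicClosure ℚ) = τ (e : AlgebraicClosure ℚ))
    (hτ : τ ∈ P.inertiaSubgroupIn ℚ) :
    (∀ f : ↥(laurentBaseChange ↥E (modularFunctionFieldFull N)),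
      arithmeticRingAut (modularFunctionFieldFull N) τE (W f) =
        W (arithmeticRingAut (modularFunctionFieldFull N) τE f)) ∧
    ∀ f ∈ V, (arithmeticRingAut (modularFunctionFieldFull N) τE f - f) *
      (algebraMap ↥E ↥(laurentBaseChange ↥E (modularFunctionFieldFull N)) (w : ↥E))⁻¹ ∈ V := by
  constructor
  · -- `τ W = W τ`
    refine fricke_comm N (W : _ →+* _) (fun c => W.commutes c) τE ?_
    intro d hne hd
    obtain ⟨d', hd'⟩ := hd
    have hd'0 : d' ≠ 0 := by
      rintro rfl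
      exact hN (by rw [hd', mul_zero])
    haveI : NeZero d' := ⟨hd'0⟩
    have hdN : d ∣ N := ⟨d', hd'⟩
    have hd'N : d' ∣ N := ⟨d, by rw [hd', mul_comm]⟩
    show W (jL ↥E N d hdN) ∈ fixSub N τE
    rw [hW d d' hdN hd'N hd'.symm, mem_fixSub]
    exact Subtype.ext (coeffMap_coeffEmb τE _)
  · -- `τ ≡ id` modulo `w V`
    intro f hf
    have hτD := H708.mem_decomposition_of_mem_inertiaIn P hτ
    have hσA : ∀ a ∈ P.comap (algebraMap ↥E (AlgebraicClosure ℚ)), τE a ∈
        P.comap (algebraMap ↥E (AlgebraicClosure ℚ)) := by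
      intro a ha
      rw [ValuationSubring.mem_comap] at ha ⊢
      have e : algebraMap ↥E (AlgebraicClosure ℚ) (τE a)
          = τ (algebraMap ↥E (AlgebraicClosure ℚ) a) := hτE a
      rw [e]
      exact H708.apply_mem_of_mem_decomposition P hτD ha
    have hσI : ∀ a ∈ P.comap (algebraMap ↥E (AlgebraicClosure ℚ)), τE a - a ∈
        (P.comap (algebraMap ↥E (AlgebraicClosure ℚ))).nonunits := by
      intro a ha
      rw [ValuationSubring.mem_comap] at ha
      rw [mem_nonunits_comap, map_sub]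
      have e : algebraMap ↥E (AlgebraicClosure ℚ) (τE a)
          = τ (algebraMap ↥E (AlgebraicClosure ℚ) a) := hτE a
      rw [e]
      exact H708.sub_mem_nonunits_of_mem_inertiaIn P hτ ha
    have hw0 : w ≠ 0 := hw.ne_zero
    have hwgen : ∀ a : ↥(P.comap (algebraMap ↥E (AlgebraicClosure ℚ))),
        (a : ↥E) ∈ (P.comap (algebraMap ↥E (AlgebraicClosure ℚ))).nonunits → w ∣ a := by
      intro a ha
      rw [ValuationSubring.coe_mem_nonunits_iff, hw.maximalIdeal_eq,
        Ideal.mem_span_singleton] at ha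
      exact ha
    have key := isGaussInt_sub_div (F₀ := modularFunctionFieldFull N) τE hσA hσI w hw0 hwgen
      ((hV f).mp hf)
    exact (hV _).mpr key

end inst

/-- **Leaf L14** (`Mod.InertiaStatement`, verbatim). -/
theorem inertia (P : ValuationSubring Mod.Qb) (E : IntermediateField ℚ Mod.Qb)
    (w : Mod.RE P E) : Mod.InertiaStatement P E w := by
  intro N hN hdvr hw V W hV hW τ hτ hτI
  exact inertia_core P E w N hN hdvr hw V W hV hW.1 τ (Mod.resE E τ hτ) (fun _ => rfl) hτI

end Fermat.Agent.A2.Mod.H549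

end
end
-- ===== PACK-END A2/Mod/H549/L14.lean

-- ===== PACK-BEGIN S37/H818/LocalGen.lean
section
/-
S37 / LEVEL TRANSFER (helper818), part 4: local generators exist (weak approximation), so the
hypothesis `HasLocalGenerators` of `BaseChange.lean` is automatic.
-/





set_option autoImplicit false
set_option linter.style.haveILetI false

noncomputable section

namespace Fermat.Agent.S37.H818

open AlgebraicCurve

variable {K F F₁ : Type*} [Field K] [Field F] [Field F₁] [Algebra K F] [Algebra K F₁]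

/-- Local generators always exist, by weak approximation on the (finite) fibre. -/
theorem hasLocalGenerators [HasPrincipalDivisors K F₁] (a : F →ₐ[K] F₁)
    (ha : a.toRingHom.IsIntegral) : HasLocalGenerators a ha := by
  classical
  intro w
  set S : Finset (Place K F₁) := Place.fiberAlong a ha (w.restrictAlong a ha) with hS
  have hwS : w ∈ S := Place.mem_fiberAlong.mpr rfl
  obtain ⟨z, hz⟩ := Fermat.Agent.Lib.RR.H623.weak_approximation S (fun _ => (0 : F₁))
    (fun v => if v = w then 1 else 0)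
  have hzw := hz w hwS
  simp only [sub_zero, if_true] at hzw
  refine ⟨z, hzw.1, by rw [hzw.2]; exact one_ne_zero, fun w' hw' hfib => ?_⟩
  have hw'S : w' ∈ S := Place.mem_fiberAlong.mpr hfib
  have := (hz w' hw'S).2
  simpa [sub_zero, if_neg hw'] using this

end Fermat.Agent.S37.H818

end

end
-- ===== PACK-END S37/H818/LocalGen.lean

-- ===== PACK-BEGIN S28/H386/RootList.lean
section
/-
S28 [L] (helper386): the root list of `Φ_p(X, j_p)` over a field containing a primitive
`p`-th root of unity: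
`Φ_p(X, j(q^p)) = (X - j(q^{p²})) · ∏_{b < p} (X - j(ζ^b q))`.
-/



set_option autoImplicit false

noncomputable section

open ModularCurve HahnSeries Polynomial

namespace Fermat.Agent.S28.H386

section RootList

variable {p : ℕ} [NeZero p] (D : ModPolyData p) (k : Type*) [Field k]

/-- The twisted conjugates `j(ζ^b q)`, `b < p`. -/
def twRoots (p : ℕ) (k : Type*) [Field k] (ζ : kˣ) : Multiset (LaurentSeries k) :=
  (Multiset.range p).map fun b => _root_.Fermat.Agent.S28.H386.twist (ζ ^ b) (jqModC k)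

variable {k}

theorem card_twRoots (ζ : kˣ) : Multiset.card (twRoots p k ζ) = p := by
  simp [twRoots]

theorem order_of_mem_twRoots {ζ : kˣ} {r : LaurentSeries k} (hr : r ∈ twRoots p k ζ) :
    r.order = -1 := by
  obtain ⟨b, -, rfl⟩ := Multiset.mem_map.mp hr
  rw [order_twist, order_jqModC]

theorem twRoots_nodup {ζ : kˣ} (hζ : IsPrimitiveRoot ζ p) : (twRoots p k ζ).Nodup := by
  refine Multiset.Nodup.map_on ?_ (Multiset.nodup_range p)
  intro a ha b hb hab
  have h := congrArg (fun f => f.coeff (-1)) hab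
  simp only [coeff_twist_jqModC_neg_one] at h
  have h2 : (ζ ^ a)⁻¹ = (ζ ^ b)⁻¹ := Units.ext h
  exact hζ.pow_inj (Multiset.mem_range.mp ha) (Multiset.mem_range.mp hb) (inv_injective h2)

theorem twist_comp_qExpand (ξ : kˣ) (hξ : ξ ^ p = 1) :
    (_root_.Fermat.Agent.S28.H386.twist ξ).comp (qExpand k p) = qExpand k p :=
  RingHom.ext fun f => twist_qExpand ξ p hξ f

theorem eval_cofB_map_twist (hp : 1 < p) (ξ : kˣ) (hξ : ξ ^ p = 1) :
    ((cofB D k).map (qExpand k p)).eval (_root_.Fermat.Agent.S28.H386.twist ξ (jqModC k)) = 0 := by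
  have h := congrArg (_root_.Fermat.Agent.S28.H386.twist ξ) (eval_j_cofB_map D k hp)
  rw [map_zero, ← Polynomial.eval₂_at_apply, ← Polynomial.eval_map, Polynomial.map_map,
    twist_comp_qExpand ξ hξ] at h
  exact h

/-- `V_p(B') = ∏_{b < p} (X - j(ζ^b q))`. -/
theorem cofB_map_eq_prod (hp : 1 < p) {ζ : kˣ} (hζ : IsPrimitiveRoot ζ p) :
    (cofB D k).map (qExpand k p)
      = ((twRoots p k ζ).map fun a => X - Polynomial.C a).prod := by
  set A' := (cofB D k).map (qExpand k p) with hA'
  have hmonic : A'.Monic := (cofB_monic D k).map _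
  have hdeg : A'.natDegree = p := by
    rw [hA', (cofB_monic D k).natDegree_map, natDegree_cofB]
  have hle : twRoots p k ζ ≤ A'.roots := by
    rw [Multiset.le_iff_subset (twRoots_nodup hζ)]
    intro r hr
    obtain ⟨b, -, rfl⟩ := Multiset.mem_map.mp hr
    rw [Polynomial.mem_roots hmonic.ne_zero]
    refine eval_cofB_map_twist D hp (ζ ^ b) ?_
    rw [← pow_mul, mul_comm, pow_mul, hζ.pow_eq_one, one_pow]
  have hcard : Multiset.card A'.roots ≤ Multiset.card (twRoots p k ζ) := by
    rw [card_twRoots, ← hdeg]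
    exact Polynomial.card_roots' A'
  have heq : twRoots p k ζ = A'.roots := Multiset.eq_of_le_of_card_le hle hcard
  rw [heq]
  refine (Polynomial.prod_multiset_X_sub_C_of_monic_of_roots_card_eq hmonic ?_).symm
  rw [← heq, card_twRoots, hdeg]

/-- All roots of `Φ_p(X, j_p)`. -/
def allRoots (p : ℕ) [NeZero p] (k : Type*) [Field k] (ζ : kˣ) : Multiset (LaurentSeries k) :=
  qExpand k p (jd k p) ::ₘ twRoots p k ζ

/-- The root list: `Φ_p(X, j_p) = (X - j_{p²}) ∏_{b<p} (X - j(ζ^b q))`. -/
theorem phiAt_jp_eq_prod (hp : 1 < p) {ζ : kˣ} (hζ : IsPrimitiveRoot ζ p) :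
    phiAt D.Φ (jd k p) = ((allRoots p k ζ).map fun a => X - Polynomial.C a).prod := by
  rw [phiAt_jp_eq, cofB_map_eq_prod D hp hζ, allRoots, Multiset.map_cons, Multiset.prod_cons]

theorem order_of_mem_allRoots {ζ : kˣ} {r : LaurentSeries k} (hr : r ∈ allRoots p k ζ) :
    r = qExpand k p (jd k p) ∨ r.order = -1 := by
  rcases Multiset.mem_cons.mp hr with h | h
  · exact Or.inl h
  · exact Or.inr (order_of_mem_twRoots h)

theorem order_qExpand_jd : (qExpand k p (jd k p)).order = -((p : ℤ) * p) := by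
  rw [order_qExpand, order_jd]; ring

theorem allRoots_nodup (hp : 1 < p) {ζ : kˣ} (hζ : IsPrimitiveRoot ζ p) :
    (allRoots p k ζ).Nodup := by
  rw [allRoots, Multiset.nodup_cons]
  refine ⟨fun h => ?_, twRoots_nodup hζ⟩
  have h1 := order_of_mem_twRoots h
  rw [order_qExpand_jd] at h1
  have hp' : (1 : ℤ) < p := by exact_mod_cast hp
  nlinarith

end RootList

end Fermat.Agent.S28.H386

end
end
-- ===== PACK-END S28/H386/RootList.lean

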