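import Mathlib
import Mathlib.Analysis.Complex.UpperHalfPlane.Manifold
import Mathlib.Geometry.Manifold.Notation
import Mathlib.Geometry.Manifold.MFDeriv.SpecificFunctions
import Fermat.Prelude.Def_ModularCurve_X0ModL
import Fermat.Prelude.Thm_ModularCurve_coeffMap_qExpand
import Fermat.Prelude.Thm_ModularForm_sturm_bound_Gamma0
import Fermat.Agent.Pack.S36.E11L2
import Fermat.Agent.Pack.S36.E11L1
import Fermat.Agent.Pack.S36.E0L3
import Fermat.Agent.Pack.S36.E11L3
import Fermat.Agent.Pack.S36.E7L1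
import Fermat.Agent.Pack.S36.E11L0
import Fermat.Agent.Pack.S36.E10L2
import Fermat.Agent.Pack.S36.E3L2
import Fermat.Agent.Pack.S36.E10L0
import Fermat.Agent.Pack.S36.E10L1

-- ===== PACK-BEGIN Lib/Cheb/FrobeniusDivision.lean
section



/-!
# CHEB, Tier 1 END: the Frobenius division theorem over `ℚ̄`

`Fermat.Agent.Lib.Cheb.frobeniusDivision : Spec.FrobeniusDivisionStatement`

For every finite extension `E ⊆ ℚ̄` of `ℚ`, every `σ ∈ Gal(ℚ̄/ℚ)` and every finite set `S` of
numbers there are a prime `ℓ ∉ S`, a valuation subring `A` of `ℚ̄` over `ℓ`, a Frobenius `τ` at `A`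
(Prelude's `IsFrobeniusAt`) and exponents `k`, `j` such that the inertia group of `A` acts
trivially on `E`, `τ = σ ^ k` on `E` and `τ ^ j = σ` on `E`
(i.e. `τ|_E` and `σ|_E` generate the same cyclic subgroup: "Frobenius density, qualitative").

Assembled from
* `frobFinite` (finite level, Galois number fields; pieces Z, B0, A, D, M), and
* `H476.bridgeDivision` (bridge F6 from the finite level to valuation subrings of `ℚ̄`).
-/

set_option autoImplicit false

namespace Fermat.Agent.Lib.Cheb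

/-- **Frobenius division theorem** (qualitative Frobenius density theorem over `ℚ̄`). -/
theorem frobeniusDivision : Spec.FrobeniusDivisionStatement :=
  H476.bridgeDivision frobFinite

end Fermat.Agent.Lib.Cheb

end
-- ===== PACK-END Lib/Cheb/FrobeniusDivision.lean

-- ===== PACK-BEGIN S28/H867/Integral.lean
section



set_option autoImplicit false
noncomputable section
open ModularCurve HahnSeries IntermediateField Polynomial

namespace Fermat.Agent.S28.H867

section Integral

variable (k : Type*) [Field k]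

/-- `j(q^d)` for `d ≠ 0`, with junk value at `0` (total function in `d`). -/
def jd (d : ℕ) : LaurentSeries k :=
  if h : d = 0 then 0 else @qExpand k _ d ⟨h⟩ (jqModC k)

theorem jd_eq (d : ℕ) [hd : NeZero d] : jd k d = qExpand k d (jqModC k) := by
  rw [jd, dif_neg hd.out]

theorem jd_one : jd k 1 = jqModC k := by
  rw [jd_eq, qExpand_one_apply]

theorem qExpand_jd (a b : ℕ) [NeZero a] [NeZero b] : qExpand k a (jd k b) = jd k (a * b) := by
  rw [jd_eq, jd_eq, qExpand_qExpand]

/-- If `x` and `V_a j` are integral over `k(j)`, so is `V_a x`. -/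
theorem isIntegral_qExpand (a : ℕ) [NeZero a] {x : LaurentSeries k}
    (hx : IsIntegral (jField k) x) (ha : IsIntegral (jField k) (jd k a)) :
    IsIntegral (jField k) (qExpand k a x) := by
  set 𝔸 := algebraicClosure (jField k) (LaurentSeries k) with h𝔸
  have hmem : ∀ z ∈ jField k, qExpand k a z ∈ 𝔸.restrictScalars k := by
    have hle : (jField k).map (qExpandAlgHomC k a) ≤ 𝔸.restrictScalars k := by
      have h0 : (jField k).map (qExpandAlgHomC k a) = adjoin k {qExpand k a (jqModC k)} := by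
        rw [← jpField_eq_map]; rfl
      rw [h0, adjoin_simple_le_iff]
      show qExpand k a (jqModC k) ∈ 𝔸
      rw [h𝔸, mem_algebraicClosure_iff']
      rwa [jd_eq] at ha
    intro z hz
    exact hle ⟨z, hz, rfl⟩
  let φ : jField k →+* 𝔸 :=
    { toFun := fun z => ⟨qExpand k a z, hmem z z.2⟩
      map_one' := by ext; simp
      map_mul' := fun x y => by ext; simp
      map_zero' := by ext; simp
      map_add' := fun x y => by ext; simp }
  have h1 : IsIntegral 𝔸 (qExpand k a x) :=
    hx.map_of_comp_eq φ (qExpand k a) (by ext z; rfl)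
  have : Algebra.IsIntegral (jField k) 𝔸 :=
    (algebraicClosure.isAlgebraic (jField k) (LaurentSeries k)).isIntegral
  exact isIntegral_trans (R := jField k) (A := 𝔸) _ h1

theorem isIntegral_jd_prime {p : ℕ} [NeZero p] (D : ModPolyData p) :
    IsIntegral (jField k) (jd k p) := by
  let y : jField k := ⟨jqModC k, jq_mem_jField k⟩
  refine ⟨polyOver (jField k) y D.Φ, polyOver_monic _ y D.monic, ?_⟩
  rw [← Polynomial.aeval_def, aeval_polyOver, jd_eq]
  exact modPoly_eval_jp_field k D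

theorem isIntegral_jd (d : ℕ) (hd : d ≠ 0)
    (hΦ : ∀ p : ℕ, p.Prime → p ∣ d → ∀ [NeZero p], Nonempty (ModPolyData p)) :
    IsIntegral (jField k) (jd k d) := by
  induction d using Nat.recOnMul with
  | zero => exact absurd rfl hd
  | one =>
    rw [jd_one]
    exact isIntegral_algebraMap (x := (⟨jqModC k, jq_mem_jField k⟩ : jField k))
  | prime p hp =>
    have : NeZero p := ⟨hp.ne_zero⟩
    obtain ⟨D⟩ := hΦ p hp dvd_rfl
    exact isIntegral_jd_prime k D
  | mul a b iha ihb =>
    have ha0 : a ≠ 0 := fun h => hd (by rw [h, zero_mul])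
    have hb0 : b ≠ 0 := fun h => hd (by rw [h, mul_zero])
    have : NeZero a := ⟨ha0⟩
    have : NeZero b := ⟨hb0⟩
    rw [← qExpand_jd]
    exact isIntegral_qExpand k a
      (ihb hb0 fun p hp hpb => hΦ p hp (hpb.mul_left a))
      (iha ha0 fun p hp hpa => hΦ p hp (hpa.mul_right b))

theorem divisorExpansionsC_eq_image (M : ℕ) (hM : M ≠ 0) :
    divisorExpansionsC k M = (fun d => jd k d) '' (M.divisors : Set ℕ) := by
  ext x
  constructor
  · rintro ⟨d, hd, hdM, rfl⟩
    exact ⟨d, by simpa using ⟨hdM, hM⟩, jd_eq k d⟩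
  · rintro ⟨d, hd, rfl⟩
    have hd' : d ∣ M := Nat.dvd_of_mem_divisors hd
    have hd0 : d ≠ 0 := fun h => hM (by rw [h] at hd'; exact Nat.eq_zero_of_zero_dvd hd')
    have : NeZero d := ⟨hd0⟩
    exact ⟨d, ⟨hd0⟩, hd', jd_eq k d⟩

theorem degE_ne_zero (M : ℕ) (hM : M ≠ 0)
    (hΦ : ∀ p : ℕ, p.Prime → p ∣ M → ∀ [NeZero p], Nonempty (ModPolyData p)) :
    degE k M ≠ 0 := by
  have h1 : EF k M = jField k ⊔ adjoin k (divisorExpansionsC k M) :=
    (sup_eq_right.mpr (jField_le_EF k M)).symm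
  rw [degE, h1]
  refine relfinrank_sup_adjoin_ne_zero _ ?_ ?_
  · rw [divisorExpansionsC_eq_image k M hM]
    exact (Finset.finite_toSet _).image _
  · rw [divisorExpansionsC_eq_image k M hM]
    rintro x ⟨d, hd, rfl⟩
    have hd' : d ∣ M := Nat.dvd_of_mem_divisors hd
    have hd0 : d ≠ 0 := fun h => hM (by rw [h] at hd'; exact Nat.eq_zero_of_zero_dvd hd')
    exact isIntegral_jd k d hd0 fun p hp hpd => hΦ p hp (hpd.trans hd')

end Integral

end Fermat.Agent.S28.H867

end
end
-- ===== PACK-END S28/H867/Integral.lean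

-- ===== PACK-BEGIN A2/H12/AlgLeaves.lean
section



/-!
# Cell A2 — route G: the leaves of ALG in the frozen language of `A2/Spec.lean` (helper12)

Definitions only, no `sorry`.  `SSCtx` bundles the data and hypotheses of
`Fermat.Agent.A2.AlgSSStatement` (the frozen ALG interface of the row-lead).  Each leaf is a `Prop`
of the form `∀ context, SSCtx … → conclusion`; the conclusions are those of `H12/GSpec.lean`.
`H12/AlgSS.lean` proves `AlgSSStatement` from the seven leaves.

| leaf | conclusion |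
|---|---|
| `BaseLeaf`   | the sheets of `F` exist, are `τ`-stable with `τ ≡ id` on the residue field, and are discrete with uniformiser `w` |
| `RootLeaf`   | `μ_m ⊆ R` fixed by `τ`, units of `R` are `m`-th powers |
| `SheetsLeaf` | `SheetsConclusion` for every Kummer-split cover |
| `RedLeaf`    | `RedConclusion` for every Kummer-split cover |
| `ConstLeaf`  | `ConstConclusion` for every Kummer-split cover |
| `CountLeaf`  | `CountConclusion` for every Kummer-split cover (the δ-count) |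
| `CoverLeaf`  | `CoverConclusion` for every split `g` with `m ∣ div g` |
-/

set_option autoImplicit false

namespace Fermat.Agent.A2.H12

open Fermat.Agent.A2

/-- The data and hypotheses of `AlgSSStatement`. -/
structure SSCtx {R E F : Type} [CommRing R] [IsDomain R] [IsDiscreteValuationRing R]
    [HenselianLocalRing R] [IsAlgClosed (IsLocalRing.ResidueField R)]
    [Field E] [CharZero E] [Algebra R E] [IsFractionRing R E]
    [Field F] [Algebra E F] [Algebra R F] [IsScalarTower R E F]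
    (w : R) (q m : ℕ) (x : F) (Bf Bi : Subalgebra R F)
    (τ : F ≃+* F) (τE : E ≃+* E) (τR : R ≃+* R) : Prop where
  irr : Irreducible w
  qprime : q.Prime
  qmem : (q : R) ∈ IsLocalRing.maximalIdeal R
  mpos : 0 < m
  qm : ¬ q ∣ m
  transc : Transcendental E x
  fin : FiniteDimensional (IntermediateField.adjoin E ({x} : Set F)) F
  const : ∀ f : F, IsAlgebraic E f → f ∈ (algebraMap E F).range
  hBf : ∀ f : F, f ∈ Bf ↔ IsIntegral (Algebra.adjoin R ({x} : Set F)) f
  hBi : ∀ f : F, f ∈ Bi ↔ IsIntegral (Algebra.adjoin R ({x⁻¹} : Set F)) f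
  cf : Nonempty (SSChart w Bf)
  ci : Nonempty (SSChart w Bi)
  sf : SepCoord R E x Bf
  si : SepCoord R E x⁻¹ Bi
  hτE : ∀ e : E, τ (algebraMap E F e) = algebraMap E F (τE e)
  hτR : ∀ r : R, τE (algebraMap R E r) = algebraMap R E (τR r)
  hτx : τ x = x
  hfo : ∃ r : ℕ, 0 < r ∧ ∀ f : F, (⇑τ)^[r] f = f
  hτf : ∀ b ∈ Bf, ∃ c ∈ Bf, τ b - b = algebraMap R F w * c
  hτi : ∀ b ∈ Bi, ∃ c ∈ Bi, τ b - b = algebraMap R F w * c

section Conclusions

variable {R F : Type} [CommRing R] [Field F] [Algebra R F]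

/-- Conclusion of leaf **BASE**. -/
structure BaseConclusion (w : R) (x : F) (τ : F ≃+* F) : Prop where
  exists_sheet : ∃ V : ValuationSubring F, IsSheet w x V
  stable : ∀ V : ValuationSubring F, IsSheet w x V → ∀ c : F,
    (c ∈ V ↔ τ c ∈ V) ∧ (c ∈ V → τ c - c ∈ V.nonunits)
  discrete : ∀ V : ValuationSubring F, IsSheet w x V → ∀ f : F, f ≠ 0 →
    ∃ (n : ℤ) (u : F), u ∈ V ∧ u⁻¹ ∈ V ∧ f = algebraMap R F w ^ n * u

/-- Conclusion of leaf **ROOT**. -/
structure RootConclusion (m : ℕ) (τR : R ≃+* R) : Prop where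
  root : ∃ ζ : R, IsPrimitiveRoot ζ m ∧ τR ζ = ζ
  unit_pow : ∀ c : R, IsUnit c → ∃ c₀ : R, c = c₀ ^ m

end Conclusions

/-- Leaf **BASE**. -/
def BaseLeaf : Prop :=
  ∀ {R E F : Type} [CommRing R] [IsDomain R] [IsDiscreteValuationRing R]
    [HenselianLocalRing R] [IsAlgClosed (IsLocalRing.ResidueField R)]
    [Field E] [CharZero E] [Algebra R E] [IsFractionRing R E]
    [Field F] [Algebra E F] [Algebra R F] [IsScalarTower R E F]
    (w : R) (q m : ℕ) (x : F) (Bf Bi : Subalgebra R F)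
    (τ : F ≃+* F) (τE : E ≃+* E) (τR : R ≃+* R),
    SSCtx w q m x Bf Bi τ τE τR → BaseConclusion w x τ

/-- Leaf **ROOT**. -/
def RootLeaf : Prop :=
  ∀ {R E F : Type} [CommRing R] [IsDomain R] [IsDiscreteValuationRing R]
    [HenselianLocalRing R] [IsAlgClosed (IsLocalRing.ResidueField R)]
    [Field E] [CharZero E] [Algebra R E] [IsFractionRing R E]
    [Field F] [Algebra E F] [Algebra R F] [IsScalarTower R E F]
    (w : R) (q m : ℕ) (x : F) (Bf Bi : Subalgebra R F)
    (τ : F ≃+* F) (τE : E ≃+* E) (τR : R ≃+* R),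
    SSCtx w q m x Bf Bi τ τE τR → RootConclusion m τR

/-- Leaf **SHEETS**. -/
def SheetsLeaf : Prop :=
  ∀ {R E F : Type} [CommRing R] [IsDomain R] [IsDiscreteValuationRing R]
    [HenselianLocalRing R] [IsAlgClosed (IsLocalRing.ResidueField R)]
    [Field E] [CharZero E] [Algebra R E] [IsFractionRing R E]
    [Field F] [Algebra E F] [Algebra R F] [IsScalarTower R E F]
    (w : R) (q m : ℕ) (x : F) (Bf Bi : Subalgebra R F)
    (τ : F ≃+* F) (τE : E ≃+* E) (τR : R ≃+* R),
    SSCtx w q m x Bf Bi τ τE τR →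
    ∀ (L : Type) [Field L] [Algebra F L] [Algebra R L] [IsScalarTower R F L],
      IsKummerSplit L w x m → SheetsConclusion L w x

/-- Leaf **RED**. -/
def RedLeaf : Prop :=
  ∀ {R E F : Type} [CommRing R] [IsDomain R] [IsDiscreteValuationRing R]
    [HenselianLocalRing R] [IsAlgClosed (IsLocalRing.ResidueField R)]
    [Field E] [CharZero E] [Algebra R E] [IsFractionRing R E]
    [Field F] [Algebra E F] [Algebra R F] [IsScalarTower R E F]
    (w : R) (q m : ℕ) (x : F) (Bf Bi : Subalgebra R F)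
    (τ : F ≃+* F) (τE : E ≃+* E) (τR : R ≃+* R),
    SSCtx w q m x Bf Bi τ τE τR →
    ∀ (L : Type) [Field L] [Algebra F L] [Algebra R L] [IsScalarTower R F L],
      IsKummerSplit L w x m → RedConclusion L w x

/-- Leaf **CONST**. -/
def ConstLeaf : Prop :=
  ∀ {R E F : Type} [CommRing R] [IsDomain R] [IsDiscreteValuationRing R]
    [HenselianLocalRing R] [IsAlgClosed (IsLocalRing.ResidueField R)]
    [Field E] [CharZero E] [Algebra R E] [IsFractionRing R E]
    [Field F] [Algebra E F] [Algebra R F] [IsScalarTower R E F]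
    (w : R) (q m : ℕ) (x : F) (Bf Bi : Subalgebra R F)
    (τ : F ≃+* F) (τE : E ≃+* E) (τR : R ≃+* R),
    SSCtx w q m x Bf Bi τ τE τR →
    ∀ (L : Type) [Field L] [Algebra F L] [Algebra R L] [IsScalarTower R F L],
      IsKummerSplit L w x m → ConstConclusion (R := R) L x

/-- Leaf **COUNT** (the δ-count). -/
def CountLeaf : Prop :=
  ∀ {R E F : Type} [CommRing R] [IsDomain R] [IsDiscreteValuationRing R]
    [HenselianLocalRing R] [IsAlgClosed (IsLocalRing.ResidueField R)]
    [Field E] [CharZero E] [Algebra R E] [IsFractionRing R E]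
    [Field F] [Algebra E F] [Algebra R F] [IsScalarTower R E F]
    (w : R) (q m : ℕ) (x : F) (Bf Bi : Subalgebra R F)
    (τ : F ≃+* F) (τE : E ≃+* E) (τR : R ≃+* R),
    SSCtx w q m x Bf Bi τ τE τR →
    ∀ (L : Type) [Field L] [Algebra F L] [Algebra R L] [IsScalarTower R F L],
      IsKummerSplit L w x m → CountConclusion L w x

/-- Leaf **COVER**. -/
def CoverLeaf : Prop :=
  ∀ {R E F : Type} [CommRing R] [IsDomain R] [IsDiscreteValuationRing R]
    [HenselianLocalRing R] [IsAlgClosed (IsLocalRing.ResidueField R)]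
    [Field E] [CharZero E] [Algebra R E] [IsFractionRing R E]
    [Field F] [Algebra E F] [Algebra R F] [IsScalarTower R E F]
    (w : R) (q m : ℕ) (x : F) (Bf Bi : Subalgebra R F)
    (τ : F ≃+* F) (τE : E ≃+* E) (τR : R ≃+* R),
    SSCtx w q m x Bf Bi τ τE τR →
    ∀ g : F, g ≠ 0 → HorDiv R m g →
      (∀ V : ValuationSubring F, IsSheet w x V → SplitAt m V g) →
      CoverConclusion w x m τ g

end Fermat.Agent.A2.H12

end
-- ===== PACK-END A2/H12/AlgLeaves.lean

-- ===== PACK-BEGIN S24/Alg/LocFundFF.lean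
section



/-!
# S24 / ALG-LOC: the fundamental inequality `|X| ≤ ∑_{v | t} ord_v t` (final form)

Combines the local uniqueness argument (`LocFund.lean`) with "residue field `= K`"
(helper804, `FFFinite.lean`).  No Dedekind theory.
-/

set_option autoImplicit false

noncomputable section

open AlgebraicCurve IntermediateField

namespace Fermat.Agent.S24.H144

variable {K F : Type*} [Field K] [Field F] [Algebra K F]
variable {C : Type*} [Field C] {X : Type*} {t : F}

/-- Over an algebraically closed constant field the residue field of every place is `K`. -/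
theorem loc_residueTrivial [IsAlgClosed K] (v : Place K F) (ht : 0 < v.ord t)
    [FiniteDimensional K⟮t⟯ F] : ResidueTrivial v := by
  have htr : Transcendental K t := by
    apply FF.transcendental_of_not_mem_range
    rintro ⟨c, rfl⟩
    rw [loc_ord_algebraMap] at ht
    exact lt_irrefl _ ht
  intro f hf
  obtain ⟨a, ha⟩ := FF.exists_const_sub_mem_nonunits v htr hf
  refine ⟨a, ?_⟩
  rcases eq_or_ne (f - algebraMap K F a) 0 with h0 | h0
  · exact Or.inl (sub_eq_zero.mp h0)
  · exact Or.inr ((FF.ord_pos_iff_mem_nonunits v h0).mpr ha)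

/-- **Fundamental inequality from local data.** -/
theorem loc_fundamental_inequality [IsAlgClosed K] [CharZero C] [Finite X]
    [FiniteDimensional K⟮t⟯ F] (L : LocalData K F C X t)
    (s : Finset (Place K F)) (hs : ∀ v, v ∈ s ↔ 0 < v.ord t) :
    (Nat.card X : ℤ) ≤ ∑ v ∈ s, v.ord t :=
  loc_card_le_sum_of_residueTrivial L (fun v hv => loc_residueTrivial v hv) s hs

end Fermat.Agent.S24.H144

end
end
-- ===== PACK-END S24/Alg/LocFundFF.lean

-- ===== PACK-BEGIN S29/H942/HoloRoot.lean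
section





/-!
# Holomorphic `p`-th roots on the upper half plane

If `g : ℍ → ℂ` is holomorphic, not identically zero, and all its orders of vanishing are divisible
by `p`, then `g = c ^ p` for a holomorphic `c : ℍ → ℂ`.
-/

set_option autoImplicit false

noncomputable section

open Filter Topology Set Complex MeromorphicOn Function UpperHalfPlane
open scoped Manifold

namespace Fermat.Agent.S29.H942

/-- A root in normal form of an analytic function is analytic. -/
lemma IsNFRootOn.analyticAt {h f : ℂ → ℂ} {V : Set ℂ} {p : ℕ} (hp : p ≠ 0)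
    (hh : IsNFRootOn h f V p) {x : ℂ} (hx : x ∈ V) (hf : AnalyticAt ℂ f x) :
    AnalyticAt ℂ h x := by
  rw [← (hh.1 hx).meromorphicOrderAt_nonneg_iff_analyticAt]
  have h1 : meromorphicOrderAt (h ^ p) x = meromorphicOrderAt f x :=
    meromorphicOrderAt_congr (hh.2 x hx)
  rw [meromorphicOrderAt_pow (hh.1 hx).meromorphicAt] at h1
  have h2 : 0 ≤ meromorphicOrderAt f x := hf.meromorphicOrderAt_nonneg
  rw [← h1] at h2
  by_cases htop : meromorphicOrderAt h x = ⊤
  · rw [htop]
    exact le_top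
  · obtain ⟨n, hn⟩ := WithTop.ne_top_iff_exists.1 htop
    rw [← hn] at h2 ⊢
    have h4 : ((p : ℕ) : WithTop ℤ) * ((n : ℤ) : WithTop ℤ) = (((p : ℤ) * n : ℤ) : WithTop ℤ) := by
      push_cast
      rfl
    rw [h4] at h2
    have h5 : (0 : ℤ) ≤ (p : ℤ) * n := by exact_mod_cast h2
    have hp' : (0 : ℤ) < p := by exact_mod_cast Nat.pos_of_ne_zero hp
    have h6 : (0 : ℤ) ≤ n := by
      by_contra hneg
      rw [not_le] at hneg
      nlinarith
    exact_mod_cast h6

/-- A root in normal form of an analytic function is a root everywhere. -/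
lemma IsNFRootOn.pow_eq {h f : ℂ → ℂ} {V : Set ℂ} {p : ℕ} (hp : p ≠ 0)
    (hh : IsNFRootOn h f V p) {x : ℂ} (hx : x ∈ V) (hf : AnalyticAt ℂ f x) :
    h x ^ p = f x := by
  have hA := hh.analyticAt hp hx hf
  have hc : ContinuousAt (h ^ p) x := (hA.pow p).continuousAt
  have := (hc.eventuallyEq_nhds_iff_eventuallyEq_nhdsNE hf.continuousAt).1 (hh.2 x hx)
  exact this.self_of_nhds

/-- **Holomorphic `p`-th roots on the upper half plane.** -/
theorem exists_holomorphic_root {g : ℍ → ℂ} (hg : MDiff g) {p : ℕ} (hp : p ≠ 0)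
    (hdiv : ∀ τ : ℍ, ∃ k : ℕ, analyticOrderAt (g ∘ ofComplex) (τ : ℂ) = ((p * k : ℕ) : ℕ∞)) :
    ∃ c : ℍ → ℂ, MDiff c ∧ c ^ p = g := by
  set f : ℂ → ℂ := g ∘ ofComplex with hf
  have hAn : AnalyticOnNhd ℂ f uhpSet :=
    (UpperHalfPlane.mdifferentiable_iff.mp hg).analyticOnNhd isOpen_upperHalfPlaneSet
  have hord : ∀ z ∈ uhpSet, ∃ k : ℕ, meromorphicOrderAt f z = ((p * k : ℕ) : ℤ) := by
    intro z hz
    obtain ⟨k, hk⟩ := hdiv ⟨z, hz⟩
    refine ⟨k, ?_⟩
    rw [(hAn z hz).meromorphicOrderAt_eq]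
    have : analyticOrderAt f z = ((p * k : ℕ) : ℕ∞) := hk
    rw [this]
    rfl
  obtain ⟨h, hh⟩ := exists_isNFRootOn_upperHalfPlane (f := f) hAn.meromorphicOn
    (fun z hz => by
      obtain ⟨k, hk⟩ := hord z hz
      rw [hk]
      exact WithTop.coe_ne_top)
    hp
    (fun z hz => by
      obtain ⟨k, hk⟩ := hord z hz
      rw [hk]
      simp only [WithTop.untop₀_coe]
      exact ⟨k, by push_cast; ring⟩)
  have hhA : AnalyticOnNhd ℂ h uhpSet := fun z hz => hh.analyticAt hp hz (hAn z hz)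
  have hhp : ∀ z ∈ uhpSet, h z ^ p = f z := fun z hz => hh.pow_eq hp hz (hAn z hz)
  refine ⟨fun τ => h (τ : ℂ), ?_, ?_⟩
  · rw [UpperHalfPlane.mdifferentiable_iff]
    refine hhA.differentiableOn.congr fun z hz => ?_
    simp only [Function.comp_apply]
    rw [ofComplex_apply_of_im_pos hz]
  · funext τ
    have := hhp (τ : ℂ) τ.im_pos
    simp only [Pi.pow_apply]
    rw [this, hf, Function.comp_apply, ofComplex_apply]

/-- Uniqueness of holomorphic `p`-th roots up to roots of unity. -/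
theorem holomorphic_root_unique {c₁ c₂ : ℍ → ℂ} (h₁ : MDiff c₁) (h₂ : MDiff c₂)
    (h₁0 : c₁ ≠ 0) {p : ℕ} (hp : p ≠ 0) (hpow : c₁ ^ p = c₂ ^ p) :
    ∃ ζ : ℂ, ζ ^ p = 1 ∧ c₂ = fun τ => ζ * c₁ τ := by
  set f : ℂ → ℂ := (c₁ ^ p) ∘ ofComplex with hf
  have hA₁ : AnalyticOnNhd ℂ (c₁ ∘ ofComplex) uhpSet :=
    (UpperHalfPlane.mdifferentiable_iff.mp h₁).analyticOnNhd isOpen_upperHalfPlaneSet
  have hA₂ : AnalyticOnNhd ℂ (c₂ ∘ ofComplex) uhpSet :=
    (UpperHalfPlane.mdifferentiable_iff.mp h₂).analyticOnNhd isOpen_upperHalfPlaneSet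
  have hAf : AnalyticOnNhd ℂ f uhpSet :=
    (UpperHalfPlane.mdifferentiable_iff.mp (MDifferentiable.pow h₁ p)).analyticOnNhd isOpen_upperHalfPlaneSet
  have hR₁ : IsNFRootOn (c₁ ∘ ofComplex) f uhpSet p :=
    ⟨hA₁.meromorphicNFOn, fun x _ => Eventually.of_forall fun y => rfl⟩
  have hR₂ : IsNFRootOn (c₂ ∘ ofComplex) f uhpSet p :=
    ⟨hA₂.meromorphicNFOn, fun x _ => Eventually.of_forall fun y => by
      simp only [hf, hpow, Pi.pow_apply, Function.comp_apply]⟩
  have hford : ∀ x ∈ uhpSet, meromorphicOrderAt f x ≠ ⊤ := by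
    intro x hx htop
    rw [(hAf x hx).meromorphicOrderAt_eq] at htop
    have h3 : analyticOrderAt f x = ⊤ := by
      by_contra hne
      obtain ⟨n, hn⟩ := ENat.ne_top_iff_exists.1 hne
      rw [← hn] at htop
      exact absurd htop (by simp)
    have h5 : ∀ᶠ z in 𝓝 x, f z = 0 := analyticOrderAt_eq_top.mp h3
    have hpre : IsPreconnected uhpSet := by
      have hconv : Convex ℝ uhpSet := by
        have : uhpSet = Complex.im ⁻¹' (Ioi 0) := rfl
        rw [this]
        exact (convex_Ioi (0 : ℝ)).is_linear_preimage Complex.imLm.isLinear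
      exact hconv.isPreconnected
    have h6 := hAf.eqOn_zero_of_preconnected_of_eventuallyEq_zero hpre hx h5
    apply h₁0
    funext τ
    have h7 := h6 τ.im_pos
    simp only [hf, Function.comp_apply, ofComplex_apply, Pi.pow_apply, Pi.zero_apply] at h7 ⊢
    exact pow_eq_zero_iff hp |>.mp h7
  have hconv : Convex ℝ uhpSet := by
    have : uhpSet = Complex.im ⁻¹' (Ioi 0) := rfl
    rw [this]
    exact (convex_Ioi (0 : ℝ)).is_linear_preimage Complex.imLm.isLinear
  obtain ⟨ζ, hζ, hζe⟩ := IsNFRootOn.exists_eq_mul hp isOpen_uhpSet hconv.isPreconnected hford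
    hR₁ hR₂
  refine ⟨ζ, hζ, ?_⟩
  funext τ
  have := hζe (τ : ℂ) τ.im_pos
  simpa [Function.comp_apply, ofComplex_apply] using this

end Fermat.Agent.S29.H942

end
end
-- ===== PACK-END S29/H942/HoloRoot.lean

-- ===== PACK-BEGIN S28/H326/Final.lean
section
/-
S28 / helper326: the prime-level analytic stubs of the captain skeleton
(`ModPolyData p`, `UnitPolyData p` of `Fermat.Agent.S28.Defs`).
-/





set_option autoImplicit false
set_option linter.unusedSectionVars false

noncomputable section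

namespace Fermat.Agent.S28.H326

open ModularCurve HahnSeries

variable (p : ℕ) [NeZero p]

/-- the base embedding `ℤ((q)) → ℂ((t))`, `q ↦ t^p` -/
def iotaP : LaurentSeries ℤ →+* LaurentSeries ℂ := (qExpand ℂ p).comp kap

theorem iotaP_injective : Function.Injective (iotaP p) :=
  (qExpand_injective p).comp kap_injective

theorem theta_eq_comp :
    theta p = (iotaP p).comp (Polynomial.aeval (jqModC ℤ)).toRingHom := rfl

theorem theta_eq_comp' :
    theta p = kap.comp (Polynomial.aeval (qExpand ℤ p (jqModC ℤ))).toRingHom := by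
  refine Polynomial.ringHom_ext (fun a => ?_) ?_
  · simp
  · rw [theta_X]
    simp only [RingHom.comp_apply, AlgHom.toRingHom_eq_coe, RingHom.coe_coe, Polynomial.aeval_X]
    rw [coeffMap_qExpand, coeffMap_jqModC, jP]

theorem iotaP_qExpand_jq : iotaP p (qExpand ℤ p (jqModC ℤ)) = y p none := by
  rw [iotaP, RingHom.comp_apply, coeffMap_qExpand, coeffMap_jqModC]
  rfl

theorem kap_jq : kap (jqModC ℤ) = y p (some ⟨0, Nat.pos_of_ne_zero (NeZero.ne p)⟩) := by
  rw [coeffMap_jqModC]
  simp only [y, pow_zero, inv_one, map_one, one_mul, cB_zero]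
  rfl

theorem deltaL_eq : deltaL ℤ = deltaZ := by
  rw [deltaL, deltaZ, DZ, map_mul, HahnSeries.ofPowerSeries_X]
  congr 2

theorem deltaInvL_eq : deltaInvL ℤ = deltaInvZ := by
  rw [deltaInvL, deltaInvZ]
  congr 2

theorem iotaP_unit :
    iotaP p ((p : LaurentSeries ℤ) ^ 12 * unitL ℤ p) = w p none := by
  rw [unitL, deltaL_eq, deltaInvL_eq, w, scal, conj, cInf, cBase, delInv, iotaP]
  simp only [RingHom.comp_apply, map_mul, map_pow, map_natCast, coeffMap_qExpand]
  rw [deltaZ, kap_ofPS, DC]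
  ring

/-- **[A-Φ]** existence of the modular polynomial of prime level `p`. -/
theorem nonempty_modPolyData (hp : p.Prime) : Nonempty (ModPolyData p) := by
  obtain ⟨Φ, hmonic, hdeg, hmap⟩ := exists_Phi p (heckeInput p hp)
  refine ⟨⟨Φ, hmonic, hdeg, ?_, ?_⟩⟩
  · apply iotaP_injective p
    rw [map_zero, Polynomial.hom_eval₂, ← theta_eq_comp, ← Polynomial.eval_map, hmap,
      iotaP_qExpand_jq]
    exact PhiPoly_eval p none
  · apply kap_injective
    rw [map_zero, Polynomial.hom_eval₂, ← theta_eq_comp', ← Polynomial.eval_map, hmap, kap_jq p]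
    exact PhiPoly_eval p _

/-- **[A-W]** `p¹² Δ(q^p)/Δ(q)` is integral over `ℤ[j]`. -/
theorem nonempty_unitPolyData (hp : p.Prime) : Nonempty (UnitPolyData p) := by
  obtain ⟨W, hmonic, -, hmap⟩ := exists_W p (heckeInput p hp)
  refine ⟨⟨W, hmonic, ?_⟩⟩
  apply iotaP_injective p
  rw [map_zero, Polynomial.hom_eval₂, ← theta_eq_comp, ← Polynomial.eval_map, hmap, iotaP_unit]
  exact WPoly_eval p none

end Fermat.Agent.S28.H326

end
end
-- ===== PACK-END S28/H326/Final.lean

-- ===== PACK-BEGIN S18/H333/HauptLaurent.lean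
section




/-!
# S18 / c3 (helper333): the Hauptmoduln `t₂`, `t₃` as Laurent series over `ℤ`

* `t2Z = q⁻¹ (η(q)/η(q²))²⁴`, `t3Z = q⁻¹ (η(q)/η(q³))¹²  : LaurentSeries ℤ`;
* `t2Z_rel_a : jqModC ℤ * t2Z ^ 2 = (t2Z + 256) ^ 3`
* `t2Z_rel_b : qExpand ℤ 2 (jqModC ℤ) * t2Z = (t2Z + 16) ^ 3`
* `t3Z_rel_a : jqModC ℤ * t3Z ^ 3 = (t3Z + 27) * (t3Z + 243) ^ 3`
* `t3Z_rel_b : qExpand ℤ 3 (jqModC ℤ) * t3Z = (t3Z + 27) * (t3Z + 3) ^ 3`
-/

set_option autoImplicit false

noncomputable section

namespace Fermat.Agent.S18.H333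

open PowerSeries ModularCurve HahnSeries

/-- power series to Laurent series over `ℤ` -/
abbrev ιZ : PowerSeries ℤ →+* LaurentSeries ℤ := HahnSeries.ofPowerSeries ℤ ℤ

theorem ιZ_injective : Function.Injective ιZ := HahnSeries.ofPowerSeries_injective

theorem ιZ_coeff_neg (f : PowerSeries ℤ) {k : ℤ} (hk : k < 0) : (ιZ f).coeff k = 0 :=
  ofPowerSeries_coeff_of_neg f hk

theorem ιZ_coeff_nat (f : PowerSeries ℤ) (n : ℕ) : (ιZ f).coeff (n : ℤ) = PowerSeries.coeff n f :=
  HahnSeries.ofPowerSeries_apply_coeff f n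

theorem qExpand_ιZ (p : ℕ) [NeZero p] (f : PowerSeries ℤ) :
    qExpand ℤ p (ιZ f) = ιZ (Vser p f) := by
  have hp : 0 < p := Nat.pos_of_ne_zero (NeZero.ne p)
  ext k
  by_cases hk : (p : ℤ) ∣ k
  · obtain ⟨m, rfl⟩ := hk
    rw [qExpand_coeff_mul]
    rcases le_or_gt 0 m with hm | hm
    · lift m to ℕ using hm
      rw [ιZ_coeff_nat, show ((p : ℤ) * (m : ℤ)) = ((p * m : ℕ) : ℤ) by push_cast; rfl,
        ιZ_coeff_nat, coeff_Vser, if_pos (Dvd.intro m rfl), Nat.mul_div_cancel_left m hp]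
    · rw [ιZ_coeff_neg _ hm, ιZ_coeff_neg _ (mul_neg_of_pos_of_neg (by exact_mod_cast hp) hm)]
  · rw [qExpand_coeff_of_not_dvd _ _ hk]
    rcases le_or_gt 0 k with hk0 | hk0
    · lift k to ℕ using hk0
      rw [ιZ_coeff_nat, coeff_Vser, if_neg]
      intro h
      exact hk (by exact_mod_cast h)
    · rw [ιZ_coeff_neg _ hk0]

theorem ιZ_X : ιZ X = single 1 1 := HahnSeries.ofPowerSeries_X

theorem single_neg_one_mul_single_one :
    (single (-1 : ℤ) (1 : ℤ) : LaurentSeries ℤ) * single 1 1 = 1 := by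
  rw [single_mul_single]
  simp

theorem jNum_map_int : jNum.map (Int.castRingHom ℤ) = jNum := by
  ext n
  simp

/-- `Δ` as a Laurent series -/
def DL : LaurentSeries ℤ := ιZ Dz

theorem DL_ne_zero : DL ≠ 0 := by
  intro h
  have h1 : (ιZ Dz).coeff ((1 : ℕ) : ℤ) = 0 := by rw [show ιZ Dz = DL from rfl, h]; rfl
  rw [ιZ_coeff_nat] at h1
  have h2 := tl_getD 3 Dz (i := 1) (by norm_num)
  rw [tl_Dz_3, h1] at h2
  simp at h2

theorem qExpand_DL_ne_zero (p : ℕ) [NeZero p] : qExpand ℤ p DL ≠ 0 := by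
  intro h
  exact DL_ne_zero (qExpand_injective p (by rw [h, map_zero]))

theorem jZ_mul_DL : jqModC ℤ * DL = ιZ (Ez ^ 3) := by
  have h1 : jNum * dedekindEtaUnit = Ez ^ 3 := by
    rw [jNum, mul_assoc, mul_comm dedekindEtaUnitInv, dedekindEtaUnit_mul_inv, mul_one]; rfl
  rw [jqModC, jNum_map_int, DL, Dz_eq, map_mul, ιZ_X, ← h1, map_mul]
  calc single (-1 : ℤ) (1 : ℤ) * ιZ jNum * (single 1 1 * ιZ dedekindEtaUnit)
      = (single (-1 : ℤ) (1 : ℤ) * single 1 1) * (ιZ jNum * ιZ dedekindEtaUnit) := by ring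
    _ = ιZ jNum * ιZ dedekindEtaUnit := by rw [single_neg_one_mul_single_one, one_mul]

theorem qExpand_jZ_mul (p : ℕ) [NeZero p] :
    qExpand ℤ p (jqModC ℤ) * qExpand ℤ p DL = ιZ (Vser p Ez ^ 3) := by
  rw [← map_mul, jZ_mul_DL, qExpand_ιZ, Vser_pow p (NeZero.ne p)]

/-- `t₂ = q⁻¹ (η(q)/η(q²))²⁴` -/
def t2Z : LaurentSeries ℤ :=
  single (-1 : ℤ) 1 * ιZ (dedekindEtaUnit * Vser 2 dedekindEtaUnitInv)

/-- `t₃ = q⁻¹ (η(q)/η(q³))¹²` -/
def t3Z : LaurentSeries ℤ :=
  single (-1 : ℤ) 1 * ιZ (eta12 * Vser 3 eta12Inv)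

theorem t2Z_mul : t2Z * qExpand ℤ 2 DL = DL := by
  have h1 : Vser 2 dedekindEtaUnitInv * Vser 2 dedekindEtaUnit = 1 := by
    rw [← Vser_mul 2 (by norm_num), mul_comm, dedekindEtaUnit_mul_inv, Vser_one 2 (by norm_num)]
  have h2 : ιZ (Vser 2 dedekindEtaUnitInv) * ιZ (Vser 2 dedekindEtaUnit) = 1 := by
    rw [← map_mul, h1, map_one]
  rw [t2Z, DL, qExpand_ιZ, Vser_Dz 2 (by norm_num), Dz_eq]
  simp only [map_mul, map_pow, ιZ_X]
  have h3 := single_neg_one_mul_single_one
  linear_combination (single (1 : ℤ) (1 : ℤ) * ιZ dedekindEtaUnit * ιZ (Vser 2 dedekindEtaUnitInv)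
    * ιZ (Vser 2 dedekindEtaUnit)) * h3 + single (1 : ℤ) (1 : ℤ) * ιZ dedekindEtaUnit * h2

theorem t3Z_mul : t3Z * qExpand ℤ 3 DL = ιZ Zz := by
  have h1 : Vser 3 eta12Inv * Vser 3 eta12 = 1 := by
    rw [← Vser_mul 3 (by norm_num), mul_comm, eta12_mul_inv, Vser_one 3 (by norm_num)]
  have h2 : ιZ (Vser 3 eta12Inv) * ιZ (Vser 3 eta12) = 1 := by
    rw [← map_mul, h1, map_one]
  rw [t3Z, DL, qExpand_ιZ, Vser_Dz 3 (by norm_num), Zz, ← eta12_sq, Vser_mul 3 (by norm_num)]
  simp only [map_mul, map_pow, ιZ_X]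
  have h3 := single_neg_one_mul_single_one
  linear_combination (single (1 : ℤ) (1 : ℤ) ^ 2 * ιZ eta12 * ιZ (Vser 3 eta12Inv)
    * ιZ (Vser 3 eta12) * ιZ (Vser 3 eta12)) * h3
    + single (1 : ℤ) (1 : ℤ) ^ 2 * ιZ eta12 * ιZ (Vser 3 eta12) * h2

theorem ιZ_zsmul (c : ℤ) (f : PowerSeries ℤ) : ιZ (c • f) = (c : LaurentSeries ℤ) * ιZ f := by
  rw [zsmul_eq_mul, map_mul, map_intCast]

/-- `j t₂² = (t₂ + 256)³` over `ℤ` -/
theorem t2Z_rel_a : jqModC ℤ * t2Z ^ 2 = (t2Z + 256) ^ 3 := by
  have hne := pow_ne_zero 3 (qExpand_DL_ne_zero 2)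
  refine mul_right_cancel₀ hne ?_
  have hP := congrArg ιZ Phi2a_eq_zero
  simp only [Phi2a, map_zero, map_sub, map_mul, map_pow, map_add, ιZ_zsmul] at hP
  have hE : ιZ Ez ^ 3 = jqModC ℤ * DL := by rw [jZ_mul_DL, map_pow]
  have hV : ιZ (Vser 2 Dz) = qExpand ℤ 2 DL := (qExpand_ιZ 2 Dz).symm
  rw [hE, hV, show ιZ Dz = DL from rfl] at hP
  push_cast at hP
  have ht := t2Z_mul
  linear_combination hP + (jqModC ℤ * qExpand ℤ 2 DL * (t2Z * qExpand ℤ 2 DL + DL)
    - ((t2Z + 256) * qExpand ℤ 2 DL) ^ 2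
    - (t2Z + 256) * qExpand ℤ 2 DL * (DL + 256 * qExpand ℤ 2 DL)
    - (DL + 256 * qExpand ℤ 2 DL) ^ 2) * ht

/-- `j(q²) t₂ = (t₂ + 16)³` over `ℤ` -/
theorem t2Z_rel_b : qExpand ℤ 2 (jqModC ℤ) * t2Z = (t2Z + 16) ^ 3 := by
  have hne := pow_ne_zero 3 (qExpand_DL_ne_zero 2)
  refine mul_right_cancel₀ hne ?_
  have hP := congrArg ιZ Phi2b_eq_zero
  simp only [Phi2b, map_zero, map_sub, map_mul, map_pow, map_add, ιZ_zsmul] at hP
  have hE : ιZ (Vser 2 Ez) ^ 3 = qExpand ℤ 2 (jqModC ℤ) * qExpand ℤ 2 DL := by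
    rw [qExpand_jZ_mul, map_pow]
  have hV : ιZ (Vser 2 Dz) = qExpand ℤ 2 DL := (qExpand_ιZ 2 Dz).symm
  rw [hE, hV, show ιZ Dz = DL from rfl] at hP
  push_cast at hP
  have ht := t2Z_mul
  linear_combination hP + (qExpand ℤ 2 (jqModC ℤ) * qExpand ℤ 2 DL * qExpand ℤ 2 DL
    - ((t2Z + 16) * qExpand ℤ 2 DL) ^ 2
    - (t2Z + 16) * qExpand ℤ 2 DL * (DL + 16 * qExpand ℤ 2 DL)
    - (DL + 16 * qExpand ℤ 2 DL) ^ 2) * ht

theorem ιZ_Zz_sq : ιZ Zz * ιZ Zz = DL * qExpand ℤ 3 DL := by
  rw [← map_mul, Zz_sq, map_mul, ← qExpand_ιZ]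
  rfl

/-- `j t₃³ = (t₃ + 27)(t₃ + 243)³` over `ℤ` -/
theorem t3Z_rel_a : jqModC ℤ * t3Z ^ 3 = (t3Z + 27) * (t3Z + 243) ^ 3 := by
  have hne := pow_ne_zero 4 (qExpand_DL_ne_zero 3)
  refine mul_right_cancel₀ hne ?_
  have hA := congrArg ιZ A3a_eq
  simp only [A3a, B3a, map_sub, map_mul, map_pow, map_add, ιZ_zsmul] at hA
  have hE : ιZ Ez ^ 3 = jqModC ℤ * DL := by rw [jZ_mul_DL, map_pow]
  have hV : ιZ (Vser 3 Dz) = qExpand ℤ 3 DL := (qExpand_ιZ 3 Dz).symm
  rw [hE, hV, show ιZ Dz = DL from rfl] at hA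
  push_cast at hA
  have ht := t3Z_mul
  have hZ := ιZ_Zz_sq
  generalize ιZ Zz = Z at *
  generalize qExpand ℤ 3 DL = Q at *
  generalize jqModC ℤ = j at *
  generalize DL = D at *
  have hG : j * Z ^ 3 * Q = (Z + 27 * Q) * (Z + 243 * Q) ^ 3 := by
    linear_combination (j * Q * Z - Z ^ 2 - D * Q - 756 * Q * Z - 196830 * Q ^ 2) * hZ
      - Q ^ 2 * hA
  calc j * t3Z ^ 3 * Q ^ 4 = j * (t3Z * Q) ^ 3 * Q := by ring
    _ = (t3Z * Q + 27 * Q) * (t3Z * Q + 243 * Q) ^ 3 := by rw [ht, hG]
    _ = (t3Z + 27) * (t3Z + 243) ^ 3 * Q ^ 4 := by ring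

/-- `j(q³) t₃ = (t₃ + 27)(t₃ + 3)³` over `ℤ` -/
theorem t3Z_rel_b : qExpand ℤ 3 (jqModC ℤ) * t3Z = (t3Z + 27) * (t3Z + 3) ^ 3 := by
  have hne := pow_ne_zero 4 (qExpand_DL_ne_zero 3)
  refine mul_right_cancel₀ hne ?_
  have hA := congrArg ιZ A3b_eq
  simp only [A3b, B3b, map_sub, map_mul, map_pow, map_add, ιZ_zsmul] at hA
  have hE : ιZ (Vser 3 Ez) ^ 3 = qExpand ℤ 3 (jqModC ℤ) * qExpand ℤ 3 DL := by
    rw [qExpand_jZ_mul, map_pow]
  have hV : ιZ (Vser 3 Dz) = qExpand ℤ 3 DL := (qExpand_ιZ 3 Dz).symm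
  rw [hE, hV, show ιZ Dz = DL from rfl] at hA
  push_cast at hA
  have ht := t3Z_mul
  have hZ := ιZ_Zz_sq
  generalize ιZ Zz = Z at *
  generalize qExpand ℤ 3 (jqModC ℤ) = J at *
  generalize qExpand ℤ 3 DL = Q at *
  generalize DL = D at *
  have hG : J * Q * Z * Q ^ 2 = (Z + 27 * Q) * (Z + 3 * Q) ^ 3 := by
    linear_combination (-(Z ^ 2 + D * Q + 36 * Q * Z + 270 * Q ^ 2)) * hZ - Q ^ 2 * hA
  calc J * t3Z * Q ^ 4 = J * Q * (t3Z * Q) * Q ^ 2 := by ring
    _ = (t3Z * Q + 27 * Q) * (t3Z * Q + 3 * Q) ^ 3 := by rw [ht, hG]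
    _ = (t3Z + 27) * (t3Z + 3) ^ 3 * Q ^ 4 := by ring

/-! ### leading terms -/

theorem constantCoeff_Vser (p : ℕ) (hp : p ≠ 0) (f : PowerSeries ℤ) :
    PowerSeries.constantCoeff (Vser p f) = PowerSeries.constantCoeff f := by
  rw [Vser_eq_expand p hp, PowerSeries.constantCoeff_expand]

theorem single_neg_one_mul_coeff (f : PowerSeries ℤ) (k : ℤ) :
    (single (-1 : ℤ) (1 : ℤ) * ιZ f).coeff k = (ιZ f).coeff (k + 1) := by
  have := HahnSeries.coeff_single_mul_add (r := (1 : ℤ)) (x := ιZ f) (a := k + 1) (b := (-1 : ℤ))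
  rw [one_mul] at this
  rw [← this]
  congr 1
  ring

theorem t2Z_coeff_neg_one : t2Z.coeff (-1) = 1 := by
  rw [t2Z, single_neg_one_mul_coeff]
  have : ((-1 : ℤ) + 1) = ((0 : ℕ) : ℤ) := by norm_num
  rw [this, ιZ_coeff_nat, PowerSeries.coeff_zero_eq_constantCoeff, map_mul,
    constantCoeff_dedekindEtaUnit, one_mul]
  have h := congrArg (PowerSeries.constantCoeff (R := ℤ))
    (show Vser 2 dedekindEtaUnit * Vser 2 dedekindEtaUnitInv = 1 by
      rw [← Vser_mul 2 (by norm_num), dedekindEtaUnit_mul_inv, Vser_one 2 (by norm_num)])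
  rw [map_mul, map_one, constantCoeff_Vser 2 (by norm_num), constantCoeff_dedekindEtaUnit,
    one_mul] at h
  exact h

theorem t2Z_coeff_of_lt {k : ℤ} (hk : k < -1) : t2Z.coeff k = 0 := by
  rw [t2Z, single_neg_one_mul_coeff]
  exact ιZ_coeff_neg _ (by omega)

theorem t3Z_coeff_neg_one : t3Z.coeff (-1) = 1 := by
  rw [t3Z, single_neg_one_mul_coeff]
  have : ((-1 : ℤ) + 1) = ((0 : ℕ) : ℤ) := by norm_num
  rw [this, ιZ_coeff_nat, PowerSeries.coeff_zero_eq_constantCoeff, map_mul,
    constantCoeff_eta12, one_mul]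
  have h := congrArg (PowerSeries.constantCoeff (R := ℤ))
    (show Vser 3 eta12 * Vser 3 eta12Inv = 1 by
      rw [← Vser_mul 3 (by norm_num), eta12_mul_inv, Vser_one 3 (by norm_num)])
  rw [map_mul, map_one, constantCoeff_Vser 3 (by norm_num), constantCoeff_eta12,
    one_mul] at h
  exact h

theorem t3Z_coeff_of_lt {k : ℤ} (hk : k < -1) : t3Z.coeff k = 0 := by
  rw [t3Z, single_neg_one_mul_coeff]
  exact ιZ_coeff_neg _ (by omega)

end Fermat.Agent.S18.H333

end
end
-- ===== PACK-END S18/H333/HauptLaurent.lean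

-- ===== PACK-BEGIN Lib/RR/H443/Degree.lean
section


/-!
# RR bridge (helper443), part 3: `deg (x)_∞ = [F : K(x)]` and `HasPrincipalDivisors`

Characteristic-free.  From `Hyp K F` and the bound `ZerosBound K F` (layer L2 of the RR library:
zeros of `x` counted with multiplicity are at most `[F : K(x)]`) we deduce

* finiteness of the zeros and poles of every function;
* `[F : K(x)] ≤ deg (x)_∞` (Stichtenoth 1.4.11), hence equality;
* every principal divisor has degree `0`, i.e. `HasPrincipalDivisors K F`, and `FF1 K F`.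
-/

set_option autoImplicit false

noncomputable section

open AlgebraicCurve Polynomial IntermediateField
open Fermat.Agent.Lib.RR

namespace Fermat.Agent.Lib.RR.H443

variable {K F : Type*} [Field K] [Field F] [Algebra K F]

variable (K F) in
/-- The statement of layer L2 of the RR library. -/
def ZerosBound : Prop :=
  ∀ (x : F) [FiniteDimensional K⟮x⟯ F] (S : Finset (Place K F)), (∀ v ∈ S, 0 < v.ord x) →
    ∑ v ∈ S, v.ord x ≤ (Module.finrank K⟮x⟯ F : ℤ)

/-! ### Finiteness of zeros and poles -/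

theorem finite_zeros_of_finite (hZ : ZerosBound K F) (x : F) [FiniteDimensional K⟮x⟯ F] :
    {v : Place K F | 0 < v.ord x}.Finite := by
  by_contra hinf
  have hinf' : {v : Place K F | 0 < v.ord x}.Infinite := hinf
  obtain ⟨S, hS, hcard⟩ := hinf'.exists_subset_card_eq (Module.finrank K⟮x⟯ F + 1)
  have h1 := hZ x S (fun v hv => hS hv)
  have h2 : (S.card : ℤ) ≤ ∑ v ∈ S, v.ord x := by
    have : ∑ _v ∈ S, (1 : ℤ) ≤ ∑ v ∈ S, v.ord x :=
      Finset.sum_le_sum fun v hv => by
        have : 0 < v.ord x := hS hv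
        omega
    simpa using this
  rw [hcard] at h2
  push_cast at h2
  omega

theorem transcendental_inv {f : F} (hf : Transcendental K f) : Transcendental K f⁻¹ :=
  fun h => hf (by simpa using h.inv)

theorem adjoin_inv_eq (f : F) : K⟮f⁻¹⟯ = K⟮f⟯ := by
  apply le_antisymm
  · rw [adjoin_simple_le_iff]
    exact inv_mem (mem_adjoin_simple_self K f)
  · rw [adjoin_simple_le_iff]
    have h2 : (f⁻¹)⁻¹ ∈ K⟮f⁻¹⟯ := inv_mem (mem_adjoin_simple_self K f⁻¹)
    rwa [inv_inv] at h2

theorem finrank_adjoin_inv (f : F) : Module.finrank K⟮f⁻¹⟯ F = Module.finrank K⟮f⟯ F :=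
  congrArg (fun E : IntermediateField K F => Module.finrank E F) (_root_.Fermat.Agent.Lib.RR.H443.adjoin_inv_eq f)

theorem ord_eq_zero_of_isAlgebraic (h : Hyp K F) {f : F} (hf : IsAlgebraic K f)
    (v : Place K F) : v.ord f = 0 := by
  obtain ⟨c, rfl⟩ := h.const f hf
  exact ord_algebraMap v c

theorem finite_zeros (h : Hyp K F) (hZ : ZerosBound K F) (f : F) :
    {v : Place K F | 0 < v.ord f}.Finite := by
  by_cases hf : Transcendental K f
  · have := h.finite f hf
    exact finite_zeros_of_finite hZ f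
  · have hf' : IsAlgebraic K f := by
      by_contra hna
      exact hf hna
    have : {v : Place K F | 0 < v.ord f} = ∅ := by
      ext v
      simp [ord_eq_zero_of_isAlgebraic h hf' v]
    rw [this]
    exact Set.finite_empty

theorem finite_poles (h : Hyp K F) (hZ : ZerosBound K F) (f : F) :
    {v : Place K F | v.ord f < 0}.Finite := by
  refine (finite_zeros h hZ f⁻¹).subset fun v hv => ?_
  have hv' : v.ord f < 0 := hv
  show 0 < v.ord f⁻¹
  rw [v.ord_inv]
  omega

/-! ### The pole divisor -/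

/-- The pole divisor `(f)_∞`. -/
def poleDiv (h : Hyp K F) (hZ : ZerosBound K F) (f : F) : Divisor K F :=
  Finsupp.ofSupportFinite (fun v => max 0 (-v.ord f)) <| by
    refine (finite_poles h hZ f).subset fun v hv => ?_
    have hv' : max 0 (-v.ord f) ≠ 0 := hv
    show v.ord f < 0
    by_contra hcon
    apply hv'
    rw [max_eq_left]
    omega

@[simp]
theorem poleDiv_apply (h : Hyp K F) (hZ : ZerosBound K F) (f : F) (v : Place K F) :
    poleDiv h hZ f v = max 0 (-v.ord f) := rfl

theorem poleDiv_nonneg (h : Hyp K F) (hZ : ZerosBound K F) (f : F) : 0 ≤ poleDiv h hZ f := by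
  rw [Finsupp.le_def]
  intro v
  simp

theorem mem_support_poleDiv (h : Hyp K F) (hZ : ZerosBound K F) (f : F) (v : Place K F) :
    v ∈ (poleDiv h hZ f).support ↔ v.ord f < 0 := by
  rw [Finsupp.mem_support_iff, poleDiv_apply]
  constructor
  · intro hne
    by_contra hcon
    apply hne
    rw [max_eq_left]
    omega
  · intro hlt
    rw [max_eq_right (by omega)]
    omega

theorem degree_poleDiv (h : Hyp K F) (hZ : ZerosBound K F) (f : F) :
    Divisor.degree (poleDiv h hZ f) = ∑ v ∈ (poleDiv h hZ f).support, v.ord f⁻¹ := by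
  rw [degree_eq_sum]
  refine Finset.sum_congr rfl fun v hv => ?_
  rw [mem_support_poleDiv] at hv
  rw [h.deg_eq_one v, poleDiv_apply, v.ord_inv, max_eq_right (by omega)]
  simp

/-- `deg (x)_∞ ≤ [F : K(x)]`, from the zeros bound applied to `x⁻¹`. -/
theorem degree_poleDiv_le (h : Hyp K F) (hZ : ZerosBound K F) {x : F}
    (hx : Transcendental K x) :
    Divisor.degree (poleDiv h hZ x) ≤ (@Module.finrank K⟮x⟯ F _ _ _ : ℤ) := by
  have := h.finite x⁻¹ (transcendental_inv hx)
  rw [degree_poleDiv, ← finrank_adjoin_inv x]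
  refine hZ x⁻¹ _ fun v hv => ?_
  rw [mem_support_poleDiv] at hv
  rw [v.ord_inv]
  omega

/-! ### The lower bound -/

theorem linearIndependent_pow_of_transcendental {A : Type*} [Ring A] [Algebra K A] {a : A}
    (ha : Transcendental K a) (l : ℕ) :
    LinearIndependent K fun i : Fin (l + 1) => a ^ (i : ℕ) := by
  rw [Fintype.linearIndependent_iff]
  intro g hg i
  have hinj := transcendental_iff_injective.mp ha
  have hp : aeval a (∑ i : Fin (l + 1), Polynomial.monomial (i : ℕ) (g i)) = 0 := by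
    rw [map_sum]
    simp_rw [aeval_monomial, ← Algebra.smul_def]
    exact hg
  have hp0 : (∑ i : Fin (l + 1), Polynomial.monomial (i : ℕ) (g i)) = 0 :=
    hinj (by rw [hp, map_zero])
  have := congrArg (fun q : K[X] => q.coeff (i : ℕ)) hp0
  simp only [Polynomial.finsetSum_coeff, Polynomial.coeff_monomial, Polynomial.coeff_zero] at this
  rw [Finset.sum_eq_single i] at this
  · simpa using this
  · intro j _ hji
    rw [if_neg]
    exact fun h => hji (Fin.ext h)
  · intro hi
    exact absurd (Finset.mem_univ i) hi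

set_option maxHeartbeats 800000 in
/-- The products `x ^ i * b j` (`i ≤ l`, `b` a `K(x)`-basis of `F`) are `K`-linearly
independent. -/
theorem linearIndependent_pow_mul_basis {x : F} (hx : Transcendental K x)
    [FiniteDimensional K⟮x⟯ F] (l : ℕ) :
    LinearIndependent K fun p : Fin (l + 1) × Fin (Module.finrank K⟮x⟯ F) =>
      x ^ (p.1 : ℕ) * (Module.finBasis K⟮x⟯ F p.2 : F) := by
  have hgen : Transcendental K (AdjoinSimple.gen K x) := by
    rw [← transcendental_algebraMap_iff (algebraMap K⟮x⟯ F).injective]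
    exact hx
  have h1 := linearIndependent_pow_of_transcendental hgen l
  have h2 := (Module.finBasis K⟮x⟯ F).linearIndependent
  have h3 := linearIndependent_smul h1 h2
  convert h3 using 2 with p
  rw [Algebra.smul_def]
  simp

/-- `[F : K(x)] ≤ deg (x)_∞` (Stichtenoth, Thm. 1.4.11). -/
theorem finrank_le_degree_poleDiv (h : Hyp K F) (hZ : ZerosBound K F) {x : F}
    (hx : Transcendental K x) :
    (@Module.finrank K⟮x⟯ F _ _ _ : ℤ) ≤ Divisor.degree (poleDiv h hZ x) := by
  classical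
  have hfinx := h.finite x hx
  set n := Module.finrank K⟮x⟯ F with hn
  set B := poleDiv h hZ x with hB
  set C : Divisor K F := ∑ j : Fin n, poleDiv h hZ (Module.finBasis K⟮x⟯ F j : F) with hC
  have hB0 : 0 ≤ B := poleDiv_nonneg h hZ x
  have hC0 : 0 ≤ C := Finset.sum_nonneg fun j _ => poleDiv_nonneg h hZ _
  have hx0 : x ≠ 0 := fun h0 => hx (h0 ▸ isAlgebraic_zero)
  -- the key inequality for every `l`
  have key : ∀ l : ℕ, ((l + 1) * n : ℤ) ≤ l * Divisor.degree B + Divisor.degree C + 1 := by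
    intro l
    have hD0 : 0 ≤ l • B + C := add_nonneg (nsmul_nonneg hB0 l) hC0
    have hfin := finite_L_of_nonneg h hD0
    have hell := ell_le_of_nonneg h hD0
    have hli := linearIndependent_pow_mul_basis hx l
    have hmem : ∀ p : Fin (l + 1) × Fin n,
        x ^ (p.1 : ℕ) * (Module.finBasis K⟮x⟯ F p.2 : F) ∈ riemannRochSpace (l • B + C) := by
      rintro ⟨i, j⟩
      rw [mem_L_iff]
      intro v
      right
      have hbj : (Module.finBasis K⟮x⟯ F j : F) ≠ 0 := (Module.finBasis K⟮x⟯ F).ne_zero j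
      rw [v.ord_mul (pow_ne_zero _ hx0) hbj, ord_pow]
      have hBv : B v = max 0 (-v.ord x) := rfl
      have hCv : max 0 (-v.ord (Module.finBasis K⟮x⟯ F j : F)) ≤ C v := by
        rw [hC, Finsupp.finsetSum_apply]
        have : poleDiv h hZ (Module.finBasis K⟮x⟯ F j : F) v ≤
            ∑ j' : Fin n, poleDiv h hZ (Module.finBasis K⟮x⟯ F j' : F) v :=
          Finset.single_le_sum
            (f := fun j' => poleDiv h hZ (Module.finBasis K⟮x⟯ F j' : F) v)
            (fun j' _ => by simp) (Finset.mem_univ j)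
        simpa using this
      have hi : (i : ℕ) ≤ l := Nat.lt_succ_iff.mp i.2
      have hval : (l • B + C) v = (l : ℤ) * B v + C v := by
        rw [Finsupp.add_apply, Finsupp.smul_apply, nsmul_eq_mul]
      rw [hval, hBv]
      have h1 : ((i : ℕ) : ℤ) * max 0 (-v.ord x) ≤ (l : ℤ) * max 0 (-v.ord x) :=
        mul_le_mul_of_nonneg_right (by exact_mod_cast hi) (le_max_left _ _)
      have h2 : -(((i : ℕ) : ℤ) * max 0 (-v.ord x)) ≤ ((i : ℕ) : ℤ) * v.ord x := by
        have h3 : -v.ord x ≤ max 0 (-v.ord x) := le_max_right _ _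
        have h4 : (0 : ℤ) ≤ ((i : ℕ) : ℤ) := Int.natCast_nonneg _
        nlinarith
      have h5 : -v.ord (Module.finBasis K⟮x⟯ F j : F) ≤
          max 0 (-v.ord (Module.finBasis K⟮x⟯ F j : F)) := le_max_right _ _
      push_cast
      linarith
    -- count
    let g : Fin (l + 1) × Fin n → riemannRochSpace (l • B + C) := fun p => ⟨_, hmem p⟩
    have hli' : LinearIndependent K g := by
      apply LinearIndependent.of_comp (riemannRochSpace (l • B + C)).subtype
      exact hli
    have hcard := hli'.fintype_card_le_finrank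
    rw [Fintype.card_prod, Fintype.card_fin, Fintype.card_fin] at hcard
    have hdeg : Divisor.degree (l • B + C) = l * Divisor.degree B + Divisor.degree C := by
      rw [map_add, map_nsmul, nsmul_eq_mul]
    have hcard' : (((l + 1) * n : ℕ) : ℤ) ≤ (ell (l • B + C) : ℤ) := by exact_mod_cast hcard
    rw [hdeg] at hell
    push_cast at hcard'
    linarith
  -- conclude
  by_contra hcon
  rw [not_le] at hcon
  have hdC : 0 ≤ Divisor.degree C := degree_nonneg hC0
  have hdB : 0 ≤ Divisor.degree B := degree_nonneg hB0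
  have hk := key ((Divisor.degree C).toNat + 1)
  have hl : ((Divisor.degree C).toNat : ℤ) = Divisor.degree C := Int.toNat_of_nonneg hdC
  push_cast at hk
  rw [hl] at hk
  have hn1 : 0 ≤ (n : ℤ) - Divisor.degree B - 1 := by omega
  have hC2 : 0 ≤ Divisor.degree C + 2 := by omega
  nlinarith [mul_nonneg hC2 hn1]

/-- **The degree of the pole divisor** of a transcendental `x` is `[F : K(x)]`. -/
theorem degree_poleDiv_eq (h : Hyp K F) (hZ : ZerosBound K F) {x : F}
    (hx : Transcendental K x) :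
    Divisor.degree (poleDiv h hZ x) = (@Module.finrank K⟮x⟯ F _ _ _ : ℤ) :=
  le_antisymm (degree_poleDiv_le h hZ hx) (finrank_le_degree_poleDiv h hZ hx)

/-! ### Principal divisors -/

/-- The divisor of a function. -/
def divFun (h : Hyp K F) (hZ : ZerosBound K F) (f : F) : Divisor K F :=
  poleDiv h hZ f⁻¹ - poleDiv h hZ f

theorem divFun_apply (h : Hyp K F) (hZ : ZerosBound K F) (f : F) (v : Place K F) :
    divFun h hZ f v = v.ord f := by
  simp only [divFun, Finsupp.coe_sub, Pi.sub_apply, poleDiv_apply, v.ord_inv, neg_neg]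
  rcases le_total 0 (v.ord f) with h0 | h0
  · rw [max_eq_right h0, max_eq_left (by omega)]
    ring
  · rw [max_eq_left h0, max_eq_right (by omega)]
    ring

theorem degree_divFun (h : Hyp K F) (hZ : ZerosBound K F) (f : F) :
    Divisor.degree (divFun h hZ f) = 0 := by
  by_cases hf : Transcendental K f
  · rw [divFun, map_sub, degree_poleDiv_eq h hZ hf,
      degree_poleDiv_eq h hZ (transcendental_inv hf), finrank_adjoin_inv]
    ring
  · have hf' : IsAlgebraic K f := by
      by_contra hna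
      exact hf hna
    have : divFun h hZ f = 0 := by
      ext v
      rw [divFun_apply, ord_eq_zero_of_isAlgebraic h hf' v]
      rfl
    rw [this, map_zero]

/-- **Principal divisors have degree zero** — in any characteristic. -/
theorem hasPrincipalDivisors (h : Hyp K F) (hZ : ZerosBound K F) : HasPrincipalDivisors K F :=
  ⟨fun f _ => ⟨divFun h hZ f, divFun_apply h hZ f, degree_divFun h hZ f⟩⟩

/-- The bridge: the standing hypotheses `FF1` of the RR library. -/
theorem ff1_of_hyp (h : Hyp K F) (hZ : ZerosBound K F) {x : F} (hx : Transcendental K x) :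
    FF1 K F where
  hpd := hasPrincipalDivisors h hZ
  deg_eq_one := h.deg_eq_one
  nonempty_place := by
    obtain ⟨v, -⟩ := exists_place_ord_pos h.finite hx
    exact ⟨v⟩
  exists_finite := ⟨x, hx, h.finite x hx⟩

/-- **Fundamental identity at the zeros**: `∑_{v(x) > 0} ord_v x = [F : K(x)]`. -/
theorem sum_ord_zeros_eq_finrank (h : Hyp K F) (hZ : ZerosBound K F) {x : F}
    (hx : Transcendental K x) (S : Finset (Place K F)) (hS : ∀ v, v ∈ S ↔ 0 < v.ord x) :
    ∑ v ∈ S, v.ord x = (@Module.finrank K⟮x⟯ F _ _ _ : ℤ) := by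
  have h1 := degree_poleDiv_eq h hZ (transcendental_inv hx)
  rw [finrank_adjoin_inv, degree_poleDiv, inv_inv] at h1
  rw [← h1]
  refine Finset.sum_congr ?_ fun _ _ => rfl
  ext v
  rw [hS, mem_support_poleDiv, v.ord_inv]
  omega

/-- **Fundamental identity at the poles**: `∑_{v(x) < 0} -ord_v x = [F : K(x)]`. -/
theorem sum_ord_poles_eq_finrank (h : Hyp K F) (hZ : ZerosBound K F) {x : F}
    (hx : Transcendental K x) (S : Finset (Place K F)) (hS : ∀ v, v ∈ S ↔ v.ord x < 0) :
    ∑ v ∈ S, -v.ord x = (@Module.finrank K⟮x⟯ F _ _ _ : ℤ) := by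
  have h1 := degree_poleDiv_eq h hZ hx
  rw [degree_poleDiv] at h1
  rw [← h1]
  refine Finset.sum_congr ?_ fun v _ => ?_
  · ext v
    rw [hS, mem_support_poleDiv]
  · rw [v.ord_inv]

end Fermat.Agent.Lib.RR.H443

end
end
-- ===== PACK-END Lib/RR/H443/Degree.lean

-- ===== PACK-BEGIN S18/H24/GaussA.lean
section


/-!
# S18 / MOD-ASM, piece G-V (helper24) — part A: integral series and the Gauss valuation ring

Concrete objects of `S18/Mod/Defs.lean`.  `inc = coeffMap A.subtype : A((q)) → Q̄((q))`,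
`red = coeffMap (residue A) : A((q)) → κ((q))`.

* `isIntE_iff`                 : `IsIntE M A E U ↔ ∃ f ∈ Fc M E, f = inc U`;
* `IsIntE.add/mul/neg/...`     : integral series form a ring;
* `Vc M A E : Subring (Om M)`  : the Gauss valuation ring, with carrier `VcSet M A E`
  (`coe_Vc`);
* fields `V_le`, `R_le_V`, `w_inv_not_mem_V` of `Alg.GoodModel`.
-/

set_option autoImplicit false

noncomputable section

namespace Fermat.Agent.S18.H24

open ModularCurve AlgebraicCurve HahnSeries Fermat.Agent.S18 Fermat.Agent.S18.Mod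
open Fermat.Agent.S18.H456

variable (M : ℕ) (A : ValuationSubring Qb) (E : IntermediateField ℚ Qb)

/-- `A((q)) → Q̄((q))`. -/
abbrev inc : LaurentSeries A →+* LaurentSeries Qb := coeffMap A.subtype

/-- `A((q)) → κ((q))`. -/
abbrev red : LaurentSeries A →+* LaurentSeries (IsLocalRing.ResidueField A) :=
  coeffMap (IsLocalRing.residue A)

variable {A} in
theorem inc_injective : Function.Injective (inc A) := by
  intro x y hxy
  ext k
  have := congrArg (fun z => z.coeff k) hxy
  simpa using this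

variable {A} in
theorem inc_coeff (U : LaurentSeries A) (n : ℤ) : (inc A U).coeff n = (U.coeff n : Qb) := by
  rw [coeffMap_coeff]; rfl

variable {A} in
theorem red_coeff (U : LaurentSeries A) (n : ℤ) :
    (red A U).coeff n = IsLocalRing.residue A (U.coeff n) := by
  rw [coeffMap_coeff]

variable {A} in
/-- A series over `Q̄` with coefficients in `A` comes from `A((q))`. -/
theorem exists_inc_eq {g : LaurentSeries Qb} (hg : ∀ n, g.coeff n ∈ A) :
    ∃ U : LaurentSeries A, inc A U = g := by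
  have hsupp : (Function.support fun n => (⟨g.coeff n, hg n⟩ : A)) = g.support := by
    ext n
    simp only [Function.mem_support, HahnSeries.mem_support, ne_eq]
    constructor
    · intro h h0
      exact h (Subtype.ext h0)
    · intro h h0
      exact h (congrArg Subtype.val h0)
  refine ⟨⟨fun n => ⟨g.coeff n, hg n⟩, ?_⟩, ?_⟩
  · rw [hsupp]; exact g.isPWO_support
  · ext n
    rw [inc_coeff]

variable {A} in
theorem red_eq_zero_iff (U : LaurentSeries A) :
    red A U = 0 ↔ ∀ n, U.coeff n ∈ IsLocalRing.maximalIdeal A := by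
  constructor
  · intro h n
    have := congrArg (fun z => z.coeff n) h
    simp only [red_coeff, HahnSeries.coeff_zero] at this
    exact (IsLocalRing.residue_eq_zero_iff _).mp this
  · intro h
    ext n
    rw [red_coeff, HahnSeries.coeff_zero]
    exact (IsLocalRing.residue_eq_zero_iff _).mpr (h n)

variable {A} in
/-- an element of `A` is in the maximal ideal iff it is `0` or its inverse is not in `A`. -/
theorem mem_maximalIdeal_iff (c : A) :
    c ∈ IsLocalRing.maximalIdeal A ↔ (c : Qb) = 0 ∨ (c : Qb)⁻¹ ∉ A := by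
  rw [IsLocalRing.mem_maximalIdeal, mem_nonunits_iff]
  constructor
  · intro h
    by_contra hcon
    rw [not_or, not_not] at hcon
    apply h
    exact isUnit_iff_exists_inv.mpr ⟨⟨(c : Qb)⁻¹, hcon.2⟩, Subtype.ext (by
      show (c : Qb) * (c : Qb)⁻¹ = 1
      exact mul_inv_cancel₀ hcon.1)⟩
  · rintro (h | h) hu
    · have : c = 0 := Subtype.ext h
      rw [this] at hu
      exact not_isUnit_zero hu
    · obtain ⟨d, hd⟩ := isUnit_iff_exists_inv.mp hu
      apply h
      have h1 : (c : Qb) * (d : Qb) = 1 := congrArg Subtype.val hd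
      have : (c : Qb)⁻¹ = d := inv_eq_of_mul_eq_one_right h1
      rw [this]; exact d.2

/-! ### Integral series -/

theorem isIntE_iff {U : LaurentSeries A} :
    IsIntE M A E U ↔ ∃ f ∈ Fc M E, (f : LaurentSeries Qb) = inc A U := by
  constructor
  · exact fun h => h.2
  · rintro ⟨f, hf, hfU⟩
    refine ⟨fun n => ?_, f, hf, hfU⟩
    have := coeff_mem_of_mem_Fc M E hf n
    rw [hfU, inc_coeff] at this
    exact this

variable {M A E}

theorem isIntE_zero : IsIntE M A E 0 :=
  (isIntE_iff M A E).mpr ⟨0, zero_mem _, by simp⟩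

theorem isIntE_one : IsIntE M A E 1 :=
  (isIntE_iff M A E).mpr ⟨1, one_mem _, by simp⟩

theorem IsIntE.add {U U' : LaurentSeries A} (h : IsIntE M A E U) (h' : IsIntE M A E U') :
    IsIntE M A E (U + U') := by
  obtain ⟨f, hf, hfU⟩ := (isIntE_iff M A E).mp h
  obtain ⟨f', hf', hfU'⟩ := (isIntE_iff M A E).mp h'
  exact (isIntE_iff M A E).mpr ⟨f + f', add_mem hf hf', by
    rw [map_add, ← hfU, ← hfU']; rfl⟩

theorem IsIntE.mul {U U' : LaurentSeries A} (h : IsIntE M A E U) (h' : IsIntE M A E U') :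
    IsIntE M A E (U * U') := by
  obtain ⟨f, hf, hfU⟩ := (isIntE_iff M A E).mp h
  obtain ⟨f', hf', hfU'⟩ := (isIntE_iff M A E).mp h'
  exact (isIntE_iff M A E).mpr ⟨f * f', mul_mem hf hf', by
    rw [map_mul, ← hfU, ← hfU']; rfl⟩

theorem IsIntE.neg {U : LaurentSeries A} (h : IsIntE M A E U) : IsIntE M A E (-U) := by
  obtain ⟨f, hf, hfU⟩ := (isIntE_iff M A E).mp h
  exact (isIntE_iff M A E).mpr ⟨-f, neg_mem hf, by
    rw [map_neg, ← hfU]; rfl⟩

theorem IsIntE.pow {U : LaurentSeries A} (h : IsIntE M A E U) (n : ℕ) : IsIntE M A E (U ^ n) := by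
  induction n with
  | zero => rw [pow_zero]; exact isIntE_one
  | succ n ih => rw [pow_succ]; exact IsIntE.mul ih h

/-- A constant `c ∈ A ∩ E` as an integral series. -/
theorem isIntE_C {c : A} (hc : (c : Qb) ∈ E) : IsIntE M A E (HahnSeries.C c) := by
  refine (isIntE_iff M A E).mpr ⟨cst M (c : Qb), field_E_le_F M E (cst_mem_Ec M E hc), ?_⟩
  rw [val_cst]
  ext n
  rw [inc_coeff]
  by_cases hn : n = 0
  · subst hn
    simp [HahnSeries.C_apply]
  · rw [HahnSeries.coeff_single_of_ne hn]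
    have : (HahnSeries.C c : LaurentSeries A).coeff n = 0 := by
      rw [HahnSeries.C_apply, HahnSeries.coeff_single_of_ne hn]
    rw [this]; rfl

theorem inc_C (c : A) : inc A (HahnSeries.C c) = HahnSeries.C (c : Qb) := by
  ext n
  rw [inc_coeff]
  by_cases hn : n = 0
  · subst hn
    simp [HahnSeries.C_apply]
  · rw [HahnSeries.C_apply, HahnSeries.C_apply, HahnSeries.coeff_single_of_ne hn,
      HahnSeries.coeff_single_of_ne hn]
    rfl

theorem red_C (c : A) : red A (HahnSeries.C c) = HahnSeries.C (IsLocalRing.residue A c) := by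
  ext n
  rw [red_coeff]
  by_cases hn : n = 0
  · subst hn
    simp [HahnSeries.C_apply]
  · rw [HahnSeries.C_apply, HahnSeries.C_apply, HahnSeries.coeff_single_of_ne hn,
      HahnSeries.coeff_single_of_ne hn, map_zero]

/-! ### The Gauss valuation ring -/

theorem mem_VcSet_iff {f : Om M} :
    f ∈ VcSet M A E ↔ f ∈ Fc M E ∧ ∃ U₁ U₂ : LaurentSeries A, IsIntE M A E U₁ ∧ IsIntE M A E U₂ ∧
      red A U₂ ≠ 0 ∧ (f : LaurentSeries Qb) * inc A U₂ = inc A U₁ := Iff.rfl

/-- An integral series defines an element of `V`. -/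
theorem mem_VcSet_of_isIntE {f : Om M} {U : LaurentSeries A} (hU : IsIntE M A E U)
    (hf : (f : LaurentSeries Qb) = inc A U) : f ∈ VcSet M A E := by
  obtain ⟨g, hg, hgU⟩ := (isIntE_iff M A E).mp hU
  have hfg : f = g := Subtype.ext (by rw [hf, hgU])
  refine ⟨hfg ▸ hg, U, 1, hU, isIntE_one, ?_, ?_⟩
  · rw [map_one]; exact one_ne_zero
  · rw [map_one, mul_one, hf]

variable (M A E) in
/-- The Gauss valuation ring `V` of `Fc`, as a subring of `Ω`. -/
def Vc : Subring (Om M) where
  carrier := VcSet M A E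
  zero_mem' := mem_VcSet_of_isIntE isIntE_zero (by simp)
  one_mem' := mem_VcSet_of_isIntE isIntE_one (by simp)
  add_mem' := by
    rintro f g ⟨hf, U₁, U₂, h₁, h₂, hr, hfU⟩ ⟨hg, W₁, W₂, k₁, k₂, kr, hgW⟩
    refine ⟨add_mem hf hg, U₁ * W₂ + W₁ * U₂, U₂ * W₂, IsIntE.add (IsIntE.mul h₁ k₂) (IsIntE.mul k₁ h₂), IsIntE.mul h₂ k₂,
      ?_, ?_⟩
    · rw [map_mul]; exact mul_ne_zero hr kr
    · show ((f : LaurentSeries Qb) + (g : LaurentSeries Qb)) * inc A (U₂ * W₂) = _
      rw [map_mul, map_add, map_mul, map_mul, ← hfU, ← hgW]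
      ring
  mul_mem' := by
    rintro f g ⟨hf, U₁, U₂, h₁, h₂, hr, hfU⟩ ⟨hg, W₁, W₂, k₁, k₂, kr, hgW⟩
    refine ⟨mul_mem hf hg, U₁ * W₁, U₂ * W₂, IsIntE.mul h₁ k₁, IsIntE.mul h₂ k₂, ?_, ?_⟩
    · rw [map_mul]; exact mul_ne_zero hr kr
    · show ((f : LaurentSeries Qb) * (g : LaurentSeries Qb)) * inc A (U₂ * W₂) = _
      rw [map_mul, map_mul, ← hfU, ← hgW]
      ring
  neg_mem' := by
    rintro f ⟨hf, U₁, U₂, h₁, h₂, hr, hfU⟩
    refine ⟨neg_mem hf, -U₁, U₂, IsIntE.neg h₁, h₂, hr, ?_⟩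
    show (-(f : LaurentSeries Qb)) * inc A U₂ = _
    rw [map_neg, ← hfU]
    ring

variable (M A E) in
theorem coe_Vc : (Vc M A E : Set (Om M)) = VcSet M A E := rfl

theorem mem_Vc_iff {f : Om M} : f ∈ Vc M A E ↔ f ∈ VcSet M A E := Iff.rfl

variable (M A E) in
/-- field `V_le`. -/
theorem field_V_le : (Vc M A E : Set (Om M)) ⊆ Fc M E := fun _ hf => hf.1

variable (M A E) in
/-- field `R_le_V`. -/
theorem field_R_le_V : Rc M A E ≤ Vc M A E := by
  intro r hr
  obtain ⟨c, hcA, hcE, rfl⟩ := (mem_Rc_iff M A E).mp hr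
  refine mem_VcSet_of_isIntE (U := HahnSeries.C (⟨c, hcA⟩ : A)) (isIntE_C hcE) ?_
  rw [val_cst, inc_C]
  rfl

/-- field `w_inv_not_mem_V`: a non-unit `w₀ ≠ 0` of `A` is not invertible in `V`. -/
theorem field_w_inv_not_mem_V {w₀ : Qb} (hw0 : w₀ ≠ 0) (hwn : w₀⁻¹ ∉ A) :
    (cst M w₀)⁻¹ ∉ Vc M A E := by
  rintro ⟨-, U₁, U₂, -, -, hr, hU⟩
  apply hr
  rw [red_eq_zero_iff]
  intro n
  rw [mem_maximalIdeal_iff]
  have hval : (((cst M w₀)⁻¹ : Om M) : LaurentSeries Qb) = HahnSeries.C (w₀⁻¹) := by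
    rw [← map_inv₀]
    exact val_cst M _
  rw [hval] at hU
  have hn := congrArg (fun z => z.coeff n) hU
  simp only [HahnSeries.C_mul_eq_smul, HahnSeries.coeff_smul, inc_coeff, smul_eq_mul] at hn
  by_cases h0 : ((U₂.coeff n : A) : Qb) = 0
  · exact Or.inl h0
  · right
    intro hinv
    apply hwn
    have : w₀⁻¹ = (U₁.coeff n : Qb) * ((U₂.coeff n : A) : Qb)⁻¹ := by
      rw [← hn]; field_simp
    rw [this]
    exact A.mul_mem _ _ (U₁.coeff n).2 hinv

end Fermat.Agent.S18.H24

end
end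
-- ===== PACK-END S18/H24/GaussA.lean

-- ===== PACK-BEGIN S18/B12/H33/CoreMain.lean
section



/-!
# S18 b2.5 (helper33): `B2CoreAbsStatement` from the assembly pieces A0, A2, A2', A3, A4, A5, A5'
-/

set_option autoImplicit false

noncomputable section

namespace Fermat.Agent.S18.B12.H33

open Polynomial

universe u v

theorem b2CoreAbs_of_pieces
    (hA0 : RegSeqAbsStatement.{u, v}) (hA2 : LocalBasisStatement.{u, v})
    (hA2' : LocalBasisRankStatement.{u, v}) (hA3 : DiscrRedStatement.{u, v})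
    (hA4 : UFDStepStatement.{u}) (hA5 : GenericDiscrStatement.{u, v})
    (hA5' : RedBasisAbsStatement.{u, v}) : B2CoreAbsStatement.{u, v} := by
  intro P _ _ _ _ w hw hΛ hΛ₀ hℚ B _ _ _ _ _ _ hsep S hS1 hS2 hNC t ht n bb
  haveI := hΛ
  haveI hdomΛ : IsDomain (P ⧸ Ideal.span {w}) := by
    rw [Ideal.Quotient.isDomain_iff_prime]
    exact (Ideal.span_singleton_prime hw.ne_zero).mpr hw
  have hmkw : Ideal.Quotient.mk (Ideal.span {w}) w = 0 :=
    Ideal.Quotient.eq_zero_iff_mem.mpr (Ideal.mem_span_singleton_self w)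
  obtain ⟨p, hp⟩ := Ideal.Quotient.mk_surjective t
  -- the closed point
  have htmax : (Ideal.span {t}).IsMaximal :=
    PrincipalIdealRing.isMaximal_of_irreducible ht.irreducible
  have h𝔪p : (Ideal.span {w, p}).IsMaximal := by
    rw [span_pair_eq_comap, hp]
    exact Ideal.comap_isMaximal_of_surjective _ Ideal.Quotient.mk_surjective
  -- choice of the second generator `q`
  obtain ⟨q, hq𝔪, hqcase⟩ : ∃ q, Ideal.span {w, q} = Ideal.span {w, p} ∧
      (q ∈ S ∨ ∀ s ∈ S, s ∉ Ideal.span {w, p}) := by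
    by_cases h : ∃ s ∈ S, s ∈ Ideal.span {w, p}
    · obtain ⟨s, hs, hs𝔪⟩ := h
      refine ⟨s, ?_, Or.inl hs⟩
      have hmax := (hS1 s hs).2.2.1
      refine hmax.eq_of_le h𝔪p.ne_top ?_
      rw [Ideal.span_le]
      intro z hz
      rcases hz with rfl | hz
      · exact Ideal.subset_span (by simp)
      · rw [Set.mem_singleton_iff] at hz; subst hz; exact hs𝔪
    · push_neg at h
      exact ⟨p, rfl, Or.inr h⟩
  have h𝔪max : (Ideal.span {w, q}).IsMaximal := hq𝔪 ▸ h𝔪p
  haveI h𝔪prime : (Ideal.span {w, q}).IsPrime := h𝔪max.isPrime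
  have hw𝔪 : w ∈ Ideal.span {w, q} := Ideal.subset_span (by simp)
  -- `mk q` is associated to `t`
  have hqt : Associated (Ideal.Quotient.mk (Ideal.span {w}) q) t := by
    rw [← Ideal.span_singleton_eq_span_singleton]
    ext b
    obtain ⟨a, rfl⟩ := Ideal.Quotient.mk_surjective b
    rw [Ideal.mem_span_singleton, Ideal.mem_span_singleton, ← mem_span_pair_iff_mk_dvd, hq𝔪,
      mem_span_pair_iff_mk_dvd, hp]
  have hmkq_prime : Prime (Ideal.Quotient.mk (Ideal.span {w}) q) := hqt.symm.prime ht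
  have hwq : ¬ w ∣ q := by
    intro h
    apply hmkq_prime.ne_zero
    exact Ideal.Quotient.eq_zero_iff_mem.mpr (Ideal.mem_span_singleton.mpr h)
  -- local basis
  haveI : Algebra.IsIntegral P B := inferInstance
  have hreg := hA0 P B q w hw hwq
  obtain ⟨n₀, x, hx⟩ := hA2 P B w q h𝔪max hreg
  obtain ⟨hn₀, hgram⟩ := hA2' P B (Ideal.span {w, q}) n₀ x hx
  obtain ⟨hn, u, hu, hD⟩ := hA3 P B w hw (Ideal.span {w, q}) hw𝔪 n₀ x hx n bb
  subst hn
  -- `w ∤ D`
  have hwD : ¬ w ∣ intDiscr P B x := by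
    obtain ⟨x', hx'⟩ := hsep
    subst hn₀
    obtain ⟨g, v, hg, hgv⟩ := hgram x'
    intro hdvd
    have h1 : w ∣ g ^ 2 * intDiscr P B x' := by
      rw [hgv]; exact Dvd.dvd.mul_left hdvd _
    rcases hw.dvd_or_dvd h1 with h2 | h2
    · exact hg (Ideal.mem_of_dvd _ (hw.dvd_of_dvd_pow h2) hw𝔪)
    · exact hx' h2
  have hD0 : intDiscr P B x ≠ 0 := fun h => hwD (h ▸ dvd_zero w)
  have hmkD0 : Ideal.Quotient.mk (Ideal.span {w}) (intDiscr P B x) ≠ 0 := by
    intro h
    exact hwD (Ideal.mem_span_singleton.mp (Ideal.Quotient.eq_zero_iff_mem.mp h))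
  have hdisc0 : Algebra.discr (P ⧸ Ideal.span {w}) bb ≠ 0 := by
    intro h
    rw [h, mul_zero] at hD
    exact hmkD0 hD
  refine ⟨hdisc0, ?_⟩
  have hmku : ¬ t ∣ Ideal.Quotient.mk (Ideal.span {w}) u := by
    intro h
    apply hu
    rw [mem_span_pair_iff_mk_dvd]
    exact hqt.dvd.trans h
  -- unramified primes through the closed point do not divide `D`
  have hunram : ∀ π : P, Prime π → π ∈ Ideal.span {w, q} → ¬ Associated π w →
      (∀ s ∈ S, ¬ Associated π s) → ¬ π ∣ intDiscr P B x := by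
    intro π hπ hπ𝔪 hπw hπS
    have hrad := hNC π hπ hπw hπS
    have hxπ : IsLocalBasis P B (Ideal.span {π}) n x :=
      IsLocalBasis.mono ((Ideal.span_singleton_le_iff_mem _).mpr hπ𝔪) hx
    have := hA5 P w hw hΛ₀ hℚ B π hπ hπw n x hxπ n x
      (fun a ha i => IsLocalBasis.dvd_coeff hx hπ hπ𝔪 a (hrad.radical ▸ ha) i)
    simpa using this
  rcases hqcase with hqS | hnoS
  · -- Case 1: the closed point is a branch point `q ∈ S`
    obtain ⟨hqprime, hqw, -, hqPID⟩ := hS1 q hqS
    obtain ⟨a, D₁, hDeq, hD₁⟩ := hA4 P (Ideal.span {w, q}) q hqprime (intDiscr P B x) hD0 (by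
      intro π hπ hπD hπ𝔪
      by_contra hne
      refine hunram π hπ hπ𝔪 ?_ ?_ hπD
      · intro hπw
        exact hwD (hπw.symm.dvd.trans hπD)
      · intro s hs hπs
        have hs𝔪 : s ∈ Ideal.span {w, q} := Ideal.mem_of_dvd _ hπs.dvd hπ𝔪
        by_cases hsq : q = s
        · subst hsq; exact hne hπs
        · exact hS2 q hqS s hs hsq hs𝔪)
    obtain ⟨r, y, hyi, hys⟩ := hA5' P B q hqprime hqPID
    have hxq : IsLocalBasis P B (Ideal.span {q}) n x :=
      IsLocalBasis.mono ((Ideal.span_singleton_le_iff_mem _).mpr (Ideal.subset_span (by simp))) hx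
    have hnd := hA5 P w hw hΛ₀ hℚ B q hqprime hqw n x hxq r y hyi
    have ha : a < n - r + 1 := by
      by_contra hcon
      push_neg at hcon
      apply hnd
      rw [hDeq]
      exact Dvd.dvd.mul_right (pow_dvd_pow q hcon) _
    refine ⟨r, fun i => Ideal.Quotient.mk _ (y i), ?_, ?_⟩
    · intro c
      obtain ⟨c, rfl⟩ := Ideal.Quotient.mk_surjective c
      obtain ⟨a', ha'⟩ := hys c
      refine ⟨fun i => Ideal.Quotient.mk _ (a' i), ?_⟩
      refine mk_sub_sum_mem_radical w y q t hqt c a' ?_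
      refine Ideal.radical_mono ?_ ha'
      rw [Ideal.span_le]
      intro z hz
      rw [Set.mem_singleton_iff] at hz; subst hz
      exact Ideal.subset_span (by simp)
    · intro hdvd
      have h1 : Ideal.Quotient.mk (Ideal.span {w}) q ^ (n - r + 1) ∣
          Ideal.Quotient.mk (Ideal.span {w}) (intDiscr P B x) := by
        rw [hD]
        exact Dvd.dvd.mul_left ((hqt.pow_pow.dvd).trans hdvd) _
      rw [hDeq, map_mul, map_pow] at h1
      have h2 : Ideal.Quotient.mk (Ideal.span {w}) q ^ (a + 1) ∣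
          Ideal.Quotient.mk (Ideal.span {w}) q ^ a * Ideal.Quotient.mk (Ideal.span {w}) D₁ :=
        (pow_dvd_pow _ (by omega)).trans h1
      rw [pow_succ, mul_dvd_mul_iff_left (pow_ne_zero _ hmkq_prime.ne_zero)] at h2
      exact hD₁ ((mem_span_pair_iff_mk_dvd w q D₁).mpr h2)
  · -- Case 2: no branch point at this closed point
    have hnoS' : ∀ s ∈ S, s ∉ Ideal.span {w, q} := hq𝔪 ▸ hnoS
    obtain ⟨a, D₁, hDeq, hD₁⟩ := hA4 P (Ideal.span {w, q}) w hw (intDiscr P B x) hD0 (by
      intro π hπ hπD hπ𝔪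
      by_contra hne
      refine hunram π hπ hπ𝔪 hne ?_ hπD
      intro s hs hπs
      exact hnoS' s hs (Ideal.mem_of_dvd _ hπs.dvd hπ𝔪))
    have ha0 : a = 0 := by
      by_contra h
      apply hwD
      rw [hDeq]
      exact Dvd.dvd.mul_right (dvd_pow_self w h) _
    subst ha0
    rw [pow_zero, one_mul] at hDeq
    obtain ⟨hli, g, hg, hsp⟩ := hx
    -- inverse of `g` modulo the maximal ideal
    obtain ⟨g', hg'⟩ : ∃ g', g * g' - 1 ∈ Ideal.span {w, q} := by
      have := h𝔪max.exists_inv hg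
      obtain ⟨g', m, hm, hgm⟩ := this
      refine ⟨g', ?_⟩
      have : g * g' - 1 = -m := by linear_combination hgm
      rw [this]; exact neg_mem hm
    refine ⟨n, fun i => Ideal.Quotient.mk _ (x i), ?_, ?_⟩
    · intro c
      obtain ⟨c, rfl⟩ := Ideal.Quotient.mk_surjective c
      have hgc := hsp c
      rw [Submodule.mem_span_range_iff_exists_fun] at hgc
      obtain ⟨cf, hcf⟩ := hgc
      refine ⟨fun i => Ideal.Quotient.mk _ (g' * cf i), ?_⟩
      refine mk_sub_sum_mem_radical w x q t hqt c (fun i => g' * cf i) ?_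
      apply Ideal.le_radical
      have e : c - ∑ i, (g' * cf i) • x i = algebraMap P B (-(g * g' - 1)) * c := by
        have : ∑ i, (g' * cf i) • x i = g' • (g • c) := by
          rw [← hcf, Finset.smul_sum]
          exact Finset.sum_congr rfl fun i _ => by rw [mul_smul]
        rw [this, Algebra.smul_def, Algebra.smul_def, map_neg, map_sub, map_mul, map_one]
        ring
      rw [e]
      refine Ideal.mul_mem_right _ _ ?_
      have hmap : Ideal.map (algebraMap P B) (Ideal.span {w, q})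
          = Ideal.span {algebraMap P B w, algebraMap P B q} := by
        rw [Ideal.map_span]; congr 1; simp [Set.image_pair]
      rw [← hmap]
      exact Ideal.mem_map_of_mem _ (neg_mem hg')
    · intro hdvd
      have hnn : n - n + 1 = 1 := by omega
      rw [hnn, pow_one] at hdvd
      have h1 : t ∣ Ideal.Quotient.mk (Ideal.span {w}) (intDiscr P B x) := by
        rw [hD]; exact Dvd.dvd.mul_left hdvd _
      apply hD₁
      rw [← hDeq, mem_span_pair_iff_mk_dvd]
      exact hqt.dvd.trans h1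

end Fermat.Agent.S18.B12.H33

end
end
-- ===== PACK-END S18/B12/H33/CoreMain.lean

-- ===== PACK-BEGIN A2/Mod/H96/L12Lift.lean
section



/-!
# A2 / MOD leaf L12 (helper96), part 1: two closure lemmas on `F_k = k(j(t^d) : d ∣ N)`

`A` a valuation subring of a field `L ⊇ ℚ`, `κ` its residue field.

* `exists_lift_of_mem_fullC` : every element of `F_κ ⊆ κ((t))` is a quotient `Ū₁ / Ū₂` of
  reductions of `A`-integral series lying in `F_L = L(j(t^d) : d ∣ N)`, `Ū₂ ≠ 0`
  (the residue map of the Gauss valuation ring is onto `F_κ`);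
* `exists_frob_root_of_mem_fullC` : if `k` has characteristic `q` and surjective Frobenius, then
  every `r ∈ F_k` has a "Frobenius twist" `r' ∈ F_k` with `r' ^ q = r(t^q)`.
-/

set_option autoImplicit false
set_option linter.unusedSectionVars false
set_option linter.style.haveILetI false

noncomputable section

namespace Fermat.Agent.A2.Mod.H96

open ModularCurve HahnSeries

section Lift

variable {L : Type*} [Field L] [Algebra ℚ L] (A : ValuationSubring L)
variable (N : ℕ) [NeZero N]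

theorem incl_castA_jqNModC_mem (d : ℕ) [NeZero d] (hd : d ∣ N) :
    H708.incl A (coeffMap (Int.castRingHom A) (jqNModC ℤ d)) ∈
      laurentBaseChange L (modularFunctionFieldFull N) := by
  rw [H708.incl_castA]
  have h1 : H708.castQ (jqNModC ℤ d) = qExpand ℚ d jq := by
    show coeffMap (Int.castRingHom ℚ) (jqNModC ℤ d) = _
    rw [coeffMap_jqNModC]
    rfl
  rw [h1]
  exact coeffEmb_mem_laurentBaseChange L (jqd_mem_full N hd)

theorem red_castA_jqNModC (d : ℕ) [NeZero d] :
    H708.red A (coeffMap (Int.castRingHom A) (jqNModC ℤ d)) =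
      qExpand (IsLocalRing.ResidueField A) d (jqModC (IsLocalRing.ResidueField A)) := by
  show coeffMap (IsLocalRing.residue A) (coeffMap (Int.castRingHom A) (jqNModC ℤ d)) = _
  rw [coeffMap_coeffMap, coeffMap_jqNModC]
  rfl

/-- **Lifting.** Every element of `F_κ` is a quotient of reductions of integral series of `F_L`. -/
theorem exists_lift_of_mem_fullC {r : LaurentSeries (IsLocalRing.ResidueField A)}
    (hr : r ∈ modularFunctionFieldFullC (IsLocalRing.ResidueField A) N) :
    ∃ U₁ U₂ : LaurentSeries A,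
      H708.incl A U₁ ∈ laurentBaseChange L (modularFunctionFieldFull N) ∧
      H708.incl A U₂ ∈ laurentBaseChange L (modularFunctionFieldFull N) ∧
      H708.red A U₂ ≠ 0 ∧ H708.red A U₁ = r * H708.red A U₂ := by
  unfold modularFunctionFieldFullC at hr
  induction hr using IntermediateField.adjoin_induction with
  | mem x hx =>
    obtain ⟨d, hd, hdN, rfl⟩ := hx
    refine ⟨coeffMap (Int.castRingHom A) (jqNModC ℤ d), 1, incl_castA_jqNModC_mem A N d hdN, ?_,
      ?_, ?_⟩
    · rw [map_one]; exact one_mem _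
    · rw [map_one]; exact one_ne_zero
    · rw [map_one, mul_one, red_castA_jqNModC]
  | algebraMap c =>
    obtain ⟨a, rfl⟩ := IsLocalRing.residue_surjective c
    refine ⟨H708.cstA A a, 1, ?_, ?_, ?_, ?_⟩
    · rw [H708.incl_cstA]
      exact (laurentBaseChange L (modularFunctionFieldFull N)).algebraMap_mem _
    · rw [map_one]; exact one_mem _
    · rw [map_one]; exact one_ne_zero
    · rw [map_one, mul_one, H708.red_cstA, algebraMap_laurentSeries_eq_single]
  | add x y hx hy ihx ihy =>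
    obtain ⟨U₁, U₂, h1, h2, h0, he⟩ := ihx
    obtain ⟨W₁, W₂, g1, g2, g0, ge⟩ := ihy
    refine ⟨U₁ * W₂ + W₁ * U₂, U₂ * W₂, ?_, ?_, ?_, ?_⟩
    · rw [map_add, map_mul, map_mul]
      exact add_mem (mul_mem h1 g2) (mul_mem g1 h2)
    · rw [map_mul]; exact mul_mem h2 g2
    · rw [map_mul]; exact mul_ne_zero h0 g0
    · rw [map_add, map_mul, map_mul, map_mul, he, ge]
      ring
  | inv x hx ihx =>
    obtain ⟨U₁, U₂, h1, h2, h0, he⟩ := ihx
    by_cases hx0 : x = 0
    · refine ⟨0, 1, ?_, ?_, ?_, ?_⟩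
      · rw [map_zero]; exact zero_mem _
      · rw [map_one]; exact one_mem _
      · rw [map_one]; exact one_ne_zero
      · rw [hx0, inv_zero, zero_mul, map_zero]
    · refine ⟨U₂, U₁, h2, h1, ?_, ?_⟩
      · rw [he]; exact mul_ne_zero hx0 h0
      · rw [he, ← mul_assoc, inv_mul_cancel₀ hx0, one_mul]
  | mul x y hx hy ihx ihy =>
    obtain ⟨U₁, U₂, h1, h2, h0, he⟩ := ihx
    obtain ⟨W₁, W₂, g1, g2, g0, ge⟩ := ihy
    refine ⟨U₁ * W₁, U₂ * W₂, ?_, ?_, ?_, ?_⟩
    · rw [map_mul]; exact mul_mem h1 g1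
    · rw [map_mul]; exact mul_mem h2 g2
    · rw [map_mul]; exact mul_ne_zero h0 g0
    · rw [map_mul, map_mul, he, ge]
      ring

end Lift

section Frob

variable (k : Type*) [Field k] (q : ℕ) [NeZero q] (N : ℕ) [NeZero N]

/-- `j(t^d)^q = j(t^{dq})` in characteristic `q` (integer coefficients). -/
theorem jqd_pow_char (hq : q.Prime) [CharP k q] (d : ℕ) [NeZero d] :
    (qExpand k d (jqModC k)) ^ q = qExpand k q (qExpand k d (jqModC k)) := by
  haveI : Fact q.Prime := ⟨hq⟩
  obtain ⟨g, hg⟩ := H528.exists_frobCong q (jqNModC ℤ d)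
  have h := congrArg (coeffMap (Int.castRingHom k)) hg
  rw [map_sub, map_mul, map_pow, coeffMap_qExpand, coeffMap_jqNModC] at h
  have hC : coeffMap (Int.castRingHom k) (HahnSeries.C ((q : ℕ) : ℤ)) = 0 := by
    have h1 : (HahnSeries.C ((q : ℕ) : ℤ) : LaurentSeries ℤ) = HahnSeries.single 0 ((q : ℕ) : ℤ) :=
      rfl
    rw [h1, coeffMap_single]
    have h2 : (Int.castRingHom k) ((q : ℕ) : ℤ) = 0 := by
      rw [eq_intCast, Int.cast_natCast]
      exact CharP.cast_eq_zero k q
    rw [h2, HahnSeries.single_eq_zero]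
  rw [hC, zero_mul, sub_eq_zero] at h
  exact h.symm

/-- **Frobenius twist on `F_k`.** -/
theorem exists_frob_root_of_mem_fullC (hq : q.Prime) [CharP k q]
    (hperf : ∀ c : k, ∃ c' : k, c' ^ q = c) {r : LaurentSeries k}
    (hr : r ∈ modularFunctionFieldFullC k N) :
    ∃ r' ∈ modularFunctionFieldFullC k N, r' ^ q = qExpand k q r := by
  haveI : Fact q.Prime := ⟨hq⟩
  haveI : CharP (LaurentSeries k) q :=
    charP_of_injective_algebraMap (algebraMap k (LaurentSeries k)).injective q
  have key : ∀ x ∈ IntermediateField.adjoin k (divisorExpansionsC k N),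
      ∃ r' ∈ modularFunctionFieldFullC k N, r' ^ q = qExpand k q x := by
    intro x hx
    induction hx using IntermediateField.adjoin_induction with
    | mem x hx =>
      obtain ⟨d, hd, hdN, rfl⟩ := hx
      exact ⟨_, jqModCd_mem_full k N hdN, jqd_pow_char k q hq d⟩
    | algebraMap c =>
      obtain ⟨c', rfl⟩ := hperf c
      refine ⟨algebraMap k (LaurentSeries k) c',
        (modularFunctionFieldFullC k N).algebraMap_mem _, ?_⟩
      rw [← map_pow, algebraMap_laurentSeries_eq_single, qExpand_single, mul_zero]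
    | add x y hx hy ihx ihy =>
      obtain ⟨x', hx', hxe⟩ := ihx
      obtain ⟨y', hy', hye⟩ := ihy
      refine ⟨x' + y', add_mem hx' hy', ?_⟩
      rw [add_pow_char, hxe, hye, map_add]
    | inv x hx ihx =>
      obtain ⟨x', hx', hxe⟩ := ihx
      refine ⟨x'⁻¹, inv_mem hx', ?_⟩
      rw [inv_pow, hxe, map_inv₀]
    | mul x y hx hy ihx ihy =>
      obtain ⟨x', hx', hxe⟩ := ihx
      obtain ⟨y', hy', hye⟩ := ihy
      refine ⟨x' * y', mul_mem hx' hy', ?_⟩
      rw [mul_pow, hxe, hye, map_mul]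
  exact key r hr

end Frob

end Fermat.Agent.A2.Mod.H96

end
end
-- ===== PACK-END A2/Mod/H96/L12Lift.lean

-- ===== PACK-BEGIN A2/H489/ChartA.lean
section


/-!
# A2 / MODASM step S1-abs (helper489): the two components of a chart

Setting of `H48.GaussPairLe` (helper48): `R` a factorial domain (application: the discrete
valuation ring `P ∩ E`), `ϖ ∈ R` prime, `K = Frac R[X]`, `F / K` finite, `V₁ ≠ V₂` valuation
subrings of `F` inducing the Gauss valuation on `K`, with residue-independent families of total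
size `≥ [F : K]`.  In addition `F` is an `R`-algebra compatibly with `R → R[X] → F`, and
`x := algebraMap R[X] F X` is the coordinate.

For the chart `B` = integral closure of `R[x]` in `F` (any `Subalgebra R F` with
`f ∈ B ↔ IsIntegral (Algebra.adjoin R {x}) f`):

* `isIntegral_adjoin_iff` : integrality over `Algebra.adjoin R {x}` = integrality over `R[X]`;
* `compIdeal B V hBV` : the ideal `B ∩ 𝔪_V` (`mem_compIdeal`), prime (`compIdeal_isPrime`);
* `GaussPairLe.exists_mem_not_mem` : some element of the chart lies in `𝔪_{V₁}` and is a unit of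
  `V₂`;
* `GaussPairLe.compIdeal_inf` : `(B ∩ 𝔪_{V₁}) ⊓ (B ∩ 𝔪_{V₂}) = ϖ B`  (`SSChart.inf_eq`);
* `GaussPairLe.exists_components` : the fields `p₁ p₂ prime₁ prime₂ ne not_le₁₂ not_le₂₁ inf_eq`
  of `Fermat.Agent.A2.SSChart` (Spec v2), with `p_i` characterised by `b ∈ p_i ↔ b ∈ 𝔪_{V_i}`.
-/

set_option autoImplicit false
set_option linter.style.haveILetI false
set_option linter.unusedSectionVars false

namespace Fermat.Agent.A2.H489

open Polynomial
open Fermat.Agent.A2.H48

section Integral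

variable {R F : Type*} [CommRing R] [Field F] [Algebra R[X] F] [Algebra R F]
  [IsScalarTower R R[X] F]

/-- `R[X] → F` is evaluation at the coordinate `x = algebraMap R[X] F X`. -/
theorem aeval_coord_eq_algebraMap (P : R[X]) :
    aeval (algebraMap R[X] F X) P = algebraMap R[X] F P := by
  have h : (aeval (algebraMap R[X] F X) : R[X] →ₐ[R] F) = IsScalarTower.toAlgHom R R[X] F := by
    apply Polynomial.algHom_ext
    simp
  exact DFunLike.congr_fun h P

/-- the constants: `algebraMap R F r = algebraMap R[X] F (C r)` -/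
theorem algebraMap_const_eq (r : R) : algebraMap R F r = algebraMap R[X] F (C r) := by
  rw [IsScalarTower.algebraMap_apply R R[X] F]
  rfl

/-- Integrality over the subalgebra `R[x] ⊆ F` is integrality over the polynomial ring. -/
theorem isIntegral_adjoin_iff (f : F) :
    IsIntegral (Algebra.adjoin R ({algebraMap R[X] F X} : Set F)) f ↔ IsIntegral R[X] f := by
  have hmem : ∀ P : R[X], algebraMap R[X] F P ∈
      Algebra.adjoin R ({algebraMap R[X] F X} : Set F) := by
    intro P
    have h1 := Polynomial.aeval_mem_adjoin_singleton (p := P) R (algebraMap R[X] F X)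
    rwa [aeval_coord_eq_algebraMap] at h1
  let φ : R[X] →+* Algebra.adjoin R ({algebraMap R[X] F X} : Set F) :=
    (algebraMap R[X] F).codRestrict _ hmem
  have hsurj : Function.Surjective φ := by
    rintro ⟨y, hy⟩
    rw [Algebra.adjoin_singleton_eq_range_aeval] at hy
    obtain ⟨P, hP⟩ := hy
    refine ⟨P, Subtype.ext ?_⟩
    show algebraMap R[X] F P = y
    rw [← hP]
    exact (aeval_coord_eq_algebraMap P).symm
  letI : Algebra R[X] (Algebra.adjoin R ({algebraMap R[X] F X} : Set F)) := φ.toAlgebra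
  haveI : IsScalarTower R[X] (Algebra.adjoin R ({algebraMap R[X] F X} : Set F)) F :=
    IsScalarTower.of_algebraMap_eq (fun _ => rfl)
  constructor
  · intro hf
    haveI : Algebra.IsIntegral R[X] (Algebra.adjoin R ({algebraMap R[X] F X} : Set F)) :=
      ⟨fun y => RingHom.isIntegral_of_surjective φ hsurj y⟩
    exact isIntegral_trans f hf
  · exact fun hf => hf.tower_top

end Integral

section Comp

variable {R F : Type*} [CommRing R] [Field F] [Algebra R F]

theorem nonunits_add_mem {V : ValuationSubring F} {a b : F} (ha : a ∈ V.nonunits)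
    (hb : b ∈ V.nonunits) : a + b ∈ V.nonunits := by
  rw [ValuationSubring.mem_nonunits_iff] at ha hb ⊢
  exact lt_of_le_of_lt (Valuation.map_add _ _ _) (max_lt ha hb)

theorem mem_mul_nonunits {V : ValuationSubring F} {a b : F} (ha : a ∈ V)
    (hb : b ∈ V.nonunits) : a * b ∈ V.nonunits := by
  rw [ValuationSubring.mem_nonunits_iff] at hb ⊢
  rw [map_mul]
  exact Right.mul_lt_one_of_le_of_lt ((ValuationSubring.valuation_le_one_iff V a).mpr ha) hb

/-- The component `B ∩ 𝔪_V` of the chart `B ⊆ V`. -/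
def compIdeal (B : Subalgebra R F) (V : ValuationSubring F) (hBV : ∀ b : B, (b : F) ∈ V) :
    Ideal B where
  carrier := {b | (b : F) ∈ V.nonunits}
  add_mem' := fun {a b} ha hb => by
    show ((a + b : B) : F) ∈ V.nonunits
    rw [Subalgebra.coe_add]
    exact nonunits_add_mem ha hb
  zero_mem' := by
    show ((0 : B) : F) ∈ V.nonunits
    rw [Subalgebra.coe_zero, ValuationSubring.mem_nonunits_iff, map_zero]
    exact zero_lt_one
  smul_mem' := fun c b hb => by
    show ((c • b : B) : F) ∈ V.nonunits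
    rw [smul_eq_mul, Subalgebra.coe_mul]
    exact mem_mul_nonunits (hBV c) hb

theorem mem_compIdeal {B : Subalgebra R F} {V : ValuationSubring F}
    {hBV : ∀ b : B, (b : F) ∈ V} {b : B} :
    b ∈ compIdeal B V hBV ↔ (b : F) ∈ V.nonunits := Iff.rfl

theorem compIdeal_isPrime (B : Subalgebra R F) (V : ValuationSubring F)
    (hBV : ∀ b : B, (b : F) ∈ V) : (compIdeal B V hBV).IsPrime := by
  rw [Ideal.isPrime_iff]
  constructor
  · intro h
    have h1 : (1 : B) ∈ compIdeal B V hBV := by rw [h]; exact Submodule.mem_top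
    rw [mem_compIdeal, Subalgebra.coe_one, ValuationSubring.mem_nonunits_iff, map_one] at h1
    exact lt_irrefl _ h1
  · intro a b hab
    rw [mem_compIdeal, Subalgebra.coe_mul, ValuationSubring.mem_nonunits_iff, map_mul] at hab
    rw [mem_compIdeal, mem_compIdeal, ValuationSubring.mem_nonunits_iff,
      ValuationSubring.mem_nonunits_iff]
    by_contra hcon
    push Not at hcon
    obtain ⟨h1, h2⟩ := hcon
    have ha := (ValuationSubring.valuation_le_one_iff V _).mpr (hBV a)
    have hb := (ValuationSubring.valuation_le_one_iff V _).mpr (hBV b)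
    rw [le_antisymm ha h1, le_antisymm hb h2, one_mul] at hab
    exact lt_irrefl _ hab

end Comp

section Main

variable {R : Type*} [CommRing R] [IsDomain R] [UniqueFactorizationMonoid R]
variable {K F : Type*} [Field K] [Field F] [Algebra R[X] K] [IsFractionRing R[X] K]
  [Algebra K F] [Algebra R[X] F] [IsScalarTower R[X] K F]
variable {ϖ : R} {V₁ V₂ : ValuationSubring F} {f₁ f₂ : ℕ} {b : Fin f₁ → F} {c : Fin f₂ → F}

theorem gaussPairLe_symm (h : GaussPairLe (K := K) ϖ V₁ V₂ b c) :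
    GaussPairLe (K := K) ϖ V₂ V₁ c b where
  prime := h.prime
  unif₁ := h.unif₂
  unif₂ := h.unif₁
  poly₁ := h.poly₂
  poly₂ := h.poly₁
  gauss₁ := h.gauss₂
  gauss₂ := h.gauss₁
  ne := h.ne.symm
  b_mem := h.c_mem
  c_mem := h.b_mem
  b_indep := h.c_indep
  c_indep := h.b_indep
  le := by have := h.le; omega

/-- the chart lies in `V₁` -/
theorem gaussPairLe_mem_of_isIntegral (h : GaussPairLe (K := K) ϖ V₁ V₂ b c) {f : F}
    (hf : IsIntegral R[X] f) : f ∈ V₁ := by
  obtain ⟨p, hp, hpf⟩ := hf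
  refine mem_of_monic_root V₁ (p := p.map (algebraMap R[X] F)) (hp.map _)
    (fun i => by rw [coeff_map]; exact h.poly₁ _) ?_
  rw [eval_map]
  exact hpf

/-- a polynomial prime to `ϖ` is a unit of `V₁` -/
theorem gaussPairLe_valuation_eq_one (h : GaussPairLe (K := K) ϖ V₁ V₂ b c) {T : R[X]}
    (hT : ¬ C ϖ ∣ T) : V₁.valuation (algebraMap R[X] F T) = 1 := by
  have h1 := (ValuationSubring.valuation_le_one_iff V₁ _).mpr (h.poly₁ T)
  have h2 := (ValuationSubring.valuation_le_one_iff V₁ _).mpr (h.gauss₁ T hT)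
  rw [map_inv₀] at h2
  have hT0 : algebraMap R[X] F T ≠ 0 := by
    intro h0
    have hinj : Function.Injective (algebraMap R[X] F) := by
      rw [IsScalarTower.algebraMap_eq R[X] K F]
      exact (algebraMap K F).injective.comp (IsFractionRing.injective R[X] K)
    have hT' : T = 0 := hinj (by rw [h0, map_zero])
    apply hT
    rw [hT']
    exact dvd_zero _
  have hv0 : V₁.valuation (algebraMap R[X] F T) ≠ 0 := (Valuation.ne_zero_iff _).mpr hT0
  exact le_antisymm h1 ((inv_le_one₀ (zero_lt_iff.mpr hv0)).mp h2)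

/-- **clearing denominators**: an element of `V₁ ∩ V₂` becomes integral over `R[X]` after
multiplication by a polynomial prime to `ϖ`. -/
theorem gaussPairLe_exists_scale [FiniteDimensional K F]
    (h : GaussPairLe (K := K) ϖ V₁ V₂ b c) {u : F} (hu₁ : u ∈ V₁) (hu₂ : u ∈ V₂) :
    ∃ T : R[X], ¬ C ϖ ∣ T ∧ IsIntegral R[X] (algebraMap R[X] F T * u) := by
  classical
  obtain ⟨p, hp, hpc, hpu⟩ := h.exists_monic_of_mem hu₁ hu₂
  have hex : ∀ i, ∃ P Q : R[X], ¬ C ϖ ∣ Q ∧
      p.coeff i = algebraMap R[X] K P / algebraMap R[X] K Q :=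
    fun i => exists_div_of_mem_gaussRing h.prime h.unif₁ h.poly₁ h.gauss₁ (hpc i)
  choose P Q hQ hPQ using hex
  set n := p.natDegree with hn
  set T : R[X] := ∏ i ∈ Finset.range n, Q i with hTdef
  have hT : ¬ C ϖ ∣ T := by
    intro hdvd
    obtain ⟨i, -, hi⟩ := (Prime.dvd_finsetProd_iff (prime_C h.prime) _).mp hdvd
    exact hQ i hi
  refine ⟨T, hT, ?_⟩
  set tK := algebraMap R[X] K T with htK
  have hroot : aeval (algebraMap K F tK * u) (p.scaleRoots tK) = 0 :=
    scaleRoots_aeval_eq_zero hpu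
  have hmonic : (p.scaleRoots tK).Monic := (monic_scaleRoots_iff _).mpr hp
  have hcoef : ∀ i, (p.scaleRoots tK).coeff i ∈ Set.range (algebraMap R[X] K) := by
    intro i
    rw [coeff_scaleRoots, ← hn]
    rcases lt_trichotomy i n with hi | hi | hi
    · have hQi0 : algebraMap R[X] K (Q i) ≠ 0 := by
        intro h0
        have : Q i = 0 := (IsFractionRing.injective R[X] K) (by rw [h0, map_zero])
        apply hQ i
        rw [this]
        exact dvd_zero _
      refine ⟨P i * (∏ j ∈ (Finset.range n).erase i, Q j) * T ^ (n - i - 1), ?_⟩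
      have hTe : T = Q i * ∏ j ∈ (Finset.range n).erase i, Q j :=
        (Finset.mul_prod_erase _ _ (Finset.mem_range.mpr hi)).symm
      have hpow : n - i = (n - i - 1) + 1 := by omega
      rw [hPQ i]
      conv_rhs => rw [hpow, pow_succ]
      have htK' : tK = algebraMap R[X] K (Q i) *
          algebraMap R[X] K (∏ j ∈ (Finset.range n).erase i, Q j) := by
        rw [htK, ← map_mul, ← hTe]
      rw [map_mul, map_mul, map_pow, ← htK]
      conv_rhs => rw [mul_comm (tK ^ (n - i - 1)) tK, ← mul_assoc]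
      congr 1
      rw [htK']
      field_simp
    · subst hi
      rw [hn, hp.coeff_natDegree, Nat.sub_self, pow_zero, mul_one]
      exact ⟨1, map_one _⟩
    · rw [coeff_eq_zero_of_natDegree_lt (by rw [← hn]; exact hi), zero_mul]
      exact ⟨0, map_zero _⟩
  obtain ⟨q, hq, -, hqm⟩ :=
    lifts_and_natDegree_eq_and_monic ((lifts_iff_coeff_lifts _).2 hcoef) hmonic
  refine ⟨q, hqm, ?_⟩
  have e : eval₂ (algebraMap R[X] F) (algebraMap R[X] F T * u) q =
      aeval (algebraMap R[X] F T * u) (q.map (algebraMap R[X] K)) := by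
    rw [aeval_def, eval₂_map, ← IsScalarTower.algebraMap_eq]
  rw [e, hq, ← map_eq (K := K)]
  exact hroot

/-- some element of the chart lies in `𝔪_{V₁}` and is a unit of `V₂` -/
theorem gaussPairLe_exists_mem_not_mem [FiniteDimensional K F]
    (h : GaussPairLe (K := K) ϖ V₁ V₂ b c) :
    ∃ g : F, IsIntegral R[X] g ∧ g ∈ V₁.nonunits ∧ g ∉ V₂.nonunits := by
  obtain ⟨c₀, hc0, hc1, hc2⟩ := exists_separating h.unif₁ h.unif₂ h.ne
  have hu1 : V₁.valuation (1 + c₀) = 1 := Valuation.map_one_add_of_lt _ hc1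
  have h1c : 1 + c₀ ≠ 0 := by
    intro h0
    rw [h0, map_zero] at hu1
    exact zero_ne_one hu1
  have hv1 : V₁.valuation (c₀ * (1 + c₀)⁻¹) < 1 := by
    rw [map_mul, map_inv₀, hu1, inv_one, mul_one]
    exact hc1
  have hu_eq : c₀ * (1 + c₀)⁻¹ = (1 + c₀⁻¹)⁻¹ := by
    have h2 : 1 + c₀⁻¹ = (1 + c₀) * c₀⁻¹ := by
      rw [add_mul, one_mul, mul_inv_cancel₀ hc0, add_comm]
    rw [h2, mul_inv, inv_inv, mul_comm]
  have hv2' : V₂.valuation (1 + c₀⁻¹) = 1 := Valuation.map_one_add_of_lt _ hc2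
  have hv2 : V₂.valuation (c₀ * (1 + c₀)⁻¹) = 1 := by
    rw [hu_eq, map_inv₀, hv2', inv_one]
  have hu₁ : c₀ * (1 + c₀)⁻¹ ∈ V₁ := (ValuationSubring.valuation_le_one_iff V₁ _).mp hv1.le
  have hu₂ : c₀ * (1 + c₀)⁻¹ ∈ V₂ := (ValuationSubring.valuation_le_one_iff V₂ _).mp hv2.le
  obtain ⟨T, hT, hint⟩ := gaussPairLe_exists_scale h hu₁ hu₂
  refine ⟨algebraMap R[X] F T * (c₀ * (1 + c₀)⁻¹), hint, ?_, ?_⟩
  · exact mem_mul_nonunits (h.poly₁ T) ((ValuationSubring.mem_nonunits_iff V₁).mpr hv1)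
  · intro hmem
    rw [ValuationSubring.mem_nonunits_iff, map_mul, hv2, mul_one,
      gaussPairLe_valuation_eq_one (gaussPairLe_symm h) hT] at hmem
    exact lt_irrefl _ hmem

variable [Algebra R F] [IsScalarTower R R[X] F]

/-- **`SSChart.inf_eq`**: `(B ∩ 𝔪_{V₁}) ⊓ (B ∩ 𝔪_{V₂}) = ϖ B`. -/
theorem gaussPairLe_compIdeal_inf [FiniteDimensional K F]
    (h : GaussPairLe (K := K) ϖ V₁ V₂ b c) (B : Subalgebra R F)
    (hB : ∀ f : F, f ∈ B ↔ IsIntegral R[X] f)
    (hBV₁ : ∀ b : B, (b : F) ∈ V₁) (hBV₂ : ∀ b : B, (b : F) ∈ V₂) :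
    compIdeal B V₁ hBV₁ ⊓ compIdeal B V₂ hBV₂ = Ideal.span {algebraMap R B ϖ} := by
  have hϖF : ((algebraMap R B ϖ : B) : F) = algebraMap R[X] F (C ϖ) :=
    algebraMap_const_eq ϖ
  have hϖ0 : algebraMap R[X] F (C ϖ) ≠ 0 := h.unif₁.ne_zero
  apply le_antisymm
  · intro y hy
    obtain ⟨hy₁, hy₂⟩ := hy
    rw [SetLike.mem_coe, mem_compIdeal, ValuationSubring.mem_nonunits_iff,
      ← h.unif₁.mul_inv_mem_iff] at hy₁
    rw [SetLike.mem_coe, mem_compIdeal, ValuationSubring.mem_nonunits_iff,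
      ← h.unif₂.mul_inv_mem_iff] at hy₂
    have hint := h.qep2 ((hB _).mp y.2) hy₁ hy₂
    rw [Ideal.mem_span_singleton']
    refine ⟨⟨_, (hB _).mpr hint⟩, Subtype.ext ?_⟩
    rw [Subalgebra.coe_mul, hϖF]
    show (y : F) * (algebraMap R[X] F (C ϖ))⁻¹ * algebraMap R[X] F (C ϖ) = y
    rw [mul_assoc, inv_mul_cancel₀ hϖ0, mul_one]
  · rw [Ideal.span_le, Set.singleton_subset_iff]
    constructor
    · rw [SetLike.mem_coe, mem_compIdeal, hϖF, ValuationSubring.mem_nonunits_iff]
      exact h.unif₁.val_lt_one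
    · rw [SetLike.mem_coe, mem_compIdeal, hϖF, ValuationSubring.mem_nonunits_iff]
      exact h.unif₂.val_lt_one

/-- **MODASM S1-abs.**  The fields `p₁ p₂ prime₁ prime₂ ne not_le₁₂ not_le₂₁ inf_eq` of
`SSChart ϖ B` for the chart `B` = integral closure of `R[x]`, `x = algebraMap R[X] F X`, with the
components characterised by the two valuations. -/
theorem gaussPairLe_exists_components [FiniteDimensional K F]
    (h : GaussPairLe (K := K) ϖ V₁ V₂ b c) (B : Subalgebra R F)
    (hB : ∀ f : F, f ∈ B ↔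
      IsIntegral (Algebra.adjoin R ({algebraMap R[X] F X} : Set F)) f) :
    ∃ p₁ p₂ : Ideal B,
      (∀ y : B, y ∈ p₁ ↔ (y : F) ∈ V₁.nonunits) ∧ (∀ y : B, y ∈ p₂ ↔ (y : F) ∈ V₂.nonunits) ∧
      p₁.IsPrime ∧ p₂.IsPrime ∧ p₁ ≠ p₂ ∧ ¬ p₁ ≤ p₂ ∧ ¬ p₂ ≤ p₁ ∧
      p₁ ⊓ p₂ = Ideal.span {algebraMap R B ϖ} := by
  have hB' : ∀ f : F, f ∈ B ↔ IsIntegral R[X] f := fun f =>
    (hB f).trans (isIntegral_adjoin_iff f)
  have hBV₁ : ∀ y : B, (y : F) ∈ V₁ := fun y =>
    gaussPairLe_mem_of_isIntegral h ((hB' _).mp y.2)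
  have hBV₂ : ∀ y : B, (y : F) ∈ V₂ := fun y =>
    gaussPairLe_mem_of_isIntegral (gaussPairLe_symm h) ((hB' _).mp y.2)
  have h12 : ¬ compIdeal B V₁ hBV₁ ≤ compIdeal B V₂ hBV₂ := by
    intro hle
    obtain ⟨g, hg, hg₁, hg₂⟩ := gaussPairLe_exists_mem_not_mem h
    exact hg₂ (hle (show (⟨g, (hB' g).mpr hg⟩ : B) ∈ compIdeal B V₁ hBV₁ from hg₁))
  have h21 : ¬ compIdeal B V₂ hBV₂ ≤ compIdeal B V₁ hBV₁ := by
    intro hle
    obtain ⟨g, hg, hg₁, hg₂⟩ := gaussPairLe_exists_mem_not_mem (gaussPairLe_symm h)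
    exact hg₂ (hle (show (⟨g, (hB' g).mpr hg⟩ : B) ∈ compIdeal B V₂ hBV₂ from hg₁))
  refine ⟨compIdeal B V₁ hBV₁, compIdeal B V₂ hBV₂, fun _ => Iff.rfl, fun _ => Iff.rfl,
    compIdeal_isPrime B V₁ hBV₁, compIdeal_isPrime B V₂ hBV₂, ?_, h12, h21,
    gaussPairLe_compIdeal_inf h B hB' hBV₁ hBV₂⟩
  intro heq
  exact h12 (le_of_eq heq)

end Main

end Fermat.Agent.A2.H489

end
-- ===== PACK-END A2/H489/ChartA.lean

-- ===== PACK-BEGIN S18/H203/KBasis.lean
section


/-!
# S18 / b1 (helper203): the lifted family is a basis of the generic fibre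

Same setting as `LiftBasis.lean`; moreover `F / K` is algebraic.  If the reductions of
`b : ι → B` form an `S̄`-basis of `B̄ = B ⧸ (w) B` then the images of the `b i` in `F` form a
`K`-basis of `F` (`basisOfLift`), so `card ι = [F : K]` (`card_eq_finrank`).
-/

set_option autoImplicit false

namespace Fermat.Agent.S18.H203

open Ideal

section

variable {S B : Type*} [CommRing S] [IsDomain S] [CommRing B] [Algebra S B]

/-- The integral closure in a field is torsion-free over the base. -/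
theorem isTorsionFree_of_isIntegralClosure (K F : Type*) [Field K] [Algebra S K]
    [IsFractionRing S K] [Field F] [Algebra K F] [Algebra S F] [IsScalarTower S K F]
    [Algebra B F] [IsScalarTower S B F] [IsIntegralClosure B S F] :
    Module.IsTorsionFree S B := by
  have hinjSF : Function.Injective (algebraMap S F) := by
    rw [IsScalarTower.algebraMap_eq S K F]
    exact (algebraMap K F).injective.comp (IsFractionRing.injective S K)
  have h1 : Module.IsTorsionFree S F := Module.isTorsionFree_iff_algebraMap_injective.mpr hinjSF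
  exact Function.Injective.moduleIsTorsionFree (algebraMap B F)
    (IsIntegralClosure.algebraMap_injective B S F) fun r m => by
      rw [Algebra.smul_def, map_mul, ← IsScalarTower.algebraMap_apply, Algebra.smul_def]

variable [IsNoetherianRing S] {ι : Type*} [Fintype ι]

/-- The lifts are linearly independent over `K` in `F`. -/
theorem linearIndependent_map_lift (K F : Type*) [Field K] [Algebra S K]
    [IsFractionRing S K] [Field F] [Algebra K F] [Algebra S F] [IsScalarTower S K F]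
    [Algebra B F] [IsScalarTower S B F] [IsIntegralClosure B S F]
    {w : S} (hw : Prime w) (b : ι → B)
    (hli : LinearIndependent (S ⧸ Ideal.span {w}) fun i => redB (S := S) w (b i)) :
    LinearIndependent K fun i => algebraMap B F (b i) := by
  have htf : Module.IsTorsionFree S B := isTorsionFree_of_isIntegralClosure K F
  have h1 : LinearIndependent S b := linearIndependent_lift hw b hli
  have h2 : LinearIndependent S fun i => algebraMap B F (b i) := by
    have := h1.map' (IsScalarTower.toAlgHom S B F).toLinearMap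
      (LinearMap.ker_eq_bot.mpr (IsIntegralClosure.algebraMap_injective B S F))
    exact this
  exact (LinearIndependent.iff_fractionRing S K).mp h2

omit [IsNoetherianRing S] in
/-- The lifts span `F` over `K`. -/
theorem span_map_lift_eq_top (K F : Type*) [Field K] [Algebra S K]
    [IsFractionRing S K] [Field F] [Algebra K F] [Algebra S F] [IsScalarTower S K F]
    [Algebra B F] [IsScalarTower S B F] [IsIntegralClosure B S F]
    [Module.Finite S B] [Algebra.IsAlgebraic K F]
    (w : S) (hw1 : ¬ IsUnit w) (b : ι → B)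
    (hspan : Submodule.span (S ⧸ Ideal.span {w}) (Set.range fun i => redB (S := S) w (b i)) = ⊤) :
    Submodule.span K (Set.range fun i => algebraMap B F (b i)) = ⊤ := by
  obtain ⟨r, hr1, hr⟩ := exists_smul_mem_span w b hspan
  have hinjSK : Function.Injective (algebraMap S K) := IsFractionRing.injective S K
  have hr0 : r ≠ 0 := by
    rintro rfl
    rw [zero_sub, neg_mem_iff, Ideal.mem_span_singleton] at hr1
    exact hw1 (isUnit_of_dvd_one hr1)
  rw [eq_top_iff]
  intro f _
  -- `f` has an integral multiple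
  have hf : IsAlgebraic S f := by
    have := Algebra.IsAlgebraic.isAlgebraic (R := K) f
    exact (IsFractionRing.isAlgebraic_iff S K F).mpr this
  obtain ⟨y, hy0, hy⟩ := hf.exists_integral_multiple
  obtain ⟨β, hβ⟩ := (IsIntegralClosure.isIntegral_iff (A := B)).mp hy
  -- `r • β ∈ span_S b`
  have h1 := hr β
  have h2 : algebraMap B F (r • β) ∈
      Submodule.span K (Set.range fun i => algebraMap B F (b i)) := by
    have h3 : (IsScalarTower.toAlgHom S B F).toLinearMap (r • β) ∈
        Submodule.map (IsScalarTower.toAlgHom S B F).toLinearMap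
          (Submodule.span S (Set.range b)) := Submodule.mem_map_of_mem h1
    rw [Submodule.map_span, ← Set.range_comp] at h3
    have h4 : Submodule.span S (Set.range ((IsScalarTower.toAlgHom S B F).toLinearMap ∘ b)) ≤
        (Submodule.span K (Set.range fun i => algebraMap B F (b i))).restrictScalars S := by
      rw [Submodule.span_le]
      rintro _ ⟨i, rfl⟩
      exact Submodule.subset_span ⟨i, rfl⟩
    exact h4 h3
  have h5 : algebraMap B F (r • β) = (algebraMap S K (r * y)) • f := by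
    rw [Algebra.smul_def r β, map_mul, hβ, ← IsScalarTower.algebraMap_apply,
      Algebra.smul_def y f, Algebra.smul_def, ← IsScalarTower.algebraMap_apply, map_mul]
    ring
  rw [h5] at h2
  have h6 : algebraMap S K (r * y) ≠ 0 := by
    simpa using (map_ne_zero_iff _ hinjSK).mpr (mul_ne_zero hr0 hy0)
  have h7 := Submodule.smul_mem _ (algebraMap S K (r * y))⁻¹ h2
  rwa [smul_smul, inv_mul_cancel₀ h6, one_smul] at h7

/-- **The lifted basis of the generic fibre.** -/
noncomputable def basisOfLift (K F : Type*) [Field K] [Algebra S K]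
    [IsFractionRing S K] [Field F] [Algebra K F] [Algebra S F] [IsScalarTower S K F]
    [Algebra B F] [IsScalarTower S B F] [IsIntegralClosure B S F]
    [Module.Finite S B] [Algebra.IsAlgebraic K F]
    {w : S} (hw : Prime w) (b : ι → B)
    (hli : LinearIndependent (S ⧸ Ideal.span {w}) fun i => redB (S := S) w (b i))
    (hspan : Submodule.span (S ⧸ Ideal.span {w}) (Set.range fun i => redB (S := S) w (b i)) = ⊤) :
    Module.Basis ι K F :=
  Module.Basis.mk (linearIndependent_map_lift K F hw b hli)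
    (span_map_lift_eq_top K F w hw.not_isUnit b hspan).ge

@[simp]
theorem basisOfLift_apply (K F : Type*) [Field K] [Algebra S K]
    [IsFractionRing S K] [Field F] [Algebra K F] [Algebra S F] [IsScalarTower S K F]
    [Algebra B F] [IsScalarTower S B F] [IsIntegralClosure B S F]
    [Module.Finite S B] [Algebra.IsAlgebraic K F]
    {w : S} (hw : Prime w) (b : ι → B)
    (hli : LinearIndependent (S ⧸ Ideal.span {w}) fun i => redB (S := S) w (b i))
    (hspan : Submodule.span (S ⧸ Ideal.span {w}) (Set.range fun i => redB (S := S) w (b i)) = ⊤)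
    (i : ι) : basisOfLift K F hw b hli hspan i = algebraMap B F (b i) := by
  simp [basisOfLift]

/-- The rank of the special fibre is the degree of the generic fibre. -/
theorem card_eq_finrank (K F : Type*) [Field K] [Algebra S K]
    [IsFractionRing S K] [Field F] [Algebra K F] [Algebra S F] [IsScalarTower S K F]
    [Algebra B F] [IsScalarTower S B F] [IsIntegralClosure B S F]
    [Module.Finite S B] [Algebra.IsAlgebraic K F]
    {w : S} (hw : Prime w) (b : ι → B)
    (hli : LinearIndependent (S ⧸ Ideal.span {w}) fun i => redB (S := S) w (b i))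
    (hspan : Submodule.span (S ⧸ Ideal.span {w}) (Set.range fun i => redB (S := S) w (b i)) = ⊤) :
    Fintype.card ι = Module.finrank K F :=
  (Module.finrank_eq_card_basis (basisOfLift K F hw b hli hspan)).symm

end

end Fermat.Agent.S18.H203

end
-- ===== PACK-END S18/H203/KBasis.lean

-- ===== PACK-BEGIN Lib/Haupt/Sturm.lean
section



/-!
# The four formal modular identities, via the Sturm bound (helper637)
-/

set_option autoImplicit false

open UpperHalfPlane ModularForm CongruenceSubgroup MatrixGroups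
open Matrix.SpecialLinearGroup Filter Topology
open scoped Manifold

noncomputable section

namespace Fermat.Agent.Lib.Haupt

/-- Crude bound for the index of `Γ₀(N)`. -/
theorem index_Gamma0_le (N : ℕ) [NeZero N] : (Gamma0 N).index ≤ N ^ 2 := by
  classical
  let f : SL(2, ℤ) ⧸ Gamma0 N → ZMod N × ZMod N :=
    fun q => (((q.out 0 0 : ℤ) : ZMod N), ((q.out 1 0 : ℤ) : ZMod N))
  have hf : Function.Injective f := by
    intro x y hxy
    rw [← QuotientGroup.out_eq' x, ← QuotientGroup.out_eq' y]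
    rw [QuotientGroup.eq]
    rw [CongruenceSubgroup.Gamma0_mem]
    simp only [f, Prod.mk.injEq] at hxy
    obtain ⟨h0, h1⟩ := hxy
    set A := x.out with hA
    set B := y.out with hB
    have hAinv : (A⁻¹ * B) 1 0 = - A 1 0 * B 0 0 + A 0 0 * B 1 0 := by
      rw [Matrix.SpecialLinearGroup.coe_mul, Matrix.SpecialLinearGroup.coe_inv,
        Matrix.adjugate_fin_two, Matrix.mul_apply]
      simp [Fin.sum_univ_two]
    rw [hAinv]
    push_cast
    rw [h0, h1]
    ring
  have := Nat.card_le_card_of_injective f hf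
  have hcard : Nat.card (ZMod N × ZMod N) = N ^ 2 := by
    rw [Nat.card_prod, Nat.card_zmod, sq]
  rw [hcard] at this
  exact this

theorem sturm_G0 (N : ℕ) [NeZero N] {k : ℤ} (f : ModularForm (G0 N) k) (B : ℕ)
    (hB : (k * (N : ℤ) ^ 2).toNat / 12 ≤ B)
    (h : ∀ n : ℕ, n ≤ B → (qExpansion 1 f).coeff n = 0) : f = 0 := by
  refine ModularForm.sturm_bound_Gamma0 N f (fun n hn => h n (le_trans hn (le_trans ?_ hB)))
  apply Nat.div_le_div_right
  have hidx : ((Gamma0 N).index : ℤ) ≤ (N : ℤ) ^ 2 := by exact_mod_cast index_Gamma0_le N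
  by_cases hk : 0 ≤ k
  · exact Int.toNat_le_toNat (mul_le_mul_of_nonneg_left hidx hk)
  · have hneg : k * ((Gamma0 N).index : ℤ) ≤ 0 :=
      mul_nonpos_of_nonpos_of_nonneg (le_of_lt (not_le.mp hk)) (Int.natCast_nonneg _)
    rw [Int.toNat_of_nonpos hneg]
    exact Nat.zero_le _

/-- Injectivity of the coefficient map `ℤ⟦X⟧ → ℂ⟦X⟧`. -/
theorem map_intCast_injective :
    Function.Injective (PowerSeries.map (Int.castRingHom ℂ)) := by
  intro f g h
  ext n
  have := congrArg (PowerSeries.coeff n) h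
  rw [PowerSeries.coeff_map, PowerSeries.coeff_map, eq_intCast, eq_intCast] at this
  exact_mod_cast this

/-! ### The forms -/

/-- `E₄` on `Γ₀(d)`. -/
abbrev eR (d : ℕ) : ModularForm (G0 d) ((4 : ℕ) : ℤ) := res d E₄
/-- `Δ` on `Γ₀(d)`. -/
abbrev dR (d : ℕ) : ModularForm (G0 d) 12 := res d DeltaMF
/-- `E₄(dτ)` on `Γ₀(d)`. -/
abbrev eL (d : ℕ) [NeZero d] : ModularForm (G0 d) ((4 : ℕ) : ℤ) := lev d E₄
/-- `Δ(dτ)` on `Γ₀(d)`. -/
abbrev dL (d : ℕ) [NeZero d] : ModularForm (G0 d) 12 := lev d DeltaMF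

theorem qExpansion_eR (d : ℕ) :
    qExpansion 1 (eR d) = E4Z.map (Int.castRingHom ℂ) := qExpansion_E4

theorem qExpansion_dR (d : ℕ) :
    qExpansion 1 (dR d) = DeltaZ.map (Int.castRingHom ℂ) := qExpansion_DeltaMF

theorem qExpansion_eL (d : ℕ) [NeZero d] :
    qExpansion 1 (eL d) = (ex d E4Z).map (Int.castRingHom ℂ) := by
  rw [eL, qExpansion_lev, qExpansion_E4, PowerSeries.map_expand]

theorem qExpansion_dL (d : ℕ) [NeZero d] :
    qExpansion 1 (dL d) = (ex d DeltaZ).map (Int.castRingHom ℂ) := by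
  rw [dL, qExpansion_lev, qExpansion_DeltaMF, PowerSeries.map_expand]

section qE

variable {d : ℕ} {k k' : ℤ}

theorem qE_add (f g : ModularForm (G0 d) k) :
    qExpansion 1 ((f + g : ModularForm (G0 d) k) : ℍ → ℂ) = qExpansion 1 f + qExpansion 1 g :=
  ModularForm.qExpansion_add one_pos (one_mem_strictPeriods_G0 d) f g

theorem qE_sub (f g : ModularForm (G0 d) k) :
    qExpansion 1 ((f - g : ModularForm (G0 d) k) : ℍ → ℂ) = qExpansion 1 f - qExpansion 1 g :=
  ModularForm.qExpansion_sub one_pos (one_mem_strictPeriods_G0 d) f g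

theorem qE_smul (c : ℂ) (f : ModularForm (G0 d) k) :
    qExpansion 1 ((c • f : ModularForm (G0 d) k) : ℍ → ℂ)
      = PowerSeries.C c * qExpansion 1 f := by
  rw [← PowerSeries.smul_eq_C_mul]
  exact ModularForm.qExpansion_smul one_pos (one_mem_strictPeriods_G0 d) c f

theorem qE_mul (f : ModularForm (G0 d) k) (g : ModularForm (G0 d) k') :
    qExpansion 1 (f.mul g) = qExpansion 1 f * qExpansion 1 g :=
  ModularForm.qExpansion_mul one_pos (one_mem_strictPeriods_G0 d) f g

theorem qE_pow (f : ModularForm (G0 d) k) (n : ℕ) :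
    qExpansion 1 (f.pow n) = qExpansion 1 f ^ n :=
  ModularForm.qExpansion_pow one_pos (one_mem_strictPeriods_G0 d) f n

theorem qE_mcast (h : k = k') (f : ModularForm (G0 d) k) :
    qExpansion 1 (mcast h f : ModularForm (G0 d) k') = qExpansion 1 f := rfl

end qE

/-- `E₄³ Δ Δ₂ - (Δ + 256 Δ₂)³` as a modular form of weight 36 on `Γ₀(2)`. -/
def F1 : ModularForm (G0 2) 36 :=
  mcast (by norm_num) (((eR 2).pow 3).mul ((dR 2).mul (dL 2)))
    - mcast (by norm_num) ((dR 2 + (256 : ℂ) • dL 2).pow 3)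

theorem qExpansion_F1 : qExpansion 1 F1 = Phi1.map (Int.castRingHom ℂ) := by
  rw [F1, qE_sub, qE_mcast, qE_mcast, qE_mul, qE_pow, qE_mul, qE_pow, qE_add, qE_smul,
    qExpansion_eR, qExpansion_dR, qExpansion_dL, Phi1]
  simp only [map_sub, map_mul, map_pow, map_add, PowerSeries.map_C]
  simp

theorem F1_eq_zero : F1 = 0 := by
  refine sturm_G0 2 F1 12 (by decide) (fun n hn => ?_)
  rw [qExpansion_F1, PowerSeries.coeff_map, coeff_Phi1 (by omega), map_zero]

theorem Phi1_eq_zero : Phi1 = 0 := by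
  apply map_intCast_injective
  rw [← qExpansion_F1, F1_eq_zero, map_zero]
  exact qExpansion_zero 1

/-- `E₄(2τ)³ Δ Δ₂ - (Δ + 16 Δ₂)³` as a modular form of weight 36 on `Γ₀(2)`. -/
def F2 : ModularForm (G0 2) 36 :=
  mcast (by norm_num) (((eL 2).pow 3).mul ((dR 2).mul (dL 2)))
    - mcast (by norm_num) ((dR 2 + (16 : ℂ) • dL 2).pow 3)

theorem qExpansion_F2 : qExpansion 1 F2 = Phi2.map (Int.castRingHom ℂ) := by
  rw [F2, qE_sub, qE_mcast, qE_mcast, qE_mul, qE_pow, qE_mul, qE_pow, qE_add, qE_smul,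
    qExpansion_eL, qExpansion_dR, qExpansion_dL, Phi2]
  simp only [map_sub, map_mul, map_pow, map_add, PowerSeries.map_C]
  simp

theorem F2_eq_zero : F2 = 0 := by
  refine sturm_G0 2 F2 12 (by decide) (fun n hn => ?_)
  rw [qExpansion_F2, PowerSeries.coeff_map, coeff_Phi2 (by omega), map_zero]

theorem Phi2_eq_zero : Phi2 = 0 := by
  apply map_intCast_injective
  rw [← qExpansion_F2, F2_eq_zero, map_zero]
  exact qExpansion_zero 1

/-- `Δ Δ₃ (E₄³ - 756 Δ - 19131876 Δ₃)² - (Δ² + 196830 Δ Δ₃ + 387420489 Δ₃²)²`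
as a modular form of weight 48 on `Γ₀(3)`. -/
def F3 : ModularForm (G0 3) 48 :=
  mcast (by norm_num) (((dR 3).mul (dL 3)).mul
      ((mcast (by norm_num) ((eR 3).pow 3) - ((756 : ℂ) • dR 3 + (19131876 : ℂ) • dL 3)
        : ModularForm (G0 3) 12).pow 2))
    - mcast (by norm_num)
      ((mcast (by norm_num) ((dR 3).pow 2) + ((196830 : ℂ) • mcast (by norm_num) ((dR 3).mul (dL 3))
        + (387420489 : ℂ) • mcast (by norm_num) ((dL 3).pow 2)) : ModularForm (G0 3) 24).pow 2)

theorem qExpansion_F3 : qExpansion 1 F3 = Phi3.map (Int.castRingHom ℂ) := by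
  rw [F3, qE_sub, qE_mcast, qE_mcast, qE_mul, qE_mul, qE_pow, qE_sub, qE_mcast, qE_pow, qE_add,
    qE_smul, qE_smul, qE_pow, qE_add, qE_mcast, qE_pow, qE_add, qE_smul, qE_smul, qE_mcast,
    qE_mcast, qE_mul, qE_pow,
    qExpansion_eR, qExpansion_dR, qExpansion_dL, Phi3]
  simp only [map_sub, map_mul, map_pow, map_add, PowerSeries.map_C]
  simp

theorem F3_eq_zero : F3 = 0 := by
  refine sturm_G0 3 F3 36 (by decide) (fun n hn => ?_)
  rw [qExpansion_F3, PowerSeries.coeff_map, coeff_Phi3 (by omega), map_zero]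

theorem Phi3_eq_zero : Phi3 = 0 := by
  apply map_intCast_injective
  rw [← qExpansion_F3, F3_eq_zero, map_zero]
  exact qExpansion_zero 1

/-- `Δ Δ₃ (E₄(3τ)³ - 36 Δ - 756 Δ₃)² - (Δ² + 270 Δ Δ₃ + 729 Δ₃²)²`
as a modular form of weight 48 on `Γ₀(3)`. -/
def F4 : ModularForm (G0 3) 48 :=
  mcast (by norm_num) (((dR 3).mul (dL 3)).mul
      ((mcast (by norm_num) ((eL 3).pow 3) - ((36 : ℂ) • dR 3 + (756 : ℂ) • dL 3)
        : ModularForm (G0 3) 12).pow 2))
    - mcast (by norm_num)
      ((mcast (by norm_num) ((dR 3).pow 2) + ((270 : ℂ) • mcast (by norm_num) ((dR 3).mul (dL 3))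
        + (729 : ℂ) • mcast (by norm_num) ((dL 3).pow 2)) : ModularForm (G0 3) 24).pow 2)

theorem qExpansion_F4 : qExpansion 1 F4 = Phi4.map (Int.castRingHom ℂ) := by
  rw [F4, qE_sub, qE_mcast, qE_mcast, qE_mul, qE_mul, qE_pow, qE_sub, qE_mcast, qE_pow, qE_add,
    qE_smul, qE_smul, qE_pow, qE_add, qE_mcast, qE_pow, qE_add, qE_smul, qE_smul, qE_mcast,
    qE_mcast, qE_mul, qE_pow,
    qExpansion_eL, qExpansion_dR, qExpansion_dL, Phi4]
  simp only [map_sub, map_mul, map_pow, map_add, PowerSeries.map_C]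
  simp

theorem F4_eq_zero : F4 = 0 := by
  refine sturm_G0 3 F4 36 (by decide) (fun n hn => ?_)
  rw [qExpansion_F4, PowerSeries.coeff_map, coeff_Phi4 (by omega), map_zero]

theorem Phi4_eq_zero : Phi4 = 0 := by
  apply map_intCast_injective
  rw [← qExpansion_F4, F4_eq_zero, map_zero]
  exact qExpansion_zero 1

end Fermat.Agent.Lib.Haupt

end
end
-- ===== PACK-END Lib/Haupt/Sturm.lean

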