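import Mathlib
import Fermat.Prelude.Def_AlgebraicCurve_DivisorPushPull
import Fermat.Prelude.Def_ModularCurve_HeckeModule
import Fermat.Agent.Pack.S36.E0L3
import Fermat.Agent.Pack.S36.E4L2
import Fermat.Agent.Pack.S36.E12L0
import Fermat.Agent.Pack.S36.E4L0
import Fermat.Agent.Pack.S36.E12L3
import Fermat.Agent.Pack.S36.E7L1
import Fermat.Agent.Pack.S36.E12L1
import Fermat.Agent.Pack.S36.E7L0
import Fermat.Agent.Pack.S36.E5L1
import Fermat.Agent.Pack.S36.E12L2
import Fermat.Agent.Pack.S36.E7L3
import Fermat.Agent.Pack.S36.E10L1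
import Fermat.Agent.Pack.S36.E11L0
import Fermat.Agent.Pack.S36.E11L3
import Fermat.Agent.Pack.S36.E10L0
import Fermat.Agent.Pack.S36.E8L3
import Fermat.Agent.Pack.S36.E6L2
import Fermat.Agent.Pack.S36.E9L0
import Fermat.Agent.Pack.S36.E9L2
import Fermat.Agent.Pack.S36.E4L3

-- ===== PACK-BEGIN Lib/FF398/Local.lean
section







/-!
# Lib/FF398 — relative theory of places for a finite extension `F'/F` of function fields

For a place `v` of `F` and a finite extension `F'/F` (characteristic zero) we use the integral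
closure `S` of `O_v` in `F'` (a semi-local Dedekind domain) as a dictionary:
places of `F'` over `v`  ↔  height-one primes of `S`.

Main results of this file (helper398):
* `placeOf v q` : the place of `F'` attached to a height one prime `q` of `S`;
* `restrict_placeOf`, `exists_placeOf_eq`, `placeOf_injective` : the dictionary;
* `ord_placeOf` : `ord` of `placeOf v q` is the `q`-adic valuation.
-/

set_option autoImplicit false
set_option linter.unusedSectionVars false

open AlgebraicCurve IsDedekindDomain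

namespace Fermat.Agent.Lib.FF398

section Max

variable {K F : Type*} [Field K] [Field F] [Algebra K F]

/-- Discrete valuation rings are maximal subrings: comparable places are equal. -/
theorem place_eq_of_le {v w : Place K F} (h : v.toValuationSubring ≤ w.toValuationSubring) :
    v = w :=
  Place.ext (ValuationSubring.eq_of_le_of_ne_top _ h w.ne_top')

end Max

section Local

variable {K F F' : Type*} [Field K] [Field F] [Field F'] [Algebra K F] [Algebra K F']
  [Algebra F F'] [IsScalarTower K F F'] [FiniteDimensional F F'] [CharZero F]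
variable (v : Place K F)

variable (F') in
/-- The integral closure of `O_v` in `F'`. -/
abbrev intCl : Subalgebra v.toValuationSubring F' := integralClosure v.toValuationSubring F'

omit [Algebra K F'] [IsScalarTower K F F'] [FiniteDimensional F F'] [CharZero F] in
theorem algebraMap_OF'_injective :
    Function.Injective (algebraMap v.toValuationSubring F') := by
  intro a b h
  apply Subtype.ext
  exact (algebraMap F F').injective h

instance (priority := 2000) instFaithfulOF' : FaithfulSMul v.toValuationSubring F' :=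
  (faithfulSMul_iff_algebraMap_injective _ _).mpr (algebraMap_OF'_injective v)

instance (priority := 2000) instTorsionFreeOF' :
    Module.IsTorsionFree v.toValuationSubring F' :=
  FaithfulSMul.to_isTorsionFree _ _

instance (priority := 2000) instTorsionFreeIntCl :
    Module.IsTorsionFree v.toValuationSubring (intCl F' v) :=
  Subalgebra.instIsTorsionFree (intCl F' v)

instance instTowerKOF' : IsScalarTower K v.toValuationSubring F' :=
  IsScalarTower.of_algebraMap_eq fun a => by
    show algebraMap K F' a = algebraMap F F' (algebraMap K F a)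
    rw [← IsScalarTower.algebraMap_apply]

instance instDedekindIntCl : IsDedekindDomain (intCl F' v) :=
  integralClosure.isDedekindDomain v.toValuationSubring F F'

instance instFracIntCl : IsFractionRing (intCl F' v) F' :=
  IsIntegralClosure.isFractionRing_of_finite_extension v.toValuationSubring F F' (intCl F' v)

instance instFiniteIntCl : Module.Finite v.toValuationSubring (intCl F' v) :=
  IsIntegralClosure.finite v.toValuationSubring F F' (intCl F' v)

instance instFreeIntCl : Module.Free v.toValuationSubring (intCl F' v) :=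
  Module.free_of_finite_type_torsion_free'

/-- The place of `F'` attached to a height-one prime of the integral closure of `O_v`. -/
noncomputable def placeOf (q : HeightOneSpectrum (intCl F' v)) : Place K F' :=
  Place.ofHeightOneSpectrum (K := K) q

theorem placeOf_toValuationSubring (q : HeightOneSpectrum (intCl F' v)) :
    (placeOf v q).toValuationSubring = (q.valuation F').valuationSubring := rfl

theorem mem_placeOf_iff (q : HeightOneSpectrum (intCl F' v)) (g : F') :
    g ∈ (placeOf v q).toValuationSubring ↔ q.valuation F' g ≤ 1 := Iff.rfl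

/-- `placeOf v q` lies over `v`. -/
theorem restrict_placeOf (q : HeightOneSpectrum (intCl F' v)) :
    (placeOf v q).restrict F = v := by
  symm
  apply place_eq_of_le
  intro a ha
  rw [Place.restrict_toValuationSubring, ValuationSubring.mem_comap, mem_placeOf_iff]
  have : algebraMap F F' a = algebraMap (intCl F' v) F'
      (algebraMap v.toValuationSubring (intCl F' v) ⟨a, ha⟩) := rfl
  rw [this]
  exact q.valuation_le_one _

/-- The order function of `placeOf v q` is the `q`-adic valuation. -/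
theorem ord_placeOf (q : HeightOneSpectrum (intCl F' v)) (g : F') :
    (placeOf v q).ord g = -(WithZero.log (q.valuation F' g)) := by
  rcases eq_or_ne g 0 with rfl | hg
  · simp
  symm
  obtain ⟨π, hπ⟩ := q.valuation_exists_uniformizer F'
  have hπ0 : π ≠ 0 := by
    rintro rfl
    rw [map_zero] at hπ
    exact WithZero.exp_ne_zero hπ.symm
  refine Fermat.Agent.S24.FF.ordLike_eq_ord (fun g => -(WithZero.log (q.valuation F' g)))
    (fun f g hf hg => ?_) (placeOf v q) (fun f hf => ?_) hπ0 ?_ hg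
  · rw [map_mul, WithZero.log_mul ((Valuation.ne_zero_iff _).mpr hf)
      ((Valuation.ne_zero_iff _).mpr hg)]
    ring
  · rw [mem_placeOf_iff, neg_nonneg,
      WithZero.log_le_iff_le_exp ((Valuation.ne_zero_iff _).mpr hf)]
    rfl
  · rw [hπ, WithZero.log_exp]
    ring

/-- Membership in a height-one prime, read off from the valuation subring. -/
theorem mem_asIdeal_iff (q : HeightOneSpectrum (intCl F' v)) (s : intCl F' v) :
    s ∈ q.asIdeal ↔ s = 0 ∨ ((s : F'))⁻¹ ∉ (placeOf v q).toValuationSubring := by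
  rw [mem_placeOf_iff, ← q.valuation_lt_one_iff_mem (K := F')]
  show q.valuation F' (s : F') < 1 ↔ s = 0 ∨ ¬ q.valuation F' ((s : F'))⁻¹ ≤ 1
  rcases eq_or_ne s 0 with rfl | hs
  · simp
  have hs' : (s : F') ≠ 0 := fun h => hs (Subtype.ext h)
  have hv0 : q.valuation F' (s : F') ≠ 0 := (Valuation.ne_zero_iff _).mpr hs'
  rw [map_inv₀, not_le, one_lt_inv₀ (zero_lt_iff.mpr hv0)]
  simp [hs]

theorem placeOf_injective : Function.Injective (placeOf (F' := F') v) := by
  intro q q' h
  apply HeightOneSpectrum.ext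
  ext s
  rw [mem_asIdeal_iff, mem_asIdeal_iff, h]

omit [CharZero F] in
/-- The integral closure of `O_{w|F}` is contained in `O_w`. -/
theorem coe_intCl_mem (w : Place K F') (s : intCl F' (w.restrict F)) :
    (s : F') ∈ w.toValuationSubring := by
  obtain ⟨p, hp, hps⟩ := s.2
  have hint : IsIntegral w.toValuationSubring (s : F') := by
    refine ⟨p.map (Place.restrictInclusion F w), hp.map _, ?_⟩
    rw [Polynomial.eval₂_map]
    exact hps
  obtain ⟨y, hy⟩ := IsIntegrallyClosed.isIntegral_iff.mp hint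
  rw [← hy]
  exact y.2

/-- The inclusion of the integral closure of `O_{w|F}` into `O_w`. -/
def intClInclusion (w : Place K F') : intCl F' (w.restrict F) →+* w.toValuationSubring where
  toFun s := ⟨(s : F'), coe_intCl_mem w s⟩
  map_one' := rfl
  map_mul' _ _ := rfl
  map_zero' := rfl
  map_add' _ _ := rfl

@[simp]
theorem coe_intClInclusion (w : Place K F') (s : intCl F' (w.restrict F)) :
    ((intClInclusion w s : w.toValuationSubring) : F') = (s : F') := rfl

/-- The centre of `w` on the integral closure of `O_{w|F}`. -/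
def centre (w : Place K F') : Ideal (intCl F' (w.restrict F)) :=
  Ideal.comap (intClInclusion w) (IsLocalRing.maximalIdeal w.toValuationSubring)

instance centre_isPrime (w : Place K F') : (centre (F := F) w).IsPrime :=
  Ideal.comap_isPrime _ _

theorem centre_ne_bot (w : Place K F') : centre (F := F) w ≠ ⊥ := by
  obtain ⟨π, hπ⟩ := IsDiscreteValuationRing.exists_irreducible (w.restrict F).toValuationSubring
  intro h
  have hmem : algebraMap (w.restrict F).toValuationSubring (intCl F' (w.restrict F)) π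
      ∈ centre (F := F) w := by
    rw [centre, Ideal.mem_comap, IsLocalRing.mem_maximalIdeal, mem_nonunits_iff]
    intro hu
    have hu' : IsUnit (Place.restrictInclusion F w π) := hu
    exact hπ.not_isUnit (isUnit_of_map_unit (Place.restrictInclusion F w) π hu')
  rw [h, Ideal.mem_bot] at hmem
  have hinj : Function.Injective
      (algebraMap (w.restrict F).toValuationSubring (intCl F' (w.restrict F))) :=
    FaithfulSMul.algebraMap_injective _ _
  exact hπ.ne_zero (hinj (by rw [hmem, map_zero]))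

/-- The centre of `w` as a height-one prime. -/
def centrePrime (w : Place K F') : HeightOneSpectrum (intCl F' (w.restrict F)) :=
  ⟨centre w, centre_isPrime w, centre_ne_bot w⟩

theorem placeOf_centrePrime (w : Place K F') : placeOf (w.restrict F) (centrePrime w) = w := by
  apply place_eq_of_le
  intro g hg
  rw [mem_placeOf_iff] at hg
  obtain ⟨n, d, hnd⟩ := (centrePrime w).exists_primeCompl_mul_eq_of_integer g hg
  have hd : (d : intCl F' (w.restrict F)) ∉ centre (F := F) w := d.2
  rw [centre, Ideal.mem_comap, IsLocalRing.mem_maximalIdeal, mem_nonunits_iff, not_not] at hd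
  obtain ⟨b, hb⟩ := isUnit_iff_exists_inv.mp hd
  have hb' : ((d : intCl F' (w.restrict F)) : F') * (b : F') = 1 := congrArg Subtype.val hb
  have hd0 : ((d : intCl F' (w.restrict F)) : F') ≠ 0 := left_ne_zero_of_mul_eq_one hb'
  have hg' : g = ((n : F')) * (b : F') := by
    have h1 : g * ((d : intCl F' (w.restrict F)) : F') = (n : F') := hnd
    calc g = g * (((d : intCl F' (w.restrict F)) : F') * (b : F')) := by rw [hb', mul_one]
      _ = (n : F') * (b : F') := by rw [← mul_assoc, h1]
  rw [hg']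
  exact mul_mem (coe_intCl_mem w n) b.2

/-- Every place of `F'` over `v` comes from a height-one prime of the integral closure. -/
theorem exists_placeOf_eq (w : Place K F') (hw : w.restrict F = v) :
    ∃ q : HeightOneSpectrum (intCl F' v), placeOf v q = w := by
  subst hw
  exact ⟨centrePrime w, placeOf_centrePrime w⟩

theorem range_placeOf : Set.range (placeOf (F' := F') v) = {w : Place K F' | w.restrict F = v} := by
  ext w
  constructor
  · rintro ⟨q, rfl⟩
    exact restrict_placeOf v q
  · intro hw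
    exact exists_placeOf_eq v w hw

/-! ### Primes over the maximal ideal of `O_v` -/

/-- The maximal ideal of `O_v`. -/
abbrev pv : Ideal v.toValuationSubring := IsLocalRing.maximalIdeal v.toValuationSubring

theorem pv_ne_bot : pv v ≠ ⊥ := IsDiscreteValuationRing.not_a_field _

theorem algebraMap_O_intCl_injective :
    Function.Injective (algebraMap v.toValuationSubring (intCl F' v)) :=
  FaithfulSMul.algebraMap_injective _ _

theorem map_pv_ne_bot : (pv v).map (algebraMap v.toValuationSubring (intCl F' v)) ≠ ⊥ := by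
  rw [Ne, Ideal.map_eq_bot_iff_of_injective (algebraMap_O_intCl_injective v)]
  exact pv_ne_bot v

instance liesOver_pv (q : HeightOneSpectrum (intCl F' v)) : q.asIdeal.LiesOver (pv v) := by
  constructor
  have hprime : (q.asIdeal.under v.toValuationSubring).IsPrime := Ideal.IsPrime.under _ _
  have hne : q.asIdeal.under v.toValuationSubring ≠ ⊥ :=
    Ideal.under_ne_bot v.toValuationSubring q.ne_bot
  have hmax : (q.asIdeal.under v.toValuationSubring).IsMaximal := hprime.isMaximal hne
  exact (IsLocalRing.eq_maximalIdeal hmax).symm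

instance isMaximal_asIdeal (q : HeightOneSpectrum (intCl F' v)) : q.asIdeal.IsMaximal :=
  q.isPrime.isMaximal q.ne_bot

/-- The height-one prime attached to a prime over `𝔪_v`. -/
def primeOfOver (q : (pv v).primesOver (intCl F' v)) : HeightOneSpectrum (intCl F' v) :=
  ⟨q.1, q.2.1, by
    have := q.2.2
    exact Ideal.ne_bot_of_liesOver_of_ne_bot (pv_ne_bot v) q.1⟩

@[simp]
theorem primeOfOver_asIdeal (q : (pv v).primesOver (intCl F' v)) :
    (primeOfOver v q).asIdeal = q.1 := rfl

theorem primeOfOver_injective : Function.Injective (primeOfOver (F' := F') v) := by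
  intro q q' h
  apply Subtype.ext
  exact congrArg HeightOneSpectrum.asIdeal h

theorem primeOfOver_surjective : Function.Surjective (primeOfOver (F' := F') v) := by
  intro q
  exact ⟨⟨q.asIdeal, q.isPrime, liesOver_pv v q⟩, rfl⟩

instance finite_primesOver : Finite ((pv v).primesOver (intCl F' v)) :=
  (Algebra.QuasiFinite.finite_primesOver (pv v)).to_subtype

instance finite_heightOneSpectrum : Finite (HeightOneSpectrum (intCl F' v)) :=
  Finite.of_surjective _ (primeOfOver_surjective v)

/-- The fibre over `v` is finite (no `HasPrincipalDivisors` needed). -/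
theorem finite_fibre : {w : Place K F' | w.restrict F = v}.Finite := by
  rw [← range_placeOf]
  exact Set.finite_range _

/-! ### Ramification index and residue degree -/

theorem mem_asIdeal_iff_ord (q : HeightOneSpectrum (intCl F' v)) (s : intCl F' v) :
    s ∈ q.asIdeal ↔ s = 0 ∨ 0 < (placeOf v q).ord (s : F') := by
  rcases eq_or_ne s 0 with rfl | hs
  · simp
  have hs' : (s : F') ≠ 0 := fun h => hs (Subtype.ext h)
  have hv0 : q.valuation F' (s : F') ≠ 0 := (Valuation.ne_zero_iff _).mpr hs'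
  rw [ord_placeOf, neg_pos, WithZero.log_lt_iff_lt_exp hv0, ← q.valuation_lt_one_iff_mem (K := F')]
  simp only [hs, false_or]
  rfl

theorem ord_placeOf_coe_nonneg (q : HeightOneSpectrum (intCl F' v)) (s : intCl F' v) :
    0 ≤ (placeOf v q).ord (s : F') :=
  (Fermat.Agent.S24.FF.mem_iff_ord_nonneg _).mp
    ((mem_placeOf_iff v q _).mpr (q.valuation_le_one s))

/-- The ramification index of `placeOf v q` (in the sense of the Prelude) is Mathlib's
ramification index of `q` over `O_v`. -/
theorem ramificationIndex_placeOf (q : HeightOneSpectrum (intCl F' v)) :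
    ((placeOf v q).ramificationIndex F : ℤ)
      = (q.asIdeal.ramificationIdx v.toValuationSubring : ℤ) := by
  obtain ⟨π, hπ, hπ1⟩ := Fermat.Agent.S24.FF.exists_irreducible_coe v
  have h1 := (placeOf v q).ord_restrict (F := F) (π : F)
  rw [restrict_placeOf, hπ1, mul_one] at h1
  rw [← h1, ord_placeOf]
  have hπS : algebraMap v.toValuationSubring (intCl F' v) π ≠ 0 := fun h =>
    hπ.ne_zero (algebraMap_O_intCl_injective v (by rw [h, map_zero]))
  have h2 : q.valuation F' (algebraMap F F' (π : F))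
      = q.intValuation (algebraMap v.toValuationSubring (intCl F' v) π) :=
    q.valuation_of_algebraMap (algebraMap v.toValuationSubring (intCl F' v) π)
  rw [h2, q.intValuation_eq_exp_neg_multiplicity hπS, WithZero.log_exp, neg_neg,
    Ideal.IsDedekindDomain.ramificationIdx_eq_multiplicity (pv v) q.asIdeal (map_pv_ne_bot v)]
  have h3 : (pv v).map (algebraMap v.toValuationSubring (intCl F' v))
      = Ideal.span {algebraMap v.toValuationSubring (intCl F' v) π} := by
    rw [pv, hπ.maximalIdeal_eq, Ideal.map_span, Set.image_singleton]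
  rw [h3]

/-- If all places of `F'` have degree one, residue degrees over `O_v` are one. -/
theorem inertiaDeg_intCl_eq_one (hdeg' : ∀ w : Place K F', w.deg = 1)
    (q : HeightOneSpectrum (intCl F' v)) :
    q.asIdeal.inertiaDeg v.toValuationSubring = 1 := by
  refine Fermat.Agent.S24.FF.inertiaDeg_eq_one_of_forall_exists (pv v) q.asIdeal fun s => ?_
  obtain ⟨c, hc⟩ := Fermat.Agent.Lib.RR.exists_const_sub (placeOf v q) (hdeg' _)
    (ord_placeOf_coe_nonneg v q s)
  refine ⟨algebraMap K v.toValuationSubring c, ?_⟩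
  rw [mem_asIdeal_iff_ord]
  have hcoe : ((s - algebraMap v.toValuationSubring (intCl F' v)
      (algebraMap K v.toValuationSubring c) : intCl F' v) : F') = (s : F') - algebraMap K F' c := by
    rw [IsScalarTower.algebraMap_apply K F F']
    rfl
  rcases hc with hc | hc
  · left
    apply Subtype.ext
    rw [hcoe]
    exact hc
  · right
    rw [hcoe]
    exact hc

omit [CharZero F] [FiniteDimensional F F'] in
/-- If all places of `F'` have degree one, the Prelude's residue degrees are one. -/
theorem inertiaDeg_eq_one [Algebra.IsIntegral F F'] (hdeg' : ∀ w : Place K F', w.deg = 1)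
    (w : Place K F') : w.inertiaDeg F = 1 := by
  have h := w.deg_restrict_mul_inertiaDeg (F := F)
  rw [hdeg' w] at h
  exact (mul_eq_one.mp h).2

omit [CharZero F] [FiniteDimensional F F'] in
theorem deg_restrict_eq_one [Algebra.IsIntegral F F'] (hdeg' : ∀ w : Place K F', w.deg = 1)
    (w : Place K F') : (w.restrict F).deg = 1 := by
  have h := w.deg_restrict_mul_inertiaDeg (F := F)
  rw [hdeg' w] at h
  exact (mul_eq_one.mp h).1

/-- **Local fundamental identity** `∑_{w | v} e(w|v) = [F' : F]`. -/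
theorem sum_ramificationIndex (hdeg' : ∀ w : Place K F', w.deg = 1)
    (s : Finset (Place K F')) (hs : ∀ w, w ∈ s ↔ w.restrict F = v) :
    ∑ w ∈ s, (w.ramificationIndex F : ℤ) = (Module.finrank F F' : ℤ) := by
  let _ : Fintype ((pv v).primesOver (intCl F' v)) := Fintype.ofFinite _
  have h := Ideal.sum_ramification_inertia_eq_finrank (pv v) (intCl F' v)
  rw [IsFractionRing.finrank_eq v.toValuationSubring F (intCl F' v) F', ← h]
  push_cast
  symm
  refine Finset.sum_bij (fun q _ => placeOf v (primeOfOver v q)) ?_ ?_ ?_ ?_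
  · intro q _
    exact (hs _).mpr (restrict_placeOf v _)
  · intro q _ q' _ h
    exact primeOfOver_injective v (placeOf_injective v h)
  · intro w hw
    obtain ⟨q, hq⟩ := exists_placeOf_eq v w ((hs w).mp hw)
    obtain ⟨q', rfl⟩ := primeOfOver_surjective v q
    exact ⟨q', Finset.mem_univ _, hq⟩
  · intro q _
    have h1 := inertiaDeg_intCl_eq_one v hdeg' (primeOfOver v q)
    rw [primeOfOver_asIdeal] at h1
    rw [ramificationIndex_placeOf, primeOfOver_asIdeal, h1]
    simp

/-! ### Norm formula -/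

open UniqueFactorizationMonoid

theorem ord_coe_eq_multiplicity (a : v.toValuationSubring) (ha : a ≠ 0) :
    v.ord (a : F) = (multiplicity (pv v) (Ideal.span {a}) : ℤ) := by
  rw [Place.ord, v.adicValuation_coe, v.heightOneSpectrum.intValuation_eq_exp_neg_multiplicity ha,
    WithZero.log_exp, neg_neg]
  rfl

theorem ord_placeOf_coe_eq_multiplicity (q : HeightOneSpectrum (intCl F' v)) (x : intCl F' v)
    (hx : x ≠ 0) :
    (placeOf v q).ord (x : F') = (multiplicity q.asIdeal (Ideal.span {x}) : ℤ) := by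
  rw [ord_placeOf]
  have h2 : q.valuation F' (x : F') = q.intValuation x := q.valuation_of_algebraMap x
  rw [h2, q.intValuation_eq_exp_neg_multiplicity hx, WithZero.log_exp, neg_neg]

theorem multiplicity_eq_count (q : HeightOneSpectrum (intCl F' v)) (I : Ideal (intCl F' v))
    (hI : I ≠ ⊥) :
    multiplicity q.asIdeal I = (normalizedFactors I).count q.asIdeal := by
  have hq : Prime q.asIdeal := Ideal.prime_of_isPrime q.ne_bot q.isPrime
  rw [multiplicity_eq_of_emultiplicity_eq_some
    (emultiplicity_eq_count_normalizedFactors hq.irreducible hI), normalize_eq]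

theorem sum_count_eq_card [Fintype (HeightOneSpectrum (intCl F' v))] (I : Ideal (intCl F' v))
    (hI : I ≠ ⊥) :
    ∑ q : HeightOneSpectrum (intCl F' v), (normalizedFactors I).count q.asIdeal
      = Multiset.card (normalizedFactors I) := by
  classical
  rw [← Multiset.toFinset_sum_count_eq]
  have hinj : Function.Injective
      (fun q : HeightOneSpectrum (intCl F' v) => q.asIdeal) := fun q q' h =>
    HeightOneSpectrum.ext h
  rw [← Finset.sum_image (s := Finset.univ)
    (f := fun P : Ideal (intCl F' v) => (normalizedFactors I).count P)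
    (g := fun q : HeightOneSpectrum (intCl F' v) => q.asIdeal) (fun q _ q' _ h => hinj h)]
  symm
  refine Finset.sum_subset ?_ ?_
  · intro P hP
    rw [Multiset.mem_toFinset, Ideal.mem_normalizedFactors_iff hI] at hP
    have hPne : P ≠ ⊥ := fun h => hI (le_bot_iff.mp (h ▸ hP.2))
    exact Finset.mem_image.mpr ⟨⟨P, hP.1, hPne⟩, Finset.mem_univ _, rfl⟩
  · intro P _ hP
    rw [Multiset.mem_toFinset] at hP
    exact Multiset.count_eq_zero_of_notMem hP

theorem relNorm_eq_pow (hdeg' : ∀ w : Place K F', w.deg = 1) (I : Ideal (intCl F' v))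
    (hI : I ≠ ⊥) :
    Ideal.relNorm v.toValuationSubring I = (pv v) ^ Multiset.card (normalizedFactors I) := by
  conv_lhs => rw [← Ideal.prod_normalizedFactors_eq_self hI]
  rw [map_multiset_prod]
  have hconst : (normalizedFactors I).map (Ideal.relNorm v.toValuationSubring)
      = (normalizedFactors I).map (fun _ => pv v) := by
    refine Multiset.map_congr rfl fun P hP => ?_
    rw [Ideal.mem_normalizedFactors_iff hI] at hP
    have hPne : P ≠ ⊥ := fun h => hI (le_bot_iff.mp (h ▸ hP.2))
    have key : ∀ q : HeightOneSpectrum (intCl F' v),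
        Ideal.relNorm v.toValuationSubring q.asIdeal = pv v := fun q => by
      have h1 := Ideal.relNorm_eq_pow_of_isMaximal q.asIdeal (pv v)
      rw [inertiaDeg_intCl_eq_one v hdeg' q, pow_one] at h1
      exact h1
    exact key ⟨P, hP.1, hPne⟩
  rw [hconst, Multiset.map_const', Multiset.prod_replicate]

theorem sum_ord_coe_eq_ord_intNorm [Fintype (HeightOneSpectrum (intCl F' v))]
    (hdeg' : ∀ w : Place K F', w.deg = 1) (x : intCl F' v) (hx : x ≠ 0) :
    ∑ q : HeightOneSpectrum (intCl F' v), (placeOf v q).ord (x : F')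
      = v.ord ((Algebra.intNorm v.toValuationSubring (intCl F' v) x : v.toValuationSubring) : F) := by
  have hI : Ideal.span {x} ≠ (⊥ : Ideal (intCl F' v)) := by
    rw [Ne, Ideal.span_singleton_eq_bot]
    exact hx
  have hN : Algebra.intNorm v.toValuationSubring (intCl F' v) x ≠ 0 :=
    Algebra.intNorm_ne_zero.mpr hx
  rw [ord_coe_eq_multiplicity v _ hN, ← Ideal.relNorm_singleton, relNorm_eq_pow v hdeg' _ hI,
    multiplicity_pow_self_of_prime
      (Ideal.prime_of_isPrime (pv_ne_bot v) (IsLocalRing.maximalIdeal.isMaximal _).isPrime),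
    ← sum_count_eq_card v _ hI]
  push_cast
  refine Finset.sum_congr rfl fun q _ => ?_
  rw [ord_placeOf_coe_eq_multiplicity v q x hx, multiplicity_eq_count v q _ hI]

omit [FiniteDimensional F F'] [CharZero F] [Algebra K F'] [IsScalarTower K F F'] [Algebra F F'] in
theorem ord_div' (u : Place K F) {f g : F} (hf : f ≠ 0) (hg : g ≠ 0) :
    u.ord (f / g) = u.ord f - u.ord g := by
  rw [div_eq_mul_inv, u.ord_mul hf (inv_ne_zero hg), u.ord_inv]
  ring

theorem sum_ord_eq_ord_norm_of_mem (hdeg' : ∀ w : Place K F', w.deg = 1)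
    (s : Finset (Place K F')) (hs : ∀ w, w ∈ s ↔ w.restrict F = v)
    (x : intCl F' v) (hx : x ≠ 0) :
    ∑ w ∈ s, w.ord (x : F') = v.ord (Algebra.norm F (x : F')) := by
  let _ : Fintype (HeightOneSpectrum (intCl F' v)) := Fintype.ofFinite _
  have h1 := sum_ord_coe_eq_ord_intNorm v hdeg' x hx
  have h2 : ((Algebra.intNorm v.toValuationSubring (intCl F' v) x : v.toValuationSubring) : F)
      = Algebra.norm F (x : F') :=
    Algebra.algebraMap_intNorm (A := v.toValuationSubring) (K := F) (L := F')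
      (B := intCl F' v) x
  rw [← h2, ← h1]
  symm
  refine Finset.sum_bij (fun q _ => placeOf v q) ?_ ?_ ?_ ?_
  · intro q _
    exact (hs _).mpr (restrict_placeOf v _)
  · intro q _ q' _ h
    exact placeOf_injective v h
  · intro w hw
    obtain ⟨q, hq⟩ := exists_placeOf_eq v w ((hs w).mp hw)
    exact ⟨q, Finset.mem_univ _, hq⟩
  · intro q _
    rfl

/-- **Local norm formula** `∑_{w | v} ord_w(g) = ord_v(N_{F'/F} g)`. -/
theorem sum_ord_eq_ord_norm (hdeg' : ∀ w : Place K F', w.deg = 1)
    (s : Finset (Place K F')) (hs : ∀ w, w ∈ s ↔ w.restrict F = v)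
    (g : F') (hg : g ≠ 0) :
    ∑ w ∈ s, w.ord g = v.ord (Algebra.norm F g) := by
  obtain ⟨a, b, hb, rfl⟩ := IsFractionRing.div_surjective (A := intCl F' v) g
  have hb0 : b ≠ 0 := nonZeroDivisors.ne_zero hb
  have ha0 : a ≠ 0 := by
    rintro rfl
    simp at hg
  have ha' : (a : F') ≠ 0 := fun h => ha0 (Subtype.ext h)
  have hb' : (b : F') ≠ 0 := fun h => hb0 (Subtype.ext h)
  have hcoea : algebraMap (intCl F' v) F' a = (a : F') := rfl
  have hcoeb : algebraMap (intCl F' v) F' b = (b : F') := rfl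
  have hnorm : Algebra.norm F ((a : F') / (b : F'))
      = Algebra.norm F (a : F') / Algebra.norm F (b : F') := by
    rw [eq_div_iff (Algebra.norm_ne_zero_iff.mpr hb'), ← map_mul, div_mul_cancel₀ _ hb']
  rw [hcoea, hcoeb, hnorm,
    ord_div' v (Algebra.norm_ne_zero_iff.mpr ha') (Algebra.norm_ne_zero_iff.mpr hb'),
    ← sum_ord_eq_ord_norm_of_mem v hdeg' s hs a ha0,
    ← sum_ord_eq_ord_norm_of_mem v hdeg' s hs b hb0, ← Finset.sum_sub_distrib]
  refine Finset.sum_congr rfl fun w _ => ?_
  exact ord_div' w ha' hb'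

end Local

end Fermat.Agent.Lib.FF398

end
-- ===== PACK-END Lib/FF398/Local.lean

-- ===== PACK-BEGIN S28/H867/Lower.lean
section




set_option autoImplicit false
noncomputable section
open ModularCurve HahnSeries IntermediateField Polynomial

namespace Fermat.Agent.S28.H867

section Lower

variable (k : Type*) [Field k]

/-- Everything the lower-bound induction needs at level `N`. -/
structure Good (N : ℕ) : Prop where
  ne_zero : N ≠ 0
  modPoly : ∀ p : ℕ, p.Prime → p ∣ N → ∀ [NeZero p], Nonempty (ModPolyData p)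
  prime : ∀ p : ℕ, p.Prime → p ∣ N → ∀ [NeZero p], PrimeLevel k p
  indep : ∀ p : ℕ, p.Prime → p ∣ N → ∀ [NeZero p], LeafI k p
  upper : ∀ M : ℕ, M ∣ N → degE k M ≤ gFun M

variable {k}

theorem Good.of_dvd {N M : ℕ} (h : Good k N) (hMN : M ∣ N) : Good k M where
  ne_zero := fun h0 => h.ne_zero (by rw [h0] at hMN; exact Nat.eq_zero_of_zero_dvd hMN)
  modPoly := fun p hp hpM => h.modPoly p hp (hpM.trans hMN)
  prime := fun p hp hpM => h.prime p hp (hpM.trans hMN)
  indep := fun p hp hpM => h.indep p hp (hpM.trans hMN)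
  upper := fun M' hM' => h.upper M' (hM'.trans hMN)

theorem Good.degE_ne_zero {N : ℕ} (h : Good k N) : degE k N ≠ 0 :=
  H867.degE_ne_zero k N h.ne_zero h.modPoly

variable (k) in
theorem degE_one : degE k 1 = 1 := by
  rw [degE, relfinrank_eq_one_iff]
  show adjoin k (divisorExpansionsC k 1) ≤ jField k
  rw [adjoin_le_iff]
  rintro x ⟨d, hd, hd1, rfl⟩
  have : d = 1 := Nat.dvd_one.mp hd1
  subst this
  rw [qExpand_one_apply]
  exact jq_mem_jField k

variable (k) in
theorem EF_prime_eq (p : ℕ) [NeZero p] (hp : p.Prime) : EF k p = jField k ⊔ jpField k p := by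
  apply le_antisymm
  · show adjoin k (divisorExpansionsC k p) ≤ _
    rw [adjoin_le_iff]
    rintro x ⟨d, hd, hdp, rfl⟩
    rcases (Nat.dvd_prime hp).mp hdp with h1 | h1
    · subst h1
      rw [qExpand_one_apply]
      exact (le_sup_left : jField k ≤ _) (jq_mem_jField k)
    · subst h1
      exact (le_sup_right : jpField k d ≤ _) (jp_mem_jpField k d)
  · refine sup_le (jField_le_EF k p) ?_
    rw [jpField, adjoin_simple_le_iff]
    exact jqModCd_mem_full k p dvd_rfl

theorem Good.degE_prime {p : ℕ} (hp : p.Prime) (h : Good k p) : degE k p = p + 1 := by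
  have : NeZero p := ⟨hp.ne_zero⟩
  rw [degE, EF_prime_eq k p hp]
  exact (h.prime p hp dvd_rfl).deg_j

/-- the (b)-step in `Good` form -/
theorem Good.mul_le {N p : ℕ} (h : Good k N) (hp : p.Prime) (hpN : p ∣ N) :
    p * degE k (N / p) ≤ degE k N := by
  have : NeZero p := ⟨hp.ne_zero⟩
  have hN : N / p * p = N := Nat.div_mul_cancel hpN
  have := degE_mul_ge k (N / p) p (h.prime p hp hpN) (h.indep p hp hpN)
    (by rw [hN]; exact h.degE_ne_zero)
  rwa [hN] at this

theorem Good.tower {N M : ℕ} (h : Good k N) (hMN : M ∣ N) :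
    degE k M * (EF k M).relfinrank (EF k N) = degE k N := by
  have : NeZero N := ⟨h.ne_zero⟩
  have : NeZero M := ⟨(h.of_dvd hMN).ne_zero⟩
  exact relfinrank_mul_relfinrank (jField_le_EF k M) (full_degeneracyC_le k hMN)

/-- For a prime `p ∣ N` with `p ∤ N / p`: if `[E_{N/p} : k(j)] = g(N/p)`, then `[E_N : k(j)]`
is `p · g(N/p)` or `(p+1) · g(N/p) = g(N)`. -/
theorem Good.dichotomy {N p : ℕ} (h : Good k N) (hp : p.Prime) (hpN : p ∣ N)
    (hpM : ¬ p ∣ N / p) (hM : degE k (N / p) = gFun (N / p)) :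
    degE k N = gFun N ∨ degE k N * (p + 1) = p * gFun N := by
  have hN : N / p * p = N := Nat.div_mul_cancel hpN
  have hM0 : N / p ≠ 0 := fun h0 => h.ne_zero (by rw [← hN, h0, zero_mul])
  have hg : gFun N = (p + 1) * gFun (N / p) := by
    conv_lhs => rw [← hN]
    exact gFun_mul_of_not_dvd hM0 hp hpM
  have htower := h.tower (Nat.div_dvd_of_dvd hpN)
  set a := (EF k (N / p)).relfinrank (EF k N) with ha
  have hup := h.upper N dvd_rfl
  have hlow := h.mul_le hp hpN
  rw [hM] at htower hlow
  have hgpos := gFun_pos (N / p)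
  rw [← htower] at hup hlow ⊢
  rw [hg] at hup ⊢
  have ha1 : p ≤ a := by
    rw [mul_comm] at hlow
    exact Nat.le_of_mul_le_mul_left hlow hgpos
  have ha2 : a ≤ p + 1 := by
    rw [mul_comm (p + 1)] at hup
    exact Nat.le_of_mul_le_mul_left hup hgpos
  rcases Nat.lt_or_ge a (p + 1) with h1 | h1
  · right
    have : a = p := by omega
    rw [this]; ring
  · left
    have : a = p + 1 := by omega
    rw [this]; ring

theorem Good.le_degE : ∀ {N : ℕ}, Good k N → gFun N ≤ degE k N := by
  intro N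
  induction N using Nat.strong_induction_on with
  | _ N ih =>
    intro h
    rcases Nat.lt_or_ge 1 N with hN1 | hN1
    swap
    · have : N = 1 := by have := h.ne_zero; omega
      subst this
      rw [gFun_one, degE_one]
    -- `N > 1`
    by_cases hsq : ∃ r : ℕ, r.Prime ∧ r ∣ N ∧ r ∣ N / r
    · obtain ⟨r, hr, hrN, hrM⟩ := hsq
      have hN : N / r * r = N := Nat.div_mul_cancel hrN
      have hM0 : N / r ≠ 0 := fun h0 => h.ne_zero (by rw [← hN, h0, zero_mul])
      have hlt : N / r < N := Nat.div_lt_self (by omega) hr.one_lt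
      have ihM := ih (N / r) hlt (h.of_dvd (Nat.div_dvd_of_dvd hrN))
      calc gFun N = gFun (N / r * r) := by rw [hN]
        _ = r * gFun (N / r) := gFun_mul_of_dvd hM0 hr hrM
        _ ≤ r * degE k (N / r) := Nat.mul_le_mul_left _ ihM
        _ ≤ degE k N := h.mul_le hr hrN
    · simp only [not_exists, not_and] at hsq
      -- first prime
      set p := N.minFac with hp
      have hpp : p.Prime := Nat.minFac_prime (by omega)
      have hpN : p ∣ N := Nat.minFac_dvd N
      have hN : N / p * p = N := Nat.div_mul_cancel hpN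
      rcases Nat.lt_or_ge 1 (N / p) with hM1 | hM1
      swap
      · -- `N = p` is prime
        have hM0 : N / p ≠ 0 := fun h0 => h.ne_zero (by rw [← hN, h0, zero_mul])
        have : N / p = 1 := Nat.le_antisymm hM1 (Nat.one_le_iff_ne_zero.mpr hM0)
        have hNp : N = p := by rw [← hN, this, one_mul]
        have h' : Good k p := hNp ▸ h
        rw [hNp, gFun_prime hpp, h'.degE_prime hpp]
      -- second prime
      set r := (N / p).minFac with hr
      have hrp : r.Prime := Nat.minFac_prime (by omega)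
      have hrM : r ∣ N / p := Nat.minFac_dvd _
      have hrN : r ∣ N := hrM.trans (Nat.div_dvd_of_dvd hpN)
      have hpM : ¬ p ∣ N / p := hsq p hpp hpN
      have hrM' : ¬ r ∣ N / r := hsq r hrp hrN
      have hne : r ≠ p := fun he => hpM (he ▸ hrM)
      have hltp : N / p < N := Nat.div_lt_self (by omega) hpp.one_lt
      have hltr : N / r < N := Nat.div_lt_self (by omega) hrp.one_lt
      have hMp : degE k (N / p) = gFun (N / p) :=
        le_antisymm (h.upper _ (Nat.div_dvd_of_dvd hpN))
          (ih _ hltp (h.of_dvd (Nat.div_dvd_of_dvd hpN)))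
      have hMr : degE k (N / r) = gFun (N / r) :=
        le_antisymm (h.upper _ (Nat.div_dvd_of_dvd hrN))
          (ih _ hltr (h.of_dvd (Nat.div_dvd_of_dvd hrN)))
      rcases h.dichotomy hpp hpN hpM hMp with h1 | h1
      · exact h1.ge
      rcases h.dichotomy hrp hrN hrM' hMr with h2 | h2
      · exact h2.ge
      exfalso
      have hD : degE k N ≠ 0 := h.degE_ne_zero
      have hD' : 0 < degE k N := Nat.pos_of_ne_zero hD
      have key : degE k N * ((p + 1) * r) = degE k N * ((r + 1) * p) := by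
        calc degE k N * ((p + 1) * r) = (degE k N * (p + 1)) * r := by ring
          _ = p * gFun N * r := by rw [h1]
          _ = (r * gFun N) * p := by ring
          _ = (degE k N * (r + 1)) * p := by rw [h2]
          _ = degE k N * ((r + 1) * p) := by ring
      have := Nat.eq_of_mul_eq_mul_left hD' key
      apply hne
      nlinarith

theorem Good.degE_eq {N : ℕ} (h : Good k N) : degE k N = gFun N :=
  le_antisymm (h.upper N dvd_rfl) h.le_degE

end Lower

end Fermat.Agent.S28.H867

end
end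
-- ===== PACK-END S28/H867/Lower.lean

-- ===== PACK-BEGIN S29/H882/FieldDeg.lean
section


/-!
# S29 / MERO (helper882), part 2: generic algebra

* `exists_relation_of_coeffMap_ne_zero`: descent of a NONZERO bivariate relation along a coefficient
  embedding (generalises the monic case of the landed `S24.Deg457`).
* `exists_clear_denominators`: a polynomial over `K(j)` becomes, after multiplication by a nonzero
  element of `K[j]`, the image of a bivariate polynomial.
* `algDeg_of_mem_adjoin`: if every element of a subalgebra `B ∋ j` of `K((q))` is algebraic of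
  degree `≤ n` over `K[j]`, so is every element of the field generated by `B`.
-/

set_option autoImplicit false

noncomputable section

open Polynomial ModularCurve IntermediateField

namespace Fermat.Agent.S29.H882

open Fermat.Agent.S24 Fermat.Agent.S24.Deg457

section Descent

variable {K L : Type*} [Field K] [Field L]

/-- **Descent** of a nonzero relation of degree `≤ n` over `L[ι J]` for `ι a` to a nonzero relation
of degree `≤ n` over `K[J]` for `a`. -/
theorem exists_relation_of_coeffMap_ne_zero (ι : K →+* L) (J a : LaurentSeries K) (n : ℕ)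
    (P : L[X][X]) (hP : P ≠ 0) (hn : P.natDegree ≤ n)
    (h0 : P.eval₂ (evJ (coeffMap ι J)) (coeffMap ι a) = 0) :
    ∃ Q : K[X][X], Q ≠ 0 ∧ Q.natDegree ≤ n ∧ Q.eval₂ (evJ J) a = 0 := by
  classical
  set D : ℕ := P.support.sup fun k => (P.coeff k).natDegree with hD
  have hDle : ∀ k, (P.coeff k).natDegree ≤ D := by
    intro k
    by_cases hk : k ∈ P.support
    · exact Finset.le_sup (f := fun k => (P.coeff k).natDegree) hk
    · rw [notMem_support_iff.mp hk]; simp
  let v : Fin (D + 1) × Fin (n + 1) → LaurentSeries K := fun p => J ^ (p.1 : ℕ) * a ^ (p.2 : ℕ)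
  have hnot : ¬ LinearIndependent K v := by
    intro hv
    have hw := linearIndependent_coeffMap ι v hv
    rw [Fintype.linearIndependent_iff] at hw
    -- a nonzero coefficient of `P`
    have hlc : P.coeff P.natDegree ≠ 0 := by
      rw [coeff_natDegree]; exact leadingCoeff_ne_zero.mpr hP
    have hlc2 : (P.coeff P.natDegree).coeff (P.coeff P.natDegree).natDegree ≠ 0 := by
      rw [coeff_natDegree]; exact leadingCoeff_ne_zero.mpr hlc
    have key := hw (fun p => (P.coeff p.2).coeff p.1) ?_
      (⟨(P.coeff P.natDegree).natDegree, Nat.lt_succ_of_le (hDle _)⟩,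
        ⟨P.natDegree, Nat.lt_succ_of_le hn⟩)
    · exact hlc2 key
    · rw [Fintype.sum_prod_type_right]
      rw [eval₂_eq_sum_range' _ (n := n + 1) (Nat.lt_succ_of_le hn)] at h0
      rw [← h0, Finset.sum_range]
      refine Finset.sum_congr rfl fun k _ => ?_
      rw [evJ_apply, aeval_eq_sum_range' (n := D + 1) (Nat.lt_succ_of_le (hDle _)),
        Finset.sum_range, Finset.sum_mul]
      refine Finset.sum_congr rfl fun i _ => ?_
      simp only [v, map_mul, map_pow]
      rw [hsmul_eq_algebraMap_mul, Algebra.smul_def, mul_assoc]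
  rw [Fintype.not_linearIndependent_iff] at hnot
  obtain ⟨g, hg, p, hp⟩ := hnot
  refine ⟨tablePoly g, ?_, tablePoly_natDegree_le g, ?_⟩
  · intro h
    apply hp
    rw [← tablePoly_coeff_coeff g p.1 p.2, h]
    simp
  · rw [tablePoly_eval₂]
    exact hg

end Descent

section Clear

variable {K M : Type*} [Field K] [Field M] [Algebra K M]

/-- Clearing denominators of a polynomial over `K(j)`. -/
theorem exists_clear_denominators (j : M) (p : Polynomial (IntermediateField.adjoin K {j})) :
    ∃ (t : K[X]) (Q : K[X][X]), aeval (AdjoinSimple.gen K j) t ≠ 0 ∧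
      Q.map ((aeval (AdjoinSimple.gen K j) : K[X] →ₐ[K] K⟮j⟯).toRingHom)
        = C (aeval (AdjoinSimple.gen K j) t) * p := by
  set φ : K[X] →+* K⟮j⟯ := (aeval (AdjoinSimple.gen K j) : K[X] →ₐ[K] K⟮j⟯).toRingHom with hφ
  have hφa : ∀ t : K[X], φ t = aeval (AdjoinSimple.gen K j) t := fun _ => rfl
  induction p using Polynomial.induction_on' with
  | add p q hp hq =>
    obtain ⟨t₁, Q₁, h1, h1'⟩ := hp
    obtain ⟨t₂, Q₂, h2, h2'⟩ := hq
    refine ⟨t₁ * t₂, C t₂ * Q₁ + C t₁ * Q₂, ?_, ?_⟩
    · rw [map_mul]; exact mul_ne_zero h1 h2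
    · rw [Polynomial.map_add, Polynomial.map_mul, Polynomial.map_mul, Polynomial.map_C,
        Polynomial.map_C, h1', h2', hφa, hφa, map_mul, C_mul]
      ring
  | monomial k c =>
    obtain ⟨r, s, hrs⟩ := (IntermediateField.mem_adjoin_simple_iff K (c : M)).mp c.2
    by_cases hs : aeval (AdjoinSimple.gen K j) s = 0
    · -- then `c = 0`
      have hs' : aeval j s = 0 := by
        have := congrArg (algebraMap K⟮j⟯ M) hs
        rwa [← aeval_algebraMap_apply, AdjoinSimple.algebraMap_gen, map_zero] at this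
      have hc : c = 0 := by
        apply Subtype.ext
        rw [hrs, hs', div_zero]; rfl
      refine ⟨1, 0, ?_, ?_⟩
      · rw [map_one]; exact one_ne_zero
      · rw [hc]; simp
    · refine ⟨s, monomial k r, hs, ?_⟩
      rw [Polynomial.map_monomial, C_mul_monomial]
      congr 1
      rw [hφa]
      apply Subtype.ext
      have h1 : ((aeval (AdjoinSimple.gen K j) r : K⟮j⟯) : M) = aeval j r := by
        have := (aeval_algebraMap_apply M (AdjoinSimple.gen K j) r).symm
        rwa [AdjoinSimple.algebraMap_gen] at this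
      have h2 : ((aeval (AdjoinSimple.gen K j) s : K⟮j⟯) : M) = aeval j s := by
        have := (aeval_algebraMap_apply M (AdjoinSimple.gen K j) s).symm
        rwa [AdjoinSimple.algebraMap_gen] at this
      have hs' : aeval j s ≠ 0 := by
        intro h
        apply hs
        apply Subtype.ext
        rw [h2, h]; rfl
      rw [h1]
      show aeval j r = ((aeval (AdjoinSimple.gen K j) s : K⟮j⟯) : M) * (c : M)
      rw [h2, hrs]
      field_simp

end Clear

section Alg

variable {K : Type*} [Field K] [Algebra ℚ K]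

theorem aeval_JK_mem (B : Subalgebra K (LaurentSeries K)) (hJ : JK K ∈ B) (t : K[X]) :
    aeval (JK K) t ∈ B := by
  rw [aeval_def, eval₂_eq_sum_range]
  refine Subalgebra.sum_mem _ fun i _ => ?_
  exact Subalgebra.mul_mem _ (Subalgebra.algebraMap_mem _ _) (Subalgebra.pow_mem _ hJ _)

theorem eval₂_mem_subalgebra (B : Subalgebra K (LaurentSeries K)) (hJ : JK K ∈ B)
    (Q : K[X][X]) {s : LaurentSeries K} (hs : s ∈ B) :
    Q.eval₂ (evJ (JK K)) s ∈ B := by
  rw [eval₂_eq_sum_range]
  refine Subalgebra.sum_mem _ fun i _ => ?_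
  exact Subalgebra.mul_mem _ (aeval_JK_mem B hJ _) (Subalgebra.pow_mem _ hs _)

/-- a nonzero algebraic element of `B` has an "inverse up to a polynomial in `j`" in `B`. -/
theorem exists_mul_eq_aeval_subalgebra (B : Subalgebra K (LaurentSeries K)) (hJ : JK K ∈ B)
    {n : ℕ} {s : LaurentSeries K} (hs : s ∈ B) (hs0 : s ≠ 0)
    (ha : AlgDeg K n s) : ∃ g ∈ B, ∃ t : K[X], t ≠ 0 ∧ s * g = aeval (JK K) t := by
  obtain ⟨Q, hQ0, -, hQ⟩ := ha
  have key : ∀ m : ℕ, ∀ Q : K[X][X], Q.natDegree ≤ m → Q ≠ 0 → Q.eval₂ (evJ (JK K)) s = 0 →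
      ∃ Q₁ : K[X][X], Q₁.coeff 0 ≠ 0 ∧ Q₁.eval₂ (evJ (JK K)) s = 0 := by
    intro m
    induction m with
    | zero =>
      intro Q hdeg hQ0 hQ
      refine ⟨Q, ?_, hQ⟩
      intro h0
      apply hQ0
      rw [eq_C_of_natDegree_le_zero hdeg, h0, map_zero]
    | succ m ih =>
      intro Q hdeg hQ0 hQ
      by_cases h0 : Q.coeff 0 = 0
      · have hdiv : Q = divX Q * X := by
          conv_lhs => rw [← divX_mul_X_add Q, h0, map_zero, add_zero]
        have hd0 : divX Q ≠ 0 := by
          intro h; apply hQ0; rw [hdiv, h, zero_mul]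
        have hev : (divX Q).eval₂ (evJ (JK K)) s = 0 := by
          rw [hdiv, eval₂_mul, eval₂_X] at hQ
          rcases mul_eq_zero.mp hQ with h | h
          · exact h
          · exact absurd h hs0
        refine ih (divX Q) ?_ hd0 hev
        rw [natDegree_divX_eq_natDegree_tsub_one]
        omega
      · exact ⟨Q, h0, hQ⟩
  obtain ⟨Q₁, h0, hQ₁⟩ := key Q.natDegree Q le_rfl hQ0 hQ
  refine ⟨-(divX Q₁).eval₂ (evJ (JK K)) s, Subalgebra.neg_mem _ (eval₂_mem_subalgebra B hJ _ hs),
    Q₁.coeff 0, h0, ?_⟩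
  have hsplit : Q₁.eval₂ (evJ (JK K)) s
      = (divX Q₁).eval₂ (evJ (JK K)) s * s + aeval (JK K) (Q₁.coeff 0) := by
    conv_lhs => rw [← divX_mul_X_add Q₁]
    rw [eval₂_add, eval₂_mul, eval₂_X, eval₂_C, evJ_apply]
  rw [hQ₁] at hsplit
  linear_combination hsplit

/-- If every element of the subalgebra `B ∋ j` is algebraic of degree `≤ n` over `K[j]`, so is
every element of the field generated by `B`. -/
theorem algDeg_of_mem_adjoin (B : Subalgebra K (LaurentSeries K)) (hJ : JK K ∈ B) {n : ℕ}
    (hB : ∀ b ∈ B, AlgDeg K n b) {x : LaurentSeries K}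
    (hx : x ∈ IntermediateField.adjoin K (B : Set (LaurentSeries K))) : AlgDeg K n x := by
  rw [IntermediateField.mem_adjoin_iff_div] at hx
  obtain ⟨r, hr, s, hs, rfl⟩ := hx
  rw [Algebra.adjoin_eq] at hr hs
  by_cases hs0 : s = 0
  · subst hs0
    rw [div_zero]
    exact hB 0 (Subalgebra.zero_mem _)
  · obtain ⟨g, hg, t, ht, hst⟩ := exists_mul_eq_aeval_subalgebra B hJ hs hs0 (hB s hs)
    refine AlgDeg.of_mul_eq (a := r * g) ht ?_ (hB _ (Subalgebra.mul_mem _ hr hg))
    rw [← hst]
    field_simp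

end Alg

end Fermat.Agent.S29.H882

end
end
-- ===== PACK-END S29/H882/FieldDeg.lean

-- ===== PACK-BEGIN S28/H568/Series.lean
section



/-!
# S28 / H568 — formal preliminaries on `LaurentSeries ℂ`

* order / leading coefficient of integer powers and finite products;
* the subring of Laurent series with coefficients in a subring `C ⊆ ℂ`;
* `InfExp` for integer powers and finite products.
-/

set_option autoImplicit false

noncomputable section

open HahnSeries ModularCurve UpperHalfPlane Complex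
open scoped Real

namespace Fermat.Agent.S28.H568

open Fermat.Agent.S24

/-! ### order and leading coefficient -/

section Order

variable {K : Type*} [Field K]

theorem order_inv' {x : LaurentSeries K} (hx : x ≠ 0) : (x⁻¹).order = -x.order := by
  have h := HahnSeries.order_mul hx (inv_ne_zero hx)
  rw [mul_inv_cancel₀ hx, HahnSeries.order_one] at h
  linarith

theorem leadingCoeff_inv' (x : LaurentSeries K) : (x⁻¹).leadingCoeff = x.leadingCoeff⁻¹ := by
  rcases eq_or_ne x 0 with rfl | hx
  · simp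
  · have h := HahnSeries.leadingCoeff_mul x x⁻¹
    rw [mul_inv_cancel₀ hx, HahnSeries.leadingCoeff_one] at h
    exact eq_inv_of_mul_eq_one_right h.symm

theorem order_pow' {x : LaurentSeries K} (hx : x ≠ 0) (n : ℕ) :
    (x ^ n).order = n * x.order := by
  induction n with
  | zero => simp
  | succ n ih =>
    rw [pow_succ, HahnSeries.order_mul (pow_ne_zero n hx) hx, ih]
    push_cast
    ring

theorem leadingCoeff_pow' (x : LaurentSeries K) (n : ℕ) :
    (x ^ n).leadingCoeff = x.leadingCoeff ^ n := by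
  induction n with
  | zero => simp
  | succ n ih => rw [pow_succ, HahnSeries.leadingCoeff_mul, ih, pow_succ]

theorem order_zpow' {x : LaurentSeries K} (hx : x ≠ 0) (r : ℤ) :
    (x ^ r).order = r * x.order := by
  obtain ⟨n, rfl | rfl⟩ := r.eq_nat_or_neg
  · rw [zpow_natCast, order_pow' hx]
  · rw [zpow_neg, zpow_natCast, order_inv' (pow_ne_zero n hx), order_pow' hx]
    ring

theorem leadingCoeff_zpow' (x : LaurentSeries K) (r : ℤ) :
    (x ^ r).leadingCoeff = x.leadingCoeff ^ r := by
  obtain ⟨n, rfl | rfl⟩ := r.eq_nat_or_neg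
  · rw [zpow_natCast, zpow_natCast, leadingCoeff_pow']
  · rw [zpow_neg, zpow_natCast, zpow_neg, zpow_natCast, leadingCoeff_inv', leadingCoeff_pow']

theorem order_prod' {ι : Type*} (s : Finset ι) (f : ι → LaurentSeries K)
    (hf : ∀ i ∈ s, f i ≠ 0) : (∏ i ∈ s, f i).order = ∑ i ∈ s, (f i).order := by
  classical
  induction s using Finset.induction_on with
  | empty => simp
  | insert a s ha ih =>
    rw [Finset.prod_insert ha, Finset.sum_insert ha,
      HahnSeries.order_mul (hf a (Finset.mem_insert_self a s))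
        (Finset.prod_ne_zero_iff.mpr fun i hi => hf i (Finset.mem_insert_of_mem hi)),
      ih fun i hi => hf i (Finset.mem_insert_of_mem hi)]

theorem leadingCoeff_prod' {ι : Type*} (s : Finset ι) (f : ι → LaurentSeries K) :
    (∏ i ∈ s, f i).leadingCoeff = ∏ i ∈ s, (f i).leadingCoeff := by
  classical
  induction s using Finset.induction_on with
  | empty => simp
  | insert a s ha ih =>
    rw [Finset.prod_insert ha, Finset.prod_insert ha, HahnSeries.leadingCoeff_mul, ih]

end Order

/-! ### series with coefficients in a subring -/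

section Coeff

variable (C : Subring ℂ)

/-- Laurent series over `ℂ` all of whose coefficients lie in the subring `C`. -/
def coeffSubring : Subring (LaurentSeries ℂ) := (coeffMap C.subtype).range

variable {C}

theorem mem_coeffSubring_iff {φ : LaurentSeries ℂ} :
    φ ∈ coeffSubring C ↔ ∀ n, φ.coeff n ∈ C := by
  constructor
  · rintro ⟨ψ, rfl⟩ n
    rw [coeffMap_coeff]
    exact (ψ.coeff n).2
  · intro h
    refine ⟨⟨fun n => ⟨φ.coeff n, h n⟩, φ.isPWO_support.mono fun n hn => ?_⟩, ?_⟩
    · simp only [Function.mem_support, ne_eq] at hn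
      rw [mem_support]
      intro h0
      exact hn (Subtype.ext h0)
    · ext n
      rw [coeffMap_coeff]
      rfl

theorem C_mem_coeffSubring {c : ℂ} (hc : c ∈ C) : (HahnSeries.C c : LaurentSeries ℂ) ∈
    coeffSubring C := by
  rw [mem_coeffSubring_iff]
  intro n
  rw [C_apply]
  by_cases hn : n = 0
  · subst hn; simpa using hc
  · rw [coeff_single_of_ne hn]; exact C.zero_mem

theorem qExpand_mem_coeffSubring (e : ℕ) [NeZero e] {φ : LaurentSeries ℂ}
    (hφ : φ ∈ coeffSubring C) : qExpand ℂ e φ ∈ coeffSubring C := by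
  rw [mem_coeffSubring_iff] at hφ ⊢
  intro n
  by_cases hn : (e : ℤ) ∣ n
  · obtain ⟨k, rfl⟩ := hn
    rw [qExpand_coeff_mul]
    exact hφ k
  · rw [qExpand_coeff_of_not_dvd e _ hn]
    exact C.zero_mem

theorem infTwist_mem_coeffSubring (u : ℂˣ) (hu : (u : ℂ) ∈ C) (hu' : ((u⁻¹ : ℂˣ) : ℂ) ∈ C)
    {φ : LaurentSeries ℂ} (hφ : φ ∈ coeffSubring C) : infTwist u φ ∈ coeffSubring C := by
  rw [mem_coeffSubring_iff] at hφ ⊢
  intro n
  rw [infTwist_coeff]
  refine C.mul_mem (hφ n) ?_
  obtain ⟨m, rfl | rfl⟩ := n.eq_nat_or_neg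
  · rw [zpow_natCast, Units.val_pow_eq_pow_val]
    exact C.pow_mem hu m
  · rw [zpow_neg, zpow_natCast, ← inv_pow, Units.val_pow_eq_pow_val]
    exact C.pow_mem hu' m

theorem coeffMap_int_mem_coeffSubring (ψ : LaurentSeries ℤ) :
    coeffMap (Int.castRingHom ℂ) ψ ∈ coeffSubring C := by
  rw [mem_coeffSubring_iff]
  intro n
  rw [coeffMap_coeff]
  exact intCast_mem C _

theorem leadingCoeff_mem_of_mem_coeffSubring {φ : LaurentSeries ℂ} (hφ : φ ∈ coeffSubring C) :
    φ.leadingCoeff ∈ C := by
  rw [leadingCoeff_eq]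
  exact mem_coeffSubring_iff.mp hφ _

end Coeff

/-! ### `InfExp` for powers and products -/

section Exp

variable {N : ℕ}

theorem InfExp.pow' {f : ℍ → ℂ} {φ : LaurentSeries ℂ} (hf : InfExp N f φ) (n : ℕ) :
    InfExp N (fun τ => f τ ^ n) (φ ^ n) := by
  induction n with
  | zero => simpa using (InfExp.one (N := N))
  | succ n ih =>
    have := ih.mul hf
    simpa [pow_succ] using this

theorem InfExp.zpow' {f : ℍ → ℂ} {φ ψ : LaurentSeries ℂ} (hf : InfExp N f φ)
    (hg : InfExp N (fun τ => (f τ)⁻¹) ψ) (hφψ : φ * ψ = 1) (r : ℤ) :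
    InfExp N (fun τ => f τ ^ r) (φ ^ r) := by
  have hψ : ψ = φ⁻¹ := eq_inv_of_mul_eq_one_right hφψ
  obtain ⟨n, rfl | rfl⟩ := r.eq_nat_or_neg
  · simpa using InfExp.pow' hf n
  · have := InfExp.pow' hg n
    rw [hψ] at this
    simpa [zpow_neg, inv_pow] using this

theorem InfExp.prod' {ι : Type*} (s : Finset ι) {f : ι → ℍ → ℂ} {φ : ι → LaurentSeries ℂ}
    (hf : ∀ i ∈ s, InfExp N (f i) (φ i)) :
    InfExp N (fun τ => ∏ i ∈ s, f i τ) (∏ i ∈ s, φ i) := by
  classical
  induction s using Finset.induction_on with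
  | empty => simpa using (InfExp.one (N := N))
  | insert a s ha ih =>
    have h1 := hf a (Finset.mem_insert_self a s)
    have h2 := ih fun i hi => hf i (Finset.mem_insert_of_mem hi)
    have := h1.mul h2
    simpa [Finset.prod_insert ha] using this

end Exp

end Fermat.Agent.S28.H568

end
end
-- ===== PACK-END S28/H568/Series.lean

-- ===== PACK-BEGIN S29/H222/ESKInertia.lean
section
/-
S29 / helper222 — piece ESK-U: inertia at `A` acts trivially on `J₀(N)(ℚ̄)[m]`, from
`S18.CoreStatement N A m` and the Prelude's `PrincipalGeneratedByIntegral`.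

Proof: `x = [D]`, `m D = div U₁ - div U₂` (`U₁, U₂` integral).  For `τ` in the inertia group put
`V₁ = τU₁ · U₂`, `V₂ = U₁ · τU₂`; they have the same reduction, and `div V₁ - div V₂ = m (τD - D)`.
CORE gives `V₁ = c y^m V₂`, hence `τD - D = div y`.
-/


set_option autoImplicit false
set_option linter.style.haveILetI false

noncomputable section

namespace Fermat.Agent.S29.H222

open ModularCurve AlgebraicCurve HahnSeries IsLocalRing
open Fermat.Agent.S18 (Qb IsInt toF CoreStatement)

variable {A : ValuationSubring Qb} {N : ℕ}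

/-- `m`-torsion classes: `m • D` is principal. -/
theorem smul_mem_principal_of_torsion {m : ℕ}
    (D : Divisor.degZero (K := Qb) (F := modularFunctionFieldBar N))
    (hx : (m : ℤ) • (Pic0.mk D : JZero N) = 0) :
    (m : ℤ) • (D : Divisor Qb (modularFunctionFieldBar N))
      ∈ Divisor.principal (K := Qb) (F := modularFunctionFieldBar N) := by
  have hx' : ((m : ℤ) • D : Divisor.degZero (K := Qb) (F := modularFunctionFieldBar N)) ∈
      (Divisor.principal (K := Qb) (F := modularFunctionFieldBar N)).addSubgroupOf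
        (Divisor.degZero (K := Qb) (F := modularFunctionFieldBar N)) := by
    have : Pic0.mk ((m : ℤ) • D) = 0 := hx
    exact (QuotientAddGroup.eq_zero_iff _).mp this
  rw [AddSubgroup.mem_addSubgroupOf] at hx'
  simpa using hx'

/-- Two classes are equal as soon as the difference of the divisors is the divisor of a
function. -/
theorem pic0_mk_eq_of_isDivOf
    (D D' : Divisor.degZero (K := Qb) (F := modularFunctionFieldBar N))
    {y : modularFunctionFieldBar N} (hy : y ≠ 0)
    (h : IsDivOf (K := Qb) y ((D' : Divisor Qb (modularFunctionFieldBar N))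
      - (D : Divisor Qb (modularFunctionFieldBar N)))) :
    (Pic0.mk D' : JZero N) = Pic0.mk D := by
  symm
  refine QuotientAddGroup.eq.mpr ?_
  rw [AddSubgroup.mem_addSubgroupOf]
  refine ⟨y, hy, fun v => ?_⟩
  have := h v
  rw [← this]
  simp [sub_eq_neg_add]

theorem decK_eq_self_of_mem_inertia {g : A.decompositionSubgroup ℚ}
    (hg : g ∈ A.inertiaSubgroup ℚ) (x : ResidueField A) : decK g x = x := by
  have h1 := MonoidHom.mem_ker.mp hg
  exact congrArg (fun e : RingAut (ResidueField A) => e x) h1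

theorem coeffMap_decK_of_mem_inertia {g : A.decompositionSubgroup ℚ}
    (hg : g ∈ A.inertiaSubgroup ℚ) (x : LaurentSeries (ResidueField A)) :
    coeffMap (decK g) x = x := by
  ext n
  rw [coeffMap_coeff, decK_eq_self_of_mem_inertia hg]

/-- **ESK-U.** -/
theorem esk_inertia : ESKInertiaStatement := by
  intro N _ m hm A hcore hpgi τ hτ x hx
  obtain ⟨g, hg, rfl⟩ := hτ
  obtain ⟨D, rfl⟩ := Pic0.mk_surjective x
  obtain ⟨U₁, U₂, h₁, h₂, D₁, D₂, hd₁, hd₂, hDD⟩ :=
    exists_isInt_of_principal hpgi (smul_mem_principal_of_torsion D hx)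
  set G := arithmeticGalois (modularFunctionFieldFull N)
    (((A.decompositionSubgroup ℚ).subtype g : Qb ≃ₐ[ℚ] Qb)) with hG
  have hV₁ : IsInt A N (galA g U₁ * U₂) := isInt_mul (isInt_galA g h₁) h₂
  have hV₂ : IsInt A N (U₁ * galA g U₂) := isInt_mul h₁ (isInt_galA g h₂)
  have hred : coeffMap (residue A) (galA g U₁ * U₂) = coeffMap (residue A) (U₁ * galA g U₂) := by
    rw [map_mul, map_mul, coeffMap_residue_galA, coeffMap_residue_galA,
      coeffMap_decK_of_mem_inertia hg, coeffMap_decK_of_mem_inertia hg]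
  have hgd₁ : IsDivOf (toF (isInt_galA g h₁)) (G • D₁) := by
    rw [toF_galA]; exact hd₁.smul G
  have hgd₂ : IsDivOf (toF (isInt_galA g h₂)) (G • D₂) := by
    rw [toF_galA]; exact hd₂.smul G
  have hdV₁ : IsDivOf (toF hV₁) (G • D₁ + D₂) := by
    rw [toF_mul (isInt_galA g h₁) h₂]
    exact hgd₁.mul (toF_ne_zero _) (toF_ne_zero _) hd₂
  have hdV₂ : IsDivOf (toF hV₂) (D₁ + G • D₂) := by
    rw [toF_mul h₁ (isInt_galA g h₂)]
    exact hd₁.mul (toF_ne_zero _) (toF_ne_zero _) hgd₂
  have hkey : ∀ v : Place Qb (modularFunctionFieldBar N),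
      (m : ℤ) * (G • (D : Divisor Qb (modularFunctionFieldBar N)) - D) v
        = v.ord (toF hV₁) - v.ord (toF hV₂) := by
    intro v
    rw [← hdV₁ v, ← hdV₂ v]
    have e1 : ((m : ℤ) • (D : Divisor Qb (modularFunctionFieldBar N))) v = D₁ v - D₂ v := by
      rw [hDD, Finsupp.sub_apply]
    have e2 : ((m : ℤ) • (D : Divisor Qb (modularFunctionFieldBar N))) (G⁻¹ • v)
        = D₁ (G⁻¹ • v) - D₂ (G⁻¹ • v) := by
      rw [hDD, Finsupp.sub_apply]
    rw [Finsupp.smul_apply, smul_eq_mul] at e1 e2
    simp only [Finsupp.sub_apply, Finsupp.add_apply, SemilinearAut.divisor_smul_apply]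
    linear_combination e2 - e1
  have hord : ∀ v : Place Qb (modularFunctionFieldBar N),
      (m : ℤ) ∣ v.ord (toF hV₁) - v.ord (toF hV₂) := fun v => ⟨_, (hkey v).symm⟩
  obtain ⟨c, y, hc, hy, hcy⟩ := hcore _ _ hV₁ hV₂ hred hord
  have hE := isDivOf_of_eq_const_mul_pow hm hc hy (toF_ne_zero hV₂) hcy hkey
  show (((A.decompositionSubgroup ℚ).subtype g : Qb ≃ₐ[ℚ] Qb)) • (Pic0.mk D : JZero N) = Pic0.mk D
  rw [galois_smul_pic0_def, SemilinearAut.pic0_smul_mk]
  exact pic0_mk_eq_of_isDivOf D _ hy hE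

end Fermat.Agent.S29.H222

end
end
-- ===== PACK-END S29/H222/ESKInertia.lean

-- ===== PACK-BEGIN S18/B12/H33/Regular.lean
section



/-!
# S18 b2.5 (helper33): OUTPUT O1 — `B2RegularStatement` from the pieces

`B2RegularStatement` (special fibre of the normal model is regular = `H754.RegularAlong (C w)`)
from `B2CoreAbsStatement` (heart), A0 (regular sequence), A8 (normality from discriminant bounds),
A9 (regular along a Dedekind fibre) and A1 (instantiation `P = R[X]`).
-/

set_option autoImplicit false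

noncomputable section

namespace Fermat.Agent.S18.B12.H33

open Polynomial

universe u v

section Abs

variable {P : Type u} [CommRing P] [IsDomain P] [IsIntegrallyClosed P]
  {B : Type v} [CommRing B] [IsDomain B] [IsIntegrallyClosed B] [Algebra P B]
  [Module.Finite P B] [Module.IsTorsionFree P B]

/-- `B/wB` is torsion-free over `P/(w)` (from A0). -/
theorem isTorsionFree_quotient (hA0 : RegSeqAbsStatement.{u, v}) (w : P) (hw : Prime w) :
    Module.IsTorsionFree (P ⧸ Ideal.span {w}) (B ⧸ (Ideal.span {w}).map (algebraMap P B)) := by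
  haveI : IsDomain (P ⧸ Ideal.span {w}) := by
    rw [Ideal.Quotient.isDomain_iff_prime]
    exact (Ideal.span_singleton_prime hw.ne_zero).mpr hw
  haveI : Algebra.IsIntegral P B := inferInstance
  have hJ : (Ideal.span {w}).map (algebraMap P B) = Ideal.span {algebraMap P B w} := by
    rw [Ideal.map_span, Set.image_singleton]
  refine Module.IsTorsionFree.of_smul_eq_zero fun a b hab => ?_
  obtain ⟨a, rfl⟩ := Ideal.Quotient.mk_surjective a
  obtain ⟨b, rfl⟩ := Ideal.Quotient.mk_surjective b
  by_cases ha : w ∣ a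
  · left
    exact Ideal.Quotient.eq_zero_iff_mem.mpr (Ideal.mem_span_singleton.mpr ha)
  · right
    rw [Ideal.Quotient.mk_smul_mk_quotient_map_quotient, Ideal.Quotient.eq_zero_iff_mem, hJ,
      Ideal.mem_span_singleton] at hab
    obtain ⟨c, hc⟩ := hab
    obtain ⟨b'', hb, -⟩ := hA0 P B a w hw ha b c hc
    rw [Ideal.Quotient.eq_zero_iff_mem, hJ, Ideal.mem_span_singleton]
    exact ⟨b'', hb⟩

end Abs

end Fermat.Agent.S18.B12.H33

namespace Fermat.Agent.S18.B12.H33

open Polynomial

universe u v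

/-- In `P/(w)`, the image of `p` is prime if `(w, p)` is maximal and `w ∤ p`. -/
theorem prime_mk_of_isMaximal {P : Type u} [CommRing P] [IsDomain P] (w p : P) (hw : Prime w)
    (hmax : (Ideal.span {w, p}).IsMaximal) (hwp : ¬ w ∣ p) :
    Prime (Ideal.Quotient.mk (Ideal.span {w}) p) := by
  haveI : IsDomain (P ⧸ Ideal.span {w}) := by
    rw [Ideal.Quotient.isDomain_iff_prime]
    exact (Ideal.span_singleton_prime hw.ne_zero).mpr hw
  have hne : Ideal.Quotient.mk (Ideal.span {w}) p ≠ 0 := by
    intro h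
    exact hwp (Ideal.mem_span_singleton.mp (Ideal.Quotient.eq_zero_iff_mem.mp h))
  rw [← Ideal.span_singleton_prime hne]
  have hcomap : Ideal.comap (Ideal.Quotient.mk (Ideal.span {w}))
      (Ideal.span {Ideal.Quotient.mk (Ideal.span {w}) p}) = Ideal.span {w, p} :=
    (span_pair_eq_comap w p).symm
  have hmap : Ideal.span {Ideal.Quotient.mk (Ideal.span {w}) p}
      = Ideal.map (Ideal.Quotient.mk (Ideal.span {w})) (Ideal.span {w, p}) := by
    rw [← hcomap, Ideal.map_comap_of_surjective _ Ideal.Quotient.mk_surjective]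
  rw [hmap]
  rcases Ideal.map_eq_top_or_isMaximal_of_surjective (Ideal.Quotient.mk (Ideal.span {w}))
    Ideal.Quotient.mk_surjective hmax with h | h
  · exfalso
    rw [← hmap] at h
    have : Ideal.span {w, p} = ⊤ := by
      rw [← hcomap, h, Ideal.comap_top]
    exact hmax.ne_top this
  · exact h.isPrime

theorem b2Regular_of_pieces
    (hcore : B2CoreAbsStatement.{u, v}) (hA0 : RegSeqAbsStatement.{u, v})
    (hA8 : IntClosedOfDiscrStatement.{u, v}) (hA9 : RegularAlongOfDedekindStatement.{v})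
    (hA1 : PolyInstStatement.{u}) : B2RegularStatement.{u, v} := by
  intro R _ _ _ _ w hw B _ _ _ _ _ _ hdom hsep S hS hNC 𝔪 h𝔪 hw𝔪
  obtain ⟨hCw, hΛ, hΛ₀, hℚ, hc⟩ := hA1 R w hw
  refine hA9 B (algebraMap R[X] B (C w)) ?_ 𝔪 h𝔪 hw𝔪
  have hJ : (Ideal.span {(C w : R[X])}).map (algebraMap R[X] B)
      = Ideal.span {algebraMap R[X] B (C w)} := by
    rw [Ideal.map_span, Set.image_singleton]
  rw [← hJ]
  -- instances on the special fibre
  haveI hJprime : ((Ideal.span {(C w : R[X])}).map (algebraMap R[X] B)).IsPrime := by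
    rw [hJ]; exact (Ideal.span_singleton_prime hdom.ne_zero).mpr hdom
  haveI := hΛ
  haveI : IsDomain (R[X] ⧸ Ideal.span {(C w : R[X])}) := by
    rw [Ideal.Quotient.isDomain_iff_prime]
    exact (Ideal.span_singleton_prime hCw.ne_zero).mpr hCw
  haveI tf := isTorsionFree_quotient (B := B) hA0 (C w : R[X]) hCw
  haveI : Module.Finite (R[X] ⧸ Ideal.span {(C w : R[X])})
      (B ⧸ (Ideal.span {(C w : R[X])}).map (algebraMap R[X] B)) :=
    Module.Finite.of_restrictScalars_finite R[X] _ _
  haveI : Module.Free (R[X] ⧸ Ideal.span {(C w : R[X])})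
      (B ⧸ (Ideal.span {(C w : R[X])}).map (algebraMap R[X] B)) :=
    Module.free_of_finite_type_torsion_free'
  let bb := Module.finBasis (R[X] ⧸ Ideal.span {(C w : R[X])})
      (B ⧸ (Ideal.span {(C w : R[X])}).map (algebraMap R[X] B))
  -- translate the hypotheses
  classical
  have hS1' : ∀ s ∈ S.image (fun c => (X - C c : R[X])), Prime s ∧ ¬ Associated s (C w) ∧
      (Ideal.span {(C w : R[X]), s}).IsMaximal ∧
      IsPrincipalIdealRing (R[X] ⧸ Ideal.span {s}) := by
    intro s hs
    obtain ⟨c, -, rfl⟩ := Finset.mem_image.mp hs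
    obtain ⟨h1, h2, h3, h4, -⟩ := hc c
    exact ⟨h1, h2, h3, h4⟩
  have hS2' : ∀ s ∈ S.image (fun c => (X - C c : R[X])),
      ∀ s' ∈ S.image (fun c => (X - C c : R[X])), s ≠ s' →
      s' ∉ Ideal.span {(C w : R[X]), s} := by
    intro s hs s' hs' hne hmem
    obtain ⟨c, hcS, rfl⟩ := Finset.mem_image.mp hs
    obtain ⟨c', hcS', rfl⟩ := Finset.mem_image.mp hs'
    have hcc : c ≠ c' := fun h => hne (by rw [h])
    exact (hc c).2.2.2.2 c' hmem (hS c hcS c' hcS' hcc)
  have hNC' : ∀ π : R[X], Prime π → ¬ Associated π (C w) →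
      (∀ s ∈ S.image (fun c => (X - C c : R[X])), ¬ Associated π s) →
      (Ideal.span {algebraMap R[X] B π}).IsRadical := by
    intro π hπ hπw hπS
    exact hNC π hπ hπw (fun c hcS => hπS _ (Finset.mem_image_of_mem _ hcS))
  have hcore' := hcore R[X] (C w) hCw hΛ hΛ₀ hℚ B hsep (S.image (fun c => (X - C c : R[X])))
    hS1' hS2' hNC'
  -- a prime of `Λ`
  obtain ⟨h01, h02, h03, -, -⟩ := hc 0
  have hw0 : ¬ (C w : R[X]) ∣ X - C 0 := by
    intro hdvd
    obtain ⟨r, hr⟩ := hdvd
    rcases h01.irreducible.isUnit_or_isUnit hr with h | h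
    · exact hCw.not_unit h
    · exact h02 ⟨h.unit⁻¹, by rw [hr, mul_assoc, IsUnit.mul_val_inv, mul_one]⟩
  have ht₀ := prime_mk_of_isMaximal (C w : R[X]) (X - C 0) hCw h03 hw0
  have hdisc := (hcore' _ ht₀ _ bb).1
  haveI : IsIntegrallyClosed (B ⧸ (Ideal.span {(C w : R[X])}).map (algebraMap R[X] B)) :=
    hA8 _ _ _ bb hdisc (fun t ht => (hcore' t ht _ bb).2)
  haveI : IsNoetherianRing B :=
    isNoetherian_of_tower R[X] (isNoetherian_of_isNoetherianRing_of_finite R[X] B)
  haveI : Ring.DimensionLEOne (B ⧸ (Ideal.span {(C w : R[X])}).map (algebraMap R[X] B)) :=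
    Ring.DimensionLEOne.of_isIntegral (R[X] ⧸ Ideal.span {(C w : R[X])}) _
  exact { }

end Fermat.Agent.S18.B12.H33

end
end
-- ===== PACK-END S18/B12/H33/Regular.lean

-- ===== PACK-BEGIN S18/H394/KummerRegular.lean
section




/-!
# S18, Route K (helper394): typed core of `node_alg` (prime `m`)

Setting of `H394/KummerCharts.lean` (= `H138/Connected.lean`): `R` noetherian local with `R[X]`
integrally closed, `F ⊇ R` a field of characteristic `0`, `x` transcendental, `F` finite over
`baseField R x`, `R` integrally closed in `F`; charts `B₀ = chart R {x}`, `B₁ = chart R {x⁻¹}`.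

**Theorem `kummer_charts_of_regular`.**  Let `m` be a prime invertible in `R`, `w ∈ R`, `u ∈ Fˣ`.
Assume on each chart `B ∈ {B₀, B₁}`:
* `w` is prime in `B`                      (q-expansion principle),
* `H754.RegularAlong w`                    (b2: the special fibre is regular = `B12.H33.b2Regular`),
* `H754.OneModPi w u`                      (`u ≡ 1 mod w`),
* `H754.DivisibleDivisor B m u`            (`m ∣ div u`).
Then `u = r ^ a * y ^ m` with `r ∈ R ∖ {0}`, `a ∈ ℤ`, `y ∈ F`.

Proof: `H214.local_existence` (LE) + `H394.kummer_charts_prime` (graded Kummer algebra + b5).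
No Kummer extension field, no roots of unity, no enlargement of constants.
-/

set_option autoImplicit false
set_option linter.style.haveILetI false

namespace Fermat.Agent.S18.H394

open Polynomial
open Fermat.Agent.S18.H138 (chart baseField)

section Regular

variable {R : Type*} [CommRing R] {F : Type*} [Field F] [Algebra R F]
variable [IsNoetherianRing R] [IsIntegrallyClosed R[X]] [CharZero F]

/-- `w ∤ x` in the chart `B₀`. -/
theorem not_dvd_coord (hinjR : Function.Injective (algebraMap R F)) {x : F}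
    (hx : Transcendental R x) (w : R) (hw : ¬ IsUnit w) (hw0 : w ≠ 0)
    (X₀ : chart R ({x} : Set F)) (hX₀ : (X₀ : F) = x) :
    ¬ algebraMap R (chart R ({x} : Set F)) w ∣ X₀ := by
  intro h
  obtain ⟨c, hc, h⟩ := (subalgebra_dvd_iff _ w X₀).mp h
  rw [hX₀] at h
  have := dvd_coeff_of_aeval_eq_mul hx hinjR w hw0 X hc (by rw [aeval_X]; exact h) 1
  rw [coeff_X_one] at this
  exact hw (isUnit_of_dvd_one this)

/-- The saturation property of the overlap `M` (hypothesis `hsat` of `H214.local_existence`). -/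
theorem chart_saturated (hinjR : Function.Injective (algebraMap R F)) {x : F}
    (hx : Transcendental R x) (w : R)
    (hw₀ : Prime (algebraMap R (chart R ({x} : Set F)) w))
    (hw₁ : Prime (algebraMap R (chart R ({x⁻¹} : Set F)) w))
    (f : F) (s₀ : chart R ({x} : Set F)) (hs₀ : ¬ algebraMap R (chart R ({x} : Set F)) w ∣ s₀)
    (s₁ : chart R ({x⁻¹} : Set F)) (hs₁ : ¬ algebraMap R (chart R ({x⁻¹} : Set F)) w ∣ s₁)
    (h1 : (s₀ : F) * (s₁ : F) * f ∈ chart R ({x, x⁻¹} : Set F))
    (h2 : algebraMap R F w * f ∈ chart R ({x, x⁻¹} : Set F)) :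
    f ∈ chart R ({x, x⁻¹} : Set F) := by
  have hx0 : x ≠ 0 := H138.ne_zero_of_transcendental hx
  have h0M : (chart R ({x} : Set F)) ≤ (chart R ({x, x⁻¹} : Set F)) := H138.chart_mono (by simp)
  have h1M : (chart R ({x⁻¹} : Set F)) ≤ (chart R ({x, x⁻¹} : Set F)) := H138.chart_mono (by simp)
  have hxB0 : x ∈ (chart R ({x} : Set F)) := H138.mem_chart_of_mem rfl
  have hxB1 : x⁻¹ ∈ (chart R ({x⁻¹} : Set F)) := H138.mem_chart_of_mem rfl
  have hloc0 : ∀ y ∈ (chart R ({x, x⁻¹} : Set F)), ∃ n : ℕ, x ^ n * y ∈ (chart R ({x} : Set F)) := fun y hy =>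
    H138.exists_pow_mul_mem_chart hx0 hy
  have hloc1 : ∀ y ∈ (chart R ({x, x⁻¹} : Set F)), ∃ n : ℕ, x⁻¹ ^ n * y ∈ (chart R ({x⁻¹} : Set F)) := by
    intro y hy
    refine H138.exists_pow_mul_mem_chart (inv_ne_zero hx0) ?_
    rw [chart_inv_pair]
    exact hy
  have hwnu : ¬ IsUnit w := fun h => hw₀.not_isUnit (h.map _)
  have hw0 : w ≠ 0 := by
    rintro rfl
    exact hw₀.ne_zero (map_zero _)
  have hX₁ : ¬ algebraMap R (chart R ({x⁻¹} : Set F)) w ∣ (⟨x⁻¹, hxB1⟩ : (chart R ({x⁻¹} : Set F))) :=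
    not_dvd_coord hinjR (H138.transcendental_inv hx) w hwnu hw0 _ rfl
  -- `t₁ = x ^ j * s₁ ∈ (chart R ({x} : Set F)) ∖ w (chart R ({x} : Set F))`
  obtain ⟨j, hj⟩ := hloc0 (s₁ : F) (h1M s₁.2)
  have ht₁ : ¬ algebraMap R (chart R ({x} : Set F)) w ∣ (⟨x ^ j * s₁, hj⟩ : (chart R ({x} : Set F))) := by
    intro h
    obtain ⟨c, hc, h⟩ := (subalgebra_dvd_iff _ w _).mp h
    change x ^ j * (s₁ : F) = algebraMap R F w * c at h
    obtain ⟨n, hn⟩ := hloc1 c (h0M hc)
    have hs : (s₁ : F) = x⁻¹ ^ j * (algebraMap R F w * c) := by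
      rw [← h, ← mul_assoc, ← mul_pow, inv_mul_cancel₀ hx0, one_pow, one_mul]
    have hdvd : algebraMap R (chart R ({x⁻¹} : Set F)) w ∣ (⟨x⁻¹, hxB1⟩ : (chart R ({x⁻¹} : Set F))) ^ n * s₁ := by
      rw [subalgebra_dvd_iff]
      refine ⟨x⁻¹ ^ j * (x⁻¹ ^ n * c), (chart R ({x⁻¹} : Set F)).mul_mem ((chart R ({x⁻¹} : Set F)).pow_mem hxB1 _) hn, ?_⟩
      change (x⁻¹) ^ n * (s₁ : F) = algebraMap R F w * (x⁻¹ ^ j * (x⁻¹ ^ n * c))
      rw [hs]
      ring
    rcases hw₁.dvd_or_dvd hdvd with h' | h'
    · exact hX₁ (hw₁.dvd_of_dvd_pow h')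
    · exact hs₁ h'
  obtain ⟨N₁, hN₁⟩ := hloc0 _ h2
  obtain ⟨N₂, hN₂⟩ := hloc0 _ h1
  set g : F := x ^ (N₁ + N₂ + j) * f with hg
  have hg1 : algebraMap R F w * g ∈ (chart R ({x} : Set F)) := by
    have : algebraMap R F w * g = x ^ (N₂ + j) * (x ^ N₁ * (algebraMap R F w * f)) := by
      rw [hg]; ring
    rw [this]
    exact (chart R ({x} : Set F)).mul_mem ((chart R ({x} : Set F)).pow_mem hxB0 _) hN₁
  have hg2 : ((s₀ * ⟨x ^ j * s₁, hj⟩ : (chart R ({x} : Set F))) : F) * g ∈ (chart R ({x} : Set F)) := by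
    have : ((s₀ * ⟨x ^ j * s₁, hj⟩ : (chart R ({x} : Set F))) : F) * g
        = x ^ (N₁ + j + j) * (x ^ N₂ * ((s₀ : F) * (s₁ : F) * f)) := by
      change (s₀ : F) * (x ^ j * (s₁ : F)) * g = _
      rw [hg]; ring
    rw [this]
    exact (chart R ({x} : Set F)).mul_mem ((chart R ({x} : Set F)).pow_mem hxB0 _) hN₂
  have hst : ¬ algebraMap R (chart R ({x} : Set F)) w ∣ s₀ * ⟨x ^ j * s₁, hj⟩ := by
    intro h
    rcases hw₀.dvd_or_dvd h with h' | h'
    · exact hs₀ h'
    · exact ht₁ h'
  have hgB : g ∈ (chart R ({x} : Set F)) := mem_of_mul_mem_of_prime (chart R ({x} : Set F)) w hw₀ _ hst g hg1 hg2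
  have : f = x⁻¹ ^ (N₁ + N₂ + j) * g := by
    rw [hg, ← mul_assoc, ← mul_pow, inv_mul_cancel₀ hx0, one_pow, one_mul]
  rw [this]
  exact (chart R ({x, x⁻¹} : Set F)).mul_mem ((chart R ({x, x⁻¹} : Set F)).pow_mem (h1M hxB1) _) (h0M hgB)

variable [IsLocalRing R]

/-- **Typed core of `node_alg`** (prime `m`). -/
theorem kummer_charts_of_regular
    (hinjR : Function.Injective (algebraMap R F))
    (hRF : ∀ y : F, IsIntegral R y → y ∈ Set.range (algebraMap R F))
    {x : F} (hx : Transcendental R x) [FiniteDimensional (baseField R x) F]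
    (w : R) (m : ℕ) (hm : m.Prime) (ν : R) (hν : ν * (m : R) = 1)
    (u : F) (hu : u ≠ 0)
    (hw₀ : Prime (algebraMap R (chart R ({x} : Set F)) w))
    (hw₁ : Prime (algebraMap R (chart R ({x⁻¹} : Set F)) w))
    (hreg₀ : H754.RegularAlong (algebraMap R (chart R ({x} : Set F)) w))
    (hreg₁ : H754.RegularAlong (algebraMap R (chart R ({x⁻¹} : Set F)) w))
    (hu₀ : H754.OneModPi (algebraMap R (chart R ({x} : Set F)) w) u)
    (hu₁ : H754.OneModPi (algebraMap R (chart R ({x⁻¹} : Set F)) w) u)
    (hdiv₀ : H754.DivisibleDivisor (chart R ({x} : Set F)) m u)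
    (hdiv₁ : H754.DivisibleDivisor (chart R ({x⁻¹} : Set F)) m u) :
    ∃ (r : R) (a : ℤ) (y : F), r ≠ 0 ∧ u = algebraMap R F r ^ a * y ^ m := by
  have hwnu : ¬ IsUnit w := fun h => hw₀.not_isUnit (h.map _)
  haveI : FiniteDimensional (baseField R x⁻¹) F := by
    rw [H138.baseField_inv]; infer_instance
  obtain ⟨i1, i2, i3⟩ := chart_instances (R := R) hx
  obtain ⟨j1, j2, j3⟩ := chart_instances (R := R) (H138.transcendental_inv hx)
  obtain ⟨σ₀, σ₁, h₀, h₁, h₀₁⟩ := H214.local_existence m hm.ne_zero w u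
    (chart R ({x} : Set F)) (chart R ({x⁻¹} : Set F)) (chart R ({x, x⁻¹} : Set F))
    (H138.chart_mono (by simp)) (H138.chart_mono (by simp)) hw₀ hw₁ hreg₀ hreg₁ hu₀ hu₁
    hdiv₀ hdiv₁ (rootClosed_chart _ hm.pos)
    (fun f s₀ hs₀ s₁ hs₁ h1 h2 => chart_saturated hinjR hx w hw₀ hw₁ f s₀ hs₀ s₁ hs₁ h1 h2)
  exact kummer_charts_prime hinjR hRF hx w hwnu m hm ν hν u hu σ₀ σ₁ h₀ h₁ h₀₁

end Regular

end Fermat.Agent.S18.H394

end
-- ===== PACK-END S18/H394/KummerRegular.lean

-- ===== PACK-BEGIN S30/H169/OccCoord.lean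
section
/-
S30 row -- PIECE `OccCoord` (helper169): `exists_eigen_parLattice_coord`, with EXACTLY the type of
`exists_eigen_parLattice_coord` in `origin/helper49:Fermat/Agent/S30/SkeletonLat.lean`.

Every character `χ` of the Hecke algebra with values in a characteristic-zero domain `R` occurs
in `Hom_par(Γ₀(N), ℤ) ⊗ R`, in coordinates.

Proof: adapter.  `H829.exists_eigen_parabolicHom_adic` (on main) gives a nonzero parabolic
eigen-homomorphism `φ : Γ₀(N) → R`; its image spans a finitely generated torsion-free, hence free,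
`ℤ`-submodule `W ⊆ R`; `c j` are the coordinates of `φ` in a `ℤ`-basis `b j` of `W`, `w j := b j`.
The Hecke operator `heckeCoh` of `S29.DefsM` is the transfer sum of `H201`
(`S29.M4aTop_heckeCoh_eq_sum_trf`, on main).
-/





set_option autoImplicit false

noncomputable section

namespace Fermat.Agent.S30.H169

open Fermat.Agent.S29 (G0 IsParHom heckeCoh)
open CongruenceSubgroup ModularCurve ModularCurve.Period
open scoped MatrixGroups

/-- PIECE `OccCoord` of the S30 lattice layer. -/
theorem exists_eigen_parLattice_coord (N : ℕ) [NeZero N] (S : Set ℕ) (R : Type) [CommRing R]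
    [IsDomain R] [CharZero R] (χ : CuspForm.heckeAlgebra N 2 S →+* R) :
    ∃ (n : ℕ) (w : Fin n → R) (c : Fin n → G0 N → ℤ),
      (∀ j, IsParHom (c j)) ∧ (∃ γ : G0 N, ∑ j, w j * ((c j γ : ℤ) : R) ≠ 0) ∧
      ∀ (ℓ : ℕ) (hℓ : ℓ.Prime) (hℓN : ¬ ℓ ∣ N) (hℓS : ℓ ∉ S) (γ : G0 N),
        ∑ j, w j * ((heckeCoh N ℓ (c j) γ : ℤ) : R)
          = χ (CuspForm.heckeAlgebra.T hℓ hℓN hℓS) * ∑ j, w j * ((c j γ : ℤ) : R) := by
  classical
  obtain ⟨φ, hφ0, hpar, hecke⟩ := Fermat.Agent.S30.H829.exists_eigen_parabolicHom_adic N S χ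
  -- a finite generating set
  obtain ⟨S₀, hS₀, hS₀fin⟩ := Group.fg_iff.mp (Fermat.Agent.S29.M4aTop_fg_Gamma0 N)
  set W : Submodule ℤ R :=
    Submodule.span ℤ ((fun x : Gamma0 N => φ (Additive.ofMul x)) '' S₀) with hW
  have hmem : ∀ γ : Gamma0 N, φ (Additive.ofMul γ) ∈ W :=
    fun γ => Fermat.Agent.S29.M4aTop_mem_span φ S₀ hS₀ γ
  have : Module.Finite ℤ W := Module.Finite.span_of_finite ℤ (hS₀fin.image _)
  have : Module.Free ℤ W := Module.free_of_finite_type_torsion_free'
  let b := Module.finBasis ℤ W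
  -- the coordinates
  let X : G0 N → W := fun γ => ⟨φ (Additive.ofMul γ), hmem γ⟩
  have hXmul : ∀ γ γ' : G0 N, X (γ * γ') = X γ + X γ' := fun γ γ' =>
    Subtype.ext (by simp only [X, ofMul_mul, map_add, Submodule.coe_add])
  have hX0 : ∀ γ : G0 N, φ (Additive.ofMul γ) = 0 → X γ = 0 := fun γ h => Subtype.ext h
  have hsum : ∀ γ : G0 N, φ (Additive.ofMul γ)
      = ∑ j, (b j : R) * ((b.repr (X γ) j : ℤ) : R) := by
    intro γ
    have h1 := congrArg (fun x : W => (x : R)) (b.sum_repr (X γ))
    simp only [Submodule.coe_sum, Submodule.coe_smul] at h1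
    rw [show φ (Additive.ofMul γ) = ((X γ : W) : R) from rfl, ← h1]
    refine Finset.sum_congr rfl fun j _ => ?_
    rw [zsmul_eq_mul, mul_comm]
  refine ⟨Module.finrank ℤ W, fun j => (b j : R), fun j γ => b.repr (X γ) j, ?_, ?_, ?_⟩
  · intro j
    refine ⟨fun γ γ' => ?_, fun γ hγ => ?_, fun γ n hn hγ => ?_⟩
    · show b.repr (X (γ * γ')) j = b.repr (X γ) j + b.repr (X γ') j
      rw [hXmul, map_add, Finsupp.add_apply]
    · show b.repr (X γ) j = 0
      have h4 : (((γ : Gamma0 N) : SL(2, ℤ)) : Matrix (Fin 2) (Fin 2) ℤ).trace ^ 2 = 4 := by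
        have h5 : Fermat.Agent.S29.G0.mat γ
            = (((γ : Gamma0 N) : SL(2, ℤ)) : Matrix (Fin 2) (Fin 2) ℤ) := rfl
        rw [h5] at hγ
        rcases hγ with h | h <;> rw [h] <;> norm_num
      rw [hX0 γ (hpar γ h4), map_zero, Finsupp.zero_apply]
    · show b.repr (X γ) j = 0
      have h6 : (n : ℤ) • φ (Additive.ofMul γ) = 0 := by
        rw [natCast_zsmul, ← map_nsmul, ← ofMul_pow, hγ, ofMul_one, map_zero]
      have h7 : φ (Additive.ofMul γ) = 0 := by
        rw [zsmul_eq_mul] at h6
        rcases mul_eq_zero.mp h6 with h | h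
        · exact absurd (by exact_mod_cast h) hn.ne'
        · exact h
      rw [hX0 γ h7, map_zero, Finsupp.zero_apply]
  · by_contra hcon
    rw [not_exists] at hcon
    apply hφ0
    ext γ
    have h8 := hsum (Additive.toMul γ)
    have h9 := not_not.mp (hcon (Additive.toMul γ))
    show φ (Additive.ofMul (Additive.toMul γ)) = 0
    rw [h8]
    exact h9
  · intro ℓ hℓ hℓN hℓS γ
    have : Fact ℓ.Prime := ⟨hℓ⟩
    have hk := hecke ℓ hℓ hℓN hℓS
    have h10 : ∀ j, ((heckeCoh N ℓ (fun γ => b.repr (X γ) j) γ : ℤ) : R)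
        = ∑ x : OnePoint (ZMod ℓ),
            ((b.repr (X (Fermat.Agent.S29.H201.trf hℓN γ x)) j : ℤ) : R) := by
      intro j
      rw [Fermat.Agent.S29.M4aTop_heckeCoh_eq_sum_trf hℓN]
      push_cast
      rfl
    calc ∑ j, (b j : R) * ((heckeCoh N ℓ (fun γ => b.repr (X γ) j) γ : ℤ) : R)
        = ∑ j, ∑ x : OnePoint (ZMod ℓ),
            (b j : R) * ((b.repr (X (Fermat.Agent.S29.H201.trf hℓN γ x)) j : ℤ) : R) := by
          refine Finset.sum_congr rfl fun j _ => ?_
          rw [h10 j, Finset.mul_sum]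
      _ = ∑ x : OnePoint (ZMod ℓ), φ (Additive.ofMul (Fermat.Agent.S29.H201.trf hℓN γ x)) := by
          rw [Finset.sum_comm]
          refine Finset.sum_congr rfl fun x _ => ?_
          rw [hsum]
      _ = Fermat.Agent.S29.H201.heckeHom ℓ hℓN R φ (Additive.ofMul γ) := by
          rw [Fermat.Agent.S29.H201.heckeHom_apply]
      _ = χ (CuspForm.heckeAlgebra.T hℓ hℓN hℓS) * φ (Additive.ofMul γ) := by
          rw [hk]
          rfl
      _ = χ (CuspForm.heckeAlgebra.T hℓ hℓN hℓS)
            * ∑ j, (b j : R) * ((b.repr (X γ) j : ℤ) : R) := by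
          rw [hsum]

end Fermat.Agent.S30.H169

end

end
-- ===== PACK-END S30/H169/OccCoord.lean

-- ===== PACK-BEGIN S23/Cap/Main.lean
section




/-!
# S23 : assembly.
-/

set_option autoImplicit false

namespace Fermat.Agent.S23.Cap

open UpperHalfPlane ModularForm ModularFormClass MatrixGroups CongruenceSubgroup

/-- The q-expansion as a `ℂ`-linear map on cusp forms. -/
noncomputable def qxLin (N : ℕ) [NeZero N] (k : ℤ) :
    CuspForm (Gamma0 N) k →ₗ[ℂ] PowerSeries ℂ where
  toFun f := qx f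
  map_add' f g := by
    have hf : IsMF (G0 N) k f := IsCF.isMF ⟨f, rfl⟩
    have hg : IsMF (G0 N) k g := IsCF.isMF ⟨g, rfl⟩
    simpa using qx_add N hf hg
  map_smul' c f := by
    have hf : IsMF (G0 N) k f := IsCF.isMF ⟨f, rfl⟩
    simpa using qx_smul N c hf

theorem qxLin_injective (N : ℕ) [NeZero N] (k : ℤ) : Function.Injective (qxLin N k) := by
  intro f g h
  have hf : IsMF (G0 N) k f := IsCF.isMF ⟨f, rfl⟩
  have hg : IsMF (G0 N) k g := IsCF.isMF ⟨g, rfl⟩
  exact DFunLike.coe_injective (eq_of_qx_eq N hf hg h)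

theorem hasIntegralStructure (N : ℕ) [NeZero N] (k : ℤ) : CuspForm.HasIntegralStructure N k := by
  unfold CuspForm.HasIntegralStructure
  rw [eq_top_iff]
  set T : Submodule ℂ (CuspForm (Gamma0 N) k) :=
    Submodule.span ℂ ((CuspForm.intLattice N k : Submodule ℤ (CuspForm (Gamma0 N) k)) :
      Set (CuspForm (Gamma0 N) k)) with hT
  have key : Submodule.map (qxLin N k) ⊤ ≤ Submodule.map (qxLin N k) T := by
    refine (descent (Submodule.map (qxLin N k) ⊤) ((k * (Gamma0 N).index).toNat / 12)
      ?_ ?_).trans ?_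
    · rintro F ⟨f, -, rfl⟩ h
      have hf : IsMF (G0 N) k f := IsCF.isMF ⟨f, rfl⟩
      have : (f : ℍ → ℂ) = 0 := sturm N hf h
      have hf0 : f = 0 := DFunLike.coe_injective this
      simp [hf0]
    · rintro σ F ⟨f, -, rfl⟩
      obtain ⟨g, ⟨g', rfl⟩, hg⟩ := galois_stable N k σ f ⟨f, rfl⟩
      exact ⟨g', trivial, hg⟩
    · rw [Submodule.span_le]
      rintro F ⟨⟨f, -, rfl⟩, hrat⟩
      obtain ⟨D, hD, hint⟩ := bounded_denominators N k f ⟨f, rfl⟩ hrat
      have hD' : (D : ℂ) ≠ 0 := by exact_mod_cast hD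
      have hmem : (D : ℂ) • f ∈ T := by
        apply Submodule.subset_span
        apply Submodule.subset_span
        intro n
        obtain ⟨m, hm⟩ := hint n
        exact ⟨m, by simpa [ModularFormClass.qCoeff, qx] using hm⟩
      refine ⟨f, ?_, rfl⟩
      have : f = (D : ℂ)⁻¹ • ((D : ℂ) • f) := by
        rw [smul_smul, inv_mul_cancel₀ hD', one_smul]
      rw [this]
      exact T.smul_mem _ hmem
  intro f _
  obtain ⟨g, hg, hgf⟩ := key ⟨f, trivial, rfl⟩
  rwa [← qxLin_injective N k hgf]

end Fermat.Agent.S23.Cap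

end
-- ===== PACK-END S23/Cap/Main.lean

-- ===== PACK-BEGIN A2/Alg/H34/Base.lean
section



/-!
# WALL A2 / ALG — BASE adapter (helper34)

From the standing hypotheses of `AlgSSStatement` (`E = Frac R`, `F / E(x)` finite, charts given by
an integrality predicate) to the setting of `S18.H138` / `S18.H394` (`chart R {x}`,
`baseField R x`): `chart_eq`, `transcendental_of_field`, `finiteDimensional_baseField`,
`algebraMap_RF_injective`, `chart_instances'` (noetherian, integrally closed, fraction field `F`).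
-/

set_option autoImplicit false
set_option linter.unusedSectionVars false
set_option linter.style.haveILetI false

namespace Fermat.Agent.A2.Alg.H34

open Fermat.Agent.A2 Fermat.Agent.A2.Alg
open Fermat.Agent.S18.H138 (chart baseField)
open Polynomial

variable {R E F : Type*} [CommRing R] [IsDomain R] [Field E] [Algebra R E] [IsFractionRing R E]
  [Field F] [Algebra E F] [Algebra R F] [IsScalarTower R E F]

omit [IsDomain R] [Field E] [Algebra R E] [IsFractionRing R E] [Algebra E F]
  [IsScalarTower R E F] in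
theorem algebraMap_RF_injective (E : Type*) [Field E] [Algebra R E] [IsFractionRing R E]
    [Algebra E F] [IsScalarTower R E F] : Function.Injective (algebraMap R F) := by
  rw [IsScalarTower.algebraMap_eq R E F]
  exact (algebraMap E F).injective.comp (IsFractionRing.injective R E)

theorem transcendental_of_field {x : F} (hx : Transcendental E x) : Transcendental R x := by
  intro h
  exact hx (h.extendScalars (IsFractionRing.injective R E))

theorem algebraMap_mem_baseField (x : F) (e : E) : algebraMap E F e ∈ baseField R x := by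
  obtain ⟨a, b, -, rfl⟩ := IsFractionRing.div_surjective (A := R) e
  rw [map_div₀, ← IsScalarTower.algebraMap_apply, ← IsScalarTower.algebraMap_apply]
  exact div_mem (Subfield.subset_closure (Or.inl ⟨a, rfl⟩))
    (Subfield.subset_closure (Or.inl ⟨b, rfl⟩))

theorem mem_baseField_of_mem_adjoin (x : F) {z : F}
    (hz : z ∈ IntermediateField.adjoin E ({x} : Set F)) : z ∈ baseField R x := by
  have h : IntermediateField.adjoin E ({x} : Set F) ≤
      Subfield.toIntermediateField (baseField R x) (algebraMap_mem_baseField (R := R) x) := by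
    rw [IntermediateField.adjoin_le_iff]
    rintro y hy
    rw [Set.mem_singleton_iff] at hy
    subst hy
    exact Subfield.subset_closure (Or.inr rfl)
  exact h hz

theorem finiteDimensional_baseField (x : F)
    (hfin : FiniteDimensional (IntermediateField.adjoin E ({x} : Set F)) F) :
    FiniteDimensional (baseField R x) F := by
  let ι : (IntermediateField.adjoin E ({x} : Set F)) →+* baseField R x :=
    { toFun := fun a => ⟨a.1, mem_baseField_of_mem_adjoin (R := R) x a.2⟩
      map_one' := rfl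
      map_mul' := fun _ _ => rfl
      map_zero' := rfl
      map_add' := fun _ _ => rfl }
  letI : Algebra (IntermediateField.adjoin E ({x} : Set F)) (baseField R x) := ι.toAlgebra
  haveI : IsScalarTower (IntermediateField.adjoin E ({x} : Set F)) (baseField R x) F :=
    IsScalarTower.of_algebraMap_eq (fun _ => rfl)
  exact Module.Finite.of_restrictScalars_finite (IntermediateField.adjoin E ({x} : Set F))
    (baseField R x) F

theorem chart_eq (x : F) (B : Subalgebra R F)
    (hB : ∀ f : F, f ∈ B ↔ IsIntegral (Algebra.adjoin R ({x} : Set F)) f) :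
    B = chart R ({x} : Set F) :=
  SetLike.ext fun f => (hB f).trans Fermat.Agent.S18.H138.mem_chart.symm

theorem charZero_of_field [CharZero E] : CharZero F :=
  charZero_of_injective_algebraMap (algebraMap E F).injective

/-- The chart of `ChartCtx` is a noetherian integrally closed domain with fraction field `F`. -/
theorem chart_instances' [IsDiscreteValuationRing R] [CharZero E] (w : R) (x : F)
    (B : Subalgebra R F) (hB : ChartCtx E w x B) :
    IsNoetherianRing B ∧ IsIntegrallyClosed B ∧ IsFractionRing B F := by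
  obtain rfl := chart_eq x B hB.hB
  haveI : CharZero F := charZero_of_field (E := E)
  haveI := finiteDimensional_baseField (R := R) x hB.hfin
  exact Fermat.Agent.S18.H394.chart_instances (transcendental_of_field hB.hx)

end Fermat.Agent.A2.Alg.H34

end
-- ===== PACK-END A2/Alg/H34/Base.lean

-- ===== PACK-BEGIN A2/H489/GaussFrameB.lean
section


/-!
# A2 / M1mod-FRAME part B (helper489): the Gauss ring of `E(x)` and `TwoExtHyp`

`R` a discrete valuation ring, `E = Frac R`, `L ⊇ E` a field, `x ∈ L`, `V` a valuation subring of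
`L` inducing the Gauss valuation on `E(x)` (`IsGaussOver R V x`).

* `gaussRing E V x = V ∩ E(x)` as a valuation subring of `E(x)`;
* `IsGaussOver.isDiscreteValuationRing` : it is a discrete valuation ring (uniformiser = that of
  `R`);
* `PolyIndepMod R V x u` : the family `u` is independent over `R[x]` modulo `𝔪_V`
  (`∑ Pᵢ(x) uᵢ ∈ 𝔪_V ⟹ Pᵢ ∈ 𝔪_R[X]`);
* `twoExtHyp_of_gauss` : two distinct valuation subrings `V₁, V₂` inducing the Gauss valuation,
  with `PolyIndepMod` families of sizes `f₁, f₂`, `[L : E(x)] ≤ f₁ + f₂`, satisfy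
  `TwoExtHyp E(x) (gaussRing E V₁ x) V₁ V₂ u₁ u₂`.
-/

set_option autoImplicit false

namespace Fermat.Agent.A2.H489

open IsLocalRing Polynomial IntermediateField

section Frame

variable {R E L : Type*} [CommRing R] [IsDomain R] [IsDiscreteValuationRing R]
  [Field E] [Algebra R E] [IsFractionRing R E]
  [Field L] [Algebra E L] [Algebra R L] [IsScalarTower R E L]

/-- The Gauss ring `V ∩ E(x)` as a valuation subring of `E(x)`. -/
def gaussRing (E : Type*) {L : Type*} [Field E] [Field L] [Algebra E L]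
    (V : ValuationSubring L) (x : L) : ValuationSubring E⟮x⟯ :=
  V.comap (algebraMap E⟮x⟯ L)

omit [IsDomain R] [IsDiscreteValuationRing R] [Algebra R E] [IsFractionRing R E] [Algebra R L]
  [IsScalarTower R E L] [CommRing R] in
theorem mem_gaussRing {V : ValuationSubring L} {x : L} (a : E⟮x⟯) :
    a ∈ gaussRing E V x ↔ (a : L) ∈ V := Iff.rfl

omit [IsDomain R] [IsDiscreteValuationRing R] [Algebra R E] [IsFractionRing R E] [Algebra R L]
  [IsScalarTower R E L] [CommRing R] in
theorem mem_nonunits_gaussRing {V : ValuationSubring L} {x : L} (a : E⟮x⟯) :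
    a ∈ (gaussRing E V x).nonunits ↔ (a : L) ∈ V.nonunits := by
  rw [ValuationSubring.mem_nonunits_iff_or, ValuationSubring.mem_nonunits_iff_or, mem_gaussRing]
  simp

omit [IsDomain R] [IsDiscreteValuationRing R] [Algebra R E] [IsFractionRing R E] [Algebra R L]
  [IsScalarTower R E L] [CommRing R] in
theorem mem_maximalIdeal_gaussRing {V : ValuationSubring L} {x : L} (a : gaussRing E V x) :
    a ∈ maximalIdeal (gaussRing E V x) ↔ ((a : E⟮x⟯) : L) ∈ V.nonunits := by
  rw [← ValuationSubring.coe_mem_nonunits_iff, mem_nonunits_gaussRing]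

variable {V : ValuationSubring L} {x : L}

/-- every nonzero element of `V ∩ E(x)` is a power of the uniformiser times a unit -/
theorem IsGaussOver.exists_pow_mul_unit (h : IsGaussOver R V x) {w : R} (hw : Irreducible w)
    {a : L} (ha : a ∈ E⟮x⟯) (ha0 : a ≠ 0) (haV : a ∈ V) :
    ∃ (n : ℕ) (u : L), u ∈ E⟮x⟯ ∧ u ∈ V ∧ u⁻¹ ∈ V ∧ a = algebraMap R L w ^ n * u := by
  obtain ⟨c, P, Q, hc0, hP, hQ, e⟩ := exists_normal_form_adjoin (E := E) hw x ha ha0
  have hc : algebraMap E L c ∈ V := by
    have h1 : algebraMap E L c = a * aeval x Q * (aeval x P)⁻¹ := by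
      rw [e, mul_assoc, mul_inv_cancel₀ (h.aeval_ne_zero hP), mul_one]
    rw [h1]
    exact mul_mem (mul_mem haV (h.aeval_mem Q)) (h.inv_aeval_mem hP)
  obtain ⟨r, rfl⟩ := (h.isOver.const_mem_iff c).mp hc
  have hr0 : r ≠ 0 := by
    rintro rfl
    exact hc0 (map_zero _)
  obtain ⟨n, hn⟩ := IsDiscreteValuationRing.associated_pow_irreducible hr0 hw
  obtain ⟨t, ht⟩ := hn.symm
  -- `w ^ n * t = r`
  have hw0 : algebraMap R L w ≠ 0 := algebraMap_RL_ne_zero E hw.ne_zero
  have hwK : algebraMap R L w ∈ E⟮x⟯ := by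
    rw [IsScalarTower.algebraMap_apply R E L]
    exact IntermediateField.algebraMap_mem _ _
  refine ⟨n, algebraMap R L (t : R) * aeval x P * (aeval x Q)⁻¹, ?_, ?_, ?_, ?_⟩
  · have h1 : algebraMap R L (t : R) * aeval x P * (aeval x Q)⁻¹
        = a * (algebraMap R L w ^ n)⁻¹ := by
      have h2 : a = algebraMap R L r * aeval x P * (aeval x Q)⁻¹ := by
        rw [IsScalarTower.algebraMap_apply R E L, ← e, mul_assoc,
          mul_inv_cancel₀ (h.aeval_ne_zero hQ), mul_one]
      rw [h2, ← ht, map_mul, map_pow]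
      field_simp
    rw [h1]
    exact mul_mem ha (inv_mem (pow_mem hwK n))
  · exact mul_mem (mul_mem (h.isOver.mem _) (h.aeval_mem P)) (h.inv_aeval_mem hQ)
  · have h1 : (algebraMap R L (t : R) * aeval x P * (aeval x Q)⁻¹)⁻¹
        = algebraMap R L ((t⁻¹ : Rˣ) : R) * aeval x Q * (aeval x P)⁻¹ := by
      have h3 : algebraMap R L (t : R) * algebraMap R L ((t⁻¹ : Rˣ) : R) = 1 := by
        rw [← map_mul, Units.mul_inv, map_one]
      have h5 := h.aeval_ne_zero hP
      have h6 := h.aeval_ne_zero hQ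
      apply inv_eq_of_mul_eq_one_right
      calc algebraMap R L (t : R) * aeval x P * (aeval x Q)⁻¹
            * (algebraMap R L ((t⁻¹ : Rˣ) : R) * aeval x Q * (aeval x P)⁻¹)
          = (algebraMap R L (t : R) * algebraMap R L ((t⁻¹ : Rˣ) : R))
            * (aeval x P * (aeval x P)⁻¹) * ((aeval x Q)⁻¹ * aeval x Q) := by ring
        _ = 1 := by rw [h3, mul_inv_cancel₀ h5, inv_mul_cancel₀ h6, one_mul, one_mul]
    rw [h1]
    exact mul_mem (mul_mem (h.isOver.mem _) (h.aeval_mem Q)) (h.inv_aeval_mem hP)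
  · rw [← mul_assoc, ← mul_assoc, ← map_pow, ← map_mul, ht, IsScalarTower.algebraMap_apply R E L,
      ← e, mul_assoc, mul_inv_cancel₀ (h.aeval_ne_zero hQ), mul_one]

/-- a nonunit of `V ∩ E(x)` is divisible by the uniformiser of `R` in `V ∩ E(x)` -/
theorem IsGaussOver.exists_mul_of_mem_nonunits (h : IsGaussOver R V x) {w : R}
    (hw : Irreducible w) {a : L} (ha : a ∈ E⟮x⟯) (haV : a ∈ V.nonunits) :
    ∃ a' : L, a' ∈ E⟮x⟯ ∧ a' ∈ V ∧ a = algebraMap R L w * a' := by
  obtain ⟨P, Q, hQ, hP, e⟩ := (h.mem_nonunits_iff (E := E) ha).mp haV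
  obtain ⟨P', rfl⟩ := exists_eq_C_mul_of_map_residue_eq_zero hw hP
  have hw0 : algebraMap R L w ≠ 0 := algebraMap_RL_ne_zero E hw.ne_zero
  have hwK : algebraMap R L w ∈ E⟮x⟯ := by
    rw [IsScalarTower.algebraMap_apply R E L]
    exact IntermediateField.algebraMap_mem _ _
  have h1 : a = algebraMap R L w * (aeval x P' * (aeval x Q)⁻¹) := by
    rw [← mul_assoc, ← aeval_C (A := L) x w, ← map_mul, ← e, mul_assoc,
      mul_inv_cancel₀ (h.aeval_ne_zero hQ), mul_one]
  refine ⟨aeval x P' * (aeval x Q)⁻¹, ?_, mul_mem (h.aeval_mem P') (h.inv_aeval_mem hQ), h1⟩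
  have h2 : aeval x P' * (aeval x Q)⁻¹ = (algebraMap R L w)⁻¹ * a := by
    rw [h1, ← mul_assoc, inv_mul_cancel₀ hw0, one_mul]
  rw [h2]
  exact mul_mem (inv_mem hwK) ha

/-- The Gauss ring `V ∩ E(x)` is a discrete valuation ring. -/
theorem IsGaussOver.isDiscreteValuationRing (h : IsGaussOver R V x) :
    IsDiscreteValuationRing (gaussRing E V x) := by
  obtain ⟨w, hw⟩ := IsDiscreteValuationRing.exists_irreducible R
  have hw0 : algebraMap R L w ≠ 0 := algebraMap_RL_ne_zero E hw.ne_zero
  have hwK : algebraMap R L w ∈ E⟮x⟯ := by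
    rw [IsScalarTower.algebraMap_apply R E L]
    exact IntermediateField.algebraMap_mem _ _
  have hwmax : w ∈ maximalIdeal R := by
    rw [IsLocalRing.mem_maximalIdeal, _root_.mem_nonunits_iff]
    exact hw.not_isUnit
  let p : gaussRing E V x := ⟨⟨algebraMap R L w, hwK⟩, h.isOver.mem w⟩
  have hp0 : p ≠ 0 := by
    intro h0
    apply hw0
    have := congrArg (fun z : gaussRing E V x => ((z : E⟮x⟯) : L)) h0
    exact this
  have hpmax : p ∈ maximalIdeal (gaussRing E V x) := by
    rw [mem_maximalIdeal_gaussRing]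
    exact h.isOver.nonunit w hwmax
  have hdiv : ∀ a ∈ maximalIdeal (gaussRing E V x), ∃ a' : gaussRing E V x, a = p * a' := by
    intro a ha
    rw [mem_maximalIdeal_gaussRing] at ha
    obtain ⟨a', ha'K, ha'V, e⟩ := h.exists_mul_of_mem_nonunits (E := E) hw (a : E⟮x⟯).2 ha
    exact ⟨⟨⟨a', ha'K⟩, ha'V⟩, Subtype.ext (Subtype.ext e)⟩
  apply IsDiscreteValuationRing.ofHasUnitMulPowIrreducibleFactorization
  refine ⟨p, ?_, ?_⟩
  · rw [irreducible_iff]
    refine ⟨fun hu => (IsLocalRing.mem_maximalIdeal p).mp hpmax hu, ?_⟩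
    intro a b hab
    by_contra hcon
    push Not at hcon
    obtain ⟨hna, hnb⟩ := hcon
    obtain ⟨a', ha'⟩ := hdiv a ((IsLocalRing.mem_maximalIdeal a).mpr hna)
    rw [ha', mul_assoc] at hab
    have h1 : a' * b = 1 := by
      have h2 : p * 1 = p * (a' * b) := by rw [mul_one]; exact hab
      exact (mul_left_cancel₀ hp0 h2).symm
    exact hnb (IsUnit.of_mul_eq_one a' (by rw [mul_comm]; exact h1))
  · intro a ha0
    have ha0' : ((a : E⟮x⟯) : L) ≠ 0 := by
      intro h0
      apply ha0
      exact Subtype.ext (Subtype.ext h0)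
    obtain ⟨n, u, huK, huV, huV', e⟩ :=
      h.exists_pow_mul_unit (E := E) hw (a : E⟮x⟯).2 ha0' a.2
    have hu0 : u ≠ 0 := by
      rintro rfl
      rw [mul_zero] at e
      exact ha0' e
    let U : (gaussRing E V x)ˣ :=
      ⟨⟨⟨u, huK⟩, huV⟩, ⟨⟨u⁻¹, inv_mem huK⟩, huV'⟩,
        Subtype.ext (Subtype.ext (mul_inv_cancel₀ hu0)),
        Subtype.ext (Subtype.ext (inv_mul_cancel₀ hu0))⟩
    refine ⟨n, U, ?_⟩
    apply Subtype.ext
    apply Subtype.ext
    exact e.symm

end Frame

section Indep

/-- The family `u` is independent over `R[x]` modulo the maximal ideal of `V`: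
`∑ Pᵢ(x) uᵢ ∈ 𝔪_V ⟹ Pᵢ ∈ 𝔪_R[X]` for all `i`. -/
def PolyIndepMod (R : Type*) {L : Type*} [CommRing R] [IsLocalRing R] [Field L] [Algebra R L]
    (V : ValuationSubring L) (x : L) {f : ℕ} (u : Fin f → L) : Prop :=
  ∀ P : Fin f → R[X], (∑ i, aeval x (P i) * u i) ∈ V.nonunits →
    ∀ i, (P i).map (residue R) = 0

variable {R E L : Type*} [CommRing R] [IsDomain R] [IsDiscreteValuationRing R]
  [Field E] [Algebra R E] [IsFractionRing R E]
  [Field L] [Algebra E L] [Algebra R L] [IsScalarTower R E L]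
  {V : ValuationSubring L} {x : L} {f : ℕ} {u : Fin f → L}

omit [IsDomain R] [IsDiscreteValuationRing R] in
/-- a nonempty `PolyIndepMod` family of elements of `V` forces the Gauss valuation on `E(x)` -/
theorem IsGaussOver.of_polyIndepMod [IsLocalRing R] (hV : IsOver R V) (hx : x ∈ V) (hf : 0 < f)
    (hu : ∀ i, u i ∈ V) (hI : PolyIndepMod R V x u) : IsGaussOver R V x where
  isOver := hV
  mem := hx
  prim := by
    intro P hP
    classical
    have key := hI (fun i => if i = ⟨0, hf⟩ then P else 0) ?_ ⟨0, hf⟩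
    · simpa using key
    · rw [Finset.sum_eq_single (⟨0, hf⟩ : Fin f)]
      · rw [if_pos rfl, mul_comm]
        exact mul_mem_nonunits (hu _) hP
      · intro i _ hi
        rw [if_neg hi, map_zero, zero_mul]
      · intro h0
        exact absurd (Finset.mem_univ _) h0

/-- `PolyIndepMod` implies independence over the Gauss ring `V ∩ E(x)` modulo `𝔪_V`. -/
theorem IsGaussOver.indep_of_polyIndepMod (h : IsGaussOver R V x) (hI : PolyIndepMod R V x u)
    (a : Fin f → L) (haK : ∀ i, a i ∈ E⟮x⟯) (haV : ∀ i, a i ∈ V)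
    (hsum : (∑ i, a i * u i) ∈ V.nonunits) : ∀ i, a i ∈ V.nonunits := by
  classical
  have hex : ∀ i, ∃ P Q : R[X], Q.map (residue R) ≠ 0 ∧ a i * aeval x Q = aeval x P :=
    fun i => (h.mem_iff (E := E) (haK i)).mp (haV i)
  choose P Q hQ e using hex
  -- multiply by the common denominator
  have hD : (∏ l, aeval x (Q l)) ∈ V := prod_mem fun l _ => h.aeval_mem (Q l)
  have h1 : (∏ l, aeval x (Q l)) * ∑ i, a i * u i
      = ∑ i, aeval x (P i * ∏ l ∈ Finset.univ.erase i, Q l) * u i := by
    rw [Finset.mul_sum]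
    refine Finset.sum_congr rfl fun i _ => ?_
    rw [← Finset.mul_prod_erase Finset.univ (fun l => aeval x (Q l)) (Finset.mem_univ i),
      map_mul, map_prod, ← e i]
    ring
  have h2 := hI (fun i => P i * ∏ l ∈ Finset.univ.erase i, Q l)
    (by rw [← h1]; exact mul_mem_nonunits hD hsum)
  intro i
  have h3 := h2 i
  rw [Polynomial.map_mul, Polynomial.map_prod] at h3
  have h4 : (∏ l ∈ Finset.univ.erase i, (Q l).map (residue R)) ≠ 0 :=
    Finset.prod_ne_zero_iff.mpr fun l _ => hQ l
  have h5 : (P i).map (residue R) = 0 := (mul_eq_zero.mp h3).resolve_right h4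
  exact (h.mem_nonunits_iff (E := E) (haK i)).mpr ⟨P i, Q i, hQ i, h5, e i⟩

/-- **FRAME.** Two distinct valuation subrings of `L` inducing the Gauss valuation on `E(x)`,
with `R[x]`-independent families modulo the maximal ideals of total size `≥ [L : E(x)]`,
satisfy the hypotheses `TwoExtHyp` over the Gauss ring of `E(x)`. -/
theorem twoExtHyp_of_gauss {V₁ V₂ : ValuationSubring L}
    (h₁ : IsGaussOver R V₁ x) (h₂ : IsGaussOver R V₂ x) (hne : V₁ ≠ V₂)
    {f₁ f₂ : ℕ} {u₁ : Fin f₁ → L} {u₂ : Fin f₂ → L}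
    (hu₁ : ∀ i, u₁ i ∈ V₁) (hu₂ : ∀ i, u₂ i ∈ V₂)
    (hI₁ : PolyIndepMod R V₁ x u₁) (hI₂ : PolyIndepMod R V₂ x u₂)
    (hdeg : Module.finrank E⟮x⟯ L ≤ f₁ + f₂)
    [IsDiscreteValuationRing (gaussRing E V₁ x)] :
    TwoExtHyp E⟮x⟯ (gaussRing E V₁ x) V₁ V₂ u₁ u₂ where
  over₁ :=
    { mem := fun a => a.2
      nonunit := fun a ha => (mem_maximalIdeal_gaussRing a).mp ha }
  over₂ :=
    { mem := fun a => (h₁.mem_iff_mem (E := E) h₂ (a : E⟮x⟯).2).mp a.2
      nonunit := fun a ha =>
        (h₁.mem_nonunits_iff_mem (E := E) h₂ (a : E⟮x⟯).2).mp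
          ((mem_maximalIdeal_gaussRing a).mp ha) }
  ne := hne
  deg := hdeg
  mem₁ := hu₁
  mem₂ := hu₂
  indep₁ := by
    intro a hsum i
    rw [mem_maximalIdeal_gaussRing]
    exact h₁.indep_of_polyIndepMod (E := E) hI₁ (fun i => ((a i : E⟮x⟯) : L))
      (fun i => (a i : E⟮x⟯).2) (fun i => (a i).2) hsum i
  indep₂ := by
    intro a hsum i
    rw [mem_maximalIdeal_gaussRing]
    refine (h₁.mem_nonunits_iff_mem (E := E) h₂ (a i : E⟮x⟯).2).mpr ?_
    exact h₂.indep_of_polyIndepMod (E := E) hI₂ (fun i => ((a i : E⟮x⟯) : L))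
      (fun i => (a i : E⟮x⟯).2)
      (fun i => (h₁.mem_iff_mem (E := E) h₂ (a i : E⟮x⟯).2).mp (a i).2) hsum i

end Indep

end Fermat.Agent.A2.H489

end
-- ===== PACK-END A2/H489/GaussFrameB.lean

-- ===== PACK-BEGIN S37/H818/Modular.lean
section
/-
S37 / LEVEL TRANSFER (helper818), part 8: instantiation at the modular function fields.

Levels `N`, `M = N * k`, Hecke prime `ℓ`.  `π^* : Pic0(F_N) → Pic0(F_{N k})` is the pullback
along the Prelude's `heckeAlphaBar L N k` (inclusion of function fields).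
-/








set_option autoImplicit false
set_option linter.style.haveILetI false

noncomputable section

namespace Fermat.Agent.S37.H818

open AlgebraicCurve ModularCurve IntermediateField

variable (L : Type*) [Field L] [Algebra ℚ L]

/-- Monotonicity of `laurentBaseChange` (the Prelude's version is private). -/
theorem laurentBaseChange_mono {F₀ F₁ : IntermediateField ℚ (LaurentSeries ℚ)}
    (h : F₀ ≤ F₁) : laurentBaseChange L F₀ ≤ laurentBaseChange L F₁ := by
  rw [laurentBaseChange, IntermediateField.adjoin_le_iff]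
  rintro _ ⟨y, hy, rfl⟩
  exact coeffEmb_mem_laurentBaseChange L (h hy)

/-- The function field of level `N` over `L`. -/
abbrev FB (N : ℕ) : IntermediateField L (LaurentSeries L) :=
  laurentBaseChange L (modularFunctionFieldFull N)

/-- Inclusion of function fields for `N ∣ M`. -/
def degenIncl {N M : ℕ} [NeZero N] [NeZero M] (h : N ∣ M) : FB L N →ₐ[L] FB L M :=
  IntermediateField.inclusion (laurentBaseChange_mono L (full_degeneracy_le h))

@[simp]
theorem coe_degenIncl {N M : ℕ} [NeZero N] [NeZero M] (h : N ∣ M) (x : FB L N) :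
    (degenIncl L h x : LaurentSeries L) = (x : LaurentSeries L) :=
  IntermediateField.coe_inclusion _ x

variable (N k ℓ : ℕ) [NeZero N] [NeZero k] [NeZero ℓ]

omit [NeZero N] [NeZero k] [NeZero ℓ] in
theorem dvd_aux : N * ℓ ∣ N * k * ℓ := ⟨k, by ring⟩

/-- The degeneracy map at level `N ℓ`:  `F_{Nℓ} ⊂ F_{(N k) ℓ}`. -/
def degenTop : FB L (N * ℓ) →ₐ[L] FB L (N * k * ℓ) := degenIncl L (dvd_aux N k ℓ)

theorem square_alpha :
    (degenTop L N k ℓ).comp (heckeAlphaBar L N ℓ) =
      (heckeAlphaBar L (N * k) ℓ).comp (heckeAlphaBar L N k) := by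
  refine AlgHom.ext fun x => Subtype.ext ?_
  rw [AlgHom.comp_apply, AlgHom.comp_apply, degenTop, coe_degenIncl, coe_heckeAlphaBar,
    coe_heckeAlphaBar, coe_heckeAlphaBar]

theorem square_beta :
    (degenTop L N k ℓ).comp (heckeBetaBar L N ℓ) =
      (heckeBetaBar L (N * k) ℓ).comp (heckeAlphaBar L N k) := by
  refine AlgHom.ext fun x => Subtype.ext ?_
  rw [AlgHom.comp_apply, AlgHom.comp_apply, degenTop, coe_degenIncl, coe_heckeBetaBar,
    coe_heckeBetaBar, coe_heckeAlphaBar]

variable {L N k ℓ}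

/-- **`π^* ∘ T_ℓ^{(N)} = T_ℓ^{(N k)} ∘ π^*`** for the Prelude's Hecke operators, given the Hecke
inputs at both levels and norm compatibility of the `α`-square. -/
theorem pullback_heckeOperatorAlong
    (hN : HeckeInputsAlong L N ℓ) (hM : HeckeInputsAlong L (N * k) ℓ)
    [HasPrincipalDivisors L (FB L (N * k))]
    (hi : (heckeAlphaBar L N k).toRingHom.IsIntegral)
    (hFIi : FundamentalIdentityAlong L (heckeAlphaBar L N k) hi)
    (hi₁ : (degenTop L N k ℓ).toRingHom.IsIntegral)
    (hnorm : NormCompat (heckeAlphaBar L N ℓ) (heckeAlphaBar L N k)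
      (heckeAlphaBar L (N * k) ℓ) (degenTop L N k ℓ))
    (x : Pic0 L (FB L N)) :
    pullbackPic0Along (heckeAlphaBar L N k) hi hFIi (heckeOperatorAlong L N ℓ x) =
      heckeOperatorAlong L (N * k) ℓ (pullbackPic0Along (heckeAlphaBar L N k) hi hFIi x) := by
  obtain ⟨hα, hβ, hP, hfin, hFI, hNF⟩ := hN
  obtain ⟨hα', hβ', hP', hfin', hFI', hNF'⟩ := hM
  haveI := hP
  haveI := hP'
  rw [heckeOperatorAlong_eq hα hβ hFI hfin hNF, heckeOperatorAlong_eq hα' hβ' hFI' hfin' hNF']
  exact pullbackPic0Along_correspondence (heckeAlphaBar L N ℓ) (heckeBetaBar L N ℓ)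
    (heckeAlphaBar L N k) (heckeAlphaBar L (N * k) ℓ) (heckeBetaBar L (N * k) ℓ)
    (degenTop L N k ℓ) hα hβ hi hα' hβ' hi₁ (square_alpha L N k ℓ) (square_beta L N k ℓ)
    hFI hfin hNF hFI' hfin' hNF' hFIi hnorm (hasLocalGenerators _ hα) x

/-- The arithmetic Galois actions at levels `N` and `M` are intertwined by the inclusion. -/
theorem intertwines_degenIncl {N M : ℕ} [NeZero N] [NeZero M] (h : N ∣ M) (σ : L ≃ₐ[ℚ] L) :
    SemilinearAut.IntertwinesAlong (degenIncl L h : FB L N →+* FB L M)
      (arithmeticGalois (modularFunctionFieldFull N) σ)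
      (arithmeticGalois (modularFunctionFieldFull M) σ) := by
  intro x
  apply Subtype.ext
  rw [RingHom.coe_coe, coe_arithmeticGalois_smul, coe_degenIncl, coe_degenIncl,
    coe_arithmeticGalois_smul]

theorem intertwines_heckeAlphaBar (σ : L ≃ₐ[ℚ] L) :
    SemilinearAut.IntertwinesAlong (heckeAlphaBar L N k : FB L N →+* FB L (N * k))
      (arithmeticGalois (modularFunctionFieldFull N) σ)
      (arithmeticGalois (modularFunctionFieldFull (N * k)) σ) := by
  intro x
  apply Subtype.ext
  rw [RingHom.coe_coe, coe_arithmeticGalois_smul, coe_heckeAlphaBar, coe_heckeAlphaBar,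
    coe_arithmeticGalois_smul]

/-- `π^*` is Galois equivariant. -/
theorem pullbackPic0Along_galois [HasPrincipalDivisors L (FB L (N * k))]
    (hi : (heckeAlphaBar L N k).toRingHom.IsIntegral)
    (hFIi : FundamentalIdentityAlong L (heckeAlphaBar L N k) hi)
    (σ : L ≃ₐ[ℚ] L) (x : Pic0 L (FB L N)) :
    pullbackPic0Along (heckeAlphaBar L N k) hi hFIi (σ • x) =
      σ • pullbackPic0Along (heckeAlphaBar L N k) hi hFIi x :=
  pullbackPic0Along_smul (heckeAlphaBar L N k) hi (intertwines_heckeAlphaBar σ) hFIi x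

end Fermat.Agent.S37.H818

end

end
-- ===== PACK-END S37/H818/Modular.lean

-- ===== PACK-BEGIN S28/H748/Family.lean
section



/-!
# S28 / H748 — the finite `SL(2,ℤ)`-stable family of modular functions of level `N`

`famSet N` = all `SL(2,ℤ)`-translates of `j(dτ)` and `Δ(dτ)/Δ(τ)`, `d ∣ N`.  It is finite, stable
under translation, every member has a convergent expansion in `t = exp(2πiτ/N)` with coefficients
in `ℤ[ζ_N, 1/N]`, and invariant polynomial expressions in its members are polynomials in `j`.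
-/

set_option autoImplicit false

noncomputable section

open UpperHalfPlane HahnSeries ModularCurve Fermat.Agent.S24
open scoped Real MatrixGroups Manifold

namespace Fermat.Agent.S28.H748

local notation "Δ" => ModularForm.discriminant

/-- All translates of `j(dτ)` and `Δ(dτ)/Δ(τ)`, `d ∣ N`. -/
def famSet (N : ℕ) : Set (ℍ → ℂ) :=
  {f | ∃ d : ℕ, 0 < d ∧ d ∣ N ∧ ∃ γ : SL(2, ℤ),
      f = (fun τ => conjJ d 0 1 (γ • τ)) ∨ f = (fun τ => conjU d 0 1 (γ • τ))}

theorem famSet_smul {N : ℕ} {f : ℍ → ℂ} (hf : f ∈ famSet N) (γ : SL(2, ℤ)) :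
    (fun τ => f (γ • τ)) ∈ famSet N := by
  obtain ⟨d, hd, hdN, γ₀, h | h⟩ := hf
  · refine ⟨d, hd, hdN, γ₀ * γ, Or.inl ?_⟩
    funext τ
    rw [h, mul_smul]
  · refine ⟨d, hd, hdN, γ₀ * γ, Or.inr ?_⟩
    funext τ
    rw [h, mul_smul]

theorem conjJ_mem_famSet {N d : ℕ} (hd : 0 < d) (hdN : d ∣ N) : conjJ d 0 1 ∈ famSet N :=
  ⟨d, hd, hdN, 1, Or.inl (by funext τ; rw [one_smul])⟩

theorem conjU_mem_famSet {N d : ℕ} (hd : 0 < d) (hdN : d ∣ N) : conjU d 0 1 ∈ famSet N :=
  ⟨d, hd, hdN, 1, Or.inr (by funext τ; rw [one_smul])⟩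

open H628 in
/-- Every member of the family is a `conjJ a b δ` or a `conjU a b δ` with `a δ ∣ N`, `b < δ`. -/
theorem famSet_eq_conj {N : ℕ} {f : ℍ → ℂ} (hf : f ∈ famSet N) :
    ∃ a b δ : ℕ, 0 < a ∧ 0 < δ ∧ b < δ ∧ a * δ ∣ N ∧ (f = conjJ a b δ ∨ f = conjU a b δ) := by
  obtain ⟨d, hd, hdN, γ, h | h⟩ := hf
  · refine ⟨hermA d γ, hermB d γ, hermD d γ, hermA_pos hd γ, hermD_pos hd γ, hermB_lt hd γ, ?_,
      Or.inl ?_⟩
    · rw [hermA_mul_hermD]
      exact hdN
    · rw [h]
      funext τ
      exact conjJ_smul hd γ τ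
  · refine ⟨hermA d γ, hermB d γ, hermD d γ, hermA_pos hd γ, hermD_pos hd γ, hermB_lt hd γ, ?_,
      Or.inr ?_⟩
    · rw [hermA_mul_hermD]
      exact hdN
    · rw [h]
      funext τ
      exact conjU_smul hd γ τ

theorem famSet_finite (N : ℕ) [NeZero N] : (famSet N).Finite := by
  have hN : 0 < N := Nat.pos_of_ne_zero (NeZero.ne N)
  let F : Fin (N + 1) × Fin (N + 1) × Fin (N + 1) → (ℍ → ℂ) :=
    fun t => conjJ t.1 t.2.1 t.2.2
  let G : Fin (N + 1) × Fin (N + 1) × Fin (N + 1) → (ℍ → ℂ) :=
    fun t => conjU t.1 t.2.1 t.2.2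
  refine ((Set.finite_range F).union (Set.finite_range G)).subset ?_
  intro f hf
  obtain ⟨a, b, δ, ha, hδ, hb, hdvd, h⟩ := famSet_eq_conj hf
  have hle : a * δ ≤ N := Nat.le_of_dvd hN hdvd
  have haN : a < N + 1 := by
    have : a ≤ a * δ := Nat.le_mul_of_pos_right a hδ
    omega
  have hδN : δ < N + 1 := by
    have : δ ≤ a * δ := Nat.le_mul_of_pos_left δ ha
    omega
  have hbN : b < N + 1 := by omega
  rcases h with h | h
  · left
    exact ⟨(⟨a, haN⟩, ⟨b, hbN⟩, ⟨δ, hδN⟩), h.symm⟩
  · right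
    exact ⟨(⟨a, haN⟩, ⟨b, hbN⟩, ⟨δ, hδN⟩), h.symm⟩

theorem famSet_infExp {N : ℕ} [NeZero N] {f : ℍ → ℂ} (hf : f ∈ famSet N) :
    ∃ φ, InfExp N f φ ∧ φ ∈ coeffSub (coeffRing N) := by
  obtain ⟨a, b, δ, ha, hδ, -, hdvd, h | h⟩ := famSet_eq_conj hf
  · rw [h]
    exact exists_infExp_conjJ b ha hδ (Dvd.dvd.trans (Dvd.intro_left a rfl) hdvd)
  · rw [h]
    exact exists_infExp_conjU b ha hδ (Dvd.dvd.trans (Dvd.intro_left a rfl) hdvd)

/-! ### Invariance under `Γ₀` -/

theorem herm_of_mem_Gamma0 {N d : ℕ} (hd : 0 < d) (hdN : d ∣ N) {γ : SL(2, ℤ)}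
    (hγ : γ ∈ CongruenceSubgroup.Gamma0 N) :
    H628.hermA d γ = d ∧ H628.hermB d γ = 0 ∧ H628.hermD d γ = 1 := by
  obtain ⟨h1, h2, h3⟩ := H628.herm_Gamma0_mul hd hdN hγ 1
  obtain ⟨k1, k2, k3⟩ := H628.herm_one hd
  rw [mul_one] at h1 h2 h3
  exact ⟨h1.trans k1, h2.trans k2, h3.trans k3⟩

theorem conjJ_Gamma0 {N d : ℕ} (hd : 0 < d) (hdN : d ∣ N) {γ : SL(2, ℤ)}
    (hγ : γ ∈ CongruenceSubgroup.Gamma0 N) (τ : ℍ) :
    conjJ d 0 1 (γ • τ) = conjJ d 0 1 τ := by
  obtain ⟨h1, h2, h3⟩ := herm_of_mem_Gamma0 hd hdN hγ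
  rw [conjJ_smul hd, h1, h2, h3]

theorem conjU_Gamma0 {N d : ℕ} (hd : 0 < d) (hdN : d ∣ N) {γ : SL(2, ℤ)}
    (hγ : γ ∈ CongruenceSubgroup.Gamma0 N) (τ : ℍ) :
    conjU d 0 1 (γ • τ) = conjU d 0 1 τ := by
  obtain ⟨h1, h2, h3⟩ := herm_of_mem_Gamma0 hd hdN hγ
  rw [conjU_smul hd, h1, h2, h3]

/-! ### The expansions of the base functions -/

theorem infExp_comp_scale {N : ℕ} (d : ℕ) [NeZero N] [NeZero d] {f : ℍ → ℂ}
    {φ : LaurentSeries ℂ} (hf : InfExp 1 f φ) :
    InfExp N (fun τ => f (infAff d 0 1 τ)) (qExpand ℂ N (qExpand ℂ d φ)) := by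
  have hN : 0 < N := Nat.pos_of_ne_zero (NeZero.ne N)
  have hd : 0 < d := Nat.pos_of_ne_zero (NeZero.ne d)
  haveI : NeZero (N * d) := ⟨(Nat.mul_pos hN hd).ne'⟩
  have h := InfExp.comp_infAff (M := 1) (N := N) (a := d) (d := 1) (e := N * d) 0 hd one_pos
    one_pos hN (by ring) hf
  rw [infRoot_zero, infTwist_one] at h
  rw [qExpand_qExpand]
  exact h

theorem infExp_conjJ_base (N d : ℕ) [NeZero N] [NeZero d] :
    InfExp N (conjJ d 0 1) (qExpand ℂ N (qExpand ℂ d (jqModC ℂ))) := by
  have h := infExp_comp_scale (N := N) d infExp_one_jFun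
  refine h.congr fun τ => ?_
  simp [conjJ]

theorem infExp_conjU_base (N d : ℕ) [NeZero N] [NeZero d] :
    InfExp N (conjU d 0 1)
      (qExpand ℂ N (qExpand ℂ d H565.deltaSeriesC) * qExpand ℂ N H565.deltaInvSeriesC) := by
  have h1 := infExp_comp_scale (N := N) d infExp_one_delta
  have h2 : InfExp N (fun τ => (Δ τ)⁻¹) (qExpand ℂ N H565.deltaInvSeriesC) :=
    infExp_level infExp_one_deltaInv
  refine (h1.mul h2).congr fun τ => ?_
  simp [conjU]

/-! ### The index type and the action of `SL(2,ℤ)` -/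

/-- The index type: the family itself. -/
def Idx (N : ℕ) : Type := {f : ℍ → ℂ // f ∈ famSet N}

/-- The family is finite. -/
def idxFintype (N : ℕ) [NeZero N] : Fintype (Idx N) := (famSet_finite N).fintype

/-- `γ` acts on the family by `f ↦ f ∘ γ⁻¹`. -/
def idxSmul {N : ℕ} (γ : SL(2, ℤ)) (i : Idx N) : Idx N :=
  ⟨fun τ => i.1 (γ⁻¹ • τ), famSet_smul i.2 γ⁻¹⟩

theorem idxSmul_val {N : ℕ} (γ : SL(2, ℤ)) (i : Idx N) (τ : ℍ) :
    (idxSmul γ i).1 τ = i.1 (γ⁻¹ • τ) := rfl

/-- The action as a `MulAction`. -/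
def idxAction (N : ℕ) : MulAction SL(2, ℤ) (Idx N) where
  smul := idxSmul
  one_smul i := by
    apply Subtype.ext
    funext τ
    show i.1 ((1 : SL(2, ℤ))⁻¹ • τ) = i.1 τ
    rw [inv_one, one_smul]
  mul_smul γ₁ γ₂ i := by
    apply Subtype.ext
    funext τ
    show i.1 ((γ₁ * γ₂)⁻¹ • τ) = i.1 (γ₂⁻¹ • γ₁⁻¹ • τ)
    rw [mul_inv_rev, mul_smul]

/-- The permutation representation on the index type. -/
def idxPerm (N : ℕ) : SL(2, ℤ) →* Equiv.Perm (Idx N) :=
  @MulAction.toPermHom SL(2, ℤ) (Idx N) _ (idxAction N)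

theorem idxPerm_val {N : ℕ} (γ : SL(2, ℤ)) (i : Idx N) (τ : ℍ) :
    (idxPerm N γ i).1 τ = i.1 (γ⁻¹ • τ) := rfl

/-- The expansion of a member of the family. -/
def genS (N : ℕ) [NeZero N] (i : Idx N) : LaurentSeries ℂ := Classical.choose (famSet_infExp i.2)

theorem genS_spec (N : ℕ) [NeZero N] (i : Idx N) : InfExp N i.1 (genS N i) :=
  (Classical.choose_spec (famSet_infExp i.2)).1

theorem genS_mem (N : ℕ) [NeZero N] (i : Idx N) : genS N i ∈ coeffSub (coeffRing N) :=
  (Classical.choose_spec (famSet_infExp i.2)).2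

theorem genS_eq {N : ℕ} [NeZero N] (i : Idx N) {φ : LaurentSeries ℂ} (h : InfExp N i.1 φ) :
    genS N i = φ :=
  (genS_spec N i).unique h

/-- The function attached to a polynomial in the members of the family. -/
def polyFun {N : ℕ} (p : MvPolynomial (Idx N) ℂ) (τ : ℍ) : ℂ :=
  MvPolynomial.eval (fun i : Idx N => i.1 τ) p

theorem infExp_polyFun {N : ℕ} [NeZero N] (p : MvPolynomial (Idx N) ℂ) :
    InfExp N (polyFun p) (MvPolynomial.aeval (genS N) p) :=
  H685.HasQLaurent.mvAeval (h := (N : ℝ)) (fun i : Idx N => i.1) (genS N)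
    (fun i => genS_spec N i) p

theorem infExp_polyFun_perm {N : ℕ} [NeZero N] (γ : SL(2, ℤ)) (p : MvPolynomial (Idx N) ℂ) :
    InfExp N (fun τ => polyFun p (γ⁻¹ • τ)) (MvPolynomial.aeval (genS N ∘ idxPerm N γ) p) :=
  H685.HasQLaurent.mvAeval (h := (N : ℝ)) (fun (i : Idx N) τ => i.1 (γ⁻¹ • τ))
    (genS N ∘ idxPerm N γ) (fun i => genS_spec N (idxPerm N γ i)) p

theorem family_rel {N : ℕ} [NeZero N] (γ : SL(2, ℤ)) (p : MvPolynomial (Idx N) ℂ)
    (h : MvPolynomial.aeval (genS N) p = 0) :
    MvPolynomial.aeval (genS N ∘ idxPerm N γ) p = 0 := by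
  have h1 := infExp_polyFun (N := N) p
  rw [h] at h1
  have h2 : polyFun p = fun _ => 0 := h1.fun_unique InfExp.zero
  have h3 := infExp_polyFun_perm γ p
  have h4 : (fun τ => polyFun p (γ⁻¹ • τ)) = fun _ => 0 := by
    funext τ
    rw [h2]
  rw [h4] at h3
  exact h3.unique InfExp.zero

theorem family_inv {N : ℕ} [NeZero N] (p : MvPolynomial (Idx N) ℂ)
    (h : ∀ γ : SL(2, ℤ),
      MvPolynomial.aeval (genS N ∘ idxPerm N γ) p = MvPolynomial.aeval (genS N) p) :
    MvPolynomial.aeval (genS N) p ∈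
      Algebra.adjoin ℂ ({qExpand ℂ N (jqModC ℂ)} : Set (LaurentSeries ℂ)) := by
  have h1 := infExp_polyFun (N := N) p
  have hinv : ∀ (γ : SL(2, ℤ)) (τ : ℍ), polyFun p (γ • τ) = polyFun p τ := by
    intro γ τ
    have h3 := infExp_polyFun_perm γ⁻¹ p
    rw [h γ⁻¹, inv_inv] at h3
    exact congrFun (h3.fun_unique h1) τ
  obtain ⟨Q, -, hQ⟩ := H565.exists_polynomial_of_invariant (N := N) (InfExp.mdiff748 h1) hinv h1
  rw [hQ]
  exact Polynomial.aeval_mem_adjoin_singleton _ _

theorem family_perm_T {N : ℕ} [NeZero N] (i : Idx N) :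
    genS N (idxPerm N ModularGroup.T i) = infTwist (infRoot (-1) N) (genS N i) := by
  apply genS_eq
  have h := (genS_spec N i).comp_translate (-1)
  refine h.congr fun τ => ?_
  rw [idxPerm_val]
  refine congrArg i.1 ?_
  apply UpperHalfPlane.ext
  rw [infAff_coe one_pos one_pos, H628.SL2_coe_smul]
  simp [ModularGroup.T]

end Fermat.Agent.S28.H748

end

end
-- ===== PACK-END S28/H748/Family.lean

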