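import Fermat.Prelude.Def_AlgebraicCurve_Correspondence
import Mathlib.NumberTheory.ModularForms.Basic
import Fermat.Prelude.Def_FLTPrelim_Ramification
import Fermat.Agent.Pack.S36.E12L2
import Fermat.Agent.Pack.S36.E12L1
import Fermat.Agent.Pack.S36.E12L0
import Fermat.Agent.Pack.S36.E0L0
import Fermat.Agent.Pack.S36.E12L3
import Fermat.Agent.Pack.S36.E1L3
import Fermat.Agent.Pack.S36.E10L1
import Fermat.Agent.Pack.S36.E7L1
import Fermat.Agent.Pack.S36.E11L3
import Fermat.Agent.Pack.S36.E8L0
import Fermat.Agent.Pack.S36.E6L2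
import Fermat.Agent.Pack.S36.E11L2
import Fermat.Agent.Pack.S36.E3L0
import Fermat.Agent.Pack.S36.E3L2
import Fermat.Agent.Pack.S36.E5L1
import Fermat.Agent.Pack.S36.E10L2

-- ===== PACK-BEGIN Lib/HI/H864/Along.lean
section





/-!
# Lib / HI (helper864): the five inputs of a correspondence, along an embedding

`K` algebraically closed of characteristic `0`, `φ : F →ₐ[K] F'` an embedding of function fields
of one variable (`x ∈ F` transcendental, `F / K(x)` and `F' / K(φ x)` finite).  Then, in the
language of the Prelude (`Def_AlgebraicCurve_Correspondence`):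

* `isIntegral_along_of_finite` : `φ.toRingHom.IsIntegral`
* `finiteAlong`                : `FiniteAlong K φ`
* `hasPrincipalDivisors`       : `HasPrincipalDivisors K F'`
* `fundamentalIdentityAlong`   : `FundamentalIdentityAlong K φ hφ`
* `normFormulaAlong`           : `NormFormulaAlong K φ hfin`
-/

set_option autoImplicit false
set_option linter.unusedSectionVars false
set_option linter.style.haveILetI false
set_option linter.unusedVariables false

noncomputable section

open AlgebraicCurve IsDedekindDomain IntermediateField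

namespace Fermat.Agent.Lib.HI.H864

open Fermat.Agent.S24

section Finite

variable {K F F' : Type*} [Field K] [Field F] [Field F'] [Algebra K F] [Algebra K F']
  [Algebra F F'] [IsScalarTower K F F']

/-- If `F'` is finite over `K(x')` with `x'` the image of `x ∈ F`, then `F'` is finite over `F`. -/
theorem finite_of_adjoin (x : F) [hfin : FiniteDimensional K⟮algebraMap F F' x⟯ F'] :
    FiniteDimensional F F' := by
  obtain ⟨s, hs⟩ := (Module.Finite.fg_top : (⊤ : Submodule K⟮algebraMap F F' x⟯ F').FG)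
  refine ⟨⟨s, ?_⟩⟩
  have hle : K⟮algebraMap F F' x⟯ ≤ (IsScalarTower.toAlgHom K F F').fieldRange := by
    rw [IntermediateField.adjoin_simple_le_iff]
    exact ⟨x, rfl⟩
  have key : ∀ y ∈ Submodule.span K⟮algebraMap F F' x⟯ (s : Set F'),
      y ∈ Submodule.span F (s : Set F') := by
    intro y hy
    induction hy using Submodule.span_induction with
    | mem z hz => exact Submodule.subset_span hz
    | zero => exact zero_mem _
    | add a b _ _ ha hb => exact add_mem ha hb
    | smul c z _ hz =>
      obtain ⟨c', hc'⟩ := hle c.2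
      have h1 : c • z = c' • z := by
        rw [Algebra.smul_def, Algebra.smul_def]
        congr 1
        exact hc'.symm
      rw [h1]
      exact Submodule.smul_mem _ _ hz
  rw [eq_top_iff]
  intro y _
  exact key y (by rw [hs]; trivial)

end Finite

section HPD

variable {K F : Type*} [Field K] [Field F] [Algebra K F] [IsAlgClosed K] [CharZero K]

/-- divisors of functions exist (finitely many zeros and poles) and have degree `0` -/
theorem exists_divisor (x : F) (hx : Transcendental K x)
    [FiniteDimensional ↥(IntermediateField.adjoin K {x}) F] (f : F) (hf : f ≠ 0) :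
    ∃ D : Divisor K F, (∀ v : Place K F, D v = v.ord f) ∧ Divisor.degree D = 0 := by
  classical
  suffices h : ∃ D : Divisor K F, ∀ v : Place K F, D v = v.ord f by
    obtain ⟨D, hD⟩ := h
    exact ⟨D, hD, S24.H864.degree_principal x hx f hf D hD⟩
  by_cases hfK : f ∈ (algebraMap K F).range
  · obtain ⟨c, rfl⟩ := hfK
    exact ⟨0, fun v => by rw [S24.FF.ord_algebraMap v c]; rfl⟩
  · have hft : Transcendental K f := S24.FF.transcendental_of_not_mem_range hfK
    haveI : FiniteDimensional ↥(IntermediateField.adjoin K {f}) F :=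
      S24.FF.finiteDimensional_adjoin_of_transcendental hx hft
    haveI : FiniteDimensional ↥(IntermediateField.adjoin K {f⁻¹}) F := by
      rw [S24.H864.adjoin_simple_inv_eq]; infer_instance
    obtain ⟨sp, hsp⟩ := S24.H864.exists_finset_zeros f hft
    obtain ⟨sn, hsn⟩ := S24.H864.exists_finset_zeros f⁻¹ (S24.H864.transcendental_inv hft)
    refine ⟨Finsupp.onFinset (sp ∪ sn) (fun v => v.ord f) ?_, fun v => rfl⟩
    intro v hv
    rw [Finset.mem_union, hsp, hsn, Place.ord_inv]
    omega

theorem hasPrincipalDivisors (x : F) (hx : Transcendental K x)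
    [FiniteDimensional ↥(IntermediateField.adjoin K {x}) F] : HasPrincipalDivisors K F :=
  ⟨fun f hf => exists_divisor x hx f hf⟩

end HPD

section Along

variable {K F F' : Type*} [Field K] [Field F] [Field F'] [Algebra K F] [Algebra K F']
  [IsAlgClosed K] [CharZero K]
variable (φ : F →ₐ[K] F') (x : F)

theorem transcendental_map (hx : Transcendental K x) : Transcendental K (φ x) := by
  intro h
  exact hx ((isAlgebraic_algHom_iff φ φ.injective).mp h)

theorem finiteAlong [hfin : FiniteDimensional K⟮φ x⟯ F'] : FiniteAlong K φ := by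
  unfold FiniteAlong
  letI := algebraAlong φ
  haveI := isScalarTower_along φ
  haveI : FiniteDimensional K⟮algebraMap F F' x⟯ F' := hfin
  exact finite_of_adjoin (K := K) x

theorem isIntegral_along_of_finite [hfin : FiniteDimensional K⟮φ x⟯ F'] :
    φ.toRingHom.IsIntegral := by
  letI := algebraAlong φ
  haveI : Module.Finite F F' := finiteAlong φ x
  exact (Algebra.IsIntegral.of_finite F F').isIntegral

theorem fundamentalIdentityAlong (hx : Transcendental K x) [FiniteDimensional K⟮x⟯ F]
    [hfin : FiniteDimensional K⟮φ x⟯ F'] [HasPrincipalDivisors K F']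
    (hφ : φ.toRingHom.IsIntegral) : FundamentalIdentityAlong K φ hφ := by
  unfold FundamentalIdentityAlong
  letI := algebraAlong φ
  haveI := isScalarTower_along φ
  haveI : FiniteDimensional F F' := finiteAlong φ x
  haveI : SumRamificationInertia K F F' :=
    sumRamificationInertia x hx (φ x) (transcendental_map φ x hx)
  exact instFundamentalIdentityOfSumRamificationInertia

theorem normFormulaAlong (hx : Transcendental K x) [FiniteDimensional K⟮x⟯ F]
    [hfin : FiniteDimensional K⟮φ x⟯ F']
    (hfin' : FiniteAlong K φ) : NormFormulaAlong K φ hfin' := by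
  unfold NormFormulaAlong
  letI := algebraAlong φ
  haveI := isScalarTower_along φ
  haveI : FiniteDimensional F F' := hfin'
  haveI : HasPrincipalDivisors K F' :=
    hasPrincipalDivisors (φ x) (transcendental_map φ x hx)
  exact pushforwardNormFormula x hx (φ x) (transcendental_map φ x hx)

end Along

end Fermat.Agent.Lib.HI.H864

end
end
-- ===== PACK-END Lib/HI/H864/Along.lean

-- ===== PACK-BEGIN S24/Alg/Open.lean
section



/-!
# S24 / ALG — the fundamental equality (FF1)

INTERFACE FILE (statement by helper984).  Proof: helper804's Dedekind dictionary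
(`Fermat.Agent.S24.FF.finite_setOf_ord_pos`, `Fermat.Agent.S24.FF.sum_ord_eq_finrank`).
-/

set_option autoImplicit false

noncomputable section

open AlgebraicCurve

namespace Fermat.Agent.S24

variable {K F : Type*} [Field K] [Field F] [Algebra K F] [IsAlgClosed K] [CharZero K]

/-- FF1 (fundamental equality): the zeros of a transcendental `t` are finite in number and
`∑_{v | t} ord_v t = [F : K(t)]`. -/
theorem open_fundamental_eq (t : F) (ht : Transcendental K t)
    [FiniteDimensional ↥(IntermediateField.adjoin K {t}) F] :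
    ∃ s : Finset (Place K F), (∀ v : Place K F, v ∈ s ↔ 0 < v.ord t) ∧
      ∑ v ∈ s, v.ord t = (Module.finrank ↥(IntermediateField.adjoin K {t}) F : ℤ) :=
  ⟨(FF.finite_setOf_ord_pos ht).toFinset, fun v => by simp,
    FF.sum_ord_eq_finrank ht _ (fun v => by simp)⟩

end Fermat.Agent.S24

end
end
-- ===== PACK-END S24/Alg/Open.lean

-- ===== PACK-BEGIN S29/H942/KummerChar.lean
section



/-!
# The Kummer character of a holomorphic function with invariant `p`-th power

If `c : ℍ → ℂ` is holomorphic, `c ≠ 0`, and `c ^ p` is invariant under a subgroup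
`Γ ≤ SL(2,ℤ)`, then `c (γ z) = κ γ * c z` for a unique character `κ : Γ →* ℂˣ` with `κ ^ p = 1`.
-/

set_option autoImplicit false

noncomputable section

open Filter Topology Set Complex Function UpperHalfPlane ModularForm
open scoped Manifold MatrixGroups

namespace Fermat.Agent.S29.H942

lemma mdiff_comp_smul {c : ℍ → ℂ} (hc : MDiff c) (γ : SL(2, ℤ)) :
    MDiff (fun z : ℍ => c (γ • z)) := by
  have h := MDifferentiable.slash hc 0 (γ : GL (Fin 2) ℝ)
  have h2 : (c ∣[(0 : ℤ)] (γ : GL (Fin 2) ℝ)) = fun z : ℍ => c (γ • z) := by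
    funext z
    rw [← SL_slash, SL_slash_apply]
    simp
  rwa [h2] at h

lemma exists_ne_zero_of_ne_zero {c : ℍ → ℂ} (hc0 : c ≠ 0) : ∃ z : ℍ, c z ≠ 0 := by
  by_contra h
  simp only [not_exists, not_not] at h
  exact hc0 (funext h)

/-- **Kummer character.** -/
theorem exists_kummerChar (Γ : Subgroup SL(2, ℤ)) {c : ℍ → ℂ} (hc : MDiff c) (hc0 : c ≠ 0)
    {p : ℕ} (hp : p ≠ 0)
    (hinv : ∀ γ ∈ Γ, ∀ z : ℍ, c (γ • z) ^ p = c z ^ p) :
    ∃ κ : Γ →* ℂˣ, (∀ γ, κ γ ^ p = 1) ∧
      ∀ (γ : Γ) (z : ℍ), c ((γ : SL(2, ℤ)) • z) = ((κ γ : ℂˣ) : ℂ) * c z := by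
  obtain ⟨z₀, hz₀⟩ := exists_ne_zero_of_ne_zero hc0
  have h1 : ∀ γ : Γ, ∃ ζ : ℂ, ζ ^ p = 1 ∧
      (fun z : ℍ => c ((γ : SL(2, ℤ)) • z)) = fun z => ζ * c z := by
    intro γ
    refine holomorphic_root_unique hc (mdiff_comp_smul hc γ) hc0 hp ?_
    funext z
    simp only [Pi.pow_apply]
    exact (hinv γ γ.2 z).symm
  choose ζ hζ hζc using h1
  have hζ0 : ∀ γ, ζ γ ≠ 0 := by
    intro γ h0
    have := hζ γ
    rw [h0, zero_pow hp] at this
    exact zero_ne_one this
  have hζapp : ∀ (γ : Γ) (z : ℍ), c ((γ : SL(2, ℤ)) • z) = ζ γ * c z := fun γ z =>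
    congrFun (hζc γ) z
  have hone : ζ 1 = 1 := by
    have := hζapp 1 z₀
    simp only [Subgroup.coe_one, one_smul] at this
    have h2 : (ζ 1 - 1) * c z₀ = 0 := by rw [sub_mul, one_mul, ← this, sub_self]
    rcases mul_eq_zero.1 h2 with h | h
    · exact sub_eq_zero.1 h
    · exact absurd h hz₀
  have hmul : ∀ γ δ : Γ, ζ (γ * δ) = ζ γ * ζ δ := by
    intro γ δ
    have h2 := hζapp (γ * δ) z₀
    rw [Subgroup.coe_mul, mul_smul, hζapp γ, hζapp δ] at h2
    have h3 : (ζ (γ * δ) - ζ γ * ζ δ) * c z₀ = 0 := by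
      rw [sub_mul, ← h2]
      ring
    rcases mul_eq_zero.1 h3 with h | h
    · exact sub_eq_zero.1 h
    · exact absurd h hz₀
  refine ⟨{ toFun := fun γ => Units.mk0 (ζ γ) (hζ0 γ)
            map_one' := by
              apply Units.ext
              simpa using hone
            map_mul' := fun γ δ => by
              apply Units.ext
              simpa using hmul γ δ }, fun γ => ?_, fun γ z => ?_⟩
  · apply Units.ext
    simpa using hζ γ
  · simpa using hζapp γ z

end Fermat.Agent.S29.H942

end
end
-- ===== PACK-END S29/H942/KummerChar.lean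

-- ===== PACK-BEGIN S18/H333/HauptMem.lean
section



/-!
# S18 / c3 (helper333): `t₂ ∈ K(j, j(q²))`, `t₃ ∈ K(j, j(q³))`

For every field `K`:
* `t2 K, t3 K : LaurentSeries K` (images of `t2Z`, `t3Z`), with the four relations
  `t2_rel_a`, `t2_rel_b`, `t3_rel_a`, `t3_rel_b`;
* `t2_mem_full : (2 : K) ≠ 0 → 2 ∣ M → t2 K ∈ modularFunctionFieldFullC K M`;
* `t3_mem_full : (3 : K) ≠ 0 → 3 ∣ M → t3 K ∈ modularFunctionFieldFullC K M`.
Proof: explicit elimination `D t + N = 0` (HauptElim) and `D ≠ 0`, because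
`D Δ² Δ₂² = -2²⁴ q⁵ + …`  resp.  `D Δ⁵ Δ₃³ = -3¹⁸ q⁷ + …`  (kernel computation).
-/

set_option autoImplicit false

noncomputable section

namespace Fermat.Agent.S18.H333

open PowerSeries ModularCurve HahnSeries

/-! ### two more truncation rules -/

theorem tl_ofNat (n : ℕ) (c : ℕ) [c.AtLeastTwo] :
    tl n (ofNat(c) : PowerSeries ℤ) = tsmul n (ofNat(c)) (tone n) := by
  rw [← tl_one, ← tl_smul]
  congr 1
  rw [zsmul_eq_mul, mul_one, Int.cast_ofNat]

theorem tl_neg (n : ℕ) (f : PowerSeries ℤ) : tl n (-f) = tsmul n (-1) (tl n f) := by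
  rw [← tl_smul]
  congr 1
  simp

/-! ### the numerators of `D` -/

/-- `D₂ Δ² Δ₂²` -/
def P2 : PowerSeries ℤ := elimDh2 (Ez ^ 3) Dz (Vser 2 Ez ^ 3) (Vser 2 Dz)

/-- `D₃ Δ⁵ Δ₃³` -/
def P3 : PowerSeries ℤ := elimDh3 (Ez ^ 3) Dz (Vser 3 Ez ^ 3) (Vser 3 Dz)

theorem tl_Ez_8 : tl 8 Ez = [1, 240, 2160, 6720, 17520, 30240, 60480, 82560] := by
  rw [tl_Ez]; decide +kernel

theorem tl_Dz_8 : tl 8 Dz = [0, 1, -24, 252, -1472, 4830, -6048, -16744] := by
  rw [tl_Dz]; decide +kernel

theorem tl_Ez_6 : tl 6 Ez = [1, 240, 2160, 6720, 17520, 30240] := by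
  rw [tl_Ez]; decide +kernel

theorem tl_Dz_6 : tl 6 Dz = [0, 1, -24, 252, -1472, 4830] := by
  rw [tl_Dz]; decide +kernel

theorem tl_P2 : tl 6 P2 = [0, 0, 0, 0, 0, -16777216] := by
  rw [P2, elimDh2]
  simp only [tl_sub, tl_mul, tl_pow, tl_add, tl_neg, tl_ofNat,
    tl_Vser _ _ (show 0 < 2 by norm_num), tl_Dz_6, tl_Ez_6]
  decide +kernel

theorem tl_P3 : tl 8 P3 = [0, 0, 0, 0, 0, 0, 0, -387420489] := by
  rw [P3, elimDh3]
  simp only [tl_sub, tl_mul, tl_pow, tl_add, tl_neg, tl_ofNat,
    tl_Vser _ _ (show 0 < 3 by norm_num), tl_Dz_8, tl_Ez_8]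
  decide +kernel

theorem coeff_P2 : PowerSeries.coeff 5 P2 = -16777216 := by
  have h := tl_getD 6 P2 (i := 5) (by norm_num)
  rw [tl_P2] at h
  simpa using h.symm

theorem coeff_P3 : PowerSeries.coeff 7 P3 = -387420489 := by
  have h := tl_getD 8 P3 (i := 7) (by norm_num)
  rw [tl_P3] at h
  simpa using h.symm

theorem elimD2_mul : elimD2 (jqModC ℤ) (qExpand ℤ 2 (jqModC ℤ)) * DL ^ 2 * qExpand ℤ 2 DL ^ 2
    = ιZ P2 := by
  rw [elimD2_hom, jZ_mul_DL, qExpand_jZ_mul, P2, map_elimDh2, ← qExpand_ιZ 2 Dz]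
  rfl

theorem elimD3_mul : elimD3 (jqModC ℤ) (qExpand ℤ 3 (jqModC ℤ)) * DL ^ 5 * qExpand ℤ 3 DL ^ 3
    = ιZ P3 := by
  rw [elimD3_hom, jZ_mul_DL, qExpand_jZ_mul, P3, map_elimDh3, ← qExpand_ιZ 3 Dz]
  rfl

/-! ### over a field -/

section Field

variable (K : Type*) [Field K]

/-- `t₂` over `K` -/
def t2 : LaurentSeries K := coeffMap (Int.castRingHom K) t2Z

/-- `t₃` over `K` -/
def t3 : LaurentSeries K := coeffMap (Int.castRingHom K) t3Z

theorem t2_rel_a : jqModC K * t2 K ^ 2 = (t2 K + 256) ^ 3 := by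
  have h := congrArg (coeffMap (Int.castRingHom K)) t2Z_rel_a
  simpa only [t2, map_mul, map_pow, map_add, map_ofNat, coeffMap_jqModC] using h

theorem t2_rel_b : qExpand K 2 (jqModC K) * t2 K = (t2 K + 16) ^ 3 := by
  have h := congrArg (coeffMap (Int.castRingHom K)) t2Z_rel_b
  simpa only [t2, map_mul, map_pow, map_add, map_ofNat, coeffMap_jqModC, coeffMap_qExpand] using h

theorem t3_rel_a : jqModC K * t3 K ^ 3 = (t3 K + 27) * (t3 K + 243) ^ 3 := by
  have h := congrArg (coeffMap (Int.castRingHom K)) t3Z_rel_a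
  simpa only [t3, map_mul, map_pow, map_add, map_ofNat, coeffMap_jqModC] using h

theorem t3_rel_b : qExpand K 3 (jqModC K) * t3 K = (t3 K + 27) * (t3 K + 3) ^ 3 := by
  have h := congrArg (coeffMap (Int.castRingHom K)) t3Z_rel_b
  simpa only [t3, map_mul, map_pow, map_add, map_ofNat, coeffMap_jqModC, coeffMap_qExpand] using h

theorem coeffMap_ιZ_coeff (P : PowerSeries ℤ) (n : ℕ) :
    (coeffMap (Int.castRingHom K) (ιZ P)).coeff (n : ℤ) = ((PowerSeries.coeff n P : ℤ) : K) := by
  rw [coeffMap_coeff, ιZ_coeff_nat]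
  rfl

theorem elimD2_ne_zero (h2 : (2 : K) ≠ 0) :
    elimD2 (jqModC K) (qExpand K 2 (jqModC K)) ≠ 0 := by
  intro h0
  have h := congrArg (coeffMap (Int.castRingHom K)) elimD2_mul
  rw [map_mul, map_mul, map_elimD2, coeffMap_jqModC, coeffMap_qExpand, coeffMap_jqModC, h0,
    zero_mul, zero_mul] at h
  have h5 := congrArg (fun x : LaurentSeries K => x.coeff ((5 : ℕ) : ℤ)) h
  simp only [coeffMap_ιZ_coeff, coeff_P2] at h5
  have : ((-16777216 : ℤ) : K) = -(2 : K) ^ 24 := by push_cast; norm_num
  rw [this] at h5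
  exact neg_ne_zero.mpr (pow_ne_zero 24 h2) h5.symm

theorem elimD3_ne_zero (h3 : (3 : K) ≠ 0) :
    elimD3 (jqModC K) (qExpand K 3 (jqModC K)) ≠ 0 := by
  intro h0
  have h := congrArg (coeffMap (Int.castRingHom K)) elimD3_mul
  rw [map_mul, map_mul, map_elimD3, coeffMap_jqModC, coeffMap_qExpand, coeffMap_jqModC, h0,
    zero_mul, zero_mul] at h
  have h5 := congrArg (fun x : LaurentSeries K => x.coeff ((7 : ℕ) : ℤ)) h
  simp only [coeffMap_ιZ_coeff, coeff_P3] at h5
  have : ((-387420489 : ℤ) : K) = -(3 : K) ^ 18 := by push_cast; norm_num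
  rw [this] at h5
  exact neg_ne_zero.mpr (pow_ne_zero 18 h3) h5.symm

/-- explicit formula: `t₂ = -N₂(j, j₂) / D₂(j, j₂)` -/
theorem t2_eq (h2 : (2 : K) ≠ 0) :
    t2 K = -elimN2 (jqModC K) (qExpand K 2 (jqModC K))
      / elimD2 (jqModC K) (qExpand K 2 (jqModC K)) := by
  have h := elim2 (t2 K) _ _ (t2_rel_a K) (t2_rel_b K)
  rw [eq_div_iff (elimD2_ne_zero K h2)]
  linear_combination h

/-- explicit formula: `t₃ = -N₃(j, j₃) / D₃(j, j₃)` -/
theorem t3_eq (h3 : (3 : K) ≠ 0) :
    t3 K = -elimN3 (jqModC K) (qExpand K 3 (jqModC K))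
      / elimD3 (jqModC K) (qExpand K 3 (jqModC K)) := by
  have h := elim3 (t3 K) _ _ (t3_rel_a K) (t3_rel_b K)
  rw [eq_div_iff (elimD3_ne_zero K h3)]
  linear_combination h

variable {K} in
theorem elimD2_mem (F : IntermediateField K (LaurentSeries K)) {j J : LaurentSeries K}
    (hj : j ∈ F) (hJ : J ∈ F) : elimD2 j J ∈ F := by
  have := map_elimD2 (algebraMap F (LaurentSeries K)) ⟨j, hj⟩ ⟨J, hJ⟩
  exact this ▸ (elimD2 (⟨j, hj⟩ : F) ⟨J, hJ⟩).2

variable {K} in
theorem elimN2_mem (F : IntermediateField K (LaurentSeries K)) {j J : LaurentSeries K}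
    (hj : j ∈ F) (hJ : J ∈ F) : elimN2 j J ∈ F := by
  have := map_elimN2 (algebraMap F (LaurentSeries K)) ⟨j, hj⟩ ⟨J, hJ⟩
  exact this ▸ (elimN2 (⟨j, hj⟩ : F) ⟨J, hJ⟩).2

variable {K} in
theorem elimD3_mem (F : IntermediateField K (LaurentSeries K)) {j J : LaurentSeries K}
    (hj : j ∈ F) (hJ : J ∈ F) : elimD3 j J ∈ F := by
  have := map_elimD3 (algebraMap F (LaurentSeries K)) ⟨j, hj⟩ ⟨J, hJ⟩
  exact this ▸ (elimD3 (⟨j, hj⟩ : F) ⟨J, hJ⟩).2

variable {K} in
theorem elimN3_mem (F : IntermediateField K (LaurentSeries K)) {j J : LaurentSeries K}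
    (hj : j ∈ F) (hJ : J ∈ F) : elimN3 j J ∈ F := by
  have := map_elimN3 (algebraMap F (LaurentSeries K)) ⟨j, hj⟩ ⟨J, hJ⟩
  exact this ▸ (elimN3 (⟨j, hj⟩ : F) ⟨J, hJ⟩).2

/-- **`t₂` is a modular function of level `M`** (`2 ∣ M`, `char K ≠ 2`). -/
theorem t2_mem_full (h2 : (2 : K) ≠ 0) (M : ℕ) (hM : 2 ∣ M) :
    t2 K ∈ modularFunctionFieldFullC K M := by
  have hj : jqModC K ∈ modularFunctionFieldFullC K M := jqModC_mem_full K M
  have hJ : qExpand K 2 (jqModC K) ∈ modularFunctionFieldFullC K M := jqModCd_mem_full K M hM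
  rw [t2_eq K h2]
  exact div_mem (neg_mem (elimN2_mem _ hj hJ)) (elimD2_mem _ hj hJ)

/-- **`t₃` is a modular function of level `M`** (`3 ∣ M`, `char K ≠ 3`). -/
theorem t3_mem_full (h3 : (3 : K) ≠ 0) (M : ℕ) (hM : 3 ∣ M) :
    t3 K ∈ modularFunctionFieldFullC K M := by
  have hj : jqModC K ∈ modularFunctionFieldFullC K M := jqModC_mem_full K M
  have hJ : qExpand K 3 (jqModC K) ∈ modularFunctionFieldFullC K M := jqModCd_mem_full K M hM
  rw [t3_eq K h3]
  exact div_mem (neg_mem (elimN3_mem _ hj hJ)) (elimD3_mem _ hj hJ)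

end Field

end Fermat.Agent.S18.H333

end
end
-- ===== PACK-END S18/H333/HauptMem.lean

-- ===== PACK-BEGIN Lib/RR/H443/Bridge.lean
section




/-!
# RR bridge (helper443), part 4: `FF1 K F` in ANY characteristic

For `K` algebraically closed (of any characteristic) and `F` a finite extension of `K(x)`, `x`
transcendental over `K`:

* `hasPrincipalDivisors_of_isAlgClosed` : `HasPrincipalDivisors K F`
  (finitely many zeros and poles, principal divisors have degree `0`);
* `ff1_of_isAlgClosed` : the standing hypotheses `FF1 K F` of the RR library;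
* `sum_ord_zeros_eq_finrank'`, `sum_ord_poles_eq_finrank'` : the fundamental identity
  `∑_{v(x) > 0} ord_v x = [F : K(x)] = ∑_{v(x) < 0} -ord_v x`;
* `exists_place_ord_pos'`, `exists_place_ord_neg'` : existence of zeros and poles.

No separability, no Dedekind domains: only valuation theory (Stichtenoth, Ch. 1).
-/

set_option autoImplicit false

noncomputable section

open AlgebraicCurve Polynomial IntermediateField
open Fermat.Agent.Lib.RR

namespace Fermat.Agent.Lib.RR.H443

variable {K F : Type*} [Field K] [Field F] [Algebra K F]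

/-- Layer L2 of the RR library gives the zeros bound. -/
theorem zerosBound (hdeg : ∀ v : Place K F, v.deg = 1) : ZerosBound K F :=
  fun x _ S hS => sum_ord_le_finrank hdeg x S hS

variable [IsAlgClosed K]

/-- The hypotheses of the bridge hold over an algebraically closed constant field. -/
theorem hyp_of_isAlgClosed {x : F} (hx : Transcendental K x) [FiniteDimensional K⟮x⟯ F] :
    Hyp K F where
  deg_eq_one := fun v => S24.FF.deg_eq_one v hx
  finite := fun _ hy => S24.FF.finiteDimensional_adjoin_of_transcendental hx hy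
  const := fun _ hf => S24.FF.mem_range_of_isAlgebraic hf

/-- **`FF1 K F` in any characteristic.** -/
theorem ff1_of_isAlgClosed {x : F} (hx : Transcendental K x) [FiniteDimensional K⟮x⟯ F] :
    FF1 K F :=
  ff1_of_hyp (hyp_of_isAlgClosed hx) (zerosBound (hyp_of_isAlgClosed hx).deg_eq_one) hx

/-- **`HasPrincipalDivisors K F` in any characteristic.** -/
theorem hasPrincipalDivisors_of_isAlgClosed {x : F} (hx : Transcendental K x)
    [FiniteDimensional K⟮x⟯ F] : HasPrincipalDivisors K F :=
  hasPrincipalDivisors (hyp_of_isAlgClosed hx) (zerosBound (hyp_of_isAlgClosed hx).deg_eq_one)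

/-- Every place has degree one. -/
theorem deg_eq_one_of_isAlgClosed {x : F} (hx : Transcendental K x) [FiniteDimensional K⟮x⟯ F]
    (v : Place K F) : v.deg = 1 :=
  S24.FF.deg_eq_one v hx

/-- Every nonconstant function has a zero. -/
theorem exists_place_ord_pos' {x : F} (hx : Transcendental K x) [FiniteDimensional K⟮x⟯ F]
    {t : F} (ht : Transcendental K t) : ∃ v : Place K F, 0 < v.ord t :=
  exists_place_ord_pos (hyp_of_isAlgClosed hx).finite ht

/-- Every nonconstant function has a pole. -/
theorem exists_place_ord_neg' {x : F} (hx : Transcendental K x) [FiniteDimensional K⟮x⟯ F]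
    {t : F} (ht : Transcendental K t) : ∃ v : Place K F, v.ord t < 0 :=
  exists_place_ord_neg (hyp_of_isAlgClosed hx).finite ht

/-- Finitely many zeros and poles. -/
theorem finite_setOf_ord_ne_zero {x : F} (hx : Transcendental K x) [FiniteDimensional K⟮x⟯ F]
    (f : F) : {v : Place K F | v.ord f ≠ 0}.Finite := by
  have h := hyp_of_isAlgClosed hx
  have hZ := zerosBound h.deg_eq_one
  refine ((finite_zeros h hZ f).union (finite_poles h hZ f)).subset fun v hv => ?_
  have hv' : v.ord f ≠ 0 := hv
  rcases lt_or_gt_of_ne hv' with h1 | h1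
  · exact Or.inr h1
  · exact Or.inl h1

/-- **Fundamental identity at the zeros** (any characteristic). -/
theorem sum_ord_zeros_eq_finrank' {x : F} (hx : Transcendental K x) [FiniteDimensional K⟮x⟯ F]
    (S : Finset (Place K F)) (hS : ∀ v, v ∈ S ↔ 0 < v.ord x) :
    ∑ v ∈ S, v.ord x = (Module.finrank K⟮x⟯ F : ℤ) :=
  sum_ord_zeros_eq_finrank (hyp_of_isAlgClosed hx)
    (zerosBound (hyp_of_isAlgClosed hx).deg_eq_one) hx S hS

/-- **Fundamental identity at the poles** (any characteristic). -/
theorem sum_ord_poles_eq_finrank' {x : F} (hx : Transcendental K x) [FiniteDimensional K⟮x⟯ F]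
    (S : Finset (Place K F)) (hS : ∀ v, v ∈ S ↔ v.ord x < 0) :
    ∑ v ∈ S, -v.ord x = (Module.finrank K⟮x⟯ F : ℤ) :=
  sum_ord_poles_eq_finrank (hyp_of_isAlgClosed hx)
    (zerosBound (hyp_of_isAlgClosed hx).deg_eq_one) hx S hS

/-- Every valuation subring `≠ ⊤` of `F` containing `K` is (the ring of) a place. -/
theorem exists_place_eq (O : ValuationSubring F) (hK : ∀ a : K, algebraMap K F a ∈ O)
    (hO : O ≠ ⊤) {x : F} (hx : Transcendental K x) [FiniteDimensional K⟮x⟯ F] :
    ∃ v : Place K F, v.toValuationSubring = O :=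
  ⟨placeOfValuationSubring O hK hO (hyp_of_isAlgClosed hx).finite, rfl⟩

end Fermat.Agent.Lib.RR.H443

end
end
-- ===== PACK-END Lib/RR/H443/Bridge.lean

-- ===== PACK-BEGIN A2/H313/Const.lean
section



/-!
# A2 / route G, leaf CONST (helper313): `ConstConclusion` in the exact `GSpec` form

`H12.GSpec.ConstConclusion L x` asks, for a cover `L / F`:

* `closed` : `R` is integrally closed in `L`;
* `finite` : `L` is finite over `baseField R x_L`.

Here:

* `finiteDimensional_baseField_tower` : `F` finite over `baseField R x` and `L` finite over `F`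
  imply `L` finite over `baseField R (algebraMap F L x)` (no hypothesis on `R`).
* `closed_of_sheet` : `R` a henselian DVR with algebraically closed residue field, `L ⊇ R` a field
  of characteristic `0`, `W` a valuation subring of `L` containing `R` whose non-units are the
  multiples of `w` (a sheet with `e = 1`): `R` is integrally closed in `L` (`hens_integral`).
* `constConclusion_of_sheets` : `SheetsConclusion L w x` + one sheet of `F` ⇒ `ConstConclusion L x`.
* `hConst_of_hSheets` : the hypothesis `hConst` of `H12.algG` from its hypothesis `hSheets`.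
-/

set_option autoImplicit false
set_option linter.style.haveILetI false

namespace Fermat.Agent.A2.H313

open Fermat.Agent.S18.H138 (baseField)
open Fermat.Agent.A2.H12

universe u

section Finite

variable {R : Type*} [CommRing R] {F : Type*} [Field F] [Algebra R F]
  {L : Type*} [Field L] [Algebra F L] [Algebra R L] [IsScalarTower R F L]

/-- The image of `baseField R x` in a cover lies in `baseField R x_L`. -/
theorem algebraMap_mem_baseField (x : F) {a : F} (ha : a ∈ baseField R x) :
    algebraMap F L a ∈ baseField R (algebraMap F L x) := by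
  have hle : baseField R x ≤
      Subfield.comap (algebraMap F L) (baseField R (algebraMap F L x)) := by
    refine Subfield.closure_le.2 ?_
    rintro y (⟨r, rfl⟩ | hy)
    · rw [SetLike.mem_coe, Subfield.mem_comap, ← IsScalarTower.algebraMap_apply]
      exact Subfield.subset_closure (Or.inl ⟨r, rfl⟩)
    · rw [Set.mem_singleton_iff] at hy
      subst hy
      rw [SetLike.mem_coe, Subfield.mem_comap]
      exact Subfield.subset_closure (Or.inr rfl)
  exact hle ha

/-- **CONST, finiteness part.**  `L / F` finite and `F / baseField R x` finite imply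
`L / baseField R x_L` finite. -/
theorem finiteDimensional_baseField_tower (x : F) [FiniteDimensional (baseField R x) F]
    [FiniteDimensional F L] : FiniteDimensional (baseField R (algebraMap F L x)) L := by
  let φ : baseField R x →+* baseField R (algebraMap F L x) :=
    ((algebraMap F L).comp (baseField R x).subtype).codRestrict _
      (fun a => algebraMap_mem_baseField (R := R) (L := L) x a.2)
  letI : Algebra (baseField R x) (baseField R (algebraMap F L x)) := φ.toAlgebra
  haveI : IsScalarTower (baseField R x) (baseField R (algebraMap F L x)) L := by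
    refine ⟨fun a b c => ?_⟩
    have h1 : ((a • b : baseField R (algebraMap F L x)) : L) = algebraMap F L (a : F) * (b : L) := by
      rw [Algebra.smul_def]
      rfl
    rw [Subfield.smul_def, h1, Subfield.smul_def, Subfield.smul_def, smul_eq_mul, smul_eq_mul,
      Algebra.smul_def, mul_assoc]
  haveI : Module.Finite (baseField R x) L := Module.Finite.trans (R := baseField R x) F L
  exact Module.Finite.of_restrictScalars_finite (baseField R x) (baseField R (algebraMap F L x)) L

/-- With `E = Frac R`: `baseField R x` is the field `E(x)`. -/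
theorem baseField_eq_adjoin (E : Type*) [Field E] [Algebra R E] [IsFractionRing R E]
    [Algebra E F] [IsScalarTower R E F] (x : F) :
    baseField R x = (IntermediateField.adjoin E ({x} : Set F)).toSubfield := by
  rw [IntermediateField.adjoin_toSubfield]
  apply le_antisymm
  · refine Subfield.closure_mono (Set.union_subset_union_left _ ?_)
    rintro _ ⟨r, rfl⟩
    exact ⟨algebraMap R E r, (IsScalarTower.algebraMap_apply R E F r).symm⟩
  · refine Subfield.closure_le.2 ?_
    rintro y (⟨e, rfl⟩ | hy)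
    · obtain ⟨a, b, -, rfl⟩ := IsFractionRing.div_surjective (A := R) e
      rw [map_div₀, ← IsScalarTower.algebraMap_apply, ← IsScalarTower.algebraMap_apply]
      exact (baseField R x).div_mem (Subfield.subset_closure (Or.inl ⟨a, rfl⟩))
        (Subfield.subset_closure (Or.inl ⟨b, rfl⟩))
    · exact Subfield.subset_closure (Or.inr hy)

/-- `F` finite over `E(x)` (as in `AlgSSStatement`) implies `F` finite over `baseField R x`
(as in `H12.algG`, `H729`, `H348`). -/
theorem finiteDimensional_baseField_of_adjoin (E : Type*) [Field E] [Algebra R E]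
    [IsFractionRing R E] [Algebra E F] [IsScalarTower R E F] (x : F)
    [FiniteDimensional (IntermediateField.adjoin E ({x} : Set F)) F] :
    FiniteDimensional (baseField R x) F := by
  have hle : ∀ a : IntermediateField.adjoin E ({x} : Set F), (a : F) ∈ baseField R x := by
    intro a
    rw [baseField_eq_adjoin E x]
    exact a.2
  let φ : IntermediateField.adjoin E ({x} : Set F) →+* baseField R x :=
    (algebraMap (IntermediateField.adjoin E ({x} : Set F)) F).codRestrict _ hle
  letI : Algebra (IntermediateField.adjoin E ({x} : Set F)) (baseField R x) := φ.toAlgebra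
  haveI : IsScalarTower (IntermediateField.adjoin E ({x} : Set F)) (baseField R x) F := by
    refine ⟨fun a b c => ?_⟩
    have h1 : ((a • b : baseField R x) : F) = (a : F) * (b : F) := by
      rw [Algebra.smul_def]
      rfl
    rw [Subfield.smul_def, h1, Subfield.smul_def, smul_eq_mul, smul_eq_mul,
      Algebra.smul_def, mul_assoc]
    rfl
  exact Module.Finite.of_restrictScalars_finite (IntermediateField.adjoin E ({x} : Set F))
    (baseField R x) F

end Finite

section Closed

variable {R : Type*} [CommRing R] [IsDomain R] [IsDiscreteValuationRing R]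
  [HenselianLocalRing R] [IsAlgClosed (IsLocalRing.ResidueField R)]
  {L : Type*} [Field L] [CharZero L] [Algebra R L]

/-- **CONST, constants part.**  If some valuation subring `W` of `L` contains `R` and has
`𝔪_W = w W`, then `R` is integrally closed in `L` (indeed algebraically closed in `W`). -/
theorem closed_of_sheet (hinj : Function.Injective (algebraMap R L))
    (w : R) (hw : Irreducible w) (W : ValuationSubring L)
    (hRW : ∀ r : R, algebraMap R L r ∈ W)
    (hw1 : algebraMap R L w ∈ W.nonunits)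
    (hw2 : ∀ a ∈ W.nonunits, ∃ b ∈ W, a = algebraMap R L w * b)
    (y : L) (hy : IsIntegral R y) : y ∈ Set.range (algebraMap R L) := by
  haveI : FaithfulSMul R L := (faithfulSMul_iff_algebraMap_injective R L).2 hinj
  letI : Algebra (FractionRing R) L := FractionRing.liftAlgebra R L
  haveI : IsScalarTower R (FractionRing R) L := FractionRing.isScalarTower_liftAlgebra R L
  haveI : CharZero (FractionRing R) := (algebraMap (FractionRing R) L).charZero
  -- `y ∈ W`, since `W` is integrally closed and contains `R`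
  have hyW : y ∈ W := by
    obtain ⟨p, hp, hpy⟩ := hy
    let g : R →+* W := (algebraMap R L).codRestrict W.toSubring hRW
    have hint : IsIntegral W y := by
      refine ⟨p.map g, hp.map g, ?_⟩
      rw [Polynomial.eval₂_map]
      exact hpy
    obtain ⟨z, hz⟩ := (IsIntegrallyClosed.isIntegral_iff (R := W) (K := L)).1 hint
    rw [← hz]
    exact z.2
  have hyalg : IsAlgebraic (FractionRing R) y :=
    (hy.tower_top (A := FractionRing R)).isAlgebraic
  exact hens_integral (E := FractionRing R) w hw W hRW hw1 hw2 y hyW hyalg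

end Closed

section Leaf

variable {R : Type u} [CommRing R] [IsDomain R] [IsDiscreteValuationRing R]
  [HenselianLocalRing R] [IsAlgClosed (IsLocalRing.ResidueField R)]
  {F : Type u} [Field F] [Algebra R F] [CharZero F]

/-- **Leaf CONST of route G** for one cover: from the leaf SHEETS (only `exists_over` and `unif`
are used) and the existence of one sheet of `F`. -/
theorem constConclusion_of_sheets
    (L : Type u) [Field L] [Algebra F L] [Algebra R L] [IsScalarTower R F L]
    [FiniteDimensional F L]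
    (hinj : Function.Injective (algebraMap R F))
    (w : R) (hw : Prime w) (x : F) [FiniteDimensional (baseField R x) F]
    (hsheet : ∃ V : ValuationSubring F, IsSheet w x V)
    (hS : SheetsConclusion L w x) : ConstConclusion (R := R) L x where
  closed := by
    obtain ⟨V, hV⟩ := hsheet
    obtain ⟨W, hW, -⟩ := hS.exists_over V hV
    haveI : CharZero L := charZero_of_injective_algebraMap (algebraMap F L).injective
    have hinjL : Function.Injective (algebraMap R L) := by
      rw [IsScalarTower.algebraMap_eq R F L]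
      exact (algebraMap F L).injective.comp hinj
    exact closed_of_sheet hinjL w hw.irreducible W hW.1 hW.2.2.1 (hS.unif W hW)
  finite := finiteDimensional_baseField_tower x

/-- **Leaf CONST of route G**, in the exact shape of the hypothesis `hConst` of `H12.algG`,
from its hypothesis `hSheets` (and `hsheet`). -/
theorem hConst_of_hSheets
    (hinj : Function.Injective (algebraMap R F))
    (w : R) (hw : Prime w) (x : F) [FiniteDimensional (baseField R x) F] (m : ℕ)
    (hsheet : ∃ V : ValuationSubring F, IsSheet w x V)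
    (hSheets : ∀ (L : Type u) [Field L] [Algebra F L] [Algebra R L] [IsScalarTower R F L],
      IsKummerSplit L w x m → SheetsConclusion L w x) :
    ∀ (L : Type u) [Field L] [Algebra F L] [Algebra R L] [IsScalarTower R F L],
      IsKummerSplit L w x m → ConstConclusion (R := R) L x := by
  intro L _ _ _ _ hKS
  haveI := hKS.finite
  exact constConclusion_of_sheets L hinj w hw x hsheet (hSheets L hKS)

end Leaf

end Fermat.Agent.A2.H313

end
-- ===== PACK-END A2/H313/Const.lean

-- ===== PACK-BEGIN A2/Alg/H754/PuritySmooth.lean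
section





/-!
# A2 / ALG leaf P-S (helper754): `purity_smooth`, VERBATIM statement of `A2/Alg/Skel.lean`

Purity at a closed point `n` of the special fibre lying on exactly ONE component `p` of the
chart `B`:

* `B` is a Noetherian integrally closed domain with fraction field `F`
  (`S18.H394.chart_instances`), integral over `R[x]` of Krull dimension `2`, so `B ⧸ p` is a
  Dedekind domain (`isDedekindDomain_quotient_of_dim`);
* `m ∣ div u` at every height-one prime of `B` (`divisibleDivisor_of_divisibleDiv`: horizontal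
  primes from `DivisibleDiv`, the two vertical primes from `IsSplit`);
* abstract purity `pure_smooth_abs` (`B_n` is a UFD).

Also exported (reusable for P-N / GLUE): `chart_package`, `isDedekindDomain_component`,
`divisibleDivisor_of_divisibleDiv`.
-/

set_option autoImplicit false
set_option linter.style.haveILetI false
set_option linter.unusedSectionVars false
set_option linter.unusedVariables false

noncomputable section

namespace Fermat.Agent.A2.Alg.H754

open Polynomial IsLocalRing
open Fermat.Agent.A2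
open Fermat.Agent.S18.H138 (chart baseField)
open Fermat.Agent.S18.H754 (DivisibleDivisor)

section Chart

variable {R E F : Type*} [CommRing R] [IsDomain R] [IsDiscreteValuationRing R]
  [Field E] [Algebra R E] [IsFractionRing R E]
  [Field F] [Algebra E F] [Algebra R F] [IsScalarTower R E F]

omit [IsDomain R] [IsDiscreteValuationRing R] in
theorem finiteDimensional_baseField (x : F)
    (hfin : FiniteDimensional (IntermediateField.adjoin E ({x} : Set F)) F) :
    FiniteDimensional (baseField R x) F := by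
  have hle : ∀ z : F, z ∈ IntermediateField.adjoin E ({x} : Set F) → z ∈ baseField R x := by
    intro z hz
    have hz' : z ∈ Subfield.closure (Set.range (algebraMap E F) ∪ {x}) := hz
    refine Subfield.closure_le.2 ?_ hz'
    rintro y (⟨e, rfl⟩ | hy)
    · obtain ⟨a, b, hb, rfl⟩ := IsFractionRing.div_surjective (A := R) e
      rw [map_div₀, ← IsScalarTower.algebraMap_apply, ← IsScalarTower.algebraMap_apply]
      exact (baseField R x).div_mem (Subfield.subset_closure (Or.inl ⟨a, rfl⟩))
        (Subfield.subset_closure (Or.inl ⟨b, rfl⟩))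
    · exact Subfield.subset_closure (Or.inr hy)
  let φ : (IntermediateField.adjoin E ({x} : Set F)) →+* (baseField R x) :=
    { toFun := fun z => ⟨z.1, hle z.1 z.2⟩
      map_one' := rfl
      map_mul' := fun _ _ => rfl
      map_zero' := rfl
      map_add' := fun _ _ => rfl }
  letI : Algebra (IntermediateField.adjoin E ({x} : Set F)) (baseField R x) := φ.toAlgebra
  haveI : IsScalarTower (IntermediateField.adjoin E ({x} : Set F)) (baseField R x) F :=
    IsScalarTower.of_algebraMap_eq (fun _ => rfl)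
  exact Module.Finite.of_restrictScalars_finite (IntermediateField.adjoin E ({x} : Set F))
    (baseField R x) F

omit [Field E] [Algebra R E] [IsFractionRing R E] [Algebra E F] [IsScalarTower R E F] in
theorem ringKrullDim_adjoin_le (x : F) (hx : Transcendental R x) :
    ringKrullDim (Algebra.adjoin R ({x} : Set F)) ≤ 2 := by
  have hinj : Function.Injective (aeval (R := R) x) :=
    (injective_iff_map_eq_zero _).2 (transcendental_iff.1 hx)
  let e : R[X] ≃ₐ[R] Algebra.adjoin R ({x} : Set F) :=
    (AlgEquiv.ofInjective (aeval (R := R) x) hinj).trans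
      (Subalgebra.equivOfEq _ _ (Algebra.adjoin_singleton_eq_range_aeval R x).symm)
  rw [← ringKrullDim_eq_of_ringEquiv e.toRingEquiv, ringKrullDim_of_isNoetherianRing]
  have h1 : ringKrullDim R ≤ 1 := by
    have := Ring.krullDimLE_iff.1 (inferInstance : Ring.KrullDimLE 1 R)
    exact_mod_cast this
  calc ringKrullDim R + 1 ≤ 1 + 1 := by gcongr
    _ = 2 := by norm_num

theorem transcendental_base [CharZero E] {x : F} (hx : Transcendental E x) : Transcendental R x :=
  hx.restrictScalars (IsFractionRing.injective R E)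

include E in
omit [IsDomain R] [IsDiscreteValuationRing R] in
theorem algebraMap_base_injective : Function.Injective (algebraMap R F) := by
  rw [IsScalarTower.algebraMap_eq R E F]
  exact (algebraMap E F).injective.comp (IsFractionRing.injective R E)

include E in
omit [IsDomain R] [IsDiscreteValuationRing R] in
theorem algebraMap_chart_injective (B : Subalgebra R F) :
    Function.Injective (algebraMap R B) := by
  intro a b hab
  apply algebraMap_base_injective (E := E) (F := F)
  have := congrArg (fun z : B => (z : F)) hab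
  exact this

/-- The chart is a Noetherian integrally closed domain with fraction field `F`. -/
theorem chart_package [CharZero E] (w : R) (x : F) (B : Subalgebra R F) (hB : ChartCtx E w x B) :
    IsNoetherianRing B ∧ IsIntegrallyClosed B ∧ IsFractionRing B F := by
  obtain rfl : B = chart R ({x} : Set F) :=
    SetLike.ext fun f => (hB.hB f).trans Fermat.Agent.S18.H138.mem_chart.symm
  haveI : CharZero F := charZero_of_injective_algebraMap (algebraMap E F).injective
  haveI := finiteDimensional_baseField (R := R) x hB.hfin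
  exact Fermat.Agent.S18.H394.chart_instances (R := R) (transcendental_base hB.hx)

/-- The components of the chart are Dedekind. -/
theorem isDedekindDomain_component [CharZero E] (w : R) (x : F) (B : Subalgebra R F)
    (hB : ChartCtx E w x B) (p : Ideal B) [hp : p.IsPrime] (hwp : algebraMap R B w ∈ p)
    (hnorm : IsIntegrallyClosed (B ⧸ p)) : IsDedekindDomain (B ⧸ p) := by
  obtain ⟨hN, -, -⟩ := chart_package w x B hB
  have hp0 : p ≠ ⊥ := by
    intro h0
    rw [h0, Ideal.mem_bot] at hwp
    exact hB.hw.ne_zero (algebraMap_chart_injective (E := E) B (by rw [hwp, map_zero]))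
  obtain rfl : B = chart R ({x} : Set F) :=
    SetLike.ext fun f => (hB.hB f).trans Fermat.Agent.S18.H138.mem_chart.symm
  have hxR : Transcendental R x := transcendental_base hB.hx
  haveI := Fermat.Agent.S18.H138.isNoetherianRing_adjoin_singleton (R := R) hxR
  letI : Algebra (Algebra.adjoin R ({x} : Set F)) (chart R ({x} : Set F)) :=
    inferInstanceAs (Algebra (Algebra.adjoin R ({x} : Set F))
      (integralClosure (Algebra.adjoin R ({x} : Set F)) F))
  haveI : Algebra.IsIntegral (Algebra.adjoin R ({x} : Set F)) (chart R ({x} : Set F)) :=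
    inferInstanceAs (Algebra.IsIntegral (Algebra.adjoin R ({x} : Set F))
      (integralClosure (Algebra.adjoin R ({x} : Set F)) F))
  exact isDedekindDomain_quotient_of_dim (A₀ := Algebra.adjoin R ({x} : Set F))
    (ringKrullDim_adjoin_le x hxR) p hp0 hnorm

/-- `m ∣ div u` at every height-one prime of the chart. -/
theorem divisibleDivisor_of_divisibleDiv (w : R) (hw : Irreducible w) (B : Subalgebra R F)
    [IsNoetherianRing B] [IsIntegrallyClosed B] [IsFractionRing B F]
    (c : SSChart w B) (m : ℕ) (u : F) (hdiv : DivisibleDiv E m u) (hs : IsSplit B c u) :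
    DivisibleDivisor B m u := by
  intro 𝔭 h𝔭 hht
  haveI := h𝔭
  have hinjB : Function.Injective (algebraMap R B) := algebraMap_chart_injective (E := E) B
  have hwB0 : algebraMap R B w ≠ 0 := fun h0 => hw.ne_zero (hinjB (by rw [h0, map_zero]))
  have hwpp : algebraMap R B w ∈ c.p₁ ⊓ c.p₂ := by
    rw [c.inf_eq]
    exact Ideal.mem_span_singleton_self _
  by_cases hw𝔭 : algebraMap R B w ∈ 𝔭
  · -- vertical prime: one of the two components
    have hle : c.p₁ * c.p₂ ≤ 𝔭 := by
      refine le_trans Ideal.mul_le_inf ?_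
      rw [c.inf_eq, Ideal.span_singleton_le_iff_mem]
      exact hw𝔭
    have key : ∀ p : Ideal B, p.IsPrime → algebraMap R B w ∈ p → p ≤ 𝔭 → ConstAt B p u →
        ∃ t : F, ∃ a s : B, a ∉ 𝔭 ∧ s ∉ 𝔭 ∧ u * t ^ m * algebraMap B F s = algebraMap B F a := by
      intro p hp hwp hp𝔭 hconst
      haveI := hp
      haveI : p.FiniteHeight := Ideal.finiteHeight_of_isNoetherianRing p
      have hpeq : p = 𝔭 := by
        refine Ideal.eq_of_le_of_height_le p hp𝔭 ?_
        rw [hht, Order.one_le_iff_pos, pos_iff_ne_zero, Ne, Ideal.height_eq_zero_iff_eq_bot]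
        intro h0
        rw [h0, Ideal.mem_bot] at hwp
        exact hwB0 hwp
      subst hpeq
      obtain ⟨c₀, hc₀, a, b, hb, hab, hu⟩ := hconst
      refine ⟨1, a, b, ?_, hb, ?_⟩
      · intro ha
        have h2 : algebraMap R B c₀ * b ∈ p := by
          have := p.sub_mem ha hab
          rwa [sub_sub_cancel] at this
        rcases hp.mem_or_mem h2 with h | h
        · exact hp.ne_top (Ideal.eq_top_of_isUnit_mem _ h (hc₀.map (algebraMap R B)))
        · exact hb h
      · rw [one_pow, mul_one]
        exact hu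
    rcases (Ideal.IsPrime.mul_le h𝔭).1 hle with h | h
    · exact key c.p₁ c.prime₁ hwpp.1 h hs.1
    · exact key c.p₂ c.prime₂ hwpp.2 h hs.2
  · -- horizontal prime: `B_𝔭` is a DVR containing `E`
    obtain ⟨W, hdvr, hW⟩ := Fermat.Agent.S18.H438.exists_dvr_of_height_one (F := F) 𝔭 hht
    have hE : ∀ e : E, algebraMap E F e ∈ W := by
      intro e
      obtain ⟨a, b, hb, rfl⟩ := IsFractionRing.div_surjective (A := R) e
      have hb0 : b ≠ 0 := nonZeroDivisors.ne_zero hb
      obtain ⟨k, υ, hbk⟩ := IsDiscreteValuationRing.eq_unit_mul_pow_irreducible hb0 hw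
      have hb𝔭 : algebraMap R B b ∉ 𝔭 := by
        rw [hbk, map_mul, map_pow]
        intro h
        rcases h𝔭.mem_or_mem h with h | h
        · exact h𝔭.ne_top (Ideal.eq_top_of_isUnit_mem _ h (υ.isUnit.map (algebraMap R B)))
        · exact hw𝔭 (h𝔭.mem_of_pow_mem k h)
      have hbF : algebraMap R F b ≠ 0 := fun h0 =>
        hb0 (algebraMap_base_injective (E := E) (F := F) (by rw [h0, map_zero]))
      refine (hW _).2 ⟨algebraMap R B a, algebraMap R B b, hb𝔭, ?_⟩
      rw [← IsScalarTower.algebraMap_apply R B F, ← IsScalarTower.algebraMap_apply R B F,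
        map_div₀, ← IsScalarTower.algebraMap_apply R E F, ← IsScalarTower.algebraMap_apply R E F,
        div_mul_cancel₀ _ hbF]
    obtain ⟨h, u₀, hh, hu₀, hu₀', hu⟩ := hdiv W hdvr hE
    by_cases hu₀0 : u₀ = 0
    · -- degenerate: `u = 0`, excluded by `IsSplit`
      exfalso
      obtain ⟨c₀, hc₀, a, b, hb, hab, hu'⟩ := hs.1
      rw [hu, hu₀0, zero_mul, zero_mul] at hu'
      have ha0 : a = 0 := Subtype.ext hu'.symm
      rw [ha0, zero_sub, neg_mem_iff] at hab
      rcases c.prime₁.mem_or_mem hab with h' | h'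
      · exact c.prime₁.ne_top (Ideal.eq_top_of_isUnit_mem _ h' (hc₀.map (algebraMap R B)))
      · exact hb h'
    · obtain ⟨a, s, ha, hs', has⟩ :=
        (locU_iff_of_valuationSubring 𝔭 W hW hu₀0).2 ⟨hu₀, hu₀'⟩
      refine ⟨h⁻¹, a, s, ha, hs', ?_⟩
      rw [hu, inv_pow, mul_assoc u₀, mul_inv_cancel₀ (pow_ne_zero _ hh), mul_one]
      exact has

/-- One-sided form of `purity_smooth`: `n` lies on `p` and not on `p'`. -/
theorem purity_smooth_aux [CharZero E] (m : ℕ) (hm : 0 < m)
    (w : R) (x : F) (B : Subalgebra R F) (hB : ChartCtx E w x B)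
    (c : SSChart w B) (u : F) (hu : u ≠ 0) (hdiv : DivisibleDiv E m u) (hs : IsSplit B c u)
    (p p' : Ideal B) (hp : p.IsPrime) (hp' : p'.IsPrime)
    (hinf : p ⊓ p' = Ideal.span {algebraMap R B w}) (h12 : ¬ p ≤ p') (h21 : ¬ p' ≤ p)
    (hnorm : IsIntegrallyClosed (B ⧸ p)) (hup : ConstAt B p u)
    (n : Ideal B) (hn : n.IsMaximal) (hpn : p ≤ n) (hp'n : ¬ p' ≤ n) :
    ∃ d : F, d ≠ 0 ∧ LocUnit B n (u * d ^ m) ∧ LocUnit B p d ∧ LocUnit B p' d := by
  obtain ⟨hN, hIC, hFr⟩ := chart_package w x B hB
  haveI := hN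
  haveI := hIC
  haveI := hFr
  haveI := hp
  haveI := hp'
  have hwB0 : algebraMap R B w ≠ 0 := fun h0 =>
    hB.hw.ne_zero (algebraMap_chart_injective (E := E) B (by rw [h0, map_zero]))
  have hwp : algebraMap R B w ∈ p := by
    have : algebraMap R B w ∈ p ⊓ p' := hinf ▸ Ideal.mem_span_singleton_self _
    exact this.1
  have hD : IsDedekindDomain (B ⧸ p) := isDedekindDomain_component w x B hB p hwp hnorm
  have hDD : DivisibleDivisor B m u := divisibleDivisor_of_divisibleDiv w hB.hw B c m u hdiv hs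
  have hup' : LocU p u := by
    obtain ⟨c₀, hc₀, a, b, hb, hab, hu'⟩ := hup
    refine ⟨a, b, ?_, hb, hu'⟩
    intro ha
    have h2 : algebraMap R B c₀ * b ∈ p := by
      have := p.sub_mem ha hab
      rwa [sub_sub_cancel] at this
    rcases hp.mem_or_mem h2 with h | h
    · exact hp.ne_top (Ideal.eq_top_of_isUnit_mem _ h (hc₀.map (algebraMap R B)))
    · exact hb h
  exact pure_smooth_abs (algebraMap R B w) hwB0 p p' hinf h12 h21 hD n hn hpn hp'n m hm u hu
    hDD hup'

end Chart

section Leaf

variable {R E F : Type*} [CommRing R] [IsDomain R] [IsDiscreteValuationRing R]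
  [HenselianLocalRing R] [IsAlgClosed (IsLocalRing.ResidueField R)]
  [Field E] [CharZero E] [Algebra R E] [IsFractionRing R E]
  [Field F] [Algebra E F] [Algebra R F] [IsScalarTower R E F]

/-- **P-S (purity at a smooth point).**  `n` lies on exactly one component `p`; then
`B_n / w = (B / p)_n` is a DVR, every divisorial ideal of `B_n` without vertical component is
principal (Nakayama), so the horizontal part `m · D` of `div u` is `m · div d⁻¹`; adjust `d` by an
element of `p' ∖ (n ∪ p'^{(2)})` to make it a unit on the other component `p'`. -/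
theorem purity_smooth (q m : ℕ) (hq : q.Prime) (hqR : (q : R) ∈ IsLocalRing.maximalIdeal R)
    (hm : 0 < m) (hqm : ¬ q ∣ m)
    (w : R) (x : F) (B : Subalgebra R F) (hB : ChartCtx E w x B)
    (c : SSChart w B) (hc : Incomparable c)
    (u : F) (hu : u ≠ 0) (hdiv : DivisibleDiv E m u) (hs : IsSplit B c u)
    (n : Ideal B) (hn : n.IsMaximal) (hwn : algebraMap R B w ∈ n)
    (h1 : ¬ (c.p₁ ≤ n ∧ c.p₂ ≤ n)) : PureAt B c m u n := by
  have hle : c.p₁ * c.p₂ ≤ n := by
    refine le_trans Ideal.mul_le_inf ?_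
    rw [c.inf_eq, Ideal.span_singleton_le_iff_mem]
    exact hwn
  rcases (Ideal.IsPrime.mul_le hn.isPrime).1 hle with h | h
  · have h2 : ¬ c.p₂ ≤ n := fun h2 => h1 ⟨h, h2⟩
    obtain ⟨d, hd0, hdn, hd1, hd2⟩ := purity_smooth_aux m hm w x B hB c u hu hdiv hs c.p₁ c.p₂
      c.prime₁ c.prime₂ c.inf_eq hc.1 hc.2 c.normal₁ hs.1 n hn h h2
    exact ⟨d, hd0, hdn, hd1, hd2⟩
  · have h2 : ¬ c.p₁ ≤ n := fun h2 => h1 ⟨h2, h⟩
    obtain ⟨d, hd0, hdn, hd2, hd1⟩ := purity_smooth_aux m hm w x B hB c u hu hdiv hs c.p₂ c.p₁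
      c.prime₂ c.prime₁ (by rw [inf_comm]; exact c.inf_eq) hc.2 hc.1 c.normal₂ hs.2 n hn h h2
    exact ⟨d, hd0, hdn, hd1, hd2⟩

end Leaf

end Fermat.Agent.A2.Alg.H754

end

end
-- ===== PACK-END A2/Alg/H754/PuritySmooth.lean

-- ===== PACK-BEGIN S36/H987/RegPure987.lean
section


/-!
# S36 engine / cell REG: purity at a REGULAR closed point, abstract form

(Verbatim copy, under a fresh name, of `S36/H996/RegPure.lean` by helper996 — kept here so that
the G3 chain of helper987 does not wait for that file to land.)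


`B` a Noetherian integrally closed domain with fraction field `F`, `n` a maximal ideal,
`p ≤ n` a prime which is generated by `x` locally at `n` and such that `B ⧸ p` is Dedekind
(so `B_n` is a regular local ring of dimension `≤ 2` with parameters `x, t`).
If the divisor of `u ∈ Fˣ` is divisible by `m` at every height-one prime
(`S18.H754.DivisibleDivisor`), then `u · d ^ m` is a unit at `n` for some `d ∈ Fˣ`.

This is helper754's `pure_smooth_abs` with the hypothesis `(ϖ) = p ⊓ p'`, `p' ⊄ n` replaced by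
local principality of `p` at `n` — the form needed at the TRIPLE points of the chart of
`X₀(q² M')`, where local principality of `p_FF` comes from `principal_of_unit` (`PU.lean`).
-/

set_option autoImplicit false
set_option linter.style.haveILetI false

noncomputable section

namespace Fermat.Agent.S36.H987

open IsLocalRing
open Fermat.Agent.S18.H754 (DivisibleDivisor LocallyPow)
open Fermat.Agent.A2.Alg.H754 (LocU locU_of_frac_of_inv_frac)

variable {B F : Type*} [CommRing B] [IsDomain B] [Field F] [Algebra B F] [IsFractionRing B F]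
variable [IsNoetherianRing B] [IsIntegrallyClosed B]

/-- **Purity at a regular point.** -/
theorem pure_regular_abs987 (x : B) (hx : x ≠ 0) (p : Ideal B) [hp : p.IsPrime]
    (n : Ideal B) (hn : n.IsMaximal) (hpn : p ≤ n) (hxp : x ∈ p)
    (hgen : ∀ a ∈ p, ∃ g : B, g ∉ n ∧ ∃ c : B, g * a = x * c)
    (hD : IsDedekindDomain (B ⧸ p))
    (m : ℕ) (hm : 0 < m) (u : F) (hu : u ≠ 0) (hdiv : DivisibleDivisor B m u) :
    ∃ d : F, d ≠ 0 ∧ LocU n (u * d ^ m) := by
  classical
  haveI hnp : n.IsPrime := hn.isPrime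
  have hinj : Function.Injective (algebraMap B F) := IsFractionRing.injective B F
  have hxn : x ∈ n := hpn hxp
  -- local generator of `n` modulo `p`
  obtain ⟨t, htn, hreg⟩ : ∃ t ∈ n, ∀ a ∈ n, ∃ s : B, s ∉ n ∧ s * a ∈ Ideal.span {x, t} := by
    haveI := hD
    have hsurj : Function.Surjective (Ideal.Quotient.mk p) := Ideal.Quotient.mk_surjective
    have hM : (n.map (Ideal.Quotient.mk p)).IsMaximal := by
      haveI := hn
      exact Ideal.IsMaximal.map_of_surjective_of_ker_le hsurj (by rw [Ideal.mk_ker]; exact hpn)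
    obtain ⟨tb, htb, sb, hsb, hall⟩ :=
      Fermat.Agent.S18.B12.H84.exists_local_generator (n.map (Ideal.Quotient.mk p)) hM
    obtain ⟨t, rfl⟩ := hsurj tb
    obtain ⟨s, rfl⟩ := hsurj sb
    have hmem : ∀ b : B, Ideal.Quotient.mk p b ∈ n.map (Ideal.Quotient.mk p) ↔ b ∈ n := by
      intro b
      rw [← Ideal.mem_comap, Ideal.comap_map_of_surjective _ hsurj, ← RingHom.ker_eq_comap_bot,
        Ideal.mk_ker, sup_eq_left.2 hpn]
    have hsn : s ∉ n := fun h => hsb ((hmem s).2 h)
    refine ⟨t, (hmem t).1 htb, fun a ha => ?_⟩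
    have h1 := hall _ ((hmem a).2 ha)
    rw [Ideal.mem_span_singleton'] at h1
    obtain ⟨cb, hcb⟩ := h1
    obtain ⟨c, rfl⟩ := hsurj cb
    have hd : s * a - c * t ∈ p := by
      rw [← Ideal.Quotient.eq, map_mul, map_mul]
      exact hcb.symm
    obtain ⟨g, hgn, e, he⟩ := hgen _ hd
    refine ⟨g * s, fun h => (hnp.mem_or_mem h).elim hgn hsn, ?_⟩
    rw [Ideal.mem_span_pair]
    refine ⟨e, g * c, ?_⟩
    linear_combination (-1 : B) * he
  -- the local ring `A = B_n ⊆ F`
  let A : Subalgebra B F :=
    Localization.subalgebra.ofField F n.primeCompl n.primeCompl_le_nonZeroDivisors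
  haveI : IsLocalization.AtPrime A n := (inferInstance : IsLocalization n.primeCompl A)
  haveI : IsLocalRing A := IsLocalization.AtPrime.isLocalRing A n
  haveI : IsNoetherianRing A := IsLocalization.isNoetherianRing n.primeCompl A inferInstance
  have hmapp : Ideal.span {algebraMap B A x} = Ideal.map (algebraMap B A) p := by
    apply le_antisymm
    · rw [Ideal.span_singleton_le_iff_mem]
      exact Ideal.mem_map_of_mem _ hxp
    · rw [Ideal.map_le_iff_le_comap]
      intro b hb
      obtain ⟨g, hgn, c, hc⟩ := hgen b hb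
      rw [Ideal.mem_comap]
      have hu : IsUnit (algebraMap B A g) :=
        IsLocalization.map_units A (⟨g, hgn⟩ : n.primeCompl)
      have h2 : algebraMap B A g * algebraMap B A b ∈ Ideal.span {algebraMap B A x} := by
        rw [← map_mul, hc, map_mul]
        exact Ideal.mul_mem_right _ _ (Ideal.mem_span_singleton_self _)
      exact (Ideal.unit_mul_mem_iff_mem _ hu).1 h2
  have hprime : Prime (algebraMap B A x) := by
    have h0 : algebraMap B A x ≠ 0 := fun h =>
      hx (IsLocalization.injective A n.primeCompl_le_nonZeroDivisors (by rw [h, map_zero]))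
    rw [← Ideal.span_singleton_prime h0, hmapp]
    refine IsLocalization.isPrime_of_isPrime_disjoint n.primeCompl A p hp ?_
    rw [Set.disjoint_left]
    intro y hy hy'
    exact hy (hpn hy')
  have hmax : maximalIdeal A = Ideal.span {algebraMap B A x, algebraMap B A t} :=
    Fermat.Agent.S18.H754.maximalIdeal_loc_eq_span_pair n A hxn htn hreg
  haveI : UniqueFactorizationMonoid A :=
    Fermat.Agent.S18.H754.ufd_of_regular_pair _ _ hprime hmax
  obtain ⟨s, hs0, ε, hε⟩ := Fermat.Agent.S18.H754.exists_unit_mul_pow (R := A) m hm u hu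
    (fun π hπ => Fermat.Agent.S18.H754.locallyPow_of_divisibleDivisor n A hdiv π hπ)
  refine ⟨s, hs0, ?_⟩
  have hne : u * s ^ m ≠ 0 := mul_ne_zero hu (pow_ne_zero _ hs0)
  refine locU_of_frac_of_inv_frac n hne ?_ ?_
  · rw [hε]
    exact (Fermat.Agent.S18.H438.mem_ofField_primeCompl_iff n _).1 (ε : A).2
  · have e : (u * s ^ m)⁻¹ = algebraMap A F ((ε⁻¹ : Aˣ) : A) := by
      rw [hε]
      apply inv_eq_of_mul_eq_one_left
      rw [← map_mul, Units.inv_mul, map_one]
    rw [e]
    exact (Fermat.Agent.S18.H438.mem_ofField_primeCompl_iff n _).1 ((ε⁻¹ : Aˣ) : A).2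

end Fermat.Agent.S36.H987

end
end
-- ===== PACK-END S36/H987/RegPure987.lean

-- ===== PACK-BEGIN S36/Mod3/H985/GaussChange.lean
section


/-!
# S36 / MOD3 — GAUSS-CHANGE (helper985): change of coordinate for the Gauss property

`R` a local ring, `L` a field over `R`, `V` a valuation subring of `L` lying over `R`
(`A2.H489.IsOver`).  `A2.H489.IsGaussOver R V y` says that the residue of `y` in the residue field
of `V` is transcendental over the residue field of `R`.

* `isAlgebraic_of_isIntegralElem` : in a field extension, integral over `k[a]` with `a` algebraic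
  implies algebraic;
* `isGaussOver_of_isIntegralElem` : **GAUSS-CHANGE**.  If `y` is Gauss at `V`, `x ∈ V` and `y` is
  integral over `R[x]`, then `x` is Gauss at `V`;
* `isGaussOver_of_mem_adjoin_integral` : the same with `IsIntegral (Algebra.adjoin R {x}) y`;
* `inv_aeval_mem_of_isGaussOver` : the elementwise form used by `A2.H12.IsSheet` and by the fields
  `gauss_i` of `S36.Eng.TripleCtx`.

Mathlib + `A2.H489` (definitions `IsOver`, `IsGaussOver`) only.
-/

set_option autoImplicit false
set_option linter.unusedSectionVars false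
set_option linter.style.haveILetI false

noncomputable section

namespace Fermat.Agent.S36.Mod3.H985

open Polynomial IsLocalRing
open Fermat.Agent.A2

/-! ## The residue-field statement -/

section Residue

variable {k κ : Type*} [Field k] [Field κ] [Algebra k κ]

/-- In a field extension `κ / k`: if `b` is a root of a monic polynomial whose coefficients are
polynomials in `a`, and `a` is algebraic over `k`, then `b` is algebraic over `k`. -/
theorem isAlgebraic_of_isIntegralElem {a b : κ} (ha : IsAlgebraic k a)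
    (hb : ∃ G : Polynomial (Polynomial k), G.Monic ∧
      G.eval₂ (Polynomial.eval₂RingHom (algebraMap k κ) a) b = 0) : IsAlgebraic k b := by
  obtain ⟨G, hG, hGb⟩ := hb
  have haC : a ∈ integralClosure k κ := ha.isIntegral
  set g : Polynomial k →+* integralClosure k κ :=
    (Polynomial.aeval (⟨a, haC⟩ : integralClosure k κ)).toRingHom with hg
  have hcomp : (algebraMap (integralClosure k κ) κ).comp g =
      Polynomial.eval₂RingHom (algebraMap k κ) a := by
    apply Polynomial.ringHom_ext
    · intro c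
      simp [hg]
    · simp [hg]
  have hint : IsIntegral (integralClosure k κ) b := by
    refine ⟨G.map g, hG.map g, ?_⟩
    rw [Polynomial.eval₂_map, hcomp]
    exact hGb
  exact (isIntegral_trans b hint).isAlgebraic

end Residue

/-! ## GAUSS-CHANGE -/

section Main

variable {R L : Type*} [CommRing R] [IsLocalRing R] [Field L] [Algebra R L]
  {V : ValuationSubring L}

/-- The residue map of `V` on the image of `R`. -/
def resMap (hV : H489.IsOver R V) : R →+* ResidueField V :=
  (residue V).comp (H489.toValSub V hV.mem)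

theorem resMap_eq_zero (hV : H489.IsOver R V) {r : R} (hr : r ∈ maximalIdeal R) :
    resMap hV r = 0 := by
  rw [resMap, RingHom.comp_apply, residue_eq_zero_iff]
  have h := hV.nonunit r hr
  rw [ValuationSubring.mem_nonunits_iff_exists_mem_maximalIdeal] at h
  obtain ⟨_, h⟩ := h
  exact h

theorem isLocalHom_resMap (hV : H489.IsOver R V) : IsLocalHom (resMap hV) :=
  ⟨fun a ha => by
    by_contra hna
    have hm : a ∈ maximalIdeal R := (mem_maximalIdeal a).mpr hna
    rw [resMap_eq_zero hV hm] at ha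
    exact not_isUnit_zero ha⟩

/-- The induced map of residue fields `k(R) → k(V)`. -/
def resLift (hV : H489.IsOver R V) : ResidueField R →+* ResidueField V :=
  haveI := isLocalHom_resMap hV
  ResidueField.lift (resMap hV)

theorem resLift_comp_residue (hV : H489.IsOver R V) :
    (resLift hV).comp (residue R) = resMap hV := by
  haveI := isLocalHom_resMap hV
  exact ResidueField.lift_comp_residue (resMap hV)

theorem resLift_residue (hV : H489.IsOver R V) (r : R) :
    resLift hV (residue R r) = resMap hV r := by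
  rw [← resLift_comp_residue hV]
  rfl

/-- the residue of `P(z)`, `z ∈ V`, `P ∈ R[X]` -/
theorem residue_aeval (hV : H489.IsOver R V) (z : V) (P : R[X])
    (h : aeval (z : L) P ∈ V) :
    residue V ⟨aeval (z : L) P, h⟩ =
      (P.map (residue R)).eval₂ (resLift hV) (residue V z) := by
  rw [Polynomial.eval₂_map, resLift_comp_residue, resMap, ← Polynomial.hom_eval₂]
  congr 1
  apply Subtype.ext
  have h1 := Polynomial.hom_eval₂ P (H489.toValSub V hV.mem) V.subtype z
  have h2 : V.subtype.comp (H489.toValSub V hV.mem) = algebraMap R L := by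
    ext r
    rfl
  rw [h2] at h1
  show aeval (z : L) P = V.subtype (eval₂ (H489.toValSub V hV.mem) z P)
  rw [h1]
  rfl

/-- the residue of `G(x, y)`, `x y ∈ V`, `G ∈ R[X][Y]` -/
theorem residue_eval₂_eval₂ (hV : H489.IsOver R V) (x y : V) (G : Polynomial (Polynomial R))
    (h0 : G.eval₂ (Polynomial.eval₂RingHom (algebraMap R L) (x : L)) (y : L) = 0) :
    (G.map (Polynomial.mapRingHom (residue R))).eval₂
      (Polynomial.eval₂RingHom (resLift hV) (residue V x)) (residue V y) = 0 := by
  -- the identity holds in `V`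
  have hV0 : G.eval₂ (Polynomial.eval₂RingHom (H489.toValSub V hV.mem) x) y = 0 := by
    apply Subtype.ext
    have h1 := Polynomial.hom_eval₂ G (Polynomial.eval₂RingHom (H489.toValSub V hV.mem) x)
      V.subtype y
    have h2 : V.subtype.comp (Polynomial.eval₂RingHom (H489.toValSub V hV.mem) x) =
        Polynomial.eval₂RingHom (algebraMap R L) (x : L) := by
      apply Polynomial.ringHom_ext
      · intro r
        simp
      · simp
    rw [h2] at h1
    show V.subtype (eval₂ (Polynomial.eval₂RingHom (H489.toValSub V hV.mem) x) y G) = 0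
    rw [h1]
    exact h0
  have h3 := Polynomial.hom_eval₂ G (Polynomial.eval₂RingHom (H489.toValSub V hV.mem) x)
    (residue V) y
  rw [hV0, map_zero] at h3
  rw [Polynomial.eval₂_map]
  have h4 : (Polynomial.eval₂RingHom (resLift hV) (residue V x)).comp
      (Polynomial.mapRingHom (residue R)) =
      (residue V).comp (Polynomial.eval₂RingHom (H489.toValSub V hV.mem) x) := by
    apply Polynomial.ringHom_ext
    · intro r
      simp [resLift_residue, resMap]
    · simp
  rw [h4]
  exact h3.symm

/-- **GAUSS-CHANGE.**  If `y` is Gauss at `V` (its residue is transcendental over the residue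
field of `R`), `x ∈ V`, and `y` is integral over `R[x]`, then `x` is Gauss at `V`. -/
theorem isGaussOver_of_isIntegralElem {x y : L} (hy : H489.IsGaussOver R V y) (hx : x ∈ V)
    (hint : ∃ G : Polynomial (Polynomial R), G.Monic ∧
      G.eval₂ (Polynomial.eval₂RingHom (algebraMap R L) x) y = 0) :
    H489.IsGaussOver R V x where
  isOver := hy.isOver
  mem := hx
  prim := by
    intro P hP
    by_contra hne
    have hV := hy.isOver
    letI : Algebra (ResidueField R) (ResidueField V) := (resLift hV).toAlgebra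
    have halg : algebraMap (ResidueField R) (ResidueField V) = resLift hV := rfl
    -- the residue of `x` is algebraic
    have hxa : IsAlgebraic (ResidueField R) (residue V ⟨x, hx⟩) := by
      refine ⟨P.map (residue R), hne, ?_⟩
      rw [Polynomial.aeval_def, halg]
      have h1 := residue_aeval hV ⟨x, hx⟩ P (hV.aeval_mem hx P)
      rw [← h1, residue_eq_zero_iff]
      rw [ValuationSubring.mem_nonunits_iff_exists_mem_maximalIdeal] at hP
      obtain ⟨_, hP⟩ := hP
      exact hP
    -- hence so is the residue of `y`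
    obtain ⟨G, hG, hGy⟩ := hint
    have hya : IsAlgebraic (ResidueField R) (residue V ⟨y, hy.mem⟩) := by
      refine isAlgebraic_of_isIntegralElem hxa
        ⟨G.map (Polynomial.mapRingHom (residue R)), hG.map _, ?_⟩
      rw [halg]
      exact residue_eval₂_eval₂ hV ⟨x, hx⟩ ⟨y, hy.mem⟩ G hGy
    obtain ⟨Qb, hQb0, hQb⟩ := hya
    obtain ⟨Q, rfl⟩ := Polynomial.map_surjective (residue R) residue_surjective Qb
    apply hQb0
    apply hy.prim Q
    rw [ValuationSubring.mem_nonunits_iff_exists_mem_maximalIdeal]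
    refine ⟨hy.aeval_mem Q, ?_⟩
    rw [← residue_eq_zero_iff, residue_aeval hV ⟨y, hy.mem⟩ Q (hy.aeval_mem Q)]
    rw [Polynomial.aeval_def, halg] at hQb
    exact hQb

/-- a monic equation over `R[X]` from integrality over `Algebra.adjoin R {x}` -/
theorem exists_monic_of_isIntegral_adjoin {R L : Type*} [CommRing R] [Field L] [Algebra R L]
    {x y : L} (h : IsIntegral (Algebra.adjoin R ({x} : Set L)) y) :
    ∃ G : Polynomial (Polynomial R), G.Monic ∧
      G.eval₂ (Polynomial.eval₂RingHom (algebraMap R L) x) y = 0 := by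
  obtain ⟨p, hp, hpy⟩ := h
  set xA : Algebra.adjoin R ({x} : Set L) := ⟨x, Algebra.subset_adjoin rfl⟩ with hxA
  set ψ : Polynomial R →+* Algebra.adjoin R ({x} : Set L) :=
    (Polynomial.aeval xA).toRingHom with hψ
  have hsurj : Function.Surjective ψ := by
    rintro ⟨a, ha⟩
    rw [Algebra.adjoin_singleton_eq_range_aeval] at ha
    obtain ⟨c, hc⟩ := ha
    refine ⟨c, Subtype.ext ?_⟩
    have h1 : ((Polynomial.aeval xA c : Algebra.adjoin R ({x} : Set L)) : L) =
        Polynomial.aeval x c := by
      rw [hxA]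
      exact Polynomial.aeval_subalgebra_coe c _ _
    show ((Polynomial.aeval xA c : Algebra.adjoin R ({x} : Set L)) : L) = a
    rw [h1]
    exact hc
  have hlift : p ∈ Polynomial.lifts ψ := by
    rw [Polynomial.lifts_iff_coeff_lifts]
    intro n
    exact hsurj _
  obtain ⟨G, hGp, -, hGm⟩ := Polynomial.lifts_and_natDegree_eq_and_monic hlift hp
  refine ⟨G, hGm, ?_⟩
  have h2 : (algebraMap (Algebra.adjoin R ({x} : Set L)) L).comp ψ =
      Polynomial.eval₂RingHom (algebraMap R L) x := by
    apply Polynomial.ringHom_ext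
    · intro r
      simp [hψ]
    · simp [hψ, hxA]
  rw [← h2, ← Polynomial.eval₂_map, hGp]
  exact hpy

/-- **GAUSS-CHANGE**, chart form. -/
theorem isGaussOver_of_isIntegral_adjoin {x y : L} (hy : H489.IsGaussOver R V y) (hx : x ∈ V)
    (hint : IsIntegral (Algebra.adjoin R ({x} : Set L)) y) : H489.IsGaussOver R V x :=
  isGaussOver_of_isIntegralElem hy hx (exists_monic_of_isIntegral_adjoin hint)

/-- Elementwise form of the Gauss property (the shape of `A2.H12.IsSheet` and of the fields
`gauss_i` of `S36.Eng.TripleCtx`): `w` a generator of the maximal ideal of `R`. -/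
theorem inv_aeval_mem_of_isGaussOver {x : L} (hx : H489.IsGaussOver R V x) {w : R}
    (hw : maximalIdeal R = Ideal.span {w}) (P : R[X]) (hP : ∃ i, ¬ w ∣ P.coeff i) :
    (aeval x P)⁻¹ ∈ V := by
  apply hx.inv_aeval_mem
  intro h0
  obtain ⟨i, hi⟩ := hP
  apply hi
  have h1 := (H489.map_residue_eq_zero_iff P).mp h0 i
  rw [hw, Ideal.mem_span_singleton] at h1
  exact h1

end Main

end Fermat.Agent.S36.Mod3.H985

end

end
-- ===== PACK-END S36/Mod3/H985/GaussChange.lean

-- ===== PACK-BEGIN A2/Mod/H142/S2Frob.lean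
section




/-!
# A2 / MODASM S2 — concrete basics (helper142)

* `inW_iff` : `InW V w f ↔ v(f) < 1` for a uniformiser `w`;
* `inW_mul`, `inW_add`, ... : ideal properties of `w V`;
* `frobCong` : `j_{dq} ≡ j_d ^ q  mod w V∞` (integer series, `q ∈ w R`);
* `frobCong_inv` : `j_{dq}⁻¹ ≡ (j_d⁻¹) ^ q  mod w V∞`.
-/

set_option autoImplicit false
set_option synthInstance.maxHeartbeats 400000
set_option maxHeartbeats 1600000
set_option linter.unusedSectionVars false
set_option linter.style.haveILetI false

noncomputable section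

namespace Fermat.Agent.A2.Mod.H142

open ModularCurve HahnSeries Polynomial

variable (P : ValuationSubring _root_.Fermat.Agent.A2.Mod.Qb) (E : IntermediateField ℚ _root_.Fermat.Agent.A2.Mod.Qb)

section Basic

variable {P E} {N : ℕ} {V : ValuationSubring (_root_.Fermat.Agent.A2.Mod.FE E N)} {w : _root_.Fermat.Agent.A2.Mod.RE P E}

theorem inW_iff (hU : H48.IsUnif V (cE P E N w)) (f : _root_.Fermat.Agent.A2.Mod.FE E N) :
    InW P E N V w f ↔ V.valuation f < 1 :=
  hU.mul_inv_mem_iff

theorem inW_mul_right {f : _root_.Fermat.Agent.A2.Mod.FE E N} (hf : InW P E N V w f) {g : _root_.Fermat.Agent.A2.Mod.FE E N} (hg : g ∈ V) :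
    InW P E N V w (f * g) := by
  unfold InW at hf ⊢
  have : f * g * (cE P E N w)⁻¹ = f * (cE P E N w)⁻¹ * g := by ring
  rw [this]
  exact V.mul_mem _ _ hf hg

theorem inW_neg {f : _root_.Fermat.Agent.A2.Mod.FE E N} (hf : InW P E N V w f) : InW P E N V w (-f) := by
  unfold InW at hf ⊢
  rw [neg_mul]
  exact V.neg_mem _ hf

theorem inW_add {f g : _root_.Fermat.Agent.A2.Mod.FE E N} (hf : InW P E N V w f) (hg : InW P E N V w g) :
    InW P E N V w (f + g) := by
  unfold InW at hf hg ⊢
  rw [add_mul]
  exact V.add_mem _ _ hf hg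

theorem inW_sub {f g : _root_.Fermat.Agent.A2.Mod.FE E N} (hf : InW P E N V w f) (hg : InW P E N V w g) :
    InW P E N V w (f - g) := by
  unfold InW at hf hg ⊢
  rw [sub_mul]
  exact sub_mem hf hg

end Basic

section Frob

variable {P E}

/-- `q = r * w` in `R_E` when `P` lies over `q` and `w` is a uniformiser. -/
theorem exists_mul_eq_natCast {w : _root_.Fermat.Agent.A2.Mod.RE P E} {q : ℕ} (hdvr : IsDiscreteValuationRing (_root_.Fermat.Agent.A2.Mod.RE P E))
    (hw : Irreducible w) (hP : P.LiesOverPrime q) : ∃ r : _root_.Fermat.Agent.A2.Mod.RE P E, r * w = (q : _root_.Fermat.Agent.A2.Mod.RE P E) := by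
  haveI := hdvr
  have hmem : ((q : ℕ) : _root_.Fermat.Agent.A2.Mod.RE P E) ∈ IsLocalRing.maximalIdeal (_root_.Fermat.Agent.A2.Mod.RE P E) := by
    rw [IsLocalRing.mem_maximalIdeal, mem_nonunits_iff]
    intro hu
    obtain ⟨u, hu'⟩ := hu
    have h1 : (((u : _root_.Fermat.Agent.A2.Mod.RE P E) : E) : _root_.Fermat.Agent.A2.Mod.Qb) = (q : _root_.Fermat.Agent.A2.Mod.Qb) := by
      rw [hu']
      push_cast
      rfl
    have h3 : ((((u⁻¹ : (_root_.Fermat.Agent.A2.Mod.RE P E)ˣ) : _root_.Fermat.Agent.A2.Mod.RE P E) : E) : _root_.Fermat.Agent.A2.Mod.Qb) ∈ P := ((u⁻¹ : (_root_.Fermat.Agent.A2.Mod.RE P E)ˣ) : _root_.Fermat.Agent.A2.Mod.RE P E).2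
    have h4 : ((((u⁻¹ : (_root_.Fermat.Agent.A2.Mod.RE P E)ˣ) : _root_.Fermat.Agent.A2.Mod.RE P E) : E) : _root_.Fermat.Agent.A2.Mod.Qb) * (q : _root_.Fermat.Agent.A2.Mod.Qb) = 1 := by
      rw [← h1]
      have h5 : ((u⁻¹ : (_root_.Fermat.Agent.A2.Mod.RE P E)ˣ) : _root_.Fermat.Agent.A2.Mod.RE P E) * (u : _root_.Fermat.Agent.A2.Mod.RE P E) = 1 := Units.inv_mul u
      calc ((((u⁻¹ : (_root_.Fermat.Agent.A2.Mod.RE P E)ˣ) : _root_.Fermat.Agent.A2.Mod.RE P E) : E) : _root_.Fermat.Agent.A2.Mod.Qb) * (((u : _root_.Fermat.Agent.A2.Mod.RE P E) : E) : _root_.Fermat.Agent.A2.Mod.Qb)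
          = (((((u⁻¹ : (_root_.Fermat.Agent.A2.Mod.RE P E)ˣ) : _root_.Fermat.Agent.A2.Mod.RE P E) * (u : _root_.Fermat.Agent.A2.Mod.RE P E) : _root_.Fermat.Agent.A2.Mod.RE P E) : E) : _root_.Fermat.Agent.A2.Mod.Qb) := rfl
        _ = 1 := by rw [h5]; rfl
    have hq' : (q : _root_.Fermat.Agent.A2.Mod.Qb) ∈ P.nonunits := hP
    rw [ValuationSubring.mem_nonunits_iff_exists_mem_maximalIdeal] at hq'
    obtain ⟨hqP, hqm⟩ := hq'
    rw [IsLocalRing.mem_maximalIdeal, mem_nonunits_iff] at hqm
    apply hqm
    refine IsUnit.of_mul_eq_one ⟨_, h3⟩ ?_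
    exact Subtype.ext (by rw [mul_comm]; exact h4)
  rw [hw.maximalIdeal_eq, Ideal.mem_span_singleton'] at hmem
  exact hmem

/-- An element of `F_N` whose expansion is `q` times an integer series lies in `w V∞`. -/
theorem inW_of_coe_eq {w : _root_.Fermat.Agent.A2.Mod.RE P E} {q : ℕ} (hq0 : q ≠ 0)
    (hdvr : IsDiscreteValuationRing (_root_.Fermat.Agent.A2.Mod.RE P E))
    (hw : Irreducible w) (hP : P.LiesOverPrime q) {N : ℕ} (hN : N ≠ 0)
    {V : ValuationSubring (_root_.Fermat.Agent.A2.Mod.FE E N)} (hV : IsVinf P E N V) (D : _root_.Fermat.Agent.A2.Mod.FE E N) (g : LaurentSeries ℤ)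
    (hD : (D : LaurentSeries E) = coeffEmb E (H708.castQ (HahnSeries.C (q : ℤ) * g))) :
    InW P E N V w D := by
  haveI := hdvr
  obtain ⟨r, hr⟩ := exists_mul_eq_natCast hdvr hw hP
  have hL2 := H553.vinfBasic P E w N hN hdvr hw V hV
  have hw0 : (w : E) ≠ 0 := fun h0 => hw.ne_zero (Subtype.ext h0)
  have hcw : cE P E N w ≠ 0 := (map_ne_zero_iff _ (algebraMap E (_root_.Fermat.Agent.A2.Mod.FE E N)).injective).mpr hw0
  have hqE : ((q : ℕ) : E) ≠ 0 := Nat.cast_ne_zero.mpr hq0
  have hqF : ((q : ℕ) : _root_.Fermat.Agent.A2.Mod.FE E N) ≠ 0 := Nat.cast_ne_zero.mpr hq0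
  -- `G := D / q` has integral expansion `g`
  obtain ⟨G, hG⟩ : ∃ G : _root_.Fermat.Agent.A2.Mod.FE E N, G = D * ((q : ℕ) : _root_.Fermat.Agent.A2.Mod.FE E N)⁻¹ := ⟨_, rfl⟩
  have hqL : ((q : ℕ) : LaurentSeries E) ≠ 0 := by
    rw [← map_natCast (algebraMap E (LaurentSeries E))]
    exact (_root_.map_ne_zero _).mpr hqE
  have hCq : coeffEmb E (H708.castQ (HahnSeries.C (q : ℤ))) = ((q : ℕ) : LaurentSeries E) := by
    have h1 : (HahnSeries.C (q : ℤ) : LaurentSeries ℤ) = ((q : ℕ) : LaurentSeries ℤ) := by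
      rw [← map_natCast (HahnSeries.C : ℤ →+* LaurentSeries ℤ)]
    rw [h1, map_natCast, map_natCast]
  have hGc : (G : LaurentSeries E) = coeffEmb E (H708.castQ g) := by
    have h1 : (G : LaurentSeries E) = (D : LaurentSeries E) * ((q : ℕ) : LaurentSeries E)⁻¹ := by
      rw [hG]
      push_cast
      rfl
    rw [h1, hD, map_mul, map_mul, hCq, mul_comm (((q : ℕ) : LaurentSeries E)), mul_assoc,
      mul_inv_cancel₀ hqL, mul_one]
  have hGV : G ∈ V := H553.mem_of_int hV hGc
  have hrV : algebraMap E (_root_.Fermat.Agent.A2.Mod.FE E N) (r : E) ∈ V := (hL2.2.1 _).mpr r.2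
  have hqr : ((q : ℕ) : _root_.Fermat.Agent.A2.Mod.FE E N) = algebraMap E (_root_.Fermat.Agent.A2.Mod.FE E N) (r : E) * cE P E N w := by
    have h1 : ((r * w : _root_.Fermat.Agent.A2.Mod.RE P E) : E) = ((q : ℕ) : E) := by
      rw [hr]
      rfl
    have h2 : ((r * w : _root_.Fermat.Agent.A2.Mod.RE P E) : E) = (r : E) * (w : E) := rfl
    rw [h2] at h1
    unfold cE
    rw [← map_mul, h1, map_natCast]
  have hDG : D = G * ((q : ℕ) : _root_.Fermat.Agent.A2.Mod.FE E N) := by
    rw [hG, mul_assoc, inv_mul_cancel₀ hqF, mul_one]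
  unfold InW
  have : D * (cE P E N w)⁻¹ = G * algebraMap E (_root_.Fermat.Agent.A2.Mod.FE E N) (r : E) := by
    rw [hDG, hqr, mul_assoc, mul_assoc, mul_inv_cancel₀ hcw, mul_one]
  rw [this]
  exact V.mul_mem _ _ hGV hrV

/-- **Frobenius congruence** at level `E`: `j_{dq} ≡ j_d ^ q mod w V∞`. -/
theorem frobCong {w : _root_.Fermat.Agent.A2.Mod.RE P E} {q : ℕ} (hq : q.Prime)
    (hdvr : IsDiscreteValuationRing (_root_.Fermat.Agent.A2.Mod.RE P E))
    (hw : Irreducible w) (hP : P.LiesOverPrime q) {N : ℕ} (hN : N ≠ 0)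
    {V : ValuationSubring (_root_.Fermat.Agent.A2.Mod.FE E N)} (hV : IsVinf P E N V)
    (d : ℕ) [NeZero d] [NeZero (d * q)] (hd : d ∣ N) (hdq : d * q ∣ N) :
    InW P E N V w (jE E N (d * q) hdq - jE E N d hd ^ q) := by
  haveI : Fact q.Prime := ⟨hq⟩
  haveI : NeZero q := ⟨hq.ne_zero⟩
  obtain ⟨g, hg⟩ := H528.exists_frobCong q (H708.jInt d)
  refine inW_of_coe_eq hq.ne_zero hdvr hw hP hN hV _ g ?_
  rw [← hg]
  have h1 : qExpand ℤ q (H708.jInt d) = H708.jInt (d * q) := by
    rw [H708.jInt, H708.jInt, jqNModC, jqNModC, qExpand_qExpand]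
    exact qExpand_congr (mul_comm q d) _
  rw [h1, map_sub, map_sub, map_pow, map_pow]
  show ((jE E N (d * q) hdq : _root_.Fermat.Agent.A2.Mod.FE E N) : LaurentSeries E)
    - ((jE E N d hd : _root_.Fermat.Agent.A2.Mod.FE E N) : LaurentSeries E) ^ q = _
  rw [H553.coe_jE, H553.coe_jE]

end Frob

end Fermat.Agent.A2.Mod.H142

end
end
-- ===== PACK-END A2/Mod/H142/S2Frob.lean

-- ===== PACK-BEGIN S18/H576/Unif.lean
section




/-!
# S18 / MOD-ASM (helper576): the uniformiser facts (`UnifFacts`) from `H602.isDiscreteValuationRing_RE`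
-/

set_option autoImplicit false

noncomputable section

namespace Fermat.Agent.S18.H576

open ModularCurve AlgebraicCurve HahnSeries Fermat.Agent.S18 Fermat.Agent.S18.Mod
open Fermat.Agent.S18.H602 (RE mem_RE toA)

variable {M : ℕ} {A : ValuationSubring Qb} {E : IntermediateField ℚ Qb}

/-- The inclusion `R_E → Ω`. -/
def iotaR (M : ℕ) (A : ValuationSubring Qb) (E : IntermediateField ℚ Qb) : RE A E →+* Om M :=
  (iota M).comp ((algebraMap E Qb).comp (RE A E).subtype)

theorem iotaR_apply (r : RE A E) : iotaR M A E r = iota M ((r : E) : Qb) := rfl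

theorem iotaR_injective : Function.Injective (iotaR M A E) := by
  intro r s h
  have h1 : ((r : E) : Qb) = ((s : E) : Qb) := iota_injective M h
  exact Subtype.ext (Subtype.ext h1)

theorem iotaR_mem_Rc (r : RE A E) : iotaR M A E r ∈ Rc M A E :=
  iota_mem_Rc (mem_RE.mp r.2) (r : E).2

theorem mem_Rc_iff_exists_iotaR {y : Om M} : y ∈ Rc M A E ↔ ∃ r : RE A E, iotaR M A E r = y := by
  constructor
  · intro hy
    obtain ⟨a, haA, haE, rfl⟩ := mem_Rc_iff.mp hy
    exact ⟨⟨⟨a, haE⟩, haA⟩, rfl⟩
  · rintro ⟨r, rfl⟩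
    exact iotaR_mem_Rc r

theorem iotaR_inv_mem_Rc_iff (r : RE A E) : (iotaR M A E r)⁻¹ ∈ Rc M A E ↔ r = 0 ∨ IsUnit r := by
  constructor
  · intro h
    by_cases hr : r = 0
    · exact Or.inl hr
    right
    obtain ⟨s, hs⟩ := mem_Rc_iff_exists_iotaR.mp h
    refine isUnit_iff_exists_inv.mpr ⟨s, ?_⟩
    apply iotaR_injective (M := M)
    rw [map_mul, hs, map_one]
    exact mul_inv_cancel₀ (fun h0 => hr (iotaR_injective (by rw [h0, map_zero])))
  · rintro (rfl | hu)
    · rw [map_zero, inv_zero]
      exact zero_mem _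
    · obtain ⟨s, hs⟩ := isUnit_iff_exists_inv.mp hu
      have : (iotaR M A E r)⁻¹ = iotaR M A E s := by
        have h1 : iotaR M A E r * iotaR M A E s = 1 := by rw [← map_mul, hs, map_one]
        exact inv_eq_of_mul_eq_one_right h1
      rw [this]
      exact iotaR_mem_Rc s

/-- Every element of the residue field of `R_E` is algebraic over `𝔽_ℓ`. -/
theorem exists_polynomial_residue (r : RE A E) {ℓ : ℕ} (hℓ : ℓ.Prime) :
    ∃ P : Polynomial ℤ, P.map (Int.castRingHom (ZMod ℓ)) ≠ 0 ∧
      Polynomial.eval₂ (Int.castRingHom (RE A E)) r P = 0 := by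
  haveI : Fact ℓ.Prime := ⟨hℓ⟩
  have halgQ : IsAlgebraic ℚ ((r : E) : Qb) := (AlgebraicClosure.isAlgebraic ℚ).isAlgebraic _
  have halgZ : IsAlgebraic ℤ ((r : E) : Qb) := (IsFractionRing.isAlgebraic_iff ℤ ℚ Qb).mpr halgQ
  obtain ⟨P, hP0, hP⟩ := halgZ
  have hprim : P.primPart.IsPrimitive := Polynomial.isPrimitive_primPart P
  have hev : Polynomial.aeval ((r : E) : Qb) P.primPart = 0 := by
    have h1 := P.eq_C_content_mul_primPart
    rw [h1, map_mul, Polynomial.aeval_C] at hP
    rcases mul_eq_zero.mp hP with h | h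
    · exfalso
      have : (P.content : Qb) = 0 := by simpa using h
      have h2 : P.content = 0 := by exact_mod_cast this
      exact hP0 (Polynomial.content_eq_zero_iff.mp h2)
    · exact h
  refine ⟨P.primPart, ?_, ?_⟩
  · intro h0
    have hdvd : Polynomial.C (ℓ : ℤ) ∣ P.primPart := by
      rw [Polynomial.C_dvd_iff_dvd_coeff]
      intro i
      have := congrArg (fun Q : Polynomial (ZMod ℓ) => Q.coeff i) h0
      simp only [Polynomial.coeff_map, Polynomial.coeff_zero, eq_intCast] at this
      exact (ZMod.intCast_zmod_eq_zero_iff_dvd _ _).mp this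
    have hu := hprim _ hdvd
    have : IsUnit (ℓ : ℤ) := hu
    rw [Int.isUnit_iff] at this
    have hℓ2 := hℓ.two_le
    omega
  · have hinj : Function.Injective ((algebraMap E Qb).comp (RE A E).subtype) := by
      intro a b h
      exact Subtype.ext (Subtype.ext h)
    apply hinj
    rw [map_zero, Polynomial.hom_eval₂]
    have : (((algebraMap E Qb).comp (RE A E).subtype).comp (Int.castRingHom (RE A E))) =
        algebraMap ℤ Qb := RingHom.ext_int _ _
    rw [this]
    exact hev

end Fermat.Agent.S18.H576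

namespace Fermat.Agent.S18.H576

open ModularCurve AlgebraicCurve HahnSeries Fermat.Agent.S18 Fermat.Agent.S18.Mod
open Fermat.Agent.S18.H602 (RE mem_RE toA)

variable {M : ℕ} {A : ValuationSubring Qb} {E : IntermediateField ℚ Qb}

theorem natCast_mem_maximalIdeal_RE {ℓ : ℕ} (hA : A.LiesOverPrime ℓ) :
    ((ℓ : ℕ) : RE A E) ∈ IsLocalRing.maximalIdeal (RE A E) := by
  rw [IsLocalRing.mem_maximalIdeal, mem_nonunits_iff]
  have h := H602.natCast_not_isUnit_RE A E (ℓ := ℓ) hA
  intro hu
  apply h
  have : (⟨(ℓ : E), H602.natCast_mem_RE A E ℓ⟩ : RE A E) = ((ℓ : ℕ) : RE A E) := by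
    apply Subtype.ext
    simp
  rw [this]
  exact hu

theorem natCast_residue_RE_eq_zero {ℓ : ℕ} (hA : A.LiesOverPrime ℓ) :
    ((ℓ : ℕ) : IsLocalRing.ResidueField (RE A E)) = 0 := by
  have := (IsLocalRing.residue_eq_zero_iff ((ℓ : ℕ) : RE A E)).mpr
    (natCast_mem_maximalIdeal_RE hA)
  simpa using this

/-- The residue field of `R_E` is perfect: Frobenius is surjective modulo the maximal ideal. -/
theorem exists_pow_sub_mem_maximalIdeal {ℓ : ℕ} (hℓ : ℓ.Prime) (hA : A.LiesOverPrime ℓ)
    (r : RE A E) : ∃ s : RE A E, r - s ^ ℓ ∈ IsLocalRing.maximalIdeal (RE A E) := by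
  haveI : Fact ℓ.Prime := ⟨hℓ⟩
  set κ := IsLocalRing.ResidueField (RE A E) with hκ
  haveI : CharP κ ℓ := (CharP.charP_iff_prime_eq_zero hℓ).mpr (natCast_residue_RE_eq_zero hA)
  letI : Algebra (ZMod ℓ) κ := ZMod.algebra κ ℓ
  haveI : Algebra.IsAlgebraic (ZMod ℓ) κ := by
    refine ⟨fun x => ?_⟩
    obtain ⟨r', rfl⟩ := IsLocalRing.residue_surjective x
    obtain ⟨P, hP0, hP⟩ := exists_polynomial_residue r' hℓ
    refine ⟨P.map (Int.castRingHom (ZMod ℓ)), hP0, ?_⟩
    rw [Polynomial.aeval_def, Polynomial.eval₂_map]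
    have h1 : (algebraMap (ZMod ℓ) κ).comp (Int.castRingHom (ZMod ℓ)) =
        (IsLocalRing.residue (RE A E)).comp (Int.castRingHom (RE A E)) := RingHom.ext_int _ _
    rw [h1, ← Polynomial.hom_eval₂, hP, map_zero]
  haveI : PerfectField κ := Algebra.IsAlgebraic.perfectField (ZMod ℓ)
  haveI : ExpChar κ ℓ := ExpChar.prime hℓ
  obtain ⟨y, hy⟩ := surjective_frobenius κ ℓ (IsLocalRing.residue (RE A E) r)
  obtain ⟨s, rfl⟩ := IsLocalRing.residue_surjective y
  refine ⟨s, ?_⟩
  rw [← IsLocalRing.residue_eq_zero_iff, map_sub, map_pow, sub_eq_zero]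
  rw [frobenius_def] at hy
  exact hy.symm

/-- The uniformiser facts for `w = ` image of a uniformiser of `R_E`. -/
theorem exists_unifFacts (M : ℕ) {A : ValuationSubring Qb} (E : IntermediateField ℚ Qb)
    [FiniteDimensional ℚ E] {ℓ : ℕ} (hℓ : ℓ.Prime) (hA : A.LiesOverPrime ℓ) :
    ∃ ϖ : RE A E, Irreducible ϖ ∧ UnifFacts M A E (iotaR M A E ϖ) := by
  haveI : IsDiscreteValuationRing (RE A E) :=
    H602.isDiscreteValuationRing_RE A E hℓ.ne_zero hA
  obtain ⟨ϖ, hϖ⟩ := IsDiscreteValuationRing.exists_irreducible (RE A E)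
  have hϖ0 : ϖ ≠ 0 := hϖ.ne_zero
  have hw0 : iotaR M A E ϖ ≠ 0 := fun h => hϖ0 (iotaR_injective (by rw [h, map_zero]))
  have hmax : ∀ r : RE A E, r ∈ IsLocalRing.maximalIdeal (RE A E) → ∃ b : RE A E, r = b * ϖ := by
    intro r hr
    rw [hϖ.maximalIdeal_eq, Ideal.mem_span_singleton] at hr
    obtain ⟨b, hb⟩ := hr
    exact ⟨b, by rw [hb, mul_comm]⟩
  have hdiv : ∀ b : RE A E, iotaR M A E (b * ϖ) * (iotaR M A E ϖ)⁻¹ = iotaR M A E b := by
    intro b
    rw [map_mul, mul_assoc, mul_inv_cancel₀ hw0, mul_one]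
  refine ⟨ϖ, hϖ, ⟨iotaR_mem_Rc ϖ, hw0, ?_, ?_, ?_, ?_⟩⟩
  · intro h
    rcases (iotaR_inv_mem_Rc_iff ϖ).mp h with h0 | hu
    · exact hϖ0 h0
    · exact hϖ.not_isUnit hu
  · intro y hy hyinv
    obtain ⟨r, rfl⟩ := mem_Rc_iff_exists_iotaR.mp hy
    have hr : r ∈ IsLocalRing.maximalIdeal (RE A E) := by
      rw [IsLocalRing.mem_maximalIdeal, mem_nonunits_iff]
      intro hu
      exact hyinv ((iotaR_inv_mem_Rc_iff r).mpr (Or.inr hu))
    obtain ⟨b, rfl⟩ := hmax r hr
    rw [hdiv]
    exact iotaR_mem_Rc b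
  · intro y hy hy0
    obtain ⟨r, rfl⟩ := mem_Rc_iff_exists_iotaR.mp hy
    have hr0 : r ≠ 0 := fun h => hy0 (by rw [h, map_zero])
    obtain ⟨n, u, hu⟩ := IsDiscreteValuationRing.eq_unit_mul_pow_irreducible hr0 hϖ
    refine ⟨n, ?_⟩
    have h1 : iotaR M A E r * ((iotaR M A E ϖ)⁻¹) ^ n = iotaR M A E (u : RE A E) := by
      rw [hu, map_mul, map_pow, mul_assoc, ← mul_pow, mul_inv_cancel₀ hw0, one_pow, mul_one]
    rw [h1]
    exact ⟨iotaR_mem_Rc _, (iotaR_inv_mem_Rc_iff _).mpr (Or.inr u.isUnit)⟩
  · refine ⟨ℓ, hℓ, ?_, ?_⟩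
    · obtain ⟨b, hb⟩ := hmax _ (natCast_mem_maximalIdeal_RE (E := E) hA)
      have h1 : ((ℓ : ℕ) : Om M) = iotaR M A E (b * ϖ) := by
        rw [← hb, map_natCast]
      rw [h1, hdiv]
      exact iotaR_mem_Rc b
    · intro y hy
      obtain ⟨r, rfl⟩ := mem_Rc_iff_exists_iotaR.mp hy
      obtain ⟨s, hs⟩ := exists_pow_sub_mem_maximalIdeal hℓ hA r
      obtain ⟨b, hb⟩ := hmax _ hs
      refine ⟨iotaR M A E s, iotaR_mem_Rc s, ?_⟩
      have h1 : iotaR M A E r - iotaR M A E s ^ ℓ = iotaR M A E (b * ϖ) := by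
        rw [← hb, map_sub, map_pow]
      rw [h1, hdiv]
      exact iotaR_mem_Rc b

end Fermat.Agent.S18.H576

end
end
-- ===== PACK-END S18/H576/Unif.lean

-- ===== PACK-BEGIN A2/Top/H994/Wall.lean
section



/-!
# WALL A2 — final assembly for ALL `q` (deputy helper994)

The MOD block can produce the semistable model `ModSSData P E N` only at levels `N` where the
good-reduction input at level `M = N / q` is available from S18: for `q = 3` this needs `2 ∣ N`,
for `q = 2` it needs `3 ∣ N` (Hauptmodul charts).  This file closes the wall for every level: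

* `t1_perN`            : `T1` for ONE level `N` (same proof as `T1.H669.t1`, which uses MOD only at
                         the level `N`);
* `ModSSGoodStatement` : `ModSSStatement` restricted to levels with the auxiliary prime;
* `D2Statement`        : descent of `KummerTarget` from the auxiliary level to `N` (norm trick,
                         degree `3` resp. `4`, prime to `m`; owners helper876 / helper133);
* `wall`               : `AlgSS → IF → ModSSGood → D2 → Target N q m` for all `q ‖ N`, `q ∤ m`.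
-/

set_option autoImplicit false
set_option synthInstance.maxHeartbeats 400000
set_option maxHeartbeats 1600000

noncomputable section

namespace Fermat.Agent.A2.Top.H994

open ModularCurve AlgebraicCurve Fermat.Agent.A2 Fermat.Agent.A2.T1.H669

/-- **T1 for one level.**  `ALG + IF + (MOD at the level N) ⟹ KummerTarget N q m`. -/
theorem t1_perN (hALG : AlgSSStatement) (hIF : IFStatement) (N q m : ℕ) (hq : q.Prime)
    (hm : 0 < m) (hqm : ¬ q ∣ m)
    (hMOD : ∀ (P : ValuationSubring _root_.Fermat.Agent.A2.Qb) (E : IntermediateField ℚ _root_.Fermat.Agent.A2.Qb),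
      P.LiesOverPrime q → GoodField P E → Nonempty (ModSSData P E N)) :
    KummerTarget N q m := by
  intro P hP τ hτ f hf hdiv
  refine kummer_of_levels (modularFunctionFieldFull N) m τ (fun S => ?_) f hf hdiv
  obtain ⟨E, hSE, hE⟩ := hIF q hq P hP S
  refine ⟨E, hSE, hE.res τ hτ, fun e => rfl, fun y hy0 hdd => ?_⟩
  obtain ⟨D⟩ := hMOD P E hP hE
  haveI : IsDiscreteValuationRing ↥(RE P E) := hE.dvr
  haveI : HenselianLocalRing ↥(RE P E) := hE.henselian
  haveI : IsAlgClosed (IsLocalRing.ResidueField ↥(RE P E)) := hE.algClosed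
  obtain ⟨w, hw⟩ := IsDiscreteValuationRing.exists_irreducible ↥(RE P E)
  obtain ⟨cf⟩ := D.cf w hw
  obtain ⟨ci⟩ := D.ci w hw
  have hconcl : AlgSSConclusion E m
      (arithmeticRingAut (modularFunctionFieldFull N) (hE.res τ hτ)) :=
    hALG (R := ↥(RE P E)) (E := E) (F := ↥(FE E N)) w hw q m hq
      (natCast_mem_maximalIdeal_RE E hP) hm hqm D.x D.hx D.hfin D.hconst D.Bf D.Bi D.hBf D.hBi
      cf ci D.sf D.si
      (arithmeticRingAut (modularFunctionFieldFull N) (hE.res τ hτ))
      (hE.res τ hτ).toRingEquiv (resR hE τ hτ)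
      (fun e => arithmeticRingAut_algebraMap (modularFunctionFieldFull N) (hE.res τ hτ) e)
      (fun r => rfl)
      (D.hτx hE τ hτ)
      (finite_order_arithmeticRingAut (modularFunctionFieldFull N) hE τ hτ)
      (D.hτf hE τ hτ w hw) (D.hτi hE τ hτ w hw)
  exact hconcl y hy0 hdd

/-- The auxiliary level: `lcm N 2` for `q = 3`, `lcm N 3` for `q = 2`, `N` otherwise. -/
def auxLevel (N q : ℕ) : ℕ :=
  if q = 3 then Nat.lcm N 2 else if q = 2 then Nat.lcm N 3 else N

/-- **MOD, producible form**: the semistable model at the levels `N` with `q ‖ N` which contain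
the auxiliary prime (`2 ∣ N` if `q = 3`, `3 ∣ N` if `q = 2`). -/
def ModSSGoodStatement : Prop :=
  ∀ (P : ValuationSubring _root_.Fermat.Agent.A2.Qb) (E : IntermediateField ℚ _root_.Fermat.Agent.A2.Qb) (N q : ℕ),
    q.Prime → q ∣ N → ¬ q ^ 2 ∣ N → N ≠ 0 → (q = 3 → 2 ∣ N) → (q = 2 → 3 ∣ N) →
    P.LiesOverPrime q → GoodField P E → Nonempty (ModSSData P E N)

/-- **D2, auxiliary-level descent** (norm trick; `[F_{aux} : F_N] ∈ {1, 3, 4}` is prime to `m`). -/
def D2Statement : Prop :=
  ∀ (N q m : ℕ), q.Prime → q ∣ N → ¬ q ^ 2 ∣ N → N ≠ 0 → 0 < m → ¬ q ∣ m →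
    KummerTarget (auxLevel N q) q m → KummerTarget N q m

theorem auxLevel_ne_zero {N : ℕ} (q : ℕ) (hN : N ≠ 0) : auxLevel N q ≠ 0 := by
  unfold auxLevel
  split_ifs
  · exact Nat.lcm_ne_zero hN (by norm_num)
  · exact Nat.lcm_ne_zero hN (by norm_num)
  · exact hN

theorem dvd_auxLevel (N q : ℕ) : N ∣ auxLevel N q := by
  unfold auxLevel
  split_ifs
  · exact Nat.dvd_lcm_left N 2
  · exact Nat.dvd_lcm_left N 3
  · exact dvd_rfl

theorem not_sq_dvd_lcm {N q a : ℕ} (hq : q.Prime) (ha : a.Prime) (hqa : q ≠ a)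
    (hq2 : ¬ q ^ 2 ∣ N) : ¬ q ^ 2 ∣ Nat.lcm N a := by
  intro h
  have hdvd : Nat.lcm N a ∣ N * a := Nat.lcm_dvd_mul N a
  have h1 : q ^ 2 ∣ N * a := h.trans hdvd
  have hcop : Nat.Coprime (q ^ 2) a := by
    apply Nat.Coprime.pow_left
    exact (Nat.coprime_primes hq ha).2 hqa
  exact hq2 (hcop.dvd_of_dvd_mul_right h1)

theorem not_sq_dvd_auxLevel {N q : ℕ} (hq : q.Prime) (hq2 : ¬ q ^ 2 ∣ N) :
    ¬ q ^ 2 ∣ auxLevel N q := by
  unfold auxLevel
  split_ifs with h3 h2
  · exact not_sq_dvd_lcm hq Nat.prime_two (by omega) hq2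
  · exact not_sq_dvd_lcm hq Nat.prime_three (by omega) hq2
  · exact hq2

theorem aux_two_dvd {N q : ℕ} (h : q = 3) : 2 ∣ auxLevel N q := by
  unfold auxLevel
  rw [if_pos h]
  exact Nat.dvd_lcm_right N 2

theorem aux_three_dvd {N q : ℕ} (h : q = 2) : 3 ∣ auxLevel N q := by
  unfold auxLevel
  rw [if_neg (by omega), if_pos h]
  exact Nat.dvd_lcm_right N 3

/-- **The Kummer form of the wall, all `q`.** -/
theorem kummerTarget_all (hALG : AlgSSStatement) (hIF : IFStatement)
    (hMOD : ModSSGoodStatement) (hD2 : D2Statement)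
    (N q m : ℕ) (hq : q.Prime) (hqN : q ∣ N) (hq2 : ¬ q ^ 2 ∣ N) (hN : N ≠ 0) (hm : 0 < m)
    (hqm : ¬ q ∣ m) : KummerTarget N q m := by
  apply hD2 N q m hq hqN hq2 hN hm hqm
  apply t1_perN hALG hIF (auxLevel N q) q m hq hm hqm
  intro P E hP hE
  exact hMOD P E (auxLevel N q) q hq (hqN.trans (dvd_auxLevel N q))
    (not_sq_dvd_auxLevel hq hq2) (auxLevel_ne_zero q hN) aux_two_dvd aux_three_dvd hP hE

/-- **The wall A2, all `q`**: unipotent inertia on `J₀(N)[m]` at every `q ‖ N`, `q ∤ m`. -/
theorem wall (hALG : AlgSSStatement) (hIF : IFStatement)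
    (hMOD : ModSSGoodStatement) (hD2 : D2Statement)
    (N q m : ℕ) (hq : q.Prime) (hqN : q ∣ N) (hq2 : ¬ q ^ 2 ∣ N) (hN : N ≠ 0) (hm : 0 < m)
    (hqm : ¬ q ∣ m) : Target N q m :=
  Fermat.Agent.A2.T0.H669.target_of_kummerTarget N q m hm
    (kummerTarget_all hALG hIF hMOD hD2 N q m hq hqN hq2 hN hm hqm)

end Fermat.Agent.A2.Top.H994

end

end
-- ===== PACK-END A2/Top/H994/Wall.lean

-- ===== PACK-BEGIN S36/H253/NormAdapt.lean
section


/-!
# Norm–residue and norm–valuation formulas, ELEMENTWISE (helper253)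

Mathlib only (on top of `FundIneq.lean`).  Adapters of `norm_red_ram_lb` / `val_norm_ram_lb` to
statements which mention valuation subrings only (no residue-field types), in the shape of the
interface Props `NormResSplit`, `NormResInsep` of `S36/H630/LabNorm.lean`.

`F / K` finite, `O ⊆ K` discrete with uniformiser `ϖ`.

* `normRes_split` : `V i` pairwise incomparable over `O`, `τ i ∈ m_{V i}`,
  `v i (ϖ) = v i (τ i) ^ E i`, `∑ i, E i = [F : K]` (so all residue degrees are `1`).
  For `y ∈ ⋂ V i` with `y ≡ c i mod m_{V i}` (`c i ∈ K`): `N y ≡ ∏ i, c i ^ E i mod m_O`.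
* `normResSplit_lb` : the case of two extensions `V₁` (`E = 1`), `V₂` (`E = e`), `[F : K] = 1 + e`.
* `normResInsep_lb` : one extension `V`, `[F : K] = q` prime `= char`, `z₀ ^ q ≡ c₀` with `c₀` not
  a `q`-th power mod `m_O`.  For `y ∈ V` with `y ^ q ≡ c mod m_V`: `N y ≡ c mod m_O`.
* `valNorm_split`, `valNorm_insep` : the corresponding valuations of norms.
-/

set_option autoImplicit false
set_option linter.unusedSectionVars false
set_option linter.style.haveILetI false

namespace Fermat.Agent.S36.H253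

open scoped BigOperators
open Fermat.Agent.S35.H253

section Canon

variable {K F : Type*} [Field K] [Field F] [Algebra K F]

/-- The inclusion `O → V` of a valuation ring into a valuation ring over it. -/
def inclOver {O : ValuationSubring K} {V : ValuationSubring F} (h : Over O V) : O →+* V :=
  RingHom.codRestrict ((algebraMap K F).comp O.subtype) V (fun a => (h a).2 a.2)

theorem inclOver_coe {O : ValuationSubring K} {V : ValuationSubring F} (h : Over O V) (a : O) :
    ((inclOver h a : V) : F) = algebraMap K F a := rfl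

theorem isLocalHom_inclOver {O : ValuationSubring K} {V : ValuationSubring F} (h : Over O V) :
    IsLocalHom (inclOver h) := by
  constructor
  intro a ha
  rw [ValuationSubring.valuation_eq_one_iff] at ha ⊢
  rw [inclOver_coe] at ha
  refine le_antisymm (O.valuation_le_one a) ?_
  rw [← not_lt, ← h.val_lt_one_iff, ha]
  exact lt_irrefl _

/-- The residue field of `V` as an algebra over the residue field of `O`. -/
@[reducible] noncomputable def resAlgebra {O : ValuationSubring K} {V : ValuationSubring F} (h : Over O V) :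
    Algebra (IsLocalRing.ResidueField O) (IsLocalRing.ResidueField V) :=
  haveI := isLocalHom_inclOver h
  (IsLocalRing.ResidueField.map (inclOver h)).toAlgebra

theorem resAlgebra_residue {O : ValuationSubring K} {V : ValuationSubring F} (h : Over O V)
    (a : O) :
    letI := resAlgebra h
    IsLocalRing.residue V ⟨algebraMap K F a, (h a).2 a.2⟩ =
      algebraMap (IsLocalRing.ResidueField O) (IsLocalRing.ResidueField V)
        (IsLocalRing.residue O a) := by
  letI := resAlgebra h
  haveI := isLocalHom_inclOver h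
  exact (IsLocalRing.ResidueField.map_residue (inclOver h) a).symm

/-- Two elements of `V` with difference in the maximal ideal have the same residue. -/
theorem residue_eq_of_sub_mem {V : ValuationSubring F} {x y : F} (hx : x ∈ V) (hy : y ∈ V)
    (h : x - y ∈ V.nonunits) :
    IsLocalRing.residue V ⟨x, hx⟩ = IsLocalRing.residue V ⟨y, hy⟩ := by
  rw [← sub_eq_zero, ← map_sub, IsLocalRing.residue_eq_zero_iff,
    ValuationSubring.valuation_lt_one_iff]
  exact h

theorem mem_of_sub_mem_nonunits {V : ValuationSubring F} {x y : F} (hx : x ∈ V)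
    (h : x - y ∈ V.nonunits) : y ∈ V := by
  have : y = x - (x - y) := by ring
  rw [this]
  exact sub_mem hx (ValuationSubring.nonunits_subset h)

end Canon

section Split

variable {K F : Type*} [Field K] [Field F] [Algebra K F]
variable {ι : Type*} [Fintype ι]
    {O : ValuationSubring K} {ϖ : K} {V : ι → ValuationSubring F} {τ : ι → F} {E : ι → ℕ}
    (hover : ∀ i, Over O (V i)) (hinc : ∀ i i', i ≠ i' → ¬ V i ≤ V i')
    (hϖ0 : ϖ ≠ 0) (hϖ : O.valuation ϖ < 1)
    (hdvr : ∀ a : K, a ≠ 0 → ∃ n : ℤ, O.valuation a = O.valuation ϖ ^ n)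
    (hτ : ∀ i, (V i).valuation (τ i) < 1)
    (hram : ∀ i, (V i).valuation (algebraMap K F ϖ) = (V i).valuation (τ i) ^ E i)

include hover hinc hϖ0 hϖ hdvr hτ hram

/-- **Norm–residue formula, split case, elementwise.**  If `∑ i, E i = [F : K]`, then for
`y ∈ ⋂ V i` with `y ≡ c i mod m_{V i}`, `c i ∈ K`:  `N_{F/K} y ≡ ∏ i, c i ^ E i mod m_O`. -/
theorem normRes_split [Module.Finite K F] (hdeg : ∑ i, E i = Module.finrank K F)
    {y : F} (hy : ∀ i, y ∈ V i) (c : ι → K)
    (hyc : ∀ i, y - algebraMap K F (c i) ∈ (V i).nonunits) :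
    Algebra.norm K y - ∏ i, c i ^ E i ∈ O.nonunits := by
  classical
  letI alg : ∀ i, Algebra (IsLocalRing.ResidueField O) (IsLocalRing.ResidueField (V i)) :=
    fun i => resAlgebra (hover i)
  have hπ : Function.Surjective (IsLocalRing.residue O) := IsLocalRing.residue_surjective
  have hρ : ∀ i, Function.Surjective (IsLocalRing.residue (V i)) :=
    fun i => IsLocalRing.residue_surjective
  have hc : ∀ i (a : O), IsLocalRing.residue (V i) ⟨algebraMap K F a, ((hover i) a).2 a.2⟩ =
      algebraMap (IsLocalRing.ResidueField O) (IsLocalRing.ResidueField (V i))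
        (IsLocalRing.residue O a) := fun i a => resAlgebra_residue (hover i) a
  have hfin : ∀ i, Module.Finite (IsLocalRing.ResidueField O)
      (IsLocalRing.ResidueField (V i)) := fun i =>
    finite_residue_dvr hover hϖ0 hϖ hdvr hτ hram (IsLocalRing.residue O)
      (fun i => IsLocalRing.residue (V i)) hπ hρ hc i
  have hf : ∀ i, (fun _ : ι => 1) i ≤
      Module.finrank (IsLocalRing.ResidueField O) (IsLocalRing.ResidueField (V i)) :=
    fun i => Module.finrank_pos
  have heq : ∑ i, E i * (fun _ : ι => 1) i = Module.finrank K F := by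
    rw [← hdeg]; exact Finset.sum_congr rfl fun i _ => mul_one _
  obtain ⟨hN, hred⟩ := norm_red_ram_lb hover hinc hϖ0 hϖ hdvr hτ hram (IsLocalRing.residue O)
    (fun i => IsLocalRing.residue (V i)) hπ hρ hc (fun _ => 1) hf heq hy
  have hfr := finrank_eq_of_fund_eq hover hinc hϖ0 hϖ (genO_of_dvr hϖ0 hϖ hdvr) hτ
    (fun i _ hz => exists_pow_le_of_dvr (hover i) hϖ0 hϖ hdvr hz) hram (IsLocalRing.residue O)
    (fun i => IsLocalRing.residue (V i)) hπ hρ hc (fun _ => 1) hf heq
  have hcV : ∀ i, algebraMap K F (c i) ∈ V i := fun i => mem_of_sub_mem_nonunits (hy i) (hyc i)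
  have hcO : ∀ i, c i ∈ O := fun i => ((hover i) (c i)).1 (hcV i)
  have hnorm : ∀ i, Algebra.norm (IsLocalRing.ResidueField O)
      (IsLocalRing.residue (V i) ⟨y, hy i⟩) = IsLocalRing.residue O ⟨c i, hcO i⟩ := by
    intro i
    apply (algebraMap (IsLocalRing.ResidueField O) (IsLocalRing.ResidueField (V i))).injective
    rw [algebraMap_norm_of_finrank_eq_one (hfr i), ← hc i ⟨c i, hcO i⟩]
    exact residue_eq_of_sub_mem (hy i) (hcV i) (hyc i)
  have hprodO : ∏ i, c i ^ E i ∈ O := prod_mem fun i _ => pow_mem (hcO i) _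
  have hred' : IsLocalRing.residue O ⟨Algebra.norm K y, hN⟩ =
      IsLocalRing.residue O ⟨∏ i, c i ^ E i, hprodO⟩ := by
    rw [hred]
    have e1 : (⟨∏ i, c i ^ E i, hprodO⟩ : O) = ∏ i, (⟨c i, hcO i⟩ : O) ^ E i := by
      apply Subtype.ext
      rw [SubmonoidClass.coe_finsetProd]
      rfl
    rw [e1, map_prod]
    exact Finset.prod_congr rfl fun i _ => by rw [hnorm i, map_pow]
  rw [← sub_eq_zero, ← map_sub, IsLocalRing.residue_eq_zero_iff,
    ValuationSubring.valuation_lt_one_iff] at hred'
  exact hred'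

/-- **Norm–valuation formula, split case, elementwise.**  If `∑ i, E i = [F : K]`, every
`y ≠ 0` has `v i (y) = v i (τ i) ^ a i` and `v (N_{F/K} y) = v ϖ ^ ∑ i, a i`. -/
theorem valNorm_split [Module.Finite K F] (hdeg : ∑ i, E i = Module.finrank K F)
    {y : F} (hy : y ≠ 0) :
    ∃ a : ι → ℤ, (∀ i, (V i).valuation y = (V i).valuation (τ i) ^ a i) ∧
      O.valuation (Algebra.norm K y) = O.valuation ϖ ^ (∑ i, a i) := by
  classical
  letI alg : ∀ i, Algebra (IsLocalRing.ResidueField O) (IsLocalRing.ResidueField (V i)) :=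
    fun i => resAlgebra (hover i)
  have hπ : Function.Surjective (IsLocalRing.residue O) := IsLocalRing.residue_surjective
  have hρ : ∀ i, Function.Surjective (IsLocalRing.residue (V i)) :=
    fun i => IsLocalRing.residue_surjective
  have hc : ∀ i (a : O), IsLocalRing.residue (V i) ⟨algebraMap K F a, ((hover i) a).2 a.2⟩ =
      algebraMap (IsLocalRing.ResidueField O) (IsLocalRing.ResidueField (V i))
        (IsLocalRing.residue O a) := fun i a => resAlgebra_residue (hover i) a
  have hfin : ∀ i, Module.Finite (IsLocalRing.ResidueField O)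
      (IsLocalRing.ResidueField (V i)) := fun i =>
    finite_residue_dvr hover hϖ0 hϖ hdvr hτ hram (IsLocalRing.residue O)
      (fun i => IsLocalRing.residue (V i)) hπ hρ hc i
  have hf : ∀ i, (fun _ : ι => 1) i ≤
      Module.finrank (IsLocalRing.ResidueField O) (IsLocalRing.ResidueField (V i)) :=
    fun i => Module.finrank_pos
  have heq : ∑ i, E i * (fun _ : ι => 1) i = Module.finrank K F := by
    rw [← hdeg]; exact Finset.sum_congr rfl fun i _ => mul_one _
  obtain ⟨a, ha, hN⟩ := val_norm_ram_lb hover hinc hϖ0 hϖ hdvr hτ hram (IsLocalRing.residue O)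
    (fun i => IsLocalRing.residue (V i)) hπ hρ hc (fun _ => 1) hf heq hy
  refine ⟨a, ha, ?_⟩
  rw [hN]
  congr 1
  exact Finset.sum_congr rfl fun i _ => by simp

/-- **Equality case, elementwise** (split case): `τ i` generates the maximal ideal of `V i`. -/
theorem gen_split [Module.Finite K F] (hdeg : ∑ i, E i = Module.finrank K F) (i₀ : ι) (z : F)
    (hz : (V i₀).valuation z < 1) : (V i₀).valuation z ≤ (V i₀).valuation (τ i₀) := by
  classical
  letI alg : ∀ i, Algebra (IsLocalRing.ResidueField O) (IsLocalRing.ResidueField (V i)) :=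
    fun i => resAlgebra (hover i)
  have hπ : Function.Surjective (IsLocalRing.residue O) := IsLocalRing.residue_surjective
  have hρ : ∀ i, Function.Surjective (IsLocalRing.residue (V i)) :=
    fun i => IsLocalRing.residue_surjective
  have hc : ∀ i (a : O), IsLocalRing.residue (V i) ⟨algebraMap K F a, ((hover i) a).2 a.2⟩ =
      algebraMap (IsLocalRing.ResidueField O) (IsLocalRing.ResidueField (V i))
        (IsLocalRing.residue O a) := fun i a => resAlgebra_residue (hover i) a
  have hfin : ∀ i, Module.Finite (IsLocalRing.ResidueField O)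
      (IsLocalRing.ResidueField (V i)) := fun i =>
    finite_residue_dvr hover hϖ0 hϖ hdvr hτ hram (IsLocalRing.residue O)
      (fun i => IsLocalRing.residue (V i)) hπ hρ hc i
  have hf : ∀ i, (fun _ : ι => 1) i ≤
      Module.finrank (IsLocalRing.ResidueField O) (IsLocalRing.ResidueField (V i)) :=
    fun i => Module.finrank_pos
  have heq : ∑ i, E i * (fun _ : ι => 1) i = Module.finrank K F := by
    rw [← hdeg]; exact Finset.sum_congr rfl fun i _ => mul_one _
  have hfr := finrank_eq_of_fund_eq hover hinc hϖ0 hϖ (genO_of_dvr hϖ0 hϖ hdvr) hτ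
    (fun i _ hz => exists_pow_le_of_dvr (hover i) hϖ0 hϖ hdvr hz) hram (IsLocalRing.residue O)
    (fun i => IsLocalRing.residue (V i)) hπ hρ hc (fun _ => 1) hf heq
  have hdeg' : ∑ i, E i * Module.finrank (IsLocalRing.ResidueField O)
      (IsLocalRing.ResidueField (V i)) = Module.finrank K F := by
    rw [← heq]; exact Finset.sum_congr rfl fun i _ => by rw [hfr i]
  exact gen_of_fund_eq hover hinc hϖ0 hϖ hdvr hτ hram (IsLocalRing.residue O)
    (fun i => IsLocalRing.residue (V i)) hπ hρ hc hdeg' i₀ z hz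

/-- **Equality case, elementwise** (split case): the `V i` are all the extensions of `O`. -/
theorem eq_split [Module.Finite K F] (hdeg : ∑ i, E i = Module.finrank K F)
    {W : ValuationSubring F} (hW : Over O W) : ∃ i, W = V i := by
  classical
  letI alg : ∀ i, Algebra (IsLocalRing.ResidueField O) (IsLocalRing.ResidueField (V i)) :=
    fun i => resAlgebra (hover i)
  have hπ : Function.Surjective (IsLocalRing.residue O) := IsLocalRing.residue_surjective
  have hρ : ∀ i, Function.Surjective (IsLocalRing.residue (V i)) :=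
    fun i => IsLocalRing.residue_surjective
  have hc : ∀ i (a : O), IsLocalRing.residue (V i) ⟨algebraMap K F a, ((hover i) a).2 a.2⟩ =
      algebraMap (IsLocalRing.ResidueField O) (IsLocalRing.ResidueField (V i))
        (IsLocalRing.residue O a) := fun i a => resAlgebra_residue (hover i) a
  have hfin : ∀ i, Module.Finite (IsLocalRing.ResidueField O)
      (IsLocalRing.ResidueField (V i)) := fun i =>
    finite_residue_dvr hover hϖ0 hϖ hdvr hτ hram (IsLocalRing.residue O)
      (fun i => IsLocalRing.residue (V i)) hπ hρ hc i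
  have hf : ∀ i, (fun _ : ι => 1) i ≤
      Module.finrank (IsLocalRing.ResidueField O) (IsLocalRing.ResidueField (V i)) :=
    fun i => Module.finrank_pos
  have heq : ∑ i, E i * (fun _ : ι => 1) i = Module.finrank K F := by
    rw [← hdeg]; exact Finset.sum_congr rfl fun i _ => mul_one _
  have hfr := finrank_eq_of_fund_eq hover hinc hϖ0 hϖ (genO_of_dvr hϖ0 hϖ hdvr) hτ
    (fun i _ hz => exists_pow_le_of_dvr (hover i) hϖ0 hϖ hdvr hz) hram (IsLocalRing.residue O)
    (fun i => IsLocalRing.residue (V i)) hπ hρ hc (fun _ => 1) hf heq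
  have hdeg' : ∑ i, E i * Module.finrank (IsLocalRing.ResidueField O)
      (IsLocalRing.ResidueField (V i)) = Module.finrank K F := by
    rw [← heq]; exact Finset.sum_congr rfl fun i _ => by rw [hfr i]
  exact eq_of_fund_eq hover hinc hϖ0 hϖ hdvr hτ hram (IsLocalRing.residue O)
    (fun i => IsLocalRing.residue (V i)) hπ hρ hc hdeg' hW

end Split

section Two

variable {K F : Type*} [Field K] [Field F] [Algebra K F]

/-- **`NormResSplit`** (shape of `S36/H630/LabNorm.lean`).  `O` discrete with uniformiser `ϖ`;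
`V₁ ≠ V₂` valuation subrings of `F` over `O`; `τ ∈ m_{V₂}` with `v₂ (ϖ) = v₂ (τ) ^ e`;
`[F : K] = 1 + e`.  Then for `y ∈ V₁ ∩ V₂`, `y ≡ y₁ mod m_{V₁}`, `y ≡ y₂ mod m_{V₂}`
(`y₁, y₂ ∈ K`):  `N_{F/K} y ≡ y₁ * y₂ ^ e mod m_O`. -/
theorem normResSplit_lb [Module.Finite K F] {O : ValuationSubring K} {ϖ : K}
    {V₁ V₂ : ValuationSubring F} (h₁ : Over O V₁) (h₂ : Over O V₂) (hne : V₁ ≠ V₂)
    (hϖ0 : ϖ ≠ 0) (hϖ : O.valuation ϖ < 1)
    (hdvr : ∀ a : K, a ≠ 0 → ∃ n : ℤ, O.valuation a = O.valuation ϖ ^ n)
    {τ : F} {e : ℕ} (hτ : V₂.valuation τ < 1)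
    (hram : V₂.valuation (algebraMap K F ϖ) = V₂.valuation τ ^ e)
    (hdeg : Module.finrank K F = 1 + e) :
    ∀ y : F, y ∈ V₁ → y ∈ V₂ → ∀ y₁ y₂ : K,
      y - algebraMap K F y₁ ∈ V₁.nonunits → y - algebraMap K F y₂ ∈ V₂.nonunits →
        Algebra.norm K y - y₁ * y₂ ^ e ∈ O.nonunits := by
  intro y hy₁ hy₂ y₁ y₂ hd₁ hd₂
  have key := normRes_split (ι := Bool) (V := fun b => cond b V₁ V₂)
    (τ := fun b => cond b (algebraMap K F ϖ) τ) (E := fun b => cond b 1 e)
    (fun b => by cases b <;> assumption)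
    (fun b b' hbb' => by
      cases b <;> cases b'
      · exact absurd rfl hbb'
      · intro hle
        exact hne (eq_of_le_of_over h₂ h₁ hϖ0 hϖ hdvr hle).symm
      · intro hle
        exact hne (eq_of_le_of_over h₁ h₂ hϖ0 hϖ hdvr hle)
      · exact absurd rfl hbb')
    hϖ0 hϖ hdvr
    (fun b => by
      cases b
      · exact hτ
      · exact (h₁.val_lt_one_iff ϖ).2 hϖ)
    (fun b => by
      cases b
      · exact hram
      · simp)
    (by rw [Fintype.sum_bool, hdeg]; rfl)
    (y := y) (fun b => by cases b <;> assumption) (fun b => cond b y₁ y₂)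
    (fun b => by cases b <;> assumption)
  rw [Fintype.prod_bool] at key
  simpa using key

end Two

section Insep

variable {K F : Type*} [Field K] [Field F] [Algebra K F]
variable {O : ValuationSubring K} {ϖ : K} {V : ValuationSubring F} (h : Over O V)
    (hϖ0 : ϖ ≠ 0) (hϖ : O.valuation ϖ < 1)
    (hdvr : ∀ a : K, a ≠ 0 → ∃ n : ℤ, O.valuation a = O.valuation ϖ ^ n)
    (q : ℕ) (hq : q.Prime) (hqO : O.valuation (q : K) < 1)
    (hdeg : Module.finrank K F = q)
    {z₀ : F} {c₀ : K} (hz₀ : z₀ ∈ V) (hzc : z₀ ^ q - algebraMap K F c₀ ∈ V.nonunits)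
    (hnp : ∀ a : K, a ∈ O → a ^ q - c₀ ∉ O.nonunits)

include h hϖ0 hϖ hdvr hq hqO hdeg hz₀ hzc hnp

/-- Residue degree `q` in the purely inseparable case (statement with the canonical residue
fields). -/
theorem insep_finrank [Module.Finite K F] :
    letI := resAlgebra h
    Module.finrank (IsLocalRing.ResidueField O) (IsLocalRing.ResidueField V) = q ∧
      CharP (IsLocalRing.ResidueField O) q ∧
      ∀ ξ : IsLocalRing.ResidueField V, ξ ^ q ∈
        (algebraMap (IsLocalRing.ResidueField O) (IsLocalRing.ResidueField V)).range := by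
  classical
  letI alg := resAlgebra h
  have hπ : Function.Surjective (IsLocalRing.residue O) := IsLocalRing.residue_surjective
  have hρ : Function.Surjective (IsLocalRing.residue V) := IsLocalRing.residue_surjective
  have hc : ∀ (a : O), IsLocalRing.residue V ⟨algebraMap K F a, (h a).2 a.2⟩ =
      algebraMap (IsLocalRing.ResidueField O) (IsLocalRing.ResidueField V)
        (IsLocalRing.residue O a) := fun a => resAlgebra_residue h a
  have hτ : V.valuation (algebraMap K F ϖ) < 1 := (h.val_lt_one_iff ϖ).2 hϖ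
  have hfin : Module.Finite (IsLocalRing.ResidueField O) (IsLocalRing.ResidueField V) :=
    finite_residue_dvr (ι := Unit) (V := fun _ => V) (τ := fun _ => algebraMap K F ϖ)
      (E := fun _ => 1) (κ := fun _ => IsLocalRing.ResidueField V)
      (fun _ => h) hϖ0 hϖ hdvr (fun _ => hτ) (fun _ => by simp) (IsLocalRing.residue O)
      (fun _ => IsLocalRing.residue V) hπ (fun _ => hρ) (fun _ => hc) ()
  -- characteristic
  have hqmem : (q : K) ∈ O := (O.valuation_le_one_iff _).1 hqO.le
  have hchar : CharP (IsLocalRing.ResidueField O) q := by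
    rw [CharP.charP_iff_prime_eq_zero hq]
    have e1 : ((q : O) : K) = (q : K) := by simp
    have e2 : IsLocalRing.residue O (q : O) = 0 := by
      rw [IsLocalRing.residue_eq_zero_iff, ValuationSubring.valuation_lt_one_iff, e1]
      exact hqO
    rw [← e2, map_natCast]
  -- the witness
  have hc₀V : algebraMap K F c₀ ∈ V := mem_of_sub_mem_nonunits (pow_mem hz₀ q) hzc
  have hc₀O : c₀ ∈ O := (h c₀).1 hc₀V
  set z := IsLocalRing.residue V ⟨z₀, hz₀⟩ with hz
  set cb := IsLocalRing.residue O ⟨c₀, hc₀O⟩ with hcb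
  have hzq : z ^ q = algebraMap (IsLocalRing.ResidueField O) (IsLocalRing.ResidueField V) cb := by
    rw [hcb, ← hc ⟨c₀, hc₀O⟩, hz, ← map_pow]
    exact residue_eq_of_sub_mem (pow_mem hz₀ q) hc₀V hzc
  have hnpow : ∀ b : IsLocalRing.ResidueField O, b ^ q ≠ cb := by
    intro b hb
    obtain ⟨a, rfl⟩ := hπ b
    rw [hcb, ← map_pow, ← sub_eq_zero, ← map_sub, IsLocalRing.residue_eq_zero_iff,
      ValuationSubring.valuation_lt_one_iff] at hb
    exact hnp a a.2 hb
  have hirr := X_pow_sub_C_irreducible_of_prime hq hnpow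
  have hmin : (Polynomial.X ^ q - Polynomial.C cb : Polynomial (IsLocalRing.ResidueField O)) =
      minpoly (IsLocalRing.ResidueField O) z := by
    refine minpoly.eq_of_irreducible_of_monic hirr ?_ (Polynomial.monic_X_pow_sub_C cb hq.ne_zero)
    rw [map_sub, map_pow, Polynomial.aeval_X, Polynomial.aeval_C, hzq, sub_self]
  have hle : q ≤ Module.finrank (IsLocalRing.ResidueField O) (IsLocalRing.ResidueField V) := by
    have h1 := minpoly.natDegree_le (A := IsLocalRing.ResidueField O) z
    rw [← hmin, Polynomial.natDegree_X_pow_sub_C] at h1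
    exact h1
  have hfr : Module.finrank (IsLocalRing.ResidueField O) (IsLocalRing.ResidueField V) = q :=
    finrank_eq_of_fund_eq (ι := Unit) (V := fun _ => V) (τ := fun _ => algebraMap K F ϖ)
      (E := fun _ => 1) (κ := fun _ => IsLocalRing.ResidueField V)
      (fun _ => h) (fun i i' hii' => absurd (Subsingleton.elim i i') hii') hϖ0 hϖ
      (genO_of_dvr hϖ0 hϖ hdvr) (fun _ => hτ)
      (fun _ _ hz => exists_pow_le_of_dvr h hϖ0 hϖ hdvr hz) (fun _ => by simp)
      (IsLocalRing.residue O) (fun _ => IsLocalRing.residue V) hπ (fun _ => hρ) (fun _ => hc)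
      (fun _ => q) (fun _ => hle) (by simp [hdeg]) ()
  refine ⟨hfr, hchar, ?_⟩
  -- `κ = k(z)` and `z ^ q ∈ k`
  haveI := hchar
  haveI : Fact q.Prime := ⟨hq⟩
  haveI : CharP (IsLocalRing.ResidueField V) q :=
    charP_of_injective_algebraMap
      (algebraMap (IsLocalRing.ResidueField O) (IsLocalRing.ResidueField V)).injective q
  let S : Subalgebra (IsLocalRing.ResidueField O) (IsLocalRing.ResidueField V) :=
    { carrier := {ξ | ξ ^ q ∈
        (algebraMap (IsLocalRing.ResidueField O) (IsLocalRing.ResidueField V)).range}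
      mul_mem' := by
        intro a b ha hb
        rw [Set.mem_ofPred_eq] at ha hb ⊢
        rw [mul_pow]; exact mul_mem ha hb
      add_mem' := by
        intro a b ha hb
        rw [Set.mem_ofPred_eq] at ha hb ⊢
        rw [add_pow_char]; exact add_mem ha hb
      algebraMap_mem' := by
        intro a
        rw [Set.mem_ofPred_eq, ← map_pow]
        exact ⟨a ^ q, rfl⟩ }
  have hSmem : ∀ ξ, ξ ∈ S ↔ ξ ^ q ∈
      (algebraMap (IsLocalRing.ResidueField O) (IsLocalRing.ResidueField V)).range :=
    fun ξ => Iff.rfl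
  have hzS : z ∈ S := by
    rw [hSmem, hzq]; exact ⟨cb, rfl⟩
  have htop : IntermediateField.adjoin (IsLocalRing.ResidueField O) {z} = ⊤ := by
    rw [Field.primitive_element_iff_minpoly_natDegree_eq, ← hmin,
      Polynomial.natDegree_X_pow_sub_C, hfr]
  have halg : IsAlgebraic (IsLocalRing.ResidueField O) z :=
    (IsIntegral.of_finite (IsLocalRing.ResidueField O) z).isAlgebraic
  have hadj : Algebra.adjoin (IsLocalRing.ResidueField O) {z} = ⊤ := by
    rw [← IntermediateField.adjoin_simple_toSubalgebra_of_isAlgebraic halg, htop]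
    rfl
  have hle' : (⊤ : Subalgebra (IsLocalRing.ResidueField O) (IsLocalRing.ResidueField V)) ≤ S := by
    rw [← hadj]
    exact Algebra.adjoin_le (by
      intro x hx
      rw [Set.mem_singleton_iff] at hx
      rw [hx]; exact hzS)
  intro ξ
  exact (hSmem ξ).1 (hle' (Algebra.mem_top : ξ ∈ ⊤))

/-- **`NormResInsep`** (shape of `S36/H630/LabNorm.lean`).  `O` discrete with uniformiser `ϖ`,
residue characteristic `q` prime; `V` over `O`, `[F : K] = q`; `z₀ ∈ V` with
`z₀ ^ q ≡ c₀ mod m_V`, `c₀` not a `q`-th power mod `m_O`.  Then for `y ∈ V` with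
`y ^ q ≡ y' mod m_V` (`y' ∈ K`):  `N_{F/K} y ≡ y' mod m_O`. -/
theorem normResInsep_lb [Module.Finite K F] :
    ∀ y : F, y ∈ V → ∀ y' : K, y ^ q - algebraMap K F y' ∈ V.nonunits →
      Algebra.norm K y - y' ∈ O.nonunits := by
  classical
  intro y hy y' hyy'
  letI alg := resAlgebra h
  obtain ⟨hfr, hchar, -⟩ := insep_finrank h hϖ0 hϖ hdvr q hq hqO hdeg hz₀ hzc hnp
  haveI := hchar
  haveI : Fact q.Prime := ⟨hq⟩
  have hπ : Function.Surjective (IsLocalRing.residue O) := IsLocalRing.residue_surjective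
  have hρ : Function.Surjective (IsLocalRing.residue V) := IsLocalRing.residue_surjective
  have hc : ∀ (a : O), IsLocalRing.residue V ⟨algebraMap K F a, (h a).2 a.2⟩ =
      algebraMap (IsLocalRing.ResidueField O) (IsLocalRing.ResidueField V)
        (IsLocalRing.residue O a) := fun a => resAlgebra_residue h a
  have hτ : V.valuation (algebraMap K F ϖ) < 1 := (h.val_lt_one_iff ϖ).2 hϖ
  obtain ⟨hN, hred⟩ := norm_red_ram_lb (ι := Unit) (V := fun _ => V)
    (τ := fun _ => algebraMap K F ϖ) (E := fun _ => 1)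
    (κ := fun _ => IsLocalRing.ResidueField V)
    (fun _ => h) (fun i i' hii' => absurd (Subsingleton.elim i i') hii') hϖ0 hϖ hdvr
    (fun _ => hτ) (fun _ => by simp)
    (IsLocalRing.residue O) (fun _ => IsLocalRing.residue V) hπ (fun _ => hρ) (fun _ => hc)
    (fun _ => q) (fun _ => hfr.ge) (by simp [hdeg]) (y := y) (fun _ => hy)
  simp only [Finset.univ_unique, Finset.prod_singleton, pow_one] at hred
  have hy'V : algebraMap K F y' ∈ V := mem_of_sub_mem_nonunits (pow_mem hy q) hyy'
  have hy'O : y' ∈ O := (h y').1 hy'V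
  have ha : algebraMap (IsLocalRing.ResidueField O) (IsLocalRing.ResidueField V)
      (IsLocalRing.residue O ⟨y', hy'O⟩) = IsLocalRing.residue V ⟨y, hy⟩ ^ q := by
    rw [← hc ⟨y', hy'O⟩, ← map_pow]
    exact (residue_eq_of_sub_mem (pow_mem hy q) hy'V hyy').symm
  have hnorm := norm_eq_of_pow_eq q hfr ha
  rw [hnorm, ← sub_eq_zero, ← map_sub, IsLocalRing.residue_eq_zero_iff,
    ValuationSubring.valuation_lt_one_iff] at hred
  exact hred

/-- **Norm–residue formula, purely inseparable case, all `y`.**  Under the hypotheses of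
`normResInsep_lb`, for EVERY `y ∈ V`:  `N_{F/K} y ≡ y ^ q mod m_V` (in particular the `q`-th
power of every residue comes from the base). -/
theorem normResInsep_all [Module.Finite K F] :
    ∀ y : F, y ∈ V → algebraMap K F (Algebra.norm K y) - y ^ q ∈ V.nonunits := by
  classical
  intro y hy
  letI alg := resAlgebra h
  obtain ⟨hfr, hchar, hpow⟩ := insep_finrank h hϖ0 hϖ hdvr q hq hqO hdeg hz₀ hzc hnp
  haveI := hchar
  haveI : Fact q.Prime := ⟨hq⟩
  have hπ : Function.Surjective (IsLocalRing.residue O) := IsLocalRing.residue_surjective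
  have hρ : Function.Surjective (IsLocalRing.residue V) := IsLocalRing.residue_surjective
  have hc : ∀ (a : O), IsLocalRing.residue V ⟨algebraMap K F a, (h a).2 a.2⟩ =
      algebraMap (IsLocalRing.ResidueField O) (IsLocalRing.ResidueField V)
        (IsLocalRing.residue O a) := fun a => resAlgebra_residue h a
  have hτ : V.valuation (algebraMap K F ϖ) < 1 := (h.val_lt_one_iff ϖ).2 hϖ
  obtain ⟨hN, hred⟩ := norm_red_ram_lb (ι := Unit) (V := fun _ => V)
    (τ := fun _ => algebraMap K F ϖ) (E := fun _ => 1)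
    (κ := fun _ => IsLocalRing.ResidueField V)
    (fun _ => h) (fun i i' hii' => absurd (Subsingleton.elim i i') hii') hϖ0 hϖ hdvr
    (fun _ => hτ) (fun _ => by simp)
    (IsLocalRing.residue O) (fun _ => IsLocalRing.residue V) hπ (fun _ => hρ) (fun _ => hc)
    (fun _ => q) (fun _ => hfr.ge) (by simp [hdeg]) (y := y) (fun _ => hy)
  simp only [Finset.univ_unique, Finset.prod_singleton, pow_one] at hred
  have h1 := algebraMap_norm_eq_pow q hfr hpow (IsLocalRing.residue V ⟨y, hy⟩)
  rw [← hred, ← hc ⟨Algebra.norm K y, hN⟩, ← map_pow] at h1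
  have hNV : algebraMap K F (Algebra.norm K y) ∈ V := (h _).2 hN
  rw [← sub_eq_zero, ← map_sub, IsLocalRing.residue_eq_zero_iff,
    ValuationSubring.valuation_lt_one_iff] at h1
  exact h1

/-- **Norm–valuation formula, purely inseparable case, elementwise.**  Every `y ≠ 0` has
`v_V (y) = v_V (ϖ) ^ a` and `v (N_{F/K} y) = v ϖ ^ (q * a)`. -/
theorem valNorm_insep [Module.Finite K F] {y : F} (hy : y ≠ 0) :
    ∃ a : ℤ, V.valuation y = V.valuation (algebraMap K F ϖ) ^ a ∧
      O.valuation (Algebra.norm K y) = O.valuation ϖ ^ ((q : ℤ) * a) := by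
  classical
  letI alg := resAlgebra h
  obtain ⟨hfr, hchar, -⟩ := insep_finrank h hϖ0 hϖ hdvr q hq hqO hdeg hz₀ hzc hnp
  have hπ : Function.Surjective (IsLocalRing.residue O) := IsLocalRing.residue_surjective
  have hρ : Function.Surjective (IsLocalRing.residue V) := IsLocalRing.residue_surjective
  have hc : ∀ (a : O), IsLocalRing.residue V ⟨algebraMap K F a, (h a).2 a.2⟩ =
      algebraMap (IsLocalRing.ResidueField O) (IsLocalRing.ResidueField V)
        (IsLocalRing.residue O a) := fun a => resAlgebra_residue h a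
  have hτ : V.valuation (algebraMap K F ϖ) < 1 := (h.val_lt_one_iff ϖ).2 hϖ
  obtain ⟨a, ha, hN⟩ := val_norm_ram_lb (ι := Unit) (V := fun _ => V)
    (τ := fun _ => algebraMap K F ϖ) (E := fun _ => 1)
    (κ := fun _ => IsLocalRing.ResidueField V)
    (fun _ => h) (fun i i' hii' => absurd (Subsingleton.elim i i') hii') hϖ0 hϖ hdvr
    (fun _ => hτ) (fun _ => by simp)
    (IsLocalRing.residue O) (fun _ => IsLocalRing.residue V) hπ (fun _ => hρ) (fun _ => hc)
    (fun _ => q) (fun _ => hfr.ge) (by simp [hdeg]) hy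
  refine ⟨a (), ha (), ?_⟩
  rw [hN]
  simp

end Insep

end Fermat.Agent.S36.H253

end
-- ===== PACK-END S36/H253/NormAdapt.lean

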