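import Mathlib
import Fermat.Prelude.Def_AlgebraicCurve_DivisorClassGroup
import Fermat.Statements.S22
import Fermat.Agent.Pack.S36.E12L0
import Fermat.Agent.Pack.S36.E12L1
import Fermat.Agent.Pack.S36.E12L2
import Fermat.Agent.Pack.S36.E0L3
import Fermat.Agent.Pack.S36.E4L1
import Fermat.Agent.Pack.S36.E9L3
import Fermat.Agent.Pack.S36.E7L0
import Fermat.Agent.Pack.S36.E11L1
import Fermat.Agent.Pack.S36.E2L3
import Fermat.Agent.Pack.S36.E2L0
import Fermat.Agent.Pack.S36.E11L3
import Fermat.Agent.Pack.S36.E4L0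
import Fermat.Agent.Pack.S36.E11L0
import Fermat.Agent.Pack.S36.E6L0
import Fermat.Agent.Pack.S36.E6L2
import Fermat.Agent.Pack.S36.E12L3

-- ===== PACK-BEGIN S24/FFDegree.lean
section




/-!
# S24 / FF layer: poles of a coordinate function and `deg (div f) = 0`
(helper804)
-/

set_option autoImplicit false
set_option linter.unusedSectionVars false

namespace Fermat.Agent.S24.FF

open AlgebraicCurve Polynomial IntermediateField

variable {K F : Type*} [Field K] [Field F] [Algebra K F]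

theorem adjoin_inv_eq (f : F) : K⟮f⁻¹⟯ = K⟮f⟯ := by
  apply le_antisymm
  · rw [adjoin_simple_le_iff]
    exact inv_mem (mem_adjoin_simple_self K f)
  · rw [adjoin_simple_le_iff]
    have := inv_mem (mem_adjoin_simple_self K f⁻¹)
    rwa [inv_inv] at this

theorem finrank_adjoin_inv (f : F) : Module.finrank K⟮f⁻¹⟯ F = Module.finrank K⟮f⟯ F := by
  rw [adjoin_inv_eq]

theorem transcendental_inv {f : F} (hf : Transcendental K f) : Transcendental K f⁻¹ := by
  intro h
  apply hf
  have := h.inv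
  rwa [inv_inv] at this

theorem finiteDimensional_adjoin_inv (f : F) [h : FiniteDimensional K⟮f⟯ F] :
    FiniteDimensional K⟮f⁻¹⟯ F := by
  rw [adjoin_inv_eq]
  exact h

theorem adjoin_sub_const_eq (f : F) (a : K) : K⟮f - algebraMap K F a⟯ = K⟮f⟯ := by
  apply le_antisymm
  · rw [adjoin_simple_le_iff]
    exact sub_mem (mem_adjoin_simple_self K f) (IntermediateField.algebraMap_mem _ a)
  · rw [adjoin_simple_le_iff]
    have := add_mem (mem_adjoin_simple_self K (f - algebraMap K F a))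
      (IntermediateField.algebraMap_mem K⟮f - algebraMap K F a⟯ a)
    rwa [sub_add_cancel] at this

theorem finrank_adjoin_sub_const (f : F) (a : K) :
    Module.finrank K⟮f - algebraMap K F a⟯ F = Module.finrank K⟮f⟯ F := by
  rw [adjoin_sub_const_eq]

theorem finiteDimensional_adjoin_sub_const (f : F) (a : K) [h : FiniteDimensional K⟮f⟯ F] :
    FiniteDimensional K⟮f - algebraMap K F a⟯ F := by
  rw [adjoin_sub_const_eq]
  exact h

theorem transcendental_sub_const {f : F} (hf : Transcendental K f) (a : K) :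
    Transcendental K (f - algebraMap K F a) := by
  intro h
  apply hf
  have := h.add (isAlgebraic_algebraMap (R := K) (A := F) a)
  rwa [sub_add_cancel] at this

section

variable [CharZero K]

/-- A coordinate function has finitely many poles. -/
theorem finite_setOf_ord_neg {t : F} (ht : Transcendental K t) [FiniteDimensional K⟮t⟯ F] :
    {v : Place K F | v.ord t < 0}.Finite := by
  have := finiteDimensional_adjoin_inv (K := K) t
  have h := finite_setOf_ord_pos (transcendental_inv ht)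
  refine h.subset ?_
  intro v hv
  change 0 < v.ord t⁻¹
  have hv' : v.ord t < 0 := hv
  rw [v.ord_inv]
  omega

/-- A nonconstant function has finitely many zeros and poles. -/
theorem finite_setOf_ord_ne_zero {t : F} (ht : Transcendental K t) [FiniteDimensional K⟮t⟯ F] :
    {v : Place K F | v.ord t ≠ 0}.Finite := by
  refine ((finite_setOf_ord_pos ht).union (finite_setOf_ord_neg ht)).subset ?_
  intro v hv
  have hv' : v.ord t ≠ 0 := hv
  rcases lt_or_gt_of_ne hv' with h | h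
  · exact Or.inr h
  · exact Or.inl h

variable [IsAlgClosed K]

/-- **Fundamental identity at the poles**: `∑_{v(t) < 0} ord_v(t) = -[F : K(t)]`. -/
theorem sum_ord_neg_eq_neg_finrank {t : F} (ht : Transcendental K t) [FiniteDimensional K⟮t⟯ F]
    (s : Finset (Place K F)) (hs : ∀ v, v ∈ s ↔ v.ord t < 0) :
    ∑ v ∈ s, v.ord t = -(Module.finrank K⟮t⟯ F : ℤ) := by
  have := finiteDimensional_adjoin_inv (K := K) t
  have h := sum_ord_eq_finrank (transcendental_inv ht) s (fun v => by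
    rw [hs, v.ord_inv]
    omega)
  rw [finrank_adjoin_inv] at h
  rw [← h, ← Finset.sum_neg_distrib]
  refine Finset.sum_congr rfl fun v _ => ?_
  rw [v.ord_inv, neg_neg]

/-- **Fundamental identity over the point `a`**: `∑_{v(t - a) > 0} ord_v(t - a) = [F : K(t)]`. -/
theorem sum_ord_sub_const_eq_finrank {t : F} (ht : Transcendental K t)
    [FiniteDimensional K⟮t⟯ F] (a : K)
    (s : Finset (Place K F)) (hs : ∀ v, v ∈ s ↔ 0 < v.ord (t - algebraMap K F a)) :
    ∑ v ∈ s, v.ord (t - algebraMap K F a) = (Module.finrank K⟮t⟯ F : ℤ) := by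
  have := finiteDimensional_adjoin_sub_const (K := K) t a
  have h := sum_ord_eq_finrank (transcendental_sub_const ht a) s hs
  rwa [finrank_adjoin_sub_const] at h

theorem degree_eq_sum (D : Divisor K F) :
    Divisor.degree D = ∑ v ∈ D.support, D v * (v.deg : ℤ) := by
  simp [Divisor.degree, Finsupp.sum]

/-- **FF3: a principal divisor has degree zero.** -/
theorem degree_principal (j : F) (hj : Transcendental K j) [FiniteDimensional K⟮j⟯ F]
    (f : F) (D : Divisor K F) (hD : ∀ v : Place K F, D v = v.ord f) :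
    Divisor.degree D = 0 := by
  by_cases hfr : f ∈ (algebraMap K F).range
  · obtain ⟨a, rfl⟩ := hfr
    have : D = 0 := by
      ext v
      rw [hD, _root_.Fermat.Agent.S24.FF.ord_algebraMap]
      rfl
    rw [this, map_zero]
  have hft : Transcendental K f := transcendental_of_not_mem_range hfr
  have hfin : FiniteDimensional K⟮f⟯ F := finiteDimensional_adjoin_of_transcendental hj hft
  classical
  rw [degree_eq_sum]
  have hsupp : ∀ v, v ∈ D.support ↔ v.ord f ≠ 0 := fun v => by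
    rw [Finsupp.mem_support_iff, hD]
  have h1 : ∑ v ∈ D.support, D v * (v.deg : ℤ) = ∑ v ∈ D.support, v.ord f := by
    refine Finset.sum_congr rfl fun v _ => ?_
    rw [hD, deg_eq_one v hj]
    simp
  rw [h1, ← Finset.sum_filter_add_sum_filter_not D.support (fun v => 0 < v.ord f)]
  have hP := sum_ord_eq_finrank hft (D.support.filter fun v => 0 < v.ord f) (fun v => by
    rw [Finset.mem_filter, hsupp]
    constructor
    · exact fun h => h.2
    · exact fun h => ⟨h.ne', h⟩)
  have hN := sum_ord_neg_eq_neg_finrank hft (D.support.filter fun v => ¬ 0 < v.ord f)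
    (fun v => by
      rw [Finset.mem_filter, hsupp]
      constructor
      · rintro ⟨h1, h2⟩
        omega
      · intro h
        exact ⟨h.ne, by omega⟩)
  rw [hP, hN]
  ring

end

end Fermat.Agent.S24.FF

namespace Fermat.Agent.S24.FF

open AlgebraicCurve

variable {K F : Type*} [Field K] [Field F] [Algebra K F] [IsAlgClosed K] [CharZero K]

/-- Exact shape of helper984's `open_fundamental_le` (`Alg/Open.lean`). -/
theorem fundamental_le (t : F) (ht : Transcendental K t)
    [FiniteDimensional ↥(IntermediateField.adjoin K {t}) F]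
    (s : Finset (Place K F)) (hs : ∀ v : Place K F, v ∈ s ↔ 0 < v.ord t) :
    (Module.finrank ↥(IntermediateField.adjoin K {t}) F : ℤ) ≤ ∑ v ∈ s, v.ord t :=
  (sum_ord_eq_finrank ht s hs).ge

/-- Exact shape of helper984's `open_degree_principal` (`Alg/Open.lean`). -/
theorem degree_principal' (j : F) (hj : Transcendental K j)
    [FiniteDimensional ↥(IntermediateField.adjoin K {j}) F] (f : F) (_hf : f ≠ 0)
    (D : Divisor K F) (hD : ∀ v : Place K F, D v = v.ord f) : Divisor.degree D = 0 :=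
  _root_.Fermat.Agent.S24.FF.degree_principal j hj f D hD

end Fermat.Agent.S24.FF

end
-- ===== PACK-END S24/FFDegree.lean

-- ===== PACK-BEGIN S24/H624/Elliptic.lean
section


/-!
# Elliptic fixed points: the rotation factor is a primitive 2nd / 3rd root of unity
-/

set_option autoImplicit false

namespace Fermat.Agent.S24.H624

open UpperHalfPlane Complex
open scoped Manifold Topology MatrixGroups

/-- The factor by which `γ` rotates leading coefficients at `τ`
(the derivative of `z ↦ γ⁻¹ • z` at `τ`). -/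
noncomputable def rotFactor (γ : SL(2, ℤ)) (τ : ℍ) : ℂ :=
  1 / denom ((γ⁻¹ : SL(2, ℤ)) : GL (Fin 2) ℝ) (τ : ℂ) ^ 2

theorem rotFactor_def (γ : SL(2, ℤ)) (τ : ℍ) :
    rotFactor γ τ = 1 / denom ((γ⁻¹ : SL(2, ℤ)) : GL (Fin 2) ℝ) (τ : ℂ) ^ 2 := rfl

theorem rotFactor_ne_zero (γ : SL(2, ℤ)) (τ : ℍ) : rotFactor γ τ ≠ 0 :=
  one_div_ne_zero (pow_ne_zero _ (denom_ne_zero _ τ))

/-- `LocalData`-shaped statement with `rotFactor`. -/
theorem laurentAt_smul_fixed_rotFactor {γ : SL(2, ℤ)} {τ : ℍ} (hτ : γ • τ = τ) (F : MerH) :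
    (laurentAt τ (γ • F)).order = (laurentAt τ F).order ∧
    (laurentAt τ (γ • F)).leadingCoeff
      = rotFactor γ τ ^ (laurentAt τ F).order * (laurentAt τ F).leadingCoeff :=
  laurentAt_smul_of_fixed hτ F

theorem trace_inv_SL (γ : SL(2, ℤ)) : (γ⁻¹) 0 0 + (γ⁻¹) 1 1 = γ 0 0 + γ 1 1 := by
  rw [Matrix.SpecialLinearGroup.coe_inv, Matrix.adjugate_fin_two]
  simp
  ring

theorem inv_smul_of_fixed {γ : SL(2, ℤ)} {τ : ℍ} (hτ : γ • τ = τ) : γ⁻¹ • τ = τ := by
  rw [inv_smul_eq_iff, hτ]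

theorem rotFactor_eq_neg_one {γ : SL(2, ℤ)} {τ : ℍ} (hτ : γ • τ = τ)
    (htr : γ 0 0 + γ 1 1 = 0) : rotFactor γ τ = -1 := by
  have h2 := denom_sq_eq_of_fixed (inv_smul_of_fixed hτ)
  rw [trace_inv_SL, htr] at h2
  simp only [Int.cast_zero, zero_mul, zero_sub] at h2
  rw [rotFactor_def, h2]
  norm_num

theorem isPrimitiveRoot_rotFactor_two {γ : SL(2, ℤ)} {τ : ℍ} (hτ : γ • τ = τ)
    (htr : γ 0 0 + γ 1 1 = 0) : IsPrimitiveRoot (rotFactor γ τ) 2 := by
  rw [rotFactor_eq_neg_one hτ htr]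
  exact IsPrimitiveRoot.neg_one 0 (by norm_num)

theorem isPrimitiveRoot_three_of_root {μ : ℂ} (hμ : μ ^ 2 + μ + 1 = 0) : IsPrimitiveRoot μ 3 := by
  have h3 : μ ^ 3 = 1 := by linear_combination (μ - 1) * hμ
  refine IsPrimitiveRoot.mk_of_lt μ (by norm_num) h3 ?_
  intro l hl0 hl3 hl
  have : 3 ∣ l := three_dvd_of_root hμ hl
  omega

theorem isPrimitiveRoot_rotFactor_three {γ : SL(2, ℤ)} {τ : ℍ} (hτ : γ • τ = τ)
    (htr : γ 0 0 + γ 1 1 = 1 ∨ γ 0 0 + γ 1 1 = -1) : IsPrimitiveRoot (rotFactor γ τ) 3 := by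
  have h2 := denom_sq_eq_of_fixed (inv_smul_of_fixed hτ)
  rw [trace_inv_SL] at h2
  set lam := denom ((γ⁻¹ : SL(2, ℤ)) : GL (Fin 2) ℝ) (τ : ℂ) with hlam
  have hlam0 : lam ≠ 0 := denom_ne_zero _ τ
  have hμ : (lam ^ 2) ^ 2 + lam ^ 2 + 1 = 0 := by
    rcases htr with htr | htr
    · rw [htr] at h2
      simp only [Int.cast_one, one_mul] at h2
      linear_combination (lam ^ 2 + lam + 1) * h2
    · rw [htr] at h2
      simp only [Int.cast_neg, Int.cast_one, neg_mul, one_mul] at h2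
      linear_combination (lam ^ 2 - lam + 1) * h2
  apply isPrimitiveRoot_three_of_root
  rw [rotFactor_def, ← hlam]
  have h4 : (lam ^ 2) ≠ 0 := pow_ne_zero _ hlam0
  field_simp
  linear_combination hμ

theorem S_smul_I : ModularGroup.S • UpperHalfPlane.I = UpperHalfPlane.I := by
  rw [modular_S_smul]
  ext
  simp [UpperHalfPlane.coe_I, Complex.inv_I]

theorem trace_S : (ModularGroup.S : SL(2, ℤ)) 0 0 + (ModularGroup.S : SL(2, ℤ)) 1 1 = 0 := by
  decide

theorem trace_ST :
    (ModularGroup.S * ModularGroup.T : SL(2, ℤ)) 0 0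
      + (ModularGroup.S * ModularGroup.T : SL(2, ℤ)) 1 1 = 1 := by
  decide

/-- The point `ρ = -1/2 + (√3/2) i`. -/
noncomputable def rhoH : ℍ :=
  ⟨⟨-1 / 2, Real.sqrt 3 / 2⟩, by
    show (0 : ℝ) < Real.sqrt 3 / 2
    positivity⟩

theorem rhoH_coe : (rhoH : ℂ) = ⟨-1 / 2, Real.sqrt 3 / 2⟩ := rfl

theorem rhoH_sq : (rhoH : ℂ) ^ 2 + (rhoH : ℂ) + 1 = 0 := by
  have h3 : Real.sqrt 3 * Real.sqrt 3 = 3 := Real.mul_self_sqrt (by norm_num)
  rw [rhoH_coe]
  apply Complex.ext
  · simp [pow_two]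
    nlinarith
  · simp [pow_two]
    ring

theorem ST_smul_rhoH : (ModularGroup.S * ModularGroup.T) • rhoH = rhoH := by
  apply UpperHalfPlane.ext
  rw [coe_specialLinearGroup_apply]
  have h := rhoH_sq
  have hne : (rhoH : ℂ) + 1 ≠ 0 := by
    intro h0
    have : (rhoH : ℂ) = -1 := by linear_combination h0
    rw [this] at h
    norm_num at h
  have e00 : (ModularGroup.S * ModularGroup.T : SL(2, ℤ)) 0 0 = 0 := by decide
  have e01 : (ModularGroup.S * ModularGroup.T : SL(2, ℤ)) 0 1 = -1 := by decide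
  have e10 : (ModularGroup.S * ModularGroup.T : SL(2, ℤ)) 1 0 = 1 := by decide
  have e11 : (ModularGroup.S * ModularGroup.T : SL(2, ℤ)) 1 1 = 1 := by decide
  rw [e00, e01, e10, e11]
  simp only [algebraMap_int_eq, Int.coe_castRingHom, Int.cast_zero, Complex.ofReal_zero,
    zero_mul, Int.cast_neg, Int.cast_one, Complex.ofReal_neg, Complex.ofReal_one, zero_add,
    one_mul]
  rw [div_eq_iff hne]
  linear_combination -h

theorem isPrimitiveRoot_rotFactor_S :
    IsPrimitiveRoot (rotFactor ModularGroup.S UpperHalfPlane.I) 2 :=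
  isPrimitiveRoot_rotFactor_two S_smul_I trace_S

theorem isPrimitiveRoot_rotFactor_ST :
    IsPrimitiveRoot (rotFactor (ModularGroup.S * ModularGroup.T) rhoH) 3 :=
  isPrimitiveRoot_rotFactor_three ST_smul_rhoH (Or.inl trace_ST)

end Fermat.Agent.S24.H624

end
-- ===== PACK-END S24/H624/Elliptic.lean

-- ===== PACK-BEGIN A2/H12/GAsm.lean
section


/-!
# Cell A2 — route G: the ALG assembly (helper12)

`algG_core` : for a cover `L / F` satisfying the conclusions of the leaves SHEETS, RED, CONST, COUNT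
and a lift `τ'` of `τ` fixing one sheet: `τ g / g` is an `m`-th power in `F` for every `g` having an
`m`-th root in `L`.

`algG` : the same from the leaf COVER (any lift), choosing the lift fixing a sheet by transitivity.
-/

set_option autoImplicit false

namespace Fermat.Agent.A2.H12

open Polynomial
open Fermat.Agent.S18.H138 (chart baseField)

universe u

/-- The Galois group as a subgroup of the ring automorphisms. -/
def galSubgroup (F L : Type u) [Field F] [Field L] [Algebra F L] : Subgroup (L ≃+* L) where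
  carrier := {σ | ∀ f : F, σ (algebraMap F L f) = algebraMap F L f}
  mul_mem' := fun {a b} ha hb f => by
    change a (b (algebraMap F L f)) = _
    rw [hb f, ha f]
  one_mem' := fun _ => rfl
  inv_mem' := fun {a} ha f => by
    change a.symm (algebraMap F L f) = _
    rw [RingEquiv.symm_apply_eq, ha f]

theorem mem_galSubgroup {F L : Type u} [Field F] [Field L] [Algebra F L] (σ : L ≃+* L) :
    σ ∈ galSubgroup F L ↔ ∀ f : F, σ (algebraMap F L f) = algebraMap F L f := Iff.rfl

section Asm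

variable {R : Type u} [CommRing R] {F : Type u} [Field F] [Algebra R F]
variable {L : Type u} [Field L] [Algebra F L] [Algebra R L] [IsScalarTower R F L]

/-- A lift of `τ` is compatible with `R`. -/
theorem lift_algebraMap_R (τ : F ≃+* F) (τR : R ≃+* R)
    (hτR : ∀ r, τ (algebraMap R F r) = algebraMap R F (τR r))
    (τ' : L ≃+* L) (hτ' : ∀ f : F, τ' (algebraMap F L f) = algebraMap F L (τ f)) (r : R) :
    τ' (algebraMap R L r) = algebraMap R L (τR r) := by
  rw [IsScalarTower.algebraMap_apply R F L, hτ', hτR, ← IsScalarTower.algebraMap_apply]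

theorem lift_symm_algebraMap_R (τ : F ≃+* F) (τR : R ≃+* R)
    (hτR : ∀ r, τ (algebraMap R F r) = algebraMap R F (τR r))
    (τ' : L ≃+* L) (hτ' : ∀ f : F, τ' (algebraMap F L f) = algebraMap F L (τ f)) (r : R) :
    τ'.symm (algebraMap R L r) = algebraMap R L (τR.symm r) := by
  rw [RingEquiv.symm_apply_eq, lift_algebraMap_R τ τR hτR τ' hτ', RingEquiv.apply_symm_apply]

theorem lift_symm_algebraMap (τ : F ≃+* F)
    (τ' : L ≃+* L) (hτ' : ∀ f : F, τ' (algebraMap F L f) = algebraMap F L (τ f)) (f : F) :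
    τ'.symm (algebraMap F L f) = algebraMap F L (τ.symm f) := by
  rw [RingEquiv.symm_apply_eq, hτ', RingEquiv.apply_symm_apply]

/-- A lift of `τ` preserves the chart `R[T]`-integral closure, for `T ⊆ {x, x⁻¹}`. -/
theorem lift_chart_iff (x : F) (τ : F ≃+* F) (τR : R ≃+* R)
    (hτx : τ x = x) (hτR : ∀ r, τ (algebraMap R F r) = algebraMap R F (τR r))
    (τ' : L ≃+* L) (hτ' : ∀ f : F, τ' (algebraMap F L f) = algebraMap F L (τ f))
    (T : Set L) (hT : T ⊆ {algebraMap F L x, (algebraMap F L x)⁻¹}) (b : L) :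
    b ∈ chart R T ↔ τ' b ∈ chart R T := by
  have hx' : τ' (algebraMap F L x) = algebraMap F L x := by rw [hτ', hτx]
  have hxs : τ'.symm (algebraMap F L x) = algebraMap F L x := by
    rw [RingEquiv.symm_apply_eq, hx']
  constructor
  · intro hb
    refine chart_map_mem (τ' : L →+* L)
      (fun r => ⟨τR r, lift_algebraMap_R τ τR hτR τ' hτ' r⟩) ?_ hb
    intro t ht
    rcases hT ht with rfl | rfl
    · change τ' (algebraMap F L x) ∈ _
      rw [hx']
      exact Algebra.subset_adjoin ht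
    · change τ' (algebraMap F L x)⁻¹ ∈ _
      rw [map_inv₀, hx']
      exact Algebra.subset_adjoin ht
  · intro hb
    have := chart_map_mem (T := T) (τ'.symm : L →+* L)
      (fun r => ⟨τR.symm r, lift_symm_algebraMap_R τ τR hτR τ' hτ' r⟩) ?_ hb
    · simpa using this
    intro t ht
    rcases hT ht with rfl | rfl
    · change τ'.symm (algebraMap F L x) ∈ _
      rw [hxs]
      exact Algebra.subset_adjoin ht
    · change τ'.symm (algebraMap F L x)⁻¹ ∈ _
      rw [map_inv₀, hxs]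
      exact Algebra.subset_adjoin ht

/-- The image of a sheet under a lift of `τ` is a sheet. -/
theorem lift_isSheet (w : R) (x : F) (τ : F ≃+* F) (τR : R ≃+* R)
    (hτx : τ x = x) (hτR : ∀ r, τ (algebraMap R F r) = algebraMap R F (τR r))
    (hτw : ∀ r, w ∣ r ↔ w ∣ τR r)
    (τ' : L ≃+* L) (hτ' : ∀ f : F, τ' (algebraMap F L f) = algebraMap F L (τ f))
    {W : ValuationSubring L} (hW : IsSheet w (algebraMap F L x) W) :
    IsSheet w (algebraMap F L x) (W.comap (τ'.symm : L →+* L)) := by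
  refine hW.comap τ'.symm τR.symm (lift_symm_algebraMap_R τ τR hτR τ' hτ') ?_ ?_
  · intro r
    have := hτw (τR.symm r)
    rw [RingEquiv.apply_symm_apply] at this
    exact this.symm
  · rw [RingEquiv.symm_apply_eq, hτ', hτx]

/-- An element of the Galois group maps sheets to sheets. -/
theorem gal_isSheet (w : R) (x : F) (σ : L ≃+* L) (hσ : σ ∈ galSubgroup F L)
    {W : ValuationSubring L} (hW : IsSheet w (algebraMap F L x) W) :
    IsSheet w (algebraMap F L x) (W.comap (σ.symm : L →+* L)) := by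
  have hσs : ∀ f : F, σ.symm (algebraMap F L f) = algebraMap F L f := by
    intro f
    rw [RingEquiv.symm_apply_eq, hσ f]
  refine hW.comap σ.symm (RingEquiv.refl R) ?_ (fun r => Iff.rfl) (hσs x)
  intro r
  rw [IsScalarTower.algebraMap_apply R F L, hσs, ← IsScalarTower.algebraMap_apply]
  rfl

/-- **Route G, ALG core.**  Cover `L / F` with the leaf conclusions, lift `τ'` fixing the sheet
`W₀`: then `τ g / g ∈ F ^ m` for every `g` with an `m`-th root in `L`. -/
theorem algG_core [IsDomain R] [IsNoetherianRing R] [IsIntegrallyClosed R[X]] [CharZero F]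
    (w : R) (x : F) (m : ℕ) (τ : F ≃+* F) (τR : R ≃+* R)
    (hinj : Function.Injective (algebraMap R F)) (hx : Transcendental R x) (hw : Prime w)
    (hm : 0 < m) (hroot : ∃ ζ : R, IsPrimitiveRoot ζ m ∧ τR ζ = ζ)
    (hτx : τ x = x) (hτR : ∀ r, τ (algebraMap R F r) = algebraMap R F (τR r))
    (hτw : ∀ r, w ∣ r ↔ w ∣ τR r)
    (hτV : ∀ V : ValuationSubring F, IsSheet w x V → ∀ c : F,
      (c ∈ V ↔ τ c ∈ V) ∧ (c ∈ V → τ c - c ∈ V.nonunits))
    [FiniteDimensional F L] [IsGalois F L]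
    (hS : SheetsConclusion L w x) (hRed : RedConclusion L w x)
    (hConst : ConstConclusion (R := R) L x) (hCount : CountConclusion L w x)
    (τ' : L ≃+* L) (hτ' : ∀ f : F, τ' (algebraMap F L f) = algebraMap F L (τ f))
    (W₀ : ValuationSubring L) (hW₀ : IsSheet w (algebraMap F L x) W₀)
    (hfix : ∀ b, b ∈ W₀ ↔ τ' b ∈ W₀)
    (g : F) (hg : g ≠ 0) (y : L) (hy : y ^ m = algebraMap F L g) :
    ∃ z : F, τ g = z ^ m * g := by
  classical
  set xL : L := algebraMap F L x with hxL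
  let S := ↥{W : ValuationSubring L | IsSheet w xL W}
  have : Fintype S := hS.finite.fintype
  let M : S → AddSubgroup L := fun s => s.1.nonunits.toAddSubgroup
  have hι : Function.Injective (algebraMap F L) := (algebraMap F L).injective
  have hinjL : Function.Injective (algebraMap R L) := by
    rw [IsScalarTower.algebraMap_eq R F L]
    exact hι.comp hinj
  have : CharZero L := charZero_of_injective_algebraMap hι
  have := hConst.finite
  have hxLt : Transcendental R xL := (transcendental_algebraMap_iff hι).2 hx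
  have hy0 : y ≠ 0 := by
    rintro rfl
    rw [zero_pow hm.ne'] at hy
    exact hg (hι (by rw [← hy, map_zero]))
  have hιg : algebraMap F L g ≠ 0 := fun h => hg (hι (by rw [h, map_zero]))
  -- roots of unity
  have hζ : ∀ σ ∈ galSubgroup F L, ∃ ζ : L, σ y = ζ * y ∧ τ' ζ = ζ := by
    intro σ hσ
    obtain ⟨ζ₀, hζ₀, hτζ₀⟩ := hroot
    have hprim : IsPrimitiveRoot (algebraMap R L ζ₀) m := hζ₀.map_of_injective hinjL
    have hpow : (σ y / y) ^ m = 1 := by
      rw [div_pow, ← map_pow, hy, hσ g, div_self hιg]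
    have : NeZero m := ⟨hm.ne'⟩
    obtain ⟨i, -, hi⟩ := hprim.eq_pow_of_pow_eq_one hpow
    refine ⟨σ y / y, by field_simp, ?_⟩
    rw [← hi, map_pow, lift_algebraMap_R τ τR hτR τ' hτ', hτζ₀]
  have key := wallG (R := R) (L := L) (S := S) w (chart R {xL}) (chart R {xL⁻¹})
    (chart R {xL, xL⁻¹}) M
    (fun s c hc a ha => mul_mem_nonunits s.1 ha (s.2.chart_le Set.Subset.rfl hc))
    (Fermat.Agent.S18.H138.chart_mono (Set.singleton_subset_iff.2 (Or.inl rfl)))
    (Fermat.Agent.S18.H138.chart_mono (Set.singleton_subset_iff.2 (Or.inr rfl)))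
    (fun s => one_not_mem_nonunits s.1)
    (fun s => s.2.2.2.1)
    (fun b hb h => hRed _ (Or.inr (Or.inr rfl)) b hb (fun W hW => h ⟨W, hW⟩))
    (fun b hb h => hRed _ (Or.inl rfl) b hb (fun W hW => h ⟨W, hW⟩))
    (fun b hb h => hRed _ (Or.inr (Or.inl rfl)) b hb (fun W hW => h ⟨W, hW⟩))
    (fun e₁ e₂ he₁ he₂ h1 h2 h12 =>
      Fermat.Agent.S18.H138.connected_special_fibre hinjL hConst.closed hxLt w hw e₁ e₂ he₁ he₂
        h1 h2 h12)
    τ'
    (lift_chart_iff x τ τR hτx hτR τ' hτ' {xL} (Set.singleton_subset_iff.2 (Or.inl rfl)))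
    (lift_chart_iff x τ τR hτx hτR τ' hτ' {xL⁻¹} (Set.singleton_subset_iff.2 (Or.inr rfl)))
    (fun s => ⟨⟨s.1.comap (τ'.symm : L →+* L), lift_isSheet w x τ τR hτx hτR hτw τ' hτ' s.2⟩,
      fun b => by
        change b ∈ s.1.nonunits ↔ τ' b ∈ (s.1.comap (τ'.symm : L →+* L)).nonunits
        rw [mem_nonunits_comap]
        simp⟩)
    (fun s t hst => by
      apply Subtype.ext
      apply ValuationSubring.nonunits_injective
      ext b
      have := congrArg (fun A : AddSubgroup L => b ∈ A) hst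
      exact iff_of_eq this)
    (col := fun s : S => s.1.comap (algebraMap F L))
    (fun s s' h => by
      have hmem := mem_iff_of_nonunits_iff τ' s.1 s'.1 h
      have hV := (IsSheet.comap_algebraMap s.2)
      ext f
      have h1 := hmem (algebraMap F L (τ.symm f))
      rw [hτ', RingEquiv.apply_symm_apply] at h1
      have h2 := (hτV _ hV (τ.symm f)).1
      rw [RingEquiv.apply_symm_apply] at h2
      rw [ValuationSubring.mem_comap, ← h1, ← ValuationSubring.mem_comap, h2])
    (fun s h b hb => by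
      have hmem := mem_iff_of_nonunits_iff τ' s.1 s.1 h
      have hV := (IsSheet.comap_algebraMap s.2)
      have hbW : b ∈ s.1 := by
        rcases hb with hb | hb
        · exact s.2.chart_le (Set.singleton_subset_iff.2 (Or.inl rfl)) hb
        · exact s.2.chart_le (Set.singleton_subset_iff.2 (Or.inr rfl)) hb
      obtain ⟨c, hc⟩ := hS.resdeg s.1 s.2 b hbW
      have hcW : algebraMap F L c ∈ s.1 := by
        have : algebraMap F L c = b - (b - algebraMap F L c) := by ring
        rw [this]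
        exact sub_mem hbW (ValuationSubring.nonunits_subset hc)
      have hcV : c ∈ s.1.comap (algebraMap F L) := hcW
      have h3 := (mem_nonunits_comap s.1 (algebraMap F L) _).1 ((hτV _ hV c).2 hcV)
      rw [map_sub] at h3
      have h4 : τ' (b - algebraMap F L c) ∈ s.1.nonunits := (h _).1 hc
      have h5 : τ' b - b = (τ' (b - algebraMap F L c) - (b - algebraMap F L c)) +
          (algebraMap F L (τ c) - algebraMap F L c) := by
        rw [map_sub, hτ']
        ring
      change τ' b - b ∈ s.1.nonunits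
      rw [h5]
      exact s.1.nonunits.add_mem (s.1.nonunits.sub_mem h4 hc) h3)
    (fun 𝔫 h𝔫 s t hc hs ht => Subtype.ext (hCount.1 𝔫 h𝔫 s.1 t.1 s.2 t.2 hc hs ht))
    (fun 𝔫 h𝔫 s t hc hs ht => Subtype.ext (hCount.2 𝔫 h𝔫 s.1 t.1 s.2 t.2 hc hs ht))
    ⟨W₀, hW₀⟩ (nonunits_iff_of_mem_iff τ' W₀ W₀ hfix)
    (galSubgroup F L)
    (fun σ hσ s => ⟨⟨s.1.comap (σ.symm : L →+* L), gal_isSheet w x σ hσ s.2⟩, fun b => by
        change b ∈ s.1.nonunits ↔ σ b ∈ (s.1.comap (σ.symm : L →+* L)).nonunits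
        rw [mem_nonunits_comap]
        simp⟩)
    (fun σ hσ s h => by
      have hmem := mem_iff_of_nonunits_iff σ s.1 s.1 h
      have h1 := hS.free s.1 s.2 (AlgEquiv.ofRingEquiv (f := σ) hσ) hmem
      ext b
      have := congrArg (fun f : L ≃ₐ[F] L => f b) h1
      exact this)
    (fun σ hσ f => by
      change τ' (σ (τ'.symm (algebraMap F L f))) = algebraMap F L f
      rw [lift_symm_algebraMap τ τ' hτ', hσ, hτ', RingEquiv.apply_symm_apply])
    y hy0 hζ
  -- conclusion
  have hz : τ' y / y ∈ (⊥ : IntermediateField F L) := by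
    rw [IsGalois.mem_bot_iff_fixed]
    intro f
    exact key (f : L ≃+* L) (fun c => f.commutes c)
  obtain ⟨z, hz⟩ := IntermediateField.mem_bot.1 hz
  refine ⟨z, hι ?_⟩
  rw [map_mul, map_pow, hz, div_pow, ← hy, div_mul_cancel₀ _ (pow_ne_zero m hy0), ← map_pow, hy,
    hτ']

/-- **Route G, ALG assembly.**  From the leaves SHEETS, RED, CONST, COUNT (for all Kummer-split
covers of `F`) and COVER (for `g`): `τ g / g` is an `m`-th power in `F`. -/
theorem algG [IsDomain R] [IsNoetherianRing R] [IsIntegrallyClosed R[X]] [CharZero F]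
    (w : R) (x : F) (m : ℕ) (τ : F ≃+* F) (τR : R ≃+* R)
    (hinj : Function.Injective (algebraMap R F)) (hx : Transcendental R x) (hw : Prime w)
    (hm : 0 < m) (hroot : ∃ ζ : R, IsPrimitiveRoot ζ m ∧ τR ζ = ζ)
    (hτx : τ x = x) (hτR : ∀ r, τ (algebraMap R F r) = algebraMap R F (τR r))
    (hτw : ∀ r, w ∣ r ↔ w ∣ τR r)
    (hτV : ∀ V : ValuationSubring F, IsSheet w x V → ∀ c : F,
      (c ∈ V ↔ τ c ∈ V) ∧ (c ∈ V → τ c - c ∈ V.nonunits))
    (hsheet : ∃ V : ValuationSubring F, IsSheet w x V)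
    (hSheets : ∀ (L : Type u) [Field L] [Algebra F L] [Algebra R L] [IsScalarTower R F L],
      IsKummerSplit L w x m → SheetsConclusion L w x)
    (hRed : ∀ (L : Type u) [Field L] [Algebra F L] [Algebra R L] [IsScalarTower R F L],
      IsKummerSplit L w x m → RedConclusion L w x)
    (hConst : ∀ (L : Type u) [Field L] [Algebra F L] [Algebra R L] [IsScalarTower R F L],
      IsKummerSplit L w x m → ConstConclusion (R := R) L x)
    (hCount : ∀ (L : Type u) [Field L] [Algebra F L] [Algebra R L] [IsScalarTower R F L],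
      IsKummerSplit L w x m → CountConclusion L w x)
    (g : F) (hg : g ≠ 0) (hCover : CoverConclusion w x m τ g) :
    ∃ z : F, τ g = z ^ m * g := by
  obtain ⟨L, _, _, _, _, hKS, τ₀, y, hτ₀, hy⟩ := hCover
  have := hKS.finite
  have := hKS.galois
  have S1 := hSheets L hKS
  obtain ⟨V₀, hV₀⟩ := hsheet
  obtain ⟨W₀, hW₀, -⟩ := S1.exists_over V₀ hV₀
  have hW₁ : IsSheet w (algebraMap F L x) (W₀.comap (τ₀.symm : L →+* L)) :=
    lift_isSheet w x τ τR hτx hτR hτw τ₀ hτ₀ hW₀
  have hcol : (W₀.comap (τ₀.symm : L →+* L)).comap (algebraMap F L) =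
      W₀.comap (algebraMap F L) := by
    ext f
    have h2 := (hτV _ (IsSheet.comap_algebraMap hW₀) (τ.symm f)).1
    rw [RingEquiv.apply_symm_apply] at h2
    rw [ValuationSubring.mem_comap, ValuationSubring.mem_comap]
    change τ₀.symm (algebraMap F L f) ∈ W₀ ↔ _
    rw [lift_symm_algebraMap τ τ₀ hτ₀, ← ValuationSubring.mem_comap, h2]
  obtain ⟨σ, hσ⟩ := S1.trans _ W₀ hW₁ hW₀ hcol
  refine algG_core (L := L) w x m τ τR hinj hx hw hm hroot hτx hτR hτw hτV S1 (hRed L hKS)
    (hConst L hKS) (hCount L hKS) (τ₀.trans (σ : L ≃+* L)) ?_ W₀ hW₀ ?_ g hg y hy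
  · intro f
    change σ (τ₀ (algebraMap F L f)) = _
    rw [hτ₀, σ.commutes]
  · intro b
    change b ∈ W₀ ↔ σ (τ₀ b) ∈ W₀
    rw [← hσ, ValuationSubring.mem_comap]
    change _ ↔ τ₀.symm (τ₀ b) ∈ W₀
    rw [RingEquiv.symm_apply_apply]

end Asm

end Fermat.Agent.A2.H12

end
-- ===== PACK-END A2/H12/GAsm.lean

-- ===== PACK-BEGIN Lib/RR/H864/FF1Bridge.lean
section




/-!
# RR library, bridge: `FF1 K F` in characteristic zero

For `K` algebraically closed of characteristic `0` and `F` finite over `K(x)`, `x` transcendental: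
`HasPrincipalDivisors K F` (divisors of functions exist and have degree `0`), every place has
degree one, and there is a place.  Hence `FF1 K F`.
-/

set_option autoImplicit false

noncomputable section

open AlgebraicCurve IntermediateField

namespace Fermat.Agent.Lib.RR.H864

variable {K F : Type*} [Field K] [Field F] [Algebra K F] [IsAlgClosed K] [CharZero K]

/-- divisors of functions exist (finitely many zeros and poles) -/
theorem exists_divisor (x : F) (hx : Transcendental K x)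
    [FiniteDimensional ↥(IntermediateField.adjoin K {x}) F] (f : F) (hf : f ≠ 0) :
    ∃ D : Divisor K F, (∀ v : Place K F, D v = v.ord f) ∧ Divisor.degree D = 0 := by
  classical
  suffices h : ∃ D : Divisor K F, ∀ v : Place K F, D v = v.ord f by
    obtain ⟨D, hD⟩ := h
    exact ⟨D, hD, S24.H864.degree_principal x hx f hf D hD⟩
  by_cases hfK : f ∈ (algebraMap K F).range
  · obtain ⟨c, rfl⟩ := hfK
    exact ⟨0, fun v => by rw [S24.FF.ord_algebraMap v c]; rfl⟩
  · have hft : Transcendental K f := S24.FF.transcendental_of_not_mem_range hfK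
    haveI : FiniteDimensional ↥(IntermediateField.adjoin K {f}) F :=
      S24.FF.finiteDimensional_adjoin_of_transcendental hx hft
    haveI : FiniteDimensional ↥(IntermediateField.adjoin K {f⁻¹}) F := by
      rw [S24.H864.adjoin_simple_inv_eq]; infer_instance
    obtain ⟨sp, hsp⟩ := S24.H864.exists_finset_zeros f hft
    obtain ⟨sn, hsn⟩ := S24.H864.exists_finset_zeros f⁻¹ (S24.H864.transcendental_inv hft)
    refine ⟨Finsupp.onFinset (sp ∪ sn) (fun v => v.ord f) ?_, fun v => rfl⟩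
    intro v hv
    rw [Finset.mem_union, hsp, hsn, Place.ord_inv]
    omega

theorem hasPrincipalDivisors (x : F) (hx : Transcendental K x)
    [FiniteDimensional ↥(IntermediateField.adjoin K {x}) F] : HasPrincipalDivisors K F :=
  ⟨fun f hf => exists_divisor x hx f hf⟩

/-- there is a place (a zero of `x`) -/
theorem nonempty_place (x : F) (hx : Transcendental K x)
    [FiniteDimensional ↥(IntermediateField.adjoin K {x}) F] : Nonempty (Place K F) := by
  obtain ⟨s, _, hsum⟩ := S24.H864.fundamental_eq x hx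
  by_contra hne
  rw [not_nonempty_iff] at hne
  have h0 : ∑ v ∈ s, v.ord x = 0 := Finset.sum_eq_zero fun v _ => (hne.false v).elim
  rw [h0] at hsum
  have hpos : 0 < Module.finrank ↥(IntermediateField.adjoin K {x}) F := Module.finrank_pos
  omega

/-- **Bridge.**  `FF1 K F` for function fields of one variable over an algebraically closed field
of characteristic zero. -/
theorem ff1 (x : F) (hx : Transcendental K x)
    [hfin : FiniteDimensional ↥(IntermediateField.adjoin K {x}) F] : FF1 K F where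
  hpd := hasPrincipalDivisors x hx
  deg_eq_one := fun v => S24.FF.deg_eq_one v hx
  nonempty_place := nonempty_place x hx
  exists_finite := ⟨x, hx, hfin⟩

end Fermat.Agent.Lib.RR.H864

end
end
-- ===== PACK-END Lib/RR/H864/FF1Bridge.lean

-- ===== PACK-BEGIN S29/H882/GoodQ.lean
section


/-!
# S29 / MERO (helper882), part 1: `q`-expansions of good functions

`goodQ N` is the `ℂ`-subalgebra of `ℂ((q))` of `q`-expansions of the functions in the landed
`S24.H648.goodRing N` (holomorphic, `Γ₀(N)`-invariant, all `SL₂(ℤ)`-translates of at most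
exponential growth at `i∞`).  Every element of `goodQ N` is a root of a monic polynomial of degree
`[SL₂(ℤ) : Γ₀(N)]` over `ℂ[j]`.
-/

set_option autoImplicit false

noncomputable section

open UpperHalfPlane ModularGroup CongruenceSubgroup Polynomial ModularCurve
open scoped MatrixGroups Manifold Modular Real

namespace Fermat.Agent.S29.H882

open Fermat.Agent.S24 Fermat.Agent.S24.H648 Fermat.Agent.S24.H708 Fermat.Agent.S24.Deg457

variable (N : ℕ)

theorem T_mem_Gamma0 : ModularGroup.T ∈ Gamma0 N := by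
  rw [Gamma0_mem]
  simp [ModularGroup.T]

variable {N}

/-- A `Γ₀(N)`-invariant function is `1`-periodic. -/
theorem periodic_of_invariant {f : ℍ → ℂ} (hf : ∀ γ ∈ Gamma0 N, ∀ τ : ℍ, f (γ • τ) = f τ) :
    Function.Periodic (f ∘ ofComplex) (1 : ℝ) := by
  intro w
  by_cases hw : 0 < Complex.im w
  · have hw' : 0 < Complex.im (w + ((1 : ℝ) : ℂ)) := by simpa using hw
    simp only [Function.comp_apply, ofComplex_apply_of_im_pos hw', ofComplex_apply_of_im_pos hw]
    have h := hf _ (T_mem_Gamma0 N) ⟨w, hw⟩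
    rw [← h]
    congr 1
    apply UpperHalfPlane.ext
    rw [UpperHalfPlane.modular_T_smul, UpperHalfPlane.coe_vadd]
    simp [add_comm]
  · have hw0 : Complex.im w ≤ 0 := not_lt.mp hw
    have hw' : Complex.im (w + ((1 : ℝ) : ℂ)) ≤ 0 := by simpa using hw0
    simp only [Function.comp_apply]
    rw [ofComplex_apply_of_im_nonpos hw', ofComplex_apply_of_im_nonpos hw0]

/-- Exponential growth gives a pole of finite order at `i∞`. -/
theorem isBounded_mul_qh_pow_of_expGrowth {f : ℍ → ℂ} (hf : ExpGrowth f) :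
    ∃ M : ℕ, IsBoundedAtImInfty (f * qh 1 ^ M) := by
  obtain ⟨C, m, h⟩ := hf
  refine ⟨m, ?_⟩
  rw [UpperHalfPlane.isBoundedAtImInfty_iff]
  refine ⟨C, 1, fun τ hτ => ?_⟩
  have h1 := h τ hτ
  have hq : ‖qh 1 τ‖ = Real.exp (-2 * π * τ.im) := by
    rw [qh_apply, Function.Periodic.norm_qParam]
    simp
  rw [Pi.mul_apply, Pi.pow_apply, norm_mul, norm_pow, hq, ← Real.exp_nat_mul]
  calc ‖f τ‖ * Real.exp (m * (-2 * π * τ.im))
      ≤ C * Real.exp (2 * π * m * τ.im) * Real.exp (m * (-2 * π * τ.im)) :=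
        mul_le_mul_of_nonneg_right h1 (Real.exp_pos _).le
    _ = C := by
        rw [mul_assoc, ← Real.exp_add]
        have : 2 * π * m * τ.im + m * (-2 * π * τ.im) = 0 := by ring
        rw [this, Real.exp_zero, mul_one]

theorem isMerInf_of_mem_goodRing {f : ℍ → ℂ} (hf : f ∈ goodRing N) : IsMerInf 1 f := by
  obtain ⟨h1, h2, h3⟩ := hf
  refine ⟨h1, ?_, ?_⟩
  · have := periodic_of_invariant h2
    simpa using this
  · have h := h3 1
    simp only [one_smul] at h
    exact isBounded_mul_qh_pow_of_expGrowth h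

theorem hasQExp_of_mem_goodRing {f : ℍ → ℂ} (hf : f ∈ goodRing N) :
    HasQExp 1 f (qexpFun 1 f) :=
  HasQExp.of_isMerInf (isMerInf_of_mem_goodRing hf)

variable (N)

/-- The algebra of `q`-expansions of good functions of level `N`. -/
def goodQ : Subalgebra ℂ (LaurentSeries ℂ) where
  carrier := {b | ∃ f ∈ goodRing N, HasQExp 1 f b}
  mul_mem' := by
    rintro a b ⟨f, hf, hfa⟩ ⟨g, hg, hgb⟩
    exact ⟨f * g, (goodRing N).mul_mem hf hg, hfa.mul hgb⟩
  add_mem' := by
    rintro a b ⟨f, hf, hfa⟩ ⟨g, hg, hgb⟩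
    exact ⟨f + g, (goodRing N).add_mem hf hg, hfa.add hgb⟩
  algebraMap_mem' := fun c => by
    refine ⟨fun _ => c, (goodRing N).algebraMap_mem c, ?_⟩
    have : algebraMap ℂ (LaurentSeries ℂ) c = HahnSeries.C c := by
      rw [algebraMap_laurentSeries_eq_single]; rfl
    rw [this]
    exact HasQExp.const 1 c

variable {N}

theorem mem_goodQ {b : LaurentSeries ℂ} :
    b ∈ goodQ N ↔ ∃ f ∈ goodRing N, HasQExp 1 f b := Iff.rfl

theorem qexpFun_mem_goodQ {f : ℍ → ℂ} (hf : f ∈ goodRing N) : qexpFun 1 f ∈ goodQ N :=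
  ⟨f, hf, hasQExp_of_mem_goodRing hf⟩

variable (N) in
theorem AK_le_goodQ [NeZero N] : AK ℂ N ≤ goodQ N := by
  intro b hb
  have hJ : ∃ C : ℝ, ∀ τ : ℍ, τ ∈ 𝒟 → ‖JFun.jFun τ‖ ≤ C * Real.exp (2 * π * τ.im) := by
    rw [jFun_eq_H648]
    exact Fermat.Agent.S24.H648.jFun_bound_fd
  exact exists_goodRing_hasQExp N hJ hb

variable (N) in
theorem JK_mem_goodQ [NeZero N] : JK ℂ ∈ goodQ N := AK_le_goodQ N (JK_mem_AK ℂ N)

/-- Every `q`-expansion of a good function is a root of a monic polynomial of degree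
`[SL₂(ℤ) : Γ₀(N)]` over `ℂ[j]`. -/
theorem exists_monic_of_mem_goodQ [NeZero N] {b : LaurentSeries ℂ} (hb : b ∈ goodQ N) :
    ∃ P : ℂ[X][X], P.Monic ∧ P.natDegree = Nat.card (XX N) ∧
      P.eval₂ (evJ (JK ℂ)) b = 0 := by
  obtain ⟨f, hf, hfb⟩ := hb
  haveI : Finite (SL(2, ℤ) ⧸ Gamma0 N) := inferInstanceAs (Finite (XX N))
  letI : Fintype (SL(2, ℤ) ⧸ Gamma0 N) := Fintype.ofFinite _
  obtain ⟨P, hPm, hPn, hP⟩ := exists_charPoly_jFun_eval_eq_zero (N := N) hf
  refine ⟨P, hPm, ?_, ?_⟩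
  · rw [hPn, Nat.card_eq_fintype_card]
  · have h1 := hasQExp_eval₂ P hfb
    rw [h1.eq_zero_iff]
    funext τ
    exact hP τ

theorem algDeg_of_mem_goodQ [NeZero N] {b : LaurentSeries ℂ} (hb : b ∈ goodQ N) :
    AlgDeg ℂ (Nat.card (XX N)) b := by
  obtain ⟨P, hPm, hPn, hP⟩ := exists_monic_of_mem_goodQ hb
  exact ⟨P, hPm.ne_zero, hPn.le, hP⟩

end Fermat.Agent.S29.H882

end
end
-- ===== PACK-END S29/H882/GoodQ.lean

-- ===== PACK-BEGIN S28/H589/ModPoly.lean
section






/-!
# S28 / [A-Φ] (helper589): the modular polynomial `Φ_p ∈ ℤ[Y][X]`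

Analytic input: helper648's conjugate product (`Fermat.Agent.S24.H648.exists_charPoly_jFun`)
gives `Φ ∈ ℂ[Y][X]`, monic of degree `[SL₂(ℤ) : Γ₀(p)] = p + 1`, with
`Φ(j(pτ), j(τ)) = 0` and `Φ(j(τ), j(pτ)) = 0` as functions on `ℍ`.
helper565's `HasTExp` calculus turns these into identities in `ℂ((q))`, and `descent`
(this directory) shows that `Φ` has integer coefficients.
-/

set_option autoImplicit false

noncomputable section

open UpperHalfPlane ModularCurve CongruenceSubgroup Function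
open scoped MatrixGroups Manifold Real

namespace Fermat.Agent.S28.H589

open Fermat.Agent.S28.H565 (HasTExp)
open Fermat.Agent.S24.H648 (goodRing charPolyAt)

local notation "𝕢" => Periodic.qParam

/-- The scaling map `τ ↦ d τ` on `ℍ`. -/
def scaleH (d : ℕ) (hd : 0 < d) (τ : ℍ) : ℍ :=
  UpperHalfPlane.mk ((d : ℂ) * (τ : ℂ)) (by
    have h : ((d : ℂ) * (τ : ℂ)).im = d * τ.im := by simp
    rw [h]
    exact mul_pos (by exact_mod_cast hd) τ.im_pos)

@[simp]
theorem scaleH_coe (d : ℕ) (hd : 0 < d) (τ : ℍ) : ((scaleH d hd τ : ℍ) : ℂ) = (d : ℂ) * τ := rfl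

theorem qParam_scaleH (d : ℕ) (hd : 0 < d) (τ : ℍ) :
    𝕢 1 ((scaleH d hd τ : ℍ) : ℂ) = 𝕢 1 (τ : ℂ) ^ d := by
  simp only [Periodic.qParam, scaleH_coe]
  rw [← Complex.exp_nat_mul]
  congr 1
  push_cast
  ring

/-- If `f` has `q`-expansion `φ` then `τ ↦ f (d τ)` has `q`-expansion `V_d φ`. -/
theorem hasTExp_comp_scaleH (d : ℕ) [NeZero d] (hd : 0 < d) {f : ℍ → ℂ} {φ : LaurentSeries ℂ}
    (hf : HasTExp 1 f φ) : HasTExp 1 (fun τ => f (scaleH d hd τ)) (qExpand ℂ d φ) := by
  intro τ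
  have hm : (d : ℤ) ≠ 0 := by exact_mod_cast NeZero.ne d
  have hι : Function.Injective (fun k : ℤ => (d : ℤ) * k) := mul_right_injective₀ hm
  have hzero : ∀ n ∉ Set.range (fun k : ℤ => (d : ℤ) * k),
      (qExpand ℂ d φ).coeff n * 𝕢 1 τ ^ n = 0 := by
    intro n hn
    rw [qExpand_coeff_of_not_dvd, zero_mul]
    rintro ⟨c, rfl⟩
    exact hn ⟨c, rfl⟩
  rw [← hι.hasSum_iff hzero]
  have hfun : ((fun n : ℤ => (qExpand ℂ d φ).coeff n * 𝕢 1 τ ^ n) ∘
      fun k : ℤ => (d : ℤ) * k) = fun k : ℤ => φ.coeff k * 𝕢 1 (scaleH d hd τ) ^ k := by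
    funext k
    simp only [Function.comp_apply]
    rw [qExpand_coeff_mul, qParam_scaleH, zpow_mul, zpow_natCast]
  rw [hfun]
  exact hf (scaleH d hd τ)

/-- Two-variable polynomial expressions in functions with `q`-expansions. -/
theorem hasTExp_eval₂ (P : Polynomial (Polynomial ℂ)) {a b : ℍ → ℂ} {α β : LaurentSeries ℂ}
    (ha : HasTExp 1 a α) (hb : HasTExp 1 b β) :
    HasTExp 1 (fun τ => (P.map (Polynomial.evalRingHom (a τ))).eval (b τ))
      (P.eval₂ (evC α) β) := by
  induction P using Polynomial.induction_on' with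
  | add p q hp hq =>
    rw [Polynomial.eval₂_add]
    exact (hp.add hq).congr fun τ => by simp
  | monomial n c =>
    rw [Polynomial.eval₂_monomial, evC_eq_aeval]
    have h1 := (ha.polynomial_aeval c).mul (hb.pow n)
    exact h1.congr fun τ => by simp [Polynomial.eval_monomial]

/-- A function-level identity `P(a(τ))(b(τ)) = 0` gives the formal identity. -/
theorem eval₂_eq_zero_of_forall (P : Polynomial (Polynomial ℂ)) {a b : ℍ → ℂ}
    {α β : LaurentSeries ℂ} (ha : HasTExp 1 a α) (hb : HasTExp 1 b β)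
    (h : ∀ τ, (P.map (Polynomial.evalRingHom (a τ))).eval (b τ) = 0) :
    P.eval₂ (evC α) β = 0 := by
  have h1 := hasTExp_eval₂ P ha hb
  have h2 : HasTExp 1 (0 : ℍ → ℂ) (P.eval₂ (evC α) β) := h1.congr fun τ => by simp [h τ]
  exact h2.eq_zero one_pos

theorem jFun648_eq : (Fermat.Agent.S24.H648.jFun : ℍ → ℂ) = Fermat.Agent.S28.H565.jFun := rfl

theorem scaleH_S_scaleH (p : ℕ) (hp : 0 < p) (w : ℍ) :
    scaleH p hp (ModularGroup.S • scaleH p hp w) = ModularGroup.S • w := by
  apply UpperHalfPlane.ext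
  rw [scaleH_coe, UpperHalfPlane.modular_S_smul, UpperHalfPlane.modular_S_smul]
  simp only [scaleH_coe]
  have hw : (w : ℂ) ≠ 0 := UpperHalfPlane.ne_zero w
  have hp' : (p : ℂ) ≠ 0 := by exact_mod_cast hp.ne'
  field_simp

theorem dedekindPsi_prime (p : ℕ) (hp : p.Prime) : ModularCurve.dedekindPsi p = p + 1 := by
  have h := Fermat.Agent.S20.H872.dedekindPsi_mul_prime_of_not_dvd (N := 1) one_ne_zero hp
    (by
      intro h
      exact hp.one_lt.ne' (Nat.dvd_one.mp h))
  rwa [one_mul, ModularCurve.dedekindPsi_one, mul_one] at h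

theorem finite_quot_Gamma0 (N : ℕ) [NeZero N] : Finite (SL(2, ℤ) ⧸ Gamma0 N) := by
  apply Nat.finite_of_card_ne_zero
  rw [Fermat.Agent.S20.H872.card_quot_Gamma0]
  intro h
  have hpos : 0 < ModularCurve.dedekindPsi N := by
    unfold ModularCurve.dedekindPsi
    apply Finset.sum_pos'
    · intro d _; exact Nat.zero_le _
    · refine ⟨1, ?_, ?_⟩
      · simp [NeZero.ne N]
      · simp [Nat.pos_of_ne_zero (NeZero.ne N)]
  omega

/-- The fintype structure on `SL₂(ℤ) / Γ₀(N)` used for the conjugate product. -/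
@[reducible] def fintypeQuot (N : ℕ) [NeZero N] : Fintype (SL(2, ℤ) ⧸ Gamma0 N) :=
  haveI := finite_quot_Gamma0 N
  Fintype.ofFinite _

theorem card_quot_prime (p : ℕ) [NeZero p] (hp : p.Prime) :
    @Fintype.card (SL(2, ℤ) ⧸ Gamma0 p) (fintypeQuot p) = p + 1 := by
  letI := fintypeQuot p
  rw [← Nat.card_eq_fintype_card, Fermat.Agent.S20.H872.card_quot_Gamma0, dedekindPsi_prime p hp]

/-- The complex modular polynomial with its two formal vanishing relations. -/
theorem exists_modPoly_complex (p : ℕ) [NeZero p] (hp : p.Prime) :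
    ∃ Φ : Polynomial (Polynomial ℂ), Φ.Monic ∧ Φ.natDegree = p + 1 ∧
      Φ.eval₂ (evC (jqModC ℂ)) (qExpand ℂ p (jqModC ℂ)) = 0 ∧
      Φ.eval₂ (evC (qExpand ℂ p (jqModC ℂ))) (jqModC ℂ) = 0 := by
  letI := fintypeQuot p
  set f₀ : ℍ → ℂ := fun τ => Fermat.Agent.S24.H648.jFun (scaleH p hp.pos τ) with hf₀
  have hf : f₀ ∈ goodRing p :=
    Fermat.Agent.S24.H648.jFun_scale_mem_goodRing p p hp.pos dvd_rfl (scaleH p hp.pos)
      (fun τ => rfl)
  obtain ⟨P, hPm, hPd, hP⟩ := Fermat.Agent.S24.H648.exists_charPoly_jFun hf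
  have hj : HasTExp 1 Fermat.Agent.S24.H648.jFun (jqModC ℂ) := by
    rw [jFun648_eq]; exact Fermat.Agent.S28.H565.hasTExp_jFun
  have hjp : HasTExp 1 f₀ (qExpand ℂ p (jqModC ℂ)) := hasTExp_comp_scaleH p hp.pos hj
  refine ⟨P, hPm, ?_, ?_, ?_⟩
  · rw [hPd]; exact card_quot_prime p hp
  · refine eval₂_eq_zero_of_forall P hj hjp fun τ => ?_
    rw [hP]
    exact Fermat.Agent.S24.H648.charPolyAt_eval_self hf.2.1 τ
  · refine eval₂_eq_zero_of_forall P hjp hj fun w => ?_
    show (P.map (Polynomial.evalRingHom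
      (Fermat.Agent.S24.H648.jFun (scaleH p hp.pos w)))).eval (Fermat.Agent.S24.H648.jFun w) = 0
    rw [hP]
    have hconj : Fermat.Agent.S24.H648.conj p f₀
        (((ModularGroup.S)⁻¹ : SL(2, ℤ)) : SL(2, ℤ) ⧸ Gamma0 p) (scaleH p hp.pos w)
        = Fermat.Agent.S24.H648.jFun w := by
      rw [Fermat.Agent.S24.H648.conj_mk hf.2.1, inv_inv]
      show Fermat.Agent.S24.H648.jFun (scaleH p hp.pos (ModularGroup.S • scaleH p hp.pos w)) = _
      rw [scaleH_S_scaleH, Fermat.Agent.S24.H648.jFun_smul]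
    rw [← hconj]
    exact Fermat.Agent.S24.H648.charPolyAt_eval_conj f₀ _ _

theorem jqModC_int_ne_zero : jqModC ℤ ≠ 0 := jqModC_ne_zero_of_nontrivial ℤ

theorem order_jqModC_int : (jqModC ℤ).order = -1 := by
  rw [← order_iotaC, iotaC, coeffMap_jqModC]
  exact Fermat.Agent.S28.H145.order_jqModC ℂ

/-- **[A-Φ]** -/
theorem nonempty_modPolyData (p : ℕ) [NeZero p] (hp : p.Prime) : Nonempty (ModPolyData p) := by
  obtain ⟨Φ, hΦm, hΦd, h1, h2⟩ := exists_modPoly_complex p hp
  have hne : jqModC ℤ ≠ qExpand ℤ p (qExpand ℤ p (jqModC ℤ)) := by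
    intro h
    have hc : (jqModC ℤ).coeff (-1) = (qExpand ℤ p (qExpand ℤ p (jqModC ℤ))).coeff (-1) :=
      congrArg (fun z => z.coeff (-1)) h
    rw [qExpand_coeff_of_not_dvd] at hc
    · have h1 : (jqModC ℤ).coeff (-1) ≠ 0 := by
        have := HahnSeries.coeff_order_eq_zero (x := jqModC ℤ)
        rw [order_jqModC_int] at this
        exact fun h0 => jqModC_int_ne_zero (this.mp h0)
      exact h1 hc
    · intro hdvd
      have h2 : (p : ℤ) ∣ 1 := (Int.dvd_neg).mp hdvd
      have h3 : p ∣ 1 := by exact_mod_cast h2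
      exact hp.one_lt.ne' (Nat.dvd_one.mp h3)
  have hcop : IsCoprime (jqModC ℤ).order (p : ℤ) := by
    rw [order_jqModC_int]
    exact (isCoprime_one_left (x := (p : ℤ))).neg_left
  obtain ⟨Ψ, hΨm, hΨd, hΨ1, hΨ2⟩ := descent p Φ hΦm (p + 1) hΦd rfl
    (qExpand ℤ p (jqModC ℤ)) (jqModC ℤ) jqModC_int_ne_zero hcop hne
    (by rw [iotaC, coeffMap_qExpand, coeffMap_jqModC]; exact h1)
    (by rw [iotaC, coeffMap_jqModC]; exact h2)
  exact ⟨⟨Ψ, hΨm, hΨd, hΨ1, hΨ2⟩⟩

end Fermat.Agent.S28.H589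

end

end
-- ===== PACK-END S28/H589/ModPoly.lean

-- ===== PACK-BEGIN S18/Mod/H216/Basis.lean
section


/-!
# S18 / MOD (helper216): the S28 basis inside `Fc M E`

* `exists_Fc_of_full` (T0): `coeffEmb Q̄ z`, `z ∈ F_ℚ`, is the value of an element of `Fc M E`.
* `exists_FE_of_Fc` (T1): every `f ∈ Fc M E` is the coefficientwise image of an element of
  `F_E := laurentBaseChange E (modularFunctionFieldFull M) ⊆ E((q))`.
* `yInt` : the S28 monomials as elements of `intE M A E`.
* `exists_scaled_relation` (B2): `q(j) f = ∑ pᵢ(j) yᵢ` with `q, pᵢ ∈ (A ∩ E)[X]`, jointly primitive.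
* `redE_sum_eq_zero` (B3): independence of the reductions over `κ[j̄]`.
-/

set_option autoImplicit false
set_option linter.unusedSectionVars false

noncomputable section

namespace Fermat.Agent.S18.Mod.H216

open ModularCurve AlgebraicCurve HahnSeries Polynomial Fermat.Agent.S18 Fermat.Agent.S18.Mod
open Fermat.Agent.S28

variable (M : ℕ) (A : ValuationSubring Qb) (E : IntermediateField ℚ Qb)

/-! ### T0, T1 -/

theorem coe_jd (d : ℕ) [NeZero d] (hd : d ∣ M) :
    ((jd M d hd : Om M) : LaurentSeries Qb) = coeffEmb Qb (qExpand ℚ d jq) := rfl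

theorem jd_mem_Fc (d : ℕ) [NeZero d] (hd : d ∣ M) : jd M d hd ∈ Fc M E :=
  Subfield.subset_closure (Or.inr ⟨d, inferInstance, hd, rfl⟩)

theorem coeffEmb_algebraMap (r : ℚ) :
    coeffEmb Qb (algebraMap ℚ (LaurentSeries ℚ) r) = HahnSeries.C (algebraMap ℚ Qb r) := by
  rw [algebraMap_laurentSeries_eq_single, coeffEmb, coeffMap_single, ← HahnSeries.C_apply]

/-- **T0.** -/
theorem exists_Fc_of_full {z : LaurentSeries ℚ} (hz : z ∈ modularFunctionFieldFull M) :
    ∃ f ∈ Fc M E, (f : LaurentSeries Qb) = coeffEmb Qb z := by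
  have hle : Subfield.closure (Set.range (algebraMap ℚ (LaurentSeries ℚ)) ∪ divisorExpansions M) ≤
      Subfield.comap (coeffEmb Qb) ((Fc M E).map (omVal M)) := by
    rw [Subfield.closure_le]
    rintro x (⟨r, rfl⟩ | ⟨d, hd, hdM, rfl⟩)
    · refine ⟨algebraMap Qb (Om M) (algebraMap ℚ Qb r), ?_, ?_⟩
      · exact Ec_le_Fc M E ((mem_Ec_iff M E).mpr ⟨_, E.algebraMap_mem r, rfl⟩)
      · rw [omVal_apply, coe_algebraMap_Om, coeffEmb_algebraMap]
    · haveI := hd
      exact ⟨jd M d hdM, jd_mem_Fc M E d hdM, rfl⟩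
  obtain ⟨f, hf, hfz⟩ := hle hz
  exact ⟨f, hf, hfz⟩

/-- `E((q)) → Q̄((q))`. -/
abbrev iotaE : LaurentSeries ↥E →+* LaurentSeries Qb := coeffMap (algebraMap ↥E Qb)

theorem iotaE_coeffEmb (z : LaurentSeries ℚ) : iotaE E (coeffEmb ↥E z) = coeffEmb Qb z := by
  rw [coeffEmb, coeffEmb, coeffMap_coeffMap]
  exact coeffMap_congr (RingHom.ext_rat _ _) z

theorem iotaE_algebraMap (c : ↥E) :
    iotaE E (algebraMap ↥E (LaurentSeries ↥E) c) = HahnSeries.C (c : Qb) := by
  rw [algebraMap_laurentSeries_eq_single, coeffMap_single, ← HahnSeries.C_apply]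
  rfl

/-- **T1.** -/
theorem exists_FE_of_Fc {f : Om M} (hf : f ∈ Fc M E) :
    ∃ g ∈ laurentBaseChange ↥E (modularFunctionFieldFull M), iotaE E g = (f : LaurentSeries Qb) := by
  have hle : Fc M E ≤ Subfield.comap (omVal M)
      ((laurentBaseChange ↥E (modularFunctionFieldFull M)).toSubfield.map (iotaE E)) := by
    rw [Fc, Subfield.closure_le]
    rintro x (hx | ⟨d, hd, hdM, rfl⟩)
    · obtain ⟨c, hc, rfl⟩ := (mem_Ec_iff M E).mp hx
      refine ⟨algebraMap ↥E (LaurentSeries ↥E) ⟨c, hc⟩, ?_, ?_⟩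
      · exact (laurentBaseChange ↥E (modularFunctionFieldFull M)).algebraMap_mem _
      · rw [omVal_apply, coe_algebraMap_Om]
        exact iotaE_algebraMap E ⟨c, hc⟩
    · haveI := hd
      refine ⟨coeffEmb ↥E (qExpand ℚ d jq), ?_, ?_⟩
      · exact coeffEmb_mem_laurentBaseChange ↥E (jqd_mem_full M hdM)
      · rw [omVal_apply, coe_jd]
        exact iotaE_coeffEmb E _
  obtain ⟨g, hg, hgf⟩ := hle hf
  exact ⟨g, hg, hgf⟩

/-! ### The monomials -/

variable {M} {n : ℕ} {y : Fin n → LaurentSeries ℤ}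

theorem coeffMap_intCast_mem_intE [NeZero M] (hS : H516.SpansQ M y) (i : Fin n) :
    coeffMap (Int.castRingHom ↥A) (y i) ∈ intE M A E := by
  rw [mem_intE]
  obtain ⟨f, hf, hfz⟩ := exists_Fc_of_full M E (H516.yQ_mem_full hS i)
  refine ⟨fun k => ?_, f, hf, ?_⟩
  · rw [coeffMap_coeff]
    simp only [eq_intCast, SubringClass.coe_intCast]
    exact intCast_mem E _
  · rw [hfz, ← H516.coeffMap_intCast_eq_coeffEmb, coeffMap_coeffMap]
    exact coeffMap_congr (RingHom.ext_int _ _) _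

/-- The S28 monomials as integral series. -/
def yInt [NeZero M] (hS : H516.SpansQ M y) (i : Fin n) : ↥(intE M A E) :=
  ⟨coeffMap (Int.castRingHom ↥A) (y i), coeffMap_intCast_mem_intE A E hS i⟩

theorem coe_toOm_yInt [NeZero M] (hS : H516.SpansQ M y) (i : Fin n) :
    ((toOm M A E (yInt A E hS i) : Om M) : LaurentSeries Qb) =
      coeffMap (Int.castRingHom Qb) (y i) := by
  rw [coe_toOm]
  show coeffMap A.subtype (coeffMap (Int.castRingHom ↥A) (y i)) = _
  rw [coeffMap_coeffMap]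
  exact coeffMap_congr (RingHom.ext_int _ _) _

theorem redE_yInt [NeZero M] (hS : H516.SpansQ M y) (i : Fin n) :
    redE M A E (yInt A E hS i) =
      coeffMap (Int.castRingHom (IsLocalRing.ResidueField ↥A)) (y i) := by
  show coeffMap (IsLocalRing.residue ↥A) (coeffMap (Int.castRingHom ↥A) (y i)) = _
  rw [coeffMap_coeffMap]
  exact coeffMap_congr (RingHom.ext_int _ _) _

/-- **(B3)** independence of the reductions over `κ[j̄]`. -/
theorem redE_sum_eq_zero [NeZero M] (hS : H516.SpansQ M y)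
    (hli : LinearIndependent (jField (IsLocalRing.ResidueField ↥A))
      (fun i => coeffMap (Int.castRingHom (IsLocalRing.ResidueField ↥A)) (y i)))
    (p : Fin n → (↥(S0 A E))[X])
    (h : redE M A E (∑ i, Uev M A E (p i) * yInt A E hS i) = 0) :
    ∀ i, (p i).map (resS A E) = 0 := by
  rw [map_sum] at h
  simp only [map_mul, redE_Uev, redE_yInt] at h
  have h2 := Fintype.linearIndependent_iff.mp hli
    (fun i => (⟨H516.evJ ((p i).map (resS A E)), H516.evJ_mem_jField _ _⟩ :
      jField (IsLocalRing.ResidueField ↥A))) h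
  intro i
  have h3 := congrArg Subtype.val (h2 i)
  exact (H516.evJ_eq_zero_iff _).mp h3

/-! ### (B2) the scaled relation -/

variable (M) in
theorem coe_toOm_Uev (p : (↥(S0 A E))[X]) :
    ((toOm M A E (Uev M A E p) : Om M) : LaurentSeries Qb) =
      H516.evJ (p.map (S0 A E).subtype) := by
  have h : (omVal M).comp ((toOm M A E).comp (Uev M A E)) =
      (Polynomial.eval₂RingHom (HahnSeries.C (Γ := ℤ) (R := Qb)) (jqModC Qb)).comp
        (Polynomial.mapRingHom (S0 A E).subtype) := by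
    apply Polynomial.ringHom_ext
    · intro c
      simp only [RingHom.comp_apply, Uev, Polynomial.coe_eval₂RingHom, Polynomial.eval₂_C,
        Polynomial.coe_mapRingHom, Polynomial.map_C, omVal_apply]
      rw [toOm_cS, coe_algebraMap_Om]
      rfl
    · simp only [RingHom.comp_apply, Uev, Polynomial.coe_eval₂RingHom, Polynomial.eval₂_X,
        Polynomial.coe_mapRingHom, Polynomial.map_X, omVal_apply]
      rw [toOm_jInt, coe_jOm]
  exact RingHom.congr_fun h p

/-- `A ∩ E` as a valuation subring of `E`. -/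
def RE : ValuationSubring ↥E := A.comap (algebraMap ↥E Qb)

/-- `RE → S0`. -/
def reToS0 : ↥(RE A E) →+* ↥(S0 A E) where
  toFun c := ⟨algebraMap ↥E Qb (c : ↥E), c.2, (c : ↥E).2⟩
  map_one' := Subtype.ext (by simp)
  map_mul' a b := Subtype.ext (by simp)
  map_zero' := Subtype.ext (by simp)
  map_add' a b := Subtype.ext (by simp)

theorem subtype_comp_reToS0 :
    (S0 A E).subtype.comp (reToS0 A E) = (algebraMap ↥E Qb).comp (RE A E).subtype := rfl

variable (M) in
theorem coe_toOm_Uev_map (P : (↥(RE A E))[X]) :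
    ((toOm M A E (Uev M A E (P.map (reToS0 A E))) : Om M) : LaurentSeries Qb) =
      iotaE E (H516.evJ (P.map (RE A E).subtype)) := by
  rw [coe_toOm_Uev, H516.coeffMap_evJ, Polynomial.map_map, Polynomial.map_map,
    subtype_comp_reToS0]

/-- **(B2)** every `f ∈ Fc M E` satisfies a jointly primitive relation
`q(j) f = ∑ pᵢ(j) yᵢ` over `A ∩ E`. -/
theorem exists_scaled_relation [NeZero M] (hS : H516.SpansQ M y) {f : Om M}
    (hf : f ∈ Fc M E) :
    ∃ (q : (↥(S0 A E))[X]) (p : Fin n → (↥(S0 A E))[X]),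
      (q.map (resS A E) ≠ 0 ∨ ∃ i, (p i).map (resS A E) ≠ 0) ∧
      toOm M A E (Uev M A E q) * f =
        toOm M A E (∑ i, Uev M A E (p i) * yInt A E hS i) := by
  classical
  obtain ⟨g, hg, hgf⟩ := exists_FE_of_Fc M E hf
  have hgs := (H516.mem_baseChange_iff_mem_spanL ↥E hS).mp hg
  obtain ⟨G, H, hG, hrel⟩ :=
    H516.exists_cleared ↥E (fun i => coeffMap (Int.castRingHom ↥E) (y i)) hgs
  obtain ⟨c, H', hc, hH', i0, m0, h1⟩ :=
    H516.exists_scale (RE A E) (Fin.cons G H : Fin (n + 1) → (↥E)[X]) ⟨0, by simpa using hG⟩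
  have hq : (H' 0).map (RE A E).subtype = C c⁻¹ * G := by
    rw [hH' 0, Fin.cons_zero]
  have hp : ∀ i : Fin n, (H' i.succ).map (RE A E).subtype = C c⁻¹ * H i := by
    intro i
    rw [hH' i.succ, Fin.cons_succ]
  refine ⟨(H' 0).map (reToS0 A E), fun i => (H' i.succ).map (reToS0 A E), ?_, ?_⟩
  · -- primitivity
    have hone : ∀ P : (↥(RE A E))[X], P.coeff m0 = 1 →
        (P.map (reToS0 A E)).map (resS A E) ≠ 0 := by
      intro P hP h0
      have := congrArg (fun q => q.coeff m0) h0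
      simp only [Polynomial.coeff_map, hP, map_one, Polynomial.coeff_zero] at this
      exact one_ne_zero this
    rcases Fin.eq_zero_or_eq_succ i0 with h0 | ⟨i, hi⟩
    · left
      exact hone _ (h0 ▸ h1)
    · right
      exact ⟨i, hone _ (hi ▸ h1)⟩
  · -- the relation
    have hE : H516.evJ ((H' 0).map (RE A E).subtype) * g =
        ∑ i, H516.evJ ((H' i.succ).map (RE A E).subtype) *
          coeffMap (Int.castRingHom ↥E) (y i) := by
      rw [hq, H516.evJ_mul, mul_assoc, hrel, Finset.mul_sum]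
      refine Finset.sum_congr rfl fun i _ => ?_
      rw [hp i, H516.evJ_mul, mul_assoc]
    apply Subtype.ext
    have hy : ∀ i, iotaE E (coeffMap (Int.castRingHom ↥E) (y i)) =
        ((toOm M A E (yInt A E hS i) : Om M) : LaurentSeries Qb) := by
      intro i
      rw [coe_toOm_yInt, coeffMap_coeffMap]
      exact coeffMap_congr (RingHom.ext_int _ _) _
    have h2 := congrArg (iotaE E) hE
    rw [map_mul, map_sum, hgf, ← coe_toOm_Uev_map M] at h2
    rw [map_sum]
    push_cast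
    rw [h2]
    refine Finset.sum_congr rfl fun i _ => ?_
    rw [map_mul, hy, ← coe_toOm_Uev_map M, map_mul]
    rfl

end Fermat.Agent.S18.Mod.H216

end
end
-- ===== PACK-END S18/Mod/H216/Basis.lean

-- ===== PACK-BEGIN S22/H262/FG.lean
section


set_option autoImplicit false

/-!
# The period lattice is finitely generated
-/

open Complex Filter Function Metric Set
open UpperHalfPlane hiding I
open scoped Real Topology Manifold ModularForm MatrixGroups

namespace Fermat.Agent.S22.H262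

open Matrix.SpecialLinearGroup CuspForm

variable {N : ℕ} [NeZero N] {n : ℕ}

/-- An element of `SL₂(ℤ)` as an element of the submonoid `posInt`. -/
noncomputable def sl (g : SL(2, ℤ)) : posInt := ⟨mapGL ℝ g, mapGL_mem_posInt g⟩

@[simp] theorem coe_sl (g : SL(2, ℤ)) : ((sl g : posInt) : GL (Fin 2) ℝ) = mapGL ℝ g := rfl

theorem sl_mul (g h : SL(2, ℤ)) : sl (g * h) = sl g * sl h :=
  Subtype.ext (by simp)

theorem sl_one : sl 1 = 1 := Subtype.ext (by simp)

/-- The functional `f ↦ (tower (f|B) r)(i)`. -/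
noncomputable def mu (N : ℕ) [NeZero N] (n : ℕ) (B : posInt) (r : ℕ) :
    Module.Dual ℂ (CuspForm (CongruenceSubgroup.Gamma0 N) ((n : ℤ) + 2)) where
  toFun f := tower (⇑f ∣[(n : ℤ) + 2] (B : GL (Fin 2) ℝ)) r UpperHalfPlane.I
  map_add' f g := by
    rw [FunLike.coe_add, SlashAction.add_slash,
      tower_add (hasTower_slash_posInt f B.2) (hasTower_slash_posInt g B.2)]
    rfl
  map_smul' c f := by
    rw [FunLike.coe_smul, smul_slash_pos _ B.2.2, tower_smul (hasTower_slash_posInt f B.2)]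
    rfl

theorem mu_apply (B : posInt) (r : ℕ)
    (f : CuspForm (CongruenceSubgroup.Gamma0 N) ((n : ℤ) + 2)) :
    mu N n B r f = tower (⇑f ∣[(n : ℤ) + 2] (B : GL (Fin 2) ℝ)) r UpperHalfPlane.I := rfl

theorem mu_sl_mul_of_mem {γ : SL(2, ℤ)} (hγ : γ ∈ CongruenceSubgroup.Gamma0 N) (g : SL(2, ℤ))
    (r : ℕ) : mu N n (sl (γ * g)) r = mu N n (sl g) r := by
  ext f
  rw [mu_apply, mu_apply, coe_sl, coe_sl, map_mul, SlashAction.slash_mul]
  have h2 : ⇑f ∣[(n : ℤ) + 2] (mapGL ℝ γ) = ⇑f :=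
    SlashInvariantFormClass.slash_action_eq f _ ⟨γ, hγ, rfl⟩
  rw [h2]

theorem finite_range_mu (r : ℕ) :
    (Set.range fun g : SL(2, ℤ) => mu N n (sl g) r).Finite := by
  let Ψ : SL(2, ℤ) ⧸ CongruenceSubgroup.Gamma0 N →
      Module.Dual ℂ (CuspForm (CongruenceSubgroup.Gamma0 N) ((n : ℤ) + 2)) :=
    fun q => Quotient.liftOn' q (fun g => mu N n (sl g⁻¹) r) (by
      intro a b hab
      rw [QuotientGroup.leftRel_apply] at hab
      have : a⁻¹ = (a⁻¹ * b) * b⁻¹ := by group
      show mu N n (sl a⁻¹) r = mu N n (sl b⁻¹) r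
      rw [this, mu_sl_mul_of_mem hab])
  refine (Set.finite_range Ψ).subset ?_
  rintro _ ⟨g, rfl⟩
  refine ⟨QuotientGroup.mk g⁻¹, ?_⟩
  show mu N n (sl g⁻¹⁻¹) r = _
  rw [inv_inv]

/-- The finite generating set of the container lattice. -/
def muSet (N : ℕ) [NeZero N] (n : ℕ) :
    Set (Module.Dual ℂ (CuspForm (CongruenceSubgroup.Gamma0 N) ((n : ℤ) + 2))) :=
  ⋃ r ∈ Finset.range (n + 2),
    ((Set.range fun g : SL(2, ℤ) => mu N n (sl g) r) ∪
      (fun l => Complex.I • l) '' (Set.range fun g : SL(2, ℤ) => mu N n (sl g) r))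

theorem muSet_finite : (muSet N n).Finite := by
  unfold muSet
  refine Set.Finite.biUnion (Finset.finite_toSet _) fun r _ => ?_
  exact (finite_range_mu r).union ((finite_range_mu r).image _)

/-- The container lattice. -/
noncomputable def container (N : ℕ) [NeZero N] (n : ℕ) :
    Submodule ℤ (Module.Dual ℂ (CuspForm (CongruenceSubgroup.Gamma0 N) ((n : ℤ) + 2))) :=
  Submodule.span ℤ (muSet N n)

theorem container_fg : (container N n).FG := Submodule.fg_span muSet_finite

theorem mu_mem_container (g : SL(2, ℤ)) {r : ℕ} (hr : r < n + 2) :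
    mu N n (sl g) r ∈ container N n := by
  apply Submodule.subset_span
  simp only [muSet, Set.mem_iUnion]
  exact ⟨r, Finset.mem_range.mpr hr, Or.inl ⟨g, rfl⟩⟩

theorem I_smul_mu_mem_container (g : SL(2, ℤ)) {r : ℕ} (hr : r < n + 2) :
    Complex.I • mu N n (sl g) r ∈ container N n := by
  apply Submodule.subset_span
  simp only [muSet, Set.mem_iUnion]
  exact ⟨r, Finset.mem_range.mpr hr, Or.inr ⟨_, ⟨g, rfl⟩, rfl⟩⟩

/-- Gaussian integers inside `ℂ`. -/
def IsGauss (z : ℂ) : Prop := ∃ a b : ℤ, z = a + b * Complex.I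

theorem IsGauss.mul {z w : ℂ} (hz : IsGauss z) (hw : IsGauss w) : IsGauss (z * w) := by
  obtain ⟨a, b, rfl⟩ := hz
  obtain ⟨c, d, rfl⟩ := hw
  refine ⟨a * c - b * d, a * d + b * c, ?_⟩
  push_cast
  linear_combination (b : ℂ) * d * Complex.I_sq

theorem isGauss_one : IsGauss 1 := ⟨1, 0, by simp⟩

theorem IsGauss.pow {z : ℂ} (hz : IsGauss z) (m : ℕ) : IsGauss (z ^ m) := by
  induction m with
  | zero => simpa using isGauss_one
  | succ m ih => rw [pow_succ]; exact ih.mul hz

theorem isGauss_int (x : ℤ) : IsGauss x := ⟨x, 0, by simp⟩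

theorem isGauss_nat (x : ℕ) : IsGauss x := ⟨x, 0, by simp⟩

theorem isGauss_sub_I_mul (x y : ℤ) : IsGauss ((x : ℂ) - Complex.I * y) :=
  ⟨x, -y, by push_cast; ring⟩

/-- `bigG n E i v` for an integer vector `v` is a Gaussian-integer combination of the tower
values at `i`, with coefficients independent of the tower. -/
theorem bigG_I_eq (n : ℕ) {v : ℂ × ℂ} (hv : v ∈ Vint) :
    ∃ a b : ℕ → ℤ, ∀ E : ℕ → ℍ → ℂ, bigG n E UpperHalfPlane.I v =
      ∑ j ∈ Finset.range (n + 1), ((a j : ℂ) * E (j + 1) UpperHalfPlane.I +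
        (b j : ℂ) * (Complex.I * E (j + 1) UpperHalfPlane.I)) := by
  obtain ⟨x, y, rfl⟩ := hv
  have key : ∀ j : ℕ, IsGauss ((n.descFactorial j : ℂ) *
      (((x : ℂ) - Complex.I * y) ^ (n - j) * (y : ℂ) ^ j)) := fun j =>
    (isGauss_nat _).mul (((isGauss_sub_I_mul x y).pow _).mul ((isGauss_int y).pow _))
  choose a b hab using key
  refine ⟨a, b, fun E => ?_⟩
  unfold bigG
  refine Finset.sum_congr rfl fun j _ => ?_
  have := hab j
  simp only [UpperHalfPlane.coe_I] at *
  linear_combination E (j + 1) UpperHalfPlane.I * this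

/-- The functional `f ↦ bigG n (tower (f|g)) i v` lies in the container lattice. -/
theorem exists_mem_container_bigG (g : SL(2, ℤ)) {v : ℂ × ℂ} (hv : v ∈ Vint) :
    ∃ l ∈ container N n, ∀ f : CuspForm (CongruenceSubgroup.Gamma0 N) ((n : ℤ) + 2),
      l f = bigG n (tower (⇑f ∣[(n : ℤ) + 2] (mapGL ℝ g))) UpperHalfPlane.I v := by
  obtain ⟨a, b, hab⟩ := bigG_I_eq n hv
  refine ⟨∑ j ∈ Finset.range (n + 1),
    (a j • mu N n (sl g) (j + 1) + b j • (Complex.I • mu N n (sl g) (j + 1))), ?_, fun f => ?_⟩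
  · refine Submodule.sum_mem _ fun j hj => ?_
    have hj' : j + 1 < n + 2 := by
      have := Finset.mem_range.mp hj
      omega
    exact Submodule.add_mem _ (Submodule.smul_mem _ _ (mu_mem_container g hj'))
      (Submodule.smul_mem _ _ (I_smul_mu_mem_container g hj'))
  · rw [hab]
    simp only [LinearMap.sum_apply, LinearMap.add_apply, LinearMap.smul_apply, mu_apply, coe_sl,
      smul_eq_mul, zsmul_eq_mul]

theorem mapGL_apply_entry (g : SL(2, ℤ)) (i j : Fin 2) :
    (mapGL ℝ g : GL (Fin 2) ℝ) i j = ((g.1 i j : ℤ) : ℝ) := by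
  simp

theorem mapGL_S_smul_I : (mapGL ℝ ModularGroup.S : GL (Fin 2) ℝ) • UpperHalfPlane.I =
    UpperHalfPlane.I := by
  apply UpperHalfPlane.ext
  rw [coe_smul_of_det_pos (mapGL_mem_posInt _).2]
  have h00 : (mapGL ℝ ModularGroup.S : GL (Fin 2) ℝ) 0 0 = 0 := by
    rw [mapGL_apply_entry, ModularGroup.coe_S]; simp
  have h01 : (mapGL ℝ ModularGroup.S : GL (Fin 2) ℝ) 0 1 = -1 := by
    rw [mapGL_apply_entry, ModularGroup.coe_S]; simp
  have h10 : (mapGL ℝ ModularGroup.S : GL (Fin 2) ℝ) 1 0 = 1 := by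
    rw [mapGL_apply_entry, ModularGroup.coe_S]; simp
  have h11 : (mapGL ℝ ModularGroup.S : GL (Fin 2) ℝ) 1 1 = 0 := by
    rw [mapGL_apply_entry, ModularGroup.coe_S]; simp
  simp only [num, denom, h00, h01, h10, h11, UpperHalfPlane.coe_I]
  push_cast
  rw [zero_mul, zero_add, one_mul, add_zero, neg_div, one_div, Complex.inv_I, neg_neg]

theorem mapGL_T_one_zero : (mapGL ℝ ModularGroup.T : GL (Fin 2) ℝ) 1 0 = 0 := by
  rw [mapGL_apply_entry, ModularGroup.coe_T]; simp

/-- Slashing by a product in `SL₂(ℤ)`. -/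
theorem slash_sl_mul (h : ℍ → ℂ) (k : ℤ) (x y : SL(2, ℤ)) :
    h ∣[k] (mapGL ℝ (x * y) : GL (Fin 2) ℝ) =
      (h ∣[k] (mapGL ℝ x : GL (Fin 2) ℝ)) ∣[k] (mapGL ℝ y : GL (Fin 2) ℝ) := by
  rw [map_mul, SlashAction.slash_mul]

theorem lamG_sl_mem_container (g : SL(2, ℤ)) :
    ∀ (g₀ : SL(2, ℤ)) (w : ℂ × ℂ), w ∈ Vint → lamG N n (sl g₀) (sl g) w ∈ container N n := by
  have hg : g ∈ Subgroup.closure ({ModularGroup.S, ModularGroup.T} : Set SL(2, ℤ)) := by
    rw [SpecialLinearGroup.SL2Z_generators]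
    exact Subgroup.mem_top g
  induction hg using Subgroup.closure_induction with
  | mem x hx =>
    intro g₀ w hw
    rcases hx with rfl | rfl
    · -- `S`
      obtain ⟨l₁, hl₁, h₁⟩ := exists_mem_container_bigG (N := N) (n := n) g₀
        (actV_mem_Vint (mapGL_mem_posInt ModularGroup.S) hw)
      obtain ⟨l₂, hl₂, h₂⟩ := exists_mem_container_bigG (N := N) (n := n)
        (g₀ * ModularGroup.S) hw
      have : lamG N n (sl g₀) (sl ModularGroup.S) w = l₁ - l₂ := by
        ext f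
        rw [lamG_apply, LinearMap.sub_apply, h₁, h₂, cocyc, coe_sl, coe_sl, mapGL_S_smul_I,
          slash_sl_mul]
      rw [this]
      exact Submodule.sub_mem _ hl₁ hl₂
    · -- `T`
      have : lamG N n (sl g₀) (sl ModularGroup.T) w = 0 := by
        ext f
        rw [lamG_apply, LinearMap.zero_apply]
        exact cocyc_upper n (hasTower_slash_posInt f (sl g₀).2) _
          (mapGL_mem_posInt ModularGroup.T).2 mapGL_T_one_zero w
      rw [this]
      exact Submodule.zero_mem _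
  | one =>
    intro g₀ w _
    have : lamG N n (sl g₀) (sl 1) w = 0 := by
      ext f
      rw [lamG_apply, LinearMap.zero_apply]
      exact cocyc_upper n (hasTower_slash_posInt f (sl g₀).2) _
        (mapGL_mem_posInt 1).2 (by simp) w
    rw [this]
    exact Submodule.zero_mem _
  | mul x y _ _ hx hy =>
    intro g₀ w hw
    have : lamG N n (sl g₀) (sl (x * y)) w =
        lamG N n (sl g₀) (sl x) (actV (mapGL ℝ y) w) + lamG N n (sl (g₀ * x)) (sl y) w := by
      ext f
      rw [LinearMap.add_apply, lamG_apply, lamG_apply, lamG_apply, coe_sl, coe_sl, coe_sl,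
        coe_sl, coe_sl, map_mul, cocyc_mul n _ _ (mapGL_mem_posInt x).2 (mapGL_mem_posInt y).2
          (hasTower_slash_posInt f (mapGL_mem_posInt g₀))
          (hasTower_slash_slash f (mapGL_mem_posInt g₀) (mapGL_mem_posInt x))
          (hasTower_slash_slash f (mapGL_mem_posInt g₀)
            (mul_mem (mapGL_mem_posInt x) (mapGL_mem_posInt y))),
        map_mul, SlashAction.slash_mul]
    rw [this]
    exact Submodule.add_mem _ (hx g₀ _ (actV_mem_Vint (mapGL_mem_posInt y) hw))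
      (hy (g₀ * x) w hw)
  | inv x _ hx =>
    intro g₀ w hw
    have : lamG N n (sl g₀) (sl x⁻¹) w =
        - lamG N n (sl (g₀ * x⁻¹)) (sl x) (actV (mapGL ℝ x⁻¹) w) := by
      ext f
      rw [LinearMap.neg_apply, lamG_apply, lamG_apply, coe_sl, coe_sl, coe_sl, coe_sl]
      have hmul := cocyc_mul n (h := ⇑f ∣[(n : ℤ) + 2] (mapGL ℝ (g₀ * x⁻¹) : GL (Fin 2) ℝ))
        (mapGL ℝ x) (mapGL ℝ x⁻¹) (mapGL_mem_posInt x).2 (mapGL_mem_posInt x⁻¹).2
        (hasTower_slash_posInt f (mapGL_mem_posInt _))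
        (hasTower_slash_slash f (mapGL_mem_posInt _) (mapGL_mem_posInt x))
        (hasTower_slash_slash f (mapGL_mem_posInt _)
            (mul_mem (mapGL_mem_posInt x) (mapGL_mem_posInt x⁻¹))) w
      have h1 : (mapGL ℝ x : GL (Fin 2) ℝ) * mapGL ℝ x⁻¹ = 1 := by
        rw [← map_mul, mul_inv_cancel, map_one]
      have h2 : (⇑f ∣[(n : ℤ) + 2] (mapGL ℝ (g₀ * x⁻¹) : GL (Fin 2) ℝ)) ∣[(n : ℤ) + 2]
          (mapGL ℝ x : GL (Fin 2) ℝ) = ⇑f ∣[(n : ℤ) + 2] (mapGL ℝ g₀ : GL (Fin 2) ℝ) := by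
        rw [← slash_sl_mul, inv_mul_cancel_right]
      rw [h1, h2, cocyc_upper n (hasTower_slash_posInt f (mapGL_mem_posInt _)) 1
        (by simp) (by simp)] at hmul
      linear_combination -hmul
    rw [this]
    exact Submodule.neg_mem _ (hx (g₀ * x⁻¹) _ (actV_mem_Vint (mapGL_mem_posInt x⁻¹) hw))

theorem lam_mem_container (A : posInt) {v : ℂ × ℂ} (hv : v ∈ Vint) :
    lam N n A v ∈ container N n := by
  obtain ⟨g, δ, hδ, h10, hA⟩ := exists_mapGL_mul_upper A.2
  have : lam N n A v = lamG N n (sl 1) (sl g) (actV δ v) := by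
    ext f
    rw [lam_apply, lamG_apply, coe_sl, coe_sl, map_one, SlashAction.slash_one, hA,
      cocyc_mul n _ _ (mapGL_mem_posInt g).2 hδ.2 (hasTower_cuspForm f)
        (hasTower_slash_posInt f (mapGL_mem_posInt g))
        (hasTower_slash_posInt f (mul_mem (mapGL_mem_posInt g) hδ)),
      cocyc_upper n (hasTower_slash_posInt f (mapGL_mem_posInt g)) δ hδ.2 h10, add_zero]
  rw [this]
  exact lamG_sl_mem_container g 1 _ (actV_mem_Vint hδ hv)

theorem periodLattice_le_container : periodLattice N n ≤ container N n := by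
  apply Submodule.span_le.mpr
  rintro _ ⟨A, v, hv, rfl⟩
  exact lam_mem_container A hv

/-- The period lattice is finitely generated. -/
theorem periodLattice_fg : (periodLattice N n).FG := by
  have : IsNoetherian ℤ (container N n) := isNoetherian_of_fg_of_noetherian _ container_fg
  exact Submodule.FG.of_le_of_isNoetherian periodLattice_le_container

end Fermat.Agent.S22.H262

end
-- ===== PACK-END S22/H262/FG.lean

-- ===== PACK-BEGIN S22/H262/Sep.lean
section



set_option autoImplicit false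

/-!
# The period lattice separates points
-/

open Complex Filter Function Metric Set
open UpperHalfPlane hiding I
open scoped Real Topology Manifold ModularForm MatrixGroups

namespace Fermat.Agent.S22.H262

open Matrix.SpecialLinearGroup CuspForm

variable {N : ℕ} [NeZero N] {n : ℕ}

/-- `x ↦ bigG n E w (a x + b, c x + d)` is a polynomial function. -/
theorem bigG_polynomial (n : ℕ) (E : ℕ → ℍ → ℂ) (w : ℍ) (a b c d : ℂ) :
    ∃ P : Polynomial ℂ, ∀ x : ℂ, P.eval x = bigG n E w (a * x + b, c * x + d) := by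
  refine ⟨∑ j ∈ Finset.range (n + 1), Polynomial.C ((n.descFactorial j : ℂ) * E (j + 1) w) *
    (Polynomial.C a * Polynomial.X + Polynomial.C b -
      Polynomial.C (w : ℂ) * (Polynomial.C c * Polynomial.X + Polynomial.C d)) ^ (n - j) *
    (Polynomial.C c * Polynomial.X + Polynomial.C d) ^ j, fun x => ?_⟩
  simp [bigG, Polynomial.eval_finset_sum]

theorem infinite_int_cast_complex : Set.Infinite (Set.range (fun x : ℤ => (x : ℂ))) :=
  Set.infinite_range_of_injective Int.cast_injective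

/-- If the tower at level `r + 1` vanishes then so does the level `r`. -/
theorem IsTower.eq_zero_of_succ {h : ℍ → ℂ} {E : ℕ → ℍ → ℂ} (hE : IsTower h E) (r : ℕ)
    (h0 : E (r + 1) = 0) : E r = 0 := by
  funext z
  have h1 := hE.hasDeriv r z
  rw [h0] at h1
  have h2 : HasDerivAt ((0 : ℍ → ℂ) ∘ ofComplex) 0 (z : ℂ) := by
    have : ((0 : ℍ → ℂ) ∘ ofComplex) = fun _ => (0 : ℂ) := rfl
    rw [this]
    exact hasDerivAt_const _ _
  exact h1.unique h2

theorem IsTower.eq_zero_of_top {h : ℍ → ℂ} {E : ℕ → ℍ → ℂ} (hE : IsTower h E) (r : ℕ)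
    (h0 : E r = 0) : h = 0 := by
  induction r with
  | zero => rw [← hE.zero, h0]
  | succ r ih => exact ih (hE.eq_zero_of_succ r h0)

/-- If the cocycle of `f` at `g ∈ SL₂(ℤ)` vanishes on integer vectors then the top of the tower
transforms like a form of weight `-n`. -/
theorem tower_top_slash (f : CuspForm (CongruenceSubgroup.Gamma0 N) ((n : ℤ) + 2))
    (g : SL(2, ℤ))
    (h : ∀ v ∈ Vint, cocyc n (⇑f) (mapGL ℝ g) v = 0) :
    (tower (⇑f) (n + 1)) ∣[-(n : ℤ)] g = tower (⇑f ∣[(n : ℤ) + 2] (mapGL ℝ g)) (n + 1) := by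
  funext z
  have hg : (mapGL ℝ g : GL (Fin 2) ℝ) ∈ posInt := mapGL_mem_posInt g
  have hT := hasTower_cuspForm f
  have hTg := hasTower_slash_posInt f hg
  -- the polynomial identity
  obtain ⟨P₁, hP₁⟩ := bigG_polynomial n (tower (⇑f)) ((mapGL ℝ g : GL (Fin 2) ℝ) • z)
    (((mapGL ℝ g : GL (Fin 2) ℝ) 0 0 : ℝ) : ℂ) (((mapGL ℝ g : GL (Fin 2) ℝ) 0 1 : ℝ) : ℂ)
    (((mapGL ℝ g : GL (Fin 2) ℝ) 1 0 : ℝ) : ℂ) (((mapGL ℝ g : GL (Fin 2) ℝ) 1 1 : ℝ) : ℂ)
  obtain ⟨P₂, hP₂⟩ := bigG_polynomial n (tower (⇑f ∣[(n : ℤ) + 2] (mapGL ℝ g))) z 1 0 0 1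
  have hroot : ∀ x : ℤ, (P₁ - P₂).IsRoot (x : ℂ) := by
    intro x
    have hv : (((x : ℂ), (1 : ℂ)) : ℂ × ℂ) ∈ Vint := ⟨x, 1, by simp⟩
    have h1 := h _ hv
    rw [cocyc_eq n _ hg.2 hT hTg _ z] at h1
    rw [Polynomial.IsRoot, Polynomial.eval_sub, hP₁, hP₂]
    simpa [actV] using h1
  have hzero : P₁ - P₂ = 0 := by
    apply Polynomial.eq_zero_of_infinite_isRoot
    refine infinite_int_cast_complex.mono ?_
    rintro _ ⟨x, rfl⟩
    exact hroot x
  have hz : P₁.eval (z : ℂ) = P₂.eval (z : ℂ) := by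
    have := congrArg (Polynomial.eval (z : ℂ)) hzero
    simpa [sub_eq_zero] using this
  rw [hP₁, hP₂] at hz
  -- evaluate both sides on the diagonal
  have hnum : (((mapGL ℝ g : GL (Fin 2) ℝ) 0 0 : ℝ) : ℂ) * (z : ℂ) +
      (((mapGL ℝ g : GL (Fin 2) ℝ) 0 1 : ℝ) : ℂ) =
      (((mapGL ℝ g : GL (Fin 2) ℝ) • z : ℍ) : ℂ) * denom (mapGL ℝ g : GL (Fin 2) ℝ) z := by
    rw [coe_smul_of_det_pos hg.2, div_mul_cancel₀ _ (denom_ne_zero _ z)]
    rfl
  have hden : (((mapGL ℝ g : GL (Fin 2) ℝ) 1 0 : ℝ) : ℂ) * (z : ℂ) +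
      (((mapGL ℝ g : GL (Fin 2) ℝ) 1 1 : ℝ) : ℂ) = denom (mapGL ℝ g : GL (Fin 2) ℝ) z := rfl
  rw [hnum, hden, bigG_diag] at hz
  have h2 : ((1 : ℂ) * (z : ℂ) + 0, (0 : ℂ) * (z : ℂ) + 1) = ((z : ℂ) * 1, (1 : ℂ)) := by simp
  rw [h2, bigG_diag] at hz
  have hfact : (n.factorial : ℂ) ≠ 0 := by exact_mod_cast n.factorial_ne_zero
  rw [ModularForm.SL_slash_apply]
  have hz' : tower (⇑f) (n + 1) ((mapGL ℝ g : GL (Fin 2) ℝ) • z) *
      denom (mapGL ℝ g : GL (Fin 2) ℝ) z ^ n =
      tower (⇑f ∣[(n : ℤ) + 2] (mapGL ℝ g)) (n + 1) z := by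
    apply mul_left_cancel₀ hfact
    rw [← mul_assoc, hz]
    simp
  rw [neg_neg, zpow_natCast]
  exact hz'

/-- The period lattice separates points. -/
theorem periodLattice_separating (f : CuspForm (CongruenceSubgroup.Gamma0 N) ((n : ℤ) + 2))
    (h : ∀ l ∈ periodLattice N n, l f = 0) : f = 0 := by
  have hc : ∀ (g : SL(2, ℤ)), ∀ v ∈ Vint, cocyc n (⇑f) (mapGL ℝ g) v = 0 := by
    intro g v hv
    have := h _ (lam_mem_periodLattice ⟨mapGL ℝ g, mapGL_mem_posInt g⟩ hv)
    rwa [lam_apply] at this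
  have hT := hasTower_cuspForm f
  have hF : tower (⇑f) (n + 1) = 0 := by
    apply eq_zero_of_weight_nonpos N (k := -(n : ℤ)) (by omega)
    · exact hT.isTower.mdiff n
    · rintro γ ⟨g, hg, rfl⟩
      have h1 := tower_top_slash f g (hc g)
      have h2 : ⇑f ∣[(n : ℤ) + 2] (mapGL ℝ g) = ⇑f :=
        SlashInvariantFormClass.slash_action_eq f _ ⟨g, hg, rfl⟩
      rw [h2] at h1
      exact h1
    · intro g
      rw [tower_top_slash f g (hc g)]
      exact (hasTower_slash_posInt f (mapGL_mem_posInt g)).isTower.isZero n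
  have : (⇑f : ℍ → ℂ) = 0 := hT.isTower.eq_zero_of_top (n + 1) hF
  exact DFunLike.coe_injective this

end Fermat.Agent.S22.H262

end
-- ===== PACK-END S22/H262/Sep.lean

-- ===== PACK-BEGIN S22.lean
section
-- Template for statement S22 (row 21; see the milestone table for weights).
-- The statement below is byte-identical to the frozen
-- statement CuspForm.FermatFrozen.S22 (Fermat/Statements/S22.lean; the theorem CuspForm.moduleFinite_heckeAlgebra);
-- the grader kernel-checks Fermat.Agent.S22.result against that frozen type.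






set_option autoImplicit false
open CuspForm

namespace Fermat.Agent.S22

theorem result (N : ℕ) [NeZero N] (k : ℤ) (S : Set ℕ) :
    Module.Finite ℤ (CuspForm.heckeAlgebra N k S) := by
  by_cases hk : k ≤ 1
  · exact H262.moduleFinite_heckeAlgebra_of_subsingleton (H262.cuspForm_eq_zero_of_le_one hk)
  · obtain ⟨n, rfl⟩ : ∃ n : ℕ, k = (n : ℤ) + 2 := ⟨(k - 2).toNat, by omega⟩
    exact H262.moduleFinite_heckeAlgebra_of_lattice (H262.periodLattice N n)
      H262.periodLattice_fg (H262.periodLattice_stable S) H262.periodLattice_separating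

end Fermat.Agent.S22

end
-- ===== PACK-END S22.lean

-- ===== PACK-BEGIN Lib/HFree/H412/Main.lean
section



/-!
# HFree: parabolic characters of `Γ₀(N)` modulo `m` lift to `ℤ`

In the language of `Fermat.Agent.S29.DefsM` (`G0 N`, `IsParHom`):

* `exists_lift_isParHom` : every parabolic character `c : Γ₀(N) → ℤ/m` is the reduction of a
  parabolic character `c' : Γ₀(N) → ℤ`.
* `exists_eq_nsmul_of_red_eq_zero` : a parabolic `ℤ`-valued character which vanishes modulo `m` is
  `m` times a parabolic character.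

Together: `Hom_par(Γ₀(N), ℤ/m) = Hom_par(Γ₀(N), ℤ) ⊗ ℤ/m`, i.e. `H₁(X₀(N), ℤ)` is torsion-free.
Consequences (with the Kummer dictionary `J₀(N)[m] ≅ Hom_par(Γ₀(N), ℤ/m)` of rows S29/S30):
`J₀(N)[m] ≅ (ℤ/m)^{2g}`, `J₀(N)[p^∞]` is divisible, and every Hecke eigensystem occurring in
`J₀(N)[p]` lifts to characteristic `0` (Deligne–Serre).
-/

set_option autoImplicit false

open scoped MatrixGroups
open ModularGroup

namespace Fermat.Agent.Lib.HFree.H412

open Fermat.Agent.S29 (G0 IsParHom)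

theorem neg_one_mem_Gamma0_HFree (N : ℕ) : (-1 : SL(2, ℤ)) ∈ CongruenceSubgroup.Gamma0 N := by
  rw [CongruenceSubgroup.Gamma0_mem]
  simp

/-- `ℤ`-valued additive characters kill elements of finite order. -/
theorem eq_zero_of_pow_eq_one {G : Type*} [Group G] {c : G → ℤ}
    (hc : ∀ γ γ' : G, c (γ * γ') = c γ + c γ') (γ : G) (n : ℕ) (hn : 0 < n) (hγ : γ ^ n = 1) :
    c γ = 0 := by
  have h1 : c 1 = 0 := by
    have h := hc 1 1
    rw [mul_one] at h
    omega
  have hpow : ∀ k : ℕ, c (γ ^ k) = k * c γ := by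
    intro k
    induction k with
    | zero => simp [h1]
    | succ k ih =>
      rw [pow_succ, hc, ih]
      push_cast
      ring
  have h2 := hpow n
  rw [hγ, h1] at h2
  have hn' : (n : ℤ) ≠ 0 := by exact_mod_cast hn.ne'
  exact (mul_eq_zero.mp h2.symm).resolve_left hn'

/-- **HFree.** Every parabolic character of `Γ₀(N)` modulo `m` lifts to a parabolic character
with values in `ℤ`. -/
theorem exists_lift_isParHom (N : ℕ) [NeZero N] (m : ℕ) [NeZero m] (c : G0 N → ZMod m)
    (hc : IsParHom c) :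
    ∃ c' : G0 N → ℤ, IsParHom c' ∧ ∀ γ : G0 N, ((c' γ : ℤ) : ZMod m) = c γ := by
  obtain ⟨c', hc', hpar, hred⟩ := exists_lift_addChar (Γ := CongruenceSubgroup.Gamma0 N)
    (neg_one_mem_Gamma0_HFree N) m c hc.map_mul hc.elliptic
    (fun γ hγ => hc.parabolic γ (Or.inl hγ))
  exact ⟨c', ⟨hc', hpar, fun γ n hn hγ => eq_zero_of_pow_eq_one hc' γ n hn hγ⟩, hred⟩

/-- A parabolic `ℤ`-valued character which vanishes modulo `m` is `m` times a parabolic
character. -/
theorem exists_eq_nsmul_of_red_eq_zero (N : ℕ) (m : ℕ) [NeZero m] (c : G0 N → ℤ)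
    (hc : IsParHom c) (h0 : ∀ γ : G0 N, ((c γ : ℤ) : ZMod m) = 0) :
    ∃ c' : G0 N → ℤ, IsParHom c' ∧ ∀ γ : G0 N, c γ = m * c' γ := by
  have hm0 : (m : ℤ) ≠ 0 := by exact_mod_cast NeZero.ne m
  have hdvd : ∀ γ : G0 N, ∃ e : ℤ, c γ = m * e := fun γ =>
    (ZMod.intCast_zmod_eq_zero_iff_dvd (c γ) m).mp (h0 γ)
  choose c' hc' using hdvd
  refine ⟨c', ⟨fun γ γ' => ?_, fun γ hγ => ?_, fun γ n hn hγ => ?_⟩, hc'⟩
  · apply mul_left_cancel₀ hm0
    rw [mul_add, ← hc', ← hc', ← hc', hc.map_mul]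
  · apply mul_left_cancel₀ hm0
    rw [← hc', mul_zero, hc.parabolic γ hγ]
  · apply mul_left_cancel₀ hm0
    rw [← hc', mul_zero, hc.elliptic γ n hn hγ]

/-- The reduction modulo `m` of a parabolic character is parabolic. -/
theorem isParHom_red (N : ℕ) (m : ℕ) (c : G0 N → ℤ) (hc : IsParHom c) :
    IsParHom (fun γ => ((c γ : ℤ) : ZMod m)) :=
  ⟨fun γ γ' => by rw [hc.map_mul]; push_cast; rfl,
   fun γ hγ => by rw [hc.parabolic γ hγ]; simp,
   fun γ n hn hγ => by rw [hc.elliptic γ n hn hγ]; simp⟩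

end Fermat.Agent.Lib.HFree.H412

end
-- ===== PACK-END Lib/HFree/H412/Main.lean

-- ===== PACK-BEGIN S21/H544/IntCMain.lean
section


/-!
# S21 INT-C (helper544): the unfolding identity, with the INT-A facts on `chi` as hypotheses
-/

set_option autoImplicit false

open UpperHalfPlane CongruenceSubgroup Filter Topology MeasureTheory
open scoped MatrixGroups ComplexConjugate ContDiff

namespace Fermat.Agent.S21.H544

open Fermat.Agent.S21

variable (N : ℕ) {χ₁ : ℂ → ℝ}

theorem chi_eq_zero_of_notMem {z : ℂ} (hz : z ∉ Uhp) : chi N χ₁ z = 0 := by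
  unfold chi
  exact Set.indicator_of_notMem hz _

theorem measurableSet_Uhp : MeasurableSet Uhp := isOpen_Uhp.measurableSet

theorem continuousOn_dens {u η : ℂ → ℝ} (hu : ContDiffOn ℝ 1 u Uhp) (hη : ContDiff ℝ ∞ η) :
    ContinuousOn (dens u η) Uhp := by
  have h1 := hu.continuousOn_fderiv_of_isOpen isOpen_Uhp le_rfl
  have h2 : Continuous (fderiv ℝ η) := hη.continuous_fderiv (by simp)
  unfold dens
  exact ((h1.clm_apply continuousOn_const).mul (h2.continuousOn.clm_apply continuousOn_const)).add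
    ((h1.clm_apply continuousOn_const).mul (h2.continuousOn.clm_apply continuousOn_const))

theorem integrableOn_Uhp_of_continuousOn {f : ℂ → ℝ} (hf : ContinuousOn f Uhp) {K : Set ℂ}
    (hK : IsCompact K) (hKU : K ⊆ Uhp) (h0 : ∀ z ∈ Uhp, z ∉ K → f z = 0) :
    IntegrableOn f Uhp := by
  have h1 : IntegrableOn f K := (hf.mono hKU).integrableOn_compact hK
  exact h1.of_forall_sdiff_eq_zero measurableSet_Uhp (fun x hx => h0 x hx.1 hx.2)

/-- The translated density `z ↦ dens u η (γ z) / |cz+d|⁴`. -/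
noncomputable def phi (u η : ℂ → ℝ) (g : SL(2, ℤ)) (z : ℂ) : ℝ :=
  dens u η (mob g z) / ‖cd g z‖ ^ 4

theorem continuousOn_cd (g : SL(2, ℤ)) : ContinuousOn (cd g) Uhp := by
  unfold cd
  fun_prop

theorem continuousOn_phi {u η : ℂ → ℝ} (hu : ContDiffOn ℝ 1 u Uhp) (hη : ContDiff ℝ ∞ η)
    (g : SL(2, ℤ)) : ContinuousOn (phi u η g) Uhp := by
  unfold phi
  refine ContinuousOn.div ?_ ?_ ?_
  · exact (continuousOn_dens hu hη).comp (_root_.Fermat.Agent.S21.H544.continuousOn_mob g) (fun z _ => _root_.Fermat.Agent.S21.H544.mob_mem_Uhp g z)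
  · exact ((_root_.Fermat.Agent.S21.H544.continuousOn_cd g).norm).pow 4
  · intro z hz
    exact pow_ne_zero 4 (norm_ne_zero_iff.mpr (SmallAux.cd_ne_zero g hz))

theorem integrableOn_phi {u η : ℂ → ℝ} (hu : ContDiffOn ℝ 1 u Uhp) (hη : IsTest η)
    (g : SL(2, ℤ)) : IntegrableOn (phi u η g) Uhp := by
  refine integrableOn_Uhp_of_continuousOn (continuousOn_phi hu hη.1 g)
    (K := mob g⁻¹ '' tsupport η) ?_ ?_ ?_
  · exact hη.2.1.image_of_continuousOn ((_root_.Fermat.Agent.S21.H544.continuousOn_mob g⁻¹).mono hη.2.2)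
  · rintro _ ⟨w, _, rfl⟩
    exact _root_.Fermat.Agent.S21.H544.mob_mem_Uhp _ _
  · intro z hz hzK
    have : mob g z ∉ tsupport η := fun hmem => hzK ⟨mob g z, hmem, mob_inv_mob g hz⟩
    simp [phi, dens_eq_zero_of_notMem_tsupport this]

theorem integrableOn_dens {u η : ℂ → ℝ} (hu : ContDiffOn ℝ 1 u Uhp) (hη : IsTest η) :
    IntegrableOn (dens u η) Uhp :=
  integrableOn_Uhp_of_continuousOn (continuousOn_dens hu hη.1) hη.2.1 hη.2.2
    (fun _ _ hz => dens_eq_zero_of_notMem_tsupport hz)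

section Main

variable (hmeas : Measurable (chi N χ₁)) (h0 : ∀ z, 0 ≤ chi N χ₁ z)
  (h1 : ∀ z, chi N χ₁ z ≤ 1)

include hmeas h0 h1 in
theorem integrableOn_phi_mul_chi {u η : ℂ → ℝ} (hu : ContDiffOn ℝ 1 u Uhp) (hη : IsTest η)
    (g : SL(2, ℤ)) : IntegrableOn (fun z => phi u η g z * chi N χ₁ z) Uhp := by
  refine (integrableOn_phi hu hη g).mul_bdd (c := 1) hmeas.aestronglyMeasurable ?_
  filter_upwards with z
  rw [Real.norm_eq_abs, abs_le]
  exact ⟨by linarith [h0 z], h1 z⟩

include hmeas h0 h1 in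
theorem integrableOn_dens_mul_chi_mob {u η : ℂ → ℝ} (hu : ContDiffOn ℝ 1 u Uhp)
    (hη : IsTest η) (g : SL(2, ℤ)) :
    IntegrableOn (fun w => dens u η w * chi N χ₁ (mob g w)) Uhp := by
  refine (integrableOn_dens hu hη).mul_bdd (c := 1) ?_ ?_
  · have hm : AEMeasurable (mob g) (volume.restrict Uhp) :=
      (_root_.Fermat.Agent.S21.H544.continuousOn_mob g).aemeasurable measurableSet_Uhp
    exact (hmeas.comp_aemeasurable hm).aestronglyMeasurable
  · filter_upwards with z
    rw [Real.norm_eq_abs, abs_le]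
    exact ⟨by linarith [h0 (mob g z)], h1 _⟩

/-- Change of variables for one piece. -/
theorem setIntegral_phi_mul_chi (u η : ℂ → ℝ) (g : SL(2, ℤ)) :
    ∫ z in Uhp, phi u η g z * chi N χ₁ z
      = ∫ w in Uhp, dens u η w * chi N χ₁ (mob g⁻¹ w) := by
  have h := setIntegral_mob g Uhp measurableSet_Uhp subset_rfl
    (fun w => dens u η w * chi N χ₁ (mob g⁻¹ w))
  rw [mob_image_Uhp] at h
  rw [← h]
  refine setIntegral_congr_fun measurableSet_Uhp fun z hz => ?_
  simp only [phi, mob_inv_mob g hz]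
  ring

end Main

/-- **INT-C, hypothesis-explicit form**: the unfolding identity, with the needed facts about
`chi` (INT-A) as hypotheses. -/
theorem unfolding_of (hχ : IsSL2ZPartition χ₁)
    (hmeas : Measurable (chi N χ₁)) (h0 : ∀ z, 0 ≤ chi N χ₁ z) (h1 : ∀ z, chi N χ₁ z ≤ 1)
    (hlocfin : ∀ K : Set ℂ, IsCompact K → K ⊆ Uhp →
      {γ : Gamma0 N | ∃ z ∈ K, chi N χ₁ (mob (γ : SL(2, ℤ)) z) ≠ 0}.Finite)
    (hsum : ∀ z ∈ Uhp, ∑ᶠ γ : Gamma0 N, chi N χ₁ (mob (γ : SL(2, ℤ)) z) = 1)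
    (u : ℂ → ℝ) (hu : ContDiffOn ℝ 1 u Uhp)
    (hinv : ∀ γ : Gamma0 N, ∀ z ∈ Uhp,
      dz u (mob (γ : SL(2, ℤ)) z) = (cd (γ : SL(2, ℤ)) z) ^ 2 * dz u z)
    {η : ℂ → ℝ} (hη : IsTest η) :
    ∫ z, (fderiv ℝ u z 1 * fderiv ℝ (sym N η) z 1
        + fderiv ℝ u z Complex.I * fderiv ℝ (sym N η) z Complex.I) * chi N χ₁ z
      = ∫ z, (fderiv ℝ u z 1 * fderiv ℝ η z 1
        + fderiv ℝ u z Complex.I * fderiv ℝ η z Complex.I) := by
  classical
  change ∫ z, dens u (sym N η) z * chi N χ₁ z = ∫ z, dens u η z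
  -- the finite set of relevant group elements
  have hC := hlocfin (tsupport η) hη.2.1 hη.2.2
  set T : Finset (Gamma0 N) := hC.toFinset.image (fun γ => γ⁻¹) with hT
  have hTmem : ∀ (γ : Gamma0 N) (w : ℂ), w ∈ tsupport η →
      chi N χ₁ (mob ((γ : SL(2, ℤ))⁻¹) w) ≠ 0 → γ ∈ T := by
    intro γ w hw hne
    rw [hT, Finset.mem_image]
    refine ⟨γ⁻¹, ?_, inv_inv γ⟩
    rw [Set.Finite.mem_toFinset]
    exact ⟨w, hw, by simpa using hne⟩
  -- Claim A
  have hA : ∀ z ∈ Uhp, dens u (sym N η) z * chi N χ₁ z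
      = ∑ γ ∈ T, phi u η (γ : SL(2, ℤ)) z * chi N χ₁ z := by
    intro z hz
    by_cases hchi : chi N χ₁ z = 0
    · simp [hchi]
    obtain ⟨S, hS, hd⟩ := dens_sym N hχ u hinv hη hz
    rw [hd, ← Finset.sum_mul]
    congr 1
    have e1 : ∑ᶠ γ : Gamma0 N, phi u η (γ : SL(2, ℤ)) z
        = ∑ γ ∈ S, phi u η (γ : SL(2, ℤ)) z := by
      refine finsum_eq_sum_of_support_subset _ ?_
      intro γ hγ
      by_contra hγS
      exact hγ (by simp [phi, dens_eq_zero_of_notMem_tsupport (hS γ hγS)])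
    have e2 : ∑ᶠ γ : Gamma0 N, phi u η (γ : SL(2, ℤ)) z
        = ∑ γ ∈ T, phi u η (γ : SL(2, ℤ)) z := by
      refine finsum_eq_sum_of_support_subset _ ?_
      intro γ hγ
      have hmem : mob (γ : SL(2, ℤ)) z ∈ tsupport η := by
        by_contra hnot
        exact hγ (by simp [phi, dens_eq_zero_of_notMem_tsupport hnot])
      refine Finset.mem_coe.mpr (hTmem γ _ hmem ?_)
      rw [mob_inv_mob _ hz]
      exact hchi
    have : ∑ γ ∈ S, dens u η (mob (γ : SL(2, ℤ)) z) / ‖cd (γ : SL(2, ℤ)) z‖ ^ 4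
        = ∑ γ ∈ S, phi u η (γ : SL(2, ℤ)) z := rfl
    rw [this, ← e1, e2]
  -- Claim E
  have hE : ∀ w ∈ Uhp, ∑ γ ∈ T, dens u η w * chi N χ₁ (mob ((γ : SL(2, ℤ))⁻¹) w)
      = dens u η w := by
    intro w hw
    by_cases hd : dens u η w = 0
    · simp [hd]
    have hwK : w ∈ tsupport η := by
      by_contra hnot
      exact hd (dens_eq_zero_of_notMem_tsupport hnot)
    rw [← Finset.mul_sum]
    have e1 : ∑ᶠ γ : Gamma0 N, chi N χ₁ (mob ((γ : SL(2, ℤ))⁻¹) w)
        = ∑ γ ∈ T, chi N χ₁ (mob ((γ : SL(2, ℤ))⁻¹) w) := by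
      refine finsum_eq_sum_of_support_subset _ ?_
      intro γ hγ
      exact Finset.mem_coe.mpr (hTmem γ w hwK hγ)
    have e2 : ∑ᶠ γ : Gamma0 N, chi N χ₁ (mob ((γ : SL(2, ℤ))⁻¹) w) = 1 := by
      have := finsum_comp_equiv (Equiv.inv (Gamma0 N))
        (f := fun γ : Gamma0 N => chi N χ₁ (mob (γ : SL(2, ℤ)) w))
      simp only [Equiv.inv_apply, Subgroup.coe_inv] at this
      rw [this]
      exact hsum w hw
    rw [← e1, e2, mul_one]
  -- assembly
  calc ∫ z, dens u (sym N η) z * chi N χ₁ z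
      = ∫ z in Uhp, dens u (sym N η) z * chi N χ₁ z := by
        refine (setIntegral_eq_integral_of_forall_compl_eq_zero fun z hz => ?_).symm
        rw [_root_.Fermat.Agent.S21.H544.chi_eq_zero_of_notMem N hz, mul_zero]
    _ = ∫ z in Uhp, ∑ γ ∈ T, phi u η (γ : SL(2, ℤ)) z * chi N χ₁ z :=
        setIntegral_congr_fun measurableSet_Uhp hA
    _ = ∑ γ ∈ T, ∫ z in Uhp, phi u η (γ : SL(2, ℤ)) z * chi N χ₁ z :=
        integral_finsetSum T fun γ _ => integrableOn_phi_mul_chi N hmeas h0 h1 hu hη _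
    _ = ∑ γ ∈ T, ∫ w in Uhp, dens u η w * chi N χ₁ (mob ((γ : SL(2, ℤ))⁻¹) w) :=
        Finset.sum_congr rfl fun γ _ => setIntegral_phi_mul_chi N u η _
    _ = ∫ w in Uhp, ∑ γ ∈ T, dens u η w * chi N χ₁ (mob ((γ : SL(2, ℤ))⁻¹) w) :=
        (integral_finsetSum T fun γ _ =>
          integrableOn_dens_mul_chi_mob N hmeas h0 h1 hu hη _).symm
    _ = ∫ w in Uhp, dens u η w := setIntegral_congr_fun measurableSet_Uhp hE
    _ = ∫ w, dens u η w := by
        refine setIntegral_eq_integral_of_forall_compl_eq_zero fun w hw => ?_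
        exact dens_eq_zero_of_notMem_tsupport fun hmem => hw (hη.2.2 hmem)

end Fermat.Agent.S21.H544

end
-- ===== PACK-END S21/H544/IntCMain.lean

-- ===== PACK-BEGIN S35/G/SpecLevel.lean
section




/-!
# S35, piece (G') — frozen LEVEL interfaces (architect helper450)

Finite levels `E ⊆ ℚ̄` (good for the place `A | q` in the sense of `A2.GoodField`, and stable under
the Frobenius lift `s`), `R = R_E = A ∩ E`, `w` a uniformiser, `F = F_E(M q) = A2.Mod.FE E (M * q)`,
`ψ = σ²`, `σ` = action of `s` on the coefficients.  Language of `A2/Spec`, `A2/Alg/Spec`,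
`A2/Mod/{Spec,Asm}` (all on main).

* `IFsStatement`    : `s`-stable good levels containing a given finite set.
* `LevelFrobAt`     : the Kummer form of (G') at a level `E`;  `T1FStatement` : descent `ℚ̄ → E`.
* `AlgFrobStatement`: ABSTRACT Frobenius-twisted gluing (Mathlib + `A2.SSChart` only):
                      `h` toric (`≡ m`-th powers on both components), `m ∣ div h`
                      ⟹ `ψ h / h ^ Q` is an `m`-th power.  (`Q = 1`, `ψ = τ ∈ I` is Step II of the
                      wall A2.)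
* `StableStatement`, `NodeRatStatement`, `ToricStatement`, `ModelStatement` : the modular inputs.

Definitions only (no `sorry`).  Board: `coord/S35-G-helper450.md` on `origin/helper450`.
-/

set_option autoImplicit false
set_option linter.style.haveILetI false
set_option linter.unusedSectionVars false
set_option synthInstance.maxHeartbeats 400000
set_option maxHeartbeats 1600000

noncomputable section

namespace Fermat.Agent.S35.G

open ModularCurve AlgebraicCurve

/-! ## Abstract part (Mathlib + `A2.SSChart`) -/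

section Abstract

variable {R F : Type*} [CommRing R] [Field F] [Algebra R F]

/-- `u ≡ g ^ m mod w V` for a unit `g` of `V`: the residue of `u` at `V` is an `m`-th power. -/
def PowV (w : R) (V : ValuationSubring F) (m : ℕ) (u : F) : Prop :=
  ∃ g : F, g ∈ V ∧ g⁻¹ ∈ V ∧ (u - g ^ m) * (algebraMap R F w)⁻¹ ∈ V

/-- The two components of the chart `B` are cut out by the valuation rings `V₁`, `V₂`:
`B ⊆ V_i`, `p_i = B ∩ w V_i`. -/
structure CutBy (w : R) (B : Subalgebra R F) (c : A2.SSChart w B)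
    (V₁ V₂ : ValuationSubring F) : Prop where
  le₁ : ∀ b ∈ B, b ∈ V₁
  le₂ : ∀ b ∈ B, b ∈ V₂
  cut₁ : ∀ b : B, b ∈ c.p₁ ↔ (b : F) * (algebraMap R F w)⁻¹ ∈ V₁
  cut₂ : ∀ b : B, b ∈ c.p₂ ↔ (b : F) * (algebraMap R F w)⁻¹ ∈ V₂

/-- `ψ` maps every crossing point of the two components of the chart `B` into itself. -/
def NodeStable {w : R} (B : Subalgebra R F) (c : A2.SSChart w B) (ψ : F ≃+* F) : Prop :=
  ∀ n : Ideal B, n.IsMaximal → c.p₁ ≤ n → c.p₂ ≤ n →
    ∀ b : B, b ∈ n → ∀ b' : B, (b' : F) = ψ (b : F) → b' ∈ n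

/-- **ALG-FROB (interface statement).**  Setting of `A2.AlgSSStatement` (henselian DVR `R` with
algebraically closed residue field of characteristic `q`, two semistable charts), the components
cut out by two valuation rings `V₁`, `V₂` of `F`; `ψ` a semilinear automorphism fixing the
coordinate, inducing `r ↦ r ^ Q` on the residue field of `R`, preserving `V₁`, `V₂` and every
crossing point.  Then for every `h` with `m ∣ div h` whose residues at `V₁` and `V₂` are `m`-th
powers, `ψ h / h ^ Q` is an `m`-th power. -/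
def AlgFrobStatement : Prop :=
  ∀ {R E F : Type} [CommRing R] [IsDomain R] [IsDiscreteValuationRing R] [HenselianLocalRing R]
    [IsAlgClosed (IsLocalRing.ResidueField R)]
    [Field E] [CharZero E] [Algebra R E] [IsFractionRing R E]
    [Field F] [Algebra E F] [Algebra R F] [IsScalarTower R E F]
    (w : R) (_ : Irreducible w) (q m Q : ℕ) (_ : q.Prime)
    (_ : (q : R) ∈ IsLocalRing.maximalIdeal R) (_ : 0 < m) (_ : ¬ q ∣ m)
    (x : F) (_ : Transcendental E x)
    (_ : FiniteDimensional (IntermediateField.adjoin E ({x} : Set F)) F)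
    (_ : ∀ f : F, IsAlgebraic E f → f ∈ (algebraMap E F).range)
    (Bf Bi : Subalgebra R F)
    (_ : ∀ f : F, f ∈ Bf ↔ IsIntegral (Algebra.adjoin R ({x} : Set F)) f)
    (_ : ∀ f : F, f ∈ Bi ↔ IsIntegral (Algebra.adjoin R ({x⁻¹} : Set F)) f)
    (cf : A2.SSChart w Bf) (ci : A2.SSChart w Bi)
    (_ : A2.SepCoord R E x Bf) (_ : A2.SepCoord R E x⁻¹ Bi)
    (V₁ V₂ : ValuationSubring F) (_ : CutBy w Bf cf V₁ V₂) (_ : CutBy w Bi ci V₁ V₂)
    (ψ : F ≃+* F) (ψE : E ≃+* E) (ψR : R ≃+* R)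
    (_ : ∀ e : E, ψ (algebraMap E F e) = algebraMap E F (ψE e))
    (_ : ∀ r : R, ψE (algebraMap R E r) = algebraMap R E (ψR r))
    (_ : ψ x = x)
    (_ : ∀ r : R, ψR r - r ^ Q ∈ IsLocalRing.maximalIdeal R)
    (_ : ∀ f ∈ V₁, ψ f ∈ V₁) (_ : ∀ f ∈ V₂, ψ f ∈ V₂)
    (_ : NodeStable Bf cf ψ) (_ : NodeStable Bi ci ψ),
    ∀ h : F, h ≠ 0 → A2.DivisibleDiv E m h → PowV w V₁ m h → PowV w V₂ m h →
      ∃ y : F, y ≠ 0 ∧ ψ h = y ^ m * h ^ Q

end Abstract

/-! ## Levels -/

/-- `E` is stable under `s` and `s⁻¹`. -/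
abbrev StableUnder (E : IntermediateField ℚ Qb) (s : Qb ≃ₐ[ℚ] Qb) : Prop :=
  ∀ e : Qb, e ∈ E → s e ∈ E ∧ s.symm e ∈ E

/-- **IFs (interface statement).**  Every finite set of algebraic numbers lies in a good level
for `A` which is stable under a given element `s` of the decomposition group of `A`
(`E` = compositum of the inertia field `ℚ̄^{I_A}` and a finite NORMAL extension of `ℚ`; the
inertia group is normal in the decomposition group). -/
def IFsStatement : Prop :=
  ∀ (q : ℕ) (_ : q.Prime) (A : ValuationSubring Qb) (_ : A.LiesOverPrime q)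
    (s : Qb ≃ₐ[ℚ] Qb) (_ : s ∈ A.decompositionSubgroup ℚ) (S : Finset Qb),
    ∃ E : IntermediateField ℚ Qb, (∀ x ∈ S, x ∈ E) ∧ A2.GoodField A E ∧ StableUnder E s

section Level

variable (A : ValuationSubring Qb) (E : IntermediateField ℚ Qb) (M q m : ℕ) [NeZero M] [NeZero q]

/-- `σ_E(t)`: the automorphism of `F_E(N)` induced by an automorphism `t` of `E`. -/
abbrev actE (N : ℕ) (t : E ≃ₐ[ℚ] E) : A2.Mod.FE E N ≃+* A2.Mod.FE E N :=
  arithmeticRingAut (modularFunctionFieldFull N) t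

/-- `ψ = σ_E(s)²` at level `N`. -/
abbrev psiE (N : ℕ) (s : Qb ≃ₐ[ℚ] Qb) (hs : StableUnder E s) : A2.Mod.FE E N ≃+* A2.Mod.FE E N :=
  actE E N (A2.Mod.resE E s hs * A2.Mod.resE E s hs)

/-- **Kummer form of (G') at the level `E`.** -/
def LevelFrobAt : Prop :=
  A.LiesOverPrime q → A2.GoodField A E →
    ∀ (s : Qb ≃ₐ[ℚ] Qb) (hs : StableUnder E s), A.IsFrobeniusAt s q →
      ∀ y : A2.Mod.FE E (M * q), y ≠ 0 → A2.DivisibleDiv E m y →
        NormPow (A2.Mod.αE E M q) m y → NormPow (A2.Mod.βE E M q) m y →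
        ∃ h : A2.Mod.FE E (M * q), h ≠ 0 ∧
          frobPoly (psiE E (M * q) s hs) (q ^ 2) y = h ^ m

end Level

/-- **T1F (descent to a level).**  `f`, and `c`, `g` with `N_α f = c g ^ m`, `N_β f = c' g' ^ m`,
are defined over every level containing a finite set `S` (`A2.T1.H669.exists_finset_descent`);
norms commute with the base change `E → ℚ̄` (`S37.H818.normCompat_of_finrank_eq`,
`S37.H157.finrank_algIncl`); `m ∣ div` descends (`A2.T1.H669.divisibleDiv_of_ord`). -/
def T1FStatement : Prop :=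
  ∀ (M q m : ℕ) [NeZero M] [NeZero q], q.Prime → ¬ q ∣ M → 0 < m → ¬ q ∣ m →
    IFsStatement →
    (∀ (A : ValuationSubring Qb) (E : IntermediateField ℚ Qb), LevelFrobAt A E M q m) →
    KummerFrobAt M q m

/-! ## The modular inputs (level `M * q`, objects of `A2/Mod/Spec.lean`) -/

section Modular

variable (A : ValuationSubring Qb) (E : IntermediateField ℚ Qb) (M q m : ℕ) [NeZero M] [NeZero q]
  (w : A2.Mod.RE A E)

/-- **STABLE.**  An element `s` of the decomposition group of `A` stabilising `E` preserves the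
Gauss valuation ring `V∞` (any level `N`) and commutes with the Fricke involution; hence it also
preserves `V₀ = V∞ ∘ W`.  (As `A2.Mod.InertiaStatement` = L14, `A2/Mod/H549/L14.lean`:
`isGaussInt_coeffMap`, `fricke_comm`.) -/
def StableStatement : Prop :=
  ∀ N : ℕ, N ≠ 0 → IsDiscreteValuationRing (A2.Mod.RE A E) →
    ∀ (V : ValuationSubring (A2.Mod.FE E N)) (W : A2.Mod.FE E N ≃ₐ[E] A2.Mod.FE E N),
      A2.Mod.IsVinf A E N V → A2.Mod.IsFricke E N W →
      ∀ (s : Qb ≃ₐ[ℚ] Qb) (hs : StableUnder E s), s ∈ A.decompositionSubgroup ℚ →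
        (∀ f : A2.Mod.FE E N, actE E N (A2.Mod.resE E s hs) (W f) =
          W (actE E N (A2.Mod.resE E s hs) f)) ∧
        ∀ f ∈ V, actE E N (A2.Mod.resE E s hs) f ∈ V

/-- **NODE-RAT.**  The crossing points of the two components are fixed by `ψ = σ²`
(the supersingular points are `𝔽_{q²}`-rational).  Proof: on `C∞` Kronecker gives
`β (σ a) ≡ (α a) ^ q`, on `C₀` (Fricke) `α (σ a) ≡ (β a) ^ q`; at a crossing point `n`,
`α (σ² a) ≡ (α a) ^ (q²) mod n` for `a ∈ B_M`; `B = α (B_M) + p∞` (S2-type surjectivity,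
`A2.H612.exists_sub_mem_of_residue_degree_one`), and `B / n = k`. -/
def NodeRatStatement : Prop :=
  A2.Mod.Setting A E M q w → A2.GoodField A E →
    ∀ (VM : ValuationSubring (A2.Mod.FE E M)) (V : ValuationSubring (A2.Mod.FE E (M * q)))
      (W : A2.Mod.FE E (M * q) ≃ₐ[E] A2.Mod.FE E (M * q)),
      A2.Mod.IsVinf A E M VM → A2.Mod.IsVinf A E (M * q) V → A2.Mod.IsFricke E (M * q) W →
      ∀ (yM : A2.Mod.FE E M) (y : A2.Mod.FE E (M * q)), A2.Mod.IsCoordPair E M q yM y →
        A2.Mod.GoodRedAt A E M w VM yM →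
        ∀ c : A2.SSChart w (A2.Mod.chartAlg A E (M * q) y),
          A2.Mod.IsCut A E (M * q) w V (A2.Mod.chartAlg A E (M * q) y) c.p₁ →
          A2.Mod.IsCut A E (M * q) w
            (V.comap (W : A2.Mod.FE E (M * q) →+* A2.Mod.FE E (M * q)))
            (A2.Mod.chartAlg A E (M * q) y) c.p₂ →
          ∀ (s : Qb ≃ₐ[ℚ] Qb) (hs : StableUnder E s), A.IsFrobeniusAt s q →
            NodeStable (A2.Mod.chartAlg A E (M * q) y) c (psiE E (M * q) s hs)

/-- **TORIC.**  If the norms of `f` along `α` and `β` are constants times `m`-th powers, then the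
residues of `(ψ - 1)² f` at `V∞` and at `V₀` are `m`-th powers.
Proof (`u := ψ f / f`, a unit of `V∞` and `V₀` by STABLE): `u ≡ α U` at `V∞`, `u ≡ β U'` at `V₀`
(L11 + Fricke L5, L7); norm reduction for the two extensions `V∞`, `V₀` of `V∞_M` along `α`
(`e = 1`, `f = 1, q`, the second purely inseparable: `A2.H48.Qep2`, leaf NORMRED2) and Kronecker
`β (σ a) ≡ (α a) ^ q` give `N_α u ≡ U · σ U'`, `N_β u ≡ σ U · U'` modulo `w`; hence
`σ² U / U` and `σ² U' / U'` are `m`-th powers modulo `w` (the residue field of `R_E` is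
algebraically closed), and `ψ u / u ≡ α (σ² U / U)` at `V∞`, `≡ β (σ² U' / U')` at `V₀`. -/
def ToricStatement : Prop :=
  A2.Mod.Setting A E M q w → A2.GoodField A E → 0 < m → ¬ q ∣ m →
    ∀ (V : ValuationSubring (A2.Mod.FE E (M * q)))
      (W : A2.Mod.FE E (M * q) ≃ₐ[E] A2.Mod.FE E (M * q)),
      A2.Mod.IsVinf A E (M * q) V → A2.Mod.IsFricke E (M * q) W →
      ∀ (s : Qb ≃ₐ[ℚ] Qb) (hs : StableUnder E s), A.IsFrobeniusAt s q →
        ∀ f : A2.Mod.FE E (M * q), f ≠ 0 →
          NormPow (A2.Mod.αE E M q) m f → NormPow (A2.Mod.βE E M q) m f →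
          PowV w V m (frobSub (psiE E (M * q) s hs) 1 (frobSub (psiE E (M * q) s hs) 1 f)) ∧
          PowV w (V.comap (W : A2.Mod.FE E (M * q) →+* A2.Mod.FE E (M * q))) m
            (frobSub (psiE E (M * q) s hs) 1 (frobSub (psiE E (M * q) s hs) 1 f))

/-- **MODEL.**  The semistable two-chart model of `A2.ModSSData` at the level `E`, with its two
components cut out by `V∞` and `V₀` (this is what `A2.Mod.modSSData_of_parts` constructs from
S1–S4, L1, L2, L4, L8 and good reduction at level `M`; the latter needs the auxiliary prime;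
`B ⊆ V∞, V₀` because `x = j j_q` is a unit of both, L2 + L4). -/
def ModelStatement : Prop :=
  A2.Mod.Setting A E M q w → A2.GoodField A E → HasAux M q →
    ∃ (V : ValuationSubring (A2.Mod.FE E (M * q)))
      (W : A2.Mod.FE E (M * q) ≃ₐ[E] A2.Mod.FE E (M * q))
      (VM : ValuationSubring (A2.Mod.FE E M)),
      A2.Mod.IsVinf A E (M * q) V ∧ A2.Mod.IsFricke E (M * q) W ∧ A2.Mod.IsVinf A E M VM ∧
      A2.Mod.GoodRedAt A E M w VM (A2.Mod.jE E M 1 (one_dvd _)) ∧
      A2.Mod.GoodRedAt A E M w VM (A2.Mod.jE E M 1 (one_dvd _))⁻¹ ∧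
      A2.Mod.DegStatement E M q ∧
      A2.SepCoord (A2.Mod.RE A E) E (A2.Mod.xE E M q)
        (A2.Mod.chartAlg A E (M * q) (A2.Mod.xE E M q)) ∧
      A2.SepCoord (A2.Mod.RE A E) E (A2.Mod.xE E M q)⁻¹
        (A2.Mod.chartAlg A E (M * q) (A2.Mod.xE E M q)⁻¹) ∧
      ∃ (cf : A2.SSChart w (A2.Mod.chartAlg A E (M * q) (A2.Mod.xE E M q)))
        (ci : A2.SSChart w (A2.Mod.chartAlg A E (M * q) (A2.Mod.xE E M q)⁻¹)),
        CutBy w (A2.Mod.chartAlg A E (M * q) (A2.Mod.xE E M q)) cf V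
          (V.comap (W : A2.Mod.FE E (M * q) →+* A2.Mod.FE E (M * q))) ∧
        CutBy w (A2.Mod.chartAlg A E (M * q) (A2.Mod.xE E M q)⁻¹) ci V
          (V.comap (W : A2.Mod.FE E (M * q) →+* A2.Mod.FE E (M * q)))

/-- **FROB-RES.**  A Frobenius lift `s` at `A` stabilising `E` induces on `R_E = A ∩ E` an
automorphism which is `r ↦ r ^ q` modulo the maximal ideal
(`A2.H612.valuation_frob_sub_pow_lt_one`); stated for `s²`. -/
def FrobResStatement : Prop :=
  A.LiesOverPrime q → q.Prime →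
    ∀ (s : Qb ≃ₐ[ℚ] Qb) (hs : StableUnder E s), A.IsFrobeniusAt s q →
      ∃ ψR : A2.Mod.RE A E ≃+* A2.Mod.RE A E,
        (∀ r : A2.Mod.RE A E,
          (A2.Mod.resE E s hs * A2.Mod.resE E s hs) (r : E) = ((ψR r : A2.Mod.RE A E) : E)) ∧
        ∀ r : A2.Mod.RE A E, ψR r - r ^ (q ^ 2) ∈ IsLocalRing.maximalIdeal (A2.Mod.RE A E)

/-- **KRON-FROB.**  Kronecker congruence with the explicit Frobenius twist: for `a ∈ V∞_M`,
`β (σ a) ≡ (α a) ^ q mod w V∞` (on `t`-expansions: `∑ s(aₙ) t^{qn} ≡ (∑ aₙ tⁿ)^q`).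
(`A2.Mod.KronStatement` = L12 only asserts the existence of the twisted element;
`A2/H612/Kron.lean` has the computation over `ℚ̄`.)  Used by NODE-RAT and TORIC. -/
def KronFrobStatement : Prop :=
  A2.Mod.Setting A E M q w →
    ∀ (VM : ValuationSubring (A2.Mod.FE E M)) (V : ValuationSubring (A2.Mod.FE E (M * q))),
      A2.Mod.IsVinf A E M VM → A2.Mod.IsVinf A E (M * q) V →
      ∀ (s : Qb ≃ₐ[ℚ] Qb) (hs : StableUnder E s), A.IsFrobeniusAt s q →
        ∀ a ∈ VM, A2.Mod.InW A E (M * q) V w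
          (A2.Mod.βE E M q (actE E M (A2.Mod.resE E s hs) a) - (A2.Mod.αE E M q a) ^ q)

/-- **COORD.**  The coordinate `x = j · j_q` has rational coefficients: it is fixed by the action
of every automorphism of `E` on the coefficients. -/
def CoordStatement : Prop :=
  ∀ t : E ≃ₐ[ℚ] E, actE E (M * q) t (A2.Mod.xE E M q) = A2.Mod.xE E M q

end Modular

end Fermat.Agent.S35.G

end

end
-- ===== PACK-END S35/G/SpecLevel.lean

-- ===== PACK-BEGIN S36/H83/EisChain.lean
section
/-
S36 engine, MOD-3 leaf "EIS" (helper83), part 1: the bivariate chain rule for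
`θ = q d/dq` on `A((q))`:  `θ (F(x, y)) = F_X(x, y) θ x + F_Y(x, y) θ y`, `F ∈ ℤ[Y][X]`.
-/


set_option autoImplicit false

noncomputable section

open ModularCurve HahnSeries Polynomial

namespace Fermat.Agent.S36.H83

open Fermat.Agent.S28

section ChainRule

variable {A : Type*} [CommRing A]

theorem h83_thetaL_intCast (c : ℤ) : thetaL A ((c : ℤ) : LaurentSeries A) = 0 := by
  have hc : ((c : ℤ) : LaurentSeries A) = HahnSeries.C (c : A) :=
    (map_intCast (HahnSeries.C : A →+* LaurentSeries A) c).symm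
  rw [hc, h88_thetaL_C]

theorem h83_thetaL_pow (f : LaurentSeries A) (n : ℕ) :
    thetaL A (f ^ n) = (n : LaurentSeries A) * f ^ (n - 1) * thetaL A f := by
  cases n with
  | zero => simp [h88_thetaL_one]
  | succ n => rw [h88_thetaL_pow, Nat.add_sub_cancel]

theorem h83_evalAt_monomial (y : LaurentSeries A) (n : ℕ) (a : ℤ) :
    evalAt y (Polynomial.monomial n a) = (a : LaurentSeries A) * y ^ n := by
  show Polynomial.aeval y (Polynomial.monomial n a) = _
  rw [Polynomial.aeval_monomial, eq_intCast]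

theorem h83_evalAt_eq_eval₂ (y : LaurentSeries A) (c : Polynomial ℤ) :
    evalAt y c = c.eval₂ (Int.castRingHom (LaurentSeries A)) y := by
  show Polynomial.aeval y c = _
  rw [Polynomial.aeval_def]
  congr 1
  exact RingHom.ext_int _ _

/-- One-variable chain rule: `θ (c(y)) = c'(y) θ y` for `c ∈ ℤ[Y]`. -/
theorem h83_thetaL_evalAt (c : Polynomial ℤ) (y : LaurentSeries A) :
    thetaL A (evalAt y c) = evalAt y (Polynomial.derivative c) * thetaL A y := by
  induction c using Polynomial.induction_on' with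
  | add c d hc hd =>
    rw [map_add, h88_thetaL_add, hc, hd, Polynomial.derivative_add, map_add, add_mul]
  | monomial n a =>
    rw [h83_evalAt_monomial, Polynomial.derivative_monomial, h83_evalAt_monomial,
      h88_thetaL_mul, h83_thetaL_intCast, zero_mul, zero_add, h83_thetaL_pow]
    push_cast
    ring

/-- **Bivariate chain rule** for `θ`:
`θ (F(x,y)) = (∂F/∂X)(x,y) · θ x + (∂F/∂Y)(x,y) · θ y`, where the two partial derivatives are
expressed through the one-variable specialisations `F(X, y) ∈ L[X]` and `F(x, Y) ∈ L[Y]`. -/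
theorem h83_chain_rule (F : Polynomial (Polynomial ℤ)) (x y : LaurentSeries A) :
    thetaL A (F.eval₂ (evalAt y) x) =
      (Polynomial.derivative (F.map (evalAt y))).eval x * thetaL A x
      + (Polynomial.derivative
          (F.eval₂ (Polynomial.mapRingHom (Int.castRingHom (LaurentSeries A)))
            (Polynomial.C x))).eval y * thetaL A y := by
  induction F using Polynomial.induction_on' with
  | add F G hF hG =>
    rw [Polynomial.eval₂_add, h88_thetaL_add, hF, hG, Polynomial.map_add,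
      Polynomial.derivative_add, Polynomial.eval_add, Polynomial.eval₂_add,
      Polynomial.derivative_add, Polynomial.eval_add]
    ring
  | monomial n c =>
    have h2 : (Polynomial.derivative
        ((Polynomial.mapRingHom (Int.castRingHom (LaurentSeries A))) c)).eval y
        = evalAt y (Polynomial.derivative c) := by
      rw [Polynomial.coe_mapRingHom, Polynomial.derivative_map, Polynomial.eval_map,
        h83_evalAt_eq_eval₂]
    rw [Polynomial.eval₂_monomial, Polynomial.map_monomial, Polynomial.derivative_monomial,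
      Polynomial.eval_monomial, Polynomial.eval₂_monomial, ← Polynomial.C_pow,
      Polynomial.derivative_mul, Polynomial.derivative_C, mul_zero, add_zero,
      Polynomial.eval_mul, Polynomial.eval_C, h2, h88_thetaL_mul, h83_thetaL_pow,
      h83_thetaL_evalAt]
    ring

end ChainRule

end Fermat.Agent.S36.H83

end

end
-- ===== PACK-END S36/H83/EisChain.lean

-- ===== PACK-BEGIN Lib/Haupt/PS.lean
section


/-!
# Hauptmodul identities for `Γ₀(2)` and `Γ₀(3)` as identities of integral power series (helper637)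

With `P = ∏ (1 - Xⁿ)` (`ModularCurve.etaProd`), `E = E₄` (`ModularCurve.eisenstein4`) and
`f(X^d) = PowerSeries.expand d f`:

* `ps1` : `E³ P²⁴ P₂²⁴ = (P²⁴ + 256 X P₂²⁴)³`
* `ps2` : `E(X²)³ P²⁴ P₂²⁴ = (P²⁴ + 16 X P₂²⁴)³`
* `ps3` : `E³ P¹² P₃¹² = (P¹² + 27 X P₃¹²) (P¹² + 243 X P₃¹²)³`
* `ps4` : `E(X³)³ P¹² P₃¹² = (P¹² + 27 X P₃¹²) (P¹² + 3 X P₃¹²)³`
-/

set_option autoImplicit false

noncomputable section

namespace Fermat.Agent.Lib.Haupt

open PowerSeries

/-- `P = ∏ (1 - Xⁿ)`. -/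
abbrev PZ : PowerSeries ℤ := ModularCurve.etaProd

theorem ex_X (d : ℕ) [NeZero d] : ex d (X : PowerSeries ℤ) = X ^ d := expand_X d (NeZero.ne d)

theorem ex_DeltaZ (d : ℕ) [NeZero d] : ex d DeltaZ = X ^ d * ex d PZ ^ 24 := by
  rw [DeltaZ, ex, map_mul, map_pow, expand_X]

theorem X_pow_mul_cancel {n : ℕ} {f g : PowerSeries ℤ} (h : X ^ n * f = X ^ n * g) : f = g :=
  mul_left_cancel₀ (pow_ne_zero n X_ne_zero) h

theorem ps1 : E4Z ^ 3 * (PZ ^ 24 * ex 2 PZ ^ 24) = (PZ ^ 24 + C 256 * (X * ex 2 PZ ^ 24)) ^ 3 := by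
  have h := Phi1_eq_zero
  rw [Phi1, sub_eq_zero, ex_DeltaZ, DeltaZ] at h
  apply X_pow_mul_cancel (n := 3)
  linear_combination h

theorem ps2 :
    ex 2 E4Z ^ 3 * (PZ ^ 24 * ex 2 PZ ^ 24) = (PZ ^ 24 + C 16 * (X * ex 2 PZ ^ 24)) ^ 3 := by
  have h := Phi2_eq_zero
  rw [Phi2, sub_eq_zero, ex_DeltaZ, DeltaZ] at h
  apply X_pow_mul_cancel (n := 3)
  linear_combination h

theorem constantCoeff_PZ : constantCoeff PZ = 1 := ModularCurve.constantCoeff_etaProd

theorem constantCoeff_ex (d : ℕ) [NeZero d] (f : PowerSeries ℤ) :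
    constantCoeff (ex d f) = constantCoeff f := constantCoeff_expand d (NeZero.ne d) f

/-- In `ℤ⟦X⟧`: if `(X² u)² = (X² v)²` and `u`, `v` both have constant coefficient `1`,
then `u = v`. -/
theorem eq_of_sq_eq_sq {u v : PowerSeries ℤ} (hu : constantCoeff u = 1)
    (hv : constantCoeff v = 1) (h : (X ^ 2 * u) ^ 2 = (X ^ 2 * v) ^ 2) : u = v := by
  rcases sq_eq_sq_iff_eq_or_eq_neg.mp h with h1 | h1
  · exact X_pow_mul_cancel h1
  · exfalso
    have h2 : u = -v := X_pow_mul_cancel (n := 2) (by rw [h1]; ring)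
    have h3 := congrArg constantCoeff h2
    rw [map_neg, hu, hv] at h3
    norm_num at h3

theorem ps3 :
    E4Z ^ 3 * (PZ ^ 12 * ex 3 PZ ^ 12)
      = (PZ ^ 12 + C 27 * (X * ex 3 PZ ^ 12)) * (PZ ^ 12 + C 243 * (X * ex 3 PZ ^ 12)) ^ 3 := by
  have h := Phi3_eq_zero
  rw [Phi3, sub_eq_zero, ex_DeltaZ, DeltaZ] at h
  set A := PZ ^ 12 with hA
  set Q := ex 3 PZ ^ 12 with hQ
  have hA2 : PZ ^ 24 = A ^ 2 := by rw [hA]; ring
  have hQ2 : ex 3 PZ ^ 24 = Q ^ 2 := by rw [hQ]; ring
  rw [hA2, hQ2] at h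
  have hcA : constantCoeff A = 1 := by rw [hA, map_pow, constantCoeff_PZ, one_pow]
  have hcQ : constantCoeff Q = 1 := by
    rw [hQ, map_pow, constantCoeff_ex, constantCoeff_PZ, one_pow]
  have hcE : constantCoeff E4Z = 1 := ModularCurve.constantCoeff_eisenstein4
  have key := eq_of_sq_eq_sq
    (u := A * Q * (E4Z ^ 3 - (C 756 * (X * A ^ 2) + C 19131876 * (X ^ 3 * Q ^ 2))))
    (v := A ^ 4 + (C 196830 * (X ^ 2 * (A ^ 2 * Q ^ 2)) + C 387420489 * (X ^ 4 * Q ^ 4)))
    (by simp [hcA, hcQ, hcE]) (by simp [hcA]) (by linear_combination h)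
  have e1 : (C (27 : ℤ) : PowerSeries ℤ) = 27 := map_ofNat C 27
  have e2 : (C (243 : ℤ) : PowerSeries ℤ) = 243 := map_ofNat C 243
  have e3 : (C (756 : ℤ) : PowerSeries ℤ) = 756 := map_ofNat C 756
  have e4 : (C (19131876 : ℤ) : PowerSeries ℤ) = 19131876 := map_ofNat C 19131876
  have e5 : (C (196830 : ℤ) : PowerSeries ℤ) = 196830 := map_ofNat C 196830
  have e6 : (C (387420489 : ℤ) : PowerSeries ℤ) = 387420489 := map_ofNat C 387420489
  rw [e3, e4, e5, e6] at key
  rw [e1, e2]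
  linear_combination key

theorem ps4 :
    ex 3 E4Z ^ 3 * (PZ ^ 12 * ex 3 PZ ^ 12)
      = (PZ ^ 12 + C 27 * (X * ex 3 PZ ^ 12)) * (PZ ^ 12 + C 3 * (X * ex 3 PZ ^ 12)) ^ 3 := by
  have h := Phi4_eq_zero
  rw [Phi4, sub_eq_zero, ex_DeltaZ, DeltaZ] at h
  set A := PZ ^ 12 with hA
  set Q := ex 3 PZ ^ 12 with hQ
  have hA2 : PZ ^ 24 = A ^ 2 := by rw [hA]; ring
  have hQ2 : ex 3 PZ ^ 24 = Q ^ 2 := by rw [hQ]; ring
  rw [hA2, hQ2] at h
  have hcA : constantCoeff A = 1 := by rw [hA, map_pow, constantCoeff_PZ, one_pow]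
  have hcQ : constantCoeff Q = 1 := by
    rw [hQ, map_pow, constantCoeff_ex, constantCoeff_PZ, one_pow]
  have hcE : constantCoeff (ex 3 E4Z) = 1 := by
    rw [constantCoeff_ex]; exact ModularCurve.constantCoeff_eisenstein4
  have key := eq_of_sq_eq_sq
    (u := A * Q * (ex 3 E4Z ^ 3 - (C 36 * (X * A ^ 2) + C 756 * (X ^ 3 * Q ^ 2))))
    (v := A ^ 4 + (C 270 * (X ^ 2 * (A ^ 2 * Q ^ 2)) + C 729 * (X ^ 4 * Q ^ 4)))
    (by simp [hcA, hcQ, hcE]) (by simp [hcA]) (by linear_combination h)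
  have e1 : (C (27 : ℤ) : PowerSeries ℤ) = 27 := map_ofNat C 27
  have e2 : (C (3 : ℤ) : PowerSeries ℤ) = 3 := map_ofNat C 3
  have e3 : (C (36 : ℤ) : PowerSeries ℤ) = 36 := map_ofNat C 36
  have e4 : (C (756 : ℤ) : PowerSeries ℤ) = 756 := map_ofNat C 756
  have e5 : (C (270 : ℤ) : PowerSeries ℤ) = 270 := map_ofNat C 270
  have e6 : (C (729 : ℤ) : PowerSeries ℤ) = 729 := map_ofNat C 729
  rw [e3, e4, e5, e6] at key
  rw [e1, e2]
  linear_combination key

end Fermat.Agent.Lib.Haupt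

end
end
-- ===== PACK-END Lib/Haupt/PS.lean

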