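import Mathlib
import Fermat.Prelude.Def_ModularCurve_X0ModL
import Fermat.Prelude.Def_ModularForm_HeckeOperator
import Fermat.Prelude.Def_GroupCohomology_ContinuousUnramified
import Fermat.Agent.Pack.S36.E12L2
import Fermat.Agent.Pack.S36.E4L1
import Fermat.Agent.Pack.S36.E12L3
import Fermat.Agent.Pack.S36.E12L1
import Fermat.Agent.Pack.S36.E0L2
import Fermat.Agent.Pack.S36.E7L3
import Fermat.Agent.Pack.S36.E8L1
import Fermat.Agent.Pack.S36.E12L0
import Fermat.Agent.Pack.S36.E5L1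
import Fermat.Agent.Pack.S36.E11L2
import Fermat.Agent.Pack.S36.E11L1
import Fermat.Agent.Pack.S36.E11L0
import Fermat.Agent.Pack.S36.E6L2
import Fermat.Agent.Pack.S36.E4L0
import Fermat.Agent.Pack.S36.E4L3

-- ===== PACK-BEGIN S30/H990/Final.lean
section
/-
S30 top glue (helper990): the frozen statement S30 from the adic eigenmodules alone
(the Chebotarev input is Tier 1 of the shared CHEB library).
-/




set_option autoImplicit false

namespace Fermat.Agent.S30.H990

open Polynomial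

/-- **S30 from the adic eigenmodules.** -/
theorem result_of_hasAdicEigenModules (hmod : HasAdicEigenModules) :
    ∀ (p : ℕ) [Fact p.Prime] (N : ℕ) [NeZero N] (S : Finset ℕ)
      (_hpS : p ∈ S) (_hNS : ∀ q : ℕ, q.Prime → q ∣ N → q ∈ S)
      (𝒪' : Type) [CommRing 𝒪'] [IsDomain 𝒪'] [IsDiscreteValuationRing 𝒪']
      [IsAdicComplete (IsLocalRing.maximalIdeal 𝒪') 𝒪'] [Finite (IsLocalRing.ResidueField 𝒪')]
      [CharZero 𝒪'] (_hp𝒪' : (p : 𝒪') ∈ IsLocalRing.maximalIdeal 𝒪')
      (χ : CuspForm.heckeAlgebra N 2 (↑S : Set ℕ) →+* 𝒪'),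
      ∃ (𝒪'' : Type) (_ : CommRing 𝒪'') (_ : IsDomain 𝒪'') (_ : IsDiscreteValuationRing 𝒪'')
        (_ : IsAdicComplete (IsLocalRing.maximalIdeal 𝒪'') 𝒪'')
        (_ : Finite (IsLocalRing.ResidueField 𝒪'')) (_ : CharZero 𝒪'')
        (_ : Algebra 𝒪' 𝒪'') (_ : Module.Finite 𝒪' 𝒪'') (_ : IsLocalHom (algebraMap 𝒪' 𝒪'')),
      Function.Injective (algebraMap 𝒪' 𝒪'') ∧
      ∃ ρ : GaloisRepAdic 𝒪'',
        (∀ (ℓ : ℕ) (hℓ : ℓ.Prime) (hℓN : ¬ ℓ ∣ N) (hℓS : ℓ ∉ (↑S : Set ℕ)),
          ∀ A : ValuationSubring (AlgebraicClosure ℚ), A.LiesOverPrime ℓ →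
            ∀ σ : AlgebraicClosure ℚ ≃ₐ[ℚ] AlgebraicClosure ℚ, A.IsFrobeniusAt σ ℓ →
              LinearMap.charpoly (ρ.ρ σ) =
                X ^ 2 - C (algebraMap 𝒪' 𝒪'' (χ (CuspForm.heckeAlgebra.T hℓ hℓN hℓS))) * X
                  + C ((ℓ : 𝒪''))) ∧
        (∀ q : ℕ, q.Prime → ¬ q ∣ N → q ≠ p → ρ.IsUnramifiedAt q) :=
  result_of (chebWeak_of_frobeniusDivision Fermat.Agent.Lib.Cheb.frobeniusDivision) hmod

end Fermat.Agent.S30.H990

end
-- ===== PACK-END S30/H990/Final.lean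

-- ===== PACK-BEGIN S28/H807/Core.lean
section
/-
S28 / helper807 — generic construction: from two convergent `q`-series `g, e ∈ ℤ((q))` whose
families of conjugates are `S`-stable, the polynomial `(X - e)·charpoly(secMat p g)` has
coefficients in `ℤ[j]`.
-/





set_option autoImplicit false
set_option maxHeartbeats 400000

noncomputable section

open ModularCurve Polynomial Matrix UpperHalfPlane
open scoped MatrixGroups

namespace Fermat.Agent.S28.H807

/-- The level-one polynomial principle (analytic input, provided by the bridge seats):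
an `S`-invariant function on `ℍ` with a convergent Laurent `q`-expansion is a polynomial in `j`. -/
def PolyPrinciple : Prop :=
  ∀ (c : LaurentSeries ℂ) (F : ℍ → ℂ), HasQExp c F →
    (∀ τ : ℍ, F (ModularGroup.S • τ) = F τ) → ∃ P : Polynomial ℂ, c = evalJ ℂ P

section Formal

variable {R : Type*} [CommRing R] (p : ℕ) [NeZero p]

/-- The formal polynomial `(X - e) · charpoly (secMat p g)`. -/
def formalPoly (g e : LaurentSeries R) : Polynomial (LaurentSeries R) :=
  (X - C e) * (secMat p g).charpoly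

theorem formalPoly_monic (g e : LaurentSeries R) : (formalPoly p g e).Monic :=
  (monic_X_sub_C e).mul (Matrix.charpoly_monic _)

theorem formalPoly_natDegree [Nontrivial R] (g e : LaurentSeries R) :
    (formalPoly p g e).natDegree = p + 1 := by
  unfold formalPoly
  rw [Polynomial.Monic.natDegree_mul (monic_X_sub_C e) (Matrix.charpoly_monic _),
    natDegree_X_sub_C, Matrix.charpoly_natDegree_eq_dim, Fintype.card_fin, add_comm]

theorem formalPoly_eval_self (g e : LaurentSeries R) : (formalPoly p g e).eval e = 0 := by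
  simp [formalPoly]

theorem formalPoly_map_qExpand_eval (g e : LaurentSeries R) :
    ((formalPoly p g e).map (qExpand R p)).eval g = 0 := by
  unfold formalPoly
  rw [Polynomial.map_mul, Polynomial.eval_mul, secMat_charpoly_eval, mul_zero]

theorem formalPoly_map_coeffMap {S : Type*} [CommRing S] (φ : R →+* S) (g e : LaurentSeries R) :
    (formalPoly p g e).map (coeffMap φ) = formalPoly p (coeffMap φ g) (coeffMap φ e) := by
  unfold formalPoly
  rw [Polynomial.map_mul, Polynomial.map_sub, Polynomial.map_X, Polynomial.map_C,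
    ← Matrix.charpoly_map, secMat_coeffMap]

end Formal

/-- Evaluation at `j` as a ring hom `ℤ[Y] → ℤ((q))`. -/
def evalJZHom : Polynomial ℤ →+* LaurentSeries ℤ :=
  Polynomial.eval₂RingHom (Int.castRingHom _) (jqModC ℤ)

theorem evalJZHom_apply (Q : Polynomial ℤ) : evalJZHom Q = evalJZ Q := rfl

variable (p : ℕ) [NeZero p]

/-- The coefficients of the formal polynomial lie in `ℤ[j]`. -/
theorem formalPoly_coeff_mem_range (hPP : PolyPrinciple) (gZ eZ : LaurentSeries ℤ)
    (G E : ℍ → ℂ)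
    (hG : HasQExp (coeffMap (Int.castRingHom ℂ) gZ) G)
    (hE : HasQExp (coeffMap (Int.castRingHom ℂ) eZ) E)
    (hS : ∀ τ : ℍ, conjPoly p E G (ModularGroup.S • τ) = conjPoly p E G τ) (k : ℕ) :
    (formalPoly p gZ eZ).coeff k ∈ Set.range evalJZHom := by
  have h1 : HasQExp ((formalPoly p (coeffMap (Int.castRingHom ℂ) gZ)
      (coeffMap (Int.castRingHom ℂ) eZ)).coeff k) (fun τ => (conjPoly p E G τ).coeff k) :=
    hasQExp_coeff_mul_charpoly p _ _ G E hG hE k
  have h2 : ∀ τ : ℍ, (conjPoly p E G (ModularGroup.S • τ)).coeff k = (conjPoly p E G τ).coeff k :=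
    fun τ => by rw [hS τ]
  obtain ⟨P, hP⟩ := hPP _ _ h1 h2
  have h3 : evalJ ℂ P = coeffMap (Int.castRingHom ℂ) ((formalPoly p gZ eZ).coeff k) := by
    rw [← hP, ← formalPoly_map_coeffMap, Polynomial.coeff_map]
  obtain ⟨Q, hQ⟩ := exists_int_poly_of_evalJ_eq P _ h3
  exact ⟨Q, hQ⟩

/-- **Main generic theorem**: a monic lift of the formal polynomial to `ℤ[Y][X]`. -/
theorem exists_lift_formalPoly (hPP : PolyPrinciple) (gZ eZ : LaurentSeries ℤ)
    (G E : ℍ → ℂ)
    (hG : HasQExp (coeffMap (Int.castRingHom ℂ) gZ) G)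
    (hE : HasQExp (coeffMap (Int.castRingHom ℂ) eZ) E)
    (hS : ∀ τ : ℍ, conjPoly p E G (ModularGroup.S • τ) = conjPoly p E G τ) :
    ∃ Φ : Polynomial (Polynomial ℤ), Φ.Monic ∧ Φ.natDegree = p + 1 ∧
      Φ.map evalJZHom = formalPoly p gZ eZ := by
  have hl : formalPoly p gZ eZ ∈ Polynomial.lifts evalJZHom := by
    rw [Polynomial.lifts_iff_coeff_lifts]
    intro k
    exact formalPoly_coeff_mem_range p hPP gZ eZ G E hG hE hS k
  obtain ⟨Φ, h1, h2, h3⟩ :=
    Polynomial.lifts_and_natDegree_eq_and_monic hl (formalPoly_monic p gZ eZ)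
  exact ⟨Φ, h3, by rw [h2, formalPoly_natDegree], h1⟩

end Fermat.Agent.S28.H807

end

end
-- ===== PACK-END S28/H807/Core.lean

-- ===== PACK-BEGIN S30/H709/ParEigen.lean
section




/-!
# S30-OCC, unconditional: the eigensystem `χ` occurs in the parabolic cohomology `H¹_par(Γ₀(N), O)`

* `periodHecke_facCoh` : the hypothesis `PeriodHecke` holds for the factorisation of `DefsM.lean`
  (`heckeFac`), by helper201's E2a (`H201.periodMap_heckeTLin`) and helper391's bridge
  (`M4aTop_heckeCoh_eq_sum_trf`).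
* `exists_parEigen` : for every domain `O` (any characteristic) and every ring homomorphism
  `χ : heckeAlgebra N 2 S →+* O` (`S` containing the primes dividing `N`) there is a nonzero
  parabolic character `c : Γ₀(N) → O` (`S29.IsParHom`) with `heckeCoh N ℓ c = χ (T_ℓ) • c` for all
  primes `ℓ ∉ S`.  This is the statement `(P) ParEigenStatement` of the adic module layer
  (helper330 `AdicDefs.lean`), unfolded.
* `exists_adic_eigen_lattice_coh`, `exists_occ_tensor_coh` : the lattice form and the transport to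
  `O ⊗ J`, with `PeriodHecke` discharged.
-/

set_option autoImplicit false

noncomputable section

namespace Fermat.Agent.S30.H709

open CongruenceSubgroup ModularCurve ModularCurve.Period TensorProduct IsLocalRing
open Fermat.Agent.S29
open scoped MatrixGroups

variable (N : ℕ) [NeZero N]

/-- The multiset `{γ'ᵢ}` of `DefsM.heckeFac`: `αᵢ γ = γ'ᵢ α_{π i}`. -/
def facCoh (ℓ : ℕ) (γ : Gamma0 N) : Multiset (Gamma0 N) :=
  (Finset.univ : Finset (Option (Fin ℓ))).val.map fun i => (heckeFac N ℓ γ i).2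

omit [NeZero N] in
theorem sum_map_facCoh {A : Type*} [AddCommMonoid A] (ℓ : ℕ) (c : Gamma0 N → A) (γ : Gamma0 N) :
    ((facCoh N ℓ γ).map c).sum = heckeCoh N ℓ c γ := by
  rw [facCoh, Multiset.map_map]
  rfl

omit [NeZero N] in
/-- **`PeriodHecke` holds** for the factorisation `heckeFac` of `DefsM.lean`. -/
theorem periodHecke_facCoh : PeriodHecke N (facCoh N) := by
  intro ℓ hℓ hℓN f γ
  have : Fact ℓ.Prime := ⟨hℓ⟩
  rw [sum_map_facCoh N ℓ (fun δ => periodMap N f (Additive.ofMul δ)) γ,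
    M4aTop_heckeCoh_eq_sum_trf hℓN, Fermat.Agent.S29.H201.periodMap_heckeTLin hℓ hℓN f,
    Fermat.Agent.S29.H201.heckeHom_apply]

variable {N}

/-- Period classes of elements of finite order vanish. -/
theorem perCls_eq_zero_of_pow {γ : Gamma0 N} {n : ℕ} (hn : 0 < n) (hγ : γ ^ n = 1) :
    perCls N γ = 0 := by
  have hpow : ∀ k : ℕ, perCls N (γ ^ k) = k • perCls N γ := by
    intro k
    induction k with
    | zero => rw [pow_zero, perCls_one, zero_smul]
    | succ k ih => rw [pow_succ, perCls_mul, ih, succ_nsmul]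
  have h := hpow n
  rw [hγ, perCls_one] at h
  have h2 : (n : ℤ) • perCls N γ = 0 := by rw [natCast_zsmul]; exact h.symm
  rcases smul_eq_zero.mp h2 with h3 | h3
  · exact absurd h3 (by exact_mod_cast hn.ne')
  · exact h3

/-- **(P)** The eigensystem `χ` occurs in the parabolic cohomology of `Γ₀(N)` with coefficients
in `O` (any domain). -/
theorem exists_parEigen {S : Set ℕ} (hNS : ∀ q : ℕ, q.Prime → q ∣ N → q ∈ S)
    {O : Type*} [CommRing O] [IsDomain O] (χ : CuspForm.heckeAlgebra N 2 S →+* O) :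
    ∃ c : G0 N → O, IsParHom c ∧ c ≠ 0 ∧
      ∀ (ℓ : ℕ) (hℓ : ℓ.Prime) (hℓN : ¬ ℓ ∣ N) (hℓS : ℓ ∉ S) (γ : G0 N),
        heckeCoh N ℓ c γ = χ (CuspForm.heckeAlgebra.T hℓ hℓN hℓS) * c γ := by
  classical
  have hPH := periodHecke_facCoh N
  let b := Module.finBasis ℤ (perLattice N)
  obtain ⟨w, hw0, hw⟩ := exists_eigen_coeffs (perRho hPH hNS) (perRho_injective hPH hNS) b χ
  -- the `χ`-semilinear functional on the period lattice
  let u : perLattice N →+ O :=
    { toFun := fun x => ∑ j, w j * ((b.repr x j : ℤ) : O)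
      map_zero' := by simp
      map_add' := fun x y => by
        simp only [map_add, Finsupp.coe_add, Pi.add_apply, Int.cast_add, mul_add,
          Finset.sum_add_distrib] }
  have hu : ∀ x, u x = ∑ j, w j * ((b.repr x j : ℤ) : O) := fun _ => rfl
  have hub : ∀ k, u (b k) = w k := by
    intro k
    rw [hu, Finset.sum_eq_single k]
    · rw [Module.Basis.repr_self, Finsupp.single_eq_same, Int.cast_one, mul_one]
    · intro j _ hj
      rw [Module.Basis.repr_self, Finsupp.single_eq_of_ne hj, Int.cast_zero, mul_zero]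
    · intro h
      exact absurd (Finset.mem_univ k) h
  have hsemi : ∀ (t : CuspForm.heckeAlgebra N 2 S) (x : perLattice N),
      u (perRho hPH hNS t x) = χ t * u x := by
    intro t x
    conv_lhs => rw [← b.sum_repr x]
    conv_rhs => rw [← b.sum_repr x]
    rw [map_sum, map_sum, map_sum, Finset.mul_sum]
    refine Finset.sum_congr rfl fun k _ => ?_
    rw [map_zsmul, map_zsmul, map_zsmul, hub, zsmul_eq_mul, zsmul_eq_mul, hu, hw t k]
    ring
  refine ⟨fun γ => u (perCls N γ), ⟨?_, ?_, ?_⟩, ?_, ?_⟩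
  · intro γ γ'
    show u (perCls N (γ * γ')) = _
    rw [perCls_mul, map_add]
  · intro γ hγ
    have htr : ((γ : SL(2, ℤ)) : Matrix (Fin 2) (Fin 2) ℤ).trace ^ 2 = 4 := by
      rcases hγ with h | h
      · have : ((γ : SL(2, ℤ)) : Matrix (Fin 2) (Fin 2) ℤ).trace = 2 := h
        rw [this]; norm_num
      · have : ((γ : SL(2, ℤ)) : Matrix (Fin 2) (Fin 2) ℤ).trace = -2 := h
        rw [this]; norm_num
    show u (perCls N γ) = 0
    rw [perCls_eq_zero_of_trace γ htr, map_zero]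
  · intro γ n hn hγ
    show u (perCls N γ) = 0
    rw [perCls_eq_zero_of_pow hn hγ, map_zero]
  · intro hc
    apply hw0
    have hvan : ∀ x : perLattice N, u x = 0 := by
      intro x
      induction x using perCls_induction with
      | h0 => exact map_zero u
      | hadd x y hx hy => rw [map_add, hx, hy, add_zero]
      | hneg x hx => rw [map_neg, hx, neg_zero]
      | hcls γ => exact congrFun hc γ
    funext k
    rw [← hub k, hvan]
    rfl
  · intro ℓ hℓ hℓN hℓS γ
    rw [← sum_map_facCoh N ℓ (fun γ => u (perCls N γ)) γ]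
    have h1 : ((facCoh N ℓ γ).map fun δ => u (perCls N δ)).sum
        = u (((facCoh N ℓ γ).map (perCls N)).sum) := by
      rw [map_multiset_sum, Multiset.map_map]
      rfl
    rw [h1, ← perRho_perCls hPH hNS hℓ hℓN hℓS γ, hsemi]

end Fermat.Agent.S30.H709

end
end
-- ===== PACK-END S30/H709/ParEigen.lean

-- ===== PACK-BEGIN S18/H456/ModR.lean
section



/-!
# S18 / MOD assembly (helper456): G-R — the fields `w_mem`, `w_ne_zero`, `w_inv_not_mem`, `w_gen`,
`w_discrete`, `residue_perfect` of `Alg.GoodModel` for `R = Rc M A E` (`E/ℚ` finite)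

Input: `H602.isDiscreteValuationRing_RE` (helper602, on main).
-/

set_option autoImplicit false

noncomputable section

namespace Fermat.Agent.S18.H456

open ModularCurve AlgebraicCurve HahnSeries Fermat.Agent.S18 Fermat.Agent.S18.Mod
open scoped NumberField

variable (M : ℕ) (A : ValuationSubring Qb) (E : IntermediateField ℚ Qb)

/-- The constant in `Ω` attached to an element of `R_E = A ∩ E`. -/
def cstR (r : H602.RE A E) : Om M := cst M ((r : E) : Qb)

theorem cstR_mem_Rc (r : H602.RE A E) : cstR M A E r ∈ Rc M A E :=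
  cst_mem_Rc M A E (H602.mem_RE.1 r.2) (r : E).2

theorem mem_Rc_iff_cstR {f : Om M} : f ∈ Rc M A E ↔ ∃ r : H602.RE A E, cstR M A E r = f := by
  constructor
  · intro hf
    obtain ⟨c, hA, hE, rfl⟩ := (mem_Rc_iff M A E).1 hf
    exact ⟨⟨⟨c, hE⟩, H602.mem_RE.2 hA⟩, rfl⟩
  · rintro ⟨r, rfl⟩
    exact cstR_mem_Rc M A E r

theorem cstR_injective : Function.Injective (cstR M A E) := by
  intro r s h
  have h1 : ((r : E) : Qb) = ((s : E) : Qb) := cst_injective M h
  exact Subtype.ext (Subtype.ext h1)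

theorem cstR_mul (r s : H602.RE A E) : cstR M A E (r * s) = cstR M A E r * cstR M A E s := by
  unfold cstR
  rw [← map_mul]
  rfl

theorem cstR_pow (r : H602.RE A E) (n : ℕ) : cstR M A E (r ^ n) = cstR M A E r ^ n := by
  unfold cstR
  rw [← map_pow]
  rfl

theorem cstR_sub (r s : H602.RE A E) : cstR M A E (r - s) = cstR M A E r - cstR M A E s := by
  unfold cstR
  rw [← map_sub]
  rfl

theorem cstR_one : cstR M A E 1 = 1 := by
  unfold cstR
  exact map_one _

theorem cstR_zero : cstR M A E 0 = 0 := by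
  unfold cstR
  exact map_zero _

theorem cstR_natCast (n : ℕ) : cstR M A E (n : H602.RE A E) = (n : Om M) := by
  unfold cstR
  show cst M (((n : H602.RE A E) : E) : Qb) = _
  have : (((n : H602.RE A E) : E) : Qb) = (n : Qb) := by simp
  rw [this]
  exact map_natCast _ n

theorem cstR_eq_zero_iff {r : H602.RE A E} : cstR M A E r = 0 ↔ r = 0 := by
  rw [← cstR_zero M A E]
  exact (cstR_injective M A E).eq_iff

/-- `cstR r` is invertible in `Rc` iff `r` is a unit. -/
theorem inv_cstR_mem_Rc_iff {r : H602.RE A E} (hr : r ≠ 0) :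
    (cstR M A E r)⁻¹ ∈ Rc M A E ↔ IsUnit r := by
  constructor
  · intro h
    obtain ⟨s, hs⟩ := (mem_Rc_iff_cstR M A E).1 h
    refine isUnit_iff_exists_inv.2 ⟨s, ?_⟩
    apply cstR_injective M A E
    rw [cstR_mul, hs, cstR_one]
    exact mul_inv_cancel₀ (fun h0 => hr ((cstR_eq_zero_iff M A E).1 h0))
  · intro h
    obtain ⟨s, hs⟩ := isUnit_iff_exists_inv.1 h
    have : (cstR M A E r)⁻¹ = cstR M A E s := by
      apply inv_eq_of_mul_eq_one_right
      rw [← cstR_mul, hs, cstR_one]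
    rw [this]
    exact cstR_mem_Rc M A E s

/-- `w` is (the image of) a uniformiser of `R_E`. -/
def IsUnif (w : Om M) : Prop := ∃ ϖ : H602.RE A E, Irreducible ϖ ∧ w = cstR M A E ϖ

variable {M A E}

theorem IsUnif.mem {w : Om M} (hw : IsUnif M A E w) : w ∈ Rc M A E := by
  obtain ⟨ϖ, -, rfl⟩ := hw
  exact cstR_mem_Rc M A E ϖ

theorem IsUnif.ne_zero {w : Om M} (hw : IsUnif M A E w) : w ≠ 0 := by
  obtain ⟨ϖ, hϖ, rfl⟩ := hw
  exact fun h => hϖ.ne_zero ((cstR_eq_zero_iff M A E).1 h)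

theorem IsUnif.inv_not_mem {w : Om M} (hw : IsUnif M A E w) : w⁻¹ ∉ Rc M A E := by
  obtain ⟨ϖ, hϖ, rfl⟩ := hw
  exact fun h => hϖ.not_isUnit ((inv_cstR_mem_Rc_iff M A E hϖ.ne_zero).1 h)

section DVR

variable [IsDiscreteValuationRing (H602.RE A E)]

theorem IsUnif.gen {w : Om M} (hw : IsUnif M A E w) :
    ∀ r ∈ Rc M A E, r⁻¹ ∉ Rc M A E → r * w⁻¹ ∈ Rc M A E := by
  obtain ⟨ϖ, hϖ, rfl⟩ := hw
  intro r hr hrinv
  obtain ⟨r₀, rfl⟩ := (mem_Rc_iff_cstR M A E).1 hr
  have hr0 : r₀ ≠ 0 := by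
    rintro rfl
    rw [cstR_zero, inv_zero] at hrinv
    exact hrinv (zero_mem _)
  have hnu : ¬ IsUnit r₀ := fun h => hrinv ((inv_cstR_mem_Rc_iff M A E hr0).2 h)
  have hmem : r₀ ∈ IsLocalRing.maximalIdeal (H602.RE A E) :=
    (IsLocalRing.mem_maximalIdeal _).2 hnu
  rw [hϖ.maximalIdeal_eq, Ideal.mem_span_singleton] at hmem
  obtain ⟨s, rfl⟩ := hmem
  rw [cstR_mul, mul_comm (cstR M A E ϖ), mul_assoc,
    mul_inv_cancel₀ (fun h => hϖ.ne_zero ((cstR_eq_zero_iff M A E).1 h)), mul_one]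
  exact cstR_mem_Rc M A E s

theorem IsUnif.discrete {w : Om M} (hw : IsUnif M A E w) :
    ∀ r ∈ Rc M A E, r ≠ 0 →
      ∃ n : ℕ, r * (w⁻¹) ^ n ∈ Rc M A E ∧ (r * (w⁻¹) ^ n)⁻¹ ∈ Rc M A E := by
  obtain ⟨ϖ, hϖ, rfl⟩ := hw
  intro r hr hr0
  obtain ⟨r₀, rfl⟩ := (mem_Rc_iff_cstR M A E).1 hr
  have hr0' : r₀ ≠ 0 := fun h => hr0 (by rw [h, cstR_zero])
  obtain ⟨n, u, hu⟩ := IsDiscreteValuationRing.eq_unit_mul_pow_irreducible hr0' hϖ
  have hw0 : cstR M A E ϖ ≠ 0 := fun h => hϖ.ne_zero ((cstR_eq_zero_iff M A E).1 h)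
  have key : cstR M A E r₀ * ((cstR M A E ϖ)⁻¹) ^ n = cstR M A E (u : H602.RE A E) := by
    rw [hu, cstR_mul, cstR_pow, mul_assoc, inv_pow, mul_inv_cancel₀ (pow_ne_zero n hw0), mul_one]
  refine ⟨n, ?_, ?_⟩
  · rw [key]
    exact cstR_mem_Rc M A E _
  · rw [key]
    exact (inv_cstR_mem_Rc_iff M A E u.ne_zero).2 u.isUnit

/-- Membership in the maximal ideal, in terms of `w`. -/
theorem IsUnif.mul_inv_mem_iff {w : Om M} (hw : IsUnif M A E w) (r : H602.RE A E) :
    cstR M A E r * w⁻¹ ∈ Rc M A E ↔ r ∈ IsLocalRing.maximalIdeal (H602.RE A E) := by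
  obtain ⟨ϖ, hϖ, rfl⟩ := hw
  have hw0 : cstR M A E ϖ ≠ 0 := fun h => hϖ.ne_zero ((cstR_eq_zero_iff M A E).1 h)
  rw [hϖ.maximalIdeal_eq, Ideal.mem_span_singleton]
  constructor
  · intro h
    obtain ⟨s, hs⟩ := (mem_Rc_iff_cstR M A E).1 h
    refine ⟨s, ?_⟩
    apply cstR_injective M A E
    rw [cstR_mul, hs, mul_comm, mul_assoc, inv_mul_cancel₀ hw0, mul_one]
  · rintro ⟨s, rfl⟩
    rw [cstR_mul, mul_comm (cstR M A E ϖ), mul_assoc, mul_inv_cancel₀ hw0, mul_one]
    exact cstR_mem_Rc M A E s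

end DVR

variable (M A E)

theorem exists_isUnif [IsDiscreteValuationRing (H602.RE A E)] : ∃ w : Om M, IsUnif M A E w := by
  obtain ⟨ϖ, hϖ⟩ := IsDiscreteValuationRing.exists_irreducible (H602.RE A E)
  exact ⟨cstR M A E ϖ, ϖ, hϖ, rfl⟩

end Fermat.Agent.S18.H456

end
end
-- ===== PACK-END S18/H456/ModR.lean

-- ===== PACK-BEGIN S18/H24/GaussB.lean
section


/-!
# S18 / MOD-ASM, piece G-V (helper24) — part B: `V_gen`, primitive parts, `V_total`

`IsUnif A E w₀` : `w₀` is a uniformiser of the discrete valuation ring `A ∩ E` (element-wise form,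
to be supplied by G-R).  With `w = cst M w₀`:

* `field_V_gen`          : `f ∈ V`, `f⁻¹ ∉ V` ⟹ `f/w ∈ V`;
* `exists_primitive`     : a nonzero integral series is `w₀^a ·` (integral series with nonzero
                           reduction);
* `exists_gauss_form`    : every `f ≠ 0` in `Fc` is `w^n · U₁/U₂` with `U₁, U₂` integral of nonzero
                           reduction;
* `field_V_total`        : `f ∈ V ∨ f⁻¹ ∈ V` for `f ∈ Fc`.
-/

set_option autoImplicit false

noncomputable section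

namespace Fermat.Agent.S18.H24

open ModularCurve AlgebraicCurve HahnSeries Fermat.Agent.S18 Fermat.Agent.S18.Mod
open Fermat.Agent.S18.H456

/-- `w₀` is a uniformiser of the discrete valuation ring `A ∩ E`. -/
structure IsUnif (A : ValuationSubring Qb) (E : IntermediateField ℚ Qb) (w₀ : Qb) : Prop where
  mem_A : w₀ ∈ A
  mem_E : w₀ ∈ E
  ne_zero : w₀ ≠ 0
  inv_not_mem : w₀⁻¹ ∉ A
  gen : ∀ c, c ∈ A → c ∈ E → c⁻¹ ∉ A → c * w₀⁻¹ ∈ A
  discrete : ∀ c, c ∈ A → c ∈ E → c ≠ 0 →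
    ∃ n : ℕ, c * (w₀⁻¹) ^ n ∈ A ∧ (c * (w₀⁻¹) ^ n)⁻¹ ∈ A

variable {M : ℕ} {A : ValuationSubring Qb} {E : IntermediateField ℚ Qb}

theorem val_inv (f : Om M) : ((f⁻¹ : Om M) : LaurentSeries Qb) = (f : LaurentSeries Qb)⁻¹ := rfl

theorem val_mul (f g : Om M) :
    ((f * g : Om M) : LaurentSeries Qb) = (f : LaurentSeries Qb) * (g : LaurentSeries Qb) := rfl

theorem val_cst' (c : Qb) : ((cst M c : Om M) : LaurentSeries Qb) = HahnSeries.C c := by
  rw [val_cst]; rfl

theorem val_eq_zero_iff {f : Om M} : (f : LaurentSeries Qb) = 0 ↔ f = 0 :=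
  ⟨fun h => Subtype.ext h, fun h => by rw [h]; rfl⟩

theorem red_ne_zero_imp_inc_ne_zero {U : LaurentSeries A} (h : red A U ≠ 0) : inc A U ≠ 0 := by
  intro h0
  apply h
  have : U = 0 := inc_injective (by rw [h0, map_zero])
  rw [this, map_zero]

/-- Dividing an integral series with zero reduction by the uniformiser. -/
theorem exists_div_unif {w₀ : Qb} (hw : _root_.Fermat.Agent.S18.H24.IsUnif A E w₀) {U : LaurentSeries A}
    (hU : IsIntE M A E U) (hred : red A U = 0) :
    ∃ U' : LaurentSeries A, IsIntE M A E U' ∧ inc A U' = HahnSeries.C (w₀⁻¹) * inc A U := by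
  have hcoef : ∀ n, (HahnSeries.C (w₀⁻¹) * inc A U).coeff n ∈ A := by
    intro n
    rw [HahnSeries.C_mul_eq_smul, HahnSeries.coeff_smul, inc_coeff, smul_eq_mul, mul_comm]
    have hm := (red_eq_zero_iff U).mp hred n
    rcases (mem_maximalIdeal_iff _).mp hm with h0 | hni
    · rw [h0, zero_mul]; exact A.zero_mem
    · exact hw.gen _ (U.coeff n).2 (hU.1 n) hni
  obtain ⟨U', hU'⟩ := exists_inc_eq hcoef
  refine ⟨U', ?_, hU'⟩
  obtain ⟨f, hf, hfU⟩ := hU.2
  refine (isIntE_iff M A E).mpr ⟨(cst M w₀)⁻¹ * f, ?_, ?_⟩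
  · exact mul_mem (inv_mem (field_E_le_F M E (cst_mem_Ec M E hw.mem_E))) hf
  · rw [hU', val_mul, val_inv, val_cst', hfU, ← map_inv₀]

variable (M) in
/-- field `V_gen`. -/
theorem field_V_gen {w₀ : Qb} (hw : _root_.Fermat.Agent.S18.H24.IsUnif A E w₀) :
    ∀ f ∈ Vc M A E, f⁻¹ ∉ Vc M A E → f * (cst M w₀)⁻¹ ∈ Vc M A E := by
  rintro f ⟨hfF, U₁, U₂, h₁, h₂, hr, hfU⟩ hfinv
  have hf0 : f ≠ 0 := by
    rintro rfl
    rw [inv_zero] at hfinv
    exact hfinv (zero_mem _)
  have hfv0 : (f : LaurentSeries Qb) ≠ 0 := fun h => hf0 (val_eq_zero_iff.mp h)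
  have hred : red A U₁ = 0 := by
    by_contra hne
    apply hfinv
    refine ⟨inv_mem hfF, U₂, U₁, h₂, h₁, hne, ?_⟩
    rw [val_inv, ← hfU]
    field_simp
  obtain ⟨U', hU', hU'eq⟩ := exists_div_unif hw h₁ hred
  refine ⟨mul_mem hfF (inv_mem (field_E_le_F M E (cst_mem_Ec M E hw.mem_E))), U', U₂, hU', h₂, hr,
    ?_⟩
  rw [hU'eq, val_mul, val_inv, val_cst', ← hfU, ← map_inv₀]
  ring

/-! ### Primitive parts -/

theorem unit_mul_pow_mem {w₀ : Qb} (hw : _root_.Fermat.Agent.S18.H24.IsUnif A E w₀) {c : Qb} {k a : ℕ} (hak : a ≤ k)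
    (hc : c * (w₀⁻¹) ^ k ∈ A) : c * (w₀⁻¹) ^ a ∈ A := by
  obtain ⟨d, rfl⟩ := Nat.exists_eq_add_of_le hak
  have : c * (w₀⁻¹) ^ a = c * (w₀⁻¹) ^ (a + d) * w₀ ^ d := by
    rw [_root_.pow_add, inv_pow, inv_pow]
    have := hw.ne_zero
    field_simp
  rw [this]
  exact A.mul_mem _ _ hc (pow_mem hw.mem_A d)

/-- A nonzero integral series is a power of the uniformiser times an integral series with
nonzero reduction. -/
theorem exists_primitive {w₀ : Qb} (hw : _root_.Fermat.Agent.S18.H24.IsUnif A E w₀) {U : LaurentSeries A}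
    (hU : IsIntE M A E U) (hU0 : U ≠ 0) :
    ∃ (a : ℕ) (U₀ : LaurentSeries A), IsIntE M A E U₀ ∧ red A U₀ ≠ 0 ∧
      inc A U = HahnSeries.C (w₀ ^ a) * inc A U₀ := by
  classical
  -- the set of valuations of nonzero coefficients
  have hex : ∃ k : ℕ, ∃ n : ℤ, U.coeff n ≠ 0 ∧ (U.coeff n : Qb) * (w₀⁻¹) ^ k ∈ A ∧
      ((U.coeff n : Qb) * (w₀⁻¹) ^ k)⁻¹ ∈ A := by
    obtain ⟨n, hn⟩ : ∃ n, U.coeff n ≠ 0 := by
      by_contra h
      push Not at h
      exact hU0 (HahnSeries.ext (funext h))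
    have hn' : (U.coeff n : Qb) ≠ 0 := fun h => hn (Subtype.ext h)
    obtain ⟨k, hk1, hk2⟩ := hw.discrete _ (U.coeff n).2 (hU.1 n) hn'
    exact ⟨k, n, hn, hk1, hk2⟩
  set a := Nat.find hex with ha
  obtain ⟨n₀, hn₀, hn₀1, hn₀2⟩ := Nat.find_spec hex
  have hmin : ∀ k, (∃ n : ℤ, U.coeff n ≠ 0 ∧ (U.coeff n : Qb) * (w₀⁻¹) ^ k ∈ A ∧
      ((U.coeff n : Qb) * (w₀⁻¹) ^ k)⁻¹ ∈ A) → a ≤ k := fun k hk => Nat.find_min' hex hk
  have hcoef : ∀ n, (HahnSeries.C ((w₀⁻¹) ^ a) * inc A U).coeff n ∈ A := by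
    intro n
    rw [HahnSeries.C_mul_eq_smul, HahnSeries.coeff_smul, inc_coeff, smul_eq_mul, mul_comm]
    by_cases hn : U.coeff n = 0
    · rw [hn]; simp
    · have hn' : (U.coeff n : Qb) ≠ 0 := fun h => hn (Subtype.ext h)
      obtain ⟨k, hk1, hk2⟩ := hw.discrete _ (U.coeff n).2 (hU.1 n) hn'
      exact unit_mul_pow_mem hw (hmin k ⟨n, hn, hk1, hk2⟩) hk1
  obtain ⟨U₀, hU₀⟩ := exists_inc_eq hcoef
  have hw0 := hw.ne_zero
  refine ⟨a, U₀, ?_, ?_, ?_⟩
  · obtain ⟨f, hf, hfU⟩ := hU.2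
    refine (isIntE_iff M A E).mpr ⟨((cst M w₀)⁻¹) ^ a * f, ?_, ?_⟩
    · exact mul_mem (pow_mem (inv_mem (field_E_le_F M E (cst_mem_Ec M E hw.mem_E))) _) hf
    · rw [hU₀, val_mul, hfU]
      congr 1
      show (((cst M w₀)⁻¹ ^ a : Om M) : LaurentSeries Qb) = _
      rw [← map_inv₀, ← map_pow]
      exact val_cst' _
  · intro hred
    have hm := (red_eq_zero_iff U₀).mp hred n₀
    rcases (mem_maximalIdeal_iff _).mp hm with h0 | hni
    · have h1 : ((U₀.coeff n₀ : A) : Qb) = (U.coeff n₀ : Qb) * (w₀⁻¹) ^ a := by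
        rw [← inc_coeff, hU₀, HahnSeries.C_mul_eq_smul, HahnSeries.coeff_smul, inc_coeff,
          smul_eq_mul, mul_comm]
      rw [h1] at h0
      have hn₀' : (U.coeff n₀ : Qb) ≠ 0 := fun h => hn₀ (Subtype.ext h)
      exact mul_ne_zero hn₀' (pow_ne_zero _ (inv_ne_zero hw0)) h0
    · apply hni
      have h1 : ((U₀.coeff n₀ : A) : Qb) = (U.coeff n₀ : Qb) * (w₀⁻¹) ^ a := by
        rw [← inc_coeff, hU₀, HahnSeries.C_mul_eq_smul, HahnSeries.coeff_smul, inc_coeff,
          smul_eq_mul, mul_comm]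
      rw [h1]
      exact hn₀2
  · rw [hU₀, ← mul_assoc, ← map_mul, inv_pow, mul_inv_cancel₀ (pow_ne_zero _ hw0), map_one,
      one_mul]

/-! ### The Gauss normal form -/

/-- `f = w^n · U₁ / U₂` with integral `U₁, U₂` of nonzero reduction. -/
def GaussForm (M : ℕ) (A : ValuationSubring Qb) (E : IntermediateField ℚ Qb) (w₀ : Qb)
    (f : Om M) : Prop :=
  ∃ (n : ℤ) (U₁ U₂ : LaurentSeries A), IsIntE M A E U₁ ∧ IsIntE M A E U₂ ∧
    red A U₁ ≠ 0 ∧ red A U₂ ≠ 0 ∧
    (f : LaurentSeries Qb) * inc A U₂ = HahnSeries.C w₀ ^ n * inc A U₁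

theorem GaussForm.ne_zero {w₀ : Qb} (hw0 : w₀ ≠ 0) {f : Om M} (h : GaussForm M A E w₀ f) :
    f ≠ 0 := by
  rintro rfl
  obtain ⟨n, U₁, U₂, -, -, hr₁, -, heq⟩ := h
  have h1 : (HahnSeries.C w₀ : LaurentSeries Qb) ≠ 0 := by
    intro h
    exact hw0 (HahnSeries.C_injective (by rw [h, map_zero]))
  have : HahnSeries.C w₀ ^ n * inc A U₁ = 0 := by
    rw [← heq]
    show (0 : LaurentSeries Qb) * _ = 0
    rw [zero_mul]
  rcases mul_eq_zero.mp this with h | h
  · exact zpow_ne_zero n h1 h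
  · exact red_ne_zero_imp_inc_ne_zero hr₁ h

theorem C_ne_zero' {w₀ : Qb} (hw0 : w₀ ≠ 0) : (HahnSeries.C w₀ : LaurentSeries Qb) ≠ 0 := by
  intro h
  exact hw0 (HahnSeries.C_injective (by rw [h, map_zero]))

theorem GaussForm.inv {w₀ : Qb} (hw0 : w₀ ≠ 0) {f : Om M} (h : GaussForm M A E w₀ f) :
    GaussForm M A E w₀ f⁻¹ := by
  have hf0 := h.ne_zero hw0
  obtain ⟨n, U₁, U₂, h₁, h₂, hr₁, hr₂, heq⟩ := h
  refine ⟨-n, U₂, U₁, h₂, h₁, hr₂, hr₁, ?_⟩
  have hfv0 : (f : LaurentSeries Qb) ≠ 0 := fun h => hf0 (val_eq_zero_iff.mp h)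
  have hC := C_ne_zero' hw0
  have hCn : (HahnSeries.C w₀ : LaurentSeries Qb) ^ n ≠ 0 := zpow_ne_zero n hC
  rw [val_inv, zpow_neg]
  have h1 : inc A U₁ = (HahnSeries.C w₀ ^ n)⁻¹ * ((f : LaurentSeries Qb) * inc A U₂) := by
    rw [heq, ← mul_assoc, inv_mul_cancel₀ hCn, one_mul]
  rw [h1]
  field_simp

theorem GaussForm.mul {w₀ : Qb} (hw0 : w₀ ≠ 0) {f g : Om M} (hf : GaussForm M A E w₀ f)
    (hg : GaussForm M A E w₀ g) : GaussForm M A E w₀ (f * g) := by
  obtain ⟨n, U₁, U₂, h₁, h₂, hr₁, hr₂, heq⟩ := hf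
  obtain ⟨n', W₁, W₂, k₁, k₂, kr₁, kr₂, heq'⟩ := hg
  refine ⟨n + n', U₁ * W₁, U₂ * W₂, IsIntE.mul h₁ k₁, IsIntE.mul h₂ k₂, ?_, ?_, ?_⟩
  · rw [map_mul]; exact mul_ne_zero hr₁ kr₁
  · rw [map_mul]; exact mul_ne_zero hr₂ kr₂
  · rw [val_mul, map_mul, map_mul, zpow_add₀ (C_ne_zero' hw0)]
    calc (f : LaurentSeries Qb) * (g : LaurentSeries Qb) * (inc A U₂ * inc A W₂)
        = ((f : LaurentSeries Qb) * inc A U₂) * ((g : LaurentSeries Qb) * inc A W₂) := by ring
      _ = _ := by rw [heq, heq']; ring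

theorem GaussForm.neg {w₀ : Qb} {f : Om M} (hf : GaussForm M A E w₀ f) :
    GaussForm M A E w₀ (-f) := by
  obtain ⟨n, U₁, U₂, h₁, h₂, hr₁, hr₂, heq⟩ := hf
  refine ⟨n, -U₁, U₂, IsIntE.neg h₁, h₂, ?_, hr₂, ?_⟩
  · rw [map_neg]; exact neg_ne_zero.mpr hr₁
  · show (-(f : LaurentSeries Qb)) * inc A U₂ = _
    rw [map_neg, neg_mul, heq, mul_neg]

/-- The sum of two Gauss forms (with `n ≤ n'`) is `0` or a Gauss form. -/
theorem GaussForm.add_aux {w₀ : Qb} (hw : _root_.Fermat.Agent.S18.H24.IsUnif A E w₀) {f g : Om M} {n : ℤ} {d : ℕ}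
    {U₁ U₂ W₁ W₂ : LaurentSeries A}
    (h₁ : IsIntE M A E U₁) (h₂ : IsIntE M A E U₂) (hr₂ : red A U₂ ≠ 0)
    (heq : (f : LaurentSeries Qb) * inc A U₂ = HahnSeries.C w₀ ^ n * inc A U₁)
    (k₁ : IsIntE M A E W₁) (k₂ : IsIntE M A E W₂) (kr₂ : red A W₂ ≠ 0)
    (heq' : (g : LaurentSeries Qb) * inc A W₂ = HahnSeries.C w₀ ^ (n + d) * inc A W₁) :
    f + g = 0 ∨ GaussForm M A E w₀ (f + g) := by
  have hw0 := hw.ne_zero
  have hC := C_ne_zero' hw0
  -- the numerator
  set Nn : LaurentSeries A := U₁ * W₂ + HahnSeries.C (⟨w₀, hw.mem_A⟩ ^ d : A) * W₁ * U₂ with hNn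
  have hNint : IsIntE M A E Nn := by
    refine IsIntE.add (IsIntE.mul h₁ k₂) (IsIntE.mul (IsIntE.mul ?_ k₁) h₂)
    refine isIntE_C ?_
    show ((⟨w₀, hw.mem_A⟩ ^ d : A) : Qb) ∈ E
    rw [SubmonoidClass.coe_pow]
    exact pow_mem hw.mem_E d
  have hincN : inc A Nn = inc A U₁ * inc A W₂ + HahnSeries.C w₀ ^ d * inc A W₁ * inc A U₂ := by
    rw [hNn, map_add, map_mul, map_mul, map_mul, inc_C, SubmonoidClass.coe_pow, map_pow]
  have hden : red A (U₂ * W₂) ≠ 0 := by rw [map_mul]; exact mul_ne_zero hr₂ kr₂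
  have hmain : ((f + g : Om M) : LaurentSeries Qb) * inc A (U₂ * W₂) =
      HahnSeries.C w₀ ^ n * inc A Nn := by
    show ((f : LaurentSeries Qb) + (g : LaurentSeries Qb)) * inc A (U₂ * W₂) = _
    rw [map_mul, hincN]
    calc ((f : LaurentSeries Qb) + (g : LaurentSeries Qb)) * (inc A U₂ * inc A W₂)
        = ((f : LaurentSeries Qb) * inc A U₂) * inc A W₂ +
            ((g : LaurentSeries Qb) * inc A W₂) * inc A U₂ := by ring
      _ = _ := by
        rw [heq, heq', zpow_add₀ hC, zpow_natCast]; ring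
  by_cases hN0 : Nn = 0
  · left
    rw [hN0, map_zero, mul_zero] at hmain
    rcases mul_eq_zero.mp hmain with h | h
    · exact val_eq_zero_iff.mp h
    · exact absurd h (red_ne_zero_imp_inc_ne_zero hden)
  · right
    obtain ⟨a, N₀, hN₀, hrN₀, hNeq⟩ := exists_primitive hw hNint hN0
    refine ⟨n + a, N₀, U₂ * W₂, hN₀, IsIntE.mul h₂ k₂, hrN₀, hden, ?_⟩
    rw [hmain, hNeq, zpow_add₀ hC, zpow_natCast, map_pow]
    ring

theorem GaussForm.add {w₀ : Qb} (hw : _root_.Fermat.Agent.S18.H24.IsUnif A E w₀) {f g : Om M}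
    (hf : GaussForm M A E w₀ f) (hg : GaussForm M A E w₀ g) :
    f + g = 0 ∨ GaussForm M A E w₀ (f + g) := by
  obtain ⟨n, U₁, U₂, h₁, h₂, -, hr₂, heq⟩ := hf
  obtain ⟨n', W₁, W₂, k₁, k₂, -, kr₂, heq'⟩ := hg
  rcases le_total n n' with h | h
  · obtain ⟨d, hd⟩ := Int.le.dest h
    rw [← hd] at heq'
    exact GaussForm.add_aux hw h₁ h₂ hr₂ heq k₁ k₂ kr₂ heq'
  · obtain ⟨d, hd⟩ := Int.le.dest h
    rw [← hd] at heq
    rw [add_comm]
    exact GaussForm.add_aux hw k₁ k₂ kr₂ heq' h₁ h₂ hr₂ heq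

end Fermat.Agent.S18.H24

end
end
-- ===== PACK-END S18/H24/GaussB.lean

-- ===== PACK-BEGIN S29/H201/PeCycle.lean
section


/-!
# S29 layer M, piece E2 (helper201): `heckeHom` preserves "pe" homomorphisms (cycle argument)
-/

set_option autoImplicit false
set_option linter.style.haveILetI false

open CongruenceSubgroup Matrix.SpecialLinearGroup ModularCurve ModularCurve.Period
open MulAction Function
open scoped MatrixGroups
open P2MW.S_ModularForm_heckeT_slash_eq_self_of_mem_Gamma0.ModularForm.HeckeSlashInvariance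

namespace Fermat.Agent.S29.H201

/-- Orbit decomposition of a sum: if the sum of `f` over every cycle of `σ` vanishes, then the
total sum of `f` vanishes. -/
theorem sum_eq_zero_of_cycle_sums {X : Type*} [Fintype X] {A : Type*} [AddCommGroup A]
    (σ : Equiv.Perm X) (f : X → A)
    (h : ∀ x, ∑ k ∈ Finset.range (minimalPeriod σ x), f ((σ ^ k) x) = 0) :
    ∑ x, f x = 0 := by
  classical
  let G := Subgroup.zpowers σ
  letI : Fintype (orbitRel.Quotient G X) := Fintype.ofFinite _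
  letI : ∀ ω : orbitRel.Quotient G X, Fintype (orbit G ω.out) := fun ω => Fintype.ofFinite _
  rw [← Equiv.sum_comp (selfEquivSigmaOrbits G X).symm f, Fintype.sum_sigma]
  refine Finset.sum_eq_zero fun ω _ => ?_
  set b : X := ω.out with hb
  have hper : minimalPeriod (σ • ·) b = minimalPeriod σ b := rfl
  haveI : NeZero (minimalPeriod (σ • ·) b) := MulAction.minimalPeriod_pos σ b
  have key : ∑ y : orbit G b, f (y : X)
      = ∑ k : ZMod (minimalPeriod (σ • ·) b), f ((σ ^ k.val) b) := by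
    refine Fintype.sum_equiv (orbitZPowersEquiv σ b) _ _ fun y => ?_
    obtain ⟨k, rfl⟩ := (orbitZPowersEquiv σ b).symm.surjective y
    rw [Equiv.apply_symm_apply, orbitZPowersEquiv_symm_apply]
    congr 1
    show ((⟨σ, Subgroup.mem_zpowers σ⟩ : Subgroup.zpowers σ) ^ (ZMod.cast k : ℤ)) • b = _
    rw [← ZMod.natCast_val, zpow_natCast]
    rfl
  have h2 : (∑ y : orbit G ω.out, f ((selfEquivSigmaOrbits G X).symm ⟨ω, y⟩))
      = ∑ y : orbit G b, f (y : X) := by
    refine Finset.sum_congr rfl fun y _ => ?_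
    rfl
  rw [h2, key, ← sum_range_eq_sum_zmod (fun k => f ((σ ^ k) b)), hper]
  exact h b

variable {N : ℕ} {ℓ : ℕ} [Fact ℓ.Prime]

theorem permOf_mul (γ γ' : Gamma0 N) :
    (permOf (γ * γ') : Equiv.Perm (OnePoint (ZMod ℓ))) = permOf γ' * permOf γ := by
  ext x
  rw [Equiv.Perm.mul_apply, permOf_apply, permOf_apply, permOf_apply, Subgroup.coe_mul,
    redMatrix_mul, mul_smul]

theorem permOf_one : (permOf (1 : Gamma0 N) : Equiv.Perm (OnePoint (ZMod ℓ))) = 1 := by
  ext x
  rw [permOf_apply, Subgroup.coe_one, redMatrix_one, one_smul]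
  rfl

theorem permOf_pow (γ : Gamma0 N) (n : ℕ) :
    (permOf (γ ^ n) : Equiv.Perm (OnePoint (ZMod ℓ))) = permOf γ ^ n := by
  induction n with
  | zero => rw [pow_zero, pow_zero, permOf_one]
  | succ n ih => rw [pow_succ, permOf_mul, ih, pow_succ']

theorem trf_pow_succ (hℓN : ¬ ℓ ∣ N) (γ : Gamma0 N) (n : ℕ) (x : OnePoint (ZMod ℓ)) :
    trf hℓN (γ ^ (n + 1)) x = trf hℓN (γ ^ n) x * trf hℓN γ ((permOf γ ^ n) x) := by
  rw [pow_succ, trf_mul, ← permOf_apply, permOf_pow]

/-- the cocycle sum along a `σ`-orbit segment -/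
theorem sum_range_trf (hℓN : ¬ ℓ ∣ N) {A : Type*} [AddCommGroup A]
    (χ : Additive (Gamma0 N) →+ A) (γ : Gamma0 N) (x : OnePoint (ZMod ℓ)) (n : ℕ) :
    ∑ k ∈ Finset.range n, χ (Additive.ofMul (trf hℓN γ ((permOf γ ^ k) x)))
      = χ (Additive.ofMul (trf hℓN (γ ^ n) x)) := by
  induction n with
  | zero => simp [trf_one]
  | succ n ih =>
    rw [Finset.sum_range_succ, ih, trf_pow_succ, ofMul_mul, map_add]

/-- if `x` is fixed by `γ`, then `trf γ x` is conjugate to `γ` in `GL₂(ℝ)` -/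
theorem trf_fixed_spec (hℓN : ¬ ℓ ∣ N) (γ : Gamma0 N) (x : OnePoint (ZMod ℓ))
    (hx : permOf γ x = x) :
    _root_.P2MW.S_ModularForm_heckeT_slash_eq_self_of_mem_Gamma0.ModularForm.HeckeSlashInvariance.heckeRep ℓ x * mapGL ℝ (γ : SL(2, ℤ))
      = mapGL ℝ ((trf hℓN γ x : Gamma0 N) : SL(2, ℤ)) * _root_.P2MW.S_ModularForm_heckeT_slash_eq_self_of_mem_Gamma0.ModularForm.HeckeSlashInvariance.heckeRep ℓ x := by
  have h := trf_spec hℓN γ x
  rw [← permOf_apply, hx] at h
  exact h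

theorem trf_fixed_pow (hℓN : ¬ ℓ ∣ N) (γ : Gamma0 N) (x : OnePoint (ZMod ℓ))
    (hx : permOf γ x = x) (n : ℕ) : trf hℓN (γ ^ n) x = trf hℓN γ x ^ n := by
  induction n with
  | zero => rw [pow_zero, pow_zero, trf_one]
  | succ n ih =>
    rw [trf_pow_succ, ih, pow_succ]
    congr 2
    have : ∀ k : ℕ, (permOf γ ^ k) x = x := by
      intro k
      induction k with
      | zero => rfl
      | succ k ihk => rw [pow_succ, Equiv.Perm.mul_apply, hx, ihk]
    exact this n

theorem trace_trf_fixed (hℓN : ¬ ℓ ∣ N) (γ : Gamma0 N) (x : OnePoint (ZMod ℓ))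
    (hx : permOf γ x = x) :
    (((trf hℓN γ x : Gamma0 N) : SL(2, ℤ)) : Matrix (Fin 2) (Fin 2) ℤ).trace
      = ((γ : SL(2, ℤ)) : Matrix (Fin 2) (Fin 2) ℤ).trace := by
  have h := trf_fixed_spec hℓN γ x hx
  have h1 : mapGL ℝ ((trf hℓN γ x : Gamma0 N) : SL(2, ℤ))
      = _root_.P2MW.S_ModularForm_heckeT_slash_eq_self_of_mem_Gamma0.ModularForm.HeckeSlashInvariance.heckeRep ℓ x * mapGL ℝ (γ : SL(2, ℤ)) * (_root_.P2MW.S_ModularForm_heckeT_slash_eq_self_of_mem_Gamma0.ModularForm.HeckeSlashInvariance.heckeRep ℓ x)⁻¹ := by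
    rw [h, mul_inv_cancel_right]
  have h2 : ((mapGL ℝ ((trf hℓN γ x : Gamma0 N) : SL(2, ℤ)) : GL (Fin 2) ℝ) :
        Matrix (Fin 2) (Fin 2) ℝ).trace
      = ((mapGL ℝ (γ : SL(2, ℤ)) : GL (Fin 2) ℝ) : Matrix (Fin 2) (Fin 2) ℝ).trace := by
    rw [h1, Matrix.GeneralLinearGroup.coe_mul, Matrix.trace_mul_comm,
      ← Matrix.GeneralLinearGroup.coe_mul, inv_mul_cancel_left]
  have h3 : ∀ g : SL(2, ℤ), ((mapGL ℝ g : GL (Fin 2) ℝ) : Matrix (Fin 2) (Fin 2) ℝ).trace
      = (((g : Matrix (Fin 2) (Fin 2) ℤ).trace : ℤ) : ℝ) := by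
    intro g
    simp [Matrix.trace_fin_two]
  rw [h3, h3] at h2
  exact_mod_cast h2

/-- Cayley–Hamilton in `SL(2, ℤ)`: the trace recurrence. -/
theorem trace_pow_add_two (g : SL(2, ℤ)) (n : ℕ) :
    ((g ^ (n + 2) : SL(2, ℤ)) : Matrix (Fin 2) (Fin 2) ℤ).trace
      = (g : Matrix (Fin 2) (Fin 2) ℤ).trace * ((g ^ (n + 1) : SL(2, ℤ)) : Matrix (Fin 2) (Fin 2) ℤ).trace
        - ((g ^ n : SL(2, ℤ)) : Matrix (Fin 2) (Fin 2) ℤ).trace := by
  have hdet : (g : Matrix (Fin 2) (Fin 2) ℤ) 0 0 * (g : Matrix (Fin 2) (Fin 2) ℤ) 1 1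
      - (g : Matrix (Fin 2) (Fin 2) ℤ) 0 1 * (g : Matrix (Fin 2) (Fin 2) ℤ) 1 0 = 1 := by
    have := g.det_coe
    rwa [Matrix.det_fin_two] at this
  have h1 : ((g ^ (n + 1) : SL(2, ℤ)) : Matrix (Fin 2) (Fin 2) ℤ)
      = ((g ^ n : SL(2, ℤ)) : Matrix (Fin 2) (Fin 2) ℤ) * (g : Matrix (Fin 2) (Fin 2) ℤ) := by
    rw [pow_succ, Matrix.SpecialLinearGroup.coe_mul]
  have h2 : ((g ^ (n + 2) : SL(2, ℤ)) : Matrix (Fin 2) (Fin 2) ℤ)
      = ((g ^ n : SL(2, ℤ)) : Matrix (Fin 2) (Fin 2) ℤ) * (g : Matrix (Fin 2) (Fin 2) ℤ)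
        * (g : Matrix (Fin 2) (Fin 2) ℤ) := by
    rw [pow_succ, Matrix.SpecialLinearGroup.coe_mul, h1]
  rw [h2, h1]
  generalize ((g ^ n : SL(2, ℤ)) : Matrix (Fin 2) (Fin 2) ℤ) = P
  simp only [Matrix.trace_fin_two, Matrix.mul_apply, Fin.sum_univ_two]
  linear_combination (-(P 0 0) - P 1 1) * hdet

theorem trace_pow_sq_eq_four (g : SL(2, ℤ))
    (hg : (g : Matrix (Fin 2) (Fin 2) ℤ).trace ^ 2 = 4) (n : ℕ) :
    ((g ^ n : SL(2, ℤ)) : Matrix (Fin 2) (Fin 2) ℤ).trace ^ 2 = 4 := by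
  set t := (g : Matrix (Fin 2) (Fin 2) ℤ).trace with ht
  have key : ∀ n : ℕ, ((g ^ n : SL(2, ℤ)) : Matrix (Fin 2) (Fin 2) ℤ).trace ^ 2 = 4 ∧
      ((g ^ (n + 1) : SL(2, ℤ)) : Matrix (Fin 2) (Fin 2) ℤ).trace
        * 2 = t * ((g ^ n : SL(2, ℤ)) : Matrix (Fin 2) (Fin 2) ℤ).trace := by
    intro n
    induction n with
    | zero =>
      refine ⟨by simp [Matrix.trace_fin_two], ?_⟩
      simp [Matrix.trace_fin_two, ht]
    | succ n ih =>
      obtain ⟨h1, h2⟩ := ih
      have h3 := trace_pow_add_two g n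
      set s0 := ((g ^ n : SL(2, ℤ)) : Matrix (Fin 2) (Fin 2) ℤ).trace
      set s1 := ((g ^ (n + 1) : SL(2, ℤ)) : Matrix (Fin 2) (Fin 2) ℤ).trace
      set s2 := ((g ^ (n + 2) : SL(2, ℤ)) : Matrix (Fin 2) (Fin 2) ℤ).trace
      have h4 : (s1 * 2) ^ 2 = (t * s0) ^ 2 := by rw [h2]
      have h5 : s1 ^ 2 = 4 := by nlinarith [h4, h1, hg]
      refine ⟨h5, ?_⟩
      show s2 * 2 = t * s1
      rw [h3]
      have h6 : t * (s1 * 2) = t * (t * s0) := by rw [h2]
      nlinarith [h6, hg, h1, h5]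
  exact (key n).1

/-- (A) cycle argument: `heckeHom` preserves "pe". -/
theorem heckeHom_mem_pe (hℓN : ¬ ℓ ∣ N) {A : Type*} [AddCommGroup A]
    {χ : Additive (Gamma0 N) →+ A} (hχ : IsPe χ) : IsPe (heckeHom ℓ hℓN A χ) := by
  have main : ∀ γ : Gamma0 N,
      (∀ (n : ℕ) (x : OnePoint (ZMod ℓ)), permOf (γ ^ n) x = x →
        χ (Additive.ofMul (trf hℓN (γ ^ n) x)) = 0) →
      heckeHom ℓ hℓN A χ (Additive.ofMul γ) = 0 := by
    intro γ hγ
    rw [heckeHom_apply]
    refine sum_eq_zero_of_cycle_sums (permOf γ) _ fun x => ?_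
    rw [sum_range_trf hℓN χ γ x]
    apply hγ
    rw [permOf_pow, ← Equiv.Perm.iterate_eq_pow]
    exact Function.iterate_minimalPeriod
  refine ⟨fun γ hγ => main γ fun n x hx => ?_, fun γ hγ => main γ fun n x hx => ?_⟩
  · apply hχ.1
    rw [trace_trf_fixed hℓN (γ ^ n) x hx, Subgroup.coe_pow]
    exact trace_pow_sq_eq_four _ hγ n
  · apply hχ.2
    have h1 : IsOfFinOrder (γ ^ n) := hγ.pow
    obtain ⟨k, hk, hγk⟩ := h1.exists_pow_eq_one
    rw [isOfFinOrder_iff_pow_eq_one]
    refine ⟨k, hk, ?_⟩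
    rw [← trf_fixed_pow hℓN (γ ^ n) x hx k, hγk, trf_one]

end Fermat.Agent.S29.H201

end
-- ===== PACK-END S29/H201/PeCycle.lean

-- ===== PACK-BEGIN Lib/Newform/H803/MainLemma.lean
section




/-!
# The Atkin–Lehner main lemma for `Γ₀(N)` (helper803)

`mainLemma`: if `f ∈ S_k(Γ₀(N))` has `a_n(f) = 0` for all `n` coprime to `N`, then
`f(τ) = ∑_{p ∣ N} g_p(p τ)` with `g_p ∈ S_k(Γ₀(N / p))`.
-/

set_option autoImplicit false

namespace Fermat.Agent.Lib.Newform.H803

open Matrix Matrix.SpecialLinearGroup CongruenceSubgroup UpperHalfPlane ModularForm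
open scoped MatrixGroups ModularForm Manifold Real

variable {k : ℤ}

theorem one_mem_strictPeriods_Gamma0_H803 (N : ℕ) :
    (1 : ℝ) ∈ ((Gamma0 N : Subgroup SL(2, ℤ)) : Subgroup (GL (Fin 2) ℝ)).strictPeriods := by
  simp

/-- The `q`-expansion of a cusp form on `Γ₀(N)` sums to the form. -/
theorem hasSum_qExpansion_Gamma0 {N : ℕ} (f : CuspForm (Gamma0 N) k) (τ : ℍ) :
    HasSum (fun m : ℕ => (qExpansion 1 f).coeff m * Function.Periodic.qParam 1 τ ^ m) (f τ) := by
  have hΓ := one_mem_strictPeriods_Gamma0_H803 N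
  have hc : IsCusp OnePoint.infty ((Gamma0 N : Subgroup SL(2, ℤ)) : Subgroup (GL (Fin 2) ℝ)) :=
    Subgroup.isCusp_of_mem_strictPeriods one_pos hΓ
  have hz : IsZeroAtImInfty (f : ℍ → ℂ) := OnePoint.isZeroAt_infty_iff.mp (f.zero_at_cusps' hc)
  have := UpperHalfPlane.hasSum_qExpansion (f := (f : ℍ → ℂ)) one_pos
    (SlashInvariantFormClass.periodic_comp_ofComplex f hΓ) f.holo' hz.isBoundedAtImInfty τ
  simpa [smul_eq_mul] using this

theorem heckeMatrix_smul_heckeDiagMatrix_smul {N : ℕ} (hN : N ≠ 0) (τ : ℍ) :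
    heckeMatrix N 0 • (heckeDiagMatrix N • τ) = τ := by
  apply UpperHalfPlane.ext
  rw [coe_heckeMatrix_smul hN, coe_heckeDiagMatrix_smul hN]
  have : (N : ℂ) ≠ 0 := by exact_mod_cast hN
  field_simp
  simp

theorem heckeDiagMatrix_smul_smul {d p N : ℕ} (hd : d ≠ 0) (hp : p ≠ 0) (hN : N ≠ 0)
    (h : p * d = N) (τ : ℍ) :
    heckeDiagMatrix d • (heckeDiagMatrix p • τ) = heckeDiagMatrix N • τ := by
  apply UpperHalfPlane.ext
  rw [coe_heckeDiagMatrix_smul hd, coe_heckeDiagMatrix_smul hp, coe_heckeDiagMatrix_smul hN, ← h]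
  push_cast
  ring

/-- **Atkin–Lehner main lemma.** -/
theorem mainLemma (N : ℕ) [NeZero N] (k : ℤ) (f : CuspForm (Gamma0 N) k)
    (h : ∀ n : ℕ, n.Coprime N → (qExpansion 1 f).coeff n = 0) :
    ∃ g : (p : ℕ) → CuspForm (Gamma0 (N / p)) k,
      ∀ τ : ℍ, f τ = ∑ p ∈ N.primeFactors, g p (heckeDiagMatrix p • τ) := by
  classical
  have hN : N ≠ 0 := NeZero.ne N
  set F : ℍ → ℂ := (f : ℍ → ℂ) ∣[k] heckeMatrix N 0 with hF
  have hFinv : SlInv k (GammaU N) F := slInv_hat hN (slInv_of_cuspForm f)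
  have hFcusp : IsCuspidal k F := (isCuspidal_of_cuspForm f).slash_heckeMatrix hN 0
  have hLnd : (N.primeFactors.toList).Nodup := Finset.nodup_toList _
  have hLmem : ∀ p ∈ N.primeFactors.toList, p.Prime ∧ p ∣ N := by
    intro p hp
    rw [Finset.mem_toList, Nat.mem_primeFactors] at hp
    exact ⟨hp.1, hp.2.1⟩
  have hQ : HasQN N (fun n => (N : ℂ)⁻¹ * (qExpansion 1 f).coeff n) F :=
    hasQN_hat hN (fun τ => hasSum_qExpansion_Gamma0 f τ)
  have hK : killL k N N.primeFactors.toList F = 0 := by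
    refine (hasQN_killL hN hQ _ fun p hp => ⟨(hLmem p hp).1.ne_zero, (hLmem p hp).2⟩).eq_zero ?_
    intro n
    split_ifs with hn
    · rfl
    · rw [h n, mul_zero]
      apply Nat.Coprime.symm
      rw [Nat.coprime_comm]
      apply Nat.coprime_of_dvd
      intro q hq hqn hqN
      exact hn ⟨q, by rw [Finset.mem_toList, Nat.mem_primeFactors]; exact ⟨hq, hqN, hN⟩, hqn⟩
  obtain ⟨G, hG, hGsum⟩ := main_hat (k := k) N cuspSub_slash_stable _ hLnd hLmem F
    (mem_cuspSub.mpr hFcusp) hFinv hK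
  have hd0 : ∀ p ∈ N.primeFactors, N / p ≠ 0 := by
    intro p hp
    rw [Nat.mem_primeFactors] at hp
    exact (Nat.div_pos (Nat.le_of_dvd (Nat.pos_of_ne_zero hN) hp.2.1) hp.1.pos).ne'
  have hGc : ∀ p ∈ N.primeFactors, IsCuspidal k (G p) := fun p hp =>
    mem_cuspSub.mp (hG p (Finset.mem_toList.mpr hp)).1
  have hGi : ∀ p ∈ N.primeFactors, SlInv k (GammaU (N / p)) (G p) := fun p hp =>
    (hG p (Finset.mem_toList.mpr hp)).2
  let g : (p : ℕ) → CuspForm (Gamma0 (N / p)) k := fun p =>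
    if hp : p ∈ N.primeFactors then
      cuspFormOfIsCuspidal (Gamma0 (N / p))
        (((N : ℂ) * ((((N / p : ℕ) : ℂ)) ^ (k - 1))⁻¹) • (G p ∣[k] heckeDiagMatrix (N / p)))
        (((hGc p hp).slash_heckeDiagMatrix (hd0 p hp)).smul _)
        ((slInv_unhat (hd0 p hp) (hGi p hp)).smul _)
    else 0
  have hg : ∀ p ∈ N.primeFactors, ∀ τ : ℍ, g p τ =
      ((N : ℂ) * ((((N / p : ℕ) : ℂ)) ^ (k - 1))⁻¹) *
        (G p ∣[k] heckeDiagMatrix (N / p)) τ := by
    intro p hp τ
    simp only [g, dif_pos hp]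
    rfl
  refine ⟨g, ?_⟩
  intro τ
  -- `f τ = N * F (N τ)`
  have h1 : f τ = (N : ℂ) * F (heckeDiagMatrix N • τ) := by
    rw [hF, slash_heckeMatrix_apply k hN 0, heckeMatrix_smul_heckeDiagMatrix_smul hN]
    have : (N : ℂ) ≠ 0 := by exact_mod_cast hN
    field_simp
  rw [h1, hGsum, Finset.sum_map_toList, Finset.sum_apply, Finset.mul_sum]
  refine Finset.sum_congr rfl fun p hp => ?_
  have hpN : p * (N / p) = N := Nat.mul_div_cancel' (Nat.mem_primeFactors.mp hp).2.1
  have hp0 : p ≠ 0 := (Nat.mem_primeFactors.mp hp).1.ne_zero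
  rw [hg p hp, slash_heckeDiagMatrix_apply k (hd0 p hp),
    heckeDiagMatrix_smul_smul (hd0 p hp) hp0 hN hpN]
  have hd' : (((N / p : ℕ) : ℂ)) ^ (k - 1) ≠ 0 :=
    zpow_ne_zero _ (by exact_mod_cast hd0 p hp)
  field_simp

end Fermat.Agent.Lib.Newform.H803

end
-- ===== PACK-END Lib/Newform/H803/MainLemma.lean

-- ===== PACK-BEGIN S55/Bridge/H594/Unram.lean
section



/-!
# S55 bridge (helper594), piece B10: Prelude "unramified" versus classical "unramified"

`F ⊂ ℚ̄` a finite Galois extension of `ℚ`, `q` a prime number.  The Prelude condition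

  `∀ A : ValuationSubring ℚ̄, A.LiesOverPrime q → A.inertiaSubgroupIn ℚ ≤ F.fixingSubgroup`

is equivalent to: all inertia groups in `Gal(F/ℚ)` of primes of `𝓞 F` containing `q` are trivial,
and to: the ramification index of `q` in `𝓞 F` is `1`.
-/

set_option autoImplicit false
set_option linter.style.haveILetI false
set_option linter.unusedSectionVars false

namespace Fermat.Agent.S55.Bridge.H594

open Fermat.Agent.S54 Fermat.Agent.S55.Bridge NumberField
open scoped Pointwise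

attribute [local instance] isAlgebraic_Qbar isGalois_Qbar

section unram

variable (F : IntermediateField ℚ (AlgebraicClosure ℚ)) [FiniteDimensional ℚ F]

/-- A finite intermediate field of `ℚ̄/ℚ` is a number field. -/
theorem numberField_of_finite : NumberField F :=
  { to_charZero := inferInstance, to_finiteDimensional := inferInstance }

attribute [local instance] numberField_of_finite

variable (A : ValuationSubring (AlgebraicClosure ℚ))

theorem algebraMap_ringOfIntegers_mem (x : 𝓞 F) :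
    algebraMap (𝓞 F) (AlgebraicClosure ℚ) x ∈ A := by
  apply isIntegral_mem_valuationSubring A
  exact (RingOfIntegers.isIntegral x).map
    (IsScalarTower.toAlgHom ℤ (𝓞 F) (AlgebraicClosure ℚ))

/-- The prime of `𝓞 F` below the valuation subring `A` of `ℚ̄`. -/
def primeBelowF : Ideal (𝓞 F) where
  carrier := {x | algebraMap (𝓞 F) (AlgebraicClosure ℚ) x ∈ A.nonunits}
  add_mem' := fun {a b} ha hb => by
    simp only [Set.mem_ofPred_eq, map_add] at ha hb ⊢
    exact A.nonunits.add_mem ha hb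
  zero_mem' := by
    simp only [Set.mem_ofPred_eq, map_zero]
    exact A.nonunits.zero_mem
  smul_mem' := fun c b hb => by
    simp only [Set.mem_ofPred_eq, smul_eq_mul, map_mul] at hb ⊢
    rw [ValuationSubring.mem_nonunits_iff] at hb ⊢
    rw [map_mul]
    have hc : A.valuation (algebraMap (𝓞 F) (AlgebraicClosure ℚ) c) ≤ 1 :=
      (A.valuation_le_one_iff _).mpr (algebraMap_ringOfIntegers_mem F A c)
    exact mul_lt_one_of_nonneg_of_lt_one_right hc zero_le hb

theorem mem_primeBelowF (x : 𝓞 F) :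
    x ∈ primeBelowF F A ↔ algebraMap (𝓞 F) (AlgebraicClosure ℚ) x ∈ A.nonunits := Iff.rfl

theorem primeBelowF_isPrime : (primeBelowF F A).IsPrime := by
  constructor
  · intro h
    have : (1 : 𝓞 F) ∈ primeBelowF F A := by rw [h]; trivial
    rw [mem_primeBelowF, ValuationSubring.mem_nonunits_iff, map_one, map_one] at this
    exact lt_irrefl _ this
  · intro a b hab
    rw [mem_primeBelowF, ValuationSubring.mem_nonunits_iff] at hab ⊢
    rw [mem_primeBelowF, ValuationSubring.mem_nonunits_iff]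
    have ha : A.valuation (algebraMap (𝓞 F) (AlgebraicClosure ℚ) a) ≤ 1 :=
      (A.valuation_le_one_iff _).mpr (algebraMap_ringOfIntegers_mem F A a)
    have hb : A.valuation (algebraMap (𝓞 F) (AlgebraicClosure ℚ) b) ≤ 1 :=
      (A.valuation_le_one_iff _).mpr (algebraMap_ringOfIntegers_mem F A b)
    by_contra hcon
    rw [not_or, not_lt, not_lt] at hcon
    have ha1 := le_antisymm ha hcon.1
    have hb1 := le_antisymm hb hcon.2
    rw [map_mul, map_mul, ha1, hb1, mul_one] at hab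
    exact lt_irrefl _ hab

theorem natCast_mem_primeBelowF {q : ℕ} (hA : A.LiesOverPrime q) :
    (q : 𝓞 F) ∈ primeBelowF F A := by
  rw [mem_primeBelowF, map_natCast]
  exact hA

variable [IsGalois ℚ F]

theorem algebraMap_smul_ringOfIntegers (τ : F ≃ₐ[ℚ] F) (x : 𝓞 F) :
    algebraMap (𝓞 F) (AlgebraicClosure ℚ) (τ • x) =
      ((τ (algebraMap (𝓞 F) F x) : F) : AlgebraicClosure ℚ) := rfl

theorem algebraMap_restrict_smul (σ : AlgebraicClosure ℚ ≃ₐ[ℚ] AlgebraicClosure ℚ) (x : 𝓞 F) :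
    algebraMap (𝓞 F) (AlgebraicClosure ℚ) (AlgEquiv.restrictNormalHom F σ • x) =
      σ (algebraMap (𝓞 F) (AlgebraicClosure ℚ) x) := by
  rw [algebraMap_smul_ringOfIntegers, restrictNormalHom_apply]
  rfl

/-- The restriction to `F` of an element of the inertia group of `A` lies in the inertia group
of the prime of `𝓞 F` below `A`. -/
theorem restrict_mem_inertia_primeBelowF (σ : AlgebraicClosure ℚ ≃ₐ[ℚ] AlgebraicClosure ℚ)
    (hσ : σ ∈ A.inertiaSubgroupIn ℚ) :
    AlgEquiv.restrictNormalHom F σ ∈ (primeBelowF F A).inertia (F ≃ₐ[ℚ] F) := by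
  intro x
  show _ - x ∈ primeBelowF F A
  rw [mem_primeBelowF, map_sub, algebraMap_restrict_smul]
  exact ((mem_inertiaSubgroupIn_iff A σ).mp hσ).2 _ (algebraMap_ringOfIntegers_mem F A x)

/-- **B14 (inertia), ideal form**: the image in `Gal(F/ℚ)` of the inertia group of `A` is the
inertia group of the prime of `𝓞 F` below `A`. -/
theorem map_inertiaSubgroupIn_eq {q : ℕ} (hq : q.Prime) (hA : A.LiesOverPrime q) :
    (A.inertiaSubgroupIn ℚ).map (AlgEquiv.restrictNormalHom F) =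
      (primeBelowF F A).inertia (F ≃ₐ[ℚ] F) := by
  apply le_antisymm
  · rintro _ ⟨σ, hσ, rfl⟩
    exact restrict_mem_inertia_primeBelowF F A σ hσ
  · intro τ hτ
    obtain ⟨σ, hσ, hστ⟩ := exists_inertia_lift F A hq hA τ (fun x hx => by
      obtain ⟨y, rfl⟩ : ∃ y : 𝓞 F, algebraMap (𝓞 F) F y = x := ⟨⟨x, hx⟩, rfl⟩
      have h2 : τ • y - y ∈ primeBelowF F A := hτ y
      rw [mem_primeBelowF, map_sub, algebraMap_smul_ringOfIntegers] at h2
      exact h2)
    exact ⟨σ, hσ, hστ⟩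

/-- **B10.**  The Prelude unramifiedness condition at `q` for the finite Galois field `F` is
equivalent to the triviality of all inertia groups in `Gal(F/ℚ)` of primes of `𝓞 F` over `q`. -/
theorem inertia_le_fixingSubgroup_iff_inertia_eq_bot {q : ℕ} (hq : q.Prime) :
    (∀ A : ValuationSubring (AlgebraicClosure ℚ), A.LiesOverPrime q →
        A.inertiaSubgroupIn ℚ ≤ F.fixingSubgroup) ↔
      ∀ P : Ideal (𝓞 F), P.IsPrime → (q : 𝓞 F) ∈ P → P.inertia (F ≃ₐ[ℚ] F) = ⊥ := by
  constructor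
  · intro h P hP hqP
    rw [eq_bot_iff]
    intro τ hτ
    -- a valuation subring of `ℚ̄` above `P`
    let A₀ : Subring (AlgebraicClosure ℚ) := (algebraMap (𝓞 F) (AlgebraicClosure ℚ)).range
    let g : 𝓞 F →+* A₀ := (algebraMap (𝓞 F) (AlgebraicClosure ℚ)).rangeRestrict
    have hginj : Function.Injective g := by
      intro x y hxy
      have h1 : algebraMap (𝓞 F) (AlgebraicClosure ℚ) x =
          algebraMap (𝓞 F) (AlgebraicClosure ℚ) y :=
        congrArg (fun z : A₀ => (z : AlgebraicClosure ℚ)) hxy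
      exact FaithfulSMul.algebraMap_injective (𝓞 F) (AlgebraicClosure ℚ) h1
    have hgsurj : Function.Surjective g :=
      (algebraMap (𝓞 F) (AlgebraicClosure ℚ)).rangeRestrict_surjective
    have hI : P.map g ≠ ⊤ := by
      intro htop
      have h1 : (P.map g).comap g = P := Ideal.comap_map_of_bijective g ⟨hginj, hgsurj⟩
      rw [htop, Ideal.comap_top] at h1
      exact hP.ne_top h1.symm
    obtain ⟨A, -, hA⟩ := Ideal.image_subset_nonunits_valuationSubring _ hI
    have hPA : ∀ x ∈ P, algebraMap (𝓞 F) (AlgebraicClosure ℚ) x ∈ A.nonunits := by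
      intro x hx
      exact hA ⟨g x, Ideal.mem_map_of_mem g hx, rfl⟩
    have hAq : A.LiesOverPrime q := by
      have := hPA _ hqP
      rwa [map_natCast] at this
    obtain ⟨σ, hσ, hστ⟩ := exists_inertia_lift F A hq hAq τ (fun x hx => by
      obtain ⟨y, rfl⟩ : ∃ y : 𝓞 F, algebraMap (𝓞 F) F y = x := ⟨⟨x, hx⟩, rfl⟩
      have h2 := hPA _ (hτ y)
      rw [map_sub, algebraMap_smul_ringOfIntegers] at h2
      exact h2)
    have h3 := h A hAq hσ
    rw [← hστ, Subgroup.mem_bot]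
    exact restrictNormalHom_eq_one_of_mem_fixingSubgroup F σ h3
  · intro h A hA σ hσ
    haveI := primeBelowF_isPrime F A
    have h1 := restrict_mem_inertia_primeBelowF F A σ hσ
    rw [h (primeBelowF F A) inferInstance (natCast_mem_primeBelowF F A hA), Subgroup.mem_bot] at h1
    rw [IntermediateField.mem_fixingSubgroup_iff]
    intro x hx
    have h2 := restrictNormalHom_apply F σ ⟨x, hx⟩
    rw [h1] at h2
    exact h2.symm

/-- A prime of `𝓞 F` containing the prime number `q` lies over `(q) ⊂ ℤ`. -/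
theorem liesOver_span_of_natCast_mem {q : ℕ} (hq : q.Prime) (P : Ideal (𝓞 F)) [P.IsPrime]
    (hqP : (q : 𝓞 F) ∈ P) : P.LiesOver (Ideal.span {(q : ℤ)}) := by
  haveI hmax : (Ideal.span {(q : ℤ)}).IsMaximal :=
    PrincipalIdealRing.isMaximal_of_irreducible (Nat.prime_iff_prime_int.mp hq).irreducible
  refine ⟨?_⟩
  have hle : Ideal.span {(q : ℤ)} ≤ P.under ℤ := by
    rw [Ideal.span_le, Set.singleton_subset_iff]
    show algebraMap ℤ (𝓞 F) (q : ℤ) ∈ P
    simpa using hqP
  exact hmax.eq_of_le (Ideal.IsPrime.under ℤ P).ne_top hle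

/-- **B10, ramification index form.**  The Prelude unramifiedness condition at `q` for the
finite Galois field `F` holds iff `q` has ramification index `1` in `𝓞 F`. -/
theorem inertia_le_fixingSubgroup_iff_ramificationIdxIn {q : ℕ} (hq : q.Prime) :
    (∀ A : ValuationSubring (AlgebraicClosure ℚ), A.LiesOverPrime q →
        A.inertiaSubgroupIn ℚ ≤ F.fixingSubgroup) ↔
      (Ideal.span {(q : ℤ)}).ramificationIdxIn (𝓞 F) = 1 := by
  haveI hgal : IsGaloisGroup (F ≃ₐ[ℚ] F) ℤ (𝓞 F) :=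
    IsGaloisGroup.of_isFractionRing (F ≃ₐ[ℚ] F) ℤ (𝓞 F) ℚ F
  haveI hmax : (Ideal.span {(q : ℤ)}).IsMaximal :=
    PrincipalIdealRing.isMaximal_of_irreducible (Nat.prime_iff_prime_int.mp hq).irreducible
  haveI hprime : (Ideal.span {(q : ℤ)}).IsPrime := hmax.isPrime
  rw [inertia_le_fixingSubgroup_iff_inertia_eq_bot F hq]
  constructor
  · intro h
    obtain ⟨A, hA⟩ := exists_valuationSubring_liesOver q hq
    haveI := primeBelowF_isPrime F A
    haveI := liesOver_span_of_natCast_mem F hq (primeBelowF F A) (natCast_mem_primeBelowF F A hA)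
    rw [← Ideal.card_inertia_eq_ramificationIdxIn (G := F ≃ₐ[ℚ] F) (Ideal.span {(q : ℤ)})
      (primeBelowF F A), h _ inferInstance (natCast_mem_primeBelowF F A hA)]
    exact Subgroup.card_bot
  · intro h P hP hqP
    haveI := hP
    haveI := liesOver_span_of_natCast_mem F hq P hqP
    have h1 := Ideal.card_inertia_eq_ramificationIdxIn (G := F ≃ₐ[ℚ] F) (Ideal.span {(q : ℤ)}) P
    rw [h] at h1
    exact (Subgroup.card_eq_one).mp h1

/-- **B10 for levels.**  A finite Galois `F` is unramified outside `S` in the Prelude sense iff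
every prime number outside `S` has ramification index `1` in `𝓞 F`. -/
theorem isUnramifiedOutside_iff_ramificationIdxIn (S : Finset Nat.Primes) :
    F.IsUnramifiedOutside S ↔
      ∀ q : Nat.Primes, q ∉ S → (Ideal.span {((q : ℕ) : ℤ)}).ramificationIdxIn (𝓞 F) = 1 := by
  constructor
  · intro h q hqS
    exact (inertia_le_fixingSubgroup_iff_ramificationIdxIn F q.2).mp (h.2 q hqS)
  · intro h
    exact ⟨inferInstance, fun q hqS =>
      (inertia_le_fixingSubgroup_iff_ramificationIdxIn F q.2).mpr (h q hqS)⟩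

/-- **B10 for levels, inertia form.** -/
theorem isUnramifiedOutside_iff_inertia_eq_bot (S : Finset Nat.Primes) :
    F.IsUnramifiedOutside S ↔
      ∀ q : Nat.Primes, q ∉ S → ∀ P : Ideal (𝓞 F), P.IsPrime → ((q : ℕ) : 𝓞 F) ∈ P →
        P.inertia (F ≃ₐ[ℚ] F) = ⊥ := by
  constructor
  · intro h q hqS
    exact (inertia_le_fixingSubgroup_iff_inertia_eq_bot F q.2).mp (h.2 q hqS)
  · intro h
    exact ⟨inferInstance, fun q hqS =>
      (inertia_le_fixingSubgroup_iff_inertia_eq_bot F q.2).mpr (h q hqS)⟩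

end unram

end Fermat.Agent.S55.Bridge.H594

end
-- ===== PACK-END S55/Bridge/H594/Unram.lean

-- ===== PACK-BEGIN S36/H193/ClopenGraph.lean
section


/-!
# S36 engine, leaf CLOPEN (helper193), part 2: the dual graph of the special fibre is connected

Setting of `Clopen.lean`.  In addition the sheets are pairwise *separated*:

  `Sep 𝒲` : for distinct sheets `W ≠ W'` there is `c`, integral on all sheets, vanishing on `W'`
            and not on `W`

(true as soon as the centres of the sheets on one chart are pairwise incomparable, e.g. distinct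
height-one primes).

* `exists_sep_idem` (weak approximation): every subset of the sheets is cut out by an element of
  `F` which is `≡ 1` on it and `≡ 0` on the other sheets.
* **`clopen_sheets`**: a property of sheets which propagates along sheets meeting at a closed
  point of one of the two charts holds for all sheets or for none: *the graph "sheets, joined
  when they pass through a common closed point of the special fibre" is connected*.
* **`clopen_label`**: a labelling of the sheets (values in any type) which agrees on sheets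
  through a common closed point is constant.
* `clopen_const`: the same for labels `lab W ∈ F` which are the residues of one element `G`
  (`G ≡ lab W` on `W`); no separation hypothesis is needed, only that distinct labels stay
  distinct on every sheet.
-/

set_option autoImplicit false
set_option linter.style.haveILetI false

namespace Fermat.Agent.S36.H193

open Fermat.Agent.S18.H138

variable {R : Type*} [CommRing R] {F : Type*} [Field F] [Algebra R F]

/-- The sheets are pairwise separated by everywhere integral elements. -/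
def Sep (𝒲 : Set (ValuationSubring F)) : Prop :=
  ∀ W ∈ 𝒲, ∀ W' ∈ 𝒲, W ≠ W' →
    ∃ c : F, (∀ V ∈ 𝒲, c ∈ V) ∧ c ∈ W'.nonunits ∧ c ∉ W.nonunits

section Approx

theorem nu_unit_mul (W : ValuationSubring F) {a b : F} (ha : a ∈ W) (hb : b ∈ W)
    (ha' : a ∉ W.nonunits) (hb' : b ∉ W.nonunits) : a * b ∉ W.nonunits := by
  rw [ValuationSubring.mem_nonunits_iff, not_lt] at *
  have h1 : W.valuation a = 1 := le_antisymm ((W.valuation_le_one_iff a).2 ha) ha'
  have h2 : W.valuation b = 1 := le_antisymm ((W.valuation_le_one_iff b).2 hb) hb'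
  rw [map_mul, h1, h2, one_mul]

theorem nu_unit_inv (W : ValuationSubring F) {a : F} (ha : a ∈ W) (ha' : a ∉ W.nonunits) :
    a⁻¹ ∈ W := by
  rw [ValuationSubring.mem_nonunits_iff, not_lt] at ha'
  have h1 : W.valuation a = 1 := le_antisymm ((W.valuation_le_one_iff a).2 ha) ha'
  rw [← W.valuation_le_one_iff, map_inv₀, h1, inv_one]

theorem nu_sum (W : ValuationSubring F) {ι : Type*} (s : Finset ι) (f : ι → F)
    (h : ∀ i ∈ s, f i ∈ W.nonunits) : ∑ i ∈ s, f i ∈ W.nonunits := by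
  classical
  induction s using Finset.induction_on with
  | empty => simp
  | insert a s ha ih =>
    rw [Finset.sum_insert ha]
    exact nu_add W (h a (Finset.mem_insert_self a s))
      (ih fun i hi => h i (Finset.mem_insert_of_mem hi))

/-- An everywhere integral element vanishing on the sheets of `𝒮` and not on `W ∉ 𝒮`. -/
theorem exists_sep_elt {𝒲 : Set (ValuationSubring F)} (hsep : Sep 𝒲)
    (W : ValuationSubring F) (hW : W ∈ 𝒲) (𝒮 : Finset (ValuationSubring F))
    (h𝒮 : ∀ V ∈ 𝒮, V ∈ 𝒲 ∧ V ≠ W) :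
    ∃ c : F, (∀ V ∈ 𝒲, c ∈ V) ∧ c ∉ W.nonunits ∧ ∀ V ∈ 𝒮, c ∈ V.nonunits := by
  classical
  induction 𝒮 using Finset.induction_on with
  | empty => exact ⟨1, fun V _ => V.one_mem, nu_one_not W, by simp⟩
  | insert V₀ 𝒮 hV₀ ih =>
    obtain ⟨c, hc, hcW, hc𝒮⟩ := ih fun V hV => h𝒮 V (Finset.mem_insert_of_mem hV)
    obtain ⟨hV₀𝒲, hV₀W⟩ := h𝒮 V₀ (Finset.mem_insert_self V₀ 𝒮)
    obtain ⟨d, hd, hdV₀, hdW⟩ := hsep W hW V₀ hV₀𝒲 (Ne.symm hV₀W)
    refine ⟨d * c, fun V hV => V.mul_mem _ _ (hd V hV) (hc V hV),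
      nu_unit_mul W (hd W hW) (hc W hW) hdW hcW, ?_⟩
    intro V hV
    rw [Finset.mem_insert] at hV
    rcases hV with rfl | hV
    · exact nu_mul_right V hdV₀ (hc V hV₀𝒲)
    · exact nu_mul_left V (hc𝒮 V hV) (hd V (h𝒮 V (Finset.mem_insert_of_mem hV)).1)

/-- **Weak approximation for separated sheets.**  Every set of sheets is cut out by an
element which is `≡ 1` on it and `≡ 0` on the other sheets. -/
theorem exists_sep_idem {𝒲 : Set (ValuationSubring F)} (h𝒲 : 𝒲.Finite) (hsep : Sep 𝒲)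
    (P : ValuationSubring F → Prop) :
    ∃ e : F, ∀ W ∈ 𝒲, (P W → 1 - e ∈ W.nonunits) ∧ (¬ P W → e ∈ W.nonunits) := by
  classical
  -- the local generators
  have hc : ∀ W : ValuationSubring F, ∃ c : F, W ∈ 𝒲 →
      (∀ V ∈ 𝒲, c ∈ V) ∧ c ∉ W.nonunits ∧ ∀ V ∈ 𝒲, V ≠ W → c ∈ V.nonunits := by
    intro W
    by_cases hW : W ∈ 𝒲
    · obtain ⟨c, h1, h2, h3⟩ := exists_sep_elt hsep W hW (h𝒲.toFinset.erase W) (by
        intro V hV
        rw [Finset.mem_erase, Set.Finite.mem_toFinset] at hV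
        exact ⟨hV.2, hV.1⟩)
      refine ⟨c, fun _ => ⟨h1, h2, fun V hV hne => h3 V ?_⟩⟩
      rw [Finset.mem_erase, Set.Finite.mem_toFinset]
      exact ⟨hne, hV⟩
    · exact ⟨0, fun h => absurd h hW⟩
  choose c hc using hc
  set s : F := ∑ W ∈ h𝒲.toFinset, c W with hs
  set a : F := ∑ W ∈ h𝒲.toFinset.filter P, c W with ha
  set b : F := ∑ W ∈ h𝒲.toFinset.filter (fun W => ¬ P W), c W with hb
  have hab : a + b = s := by
    rw [ha, hb, hs]
    exact Finset.sum_filter_add_sum_filter_not _ _ _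
  have hcV : ∀ W ∈ 𝒲, ∀ V ∈ 𝒲, c W ∈ V := fun W hW V hV => (hc W hW).1 V hV
  -- `s` is a unit of every sheet
  have hsunit : ∀ V ∈ 𝒲, s ∈ V ∧ s ∉ V.nonunits := by
    intro V hV
    have hVmem : V ∈ h𝒲.toFinset := (Set.Finite.mem_toFinset h𝒲).2 hV
    have h1 : s = c V + ∑ W ∈ h𝒲.toFinset.erase V, c W := by
      rw [hs, Finset.add_sum_erase _ _ hVmem]
    have h2 : ∑ W ∈ h𝒲.toFinset.erase V, c W ∈ V.nonunits := by
      refine nu_sum V _ _ fun W hW => ?_
      rw [Finset.mem_erase, Set.Finite.mem_toFinset] at hW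
      exact (hc W hW.2).2.2 V hV (Ne.symm hW.1)
    refine ⟨?_, ?_⟩
    · rw [h1]
      exact V.add_mem _ _ (hcV V hV V hV) (nu_mem V h2)
    · intro h3
      apply (hc V hV).2.1
      have : c V = s - ∑ W ∈ h𝒲.toFinset.erase V, c W := by rw [h1]; ring
      rw [this]
      exact nu_sub V h3 h2
  refine ⟨a * s⁻¹, fun V hV => ⟨fun hP => ?_, fun hP => ?_⟩⟩
  · -- `1 - e = b / s`
    obtain ⟨hsV, hsu⟩ := hsunit V hV
    have hs0 : s ≠ 0 := by
      rintro h0
      rw [h0] at hsu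
      exact hsu (nu_zero V)
    have h1 : 1 - a * s⁻¹ = b * s⁻¹ := by
      field_simp
      rw [← hab]; ring
    rw [h1]
    refine nu_mul_right V (nu_sum V _ _ fun W hW => ?_) (nu_unit_inv V hsV hsu)
    rw [Finset.mem_filter, Set.Finite.mem_toFinset] at hW
    refine (hc W hW.1).2.2 V hV ?_
    rintro rfl
    exact hW.2 hP
  · obtain ⟨hsV, hsu⟩ := hsunit V hV
    refine nu_mul_right V (nu_sum V _ _ fun W hW => ?_) (nu_unit_inv V hsV hsu)
    rw [Finset.mem_filter, Set.Finite.mem_toFinset] at hW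
    refine (hc W hW.1).2.2 V hV ?_
    rintro rfl
    exact hP hW.2

end Approx

section Main

variable [IsNoetherianRing R] [IsIntegrallyClosed (Polynomial R)] [CharZero F]

/-- **CLOPEN, graph form.**  The graph whose vertices are the sheets of the special fibre,
two sheets being joined when they pass through a common closed point of one of the two charts,
is connected: a property of sheets which propagates along edges holds for all or for none. -/
theorem clopen_sheets
    (hinjR : Function.Injective (algebraMap R F))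
    (hRF : ∀ y : F, IsIntegral R y → y ∈ Set.range (algebraMap R F))
    {x : F} (hx : Transcendental R x) [FiniteDimensional (baseField R x) F]
    (w : R) (hw : Prime w)
    {𝒲 : Set (ValuationSubring F)} (h𝒲 : 𝒲.Finite) (hsep : Sep 𝒲)
    (hmid : ∀ W ∈ 𝒲, ∀ c ∈ chart R ({x, x⁻¹} : Set F), c ∈ W)
    (hwW : ∀ W ∈ 𝒲, algebraMap R F w ∈ W.nonunits)
    (qep_fin : QepRad 𝒲 w (chart R ({x} : Set F)))
    (qep_inf : QepRad 𝒲 w (chart R ({x⁻¹} : Set F)))
    (qep_mid : QepRad 𝒲 w (chart R ({x, x⁻¹} : Set F)))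
    (P : ValuationSubring F → Prop)
    (hloc_fin : ∀ 𝔫 : Ideal (chart R ({x} : Set F)), 𝔫.IsMaximal →
      algebraMap R (chart R ({x} : Set F)) w ∈ 𝔫 →
      ∀ W ∈ 𝒲, ∀ W' ∈ 𝒲, Through _ 𝔫 W → Through _ 𝔫 W' → P W → P W')
    (hloc_inf : ∀ 𝔫 : Ideal (chart R ({x⁻¹} : Set F)), 𝔫.IsMaximal →
      algebraMap R (chart R ({x⁻¹} : Set F)) w ∈ 𝔫 →
      ∀ W ∈ 𝒲, ∀ W' ∈ 𝒲, Through _ 𝔫 W → Through _ 𝔫 W' → P W → P W') :
    (∀ W ∈ 𝒲, P W) ∨ (∀ W ∈ 𝒲, ¬ P W) := by
  obtain ⟨e, he⟩ := exists_sep_idem h𝒲 hsep fun W => ¬ P W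
  have he₀ : ∀ W ∈ 𝒲, e ∈ W.nonunits ∨ 1 - e ∈ W.nonunits := by
    intro W hW
    by_cases hP : P W
    · exact Or.inl ((he W hW).2 (not_not.2 hP))
    · exact Or.inr ((he W hW).1 hP)
  have hiff : ∀ W ∈ 𝒲, e ∈ W.nonunits ↔ P W := by
    intro W hW
    constructor
    · intro h
      by_contra hP
      exact nu_not_both W h ((he W hW).1 hP)
    · intro hP
      exact (he W hW).2 (not_not.2 hP)
  rcases clopen_idem hinjR hRF hx w hw h𝒲 hmid hwW qep_fin qep_inf qep_mid he₀
      (fun 𝔫 h𝔫 hw𝔫 W hW W' hW' hth hth' h =>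
        (hiff W' hW').2 (hloc_fin 𝔫 h𝔫 hw𝔫 W hW W' hW' hth hth' ((hiff W hW).1 h)))
      (fun 𝔫 h𝔫 hw𝔫 W hW W' hW' hth hth' h =>
        (hiff W' hW').2 (hloc_inf 𝔫 h𝔫 hw𝔫 W hW W' hW' hth hth' ((hiff W hW).1 h))) with h | h
  · exact Or.inl fun W hW => (hiff W hW).1 (h W hW)
  · refine Or.inr fun W hW hP => ?_
    exact nu_not_both W ((hiff W hW).2 hP) (h W hW)

/-- **CLOPEN, label form.**  A labelling of the sheets which agrees on any two sheets passing
through a common closed point of the special fibre is constant. -/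
theorem clopen_label
    (hinjR : Function.Injective (algebraMap R F))
    (hRF : ∀ y : F, IsIntegral R y → y ∈ Set.range (algebraMap R F))
    {x : F} (hx : Transcendental R x) [FiniteDimensional (baseField R x) F]
    (w : R) (hw : Prime w)
    {𝒲 : Set (ValuationSubring F)} (h𝒲 : 𝒲.Finite) (hsep : Sep 𝒲)
    (hmid : ∀ W ∈ 𝒲, ∀ c ∈ chart R ({x, x⁻¹} : Set F), c ∈ W)
    (hwW : ∀ W ∈ 𝒲, algebraMap R F w ∈ W.nonunits)
    (qep_fin : QepRad 𝒲 w (chart R ({x} : Set F)))
    (qep_inf : QepRad 𝒲 w (chart R ({x⁻¹} : Set F)))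
    (qep_mid : QepRad 𝒲 w (chart R ({x, x⁻¹} : Set F)))
    {α : Type*} (lab : ValuationSubring F → α)
    (hloc_fin : ∀ 𝔫 : Ideal (chart R ({x} : Set F)), 𝔫.IsMaximal →
      algebraMap R (chart R ({x} : Set F)) w ∈ 𝔫 →
      ∀ W ∈ 𝒲, ∀ W' ∈ 𝒲, Through _ 𝔫 W → Through _ 𝔫 W' → lab W = lab W')
    (hloc_inf : ∀ 𝔫 : Ideal (chart R ({x⁻¹} : Set F)), 𝔫.IsMaximal →
      algebraMap R (chart R ({x⁻¹} : Set F)) w ∈ 𝔫 →
      ∀ W ∈ 𝒲, ∀ W' ∈ 𝒲, Through _ 𝔫 W → Through _ 𝔫 W' → lab W = lab W') :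
    ∀ W ∈ 𝒲, ∀ W' ∈ 𝒲, lab W = lab W' := by
  intro W₀ hW₀ W₁ hW₁
  rcases clopen_sheets hinjR hRF hx w hw h𝒲 hsep hmid hwW qep_fin qep_inf qep_mid
      (fun W => lab W = lab W₀)
      (fun 𝔫 h𝔫 hw𝔫 W hW W' hW' hth hth' h =>
        (hloc_fin 𝔫 h𝔫 hw𝔫 W' hW' W hW hth' hth).trans h)
      (fun 𝔫 h𝔫 hw𝔫 W hW W' hW' hth hth' h =>
        (hloc_inf 𝔫 h𝔫 hw𝔫 W' hW' W hW hth' hth).trans h) with h | h
  · exact (h W₁ hW₁).symm
  · exact absurd rfl (h W₀ hW₀)

/-- **CLOPEN, residue form** (no separation hypothesis).  Let `G ∈ F` have residue `lab W` on the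
sheet `W`, where the `lab W ∈ F` are integral on every sheet and distinct labels stay distinct
on every sheet (e.g. roots of unity of order invertible in `R`).  If the labels of two sheets
through a common closed point of the special fibre agree, all labels agree. -/
theorem clopen_const
    (hinjR : Function.Injective (algebraMap R F))
    (hRF : ∀ y : F, IsIntegral R y → y ∈ Set.range (algebraMap R F))
    {x : F} (hx : Transcendental R x) [FiniteDimensional (baseField R x) F]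
    (w : R) (hw : Prime w)
    {𝒲 : Set (ValuationSubring F)} (h𝒲 : 𝒲.Finite)
    (hmid : ∀ W ∈ 𝒲, ∀ c ∈ chart R ({x, x⁻¹} : Set F), c ∈ W)
    (hwW : ∀ W ∈ 𝒲, algebraMap R F w ∈ W.nonunits)
    (qep_fin : QepRad 𝒲 w (chart R ({x} : Set F)))
    (qep_inf : QepRad 𝒲 w (chart R ({x⁻¹} : Set F)))
    (qep_mid : QepRad 𝒲 w (chart R ({x, x⁻¹} : Set F)))
    (G : F) (lab : ValuationSubring F → F)
    (hG : ∀ W ∈ 𝒲, G - lab W ∈ W.nonunits)
    (hlabW : ∀ W ∈ 𝒲, ∀ V ∈ 𝒲, lab W ∈ V)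
    (hlabne : ∀ W ∈ 𝒲, ∀ W' ∈ 𝒲, ∀ V ∈ 𝒲, lab W ≠ lab W' → lab W - lab W' ∉ V.nonunits)
    (hloc_fin : ∀ 𝔫 : Ideal (chart R ({x} : Set F)), 𝔫.IsMaximal →
      algebraMap R (chart R ({x} : Set F)) w ∈ 𝔫 →
      ∀ W ∈ 𝒲, ∀ W' ∈ 𝒲, Through _ 𝔫 W → Through _ 𝔫 W' → lab W = lab W')
    (hloc_inf : ∀ 𝔫 : Ideal (chart R ({x⁻¹} : Set F)), 𝔫.IsMaximal →
      algebraMap R (chart R ({x⁻¹} : Set F)) w ∈ 𝔫 →
      ∀ W ∈ 𝒲, ∀ W' ∈ 𝒲, Through _ 𝔫 W → Through _ 𝔫 W' → lab W = lab W') :
    ∀ W ∈ 𝒲, ∀ W' ∈ 𝒲, lab W = lab W' := by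
  classical
  intro W₀ hW₀ W₁ hW₁
  set ℓ₀ : F := lab W₀ with hℓ₀
  -- the other labels
  set Λ : Finset F := (h𝒲.toFinset.image lab).erase ℓ₀ with hΛ
  have hΛmem : ∀ ℓ, ℓ ∈ Λ ↔ ℓ ≠ ℓ₀ ∧ ∃ W ∈ 𝒲, lab W = ℓ := by
    intro ℓ
    rw [hΛ, Finset.mem_erase, Finset.mem_image]
    simp only [Set.Finite.mem_toFinset]
  -- Lagrange idempotent of the label `ℓ₀`
  set e : F := ∏ ℓ ∈ Λ, (G - ℓ) * (ℓ₀ - ℓ)⁻¹ with he
  have hGV : ∀ V ∈ 𝒲, G ∈ V := by
    intro V hV
    have : G = (G - lab V) + lab V := by ring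
    rw [this]
    exact V.add_mem _ _ (nu_mem V (hG V hV)) (hlabW V hV V hV)
  have hinv : ∀ ℓ ∈ Λ, ∀ V ∈ 𝒲, (ℓ₀ - ℓ)⁻¹ ∈ V := by
    intro ℓ hℓ V hV
    obtain ⟨hne, W, hW, rfl⟩ := (hΛmem ℓ).1 hℓ
    exact nu_unit_inv V (V.sub_mem (hlabW W₀ hW₀ V hV) (hlabW W hW V hV))
      (hlabne W₀ hW₀ W hW V hV (Ne.symm hne))
  have hfac : ∀ ℓ ∈ Λ, ∀ V ∈ 𝒲, (G - ℓ) * (ℓ₀ - ℓ)⁻¹ ∈ V := by
    intro ℓ hℓ V hV
    obtain ⟨hne, W, hW, rfl⟩ := (hΛmem ℓ).1 hℓ
    exact V.mul_mem _ _ (V.sub_mem (hGV V hV) (hlabW W hW V hV)) (hinv _ hℓ V hV)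
  -- `e ≡ 1` on the sheets with label `ℓ₀`
  have he1 : ∀ V ∈ 𝒲, lab V = ℓ₀ → 1 - e ∈ V.nonunits := by
    intro V hV hlab
    have hgen : ∀ S : Finset F, S ⊆ Λ →
        1 - ∏ ℓ ∈ S, (G - ℓ) * (ℓ₀ - ℓ)⁻¹ ∈ V.nonunits ∧
          ∏ ℓ ∈ S, (G - ℓ) * (ℓ₀ - ℓ)⁻¹ ∈ V := by
      intro S
      induction S using Finset.induction_on with
      | empty =>
        intro _
        refine ⟨by simp, by simp [V.one_mem]⟩
      | insert ℓ S hℓ ih =>
        intro hS
        obtain ⟨ih1, ih2⟩ := ih fun a ha => hS (Finset.mem_insert_of_mem ha)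
        have hℓΛ : ℓ ∈ Λ := hS (Finset.mem_insert_self ℓ S)
        have hne : ℓ₀ - ℓ ≠ 0 := sub_ne_zero.2 (Ne.symm ((hΛmem ℓ).1 hℓΛ).1)
        have h1 : 1 - (G - ℓ) * (ℓ₀ - ℓ)⁻¹ ∈ V.nonunits := by
          have : 1 - (G - ℓ) * (ℓ₀ - ℓ)⁻¹ = -((G - lab V) * (ℓ₀ - ℓ)⁻¹) := by
            rw [hlab]
            field_simp
            ring
          rw [this]
          exact nu_neg V (nu_mul_right V (hG V hV) (hinv ℓ hℓΛ V hV))
        rw [Finset.prod_insert hℓ]
        refine ⟨?_, V.mul_mem _ _ (hfac ℓ hℓΛ V hV) ih2⟩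
        have : 1 - (G - ℓ) * (ℓ₀ - ℓ)⁻¹ * ∏ ℓ ∈ S, (G - ℓ) * (ℓ₀ - ℓ)⁻¹ =
            (1 - (G - ℓ) * (ℓ₀ - ℓ)⁻¹) * ∏ ℓ ∈ S, (G - ℓ) * (ℓ₀ - ℓ)⁻¹ +
              (1 - ∏ ℓ ∈ S, (G - ℓ) * (ℓ₀ - ℓ)⁻¹) := by ring
        rw [this]
        exact nu_add V (nu_mul_right V h1 ih2) ih1
    exact (hgen Λ (Finset.Subset.refl _)).1
  -- `e ≡ 0` on the other sheets
  have he0 : ∀ V ∈ 𝒲, lab V ≠ ℓ₀ → e ∈ V.nonunits := by
    intro V hV hlab
    have hmem : lab V ∈ Λ := (hΛmem _).2 ⟨hlab, V, hV, rfl⟩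
    rw [he, ← Finset.mul_prod_erase _ _ hmem]
    refine nu_mul_right V (nu_mul_right V (hG V hV) (hinv _ hmem V hV)) ?_
    exact V.prod_mem fun ℓ hℓ => hfac ℓ (Finset.mem_of_mem_erase hℓ) V hV
  have he₀ : ∀ V ∈ 𝒲, e ∈ V.nonunits ∨ 1 - e ∈ V.nonunits := by
    intro V hV
    by_cases h : lab V = ℓ₀
    · exact Or.inr (he1 V hV h)
    · exact Or.inl (he0 V hV h)
  have hiff : ∀ V ∈ 𝒲, e ∈ V.nonunits ↔ lab V ≠ ℓ₀ := by
    intro V hV
    constructor
    · intro h hlab
      exact nu_not_both V h (he1 V hV hlab)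
    · exact he0 V hV
  rcases clopen_idem hinjR hRF hx w hw h𝒲 hmid hwW qep_fin qep_inf qep_mid he₀
      (fun 𝔫 h𝔫 hw𝔫 W hW W' hW' hth hth' h => by
        rw [hiff W' hW', ← hloc_fin 𝔫 h𝔫 hw𝔫 W hW W' hW' hth hth']
        exact (hiff W hW).1 h)
      (fun 𝔫 h𝔫 hw𝔫 W hW W' hW' hth hth' h => by
        rw [hiff W' hW', ← hloc_inf 𝔫 h𝔫 hw𝔫 W hW W' hW' hth hth']
        exact (hiff W hW).1 h) with h | h
  · exact absurd rfl ((hiff W₀ hW₀).1 (h W₀ hW₀))
  · by_contra hne
    exact nu_not_both W₁ ((hiff W₁ hW₁).2 (Ne.symm hne)) (h W₁ hW₁)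

end Main

end Fermat.Agent.S36.H193

end
-- ===== PACK-END S36/H193/ClopenGraph.lean

-- ===== PACK-BEGIN S18/H203/TraceRed.lean
section


/-!
# S18 / b1–b2.1 (helper203): traces and discriminants commute with reduction mod `w`

Setting of `LiftBasis.lean` / `KBasis.lean`: `S` Noetherian integrally closed domain, `w ∈ S`
prime, `K = Frac S`, `F / K` finite, `B` the integral closure of `S` in `F`, finite over `S`;
`S̄ = S ⧸ (w)`, `B̄ = B ⧸ (w) B`, and `b̄` an `S̄`-basis of `B̄`.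

* `trace_redB` : if `τ ∈ S` is the trace `Tr_{F/K} β` of `β ∈ B`, then
  `Tr_{B̄ / S̄} (β mod w) = τ mod w`.
* `exists_trace_eq` : the trace of `β ∈ B` lies in `S`.
* `exists_discr_eq` : for lifts `b i ∈ B` of `b̄ i` there is `d ∈ S` which is the discriminant of
  the `K`-basis `b` of `F` and whose reduction is the discriminant of the `S̄`-basis `b̄` of `B̄`.
-/

set_option autoImplicit false

namespace Fermat.Agent.S18.H203

open Ideal

section General

variable {R A : Type*} [CommRing R] [CommRing A] [Algebra R A]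
  {ι : Type*} [Fintype ι] [DecidableEq ι]

/-- Trace from a "matrix up to a scalar": if `r • (x * bas j) = ∑ i, s i j • bas i` for all `j`
then `r * Tr x = ∑ i, s i i`. -/
theorem mul_trace_eq_sum (bas : Module.Basis ι R A) (x : A) (r : R) (s : ι → ι → R)
    (h : ∀ j, r • (x * bas j) = ∑ i, s i j • bas i) :
    r * Algebra.trace R A x = ∑ i, s i i := by
  rw [Algebra.trace_eq_matrix_trace bas, Matrix.trace, Finset.mul_sum]
  refine Finset.sum_congr rfl fun i _ => ?_
  rw [Matrix.diag_apply, Algebra.leftMulMatrix_eq_repr_mul]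
  have h1 := congrArg (fun v => bas.repr v i) (h i)
  simp only [map_smul, Finsupp.smul_apply, smul_eq_mul, map_sum, Finsupp.coe_finsetSum,
    Finset.sum_apply, Module.Basis.repr_self, Finsupp.single_apply, mul_ite, mul_one,
    mul_zero, Finset.sum_ite_eq', Finset.mem_univ, if_true] at h1
  exact h1

end General

section

variable {S B : Type*} [CommRing S] [IsDomain S] [IsNoetherianRing S] [IsIntegrallyClosed S]
  [CommRing B] [Algebra S B] {ι : Type*} [Fintype ι] [DecidableEq ι]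

omit [IsNoetherianRing S] [IsDomain S] [DecidableEq ι] [Fintype ι] in
/-- The trace of an element of the integral closure lies in `S`. -/
theorem exists_trace_eq (K F : Type*) [Field K] [Algebra S K]
    [IsFractionRing S K] [Field F] [Algebra K F] [Algebra S F] [IsScalarTower S K F]
    [Algebra B F] [IsScalarTower S B F] [IsIntegralClosure B S F] [FiniteDimensional K F]
    (β : B) : ∃ τ : S, algebraMap S K τ = Algebra.trace K F (algebraMap B F β) := by
  have h1 : IsIntegral S (algebraMap B F β) := (IsIntegralClosure.isIntegral S F β).algebraMap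
  have h2 : IsIntegral S (Algebra.trace K F (algebraMap B F β)) := Algebra.isIntegral_trace h1
  exact IsIntegrallyClosed.isIntegral_iff.mp h2

omit [IsIntegrallyClosed S] in
/-- **Traces commute with reduction mod `w`.** -/
theorem trace_redB (K F : Type*) [Field K] [Algebra S K]
    [IsFractionRing S K] [Field F] [Algebra K F] [Algebra S F] [IsScalarTower S K F]
    [Algebra B F] [IsScalarTower S B F] [IsIntegralClosure B S F]
    [Module.Finite S B] [FiniteDimensional K F]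
    {w : S} (hw : Prime w)
    (bbar : Module.Basis ι (S ⧸ Ideal.span {w}) (B ⧸ (Ideal.span {w}).map (algebraMap S B)))
    (β : B) (τ : S) (hτ : algebraMap S K τ = Algebra.trace K F (algebraMap B F β)) :
    Algebra.trace (S ⧸ Ideal.span {w}) (B ⧸ (Ideal.span {w}).map (algebraMap S B))
      (redB (S := S) w β) = redS w τ := by
  -- lifts of the basis
  choose b hb using fun i => Ideal.Quotient.mk_surjective (bbar i)
  have hfun : (fun i => redB (S := S) w (b i)) = ⇑bbar := funext hb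
  have hli : LinearIndependent (S ⧸ Ideal.span {w}) fun i => redB (S := S) w (b i) := by
    rw [hfun]; exact bbar.linearIndependent
  have hspan : Submodule.span (S ⧸ Ideal.span {w})
      (Set.range fun i => redB (S := S) w (b i)) = ⊤ := by
    rw [hfun]; exact bbar.span_eq
  -- the `K`-basis
  set bK : Module.Basis ι K F := basisOfLift K F hw b hli hspan with hbK
  -- Nakayama
  obtain ⟨r, hr1, hr⟩ := exists_smul_mem_span w b hspan
  have hrbar : redS w r = 1 := by
    have : redS w (r - 1) = 0 := Ideal.Quotient.eq_zero_iff_mem.mpr hr1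
    rwa [map_sub, map_one, sub_eq_zero] at this
  -- the matrix
  have hex : ∀ j, ∃ c : ι → S, r • (β * b j) = ∑ i, c i • b i := fun j => by
    obtain ⟨c, hc⟩ := (Submodule.mem_span_range_iff_exists_fun S).mp (hr (β * b j))
    exact ⟨c, hc.symm⟩
  choose s hs using hex
  -- generic fibre
  have hK : ∀ j, algebraMap S K r • (algebraMap B F β * bK j) =
      ∑ i, algebraMap S K (s j i) • bK i := by
    intro j
    have := congrArg (algebraMap B F) (hs j)
    simp only [map_sum, Algebra.smul_def, map_mul, ← IsScalarTower.algebraMap_apply] at this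
    simp only [hbK, basisOfLift_apply, Algebra.smul_def, ← IsScalarTower.algebraMap_apply]
    exact this
  have e1 : algebraMap S K r * Algebra.trace K F (algebraMap B F β) =
      ∑ i, algebraMap S K (s i i) :=
    mul_trace_eq_sum bK (algebraMap B F β) (algebraMap S K r)
      (fun i j => algebraMap S K (s j i)) hK
  have e2 : r * τ = ∑ i, s i i := by
    apply IsFractionRing.injective S K
    rw [map_mul, hτ, e1, map_sum]
  -- special fibre
  have hbar : ∀ j, (1 : S ⧸ Ideal.span {w}) • (redB (S := S) w β * bbar j) =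
      ∑ i, redS w (s j i) • bbar i := by
    intro j
    have := congrArg (redB (S := S) w) (hs j)
    rw [redB_smul, hrbar, map_mul, map_sum, hb] at this
    rw [this]
    refine Finset.sum_congr rfl fun i _ => ?_
    rw [redB_smul, hb]
  have e3 := mul_trace_eq_sum bbar (redB (S := S) w β) 1 (fun i j => redS w (s j i)) hbar
  rw [one_mul] at e3
  rw [e3, ← map_sum, ← e2, map_mul, hrbar, one_mul]

/-- **Discriminants commute with reduction mod `w`.** -/
theorem exists_discr_eq (K F : Type*) [Field K] [Algebra S K]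
    [IsFractionRing S K] [Field F] [Algebra K F] [Algebra S F] [IsScalarTower S K F]
    [Algebra B F] [IsScalarTower S B F] [IsIntegralClosure B S F]
    [Module.Finite S B] [FiniteDimensional K F]
    {w : S} (hw : Prime w)
    (bbar : Module.Basis ι (S ⧸ Ideal.span {w}) (B ⧸ (Ideal.span {w}).map (algebraMap S B)))
    (b : ι → B) (hb : ∀ i, redB (S := S) w (b i) = bbar i) :
    ∃ d : S, algebraMap S K d = Algebra.discr K (fun i => algebraMap B F (b i)) ∧
      redS w d = Algebra.discr (S ⧸ Ideal.span {w}) bbar := by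
  choose D hD using fun p : ι × ι => exists_trace_eq (S := S) K F (b p.1 * b p.2)
  refine ⟨(Matrix.of fun i j => D (i, j)).det, ?_, ?_⟩
  · rw [Algebra.discr_def, RingHom.map_det]
    congr 1
    ext i j
    simp only [RingHom.mapMatrix_apply, Matrix.map_apply, Matrix.of_apply,
      Algebra.traceMatrix_apply, Algebra.traceForm_apply, hD (i, j), map_mul]
  · rw [Algebra.discr_def, RingHom.map_det]
    congr 1
    ext i j
    simp only [RingHom.mapMatrix_apply, Matrix.map_apply, Matrix.of_apply,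
      Algebra.traceMatrix_apply, Algebra.traceForm_apply]
    rw [← hb i, ← hb j, ← map_mul]
    exact (trace_redB K F hw bbar (b i * b j) (D (i, j)) (hD (i, j))).symm

end

end Fermat.Agent.S18.H203

end
-- ===== PACK-END S18/H203/TraceRed.lean

-- ===== PACK-BEGIN A2/Mod/H732/SepRed.lean
section



/-!
# WALL A2 / MODASM S4 (helper732), part 5: elementwise separability from a reduction relation

Abstract.  `R` a discrete valuation ring with uniformiser `w` and perfect residue field `k`,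
`F` a field over `R`, `V` a valuation subring of `F`, and `T ≤ F × k((t))` a subring
("`(g, ḡ) ∈ T` iff `ḡ` is a reduction of `g`"; no well-definedness is needed) such that
`(r, r̄) ∈ T` for `r ∈ R`, `(g, 0) ∈ T ⟹ v(g) < 1`, `(g, b) ∈ T, b ≠ 0 ⟹ v(g) = 1`.

* `eval₂_mem_graph`, `graph_eval` : polynomial expressions respect the relation;
* `exists_primitive_annihilator` : every `f` algebraic over `E(x)` is a root of some
  `P ∈ R[X][Y]` with nonzero reduction;
* `exists_sep_poly_of_graph` : if `(x, x̄), (f, f̄) ∈ T`, `dx̄/dt ≠ 0` and `f` is a root of a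
  primitive `P ∈ R[X][Y]`, then there is `Q ∈ R[X][Y]` with `v(Q(x, f)) < 1` and
  `v(Q_Y(x, f)) = 1` (the hypotheses `hs₁`, `hs₂` of `sepCoord_of_gauss`).
-/

set_option autoImplicit false
set_option linter.unusedSectionVars false
set_option linter.style.haveILetI false
set_option synthInstance.maxHeartbeats 400000
set_option maxHeartbeats 1600000

noncomputable section

namespace Fermat.Agent.A2.Mod.H732

open Polynomial IsLocalRing

section Graph

variable {A B C : Type*} [CommRing A] [CommRing B] [CommRing C]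

/-- polynomial expressions respect a relation which is a subring -/
theorem eval₂_mem_graph (T : Subring (B × C)) (φ : A →+* B) (ψ : A →+* C)
    (h : ∀ a, (φ a, ψ a) ∈ T) {y : B} {z : C} (hyz : (y, z) ∈ T) (Q : A[X]) :
    (Q.eval₂ φ y, Q.eval₂ ψ z) ∈ T := by
  have key : Q.eval₂ (φ.prod ψ) (y, z) = (Q.eval₂ φ y, Q.eval₂ ψ z) := by
    refine Prod.ext ?_ ?_
    · have h1 := Polynomial.hom_eval₂ Q (φ.prod ψ) (RingHom.fst B C) (y, z)
      rw [RingHom.fst_comp_prod] at h1
      exact h1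
    · have h1 := Polynomial.hom_eval₂ Q (φ.prod ψ) (RingHom.snd B C) (y, z)
      rw [RingHom.snd_comp_prod] at h1
      exact h1
  rw [← key, eval₂_eq_sum_range]
  exact sum_mem fun i _ => mul_mem (h _) (pow_mem hyz i)

end Graph

section Sep

variable {R F : Type*} [CommRing R] [IsLocalRing R] [Field F] [Algebra R F]

/-- constants: `R → k((t))` -/
def cres (R : Type*) [CommRing R] [IsLocalRing R] : R →+* LaurentSeries (ResidueField R) :=
  (algebraMap (ResidueField R) (LaurentSeries (ResidueField R))).comp (residue R)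

theorem cres_apply (r : R) :
    cres R r = algebraMap (ResidueField R) (LaurentSeries (ResidueField R)) (residue R r) := rfl

/-- bivariate polynomial expressions over `R` respect the relation -/
theorem graph_eval (T : Subring (F × LaurentSeries (ResidueField R)))
    (hR : ∀ r : R, (algebraMap R F r, cres R r) ∈ T)
    {x : F} {xb : LaurentSeries (ResidueField R)} (hx : (x, xb) ∈ T)
    {f : F} {fb : LaurentSeries (ResidueField R)} (hf : (f, fb) ∈ T) (Q : R[X][X]) :
    (Q.eval₂ ((aeval x : R[X] →ₐ[R] F) : R[X] →+* F) f,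
      (Q.map (mapRingHom (residue R))).eval₂
        ((aeval xb : (ResidueField R)[X] →ₐ[ResidueField R] LaurentSeries (ResidueField R)) :
          (ResidueField R)[X] →+* LaurentSeries (ResidueField R)) fb) ∈ T := by
  have hcomp : ((aeval xb :
      (ResidueField R)[X] →ₐ[ResidueField R] LaurentSeries (ResidueField R)) :
        (ResidueField R)[X] →+* LaurentSeries (ResidueField R)).comp (mapRingHom (residue R))
      = eval₂RingHom (cres R) xb := by
    refine Polynomial.ringHom_ext (fun r => ?_) ?_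
    · simp [cres]
    · simp
  rw [eval₂_map, hcomp]
  refine eval₂_mem_graph T _ _ (fun a => ?_) hf Q
  exact eval₂_mem_graph T (algebraMap R F) (cres R) hR hx a

/-- **Elementwise separability from a reduction relation.** -/
theorem exists_sep_poly_of_graph [PerfectField (ResidueField R)] (V : ValuationSubring F)
    (T : Subring (F × LaurentSeries (ResidueField R)))
    (hR : ∀ r : R, (algebraMap R F r, cres R r) ∈ T)
    (hker : ∀ g : F, (g, (0 : LaurentSeries (ResidueField R))) ∈ T → V.valuation g < 1)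
    (hunit : ∀ (g : F) (b : LaurentSeries (ResidueField R)), (g, b) ∈ T → b ≠ 0 →
      V.valuation g = 1)
    {x : F} {xb : LaurentSeries (ResidueField R)} (hx : (x, xb) ∈ T)
    (hdx : Fermat.Agent.S18.H602.dq xb ≠ 0)
    {f : F} {fb : LaurentSeries (ResidueField R)} (hf : (f, fb) ∈ T)
    (P : R[X][X]) (hP : P.map (mapRingHom (residue R)) ≠ 0)
    (hPf : P.eval₂ ((aeval x : R[X] →ₐ[R] F) : R[X] →+* F) f = 0) :
    ∃ Q : R[X][X],
      V.valuation (Q.eval₂ ((aeval x : R[X] →ₐ[R] F) : R[X] →+* F) f) < 1 ∧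
      V.valuation ((derivative Q).eval₂ ((aeval x : R[X] →ₐ[R] F) : R[X] →+* F) f) = 1 := by
  classical
  -- the reduction of `P` kills `f̄`
  have h0 : (P.map (mapRingHom (residue R))).eval₂
      ((aeval xb : (ResidueField R)[X] →ₐ[ResidueField R] LaurentSeries (ResidueField R)) :
        (ResidueField R)[X] →+* LaurentSeries (ResidueField R)) fb = 0 := by
    by_contra hne
    have h1 := graph_eval T hR hx hf P
    rw [hPf] at h1
    have h2 := hunit _ _ h1 hne
    rw [map_zero] at h2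
    exact zero_ne_one h2
  -- `x̄` is transcendental, hence `f̄` is algebraic over `k(x̄)`
  have htr : Transcendental (ResidueField R) xb :=
    Fermat.Agent.S18.H602.laurent_transcendental xb hdx
  have halg : IsAlgebraic (IntermediateField.adjoin (ResidueField R) ({xb} : Set _)) fb := by
    set ι : (ResidueField R)[X] →+* IntermediateField.adjoin (ResidueField R)
        ({xb} : Set (LaurentSeries (ResidueField R))) :=
      (aeval (R := ResidueField R)
        (IntermediateField.AdjoinSimple.gen (ResidueField R) xb)).toRingHom with hι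
    have hinj : Function.Injective ι := by
      have h1 : Transcendental (ResidueField R)
          (IntermediateField.AdjoinSimple.gen (ResidueField R) xb) := by
        intro h
        apply htr
        have := h.algebraMap (A := LaurentSeries (ResidueField R))
        simpa using this
      exact transcendental_iff_injective.mp h1
    refine ⟨(P.map (mapRingHom (residue R))).map ι, ?_, ?_⟩
    · rw [Ne, Polynomial.map_eq_zero_iff hinj]
      exact hP
    · have hc : (algebraMap (IntermediateField.adjoin (ResidueField R)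
          ({xb} : Set (LaurentSeries (ResidueField R)))) (LaurentSeries (ResidueField R))).comp ι
          = ((aeval xb : (ResidueField R)[X] →ₐ[ResidueField R]
              LaurentSeries (ResidueField R)) :
            (ResidueField R)[X] →+* LaurentSeries (ResidueField R)) := by
        refine Polynomial.ringHom_ext (fun r => ?_) ?_
        · simp [hι]
        · simp [hι]
      rw [aeval_def, eval₂_map, hc]
      exact h0
  obtain ⟨Pb, hb0, hb1⟩ := Fermat.Agent.S18.H602.laurent_exists_sep_poly xb hdx fb halg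
  obtain ⟨Q, hQ⟩ := Polynomial.map_surjective (mapRingHom (residue R))
    (Polynomial.map_surjective (residue R) residue_surjective) Pb
  refine ⟨Q, hker _ ?_, hunit _ _ (graph_eval T hR hx hf (derivative Q)) ?_⟩
  · have h1 := graph_eval T hR hx hf Q
    rw [hQ] at h1
    have h2 : eval₂ ((aeval xb : (ResidueField R)[X] →ₐ[ResidueField R]
        LaurentSeries (ResidueField R)) :
          (ResidueField R)[X] →+* LaurentSeries (ResidueField R)) fb Pb = 0 := hb0
    rw [h2] at h1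
    exact h1
  · rw [← derivative_map, hQ]
    exact hb1

end Sep

section Annihilator

variable {R E F : Type*} [CommRing R] [IsDomain R] [IsDiscreteValuationRing R]
  [Field E] [Algebra R E] [IsFractionRing R E]
  [Field F] [Algebra E F] [Algebra R F] [IsScalarTower R E F]

/-- every element algebraic over `E(x)` is a root of a bivariate polynomial over `R` with
nonzero reduction -/
theorem exists_primitive_annihilator {w : R} (hw : Irreducible w) {x : F}
    (hx : Transcendental E x) {f : F}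
    (hf : IsAlgebraic (IntermediateField.adjoin E ({x} : Set F)) f) :
    ∃ P : R[X][X], P.map (mapRingHom (residue R)) ≠ 0 ∧
      P.eval₂ ((aeval x : R[X] →ₐ[R] F) : R[X] →+* F) f = 0 := by
  classical
  letI algF : Algebra R[X] F := ((aeval x : R[X] →ₐ[R] F) : R[X] →+* F).toAlgebra
  letI algK : Algebra R[X] (IntermediateField.adjoin E ({x} : Set F)) :=
    (polyToAdjoin (E := E) x).toAlgebra
  haveI : IsScalarTower R[X] (IntermediateField.adjoin E ({x} : Set F)) F :=
    IsScalarTower.of_algebraMap_eq (fun P => rfl)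
  haveI : IsFractionRing R[X] (IntermediateField.adjoin E ({x} : Set F)) :=
    isFractionRing_adjoin hx
  have hf' : IsAlgebraic R[X] f :=
    (IsFractionRing.isAlgebraic_iff R[X] (IntermediateField.adjoin E ({x} : Set F)) F).mpr hf
  obtain ⟨P, hP0, hP⟩ := hf'
  have hirr : Irreducible (C (C w) : R[X][X]) :=
    (prime_C_iff.mpr (prime_C_iff.mpr hw.prime)).irreducible
  obtain ⟨n, P₀, hnd, hP₀⟩ := WfDvdMonoid.max_power_factor hP0 hirr
  have hwF : algebraMap R[X] F (C w) ≠ 0 := by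
    show aeval x (C w) ≠ 0
    rw [aeval_C, IsScalarTower.algebraMap_apply R E F]
    intro h
    have h1 := (map_eq_zero (algebraMap E F)).mp h
    exact hw.ne_zero ((map_eq_zero_iff _ (IsFractionRing.injective R E)).mp h1)
  refine ⟨P₀, ?_, ?_⟩
  · intro h0
    apply hnd
    rw [Polynomial.C_dvd_iff_dvd_coeff]
    intro i
    apply C_dvd_of_map_residue_eq_zero hw
    have := congrArg (fun q => q.coeff i) h0
    simpa using this
  · have h1 : aeval f P = (algebraMap R[X] F (C w)) ^ n * aeval f P₀ := by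
      rw [hP₀, map_mul, map_pow, aeval_C]
    rw [hP] at h1
    rcases mul_eq_zero.mp h1.symm with h | h
    · exact absurd h (pow_ne_zero n hwF)
    · exact h

end Annihilator

end Fermat.Agent.A2.Mod.H732

end
end
-- ===== PACK-END A2/Mod/H732/SepRed.lean

-- ===== PACK-BEGIN S36/H922/ThetaBar.lean
section



/-!
# S36 engine / cell REG, route R4 (MID-UNIT): the `θ`-identity modulo `p`  — helper922

Formal `q`-series only.  In `𝔽_p((q))`, with `j̄ = j mod p`, `ū = Δ(q^p)/Δ(q) mod p = Δ̄^(p-1)`,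
and `Ū` the reduction of the Eisenstein constant `Ψ(j)/p` of helper83's leaf EIS
(`h83_eisenstein`: `Ū · θ j̄ = (j̄ - j̄^(p²)) · (θ j̄)^p`):

  `(j̄⁴ (j̄ - 1728)³) ^ (2 (p-1)) · ū² · (j̄^(p²) - j̄)^12 = Ū^12`.

This is hypothesis (3) of `h922_hres_abs` (`ResAbs.lean`) after dividing by the unit
`(j^(p²) - j)^12`: with `ρ = G(j)/(j^(p²) - j)`, `e = (j⁴ (j - 1728)³)^(2(p-1))`:
`e · u² ≡ ρ^12` modulo `p`.
-/

set_option autoImplicit false

noncomputable section

open ModularCurve HahnSeries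

namespace Fermat.Agent.S36.H922

open Fermat.Agent.S28

variable (p : ℕ) [hp : Fact p.Prime] [NeZero p]

theorem h922_thetaL_jqModC_ne_zero (k : Type*) [Field k] : thetaL k (jqModC k) ≠ 0 := by
  intro h
  have h1 : (thetaL k (jqModC k)).coeff (-1) = -1 := by
    rw [thetaL_coeff, coeff_jqModC_neg_one]
    simp
  rw [h, HahnSeries.coeff_zero] at h1
  exact one_ne_zero (neg_eq_zero.mp h1.symm)

/-- `ū = Δ̄^p · Δ̄⁻¹` over `𝔽_p`. -/
theorem h922_unitL_zmod :
    unitL (ZMod p) p = deltaL (ZMod p) ^ p * deltaInvL (ZMod p) := by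
  rw [unitL, h88_qExpand_zmod]

/-- **The `θ`-identity modulo `p` in the form consumed by route R4.** -/
theorem h922_theta_bar (Ubar : LaurentSeries (ZMod p))
    (hU : Ubar * thetaL (ZMod p) (jqModC (ZMod p))
      = (jqModC (ZMod p) - jqModC (ZMod p) ^ (p ^ 2))
          * thetaL (ZMod p) (jqModC (ZMod p)) ^ p) :
    (jqModC (ZMod p) ^ 4 * (jqModC (ZMod p) - 1728) ^ 3) ^ (2 * (p - 1))
        * unitL (ZMod p) p ^ 2 * (jqModC (ZMod p) ^ (p ^ 2) - jqModC (ZMod p)) ^ 12
      = Ubar ^ 12 := by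
  set J := jqModC (ZMod p) with hJ
  set T := thetaL (ZMod p) J with hT
  set D := deltaL (ZMod p) with hD
  set Di := deltaInvL (ZMod p) with hDi
  have hT0 : T ≠ 0 := h922_thetaL_jqModC_ne_zero (ZMod p)
  have hDD : D * Di = 1 := h88_deltaL_mul_deltaInvL (ZMod p)
  have hθ : T ^ 6 = D * J ^ 4 * (J - 1728) ^ 3 := th327_theta_identity_ring (ZMod p)
  have hp1 : 1 ≤ p := hp.out.one_lt.le
  -- `Ū = (j - j^{p²}) (θ j)^{p-1}`
  have hU' : Ubar = (J - J ^ (p ^ 2)) * T ^ (p - 1) := by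
    apply mul_right_cancel₀ hT0
    rw [hU, mul_assoc, ← pow_succ, Nat.sub_add_cancel hp1]
  have hD0 : D ≠ 0 := by
    intro h
    rw [h, zero_mul] at hDD
    exact zero_ne_one hDD
  -- `Δ^{2(p-1)} = (Δ^p Δ⁻¹)^2`
  have hu : (D ^ p * Di) ^ 2 = D ^ (2 * (p - 1)) := by
    have h1 : D ^ p = D ^ (p - 1) * D := by rw [← pow_succ, Nat.sub_add_cancel hp1]
    rw [h1, mul_assoc, hDD, mul_one, ← pow_mul, mul_comm]
  have hT12 : (T ^ (p - 1)) ^ 12 = (D * J ^ 4 * (J - 1728) ^ 3) ^ (2 * (p - 1)) := by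
    rw [← hθ, ← pow_mul, ← pow_mul]
    congr 1
    ring
  have hev : (J - J ^ (p ^ 2)) ^ 12 = (J ^ (p ^ 2) - J) ^ 12 := by
    rw [← neg_sub, Even.neg_pow (by decide)]
  rw [h922_unitL_zmod, hu, hU', mul_pow (J - J ^ (p ^ 2)), hT12, hev, mul_pow, mul_pow,
    mul_pow]
  ring

end Fermat.Agent.S36.H922

end
end
-- ===== PACK-END S36/H922/ThetaBar.lean

-- ===== PACK-BEGIN S15/H386/ModShape.lean
section
/-
Row S15, node GEO (helper386): the classical modular polynomial `Φ_p` has "modular shape".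

For every `D : S28.ModPolyData p` (the modular polynomial of level `p`: monic of degree `p + 1`
with `Φ(j, j_p) = 0 = Φ(j_p, j)`; it exists for every prime `p`, see the `nonempty_modPolyData`
of row S28) the polynomial `D.Φ` satisfies helper962's `IsModularShape p`:
`Φ = Y^{p+1} + c_p(X) Y^p + … + c_0(X)` with `c_0 = ± X^{p+1} + …`, `c_p = - X^p + …` and
`deg c_k ≤ p` for `0 < k < p`.

Proof: over `ℂ`, `Φ(j_p, Y) = (Y - j_{p²}) ∏_{b < p} (Y - j(ζ^b q))` (S28/H386/RootList); compare the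
leading terms of the `q`-expansions of the coefficients.
-/





set_option autoImplicit false

noncomputable section

open ModularCurve HahnSeries Polynomial
open Fermat.Agent.S28 Fermat.Agent.S28.H386 Fermat.Agent.S15.H962

namespace Fermat.Agent.S15.H386

variable {k : Type*} [Field k]

/-! ### Leading terms of the basic series -/

theorem isLead_jqModC : IsLead (jqModC k) (-1) 1 :=
  ⟨coeff_jqModC_neg_one k, fun _ hm => coeff_jqModC_of_lt k hm⟩

theorem isLead_qExpand (p : ℕ) [NeZero p] {f : LaurentSeries k} {n : ℤ} {a : k}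
    (h : IsLead f n a) : IsLead (qExpand k p f) (p * n) a := by
  refine ⟨by rw [qExpand_coeff_mul]; exact h.1, fun m hm => ?_⟩
  by_cases hd : (p : ℤ) ∣ m
  · obtain ⟨c, rfl⟩ := hd
    rw [qExpand_coeff_mul]
    have hp : (0 : ℤ) < p := by exact_mod_cast Nat.pos_of_ne_zero (NeZero.ne p)
    exact h.2 c (lt_of_mul_lt_mul_left hm hp.le)
  · exact qExpand_coeff_of_not_dvd p f hd

theorem isLead_twist (ξ : kˣ) {f : LaurentSeries k} {n : ℤ} {a : k} (h : IsLead f n a) :
    IsLead (_root_.Fermat.Agent.S28.H386.twist ξ f) n (((ξ ^ n : kˣ) : k) * a) :=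
  ⟨by rw [_root_.Fermat.Agent.S28.H386.twist_coeff, h.1], fun m hm => by rw [_root_.Fermat.Agent.S28.H386.twist_coeff, h.2 m hm, mul_zero]⟩

theorem isLead_jd (p : ℕ) [NeZero p] : IsLead (jd k p) (-(p : ℤ)) 1 := by
  have := isLead_qExpand p (isLead_jqModC (k := k))
  rwa [mul_neg, mul_one] at this

theorem isLead_qExpand_jd (p : ℕ) [NeZero p] :
    IsLead (qExpand k p (jd k p)) (-((p : ℤ) * p)) 1 := by
  have := isLead_qExpand p (isLead_jd (k := k) p)
  rwa [mul_neg] at this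

theorem isLead_twist_jqModC (ξ : kˣ) : IsLead (_root_.Fermat.Agent.S28.H386.twist ξ (jqModC k)) (-1) ((ξ⁻¹ : kˣ) : k) := by
  have := isLead_twist ξ (isLead_jqModC (k := k))
  rwa [mul_one, zpow_neg_one] at this

/-! ### Leading term of an integer polynomial in a series with a pole -/

theorem isLead_intEval {y : LaurentSeries k} {m : ℤ} (hm : 0 < m) (hy : IsLead y (-m) 1)
    (c : ℤ[X]) (d : ℕ) (hd : c.natDegree ≤ d) :
    IsLead (intEval y c) (-(m * d)) ((c.coeff d : ℤ) : k) := by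
  have h1 : intEval y c =
      ∑ i ∈ Finset.range (d + 1), ((c.coeff i : ℤ) : LaurentSeries k) * y ^ i := by
    unfold intEval
    rw [Polynomial.coe_eval₂RingHom, Polynomial.eval₂_eq_sum_range' _ (Nat.lt_succ_of_le hd)]
    simp
  have hterm : ∀ i : ℕ, IsLead (((c.coeff i : ℤ) : LaurentSeries k) * y ^ i) (-(m * i))
      ((c.coeff i : ℤ) : k) := by
    intro i
    have h2 := (isLead_intCast (k := k) (c.coeff i)).mul (hy.pow i)
    rw [one_pow, mul_one, zero_add] at h2
    have h3 : (i : ℤ) * -m = -(m * i) := by ring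
    rwa [h3] at h2
  have hlow : IsLead (∑ i ∈ Finset.range d, ((c.coeff i : ℤ) : LaurentSeries k) * y ^ i)
      (-(m * d)) 0 := by
    have h2 := isLead_sum (Finset.range d)
      (fun i => ((c.coeff i : ℤ) : LaurentSeries k) * y ^ i) (-(m * d)) (fun _ => (0 : k))
      (fun i hi => (hterm i).of_lt (by
        have hi' : (i : ℤ) < d := by exact_mod_cast Finset.mem_range.mp hi
        nlinarith))
    simpa using h2
  rw [h1, Finset.sum_range_succ]
  have h4 := hlow.add (hterm d)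
  rwa [zero_add] at h4

/-! ### Coefficients of a product of linear factors with simple poles -/

theorem isLead_coeff_prod_X_sub_C (s : Multiset (LaurentSeries k))
    (hs : ∀ r ∈ s, ∃ a, IsLead r (-1) a) (i : ℕ) :
    ∃ a, IsLead (((s.map fun r => X - Polynomial.C r).prod).coeff i)
      ((i : ℤ) - Multiset.card s) a := by
  induction s using Multiset.induction_on generalizing i with
  | empty =>
    rw [Multiset.map_zero, Multiset.prod_zero, Multiset.card_zero, Nat.cast_zero, sub_zero,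
      Polynomial.coeff_one]
    rcases Nat.eq_zero_or_pos i with rfl | hi
    · rw [if_pos rfl, Nat.cast_zero]
      exact ⟨1, isLead_one⟩
    · rw [if_neg hi.ne']
      exact ⟨0, isLead_zero _⟩
  | cons r s ih =>
    obtain ⟨a, ha⟩ := hs r (Multiset.mem_cons_self r s)
    have ih' := ih fun t ht => hs t (Multiset.mem_cons_of_mem ht)
    rw [Multiset.map_cons, Multiset.prod_cons, Multiset.card_cons]
    set Q := (s.map fun r => X - Polynomial.C r).prod with hQ
    rcases Nat.eq_zero_or_pos i with rfl | hi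
    · obtain ⟨a₂, h₂⟩ := ih' 0
      have h0 : ((X - Polynomial.C r) * Q).coeff 0 = -r * Q.coeff 0 := by
        rw [Polynomial.mul_coeff_zero, Polynomial.coeff_sub, Polynomial.coeff_X_zero,
          Polynomial.coeff_C_zero, zero_sub]
      rw [h0]
      refine ⟨-a * a₂, ?_⟩
      have h3 := ha.neg.mul h₂
      have h4 : (-1 : ℤ) + (((0 : ℕ) : ℤ) - (Multiset.card s : ℤ)) =
          ((0 : ℕ) : ℤ) - ((Multiset.card s + 1 : ℕ) : ℤ) := by
        push_cast; ring
      rwa [h4] at h3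
    · obtain ⟨j, rfl⟩ : ∃ j, i = j + 1 := ⟨i - 1, by omega⟩
      obtain ⟨a₁, h₁⟩ := ih' j
      obtain ⟨a₂, h₂⟩ := ih' (j + 1)
      have h0 : ((X - Polynomial.C r) * Q).coeff (j + 1) = Q.coeff j - r * Q.coeff (j + 1) := by
        rw [sub_mul, Polynomial.coeff_sub, Polynomial.coeff_X_mul, Polynomial.coeff_C_mul]
      rw [h0]
      refine ⟨a₁ - a * a₂, ?_⟩
      have h3 := ha.mul h₂
      have h4 : (-1 : ℤ) + (((j + 1 : ℕ) : ℤ) - (Multiset.card s : ℤ)) =
          (j : ℤ) - (Multiset.card s : ℤ) := by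
        push_cast; ring
      rw [h4] at h3
      have h5 := h₁.sub h3
      have h6 : (j : ℤ) - (Multiset.card s : ℤ) =
          ((j + 1 : ℕ) : ℤ) - ((Multiset.card s + 1 : ℕ) : ℤ) := by
        push_cast; ring
      rwa [h6] at h5

/-! ### The coefficients of `Φ_p(j_p, Y)` -/

section Main

variable {p : ℕ} [NeZero p] (D : ModPolyData p)

theorem coeff_phiAt (y : LaurentSeries k) (i : ℕ) :
    (phiAt D.Φ y).coeff i = intEval y (D.Φ.coeff i) :=
  Polynomial.coeff_map _ _

/-- `Q = ∏_{b < p} (Y - j(ζ^b q))`. -/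
def twPoly (p : ℕ) (k : Type*) [Field k] (ζ : kˣ) : (LaurentSeries k)[X] :=
  ((twRoots p k ζ).map fun a => X - Polynomial.C a).prod

theorem phiAt_jp_eq_mul (hp : 1 < p) {ζ : kˣ} (hζ : IsPrimitiveRoot ζ p) :
    phiAt D.Φ (jd k p) = (X - Polynomial.C (qExpand k p (jd k p))) * twPoly p k ζ := by
  rw [phiAt_jp_eq_prod D hp hζ, allRoots, Multiset.map_cons, Multiset.prod_cons, twPoly]

theorem twPoly_monic (ζ : kˣ) : (twPoly p k ζ).Monic :=
  Polynomial.monic_multiset_prod_of_monic _ _ fun a _ => Polynomial.monic_X_sub_C a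

theorem natDegree_twPoly (ζ : kˣ) : (twPoly p k ζ).natDegree = p := by
  rw [twPoly, Polynomial.natDegree_multiset_prod_of_monic _
    (by
      intro f hf
      obtain ⟨a, -, rfl⟩ := Multiset.mem_map.mp hf
      exact Polynomial.monic_X_sub_C a)]
  rw [Multiset.map_map]
  have : (Polynomial.natDegree ∘ fun a : LaurentSeries k => X - Polynomial.C a) = fun _ => 1 := by
    funext a
    exact Polynomial.natDegree_X_sub_C a
  rw [this, Multiset.map_const', Multiset.sum_replicate, card_twRoots, smul_eq_mul, mul_one]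

theorem coeff_twPoly_self (ζ : kˣ) : (twPoly p k ζ).coeff p = 1 := by
  have h := twPoly_monic (p := p) (k := k) ζ
  rwa [Polynomial.Monic, Polynomial.leadingCoeff, natDegree_twPoly] at h

theorem isLead_coeff_twPoly (ζ : kˣ) (i : ℕ) :
    ∃ a, IsLead ((twPoly p k ζ).coeff i) ((i : ℤ) - p) a := by
  have h := isLead_coeff_prod_X_sub_C (twRoots p k ζ) (fun r hr => by
    obtain ⟨b, -, rfl⟩ := Multiset.mem_map.mp hr
    exact ⟨_, isLead_twist_jqModC (ζ ^ b)⟩) i
  rwa [card_twRoots] at h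

/-- The constant coefficient of `Q`. -/
theorem isLead_coeff_zero_twPoly {ζ : kˣ} (hζ : ζ ^ p = 1) :
    ∃ u : k, u ^ (2 * p) = 1 ∧ IsLead ((twPoly p k ζ).coeff 0) (-(p : ℤ)) u := by
  have h0 : (twPoly p k ζ).coeff 0 =
      ((Multiset.range p).map fun b => -_root_.Fermat.Agent.S28.H386.twist (ζ ^ b) (jqModC k)).prod := by
    rw [twPoly, Polynomial.coeff_zero_multiset_prod, twRoots, Multiset.map_map, Multiset.map_map]
    congr 1
    refine Multiset.map_congr rfl fun b _ => ?_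
    simp
  have h1 := isLead_multiset_prod (Multiset.range p) (fun b => -_root_.Fermat.Agent.S28.H386.twist (ζ ^ b) (jqModC k))
    (fun _ => (-1 : ℤ)) (fun b => -(((ζ ^ b)⁻¹ : kˣ) : k))
    (fun b _ => (isLead_twist_jqModC (ζ ^ b)).neg)
  have h2 : ((Multiset.range p).map fun _ : ℕ => (-1 : ℤ)).sum = -(p : ℤ) := by
    rw [Multiset.map_const', Multiset.sum_replicate, Multiset.card_range]
    simp
  rw [h2, ← h0] at h1
  refine ⟨_, ?_, h1⟩
  rw [← Multiset.prod_map_pow]
  refine Multiset.prod_eq_one fun x hx => ?_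
  obtain ⟨b, -, rfl⟩ := Multiset.mem_map.mp hx
  have h3 : (ζ ^ b)⁻¹ ^ (2 * p) = 1 := by
    rw [inv_pow, ← pow_mul, show b * (2 * p) = p * (b * 2) by ring, pow_mul, hζ, one_pow,
      inv_one]
  rw [neg_pow, pow_mul, neg_one_sq, one_pow, one_mul, ← Units.val_pow_eq_pow_val, h3,
    Units.val_one]

/-- The coefficients of `Φ_p(j_p, Y)`: coefficient of `Y^{j+1}`. -/
theorem isLead_coeff_phiAt_succ (hp : 1 < p) {ζ : kˣ} (hζ : IsPrimitiveRoot ζ p) (j : ℕ) :
    ∃ a₂, IsLead ((twPoly p k ζ).coeff (j + 1)) (((j + 1 : ℕ) : ℤ) - p) a₂ ∧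
      IsLead ((phiAt D.Φ (jd k p)).coeff (j + 1)) (((j + 1 : ℕ) : ℤ) - p - (p : ℤ) * p) (-a₂) := by
  obtain ⟨a₁, h₁⟩ := isLead_coeff_twPoly (p := p) (k := k) ζ j
  obtain ⟨a₂, h₂⟩ := isLead_coeff_twPoly (p := p) (k := k) ζ (j + 1)
  refine ⟨a₂, h₂, ?_⟩
  have h0 : (phiAt D.Φ (jd k p)).coeff (j + 1) =
      (twPoly p k ζ).coeff j - qExpand k p (jd k p) * (twPoly p k ζ).coeff (j + 1) := by
    rw [phiAt_jp_eq_mul D hp hζ, sub_mul, Polynomial.coeff_sub, Polynomial.coeff_X_mul,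
      Polynomial.coeff_C_mul]
  rw [h0]
  have hp' : (1 : ℤ) < p := by exact_mod_cast hp
  have h3 : IsLead ((twPoly p k ζ).coeff j) (((j + 1 : ℕ) : ℤ) - p - (p : ℤ) * p) 0 :=
    h₁.of_lt (by push_cast; nlinarith)
  have h4 := (isLead_qExpand_jd (k := k) p).mul h₂
  have h5 : -((p : ℤ) * p) + (((j + 1 : ℕ) : ℤ) - p) = ((j + 1 : ℕ) : ℤ) - p - (p : ℤ) * p := by
    ring
  rw [h5, one_mul] at h4
  have h6 := h3.sub h4
  rwa [zero_sub] at h6

/-- The coefficient of `Y^p` of `Φ_p(j_p, Y)` is `-q^{-p²} + …`. -/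
theorem isLead_coeff_phiAt_top (hp : 1 < p) {ζ : kˣ} (hζ : IsPrimitiveRoot ζ p) :
    IsLead ((phiAt D.Φ (jd k p)).coeff p) (-((p : ℤ) * p)) (-1) := by
  obtain ⟨j, hj⟩ : ∃ j, p = j + 1 := ⟨p - 1, by omega⟩
  obtain ⟨a₂, h₂, h⟩ := isLead_coeff_phiAt_succ (k := k) D hp hζ j
  rw [← hj] at h h₂
  rw [sub_self] at h₂
  rw [sub_self, zero_sub] at h
  have h1 : a₂ = 1 := by
    rw [← h₂.coeff_eq, coeff_twPoly_self]
    exact isLead_one.coeff_eq
  rwa [h1] at h

/-- The constant coefficient of `Φ_p(j_p, Y)` is `u q^{-p²-p} + …` with `u` a root of unity. -/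
theorem isLead_coeff_phiAt_zero (hp : 1 < p) {ζ : kˣ} (hζ : IsPrimitiveRoot ζ p) :
    ∃ u : k, u ^ (2 * p) = 1 ∧
      IsLead ((phiAt D.Φ (jd k p)).coeff 0) (-((p : ℤ) * p) - p) u := by
  obtain ⟨u, hu, h⟩ := isLead_coeff_zero_twPoly (p := p) (k := k) hζ.pow_eq_one
  have h0 : (phiAt D.Φ (jd k p)).coeff 0 =
      -qExpand k p (jd k p) * (twPoly p k ζ).coeff 0 := by
    rw [phiAt_jp_eq_mul D hp hζ, Polynomial.mul_coeff_zero, Polynomial.coeff_sub,
      Polynomial.coeff_X_zero, Polynomial.coeff_C_zero, zero_sub]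
  rw [h0]
  refine ⟨-1 * u, ?_, ?_⟩
  · rw [mul_pow, hu, mul_one, pow_mul, neg_one_sq, one_pow]
  · have h1 := (isLead_qExpand_jd (k := k) p).neg.mul h
    have h2 : -((p : ℤ) * p) + -(p : ℤ) = -((p : ℤ) * p) - p := by ring
    rwa [h2] at h1

end Main

/-! ### Modular shape -/

section Shape

variable {p : ℕ} [NeZero p] (D : ModPolyData p)

/-- Comparison: the degree and the leading coefficient of an integer polynomial `c` from the
leading term of `c(j_p)`. -/
theorem natDegree_eq_of_isLead [CharZero k] {c : ℤ[X]} {n : ℕ} {u : k} (hu : u ≠ 0)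
    (h : IsLead (intEval (jd k p) c) (-((p : ℤ) * n)) u) :
    c.natDegree = n ∧ ((c.leadingCoeff : ℤ) : k) = u := by
  have hp : (0 : ℤ) < p := by exact_mod_cast Nat.pos_of_ne_zero (NeZero.ne p)
  have hc : c ≠ 0 := by
    rintro rfl
    rw [map_zero] at h
    exact hu (h.coeff_eq.symm.trans rfl)
  have h1 := isLead_intEval (k := k) hp (isLead_jd p) c c.natDegree le_rfl
  have hlc : ((c.coeff c.natDegree : ℤ) : k) ≠ 0 := by
    rw [Polynomial.coeff_natDegree]
    exact Int.cast_ne_zero.mpr (Polynomial.leadingCoeff_ne_zero.mpr hc)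
  obtain ⟨h2, h3⟩ := h1.unique h hlc hu
  refine ⟨?_, ?_⟩
  · have h4 : (p : ℤ) * c.natDegree = (p : ℤ) * n := neg_injective h2
    exact_mod_cast mul_left_cancel₀ hp.ne' h4
  · rw [← Polynomial.coeff_natDegree]
    exact h3

/-- Comparison: a bound for the degree of an integer polynomial `c` from the order of
`c(j_p)`. -/
theorem natDegree_le_of_isLead [CharZero k] {c : ℤ[X]} {n : ℕ} {m : ℤ} {a : k}
    (h : IsLead (intEval (jd k p) c) m a) (hm : -((p : ℤ) * (n + 1)) < m) :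
    c.natDegree ≤ n := by
  have hp : (0 : ℤ) < p := by exact_mod_cast Nat.pos_of_ne_zero (NeZero.ne p)
  by_contra hcon
  have hd : n + 1 ≤ c.natDegree := by omega
  have hc : c ≠ 0 := by
    rintro rfl
    simp at hd
  have h1 := isLead_intEval (k := k) hp (isLead_jd p) c c.natDegree le_rfl
  have hlc : ((c.coeff c.natDegree : ℤ) : k) ≠ 0 := by
    rw [Polynomial.coeff_natDegree]
    exact Int.cast_ne_zero.mpr (Polynomial.leadingCoeff_ne_zero.mpr hc)
  have h2 := h1.le_of_ne_zero hlc h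
  have hd' : ((n : ℤ) + 1) ≤ c.natDegree := by exact_mod_cast hd
  nlinarith

/-- **The modular polynomial has modular shape** (version over a field of characteristic zero
containing a primitive `p`-th root of unity). -/
theorem isModularShape_of_primitiveRoot [CharZero k] (hp : 1 < p) {ζ : kˣ}
    (hζ : IsPrimitiveRoot ζ p) : IsModularShape p D.Φ := by
  have hp0 : (0 : ℤ) < p := by exact_mod_cast Nat.pos_of_ne_zero (NeZero.ne p)
  -- constant coefficient
  obtain ⟨u, hu, h0⟩ := isLead_coeff_phiAt_zero (k := k) D hp hζ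
  have hu0 : u ≠ 0 := by
    rintro rfl
    rw [zero_pow (by omega)] at hu
    exact zero_ne_one hu
  rw [coeff_phiAt] at h0
  have h0' : IsLead (intEval (jd k p) (D.Φ.coeff 0)) (-((p : ℤ) * ((p + 1 : ℕ) : ℤ))) u := by
    have : -((p : ℤ) * ((p + 1 : ℕ) : ℤ)) = -((p : ℤ) * p) - p := by push_cast; ring
    rwa [this]
  obtain ⟨hd0, hl0⟩ := natDegree_eq_of_isLead hu0 h0'
  -- top coefficient
  have ht := isLead_coeff_phiAt_top (k := k) D hp hζ
  rw [coeff_phiAt] at ht
  obtain ⟨hdt, hlt⟩ := natDegree_eq_of_isLead (neg_ne_zero.mpr one_ne_zero) ht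
  refine ⟨D.natDegree_eq, D.monic, hd0, ?_, hdt, ?_, ?_⟩
  · have h1 : ((D.Φ.coeff 0).leadingCoeff) ^ (2 * p) = 1 := by
      have : ((((D.Φ.coeff 0).leadingCoeff) ^ (2 * p) : ℤ) : k) = ((1 : ℤ) : k) := by
        rw [Int.cast_pow, hl0, hu, Int.cast_one]
      exact Int.cast_injective this
    exact IsUnit.of_pow_eq_one h1 (by omega)
  · have h1 : (D.Φ.coeff p).leadingCoeff = -1 := by
      have : (((D.Φ.coeff p).leadingCoeff : ℤ) : k) = ((-1 : ℤ) : k) := by
        rw [hlt, Int.cast_neg, Int.cast_one]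
      exact Int.cast_injective this
    rw [h1]
    exact isUnit_one.neg
  · intro i hi0 hip
    obtain ⟨j, rfl⟩ : ∃ j, i = j + 1 := ⟨i - 1, by omega⟩
    obtain ⟨a₂, -, h⟩ := isLead_coeff_phiAt_succ (k := k) D hp hζ j
    rw [coeff_phiAt] at h
    refine natDegree_le_of_isLead h ?_
    push_cast
    nlinarith

/-- **The modular polynomial of level `p` has modular shape.** -/
theorem isModularShape_of_modPolyData (hp : 1 < p) : IsModularShape p D.Φ := by
  have hp0 : p ≠ 0 := NeZero.ne p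
  have hζ := Complex.isPrimitiveRoot_exp p hp0
  have hu : IsUnit (Complex.exp (2 * Real.pi * Complex.I / p)) := hζ.isUnit hp0
  obtain ⟨ζ, hζ'⟩ := hu
  have hζ'' : IsPrimitiveRoot ζ p := by
    rw [← IsPrimitiveRoot.coe_units_iff, hζ']
    exact hζ
  exact isModularShape_of_primitiveRoot (k := ℂ) D hp hζ''

end Shape

end Fermat.Agent.S15.H386

end
end
-- ===== PACK-END S15/H386/ModShape.lean

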