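import Fermat.Prelude.Def_CuspForm_Newforms
import Fermat.Prelude.Def_GaloisRep_LocalConditions
import Fermat.Prelude.Def_AlgebraicCurve_Correspondence
import Fermat.Prelude.Def_ModularCurve_HeckeOperatorTotal
import Fermat.Statements.S23
import Fermat.Prelude.Thm_CuspForm_intLattice_fg
import Mathlib.RingTheory.Valuation.LocalSubring
import Mathlib.FieldTheory.IntermediateField.Adjoin.Algebra
import Fermat.Agent.Pack.S36.E13L3
import Fermat.Agent.Pack.S36.E0L3
import Fermat.Agent.Pack.S36.E4L1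
import Fermat.Agent.Pack.S36.E13L0
import Fermat.Agent.Pack.S36.E13L2
import Fermat.Agent.Pack.S36.E13L1
import Fermat.Agent.Pack.S36.E12L1
import Fermat.Agent.Pack.S36.E8L1
import Fermat.Agent.Pack.S36.E5L0
import Fermat.Agent.Pack.S36.E2L0
import Fermat.Agent.Pack.S36.E5L1
import Fermat.Agent.Pack.S36.E5L2
import Fermat.Agent.Pack.S36.E10L2
import Fermat.Agent.Pack.S36.E8L0
import Fermat.Agent.Pack.S36.E10L3
import Fermat.Agent.Pack.S36.E8L2
import Fermat.Agent.Pack.S36.E2L2
import Fermat.Agent.Pack.S36.E12L2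
import Fermat.Agent.Pack.S36.E6L2
import Fermat.Agent.Pack.S36.E3L3

-- ===== PACK-BEGIN S36/H36/Glue.lean
section
/-
S36 top glue (helper36): the frozen statement S36 (Carayol at `q² ∥ M`) from ONE tower input.

`HasNewformEigenModulesNoInv` : for the eigencharacter of a weight-2 NEWFORM `g` of level `M`
there is an adic eigenmodule (helper990's `S30.H990.AdicEigenModule`) on which, for every prime
`q ≠ λ` with `q² ∥ M` and every place `A` over `q`, the inertia group `I_A` has NO nonzero fixed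
vector.

`result_of : HasNewformEigenModulesNoInv → <frozen statement S36>`   (with `𝒪'' := 𝒪'`; the
hypotheses `hlam2`, `hres` of the frozen statement are not used).

Proof: helper990's extraction gives a rank-2 `ρ₂` with
`charpoly ρ₂(τ) = X² - a X + d(τ)` for EVERY `a` with `ρ(τ)² - a ρ(τ) + d(τ) = 0` on the
eigenmodule (`d` = cyclotomic character, trivial on `I_A`).  If `ρ₂` is unipotent on `I_A` then
`a = 2` for every `τ ∈ I_A`, i.e. `(ρ(τ) - 1)² = 0` on the eigenmodule, and the Kolchin-type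
lemma (`Kolchin.lean`) produces a nonzero `I_A`-fixed vector.
-/






set_option autoImplicit false

namespace Fermat.Agent.S36.H36

open Polynomial Fermat.Agent.S30.H990 Fermat.Agent.S55.H414

section Assembly

variable {p N : ℕ} [Fact p.Prime] [NeZero N] {S : Finset ℕ}
  {𝒪 : Type} [CommRing 𝒪] [IsDomain 𝒪] [IsDiscreteValuationRing 𝒪]
  [IsAdicComplete (IsLocalRing.maximalIdeal 𝒪) 𝒪] [Finite (IsLocalRing.ResidueField 𝒪)]
  {χ : CuspForm.heckeAlgebra N 2 (↑S : Set ℕ) →+* 𝒪}

/-- No inertia invariants at the primes `q ≠ p` with `q² ∥ N`. -/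
def NoInertiaInvariants (E : AdicEigenModule p N S 𝒪 χ) : Prop :=
  ∀ q : ℕ, q.Prime → q ≠ p → N.factorization q = 2 →
    ∀ A : ValuationSubring (AlgebraicClosure ℚ), A.LiesOverPrime q →
      ∀ w : E.M, (∀ τ ∈ A.inertiaSubgroupIn ℚ, E.ρ τ w = w) → w = 0

/-- Comparison of the linear coefficients. -/
theorem eq_two_of_charpoly_eq {a d : 𝒪}
    (h : (X ^ 2 - C a * X + C d : 𝒪[X]) = (X - 1) ^ 2) : a = 2 := by
  have h1 := congrArg (fun f : 𝒪[X] => f.coeff 1) h
  have e1 : (X ^ 2 - C a * X + C d : 𝒪[X]).coeff 1 = -a := by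
    simp [coeff_X_pow, coeff_C]
  have e2 : ((X - 1) ^ 2 : 𝒪[X]).coeff 1 = -2 := by
    have : ((X - 1) ^ 2 : 𝒪[X]) = X ^ 2 - C 2 * X + C 1 := by
      simp only [map_ofNat, map_one]
      ring
    rw [this]
    simp [coeff_X_pow, coeff_C, coeff_one]
  simp only [e1, e2] at h1
  exact neg_injective h1

/-- From an adic eigenmodule without inertia invariants to a two-dimensional adic Galois
representation with the Frobenius characteristic polynomials of S36, not unipotent on inertia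
at the primes `q ≠ p`, `q² ∥ N`. -/
theorem exists_galoisRepAdic_not_unipotent [CharZero 𝒪] (hcheb : ChebWeak) (hpS : p ∈ S)
    (hNS : ∀ q : ℕ, q.Prime → q ∣ N → q ∈ S)
    (hp𝒪 : (p : 𝒪) ∈ IsLocalRing.maximalIdeal 𝒪) (E : AdicEigenModule p N S 𝒪 χ)
    (hE : NoInertiaInvariants E) :
    ∃ ρ : GaloisRepAdic 𝒪,
      (∀ (ℓ : ℕ) (hℓ : ℓ.Prime) (hℓN : ¬ ℓ ∣ N) (hℓS : ℓ ∉ (↑S : Set ℕ)),
        ∀ A : ValuationSubring (AlgebraicClosure ℚ), A.LiesOverPrime ℓ →
          ∀ σ : AlgebraicClosure ℚ ≃ₐ[ℚ] AlgebraicClosure ℚ, A.IsFrobeniusAt σ ℓ →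
            LinearMap.charpoly (ρ.ρ σ) =
              X ^ 2 - C (χ (CuspForm.heckeAlgebra.T hℓ hℓN hℓS)) * X + C ((ℓ : 𝒪))) ∧
      (∀ q : ℕ, q.Prime → ¬ q ∣ N → q ≠ p → ρ.IsUnramifiedAt q) ∧
      (∀ q : ℕ, q.Prime → q ≠ p → N.factorization q = 2 → ¬ ρ.IsUnipotentOnInertiaAt q) := by
  obtain ⟨d, hdfrob, hdinert, hdc, hdcont⟩ := exists_cyclo p 𝒪 hp𝒪
  have hrel : ∀ g : GQ, ∃ a, S30.H990.Rel E.ρ d g a := fun g =>
    exists_rel_of_mod E.ρ d g (fun n => exists_rel_mod hcheb hpS hNS E d hdfrob hdcont g n)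
  have h2 : (2 : 𝒪) ≠ 0 := two_ne_zero
  obtain ⟨T⟩ := exists_twoDim E.ρ d h2 hrel complexConjugation complexConjugation_mul_self hdc
  refine ⟨{ V := T.V
            finrank_eq := T.finrank_eq
            ρ := T.ρ₂
            isAdicContinuous := ?_ }, ?_, ?_, ?_⟩
  · intro n
    obtain ⟨L₁, hL₁fin, hL₁⟩ := E.cont n
    have : FiniteDimensional ℚ L₁ := hL₁fin
    refine ⟨L₁ ⊔ cycloLevel (p ^ n),
      IntermediateField.finiteDimensional_sup L₁ (cycloLevel (p ^ n)), fun σ hσ v => ?_⟩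
    refine T.cong (IsLocalRing.maximalIdeal 𝒪 ^ n) σ ?_ ?_ v
    · exact hL₁ σ (fun x hx => hσ x ((le_sup_left : L₁ ≤ L₁ ⊔ cycloLevel (p ^ n)) hx))
    · exact hdcont n σ (fun x hx =>
        hσ x ((le_sup_right : cycloLevel (p ^ n) ≤ L₁ ⊔ cycloLevel (p ^ n)) hx))
  · intro ℓ hℓ hℓN hℓS A hA σ hσ
    have hℓp : ℓ ≠ p := fun h => hℓS (Finset.mem_coe.mpr (h ▸ hpS))
    have hr : S30.H990.Rel E.ρ d σ (χ (CuspForm.heckeAlgebra.T hℓ hℓN hℓS)) := by
      unfold S30.H990.Rel
      rw [hdfrob ℓ hℓ hℓp A hA σ hσ]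
      exact E.frob ℓ hℓ hℓN hℓS A hA σ hσ
    have := T.charpoly_eq σ _ hr
    rw [hdfrob ℓ hℓ hℓp A hA σ hσ] at this
    exact this
  · intro q hq hqN hqp P hP σ hσ
    have h1 : E.ρ σ = 1 := E.unram q hq hqN hqp P hP σ hσ
    have h2 : d σ = 1 := hdinert q hq hqp P hP σ hσ
    have h3 := T.cong ⊥ σ (fun v => by rw [h1]; simp) (by rw [h2]; simp)
    ext v
    have h4 := h3 v
    rw [Submodule.bot_smul, Submodule.mem_bot, sub_eq_zero] at h4
    simpa using h4
  · intro q hq hqp hfac hunip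
    obtain ⟨A, hA⟩ := Fermat.Agent.S54.exists_valuationSubring_liesOver q hq
    have hsq : ∀ τ ∈ A.inertiaSubgroupIn ℚ, (E.ρ τ - 1) * (E.ρ τ - 1) = 0 := by
      intro τ hτ
      obtain ⟨a, ha⟩ := hrel τ
      have hch := T.charpoly_eq τ a ha
      have hu : LinearMap.charpoly (T.ρ₂ τ) = (X - 1) ^ 2 := hunip A hA τ hτ
      have hd : d τ = 1 := hdinert q hq hqp A hA τ hτ
      rw [hu] at hch
      have ha2 : a = 2 := eq_two_of_charpoly_eq hch.symm
      unfold S30.H990.Rel at ha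
      rw [ha2, hd, Units.val_one] at ha
      have e : (E.ρ τ - 1) * (E.ρ τ - 1)
          = E.ρ τ * E.ρ τ - (2 : 𝒪) • E.ρ τ + (1 : 𝒪) • (1 : Module.End 𝒪 E.M) := by
        rw [one_smul, two_smul]
        noncomm_ring
      rw [e]
      exact ha
    obtain ⟨w, hw, hfix⟩ :=
      exists_fixed_of_sq_zero E.ρ (A.inertiaSubgroupIn ℚ) h2 hsq
    exact hw (hE q hq hqp hfac A hA w hfix)

end Assembly

/-- **The tower hypothesis of S36**: the eigencharacter of a newform has an adic eigenmodule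
without inertia invariants at the primes `q ≠ λ` with `q² ∥ M`. -/
def HasNewformEigenModulesNoInv : Prop :=
  ∀ (M : ℕ) [NeZero M] (g : CuspForm (CongruenceSubgroup.Gamma0 M) 2), g.IsNewform →
    ∀ (lam : ℕ) [Fact lam.Prime] (S : Finset ℕ)
      (O' : Type) [CommRing O'] [IsDomain O'] [IsDiscreteValuationRing O']
      [IsAdicComplete (IsLocalRing.maximalIdeal O') O'] [Finite (IsLocalRing.ResidueField O')]
      [CharZero O'] (_hlamO' : (lam : O') ∈ IsLocalRing.maximalIdeal O')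
      (chig : CuspForm.heckeAlgebra M 2 (↑S : Set ℕ) →+* ℂ)
      (_hchig : ∀ (ℓ : ℕ) (hℓ : ℓ.Prime) (hℓM : ¬ ℓ ∣ M) (hℓS : ℓ ∉ (↑S : Set ℕ)),
        chig (CuspForm.heckeAlgebra.T hℓ hℓM hℓS) = ModularFormClass.qCoeff g ℓ)
      (iota : chig.range →+* O')
      (_hlamS : lam ∈ S) (_hMS : ∀ q : ℕ, q.Prime → q ∣ M → q ∈ S),
      ∃ E : AdicEigenModule lam M S O' (iota.comp chig.rangeRestrict), NoInertiaInvariants E

/-- **S36 from the Chebotarev hypothesis and the newform eigenmodules.** -/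
theorem result_of_chebWeak (hcheb : ChebWeak) (hmod : HasNewformEigenModulesNoInv)
    {M : ℕ} [NeZero M] {g : CuspForm (CongruenceSubgroup.Gamma0 M) 2} (hg : g.IsNewform)
    (lam : ℕ) [Fact lam.Prime]
    (S : Finset ℕ)
    (O' : Type) [CommRing O'] [IsDomain O'] [IsDiscreteValuationRing O']
    [IsAdicComplete (IsLocalRing.maximalIdeal O') O'] [Finite (IsLocalRing.ResidueField O')]
    [CharZero O'] (hlamO' : (lam : O') ∈ IsLocalRing.maximalIdeal O')
    (chig : CuspForm.heckeAlgebra M 2 (↑S : Set ℕ) →+* ℂ)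
    (hchig : ∀ (ℓ : ℕ) (hℓ : ℓ.Prime) (hℓM : ¬ ℓ ∣ M) (hℓS : ℓ ∉ (↑S : Set ℕ)),
      chig (CuspForm.heckeAlgebra.T hℓ hℓM hℓS) = ModularFormClass.qCoeff g ℓ)
    (iota : chig.range →+* O')
    (hlamS : lam ∈ S) (hMS : ∀ q : ℕ, q.Prime → q ∣ M → q ∈ S) :
    ∃ (O'' : Type) (_ : CommRing O'') (_ : IsDomain O'') (_ : IsDiscreteValuationRing O'')
      (_ : IsAdicComplete (IsLocalRing.maximalIdeal O'') O'') (_ : Finite (IsLocalRing.ResidueField O''))
      (_ : CharZero O'') (_ : Algebra O' O'') (_ : Module.Finite O' O'') (_ : IsLocalHom (algebraMap O' O'')),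
      Function.Injective (algebraMap O' O'') ∧
      ∃ ρ : GaloisRepAdic O'',
        (∀ (ℓ : ℕ) (hℓ : ℓ.Prime) (hℓM : ¬ ℓ ∣ M) (hℓS : ℓ ∉ (↑S : Set ℕ)),
          ∀ A : ValuationSubring (AlgebraicClosure ℚ), A.LiesOverPrime ℓ →
            ∀ σ : AlgebraicClosure ℚ ≃ₐ[ℚ] AlgebraicClosure ℚ, A.IsFrobeniusAt σ ℓ →
              LinearMap.charpoly (ρ.ρ σ) =
                X ^ 2 - C (algebraMap O' O'' ((iota.comp chig.rangeRestrict) (CuspForm.heckeAlgebra.T hℓ hℓM hℓS))) * X
                  + C ((ℓ : O''))) ∧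
        (∀ q : ℕ, q.Prime → q ≠ lam → M.factorization q = 2 → ¬ ρ.IsUnipotentOnInertiaAt q) := by
  obtain ⟨E, hE⟩ := hmod M g hg lam S O' hlamO' chig hchig iota hlamS hMS
  obtain ⟨ρ, hρ1, -, hρ3⟩ := exists_galoisRepAdic_not_unipotent hcheb hlamS hMS hlamO' E hE
  exact ⟨O', inferInstance, inferInstance, inferInstance, inferInstance, inferInstance,
    inferInstance, Algebra.id O', Module.Finite.self O', isLocalHom_id O',
    Function.injective_id, ρ, hρ1, hρ3⟩

/-- **S36 from the newform eigenmodules without inertia invariants**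
(Chebotarev = Tier 1 of the shared CHEB library). -/
theorem result_of (hmod : HasNewformEigenModulesNoInv)
    {M : ℕ} [NeZero M] {g : CuspForm (CongruenceSubgroup.Gamma0 M) 2} (hg : g.IsNewform)
    (lam : ℕ) [Fact lam.Prime]
    (S : Finset ℕ)
    (O' : Type) [CommRing O'] [IsDomain O'] [IsDiscreteValuationRing O']
    [IsAdicComplete (IsLocalRing.maximalIdeal O') O'] [Finite (IsLocalRing.ResidueField O')]
    [CharZero O'] (hlamO' : (lam : O') ∈ IsLocalRing.maximalIdeal O')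
    (chig : CuspForm.heckeAlgebra M 2 (↑S : Set ℕ) →+* ℂ)
    (hchig : ∀ (ℓ : ℕ) (hℓ : ℓ.Prime) (hℓM : ¬ ℓ ∣ M) (hℓS : ℓ ∉ (↑S : Set ℕ)),
      chig (CuspForm.heckeAlgebra.T hℓ hℓM hℓS) = ModularFormClass.qCoeff g ℓ)
    (iota : chig.range →+* O')
    (hlamS : lam ∈ S) (hMS : ∀ q : ℕ, q.Prime → q ∣ M → q ∈ S) :
    ∃ (O'' : Type) (_ : CommRing O'') (_ : IsDomain O'') (_ : IsDiscreteValuationRing O'')
      (_ : IsAdicComplete (IsLocalRing.maximalIdeal O'') O'') (_ : Finite (IsLocalRing.ResidueField O''))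
      (_ : CharZero O'') (_ : Algebra O' O'') (_ : Module.Finite O' O'') (_ : IsLocalHom (algebraMap O' O'')),
      Function.Injective (algebraMap O' O'') ∧
      ∃ ρ : GaloisRepAdic O'',
        (∀ (ℓ : ℕ) (hℓ : ℓ.Prime) (hℓM : ¬ ℓ ∣ M) (hℓS : ℓ ∉ (↑S : Set ℕ)),
          ∀ A : ValuationSubring (AlgebraicClosure ℚ), A.LiesOverPrime ℓ →
            ∀ σ : AlgebraicClosure ℚ ≃ₐ[ℚ] AlgebraicClosure ℚ, A.IsFrobeniusAt σ ℓ →
              LinearMap.charpoly (ρ.ρ σ) =
                X ^ 2 - C (algebraMap O' O'' ((iota.comp chig.rangeRestrict) (CuspForm.heckeAlgebra.T hℓ hℓM hℓS))) * X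
                  + C ((ℓ : O''))) ∧
        (∀ q : ℕ, q.Prime → q ≠ lam → M.factorization q = 2 → ¬ ρ.IsUnipotentOnInertiaAt q) :=
  result_of_chebWeak (chebWeak_of_frobeniusDivision Fermat.Agent.Lib.Cheb.frobeniusDivision) hmod
    hg lam S O' hlamO' chig hchig iota hlamS hMS

end Fermat.Agent.S36.H36

end
-- ===== PACK-END S36/H36/Glue.lean

-- ===== PACK-BEGIN Lib/FF398/Global.lean
section




/-!
# Lib/FF398 — global consequences for function fields over an algebraically closed field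

* `hasPrincipalDivisors` : a function field of one variable over an algebraically closed field
  of characteristic zero has principal divisors (finite support, degree zero)
  [repackaging of helper804's `S24.FF.degree_principal`];
* `sumRamificationInertia`, `fundamentalIdentity` : `∑_{w | v} e(w|v) f(w|v) = [F' : F]`;
* `pushforwardNormFormula` : `N_* div(g) = div(N g)`.
(helper398)
-/

set_option autoImplicit false
set_option linter.unusedSectionVars false

open AlgebraicCurve IsDedekindDomain IntermediateField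

namespace Fermat.Agent.Lib.FF398

section HPD

variable {K F : Type*} [Field K] [Field F] [Algebra K F] [IsAlgClosed K] [CharZero K]

/-- A function field of one variable over an algebraically closed field of characteristic zero
has principal divisors. -/
theorem hasPrincipalDivisors (j : F) (hj : Transcendental K j) [FiniteDimensional K⟮j⟯ F] :
    HasPrincipalDivisors K F where
  exists_divisor f hf := by
    by_cases hfr : f ∈ (algebraMap K F).range
    · obtain ⟨a, rfl⟩ := hfr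
      refine ⟨0, fun v => ?_, map_zero _⟩
      rw [Fermat.Agent.S24.FF.ord_algebraMap]
      rfl
    · have hft : Transcendental K f := Fermat.Agent.S24.FF.transcendental_of_not_mem_range hfr
      have hfin : FiniteDimensional K⟮f⟯ F :=
        Fermat.Agent.S24.FF.finiteDimensional_adjoin_of_transcendental hj hft
      have hfinite : {v : Place K F | v.ord f ≠ 0}.Finite :=
        Fermat.Agent.S24.FF.finite_setOf_ord_ne_zero hft
      let D : Divisor K F := Finsupp.ofSupportFinite (fun v => v.ord f) hfinite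
      have hD : ∀ v : Place K F, D v = v.ord f := fun v => rfl
      exact ⟨D, hD, Fermat.Agent.S24.FF.degree_principal j hj f D hD⟩

end HPD

section Relative

variable {K F F' : Type*} [Field K] [Field F] [Field F'] [Algebra K F] [Algebra K F']
  [Algebra F F'] [IsScalarTower K F F'] [FiniteDimensional F F'] [CharZero F]
  [HasPrincipalDivisors K F']

/-- **Fundamental identity** `∑_{w | v} e(w|v) f(w|v) = [F' : F]` when all places of `F'` have
degree one. -/
theorem sumRamificationInertia (hdeg' : ∀ w : Place K F', w.deg = 1) :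
    SumRamificationInertia K F F' where
  sum_ramificationIndex_mul_inertiaDeg v := by
    rw [← sum_ramificationIndex v hdeg' (v.fiber F') (fun w => Place.mem_fiber)]
    refine Finset.sum_congr rfl fun w _ => ?_
    rw [inertiaDeg_eq_one hdeg' w]
    simp

theorem fundamentalIdentity (hdeg' : ∀ w : Place K F', w.deg = 1) :
    FundamentalIdentity K F F' :=
  haveI := sumRamificationInertia (F := F) hdeg'
  inferInstance

/-- **Norm formula** `N_* div(g) = div(N_{F'/F} g)` when all places of `F'` have degree one. -/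
theorem pushforwardNormFormula (hdeg' : ∀ w : Place K F', w.deg = 1) :
    Divisor.PushforwardNormFormula K F F' := by
  classical
  intro g hg D hD v
  rw [Divisor.pushforward_apply, ← sum_ord_eq_ord_norm v hdeg' (v.fiber F')
    (fun w => Place.mem_fiber) g hg]
  rw [← Finset.sum_filter]
  refine Finset.sum_subset_zero_on_sdiff ?_ ?_ ?_
  · intro w hw
    rw [Finset.mem_filter] at hw
    exact Place.mem_fiber.mpr hw.2
  · intro w hw
    rw [Finset.mem_sdiff, Finset.mem_filter, Place.mem_fiber] at hw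
    have hnot : w ∉ D.support := fun h => hw.2 ⟨h, hw.1⟩
    rw [Finsupp.notMem_support_iff, hD] at hnot
    exact hnot
  · intro w hw
    rw [hD, inertiaDeg_eq_one hdeg' w]
    simp

end Relative

end Fermat.Agent.Lib.FF398

end
-- ===== PACK-END Lib/FF398/Global.lean

-- ===== PACK-BEGIN Lib/HI/H864/Modular.lean
section




/-!
# Lib / HI (helper864): `HeckeInputsAlong ℚ̄ N ℓ` holds

The Prelude Hecke operator `heckeOperatorAlong ℚ̄ N ℓ` is defined as the genuine correspondence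
`α_* β^*` when the six inputs `HeckeInputsAlong` hold (and as `0` otherwise).  They always hold:

* `heckeInputsAlong_bar' N ℓ`        (any `N, ℓ ≠ 0`)
* `heckeInputsAlong_bar N ℓ hℓ`      (exact shape of `S29/SkeletonM.lean`, piece `HI`)
-/

set_option autoImplicit false
set_option linter.unusedSectionVars false
set_option linter.style.haveILetI false
set_option linter.unusedVariables false

noncomputable section

open AlgebraicCurve ModularCurve IntermediateField

namespace Fermat.Agent.Lib.HI.H864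

open Fermat.Agent.S24

theorem jF_not_mem_range (N : ℕ) [NeZero N] :
    jF N ∉ (algebraMap Kbar (FF N)).range := by
  rintro ⟨c, hc⟩
  have h1 : ((algebraMap Kbar (FF N) c : FF N) : LaurentSeries Kbar).coeff (-1)
      = ((jF N : FF N) : LaurentSeries Kbar).coeff (-1) := by rw [hc]
  have h2 : ((algebraMap Kbar (FF N) c : FF N) : LaurentSeries Kbar)
      = algebraMap Kbar (LaurentSeries Kbar) c := rfl
  rw [h2, algebraMap_laurentSeries_eq_single] at h1
  have h3 : ((jF N : FF N) : LaurentSeries Kbar) = coeffEmb Kbar jq := rfl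
  rw [h3, coeffEmb_coeff, coeff_jq_neg_one, map_one,
    HahnSeries.coeff_single_of_ne (by norm_num)] at h1
  exact zero_ne_one h1

theorem transcendental_jF (N : ℕ) [NeZero N] : Transcendental Kbar (jF N) :=
  FF.transcendental_of_not_mem_range (jF_not_mem_range N)

theorem finiteDimensional_jF (N : ℕ) [NeZero N] :
    FiniteDimensional ↥(IntermediateField.adjoin Kbar {jF N}) (FF N) :=
  (Deg457.degree_fields N).1

/-- The modular function field has principal divisors. -/
theorem hasPrincipalDivisors_FF (N : ℕ) [NeZero N] :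
    HasPrincipalDivisors (AlgebraicClosure ℚ) ↥(modularFunctionFieldBar N) := by
  haveI := finiteDimensional_jF N
  exact hasPrincipalDivisors (jF N) (transcendental_jF N)

section

variable (N ℓ : ℕ) [NeZero N] [NeZero ℓ]

theorem heckeAlphaBar_jF : heckeAlphaBar Kbar N ℓ (jF N) = jF (N * ℓ) := rfl

theorem finiteDimensional_alpha :
    FiniteDimensional ↥(IntermediateField.adjoin Kbar {heckeAlphaBar Kbar N ℓ (jF N)})
      (FF (N * ℓ)) := by
  rw [heckeAlphaBar_jF]
  exact finiteDimensional_jF (N * ℓ)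

theorem finiteDimensional_beta :
    FiniteDimensional ↥(IntermediateField.adjoin Kbar {heckeBetaBar Kbar N ℓ (jF N)})
      (FF (N * ℓ)) := by
  haveI := finiteDimensional_jF (N * ℓ)
  exact FF.finiteDimensional_adjoin_of_transcendental (transcendental_jF (N * ℓ))
    (transcendental_map (heckeBetaBar Kbar N ℓ) (jF N) (transcendental_jF N))

theorem heckeAlphaBarIntegral : HeckeAlphaBarIntegral Kbar N ℓ := by
  haveI := finiteDimensional_alpha N ℓ
  exact isIntegral_along_of_finite (heckeAlphaBar Kbar N ℓ) (jF N)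

theorem heckeBetaBarIntegral : HeckeBetaBarIntegral Kbar N ℓ := by
  haveI := finiteDimensional_beta N ℓ
  exact isIntegral_along_of_finite (heckeBetaBar Kbar N ℓ) (jF N)

theorem finiteAlong_alpha : FiniteAlong Kbar (heckeAlphaBar Kbar N ℓ) := by
  haveI := finiteDimensional_alpha N ℓ
  exact finiteAlong (heckeAlphaBar Kbar N ℓ) (jF N)

theorem finiteAlong_beta : FiniteAlong Kbar (heckeBetaBar Kbar N ℓ) := by
  haveI := finiteDimensional_beta N ℓ
  exact finiteAlong (heckeBetaBar Kbar N ℓ) (jF N)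

theorem fundamentalIdentityAlong_beta
    [HasPrincipalDivisors Kbar (laurentBaseChange Kbar (modularFunctionFieldFull (N * ℓ)))]
    (hβ : HeckeBetaBarIntegral Kbar N ℓ) :
    FundamentalIdentityAlong Kbar (heckeBetaBar Kbar N ℓ) hβ := by
  haveI := finiteDimensional_jF N
  haveI := finiteDimensional_beta N ℓ
  exact fundamentalIdentityAlong (heckeBetaBar Kbar N ℓ) (jF N) (transcendental_jF N) hβ

theorem fundamentalIdentityAlong_alpha
    [HasPrincipalDivisors Kbar (laurentBaseChange Kbar (modularFunctionFieldFull (N * ℓ)))]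
    (hα : HeckeAlphaBarIntegral Kbar N ℓ) :
    FundamentalIdentityAlong Kbar (heckeAlphaBar Kbar N ℓ) hα := by
  haveI := finiteDimensional_jF N
  haveI := finiteDimensional_alpha N ℓ
  exact fundamentalIdentityAlong (heckeAlphaBar Kbar N ℓ) (jF N) (transcendental_jF N) hα

theorem normFormulaAlong_alpha (hfin : FiniteAlong Kbar (heckeAlphaBar Kbar N ℓ)) :
    NormFormulaAlong Kbar (heckeAlphaBar Kbar N ℓ) hfin := by
  haveI := finiteDimensional_jF N
  haveI := finiteDimensional_alpha N ℓ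
  exact normFormulaAlong (heckeAlphaBar Kbar N ℓ) (jF N) (transcendental_jF N) hfin

theorem normFormulaAlong_beta (hfin : FiniteAlong Kbar (heckeBetaBar Kbar N ℓ)) :
    NormFormulaAlong Kbar (heckeBetaBar Kbar N ℓ) hfin := by
  haveI := finiteDimensional_jF N
  haveI := finiteDimensional_beta N ℓ
  exact normFormulaAlong (heckeBetaBar Kbar N ℓ) (jF N) (transcendental_jF N) hfin

/-- **HI.**  All six inputs of the Prelude Hecke correspondence hold over `ℚ̄`. -/
theorem heckeInputsAlong_bar' : HeckeInputsAlong (AlgebraicClosure ℚ) N ℓ := by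
  haveI hP : HasPrincipalDivisors Kbar
      (laurentBaseChange Kbar (modularFunctionFieldFull (N * ℓ))) :=
    hasPrincipalDivisors_FF (N * ℓ)
  exact heckeInputsAlong_intro (heckeAlphaBarIntegral N ℓ) (heckeBetaBarIntegral N ℓ)
    (fundamentalIdentityAlong_beta N ℓ _) (finiteAlong_alpha N ℓ)
    (normFormulaAlong_alpha N ℓ _)

end

/-- **HI**, exact shape of `S29/SkeletonM.lean`. -/
theorem heckeInputsAlong_bar (N : ℕ) [NeZero N] (ℓ : ℕ) [NeZero ℓ] (hℓ : ℓ.Prime) :
    HeckeInputsAlong (AlgebraicClosure ℚ) N ℓ :=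
  heckeInputsAlong_bar' N ℓ

end Fermat.Agent.Lib.HI.H864

end
end
-- ===== PACK-END Lib/HI/H864/Modular.lean

-- ===== PACK-BEGIN S18/Mod/H216/DenJ.lean
section


/-!
# S18 / MOD (helper216): `V_total`, denominators and integrality for the coordinate `j`

From the S28 basis (`SpansQ M y`, independence of the reductions over `κ(j̄)`, integrality of the
`j(q^d)` over `ℤ[j]`):

* `V_total_j`     : `Vc M A E` is a valuation ring of `Fc M E`;
* `injective_evR_j` : `j` is transcendental over `Rc M A E`;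
* `isIntegral_toOm_yInt` : the monomials are integral over `Rc[j]`;
* `denAt_j`       : the denominator statement `DenAt` on the chart `Rc[j]`.
-/

set_option autoImplicit false
set_option linter.unusedSectionVars false

noncomputable section

namespace Fermat.Agent.S18.Mod.H216

open ModularCurve AlgebraicCurve HahnSeries Polynomial Fermat.Agent.S18 Fermat.Agent.S18.Mod
open Fermat.Agent.S28 Fermat.Agent.S18.Alg

variable {M : ℕ} [NeZero M] (A : ValuationSubring Qb) (E : IntermediateField ℚ Qb)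
variable {n : ℕ} {y : Fin n → LaurentSeries ℤ}

theorem redE_sum_ne_zero (hS : H516.SpansQ M y)
    (hli : LinearIndependent (jField (IsLocalRing.ResidueField ↥A))
      (fun i => coeffMap (Int.castRingHom (IsLocalRing.ResidueField ↥A)) (y i)))
    {q : (↥(S0 A E))[X]} {p : Fin n → (↥(S0 A E))[X]}
    (hprim : q.map (resS A E) ≠ 0 ∨ ∃ i, (p i).map (resS A E) ≠ 0)
    (hq : q.map (resS A E) = 0) :
    redE M A E (∑ i, Uev M A E (p i) * yInt A E hS i) ≠ 0 := by
  intro h
  have h1 := redE_sum_eq_zero A E hS hli p h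
  rcases hprim with h2 | ⟨i, hi⟩
  · exact h2 hq
  · exact hi (h1 i)

/-- **`V_total`** for `x = j`. -/
theorem V_total_j (hS : H516.SpansQ M y)
    (hli : LinearIndependent (jField (IsLocalRing.ResidueField ↥A))
      (fun i => coeffMap (Int.castRingHom (IsLocalRing.ResidueField ↥A)) (y i))) :
    ∀ f ∈ Fc M E, f ∈ Vc M A E ∨ f⁻¹ ∈ Vc M A E := by
  intro f hf
  obtain ⟨q, p, hprim, hrel⟩ := exists_scaled_relation A E hS hf
  by_cases hq : q.map (resS A E) = 0
  · right
    have hN := redE_sum_ne_zero A E hS hli hprim hq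
    have hf0 : f ≠ 0 := by
      intro h0
      rw [h0, mul_zero] at hrel
      exact toOm_ne_zero_of_redE M A E hN hrel.symm
    refine (mem_Vc_iff' M A E).mpr
      ⟨Uev M A E q, ∑ i, Uev M A E (p i) * yInt A E hS i, hN, ?_⟩
    rw [← hrel, mul_comm (toOm M A E (Uev M A E q)), ← mul_assoc, inv_mul_cancel₀ hf0, one_mul]
  · left
    have hD : redE M A E (Uev M A E q) ≠ 0 := by rwa [Ne, redE_Uev_eq_zero_iff]
    refine (mem_Vc_iff' M A E).mpr
      ⟨∑ i, Uev M A E (p i) * yInt A E hS i, Uev M A E q, hD, ?_⟩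
    rw [mul_comm]
    exact hrel

/-- `j` is transcendental over `Rc`. -/
theorem injective_evR_j : Function.Injective (evR (Rc M A E) (jOm M)) := by
  rw [injective_iff_map_eq_zero]
  intro p hp
  rw [evR_eq_toOm_Uev] at hp
  have h1 := congrArg (fun z : Om M => (z : LaurentSeries Qb)) hp
  simp only [coe_toOm_Uev, ZeroMemClass.coe_zero] at h1
  have h2 := (H516.evJ_eq_zero_iff Qb).mp h1
  rw [Polynomial.map_map] at h2
  have hinj : Function.Injective
      (((S0 A E).subtype).comp ((eRc M A E).symm : ↥(Rc M A E) →+* ↥(S0 A E))) :=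
    (Subtype.val_injective).comp (eRc M A E).symm.injective
  exact Polynomial.map_injective _ hinj (by rw [h2, Polynomial.map_zero])

theorem toOm_Uev_mem_polyRing (p : (↥(S0 A E))[X]) :
    toOm M A E (Uev M A E p) ∈ polyRing (Rc M A E) (jOm M) := by
  rw [toOm_Uev]
  exact (mem_polyRing_iff _ _).mpr ⟨_, rfl⟩

theorem isIntegral_toOm_Uev (p : (↥(S0 A E))[X]) :
    IsIntegral (polyRing (Rc M A E) (jOm M)) (toOm M A E (Uev M A E p)) :=
  isIntegral_algebraMap (R := polyRing (Rc M A E) (jOm M)) (A := Om M)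
    (x := ⟨_, toOm_Uev_mem_polyRing A E p⟩)

/-- **Denominators** on the chart `Rc[j]`. -/
theorem denAt_j {w : Om M} (hR : PartR (Ec M E) (Rc M A E) w) (hS : H516.SpansQ M y)
    (hli : LinearIndependent (jField (IsLocalRing.ResidueField ↥A))
      (fun i => coeffMap (Int.castRingHom (IsLocalRing.ResidueField ↥A)) (y i)))
    (hint : ∀ i, IsIntegral (polyRing (Rc M A E) (jOm M)) (toOm M A E (yInt A E hS i))) :
    DenAt (Fc M E) (Rc M A E) (Vc M A E) w (jOm M) := by
  intro f hf hfV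
  obtain ⟨q, p, hprim, hrel⟩ := exists_scaled_relation A E hS hf
  have hq : q.map (resS A E) ≠ 0 := by
    intro hq0
    have hN := redE_sum_ne_zero A E hS hli hprim hq0
    obtain ⟨U₁, U₂, hne, heq⟩ := (mem_Vc_iff' M A E).mp hfV
    have h1 : toOm M A E (Uev M A E q * U₁) =
        toOm M A E ((∑ i, Uev M A E (p i) * yInt A E hS i) * U₂) := by
      rw [map_mul, map_mul, ← heq, ← hrel]
      ring
    have h3 := congrArg (redE M A E) (toOm_injective M A E h1)
    rw [map_mul, map_mul, (redE_Uev_eq_zero_iff M A E q).mpr hq0, zero_mul] at h3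
    exact mul_ne_zero hN hne h3.symm
  have hD : redE M A E (Uev M A E q) ≠ 0 := by rwa [Ne, redE_Uev_eq_zero_iff]
  refine ⟨toOm M A E (Uev M A E q), toOm_Uev_mem_polyRing A E q, ?_, ?_⟩
  · intro h
    obtain ⟨c, hA, hE, hc0, hcinv, rfl⟩ := exists_unif M A E hR
    have hw0 : algebraMap Qb (Om M) c ≠ 0 := hR.w_ne_zero
    obtain ⟨U₁, U₂, hne, heq⟩ := (mem_Vc_iff' M A E).mp h
    have h1 : toOm M A E (Uev M A E q * U₂) = toOm M A E (cInt M A E hA hE * U₁) := by
      rw [map_mul, map_mul, toOm_cInt, ← heq]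
      field_simp
    have h3 := congrArg (redE M A E) (toOm_injective M A E h1)
    rw [map_mul, map_mul, redE_cInt, residue_eq_zero_of_inv_not_mem A hA hcinv, map_zero,
      zero_mul] at h3
    exact mul_ne_zero hD hne h3
  · rw [hrel, map_sum]
    refine IsIntegral.sum _ fun i _ => ?_
    rw [map_mul]
    exact (isIntegral_toOm_Uev A E (p i)).mul (hint i)

end Fermat.Agent.S18.Mod.H216

end
end
-- ===== PACK-END S18/Mod/H216/DenJ.lean

-- ===== PACK-BEGIN S29/H882/Inter.lean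
section


/-!
# S29 / MERO (helper882), part (C): `F_L ∩ K((q)) = F_K`

For a field embedding `ι : K → L` and `F₀ ≤ ℚ((q))`: a Laurent series `y` over `K` whose base change
`coeffMap ι y` lies in `laurentBaseChange L F₀` already lies in `laurentBaseChange K F₀`.
-/

set_option autoImplicit false

noncomputable section

open Polynomial ModularCurve IntermediateField

namespace Fermat.Agent.S29.H882

open Fermat.Agent.S24 Fermat.Agent.S24.Deg457

section Span

variable (L : Type*) [Field L] [Algebra ℚ L] (F₀ : IntermediateField ℚ (LaurentSeries ℚ))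

/-- `coeffEmb` as a `ℚ`-linear map (for the `ℚ`-structure on `L((q))` induced by `L`). -/
theorem coeffEmb_smul_rat (c : ℚ) (u : LaurentSeries ℚ) :
    coeffEmb L (c • u) = (algebraMap ℚ L c) • coeffEmb L u := by
  ext k
  simp only [coeffEmb_coeff, HahnSeries.coeff_smul, smul_eq_mul, map_mul]

/-- The `L`-span of the image of `F₀`. -/
def spanImage : Submodule L (LaurentSeries L) :=
  Submodule.span L (⇑(coeffEmb L) '' (F₀ : Set (LaurentSeries ℚ)))

variable {L F₀}

theorem coeffEmb_mem_spanImage {u : LaurentSeries ℚ} (hu : u ∈ F₀) :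
    coeffEmb L u ∈ spanImage L F₀ :=
  Submodule.subset_span ⟨u, hu, rfl⟩

theorem spanImage_le : (spanImage L F₀ : Set (LaurentSeries L)) ⊆ laurentBaseChange L F₀ := by
  intro x hx
  refine Submodule.span_induction (p := fun x _ => x ∈ laurentBaseChange L F₀) ?_ ?_ ?_ ?_ hx
  · rintro _ ⟨u, hu, rfl⟩
    exact coeffEmb_mem_laurentBaseChange L hu
  · exact zero_mem _
  · intro a b _ _ ha hb
    exact add_mem ha hb
  · intro c a _ ha
    rw [hsmul_eq_algebraMap_mul]
    exact mul_mem ((laurentBaseChange L F₀).algebraMap_mem c) ha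

theorem mul_mem_spanImage {a b : LaurentSeries L} (ha : a ∈ spanImage L F₀)
    (hb : b ∈ spanImage L F₀) : a * b ∈ spanImage L F₀ := by
  refine Submodule.span_induction (p := fun a _ => a * b ∈ spanImage L F₀) ?_ ?_ ?_ ?_ ha
  · rintro _ ⟨u, hu, rfl⟩
    refine Submodule.span_induction (p := fun b _ => coeffEmb L u * b ∈ spanImage L F₀)
      ?_ ?_ ?_ ?_ hb
    · rintro _ ⟨v, hv, rfl⟩
      rw [← map_mul]
      exact coeffEmb_mem_spanImage (mul_mem hu hv)
    · rw [mul_zero]; exact zero_mem _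
    · intro x y _ _ hx hy
      rw [mul_add]; exact add_mem hx hy
    · intro c x _ hx
      have : coeffEmb L u * c • x = c • (coeffEmb L u * x) := by
        rw [hsmul_eq_algebraMap_mul, hsmul_eq_algebraMap_mul]; ring
      rw [this]; exact Submodule.smul_mem _ c hx
  · rw [zero_mul]; exact zero_mem _
  · intro x y _ _ hx hy
    rw [add_mul]; exact add_mem hx hy
  · intro c x _ hx
    have : c • x * b = c • (x * b) := by
      rw [hsmul_eq_algebraMap_mul, hsmul_eq_algebraMap_mul]; ring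
    rw [this]; exact Submodule.smul_mem _ c hx

theorem one_mem_spanImage : (1 : LaurentSeries L) ∈ spanImage L F₀ := by
  have := coeffEmb_mem_spanImage (L := L) (F₀ := F₀) (one_mem F₀)
  rwa [map_one] at this

theorem algebraMap_mem_spanImage (c : L) :
    algebraMap L (LaurentSeries L) c ∈ spanImage L F₀ := by
  have h : algebraMap L (LaurentSeries L) c = c • (1 : LaurentSeries L) := by
    rw [hsmul_eq_algebraMap_mul, mul_one]
  rw [h]
  exact Submodule.smul_mem _ c one_mem_spanImage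

variable (L F₀) in
/-- The span as a subalgebra. -/
def spanAlg : Subalgebra L (LaurentSeries L) where
  carrier := spanImage L F₀
  mul_mem' := mul_mem_spanImage
  add_mem' := fun ha hb => add_mem ha hb
  algebraMap_mem' := algebraMap_mem_spanImage

/-- Every element of the function field is a quotient of two elements of the span. -/
theorem exists_div_of_mem_laurentBaseChange {x : LaurentSeries L}
    (hx : x ∈ laurentBaseChange L F₀) :
    ∃ r ∈ spanImage L F₀, ∃ s ∈ spanImage L F₀, x = r / s := by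
  rw [laurentBaseChange, IntermediateField.mem_adjoin_iff_div] at hx
  obtain ⟨r, hr, s, hs, rfl⟩ := hx
  have hle : Algebra.adjoin L (⇑(coeffEmb L) '' (F₀ : Set (LaurentSeries ℚ))) ≤ spanAlg L F₀ :=
    Algebra.adjoin_le (fun x hx => Submodule.subset_span hx)
  exact ⟨r, hle hr, s, hle hs, rfl⟩

end Span

section Main

variable {K L : Type*} [Field K] [Algebra ℚ K] [Field L] [Algebra ℚ L]

/-- A finite `ℚ`-independent family in `F₀` whose image spans two given elements of the span. -/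
theorem exists_indep_family (F₀ : IntermediateField ℚ (LaurentSeries ℚ))
    {r s : LaurentSeries L} (hr : r ∈ spanImage L F₀) (hs : s ∈ spanImage L F₀) :
    ∃ (m : ℕ) (e : Fin m → LaurentSeries ℚ), (∀ i, e i ∈ F₀) ∧ LinearIndependent ℚ e ∧
      ∃ a b : Fin m → L, r = ∑ i, a i • coeffEmb L (e i) ∧ s = ∑ i, b i • coeffEmb L (e i) := by
  classical
  -- finite supports
  obtain ⟨lr, hlr, rfl⟩ := (Finsupp.mem_span_image_iff_linearCombination L).mp hr
  obtain ⟨ls, hls, rfl⟩ := (Finsupp.mem_span_image_iff_linearCombination L).mp hs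
  set S : Finset (LaurentSeries ℚ) := lr.support ∪ ls.support with hS
  have hSF : ∀ u ∈ S, u ∈ F₀ := by
    intro u hu
    rcases Finset.mem_union.mp hu with h | h
    · exact hlr h
    · exact hls h
  obtain ⟨B, hBt, hspan, hind⟩ := exists_linearIndependent ℚ (S : Set (LaurentSeries ℚ))
  have hBfin : B.Finite := (Finset.finite_toSet S).subset hBt
  haveI : Fintype B := hBfin.fintype
  -- the image of every element of `S` lies in the `L`-span of the image of `B`
  let EL : LaurentSeries ℚ →ₗ[ℚ] LaurentSeries L :=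
    { toFun := coeffEmb L
      map_add' := map_add _
      map_smul' := fun c u => by
        rw [coeffEmb_smul_rat, RingHom.id_apply, algebraMap_smul] }
  have hmem : ∀ u ∈ S, coeffEmb L u ∈ Submodule.span L (Set.range fun e : B => coeffEmb L (e : _)) := by
    intro u hu
    have h1 : u ∈ Submodule.span ℚ B := by
      rw [hspan]; exact Submodule.subset_span hu
    have h2 := Submodule.apply_mem_span_image_of_mem_span EL h1
    have h3 : Submodule.span ℚ (EL '' B) ≤
        (Submodule.span L (EL '' B)).restrictScalars ℚ := Submodule.span_le_restrictScalars ℚ L _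
    have h4 := h3 h2
    have h5 : (EL '' B) = Set.range fun e : B => coeffEmb L (e : _) := by
      ext x
      constructor
      · rintro ⟨u, hu, rfl⟩; exact ⟨⟨u, hu⟩, rfl⟩
      · rintro ⟨⟨u, hu⟩, rfl⟩; exact ⟨u, hu, rfl⟩
    rw [h5] at h4
    exact h4
  have hlin : ∀ l : LaurentSeries ℚ →₀ L, (l.support ⊆ S) →
      Finsupp.linearCombination L (⇑(coeffEmb L)) l ∈
        Submodule.span L (Set.range fun e : B => coeffEmb L (e : _)) := by
    intro l hl
    rw [Finsupp.linearCombination_apply, Finsupp.sum]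
    refine Submodule.sum_mem _ fun u hu => ?_
    exact Submodule.smul_mem _ _ (hmem u (hl hu))
  have hr' := hlin lr Finset.subset_union_left
  have hs' := hlin ls Finset.subset_union_right
  rw [Submodule.mem_span_range_iff_exists_fun] at hr' hs'
  obtain ⟨a, ha⟩ := hr'
  obtain ⟨b, hb⟩ := hs'
  -- reindex by `Fin m`
  let eq := Fintype.equivFin B
  refine ⟨Fintype.card B, fun i => ((eq.symm i : B) : LaurentSeries ℚ), ?_, ?_,
    fun i => a (eq.symm i), fun i => b (eq.symm i), ?_, ?_⟩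
  · intro i
    exact hSF _ (hBt (eq.symm i).2)
  · exact hind.comp _ eq.symm.injective
  · rw [← ha]
    exact (Equiv.sum_comp eq.symm (fun e : B => a e • coeffEmb L (e : LaurentSeries ℚ))).symm
  · rw [← hb]
    exact (Equiv.sum_comp eq.symm (fun e : B => b e • coeffEmb L (e : LaurentSeries ℚ))).symm

/-- **(C)** `F_L ∩ K((q)) = F_K`. -/
theorem mem_laurentBaseChange_of_coeffMap_mem (ι : K →+* L)
    (F₀ : IntermediateField ℚ (LaurentSeries ℚ)) {y : LaurentSeries K}
    (hy : coeffMap ι y ∈ laurentBaseChange L F₀) : y ∈ laurentBaseChange K F₀ := by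
  classical
  obtain ⟨r, hr, s, hs, hrs⟩ := exists_div_of_mem_laurentBaseChange hy
  by_cases hs0 : s = 0
  · -- then `coeffMap ι y = 0`, so `y = 0`
    rw [hs0, div_zero] at hrs
    have : y = 0 := by
      ext k
      have := congrArg (fun z : LaurentSeries L => z.coeff k) hrs
      simp only [coeffMap_coeff, HahnSeries.coeff_zero] at this
      simpa using this
    rw [this]; exact zero_mem _
  obtain ⟨m, e, heF, hind, a, b, hra, hsb⟩ := exists_indep_family F₀ hr hs
  have hxs : coeffMap ι y * s = r := by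
    rw [hrs]; field_simp
  -- the family over `K`
  let w : Fin m ⊕ Fin m → LaurentSeries K :=
    Sum.elim (fun i => y * coeffEmb K (e i)) (fun i => coeffEmb K (e i))
  have hindK : LinearIndependent K (fun i => coeffEmb K (e i)) := by
    have := linearIndependent_coeffMap (algebraMap ℚ K) e hind
    exact this
  have hnot : ¬ LinearIndependent K w := by
    intro hw
    have hL := linearIndependent_coeffMap ι w hw
    rw [Fintype.linearIndependent_iff] at hL
    have key := hL (Sum.elim b (fun i => -a i)) ?_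
    · apply hs0
      rw [hsb]
      refine Finset.sum_eq_zero fun i _ => ?_
      have := key (Sum.inl i)
      simp only [Sum.elim_inl] at this
      rw [this, zero_smul]
    · rw [Fintype.sum_sum_type]
      simp only [Sum.elim_inl, Sum.elim_inr, w, map_mul, coeffMap_coeffEmb']
      have h1 : ∑ i, b i • (coeffMap ι y * coeffEmb L (e i)) = coeffMap ι y * s := by
        rw [hsb, Finset.mul_sum]
        refine Finset.sum_congr rfl fun i _ => ?_
        rw [hsmul_eq_algebraMap_mul, hsmul_eq_algebraMap_mul]; ring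
      have h2 : ∑ i, (-a i) • coeffEmb L (e i) = -r := by
        rw [hra, ← Finset.sum_neg_distrib]
        refine Finset.sum_congr rfl fun i _ => ?_
        rw [neg_smul]
      rw [h1, h2, hxs, add_neg_cancel]
  rw [Fintype.not_linearIndependent_iff] at hnot
  obtain ⟨g, hg, i₀, hi₀⟩ := hnot
  rw [Fintype.sum_sum_type] at hg
  simp only [Sum.elim_inl, Sum.elim_inr, w] at hg
  set s' : LaurentSeries K := ∑ i, g (Sum.inl i) • coeffEmb K (e i) with hs'
  set r' : LaurentSeries K := -∑ i, g (Sum.inr i) • coeffEmb K (e i) with hr'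
  have hys : y * s' = r' := by
    have h1 : ∑ i, g (Sum.inl i) • (y * coeffEmb K (e i)) = y * s' := by
      rw [hs', Finset.mul_sum]
      refine Finset.sum_congr rfl fun i _ => ?_
      rw [hsmul_eq_algebraMap_mul, hsmul_eq_algebraMap_mul]; ring
    rw [h1] at hg
    rw [hr']
    exact eq_neg_of_add_eq_zero_left hg
  have hs'mem : s' ∈ laurentBaseChange K F₀ := by
    refine sum_mem fun i _ => ?_
    rw [hsmul_eq_algebraMap_mul]
    exact mul_mem ((laurentBaseChange K F₀).algebraMap_mem _)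
      (coeffEmb_mem_laurentBaseChange K (heF i))
  have hr'mem : r' ∈ laurentBaseChange K F₀ := by
    refine neg_mem (sum_mem fun i _ => ?_)
    rw [hsmul_eq_algebraMap_mul]
    exact mul_mem ((laurentBaseChange K F₀).algebraMap_mem _)
      (coeffEmb_mem_laurentBaseChange K (heF i))
  have hs'0 : s' ≠ 0 := by
    intro h0
    rw [Fintype.linearIndependent_iff] at hindK
    have hb0 : ∀ i, g (Sum.inl i) = 0 := hindK _ h0
    have hr0 : r' = 0 := by rw [← hys, h0, mul_zero]
    have ha0 : ∀ i, g (Sum.inr i) = 0 := hindK _ (neg_eq_zero.mp hr0)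
    rcases i₀ with i | i
    · exact hi₀ (hb0 i)
    · exact hi₀ (ha0 i)
  have : y = r' / s' := by
    rw [← hys]; field_simp
  rw [this]
  exact div_mem hr'mem hs'mem

end Main

end Fermat.Agent.S29.H882

end
end
-- ===== PACK-END S29/H882/Inter.lean

-- ===== PACK-BEGIN S21/IntC.lean
section



/-!
# S21 — INT-C: the unfolding identity (helper544)

Exact statement of `MSInterface.lean`, proved from INT-A (`IntA.lean`, helper480) and the
change of variables / chain rule of `Small.lean` (helper906).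
-/

set_option autoImplicit false

open ModularCurve ModularCurve.Period UpperHalfPlane CongruenceSubgroup Filter Topology
open MeasureTheory
open scoped MatrixGroups ComplexConjugate ContDiff

namespace Fermat.Agent.S21

variable (N : ℕ) [NeZero N] {χ₁ : ℂ → ℝ}

/-- **INT-C**: unfolding. -/
theorem unfolding (hχ : IsSL2ZPartition χ₁) (u : ℂ → ℝ) (hu : ContDiffOn ℝ 1 u Uhp)
    (hinv : ∀ γ : Gamma0 N, ∀ z ∈ Uhp,
      dz u (mob (γ : SL(2, ℤ)) z) = (cd (γ : SL(2, ℤ)) z) ^ 2 * dz u z)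
    {η : ℂ → ℝ} (hη : IsTest η) :
    ∫ z, (fderiv ℝ u z 1 * fderiv ℝ (sym N η) z 1
        + fderiv ℝ u z Complex.I * fderiv ℝ (sym N η) z Complex.I) * chi N χ₁ z
      = ∫ z, (fderiv ℝ u z 1 * fderiv ℝ η z 1
        + fderiv ℝ u z Complex.I * fderiv ℝ η z Complex.I) :=
  H544.unfolding_of N hχ (measurable_chi N hχ) (chi_nonneg N hχ) (chi_le_one N hχ)
    (chi_locfin N hχ) (chi_sum_eq_one N hχ) u hu hinv hη

end Fermat.Agent.S21

end
-- ===== PACK-END S21/IntC.lean

-- ===== PACK-BEGIN S21/MSInterface.lean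
section











/-!
# S21 — interface statements for the minimizing sequence (MS)

All pieces are now proved:
* MS-A `exists_partition_SL2Z` (helper896, `Partition.lean`), repackaged here as
  `exists_isSL2ZPartition`;
* MS-C `exists_u0` (helper81, `H81/U0Final.lean`);
* INT-A (helper480, `IntA.lean`), INT-B (helper753, `IntB.lean`), INT-C (helper544, `IntC.lean`),
  INT-D (helper98, `IntD.lean`, `IntDCore.lean`).
-/

set_option autoImplicit false

open ModularCurve ModularCurve.Period UpperHalfPlane CongruenceSubgroup Filter Topology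
open MeasureTheory
open scoped MatrixGroups ComplexConjugate ContDiff

namespace Fermat.Agent.S21

/-- **MS-A**, packaged as a structure. -/
theorem exists_isSL2ZPartition : ∃ χ₁ : ℂ → ℝ, IsSL2ZPartition χ₁ := by
  obtain ⟨χ₁, h1, h2, h3, h4, h5⟩ := exists_partition_SL2Z
  exact ⟨χ₁, ⟨h1, h2, h3, h4, h5⟩⟩

/-- **MS-C**: the initial function `u₀` with periods `φ`, locally constant high in every cusp. -/
theorem exists_u0 (N : ℕ) [NeZero N] (φ : Additive (Gamma0 N) →+ ℝ)
    (hφ : ModularCurve.Period.IsParabolicHom (Gamma0 N) φ) :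
    ∃ u₀ : ℂ → ℝ, ContDiffOn ℝ ∞ u₀ Uhp ∧
      (∀ (γ : Gamma0 N) (z : ℍ), u₀ ↑((γ : SL(2, ℤ)) • z) = u₀ ↑z + φ (Additive.ofMul γ)) ∧
      (∀ (δ : SL(2, ℤ)) (z : ℂ), 2 < z.im → dz u₀ (mob δ z) = 0) :=
  H81.exists_u0 N φ hφ

end Fermat.Agent.S21

end
-- ===== PACK-END S21/MSInterface.lean

-- ===== PACK-BEGIN S23.lean
section



set_option autoImplicit false
open CuspForm

namespace Fermat.Agent.S23

theorem result (N : ℕ) [NeZero N] : CuspForm.HasIntegralStructure N 2 :=
  Fermat.Agent.S23.Cap.hasIntegralStructure N 2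

end Fermat.Agent.S23

end
-- ===== PACK-END S23.lean

-- ===== PACK-BEGIN Lib/Newform/H863/GoodEigen.lean
section






/-!
# NEWFORM library, piece E (helper863)

* `finiteDimensional_cuspForm` : `S₂(Γ₀(N))` is finite dimensional (from landed S23).
* `exists_normalizedEigenform_of_eigenvector` : a nonzero common eigenvector of the Hecke
  operators `T_ℓ`, `ℓ ∤ M`, `ℓ ∉ S` at level `M` gives a normalised eigenform of level `M`
  (in the sense of the prelude: eigen for ALL `T_ℓ`, `U_q`) with `a_ℓ = lam ℓ` for those `ℓ`.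
* `goodEigensystemOccursAt_of_eigenvector` : the form needed for `IsNewform` arguments.
-/

set_option autoImplicit false
open CuspForm CongruenceSubgroup ModularFormClass

namespace Fermat.Agent.Lib.Newform.H863

theorem finiteDimensional_cuspForm (N : ℕ) [NeZero N] :
    FiniteDimensional ℂ (CuspForm (Gamma0 N) 2) := by
  obtain ⟨S, hS⟩ := CuspForm.intLattice_fg N 2
  have hint : CuspForm.HasIntegralStructure N 2 := Fermat.Agent.S23.result N
  unfold CuspForm.HasIntegralStructure at hint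
  refine ⟨⟨S, top_le_iff.mp ?_⟩⟩
  rw [← hint]
  apply Submodule.span_le.mpr
  intro f hf
  have hf' : f ∈ Submodule.span ℤ (S : Set (CuspForm (Gamma0 N) 2)) := hS ▸ hf
  exact Submodule.span_le_restrictScalars ℤ ℂ _ hf'

/-- The common eigenspace of the good Hecke operators. -/
def goodEigenspace (M : ℕ) [NeZero M] (S : Set ℕ) (lam : ℕ → ℂ) :
    Submodule ℂ (CuspForm (Gamma0 M) 2) where
  carrier := {h | ∀ (ℓ : ℕ) (hℓ : ℓ.Prime) (hℓM : ¬ ℓ ∣ M), ℓ ∉ S →
    CuspForm.heckeTLin 2 hℓ hℓM h = lam ℓ • h}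
  add_mem' := by
    intro a b ha hb ℓ hℓ hℓM hS
    rw [map_add, ha ℓ hℓ hℓM hS, hb ℓ hℓ hℓM hS, smul_add]
  zero_mem' := by
    intro ℓ hℓ hℓM hS
    simp
  smul_mem' := by
    intro c a ha ℓ hℓ hℓM hS
    rw [map_smul, ha ℓ hℓ hℓM hS, smul_comm]

theorem mem_goodEigenspace {M : ℕ} [NeZero M] {S : Set ℕ} {lam : ℕ → ℂ}
    {h : CuspForm (Gamma0 M) 2} :
    h ∈ goodEigenspace M S lam ↔ ∀ (ℓ : ℕ) (hℓ : ℓ.Prime) (hℓM : ¬ ℓ ∣ M), ℓ ∉ S →
      CuspForm.heckeTLin 2 hℓ hℓM h = lam ℓ • h := Iff.rfl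

/-- Every element of the full Hecke algebra preserves the good eigenspace. -/
theorem heckeAlgebra_mapsTo_goodEigenspace {M : ℕ} [NeZero M] (S : Set ℕ) (lam : ℕ → ℂ)
    (t : heckeAlgebra M 2 (∅ : Set ℕ)) (w : CuspForm (Gamma0 M) 2)
    (hw : w ∈ goodEigenspace M S lam) :
    (t : Module.End ℂ (CuspForm (Gamma0 M) 2)) w ∈ goodEigenspace M S lam := by
  intro ℓ hℓ hℓM hS
  have hcomm : (heckeAlgebra.T hℓ hℓM (Set.notMem_empty _) : heckeAlgebra M 2 (∅ : Set ℕ)) * t
      = t * heckeAlgebra.T hℓ hℓM (Set.notMem_empty _) := mul_comm _ _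
  have h1 := congrArg (fun x : heckeAlgebra M 2 (∅ : Set ℕ) =>
    (x : Module.End ℂ (CuspForm (Gamma0 M) 2)) w) hcomm
  simp only [MulMemClass.coe_mul, heckeAlgebra.coe_T, Module.End.mul_apply] at h1
  rw [h1, hw ℓ hℓ hℓM hS, map_smul]

/-- The action of the full Hecke algebra on the good eigenspace. -/
noncomputable def heckeOnGood (M : ℕ) [NeZero M] (S : Set ℕ) (lam : ℕ → ℂ) :
    heckeAlgebra M 2 (∅ : Set ℕ) →+* Module.End ℂ (goodEigenspace M S lam) where
  toFun t := (t : Module.End ℂ (CuspForm (Gamma0 M) 2)).restrict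
    (fun w hw => heckeAlgebra_mapsTo_goodEigenspace S lam t w hw)
  map_one' := by
    ext w
    simp
  map_mul' a b := by
    ext w
    simp [Module.End.mul_apply]
  map_zero' := by
    ext w
    simp
  map_add' a b := by
    ext w
    simp

theorem heckeOnGood_apply_coe {M : ℕ} [NeZero M] (S : Set ℕ) (lam : ℕ → ℂ)
    (t : heckeAlgebra M 2 (∅ : Set ℕ)) (w : goodEigenspace M S lam) :
    ((heckeOnGood M S lam t w : goodEigenspace M S lam) : CuspForm (Gamma0 M) 2)
      = (t : Module.End ℂ (CuspForm (Gamma0 M) 2)) (w : CuspForm (Gamma0 M) 2) := rfl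

/-- **E-lemma.** A nonzero common eigenvector of the good Hecke operators at level `M`
yields a normalised eigenform of level `M` with the prescribed good eigenvalues. -/
theorem exists_normalizedEigenform_of_eigenvector {M : ℕ} [NeZero M] (S : Set ℕ) (lam : ℕ → ℂ)
    (h : CuspForm (Gamma0 M) 2) (hh : h ≠ 0)
    (heig : ∀ (ℓ : ℕ) (hℓ : ℓ.Prime) (hℓM : ¬ ℓ ∣ M), ℓ ∉ S →
      CuspForm.heckeTLin 2 hℓ hℓM h = lam ℓ • h) :
    ∃ g : CuspForm (Gamma0 M) 2, g.IsNormalizedEigenform ∧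
      ∀ ℓ : ℕ, ℓ.Prime → ¬ ℓ ∣ M → ℓ ∉ S → qCoeff g ℓ = lam ℓ := by
  classical
  have := finiteDimensional_cuspForm M
  set W := goodEigenspace M S lam with hW
  have hhW : h ∈ W := heig
  have : Nontrivial W := ⟨⟨⟨h, hhW⟩, 0, fun h0 => hh (congrArg Subtype.val h0)⟩⟩
  set ρ := heckeOnGood M S lam with hρ
  -- a maximal ideal containing the kernel
  have hker : RingHom.ker ρ ≠ ⊤ := by
    intro htop
    have h1 : (1 : heckeAlgebra M 2 (∅ : Set ℕ)) ∈ RingHom.ker ρ := htop ▸ Submodule.mem_top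
    rw [RingHom.mem_ker, map_one] at h1
    have h2 := congrArg (fun e : Module.End ℂ W => e ⟨h, hhW⟩) h1
    simp only [Module.End.one_apply, LinearMap.zero_apply] at h2
    exact hh (congrArg Subtype.val h2)
  obtain ⟨𝔫, h𝔫max, h𝔫le⟩ := Ideal.exists_le_maximal _ hker
  have : 𝔫.IsPrime := h𝔫max.isPrime
  obtain ⟨g, χ, hg0, hgχ, -⟩ := Fermat.Agent.S49.exists_eigenvector_ker_le' ρ 𝔫 h𝔫le
  have hg0' : (g : CuspForm (Gamma0 M) 2) ≠ 0 := fun h0 => hg0 (Subtype.ext h0)
  have hgχ' : ∀ t : heckeAlgebra M 2 (∅ : Set ℕ),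
      (t : Module.End ℂ (CuspForm (Gamma0 M) 2)) (g : CuspForm (Gamma0 M) 2)
        = χ t • (g : CuspForm (Gamma0 M) 2) := by
    intro t
    have := congrArg Subtype.val (hgχ t)
    simpa [hρ, heckeOnGood_apply_coe] using this
  obtain ⟨f, hf, hfχ⟩ := Fermat.Agent.S49.exists_normalized_eigenform
    (g : CuspForm (Gamma0 M) 2) hg0' χ hgχ'
  refine ⟨f, hf, fun ℓ hℓ hℓM hℓS => ?_⟩
  rw [hfχ ℓ hℓ hℓM]
  have h1 := hgχ' (heckeAlgebra.T hℓ hℓM (Set.notMem_empty _))
  rw [heckeAlgebra.coe_T, g.2 ℓ hℓ hℓM hℓS] at h1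
  have h2 : (lam ℓ - χ (heckeAlgebra.T hℓ hℓM (Set.notMem_empty _))) •
      (g : CuspForm (Gamma0 M) 2) = 0 := by
    rw [sub_smul, h1, sub_self]
  rcases smul_eq_zero.mp h2 with h3 | h3
  · exact (sub_eq_zero.mp h3).symm
  · exact absurd h3 hg0'

/-- **E-lemma, newform shape.** If the good eigensystem of `f` (level `N`) is realised by a
nonzero common eigenvector at level `M ∣ N`, then it occurs at `M` in the sense of the prelude. -/
theorem goodEigensystemOccursAt_of_eigenvector {N M : ℕ} [NeZero M] (hMN : M ∣ N)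
    (f : CuspForm (Gamma0 N) 2) (h : CuspForm (Gamma0 M) 2) (hh : h ≠ 0)
    (heig : ∀ (ℓ : ℕ) (hℓ : ℓ.Prime) (hℓN : ¬ ℓ ∣ N),
      CuspForm.heckeTLin 2 hℓ (fun hd => hℓN (hd.trans hMN)) h = qCoeff f ℓ • h) :
    CuspForm.GoodEigensystemOccursAt f M := by
  obtain ⟨g, hg, hgl⟩ := exists_normalizedEigenform_of_eigenvector
    (S := {ℓ | ℓ ∣ N}) (fun ℓ => qCoeff f ℓ) h hh
    (fun ℓ hℓ hℓM hℓS => heig ℓ hℓ hℓS)
  exact ⟨g, hg, fun ℓ hℓ hℓN => hgl ℓ hℓ (fun hd => hℓN (hd.trans hMN)) hℓN⟩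

end Fermat.Agent.Lib.Newform.H863

end
-- ===== PACK-END Lib/Newform/H863/GoodEigen.lean

-- ===== PACK-BEGIN S55/Bridge/H594/Comap.lean
section


/-!
# S55 bridge (helper594), piece B14 in `ValuationSubring.comap` form

For a finite (or just normal) intermediate field `F` of `ℚ̄/ℚ` and a valuation subring `A` of `ℚ̄`
over a prime number `q`, with `A ∩ F := A.comap (algebraMap F ℚ̄)`:

* `map_decompositionSubgroup_eq_comap`: the image of `D_A` in `Gal(F/ℚ)` is `D_{A ∩ F}`;
* `map_inertiaSubgroupIn_eq_comap`: the image of `I_A` in `Gal(F/ℚ)` is `I_{A ∩ F}`.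

The first part of the file gives elementwise membership criteria for the decomposition and
inertia groups of a valuation subring of an arbitrary field extension.
-/

set_option autoImplicit false
set_option linter.style.haveILetI false
set_option linter.unusedSectionVars false

namespace Fermat.Agent.S55.Bridge.H594

open Fermat.Agent.S54 Fermat.Agent.S55.Bridge
open scoped Pointwise

section general

variable {K L : Type*} [Field K] [Field L] [Algebra K L] (A : ValuationSubring L)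

/-- Membership in the decomposition group, elementwise (general fields). -/
theorem mem_decompositionSubgroup_iff_forall (σ : L ≃ₐ[K] L) :
    σ ∈ A.decompositionSubgroup K ↔ ∀ x, σ x ∈ A ↔ x ∈ A := by
  rw [MulAction.mem_stabilizer_iff]
  constructor
  · intro h x
    have hinv : σ⁻¹ • A = A := by
      conv_lhs => rw [← h]
      rw [inv_smul_smul]
    have h1 := ValuationSubring.mem_pointwise_smul_iff_inv_smul_mem (S := A)
      (g := σ⁻¹) (x := x)
    rw [hinv, inv_inv] at h1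
    rw [h1]
    rfl
  · intro h
    apply SetLike.ext
    intro x
    rw [ValuationSubring.mem_pointwise_smul_iff_inv_smul_mem]
    have h2 := h (σ⁻¹ • x)
    rw [AlgEquiv.smul_def] at h2 ⊢
    rw [← h2]
    have : σ (σ⁻¹ x) = x := by
      show (σ * σ⁻¹) x = x
      rw [mul_inv_cancel]
      rfl
    rw [this]

/-- Membership in the inertia group, elementwise (general fields). -/
theorem mem_inertiaSubgroupIn_iff_forall (σ : L ≃ₐ[K] L) :
    σ ∈ A.inertiaSubgroupIn K ↔
      σ ∈ A.decompositionSubgroup K ∧ ∀ z ∈ A, σ z - z ∈ A.nonunits := by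
  constructor
  · rintro ⟨g, hg, rfl⟩
    refine ⟨g.2, fun z hzA => ?_⟩
    have h1 : MulSemiringAction.toRingAut (A.decompositionSubgroup K)
        (IsLocalRing.ResidueField A) g = 1 := hg
    have h2 : g • (IsLocalRing.residue A ⟨z, hzA⟩) = IsLocalRing.residue A ⟨z, hzA⟩ := by
      have := congrArg (fun f => f (IsLocalRing.residue A ⟨z, hzA⟩)) h1
      simpa using this
    rw [← IsLocalRing.ResidueField.residue_smul] at h2
    have h3 : (g • (⟨z, hzA⟩ : A)) - ⟨z, hzA⟩ ∈ IsLocalRing.maximalIdeal A := by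
      rw [← Ideal.Quotient.eq]
      exact h2
    rw [ValuationSubring.valuation_lt_one_iff] at h3
    rw [ValuationSubring.mem_nonunits_iff]
    exact h3
  · rintro ⟨hD, h⟩
    refine ⟨⟨σ, hD⟩, ?_, rfl⟩
    show (⟨σ, hD⟩ : A.decompositionSubgroup K) ∈ MonoidHom.ker
      (MulSemiringAction.toRingAut (A.decompositionSubgroup K) (IsLocalRing.ResidueField A))
    rw [MonoidHom.mem_ker]
    apply RingEquiv.ext
    intro y
    obtain ⟨x, rfl⟩ := IsLocalRing.residue_surjective y
    show (⟨σ, hD⟩ : A.decompositionSubgroup K) • (IsLocalRing.residue A x)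
      = IsLocalRing.residue A x
    rw [← IsLocalRing.ResidueField.residue_smul]
    rw [← sub_eq_zero, ← map_sub, IsLocalRing.residue_eq_zero_iff]
    have h3 := h x.1 x.2
    rw [ValuationSubring.mem_nonunits_iff] at h3
    rw [ValuationSubring.valuation_lt_one_iff]
    exact h3

/-- Non-units of a `comap`. -/
theorem mem_nonunits_comap_iff {M : Type*} [Field M] (f : M →+* L) (x : M) :
    x ∈ (A.comap f).nonunits ↔ f x ∈ A.nonunits := by
  rw [ValuationSubring.mem_nonunits_iff_or, ValuationSubring.mem_nonunits_iff_or,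
    ValuationSubring.mem_comap, map_inv₀, map_eq_zero_iff f f.injective]

end general

section comap

attribute [local instance] isAlgebraic_Qbar isGalois_Qbar

variable (F : IntermediateField ℚ (AlgebraicClosure ℚ)) [Normal ℚ F]
variable (A : ValuationSubring (AlgebraicClosure ℚ))

/-- **B14 (decomposition groups).** -/
theorem map_decompositionSubgroup_eq_comap {q : ℕ} (hq : q.Prime) (hA : A.LiesOverPrime q) :
    (A.decompositionSubgroup ℚ).map (AlgEquiv.restrictNormalHom F) =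
      (A.comap (algebraMap F (AlgebraicClosure ℚ))).decompositionSubgroup ℚ := by
  apply le_antisymm
  · rintro _ ⟨σ, hσ, rfl⟩
    rw [mem_decompositionSubgroup_iff_forall]
    intro x
    rw [ValuationSubring.mem_comap, ValuationSubring.mem_comap]
    have := (mem_decompositionSubgroup_iff_forall A σ).mp hσ (x : AlgebraicClosure ℚ)
    have h2 : algebraMap F (AlgebraicClosure ℚ) (AlgEquiv.restrictNormalHom F σ x) =
        σ (x : AlgebraicClosure ℚ) := restrictNormalHom_apply F σ x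
    rw [h2]
    exact this
  · intro τ hτ
    have hτ' := (mem_decompositionSubgroup_iff_forall _ τ).mp hτ
    obtain ⟨σ, hσ, hστ⟩ := exists_decomposition_lift F A hq hA τ (fun x _ => by
      have h1 := mem_nonunits_comap_iff A (algebraMap F (AlgebraicClosure ℚ)) (τ x)
      have h2 := mem_nonunits_comap_iff A (algebraMap F (AlgebraicClosure ℚ)) x
      rw [show ((τ x : F) : AlgebraicClosure ℚ) = algebraMap F (AlgebraicClosure ℚ) (τ x) from rfl,
        show ((x : F) : AlgebraicClosure ℚ) = algebraMap F (AlgebraicClosure ℚ) x from rfl,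
        ← h1, ← h2, ValuationSubring.mem_nonunits_iff_or, ValuationSubring.mem_nonunits_iff_or,
        ← map_inv₀, hτ', map_eq_zero_iff τ τ.injective])
    exact ⟨σ, hσ, hστ⟩

/-- **B14 (inertia groups).** -/
theorem map_inertiaSubgroupIn_eq_comap {q : ℕ} (hq : q.Prime) (hA : A.LiesOverPrime q) :
    (A.inertiaSubgroupIn ℚ).map (AlgEquiv.restrictNormalHom F) =
      (A.comap (algebraMap F (AlgebraicClosure ℚ))).inertiaSubgroupIn ℚ := by
  apply le_antisymm
  · rintro _ ⟨σ, hσ, rfl⟩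
    obtain ⟨hD, hI⟩ := (mem_inertiaSubgroupIn_iff_forall A σ).mp hσ
    rw [mem_inertiaSubgroupIn_iff_forall]
    refine ⟨?_, fun z hz => ?_⟩
    · rw [← map_decompositionSubgroup_eq_comap F A hq hA]
      exact ⟨σ, hD, rfl⟩
    · rw [mem_nonunits_comap_iff, map_sub]
      rw [ValuationSubring.mem_comap] at hz
      have := hI _ hz
      rw [show algebraMap F (AlgebraicClosure ℚ) (AlgEquiv.restrictNormalHom F σ z) =
        σ (algebraMap F (AlgebraicClosure ℚ) z) from restrictNormalHom_apply F σ z]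
      exact this
  · intro τ hτ
    obtain ⟨-, hI⟩ := (mem_inertiaSubgroupIn_iff_forall _ τ).mp hτ
    obtain ⟨σ, hσ, hστ⟩ := exists_inertia_lift F A hq hA τ (fun x hx => by
      have hxA : x ∈ A.comap (algebraMap F (AlgebraicClosure ℚ)) := by
        rw [ValuationSubring.mem_comap]
        exact isIntegral_mem_valuationSubring A
          (hx.map (IsScalarTower.toAlgHom ℤ F (AlgebraicClosure ℚ)))
      have h1 := hI x hxA
      rw [mem_nonunits_comap_iff, map_sub] at h1
      exact h1)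
    exact ⟨σ, hσ, hστ⟩

end comap

end Fermat.Agent.S55.Bridge.H594

end
-- ===== PACK-END S55/Bridge/H594/Comap.lean

-- ===== PACK-BEGIN A2/IF/H429/Inertia.lean
section





/-!
# A2 / IF (helper429): the inertia group of a valuation subring of `ℚ̄` and its fixed field

`P` a valuation subring of `ℚ̄` over a prime number `q`, `I = P.inertiaSubgroupIn ℚ`,
`E_I = ℚ̄^I` the inertia field.

* `valuation_map_eq`          : elements of the decomposition group preserve the valuation of `P`;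
* `exists_inertia_apply_eq`   : an automorphism fixing `E_I` pointwise agrees, on each element of
                                `ℚ̄`, with some element of `I`;
* `exists_zpow_of_mem_inertiaField` : every nonzero element of `E_I` is a unit times a power of
                                `q` (the inertia field is unramified).
-/

set_option autoImplicit false
set_option linter.style.haveILetI false
set_option linter.unusedSectionVars false

open scoped Pointwise
open NumberField IsDedekindDomain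

namespace Fermat.Agent.A2.IF.H429

open Fermat.Agent.S55.Bridge Fermat.Agent.S55.Bridge.H594

attribute [local instance] isAlgebraic_Qbar isGalois_Qbar

/-- `ℚ̄` (local abbreviation). -/
local notation "Qb" => AlgebraicClosure ℚ

variable (P : ValuationSubring Qb)

/-! ## Decomposition and inertia elements -/

theorem mem_of_mem_decomp {σ : Qb ≃ₐ[ℚ] Qb} (hσ : σ ∈ P.decompositionSubgroup ℚ) {x : Qb}
    (hx : x ∈ P) : σ x ∈ P :=
  ((mem_decompositionSubgroup_iff_forall P σ).mp hσ x).mpr hx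

theorem mem_nonunits_of_mem_decomp {σ : Qb ≃ₐ[ℚ] Qb} (hσ : σ ∈ P.decompositionSubgroup ℚ)
    {x : Qb} (hx : x ∈ P.nonunits) : σ x ∈ P.nonunits := by
  rw [ValuationSubring.mem_nonunits_iff_or] at hx ⊢
  rcases hx with rfl | hx
  · left; simp
  · right
    intro h
    apply hx
    rw [← map_inv₀] at h
    exact ((mem_decompositionSubgroup_iff_forall P σ).mp hσ _).mp h

theorem decomp_of_inertia {σ : Qb ≃ₐ[ℚ] Qb} (hσ : σ ∈ P.inertiaSubgroupIn ℚ) :
    σ ∈ P.decompositionSubgroup ℚ :=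
  ((mem_inertiaSubgroupIn_iff_forall P σ).mp hσ).1

theorem sub_mem_nonunits_of_inertia {σ : Qb ≃ₐ[ℚ] Qb} (hσ : σ ∈ P.inertiaSubgroupIn ℚ)
    {x : Qb} (hx : x ∈ P) : σ x - x ∈ P.nonunits :=
  ((mem_inertiaSubgroupIn_iff_forall P σ).mp hσ).2 x hx

/-- Elements of the decomposition group are strictly monotone for the valuation. -/
theorem valuation_map_lt {σ : Qb ≃ₐ[ℚ] Qb} (hσ : σ ∈ P.decompositionSubgroup ℚ) {a b : Qb}
    (h : P.valuation a < P.valuation b) : P.valuation (σ a) < P.valuation (σ b) := by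
  have hb : b ≠ 0 := by
    rintro rfl
    simp at h
  have hbv : P.valuation b ≠ 0 := (Valuation.ne_zero_iff _).mpr hb
  have hσb : σ b ≠ 0 := by simpa using hb
  have hσbv : P.valuation (σ b) ≠ 0 := (Valuation.ne_zero_iff _).mpr hσb
  have h1 : a / b ∈ P.nonunits := by
    rw [ValuationSubring.mem_nonunits_iff, map_div₀]
    exact (div_lt_one₀ (zero_lt_iff.mpr hbv)).mpr h
  have h2 := mem_nonunits_of_mem_decomp P hσ h1
  rw [ValuationSubring.mem_nonunits_iff, map_div₀, map_div₀] at h2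
  exact (div_lt_one₀ (zero_lt_iff.mpr hσbv)).mp h2

theorem valuation_iterate_lt {σ : Qb ≃ₐ[ℚ] Qb} (hσ : σ ∈ P.decompositionSubgroup ℚ) {x : Qb}
    (h : P.valuation (σ x) < P.valuation x) (k : ℕ) :
    P.valuation ((σ ^ (k + 1)) x) < P.valuation x := by
  induction k with
  | zero => simpa using h
  | succ k ih =>
    have h1 := valuation_map_lt P hσ ih
    have h2 : (σ ^ (k + 1 + 1)) x = σ ((σ ^ (k + 1)) x) := by
      rw [pow_succ' σ (k + 1)]; rfl
    rw [h2]
    exact h1.trans h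

theorem valuation_iterate_gt {σ : Qb ≃ₐ[ℚ] Qb} (hσ : σ ∈ P.decompositionSubgroup ℚ) {x : Qb}
    (h : P.valuation x < P.valuation (σ x)) (k : ℕ) :
    P.valuation x < P.valuation ((σ ^ (k + 1)) x) := by
  induction k with
  | zero => simpa using h
  | succ k ih =>
    have h1 := valuation_map_lt P hσ ih
    have h2 : (σ ^ (k + 1 + 1)) x = σ ((σ ^ (k + 1)) x) := by
      rw [pow_succ' σ (k + 1)]; rfl
    rw [h2]
    exact h.trans h1

/-- Every element of `ℚ̄` is fixed by a positive power of any automorphism. -/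
theorem exists_pow_apply_eq (σ : Qb ≃ₐ[ℚ] Qb) (x : Qb) : ∃ k : ℕ, (σ ^ (k + 1)) x = x := by
  have hx : IsIntegral ℚ x := Algebra.IsIntegral.isIntegral x
  have hfin : ((minpoly ℚ x).rootSet Qb).Finite := Polynomial.rootSet_finite _ _
  have hmem : ∀ i : ℕ, (σ ^ i) x ∈ (minpoly ℚ x).rootSet Qb := by
    intro i
    rw [Polynomial.mem_rootSet]
    refine ⟨minpoly.ne_zero hx, ?_⟩
    have := Polynomial.aeval_algHom_apply ((σ ^ i : Qb ≃ₐ[ℚ] Qb) : Qb →ₐ[ℚ] Qb) x (minpoly ℚ x)
    rw [minpoly.aeval, map_zero] at this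
    exact this
  haveI : Finite ((minpoly ℚ x).rootSet Qb) := hfin
  obtain ⟨i, j, hij, h⟩ := Finite.exists_ne_map_eq_of_infinite
    (fun i : ℕ => (⟨(σ ^ i) x, hmem i⟩ : (minpoly ℚ x).rootSet Qb))
  have h' : (σ ^ i) x = (σ ^ j) x := congrArg Subtype.val h
  wlog hlt : i < j generalizing i j
  · exact this j i hij.symm h.symm h'.symm (lt_of_le_of_ne (not_lt.mp hlt) hij.symm)
  obtain ⟨k, rfl⟩ : ∃ k, j = i + (k + 1) := ⟨j - i - 1, by omega⟩
  refine ⟨k, ?_⟩
  have h3 : (σ ^ (i + (k + 1))) x = (σ ^ i) ((σ ^ (k + 1)) x) := by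
    rw [pow_add]; rfl
  rw [h3] at h'
  exact ((σ ^ i).injective h').symm

/-- Elements of the decomposition group preserve the valuation. -/
theorem valuation_map_eq {σ : Qb ≃ₐ[ℚ] Qb} (hσ : σ ∈ P.decompositionSubgroup ℚ) (x : Qb) :
    P.valuation (σ x) = P.valuation x := by
  obtain ⟨k, hk⟩ := exists_pow_apply_eq σ x
  rcases lt_trichotomy (P.valuation (σ x)) (P.valuation x) with h | h | h
  · have := valuation_iterate_lt P hσ h k
    rw [hk] at this
    exact absurd this (lt_irrefl _)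
  · exact h
  · have := valuation_iterate_gt P hσ h k
    rw [hk] at this
    exact absurd this (lt_irrefl _)

/-- Every finite set of algebraic numbers lies in a finite Galois extension of `ℚ` in `ℚ̄`. -/
theorem exists_finite_galois (S : Finset Qb) :
    ∃ M : IntermediateField ℚ Qb, (∀ s ∈ S, s ∈ M) ∧ FiniteDimensional ℚ M ∧ IsGalois ℚ M := by
  let M₀ : IntermediateField ℚ Qb := IntermediateField.adjoin ℚ (S : Set Qb)
  haveI : FiniteDimensional ℚ M₀ :=
    IntermediateField.finiteDimensional_adjoin (fun x _ => Algebra.IsIntegral.isIntegral x)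
  let M : IntermediateField ℚ Qb := IntermediateField.normalClosure ℚ M₀ Qb
  refine ⟨M, fun s hs => ?_, inferInstance, ?_⟩
  · have h1 : M₀ ≤ M := IntermediateField.le_normalClosure M₀
    exact h1 (IntermediateField.subset_adjoin ℚ _ hs)
  · haveI : Normal ℚ Qb := IsGalois.to_normal
    haveI : Normal ℚ M := normalClosure.normal ℚ M₀ Qb
    exact ⟨⟩

/-- The inertia field of `P`. -/
noncomputable def inertiaField : IntermediateField ℚ Qb :=
  IntermediateField.fixedField (P.inertiaSubgroupIn ℚ)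

theorem mem_inertiaField_iff {x : Qb} :
    x ∈ inertiaField P ↔ ∀ τ ∈ P.inertiaSubgroupIn ℚ, τ x = x := by
  unfold inertiaField
  rw [IntermediateField.mem_fixedField_iff]

/-- **Lemma A.**  An automorphism fixing the inertia field pointwise agrees, on each element,
with some element of the inertia group. -/
theorem exists_inertia_apply_eq (σ : Qb ≃ₐ[ℚ] Qb) (hσ : ∀ e ∈ inertiaField P, σ e = e)
    (x : Qb) : ∃ τ ∈ P.inertiaSubgroupIn ℚ, σ x = τ x := by
  obtain ⟨M, hxM, hfin, hgal⟩ := exists_finite_galois {x}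
  have hx : x ∈ M := hxM x (Finset.mem_singleton_self x)
  let H : Subgroup (M ≃ₐ[ℚ] M) := (P.inertiaSubgroupIn ℚ).map (AlgEquiv.restrictNormalHom M)
  have hmem : AlgEquiv.restrictNormalHom M σ ∈ H := by
    rw [← IntermediateField.fixingSubgroup_fixedField H]
    rw [IntermediateField.mem_fixingSubgroup_iff]
    intro y hy
    apply Subtype.ext
    rw [restrictNormalHom_apply]
    apply hσ
    rw [mem_inertiaField_iff]
    intro τ hτ
    rw [IntermediateField.mem_fixedField_iff] at hy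
    have h1 := hy (AlgEquiv.restrictNormalHom M τ) ⟨τ, hτ, rfl⟩
    rw [← restrictNormalHom_apply M τ y, h1]
  obtain ⟨τ, hτ, hτσ⟩ := hmem
  refine ⟨τ, hτ, ?_⟩
  have h1 := restrictNormalHom_apply M σ ⟨x, hx⟩
  have h2 := restrictNormalHom_apply M τ ⟨x, hx⟩
  rw [← hτσ] at h1
  exact h1.symm.trans h2


/-- **The inertia field is unramified**: every nonzero element of the inertia field is a unit of
`P` times a power of `q`. -/
theorem exists_zpow_of_mem_inertiaField (q : ℕ) (hq : q.Prime) (hP : P.LiesOverPrime q)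
    (y : Qb) (hy : y ∈ inertiaField P) (hy0 : y ≠ 0) :
    ∃ k : ℤ, P.valuation (y / (q : Qb) ^ k) = 1 := by
  obtain ⟨M, hyM, hfin, hgal⟩ := exists_finite_galois {y}
  have hyM' : y ∈ M := hyM y (Finset.mem_singleton_self y)
  haveI : NumberField M := numberField_of_finite M
  have hne : Fermat.Agent.S14.H937.primeOf M P ≠ ⊥ :=
    Fermat.Agent.S14.H937.primeOf_ne_bot M P q hq hP
  let w : HeightOneSpectrum (𝓞 M) := ⟨Fermat.Agent.S14.H937.primeOf M P, inferInstance, hne⟩
  have hw : w.asIdeal = Fermat.Agent.S14.H937.primeOf M P := rfl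
  have hqw : (q : 𝓞 M) ∈ w.asIdeal := Fermat.Agent.S14.H937.natCast_mem_primeOf M P q hP
  have hfix : ∀ τ ∈ w.asIdeal.inertia Gal(M/ℚ), τ (⟨y, hyM'⟩ : M) = ⟨y, hyM'⟩ := by
    intro τ hτ
    obtain ⟨σ, hσ, hστ⟩ := exists_inertia_lift M P hq hP τ (fun x hx => by
      obtain ⟨x', rfl⟩ : ∃ x' : 𝓞 M, algebraMap (𝓞 M) M x' = x := ⟨⟨x, hx⟩, rfl⟩
      have h2 : τ • x' - x' ∈ Fermat.Agent.S14.H937.primeOf M P := hτ x'
      exact (Fermat.Agent.S14.H937.mem_primeOf M P _).mp h2)
    apply Subtype.ext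
    rw [← hστ, restrictNormalHom_apply]
    exact (mem_inertiaField_iff P).mp hy σ hσ
  obtain ⟨k, hk⟩ := exists_zpow_valuation_eq_one_of_fixed M w q hq hqw ⟨y, hyM'⟩
    (fun h => hy0 (congrArg Subtype.val h)) hfix
  refine ⟨k, ?_⟩
  have h1 := Fermat.Agent.S14.H937.valuation_eq_one_of M P w hw _ hk
  rw [map_div₀, map_zpow₀, map_natCast] at h1
  exact h1


end Fermat.Agent.A2.IF.H429

end
-- ===== PACK-END A2/IF/H429/Inertia.lean

-- ===== PACK-BEGIN A2/H93/Sheets.lean
section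





/-!
# Cell A2, route G, leaf SHEETS (core) — helper93

`sheetsConclusion_of_gen` : the conclusion `Fermat.Agent.A2.H12.SheetsConclusion L w x` of the leaf
**SHEETS** of `H12.algG`, for a finite Galois cover `L = F(y_i)`, `y_i ^ m = g_i`, where every
`g_i` is a UNIT `m`-th power modulo every sheet of `F` (`SplitUnitAt`, i.e. `H12.SplitAt` with the
junk value `u = 0` excluded), from the following hypotheses on the BASE field `F` only
(`SheetsBase`):

* `finite` : `F` has finitely many sheets;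
* `unif`   : `w` generates the maximal ideal of every sheet of `F`;
* `disc`   : every sheet of `F` is discrete (`∀ f, ∃ k, f * w ^ k ∈ V`);

together with `w ≠ 0`, `R → F` injective, `¬ w ∣ m`, `0 < m` and a primitive `m`-th root of unity
in `R`.  `SheetsBase.of_discrete` produces `unif` and `disc` from the field `discrete` of
`H12.BaseConclusion`.

The proof is an adapter on `CoverSplit` (files `CoverSplit.lean`, `CoverSplitTrans.lean`); the
existence of a sheet of `L` over a sheet of `F` is Chevalley's extension theorem (Mathlib).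

NB. `H12.SplitAt m V g` as frozen in `H12/GSpec.lean` holds for every `g ∈ 𝔪_V` (take `u = 0`),
so `H12.IsKummerSplit` allows covers ramified at the sheets, for which `SheetsConclusion` is false.
-/

set_option autoImplicit false
set_option linter.style.haveILetI false

namespace Fermat.Agent.A2.H93

open Polynomial
open Fermat.Agent.A2.H12

universe u

section Base

variable {R : Type u} [CommRing R] {F : Type u} [Field F] [Algebra R F]

/-- `g` is the `m`-th power of a UNIT of `V` modulo the maximal ideal of `V`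
(`H12.SplitAt` with `u ≠ 0`). -/
def SplitUnitAt (m : ℕ) (V : ValuationSubring F) (g : F) : Prop :=
  ∃ u : F, u ≠ 0 ∧ u ∈ V ∧ u⁻¹ ∈ V ∧ g - u ^ m ∈ V.nonunits

theorem SplitUnitAt.splitAt {m : ℕ} {V : ValuationSubring F} {g : F} (h : SplitUnitAt m V g) :
    SplitAt m V g := by
  obtain ⟨u, -, h1, h2, h3⟩ := h
  exact ⟨u, h1, h2, h3⟩

/-- `SplitAt` at a unit `g` of `V` is `SplitUnitAt`. -/
theorem splitUnitAt_of_splitAt {m : ℕ} (hm : 0 < m) {V : ValuationSubring F} {g : F}
    (hg0 : g ≠ 0) (hg : g⁻¹ ∈ V) (h : SplitAt m V g) : SplitUnitAt m V g := by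
  obtain ⟨u, h1, h2, h3⟩ := h
  refine ⟨u, ?_, h1, h2, h3⟩
  rintro rfl
  rw [zero_pow hm.ne', sub_zero, ValuationSubring.mem_nonunits_iff_or] at h3
  rcases h3 with h3 | h3
  · exact hg0 h3
  · exact h3 hg

/-- The hypotheses on the sheets of the base field `F` used by the leaf SHEETS. -/
structure SheetsBase (w : R) (x : F) : Prop where
  /-- `F` has finitely many sheets -/
  finite : {V : ValuationSubring F | IsSheet w x V}.Finite
  /-- `w` generates the maximal ideal of every sheet of `F` -/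
  unif : ∀ V : ValuationSubring F, IsSheet w x V →
    ∀ a ∈ V.nonunits, ∃ b ∈ V, a = algebraMap R F w * b
  /-- every sheet of `F` is discrete -/
  disc : ∀ V : ValuationSubring F, IsSheet w x V →
    ∀ f : F, ∃ k : ℕ, f * algebraMap R F w ^ k ∈ V

/-- `SheetsBase` from finiteness and the field `discrete` of `H12.BaseConclusion`. -/
theorem SheetsBase.of_discrete {w : R} {x : F}
    (hfin : {V : ValuationSubring F | IsSheet w x V}.Finite)
    (hdisc : ∀ V : ValuationSubring F, IsSheet w x V → ∀ f : F, f ≠ 0 →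
      ∃ (n : ℤ) (u : F), u ∈ V ∧ u⁻¹ ∈ V ∧ f = algebraMap R F w ^ n * u) :
    SheetsBase w x := by
  refine ⟨hfin, ?_, ?_⟩
  · intro V hV a ha
    by_cases ha0 : a = 0
    · exact ⟨0, V.zero_mem, by rw [ha0, mul_zero]⟩
    obtain ⟨n, u, hu, hu', hau⟩ := hdisc V hV a ha0
    have hw : algebraMap R F w ∈ V.nonunits := hV.2.2.1
    have hwV : algebraMap R F w ∈ V := ValuationSubring.nonunits_subset hw
    have hu0 : u ≠ 0 := by
      rintro rfl
      exact ha0 (by rw [hau, mul_zero])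
    have hw0 : algebraMap R F w ≠ 0 := by
      intro h0
      rw [h0] at hau
      rcases eq_or_ne n 0 with hn | hn
      · rw [hn, zpow_zero, one_mul] at hau
        rw [hau, ValuationSubring.mem_nonunits_iff_or] at ha
        rcases ha with ha | ha
        · exact hu0 ha
        · exact ha hu'
      · rw [zero_zpow n hn, zero_mul] at hau
        exact ha0 hau
    -- `n ≥ 1`
    have hn : 1 ≤ n := by
      by_contra hcon
      rw [not_le] at hcon
      have hn0 : 0 ≤ -n := by omega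
      obtain ⟨k, hk⟩ := Int.eq_ofNat_of_zero_le hn0
      have h1 : a⁻¹ = algebraMap R F w ^ k * u⁻¹ := by
        rw [hau, mul_inv, ← zpow_neg, hk, zpow_natCast]
      have h2 : a⁻¹ ∈ V := by
        rw [h1]
        exact V.mul_mem _ _ (pow_mem hwV k) hu'
      rw [ValuationSubring.mem_nonunits_iff_or] at ha
      rcases ha with ha | ha
      · exact ha0 ha
      · exact ha h2
    obtain ⟨k, hk⟩ := Int.eq_ofNat_of_zero_le (show 0 ≤ n - 1 by omega)
    refine ⟨algebraMap R F w ^ k * u, V.mul_mem _ _ (pow_mem hwV k) hu, ?_⟩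
    have hn' : n = (k : ℤ) + 1 := by omega
    rw [hau, hn', zpow_add_one₀ hw0, zpow_natCast]
    ring
  · intro V hV f
    by_cases hw0 : algebraMap R F w = 0
    · exact ⟨1, by rw [hw0, pow_one, mul_zero]; exact V.zero_mem⟩
    by_cases hf0 : f = 0
    · exact ⟨0, by rw [hf0, zero_mul]; exact V.zero_mem⟩
    obtain ⟨n, u, hu, hu', hfu⟩ := hdisc V hV f hf0
    have hw : algebraMap R F w ∈ V.nonunits := hV.2.2.1
    have hwV : algebraMap R F w ∈ V := ValuationSubring.nonunits_subset hw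
    obtain ⟨j, hj⟩ := Int.eq_ofNat_of_zero_le (show 0 ≤ n + (n.natAbs : ℤ) by omega)
    refine ⟨n.natAbs, ?_⟩
    have h1 : f * algebraMap R F w ^ n.natAbs = algebraMap R F w ^ j * u := by
      rw [hfu, ← zpow_natCast (algebraMap R F w) j, ← hj, zpow_add₀ hw0, zpow_natCast]
      ring
    rw [h1]
    exact V.mul_mem _ _ (pow_mem hwV j) hu

end Base

section Tower

variable {R : Type u} [CommRing R] {F : Type u} [Field F] [Algebra R F]
variable {L : Type u} [Field L] [Algebra F L] [Algebra R L] [IsScalarTower R F L]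

/-- A valuation subring of `L` lying over a sheet of `F` is a sheet of `L`. -/
theorem isSheet_of_comap_eq {w : R} {x : F} {V : ValuationSubring F} (hV : IsSheet w x V)
    {W : ValuationSubring L} (hWV : W.comap (algebraMap F L) = V) :
    IsSheet w (algebraMap F L x) W := by
  have hle : ∀ f ∈ V, algebraMap F L f ∈ W := by
    intro f hf
    rw [← hWV] at hf
    exact hf
  refine ⟨?_, ?_, ?_, ?_⟩
  · intro r
    rw [IsScalarTower.algebraMap_apply R F L]
    exact hle _ (hV.1 r)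
  · exact hle _ hV.2.1
  · rw [IsScalarTower.algebraMap_apply R F L, ← mem_nonunits_comap, hWV]
    exact hV.2.2.1
  · intro P hP
    rw [aeval_algebraMap_apply, ← map_inv₀]
    exact hle _ (hV.2.2.2 P hP)

/-- **Chevalley**: a valuation subring `V` of `F` whose maximal ideal is generated by `w` extends
to `L`. -/
theorem exists_comap_eq_of_unif (V : ValuationSubring F) (w : F) (hw : w ∈ V.nonunits)
    (hunif : ∀ a ∈ V.nonunits, ∃ b ∈ V, a = w * b) :
    ∃ W : ValuationSubring L, W.comap (algebraMap F L) = V := by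
  classical
  let A : Subring L := V.toSubring.map (algebraMap F L)
  have hwA : algebraMap F L w ∈ A :=
    ⟨w, ValuationSubring.nonunits_subset hw, rfl⟩
  let I : Ideal A := Ideal.span {⟨algebraMap F L w, hwA⟩}
  have hI : I ≠ ⊤ := by
    intro h
    rw [Ideal.eq_top_iff_one, Ideal.mem_span_singleton'] at h
    obtain ⟨⟨a, v, hv, rfl⟩, ha⟩ := h
    have h1 : algebraMap F L v * algebraMap F L w = 1 := congrArg Subtype.val ha
    rw [← map_mul] at h1
    have h2 : v * w = 1 := (algebraMap F L).injective (by rw [h1, map_one])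
    have h3 := mul_mem_nonunits V hw hv
    rw [h2] at h3
    exact one_not_mem_nonunits V h3
  obtain ⟨B, hAB, hIB⟩ := Ideal.image_subset_nonunits_valuationSubring I hI
  have hwB : algebraMap F L w ∈ B.nonunits :=
    hIB ⟨⟨algebraMap F L w, hwA⟩, Ideal.subset_span rfl, rfl⟩
  refine ⟨B, ?_⟩
  ext f
  rw [ValuationSubring.mem_comap]
  constructor
  · intro hf
    by_contra hfV
    have hinv : f⁻¹ ∈ V.nonunits := by
      rw [ValuationSubring.inv_mem_nonunits_iff]
      exact Or.inr hfV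
    obtain ⟨b, hb, hfb⟩ := hunif _ hinv
    have hf0 : f ≠ 0 := by
      rintro rfl
      exact hfV V.zero_mem
    have h1 : algebraMap F L w * (algebraMap F L b * algebraMap F L f) = 1 := by
      rw [← map_mul, ← map_mul, ← mul_assoc, ← hfb, inv_mul_cancel₀ hf0, map_one]
    have hbB : algebraMap F L b ∈ B := hAB ⟨b, hb, rfl⟩
    have h2 := mul_mem_nonunits B hwB (B.mul_mem _ _ hbB hf)
    rw [mul_comm, h1] at h2
    exact one_not_mem_nonunits B h2
  · intro hf
    exact hAB ⟨f, hf, rfl⟩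

end Tower

section Sheets

variable {R : Type u} [CommRing R] {F : Type u} [Field F] [Algebra R F]
variable {L : Type u} [Field L] [Algebra F L] [Algebra R L] [IsScalarTower R F L]

omit [Algebra R L] [IsScalarTower R F L] in
/-- The `CoverSplit` datum of a valuation subring `W` of `L` over a sheet `V` of `F`. -/
theorem coverSplit_of_sheet {w : R} {x : F} {m : ℕ} (hw0 : w ≠ 0)
    (hinj : Function.Injective (algebraMap R F)) (hm : 0 < m) (hwm : ¬ w ∣ (m : R))
    {ζ : R} (hζ : IsPrimitiveRoot ζ m) (hB : SheetsBase w x)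
    [FiniteDimensional F L]
    {n : ℕ} {y : Fin n → L} {g : Fin n → F} (hg0 : ∀ i, g i ≠ 0)
    (hpow : ∀ i, y i ^ m = algebraMap F L (g i))
    (hgen : IntermediateField.adjoin F (Set.range y) = ⊤)
    {V : ValuationSubring F} (hV : IsSheet w x V)
    {c : Fin n → F}
    (hc : ∀ i, c i ≠ 0 ∧ c i ∈ V ∧ (c i)⁻¹ ∈ V ∧ g i - c i ^ m ∈ V.nonunits)
    {W : ValuationSubring L} (hWV : W.comap (algebraMap F L) = V) :
    CoverSplit V W (algebraMap R F w) m (algebraMap R F ζ) y g c := by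
  have hwF0 : algebraMap R F w ≠ 0 := fun h => hw0 (hinj (by rw [h, map_zero]))
  have hunif : ∀ f ∈ V.nonunits, f * (algebraMap R F w)⁻¹ ∈ V := by
    intro f hf
    obtain ⟨b, hb, rfl⟩ := hB.unif V hV f hf
    rw [mul_comm, ← mul_assoc, inv_mul_cancel₀ hwF0, one_mul]
    exact hb
  have hgV : ∀ i, g i ∈ V := by
    intro i
    have : g i = c i ^ m + (g i - c i ^ m) := by ring
    rw [this]
    exact V.add_mem _ _ (pow_mem (hc i).2.1 m) (ValuationSubring.nonunits_subset (hc i).2.2.2)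
  have hvc : ∀ i, V.valuation (c i ^ m) = 1 := by
    intro i
    rw [map_pow, val_eq_one_of_mem_of_inv_mem V (hc i).1 (hc i).2.1 (hc i).2.2.1, one_pow]
  have hvg : ∀ i, V.valuation (g i) = 1 := by
    intro i
    have h1 : V.valuation (g i - c i ^ m) < V.valuation (c i ^ m) := by
      rw [hvc i]
      exact (ValuationSubring.mem_nonunits_iff V).1 (hc i).2.2.2
    have : g i = c i ^ m + (g i - c i ^ m) := by ring
    rw [this, Valuation.map_add_eq_of_lt_left _ h1, hvc i]
  refine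
    { ext := fun f => by rw [← hWV, ValuationSubring.mem_comap]
      w_inv_notMem := ?_
      w_gen := ?_
      w_disc := hB.disc V hV
      zeta := hζ.map_of_injective hinj
      m_pos := hm
      m_inv := ?_
      pow_eq := hpow
      g_mem := hgV
      g_ne_zero := hg0
      g_inv := fun i => inv_mem_of_val_eq_one V (hvg i)
      c_mem := fun i => (hc i).2.1
      cong := fun i => hunif _ (hc i).2.2.2
      gen := ?_ }
  · intro h
    have h1 := hV.2.2.1
    rw [ValuationSubring.mem_nonunits_iff_or] at h1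
    rcases h1 with h1 | h1
    · exact hwF0 h1
    · exact h1 h
  · intro f hf hf'
    refine hunif f ?_
    rw [ValuationSubring.mem_nonunits_iff_or]
    exact Or.inr hf'
  · have := hV.2.2.2 (C (m : R)) ⟨0, by rw [coeff_C_zero]; exact hwm⟩
    rw [aeval_C, map_natCast] at this
    exact this
  · have h1 := IntermediateField.adjoin_toSubalgebra_of_isAlgebraic (F := F) (S := Set.range y)
      (fun z _ => Algebra.IsAlgebraic.isAlgebraic z)
    rw [← h1, hgen, IntermediateField.top_toSubalgebra]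

/-- **Leaf SHEETS, core.**  For a finite Galois Kummer cover `L = F(y_i)`, `y_i ^ m = g_i`,
with every `g_i` a unit `m`-th power modulo every sheet of `F`. -/
theorem sheetsConclusion_of_gen {w : R} {x : F} {m : ℕ} (hw0 : w ≠ 0)
    (hinj : Function.Injective (algebraMap R F)) (hm : 0 < m) (hwm : ¬ w ∣ (m : R))
    (hroot : ∃ ζ : R, IsPrimitiveRoot ζ m) (hB : SheetsBase w x)
    [FiniteDimensional F L] [IsGalois F L]
    {n : ℕ} (y : Fin n → L) (g : Fin n → F) (hg0 : ∀ i, g i ≠ 0)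
    (hpow : ∀ i, y i ^ m = algebraMap F L (g i))
    (hgen : IntermediateField.adjoin F (Set.range y) = ⊤)
    (hsplit : ∀ i, ∀ V : ValuationSubring F, IsSheet w x V → SplitUnitAt m V (g i)) :
    SheetsConclusion L w x := by
  classical
  obtain ⟨ζ, hζ⟩ := hroot
  -- the chosen residues
  have hex : ∀ V : ValuationSubring F, IsSheet w x V → ∃ c : Fin n → F,
      ∀ i, c i ≠ 0 ∧ c i ∈ V ∧ (c i)⁻¹ ∈ V ∧ g i - c i ^ m ∈ V.nonunits := by
    intro V hV
    choose c hc using fun i => hsplit i V hV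
    exact ⟨c, hc⟩
  have hwL : algebraMap R L w = algebraMap F L (algebraMap R F w) :=
    IsScalarTower.algebraMap_apply R F L w
  have key : ∀ W : ValuationSubring L, IsSheet w (algebraMap F L x) W →
      ∃ c : Fin n → F, ∀ W' : ValuationSubring L,
        W'.comap (algebraMap F L) = W.comap (algebraMap F L) →
        CoverSplit (W.comap (algebraMap F L)) W' (algebraMap R F w) m (algebraMap R F ζ) y g c := by
    intro W hW
    have hV := IsSheet.comap_algebraMap hW
    obtain ⟨c, hc⟩ := hex _ hV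
    exact ⟨c, fun W' hW' => coverSplit_of_sheet hw0 hinj hm hwm hζ hB hg0 hpow hgen hV hc hW'⟩
  refine ⟨?_, ?_, ?_, ?_, ?_, ?_⟩
  · -- finite
    refine Set.Finite.of_finite_fibers (fun W : ValuationSubring L => W.comap (algebraMap F L))
      (hB.finite.subset ?_) ?_
    · rintro V ⟨W, hW, rfl⟩
      exact IsSheet.comap_algebraMap hW
    · rintro V ⟨W, hW, rfl⟩
      obtain ⟨c, hc⟩ := key W hW
      refine (CoverSplit.finite_setOf (W.comap (algebraMap F L)) (algebraMap R F w) m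
        (algebraMap R F ζ) y g c).subset ?_
      rintro W' ⟨-, hW'⟩
      exact hc W' hW'
  · -- exists_over
    intro V hV
    obtain ⟨W, hW⟩ := exists_comap_eq_of_unif (L := L) V (algebraMap R F w) hV.2.2.1
      (hB.unif V hV)
    exact ⟨W, isSheet_of_comap_eq hV hW, hW⟩
  · -- unif
    intro W hW a ha
    obtain ⟨c, hc⟩ := key W hW
    have D := hc W rfl
    by_cases ha0 : a = 0
    · exact ⟨0, W.zero_mem, by rw [ha0, mul_zero]⟩
    have ha' : a⁻¹ ∉ W := by
      rw [ValuationSubring.mem_nonunits_iff_or] at ha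
      exact ha.resolve_left ha0
    refine ⟨_, D.mul_inv_mem (ValuationSubring.nonunits_subset ha) ha', ?_⟩
    rw [hwL, mul_comm, mul_assoc, inv_mul_cancel₀ D.φw_ne_zero, mul_one]
  · -- resdeg
    intro W hW b hb
    obtain ⟨c, hc⟩ := key W hW
    have D := hc W rfl
    obtain ⟨a, -, ha⟩ := D.exists_sub_mem hb
    refine ⟨a, ?_⟩
    have h1 : b - algebraMap F L a =
        (b - algebraMap F L a) * (algebraMap F L (algebraMap R F w))⁻¹ *
          algebraMap R L w := by
      rw [hwL, mul_assoc, inv_mul_cancel₀ D.φw_ne_zero, mul_one]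
    rw [h1]
    exact mul_mem_nonunits W hW.2.2.1 ha
  · -- trans
    intro W W' hW hW' hWW'
    obtain ⟨c, hc⟩ := key W hW
    have D := hc W rfl
    have D' := hc W' hWW'.symm
    obtain ⟨σ, hσ⟩ := D'.exists_comap_eq D
    refine ⟨σ, fun b => ?_⟩
    rw [← hσ, ValuationSubring.mem_comap]
    rfl
  · -- free
    intro W hW σ hσ
    obtain ⟨c, hc⟩ := key W hW
    exact (hc W rfl).eq_one_of_map_eq σ hσ

end Sheets

end Fermat.Agent.A2.H93

end
-- ===== PACK-END A2/H93/Sheets.lean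

-- ===== PACK-BEGIN A2/Alg/H609/ChartFacts.lean
section



/-!
# WALL A2 / ALG (helper609): facts on a chart of `ChartCtx`

For a chart `B` (the integral closure of `R[x]` in `F`, `R` a discrete valuation ring with
uniformiser `w`):

* `isIntegral_aeval_chart` : `B` is integral over `R[X]` via `X ↦ x`;
* `isDedekindDomain_quotient_chart` : for a prime `p ∋ w` with `B ⧸ p` integrally closed,
  `B ⧸ p` is a Dedekind domain;
* `algebraMap_field_mem` : a valuation subring of `F` containing `B` and `w⁻¹` contains `E`.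
-/

set_option autoImplicit false

namespace Fermat.Agent.A2.Alg.H609

open Polynomial Fermat.Agent.A2 Fermat.Agent.A2.Alg

section Integral

variable {R F : Type*} [CommRing R] [Field F] [Algebra R F]

theorem self_mem_chart (x : F) (B : Subalgebra R F)
    (hB : ∀ f : F, f ∈ B ↔ IsIntegral (Algebra.adjoin R ({x} : Set F)) f) : x ∈ B := by
  rw [hB]
  have h : IsIntegral (Algebra.adjoin R ({x} : Set F))
      (algebraMap (Algebra.adjoin R ({x} : Set F)) F
        ⟨x, Algebra.self_mem_adjoin_singleton R x⟩) := isIntegral_algebraMap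
  exact h

/-- The chart is integral over `R[X]`. -/
theorem isIntegral_aeval_chart (x : F) (B : Subalgebra R F)
    (hB : ∀ f : F, f ∈ B ↔ IsIntegral (Algebra.adjoin R ({x} : Set F)) f) :
    (aeval (R := R) (⟨x, self_mem_chart x B hB⟩ : B)).toRingHom.IsIntegral := by
  have hxB := self_mem_chart x B hB
  have hle : Algebra.adjoin R ({x} : Set F) ≤ B :=
    Algebra.adjoin_le (Set.singleton_subset_iff.2 hxB)
  let ι : Algebra.adjoin R ({x} : Set F) →+* B := (Subalgebra.inclusion hle).toRingHom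
  let σ : R[X] →+* Algebra.adjoin R ({x} : Set F) :=
    (aeval (R := R) (⟨x, Algebra.self_mem_adjoin_singleton R x⟩ :
      Algebra.adjoin R ({x} : Set F))).toRingHom
  have hσ : Function.Surjective σ := by
    rintro ⟨a, ha⟩
    have ha' := ha
    rw [Algebra.adjoin_singleton_eq_range_aeval] at ha'
    obtain ⟨Q, hQ⟩ := ha'
    refine ⟨Q, Subtype.ext ?_⟩
    change ((aeval (R := R) (⟨x, Algebra.self_mem_adjoin_singleton R x⟩ :
      Algebra.adjoin R ({x} : Set F)) Q : Algebra.adjoin R ({x} : Set F)) : F) = a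
    rw [← hQ]
    exact (Polynomial.aeval_algHom_apply (Algebra.adjoin R ({x} : Set F)).val
      (⟨x, Algebra.self_mem_adjoin_singleton R x⟩ : Algebra.adjoin R ({x} : Set F)) Q).symm
  have hι : ι.IsIntegral := by
    intro b
    obtain ⟨Q, hQm, hQ⟩ := (hB b).1 b.2
    refine ⟨Q, hQm, Subtype.ext ?_⟩
    have h := Polynomial.hom_eval₂ Q ι B.val.toRingHom b
    change ((eval₂ ι b Q : B) : F) = 0
    have h' : ((eval₂ ι b Q : B) : F) = eval₂ (B.val.toRingHom.comp ι) (b : F) Q := h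
    rw [h']
    exact hQ
  have hcomp : (aeval (R := R) (⟨x, hxB⟩ : B)).toRingHom = ι.comp σ := by
    refine Polynomial.ringHom_ext (fun r => ?_) ?_
    · simp only [AlgHom.toRingHom_eq_coe, RingHom.coe_coe, aeval_C, RingHom.comp_apply, σ, ι,
        AlgHom.commutes]
    · simp only [AlgHom.toRingHom_eq_coe, RingHom.coe_coe, aeval_X, RingHom.comp_apply, σ, ι]
      rfl
  rw [hcomp]
  exact RingHom.IsIntegral.trans σ ι (RingHom.isIntegral_of_surjective σ hσ) hι

end Integral

section Chart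

variable {R E F : Type*} [CommRing R] [IsDomain R] [IsDiscreteValuationRing R]
  [Field E] [CharZero E] [Algebra R E] [IsFractionRing R E]
  [Field F] [Algebra E F] [Algebra R F] [IsScalarTower R E F]

omit [CharZero E] [IsFractionRing R E] [IsScalarTower R E F] in
/-- The components of the special fibre of a chart are Dedekind. -/
theorem isDedekindDomain_quotient_chart (w : R) (x : F) (B : Subalgebra R F)
    (hB : ChartCtx E w x B) [IsNoetherianRing B] (p : Ideal B) [p.IsPrime]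
    (hwp : algebraMap R B w ∈ p) [IsIntegrallyClosed (B ⧸ p)] : IsDedekindDomain (B ⧸ p) := by
  have hmax : (Ideal.span {w}).IsMaximal := by
    rw [← hB.hw.maximalIdeal_eq]
    exact IsLocalRing.maximalIdeal.isMaximal R
  exact isDedekindDomain_quotient hmax _ (isIntegral_aeval_chart x B hB.hB) p hwp

omit [CharZero E] in
/-- A valuation subring of `F` containing `R` and `w⁻¹` contains `E`. -/
theorem algebraMap_field_mem {w : R} (hw : Irreducible w) (V : ValuationSubring F)
    (hR : ∀ r : R, algebraMap R F r ∈ V) (hwV : (algebraMap R F w)⁻¹ ∈ V) (e : E) :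
    algebraMap E F e ∈ V := by
  obtain ⟨a, b, hb, rfl⟩ := IsFractionRing.div_surjective (A := R) e
  have hb0 : b ≠ 0 := nonZeroDivisors.ne_zero hb
  obtain ⟨k, ε, hε⟩ := IsDiscreteValuationRing.eq_unit_mul_pow_irreducible hb0 hw
  rw [map_div₀, ← IsScalarTower.algebraMap_apply, ← IsScalarTower.algebraMap_apply]
  have h1 : algebraMap R F a / algebraMap R F b =
      algebraMap R F a * algebraMap R F ((ε⁻¹ : Rˣ) : R) * (algebraMap R F w)⁻¹ ^ k := by
    have hεF : algebraMap R F (ε : R) * algebraMap R F ((ε⁻¹ : Rˣ) : R) = 1 := by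
      rw [← map_mul, Units.mul_inv, map_one]
    have hεinv : (algebraMap R F (ε : R))⁻¹ = algebraMap R F ((ε⁻¹ : Rˣ) : R) :=
      inv_eq_of_mul_eq_one_right hεF
    rw [hε, map_mul, map_pow, inv_pow, div_eq_mul_inv, mul_inv, hεinv, mul_assoc]
  rw [h1]
  exact V.mul_mem _ _ (V.mul_mem _ _ (hR a) (hR _)) (V.pow_mem hwV k)

end Chart

end Fermat.Agent.A2.Alg.H609

end
-- ===== PACK-END A2/Alg/H609/ChartFacts.lean

-- ===== PACK-BEGIN S36/H253/EngNorm.lean
section



/-!
# The NORM fields of `S36.Eng.TripleCtx` (helper253)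

Generic adapters producing the six fields `nv_α`, `nv_β`, `nr_α₁`, `nr_α₂`, `nr_β₁`, `nr_β₂` of
`Fermat.Agent.S36.Eng.TripleCtx` (`S36/Eng/Spec.lean` v1.2, architect helper996) from the `(e, f)`
table.  `φ : F' →ₐ[E] F` is one of the degeneracy maps, `normAlong φ = N_{F / φ F'}`.

Vocabulary of the Spec v1.2, UNFOLDED here (so that this file does not depend on the Spec; the
statements below are definitionally the fields of `TripleCtx`):
`UnitAt V y` = `y ≠ 0 ∧ y ∈ V ∧ y⁻¹ ∈ V`,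
`UnifAt V t` = `t ≠ 0 ∧ t ∈ V.nonunits ∧ ∀ f ∈ V.nonunits, f * t⁻¹ ∈ V`.

* `eng_nr_split` : `Va` (`e = f = 1`), `Vb` (`e = q - 1`, `f = 1`) over `V'`, `[F : φ F'] = q`:
  `φ xa ≡ y` at `Va`, `φ xb ≡ y` at `Vb`  ⟹  `N y ≡ xa * xb ^ (q - 1)` at `V'`.
* `eng_nr_insep` : `V` over `V'`, `[F : φ F'] = q` prime `= char`, witness of inseparability:
  `φ (N y) ≡ y ^ q` at `V` for all `y ∈ V`.
* `eng_nv_split`, `eng_nv_insep`, `eng_nv` : valuations of norms.
-/

set_option autoImplicit false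
set_option linter.unusedSectionVars false
set_option linter.style.haveILetI false

namespace Fermat.Agent.S36.H253

open AlgebraicCurve
open Fermat.Agent.S35.H253
open Fermat.Agent.S29.H395 (normAlong)

section Vocab

variable {F : Type*} [Field F]

/-- `UnitAt V y` in valuation form. -/
theorem val_eq_one_of_unitAt (V : ValuationSubring F) {y : F}
    (h : y ≠ 0 ∧ y ∈ V ∧ y⁻¹ ∈ V) : V.valuation y = 1 := by
  refine le_antisymm ((V.valuation_le_one_iff _).2 h.2.1) ?_
  have h2 := (V.valuation_le_one_iff _).2 h.2.2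
  rw [map_inv₀] at h2
  exact (inv_le_one₀ (by rw [Valuation.pos_iff]; exact h.1)).1 h2

/-- `UnitAt V y` from the valuation. -/
theorem unitAt_of_val_eq_one (V : ValuationSubring F) {y : F} (h : V.valuation y = 1) :
    y ≠ 0 ∧ y ∈ V ∧ y⁻¹ ∈ V := by
  refine ⟨?_, (V.valuation_le_one_iff _).1 h.le, ?_⟩
  · intro h0; rw [h0, map_zero] at h; exact zero_ne_one h
  · rw [← V.valuation_le_one_iff, map_inv₀, h, inv_one]

/-- `UnitAt V (y * (τ ^ a)⁻¹)` in valuation form. -/
theorem val_eq_zpow_of_unitAt (V : ValuationSubring F) {y τ : F} (hτ0 : τ ≠ 0) (a : ℤ)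
    (h : y * (τ ^ a)⁻¹ ≠ 0 ∧ y * (τ ^ a)⁻¹ ∈ V ∧ (y * (τ ^ a)⁻¹)⁻¹ ∈ V) :
    V.valuation y = V.valuation τ ^ a := by
  have h1 := val_eq_one_of_unitAt V h
  have hτv : V.valuation τ ≠ 0 := by rw [Ne, Valuation.zero_iff]; exact hτ0
  rw [map_mul, map_inv₀, map_zpow₀] at h1
  calc V.valuation y = V.valuation y * (V.valuation τ ^ a)⁻¹ * V.valuation τ ^ a := by
        rw [inv_mul_cancel_right₀ (zpow_ne_zero _ hτv)]
    _ = V.valuation τ ^ a := by rw [h1, one_mul]

/-- `UnitAt V (y * (τ ^ a)⁻¹)` from the valuation. -/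
theorem unitAt_of_val_eq_zpow (V : ValuationSubring F) {y τ : F} (hτ0 : τ ≠ 0) (a : ℤ)
    (h : V.valuation y = V.valuation τ ^ a) :
    y * (τ ^ a)⁻¹ ≠ 0 ∧ y * (τ ^ a)⁻¹ ∈ V ∧ (y * (τ ^ a)⁻¹)⁻¹ ∈ V := by
  apply unitAt_of_val_eq_one
  have hτv : V.valuation τ ≠ 0 := by rw [Ne, Valuation.zero_iff]; exact hτ0
  rw [map_mul, map_inv₀, map_zpow₀, h, mul_inv_cancel₀ (zpow_ne_zero _ hτv)]

/-- Two uniformisers have the same valuation. -/
theorem val_eq_of_unifAt (V : ValuationSubring F) {t t₀ : F}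
    (ht : t ≠ 0 ∧ t ∈ V.nonunits ∧ ∀ f ∈ V.nonunits, f * t⁻¹ ∈ V)
    (ht₀ : t₀ ≠ 0 ∧ t₀ ∈ V.nonunits ∧ ∀ f ∈ V.nonunits, f * t₀⁻¹ ∈ V) :
    V.valuation t = V.valuation t₀ := by
  have h1 := (V.valuation_le_one_iff _).2 (ht.2.2 t₀ ht₀.2.1)
  have h2 := (V.valuation_le_one_iff _).2 (ht₀.2.2 t ht.2.1)
  rw [map_mul, map_inv₀] at h1 h2
  have hp : 0 < V.valuation t := by rw [Valuation.pos_iff]; exact ht.1
  have hp₀ : 0 < V.valuation t₀ := by rw [Valuation.pos_iff]; exact ht₀.1
  refine le_antisymm ?_ ?_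
  · calc V.valuation t = V.valuation t * (V.valuation t₀)⁻¹ * V.valuation t₀ := by
          rw [inv_mul_cancel_right₀ hp₀.ne']
      _ ≤ 1 * V.valuation t₀ := by gcongr
      _ = _ := one_mul _
  · calc V.valuation t₀ = V.valuation t₀ * (V.valuation t)⁻¹ * V.valuation t := by
          rw [inv_mul_cancel_right₀ hp.ne']
      _ ≤ 1 * V.valuation t := by gcongr
      _ = _ := one_mul _

/-- The exponent of a power of an element of the maximal ideal is determined. -/
theorem zpow_inj_of_val (V : ValuationSubring F) {τ : F} (hτ0 : τ ≠ 0)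
    (hτ : V.valuation τ < 1) {a b : ℤ} (h : V.valuation τ ^ a = V.valuation τ ^ b) : a = b := by
  have hp : 0 < V.valuation τ := by rw [Valuation.pos_iff]; exact hτ0
  exact zpow_right_injective₀ hp hτ.ne h

/-- In a discrete valuation ring the value group is generated by the value of a uniformiser. -/
theorem hdvr_of_dvr (V : ValuationSubring F) (hV : IsDiscreteValuationRing V) {t : F}
    (ht : t ≠ 0 ∧ t ∈ V.nonunits ∧ ∀ f ∈ V.nonunits, f * t⁻¹ ∈ V) :
    ∀ y : F, y ≠ 0 → ∃ n : ℤ, V.valuation y = V.valuation t ^ n := by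
  haveI := hV
  obtain ⟨ht0, htn, htg⟩ := ht
  have htV : t ∈ V := V.nonunits_le htn
  have hirr : Irreducible (⟨t, htV⟩ : V) := by
    rw [IsDiscreteValuationRing.irreducible_iff_uniformizer]
    apply le_antisymm
    · intro f hf
      have hf' : (f : F) ∈ V.nonunits := ValuationSubring.coe_mem_nonunits_iff.2 hf
      rw [Ideal.mem_span_singleton]
      refine ⟨⟨(f : F) * t⁻¹, htg _ hf'⟩, Subtype.ext ?_⟩
      show (f : F) = t * ((f : F) * t⁻¹)
      rw [mul_comm, inv_mul_cancel_right₀ ht0]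
    · rw [Ideal.span_singleton_le_iff_mem]
      exact ValuationSubring.coe_mem_nonunits_iff.1 htn
  have key : ∀ y : F, y ≠ 0 → y ∈ V → ∃ n : ℕ, V.valuation y = V.valuation t ^ n := by
    intro y hy0 hyV
    have hy0' : (⟨y, hyV⟩ : V) ≠ 0 := fun h => hy0 (congrArg Subtype.val h)
    obtain ⟨n, u, hu⟩ := IsDiscreteValuationRing.eq_unit_mul_pow_irreducible hy0' hirr
    refine ⟨n, ?_⟩
    have h1 : y = ((u : V) : F) * t ^ n := congrArg Subtype.val hu
    rw [h1, map_mul, map_pow, ValuationSubring.valuation_unit, one_mul]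
  intro y hy0
  rcases V.mem_or_inv_mem y with hy | hy
  · obtain ⟨n, hn⟩ := key y hy0 hy
    exact ⟨n, by rw [hn, zpow_natCast]⟩
  · obtain ⟨n, hn⟩ := key y⁻¹ (inv_ne_zero hy0) hy
    refine ⟨-(n : ℤ), ?_⟩
    rw [zpow_neg, zpow_natCast, ← hn, map_inv₀, inv_inv]

end Vocab

section Down

variable {K F : Type*} [Field K] [Field F] [Algebra K F]

/-- **Discreteness goes down** along an extension with `e = 1`. -/
theorem hdvr_down {O : ValuationSubring K} {V : ValuationSubring F} (h : Over O V) {ϖ : K}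
    (hϖ0 : ϖ ≠ 0)
    (hV : ∀ y : F, y ≠ 0 → ∃ n : ℤ, V.valuation y = V.valuation (algebraMap K F ϖ) ^ n) :
    ∀ a : K, a ≠ 0 → ∃ n : ℤ, O.valuation a = O.valuation ϖ ^ n := by
  intro a ha0
  obtain ⟨n, hn⟩ := hV (algebraMap K F a) ((map_ne_zero _).2 ha0)
  refine ⟨n, ?_⟩
  have hvϖ : O.valuation ϖ ≠ 0 := by rw [Ne, Valuation.zero_iff]; exact hϖ0
  have hvϖF : V.valuation (algebraMap K F ϖ) ≠ 0 := by
    rw [Ne, Valuation.zero_iff, map_eq_zero]; exact hϖ0
  have h1 : V.valuation (algebraMap K F (a * (ϖ ^ n)⁻¹)) = 1 := by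
    rw [map_mul, map_inv₀, map_zpow₀, map_mul, map_inv₀, map_zpow₀, hn,
      mul_inv_cancel₀ (zpow_ne_zero _ hvϖF)]
  have h2 : O.valuation (a * (ϖ ^ n)⁻¹) = 1 := by
    refine le_antisymm ((h.val_le_one_iff _).1 h1.le) ?_
    rw [← not_lt, ← h.val_lt_one_iff, h1]
    exact lt_irrefl _
  rw [map_mul, map_inv₀, map_zpow₀] at h2
  calc O.valuation a = O.valuation a * (O.valuation ϖ ^ n)⁻¹ * O.valuation ϖ ^ n := by
        rw [inv_mul_cancel_right₀ (zpow_ne_zero _ hvϖ)]
    _ = O.valuation ϖ ^ n := by rw [h2, one_mul]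

end Down

section Along

variable {R E F F' : Type*} [CommRing R] [Field E] [Algebra R E]
  [Field F] [Algebra E F] [Algebra R F]
  [Field F'] [Algebra E F'] [Algebra R F']

/-- A degeneracy map commutes with the structure maps from `R`. -/
theorem along_algebraMap [IsScalarTower R E F] [IsScalarTower R E F'] (φ : F' →ₐ[E] F) (w : R) :
    φ (algebraMap R F' w) = algebraMap R F w := by
  rw [IsScalarTower.algebraMap_apply R E F', IsScalarTower.algebraMap_apply R E F,
    AlgHom.commutes]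

/-- `V.comap φ = V'` says that `V` lies over `V'` along `φ`. -/
theorem over_of_comap (φ : F' →ₐ[E] F) {V : ValuationSubring F} {V' : ValuationSubring F'}
    (hc : V.comap (φ : F' →+* F) = V') :
    letI := algebraAlong φ
    Over V' V := by
  letI := algebraAlong φ
  intro a
  rw [← hc]
  exact Iff.rfl

variable (w : R) (q : ℕ) (φ : F' →ₐ[E] F)

/-- The value group of `V'` is generated by `v' (w)` if `V` over `V'` is a discrete valuation
ring with uniformiser `w`. -/
theorem eng_hdvr {V' : ValuationSubring F'} {V : ValuationSubring F}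
    (hc : V.comap (φ : F' →+* F) = V')
    (hφw : φ (algebraMap R F' w) = algebraMap R F w)
    (hdvrV : IsDiscreteValuationRing V)
    (hunif : algebraMap R F w ≠ 0 ∧ algebraMap R F w ∈ V.nonunits ∧
      ∀ f ∈ V.nonunits, f * (algebraMap R F w)⁻¹ ∈ V) :
    algebraMap R F' w ≠ 0 ∧ V'.valuation (algebraMap R F' w) < 1 ∧
      ∀ a : F', a ≠ 0 → ∃ n : ℤ, V'.valuation a = V'.valuation (algebraMap R F' w) ^ n := by
  letI := algebraAlong φ
  have ho : Over V' V := over_of_comap φ hc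
  have hwF : algebraMap F' F (algebraMap R F' w) = algebraMap R F w := hφw
  have hw0 : algebraMap R F' w ≠ 0 := by
    intro h0
    rw [h0, map_zero] at hwF
    exact hunif.1 hwF.symm
  refine ⟨hw0, ?_, ?_⟩
  · rw [← ho.val_lt_one_iff, hwF]; exact hunif.2.1
  · refine hdvr_down ho hw0 ?_
    rw [hwF]
    exact hdvr_of_dvr V hdvrV hunif

/-- **NR, split case** (fields `nr_α₁`, `nr_β₁` of `TripleCtx`), strong form: `y ∈ Va ∩ Vb`. -/
theorem eng_nr_split_mem (hfin : FiniteAlong E φ) (hdeg : finrankAlong E φ = q) (hq : 0 < q)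
    {V' : ValuationSubring F'} {Va Vb : ValuationSubring F}
    (hca : Va.comap (φ : F' →+* F) = V') (hcb : Vb.comap (φ : F' →+* F) = V') (hne : Va ≠ Vb)
    (hφw : φ (algebraMap R F' w) = algebraMap R F w)
    (hdvra : IsDiscreteValuationRing Va)
    (hunifa : algebraMap R F w ≠ 0 ∧ algebraMap R F w ∈ Va.nonunits ∧
      ∀ f ∈ Va.nonunits, f * (algebraMap R F w)⁻¹ ∈ Va)
    (hram : ∃ t : F, (t ≠ 0 ∧ t ∈ Vb.nonunits ∧ ∀ f ∈ Vb.nonunits, f * t⁻¹ ∈ Vb) ∧
      (algebraMap R F w * (t ^ (q - 1))⁻¹ ≠ 0 ∧ algebraMap R F w * (t ^ (q - 1))⁻¹ ∈ Vb ∧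
        (algebraMap R F w * (t ^ (q - 1))⁻¹)⁻¹ ∈ Vb)) :
    ∀ y : F, y ∈ Va → y ∈ Vb → ∀ xa xb : F',
      φ xa - y ∈ Va.nonunits → φ xb - y ∈ Vb.nonunits →
        normAlong φ y - xa * xb ^ (q - 1) ∈ V'.nonunits := by
  letI := algebraAlong φ
  haveI : Module.Finite F' F := hfin
  intro y hya hyb xa xb hxa hxb
  have hoa : Over V' Va := over_of_comap φ hca
  have hob : Over V' Vb := over_of_comap φ hcb
  have hwF : algebraMap F' F (algebraMap R F' w) = algebraMap R F w := hφw
  obtain ⟨hw0, hϖ, hdvr⟩ := eng_hdvr w φ hca hφw hdvra hunifa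
  obtain ⟨t, ht, hu⟩ := hram
  have hram' : Vb.valuation (algebraMap F' F (algebraMap R F' w)) =
      Vb.valuation t ^ (q - 1) := by
    rw [hwF]
    have := val_eq_zpow_of_unitAt Vb ht.1 ((q - 1 : ℕ) : ℤ) (by rw [zpow_natCast]; exact hu)
    rw [this, zpow_natCast]
  have hdeg' : Module.finrank F' F = 1 + (q - 1) := by
    have : Module.finrank F' F = q := hdeg
    omega
  exact normResSplit_lb hoa hob hne hw0 hϖ hdvr (τ := t) (e := q - 1) ht.2.1 hram' hdeg'
    y hya hyb xa xb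
    (by
      have : y - algebraMap F' F xa = -(φ xa - y) := by
        show y - φ xa = -(φ xa - y); ring
      rw [this]; exact (Va.nonunits).neg_mem hxa)
    (by
      have : y - algebraMap F' F xb = -(φ xb - y) := by
        show y - φ xb = -(φ xb - y); ring
      rw [this]; exact (Vb.nonunits).neg_mem hxb)

/-- **NR, split case**: EXACT shape of the fields `nr_α₁`, `nr_β₁` of `TripleCtx` (v1.2). -/
theorem eng_nr_split (hfin : FiniteAlong E φ) (hdeg : finrankAlong E φ = q) (hq : 0 < q)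
    {V' : ValuationSubring F'} {Va Vb : ValuationSubring F}
    (hca : Va.comap (φ : F' →+* F) = V') (hcb : Vb.comap (φ : F' →+* F) = V') (hne : Va ≠ Vb)
    (hφw : φ (algebraMap R F' w) = algebraMap R F w)
    (hdvra : IsDiscreteValuationRing Va)
    (hunifa : algebraMap R F w ≠ 0 ∧ algebraMap R F w ∈ Va.nonunits ∧
      ∀ f ∈ Va.nonunits, f * (algebraMap R F w)⁻¹ ∈ Va)
    (hram : ∃ t : F, (t ≠ 0 ∧ t ∈ Vb.nonunits ∧ ∀ f ∈ Vb.nonunits, f * t⁻¹ ∈ Vb) ∧
      (algebraMap R F w * (t ^ (q - 1))⁻¹ ≠ 0 ∧ algebraMap R F w * (t ^ (q - 1))⁻¹ ∈ Vb ∧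
        (algebraMap R F w * (t ^ (q - 1))⁻¹)⁻¹ ∈ Vb)) :
    ∀ y : F, (y ≠ 0 ∧ y ∈ Va ∧ y⁻¹ ∈ Va) → (y ≠ 0 ∧ y ∈ Vb ∧ y⁻¹ ∈ Vb) → ∀ xa xb : F',
      φ xa - y ∈ Va.nonunits → φ xb - y ∈ Vb.nonunits →
        normAlong φ y - xa * xb ^ (q - 1) ∈ V'.nonunits :=
  fun y hya hyb => eng_nr_split_mem w q φ hfin hdeg hq hca hcb hne hφw hdvra hunifa hram
    y hya.2.1 hyb.2.1

/-- **NV, split case** (first halves of the fields `nv_α`, `nv_β` of `TripleCtx`). -/
theorem eng_nv_split (hfin : FiniteAlong E φ) (hdeg : finrankAlong E φ = q) (hq : 0 < q)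
    {V' : ValuationSubring F'} {Va Vb : ValuationSubring F}
    (hca : Va.comap (φ : F' →+* F) = V') (hcb : Vb.comap (φ : F' →+* F) = V') (hne : Va ≠ Vb)
    (hφw : φ (algebraMap R F' w) = algebraMap R F w)
    (hdvra : IsDiscreteValuationRing Va)
    (hunifa : algebraMap R F w ≠ 0 ∧ algebraMap R F w ∈ Va.nonunits ∧
      ∀ f ∈ Va.nonunits, f * (algebraMap R F w)⁻¹ ∈ Va)
    (hram : ∃ t : F, (t ≠ 0 ∧ t ∈ Vb.nonunits ∧ ∀ f ∈ Vb.nonunits, f * t⁻¹ ∈ Vb) ∧
      (algebraMap R F w * (t ^ (q - 1))⁻¹ ≠ 0 ∧ algebraMap R F w * (t ^ (q - 1))⁻¹ ∈ Vb ∧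
        (algebraMap R F w * (t ^ (q - 1))⁻¹)⁻¹ ∈ Vb)) :
    ∀ t : F, (t ≠ 0 ∧ t ∈ Vb.nonunits ∧ ∀ f ∈ Vb.nonunits, f * t⁻¹ ∈ Vb) →
      ∀ (y : F) (aa ab : ℤ), y ≠ 0 →
        (y * (algebraMap R F w ^ aa)⁻¹ ≠ 0 ∧ y * (algebraMap R F w ^ aa)⁻¹ ∈ Va ∧
          (y * (algebraMap R F w ^ aa)⁻¹)⁻¹ ∈ Va) →
        (y * (t ^ ab)⁻¹ ≠ 0 ∧ y * (t ^ ab)⁻¹ ∈ Vb ∧ (y * (t ^ ab)⁻¹)⁻¹ ∈ Vb) →
        (normAlong φ y * (algebraMap R F' w ^ (aa + ab))⁻¹ ≠ 0 ∧
          normAlong φ y * (algebraMap R F' w ^ (aa + ab))⁻¹ ∈ V' ∧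
          (normAlong φ y * (algebraMap R F' w ^ (aa + ab))⁻¹)⁻¹ ∈ V') := by
  letI := algebraAlong φ
  haveI : Module.Finite F' F := hfin
  intro t ht y aa ab hy0 hya hyb
  have hoa : Over V' Va := over_of_comap φ hca
  have hob : Over V' Vb := over_of_comap φ hcb
  have hwF : algebraMap F' F (algebraMap R F' w) = algebraMap R F w := hφw
  obtain ⟨hw0, hϖ, hdvr⟩ := eng_hdvr w φ hca hφw hdvra hunifa
  obtain ⟨t₀, ht₀, hu⟩ := hram
  have hram' : Vb.valuation (algebraMap F' F (algebraMap R F' w)) =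
      Vb.valuation t₀ ^ (q - 1) := by
    rw [hwF]
    have := val_eq_zpow_of_unitAt Vb ht₀.1 ((q - 1 : ℕ) : ℤ) (by rw [zpow_natCast]; exact hu)
    rw [this, zpow_natCast]
  have hdeg' : Module.finrank F' F = 1 + (q - 1) := by
    have : Module.finrank F' F = q := hdeg
    omega
  have ht₀v : Vb.valuation t₀ < 1 := ht₀.2.1
  have hwa : Va.valuation (algebraMap R F w) < 1 := hunifa.2.1
  obtain ⟨a, ha, hN⟩ := valNorm_split (ι := Bool) (V := fun b => cond b Va Vb)
    (τ := fun b => cond b (algebraMap F' F (algebraMap R F' w)) t₀) (E := fun b => cond b 1 (q - 1))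
    (fun b => by cases b <;> assumption)
    (fun b b' hbb' => by
      cases b <;> cases b'
      · exact absurd rfl hbb'
      · intro hle
        exact hne (eq_of_le_of_over hob hoa hw0 hϖ hdvr hle).symm
      · intro hle
        exact hne (eq_of_le_of_over hoa hob hw0 hϖ hdvr hle)
      · exact absurd rfl hbb')
    hw0 hϖ hdvr
    (fun b => by
      cases b
      · exact ht₀v
      · exact (hoa.val_lt_one_iff _).2 hϖ)
    (fun b => by
      cases b
      · exact hram'
      · simp)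
    (by rw [Fintype.sum_bool, hdeg']; rfl) hy0
  have h1 : a true = aa := by
    have e1 := ha true
    have e2 := val_eq_zpow_of_unitAt Va hunifa.1 aa hya
    simp only [cond_true] at e1
    rw [hwF, e2] at e1
    exact (zpow_inj_of_val Va hunifa.1 hwa e1).symm
  have h2 : a false = ab := by
    have e1 := ha false
    have e2 := val_eq_zpow_of_unitAt Vb ht.1 ab hyb
    simp only [cond_false] at e1
    rw [e2, val_eq_of_unifAt Vb ht ht₀] at e1
    exact (zpow_inj_of_val Vb ht₀.1 ht₀v e1).symm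
  rw [Fintype.sum_bool, h1, h2] at hN
  exact unitAt_of_val_eq_zpow V' hw0 (aa + ab) hN

/-- **NR, purely inseparable case**: EXACT shape of the fields `nr_α₂`, `nr_β₂` of `TripleCtx`
(strong form: all `y ∈ V`).  Witness of inseparability: `z₀ ∈ V`, `c₀ ∈ F'` with
`z₀ ^ q ≡ φ c₀` at `V` and `c₀` not a `q`-th power modulo `𝔪_{V'}`. -/
theorem eng_nr_insep_mem (hfin : FiniteAlong E φ) (hdeg : finrankAlong E φ = q) (hq : q.Prime)
    {V' : ValuationSubring F'} {V : ValuationSubring F}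
    (hc : V.comap (φ : F' →+* F) = V')
    (hφw : φ (algebraMap R F' w) = algebraMap R F w)
    (hdvrV : IsDiscreteValuationRing V)
    (hunif : algebraMap R F w ≠ 0 ∧ algebraMap R F w ∈ V.nonunits ∧
      ∀ f ∈ V.nonunits, f * (algebraMap R F w)⁻¹ ∈ V)
    (hqV : (q : F) ∈ V.nonunits)
    {z₀ : F} {c₀ : F'} (hz₀ : z₀ ∈ V) (hzc : z₀ ^ q - φ c₀ ∈ V.nonunits)
    (hnp : ∀ a : F', a ∈ V' → a ^ q - c₀ ∉ V'.nonunits) :
    ∀ y : F, y ∈ V → φ (normAlong φ y) - y ^ q ∈ V.nonunits := by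
  letI := algebraAlong φ
  haveI : Module.Finite F' F := hfin
  have ho : Over V' V := over_of_comap φ hc
  obtain ⟨hw0, hϖ, hdvr⟩ := eng_hdvr w φ hc hφw hdvrV hunif
  have hqO : V'.valuation ((q : ℕ) : F') < 1 := by
    rw [← ho.val_lt_one_iff, map_natCast]; exact hqV
  exact normResInsep_all ho hw0 hϖ hdvr q hq hqO hdeg hz₀ hzc hnp

/-- **NR, purely inseparable case**: EXACT shape of the fields `nr_α₂`, `nr_β₂`. -/
theorem eng_nr_insep (hfin : FiniteAlong E φ) (hdeg : finrankAlong E φ = q) (hq : q.Prime)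
    {V' : ValuationSubring F'} {V : ValuationSubring F}
    (hc : V.comap (φ : F' →+* F) = V')
    (hφw : φ (algebraMap R F' w) = algebraMap R F w)
    (hdvrV : IsDiscreteValuationRing V)
    (hunif : algebraMap R F w ≠ 0 ∧ algebraMap R F w ∈ V.nonunits ∧
      ∀ f ∈ V.nonunits, f * (algebraMap R F w)⁻¹ ∈ V)
    (hqV : (q : F) ∈ V.nonunits)
    {z₀ : F} {c₀ : F'} (hz₀ : z₀ ∈ V) (hzc : z₀ ^ q - φ c₀ ∈ V.nonunits)
    (hnp : ∀ a : F', a ∈ V' → a ^ q - c₀ ∉ V'.nonunits) :
    ∀ y : F, (y ≠ 0 ∧ y ∈ V ∧ y⁻¹ ∈ V) → φ (normAlong φ y) - y ^ q ∈ V.nonunits :=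
  fun y hy => eng_nr_insep_mem w q φ hfin hdeg hq hc hφw hdvrV hunif hqV hz₀ hzc hnp y hy.2.1

/-- **NV, purely inseparable case** (second halves of the fields `nv_α`, `nv_β`). -/
theorem eng_nv_insep (hfin : FiniteAlong E φ) (hdeg : finrankAlong E φ = q) (hq : q.Prime)
    {V' : ValuationSubring F'} {V : ValuationSubring F}
    (hc : V.comap (φ : F' →+* F) = V')
    (hφw : φ (algebraMap R F' w) = algebraMap R F w)
    (hdvrV : IsDiscreteValuationRing V)
    (hunif : algebraMap R F w ≠ 0 ∧ algebraMap R F w ∈ V.nonunits ∧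
      ∀ f ∈ V.nonunits, f * (algebraMap R F w)⁻¹ ∈ V)
    (hqV : (q : F) ∈ V.nonunits)
    {z₀ : F} {c₀ : F'} (hz₀ : z₀ ∈ V) (hzc : z₀ ^ q - φ c₀ ∈ V.nonunits)
    (hnp : ∀ a : F', a ∈ V' → a ^ q - c₀ ∉ V'.nonunits) :
    ∀ (y : F) (a : ℤ), y ≠ 0 →
      (y * (algebraMap R F w ^ a)⁻¹ ≠ 0 ∧ y * (algebraMap R F w ^ a)⁻¹ ∈ V ∧
        (y * (algebraMap R F w ^ a)⁻¹)⁻¹ ∈ V) →
      (normAlong φ y * (algebraMap R F' w ^ ((q : ℤ) * a))⁻¹ ≠ 0 ∧
        normAlong φ y * (algebraMap R F' w ^ ((q : ℤ) * a))⁻¹ ∈ V' ∧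
        (normAlong φ y * (algebraMap R F' w ^ ((q : ℤ) * a))⁻¹)⁻¹ ∈ V') := by
  letI := algebraAlong φ
  haveI : Module.Finite F' F := hfin
  intro y a hy0 hya
  have ho : Over V' V := over_of_comap φ hc
  have hwF : algebraMap F' F (algebraMap R F' w) = algebraMap R F w := hφw
  obtain ⟨hw0, hϖ, hdvr⟩ := eng_hdvr w φ hc hφw hdvrV hunif
  have hqO : V'.valuation ((q : ℕ) : F') < 1 := by
    rw [← ho.val_lt_one_iff, map_natCast]; exact hqV
  obtain ⟨a', ha', hN⟩ := valNorm_insep ho hw0 hϖ hdvr q hq hqO hdeg hz₀ hzc hnp hy0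
  have e2 := val_eq_zpow_of_unitAt V hunif.1 a hya
  rw [hwF, e2] at ha'
  have h1 : a' = a := (zpow_inj_of_val V hunif.1 hunif.2.1 ha').symm
  rw [h1] at hN
  exact unitAt_of_val_eq_zpow V' hw0 ((q : ℤ) * a) hN

/-- **NV**: EXACT shape of the fields `nv_α` (`Va, Vb, Vc = V₁, V₂, V₃`, `V₁', V₂'`) and, after
permuting the arguments, `nv_β` (`Va, Vb, Vc = V₃, V₂, V₁`, with `V₂', V₁'`) of `TripleCtx`. -/
theorem eng_nv (hfin : FiniteAlong E φ) (hdeg : finrankAlong E φ = q) (hq : q.Prime)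
    {V₁' V₂' : ValuationSubring F'} {Va Vb Vc : ValuationSubring F}
    (hca : Va.comap (φ : F' →+* F) = V₁') (hcb : Vb.comap (φ : F' →+* F) = V₁')
    (hcc : Vc.comap (φ : F' →+* F) = V₂') (hne : Va ≠ Vb)
    (hφw : φ (algebraMap R F' w) = algebraMap R F w)
    (hdvra : IsDiscreteValuationRing Va)
    (hunifa : algebraMap R F w ≠ 0 ∧ algebraMap R F w ∈ Va.nonunits ∧
      ∀ f ∈ Va.nonunits, f * (algebraMap R F w)⁻¹ ∈ Va)
    (hram : ∃ t : F, (t ≠ 0 ∧ t ∈ Vb.nonunits ∧ ∀ f ∈ Vb.nonunits, f * t⁻¹ ∈ Vb) ∧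
      (algebraMap R F w * (t ^ (q - 1))⁻¹ ≠ 0 ∧ algebraMap R F w * (t ^ (q - 1))⁻¹ ∈ Vb ∧
        (algebraMap R F w * (t ^ (q - 1))⁻¹)⁻¹ ∈ Vb))
    (hdvrc : IsDiscreteValuationRing Vc)
    (hunifc : algebraMap R F w ≠ 0 ∧ algebraMap R F w ∈ Vc.nonunits ∧
      ∀ f ∈ Vc.nonunits, f * (algebraMap R F w)⁻¹ ∈ Vc)
    (hqV : (q : F) ∈ Vc.nonunits)
    {z₀ : F} {c₀ : F'} (hz₀ : z₀ ∈ Vc) (hzc : z₀ ^ q - φ c₀ ∈ Vc.nonunits)
    (hnp : ∀ a : F', a ∈ V₂' → a ^ q - c₀ ∉ V₂'.nonunits) :
    ∀ t : F, (t ≠ 0 ∧ t ∈ Vb.nonunits ∧ ∀ f ∈ Vb.nonunits, f * t⁻¹ ∈ Vb) →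
      ∀ (y : F) (aa ab ac : ℤ), y ≠ 0 →
        (y * (algebraMap R F w ^ aa)⁻¹ ≠ 0 ∧ y * (algebraMap R F w ^ aa)⁻¹ ∈ Va ∧
          (y * (algebraMap R F w ^ aa)⁻¹)⁻¹ ∈ Va) →
        (y * (t ^ ab)⁻¹ ≠ 0 ∧ y * (t ^ ab)⁻¹ ∈ Vb ∧ (y * (t ^ ab)⁻¹)⁻¹ ∈ Vb) →
        (y * (algebraMap R F w ^ ac)⁻¹ ≠ 0 ∧ y * (algebraMap R F w ^ ac)⁻¹ ∈ Vc ∧
          (y * (algebraMap R F w ^ ac)⁻¹)⁻¹ ∈ Vc) →
        (normAlong φ y * (algebraMap R F' w ^ (aa + ab))⁻¹ ≠ 0 ∧
          normAlong φ y * (algebraMap R F' w ^ (aa + ab))⁻¹ ∈ V₁' ∧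
          (normAlong φ y * (algebraMap R F' w ^ (aa + ab))⁻¹)⁻¹ ∈ V₁') ∧
        (normAlong φ y * (algebraMap R F' w ^ ((q : ℤ) * ac))⁻¹ ≠ 0 ∧
          normAlong φ y * (algebraMap R F' w ^ ((q : ℤ) * ac))⁻¹ ∈ V₂' ∧
          (normAlong φ y * (algebraMap R F' w ^ ((q : ℤ) * ac))⁻¹)⁻¹ ∈ V₂') :=
  fun t ht y aa ab ac hy0 hya hyb hyc =>
    ⟨eng_nv_split w q φ hfin hdeg hq.pos hca hcb hne hφw hdvra hunifa hram t ht y aa ab hy0
        hya hyb,
      eng_nv_insep w q φ hfin hdeg hq hcc hφw hdvrc hunifc hqV hz₀ hzc hnp y ac hy0 hyc⟩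

/-- The residue characteristic: `q ∈ 𝔪_V` if `w ∣ q` in `R` and `R ⊆ V`, `w ∈ 𝔪_V`. -/
theorem natCast_mem_nonunits {V : ValuationSubring F} (hR : ∀ r : R, algebraMap R F r ∈ V)
    (hw : algebraMap R F w ∈ V.nonunits) (hqw : w ∣ (q : R)) : (q : F) ∈ V.nonunits := by
  obtain ⟨r, hr⟩ := hqw
  have h1 : (q : F) = algebraMap R F w * algebraMap R F r := by
    rw [← map_mul, ← hr, map_natCast]
  rw [h1, ValuationSubring.mem_nonunits_iff, map_mul]
  have h2 : V.valuation (algebraMap R F r) ≤ 1 := (V.valuation_le_one_iff _).2 (hR r)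
  have h3 : V.valuation (algebraMap R F w) < 1 := hw
  calc V.valuation (algebraMap R F w) * V.valuation (algebraMap R F r)
      ≤ V.valuation (algebraMap R F w) * 1 := by gcongr
    _ = V.valuation (algebraMap R F w) := mul_one _
    _ < 1 := h3

/-- The witness of inseparability in the form "`z₀` is not congruent at `V` to an element of
`φ V'`" gives the form "`c₀` is not a `q`-th power modulo `𝔪_{V'}`". -/
theorem hnp_of_not_congr (hq : q.Prime) {V' : ValuationSubring F'} {V : ValuationSubring F}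
    (hc : V.comap (φ : F' →+* F) = V') (hqV : (q : F) ∈ V.nonunits)
    {z₀ : F} {c₀ : F'} (hz₀ : z₀ ∈ V) (hzc : z₀ ^ q - φ c₀ ∈ V.nonunits)
    (hnc : ∀ a : F', a ∈ V' → z₀ - φ a ∉ V.nonunits) :
    ∀ a : F', a ∈ V' → a ^ q - c₀ ∉ V'.nonunits := by
  letI := algebraAlong φ
  have ho : Over V' V := over_of_comap φ hc
  intro a ha hac
  apply hnc a ha
  have haV : φ a ∈ V := (ho a).2 ha
  have h1 : φ (a ^ q - c₀) ∈ V.nonunits := by
    have := (ho.val_lt_one_iff (a ^ q - c₀)).2 hac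
    exact this
  rw [map_sub, map_pow] at h1
  have h2 : z₀ ^ q - φ a ^ q ∈ V.nonunits := by
    have : z₀ ^ q - φ a ^ q = (z₀ ^ q - φ c₀) - (φ a ^ q - φ c₀) := by ring
    rw [this]
    exact (V.nonunits).sub_mem hzc h1
  -- pass to the residue field, of characteristic `q`
  haveI : Fact q.Prime := ⟨hq⟩
  have hq0 : ((q : ℕ) : IsLocalRing.ResidueField V) = 0 := by
    have : IsLocalRing.residue V ⟨(q : F), V.nonunits_le hqV⟩ = 0 := by
      rw [IsLocalRing.residue_eq_zero_iff]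
      exact ValuationSubring.coe_mem_nonunits_iff.1 hqV
    rw [← this, ← map_natCast (IsLocalRing.residue V)]
    rfl
  haveI : CharP (IsLocalRing.ResidueField V) q :=
    (CharP.charP_iff_prime_eq_zero hq).2 hq0
  have h3 : IsLocalRing.residue V (⟨z₀, hz₀⟩ - ⟨φ a, haV⟩) ^ q = 0 := by
    rw [map_sub, sub_pow_char, ← map_pow, ← map_pow, ← map_sub,
      IsLocalRing.residue_eq_zero_iff]
    exact ValuationSubring.coe_mem_nonunits_iff.1 h2
  have h4 := pow_eq_zero_iff (hq.ne_zero) |>.1 h3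
  rw [IsLocalRing.residue_eq_zero_iff] at h4
  exact ValuationSubring.coe_mem_nonunits_iff.2 h4

/-- **All six NORM fields of `TripleCtx` at once** (`nv_α`, `nv_β`, `nr_α₁`, `nr_α₂`, `nr_β₁`,
`nr_β₂`, in this order, shapes of Spec v1.2 with `UnitAt`, `UnifAt` unfolded) from: the degrees
`[F : α F'] = [F : β F'] = q`, the fields `dvr₁ dvr₃ ne₁₂ ne₂₃ unif₁ unif₃ ram₂ comap_*` of
`TripleCtx`, the residue characteristic, and one witness of inseparability for `α` at `V₃`
(`zα ^ q ≡ α cα`, `cα` not a `q`-th power modulo `𝔪_{V₂'}`) and one for `β` at `V₁`. -/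
theorem eng_norm_six (hq : q.Prime) (α β : F' →ₐ[E] F)
    {V₁ V₂ V₃ : ValuationSubring F} {V₁' V₂' : ValuationSubring F'}
    (fin_α : FiniteAlong E α) (fin_β : FiniteAlong E β)
    (deg_α : finrankAlong E α = q) (deg_β : finrankAlong E β = q)
    (hαw : α (algebraMap R F' w) = algebraMap R F w)
    (hβw : β (algebraMap R F' w) = algebraMap R F w)
    (dvr₁ : IsDiscreteValuationRing V₁) (dvr₃ : IsDiscreteValuationRing V₃)
    (ne₁₂ : V₁ ≠ V₂) (ne₂₃ : V₂ ≠ V₃)
    (unif₁ : algebraMap R F w ≠ 0 ∧ algebraMap R F w ∈ V₁.nonunits ∧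
      ∀ f ∈ V₁.nonunits, f * (algebraMap R F w)⁻¹ ∈ V₁)
    (unif₃ : algebraMap R F w ≠ 0 ∧ algebraMap R F w ∈ V₃.nonunits ∧
      ∀ f ∈ V₃.nonunits, f * (algebraMap R F w)⁻¹ ∈ V₃)
    (ram₂ : ∃ t : F, (t ≠ 0 ∧ t ∈ V₂.nonunits ∧ ∀ f ∈ V₂.nonunits, f * t⁻¹ ∈ V₂) ∧
      (algebraMap R F w * (t ^ (q - 1))⁻¹ ≠ 0 ∧ algebraMap R F w * (t ^ (q - 1))⁻¹ ∈ V₂ ∧
        (algebraMap R F w * (t ^ (q - 1))⁻¹)⁻¹ ∈ V₂))
    (comap_α₁ : V₁.comap (α : F' →+* F) = V₁')
    (comap_α₂ : V₂.comap (α : F' →+* F) = V₁')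
    (comap_α₃ : V₃.comap (α : F' →+* F) = V₂')
    (comap_β₁ : V₁.comap (β : F' →+* F) = V₁')
    (comap_β₂ : V₂.comap (β : F' →+* F) = V₂')
    (comap_β₃ : V₃.comap (β : F' →+* F) = V₂')
    (hq₁ : (q : F) ∈ V₁.nonunits) (hq₃ : (q : F) ∈ V₃.nonunits)
    {zα : F} {cα : F'} (hzα : zα ∈ V₃) (hzcα : zα ^ q - α cα ∈ V₃.nonunits)
    (hnpα : ∀ a : F', a ∈ V₂' → a ^ q - cα ∉ V₂'.nonunits)
    {zβ : F} {cβ : F'} (hzβ : zβ ∈ V₁) (hzcβ : zβ ^ q - β cβ ∈ V₁.nonunits)
    (hnpβ : ∀ a : F', a ∈ V₁' → a ^ q - cβ ∉ V₁'.nonunits) :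
    (∀ t : F, (t ≠ 0 ∧ t ∈ V₂.nonunits ∧ ∀ f ∈ V₂.nonunits, f * t⁻¹ ∈ V₂) →
      ∀ (y : F) (a₁ a₂ a₃ : ℤ), y ≠ 0 →
        (y * (algebraMap R F w ^ a₁)⁻¹ ≠ 0 ∧ y * (algebraMap R F w ^ a₁)⁻¹ ∈ V₁ ∧
          (y * (algebraMap R F w ^ a₁)⁻¹)⁻¹ ∈ V₁) →
        (y * (t ^ a₂)⁻¹ ≠ 0 ∧ y * (t ^ a₂)⁻¹ ∈ V₂ ∧ (y * (t ^ a₂)⁻¹)⁻¹ ∈ V₂) →
        (y * (algebraMap R F w ^ a₃)⁻¹ ≠ 0 ∧ y * (algebraMap R F w ^ a₃)⁻¹ ∈ V₃ ∧
          (y * (algebraMap R F w ^ a₃)⁻¹)⁻¹ ∈ V₃) →
        (normAlong α y * (algebraMap R F' w ^ (a₁ + a₂))⁻¹ ≠ 0 ∧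
          normAlong α y * (algebraMap R F' w ^ (a₁ + a₂))⁻¹ ∈ V₁' ∧
          (normAlong α y * (algebraMap R F' w ^ (a₁ + a₂))⁻¹)⁻¹ ∈ V₁') ∧
        (normAlong α y * (algebraMap R F' w ^ ((q : ℤ) * a₃))⁻¹ ≠ 0 ∧
          normAlong α y * (algebraMap R F' w ^ ((q : ℤ) * a₃))⁻¹ ∈ V₂' ∧
          (normAlong α y * (algebraMap R F' w ^ ((q : ℤ) * a₃))⁻¹)⁻¹ ∈ V₂')) ∧
    (∀ t : F, (t ≠ 0 ∧ t ∈ V₂.nonunits ∧ ∀ f ∈ V₂.nonunits, f * t⁻¹ ∈ V₂) →
      ∀ (y : F) (a₁ a₂ a₃ : ℤ), y ≠ 0 →
        (y * (algebraMap R F w ^ a₁)⁻¹ ≠ 0 ∧ y * (algebraMap R F w ^ a₁)⁻¹ ∈ V₁ ∧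
          (y * (algebraMap R F w ^ a₁)⁻¹)⁻¹ ∈ V₁) →
        (y * (t ^ a₂)⁻¹ ≠ 0 ∧ y * (t ^ a₂)⁻¹ ∈ V₂ ∧ (y * (t ^ a₂)⁻¹)⁻¹ ∈ V₂) →
        (y * (algebraMap R F w ^ a₃)⁻¹ ≠ 0 ∧ y * (algebraMap R F w ^ a₃)⁻¹ ∈ V₃ ∧
          (y * (algebraMap R F w ^ a₃)⁻¹)⁻¹ ∈ V₃) →
        (normAlong β y * (algebraMap R F' w ^ (a₃ + a₂))⁻¹ ≠ 0 ∧
          normAlong β y * (algebraMap R F' w ^ (a₃ + a₂))⁻¹ ∈ V₂' ∧
          (normAlong β y * (algebraMap R F' w ^ (a₃ + a₂))⁻¹)⁻¹ ∈ V₂') ∧
        (normAlong β y * (algebraMap R F' w ^ ((q : ℤ) * a₁))⁻¹ ≠ 0 ∧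
          normAlong β y * (algebraMap R F' w ^ ((q : ℤ) * a₁))⁻¹ ∈ V₁' ∧
          (normAlong β y * (algebraMap R F' w ^ ((q : ℤ) * a₁))⁻¹)⁻¹ ∈ V₁')) ∧
    (∀ y : F, (y ≠ 0 ∧ y ∈ V₁ ∧ y⁻¹ ∈ V₁) → (y ≠ 0 ∧ y ∈ V₂ ∧ y⁻¹ ∈ V₂) → ∀ x₁ x₂ : F',
      α x₁ - y ∈ V₁.nonunits → α x₂ - y ∈ V₂.nonunits →
        normAlong α y - x₁ * x₂ ^ (q - 1) ∈ V₁'.nonunits) ∧
    (∀ y : F, (y ≠ 0 ∧ y ∈ V₃ ∧ y⁻¹ ∈ V₃) → α (normAlong α y) - y ^ q ∈ V₃.nonunits) ∧
    (∀ y : F, (y ≠ 0 ∧ y ∈ V₃ ∧ y⁻¹ ∈ V₃) → (y ≠ 0 ∧ y ∈ V₂ ∧ y⁻¹ ∈ V₂) → ∀ x₃ x₂ : F',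
      β x₃ - y ∈ V₃.nonunits → β x₂ - y ∈ V₂.nonunits →
        normAlong β y - x₃ * x₂ ^ (q - 1) ∈ V₂'.nonunits) ∧
    (∀ y : F, (y ≠ 0 ∧ y ∈ V₁ ∧ y⁻¹ ∈ V₁) → β (normAlong β y) - y ^ q ∈ V₁.nonunits) :=
  ⟨eng_nv w q α fin_α deg_α hq comap_α₁ comap_α₂ comap_α₃ ne₁₂ hαw
      dvr₁ unif₁ ram₂ dvr₃ unif₃ hq₃ hzα hzcα hnpα,
    fun t ht y a₁ a₂ a₃ hy h₁ h₂ h₃ =>
      eng_nv w q β fin_β deg_β hq comap_β₃ comap_β₂ comap_β₁ ne₂₃.symm hβw
        dvr₃ unif₃ ram₂ dvr₁ unif₁ hq₁ hzβ hzcβ hnpβ t ht y a₃ a₂ a₁ hy h₃ h₂ h₁,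
    eng_nr_split w q α fin_α deg_α hq.pos comap_α₁ comap_α₂ ne₁₂ hαw dvr₁ unif₁ ram₂,
    eng_nr_insep w q α fin_α deg_α hq comap_α₃ hαw dvr₃ unif₃ hq₃ hzα hzcα hnpα,
    eng_nr_split w q β fin_β deg_β hq.pos comap_β₃ comap_β₂ ne₂₃.symm hβw dvr₃ unif₃ ram₂,
    eng_nr_insep w q β fin_β deg_β hq comap_β₁ hβw dvr₁ unif₁ hq₁ hzβ hzcβ hnpβ⟩

end Along

end Fermat.Agent.S36.H253

end
-- ===== PACK-END S36/H253/EngNorm.lean

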