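import Fermat.Prelude.Def_CuspForm_Newforms
import Fermat.Prelude.Def_GaloisRep_LocalConditions
import Mathlib
import Fermat.Agent.Pack.S36.E13L3
import Fermat.Agent.Pack.S36.E0L2
import Fermat.Agent.Pack.S36.E11L1
import Fermat.Agent.Pack.S36.E13L2
import Fermat.Agent.Pack.S36.E4L1
import Fermat.Agent.Pack.S36.E9L3
import Fermat.Agent.Pack.S36.E9L2
import Fermat.Agent.Pack.S36.E0L0
import Fermat.Agent.Pack.S36.E7L1
import Fermat.Agent.Pack.S36.E4L3
import Fermat.Agent.Pack.S36.E13L1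
import Fermat.Agent.Pack.S36.E0L3
import Fermat.Agent.Pack.S36.E10L2
import Fermat.Agent.Pack.S36.E12L2
import Fermat.Agent.Pack.S36.E12L3
import Fermat.Agent.Pack.S36.E3L1
import Fermat.Agent.Pack.S36.E8L1
import Fermat.Agent.Pack.S36.E5L3
import Fermat.Agent.Pack.S36.E13L0
import Fermat.Agent.Pack.S36.E3L3

-- ===== PACK-BEGIN S35/H991/Glue.lean
section
/-
S35 top glue (helper991): the frozen statement S35 from ONE tower input.

`HasNewformEigenModules` : for the eigencharacter of a weight-2 NEWFORM `g` of level `M` there is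
an adic eigenmodule (helper990's `S30.H990.AdicEigenModule`: nonzero finite free `𝒪'`-module with
adically continuous Galois action, unramified outside `M·λ`, Eichler–Shimura relation at good
primes) on which, in addition, every Frobenius lift `σ` at every prime `q ≠ λ`, `q ‖ M`, satisfies
the BAD-FROBENIUS relation `(σ² - 1)(σ² - q²) = 0`.

`result_of : HasNewformEigenModules → <frozen statement S35>`   (with `𝒪'' := 𝒪'`).

Proof: helper990's extraction (`exists_cyclo`, `exists_rel_mod`, `exists_rel_of_mod`,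
`exists_twoDim`, all on main) gives a rank-2 `ρ₂` with
`charpoly ρ₂(g) = X² - a X + d(g)` for EVERY `a` with `ρ(g)² - a ρ(g) + d(g) = 0` on the
eigenmodule, `d` = cyclotomic character, `d(σ) = q` for a Frobenius lift at `q ≠ λ`.
The algebraic core (`BadFrobAlg.lean`) shows `a = ±(q+1)`.
-/





set_option autoImplicit false

namespace Fermat.Agent.S35.H991

open Polynomial Fermat.Agent.S30.H990 Fermat.Agent.S55.H414

section Assembly

variable {p N : ℕ} [Fact p.Prime] [NeZero N] {S : Finset ℕ}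
  {𝒪 : Type} [CommRing 𝒪] [IsDomain 𝒪] [IsDiscreteValuationRing 𝒪]
  [IsAdicComplete (IsLocalRing.maximalIdeal 𝒪) 𝒪] [Finite (IsLocalRing.ResidueField 𝒪)]
  {χ : CuspForm.heckeAlgebra N 2 (↑S : Set ℕ) →+* 𝒪}

/-- The bad-Frobenius clause for an adic eigenmodule: at every prime `q ≠ p` exactly dividing
the level, every Frobenius lift `σ` satisfies `(σ² - 1)(σ² - q²) = 0` on the module. -/
def HasBadFrob (E : AdicEigenModule p N S 𝒪 χ) : Prop :=
  ∀ q : ℕ, q.Prime → q ≠ p → q ∣ N → ¬ q ^ 2 ∣ N →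
    ∀ A : ValuationSubring (AlgebraicClosure ℚ), A.LiesOverPrime q →
      ∀ σ : GQ, A.IsFrobeniusAt σ q → BadFrobRel (q : 𝒪) (E.ρ σ)

/-- From an adic eigenmodule with the bad-Frobenius clause to a two-dimensional adic Galois
representation with the Frobenius characteristic polynomials of S35. -/
theorem exists_galoisRepAdic_badFrob [CharZero 𝒪] (hcheb : ChebWeak) (hpS : p ∈ S)
    (hNS : ∀ q : ℕ, q.Prime → q ∣ N → q ∈ S)
    (hp𝒪 : (p : 𝒪) ∈ IsLocalRing.maximalIdeal 𝒪) (E : AdicEigenModule p N S 𝒪 χ)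
    (hE : HasBadFrob E) :
    ∃ ρ : GaloisRepAdic 𝒪,
      (∀ (ℓ : ℕ) (hℓ : ℓ.Prime) (hℓN : ¬ ℓ ∣ N) (hℓS : ℓ ∉ (↑S : Set ℕ)),
        ∀ A : ValuationSubring (AlgebraicClosure ℚ), A.LiesOverPrime ℓ →
          ∀ σ : AlgebraicClosure ℚ ≃ₐ[ℚ] AlgebraicClosure ℚ, A.IsFrobeniusAt σ ℓ →
            LinearMap.charpoly (ρ.ρ σ) =
              X ^ 2 - C (χ (CuspForm.heckeAlgebra.T hℓ hℓN hℓS)) * X + C ((ℓ : 𝒪))) ∧
      (∀ q : ℕ, q.Prime → ¬ q ∣ N → q ≠ p → ρ.IsUnramifiedAt q) ∧
      (∀ q : ℕ, q.Prime → q ≠ p → q ∣ N → ¬ q ^ 2 ∣ N →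
        ∀ A : ValuationSubring (AlgebraicClosure ℚ), A.LiesOverPrime q →
          ∀ σ : AlgebraicClosure ℚ ≃ₐ[ℚ] AlgebraicClosure ℚ, A.IsFrobeniusAt σ q →
            LinearMap.charpoly (ρ.ρ σ) = X ^ 2 - C ((q : 𝒪) + 1) * X + C ((q : 𝒪)) ∨
            LinearMap.charpoly (ρ.ρ σ) = X ^ 2 + C ((q : 𝒪) + 1) * X + C ((q : 𝒪))) := by
  obtain ⟨d, hdfrob, hdinert, hdc, hdcont⟩ := exists_cyclo p 𝒪 hp𝒪
  have hrel : ∀ g : GQ, ∃ a, S30.H990.Rel E.ρ d g a := fun g =>
    exists_rel_of_mod E.ρ d g (fun n => exists_rel_mod hcheb hpS hNS E d hdfrob hdcont g n)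
  have h2 : (2 : 𝒪) ≠ 0 := two_ne_zero
  obtain ⟨T⟩ := exists_twoDim E.ρ d h2 hrel complexConjugation complexConjugation_mul_self hdc
  refine ⟨{ V := T.V
            finrank_eq := T.finrank_eq
            ρ := T.ρ₂
            isAdicContinuous := ?_ }, ?_, ?_, ?_⟩
  · intro n
    obtain ⟨L₁, hL₁fin, hL₁⟩ := E.cont n
    have : FiniteDimensional ℚ L₁ := hL₁fin
    refine ⟨L₁ ⊔ cycloLevel (p ^ n),
      IntermediateField.finiteDimensional_sup L₁ (cycloLevel (p ^ n)), fun σ hσ v => ?_⟩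
    refine T.cong (IsLocalRing.maximalIdeal 𝒪 ^ n) σ ?_ ?_ v
    · exact hL₁ σ (fun x hx => hσ x ((le_sup_left : L₁ ≤ L₁ ⊔ cycloLevel (p ^ n)) hx))
    · exact hdcont n σ (fun x hx =>
        hσ x ((le_sup_right : cycloLevel (p ^ n) ≤ L₁ ⊔ cycloLevel (p ^ n)) hx))
  · intro ℓ hℓ hℓN hℓS A hA σ hσ
    have hℓp : ℓ ≠ p := fun h => hℓS (Finset.mem_coe.mpr (h ▸ hpS))
    have hr : S30.H990.Rel E.ρ d σ (χ (CuspForm.heckeAlgebra.T hℓ hℓN hℓS)) := by
      unfold S30.H990.Rel
      rw [hdfrob ℓ hℓ hℓp A hA σ hσ]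
      exact E.frob ℓ hℓ hℓN hℓS A hA σ hσ
    have := T.charpoly_eq σ _ hr
    rw [hdfrob ℓ hℓ hℓp A hA σ hσ] at this
    exact this
  · intro q hq hqN hqp P hP σ hσ
    have h1 : E.ρ σ = 1 := E.unram q hq hqN hqp P hP σ hσ
    have h2 : d σ = 1 := hdinert q hq hqp P hP σ hσ
    have h3 := T.cong ⊥ σ (fun v => by rw [h1]; simp) (by rw [h2]; simp)
    ext v
    have h4 := h3 v
    rw [Submodule.bot_smul, Submodule.mem_bot, sub_eq_zero] at h4
    simpa using h4
  · intro q hq hqp hqN hq2 A hA σ hσ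
    obtain ⟨a, ha⟩ := hrel σ
    have hdσ : ((d σ : 𝒪ˣ) : 𝒪) = (q : 𝒪) := hdfrob q hq hqp A hA σ hσ
    have hq0 : (q : 𝒪) ≠ 0 := Nat.cast_ne_zero.mpr hq.ne_zero
    have hquad : ∀ v : E.M, E.ρ σ (E.ρ σ v) - a • E.ρ σ v + (q : 𝒪) • v = 0 := by
      intro v
      have := rel_apply E.ρ d ha v
      rwa [hdσ] at this
    have hch := T.charpoly_eq σ a ha
    rw [hdσ] at hch
    rcases eq_or_eq_neg_of_rel_of_badFrob hq0 hquad (hE q hq hqp hqN hq2 A hA σ hσ) with h | h
    · left
      show LinearMap.charpoly (T.ρ₂ σ) = _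
      rw [hch, h]
    · right
      show LinearMap.charpoly (T.ρ₂ σ) = _
      rw [hch, h, map_neg, neg_mul, sub_neg_eq_add]

end Assembly

/-- **The tower hypothesis of S35**: the eigencharacter of a newform has an adic eigenmodule
satisfying the bad-Frobenius relation at the primes exactly dividing the level. -/
def HasNewformEigenModules : Prop :=
  ∀ (M : ℕ) [NeZero M] (g : CuspForm (CongruenceSubgroup.Gamma0 M) 2), g.IsNewform →
    ∀ (lam : ℕ) [Fact lam.Prime] (S : Finset ℕ)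
      (O' : Type) [CommRing O'] [IsDomain O'] [IsDiscreteValuationRing O']
      [IsAdicComplete (IsLocalRing.maximalIdeal O') O'] [Finite (IsLocalRing.ResidueField O')]
      [CharZero O'] (_hlamO' : (lam : O') ∈ IsLocalRing.maximalIdeal O')
      (chig : CuspForm.heckeAlgebra M 2 (↑S : Set ℕ) →+* ℂ)
      (_hchig : ∀ (ℓ : ℕ) (hℓ : ℓ.Prime) (hℓM : ¬ ℓ ∣ M) (hℓS : ℓ ∉ (↑S : Set ℕ)),
        chig (CuspForm.heckeAlgebra.T hℓ hℓM hℓS) = ModularFormClass.qCoeff g ℓ)
      (iota : chig.range →+* O')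
      (_hlamS : lam ∈ S) (_hMS : ∀ q : ℕ, q.Prime → q ∣ M → q ∈ S),
      ∃ E : AdicEigenModule lam M S O' (iota.comp chig.rangeRestrict), HasBadFrob E

/-- **S35 from the Chebotarev hypothesis and the newform eigenmodules.** -/
theorem result_of_chebWeak (hcheb : ChebWeak) (hmod : HasNewformEigenModules)
    {M : ℕ} [NeZero M] {g : CuspForm (CongruenceSubgroup.Gamma0 M) 2} (hg : g.IsNewform)
    (lam : ℕ) [Fact lam.Prime]
    (S : Finset ℕ)
    (O' : Type) [CommRing O'] [IsDomain O'] [IsDiscreteValuationRing O']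
    [IsAdicComplete (IsLocalRing.maximalIdeal O') O'] [Finite (IsLocalRing.ResidueField O')]
    [CharZero O'] (hlamO' : (lam : O') ∈ IsLocalRing.maximalIdeal O')
    (chig : CuspForm.heckeAlgebra M 2 (↑S : Set ℕ) →+* ℂ)
    (hchig : ∀ (ℓ : ℕ) (hℓ : ℓ.Prime) (hℓM : ¬ ℓ ∣ M) (hℓS : ℓ ∉ (↑S : Set ℕ)),
      chig (CuspForm.heckeAlgebra.T hℓ hℓM hℓS) = ModularFormClass.qCoeff g ℓ)
    (iota : chig.range →+* O')
    (hlamS : lam ∈ S) (hMS : ∀ q : ℕ, q.Prime → q ∣ M → q ∈ S) :
    ∃ (O'' : Type) (_ : CommRing O'') (_ : IsDomain O'') (_ : IsDiscreteValuationRing O'')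
      (_ : IsAdicComplete (IsLocalRing.maximalIdeal O'') O'') (_ : Finite (IsLocalRing.ResidueField O''))
      (_ : CharZero O'') (_ : Algebra O' O'') (_ : Module.Finite O' O'') (_ : IsLocalHom (algebraMap O' O'')),
      Function.Injective (algebraMap O' O'') ∧
      ∃ ρ : GaloisRepAdic O'',
        (∀ (ℓ : ℕ) (hℓ : ℓ.Prime) (hℓM : ¬ ℓ ∣ M) (hℓS : ℓ ∉ (↑S : Set ℕ)),
          ∀ A : ValuationSubring (AlgebraicClosure ℚ), A.LiesOverPrime ℓ →
            ∀ σ : AlgebraicClosure ℚ ≃ₐ[ℚ] AlgebraicClosure ℚ, A.IsFrobeniusAt σ ℓ →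
              LinearMap.charpoly (ρ.ρ σ) =
                X ^ 2 - C (algebraMap O' O'' ((iota.comp chig.rangeRestrict) (CuspForm.heckeAlgebra.T hℓ hℓM hℓS))) * X
                  + C ((ℓ : O''))) ∧
        (∀ q : ℕ, q.Prime → q ≠ lam → q ∣ M → ¬ q ^ 2 ∣ M →
          ∀ A : ValuationSubring (AlgebraicClosure ℚ), A.LiesOverPrime q →
            ∀ σ : AlgebraicClosure ℚ ≃ₐ[ℚ] AlgebraicClosure ℚ, A.IsFrobeniusAt σ q →
              LinearMap.charpoly (ρ.ρ σ) = X ^ 2 - C ((q : O'') + 1) * X + C ((q : O'')) ∨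
              LinearMap.charpoly (ρ.ρ σ) = X ^ 2 + C ((q : O'') + 1) * X + C ((q : O''))) := by
  obtain ⟨E, hE⟩ := hmod M g hg lam S O' hlamO' chig hchig iota hlamS hMS
  obtain ⟨ρ, hρ1, -, hρ3⟩ := exists_galoisRepAdic_badFrob hcheb hlamS hMS hlamO' E hE
  exact ⟨O', inferInstance, inferInstance, inferInstance, inferInstance, inferInstance,
    inferInstance, Algebra.id O', Module.Finite.self O', isLocalHom_id O',
    Function.injective_id, ρ, hρ1, hρ3⟩

/-- **S35 from the newform eigenmodules** (Chebotarev = Tier 1 of the shared CHEB library). -/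
theorem result_of (hmod : HasNewformEigenModules)
    {M : ℕ} [NeZero M] {g : CuspForm (CongruenceSubgroup.Gamma0 M) 2} (hg : g.IsNewform)
    (lam : ℕ) [Fact lam.Prime]
    (S : Finset ℕ)
    (O' : Type) [CommRing O'] [IsDomain O'] [IsDiscreteValuationRing O']
    [IsAdicComplete (IsLocalRing.maximalIdeal O') O'] [Finite (IsLocalRing.ResidueField O')]
    [CharZero O'] (hlamO' : (lam : O') ∈ IsLocalRing.maximalIdeal O')
    (chig : CuspForm.heckeAlgebra M 2 (↑S : Set ℕ) →+* ℂ)
    (hchig : ∀ (ℓ : ℕ) (hℓ : ℓ.Prime) (hℓM : ¬ ℓ ∣ M) (hℓS : ℓ ∉ (↑S : Set ℕ)),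
      chig (CuspForm.heckeAlgebra.T hℓ hℓM hℓS) = ModularFormClass.qCoeff g ℓ)
    (iota : chig.range →+* O')
    (hlamS : lam ∈ S) (hMS : ∀ q : ℕ, q.Prime → q ∣ M → q ∈ S) :
    ∃ (O'' : Type) (_ : CommRing O'') (_ : IsDomain O'') (_ : IsDiscreteValuationRing O'')
      (_ : IsAdicComplete (IsLocalRing.maximalIdeal O'') O'') (_ : Finite (IsLocalRing.ResidueField O''))
      (_ : CharZero O'') (_ : Algebra O' O'') (_ : Module.Finite O' O'') (_ : IsLocalHom (algebraMap O' O'')),
      Function.Injective (algebraMap O' O'') ∧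
      ∃ ρ : GaloisRepAdic O'',
        (∀ (ℓ : ℕ) (hℓ : ℓ.Prime) (hℓM : ¬ ℓ ∣ M) (hℓS : ℓ ∉ (↑S : Set ℕ)),
          ∀ A : ValuationSubring (AlgebraicClosure ℚ), A.LiesOverPrime ℓ →
            ∀ σ : AlgebraicClosure ℚ ≃ₐ[ℚ] AlgebraicClosure ℚ, A.IsFrobeniusAt σ ℓ →
              LinearMap.charpoly (ρ.ρ σ) =
                X ^ 2 - C (algebraMap O' O'' ((iota.comp chig.rangeRestrict) (CuspForm.heckeAlgebra.T hℓ hℓM hℓS))) * X
                  + C ((ℓ : O''))) ∧
        (∀ q : ℕ, q.Prime → q ≠ lam → q ∣ M → ¬ q ^ 2 ∣ M →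
          ∀ A : ValuationSubring (AlgebraicClosure ℚ), A.LiesOverPrime q →
            ∀ σ : AlgebraicClosure ℚ ≃ₐ[ℚ] AlgebraicClosure ℚ, A.IsFrobeniusAt σ q →
              LinearMap.charpoly (ρ.ρ σ) = X ^ 2 - C ((q : O'') + 1) * X + C ((q : O'')) ∨
              LinearMap.charpoly (ρ.ρ σ) = X ^ 2 + C ((q : O'') + 1) * X + C ((q : O''))) :=
  result_of_chebWeak (chebWeak_of_frobeniusDivision Fermat.Agent.Lib.Cheb.frobeniusDivision) hmod
    hg lam S O' hlamO' chig hchig iota hlamS hMS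

end Fermat.Agent.S35.H991

end
-- ===== PACK-END S35/H991/Glue.lean

-- ===== PACK-BEGIN S24/Mod/H997Taylor.lean
section




/-!
# S24 / MOD — the finite-point data of `AnalyticCore` from Taylor expansions

For a `HolBase N` whose ring `Hol` consists of holomorphic functions and whose `J 1` is the
`j`-function, the three `PointData` fields of `AnalyticCore` are constructed from
helper624's Taylor/rotation package (`H624`) and helper47's local orders of `j` (`M7.H47`).
-/

set_option autoImplicit false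

noncomputable section

open ModularCurve HahnSeries UpperHalfPlane ModularForm EisensteinSeries
open scoped MatrixGroups Manifold

namespace Fermat.Agent.S24.H997

open Fermat.Agent.S24.H624 Fermat.Agent.S20.L1 Fermat.Agent.S24.M7.H47

variable {N : ℕ} [NeZero N]

/-- `Hol` consists of holomorphic functions and `J 1` is the `j`-function. -/
structure HolBase.IsHolo (B : HolBase N) : Prop where
  mdiff : ∀ f ∈ B.Hol, f ∈ holoRing
  J_one : B.J 1 = jFun

namespace HolBase

variable (B : HolBase N) (hB : B.IsHolo)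

/-- the inclusion `Hol → holoRing` -/
def toHolo : B.Hol →+* holoRing where
  toFun h := ⟨h.1, hB.mdiff h.1 h.2⟩
  map_one' := rfl
  map_mul' _ _ := rfl
  map_zero' := rfl
  map_add' _ _ := rfl

theorem toHolo_injective : Function.Injective (B.toHolo hB) := by
  intro x y h
  exact Subtype.ext (congrArg (fun f : holoRing => (f : ℍ → ℂ)) h)

theorem toHolo_compH (ε : SL(2, ℤ)) (h : B.Hol) :
    B.toHolo hB (B.compH ε h) = ε⁻¹ • B.toHolo hB h := by
  apply Subtype.ext
  funext τ
  rw [smul_holoRing_apply, inv_inv]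
  rfl

/-- the Taylor expansion at `τ₀` as an `Expansion` -/
def taylorExpansion (τ₀ : ℍ) : Expansion B where
  E := (taylorLaurent τ₀).comp (B.toHolo hB)
  inj := (taylorLaurent_injective τ₀).comp (B.toHolo_injective hB)
  const c := by
    show HahnSeries.ofPowerSeries ℤ ℂ (taylorAt τ₀ (B.toHolo hB (B.constH c))) = HahnSeries.C c
    have : B.toHolo hB (B.constH c) = algebraMap ℂ holoRing c := rfl
    rw [this, AlgHom.commutes, PowerSeries.algebraMap_apply, Algebra.algebraMap_self,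
      RingHom.id_apply, HahnSeries.ofPowerSeries_C]

theorem taylorExpansion_E (τ₀ : ℍ) (h : B.Hol) :
    (B.taylorExpansion hB τ₀).E h
      = laurentAt τ₀ (algebraMap holoRing MerH (B.toHolo hB h)) :=
  (laurentAt_algebraMap τ₀ _).symm

/-- rotation data at a fixed point -/
def taylorRot {τ₀ : ℍ} {ε : SL(2, ℤ)} (hε : ε • τ₀ = τ₀) (m : ℕ) (hm : 0 < m)
    (hζ : IsPrimitiveRoot (rotFactor ε⁻¹ τ₀) m) :
    RotData B (B.taylorExpansion hB τ₀) ε where
  m := m
  m_pos := hm
  ζ := rotFactor ε⁻¹ τ₀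
  hζ := hζ
  rot h := by
    have hfix : ε⁻¹ • τ₀ = τ₀ := inv_smul_of_fixed hε
    rw [taylorExpansion_E, taylorExpansion_E, toHolo_compH, ← smul_algebraMap_MerH]
    exact laurentAt_smul_fixed_rotFactor hfix _

/-- trivial rotation data -/
def trivialRot (X : Expansion B) : RotData B X 1 where
  m := 1
  m_pos := one_pos
  ζ := 1
  hζ := IsPrimitiveRoot.one
  rot h := by
    rw [B.compH_one]
    exact ⟨rfl, by simp⟩

theorem taylor_order_J (τ₀ : ℍ) (a : ℂ) (ha : jFun τ₀ = a) (m : ℕ)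
    (hord : analyticOrderAt (fun w : ℂ => jFun (ofComplex w) - jFun τ₀) (τ₀ : ℂ) = m) :
    ((B.taylorExpansion hB τ₀).E (B.JH 1 (one_dvd N) - B.constH a)).order = (m : ℤ) := by
  show (HahnSeries.ofPowerSeries ℤ ℂ (taylorAt τ₀ (B.toHolo hB _))).order = _
  apply order_ofPowerSeries
  rw [order_taylorAt, ordAt_def, ← hord]
  congr 1
  funext w
  show B.J 1 (ofComplex w) - a = _
  rw [hB.J_one, ha]

/-- the point data over a generic value -/
def genericPoint (a : ℂ) (h0 : a ≠ 0) (h1 : a ≠ 1728) : PointData B a 1 :=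
  let τ₀ : ℍ := (jFun_surjective a).choose
  have hτ₀ : jFun τ₀ = a := (jFun_surjective a).choose_spec
  { X := B.taylorExpansion hB τ₀
    R := B.trivialRot _
    order_J := by
      have h4 : E₄ τ₀ ≠ 0 := fun h => h0 (hτ₀ ▸ (jFun_eq_zero_iff τ₀).mpr h)
      have h6 : E₆ τ₀ ≠ 0 := fun h => h1 (hτ₀ ▸ (jFun_eq_1728_iff τ₀).mpr h)
      have := B.taylor_order_J hB τ₀ a hτ₀ 1
        (by exact_mod_cast analyticOrderAt_jFun_sub_generic h4 h6)
      exact this }

/-- the point data over `1728` (at `i`, rotation by `S`) -/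
def point1728 : PointData B 1728 ModularGroup.S where
  X := B.taylorExpansion hB UpperHalfPlane.I
  R := B.taylorRot hB (τ₀ := UpperHalfPlane.I) (ε := ModularGroup.S)
    Fermat.Agent.S24.H624.S_smul_I 2 two_pos
    (isPrimitiveRoot_rotFactor_two (inv_smul_of_fixed Fermat.Agent.S24.H624.S_smul_I)
      (by rw [trace_inv_SL]; exact trace_S))
  order_J := by
    have := B.taylor_order_J hB UpperHalfPlane.I 1728 jFun_I 2
      (by exact_mod_cast analyticOrderAt_jFun_sub_of_E₆ E₆_I)
    exact this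

/-- the point data over `0` (at `ρ`, rotation by `S * T`) -/
def point0 : PointData B 0 (ModularGroup.S * ModularGroup.T) where
  X := B.taylorExpansion hB rho
  R := B.taylorRot hB (τ₀ := rho) (ε := ModularGroup.S * ModularGroup.T)
    ST_smul_rho 3 (by norm_num)
    (isPrimitiveRoot_rotFactor_three (inv_smul_of_fixed ST_smul_rho)
      (by rw [trace_inv_SL]; exact Or.inl trace_ST))
  order_J := by
    have := B.taylor_order_J hB rho 0 jFun_rho 3
      (by exact_mod_cast analyticOrderAt_jFun_sub_of_E₄ E₄_rho)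
    exact this

/-- **`AnalyticCore` from a holomorphic `HolBase` with `T`-shift.** -/
def toAnalyticCore (ζ : ℂ) (hζ : IsPrimitiveRoot ζ N)
    (hshift : ∀ (h : B.Hol) (n : ℤ),
      (B.qexp (B.compH ModularGroup.T h)).coeff n = ζ ^ n * (B.qexp h).coeff n) :
    AnalyticCore N where
  toHolBase := B
  generic := B.genericPoint hB
  at1728 := B.point1728 hB
  at0 := B.point0 hB
  infζ := ζ
  inf_hζ := hζ
  inf_shift := hshift

end HolBase

end Fermat.Agent.S24.H997

end
end
-- ===== PACK-END S24/Mod/H997Taylor.lean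

-- ===== PACK-BEGIN S28/H589/UnitAnalytic.lean
section





/-!
# S28 / [A-W], analytic part (helper589): the unit `p¹² Δ(pτ)/Δ(τ)` is a good function

We show that `u(τ) = p¹² Δ(pτ)/Δ(τ)` belongs to helper648's `goodRing p`
(holomorphic, `Γ₀(p)`-invariant, all `SL₂(ℤ)`-translates of at most exponential growth).
-/

set_option autoImplicit false

noncomputable section

open UpperHalfPlane ModularCurve CongruenceSubgroup Function Filter Asymptotics
open scoped MatrixGroups Manifold Real Modular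

namespace Fermat.Agent.S28.H589

open Fermat.Agent.S24.H648 (goodRing ExpGrowth)

local notation "Δ" => ModularForm.discriminant

/-- The unit `u(τ) = p¹² Δ(pτ)/Δ(τ)`. -/
def unitFun (p : ℕ) (hp : 0 < p) (τ : ℍ) : ℂ :=
  (p : ℂ) ^ 12 * Δ (scaleH p hp τ) * (Δ τ)⁻¹

/-- Its conjugate under `S` evaluated at `pτ`: `Δ(τ)/Δ(pτ)`. -/
def unitFun' (p : ℕ) (hp : 0 < p) (τ : ℍ) : ℂ :=
  Δ τ * (Δ (scaleH p hp τ))⁻¹

theorem continuous_discriminant : Continuous (Δ : ℍ → ℂ) :=
  (Fermat.Agent.S28.H565.mdifferentiable_discriminant).continuous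

/-- `‖Δ τ‖ · (im τ)⁶` is bounded. -/
theorem exists_discriminant_bound : ∃ C : ℝ, ∀ τ : ℍ, ‖Δ τ‖ * τ.im ^ 6 ≤ C := by
  obtain ⟨C, hC⟩ := CuspFormClass.exists_bound (k := 12) (Γ := 𝒮ℒ) CuspForm.discriminant
  refine ⟨C, fun τ => ?_⟩
  have h := hC τ
  have him : 0 < τ.im := τ.im_pos
  have hpow : τ.im ^ (((12 : ℤ) : ℝ) / 2) = τ.im ^ 6 := by
    have : (((12 : ℤ) : ℝ) / 2) = ((6 : ℕ) : ℝ) := by norm_num
    rw [this, Real.rpow_natCast]
  rw [hpow] at h
  have h6 : 0 < τ.im ^ 6 := by positivity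
  have h' : ‖Δ τ‖ ≤ C / τ.im ^ 6 := h
  rwa [le_div_iff₀ h6] at h'

/-- `‖Δ τ‖ · (im τ)⁶` is `SL₂(ℤ)`-invariant. -/
theorem discriminant_norm_mul_im_smul (g : SL(2, ℤ)) (τ : ℍ) :
    ‖Δ (g • τ)‖ * (g • τ).im ^ 6 = ‖Δ τ‖ * τ.im ^ 6 := by
  rw [Fermat.Agent.S24.H648.discriminant_smul, ModularGroup.im_smul_eq_div_normSq, norm_mul,
    norm_zpow]
  have hd : denom g τ ≠ 0 := denom_ne_zero _ _
  have hn : 0 < Complex.normSq (denom g τ) := Complex.normSq_pos.mpr hd
  have h1 : ‖denom g τ‖ ^ (12 : ℤ) = Complex.normSq (denom g τ) ^ 6 := by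
    rw [Complex.normSq_eq_norm_sq, ← pow_mul]
    norm_cast
  rw [h1, div_pow]
  field_simp

/-- `1/Δ` has at most exponential growth on `im τ ≥ 1`. -/
theorem exists_inv_discriminant_bound :
    ∃ C : ℝ, ∀ τ : ℍ, 1 ≤ τ.im → ‖(Δ τ)⁻¹‖ ≤ C * Real.exp (2 * π * τ.im) := by
  have hcont : Continuous (fun τ : ℍ => (Δ τ)⁻¹) :=
    continuous_discriminant.inv₀ fun τ => ModularForm.discriminant_ne_zero τ
  have hinv : (fun τ : ℍ => (Δ τ)⁻¹)
      =O[atImInfty] fun τ : ℍ => Real.exp (2 * π * (1 : ℝ) * τ.im) := by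
    have hΔ := ModularForm.exp_isBigO_discriminant
    have h1 : (fun τ : ℍ => (Δ τ)⁻¹)
        =O[atImInfty] fun τ : ℍ => (Real.exp (-2 * π * τ.im))⁻¹ := by
      refine hΔ.inv_rev ?_
      exact Eventually.of_forall fun τ h => absurd h (Real.exp_pos _).ne'
    refine h1.congr_right fun τ => ?_
    rw [← Real.exp_neg]
    congr 1
    ring
  obtain ⟨C, hC⟩ := Fermat.Agent.S24.H648.exists_bound_fd_of_isBigO_exp hcont 1 hinv
  refine ⟨C, fun τ hτ => ?_⟩
  -- translate into the fundamental domain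
  set n : ℤ := -round τ.re with hn
  set τ' : ℍ := ModularGroup.T ^ n • τ with hτ'
  have hcoe : (τ' : ℂ) = τ + n := ModularGroup.coe_T_zpow_smul_eq τ
  have him : τ'.im = τ.im := by
    have := congrArg Complex.im hcoe
    simpa using this
  have hre : τ'.re = τ.re - round τ.re := by
    have := congrArg Complex.re hcoe
    simp only [Complex.add_re, Complex.intCast_re, hn] at this
    rw [UpperHalfPlane.coe_re, UpperHalfPlane.coe_re] at this
    rw [this]
    push_cast
    ring
  have hfd : τ' ∈ 𝒟 := by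
    refine ⟨?_, ?_⟩
    · rw [Complex.normSq_apply]
      have h1 : (τ' : ℂ).im = τ.im := by rw [UpperHalfPlane.coe_im, him]
      rw [h1]
      nlinarith [mul_self_nonneg (τ' : ℂ).re]
    · rw [hre]
      exact abs_sub_round _
  have hΔ : Δ τ' = Δ τ := by
    rw [hτ', Fermat.Agent.S28.H565.discriminant_smul, ModularGroup.coe_T_zpow]
    simp
  have h := hC τ' hfd
  rw [hΔ, him] at h
  simpa using h

/-- Pure real-number bookkeeping for `expGrowth_unitFun_smul`. -/
theorem unit_real_aux (P X Y D a b C₁ C₂ E : ℝ) (hP : 0 < P) (ha : 0 < a)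
    (hb : 1 ≤ b) (hD : 0 < D) (hY : 0 < Y) (hC₁ : 0 ≤ C₁)
    (hX : X * (P * a) ^ 6 ≤ C₁) (hinv : Y * a ^ 6 = D * b ^ 6) (h2 : D⁻¹ ≤ C₂ * E) :
    P ^ 12 * X * Y⁻¹ ≤ P ^ 6 * C₁ * C₂ * E := by
  have hb0 : 0 < b := lt_of_lt_of_le one_pos hb
  have ha6 : 0 < a ^ 6 := pow_pos ha 6
  have hb6 : 1 ≤ b ^ 6 := one_le_pow₀ hb
  have hP6 : 0 < P ^ 6 := pow_pos hP 6
  have hYinv : Y⁻¹ = a ^ 6 * D⁻¹ * (b ^ 6)⁻¹ := by
    have hY' : Y = D * b ^ 6 / a ^ 6 := by
      rw [eq_div_iff ha6.ne']; exact hinv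
    rw [hY', inv_div, div_eq_mul_inv, mul_inv, mul_assoc]
  have hbinv : (b ^ 6)⁻¹ ≤ 1 := inv_le_one_of_one_le₀ hb6
  have hDinv : 0 < D⁻¹ := inv_pos.mpr hD
  have h3 : P ^ 12 * X * Y⁻¹ = P ^ 6 * (X * (P * a) ^ 6) * D⁻¹ * (b ^ 6)⁻¹ := by
    rw [hYinv]; ring
  rw [h3]
  have h4 : P ^ 6 * (X * (P * a) ^ 6) ≤ P ^ 6 * C₁ := mul_le_mul_of_nonneg_left hX hP6.le
  have h5 : P ^ 6 * (X * (P * a) ^ 6) * D⁻¹ ≤ P ^ 6 * C₁ * D⁻¹ :=
    mul_le_mul_of_nonneg_right h4 hDinv.le
  have h6 : 0 ≤ P ^ 6 * C₁ * D⁻¹ := by positivity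
  have h7 : P ^ 6 * (X * (P * a) ^ 6) * D⁻¹ * (b ^ 6)⁻¹ ≤ P ^ 6 * C₁ * D⁻¹ := by
    have h8 : P ^ 6 * (X * (P * a) ^ 6) * D⁻¹ * (b ^ 6)⁻¹
        ≤ P ^ 6 * C₁ * D⁻¹ * (b ^ 6)⁻¹ :=
      mul_le_mul_of_nonneg_right h5 (inv_nonneg.mpr (by positivity))
    exact h8.trans (mul_le_of_le_one_right h6 hbinv)
  refine h7.trans ?_
  have h9 : P ^ 6 * C₁ * D⁻¹ ≤ P ^ 6 * C₁ * (C₂ * E) :=
    mul_le_mul_of_nonneg_left h2 (by positivity)
  refine h9.trans (le_of_eq ?_)
  ring

theorem im_scaleH (p : ℕ) (hp : 0 < p) (τ : ℍ) : (scaleH p hp τ).im = p * τ.im := by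
  have h : ((scaleH p hp τ : ℍ) : ℂ).im = ((p : ℂ) * (τ : ℂ)).im := rfl
  rw [UpperHalfPlane.coe_im] at h
  rw [h]
  simp

/-- Growth of all translates of the unit. -/
theorem expGrowth_unitFun_smul (p : ℕ) (hp : 0 < p) (g : SL(2, ℤ)) :
    ExpGrowth (fun τ => unitFun p hp (g • τ)) := by
  obtain ⟨C₁, hC₁⟩ := exists_discriminant_bound
  obtain ⟨C₂, hC₂⟩ := exists_inv_discriminant_bound
  have hC₁0 : 0 ≤ C₁ := le_trans (by positivity) (hC₁ UpperHalfPlane.I)
  refine ⟨(p : ℝ) ^ 6 * C₁ * C₂, 1, fun τ hτ => ?_⟩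
  have hX := hC₁ (scaleH p hp (g • τ))
  rw [im_scaleH] at hX
  have h2 := hC₂ τ hτ
  rw [norm_inv] at h2
  have key := unit_real_aux (p : ℝ) ‖Δ (scaleH p hp (g • τ))‖ ‖Δ (g • τ)‖ ‖Δ τ‖ (g • τ).im τ.im
    C₁ C₂ (Real.exp (2 * π * τ.im)) (by exact_mod_cast hp) (g • τ).im_pos hτ
    (norm_pos_iff.mpr (ModularForm.discriminant_ne_zero τ))
    (norm_pos_iff.mpr (ModularForm.discriminant_ne_zero _)) hC₁0 hX
    (discriminant_norm_mul_im_smul g τ) h2
  show ‖unitFun p hp (g • τ)‖ ≤ _
  rw [unitFun, norm_mul, norm_mul, norm_pow, norm_inv, Complex.norm_natCast]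
  refine key.trans (le_of_eq ?_)
  push_cast
  ring_nf

end Fermat.Agent.S28.H589

end

end
-- ===== PACK-END S28/H589/UnitAnalytic.lean

-- ===== PACK-BEGIN S24/Alg/Principal.lean
section





/-!
# S24 / ALG — principal divisors have degree zero (FF3), from the fundamental equality (FF1)

helper984.  `deg div f = ∑_{zeros} ord_v f - ∑_{poles} ord_v f⁻¹ = [F:K(f)] - [F:K(f⁻¹)] = 0`.
-/

set_option autoImplicit false

noncomputable section

open AlgebraicCurve

namespace Fermat.Agent.S24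

variable {K F : Type*} [Field K] [Field F] [Algebra K F]

theorem degree_eq_sum_of_deg_one' (hdeg : ∀ v : Place K F, v.deg = 1) (E : Divisor K F)
    (T : Finset (Place K F)) (hT : E.support ⊆ T) :
    Divisor.degree E = ∑ v ∈ T, E v := by
  have h1 : Divisor.degree E = E.sum fun v n => n * (v.deg : ℤ) := by
    simp [Divisor.degree, Finsupp.liftAddHom_apply]
  rw [h1, Finsupp.sum_of_support_subset E hT _ (fun v _ => by simp)]
  refine Finset.sum_congr rfl fun v _ => ?_
  rw [hdeg v]; simp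

variable [IsAlgClosed K] [CharZero K]

/-- FF1 in inequality form, for an arbitrary enumeration `s` of the zeros of `t`. -/
theorem fundamental_le (t : F) (ht : Transcendental K t)
    [FiniteDimensional ↥(IntermediateField.adjoin K {t}) F]
    (s : Finset (Place K F)) (hs : ∀ v : Place K F, v ∈ s ↔ 0 < v.ord t) :
    (Module.finrank ↥(IntermediateField.adjoin K {t}) F : ℤ) ≤ ∑ v ∈ s, v.ord t := by
  obtain ⟨s', hs', hsum⟩ := open_fundamental_eq t ht
  have : s = s' := by
    ext v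
    rw [hs, hs']
  rw [this, hsum]

/-- FF3: a principal divisor has degree zero. -/
theorem degree_principal (j : F) (hj : Transcendental K j)
    [FiniteDimensional ↥(IntermediateField.adjoin K {j}) F] (f : F) (hf : f ≠ 0)
    (D : Divisor K F) (hD : ∀ v : Place K F, D v = v.ord f) : Divisor.degree D = 0 := by
  classical
  by_cases hfK : f ∈ (algebraMap K F).range
  · -- constants have no zeros or poles
    obtain ⟨c, rfl⟩ := hfK
    have : D = 0 := by
      ext v
      rw [hD, ord_algebraMap]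
      rfl
    rw [this, map_zero]
  · have hft : Transcendental K f := FF.transcendental_of_not_mem_range hfK
    have hfit : Transcendental K f⁻¹ := by
      intro h
      exact hft (by simpa using h.inv)
    haveI : FiniteDimensional ↥(IntermediateField.adjoin K {f}) F :=
      FF.finiteDimensional_adjoin_of_transcendental hj hft
    obtain ⟨hfd, hfr⟩ := finiteDimensional_and_finrank_of_eq (adjoin_inv K f)
    obtain ⟨Z, hZ, hZsum⟩ := open_fundamental_eq f hft
    obtain ⟨P, hP, hPsum⟩ := open_fundamental_eq f⁻¹ hfit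
    have hdeg : ∀ v : Place K F, v.deg = 1 := fun v => FF.deg_eq_one v hj
    have hsupp : D.support ⊆ Z ∪ P := by
      intro v hv
      rw [Finsupp.mem_support_iff, hD] at hv
      rw [Finset.mem_union, hZ, hP, v.ord_inv]
      omega
    have hdisj : Disjoint Z P := by
      rw [Finset.disjoint_left]
      intro v hvZ hvP
      rw [hZ] at hvZ
      rw [hP, v.ord_inv] at hvP
      omega
    rw [degree_eq_sum_of_deg_one' hdeg D _ hsupp, Finset.sum_union hdisj]
    have h1 : ∑ v ∈ Z, D v = ∑ v ∈ Z, v.ord f := Finset.sum_congr rfl fun v _ => hD v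
    have h2 : ∑ v ∈ P, D v = -∑ v ∈ P, v.ord f⁻¹ := by
      rw [← Finset.sum_neg_distrib]
      refine Finset.sum_congr rfl fun v _ => ?_
      rw [hD, v.ord_inv, neg_neg]
    rw [h1, h2, hZsum, hPsum, hfr]
    ring

end Fermat.Agent.S24

end
end
-- ===== PACK-END S24/Alg/Principal.lean

-- ===== PACK-BEGIN S18/H456/ModRes.lean
section


/-!
# S18 / MOD assembly (helper456): `residue_perfect` for `R = Rc M A E`
-/

set_option autoImplicit false

noncomputable section

namespace Fermat.Agent.S18.H456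

open ModularCurve AlgebraicCurve HahnSeries Fermat.Agent.S18 Fermat.Agent.S18.Mod
open IsDedekindDomain
open scoped NumberField

variable (A : ValuationSubring Qb) (E : IntermediateField ℚ Qb)

section NF

variable [NumberField E]

/-- `𝓞 E → κ_E`. -/
def toRes : 𝓞 E →+* IsLocalRing.ResidueField (H602.RE A E) :=
  (IsLocalRing.residue (H602.RE A E)).comp (H602.ofInt A E)

omit [NumberField E] in
theorem toRes_eq_zero_iff (a : 𝓞 E) : toRes A E a = 0 ↔ a ∈ H602.primeBelow A E := by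
  unfold toRes
  rw [RingHom.comp_apply, IsLocalRing.residue_eq_zero_iff]
  rfl

theorem toRes_surjective {ℓ : ℕ} (hℓ : ℓ ≠ 0) (hA : (ℓ : Qb) ∈ A.nonunits) :
    Function.Surjective (toRes A E) := by
  intro x
  obtain ⟨r, rfl⟩ := IsLocalRing.residue_surjective x
  have hr : (r : E) ∈ (H602.primeSpec A E hℓ hA).valuationSubringAtPrime E := by
    rw [H602.RE_eq_valuationSubringAtPrime A E hℓ hA]
    exact r.2
  obtain ⟨a, s, hs, hrs⟩ := hr
  -- `s` is invertible modulo the maximal ideal `P`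
  have hPmax : (H602.primeBelow A E).IsMaximal :=
    Ideal.IsPrime.isMaximal inferInstance (H602.primeBelow_ne_bot A E hℓ hA)
  have hs' : s ∉ H602.primeBelow A E := hs
  obtain ⟨t, ht⟩ := Ideal.IsMaximal.exists_inv hPmax hs'
  obtain ⟨u, hu, hstu⟩ := ht
  -- `s * t + u = 1`, hence `φ s * φ t = 1`
  have h1 : toRes A E s * toRes A E t = 1 := by
    have := congrArg (toRes A E) hstu
    rw [map_add, map_mul, (toRes_eq_zero_iff A E u).2 hu, add_zero, map_one] at this
    rwa [mul_comm] at this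
  refine ⟨a * t, ?_⟩
  -- `r * s = a` in `R_E`
  have h2 : r * H602.ofInt A E s = H602.ofInt A E a := by
    apply Subtype.ext
    show (r : E) * algebraMap (𝓞 E) E s = algebraMap (𝓞 E) E a
    rw [hrs]
    have hs0 : algebraMap (𝓞 E) E s ≠ 0 := by
      intro h0
      have : s = 0 := by
        apply FaithfulSMul.algebraMap_injective (𝓞 E) E
        rw [h0, map_zero]
      exact hs' (this ▸ Ideal.zero_mem _)
    rw [mul_assoc, inv_mul_cancel₀ hs0, mul_one]
  have h3 : IsLocalRing.residue (H602.RE A E) r * toRes A E s = toRes A E a := by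
    have := congrArg (IsLocalRing.residue (H602.RE A E)) h2
    rwa [map_mul] at this
  rw [map_mul, ← h3, mul_assoc, h1, mul_one]

theorem finite_residueField {ℓ : ℕ} (hℓ : ℓ ≠ 0) (hA : (ℓ : Qb) ∈ A.nonunits) :
    Finite (IsLocalRing.ResidueField (H602.RE A E)) := by
  have hP : H602.primeBelow A E ≠ ⊥ := H602.primeBelow_ne_bot A E hℓ hA
  have : Finite (𝓞 E ⧸ H602.primeBelow A E) := Ideal.finiteQuotientOfFreeOfNeBot _ hP
  let ψ : 𝓞 E ⧸ H602.primeBelow A E →+* IsLocalRing.ResidueField (H602.RE A E) :=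
    Ideal.Quotient.lift _ (toRes A E) (fun a ha => (toRes_eq_zero_iff A E a).2 ha)
  have hψ : Function.Surjective ψ := by
    intro x
    obtain ⟨a, rfl⟩ := toRes_surjective A E hℓ hA x
    exact ⟨Ideal.Quotient.mk _ a, rfl⟩
  exact Finite.of_surjective ψ hψ

end NF

/-- Frobenius is surjective on the residue field of `R_E` (`E/ℚ` finite). -/
theorem exists_pow_sub_mem_maximalIdeal [FiniteDimensional ℚ E] {ℓ : ℕ} (hℓ : ℓ.Prime)
    (hA : A.LiesOverPrime ℓ) (r : H602.RE A E) :
    ∃ s : H602.RE A E, r - s ^ ℓ ∈ IsLocalRing.maximalIdeal (H602.RE A E) := by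
  have := H602.numberField_of_finiteDimensional E
  have : Finite (IsLocalRing.ResidueField (H602.RE A E)) :=
    finite_residueField A E hℓ.ne_zero hA
  have hℓ0 : ((ℓ : ℕ) : IsLocalRing.ResidueField (H602.RE A E)) = 0 := by
    rw [← map_natCast (IsLocalRing.residue (H602.RE A E)), IsLocalRing.residue_eq_zero_iff,
      IsLocalRing.mem_maximalIdeal, mem_nonunits_iff]
    exact H602.natCast_not_isUnit_RE A E hA
  have : Fact ℓ.Prime := ⟨hℓ⟩
  have : CharP (IsLocalRing.ResidueField (H602.RE A E)) ℓ :=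
    (CharP.charP_iff_prime_eq_zero hℓ).2 hℓ0
  have : PerfectRing (IsLocalRing.ResidueField (H602.RE A E)) ℓ :=
    PerfectRing.ofFiniteOfIsReduced ℓ _
  obtain ⟨y, hy⟩ := surjective_frobenius (IsLocalRing.ResidueField (H602.RE A E)) ℓ
    (IsLocalRing.residue _ r)
  obtain ⟨s, rfl⟩ := IsLocalRing.residue_surjective y
  refine ⟨s, ?_⟩
  rw [← IsLocalRing.residue_eq_zero_iff, map_sub, map_pow, sub_eq_zero]
  exact hy.symm

variable (M : ℕ)

/-- **`residue_perfect`** for `R = Rc M A E`. -/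
theorem field_residue_perfect [FiniteDimensional ℚ E] {ℓ : ℕ} (hℓ : ℓ.Prime)
    (hA : A.LiesOverPrime ℓ) {w : Om M} (hw : IsUnif M A E w) :
    ∃ p : ℕ, p.Prime ∧ (p : Om M) * w⁻¹ ∈ Rc M A E ∧
      ∀ r ∈ Rc M A E, ∃ s ∈ Rc M A E, (r - s ^ p) * w⁻¹ ∈ Rc M A E := by
  have : IsDiscreteValuationRing (H602.RE A E) :=
    H602.isDiscreteValuationRing_RE A E hℓ.ne_zero hA
  refine ⟨ℓ, hℓ, ?_, ?_⟩
  · rw [← cstR_natCast M A E, hw.mul_inv_mem_iff, IsLocalRing.mem_maximalIdeal, mem_nonunits_iff]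
    exact H602.natCast_not_isUnit_RE A E hA
  · intro r hr
    obtain ⟨r₀, rfl⟩ := (mem_Rc_iff_cstR M A E).1 hr
    obtain ⟨s, hs⟩ := exists_pow_sub_mem_maximalIdeal A E hℓ hA r₀
    refine ⟨cstR M A E s, cstR_mem_Rc M A E s, ?_⟩
    rw [← cstR_pow, ← cstR_sub, hw.mul_inv_mem_iff]
    exact hs

end Fermat.Agent.S18.H456

end
end
-- ===== PACK-END S18/H456/ModRes.lean

-- ===== PACK-BEGIN S36/Eng/Spec.lean
section



/-!
# S36 ENGINE — frozen interfaces (architect helper996)

Target (helper36, `S36/H36/KummerAt.lean`, on main): `KummerQNewInertiaAt` at NEAT levels.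
After DESC (helper756) the Galois action is gone and everything happens over the inertia field
`E = ℚ̄^{I_P}` (`R = P ∩ E` henselian DVR, UNRAMIFIED: uniformiser `w = q`, residue field `𝔽̄_q`).

Level `N = M q`, `q ∤ M`; `F' = F_E(N)`, `F = F_E(N q)`; `α, β : F' → F` the two degeneracy maps.
The special fibre of the normal model of `F` has THREE components `FF`, `mid`, `VV`
(valuation rings `V₁, V₂, V₃` of `F`), with multiplicities `1, q - 1, 1`;
level `N` has two, `V₁'` (`∞`) and `V₂'` (`0`).  Table (`e`, `f`):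

    via α :  V₁ | V₁' (1,1)    V₂ | V₁' (q-1,1)    V₃ | V₂' (1, q insep)
    via β :  V₃ | V₂' (1,1)    V₂ | V₂' (q-1,1)    V₁ | V₁' (1, q insep)

* `TripleCtx`        : EVERYTHING the abstract argument uses (a `Prop`; elementwise, no quotient
                        or localisation types).  This is the ALG3 / MOD3 boundary.
* `Alg3Statement`    : ABSTRACT (Mathlib + `normAlong`): `TripleCtx` ⟹ there is `C > 0` such that
                        for all `m` prime to `q` and all `f ≠ 0` with `m ∣ div f` whose norms along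
                        `α` and `β` are constants times `m`-th powers, `f ^ C` is a constant times
                        an `m`-th power.  (`C = (q² - 1)²` works.)
* `Model3Statement`  : the modular function fields carry a `TripleCtx` at neat levels.
* `LevelInertiaAt`   : the engine at the level `E`;  `Skel.lean` proves
                        `Alg3Statement → Model3Statement → LevelInertiaAt` (sorry-free).

Definitions only (no `sorry`).  Board: `coord/S36-ENGINE.md` on `origin/helper996`.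

v1.2 (21:30Z): `UnitAt`, `UnifAt` exclude the junk value `0` (referee helper229);
`regular_f`, `regular_i` only at the closed points of the middle component; `fin_α`, `fin_β`.
v1.3 (21:50Z, FINAL): `base_i`, `gauss_i` (the `V_i` are sheets; asked by helper586);
`NeatFor` contains `4 ∣ M` (`q` odd) resp. `9 ∣ M` (`q = 2`) (asked by REG: helper878, helper925,
helper843, helper336).
-/

set_option autoImplicit false
set_option linter.style.haveILetI false
set_option linter.unusedSectionVars false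
set_option synthInstance.maxHeartbeats 400000
set_option maxHeartbeats 1600000

noncomputable section

namespace Fermat.Agent.S36.Eng

open ModularCurve AlgebraicCurve
open Fermat.Agent.S18.H138 (chart)

/-! ## Elementwise vocabulary (Mathlib only) -/

section Vocab

variable {R F : Type*} [CommRing R] [Field F] [Algebra R F]

/-- `y` is a unit of the valuation ring `V` (in particular `y ≠ 0`). -/
def UnitAt (V : ValuationSubring F) (y : F) : Prop := y ≠ 0 ∧ y ∈ V ∧ y⁻¹ ∈ V

/-- The component of the special fibre cut out by `V` passes through the closed point `𝔪` of the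
chart `B`:  `B ∩ 𝔪_V ⊆ 𝔪`. -/
def Through (B : Subalgebra R F) (𝔪 : Ideal B) (V : ValuationSubring F) : Prop :=
  ∀ b : B, (b : F) ∈ V.nonunits → b ∈ 𝔪

/-- The prime `B ∩ 𝔪_V` is principal locally at `𝔪`: some `t ∈ B ∩ 𝔪_V` divides every element of
`B ∩ 𝔪_V` in `B_𝔪`.  (With `NormalAlong` this says that `B_𝔪` is REGULAR.) -/
def PrincipalAt (B : Subalgebra R F) (𝔪 : Ideal B) (V : ValuationSubring F) : Prop :=
  ∃ t : B, (t : F) ∈ V.nonunits ∧
    ∀ a : B, (a : F) ∈ V.nonunits → ∃ g c : B, g ∉ 𝔪 ∧ g * a = t * c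

/-- The component of the chart `B` cut out by `V` is normal, with function field the residue field
of `V`:  an element of `F` which is integral over `B` modulo `𝔪_V` is congruent modulo `𝔪_V` to an
element of `B`. -/
def NormalAlong (B : Subalgebra R F) (V : ValuationSubring F) : Prop :=
  ∀ (f : F) (p : Polynomial B), p.Monic → Polynomial.aeval f p ∈ V.nonunits →
    ∃ b : B, f - (b : F) ∈ V.nonunits

/-- `B ∩ w (V₁ ∩ V₂ ∩ V₃) = w B`: the three valuation rings are ALL the components of the special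
fibre of the chart `B`, with their multiplicities (`q`-expansion principle). -/
def Qep3 (w : R) (B : Subalgebra R F) (V₁ V₂ V₃ : ValuationSubring F) : Prop :=
  ∀ b : B, (b : F) * (algebraMap R F w)⁻¹ ∈ V₁ → (b : F) * (algebraMap R F w)⁻¹ ∈ V₂ →
    (b : F) * (algebraMap R F w)⁻¹ ∈ V₃ → ∃ c : B, b = algebraMap R B w * c

/-- `t` is a uniformiser of `V` (in particular `t ≠ 0`). -/
def UnifAt (V : ValuationSubring F) (t : F) : Prop :=
  t ≠ 0 ∧ t ∈ V.nonunits ∧ ∀ f ∈ V.nonunits, f * t⁻¹ ∈ V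

/-- `𝔪` is a TRIPLE point of the chart `B`: all three components pass through it. -/
def IsTriple (B : Subalgebra R F) (𝔪 : Ideal B) (V₁ V₂ V₃ : ValuationSubring F) : Prop :=
  Through B 𝔪 V₁ ∧ Through B 𝔪 V₂ ∧ Through B 𝔪 V₃

end Vocab

/-! ## The context of ALG3 -/

section Ctx

variable {R E F F' : Type*} [CommRing R] [Field E] [Algebra R E]
  [Field F] [Algebra E F] [Algebra R F] [Field F'] [Algebra E F'] [Algebra R F']

/-- **The three-component context** (level `q² M'` over level `q M'`), elementwise.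

Data: uniformiser `w` of `R`, residue characteristic `q`, the degeneracy maps `α, β : F' → F`,
coordinates `x` of `F` and `x'` of `F'`, valuation rings `V₁ = FF`, `V₂ = mid`, `V₃ = VV` of `F`
and `V₁'`, `V₂'` of `F'`.  Charts: `Bf = chart R {x}`, `Bi = chart R {x⁻¹}`, `Bf' = chart R {x'}`
(integral closures of `R[x]`, `R[x⁻¹]`, `R[x']`). -/
structure TripleCtx (w : R) (q : ℕ) (α β : F' →ₐ[E] F) (x : F) (x' : F')
    (V₁ V₂ V₃ : ValuationSubring F) (V₁' V₂' : ValuationSubring F') : Prop where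
  -- ### the function field
  hx : Transcendental E x
  hfin : FiniteDimensional (IntermediateField.adjoin E ({x} : Set F)) F
  hconst : ∀ f : F, IsAlgebraic E f → f ∈ (algebraMap E F).range
  -- ### the three valuation rings: DVRs, distinct, multiplicities `1, q - 1, 1`
  dvr₁ : IsDiscreteValuationRing V₁
  dvr₂ : IsDiscreteValuationRing V₂
  dvr₃ : IsDiscreteValuationRing V₃
  ne₁₂ : V₁ ≠ V₂
  ne₁₃ : V₁ ≠ V₃
  ne₂₃ : V₂ ≠ V₃
  unif₁ : UnifAt V₁ (algebraMap R F w)
  unif₃ : UnifAt V₃ (algebraMap R F w)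
  /-- `w = unit · t ^ (q - 1)` at `V₂`, `t` a uniformiser -/
  ram₂ : ∃ t : F, UnifAt V₂ t ∧ UnitAt V₂ (algebraMap R F w * (t ^ (q - 1))⁻¹)
  -- ### the charts of level `q² M'`
  base₁ : ∀ r : R, algebraMap R F r ∈ V₁
  base₂ : ∀ r : R, algebraMap R F r ∈ V₂
  base₃ : ∀ r : R, algebraMap R F r ∈ V₃
  /-- `x` is a unit of the three valuation rings (so both charts lie in `V₁ ∩ V₂ ∩ V₃`) -/
  x_unit₁ : UnitAt V₁ x
  x_unit₂ : UnitAt V₂ x
  x_unit₃ : UnitAt V₃ x
  /-- the three valuation rings are SHEETS of `x` (they induce the Gauss valuation on `R[x]`: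
  the residue of `x` is transcendental); with `base_i`, `x_unit_i`, `unif_i`/`ram₂` this is
  `A2.H12.IsSheet w x V_i`, so `V_i` is the localisation of the chart at `B ∩ 𝔪_{V_i}`
  (`S36.H193.sheet_mem_iff`) -/
  gauss₁ : ∀ P : Polynomial R, (∃ i, ¬ w ∣ P.coeff i) → (Polynomial.aeval x P)⁻¹ ∈ V₁
  gauss₂ : ∀ P : Polynomial R, (∃ i, ¬ w ∣ P.coeff i) → (Polynomial.aeval x P)⁻¹ ∈ V₂
  gauss₃ : ∀ P : Polynomial R, (∃ i, ¬ w ∣ P.coeff i) → (Polynomial.aeval x P)⁻¹ ∈ V₃
  qep_f : Qep3 w (chart R ({x} : Set F)) V₁ V₂ V₃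
  qep_i : Qep3 w (chart R ({x⁻¹} : Set F)) V₁ V₂ V₃
  normal_f₁ : NormalAlong (chart R ({x} : Set F)) V₁
  normal_f₂ : NormalAlong (chart R ({x} : Set F)) V₂
  normal_f₃ : NormalAlong (chart R ({x} : Set F)) V₃
  normal_i₁ : NormalAlong (chart R ({x⁻¹} : Set F)) V₁
  normal_i₂ : NormalAlong (chart R ({x⁻¹} : Set F)) V₂
  normal_i₃ : NormalAlong (chart R ({x⁻¹} : Set F)) V₃
  /-- INCIDENCE (finite chart): a closed point on two components is a triple point -/
  incidence : ∀ 𝔪 : Ideal (chart R ({x} : Set F)), 𝔪.IsMaximal →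
    (Through _ 𝔪 V₁ ∧ Through _ 𝔪 V₂) ∨ (Through _ 𝔪 V₁ ∧ Through _ 𝔪 V₃) ∨
      (Through _ 𝔪 V₂ ∧ Through _ 𝔪 V₃) → IsTriple _ 𝔪 V₁ V₂ V₃
  /-- REGULARITY (finite chart): at every closed point of the MIDDLE component some component
  through the point is locally principal.  (At the other closed points of the special fibre
  regularity is automatic: one component of multiplicity one, `Qep3`.) -/
  regular_f : ∀ 𝔪 : Ideal (chart R ({x} : Set F)), 𝔪.IsMaximal → Through _ 𝔪 V₂ →
    (Through _ 𝔪 V₁ ∧ PrincipalAt _ 𝔪 V₁) ∨ PrincipalAt _ 𝔪 V₂ ∨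
      (Through _ 𝔪 V₃ ∧ PrincipalAt _ 𝔪 V₃)
  /-- the points at infinity (`x⁻¹ = 0`, the cusps) lie on ONE component -/
  cusp_single : ∀ 𝔪 : Ideal (chart R ({x⁻¹} : Set F)), 𝔪.IsMaximal →
    algebraMap R (chart R ({x⁻¹} : Set F)) w ∈ 𝔪 →
    (⟨x⁻¹, Fermat.Agent.S18.H138.mem_chart_of_mem rfl⟩ : chart R ({x⁻¹} : Set F)) ∈ 𝔪 →
    ¬ (Through _ 𝔪 V₁ ∧ Through _ 𝔪 V₂) ∧ ¬ (Through _ 𝔪 V₁ ∧ Through _ 𝔪 V₃) ∧
      ¬ (Through _ 𝔪 V₂ ∧ Through _ 𝔪 V₃)
  /-- REGULARITY at the points at infinity of the MIDDLE component -/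
  regular_i : ∀ 𝔪 : Ideal (chart R ({x⁻¹} : Set F)), 𝔪.IsMaximal →
    (⟨x⁻¹, Fermat.Agent.S18.H138.mem_chart_of_mem rfl⟩ : chart R ({x⁻¹} : Set F)) ∈ 𝔪 →
    Through _ 𝔪 V₂ → PrincipalAt _ 𝔪 V₂
  -- ### the two degeneracy maps: the `(e, f)` table
  fin_α : FiniteAlong E α
  fin_β : FiniteAlong E β
  comap_α₁ : V₁.comap (α : F' →+* F) = V₁'
  comap_α₂ : V₂.comap (α : F' →+* F) = V₁'
  comap_α₃ : V₃.comap (α : F' →+* F) = V₂'
  comap_β₁ : V₁.comap (β : F' →+* F) = V₁'
  comap_β₂ : V₂.comap (β : F' →+* F) = V₂'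
  comap_β₃ : V₃.comap (β : F' →+* F) = V₂'
  /-- NV (valuations of norms), `α`:  `v₁'(N y) = v₁ y + v₂ y`, `v₂'(N y) = q · v₃ y` -/
  nv_α : ∀ (t : F), UnifAt V₂ t → ∀ (y : F) (a₁ a₂ a₃ : ℤ), y ≠ 0 →
    UnitAt V₁ (y * (algebraMap R F w ^ a₁)⁻¹) → UnitAt V₂ (y * (t ^ a₂)⁻¹) →
    UnitAt V₃ (y * (algebraMap R F w ^ a₃)⁻¹) →
    UnitAt V₁' (S29.H395.normAlong α y * (algebraMap R F' w ^ (a₁ + a₂))⁻¹) ∧
      UnitAt V₂' (S29.H395.normAlong α y * (algebraMap R F' w ^ ((q : ℤ) * a₃))⁻¹)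
  /-- NV, `β`:  `v₂'(N y) = v₃ y + v₂ y`, `v₁'(N y) = q · v₁ y` -/
  nv_β : ∀ (t : F), UnifAt V₂ t → ∀ (y : F) (a₁ a₂ a₃ : ℤ), y ≠ 0 →
    UnitAt V₁ (y * (algebraMap R F w ^ a₁)⁻¹) → UnitAt V₂ (y * (t ^ a₂)⁻¹) →
    UnitAt V₃ (y * (algebraMap R F w ^ a₃)⁻¹) →
    UnitAt V₂' (S29.H395.normAlong β y * (algebraMap R F' w ^ (a₃ + a₂))⁻¹) ∧
      UnitAt V₁' (S29.H395.normAlong β y * (algebraMap R F' w ^ ((q : ℤ) * a₁))⁻¹)
  /-- NR (residues of norms), `α` over `V₁'`:  `res (N y) = res₁ y · (res₂ y) ^ (q - 1)` -/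
  nr_α₁ : ∀ y : F, UnitAt V₁ y → UnitAt V₂ y → ∀ x₁ x₂ : F',
    α x₁ - y ∈ V₁.nonunits → α x₂ - y ∈ V₂.nonunits →
    S29.H395.normAlong α y - x₁ * x₂ ^ (q - 1) ∈ V₁'.nonunits
  /-- NR, `α` over `V₂'` (purely inseparable of degree `q`):  `res (N y) = (res₃ y) ^ q` -/
  nr_α₂ : ∀ y : F, UnitAt V₃ y → α (S29.H395.normAlong α y) - y ^ q ∈ V₃.nonunits
  /-- NR, `β` over `V₂'` -/
  nr_β₁ : ∀ y : F, UnitAt V₃ y → UnitAt V₂ y → ∀ x₃ x₂ : F',
    β x₃ - y ∈ V₃.nonunits → β x₂ - y ∈ V₂.nonunits →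
    S29.H395.normAlong β y - x₃ * x₂ ^ (q - 1) ∈ V₂'.nonunits
  /-- NR, `β` over `V₁'` (purely inseparable of degree `q`) -/
  nr_β₂ : ∀ y : F, UnitAt V₁ y → β (S29.H395.normAlong β y) - y ^ q ∈ V₁.nonunits
  -- ### the finite chart of level `q M'`
  /-- `α` and `β` map the finite chart of level `q M'` into the finite chart of level `q² M'` -/
  chart_α : ∀ b ∈ chart R ({x'} : Set F'), α b ∈ chart R ({x} : Set F)
  chart_β : ∀ b ∈ chart R ({x'} : Set F'), β b ∈ chart R ({x} : Set F)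
  /-- the finite chart of level `q² M'` is integral over the image of the one of level `q M'` -/
  int_α : ∀ b ∈ chart R ({x} : Set F), ∃ p : Polynomial F', p.Monic ∧
    (∀ i, p.coeff i ∈ chart R ({x'} : Set F')) ∧ (p.map (α : F' →+* F)).eval b = 0
  int_β : ∀ b ∈ chart R ({x} : Set F), ∃ p : Polynomial F', p.Monic ∧
    (∀ i, p.coeff i ∈ chart R ({x'} : Set F')) ∧ (p.map (β : F' →+* F)).eval b = 0
  /-- RES (residue degree one, in chart form):  `Bf = α (Bf') + (Bf ∩ 𝔪_V)` -/
  res_α₁ : ∀ b ∈ chart R ({x} : Set F), ∃ b' ∈ chart R ({x'} : Set F'), b - α b' ∈ V₁.nonunits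
  res_α₂ : ∀ b ∈ chart R ({x} : Set F), ∃ b' ∈ chart R ({x'} : Set F'), b - α b' ∈ V₂.nonunits
  res_β₃ : ∀ b ∈ chart R ({x} : Set F), ∃ b' ∈ chart R ({x'} : Set F'), b - β b' ∈ V₃.nonunits
  res_β₂ : ∀ b ∈ chart R ({x} : Set F), ∃ b' ∈ chart R ({x'} : Set F'), b - β b' ∈ V₂.nonunits
  /-- a triple point is the ONLY closed point of the finite chart over its image under `α` -/
  unique_α : ∀ 𝔪 𝔪' : Ideal (chart R ({x} : Set F)), 𝔪.IsMaximal → 𝔪'.IsMaximal →
    IsTriple _ 𝔪 V₁ V₂ V₃ →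
    (∀ (b' : F') (h : b' ∈ chart R ({x'} : Set F')),
      (⟨α b', chart_α b' h⟩ : chart R ({x} : Set F)) ∈ 𝔪 →
        (⟨α b', chart_α b' h⟩ : chart R ({x} : Set F)) ∈ 𝔪') → 𝔪' = 𝔪
  /-- … and over its image under `β` -/
  unique_β : ∀ 𝔪 𝔪' : Ideal (chart R ({x} : Set F)), 𝔪.IsMaximal → 𝔪'.IsMaximal →
    IsTriple _ 𝔪 V₁ V₂ V₃ →
    (∀ (b' : F') (h : b' ∈ chart R ({x'} : Set F')),
      (⟨β b', chart_β b' h⟩ : chart R ({x} : Set F)) ∈ 𝔪 →
        (⟨β b', chart_β b' h⟩ : chart R ({x} : Set F)) ∈ 𝔪') → 𝔪' = 𝔪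

end Ctx

/-! ## ALG3 -/

/-- **ALG3 (interface statement).**  `R` a henselian DVR with algebraically closed residue field of
characteristic `q`, uniformiser `w`, `E = Frac R`; a three-component context.  Then there is
`C > 0` such that for all `m` prime to `q`: every `f ∈ Fˣ` with `m ∣ div f` whose norms along `α`
and `β` are constants times `m`-th powers satisfies `f ^ C ∈ Eˣ · (Fˣ) ^ m`. -/
def Alg3Statement : Prop :=
  ∀ {R E F F' : Type} [CommRing R] [IsDomain R] [IsDiscreteValuationRing R]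
    [HenselianLocalRing R] [IsAlgClosed (IsLocalRing.ResidueField R)]
    [Field E] [CharZero E] [Algebra R E] [IsFractionRing R E]
    [Field F] [Algebra E F] [Algebra R F] [IsScalarTower R E F]
    [Field F'] [Algebra E F'] [Algebra R F'] [IsScalarTower R E F']
    (w : R) (_ : Irreducible w) (q : ℕ) (_ : q.Prime)
    (_ : (q : R) ∈ IsLocalRing.maximalIdeal R)
    (α β : F' →ₐ[E] F) (x : F) (x' : F')
    (V₁ V₂ V₃ : ValuationSubring F) (V₁' V₂' : ValuationSubring F')
    (_ : TripleCtx w q α β x x' V₁ V₂ V₃ V₁' V₂'),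
    ∃ C : ℕ, 0 < C ∧ ∀ m : ℕ, 0 < m → ¬ q ∣ m →
      ∀ f : F, f ≠ 0 → A2.DivisibleDiv E m f →
        S35.G.NormPow α m f → S35.G.NormPow β m f →
        ∃ (c : E) (h : F), h ≠ 0 ∧ f ^ C = algebraMap E F c * h ^ m

/-! ## The level-`E` engine and MOD3 -/

section Level

variable (P : ValuationSubring A2.Qb) (E : IntermediateField ℚ A2.Qb) (M q : ℕ)
  [NeZero M] [NeZero q]

/-- **The engine at the level `E`**, levels `N = M q` and `N q = M q q`. -/
def LevelInertiaAt [NeZero (M * q)] : Prop :=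
  ∃ C : ℕ, 0 < C ∧ ∀ m : ℕ, 0 < m → ¬ q ∣ m →
    ∀ y : A2.Mod.FE E (M * q * q), y ≠ 0 → A2.DivisibleDiv E m y →
      S35.G.NormPow (A2.Mod.αE E (M * q) q) m y → S35.G.NormPow (A2.Mod.βE E (M * q) q) m y →
      ∃ (c : E) (h : A2.Mod.FE E (M * q * q)), h ≠ 0 ∧
        y ^ C = algebraMap E (A2.Mod.FE E (M * q * q)) c * h ^ m

/-- The level `M q` is NEAT for `q`: some prime `r ≡ 11 mod 12` divides `M`, and `4 ∣ M` if `q` is
odd, `9 ∣ M` if `q = 2` (no elliptic points in characteristic `q`, with the EXPLICIT local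
coordinate `t₄` resp. `t₉` at every non-cuspidal point; in particular `S35.G.HasAux M q`). -/
def NeatFor : Prop :=
  (∃ r : ℕ, r.Prime ∧ r % 12 = 11 ∧ r ≠ q ∧ r ∣ M) ∧ (q ≠ 2 → 4 ∣ M) ∧ (q = 2 → 9 ∣ M)

theorem NeatFor.hasAux {M q : ℕ} (h : NeatFor M q) : S35.G.HasAux M q :=
  ⟨fun h3 => Dvd.dvd.trans (by norm_num) (h.2.1 (by omega)),
    fun h2 => Dvd.dvd.trans (by norm_num) (h.2.2 h2)⟩

/-- `E` is an UNRAMIFIED good level for `P`: `q` is a uniformiser of `R_E = P ∩ E`. -/
def Unramified (P : ValuationSubring A2.Qb) (E : IntermediateField ℚ A2.Qb) (q : ℕ) : Prop :=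
  A2.GoodField P E ∧ ∀ e : E, (e : A2.Qb) ∈ P.nonunits → (e : A2.Qb) * ((q : A2.Qb))⁻¹ ∈ P

/-- **MOD3 (interface statement).**  At a neat level `M q`, `q ∤ M`, over an unramified good
level `E`, the function fields `F' = F_E(M q)`, `F = F_E(M q²)` with the two degeneracy maps carry
a three-component context. -/
def Model3Statement : Prop :=
  ∀ (P : ValuationSubring A2.Qb) (E : IntermediateField ℚ A2.Qb) (M q : ℕ)
    [NeZero M] [NeZero q] [NeZero (M * q)],
    q.Prime → ¬ q ∣ M → P.LiesOverPrime q → Unramified P E q → NeatFor M q →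
    ∀ w : A2.RE P E, Irreducible w →
    ∃ (x : A2.Mod.FE E (M * q * q)) (x' : A2.Mod.FE E (M * q))
      (V₁ V₂ V₃ : ValuationSubring (A2.Mod.FE E (M * q * q)))
      (V₁' V₂' : ValuationSubring (A2.Mod.FE E (M * q))),
      TripleCtx (R := A2.RE P E) (E := E) w q (A2.Mod.αE E (M * q) q) (A2.Mod.βE E (M * q) q)
        x x' V₁ V₂ V₃ V₁' V₂'

/-- **The level engine (interface statement).** -/
def LevelInertiaStatement : Prop :=
  ∀ (P : ValuationSubring A2.Qb) (E : IntermediateField ℚ A2.Qb) (M q : ℕ)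
    [NeZero M] [NeZero q] [NeZero (M * q)],
    q.Prime → ¬ q ∣ M → P.LiesOverPrime q → Unramified P E q → NeatFor M q →
    LevelInertiaAt E M q

end Level

end Fermat.Agent.S36.Eng

end

end
-- ===== PACK-END S36/Eng/Spec.lean

-- ===== PACK-BEGIN S36/Eng/Skel.lean
section


/-!
# S36 ENGINE — skeleton, part 1 (architect helper996): `ALG3 + MOD3 ⟹ level engine`

`levelInertia_of_alg3_model3 : Alg3Statement → Model3Statement → LevelInertiaStatement`
(sorry-free).  The leaves are hypotheses.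
-/

set_option autoImplicit false
set_option linter.style.haveILetI false
set_option linter.unusedSectionVars false
set_option synthInstance.maxHeartbeats 400000
set_option maxHeartbeats 1600000

noncomputable section

namespace Fermat.Agent.S36.Eng

open ModularCurve AlgebraicCurve

/-- `q` lies in the maximal ideal of `R_E = P ∩ E`. -/
theorem natCast_mem_maximalIdeal_RE {P : ValuationSubring A2.Qb} (E : IntermediateField ℚ A2.Qb)
    {q : ℕ} (hP : P.LiesOverPrime q) :
    ((q : ℕ) : ↥(A2.RE P E)) ∈ IsLocalRing.maximalIdeal ↥(A2.RE P E) := by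
  rw [IsLocalRing.mem_maximalIdeal, mem_nonunits_iff]
  intro hu
  obtain ⟨u, hu⟩ := hu
  have h1 : ((q : ℕ) : ↥(A2.RE P E)) * ((u⁻¹ : (↥(A2.RE P E))ˣ) : ↥(A2.RE P E)) = 1 := by
    rw [← hu]; exact u.mul_inv
  have h2 : ((q : ℕ) : A2.Qb) * (((((u⁻¹ : (↥(A2.RE P E))ˣ) : ↥(A2.RE P E)) : E) : A2.Qb)) = 1 := by
    have := congrArg (fun z : ↥(A2.RE P E) => (((z : E)) : A2.Qb)) h1
    simpa using this
  have hmem : (((((u⁻¹ : (↥(A2.RE P E))ˣ) : ↥(A2.RE P E)) : E) : A2.Qb)) ∈ P :=
    ((u⁻¹ : (↥(A2.RE P E))ˣ) : ↥(A2.RE P E)).2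
  have hval : P.valuation ((q : ℕ) : A2.Qb) < 1 :=
    (ValuationSubring.mem_nonunits_iff P).1 hP
  have hval2 : P.valuation (((((u⁻¹ : (↥(A2.RE P E))ˣ) : ↥(A2.RE P E)) : E) : A2.Qb)) ≤ 1 :=
    (ValuationSubring.valuation_le_one_iff P _).2 hmem
  have : P.valuation (1 : A2.Qb) < 1 := by
    rw [← h2, map_mul]
    calc P.valuation ((q : ℕ) : A2.Qb) * P.valuation _
        ≤ P.valuation ((q : ℕ) : A2.Qb) * 1 := by gcongr
      _ < 1 := by rwa [mul_one]
  rw [map_one] at this
  exact lt_irrefl _ this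

/-- **Skeleton, part 1.**  `ALG3 + MOD3 ⟹` the engine at every unramified good level, at neat
levels. -/
theorem levelInertia_of_alg3_model3 (hALG : Alg3Statement) (hMOD : Model3Statement) :
    LevelInertiaStatement := by
  intro P E M q _ _ _ hq hqM hP hE hneat
  haveI : IsDiscreteValuationRing ↥(A2.RE P E) := hE.1.dvr
  haveI : HenselianLocalRing ↥(A2.RE P E) := hE.1.henselian
  haveI : IsAlgClosed (IsLocalRing.ResidueField ↥(A2.RE P E)) := hE.1.algClosed
  obtain ⟨w, hw⟩ := IsDiscreteValuationRing.exists_irreducible ↥(A2.RE P E)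
  obtain ⟨x, x', V₁, V₂, V₃, V₁', V₂', hctx⟩ := hMOD P E M q hq hqM hP hE hneat w hw
  exact hALG (R := ↥(A2.RE P E)) (E := E) (F := ↥(A2.Mod.FE E (M * q * q)))
    (F' := ↥(A2.Mod.FE E (M * q))) w hw q hq (natCast_mem_maximalIdeal_RE E hP)
    (A2.Mod.αE E (M * q) q) (A2.Mod.βE E (M * q) q) x x' V₁ V₂ V₃ V₁' V₂' hctx

end Fermat.Agent.S36.Eng

end

end
-- ===== PACK-END S36/Eng/Skel.lean

-- ===== PACK-BEGIN A2/Mod/H378/L11.lean
section






/-!
# A2 / MOD leaf L11 `ResInf` (helper378)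

`theorem resInf : ResInfStatement P E M q w` : residue degree one over level `M` on `C∞`.

Route (independent of the other leaves): `F_{Mq} = F_M(j_{dq} : d ∣ M)`; by the Kronecker
congruence `Φ_q(X, Y) = (X^q - Y)(X - Y^q) + q Θ` (`S28.h88_kronecker_int`, with `Φ_q` from
`S28.H326.nonempty_modPolyData`) the generators satisfy
`(j_{dq}^q - j_d) (j_{dq} - j_d^q) = - q Θ(j_{dq}, j_d)` with `j_{dq}^q - j_d` a unit of `V∞`
(its expansion starts with `t^{-d q²}`).  The abstract lemma `ResOneData.exists_congr`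
(`L11Abstract.lean`) then gives `V∞_{Mq} = α(V∞_M) + w V∞_{Mq}`.
-/

set_option autoImplicit false
set_option linter.unusedSectionVars false
set_option linter.style.haveILetI false
set_option synthInstance.maxHeartbeats 400000
set_option maxHeartbeats 1600000

noncomputable section

namespace Fermat.Agent.A2.Mod.H378

open ModularCurve HahnSeries Fermat.Agent.A2.H708 Fermat.Agent.S28

/-! ## Generic facts on Gauss-integral elements -/

section Generic

variable {L : Type*} [Field L] [Algebra ℚ L] (A : ValuationSubring L)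
variable {F₀ F₁ : IntermediateField ℚ (LaurentSeries ℚ)}

theorem isGaussInt_mono (hle : laurentBaseChange L F₀ ≤ laurentBaseChange L F₁)
    {f : LaurentSeries L} (hf : IsGaussInt A F₀ f) : IsGaussInt A F₁ f := by
  obtain ⟨U₁, U₂, h0, hm, he⟩ := hf
  exact ⟨U₁, U₂, h0, hle hm, he⟩

theorem isGaussInt_descend (hgen : IntGen F₀) (hmax : AttainsMax A F₀)
    (hle : laurentBaseChange L F₀ ≤ laurentBaseChange L F₁)
    {f : LaurentSeries L} (hfF : f ∈ laurentBaseChange L F₀) (hf : IsGaussInt A F₁ f) :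
    IsGaussInt A F₀ f := by
  by_cases hf0 : f = 0
  · rw [hf0]; exact IsGaussInt.zero
  obtain ⟨c, U₁, U₂, hc, h₁, h₂, hm₁, hm₂, he⟩ := exists_normal_form hgen hmax hfF hf0
  have hcA : c ∈ A := (isGaussInt_iff_of_normal_form h₁ h₂ (hle hm₂) he).mp hf
  exact (isGaussInt_iff_of_normal_form h₁ h₂ hm₂ he).mpr hcA

theorem isGaussInt_cst_iff (F₀ : IntermediateField ℚ (LaurentSeries ℚ)) (c : L) :
    IsGaussInt A F₀ (cst c) ↔ c ∈ A := by
  have he : cst c * incl A 1 = cst c * incl A 1 := rfl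
  exact isGaussInt_iff_of_normal_form (by rw [map_one]; exact one_ne_zero)
    (by rw [map_one]; exact one_ne_zero) (by rw [map_one]; exact one_mem _) he

/-- the inverse of a primitive integral series of `F` is Gauss-integral. -/
theorem isGaussInt_inv_of_prim {U : LaurentSeries A} (hU : red A U ≠ 0)
    (hm : incl A U ∈ laurentBaseChange L F₀) : IsGaussInt A F₀ (incl A U)⁻¹ := by
  refine ⟨1, U, hU, hm, ?_⟩
  rw [map_one, inv_mul_cancel₀ (incl_ne_zero A (ne_zero_of_red_ne_zero A hU))]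

/-- discreteness: a nonzero Gauss-integral element is `w ^ n` times a Gauss unit. -/
theorem exists_pow_mul_unit [IsDiscreteValuationRing A] {w : A} (hw : Irreducible w)
    (hgen : IntGen F₀) (hmax : AttainsMax A F₀) {f : LaurentSeries L}
    (hfF : f ∈ laurentBaseChange L F₀) (hf0 : f ≠ 0) (hf : IsGaussInt A F₀ f) :
    ∃ n : ℕ, IsGaussInt A F₀ (f * (cst (w : L) ^ n)⁻¹) ∧
      IsGaussInt A F₀ (f * (cst (w : L) ^ n)⁻¹)⁻¹ := by
  obtain ⟨c, U₁, U₂, hc, h₁, h₂, hm₁, hm₂, he⟩ := exists_normal_form hgen hmax hfF hf0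
  have hcA : c ∈ A := (isGaussInt_iff_of_normal_form h₁ h₂ hm₂ he).mp hf
  have hc' : (⟨c, hcA⟩ : A) ≠ 0 := fun h => hc (congrArg Subtype.val h)
  obtain ⟨n, u, hu⟩ := IsDiscreteValuationRing.eq_unit_mul_pow_irreducible hc' hw
  have hcu : c = ((u : A) : L) * (w : L) ^ n := by
    have h1 := congrArg Subtype.val hu
    simpa using h1
  have hw0 : (w : L) ≠ 0 := fun h => hw.ne_zero (Subtype.ext h)
  have hwn : cst (w : L) ^ n ≠ 0 := pow_ne_zero _ (cst_ne_zero hw0)
  have hu0 : ((u : A) : L) ≠ 0 := fun h => u.ne_zero (Subtype.ext h)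
  have he' : (f * (cst (w : L) ^ n)⁻¹) * incl A U₂ = cst ((u : A) : L) * incl A U₁ := by
    have hpow : cst ((w : L) ^ n) = cst (w : L) ^ n := map_pow _ _ _
    rw [mul_right_comm, he, hcu, cst_mul, hpow]
    field_simp
  have hf0' : f * (cst (w : L) ^ n)⁻¹ ≠ 0 := mul_ne_zero hf0 (inv_ne_zero hwn)
  refine ⟨n, (isGaussInt_iff_of_normal_form h₁ h₂ hm₂ he').mpr (u : A).2, ?_⟩
  have he'' := normal_form_inv (A := A) hf0' hu0 he'
  refine (isGaussInt_iff_of_normal_form h₂ h₁ hm₁ he'').mpr ?_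
  have h2 : ((u : A) : L)⁻¹ = (((u⁻¹ : Aˣ) : A) : L) := by
    apply inv_eq_of_mul_eq_one_right
    have h3 := congrArg A.subtype u.mul_inv
    rw [map_mul, map_one] at h3
    exact h3
  rw [h2]
  exact ((u⁻¹ : Aˣ) : A).2

end Generic

/-! ## Series facts -/

section Series

variable (E : IntermediateField ℚ _root_.Fermat.Agent.A2.Mod.Qb)

/-- `j(t^d)` as a series over `E`. -/
def jser (d : ℕ) [NeZero d] : LaurentSeries E := qExpand E d (jqModC E)

theorem jser_eq_coeffEmb (d : ℕ) [NeZero d] : jser E d = coeffEmb E (qExpand ℚ d jq) := by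
  rw [jser, coeffEmb, ← jqModC_rat, coeffMap_qExpand, coeffMap_jqModC]

theorem jser_eq_incl (A : ValuationSubring E) (d : ℕ) [NeZero d] :
    jser E d = incl A (castA A (jInt d)) := by
  rw [incl_castA, castQ_jInt, jser_eq_coeffEmb]

theorem jser_mem (N d : ℕ) [NeZero d] (hd : d ∣ N) : jser E d ∈ _root_.Fermat.Agent.A2.Mod.FE E N := by
  rw [jser_eq_coeffEmb]
  exact coeffEmb_mem_laurentBaseChange E (jqd_mem_full N hd)

theorem FE_le (M q : ℕ) [NeZero M] [NeZero q] : _root_.Fermat.Agent.A2.Mod.FE E M ≤ _root_.Fermat.Agent.A2.Mod.FE E (M * q) := by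
  intro x hx
  have h := (heckeAlphaBar E M q ⟨x, hx⟩).2
  rw [coe_heckeAlphaBar] at h
  exact h

/-- the transfer `ℤ((t)) → E((t))`, `t ↦ t^d`. -/
def rho (d : ℕ) [NeZero d] : LaurentSeries ℤ →+* LaurentSeries E :=
  (qExpand E d).comp (coeffMap (Int.castRingHom E))

theorem rho_j (d : ℕ) [NeZero d] : rho E d (jqModC ℤ) = jser E d := by
  rw [rho, RingHom.comp_apply, coeffMap_jqModC, jser]

theorem rho_jq (d q : ℕ) [NeZero d] [NeZero q] :
    rho E d (qExpand ℤ q (jqModC ℤ)) = jser E (d * q) := by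
  rw [rho, RingHom.comp_apply, coeffMap_qExpand, coeffMap_jqModC, qExpand_qExpand, jser]

theorem rho_comp_evalAt (d : ℕ) [NeZero d] (y : LaurentSeries ℤ) :
    (rho E d).comp (evalAt y) = evalAt (rho E d y) := by
  apply Polynomial.ringHom_ext
  · intro a
    simp [evalAt]
  · simp [evalAt]

/-- **Kronecker relation** for `j_{dq}`, `j_d`. -/
theorem kron_series (q : ℕ) [NeZero q] (hq : q.Prime) (d : ℕ) [NeZero d] :
    ∃ Θ : Polynomial (Polynomial ℤ),
      (jser E (d * q) ^ q - jser E d) * (jser E (d * q) - jser E d ^ q)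
        + (q : LaurentSeries E) * Θ.eval₂ (evalAt (jser E d)) (jser E (d * q)) = 0 := by
  have hfact : Fact q.Prime := ⟨hq⟩
  obtain ⟨D⟩ := Fermat.Agent.S28.H326.nonempty_modPolyData q hq
  obtain ⟨Θ, hΘ⟩ := h88_kronecker_int q D
  refine ⟨Θ, ?_⟩
  have h0 := D.eval_jp
  rw [hΘ] at h0
  have h1 := congrArg (rho E d) h0
  rw [map_zero, Polynomial.hom_eval₂, rho_comp_evalAt, rho_j, rho_jq] at h1
  have e1 : evalAt (jser E d) (Polynomial.X) = jser E d := by simp [evalAt]
  have e2 : evalAt (jser E d) (Polynomial.X ^ q) = jser E d ^ q := by simp [evalAt]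
  have e3 : evalAt (jser E d) (Polynomial.C (q : ℤ)) = (q : LaurentSeries E) := by
    simp [evalAt]
  rw [Polynomial.eval₂_add, Polynomial.eval₂_mul, Polynomial.eval₂_sub, Polynomial.eval₂_sub,
    Polynomial.eval₂_pow, Polynomial.eval₂_X, Polynomial.eval₂_C, Polynomial.eval₂_C,
    Polynomial.eval₂_mul, Polynomial.eval₂_C, e1, e2, e3] at h1
  exact h1

/-- the leading coefficient of `j_{dq}^q - j_d`. -/
theorem coeff_sInt (q : ℕ) [NeZero q] (hq : 2 ≤ q) (d : ℕ) [NeZero d] :
    (jInt (d * q) ^ q - jInt d).coeff (-((d * q * q : ℕ) : ℤ)) = 1 := by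
  rw [HahnSeries.coeff_sub, jInt, jInt, jqNModC, jqNModC, ← map_pow]
  have h1 : (-((d * q * q : ℕ) : ℤ)) = ((d * q : ℕ) : ℤ) * (-(q : ℤ)) := by
    push_cast
    ring
  have h2 : (-((d * q * q : ℕ) : ℤ)) = ((d : ℕ) : ℤ) * (-((q * q : ℕ) : ℤ)) := by
    push_cast
    ring
  have h3 : (qExpand ℤ (d * q) (jqModC ℤ ^ q)).coeff (-((d * q * q : ℕ) : ℤ)) = 1 := by
    rw [h1, qExpand_coeff_mul, coeff_jqModC_pow_self]
  have h4 : (qExpand ℤ d (jqModC ℤ)).coeff (-((d * q * q : ℕ) : ℤ)) = 0 := by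
    rw [h2, qExpand_coeff_mul]
    apply coeff_jqModC_of_lt
    have : (4 : ℤ) ≤ ((q * q : ℕ) : ℤ) := by
      have : 4 ≤ q * q := by nlinarith
      exact_mod_cast this
    omega
  rw [h3, h4, sub_zero]

/-- `j_{dq}^q - j_d` is a primitive integral series. -/
theorem red_sInt_ne_zero (A : ValuationSubring E) (q : ℕ) [NeZero q] (hq : 2 ≤ q) (d : ℕ)
    [NeZero d] : red A (castA A (jInt (d * q) ^ q - jInt d)) ≠ 0 := by
  intro h
  have h1 := congrArg (fun z => z.coeff (-((d * q * q : ℕ) : ℤ))) h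
  simp only [coeffMap_coeff, HahnSeries.coeff_zero] at h1
  rw [coeff_sInt q hq d] at h1
  simp at h1

theorem incl_sInt (A : ValuationSubring E) (q d : ℕ) [NeZero q] [NeZero d] :
    incl A (castA A (jInt (d * q) ^ q - jInt d)) = jser E (d * q) ^ q - jser E d := by
  rw [map_sub, map_sub, map_pow, map_pow, ← jser_eq_incl, ← jser_eq_incl]

end Series

/-! ## The concrete data -/

section Concrete

variable {P : ValuationSubring _root_.Fermat.Agent.A2.Mod.Qb} {E : IntermediateField ℚ _root_.Fermat.Agent.A2.Mod.Qb} {M q : ℕ} [NeZero M] [NeZero q]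
  {w : _root_.Fermat.Agent.A2.Mod.RE P E}

/-- the new generators `j_{dq}`, `d ∣ M`, of `F_{Mq}` over `F_M`. -/
def Xset (E : IntermediateField ℚ _root_.Fermat.Agent.A2.Mod.Qb) (M q : ℕ) [NeZero q] : Set (_root_.Fermat.Agent.A2.Mod.FE E (M * q)) :=
  {x | ∃ (d : ℕ) (_ : NeZero d), d ∣ M ∧ (x : LaurentSeries E) = jser E (d * q)}

/-- `α(V∞_M)` as a subring of `F_{Mq}`. -/
def Oring (E : IntermediateField ℚ _root_.Fermat.Agent.A2.Mod.Qb) (M q : ℕ) [NeZero M] [NeZero q]
    (VM : ValuationSubring (_root_.Fermat.Agent.A2.Mod.FE E M)) : Subring (_root_.Fermat.Agent.A2.Mod.FE E (M * q)) :=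
  VM.toSubring.map (αE E M q : _root_.Fermat.Agent.A2.Mod.FE E M →+* _root_.Fermat.Agent.A2.Mod.FE E (M * q))

theorem mem_Oring {VM : ValuationSubring (_root_.Fermat.Agent.A2.Mod.FE E M)} {x : _root_.Fermat.Agent.A2.Mod.FE E (M * q)} :
    x ∈ Oring E M q VM ↔ ∃ g ∈ VM, αE E M q g = x := by
  rw [Oring, Subring.mem_map]
  rfl

theorem attains (hS : Setting P E M q w) (N : ℕ) :
    AttainsMax (_root_.Fermat.Agent.A2.Mod.RE P E) (modularFunctionFieldFull N) := by
  haveI := hS.dvr
  exact attainsMax_of_isNoetherianRing _ _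

theorem alpha_mem_iff (hS : Setting P E M q w) {VM : ValuationSubring (_root_.Fermat.Agent.A2.Mod.FE E M)}
    {V : ValuationSubring (_root_.Fermat.Agent.A2.Mod.FE E (M * q))} (hVM : IsVinf P E M VM) (hV : IsVinf P E (M * q) V)
    (g : _root_.Fermat.Agent.A2.Mod.FE E M) : αE E M q g ∈ V ↔ g ∈ VM := by
  rw [hV (αE E M q g), hVM g, coe_heckeAlphaBar]
  constructor
  · exact isGaussInt_descend (_root_.Fermat.Agent.A2.Mod.RE P E) (intGen_full M) (attains hS M) (FE_le E M q) g.2
  · exact isGaussInt_mono (_root_.Fermat.Agent.A2.Mod.RE P E) (FE_le E M q)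

theorem cE_mem {N : ℕ} {V : ValuationSubring (_root_.Fermat.Agent.A2.Mod.FE E N)} (hV : IsVinf P E N V) (r : _root_.Fermat.Agent.A2.Mod.RE P E) :
    cE P E N r ∈ V := by
  rw [hV]
  exact (isGaussInt_cst_iff (_root_.Fermat.Agent.A2.Mod.RE P E) _ (r : E)).mpr r.2

theorem alpha_cE (r : _root_.Fermat.Agent.A2.Mod.RE P E) : αE E M q (cE P E M r) = cE P E (M * q) r :=
  (αE E M q).commutes (r : E)

theorem w_ne_zero (hS : Setting P E M q w) : (w : E) ≠ 0 :=
  fun h => hS.unif.ne_zero (Subtype.ext h)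

theorem cE_ne_zero (hS : Setting P E M q w) (N : ℕ) : cE P E N w ≠ 0 := by
  intro h
  exact w_ne_zero hS ((map_eq_zero (algebraMap E (_root_.Fermat.Agent.A2.Mod.FE E N))).mp h)

theorem w_inv_not_mem (hS : Setting P E M q w) : (w : E)⁻¹ ∉ _root_.Fermat.Agent.A2.Mod.RE P E := by
  intro h
  apply hS.unif.not_isUnit
  refine ⟨⟨w, ⟨(w : E)⁻¹, h⟩, ?_, ?_⟩, rfl⟩
  · exact Subtype.ext (mul_inv_cancel₀ (w_ne_zero hS))
  · exact Subtype.ext (inv_mul_cancel₀ (w_ne_zero hS))

/-- `q ∈ w R`. -/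
theorem exists_q_eq (hS : Setting P E M q w) : ∃ c : _root_.Fermat.Agent.A2.Mod.RE P E, ((q : ℕ) : E) = (w : E) * (c : E) := by
  haveI := hS.dvr
  have hq := hS.lies_over
  have hqv : P.valuation ((q : ℕ) : _root_.Fermat.Agent.A2.Mod.Qb) < 1 := (ValuationSubring.mem_nonunits_iff P).mp hq
  have hqP : algebraMap E _root_.Fermat.Agent.A2.Mod.Qb ((q : ℕ) : E) ∈ P := by
    rw [map_natCast, ← ValuationSubring.valuation_le_one_iff]
    exact hqv.le
  set qA : _root_.Fermat.Agent.A2.Mod.RE P E := ⟨((q : ℕ) : E), hqP⟩ with hqA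
  have hnu : ¬ IsUnit qA := by
    rintro ⟨u, hu⟩
    have h1 : qA * ((u⁻¹ : (_root_.Fermat.Agent.A2.Mod.RE P E)ˣ) : _root_.Fermat.Agent.A2.Mod.RE P E) = 1 := by
      rw [← hu]
      exact u.mul_inv
    have h2 : ((q : ℕ) : _root_.Fermat.Agent.A2.Mod.Qb) * algebraMap E _root_.Fermat.Agent.A2.Mod.Qb (((u⁻¹ : (_root_.Fermat.Agent.A2.Mod.RE P E)ˣ) : _root_.Fermat.Agent.A2.Mod.RE P E) : E) = 1 := by
      have h3 := congrArg (fun z : _root_.Fermat.Agent.A2.Mod.RE P E => algebraMap E _root_.Fermat.Agent.A2.Mod.Qb (z : E)) h1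
      simpa [hqA] using h3
    have h4 : P.valuation (algebraMap E _root_.Fermat.Agent.A2.Mod.Qb (((u⁻¹ : (_root_.Fermat.Agent.A2.Mod.RE P E)ˣ) : _root_.Fermat.Agent.A2.Mod.RE P E) : E)) ≤ 1 :=
      (ValuationSubring.valuation_le_one_iff _ _).mpr ((u⁻¹ : (_root_.Fermat.Agent.A2.Mod.RE P E)ˣ) : _root_.Fermat.Agent.A2.Mod.RE P E).2
    have h5 := congrArg P.valuation h2
    rw [map_mul, map_one] at h5
    have h6 : P.valuation ((q : ℕ) : _root_.Fermat.Agent.A2.Mod.Qb) *
        P.valuation (algebraMap E _root_.Fermat.Agent.A2.Mod.Qb (((u⁻¹ : (_root_.Fermat.Agent.A2.Mod.RE P E)ˣ) : _root_.Fermat.Agent.A2.Mod.RE P E) : E)) < 1 := by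
      calc _ ≤ P.valuation ((q : ℕ) : _root_.Fermat.Agent.A2.Mod.Qb) * 1 := by gcongr
        _ = P.valuation ((q : ℕ) : _root_.Fermat.Agent.A2.Mod.Qb) := mul_one _
        _ < 1 := hqv
    exact (ne_of_lt h6) h5
  have hmem : qA ∈ IsLocalRing.maximalIdeal (_root_.Fermat.Agent.A2.Mod.RE P E) := (IsLocalRing.mem_maximalIdeal _).mpr hnu
  rw [hS.unif.maximalIdeal_eq, Ideal.mem_span_singleton] at hmem
  obtain ⟨c, hc⟩ := hmem
  refine ⟨c, ?_⟩
  have := congrArg Subtype.val hc
  simpa [hqA] using this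

theorem eval₂_mem_subring {R S : Type*} [CommRing R] [CommRing S] (f : R →+* S) (x : S)
    (T : Subring S) (hf : ∀ r, f r ∈ T) (hx : x ∈ T) (p : Polynomial R) : p.eval₂ f x ∈ T := by
  rw [Polynomial.eval₂_eq_sum, Polynomial.sum]
  exact Subring.sum_mem _ fun i _ => T.mul_mem (hf _) (T.pow_mem hx i)

theorem jser_mem_V {N : ℕ} {V : ValuationSubring (_root_.Fermat.Agent.A2.Mod.FE E N)} (hV : IsVinf P E N V)
    {x : _root_.Fermat.Agent.A2.Mod.FE E N} {d : ℕ} [NeZero d] (hx : (x : LaurentSeries E) = jser E d) : x ∈ V := by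
  rw [hV, hx, jser_eq_incl E (_root_.Fermat.Agent.A2.Mod.RE P E) d]
  exact IsGaussInt.of_incl _

/-- the subtype ring homomorphism `F_N → E((t))`. -/
def valHom (E : IntermediateField ℚ _root_.Fermat.Agent.A2.Mod.Qb) (N : ℕ) : _root_.Fermat.Agent.A2.Mod.FE E N →+* LaurentSeries E :=
  ((_root_.Fermat.Agent.A2.Mod.FE E N).val : _root_.Fermat.Agent.A2.Mod.FE E N →+* LaurentSeries E)

theorem valHom_apply (N : ℕ) (x : _root_.Fermat.Agent.A2.Mod.FE E N) : valHom E N x = (x : LaurentSeries E) := rfl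

theorem valHom_comp_aeval (N : ℕ) (y : _root_.Fermat.Agent.A2.Mod.FE E N) :
    (valHom E N).comp (Polynomial.aeval (R := ℤ) y).toRingHom = evalAt (y : LaurentSeries E) := by
  apply Polynomial.ringHom_ext
  · intro a
    simp [evalAt, valHom]
  · simp [evalAt, valHom]

/-- **The Kronecker relation** for the generators `j_{dq}`. -/
theorem kron_X (hS : Setting P E M q w) {VM : ValuationSubring (_root_.Fermat.Agent.A2.Mod.FE E M)}
    {V : ValuationSubring (_root_.Fermat.Agent.A2.Mod.FE E (M * q))} (hVM : IsVinf P E M VM) (hV : IsVinf P E (M * q) V)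
    {x : _root_.Fermat.Agent.A2.Mod.FE E (M * q)} (hx : x ∈ Xset E M q) :
    ∃ a ∈ Oring E M q VM,
      ∃ s ∈ Subring.closure ((Oring E M q VM : Set (_root_.Fermat.Agent.A2.Mod.FE E (M * q))) ∪ Xset E M q),
        s ≠ 0 ∧ s⁻¹ ∈ V.toSubring ∧
        ∃ c ∈ Subring.closure ((Oring E M q VM : Set (_root_.Fermat.Agent.A2.Mod.FE E (M * q))) ∪ Xset E M q),
          s * (x - a) = cE P E (M * q) w * c := by
  obtain ⟨d, hd, hdM, hxd⟩ := hx
  haveI := hd
  set B := Subring.closure ((Oring E M q VM : Set (_root_.Fermat.Agent.A2.Mod.FE E (M * q))) ∪ Xset E M q) with hB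
  set y0 : _root_.Fermat.Agent.A2.Mod.FE E M := ⟨jser E d, jser_mem E M d hdM⟩ with hy0
  have hy0V : y0 ∈ VM := jser_mem_V hVM (d := d) rfl
  set y : _root_.Fermat.Agent.A2.Mod.FE E (M * q) := αE E M q y0 with hy
  have hyc : (y : LaurentSeries E) = jser E d := coe_heckeAlphaBar M q y0
  have hyO : y ∈ Oring E M q VM := mem_Oring.mpr ⟨y0, hy0V, rfl⟩
  have hxB : x ∈ B := Subring.subset_closure (Or.inr ⟨d, hd, hdM, hxd⟩)
  have hyB : y ∈ B := Subring.subset_closure (Or.inl hyO)
  obtain ⟨Θ, hΘ⟩ := kron_series E q hS.q_prime d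
  obtain ⟨c0, hc0⟩ := exists_q_eq hS
  set θ : _root_.Fermat.Agent.A2.Mod.FE E (M * q) := Θ.eval₂ ((Polynomial.aeval (R := ℤ) y).toRingHom) x with hθ
  have hθB : θ ∈ B := by
    refine eval₂_mem_subring _ x B (fun r => ?_) hxB Θ
    show Polynomial.aeval y r ∈ B
    rw [Polynomial.aeval_def]
    refine eval₂_mem_subring _ y B (fun n => ?_) hyB r
    rw [eq_intCast]
    exact intCast_mem B n
  have hθc : (θ : LaurentSeries E) = Θ.eval₂ (evalAt (jser E d)) (jser E (d * q)) := by
    rw [← valHom_apply, hθ, Polynomial.hom_eval₂, valHom_comp_aeval, valHom_apply, hxd, hyc]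
  -- the unit `s`
  have hsc : ((x ^ q - y : _root_.Fermat.Agent.A2.Mod.FE E (M * q)) : LaurentSeries E)
      = incl (_root_.Fermat.Agent.A2.Mod.RE P E) (castA (_root_.Fermat.Agent.A2.Mod.RE P E) (jInt (d * q) ^ q - jInt d)) := by
    rw [incl_sInt, ← valHom_apply, map_sub, map_pow, valHom_apply, valHom_apply, hxd, hyc]
  have hred := red_sInt_ne_zero E (_root_.Fermat.Agent.A2.Mod.RE P E) q hS.q_prime.two_le d
  have hs0 : x ^ q - y ≠ 0 := by
    intro h
    have h1 : ((x ^ q - y : _root_.Fermat.Agent.A2.Mod.FE E (M * q)) : LaurentSeries E) = 0 := by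
      rw [h]
      rfl
    rw [hsc] at h1
    exact incl_ne_zero _ (ne_zero_of_red_ne_zero _ hred) h1
  have hsi : (x ^ q - y)⁻¹ ∈ V := by
    rw [hV, IntermediateField.coe_inv, hsc]
    refine isGaussInt_inv_of_prim _ hred ?_
    rw [← hsc]
    exact (x ^ q - y).2
  have hc0O : cE P E (M * q) c0 ∈ Oring E M q VM :=
    mem_Oring.mpr ⟨cE P E M c0, cE_mem hVM c0, alpha_cE c0⟩
  refine ⟨y ^ q, (Oring E M q VM).pow_mem hyO q, x ^ q - y,
    B.sub_mem (B.pow_mem hxB q) hyB, hs0, hsi, -(cE P E (M * q) c0 * θ),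
    B.neg_mem (B.mul_mem (Subring.subset_closure (Or.inl hc0O)) hθB), ?_⟩
  apply Subtype.ext
  have hqc : ((q : ℕ) : LaurentSeries E) = cst ((w : E)) * cst (c0 : E) := by
    rw [← cst_mul, ← hc0]
    exact (map_natCast (algebraMap E (LaurentSeries E)) q).symm
  have hL : (((x ^ q - y) * (x - y ^ q) : _root_.Fermat.Agent.A2.Mod.FE E (M * q)) : LaurentSeries E)
      = (jser E (d * q) ^ q - jser E d) * (jser E (d * q) - jser E d ^ q) := by
    rw [← valHom_apply, map_mul, map_sub, map_sub, map_pow, map_pow, valHom_apply, valHom_apply,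
      hxd, hyc]
  have hR : ((cE P E (M * q) w * -(cE P E (M * q) c0 * θ) : _root_.Fermat.Agent.A2.Mod.FE E (M * q)) : LaurentSeries E)
      = cst (w : E) * -(cst (c0 : E) * Θ.eval₂ (evalAt (jser E d)) (jser E (d * q))) := by
    rw [← valHom_apply, map_mul, map_neg, map_mul, valHom_apply _ θ, hθc]
    rfl
  rw [hL, hR]
  rw [hqc] at hΘ
  linear_combination hΘ

/-- divisors of `M q`: either `d ∣ M` or `d = d' q` with `d' ∣ M`. -/
theorem dvd_cases {M q d : ℕ} (hq : q.Prime) (hd : d ∣ M * q) :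
    d ∣ M ∨ ∃ d', d' ∣ M ∧ d = d' * q := by
  by_cases hqd : q ∣ d
  · right
    obtain ⟨d', rfl⟩ := hqd
    refine ⟨d', ?_, mul_comm _ _⟩
    rw [mul_comm q d'] at hd
    exact (Nat.mul_dvd_mul_iff_right hq.pos).mp hd
  · left
    have hcop : Nat.Coprime d q := ((Nat.Prime.coprime_iff_not_dvd hq).mpr hqd).symm
    exact hcop.dvd_of_dvd_mul_right hd

/-- `F_{Mq}` is generated as a field by `α(V∞_M)` and the `j_{dq}`. -/
theorem gen_X (hS : Setting P E M q w) {VM : ValuationSubring (_root_.Fermat.Agent.A2.Mod.FE E M)}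
    (hVM : IsVinf P E M VM) (f : _root_.Fermat.Agent.A2.Mod.FE E (M * q)) :
    f ∈ Subfield.closure ((Oring E M q VM : Set (_root_.Fermat.Agent.A2.Mod.FE E (M * q))) ∪ Xset E M q) := by
  set G := Subfield.closure ((Oring E M q VM : Set (_root_.Fermat.Agent.A2.Mod.FE E (M * q))) ∪ Xset E M q) with hG
  set Gs : Subfield (LaurentSeries E) := G.map (valHom E (M * q)) with hGsdef
  have hGs : ∀ x : _root_.Fermat.Agent.A2.Mod.FE E (M * q), (x : LaurentSeries E) ∈ Gs → x ∈ G := by
    intro x hx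
    obtain ⟨y, hy, hyx⟩ := Subfield.mem_map.mp hx
    have h1 : y = x := Subtype.ext hyx
    rw [← h1]
    exact hy
  have hGs' : ∀ x : _root_.Fermat.Agent.A2.Mod.FE E (M * q), x ∈ G → (x : LaurentSeries E) ∈ Gs :=
    fun x hx => Subfield.mem_map.mpr ⟨x, hx, rfl⟩
  -- constants
  have hconstA : ∀ r : _root_.Fermat.Agent.A2.Mod.RE P E, cE P E (M * q) r ∈ G := fun r =>
    Subfield.subset_closure (Or.inl (mem_Oring.mpr ⟨cE P E M r, cE_mem hVM r, alpha_cE r⟩))
  have hconst : ∀ e : E, algebraMap E (LaurentSeries E) e ∈ Gs := by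
    intro e
    refine hGs' (algebraMap E (_root_.Fermat.Agent.A2.Mod.FE E (M * q)) e) ?_
    rcases (_root_.Fermat.Agent.A2.Mod.RE P E).mem_or_inv_mem e with h | h
    · exact hconstA ⟨e, h⟩
    · have h1 : algebraMap E (_root_.Fermat.Agent.A2.Mod.FE E (M * q)) e = (cE P E (M * q) ⟨e⁻¹, h⟩)⁻¹ := by
        rw [cE, ← map_inv₀, inv_inv]
      rw [h1]
      exact G.inv_mem (hconstA _)
  -- generators
  have hj : ∀ (d : ℕ) [NeZero d], d ∣ M * q → jser E d ∈ Gs := by
    intro d hd hdN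
    rcases dvd_cases hS.q_prime hdN with hdM | ⟨d', hd'M, hdd'⟩
    · have h1 : αE E M q ⟨jser E d, jser_mem E M d hdM⟩ ∈ G :=
        Subfield.subset_closure (Or.inl (mem_Oring.mpr
          ⟨⟨jser E d, jser_mem E M d hdM⟩, jser_mem_V hVM (d := d) rfl, rfl⟩))
      exact hGs' _ h1
    · subst hdd'
      haveI : NeZero d' := ⟨fun h => by
        rw [h, zero_mul] at hd
        exact hd.out rfl⟩
      have h1 : (⟨jser E (d' * q), jser_mem E (M * q) (d' * q) hdN⟩ : _root_.Fermat.Agent.A2.Mod.FE E (M * q)) ∈ G :=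
        Subfield.subset_closure (Or.inr ⟨d', inferInstance, hd'M, rfl⟩)
      exact hGs' _ h1
  apply hGs
  have hf := mem_laurentBaseChange_iff.mp f.2
  refine Subfield.closure_le.mpr ?_ hf
  rintro z (⟨e, rfl⟩ | ⟨z0, hz0, rfl⟩)
  · exact hconst e
  · have hz0' : z0 ∈ IntermediateField.adjoin ℚ (divisorExpansions (M * q)) := hz0
    induction hz0' using IntermediateField.adjoin_induction with
    | mem y hy =>
      obtain ⟨d, hd, hdN, rfl⟩ := hy
      haveI := hd
      show coeffEmb E (qExpand ℚ d jq) ∈ Gs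
      rw [← jser_eq_coeffEmb]
      exact hj d hdN
    | algebraMap c =>
      have h1 : coeffEmb E (algebraMap ℚ (LaurentSeries ℚ) c)
          = algebraMap E (LaurentSeries E) (algebraMap ℚ E c) := by
        rw [coeffEmb, algebraMap_laurentSeries_eq_single, algebraMap_laurentSeries_eq_single,
          coeffMap_single]
      show coeffEmb E (algebraMap ℚ (LaurentSeries ℚ) c) ∈ Gs
      rw [h1]
      exact hconst _
    | add x y hx hy ihx ihy =>
      show coeffEmb E (x + y) ∈ Gs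
      rw [map_add]
      exact Gs.add_mem (ihx hx) (ihy hy)
    | inv x hx ihx =>
      show coeffEmb E x⁻¹ ∈ Gs
      rw [map_inv₀]
      exact Gs.inv_mem (ihx hx)
    | mul x y hx hy ihx ihy =>
      show coeffEmb E (x * y) ∈ Gs
      rw [map_mul]
      exact Gs.mul_mem (ihx hx) (ihy hy)

/-- discreteness of `V∞`. -/
theorem disc_V (hS : Setting P E M q w) (N : ℕ) {V : ValuationSubring (_root_.Fermat.Agent.A2.Mod.FE E N)}
    (hV : IsVinf P E N V) {x : _root_.Fermat.Agent.A2.Mod.FE E N} (hx : x ∈ V) (hx0 : x ≠ 0) :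
    ∃ (n : ℕ) (u : _root_.Fermat.Agent.A2.Mod.FE E N), u ∈ V ∧ u⁻¹ ∈ V ∧ x = cE P E N w ^ n * u := by
  haveI := hS.dvr
  have hx0' : (x : LaurentSeries E) ≠ 0 := fun h => hx0 (Subtype.ext h)
  obtain ⟨n, h1, h2⟩ := exists_pow_mul_unit (_root_.Fermat.Agent.A2.Mod.RE P E) hS.unif (intGen_full N) (attains hS N)
    x.2 hx0' ((hV x).mp hx)
  have hcw := cE_ne_zero hS N
  have hu : ((x * (cE P E N w ^ n)⁻¹ : _root_.Fermat.Agent.A2.Mod.FE E N) : LaurentSeries E)
      = (x : LaurentSeries E) * (cst ((w : _root_.Fermat.Agent.A2.Mod.RE P E) : E) ^ n)⁻¹ := by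
    rw [← valHom_apply, map_mul, map_inv₀, map_pow]
    rfl
  refine ⟨n, x * (cE P E N w ^ n)⁻¹, ?_, ?_, ?_⟩
  · rw [hV, hu]
    exact h1
  · rw [hV, ← valHom_apply, map_inv₀, valHom_apply, hu]
    exact h2
  · field_simp

/-- **The data of the abstract lemma.** -/
theorem resOneData (hS : Setting P E M q w) {VM : ValuationSubring (_root_.Fermat.Agent.A2.Mod.FE E M)}
    {V : ValuationSubring (_root_.Fermat.Agent.A2.Mod.FE E (M * q))} (hVM : IsVinf P E M VM) (hV : IsVinf P E (M * q) V) :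
    ResOneData V.toSubring (Oring E M q VM) (cE P E (M * q) w) (Xset E M q) where
  O_le := by
    intro x hx
    obtain ⟨g, hg, rfl⟩ := mem_Oring.mp hx
    exact (alpha_mem_iff hS hVM hV g).mpr hg
  w_mem := mem_Oring.mpr ⟨cE P E M w, cE_mem hVM w, alpha_cE w⟩
  w_ne := cE_ne_zero hS _
  w_nonunit := by
    intro h
    have h1 : (cE P E (M * q) w)⁻¹ ∈ V := h
    rw [hV, ← valHom_apply, map_inv₀] at h1
    have h2 : valHom E (M * q) (cE P E (M * q) w) = cst ((w : _root_.Fermat.Agent.A2.Mod.RE P E) : E) := rfl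
    have h3 : (cst ((w : _root_.Fermat.Agent.A2.Mod.RE P E) : E))⁻¹ = cst ((w : E)⁻¹) := (map_inv₀ _ _).symm
    rw [h2, h3, isGaussInt_cst_iff] at h1
    exact w_inv_not_mem hS h1
  O_div := by
    intro x hx hxw
    obtain ⟨g, hg, rfl⟩ := mem_Oring.mp hx
    have h1 : αE E M q g * (cE P E (M * q) w)⁻¹ = αE E M q (g * (cE P E M w)⁻¹) := by
      rw [map_mul, map_inv₀, alpha_cE]
    rw [h1] at hxw ⊢
    exact mem_Oring.mpr ⟨_, (alpha_mem_iff hS hVM hV _).mp hxw, rfl⟩
  O_inv := by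
    intro x hx hxi
    obtain ⟨g, hg, rfl⟩ := mem_Oring.mp hx
    have h1 : (αE E M q g)⁻¹ = αE E M q g⁻¹ := (map_inv₀ _ _).symm
    rw [h1] at hxi ⊢
    exact mem_Oring.mpr ⟨_, (alpha_mem_iff hS hVM hV _).mp hxi, rfl⟩
  X_le := by
    rintro x ⟨d, hd, hdM, hxd⟩
    haveI := hd
    exact jser_mem_V hV hxd
  disc := fun x hx hx0 => disc_V hS (M * q) hV hx hx0
  kron := fun x hx => kron_X hS hVM hV hx
  gen := gen_X hS hVM

/-- **Leaf L11 (`ResInf`)**: residue degree one over level `M` on `C∞`. -/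
theorem resInf (P : ValuationSubring _root_.Fermat.Agent.A2.Mod.Qb) (E : IntermediateField ℚ _root_.Fermat.Agent.A2.Mod.Qb) (M q : ℕ) [NeZero M]
    [NeZero q] (w : _root_.Fermat.Agent.A2.Mod.RE P E) : ResInfStatement P E M q w := by
  intro hS VM V hVM hV f hf
  obtain ⟨g', hg', hcong⟩ := (resOneData hS hVM hV).exists_congr hf
  obtain ⟨g, hg, rfl⟩ := mem_Oring.mp hg'
  exact ⟨g, hg, hcong⟩

end Concrete

end Fermat.Agent.A2.Mod.H378

end
end
-- ===== PACK-END A2/Mod/H378/L11.lean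

-- ===== PACK-BEGIN S18/H576/Transport.lean
section



/-!
# S18 / node_mod (helper576): TRANSPORT between the `E`-level and the concrete objects of `Mod/Defs`

`E ⊆ Q̄` an intermediate field, `R_E = H602.RE A E = A ∩ E`, `κ_E` its residue field,
`F_E = laurentBaseChange E (modularFunctionFieldFull M) ⊆ E((q))`.

* `descendsTo_of_mem_Fc`     : `f ∈ Fc M E` ⟹ `f` comes from `F_E`;
* `exists_mem_Fc_of_mem_FE`  : `g ∈ F_E` ⟹ `g` is (the `q`-expansion of) an element of `Fc M E`;
* `OE M A E : Subring R_E((q))` : the integral series lying in `F_E`;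
  `phi : OE →+* Ω` (injective, values in `Fc M E`), `rho : OE →+* κ_E((q))` (reduction);
* `exists_rep_of_mem_VcSet`  : `f ∈ VcSet M A E` ⟹ `f · phi V₂ = phi V₁` with `rho V₂ ≠ 0`;
* `mem_VcSet_of_rep`         : the converse;
* `exists_div_of_rho_eq_zero`: `rho V = 0` ⟹ `phi V · w⁻¹ = phi V'` (for `w` with `w_gen`).
-/

set_option autoImplicit false

noncomputable section

namespace Fermat.Agent.S18.H576

open ModularCurve AlgebraicCurve HahnSeries Fermat.Agent.S18 Fermat.Agent.S18.Mod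
open Fermat.Agent.S18.H602 (RE mem_RE toA)

variable {M : ℕ} {A : ValuationSubring Qb} {E : IntermediateField ℚ Qb}

/-- Elements of `Fc M E` are defined over `E` (inside the base change `F_E`). -/
theorem descendsTo_of_mem_Fc {f : Om M} (hf : f ∈ Fc M E) :
    H602.DescendsTo (modularFunctionFieldFull M) E (f : LaurentSeries Qb) := by
  unfold Fc at hf
  induction hf using Subfield.closure_induction with
  | mem y hy =>
      rcases hy with hy | ⟨d, hd, hdM, rfl⟩
      · obtain ⟨a, ha, rfl⟩ := mem_Ec_iff.mp hy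
        refine ⟨algebraMap E (LaurentSeries E) ⟨a, ha⟩,
          (laurentBaseChange E (modularFunctionFieldFull M)).algebraMap_mem _, ?_⟩
        rw [H602.coeffMap_algebraMap']
        rfl
      · exact H602.descendsTo_coeffEmb E (jqd_mem_full M hdM)
  | one => exact H602.DescendsTo.one E
  | add x y _ _ hx hy => exact hx.add hy
  | neg x _ hx => exact hx.neg
  | inv x _ hx => exact hx.inv
  | mul x y _ _ hx hy => exact hx.mul hy

/-- Elements of `F_E` give elements of `Fc M E`. -/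
theorem exists_mem_Fc_of_mem_FE {g : LaurentSeries E}
    (hg : g ∈ laurentBaseChange E (modularFunctionFieldFull M)) :
    ∃ f ∈ Fc M E, (f : LaurentSeries Qb) = coeffMap (algebraMap E Qb) g := by
  rw [mem_laurentBaseChange_iff] at hg
  induction hg using Subfield.closure_induction with
  | mem y hy =>
      rcases hy with ⟨a, rfl⟩ | ⟨z, hz, rfl⟩
      · refine ⟨iota M (a : Qb), Ec_le_Fc (iota_mem_Ec a.2), ?_⟩
        rw [H602.coeffMap_algebraMap']
        rfl
      · obtain ⟨f, hf, hfz⟩ := exists_mem_Fc_of_mem_full (M := M) (E := E) hz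
        refine ⟨f, hf, ?_⟩
        rw [hfz, H602.coeffMap_coeffEmb']
  | one => exact ⟨1, one_mem _, by rw [map_one]; rfl⟩
  | add x y _ _ hx hy =>
      obtain ⟨f, hf, hfx⟩ := hx
      obtain ⟨g, hg, hgy⟩ := hy
      exact ⟨f + g, add_mem hf hg, by rw [map_add, ← hfx, ← hgy]; rfl⟩
  | neg x _ hx =>
      obtain ⟨f, hf, hfx⟩ := hx
      exact ⟨-f, neg_mem hf, by rw [map_neg, ← hfx]; rfl⟩
  | inv x _ hx =>
      obtain ⟨f, hf, hfx⟩ := hx
      exact ⟨f⁻¹, inv_mem hf, by rw [map_inv₀, ← hfx]; rfl⟩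
  | mul x y _ _ hx hy =>
      obtain ⟨f, hf, hfx⟩ := hx
      obtain ⟨g, hg, hgy⟩ := hy
      exact ⟨f * g, mul_mem hf hg, by rw [map_mul, ← hfx, ← hgy]; rfl⟩

theorem C_mem_FE (M : ℕ) (c : E) :
    HahnSeries.C (Γ := ℤ) c ∈ laurentBaseChange E (modularFunctionFieldFull M) := by
  have := (laurentBaseChange E (modularFunctionFieldFull M)).algebraMap_mem c
  rwa [algebraMap_laurentSeries_eq_single, ← HahnSeries.C_apply] at this

/-- The ring of integral series over `R_E` lying in `F_E`. -/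
def OE (M : ℕ) (A : ValuationSubring Qb) (E : IntermediateField ℚ Qb) :
    Subring (LaurentSeries (RE A E)) :=
  (laurentBaseChange E (modularFunctionFieldFull M)).toSubfield.toSubring.comap
    (coeffMap (RE A E).subtype)

theorem mem_OE {V : LaurentSeries (RE A E)} :
    V ∈ OE M A E ↔
      coeffMap (RE A E).subtype V ∈ laurentBaseChange E (modularFunctionFieldFull M) :=
  Iff.rfl

/-- `R_E((q)) → Q̄((q))`. -/
def incQ (A : ValuationSubring Qb) (E : IntermediateField ℚ Qb) :
    LaurentSeries (RE A E) →+* LaurentSeries Qb :=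
  (coeffMap (algebraMap E Qb)).comp (coeffMap (RE A E).subtype)

theorem incQ_apply (V : LaurentSeries (RE A E)) :
    incQ A E V = coeffMap (algebraMap E Qb) (coeffMap (RE A E).subtype V) := rfl

theorem incQ_eq (V : LaurentSeries (RE A E)) :
    incQ A E V = coeffMap A.subtype (coeffMap (toA A E) V) := by
  rw [incQ_apply, coeffMap_coeffMap, coeffMap_coeffMap, H602.subtype_comp_toA]

theorem incQ_injective : Function.Injective (incQ A E) := by
  intro x y h
  have h1 := H602.coeffMap_injective (algebraMap E Qb) (algebraMap E Qb).injective h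
  exact H602.coeffMap_injective (RE A E).subtype Subtype.val_injective h1

theorem incQ_mem (V : OE M A E) :
    incQ A E (V : LaurentSeries (RE A E)) ∈ modularFunctionFieldBar M :=
  H602.coeffMap_mem_laurentBaseChange _ _ V.2

/-- The element of `Ω` defined by an integral series. -/
def phi (M : ℕ) (A : ValuationSubring Qb) (E : IntermediateField ℚ Qb) : OE M A E →+* Om M where
  toFun V := ⟨incQ A E (V : LaurentSeries (RE A E)), incQ_mem V⟩
  map_one' := Subtype.ext (by simp)
  map_mul' x y := Subtype.ext (by simp)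
  map_zero' := Subtype.ext (by simp)
  map_add' x y := Subtype.ext (by simp)

theorem coe_phi (V : OE M A E) :
    ((phi M A E V : Om M) : LaurentSeries Qb) = incQ A E (V : LaurentSeries (RE A E)) := rfl

theorem phi_injective : Function.Injective (phi M A E) := by
  intro x y h
  have h1 : incQ A E (x : LaurentSeries (RE A E)) = incQ A E (y : LaurentSeries (RE A E)) :=
    congrArg Subtype.val h
  exact Subtype.ext (incQ_injective h1)

theorem phi_mem_Fc (V : OE M A E) : phi M A E V ∈ Fc M E := by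
  obtain ⟨f, hf, hfV⟩ := exists_mem_Fc_of_mem_FE (M := M) V.2
  have : phi M A E V = f := Subtype.ext (by rw [coe_phi, incQ_apply, hfV])
  rw [this]
  exact hf

/-- Reduction of an integral series. -/
def rho (M : ℕ) (A : ValuationSubring Qb) (E : IntermediateField ℚ Qb) :
    OE M A E →+* LaurentSeries (IsLocalRing.ResidueField (RE A E)) :=
  (coeffMap (IsLocalRing.residue (RE A E))).comp (OE M A E).subtype

theorem rho_apply (V : OE M A E) :
    rho M A E V = coeffMap (IsLocalRing.residue (RE A E)) (V : LaurentSeries (RE A E)) := rfl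

/-- The reduction over `A` of the series over `A` attached to `V`. -/
theorem residue_toA_eq (V : LaurentSeries (RE A E)) :
    coeffMap (IsLocalRing.residue A) (coeffMap (toA A E) V) =
      coeffMap (H602.resMap A E) (coeffMap (IsLocalRing.residue (RE A E)) V) :=
  H602.coeffMap_residue_toA A E V

theorem residue_toA_ne_zero_iff (V : LaurentSeries (RE A E)) :
    coeffMap (IsLocalRing.residue A) (coeffMap (toA A E) V) ≠ 0 ↔
      coeffMap (IsLocalRing.residue (RE A E)) V ≠ 0 := by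
  rw [residue_toA_eq]
  constructor
  · intro h h0
    exact h (by rw [h0, map_zero])
  · intro h h0
    apply h
    apply H602.coeffMap_injective (H602.resMap A E) (H602.resMap_injective A E)
    rw [h0, map_zero]

theorem isIntE_toA (V : OE M A E) :
    IsIntE M A E (coeffMap (toA A E) (V : LaurentSeries (RE A E))) := by
  refine ⟨fun n => ?_, phi M A E V, phi_mem_Fc V, ?_⟩
  · rw [coeffMap_coeff]
    exact ((V : LaurentSeries (RE A E)).coeff n : E).2
  · rw [coe_phi, incQ_eq]

/-- Every element of `VcSet` is a quotient of two integral series over `R_E`, the denominator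
with nonzero reduction. -/
theorem exists_rep_of_mem_VcSet {f : Om M} (hf : f ∈ VcSet M A E) :
    ∃ V₁ V₂ : OE M A E, rho M A E V₂ ≠ 0 ∧ f * phi M A E V₂ = phi M A E V₁ := by
  obtain ⟨-, U₁, U₂, ⟨-, g₁, hg₁, hgU₁⟩, ⟨-, g₂, hg₂, hgU₂⟩, hne, heq⟩ := hf
  have d₁ := descendsTo_of_mem_Fc hg₁
  have d₂ := descendsTo_of_mem_Fc hg₂
  rw [hgU₁] at d₁
  rw [hgU₂] at d₂
  obtain ⟨V₁, hV₁, hVU₁⟩ := H602.exists_series_descent U₁ d₁
  obtain ⟨V₂, hV₂, hVU₂⟩ := H602.exists_series_descent U₂ d₂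
  refine ⟨⟨V₁, hV₁⟩, ⟨V₂, hV₂⟩, ?_, ?_⟩
  · rw [rho_apply]
    rw [← hVU₂] at hne
    exact (residue_toA_ne_zero_iff V₂).mp hne
  · apply Subtype.ext
    show (f : LaurentSeries Qb) * incQ A E V₂ = incQ A E V₁
    rw [incQ_eq, incQ_eq, hVU₁, hVU₂]
    exact heq

/-- Conversely a quotient of two integral series over `R_E`, the denominator with nonzero
reduction, lies in `VcSet`. -/
theorem mem_VcSet_of_rep {g : Om M} (V₁ V₂ : OE M A E) (h2 : rho M A E V₂ ≠ 0)
    (h : g * phi M A E V₂ = phi M A E V₁) : g ∈ VcSet M A E := by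
  have hV₂0 : phi M A E V₂ ≠ 0 := by
    intro h0
    apply h2
    have : V₂ = 0 := phi_injective (by rw [h0, map_zero])
    rw [this, map_zero]
  have hg : g = phi M A E V₁ * (phi M A E V₂)⁻¹ := by
    rw [← h, mul_assoc, mul_inv_cancel₀ hV₂0, mul_one]
  refine ⟨?_, coeffMap (toA A E) (V₁ : LaurentSeries (RE A E)),
    coeffMap (toA A E) (V₂ : LaurentSeries (RE A E)), isIntE_toA V₁, isIntE_toA V₂, ?_, ?_⟩
  · rw [hg]
    exact mul_mem (phi_mem_Fc V₁) (inv_mem (phi_mem_Fc V₂))
  · exact (residue_toA_ne_zero_iff _).mpr h2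
  · rw [← incQ_eq, ← incQ_eq, ← coe_phi, ← coe_phi, ← h]
    rfl

theorem coeff_mem_maximalIdeal_of_rho_eq_zero (V : OE M A E) (hV : rho M A E V = 0) (n : ℤ) :
    (V : LaurentSeries (RE A E)).coeff n ∈ IsLocalRing.maximalIdeal (RE A E) := by
  rw [← IsLocalRing.residue_eq_zero_iff]
  have := congrArg (fun z : LaurentSeries (IsLocalRing.ResidueField (RE A E)) => z.coeff n) hV
  simpa [rho_apply, coeffMap_coeff] using this

/-- A series with zero reduction is divisible by the uniformiser `w`. -/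
theorem exists_div_of_rho_eq_zero {w : Om M} (hwm : w ∈ Rc M A E)
    (hwg : ∀ r ∈ Rc M A E, r⁻¹ ∉ Rc M A E → r * w⁻¹ ∈ Rc M A E)
    (V : OE M A E) (hV : rho M A E V = 0) :
    ∃ V' : OE M A E, phi M A E V' = phi M A E V * w⁻¹ := by
  obtain ⟨ϖ, rfl⟩ := mem_Rc_iff_exists_iotaR.mp hwm
  set c : E := ((ϖ : E))⁻¹ with hc
  set y : LaurentSeries E :=
    HahnSeries.C c * coeffMap (RE A E).subtype (V : LaurentSeries (RE A E)) with hy
  have hcoeff : ∀ n, y.coeff n = c * (((V : LaurentSeries (RE A E)).coeff n : RE A E) : E) := by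
    intro n
    rw [hy, HahnSeries.C_mul_eq_smul, HahnSeries.coeff_smul, smul_eq_mul, coeffMap_coeff]
    rfl
  have hrange : ∀ n, y.coeff n ∈ Set.range (RE A E).subtype := by
    intro n
    set r : RE A E := (V : LaurentSeries (RE A E)).coeff n with hr
    by_cases hr0 : r = 0
    · refine ⟨0, ?_⟩
      rw [hcoeff, ← hr, hr0]
      simp
    have hnu : ¬ IsUnit r := by
      have := coeff_mem_maximalIdeal_of_rho_eq_zero V hV n
      rwa [IsLocalRing.mem_maximalIdeal, mem_nonunits_iff] at this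
    have hinv : (iotaR M A E r)⁻¹ ∉ Rc M A E := by
      intro h
      rcases (iotaR_inv_mem_Rc_iff r).mp h with h | h
      · exact hr0 h
      · exact hnu h
    obtain ⟨s, hs⟩ := mem_Rc_iff_exists_iotaR.mp (hwg _ (iotaR_mem_Rc r) hinv)
    refine ⟨s, ?_⟩
    rw [hcoeff, ← hr]
    have hinj : Function.Injective ((iota M).comp (algebraMap E Qb)) :=
      (iota_injective M).comp (algebraMap E Qb).injective
    apply hinj
    show iotaR M A E s = _
    rw [hs, map_mul, hc, map_inv₀, mul_comm]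
    rfl
  obtain ⟨V', hV'⟩ := H602.exists_coeffMap_eq (RE A E).subtype Subtype.val_injective y hrange
  have hV'mem : V' ∈ OE M A E := by
    rw [mem_OE, hV', hy]
    exact mul_mem (C_mem_FE M c) V.2
  refine ⟨⟨V', hV'mem⟩, ?_⟩
  apply Subtype.ext
  show incQ A E V' = incQ A E (V : LaurentSeries (RE A E)) *
    ((iotaR M A E ϖ : Om M) : LaurentSeries Qb)⁻¹
  rw [incQ_apply, hV', hy, map_mul, H516.coeffMap_C, ← incQ_apply, iotaR_apply, coe_iota_single,
    ← HahnSeries.C_apply, ← map_inv₀, hc, map_inv₀, mul_comm]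
  rfl

end Fermat.Agent.S18.H576

end
end
-- ===== PACK-END S18/H576/Transport.lean

-- ===== PACK-BEGIN S18/B12/H203/DiscrRed.lean
section




/-!
# S18 / b2.5, piece A3: discriminant reduction mod `w` (`DiscrRedStatement`)

`P` an integrally closed domain, `B` an integrally closed domain, finite and torsion-free over `P`,
`w ∈ P` prime, `𝔪 ∋ w` a prime ideal, `x` a basis of `B` locally at `𝔪` (`g • B ⊆ span x`, `g ∉ 𝔪`),
`bb` a basis of `B/wB` over `P/(w)`.  Then `bb` has as many elements as `x` and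
`intDiscr x mod w = ū² · disc bb` with `u ∉ 𝔪`.
-/

set_option autoImplicit false
set_option linter.unusedSectionVars false
set_option linter.unusedVariables false

noncomputable section

namespace Fermat.Agent.S18.B12.H203

open Fermat.Agent.S18.H203

universe u v

section Quasi

variable {P : Type*} {B : Type*} [CommRing P] [CommRing B] [Algebra P B]
  {ι : Type*} [Fintype ι]

/-- Coefficients of `g • b` with respect to a quasi-basis. -/
theorem exists_coef_of_smul_mem (x : ι → B) (g : P)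
    (hg : ∀ b : B, g • b ∈ Submodule.span P (Set.range x)) :
    ∃ c : B → ι → P, ∀ b, g • b = ∑ i, c b i • x i := by
  choose c hc using fun b => (Submodule.mem_span_range_iff_exists_fun P).mp (hg b)
  exact ⟨c, fun b => (hc b).symm⟩

/-- The reduction mod `w` of a quasi-basis (with `w ∤ g`) is linearly independent. -/
theorem linearIndependent_red_of_quasi [IsDomain P] {w : P} (hw : Prime w) (x : ι → B)
    (hli : LinearIndependent P x) (g : P) (hgw : ¬ w ∣ g)
    (hg : ∀ b : B, g • b ∈ Submodule.span P (Set.range x)) :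
    LinearIndependent (P ⧸ Ideal.span {w}) fun i => redB (S := P) w (x i) := by
  obtain ⟨c, hc⟩ := exists_coef_of_smul_mem x g hg
  rw [Fintype.linearIndependent_iff]
  intro ab hab i
  choose a ha using fun i => Ideal.Quotient.mk_surjective (ab i)
  have h1 : redB (S := P) w (∑ i, a i • x i) = 0 := by
    rw [map_sum, ← hab]
    refine Finset.sum_congr rfl fun i _ => ?_
    rw [redB_smul, ha]
  rw [redB_eq_zero_iff] at h1
  obtain ⟨b', hb'⟩ := h1
  have h2 : ∑ i, (g * a i) • x i = ∑ i, (w * c b' i) • x i := by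
    calc ∑ i, (g * a i) • x i = g • ∑ i, a i • x i := by
          rw [Finset.smul_sum]
          exact Finset.sum_congr rfl fun i _ => mul_smul _ _ _
      _ = g • (algebraMap P B w * b') := by rw [hb']
      _ = w • (g • b') := by rw [← Algebra.smul_def, smul_comm]
      _ = ∑ i, (w * c b' i) • x i := by
          rw [hc, Finset.smul_sum]
          exact Finset.sum_congr rfl fun i _ => (mul_smul _ _ _).symm
  have h3 : g * a i = w * c b' i := by
    have := Fintype.linearIndependent_iff.mp hli (fun i => g * a i - w * c b' i) (by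
      simp only [sub_smul, Finset.sum_sub_distrib, h2, sub_self])
    exact sub_eq_zero.mp (this i)
  have h4 : w ∣ a i := (hw.dvd_or_dvd ⟨c b' i, h3⟩).resolve_left hgw
  rw [← ha i]
  exact (redS_eq_zero_iff w (a i)).mpr h4

end Quasi

section Abstract

variable {A V : Type*} [CommRing A] [CommRing V] [Algebra A V] {n : ℕ}

/-- If `g • bb j = ∑ i, N i j • xb i` then `toMatrix bb xb * N = g • 1`. -/
theorem toMatrix_mul_eq_smul_one (bb : Module.Basis (Fin n) A V) (xb : Fin n → V) (g : A)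
    (N : Matrix (Fin n) (Fin n) A) (hN : ∀ j, g • bb j = ∑ i, N i j • xb i) :
    bb.toMatrix xb * N = g • (1 : Matrix (Fin n) (Fin n) A) := by
  ext l j
  have h := congrArg (fun v => bb.repr v l) (hN j)
  simp only [map_smul, Finsupp.smul_apply, smul_eq_mul, map_sum, Finsupp.coe_finsetSum,
    Finset.sum_apply, Module.Basis.repr_self, Finsupp.single_apply] at h
  rw [Matrix.mul_apply, Matrix.smul_apply, Matrix.one_apply, smul_eq_mul]
  simp only [Module.Basis.toMatrix_apply]
  rw [show (∑ k, bb.repr (xb k) l * N k j) = ∑ k, N k j * bb.repr (xb k) l from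
    Finset.sum_congr rfl fun k _ => mul_comm _ _, ← h]
  by_cases hlj : l = j
  · simp [hlj]
  · have : ¬ j = l := fun h' => hlj h'.symm
    simp [hlj, this]

/-- The determinant of the transition matrix to a quasi-basis is nonzero. -/
theorem det_toMatrix_ne_zero [IsDomain A] (bb : Module.Basis (Fin n) A V) (xb : Fin n → V)
    (g : A) (hg0 : g ≠ 0) (N : Matrix (Fin n) (Fin n) A)
    (hN : ∀ j, g • bb j = ∑ i, N i j • xb i) :
    (bb.toMatrix xb).det * N.det = g ^ n ∧ (bb.toMatrix xb).det ≠ 0 := by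
  have h := congrArg Matrix.det (toMatrix_mul_eq_smul_one bb xb g N hN)
  rw [Matrix.det_mul, Matrix.det_smul, Matrix.det_one, mul_one, Fintype.card_fin] at h
  refine ⟨h, fun h0 => ?_⟩
  rw [h0, zero_mul] at h
  exact pow_ne_zero n hg0 h.symm

/-- Trace from a "matrix up to a scalar" with respect to a quasi-basis. -/
theorem mul_trace_eq_trace_of_quasi [IsDomain A] (bb : Module.Basis (Fin n) A V)
    (xb : Fin n → V) (hdet : (bb.toMatrix xb).det ≠ 0) (g : A) (β : V)
    (m : Matrix (Fin n) (Fin n) A) (hm : ∀ j, g • (β * xb j) = ∑ i, m i j • xb i) :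
    g * Algebra.trace A V β = m.trace := by
  set M := bb.toMatrix xb with hM
  set T := Algebra.leftMulMatrix bb β with hT
  have key : g • (T * M) = M * m := by
    ext l j
    have h := congrArg (fun v => bb.repr v l) (hm j)
    simp only [map_smul, Finsupp.smul_apply, smul_eq_mul, map_sum, Finsupp.coe_finsetSum,
      Finset.sum_apply] at h
    rw [Matrix.smul_apply, smul_eq_mul, Matrix.mul_apply, Matrix.mul_apply]
    have h1 : ∑ k, T l k * M k j = bb.repr (β * xb j) l := by
      have := congrFun (Algebra.leftMulMatrix_mulVec_repr bb β (xb j)) l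
      rw [← this]
      rfl
    rw [h1, h]
    exact Finset.sum_congr rfl fun k _ => mul_comm _ _
  have h1 : M.det * (g * T.trace) = M.det * m.trace := by
    calc M.det * (g * T.trace) = ((g • (T * M)) * M.adjugate).trace := by
          rw [Matrix.smul_mul, Matrix.mul_assoc, Matrix.mul_adjugate, Matrix.trace_smul,
            Matrix.mul_smul, Matrix.trace_smul, Matrix.mul_one, smul_eq_mul, smul_eq_mul]
          ring
      _ = (M * m * M.adjugate).trace := by rw [key]
      _ = (M.adjugate * (M * m)).trace := by rw [Matrix.trace_mul_comm]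
      _ = M.det * m.trace := by
          rw [← Matrix.mul_assoc, Matrix.adjugate_mul, Matrix.smul_mul, Matrix.one_mul,
            Matrix.trace_smul, smul_eq_mul]
  rw [Algebra.trace_eq_matrix_trace bb]
  exact mul_left_cancel₀ hdet h1

end Abstract

section Generic

variable {S B : Type*} [CommRing S] [IsDomain S] [CommRing B] [Algebra S B]
  {ι : Type*} [Fintype ι]

/-- A linearly independent family of `B` stays linearly independent in the generic fibre. -/
theorem linearIndependent_map_of_linearIndependent (K F : Type*) [Field K] [Algebra S K]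
    [IsFractionRing S K] [Field F] [Algebra K F] [Algebra S F] [IsScalarTower S K F]
    [Algebra B F] [IsScalarTower S B F] [IsIntegralClosure B S F]
    (b : ι → B) (h1 : LinearIndependent S b) :
    LinearIndependent K fun i => algebraMap B F (b i) := by
  have h2 : LinearIndependent S fun i => algebraMap B F (b i) := by
    have := h1.map' (IsScalarTower.toAlgHom S B F).toLinearMap
      (LinearMap.ker_eq_bot.mpr (IsIntegralClosure.algebraMap_injective B S F))
    exact this
  exact (LinearIndependent.iff_fractionRing S K).mp h2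

/-- A quasi-basis spans the generic fibre. -/
theorem span_map_eq_top_of_smul_mem (K F : Type*) [Field K] [Algebra S K]
    [IsFractionRing S K] [Field F] [Algebra K F] [Algebra S F] [IsScalarTower S K F]
    [Algebra B F] [IsScalarTower S B F] [IsIntegralClosure B S F]
    [Algebra.IsAlgebraic K F]
    (r : S) (hr0 : r ≠ 0) (b : ι → B)
    (hr : ∀ β : B, r • β ∈ Submodule.span S (Set.range b)) :
    Submodule.span K (Set.range fun i => algebraMap B F (b i)) = ⊤ := by
  have hinjSK : Function.Injective (algebraMap S K) := IsFractionRing.injective S K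
  rw [eq_top_iff]
  intro f _
  have hf : IsAlgebraic S f := by
    have := Algebra.IsAlgebraic.isAlgebraic (R := K) f
    exact (IsFractionRing.isAlgebraic_iff S K F).mpr this
  obtain ⟨y, hy0, hy⟩ := hf.exists_integral_multiple
  obtain ⟨β, hβ⟩ := (IsIntegralClosure.isIntegral_iff (A := B)).mp hy
  have h1 := hr β
  have h2 : algebraMap B F (r • β) ∈
      Submodule.span K (Set.range fun i => algebraMap B F (b i)) := by
    have h3 : (IsScalarTower.toAlgHom S B F).toLinearMap (r • β) ∈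
        Submodule.map (IsScalarTower.toAlgHom S B F).toLinearMap
          (Submodule.span S (Set.range b)) := Submodule.mem_map_of_mem h1
    rw [Submodule.map_span, ← Set.range_comp] at h3
    have h4 : Submodule.span S (Set.range ((IsScalarTower.toAlgHom S B F).toLinearMap ∘ b)) ≤
        (Submodule.span K (Set.range fun i => algebraMap B F (b i))).restrictScalars S := by
      rw [Submodule.span_le]
      rintro _ ⟨i, rfl⟩
      exact Submodule.subset_span ⟨i, rfl⟩
    exact h4 h3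
  have h5 : algebraMap B F (r • β) = (algebraMap S K (r * y)) • f := by
    rw [Algebra.smul_def r β, map_mul, hβ, ← IsScalarTower.algebraMap_apply,
      Algebra.smul_def y f, Algebra.smul_def, ← IsScalarTower.algebraMap_apply, map_mul]
    ring
  rw [h5] at h2
  have h6 : algebraMap S K (r * y) ≠ 0 := by
    simpa using (map_ne_zero_iff _ hinjSK).mpr (mul_ne_zero hr0 hy0)
  have h7 := Submodule.smul_mem _ (algebraMap S K (r * y))⁻¹ h2
  rwa [smul_smul, inv_mul_cancel₀ h6, one_smul] at h7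

/-- The `K`-basis of the generic fibre given by a quasi-basis. -/
def quasiBasis (K F : Type*) [Field K] [Algebra S K]
    [IsFractionRing S K] [Field F] [Algebra K F] [Algebra S F] [IsScalarTower S K F]
    [Algebra B F] [IsScalarTower S B F] [IsIntegralClosure B S F]
    [Algebra.IsAlgebraic K F]
    (b : ι → B) (hli : LinearIndependent S b) (r : S) (hr0 : r ≠ 0)
    (hr : ∀ β : B, r • β ∈ Submodule.span S (Set.range b)) :
    Module.Basis ι K F :=
  Module.Basis.mk (linearIndependent_map_of_linearIndependent K F b hli)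
    (span_map_eq_top_of_smul_mem K F r hr0 b hr).ge

@[simp]
theorem quasiBasis_apply (K F : Type*) [Field K] [Algebra S K]
    [IsFractionRing S K] [Field F] [Algebra K F] [Algebra S F] [IsScalarTower S K F]
    [Algebra B F] [IsScalarTower S B F] [IsIntegralClosure B S F]
    [Algebra.IsAlgebraic K F]
    (b : ι → B) (hli : LinearIndependent S b) (r : S) (hr0 : r ≠ 0)
    (hr : ∀ β : B, r • β ∈ Submodule.span S (Set.range b)) (i : ι) :
    quasiBasis K F b hli r hr0 hr i = algebraMap B F (b i) := by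
  simp [quasiBasis]

/-- Trace in the generic fibre from a matrix up to a scalar, with respect to a quasi-basis. -/
theorem mul_trace_eq_sum_of_quasi [DecidableEq ι] (K F : Type*) [Field K] [Algebra S K]
    [IsFractionRing S K] [Field F] [Algebra K F] [Algebra S F] [IsScalarTower S K F]
    [Algebra B F] [IsScalarTower S B F] [IsIntegralClosure B S F]
    [Algebra.IsAlgebraic K F]
    (b : ι → B) (hli : LinearIndependent S b) (r : S) (hr0 : r ≠ 0)
    (hr : ∀ β : B, r • β ∈ Submodule.span S (Set.range b))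
    (β : B) (m : ι → ι → S) (hm : ∀ j, r • (β * b j) = ∑ i, m i j • b i) :
    algebraMap S K r * Algebra.trace K F (algebraMap B F β) = ∑ i, algebraMap S K (m i i) := by
  have hK : ∀ j, algebraMap S K r • (algebraMap B F β * quasiBasis K F b hli r hr0 hr j) =
      ∑ i, algebraMap S K (m i j) • quasiBasis K F b hli r hr0 hr i := by
    intro j
    have := congrArg (algebraMap B F) (hm j)
    simp only [map_sum, Algebra.smul_def, map_mul, ← IsScalarTower.algebraMap_apply] at this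
    simp only [quasiBasis_apply, Algebra.smul_def, ← IsScalarTower.algebraMap_apply]
    exact this
  exact mul_trace_eq_sum (quasiBasis K F b hli r hr0 hr) (algebraMap B F β) (algebraMap S K r)
    (fun i j => algebraMap S K (m i j)) hK

end Generic

section IntTrace

variable {P : Type u} {B : Type v} [CommRing P] [IsDomain P] [IsIntegrallyClosed P]
  [CommRing B] [IsDomain B] [IsIntegrallyClosed B] [Algebra P B] [Module.Finite P B]
  [Module.IsTorsionFree P B] {ι : Type*} [Fintype ι] [DecidableEq ι]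

open nonZeroDivisors in
/-- The integral trace from a matrix up to a scalar, with respect to a quasi-basis. -/
theorem mul_intTrace_eq_sum_of_quasi
    (b : ι → B) (hli : LinearIndependent P b) (r : P) (hr0 : r ≠ 0)
    (hr : ∀ β : B, r • β ∈ Submodule.span P (Set.range b))
    (β : B) (m : ι → ι → P) (hm : ∀ j, r • (β * b j) = ∑ i, m i j • b i) :
    r * Algebra.intTrace P B β = ∑ i, m i i := by
  let _ : Algebra (FractionRing P) (FractionRing B) := FractionRing.liftAlgebra P _
  have : IsScalarTower P (FractionRing P) (FractionRing B) :=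
    FractionRing.isScalarTower_liftAlgebra P (FractionRing B)
  have : IsIntegralClosure B P (FractionRing B) :=
    IsIntegralClosure.of_isIntegrallyClosed _ _ _
  have : Algebra.IsAlgebraic (FractionRing P) (FractionRing B) :=
    isAlgebraic_of_isFractionRing P B ..
  apply IsFractionRing.injective P (FractionRing P)
  rw [map_mul, Algebra.algebraMap_intTrace_fractionRing, map_sum]
  exact mul_trace_eq_sum_of_quasi (FractionRing P) (FractionRing B) b hli r hr0 hr β m hm

end IntTrace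

section Final

variable {P : Type u} {B : Type v} [CommRing P] [IsDomain P] [CommRing B] [Algebra P B]

/-- Reduction of the quasi-basis relation: `ḡ • β̄ ∈ span x̄`, with coefficients. -/
theorem exists_red_coef {w : P} {ι : Type*} [Fintype ι] (x : ι → B) (g : P)
    (hg : ∀ b : B, g • b ∈ Submodule.span P (Set.range x))
    (y : B ⧸ (Ideal.span {w}).map (algebraMap P B)) :
    ∃ c : ι → P ⧸ Ideal.span {w}, redS w g • y = ∑ i, c i • redB (S := P) w (x i) := by
  obtain ⟨b, rfl⟩ := Ideal.Quotient.mk_surjective y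
  obtain ⟨c, hc⟩ := (Submodule.mem_span_range_iff_exists_fun P).mp (hg b)
  refine ⟨fun i => redS w (c i), ?_⟩
  have := congrArg (redB (S := P) w) hc
  rw [redB_smul] at this
  rw [← this, map_sum]
  exact Finset.sum_congr rfl fun i _ => (redB_smul w (c i) (x i)).symm

theorem isDomain_quotient_span_of_prime {w : P} (hw : Prime w) :
    IsDomain (P ⧸ Ideal.span {w}) := by
  have : (Ideal.span {w}).IsPrime := (Ideal.span_singleton_prime hw.ne_zero).mpr hw
  exact Ideal.Quotient.isDomain _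

/-- A basis of the special fibre has as many elements as a quasi-basis. -/
theorem card_eq_of_quasi {w : P} (hw : Prime w) {n n' : ℕ} (x : Fin n → B)
    (hli : LinearIndependent P x) (g : P) (hgw : ¬ w ∣ g)
    (hg : ∀ b : B, g • b ∈ Submodule.span P (Set.range x))
    (bb : Module.Basis (Fin n') (P ⧸ Ideal.span {w})
      (B ⧸ (Ideal.span {w}).map (algebraMap P B))) : n' = n := by
  have hdom : IsDomain (P ⧸ Ideal.span {w}) := isDomain_quotient_span_of_prime hw
  have hg0 : redS w g ≠ 0 := fun h => hgw ((redS_eq_zero_iff w g).mp h)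
  apply le_antisymm
  · -- `ḡ • bb` is linearly independent inside `span x̄`
    have hv : LinearIndependent (P ⧸ Ideal.span {w}) fun j => redS w g • bb j := by
      rw [Fintype.linearIndependent_iff]
      intro a ha j
      have h1 : ∑ j, (a j * redS w g) • bb j = 0 := by
        rw [← ha]
        exact Finset.sum_congr rfl fun j _ => mul_smul _ _ _
      have h2 := Fintype.linearIndependent_iff.mp bb.linearIndependent _ h1 j
      exact (mul_eq_zero.mp h2).resolve_right hg0
    have hsub : Set.range (fun j => redS w g • bb j) ≤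
        Submodule.span (P ⧸ Ideal.span {w}) (Set.range fun i => redB (S := P) w (x i)) := by
      rintro _ ⟨j, rfl⟩
      obtain ⟨c, hc⟩ := exists_red_coef (w := w) x g hg (bb j)
      simp only [SetLike.mem_coe]
      rw [hc]
      exact Submodule.sum_mem _ fun i _ => Submodule.smul_mem _ _ (Submodule.subset_span ⟨i, rfl⟩)
    classical
    have h3 := linearIndependent_le_span_aux' _ hv _ hsub
    have h4 := Fintype.card_range_le (fun i => redB (S := P) w (x i))
    simpa using h3.trans h4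
  · have hxb := linearIndependent_red_of_quasi hw x hli g hgw hg
    have hfin : Module.Finite (P ⧸ Ideal.span {w})
        (B ⧸ (Ideal.span {w}).map (algebraMap P B)) := Module.Finite.of_basis bb
    have h1 := hxb.fintype_card_le_finrank
    rw [Module.finrank_eq_card_basis bb] at h1
    simpa using h1

end Final

section Final2

variable {P : Type u} {B : Type v} [CommRing P] [IsDomain P] [IsIntegrallyClosed P]
  [CommRing B] [IsDomain B] [IsIntegrallyClosed B] [Algebra P B] [Module.Finite P B]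
  [Module.IsTorsionFree P B]

/-- **The integral trace commutes with reduction mod `w`** (quasi-basis version). -/
theorem trace_red_of_quasi {w : P} (hw : Prime w) {n : ℕ} (x : Fin n → B)
    (hli : LinearIndependent P x) (g : P) (hgw : ¬ w ∣ g)
    (hg : ∀ b : B, g • b ∈ Submodule.span P (Set.range x))
    (bb : Module.Basis (Fin n) (P ⧸ Ideal.span {w})
      (B ⧸ (Ideal.span {w}).map (algebraMap P B))) (β : B) :
    Algebra.trace (P ⧸ Ideal.span {w}) (B ⧸ (Ideal.span {w}).map (algebraMap P B))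
      (redB (S := P) w β) = redS w (Algebra.intTrace P B β) := by
  have hdom : IsDomain (P ⧸ Ideal.span {w}) := isDomain_quotient_span_of_prime hw
  have hgb0 : redS w g ≠ 0 := fun h => hgw ((redS_eq_zero_iff w g).mp h)
  have hg0 : g ≠ 0 := by
    rintro rfl
    exact hgw (dvd_zero w)
  obtain ⟨c, hc⟩ := exists_coef_of_smul_mem x g hg
  -- generic side
  have e1 : g * Algebra.intTrace P B β = ∑ i, c (β * x i) i :=
    mul_intTrace_eq_sum_of_quasi x hli g hg0 hg β (fun i j => c (β * x j) i)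
      (fun j => hc (β * x j))
  -- special side
  choose N hN using fun j => exists_red_coef (w := w) x g hg (bb j)
  have hdet := (det_toMatrix_ne_zero bb (fun i => redB (S := P) w (x i)) (redS w g) hgb0
    (Matrix.of fun i j => N j i) (fun j => by simpa using hN j)).2
  have e2 := mul_trace_eq_trace_of_quasi bb (fun i => redB (S := P) w (x i)) hdet (redS w g)
    (redB (S := P) w β) (Matrix.of fun i j => redS w (c (β * x j) i)) (fun j => by
      have := congrArg (redB (S := P) w) (hc (β * x j))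
      rw [redB_smul, map_mul, map_sum] at this
      rw [this]
      exact Finset.sum_congr rfl fun i _ => redB_smul w _ _)
  have e3 : redS w g * Algebra.trace (P ⧸ Ideal.span {w})
      (B ⧸ (Ideal.span {w}).map (algebraMap P B)) (redB (S := P) w β) =
      redS w g * redS w (Algebra.intTrace P B β) := by
    rw [e2, ← map_mul, e1, map_sum]
    rfl
  exact mul_left_cancel₀ hgb0 e3

end Final2

/-- **A3 (discriminant reduction mod `w`).** -/
theorem discrRed.{u₁, v₁} : DiscrRedStatement.{u₁, v₁} := by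
  intro P _ _ _ B _ _ _ _ _ _ w hw 𝔪 h𝔪 hwm n x hx n' bb
  obtain ⟨hli, g, hgm, hg⟩ := hx
  have hgw : ¬ w ∣ g := fun h => hgm (Ideal.mem_of_dvd 𝔪 h hwm)
  have hnn : n' = n := card_eq_of_quasi hw x hli g hgw hg bb
  subst hnn
  refine ⟨rfl, ?_⟩
  have hdom : IsDomain (P ⧸ Ideal.span {w}) := isDomain_quotient_span_of_prime hw
  have hgb0 : redS w g ≠ 0 := fun h => hgw ((redS_eq_zero_iff w g).mp h)
  choose N hN using fun j => exists_red_coef (w := w) x g hg (bb j)
  obtain ⟨hMN, hdet⟩ := det_toMatrix_ne_zero bb (fun i => redB (S := P) w (x i)) (redS w g) hgb0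
    (Matrix.of fun i j => N j i) (fun j => by simpa using hN j)
  obtain ⟨u, hu⟩ := Ideal.Quotient.mk_surjective (bb.toMatrix fun i => redB (S := P) w (x i)).det
  obtain ⟨v, hv⟩ := Ideal.Quotient.mk_surjective (Matrix.of fun i j => N j i).det
  refine ⟨u, ?_, ?_⟩
  · intro hum
    have h1 : redS w (u * v - g ^ n') = 0 := by
      rw [map_sub, map_mul, map_pow]
      change Ideal.Quotient.mk _ u * Ideal.Quotient.mk _ v - _ = 0
      rw [hu, hv, hMN, sub_self]
    rw [redS_eq_zero_iff] at h1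
    have h2 : u * v - g ^ n' ∈ 𝔪 := Ideal.mem_of_dvd 𝔪 h1 hwm
    have h3 : g ^ n' ∈ 𝔪 := by
      have := 𝔪.sub_mem (𝔪.mul_mem_right v hum) h2
      simpa using this
    exact hgm (h𝔪.mem_of_pow_mem n' h3)
  · rw [hu]
    have hx' : (fun i => redB (S := P) w (x i)) =
        Matrix.vecMul (⇑bb) ((bb.toMatrix fun i => redB (S := P) w (x i)).map
          (algebraMap (P ⧸ Ideal.span {w}) (B ⧸ (Ideal.span {w}).map (algebraMap P B)))) := by
      funext j
      rw [← Module.Basis.sum_toMatrix_smul_self bb (fun i => redB (S := P) w (x i)) j]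
      simp only [Matrix.vecMul, dotProduct, Matrix.map_apply, Algebra.smul_def]
      exact Finset.sum_congr rfl fun i _ => mul_comm _ _
    rw [← Algebra.discr_of_matrix_vecMul, ← hx', Algebra.discr_def, intDiscr, RingHom.map_det]
    congr 1
    ext i j
    simp only [RingHom.mapMatrix_apply, Matrix.map_apply, Matrix.of_apply,
      Algebra.traceMatrix_apply, Algebra.traceForm_apply]
    rw [← map_mul]
    exact (trace_red_of_quasi hw x hli g hgw hg bb (x i * x j)).symm

end Fermat.Agent.S18.B12.H203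

end
end
-- ===== PACK-END S18/B12/H203/DiscrRed.lean

-- ===== PACK-BEGIN S28/H748/Package.lean
section



/-!
# S28 / H748 — the analytic package `ModFunPackage N` (interface of helper868)

`modFunPackage N : ModFunPackage N`, hence `Nonempty (ModFunPackage N)`, for every `N ≥ 1`.
-/

set_option autoImplicit false

noncomputable section

open UpperHalfPlane HahnSeries ModularCurve Fermat.Agent.S24
open scoped Real MatrixGroups Manifold

namespace Fermat.Agent.S28.H748

local notation "Δ" => ModularForm.discriminant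

theorem iotaN_jq (N : ℕ) [NeZero N] : iotaN N jq = qExpand ℂ N (jqModC ℂ) := by
  rw [iotaN, RingHom.comp_apply, ← jqModC_rat, coeffMap_jqModC]

theorem coeffMap_qExpand_comm {R S : Type*} [CommRing R] [CommRing S] (f : R →+* S) (n : ℕ)
    [NeZero n] (x : LaurentSeries R) :
    coeffMap f (qExpand R n x) = qExpand S n (coeffMap f x) := by
  ext k
  rw [coeffMap_coeff]
  by_cases hk : (n : ℤ) ∣ k
  · obtain ⟨m, rfl⟩ := hk
    rw [qExpand_coeff_mul, qExpand_coeff_mul, coeffMap_coeff]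
  · rw [qExpand_coeff_of_not_dvd n x hk, qExpand_coeff_of_not_dvd n _ hk, map_zero]

theorem coeffMap_deltaq : coeffMap (algebraMap ℚ ℂ) deltaq = H565.deltaSeriesC := by
  rw [deltaq, H565.deltaSeriesC, map_mul, coeffMap_single, map_one, coeffMap_ofPowerSeries,
    H565.etaProdC, ← map_pow, ← dedekindEtaUnit]
  congr 2

theorem qExpand_deltaInv (N : ℕ) [NeZero N] :
    (qExpand ℂ N H565.deltaSeriesC)⁻¹ = qExpand ℂ N H565.deltaInvSeriesC := by
  apply inv_eq_of_mul_eq_one_right
  rw [← map_mul, H565.deltaSeriesC_mul_inv, map_one]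

theorem iotaN_unitq (N p : ℕ) [NeZero N] [NeZero p] :
    iotaN N (unitq p) =
      qExpand ℂ N (qExpand ℂ p H565.deltaSeriesC) * qExpand ℂ N H565.deltaInvSeriesC := by
  rw [iotaN, RingHom.comp_apply, unitq, map_div₀, map_div₀, coeffMap_qExpand_comm,
    coeffMap_deltaq, div_eq_mul_inv, qExpand_deltaInv]

theorem iotaN_qExpand_jq (N d : ℕ) [NeZero N] [NeZero d] :
    iotaN N (qExpand ℚ d jq) = qExpand ℂ N (qExpand ℂ d (jqModC ℂ)) := by
  rw [iotaN, RingHom.comp_apply, coeffMap_qExpand_comm, ← jqModC_rat, coeffMap_jqModC]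

theorem twist_eq_infTwist (u : ℂˣ) (φ : LaurentSeries ℂ) :
    Fermat.Agent.S28.twist u φ = infTwist u φ := by
  ext n
  rw [twist_coeff, infTwist_coeff, mul_comm]

theorem infRoot_neg_one_pow (N : ℕ) [NeZero N] : infRoot (-1) N ^ N = 1 := by
  apply Units.ext
  rw [Units.val_pow_eq_pow_val, infRoot_coe, Units.val_one, ← Complex.exp_nat_mul]
  have hN : (N : ℂ) ≠ 0 := by exact_mod_cast NeZero.ne N
  have : (N : ℂ) * (2 * Real.pi * Complex.I * ((-1 : ℤ) : ℂ) / N) = -(2 * Real.pi * Complex.I) := by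
    push_cast
    field_simp
  rw [this, Complex.exp_neg, Complex.exp_two_pi_mul_I, inv_one]

/-- **The analytic package.** -/
def modFunPackage (N : ℕ) [NeZero N] : ModFunPackage N where
  ι := Idx N
  fin := idxFintype N
  gen := genS N
  perm := idxPerm N
  rel := family_rel
  inv := fun p h => by
    rw [iotaN_jq]
    exact family_inv p h
  coeff_mem := fun i n => genS_mem N i n
  twistUnit := infRoot (-1) N
  twistUnit_pow := infRoot_neg_one_pow N
  perm_T := fun i => by rw [family_perm_T, twist_eq_infTwist]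
  idxJ := fun d _ hd => ⟨conjJ d 0 1, conjJ_mem_famSet (Nat.pos_of_ne_zero (NeZero.ne d)) hd⟩
  gen_idxJ := fun d _ hd => by
    rw [iotaN_qExpand_jq]
    exact genS_eq _ (infExp_conjJ_base N d)
  fixJ := fun d _ hd γ hγ => by
    apply Subtype.ext
    funext τ
    rw [idxPerm_val]
    exact conjJ_Gamma0 (Nat.pos_of_ne_zero (NeZero.ne d)) hd (inv_mem hγ) τ
  idxU := fun p _ _ hpN => ⟨conjU p 0 1, conjU_mem_famSet (Nat.pos_of_ne_zero (NeZero.ne p)) hpN⟩
  gen_idxU := fun p _ _ hpN => by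
    rw [iotaN_unitq]
    exact genS_eq _ (infExp_conjU_base N p)
  fixU := fun p _ _ hpN γ hγ => by
    apply Subtype.ext
    funext τ
    rw [idxPerm_val]
    exact conjU_Gamma0 (Nat.pos_of_ne_zero (NeZero.ne p)) (dvd_refl p) (inv_mem hγ) τ

/-- The deliverable of the analytic side (statement of `H868/AnalyticGoal.lean`). -/
theorem exists_modFunPackage748 (N : ℕ) [NeZero N] : Nonempty (ModFunPackage N) :=
  ⟨modFunPackage N⟩

end Fermat.Agent.S28.H748

end

end
-- ===== PACK-END S28/H748/Package.lean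

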