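import Mathlib
import Fermat.Prelude.Def_ModularCurve_JqCoeff
import Fermat.Agent.Pack.S36.E13L0
import Fermat.Agent.Pack.S36.E4L1
import Fermat.Agent.Pack.S36.E7L3
import Fermat.Agent.Pack.S36.E11L0
import Fermat.Agent.Pack.S36.E7L2
import Fermat.Agent.Pack.S36.E11L1
import Fermat.Agent.Pack.S36.E0L3
import Fermat.Agent.Pack.S36.E13L2
import Fermat.Agent.Pack.S36.E13L3
import Fermat.Agent.Pack.S36.E13L1
import Fermat.Agent.Pack.S36.E5L1
import Fermat.Agent.Pack.S36.E12L3
import Fermat.Agent.Pack.S36.E12L2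
import Fermat.Agent.Pack.S36.E11L3
import Fermat.Agent.Pack.S36.E6L0
import Fermat.Agent.Pack.S36.E3L1

-- ===== PACK-BEGIN S28/H867/Core.lean
section








set_option autoImplicit false
noncomputable section
open ModularCurve HahnSeries IntermediateField Polynomial

namespace Fermat.Agent.S28.H867

section Psi

theorem gFun_eq_dedekindPsi : ∀ {N : ℕ}, N ≠ 0 → gFun N = dedekindPsi N := by
  intro N
  induction N using Nat.strong_induction_on with
  | _ N ih =>
    intro hN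
    rcases Nat.lt_or_ge 1 N with hN1 | hN1
    swap
    · have : N = 1 := by omega
      subst this
      rw [gFun_one, dedekindPsi_one]
    have hpp : N.minFac.Prime := Nat.minFac_prime (by omega)
    have hpN : N.minFac ∣ N := Nat.minFac_dvd N
    have hNe : N / N.minFac * N.minFac = N := Nat.div_mul_cancel hpN
    have hM0 : N / N.minFac ≠ 0 := fun h0 => hN (by rw [← hNe, h0, zero_mul])
    have hlt : N / N.minFac < N := Nat.div_lt_self (by omega) hpp.one_lt
    have ihM := ih _ hlt hM0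
    by_cases hd : N.minFac ∣ N / N.minFac
    · calc gFun N = gFun (N / N.minFac * N.minFac) := by rw [hNe]
        _ = N.minFac * gFun (N / N.minFac) := gFun_mul_of_dvd hM0 hpp hd
        _ = N.minFac * dedekindPsi (N / N.minFac) := by rw [ihM]
        _ = dedekindPsi (N / N.minFac * N.minFac) := (H626.psi_mul_prime_of_dvd hM0 hpp hd).symm
        _ = dedekindPsi N := by rw [hNe]
    · calc gFun N = gFun (N / N.minFac * N.minFac) := by rw [hNe]
        _ = (N.minFac + 1) * gFun (N / N.minFac) := gFun_mul_of_not_dvd hM0 hpp hd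
        _ = (N.minFac + 1) * dedekindPsi (N / N.minFac) := by rw [ihM]
        _ = dedekindPsi (N / N.minFac * N.minFac) :=
            (H626.psi_mul_prime_of_not_dvd hM0 hpp hd).symm
        _ = dedekindPsi N := by rw [hNe]

end Psi

section Adapters

variable (k : Type*) [Field k]

/-- Leaf [L.I] from helper145's `eq_zero_of_sum_qExpand_mul_pow_eq_zero`. -/
theorem leafI (p : ℕ) [NeZero p] : LeafI k p := by
  intro B hB
  rw [Fintype.linearIndependent_iff]
  intro g hg i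
  have hc : ∀ i, ∃ c : LaurentSeries k, qExpand k p c = (g i : LaurentSeries k) := by
    intro i
    obtain ⟨c, hc⟩ := hB (g i).2
    exact ⟨c, hc⟩
  choose c hc using hc
  have h : ∑ i : Fin p, qExpand k p (c i) * (jqModC k) ^ (i : ℕ) = 0 := by
    rw [← hg]
    refine Finset.sum_congr rfl fun i _ => ?_
    rw [hc i]
    rfl
  have := H145.eq_zero_of_sum_qExpand_mul_pow_eq_zero p (jqModC k) (H145.jqModC_ne_zero' k)
    (H145.isCoprime_order_jqModC k p) c h i
  apply Subtype.ext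
  rw [← hc i, this, map_zero]
  rfl

/-- Leaf [L.B1] from helper88's `h88_jp_not_mem_jField`. -/
theorem leafB1 (p : ℕ) [NeZero p] (hp : p.Prime) (hpk : (p : k) ≠ 0) (W : UnitPolyData p)
    (hθ : (thetaL ℤ (jqModC ℤ)) ^ 6 = deltaL ℤ * (jqModC ℤ) ^ 4 * (jqModC ℤ - 1728) ^ 3) :
    LeafB1 k p :=
  h88_jp_not_mem_jField k p hpk hp.one_lt W hθ

/-- `ModPolyData` in helper626's hypothesis form. -/
theorem isModPoly_of_modPolyData {p : ℕ} [NeZero p] (D : ModPolyData p) :
    H626.IsModPoly p D.Φ := by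
  have hev : ∀ y x : LaurentSeries ℤ, H626.ev2 D.Φ y x = D.Φ.eval₂ (evalAt y) x := by
    intro y x
    unfold H626.ev2
    congr 1
    apply Polynomial.ringHom_ext
    · intro a; simp [evalAt]
    · simp [evalAt]
  refine ⟨D.monic, D.natDegree_eq, ?_, ?_⟩
  · rw [hev]; exact D.eval_jp
  · rw [hev]; exact D.eval_j

end Adapters

end Fermat.Agent.S28.H867

namespace Fermat.Agent.S28.H867

section Assembly

variable (k : Type*) [Field k]

theorem hasModPolys (N : ℕ)
    (hΦ : ∀ p : ℕ, p.Prime → p ∣ N → ∀ [NeZero p], Nonempty (ModPolyData p))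
    (hchar : ∀ p : ℕ, p.Prime → p ∣ N → (p : k) ≠ 0) : H626.HasModPolys k N := by
  intro p hp hpN
  have : NeZero p := ⟨hp.ne_zero⟩
  obtain ⟨D⟩ := hΦ p hp hpN
  exact ⟨hchar p hp hpN, D.Φ, isModPoly_of_modPolyData D⟩

/-- The upper bound in `relfinrank` form. -/
theorem degE_le_gFun (M : ℕ) (hM : M ≠ 0) (H : H626.HasModPolys k M) : degE k M ≤ gFun M := by
  have : NeZero M := ⟨hM⟩
  rw [gFun_eq_dedekindPsi hM, degE, relfinrank_eq_finrank_of_le (jField_le_EF k M)]
  exact H626.finrank_extendScalars_le M H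

theorem good_of_inputs (N : ℕ) (hN : N ≠ 0)
    (hΦ : ∀ p : ℕ, p.Prime → p ∣ N → ∀ [NeZero p], Nonempty (ModPolyData p))
    (hW : ∀ p : ℕ, p.Prime → p ∣ N → ∀ [NeZero p], Nonempty (UnitPolyData p))
    (hθ : (thetaL ℤ (jqModC ℤ)) ^ 6 = deltaL ℤ * (jqModC ℤ) ^ 4 * (jqModC ℤ - 1728) ^ 3)
    (hchar : ∀ p : ℕ, p.Prime → p ∣ N → (p : k) ≠ 0) : Good k N where
  ne_zero := hN
  modPoly := hΦ
  prime := by
    intro p hp hpN _
    obtain ⟨D⟩ := hΦ p hp hpN
    obtain ⟨W⟩ := hW p hp hpN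
    exact primeLevel_of_leaves k hp D (leafI k p) (leafB1 k p hp (hchar p hp hpN) W hθ)
  indep := fun p _ _ _ => leafI k p
  upper := by
    intro M hMN
    have hM : M ≠ 0 := fun h0 => hN (by rw [h0] at hMN; exact Nat.eq_zero_of_zero_dvd hMN)
    exact degE_le_gFun k M hM ((hasModPolys k N hΦ hchar).mono hMN)

variable {k} in
/-- Extraction of `ψ(N)` independent elements. -/
theorem Good.exists_linearIndependent {N : ℕ} (h : Good k N) :
    ∃ x : Fin (dedekindPsi N) → LaurentSeries k,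
      (∀ i, x i ∈ modularFunctionFieldFullC k N) ∧ LinearIndependent (jField k) x := by
  have hdeg : degE k N = dedekindPsi N := by rw [h.degE_eq, gFun_eq_dedekindPsi h.ne_zero]
  have hle := jField_le_EF k N
  rw [degE, relfinrank_eq_finrank_of_le hle] at hdeg
  obtain ⟨x, hx⟩ : ∃ x : Fin (dedekindPsi N) → extendScalars hle,
      LinearIndependent (jField k) x :=
    exists_linearIndependent_of_le_finrank hdeg.ge
  refine ⟨fun i => (x i : LaurentSeries k), fun i => (x i).2, ?_⟩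
  have := hx.map' (extendScalars hle).val.toLinearMap
    (LinearMap.ker_eq_bot.mpr (extendScalars hle).val.injective)
  exact this

end Assembly

section Final

/-- **[L]** `CoreData` from the three analytic inputs. -/
theorem coreData_of_inputs (N : ℕ) [NeZero N] (ℓ : ℕ) [Fact ℓ.Prime] (hℓN : ¬ ℓ ∣ N)
    (K : Type) [Field K] [CharP K ℓ]
    (hΦ : ∀ p : ℕ, p.Prime → p ∣ N → ∀ [NeZero p], Nonempty (ModPolyData p))
    (hW : ∀ p : ℕ, p.Prime → p ∣ N → ∀ [NeZero p], Nonempty (UnitPolyData p))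
    (hθ : (thetaL ℤ (jqModC ℤ)) ^ 6 = deltaL ℤ * (jqModC ℤ) ^ 4 * (jqModC ℤ - 1728) ^ 3) :
    CoreData N K := by
  have hN : N ≠ 0 := NeZero.ne N
  have hcharK : ∀ p : ℕ, p.Prime → p ∣ N → (p : K) ≠ 0 := by
    intro p hp hpN h0
    have hdvd : ℓ ∣ p := (CharP.cast_eq_zero_iff K ℓ p).mp h0
    have hℓ : ℓ.Prime := Fact.out
    have : ℓ = p := (Nat.prime_dvd_prime_iff_eq hℓ hp).mp hdvd
    exact hℓN (this ▸ hpN)
  have hcharQ : ∀ p : ℕ, p.Prime → p ∣ N → (p : ℚ) ≠ 0 := by
    intro p hp _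
    exact_mod_cast hp.ne_zero
  have hgood : Good K N := good_of_inputs K N hN hΦ hW hθ hcharK
  refine H325.coreData_of_bounds N K (RingHom.id K) (dedekindPsi N)
    (coreData_integral N hΦ) ?_ hgood.exists_linearIndependent
  intro m x hx hli
  have := H626.card_le_of_linearIndependent (k := ℚ) N (hasModPolys ℚ N hΦ hcharQ) x hx hli
  simpa using this

end Final

end Fermat.Agent.S28.H867

end
end
-- ===== PACK-END S28/H867/Core.lean

-- ===== PACK-BEGIN S29/H812/FundId.lean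
section




/-!
# S29 / H812 — the fundamental identity `∑_{w | v} e(w | v) = [F' : F]` for a finite extension of
function fields of one variable over an algebraically closed field of characteristic zero.
-/

set_option autoImplicit false

noncomputable section

open AlgebraicCurve IntermediateField

namespace Fermat.Agent.S29.H812

open Fermat.Agent.S24

variable {K F F' : Type*} [Field K] [Field F] [Field F']
  [Algebra K F] [Algebra K F'] [Algebra F F'] [IsScalarTower K F F']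
  [Algebra.IsIntegral F F'] [HasPrincipalDivisors K F']

/-- The index set of the adapted family of the fibre over `v`. -/
abbrev FibIdx (F' : Type*) [Field F'] [Algebra K F'] [Algebra F F'] [IsScalarTower K F F']
    [Algebra.IsIntegral F F'] [HasPrincipalDivisors K F'] (v : Place K F) : Type _ :=
  Σ w : {w : Place K F' // w ∈ v.fiber F'}, Fin (w.1.ramificationIndex F)

theorem card_fibIdx (v : Place K F) :
    Fintype.card (FibIdx F' v) = ∑ w ∈ v.fiber F', w.ramificationIndex F := by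
  classical
  rw [Fintype.card_sigma]
  simp only [Fintype.card_fin]
  exact Finset.sum_coe_sort (v.fiber F') (fun w => w.ramificationIndex F)

theorem fibIdx_ext (v : Place K F) (a b : FibIdx F' v) (h1 : a.1.1 = b.1.1)
    (h2 : (a.2 : ℕ) = (b.2 : ℕ)) : a = b := by
  obtain ⟨⟨w, hw⟩, i⟩ := a
  obtain ⟨⟨w', hw'⟩, i'⟩ := b
  simp only at h1
  subst h1
  simp only at h2
  have : i = i' := Fin.ext h2
  subst this
  rfl

/-- An adapted family for the fibre over `v`. -/
theorem exists_family (v : Place K F) :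
    ∃ u : FibIdx F' v → F', (∀ a, u a ≠ 0) ∧ (∀ a : FibIdx F' v, a.1.1.ord (u a) = (a.2 : ℕ)) ∧
      (∀ a b : FibIdx F' v, b.1.1 ≠ a.1.1 →
        ((b.1.1.ramificationIndex F : ℕ) : ℤ) ≤ b.1.1.ord (u a)) := by
  classical
  set B : ℕ := ∑ w ∈ v.fiber F', w.ramificationIndex F with hB
  have h : ∀ a : FibIdx F' v, ∃ u : F', u ≠ 0 ∧ a.1.1.ord u = (a.2 : ℕ) ∧
      ∀ w' ∈ (v.fiber F').erase a.1.1, (B : ℤ) ≤ w'.ord u := fun a =>
    exists_ord_eq_and_ge a.1.1 ((v.fiber F').erase a.1.1) (Finset.notMem_erase _ _) a.2 B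
  choose u hu0 hu1 hu2 using h
  refine ⟨u, hu0, hu1, ?_⟩
  intro a b hne
  have hmem : b.1.1 ∈ (v.fiber F').erase a.1.1 := Finset.mem_erase.mpr ⟨hne, b.1.2⟩
  have h1 := hu2 a b.1.1 hmem
  have h2 : b.1.1.ramificationIndex F ≤ B :=
    Finset.single_le_sum (f := fun w : Place K F' => w.ramificationIndex F)
      (fun _ _ => Nat.zero_le _) b.1.2
  have h3 : ((b.1.1.ramificationIndex F : ℕ) : ℤ) ≤ (B : ℤ) := by exact_mod_cast h2
  linarith

/-- The coordinate lemma for an adapted family. -/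
theorem family_coord (v : Place K F) (u : FibIdx F' v → F') (hu0 : ∀ a, u a ≠ 0)
    (hu1 : ∀ a : FibIdx F' v, a.1.1.ord (u a) = (a.2 : ℕ))
    (hu2 : ∀ a b : FibIdx F' v, b.1.1 ≠ a.1.1 →
        ((b.1.1.ramificationIndex F : ℕ) : ℤ) ≤ b.1.1.ord (u a))
    (c : FibIdx F' v → F) (hc : ∃ a, c a ≠ 0) :
    ∃ a₀, c a₀ ≠ 0 ∧ (∀ a, c a ≠ 0 → v.ord (c a₀) ≤ v.ord (c a)) ∧
      (∑ a, c a • u a) ≠ 0 ∧
      a₀.1.1.ord (∑ a, c a • u a)
        = (a₀.1.1.ramificationIndex F : ℤ) * v.ord (c a₀) + ((a₀.2 : ℕ) : ℤ) :=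
  coord_lemma v (fun a : FibIdx F' v => a.1.1) (fun a => (a.2 : ℕ)) u
    (fun a => Place.mem_fiber.mp a.1.2) (fun a => a.2.2) hu0 hu1 hu2
    (fun a b h1 h2 => fibIdx_ext v a b h1 h2) c hc

theorem family_linearIndependent (v : Place K F) (u : FibIdx F' v → F') (hu0 : ∀ a, u a ≠ 0)
    (hu1 : ∀ a : FibIdx F' v, a.1.1.ord (u a) = (a.2 : ℕ))
    (hu2 : ∀ a b : FibIdx F' v, b.1.1 ≠ a.1.1 →
        ((b.1.1.ramificationIndex F : ℕ) : ℤ) ≤ b.1.1.ord (u a)) :
    LinearIndependent F u := by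
  rw [Fintype.linearIndependent_iff]
  intro c hsum a
  by_contra ha
  obtain ⟨_, _, _, hne, _⟩ := family_coord v u hu0 hu1 hu2 c ⟨a, ha⟩
  exact hne hsum

/-- **Fundamental inequality** `∑_{w | v} e(w | v) ≤ [F' : F]`. -/
theorem sum_ramificationIndex_le_finrank [Module.Finite F F'] (v : Place K F) :
    ∑ w ∈ v.fiber F', w.ramificationIndex F ≤ Module.finrank F F' := by
  obtain ⟨u, hu0, hu1, hu2⟩ := exists_family (F' := F') v
  rw [← card_fibIdx]
  exact (family_linearIndependent v u hu0 hu1 hu2).fintype_card_le_finrank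

section Identity

variable [IsAlgClosed K] [CharZero K] [Module.Finite F F']

omit [Algebra.IsIntegral F F'] [HasPrincipalDivisors K F'] [IsAlgClosed K] [CharZero K]
  [Module.Finite F F'] in
theorem not_mem_range_of_ord_ne_zero (v : Place K F) {f : F} (hf : v.ord f ≠ 0) :
    f ∉ (algebraMap K F).range := by
  rintro ⟨c, rfl⟩
  exact hf (H117.ord_algebraMap v c)

/-- **Fundamental identity** `∑_{w | v} e(w | v) = [F' : F]`. -/
theorem sum_ramificationIndex_eq_finrank
    (hF : ∃ x : F, Transcendental K x ∧ FiniteDimensional K⟮x⟯ F) (v : Place K F) :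
    ∑ w ∈ v.fiber F', w.ramificationIndex F = Module.finrank F F' := by
  classical
  obtain ⟨x, hx, hxfin⟩ := hF
  obtain ⟨π, hπ0, hπ1⟩ := H117.exists_ord_eq_one v
  have hπt : Transcendental K π :=
    FF.transcendental_of_not_mem_range (not_mem_range_of_ord_ne_zero v (by rw [hπ1]; norm_num))
  haveI hπfin : FiniteDimensional K⟮π⟯ F := FF.finiteDimensional_adjoin_of_transcendental hx hπt
  set π' : F' := algebraMap F F' π with hπ'
  have hπ't : Transcendental K π' := transcendental_algebraMap_of hπt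
  haveI hπ'fin : FiniteDimensional K⟮π'⟯ F' := finiteDimensional_adjoin_algebraMap π
  set Z : Finset (Place K F) := (FF.finite_setOf_ord_pos hπt).toFinset with hZ
  set Z' : Finset (Place K F') := (FF.finite_setOf_ord_pos hπ't).toFinset with hZ'
  have hZmem : ∀ v', v' ∈ Z ↔ 0 < v'.ord π := fun v' => by simp [hZ]
  have hZ'mem : ∀ w, w ∈ Z' ↔ 0 < w.ord π' := fun w => by simp [hZ']
  have h1 := FF.sum_ord_eq_finrank hπt Z hZmem
  have h2 := FF.sum_ord_eq_finrank hπ't Z' hZ'mem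
  rw [finrank_adjoin_algebraMap] at h2
  -- positivity transfer
  have hpos : ∀ w : Place K F', 0 < w.ord π' ↔ 0 < (w.restrict F).ord π := by
    intro w
    rw [hπ', w.ord_restrict]
    have he : (0 : ℤ) < (w.ramificationIndex F : ℤ) := by
      exact_mod_cast w.ramificationIndex_pos (F := F)
    constructor
    · intro h
      by_contra hcon
      push Not at hcon
      nlinarith
    · intro h
      exact mul_pos he h
  have hmaps : ∀ w ∈ Z', w.restrict F ∈ Z := fun w hw =>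
    (hZmem _).mpr ((hpos w).mp ((hZ'mem w).mp hw))
  have h3 : ∑ w ∈ Z', w.ord π'
      = ∑ v' ∈ Z, v'.ord π * ((∑ w ∈ v'.fiber F', w.ramificationIndex F : ℕ) : ℤ) := by
    rw [← Finset.sum_fiberwise_of_maps_to hmaps]
    refine Finset.sum_congr rfl fun v' hv' => ?_
    have hfilter : Z'.filter (fun w => w.restrict F = v') = v'.fiber F' := by
      ext w
      simp only [Finset.mem_filter, Place.mem_fiber]
      constructor
      · exact fun h => h.2
      · intro h
        refine ⟨(hZ'mem w).mpr ((hpos w).mpr ?_), h⟩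
        rw [h]
        exact (hZmem v').mp hv'
    rw [hfilter]
    push_cast
    rw [Finset.mul_sum]
    refine Finset.sum_congr rfl fun w hw => ?_
    rw [hπ', w.ord_restrict, Place.mem_fiber.mp hw]
    ring
  -- compare
  have h4 : ∑ v' ∈ Z, v'.ord π * ((∑ w ∈ v'.fiber F', w.ramificationIndex F : ℕ) : ℤ)
      = ∑ v' ∈ Z, v'.ord π * (Module.finrank F F' : ℤ) := by
    rw [← h3, h2, ← Finset.sum_mul, h1]
    push_cast
    ring
  have hle : ∀ v' ∈ Z, v'.ord π * ((∑ w ∈ v'.fiber F', w.ramificationIndex F : ℕ) : ℤ)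
      ≤ v'.ord π * (Module.finrank F F' : ℤ) := by
    intro v' hv'
    have h5 : (0 : ℤ) ≤ v'.ord π := ((hZmem v').mp hv').le
    have h6 : ((∑ w ∈ v'.fiber F', w.ramificationIndex F : ℕ) : ℤ) ≤ (Module.finrank F F' : ℤ) := by
      exact_mod_cast sum_ramificationIndex_le_finrank (F' := F') v'
    exact mul_le_mul_of_nonneg_left h6 h5
  have h7 := (Finset.sum_eq_sum_iff_of_le hle).mp h4 v ((hZmem v).mpr (by rw [hπ1]; norm_num))
  rw [hπ1, one_mul, one_mul] at h7
  exact_mod_cast h7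

end Identity

end Fermat.Agent.S29.H812

end
end
-- ===== PACK-END S29/H812/FundId.lean

-- ===== PACK-BEGIN S28/H568/DeltaSeries.lean
section


/-!
# S28 / H568 — the formal discriminant over `ℤ` and `ℂ`, and its expansions along `τ ↦ (aτ+b)/d`
-/

set_option autoImplicit false

noncomputable section

open HahnSeries ModularCurve UpperHalfPlane Complex Matrix
open scoped Real MatrixGroups

namespace Fermat.Agent.S28.H568

open Fermat.Agent.S24

/-! ### the integral series -/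

/-- The formal discriminant `Δ = q ∏ (1 - qⁿ)²⁴` over `ℤ`. -/
def deltaZ : LaurentSeries ℤ :=
  HahnSeries.single (1 : ℤ) (1 : ℤ) * HahnSeries.ofPowerSeries ℤ ℤ dedekindEtaUnit

/-- The formal inverse of `Δ` over `ℤ`. -/
def deltaInvZ : LaurentSeries ℤ :=
  HahnSeries.single (-1 : ℤ) (1 : ℤ) * HahnSeries.ofPowerSeries ℤ ℤ dedekindEtaUnitInv

theorem deltaZ_mul_deltaInvZ : deltaZ * deltaInvZ = 1 := by
  rw [deltaZ, deltaInvZ]
  have h1 : HahnSeries.single (1 : ℤ) (1 : ℤ) * HahnSeries.single (-1 : ℤ) (1 : ℤ) = 1 := by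
    rw [HahnSeries.single_mul_single]
    simp
  have h2 : HahnSeries.ofPowerSeries ℤ ℤ dedekindEtaUnit *
      HahnSeries.ofPowerSeries ℤ ℤ dedekindEtaUnitInv = 1 := by
    rw [← map_mul, dedekindEtaUnit_mul_inv, map_one]
  calc _ = (HahnSeries.single (1 : ℤ) (1 : ℤ) * HahnSeries.single (-1 : ℤ) (1 : ℤ)) *
      (HahnSeries.ofPowerSeries ℤ ℤ dedekindEtaUnit *
        HahnSeries.ofPowerSeries ℤ ℤ dedekindEtaUnitInv) := by ring
    _ = 1 := by rw [h1, h2, one_mul]

/-- `Δ` as a unit of `ℤ((q))`. -/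
def deltaU : (LaurentSeries ℤ)ˣ :=
  ⟨deltaZ, deltaInvZ, deltaZ_mul_deltaInvZ, by rw [mul_comm]; exact deltaZ_mul_deltaInvZ⟩

@[simp] theorem deltaU_val : (deltaU : LaurentSeries ℤ) = deltaZ := rfl

/-- Coefficient extension `ℤ((q)) → ℂ((q))`. -/
abbrev castC : LaurentSeries ℤ →+* LaurentSeries ℂ := coeffMap (Int.castRingHom ℂ)

theorem castC_injective : Function.Injective castC :=
  inf_coeffMap_injective (RingHom.injective_int (Int.castRingHom ℂ))

/-- The formal discriminant over `ℂ`. -/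
abbrev dS : LaurentSeries ℂ := H565.deltaSeriesC

/-- The formal inverse discriminant over `ℂ`. -/
abbrev dInvS : LaurentSeries ℂ := H565.deltaInvSeriesC

theorem castC_deltaZ : castC deltaZ = dS := by
  rw [deltaZ, map_mul, coeffMap_single, coeffMap_ofPowerSeries, H565.map_dedekindEtaUnit]
  simp [H565.deltaSeriesC]

theorem castC_deltaInvZ : castC deltaInvZ = dInvS := by
  rw [deltaInvZ, map_mul, coeffMap_single, coeffMap_ofPowerSeries]
  simp [H565.deltaInvSeriesC, H565.etaInvC]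

theorem dS_mul_dInvS : dS * dInvS = 1 := H565.deltaSeriesC_mul_inv

theorem dS_ne_zero : dS ≠ 0 := left_ne_zero_of_mul_eq_one dS_mul_dInvS

theorem dInvS_ne_zero : dInvS ≠ 0 := right_ne_zero_of_mul_eq_one dS_mul_dInvS

theorem dInvS_eq_inv : dInvS = dS⁻¹ := eq_inv_of_mul_eq_one_right dS_mul_dInvS

theorem dS_coeff_one : dS.coeff 1 = 1 := by
  have h := inf_coeff_single_mul_ofPowerSeries (1 : ℤ) (H565.etaProdC ^ 24) 0
  simp only [Nat.cast_zero, zero_add] at h
  rw [show dS = single (1 : ℤ) (1 : ℂ) * ofPowerSeries ℤ ℂ (H565.etaProdC ^ 24) from rfl, h,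
    ← H565.map_dedekindEtaUnit, PowerSeries.coeff_map, PowerSeries.coeff_zero_eq_constantCoeff,
    constantCoeff_dedekindEtaUnit]
  simp

theorem dS_coeff_of_lt {m : ℤ} (hm : m < 1) : dS.coeff m = 0 :=
  inf_coeff_single_mul_ofPowerSeries_of_lt (1 : ℤ) (H565.etaProdC ^ 24) hm

theorem dS_order : dS.order = 1 :=
  inf_order_eq_of_coeff (by rw [dS_coeff_one]; exact one_ne_zero) fun _ hm => dS_coeff_of_lt hm

theorem dS_leadingCoeff : dS.leadingCoeff = 1 := by
  rw [leadingCoeff_eq, dS_order, dS_coeff_one]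

theorem dInvS_order : dInvS.order = -1 := by
  rw [dInvS_eq_inv, order_inv' dS_ne_zero, dS_order]

theorem dInvS_leadingCoeff : dInvS.leadingCoeff = 1 := by
  rw [dInvS_eq_inv, leadingCoeff_inv', dS_leadingCoeff, inv_one]

theorem dS_mem_coeffSubring (C : Subring ℂ) : dS ∈ coeffSubring C := by
  rw [← castC_deltaZ]; exact coeffMap_int_mem_coeffSubring _

theorem dInvS_mem_coeffSubring (C : Subring ℂ) : dInvS ∈ coeffSubring C := by
  rw [← castC_deltaInvZ]; exact coeffMap_int_mem_coeffSubring _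

/-! ### analytic expansions -/

local notation "Δ" => ModularForm.discriminant

theorem infExp_of_hasTExp_one {f : ℍ → ℂ} {φ : LaurentSeries ℂ} (h : H565.HasTExp 1 f φ) :
    InfExp 1 f φ := by
  intro τ
  have := h τ
  simpa [infZ] using this

theorem infExp_delta : InfExp 1 Δ dS := infExp_of_hasTExp_one H565.hasTExp_discriminant

theorem infExp_delta_inv : InfExp 1 (fun τ => (Δ τ)⁻¹) dInvS :=
  infExp_of_hasTExp_one H565.hasTExp_discriminant_inv

/-- Expansion of `Δ((aτ+b)/d)` in `z = exp(2πiτ/N)` when `e·d = a·N`. -/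
theorem infExp_delta_aff {N a d e : ℕ} [NeZero e] (b : ℤ)
    (ha : 0 < a) (hd : 0 < d) (hN : 0 < N) (he : e * d = a * N) :
    InfExp N (fun τ => Δ (infAff a b d τ)) (qExpand ℂ e (infTwist (infRoot b d) dS)) := by
  have h := infExp_delta.comp_infAff (e := e) b ha hd one_pos hN (by rw [mul_one]; exact he)
  rw [mul_one] at h
  exact h

/-- Expansion of `Δ((aτ+b)/d)⁻¹` in `z = exp(2πiτ/N)` when `e·d = a·N`. -/
theorem infExp_delta_inv_aff {N a d e : ℕ} [NeZero e] (b : ℤ)
    (ha : 0 < a) (hd : 0 < d) (hN : 0 < N) (he : e * d = a * N) :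
    InfExp N (fun τ => (Δ (infAff a b d τ))⁻¹) (qExpand ℂ e (infTwist (infRoot b d) dInvS)) := by
  have h := infExp_delta_inv.comp_infAff (e := e) b ha hd one_pos hN (by rw [mul_one]; exact he)
  rw [mul_one] at h
  exact h

/-- Expansion of `Δ(τ)` in `z = exp(2πiτ/N)`. -/
theorem infExp_delta_N {N : ℕ} [NeZero N] : InfExp N Δ (qExpand ℂ N dS) := by
  have hN : 0 < N := Nat.pos_of_ne_zero (NeZero.ne N)
  have h := infExp_delta_aff (N := N) (e := N) 0 one_pos one_pos hN (by ring)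
  rw [infRoot_zero, infTwist_one] at h
  exact h.congr fun τ => by rw [infAff_one_zero_one]

/-- Expansion of `Δ(τ)⁻¹` in `z = exp(2πiτ/N)`. -/
theorem infExp_delta_inv_N {N : ℕ} [NeZero N] :
    InfExp N (fun τ => (Δ τ)⁻¹) (qExpand ℂ N dInvS) := by
  have hN : 0 < N := Nat.pos_of_ne_zero (NeZero.ne N)
  have h := infExp_delta_inv_aff (N := N) (e := N) 0 one_pos one_pos hN (by ring)
  rw [infRoot_zero, infTwist_one] at h
  exact h.congr fun τ => by rw [infAff_one_zero_one]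

/-! ### transformation of `Δ` -/

theorem discriminant_smul (γ : SL(2, ℤ)) (τ : ℍ) :
    Δ (γ • τ) = (((γ 1 0 : ℤ) : ℂ) * τ + ((γ 1 1 : ℤ) : ℂ)) ^ 12 * Δ τ := by
  have := SlashInvariantForm.slash_action_eqn' (Γ := 𝒮ℒ) CuspForm.discriminant
    (γ := (Matrix.SpecialLinearGroup.mapGL ℝ γ)) ⟨γ, rfl⟩ τ
  have h2 : (Matrix.SpecialLinearGroup.mapGL ℝ γ) • τ = γ • τ := rfl
  rw [h2] at this
  simpa using this

end Fermat.Agent.S28.H568

end
end
-- ===== PACK-END S28/H568/DeltaSeries.lean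

-- ===== PACK-BEGIN S30/H990/FromH330.lean
section
/-
S30 top glue (helper990): adapter from helper330's adic module layer
(`H330.HasAdicFrobModule O (N * p) (· ∉ S) (eigenvalue χ)`) to the input of the top glue, and the
frozen statement S30 from it.
-/



set_option autoImplicit false

namespace Fermat.Agent.S30.H990

open Polynomial

/-- helper330's output is an adic eigenmodule. -/
theorem nonempty_adicEigenModule_of_H330 {p N : ℕ} [NeZero N] (hp : p.Prime) {S : Finset ℕ}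
    {𝒪 : Type} [CommRing 𝒪] [IsLocalRing 𝒪]
    (χ : CuspForm.heckeAlgebra N 2 (↑S : Set ℕ) →+* 𝒪)
    (h : Fermat.Agent.S30.H330.HasAdicFrobModule 𝒪 (N * p) (fun ℓ => ℓ ∉ S)
      (Fermat.Agent.S30.H330.eigenvalue χ)) :
    Nonempty (AdicEigenModule p N S 𝒪 χ) := by
  obtain ⟨M, i1, i2, i3, i4, ρ, hnt, hcont, hunr, hfrob⟩ := h
  have hdvd : ∀ q : ℕ, q.Prime → ¬ q ∣ N → q ≠ p → ¬ q ∣ N * p := by
    intro q hq hqN hqp hdiv
    rcases (Nat.Prime.dvd_mul hq).1 hdiv with h1 | h1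
    · exact hqN h1
    · exact hqp ((Nat.prime_dvd_prime_iff_eq hq hp).1 h1)
  exact ⟨{
    M := M
    ρ := ρ
    cont := hcont
    unram := fun q hq hqN hqp P hP σ hσ => hunr q hq (hdvd q hq hqN hqp) P hP σ hσ
    frob := fun ℓ hℓ hℓN hℓS A hA σ hσ => by
      have h1 := hfrob ℓ hℓ (fun hmem => hℓS (Finset.mem_coe.mpr hmem)) A hA σ hσ
      have h2 : Fermat.Agent.S30.H330.eigenvalue χ ℓ
          = χ (CuspForm.heckeAlgebra.T hℓ hℓN hℓS) := by
        unfold Fermat.Agent.S30.H330.eigenvalue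
        rw [dif_pos ⟨hℓ, hℓN, hℓS⟩]
      rw [h2] at h1
      exact h1 }⟩

/-- The tower hypothesis of the top glue from helper330's adic module layer. -/
theorem hasAdicEigenModules_of_H330
    (h : ∀ (p : ℕ) [Fact p.Prime] (N : ℕ) [NeZero N] (S : Finset ℕ)
      (_hpS : p ∈ S) (_hNS : ∀ q : ℕ, q.Prime → q ∣ N → q ∈ S)
      (𝒪' : Type) [CommRing 𝒪'] [IsDomain 𝒪'] [IsDiscreteValuationRing 𝒪']
      [IsAdicComplete (IsLocalRing.maximalIdeal 𝒪') 𝒪'] [Finite (IsLocalRing.ResidueField 𝒪')]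
      [CharZero 𝒪'] (_hp𝒪' : (p : 𝒪') ∈ IsLocalRing.maximalIdeal 𝒪')
      (χ : CuspForm.heckeAlgebra N 2 (↑S : Set ℕ) →+* 𝒪'),
      Fermat.Agent.S30.H330.HasAdicFrobModule 𝒪' (N * p) (fun ℓ => ℓ ∉ S)
        (Fermat.Agent.S30.H330.eigenvalue χ)) :
    HasAdicEigenModules := by
  intro p _ N _ S hpS hNS 𝒪' _ _ _ _ _ _ hp𝒪' χ
  exact nonempty_adicEigenModule_of_H330 (Fact.out : p.Prime) χ (h p N S hpS hNS 𝒪' hp𝒪' χ)

end Fermat.Agent.S30.H990

end
-- ===== PACK-END S30/H990/FromH330.lean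

-- ===== PACK-BEGIN S29/H222/ESKNorm.lean
section
/-
S29 / helper222 — piece ESK, part 3: the Hecke correspondence on divisors of functions
(`T_ℓ (div y) = div (Nm_α (β y))`, from the Prelude's `HeckeInputsAlong`), and the integral
Kronecker norm `K(U) = kronNorm ℓ (σ U)` with its reduction.
-/


set_option autoImplicit false
set_option linter.style.haveILetI false

noncomputable section

namespace Fermat.Agent.S29.H222

open ModularCurve AlgebraicCurve HahnSeries IsLocalRing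
open Fermat.Agent.S18 (Qb IsInt toF CoreStatement)
open Fermat.Agent.S37.H400 (kronNorm)

variable {A : ValuationSubring Qb} {N : ℕ}

/-! ### Characteristic of the residue field -/

theorem charP_residueField_of_liesOver {ℓ : ℕ} (hℓ : ℓ.Prime) (hA : A.LiesOverPrime ℓ) :
    CharP (ResidueField A) ℓ := by
  rw [CharP.charP_iff_prime_eq_zero hℓ]
  have h1 : ((ℓ : A) : Qb) ∈ A.nonunits := by
    have : ((ℓ : A) : Qb) = (ℓ : Qb) := by simp
    rw [this]; exact hA
  have h2 : (ℓ : A) ∈ maximalIdeal A := ValuationSubring.coe_mem_nonunits_iff.mp h1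
  have h3 : residue A (ℓ : A) = 0 := (residue_eq_zero_iff _).mpr h2
  rw [← h3, map_natCast]

/-! ### The Hecke correspondence on divisors of functions -/

section Hecke

variable [NeZero N] {ℓ : ℕ} [NeZero ℓ]

omit [NeZero N] in
/-- `β^* (div y) = div (β y)`. -/
theorem isDivOf_pullbackAlong_beta
    [HasPrincipalDivisors Qb (laurentBaseChange Qb (modularFunctionFieldFull (N * ℓ)))]
    (hβ : HeckeBetaBarIntegral Qb N ℓ)
    {y : modularFunctionFieldBar N} {E : Divisor Qb (modularFunctionFieldBar N)}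
    (hE : IsDivOf y E) :
    IsDivOf (K := Qb) (heckeBetaBar Qb N ℓ y)
      (Divisor.pullbackAlong (heckeBetaBar Qb N ℓ) hβ E) := by
  intro w
  letI := algebraAlong (heckeBetaBar Qb N ℓ)
  haveI := isScalarTower_along (heckeBetaBar Qb N ℓ)
  haveI := isIntegral_along (heckeBetaBar Qb N ℓ) hβ
  exact Divisor.pullback_apply_eq_ord hE w

/-- `α_* (div z) = div (Nm_α z)`. -/
theorem isDivOf_pushforwardAlong_alpha
    (hα : HeckeAlphaBarIntegral Qb N ℓ) (hfin : FiniteAlong Qb (heckeAlphaBar Qb N ℓ))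
    (hN : NormFormulaAlong Qb (heckeAlphaBar Qb N ℓ) hfin)
    {z : laurentBaseChange Qb (modularFunctionFieldFull (N * ℓ))} (hz : z ≠ 0)
    {E : Divisor Qb (laurentBaseChange Qb (modularFunctionFieldFull (N * ℓ)))}
    (hE : IsDivOf z E) :
    IsDivOf (K := Qb)
      (letI := algebraAlong (heckeAlphaBar Qb N ℓ)
       Algebra.norm (modularFunctionFieldBar N) z)
      (Divisor.pushforwardAlong (heckeAlphaBar Qb N ℓ) hα E) := by
  intro v
  letI := algebraAlong (heckeAlphaBar Qb N ℓ)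
  haveI := isScalarTower_along (heckeAlphaBar Qb N ℓ)
  haveI := isIntegral_along (heckeAlphaBar Qb N ℓ) hα
  haveI : Module.Finite (modularFunctionFieldBar N)
    (laurentBaseChange Qb (modularFunctionFieldFull (N * ℓ))) := hfin
  exact hN z hz E hE v

/-- `T_ℓ (div y) = div (heckeNorm y)` on divisors. -/
theorem isDivOf_heckeDivBar
    [HasPrincipalDivisors Qb (laurentBaseChange Qb (modularFunctionFieldFull (N * ℓ)))]
    (hα : HeckeAlphaBarIntegral Qb N ℓ) (hβ : HeckeBetaBarIntegral Qb N ℓ)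
    (hfin : FiniteAlong Qb (heckeAlphaBar Qb N ℓ))
    (hN : NormFormulaAlong Qb (heckeAlphaBar Qb N ℓ) hfin)
    {y : modularFunctionFieldBar N} (hy : y ≠ 0) {E : Divisor Qb (modularFunctionFieldBar N)}
    (hE : IsDivOf y E) :
    IsDivOf (K := Qb) (heckeNorm N ℓ y) (heckeDivBar hα hβ E) := by
  have hβy : heckeBetaBar Qb N ℓ y ≠ 0 := by
    intro h
    exact hy ((heckeBetaBar Qb N ℓ).toRingHom.injective (by simpa using h))
  exact isDivOf_pushforwardAlong_alpha hα hfin hN hβy (isDivOf_pullbackAlong_beta hβ hE)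

end Hecke

end Fermat.Agent.S29.H222

end
end
-- ===== PACK-END S29/H222/ESKNorm.lean

-- ===== PACK-BEGIN S18/H333/Coord.lean
section



/-!
# S18 / NODE COORD (c3), helper333: existence of the coordinates

`node_coord` has EXACTLY the type of `Integ.node_coord` in the row skeleton
(origin/helper18:Fermat/Agent/S18/Integ/Skeleton.lean):

    theorem node_coord (M : ℕ) [NeZero M] {ℓ : ℕ} [Fact ℓ.Prime] (hℓM : ¬ ℓ ∣ M)
        (h3 : ℓ = 3 → 2 ∣ M) (h2 : ℓ = 2 → 3 ∣ M) : Mod.CoordinateStatement M ℓ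

`ℓ ≥ 5`: `x = j`;  `ℓ = 3`: `x = t₂ = q⁻¹(η(q)/η(q²))²⁴`;  `ℓ = 2`: `x = t₃ = q⁻¹(η(q)/η(q³))¹²`.
-/

set_option autoImplicit false

noncomputable section

namespace Fermat.Agent.S18.H333

open ModularCurve AlgebraicCurve HahnSeries

theorem coeffEmb_coeffMap_int (X : LaurentSeries ℤ) :
    coeffEmb Qb (coeffMap (Int.castRingHom ℚ) X) = coeffMap (Int.castRingHom Qb) X := by
  rw [coeffEmb, coeffMap_coeffMap]
  exact coeffMap_congr (RingHom.ext_int _ _) X

theorem jOm_coe (M : ℕ) : ((Mod.jOm M : Mod.Om M) : LaurentSeries Qb) = jqModC Qb := by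
  show coeffEmb Qb (qExpand ℚ 1 jq) = jqModC Qb
  rw [qExpand_one_apply, ← jqModC_rat, coeffEmb, coeffMap_jqModC]

/-- the element of `Ω = F_M` given by an integral series lying in `ℚ(j_d : d ∣ M)` -/
def omOf (M : ℕ) (X : LaurentSeries ℤ)
    (hX : coeffMap (Int.castRingHom ℚ) X ∈ modularFunctionFieldFull M) : Mod.Om M :=
  ⟨coeffEmb Qb (coeffMap (Int.castRingHom ℚ) X), coeffEmb_mem_laurentBaseChange Qb hX⟩

theorem omOf_coe (M : ℕ) (X : LaurentSeries ℤ)
    (hX : coeffMap (Int.castRingHom ℚ) X ∈ modularFunctionFieldFull M) :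
    ((omOf M X hX : Mod.Om M) : LaurentSeries Qb) = coeffMap (Int.castRingHom Qb) X :=
  coeffEmb_coeffMap_int X

theorem t2Q_mem (M : ℕ) (hM : 2 ∣ M) :
    coeffMap (Int.castRingHom ℚ) t2Z ∈ modularFunctionFieldFull M :=
  t2_mem_full ℚ (by norm_num) M hM

theorem t3Q_mem (M : ℕ) (hM : 3 ∣ M) :
    coeffMap (Int.castRingHom ℚ) t3Z ∈ modularFunctionFieldFull M :=
  t3_mem_full ℚ (by norm_num) M hM

/-- `t₂ ∈ Ω = F_M` (`2 ∣ M`) -/
def t2Om (M : ℕ) (hM : 2 ∣ M) : Mod.Om M := omOf M t2Z (t2Q_mem M hM)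

/-- `t₃ ∈ Ω = F_M` (`3 ∣ M`) -/
def t3Om (M : ℕ) (hM : 3 ∣ M) : Mod.Om M := omOf M t3Z (t3Q_mem M hM)

theorem t2Om_rel (M : ℕ) (hM : 2 ∣ M) :
    Mod.jOm M * t2Om M hM ^ 2 = (t2Om M hM + 256) ^ 3 := by
  apply Subtype.ext
  have h := t2_rel_a Qb
  have hx : ((t2Om M hM : Mod.Om M) : LaurentSeries Qb) = t2 Qb := omOf_coe M t2Z _
  push_cast
  rw [jOm_coe, hx]
  exact h

theorem t3Om_rel (M : ℕ) (hM : 3 ∣ M) :
    Mod.jOm M * t3Om M hM ^ 3 = (t3Om M hM + 27) * (t3Om M hM + 243) ^ 3 := by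
  apply Subtype.ext
  have h := t3_rel_a Qb
  have hx : ((t3Om M hM : Mod.Om M) : LaurentSeries Qb) = t3 Qb := omOf_coe M t3Z _
  push_cast
  rw [jOm_coe, hx]
  exact h

/-- **NODE COORD.** -/
theorem node_coord (M : ℕ) [NeZero M] {ℓ : ℕ} [Fact ℓ.Prime] (hℓM : ¬ ℓ ∣ M)
    (h3 : ℓ = 3 → 2 ∣ M) (h2 : ℓ = 2 → 3 ∣ M) : Mod.CoordinateStatement M ℓ := by
  classical
  have hp : ℓ.Prime := Fact.out
  by_cases hl3 : ℓ = 3
  · refine ⟨t2Om M (h3 hl3), {0, -64}, Or.inr ⟨Or.inl ⟨hl3, t2Om_rel M (h3 hl3), ?_⟩, ?_⟩⟩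
    · intro s; simp
    · exact ⟨t2Z, t2Z_coeff_neg_one, fun k hk => t2Z_coeff_of_lt hk, omOf_coe M t2Z _,
        t2Q_mem M (h3 hl3)⟩
  by_cases hl2 : ℓ = 2
  · refine ⟨t3Om M (h2 hl2), {0, -27}, Or.inr ⟨Or.inr ⟨hl2, t3Om_rel M (h2 hl2), ?_⟩, ?_⟩⟩
    · intro s; simp
    · exact ⟨t3Z, t3Z_coeff_neg_one, fun k hk => t3Z_coeff_of_lt hk, omOf_coe M t3Z _,
        t3Q_mem M (h2 hl2)⟩
  · refine ⟨Mod.jOm M, {0, 1728}, Or.inl ⟨?_, rfl, ?_⟩⟩
    · have h2' := hp.two_le
      by_contra hlt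
      have : ℓ = 4 := by omega
      subst this
      exact absurd hp (by norm_num)
    · intro s; simp

end Fermat.Agent.S18.H333

end
end
-- ===== PACK-END S18/H333/Coord.lean

-- ===== PACK-BEGIN S36/H193/LabelWall.lean
section


/-!
# S36 engine, leaf CLOPEN (helper193), part 4: the label wall (constant labels ⇒ trivial cover)

Setting of `ClopenGraph.lean` for the cover field `Z` (finite separated set of sheets `𝒲`, radical
`q`-expansion principle for the three charts of `Z`, `R` integrally closed in `Z`), and a base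
field `F ⊆ Z` with `Z / F` finite Galois, `𝒲` stable under `Gal (Z / F)`.

`m` is invertible in `R`, `ζ ∈ R` a primitive `m`-th root of unity, `G ∈ Z` with `G ^ m ∈ F` and
`G ^ m ≡ 1` on every sheet (`G ^ m` is *split*).  Every sheet `W` then carries a *label*: the
unique `ζ ^ a` with `G ≡ ζ ^ a` on `W` (`exists_label`, `label_unique`).

**Theorem** (`kummer_wall3`).  Let `κ` be a function on the sheets of `F` (the *colours*).  If for
any two sheets `W, W'` of `Z` through a common closed point of the special fibre the normalised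
labels agree, `label W / ζ ^ κ (colour W) = label W' / ζ ^ κ (colour W')`, then `G ∈ F`.

No reducedness of the special fibre is used, and any number of sheets may pass through a closed
point.  (Level `q²`: colours `FF, mid, VV`; the local hypothesis is "purity + norm compatibility
of the label ratios + COUNT".)
-/

set_option autoImplicit false
set_option linter.style.haveILetI false

namespace Fermat.Agent.S36.H193

open Polynomial Fermat.Agent.S18.H138

section Labels

variable {Z : Type*} [Field Z]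

theorem nu_mem_of_pow (W : ValuationSubring Z) {a : Z} {n : ℕ} (hn : n ≠ 0) (h : a ^ n ∈ W) :
    a ∈ W := by
  rw [← W.valuation_le_one_iff] at h ⊢
  rw [map_pow] at h
  exact (pow_le_one_iff_of_nonneg zero_le hn).1 h

/-- In a finite product of elements of `W` lying in the maximal ideal, some factor lies in the
maximal ideal. -/
theorem nu_exists_of_prod (W : ValuationSubring Z) {ι : Type*} (s : Finset ι) (f : ι → Z)
    (hf : ∀ i ∈ s, f i ∈ W) (h : ∏ i ∈ s, f i ∈ W.nonunits) : ∃ i ∈ s, f i ∈ W.nonunits := by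
  classical
  induction s using Finset.induction_on with
  | empty =>
    rw [Finset.prod_empty] at h
    exact absurd h (nu_one_not W)
  | insert a s ha ih =>
    rw [Finset.prod_insert ha] at h
    by_cases h1 : f a ∈ W.nonunits
    · exact ⟨a, Finset.mem_insert_self a s, h1⟩
    · by_cases h2 : ∏ i ∈ s, f i ∈ W.nonunits
      · obtain ⟨i, hi, hfi⟩ := ih (fun i hi => hf i (Finset.mem_insert_of_mem hi)) h2
        exact ⟨i, Finset.mem_insert_of_mem hi, hfi⟩
      · exact absurd h (nu_unit_mul W (hf a (Finset.mem_insert_self a s))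
          (W.prod_mem fun i hi => hf i (Finset.mem_insert_of_mem hi)) h1 h2)

/-- A root of unity `≠ 1` of order dividing `m`, `m` invertible in `W`, is not `≡ 1`. -/
theorem zeta_sub_one_not_mem (W : ValuationSubring Z) {m : ℕ} {μ : Z} (hμW : μ ∈ W)
    (hμ : μ * (m : Z) = 1) {ξ : Z} (hξW : ξ ∈ W) (hξm : ξ ^ m = 1) (hne : ξ ≠ 1) :
    ξ - 1 ∉ W.nonunits := by
  intro h
  have hsum : ∑ i ∈ Finset.range m, ξ ^ i = 0 := by
    have h2 : (ξ - 1) * ∑ i ∈ Finset.range m, ξ ^ i = 0 := by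
      rw [mul_geom_sum, hξm, sub_self]
    rcases mul_eq_zero.1 h2 with h3 | h3
    · exact absurd (sub_eq_zero.1 h3) hne
    · exact h3
  have hpow : ∀ i : ℕ, ξ ^ i - 1 ∈ W.nonunits := by
    intro i
    rw [← mul_geom_sum]
    exact nu_mul_right W h (W.sum_mem fun j _ => W.pow_mem hξW j)
  have h4 : ∑ i ∈ Finset.range m, (ξ ^ i - 1) ∈ W.nonunits :=
    nu_sum W _ _ fun i _ => hpow i
  rw [Finset.sum_sub_distrib, hsum, zero_sub] at h4
  simp only [Finset.sum_const, Finset.card_range, nsmul_eq_mul, mul_one] at h4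
  have h5 : (m : Z) ∈ W.nonunits := by
    have := nu_neg W h4
    rwa [neg_neg] at this
  have h6 := nu_mul_left W h5 hμW
  rw [hμ] at h6
  exact nu_one_not W h6

/-- **Existence of the label**: if `G ^ m ≡ 1` on `W` then `G ≡ ζ ^ a` on `W` for some `a < m`. -/
theorem exists_label (W : ValuationSubring Z) {m : ℕ} (hm : 0 < m) {ζ : Z}
    (hζ : IsPrimitiveRoot ζ m) (hζW : ζ ∈ W) {G : Z} (hG : G ^ m - 1 ∈ W.nonunits) :
    ∃ a < m, G - ζ ^ a ∈ W.nonunits := by
  have hGW : G ∈ W := by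
    refine nu_mem_of_pow W hm.ne' ?_
    have : G ^ m = (G ^ m - 1) + 1 := by ring
    rw [this]
    exact W.add_mem _ _ (nu_mem W hG) W.one_mem
  have hprod : G ^ m - 1 = ∏ i ∈ Finset.range m, (G - ζ ^ i) := by
    have h := X_pow_sub_C_eq_prod hζ hm (one_pow m)
    have h2 := congrArg (fun p : Z[X] => p.eval G) h
    simp only [eval_sub, eval_pow, eval_X, eval_C, eval_prod, mul_one] at h2
    exact h2
  rw [hprod] at hG
  obtain ⟨i, hi, h⟩ := nu_exists_of_prod W _ _
    (fun i _ => W.sub_mem hGW (W.pow_mem hζW i)) hG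
  exact ⟨i, Finset.mem_range.1 hi, h⟩

/-- **Uniqueness of the label.** -/
theorem label_unique (W : ValuationSubring Z) {m : ℕ} {μ : Z} (hμW : μ ∈ W)
    (hμ : μ * (m : Z) = 1) {ζ : Z} (hζm : ζ ^ m = 1) (hζW : ζ ∈ W) {G : Z} {a b : ℕ}
    (ha : G - ζ ^ a ∈ W.nonunits) (hb : G - ζ ^ b ∈ W.nonunits) : ζ ^ a = ζ ^ b := by
  by_contra hne
  have hζ0 : ζ ≠ 0 := by
    rintro rfl
    have hm0 : m ≠ 0 := by
      rintro rfl
      simp at hμ
    rw [zero_pow hm0] at hζm
    exact zero_ne_one hζm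
  have hb0 : ζ ^ b ≠ 0 := pow_ne_zero _ hζ0
  -- `(ζ ^ b)⁻¹ = ζ ^ (b (m - 1))`
  have hinv : (ζ ^ b)⁻¹ = ζ ^ (b * (m - 1)) := by
    apply inv_eq_of_mul_eq_one_left
    rw [← pow_add]
    have hm1 : 1 ≤ m := by
      rcases Nat.eq_zero_or_pos m with h0 | h0
      · subst h0
        simp at hμ
      · exact h0
    have : b * (m - 1) + b = m * b := by
      have : m - 1 + 1 = m := Nat.sub_add_cancel hm1
      calc b * (m - 1) + b = b * (m - 1 + 1) := by ring
        _ = m * b := by rw [this, mul_comm]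
    rw [this, pow_mul, hζm, one_pow]
  set ξ : Z := ζ ^ a * (ζ ^ b)⁻¹ with hξ
  have hξW : ξ ∈ W := by
    rw [hξ, hinv]
    exact W.mul_mem _ _ (W.pow_mem hζW a) (W.pow_mem hζW _)
  have hξm : ξ ^ m = 1 := by
    rw [hξ, mul_pow, inv_pow, ← pow_mul, ← pow_mul, mul_comm a m, mul_comm b m, pow_mul, pow_mul,
      hζm, one_pow, one_pow, inv_one, mul_one]
  have hξne : ξ ≠ 1 := by
    intro h
    apply hne
    rw [hξ] at h
    field_simp at h
    exact h
  apply zeta_sub_one_not_mem W hμW hμ hξW hξm hξne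
  have : ξ - 1 = ((G - ζ ^ b) - (G - ζ ^ a)) * (ζ ^ b)⁻¹ := by
    rw [hξ]
    field_simp
    ring
  rw [this, hinv]
  exact nu_mul_right W (nu_sub W hb ha) (W.pow_mem hζW _)

end Labels

section Galois

variable {F : Type*} [Field F] {Z : Type*} [Field Z] [Algebra F Z]

theorem mem_nonunits_comap_symm (W : ValuationSubring Z) (σ : Z ≃ₐ[F] Z) (b : Z) :
    σ b ∈ (W.comap ((σ.symm : Z ≃+* Z) : Z →+* Z)).nonunits ↔ b ∈ W.nonunits := by
  rw [ValuationSubring.mem_nonunits_iff_or, ValuationSubring.mem_nonunits_iff_or,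
    ValuationSubring.mem_comap]
  have h1 : ((σ.symm : Z ≃+* Z) : Z →+* Z) (σ b)⁻¹ = b⁻¹ := by
    rw [map_inv₀]
    congr 1
    exact σ.symm_apply_apply b
  rw [h1, map_eq_zero_iff σ σ.injective]

theorem comap_symm_comap_algebraMap (W : ValuationSubring Z) (σ : Z ≃ₐ[F] Z) :
    (W.comap ((σ.symm : Z ≃+* Z) : Z →+* Z)).comap (algebraMap F Z) =
      W.comap (algebraMap F Z) := by
  ext f
  rw [ValuationSubring.mem_comap, ValuationSubring.mem_comap, ValuationSubring.mem_comap]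
  have : ((σ.symm : Z ≃+* Z) : Z →+* Z) (algebraMap F Z f) = algebraMap F Z f :=
    σ.symm.commutes f
  rw [this]

/-- If `G ^ m ∈ F`, `G ≡ c` on a sheet `W` and on its conjugate `σ W`, with `c ∈ F` a unit of
`σ W` and `m` invertible on `σ W`, then `σ G = G`. -/
theorem fixed_of_label_eq (W : ValuationSubring Z) (σ : Z ≃ₐ[F] Z) {m : ℕ} {μ : Z}
    (hμW : μ ∈ W.comap ((σ.symm : Z ≃+* Z) : Z →+* Z)) (hμ : μ * (m : Z) = 1)
    {G : Z} (hGF : G ^ m ∈ Set.range (algebraMap F Z)) (c : F)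
    (hcW : algebraMap F Z c ∈ W.comap ((σ.symm : Z ≃+* Z) : Z →+* Z))
    (hc : algebraMap F Z c ∉ (W.comap ((σ.symm : Z ≃+* Z) : Z →+* Z)).nonunits)
    (h1 : G - algebraMap F Z c ∈ W.nonunits)
    (h2 : G - algebraMap F Z c ∈ (W.comap ((σ.symm : Z ≃+* Z) : Z →+* Z)).nonunits) :
    σ G = G := by
  set W' : ValuationSubring Z := W.comap ((σ.symm : Z ≃+* Z) : Z →+* Z) with hW'
  have h3 : σ G - algebraMap F Z c ∈ W'.nonunits := by
    have := (mem_nonunits_comap_symm W σ (G - algebraMap F Z c)).2 h1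
    rwa [map_sub, σ.commutes] at this
  have hGW' : G ∈ W' := by
    have : G = (G - algebraMap F Z c) + algebraMap F Z c := by ring
    rw [this]
    exact W'.add_mem _ _ (nu_mem W' h2) hcW
  have hσGW' : σ G ∈ W' := by
    have : σ G = (σ G - algebraMap F Z c) + algebraMap F Z c := by ring
    rw [this]
    exact W'.add_mem _ _ (nu_mem W' h3) hcW
  have hGnu : G ∉ W'.nonunits := by
    intro h
    apply hc
    have : algebraMap F Z c = G - (G - algebraMap F Z c) := by ring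
    rw [this]
    exact nu_sub W' h h2
  have hG0 : G ≠ 0 := by
    rintro rfl
    exact hGnu (nu_zero W')
  have hGinv : G⁻¹ ∈ W' := nu_unit_inv W' hGW' hGnu
  set ξ : Z := σ G * G⁻¹ with hξ
  have hξW : ξ ∈ W' := W'.mul_mem _ _ hσGW' hGinv
  have hξm : ξ ^ m = 1 := by
    obtain ⟨f, hf⟩ := hGF
    have : (σ G) ^ m = G ^ m := by
      rw [← map_pow, ← hf, σ.commutes]
    rw [hξ, mul_pow, this, inv_pow, mul_inv_cancel₀ (pow_ne_zero _ hG0)]
  by_contra hne
  have hξne : ξ ≠ 1 := by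
    intro h
    apply hne
    rw [hξ] at h
    field_simp at h
    exact h
  apply zeta_sub_one_not_mem W' hμW hμ hξW hξm hξne
  have : ξ - 1 = ((σ G - algebraMap F Z c) - (G - algebraMap F Z c)) * G⁻¹ := by
    rw [hξ]
    field_simp
    ring
  rw [this]
  exact nu_mul_right W' (nu_sub W' h3 h2) hGinv

end Galois

section Wall

variable {R : Type*} [CommRing R] {Z : Type*} [Field Z] [Algebra R Z]
variable [IsNoetherianRing R] [IsIntegrallyClosed (Polynomial R)] [CharZero Z]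

/-- **The label wall.**  Constant normalised labels at the closed points of the special fibre
force a split Kummer generator into the base field. -/
theorem kummer_wall3
    (hinjR : Function.Injective (algebraMap R Z))
    (hRF : ∀ y : Z, IsIntegral R y → y ∈ Set.range (algebraMap R Z))
    {x : Z} (hx : Transcendental R x) [FiniteDimensional (baseField R x) Z]
    (w : R) (hw : Prime w)
    {𝒲 : Set (ValuationSubring Z)} (h𝒲 : 𝒲.Finite) (hne : 𝒲.Nonempty) (hsep : Sep 𝒲)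
    (hmid : ∀ W ∈ 𝒲, ∀ c ∈ chart R ({x, x⁻¹} : Set Z), c ∈ W)
    (hwW : ∀ W ∈ 𝒲, algebraMap R Z w ∈ W.nonunits)
    (qep_fin : QepRad 𝒲 w (chart R ({x} : Set Z)))
    (qep_inf : QepRad 𝒲 w (chart R ({x⁻¹} : Set Z)))
    (qep_mid : QepRad 𝒲 w (chart R ({x, x⁻¹} : Set Z)))
    {F : Type*} [Field F] [Algebra R F] [Algebra F Z] [IsScalarTower R F Z]
    [IsGalois F Z] [FiniteDimensional F Z]
    (hstable : ∀ σ : Z ≃ₐ[F] Z, ∀ W ∈ 𝒲, W.comap ((σ.symm : Z ≃+* Z) : Z →+* Z) ∈ 𝒲)
    {m : ℕ} (hm : 0 < m) {mi : R} (hmi : (m : R) * mi = 1) {ζ : R} (hζ : IsPrimitiveRoot ζ m)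
    {G : Z} (hGF : G ^ m ∈ Set.range (algebraMap F Z))
    (hG1 : ∀ W ∈ 𝒲, G ^ m - 1 ∈ W.nonunits)
    (κ : ValuationSubring F → ℕ)
    (hloc_fin : ∀ 𝔫 : Ideal (chart R ({x} : Set Z)), 𝔫.IsMaximal →
      algebraMap R (chart R ({x} : Set Z)) w ∈ 𝔫 →
      ∀ W ∈ 𝒲, ∀ W' ∈ 𝒲, Through _ 𝔫 W → Through _ 𝔫 W' → ∀ a b : ℕ,
        G - algebraMap R Z (ζ ^ a) ∈ W.nonunits → G - algebraMap R Z (ζ ^ b) ∈ W'.nonunits →
        ζ ^ (a + κ (W'.comap (algebraMap F Z))) = ζ ^ (b + κ (W.comap (algebraMap F Z))))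
    (hloc_inf : ∀ 𝔫 : Ideal (chart R ({x⁻¹} : Set Z)), 𝔫.IsMaximal →
      algebraMap R (chart R ({x⁻¹} : Set Z)) w ∈ 𝔫 →
      ∀ W ∈ 𝒲, ∀ W' ∈ 𝒲, Through _ 𝔫 W → Through _ 𝔫 W' → ∀ a b : ℕ,
        G - algebraMap R Z (ζ ^ a) ∈ W.nonunits → G - algebraMap R Z (ζ ^ b) ∈ W'.nonunits →
        ζ ^ (a + κ (W'.comap (algebraMap F Z))) = ζ ^ (b + κ (W.comap (algebraMap F Z)))) :
    G ∈ Set.range (algebraMap F Z) := by
  classical
  set ζZ : Z := algebraMap R Z ζ with hζZ
  have hζZp : IsPrimitiveRoot ζZ m := hζ.map_of_injective hinjR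
  have hRW : ∀ W ∈ 𝒲, ∀ r : R, algebraMap R Z r ∈ W := fun W hW r =>
    hmid W hW _ (Subalgebra.algebraMap_mem _ r)
  have hμ : algebraMap R Z mi * (m : Z) = 1 := by
    have := congrArg (algebraMap R Z) hmi
    rw [mul_comm]
    simpa using this
  -- the labels
  have hlab : ∀ W : ValuationSubring Z, ∃ a : ℕ, W ∈ 𝒲 → G - algebraMap R Z (ζ ^ a) ∈ W.nonunits := by
    intro W
    by_cases hW : W ∈ 𝒲
    · obtain ⟨a, -, ha⟩ := exists_label W hm hζZp (hRW W hW ζ) (hG1 W hW)
      refine ⟨a, fun _ => ?_⟩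
      rw [map_pow]
      exact ha
    · exact ⟨0, fun h => absurd h hW⟩
  choose lab hlab using hlab
  have huniq : ∀ W ∈ 𝒲, ∀ a : ℕ, G - algebraMap R Z (ζ ^ a) ∈ W.nonunits → ζ ^ a = ζ ^ lab W := by
    intro W hW a ha
    apply hinjR
    rw [map_pow, map_pow]
    have h1 := hlab W hW
    rw [map_pow] at h1 ha
    exact label_unique W (hRW W hW mi) hμ hζZp.pow_eq_one (hRW W hW ζ) ha h1
  -- normalised labels
  set ν : ValuationSubring Z → R := fun W =>
    ζ ^ (lab W + (m - 1) * κ (W.comap (algebraMap F Z))) with hν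
  have hm1 : m - 1 + 1 = m := Nat.sub_add_cancel hm
  have hνloc : ∀ W ∈ 𝒲, ∀ W' ∈ 𝒲,
      ζ ^ (lab W + κ (W'.comap (algebraMap F Z))) =
        ζ ^ (lab W' + κ (W.comap (algebraMap F Z))) → ν W = ν W' := by
    intro W _ W' _ h
    set k := κ (W.comap (algebraMap F Z)) with hk
    set k' := κ (W'.comap (algebraMap F Z)) with hk'
    have e1 : ζ ^ (lab W + (m - 1) * k) = ζ ^ (lab W + k') * ζ ^ ((m - 1) * k + (m - 1) * k') := by
      rw [← pow_add]
      have : lab W + k' + ((m - 1) * k + (m - 1) * k') = lab W + (m - 1) * k + m * k' := by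
        calc lab W + k' + ((m - 1) * k + (m - 1) * k')
            = lab W + (m - 1) * k + (m - 1 + 1) * k' := by ring
          _ = lab W + (m - 1) * k + m * k' := by rw [hm1]
      rw [this, pow_add ζ (lab W + (m - 1) * k) (m * k'), pow_mul ζ m k', hζ.pow_eq_one, one_pow,
        mul_one]
    have e2 : ζ ^ (lab W' + (m - 1) * k') = ζ ^ (lab W' + k) * ζ ^ ((m - 1) * k + (m - 1) * k') := by
      rw [← pow_add]
      have : lab W' + k + ((m - 1) * k + (m - 1) * k') = lab W' + (m - 1) * k' + m * k := by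
        calc lab W' + k + ((m - 1) * k + (m - 1) * k')
            = lab W' + (m - 1) * k' + (m - 1 + 1) * k := by ring
          _ = lab W' + (m - 1) * k' + m * k := by rw [hm1]
      rw [this, pow_add ζ (lab W' + (m - 1) * k') (m * k), pow_mul ζ m k, hζ.pow_eq_one, one_pow,
        mul_one]
    change ζ ^ (lab W + (m - 1) * k) = ζ ^ (lab W' + (m - 1) * k')
    rw [e1, e2, h]
  have hconst := clopen_label hinjR hRF hx w hw h𝒲 hsep hmid hwW qep_fin qep_inf qep_mid ν
    (fun 𝔫 h𝔫 hw𝔫 W hW W' hW' hth hth' =>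
      hνloc W hW W' hW' (hloc_fin 𝔫 h𝔫 hw𝔫 W hW W' hW' hth hth' _ _ (hlab W hW) (hlab W' hW')))
    (fun 𝔫 h𝔫 hw𝔫 W hW W' hW' hth hth' =>
      hνloc W hW W' hW' (hloc_inf 𝔫 h𝔫 hw𝔫 W hW W' hW' hth hth' _ _ (hlab W hW) (hlab W' hW')))
  -- `G` is Galois-invariant
  rw [IsGalois.mem_range_algebraMap_iff_fixed]
  intro σ
  obtain ⟨W, hW⟩ := hne
  set W' : ValuationSubring Z := W.comap ((σ.symm : Z ≃+* Z) : Z →+* Z) with hW'
  have hW'mem : W' ∈ 𝒲 := hstable σ W hW
  have hcol : W'.comap (algebraMap F Z) = W.comap (algebraMap F Z) :=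
    comap_symm_comap_algebraMap W σ
  have hνeq : ν W' = ν W := hconst W' hW'mem W hW
  have hlabeq : ζ ^ lab W' = ζ ^ lab W := by
    have h := hνeq
    change ζ ^ (lab W' + (m - 1) * κ (W'.comap (algebraMap F Z))) =
      ζ ^ (lab W + (m - 1) * κ (W.comap (algebraMap F Z))) at h
    rw [hcol, pow_add, pow_add] at h
    have hu : IsUnit (ζ ^ ((m - 1) * κ (W.comap (algebraMap F Z)))) :=
      (hζ.isUnit hm.ne').pow _
    exact hu.mul_left_injective h
  have hcF : algebraMap R Z (ζ ^ lab W) = algebraMap F Z (algebraMap R F (ζ ^ lab W)) :=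
    IsScalarTower.algebraMap_apply R F Z _
  have h1 : G - algebraMap F Z (algebraMap R F (ζ ^ lab W)) ∈ W.nonunits := by
    rw [← hcF]
    exact hlab W hW
  have h2 : G - algebraMap F Z (algebraMap R F (ζ ^ lab W)) ∈ W'.nonunits := by
    rw [← hcF, ← hlabeq]
    exact hlab W' hW'mem
  refine fixed_of_label_eq W σ (hRW W' hW'mem mi) hμ hGF (algebraMap R F (ζ ^ lab W)) ?_ ?_ h1 h2
  · rw [← hcF]
    exact hRW W' hW'mem _
  · rw [← hcF]
    intro hmem
    -- `ζ ^ a` is a unit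
    have hu : algebraMap R Z (ζ ^ lab W) * algebraMap R Z (ζ ^ (lab W * (m - 1))) = 1 := by
      rw [← map_mul, ← pow_add]
      have : lab W + lab W * (m - 1) = m * lab W := by
        calc lab W + lab W * (m - 1) = lab W * (m - 1 + 1) := by ring
          _ = m * lab W := by rw [hm1, mul_comm]
      rw [this, pow_mul, hζ.pow_eq_one, one_pow, map_one]
    have := nu_mul_right W' hmem (hRW W' hW'mem (ζ ^ (lab W * (m - 1))))
    rw [hu] at this
    exact nu_one_not W' this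

end Wall

end Fermat.Agent.S36.H193

end
-- ===== PACK-END S36/H193/LabelWall.lean

-- ===== PACK-BEGIN S36/H83/Eis.lean
section
/-
S36 engine, MOD-3 leaf "EIS" (helper83), part 2.

Formal `q`-series input for the three valuations of `X₀(p²)` above the Gauss valuation.
With `j = j(q)`, `j_p = j(q^p)`, `j_{pp} = j(q^{p²})` in `ℤ((q))` and `Φ = Φ_p ∈ ℤ[Y][X]`:

* `P(X) := Φ(X, j_p) ∈ ℤ((q))[X]` is monic of degree `p + 1` with roots `j` and `j_{pp}`;
* `P ≡ (X - j)^p (X - j^{p²}) mod p`;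
* `Ψ := P / (X - j)` (the minimal polynomial of `j_{pp}` over `ℚ(j, j_p)`) satisfies
  `Ψ ≡ (X - j)^{p-1} (X - j^{p²}) mod p` and is **Eisenstein at `j`**:
  `Ψ(j) = p · U` with `U mod p ≠ 0`   (more precisely `U θj ≡ (j - j^{p²}) (θ j)^p`);
* `Ψ_B := P / (X - j_{pp})` (the minimal polynomial of `j` over `ℚ(j_p, j_{pp})`) satisfies
  `Ψ_B ≡ (X - j)^p = X^p - j^p mod p`   (purely inseparable).
-/


set_option autoImplicit false

noncomputable section

open ModularCurve Polynomial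

namespace Fermat.Agent.S36.H83

open Fermat.Agent.S28

/-! ### `θ j` is a unit of `ℤ((q))` -/

section ThetaJ

variable (A : Type*) [CommRing A]

theorem h83_thetaL_jqModC_coeff_neg_one : (thetaL A (jqModC A)).coeff (-1) = -1 := by
  rw [thetaL_coeff, coeff_jqModC_neg_one]
  simp

theorem h83_thetaL_jqModC_coeff_of_lt {n : ℤ} (hn : n < -1) :
    (thetaL A (jqModC A)).coeff n = 0 := by
  rw [thetaL_coeff, coeff_jqModC_of_lt A hn, mul_zero]

theorem h83_thetaL_jqModC_ne_zero [Nontrivial A] : thetaL A (jqModC A) ≠ 0 := by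
  intro h
  have h1 := h83_thetaL_jqModC_coeff_neg_one A
  rw [h, HahnSeries.coeff_zero] at h1
  exact (neg_ne_zero.mpr (one_ne_zero (α := A))) h1.symm

theorem h83_order_thetaL_jqModC [Nontrivial A] : (thetaL A (jqModC A)).order = -1 := by
  have hne := h83_thetaL_jqModC_ne_zero A
  apply le_antisymm
  · apply HahnSeries.order_le_of_coeff_ne_zero
    rw [h83_thetaL_jqModC_coeff_neg_one]
    exact neg_ne_zero.mpr one_ne_zero
  · by_contra h
    rw [not_le] at h
    exact (HahnSeries.coeff_order_eq_zero.not.mpr hne) (h83_thetaL_jqModC_coeff_of_lt A h)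

theorem h83_isUnit_thetaL_jqModC [IsDomain A] : IsUnit (thetaL A (jqModC A)) := by
  rw [HahnSeries.isUnit_iff, HahnSeries.leadingCoeff_eq, h83_order_thetaL_jqModC,
    h83_thetaL_jqModC_coeff_neg_one]
  exact isUnit_one.neg

end ThetaJ

/-! ### The Kronecker congruence, specialised in either variable -/

section KroneckerSpec

variable (p : ℕ) [hp : Fact p.Prime] [NeZero p] (Φ : ModPolyData p)

/-- `Φ̄(X, y) = (X^p - y)(X - y^p)` over `𝔽_p((q))`. -/
theorem h83_map_evalAt_zmod (y : LaurentSeries (ZMod p)) :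
    Φ.Φ.map (evalAt y) = (X ^ p - C y) * (X - C (y ^ p)) := by
  rw [← h88_aeval_comp_mapRingHom (ZMod p) y, ← Polynomial.map_map,
    h88_kronecker_charP p (ZMod p) Φ]
  simp

/-- `Φ̄(x, Y) = (x^p - Y)(x - Y^p)` over `𝔽_p((q))`. -/
theorem h83_eval₂_C_zmod (x : LaurentSeries (ZMod p)) :
    Φ.Φ.eval₂ (Polynomial.mapRingHom (Int.castRingHom (LaurentSeries (ZMod p)))) (C x)
      = (C (x ^ p) - X) * (C x - X ^ p) := by
  have hcomp : Polynomial.mapRingHom (Int.castRingHom (LaurentSeries (ZMod p)))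
      = (Polynomial.mapRingHom (HahnSeries.C : ZMod p →+* LaurentSeries (ZMod p))).comp
          (Polynomial.mapRingHom (Int.castRingHom (ZMod p))) := by
    apply Polynomial.ringHom_ext
    · intro a
      simp
    · simp
  rw [hcomp, ← Polynomial.eval₂_map, h88_kronecker_charP p (ZMod p) Φ, Polynomial.eval₂_mul,
    Polynomial.eval₂_sub, Polynomial.eval₂_sub, Polynomial.eval₂_pow, Polynomial.eval₂_X,
    Polynomial.eval₂_C, Polynomial.eval₂_C, Polynomial.coe_mapRingHom, Polynomial.map_X,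
    Polynomial.map_pow, Polynomial.map_X, ← Polynomial.C_pow]

end KroneckerSpec

/-- Reduction of coefficients `ℤ((q)) → 𝔽_p((q))`. -/
abbrev h83_red (p : ℕ) : LaurentSeries ℤ →+* LaurentSeries (ZMod p) :=
  coeffMap (Int.castRingHom (ZMod p))

/-! ### The polynomial `P = Φ(X, j_p)` and its two cofactors -/

section Main

variable (p : ℕ) [hp : Fact p.Prime] [NeZero p] (Φ : ModPolyData p)

/-- `P(X) = Φ_p(X, j(q^p)) ∈ ℤ((q))[X]`. -/
def h83_eisP : Polynomial (LaurentSeries ℤ) :=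
  Φ.Φ.map (evalAt (qExpand ℤ p (jqModC ℤ)))

omit hp in
theorem h83_eisP_monic : (h83_eisP p Φ).Monic := Φ.monic.map _

omit hp in
theorem h83_eisP_natDegree : (h83_eisP p Φ).natDegree = p + 1 := by
  rw [h83_eisP, Φ.monic.natDegree_map, Φ.natDegree_eq]

omit hp in
theorem h83_eisP_eval_j : (h83_eisP p Φ).eval (jqModC ℤ) = 0 := by
  rw [h83_eisP, Polynomial.eval_map]
  exact Φ.eval_j

omit hp in
theorem h83_eisP_eval_jpp :
    (h83_eisP p Φ).eval (qExpand ℤ p (qExpand ℤ p (jqModC ℤ))) = 0 := by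
  rw [h83_eisP, Polynomial.eval_map]
  have h := congrArg (qExpand ℤ p) Φ.eval_jp
  rw [Polynomial.hom_eval₂, map_zero, h88_comp_evalAt] at h
  exact h

/-- `Ψ = P / (X - j)`: the polynomial satisfied by `j(q^{p²})` over `ℤ[j, j_p]`. -/
def h83_eisPsi : Polynomial (LaurentSeries ℤ) :=
  h83_eisP p Φ /ₘ (X - C (jqModC ℤ))

/-- `Ψ_B = P / (X - j_{pp})`: the polynomial satisfied by `j` over `ℤ[j_p, j_{pp}]`. -/
def h83_eisPsiB : Polynomial (LaurentSeries ℤ) :=
  h83_eisP p Φ /ₘ (X - C (qExpand ℤ p (qExpand ℤ p (jqModC ℤ))))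

omit hp in
theorem h83_eisP_eq_mul_eisPsi :
    h83_eisP p Φ = (X - C (jqModC ℤ)) * h83_eisPsi p Φ :=
  (Polynomial.mul_divByMonic_eq_iff_isRoot.mpr (h83_eisP_eval_j p Φ)).symm

omit hp in
theorem h83_eisP_eq_mul_eisPsiB :
    h83_eisP p Φ = (X - C (qExpand ℤ p (qExpand ℤ p (jqModC ℤ)))) * h83_eisPsiB p Φ :=
  (Polynomial.mul_divByMonic_eq_iff_isRoot.mpr (h83_eisP_eval_jpp p Φ)).symm

omit hp in
theorem h83_eisPsi_monic : (h83_eisPsi p Φ).Monic := by
  have h := h83_eisP_monic p Φ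
  rw [h83_eisP_eq_mul_eisPsi] at h
  exact (Polynomial.monic_X_sub_C _).of_mul_monic_left h

omit hp in
theorem h83_eisPsiB_monic : (h83_eisPsiB p Φ).Monic := by
  have h := h83_eisP_monic p Φ
  rw [h83_eisP_eq_mul_eisPsiB] at h
  exact (Polynomial.monic_X_sub_C _).of_mul_monic_left h

omit hp in
theorem h83_eisPsi_natDegree : (h83_eisPsi p Φ).natDegree = p := by
  rw [h83_eisPsi, Polynomial.natDegree_divByMonic _ (Polynomial.monic_X_sub_C _),
    h83_eisP_natDegree, Polynomial.natDegree_X_sub_C, Nat.add_sub_cancel]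

omit hp in
theorem h83_eisPsiB_natDegree : (h83_eisPsiB p Φ).natDegree = p := by
  rw [h83_eisPsiB, Polynomial.natDegree_divByMonic _ (Polynomial.monic_X_sub_C _),
    h83_eisP_natDegree, Polynomial.natDegree_X_sub_C, Nat.add_sub_cancel]

/-- `j ≠ j(q^{p²})` in `ℤ((q))`. -/
theorem h83_j_ne_jpp : jqModC ℤ ≠ qExpand ℤ p (qExpand ℤ p (jqModC ℤ)) := by
  intro h
  have h1 := coeff_jqModC_neg_one ℤ
  rw [h, qExpand_coeff_of_not_dvd p _] at h1
  · exact zero_ne_one h1
  · intro hdvd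
    have h2 : (p : ℤ) ∣ 1 := (dvd_neg).mp hdvd
    have h3 := Int.le_of_dvd (by norm_num) h2
    have h4 : (1 : ℤ) < p := by exact_mod_cast hp.out.one_lt
    omega

/-- `Ψ(j_{pp}) = 0`. -/
theorem h83_eisPsi_eval_jpp :
    (h83_eisPsi p Φ).eval (qExpand ℤ p (qExpand ℤ p (jqModC ℤ))) = 0 := by
  have h := h83_eisP_eval_jpp p Φ
  rw [h83_eisP_eq_mul_eisPsi, Polynomial.eval_mul, Polynomial.eval_sub, Polynomial.eval_X,
    Polynomial.eval_C] at h
  rcases mul_eq_zero.mp h with h0 | h0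
  · exact absurd (sub_eq_zero.mp h0).symm (h83_j_ne_jpp p)
  · exact h0

/-- `Ψ_B(j) = 0`. -/
theorem h83_eisPsiB_eval_j : (h83_eisPsiB p Φ).eval (jqModC ℤ) = 0 := by
  have h := h83_eisP_eval_j p Φ
  rw [h83_eisP_eq_mul_eisPsiB, Polynomial.eval_mul, Polynomial.eval_sub, Polynomial.eval_X,
    Polynomial.eval_C] at h
  rcases mul_eq_zero.mp h with h0 | h0
  · exact absurd (sub_eq_zero.mp h0) (h83_j_ne_jpp p)
  · exact h0

/-! ### Reduction modulo `p` -/

omit hp [NeZero p] in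
theorem h83_red_j : h83_red p (jqModC ℤ) = jqModC (ZMod p) := coeffMap_jqModC _

theorem h83_red_jp : h83_red p (qExpand ℤ p (jqModC ℤ)) = jqModC (ZMod p) ^ p := by
  rw [h83_red, coeffMap_qExpand, coeffMap_jqModC, h88_qExpand_zmod]

theorem h83_red_jpp :
    h83_red p (qExpand ℤ p (qExpand ℤ p (jqModC ℤ))) = jqModC (ZMod p) ^ (p ^ 2) := by
  rw [h83_red, coeffMap_qExpand, coeffMap_qExpand, coeffMap_jqModC, h88_qExpand_zmod,
    h88_qExpand_zmod, ← pow_mul, pow_two]

/-- `j̄ ≠ j̄^{p²}` in `𝔽_p((q))`. -/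
theorem h83_jbar_ne_pow : jqModC (ZMod p) ≠ jqModC (ZMod p) ^ (p ^ 2) := by
  rw [pow_two, pow_mul, ← h88_qExpand_zmod p (jqModC (ZMod p) ^ p)]
  exact h88_jqModC_ne_qExpand (ZMod p) p hp.out.one_lt _

/-- `P ≡ (X - j)^p (X - j^{p²}) mod p`. -/
theorem h83_eisP_map_red :
    (h83_eisP p Φ).map (h83_red p)
      = (X - C (jqModC (ZMod p))) ^ p * (X - C (jqModC (ZMod p) ^ (p ^ 2))) := by
  have : CharP (LaurentSeries (ZMod p)) p := h88_charP_laurent (ZMod p) p
  rw [h83_eisP, Polynomial.map_map, h88_comp_evalAt, h83_red_jp, h83_map_evalAt_zmod,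
    sub_pow_char, ← Polynomial.C_pow, ← pow_mul, pow_two]

/-- `Ψ ≡ (X - j)^{p-1} (X - j^{p²}) mod p`. -/
theorem h83_eisPsi_map_red :
    (h83_eisPsi p Φ).map (h83_red p)
      = (X - C (jqModC (ZMod p))) ^ (p - 1) * (X - C (jqModC (ZMod p) ^ (p ^ 2))) := by
  have hpow : (X - C (jqModC (ZMod p))) ^ p
      = (X - C (jqModC (ZMod p))) * (X - C (jqModC (ZMod p))) ^ (p - 1) := by
    rw [← pow_succ', Nat.sub_add_cancel hp.out.one_le]
  have hD : (X - C (jqModC ℤ)).map (h83_red p) = X - C (jqModC (ZMod p)) := by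
    rw [Polynomial.map_sub, Polynomial.map_X, Polynomial.map_C, h83_red_j]
  rw [h83_eisPsi, Polynomial.map_divByMonic _ (Polynomial.monic_X_sub_C _), hD,
    h83_eisP_map_red]
  rw [hpow, mul_assoc]
  exact Polynomial.mul_divByMonic_cancel_left _ (Polynomial.monic_X_sub_C _)

/-- `Ψ_B ≡ (X - j)^p = X^p - j^p mod p`. -/
theorem h83_eisPsiB_map_red :
    (h83_eisPsiB p Φ).map (h83_red p) = (X - C (jqModC (ZMod p))) ^ p := by
  have hD : (X - C (qExpand ℤ p (qExpand ℤ p (jqModC ℤ)))).map (h83_red p)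
      = X - C (jqModC (ZMod p) ^ (p ^ 2)) := by
    rw [Polynomial.map_sub, Polynomial.map_X, Polynomial.map_C, h83_red_jpp]
  rw [h83_eisPsiB, Polynomial.map_divByMonic _ (Polynomial.monic_X_sub_C _), hD,
    h83_eisP_map_red, mul_comm]
  exact Polynomial.mul_divByMonic_cancel_left _ (Polynomial.monic_X_sub_C _)

/-- `Ψ_B ≡ X^p - j^p mod p`. -/
theorem h83_eisPsiB_map_red' :
    (h83_eisPsiB p Φ).map (h83_red p) = X ^ p - C (jqModC (ZMod p) ^ p) := by
  have : CharP (LaurentSeries (ZMod p)) p := h88_charP_laurent (ZMod p) p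
  rw [h83_eisPsiB_map_red, sub_pow_char, ← Polynomial.C_pow]

/-! ### The Eisenstein property of `Ψ` at `j` -/

omit hp in
/-- `Ψ(j) = P'(j)`. -/
theorem h83_eisPsi_eval_j_eq_derivative :
    (h83_eisPsi p Φ).eval (jqModC ℤ)
      = (Polynomial.derivative (h83_eisP p Φ)).eval (jqModC ℤ) := by
  conv_rhs => rw [h83_eisP_eq_mul_eisPsi]
  rw [Polynomial.derivative_mul, Polynomial.derivative_sub, Polynomial.derivative_X,
    Polynomial.derivative_C, sub_zero, one_mul, Polynomial.eval_add, Polynomial.eval_mul,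
    Polynomial.eval_sub, Polynomial.eval_X, Polynomial.eval_C, sub_self, zero_mul, add_zero]

/-- The partial derivative `(∂Φ/∂Y)(j, j_p) ∈ ℤ((q))`. -/
def h83_eisDY : LaurentSeries ℤ :=
  (Polynomial.derivative
    (Φ.Φ.eval₂ (Polynomial.mapRingHom (Int.castRingHom (LaurentSeries ℤ)))
      (C (jqModC ℤ)))).eval (qExpand ℤ p (jqModC ℤ))

omit hp in
/-- The `θ`-identity: `Ψ(j) · θ j = - p · (∂Φ/∂Y)(j, j_p) · (θ j)(q^p)`. -/
theorem h83_eisPsi_eval_j_mul_theta :
    (h83_eisPsi p Φ).eval (jqModC ℤ) * thetaL ℤ (jqModC ℤ)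
      = -((p : LaurentSeries ℤ) * (h83_eisDY p Φ * qExpand ℤ p (thetaL ℤ (jqModC ℤ)))) := by
  have h := h83_chain_rule Φ.Φ (jqModC ℤ) (qExpand ℤ p (jqModC ℤ))
  rw [Φ.eval_j, h88_thetaL_zero, h88_thetaL_qExpand] at h
  rw [h83_eisPsi_eval_j_eq_derivative]
  unfold h83_eisP h83_eisDY
  linear_combination -h

/-- `(∂Φ/∂Y)(j, j_p) ≡ j^{p²} - j mod p`. -/
theorem h83_red_eisDY :
    h83_red p (h83_eisDY p Φ) = jqModC (ZMod p) ^ (p ^ 2) - jqModC (ZMod p) := by
  have : CharP (LaurentSeries (ZMod p)) p := h88_charP_laurent (ZMod p) p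
  have hcomp : (Polynomial.mapRingHom (h83_red p)).comp
      (Polynomial.mapRingHom (Int.castRingHom (LaurentSeries ℤ)))
      = Polynomial.mapRingHom (Int.castRingHom (LaurentSeries (ZMod p))) := by
    apply Polynomial.ringHom_ext
    · intro a
      simp
    · simp
  have hQ : (Φ.Φ.eval₂ (Polynomial.mapRingHom (Int.castRingHom (LaurentSeries ℤ)))
      (C (jqModC ℤ))).map (h83_red p)
      = (C (jqModC (ZMod p) ^ p) - X) * (C (jqModC (ZMod p)) - X ^ p) := by
    rw [← Polynomial.coe_mapRingHom, Polynomial.hom_eval₂, hcomp, Polynomial.coe_mapRingHom,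
      Polynomial.map_C, h83_red_j, h83_eval₂_C_zmod]
  have hpz : ((p : ℕ) : LaurentSeries (ZMod p)) = 0 := CharP.cast_eq_zero _ p
  unfold h83_eisDY
  rw [← Polynomial.eval₂_hom, ← Polynomial.eval_map, ← Polynomial.derivative_map, hQ, h83_red_jp,
    Polynomial.derivative_mul, Polynomial.derivative_sub, Polynomial.derivative_sub,
    Polynomial.derivative_C, Polynomial.derivative_C, Polynomial.derivative_X,
    Polynomial.derivative_X_pow, hpz]
  simp only [Polynomial.eval_add, Polynomial.eval_mul, Polynomial.eval_sub, Polynomial.eval_C,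
    Polynomial.eval_X, Polynomial.eval_pow, Polynomial.eval_zero, Polynomial.eval_one, Polynomial.eval_neg,
    Polynomial.C_0, zero_mul, zero_sub, sub_zero, mul_zero, add_zero, ← pow_mul, pow_two]
  ring

/-- **Eisenstein property of `Ψ` at `j`**: `Ψ(j) = p · U` with `U` a unit modulo `p`;
more precisely `U · θ j = -(∂Φ/∂Y)(j, j_p) · (θ j)(q^p)` and
`Ū · θ j̄ = (j̄ - j̄^{p²}) · (θ j̄)^p`. -/
theorem h83_eisenstein :
    ∃ U : LaurentSeries ℤ,
      (h83_eisPsi p Φ).eval (jqModC ℤ) = (p : LaurentSeries ℤ) * U ∧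
      U * thetaL ℤ (jqModC ℤ)
        = -(h83_eisDY p Φ * qExpand ℤ p (thetaL ℤ (jqModC ℤ))) ∧
      h83_red p U * thetaL (ZMod p) (jqModC (ZMod p))
        = (jqModC (ZMod p) - jqModC (ZMod p) ^ (p ^ 2))
            * thetaL (ZMod p) (jqModC (ZMod p)) ^ p ∧
      h83_red p U ≠ 0 := by
  obtain ⟨V, hV⟩ := (h83_isUnit_thetaL_jqModC ℤ).exists_right_inv
  have hθ := h83_eisPsi_eval_j_mul_theta p Φ
  set T := thetaL ℤ (jqModC ℤ) with hT
  set D := h83_eisDY p Φ with hD
  have h2 : (-(D * qExpand ℤ p T) * V) * T = -(D * qExpand ℤ p T) := by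
    linear_combination (-(D * qExpand ℤ p T)) * hV
  have h3 : h83_red p (-(D * qExpand ℤ p T) * V) * thetaL (ZMod p) (jqModC (ZMod p))
      = (jqModC (ZMod p) - jqModC (ZMod p) ^ (p ^ 2))
          * thetaL (ZMod p) (jqModC (ZMod p)) ^ p := by
    have h := congrArg (h83_red p) h2
    rw [map_mul, map_neg (h83_red p) (D * qExpand ℤ p T), map_mul (h83_red p) D, hD,
      h83_red_eisDY, hT] at h
    rw [show h83_red p (thetaL ℤ (jqModC ℤ)) = thetaL (ZMod p) (jqModC (ZMod p)) from by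
        rw [h83_red, h88_coeffMap_thetaL, coeffMap_jqModC],
      show h83_red p (qExpand ℤ p (thetaL ℤ (jqModC ℤ)))
          = thetaL (ZMod p) (jqModC (ZMod p)) ^ p from by
        rw [h83_red, coeffMap_qExpand, h88_coeffMap_thetaL, coeffMap_jqModC,
          h88_qExpand_zmod]] at h
    rw [h]
    ring
  refine ⟨-(D * qExpand ℤ p T) * V, ?_, h2, h3, ?_⟩
  · linear_combination V * hθ - ((h83_eisPsi p Φ).eval (jqModC ℤ)) * hV
  · intro h0
    rw [h0, zero_mul] at h3
    rcases mul_eq_zero.mp h3.symm with h | h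
    · exact h83_jbar_ne_pow p (sub_eq_zero.mp h)
    · exact h83_thetaL_jqModC_ne_zero (ZMod p) (pow_eq_zero_iff (NeZero.ne p) |>.mp h)

/-! ### Rings of definition -/

omit hp in
/-- `evalAt y` factors through any subring containing `y`. -/
theorem h83_subtype_comp_aeval (S : Subring (LaurentSeries ℤ)) {y : LaurentSeries ℤ}
    (hy : y ∈ S) :
    S.subtype.comp (Polynomial.aeval (R := ℤ) (⟨y, hy⟩ : S)).toRingHom = evalAt y := by
  apply Polynomial.ringHom_ext
  · intro a
    simp [evalAt]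
  · simp [evalAt]

omit hp in
/-- `P` has coefficients in `ℤ[j_p]`. -/
theorem h83_eisP_mem_lifts (S : Subring (LaurentSeries ℤ))
    (hjp : qExpand ℤ p (jqModC ℤ) ∈ S) :
    ∃ P₀ : Polynomial S, P₀.Monic ∧ P₀.map S.subtype = h83_eisP p Φ :=
  ⟨Φ.Φ.map (Polynomial.aeval (R := ℤ) (⟨_, hjp⟩ : S)).toRingHom, Φ.monic.map _, by
    rw [Polynomial.map_map, h83_subtype_comp_aeval S hjp, h83_eisP]⟩

omit hp in
/-- `Ψ` has coefficients in `ℤ[j, j_p]`. -/
theorem h83_eisPsi_mem_lifts (S : Subring (LaurentSeries ℤ)) (hj : jqModC ℤ ∈ S)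
    (hjp : qExpand ℤ p (jqModC ℤ) ∈ S) :
    ∃ Ψ₀ : Polynomial S, Ψ₀.Monic ∧ Ψ₀.map S.subtype = h83_eisPsi p Φ := by
  obtain ⟨P₀, hP₀m, hP₀⟩ := h83_eisP_mem_lifts p Φ S hjp
  have hD : (X - C (⟨jqModC ℤ, hj⟩ : S)).map S.subtype = X - C (jqModC ℤ) := by
    rw [Polynomial.map_sub, Polynomial.map_X, Polynomial.map_C]
    rfl
  have hmap : (P₀ /ₘ (X - C (⟨jqModC ℤ, hj⟩ : S))).map S.subtype = h83_eisPsi p Φ := by
    rw [Polynomial.map_divByMonic _ (Polynomial.monic_X_sub_C _), hD, hP₀, h83_eisPsi]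
  refine ⟨P₀ /ₘ (X - C (⟨jqModC ℤ, hj⟩ : S)), ?_, hmap⟩
  have hinj : Function.Injective S.subtype := Subtype.val_injective
  have hm := h83_eisPsi_monic p Φ
  rw [← hmap] at hm
  exact Polynomial.monic_of_injective hinj hm

omit hp in
/-- `Ψ_B` has coefficients in `ℤ[j_p, j_{pp}]`. -/
theorem h83_eisPsiB_mem_lifts (S : Subring (LaurentSeries ℤ))
    (hjp : qExpand ℤ p (jqModC ℤ) ∈ S)
    (hjpp : qExpand ℤ p (qExpand ℤ p (jqModC ℤ)) ∈ S) :
    ∃ Ψ₀ : Polynomial S, Ψ₀.Monic ∧ Ψ₀.map S.subtype = h83_eisPsiB p Φ := by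
  obtain ⟨P₀, hP₀m, hP₀⟩ := h83_eisP_mem_lifts p Φ S hjp
  have hD : (X - C (⟨_, hjpp⟩ : S)).map S.subtype
      = X - C (qExpand ℤ p (qExpand ℤ p (jqModC ℤ))) := by
    rw [Polynomial.map_sub, Polynomial.map_X, Polynomial.map_C]
    rfl
  have hmap : (P₀ /ₘ (X - C (⟨_, hjpp⟩ : S))).map S.subtype = h83_eisPsiB p Φ := by
    rw [Polynomial.map_divByMonic _ (Polynomial.monic_X_sub_C _), hD, hP₀, h83_eisPsiB]
  refine ⟨P₀ /ₘ (X - C (⟨_, hjpp⟩ : S)), ?_, hmap⟩
  have hinj : Function.Injective S.subtype := Subtype.val_injective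
  have hm := h83_eisPsiB_monic p Φ
  rw [← hmap] at hm
  exact Polynomial.monic_of_injective hinj hm

/-! ### Integral form: `Ψ = (X - j)^{p-1} (X - j^{p²}) + p · G` with `G(j)` a unit mod `p` -/

omit hp in
/-- The kernel of the reduction `ℤ((q)) → 𝔽_p((q))` is generated by `p`. -/
theorem h83_dvd_of_red_eq_zero {x : LaurentSeries ℤ} (hx : h83_red p x = 0) :
    (p : LaurentSeries ℤ) ∣ x := by
  have hcoeff : ∀ n : ℤ, (p : ℤ) ∣ x.coeff n := by
    intro n
    have h := congrArg (fun y : LaurentSeries (ZMod p) => y.coeff n) hx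
    simp only [h83_red, coeffMap_coeff, HahnSeries.coeff_zero, Int.coe_castRingHom] at h
    exact (ZMod.intCast_zmod_eq_zero_iff_dvd _ p).mp h
  have hp0 : (p : ℤ) ≠ 0 := by exact_mod_cast NeZero.ne p
  refine ⟨⟨fun n => x.coeff n / (p : ℤ), x.isPWO_support.mono fun n hn => ?_⟩, ?_⟩
  · simp only [Function.mem_support, ne_eq] at hn ⊢
    intro h0
    exact hn (by rw [h0, Int.zero_ediv])
  · have hc : (p : LaurentSeries ℤ) = HahnSeries.C ((p : ℕ) : ℤ) :=
      (map_natCast (HahnSeries.C : ℤ →+* LaurentSeries ℤ) p).symm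
    ext n
    rw [hc, HahnSeries.C_mul_eq_smul, HahnSeries.coeff_smul, smul_eq_mul]
    exact (Int.mul_ediv_cancel' (hcoeff n)).symm

omit hp in
/-- A polynomial over `ℤ((q))` whose reduction mod `p` vanishes is divisible by `p`. -/
theorem h83_C_dvd_of_map_red_eq_zero {D : Polynomial (LaurentSeries ℤ)}
    (hD : D.map (h83_red p) = 0) : C (p : LaurentSeries ℤ) ∣ D := by
  rw [Polynomial.C_dvd_iff_dvd_coeff]
  intro i
  apply h83_dvd_of_red_eq_zero
  have h := congrArg (fun q : Polynomial (LaurentSeries (ZMod p)) => q.coeff i) hD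
  simpa only [Polynomial.coeff_map, Polynomial.coeff_zero] using h

omit hp in
theorem h83_natCast_ne_zero : (p : LaurentSeries ℤ) ≠ 0 := by
  have hc : (p : LaurentSeries ℤ) = HahnSeries.C ((p : ℕ) : ℤ) :=
    (map_natCast (HahnSeries.C : ℤ →+* LaurentSeries ℤ) p).symm
  rw [hc]
  intro h
  have h1 : ((p : ℕ) : ℤ) = 0 := HahnSeries.C_injective (by rw [h, map_zero])
  exact NeZero.ne p (by exact_mod_cast h1)

/-- `P = (X - j)^p (X - j^{p²}) + p · G_P` over `ℤ((q))`. -/
theorem h83_eisP_eq_add :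
    ∃ G : Polynomial (LaurentSeries ℤ),
      h83_eisP p Φ = (X - C (jqModC ℤ)) ^ p * (X - C (jqModC ℤ ^ (p ^ 2)))
        + C (p : LaurentSeries ℤ) * G := by
  have hD : (h83_eisP p Φ - (X - C (jqModC ℤ)) ^ p * (X - C (jqModC ℤ ^ (p ^ 2)))).map
      (h83_red p) = 0 := by
    rw [Polynomial.map_sub, h83_eisP_map_red]
    simp only [Polynomial.map_mul, Polynomial.map_pow, Polynomial.map_sub, Polynomial.map_X,
      Polynomial.map_C, map_pow, h83_red_j, sub_self]
  obtain ⟨G, hG⟩ := h83_C_dvd_of_map_red_eq_zero p hD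
  exact ⟨G, by rw [← hG]; ring⟩

/-- `Ψ_B = X^p - j^p + p · G_B` over `ℤ((q))`. -/
theorem h83_eisPsiB_eq_add :
    ∃ G : Polynomial (LaurentSeries ℤ),
      h83_eisPsiB p Φ = X ^ p - C (jqModC ℤ ^ p) + C (p : LaurentSeries ℤ) * G := by
  have hD : (h83_eisPsiB p Φ - (X ^ p - C (jqModC ℤ ^ p))).map (h83_red p) = 0 := by
    rw [Polynomial.map_sub, h83_eisPsiB_map_red']
    simp only [Polynomial.map_pow, Polynomial.map_sub, Polynomial.map_X,
      Polynomial.map_C, map_pow, h83_red_j, sub_self]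
  obtain ⟨G, hG⟩ := h83_C_dvd_of_map_red_eq_zero p hD
  exact ⟨G, by rw [← hG]; ring⟩

/-- **Eisenstein-split form of `Ψ`** (the hypothesis shape of the two-valuation lemma):
`Ψ = (X - j)^{p-1} (X - j^{p²}) + p · G` over `ℤ((q))`, with `G(j) ≢ 0 mod p` and
`j^{p²} - j ≢ 0 mod p`. -/
theorem h83_eisPsi_eq_add :
    ∃ G : Polynomial (LaurentSeries ℤ),
      h83_eisPsi p Φ = (X - C (jqModC ℤ)) ^ (p - 1) * (X - C (jqModC ℤ ^ (p ^ 2)))
        + C (p : LaurentSeries ℤ) * G ∧
      (h83_eisPsi p Φ).eval (jqModC ℤ) = (p : LaurentSeries ℤ) * G.eval (jqModC ℤ) ∧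
      h83_red p (G.eval (jqModC ℤ)) ≠ 0 ∧
      h83_red p (jqModC ℤ ^ (p ^ 2) - jqModC ℤ) ≠ 0 := by
  have hD : (h83_eisPsi p Φ
      - (X - C (jqModC ℤ)) ^ (p - 1) * (X - C (jqModC ℤ ^ (p ^ 2)))).map (h83_red p) = 0 := by
    rw [Polynomial.map_sub, h83_eisPsi_map_red]
    simp only [Polynomial.map_mul, Polynomial.map_pow, Polynomial.map_sub, Polynomial.map_X,
      Polynomial.map_C, map_pow, h83_red_j, sub_self]
  obtain ⟨G, hG⟩ := h83_C_dvd_of_map_red_eq_zero p hD
  have hΨ : h83_eisPsi p Φ = (X - C (jqModC ℤ)) ^ (p - 1) * (X - C (jqModC ℤ ^ (p ^ 2)))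
      + C (p : LaurentSeries ℤ) * G := by rw [← hG]; ring
  have hp1 : p - 1 ≠ 0 := Nat.sub_ne_zero_of_lt hp.out.one_lt
  have hev : (h83_eisPsi p Φ).eval (jqModC ℤ) = (p : LaurentSeries ℤ) * G.eval (jqModC ℤ) := by
    conv_lhs => rw [hΨ]
    rw [Polynomial.eval_add, Polynomial.eval_mul, Polynomial.eval_pow, Polynomial.eval_sub,
      Polynomial.eval_X, Polynomial.eval_C, sub_self, zero_pow hp1, zero_mul, zero_add,
      Polynomial.eval_mul, Polynomial.eval_C]
  refine ⟨G, hΨ, hev, ?_, ?_⟩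
  · obtain ⟨U, hU, -, -, hU0⟩ := h83_eisenstein p Φ
    have hGU : G.eval (jqModC ℤ) = U :=
      mul_left_cancel₀ (h83_natCast_ne_zero p) (hev.symm.trans hU)
    rw [hGU]
    exact hU0
  · rw [map_sub, map_pow, h83_red_j]
    exact sub_ne_zero.mpr (h83_jbar_ne_pow p).symm

end Main

end Fermat.Agent.S36.H83

end

end
-- ===== PACK-END S36/H83/Eis.lean

-- ===== PACK-BEGIN A2/H489/ChartB.lean
section



/-!
# A2 / MODASM step S1 (helper489): the two components of a chart, from an explicit coordinate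

`R` a discrete valuation ring with uniformiser `w`, `E = Frac R`, `F ⊇ E` a field, `y ∈ F` a
coordinate, `V₁ ≠ V₂` valuation subrings of `F` inducing the Gauss valuation on `E(y)`
(`IsGaussOver`), both with uniformiser `w`, with `R[y]`-independent families modulo the maximal
ideals (`PolyIndepMod`) of total size `≥ [F : E(y)]`.

* `gaussPairLe_of_frame` : the hypotheses `H48.GaussPairLe` for the `R[X]`-algebra structure
  `X ↦ y` (all instances are constructed here);
* `frame_exists_components` : for the chart `B` = integral closure of `R[y]`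
  (`f ∈ B ↔ IsIntegral (Algebra.adjoin R {y}) f`) there are prime ideals `p₁ p₂` of `B` with
  `b ∈ p_i ↔ b ∈ 𝔪_{V_i}`, incomparable, and `p₁ ⊓ p₂ = w B`
  (= the fields `p₁ … inf_eq` of `Fermat.Agent.A2.SSChart`).
-/

set_option autoImplicit false
set_option linter.style.haveILetI false
set_option linter.unusedSectionVars false

namespace Fermat.Agent.A2.H489

open IsLocalRing Polynomial IntermediateField

section Inj

variable {R F : Type*} [CommRing R] [IsDomain R] [IsDiscreteValuationRing R]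
  [Field F] [Algebra R F]

/-- the coordinate of a Gauss valuation is transcendental over `R` -/
theorem IsGaussOver.aeval_injective (E : Type*) [Field E] [Algebra R E] [IsFractionRing R E]
    [Algebra E F] [IsScalarTower R E F] {V : ValuationSubring F} {y : F}
    (h : IsGaussOver R V y) :
    Function.Injective (aeval y : R[X] → F) := by
  rw [injective_iff_map_eq_zero]
  intro P hP
  by_contra hP0
  obtain ⟨w, hw⟩ := IsDiscreteValuationRing.exists_irreducible R
  obtain ⟨n, P₀, rfl, hP₀⟩ := exists_eq_pow_mul_prim hw hP0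
  rw [map_mul, aeval_C] at hP
  rcases mul_eq_zero.mp hP with h1 | h1
  · exact algebraMap_RL_ne_zero E (pow_ne_zero n hw.ne_zero) h1
  · exact h.aeval_ne_zero hP₀ h1

end Inj

section FrameChart

variable {R E F : Type*} [CommRing R] [IsDomain R] [IsDiscreteValuationRing R]
  [Field E] [Algebra R E] [IsFractionRing R E]
  [Field F] [Algebra E F] [Algebra R F] [IsScalarTower R E F]

/-- divisibility by the uniformiser = vanishing modulo the maximal ideal -/
theorem C_dvd_iff_map_residue_eq_zero {w : R} (hw : Irreducible w) (P : R[X]) :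
    C w ∣ P ↔ P.map (residue R) = 0 := by
  constructor
  · rintro ⟨P', rfl⟩
    have hwm : residue R w = 0 := by
      rw [residue_eq_zero_iff, IsLocalRing.mem_maximalIdeal, _root_.mem_nonunits_iff]
      exact hw.not_isUnit
    rw [Polynomial.map_mul, map_C, hwm, C_0, zero_mul]
  · intro h
    obtain ⟨P', hP'⟩ := exists_eq_C_mul_of_map_residue_eq_zero hw h
    exact ⟨P', hP'⟩

variable {V : ValuationSubring F} {y : F}

/-- every element of `E(y)` is a quotient of polynomials over `R` -/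
theorem exists_div_aeval_of_mem_adjoin {a : F} (ha : a ∈ E⟮y⟯) :
    ∃ P Q : R[X], a = aeval y P / aeval y Q := by
  obtain ⟨r, s, hrs⟩ := (mem_adjoin_simple_iff E a).mp ha
  by_cases hr : r = 0
  · refine ⟨0, 1, ?_⟩
    rw [hrs, hr, map_zero, zero_div, map_zero, zero_div]
  by_cases hs : s = 0
  · refine ⟨0, 1, ?_⟩
    rw [hrs, hs, map_zero, div_zero, map_zero, zero_div]
  obtain ⟨dr, R', hdr, -, eR⟩ := exists_aeval_eq_of_polynomial (R := R) y hr
  obtain ⟨ds, S', hds, -, eS⟩ := exists_aeval_eq_of_polynomial (R := R) y hs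
  have hdrL : algebraMap R F dr ≠ 0 := algebraMap_RL_ne_zero E hdr
  have hdsL : algebraMap R F ds ≠ 0 := algebraMap_RL_ne_zero E hds
  refine ⟨C ds * R', C dr * S', ?_⟩
  rw [map_mul, map_mul, aeval_C, aeval_C, ← eR, ← eS, hrs]
  by_cases hs0 : aeval y s = 0
  · rw [hs0, div_zero, mul_zero, mul_zero, div_zero]
  · field_simp

/-- **MODASM S1, explicit coordinate.**  The two components of the chart `B` = integral closure
of `R[y]`: primes `p₁ = B ∩ 𝔪_{V₁}`, `p₂ = B ∩ 𝔪_{V₂}`, incomparable, `p₁ ⊓ p₂ = w B`. -/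
theorem frame_exists_components {w : R} (hw : Irreducible w) {V₁ V₂ : ValuationSubring F}
    (h₁ : IsGaussOver R V₁ y) (h₂ : IsGaussOver R V₂ y)
    (hu₁ : H48.IsUnif V₁ (algebraMap R F w)) (hu₂ : H48.IsUnif V₂ (algebraMap R F w))
    (hne : V₁ ≠ V₂) {f₁ f₂ : ℕ} {u₁ : Fin f₁ → F} {u₂ : Fin f₂ → F}
    (hm₁ : ∀ i, u₁ i ∈ V₁) (hm₂ : ∀ i, u₂ i ∈ V₂)
    (hI₁ : PolyIndepMod R V₁ y u₁) (hI₂ : PolyIndepMod R V₂ y u₂)
    [FiniteDimensional E⟮y⟯ F] (hdeg : Module.finrank E⟮y⟯ F ≤ f₁ + f₂)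
    (B : Subalgebra R F)
    (hB : ∀ f : F, f ∈ B ↔ IsIntegral (Algebra.adjoin R ({y} : Set F)) f) :
    ∃ p₁ p₂ : Ideal B,
      (∀ b : B, b ∈ p₁ ↔ (b : F) ∈ V₁.nonunits) ∧ (∀ b : B, b ∈ p₂ ↔ (b : F) ∈ V₂.nonunits) ∧
      p₁.IsPrime ∧ p₂.IsPrime ∧ p₁ ≠ p₂ ∧ ¬ p₁ ≤ p₂ ∧ ¬ p₂ ≤ p₁ ∧
      p₁ ⊓ p₂ = Ideal.span {algebraMap R B w} := by
  classical
  -- the `R[X]`-algebra structures `X ↦ y`
  letI algF : Algebra R[X] F := (aeval y : R[X] →ₐ[R] F).toRingHom.toAlgebra
  have hF : ∀ P : R[X], algebraMap R[X] F P = aeval y P := fun _ => rfl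
  let yK : E⟮y⟯ := ⟨y, mem_adjoin_simple_self E y⟩
  letI algK : Algebra R[X] E⟮y⟯ := (aeval yK : R[X] →ₐ[R] E⟮y⟯).toRingHom.toAlgebra
  have hK : ∀ P : R[X], algebraMap R[X] E⟮y⟯ P = aeval yK P := fun _ => rfl
  haveI towerK : IsScalarTower R E⟮y⟯ F := IsScalarTower.of_algebraMap_eq (fun _ => rfl)
  have hKF : ∀ P : R[X], ((aeval yK P : E⟮y⟯) : F) = aeval y P := by
    intro P
    have := Polynomial.aeval_algHom_apply (IsScalarTower.toAlgHom R E⟮y⟯ F) yK P
    exact this.symm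
  haveI tower : IsScalarTower R[X] E⟮y⟯ F :=
    IsScalarTower.of_algebraMap_eq (fun P => (hKF P).symm)
  haveI towerR : IsScalarTower R R[X] F :=
    IsScalarTower.of_algebraMap_eq (fun r => (aeval_C y r).symm)
  have hinjF : Function.Injective (aeval y : R[X] → F) := h₁.aeval_injective E
  have hinjK : Function.Injective (algebraMap R[X] E⟮y⟯) := by
    intro P Q hPQ
    apply hinjF
    rw [← hKF, ← hKF, ← hK, ← hK, hPQ]
  haveI : FaithfulSMul R[X] E⟮y⟯ := (faithfulSMul_iff_algebraMap_injective _ _).mpr hinjK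
  haveI frac : IsFractionRing R[X] E⟮y⟯ := by
    apply IsFractionRing.of_field
    intro z
    obtain ⟨P, Q, hPQ⟩ := exists_div_aeval_of_mem_adjoin (R := R) (E := E) z.2
    refine ⟨P, Q, Subtype.ext ?_⟩
    rw [hPQ]
    show aeval y P / aeval y Q = ((aeval yK P / aeval yK Q : E⟮y⟯) : F)
    rw [IntermediateField.coe_div, hKF, hKF]
  have hCw : algebraMap R[X] F (C w) = algebraMap R F w := aeval_C y w
  have hprim : ∀ P : R[X], ¬ C w ∣ P → P.map (residue R) ≠ 0 := fun P hP h0 =>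
    hP ((C_dvd_iff_map_residue_eq_zero hw P).mpr h0)
  have hG : H48.GaussPairLe (K := E⟮y⟯) w V₁ V₂ u₁ u₂ :=
    { prime := hw.prime
      unif₁ := by rw [hCw]; exact hu₁
      unif₂ := by rw [hCw]; exact hu₂
      poly₁ := fun P => h₁.aeval_mem P
      poly₂ := fun P => h₂.aeval_mem P
      gauss₁ := fun P hP => h₁.inv_aeval_mem (hprim P hP)
      gauss₂ := fun P hP => h₂.inv_aeval_mem (hprim P hP)
      ne := hne
      b_mem := hm₁
      c_mem := hm₂
      b_indep := by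
        intro a ha i
        rw [hCw, hu₁.mul_inv_mem_iff, ← ValuationSubring.mem_nonunits_iff] at ha
        exact (C_dvd_iff_map_residue_eq_zero hw (a i)).mpr (hI₁ a ha i)
      c_indep := by
        intro a ha i
        rw [hCw, hu₂.mul_inv_mem_iff, ← ValuationSubring.mem_nonunits_iff] at ha
        exact (C_dvd_iff_map_residue_eq_zero hw (a i)).mpr (hI₂ a ha i)
      le := hdeg }
  have hX : algebraMap R[X] F X = y := aeval_X y
  have hB' : ∀ f : F, f ∈ B ↔
      IsIntegral (Algebra.adjoin R ({algebraMap R[X] F X} : Set F)) f := by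
    rw [hX]
    exact hB
  exact gaussPairLe_exists_components hG B hB'

end FrameChart

/-! ## The chart at infinity: the coordinate `y⁻¹` -/

section Inv

variable {R E F : Type*} [CommRing R] [IsDomain R] [IsDiscreteValuationRing R]
  [Field E] [Algebra R E] [IsFractionRing R E]
  [Field F] [Algebra E F] [Algebra R F] [IsScalarTower R E F]
  {V : ValuationSubring F} {y : F}

omit [IsDomain R] [IsDiscreteValuationRing R] in
theorem aeval_inv_mul_pow (hy : y ≠ 0) (N : ℕ) (P : R[X]) (hP : P.natDegree ≤ N) :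
    aeval y⁻¹ P * y ^ N = aeval y (reflect N P) := by
  have hy' : y⁻¹ ≠ 0 := inv_ne_zero hy
  letI : Invertible (y⁻¹) := invertibleOfNonzero hy'
  have h := eval₂_reflect_mul_pow (algebraMap R F) (y⁻¹) N P hP
  rw [invOf_eq_inv, inv_inv] at h
  rw [aeval_def, aeval_def, ← h, mul_assoc, ← mul_pow, inv_mul_cancel₀ hy, one_pow, mul_one]

omit [IsDomain R] [IsDiscreteValuationRing R] in
theorem map_residue_reflect_eq_zero [IsLocalRing R] {N : ℕ} {P : R[X]}
    (h : (reflect N P).map (residue R) = 0) : P.map (residue R) = 0 := by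
  rw [map_residue_eq_zero_iff] at h ⊢
  intro i
  have := h (revAt N i)
  rwa [coeff_reflect, revAt_invol] at this

omit [IsDomain R] [IsDiscreteValuationRing R] in
/-- the coordinate of a Gauss valuation is a unit -/
theorem IsGaussOver.inv_mem [IsLocalRing R] (h : IsGaussOver R V y) :
    y⁻¹ ∈ V := by
  have h1 := h.inv_aeval_mem (P := X) (by
    rw [Polynomial.map_X]
    exact X_ne_zero)
  rwa [aeval_X] at h1

omit [IsDomain R] [IsDiscreteValuationRing R] in
theorem IsGaussOver.ne_zero [IsLocalRing R] (h : IsGaussOver R V y) :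
    y ≠ 0 := by
  have h1 := h.aeval_ne_zero (P := X) (by
    rw [Polynomial.map_X]
    exact X_ne_zero)
  rwa [aeval_X] at h1

omit [IsDomain R] [IsDiscreteValuationRing R] in
/-- The Gauss valuation of `E(y)` is the Gauss valuation of `E(y⁻¹)`. -/
theorem IsGaussOver.inv [IsLocalRing R] (h : IsGaussOver R V y) :
    IsGaussOver R V y⁻¹ where
  isOver := h.isOver
  mem := h.inv_mem
  prim := by
    intro P hP
    apply map_residue_reflect_eq_zero (N := P.natDegree)
    apply h.prim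
    rw [← aeval_inv_mul_pow h.ne_zero P.natDegree P le_rfl, mul_comm]
    exact mem_mul_nonunits (pow_mem h.mem _) hP

omit [IsDomain R] [IsDiscreteValuationRing R] in
theorem PolyIndepMod.inv [IsLocalRing R] (h : IsGaussOver R V y) {f : ℕ}
    {u : Fin f → F} (hI : PolyIndepMod R V y u) : PolyIndepMod R V y⁻¹ u := by
  intro P hP i
  set D := Finset.univ.sup (fun i => (P i).natDegree) with hD
  have hdeg : ∀ i, (P i).natDegree ≤ D := fun i =>
    Finset.le_sup (f := fun i => (P i).natDegree) (Finset.mem_univ i)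
  apply map_residue_reflect_eq_zero (N := D)
  refine hI (fun i => reflect D (P i)) ?_ i
  have h1 : ∑ i, aeval y (reflect D (P i)) * u i = y ^ D * ∑ i, aeval y⁻¹ (P i) * u i := by
    rw [Finset.mul_sum]
    refine Finset.sum_congr rfl fun i _ => ?_
    rw [← aeval_inv_mul_pow h.ne_zero D (P i) (hdeg i)]
    ring
  rw [h1]
  exact mem_mul_nonunits (pow_mem h.mem _) hP

omit [IsDomain R] [IsDiscreteValuationRing R] [Algebra R E] [IsFractionRing R E] [Algebra R F]
  [IsScalarTower R E F] [CommRing R] in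
theorem adjoin_inv_eq (E : Type*) [Field E] [Algebra E F] (y : F) : E⟮y⁻¹⟯ = E⟮y⟯ := by
  apply le_antisymm
  · rw [adjoin_simple_le_iff]
    exact inv_mem (mem_adjoin_simple_self E y)
  · rw [adjoin_simple_le_iff]
    have := inv_mem (mem_adjoin_simple_self E y⁻¹)
    rwa [inv_inv] at this

/-- **MODASM S1, chart at infinity.**  Same hypotheses on the coordinate `y`; the chart is the
integral closure of `R[y⁻¹]`. -/
theorem frame_exists_components_inv {w : R} (hw : Irreducible w) {V₁ V₂ : ValuationSubring F}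
    (h₁ : IsGaussOver R V₁ y) (h₂ : IsGaussOver R V₂ y)
    (hu₁ : H48.IsUnif V₁ (algebraMap R F w)) (hu₂ : H48.IsUnif V₂ (algebraMap R F w))
    (hne : V₁ ≠ V₂) {f₁ f₂ : ℕ} {u₁ : Fin f₁ → F} {u₂ : Fin f₂ → F}
    (hm₁ : ∀ i, u₁ i ∈ V₁) (hm₂ : ∀ i, u₂ i ∈ V₂)
    (hI₁ : PolyIndepMod R V₁ y u₁) (hI₂ : PolyIndepMod R V₂ y u₂)
    [hfin : FiniteDimensional E⟮y⟯ F] (hdeg : Module.finrank E⟮y⟯ F ≤ f₁ + f₂)
    (B : Subalgebra R F)
    (hB : ∀ f : F, f ∈ B ↔ IsIntegral (Algebra.adjoin R ({y⁻¹} : Set F)) f) :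
    ∃ p₁ p₂ : Ideal B,
      (∀ b : B, b ∈ p₁ ↔ (b : F) ∈ V₁.nonunits) ∧ (∀ b : B, b ∈ p₂ ↔ (b : F) ∈ V₂.nonunits) ∧
      p₁.IsPrime ∧ p₂.IsPrime ∧ p₁ ≠ p₂ ∧ ¬ p₁ ≤ p₂ ∧ ¬ p₂ ≤ p₁ ∧
      p₁ ⊓ p₂ = Ideal.span {algebraMap R B w} := by
  have hE : E⟮y⁻¹⟯ = E⟮y⟯ := adjoin_inv_eq E y
  have key : ∀ (K : IntermediateField E F), K = E⟮y⟯ →
      FiniteDimensional K F ∧ Module.finrank K F ≤ f₁ + f₂ := by
    rintro K rfl
    exact ⟨hfin, hdeg⟩
  obtain ⟨hfin', hdeg'⟩ := key _ hE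
  exact frame_exists_components (E := E) hw h₁.inv h₂.inv hu₁ hu₂ hne hm₁ hm₂
    (hI₁.inv h₁) (hI₂.inv h₂) hdeg' B hB

end Inv

end Fermat.Agent.A2.H489

end
-- ===== PACK-END A2/H489/ChartB.lean

-- ===== PACK-BEGIN A2/H643/BaseLeaf.lean
section






/-!
# Cell A2, route G: the leaf BASE (helper643)

`baseLeaf : Fermat.Agent.A2.H12.BaseLeaf` — in the context of `AlgSSStatement`:

* the sheets of `F` (valuation subrings extending the Gauss valuation of `R[x]`) are exactly the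
  two localisations `Bf_{p₁}`, `Bf_{p₂}` of the chart `Bf` at its components (`SSChart`);
* they are discrete with uniformiser `w`;
* they are `τ`-stable and `τ ≡ id` on their residue fields.
-/

set_option autoImplicit false
set_option linter.unusedSectionVars false

namespace Fermat.Agent.A2.H643

open Polynomial Fermat.Agent.A2 Fermat.Agent.A2.H12
open Fermat.Agent.S18.H138 (chart baseField)

section FD

variable {R E F : Type*} [CommRing R] [IsDomain R] [Field E] [Algebra R E] [IsFractionRing R E]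
  [Field F] [Algebra E F] [Algebra R F] [IsScalarTower R E F]

/-- `F` is finite over `baseField R x` if it is finite over `E(x)`, `E = Frac R`. -/
theorem finiteDimensional_baseField_of_adjoin (x : F)
    [FiniteDimensional (IntermediateField.adjoin E ({x} : Set F)) F] :
    FiniteDimensional (baseField R x) F := by
  set K₀ := IntermediateField.adjoin E ({x} : Set F) with hK₀
  set K := baseField R x with hK
  have hEK : ∀ e : E, algebraMap E F e ∈ K := by
    intro e
    obtain ⟨a, b, hb, rfl⟩ := IsFractionRing.div_surjective (A := R) e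
    rw [map_div₀, ← IsScalarTower.algebraMap_apply, ← IsScalarTower.algebraMap_apply]
    exact K.div_mem (Subfield.subset_closure (Or.inl ⟨a, rfl⟩))
      (Subfield.subset_closure (Or.inl ⟨b, rfl⟩))
  have hle : ∀ y ∈ K₀, y ∈ K := by
    intro y hy
    have h1 : y ∈ K₀.toSubfield := hy
    rw [hK₀, IntermediateField.adjoin_toSubfield] at h1
    refine Subfield.closure_le.2 ?_ h1
    rintro z (⟨e, rfl⟩ | hz)
    · exact hEK e
    · rw [Set.mem_singleton_iff] at hz
      subst hz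
      exact Subfield.subset_closure (Or.inr rfl)
  let φ : K₀ →+* K :=
    { toFun := fun a => ⟨a, hle a a.2⟩
      map_one' := rfl
      map_mul' := fun _ _ => rfl
      map_zero' := rfl
      map_add' := fun _ _ => rfl }
  let _ : Algebra K₀ K := φ.toAlgebra
  have : IsScalarTower K₀ K F := IsScalarTower.of_algebraMap_eq fun _ => rfl
  exact Module.Finite.of_restrictScalars_finite K₀ K F

end FD

section Chart

variable {R : Type} [CommRing R] [IsDomain R] [IsNoetherianRing R] [IsIntegrallyClosed R[X]]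
  {F : Type} [Field F] [Algebra R F] [CharZero F]

/-- Powers of a non-unit of a valuation subring are non-units. -/
theorem pow_mem_nonunits (V : ValuationSubring F) {a : F} (ha : a ∈ V.nonunits) {k : ℕ}
    (hk : k ≠ 0) : a ^ k ∈ V.nonunits := by
  rw [ValuationSubring.mem_nonunits_iff] at ha ⊢
  rw [map_pow]
  exact pow_lt_one₀ zero_le ha hk

/-- One component of the chart: the localisation of the chart at `p` is a sheet, discrete with
uniformiser `w`, `τ`-stable with `τ ≡ id` on the residue field, and it is the only sheet with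
centre `p`. -/
theorem base_component (hinj : Function.Injective (algebraMap R F)) {x : F} {w : R}
    (hw : Prime w) (B : Subalgebra R F) [IsNoetherianRing B] [IsIntegrallyClosed B]
    [IsFractionRing B F] (hxB : x ∈ B)
    (hsheetB : ∀ V' : ValuationSubring F, IsSheet w x V' → ∀ b : B, (b : F) ∈ V')
    (p p' : Ideal B) [hp : p.IsPrime]
    (hinf : p ⊓ p' = Ideal.span {algebraMap R B w}) (hle : ¬ p' ≤ p)
    (hcomap : ∀ Q : R[X], aeval (⟨x, hxB⟩ : B) Q ∈ p → ∀ i, w ∣ Q.coeff i)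
    (τ : F ≃+* F)
    (hτB : ∀ b ∈ B, ∃ c ∈ B, τ b - b = algebraMap R F w * c) :
    ∃ V : ValuationSubring F, IsSheet w x V ∧
      (∀ c ∈ V, τ c ∈ V ∧ τ c - c ∈ V.nonunits) ∧
      (∀ f : F, f ≠ 0 → ∃ (n : ℤ) (u : F), u ∈ V ∧ u⁻¹ ∈ V ∧ f = algebraMap R F w ^ n * u) ∧
      ∀ V' : ValuationSubring F, IsSheet w x V' →
        (∀ b : B, b ∉ p → (b : F) ∉ V'.nonunits) → V' = V := by
  classical
  set wB : B := algebraMap R B w with hwB
  have hwF : ((wB : B) : F) = algebraMap R F w := rfl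
  have hw0 : wB ≠ 0 := by
    intro h
    have h1 : algebraMap R F w = 0 := by rw [← hwF, h]; rfl
    exact hw.ne_zero (hinj (by rw [h1, map_zero]))
  have hwp : wB ∈ p := base_w_mem hinf
  set V := baseV F hw0 hinf hle with hV
  have hmem : ∀ c : F, c ∈ V ↔ ∃ a s : B, s ∉ p ∧ c = (a : F) * (s : F)⁻¹ :=
    fun c => mem_baseV_iff hw0 hinf hle c
  have hBV : ∀ b : B, (b : F) ∈ V := fun b => algebraMap_mem_baseV hw0 hinf hle b
  have hwV : algebraMap R F w ∈ V.nonunits := by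
    rw [← hwF]
    exact mem_nonunits_baseV hw0 hinf hle hwp
  have hdisc : ∀ f : F, f ≠ 0 → ∃ (n : ℤ) (u : F), u ∈ V ∧ u⁻¹ ∈ V ∧
      f = algebraMap R F w ^ n * u := base_discrete (F := F) hw0 hinf hle
  refine ⟨V, ⟨fun r => hBV (algebraMap R B r), hBV ⟨x, hxB⟩, hwV, ?_⟩, ?_, ?_, ?_⟩
  · -- Gauss
    intro Q hQ
    have hQp : aeval (⟨x, hxB⟩ : B) Q ∉ p := by
      intro h
      obtain ⟨i, hi⟩ := hQ
      exact hi (hcomap Q h i)
    have h1 := inv_mem_baseV (F := F) hw0 hinf hle hQp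
    have h2 : algebraMap B F (aeval (⟨x, hxB⟩ : B) Q) = aeval x Q :=
      Polynomial.aeval_subalgebra_coe Q B ⟨x, hxB⟩
    rwa [h2] at h1
  · -- stability
    intro c hc
    obtain ⟨a, s, hs, rfl⟩ := (hmem c).1 hc
    obtain ⟨a', ha', hτa⟩ := hτB a a.2
    obtain ⟨s', hs', hτs⟩ := hτB s s.2
    have hτa2 : τ (a : F) = ((a + wB * ⟨a', ha'⟩ : B) : F) := by
      rw [Subalgebra.coe_add, Subalgebra.coe_mul, hwF]
      linear_combination hτa
    have hτs2 : τ (s : F) = ((s + wB * ⟨s', hs'⟩ : B) : F) := by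
      rw [Subalgebra.coe_add, Subalgebra.coe_mul, hwF]
      linear_combination hτs
    have hs2 : (s + wB * ⟨s', hs'⟩ : B) ∉ p := by
      intro h
      apply hs
      have h1 : s = (s + wB * ⟨s', hs'⟩) - wB * ⟨s', hs'⟩ := by ring
      rw [h1]
      exact p.sub_mem h (p.mul_mem_right _ hwp)
    have hs0 : (s : F) ≠ 0 := by
      intro h
      apply hs
      have : s = 0 := Subtype.ext h
      rw [this]
      exact p.zero_mem
    have hs20 : ((s + wB * ⟨s', hs'⟩ : B) : F) ≠ 0 := by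
      intro h
      apply hs2
      have : (s + wB * ⟨s', hs'⟩ : B) = 0 := Subtype.ext h
      rw [this]
      exact p.zero_mem
    have hτc : τ ((a : F) * (s : F)⁻¹) = ((a + wB * ⟨a', ha'⟩ : B) : F) *
        ((s + wB * ⟨s', hs'⟩ : B) : F)⁻¹ := by
      rw [map_mul, map_inv₀, hτa2, hτs2]
    refine ⟨?_, ?_⟩
    · rw [hτc]
      exact (hmem _).2 ⟨_, _, hs2, rfl⟩
    · rw [hτc]
      -- numerator `w * (a' s - a s')`
      have hN : (wB * (⟨a', ha'⟩ * s - a * ⟨s', hs'⟩) : B) ∈ p := p.mul_mem_right _ hwp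
      have hNV := mem_nonunits_baseV (F := F) hw0 hinf hle hN
      have hden : ((s : F) * ((s + wB * ⟨s', hs'⟩ : B) : F))⁻¹ ∈ V := by
        have h1 : (s * (s + wB * ⟨s', hs'⟩) : B) ∉ p := fun h =>
          (hp.mem_or_mem h).elim hs hs2
        have := inv_mem_baseV (F := F) hw0 hinf hle h1
        rwa [show algebraMap B F (s * (s + wB * ⟨s', hs'⟩)) =
          (s : F) * ((s + wB * ⟨s', hs'⟩ : B) : F) from rfl] at this
      have hkey : ((a + wB * ⟨a', ha'⟩ : B) : F) * ((s + wB * ⟨s', hs'⟩ : B) : F)⁻¹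
          - (a : F) * (s : F)⁻¹
          = algebraMap B F (wB * (⟨a', ha'⟩ * s - a * ⟨s', hs'⟩)) *
            ((s : F) * ((s + wB * ⟨s', hs'⟩ : B) : F))⁻¹ := by
        have e1 : algebraMap B F (wB * (⟨a', ha'⟩ * s - a * ⟨s', hs'⟩))
            = algebraMap R F w * (a' * (s : F) - (a : F) * s') := rfl
        have e2 : ((a + wB * ⟨a', ha'⟩ : B) : F) = (a : F) + algebraMap R F w * a' := rfl
        have e3 : ((s + wB * ⟨s', hs'⟩ : B) : F) = (s : F) + algebraMap R F w * s' := rfl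
        rw [e1]
        rw [e3] at hs20
        rw [e2, e3]
        field_simp
        ring
      rw [hkey, mul_comm]
      exact H12.mul_mem_nonunits V hNV hden
  · exact hdisc
  · -- uniqueness
    intro V' hV' hcen
    have hBV' : ∀ b : B, (b : F) ∈ V' := hsheetB V' hV'
    have hwV' : algebraMap R F w ∈ V'.nonunits := hV'.2.2.1
    ext c
    constructor
    · intro hc
      by_cases hc0 : c = 0
      · rw [hc0]; exact V.zero_mem
      obtain ⟨n, u, hu, hu', hcu⟩ := hdisc c hc0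
      -- `u` is a unit of `V'`
      have hunit : ∀ v : F, v ∈ V → v ∈ V' := by
        intro v hv
        obtain ⟨a, s, hs, rfl⟩ := (hmem v).1 hv
        have h1 := hcen s hs
        rw [ValuationSubring.mem_nonunits_iff_or, not_or, not_not] at h1
        exact V'.mul_mem _ _ (hBV' a) h1.2
      have huV' : u ∈ V' := hunit u hu
      have hu'V' : u⁻¹ ∈ V' := hunit _ hu'
      have hu0 : u ≠ 0 := by
        rintro rfl
        rw [mul_zero] at hcu
        exact hc0 hcu
      rcases le_or_gt 0 n with hn | hn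
      · obtain ⟨k, rfl⟩ := Int.eq_ofNat_of_zero_le hn
        rw [hcu, zpow_natCast]
        exact V.mul_mem _ _ (V.pow_mem (hBV wB) k) hu
      · exfalso
        obtain ⟨k, hk⟩ : ∃ k : ℕ, n = -((k : ℤ) + 1) := ⟨(-n - 1).toNat, by omega⟩
        have h2 : (algebraMap R F w ^ (k + 1))⁻¹ ∈ V' := by
          have : (algebraMap R F w ^ (k + 1))⁻¹ = c * u⁻¹ := by
            rw [hcu, hk, zpow_neg, mul_assoc, mul_inv_cancel₀ hu0, mul_one]
            congr 1
            exact (zpow_natCast (algebraMap R F w) (k + 1)).symm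
          rw [this]
          exact V'.mul_mem _ _ hc hu'V'
        have h3 := pow_mem_nonunits V' hwV' (Nat.succ_ne_zero k)
        rw [ValuationSubring.mem_nonunits_iff_or] at h3
        rcases h3 with h3 | h3
        · have hw0F : algebraMap R F w ≠ 0 := by
            intro h
            exact hw.ne_zero (hinj (by rw [h, map_zero]))
          exact pow_ne_zero _ hw0F h3
        · exact h3 h2
    · intro hc
      obtain ⟨a, s, hs, rfl⟩ := (hmem c).1 hc
      have h1 := hcen s hs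
      rw [ValuationSubring.mem_nonunits_iff_or, not_or, not_not] at h1
      exact V'.mul_mem _ _ (hBV' a) h1.2

/-- Integrality over `R[x]` transfers to integrality along `aeval x : R[X] → B`. -/
theorem isIntegralElem_aeval_of_isIntegral_adjoin {R F : Type*} [CommRing R] [Field F]
    [Algebra R F] (x : F) (B : Subalgebra R F) (xB : B) (hxB : (xB : F) = x) (b : B)
    (hb : IsIntegral (Algebra.adjoin R ({x} : Set F)) (b : F)) :
    RingHom.IsIntegralElem ((aeval (R := R) xB : R[X] →ₐ[R] B) : R[X] →+* B) b := by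
  classical
  obtain ⟨P, hPm, hP⟩ := hb
  have hx₀ : x ∈ Algebra.adjoin R ({x} : Set F) := Algebra.subset_adjoin (Set.mem_singleton x)
  -- lift the coefficients of `P` to `R[X]`
  have hsurj : Function.Surjective
      ((aeval (R := R) (⟨x, hx₀⟩ : Algebra.adjoin R ({x} : Set F)) :
        R[X] →ₐ[R] Algebra.adjoin R ({x} : Set F)) :
          R[X] →+* Algebra.adjoin R ({x} : Set F)) := by
    intro a
    have ha : (a : F) ∈ (aeval (R := R) x).range := by
      rw [← Algebra.adjoin_singleton_eq_range_aeval]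
      exact a.2
    obtain ⟨Q, hQ⟩ := ha
    refine ⟨Q, Subtype.ext ?_⟩
    rw [← hQ]
    exact Polynomial.aeval_subalgebra_coe Q _ ⟨x, hx₀⟩
  obtain ⟨P', hP'map, -, hP'm⟩ := Polynomial.lifts_and_degree_eq_and_monic
    ((Polynomial.mem_lifts P).2 (Polynomial.map_surjective _ hsurj P)) hPm
  refine ⟨P', hP'm, ?_⟩
  apply Subtype.ext
  have hcomp : (B.val : B →+* F).comp ((aeval (R := R) xB : R[X] →ₐ[R] B) : R[X] →+* B)
      = (algebraMap (Algebra.adjoin R ({x} : Set F)) F).comp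
          ((aeval (R := R) (⟨x, hx₀⟩ : Algebra.adjoin R ({x} : Set F)) :
            R[X] →ₐ[R] Algebra.adjoin R ({x} : Set F)) :
              R[X] →+* Algebra.adjoin R ({x} : Set F)) := by
    apply RingHom.ext
    intro Q
    have h1 : ((aeval (R := R) xB Q : B) : F) = aeval x Q := by
      rw [Polynomial.aeval_subalgebra_coe Q B xB, hxB]
    have h2 : ((aeval (R := R) (⟨x, hx₀⟩ : Algebra.adjoin R ({x} : Set F)) Q :
        Algebra.adjoin R ({x} : Set F)) : F) = aeval x Q :=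
      Polynomial.aeval_subalgebra_coe Q _ ⟨x, hx₀⟩
    exact h1.trans h2.symm
  have h1 := Polynomial.hom_eval₂ P' ((aeval (R := R) xB : R[X] →ₐ[R] B) : R[X] →+* B)
    (B.val : B →+* F) b
  rw [hcomp, ← Polynomial.eval₂_map, hP'map] at h1
  exact h1.trans hP

/-- The chart `chart R {x}` is integral over `R[X]` (acting through `aeval x`). -/
theorem isIntegral_aeval_chart {R F : Type} [CommRing R] [IsDomain R] [Field F] [Algebra R F]
    [CharZero F] {x : F} (b : chart R ({x} : Set F)) :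
    RingHom.IsIntegralElem
      ((aeval (R := R) (⟨x, S18.H138.mem_chart_of_mem (Set.mem_singleton x)⟩ :
        chart R ({x} : Set F)) : R[X] →ₐ[R] chart R ({x} : Set F)) :
          R[X] →+* chart R ({x} : Set F)) b :=
  isIntegralElem_aeval_of_isIntegral_adjoin x _ _ rfl b b.2

end Chart

section Leaf

/-- **Leaf BASE** of route G. -/
theorem baseLeaf : BaseLeaf := by
  intro R E F _ _ _ _ _ _ _ _ _ _ _ _ _ w q m x Bf Bi τ τE τR ctx
  classical
  have hinjRE : Function.Injective (algebraMap R E) := IsFractionRing.injective R E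
  have hinj : Function.Injective (algebraMap R F) := by
    rw [IsScalarTower.algebraMap_eq R E F]
    exact (algebraMap E F).injective.comp hinjRE
  have : CharZero F := charZero_of_injective_algebraMap (algebraMap E F).injective
  have hxR : Transcendental R x := ctx.transc.restrictScalars hinjRE
  have hw : Prime w := ctx.irr.prime
  have := ctx.fin
  have : FiniteDimensional (baseField R x) F := finiteDimensional_baseField_of_adjoin (E := E) x
  have hBeq : Bf = chart R ({x} : Set F) := SetLike.ext fun f => ctx.hBf f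
  subst hBeq
  obtain ⟨c⟩ := ctx.cf
  obtain ⟨i1, i2, i3⟩ := S18.H394.chart_instances (R := R) hxR
  have := c.prime₁
  have := c.prime₂
  have hxB : x ∈ chart R ({x} : Set F) := S18.H138.mem_chart_of_mem (Set.mem_singleton x)
  -- the chart as an `R[X]`-algebra
  letI alg : Algebra R[X] (chart R ({x} : Set F)) :=
    (aeval (⟨x, hxB⟩ : chart R ({x} : Set F))).toRingHom.toAlgebra
  have halg : ∀ Q : R[X], algebraMap R[X] (chart R ({x} : Set F)) Q
      = aeval (⟨x, hxB⟩ : chart R ({x} : Set F)) Q := fun Q => rfl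
  have hcoe : ∀ Q : R[X], ((aeval (⟨x, hxB⟩ : chart R ({x} : Set F)) Q :
      chart R ({x} : Set F)) : F) = aeval x Q :=
    fun Q => Polynomial.aeval_subalgebra_coe Q _ ⟨x, hxB⟩
  have hfaith : FaithfulSMul R[X] (chart R ({x} : Set F)) := by
    rw [faithfulSMul_iff_algebraMap_injective]
    intro P Q hPQ
    have h1 : aeval x P = aeval x Q := by
      rw [← hcoe, ← hcoe, ← halg, ← halg, hPQ]
    exact transcendental_iff_injective.1 hxR h1
  have hint : Algebra.IsIntegral R[X] (chart R ({x} : Set F)) :=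
    ⟨fun b => isIntegral_aeval_chart b⟩
  have hπ : Prime (C w : R[X]) := Polynomial.prime_C_iff.2 hw
  have hCw : algebraMap R[X] (chart R ({x} : Set F)) (C w)
      = algebraMap R (chart R ({x} : Set F)) w := by
    rw [halg, aeval_C]
  have hinf : c.p₁ ⊓ c.p₂ = Ideal.span {algebraMap R[X] (chart R ({x} : Set F)) (C w)} := by
    rw [hCw]
    exact c.inf_eq
  have hinf' : c.p₂ ⊓ c.p₁ = Ideal.span {algebraMap R[X] (chart R ({x} : Set F)) (C w)} := by
    rw [inf_comm]
    exact hinf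
  have hc1 := over_under_eq hπ hinf c.not_le₂₁
  have hc2 := over_under_eq hπ hinf' c.not_le₁₂
  have hcm : ∀ p : Ideal (chart R ({x} : Set F)),
      p.comap (algebraMap R[X] (chart R ({x} : Set F))) = Ideal.span {C w} →
      ∀ Q : R[X], aeval (⟨x, hxB⟩ : chart R ({x} : Set F)) Q ∈ p → ∀ i, w ∣ Q.coeff i := by
    intro p hp Q hQ i
    have h1 : Q ∈ p.comap (algebraMap R[X] (chart R ({x} : Set F))) := hQ
    rw [hp, Ideal.mem_span_singleton] at h1
    exact (Polynomial.C_dvd_iff_dvd_coeff _ _).1 h1 i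
  have hsheetB : ∀ V' : ValuationSubring F, IsSheet w x V' →
      ∀ b : chart R ({x} : Set F), (b : F) ∈ V' := fun V' hV' b =>
    hV'.chart_le (T := {x}) (fun y hy => Or.inl hy) b.2
  obtain ⟨V₁, hV₁s, hV₁τ, hV₁d, hV₁u⟩ := base_component hinj hw (chart R ({x} : Set F)) hxB
    hsheetB c.p₁ c.p₂ c.inf_eq c.not_le₂₁ (hcm _ hc1) τ ctx.hτf
  obtain ⟨V₂, hV₂s, hV₂τ, hV₂d, hV₂u⟩ := base_component hinj hw (chart R ({x} : Set F)) hxB
    hsheetB c.p₂ c.p₁ (by rw [inf_comm]; exact c.inf_eq) c.not_le₁₂ (hcm _ hc2) τ ctx.hτf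
  -- classification of the sheets
  have hclass : ∀ V : ValuationSubring F, IsSheet w x V → V = V₁ ∨ V = V₂ := by
    intro V hV
    let ι : chart R ({x} : Set F) →+* V :=
      { toFun := fun b => ⟨b, hsheetB V hV b⟩
        map_one' := rfl
        map_mul' := fun _ _ => rfl
        map_zero' := rfl
        map_add' := fun _ _ => rfl }
    set P : Ideal (chart R ({x} : Set F)) := (IsLocalRing.maximalIdeal V).comap ι with hP
    have hPprime : P.IsPrime := Ideal.comap_isPrime ι _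
    have hPmem : ∀ b : chart R ({x} : Set F), b ∈ P ↔ (b : F) ∈ V.nonunits := by
      intro b
      rw [hP, Ideal.mem_comap, ValuationSubring.mem_nonunits_iff_exists_mem_maximalIdeal]
      constructor
      · intro h
        exact ⟨hsheetB V hV b, h⟩
      · rintro ⟨_, h⟩
        exact h
    have hPu : P.comap (algebraMap R[X] (chart R ({x} : Set F))) = Ideal.span {C w} := by
      apply le_antisymm
      · intro Q hQ
        rw [Ideal.mem_span_singleton, Polynomial.C_dvd_iff_dvd_coeff]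
        by_contra hcon
        rw [not_forall] at hcon
        have hinvmem := hV.2.2.2 Q hcon
        have hnu : aeval x Q ∈ V.nonunits := by
          rw [← hcoe, ← hPmem]
          exact hQ
        rw [ValuationSubring.mem_nonunits_iff_or] at hnu
        rcases hnu with h0 | h0
        · have hQ0 : Q = 0 := by
            have := transcendental_iff_injective.1 hxR
            apply this
            rw [h0, map_zero]
          obtain ⟨i, hi⟩ := hcon
          apply hi
          rw [hQ0, coeff_zero]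
          exact dvd_zero w
        · exact h0 hinvmem
      · rw [Ideal.span_singleton_le_iff_mem, Ideal.mem_comap, hPmem, hCw]
        exact hV.2.2.1
    rcases eq_or_eq_of_under_eq hπ hinf c.not_le₁₂ c.not_le₂₁ hPprime hPu with h | h
    · left
      apply hV₁u V hV
      intro b hb
      rw [← hPmem, h]
      exact hb
    · right
      apply hV₂u V hV
      intro b hb
      rw [← hPmem, h]
      exact hb
  have hfwd : ∀ V : ValuationSubring F, IsSheet w x V → ∀ c ∈ V,
      τ c ∈ V ∧ τ c - c ∈ V.nonunits := by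
    intro V hV
    rcases hclass V hV with rfl | rfl
    · exact hV₁τ
    · exact hV₂τ
  refine ⟨⟨V₁, hV₁s⟩, ?_, ?_⟩
  · intro V hV a
    refine ⟨⟨fun h => (hfwd V hV a h).1, fun h => ?_⟩, fun h => (hfwd V hV a h).2⟩
    obtain ⟨r, hr, hfo⟩ := ctx.hfo
    have hiter : ∀ k : ℕ, (⇑τ)^[k] (τ a) ∈ V := by
      intro k
      induction k with
      | zero => exact h
      | succ k ih =>
        rw [Function.iterate_succ_apply']
        exact (hfwd V hV _ ih).1
    have h1 := hiter (r - 1)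
    rw [← Function.iterate_succ_apply, Nat.succ_eq_add_one, Nat.sub_add_cancel hr, hfo] at h1
    exact h1
  · intro V hV
    rcases hclass V hV with rfl | rfl
    · exact hV₁d
    · exact hV₂d

end Leaf

end Fermat.Agent.A2.H643

end
-- ===== PACK-END A2/H643/BaseLeaf.lean

-- ===== PACK-BEGIN Lib/Haupt/Main.lean
section



/-!
# Hauptmoduln of `Γ₀(2)` and `Γ₀(3)`: the relations with `j` (helper637)

For every commutative ring `K`:

* `t2 K = Δ(q)/Δ(q²) = q⁻¹ ∏ (1 - qⁿ)²⁴ / (1 - q²ⁿ)²⁴ ∈ K((q))`,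
  `jq_mul_t2_sq  : j · t₂² = (t₂ + 256)³`,
  `jq2_mul_t2    : j(q²) · t₂ = (t₂ + 16)³`;
* `t3 K = q⁻¹ ∏ (1 - qⁿ)¹² / (1 - q³ⁿ)¹² ∈ K((q))`,
  `jq_mul_t3_cube : j · t₃³ = (t₃ + 27)(t₃ + 243)³`,
  `jq3_mul_t3     : j(q³) · t₃ = (t₃ + 27)(t₃ + 3)³`,

where `j = ModularCurve.jqModC K` and `j(q^d) = ModularCurve.qExpand K d (jqModC K)`
(`= jqNModC K d`).  The integral power series versions are `T2_rel₁`, `T2_rel₂`, `T3_rel₁`,
`T3_rel₂`.
-/

set_option autoImplicit false

noncomputable section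

namespace Fermat.Agent.Lib.Haupt

open PowerSeries

/-- `P(X²)²⁴`. -/
abbrev Q2 : PowerSeries ℤ := ex 2 PZ ^ 24
/-- `P(X³)¹²`. -/
abbrev Q3 : PowerSeries ℤ := ex 3 PZ ^ 12

theorem constantCoeff_Q2 : constantCoeff Q2 = 1 := by
  rw [Q2, map_pow, constantCoeff_ex, constantCoeff_PZ, one_pow]

theorem constantCoeff_Q3 : constantCoeff Q3 = 1 := by
  rw [Q3, map_pow, constantCoeff_ex, constantCoeff_PZ, one_pow]

/-- `q · t₂ = ∏ (1 - qⁿ)²⁴ / (1 - q²ⁿ)²⁴` as an integral power series. -/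
def T2 : PowerSeries ℤ := PZ ^ 24 * Q2.invOfUnit 1

/-- `q · t₃ = ∏ (1 - qⁿ)¹² / (1 - q³ⁿ)¹²` as an integral power series. -/
def T3 : PowerSeries ℤ := PZ ^ 12 * Q3.invOfUnit 1

theorem T2_mul_Q2 : T2 * Q2 = PZ ^ 24 := by
  rw [T2, mul_assoc, mul_comm (Q2.invOfUnit 1),
    PowerSeries.mul_invOfUnit _ _ (by rw [constantCoeff_Q2]; rfl), mul_one]

theorem T3_mul_Q3 : T3 * Q3 = PZ ^ 12 := by
  rw [T3, mul_assoc, mul_comm (Q3.invOfUnit 1),
    PowerSeries.mul_invOfUnit _ _ (by rw [constantCoeff_Q3]; rfl), mul_one]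

theorem constantCoeff_T2 : constantCoeff T2 = 1 := by
  have h := congrArg constantCoeff T2_mul_Q2
  rwa [map_mul, constantCoeff_Q2, mul_one, map_pow, constantCoeff_PZ, one_pow] at h

theorem constantCoeff_T3 : constantCoeff T3 = 1 := by
  have h := congrArg constantCoeff T3_mul_Q3
  rwa [map_mul, constantCoeff_Q3, mul_one, map_pow, constantCoeff_PZ, one_pow] at h

theorem jNum_mul_P24 : ModularCurve.jNum * PZ ^ 24 = E4Z ^ 3 := by
  have h := ModularCurve.dedekindEtaUnit_mul_inv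
  rw [ModularCurve.dedekindEtaUnit] at h
  rw [ModularCurve.jNum, mul_assoc, mul_comm ModularCurve.dedekindEtaUnitInv, h, mul_one]

theorem Q2_ne_zero : Q2 ≠ 0 := fun h => by
  have := constantCoeff_Q2; rw [h, map_zero] at this; exact zero_ne_one this

theorem Q3_ne_zero : Q3 ≠ 0 := fun h => by
  have := constantCoeff_Q3; rw [h, map_zero] at this; exact zero_ne_one this

theorem PZ_ne_zero : PZ ≠ 0 := fun h => by
  have := constantCoeff_PZ; rw [h, map_zero] at this; exact zero_ne_one this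

/-- `j · t₂² = (t₂ + 256)³`, integral power series form. -/
theorem T2_rel₁ : ModularCurve.jNum * T2 ^ 2 = (T2 + C 256 * X) ^ 3 := by
  apply mul_right_cancel₀ (mul_ne_zero (pow_ne_zero 24 PZ_ne_zero) (pow_ne_zero 3 Q2_ne_zero))
  calc ModularCurve.jNum * T2 ^ 2 * (PZ ^ 24 * Q2 ^ 3)
      = (ModularCurve.jNum * PZ ^ 24) * (T2 * Q2) ^ 2 * Q2 := by ring
    _ = (E4Z ^ 3 * (PZ ^ 24 * Q2)) * PZ ^ 24 := by rw [jNum_mul_P24, T2_mul_Q2]; ring
    _ = (PZ ^ 24 + C 256 * (X * Q2)) ^ 3 * PZ ^ 24 := by rw [ps1]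
    _ = (T2 * Q2 + C 256 * (X * Q2)) ^ 3 * PZ ^ 24 := by rw [T2_mul_Q2]
    _ = (T2 + C 256 * X) ^ 3 * (PZ ^ 24 * Q2 ^ 3) := by ring

theorem ex_jNum_mul (d : ℕ) [NeZero d] :
    ex d ModularCurve.jNum * ex d PZ ^ 24 = ex d E4Z ^ 3 := by
  rw [← map_pow, ← map_mul, jNum_mul_P24, map_pow]

/-- `j(q²) · t₂ = (t₂ + 16)³`, integral power series form. -/
theorem T2_rel₂ : ex 2 ModularCurve.jNum * T2 = (T2 + C 16 * X) ^ 3 := by
  apply mul_right_cancel₀ (pow_ne_zero 3 Q2_ne_zero)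
  calc ex 2 ModularCurve.jNum * T2 * Q2 ^ 3
      = (ex 2 ModularCurve.jNum * ex 2 PZ ^ 24) * (T2 * Q2) * Q2 := by ring
    _ = ex 2 E4Z ^ 3 * (PZ ^ 24 * Q2) := by rw [ex_jNum_mul, T2_mul_Q2]; ring
    _ = (PZ ^ 24 + C 16 * (X * Q2)) ^ 3 := by rw [ps2]
    _ = (T2 * Q2 + C 16 * (X * Q2)) ^ 3 := by rw [T2_mul_Q2]
    _ = (T2 + C 16 * X) ^ 3 * Q2 ^ 3 := by ring

/-- `j · t₃³ = (t₃ + 27)(t₃ + 243)³`, integral power series form. -/
theorem T3_rel₁ :
    ModularCurve.jNum * T3 ^ 3 = (T3 + C 27 * X) * (T3 + C 243 * X) ^ 3 := by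
  apply mul_right_cancel₀ (mul_ne_zero (pow_ne_zero 24 PZ_ne_zero) (pow_ne_zero 4 Q3_ne_zero))
  calc ModularCurve.jNum * T3 ^ 3 * (PZ ^ 24 * Q3 ^ 4)
      = (ModularCurve.jNum * PZ ^ 24) * (T3 * Q3) ^ 3 * Q3 := by ring
    _ = (E4Z ^ 3 * (PZ ^ 12 * Q3)) * PZ ^ 24 := by rw [jNum_mul_P24, T3_mul_Q3]; ring
    _ = (PZ ^ 12 + C 27 * (X * Q3)) * (PZ ^ 12 + C 243 * (X * Q3)) ^ 3 * PZ ^ 24 := by
        rw [ps3]
    _ = (T3 * Q3 + C 27 * (X * Q3)) * (T3 * Q3 + C 243 * (X * Q3)) ^ 3 * PZ ^ 24 := by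
        rw [T3_mul_Q3]
    _ = (T3 + C 27 * X) * (T3 + C 243 * X) ^ 3 * (PZ ^ 24 * Q3 ^ 4) := by ring

/-- `j(q³) · t₃ = (t₃ + 27)(t₃ + 3)³`, integral power series form. -/
theorem T3_rel₂ :
    ex 3 ModularCurve.jNum * T3 = (T3 + C 27 * X) * (T3 + C 3 * X) ^ 3 := by
  apply mul_right_cancel₀ (pow_ne_zero 4 Q3_ne_zero)
  have hQ : ex 3 PZ ^ 24 = Q3 ^ 2 := by rw [Q3]; ring
  calc ex 3 ModularCurve.jNum * T3 * Q3 ^ 4
      = (ex 3 ModularCurve.jNum * ex 3 PZ ^ 24) * (T3 * Q3) * Q3 := by rw [hQ]; ring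
    _ = ex 3 E4Z ^ 3 * (PZ ^ 12 * Q3) := by rw [ex_jNum_mul, T3_mul_Q3]; ring
    _ = (PZ ^ 12 + C 27 * (X * Q3)) * (PZ ^ 12 + C 3 * (X * Q3)) ^ 3 := by rw [ps4]
    _ = (T3 * Q3 + C 27 * (X * Q3)) * (T3 * Q3 + C 3 * (X * Q3)) ^ 3 := by rw [T3_mul_Q3]
    _ = (T3 + C 27 * X) * (T3 + C 3 * X) ^ 3 * Q3 ^ 4 := by ring

end Fermat.Agent.Lib.Haupt

end
end
-- ===== PACK-END Lib/Haupt/Main.lean

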