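import Mathlib
import Fermat.Prelude.Def_AlgebraicCurve_DivisorClassGroup
import Mathlib.RingTheory.Valuation.LocalSubring
import Mathlib.RingTheory.Localization.AtPrime.Basic
import Mathlib.RingTheory.IntegralClosure.GoingDown
import Mathlib.RingTheory.Polynomial.Basic
import Fermat.Agent.Pack.S36.E0L3
import Fermat.Agent.Pack.S36.E13L3
import Fermat.Agent.Pack.S36.E13L2
import Fermat.Agent.Pack.S36.E11L2
import Fermat.Agent.Pack.S36.E4L0
import Fermat.Agent.Pack.S36.E1L2
import Fermat.Agent.Pack.S36.E13L0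
import Fermat.Agent.Pack.S36.E8L0
import Fermat.Agent.Pack.S36.E8L3
import Fermat.Agent.Pack.S36.E8L2
import Fermat.Agent.Pack.S36.E11L1
import Fermat.Agent.Pack.S36.E12L2
import Fermat.Agent.Pack.S36.E2L1
import Fermat.Agent.Pack.S36.E12L3
import Fermat.Agent.Pack.S36.E6L2
import Fermat.Agent.Pack.S36.E11L3
import Fermat.Agent.Pack.S36.E3L3
import Fermat.Agent.Pack.S36.E13L1

-- ===== PACK-BEGIN S28/H807/ModPoly.lean
section
/-
S28 / helper807 — the prime-level analytic inputs `ModPolyData p` and `UnitPolyData p`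
of the captain skeleton (`Fermat/Agent/S28/Defs.lean`), from three explicit analytic
hypotheses (level-one polynomial principle, `q`-expansion of `j`, `q`-expansion of `Δ^{±1}`).
-/




set_option autoImplicit false
set_option maxHeartbeats 400000

noncomputable section

open ModularCurve Polynomial Matrix UpperHalfPlane
open scoped MatrixGroups

namespace Fermat.Agent.S28.H807

open Fermat.Agent.S28

theorem evalAt_jqModC_eq : evalAt (jqModC ℤ) = evalJZHom := by
  apply Polynomial.ringHom_ext
  · intro a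
    simp [evalAt, evalJZHom]
  · simp [evalAt, evalJZHom]

theorem evalAt_comp_qExpand (p : ℕ) [NeZero p] :
    evalAt (qExpand ℤ p (jqModC ℤ)) = (qExpand ℤ p).comp evalJZHom := by
  apply Polynomial.ringHom_ext
  · intro a
    simp [evalAt, evalJZHom]
  · simp [evalAt, evalJZHom]

variable (p : ℕ) [NeZero p]

/-- **[A-Φ]** The modular polynomial of prime level `p`, from the analytic hypotheses. -/
theorem nonempty_modPolyData_of (hp : p.Prime) (hPP : PolyPrinciple) (J : ℍ → ℂ)
    (hJinv : ∀ (γ : SL(2, ℤ)) (τ : ℍ), J (γ • τ) = J τ)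
    (hJexp : HasQExp (jqModC ℂ) J) : Nonempty (ModPolyData p) := by
  have hG : HasQExp (coeffMap (Int.castRingHom ℂ) (jqModC ℤ)) J := by
    rw [coeffMap_jqModC]; exact hJexp
  have hE : HasQExp (coeffMap (Int.castRingHom ℂ) (qExpand ℤ p (jqModC ℤ)))
      (fun τ => J (mulNat p τ)) := by
    rw [coeffMap_qExpand, coeffMap_jqModC]; exact hJexp.mulNat p
  obtain ⟨Φ, hmonic, hdeg, hmap⟩ := exists_lift_formalPoly p hPP (jqModC ℤ)
    (qExpand ℤ p (jqModC ℤ)) J (fun τ => J (mulNat p τ)) hG hE (conjPoly_J_S p hp J hJinv)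
  refine ⟨⟨Φ, hmonic, hdeg, ?_, ?_⟩⟩
  · rw [evalAt_jqModC_eq, Polynomial.eval₂_eq_eval_map, hmap]
    exact formalPoly_eval_self p _ _
  · rw [evalAt_comp_qExpand, Polynomial.eval₂_eq_eval_map, ← Polynomial.map_map, hmap]
    exact formalPoly_map_qExpand_eval p _ _

/-- **[A-W]** `p¹² Δ(q^p)/Δ(q)` is integral over `ℤ[j]`, from the analytic hypotheses. -/
theorem nonempty_unitPolyData_of (hp : p.Prime) (hPP : PolyPrinciple) (D : ℍ → ℂ)
    (hD0 : ∀ τ, D τ ≠ 0)
    (hD : ∀ (γ : SL(2, ℤ)) (τ : ℍ), D (γ • τ) = (denom γ τ) ^ 12 * D τ)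
    (hDexp : HasQExp (coeffMap (Int.castRingHom ℂ) (deltaL ℤ)) D)
    (hDinvexp : HasQExp (coeffMap (Int.castRingHom ℂ) (deltaInvL ℤ)) (fun τ => (D τ)⁻¹)) :
    Nonempty (UnitPolyData p) := by
  have hG : HasQExp (coeffMap (Int.castRingHom ℂ) (deltaL ℤ * qExpand ℤ p (deltaInvL ℤ)))
      (unitG p D) := by
    rw [map_mul, coeffMap_qExpand]
    intro τ
    have := (hDexp.mul (hDinvexp.mulNat p)) τ
    simpa [unitG, div_eq_mul_inv] using this
  have hE : HasQExp (coeffMap (Int.castRingHom ℂ) ((p : LaurentSeries ℤ) ^ 12 * unitL ℤ p))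
      (unitE p D) := by
    rw [map_mul, map_pow, map_natCast, unitL, map_mul, coeffMap_qExpand]
    have hc : HasQExp ((p : LaurentSeries ℂ) ^ 12) (fun _ => (p : ℂ) ^ 12) := by
      have h1 : ((p : LaurentSeries ℂ) ^ 12) = HahnSeries.C ((p : ℂ) ^ 12) := by
        rw [map_pow, map_natCast]
      rw [h1]
      exact hasQExp_C _
    intro τ
    have := (hc.mul ((hDexp.mulNat p).mul hDinvexp)) τ
    simpa [unitE, div_eq_mul_inv, mul_assoc] using this
  obtain ⟨Φ, hmonic, _, hmap⟩ := exists_lift_formalPoly p hPP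
    (deltaL ℤ * qExpand ℤ p (deltaInvL ℤ)) ((p : LaurentSeries ℤ) ^ 12 * unitL ℤ p)
    (unitG p D) (unitE p D) hG hE (conjPoly_unit_S p hp D hD0 hD)
  refine ⟨⟨Φ, hmonic, ?_⟩⟩
  rw [evalAt_jqModC_eq, Polynomial.eval₂_eq_eval_map, hmap]
  exact formalPoly_eval_self p _ _

end Fermat.Agent.S28.H807

end

end
-- ===== PACK-END S28/H807/ModPoly.lean

-- ===== PACK-BEGIN S35/H891/FrobAsm.lean
section



/-!
# S35, cell FROB — the ALG assembly for a Frobenius lift (helper891)

Variant of helper12's `A2.H12.algG_core` / `algG` for a semilinear automorphism `φ` of the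
function field `F` which is NOT the identity on the residue fields of the sheets:

* `φ` preserves every sheet of `F` (`hφV`), fixes the coordinate `x`;
* `φ` maps every CROSSING point of the two base charts to itself (`NodesFixed`);
* `φ ζ = ζ ^ Q` for a primitive `m`-th root of unity `ζ ∈ R`.

For a Kummer-split cover `L / F` satisfying the conclusions of the route-G leaves SHEETS, RED,
CONST, COUNT (these do not involve any automorphism) and `SurjConclusion` (the charts of `L` are
generated by the charts of `F` modulo every sheet), and a lift `φ'` of `φ` to `L`: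

  `algF_core`, `algF` :  `φ g = z ^ m * g ^ Q`  for every `g ∈ F` having an `m`-th root in `L`.
-/

set_option autoImplicit false

namespace Fermat.Agent.S35.H891

open Polynomial
open Fermat.Agent.S18.H138 (chart baseField)
open Fermat.Agent.A2.H12

universe u

section Defs

variable {R : Type u} [CommRing R] {F : Type u} [Field F] [Algebra R F]

/-- **FIX.**  The automorphism `φ` maps every crossing point of the chart `R[T]`-integral
closure (a closed point lying on two distinct sheets) into itself, for `T = {x}` and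
`T = {x⁻¹}`.  (Stated for `φ⁻¹`; for closed points this is equivalent to `φ 𝔫 = 𝔫`.) -/
def NodesFixed (w : R) (x : F) (φ : F ≃+* F) : Prop :=
  ∀ T : Set F, T = {x} ∨ T = {x⁻¹} → ∀ 𝔫 : Ideal (chart R T), 𝔫.IsMaximal →
    ∀ V V' : ValuationSubring F, IsSheet w x V → IsSheet w x V' → V ≠ V' →
      (∀ c : chart R T, (c : F) ∈ V.nonunits → c ∈ 𝔫) →
      (∀ c : chart R T, (c : F) ∈ V'.nonunits → c ∈ 𝔫) →
      ∀ c : chart R T, c ∈ 𝔫 → ∀ h : φ.symm (c : F) ∈ chart R T,
        (⟨φ.symm (c : F), h⟩ : chart R T) ∈ 𝔫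

variable (L : Type u) [Field L] [Algebra F L] [Algebra R L] [IsScalarTower R F L]

/-- **SURJ.**  Modulo every sheet `W` of the cover `L`, the charts of `L` are generated by the
charts of `F` (the components of the special fibre of the cover map isomorphically onto the
components of the base: residue degree one + the base components are normal). -/
def SurjConclusion (w : R) (x : F) : Prop :=
  ∀ W : ValuationSubring L, IsSheet w (algebraMap F L x) W →
    (∀ b ∈ chart R ({algebraMap F L x} : Set L), ∃ c ∈ chart R ({x} : Set F),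
      b - algebraMap F L c ∈ W.nonunits) ∧
    (∀ b ∈ chart R ({(algebraMap F L x)⁻¹} : Set L), ∃ c ∈ chart R ({x⁻¹} : Set F),
      b - algebraMap F L c ∈ W.nonunits)

end Defs

section Charts

variable {R : Type u} [CommRing R] {F : Type u} [Field F] [Algebra R F]
variable {L : Type u} [Field L] [Algebra F L] [Algebra R L] [IsScalarTower R F L]

theorem algebraMap_mem_adjoin_image {T : Set F} {a : F} (ha : a ∈ Algebra.adjoin R T) :
    algebraMap F L a ∈ Algebra.adjoin R (algebraMap F L '' T) := by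
  induction ha using Algebra.adjoin_induction with
  | mem y hy => exact Algebra.subset_adjoin ⟨y, hy, rfl⟩
  | algebraMap r =>
    rw [← IsScalarTower.algebraMap_apply]
    exact Subalgebra.algebraMap_mem _ _
  | add y z _ _ hy hz => rw [map_add]; exact Subalgebra.add_mem _ hy hz
  | mul y z _ _ hy hz => rw [map_mul]; exact Subalgebra.mul_mem _ hy hz

/-- The chart of `F` maps into the chart of `L`. -/
theorem algebraMap_mem_chart_image {T : Set F} {c : F} (hc : c ∈ chart R T) :
    algebraMap F L c ∈ chart R (algebraMap F L '' T) := by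
  let φ : Algebra.adjoin R T →+* Algebra.adjoin R (algebraMap F L '' T) :=
    RingHom.restrict (algebraMap F L) _ _ (fun a ha => algebraMap_mem_adjoin_image ha)
  exact IsIntegral.map_of_comp_eq (R := Algebra.adjoin R T) (S := F)
    (T := Algebra.adjoin R (algebraMap F L '' T)) (U := L) φ (algebraMap F L) (by ext; rfl) hc

theorem algebraMap_mem_chart_fin {x c : F} (hc : c ∈ chart R ({x} : Set F)) :
    algebraMap F L c ∈ chart R ({algebraMap F L x} : Set L) := by
  have := algebraMap_mem_chart_image (L := L) hc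
  rwa [Set.image_singleton] at this

theorem algebraMap_mem_chart_inf {x c : F} (hc : c ∈ chart R ({x⁻¹} : Set F)) :
    algebraMap F L c ∈ chart R ({(algebraMap F L x)⁻¹} : Set L) := by
  have := algebraMap_mem_chart_image (L := L) hc
  rwa [Set.image_singleton, map_inv₀] at this

/-- The contraction of a maximal ideal of a chart of `L` to the chart of `F` is maximal. -/
theorem isMaximal_comap_chart {TF : Set F} {TL : Set L} (hT : TL = algebraMap F L '' TF)
    (ι : chart R TF →+* chart R TL) (hι : ∀ c : chart R TF, ((ι c : chart R TL) : L) =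
      algebraMap F L (c : F))
    (𝔫 : Ideal (chart R TL)) (h𝔫 : 𝔫.IsMaximal) : (𝔫.comap ι).IsMaximal := by
  subst hT
  have hint : ι.IsIntegral := by
    intro b
    have hb : IsIntegral (Algebra.adjoin R (algebraMap F L '' TF)) (b : L) := b.2
    obtain ⟨p, hpm, hp⟩ := hb
    -- the surjection `R[T_F] → R[T_L]`
    let ψ : Algebra.adjoin R TF →+* Algebra.adjoin R (algebraMap F L '' TF) :=
      RingHom.restrict (algebraMap F L) _ _ (fun a ha => algebraMap_mem_adjoin_image ha)
    have hψ : Function.Surjective ψ := by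
      rintro ⟨a, ha⟩
      induction ha using Algebra.adjoin_induction with
      | mem y hy =>
        obtain ⟨t, ht, rfl⟩ := hy
        exact ⟨⟨t, Algebra.subset_adjoin ht⟩, rfl⟩
      | algebraMap r =>
        refine ⟨algebraMap R _ r, Subtype.ext ?_⟩
        change algebraMap F L (algebraMap R F r) = algebraMap R L r
        rw [← IsScalarTower.algebraMap_apply]
      | add y z hy' hz' hy hz =>
        obtain ⟨cy, hcy⟩ := hy
        obtain ⟨cz, hcz⟩ := hz
        refine ⟨cy + cz, ?_⟩
        rw [map_add, hcy, hcz]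
        rfl
      | mul y z hy' hz' hy hz =>
        obtain ⟨cy, hcy⟩ := hy
        obtain ⟨cz, hcz⟩ := hz
        refine ⟨cy * cz, ?_⟩
        rw [map_mul, hcy, hcz]
        rfl
    have hpl : p ∈ Polynomial.lifts ψ := by
      rw [Polynomial.mem_lifts]
      exact Polynomial.map_surjective ψ hψ p
    obtain ⟨q₀, hq₀, -, hq₀m⟩ := Polynomial.lifts_and_degree_eq_and_monic hpl hpm
    -- the inclusion `R[T_F] → chart_F`
    let j : Algebra.adjoin R TF →+* chart R TF :=
      (Subalgebra.inclusion (Fermat.Agent.S18.H138.adjoin_le_chart TF)).toRingHom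
    refine ⟨q₀.map j, hq₀m.map j, ?_⟩
    apply Subtype.ext
    have h1 : ((Polynomial.eval₂ ι b (q₀.map j) : chart R (algebraMap F L '' TF)) : L) =
        Polynomial.eval₂ ((chart R (algebraMap F L '' TF)).val.toRingHom.comp ι) (b : L)
          (q₀.map j) :=
      Polynomial.hom_eval₂ (q₀.map j) ι ((chart R (algebraMap F L '' TF)).val.toRingHom) b
    rw [h1, Polynomial.eval₂_map]
    have h2 : ((chart R (algebraMap F L '' TF)).val.toRingHom.comp ι).comp j =
        (algebraMap (Algebra.adjoin R (algebraMap F L '' TF)) L).comp ψ := by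
      ext a
      change ((ι (j a) : chart R (algebraMap F L '' TF)) : L) = algebraMap F L (a : F)
      rw [hι]
      rfl
    rw [h2, ← Polynomial.eval₂_map, hq₀, hp]
    rfl
  have := h𝔫
  exact Ideal.isMaximal_comap_of_isIntegral_of_isMaximal' ι hint 𝔫

end Charts

section Asm

variable {R : Type u} [CommRing R] {F : Type u} [Field F] [Algebra R F]
variable {L : Type u} [Field L] [Algebra F L] [Algebra R L] [IsScalarTower R F L]

/-- A semilinear automorphism fixing `x` preserves the charts of `F`. -/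
theorem symm_mem_chart (x : F) (φ : F ≃+* F) (φR : R ≃+* R)
    (hφx : φ x = x) (hφR : ∀ r, φ (algebraMap R F r) = algebraMap R F (φR r))
    {T : Set F} (hT : T = {x} ∨ T = {x⁻¹}) {c : F} (hc : c ∈ chart R T) :
    φ.symm c ∈ chart R T := by
  have hxs : φ.symm x = x := by rw [RingEquiv.symm_apply_eq, hφx]
  refine chart_map_mem (T := T) (φ.symm : F →+* F) (fun r => ⟨φR.symm r, ?_⟩) ?_ hc
  · change φ.symm (algebraMap R F r) = _
    rw [RingEquiv.symm_apply_eq, hφR, RingEquiv.apply_symm_apply]
  · intro t ht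
    rcases hT with rfl | rfl
    · rw [Set.mem_singleton_iff] at ht
      subst ht
      change φ.symm t ∈ _
      rw [hxs]
      exact Algebra.subset_adjoin rfl
    · rw [Set.mem_singleton_iff] at ht
      subst ht
      change φ.symm x⁻¹ ∈ _
      rw [map_inv₀, hxs]
      exact Algebra.subset_adjoin rfl

/-- **The node step.**  A crossing point `𝔫` of the cover chart lying on a `φ'`-fixed sheet `W`
is mapped into itself by `φ'⁻¹`. -/
theorem node_step (w : R) (x : F) (φ : F ≃+* F) (φR : R ≃+* R)
    (hφx : φ x = x) (hφR : ∀ r, φ (algebraMap R F r) = algebraMap R F (φR r))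
    (hFix : NodesFixed w x φ)
    (φ' : L ≃+* L) (hφ' : ∀ f : F, φ' (algebraMap F L f) = algebraMap F L (φ f))
    (TF : Set F) (hTF : TF = {x} ∨ TF = {x⁻¹}) (TL : Set L) (hTL : TL = algebraMap F L '' TF)
    (hCount : CountAt L w x TL)
    (hφchart : ∀ b, b ∈ chart R TL ↔ φ' b ∈ chart R TL)
    (W W' : ValuationSubring L) (hW : IsSheet w (algebraMap F L x) W)
    (hW' : IsSheet w (algebraMap F L x) W') (hne : W ≠ W')
    (hsurj : ∀ b ∈ chart R TL, ∃ c ∈ chart R TF, b - algebraMap F L c ∈ W.nonunits)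
    (hWfix : ∀ b, b ∈ W.nonunits ↔ φ' b ∈ W.nonunits)
    (𝔫 : Ideal (chart R TL)) (h𝔫 : 𝔫.IsMaximal)
    (hWn : ∀ c : chart R TL, (c : L) ∈ W.nonunits → c ∈ 𝔫)
    (hW'n : ∀ c : chart R TL, (c : L) ∈ W'.nonunits → c ∈ 𝔫)
    (c : chart R TL) (hc : c ∈ 𝔫) (h : φ'.symm (c : L) ∈ chart R TL) :
    (⟨φ'.symm (c : L), h⟩ : chart R TL) ∈ 𝔫 := by
  have hmemL : ∀ c₀ : F, c₀ ∈ chart R TF → algebraMap F L c₀ ∈ chart R TL := by
    intro c₀ hc₀
    rw [hTL]
    exact algebraMap_mem_chart_image hc₀
  -- the inclusion of charts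
  let ι : chart R TF →+* chart R TL :=
    { toFun := fun c₀ => ⟨algebraMap F L (c₀ : F), hmemL _ c₀.2⟩
      map_one' := Subtype.ext (map_one _)
      map_mul' := fun a b => Subtype.ext (map_mul _ _ _)
      map_zero' := Subtype.ext (map_zero _)
      map_add' := fun a b => Subtype.ext (map_add _ _ _) }
  have hι : ∀ c₀ : chart R TF, ((ι c₀ : chart R TL) : L) = algebraMap F L (c₀ : F) :=
    fun _ => rfl
  have hmax : (𝔫.comap ι).IsMaximal := isMaximal_comap_chart hTL ι hι 𝔫 h𝔫
  -- decompose `c`
  obtain ⟨c₀, hc₀, hc₀W⟩ := hsurj c c.2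
  have ha : (c - ι ⟨c₀, hc₀⟩ : chart R TL) ∈ 𝔫 := hWn _ hc₀W
  have hc₀n : (⟨c₀, hc₀⟩ : chart R TF) ∈ 𝔫.comap ι := by
    rw [Ideal.mem_comap]
    have : ι ⟨c₀, hc₀⟩ = c - (c - ι ⟨c₀, hc₀⟩) := by ring
    rw [this]
    exact 𝔫.sub_mem hc ha
  -- the sheets below
  have hV := IsSheet.comap_algebraMap hW
  have hV' := IsSheet.comap_algebraMap hW'
  have hVne : W.comap (algebraMap F L) ≠ W'.comap (algebraMap F L) := fun hVV =>
    hne (hCount 𝔫 h𝔫 W W' hW hW' hVV hWn hW'n)
  have hVn : ∀ d : chart R TF, (d : F) ∈ (W.comap (algebraMap F L)).nonunits →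
      d ∈ 𝔫.comap ι := by
    intro d hd
    rw [Ideal.mem_comap]
    exact hWn _ ((mem_nonunits_comap W (algebraMap F L) _).1 hd)
  have hV'n : ∀ d : chart R TF, (d : F) ∈ (W'.comap (algebraMap F L)).nonunits →
      d ∈ 𝔫.comap ι := by
    intro d hd
    rw [Ideal.mem_comap]
    exact hW'n _ ((mem_nonunits_comap W' (algebraMap F L) _).1 hd)
  have hsymm₀ : φ.symm c₀ ∈ chart R TF := symm_mem_chart x φ φR hφx hφR hTF hc₀
  have h1 := hFix TF hTF (𝔫.comap ι) hmax _ _ hV hV' hVne hVn hV'n ⟨c₀, hc₀⟩ hc₀n hsymm₀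
  rw [Ideal.mem_comap] at h1
  -- the part in the sheet
  have hsymm_chart : ∀ b, b ∈ chart R TL → φ'.symm b ∈ chart R TL := by
    intro b hb
    rw [hφchart]
    simpa using hb
  have h2mem : φ'.symm ((c : L) - algebraMap F L c₀) ∈ chart R TL :=
    hsymm_chart _ (Subalgebra.sub_mem _ c.2 (hmemL _ hc₀))
  have h2 : (⟨φ'.symm ((c : L) - algebraMap F L c₀), h2mem⟩ : chart R TL) ∈ 𝔫 := by
    apply hWn
    change φ'.symm ((c : L) - algebraMap F L c₀) ∈ W.nonunits
    rw [hWfix]
    simpa using hc₀W
  have h3 : (⟨φ'.symm (c : L), h⟩ : chart R TL) =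
      ι ⟨φ.symm c₀, hsymm₀⟩ + ⟨φ'.symm ((c : L) - algebraMap F L c₀), h2mem⟩ := by
    apply Subtype.ext
    change φ'.symm (c : L) = algebraMap F L (φ.symm c₀) + φ'.symm ((c : L) - algebraMap F L c₀)
    rw [map_sub, lift_symm_algebraMap φ φ' hφ']
    ring
  rw [h3]
  exact 𝔫.add_mem h1 h2

/-- **Frobenius ALG core.**  Cover `L / F` with the leaf conclusions, lift `φ'` of `φ` fixing
the sheet `W₀`: then `φ g / g ^ Q ∈ F ^ m` for every `g` with an `m`-th root in `L`. -/
theorem algF_core [IsDomain R] [IsNoetherianRing R] [IsIntegrallyClosed R[X]] [CharZero F]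
    (w : R) (x : F) (m Q : ℕ) (φ : F ≃+* F) (φR : R ≃+* R)
    (hinj : Function.Injective (algebraMap R F)) (hx : Transcendental R x) (hw : Prime w)
    (hm : 0 < m) (hroot : ∃ ζ : R, IsPrimitiveRoot ζ m ∧ φR ζ = ζ ^ Q)
    (hφx : φ x = x) (hφR : ∀ r, φ (algebraMap R F r) = algebraMap R F (φR r))
    (hφw : ∀ r, w ∣ r ↔ w ∣ φR r)
    (hφV : ∀ V : ValuationSubring F, IsSheet w x V → ∀ c : F, (c ∈ V ↔ φ c ∈ V))
    (hFix : NodesFixed w x φ)
    [FiniteDimensional F L] [IsGalois F L]
    (hS : SheetsConclusion L w x) (hRed : RedConclusion L w x)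
    (hConst : ConstConclusion (R := R) L x) (hCount : CountConclusion L w x)
    (hSurj : SurjConclusion L w x)
    (φ' : L ≃+* L) (hφ' : ∀ f : F, φ' (algebraMap F L f) = algebraMap F L (φ f))
    (W₀ : ValuationSubring L) (hW₀ : IsSheet w (algebraMap F L x) W₀)
    (hfix : ∀ b, b ∈ W₀ ↔ φ' b ∈ W₀)
    (g : F) (hg : g ≠ 0) (y : L) (hy : y ^ m = algebraMap F L g) :
    ∃ z : F, φ g = z ^ m * g ^ Q := by
  classical
  set xL : L := algebraMap F L x with hxL
  let S := ↥{W : ValuationSubring L | IsSheet w xL W}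
  have : Fintype S := hS.finite.fintype
  let M : S → AddSubgroup L := fun s => s.1.nonunits.toAddSubgroup
  have hι : Function.Injective (algebraMap F L) := (algebraMap F L).injective
  have hinjL : Function.Injective (algebraMap R L) := by
    rw [IsScalarTower.algebraMap_eq R F L]
    exact hι.comp hinj
  have : CharZero L := charZero_of_injective_algebraMap hι
  have := hConst.finite
  have hxLt : Transcendental R xL := (transcendental_algebraMap_iff hι).2 hx
  have hy0 : y ≠ 0 := by
    rintro rfl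
    rw [zero_pow hm.ne'] at hy
    exact hg (hι (by rw [← hy, map_zero]))
  have hιg : algebraMap F L g ≠ 0 := fun h => hg (hι (by rw [h, map_zero]))
  -- roots of unity
  have hζ : ∀ σ ∈ galSubgroup F L, ∃ ζ : L, σ y = ζ * y ∧ φ' ζ = ζ ^ Q := by
    intro σ hσ
    obtain ⟨ζ₀, hζ₀, hφζ₀⟩ := hroot
    have hprim : IsPrimitiveRoot (algebraMap R L ζ₀) m := hζ₀.map_of_injective hinjL
    have hpow : (σ y / y) ^ m = 1 := by
      rw [div_pow, ← map_pow, hy, hσ g, div_self hιg]
    have : NeZero m := ⟨hm.ne'⟩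
    obtain ⟨i, -, hi⟩ := hprim.eq_pow_of_pow_eq_one hpow
    refine ⟨σ y / y, by field_simp, ?_⟩
    rw [← hi, map_pow, lift_algebraMap_R φ φR hφR φ' hφ', hφζ₀, map_pow, ← pow_mul, ← pow_mul,
      mul_comm]
  have hchart_fin := lift_chart_iff (L := L) x φ φR hφx hφR φ' hφ' {xL}
    (Set.singleton_subset_iff.2 (Or.inl rfl))
  have hchart_inf := lift_chart_iff (L := L) x φ φR hφx hφR φ' hφ' {xL⁻¹}
    (Set.singleton_subset_iff.2 (Or.inr rfl))
  have key := wallF (R := R) (L := L) (S := S) w (chart R {xL}) (chart R {xL⁻¹})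
    (chart R {xL, xL⁻¹}) M
    (fun s c hc a ha => mul_mem_nonunits s.1 ha (s.2.chart_le Set.Subset.rfl hc))
    (Fermat.Agent.S18.H138.chart_mono (Set.singleton_subset_iff.2 (Or.inl rfl)))
    (Fermat.Agent.S18.H138.chart_mono (Set.singleton_subset_iff.2 (Or.inr rfl)))
    (fun s => one_not_mem_nonunits s.1)
    (fun s => s.2.2.2.1)
    (fun b hb h => hRed _ (Or.inr (Or.inr rfl)) b hb (fun W hW => h ⟨W, hW⟩))
    (fun b hb h => hRed _ (Or.inl rfl) b hb (fun W hW => h ⟨W, hW⟩))
    (fun b hb h => hRed _ (Or.inr (Or.inl rfl)) b hb (fun W hW => h ⟨W, hW⟩))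
    (fun e₁ e₂ he₁ he₂ h1 h2 h12 =>
      Fermat.Agent.S18.H138.connected_special_fibre hinjL hConst.closed hxLt w hw e₁ e₂ he₁ he₂
        h1 h2 h12)
    φ' hchart_fin hchart_inf
    (fun s => ⟨⟨s.1.comap (φ'.symm : L →+* L), lift_isSheet w x φ φR hφx hφR hφw φ' hφ' s.2⟩,
      fun b => by
        change b ∈ s.1.nonunits ↔ φ' b ∈ (s.1.comap (φ'.symm : L →+* L)).nonunits
        rw [mem_nonunits_comap]
        simp⟩)
    (fun s t hst => by
      apply Subtype.ext
      apply ValuationSubring.nonunits_injective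
      ext b
      have := congrArg (fun A : AddSubgroup L => b ∈ A) hst
      exact iff_of_eq this)
    (col := fun s : S => s.1.comap (algebraMap F L))
    (fun s s' h => by
      have hmem := mem_iff_of_nonunits_iff φ' s.1 s'.1 h
      have hV := (IsSheet.comap_algebraMap s.2)
      ext f
      have h1 := hmem (algebraMap F L (φ.symm f))
      rw [hφ', RingEquiv.apply_symm_apply] at h1
      have h2 := hφV _ hV (φ.symm f)
      rw [RingEquiv.apply_symm_apply] at h2
      rw [ValuationSubring.mem_comap, ← h1, ← ValuationSubring.mem_comap, h2])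
    (fun s t hs hst 𝔫 h𝔫 hsn htn c hc h =>
      node_step w x φ φR hφx hφR hFix φ' hφ' {x} (Or.inl rfl) {xL}
        (by rw [Set.image_singleton]) hCount.1 hchart_fin s.1 t.1 s.2 t.2
        (fun hst' => hst (Subtype.ext hst')) (hSurj s.1 s.2).1 hs 𝔫 h𝔫 hsn htn c hc h)
    (fun s t hs hst 𝔫 h𝔫 hsn htn c hc h =>
      node_step w x φ φR hφx hφR hFix φ' hφ' {x⁻¹} (Or.inr rfl) {xL⁻¹}
        (by rw [Set.image_singleton, map_inv₀]) hCount.2 hchart_inf s.1 t.1 s.2 t.2
        (fun hst' => hst (Subtype.ext hst')) (hSurj s.1 s.2).2 hs 𝔫 h𝔫 hsn htn c hc h)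
    (fun 𝔫 h𝔫 s t hc hs ht => Subtype.ext (hCount.1 𝔫 h𝔫 s.1 t.1 s.2 t.2 hc hs ht))
    (fun 𝔫 h𝔫 s t hc hs ht => Subtype.ext (hCount.2 𝔫 h𝔫 s.1 t.1 s.2 t.2 hc hs ht))
    ⟨W₀, hW₀⟩ (nonunits_iff_of_mem_iff φ' W₀ W₀ hfix)
    (galSubgroup F L)
    (fun σ hσ s => ⟨⟨s.1.comap (σ.symm : L →+* L), gal_isSheet w x σ hσ s.2⟩, fun b => by
        change b ∈ s.1.nonunits ↔ σ b ∈ (s.1.comap (σ.symm : L →+* L)).nonunits
        rw [mem_nonunits_comap]
        simp⟩)
    (fun σ hσ s h => by
      have hmem := mem_iff_of_nonunits_iff σ s.1 s.1 h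
      have h1 := hS.free s.1 s.2 (AlgEquiv.ofRingEquiv (f := σ) hσ) hmem
      ext b
      have := congrArg (fun f : L ≃ₐ[F] L => f b) h1
      exact this)
    (fun σ hσ f => by
      change φ' (σ (φ'.symm (algebraMap F L f))) = algebraMap F L f
      rw [lift_symm_algebraMap φ φ' hφ', hσ, hφ', RingEquiv.apply_symm_apply])
    y hy0 Q hζ
  -- conclusion
  have hz : φ' y / y ^ Q ∈ (⊥ : IntermediateField F L) := by
    rw [IsGalois.mem_bot_iff_fixed]
    intro f
    exact key (f : L ≃+* L) (fun c => f.commutes c)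
  obtain ⟨z, hz⟩ := IntermediateField.mem_bot.1 hz
  refine ⟨z, hι ?_⟩
  have hyQ : y ^ Q ≠ 0 := pow_ne_zero _ hy0
  rw [map_mul, map_pow, map_pow, hz, div_pow, ← hy, ← pow_mul, ← pow_mul, mul_comm Q m,
    div_mul_cancel₀ _ (pow_ne_zero _ hy0), ← map_pow, hy, hφ']

/-- **Frobenius ALG assembly.**  From the leaf conclusions SHEETS, RED, CONST, COUNT, SURJ (for
all Kummer-split covers of `F`) and a cover to which `φ` lifts (COVER): `φ g / g ^ Q` is an
`m`-th power in `F`. -/
theorem algF [IsDomain R] [IsNoetherianRing R] [IsIntegrallyClosed R[X]] [CharZero F]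
    (w : R) (x : F) (m Q : ℕ) (φ : F ≃+* F) (φR : R ≃+* R)
    (hinj : Function.Injective (algebraMap R F)) (hx : Transcendental R x) (hw : Prime w)
    (hm : 0 < m) (hroot : ∃ ζ : R, IsPrimitiveRoot ζ m ∧ φR ζ = ζ ^ Q)
    (hφx : φ x = x) (hφR : ∀ r, φ (algebraMap R F r) = algebraMap R F (φR r))
    (hφw : ∀ r, w ∣ r ↔ w ∣ φR r)
    (hφV : ∀ V : ValuationSubring F, IsSheet w x V → ∀ c : F, (c ∈ V ↔ φ c ∈ V))
    (hFix : NodesFixed w x φ)
    (hsheet : ∃ V : ValuationSubring F, IsSheet w x V)
    (hSheets : ∀ (L : Type u) [Field L] [Algebra F L] [Algebra R L] [IsScalarTower R F L],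
      IsKummerSplit L w x m → SheetsConclusion L w x)
    (hRed : ∀ (L : Type u) [Field L] [Algebra F L] [Algebra R L] [IsScalarTower R F L],
      IsKummerSplit L w x m → RedConclusion L w x)
    (hConst : ∀ (L : Type u) [Field L] [Algebra F L] [Algebra R L] [IsScalarTower R F L],
      IsKummerSplit L w x m → ConstConclusion (R := R) L x)
    (hCount : ∀ (L : Type u) [Field L] [Algebra F L] [Algebra R L] [IsScalarTower R F L],
      IsKummerSplit L w x m → CountConclusion L w x)
    (hSurj : ∀ (L : Type u) [Field L] [Algebra F L] [Algebra R L] [IsScalarTower R F L],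
      IsKummerSplit L w x m → SurjConclusion L w x)
    (g : F) (hg : g ≠ 0) (hCover : CoverConclusion w x m φ g) :
    ∃ z : F, φ g = z ^ m * g ^ Q := by
  obtain ⟨L, _, _, _, _, hKS, φ₀, y, hφ₀, hy⟩ := hCover
  have := hKS.finite
  have := hKS.galois
  have S1 := hSheets L hKS
  obtain ⟨V₀, hV₀⟩ := hsheet
  obtain ⟨W₀, hW₀, -⟩ := S1.exists_over V₀ hV₀
  have hW₁ : IsSheet w (algebraMap F L x) (W₀.comap (φ₀.symm : L →+* L)) :=
    lift_isSheet w x φ φR hφx hφR hφw φ₀ hφ₀ hW₀
  have hcol : (W₀.comap (φ₀.symm : L →+* L)).comap (algebraMap F L) =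
      W₀.comap (algebraMap F L) := by
    ext f
    have h2 := hφV _ (IsSheet.comap_algebraMap hW₀) (φ.symm f)
    rw [RingEquiv.apply_symm_apply] at h2
    rw [ValuationSubring.mem_comap, ValuationSubring.mem_comap]
    change φ₀.symm (algebraMap F L f) ∈ W₀ ↔ _
    rw [lift_symm_algebraMap φ φ₀ hφ₀, ← ValuationSubring.mem_comap, h2]
  obtain ⟨σ, hσ⟩ := S1.trans _ W₀ hW₁ hW₀ hcol
  refine algF_core (L := L) w x m Q φ φR hinj hx hw hm hroot hφx hφR hφw hφV hFix S1
    (hRed L hKS) (hConst L hKS) (hCount L hKS) (hSurj L hKS) (φ₀.trans (σ : L ≃+* L)) ?_ W₀ hW₀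
    ?_ g hg y hy
  · intro f
    change σ (φ₀ (algebraMap F L f)) = _
    rw [hφ₀, σ.commutes]
  · intro b
    change b ∈ W₀ ↔ σ (φ₀ b) ∈ W₀
    rw [← hσ, ValuationSubring.mem_comap]
    change _ ↔ φ₀.symm (φ₀ b) ∈ W₀
    rw [RingEquiv.symm_apply_apply]

end Asm

end Fermat.Agent.S35.H891

end
-- ===== PACK-END S35/H891/FrobAsm.lean

-- ===== PACK-BEGIN S29/H871/Gauss.lean
section





/-!
# S29 / E3 (descent `ℂ → ℚ̄`), part 1: the Gauss extension of a rational place

`K ⊆ K'` fields, `F/K` a field, `A = O_v` the valuation ring of a place `v` of `F/K` whose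
residue field is `K`.  We study the ring `A ⊗[K] K'`:

* `epsHom v hv : A ⊗[K] K' →ₐ[K] K'`  ("reduction modulo `π`"),
* `epsHom_eq_zero_iff` : its kernel is generated by `π ⊗ 1`,
* `exists_pow_mul_eps_ne_zero` : every nonzero element is `(π ⊗ 1)^n * y` with `ε y ≠ 0`.

(helper871)
-/

set_option autoImplicit false

noncomputable section

namespace Fermat.Agent.S29.H871

open AlgebraicCurve TensorProduct

variable {K F : Type*} [Field K] [Field F] [Algebra K F]

/-- A place is *rational* if every integral element is congruent to a constant modulo the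
maximal ideal (automatic when `K` is algebraically closed and `F/K` is a function field). -/
def IsRationalPlace (v : Place K F) : Prop :=
  ∀ f ∈ v.toValuationSubring, ∃ a : K, f - algebraMap K F a ∈ v.toValuationSubring.nonunits

theorem isRationalPlace_of_isAlgClosed [IsAlgClosed K] (v : Place K F) {x : F}
    (hx : Transcendental K x) [FiniteDimensional (IntermediateField.adjoin K {x}) F] :
    IsRationalPlace v :=
  fun _ hf => Fermat.Agent.S24.FF.exists_const_sub_mem_nonunits v hx hf

namespace IsRationalPlace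

variable {v : Place K F} (hv : IsRationalPlace v)

include hv in
theorem algebraMap_residue_bijective :
    Function.Bijective (algebraMap K (IsLocalRing.ResidueField v.toValuationSubring)) := by
  refine ⟨(algebraMap K (IsLocalRing.ResidueField v.toValuationSubring)).injective, ?_⟩
  intro c
  obtain ⟨f, rfl⟩ := IsLocalRing.residue_surjective c
  obtain ⟨a, ha⟩ := hv f f.2
  refine ⟨a, ?_⟩
  have hmem : f - algebraMap K v.toValuationSubring a ∈
      IsLocalRing.maximalIdeal v.toValuationSubring := by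
    rw [← ValuationSubring.coe_mem_nonunits_iff]
    exact ha
  have h0 := (IsLocalRing.residue_eq_zero_iff _).mpr hmem
  rw [map_sub, sub_eq_zero] at h0
  rw [h0]
  rfl

/-- The residue field of a rational place is `K`. -/
def residueEquiv : K ≃ₐ[K] IsLocalRing.ResidueField v.toValuationSubring :=
  AlgEquiv.ofBijective (Algebra.ofId K _) hv.algebraMap_residue_bijective

/-- The value of an integral element at a rational place. -/
def res : v.toValuationSubring →ₐ[K] K :=
  (hv.residueEquiv.symm : IsLocalRing.ResidueField v.toValuationSubring →ₐ[K] K).comp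
    (IsScalarTower.toAlgHom K v.toValuationSubring (IsLocalRing.ResidueField v.toValuationSubring))

theorem res_eq_zero_iff (a : v.toValuationSubring) :
    hv.res a = 0 ↔ a ∈ IsLocalRing.maximalIdeal v.toValuationSubring := by
  unfold res
  rw [AlgHom.comp_apply]
  erw [EmbeddingLike.map_eq_zero_iff (f := hv.residueEquiv.symm)]
  exact IsLocalRing.residue_eq_zero_iff a

theorem res_ne_zero_iff (a : v.toValuationSubring) : hv.res a ≠ 0 ↔ IsUnit a := by
  rw [Ne, res_eq_zero_iff, IsLocalRing.mem_maximalIdeal, mem_nonunits_iff, not_not]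

end IsRationalPlace

section Eps

variable {K' : Type*} [Field K'] [Algebra K K']
variable {v : Place K F} (hv : IsRationalPlace v)

/-- Reduction `A ⊗[K] K' → K'`, `a ⊗ c ↦ a(v) c`. -/
def epsHom : v.toValuationSubring ⊗[K] K' →ₐ[K] K' :=
  Algebra.TensorProduct.productMap ((Algebra.ofId K K').comp hv.res) (AlgHom.id K K')

@[simp]
theorem epsHom_tmul (a : v.toValuationSubring) (c : K') :
    epsHom hv (a ⊗ₜ[K] c) = algebraMap K K' (hv.res a) * c := by
  simp [epsHom, Algebra.ofId_apply]

theorem epsHom_sum_basis {I : Type*} (𝒞 : Module.Basis I K K') (b : I →₀ v.toValuationSubring) :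
    epsHom hv (b.sum fun i m => m ⊗ₜ[K] 𝒞 i) = b.sum fun i m => hv.res m • 𝒞 i := by
  rw [Finsupp.sum, map_sum, Finsupp.sum]
  refine Finset.sum_congr rfl fun i _ => ?_
  rw [epsHom_tmul, Algebra.smul_def]

theorem res_eq_zero_of_epsHom_sum_eq_zero {I : Type*} (𝒞 : Module.Basis I K K')
    (b : I →₀ v.toValuationSubring)
    (h : epsHom hv (b.sum fun i m => m ⊗ₜ[K] 𝒞 i) = 0) (i : I) : hv.res (b i) = 0 := by
  classical
  rw [epsHom_sum_basis] at h
  have hli := 𝒞.linearIndependent
  rw [linearIndependent_iff'] at hli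
  by_cases hi : i ∈ b.support
  · exact hli b.support (fun i => hv.res (b i)) h i hi
  · rw [Finsupp.notMem_support_iff.mp hi, map_zero]

/-- The element `π ⊗ 1`. -/
abbrev piT (π : v.toValuationSubring) : v.toValuationSubring ⊗[K] K' := π ⊗ₜ[K] (1 : K')

theorem piT_pow (π : v.toValuationSubring) (n : ℕ) :
    (piT (K' := K') π) ^ n = (π ^ n) ⊗ₜ[K] (1 : K') := by
  rw [piT, Algebra.TensorProduct.tmul_pow, one_pow]

theorem piT_pow_mul_sum {I : Type*} (𝒞 : I → K') (π : v.toValuationSubring) (n : ℕ)
    (s : Finset I) (c : I → v.toValuationSubring) :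
    (piT (K' := K') π) ^ n * ∑ i ∈ s, c i ⊗ₜ[K] 𝒞 i = ∑ i ∈ s, (π ^ n * c i) ⊗ₜ[K] 𝒞 i := by
  rw [piT_pow, Finset.mul_sum]
  refine Finset.sum_congr rfl fun i _ => ?_
  rw [Algebra.TensorProduct.tmul_mul_tmul, one_mul]

theorem epsHom_piT {π : v.toValuationSubring} (hπ : Irreducible π) :
    epsHom hv (piT (K' := K') π) = 0 := by
  rw [piT, epsHom_tmul, mul_one]
  have : hv.res π = 0 := by
    rw [hv.res_eq_zero_iff, IsLocalRing.mem_maximalIdeal, mem_nonunits_iff]
    exact hπ.not_isUnit
  rw [this, map_zero]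

/-- **Kernel of the reduction**: `ε x = 0` iff `π ⊗ 1` divides `x`. -/
theorem exists_eq_piT_mul_of_epsHom_eq_zero {π : v.toValuationSubring} (hπ : Irreducible π)
    {x : v.toValuationSubring ⊗[K] K'} (hx : epsHom hv x = 0) :
    ∃ y, x = piT π * y := by
  classical
  let 𝒞 := Module.Basis.ofVectorSpace K K'
  obtain ⟨b, rfl⟩ := TensorProduct.eq_repr_basis_right 𝒞 x
  have hb : ∀ i, ∃ c : v.toValuationSubring, b i = π * c := by
    intro i
    have h0 := res_eq_zero_of_epsHom_sum_eq_zero hv 𝒞 b hx i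
    rw [hv.res_eq_zero_iff, hπ.maximalIdeal_eq, Ideal.mem_span_singleton] at h0
    exact h0
  choose c hc using hb
  refine ⟨∑ i ∈ b.support, c i ⊗ₜ[K] 𝒞 i, ?_⟩
  have := piT_pow_mul_sum (K := K) 𝒞 π 1 b.support c
  rw [pow_one] at this
  rw [this, Finsupp.sum]
  refine Finset.sum_congr rfl fun i _ => ?_
  rw [pow_one, ← hc i]

theorem epsHom_eq_zero_iff {π : v.toValuationSubring} (hπ : Irreducible π)
    {x : v.toValuationSubring ⊗[K] K'} :
    epsHom hv x = 0 ↔ ∃ y, x = piT π * y := by
  refine ⟨exists_eq_piT_mul_of_epsHom_eq_zero hv hπ, ?_⟩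
  rintro ⟨y, rfl⟩
  rw [map_mul, epsHom_piT hv hπ, zero_mul]

omit hv in
/-- Separatedness: an element divisible by all powers of `π ⊗ 1` vanishes. -/
theorem eq_zero_of_forall_piT_pow_dvd {π : v.toValuationSubring} (hπ : Irreducible π)
    {x : v.toValuationSubring ⊗[K] K'} (hx : ∀ n : ℕ, ∃ y, x = piT π ^ n * y) : x = 0 := by
  classical
  let 𝒞 := Module.Basis.ofVectorSpace K K'
  obtain ⟨b, rfl⟩ := TensorProduct.eq_repr_basis_right 𝒞 x
  have hb : b = 0 := by
    refine Finsupp.ext fun i => ?_
    by_contra hbi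
    have hbi' : b i ≠ 0 := hbi
    obtain ⟨n, hn⟩ := FiniteMultiplicity.of_not_isUnit hπ.not_isUnit hbi'
    obtain ⟨y, hy⟩ := hx (n + 1)
    obtain ⟨c, rfl⟩ := TensorProduct.eq_repr_basis_right 𝒞 y
    apply hn
    -- compare coordinates
    have h1 : (piT (K' := K') π) ^ (n + 1) * (c.sum fun i m => m ⊗ₜ[K] 𝒞 i)
        = (c.mapRange (fun m => π ^ (n + 1) * m) (mul_zero _)).sum fun i m => m ⊗ₜ[K] 𝒞 i := by
      rw [Finsupp.sum, piT_pow_mul_sum, Finsupp.sum_mapRange_index (by intro i; simp)]
      rfl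
    rw [h1] at hy
    have h3 : b = c.mapRange (fun m => π ^ (n + 1) * m) (mul_zero _) := by
      apply (TensorProduct.equivFinsuppOfBasisRight (M := v.toValuationSubring) 𝒞).symm.injective
      rw [TensorProduct.equivFinsuppOfBasisRight_symm_apply,
        TensorProduct.equivFinsuppOfBasisRight_symm_apply]
      exact hy
    rw [h3, Finsupp.mapRange_apply]
    exact dvd_mul_right _ _
  rw [hb, Finsupp.sum_zero_index]

/-- **Gauss decomposition**: every nonzero element of `A ⊗[K] K'` is `(π ⊗ 1)^n * y`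
with `ε y ≠ 0`. -/
theorem exists_pow_mul_eps_ne_zero {π : v.toValuationSubring} (hπ : Irreducible π)
    {x : v.toValuationSubring ⊗[K] K'} (hx : x ≠ 0) :
    ∃ (n : ℕ) (y : v.toValuationSubring ⊗[K] K'), x = piT π ^ n * y ∧ epsHom hv y ≠ 0 := by
  by_contra hcon
  have hcon : ∀ (n : ℕ) (y : v.toValuationSubring ⊗[K] K'), x = piT π ^ n * y →
      epsHom hv y = 0 := by
    intro n y hy
    by_contra h
    exact hcon ⟨n, y, hy, h⟩
  apply hx
  apply eq_zero_of_forall_piT_pow_dvd hπ
  intro n
  induction n with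
  | zero => exact ⟨x, by rw [pow_zero, one_mul]⟩
  | succ n ih =>
    obtain ⟨y, hy⟩ := ih
    obtain ⟨z, hz⟩ := exists_eq_piT_mul_of_epsHom_eq_zero hv hπ (hcon n y hy)
    exact ⟨z, by rw [hy, hz, pow_succ, mul_assoc]⟩

end Eps

end Fermat.Agent.S29.H871

end
end
-- ===== PACK-END S29/H871/Gauss.lean

-- ===== PACK-BEGIN Lib/RR/H804/CharZero.lean
section



/-!
# RR library, bridge: `FF1 K F` for function fields over an algebraically closed field of
characteristic zero  (helper804)

From the Dedekind dictionary of `Fermat.Agent.S24.FF`: if `K` is algebraically closed of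
characteristic zero and `F` is finite over `K(x)` for a transcendental `x`, then `F/K` satisfies
the standing hypotheses `FF1 K F` of the RR library.
-/

set_option autoImplicit false

noncomputable section

open AlgebraicCurve IntermediateField

namespace Fermat.Agent.Lib.RR.H804

open Fermat.Agent.S24

variable {K F : Type*} [Field K] [Field F] [Algebra K F] [IsAlgClosed K] [CharZero K]

/-- Every function has finitely many zeros and poles. -/
theorem finite_setOf_ord_ne_zero {x : F} (hx : Transcendental K x) [FiniteDimensional K⟮x⟯ F]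
    (f : F) : {v : Place K F | v.ord f ≠ 0}.Finite := by
  by_cases hfr : f ∈ (algebraMap K F).range
  · obtain ⟨a, rfl⟩ := hfr
    convert Set.finite_empty
    ext v
    simp [FF.ord_algebraMap]
  · have hft : Transcendental K f := FF.transcendental_of_not_mem_range hfr
    have : FiniteDimensional K⟮f⟯ F := FF.finiteDimensional_adjoin_of_transcendental hx hft
    exact FF.finite_setOf_ord_ne_zero hft

/-- The divisor of a function. -/
def divOf {x : F} (hx : Transcendental K x) [FiniteDimensional K⟮x⟯ F] (f : F) :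
    Divisor K F :=
  Finsupp.ofSupportFinite (fun v => v.ord f) (finite_setOf_ord_ne_zero hx f)

@[simp] theorem divOf_apply {x : F} (hx : Transcendental K x) [FiniteDimensional K⟮x⟯ F]
    (f : F) (v : Place K F) : _root_.Fermat.Agent.Lib.RR.H804.divOf hx f v = v.ord f := rfl

theorem degree_divOf {x : F} (hx : Transcendental K x) [FiniteDimensional K⟮x⟯ F] (f : F) :
    Divisor.degree (_root_.Fermat.Agent.Lib.RR.H804.divOf hx f) = 0 :=
  FF.degree_principal x hx f _ (fun _ => rfl)

/-- Principal divisors exist and have degree zero. -/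
theorem hasPrincipalDivisors {x : F} (hx : Transcendental K x) [FiniteDimensional K⟮x⟯ F] :
    HasPrincipalDivisors K F :=
  ⟨fun f _ => ⟨_root_.Fermat.Agent.Lib.RR.H804.divOf hx f, fun _ => rfl, _root_.Fermat.Agent.Lib.RR.H804.degree_divOf hx f⟩⟩

/-- There is at least one place (a zero of `x`). -/
theorem nonempty_place {x : F} (hx : Transcendental K x) [FiniteDimensional K⟮x⟯ F] :
    Nonempty (Place K F) := by
  by_contra hne
  rw [not_nonempty_iff] at hne
  have h := FF.sum_ord_eq_finrank hx (∅ : Finset (Place K F)) (fun v => (hne.false v).elim)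
  rw [Finset.sum_empty] at h
  have hpos : 0 < Module.finrank K⟮x⟯ F := Module.finrank_pos
  omega

/-- There is a zero of `x - a` for every `a`. -/
theorem exists_place_ord_sub_pos {x : F} (hx : Transcendental K x) [FiniteDimensional K⟮x⟯ F]
    (a : K) : ∃ v : Place K F, 0 < v.ord (x - algebraMap K F a) := by
  by_contra hne
  rw [not_exists] at hne
  have h := FF.sum_ord_sub_const_eq_finrank hx a (∅ : Finset (Place K F))
    (fun v => ⟨fun h => (Finset.notMem_empty v h).elim, fun h => (hne v h).elim⟩)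
  rw [Finset.sum_empty] at h
  have hpos : 0 < Module.finrank K⟮x⟯ F := Module.finrank_pos
  omega

/-- There is a pole of `x`. -/
theorem exists_place_ord_neg {x : F} (hx : Transcendental K x) [FiniteDimensional K⟮x⟯ F] :
    ∃ v : Place K F, v.ord x < 0 := by
  by_contra hne
  rw [not_exists] at hne
  have h := FF.sum_ord_neg_eq_neg_finrank hx (∅ : Finset (Place K F))
    (fun v => ⟨fun h => (Finset.notMem_empty v h).elim, fun h => (hne v h).elim⟩)
  rw [Finset.sum_empty] at h
  have hpos : 0 < Module.finrank K⟮x⟯ F := Module.finrank_pos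
  omega

omit [CharZero K] in
/-- The residue field of every place is `K`. -/
theorem residue_bijective {x : F} (hx : Transcendental K x) [FiniteDimensional K⟮x⟯ F]
    (v : Place K F) : Function.Bijective (algebraMap K v.ResidueField) := by
  refine ⟨(algebraMap K v.ResidueField).injective, fun r => ?_⟩
  obtain ⟨f, rfl⟩ := IsLocalRing.residue_surjective r
  obtain ⟨a, ha⟩ := FF.exists_const_sub_mem_nonunits v hx f.2
  refine ⟨a, ?_⟩
  rw [IsScalarTower.algebraMap_apply K v.toValuationSubring v.ResidueField]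
  symm
  rw [IsLocalRing.ResidueField.algebraMap_eq, ← sub_eq_zero, ← map_sub,
    IsLocalRing.residue_eq_zero_iff]
  exact ValuationSubring.coe_mem_nonunits_iff.mp ha

omit [CharZero K] in
/-- Residue fields are finite over `K`. -/
theorem finite_residueField {x : F} (hx : Transcendental K x) [FiniteDimensional K⟮x⟯ F]
    (v : Place K F) : Module.Finite K v.ResidueField :=
  Module.Finite.of_surjective (Algebra.linearMap K v.ResidueField)
    (residue_bijective hx v).2

/-- **Bridge**: `FF1 K F` for `K` algebraically closed of characteristic zero. -/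
theorem ff1 {x : F} (hx : Transcendental K x) [FiniteDimensional K⟮x⟯ F] : FF1 K F where
  hpd := hasPrincipalDivisors hx
  deg_eq_one := fun v => FF.deg_eq_one v hx
  nonempty_place := nonempty_place hx
  exists_finite := ⟨x, hx, inferInstance⟩

end Fermat.Agent.Lib.RR.H804

end
end
-- ===== PACK-END Lib/RR/H804/CharZero.lean

-- ===== PACK-BEGIN S18/H24/GaussC.lean
section



/-!
# S18 / MOD-ASM, piece G-V (helper24) — part C: `V_total`, `gauss`, `x ∈ V`

* `gaussForm_of_mem_Fc` : every `f ∈ Fc` is `0` or has a Gauss normal form `w^n U₁/U₂`;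
* `field_V_total`       : field `V_total` of `Alg.GoodModel`;
* `field_gauss`         : field `gauss` for every coordinate with an integral expansion `q⁻¹ + …`;
* `coord_mem_Vc`        : the coordinate lies in `V`.
-/

set_option autoImplicit false

noncomputable section

namespace Fermat.Agent.S18.H24

open ModularCurve AlgebraicCurve HahnSeries Fermat.Agent.S18 Fermat.Agent.S18.Mod
open Fermat.Agent.S18.H456

variable {M : ℕ} {A : ValuationSubring Qb} {E : IntermediateField ℚ Qb}

theorem residue_ne_zero_of_inv_mem {c : A} (hc0 : (c : Qb) ≠ 0) (hc : (c : Qb)⁻¹ ∈ A) :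
    IsLocalRing.residue A c ≠ 0 := by
  intro h
  have hm := (IsLocalRing.residue_eq_zero_iff _).mp h
  rcases (mem_maximalIdeal_iff _).mp hm with h0 | hni
  · exact hc0 h0
  · exact hni hc

/-- Gauss form of a nonzero constant of `E`. -/
theorem gaussForm_cst {w₀ : Qb} (hw : _root_.Fermat.Agent.S18.H24.IsUnif A E w₀) {c : Qb} (hcE : c ∈ E) (hc0 : c ≠ 0) :
    GaussForm M A E w₀ (cst M c) := by
  have hw0 := hw.ne_zero
  have hC := C_ne_zero' hw0
  -- the case `c ∈ A`
  have key : ∀ c : Qb, c ∈ E → c ≠ 0 → c ∈ A → GaussForm M A E w₀ (cst M c) := by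
    intro c hcE hc0 hcA
    obtain ⟨k, hk1, hk2⟩ := hw.discrete c hcA hcE hc0
    have hu0 : c * (w₀⁻¹) ^ k ≠ 0 := mul_ne_zero hc0 (pow_ne_zero _ (inv_ne_zero hw0))
    have huE : c * (w₀⁻¹) ^ k ∈ E := mul_mem hcE (pow_mem (inv_mem hw.mem_E) _)
    refine ⟨k, HahnSeries.C (⟨c * (w₀⁻¹) ^ k, hk1⟩ : A), 1, isIntE_C huE, isIntE_one, ?_, ?_, ?_⟩
    · rw [red_C]
      intro h
      exact residue_ne_zero_of_inv_mem (c := ⟨c * (w₀⁻¹) ^ k, hk1⟩) hu0 hk2
        (HahnSeries.C_injective (by rw [h, map_zero]))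
    · rw [map_one]; exact one_ne_zero
    · rw [map_one, mul_one, val_cst', inc_C, zpow_natCast, ← map_pow, ← map_mul]
      congr 1
      show c = w₀ ^ k * (c * (w₀⁻¹) ^ k)
      rw [inv_pow]
      field_simp
  rcases A.mem_or_inv_mem c with hcA | hcA
  · exact key c hcE hc0 hcA
  · have := (key c⁻¹ (inv_mem hcE) (inv_ne_zero hc0) hcA).inv hw0
    rwa [← map_inv₀, inv_inv] at this

theorem jqNModC_ne_zero (K : Type*) [CommRing K] [Nontrivial K] (d : ℕ) [NeZero d] :
    jqNModC K d ≠ 0 := by
  intro h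
  have : jqModC K = 0 := qExpand_injective d (by rw [map_zero]; exact h)
  exact jqModC_ne_zero_of_nontrivial K this

theorem val_jd (d : ℕ) [NeZero d] (hd : d ∣ M) :
    ((jd M d hd : Om M) : LaurentSeries Qb) = inc A (jqNModC A d) := by
  show coeffEmb Qb (qExpand ℚ d jq) = _
  have h1 : coeffEmb Qb (qExpand ℚ d jq) = jqNModC Qb d := coeffMap_jqNModC (algebraMap ℚ Qb) d
  rw [h1]
  exact (coeffMap_jqNModC A.subtype d).symm

theorem jd_mem_Fc (d : ℕ) [NeZero d] (hd : d ∣ M) : jd M d hd ∈ Fc M E :=
  Subfield.subset_closure (Or.inr ⟨d, inferInstance, hd, rfl⟩)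

theorem gaussForm_jd (w₀ : Qb) (d : ℕ) [NeZero d] (hd : d ∣ M) :
    GaussForm M A E w₀ (jd M d hd) := by
  refine ⟨0, jqNModC A d, 1, ?_, isIntE_one, ?_, ?_, ?_⟩
  · exact (isIntE_iff M A E).mpr ⟨jd M d hd, jd_mem_Fc d hd, val_jd d hd⟩
  · show coeffMap (IsLocalRing.residue A) (jqNModC A d) ≠ 0
    rw [coeffMap_jqNModC]
    exact jqNModC_ne_zero _ d
  · rw [map_one]; exact one_ne_zero
  · rw [map_one, mul_one, zpow_zero, one_mul, val_jd d hd]

theorem gaussForm_one (w₀ : Qb) : GaussForm M A E w₀ 1 := by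
  refine ⟨0, 1, 1, isIntE_one, isIntE_one, ?_, ?_, ?_⟩
  · rw [map_one]; exact one_ne_zero
  · rw [map_one]; exact one_ne_zero
  · rw [map_one, mul_one, zpow_zero, one_mul]; rfl

/-- **Gauss normal form.** -/
theorem gaussForm_of_mem_Fc {w₀ : Qb} (hw : _root_.Fermat.Agent.S18.H24.IsUnif A E w₀) {f : Om M} (hf : f ∈ Fc M E) :
    f = 0 ∨ GaussForm M A E w₀ f := by
  have hw0 := hw.ne_zero
  unfold Fc at hf
  induction hf using Subfield.closure_induction with
  | mem y hy =>
    rcases hy with hy | hy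
    · obtain ⟨c, hc, rfl⟩ := (mem_Ec_iff M E).1 hy
      by_cases hc0 : c = 0
      · left; rw [hc0]; exact map_zero _
      · right; exact gaussForm_cst hw hc hc0
    · obtain ⟨d, hd, hdM, rfl⟩ := hy
      right
      exact gaussForm_jd w₀ d hdM
  | one => right; exact gaussForm_one w₀
  | add x y _ _ hx hy =>
    rcases hx with rfl | hx
    · rw [zero_add]; exact hy
    · rcases hy with rfl | hy
      · rw [add_zero]; exact Or.inr hx
      · exact hx.add hw hy
  | neg x _ hx =>
    rcases hx with rfl | hx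
    · left; rw [neg_zero]
    · right; exact hx.neg
  | inv x _ hx =>
    rcases hx with rfl | hx
    · left; rw [inv_zero]
    · right; exact hx.inv hw0
  | mul x y _ _ hx hy =>
    rcases hx with rfl | hx
    · left; rw [zero_mul]
    · rcases hy with rfl | hy
      · left; rw [mul_zero]
      · right; exact hx.mul hw0 hy

/-- A Gauss form with `n ≥ 0` lies in `V`. -/
theorem GaussForm.mem_Vc_of_nonneg {w₀ : Qb} (hw : _root_.Fermat.Agent.S18.H24.IsUnif A E w₀) {f : Om M} (hfF : f ∈ Fc M E)
    {n : ℕ} {U₁ U₂ : LaurentSeries A} (h₁ : IsIntE M A E U₁) (h₂ : IsIntE M A E U₂)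
    (hr₂ : red A U₂ ≠ 0)
    (heq : (f : LaurentSeries Qb) * inc A U₂ = HahnSeries.C w₀ ^ n * inc A U₁) :
    f ∈ Vc M A E := by
  refine ⟨hfF, HahnSeries.C (⟨w₀, hw.mem_A⟩ ^ n : A) * U₁, U₂, IsIntE.mul (isIntE_C ?_) h₁, h₂,
    hr₂, ?_⟩
  · show ((⟨w₀, hw.mem_A⟩ ^ n : A) : Qb) ∈ E
    rw [SubmonoidClass.coe_pow]
    exact pow_mem hw.mem_E n
  · rw [heq, map_mul, inc_C, SubmonoidClass.coe_pow, map_pow]

variable (M) in
/-- field `V_total`. -/
theorem field_V_total {w₀ : Qb} (hw : _root_.Fermat.Agent.S18.H24.IsUnif A E w₀) :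
    ∀ f ∈ Fc M E, f ∈ Vc M A E ∨ f⁻¹ ∈ Vc M A E := by
  intro f hf
  rcases gaussForm_of_mem_Fc hw hf with rfl | hG
  · left; exact zero_mem _
  · have hw0 := hw.ne_zero
    obtain ⟨n, U₁, U₂, h₁, h₂, hr₁, hr₂, heq⟩ := hG
    rcases le_total 0 n with hn | hn
    · left
      obtain ⟨d, rfl⟩ := Int.eq_ofNat_of_zero_le hn
      rw [zpow_natCast] at heq
      exact GaussForm.mem_Vc_of_nonneg hw hf h₁ h₂ hr₂ heq
    · right
      have hG' : GaussForm M A E w₀ f := ⟨n, U₁, U₂, h₁, h₂, hr₁, hr₂, heq⟩
      obtain ⟨n', W₁, W₂, k₁, k₂, kr₁, kr₂, heq'⟩ := hG'.inv hw0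
      -- use the explicit inverse form instead
      have hf0 := hG'.ne_zero hw0
      have hfv0 : (f : LaurentSeries Qb) ≠ 0 := fun h => hf0 (val_eq_zero_iff.mp h)
      have hC := C_ne_zero' hw0
      obtain ⟨d, hd⟩ : ∃ d : ℕ, -n = d := Int.eq_ofNat_of_zero_le (by omega)
      have heq2 : ((f⁻¹ : Om M) : LaurentSeries Qb) * inc A U₁ = HahnSeries.C w₀ ^ d * inc A U₂ := by
        rw [val_inv]
        have hCn : (HahnSeries.C w₀ : LaurentSeries Qb) ^ n ≠ 0 := zpow_ne_zero n hC
        have h1 : inc A U₁ = (HahnSeries.C w₀ ^ n)⁻¹ * ((f : LaurentSeries Qb) * inc A U₂) := by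
          rw [heq, ← mul_assoc, inv_mul_cancel₀ hCn, one_mul]
        rw [h1, ← zpow_neg, hd, zpow_natCast]
        field_simp
      exact GaussForm.mem_Vc_of_nonneg hw (inv_mem hf) h₂ h₁ hr₁ heq2

/-! ### The coordinate and the field `gauss` -/

section Coord

variable [NeZero M]

/-- The integral series of a coordinate, over `A`. -/
theorem exists_series_of_hasIntExp {x : Om M} (hx : HasIntExp M x) :
    ∃ XA : LaurentSeries A, IsIntE M A E XA ∧ inc A XA = (x : LaurentSeries Qb) ∧
      (red A XA).order ≠ 0 := by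
  have hxF := mem_Fc_of_hasIntExp M E hx
  obtain ⟨X, h1, h2, h3, -⟩ := hx
  refine ⟨coeffMap (Int.castRingHom A) X, ?_, ?_, ?_⟩
  · refine (isIntE_iff M A E).mpr ⟨x, hxF, ?_⟩
    rw [h3]
    show _ = coeffMap A.subtype (coeffMap (Int.castRingHom A) X)
    rw [coeffMap_coeffMap]
    exact coeffMap_congr (RingHom.ext_int _ _) X
  · rw [h3]
    show coeffMap A.subtype (coeffMap (Int.castRingHom A) X) = _
    rw [coeffMap_coeffMap]
    exact coeffMap_congr (RingHom.ext_int _ _) X
  · show (coeffMap (IsLocalRing.residue A) (coeffMap (Int.castRingHom A) X)).order ≠ 0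
    rw [coeffMap_coeffMap]
    set Xk := coeffMap ((IsLocalRing.residue A).comp (Int.castRingHom A)) X with hXk
    have hc1 : Xk.coeff (-1) = 1 := by
      rw [hXk, coeffMap_coeff, h1, map_one]
    have hne : Xk ≠ 0 := by
      intro h
      rw [h, HahnSeries.coeff_zero] at hc1
      exact zero_ne_one hc1
    have hle : Xk.order ≤ -1 := HahnSeries.order_le_of_coeff_ne_zero (by rw [hc1]; exact one_ne_zero)
    omega

theorem coord_mem_Vc {x : Om M} (hx : HasIntExp M x) : x ∈ Vc M A E := by
  obtain ⟨XA, hXA, hinc, -⟩ := exists_series_of_hasIntExp (A := A) (E := E) hx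
  exact mem_VcSet_of_isIntE hXA hinc.symm

/-- field `gauss` (for a coordinate with integral expansion `q⁻¹ + …`). -/
theorem field_gauss {x : Om M} (hx : HasIntExp M x) :
    ∀ P : Polynomial (Om M), (∀ i, P.coeff i ∈ Rc M A E) →
      (∃ i, P.coeff i ≠ 0 ∧ (P.coeff i)⁻¹ ∈ Rc M A E) → (P.eval x)⁻¹ ∈ Vc M A E := by
  intro P hP hunit
  have hxF := mem_Fc_of_hasIntExp M E hx
  obtain ⟨XA, hXA, hinc, hord⟩ := exists_series_of_hasIntExp (A := A) (E := E) hx
  -- lift `P` to `A[X]`
  let φ : A →+* Om M := (algebraMap Qb (Om M)).comp A.subtype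
  have hlift : P ∈ Polynomial.lifts φ := by
    rw [Polynomial.lifts_iff_coeff_lifts]
    intro i
    obtain ⟨c, hcA, -, hc⟩ := (mem_Rc_iff M A E).mp (hP i)
    exact ⟨⟨c, hcA⟩, hc⟩
  obtain ⟨p, hp'⟩ := hlift
  have hp : p.map φ = P := hp'
  have hpcoeff : ∀ i, cst M ((p.coeff i : A) : Qb) = P.coeff i := by
    intro i
    rw [← hp, Polynomial.coeff_map]
    rfl
  have hpE : ∀ i, ((p.coeff i : A) : Qb) ∈ E := by
    intro i
    obtain ⟨c, -, hcE, hc⟩ := (mem_Rc_iff M A E).mp (hP i)
    have : c = ((p.coeff i : A) : Qb) := cst_injective M (by rw [hc, hpcoeff])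
    rw [← this]; exact hcE
  -- the series
  set U : LaurentSeries A := p.eval₂ (HahnSeries.C (Γ := ℤ) (R := A)) XA with hU
  have hUint : IsIntE M A E U := by
    rw [hU, Polynomial.eval₂_eq_sum_range]
    have : ∀ (s : Finset ℕ), IsIntE M A E (∑ i ∈ s, HahnSeries.C (p.coeff i) * XA ^ i) := by
      intro s
      induction s using Finset.induction_on with
      | empty => rw [Finset.sum_empty]; exact isIntE_zero
      | insert a s ha ih =>
        rw [Finset.sum_insert ha]
        exact IsIntE.add (IsIntE.mul (isIntE_C (hpE a)) (IsIntE.pow hXA a)) ih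
    exact this _
  have hincU : inc A U = ((P.eval x : Om M) : LaurentSeries Qb) := by
    rw [hU, Polynomial.hom_eval₂, hinc]
    have h1 : ((P.eval x : Om M) : LaurentSeries Qb) =
        P.eval₂ (modularFunctionFieldBar M).val.toRingHom (x : LaurentSeries Qb) := by
      have := Polynomial.hom_eval₂ P (RingHom.id (Om M)) (modularFunctionFieldBar M).val.toRingHom x
      simp only [Polynomial.eval₂_id, RingHom.comp_id] at this
      exact this
    rw [h1, ← hp, Polynomial.eval₂_map]
    congr 1
    ext c : 1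
    show inc A (HahnSeries.C c) = ((cst M (c : Qb) : Om M) : LaurentSeries Qb)
    rw [inc_C, val_cst']
  have hredU : red A U ≠ 0 := by
    rw [hU, Polynomial.hom_eval₂]
    have hcomp : (red A).comp (HahnSeries.C (Γ := ℤ) (R := A)) =
        (HahnSeries.C (Γ := ℤ) (R := IsLocalRing.ResidueField A)).comp (IsLocalRing.residue A) := by
      ext c : 1
      exact red_C c
    rw [hcomp, ← Polynomial.eval₂_map]
    intro h0
    have hp0 := Fermat.Agent.S28.H806.eq_zero_of_eval₂_C_eq_zero _ hord _ h0
    obtain ⟨i, hi0, hiinv⟩ := hunit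
    have hci : (p.map (IsLocalRing.residue A)).coeff i = 0 := by rw [hp0, Polynomial.coeff_zero]
    rw [Polynomial.coeff_map] at hci
    have hc0 : ((p.coeff i : A) : Qb) ≠ 0 := by
      intro h
      apply hi0
      rw [← hpcoeff, h]
      exact map_zero _
    have hcinv : ((p.coeff i : A) : Qb)⁻¹ ∈ A := by
      obtain ⟨c, hcA, -, hc⟩ := (mem_Rc_iff M A E).mp hiinv
      rw [← hpcoeff, ← map_inv₀] at hc
      have := cst_injective M hc
      rw [← this]; exact hcA
    exact residue_ne_zero_of_inv_mem hc0 hcinv hci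
  have hPx0 : ((P.eval x : Om M) : LaurentSeries Qb) ≠ 0 := by
    rw [← hincU]; exact red_ne_zero_imp_inc_ne_zero hredU
  refine ⟨inv_mem ?_, 1, U, isIntE_one, hUint, hredU, ?_⟩
  · -- `P.eval x ∈ Fc`
    rw [Polynomial.eval_eq_sum_range]
    refine Subfield.sum_mem _ fun i _ => ?_
    exact mul_mem (field_E_le_F M E (field_R_le M A E (hP i))) (pow_mem hxF i)
  · rw [val_inv, hincU, map_one, inv_mul_cancel₀ hPx0]

end Coord

end Fermat.Agent.S18.H24

end
end
-- ===== PACK-END S18/H24/GaussC.lean

-- ===== PACK-BEGIN S18/H804/ValPlace.lean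
section




/-!
# S18 / GLUE input: every nontrivial valuation subring of a function field containing the
constants is a place  (helper804)

`K` a field of characteristic zero, `F` finite over `K(x)`, `x` transcendental.  A valuation
subring `O ≠ ⊤` of `F` containing `K` is the valuation ring of a `Place K F` (a discrete
valuation ring).  Proof: `x` or `x⁻¹` lies in `O`; `O` dominates the localisation of the integral
closure of `K[x^{±1}]` at its center, which is a DVR, hence maximal among proper subrings.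

Corollary (`exists_mul_pow_unit`): if `m ∣ ord_v u` for every place `v`, then for every valuation
subring `O ⊇ K` of `F` there is `t ≠ 0` with `u * t ^ m` a unit of `O`.
-/

set_option autoImplicit false
set_option linter.unusedSectionVars false

namespace Fermat.Agent.S18.H804

open AlgebraicCurve Polynomial IntermediateField IsDedekindDomain Fermat.Agent.S24 FF

open scoped IntermediateField.algebraAdjoinAdjoin

variable {K F : Type*} [Field K] [Field F] [Algebra K F] {t : F}

/-- `K[t] ⊆ O` when `t ∈ O`. -/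
theorem mem_of_mem_coordRing_val (O : ValuationSubring F)
    (hK : ∀ a : K, algebraMap K F a ∈ O) (ht : t ∈ O) {r : F}
    (hr : r ∈ coordRing K t) : r ∈ O := by
  induction hr using Algebra.adjoin_induction with
  | mem x hx =>
    rw [Set.mem_singleton_iff] at hx
    subst hx
    exact ht
  | algebraMap a => exact hK a
  | add x y _ _ hx hy => exact add_mem hx hy
  | mul x y _ _ hx hy => exact mul_mem hx hy

/-- The integral closure of `K[t]` is contained in `O` when `t ∈ O`. -/
theorem mem_of_mem_intRing_val (O : ValuationSubring F)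
    (hK : ∀ a : K, algebraMap K F a ∈ O) (ht : t ∈ O) {s : F}
    (hs : s ∈ intRing K t) : s ∈ O := by
  let φ : coordRing K t →+* O :=
    { toFun := fun y => ⟨y, mem_of_mem_coordRing_val O hK ht y.2⟩
      map_one' := rfl
      map_mul' := fun _ _ => rfl
      map_zero' := rfl
      map_add' := fun _ _ => rfl }
  obtain ⟨p, hpm, hp⟩ := hs
  have hint' : IsIntegral O s := by
    refine ⟨p.map φ, hpm.map φ, ?_⟩
    rw [← hp, Polynomial.eval₂_map]
    rfl
  obtain ⟨y, hy⟩ := IsIntegrallyClosed.isIntegral_iff.mp hint'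
  rw [← hy]
  exact y.2

/-- The inclusion of the integral closure of `K[t]` into `O`. -/
def toValRing (O : ValuationSubring F) (hK : ∀ a : K, algebraMap K F a ∈ O) (ht : t ∈ O) :
    intRing K t →+* O where
  toFun s := ⟨s, mem_of_mem_intRing_val O hK ht s.2⟩
  map_one' := rfl
  map_mul' _ _ := rfl
  map_zero' := rfl
  map_add' _ _ := rfl

/-- The center of `O` on the integral closure of `K[t]`. -/
def centerVal (O : ValuationSubring F) (hK : ∀ a : K, algebraMap K F a ∈ O) (ht : t ∈ O) :
    Ideal (intRing K t) :=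
  Ideal.comap (toValRing O hK ht) (IsLocalRing.maximalIdeal O)

instance centerVal_isPrime (O : ValuationSubring F) (hK : ∀ a : K, algebraMap K F a ∈ O)
    (ht : t ∈ O) : (centerVal O hK ht).IsPrime := by
  unfold centerVal
  infer_instance

theorem mem_centerVal_iff (O : ValuationSubring F) (hK : ∀ a : K, algebraMap K F a ∈ O)
    (ht : t ∈ O) (s : intRing K t) :
    s ∈ centerVal O hK ht ↔ (s : F) ∈ O.nonunits := by
  rw [centerVal, Ideal.mem_comap]
  exact ValuationSubring.coe_mem_nonunits_iff.symm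

section withCoord

variable [CharZero K] [IsCoord K t]

/-- The center of a proper valuation subring is nonzero. -/
theorem centerVal_ne_bot (O : ValuationSubring F) (hK : ∀ a : K, algebraMap K F a ∈ O)
    (ht : t ∈ O) (hO : O ≠ ⊤) : centerVal O hK ht ≠ ⊥ := by
  intro h
  apply hO
  refine SetLike.ext fun f => ⟨fun _ => ValuationSubring.mem_top f, fun _ => ?_⟩
  -- `f = a / b` with `a, b` in the integral closure, `b ≠ 0` a unit of `O`
  obtain ⟨a, b, hb, rfl⟩ := IsFractionRing.div_surjective (A := intRing K t) f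
  have hb0 : b ≠ 0 := nonZeroDivisors.ne_zero hb
  have hbF : (b : F) ≠ 0 := fun h0 => hb0 (Subtype.ext h0)
  have hbnot : (b : F) ∉ O.nonunits := by
    intro hbn
    have : b ∈ centerVal O hK ht := (mem_centerVal_iff O hK ht b).mpr hbn
    rw [h, Ideal.mem_bot] at this
    exact hb0 this
  have hbinv : (b : F)⁻¹ ∈ O := by
    by_contra hcon
    exact hbnot ((ValuationSubring.mem_nonunits_iff_or _).mpr (Or.inr hcon))
  have ha : (a : F) ∈ O := mem_of_mem_intRing_val O hK ht a.2
  show algebraMap (intRing K t) F a / algebraMap (intRing K t) F b ∈ O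
  rw [div_eq_mul_inv]
  exact mul_mem ha hbinv

/-- A proper valuation subring containing `K` and `t` is the valuation ring of a place. -/
theorem exists_place_of_mem (O : ValuationSubring F) (hK : ∀ a : K, algebraMap K F a ∈ O)
    (ht : t ∈ O) (hO : O ≠ ⊤) : ∃ v : Place K F, v.toValuationSubring = O := by
  let q : HeightOneSpectrum (intRing K t) :=
    ⟨centerVal O hK ht, inferInstance, centerVal_ne_bot O hK ht hO⟩
  refine ⟨placeOfPrime K t q, ?_⟩
  rw [placeOfPrime_toValuationSubring,
    ← HeightOneSpectrum.valuationSubringAtPrime_eq_valuationSubring]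
  refine ValuationSubring.eq_of_le_of_ne_top _ ?_ hO
  rintro x ⟨a, s, hs, rfl⟩
  have ha : (a : F) ∈ O := mem_of_mem_intRing_val O hK ht a.2
  have hs' : (s : F) ∉ O.nonunits := fun h =>
    hs ((mem_centerVal_iff O hK ht s).mpr h)
  have hsinv : (s : F)⁻¹ ∈ O := by
    by_contra hcon
    exact hs' ((ValuationSubring.mem_nonunits_iff_or _).mpr (Or.inr hcon))
  exact mul_mem ha hsinv

end withCoord

/-- **Every proper valuation subring of `F` containing `K` is a place.** -/
theorem exists_place_of_valuationSubring [CharZero K] {x : F} (hx : Transcendental K x)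
    [FiniteDimensional K⟮x⟯ F] (O : ValuationSubring F)
    (hK : ∀ a : K, algebraMap K F a ∈ O) (hO : O ≠ ⊤) :
    ∃ v : Place K F, v.toValuationSubring = O := by
  rcases O.mem_or_inv_mem x with h | h
  · have : IsCoord K x := ⟨hx, inferInstance⟩
    exact exists_place_of_mem O hK h hO
  · have : FiniteDimensional K⟮x⁻¹⟯ F := finiteDimensional_adjoin_inv x
    have : IsCoord K x⁻¹ := ⟨transcendental_inv hx, inferInstance⟩
    exact exists_place_of_mem O hK h hO

/-- If `m` divides the order of `u` at every place, then `u` is, up to an `m`-th power, a unit of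
every valuation subring of `F` containing `K`. -/
theorem exists_mul_pow_unit [CharZero K] {x : F} (hx : Transcendental K x)
    [FiniteDimensional K⟮x⟯ F] (m : ℕ) (u : F) (hu : u ≠ 0)
    (hdiv : ∀ v : Place K F, (m : ℤ) ∣ v.ord u) (O : ValuationSubring F)
    (hK : ∀ a : K, algebraMap K F a ∈ O) :
    ∃ t : F, t ≠ 0 ∧ u * t ^ m ∈ O ∧ (u * t ^ m)⁻¹ ∈ O := by
  by_cases hO : O = ⊤
  · subst hO
    exact ⟨1, one_ne_zero, ValuationSubring.mem_top _, ValuationSubring.mem_top _⟩
  obtain ⟨v, rfl⟩ := exists_place_of_valuationSubring hx O hK hO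
  obtain ⟨π, hπ, hπ1⟩ := exists_irreducible_coe v
  have hπ0 : (π : F) ≠ 0 := by
    intro h
    rw [h, v.ord_zero] at hπ1
    exact zero_ne_one hπ1
  obtain ⟨k, hk⟩ := hdiv v
  refine ⟨(π : F) ^ (-k), zpow_ne_zero _ hπ0, ?_, ?_⟩
  all_goals
    have hne : u * ((π : F) ^ (-k)) ^ m ≠ 0 :=
      mul_ne_zero hu (pow_ne_zero _ (zpow_ne_zero _ hπ0))
    have hord : v.ord (u * ((π : F) ^ (-k)) ^ m) = 0 := by
      rw [v.ord_mul hu (pow_ne_zero _ (zpow_ne_zero _ hπ0)), ← zpow_natCast, ← zpow_mul,
        v.ord_zpow, hπ1, hk]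
      ring
  · exact mem_of_ord_nonneg v hord.ge
  · apply mem_of_ord_nonneg v
    rw [v.ord_inv, hord]
    simp

end Fermat.Agent.S18.H804

end
-- ===== PACK-END S18/H804/ValPlace.lean

-- ===== PACK-BEGIN S18/B12/H33/B2Regular.lean
section












/-!
# S18 b2 (squad S18/S33, assembled by helper33): `b2Regular : B2RegularStatement`, UNCONDITIONAL

This is output O1 of piece b2 of Route K (see `B12/Spec3.lean`): for a finite, torsion-free,
integrally closed `R[X]`-algebra `B` (`R` a DVR-like PID of characteristic 0 with prime `w`) whose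
special fibre `B / w B` is a domain and generically separable over `k[X]`, tame at the primes
`X - c` (`c ∈ S`, distinct mod `w`) and unramified (reduced fibre) at all other primes of `R[X]`,
the ring `B` is regular along `w`:  `H754.RegularAlong (algebraMap R[X] B (C w))`.

Pieces (all sorry-free, standard axioms):
* A0, A2, A2' (regular sequence, local bases, rank)  : helper93  (`B12/H93`; also helper873)
* A3  (discriminant reduction)                        : helper393 (`B12/H393`; also helper203/204)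
* A4, A1 (UFD step, polynomial-ring instance)         : helper203 (`B12/H203`; also helper245/693)
* A5  (generic discriminant, tame)                    : helper444 (`B12/H444`, via helper274 P3)
* A5' (reduction basis)                               : helper203 (`B12/H203`; also helper245/633)
* A8, A9 (integrally closed fibre, Dedekind => regular): helper84 (`B12/H84`, via helper278 P2;
                                                        also helper231/845)
* heart A6' and glue O1                               : helper33  (`B12/H33`)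
-/

set_option autoImplicit false

namespace Fermat.Agent.S18.B12.H33

universe u v

/-- **A6' (heart of b2), unconditional.** -/
theorem b2CoreAbs : B2CoreAbsStatement.{u, v} :=
  b2CoreAbs_of_pieces H93.regSeqAbs H93.localBasis H93.localBasisRank H393.discrRed
    H203.ufdStep H444.genericDiscr H203.redBasisAbs

/-- **O1 = b2, unconditional**: `H754.RegularAlong (C w)` for the chart ring. -/
theorem b2Regular : B2RegularStatement.{u, v} :=
  b2Regular_of_pieces b2CoreAbs H93.regSeqAbs H84.a8 H84.a9 H203.polyInst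

end Fermat.Agent.S18.B12.H33

end
-- ===== PACK-END S18/B12/H33/B2Regular.lean

-- ===== PACK-BEGIN A2/H652/RedCover.lean
section



/-!
# Cell A2, route G — leaf RED, cover step (helper652)

`redConclusion_of_baseRed` : for a finite normal cover `L / F`, the conclusion `RedConclusion L w x`
of the leaf RED follows from
* `BaseRed w x` : the same statement for the three charts of `F` itself (reduced special fibre of
  the base, every component is a sheet), and
* `SheetsConclusion L w x` (only the fields `unif` (`e = 1`) and `exists_over` are used).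
-/

set_option autoImplicit false

namespace Fermat.Agent.A2.H652

open Fermat.Agent.A2.H12
open Fermat.Agent.S18.H138 (chart mem_chart)

universe u

section Tower

variable {R : Type*} [CommRing R] {F : Type*} [Field F] [Algebra R F]
variable {L : Type*} [Field L] [Algebra F L] [Algebra R L] [IsScalarTower R F L]

/-- Integrality over `R[T]` inside `L` (for `T ⊆ F`) is integrality over the subalgebra `R[T]`
of `F`. -/
theorem isIntegral_adjoin_of_isIntegral_adjoin_image (T : Set F) {y : L}
    (hy : IsIntegral (Algebra.adjoin R (algebraMap F L '' T)) y) :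
    IsIntegral (Algebra.adjoin R T) y := by
  let f : F →ₐ[R] L := IsScalarTower.toAlgHom R F L
  have hf : Function.Injective f := (algebraMap F L).injective
  have hmap : (Algebra.adjoin R T).map f = Algebra.adjoin R (algebraMap F L '' T) :=
    AlgHom.map_adjoin f T
  let e : Algebra.adjoin R T ≃ₐ[R] Algebra.adjoin R (algebraMap F L '' T) :=
    ((Algebra.adjoin R T).equivMapOfInjective f hf).trans (Subalgebra.equivOfEq _ _ hmap)
  have he : ∀ a, ((e a : Algebra.adjoin R (algebraMap F L '' T)) : L) = algebraMap F L (a : F) :=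
    fun a => rfl
  have := IsIntegral.map_of_comp_eq (R := Algebra.adjoin R (algebraMap F L '' T)) (S := L)
    (T := Algebra.adjoin R T) (U := L) (e.symm : _ →+* _) (RingHom.id L) (by
      ext a
      have := he (e.symm a)
      rw [AlgEquiv.apply_symm_apply] at this
      exact this.symm) hy
  simpa using this

/-- Converse of `isIntegral_adjoin_of_isIntegral_adjoin_image`. -/
theorem isIntegral_adjoin_image_of_isIntegral_adjoin (T : Set F) {y : L}
    (hy : IsIntegral (Algebra.adjoin R T) y) :
    IsIntegral (Algebra.adjoin R (algebraMap F L '' T)) y := by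
  let f : F →ₐ[R] L := IsScalarTower.toAlgHom R F L
  have hf : Function.Injective f := (algebraMap F L).injective
  have hmap : (Algebra.adjoin R T).map f = Algebra.adjoin R (algebraMap F L '' T) :=
    AlgHom.map_adjoin f T
  let e : Algebra.adjoin R T ≃ₐ[R] Algebra.adjoin R (algebraMap F L '' T) :=
    ((Algebra.adjoin R T).equivMapOfInjective f hf).trans (Subalgebra.equivOfEq _ _ hmap)
  have := IsIntegral.map_of_comp_eq (R := Algebra.adjoin R T) (S := L)
    (T := Algebra.adjoin R (algebraMap F L '' T)) (U := L) (e : _ →+* _) (RingHom.id L) (by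
      ext a
      rfl) hy
  simpa using this

end Tower

section Main

variable {R : Type u} [CommRing R] {F : Type u} [Field F] [Algebra R F]
variable {L : Type u} [Field L] [Algebra F L] [Algebra R L] [IsScalarTower R F L]

/-- **Base RED**: the special fibre of each of the three charts of `F` is reduced and all its
components are sheets.  (This is `RedConclusion` for the trivial cover `L = F`.) -/
def BaseRed (w : R) (x : F) : Prop :=
  ∀ T : Set F, T = {x} ∨ T = {x⁻¹} ∨ T = {x, x⁻¹} →
    ∀ a ∈ chart R T, (∀ V : ValuationSubring F, IsSheet w x V → a ∈ V.nonunits) →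
      ∃ t ∈ chart R T, a = algebraMap R F w * t

/-- RED for the chart of `L` over one chart `R[T]` of `F`. -/
theorem red_of_baseRed_aux [Normal F L] (w : R) (x : F) (hw0 : algebraMap R F w ≠ 0)
    (hS : SheetsConclusion L w x) (T : Set F)
    (hbase : ∀ a ∈ chart R T, (∀ V : ValuationSubring F, IsSheet w x V → a ∈ V.nonunits) →
      ∃ t ∈ chart R T, a = algebraMap R F w * t)
    (b : L) (hb : b ∈ chart R (algebraMap F L '' T))
    (hbM : ∀ W : ValuationSubring L, IsSheet w (algebraMap F L x) W → b ∈ W.nonunits) :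
    ∃ t ∈ chart R (algebraMap F L '' T), b = algebraMap R L w * t := by
  -- the base chart, as an algebra over `A = R[T]`
  have hwC : algebraMap R F w ∈ integralClosure (Algebra.adjoin R T) F :=
    isIntegral_algebraMap (R := Algebra.adjoin R T) (x := algebraMap R (Algebra.adjoin R T) w)
  have hCL : ∀ c : integralClosure (Algebra.adjoin R T) F,
      algebraMap (integralClosure (Algebra.adjoin R T) F) L c = algebraMap F L (c : F) :=
    fun _ => rfl
  have hwL : algebraMap (integralClosure (Algebra.adjoin R T) F) L ⟨algebraMap R F w, hwC⟩ =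
      algebraMap R L w := by
    rw [hCL, ← IsScalarTower.algebraMap_apply]
  obtain ⟨t, ht, hbt⟩ := coverRed (C := integralClosure (Algebra.adjoin R T) F) (F := F) (L := L)
    (fun y hy => ⟨⟨y, isIntegral_trans y hy⟩, rfl⟩)
    ⟨algebraMap R F w, hwC⟩ hw0
    {W | IsSheet w (algebraMap F L x) W}
    (by
      intro σ W hW
      have hσR : ∀ r : R, (σ : L ≃+* L) (algebraMap R L r) =
          algebraMap R L ((RingEquiv.refl R) r) := by
        intro r
        have h1 : (σ : L ≃+* L) (algebraMap R L r) = σ (algebraMap F L (algebraMap R F r)) := by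
          rw [IsScalarTower.algebraMap_apply R F L]
          rfl
        rw [h1, σ.commutes, ← IsScalarTower.algebraMap_apply]
        rfl
      refine ⟨W.comap ((σ : L ≃+* L) : L →+* L),
        IsSheet.comap hW (σ : L ≃+* L) (RingEquiv.refl R) hσR (fun _ => Iff.rfl)
          (σ.commutes x), ?_⟩
      intro y hy
      exact (mem_nonunits_comap W ((σ : L ≃+* L) : L →+* L) y).1 hy)
    (by
      intro W hW
      rw [hwL]
      exact hW.2.2.1)
    (by
      intro W hW y hy
      rw [hwL]
      exact hS.unif W hW y hy)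
    (by
      intro a ha
      obtain ⟨t, ht, hat⟩ := hbase (a : F) a.2 (by
        intro V hV
        obtain ⟨W, hW, hWV⟩ := hS.exists_over V hV
        have h1 := ha W hW
        rw [hCL] at h1
        rw [← hWV, mem_nonunits_comap]
        exact h1)
      exact ⟨⟨t, ht⟩, Subtype.ext hat⟩)
    b ((isIntegral_adjoin_of_isIntegral_adjoin_image T hb).tower_top) hbM
  refine ⟨t, ?_, by rw [← hwL]; exact hbt⟩
  exact isIntegral_adjoin_image_of_isIntegral_adjoin T (isIntegral_trans t ht)

/-- **Leaf RED, cover step.** -/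
theorem redConclusion_of_baseRed [Normal F L] (w : R) (x : F) (hw0 : algebraMap R F w ≠ 0)
    (hS : SheetsConclusion L w x) (hbase : BaseRed w x) : RedConclusion L w x := by
  intro T hT b hb hbM
  rcases hT with rfl | rfl | rfl
  · have h := red_of_baseRed_aux (L := L) w x hw0 hS {x} (hbase _ (Or.inl rfl)) b
      (by rwa [Set.image_singleton]) hbM
    rwa [Set.image_singleton] at h
  · have h := red_of_baseRed_aux (L := L) w x hw0 hS {x⁻¹} (hbase _ (Or.inr (Or.inl rfl))) b
      (by rwa [Set.image_singleton, map_inv₀]) hbM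
    rwa [Set.image_singleton, map_inv₀] at h
  · have h := red_of_baseRed_aux (L := L) w x hw0 hS {x, x⁻¹}
      (hbase _ (Or.inr (Or.inr rfl))) b (by rwa [Set.image_pair, map_inv₀]) hbM
    rwa [Set.image_pair, map_inv₀] at h

end Main

end Fermat.Agent.A2.H652

end
-- ===== PACK-END A2/H652/RedCover.lean

-- ===== PACK-BEGIN A2/H652/RedBase.lean
section







/-!
# Cell A2, route G — leaf RED, base step (helper652)

`baseRed_of_ssChart` : for the two semistable charts `Bf`, `Bi` (`SSChart`, frozen `A2/Spec.lean`)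
of the base `F`, the special fibre of each of the three charts of `F` is reduced and all its
components are sheets (`BaseRed w x`).

Ingredients:
* `exists_valuationSubring_center` : a valuation subring centred at a given prime of a
  subalgebra (Mathlib: `LocalSubring.exists_le_valuationSubring`);
* `coeff_dvd_of_mem_of_inf_eq` : going down (`R[x]` is integrally closed): both components
  `p₁`, `p₂` of the special fibre lie over the generic point `(w)` of the special fibre of `R[x]`
  (here the incomparability fields of `SSChart` are used);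
* hence the valuation subrings centred at `p₁`, `p₂` are sheets (`isSheet_of_center`), and
  `a ∈ p₁ ⊓ p₂ = (w)`.
-/

set_option autoImplicit false
set_option linter.style.haveILetI false
set_option linter.unusedSectionVars false

namespace Fermat.Agent.A2.H652

open Polynomial
open Fermat.Agent.A2 Fermat.Agent.A2.H12
open Fermat.Agent.S18.H138 (chart mem_chart mem_adjoin_singleton_iff
  isIntegrallyClosed_adjoin_singleton)

section Center

variable {F : Type*} [Field F]

/-- A valuation subring centred at a given prime of a subring. -/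
theorem exists_valuationSubring_center_subring (A : Subring F) (P : Ideal A) [P.IsPrime] :
    ∃ V : ValuationSubring F, (∀ b ∈ A, b ∈ V) ∧ ∀ b : A, (b : F) ∈ V.nonunits ↔ b ∈ P := by
  obtain ⟨V, hle, hloc⟩ := (LocalSubring.ofPrime A P).exists_le_valuationSubring
  have hAV : ∀ b ∈ A, b ∈ V := fun b hb => hle (LocalSubring.le_ofPrime A P hb)
  refine ⟨V, hAV, fun b => ⟨fun hb => ?_, fun hb => ?_⟩⟩
  · by_contra hbP
    have hu : IsUnit (algebraMap A (LocalSubring.ofPrime A P).toSubring b) :=
      IsLocalization.map_units (M := P.primeCompl) _ ⟨b, hbP⟩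
    obtain ⟨c, hc⟩ := hu.exists_right_inv
    have hc' : (b : F) * (c : F) = 1 := congrArg Subtype.val hc
    have hcV : (c : F) ∈ V := hle c.2
    have h1 : (b : F) * (c : F) ∈ V.nonunits := mul_mem_nonunits_right V hb hcV
    rw [hc'] at h1
    exact one_not_mem_nonunits V h1
  · have hnu : ¬ IsUnit (algebraMap A (LocalSubring.ofPrime A P).toSubring b) := by
      rw [IsLocalization.AtPrime.isUnit_to_map_iff (LocalSubring.ofPrime A P).toSubring P]
      exact fun h => h hb
    have hnu' : ¬ IsUnit (Subring.inclusion hle (algebraMap A _ b)) := fun h =>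
      hnu (hloc.map_nonunit _ h)
    have hbV : (b : F) ∈ V := hAV b b.2
    rw [ValuationSubring.mem_nonunits_iff_exists_mem_maximalIdeal]
    refine ⟨hbV, ?_⟩
    rw [IsLocalRing.mem_maximalIdeal, mem_nonunits_iff]
    exact hnu'

variable {R : Type*} [CommRing R] [Algebra R F]

/-- A valuation subring centred at a given prime of a subalgebra. -/
theorem exists_valuationSubring_center (B : Subalgebra R F) (p : Ideal B) [p.IsPrime] :
    ∃ V : ValuationSubring F, (∀ b ∈ B, b ∈ V) ∧ ∀ b : B, (b : F) ∈ V.nonunits ↔ b ∈ p := by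
  let φ : B.toSubring →+* B := (B.toSubring.subtype).codRestrict B (fun y => y.2)
  obtain ⟨V, h1, h2⟩ := exists_valuationSubring_center_subring B.toSubring (p.comap φ)
  refine ⟨V, fun b hb => h1 b hb, fun b => ?_⟩
  have := h2 ⟨b.1, b.2⟩
  rw [Ideal.mem_comap] at this
  exact this

end Center

section GoingDown

variable {R : Type*} [CommRing R] [IsDomain R] {F : Type*} [Field F] [Algebra R F]

/-- `w` is a prime element of `R[x]`. -/
theorem prime_algebraMap_adjoin (w : R) (hw : Prime w) {x : F} (hx : Transcendental R x) :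
    Prime (algebraMap R (Algebra.adjoin R ({x} : Set F)) w) := by
  have hinj : Function.Injective (aeval (R := R) x) :=
    (injective_iff_map_eq_zero _).2 (transcendental_iff.1 hx)
  let e : R[X] ≃ₐ[R] Algebra.adjoin R ({x} : Set F) :=
    (AlgEquiv.ofInjective (aeval (R := R) x) hinj).trans
      (Subalgebra.equivOfEq _ _ (Algebra.adjoin_singleton_eq_range_aeval R x).symm)
  have h1 : algebraMap R (Algebra.adjoin R ({x} : Set F)) w = e (C w) := by
    rw [← e.commutes]
    rfl
  rw [h1, MulEquiv.prime_iff]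
  exact prime_C_iff.2 hw

/-- **Going down.**  `B` the integral closure of `R[x]` in `F`, `p`, `p'` primes of `B` with
`p ∩ p' = (w)` and `p' ⊄ p`: then `p ∩ R[x] = w R[x]`. -/
theorem coeff_dvd_of_mem_of_inf_eq [IsIntegrallyClosed R[X]] (w : R) (hw : Prime w) {x : F}
    (hx : Transcendental R x) (B : Subalgebra R F)
    (hB : ∀ f : F, f ∈ B ↔ IsIntegral (Algebra.adjoin R ({x} : Set F)) f)
    (p p' : Ideal B) [hp : p.IsPrime] (hinf : p ⊓ p' = Ideal.span {algebraMap R B w})
    (hnle : ¬ p' ≤ p) (b : B) (hb : b ∈ p) (P : R[X]) (hbP : (b : F) = aeval x P) (i : ℕ) :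
    w ∣ P.coeff i := by
  have hAB : Algebra.adjoin R ({x} : Set F) ≤ B := fun y hy =>
    (hB y).2 (isIntegral_algebraMap (R := Algebra.adjoin R ({x} : Set F)) (x := ⟨y, hy⟩))
  letI : Algebra (Algebra.adjoin R ({x} : Set F)) B :=
    (Subalgebra.inclusion hAB).toRingHom.toAlgebra
  haveI : IsScalarTower (Algebra.adjoin R ({x} : Set F)) B F :=
    IsScalarTower.of_algebraMap_eq (fun _ => rfl)
  have hinjAB : Function.Injective (algebraMap (Algebra.adjoin R ({x} : Set F)) B) :=
    Subalgebra.inclusion_injective hAB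
  haveI : FaithfulSMul (Algebra.adjoin R ({x} : Set F)) B :=
    (faithfulSMul_iff_algebraMap_injective _ _).2 hinjAB
  haveI : Algebra.IsIntegral (Algebra.adjoin R ({x} : Set F)) B := ⟨fun y => by
    have := (hB y).1 y.2
    exact (isIntegral_algebraMap_iff (B := F) Subtype.val_injective).1 this⟩
  haveI : IsIntegrallyClosed (Algebra.adjoin R ({x} : Set F)) :=
    isIntegrallyClosed_adjoin_singleton hx
  have hwA : Prime (algebraMap R (Algebra.adjoin R ({x} : Set F)) w) :=
    prime_algebraMap_adjoin w hw hx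
  haveI hq : (Ideal.span {algebraMap R (Algebra.adjoin R ({x} : Set F)) w}).IsPrime :=
    (Ideal.span_singleton_prime hwA.ne_zero).2 hwA
  have hwB : algebraMap (Algebra.adjoin R ({x} : Set F)) B
      (algebraMap R (Algebra.adjoin R ({x} : Set F)) w) = algebraMap R B w := rfl
  have hwp : algebraMap R B w ∈ p := by
    have : algebraMap R B w ∈ p ⊓ p' := by
      rw [hinf]
      exact Ideal.subset_span rfl
    exact this.1
  have hle : Ideal.span {algebraMap R (Algebra.adjoin R ({x} : Set F)) w} ≤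
      p.under (Algebra.adjoin R ({x} : Set F)) := by
    rw [Ideal.span_le, Set.singleton_subset_iff]
    change algebraMap _ B _ ∈ p
    rw [hwB]
    exact hwp
  obtain ⟨P', hP'le, hP'prime, hP'over⟩ := Ideal.exists_ideal_le_liesOver_of_le
    (p := Ideal.span {algebraMap R (Algebra.adjoin R ({x} : Set F)) w})
    (q := p.under (Algebra.adjoin R ({x} : Set F))) p hle
  have hwP' : algebraMap R B w ∈ P' := by
    rw [← hwB, ← Ideal.mem_of_liesOver P'
      (Ideal.span {algebraMap R (Algebra.adjoin R ({x} : Set F)) w})]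
    exact Ideal.subset_span rfl
  have hinfle : p ⊓ p' ≤ P' := by
    rw [hinf, Ideal.span_le, Set.singleton_subset_iff]
    exact hwP'
  have hpP' : p ≤ P' := by
    rcases (hP'prime.inf_le).1 hinfle with h | h
    · exact h
    · exact absurd (h.trans hP'le) hnle
  have hPp : P' = p := le_antisymm hP'le hpP'
  -- `b ∈ p ∩ R[x] = (w)`
  have hbA : (b : F) ∈ Algebra.adjoin R ({x} : Set F) := by
    rw [hbP]
    exact mem_adjoin_singleton_iff.2 ⟨P, rfl⟩
  have hbq : (⟨(b : F), hbA⟩ : Algebra.adjoin R ({x} : Set F)) ∈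
      Ideal.span {algebraMap R (Algebra.adjoin R ({x} : Set F)) w} := by
    rw [Ideal.mem_of_liesOver P' (Ideal.span {algebraMap R (Algebra.adjoin R ({x} : Set F)) w}),
      hPp]
    have : algebraMap (Algebra.adjoin R ({x} : Set F)) B ⟨(b : F), hbA⟩ = b := Subtype.ext rfl
    rw [this]
    exact hb
  obtain ⟨c, hc⟩ := Ideal.mem_span_singleton'.1 hbq
  obtain ⟨Q, hQ⟩ := mem_adjoin_singleton_iff.1 c.2
  have h2 : aeval x (Q * C w) = aeval x P := by
    rw [map_mul, aeval_C, hQ, ← hbP]
    exact congrArg Subtype.val hc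
  have h3 : Q * C w = P := by
    have := (transcendental_iff.1 hx) (Q * C w - P) (by rw [map_sub, h2, sub_self])
    exact sub_eq_zero.1 this
  rw [← h3, coeff_mul_C]
  exact dvd_mul_left _ _

end GoingDown

section Sheets

universe u

variable {R : Type u} [CommRing R] [IsDomain R] {F : Type u} [Field F] [Algebra R F]

/-- A valuation subring of `F` centred at a component of the special fibre of a semistable chart
is a sheet. -/
theorem isSheet_of_center [IsIntegrallyClosed R[X]] (w : R) (hw : Prime w) {x : F}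
    (hx : Transcendental R x) (B : Subalgebra R F)
    (hB : ∀ f : F, f ∈ B ↔ IsIntegral (Algebra.adjoin R ({x} : Set F)) f)
    (p p' : Ideal B) [hp : p.IsPrime] (hinf : p ⊓ p' = Ideal.span {algebraMap R B w})
    (hnle : ¬ p' ≤ p) (V : ValuationSubring F) (hBV : ∀ b ∈ B, b ∈ V)
    (hV : ∀ b : B, (b : F) ∈ V.nonunits ↔ b ∈ p) : IsSheet w x V := by
  have hAB : Algebra.adjoin R ({x} : Set F) ≤ B := fun y hy =>
    (hB y).2 (isIntegral_algebraMap (R := Algebra.adjoin R ({x} : Set F)) (x := ⟨y, hy⟩))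
  have hwp : algebraMap R B w ∈ p := by
    have : algebraMap R B w ∈ p ⊓ p' := by
      rw [hinf]
      exact Ideal.subset_span rfl
    exact this.1
  refine ⟨fun r => hBV _ (B.algebraMap_mem r), hBV _ (hAB (Algebra.subset_adjoin rfl)),
    (hV (algebraMap R B w)).2 hwp, ?_⟩
  intro P hP
  have hyB : aeval x P ∈ B := hAB (mem_adjoin_singleton_iff.2 ⟨P, rfl⟩)
  have hnot : aeval x P ∉ V.nonunits := by
    intro h
    have h1 : (⟨aeval x P, hyB⟩ : B) ∈ p := (hV ⟨aeval x P, hyB⟩).1 h
    obtain ⟨i, hi⟩ := hP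
    exact hi (coeff_dvd_of_mem_of_inf_eq w hw hx B hB p p' hinf hnle _ h1 P rfl i)
  rw [ValuationSubring.mem_nonunits_iff_or] at hnot
  by_contra h
  exact hnot (Or.inr h)

/-- **Base RED for one semistable chart.** -/
theorem baseRed_of_ssChart_one [IsIntegrallyClosed R[X]] (w : R) (hw : Prime w) {x : F}
    (hx : Transcendental R x) (B : Subalgebra R F)
    (hB : ∀ f : F, f ∈ B ↔ IsIntegral (Algebra.adjoin R ({x} : Set F)) f)
    (c : SSChart w B) (a : F) (ha : a ∈ B)
    (haV : ∀ V : ValuationSubring F, IsSheet w x V → a ∈ V.nonunits) :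
    ∃ t ∈ B, a = algebraMap R F w * t := by
  haveI := c.prime₁
  haveI := c.prime₂
  obtain ⟨V₁, hBV₁, hV₁⟩ := exists_valuationSubring_center B c.p₁
  obtain ⟨V₂, hBV₂, hV₂⟩ := exists_valuationSubring_center B c.p₂
  have hS₁ : IsSheet w x V₁ :=
    isSheet_of_center w hw hx B hB c.p₁ c.p₂ c.inf_eq c.not_le₂₁ V₁ hBV₁ hV₁
  have hS₂ : IsSheet w x V₂ :=
    isSheet_of_center w hw hx B hB c.p₂ c.p₁ (by rw [inf_comm]; exact c.inf_eq) c.not_le₁₂
      V₂ hBV₂ hV₂
  have h1 : (⟨a, ha⟩ : B) ∈ c.p₁ := (hV₁ ⟨a, ha⟩).1 (haV V₁ hS₁)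
  have h2 : (⟨a, ha⟩ : B) ∈ c.p₂ := (hV₂ ⟨a, ha⟩).1 (haV V₂ hS₂)
  have h3 : (⟨a, ha⟩ : B) ∈ c.p₁ ⊓ c.p₂ := ⟨h1, h2⟩
  rw [c.inf_eq] at h3
  obtain ⟨t, ht⟩ := Ideal.mem_span_singleton'.1 h3
  refine ⟨t, t.2, ?_⟩
  have := congrArg Subtype.val ht
  rw [mul_comm]
  exact this.symm

/-- A sheet for the coordinate `x⁻¹` is a sheet for the coordinate `x`. -/
theorem isSheet_of_isSheet_inv (w : R) {x : F} (hx0 : x ≠ 0) {V : ValuationSubring F}
    (hV : IsSheet w x⁻¹ V) : IsSheet w x V := by
  have hxV : x ∈ V := by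
    have := hV.inv_mem
    rwa [inv_inv] at this
  refine ⟨hV.1, hxV, hV.2.2.1, ?_⟩
  intro P hP
  have h1 : x ^ P.natDegree * aeval x⁻¹ (reflect P.natDegree P) = aeval x P := by
    have := Fermat.Agent.S18.H138.pow_mul_aeval_inv (R := R) hx0 (reflect P.natDegree P)
      (d := P.natDegree) (le_trans natDegree_reflect_le (by simp))
    rw [reflect_reflect] at this
    exact this
  have h2 : (aeval x⁻¹ (reflect P.natDegree P))⁻¹ ∈ V := by
    apply hV.2.2.2
    obtain ⟨i, hi⟩ := hP
    refine ⟨revAt P.natDegree i, ?_⟩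
    rw [coeff_reflect, revAt_invol]
    exact hi
  rw [← h1, mul_inv, ← inv_pow]
  exact V.mul_mem _ _ (pow_mem hV.2.1 _) h2

/-- **Base RED** from the two semistable charts. -/
theorem baseRed_of_ssChart [IsIntegrallyClosed R[X]] (w : R) (hw : Prime w) {x : F}
    (hx : Transcendental R x) (Bf Bi : Subalgebra R F)
    (hBf : ∀ f : F, f ∈ Bf ↔ IsIntegral (Algebra.adjoin R ({x} : Set F)) f)
    (hBi : ∀ f : F, f ∈ Bi ↔ IsIntegral (Algebra.adjoin R ({x⁻¹} : Set F)) f)
    (cf : SSChart w Bf) (ci : SSChart w Bi) : BaseRed w x := by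
  have hx0 : x ≠ 0 := Fermat.Agent.S18.H138.ne_zero_of_transcendental hx
  have hfin : ∀ a ∈ chart R ({x} : Set F),
      (∀ V : ValuationSubring F, IsSheet w x V → a ∈ V.nonunits) →
      ∃ t ∈ chart R ({x} : Set F), a = algebraMap R F w * t := by
    intro a ha haV
    obtain ⟨t, ht, hat⟩ := baseRed_of_ssChart_one w hw hx Bf hBf cf a ((hBf a).2 ha) haV
    exact ⟨t, (hBf t).1 ht, hat⟩
  intro T hT a ha haV
  rcases hT with rfl | rfl | rfl
  · exact hfin a ha haV
  · obtain ⟨t, ht, hat⟩ := baseRed_of_ssChart_one w hw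
      (Fermat.Agent.S18.H138.transcendental_inv hx) Bi hBi ci a ((hBi a).2 ha)
      (fun V hV => haV V (isSheet_of_isSheet_inv w hx0 hV))
    exact ⟨t, (hBi t).1 ht, hat⟩
  · obtain ⟨K, hK⟩ := Fermat.Agent.S18.H138.exists_pow_mul_mem_chart (R := R) hx0 ha
    obtain ⟨t, ht, hat⟩ := hfin _ hK (fun V hV =>
      mul_mem_nonunits_left V (pow_mem hV.2.1 K) (haV V hV))
    refine ⟨x⁻¹ ^ K * t, ?_, ?_⟩
    · refine Subalgebra.mul_mem _ (Subalgebra.pow_mem _ ?_ K) ?_
      · exact Fermat.Agent.S18.H138.mem_chart_of_mem (by simp)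
      · exact Fermat.Agent.S18.H138.chart_mono (by simp) ht
    · have hxK : x ^ K ≠ 0 := pow_ne_zero _ hx0
      have : a = x⁻¹ ^ K * (x ^ K * a) := by
        rw [inv_pow, ← mul_assoc, inv_mul_cancel₀ hxK, one_mul]
      rw [this, hat]
      ring

end Sheets

end Fermat.Agent.A2.H652

end
-- ===== PACK-END A2/H652/RedBase.lean

-- ===== PACK-BEGIN A2/H552/ConstLeaf.lean
section



/-!
# A2 / route G, leaf CONST (helper552)

Hand-in for the leaf `Fermat.Agent.A2.H12.ConstLeaf` of `H12/AlgLeaves.lean`: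

* `constConclusion_of_sheet` : the conclusion `ConstConclusion L x` for ANY finite extension
  `L / F` possessing ONE sheet `W` (valuation subring over the Gauss valuation) in which `w`
  generates the non-units (`e = 1`).  No Kummer hypothesis.
* `constLeaf_of_base_sheets : BaseLeaf → SheetsLeaf → ConstLeaf` : the leaf, from the conclusions
  `BaseConclusion.exists_sheet`, `SheetsConclusion.exists_over`, `SheetsConclusion.unif`.

The proof of `closed` is `mem_range_of_isAlgebraic_of_valuationSubring` (`H552/Const.lean`, HENS: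
`R` Henselian with algebraically closed residue field of characteristic zero fraction field);
`finite` is the tower `Frac R (x) ⊆ F ⊆ L`.
-/

set_option autoImplicit false

namespace Fermat.Agent.A2.H552

open Fermat.Agent.A2 Fermat.Agent.A2.H12
open Fermat.Agent.S18.H138 (baseField)

section Finite

variable {R E F L : Type*} [CommRing R] [Field E] [Algebra R E] [IsFractionRing R E]
  [Field F] [Algebra E F] [Algebra R F] [IsScalarTower R E F]
  [Field L] [Algebra F L] [Algebra R L] [IsScalarTower R F L]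

/-- The constants `E = Frac R` lie in the base field of the `x`-line of `L`. -/
theorem algebraMap_mem_baseField_cover (x : F) (e : E) :
    algebraMap F L (algebraMap E F e) ∈ baseField R (algebraMap F L x) := by
  obtain ⟨a, b, -, rfl⟩ := IsFractionRing.div_surjective (A := R) e
  rw [map_div₀, map_div₀, ← IsScalarTower.algebraMap_apply R E F,
    ← IsScalarTower.algebraMap_apply R E F, ← IsScalarTower.algebraMap_apply R F L,
    ← IsScalarTower.algebraMap_apply R F L]
  exact div_mem (Subfield.subset_closure (Or.inl ⟨a, rfl⟩))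
    (Subfield.subset_closure (Or.inl ⟨b, rfl⟩))

/-- `E(x) ⊆ F` maps into the base field of the `x`-line of `L`. -/
theorem algebraMap_mem_baseField_of_mem_adjoin (x : F) {z : F}
    (hz : z ∈ IntermediateField.adjoin E ({x} : Set F)) :
    algebraMap F L z ∈ baseField R (algebraMap F L x) := by
  have h : IntermediateField.adjoin E ({x} : Set F) ≤
      Subfield.toIntermediateField ((baseField R (algebraMap F L x)).comap (algebraMap F L))
        (fun e => algebraMap_mem_baseField_cover (R := R) (L := L) x e) := by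
    rw [IntermediateField.adjoin_le_iff]
    rintro y hy
    rw [Set.mem_singleton_iff] at hy
    subst hy
    exact Subfield.subset_closure (Or.inr rfl)
  exact h hz

/-- **CONST, finiteness part**: if `F` is finite over `E(x)` and `L` is finite over `F`, then `L`
is finite over the base field `Frac R (x)` of the `x`-line of `L`. -/
theorem finiteDimensional_baseField_cover (x : F)
    (hfin : FiniteDimensional (IntermediateField.adjoin E ({x} : Set F)) F)
    [FiniteDimensional F L] :
    FiniteDimensional (baseField R (algebraMap F L x)) L := by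
  let K := IntermediateField.adjoin E ({x} : Set F)
  let K' := baseField R (algebraMap F L x)
  have : Module.Finite K L := Module.Finite.trans F L
  let φ : K →+* K' :=
    { toFun := fun a => ⟨algebraMap F L a, algebraMap_mem_baseField_of_mem_adjoin (R := R) x a.2⟩
      map_one' := Subtype.ext (map_one _)
      map_mul' := fun a b => Subtype.ext (map_mul _ _ _)
      map_zero' := Subtype.ext (map_zero _)
      map_add' := fun a b => Subtype.ext (map_add _ _ _) }
  let _ : Algebra K K' := φ.toAlgebra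
  have : IsScalarTower K K' L := IsScalarTower.of_algebraMap_eq fun _ => rfl
  exact Module.Finite.of_restrictScalars_finite K K' L

end Finite

section Closed

variable {R E L : Type*} [CommRing R] [IsDomain R] [IsDiscreteValuationRing R]
  [HenselianLocalRing R] [IsAlgClosed (IsLocalRing.ResidueField R)]
  [Field E] [CharZero E] [Algebra R E] [IsFractionRing R E]
  [Field L] [Algebra E L] [Algebra R L] [IsScalarTower R E L]

variable (E) in
include E in
/-- **CONST, closedness part**: `R` is integrally closed in any extension `L` of `E = Frac R`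
possessing a valuation subring `W ⊇ R` in which `w` is a non-unit generating the non-units. -/
theorem isIntegral_mem_range_of_unramified (w : R) (hw : Irreducible w)
    (W : ValuationSubring L) (hRW : ∀ r : R, algebraMap R L r ∈ W)
    (hwW : algebraMap R L w ∈ W.nonunits)
    (hunif : ∀ a ∈ W.nonunits, ∃ b ∈ W, a = algebraMap R L w * b)
    (y : L) (hy : IsIntegral R y) : y ∈ Set.range (algebraMap R L) := by
  have hinjRL : Function.Injective (algebraMap R L) := by
    rw [IsScalarTower.algebraMap_eq R E L]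
    exact (algebraMap E L).injective.comp (IsFractionRing.injective R E)
  have hwL : algebraMap R L w ≠ 0 := fun h0 => hw.ne_zero (hinjRL (by rw [h0, map_zero]))
  have hwinv : (algebraMap R L w)⁻¹ ∉ W := by
    intro hmem
    have h1 := (ValuationSubring.mem_nonunits_iff W).1 hwW
    have h2 : W.valuation (algebraMap R L w)⁻¹ ≤ 1 := (W.valuation_le_one_iff _).2 hmem
    rw [map_inv₀] at h2
    have h3 : W.valuation (algebraMap R L w) ≠ 0 := (W.valuation.ne_zero_iff).2 hwL
    have h4 : (1 : W.ValueGroup) ≤ W.valuation (algebraMap R L w) := by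
      rwa [inv_le_one₀ (zero_lt_iff.2 h3)] at h2
    exact absurd h1 (not_lt.2 h4)
  have hgen : ∀ b ∈ W, b⁻¹ ∉ W → b * (algebraMap R L w)⁻¹ ∈ W := by
    intro b hb hbinv
    have hbn : b ∈ W.nonunits := by
      rw [ValuationSubring.mem_nonunits_iff W]
      rcases eq_or_ne b 0 with h0 | h0
      · rw [h0, map_zero]
        exact zero_lt_one
      · have h1 : W.valuation b ≤ 1 := (W.valuation_le_one_iff _).2 hb
        refine lt_of_le_of_ne h1 fun h2 => hbinv ?_
        rw [← W.valuation_le_one_iff, map_inv₀, h2, inv_one]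
    obtain ⟨c, hc, rfl⟩ := hunif b hbn
    rw [mul_comm, ← mul_assoc, inv_mul_cancel₀ hwL, one_mul]
    exact hc
  have hyalg : IsAlgebraic E y := (IsFractionRing.isAlgebraic_iff R E L).mp hy.isAlgebraic
  obtain ⟨e, rfl⟩ := mem_range_of_isAlgebraic_of_valuationSubring (E := E) w hw W hRW hwinv hgen
    y hyalg
  have he : IsIntegral R e := (isIntegral_algebraMap_iff (algebraMap E L).injective).mp hy
  obtain ⟨r, rfl⟩ := (IsIntegrallyClosed.isIntegral_iff (R := R) (K := E)).mp he
  exact ⟨r, IsScalarTower.algebraMap_apply R E L r⟩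

end Closed

section Leaf

/-- **CONST for a cover with one unramified sheet.**  `L / F` finite, `W` a sheet of `L` in which
`w` generates the non-units.  Then `R` is integrally closed in `L` and `L` is finite over
`Frac R (x)`. -/
theorem constConclusion_of_sheet {R E F : Type} [CommRing R] [IsDomain R]
    [IsDiscreteValuationRing R] [HenselianLocalRing R] [IsAlgClosed (IsLocalRing.ResidueField R)]
    [Field E] [CharZero E] [Algebra R E] [IsFractionRing R E]
    [Field F] [Algebra E F] [Algebra R F] [IsScalarTower R E F]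
    (w : R) (hw : Irreducible w) (x : F)
    (hfin : FiniteDimensional (IntermediateField.adjoin E ({x} : Set F)) F)
    (L : Type) [Field L] [Algebra F L] [Algebra R L] [IsScalarTower R F L]
    [FiniteDimensional F L]
    (W : ValuationSubring L) (hW : IsSheet w (algebraMap F L x) W)
    (hunif : ∀ a ∈ W.nonunits, ∃ b ∈ W, a = algebraMap R L w * b) :
    ConstConclusion (R := R) L x := by
  let _ : Algebra E L := ((algebraMap F L).comp (algebraMap E F)).toAlgebra
  have hEL : ∀ e : E, algebraMap E L e = algebraMap F L (algebraMap E F e) := fun _ => rfl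
  have : IsScalarTower R E L := IsScalarTower.of_algebraMap_eq fun r => by
    rw [hEL, ← IsScalarTower.algebraMap_apply R E F, ← IsScalarTower.algebraMap_apply R F L]
  exact
    { closed := fun y hy =>
        isIntegral_mem_range_of_unramified (E := E) w hw W hW.1 hW.2.2.1 hunif y hy
      finite := finiteDimensional_baseField_cover (R := R) (E := E) x hfin }

/-- **Leaf CONST** of route G, from the leaves BASE (existence of a sheet of `F`) and SHEETS
(existence of a sheet of `L` above it, with uniformiser `w`). -/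
theorem constLeaf_of_base_sheets (hB : BaseLeaf) (hS : SheetsLeaf) : ConstLeaf := by
  intro R E F _ _ _ _ _ _ _ _ _ _ _ _ _ w q m x Bf Bi τ τE τR ctx L _ _ _ _ hL
  obtain ⟨V, hV⟩ := (hB w q m x Bf Bi τ τE τR ctx).exists_sheet
  have hSh := hS w q m x Bf Bi τ τE τR ctx L hL
  obtain ⟨W, hW, -⟩ := hSh.exists_over V hV
  have := hL.finite
  exact constConclusion_of_sheet (E := E) w ctx.irr x ctx.fin L W hW (hSh.unif W hW)

end Leaf

end Fermat.Agent.A2.H552

end
-- ===== PACK-END A2/H552/ConstLeaf.lean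

-- ===== PACK-BEGIN A2/Mod/H13/Frame.lean
section





/-!
# WALL A2 / MODASM, S1 part 1 (helper13): from the leaves to helper489's FRAME

Level `N = M * q`, coordinate `x = j · j_q`, `V = V∞` (`IsVinf`), `V₀ = V.comap W` (`IsFricke`).
From the leaves L2 (`H553.vinfBasic`, main), L3 (`H816.vinfGauss`, main), L6, L8, L9, L10
(hypotheses) we produce the hypotheses of `H489.twoExtHyp_of_gauss`:

* `isOver_of_isVinf`, `isOver_comap`        : `V`, `V₀` lie over `R_E`;
* `isGaussOver_of_polar`                    : `IsGaussOver R V u` for every polar `u ∈ F_N`;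
* `isGaussOver_xE`, `isGaussOver_comap_xE`  : the Gauss property of `V`, `V₀` for `x`;
* `polyIndepMod_of_indepMod`                : `Mod.IndepMod ⟹ H489.PolyIndepMod`;
* `twoExtHyp_of_leaves`                     : `H489.TwoExtHyp E(x) (V ∩ E(x)) V V₀ b c`.
-/

set_option autoImplicit false
set_option linter.unusedSectionVars false
set_option linter.style.haveILetI false
set_option synthInstance.maxHeartbeats 400000
set_option maxHeartbeats 1600000

noncomputable section

namespace Fermat.Agent.A2.Mod.H13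

open ModularCurve HahnSeries Polynomial IntermediateField
open Fermat.Agent.A2 Fermat.Agent.A2.Mod

variable (P : ValuationSubring _root_.Fermat.Agent.A2.Mod.Qb) (E : IntermediateField ℚ _root_.Fermat.Agent.A2.Mod.Qb)

/-! ### Integer series with a pole of exact order -/

/-- An integer Laurent series is *polar of order `a`*: lowest term `t^(-a)` with coefficient `1`. -/
def IsPolarInt (g : LaurentSeries ℤ) (a : ℕ) : Prop :=
  (∀ n : ℤ, n < -(a : ℤ) → g.coeff n = 0) ∧ g.coeff (-(a : ℤ)) = 1

theorem IsPolarInt.order {g : LaurentSeries ℤ} {a : ℕ} (h : IsPolarInt g a) :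
    g.order = -(a : ℤ) := by
  have h1 : g.coeff (-(a : ℤ)) ≠ 0 := by rw [h.2]; exact one_ne_zero
  have hg : g ≠ 0 := by
    rintro rfl
    exact h1 (by simp)
  apply le_antisymm
  · exact order_le_of_coeff_ne_zero h1
  · by_contra hlt
    exact (HahnSeries.coeff_order_eq_zero.not.mpr hg) (h.1 _ (not_le.mp hlt))

theorem IsPolarInt.mul {g g' : LaurentSeries ℤ} {a a' : ℕ} (h : IsPolarInt g a)
    (h' : IsPolarInt g' a') : IsPolarInt (g * g') (a + a') := by
  have hg : g ≠ 0 := by
    rintro rfl
    have := h.2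
    simp at this
  have hg' : g' ≠ 0 := by
    rintro rfl
    have := h'.2
    simp at this
  have hord : (g * g').order = -((a + a' : ℕ) : ℤ) := by
    rw [HahnSeries.order_mul hg hg', h.order, h'.order]
    push_cast
    ring
  refine ⟨fun n hn => ?_, ?_⟩
  · apply HahnSeries.coeff_eq_zero_of_lt_order
    rw [hord]
    exact hn
  · have key := HahnSeries.coeff_mul_order_add_order g g'
    rw [HahnSeries.leadingCoeff_eq, HahnSeries.leadingCoeff_eq, h.order, h'.order, h.2, h'.2,
      mul_one] at key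
    rw [← key]
    congr 1
    push_cast
    ring

theorem isPolarInt_jInt (d : ℕ) [NeZero d] : IsPolarInt (H708.jInt d) d := by
  refine ⟨fun n hn => ?_, H553.coeff_jInt_top d⟩
  rw [H708.jInt, jqNModC]
  by_cases hdn : (d : ℤ) ∣ n
  · obtain ⟨k, rfl⟩ := hdn
    rw [qExpand_coeff_mul]
    apply coeff_jqModC_of_lt
    have hd : (0 : ℤ) < d := by exact_mod_cast Nat.pos_of_ne_zero (NeZero.ne d)
    by_contra hk
    have hk' : -1 ≤ k := not_lt.mp hk
    have : -(d : ℤ) ≤ (d : ℤ) * k := by nlinarith
    omega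
  · exact qExpand_coeff_of_not_dvd d _ hdn

/-! ### `V∞` and `V₀` lie over `R_E` -/

section Over

variable {P E} {N : ℕ} [IsDiscreteValuationRing (_root_.Fermat.Agent.A2.Mod.RE P E)]

theorem algebraMap_RE_eq (r : _root_.Fermat.Agent.A2.Mod.RE P E) :
    algebraMap (_root_.Fermat.Agent.A2.Mod.RE P E) (_root_.Fermat.Agent.A2.Mod.FE E N) r = algebraMap E (_root_.Fermat.Agent.A2.Mod.FE E N) (r : E) := rfl

theorem isOver_of_isVinf {V : ValuationSubring (_root_.Fermat.Agent.A2.Mod.FE E N)} (hV : IsVinf P E N V) :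
    H489.IsOver (_root_.Fermat.Agent.A2.Mod.RE P E) V where
  mem := fun r => (H553.algebraMap_mem_iff P E hV (r : E)).mpr r.2
  nonunit := fun r hr => by
    rw [ValuationSubring.mem_nonunits_iff_or]
    by_cases h0 : r = 0
    · left
      rw [h0, map_zero]
    · right
      intro hmem
      have hr0 : (r : E) ≠ 0 := fun h => h0 (Subtype.ext h)
      have e : (algebraMap (_root_.Fermat.Agent.A2.Mod.RE P E) (_root_.Fermat.Agent.A2.Mod.FE E N) r)⁻¹ = algebraMap E (_root_.Fermat.Agent.A2.Mod.FE E N) ((r : E)⁻¹) := by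
        rw [algebraMap_RE_eq, map_inv₀]
      rw [e, H553.algebraMap_mem_iff P E hV] at hmem
      have hu : IsUnit r :=
        isUnit_iff_exists_inv.mpr ⟨⟨_, hmem⟩, Subtype.ext (mul_inv_cancel₀ hr0)⟩
      exact (IsLocalRing.mem_maximalIdeal r).mp hr hu

/-- Nonunits of the pull-back of a valuation ring along an automorphism. -/
theorem mem_nonunits_comap {F : Type*} [Field F] (V : ValuationSubring F) (W : F →+* F) (f : F) :
    f ∈ (V.comap W).nonunits ↔ W f ∈ V.nonunits := by
  rw [ValuationSubring.mem_nonunits_iff_or, ValuationSubring.mem_nonunits_iff_or,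
    ValuationSubring.mem_comap]
  constructor
  · rintro (h | h)
    · left
      rw [h, map_zero]
    · right
      intro h'
      apply h
      show W f⁻¹ ∈ V
      rw [map_inv₀]
      exact h'
  · rintro (h | h)
    · left
      exact (map_eq_zero W).mp h
    · right
      intro h'
      apply h
      have h'' : W f⁻¹ ∈ V := h'
      rwa [map_inv₀] at h''

theorem isOver_comap {V : ValuationSubring (_root_.Fermat.Agent.A2.Mod.FE E N)} (hV : IsVinf P E N V)
    (W : _root_.Fermat.Agent.A2.Mod.FE E N ≃ₐ[E] _root_.Fermat.Agent.A2.Mod.FE E N) :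
    H489.IsOver (_root_.Fermat.Agent.A2.Mod.RE P E) (V.comap (W : _root_.Fermat.Agent.A2.Mod.FE E N →+* _root_.Fermat.Agent.A2.Mod.FE E N)) where
  mem := fun r => by
    rw [ValuationSubring.mem_comap]
    show W (algebraMap (_root_.Fermat.Agent.A2.Mod.RE P E) (_root_.Fermat.Agent.A2.Mod.FE E N) r) ∈ V
    rw [algebraMap_RE_eq, W.commutes]
    exact (isOver_of_isVinf hV).mem r
  nonunit := fun r hr => by
    rw [mem_nonunits_comap]
    show W (algebraMap (_root_.Fermat.Agent.A2.Mod.RE P E) (_root_.Fermat.Agent.A2.Mod.FE E N) r) ∈ V.nonunits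
    rw [algebraMap_RE_eq, W.commutes]
    exact (isOver_of_isVinf hV).nonunit r hr

end Over

/-! ### The Gauss property for polar elements -/

section Gauss

variable {P E} {N : ℕ} [IsDiscreteValuationRing (_root_.Fermat.Agent.A2.Mod.RE P E)]

variable (E N) in
/-- `u ∈ F_N` is *polar of order `a`*: its `t`-expansion is an integer series with lowest term
`t^(-a)`. -/
def IsPolar (u : _root_.Fermat.Agent.A2.Mod.FE E N) (a : ℕ) : Prop :=
  ∃ g : LaurentSeries ℤ, IsPolarInt g a ∧ (u : LaurentSeries E) = coeffEmb E (H708.castQ g)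

theorem IsPolar.mul {u u' : _root_.Fermat.Agent.A2.Mod.FE E N} {a a' : ℕ} (h : IsPolar E N u a) (h' : IsPolar E N u' a') :
    IsPolar E N (u * u') (a + a') := by
  obtain ⟨g, hg, e⟩ := h
  obtain ⟨g', hg', e'⟩ := h'
  refine ⟨g * g', hg.mul hg', ?_⟩
  rw [map_mul, map_mul, ← e, ← e']
  rfl

theorem isPolar_jE (d : ℕ) [NeZero d] (hd : d ∣ N) : IsPolar E N (jE E N d hd) d :=
  ⟨H708.jInt d, isPolarInt_jInt d, H553.coe_jE N d hd⟩

theorem ev_eq_aeval (u : _root_.Fermat.Agent.A2.Mod.FE E N) (p : Polynomial (_root_.Fermat.Agent.A2.Mod.RE P E)) : ev P E N u p = aeval u p := rfl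

theorem not_C_dvd_of_map_ne_zero {w : _root_.Fermat.Agent.A2.Mod.RE P E} (hw : Irreducible w) {p : Polynomial (_root_.Fermat.Agent.A2.Mod.RE P E)}
    (hp : p.map (IsLocalRing.residue (_root_.Fermat.Agent.A2.Mod.RE P E)) ≠ 0) : ¬ Polynomial.C w ∣ p := by
  rintro ⟨Q, rfl⟩
  apply hp
  rw [Polynomial.map_mul, Polynomial.map_C]
  have : IsLocalRing.residue (_root_.Fermat.Agent.A2.Mod.RE P E) w = 0 := by
    rw [IsLocalRing.residue_eq_zero_iff]
    exact (IsLocalRing.mem_maximalIdeal w).mpr hw.not_isUnit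
  rw [this, map_zero, zero_mul]

/-- **Gauss property** of `V∞` for a polar element. -/
theorem isGaussOver_of_polar {V : ValuationSubring (_root_.Fermat.Agent.A2.Mod.FE E N)} (hV : IsVinf P E N V)
    {w : _root_.Fermat.Agent.A2.Mod.RE P E} (hw : Irreducible w) (hN : N ≠ 0) {u : _root_.Fermat.Agent.A2.Mod.FE E N} {a : ℕ} (ha : 0 < a)
    (hu : IsPolar E N u a) (htr : Transcendental (_root_.Fermat.Agent.A2.Mod.RE P E) u) :
    H489.IsGaussOver (_root_.Fermat.Agent.A2.Mod.RE P E) V u where
  isOver := isOver_of_isVinf hV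
  mem := by
    obtain ⟨g, -, e⟩ := hu
    exact H553.mem_of_int hV e
  prim := by
    intro p hp
    by_contra hne
    obtain ⟨g, hg, e⟩ := hu
    have hp0 : p ≠ 0 := by
      rintro rfl
      exact hne (Polynomial.map_zero _)
    have h3 := H816.vinfGauss P E w N hN inferInstance hw V hV u (H708.castA (_root_.Fermat.Agent.A2.Mod.RE P E) g) a ha
      (by rw [e]; exact H553.coeffEmb_castQ (P := P) g)
      (fun n hn => by
        show ((g.coeff n : ℤ) : _root_.Fermat.Agent.A2.Mod.RE P E) = 0
        rw [hg.1 n hn, Int.cast_zero])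
      (by
        have : (H708.castA (_root_.Fermat.Agent.A2.Mod.RE P E) g).coeff (-(a : ℤ)) = 1 := by
          show ((g.coeff (-(a : ℤ)) : ℤ) : _root_.Fermat.Agent.A2.Mod.RE P E) = 1
          rw [hg.2, Int.cast_one]
        rw [this]
        exact isUnit_one)
      p (not_C_dvd_of_map_ne_zero hw hne)
    rw [ev_eq_aeval] at h3
    rcases (ValuationSubring.mem_nonunits_iff_or V).mp hp with h0 | h0
    · exact htr ⟨p, hp0, h0⟩
    · exact h0 h3.2

/-- transport of the Gauss property along an `E`-automorphism. -/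
theorem isGaussOver_comap {V : ValuationSubring (_root_.Fermat.Agent.A2.Mod.FE E N)} (hV : IsVinf P E N V)
    (W : _root_.Fermat.Agent.A2.Mod.FE E N ≃ₐ[E] _root_.Fermat.Agent.A2.Mod.FE E N) {u : _root_.Fermat.Agent.A2.Mod.FE E N} (h : H489.IsGaussOver (_root_.Fermat.Agent.A2.Mod.RE P E) V (W u)) :
    H489.IsGaussOver (_root_.Fermat.Agent.A2.Mod.RE P E) (V.comap (W : _root_.Fermat.Agent.A2.Mod.FE E N →+* _root_.Fermat.Agent.A2.Mod.FE E N)) u where
  isOver := isOver_comap hV W
  mem := h.mem
  prim := by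
    intro p hp
    apply h.prim p
    rw [mem_nonunits_comap] at hp
    have e : W (aeval u p) = aeval (W u) p := by
      have := Polynomial.aeval_algHom_apply (W.toAlgHom.restrictScalars (_root_.Fermat.Agent.A2.Mod.RE P E)) u p
      exact this.symm
    rw [← e]
    exact hp

theorem transcendental_RE {u : _root_.Fermat.Agent.A2.Mod.FE E N} (h : Transcendental E u) : Transcendental (_root_.Fermat.Agent.A2.Mod.RE P E) u :=
  h.restrictScalars (fun a b hab => Subtype.ext hab)

theorem transcendental_algEquiv (W : _root_.Fermat.Agent.A2.Mod.FE E N ≃ₐ[E] _root_.Fermat.Agent.A2.Mod.FE E N) {u : _root_.Fermat.Agent.A2.Mod.FE E N}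
    (h : Transcendental E u) : Transcendental E (W u) := by
  rintro ⟨p, hp0, hp⟩
  apply h
  refine ⟨p, hp0, ?_⟩
  have e := Polynomial.aeval_algHom_apply W.toAlgHom u p
  have e' : W (aeval u p) = 0 := by
    rw [← hp]
    exact e.symm
  exact (map_eq_zero_iff W W.injective).mp e'

end Gauss

/-! ### The coordinate `x = j · j_q` -/

section Coordinate

variable {P E} (M q : ℕ) [NeZero M] [NeZero q] [IsDiscreteValuationRing (_root_.Fermat.Agent.A2.Mod.RE P E)]

theorem isPolar_xE : IsPolar E (M * q) (xE E M q) (1 + q) :=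
  (isPolar_jE 1 (one_dvd _)).mul (isPolar_jE q (dvd_mul_left q M))

theorem isPolar_fricke_xE {W : _root_.Fermat.Agent.A2.Mod.FE E (M * q) ≃ₐ[E] _root_.Fermat.Agent.A2.Mod.FE E (M * q)} (hW : IsFricke E (M * q) W) :
    IsPolar E (M * q) (W (xE E M q)) (M * q + M) := by
  have h1 : W (jE E (M * q) 1 (one_dvd _)) = jE E (M * q) (M * q) (dvd_refl _) :=
    hW.1 1 (M * q) (one_dvd _) (dvd_refl _) (one_mul _)
  have h2 : W (jE E (M * q) q (dvd_mul_left q M)) = jE E (M * q) M (dvd_mul_right M q) :=
    hW.1 q M (dvd_mul_left q M) (dvd_mul_right M q) (mul_comm q M)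
  rw [xE, map_mul, h1, h2]
  exact (isPolar_jE (M * q) (dvd_refl _)).mul (isPolar_jE M (dvd_mul_right M q))

variable {M q}

/-- `V∞` induces the Gauss valuation on `E(x)`. -/
theorem isGaussOver_xE {w : _root_.Fermat.Agent.A2.Mod.RE P E} (hw : Irreducible w)
    {V : ValuationSubring (_root_.Fermat.Agent.A2.Mod.FE E (M * q))} (hV : IsVinf P E (M * q) V)
    (htr : Transcendental E (xE E M q)) :
    H489.IsGaussOver (_root_.Fermat.Agent.A2.Mod.RE P E) V (xE E M q) :=
  isGaussOver_of_polar hV hw (NeZero.ne _) (by omega) (isPolar_xE M q) (transcendental_RE htr)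

/-- `V₀ = V∞ ∘ W` induces the Gauss valuation on `E(x)`. -/
theorem isGaussOver_comap_xE {w : _root_.Fermat.Agent.A2.Mod.RE P E} (hw : Irreducible w)
    {V : ValuationSubring (_root_.Fermat.Agent.A2.Mod.FE E (M * q))} (hV : IsVinf P E (M * q) V)
    {W : _root_.Fermat.Agent.A2.Mod.FE E (M * q) ≃ₐ[E] _root_.Fermat.Agent.A2.Mod.FE E (M * q)} (hW : IsFricke E (M * q) W)
    (htr : Transcendental E (xE E M q)) :
    H489.IsGaussOver (_root_.Fermat.Agent.A2.Mod.RE P E) (V.comap (W : _root_.Fermat.Agent.A2.Mod.FE E (M * q) →+* _root_.Fermat.Agent.A2.Mod.FE E (M * q))) (xE E M q) :=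
  isGaussOver_comap hV W
    (isGaussOver_of_polar hV hw (NeZero.ne _)
      (Nat.add_pos_right _ (Nat.pos_of_ne_zero (NeZero.ne M)))
      (isPolar_fricke_xE M q hW) (transcendental_RE (transcendental_algEquiv W htr)))

end Coordinate

/-! ### Independence and the final frame -/

section Indep

variable {P E} {N : ℕ} [IsDiscreteValuationRing (_root_.Fermat.Agent.A2.Mod.RE P E)]

theorem inW_iff_mem_nonunits {V : ValuationSubring (_root_.Fermat.Agent.A2.Mod.FE E N)} {w : _root_.Fermat.Agent.A2.Mod.RE P E}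
    (hu : H48.IsUnif V (cE P E N w)) (f : _root_.Fermat.Agent.A2.Mod.FE E N) : InW P E N V w f ↔ f ∈ V.nonunits := by
  rw [InW, hu.mul_inv_mem_iff, ValuationSubring.mem_nonunits_iff]

theorem isUnif_comap {V : ValuationSubring (_root_.Fermat.Agent.A2.Mod.FE E N)} {w : _root_.Fermat.Agent.A2.Mod.RE P E}
    (hu : H48.IsUnif V (cE P E N w)) (W : _root_.Fermat.Agent.A2.Mod.FE E N ≃ₐ[E] _root_.Fermat.Agent.A2.Mod.FE E N) :
    H48.IsUnif (V.comap (W : _root_.Fermat.Agent.A2.Mod.FE E N →+* _root_.Fermat.Agent.A2.Mod.FE E N)) (cE P E N w) := by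
  have hW : W (cE P E N w) = cE P E N w := W.commutes _
  have hWi : W (cE P E N w)⁻¹ = (cE P E N w)⁻¹ := by rw [map_inv₀, hW]
  refine ⟨?_, ?_, ?_⟩
  · show W (cE P E N w) ∈ V
    rw [hW]
    exact hu.mem
  · intro h
    have h' : W (cE P E N w)⁻¹ ∈ V := h
    rw [hWi] at h'
    exact hu.inv_not_mem h'
  · intro f hf hfi
    show W (f * (cE P E N w)⁻¹) ∈ V
    rw [map_mul, hWi]
    refine hu.gen (W f) hf ?_
    intro h
    apply hfi
    show W f⁻¹ ∈ V
    rw [map_inv₀]
    exact h

theorem polyIndepMod_of_indepMod {V : ValuationSubring (_root_.Fermat.Agent.A2.Mod.FE E N)} {w : _root_.Fermat.Agent.A2.Mod.RE P E}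
    (hw : Irreducible w) (hu : H48.IsUnif V (cE P E N w)) {x : _root_.Fermat.Agent.A2.Mod.FE E N} {n : ℕ}
    {b : Fin n → _root_.Fermat.Agent.A2.Mod.FE E N} (h : IndepMod P E N V w x b) :
    H489.PolyIndepMod (_root_.Fermat.Agent.A2.Mod.RE P E) V x b := by
  intro a ha i
  have h1 := h a ((inW_iff_mem_nonunits hu _).mpr ha) i
  by_contra hne
  exact not_C_dvd_of_map_ne_zero hw hne h1

end Indep

section Final

variable {P E} {M q : ℕ} [NeZero M] [NeZero q] {w : _root_.Fermat.Agent.A2.Mod.RE P E}

/-- **The frame for `X₀(Mq)`**: from the leaves L2, L3 (main) and L6, L8, L9, L10 (hypotheses),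
the two valuation rings `V∞`, `V₀ = V∞ ∘ W` satisfy `H489.TwoExtHyp` over the Gauss ring of
`E(x)`, `x = j · j_q`. -/
theorem twoExtHyp_of_leaves (hS : Setting P E M q w)
    (V : ValuationSubring (_root_.Fermat.Agent.A2.Mod.FE E (M * q))) (W : _root_.Fermat.Agent.A2.Mod.FE E (M * q) ≃ₐ[E] _root_.Fermat.Agent.A2.Mod.FE E (M * q))
    (hV : IsVinf P E (M * q) V) (hW : IsFricke E (M * q) W)
    (hL6 : VzeroNeStatement P E M q w) (hL8 : DegStatement E M q)
    (hL9 : IndInfStatement P E M q w) (hL10 : IndZeroStatement P E M q w) :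
    haveI := hS.dvr
    ∃ (b c : Fin ((q + 1) * dedekindPsi M) → _root_.Fermat.Agent.A2.Mod.FE E (M * q))
      (_ : IsDiscreteValuationRing (H489.gaussRing E V (xE E M q))),
      H489.TwoExtHyp (IntermediateField.adjoin E ({xE E M q} : Set (_root_.Fermat.Agent.A2.Mod.FE E (M * q))))
        (H489.gaussRing E V (xE E M q)) V
        (V.comap (W : _root_.Fermat.Agent.A2.Mod.FE E (M * q) →+* _root_.Fermat.Agent.A2.Mod.FE E (M * q))) b c := by
  haveI := hS.dvr
  obtain ⟨htr, hfr, -⟩ := hL8 hS.q_prime hS.q_not_dvd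
  obtain ⟨b, hb, hbI⟩ := hL9 hS V hV
  obtain ⟨c, hc, hcI⟩ := hL10 hS V W hV hW
  have hu : H48.IsUnif V (cE P E (M * q) w) :=
    (H553.vinfBasic P E w (M * q) (NeZero.ne _) hS.dvr hS.unif V hV).1
  have hG₁ := isGaussOver_xE hS.unif hV htr
  have hG₂ := isGaussOver_comap_xE hS.unif hV hW htr
  have hdvr : IsDiscreteValuationRing (H489.gaussRing E V (xE E M q)) :=
    hG₁.isDiscreteValuationRing
  refine ⟨b, c, hdvr, ?_⟩
  exact H489.twoExtHyp_of_gauss hG₁ hG₂ (fun h => hL6 hS V W hV hW h.symm) hb hc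
    (polyIndepMod_of_indepMod hS.unif hu hbI)
    (polyIndepMod_of_indepMod hS.unif (isUnif_comap hu W) hcI)
    (by rw [hfr, two_mul])

end Final


end Fermat.Agent.A2.Mod.H13

end
end
-- ===== PACK-END A2/Mod/H13/Frame.lean

-- ===== PACK-BEGIN A2/Mod/H142/S2Side.lean
section



/-!
# A2 / MODASM S2 — one component (helper142)

`normal_side` : for a valuation subring `V'` of `F_{Mq}` (`V∞` or `V₀`) with uniformiser `w` and a
degeneracy map `γ : F_M → F_{Mq}` (`α` or `β`) such that

* `γ V∞_M ⊆ V'`, residue degree one (`V' = γ V∞_M + w V'`),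
* `y ≡ γ (y_M ^ (q+1)) mod w V'`, `γ y_M ∈ chartAlg y`,
* good reduction at level `M` in the chart of `y_M`,

the component `chartAlg y ⧸ (chartAlg y ∩ w V')` is integrally closed.
-/

set_option autoImplicit false
set_option synthInstance.maxHeartbeats 400000
set_option maxHeartbeats 1600000
set_option linter.unusedSectionVars false
set_option linter.style.haveILetI false

noncomputable section

namespace Fermat.Agent.A2.Mod.H142

open ModularCurve HahnSeries Polynomial

variable (P : ValuationSubring _root_.Fermat.Agent.A2.Mod.Qb) (E : IntermediateField ℚ _root_.Fermat.Agent.A2.Mod.Qb)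

section Chart

variable (N : ℕ)

/-- `chart` (Spec) and `chartAlg` (Asm) have the same elements. -/
theorem mem_chart_iff (y f : _root_.Fermat.Agent.A2.Mod.FE E N) : f ∈ chart P E N y ↔ f ∈ chartAlg P E N y :=
  (isIntegral_adjoin_iff (R := _root_.Fermat.Agent.A2.Mod.RE P E) y f).symm

theorem self_mem_chartAlg (y : _root_.Fermat.Agent.A2.Mod.FE E N) : y ∈ chartAlg P E N y := by
  rw [mem_chartAlg]
  have h : y = algebraMap (Algebra.adjoin (_root_.Fermat.Agent.A2.Mod.RE P E) ({y} : Set (_root_.Fermat.Agent.A2.Mod.FE E N))) (_root_.Fermat.Agent.A2.Mod.FE E N)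
      ⟨y, Algebra.subset_adjoin (Set.mem_singleton y)⟩ := rfl
  rw [h]
  exact isIntegral_algebraMap

end Chart

variable (M q : ℕ) [NeZero M] [NeZero q] (w : _root_.Fermat.Agent.A2.Mod.RE P E)

/-- **One component is normal.** -/
theorem normal_side (hS : Setting P E M q w)
    (VM : ValuationSubring (_root_.Fermat.Agent.A2.Mod.FE E M)) (hVM : IsVinf P E M VM)
    (V' : ValuationSubring (_root_.Fermat.Agent.A2.Mod.FE E (M * q))) (hU' : H48.IsUnif V' (cE P E (M * q) w))
    (hRV' : ∀ r : _root_.Fermat.Agent.A2.Mod.RE P E, algebraMap (_root_.Fermat.Agent.A2.Mod.RE P E) (_root_.Fermat.Agent.A2.Mod.FE E (M * q)) r ∈ V')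
    (γ : _root_.Fermat.Agent.A2.Mod.FE E M →ₐ[E] _root_.Fermat.Agent.A2.Mod.FE E (M * q))
    (hγV : ∀ g ∈ VM, γ g ∈ V')
    (hres : ∀ f ∈ V', ∃ g ∈ VM, InW P E (M * q) V' w (f - γ g))
    (yM : _root_.Fermat.Agent.A2.Mod.FE E M) (y : _root_.Fermat.Agent.A2.Mod.FE E (M * q))
    (hyM : yM ∈ VM) (hy : y ∈ V')
    (hcong : InW P E (M * q) V' w (y - γ (yM ^ (q + 1))))
    (hγy : γ yM ∈ chartAlg P E (M * q) y)
    (hgood : GoodRedAt P E M w VM yM)
    (p : Ideal (chartAlg P E (M * q) y))
    (hp : IsCut P E (M * q) w V' (chartAlg P E (M * q) y) p) :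
    IsIntegrallyClosed (chartAlg P E (M * q) y ⧸ p) := by
  have hdvr := hS.dvr
  have hL2M := H553.vinfBasic P E w M hS.M_ne_zero hdvr hS.unif VM hVM
  have hUM : H48.IsUnif VM (cE P E M w) := hL2M.1
  have hRVM : ∀ r : _root_.Fermat.Agent.A2.Mod.RE P E, algebraMap (_root_.Fermat.Agent.A2.Mod.RE P E) (_root_.Fermat.Agent.A2.Mod.FE E M) r ∈ VM := fun r =>
    (hL2M.2.1 (r : E)).mpr r.2
  have hγR : ∀ r : _root_.Fermat.Agent.A2.Mod.RE P E, (γ : _root_.Fermat.Agent.A2.Mod.FE E M →+* _root_.Fermat.Agent.A2.Mod.FE E (M * q)) (algebraMap (_root_.Fermat.Agent.A2.Mod.RE P E) (_root_.Fermat.Agent.A2.Mod.FE E M) r) =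
      algebraMap (_root_.Fermat.Agent.A2.Mod.RE P E) (_root_.Fermat.Agent.A2.Mod.FE E (M * q)) r := fun r => γ.commutes (r : E)
  have hγc : γ (cE P E M w) = cE P E (M * q) w := γ.commutes (w : E)
  -- the charts lie in the valuation rings
  have hB₀ : ∀ b ∈ chartAlg P E M yM, b ∈ VM := fun b hb =>
    mem_valuationSubring_of_isIntegral_adjoin VM hRVM hyM ((mem_chartAlg P E M).1 hb)
  have hB : ∀ b ∈ chartAlg P E (M * q) y, b ∈ V' := fun b hb =>
    mem_valuationSubring_of_isIntegral_adjoin V' hRV' hy ((mem_chartAlg P E (M * q)).1 hb)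
  have hγB : ∀ b ∈ chartAlg P E M yM, (γ : _root_.Fermat.Agent.A2.Mod.FE E M →+* _root_.Fermat.Agent.A2.Mod.FE E (M * q)) b ∈ chartAlg P E (M * q) y :=
    fun b hb => (mem_chartAlg P E (M * q)).2
      (isIntegral_adjoin_map (γ : _root_.Fermat.Agent.A2.Mod.FE E M →+* _root_.Fermat.Agent.A2.Mod.FE E (M * q)) hγR
        ((mem_chartAlg P E (M * q)).1 hγy) ((mem_chartAlg P E M).1 hb))
  have hγp : ∀ g : _root_.Fermat.Agent.A2.Mod.FE E M, VM.valuation g < 1 →
      V'.valuation ((γ : _root_.Fermat.Agent.A2.Mod.FE E M →+* _root_.Fermat.Agent.A2.Mod.FE E (M * q)) g) < 1 := by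
    intro g hg
    rw [← inW_iff hUM] at hg
    rw [← inW_iff hU']
    unfold InW at hg ⊢
    have h1 := hγV _ hg
    rw [map_mul, map_inv₀, hγc] at h1
    exact h1
  have hres' : ∀ f ∈ V', ∃ g ∈ VM,
      V'.valuation (f - (γ : _root_.Fermat.Agent.A2.Mod.FE E M →+* _root_.Fermat.Agent.A2.Mod.FE E (M * q)) g) < 1 := by
    intro f hf
    obtain ⟨g, hg, hfg⟩ := hres f hf
    exact ⟨g, hg, (inW_iff hU' _).1 hfg⟩
  have hnorm₀ : NormalIn VM ((chartAlg P E M yM : Subalgebra (_root_.Fermat.Agent.A2.Mod.RE P E) (_root_.Fermat.Agent.A2.Mod.FE E M)) : Set (_root_.Fermat.Agent.A2.Mod.FE E M)) := by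
    intro f hf ⟨n, c, hc, hrel⟩
    obtain ⟨b, hb, hfb⟩ := hgood.normal f hf
      ⟨n, c, fun i => (mem_chart_iff P E M yM (c i)).2 (hc i), (inW_iff hUM _).2 hrel⟩
    exact ⟨b, (mem_chart_iff P E M yM b).1 hb, (inW_iff hUM _).1 hfb⟩
  have hint := isIntegralElem_of_coord (γ : _root_.Fermat.Agent.A2.Mod.FE E M →+* _root_.Fermat.Agent.A2.Mod.FE E (M * q)) hγR V'
    (chartAlg P E M yM) (chartAlg P E (M * q) y) hB hγB y (self_mem_chartAlg P E (M * q) y)
    (yM ^ (q + 1)) (pow_mem (self_mem_chartAlg P E M yM) _) ((inW_iff hU' _).1 hcong)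
    (fun b hb => (mem_chartAlg P E (M * q)).1 hb)
  have hnorm : NormalIn V'
      ((chartAlg P E (M * q) y : Subalgebra (_root_.Fermat.Agent.A2.Mod.RE P E) (_root_.Fermat.Agent.A2.Mod.FE E (M * q))) : Set (_root_.Fermat.Agent.A2.Mod.FE E (M * q))) :=
    normalIn_transfer (γ : _root_.Fermat.Agent.A2.Mod.FE E M →+* _root_.Fermat.Agent.A2.Mod.FE E (M * q)) VM V' hγV hγp
      (chartAlg P E M yM) (chartAlg P E (M * q) y) hB₀ hB hγB hres' hint hnorm₀
  exact isIntegrallyClosed_quotient_of_normal V' (chartAlg P E (M * q) y) hB p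
    (fun b => (hp b).trans (inW_iff hU' _)) hnorm

end Fermat.Agent.A2.Mod.H142

end
end
-- ===== PACK-END A2/Mod/H142/S2Side.lean

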