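import Mathlib
import Fermat.Agent.Pack.S36.E14L0
import Fermat.Agent.Pack.S36.E14L3
import Fermat.Agent.Pack.S36.E11L0
import Fermat.Agent.Pack.S36.E14L1
import Fermat.Agent.Pack.S36.E14L2
import Fermat.Agent.Pack.S36.E13L0
import Fermat.Agent.Pack.S36.E8L0
import Fermat.Agent.Pack.S36.E8L3
import Fermat.Agent.Pack.S36.E8L2
import Fermat.Agent.Pack.S36.E11L1
import Fermat.Agent.Pack.S36.E11L2
import Fermat.Agent.Pack.S36.E11L3
import Fermat.Agent.Pack.S36.E3L3
import Fermat.Agent.Pack.S36.E9L0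

-- ===== PACK-BEGIN S18/Mod/H216/IntegJ.lean
section


/-!
# S18 / MOD (helper216): integrality of the S28 monomials over `Rc[j]`, and G-V, G-QEP for `x = j`

* `isIntegral_jd` : `j(q^d)` is integral over `Rc[j]` (from `CoreData.integral`).
* `isIntegral_toOm_yInt` : the monomials `yᵢ ∈ ℤ[j_d : d ∣ M]` are integral over `Rc[j]`.
* `partV_j`, `partQep_j` : `PartV`, `PartQep` for `(Fc M E, Rc M A E, Vc M A E, w, jOm M)` from
  `CoreData M κ`, `κ` the residue field of `A`.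
-/

set_option autoImplicit false
set_option linter.unusedSectionVars false

noncomputable section

namespace Fermat.Agent.S18.Mod.H216

open ModularCurve AlgebraicCurve HahnSeries Polynomial Fermat.Agent.S18 Fermat.Agent.S18.Mod
open Fermat.Agent.S28 Fermat.Agent.S18.Alg

variable {M : ℕ} [NeZero M] (A : ValuationSubring Qb) (E : IntermediateField ℚ Qb)

/-- `ℤ((q)) → Q̄((q))`. -/
abbrev phiZ : LaurentSeries ℤ →+* LaurentSeries Qb := coeffMap (Int.castRingHom Qb)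

theorem coe_jd_eq_phiZ (d : ℕ) [NeZero d] (hd : d ∣ M) :
    ((jd M d hd : Om M) : LaurentSeries Qb) = phiZ (qExpand ℤ d (jqModC ℤ)) := by
  rw [coe_jd, coeffEmb, coeffMap_qExpand, coeffMap_qExpand, ← jqModC_rat, coeffMap_jqModC,
    coeffMap_jqModC]

theorem intCast_mem_Rc (k : ℤ) : (k : Om M) ∈ Rc M A E := intCast_mem _ k

theorem aeval_jOm_mem_polyRing (g : Polynomial ℤ) :
    Polynomial.aeval (jOm M) g ∈ polyRing (Rc M A E) (jOm M) := by
  rw [Polynomial.aeval_eq_sum_range]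
  refine sum_mem fun i _ => ?_
  rw [zsmul_eq_mul]
  exact mul_mem (le_polyRing _ _ (intCast_mem_Rc A E _)) (pow_mem (self_mem_polyRing _ _) i)

/-- `ℤ[X] → Rc[j]`. -/
def psiZ : Polynomial ℤ →+* ↥(polyRing (Rc M A E) (jOm M)) :=
  (Polynomial.aeval (R := ℤ) (jOm M)).toRingHom.codRestrict (polyRing (Rc M A E) (jOm M))
    (aeval_jOm_mem_polyRing A E)

theorem omVal_comp_aeval :
    (omVal M).comp (Polynomial.aeval (R := ℤ) (jOm M)).toRingHom =
      phiZ.comp (evalAt (jqModC ℤ)) := by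
  apply Polynomial.ringHom_ext
  · intro k
    simp
  · simp only [RingHom.comp_apply, AlgHom.toRingHom_eq_coe, RingHom.coe_coe, Polynomial.aeval_X,
      omVal_apply]
    rw [coe_jOm, coeffMap_jqModC]

theorem isIntegral_jd
    (hint : ∀ (d : ℕ) [NeZero d], d ∣ M → ∃ P : Polynomial (Polynomial ℤ), P.Monic ∧
      P.eval₂ (evalAt (jqModC ℤ)) (qExpand ℤ d (jqModC ℤ)) = 0)
    (d : ℕ) [NeZero d] (hd : d ∣ M) :
    IsIntegral (polyRing (Rc M A E) (jOm M)) (jd M d hd) := by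
  obtain ⟨P, hmonic, hroot⟩ := hint d hd
  refine ⟨P.map (psiZ A E), hmonic.map _, ?_⟩
  rw [Polynomial.eval₂_map]
  have hcomp : (algebraMap ↥(polyRing (Rc M A E) (jOm M)) (Om M)).comp (psiZ A E) =
      (Polynomial.aeval (R := ℤ) (jOm M)).toRingHom := rfl
  rw [hcomp]
  apply omVal_injective M
  rw [map_zero, Polynomial.hom_eval₂, omVal_comp_aeval, omVal_apply, coe_jd_eq_phiZ,
    ← Polynomial.hom_eval₂, hroot, map_zero]

variable {n : ℕ} {y : Fin n → LaurentSeries ℤ}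

theorem isIntegral_toOm_yInt (hS : H516.SpansQ M y)
    (hint : ∀ (d : ℕ) [NeZero d], d ∣ M → ∃ P : Polynomial (Polynomial ℤ), P.Monic ∧
      P.eval₂ (evalAt (jqModC ℤ)) (qExpand ℤ d (jqModC ℤ)) = 0)
    (i : Fin n) :
    IsIntegral (polyRing (Rc M A E) (jOm M)) (toOm M A E (yInt A E hS i)) := by
  have hle : Subring.closure (intDivisorExpansions M) ≤
      Subring.comap phiZ
        ((integralClosure ↥(polyRing (Rc M A E) (jOm M)) (Om M)).toSubring.map (omVal M)) := by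
    rw [Subring.closure_le]
    rintro z ⟨d, hd, hdM, rfl⟩
    haveI := hd
    exact ⟨jd M d hdM, isIntegral_jd A E hint d hdM, coe_jd_eq_phiZ d hdM⟩
  obtain ⟨f, hf, hfy⟩ := hle (hS.1 i)
  have : f = toOm M A E (yInt A E hS i) := by
    apply Subtype.ext
    rw [coe_toOm_yInt]
    exact hfy
  rw [← this]
  exact hf

/-! ### G-V and G-QEP for `x = j` -/

/-- **G-V** for the coordinate `j`. -/
theorem partV_j (core : CoreData M (IsLocalRing.ResidueField ↥A)) {w : Om M}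
    (hR : PartR (Ec M E) (Rc M A E) w) :
    PartV (Fc M E) (Rc M A E) (Vc M A E) w (jOm M) := by
  obtain ⟨n, y, hy, hspan, hli⟩ := core.exists_basis
  have hS : H516.SpansQ M y := ⟨hy, hspan⟩
  exact
    { V_le := Vc_le_Fc M A E
      V_total := V_total_j A E hS hli
      R_le_V := R_le_V M A E
      w_inv_not_mem_V := w_inv_not_mem_V M A E hR
      V_gen := V_gen M A E hR
      x_mem_V := jOm_mem_Vc M A E
      gauss := gauss_j M A E }

/-- **G-QEP** for the coordinate `j`. -/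
theorem partQep_j (core : CoreData M (IsLocalRing.ResidueField ↥A)) {w : Om M}
    (hR : PartR (Ec M E) (Rc M A E) w) :
    PartQep (Fc M E) (Rc M A E) (Vc M A E) w (jOm M) := by
  obtain ⟨n, y, hy, hspan, hli⟩ := core.exists_basis
  have hS : H516.SpansQ M y := ⟨hy, hspan⟩
  exact partQep_of_den hR (partV_j A E core hR) (Ec_le_Fc M E) (jOm_mem_Vc M A E)
    (injective_evR_j A E)
    (denAt_j A E hR hS hli (isIntegral_toOm_yInt A E hS (fun d _ hd => core.integral d hd)))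

end Fermat.Agent.S18.Mod.H216

end
end
-- ===== PACK-END S18/Mod/H216/IntegJ.lean

-- ===== PACK-BEGIN S36/H193/QepAll.lean
section



/-!
# S36 engine, leaf CLOPEN (helper193), part 6: the radical `q`-expansion principle is automatic

Setting: `R` a domain with `R[X]` integrally closed, `w ∈ R` prime, `Z` a field containing `R`,
`x ∈ Z` transcendental over `R`; the charts are the integral closures of `R[x]`, `R[x⁻¹]`,
`R[x, x⁻¹]` in `Z`, the sheets are the valuation subrings `W` of `Z` with `A2.H12.IsSheet w x W`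
(extensions of the Gauss valuation of `R[x]`).

**Theorem** (`qepRad_sheets`).  For each of the three charts `C`, an element of `C` lying in the
maximal ideal of every sheet is nilpotent modulo `w C`:
`QepRad {W | IsSheet w x W} w C`.

No hypothesis on the special fibre (reduced or not), no finiteness, no noetherianity.
Proof: `rad (w C)` is the intersection of the minimal primes `𝔭` over `w C`; by going down
(`R[x]` is integrally closed) `𝔭 ∩ R[x] = w R[x]`, so any valuation subring of `Z` centred at `𝔭`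
is a sheet (`isSheet_of_minimal`).
-/

set_option autoImplicit false
set_option linter.style.haveILetI false
set_option linter.unusedSectionVars false

namespace Fermat.Agent.S36.H193

open Polynomial
open Fermat.Agent.A2.H12 (IsSheet)
open Fermat.Agent.S18.H138 (chart mem_chart mem_adjoin_singleton_iff
  isIntegrallyClosed_adjoin_singleton)

universe u

section GoingDown

variable {R : Type*} [CommRing R] [IsDomain R] {F : Type*} [Field F] [Algebra R F]

/-- **Going down.**  `B` the integral closure of `R[x]` in `F`, `p` a minimal prime over `w B`: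
then `p ∩ R[x] = w R[x]`. -/
theorem coeff_dvd_of_mem_minimal [IsIntegrallyClosed R[X]] (w : R) (hw : Prime w) {x : F}
    (hx : Transcendental R x) (B : Subalgebra R F)
    (hB : ∀ f : F, f ∈ B ↔ IsIntegral (Algebra.adjoin R ({x} : Set F)) f)
    (p : Ideal B) (hp : p ∈ (Ideal.span {algebraMap R B w}).minimalPrimes)
    (b : B) (hb : b ∈ p) (P : R[X]) (hbP : (b : F) = aeval x P) (i : ℕ) :
    w ∣ P.coeff i := by
  haveI hpp : p.IsPrime := hp.1.1
  have hAB : Algebra.adjoin R ({x} : Set F) ≤ B := fun y hy =>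
    (hB y).2 (isIntegral_algebraMap (R := Algebra.adjoin R ({x} : Set F)) (x := ⟨y, hy⟩))
  letI : Algebra (Algebra.adjoin R ({x} : Set F)) B :=
    (Subalgebra.inclusion hAB).toRingHom.toAlgebra
  haveI : IsScalarTower (Algebra.adjoin R ({x} : Set F)) B F :=
    IsScalarTower.of_algebraMap_eq (fun _ => rfl)
  have hinjAB : Function.Injective (algebraMap (Algebra.adjoin R ({x} : Set F)) B) :=
    Subalgebra.inclusion_injective hAB
  haveI : FaithfulSMul (Algebra.adjoin R ({x} : Set F)) B :=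
    (faithfulSMul_iff_algebraMap_injective _ _).2 hinjAB
  haveI : Algebra.IsIntegral (Algebra.adjoin R ({x} : Set F)) B := ⟨fun y => by
    have := (hB y).1 y.2
    exact (isIntegral_algebraMap_iff (B := F) Subtype.val_injective).1 this⟩
  haveI : IsIntegrallyClosed (Algebra.adjoin R ({x} : Set F)) :=
    isIntegrallyClosed_adjoin_singleton hx
  have hwA : Prime (algebraMap R (Algebra.adjoin R ({x} : Set F)) w) :=
    Fermat.Agent.A2.H652.prime_algebraMap_adjoin w hw hx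
  haveI hq : (Ideal.span {algebraMap R (Algebra.adjoin R ({x} : Set F)) w}).IsPrime :=
    (Ideal.span_singleton_prime hwA.ne_zero).2 hwA
  have hwB : algebraMap (Algebra.adjoin R ({x} : Set F)) B
      (algebraMap R (Algebra.adjoin R ({x} : Set F)) w) = algebraMap R B w := rfl
  have hwp : algebraMap R B w ∈ p := hp.1.2 (Ideal.subset_span rfl)
  have hle : Ideal.span {algebraMap R (Algebra.adjoin R ({x} : Set F)) w} ≤
      p.under (Algebra.adjoin R ({x} : Set F)) := by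
    rw [Ideal.span_le, Set.singleton_subset_iff]
    change algebraMap _ B _ ∈ p
    rw [hwB]
    exact hwp
  obtain ⟨P', hP'le, hP'prime, hP'over⟩ := Ideal.exists_ideal_le_liesOver_of_le
    (p := Ideal.span {algebraMap R (Algebra.adjoin R ({x} : Set F)) w})
    (q := p.under (Algebra.adjoin R ({x} : Set F))) p hle
  have hwP' : algebraMap R B w ∈ P' := by
    rw [← hwB, ← Ideal.mem_of_liesOver P'
      (Ideal.span {algebraMap R (Algebra.adjoin R ({x} : Set F)) w})]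
    exact Ideal.subset_span rfl
  have hpP' : p ≤ P' := by
    refine hp.2 ⟨hP'prime, ?_⟩ hP'le
    rw [Ideal.span_le, Set.singleton_subset_iff]
    exact hwP'
  have hPp : P' = p := le_antisymm hP'le hpP'
  -- `b ∈ p ∩ R[x] = (w)`
  have hbA : (b : F) ∈ Algebra.adjoin R ({x} : Set F) := by
    rw [hbP]
    exact mem_adjoin_singleton_iff.2 ⟨P, rfl⟩
  have hbq : (⟨(b : F), hbA⟩ : Algebra.adjoin R ({x} : Set F)) ∈
      Ideal.span {algebraMap R (Algebra.adjoin R ({x} : Set F)) w} := by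
    rw [Ideal.mem_of_liesOver P' (Ideal.span {algebraMap R (Algebra.adjoin R ({x} : Set F)) w}),
      hPp]
    have : algebraMap (Algebra.adjoin R ({x} : Set F)) B ⟨(b : F), hbA⟩ = b := Subtype.ext rfl
    rw [this]
    exact hb
  obtain ⟨c, hc⟩ := Ideal.mem_span_singleton'.1 hbq
  obtain ⟨Q, hQ⟩ := mem_adjoin_singleton_iff.1 c.2
  have h2 : aeval x (Q * C w) = aeval x P := by
    rw [map_mul, aeval_C, hQ, ← hbP]
    exact congrArg Subtype.val hc
  have h3 : Q * C w = P := by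
    have := (transcendental_iff.1 hx) (Q * C w - P) (by rw [map_sub, h2, sub_self])
    exact sub_eq_zero.1 this
  rw [← h3, coeff_mul_C]
  exact dvd_mul_left _ _

end GoingDown

section Sheets

variable {R : Type u} [CommRing R] [IsDomain R] {F : Type u} [Field F] [Algebra R F]

/-- A valuation subring of `F` centred at a minimal prime over `w` of the chart is a sheet. -/
theorem isSheet_of_minimal [IsIntegrallyClosed R[X]] (w : R) (hw : Prime w) {x : F}
    (hx : Transcendental R x) (B : Subalgebra R F)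
    (hB : ∀ f : F, f ∈ B ↔ IsIntegral (Algebra.adjoin R ({x} : Set F)) f)
    (p : Ideal B) (hp : p ∈ (Ideal.span {algebraMap R B w}).minimalPrimes)
    (V : ValuationSubring F) (hBV : ∀ b ∈ B, b ∈ V)
    (hV : ∀ b : B, (b : F) ∈ V.nonunits ↔ b ∈ p) : IsSheet w x V := by
  have hAB : Algebra.adjoin R ({x} : Set F) ≤ B := fun y hy =>
    (hB y).2 (isIntegral_algebraMap (R := Algebra.adjoin R ({x} : Set F)) (x := ⟨y, hy⟩))
  have hwp : algebraMap R B w ∈ p := hp.1.2 (Ideal.subset_span rfl)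
  refine ⟨fun r => hBV _ (B.algebraMap_mem r), hBV _ (hAB (Algebra.subset_adjoin rfl)),
    (hV (algebraMap R B w)).2 hwp, ?_⟩
  intro P hP
  have hyB : aeval x P ∈ B := hAB (mem_adjoin_singleton_iff.2 ⟨P, rfl⟩)
  have hnot : aeval x P ∉ V.nonunits := by
    intro h
    have h1 : (⟨aeval x P, hyB⟩ : B) ∈ p := (hV ⟨aeval x P, hyB⟩).1 h
    obtain ⟨i, hi⟩ := hP
    exact hi (coeff_dvd_of_mem_minimal w hw hx B hB p hp _ h1 P rfl i)
  rw [ValuationSubring.mem_nonunits_iff_or] at hnot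
  by_contra h
  exact hnot (Or.inr h)

/-- Every minimal prime over `w` of the chart `chart R {x}` is the centre of a sheet. -/
theorem exists_sheet_of_minimal [IsIntegrallyClosed R[X]] (w : R) (hw : Prime w) {x : F}
    (hx : Transcendental R x)
    (p : Ideal (chart R ({x} : Set F)))
    (hp : p ∈ (Ideal.span {algebraMap R (chart R ({x} : Set F)) w}).minimalPrimes) :
    ∃ V : ValuationSubring F, IsSheet w x V ∧
      ∀ b : chart R ({x} : Set F), (b : F) ∈ V.nonunits ↔ b ∈ p := by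
  haveI : p.IsPrime := hp.1.1
  obtain ⟨V, hBV, hV⟩ := Fermat.Agent.A2.H652.exists_valuationSubring_center
    (chart R ({x} : Set F)) p
  exact ⟨V, isSheet_of_minimal w hw hx _ (fun _ => Iff.rfl) p hp V hBV hV, hV⟩

/-- **Radical `q`-expansion principle, finite chart.** -/
theorem qepRad_sheets_fin [IsIntegrallyClosed R[X]] (w : R) (hw : Prime w) {x : F}
    (hx : Transcendental R x) :
    QepRad {W : ValuationSubring F | IsSheet w x W} w (chart R ({x} : Set F)) := by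
  intro b hb hJ
  set C := chart R ({x} : Set F) with hC
  have hrad : (⟨b, hb⟩ : C) ∈ (Ideal.span {algebraMap R C w}).radical := by
    rw [← Ideal.sInf_minimalPrimes, Ideal.mem_sInf]
    intro p hp
    obtain ⟨V, hVs, hV⟩ := exists_sheet_of_minimal w hw hx p hp
    exact (hV ⟨b, hb⟩).1 (hJ V hVs)
  obtain ⟨N, hN⟩ := Ideal.mem_radical_iff.1 hrad
  obtain ⟨t, ht⟩ := Ideal.mem_span_singleton'.1 hN
  refine ⟨N, t, t.2, ?_⟩
  have := congrArg Subtype.val ht
  rw [mul_comm]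
  exact this.symm

/-- Sheets for `x⁻¹` and sheets for `x` are the same. -/
theorem isSheet_inv_iff (w : R) {x : F} (hx0 : x ≠ 0) (V : ValuationSubring F) :
    IsSheet w x⁻¹ V ↔ IsSheet w x V := by
  constructor
  · exact Fermat.Agent.A2.H652.isSheet_of_isSheet_inv w hx0
  · intro h
    have := Fermat.Agent.A2.H652.isSheet_of_isSheet_inv w (inv_ne_zero hx0)
      (V := V) (by rwa [inv_inv])
    exact this

/-- **Radical `q`-expansion principle** for the three charts, with respect to all sheets. -/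
theorem qepRad_sheets [IsIntegrallyClosed R[X]] (w : R) (hw : Prime w) {x : F}
    (hx : Transcendental R x) :
    QepRad {W : ValuationSubring F | IsSheet w x W} w (chart R ({x} : Set F)) ∧
    QepRad {W : ValuationSubring F | IsSheet w x W} w (chart R ({x⁻¹} : Set F)) ∧
    QepRad {W : ValuationSubring F | IsSheet w x W} w (chart R ({x, x⁻¹} : Set F)) := by
  have hx0 : x ≠ 0 := Fermat.Agent.S18.H138.ne_zero_of_transcendental hx
  have hfin := qepRad_sheets_fin w hw hx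
  refine ⟨hfin, ?_, ?_⟩
  · have h := qepRad_sheets_fin w hw (Fermat.Agent.S18.H138.transcendental_inv hx)
    intro b hb hJ
    exact h b hb fun W hW => hJ W ((isSheet_inv_iff w hx0 W).1 hW)
  · intro b hb hJ
    obtain ⟨K, hK⟩ := Fermat.Agent.S18.H138.exists_pow_mul_mem_chart (R := R) hx0 hb
    obtain ⟨N, t, ht, hN⟩ := hfin _ hK fun W hW =>
      nu_mul_left W (hJ W hW) (W.pow_mem hW.2.1 K)
    refine ⟨N, (x⁻¹ ^ K) ^ N * t, ?_, ?_⟩
    · refine Subalgebra.mul_mem _ (Subalgebra.pow_mem _ (Subalgebra.pow_mem _ ?_ K) N) ?_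
      · exact Fermat.Agent.S18.H138.mem_chart_of_mem (by simp)
      · exact Fermat.Agent.S18.H138.chart_mono (by simp) ht
    · have hxK : x ^ K ≠ 0 := pow_ne_zero _ hx0
      have : b = x⁻¹ ^ K * (x ^ K * b) := by
        rw [inv_pow, ← mul_assoc, inv_mul_cancel₀ hxK, one_mul]
      rw [this, mul_pow, hN]
      ring

end Sheets

end Fermat.Agent.S36.H193

end
-- ===== PACK-END S36/H193/QepAll.lean

-- ===== PACK-BEGIN S36/Mod3/Spec.lean
section


/-!
# S36 / MOD3 — frozen interfaces (sub-architect helper928)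

`Eng/Spec.lean` (architect helper996) freezes `Eng.TripleCtx` and `Eng.Model3Statement`.  This file

* splits `Eng.TripleCtx` (Eng/Spec v1.3 FINAL) into thirteen GENERIC parts (`PartFF`, `PartVal`,
  `PartSheet`, `PartQep`, `PartNormal`, `PartInc`, `PartReg`, `PartFin`, `PartTable`, `PartNV`,
  `PartNR`, `PartChart`, `PartUniq`), each a `Prop`-valued structure whose fields are VERBATIM the
  fields of `Eng.TripleCtx` (`tripleCtx_of_parts` in `Skel.lean` reassembles them);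
  `PartReg` is further split into `PartRegT` (triple points) and `PartRegM` (points of the middle
  component only, and its cusps), see `partReg_of_split` in `Skel.lean`;
* fixes the CONCRETE objects at the levels `M q` and `M q q` (`q ∤ M`), in the vocabulary of
  `A2/Mod/Spec.lean`:

  - `x' = A2.Mod.xE E M q = j · j_q`           (so that the model of cell A2 / S35.G is reusable),
  - `x  = x3E E M q = j · j_q · j_{q²}`          (Fricke-invariant),
  - `V₁' = V∞` (`A2.Mod.IsVinf` at level `M q`),  `V₂' = V₁'.comap W'`  (`W'` Fricke of level `M q`),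
  - `V₁  = V∞` (`A2.Mod.IsVinf` at level `M q q`), `V₃ = V₁.comap W`    (`W` Fricke of level `M q q`),
  - `V₂`  = THE OTHER extension of `V₁'` along `α`:  `V₂.comap α = V₁'`, `V₂ ≠ V₁`
            (unique: Eisenstein splitting `Φ_q(j_q, Y)/(Y - j) ≡ (Y - j^{q²})(Y - j)^{q-1}`);

* states one LEAF per part: `Leaf… : Prop` (prove `theorem foo : Leaf…` in
  `Fermat/Agent/S36/Mod3/H<seat>/*.lean` or cite your own file, importing this one).

`Skel.lean`: `model3_of_leaves : (all leaves) → Eng.Model3Statement` (sorry-free).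
Definitions only (no `sorry`).

v2 (22:00Z): re-based on Eng/Spec v1.3 (`UnitAt`/`UnifAt` exclude `0`; new fields `base_i`,
`gauss_i` = `PartSheet`, `fin_α`, `fin_β` = `PartFin`; `regular_f`, `regular_i` only on the middle
component; `NeatFor` contains `4 ∣ M` resp. `9 ∣ M`).  The other parts are textually unchanged.
-/

set_option autoImplicit false
set_option linter.style.haveILetI false
set_option linter.unusedSectionVars false
set_option synthInstance.maxHeartbeats 400000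
set_option maxHeartbeats 1600000

noncomputable section

namespace Fermat.Agent.S36.Mod3

open ModularCurve AlgebraicCurve
open Fermat.Agent.S18.H138 (chart)
open Fermat.Agent.S36.Eng

/-! ## The parts of `Eng.TripleCtx` (generic; fields verbatim) -/

section Parts

variable {R E F F' : Type*} [CommRing R] [Field E] [Algebra R E]
  [Field F] [Algebra E F] [Algebra R F] [Field F'] [Algebra E F'] [Algebra R F']

/-- FF: the function field. -/
structure PartFF (E : Type*) [Field E] {F : Type*} [Field F] [Algebra E F] (x : F) : Prop where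
  hx : Transcendental E x
  hfin : FiniteDimensional (IntermediateField.adjoin E ({x} : Set F)) F
  hconst : ∀ f : F, IsAlgebraic E f → f ∈ (algebraMap E F).range

/-- VAL: the three valuation rings are DVRs, distinct, `e = (1, q - 1, 1)`, `x` is a unit. -/
structure PartVal (w : R) (q : ℕ) (x : F) (V₁ V₂ V₃ : ValuationSubring F) : Prop where
  dvr₁ : IsDiscreteValuationRing V₁
  dvr₂ : IsDiscreteValuationRing V₂
  dvr₃ : IsDiscreteValuationRing V₃
  ne₁₂ : V₁ ≠ V₂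
  ne₁₃ : V₁ ≠ V₃
  ne₂₃ : V₂ ≠ V₃
  unif₁ : UnifAt V₁ (algebraMap R F w)
  unif₃ : UnifAt V₃ (algebraMap R F w)
  ram₂ : ∃ t : F, UnifAt V₂ t ∧ UnitAt V₂ (algebraMap R F w * (t ^ (q - 1))⁻¹)
  x_unit₁ : UnitAt V₁ x
  x_unit₂ : UnitAt V₂ x
  x_unit₃ : UnitAt V₃ x

/-- SHEET: the three valuation rings contain `R` and induce the Gauss valuation on `R[x]`. -/
structure PartSheet (w : R) (x : F) (V₁ V₂ V₃ : ValuationSubring F) : Prop where
  base₁ : ∀ r : R, algebraMap R F r ∈ V₁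
  base₂ : ∀ r : R, algebraMap R F r ∈ V₂
  base₃ : ∀ r : R, algebraMap R F r ∈ V₃
  gauss₁ : ∀ P : Polynomial R, (∃ i, ¬ w ∣ P.coeff i) → (Polynomial.aeval x P)⁻¹ ∈ V₁
  gauss₂ : ∀ P : Polynomial R, (∃ i, ¬ w ∣ P.coeff i) → (Polynomial.aeval x P)⁻¹ ∈ V₂
  gauss₃ : ∀ P : Polynomial R, (∃ i, ¬ w ∣ P.coeff i) → (Polynomial.aeval x P)⁻¹ ∈ V₃

/-- QEP3: the three valuation rings are all the components, with multiplicities. -/
structure PartQep (w : R) (x : F) (V₁ V₂ V₃ : ValuationSubring F) : Prop where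
  qep_f : Qep3 w (chart R ({x} : Set F)) V₁ V₂ V₃
  qep_i : Qep3 w (chart R ({x⁻¹} : Set F)) V₁ V₂ V₃

/-- NORMAL: the three components of both charts are normal. -/
structure PartNormal (R : Type*) [CommRing R] {F : Type*} [Field F] [Algebra R F]
    (x : F) (V₁ V₂ V₃ : ValuationSubring F) : Prop where
  normal_f₁ : NormalAlong (chart R ({x} : Set F)) V₁
  normal_f₂ : NormalAlong (chart R ({x} : Set F)) V₂
  normal_f₃ : NormalAlong (chart R ({x} : Set F)) V₃
  normal_i₁ : NormalAlong (chart R ({x⁻¹} : Set F)) V₁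
  normal_i₂ : NormalAlong (chart R ({x⁻¹} : Set F)) V₂
  normal_i₃ : NormalAlong (chart R ({x⁻¹} : Set F)) V₃

/-- INC: incidence in the finite chart, the cusps lie on one component. -/
structure PartInc (w : R) (x : F) (V₁ V₂ V₃ : ValuationSubring F) : Prop where
  incidence : ∀ 𝔪 : Ideal (chart R ({x} : Set F)), 𝔪.IsMaximal →
    (Through _ 𝔪 V₁ ∧ Through _ 𝔪 V₂) ∨ (Through _ 𝔪 V₁ ∧ Through _ 𝔪 V₃) ∨
      (Through _ 𝔪 V₂ ∧ Through _ 𝔪 V₃) → IsTriple _ 𝔪 V₁ V₂ V₃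
  cusp_single : ∀ 𝔪 : Ideal (chart R ({x⁻¹} : Set F)), 𝔪.IsMaximal →
    algebraMap R (chart R ({x⁻¹} : Set F)) w ∈ 𝔪 →
    (⟨x⁻¹, Fermat.Agent.S18.H138.mem_chart_of_mem rfl⟩ : chart R ({x⁻¹} : Set F)) ∈ 𝔪 →
    ¬ (Through _ 𝔪 V₁ ∧ Through _ 𝔪 V₂) ∧ ¬ (Through _ 𝔪 V₁ ∧ Through _ 𝔪 V₃) ∧
      ¬ (Through _ 𝔪 V₂ ∧ Through _ 𝔪 V₃)

/-- REG: regularity at the closed points of the middle component (both charts). -/
structure PartReg (R : Type*) [CommRing R] {F : Type*} [Field F] [Algebra R F]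
    (x : F) (V₁ V₂ V₃ : ValuationSubring F) : Prop where
  regular_f : ∀ 𝔪 : Ideal (chart R ({x} : Set F)), 𝔪.IsMaximal → Through _ 𝔪 V₂ →
    (Through _ 𝔪 V₁ ∧ PrincipalAt _ 𝔪 V₁) ∨ PrincipalAt _ 𝔪 V₂ ∨
      (Through _ 𝔪 V₃ ∧ PrincipalAt _ 𝔪 V₃)
  regular_i : ∀ 𝔪 : Ideal (chart R ({x⁻¹} : Set F)), 𝔪.IsMaximal →
    (⟨x⁻¹, Fermat.Agent.S18.H138.mem_chart_of_mem rfl⟩ : chart R ({x⁻¹} : Set F)) ∈ 𝔪 →
    Through _ 𝔪 V₂ → PrincipalAt _ 𝔪 V₂

/-- REG-T: at a TRIPLE point of the finite chart the component `V₃` (or `V₁`) is locally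
principal (helper263 `bridge_of_th1`: from TH1 at level `M q` and `Qep3`). -/
structure PartRegT (R : Type*) [CommRing R] {F : Type*} [Field F] [Algebra R F]
    (x : F) (V₁ V₂ V₃ : ValuationSubring F) : Prop where
  regular_t : ∀ 𝔪 : Ideal (chart R ({x} : Set F)), 𝔪.IsMaximal → IsTriple _ 𝔪 V₁ V₂ V₃ →
    PrincipalAt _ 𝔪 V₁ ∨ PrincipalAt _ 𝔪 V₃

/-- REG-M: at a closed point of the finite chart lying on the middle component ONLY, and at the
cusps of the middle component, the middle component is locally principal (R4). -/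
structure PartRegM (R : Type*) [CommRing R] {F : Type*} [Field F] [Algebra R F]
    (x : F) (V₁ V₂ V₃ : ValuationSubring F) : Prop where
  regular_m : ∀ 𝔪 : Ideal (chart R ({x} : Set F)), 𝔪.IsMaximal → Through _ 𝔪 V₂ →
    ¬ Through _ 𝔪 V₁ → ¬ Through _ 𝔪 V₃ → PrincipalAt _ 𝔪 V₂
  regular_i : ∀ 𝔪 : Ideal (chart R ({x⁻¹} : Set F)), 𝔪.IsMaximal →
    (⟨x⁻¹, Fermat.Agent.S18.H138.mem_chart_of_mem rfl⟩ : chart R ({x⁻¹} : Set F)) ∈ 𝔪 →
    Through _ 𝔪 V₂ → PrincipalAt _ 𝔪 V₂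

/-- FIN: the two degeneracy maps are finite. -/
structure PartFin (E : Type*) [Field E] {F F' : Type*} [Field F] [Algebra E F] [Field F']
    [Algebra E F'] (α β : F' →ₐ[E] F) : Prop where
  fin_α : FiniteAlong E α
  fin_β : FiniteAlong E β

/-- TABLE: lying over. -/
structure PartTable (α β : F' →ₐ[E] F) (V₁ V₂ V₃ : ValuationSubring F)
    (V₁' V₂' : ValuationSubring F') : Prop where
  comap_α₁ : V₁.comap (α : F' →+* F) = V₁'
  comap_α₂ : V₂.comap (α : F' →+* F) = V₁'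
  comap_α₃ : V₃.comap (α : F' →+* F) = V₂'
  comap_β₁ : V₁.comap (β : F' →+* F) = V₁'
  comap_β₂ : V₂.comap (β : F' →+* F) = V₂'
  comap_β₃ : V₃.comap (β : F' →+* F) = V₂'

/-- NV: valuations of norms. -/
structure PartNV (w : R) (q : ℕ) (α β : F' →ₐ[E] F) (V₁ V₂ V₃ : ValuationSubring F)
    (V₁' V₂' : ValuationSubring F') : Prop where
  nv_α : ∀ (t : F), UnifAt V₂ t → ∀ (y : F) (a₁ a₂ a₃ : ℤ), y ≠ 0 →
    UnitAt V₁ (y * (algebraMap R F w ^ a₁)⁻¹) → UnitAt V₂ (y * (t ^ a₂)⁻¹) →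
    UnitAt V₃ (y * (algebraMap R F w ^ a₃)⁻¹) →
    UnitAt V₁' (S29.H395.normAlong α y * (algebraMap R F' w ^ (a₁ + a₂))⁻¹) ∧
      UnitAt V₂' (S29.H395.normAlong α y * (algebraMap R F' w ^ ((q : ℤ) * a₃))⁻¹)
  nv_β : ∀ (t : F), UnifAt V₂ t → ∀ (y : F) (a₁ a₂ a₃ : ℤ), y ≠ 0 →
    UnitAt V₁ (y * (algebraMap R F w ^ a₁)⁻¹) → UnitAt V₂ (y * (t ^ a₂)⁻¹) →
    UnitAt V₃ (y * (algebraMap R F w ^ a₃)⁻¹) →
    UnitAt V₂' (S29.H395.normAlong β y * (algebraMap R F' w ^ (a₃ + a₂))⁻¹) ∧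
      UnitAt V₁' (S29.H395.normAlong β y * (algebraMap R F' w ^ ((q : ℤ) * a₁))⁻¹)

/-- NR: residues of norms. -/
structure PartNR (q : ℕ) (α β : F' →ₐ[E] F) (V₁ V₂ V₃ : ValuationSubring F)
    (V₁' V₂' : ValuationSubring F') : Prop where
  nr_α₁ : ∀ y : F, UnitAt V₁ y → UnitAt V₂ y → ∀ x₁ x₂ : F',
    α x₁ - y ∈ V₁.nonunits → α x₂ - y ∈ V₂.nonunits →
    S29.H395.normAlong α y - x₁ * x₂ ^ (q - 1) ∈ V₁'.nonunits
  nr_α₂ : ∀ y : F, UnitAt V₃ y → α (S29.H395.normAlong α y) - y ^ q ∈ V₃.nonunits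
  nr_β₁ : ∀ y : F, UnitAt V₃ y → UnitAt V₂ y → ∀ x₃ x₂ : F',
    β x₃ - y ∈ V₃.nonunits → β x₂ - y ∈ V₂.nonunits →
    S29.H395.normAlong β y - x₃ * x₂ ^ (q - 1) ∈ V₂'.nonunits
  nr_β₂ : ∀ y : F, UnitAt V₁ y → β (S29.H395.normAlong β y) - y ^ q ∈ V₁.nonunits

/-- CHART: the finite charts of the two levels, integrality, residue degree one in chart form. -/
structure PartChart (R : Type*) [CommRing R] {E F F' : Type*} [Field E] [Field F] [Algebra E F]
    [Algebra R F] [Field F'] [Algebra E F'] [Algebra R F']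
    (α β : F' →ₐ[E] F) (x : F) (x' : F') (V₁ V₂ V₃ : ValuationSubring F) : Prop where
  chart_α : ∀ b ∈ chart R ({x'} : Set F'), α b ∈ chart R ({x} : Set F)
  chart_β : ∀ b ∈ chart R ({x'} : Set F'), β b ∈ chart R ({x} : Set F)
  int_α : ∀ b ∈ chart R ({x} : Set F), ∃ p : Polynomial F', p.Monic ∧
    (∀ i, p.coeff i ∈ chart R ({x'} : Set F')) ∧ (p.map (α : F' →+* F)).eval b = 0
  int_β : ∀ b ∈ chart R ({x} : Set F), ∃ p : Polynomial F', p.Monic ∧
    (∀ i, p.coeff i ∈ chart R ({x'} : Set F')) ∧ (p.map (β : F' →+* F)).eval b = 0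
  res_α₁ : ∀ b ∈ chart R ({x} : Set F), ∃ b' ∈ chart R ({x'} : Set F'), b - α b' ∈ V₁.nonunits
  res_α₂ : ∀ b ∈ chart R ({x} : Set F), ∃ b' ∈ chart R ({x'} : Set F'), b - α b' ∈ V₂.nonunits
  res_β₃ : ∀ b ∈ chart R ({x} : Set F), ∃ b' ∈ chart R ({x'} : Set F'), b - β b' ∈ V₃.nonunits
  res_β₂ : ∀ b ∈ chart R ({x} : Set F), ∃ b' ∈ chart R ({x'} : Set F'), b - β b' ∈ V₂.nonunits

/-- UNIQ: a triple point is the only closed point over its image under `α`, and under `β`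
(the chart inclusions `hα`, `hβ` are hypotheses: they are the fields `chart_α`, `chart_β`). -/
structure PartUniq (R : Type*) [CommRing R] {E F F' : Type*} [Field E] [Field F] [Algebra E F]
    [Algebra R F] [Field F'] [Algebra E F'] [Algebra R F']
    (α β : F' →ₐ[E] F) (x : F) (x' : F') (V₁ V₂ V₃ : ValuationSubring F) : Prop where
  unique_α : ∀ (hα : ∀ b ∈ chart R ({x'} : Set F'), α b ∈ chart R ({x} : Set F))
    (𝔪 𝔪' : Ideal (chart R ({x} : Set F))), 𝔪.IsMaximal → 𝔪'.IsMaximal →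
    IsTriple _ 𝔪 V₁ V₂ V₃ →
    (∀ (b' : F') (h : b' ∈ chart R ({x'} : Set F')),
      (⟨α b', hα b' h⟩ : chart R ({x} : Set F)) ∈ 𝔪 →
        (⟨α b', hα b' h⟩ : chart R ({x} : Set F)) ∈ 𝔪') → 𝔪' = 𝔪
  unique_β : ∀ (hβ : ∀ b ∈ chart R ({x'} : Set F'), β b ∈ chart R ({x} : Set F))
    (𝔪 𝔪' : Ideal (chart R ({x} : Set F))), 𝔪.IsMaximal → 𝔪'.IsMaximal →
    IsTriple _ 𝔪 V₁ V₂ V₃ →
    (∀ (b' : F') (h : b' ∈ chart R ({x'} : Set F')),
      (⟨β b', hβ b' h⟩ : chart R ({x} : Set F)) ∈ 𝔪 →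
        (⟨β b', hβ b' h⟩ : chart R ({x} : Set F)) ∈ 𝔪') → 𝔪' = 𝔪

end Parts

/-! ## The concrete objects -/

section Concrete

variable (P : ValuationSubring A2.Qb) (E : IntermediateField ℚ A2.Qb) (M q : ℕ)
  [NeZero M] [NeZero q] [NeZero (M * q)]

/-- `j` at level `M q q`. -/
def j1 : A2.Mod.FE E (M * q * q) := A2.Mod.jE E (M * q * q) 1 (one_dvd _)

/-- `j_q` at level `M q q`. -/
def jq : A2.Mod.FE E (M * q * q) :=
  A2.Mod.jE E (M * q * q) q (Dvd.intro_left (M * q) rfl)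

/-- `j_{q²}` at level `M q q`. -/
def jqq : A2.Mod.FE E (M * q * q) :=
  A2.Mod.jE E (M * q * q) (q * q) ⟨M, by ring⟩

/-- **The coordinate** `x = j · j_q · j_{q²}` of level `M q q`. -/
def x3E : A2.Mod.FE E (M * q * q) := j1 E M q * jq E M q * jqq E M q

/-- The standing hypotheses of `Eng.Model3Statement`. -/
structure Std (w : A2.RE P E) : Prop where
  q_prime : q.Prime
  q_not_dvd : ¬ q ∣ M
  lies_over : P.LiesOverPrime q
  unram : Unramified P E q
  neat : NeatFor M q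
  unif : Irreducible w

/-- **The objects.**  `V₁' = V∞`, `V₂' = V₀` at level `M q`; `V₁ = V∞` (`FF`), `V₃ = V₀` (`VV`) at
level `M q q`; `V₂` (`mid`) is the other extension of `V₁'` along `α`. -/
structure Objs (V₁' V₂' : ValuationSubring (A2.Mod.FE E (M * q)))
    (V₁ V₂ V₃ : ValuationSubring (A2.Mod.FE E (M * q * q)))
    (W' : A2.Mod.FE E (M * q) ≃ₐ[E] A2.Mod.FE E (M * q))
    (W : A2.Mod.FE E (M * q * q) ≃ₐ[E] A2.Mod.FE E (M * q * q)) : Prop where
  vinf' : A2.Mod.IsVinf P E (M * q) V₁'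
  fricke' : A2.Mod.IsFricke E (M * q) W'
  vzero' : V₂' = V₁'.comap (W' : A2.Mod.FE E (M * q) →+* A2.Mod.FE E (M * q))
  vinf : A2.Mod.IsVinf P E (M * q * q) V₁
  fricke : A2.Mod.IsFricke E (M * q * q) W
  vzero : V₃ = V₁.comap (W : A2.Mod.FE E (M * q * q) →+* A2.Mod.FE E (M * q * q))
  mid : V₂.comap (A2.Mod.αE E (M * q) q : A2.Mod.FE E (M * q) →+* A2.Mod.FE E (M * q * q)) = V₁'
  mid_ne : V₂ ≠ V₁

end Concrete

/-! ## The leaves -/

section Leaves

/-- Binder prefix of every leaf. -/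
def Leaf (body : ∀ (P : ValuationSubring A2.Qb) (E : IntermediateField ℚ A2.Qb) (M q : ℕ)
    [NeZero M] [NeZero q] [NeZero (M * q)] (_ : A2.RE P E)
    (_ _ : ValuationSubring (A2.Mod.FE E (M * q)))
    (_ _ _ : ValuationSubring (A2.Mod.FE E (M * q * q))), Prop) : Prop :=
  ∀ (P : ValuationSubring A2.Qb) (E : IntermediateField ℚ A2.Qb) (M q : ℕ)
    [NeZero M] [NeZero q] [NeZero (M * q)] (w : A2.RE P E),
    Std P E M q w →
    ∀ (V₁' V₂' : ValuationSubring (A2.Mod.FE E (M * q)))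
      (V₁ V₂ V₃ : ValuationSubring (A2.Mod.FE E (M * q * q)))
      (W' : A2.Mod.FE E (M * q) ≃ₐ[E] A2.Mod.FE E (M * q))
      (W : A2.Mod.FE E (M * q * q) ≃ₐ[E] A2.Mod.FE E (M * q * q)),
      Objs P E M q V₁' V₂' V₁ V₂ V₃ W' W → body P E M q w V₁' V₂' V₁ V₂ V₃

/-- **OBJ (leaf).**  The objects exist: `V∞` and Fricke at both levels (L1, L4 of A2/Mod, any
level) and the MIDDLE valuation ring `V₂` (Eisenstein splitting of `Φ_q(j_q, Y) / (Y - j)` over
`V₁'`; needs `E` unramified). -/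
def LeafObj : Prop :=
  ∀ (P : ValuationSubring A2.Qb) (E : IntermediateField ℚ A2.Qb) (M q : ℕ)
    [NeZero M] [NeZero q] [NeZero (M * q)] (w : A2.RE P E),
    Std P E M q w →
    ∃ (V₁' V₂' : ValuationSubring (A2.Mod.FE E (M * q)))
      (V₁ V₂ V₃ : ValuationSubring (A2.Mod.FE E (M * q * q)))
      (W' : A2.Mod.FE E (M * q) ≃ₐ[E] A2.Mod.FE E (M * q))
      (W : A2.Mod.FE E (M * q * q) ≃ₐ[E] A2.Mod.FE E (M * q * q)),
      Objs P E M q V₁' V₂' V₁ V₂ V₃ W' W

/-- **FF (leaf).**  `x = j j_q j_{q²}` is transcendental, `F` is finite over `E(x)`, `E` is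
algebraically closed in `F` (as L8 of A2/Mod). -/
def LeafFF : Prop :=
  ∀ (E : IntermediateField ℚ A2.Qb) (M q : ℕ) [NeZero M] [NeZero q] [NeZero (M * q)],
    q.Prime → ¬ q ∣ M → PartFF E (x3E E M q)

/-- **VAL (leaf).** -/
def LeafVal : Prop :=
  Leaf fun P E M q _ _ _ w _ _ V₁ V₂ V₃ =>
    PartVal (R := A2.RE P E) w q (x3E E M q) V₁ V₂ V₃

/-- **QEP3 (leaf).** -/
def LeafQep : Prop :=
  Leaf fun P E M q _ _ _ w _ _ V₁ V₂ V₃ =>
    PartQep (R := A2.RE P E) w (x3E E M q) V₁ V₂ V₃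

/-- **NORMAL (leaf).** -/
def LeafNormal : Prop :=
  Leaf fun P E M q _ _ _ _ _ _ V₁ V₂ V₃ =>
    PartNormal (A2.RE P E) (x3E E M q) V₁ V₂ V₃

/-- **INC (leaf).** -/
def LeafInc : Prop :=
  Leaf fun P E M q _ _ _ w _ _ V₁ V₂ V₃ =>
    PartInc (R := A2.RE P E) w (x3E E M q) V₁ V₂ V₃

/-- **REG (leaf)** `= LeafRegT + LeafRegM + LeafInc` (`leafReg_of_split`). -/
def LeafReg : Prop :=
  Leaf fun P E M q _ _ _ _ _ _ V₁ V₂ V₃ =>
    PartReg (A2.RE P E) (x3E E M q) V₁ V₂ V₃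

/-- **REG-T (leaf).** -/
def LeafRegT : Prop :=
  Leaf fun P E M q _ _ _ _ _ _ V₁ V₂ V₃ =>
    PartRegT (A2.RE P E) (x3E E M q) V₁ V₂ V₃

/-- **REG-M (leaf).** -/
def LeafRegM : Prop :=
  Leaf fun P E M q _ _ _ _ _ _ V₁ V₂ V₃ =>
    PartRegM (A2.RE P E) (x3E E M q) V₁ V₂ V₃

/-- **SHEET (leaf).** -/
def LeafSheet : Prop :=
  Leaf fun P E M q _ _ _ w _ _ V₁ V₂ V₃ =>
    PartSheet (R := A2.RE P E) w (x3E E M q) V₁ V₂ V₃

/-- **FIN (leaf).** -/
def LeafFin : Prop :=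
  ∀ (E : IntermediateField ℚ A2.Qb) (M q : ℕ) [NeZero M] [NeZero q] [NeZero (M * q)],
    q.Prime → ¬ q ∣ M → PartFin E (A2.Mod.αE E (M * q) q) (A2.Mod.βE E (M * q) q)

/-- **TABLE (leaf).** -/
def LeafTable : Prop :=
  Leaf fun _ E M q _ _ _ _ V₁' V₂' V₁ V₂ V₃ =>
    PartTable (A2.Mod.αE E (M * q) q) (A2.Mod.βE E (M * q) q) V₁ V₂ V₃ V₁' V₂'

/-- **NV (leaf).** -/
def LeafNV : Prop :=
  Leaf fun P E M q _ _ _ w V₁' V₂' V₁ V₂ V₃ =>
    PartNV (R := A2.RE P E) w q (A2.Mod.αE E (M * q) q) (A2.Mod.βE E (M * q) q)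
      V₁ V₂ V₃ V₁' V₂'

/-- **NR (leaf).** -/
def LeafNR : Prop :=
  Leaf fun _ E M q _ _ _ _ V₁' V₂' V₁ V₂ V₃ =>
    PartNR q (A2.Mod.αE E (M * q) q) (A2.Mod.βE E (M * q) q) V₁ V₂ V₃ V₁' V₂'

/-- **CHART (leaf).** -/
def LeafChart : Prop :=
  Leaf fun P E M q _ _ _ _ _ _ V₁ V₂ V₃ =>
    PartChart (A2.RE P E) (A2.Mod.αE E (M * q) q) (A2.Mod.βE E (M * q) q)
      (x3E E M q) (A2.Mod.xE E M q) V₁ V₂ V₃

/-- **UNIQ (leaf).** -/
def LeafUniq : Prop :=
  Leaf fun P E M q _ _ _ _ _ _ V₁ V₂ V₃ =>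
    PartUniq (A2.RE P E) (A2.Mod.αE E (M * q) q) (A2.Mod.βE E (M * q) q)
      (x3E E M q) (A2.Mod.xE E M q) V₁ V₂ V₃

end Leaves

end Fermat.Agent.S36.Mod3

end

end
-- ===== PACK-END S36/Mod3/Spec.lean

-- ===== PACK-BEGIN S36/Mod3/Skel.lean
section


/-!
# S36 / MOD3 — skeleton (sub-architect helper928): the leaves give `Eng.Model3Statement`

* `tripleCtx_of_parts` : the thirteen generic parts reassemble `Eng.TripleCtx` (Eng/Spec v1.3);
* `partReg_of_split`   : `PartInc + PartRegT + PartRegM ⟹ PartReg`;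
* `model3_of_leaves`   : `LeafObj` + the thirteen leaves ⟹ `Eng.Model3Statement`;
* `model3_of_leaves'`  : the same with `LeafReg` replaced by `LeafRegT`, `LeafRegM`.

Sorry-free; the leaves are hypotheses.
-/

set_option autoImplicit false
set_option linter.style.haveILetI false
set_option linter.unusedSectionVars false
set_option synthInstance.maxHeartbeats 400000
set_option maxHeartbeats 1600000

noncomputable section

namespace Fermat.Agent.S36.Mod3

open ModularCurve AlgebraicCurve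
open Fermat.Agent.S18.H138 (chart)
open Fermat.Agent.S36.Eng

section Parts

variable {R E F F' : Type*} [CommRing R] [Field E] [Algebra R E]
  [Field F] [Algebra E F] [Algebra R F] [Field F'] [Algebra E F'] [Algebra R F']

/-- REG from its two halves and INCIDENCE. -/
theorem partReg_of_split {w : R} {x : F} {V₁ V₂ V₃ : ValuationSubring F}
    (hInc : PartInc w x V₁ V₂ V₃) (hT : PartRegT R x V₁ V₂ V₃) (hM : PartRegM R x V₁ V₂ V₃) :
    PartReg R x V₁ V₂ V₃ where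
  regular_f := by
    intro 𝔪 hmax h2
    by_cases h1 : Through (chart R ({x} : Set F)) 𝔪 V₁
    · have ht := hInc.incidence 𝔪 hmax (Or.inl ⟨h1, h2⟩)
      rcases hT.regular_t 𝔪 hmax ht with h | h
      · exact Or.inl ⟨h1, h⟩
      · exact Or.inr (Or.inr ⟨ht.2.2, h⟩)
    · by_cases h3 : Through (chart R ({x} : Set F)) 𝔪 V₃
      · have ht := hInc.incidence 𝔪 hmax (Or.inr (Or.inr ⟨h2, h3⟩))
        exact absurd ht.1 h1
      · exact Or.inr (Or.inl (hM.regular_m 𝔪 hmax h2 h1 h3))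
  regular_i := hM.regular_i

/-- The thirteen parts reassemble the three-component context. -/
theorem tripleCtx_of_parts {w : R} {q : ℕ} {α β : F' →ₐ[E] F} {x : F} {x' : F'}
    {V₁ V₂ V₃ : ValuationSubring F} {V₁' V₂' : ValuationSubring F'}
    (hFF : PartFF E x) (hVal : PartVal w q x V₁ V₂ V₃) (hSh : PartSheet w x V₁ V₂ V₃)
    (hQep : PartQep w x V₁ V₂ V₃)
    (hNor : PartNormal R x V₁ V₂ V₃) (hInc : PartInc w x V₁ V₂ V₃)
    (hReg : PartReg R x V₁ V₂ V₃) (hFin : PartFin E α β)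
    (hTab : PartTable α β V₁ V₂ V₃ V₁' V₂')
    (hNV : PartNV w q α β V₁ V₂ V₃ V₁' V₂') (hNR : PartNR q α β V₁ V₂ V₃ V₁' V₂')
    (hCh : PartChart R α β x x' V₁ V₂ V₃) (hUn : PartUniq R α β x x' V₁ V₂ V₃) :
    TripleCtx w q α β x x' V₁ V₂ V₃ V₁' V₂' where
  hx := hFF.hx
  hfin := hFF.hfin
  hconst := hFF.hconst
  dvr₁ := hVal.dvr₁
  dvr₂ := hVal.dvr₂
  dvr₃ := hVal.dvr₃
  ne₁₂ := hVal.ne₁₂
  ne₁₃ := hVal.ne₁₃
  ne₂₃ := hVal.ne₂₃
  unif₁ := hVal.unif₁
  unif₃ := hVal.unif₃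
  ram₂ := hVal.ram₂
  base₁ := hSh.base₁
  base₂ := hSh.base₂
  base₃ := hSh.base₃
  x_unit₁ := hVal.x_unit₁
  x_unit₂ := hVal.x_unit₂
  x_unit₃ := hVal.x_unit₃
  gauss₁ := hSh.gauss₁
  gauss₂ := hSh.gauss₂
  gauss₃ := hSh.gauss₃
  qep_f := hQep.qep_f
  qep_i := hQep.qep_i
  normal_f₁ := hNor.normal_f₁
  normal_f₂ := hNor.normal_f₂
  normal_f₃ := hNor.normal_f₃
  normal_i₁ := hNor.normal_i₁
  normal_i₂ := hNor.normal_i₂
  normal_i₃ := hNor.normal_i₃
  incidence := hInc.incidence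
  regular_f := hReg.regular_f
  cusp_single := hInc.cusp_single
  regular_i := hReg.regular_i
  fin_α := hFin.fin_α
  fin_β := hFin.fin_β
  comap_α₁ := hTab.comap_α₁
  comap_α₂ := hTab.comap_α₂
  comap_α₃ := hTab.comap_α₃
  comap_β₁ := hTab.comap_β₁
  comap_β₂ := hTab.comap_β₂
  comap_β₃ := hTab.comap_β₃
  nv_α := hNV.nv_α
  nv_β := hNV.nv_β
  nr_α₁ := hNR.nr_α₁
  nr_α₂ := hNR.nr_α₂
  nr_β₁ := hNR.nr_β₁
  nr_β₂ := hNR.nr_β₂
  chart_α := hCh.chart_α
  chart_β := hCh.chart_β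
  int_α := hCh.int_α
  int_β := hCh.int_β
  res_α₁ := hCh.res_α₁
  res_α₂ := hCh.res_α₂
  res_β₃ := hCh.res_β₃
  res_β₂ := hCh.res_β₂
  unique_α := hUn.unique_α hCh.chart_α
  unique_β := hUn.unique_β hCh.chart_β

end Parts

/-- **MOD3 skeleton.**  The fourteen leaves give `Eng.Model3Statement`. -/
theorem model3_of_leaves (hObj : LeafObj) (hFF : LeafFF) (hVal : LeafVal) (hSh : LeafSheet)
    (hQep : LeafQep) (hNor : LeafNormal) (hInc : LeafInc) (hReg : LeafReg) (hFin : LeafFin)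
    (hTab : LeafTable) (hNV : LeafNV) (hNR : LeafNR) (hCh : LeafChart) (hUn : LeafUniq) :
    Model3Statement := by
  intro P E M q _ _ _ hq hqM hP hE hneat w hw
  have hS : Std P E M q w :=
    { q_prime := hq, q_not_dvd := hqM, lies_over := hP, unram := hE, neat := hneat, unif := hw }
  obtain ⟨V₁', V₂', V₁, V₂, V₃, W', W, hO⟩ := hObj P E M q w hS
  exact ⟨x3E E M q, A2.Mod.xE E M q, V₁, V₂, V₃, V₁', V₂',
    tripleCtx_of_parts (hFF E M q hq hqM)
      (hVal P E M q w hS V₁' V₂' V₁ V₂ V₃ W' W hO)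
      (hSh P E M q w hS V₁' V₂' V₁ V₂ V₃ W' W hO)
      (hQep P E M q w hS V₁' V₂' V₁ V₂ V₃ W' W hO)
      (hNor P E M q w hS V₁' V₂' V₁ V₂ V₃ W' W hO)
      (hInc P E M q w hS V₁' V₂' V₁ V₂ V₃ W' W hO)
      (hReg P E M q w hS V₁' V₂' V₁ V₂ V₃ W' W hO)
      (hFin E M q hq hqM)
      (hTab P E M q w hS V₁' V₂' V₁ V₂ V₃ W' W hO)
      (hNV P E M q w hS V₁' V₂' V₁ V₂ V₃ W' W hO)
      (hNR P E M q w hS V₁' V₂' V₁ V₂ V₃ W' W hO)
      (hCh P E M q w hS V₁' V₂' V₁ V₂ V₃ W' W hO)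
      (hUn P E M q w hS V₁' V₂' V₁ V₂ V₃ W' W hO)⟩

/-- `LeafReg` from its two halves and `LeafInc`. -/
theorem leafReg_of_split (hInc : LeafInc) (hT : LeafRegT) (hM : LeafRegM) : LeafReg :=
  fun P E M q _ _ _ w hS V₁' V₂' V₁ V₂ V₃ W' W hO =>
    partReg_of_split (hInc P E M q w hS V₁' V₂' V₁ V₂ V₃ W' W hO)
      (hT P E M q w hS V₁' V₂' V₁ V₂ V₃ W' W hO) (hM P E M q w hS V₁' V₂' V₁ V₂ V₃ W' W hO)

/-- **MOD3 skeleton**, with REG split into REG-T and REG-M. -/
theorem model3_of_leaves' (hObj : LeafObj) (hFF : LeafFF) (hVal : LeafVal) (hSh : LeafSheet)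
    (hQep : LeafQep) (hNor : LeafNormal) (hInc : LeafInc) (hRT : LeafRegT) (hRM : LeafRegM)
    (hFin : LeafFin) (hTab : LeafTable) (hNV : LeafNV) (hNR : LeafNR) (hCh : LeafChart)
    (hUn : LeafUniq) : Model3Statement :=
  model3_of_leaves hObj hFF hVal hSh hQep hNor hInc (leafReg_of_split hInc hRT hRM) hFin hTab
    hNV hNR hCh hUn

end Fermat.Agent.S36.Mod3

end

end
-- ===== PACK-END S36/Mod3/Skel.lean

-- ===== PACK-BEGIN S36/Mod3/SpecVT.lean
section


/-!
# S36 / MOD3 — the VALUATION-LEVEL hub `LeafVT` (sub-architect helper928)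

`Mod3/Spec.lean` states the leaves of `Eng.Model3Statement` (= groups of fields of
`Eng.TripleCtx`).  Most of them need the same VALUATION-LEVEL facts about the three valuation rings
`V₁` (`FF`), `V₂` (`mid`), `V₃` (`VV`) of level `M q q` over `V₁'`, `V₂'` of level `M q`:
residue degree one, pure inseparability, completeness (no other extension), the uniformiser
`π = j_{q²} - j` of the middle component, the Kronecker congruences.  They are the output of the
concrete Eisenstein instance (`H972.EisData` at `O = V₁'`, `y = j_{q²}`, `c = j`), of helper83's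
`β`-side (`h83_beta_unique`, `h83_beta_insep`), of helper370's rows `FF`, `VV` and of Fricke.

This file freezes them as ONE optional hub:

* `PartVT`  : the valuation-level table (generic);
* `LeafVT`  : `Std → Objs → PartVT` for the concrete objects.

USE: a downstream leaf may be delivered as `theorem leafX_of : LeafVT → … → LeafX`
(hypotheses = `Mod3.Leaf…` Props only).  Definitions only (no `sorry`).
-/

set_option autoImplicit false
set_option linter.style.haveILetI false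
set_option linter.unusedSectionVars false
set_option synthInstance.maxHeartbeats 400000
set_option maxHeartbeats 1600000

noncomputable section

namespace Fermat.Agent.S36.Mod3

open ModularCurve AlgebraicCurve
open Fermat.Agent.S36.Eng

section Parts

variable {R E F F' : Type*} [CommRing R] [Field E] [Algebra R E]
  [Field F] [Algebra E F] [Algebra R F] [Field F'] [Algebra E F'] [Algebra R F']

/-- **The valuation-level table.**  `j`, `jq`, `jqq` are the three `j`-invariants of level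
`M q q`.  Table (`e`, `f`):

    via α :  V₁ | V₁' (1,1)    V₂ | V₁' (q-1,1)    V₃ | V₂' (1, q insep)
    via β :  V₃ | V₂' (1,1)    V₂ | V₂' (q-1,1)    V₁ | V₁' (1, q insep)
-/
structure PartVT (w : R) (q : ℕ) (α β : F' →ₐ[E] F) (j jq jqq : F)
    (V₁ V₂ V₃ : ValuationSubring F) (V₁' V₂' : ValuationSubring F') : Prop where
  -- ### residue degree one
  res_α₁ : ∀ f ∈ V₁, ∃ g ∈ V₁', f - α g ∈ V₁.nonunits
  res_α₂ : ∀ f ∈ V₂, ∃ g ∈ V₁', f - α g ∈ V₂.nonunits
  res_β₃ : ∀ f ∈ V₃, ∃ g ∈ V₂', f - β g ∈ V₃.nonunits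
  res_β₂ : ∀ f ∈ V₂, ∃ g ∈ V₂', f - β g ∈ V₂.nonunits
  -- ### purely inseparable residue extensions of degree `q`
  insep_α₃ : ∀ f ∈ V₃, ∃ g ∈ V₂', f ^ q - α g ∈ V₃.nonunits
  insep_β₁ : ∀ f ∈ V₁, ∃ g ∈ V₁', f ^ q - β g ∈ V₁.nonunits
  -- ### completeness: there is no other extension
  only_α₁ : ∀ V : ValuationSubring F, V.comap (α : F' →+* F) = V₁' → V = V₁ ∨ V = V₂
  only_α₃ : ∀ V : ValuationSubring F, V.comap (α : F' →+* F) = V₂' → V = V₃
  only_β₂ : ∀ V : ValuationSubring F, V.comap (β : F' →+* F) = V₂' → V = V₃ ∨ V = V₂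
  only_β₁ : ∀ V : ValuationSubring F, V.comap (β : F' →+* F) = V₁' → V = V₁
  -- ### the uniformiser `π = j_{q²} - j` of the middle component, `π ^ (q - 1) = w · unit`
  pi_unif : UnifAt V₂ (jqq - j)
  pi_pow : UnitAt V₂ (algebraMap R F w * ((jqq - j) ^ (q - 1))⁻¹)
  -- ### Kronecker congruences on the three components
  kron₁ : jq - j ^ q ∈ V₁.nonunits ∧ jqq - jq ^ q ∈ V₁.nonunits
  kron₂ : jq - j ^ q ∈ V₂.nonunits ∧ jqq - j ∈ V₂.nonunits
  kron₃ : j - jq ^ q ∈ V₃.nonunits ∧ jq - jqq ^ q ∈ V₃.nonunits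

end Parts

/-- **VT (leaf, optional hub).**  The valuation-level table of the concrete objects. -/
def LeafVT : Prop :=
  Leaf fun P E M q _ _ _ w V₁' V₂' V₁ V₂ V₃ =>
    PartVT (R := A2.RE P E) w q (A2.Mod.αE E (M * q) q) (A2.Mod.βE E (M * q) q)
      (j1 E M q) (jq E M q) (jqq E M q) V₁ V₂ V₃ V₁' V₂'

end Fermat.Agent.S36.Mod3

end

end
-- ===== PACK-END S36/Mod3/SpecVT.lean

-- ===== PACK-BEGIN A2/Mod/H13/S1.lean
section



/-!
# WALL A2 / MODASM, sub-assembly S1 (helper13): the two components of the special fibre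

`s1 : VzeroNeStatement → DegStatement → IndInfStatement → IndZeroStatement → S1Statement`
(leaves L6, L8, L9, L10 of `Mod/Spec.lean`; L2 and L3 are used from main).

For both charts `B = chartAlg y`, `y ∈ {x, x⁻¹}`, `x = j · j_q`: the ideals `p∞ = B ∩ w V∞`,
`p₀ = B ∩ w V₀` are prime, incomparable, and `p∞ ⊓ p₀ = w B` (the special fibre is reduced with
exactly two components).  Proof: `Frame.lean` (leaves ⟹ frame) + helper489's
`frame_exists_components(_inv)` (frame ⟹ components; two-extension theorem + QEP2).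
-/

set_option autoImplicit false
set_option linter.unusedSectionVars false
set_option linter.style.haveILetI false
set_option synthInstance.maxHeartbeats 400000
set_option maxHeartbeats 1600000

noncomputable section

namespace Fermat.Agent.A2.Mod.H13

open ModularCurve HahnSeries Polynomial IntermediateField
open Fermat.Agent.A2 Fermat.Agent.A2.Mod

variable {P : ValuationSubring _root_.Fermat.Agent.A2.Mod.Qb} {E : IntermediateField ℚ _root_.Fermat.Agent.A2.Mod.Qb} {M q : ℕ} [NeZero M] [NeZero q]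
  {w : _root_.Fermat.Agent.A2.Mod.RE P E}

/-- **S1.** -/
theorem s1 (hL6 : VzeroNeStatement P E M q w) (hL8 : DegStatement E M q)
    (hL9 : IndInfStatement P E M q w) (hL10 : IndZeroStatement P E M q w) :
    S1Statement P E M q w := by
  intro hS V W hV hW y hy
  haveI := hS.dvr
  obtain ⟨htr, hfr, -⟩ := hL8 hS.q_prime hS.q_not_dvd
  obtain ⟨b, hb, hbI⟩ := hL9 hS V hV
  obtain ⟨c, hc, hcI⟩ := hL10 hS V W hV hW
  have hu : H48.IsUnif V (cE P E (M * q) w) :=
    (H553.vinfBasic P E w (M * q) (NeZero.ne _) hS.dvr hS.unif V hV).1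
  have hu₂ := isUnif_comap hu W
  have hG₁ := isGaussOver_xE hS.unif hV htr
  have hG₂ := isGaussOver_comap_xE hS.unif hV hW htr
  have hne : V ≠ V.comap (W : _root_.Fermat.Agent.A2.Mod.FE E (M * q) →+* _root_.Fermat.Agent.A2.Mod.FE E (M * q)) :=
    fun h => hL6 hS V W hV hW h.symm
  have hpos : 0 < Module.finrank (IntermediateField.adjoin E ({xE E M q} : Set (_root_.Fermat.Agent.A2.Mod.FE E (M * q))))
      (_root_.Fermat.Agent.A2.Mod.FE E (M * q)) := by
    rw [hfr]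
    have h1 := dedekindPsi_pos_of_ne_zero M (NeZero.ne M)
    positivity
  haveI hfin : FiniteDimensional (IntermediateField.adjoin E ({xE E M q} : Set (_root_.Fermat.Agent.A2.Mod.FE E (M * q))))
      (_root_.Fermat.Agent.A2.Mod.FE E (M * q)) := Module.finite_of_finrank_pos hpos
  have hdeg : Module.finrank (IntermediateField.adjoin E ({xE E M q} : Set (_root_.Fermat.Agent.A2.Mod.FE E (M * q))))
      (_root_.Fermat.Agent.A2.Mod.FE E (M * q)) ≤ (q + 1) * dedekindPsi M + (q + 1) * dedekindPsi M := by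
    rw [hfr, two_mul]
  have hI₁ := polyIndepMod_of_indepMod hS.unif hu hbI
  have hI₂ := polyIndepMod_of_indepMod hS.unif hu₂ hcI
  rcases hy with rfl | rfl
  · obtain ⟨p₁, p₂, hc₁, hc₂, hp₁, hp₂, -, h₁₂, h₂₁, hinf⟩ :=
      H489.frame_exists_components (E := E) hS.unif hG₁ hG₂ hu hu₂ hne hb hc hI₁ hI₂ hdeg
        (chartAlg P E (M * q) (xE E M q)) (fun _ => Iff.rfl)
    exact ⟨p₁, p₂, fun b => (hc₁ b).trans (inW_iff_mem_nonunits hu _).symm,
      fun b => (hc₂ b).trans (inW_iff_mem_nonunits hu₂ _).symm, hp₁, hp₂, h₁₂, h₂₁, hinf⟩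
  · obtain ⟨p₁, p₂, hc₁, hc₂, hp₁, hp₂, -, h₁₂, h₂₁, hinf⟩ :=
      H489.frame_exists_components_inv (E := E) hS.unif hG₁ hG₂ hu hu₂ hne hb hc hI₁ hI₂ hdeg
        (chartAlg P E (M * q) (xE E M q)⁻¹) (fun _ => Iff.rfl)
    exact ⟨p₁, p₂, fun b => (hc₁ b).trans (inW_iff_mem_nonunits hu _).symm,
      fun b => (hc₂ b).trans (inW_iff_mem_nonunits hu₂ _).symm, hp₁, hp₂, h₁₂, h₂₁, hinf⟩

end Fermat.Agent.A2.Mod.H13

end
end
-- ===== PACK-END A2/Mod/H13/S1.lean

-- ===== PACK-BEGIN S18/B12/H638/Normal.lean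
section



/-!
# S18 b2 (helper638): FULL NORMALITY of the special fibre — `B2NormalDomStatement`

Requested by row S37 (helper37, `coord/S37-b2-request.md`): hypothesis (H3) `lift_fin`/`lift_inf`
of the S37 reduction datum needs b2 for ALL integral elements of `Frac (B/wB)`, not only for
idempotents.

* `H638.B2NormalDomStatement` : the requested statement `B2NormalStatement`, with the extra hypothesis
  `hdom : Prime (algebraMap R[X] B (C w))` (the special fibre is a domain; in the application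
  `B/wB` embeds into `κ((q))` by the `q`-expansion principle).
* `B2IntClosedStatement` : same hypotheses, conclusion `IsIntegrallyClosed (B/wB)`.
* `b2IntClosed_of_pieces`, `b2NormalDom_of_pieces` : both from the frozen pieces
  `B2CoreAbsStatement` (A6'), `RegSeqAbsStatement` (A0), `IntClosedOfDiscrStatement` (A8),
  `PolyInstStatement` (A1) of `B12/Spec*.lean`.
* `b2NormalDom_of_intClosed` : the pure algebra step (no pieces): in a domain `B` with `w` prime and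
  `B/wB` integrally closed, `b/g` integral over `B/wB` implies `b ≡ g b₀ mod w`.
-/

set_option autoImplicit false
set_option linter.style.haveILetI false

noncomputable section

namespace Fermat.Agent.S18.B12.H638

open Polynomial

universe u v

/-- **b2, integrally closed form.**  Hypotheses of `B2RegularStatement`; conclusion: the special
fibre `B/wB` is an integrally closed domain. -/
def B2IntClosedStatement : Prop :=
  ∀ (R : Type u) [CommRing R] [IsDomain R] [IsDiscreteValuationRing R] [CharZero R]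
    (w : R) (_ : Irreducible w)
    (B : Type v) [CommRing B] [IsDomain B] [IsIntegrallyClosed B] [Algebra R[X] B]
    [Module.Finite R[X] B] [Module.IsTorsionFree R[X] B]
    (_ : Prime (algebraMap R[X] B (C w)))
    (_ : ∃ x : Fin (Module.finrank R[X] B) → B,
        ¬ C w ∣ (Matrix.of fun i j => Algebra.intTrace R[X] B (x i * x j)).det)
    (S : Finset R) (_ : ∀ c ∈ S, ∀ c' ∈ S, c ≠ c' → IsUnit (c - c'))
    (_ : ∀ π : R[X], Prime π → ¬ Associated π (C w) → (∀ c ∈ S, ¬ Associated π (X - C c)) →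
        (Ideal.span {algebraMap R[X] B π}).IsRadical),
    IsIntegrallyClosed (B ⧸ Ideal.span {algebraMap R[X] B (C w)})

/-- **b2, full normality form (domain case).**  `B2NormalStatement` of
`origin/helper37:coord/S37-b2-request.md` with the extra hypothesis that `w` is prime in `B`:
if `ε = b/g` satisfies `ε^d + Σ a_i ε^i = 0` in `Frac (B/wB)` then `ε ∈ B/wB`. -/
def B2NormalDomStatement : Prop :=
  ∀ (R : Type u) [CommRing R] [IsDomain R] [IsDiscreteValuationRing R] [CharZero R]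
    (w : R) (_ : Irreducible w)
    (B : Type v) [CommRing B] [IsDomain B] [IsIntegrallyClosed B] [Algebra R[X] B]
    [Module.Finite R[X] B] [Module.IsTorsionFree R[X] B]
    (_ : Prime (algebraMap R[X] B (C w)))
    (_ : ∃ x : Fin (Module.finrank R[X] B) → B,
        ¬ C w ∣ (Matrix.of fun i j => Algebra.intTrace R[X] B (x i * x j)).det)
    (S : Finset R) (_ : ∀ c ∈ S, ∀ c' ∈ S, c ≠ c' → IsUnit (c - c'))
    (_ : ∀ π : R[X], Prime π → ¬ Associated π (C w) → (∀ c ∈ S, ¬ Associated π (X - C c)) →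
        (Ideal.span {algebraMap R[X] B π}).IsRadical)
    (b : B) (g : R[X]), ¬ C w ∣ g →
    (∃ (d : ℕ) (a : Fin d → B),
        b ^ d + ∑ i : Fin d, a i * b ^ (i : ℕ) * algebraMap R[X] B g ^ (d - (i : ℕ)) ∈
          Ideal.span {algebraMap R[X] B (C w)}) →
      ∃ b₀ : B, b - algebraMap R[X] B g * b₀ ∈ Ideal.span {algebraMap R[X] B (C w)}


/-- In a torsion-free integral extension `B` of an integrally closed domain `P`, divisibility of
elements of `P` can be tested in `B`. -/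
theorem dvd_of_algebraMap_dvd {P : Type u} {B : Type v} [CommRing P] [IsDomain P]
    [IsIntegrallyClosed P] [CommRing B] [IsDomain B] [Algebra P B] [Algebra.IsIntegral P B]
    [Module.IsTorsionFree P B] (w g : P) (hw : w ≠ 0)
    (h : algebraMap P B w ∣ algebraMap P B g) : w ∣ g := by
  obtain ⟨c, hc⟩ := h
  have hinj : Function.Injective (algebraMap P B) := FaithfulSMul.algebraMap_injective P B
  let K := FractionRing P
  let L := FractionRing B
  have hinjL : Function.Injective (algebraMap P L) := by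
    rw [IsScalarTower.algebraMap_eq P B L]
    exact (IsFractionRing.injective B L).comp hinj
  haveI : FaithfulSMul P L := (faithfulSMul_iff_algebraMap_injective P L).mpr hinjL
  letI : Algebra K L := FractionRing.liftAlgebra P L
  haveI : IsScalarTower P K L := FractionRing.isScalarTower_liftAlgebra P L
  have hwK : algebraMap P K w ≠ 0 := by
    intro h0
    exact hw ((IsFractionRing.injective P K) (by rw [h0, map_zero]))
  set k : K := algebraMap P K g / algebraMap P K w with hk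
  have hkL : algebraMap K L k = algebraMap B L c := by
    have hwL : algebraMap K L (algebraMap P K w) ≠ 0 := by
      intro h0
      exact hwK ((algebraMap K L).injective (by rw [h0, map_zero]))
    rw [hk, map_div₀, div_eq_iff hwL, ← IsScalarTower.algebraMap_apply P K L,
      ← IsScalarTower.algebraMap_apply P K L, IsScalarTower.algebraMap_apply P B L g, hc,
      map_mul, IsScalarTower.algebraMap_apply P B L w, mul_comm]
  have hint : IsIntegral P k := by
    have h1 : IsIntegral P (algebraMap B L c) :=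
      (Algebra.IsIntegral.isIntegral (R := P) c).algebraMap
    rw [← hkL] at h1
    exact (isIntegral_algebraMap_iff (algebraMap K L).injective).mp h1
  obtain ⟨y, hy⟩ := (IsIntegrallyClosed.isIntegral_iff (R := P) (K := K)).mp hint
  refine ⟨y, ?_⟩
  apply IsFractionRing.injective P K
  rw [map_mul, hy, hk, mul_div_cancel₀ _ hwK]

/-- **Pure algebra step.**  `B` a commutative ring, `ϖ ∈ B` prime with `B/ϖB` integrally closed,
`γ ∉ ϖB`.  If `b^d + Σ_{i<d} a_i b^i γ^(d-i) ∈ ϖB` then `b ≡ γ b₀ mod ϖ` for some `b₀`. -/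
theorem exists_sub_mul_mem_of_isIntegrallyClosed {B : Type v} [CommRing B] (ϖ : B)
    (hϖ : Prime ϖ) [IsIntegrallyClosed (B ⧸ Ideal.span {ϖ})] (b γ : B)
    (hγ : γ ∉ Ideal.span {ϖ}) (d : ℕ) (a : Fin d → B)
    (h : b ^ d + ∑ i : Fin d, a i * b ^ (i : ℕ) * γ ^ (d - (i : ℕ)) ∈ Ideal.span {ϖ}) :
    ∃ b₀ : B, b - γ * b₀ ∈ Ideal.span {ϖ} := by
  haveI hprime : (Ideal.span {ϖ}).IsPrime := (Ideal.span_singleton_prime hϖ.ne_zero).mpr hϖ
  haveI : IsDomain (B ⧸ Ideal.span {ϖ}) := Ideal.Quotient.isDomain _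
  set Cq := B ⧸ Ideal.span {ϖ} with hCq
  set K := FractionRing Cq with hK
  let mk : B →+* Cq := Ideal.Quotient.mk _
  have hγ0 : mk γ ≠ 0 := fun h0 => hγ (Ideal.Quotient.eq_zero_iff_mem.mp h0)
  have hγK : algebraMap Cq K (mk γ) ≠ 0 := by
    intro h0
    exact hγ0 ((IsFractionRing.injective Cq K) (by rw [h0, map_zero]))
  -- the equation in `Cq`
  have heq : mk b ^ d + ∑ i : Fin d, mk (a i) * mk b ^ (i : ℕ) * mk γ ^ (d - (i : ℕ)) = 0 := by
    have := Ideal.Quotient.eq_zero_iff_mem.mpr h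
    simpa [map_add, map_sum, map_mul, map_pow] using this
  -- the monic polynomial
  let p : Cq[X] := X ^ d + ∑ i : Fin d, C (mk (a i)) * X ^ (i : ℕ)
  have hlt : (∑ i : Fin d, C (mk (a i)) * X ^ (i : ℕ) : Cq[X]).degree < (d : WithBot ℕ) :=
    Polynomial.degree_sum_fin_lt fun i => mk (a i)
  have hmonic : p.Monic := Polynomial.monic_X_pow_add hlt
  set ε : K := algebraMap Cq K (mk b) / algebraMap Cq K (mk γ) with hε
  have hroot : Polynomial.eval₂ (algebraMap Cq K) ε p = 0 := by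
    have h1 := congrArg (algebraMap Cq K) heq
    simp only [map_add, map_sum, map_mul, map_pow, map_zero] at h1
    have hb : algebraMap Cq K (mk b) = ε * algebraMap Cq K (mk γ) := by
      rw [hε, div_mul_cancel₀ _ hγK]
    simp only [p, Polynomial.eval₂_add, Polynomial.eval₂_pow, Polynomial.eval₂_X,
      Polynomial.eval₂_finsetSum, Polynomial.eval₂_mul, Polynomial.eval₂_C]
    have hgd : (algebraMap Cq K (mk γ)) ^ d ≠ 0 := pow_ne_zero _ hγK
    apply mul_right_cancel₀ hgd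
    rw [zero_mul, add_mul, Finset.sum_mul, ← h1, hb]
    congr 1
    · rw [mul_pow]
    · refine Finset.sum_congr rfl fun i _ => ?_
      have hi : (i : ℕ) + (d - (i : ℕ)) = d := Nat.add_sub_cancel' i.2.le
      calc algebraMap Cq K (mk (a i)) * ε ^ (i : ℕ) * algebraMap Cq K (mk γ) ^ d
          = algebraMap Cq K (mk (a i)) * ε ^ (i : ℕ) *
              (algebraMap Cq K (mk γ) ^ (i : ℕ) * algebraMap Cq K (mk γ) ^ (d - (i : ℕ))) := by
            rw [← pow_add, hi]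
        _ = algebraMap Cq K (mk (a i)) * (ε * algebraMap Cq K (mk γ)) ^ (i : ℕ) *
              algebraMap Cq K (mk γ) ^ (d - (i : ℕ)) := by
            rw [mul_pow]; ring
  have hint : IsIntegral Cq ε := ⟨p, hmonic, hroot⟩
  obtain ⟨c, hc⟩ := (IsIntegrallyClosed.isIntegral_iff (R := Cq) (K := K)).mp hint
  obtain ⟨b₀, rfl⟩ := Ideal.Quotient.mk_surjective c
  refine ⟨b₀, ?_⟩
  rw [← Ideal.Quotient.eq_zero_iff_mem, map_sub, map_mul, sub_eq_zero]
  apply IsFractionRing.injective Cq K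
  rw [map_mul]
  change algebraMap Cq K (mk b) = algebraMap Cq K (mk γ) * algebraMap Cq K (mk b₀)
  rw [hc, hε, mul_div_cancel₀ _ hγK]

/-- `B2IntClosedStatement` from the frozen pieces (first half of `H33.b2Regular_of_pieces`). -/
theorem b2IntClosed_of_pieces
    (hcore : B2CoreAbsStatement.{u, v}) (hA0 : RegSeqAbsStatement.{u, v})
    (hA8 : IntClosedOfDiscrStatement.{u, v}) (hA1 : PolyInstStatement.{u}) :
    B2IntClosedStatement.{u, v} := by
  intro R _ _ _ _ w hw B _ _ _ _ _ _ hdom hsep S hS hNC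
  obtain ⟨hCw, hΛ, hΛ₀, hℚ, hc⟩ := hA1 R w hw
  have hJ : (Ideal.span {(C w : R[X])}).map (algebraMap R[X] B)
      = Ideal.span {algebraMap R[X] B (C w)} := by
    rw [Ideal.map_span, Set.image_singleton]
  rw [← hJ]
  -- instances on the special fibre
  haveI hJprime : ((Ideal.span {(C w : R[X])}).map (algebraMap R[X] B)).IsPrime := by
    rw [hJ]; exact (Ideal.span_singleton_prime hdom.ne_zero).mpr hdom
  haveI := hΛ
  haveI : IsDomain (R[X] ⧸ Ideal.span {(C w : R[X])}) := by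
    rw [Ideal.Quotient.isDomain_iff_prime]
    exact (Ideal.span_singleton_prime hCw.ne_zero).mpr hCw
  haveI tf := H33.isTorsionFree_quotient (B := B) hA0 (C w : R[X]) hCw
  haveI : Module.Finite (R[X] ⧸ Ideal.span {(C w : R[X])})
      (B ⧸ (Ideal.span {(C w : R[X])}).map (algebraMap R[X] B)) :=
    Module.Finite.of_restrictScalars_finite R[X] _ _
  haveI : Module.Free (R[X] ⧸ Ideal.span {(C w : R[X])})
      (B ⧸ (Ideal.span {(C w : R[X])}).map (algebraMap R[X] B)) :=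
    Module.free_of_finite_type_torsion_free'
  let bb := Module.finBasis (R[X] ⧸ Ideal.span {(C w : R[X])})
      (B ⧸ (Ideal.span {(C w : R[X])}).map (algebraMap R[X] B))
  -- translate the hypotheses
  classical
  have hS1' : ∀ s ∈ S.image (fun c => (X - C c : R[X])), Prime s ∧ ¬ Associated s (C w) ∧
      (Ideal.span {(C w : R[X]), s}).IsMaximal ∧
      IsPrincipalIdealRing (R[X] ⧸ Ideal.span {s}) := by
    intro s hs
    obtain ⟨c, -, rfl⟩ := Finset.mem_image.mp hs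
    obtain ⟨h1, h2, h3, h4, -⟩ := hc c
    exact ⟨h1, h2, h3, h4⟩
  have hS2' : ∀ s ∈ S.image (fun c => (X - C c : R[X])),
      ∀ s' ∈ S.image (fun c => (X - C c : R[X])), s ≠ s' →
      s' ∉ Ideal.span {(C w : R[X]), s} := by
    intro s hs s' hs' hne hmem
    obtain ⟨c, hcS, rfl⟩ := Finset.mem_image.mp hs
    obtain ⟨c', hcS', rfl⟩ := Finset.mem_image.mp hs'
    have hcc : c ≠ c' := fun h => hne (by rw [h])
    exact (hc c).2.2.2.2 c' hmem (hS c hcS c' hcS' hcc)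
  have hNC' : ∀ π : R[X], Prime π → ¬ Associated π (C w) →
      (∀ s ∈ S.image (fun c => (X - C c : R[X])), ¬ Associated π s) →
      (Ideal.span {algebraMap R[X] B π}).IsRadical := by
    intro π hπ hπw hπS
    exact hNC π hπ hπw (fun c hcS => hπS _ (Finset.mem_image_of_mem _ hcS))
  have hcore' := hcore R[X] (C w) hCw hΛ hΛ₀ hℚ B hsep (S.image (fun c => (X - C c : R[X])))
    hS1' hS2' hNC'
  -- a prime of `Λ`
  obtain ⟨h01, h02, h03, -, -⟩ := hc 0
  have hw0 : ¬ (C w : R[X]) ∣ X - C 0 := by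
    intro hdvd
    obtain ⟨r, hr⟩ := hdvd
    rcases h01.irreducible.isUnit_or_isUnit hr with h | h
    · exact hCw.not_isUnit h
    · exact h02 ⟨h.unit⁻¹, by rw [hr, mul_assoc, IsUnit.mul_val_inv, mul_one]⟩
  have ht₀ := H33.prime_mk_of_isMaximal (C w : R[X]) (X - C 0) hCw h03 hw0
  have hdisc := (hcore' _ ht₀ _ bb).1
  exact hA8 _ _ _ bb hdisc (fun t ht => (hcore' t ht _ bb).2)

/-- `B2NormalDomStatement` from `B2IntClosedStatement` (pure algebra). -/
theorem b2NormalDom_of_intClosed (hIC : B2IntClosedStatement.{u, v}) :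
    B2NormalDomStatement.{u, v} := by
  intro R _ _ _ _ w hw B _ _ _ _ _ _ hdom hsep S hS hNC b g hg hex
  obtain ⟨d, a, h⟩ := hex
  haveI := hIC R w hw B hdom hsep S hS hNC
  refine exists_sub_mul_mem_of_isIntegrallyClosed (algebraMap R[X] B (C w)) hdom b
    (algebraMap R[X] B g) ?_ d a h
  -- `g ∉ wB` from `¬ C w ∣ g`: `B` is integrally closed, `g / w ∈ Frac R[X]` integral
  intro hmem
  haveI : IsIntegrallyClosed R[X] := inferInstance
  have hCw : (C w : R[X]) ≠ 0 := by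
    rw [Ne, Polynomial.C_eq_zero]; exact hw.ne_zero
  exact hg (dvd_of_algebraMap_dvd (P := R[X]) (B := B) (C w) g hCw
    (Ideal.mem_span_singleton.mp hmem))

/-- **`B2NormalDomStatement` from the frozen pieces.** -/
theorem b2NormalDom_of_pieces
    (hcore : B2CoreAbsStatement.{u, v}) (hA0 : RegSeqAbsStatement.{u, v})
    (hA8 : IntClosedOfDiscrStatement.{u, v}) (hA1 : PolyInstStatement.{u}) :
    B2NormalDomStatement.{u, v} :=
  b2NormalDom_of_intClosed (b2IntClosed_of_pieces hcore hA0 hA8 hA1)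

end Fermat.Agent.S18.B12.H638

end
end
-- ===== PACK-END S18/B12/H638/Normal.lean

-- ===== PACK-BEGIN S18/B12/H638/NormalFinal.lean
section











/-!
# S18 b2 (helper638): FULL NORMALITY of the special fibre, UNCONDITIONAL

Assembly of the landed b2.5 pieces (A0, A2, A2' helper93; A3, A4, A5', A1 helper203; A5 helper444;
A8 helper84 with Theorem L of helper278; heart A6' helper33):

* `b2CoreAbs : B2CoreAbsStatement` (the heart, unconditional);
* `b2IntClosed : B2IntClosedStatement` — `R` DVR of char 0, `B` normal, finite, torsion-free over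
  `R[X]`, `w` prime in `B`, `hsep`, branch values `S` distinct mod `w`, unramified outside `S`
  ⟹ `B/wB` is integrally closed;
* `b2NormalDom : B2NormalDomStatement` — the shape requested by row S37
  (`origin/helper37:coord/S37-b2-request.md`, with `hdom`);
* `b2Regular : B2RegularStatement` (output O1 of `B12/Spec3.lean`).
-/

set_option autoImplicit false

namespace Fermat.Agent.S18.B12.H638

universe u v

/-- The heart A6' of b2, unconditional. -/
theorem b2CoreAbs : B2CoreAbsStatement.{u, v} :=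
  H33.b2CoreAbs_of_pieces H93.regSeqAbs H93.localBasis H93.localBasisRank H203.discrRed
    H203.ufdStep H444.genericDiscr H203.redBasisAbs

/-- **b2, integrally closed form, unconditional.** -/
theorem b2IntClosed : B2IntClosedStatement.{u, v} :=
  b2IntClosed_of_pieces b2CoreAbs H93.regSeqAbs H84.a8 H203.polyInst

/-- **b2, full normality form (domain case), unconditional.** -/
theorem b2NormalDom : B2NormalDomStatement.{u, v} :=
  b2NormalDom_of_intClosed b2IntClosed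

/-- **b2, regular form (output O1), unconditional.** -/
theorem b2Regular : B2RegularStatement.{u, v} :=
  H33.b2Regular_of_pieces b2CoreAbs H93.regSeqAbs H84.a8 H84.a9 H203.polyInst

end Fermat.Agent.S18.B12.H638

end
-- ===== PACK-END S18/B12/H638/NormalFinal.lean

-- ===== PACK-BEGIN A2/Mod/H489/S1.lean
section



/-!
# WALL A2 / MODASM — sub-assembly S1 (helper489): the two components of both charts

`s1_of_leaves : L2 → L6 → L8 → L9 → L10 → S1Statement P E M q w`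
(`Fermat/Agent/A2/Mod/Asm.lean`, statement VERBATIM; the leaves are the `…Statement`s of
`Fermat/Agent/A2/Mod/Spec.lean`, VERBATIM; L3 is not needed: the Gauss property of `V∞` and `V₀`
on `E(x)` follows from the residue independence L9 / L10).

Proof: `H489.frame_exists_components` (chart of `x`) and `H489.frame_exists_components_inv`
(chart of `x⁻¹`), i.e. helper48's `GaussPairLe.qep2` + incomparability by weak approximation.
-/

set_option autoImplicit false
set_option linter.unusedSectionVars false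
set_option linter.style.haveILetI false
set_option synthInstance.maxHeartbeats 400000
set_option maxHeartbeats 1600000

noncomputable section

namespace Fermat.Agent.A2.Mod.H489

open ModularCurve HahnSeries Polynomial IsLocalRing
open Fermat.Agent.A2 Fermat.Agent.A2.Mod

variable (P : ValuationSubring _root_.Fermat.Agent.A2.Mod.Qb) (E : IntermediateField ℚ _root_.Fermat.Agent.A2.Mod.Qb) (N : ℕ)

/-- `ev` is `aeval`. -/
theorem ev_eq_aeval (x : _root_.Fermat.Agent.A2.Mod.FE E N) (a : Polynomial (_root_.Fermat.Agent.A2.Mod.RE P E)) :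
    ev P E N x a = aeval x a := rfl

/-- `cE` is the structure map. -/
theorem cE_eq_algebraMap (r : _root_.Fermat.Agent.A2.Mod.RE P E) : cE P E N r = algebraMap (_root_.Fermat.Agent.A2.Mod.RE P E) (_root_.Fermat.Agent.A2.Mod.FE E N) r := rfl

variable {P E N}

/-- `InW` in terms of the maximal ideal. -/
theorem inW_iff_mem_nonunits {V : ValuationSubring (_root_.Fermat.Agent.A2.Mod.FE E N)} {w : _root_.Fermat.Agent.A2.Mod.RE P E}
    (hu : H48.IsUnif V (algebraMap (_root_.Fermat.Agent.A2.Mod.RE P E) (_root_.Fermat.Agent.A2.Mod.FE E N) w)) (f : _root_.Fermat.Agent.A2.Mod.FE E N) :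
    InW P E N V w f ↔ f ∈ V.nonunits := by
  rw [ValuationSubring.mem_nonunits_iff, ← hu.mul_inv_mem_iff]
  rfl

/-- the uniformiser is a uniformiser of `V ∘ W` for every `E`-automorphism `W` -/
theorem isUnif_comap {V : ValuationSubring (_root_.Fermat.Agent.A2.Mod.FE E N)} {w : _root_.Fermat.Agent.A2.Mod.RE P E}
    (hu : H48.IsUnif V (algebraMap (_root_.Fermat.Agent.A2.Mod.RE P E) (_root_.Fermat.Agent.A2.Mod.FE E N) w)) (W : _root_.Fermat.Agent.A2.Mod.FE E N ≃ₐ[E] _root_.Fermat.Agent.A2.Mod.FE E N) :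
    H48.IsUnif (V.comap (W : _root_.Fermat.Agent.A2.Mod.FE E N →+* _root_.Fermat.Agent.A2.Mod.FE E N)) (algebraMap (_root_.Fermat.Agent.A2.Mod.RE P E) (_root_.Fermat.Agent.A2.Mod.FE E N) w) := by
  have hW : W (algebraMap (_root_.Fermat.Agent.A2.Mod.RE P E) (_root_.Fermat.Agent.A2.Mod.FE E N) w) = algebraMap (_root_.Fermat.Agent.A2.Mod.RE P E) (_root_.Fermat.Agent.A2.Mod.FE E N) w :=
    W.commutes (w : E)
  refine ⟨?_, ?_, ?_⟩
  · show W _ ∈ V
    rw [hW]
    exact hu.mem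
  · show ¬ W _ ∈ V
    rw [map_inv₀, hW]
    exact hu.inv_not_mem
  · intro f hf hfinv
    show W _ ∈ V
    rw [map_mul, map_inv₀, hW]
    refine hu.gen (W f) hf ?_
    intro h
    apply hfinv
    show W _ ∈ V
    rw [map_inv₀]
    exact h

/-- `V` lies over `R_E`. -/
theorem isOver_of_unif [IsDiscreteValuationRing (_root_.Fermat.Agent.A2.Mod.RE P E)] {V : ValuationSubring (_root_.Fermat.Agent.A2.Mod.FE E N)}
    {w : _root_.Fermat.Agent.A2.Mod.RE P E} (hw : Irreducible w)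
    (hu : H48.IsUnif V (algebraMap (_root_.Fermat.Agent.A2.Mod.RE P E) (_root_.Fermat.Agent.A2.Mod.FE E N) w))
    (hmem : ∀ r : _root_.Fermat.Agent.A2.Mod.RE P E, algebraMap (_root_.Fermat.Agent.A2.Mod.RE P E) (_root_.Fermat.Agent.A2.Mod.FE E N) r ∈ V) :
    Fermat.Agent.A2.H489.IsOver (_root_.Fermat.Agent.A2.Mod.RE P E) V where
  mem := hmem
  nonunit := by
    intro r hr
    rw [hw.maximalIdeal_eq, Ideal.mem_span_singleton] at hr
    obtain ⟨r', rfl⟩ := hr
    rw [map_mul, mul_comm]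
    exact Fermat.Agent.A2.H489.mem_mul_nonunits (hmem r')
      ((ValuationSubring.mem_nonunits_iff V).mpr hu.val_lt_one)

/-- `IndepMod` (Spec) gives `PolyIndepMod` (frame). -/
theorem polyIndepMod_of_indepMod [IsDiscreteValuationRing (_root_.Fermat.Agent.A2.Mod.RE P E)]
    {V : ValuationSubring (_root_.Fermat.Agent.A2.Mod.FE E N)} {w : _root_.Fermat.Agent.A2.Mod.RE P E} (hw : Irreducible w)
    (hu : H48.IsUnif V (algebraMap (_root_.Fermat.Agent.A2.Mod.RE P E) (_root_.Fermat.Agent.A2.Mod.FE E N) w)) {x : _root_.Fermat.Agent.A2.Mod.FE E N} {n : ℕ}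
    {b : Fin n → _root_.Fermat.Agent.A2.Mod.FE E N} (hI : IndepMod P E N V w x b) :
    Fermat.Agent.A2.H489.PolyIndepMod (_root_.Fermat.Agent.A2.Mod.RE P E) V x b := by
  intro a ha i
  rw [← Fermat.Agent.A2.H489.C_dvd_iff_map_residue_eq_zero hw]
  exact hI a ((inW_iff_mem_nonunits hu _).mpr ha) i

/-- `p = B ∩ 𝔪_V` is `IsCut`. -/
theorem isCut_of_mem_iff {V : ValuationSubring (_root_.Fermat.Agent.A2.Mod.FE E N)} {w : _root_.Fermat.Agent.A2.Mod.RE P E}
    (hu : H48.IsUnif V (algebraMap (_root_.Fermat.Agent.A2.Mod.RE P E) (_root_.Fermat.Agent.A2.Mod.FE E N) w))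
    {B : Subalgebra (_root_.Fermat.Agent.A2.Mod.RE P E) (_root_.Fermat.Agent.A2.Mod.FE E N)} {p : Ideal B}
    (hp : ∀ b : B, b ∈ p ↔ (b : _root_.Fermat.Agent.A2.Mod.FE E N) ∈ V.nonunits) : IsCut P E N w V B p :=
  fun b => (hp b).trans (inW_iff_mem_nonunits hu _).symm

/-- **MODASM sub-assembly S1** from the leaves L2, L6, L8, L9, L10 (all VERBATIM). -/
theorem s1_of_leaves (P : ValuationSubring _root_.Fermat.Agent.A2.Mod.Qb) (E : IntermediateField ℚ _root_.Fermat.Agent.A2.Mod.Qb) (M q : ℕ)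
    [NeZero M] [NeZero q] (w : _root_.Fermat.Agent.A2.Mod.RE P E)
    (hL2 : VinfBasicStatement P E w) (hL6 : VzeroNeStatement P E M q w)
    (hL8 : DegStatement E M q) (hL9 : IndInfStatement P E M q w)
    (hL10 : IndZeroStatement P E M q w) : S1Statement P E M q w := by
  intro hS V W hV hW y hy
  haveI hdvr : IsDiscreteValuationRing (_root_.Fermat.Agent.A2.Mod.RE P E) := hS.dvr
  have hw := hS.unif
  have hN : M * q ≠ 0 := mul_ne_zero hS.M_ne_zero hS.q_prime.ne_zero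
  obtain ⟨hu, hconst, hj⟩ := hL2 (M * q) hN hdvr hw V hV
  have hu₂ := isUnif_comap hu W
  have hmem₁ : ∀ r : _root_.Fermat.Agent.A2.Mod.RE P E, algebraMap (_root_.Fermat.Agent.A2.Mod.RE P E) (_root_.Fermat.Agent.A2.Mod.FE E (M * q)) r ∈ V :=
    fun r => (hconst (r : E)).mpr r.2
  have hmem₂ : ∀ r : _root_.Fermat.Agent.A2.Mod.RE P E, algebraMap (_root_.Fermat.Agent.A2.Mod.RE P E) (_root_.Fermat.Agent.A2.Mod.FE E (M * q)) r ∈
      V.comap (W : _root_.Fermat.Agent.A2.Mod.FE E (M * q) →+* _root_.Fermat.Agent.A2.Mod.FE E (M * q)) := by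
    intro r
    show W (algebraMap E (_root_.Fermat.Agent.A2.Mod.FE E (M * q)) (r : E)) ∈ V
    rw [W.commutes]
    exact hmem₁ r
  have ho₁ := isOver_of_unif hw hu hmem₁
  have ho₂ := isOver_of_unif hw hu₂ hmem₂
  obtain ⟨b, hb, hIb⟩ := hL9 hS V hV
  obtain ⟨c, hc, hIc⟩ := hL10 hS V W hV hW
  have hx₁ : xE E M q ∈ V := mul_mem (hj 1 (one_dvd _)).1 (hj q (dvd_mul_left q M)).1
  have hx₂ : xE E M q ∈ V.comap (W : _root_.Fermat.Agent.A2.Mod.FE E (M * q) →+* _root_.Fermat.Agent.A2.Mod.FE E (M * q)) := by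
    show W (xE E M q) ∈ V
    unfold xE
    rw [map_mul, hW.1 1 (M * q) (one_dvd _) (dvd_refl _) (one_mul _),
      hW.1 q M (dvd_mul_left q M) (dvd_mul_right M q) (mul_comm q M)]
    exact mul_mem (hj _ _).1 (hj _ _).1
  have hpos : 0 < (q + 1) * dedekindPsi M :=
    Nat.mul_pos (Nat.succ_pos q) (dedekindPsi_pos_of_ne_zero M hS.M_ne_zero)
  have hP₁ := polyIndepMod_of_indepMod hw hu hIb
  have hP₂ := polyIndepMod_of_indepMod hw hu₂ hIc
  have hG₁ := Fermat.Agent.A2.H489.IsGaussOver.of_polyIndepMod ho₁ hx₁ hpos hb hP₁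
  have hG₂ := Fermat.Agent.A2.H489.IsGaussOver.of_polyIndepMod ho₂ hx₂ hpos hc hP₂
  have hne : V ≠ V.comap (W : _root_.Fermat.Agent.A2.Mod.FE E (M * q) →+* _root_.Fermat.Agent.A2.Mod.FE E (M * q)) :=
    fun h => hL6 hS V W hV hW h.symm
  obtain ⟨-, hdeg, -⟩ := hL8 hS.q_prime hS.q_not_dvd
  haveI hfin : FiniteDimensional
      (IntermediateField.adjoin E ({xE E M q} : Set (_root_.Fermat.Agent.A2.Mod.FE E (M * q)))) (_root_.Fermat.Agent.A2.Mod.FE E (M * q)) :=
    Module.finite_of_finrank_pos (by rw [hdeg]; omega)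
  have hdeg' : Module.finrank
      (IntermediateField.adjoin E ({xE E M q} : Set (_root_.Fermat.Agent.A2.Mod.FE E (M * q)))) (_root_.Fermat.Agent.A2.Mod.FE E (M * q)) ≤
      (q + 1) * dedekindPsi M + (q + 1) * dedekindPsi M := by
    rw [hdeg]
    omega
  rcases hy with rfl | rfl
  · obtain ⟨p₁, p₂, hp₁, hp₂, hpr₁, hpr₂, -, h12, h21, hinf⟩ :=
      Fermat.Agent.A2.H489.frame_exists_components (E := E) hw hG₁ hG₂ hu hu₂ hne hb hc
        hP₁ hP₂ hdeg' (chartAlg P E (M * q) (xE E M q)) (fun _ => Iff.rfl)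
    exact ⟨p₁, p₂, isCut_of_mem_iff hu hp₁, isCut_of_mem_iff hu₂ hp₂, hpr₁, hpr₂, h12, h21,
      hinf⟩
  · obtain ⟨p₁, p₂, hp₁, hp₂, hpr₁, hpr₂, -, h12, h21, hinf⟩ :=
      Fermat.Agent.A2.H489.frame_exists_components_inv (E := E) hw hG₁ hG₂ hu hu₂ hne hb hc
        hP₁ hP₂ hdeg' (chartAlg P E (M * q) (xE E M q)⁻¹) (fun _ => Iff.rfl)
    exact ⟨p₁, p₂, isCut_of_mem_iff hu hp₁, isCut_of_mem_iff hu₂ hp₂, hpr₁, hpr₂, h12, h21,
      hinf⟩

end Fermat.Agent.A2.Mod.H489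

end
end
-- ===== PACK-END A2/Mod/H489/S1.lean

-- ===== PACK-BEGIN S36/Mod3/H928/RegSkel.lean
section


/-!
# S36 / MOD3 — the last leaf REG: final targets and glue (helper928, integrator)

`Mod3.LeafReg` is cut into the three end products of the REG swarm (LEAFREG PLAN v2, route R4:
the MIDDLE disjunct of `regular_f` at every closed point of the middle component):

* `LeafRegF4` : `4 ∣ M`, `q ≠ 2`  ⟹ `PrincipalAt (chart R {x}) 𝔪 V₂` for all maximal `𝔪` with
                `Through 𝔪 V₂`   (Hauptmodul `t₄`);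
* `LeafRegF9` : `9 ∣ M`, `q = 2`  ⟹ the same   (Hauptmodul `t₉`);
* `LeafRegI928` : the field `regular_i` VERBATIM (cusps of the middle component).

`leafReg_of_f4_f9_i : LeafRegF4 → LeafRegF9 → LeafRegI928 → Mod3.LeafReg`
(`Std.neat : NeatFor M q` gives `q ≠ 2 → 4 ∣ M` and `q = 2 → 9 ∣ M`).
-/

set_option autoImplicit false

noncomputable section

namespace Fermat.Agent.S36.Mod3.H928

open Fermat.Agent.S18.H138 (chart)
open Fermat.Agent.S36.Eng Fermat.Agent.S36.Mod3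

/-- The middle disjunct of `regular_f` at every closed point of the middle component. -/
def LeafRegF : Prop :=
  Leaf fun P E M q _ _ _ _ _ _ _ V₂ _ =>
    ∀ 𝔪 : Ideal (chart (A2.RE P E) ({x3E E M q} : Set (A2.Mod.FE E (M * q * q)))),
      𝔪.IsMaximal → Through _ 𝔪 V₂ → PrincipalAt _ 𝔪 V₂

/-- `LeafRegF` for `q` odd (`4 ∣ M`). -/
def LeafRegF4 : Prop :=
  Leaf fun P E M q _ _ _ _ _ _ _ V₂ _ => 4 ∣ M → q ≠ 2 →
    ∀ 𝔪 : Ideal (chart (A2.RE P E) ({x3E E M q} : Set (A2.Mod.FE E (M * q * q)))),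
      𝔪.IsMaximal → Through _ 𝔪 V₂ → PrincipalAt _ 𝔪 V₂

/-- `LeafRegF` for `q = 2` (`9 ∣ M`). -/
def LeafRegF9 : Prop :=
  Leaf fun P E M q _ _ _ _ _ _ _ V₂ _ => 9 ∣ M → q = 2 →
    ∀ 𝔪 : Ideal (chart (A2.RE P E) ({x3E E M q} : Set (A2.Mod.FE E (M * q * q)))),
      𝔪.IsMaximal → Through _ 𝔪 V₂ → PrincipalAt _ 𝔪 V₂

/-- The field `regular_i` of `PartReg` at the concrete objects, VERBATIM. -/
def LeafRegI928 : Prop :=
  Leaf fun P E M q _ _ _ _ _ _ _ V₂ _ =>
    ∀ 𝔪 : Ideal (chart (A2.RE P E) ({(x3E E M q)⁻¹} : Set (A2.Mod.FE E (M * q * q)))),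
      𝔪.IsMaximal →
      (⟨(x3E E M q)⁻¹, Fermat.Agent.S18.H138.mem_chart_of_mem rfl⟩ :
        chart (A2.RE P E) ({(x3E E M q)⁻¹} : Set (A2.Mod.FE E (M * q * q)))) ∈ 𝔪 →
      Through _ 𝔪 V₂ → PrincipalAt _ 𝔪 V₂

theorem leafRegF_of_f4_f9 (h4 : LeafRegF4) (h9 : LeafRegF9) : LeafRegF := by
  intro P E M q _ _ _ w hStd V₁' V₂' V₁ V₂ V₃ W' W hO
  by_cases hq : q = 2
  · exact h9 P E M q w hStd V₁' V₂' V₁ V₂ V₃ W' W hO (hStd.neat.2.2 hq) hq
  · exact h4 P E M q w hStd V₁' V₂' V₁ V₂ V₃ W' W hO (hStd.neat.2.1 hq) hq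

/-- **REG** from its middle disjunct and `regular_i`. -/
theorem leafReg_of_mid_i (hF : LeafRegF) (hI : LeafRegI928) : LeafReg := by
  intro P E M q _ _ _ w hStd V₁' V₂' V₁ V₂ V₃ W' W hO
  exact
    { regular_f := fun 𝔪 h𝔪 ht =>
        Or.inr (Or.inl (hF P E M q w hStd V₁' V₂' V₁ V₂ V₃ W' W hO 𝔪 h𝔪 ht))
      regular_i := hI P E M q w hStd V₁' V₂' V₁ V₂ V₃ W' W hO }

/-- **REG** from the three end products of the REG swarm. -/
theorem leafReg_of_f4_f9_i (h4 : LeafRegF4) (h9 : LeafRegF9) (hI : LeafRegI928) : LeafReg :=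
  leafReg_of_mid_i (leafRegF_of_f4_f9 h4 h9) hI

end Fermat.Agent.S36.Mod3.H928

end

end
-- ===== PACK-END S36/Mod3/H928/RegSkel.lean

-- ===== PACK-BEGIN S36/H878/RegSelf.lean
section


/-!
# PU-self in the vocabulary of `Eng.TripleCtx` (helper878, S36 cell REG / MOD3 leaf `LeafReg`)

Elementwise form of `S36.H878.principal_of_unit_self`: NO Hartogs lemma, NO noetherianity,
NO localisation, NO `IsLocDVR`.  Everything is read off from `Eng.Qep3`.

`B ⊆ V₁ ∩ V₂ ∩ V₃` a chart with `Qep3 w B V₁ V₂ V₃`, `𝔪` a closed point on the component `V₂`,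

* `U ∈ B` a unit of `B[1/w]` (`U d = w ^ k`), a unit of `V₁` and of `V₃`
  (`U = U_m`, the modular unit with divisor `N · [mid]`),
* `x ∈ B` a uniformiser of `V₂`,
* `g ∈ B`, `g ∉ 𝔪`, with `x ^ N / U ≡ g` modulo `𝔪_{V₂}`.

Then `ω = x ^ N / U` lies in `B \ 𝔪` and `ω a = x (a x ^ (N - 1) / U)` for every `a ∈ B ∩ 𝔪_{V₂}`:
this is `Eng.PrincipalAt B 𝔪 V₂` with generator `x`.

* `qep3_pow`                        : `Qep3` iterated (`b / w ^ k ∈ V₁ ∩ V₂ ∩ V₃ ⟹ b / w ^ k ∈ B`);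
* `principalAt_of_unit_self`        : the statement above;
* `unifAt_of_pow`                   : `x ^ N / U` and `U / t ^ N` units, `t` uniformiser ⟹ `x`
                                      uniformiser;
* `principalAt_of_unit_self'`       : the same with `v₂(U) = N` instead of "`x` uniformiser".
-/

set_option autoImplicit false

namespace Fermat.Agent.S36.H878

open Fermat.Agent.S36.Eng

variable {R F : Type*} [CommRing R] [Field F] [Algebra R F]

/-- `Qep3`, iterated: an element `b / w ^ k` (`b ∈ B`) of `V₁ ∩ V₂ ∩ V₃` lies in `B`. -/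
theorem qep3_pow (w : R) (B : Subalgebra R F) (V₁ V₂ V₃ : ValuationSubring F)
    (hw0 : algebraMap R F w ≠ 0)
    (hw₁ : algebraMap R F w ∈ V₁) (hw₂ : algebraMap R F w ∈ V₂) (hw₃ : algebraMap R F w ∈ V₃)
    (hqep : Qep3 w B V₁ V₂ V₃) (k : ℕ) (b : B)
    (h₁ : (b : F) * (algebraMap R F w ^ k)⁻¹ ∈ V₁)
    (h₂ : (b : F) * (algebraMap R F w ^ k)⁻¹ ∈ V₂)
    (h₃ : (b : F) * (algebraMap R F w ^ k)⁻¹ ∈ V₃) :
    ∃ c : B, (c : F) = (b : F) * (algebraMap R F w ^ k)⁻¹ := by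
  induction k generalizing b with
  | zero => exact ⟨b, by simp⟩
  | succ k ih =>
    have e : (b : F) * (algebraMap R F w)⁻¹
        = (b : F) * (algebraMap R F w ^ (k + 1))⁻¹ * algebraMap R F w ^ k := by
      rw [pow_succ, mul_inv, mul_assoc, mul_assoc, mul_comm (algebraMap R F w)⁻¹,
        inv_mul_cancel_left₀ (pow_ne_zero k hw0)]
    obtain ⟨c, hc⟩ := hqep b
      (by rw [e]; exact V₁.mul_mem _ _ h₁ (pow_mem hw₁ k))
      (by rw [e]; exact V₂.mul_mem _ _ h₂ (pow_mem hw₂ k))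
      (by rw [e]; exact V₃.mul_mem _ _ h₃ (pow_mem hw₃ k))
    have hcF : (b : F) = algebraMap R F w * (c : F) := by
      have := congrArg (fun t : B => (t : F)) hc
      simpa using this
    have e' : (c : F) * (algebraMap R F w ^ k)⁻¹
        = (b : F) * (algebraMap R F w ^ (k + 1))⁻¹ := by
      rw [hcF, pow_succ, mul_inv]
      field_simp
    obtain ⟨c', hc'⟩ := ih c (by rw [e']; exact h₁) (by rw [e']; exact h₂) (by rw [e']; exact h₃)
    exact ⟨c', by rw [hc', e']⟩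

/-- **PU-self, elementwise.**  See the header. -/
theorem principalAt_of_unit_self (w : R) (B : Subalgebra R F) (V₁ V₂ V₃ : ValuationSubring F)
    (hw0 : algebraMap R F w ≠ 0)
    (hB₁ : ∀ b : B, (b : F) ∈ V₁) (hB₂ : ∀ b : B, (b : F) ∈ V₂) (hB₃ : ∀ b : B, (b : F) ∈ V₃)
    (hqep : Qep3 w B V₁ V₂ V₃)
    (𝔪 : Ideal B) (hthr : Through B 𝔪 V₂)
    (x U d g : B) (k N : ℕ) (hN : 0 < N)
    (hUd : U * d = algebraMap R B w ^ k)
    (hU₁ : (U : F)⁻¹ ∈ V₁) (hU₃ : (U : F)⁻¹ ∈ V₃)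
    (hx : UnifAt V₂ (x : F)) (hg : g ∉ 𝔪)
    (hres : ((x : F) ^ N - (g : F) * (U : F)) * (U : F)⁻¹ ∈ V₂.nonunits) :
    PrincipalAt B 𝔪 V₂ := by
  have hwB : ∀ V : ValuationSubring F, (∀ b : B, (b : F) ∈ V) → algebraMap R F w ∈ V :=
    fun V h => by simpa using h (algebraMap R B w)
  have hwk0 : algebraMap R F w ^ k ≠ 0 := pow_ne_zero k hw0
  have hUdF : (U : F) * (d : F) = algebraMap R F w ^ k := by
    have := congrArg (fun t : B => (t : F)) hUd
    simpa using this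
  have hU0 : (U : F) ≠ 0 := by
    intro h
    rw [h, zero_mul] at hUdF
    exact hwk0 hUdF.symm
  have hd0 : (d : F) ≠ 0 := by
    intro h
    rw [h, mul_zero] at hUdF
    exact hwk0 hUdF.symm
  have hUinv : (U : F)⁻¹ = (d : F) * (algebraMap R F w ^ k)⁻¹ := by
    rw [← hUdF]
    field_simp
  -- `ω = x ^ N / U`
  have hωsplit : (x : F) ^ N * (U : F)⁻¹
      = ((x : F) ^ N - (g : F) * (U : F)) * (U : F)⁻¹ + (g : F) := by
    rw [sub_mul, mul_assoc (g : F), mul_inv_cancel₀ hU0, mul_one, sub_add_cancel]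
  have hres' : ((x : F) ^ N - (g : F) * (U : F)) * (U : F)⁻¹ ∈ V₂ :=
    (V₂.valuation_le_one_iff _).1 ((V₂.mem_nonunits_iff).1 hres).le
  have hω₂ : (x : F) ^ N * (U : F)⁻¹ ∈ V₂ := by
    rw [hωsplit]
    exact V₂.add_mem _ _ hres' (hB₂ g)
  obtain ⟨ω, hω⟩ := qep3_pow w B V₁ V₂ V₃ hw0 (hwB V₁ hB₁) (hwB V₂ hB₂) (hwB V₃ hB₃) hqep k
    (x ^ N * d)
    (by
      have : ((x ^ N * d : B) : F) * (algebraMap R F w ^ k)⁻¹ = (x : F) ^ N * (U : F)⁻¹ := by
        rw [hUinv]; push_cast; ring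
      rw [this]
      exact V₁.mul_mem _ _ (pow_mem (hB₁ x) N) hU₁)
    (by
      have : ((x ^ N * d : B) : F) * (algebraMap R F w ^ k)⁻¹ = (x : F) ^ N * (U : F)⁻¹ := by
        rw [hUinv]; push_cast; ring
      rw [this]
      exact hω₂)
    (by
      have : ((x ^ N * d : B) : F) * (algebraMap R F w ^ k)⁻¹ = (x : F) ^ N * (U : F)⁻¹ := by
        rw [hUinv]; push_cast; ring
      rw [this]
      exact V₃.mul_mem _ _ (pow_mem (hB₃ x) N) hU₃)
  have hωF : (ω : F) = (x : F) ^ N * (U : F)⁻¹ := by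
    rw [hω, hUinv]; push_cast; ring
  -- `ω ∉ 𝔪`
  have hω𝔪 : ω ∉ 𝔪 := by
    intro hmem
    have h1 : ω - g ∈ 𝔪 := by
      apply hthr
      have : ((ω - g : B) : F) = ((x : F) ^ N - (g : F) * (U : F)) * (U : F)⁻¹ := by
        push_cast
        rw [hωF, hωsplit]
        ring
      rw [this]
      exact hres
    apply hg
    have := 𝔪.sub_mem hmem h1
    simpa using this
  obtain ⟨hx0, hxnu, hxunif⟩ := hx
  refine ⟨x, hxnu, fun a ha => ?_⟩
  -- `z = a x ^ (N - 1) / U`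
  obtain ⟨N', rfl⟩ : ∃ N', N = N' + 1 := ⟨N - 1, by omega⟩
  have hz₂ : (a : F) * (x : F) ^ N' * (U : F)⁻¹ ∈ V₂ := by
    have : (a : F) * (x : F) ^ N' * (U : F)⁻¹
        = ((a : F) * (x : F)⁻¹) * ((x : F) ^ (N' + 1) * (U : F)⁻¹) := by
      rw [pow_succ]
      field_simp
    rw [this]
    exact V₂.mul_mem _ _ (hxunif _ ha) hω₂
  obtain ⟨z, hz⟩ := qep3_pow w B V₁ V₂ V₃ hw0 (hwB V₁ hB₁) (hwB V₂ hB₂) (hwB V₃ hB₃) hqep k
    (a * x ^ N' * d)
    (by
      have : ((a * x ^ N' * d : B) : F) * (algebraMap R F w ^ k)⁻¹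
          = (a : F) * (x : F) ^ N' * (U : F)⁻¹ := by
        rw [hUinv]; push_cast; ring
      rw [this]
      exact V₁.mul_mem _ _ (V₁.mul_mem _ _ (hB₁ a) (pow_mem (hB₁ x) N')) hU₁)
    (by
      have : ((a * x ^ N' * d : B) : F) * (algebraMap R F w ^ k)⁻¹
          = (a : F) * (x : F) ^ N' * (U : F)⁻¹ := by
        rw [hUinv]; push_cast; ring
      rw [this]
      exact hz₂)
    (by
      have : ((a * x ^ N' * d : B) : F) * (algebraMap R F w ^ k)⁻¹
          = (a : F) * (x : F) ^ N' * (U : F)⁻¹ := by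
        rw [hUinv]; push_cast; ring
      rw [this]
      exact V₃.mul_mem _ _ (V₃.mul_mem _ _ (hB₃ a) (pow_mem (hB₃ x) N')) hU₃)
  have hzF : (z : F) = (a : F) * (x : F) ^ N' * (U : F)⁻¹ := by
    rw [hz, hUinv]; push_cast; ring
  refine ⟨ω, z, hω𝔪, ?_⟩
  apply Subtype.ext
  push_cast
  rw [hωF, hzF, pow_succ]
  ring

/-- In a valuation subring: if `t` is a uniformiser and `x ^ N` has the valuation of `t ^ N`
(`N > 0`), then `x` is a uniformiser. -/
theorem unifAt_of_pow (V : ValuationSubring F) (t x : F) (N : ℕ) (hN : 0 < N)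
    (ht : UnifAt V t) (hxt : V.valuation x ^ N = V.valuation t ^ N) : UnifAt V x := by
  obtain ⟨ht0, htnu, htunif⟩ := ht
  have hvx : V.valuation x = V.valuation t := by
    rcases lt_trichotomy (V.valuation x) (V.valuation t) with h | h | h
    · exfalso
      have := pow_lt_pow_left₀ h (zero_le (a := V.valuation _)) hN.ne'
      rw [hxt] at this
      exact lt_irrefl _ this
    · exact h
    · exfalso
      have := pow_lt_pow_left₀ h (zero_le (a := V.valuation _)) hN.ne'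
      rw [hxt] at this
      exact lt_irrefl _ this
  have hvt0 : V.valuation t ≠ 0 := by rw [Ne, map_eq_zero]; exact ht0
  have hx0 : x ≠ 0 := by
    intro h
    rw [h, map_zero] at hvx
    exact hvt0 hvx.symm
  refine ⟨hx0, ?_, fun f hf => ?_⟩
  · rw [ValuationSubring.mem_nonunits_iff, hvx]
    exact (V.mem_nonunits_iff).1 htnu
  · have h1 := htunif f hf
    rw [← V.valuation_le_one_iff] at h1 ⊢
    rw [map_mul, map_inv₀] at h1 ⊢
    rwa [hvx]

/-- A unit of a valuation subring has valuation one. -/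
theorem valuation_eq_one_of_unitAt (V : ValuationSubring F) {y : F} (hy : UnitAt V y) :
    V.valuation y = 1 := by
  obtain ⟨hy0, hy1, hy2⟩ := hy
  have h1 : V.valuation y ≤ 1 := (V.valuation_le_one_iff _).2 hy1
  have h2 : V.valuation y⁻¹ ≤ 1 := (V.valuation_le_one_iff _).2 hy2
  rw [map_inv₀] at h2
  have hv0 : V.valuation y ≠ 0 := by rw [Ne, map_eq_zero]; exact hy0
  have h3 : 1 ≤ V.valuation y := by
    have := (inv_le_one₀ (zero_lt_iff.2 hv0)).1 h2
    exact this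
  exact le_antisymm h1 h3

/-- An element of valuation one is a unit of the valuation subring. -/
theorem unitAt_of_valuation_eq_one (V : ValuationSubring F) {y : F} (hy : V.valuation y = 1) :
    UnitAt V y := by
  refine ⟨fun h => ?_, (V.valuation_le_one_iff _).1 hy.le, ?_⟩
  · rw [h, map_zero] at hy
    exact zero_ne_one hy
  · rw [← V.valuation_le_one_iff, map_inv₀, hy, inv_one]

/-- **PU-self, elementwise, divisor form**: `v₂(U) = N` (`U / t ^ N` a unit of `V₂` for a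
uniformiser `t`) instead of "`x` is a uniformiser of `V₂`". -/
theorem principalAt_of_unit_self' (w : R) (B : Subalgebra R F) (V₁ V₂ V₃ : ValuationSubring F)
    (hw0 : algebraMap R F w ≠ 0)
    (hB₁ : ∀ b : B, (b : F) ∈ V₁) (hB₂ : ∀ b : B, (b : F) ∈ V₂) (hB₃ : ∀ b : B, (b : F) ∈ V₃)
    (hqep : Qep3 w B V₁ V₂ V₃)
    (𝔪 : Ideal B) (hthr : Through B 𝔪 V₂)
    (x U d g : B) (k N : ℕ) (hN : 0 < N)
    (hUd : U * d = algebraMap R B w ^ k)
    (hU₁ : (U : F)⁻¹ ∈ V₁) (hU₃ : (U : F)⁻¹ ∈ V₃)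
    (t : F) (ht : UnifAt V₂ t) (hU₂ : UnitAt V₂ ((U : F) * (t ^ N)⁻¹))
    (hg : g ∉ 𝔪)
    (hres : ((x : F) ^ N - (g : F) * (U : F)) * (U : F)⁻¹ ∈ V₂.nonunits) :
    PrincipalAt B 𝔪 V₂ := by
  have hwk0 : algebraMap R F w ^ k ≠ 0 := pow_ne_zero k hw0
  have hUdF : (U : F) * (d : F) = algebraMap R F w ^ k := by
    have := congrArg (fun t : B => (t : F)) hUd
    simpa using this
  have hU0 : (U : F) ≠ 0 := by
    intro h
    rw [h, zero_mul] at hUdF
    exact hwk0 hUdF.symm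
  -- `g` is a unit of `V₂`
  have hvg : V₂.valuation (g : F) = 1 := by
    have h1 : V₂.valuation (g : F) ≤ 1 := (V₂.valuation_le_one_iff _).2 (hB₂ g)
    rcases lt_or_eq_of_le h1 with h | h
    · exact absurd (hthr g ((V₂.mem_nonunits_iff).2 h)) hg
    · exact h
  -- `x ^ N / U` is a unit of `V₂`
  have hsplit : (x : F) ^ N * (U : F)⁻¹
      = ((x : F) ^ N - (g : F) * (U : F)) * (U : F)⁻¹ + (g : F) := by
    rw [sub_mul, mul_assoc (g : F), mul_inv_cancel₀ hU0, mul_one, sub_add_cancel]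
  have hone : V₂.valuation ((x : F) ^ N * (U : F)⁻¹) = 1 := by
    rw [hsplit, ← hvg]
    apply Valuation.map_add_eq_of_lt_right
    rw [hvg]
    exact (V₂.mem_nonunits_iff).1 hres
  have hvU : V₂.valuation (U : F) = V₂.valuation t ^ N := by
    have h := valuation_eq_one_of_unitAt V₂ hU₂
    rw [map_mul, map_inv₀, map_pow] at h
    have hne : V₂.valuation t ^ N ≠ 0 := by
      apply pow_ne_zero
      rw [Ne, map_eq_zero]; exact ht.1
    calc V₂.valuation (U : F)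
        = V₂.valuation (U : F) * (V₂.valuation t ^ N)⁻¹ * V₂.valuation t ^ N := by
          rw [mul_assoc, inv_mul_cancel₀ hne, mul_one]
      _ = V₂.valuation t ^ N := by rw [h, one_mul]
  have hvx : V₂.valuation (x : F) ^ N = V₂.valuation t ^ N := by
    rw [map_mul, map_inv₀, map_pow] at hone
    have hne : V₂.valuation (U : F) ≠ 0 := by rw [Ne, map_eq_zero]; exact hU0
    calc V₂.valuation (x : F) ^ N
        = V₂.valuation (x : F) ^ N * (V₂.valuation (U : F))⁻¹ * V₂.valuation (U : F) := by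
          rw [mul_assoc, inv_mul_cancel₀ hne, mul_one]
      _ = V₂.valuation t ^ N := by rw [hone, one_mul, hvU]
  exact principalAt_of_unit_self w B V₁ V₂ V₃ hw0 hB₁ hB₂ hB₃ hqep 𝔪 hthr x U d g k N hN hUd
    hU₁ hU₃ (unifAt_of_pow V₂ t (x : F) N hN ht hvx) hg hres

end Fermat.Agent.S36.H878

end
-- ===== PACK-END S36/H878/RegSelf.lean

-- ===== PACK-BEGIN S36/Mod3/H356/RegUAbs.lean
section


/-!
# S36 / MOD3, cell REG, piece (R-U): the modular unit `U_m`, abstract part (helper356)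

Vocabulary of `S36/Eng/Spec.lean` only (`Qep3`, `UnitAt`, `UnifAt`), Mathlib otherwise.

Setting: fields `F'` (level `M q`), `F` (level `M q q`), ring homomorphisms `α β : F' → F`
compatible with the structure maps of `R`, valuation subrings `V₁ V₂ V₃` of `F` and `V₁' V₂'`
of `F'` with the comap table of `Eng.TripleCtx`, a chart `B ⊆ F` with `Qep3 w B V₁ V₂ V₃`, and a
UNIT PAIR `D · D' = ε' w ^ 12` of level `M q` (`ε'` a unit of `R`), `D'` a unit of `V₁'`, `D` a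
unit of `V₂'`, such that `α D, α D', β D, β D' ∈ B`.

Then `U = α D / β D` (`= β D' / α D'`) satisfies

* `U ∈ B`, and `d = ε · α D' · β D ∈ B` has `U · d = w ^ 12`;
* `U` is a unit of `V₁` and of `V₃`;
* `U / w ^ 12` is a unit of `V₂`  (hence `U / t ^ (12 e)` for a uniformiser `t` of `V₂` with
  `w / t ^ e` a unit).

These are the hypotheses `hUd`, `hU₁`, `hU₃`, `hU₂` of `S36.H878.principalAt_of_unit_self'`.

* `qep3_pow_h356`   : `Qep3` iterated;
* `regU_abs_h356`   : the statement above;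
* `unitAt_div_unif_pow_h356` : from `w ^ 12` to `t ^ (12 e)`.
-/

set_option autoImplicit false
set_option linter.style.haveILetI false
set_option linter.unusedSectionVars false

namespace Fermat.Agent.S36.Mod3.H356

open Fermat.Agent.S36.Eng

section Abs

variable {R F F' : Type*} [CommRing R] [Field F] [Algebra R F] [Field F'] [Algebra R F']

/-- `Qep3`, iterated: an element `b / w ^ k` (`b ∈ B`) of `V₁ ∩ V₂ ∩ V₃` lies in `B`. -/
theorem qep3_pow_h356 (w : R) (B : Subalgebra R F) (V₁ V₂ V₃ : ValuationSubring F)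
    (hw0 : algebraMap R F w ≠ 0)
    (hw₁ : algebraMap R F w ∈ V₁) (hw₂ : algebraMap R F w ∈ V₂) (hw₃ : algebraMap R F w ∈ V₃)
    (hqep : Qep3 w B V₁ V₂ V₃) (k : ℕ) (b : B)
    (h₁ : (b : F) * (algebraMap R F w ^ k)⁻¹ ∈ V₁)
    (h₂ : (b : F) * (algebraMap R F w ^ k)⁻¹ ∈ V₂)
    (h₃ : (b : F) * (algebraMap R F w ^ k)⁻¹ ∈ V₃) :
    ∃ c : B, (c : F) = (b : F) * (algebraMap R F w ^ k)⁻¹ := by
  induction k generalizing b with
  | zero => exact ⟨b, by simp⟩
  | succ k ih =>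
    have e : (b : F) * (algebraMap R F w)⁻¹
        = (b : F) * (algebraMap R F w ^ (k + 1))⁻¹ * algebraMap R F w ^ k := by
      have hk0 : algebraMap R F w ^ k ≠ 0 := pow_ne_zero k hw0
      rw [pow_succ, mul_inv]
      field_simp
    obtain ⟨c, hc⟩ := hqep b
      (by rw [e]; exact V₁.mul_mem _ _ h₁ (pow_mem hw₁ k))
      (by rw [e]; exact V₂.mul_mem _ _ h₂ (pow_mem hw₂ k))
      (by rw [e]; exact V₃.mul_mem _ _ h₃ (pow_mem hw₃ k))
    have hcF : (b : F) = algebraMap R F w * (c : F) := by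
      have := congrArg (fun t : B => (t : F)) hc
      simpa using this
    have e' : (c : F) * (algebraMap R F w ^ k)⁻¹
        = (b : F) * (algebraMap R F w ^ (k + 1))⁻¹ := by
      rw [hcF, pow_succ, mul_inv]
      field_simp
    obtain ⟨c', hc'⟩ := ih c (by rw [e']; exact h₁) (by rw [e']; exact h₂) (by rw [e']; exact h₃)
    exact ⟨c', by rw [hc', e']⟩

/-- Membership in a comap. -/
theorem mem_of_comap_eq_h356 {α : F' →+* F} {V : ValuationSubring F} {V' : ValuationSubring F'}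
    (h : V.comap α = V') {x : F'} (hx : x ∈ V') : α x ∈ V := by
  rw [← h] at hx
  exact hx

/-- **(R-U), abstract.** -/
theorem regU_abs_h356 (w ε ε' : R) (hεε' : ε * ε' = 1)
    (B : Subalgebra R F) (V₁ V₂ V₃ : ValuationSubring F) (V₁' V₂' : ValuationSubring F')
    (α β : F' →+* F)
    (hαR : ∀ r : R, α (algebraMap R F' r) = algebraMap R F r)
    (hβR : ∀ r : R, β (algebraMap R F' r) = algebraMap R F r)
    (hw0 : algebraMap R F w ≠ 0)
    (hR₁ : ∀ r : R, algebraMap R F r ∈ V₁) (hR₂ : ∀ r : R, algebraMap R F r ∈ V₂)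
    (hR₃ : ∀ r : R, algebraMap R F r ∈ V₃)
    (hqep : Qep3 w B V₁ V₂ V₃)
    (c₁α : V₁.comap α = V₁') (c₂α : V₂.comap α = V₁') (c₃α : V₃.comap α = V₂')
    (c₁β : V₁.comap β = V₁') (c₂β : V₂.comap β = V₂') (c₃β : V₃.comap β = V₂')
    (D D' : F') (hDD' : D * D' = algebraMap R F' (ε' * w ^ 12))
    (hD'₁ : D' ∈ V₁') (hD'₁i : D'⁻¹ ∈ V₁') (hD₂ : D ∈ V₂') (hD₂i : D⁻¹ ∈ V₂')
    (hαD : α D ∈ B) (hαD' : α D' ∈ B) (hβD : β D ∈ B) (hβD' : β D' ∈ B) :
    ∃ U d : B, (U : F) = α D * (β D)⁻¹ ∧ U * d = algebraMap R B w ^ 12 ∧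
      (U : F) ∈ V₁ ∧ (U : F)⁻¹ ∈ V₁ ∧ (U : F) ∈ V₃ ∧ (U : F)⁻¹ ∈ V₃ ∧
      UnitAt V₂ ((U : F) * (algebraMap R F w ^ 12)⁻¹) := by
  -- the constants
  set wF : F := algebraMap R F w with hwF
  set eF : F := algebraMap R F ε with heF
  set eF' : F := algebraMap R F ε' with heF'
  have hee : eF * eF' = 1 := by rw [heF, heF', ← map_mul, hεε', map_one]
  have heF0 : eF ≠ 0 := left_ne_zero_of_mul_eq_one hee
  have heF'0 : eF' ≠ 0 := right_ne_zero_of_mul_eq_one hee
  have hw12 : wF ^ 12 ≠ 0 := pow_ne_zero 12 hw0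
  have hc : algebraMap R F (ε' * w ^ 12) = eF' * wF ^ 12 := by
    rw [map_mul, map_pow]
  -- the relations `α D · α D' = β D · β D' = ε' w ^ 12`
  have hα : α D * α D' = eF' * wF ^ 12 := by rw [← map_mul, hDD', hαR, hc]
  have hβ : β D * β D' = eF' * wF ^ 12 := by rw [← map_mul, hDD', hβR, hc]
  have hc0 : eF' * wF ^ 12 ≠ 0 := mul_ne_zero heF'0 hw12
  have hαD0 : α D ≠ 0 := left_ne_zero_of_mul (hα ▸ hc0)
  have hαD'0 : α D' ≠ 0 := right_ne_zero_of_mul (hα ▸ hc0)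
  have hβD0 : β D ≠ 0 := left_ne_zero_of_mul (hβ ▸ hc0)
  have hβD'0 : β D' ≠ 0 := right_ne_zero_of_mul (hβ ▸ hc0)
  -- the two expressions of `U`
  have hU' : α D * (β D)⁻¹ = β D' * (α D')⁻¹ := by
    have h1 : α D * α D' = β D * β D' := by rw [hα, hβ]
    field_simp
    linear_combination h1
  -- the element of `B` above `w ^ 12 U`
  have hb : eF * (α D * β D') ∈ B := by
    have h := B.smul_mem (B.mul_mem hαD hβD') ε
    rwa [Algebra.smul_def] at h
  have hbU : eF * (α D * β D') * (wF ^ 12)⁻¹ = α D * (β D)⁻¹ := by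
    have h1 : β D' = eF' * wF ^ 12 * (β D)⁻¹ := by
      rw [← hβ]; field_simp
    rw [h1]
    have : eF * (α D * (eF' * wF ^ 12 * (β D)⁻¹)) * (wF ^ 12)⁻¹
        = (eF * eF') * (α D * (β D)⁻¹) * (wF ^ 12 * (wF ^ 12)⁻¹) := by ring
    rw [this, hee, mul_inv_cancel₀ hw12, one_mul, mul_one]
  -- valuations: `V₁`
  have hαD'₁ : α D' ∈ V₁ := mem_of_comap_eq_h356 c₁α hD'₁
  have hαD'₁i : (α D')⁻¹ ∈ V₁ := by
    rw [← map_inv₀]; exact mem_of_comap_eq_h356 c₁α hD'₁i
  have hβD'₁ : β D' ∈ V₁ := mem_of_comap_eq_h356 c₁β hD'₁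
  have hβD'₁i : (β D')⁻¹ ∈ V₁ := by
    rw [← map_inv₀]; exact mem_of_comap_eq_h356 c₁β hD'₁i
  have hU₁ : α D * (β D)⁻¹ ∈ V₁ := by
    rw [hU']; exact V₁.mul_mem _ _ hβD'₁ hαD'₁i
  have hU₁i : (α D * (β D)⁻¹)⁻¹ ∈ V₁ := by
    rw [hU', mul_inv, inv_inv]; exact V₁.mul_mem _ _ hβD'₁i hαD'₁
  -- valuations: `V₃`
  have hαD₃ : α D ∈ V₃ := mem_of_comap_eq_h356 c₃α hD₂
  have hαD₃i : (α D)⁻¹ ∈ V₃ := by
    rw [← map_inv₀]; exact mem_of_comap_eq_h356 c₃α hD₂i
  have hβD₃ : β D ∈ V₃ := mem_of_comap_eq_h356 c₃β hD₂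
  have hβD₃i : (β D)⁻¹ ∈ V₃ := by
    rw [← map_inv₀]; exact mem_of_comap_eq_h356 c₃β hD₂i
  have hU₃ : α D * (β D)⁻¹ ∈ V₃ := V₃.mul_mem _ _ hαD₃ hβD₃i
  have hU₃i : (α D * (β D)⁻¹)⁻¹ ∈ V₃ := by
    rw [mul_inv, inv_inv]; exact V₃.mul_mem _ _ hαD₃i hβD₃
  -- valuations: `V₂`
  have hαD'₂ : α D' ∈ V₂ := mem_of_comap_eq_h356 c₂α hD'₁
  have hαD'₂i : (α D')⁻¹ ∈ V₂ := by
    rw [← map_inv₀]; exact mem_of_comap_eq_h356 c₂α hD'₁i
  have hβD₂ : β D ∈ V₂ := mem_of_comap_eq_h356 c₂β hD₂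
  have hβD₂i : (β D)⁻¹ ∈ V₂ := by
    rw [← map_inv₀]; exact mem_of_comap_eq_h356 c₂β hD₂i
  have hUw : α D * (β D)⁻¹ * (wF ^ 12)⁻¹ = eF' * ((α D')⁻¹ * (β D)⁻¹) := by
    have h1 : α D = eF' * wF ^ 12 * (α D')⁻¹ := by
      rw [← hα]; field_simp
    rw [h1]
    field_simp
  have hUw₂ : α D * (β D)⁻¹ * (wF ^ 12)⁻¹ ∈ V₂ := by
    rw [hUw]; exact V₂.mul_mem _ _ (hR₂ ε') (V₂.mul_mem _ _ hαD'₂i hβD₂i)
  have hUw₂i : (α D * (β D)⁻¹ * (wF ^ 12)⁻¹)⁻¹ ∈ V₂ := by
    have h2 : (α D * (β D)⁻¹ * (wF ^ 12)⁻¹)⁻¹ = eF * (α D' * β D) := by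
      rw [hUw, mul_inv, mul_inv, inv_inv, inv_inv]
      have : eF'⁻¹ = eF := (eq_inv_of_mul_eq_one_left hee).symm
      rw [this]
    rw [h2]; exact V₂.mul_mem _ _ (hR₂ ε) (V₂.mul_mem _ _ hαD'₂ hβD₂)
  have hU₂ : α D * (β D)⁻¹ ∈ V₂ := by
    have h3 : α D * (β D)⁻¹ = α D * (β D)⁻¹ * (wF ^ 12)⁻¹ * wF ^ 12 := by
      field_simp
    rw [h3]; exact V₂.mul_mem _ _ hUw₂ (pow_mem (hR₂ w) 12)
  -- `U ∈ B` by `Qep3`
  obtain ⟨U, hU⟩ := qep3_pow_h356 w B V₁ V₂ V₃ hw0 (hR₁ w) (hR₂ w) (hR₃ w) hqep 12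
    ⟨_, hb⟩ (by rw [hbU]; exact hU₁) (by rw [hbU]; exact hU₂) (by rw [hbU]; exact hU₃)
  have hUF : (U : F) = α D * (β D)⁻¹ := by rw [hU]; exact hbU
  -- the cofactor
  have hd : eF * (α D' * β D) ∈ B := by
    have h := B.smul_mem (B.mul_mem hαD' hβD) ε
    rwa [Algebra.smul_def] at h
  refine ⟨U, ⟨_, hd⟩, hUF, ?_, ?_, ?_, ?_, ?_, ?_⟩
  · apply Subtype.ext
    have h4 : ((algebraMap R B w ^ 12 : B) : F) = wF ^ 12 := by
      simp [hwF]
    rw [h4]
    show (U : F) * (eF * (α D' * β D)) = wF ^ 12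
    rw [hUF, hU']
    have : β D' * (α D')⁻¹ * (eF * (α D' * β D))
        = eF * (β D * β D') * ((α D')⁻¹ * α D') := by ring
    rw [this, hβ, inv_mul_cancel₀ hαD'0, mul_one, ← mul_assoc, hee, one_mul]
  · rw [hUF]; exact hU₁
  · rw [hUF]; exact hU₁i
  · rw [hUF]; exact hU₃
  · rw [hUF]; exact hU₃i
  · rw [hUF]
    refine ⟨?_, hUw₂, hUw₂i⟩
    exact mul_ne_zero (mul_ne_zero hαD0 (inv_ne_zero hβD0)) (inv_ne_zero hw12)

/-- From `U / w ^ k` to `U / t ^ (k e)`, `t` a uniformiser with `w / t ^ e` a unit. -/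
theorem unitAt_div_unif_pow_h356 (V : ValuationSubring F) (U wF t : F) (k e : ℕ)
    (hU : UnitAt V (U * (wF ^ k)⁻¹)) (ht : UnitAt V (wF * (t ^ e)⁻¹)) :
    UnitAt V (U * (t ^ (k * e))⁻¹) := by
  obtain ⟨hU0, hU1, hU2⟩ := hU
  obtain ⟨ht0, ht1, ht2⟩ := ht
  have hw0 : wF ≠ 0 := left_ne_zero_of_mul ht0
  have hte0 : (t ^ e)⁻¹ ≠ 0 := right_ne_zero_of_mul ht0
  have hte : t ^ e ≠ 0 := fun h => hte0 (by rw [h, inv_zero])
  have hwk : wF ^ k ≠ 0 := pow_ne_zero k hw0
  have hUne : U ≠ 0 := left_ne_zero_of_mul hU0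
  have h2 : ((t ^ e) ^ k) ≠ 0 := pow_ne_zero k hte
  have h1 : t ^ (k * e) = (t ^ e) ^ k := by rw [mul_comm, pow_mul]
  have hkey : U * (t ^ (k * e))⁻¹ = U * (wF ^ k)⁻¹ * (wF * (t ^ e)⁻¹) ^ k := by
    rw [h1, mul_pow, inv_pow]
    field_simp
  have hkey' : (U * (t ^ (k * e))⁻¹)⁻¹ = (U * (wF ^ k)⁻¹)⁻¹ * ((wF * (t ^ e)⁻¹)⁻¹) ^ k := by
    rw [hkey, mul_inv, inv_pow]
  refine ⟨?_, ?_, ?_⟩
  · rw [hkey]; exact mul_ne_zero hU0 (pow_ne_zero k ht0)
  · rw [hkey]; exact V.mul_mem _ _ hU1 (pow_mem ht1 k)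
  · rw [hkey']
    exact V.mul_mem _ _ hU2 (pow_mem ht2 k)

/-- Two uniformisers differ by a unit: `w / t₀ ^ e` a unit ⟹ `w / t ^ e` a unit. -/
theorem unitAt_div_pow_of_unif_h356 (V : ValuationSubring F) (wF t₀ t : F) (e : ℕ)
    (ht₀ : UnifAt V t₀) (h₀ : UnitAt V (wF * (t₀ ^ e)⁻¹)) (ht : UnifAt V t) :
    UnitAt V (wF * (t ^ e)⁻¹) := by
  obtain ⟨ht₀0, ht₀m, ht₀d⟩ := ht₀
  obtain ⟨ht0, htm, htd⟩ := ht
  obtain ⟨h0, h1, h2⟩ := h₀
  have hw0 : wF ≠ 0 := left_ne_zero_of_mul h0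
  have ha : t₀ * t⁻¹ ∈ V := htd t₀ ht₀m
  have hb : t * t₀⁻¹ ∈ V := ht₀d t htm
  have hp0 : t₀ ^ e ≠ 0 := pow_ne_zero e ht₀0
  have hp : t ^ e ≠ 0 := pow_ne_zero e ht0
  have hkey : wF * (t ^ e)⁻¹ = wF * (t₀ ^ e)⁻¹ * (t₀ * t⁻¹) ^ e := by
    rw [mul_pow, inv_pow]
    field_simp
  have hkey' : (wF * (t ^ e)⁻¹)⁻¹ = (wF * (t₀ ^ e)⁻¹)⁻¹ * (t * t₀⁻¹) ^ e := by
    rw [mul_pow, inv_pow]
    field_simp
  refine ⟨mul_ne_zero hw0 (inv_ne_zero hp), ?_, ?_⟩
  · rw [hkey]; exact V.mul_mem _ _ h1 (pow_mem ha e)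
  · rw [hkey']; exact V.mul_mem _ _ h2 (pow_mem hb e)

end Abs

end Fermat.Agent.S36.Mod3.H356

end
-- ===== PACK-END S36/Mod3/H356/RegUAbs.lean

-- ===== PACK-BEGIN S36/H890/Reg9.lean
section




/-!
# `PrincipalAt` on the middle component from the Hauptmodul `t₉` (helper890, S36 REG, `q = 2`)

The level-`9` (`q = 2`) form of route R4, in the vocabulary of `Eng.TripleCtx`; composition of

* `H878.principalAt_of_unit_self'` (PU-self, elementwise, from `Qep3`),
* `H934.hres_transfer9_shape`      (transfer of the residue from `j` to `t₉`),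
* `exists_g9_unit_chart`           (`g₉ = Q(t₉)⁵ / t₉³` is a unit of the chart when `3` is).

`B = chart R S` with `B ⊆ V₁ ∩ V₂ ∩ V₃`, `Qep3 w B V₁ V₂ V₃`; `𝔪` ANY proper ideal of `B` with
`Through B 𝔪 V₂` (every closed point of the middle component, triple points and points over
`j = 0, 1728` included).  Inputs:

* (R-U)   `U, d ∈ B`, `U d = w ^ k`, `U⁻¹ ∈ V₁ ∩ V₃`, `v₂(U) = 6 kk`  (`U = U_m`, `6 kk = 12 (q - 1)`);
* (R-RES) `hres` for `j`: `((j₂ - j₁) ^ (6 kk) - (j₁⁴ (j₁ - 1728)³) ^ kk · U) / U ∈ 𝔪_{V₂}`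
          (`j₁ = j`, `j₂ = j_{q²}`);
* (R-9)   `h₁ = t₉`, `h₂ = t₉(t^{q²})` with `j_i · h_i⁹ Q(h_i) = (h_i + 9)³ (h_i³ + 243 Q(h_i))³`
          (`Haupt9.jq_mul_t9`), `j₁, j₂, 3⁻¹ ∈ B`, `h₁`, `Q(h₁)`, `j₁`, `j₁ - 1728` units of `V₂`
          (`Vinf9`), `h₂ - h₁ ∈ 𝔪_{V₂}`.

Output: `Eng.PrincipalAt B 𝔪 V₂`, generator `x = h₂ - h₁ = t₉(t^{q²}) - t₉`.
-/

set_option autoImplicit false

noncomputable section

namespace Fermat.Agent.S36.H890

open Fermat.Agent.S36.Eng Fermat.Agent.S18.H138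

variable {R F : Type*} [CommRing R] [Field F] [CharZero F] [Algebra R F]

/-- **Route R4 with `t₉`: the middle component is principal at every closed point.** -/
theorem principalAt_t9 (w : R) (S : Set F) (V₁ V₂ V₃ : ValuationSubring F)
    (hw0 : algebraMap R F w ≠ 0)
    (hB₁ : ∀ b : chart R S, (b : F) ∈ V₁) (hB₂ : ∀ b : chart R S, (b : F) ∈ V₂)
    (hB₃ : ∀ b : chart R S, (b : F) ∈ V₃)
    (hqep : Qep3 w (chart R S) V₁ V₂ V₃)
    (𝔪 : Ideal (chart R S)) (h𝔪 : 𝔪 ≠ ⊤) (hthr : Through (chart R S) 𝔪 V₂)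
    -- (R-U)
    (U d : chart R S) (k kk : ℕ) (hkk : 0 < kk)
    (hUd : U * d = algebraMap R (chart R S) w ^ k)
    (hU₁ : (U : F)⁻¹ ∈ V₁) (hU₃ : (U : F)⁻¹ ∈ V₃)
    (t : F) (ht : UnifAt V₂ t) (hU₂ : UnitAt V₂ ((U : F) * (t ^ (6 * kk))⁻¹))
    -- (R-9)
    (j₁ j₂ h₁ h₂ : F)
    (hj₁B : j₁ ∈ chart R S) (hj₂B : j₂ ∈ chart R S) (h3 : (3 : F)⁻¹ ∈ chart R S)
    (hJ₁ : j₁ * (h₁ ^ 9 * (h₁ ^ 2 + 9 * h₁ + 27))
      = (h₁ + 9) ^ 3 * (h₁ ^ 3 + 243 * (h₁ ^ 2 + 9 * h₁ + 27)) ^ 3)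
    (hJ₂ : j₂ * (h₂ ^ 9 * (h₂ ^ 2 + 9 * h₂ + 27))
      = (h₂ + 9) ^ 3 * (h₂ ^ 3 + 243 * (h₂ ^ 2 + 9 * h₂ + 27)) ^ 3)
    (hh₁ : UnitAt V₂ h₁) (hQ₁ : UnitAt V₂ (h₁ ^ 2 + 9 * h₁ + 27))
    (hj₁ : UnitAt V₂ j₁) (hj₁' : UnitAt V₂ (j₁ - 1728))
    (hx : h₂ - h₁ ∈ V₂.nonunits)
    -- (R-RES)
    (hres : ((j₂ - j₁) ^ (6 * kk) - (j₁ ^ 4 * (j₁ - 1728) ^ 3) ^ kk * (U : F)) * (U : F)⁻¹
      ∈ V₂.nonunits) :
    PrincipalAt (chart R S) 𝔪 V₂ := by
  have hh₁B : h₁ ∈ chart R S := mem_chart_of_rel9 S hj₁B hJ₁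
  have hh₂B : h₂ ∈ chart R S := mem_chart_of_rel9 S hj₂B hJ₂
  obtain ⟨g, g', hgF, hgg'⟩ := exists_g9_unit_chart S hj₁B h3 hJ₁ kk
  have hg : g ∉ 𝔪 := not_mem_of_mul_eq_one hgg' 𝔪 h𝔪
  have hres' := Fermat.Agent.S36.H934.hres_transfer9_shape V₂ j₁ j₂ h₁ h₂ (U : F) kk hJ₁ hJ₂
    (H878.valuation_eq_one_of_unitAt V₂ hh₁) (H878.valuation_eq_one_of_unitAt V₂ hQ₁)
    (H878.valuation_eq_one_of_unitAt V₂ hj₁) (H878.valuation_eq_one_of_unitAt V₂ hj₁')
    (hB₂ ⟨h₂, hh₂B⟩) hx hres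
  refine H878.principalAt_of_unit_self' w (chart R S) V₁ V₂ V₃ hw0 hB₁ hB₂ hB₃ hqep 𝔪 hthr
    ((⟨h₂, hh₂B⟩ : chart R S) - ⟨h₁, hh₁B⟩) U d g k (6 * kk) (by omega) hUd hU₁ hU₃ t ht hU₂ hg ?_
  rw [hgF]
  exact hres'

end Fermat.Agent.S36.H890

end
end
-- ===== PACK-END S36/H890/Reg9.lean

-- ===== PACK-BEGIN S36/Mod3/H839/UniqAbs.lean
section


/-!
# S36 / MOD3, leaf UNIQ — abstract core (helper839)

`unique_α` and `unique_β` of `Eng.TripleCtx` (= `Mod3.PartUniq`) are FORMAL consequences of the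
other fields (no going-up / going-down, no noetherian hypothesis):

* `Qep3` + the multiplicities `(1, q - 1, 1)` ⟹ every closed point of the special fibre of the
  finite chart lies on one of the three components (`through_of_qep839`);
* on `V₁`, `V₂` the chart is `α (Bf') + (Bf ∩ 𝔪_V)` (`res_α₁`, `res_α₂`): a closed point on the
  component is determined by its image under `α`;
* on `V₃` the extension is radicial: `α (N_α b) ≡ b ^ q` (`nr_α₂`), and `N_α b ∈ Bf'`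
  (`int_α` + integrality of norms).

Main statements: `unique_alpha839`, `unique_beta839` (fields passed one by one) and
`partUniq_of_parts839 : PartVal → Qep3 → PartChart → PartNR → PartUniq`.
-/

set_option autoImplicit false
set_option linter.style.haveILetI false
set_option linter.unusedSectionVars false
set_option linter.unusedVariables false

noncomputable section

namespace Fermat.Agent.S36.Mod3.H839

open AlgebraicCurve Polynomial
open Fermat.Agent.S18.H138 (chart mem_chart)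
open Fermat.Agent.S36.Eng

section Chart

variable {R F : Type*} [CommRing R] [Field F] [Algebra R F]

/-- A chart lies in every valuation ring which contains `R` and the coordinates. -/
theorem mem_valuationSubring_of_mem_chart839 (V : ValuationSubring F)
    (hR : ∀ r : R, algebraMap R F r ∈ V) {S : Set F} (hS : ∀ s ∈ S, s ∈ V) {y : F}
    (hy : y ∈ chart R S) : y ∈ V := by
  rw [mem_chart] at hy
  have hle : ∀ a ∈ Algebra.adjoin R S, a ∈ V := by
    intro a ha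
    induction ha using Algebra.adjoin_induction with
    | mem s hs => exact hS s hs
    | algebraMap r => exact hR r
    | add a b _ _ ha hb => exact V.add_mem _ _ ha hb
    | mul a b _ _ ha hb => exact V.mul_mem _ _ ha hb
  let φ : ↥(Algebra.adjoin R S) →+* ↥V :=
    (Algebra.adjoin R S).val.toRingHom.codRestrict V.toSubring fun a => hle a a.2
  have hy' : IsIntegral ↥V y := by
    have := IsIntegral.map_of_comp_eq (R := ↥(Algebra.adjoin R S)) (S := F) (T := ↥V) (U := F)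
      φ (RingHom.id F) (by ext; rfl) hy
    simpa using this
  obtain ⟨z, hz⟩ := IsIntegrallyClosed.isIntegral_iff.1 hy'
  rw [← hz]
  exact z.2

end Chart

section Norm

variable {R E F F' : Type*} [CommRing R] [Field E] [Algebra R E]
  [Field F] [Algebra E F] [Algebra R F] [Field F'] [Algebra E F'] [Algebra R F']

/-- The norm of an element which is integral over the image of a chart lies in the chart. -/
theorem normAlong_mem_chart839 (α : F' →ₐ[E] F) {S' : Set F'} {b : F}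
    (hb : ∃ p : Polynomial F', p.Monic ∧ (∀ i, p.coeff i ∈ chart R S') ∧
      (p.map (α : F' →+* F)).eval b = 0) :
    S29.H395.normAlong α b ∈ chart R S' := by
  letI := algebraAlong α
  obtain ⟨p, hpm, hpc, hpb⟩ := hb
  rw [mem_chart]
  have hlift : p ∈ Polynomial.lifts (algebraMap ↥(integralClosure ↥(Algebra.adjoin R S') F') F') := by
    rw [Polynomial.lifts_iff_coeff_lifts]
    intro n
    exact ⟨⟨p.coeff n, hpc n⟩, rfl⟩
  obtain ⟨p₀, hp₀, -, hp₀m⟩ := Polynomial.lifts_and_degree_eq_and_monic hlift hpm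
  have hC : IsIntegral ↥(integralClosure ↥(Algebra.adjoin R S') F') b := by
    refine ⟨p₀, hp₀m, ?_⟩
    rw [Polynomial.eval₂_eq_eval_map, ← hpb, ← hp₀, Polynomial.map_map]
    rfl
  have hint : IsIntegral ↥(Algebra.adjoin R S') b := isIntegral_trans b hC
  exact Algebra.isIntegral_norm F' hint

end Norm

section Main

variable {R E F F' : Type*} [CommRing R] [Field E] [Algebra R E]
  [Field F] [Algebra E F] [Algebra R F] [Field F'] [Algebra E F'] [Algebra R F']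

/-- `Qep3` is symmetric in the outer components. -/
theorem qep3_swap839 {w : R} {B : Subalgebra R F} {V₁ V₂ V₃ : ValuationSubring F}
    (h : Qep3 w B V₁ V₂ V₃) : Qep3 w B V₃ V₂ V₁ :=
  fun b h3 h2 h1 => h b h1 h2 h3

/-- `IsTriple` is symmetric in the outer components. -/
theorem isTriple_swap839 {B : Subalgebra R F} {𝔪 : Ideal B} {V₁ V₂ V₃ : ValuationSubring F}
    (h : IsTriple B 𝔪 V₁ V₂ V₃) : IsTriple B 𝔪 V₃ V₂ V₁ :=
  ⟨h.2.2, h.2.1, h.1⟩

/-- An element of a valuation ring which is not in the maximal ideal is a unit. -/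
theorem unitAt_of_not_mem_nonunits839 {V : ValuationSubring F} {y : F} (hy : y ∈ V)
    (hy' : y ∉ V.nonunits) : UnitAt V y := by
  rw [ValuationSubring.mem_nonunits_iff_or, not_or, not_not] at hy'
  exact ⟨hy'.1, hy, hy'.2⟩

/-- **Every closed point of the special fibre lies on one of the three components.** -/
theorem through_of_qep839 (w : R) (q : ℕ) (x : F) (V₁ V₂ V₃ : ValuationSubring F)
    (hB₁ : ∀ b ∈ chart R ({x} : Set F), b ∈ V₁) (hB₂ : ∀ b ∈ chart R ({x} : Set F), b ∈ V₂)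
    (hB₃ : ∀ b ∈ chart R ({x} : Set F), b ∈ V₃)
    (unif₁ : UnifAt V₁ (algebraMap R F w)) (unif₃ : UnifAt V₃ (algebraMap R F w))
    (ram₂ : ∃ t : F, UnifAt V₂ t ∧ UnitAt V₂ (algebraMap R F w * (t ^ (q - 1))⁻¹))
    (qep : Qep3 w (chart R ({x} : Set F)) V₁ V₂ V₃)
    (𝔪 : Ideal (chart R ({x} : Set F))) (h𝔪 : 𝔪.IsPrime)
    (hw : algebraMap R (chart R ({x} : Set F)) w ∈ 𝔪) :
    Through _ 𝔪 V₁ ∨ Through _ 𝔪 V₂ ∨ Through _ 𝔪 V₃ := by
  by_contra hcon
  rw [not_or, not_or] at hcon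
  obtain ⟨h1, h2, h3⟩ := hcon
  unfold Through at h1 h2 h3
  rw [not_forall] at h1 h2 h3
  obtain ⟨b₁, hb₁⟩ := h1
  obtain ⟨b₂, hb₂⟩ := h2
  obtain ⟨b₃, hb₃⟩ := h3
  rw [Classical.not_imp] at hb₁ hb₂ hb₃
  obtain ⟨t, ht, hu⟩ := ram₂
  have hw0 : algebraMap R F w ≠ 0 := unif₁.1
  have hT0 : t ^ (q - 1) ≠ 0 := pow_ne_zero _ ht.1
  have k1 : ((b₁ * b₂ ^ (q - 1) * b₃ : chart R ({x} : Set F)) : F) * (algebraMap R F w)⁻¹
      ∈ V₁ := by
    have e : ((b₁ * b₂ ^ (q - 1) * b₃ : chart R ({x} : Set F)) : F) * (algebraMap R F w)⁻¹ =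
        ((b₁ : F) * (algebraMap R F w)⁻¹) * ((b₂ : F) ^ (q - 1) * (b₃ : F)) := by
      push_cast
      ring
    rw [e]
    exact V₁.mul_mem _ _ (unif₁.2.2 _ hb₁.1)
      (V₁.mul_mem _ _ (pow_mem (hB₁ _ b₂.2) _) (hB₁ _ b₃.2))
  have k2 : ((b₁ * b₂ ^ (q - 1) * b₃ : chart R ({x} : Set F)) : F) * (algebraMap R F w)⁻¹
      ∈ V₂ := by
    have e : ((b₁ * b₂ ^ (q - 1) * b₃ : chart R ({x} : Set F)) : F) * (algebraMap R F w)⁻¹ =
        (b₁ : F) * (((b₂ : F) * t⁻¹) ^ (q - 1) *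
          (algebraMap R F w * (t ^ (q - 1))⁻¹)⁻¹) * (b₃ : F) := by
      push_cast
      have ht0 : t ≠ 0 := ht.1
      rw [mul_pow, mul_inv, inv_inv, inv_pow]
      field_simp
    rw [e]
    exact V₂.mul_mem _ _ (V₂.mul_mem _ _ (hB₂ _ b₁.2)
      (V₂.mul_mem _ _ (pow_mem (ht.2.2 _ hb₂.1) _) hu.2.2)) (hB₂ _ b₃.2)
  have k3 : ((b₁ * b₂ ^ (q - 1) * b₃ : chart R ({x} : Set F)) : F) * (algebraMap R F w)⁻¹
      ∈ V₃ := by
    have e : ((b₁ * b₂ ^ (q - 1) * b₃ : chart R ({x} : Set F)) : F) * (algebraMap R F w)⁻¹ =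
        ((b₁ : F) * (b₂ : F) ^ (q - 1)) * ((b₃ : F) * (algebraMap R F w)⁻¹) := by
      push_cast
      ring
    rw [e]
    exact V₃.mul_mem _ _ (V₃.mul_mem _ _ (hB₃ _ b₁.2) (pow_mem (hB₃ _ b₂.2) _))
      (unif₃.2.2 _ hb₃.1)
  have key : b₁ * b₂ ^ (q - 1) * b₃ ∈ 𝔪 := by
    obtain ⟨c, hc⟩ := qep (b₁ * b₂ ^ (q - 1) * b₃) k1 k2 k3
    rw [hc]
    exact 𝔪.mul_mem_right _ hw
  rcases h𝔪.mem_or_mem key with h | h
  · rcases h𝔪.mem_or_mem h with h | h
    · exact hb₁.2 h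
    · exact hb₂.2 (h𝔪.mem_of_pow_mem _ h)
  · exact hb₃.2 h

variable [IsScalarTower R E F] [IsScalarTower R E F']

/-- `α` is `R`-linear on constants. -/
theorem algHom_algebraMap839 (α : F' →ₐ[E] F) (r : R) :
    α (algebraMap R F' r) = algebraMap R F r := by
  rw [IsScalarTower.algebraMap_apply R E F', IsScalarTower.algebraMap_apply R E F, α.commutes]

/-- **UNIQ along `α`** (fields of `Eng.TripleCtx` passed one by one): a triple point is the only
closed point of the finite chart over its image under `α`. -/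
theorem unique_alpha839 (w : R) (q : ℕ) (hq : q ≠ 0) (α : F' →ₐ[E] F) (x : F) (x' : F')
    (V₁ V₂ V₃ : ValuationSubring F)
    (hB₁ : ∀ b ∈ chart R ({x} : Set F), b ∈ V₁) (hB₂ : ∀ b ∈ chart R ({x} : Set F), b ∈ V₂)
    (hB₃ : ∀ b ∈ chart R ({x} : Set F), b ∈ V₃)
    (unif₁ : UnifAt V₁ (algebraMap R F w)) (unif₃ : UnifAt V₃ (algebraMap R F w))
    (ram₂ : ∃ t : F, UnifAt V₂ t ∧ UnitAt V₂ (algebraMap R F w * (t ^ (q - 1))⁻¹))
    (qep : Qep3 w (chart R ({x} : Set F)) V₁ V₂ V₃)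
    (int_α : ∀ b ∈ chart R ({x} : Set F), ∃ p : Polynomial F', p.Monic ∧
      (∀ i, p.coeff i ∈ chart R ({x'} : Set F')) ∧ (p.map (α : F' →+* F)).eval b = 0)
    (res_α₁ : ∀ b ∈ chart R ({x} : Set F), ∃ b' ∈ chart R ({x'} : Set F'),
      b - α b' ∈ V₁.nonunits)
    (res_α₂ : ∀ b ∈ chart R ({x} : Set F), ∃ b' ∈ chart R ({x'} : Set F'),
      b - α b' ∈ V₂.nonunits)
    (nr_α₂ : ∀ y : F, UnitAt V₃ y → α (S29.H395.normAlong α y) - y ^ q ∈ V₃.nonunits)
    (hα : ∀ b ∈ chart R ({x'} : Set F'), α b ∈ chart R ({x} : Set F))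
    (𝔪 𝔪' : Ideal (chart R ({x} : Set F))) (h𝔪 : 𝔪.IsMaximal) (h𝔪' : 𝔪'.IsMaximal)
    (htri : IsTriple _ 𝔪 V₁ V₂ V₃)
    (hsub : ∀ (b' : F') (h : b' ∈ chart R ({x'} : Set F')),
      (⟨α b', hα b' h⟩ : chart R ({x} : Set F)) ∈ 𝔪 →
        (⟨α b', hα b' h⟩ : chart R ({x} : Set F)) ∈ 𝔪') : 𝔪' = 𝔪 := by
  have hw𝔪 : algebraMap R (chart R ({x} : Set F)) w ∈ 𝔪 := htri.1 _ unif₁.2.1
  have hwe : (⟨α (algebraMap R F' w), hα _ (Subalgebra.algebraMap_mem _ w)⟩ :
      chart R ({x} : Set F)) = algebraMap R (chart R ({x} : Set F)) w :=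
    Subtype.ext (algHom_algebraMap839 α w)
  have hw𝔪' : algebraMap R (chart R ({x} : Set F)) w ∈ 𝔪' := by
    rw [← hwe]
    exact hsub _ (Subalgebra.algebraMap_mem _ w) (by rw [hwe]; exact hw𝔪)
  have hle : 𝔪 ≤ 𝔪' := by
    -- the two "residue degree one" cases
    have hres : ∀ V : ValuationSubring F, Through _ 𝔪 V → Through _ 𝔪' V →
        (∀ b ∈ chart R ({x} : Set F), ∃ b' ∈ chart R ({x'} : Set F'), b - α b' ∈ V.nonunits) →
        𝔪 ≤ 𝔪' := by
      intro V hV hV' hres b hb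
      obtain ⟨b', hb', hbb'⟩ := hres b b.2
      have hc : b - ⟨α b', hα b' hb'⟩ ∈ 𝔪 := hV _ hbb'
      have hc' : b - ⟨α b', hα b' hb'⟩ ∈ 𝔪' := hV' _ hbb'
      have h1 : (⟨α b', hα b' hb'⟩ : chart R ({x} : Set F)) ∈ 𝔪 := by
        have := 𝔪.sub_mem hb hc
        rwa [sub_sub_cancel] at this
      have h2 := hsub b' hb' h1
      have := 𝔪'.add_mem hc' h2
      rwa [sub_add_cancel] at this
    rcases through_of_qep839 w q x V₁ V₂ V₃ hB₁ hB₂ hB₃ unif₁ unif₃ ram₂ qep 𝔪'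
      h𝔪'.isPrime hw𝔪' with h | h | h
    · exact hres V₁ htri.1 h res_α₁
    · exact hres V₂ htri.2.1 h res_α₂
    · intro b hb
      by_cases hbu : (b : F) ∈ V₃.nonunits
      · exact h b hbu
      · have hu : UnitAt V₃ (b : F) := unitAt_of_not_mem_nonunits839 (hB₃ _ b.2) hbu
        have hN : S29.H395.normAlong α (b : F) ∈ chart R ({x'} : Set F') :=
          normAlong_mem_chart839 α (int_α b b.2)
        have hnr := nr_α₂ b hu
        have hc : (⟨α (S29.H395.normAlong α (b : F)), hα _ hN⟩ : chart R ({x} : Set F)) - b ^ q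
            ∈ 𝔪 := htri.2.2 _ hnr
        have hc' : (⟨α (S29.H395.normAlong α (b : F)), hα _ hN⟩ : chart R ({x} : Set F)) - b ^ q
            ∈ 𝔪' := h _ hnr
        have hbq : b ^ q ∈ 𝔪 := 𝔪.pow_mem_of_mem hb q (Nat.pos_of_ne_zero hq)
        have h1 : (⟨α (S29.H395.normAlong α (b : F)), hα _ hN⟩ : chart R ({x} : Set F)) ∈ 𝔪 := by
          have := 𝔪.add_mem hc hbq
          rwa [sub_add_cancel] at this
        have h2 := hsub _ hN h1
        have h3 : b ^ q ∈ 𝔪' := by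
          have := 𝔪'.sub_mem h2 hc'
          rwa [sub_sub_cancel] at this
        exact h𝔪'.isPrime.mem_of_pow_mem _ h3
  exact (h𝔪.eq_of_le h𝔪'.ne_top hle).symm

/-- **UNIQ along `β`**: the same with the roles of `V₁` and `V₃` exchanged. -/
theorem unique_beta839 (w : R) (q : ℕ) (hq : q ≠ 0) (β : F' →ₐ[E] F) (x : F) (x' : F')
    (V₁ V₂ V₃ : ValuationSubring F)
    (hB₁ : ∀ b ∈ chart R ({x} : Set F), b ∈ V₁) (hB₂ : ∀ b ∈ chart R ({x} : Set F), b ∈ V₂)
    (hB₃ : ∀ b ∈ chart R ({x} : Set F), b ∈ V₃)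
    (unif₁ : UnifAt V₁ (algebraMap R F w)) (unif₃ : UnifAt V₃ (algebraMap R F w))
    (ram₂ : ∃ t : F, UnifAt V₂ t ∧ UnitAt V₂ (algebraMap R F w * (t ^ (q - 1))⁻¹))
    (qep : Qep3 w (chart R ({x} : Set F)) V₁ V₂ V₃)
    (int_β : ∀ b ∈ chart R ({x} : Set F), ∃ p : Polynomial F', p.Monic ∧
      (∀ i, p.coeff i ∈ chart R ({x'} : Set F')) ∧ (p.map (β : F' →+* F)).eval b = 0)
    (res_β₃ : ∀ b ∈ chart R ({x} : Set F), ∃ b' ∈ chart R ({x'} : Set F'),
      b - β b' ∈ V₃.nonunits)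
    (res_β₂ : ∀ b ∈ chart R ({x} : Set F), ∃ b' ∈ chart R ({x'} : Set F'),
      b - β b' ∈ V₂.nonunits)
    (nr_β₂ : ∀ y : F, UnitAt V₁ y → β (S29.H395.normAlong β y) - y ^ q ∈ V₁.nonunits)
    (hβ : ∀ b ∈ chart R ({x'} : Set F'), β b ∈ chart R ({x} : Set F))
    (𝔪 𝔪' : Ideal (chart R ({x} : Set F))) (h𝔪 : 𝔪.IsMaximal) (h𝔪' : 𝔪'.IsMaximal)
    (htri : IsTriple _ 𝔪 V₁ V₂ V₃)
    (hsub : ∀ (b' : F') (h : b' ∈ chart R ({x'} : Set F')),
      (⟨β b', hβ b' h⟩ : chart R ({x} : Set F)) ∈ 𝔪 →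
        (⟨β b', hβ b' h⟩ : chart R ({x} : Set F)) ∈ 𝔪') : 𝔪' = 𝔪 :=
  unique_alpha839 w q hq β x x' V₃ V₂ V₁ hB₃ hB₂ hB₁ unif₃ unif₁ ram₂ (qep3_swap839 qep)
    int_β res_β₃ res_β₂ nr_β₂ hβ 𝔪 𝔪' h𝔪 h𝔪' (isTriple_swap839 htri) hsub

/-- **`PartUniq` is a formal consequence of `PartVal`, `Qep3` (finite chart), `PartChart` and
`PartNR`**, as soon as `R` lies in the three valuation rings. -/
theorem partUniq_of_parts839 (w : R) (q : ℕ) (hq : q ≠ 0) (α β : F' →ₐ[E] F) (x : F) (x' : F')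
    (V₁ V₂ V₃ : ValuationSubring F) (V₁' V₂' : ValuationSubring F')
    (hR₁ : ∀ r : R, algebraMap R F r ∈ V₁) (hR₂ : ∀ r : R, algebraMap R F r ∈ V₂)
    (hR₃ : ∀ r : R, algebraMap R F r ∈ V₃)
    (hval : PartVal w q x V₁ V₂ V₃) (hqep : Qep3 w (chart R ({x} : Set F)) V₁ V₂ V₃)
    (hchart : PartChart R α β x x' V₁ V₂ V₃) (hnr : PartNR q α β V₁ V₂ V₃ V₁' V₂') :
    PartUniq R α β x x' V₁ V₂ V₃ := by
  have hB₁ : ∀ b ∈ chart R ({x} : Set F), b ∈ V₁ := fun b hb =>
    mem_valuationSubring_of_mem_chart839 V₁ hR₁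
      (fun s hs => by rw [Set.mem_singleton_iff.1 hs]; exact hval.x_unit₁.2.1) hb
  have hB₂ : ∀ b ∈ chart R ({x} : Set F), b ∈ V₂ := fun b hb =>
    mem_valuationSubring_of_mem_chart839 V₂ hR₂
      (fun s hs => by rw [Set.mem_singleton_iff.1 hs]; exact hval.x_unit₂.2.1) hb
  have hB₃ : ∀ b ∈ chart R ({x} : Set F), b ∈ V₃ := fun b hb =>
    mem_valuationSubring_of_mem_chart839 V₃ hR₃
      (fun s hs => by rw [Set.mem_singleton_iff.1 hs]; exact hval.x_unit₃.2.1) hb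
  refine ⟨?_, ?_⟩
  · intro hα 𝔪 𝔪' h𝔪 h𝔪' htri hsub
    exact unique_alpha839 w q hq α x x' V₁ V₂ V₃ hB₁ hB₂ hB₃ hval.unif₁ hval.unif₃ hval.ram₂
      hqep hchart.int_α hchart.res_α₁ hchart.res_α₂ hnr.nr_α₂ hα 𝔪 𝔪' h𝔪 h𝔪' htri hsub
  · intro hβ 𝔪 𝔪' h𝔪 h𝔪' htri hsub
    exact unique_beta839 w q hq β x x' V₁ V₂ V₃ hB₁ hB₂ hB₃ hval.unif₁ hval.unif₃ hval.ram₂
      hqep hchart.int_β hchart.res_β₃ hchart.res_β₂ hnr.nr_β₂ hβ 𝔪 𝔪' h𝔪 h𝔪' htri hsub

end Main

end Fermat.Agent.S36.Mod3.H839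

end

end
-- ===== PACK-END S36/Mod3/H839/UniqAbs.lean

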