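import Mathlib
import Fermat.Prelude.Def_ModularCurve_ArithmeticGalois
import Fermat.Prelude.Def_CuspForm_HeckeLocal
import Fermat.Prelude.Def_FLTPrelim_ModularRep
import Fermat.Agent.Pack.S36.E14L1
import Fermat.Agent.Pack.S36.E12L0
import Fermat.Agent.Pack.S36.E7L0
import Fermat.Agent.Pack.S36.E0L0
import Fermat.Agent.Pack.S36.E12L1
import Fermat.Agent.Pack.S36.E14L3
import Fermat.Agent.Pack.S36.E9L2
import Fermat.Agent.Pack.S36.E14L2
import Fermat.Agent.Pack.S36.E11L3
import Fermat.Agent.Pack.S36.E4L2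
import Fermat.Agent.Pack.S36.E9L0
import Fermat.Agent.Pack.S36.E5L3
import Fermat.Agent.Pack.S36.E1L0
import Fermat.Agent.Pack.S36.E8L3
import Fermat.Agent.Pack.S36.E14L0
import Fermat.Agent.Pack.S36.E2L3
import Fermat.Agent.Pack.S36.E6L3
import Fermat.Agent.Pack.S36.E11L2
import Fermat.Agent.Pack.S36.E6L1

-- ===== PACK-BEGIN S24/Mod/H997HolBase.lean
section




/-!
# S24 / MOD — the concrete `HolBase N` and `Nonempty (AnalyticCore N)`

`Hol := {f holomorphic on ℍ | ∀ γ ∈ SL(2,ℤ), f ∘ γ has a convergent expansion in exp(2πiτ/N)}`,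
`J d τ := j(dτ)`, `qexp :=` expansion at `i∞` (helper384's `expInf`).
-/

set_option autoImplicit false

noncomputable section

open ModularCurve HahnSeries UpperHalfPlane ModularForm EisensteinSeries
open scoped MatrixGroups Manifold Real

namespace Fermat.Agent.S24.H997

open Fermat.Agent.S24.H624 Fermat.Agent.S20.L1

/-- the `j`-function has the Prelude `q`-expansion -/
theorem infExp_jFun : InfExp 1 jFun infJq := by
  intro τ
  have h := Fermat.Agent.S24.JFun.hasSum_jFun τ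
  have h1 : infJq = jqModC ℂ := by
    rw [infJq, ← map_jqModC (algebraMap ℚ ℂ), jqModC_rat]
    rfl
  have h2 : infZ 1 τ = Function.Periodic.qParam 1 (τ : ℂ) := by
    simp [infZ]
  rw [h1]
  simp only [h2]
  exact h

theorem jFun_smul' (γ : SL(2, ℤ)) (τ : ℍ) : jFun (γ • τ) = jFun τ :=
  Fermat.Agent.S24.M7.H47.jFun_smul γ τ

/-- `τ ↦ j(dτ)` -/
def Jd (d : ℕ) : ℍ → ℂ := fun τ => jFun (infAff d 0 1 τ)

theorem Jd_one : Jd 1 = jFun := by
  funext τ
  simp [Jd]

theorem mdiff_Jd {d : ℕ} (hd : 0 < d) : MDiff (Jd d) := by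
  rw [UpperHalfPlane.mdifferentiable_iff]
  have hj : DifferentiableOn ℂ (jFun ∘ ofComplex) {z : ℂ | 0 < z.im} :=
    UpperHalfPlane.mdifferentiable_iff.mp mdiff_jFun
  have hmul : DifferentiableOn ℂ (fun z : ℂ => (d : ℂ) * z) {z : ℂ | 0 < z.im} :=
    (differentiable_id.const_mul (d : ℂ)).differentiableOn
  have hmaps : Set.MapsTo (fun z : ℂ => (d : ℂ) * z) {z : ℂ | 0 < z.im} {z : ℂ | 0 < z.im} := by
    intro z hz
    simp only [Set.mem_ofPred_eq] at hz ⊢
    have : ((d : ℂ) * z).im = d * z.im := by simp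
    rw [this]
    have hd' : (0 : ℝ) < d := by exact_mod_cast hd
    positivity
  refine (hj.comp hmul hmaps).congr ?_
  intro z hz
  simp only [Set.mem_ofPred_eq] at hz
  simp only [Function.comp_apply, Jd]
  congr 1
  apply UpperHalfPlane.ext
  rw [infAff_coe hd one_pos, ofComplex_apply_of_im_pos hz]
  have hz' : 0 < ((d : ℂ) * z).im := hmaps hz
  rw [ofComplex_apply_of_im_pos hz']
  simp

variable (N : ℕ) [NeZero N]

/-- the ring `Hol` -/
def holN : Subring (ℍ → ℂ) where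
  carrier := {f | f ∈ holoRing ∧ ∀ γ : SL(2, ℤ), compSL γ f ∈ expRing N}
  mul_mem' := by
    rintro f g ⟨hf, hf'⟩ ⟨hg, hg'⟩
    exact ⟨mul_mem hf hg, fun γ => mul_mem (hf' γ) (hg' γ)⟩
  one_mem' := ⟨one_mem _, fun _ => one_mem _⟩
  add_mem' := by
    rintro f g ⟨hf, hf'⟩ ⟨hg, hg'⟩
    exact ⟨add_mem hf hg, fun γ => add_mem (hf' γ) (hg' γ)⟩
  zero_mem' := ⟨zero_mem _, fun _ => zero_mem _⟩
  neg_mem' := by
    rintro f ⟨hf, hf'⟩
    exact ⟨neg_mem hf, fun γ => neg_mem (hf' γ)⟩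

theorem mem_holN {f : ℍ → ℂ} :
    f ∈ holN N ↔ f ∈ holoRing ∧ ∀ γ : SL(2, ℤ), compSL γ f ∈ expRing N := Iff.rfl

theorem const_mem_holN (c : ℂ) : (fun _ : ℍ => c) ∈ holN N :=
  ⟨(algebraMap ℂ holoRing c).2, fun _ => (InfExp.const c).mem_expRing⟩

theorem comp_mem_holN (g : SL(2, ℤ)) (f : ℍ → ℂ) (hf : f ∈ holN N) : compSL g f ∈ holN N := by
  refine ⟨(precompSL g ⟨f, hf.1⟩).2, fun γ => ?_⟩
  rw [← compSL_mul]
  exact hf.2 _

theorem Jd_mem_holN (d : ℕ) (hd : d ∣ N) : Jd d ∈ holN N := by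
  have hN : 0 < N := Nat.pos_of_ne_zero (NeZero.ne N)
  have hd0 : 0 < d := Nat.pos_of_dvd_of_pos hd hN
  exact ⟨mdiff_Jd hd0, fun γ => inf_J_mul_smul_mem_expRing jFun_smul' infExp_jFun hd γ⟩

theorem Jd_inv (d : ℕ) (hd : d ∣ N) (g : SL(2, ℤ)) (hg : g ∈ CongruenceSubgroup.Gamma0 N)
    (τ : ℍ) : Jd d (g • τ) = Jd d τ := by
  have hN : 0 < N := Nat.pos_of_ne_zero (NeZero.ne N)
  have hd0 : 0 < d := Nat.pos_of_dvd_of_pos hd hN
  have hNg : (N : ℤ) ∣ g 1 0 := by
    rw [CongruenceSubgroup.Gamma0_mem] at hg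
    exact (ZMod.intCast_zmod_eq_zero_iff_dvd _ _).mp hg
  have hdg : (d : ℤ) ∣ g 1 0 := dvd_trans (by exact_mod_cast hd) hNg
  obtain ⟨c, hc⟩ := hdg
  have hdet := inf_sl_det g
  let g' : SL(2, ℤ) := ⟨!![g 0 0, d * g 0 1; c, g 1 1], by
    rw [Matrix.det_fin_two_of]
    rw [hc] at hdet
    linear_combination hdet⟩
  have h := inf_aff_smul_eq (d := d) (a := d) (d' := 1) (b := 0) hd0 hd0 one_pos g g'
    (by simp [g']; ring) (by simp [g']) (by simp [g', hc]; ring) (by simp [g']) τ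
  show jFun (infAff d 0 1 (g • τ)) = jFun (infAff d 0 1 τ)
  rw [h, jFun_smul']

theorem Jd_distinct (g : SL(2, ℤ)) (h : ∀ τ : ℍ, Jd N (g • τ) = Jd N τ) :
    g ∈ CongruenceSubgroup.Gamma0 N := by
  have := inf_distinct (J := jFun) jFun_smul' infExp_jFun (N := N) g 1
    (fun τ => by simpa [Jd] using h τ)
  simpa using this

/-- the inclusion `Hol → expRing N` -/
def holToExp : holN N →+* expRing N where
  toFun h := ⟨h.1, by simpa [compSL_one] using h.2.2 1⟩
  map_one' := rfl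
  map_mul' _ _ := rfl
  map_zero' := rfl
  map_add' _ _ := rfl

theorem holToExp_injective : Function.Injective (holToExp N) := by
  intro x y h
  exact Subtype.ext (congrArg (fun f : expRing N => (f : ℍ → ℂ)) h)

theorem expInf_Jd (d : ℕ) (hd : d ∣ N) :
    haveI : NeZero (d * N) := ⟨Nat.mul_ne_zero
      (Nat.pos_of_dvd_of_pos hd (Nat.pos_of_ne_zero (NeZero.ne N))).ne' (NeZero.ne N)⟩
    expInf N (holToExp N ⟨Jd d, Jd_mem_holN N d hd⟩) = qExpand ℂ (d * N) infJq := by
  have hN : 0 < N := Nat.pos_of_ne_zero (NeZero.ne N)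
  have hd0 : 0 < d := Nat.pos_of_dvd_of_pos hd hN
  exact (inf_J_mul_exp infExp_jFun hd0 hN).expInf_eq

/-- **The concrete `HolBase N`.** -/
def holBase : HolBase N where
  Hol := holN N
  const_mem := const_mem_holN N
  comp_mem := comp_mem_holN N
  J := Jd
  J_mem := Jd_mem_holN N
  J_one_inv g τ := by rw [Jd_one]; exact jFun_smul' g τ
  J_inv := Jd_inv N
  J_distinct := Jd_distinct N
  qexp := (expInf N).comp (holToExp N)
  qexp_injective := expInf_injective.comp (holToExp_injective N)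
  qexp_const c := (InfExp.const c).expInf_eq
  qexp_J d hd k := by
    have hN : 0 < N := Nat.pos_of_ne_zero (NeZero.ne N)
    have hd0 : 0 < d := Nat.pos_of_dvd_of_pos hd hN
    haveI : NeZero (d * N) := ⟨Nat.mul_ne_zero hd0.ne' (NeZero.ne N)⟩
    show (expInf N (holToExp N ⟨Jd d, Jd_mem_holN N d hd⟩)).coeff k = _
    rw [expInf_Jd N d hd]
    have hcast : ((N * d : ℕ) : ℤ) = ((d * N : ℕ) : ℤ) := by rw [mul_comm]
    rw [hcast]
    split_ifs with hk
    · obtain ⟨m, rfl⟩ := hk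
      rw [qExpand_coeff_mul, Int.mul_ediv_cancel_left _
        (by exact_mod_cast (NeZero.ne (d * N)) : ((d * N : ℕ) : ℤ) ≠ 0)]
      rfl
    · exact qExpand_coeff_of_not_dvd (d * N) _ hk

theorem holBase_isHolo : (holBase N).IsHolo where
  mdiff f hf := hf.1
  J_one := Jd_one

theorem T_smul_eq_infAff (τ : ℍ) : ModularGroup.T • τ = infAff 1 1 1 τ := by
  apply UpperHalfPlane.ext
  rw [UpperHalfPlane.modular_T_smul, infAff_coe one_pos one_pos]
  simp [add_comm]

theorem holBase_shift (h : (holBase N).Hol) (n : ℤ) :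
    ((holBase N).qexp ((holBase N).compH ModularGroup.T h)).coeff n
      = ((infRoot 1 N : ℂˣ) : ℂ) ^ n * ((holBase N).qexp h).coeff n := by
  have hf : InfExp N (h : ℍ → ℂ) ((holBase N).qexp h) := expInf_spec (holToExp N h)
  have hT := hf.comp_translate 1
  have hT' : InfExp N (((holBase N).compH ModularGroup.T h : (holBase N).Hol) : ℍ → ℂ)
      (infTwist (infRoot 1 N) ((holBase N).qexp h)) := by
    refine hT.congr fun τ => ?_
    show (h : ℍ → ℂ) (infAff 1 1 1 τ) = (h : ℍ → ℂ) (ModularGroup.T • τ)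
    rw [T_smul_eq_infAff]
  have heq : (holBase N).qexp ((holBase N).compH ModularGroup.T h)
      = infTwist (infRoot 1 N) ((holBase N).qexp h) :=
    (expInf_spec (holToExp N ((holBase N).compH ModularGroup.T h))).unique hT'
  rw [heq, infTwist_coeff, Units.val_zpow_eq_zpow_val, mul_comm]

theorem isPrimitiveRoot_infRoot : IsPrimitiveRoot ((infRoot 1 N : ℂˣ) : ℂ) N := by
  have h := Complex.isPrimitiveRoot_exp N (NeZero.ne N)
  have : ((infRoot 1 N : ℂˣ) : ℂ) = Complex.exp (2 * π * Complex.I / N) := by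
    rw [infRoot_coe]
    congr 1
    push_cast
    ring
  rw [this]
  exact h

/-- **The analytic core exists.** -/
def analyticCore : AnalyticCore N :=
  (holBase N).toAnalyticCore (holBase_isHolo N) _ (isPrimitiveRoot_infRoot N) (holBase_shift N)

theorem nonempty_analyticCore : Nonempty (AnalyticCore N) := ⟨analyticCore N⟩

end Fermat.Agent.S24.H997

end
end
-- ===== PACK-END S24/Mod/H997HolBase.lean

-- ===== PACK-BEGIN S24/Mod.lean
section




/-!
# S24 — modular side: local embedding data for the function field of `X₀(N)`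

INTERFACE FILE (statements frozen by helper984 @4630f4b).

Proof: helper997's assembly `H997.AnalyticCore.modularPackage_fields` applied to
* the concrete analytic core `H997.analyticCore N` (`Mod/H997HolBase.lean`: helper384's
  expansions at `∞`, helper624's Taylor expansions, helper47's local orders of `j`, helper264's
  `q`-expansion of `j`), and
* the degree bound `Deg457.degree_fields N` (helper457 / helper648 / helper708).
-/

set_option autoImplicit false

noncomputable section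

open AlgebraicCurve ModularCurve
open scoped MatrixGroups

namespace Fermat.Agent.S24

/-- Everything the algebraic side needs to know about `F = ℚ̄(j(q^d) : d ∣ N)`. -/
structure ModularPackage (N : ℕ) [NeZero N] where
  finiteDimensional :
    FiniteDimensional ↥(IntermediateField.adjoin Kbar {jF N}) (FF N)
  finrank_eq :
    Module.finrank ↥(IntermediateField.adjoin Kbar {jF N}) (FF N) = Nat.card (XX N)
  dataFin : ∀ a : Kbar, LocalData Kbar (FF N) ℂ (XX N) (jF N - algebraMap Kbar (FF N) a)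
  dataInf : LocalData Kbar (FF N) ℂ (XX N) (jF N)⁻¹
  perm_generic : ∀ a : Kbar, a ≠ 0 → a ≠ 1728 → (dataFin a).perm = 1
  orbits_zero :
    numOrbits (dataFin 0).perm = numOrbits (permOf N (ModularGroup.S * ModularGroup.T))
  orbits_1728 : numOrbits (dataFin 1728).perm = numOrbits (permOf N ModularGroup.S)
  orbits_inf : numOrbits dataInf.perm = numOrbits (permOf N ModularGroup.T)

theorem nonempty_modularPackage (N : ℕ) [NeZero N] : Nonempty (ModularPackage N) := by
  obtain ⟨hfd, hle⟩ := Deg457.degree_fields N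
  obtain ⟨dF, dI, h1, h2, h3, h4, h5⟩ := (H997.analyticCore N).modularPackage_fields hfd hle
  exact ⟨⟨hfd, h1, dF, dI, h2, h3, h4, h5⟩⟩

end Fermat.Agent.S24

end
end
-- ===== PACK-END S24/Mod.lean

-- ===== PACK-BEGIN S28/H807/Analytic.lean
section
/-
S28 / helper807 — UNCONDITIONAL prime-level analytic inputs `[A-Φ]`, `[A-W]` of the captain
skeleton: `Nonempty (ModPolyData p)` and `Nonempty (UnitPolyData p)` for every prime `p`.

Bridge facts used (already on main): helper565 (`q`-expansions of `j`, `Δ`, `Δ⁻¹`,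
`SL(2,ℤ)`-invariance of `j`) and helper685 (level-one polynomial principle, `S`-invariant form).
-/





set_option autoImplicit false
set_option maxHeartbeats 400000

noncomputable section

open ModularCurve Polynomial Matrix UpperHalfPlane
open scoped MatrixGroups

namespace Fermat.Agent.S28.H807

open Fermat.Agent.S28

theorem hasQExp_iff_hasTExp (c : LaurentSeries ℂ) (F : ℍ → ℂ) :
    HasQExp c F ↔ H565.HasTExp 1 F c := by
  rw [hasQExp_iff]
  rfl

theorem hasQExp_iff_hasQLaurent (c : LaurentSeries ℂ) (F : ℍ → ℂ) :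
    HasQExp c F ↔ H685.HasQLaurent 1 F c := by
  rw [hasQExp_iff]
  rfl

theorem evalJ_eq_aeval (P : Polynomial ℂ) :
    evalJ ℂ P = Polynomial.aeval (jqModC ℂ) P := by
  unfold evalJ
  rw [Polynomial.aeval_def]
  congr 1
  ext c : 1
  exact (H685.algebraMap_eq_C c).symm

/-- The polynomial principle holds (helper685). -/
theorem polyPrinciple : PolyPrinciple := by
  intro c F hF hS
  obtain ⟨P, hP, -⟩ := H685.exists_polynomial_of_S_invariant' F c
    ((hasQExp_iff_hasQLaurent c F).mp hF) hS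
  exact ⟨P, by rw [evalJ_eq_aeval]; exact hP⟩

theorem hasQExp_jFun : HasQExp (jqModC ℂ) H565.jFun :=
  (hasQExp_iff_hasTExp _ _).mpr H565.hasTExp_jFun

theorem coeffMap_deltaL : coeffMap (Int.castRingHom ℂ) (deltaL ℤ) = H565.deltaSeriesC := by
  unfold deltaL H565.deltaSeriesC
  rw [map_mul, coeffMap_single, coeffMap_ofPowerSeries, map_one]
  congr 2
  rw [← H565.map_dedekindEtaUnit]
  ext n
  simp

theorem coeffMap_deltaInvL :
    coeffMap (Int.castRingHom ℂ) (deltaInvL ℤ) = H565.deltaInvSeriesC := by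
  unfold deltaInvL H565.deltaInvSeriesC H565.etaInvC
  rw [map_mul, coeffMap_single, coeffMap_ofPowerSeries, map_one]
  congr 2

theorem discriminant_smul_denom (γ : SL(2, ℤ)) (τ : ℍ) :
    ModularForm.discriminant (γ • τ) = (denom γ τ) ^ 12 * ModularForm.discriminant τ := by
  rw [H565.discriminant_smul, ModularGroup.denom_apply]
  norm_cast

variable (p : ℕ) [NeZero p]

/-- **[A-Φ]** (captain stub `nonempty_modPolyData`): the modular polynomial of prime level. -/
theorem nonempty_modPolyData (hp : p.Prime) : Nonempty (ModPolyData p) :=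
  nonempty_modPolyData_of p hp polyPrinciple H565.jFun H565.jFun_smul hasQExp_jFun

/-- **[A-W]** (captain stub `nonempty_unitPolyData`): `p¹² Δ(q^p)/Δ(q)` is integral over
`ℤ[j]`. -/
theorem nonempty_unitPolyData (hp : p.Prime) : Nonempty (UnitPolyData p) :=
  nonempty_unitPolyData_of p hp polyPrinciple ModularForm.discriminant
    ModularForm.discriminant_ne_zero discriminant_smul_denom
    (by rw [coeffMap_deltaL]; exact (hasQExp_iff_hasTExp _ _).mpr H565.hasTExp_discriminant)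
    (by rw [coeffMap_deltaInvL]; exact (hasQExp_iff_hasTExp _ _).mpr H565.hasTExp_discriminant_inv)

end Fermat.Agent.S28.H807

end

end
-- ===== PACK-END S28/H807/Analytic.lean

-- ===== PACK-BEGIN S28/H988/Degree.lean
section
/-
S28 degree API (helper988), UNCONDITIONAL, for consumers in rows S18 / S37 / A2.
`E_N(k) := modularFunctionFieldFullC k N = k(j(q^d) : d ∣ N) ⊂ k((q))`.

* `relfinrank_jField_full_eq`  : `[E_N(k) : k(j)] = ψ(N)`            (all primes `p ∣ N` invertible in `k`)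
* `relfinrank_full_mul_prime`  : `[E_{Np}(k) : E_N(k)] = p + 1` (`p ∤ N`), `= p` (`p ∣ N`)
* `modularFunctionFieldBar_eq_fullC` : the Prelude's `ℚ̄`-function field of `X₀(N)` is `E_N(ℚ̄)`
* `relfinrank_bar_mul_prime`, `relfinrank_jField_bar_eq` : the same for `modularFunctionFieldBar`.
-/







set_option autoImplicit false

noncomputable section

open ModularCurve IntermediateField

namespace Fermat.Agent.S28.H988

section AnyField

variable (k : Type*) [Field k]

/-- All hypotheses of helper867's degree theory hold as soon as the primes dividing `N` are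
invertible in `k`. -/
theorem good_of_char (N : ℕ) (hN : N ≠ 0) (hchar : ∀ p : ℕ, p.Prime → p ∣ N → (p : k) ≠ 0) :
    H867.Good k N :=
  H867.good_of_inputs k N hN (fun p hp _ _ => H807.nonempty_modPolyData p hp)
    (fun p hp _ _ => H807.nonempty_unitPolyData p hp) H25.theta_identity hchar

/-- **Degree formula.** `[k(j(q^d) : d ∣ N) : k(j)] = ψ(N)`. -/
theorem relfinrank_jField_full_eq (N : ℕ) (hN : N ≠ 0)
    (hchar : ∀ p : ℕ, p.Prime → p ∣ N → (p : k) ≠ 0) :
    (jField k).relfinrank (modularFunctionFieldFullC k N) = dedekindPsi N := by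
  have h := (good_of_char k N hN hchar).degE_eq
  rw [H867.gFun_eq_dedekindPsi hN] at h
  exact h

theorem dedekindPsi_pos (N : ℕ) (hN : N ≠ 0) : 0 < dedekindPsi N := by
  rw [← H867.gFun_eq_dedekindPsi hN]
  exact H867.gFun_pos N

/-- **Degree of the tower step.** `[E_{Np} : E_N] = p + 1` if `p ∤ N`, `= p` if `p ∣ N`. -/
theorem relfinrank_full_mul_prime (N p : ℕ) (hN : N ≠ 0) (hp : p.Prime)
    (hchar : ∀ r : ℕ, r.Prime → r ∣ N * p → (r : k) ≠ 0) :
    (modularFunctionFieldFullC k N).relfinrank (modularFunctionFieldFullC k (N * p)) =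
      if p ∣ N then p else p + 1 := by
  have hNp : N * p ≠ 0 := Nat.mul_ne_zero hN hp.ne_zero
  have hdvd : N ∣ N * p := Dvd.intro p rfl
  have hG := good_of_char k (N * p) hNp hchar
  have htower := hG.tower hdvd
  have h1 : H867.degE k N = dedekindPsi N :=
    relfinrank_jField_full_eq k N hN (fun r hr hrN => hchar r hr (hrN.trans hdvd))
  have h2 : H867.degE k (N * p) = dedekindPsi (N * p) :=
    relfinrank_jField_full_eq k (N * p) hNp hchar
  rw [h1, h2] at htower
  have hpos := dedekindPsi_pos N hN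
  by_cases hpN : p ∣ N
  · rw [if_pos hpN]
    rw [H626.psi_mul_prime_of_dvd hN hp hpN, mul_comm p] at htower
    exact Nat.eq_of_mul_eq_mul_left hpos htower
  · rw [if_neg hpN]
    rw [H626.psi_mul_prime_of_not_dvd hN hp hpN, mul_comm (p + 1)] at htower
    exact Nat.eq_of_mul_eq_mul_left hpos htower

end AnyField

section Bar

variable (L : Type*) [Field L] [Algebra ℚ L]

theorem image_divisorExpansions_eq (N : ℕ) :
    ⇑(coeffEmb L) '' divisorExpansions N = divisorExpansionsC L N := by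
  ext x
  constructor
  · rintro ⟨y, ⟨d, hne, hd, rfl⟩, rfl⟩
    refine ⟨d, hne, hd, ?_⟩
    rw [coeffEmb, ← jqModC_rat, coeffMap_qExpand, coeffMap_jqModC]
  · rintro ⟨d, hne, hd, rfl⟩
    refine ⟨qExpand ℚ d jq, ⟨d, hne, hd, rfl⟩, ?_⟩
    rw [coeffEmb, ← jqModC_rat, coeffMap_qExpand, coeffMap_jqModC]

/-- The base change of the Prelude's `ℚ`-function field is `L(j(q^d) : d ∣ N)`. -/
theorem laurentBaseChange_full_eq_fullC (N : ℕ) :
    laurentBaseChange L (modularFunctionFieldFull N) = modularFunctionFieldFullC L N := by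
  rw [modularFunctionFieldFull, Fermat.Agent.S24.H368.laurentBaseChange_adjoin,
    image_divisorExpansions_eq]
  rfl

end Bar

/-- The Prelude's function field of `X₀(N)` over `ℚ̄` is `ℚ̄(j(q^d) : d ∣ N)`. -/
theorem modularFunctionFieldBar_eq_fullC (N : ℕ) :
    modularFunctionFieldBar N = modularFunctionFieldFullC (AlgebraicClosure ℚ) N :=
  laurentBaseChange_full_eq_fullC _ N

theorem natCast_ne_zero_bar {p : ℕ} (hp : p ≠ 0) : ((p : ℕ) : AlgebraicClosure ℚ) ≠ 0 :=
  Nat.cast_ne_zero.mpr hp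

/-- `[ℚ̄(X₀(N)) : ℚ̄(j)] = ψ(N)`. -/
theorem relfinrank_jField_bar_eq (N : ℕ) (hN : N ≠ 0) :
    (jField (AlgebraicClosure ℚ)).relfinrank (modularFunctionFieldBar N) = dedekindPsi N := by
  rw [modularFunctionFieldBar_eq_fullC]
  exact relfinrank_jField_full_eq _ N hN (fun p hp _ => natCast_ne_zero_bar hp.ne_zero)

/-- `[ℚ̄(X₀(Np)) : ℚ̄(X₀(N))] = p + 1` if `p ∤ N`, `= p` if `p ∣ N`. -/
theorem relfinrank_bar_mul_prime (N p : ℕ) (hN : N ≠ 0) (hp : p.Prime) :
    (modularFunctionFieldBar N).relfinrank (modularFunctionFieldBar (N * p)) =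
      if p ∣ N then p else p + 1 := by
  rw [modularFunctionFieldBar_eq_fullC, modularFunctionFieldBar_eq_fullC]
  exact relfinrank_full_mul_prime _ N p hN hp (fun r hr _ => natCast_ne_zero_bar hr.ne_zero)

end Fermat.Agent.S28.H988

end

end
-- ===== PACK-END S28/H988/Degree.lean

-- ===== PACK-BEGIN S18/H24/GaussFields.lean
section


/-!
# S18 / node_mod, part G-V (helper24) — HAND-IN

All `V`-fields of `Alg.GoodModel` (v4 on main) for the concrete objects of `S18/Mod/Defs.lean`: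

`gv_fields` : for every subring `V` with underlying set `VcSet M A E`, every `w` satisfying the
`w`-fields of G-R (`w_mem, w_ne_zero, w_inv_not_mem, w_gen, w_discrete` for `Rc M A E`), and every
coordinate `x` with an integral expansion `q⁻¹ + …` (`H456.HasIntExp`, e.g. from `IsCoordinate`):

    V_le ∧ V_total ∧ R_le_V ∧ x_mem_V ∧ w_inv_not_mem_V ∧ V_gen ∧ gauss

in exactly the field types of `Alg.GoodModel (Lc M) (Ec M E) (Fc M E) (Rc M A E) V w x S`.
No hypothesis on `ℓ`, `M`, or finiteness of `E` is needed here (they enter through G-R).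
-/

set_option autoImplicit false

noncomputable section

namespace Fermat.Agent.S18.H24

open ModularCurve AlgebraicCurve HahnSeries Fermat.Agent.S18 Fermat.Agent.S18.Mod
open Fermat.Agent.S18.H456

variable {M : ℕ} {A : ValuationSubring Qb} {E : IntermediateField ℚ Qb}

/-- The `w`-fields of G-R give a uniformiser in the sense of `IsUnif`. -/
theorem exists_isUnif {w : Om M} (hwR : w ∈ Rc M A E) (hw0 : w ≠ 0) (hwinv : w⁻¹ ∉ Rc M A E)
    (hgen : ∀ r ∈ Rc M A E, r⁻¹ ∉ Rc M A E → r * w⁻¹ ∈ Rc M A E)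
    (hdisc : ∀ r ∈ Rc M A E, r ≠ 0 →
      ∃ n : ℕ, r * (w⁻¹) ^ n ∈ Rc M A E ∧ (r * (w⁻¹) ^ n)⁻¹ ∈ Rc M A E) :
    ∃ w₀ : Qb, w = cst M w₀ ∧ _root_.Fermat.Agent.S18.H24.IsUnif A E w₀ := by
  obtain ⟨w₀, hw₀A, hw₀E, rfl⟩ := (mem_Rc_iff M A E).mp hwR
  have hw₀0 : w₀ ≠ 0 := by
    rintro rfl
    exact hw0 (map_zero _)
  have hninv : w₀⁻¹ ∉ A := by
    intro h
    apply hwinv
    rw [← map_inv₀]
    exact cst_mem_Rc M A E h (inv_mem hw₀E)
  refine ⟨w₀, rfl, hw₀A, hw₀E, hw₀0, hninv, ?_, ?_⟩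
  · intro c hcA hcE hcinv
    have h1 : (cst M c)⁻¹ ∉ Rc M A E := by
      intro h
      rw [← map_inv₀] at h
      exact hcinv ((cst_mem_Rc_iff M A E).mp h).1
    have h2 := hgen _ (cst_mem_Rc M A E hcA hcE) h1
    rw [← map_inv₀, ← map_mul] at h2
    exact ((cst_mem_Rc_iff M A E).mp h2).1
  · intro c hcA hcE hc0
    have h1 : cst M c ≠ 0 := fun h => hc0 (cst_injective M (by rw [h]; exact (map_zero _).symm))
    obtain ⟨n, hn1, hn2⟩ := hdisc _ (cst_mem_Rc M A E hcA hcE) h1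
    refine ⟨n, ?_, ?_⟩
    · rw [← map_inv₀, ← map_pow, ← map_mul] at hn1
      exact ((cst_mem_Rc_iff M A E).mp hn1).1
    · rw [← map_inv₀, ← map_pow, ← map_mul, ← map_inv₀] at hn2
      exact ((cst_mem_Rc_iff M A E).mp hn2).1

/-- **G-V hand-in**: all `V`-fields of `GoodModel` for the concrete Gauss valuation ring. -/
theorem gv_fields [NeZero M] (V : Subring (Om M)) (hV : (V : Set (Om M)) = VcSet M A E)
    {w : Om M} (hwR : w ∈ Rc M A E) (hw0 : w ≠ 0) (hwinv : w⁻¹ ∉ Rc M A E)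
    (hgen : ∀ r ∈ Rc M A E, r⁻¹ ∉ Rc M A E → r * w⁻¹ ∈ Rc M A E)
    (hdisc : ∀ r ∈ Rc M A E, r ≠ 0 →
      ∃ n : ℕ, r * (w⁻¹) ^ n ∈ Rc M A E ∧ (r * (w⁻¹) ^ n)⁻¹ ∈ Rc M A E)
    {x : Om M} (hx : HasIntExp M x) :
    ((V : Set (Om M)) ⊆ Fc M E) ∧
    (∀ f ∈ Fc M E, f ∈ V ∨ f⁻¹ ∈ V) ∧
    (Rc M A E ≤ V) ∧
    (x ∈ V) ∧
    (w⁻¹ ∉ V) ∧
    (∀ f ∈ V, f⁻¹ ∉ V → f * w⁻¹ ∈ V) ∧
    (∀ P : Polynomial (Om M), (∀ i, P.coeff i ∈ Rc M A E) →
      (∃ i, P.coeff i ≠ 0 ∧ (P.coeff i)⁻¹ ∈ Rc M A E) → (P.eval x)⁻¹ ∈ V) := by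
  have hVeq : V = Vc M A E := SetLike.coe_injective (by rw [hV, coe_Vc])
  subst hVeq
  obtain ⟨w₀, rfl, hw⟩ := _root_.Fermat.Agent.S18.H24.exists_isUnif hwR hw0 hwinv hgen hdisc
  exact ⟨field_V_le M A E, field_V_total M hw, field_R_le_V M A E, coord_mem_Vc hx,
    field_w_inv_not_mem_V hw.ne_zero hw.inv_not_mem, field_V_gen M hw, field_gauss hx⟩

/-- The same for a coordinate in the sense of `Mod.IsCoordinate`. -/
theorem gv_fields_of_isCoordinate [NeZero M] (V : Subring (Om M))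
    (hV : (V : Set (Om M)) = VcSet M A E)
    {w : Om M} (hwR : w ∈ Rc M A E) (hw0 : w ≠ 0) (hwinv : w⁻¹ ∉ Rc M A E)
    (hgen : ∀ r ∈ Rc M A E, r⁻¹ ∉ Rc M A E → r * w⁻¹ ∈ Rc M A E)
    (hdisc : ∀ r ∈ Rc M A E, r ≠ 0 →
      ∃ n : ℕ, r * (w⁻¹) ^ n ∈ Rc M A E ∧ (r * (w⁻¹) ^ n)⁻¹ ∈ Rc M A E)
    {ℓ : ℕ} {x : Om M} {S : Finset (Om M)} (hx : IsCoordinate M ℓ x S) :
    ((V : Set (Om M)) ⊆ Fc M E) ∧
    (∀ f ∈ Fc M E, f ∈ V ∨ f⁻¹ ∈ V) ∧
    (Rc M A E ≤ V) ∧
    (x ∈ V) ∧
    (w⁻¹ ∉ V) ∧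
    (∀ f ∈ V, f⁻¹ ∉ V → f * w⁻¹ ∈ V) ∧
    (∀ P : Polynomial (Om M), (∀ i, P.coeff i ∈ Rc M A E) →
      (∃ i, P.coeff i ≠ 0 ∧ (P.coeff i)⁻¹ ∈ Rc M A E) → (P.eval x)⁻¹ ∈ V) :=
  gv_fields V hV hwR hw0 hwinv hgen hdisc (hasIntExp_of_isCoordinate M hx)

end Fermat.Agent.S18.H24

end
end
-- ===== PACK-END S18/H24/GaussFields.lean

-- ===== PACK-BEGIN S18/B12/H33/RegChart.lean
section






/-!
# S18 b2 (helper33): REG-CHART — `b2Regular` instantiated on the charts of helper138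

Setting (the one of `H138.connected_special_fibre`): `R` a discrete valuation ring, `F` a field of
characteristic `0` which is an `R`-algebra, `x : F` transcendental over `R`,
`[FiniteDimensional (H138.baseField R x) F]`, and the chart
`B := H138.chart R {x} : Subalgebra R F` (the integral closure of `R[x]` in `F`).

Main result `regularAlong_chart`:

    H754.RegularAlong (algebraMap R (H138.chart R {x}) w)

from
* `hdom` : `w` is prime in the chart (QEP),
* `hsep` : elementwise separability of the special fibre (shape of `H425.hsep_poly`),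
* `S`, `hS` : the branch values, pairwise distinct mod `w`,
* `hNC` : for every prime `π` of `R[X]` not associated to `w` or to some `X - c` (`c ∈ S`), the
  ideal `π(x) B` is radical (unramifiedness away from `S`, from `GoodModel.unramified`).

All the instance plumbing (`R[X]`-algebra structure through `aeval x`, finiteness, torsion-freeness,
integral closedness) is done here.  `regularAlong_chart_field` is the same theorem with the
hypotheses `hsep`, `hNC` stated by elements of `F`.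
-/

set_option autoImplicit false
set_option linter.style.haveILetI false

noncomputable section

namespace Fermat.Agent.S18.B12.H33

open Polynomial

universe u v

section RegChart

variable (R : Type u) [CommRing R] {F : Type v} [Field F] [Algebra R F]

/-- The coordinate `x` as an element of the chart. -/
def chartX (x : F) : H138.chart R ({x} : Set F) := ⟨x, H138.mem_chart_of_mem rfl⟩

/-- The structure map `R[X] → B`, `X ↦ x`. -/
def chartPolyHom (x : F) : R[X] →ₐ[R] H138.chart R ({x} : Set F) := aeval (chartX R x)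

variable {R}

@[simp] theorem coe_chartX (x : F) : ((chartX R x : H138.chart R ({x} : Set F)) : F) = x := rfl

theorem chartPolyHom_apply (x : F) (p : R[X]) : chartPolyHom R x p = aeval (chartX R x) p := rfl

theorem coe_chartPolyHom (x : F) (p : R[X]) :
    ((chartPolyHom R x p : H138.chart R ({x} : Set F)) : F) = aeval x p := by
  have h := Polynomial.aeval_algHom_apply (H138.chart R ({x} : Set F)).val (chartX R x) p
  rw [chartPolyHom_apply]
  exact h.symm

theorem chartPolyHom_C (x : F) (r : R) :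
    chartPolyHom R x (C r) = algebraMap R (H138.chart R ({x} : Set F)) r := by
  rw [chartPolyHom_apply, aeval_C]

theorem chartPolyHom_injective {x : F} (hx : Transcendental R x) :
    Function.Injective (chartPolyHom R x) := by
  rw [injective_iff_map_eq_zero]
  intro p hp
  have h : aeval x p = 0 := by
    rw [← coe_chartPolyHom, hp]; rfl
  exact transcendental_iff.1 hx p h

theorem algebraMap_injective_of_transcendental {x : F} (hx : Transcendental R x) :
    Function.Injective (algebraMap R F) := by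
  rw [injective_iff_map_eq_zero]
  intro r hr
  have h : aeval x (C r : R[X]) = 0 := by rw [aeval_C, hr]
  have := transcendental_iff.1 hx _ h
  exact C_eq_zero.1 this

end RegChart

section Package

variable {R : Type u} [CommRing R] {F : Type v} [Field F] [Algebra R F]

/-- The `R[X]`-algebra structure of the chart (`X ↦ x`).  Not an instance. -/
@[reducible] def chartAlgebra (R : Type u) [CommRing R] {F : Type v} [Field F] [Algebra R F]
    (x : F) : Algebra R[X] (H138.chart R ({x} : Set F)) :=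
  (chartPolyHom R x).toRingHom.toAlgebra

/-- The chart is (tautologically) the integral closure of `R[x]` in `F`. -/
def chartEquiv (x : F) :
    integralClosure (Algebra.adjoin R ({x} : Set F)) F ≃+* H138.chart R ({x} : Set F) where
  toFun c := ⟨c.1, c.2⟩
  invFun c := ⟨c.1, c.2⟩
  left_inv _ := rfl
  right_inv _ := rfl
  map_mul' _ _ := rfl
  map_add' _ _ := rfl

/-- `R[X] ≃ R[x]` for transcendental `x`. -/
def polyEquivAdjoin {x : F} (hx : Transcendental R x) :
    R[X] ≃ₐ[R] Algebra.adjoin R ({x} : Set F) :=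
  (AlgEquiv.ofInjective (aeval (R := R) x)
    ((injective_iff_map_eq_zero _).2 (transcendental_iff.1 hx))).trans
      (Subalgebra.equivOfEq _ _ (Algebra.adjoin_singleton_eq_range_aeval R x).symm)

theorem coe_polyEquivAdjoin {x : F} (hx : Transcendental R x) (p : R[X]) :
    ((polyEquivAdjoin hx p : Algebra.adjoin R ({x} : Set F)) : F) = aeval x p := rfl

/-- The chart is integrally closed and finite over `R[X]`. -/
theorem chart_package [IsDomain R] [IsNoetherianRing R] [IsIntegrallyClosed R[X]] [CharZero F]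
    {x : F} (hx : Transcendental R x) [FiniteDimensional (H138.baseField R x) F] :
    IsIntegrallyClosed (H138.chart R ({x} : Set F)) ∧
      @Module.Finite R[X] (H138.chart R ({x} : Set F)) _ _ (chartAlgebra R x).toModule := by
  classical
  set A : Subalgebra R F := Algebra.adjoin R ({x} : Set F) with hA
  set K : Subfield F := H138.baseField R x with hK
  haveI := H138.isIntegrallyClosed_adjoin_singleton (R := R) hx
  haveI := H138.isNoetherianRing_adjoin_singleton (R := R) hx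
  let φ : A →+* K :=
    { toFun := fun a => ⟨a, H138.adjoin_le_baseField x a.2⟩
      map_one' := rfl
      map_mul' := fun _ _ => rfl
      map_zero' := rfl
      map_add' := fun _ _ => rfl }
  letI : Algebra A K := φ.toAlgebra
  haveI : IsScalarTower A K F := IsScalarTower.of_algebraMap_eq (fun _ => rfl)
  have hinj : Function.Injective (algebraMap A K) := by
    intro a b hab
    have : (a : F) = b := congrArg (fun t : K => (t : F)) hab
    exact Subtype.ext this
  haveI : FaithfulSMul A K := (faithfulSMul_iff_algebraMap_injective A K).2 hinj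
  haveI : IsFractionRing A K := by
    refine IsFractionRing.of_field A K (fun z => ?_)
    obtain ⟨a, ha, b, hb, h⟩ := H138.exists_div_of_mem_baseField (R := R) x z.2
    exact ⟨⟨a, ha⟩, ⟨b, hb⟩, Subtype.ext h⟩
  haveI : CharZero K := (algebraMap K F).charZero
  haveI hfinA : Module.Finite A (integralClosure A F) :=
    IsIntegralClosure.finite A K F (integralClosure A F)
  haveI hic : IsIntegrallyClosed (integralClosure A F) :=
    integralClosure.isIntegrallyClosedOfFiniteExtension K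
  refine ⟨IsIntegrallyClosed.of_equiv (chartEquiv x), ?_⟩
  letI := chartAlgebra R x
  refine Module.Finite.of_equiv_equiv (A₁ := A) (B₁ := integralClosure A F)
    (polyEquivAdjoin hx).symm.toRingEquiv (chartEquiv x) ?_
  refine RingHom.ext (fun a => ?_)
  obtain ⟨p, rfl⟩ := (polyEquivAdjoin hx).surjective a
  apply Subtype.ext
  simp only [RingHom.comp_apply, RingHom.coe_coe,
    AlgEquiv.coe_ringEquiv, AlgEquiv.symm_apply_apply]
  change ((chartPolyHom R x p : H138.chart R ({x} : Set F)) : F) = _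
  rw [coe_chartPolyHom]
  rfl

end Package

section Coe

variable {R : Type u} [CommRing R] {F : Type v} [Field F] [Algebra R F]

/-- Divisibility by `w` in the chart, in terms of elements of `F`. -/
theorem algebraMap_dvd_chart_iff {x : F} (w : R) (z : H138.chart R ({x} : Set F)) :
    algebraMap R (H138.chart R ({x} : Set F)) w ∣ z ↔
      ∃ t ∈ H138.chart R ({x} : Set F), (z : F) = algebraMap R F w * t := by
  constructor
  · rintro ⟨t, rfl⟩
    exact ⟨t, t.2, rfl⟩
  · rintro ⟨t, ht, h⟩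
    exact ⟨⟨t, ht⟩, Subtype.ext h⟩

/-- Divisibility by `π(x)` in the chart, in terms of elements of `F`. -/
theorem chartPolyHom_dvd_chart_iff {x : F} (π : R[X]) (z : H138.chart R ({x} : Set F)) :
    chartPolyHom R x π ∣ z ↔
      ∃ t ∈ H138.chart R ({x} : Set F), (z : F) = aeval x π * t := by
  constructor
  · rintro ⟨t, rfl⟩
    exact ⟨t, t.2, by rw [Subalgebra.coe_mul, coe_chartPolyHom]⟩
  · rintro ⟨t, ht, h⟩
    exact ⟨⟨t, ht⟩, Subtype.ext (by rw [Subalgebra.coe_mul, coe_chartPolyHom]; exact h)⟩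

/-- Evaluation of a lifted polynomial, in terms of elements of `F`. -/
theorem coe_eval₂_chartPolyHom {x : F} (Q : R[X][X]) (b : H138.chart R ({x} : Set F)) :
    ((Q.eval₂ (chartPolyHom R x : R[X] →+* H138.chart R ({x} : Set F)) b :
      H138.chart R ({x} : Set F)) : F)
      = (Q.map (aeval x : R[X] →ₐ[R] F).toRingHom).eval (b : F) := by
  have h := Polynomial.hom_eval₂ Q (chartPolyHom R x : R[X] →+* H138.chart R ({x} : Set F))
    (H138.chart R ({x} : Set F)).val.toRingHom b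
  rw [eval_map]
  have hcomp : ((H138.chart R ({x} : Set F)).val.toRingHom.comp
      (chartPolyHom R x : R[X] →+* H138.chart R ({x} : Set F)))
      = (aeval x : R[X] →ₐ[R] F).toRingHom := by
    refine RingHom.ext (fun p => ?_)
    exact coe_chartPolyHom x p
  rw [hcomp] at h
  exact h

end Coe

section Main

variable {R : Type u} [CommRing R] [IsDomain R] [IsDiscreteValuationRing R]
  {F : Type v} [Field F] [CharZero F] [Algebra R F]

/-- **REG-CHART.**  `b2Regular` on the chart `H138.chart R {x}`: the special fibre of the chart is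
regular at every closed point. -/
theorem regularAlong_chart
    {x : F} (hx : Transcendental R x) [FiniteDimensional (H138.baseField R x) F]
    (w : R) (hw : Irreducible w)
    (hdom : Prime (algebraMap R (H138.chart R ({x} : Set F)) w))
    (hsep : ∀ b : H138.chart R ({x} : Set F), ∃ P : R[X][X],
        algebraMap R (H138.chart R ({x} : Set F)) w ∣
          P.eval₂ (chartPolyHom R x : R[X] →+* H138.chart R ({x} : Set F)) b ∧
        ¬ algebraMap R (H138.chart R ({x} : Set F)) w ∣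
          (derivative P).eval₂ (chartPolyHom R x : R[X] →+* H138.chart R ({x} : Set F)) b)
    (S : Finset R) (hS : ∀ c ∈ S, ∀ c' ∈ S, c ≠ c' → IsUnit (c - c'))
    (hNC : ∀ π : R[X], Prime π → ¬ Associated π (C w) → (∀ c ∈ S, ¬ Associated π (X - C c)) →
        (Ideal.span {chartPolyHom R x π}).IsRadical) :
    H754.RegularAlong (algebraMap R (H138.chart R ({x} : Set F)) w) := by
  classical
  haveI : CharZero R := (algebraMap R F).charZero
  obtain ⟨hic, hfin⟩ := chart_package (R := R) hx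
  letI := chartAlgebra R x
  haveI := hic
  haveI := hfin
  haveI : Module.IsTorsionFree R[X] (H138.chart R ({x} : Set F)) :=
    Module.isTorsionFree_iff_algebraMap_injective.2 (chartPolyHom_injective hx)
  have hCw : algebraMap R[X] (H138.chart R ({x} : Set F)) (C w)
      = algebraMap R (H138.chart R ({x} : Set F)) w := chartPolyHom_C x w
  have hdom' : Prime (algebraMap R[X] (H138.chart R ({x} : Set F)) (C w)) := by
    rw [hCw]; exact hdom
  have hsep' := H425.hsep_poly R w hw (H138.chart R ({x} : Set F)) hdom' (by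
    intro b
    obtain ⟨P, h1, h2⟩ := hsep b
    refine ⟨P, ?_, ?_⟩
    · rw [hCw]; exact h1
    · rw [hCw]; exact h2)
  have hreg := b2Regular.{u, v} R w hw (H138.chart R ({x} : Set F)) hdom' hsep' S hS hNC
  intro 𝔪 h𝔪 hw𝔪
  have := hreg 𝔪 h𝔪 (by rw [hCw]; exact hw𝔪)
  rwa [hCw] at this

/-- **REG-CHART, field form.**  Same as `regularAlong_chart`, with `hsep` and `hNC` stated by
elements of `F`:
* `hsep` : for every `b` in the chart there is a polynomial `P` with coefficients in `R[x]` with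
  `P(b) ∈ w B` and `P'(b) ∉ w B`;
* `hNC`  : for the primes `π` of `R[X]` away from `w` and the `X - c`, `c ∈ S`:
  `b ∈ B`, `b² ∈ π(x) B` ⟹ `b ∈ π(x) B`. -/
theorem regularAlong_chart_field
    {x : F} (hx : Transcendental R x) [FiniteDimensional (H138.baseField R x) F]
    (w : R) (hw : Irreducible w)
    (hdom : Prime (algebraMap R (H138.chart R ({x} : Set F)) w))
    (hsep : ∀ b ∈ H138.chart R ({x} : Set F), ∃ P : F[X],
        (∀ i, P.coeff i ∈ Algebra.adjoin R ({x} : Set F)) ∧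
        (∃ t ∈ H138.chart R ({x} : Set F), P.eval b = algebraMap R F w * t) ∧
        ¬ ∃ t ∈ H138.chart R ({x} : Set F), (derivative P).eval b = algebraMap R F w * t)
    (S : Finset R) (hS : ∀ c ∈ S, ∀ c' ∈ S, c ≠ c' → IsUnit (c - c'))
    (hNC : ∀ π : R[X], Prime π → ¬ Associated π (C w) → (∀ c ∈ S, ¬ Associated π (X - C c)) →
        ∀ b ∈ H138.chart R ({x} : Set F),
          (∃ t ∈ H138.chart R ({x} : Set F), b ^ 2 = aeval x π * t) →
          ∃ t ∈ H138.chart R ({x} : Set F), b = aeval x π * t) :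
    H754.RegularAlong (algebraMap R (H138.chart R ({x} : Set F)) w) := by
  refine regularAlong_chart hx w hw hdom ?_ S hS ?_
  · intro b
    obtain ⟨P, hP, h1, h2⟩ := hsep b b.2
    have hlift : P ∈ Polynomial.lifts (aeval x : R[X] →ₐ[R] F).toRingHom := by
      rw [Polynomial.lifts_iff_coeff_lifts]
      intro n
      have := hP n
      rw [Algebra.adjoin_singleton_eq_range_aeval] at this
      obtain ⟨q, hq⟩ := this
      exact ⟨q, hq⟩
    obtain ⟨Q, hQ⟩ := (Polynomial.mem_lifts P).1 hlift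
    refine ⟨Q, ?_, ?_⟩
    · rw [algebraMap_dvd_chart_iff, coe_eval₂_chartPolyHom, hQ]
      exact h1
    · rw [algebraMap_dvd_chart_iff, coe_eval₂_chartPolyHom, ← derivative_map, hQ]
      exact h2
  · intro π hπ h1 h2
    rw [Ideal.isRadical_iff_pow_one_lt 2 one_lt_two]
    intro r hr
    rw [Ideal.mem_span_singleton] at hr ⊢
    rw [chartPolyHom_dvd_chart_iff] at hr ⊢
    obtain ⟨t, ht, h⟩ := hr
    refine hNC π hπ h1 h2 r r.2 ⟨t, ht, ?_⟩
    rw [← h]
    rfl

omit [IsDomain R] [IsDiscreteValuationRing R] [CharZero F] in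
/-- The finiteness instance for the chart at infinity. -/
theorem finiteDimensional_baseField_inv (x : F) [h : FiniteDimensional (H138.baseField R x) F] :
    FiniteDimensional (H138.baseField R x⁻¹) F := by
  rw [H138.baseField_inv]
  exact h

/-- **REG-CHART at infinity** (field form): `regularAlong_chart_field` for the chart
`H138.chart R {x⁻¹}`, with the finiteness instance of the finite chart. -/
theorem regularAlong_chart_inv_field
    {x : F} (hx : Transcendental R x) [FiniteDimensional (H138.baseField R x) F]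
    (w : R) (hw : Irreducible w)
    (hdom : Prime (algebraMap R (H138.chart R ({x⁻¹} : Set F)) w))
    (hsep : ∀ b ∈ H138.chart R ({x⁻¹} : Set F), ∃ P : F[X],
        (∀ i, P.coeff i ∈ Algebra.adjoin R ({x⁻¹} : Set F)) ∧
        (∃ t ∈ H138.chart R ({x⁻¹} : Set F), P.eval b = algebraMap R F w * t) ∧
        ¬ ∃ t ∈ H138.chart R ({x⁻¹} : Set F), (derivative P).eval b = algebraMap R F w * t)
    (S : Finset R) (hS : ∀ c ∈ S, ∀ c' ∈ S, c ≠ c' → IsUnit (c - c'))
    (hNC : ∀ π : R[X], Prime π → ¬ Associated π (C w) → (∀ c ∈ S, ¬ Associated π (X - C c)) →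
        ∀ b ∈ H138.chart R ({x⁻¹} : Set F),
          (∃ t ∈ H138.chart R ({x⁻¹} : Set F), b ^ 2 = aeval x⁻¹ π * t) →
          ∃ t ∈ H138.chart R ({x⁻¹} : Set F), b = aeval x⁻¹ π * t) :
    H754.RegularAlong (algebraMap R (H138.chart R ({x⁻¹} : Set F)) w) := by
  haveI := finiteDimensional_baseField_inv (R := R) x
  exact regularAlong_chart_field (H138.transcendental_inv hx) w hw hdom hsep S hS hNC

end Main

end Fermat.Agent.S18.B12.H33

end
end
-- ===== PACK-END S18/B12/H33/RegChart.lean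

-- ===== PACK-BEGIN S21/MSAssembly.lean
section



/-!
# S21 — assembly of MS (the minimizing sequence) from MS-A/B/C/E and INT-A..D
-/

set_option autoImplicit false

open ModularCurve ModularCurve.Period UpperHalfPlane CongruenceSubgroup Filter Topology
open MeasureTheory
open scoped MatrixGroups ComplexConjugate ContDiff

namespace Fermat.Agent.S21

section Measure

variable (N : ℕ) [NeZero N] {χ₁ : ℂ → ℝ}

/-- the density of the energy measure as an `ℝ≥0`-valued function -/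
noncomputable def chiNN (N : ℕ) (χ₁ : ℂ → ℝ) : ℂ → NNReal := fun z => (chi N χ₁ z).toNNReal

/-- the energy measure `χ dA` -/
noncomputable def nu (N : ℕ) (χ₁ : ℂ → ℝ) : Measure ℂ :=
  (volume : Measure ℂ).withDensity (fun z => (chiNN N χ₁ z : ENNReal))

theorem measurable_chiNN (hχ : IsSL2ZPartition χ₁) : Measurable (chiNN N χ₁) :=
  (measurable_chi N hχ).real_toNNReal

omit [NeZero N] in
theorem chi_eq_zero_of_notMem {z : ℂ} (hz : z ∉ Uhp) : chi N χ₁ z = 0 :=
  Set.indicator_of_notMem hz _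

theorem integral_nu (hχ : IsSL2ZPartition χ₁) (g : ℂ → ℝ) :
    ∫ z, g z ∂(nu N χ₁) = ∫ z, g z * chi N χ₁ z := by
  rw [nu, integral_withDensity_eq_integral_smul (measurable_chiNN N hχ)]
  refine integral_congr_ae (ae_of_all _ fun z => ?_)
  simp only [NNReal.smul_def, chiNN, Real.coe_toNNReal _ (chi_nonneg N hχ z), smul_eq_mul]
  ring

theorem integrable_nu_iff (hχ : IsSL2ZPartition χ₁) {g : ℂ → ℝ} :
    Integrable g (nu N χ₁) ↔ Integrable (fun z => g z * chi N χ₁ z) := by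
  rw [nu, integrable_withDensity_iff_integrable_smul (measurable_chiNN N hχ)]
  refine integrable_congr (ae_of_all _ fun z => ?_)
  simp only [NNReal.smul_def, chiNN, Real.coe_toNNReal _ (chi_nonneg N hχ z), smul_eq_mul]
  ring

theorem aesm_indicator {G : ℂ → ℂ} (hG : ContinuousOn G Uhp) (μ : Measure ℂ) :
    AEStronglyMeasurable (Set.indicator Uhp G) μ := by
  rw [aestronglyMeasurable_indicator_iff isOpen_Uhp.measurableSet]
  exact hG.aestronglyMeasurable isOpen_Uhp.measurableSet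

theorem memLp_indicator (hχ : IsSL2ZPartition χ₁) {G : ℂ → ℂ} (hG : ContinuousOn G Uhp)
    (hfin : Integrable (fun z => ‖G z‖ ^ 2 * chi N χ₁ z)) :
    MemLp (Set.indicator Uhp G) 2 (nu N χ₁) := by
  rw [memLp_two_iff_integrable_sq_norm (aesm_indicator hG _), integrable_nu_iff N hχ]
  refine hfin.congr (ae_of_all _ fun z => ?_)
  by_cases hz : z ∈ Uhp
  · simp [Set.indicator_of_mem hz]
  · simp [Set.indicator_of_notMem hz, chi_eq_zero_of_notMem N hz]

theorem integrable_of_memLp_indicator (hχ : IsSL2ZPartition χ₁) {G : ℂ → ℂ}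
    (hG : ContinuousOn G Uhp) (h : MemLp (Set.indicator Uhp G) 2 (nu N χ₁)) :
    Integrable (fun z => ‖G z‖ ^ 2 * chi N χ₁ z) := by
  rw [memLp_two_iff_integrable_sq_norm (aesm_indicator hG _), integrable_nu_iff N hχ] at h
  refine h.congr (ae_of_all _ fun z => ?_)
  by_cases hz : z ∈ Uhp
  · simp [Set.indicator_of_mem hz]
  · simp [Set.indicator_of_notMem hz, chi_eq_zero_of_notMem N hz]

theorem inner_toLp_indicator (hχ : IsSL2ZPartition χ₁) {G₁ G₂ : ℂ → ℂ}
    (h₁ : MemLp (Set.indicator Uhp G₁) 2 (nu N χ₁))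
    (h₂ : MemLp (Set.indicator Uhp G₂) 2 (nu N χ₁)) :
    inner ℝ (h₁.toLp _) (h₂.toLp _) = ∫ z, (inner ℝ (G₁ z) (G₂ z) : ℝ) * chi N χ₁ z := by
  rw [L2.inner_def]
  have e : ∫ z, (inner ℝ ((h₁.toLp _ : Lp ℂ 2 (nu N χ₁)) z) ((h₂.toLp _ : Lp ℂ 2 (nu N χ₁)) z) : ℝ)
        ∂(nu N χ₁)
      = ∫ z, (inner ℝ (Set.indicator Uhp G₁ z) (Set.indicator Uhp G₂ z) : ℝ) ∂(nu N χ₁) := by
    refine integral_congr_ae ?_
    filter_upwards [h₁.coeFn_toLp, h₂.coeFn_toLp] with z e1 e2
    rw [e1, e2]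
  rw [e, integral_nu N hχ]
  refine integral_congr_ae (ae_of_all _ fun z => ?_)
  by_cases hz : z ∈ Uhp
  · simp [Set.indicator_of_mem hz]
  · simp [Set.indicator_of_notMem hz, chi_eq_zero_of_notMem N hz]

theorem norm_sq_toLp_indicator (hχ : IsSL2ZPartition χ₁) {G : ℂ → ℂ}
    (h : MemLp (Set.indicator Uhp G) 2 (nu N χ₁)) :
    ‖h.toLp _‖ ^ 2 = ∫ z, ‖G z‖ ^ 2 * chi N χ₁ z := by
  rw [← real_inner_self_eq_norm_sq, inner_toLp_indicator N hχ h h]
  refine integral_congr_ae (ae_of_all _ fun z => ?_)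
  simp only [real_inner_self_eq_norm_sq]

end Measure

theorem inner_dz (u w : ℂ → ℝ) (z : ℂ) :
    (inner ℝ (dz u z) (dz w z) : ℝ)
      = fderiv ℝ u z 1 * fderiv ℝ w z 1 + fderiv ℝ u z Complex.I * fderiv ℝ w z Complex.I := by
  rw [Complex.inner]
  simp [dz]
  ring

theorem dz_const_mul {u : ℂ → ℝ} {z : ℂ} (hu : DifferentiableAt ℝ u z) (c : ℝ) :
    dz (fun w => c * u w) z = c * dz u z := by
  unfold dz
  have : fderiv ℝ (fun w => c * u w) z = c • fderiv ℝ u z := fderiv_const_mul hu c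
  rw [this]
  simp only [smul_apply, smul_eq_mul]
  push_cast
  ring

theorem dz_zero (z : ℂ) : dz (fun _ => (0 : ℝ)) z = 0 := by
  unfold dz
  simp

theorem isTest_add {η₁ η₂ : ℂ → ℝ} (h₁ : IsTest η₁) (h₂ : IsTest η₂) :
    IsTest (fun w => η₁ w + η₂ w) := by
  refine ⟨h₁.1.add h₂.1, h₁.2.1.add h₂.2.1, ?_⟩
  have : tsupport (fun w => η₁ w + η₂ w) ⊆ tsupport η₁ ∪ tsupport η₂ := by
    refine closure_minimal ?_ ((isClosed_tsupport _).union (isClosed_tsupport _))
    intro z hz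
    by_contra hcon
    simp only [Set.mem_union, not_or] at hcon
    apply hz
    show η₁ z + η₂ z = 0
    rw [image_eq_zero_of_notMem_tsupport hcon.1, image_eq_zero_of_notMem_tsupport hcon.2, add_zero]
  exact this.trans (Set.union_subset h₁.2.2 h₂.2.2)

theorem isTest_smul {η : ℂ → ℝ} (h : IsTest η) (c : ℝ) : IsTest (fun w => c * η w) := by
  refine ⟨contDiff_const.mul h.1, h.2.1.mul_left, ?_⟩
  have : tsupport (fun w => c * η w) ⊆ tsupport η := by
    refine closure_minimal ?_ (isClosed_tsupport _)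
    intro z hz
    by_contra hcon
    apply hz
    show c * η z = 0
    rw [image_eq_zero_of_notMem_tsupport hcon, mul_zero]
  exact this.trans h.2.2

theorem isTest_zero : IsTest (fun _ => (0 : ℝ)) := by
  refine ⟨contDiff_const, HasCompactSupport.zero, ?_⟩
  have : tsupport (fun _ : ℂ => (0 : ℝ)) = ∅ := by
    rw [tsupport_eq_empty_iff]; rfl
  rw [this]
  exact Set.empty_subset _

end Fermat.Agent.S21

namespace Fermat.Agent.S21

section Sub

variable (N : ℕ) [NeZero N] {χ₁ : ℂ → ℝ}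

theorem differentiableAt_sym {η : ℂ → ℝ} (hη : IsTest η) {z : ℂ} (hz : z ∈ Uhp) :
    DifferentiableAt ℝ (sym N η) z :=
  ((contDiffOn_sym N hη).differentiableOn (by norm_cast)).differentiableAt
    (isOpen_Uhp.mem_nhds hz)

theorem continuousOn_dz_sym {η : ℂ → ℝ} (hη : IsTest η) : ContinuousOn (dz (sym N η)) Uhp :=
  continuousOn_dz ((contDiffOn_sym N hη).of_le (by norm_cast))

theorem memLp_sym (hχ : IsSL2ZPartition χ₁) {η : ℂ → ℝ} (hη : IsTest η) :
    MemLp (Set.indicator Uhp (dz (sym N η))) 2 (nu N χ₁) :=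
  memLp_indicator N hχ (continuousOn_dz_sym N hη) (integrable_energy_sym N hχ hη)

theorem dz_sym_add {η₁ η₂ : ℂ → ℝ} (h₁ : IsTest η₁) (h₂ : IsTest η₂) {z : ℂ} (hz : z ∈ Uhp) :
    dz (sym N (fun w => η₁ w + η₂ w)) z = dz (sym N η₁) z + dz (sym N η₂) z := by
  have h : sym N (fun w => η₁ w + η₂ w) =ᶠ[𝓝 z] fun w => sym N η₁ w + sym N η₂ w := by
    filter_upwards [isOpen_Uhp.mem_nhds hz] with w hw
    exact sym_add N h₁ h₂ w hw
  rw [dz_congr h, dz_add (differentiableAt_sym N h₁ hz) (differentiableAt_sym N h₂ hz)]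

theorem dz_sym_smul {η : ℂ → ℝ} (hη : IsTest η) (c : ℝ) {z : ℂ} (hz : z ∈ Uhp) :
    dz (sym N (fun w => c * η w)) z = c * dz (sym N η) z := by
  have h : sym N (fun w => c * η w) =ᶠ[𝓝 z] fun w => c * sym N η w := by
    filter_upwards [isOpen_Uhp.mem_nhds hz] with w hw
    exact sym_smul N hη c w hw
  rw [dz_congr h, dz_const_mul (differentiableAt_sym N hη hz)]

/-- The space of (classes of) `dz` of symmetrized test functions. -/
noncomputable def Vsub (hχ : IsSL2ZPartition χ₁) : Submodule ℝ (Lp ℂ 2 (nu N χ₁)) where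
  carrier := {x | ∃ η : ℂ → ℝ, ∃ hη : IsTest η, x = (memLp_sym N hχ hη).toLp _}
  zero_mem' := by
    refine ⟨fun _ => 0, isTest_zero, ?_⟩
    have h0 : MemLp (0 : ℂ → ℂ) 2 (nu N χ₁) := MemLp.zero
    rw [← MemLp.toLp_zero h0]
    refine MemLp.toLp_congr _ _ (ae_of_all _ fun z => ?_)
    by_cases hz : z ∈ Uhp
    · rw [Set.indicator_of_mem hz]
      have h : sym N (fun _ => (0 : ℝ)) =ᶠ[𝓝 z] fun _ => (0 : ℝ) := by
        refine Filter.Eventually.of_forall fun w => ?_
        simp [sym]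
      rw [dz_congr h, dz_zero]
      rfl
    · rw [Set.indicator_of_notMem hz]
      rfl
  add_mem' := by
    rintro x y ⟨η₁, h₁, rfl⟩ ⟨η₂, h₂, rfl⟩
    refine ⟨fun w => η₁ w + η₂ w, isTest_add h₁ h₂, ?_⟩
    rw [← MemLp.toLp_add]
    refine MemLp.toLp_congr _ _ (ae_of_all _ fun z => ?_)
    by_cases hz : z ∈ Uhp
    · simp only [Pi.add_apply, Set.indicator_of_mem hz]
      rw [dz_sym_add N h₁ h₂ hz]
    · simp only [Pi.add_apply, Set.indicator_of_notMem hz, add_zero]
  smul_mem' := by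
    rintro c x ⟨η, hη, rfl⟩
    refine ⟨fun w => c * η w, isTest_smul hη c, ?_⟩
    rw [← MemLp.toLp_const_smul]
    refine MemLp.toLp_congr _ _ (ae_of_all _ fun z => ?_)
    by_cases hz : z ∈ Uhp
    · simp only [Pi.smul_apply, Set.indicator_of_mem hz]
      rw [dz_sym_smul N hη c hz]
      simp
    · simp only [Pi.smul_apply, Set.indicator_of_notMem hz, smul_zero]

end Sub

end Fermat.Agent.S21

namespace Fermat.Agent.S21

section Main

variable (N : ℕ) [NeZero N] {χ₁ : ℂ → ℝ}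

/-- invariance of `dz (sym η)` -/
theorem dz_sym_inv {η : ℂ → ℝ} (hη : IsTest η) (γ : Gamma0 N) {z : ℂ} (hz : z ∈ Uhp) :
    dz (sym N η) (mob (γ : SL(2, ℤ)) z) = (cd (γ : SL(2, ℤ)) z) ^ 2 * dz (sym N η) z := by
  refine asm_dz_inv ((contDiffOn_sym N hη).of_le (by norm_cast)) 0 (γ : SL(2, ℤ)) (fun w => ?_) hz
  rw [← mob_coe, sym_mob N hη γ _ (coe_mem_Uhp w), add_zero]

/-- The local `L²` estimate for differences of symmetrized test functions. -/
theorem ms_local (hχ : IsSL2ZPartition χ₁) {η₁ η₂ : ℂ → ℝ} (h₁ : IsTest η₁) (h₂ : IsTest η₂)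
    (K : Set ℂ) (hK : IsCompact K) (hKU : K ⊆ Uhp) (M : ℕ)
    (hM : ∀ w ∈ Uhp, {g : SL(2, ℤ) | mob g w ∈ K}.encard ≤ M) :
    ∫ z in K, ‖dz (sym N η₁) z - dz (sym N η₂) z‖ ^ 2
      ≤ M * ‖(memLp_sym N hχ h₁).toLp _ - (memLp_sym N hχ h₂).toLp _‖ ^ 2 := by
  set G : ℂ → ℂ := fun z => dz (sym N η₁) z - dz (sym N η₂) z with hG
  have hGc : ContinuousOn G Uhp := (continuousOn_dz_sym N h₁).sub (continuousOn_dz_sym N h₂)
  have hmem : MemLp (Set.indicator Uhp G) 2 (nu N χ₁) := by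
    have := (memLp_sym N hχ h₁).sub (memLp_sym N hχ h₂)
    refine this.ae_eq (ae_of_all _ fun z => ?_)
    by_cases hz : z ∈ Uhp
    · simp [Set.indicator_of_mem hz, hG]
    · simp [Set.indicator_of_notMem hz]
  have hfin := integrable_of_memLp_indicator N hχ hGc hmem
  have hinv : ∀ γ : Gamma0 N, ∀ z ∈ Uhp,
      G (mob (γ : SL(2, ℤ)) z) = (cd (γ : SL(2, ℤ)) z) ^ 2 * G z := by
    intro γ z hz
    simp only [hG]
    rw [dz_sym_inv N h₁ γ hz, dz_sym_inv N h₂ γ hz]
    ring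
  have hfold := folding N hχ G hGc hinv hfin K hK.measurableSet hKU M hM
  have heq : (memLp_sym N hχ h₁).toLp _ - (memLp_sym N hχ h₂).toLp _ = hmem.toLp _ := by
    rw [← MemLp.toLp_sub]
    refine MemLp.toLp_congr _ _ (ae_of_all _ fun z => ?_)
    by_cases hz : z ∈ Uhp
    · simp [Set.indicator_of_mem hz, hG]
    · simp [Set.indicator_of_notMem hz]
  rw [heq, norm_sq_toLp_indicator N hχ hmem]
  exact hfold

end Main

end Fermat.Agent.S21

namespace Fermat.Agent.S21

/-- **MS** (Dirichlet principle): an energy-minimizing sequence with periods `φ`. -/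
theorem exists_minimizing_sequence (N : ℕ) [NeZero N] (φ : Additive (Gamma0 N) →+ ℝ)
    (hφ : IsParabolicHom (Gamma0 N) φ) :
    ∃ u : ℕ → ℂ → ℝ,
      (∀ n, ContDiffOn ℝ ∞ (u n) Uhp) ∧
      (∀ n (γ : Gamma0 N) (z : ℍ),
          u n ↑((γ : SL(2, ℤ)) • z) = u n ↑z + φ (Additive.ofMul γ)) ∧
      (∀ K : Set ℂ, IsCompact K → K ⊆ Uhp → ∀ ε > 0, ∃ M, ∀ m ≥ M, ∀ n ≥ M,
          ∫ z in K, ‖dz (u n) z - dz (u m) z‖ ^ 2 < ε) ∧
      (∀ η : ℂ → ℝ, ContDiff ℝ ∞ η → HasCompactSupport η → tsupport η ⊆ Uhp →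
          Tendsto (fun n => ∫ z, (fderiv ℝ (u n) z 1 * fderiv ℝ η z 1
              + fderiv ℝ (u n) z Complex.I * fderiv ℝ η z Complex.I)) atTop (𝓝 0)) ∧
      (∀ δ : SL(2, ℤ), ∃ C : ℝ, ∀ n, ∀ Y : ℝ,
          ∫ z in strip Y, ‖dz (u n) (mob δ z)‖ ^ 2 / ‖cd δ z‖ ^ 4 ≤ C) := by
  obtain ⟨χ₁, hχ⟩ := exists_isSL2ZPartition
  obtain ⟨u₀, hu₀, hper₀, hcusp₀⟩ := exists_u0 N φ hφ
  have hu₀1 : ContDiffOn ℝ 1 u₀ Uhp := hu₀.of_le (by norm_cast)
  have hE₀ := integrable_energy_u0 N hχ u₀ hu₀ hcusp₀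
  have ha := memLp_indicator N hχ (continuousOn_dz hu₀1) hE₀
  obtain ⟨v, hvV, hvC, hvO, hvB⟩ := abstract_dirichlet (ha.toLp _) (Vsub N hχ)
  choose η hη hv using hvV
  -- the functions
  set u : ℕ → ℂ → ℝ := fun n z => u₀ z + sym N (η n) z with hu
  have hu_smooth : ∀ n, ContDiffOn ℝ ∞ (u n) Uhp := fun n =>
    hu₀.add (contDiffOn_sym N (hη n))
  have hu1 : ∀ n, ContDiffOn ℝ 1 (u n) Uhp := fun n => (hu_smooth n).of_le (by norm_cast)
  have hu_per : ∀ n (γ : Gamma0 N) (z : ℍ),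
      u n ↑((γ : SL(2, ℤ)) • z) = u n ↑z + φ (Additive.ofMul γ) := by
    intro n γ z
    simp only [hu]
    rw [hper₀ γ z, ← mob_coe, sym_mob N (hη n) γ _ (coe_mem_Uhp z)]
    ring
  have hdz : ∀ n, ∀ z ∈ Uhp, dz (u n) z = dz u₀ z + dz (sym N (η n)) z := by
    intro n z hz
    exact dz_add ((hu₀1.differentiableOn one_ne_zero).differentiableAt
      (isOpen_Uhp.mem_nhds hz)) (differentiableAt_sym N (hη n) hz)
  -- the class of `dz (u n)`
  have hmem : ∀ n, MemLp (Set.indicator Uhp (dz (u n))) 2 (nu N χ₁) := by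
    intro n
    refine (ha.add (memLp_sym N hχ (hη n))).ae_eq (ae_of_all _ fun z => ?_)
    by_cases hz : z ∈ Uhp
    · simp [Set.indicator_of_mem hz, hdz n z hz]
    · simp [Set.indicator_of_notMem hz]
  have hclass : ∀ n, ha.toLp _ + v n = (hmem n).toLp _ := by
    intro n
    rw [hv n, ← MemLp.toLp_add]
    refine MemLp.toLp_congr _ _ (ae_of_all _ fun z => ?_)
    by_cases hz : z ∈ Uhp
    · simp [Set.indicator_of_mem hz, hdz n z hz]
    · simp [Set.indicator_of_notMem hz]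
  have hinv : ∀ n (γ : Gamma0 N), ∀ z ∈ Uhp,
      dz (u n) (mob (γ : SL(2, ℤ)) z) = (cd (γ : SL(2, ℤ)) z) ^ 2 * dz (u n) z :=
    fun n γ z hz => asm_dz_inv (hu1 n) _ (γ : SL(2, ℤ)) (hu_per n γ) hz
  have hfin : ∀ n, Integrable (fun z => ‖dz (u n) z‖ ^ 2 * chi N χ₁ z) := fun n =>
    integrable_of_memLp_indicator N hχ (continuousOn_dz (hu1 n)) (hmem n)
  refine ⟨u, hu_smooth, hu_per, ?_, ?_, ?_⟩
  · -- local Cauchy
    intro K hK hKU ε hε
    obtain ⟨M, hM⟩ := mult_compact K hK hKU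
    obtain ⟨M₀, hM₀⟩ := hvC (ε / (M + 1)) (by positivity)
    refine ⟨M₀, fun m hm n hn => ?_⟩
    have h1 := ms_local N hχ (hη n) (hη m) K hK hKU M hM
    rw [← hv n, ← hv m] at h1
    have h2 := hM₀ m hm n hn
    have h3 : ∫ z in K, ‖dz (u n) z - dz (u m) z‖ ^ 2
        = ∫ z in K, ‖dz (sym N (η n)) z - dz (sym N (η m)) z‖ ^ 2 := by
      refine setIntegral_congr_fun hK.measurableSet fun z hz => ?_
      show ‖dz (u n) z - dz (u m) z‖ ^ 2 = ‖dz (sym N (η n)) z - dz (sym N (η m)) z‖ ^ 2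
      rw [hdz n z (hKU hz), hdz m z (hKU hz)]
      congr 2
      ring
    rw [h3]
    have hMpos : (0 : ℝ) ≤ M := Nat.cast_nonneg M
    calc ∫ z in K, ‖dz (sym N (η n)) z - dz (sym N (η m)) z‖ ^ 2
        ≤ M * ‖v n - v m‖ ^ 2 := h1
      _ ≤ M * (ε / (M + 1)) := by gcongr
      _ < ε := by
        rw [← mul_div_assoc, div_lt_iff₀ (by positivity)]
        nlinarith
  · -- weak harmonicity
    intro η' h1 h2 h3
    have hη' : IsTest η' := ⟨h1, h2, h3⟩
    have hw : (memLp_sym N hχ hη').toLp _ ∈ Vsub N hχ := ⟨η', hη', rfl⟩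
    have := hvO _ hw
    refine this.congr fun n => ?_
    rw [hclass n, inner_toLp_indicator N hχ (hmem n) (memLp_sym N hχ hη')]
    simp_rw [inner_dz]
    exact unfolding N hχ (u n) (hu1 n) (hinv n) hη'
  · -- cusp bound
    intro δ
    refine ⟨10 * (‖ha.toLp _‖ ^ 2 + 1), fun n Y => ?_⟩
    have hcv := setIntegral_mob δ (strip Y) (isCompact_strip Y).measurableSet
      (strip_subset_Uhp Y) (fun w => ‖dz (u n) w‖ ^ 2)
    rw [hcv]
    have hAc : IsCompact (mob δ '' strip Y) :=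
      (isCompact_strip Y).image_of_continuousOn
        ((continuousOn_mob δ).mono (strip_subset_Uhp Y))
    have hAU : mob δ '' strip Y ⊆ Uhp := by
      rintro _ ⟨z, -, rfl⟩
      exact mob_mem_Uhp δ z
    have hfold := folding N hχ (dz (u n)) (continuousOn_dz (hu1 n)) (hinv n) (hfin n) _
      hAc.measurableSet hAU 10 (fun w hw => by exact_mod_cast mult_strip δ Y w hw)
    have hnorm := norm_sq_toLp_indicator N hχ (hmem n)
    rw [← hclass n] at hnorm
    have hB := hvB n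
    calc ∫ w in mob δ '' strip Y, ‖dz (u n) w‖ ^ 2
        ≤ ((10 : ℕ) : ℝ) * ∫ z, ‖dz (u n) z‖ ^ 2 * chi N χ₁ z := hfold
      _ = 10 * ‖ha.toLp _ + v n‖ ^ 2 := by rw [hnorm]; norm_num
      _ ≤ 10 * (‖ha.toLp _‖ ^ 2 + 1) := by gcongr

end Fermat.Agent.S21

end
-- ===== PACK-END S21/MSAssembly.lean

-- ===== PACK-BEGIN Lib/Ribet/H584/DeligneSerre.lean
section





/-!
# RIBET, piece R3b (helper584): Deligne–Serre lifting for weight 2, level `N`, any prime `p`

Let `𝕋 = heckeAlgebra N 2 S` be the Hecke algebra of `S₂(Γ₀(N))` away from a set `S` of primes.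

* `exists_eigenform_of_prime` : for every prime ideal `𝔫` of `𝕋` there are a normalised eigenform
  `f` of level `N` (in the sense of the prelude: eigen for ALL `T_ℓ`, `U_q`), a ring homomorphism
  `χ : 𝕋 → ℤ̄` with `χ (T_ℓ) = a_ℓ(f)` for the good primes `ℓ ∉ S`, and a maximal ideal `𝔪'` of
  `ℤ̄` with `χ(𝔫) ⊆ 𝔪'`.
* `exists_eigenform_of_ringHom` : the same for the kernel of a ring homomorphism `φ : 𝕋 → k` to a
  field of characteristic `p`; then `p ∈ 𝔪'`.
* `exists_eigenform_congr_of_ringHom` : congruence form (the shape of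
  `WeierstrassCurve.IsResiduallyModularOfLevel`): if `φ (T_ℓ) = b ℓ` (image of an integer) for the
  good primes `ℓ ∉ S`, then `a_ℓ(f) - b ℓ ∈ 𝔪'`.

Everything is assembled from landed pieces: S23 (integral structure), S49 (linear algebra,
going up), NEWFORM/H863 (normalisation of a common eigenvector).
-/

set_option autoImplicit false
open CuspForm CongruenceSubgroup ModularFormClass

namespace Fermat.Agent.Lib.Ribet.H584

variable {N : ℕ} [NeZero N] (S : Set ℕ)

/-- Every element of the Hecke algebra (away from `S`) is integral over `ℤ`. -/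
theorem isIntegral_heckeAlgebra (t : heckeAlgebra N 2 S) : IsIntegral ℤ t := by
  have hbij := CuspForm.latticeRestrictHom_bijective N S (Fermat.Agent.S23.result N)
  have h1 : IsIntegral ℤ (CuspForm.latticeRestrictHom N S t) :=
    Algebra.IsIntegral.isIntegral _
  exact (isIntegral_algHom_iff _ hbij.1).mp h1

/-- Going up for prime ideals: a maximal ideal of `ℤ̄` containing the image of a prime ideal
which contains the kernel. -/
theorem exists_maximal_over_prime {A : Type*} [CommRing A] (χ : A →+* integralClosure ℤ ℂ)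
    (𝔫 : Ideal A) [𝔫.IsPrime] (h : RingHom.ker χ ≤ 𝔫) :
    ∃ 𝔪' : Ideal (integralClosure ℤ ℂ), 𝔪'.IsMaximal ∧ ∀ t ∈ 𝔫, χ t ∈ 𝔪' := by
  let _ : Algebra A (integralClosure ℤ ℂ) := χ.toAlgebra
  have hint : Algebra.IsIntegral A (integralClosure ℤ ℂ) :=
    ⟨fun x => (Algebra.IsIntegral.isIntegral (R := ℤ) x).tower_top⟩
  obtain ⟨Q, -, hQ, hQc⟩ := Ideal.exists_ideal_over_prime_of_isIntegral 𝔫 (⊥ : Ideal _)
    (by
      intro t ht
      apply h
      rw [RingHom.mem_ker]
      have h1 : (algebraMap A (integralClosure ℤ ℂ)) t ∈ (⊥ : Ideal (integralClosure ℤ ℂ)) := ht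
      exact Ideal.mem_bot.mp h1)
  obtain ⟨𝔪', h𝔪', hle⟩ := Ideal.exists_le_maximal Q hQ.ne_top
  refine ⟨𝔪', h𝔪', fun t ht => hle ?_⟩
  have : t ∈ Q.comap (algebraMap A (integralClosure ℤ ℂ)) := hQc ▸ ht
  exact this

/-- **Deligne–Serre lifting**, prime-ideal form. -/
theorem exists_eigenform_of_prime (𝔫 : Ideal (heckeAlgebra N 2 S)) [𝔫.IsPrime] :
    ∃ (f : CuspForm (Gamma0 N) 2) (𝔪' : Ideal (integralClosure ℤ ℂ))
      (χ : heckeAlgebra N 2 S →+* integralClosure ℤ ℂ),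
      f.IsNormalizedEigenform ∧ 𝔪'.IsMaximal ∧
      (∀ (ℓ : ℕ) (hℓ : ℓ.Prime) (hℓN : ¬ ℓ ∣ N) (hℓS : ℓ ∉ S),
        ((χ (heckeAlgebra.T hℓ hℓN hℓS) : integralClosure ℤ ℂ) : ℂ) = qCoeff f ℓ) ∧
      (∀ t ∈ 𝔫, χ t ∈ 𝔪') := by
  classical
  have := Fermat.Agent.Lib.Newform.H863.finiteDimensional_cuspForm N
  obtain ⟨g, χ₀, hg, hχ₀, hker⟩ := Fermat.Agent.S49.exists_eigenvector_ker_le
    (K := ℂ) (V := CuspForm (Gamma0 N) 2)
    ((heckeAlgebra N 2 S).val.toRingHom) Subtype.val_injective 𝔫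
  -- the eigencharacter takes values in the integral closure
  have hint : ∀ t, χ₀ t ∈ integralClosure ℤ ℂ := fun t =>
    (isIntegral_heckeAlgebra S t).map χ₀.toIntAlgHom
  let χ : heckeAlgebra N 2 S →+* integralClosure ℤ ℂ :=
    χ₀.codRestrict (integralClosure ℤ ℂ).toSubring hint
  have hχ : ∀ t, ((χ t : integralClosure ℤ ℂ) : ℂ) = χ₀ t := fun t => rfl
  have hker' : RingHom.ker χ ≤ 𝔫 := by
    intro t ht
    apply hker
    rw [RingHom.mem_ker] at ht ⊢
    rw [← hχ, ht]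
    rfl
  obtain ⟨𝔪', h𝔪', hover⟩ := exists_maximal_over_prime χ 𝔫 hker'
  -- normalise
  set lam : ℕ → ℂ := fun ℓ =>
    if h : ℓ.Prime ∧ ¬ ℓ ∣ N ∧ ℓ ∉ S then χ₀ (heckeAlgebra.T h.1 h.2.1 h.2.2) else 0 with hlam
  have heig : ∀ (ℓ : ℕ) (hℓ : ℓ.Prime) (hℓN : ¬ ℓ ∣ N), ℓ ∉ S →
      CuspForm.heckeTLin 2 hℓ hℓN g = lam ℓ • g := by
    intro ℓ hℓ hℓN hℓS
    have h1 := hχ₀ (heckeAlgebra.T hℓ hℓN hℓS)
    have h2 : lam ℓ = χ₀ (heckeAlgebra.T hℓ hℓN hℓS) := by
      simp only [hlam]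
      rw [dif_pos ⟨hℓ, hℓN, hℓS⟩]
    rw [h2, ← h1]
    rfl
  obtain ⟨f, hf, hfl⟩ :=
    Fermat.Agent.Lib.Newform.H863.exists_normalizedEigenform_of_eigenvector S lam g hg heig
  refine ⟨f, 𝔪', χ, hf, h𝔪', fun ℓ hℓ hℓN hℓS => ?_, hover⟩
  rw [hχ, hfl ℓ hℓ hℓN hℓS]
  simp only [hlam]
  rw [dif_pos ⟨hℓ, hℓN, hℓS⟩]

/-- **Deligne–Serre lifting** for a ring homomorphism of the Hecke algebra to a field of
characteristic `p`. -/
theorem exists_eigenform_of_ringHom {k : Type*} [Field k] (p : ℕ) [CharP k p]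
    (φ : heckeAlgebra N 2 S →+* k) :
    ∃ (f : CuspForm (Gamma0 N) 2) (𝔪' : Ideal (integralClosure ℤ ℂ))
      (χ : heckeAlgebra N 2 S →+* integralClosure ℤ ℂ),
      f.IsNormalizedEigenform ∧ 𝔪'.IsMaximal ∧ (p : integralClosure ℤ ℂ) ∈ 𝔪' ∧
      (∀ (ℓ : ℕ) (hℓ : ℓ.Prime) (hℓN : ¬ ℓ ∣ N) (hℓS : ℓ ∉ S),
        ((χ (heckeAlgebra.T hℓ hℓN hℓS) : integralClosure ℤ ℂ) : ℂ) = qCoeff f ℓ) ∧
      (∀ t, φ t = 0 → χ t ∈ 𝔪') := by
  have hprime : (RingHom.ker φ).IsPrime := RingHom.ker_isPrime φ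
  obtain ⟨f, 𝔪', χ, hf, h𝔪', hT, hover⟩ := exists_eigenform_of_prime S (RingHom.ker φ)
  refine ⟨f, 𝔪', χ, hf, h𝔪', ?_, hT, fun t ht => hover t (RingHom.mem_ker.mpr ht)⟩
  have hp : ((p : ℕ) : heckeAlgebra N 2 S) ∈ RingHom.ker φ := by
    rw [RingHom.mem_ker, map_natCast]
    exact CharP.cast_eq_zero k p
  have := hover _ hp
  rwa [map_natCast] at this

/-- **Deligne–Serre lifting**, congruence form: an eigensystem `b` with values in `ℤ` which is
realised modulo `p` by a character of the Hecke algebra is congruent to the eigensystem of a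
normalised eigenform. -/
theorem exists_eigenform_congr_of_ringHom {k : Type*} [Field k] (p : ℕ) [CharP k p]
    (φ : heckeAlgebra N 2 S →+* k) (b : ℕ → ℤ)
    (hb : ∀ (ℓ : ℕ) (hℓ : ℓ.Prime) (hℓN : ¬ ℓ ∣ N) (hℓS : ℓ ∉ S),
      φ (heckeAlgebra.T hℓ hℓN hℓS) = ((b ℓ : ℤ) : k)) :
    ∃ (f : CuspForm (Gamma0 N) 2) (𝔪' : Ideal (integralClosure ℤ ℂ)),
      f.IsNormalizedEigenform ∧ 𝔪'.IsMaximal ∧ (p : integralClosure ℤ ℂ) ∈ 𝔪' ∧
      ∀ ℓ : ℕ, ℓ.Prime → ¬ ℓ ∣ N → ℓ ∉ S →
        ∃ a : integralClosure ℤ ℂ, (a : ℂ) = qCoeff f ℓ ∧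
          a - ((b ℓ : ℤ) : integralClosure ℤ ℂ) ∈ 𝔪' := by
  obtain ⟨f, 𝔪', χ, hf, h𝔪', hp, hT, hover⟩ := exists_eigenform_of_ringHom S p φ
  refine ⟨f, 𝔪', hf, h𝔪', hp, fun ℓ hℓ hℓN hℓS => ⟨χ (heckeAlgebra.T hℓ hℓN hℓS),
    hT ℓ hℓ hℓN hℓS, ?_⟩⟩
  have h0 : φ (heckeAlgebra.T hℓ hℓN hℓS - ((b ℓ : ℤ) : heckeAlgebra N 2 S)) = 0 := by
    rw [map_sub, hb ℓ hℓ hℓN hℓS, map_intCast, sub_self]
  have := hover _ h0
  rwa [map_sub, map_intCast] at this

/-- The set of primes excluded in `WeierstrassCurve.IsResiduallyModularOfLevel`: `p` and the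
bad primes of `W`. -/
def excluded (W : WeierstrassCurve ℤ) (p : ℕ) : Set ℕ :=
  {ℓ | ℓ = p ∨ ¬ W.IsGoodPrimeFor ℓ}

theorem notMem_excluded {W : WeierstrassCurve ℤ} {p ℓ : ℕ} (hg : W.IsGoodPrimeFor ℓ)
    (hℓp : ℓ ≠ p) : ℓ ∉ excluded W p := by
  rintro (h | h)
  · exact hℓp h
  · exact h hg

/-- **R3b, final shape**: a character of the Hecke algebra of level `N` (away from `p` and the
bad primes of `W`) with values in a field of characteristic `p` which sends `T_ℓ` to `a_ℓ(W)`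
makes `W` residually modular of level `N` at `p`. -/
theorem isResiduallyModularOfLevel_of_ringHom (W : WeierstrassCurve ℤ) {k : Type*} [Field k]
    (p : ℕ) [CharP k p] (φ : heckeAlgebra N 2 (excluded W p) →+* k)
    (hφ : ∀ (ℓ : ℕ) (hℓ : ℓ.Prime) (hℓN : ¬ ℓ ∣ N) (hℓS : ℓ ∉ excluded W p),
      φ (heckeAlgebra.T hℓ hℓN hℓS) = ((W.apOfModel ℓ : ℤ) : k)) :
    W.IsResiduallyModularOfLevel p N := by
  obtain ⟨f, 𝔪', hf, h𝔪', hp, hcong⟩ :=
    exists_eigenform_congr_of_ringHom (excluded W p) p φ (fun ℓ => W.apOfModel ℓ) hφ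
  exact ⟨f, 𝔪', hf, h𝔪', hp, fun ℓ hℓ hg hℓN hℓp =>
    hcong ℓ hℓ hℓN (notMem_excluded hg hℓp)⟩

/-- **R3b, Frey shape**: the same for `FreyPackage.ModularRepOfLevel`. -/
theorem modularRepOfLevel_of_ringHom (P : FreyPackage) (W : WeierstrassCurve ℤ)
    (hW : W.IsIntegralModelOf P.freyCurve) {k : Type*} [Field k] [CharP k P.p]
    (φ : heckeAlgebra N 2 (excluded W P.p) →+* k)
    (hφ : ∀ (ℓ : ℕ) (hℓ : ℓ.Prime) (hℓN : ¬ ℓ ∣ N) (hℓS : ℓ ∉ excluded W P.p),
      φ (heckeAlgebra.T hℓ hℓN hℓS) = ((W.apOfModel ℓ : ℤ) : k)) :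
    P.ModularRepOfLevel N := by
  obtain ⟨f, 𝔪', hf, h𝔪', hp, hcong⟩ :=
    exists_eigenform_congr_of_ringHom (excluded W P.p) P.p φ (fun ℓ => W.apOfModel ℓ) hφ
  exact ⟨f, W, 𝔪', hf, hW, h𝔪', hp, fun ℓ hℓ hg hℓN hℓp =>
    hcong ℓ hℓ hℓN (notMem_excluded hg hℓp)⟩

end Fermat.Agent.Lib.Ribet.H584

end
-- ===== PACK-END Lib/Ribet/H584/DeligneSerre.lean

-- ===== PACK-BEGIN Lib/Newform/H863/Minimal.lean
section


/-!
# NEWFORM library, piece D2 (helper863): the newform attached to an eigenform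

With the prelude's definition (`IsNewform` = normalised eigenform whose good eigensystem does
not occur at any proper divisor level), the existence of the associated newform is a
minimal-level argument.
-/

set_option autoImplicit false
open CuspForm CongruenceSubgroup ModularFormClass

namespace Fermat.Agent.Lib.Newform.H863

/-- Transitivity of "the good eigensystem occurs". -/
theorem goodEigensystemOccursAt_trans {N M M' : ℕ} (hMN : M ∣ N)
    {f : CuspForm (Gamma0 N) 2} {g : CuspForm (Gamma0 M) 2}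
    (hg : ∀ ℓ : ℕ, ℓ.Prime → ¬ ℓ ∣ N → qCoeff g ℓ = qCoeff f ℓ)
    (h : GoodEigensystemOccursAt g M') : GoodEigensystemOccursAt f M' := by
  obtain ⟨h', hh', hl⟩ := h
  refine ⟨h', hh', fun ℓ hℓ hℓN => ?_⟩
  rw [hl ℓ hℓ (fun hd => hℓN (hd.trans hMN)), hg ℓ hℓ hℓN]

/-- **D2.** Every normalised eigenform of level `N ≠ 0` has an associated newform (in the
prelude's sense) of some level `M ∣ N` with the same good eigenvalues. -/
theorem exists_isNewform_of_isNormalizedEigenform {N : ℕ} [NeZero N]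
    (f : CuspForm (Gamma0 N) 2) (hf : f.IsNormalizedEigenform) :
    ∃ M : ℕ, M ∣ N ∧ ∃ g : CuspForm (Gamma0 M) 2, g.IsNewform ∧
      ∀ ℓ : ℕ, ℓ.Prime → ¬ ℓ ∣ N → qCoeff g ℓ = qCoeff f ℓ := by
  classical
  have hex : ∃ M : ℕ, M ∣ N ∧ GoodEigensystemOccursAt f M :=
    ⟨N, dvd_rfl, GoodEigensystemOccursAt.refl hf⟩
  obtain ⟨hMN, g, hg, hgl⟩ := Nat.find_spec hex
  refine ⟨Nat.find hex, hMN, g, ⟨hg, fun M' hM' hne hocc => ?_⟩, hgl⟩
  have hM0 : Nat.find hex ≠ 0 := fun h0 => NeZero.ne N (Nat.eq_zero_of_zero_dvd (h0 ▸ hMN))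
  have hlt : M' < Nat.find hex :=
    lt_of_le_of_ne (Nat.le_of_dvd (Nat.pos_of_ne_zero hM0) hM') hne
  exact Nat.find_min hex hlt ⟨hM'.trans hMN, goodEigensystemOccursAt_trans hMN hgl hocc⟩

/-- A newform's good eigensystem occurs at no proper divisor level, even for a common
eigenvector of the good Hecke operators only. -/
theorem IsNewform.eq_zero_of_eigenvector {N M : ℕ} [NeZero N] (hMN : M ∣ N) (hne : M ≠ N)
    {f : CuspForm (Gamma0 N) 2} (hf : f.IsNewform) (h : CuspForm (Gamma0 M) 2)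
    (heig : ∀ (ℓ : ℕ) (hℓ : ℓ.Prime) (hℓN : ¬ ℓ ∣ N),
      CuspForm.heckeTLin 2 hℓ (fun hd => hℓN (hd.trans hMN)) h = qCoeff f ℓ • h) :
    h = 0 := by
  by_contra hh
  haveI : NeZero M := ⟨fun h0 => NeZero.ne N (Nat.eq_zero_of_zero_dvd (h0 ▸ hMN))⟩
  exact hf.2 M hMN hne (goodEigensystemOccursAt_of_eigenvector hMN f h hh heig)

end Fermat.Agent.Lib.Newform.H863

end
-- ===== PACK-END Lib/Newform/H863/Minimal.lean

-- ===== PACK-BEGIN S36/H630/LabelHloc.lean
section



/-!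
# S36 engine, LABEL core (helper630), part 3: the local hypothesis of the label wall

`H193.kummer_wall3` (main) proves `G ∈ F` for a split Kummer generator `G ^ m = u` from the local
hypothesis `hloc`: *sheets of the cover `Z` through a common closed point of the special fibre
have the same normalised label*.  This file produces `hloc` from a datum on the BASE `F`:

`LabelAt B n 𝒱 m u ζ κ` : at the closed point `n` of the chart `B ⊆ F` there is a purity datum
`d` (`u d ^ m ∈ B_n`) whose values along the sheets `V ∈ 𝒱` through `n` are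
`η₀ ζ ^ (-κ V)`, with `η₀` independent of the sheet.

So the engine has to provide, at every closed point of the two charts of `F`,
purity (cell REG) and the constancy of the label ratios (LAB-NORM + label algebra).
-/

set_option autoImplicit false
set_option linter.unusedSectionVars false

namespace Fermat.Agent.S36.H630

open Fermat.Agent.S18.H138 Fermat.Agent.S36.H193

variable {R : Type*} [CommRing R] {F : Type*} [Field F] [Algebra R F]
variable {Z : Type*} [Field Z] [Algebra R Z] [Algebra F Z] [IsScalarTower R F Z]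

/-- **The label datum on the base** at a closed point `n` of the chart `B`. -/
def LabelAt (B : Subalgebra R F) (n : Ideal B) (𝒱 : Set (ValuationSubring F)) (m : ℕ) (u : F)
    (ζ : R) (κ : ValuationSubring F → ℕ) : Prop :=
  ∃ (d : F) (a₀ s₀ : B) (η₀ : R), d ≠ 0 ∧ s₀ ∉ n ∧ u * d ^ m * (s₀ : F) = a₀ ∧
    algebraMap R B η₀ ∉ n ∧
    ∀ V ∈ 𝒱, PassThrough B n V → ValAt B n V d (η₀ * ζ ^ ((m - 1) * κ V))

/-- the image of a chart of `F` lies in the corresponding chart of `Z` -/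
theorem algebraMap_mem_chart (S₀ : Set F) {b : F} (hb : b ∈ chart R S₀) :
    algebraMap F Z b ∈ chart R (algebraMap F Z '' S₀) := by
  rw [mem_chart] at hb ⊢
  -- transport an integral equation
  obtain ⟨p, hp, hpb⟩ := hb
  -- the map of coefficient rings
  have hle : ∀ y ∈ Algebra.adjoin R S₀, algebraMap F Z y ∈ Algebra.adjoin R (algebraMap F Z '' S₀) := by
    intro y hy
    have h1 : (IsScalarTower.toAlgHom R F Z) y ∈ (Algebra.adjoin R S₀).map (IsScalarTower.toAlgHom R F Z) :=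
      ⟨y, hy, rfl⟩
    rw [AlgHom.map_adjoin] at h1
    exact h1
  let φ : Algebra.adjoin R S₀ →+* Algebra.adjoin R (algebraMap F Z '' S₀) :=
    { toFun := fun y => ⟨algebraMap F Z (y : F), hle y y.2⟩
      map_one' := Subtype.ext (map_one _)
      map_mul' := fun _ _ => Subtype.ext (map_mul _ _ _)
      map_zero' := Subtype.ext (map_zero _)
      map_add' := fun _ _ => Subtype.ext (map_add _ _ _) }
  refine ⟨p.map φ, hp.map φ, ?_⟩
  have h2 : Polynomial.eval₂ (algebraMap (Algebra.adjoin R (algebraMap F Z '' S₀)) Z)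
      (algebraMap F Z b) (p.map φ)
      = algebraMap F Z (Polynomial.eval₂ (algebraMap (Algebra.adjoin R S₀) F) b p) := by
    rw [Polynomial.eval₂_map, Polynomial.hom_eval₂]
    rfl
  rw [h2, hpb, map_zero]

/-- the chart of `Z` is closed under `m`-th roots -/
theorem chart_root_mem (S : Set Z) {m : ℕ} (hm : 0 < m) {z : Z} (hz : z ^ m ∈ chart R S) :
    z ∈ chart R S := by
  rw [mem_chart] at hz ⊢
  exact IsIntegral.of_pow hm hz

section RootsOfUnity

/-- Two powers of a root of unity of order `m`, `m` invertible, which are different, differ by a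
unit. -/
theorem isUnit_zeta_pow_sub (hinjR : Function.Injective (algebraMap R Z))
    {m : ℕ} (hm : 0 < m) {mi : R} (hmi : (m : R) * mi = 1) {ζ : R} (hζ : ζ ^ m = 1)
    {i j : ℕ} (hne : ζ ^ i ≠ ζ ^ j) : IsUnit (ζ ^ i - ζ ^ j) := by
  have hm1 : m - 1 + 1 = m := Nat.sub_add_cancel hm
  -- `ξ = ζ ^ i / ζ ^ j`
  set ξ : R := ζ ^ i * ζ ^ (j * (m - 1)) with hξ
  have hjj : ζ ^ j * ζ ^ (j * (m - 1)) = 1 := by
    rw [← pow_add]
    have : j + j * (m - 1) = m * j := by
      calc j + j * (m - 1) = j * (m - 1 + 1) := by ring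
        _ = m * j := by rw [hm1, mul_comm]
    rw [this, pow_mul, hζ, one_pow]
  have hξm : ξ ^ m = 1 := by
    rw [hξ, mul_pow, ← pow_mul, ← pow_mul, mul_comm i m, mul_comm (j * (m - 1)) m, pow_mul,
      pow_mul ζ m, hζ, one_pow, one_pow, one_mul]
  have hdiff : ζ ^ i - ζ ^ j = ζ ^ j * (ξ - 1) := by
    rw [hξ]
    calc ζ ^ i - ζ ^ j = ζ ^ i * (ζ ^ j * ζ ^ (j * (m - 1))) - ζ ^ j := by rw [hjj, mul_one]
      _ = ζ ^ j * (ζ ^ i * ζ ^ (j * (m - 1)) - 1) := by ring
  have hξne : ξ ≠ 1 := by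
    intro h
    apply hne
    have : ζ ^ i - ζ ^ j = 0 := by rw [hdiff, h, sub_self, mul_zero]
    exact sub_eq_zero.1 this
  -- the geometric sum vanishes
  have hsum : ∑ t ∈ Finset.range m, ξ ^ t = 0 := by
    apply hinjR
    rw [map_zero]
    have h2 : (algebraMap R Z ξ - 1) * algebraMap R Z (∑ t ∈ Finset.range m, ξ ^ t) = 0 := by
      rw [← map_one (algebraMap R Z), ← map_sub, ← map_mul, mul_geom_sum, hξm, sub_self, map_zero]
    rcases mul_eq_zero.1 h2 with h3 | h3
    · exfalso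
      apply hξne
      apply hinjR
      rw [map_one]
      exact sub_eq_zero.1 h3
    · exact h3
  -- `m = (1 - ξ) * (…)`
  have hdiv : ∀ t : ℕ, ∃ c : R, 1 - ξ ^ t = (1 - ξ) * c := by
    intro t
    refine ⟨∑ s ∈ Finset.range t, ξ ^ s, ?_⟩
    have := mul_neg_geom_sum ξ t
    rw [this]
  choose c hc using hdiv
  have hmm : (m : R) = (1 - ξ) * ∑ t ∈ Finset.range m, c t := by
    rw [Finset.mul_sum]
    have : ∑ t ∈ Finset.range m, (1 - ξ) * c t = ∑ t ∈ Finset.range m, (1 - ξ ^ t) :=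
      Finset.sum_congr rfl fun t _ => (hc t).symm
    rw [this, Finset.sum_sub_distrib, hsum, sub_zero]
    simp
  have hu1 : IsUnit (1 - ξ) := by
    refine IsUnit.of_mul_eq_one ((∑ t ∈ Finset.range m, c t) * mi) ?_
    rw [← mul_assoc, ← hmm, hmi]
  have hu2 : IsUnit (ξ - 1) := by
    have : ξ - 1 = -(1 - ξ) := by ring
    rw [this]
    exact hu1.neg
  have hu3 : IsUnit (ζ ^ j) := IsUnit.of_mul_eq_one _ hjj
  rw [hdiff]
  exact hu3.mul hu2

end RootsOfUnity

/-- The map of charts `B → C`. -/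
def chartHom (S₀ : Set F) : chart R S₀ →+* chart R (algebraMap F Z '' S₀) where
  toFun := fun b => ⟨algebraMap F Z (b : F), _root_.Fermat.Agent.S36.H630.algebraMap_mem_chart S₀ b.2⟩
  map_one' := Subtype.ext (map_one _)
  map_mul' := fun _ _ => Subtype.ext (map_mul _ _ _)
  map_zero' := Subtype.ext (map_zero _)
  map_add' := fun _ _ => Subtype.ext (map_add _ _ _)

/-- **The local hypothesis of the label wall from the label datum on the base.** -/
theorem hloc_of_labelAt
    (hinjR : Function.Injective (algebraMap R Z))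
    {m : ℕ} (hm : 0 < m) {mi : R} (hmi : (m : R) * mi = 1) {ζ : R} (hζ : ζ ^ m = 1)
    (S₀ : Set F) {u : F} {G : Z} (hG : G ^ m = algebraMap F Z u)
    (𝒱 : Set (ValuationSubring F)) (κ : ValuationSubring F → ℕ)
    (𝔫 : Ideal (chart R (algebraMap F Z '' S₀))) [𝔫.IsPrime]
    (hlab : LabelAt (chart R S₀) (𝔫.comap (chartHom (R := R) (Z := Z) S₀)) 𝒱 m u ζ κ)
    {W W' : ValuationSubring Z}
    (hW : W.comap (algebraMap F Z) ∈ 𝒱) (hW' : W'.comap (algebraMap F Z) ∈ 𝒱)
    (hCW : ∀ c ∈ chart R (algebraMap F Z '' S₀), c ∈ W)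
    (hCW' : ∀ c ∈ chart R (algebraMap F Z '' S₀), c ∈ W')
    (hth : Through (chart R (algebraMap F Z '' S₀)) 𝔫 W)
    (hth' : Through (chart R (algebraMap F Z '' S₀)) 𝔫 W')
    (a b : ℕ) (ha : G - algebraMap R Z (ζ ^ a) ∈ W.nonunits)
    (hb : G - algebraMap R Z (ζ ^ b) ∈ W'.nonunits) :
    ζ ^ (a + κ (W'.comap (algebraMap F Z))) = ζ ^ (b + κ (W.comap (algebraMap F Z))) := by
  classical
  have hBC : ∀ b : chart R S₀, algebraMap F Z (b : F) ∈ chart R (algebraMap F Z '' S₀) :=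
    fun b => _root_.Fermat.Agent.S36.H630.algebraMap_mem_chart S₀ b.2
  have hn𝔫 : ∀ b : chart R S₀, b ∈ 𝔫.comap (chartHom (R := R) (Z := Z) S₀) ↔
      (⟨algebraMap F Z (b : F), hBC b⟩ : chart R (algebraMap F Z '' S₀)) ∈ 𝔫 := fun b => Iff.rfl
  have hCWl : ChartLe (chart R (algebraMap F Z '' S₀)) W := fun c => hCW c c.2
  have hCWl' : ChartLe (chart R (algebraMap F Z '' S₀)) W' := fun c => hCW' c c.2
  have hthP : PassThrough (chart R (algebraMap F Z '' S₀)) 𝔫 W := hth
  have hthP' : PassThrough (chart R (algebraMap F Z '' S₀)) 𝔫 W' := hth'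
  obtain ⟨d, a₀, s₀, η₀, -, hs₀, hpure, hη₀, hval⟩ := hlab
  set k := κ (W.comap (algebraMap F Z)) with hk
  set k' := κ (W'.comap (algebraMap F Z)) with hk'
  have hv := hval _ hW (PassThrough.comap hBC (fun b hb => (hn𝔫 b).2 hb) hthP)
  have hv' := hval _ hW' (PassThrough.comap hBC (fun b hb => (hn𝔫 b).2 hb) hthP')
  have hroot : ∀ z : Z, z ^ m ∈ chart R (algebraMap F Z '' S₀) →
      z ∈ chart R (algebraMap F Z '' S₀) := fun z hz => chart_root_mem _ hm hz
  have key := cover_local hBC hn𝔫 hroot hG hs₀ hpure hCWl hCWl' hthP hthP' ha hb hv hv'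
  -- `key : (ζ^a η₀ ζ^((m-1)k) - ζ^b η₀ ζ^((m-1)k')) ∈ 𝔫`
  have hm1 : m - 1 + 1 = m := Nat.sub_add_cancel hm
  by_contra hne
  -- first: `ζ ^ (a + (m-1) k) ≠ ζ ^ (b + (m-1) k')`
  have hne2 : ζ ^ (a + (m - 1) * k) ≠ ζ ^ (b + (m - 1) * k') := by
    intro h
    apply hne
    have e1 : ζ ^ (a + k') = ζ ^ (a + (m - 1) * k) * ζ ^ (k + k') := by
      rw [← pow_add]
      have : a + (m - 1) * k + (k + k') = a + k' + m * k := by
        calc a + (m - 1) * k + (k + k') = a + k' + (m - 1 + 1) * k := by ring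
          _ = a + k' + m * k := by rw [hm1]
      rw [this, pow_add ζ (a + k') (m * k), pow_mul ζ m k, hζ, one_pow, mul_one]
    have e2 : ζ ^ (b + k) = ζ ^ (b + (m - 1) * k') * ζ ^ (k + k') := by
      rw [← pow_add]
      have : b + (m - 1) * k' + (k + k') = b + k + m * k' := by
        calc b + (m - 1) * k' + (k + k') = b + k + (m - 1 + 1) * k' := by ring
          _ = b + k + m * k' := by rw [hm1]
      rw [this, pow_add ζ (b + k) (m * k'), pow_mul ζ m k', hζ, one_pow, mul_one]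
    rw [e1, e2, h]
  have hu := isUnit_zeta_pow_sub hinjR hm hmi hζ hne2
  have h1 : algebraMap R (chart R (algebraMap F Z '' S₀))
        (ζ ^ a * (η₀ * ζ ^ ((m - 1) * k)) - ζ ^ b * (η₀ * ζ ^ ((m - 1) * k')))
      = algebraMap R (chart R (algebraMap F Z '' S₀))
          (ζ ^ (a + (m - 1) * k) - ζ ^ (b + (m - 1) * k'))
        * algebraMap R (chart R (algebraMap F Z '' S₀)) η₀ := by
    rw [← map_mul]
    congr 1
    rw [pow_add, pow_add]
    ring
  rw [h1] at key
  rcases (Ideal.IsPrime.mem_or_mem ‹𝔫.IsPrime› key) with h5 | h5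
  · exact (Ideal.IsPrime.ne_top ‹𝔫.IsPrime›) (Ideal.eq_top_of_isUnit_mem _ h5 (hu.map _))
  · apply hη₀
    rw [Ideal.mem_comap]
    have h6 : chartHom (R := R) (Z := Z) S₀ (algebraMap R (chart R S₀) η₀)
        = algebraMap R (chart R (algebraMap F Z '' S₀)) η₀ := by
      apply Subtype.ext
      show algebraMap F Z (algebraMap R F η₀) = algebraMap R Z η₀
      rw [← IsScalarTower.algebraMap_apply]
    rw [h6]
    exact h5

end Fermat.Agent.S36.H630

end
-- ===== PACK-END S36/H630/LabelHloc.lean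

-- ===== PACK-BEGIN S35/H433/ResField.lean
section


/-!
# S35 / (G) — closed points of the special fibre of a chart have residue field `R / w` (helper433)

`exists_const_sub_mem` : `R` a discrete valuation ring with algebraically closed residue field,
`B` a chart (integral closure of `R[x]` in `F`), `n` a maximal ideal of `B` containing `w`.  Then
every `b ∈ B` is congruent modulo `n` to a constant `r ∈ R`.
-/

set_option autoImplicit false

namespace Fermat.Agent.S35.H433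

open Polynomial Fermat.Agent.A2 Fermat.Agent.A2.Alg

/-- A field `κ` which is integral over `k[X]` (`k` algebraically closed) via a ring homomorphism
`ψ` is equal to the image of `k`. -/
theorem surjective_of_isIntegral_polynomial {k κ : Type*} [Field k] [IsAlgClosed k] [Field κ]
    (ψ : k[X] →+* κ) (hψ : ψ.IsIntegral) : Function.Surjective (ψ.comp C) := by
  have hmax : ((⊥ : Ideal κ).comap ψ).IsMaximal :=
    Ideal.isMaximal_comap_of_isIntegral_of_isMaximal' ψ hψ ⊥
  set P : Ideal k[X] := (⊥ : Ideal κ).comap ψ with hP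
  have h₁ : ((Ideal.Quotient.mk P).comp C).IsIntegral :=
    Polynomial.quotient_mk_comp_C_isIntegral_of_isJacobsonRing P
  let ψb : k[X] ⧸ P →+* κ := Ideal.Quotient.lift P ψ (fun a ha => by
    rw [hP, Ideal.mem_comap, Ideal.mem_bot] at ha
    exact ha)
  have hcomp : ψb.comp (Ideal.Quotient.mk P) = ψ := by
    ext <;> simp [ψb]
  have h₂ : ψb.IsIntegral := by
    apply RingHom.IsIntegral.tower_top (Ideal.Quotient.mk P) ψb
    rw [hcomp]
    exact hψ
  have h₃ : (ψ.comp C).IsIntegral := by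
    have : ψ.comp C = ψb.comp ((Ideal.Quotient.mk P).comp C) := by
      rw [← RingHom.comp_assoc, hcomp]
    rw [this]
    exact RingHom.IsIntegral.trans _ _ h₁ h₂
  exact (IsAlgClosed.ringHom_bijective_of_isIntegral (ψ.comp C) h₃).2

variable {R E F : Type*} [CommRing R] [IsDomain R] [IsDiscreteValuationRing R]
  [IsAlgClosed (IsLocalRing.ResidueField R)]
  [Field E] [Algebra R E] [Field F] [Algebra E F] [Algebra R F]

/-- **Residue fields of closed points.** -/
theorem exists_const_sub_mem (w : R) (x : F) (B : Subalgebra R F) (hB : ChartCtx E w x B)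
    (n : Ideal B) (hn : n.IsMaximal) (hwn : algebraMap R B w ∈ n) (b : B) :
    ∃ r : R, b - algebraMap R B r ∈ n := by
  let _ : Field (B ⧸ n) := Ideal.Quotient.field n
  let xB : B := ⟨x, H609.self_mem_chart x B hB.hB⟩
  let f : R →+* B ⧸ n := (Ideal.Quotient.mk n).comp (algebraMap R B)
  have hker : ∀ a ∈ IsLocalRing.maximalIdeal R, f a = 0 := by
    intro a ha
    rw [hB.hw.maximalIdeal_eq, Ideal.mem_span_singleton] at ha
    obtain ⟨t, rfl⟩ := ha
    show Ideal.Quotient.mk n (algebraMap R B (w * t)) = 0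
    rw [Ideal.Quotient.eq_zero_iff_mem, map_mul]
    exact n.mul_mem_right _ hwn
  let g : IsLocalRing.ResidueField R →+* B ⧸ n :=
    Ideal.Quotient.lift (IsLocalRing.maximalIdeal R) f hker
  have hg : ∀ r : R, g (IsLocalRing.residue R r) = f r := fun r => rfl
  let ψ : (IsLocalRing.ResidueField R)[X] →+* B ⧸ n :=
    Polynomial.eval₂RingHom g (Ideal.Quotient.mk n xB)
  let φ₀ : R[X] →+* B ⧸ n := (Ideal.Quotient.mk n).comp (aeval (R := R) xB).toRingHom
  have hφ₀ : φ₀.IsIntegral :=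
    RingHom.IsIntegral.trans _ _ (H609.isIntegral_aeval_chart x B hB.hB)
      (RingHom.isIntegral_of_surjective _ Ideal.Quotient.mk_surjective)
  have hcomp : ψ.comp (Polynomial.mapRingHom (IsLocalRing.residue R)) = φ₀ := by
    refine Polynomial.ringHom_ext (fun r => ?_) ?_
    · simp only [RingHom.comp_apply, Polynomial.coe_mapRingHom, Polynomial.map_C, ψ, φ₀,
        Polynomial.coe_eval₂RingHom, Polynomial.eval₂_C, hg, f, AlgHom.toRingHom_eq_coe,
        RingHom.coe_coe, aeval_C]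
    · simp only [RingHom.comp_apply, Polynomial.coe_mapRingHom, Polynomial.map_X, ψ, φ₀,
        Polynomial.coe_eval₂RingHom, Polynomial.eval₂_X, AlgHom.toRingHom_eq_coe,
        RingHom.coe_coe, aeval_X]
  have hψ : ψ.IsIntegral := by
    apply RingHom.IsIntegral.tower_top (Polynomial.mapRingHom (IsLocalRing.residue R)) ψ
    rw [hcomp]
    exact hφ₀
  obtain ⟨c, hc⟩ := surjective_of_isIntegral_polynomial ψ hψ (Ideal.Quotient.mk n b)
  obtain ⟨r, rfl⟩ := IsLocalRing.residue_surjective c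
  refine ⟨r, ?_⟩
  rw [← Ideal.Quotient.eq_zero_iff_mem, map_sub, sub_eq_zero, ← hc]
  simp only [RingHom.comp_apply, ψ, Polynomial.coe_eval₂RingHom, Polynomial.eval₂_C, hg, f]

end Fermat.Agent.S35.H433

end
-- ===== PACK-END S35/H433/ResField.lean

-- ===== PACK-BEGIN S36/H630/CtxAux.lean
section





/-!
# S36 engine, LABEL core (helper630), part 11: auxiliary lemmas for the adapter to `Eng.TripleCtx`

Mathlib-level facts about charts (`S18.H138.chart`), used to derive the hypotheses of the label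
theorems from the fields of the three-component context:

* `chartLe_chart`            : `R ⊆ V`, `S ⊆ V` ⟹ `chart R S ⊆ V`;
* `rat_chart`                : closed points of the special fibre of a chart are rational;
* `norm_mem_chart`           : the norm of an element integral over the chart below lies in it;
* `exists_local_denominator` : local denominators at a point which is alone in its fibre;
* `exists_label`             : `k ^ m ≡ 1` on `V'` ⟹ `k ≡ ζ ^ i` on `V'`;
* `normalAlong_of_monic`     : the polynomial form of normality implies the `m`-th root form.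
-/

set_option autoImplicit false
set_option linter.unusedSectionVars false
set_option linter.style.haveILetI false

namespace Fermat.Agent.S36.H630

open Polynomial
open Fermat.Agent.S18.H138 (chart mem_chart)

section Chart

variable {R : Type*} [CommRing R] {F : Type*} [Field F] [Algebra R F]

/-- A chart lies in every valuation ring containing `R` and the coordinates. -/
theorem chartLe_chart {V : ValuationSubring F} (hRV : ∀ r : R, algebraMap R F r ∈ V)
    {S : Set F} (hS : ∀ s ∈ S, s ∈ V) : ChartLe (chart R S) V := by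
  intro b
  have hb : IsIntegral (Algebra.adjoin R S) (b : F) := mem_chart.1 b.2
  have hle : ∀ y ∈ Algebra.adjoin R S, y ∈ V := by
    intro y hy
    induction hy using Algebra.adjoin_induction with
    | mem y hy => exact hS y hy
    | algebraMap r => exact hRV r
    | add y z _ _ hy hz => exact V.add_mem _ _ hy hz
    | mul y z _ _ hy hz => exact V.mul_mem _ _ hy hz
  obtain ⟨p, hp, hpb⟩ := hb
  -- transport the integral equation to `V`
  let φ : Algebra.adjoin R S →+* V :=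
    { toFun := fun y => ⟨(y : F), hle y y.2⟩
      map_one' := rfl
      map_mul' := fun _ _ => rfl
      map_zero' := rfl
      map_add' := fun _ _ => rfl }
  have hint : IsIntegral V (b : F) := by
    refine ⟨p.map φ, hp.map φ, ?_⟩
    rw [Polynomial.eval₂_map]
    exact hpb
  have h1 : (b : F) ∈ Set.range (algebraMap V F) :=
    (IsIntegrallyClosed.isIntegral_iff (R := V) (K := F)).1 hint
  obtain ⟨v, hv⟩ := h1
  rw [← hv]
  exact v.2

/-- The polynomial form of normality along a sheet implies the `m`-th root form. -/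
theorem normalAlong_of_monic {B : Subalgebra R F} {V : ValuationSubring F}
    (h : ∀ (f : F) (p : Polynomial B), p.Monic → Polynomial.aeval f p ∈ V.nonunits →
      ∃ b : B, f - (b : F) ∈ V.nonunits) {m : ℕ} (hm : 0 < m) : NormalAlong B V m := by
  intro y _ c hc
  refine h y (X ^ m - C c) (monic_X_pow_sub_C c hm.ne') ?_
  have : Polynomial.aeval y (X ^ m - C c : Polynomial B) = y ^ m - (c : F) := by
    rw [map_sub, map_pow, aeval_X, aeval_C]
    rfl
  rw [this]
  exact hc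

end Chart

section Rat

variable {R : Type*} [CommRing R] [IsDomain R] [IsDiscreteValuationRing R]
  [IsAlgClosed (IsLocalRing.ResidueField R)]
variable {F : Type*} [Field F] [Algebra R F]

/-- **Closed points of the special fibre of a chart are rational** (general form). -/
theorem rat_of_chart (x : F) (B : Subalgebra R F)
    (hB : ∀ f : F, f ∈ B ↔ IsIntegral (Algebra.adjoin R ({x} : Set F)) f)
    (n : Ideal B) (hn : n.IsMaximal)
    (h𝔪n : ∀ r ∈ IsLocalRing.maximalIdeal R, algebraMap R B r ∈ n)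
    (b : B) : ∃ r : R, b - algebraMap R B r ∈ n := by
  let _ : Field (B ⧸ n) := Ideal.Quotient.field n
  let xB : B := ⟨x, Fermat.Agent.A2.Alg.H609.self_mem_chart x B hB⟩
  let f : R →+* B ⧸ n := (Ideal.Quotient.mk n).comp (algebraMap R B)
  have hker : ∀ a ∈ IsLocalRing.maximalIdeal R, f a = 0 := by
    intro a ha
    show Ideal.Quotient.mk n (algebraMap R B a) = 0
    rw [Ideal.Quotient.eq_zero_iff_mem]
    exact h𝔪n a ha
  let g : IsLocalRing.ResidueField R →+* B ⧸ n :=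
    Ideal.Quotient.lift (IsLocalRing.maximalIdeal R) f hker
  have hg : ∀ r : R, g (IsLocalRing.residue R r) = f r := fun r => rfl
  let ψ : (IsLocalRing.ResidueField R)[X] →+* B ⧸ n :=
    Polynomial.eval₂RingHom g (Ideal.Quotient.mk n xB)
  let φ₀ : R[X] →+* B ⧸ n := (Ideal.Quotient.mk n).comp (aeval (R := R) xB).toRingHom
  have hφ₀ : φ₀.IsIntegral :=
    RingHom.IsIntegral.trans _ _ (Fermat.Agent.A2.Alg.H609.isIntegral_aeval_chart x B hB)
      (RingHom.isIntegral_of_surjective _ Ideal.Quotient.mk_surjective)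
  have hcomp : ψ.comp (Polynomial.mapRingHom (IsLocalRing.residue R)) = φ₀ := by
    refine Polynomial.ringHom_ext (fun r => ?_) ?_
    · simp only [RingHom.comp_apply, Polynomial.coe_mapRingHom, Polynomial.map_C, ψ, φ₀,
        Polynomial.coe_eval₂RingHom, Polynomial.eval₂_C, hg, f, AlgHom.toRingHom_eq_coe,
        RingHom.coe_coe, aeval_C]
    · simp only [RingHom.comp_apply, Polynomial.coe_mapRingHom, Polynomial.map_X, ψ, φ₀,
        Polynomial.coe_eval₂RingHom, Polynomial.eval₂_X, AlgHom.toRingHom_eq_coe,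
        RingHom.coe_coe, aeval_X]
  have hψ : ψ.IsIntegral := by
    apply RingHom.IsIntegral.tower_top (Polynomial.mapRingHom (IsLocalRing.residue R)) ψ
    rw [hcomp]
    exact hφ₀
  obtain ⟨c, hc⟩ :=
    Fermat.Agent.S35.H433.surjective_of_isIntegral_polynomial ψ hψ (Ideal.Quotient.mk n b)
  obtain ⟨r, rfl⟩ := IsLocalRing.residue_surjective c
  refine ⟨r, ?_⟩
  rw [← Ideal.Quotient.eq_zero_iff_mem, map_sub, sub_eq_zero, ← hc]
  simp only [RingHom.comp_apply, ψ, Polynomial.coe_eval₂RingHom, Polynomial.eval₂_C, hg, f]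

/-- **Closed points of the special fibre of a chart are rational.** -/
theorem rat_chart (x : F) (n : Ideal (chart R ({x} : Set F))) (hn : n.IsMaximal)
    (h𝔪n : ∀ r ∈ IsLocalRing.maximalIdeal R, algebraMap R (chart R ({x} : Set F)) r ∈ n)
    (b : chart R ({x} : Set F)) : ∃ r : R, b - algebraMap R (chart R ({x} : Set F)) r ∈ n :=
  rat_of_chart x (chart R ({x} : Set F)) (fun _ => Iff.rfl) n hn h𝔪n b

end Rat

section Norm

variable {R : Type*} [CommRing R] {F' : Type*} [Field F'] [Algebra R F']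
variable {F : Type*} [Field F] [Algebra R F] [Algebra F' F] [IsScalarTower R F' F]

/-- An element of `F` which is a root of a monic polynomial with coefficients in the chart of
`F'` is integral over the base of that chart. -/
theorem isIntegral_adjoin_of_monic {S' : Set F'} {b : F}
    (hb : ∃ p : Polynomial F', p.Monic ∧ (∀ i, p.coeff i ∈ chart R S') ∧
      (p.map (algebraMap F' F)).eval b = 0) :
    IsIntegral (Algebra.adjoin R S') b := by
  obtain ⟨p, hp, hc, hroot⟩ := hb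
  have hl : p ∈ Polynomial.lifts (algebraMap (integralClosure (Algebra.adjoin R S') F') F') :=
    (Polynomial.lifts_iff_coeff_lifts p).2 (fun i => ⟨⟨p.coeff i, hc i⟩, rfl⟩)
  obtain ⟨q, hq, -, hqm⟩ := Polynomial.lifts_and_degree_eq_and_monic hl hp
  have hCb : IsIntegral (integralClosure (Algebra.adjoin R S') F') b := by
    refine ⟨q, hqm, ?_⟩
    have h1 : algebraMap (integralClosure (Algebra.adjoin R S') F') F
        = (algebraMap F' F).comp (algebraMap (integralClosure (Algebra.adjoin R S') F') F') :=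
      rfl
    rw [h1, ← Polynomial.eval₂_map, hq, Polynomial.eval₂_eq_eval_map]
    exact hroot
  exact isIntegral_trans b hCb

/-- **The norm of an element integral over the chart below lies in the chart below.** -/
theorem norm_mem_chart {S' : Set F'} {b : F}
    (hb : ∃ p : Polynomial F', p.Monic ∧ (∀ i, p.coeff i ∈ chart R S') ∧
      (p.map (algebraMap F' F)).eval b = 0) :
    Algebra.norm F' b ∈ chart R S' :=
  mem_chart.2 (Algebra.isIntegral_norm F' (isIntegral_adjoin_of_monic hb))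

end Norm

section Denominators

variable {A B : Type*} [CommRing A] [CommRing B]

/-- **Local denominators.**  If `n` is the only prime of `B` over `n ∩ A` (`B` integral over
`A`), every `s ∉ n` divides the image of some `t ∈ A`, `t ∉ n ∩ A`. -/
theorem exists_local_denominator (a : A →+* B) (ha_int : a.IsIntegral) (n : Ideal B)
    [n.IsPrime]
    (huniq : ∀ Q : Ideal B, Q.IsPrime → Q.comap a = n.comap a → Q = n)
    (s : B) (hs : s ∉ n) : ∃ (s' : B) (t : A), t ∉ n.comap a ∧ s * s' = a t := by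
  classical
  by_contra hcon
  push Not at hcon
  haveI hN : (n.comap a).IsPrime := Ideal.comap_isPrime a n
  let S : Submonoid B := (n.comap a).primeCompl.map (a : A →* B)
  have hdisj : Disjoint ((Ideal.span {s} : Ideal B) : Set B) (S : Set B) := by
    rw [Set.disjoint_left]
    rintro x hx ⟨t, ht, rfl⟩
    obtain ⟨s', hs'⟩ := Ideal.mem_span_singleton'.mp hx
    exact hcon s' t ht (by rw [mul_comm]; exact hs')
  obtain ⟨p, hp, hsp, hpS⟩ := Ideal.exists_le_prime_disjoint (Ideal.span {s}) S hdisj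
  have hpc : p.comap a ≤ n.comap a := by
    intro t ht
    by_contra htn
    exact Set.disjoint_left.mp hpS (show a t ∈ p from ht) ⟨t, htn, rfl⟩
  letI : Algebra A B := a.toAlgebra
  haveI : Algebra.IsIntegral A B := ⟨ha_int⟩
  obtain ⟨Q, hQ, hQp, hQc⟩ := Ideal.exists_ideal_over_prime_of_isIntegral (n.comap a) p hpc
  have hQn : Q = n := huniq Q hQp hQc
  exact hs (hQn ▸ hQ (hsp (Ideal.subset_span rfl)))

end Denominators

section Label

variable {R : Type*} [CommRing R] [IsDomain R] {F' : Type*} [Field F'] [Algebra R F']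

/-- **Existence of the label.**  `k ^ m ≡ 1` on `V'` ⟹ `k ≡ ζ ^ i` on `V'` for some `i`. -/
theorem exists_label {V' : ValuationSubring F'} (hRV : ∀ r : R, algebraMap R F' r ∈ V')
    (hinj : Function.Injective (algebraMap R F')) {m : ℕ} (hm : 0 < m) {ζ : R}
    (hζ : IsPrimitiveRoot ζ m) {k : F'} (hk : k ^ m - 1 ∈ V'.nonunits) :
    ∃ i : ℕ, k - algebraMap R F' (ζ ^ i) ∈ V'.nonunits := by
  classical
  have hζ' : IsPrimitiveRoot (algebraMap R F' ζ) m := hζ.map_of_injective hinj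
  have hkm : k ^ m ∈ V' := by
    have : k ^ m = (k ^ m - 1) + 1 := by ring
    rw [this]
    exact V'.add_mem _ _ (vnu_mem V' hk) V'.one_mem
  have hkV : k ∈ V' := by
    by_contra hkn
    have h1 : k⁻¹ ∈ V'.nonunits := by
      rw [ValuationSubring.mem_nonunits_iff_or]
      right
      rwa [inv_inv]
    have h2 : (k⁻¹) ^ m * k ^ m ∈ V'.nonunits :=
      vnu_mul_right V' (vnu_pow V' h1 hm.ne') hkm
    have hk0 : k ≠ 0 := by
      rintro rfl
      exact hkn V'.zero_mem
    rw [← mul_pow, inv_mul_cancel₀ hk0, one_pow] at h2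
    exact vnu_one_not V' h2
  by_contra hcon
  push Not at hcon
  haveI : NeZero m := ⟨hm.ne'⟩
  have h1 : k ^ m - 1 = ∏ ξ ∈ nthRootsFinset m (1 : F'), (k - ξ) := by
    have := hζ'.pow_sub_pow_eq_prod_sub_mul k 1 hm
    simpa using this
  have hall : ∀ ξ ∈ nthRootsFinset m (1 : F'), (k - ξ) ∈ V' ∧ (k - ξ) ∉ V'.nonunits := by
    intro ξ hξ
    have hξ1 : ξ ^ m = 1 := (mem_nthRootsFinset hm 1).1 hξ
    obtain ⟨i, -, rfl⟩ := hζ'.eq_pow_of_pow_eq_one hξ1
    rw [← map_pow]
    exact ⟨V'.sub_mem hkV (hRV _), hcon i⟩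
  have h2 := Finset.prod_induction (fun ξ => k - ξ) (fun a => a ∈ V' ∧ a ∉ V'.nonunits)
    (fun a b ha hb => ⟨V'.mul_mem _ _ ha.1 hb.1, vnu_mul_not V' ha.1 hb.1 ha.2 hb.2⟩)
    ⟨V'.one_mem, vnu_one_not V'⟩ hall
  rw [← h1] at h2
  exact h2.2 hk

end Label

end Fermat.Agent.S36.H630

end
-- ===== PACK-END S36/H630/CtxAux.lean

-- ===== PACK-BEGIN S36/H630/LabAlg.lean
section


/-!
# S36 engine, LABEL core (helper630), part 6: label algebra and `LabelAt`

* `label_algebra` : the two label equations at a triple point (via `α` and via `β`,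
  `LabEq.label_eq_of_norm`)

      `ζ ^ i₁ · η_FF · η_mid ^ (q-1) ≡ ζ ^ i₂ · η_VV ^ q`,
      `ζ ^ j₂ · η_VV · η_mid ^ (q-1) ≡ ζ ^ j₁ · η_FF ^ q`          (mod `𝔪`)

  imply, with `c = (q - 1) (q + 1)`,

      `η_FF ^ c ≡ ζ ^ X · η_VV ^ c`,   `η_mid ^ c ≡ ζ ^ Y · η_VV ^ c`,

  where `X = (q-1) (i₂ + j₂ + (m-1) (i₁ + j₁))`, `Y = q i₂ + j₁ + (m-1) (q i₁ + j₂)` depend only
  on the labels of the norms, NOT on the point.

* `labelAt_of_three` : hence the label datum `LabelAt` for `u ^ c` at the triple point, for the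
  colouring `κ FF = (m-1) X`, `κ mid = (m-1) Y`, `κ VV = 0`.
* `labelAt_of_one` : the label datum at a point lying on exactly one sheet (any colouring).
-/

set_option autoImplicit false
set_option linter.unusedSectionVars false

namespace Fermat.Agent.S36.H630

section Algebra

variable {K : Type*} [CommRing K] [IsDomain K]

/-- the inverse of a power of a root of unity -/
theorem zeta_pow_mul_inv {ζ : K} {m : ℕ} (hm : 0 < m) (hζ : ζ ^ m = 1) (i : ℕ) :
    ζ ^ i * ζ ^ ((m - 1) * i) = 1 := by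
  rw [← pow_add]
  have : i + (m - 1) * i = m * i := by
    have hm1 : m - 1 + 1 = m := Nat.sub_add_cancel hm
    calc i + (m - 1) * i = (m - 1 + 1) * i := by ring
      _ = m * i := by rw [hm1]
  rw [this, pow_mul, hζ, one_pow]

/-- **Label algebra** in a domain, with `q = r + 1`. -/
theorem label_algebra_succ {ζ : K} {m : ℕ} (hm : 0 < m) (hζ : ζ ^ m = 1)
    {a b c : K} (hb : b ≠ 0) (hc : c ≠ 0) {r : ℕ} {i₁ i₂ j₁ j₂ : ℕ}
    (hα : ζ ^ i₁ * (a * b ^ r) = ζ ^ i₂ * c ^ (r + 1))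
    (hβ : ζ ^ j₂ * (c * b ^ r) = ζ ^ j₁ * a ^ (r + 1)) :
    a ^ (r * (r + 1 + 1)) = ζ ^ (r * (i₂ + j₂ + (m - 1) * (i₁ + j₁))) * c ^ (r * (r + 1 + 1)) ∧
    b ^ (r * (r + 1 + 1))
      = ζ ^ ((r + 1) * i₂ + j₁ + (m - 1) * ((r + 1) * i₁ + j₂)) * c ^ (r * (r + 1 + 1)) := by
  have hbq : b ^ r ≠ 0 := pow_ne_zero _ hb
  -- (*) `ζ^(i₁+j₁) a^(q+1) = ζ^(i₂+j₂) c^(q+1)`
  have h1 : ζ ^ (i₁ + j₁) * a ^ (r + 1 + 1) = ζ ^ (i₂ + j₂) * c ^ (r + 1 + 1) := by
    apply mul_right_cancel₀ hbq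
    calc ζ ^ (i₁ + j₁) * a ^ (r + 1 + 1) * b ^ r
        = (ζ ^ i₁ * (a * b ^ r)) * (ζ ^ j₁ * a ^ (r + 1)) := by
          rw [pow_add, pow_succ a (r + 1)]; ring
      _ = (ζ ^ i₂ * c ^ (r + 1)) * (ζ ^ j₂ * (c * b ^ r)) := by rw [hα, hβ]
      _ = ζ ^ (i₂ + j₂) * c ^ (r + 1 + 1) * b ^ r := by
          rw [pow_add, pow_succ c (r + 1)]; ring
  have h2 : a ^ (r + 1 + 1) = ζ ^ (i₂ + j₂ + (m - 1) * (i₁ + j₁)) * c ^ (r + 1 + 1) := by
    have h3 := zeta_pow_mul_inv hm hζ (i₁ + j₁)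
    calc a ^ (r + 1 + 1) = (ζ ^ (i₁ + j₁) * ζ ^ ((m - 1) * (i₁ + j₁))) * a ^ (r + 1 + 1) := by
          rw [h3, one_mul]
      _ = ζ ^ ((m - 1) * (i₁ + j₁)) * (ζ ^ (i₁ + j₁) * a ^ (r + 1 + 1)) := by ring
      _ = ζ ^ ((m - 1) * (i₁ + j₁)) * (ζ ^ (i₂ + j₂) * c ^ (r + 1 + 1)) := by rw [h1]
      _ = ζ ^ (i₂ + j₂ + (m - 1) * (i₁ + j₁)) * c ^ (r + 1 + 1) := by
          rw [pow_add ζ (i₂ + j₂)]; ring
  constructor
  · calc a ^ (r * (r + 1 + 1)) = (a ^ (r + 1 + 1)) ^ r := by rw [← pow_mul, mul_comm]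
      _ = (ζ ^ (i₂ + j₂ + (m - 1) * (i₁ + j₁)) * c ^ (r + 1 + 1)) ^ r := by rw [h2]
      _ = ζ ^ (r * (i₂ + j₂ + (m - 1) * (i₁ + j₁))) * c ^ (r * (r + 1 + 1)) := by
          rw [mul_pow, ← pow_mul, ← pow_mul, mul_comm (r + 1 + 1) r,
            mul_comm (i₂ + j₂ + (m - 1) * (i₁ + j₁)) r]
  · -- `ζ^(q i₁ + j₂) b^c = ζ^(q i₂ + j₁) c^c`
    have hcc : c ^ (r * (r + 1 + 1)) * c = (c ^ (r + 1)) ^ (r + 1) := by
      rw [← pow_succ, ← pow_mul]
      congr 1
      ring
    have hbb : b ^ (r * (r + 1 + 1)) = (b ^ r) ^ (r + 1) * b ^ r := by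
      rw [← pow_succ, ← pow_mul]
    have hz₁ : ζ ^ ((r + 1) * i₁) = (ζ ^ i₁) ^ (r + 1) := by rw [← pow_mul, mul_comm]
    have hz₂ : ζ ^ ((r + 1) * i₂) = (ζ ^ i₂) ^ (r + 1) := by rw [← pow_mul, mul_comm]
    have h4 : ζ ^ ((r + 1) * i₁ + j₂) * b ^ (r * (r + 1 + 1))
        = ζ ^ ((r + 1) * i₂ + j₁) * c ^ (r * (r + 1 + 1)) := by
      apply mul_right_cancel₀ hc
      calc ζ ^ ((r + 1) * i₁ + j₂) * b ^ (r * (r + 1 + 1)) * c
          = (ζ ^ i₁) ^ (r + 1) * (b ^ r) ^ (r + 1) * (ζ ^ j₂ * (c * b ^ r)) := by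
            rw [hbb, pow_add ζ ((r + 1) * i₁) j₂, hz₁]; ring
        _ = (ζ ^ i₁) ^ (r + 1) * (b ^ r) ^ (r + 1) * (ζ ^ j₁ * a ^ (r + 1)) := by rw [hβ]
        _ = ζ ^ j₁ * (ζ ^ i₁ * (a * b ^ r)) ^ (r + 1) := by ring
        _ = ζ ^ j₁ * (ζ ^ i₂ * c ^ (r + 1)) ^ (r + 1) := by rw [hα]
        _ = ζ ^ ((r + 1) * i₂ + j₁) * (c ^ (r * (r + 1 + 1)) * c) := by
            rw [hcc, pow_add ζ ((r + 1) * i₂) j₁, hz₂, mul_pow]; ring
        _ = ζ ^ ((r + 1) * i₂ + j₁) * c ^ (r * (r + 1 + 1)) * c := by ring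
    have h3 := zeta_pow_mul_inv hm hζ ((r + 1) * i₁ + j₂)
    calc b ^ (r * (r + 1 + 1))
        = (ζ ^ ((r + 1) * i₁ + j₂) * ζ ^ ((m - 1) * ((r + 1) * i₁ + j₂)))
            * b ^ (r * (r + 1 + 1)) := by
          rw [h3, one_mul]
      _ = ζ ^ ((m - 1) * ((r + 1) * i₁ + j₂))
            * (ζ ^ ((r + 1) * i₁ + j₂) * b ^ (r * (r + 1 + 1))) := by ring
      _ = ζ ^ ((m - 1) * ((r + 1) * i₁ + j₂))
            * (ζ ^ ((r + 1) * i₂ + j₁) * c ^ (r * (r + 1 + 1))) := by
          rw [h4]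
      _ = ζ ^ ((r + 1) * i₂ + j₁ + (m - 1) * ((r + 1) * i₁ + j₂)) * c ^ (r * (r + 1 + 1)) := by
          rw [pow_add ζ ((r + 1) * i₂ + j₁)]; ring

/-- **Label algebra** in a domain. -/
theorem label_algebra_domain {ζ : K} {m : ℕ} (hm : 0 < m) (hζ : ζ ^ m = 1)
    {a b c : K} (hb : b ≠ 0) (hc : c ≠ 0) {q : ℕ} (hq : 0 < q) {i₁ i₂ j₁ j₂ : ℕ}
    (hα : ζ ^ i₁ * (a * b ^ (q - 1)) = ζ ^ i₂ * c ^ q)
    (hβ : ζ ^ j₂ * (c * b ^ (q - 1)) = ζ ^ j₁ * a ^ q) :
    a ^ ((q - 1) * (q + 1)) = ζ ^ ((q - 1) * (i₂ + j₂ + (m - 1) * (i₁ + j₁))) * c ^ ((q - 1) * (q + 1)) ∧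
    b ^ ((q - 1) * (q + 1)) = ζ ^ (q * i₂ + j₁ + (m - 1) * (q * i₁ + j₂)) * c ^ ((q - 1) * (q + 1)) := by
  obtain ⟨r, rfl⟩ : ∃ r, q = r + 1 := ⟨q - 1, (Nat.sub_add_cancel hq).symm⟩
  rw [Nat.add_sub_cancel] at hα hβ ⊢
  exact label_algebra_succ hm hζ hb hc hα hβ

end Algebra

section ModPrime

variable {R : Type*} [CommRing R]

/-- **Label algebra** modulo a prime ideal of `R`. -/
theorem label_algebra (𝔪 : Ideal R) [𝔪.IsPrime] {ζ : R} {m : ℕ} (hm : 0 < m) (hζ : ζ ^ m = 1)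
    {a b c : R} (hb : b ∉ 𝔪) (hc : c ∉ 𝔪) {q : ℕ} (hq : 0 < q) {i₁ i₂ j₁ j₂ : ℕ}
    (hα : ζ ^ i₁ * (a * b ^ (q - 1)) - ζ ^ i₂ * c ^ q ∈ 𝔪)
    (hβ : ζ ^ j₂ * (c * b ^ (q - 1)) - ζ ^ j₁ * a ^ q ∈ 𝔪) :
    a ^ ((q - 1) * (q + 1))
        - ζ ^ ((q - 1) * (i₂ + j₂ + (m - 1) * (i₁ + j₁))) * c ^ ((q - 1) * (q + 1)) ∈ 𝔪 ∧
    b ^ ((q - 1) * (q + 1))
        - ζ ^ (q * i₂ + j₁ + (m - 1) * (q * i₁ + j₂)) * c ^ ((q - 1) * (q + 1)) ∈ 𝔪 := by
  have key := label_algebra_domain (K := R ⧸ 𝔪) (ζ := Ideal.Quotient.mk 𝔪 ζ) hm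
    (by rw [← map_pow, hζ, map_one])
    (a := Ideal.Quotient.mk 𝔪 a) (b := Ideal.Quotient.mk 𝔪 b) (c := Ideal.Quotient.mk 𝔪 c)
    (fun h => hb (Ideal.Quotient.eq_zero_iff_mem.1 h))
    (fun h => hc (Ideal.Quotient.eq_zero_iff_mem.1 h)) hq (i₁ := i₁) (i₂ := i₂) (j₁ := j₁)
    (j₂ := j₂)
    (by
      have := (Ideal.Quotient.eq (I := 𝔪)).2 hα
      simpa only [map_mul, map_pow] using this)
    (by
      have := (Ideal.Quotient.eq (I := 𝔪)).2 hβ
      simpa only [map_mul, map_pow] using this)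
  constructor
  · apply (Ideal.Quotient.eq (I := 𝔪)).1
    simpa only [map_mul, map_pow] using key.1
  · apply (Ideal.Quotient.eq (I := 𝔪)).1
    simpa only [map_mul, map_pow] using key.2

end ModPrime

section LabelAt

variable {R : Type*} [CommRing R] {F : Type*} [Field F] [Algebra R F]

/-- a purity datum of `u` gives a purity datum of `u ^ c` -/
theorem pure_pow {B : Subalgebra R F} {u d : F} {m : ℕ} {a₀ s₀ : B}
    (hpure : u * d ^ m * (s₀ : F) = a₀) (c : ℕ) :
    u ^ c * (d ^ c) ^ m * ((s₀ ^ c : B) : F) = ((a₀ ^ c : B) : F) := by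
  push_cast
  rw [← hpure]
  ring

/-- **The label datum at a point on exactly one sheet.** -/
theorem labelAt_of_one {B : Subalgebra R F} {n : Ideal B} [n.IsPrime]
    {𝒱 : Set (ValuationSubring F)} {m : ℕ} (hm : 0 < m) {ζ : R} (hζ : ζ ^ m = 1)
    (κ : ValuationSubring F → ℕ) {V₀ : ValuationSubring F}
    (hone : ∀ V ∈ 𝒱, PassThrough B n V → V = V₀)
    (hBV₀ : ChartLe B V₀) (hthV₀ : PassThrough B n V₀)
    {u d : F} {a₀ s₀ : B} (hs₀ : s₀ ∉ n) (hpure : u * d ^ m * (s₀ : F) = a₀)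
    {η : R} (hη : algebraMap R B η ∉ n) (hval : ValAt B n V₀ d η) :
    LabelAt B n 𝒱 m u ζ κ := by
  have hd0 : d ≠ 0 := by
    rintro rfl
    exact hval.not_nonunits hBV₀ hthV₀ hη (vnu_zero V₀)
  refine ⟨d, a₀, s₀, η * ζ ^ κ V₀, hd0, hs₀, hpure, ?_, ?_⟩
  · intro h
    apply hη
    have h1 : algebraMap R B η = algebraMap R B (η * ζ ^ κ V₀) * algebraMap R B (ζ ^ ((m - 1) * κ V₀)) := by
      rw [← map_mul, mul_assoc, ← pow_add]
      have : κ V₀ + (m - 1) * κ V₀ = m * κ V₀ := by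
        have hm1 : m - 1 + 1 = m := Nat.sub_add_cancel hm
        calc κ V₀ + (m - 1) * κ V₀ = (m - 1 + 1) * κ V₀ := by ring
          _ = m * κ V₀ := by rw [hm1]
      rw [this, pow_mul, hζ, one_pow, mul_one]
    rw [h1]
    exact n.mul_mem_right _ h
  · intro V hV hth
    rw [hone V hV hth]
    have h1 : η * ζ ^ κ V₀ * ζ ^ ((m - 1) * κ V₀) = η := by
      rw [mul_assoc, ← pow_add]
      have : κ V₀ + (m - 1) * κ V₀ = m * κ V₀ := by
        have hm1 : m - 1 + 1 = m := Nat.sub_add_cancel hm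
        calc κ V₀ + (m - 1) * κ V₀ = (m - 1 + 1) * κ V₀ := by ring
          _ = m * κ V₀ := by rw [hm1]
      rw [this, pow_mul, hζ, one_pow, mul_one]
    rw [h1]
    exact hval

/-- **The label datum at a triple point**, for `u ^ c`, `c = (q - 1) (q + 1)`:
from the values of a purity datum of `u` along the three sheets and the two label equations. -/
theorem labelAt_of_three {B : Subalgebra R F} {n : Ideal B} [n.IsPrime]
    (𝔪 : Ideal R) [𝔪.IsPrime] (h𝔪n : ∀ r ∈ 𝔪, algebraMap R B r ∈ n)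
    {𝒱 : Set (ValuationSubring F)} {VFF Vmid VVV : ValuationSubring F}
    (h𝒱 : ∀ V ∈ 𝒱, V = VFF ∨ V = Vmid ∨ V = VVV)
    (hBFF : ChartLe B VFF) (hthFF : PassThrough B n VFF)
    (hBmid : ChartLe B Vmid) (hthmid : PassThrough B n Vmid)
    (hBVV : ChartLe B VVV) (hthVV : PassThrough B n VVV)
    {m : ℕ} (hm : 0 < m) {ζ : R} (hζ : ζ ^ m = 1) {q : ℕ} (hq : 0 < q) {i₁ i₂ j₁ j₂ : ℕ}
    (κ : ValuationSubring F → ℕ)
    (hκFF : ζ ^ ((m - 1) * κ VFF) = ζ ^ ((q - 1) * (i₂ + j₂ + (m - 1) * (i₁ + j₁))))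
    (hκmid : ζ ^ ((m - 1) * κ Vmid) = ζ ^ (q * i₂ + j₁ + (m - 1) * (q * i₁ + j₂)))
    (hκVV : ζ ^ ((m - 1) * κ VVV) = 1)
    {u d : F} {a₀ s₀ : B} (hs₀ : s₀ ∉ n) (hpure : u * d ^ m * (s₀ : F) = a₀)
    {ηFF ηmid ηVV : R} (hηmid : ηmid ∉ 𝔪) (hηVV : ηVV ∉ 𝔪) (hηVVn : algebraMap R B ηVV ∉ n)
    (hFF : ValAt B n VFF d ηFF) (hmid : ValAt B n Vmid d ηmid) (hVV : ValAt B n VVV d ηVV)
    (hα : ζ ^ i₁ * (ηFF * ηmid ^ (q - 1)) - ζ ^ i₂ * ηVV ^ q ∈ 𝔪)
    (hβ : ζ ^ j₂ * (ηVV * ηmid ^ (q - 1)) - ζ ^ j₁ * ηFF ^ q ∈ 𝔪) :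
    LabelAt B n 𝒱 m (u ^ ((q - 1) * (q + 1))) ζ κ := by
  obtain ⟨hA, hB⟩ := label_algebra 𝔪 hm hζ hηmid hηVV hq hα hβ
  set c := (q - 1) * (q + 1) with hc
  have hd0 : d ≠ 0 := by
    rintro rfl
    exact hVV.not_nonunits hBVV hthVV hηVVn (vnu_zero VVV)
  refine ⟨d ^ c, a₀ ^ c, s₀ ^ c, ηVV ^ c, pow_ne_zero _ hd0, ?_, pure_pow hpure c, ?_, ?_⟩
  · exact fun h => hs₀ (Ideal.IsPrime.mem_of_pow_mem ‹n.IsPrime› c h)
  · intro h
    rw [map_pow] at h
    exact hηVVn (Ideal.IsPrime.mem_of_pow_mem ‹n.IsPrime› c h)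
  · intro V hV _
    rcases h𝒱 V hV with rfl | rfl | rfl
    · refine (hFF.pow hBFF hthFF c).congr_const ?_
      rw [hκFF]
      have : ηFF ^ c - ηVV ^ c * ζ ^ ((q - 1) * (i₂ + j₂ + (m - 1) * (i₁ + j₁)))
          = ηFF ^ c - ζ ^ ((q - 1) * (i₂ + j₂ + (m - 1) * (i₁ + j₁))) * ηVV ^ c := by ring
      rw [this]
      exact h𝔪n _ hA
    · refine (hmid.pow hBmid hthmid c).congr_const ?_
      rw [hκmid]
      have : ηmid ^ c - ηVV ^ c * ζ ^ (q * i₂ + j₁ + (m - 1) * (q * i₁ + j₂))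
          = ηmid ^ c - ζ ^ (q * i₂ + j₁ + (m - 1) * (q * i₁ + j₂)) * ηVV ^ c := by ring
      rw [this]
      exact h𝔪n _ hB
    · refine (hVV.pow hBVV hthVV c).congr_const ?_
      rw [hκVV, mul_one, sub_self, map_zero]
      exact n.zero_mem

end LabelAt

end Fermat.Agent.S36.H630

end
-- ===== PACK-END S36/H630/LabAlg.lean

-- ===== PACK-BEGIN S28/H589/UnitGood.lean
section



/-!
# S28 / [A-W], analytic part 2 (helper589): the unit is good; its `q`-expansions

Same route as `[A-Φ]` (`ModPoly.lean`): helper648's conjugate product for the good function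
`u(τ) = p¹² Δ(pτ)/Δ(τ)` gives `W ∈ ℂ[Y][X]`, monic of degree `p + 1`, with
`W(u(τ), j(τ)) = 0` and `W(Δ(τ)/Δ(pτ), j(pτ)) = 0`; `descent` shows `W ∈ ℤ[Y][X]`.
-/

set_option autoImplicit false

noncomputable section

open UpperHalfPlane ModularCurve CongruenceSubgroup Function
open scoped MatrixGroups Manifold Real Modular

namespace Fermat.Agent.S28.H589

open Fermat.Agent.S28.H565 (HasTExp deltaSeriesC deltaInvSeriesC)
open Fermat.Agent.S24.H648 (goodRing ExpGrowth)

local notation "Δ" => ModularForm.discriminant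

/-! ### Analytic side -/

/-- For `γ ∈ Γ₀(p)` there is `γ' ∈ SL₂(ℤ)` with `γ' (pτ) = p (γ τ)` and the same automorphy
factor. -/
theorem exists_smul_scaleH (p : ℕ) (hp : 0 < p) (γ : SL(2, ℤ)) (hγ : γ ∈ Gamma0 p) :
    ∃ γ' : SL(2, ℤ), ∀ τ : ℍ, γ' • scaleH p hp τ = scaleH p hp (γ • τ) ∧
      ((γ' 1 0 : ℂ) * (scaleH p hp τ : ℂ) + (γ' 1 1 : ℂ)) = ((γ 1 0 : ℂ) * τ + (γ 1 1 : ℂ)) := by
  have hN : (p : ℤ) ∣ γ 1 0 := by
    rw [Gamma0_mem] at hγ
    exact (ZMod.intCast_zmod_eq_zero_iff_dvd _ _).mp hγ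
  obtain ⟨k, hk⟩ := hN
  have hdet : γ 0 0 * γ 1 1 - γ 0 1 * γ 1 0 = 1 := by
    have := γ.det_coe
    rw [Matrix.det_fin_two] at this
    exact this
  have hdet' : (!![γ 0 0, γ 0 1 * p; k, γ 1 1] : Matrix (Fin 2) (Fin 2) ℤ).det = 1 := by
    rw [Matrix.det_fin_two_of]
    rw [hk] at hdet
    linear_combination hdet
  set γ' : SL(2, ℤ) := ⟨!![γ 0 0, γ 0 1 * p; k, γ 1 1], hdet'⟩ with hγ'def
  have e00 : γ' 0 0 = γ 0 0 := rfl
  have e01 : γ' 0 1 = γ 0 1 * p := rfl
  have e10 : γ' 1 0 = k := rfl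
  have e11 : γ' 1 1 = γ 1 1 := rfl
  have hk' : ((γ 1 0 : ℤ) : ℂ) = p * k := by rw [hk]; push_cast; ring
  refine ⟨γ', fun τ => ⟨?_, ?_⟩⟩
  · apply UpperHalfPlane.ext
    rw [scaleH_coe, coe_specialLinearGroup_apply γ τ, coe_specialLinearGroup_apply γ' _,
      scaleH_coe, e00, e01, e10, e11]
    simp only [algebraMap_int_eq, Int.coe_castRingHom, Complex.ofReal_intCast]
    have hden : ((γ 1 0 : ℤ) : ℂ) * τ + ((γ 1 1 : ℤ) : ℂ) ≠ 0 := by
      have := denom_ne_zero (γ : GL (Fin 2) ℝ) τ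
      simpa [denom] using this
    have hd0 : (p : ℂ) ≠ 0 := by exact_mod_cast hp.ne'
    have hden' : (k : ℂ) * (p * τ) + ((γ 1 1 : ℤ) : ℂ) ≠ 0 := by
      have : (k : ℂ) * (p * τ) + ((γ 1 1 : ℤ) : ℂ)
          = ((γ 1 0 : ℤ) : ℂ) * τ + ((γ 1 1 : ℤ) : ℂ) := by
        rw [hk']; ring
      rw [this]; exact hden
    rw [div_eq_iff hden', mul_div_assoc', div_mul_eq_mul_div, eq_div_iff hden, hk']
    push_cast
    ring
  · rw [scaleH_coe, e10, e11, hk']
    ring

theorem unitFun_smul (p : ℕ) (hp : 0 < p) (γ : SL(2, ℤ)) (hγ : γ ∈ Gamma0 p) (τ : ℍ) :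
    unitFun p hp (γ • τ) = unitFun p hp τ := by
  obtain ⟨γ', hγ'⟩ := exists_smul_scaleH p hp γ hγ
  obtain ⟨h1, h2⟩ := hγ' τ
  have hd := Fermat.Agent.S28.H565.denom_ne_zero' γ τ
  have hΔ : Δ τ ≠ 0 := ModularForm.discriminant_ne_zero τ
  rw [unitFun, unitFun, ← h1, Fermat.Agent.S28.H565.discriminant_smul,
    Fermat.Agent.S28.H565.discriminant_smul, h2]
  have hz : ((γ 1 0 : ℂ) * τ + (γ 1 1 : ℂ)) ^ (12 : ℤ) ≠ 0 := zpow_ne_zero _ hd
  field_simp

theorem mdifferentiable_unitFun (p : ℕ) (hp : 0 < p) :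
    MDifferentiable 𝓘(ℂ) 𝓘(ℂ) (unitFun p hp) := by
  have h1 : MDifferentiable 𝓘(ℂ) 𝓘(ℂ) (fun τ : ℍ => Δ (scaleH p hp τ)) :=
    Fermat.Agent.S24.H648.mdifferentiable_J_scale
      Fermat.Agent.S28.H565.mdifferentiable_discriminant p hp (scaleH p hp) (fun τ => rfl)
  have h2 : MDifferentiable 𝓘(ℂ) 𝓘(ℂ) (fun τ : ℍ => (p : ℂ) ^ 12 * Δ (scaleH p hp τ)) :=
    (mdifferentiable_const (c := ((p : ℂ) ^ 12))).mul h1
  have h3 := h2.div Fermat.Agent.S28.H565.mdifferentiable_discriminant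
    (fun τ => ModularForm.discriminant_ne_zero τ)
  have he : unitFun p hp = (fun τ : ℍ => (p : ℂ) ^ 12 * Δ (scaleH p hp τ)) / Δ := by
    funext τ
    simp [unitFun, div_eq_mul_inv]
  rw [he]
  exact h3

theorem unitFun_mem_goodRing (p : ℕ) (hp : 0 < p) : unitFun p hp ∈ goodRing p :=
  ⟨mdifferentiable_unitFun p hp, fun γ hγ τ => unitFun_smul p hp γ hγ τ,
    fun g => expGrowth_unitFun_smul p hp g⟩

/-- The `S`-conjugate of the unit at `pτ` is `Δ(τ)/Δ(pτ)`. -/
theorem unitFun_S_scaleH (p : ℕ) (hp : 0 < p) (w : ℍ) :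
    unitFun p hp (ModularGroup.S • scaleH p hp w) = unitFun' p hp w := by
  have hw : (w : ℂ) ≠ 0 := UpperHalfPlane.ne_zero w
  have hp' : (p : ℂ) ≠ 0 := by exact_mod_cast hp.ne'
  have hΔ : Δ (scaleH p hp w) ≠ 0 := ModularForm.discriminant_ne_zero _
  rw [unitFun, unitFun', scaleH_S_scaleH, Fermat.Agent.S28.H565.discriminant_smul,
    Fermat.Agent.S28.H565.discriminant_smul, scaleH_coe]
  have e10 : ((ModularGroup.S 1 0 : ℤ) : ℂ) = 1 := by simp [ModularGroup.S]
  have e11 : ((ModularGroup.S 1 1 : ℤ) : ℂ) = 0 := by simp [ModularGroup.S]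
  rw [e10, e11]
  simp only [one_mul, add_zero]
  have h1 : (w : ℂ) ^ (12 : ℤ) ≠ 0 := zpow_ne_zero _ hw
  have h2 : ((p : ℂ) * (w : ℂ)) ^ (12 : ℤ) = (p : ℂ) ^ 12 * (w : ℂ) ^ (12 : ℤ) := by
    rw [mul_zpow]; norm_cast
  rw [h2]
  field_simp

/-! ### `q`-expansions -/

/-- The formal series of the unit over `ℂ`. -/
def unitSeriesC (p : ℕ) [NeZero p] : LaurentSeries ℂ :=
  HahnSeries.C ((p : ℂ) ^ 12) * qExpand ℂ p deltaSeriesC * deltaInvSeriesC

/-- The formal series of `Δ(τ)/Δ(pτ)` over `ℂ`. -/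
def unitSeriesC' (p : ℕ) [NeZero p] : LaurentSeries ℂ :=
  deltaSeriesC * qExpand ℂ p deltaInvSeriesC

theorem hasTExp_unitFun (p : ℕ) [NeZero p] (hp : 0 < p) :
    HasTExp 1 (unitFun p hp) (unitSeriesC p) := by
  have h1 := (HasTExp.const (h := 1) ((p : ℂ) ^ 12)).mul
    (hasTExp_comp_scaleH p hp Fermat.Agent.S28.H565.hasTExp_discriminant)
  have h2 := h1.mul Fermat.Agent.S28.H565.hasTExp_discriminant_inv
  exact h2.congr fun τ => by simp [unitFun]

theorem hasTExp_unitFun' (p : ℕ) [NeZero p] (hp : 0 < p) :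
    HasTExp 1 (unitFun' p hp) (unitSeriesC' p) := by
  have h1 := Fermat.Agent.S28.H565.hasTExp_discriminant.mul
    (hasTExp_comp_scaleH p hp Fermat.Agent.S28.H565.hasTExp_discriminant_inv)
  exact h1.congr fun τ => by simp [unitFun']

end Fermat.Agent.S28.H589

end

end
-- ===== PACK-END S28/H589/UnitGood.lean

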