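import Fermat.Prelude.Def_ModularCurve_HeckeModule
import Fermat.Agent.Pack.S36.E9L2
import Fermat.Agent.Pack.S36.E14L1
import Fermat.Agent.Pack.S36.E9L3
import Fermat.Agent.Pack.S36.E12L0
import Fermat.Agent.Pack.S36.E14L0
import Fermat.Agent.Pack.S36.E14L2
import Fermat.Agent.Pack.S36.E14L3
import Fermat.Agent.Pack.S36.E7L0
import Fermat.Agent.Pack.S36.E0L0
import Fermat.Agent.Pack.S36.E7L1
import Fermat.Agent.Pack.S36.E5L2
import Fermat.Agent.Pack.S36.E11L3
import Fermat.Agent.Pack.S36.E12L3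
import Fermat.Agent.Pack.S36.E6L1

-- ===== PACK-BEGIN S35/H991/Mid.lean
section
/-
S35 mid layer (helper991): `HasNewformEigenModules` (the input of the landed top glue
`Fermat.Agent.S35.H991.result_of`) from

* the inputs of row S30 in the unfolded lattice form used by row S34
  (`Fermat/Agent/S34/H789/Inputs.lean`): `hfin hsm hgeq hunr hes hlat`;
* `NewPartFrobStatement` (cell A2+): for `q ∥ M` there are two Hecke-equivariant additive maps
  `a b : J₀(M) → J₀(M/q)` (the two degeneracy push-forwards) such that every Frobenius lift `σ` at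
  `q` satisfies `(σ² - 1)(σ² - q²) = 0` on the torsion prime to `q` of the Galois-stable subgroup
  `{x | ∀ γ, a (γ x) = 0 ∧ b (γ x) = 0}` (the `q`-new part);
* `ExclTateStatement`: the eigensystem of a newform of level `M` does not occur in the
  `p`-adic Tate module of `J₀(M/q)`.

No case distinction ramified / unramified, no constants: see `coord/S35-helper991.md`.
-/





set_option autoImplicit false

namespace Fermat.Agent.S35.H991

open TensorProduct IsLocalRing Fermat.Agent.S30.H990 Fermat.Agent.S30.H529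

/-- **(A2+) Bad Frobenius on the `q`-new torsion.** -/
def NewPartFrobStatement : Prop :=
  ∀ (M q : ℕ) [NeZero M] [NeZero (M / q)], q.Prime → q ∣ M → ¬ q ^ 2 ∣ M →
    ∃ a b : ModularCurve.JZero M →+ ModularCurve.JZero (M / q),
      (∀ ℓ : Nat.Primes, ¬ (ℓ : ℕ) ∣ M → ∀ x : ModularCurve.JZero M,
        a (ModularCurve.heckeOperatorBar M ℓ x) = ModularCurve.heckeOperatorBar (M / q) ℓ (a x)) ∧
      (∀ ℓ : Nat.Primes, ¬ (ℓ : ℕ) ∣ M → ∀ x : ModularCurve.JZero M,
        b (ModularCurve.heckeOperatorBar M ℓ x) = ModularCurve.heckeOperatorBar (M / q) ℓ (b x)) ∧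
      ∀ A : ValuationSubring (AlgebraicClosure ℚ), A.LiesOverPrime q →
        ∀ σ : GQ, A.IsFrobeniusAt σ q →
          ∀ m : ℕ, ¬ q ∣ m → ∀ x : ModularCurve.JZero M, m • x = 0 →
            (∀ γ : GQ, a (γ • x) = 0 ∧ b (γ • x) = 0) →
            σ • σ • σ • σ • x - (1 + (q : ℤ) ^ 2) • (σ • σ • x) + ((q : ℤ) ^ 2) • x = 0

/-- **(X) Exclusion.**  The eigensystem of a newform of level `M` does not occur in the `p`-adic
Tate module of `J₀(M / q)`, `q ∣ M` prime. -/
def ExclTateStatement : Prop :=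
  ∀ (M : ℕ) [NeZero M] (g : CuspForm (CongruenceSubgroup.Gamma0 M) 2), g.IsNewform →
    ∀ (q : ℕ) [NeZero (M / q)], q.Prime → q ∣ M →
    ∀ (p : ℕ) [Fact p.Prime] (S : Finset ℕ)
      (O' : Type) [CommRing O'] [IsDomain O'] [IsDiscreteValuationRing O']
      [IsAdicComplete (IsLocalRing.maximalIdeal O') O'] [Finite (IsLocalRing.ResidueField O')]
      [CharZero O'] (_hpO' : (p : O') ∈ IsLocalRing.maximalIdeal O')
      (chig : CuspForm.heckeAlgebra M 2 (↑S : Set ℕ) →+* ℂ)
      (_hchig : ∀ (ℓ : ℕ) (hℓ : ℓ.Prime) (hℓM : ¬ ℓ ∣ M) (hℓS : ℓ ∉ (↑S : Set ℕ)),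
        chig (CuspForm.heckeAlgebra.T hℓ hℓM hℓS) = ModularFormClass.qCoeff g ℓ)
      (iota : chig.range →+* O')
      (_hpS : p ∈ S) (_hMS : ∀ r : ℕ, r.Prime → r ∣ M → r ∈ S)
      (z : ℕ → O' ⊗[ℤ] ModularCurve.JZero (M / q)),
      (p : O') • z 0 = 0 → (∀ n, (p : O') • z (n + 1) = z n) →
      (∀ (ℓ : ℕ) (hℓ : ℓ.Prime) (hℓM : ¬ ℓ ∣ M) (hℓS : ℓ ∉ (↑S : Set ℕ)) (n : ℕ),
        (ModularCurve.heckeOperatorBar (M / q) ⟨ℓ, hℓ⟩).baseChange O' (z n)
          = (iota.comp chig.rangeRestrict) (CuspForm.heckeAlgebra.T hℓ hℓM hℓS) • z n) →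
      z = 0

/-- **The newform eigenmodules from the inputs of row S30, (A2+) and (X).** -/
theorem hasNewformEigenModules_of_inputs
    (hfin : ∀ (N p : ℕ) [NeZero N], p.Prime →
      Finite {x : ModularCurve.JZero N // (p : ℤ) • x = 0})
    (hsm : ∀ (N p : ℕ) [NeZero N], ∀ x : ModularCurve.JZero N,
      (∃ n : ℕ, ((p : ℤ) ^ n) • x = 0) →
        ∃ L : IntermediateField ℚ (AlgebraicClosure ℚ), FiniteDimensional ℚ L ∧
          ∀ σ : GQ, (∀ y ∈ L, σ y = y) → σ • x = x)
    (hgeq : ∀ (N : ℕ) [NeZero N] (ℓ : Nat.Primes) (σ : GQ) (x : ModularCurve.JZero N),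
      ModularCurve.heckeOperatorBar N ℓ (σ • x) = σ • ModularCurve.heckeOperatorBar N ℓ x)
    (hunr : ∀ (N p : ℕ) [NeZero N], ∀ q : ℕ, q.Prime → ¬ q ∣ N * p →
      ∀ A : ValuationSubring (AlgebraicClosure ℚ), A.LiesOverPrime q →
        ∀ σ ∈ A.inertiaSubgroupIn ℚ, ∀ x : ModularCurve.JZero N,
          (∃ n : ℕ, ((p : ℤ) ^ n) • x = 0) → σ • x = x)
    (hes : ∀ (N p : ℕ) [NeZero N], ∀ (ℓ : ℕ) (hℓ : ℓ.Prime), ¬ ℓ ∣ N * p →
      ∀ A : ValuationSubring (AlgebraicClosure ℚ), A.LiesOverPrime ℓ →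
        ∀ σ : GQ, A.IsFrobeniusAt σ ℓ → ∀ x : ModularCurve.JZero N,
          (∃ n : ℕ, ((p : ℤ) ^ n) • x = 0) →
            σ • σ • x - ModularCurve.heckeOperatorBar N ⟨ℓ, hℓ⟩ (σ • x) + (ℓ : ℤ) • x = 0)
    (hlat : ∀ (N p : ℕ) [NeZero N], p.Prime →
      ∃ (Λ : Type) (_ : AddCommGroup Λ) (_ : Module.Free ℤ Λ) (_ : Module.Finite ℤ Λ)
        (TΛ : Nat.Primes → Λ →ₗ[ℤ] Λ) (κ : ℕ → Λ →ₗ[ℤ] ModularCurve.JZero N),
        (∀ (n : ℕ) (x : Λ), κ n x = 0 ↔ ∃ y : Λ, x = ((p : ℤ) ^ n) • y) ∧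
        (∀ (n : ℕ) (x : Λ), (p : ℤ) • κ (n + 1) x = κ n x) ∧
        (∀ ℓ : Nat.Primes, ¬ (ℓ : ℕ) ∣ N * p → ∀ (n : ℕ) (x : Λ),
          κ n (TΛ ℓ x) = ModularCurve.heckeOperatorBar N ℓ (κ n x)) ∧
        (∀ (S : Set ℕ) (R : Type) [CommRing R] [IsDomain R] [CharZero R]
          (χ : CuspForm.heckeAlgebra N 2 S →+* R),
          ∃ v : R ⊗[ℤ] Λ, v ≠ 0 ∧
            ∀ (ℓ : ℕ) (hℓ : ℓ.Prime) (hℓN : ¬ ℓ ∣ N) (hℓS : ℓ ∉ S),
              (TΛ ⟨ℓ, hℓ⟩).baseChange R v = χ (CuspForm.heckeAlgebra.T hℓ hℓN hℓS) • v))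
    (hG : NewPartFrobStatement) (hX : ExclTateStatement) :
    HasNewformEigenModules := by
  classical
  intro M _ g hg p _ S O' _ _ _ _ _ _ hpO' chig hchig iota hpS hMS
  have hp : p.Prime := Fact.out
  set χ : CuspForm.heckeAlgebra M 2 (↑S : Set ℕ) →+* O' := iota.comp chig.rangeRestrict with hχ
  obtain ⟨Λ, i1, i2, i3, TΛ, κ, hκ0, hκs, hκT, hocc⟩ := hlat M p hp
  obtain ⟨v, hv, hva⟩ := hocc (↑S : Set ℕ) O' χ
  -- good primes
  have hNp : ∀ ℓ : ℕ, ℓ.Prime → ¬ ℓ ∣ M → ℓ ≠ p → ¬ ℓ ∣ M * p := by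
    intro ℓ hℓ hℓN hℓp h
    rcases (Nat.Prime.dvd_mul hℓ).1 h with h | h
    · exact hℓN h
    · exact hℓp ((Nat.prime_dvd_prime_iff_eq hℓ hp).1 h)
  have hιp : ∀ i : {ℓ : Nat.Primes // ¬ (ℓ : ℕ) ∣ M ∧ (ℓ : ℕ) ∉ (↑S : Set ℕ)},
      ((i.1 : Nat.Primes) : ℕ) ≠ p := by
    intro i h
    exact i.2.2 (by rw [h]; exact hpS)
  -- conversions between `ℤ`- and `ℕ`-torsion
  have hpow : ∀ (N : ℕ) (n : ℕ) (x : ModularCurve.JZero N),
      ((p : ℤ) ^ n) • x = p ^ n • x := by
    intro N n x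
    rw [← Nat.cast_pow, natCast_zsmul]
  -- the operators
  let T : {ℓ : Nat.Primes // ¬ (ℓ : ℕ) ∣ M ∧ (ℓ : ℕ) ∉ (↑S : Set ℕ)} →
      ModularCurve.JZero M →+ ModularCurve.JZero M :=
    fun i => (ModularCurve.heckeOperatorBar M i.1).toAddMonoidHom
  let a : {ℓ : Nat.Primes // ¬ (ℓ : ℕ) ∣ M ∧ (ℓ : ℕ) ∉ (↑S : Set ℕ)} → O' :=
    fun i => χ (CuspForm.heckeAlgebra.T i.1.2 i.2.1 i.2.2)
  have hT' : ∀ i, (T i).toIntLinearMap = ModularCurve.heckeOperatorBar M i.1 :=
    fun i => LinearMap.ext fun _ => rfl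
  have hfin' : {x : ModularCurve.JZero M | p • x = 0}.Finite := by
    have h1 : {x : ModularCurve.JZero M | (p : ℤ) • x = 0}.Finite :=
      Set.finite_coe_iff.mp (hfin M p hp)
    refine h1.subset fun x hx => ?_
    show (p : ℤ) • x = 0
    rw [natCast_zsmul]
    exact hx
  -- the Kummer sequence (as in `S30.H649.exists_adicFrobModule_of_lattice`)
  have hκzero : ∀ w : O' ⊗[ℤ] Λ, (κ 0).baseChange O' w = 0 := by
    have h0 : κ 0 = 0 := by
      apply LinearMap.ext
      intro x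
      rw [LinearMap.zero_apply, hκ0 0 x]
      exact ⟨x, by rw [pow_zero, one_smul]⟩
    intro w
    rw [h0, LinearMap.baseChange_zero, LinearMap.zero_apply]
  have hκsucc : ∀ (n : ℕ) (w : O' ⊗[ℤ] Λ),
      (p : O') • (κ (n + 1)).baseChange O' w = (κ n).baseChange O' w := by
    intro n w
    have h1 : (p : ℤ) • κ (n + 1) = κ n := LinearMap.ext fun x => hκs n x
    have h2 : ((p : ℤ) : O') • (κ (n + 1)).baseChange O' w
        = (p : ℤ) • (κ (n + 1)).baseChange O' w := Fermat.Agent.S30.H649.intCast_smul_tensor _ _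
    rw [Int.cast_natCast] at h2
    rw [h2, ← LinearMap.smul_apply, ← LinearMap.baseChange_smul, h1]
  obtain ⟨n₀, hn₀⟩ := Fermat.Agent.S30.H649.exists_baseChange_ne_zero (𝒪 := O') hpO' κ hκ0 v hv
  obtain ⟨m₀, rfl⟩ : ∃ m₀, n₀ = m₀ + 1 := by
    cases n₀ with
    | zero => exact absurd (hκzero v) hn₀
    | succ m => exact ⟨m, rfl⟩
  let seq : ℕ → O' ⊗[ℤ] ModularCurve.JZero M := fun n => (κ (n + 1)).baseChange O' v
  have hseq0 : (p : O') • seq 0 = 0 := by
    show (p : O') • (κ (0 + 1)).baseChange O' v = 0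
    rw [hκsucc 0 v, hκzero v]
  have hseqs : ∀ n, (p : O') • seq (n + 1) = seq n := fun n => hκsucc (n + 1) v
  have hseqne : seq ≠ 0 := fun h => hn₀ (congrFun h m₀)
  have hseqeig : ∀ i n, tensorOp O' T i (seq n) = a i • seq n := by
    intro i n
    show ((T i).toIntLinearMap.baseChange O') ((κ (n + 1)).baseChange O' v)
      = a i • (κ (n + 1)).baseChange O' v
    have h1 : ModularCurve.heckeOperatorBar M i.1 ∘ₗ κ (n + 1) = κ (n + 1) ∘ₗ TΛ i.1 :=
      LinearMap.ext fun x => (hκT i.1 (hNp _ i.1.2 i.2.1 (hιp i)) (n + 1) x).symm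
    have hva' : (TΛ i.1).baseChange O' v = a i • v := hva i.1 i.1.2 i.2.1 i.2.2
    rw [hT' i, ← LinearMap.comp_apply, ← LinearMap.baseChange_comp, h1,
      LinearMap.baseChange_comp, LinearMap.comp_apply, hva', map_smul]
  -- the degeneracy maps at the primes `q ∥ M`, `q ≠ p`
  let Q : Type := {q : ℕ // q.Prime ∧ q ≠ p ∧ q ∣ M ∧ ¬ q ^ 2 ∣ M}
  have hne0 : ∀ q : Q, NeZero (M / q.1) := by
    intro q
    refine ⟨?_⟩
    have hM : M ≠ 0 := NeZero.ne M
    intro h0
    have h1 := Nat.div_mul_cancel q.2.2.2.1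
    rw [h0, zero_mul] at h1
    exact hM h1.symm
  have hab : ∀ q : Q, ∃ a b : ModularCurve.JZero M →+ ModularCurve.JZero (M / q.1),
      (∀ ℓ : Nat.Primes, ¬ (ℓ : ℕ) ∣ M → ∀ x : ModularCurve.JZero M,
        a (ModularCurve.heckeOperatorBar M ℓ x)
          = @ModularCurve.heckeOperatorBar (M / q.1) (hne0 q) ℓ (a x)) ∧
      (∀ ℓ : Nat.Primes, ¬ (ℓ : ℕ) ∣ M → ∀ x : ModularCurve.JZero M,
        b (ModularCurve.heckeOperatorBar M ℓ x)
          = @ModularCurve.heckeOperatorBar (M / q.1) (hne0 q) ℓ (b x)) ∧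
      ∀ A : ValuationSubring (AlgebraicClosure ℚ), A.LiesOverPrime q.1 →
        ∀ σ : GQ, A.IsFrobeniusAt σ q.1 →
          ∀ m : ℕ, ¬ q.1 ∣ m → ∀ x : ModularCurve.JZero M, m • x = 0 →
            (∀ γ : GQ, a (γ • x) = 0 ∧ b (γ • x) = 0) →
            σ • σ • σ • σ • x - (1 + (q.1 : ℤ) ^ 2) • (σ • σ • x) + ((q.1 : ℤ) ^ 2) • x = 0 :=
    fun q => @hG M q.1 _ (hne0 q) q.2.1 q.2.2.2.1 q.2.2.2.2
  choose da db hda hdb hfrobq using hab
  let J' : Q × Bool → Type := fun c => ModularCurve.JZero (M / c.1.1)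
  let f : ∀ c : Q × Bool, ModularCurve.JZero M →+ J' c := fun c =>
    match c with
    | (q, true) => da q
    | (q, false) => db q
  let T'' : ∀ c : Q × Bool, {ℓ : Nat.Primes // ¬ (ℓ : ℕ) ∣ M ∧ (ℓ : ℕ) ∉ (↑S : Set ℕ)} →
      J' c →+ J' c :=
    fun c i => (@ModularCurve.heckeOperatorBar (M / c.1.1) (hne0 c.1) i.1).toAddMonoidHom
  have hf : ∀ (c : Q × Bool) (i : {ℓ : Nat.Primes // ¬ (ℓ : ℕ) ∣ M ∧ (ℓ : ℕ) ∉ (↑S : Set ℕ)})
      (x : ModularCurve.JZero M), f c (T i x) = T'' c i (f c x) := by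
    rintro ⟨q, b⟩ i x
    cases b with
    | true => exact hda q i.1 i.2.1 x
    | false => exact hdb q i.1 i.2.1 x
  have hexcl : ∀ (c : Q × Bool) (z : ℕ → O' ⊗[ℤ] J' c), (p : O') • z 0 = 0 →
      (∀ n, (p : O') • z (n + 1) = z n) →
      (∀ i n, tensorOp O' (T'' c) i (z n) = a i • z n) → z = 0 := by
    intro c z hz0 hzs hzeig
    exact @hX M _ g hg c.1.1 (hne0 c.1) c.1.2.1 c.1.2.2.2.1 p _ S O' _ _ _ _ _ _ hpO' chig hchig
      iota hpS hMS z hz0 hzs (fun ℓ hℓ hℓM hℓS n => hzeig ⟨⟨ℓ, hℓ⟩, hℓM, hℓS⟩ n)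
  -- the eigenmodule of the new part
  obtain ⟨E, j1, j2, j3, j4, ρ, hnt, hcont, hone, hquad, hquadZ⟩ :=
    exists_adic_eigenmodule_new (O := O') hpO' hp.ne_zero (J := ModularCurve.JZero M) T a
      (fun i γ x => hgeq M i.1 γ x) hfin'
      (fun x hx => hsm M p x (by
        obtain ⟨n, hn⟩ := hx
        exact ⟨n, by rw [hpow]; exact hn⟩))
      T'' f hf hexcl seq hseq0 hseqs hseqne hseqeig
  refine ⟨{ M := E
            ρ := ρ
            cont := hcont
            unram := fun q hq hqN hqp P hP σ hσ =>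
              hone σ fun x hx _ => hunr M p q hq (hNp q hq hqN hqp) P hP σ hσ x (by
                obtain ⟨n, hn⟩ := hx
                exact ⟨n, by rw [hpow]; exact hn⟩)
            frob := fun ℓ hℓ hℓN hℓS A hA σ hσ => by
              have hℓp : ℓ ≠ p := fun h => hℓS (Finset.mem_coe.mpr (h ▸ hpS))
              have h := hquad σ ⟨⟨ℓ, hℓ⟩, hℓN, hℓS⟩ ((ℓ : ℕ) : ℤ)
                (fun x hx _ => hes M p ℓ hℓ (hNp ℓ hℓ hℓN hℓp) A hA σ hσ x (by
                  obtain ⟨n, hn⟩ := hx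
                  exact ⟨n, by rw [hpow]; exact hn⟩))
              simpa using h }, ?_⟩
  -- the bad-Frobenius relation
  intro q hq hqp hqM hq2 A hA σ hσ
  have hqpn : ∀ n : ℕ, ¬ q ∣ p ^ n := by
    intro n h
    exact hqp ((Nat.prime_dvd_prime_iff_eq hq hp).1 (hq.dvd_of_dvd_pow h))
  have hrel := hquadZ (σ * σ) (1 + (q : ℤ) ^ 2) ((q : ℤ) ^ 2) (by
    rintro x ⟨n, hn⟩ hnew
    have h1 := hfrobq ⟨q, hq, hqp, hqM, hq2⟩ A hA σ hσ (p ^ n) (hqpn n) x hn
      (fun γ => ⟨hnew γ (⟨q, hq, hqp, hqM, hq2⟩, true), hnew γ (⟨q, hq, hqp, hqM, hq2⟩, false)⟩)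
    rw [mul_smul, mul_smul]
    exact h1)
  intro w
  have h2 := congrArg (fun F : Module.End O' E => F w) hrel
  simp only [map_mul, LinearMap.add_apply, LinearMap.sub_apply, LinearMap.smul_apply,
    Module.End.mul_apply, Module.End.one_apply, LinearMap.zero_apply] at h2
  have h3 : ((1 + (q : ℤ) ^ 2 : ℤ) : O') = 1 + (q : O') ^ 2 := by push_cast; ring
  have h4 : (((q : ℤ) ^ 2 : ℤ) : O') = (q : O') ^ 2 := by push_cast; ring
  rw [h3, h4] at h2
  exact h2

end Fermat.Agent.S35.H991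

end
-- ===== PACK-END S35/H991/Mid.lean

-- ===== PACK-BEGIN S36/H36/Mid.lean
section
/-
S36 mid layer (helper36): `HasNewformEigenModulesNoInv` (the input of the top glue
`Fermat.Agent.S36.H36.result_of`) from

* the inputs of row S30 in the unfolded lattice form used by rows S34 / S35
  (`Fermat/Agent/S34/H789/Inputs.lean`): `hfin hsm hgeq hunr hes hlat`;
* `NewPartInertiaStatement` (the Carayol ENGINE at `q² ∥ M`): there are two Hecke-equivariant
  additive maps `a b : J₀(M) → J₀(M/q)` (the two degeneracy push-forwards) such that, for every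
  prime `p ≠ q` and every place `A` over `q`, the `I_A`-fixed part of the `p`-power torsion of
  the Galois-stable subgroup `{x | ∀ γ, a (γ x) = 0 ∧ b (γ x) = 0}` (the `q`-new part) is
  BOUNDED (killed by some `p ^ k`);
* `S35.H991.ExclTateStatement` (shared with row S35): the eigensystem of a newform of level `M`
  does not occur in the `p`-adic Tate module of `J₀(M/q)`.

The proof is helper991's S35 mid layer with the bad-Frobenius transfer replaced by the
no-invariants transfer of `NewInv.lean`.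
-/




set_option autoImplicit false

namespace Fermat.Agent.S36.H36

open TensorProduct IsLocalRing Fermat.Agent.S30.H990 Fermat.Agent.S30.H529
  Fermat.Agent.S35.H991

/-- **(N) The Carayol engine: bounded inertia invariants on the `q`-new torsion, `q² ∥ M`.** -/
def NewPartInertiaStatement : Prop :=
  ∀ (M q : ℕ) [NeZero M] [NeZero (M / q)], q.Prime → M.factorization q = 2 →
    ∃ a b : ModularCurve.JZero M →+ ModularCurve.JZero (M / q),
      (∀ ℓ : Nat.Primes, ¬ (ℓ : ℕ) ∣ M → ∀ x : ModularCurve.JZero M,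
        a (ModularCurve.heckeOperatorBar M ℓ x) = ModularCurve.heckeOperatorBar (M / q) ℓ (a x)) ∧
      (∀ ℓ : Nat.Primes, ¬ (ℓ : ℕ) ∣ M → ∀ x : ModularCurve.JZero M,
        b (ModularCurve.heckeOperatorBar M ℓ x) = ModularCurve.heckeOperatorBar (M / q) ℓ (b x)) ∧
      ∀ p : ℕ, p.Prime → p ≠ q →
        ∀ A : ValuationSubring (AlgebraicClosure ℚ), A.LiesOverPrime q →
          ∃ k : ℕ, ∀ x : ModularCurve.JZero M, (∃ n : ℕ, p ^ n • x = 0) →
            (∀ γ : GQ, a (γ • x) = 0 ∧ b (γ • x) = 0) →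
            (∀ τ ∈ A.inertiaSubgroupIn ℚ, τ • x = x) → p ^ k • x = 0

theorem dvd_of_factorization_eq_two {M q : ℕ} (h : M.factorization q = 2) : q ∣ M :=
  Nat.dvd_of_factorization_pos (by rw [h]; exact two_ne_zero)

set_option maxHeartbeats 1600000 in
/-- **The newform eigenmodules without inertia invariants from the inputs of row S30, the
engine (N) and the exclusion (X).** -/
theorem hasNewformEigenModulesNoInv_of_inputs
    (hfin : ∀ (N p : ℕ) [NeZero N], p.Prime →
      Finite {x : ModularCurve.JZero N // (p : ℤ) • x = 0})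
    (hsm : ∀ (N p : ℕ) [NeZero N], ∀ x : ModularCurve.JZero N,
      (∃ n : ℕ, ((p : ℤ) ^ n) • x = 0) →
        ∃ L : IntermediateField ℚ (AlgebraicClosure ℚ), FiniteDimensional ℚ L ∧
          ∀ σ : GQ, (∀ y ∈ L, σ y = y) → σ • x = x)
    (hgeq : ∀ (N : ℕ) [NeZero N] (ℓ : Nat.Primes) (σ : GQ) (x : ModularCurve.JZero N),
      ModularCurve.heckeOperatorBar N ℓ (σ • x) = σ • ModularCurve.heckeOperatorBar N ℓ x)
    (hunr : ∀ (N p : ℕ) [NeZero N], ∀ q : ℕ, q.Prime → ¬ q ∣ N * p →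
      ∀ A : ValuationSubring (AlgebraicClosure ℚ), A.LiesOverPrime q →
        ∀ σ ∈ A.inertiaSubgroupIn ℚ, ∀ x : ModularCurve.JZero N,
          (∃ n : ℕ, ((p : ℤ) ^ n) • x = 0) → σ • x = x)
    (hes : ∀ (N p : ℕ) [NeZero N], ∀ (ℓ : ℕ) (hℓ : ℓ.Prime), ¬ ℓ ∣ N * p →
      ∀ A : ValuationSubring (AlgebraicClosure ℚ), A.LiesOverPrime ℓ →
        ∀ σ : GQ, A.IsFrobeniusAt σ ℓ → ∀ x : ModularCurve.JZero N,
          (∃ n : ℕ, ((p : ℤ) ^ n) • x = 0) →
            σ • σ • x - ModularCurve.heckeOperatorBar N ⟨ℓ, hℓ⟩ (σ • x) + (ℓ : ℤ) • x = 0)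
    (hlat : ∀ (N p : ℕ) [NeZero N], p.Prime →
      ∃ (Λ : Type) (_ : AddCommGroup Λ) (_ : Module.Free ℤ Λ) (_ : Module.Finite ℤ Λ)
        (TΛ : Nat.Primes → Λ →ₗ[ℤ] Λ) (κ : ℕ → Λ →ₗ[ℤ] ModularCurve.JZero N),
        (∀ (n : ℕ) (x : Λ), κ n x = 0 ↔ ∃ y : Λ, x = ((p : ℤ) ^ n) • y) ∧
        (∀ (n : ℕ) (x : Λ), (p : ℤ) • κ (n + 1) x = κ n x) ∧
        (∀ ℓ : Nat.Primes, ¬ (ℓ : ℕ) ∣ N * p → ∀ (n : ℕ) (x : Λ),
          κ n (TΛ ℓ x) = ModularCurve.heckeOperatorBar N ℓ (κ n x)) ∧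
        (∀ (S : Set ℕ) (R : Type) [CommRing R] [IsDomain R] [CharZero R]
          (χ : CuspForm.heckeAlgebra N 2 S →+* R),
          ∃ v : R ⊗[ℤ] Λ, v ≠ 0 ∧
            ∀ (ℓ : ℕ) (hℓ : ℓ.Prime) (hℓN : ¬ ℓ ∣ N) (hℓS : ℓ ∉ S),
              (TΛ ⟨ℓ, hℓ⟩).baseChange R v = χ (CuspForm.heckeAlgebra.T hℓ hℓN hℓS) • v))
    (hN : NewPartInertiaStatement) (hX : ExclTateStatement) :
    HasNewformEigenModulesNoInv := by
  classical
  intro M _ g hg p _ S O' _ _ _ _ _ _ hpO' chig hchig iota hpS hMS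
  have hp : p.Prime := Fact.out
  set χ : CuspForm.heckeAlgebra M 2 (↑S : Set ℕ) →+* O' := iota.comp chig.rangeRestrict with hχ
  obtain ⟨Λ, i1, i2, i3, TΛ, κ, hκ0, hκs, hκT, hocc⟩ := hlat M p hp
  obtain ⟨v, hv, hva⟩ := hocc (↑S : Set ℕ) O' χ
  -- good primes
  have hNp : ∀ ℓ : ℕ, ℓ.Prime → ¬ ℓ ∣ M → ℓ ≠ p → ¬ ℓ ∣ M * p := by
    intro ℓ hℓ hℓN hℓp h
    rcases (Nat.Prime.dvd_mul hℓ).1 h with h | h
    · exact hℓN h
    · exact hℓp ((Nat.prime_dvd_prime_iff_eq hℓ hp).1 h)
  have hιp : ∀ i : {ℓ : Nat.Primes // ¬ (ℓ : ℕ) ∣ M ∧ (ℓ : ℕ) ∉ (↑S : Set ℕ)},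
      ((i.1 : Nat.Primes) : ℕ) ≠ p := by
    intro i h
    exact i.2.2 (by rw [h]; exact hpS)
  -- conversions between `ℤ`- and `ℕ`-torsion
  have hpow : ∀ (N : ℕ) (n : ℕ) (x : ModularCurve.JZero N),
      ((p : ℤ) ^ n) • x = p ^ n • x := by
    intro N n x
    rw [← Nat.cast_pow, natCast_zsmul]
  -- the operators
  let T : {ℓ : Nat.Primes // ¬ (ℓ : ℕ) ∣ M ∧ (ℓ : ℕ) ∉ (↑S : Set ℕ)} →
      ModularCurve.JZero M →+ ModularCurve.JZero M :=
    fun i => (ModularCurve.heckeOperatorBar M i.1).toAddMonoidHom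
  let a : {ℓ : Nat.Primes // ¬ (ℓ : ℕ) ∣ M ∧ (ℓ : ℕ) ∉ (↑S : Set ℕ)} → O' :=
    fun i => χ (CuspForm.heckeAlgebra.T i.1.2 i.2.1 i.2.2)
  have hT' : ∀ i, (T i).toIntLinearMap = ModularCurve.heckeOperatorBar M i.1 :=
    fun i => LinearMap.ext fun _ => rfl
  have hfin' : {x : ModularCurve.JZero M | p • x = 0}.Finite := by
    have h1 : {x : ModularCurve.JZero M | (p : ℤ) • x = 0}.Finite :=
      Set.finite_coe_iff.mp (hfin M p hp)
    refine h1.subset fun x hx => ?_
    show (p : ℤ) • x = 0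
    rw [natCast_zsmul]
    exact hx
  -- the Kummer sequence (as in `S30.H649.exists_adicFrobModule_of_lattice`)
  have hκzero : ∀ w : O' ⊗[ℤ] Λ, (κ 0).baseChange O' w = 0 := by
    have h0 : κ 0 = 0 := by
      apply LinearMap.ext
      intro x
      rw [LinearMap.zero_apply, hκ0 0 x]
      exact ⟨x, by rw [pow_zero, one_smul]⟩
    intro w
    rw [h0, LinearMap.baseChange_zero, LinearMap.zero_apply]
  have hκsucc : ∀ (n : ℕ) (w : O' ⊗[ℤ] Λ),
      (p : O') • (κ (n + 1)).baseChange O' w = (κ n).baseChange O' w := by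
    intro n w
    have h1 : (p : ℤ) • κ (n + 1) = κ n := LinearMap.ext fun x => hκs n x
    have h2 : ((p : ℤ) : O') • (κ (n + 1)).baseChange O' w
        = (p : ℤ) • (κ (n + 1)).baseChange O' w := Fermat.Agent.S30.H649.intCast_smul_tensor _ _
    rw [Int.cast_natCast] at h2
    rw [h2, ← LinearMap.smul_apply, ← LinearMap.baseChange_smul, h1]
  obtain ⟨n₀, hn₀⟩ := Fermat.Agent.S30.H649.exists_baseChange_ne_zero (𝒪 := O') hpO' κ hκ0 v hv
  obtain ⟨m₀, rfl⟩ : ∃ m₀, n₀ = m₀ + 1 := by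
    cases n₀ with
    | zero => exact absurd (hκzero v) hn₀
    | succ m => exact ⟨m, rfl⟩
  let seq : ℕ → O' ⊗[ℤ] ModularCurve.JZero M := fun n => (κ (n + 1)).baseChange O' v
  have hseq0 : (p : O') • seq 0 = 0 := by
    show (p : O') • (κ (0 + 1)).baseChange O' v = 0
    rw [hκsucc 0 v, hκzero v]
  have hseqs : ∀ n, (p : O') • seq (n + 1) = seq n := fun n => hκsucc (n + 1) v
  have hseqne : seq ≠ 0 := fun h => hn₀ (congrFun h m₀)
  have hseqeig : ∀ i n, tensorOp O' T i (seq n) = a i • seq n := by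
    intro i n
    show ((T i).toIntLinearMap.baseChange O') ((κ (n + 1)).baseChange O' v)
      = a i • (κ (n + 1)).baseChange O' v
    have h1 : ModularCurve.heckeOperatorBar M i.1 ∘ₗ κ (n + 1) = κ (n + 1) ∘ₗ TΛ i.1 :=
      LinearMap.ext fun x => (hκT i.1 (hNp _ i.1.2 i.2.1 (hιp i)) (n + 1) x).symm
    have hva' : (TΛ i.1).baseChange O' v = a i • v := hva i.1 i.1.2 i.2.1 i.2.2
    rw [hT' i, ← LinearMap.comp_apply, ← LinearMap.baseChange_comp, h1,
      LinearMap.baseChange_comp, LinearMap.comp_apply, hva', map_smul]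
  -- the degeneracy maps at the primes `q² ∥ M`, `q ≠ p`
  let Q : Type := {q : ℕ // q.Prime ∧ q ≠ p ∧ M.factorization q = 2}
  have hQdvd : ∀ q : Q, q.1 ∣ M := fun q => dvd_of_factorization_eq_two q.2.2.2
  have hne0 : ∀ q : Q, NeZero (M / q.1) := by
    intro q
    refine ⟨?_⟩
    have hM : M ≠ 0 := NeZero.ne M
    intro h0
    have h1 := Nat.div_mul_cancel (hQdvd q)
    rw [h0, zero_mul] at h1
    exact hM h1.symm
  have hab : ∀ q : Q, ∃ a b : ModularCurve.JZero M →+ ModularCurve.JZero (M / q.1),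
      (∀ ℓ : Nat.Primes, ¬ (ℓ : ℕ) ∣ M → ∀ x : ModularCurve.JZero M,
        a (ModularCurve.heckeOperatorBar M ℓ x)
          = @ModularCurve.heckeOperatorBar (M / q.1) (hne0 q) ℓ (a x)) ∧
      (∀ ℓ : Nat.Primes, ¬ (ℓ : ℕ) ∣ M → ∀ x : ModularCurve.JZero M,
        b (ModularCurve.heckeOperatorBar M ℓ x)
          = @ModularCurve.heckeOperatorBar (M / q.1) (hne0 q) ℓ (b x)) ∧
      ∀ p : ℕ, p.Prime → p ≠ q.1 →
        ∀ A : ValuationSubring (AlgebraicClosure ℚ), A.LiesOverPrime q.1 →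
          ∃ k : ℕ, ∀ x : ModularCurve.JZero M, (∃ n : ℕ, p ^ n • x = 0) →
            (∀ γ : GQ, a (γ • x) = 0 ∧ b (γ • x) = 0) →
            (∀ τ ∈ A.inertiaSubgroupIn ℚ, τ • x = x) → p ^ k • x = 0 :=
    fun q => @hN M q.1 _ (hne0 q) q.2.1 q.2.2.2
  choose da db hda hdb hinert using hab
  let J' : Q × Bool → Type := fun c => ModularCurve.JZero (M / c.1.1)
  let f : ∀ c : Q × Bool, ModularCurve.JZero M →+ J' c := fun c =>
    match c with
    | (q, true) => da q
    | (q, false) => db q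
  let T'' : ∀ c : Q × Bool, {ℓ : Nat.Primes // ¬ (ℓ : ℕ) ∣ M ∧ (ℓ : ℕ) ∉ (↑S : Set ℕ)} →
      J' c →+ J' c :=
    fun c i => (@ModularCurve.heckeOperatorBar (M / c.1.1) (hne0 c.1) i.1).toAddMonoidHom
  have hf : ∀ (c : Q × Bool) (i : {ℓ : Nat.Primes // ¬ (ℓ : ℕ) ∣ M ∧ (ℓ : ℕ) ∉ (↑S : Set ℕ)})
      (x : ModularCurve.JZero M), f c (T i x) = T'' c i (f c x) := by
    rintro ⟨q, b⟩ i x
    cases b with
    | true => exact hda q i.1 i.2.1 x
    | false => exact hdb q i.1 i.2.1 x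
  have hexcl : ∀ (c : Q × Bool) (z : ℕ → O' ⊗[ℤ] J' c), (p : O') • z 0 = 0 →
      (∀ n, (p : O') • z (n + 1) = z n) →
      (∀ i n, tensorOp O' (T'' c) i (z n) = a i • z n) → z = 0 := by
    intro c z hz0 hzs hzeig
    exact @hX M _ g hg c.1.1 (hne0 c.1) c.1.2.1 (hQdvd c.1) p _ S O' _ _ _ _ _ _ hpO' chig hchig
      iota hpS hMS z hz0 hzs (fun ℓ hℓ hℓM hℓS n => hzeig ⟨⟨ℓ, hℓ⟩, hℓM, hℓS⟩ n)
  -- the eigenmodule of the new part
  obtain ⟨E, j1, j2, j3, j4, ρ, hnt, hcont, hone, hquad, hinv⟩ :=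
    exists_adic_eigenmodule_new_inv (O := O') hpO' hp.ne_zero (J := ModularCurve.JZero M) T a
      (fun i γ x => hgeq M i.1 γ x) hfin'
      (fun x hx => hsm M p x (by
        obtain ⟨n, hn⟩ := hx
        exact ⟨n, by rw [hpow]; exact hn⟩))
      T'' f hf hexcl seq hseq0 hseqs hseqne hseqeig
  refine ⟨{ M := E
            ρ := ρ
            cont := hcont
            unram := fun q hq hqN hqp P hP σ hσ =>
              hone σ fun x hx _ => hunr M p q hq (hNp q hq hqN hqp) P hP σ hσ x (by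
                obtain ⟨n, hn⟩ := hx
                exact ⟨n, by rw [hpow]; exact hn⟩)
            frob := fun ℓ hℓ hℓN hℓS A hA σ hσ => by
              have hℓp : ℓ ≠ p := fun h => hℓS (Finset.mem_coe.mpr (h ▸ hpS))
              have h := hquad σ ⟨⟨ℓ, hℓ⟩, hℓN, hℓS⟩ ((ℓ : ℕ) : ℤ)
                (fun x hx _ => hes M p ℓ hℓ (hNp ℓ hℓ hℓN hℓp) A hA σ hσ x (by
                  obtain ⟨n, hn⟩ := hx
                  exact ⟨n, by rw [hpow]; exact hn⟩))
              simpa using h }, ?_⟩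
  -- no inertia invariants
  intro q hq hqp hfac A hA w hw
  obtain ⟨k, hk⟩ := hinert ⟨q, hq, hqp, hfac⟩ p hp (Ne.symm hqp) A hA
  refine hinv (A.inertiaSubgroupIn ℚ : Set GQ) k ?_ w hw
  intro x hx hnew hfix
  exact hk x hx
    (fun γ => ⟨hnew γ (⟨q, hq, hqp, hfac⟩, true), hnew γ (⟨q, hq, hqp, hfac⟩, false)⟩) hfix

end Fermat.Agent.S36.H36

end
-- ===== PACK-END S36/H36/Mid.lean

-- ===== PACK-BEGIN S29/H812/IntBasis.lean
section


/-!
# S29 / H812 — a local integral basis at a place `v` of `F` for a finite extension `F'/F`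

`InFib v x` : `x ∈ F'` is integral at every place above `v`.  We construct a basis `b` of `F'/F`
consisting of such elements, such that the coordinates of every such element lie in the valuation
ring of `v`.
-/

set_option autoImplicit false

noncomputable section

open AlgebraicCurve IntermediateField

namespace Fermat.Agent.S29.H812

open Fermat.Agent.S24

variable {K F F' : Type*} [Field K] [Field F] [Field F']
  [Algebra K F] [Algebra K F'] [Algebra F F'] [IsScalarTower K F F']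
  [Algebra.IsIntegral F F'] [HasPrincipalDivisors K F']

/-- `x` is integral at all places of `F'` above `v`. -/
def InFib (v : Place K F) (x : F') : Prop := ∀ w ∈ v.fiber F', x ∈ w.toValuationSubring

theorem inFib_zero (v : Place K F) : InFib v (0 : F') := fun _ _ => zero_mem _

theorem inFib_one (v : Place K F) : InFib v (1 : F') := fun _ _ => one_mem _

theorem InFib.add {v : Place K F} {x y : F'} (hx : InFib v x) (hy : InFib v y) :
    InFib v (x + y) := fun w hw => add_mem (hx w hw) (hy w hw)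

theorem InFib.mul {v : Place K F} {x y : F'} (hx : InFib v x) (hy : InFib v y) :
    InFib v (x * y) := fun w hw => mul_mem (hx w hw) (hy w hw)

theorem inFib_sum {v : Place K F} {ι : Type*} (s : Finset ι) (f : ι → F')
    (h : ∀ i ∈ s, InFib v (f i)) : InFib v (∑ i ∈ s, f i) :=
  fun w hw => sum_mem fun i hi => h i hi w hw

theorem inFib_algebraMap {v : Place K F} {c : F} (hc : c ∈ v.toValuationSubring) :
    InFib v (algebraMap F F' c) := by
  intro w hw
  have h := Place.mem_fiber.mp hw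
  rw [← h] at hc
  exact (Place.mem_restrict_iff w).mp hc

theorem InFib.smul {v : Place K F} {c : F} (hc : c ∈ v.toValuationSubring) {x : F'}
    (hx : InFib v x) : InFib v (c • x) := by
  rw [Algebra.smul_def]
  exact (inFib_algebraMap hc).mul hx

theorem inFib_iff_ord {v : Place K F} {x : F'} :
    InFib v x ↔ ∀ w ∈ v.fiber F', 0 ≤ w.ord x :=
  forall₂_congr fun w _ => H117.mem_iff_ord_nonneg w

section Basis

variable [IsAlgClosed K] [CharZero K] [Module.Finite F F']

/-- **Local integral basis.** -/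
theorem exists_integral_basis
    (hF : ∃ x : F, Transcendental K x ∧ FiniteDimensional K⟮x⟯ F) (v : Place K F) :
    ∃ b : Module.Basis (FibIdx F' v) F F',
      (∀ i, InFib v (b i)) ∧
      (∀ x : F', InFib v x → ∀ i, b.repr x i ∈ v.toValuationSubring) := by
  classical
  obtain ⟨u, hu0, hu1, hu2⟩ := exists_family (F' := F') v
  have hli := family_linearIndependent v u hu0 hu1 hu2
  have hcard : Fintype.card (FibIdx F' v) = Module.finrank F F' := by
    rw [card_fibIdx, sum_ramificationIndex_eq_finrank hF v]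
  set b : Module.Basis (FibIdx F' v) F F' := basisOfLinearIndependentOfCardEqFinrank' u hli hcard
    with hb
  have hbu : ∀ i, b i = u i := fun i => by
    rw [hb, coe_basisOfLinearIndependentOfCardEqFinrank']
  refine ⟨b, ?_, ?_⟩
  · intro a
    rw [hbu, inFib_iff_ord]
    intro w hw
    by_cases h : w = a.1.1
    · rw [h, hu1]; exact Int.natCast_nonneg _
    · have hpos : 0 < w.ramificationIndex F := w.ramificationIndex_pos (F := F)
      have := hu2 a ⟨⟨w, hw⟩, ⟨0, hpos⟩⟩ h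
      have h0 : (0 : ℤ) ≤ ((w.ramificationIndex F : ℕ) : ℤ) := Int.natCast_nonneg _
      exact h0.trans this
  · intro x hx a
    by_cases hall : ∀ a, b.repr x a = 0
    · rw [hall a]; exact zero_mem _
    push Not at hall
    obtain ⟨a₀, hc₀, hmin, -, hord⟩ := family_coord v u hu0 hu1 hu2 (fun a => b.repr x a) hall
    have hsum : ∑ a, b.repr x a • u a = x := by
      have := b.sum_repr x
      simpa [hbu] using this
    rw [hsum] at hord
    have h0 : 0 ≤ a₀.1.1.ord x := H117.ord_nonneg_of_mem _ (hx a₀.1.1 a₀.1.2)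
    have hi : ((a₀.2 : ℕ) : ℤ) < (a₀.1.1.ramificationIndex F : ℤ) := by exact_mod_cast a₀.2.2
    have hm : 0 ≤ v.ord (b.repr x a₀) := by
      by_contra hneg
      push Not at hneg
      have he : (0 : ℤ) < (a₀.1.1.ramificationIndex F : ℤ) := by
        exact_mod_cast a₀.1.1.ramificationIndex_pos (F := F)
      nlinarith
    by_cases ha : b.repr x a = 0
    · rw [ha]; exact zero_mem _
    · exact H117.mem_of_ord_nonneg v (hm.trans (hmin a ha))

end Basis

end Fermat.Agent.S29.H812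

end
end
-- ===== PACK-END S29/H812/IntBasis.lean

-- ===== PACK-BEGIN S29/H812/Norm.lean
section


/-!
# S29 / H812 — the norm formula `ord_v (N_{F'/F} f) = ∑_{w | v} ord_w f` for a finite extension
of function fields of one variable over an algebraically closed field of characteristic zero.
-/

set_option autoImplicit false

noncomputable section

open AlgebraicCurve IntermediateField

namespace Fermat.Agent.S29.H812

open Fermat.Agent.S24

section Single

variable {K F : Type*} [Field K] [Field F] [Algebra K F]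

theorem ord_prod (w : Place K F) {ι : Type*} (s : Finset ι) (g : ι → F)
    (hg : ∀ i ∈ s, g i ≠ 0) : w.ord (∏ i ∈ s, g i) = ∑ i ∈ s, w.ord (g i) := by
  classical
  induction s using Finset.induction_on with
  | empty => simp
  | insert a s ha ih =>
    rw [Finset.prod_insert ha, Finset.sum_insert ha,
      w.ord_mul (hg a (Finset.mem_insert_self _ _))
        (Finset.prod_ne_zero_iff.mpr fun i hi => hg i (Finset.mem_insert_of_mem hi)),
      ih fun i hi => hg i (Finset.mem_insert_of_mem hi)]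

theorem isUnit_of_ord_eq_zero (v : Place K F) (a : v.toValuationSubring) (ha : (a : F) ≠ 0)
    (h : v.ord (a : F) = 0) : IsUnit a := by
  rw [← v.adicValuation_coe_eq_one_iff, H504.adicValuation_eq_exp_neg_ord v ha, h]
  simp

end Single

variable {K F F' : Type*} [Field K] [Field F] [Field F']
  [Algebra K F] [Algebra K F'] [Algebra F F'] [IsScalarTower K F F']
  [Algebra.IsIntegral F F'] [HasPrincipalDivisors K F']
  [IsAlgClosed K] [CharZero K] [Module.Finite F F']

/-- The matrix of multiplication by an integral element in a local integral basis, over the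
valuation ring. -/
theorem exists_matrix (v : Place K F) [DecidableEq (FibIdx F' v)]
    (b : Module.Basis (FibIdx F' v) F F')
    (hb : ∀ i, InFib v (b i))
    (hrepr : ∀ x : F', InFib v x → ∀ i, b.repr x i ∈ v.toValuationSubring)
    {x : F'} (hx : InFib v x) :
    ∃ A : Matrix (FibIdx F' v) (FibIdx F' v) v.toValuationSubring,
      Algebra.leftMulMatrix b x = A.map v.toValuationSubring.subtype := by
  refine ⟨fun i j => ⟨Algebra.leftMulMatrix b x i j, ?_⟩, ?_⟩
  · rw [Algebra.leftMulMatrix_eq_repr_mul]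
    exact hrepr _ (hx.mul (hb j)) i
  · ext i j
    rfl

/-- The norm of an element integral above `v` is integral at `v`. -/
theorem norm_mem_of_inFib (hF : ∃ x : F, Transcendental K x ∧ FiniteDimensional K⟮x⟯ F)
    (v : Place K F) {x : F'} (hx : InFib v x) : Algebra.norm F x ∈ v.toValuationSubring := by
  classical
  obtain ⟨b, hb, hrepr⟩ := exists_integral_basis (F' := F') hF v
  obtain ⟨A, hA⟩ := exists_matrix v b hb hrepr hx
  rw [Algebra.norm_eq_matrix_det b x, hA, ← RingHom.mapMatrix_apply, ← RingHom.map_det]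
  exact (A.det).2

/-- If the norm of an integral element is a unit at `v`, the inverse is integral above `v`. -/
theorem inFib_inv_of_ord_norm_eq_zero
    (hF : ∃ x : F, Transcendental K x ∧ FiniteDimensional K⟮x⟯ F)
    (v : Place K F) {x : F'} (hx0 : x ≠ 0) (hx : InFib v x)
    (hN : v.ord (Algebra.norm F x) = 0) : InFib v x⁻¹ := by
  classical
  obtain ⟨b, hb, hrepr⟩ := exists_integral_basis (F' := F') hF v
  obtain ⟨A, hA⟩ := exists_matrix v b hb hrepr hx
  have hdet : ((A.det : v.toValuationSubring) : F) = Algebra.norm F x := by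
    rw [Algebra.norm_eq_matrix_det b x, hA, ← RingHom.mapMatrix_apply, ← RingHom.map_det]
    rfl
  have hNne : Algebra.norm F x ≠ 0 := Algebra.norm_ne_zero_iff.mpr hx0
  have hunit : IsUnit A.det :=
    isUnit_of_ord_eq_zero v A.det (by rw [hdet]; exact hNne) (by rw [hdet]; exact hN)
  -- the inverse matrix
  have h1 : A⁻¹ * A = 1 := Matrix.nonsing_inv_mul A hunit
  have h2 : (A⁻¹).map v.toValuationSubring.subtype * Algebra.leftMulMatrix b x = 1 := by
    rw [hA, ← Matrix.map_mul, h1]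
    exact Matrix.map_one _ (map_zero _) (map_one _)
  have h3 : Algebra.leftMulMatrix b x * Algebra.leftMulMatrix b x⁻¹ = 1 := by
    rw [← map_mul, mul_inv_cancel₀ hx0, map_one]
  have h4 : Algebra.leftMulMatrix b x⁻¹ = (A⁻¹).map v.toValuationSubring.subtype := by
    calc Algebra.leftMulMatrix b x⁻¹
        = ((A⁻¹).map v.toValuationSubring.subtype * Algebra.leftMulMatrix b x)
            * Algebra.leftMulMatrix b x⁻¹ := by rw [h2, one_mul]
      _ = (A⁻¹).map v.toValuationSubring.subtype := by rw [mul_assoc, h3, mul_one]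
  -- coordinates of `x⁻¹`
  have hcoord : ∀ i, b.repr x⁻¹ i ∈ v.toValuationSubring := by
    intro i
    have h5 := congrFun (Algebra.leftMulMatrix_mulVec_repr b x⁻¹ 1) i
    rw [mul_one] at h5
    rw [← h5, Matrix.mulVec, dotProduct]
    refine sum_mem fun j _ => mul_mem ?_ (hrepr 1 (inFib_one v) j)
    rw [h4]
    exact (A⁻¹ i j).2
  rw [← b.sum_repr x⁻¹]
  exact inFib_sum _ _ fun i _ => (hb i).smul (hcoord i)

variable (hF : ∃ x : F, Transcendental K x ∧ FiniteDimensional K⟮x⟯ F)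

include hF in
/-- Units above `v` have unit norm. -/
theorem ord_norm_eq_zero_of_unit (v : Place K F) {x : F'} (hx0 : x ≠ 0)
    (hx : ∀ w ∈ v.fiber F', w.ord x = 0) : v.ord (Algebra.norm F x) = 0 := by
  have h1 : InFib v x := inFib_iff_ord.mpr fun w hw => (hx w hw).ge
  have h2 : InFib v x⁻¹ := inFib_iff_ord.mpr fun w hw => by
    rw [w.ord_inv, hx w hw]; rfl
  have h3 := H117.ord_nonneg_of_mem v (norm_mem_of_inFib hF v h1)
  have h4 := H117.ord_nonneg_of_mem v (norm_mem_of_inFib hF v h2)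
  have h5 : Algebra.norm F x * Algebra.norm F x⁻¹ = 1 := by
    rw [← map_mul, mul_inv_cancel₀ hx0, map_one]
  have h6 : v.ord (Algebra.norm F x) + v.ord (Algebra.norm F x⁻¹) = 0 := by
    rw [← v.ord_mul (Algebra.norm_ne_zero_iff.mpr hx0)
      (Algebra.norm_ne_zero_iff.mpr (inv_ne_zero hx0)), h5, v.ord_one]
  omega

include hF in
/-- Non-units above `v` have non-unit norm. -/
theorem ord_norm_pos_of_ord_pos (v : Place K F) {x : F'} (hx0 : x ≠ 0) (hx : InFib v x)
    {w₀ : Place K F'} (hw₀ : w₀ ∈ v.fiber F') (hpos : 0 < w₀.ord x) :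
    0 < v.ord (Algebra.norm F x) := by
  have h3 := H117.ord_nonneg_of_mem v (norm_mem_of_inFib hF v hx)
  rcases eq_or_lt_of_le h3 with h0 | hlt
  · exfalso
    have h := inFib_inv_of_ord_norm_eq_zero hF v hx0 hx h0.symm
    have := H117.ord_nonneg_of_mem w₀ (h w₀ hw₀)
    rw [w₀.ord_inv] at this
    omega
  · exact hlt

include hF in
/-- Elements with the same orders above `v` have norms of the same order at `v`. -/
theorem ord_norm_congr (v : Place K F) {g h : F'} (hg : g ≠ 0) (hh : h ≠ 0)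
    (hgh : ∀ w ∈ v.fiber F', w.ord g = w.ord h) :
    v.ord (Algebra.norm F g) = v.ord (Algebra.norm F h) := by
  have hu0 : g * h⁻¹ ≠ 0 := mul_ne_zero hg (inv_ne_zero hh)
  have hu : v.ord (Algebra.norm F (g * h⁻¹)) = 0 :=
    ord_norm_eq_zero_of_unit hF v hu0 fun w hw => by
      rw [w.ord_mul hg (inv_ne_zero hh), w.ord_inv, hgh w hw]; ring
  have h1 : g = (g * h⁻¹) * h := by field_simp
  have h2 : Algebra.norm F g = Algebra.norm F (g * h⁻¹) * Algebra.norm F h := by
    rw [← map_mul, ← h1]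
  rw [h2, v.ord_mul (Algebra.norm_ne_zero_iff.mpr hu0) (Algebra.norm_ne_zero_iff.mpr hh), hu,
    zero_add]

end Fermat.Agent.S29.H812

end
end
-- ===== PACK-END S29/H812/Norm.lean

-- ===== PACK-BEGIN S29/H871/PlaceBC.lean
section


/-!
# S29 / E3 (descent `ℂ → ℚ̄`), part 2: base change of a rational place

Setting (`IsConstExt K F K' F'`): `F' ⊇ F`, `K' ⊇ K`, the multiplication map
`F ⊗[K] K' → F'` is injective and `F'` is its field of fractions.

For a rational place `v` of `F/K` we construct the place `placeBC v` of `F'/K'` whose valuation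
ring is the localisation of `O_v ⊗[K] K'` at the prime `(π ⊗ 1)`.

(helper871)
-/

set_option autoImplicit false
set_option linter.unusedSectionVars false

noncomputable section

namespace Fermat.Agent.S29.H871

open AlgebraicCurve TensorProduct

variable (K F K' F' : Type*) [Field K] [Field F] [Field K'] [Field F']
  [Algebra K F] [Algebra K' F'] [Algebra K K'] [Algebra F F'] [Algebra K F']
  [IsScalarTower K F F'] [IsScalarTower K K' F']

/-- The multiplication map `F ⊗[K] K' → F'`. -/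
def mulMapF : F ⊗[K] K' →ₐ[K] F' :=
  Algebra.TensorProduct.productMap (IsScalarTower.toAlgHom K F F')
    (IsScalarTower.toAlgHom K K' F')

/-- `F'` is the constant field extension of `F` from `K` to `K'`: `F` and `K'` are linearly
disjoint over `K` inside `F'`, and they generate `F'` as a field. -/
class IsConstExt : Prop where
  inj : Function.Injective (mulMapF K F K' F')
  gen : ∀ z : F', ∃ x y : F ⊗[K] K', mulMapF K F K' F' y ≠ 0 ∧
    z * mulMapF K F K' F' y = mulMapF K F K' F' x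

variable {K F K' F'}

@[simp]
theorem mulMapF_tmul (f : F) (c : K') :
    mulMapF K F K' F' (f ⊗ₜ[K] c) = algebraMap F F' f * algebraMap K' F' c := by
  simp [mulMapF]

section MuA

variable (K' F') (v : Place K F)

/-- The multiplication map `O_v ⊗[K] K' → F'`. -/
def muA : v.toValuationSubring ⊗[K] K' →ₐ[K] F' :=
  Algebra.TensorProduct.productMap
    ((IsScalarTower.toAlgHom K F F').comp (IsScalarTower.toAlgHom K v.toValuationSubring F))
    (IsScalarTower.toAlgHom K K' F')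

variable {K' F' v}

@[simp]
theorem muA_tmul (a : v.toValuationSubring) (c : K') :
    muA K' F' v (a ⊗ₜ[K] c) = algebraMap F F' (a : F) * algebraMap K' F' c := by
  simp [muA]

theorem muA_piT (π : v.toValuationSubring) :
    muA K' F' v (piT π) = algebraMap F F' (π : F) := by
  rw [piT, muA_tmul, map_one, mul_one]

theorem muA_eq_mulMapF_comp (x : v.toValuationSubring ⊗[K] K') :
    muA K' F' v x = mulMapF K F K' F'
      (LinearMap.rTensor K' (IsScalarTower.toAlgHom K v.toValuationSubring F).toLinearMap x) := by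
  induction x using TensorProduct.induction_on with
  | zero => simp
  | tmul a c =>
    rw [muA_tmul, LinearMap.rTensor_tmul, mulMapF_tmul]
    rfl
  | add x y hx hy => rw [map_add, map_add, map_add, hx, hy]

/-- Clearing denominators in `F`. -/
theorem exists_mul_pow_mem {π : v.toValuationSubring} (hπ : Irreducible π) (f : F) :
    ∃ (n : ℕ) (a : v.toValuationSubring), f * (π : F) ^ n = (a : F) := by
  by_cases hf : f ∈ v.toValuationSubring
  · exact ⟨0, ⟨f, hf⟩, by simp⟩
  · have hf0 : f ≠ 0 := fun h => hf (h ▸ zero_mem _)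
    have hinv : f⁻¹ ∈ v.toValuationSubring :=
      (v.toValuationSubring.mem_or_inv_mem f).resolve_left hf
    have hinv0 : (⟨f⁻¹, hinv⟩ : v.toValuationSubring) ≠ 0 := by
      intro h
      exact inv_ne_zero hf0 (congrArg Subtype.val h)
    obtain ⟨n, u, hu⟩ := IsDiscreteValuationRing.eq_unit_mul_pow_irreducible hinv0 hπ
    refine ⟨n, ((u⁻¹ : (v.toValuationSubring)ˣ) : v.toValuationSubring), ?_⟩
    have h1 : f⁻¹ = ((u : v.toValuationSubring) : F) * (π : F) ^ n := by
      have := congrArg Subtype.val hu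
      simpa using this
    have h2 : ((u : v.toValuationSubring) : F) * (((u⁻¹ : (v.toValuationSubring)ˣ) :
        v.toValuationSubring) : F) = 1 := by
      have h := congrArg (fun t : v.toValuationSubring => (t : F)) (Units.mul_inv u)
      exact h
    have hπ0 : (π : F) ≠ 0 := by
      intro h
      exact hπ.ne_zero (Subtype.ext h)
    have hu0 : ((u : v.toValuationSubring) : F) ≠ 0 := by
      intro h
      rw [h, zero_mul] at h2
      exact zero_ne_one h2
    have h3 : f = (((u : v.toValuationSubring) : F) * (π : F) ^ n)⁻¹ := by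
      rw [← h1, inv_inv]
    rw [h3]
    field_simp
    exact h2.symm

/-- Clearing denominators in `F ⊗[K] K'`. -/
theorem exists_mulMapF_mul_pow_eq {π : v.toValuationSubring} (hπ : Irreducible π)
    (x : F ⊗[K] K') :
    ∃ (n : ℕ) (x' : v.toValuationSubring ⊗[K] K'),
      mulMapF K F K' F' x * (algebraMap F F' (π : F)) ^ n = muA K' F' v x' := by
  induction x using TensorProduct.induction_on with
  | zero => exact ⟨0, 0, by simp⟩
  | tmul f c =>
    obtain ⟨n, a, ha⟩ := exists_mul_pow_mem hπ f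
    refine ⟨n, a ⊗ₜ[K] c, ?_⟩
    rw [mulMapF_tmul, muA_tmul, ← ha, map_mul, map_pow]
    ring
  | add x y hx hy =>
    obtain ⟨n, x', hx'⟩ := hx
    obtain ⟨m, y', hy'⟩ := hy
    refine ⟨n + m, x' * piT π ^ m + y' * piT π ^ n, ?_⟩
    rw [map_add, map_add, map_mul, map_mul, map_pow, map_pow, muA_piT, ← hx', ← hy']
    ring

variable [IsConstExt K F K' F']

theorem muA_injective : Function.Injective (muA K' F' v) := by
  have h1 : Function.Injective
      (LinearMap.rTensor K' (IsScalarTower.toAlgHom K v.toValuationSubring F).toLinearMap) := by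
    apply Module.Flat.rTensor_preserves_injective_linearMap
    intro a b hab
    exact Subtype.ext hab
  intro x y hxy
  rw [muA_eq_mulMapF_comp, muA_eq_mulMapF_comp] at hxy
  exact h1 (IsConstExt.inj hxy)

theorem muA_ne_zero {x : v.toValuationSubring ⊗[K] K'} (hx : x ≠ 0) : muA K' F' v x ≠ 0 := by
  intro h
  exact hx (muA_injective (by rw [h, map_zero]))

theorem algebraMap_pi_ne_zero {π : v.toValuationSubring} (hπ : Irreducible π) :
    algebraMap F F' (π : F) ≠ 0 := by
  intro h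
  have : (π : F) = 0 := (algebraMap F F').injective (by rw [h, map_zero])
  exact hπ.ne_zero (Subtype.ext this)

/-- Every nonzero element of `F'` is a quotient of two nonzero elements of `O_v ⊗[K] K'`. -/
theorem exists_muA_quotient {π : v.toValuationSubring} (hπ : Irreducible π) {z : F'}
    (hz : z ≠ 0) :
    ∃ x y : v.toValuationSubring ⊗[K] K', x ≠ 0 ∧ y ≠ 0 ∧
      z * muA K' F' v y = muA K' F' v x := by
  obtain ⟨x, y, hy, hxy⟩ := IsConstExt.gen (K := K) (F := F) (K' := K') z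
  obtain ⟨n, x', hx'⟩ := exists_mulMapF_mul_pow_eq (K' := K') (F' := F') hπ x
  obtain ⟨m, y', hy'⟩ := exists_mulMapF_mul_pow_eq (K' := K') (F' := F') hπ y
  have hπ0 := algebraMap_pi_ne_zero (F' := F') hπ
  have hy'0 : muA K' F' v y' ≠ 0 := by
    rw [← hy']
    exact mul_ne_zero hy (pow_ne_zero _ hπ0)
  have key : z * muA K' F' v (y' * piT π ^ n) = muA K' F' v (x' * piT π ^ m) := by
    rw [map_mul, map_mul, map_pow, map_pow, muA_piT, ← hx', ← hy', ← hxy]
    ring
  have hyn : muA K' F' v (y' * piT π ^ n) ≠ 0 := by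
    rw [map_mul, map_pow, muA_piT]
    exact mul_ne_zero hy'0 (pow_ne_zero _ hπ0)
  refine ⟨x' * piT π ^ m, y' * piT π ^ n, ?_, ?_, key⟩
  · intro h
    rw [h, map_zero] at key
    exact mul_ne_zero hz hyn key
  · intro h
    rw [h, map_zero] at hyn
    exact hyn rfl

end MuA

section VS

variable (K' F') {v : Place K F} (hv : IsRationalPlace v) [IsConstExt K F K' F']

/-- Membership predicate of the extended valuation ring: `z = μ(x)/μ(s)` with `ε(s) ≠ 0`. -/
def IsIntegralBC (z : F') : Prop :=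
  ∃ x s : v.toValuationSubring ⊗[K] K', epsHom hv s ≠ 0 ∧ z * muA K' F' v s = muA K' F' v x

variable {K' F'}

theorem eps_ne_zero_ne_zero {s : v.toValuationSubring ⊗[K] K'} (hs : epsHom hv s ≠ 0) :
    s ≠ 0 := by
  intro h
  rw [h, map_zero] at hs
  exact hs rfl

theorem IsIntegralBC.mul {z w : F'} (hz : IsIntegralBC K' F' hv z) (hw : IsIntegralBC K' F' hv w) :
    IsIntegralBC K' F' hv (z * w) := by
  obtain ⟨x, s, hs, hx⟩ := hz
  obtain ⟨y, t, ht, hy⟩ := hw
  refine ⟨x * y, s * t, ?_, ?_⟩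
  · rw [map_mul]
    exact mul_ne_zero hs ht
  · rw [map_mul, map_mul, ← hx, ← hy]
    ring

theorem IsIntegralBC.add {z w : F'} (hz : IsIntegralBC K' F' hv z) (hw : IsIntegralBC K' F' hv w) :
    IsIntegralBC K' F' hv (z + w) := by
  obtain ⟨x, s, hs, hx⟩ := hz
  obtain ⟨y, t, ht, hy⟩ := hw
  refine ⟨x * t + y * s, s * t, ?_, ?_⟩
  · rw [map_mul]
    exact mul_ne_zero hs ht
  · rw [map_add, map_mul, map_mul, map_mul, ← hx, ← hy]
    ring

theorem IsIntegralBC.neg {z : F'} (hz : IsIntegralBC K' F' hv z) :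
    IsIntegralBC K' F' hv (-z) := by
  obtain ⟨x, s, hs, hx⟩ := hz
  refine ⟨-x, s, hs, ?_⟩
  rw [map_neg, ← hx]
  ring

theorem isIntegralBC_muA (x : v.toValuationSubring ⊗[K] K') :
    IsIntegralBC K' F' hv (muA K' F' v x) :=
  ⟨x, 1, by rw [map_one]; exact one_ne_zero, by rw [map_one, mul_one]⟩

theorem isIntegralBC_zero : IsIntegralBC K' F' hv (0 : F') := by
  have := isIntegralBC_muA (K' := K') (F' := F') hv 0
  rwa [map_zero] at this

theorem isIntegralBC_one : IsIntegralBC K' F' hv (1 : F') := by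
  have := isIntegralBC_muA (K' := K') (F' := F') hv 1
  rwa [map_one] at this

theorem isIntegralBC_algebraMap (c : K') : IsIntegralBC K' F' hv (algebraMap K' F' c) := by
  have := isIntegralBC_muA (K' := K') (F' := F') hv ((1 : v.toValuationSubring) ⊗ₜ[K] c)
  rw [muA_tmul] at this
  simpa using this

theorem isIntegralBC_algebraMap_of_mem {f : F} (hf : f ∈ v.toValuationSubring) :
    IsIntegralBC K' F' hv (algebraMap F F' f) := by
  have := isIntegralBC_muA (K' := K') (F' := F') hv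
    ((⟨f, hf⟩ : v.toValuationSubring) ⊗ₜ[K] (1 : K'))
  rw [muA_tmul] at this
  simpa using this

/-- Elements `μ(x)/μ(s)` with `ε x ≠ 0`, `ε s ≠ 0` are units of the extended valuation ring. -/
theorem isIntegralBC_inv_of_eps_ne_zero {z : F'} {x s : v.toValuationSubring ⊗[K] K'}
    (hx : epsHom hv x ≠ 0) (hs : epsHom hv s ≠ 0)
    (h : z * muA K' F' v s = muA K' F' v x) : IsIntegralBC K' F' hv z⁻¹ := by
  refine ⟨s, x, hx, ?_⟩
  have hx0 := muA_ne_zero (K' := K') (F' := F') (eps_ne_zero_ne_zero hv hx)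
  have hs0 := muA_ne_zero (K' := K') (F' := F') (eps_ne_zero_ne_zero hv hs)
  have hz0 : z ≠ 0 := by
    intro hz
    rw [hz, zero_mul] at h
    exact hx0 h.symm
  rw [← h]
  field_simp

/-- **Decomposition**: every nonzero `z : F'` is `u * π^n` (`n : ℤ`) with `u` and `u⁻¹`
integral. -/
theorem exists_unit_mul_zpow_BC {π : v.toValuationSubring} (hπ : Irreducible π) {z : F'}
    (hz : z ≠ 0) :
    ∃ (u : F') (n : ℤ), IsIntegralBC K' F' hv u ∧ IsIntegralBC K' F' hv u⁻¹ ∧
      z = u * (algebraMap F F' (π : F)) ^ n := by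
  obtain ⟨x, y, hx0, hy0, hxy⟩ := exists_muA_quotient (K' := K') (F' := F') hπ hz
  obtain ⟨m, x', hx', hex⟩ := exists_pow_mul_eps_ne_zero hv hπ hx0
  obtain ⟨n, y', hy', hey⟩ := exists_pow_mul_eps_ne_zero hv hπ hy0
  have hπ0 := algebraMap_pi_ne_zero (F' := F') hπ
  have hx'0 := muA_ne_zero (K' := K') (F' := F') (eps_ne_zero_ne_zero hv hex)
  have hy'0 := muA_ne_zero (K' := K') (F' := F') (eps_ne_zero_ne_zero hv hey)
  set u : F' := muA K' F' v x' / muA K' F' v y' with hu
  have hu1 : u * muA K' F' v y' = muA K' F' v x' := by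
    rw [hu]
    field_simp
  have hu2 : u⁻¹ * muA K' F' v x' = muA K' F' v y' := by
    rw [hu]
    field_simp
  refine ⟨u, (m : ℤ) - n, ⟨x', y', hey, hu1⟩, ⟨y', x', hex, hu2⟩, ?_⟩
  rw [hx', hy', map_mul, map_mul, map_pow, map_pow, muA_piT] at hxy
  rw [zpow_sub₀ hπ0, zpow_natCast, zpow_natCast, hu]
  field_simp
  field_simp at hxy
  linear_combination hxy

theorem not_isIntegralBC_inv_pi {π : v.toValuationSubring} (hπ : Irreducible π) (n : ℕ) :
    ¬ IsIntegralBC K' F' hv ((algebraMap F F' (π : F)) ^ (n + 1))⁻¹ := by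
  rintro ⟨x, s, hs, h⟩
  have hπ0 := algebraMap_pi_ne_zero (F' := F') hπ
  have h1 : muA K' F' v s = muA K' F' v (piT π * (piT π ^ n * x)) := by
    rw [map_mul, map_mul, map_pow, muA_piT, ← h]
    field_simp
    ring
  have h2 := muA_injective (K' := K') (F' := F') h1
  apply hs
  rw [h2, map_mul, epsHom_piT hv hπ, zero_mul]

theorem isIntegralBC_pi_pow (π : v.toValuationSubring) (n : ℕ) :
    IsIntegralBC K' F' hv ((algebraMap F F' (π : F)) ^ n) := by
  have := isIntegralBC_muA (K' := K') (F' := F') hv (piT π ^ n)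
  rwa [map_pow, muA_piT] at this

/-- Decomposition of integral elements with a natural exponent. -/
theorem exists_unit_mul_pow_BC {π : v.toValuationSubring} (hπ : Irreducible π) {z : F'}
    (hz : IsIntegralBC K' F' hv z) (hz0 : z ≠ 0) :
    ∃ (u : F') (n : ℕ), IsIntegralBC K' F' hv u ∧ IsIntegralBC K' F' hv u⁻¹ ∧
      z = u * (algebraMap F F' (π : F)) ^ n := by
  obtain ⟨u, k, hu, hu', hzk⟩ := exists_unit_mul_zpow_BC (K' := K') (F' := F') hv hπ hz0
  have hπ0 := algebraMap_pi_ne_zero (F' := F') hπ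
  have hu0 : u ≠ 0 := by
    intro h
    rw [h, zero_mul] at hzk
    exact hz0 hzk
  rcases le_or_gt 0 k with hk | hk
  · obtain ⟨n, rfl⟩ := Int.eq_ofNat_of_zero_le hk
    exact ⟨u, n, hu, hu', by rw [hzk, zpow_natCast]⟩
  · exfalso
    obtain ⟨j, hj⟩ : ∃ j : ℕ, k = -((j : ℤ) + 1) := ⟨(-k - 1).toNat, by omega⟩
    apply not_isIntegralBC_inv_pi (K' := K') (F' := F') hv hπ j
    have : ((algebraMap F F' (π : F)) ^ (j + 1))⁻¹ = u⁻¹ * z := by
      rw [hzk, hj, zpow_neg, ← Nat.cast_succ, zpow_natCast]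
      field_simp
    rw [this]
    exact hu'.mul hv hz

variable (K' F')

/-- The valuation ring of the base change of a rational place. -/
def valuationSubringBC : ValuationSubring F' where
  carrier := {z | IsIntegralBC K' F' hv z}
  mul_mem' := fun hz hw => IsIntegralBC.mul hv hz hw
  one_mem' := isIntegralBC_one hv
  add_mem' := fun hz hw => IsIntegralBC.add hv hz hw
  zero_mem' := isIntegralBC_zero hv
  neg_mem' := fun hz => IsIntegralBC.neg hv hz
  mem_or_inv_mem' := by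
    intro z
    by_cases hz : z = 0
    · left
      rw [hz]
      exact isIntegralBC_zero hv
    obtain ⟨π, hπ⟩ := IsDiscreteValuationRing.exists_irreducible v.toValuationSubring
    obtain ⟨u, k, hu, hu', hzk⟩ := exists_unit_mul_zpow_BC (K' := K') (F' := F') hv hπ hz
    rcases le_total 0 k with hk | hk
    · left
      obtain ⟨n, rfl⟩ := Int.eq_ofNat_of_zero_le hk
      show IsIntegralBC K' F' hv z
      rw [hzk, zpow_natCast]
      exact hu.mul hv (isIntegralBC_pi_pow hv π n)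
    · right
      obtain ⟨n, hn⟩ : ∃ n : ℕ, k = -(n : ℤ) := ⟨(-k).toNat, by omega⟩
      show IsIntegralBC K' F' hv z⁻¹
      have : z⁻¹ = u⁻¹ * (algebraMap F F' (π : F)) ^ n := by
        rw [hzk, hn, zpow_neg, zpow_natCast, mul_inv, inv_inv]
      rw [this]
      exact hu'.mul hv (isIntegralBC_pi_pow hv π n)

variable {K' F'}

theorem mem_valuationSubringBC_iff {z : F'} :
    z ∈ valuationSubringBC K' F' hv ↔ IsIntegralBC K' F' hv z := Iff.rfl

theorem isUnit_of_isIntegralBC_inv {z : valuationSubringBC K' F' hv} (hz0 : (z : F') ≠ 0)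
    (hz : IsIntegralBC K' F' hv (z : F')⁻¹) : IsUnit z := by
  rw [isUnit_iff_exists_inv]
  exact ⟨⟨(z : F')⁻¹, hz⟩, Subtype.ext (mul_inv_cancel₀ hz0)⟩

theorem isIntegralBC_inv_of_isUnit {z : valuationSubringBC K' F' hv} (hz : IsUnit z) :
    IsIntegralBC K' F' hv (z : F')⁻¹ := by
  obtain ⟨w, hw⟩ := isUnit_iff_exists_inv.mp hz
  have h1 : (z : F') * (w : F') = 1 := congrArg Subtype.val hw
  have h2 : (z : F')⁻¹ = (w : F') := inv_eq_of_mul_eq_one_right h1
  rw [h2]
  exact w.2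

/-- The uniformizer `π` as an element of the extended valuation ring. -/
def piBC (π : v.toValuationSubring) : valuationSubringBC K' F' hv :=
  ⟨algebraMap F F' (π : F), isIntegralBC_algebraMap_of_mem hv π.2⟩

theorem not_isUnit_piBC {π : v.toValuationSubring} (hπ : Irreducible π) :
    ¬ IsUnit (piBC (K' := K') (F' := F') hv π) := by
  intro h
  have h1 := isIntegralBC_inv_of_isUnit hv h
  apply not_isIntegralBC_inv_pi (K' := K') (F' := F') hv hπ 0
  simpa [piBC] using h1

theorem associated_piBC_pow {π : v.toValuationSubring} (hπ : Irreducible π)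
    {z : valuationSubringBC K' F' hv} (hz : z ≠ 0) :
    ∃ n : ℕ, Associated (piBC (K' := K') (F' := F') hv π ^ n) z := by
  have hz0 : (z : F') ≠ 0 := fun h => hz (Subtype.ext h)
  obtain ⟨u, n, hu, hu', hzn⟩ := exists_unit_mul_pow_BC (K' := K') (F' := F') hv hπ z.2 hz0
  have hu0 : u ≠ 0 := by
    intro h
    rw [h, zero_mul] at hzn
    exact hz0 hzn
  have hunit : IsUnit (⟨u, hu⟩ : valuationSubringBC K' F' hv) :=
    isUnit_of_isIntegralBC_inv hv hu0 hu'
  refine ⟨n, ?_⟩
  obtain ⟨w, hw⟩ := hunit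
  refine ⟨w, Subtype.ext ?_⟩
  show ((piBC (K' := K') (F' := F') hv π ^ n * (w : valuationSubringBC K' F' hv) :
    valuationSubringBC K' F' hv) : F') = z
  rw [hw]
  push_cast
  rw [hzn]
  simp [piBC, mul_comm]

theorem irreducible_piBC {π : v.toValuationSubring} (hπ : Irreducible π) :
    Irreducible (piBC (K' := K') (F' := F') hv π) := by
  have hπ0 := algebraMap_pi_ne_zero (F' := F') hπ
  rw [irreducible_iff]
  refine ⟨not_isUnit_piBC hv hπ, ?_⟩
  intro a b hab
  have hab' : algebraMap F F' (π : F) = (a : F') * (b : F') := congrArg Subtype.val hab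
  have ha0 : (a : F') ≠ 0 := by
    intro h
    rw [h, zero_mul] at hab'
    exact hπ0 hab'
  have hb0 : (b : F') ≠ 0 := by
    intro h
    rw [h, mul_zero] at hab'
    exact hπ0 hab'
  obtain ⟨u, m, hu, hu', ham⟩ := exists_unit_mul_pow_BC (K' := K') (F' := F') hv hπ a.2 ha0
  obtain ⟨w, n, hw, hw', hbn⟩ := exists_unit_mul_pow_BC (K' := K') (F' := F') hv hπ b.2 hb0
  have hu0 : u ≠ 0 := by
    intro h
    rw [h, zero_mul] at ham
    exact ha0 ham
  have hw0 : w ≠ 0 := by
    intro h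
    rw [h, zero_mul] at hbn
    exact hb0 hbn
  rcases Nat.eq_zero_or_pos m with hm | hm
  · left
    apply isUnit_of_isIntegralBC_inv hv ha0
    rw [ham, hm, pow_zero, mul_one]
    exact hu'
  rcases Nat.eq_zero_or_pos n with hn | hn
  · right
    apply isUnit_of_isIntegralBC_inv hv hb0
    rw [hbn, hn, pow_zero, mul_one]
    exact hw'
  exfalso
  obtain ⟨j, hj⟩ : ∃ j : ℕ, m + n = j + 2 := ⟨m + n - 2, by omega⟩
  apply not_isIntegralBC_inv_pi (K' := K') (F' := F') hv hπ j
  have : ((algebraMap F F' (π : F)) ^ (j + 1))⁻¹ = u * w := by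
    rw [ham, hbn] at hab'
    have h3 : (algebraMap F F' (π : F)) ^ (j + 1) * (u * w) = 1 := by
      have h4 : algebraMap F F' (π : F) * ((algebraMap F F' (π : F)) ^ (j + 1) * (u * w))
          = algebraMap F F' (π : F) * 1 := by
        rw [mul_one]
        conv_rhs => rw [hab']
        rw [show u * (algebraMap F F') ↑π ^ m * (w * (algebraMap F F') ↑π ^ n)
          = u * w * (algebraMap F F') ↑π ^ (m + n) by rw [pow_add]; ring, hj]
        ring
      exact mul_left_cancel₀ hπ0 h4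
    exact inv_eq_of_mul_eq_one_right h3
  rw [this]
  exact hu.mul hv hw

variable (K' F')

/-- **Base change of a rational place** along a constant field extension. -/
def placeBC : Place K' F' where
  toValuationSubring := valuationSubringBC K' F' hv
  algebraMap_mem' := fun c => isIntegralBC_algebraMap hv c
  ne_top' := by
    intro h
    obtain ⟨π, hπ⟩ := IsDiscreteValuationRing.exists_irreducible v.toValuationSubring
    apply not_isIntegralBC_inv_pi (K' := K') (F' := F') hv hπ 0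
    have : ((algebraMap F F' (π : F)) ^ (0 + 1))⁻¹ ∈ valuationSubringBC K' F' hv := by
      rw [h]
      exact ValuationSubring.mem_top _
    exact this
  isPrincipalIdealRing' := by
    obtain ⟨π, hπ⟩ := IsDiscreteValuationRing.exists_irreducible v.toValuationSubring
    have hfact : IsDiscreteValuationRing.HasUnitMulPowIrreducibleFactorization
        (valuationSubringBC K' F' hv) :=
      ⟨piBC hv π, irreducible_piBC hv hπ, fun hx => associated_piBC_pow hv hπ hx⟩
    have := IsDiscreteValuationRing.ofHasUnitMulPowIrreducibleFactorization hfact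
    infer_instance

variable {K' F'}

@[simp]
theorem placeBC_toValuationSubring :
    (placeBC K' F' hv).toValuationSubring = valuationSubringBC K' F' hv := rfl

end VS

end Fermat.Agent.S29.H871

end
end
-- ===== PACK-END S29/H871/PlaceBC.lean

-- ===== PACK-BEGIN S29/H871/PlaceOrd.lean
section


/-!
# S29 / E3, part 3: orders at the base-changed place, uniqueness, injectivity

(helper871)
-/

set_option autoImplicit false
set_option linter.unusedSectionVars false

noncomputable section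

namespace Fermat.Agent.S29.H871

open AlgebraicCurve TensorProduct

variable {K F K' F' : Type*} [Field K] [Field F] [Field K'] [Field F']
  [Algebra K F] [Algebra K' F'] [Algebra K K'] [Algebra F F'] [Algebra K F']
  [IsScalarTower K F F'] [IsScalarTower K K' F'] [IsConstExt K F K' F']

variable {v : Place K F} (hv : IsRationalPlace v)

/-- The order at `placeBC` of `u * π^n`, `u` a unit of the extended valuation ring. -/
theorem ord_placeBC_unit_mul_zpow {π : v.toValuationSubring} (hπ : Irreducible π) {u : F'}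
    (hu : IsIntegralBC K' F' hv u) (hu' : IsIntegralBC K' F' hv u⁻¹) (hu0 : u ≠ 0) (n : ℤ) :
    (placeBC K' F' hv).ord (u * (algebraMap F F' (π : F)) ^ n) = n := by
  have hunit : IsUnit (⟨u, hu⟩ : valuationSubringBC K' F' hv) :=
    isUnit_of_isIntegralBC_inv hv hu0 hu'
  obtain ⟨U, hU⟩ := hunit
  have h := (placeBC K' F' hv).ord_unit_smul_zpow U (irreducible_piBC hv hπ) n
  have hU' : ((U : valuationSubringBC K' F' hv) : F') = u := congrArg Subtype.val hU
  rw [← hU']
  exact h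

theorem ord_placeBC_algebraMap (f : F) :
    (placeBC K' F' hv).ord (algebraMap F F' f) = v.ord f := by
  rcases eq_or_ne f 0 with rfl | hf
  · simp
  obtain ⟨π, hπ⟩ := IsDiscreteValuationRing.exists_irreducible v.toValuationSubring
  obtain ⟨u, hu⟩ := v.exists_unit_mul_zpow hf hπ
  have h1 : algebraMap F F' f = algebraMap F F' ((u : v.toValuationSubring) : F) *
      (algebraMap F F' (π : F)) ^ (v.ord f) := by
    conv_lhs => rw [hu]
    rw [map_mul, map_zpow₀]
  have hu1 : IsIntegralBC K' F' hv (algebraMap F F' ((u : v.toValuationSubring) : F)) :=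
    isIntegralBC_algebraMap_of_mem hv (u : v.toValuationSubring).2
  have hu2 : IsIntegralBC K' F' hv (algebraMap F F' ((u : v.toValuationSubring) : F))⁻¹ := by
    have h2 : (algebraMap F F' ((u : v.toValuationSubring) : F))⁻¹
        = algebraMap F F' (((u⁻¹ : (v.toValuationSubring)ˣ) : v.toValuationSubring) : F) := by
      rw [← map_inv₀]
      congr 1
      have h := congrArg (fun t : v.toValuationSubring => (t : F)) (Units.mul_inv u)
      exact inv_eq_of_mul_eq_one_right h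
    rw [h2]
    exact isIntegralBC_algebraMap_of_mem hv ((u⁻¹ : (v.toValuationSubring)ˣ) :
      v.toValuationSubring).2
  have hu0 : algebraMap F F' ((u : v.toValuationSubring) : F) ≠ 0 := by
    intro h
    have h3 : ((u : v.toValuationSubring) : F) = 0 :=
      (algebraMap F F').injective (by rw [h, map_zero])
    exact u.ne_zero (Subtype.ext h3)
  rw [h1]
  exact ord_placeBC_unit_mul_zpow hv hπ hu1 hu2 hu0 _

theorem ord_placeBC_const {c : K'} :
    (placeBC K' F' hv).ord (algebraMap K' F' c) = 0 :=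
  Fermat.Agent.S24.FF.ord_algebraMap _ c

/-- `placeBC` is injective (as a function of the place). -/
theorem placeBC_injective {v w : Place K F} (hv : IsRationalPlace v) (hw : IsRationalPlace w)
    (h : placeBC K' F' hv = placeBC K' F' hw) : v = w := by
  apply Fermat.Agent.S24.H117.place_ext_of_le
  intro f hf
  rw [← ord_placeBC_algebraMap (K' := K') (F' := F') hw, ← h,
    ord_placeBC_algebraMap (K' := K') (F' := F') hv]
  exact hf

end Fermat.Agent.S29.H871

end
end
-- ===== PACK-END S29/H871/PlaceOrd.lean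

-- ===== PACK-BEGIN S29/H509/KummerFun.lean
section



/-!
# The Kummer function of a character (helper509, S29 piece K1-full)

For `Γ ≤ SL(2, ℤ)` and a unitary character `χ : Γ →* ℂˣ` trivial on the stabiliser of `∞`:
`kumH χ τ = twEis χ 12 τ / Δ τ` is holomorphic on `ℍ`, nonzero, satisfies
`kumH χ (γ • τ) = χ γ * kumH χ τ` for `γ ∈ Γ`, and all its `SL(2, ℤ)`-translates have at most
exponential growth at `i∞`.  If `χ ^ p = 1` and `Γ = Γ₀(N)`, then `kumH χ ^ p` lies in helper648's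
`goodRing N` (so, by helper882's MERO, its `q`-expansion lies in the function field over `ℂ`).
-/

set_option autoImplicit false

namespace Fermat.Agent.S29.H509

open ModularForm UpperHalfPlane Matrix CongruenceSubgroup EisensteinSeries Filter Topology
open scoped MatrixGroups Manifold Real

open Fermat.Agent.S24.H648 (goodRing ExpGrowth)

noncomputable section

local notation "Δ" => ModularForm.discriminant

/-- A uniform bound for weighted Eisenstein sums on `im z ≥ 1`. -/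
theorem exists_bound_wEis {k : ℤ} (hk : 3 ≤ k) :
    ∃ M : ℝ, ∀ (w : (Fin 2 → ℤ) → ℂ), (∀ v, ‖w v‖ ≤ 1) → ∀ z : ℍ, 1 ≤ z.im →
      ‖wEis w k z‖ ≤ M := by
  refine ⟨∑' x : Fin 2 → ℤ, r ⟨⟨1, 1⟩, one_pos⟩ ^ (-k) * ‖x‖ ^ (-k), fun w hw z hz => ?_⟩
  obtain ⟨n, hn⟩ := ModularGroup_T_zpow_mem_verticalStrip z (N := 1) one_pos
  refine (norm_wEis_le_eisMaj hw hk z).trans ?_
  rw [← eisMaj_T_zpow_smul k ((1 : ℕ) * n) z]
  refine eisMaj_le_of_mem_verticalStrip hk one_pos ?_
  exact verticalStrip_anti_right _ hz (by simpa using hn)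

variable {Γ : Subgroup SL(2, ℤ)}

/-- A uniform bound for all `SL(2, ℤ)`-translates of the twisted Eisenstein series on
`im z ≥ 1`. -/
theorem exists_bound_twEis_slash {χ : Γ →* ℂˣ} (hnorm : ∀ γ, ‖(χ γ : ℂ)‖ = 1) {k : ℤ}
    (hk : 3 ≤ k) : ∃ M : ℝ, ∀ (g : SL(2, ℤ)) (z : ℍ), 1 ≤ z.im →
      ‖(twEis χ k ∣[k] g) z‖ ≤ M := by
  obtain ⟨M, hM⟩ := exists_bound_wEis hk
  refine ⟨M, fun g z hz => ?_⟩
  unfold twEis
  rw [wEis_slash]
  exact hM _ (fun v => norm_chiWeight_le hnorm _) z hz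

/-- The Kummer function `E^χ₁₂ / Δ` of a character `χ`. -/
def kumH (χ : Γ →* ℂˣ) : ℍ → ℂ := fun τ => twEis χ 12 τ * (Δ τ)⁻¹

lemma kumH_apply (χ : Γ →* ℂˣ) (τ : ℍ) : kumH χ τ = twEis χ 12 τ * (Δ τ)⁻¹ := rfl

theorem kumH_mdifferentiable {χ : Γ →* ℂˣ} (hnorm : ∀ γ, ‖(χ γ : ℂ)‖ = 1) :
    MDiff (kumH χ) := by
  have h1 : MDiff (twEis χ 12) := twEis_mdifferentiable hnorm (by norm_num)
  have h2 := h1.div Fermat.Agent.S28.H565.mdifferentiable_discriminant
    ModularForm.discriminant_ne_zero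
  have h3 : kumH χ = twEis χ 12 / Δ := by
    funext τ
    simp only [kumH_apply, Pi.div_apply, div_eq_mul_inv]
  rw [h3]
  exact h2

lemma denom_SL_eq (g : SL(2, ℤ)) (τ : ℍ) :
    denom (g : SL(2, ℤ)) τ = ((g 1 0 : ℤ) : ℂ) * τ + ((g 1 1 : ℤ) : ℂ) := by
  simp [UpperHalfPlane.denom]

/-- Translates of the Kummer function by `SL(2, ℤ)`. -/
theorem kumH_smul_SL (χ : Γ →* ℂˣ) (g : SL(2, ℤ)) (τ : ℍ) :
    kumH χ (g • τ) = (twEis χ 12 ∣[(12 : ℤ)] g) τ * (Δ τ)⁻¹ := by
  have hd : denom (g : SL(2, ℤ)) τ ≠ 0 := denom_ne_zero _ τ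
  rw [kumH_apply, SL_slash_apply, Fermat.Agent.S28.H565.discriminant_smul, ← denom_SL_eq,
    mul_inv, _root_.zpow_neg]
  ring

/-- The Kummer function transforms under `Γ` by the character `χ`. -/
theorem kumH_smul {χ : Γ →* ℂˣ} (hχ : TrivOnUnip χ) (γ : Γ) (τ : ℍ) :
    kumH χ ((γ : SL(2, ℤ)) • τ) = (χ γ : ℂ) * kumH χ τ := by
  rw [kumH_smul_SL, twEis_slash hχ, Pi.smul_apply, smul_eq_mul, kumH_apply, mul_assoc]

/-- All translates of the Kummer function have at most exponential growth at `i∞`. -/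
theorem kumH_expGrowth {χ : Γ →* ℂˣ} (hnorm : ∀ γ, ‖(χ γ : ℂ)‖ = 1) (g : SL(2, ℤ)) :
    ExpGrowth (fun τ => kumH χ (g • τ)) := by
  obtain ⟨M, hM⟩ := exists_bound_twEis_slash (χ := χ) hnorm (k := 12) (by norm_num)
  obtain ⟨C, hC⟩ := Fermat.Agent.S28.H589.exists_inv_discriminant_bound
  have hM0 : 0 ≤ M := (norm_nonneg _).trans (hM 1 UpperHalfPlane.I (by simp))
  refine ⟨M * C, 1, fun τ hτ => ?_⟩
  show ‖kumH χ (g • τ)‖ ≤ _
  rw [kumH_smul_SL, norm_mul]
  calc ‖(twEis χ 12 ∣[(12 : ℤ)] g) τ‖ * ‖(Δ τ)⁻¹‖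
      ≤ M * (C * Real.exp (2 * π * τ.im)) :=
        mul_le_mul (hM g τ hτ) (hC τ hτ) (norm_nonneg _) hM0
    _ = M * C * Real.exp (2 * π * (1 : ℕ) * τ.im) := by
        simp only [Nat.cast_one, mul_one]
        ring

/-- The Kummer function is not identically zero. -/
theorem kumH_ne_zero {χ : Γ →* ℂˣ} (hnorm : ∀ γ, ‖(χ γ : ℂ)‖ = 1) (hχ : TrivOnStabInfty χ) :
    kumH χ ≠ 0 := by
  intro h0
  apply twEis_ne_zero hnorm hχ (k := 12) (by norm_num) (by decide)
  funext τ
  have h1 : kumH χ τ = 0 := by rw [h0]; rfl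
  rw [kumH_apply] at h1
  rcases mul_eq_zero.mp h1 with h | h
  · exact h
  · exact absurd (inv_eq_zero.mp h) (ModularForm.discriminant_ne_zero τ)

/-- The `p`-th power of the Kummer function of a character of order dividing `p` is a good
function for `Γ₀(N)`: holomorphic, `Γ₀(N)`-invariant, all translates of exponential growth. -/
theorem kumH_pow_mem_goodRing {N : ℕ} {χ : Gamma0 N →* ℂˣ} (hχ : TrivOnUnip χ) {p : ℕ}
    (hp : p ≠ 0) (hχp : ∀ γ, χ γ ^ p = 1) : kumH χ ^ p ∈ goodRing N := by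
  have hnorm : ∀ γ, ‖(χ γ : ℂ)‖ = 1 := fun γ => norm_eq_one_of_pow_eq_one' hp (hχp γ)
  refine ⟨(kumH_mdifferentiable hnorm).pow p, fun γ hγ τ => ?_, fun g => ?_⟩
  · have h := kumH_smul hχ ⟨γ, hγ⟩ τ
    simp only [Pi.pow_apply]
    change kumH χ (γ • τ) = _ at h
    rw [h, mul_pow]
    have h1 : (χ ⟨γ, hγ⟩ : ℂ) ^ p = 1 := by
      have := congrArg (fun x : ℂˣ => (x : ℂ)) (hχp ⟨γ, hγ⟩)
      simpa using this
    rw [h1, one_mul]
  · have h := kumH_expGrowth (χ := χ) hnorm g
    have hpow : ∀ n : ℕ, ExpGrowth (fun τ => kumH χ (g • τ) ^ n) := by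
      intro n
      induction n with
      | zero =>
        simp only [pow_zero]
        exact Fermat.Agent.S24.H648.expGrowth_const 1
      | succ n ih =>
        have h2 := ih.mul h
        have h3 : ((fun τ => kumH χ (g • τ) ^ n) * fun τ => kumH χ (g • τ))
            = fun τ => kumH χ (g • τ) ^ (n + 1) := by
          funext τ
          simp only [Pi.mul_apply, pow_succ]
        rwa [h3] at h2
    exact hpow p

end

end Fermat.Agent.S29.H509

end
-- ===== PACK-END S29/H509/KummerFun.lean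

-- ===== PACK-BEGIN S24/Alg/Sub.lean
section






/-!
# S24 / ALG — sub-interface (statements needed by the global assembly in `Alg.lean`)

Adapters (helper984) from the FF layer (helper804), the KD layer (helper84) and the local
theorem (helper117) to the shapes used by the assembly.
-/

set_option autoImplicit false

noncomputable section

open AlgebraicCurve KaehlerDifferential

namespace Fermat.Agent.S24

variable {K F : Type*} [Field K] [Field F] [Algebra K F] [IsAlgClosed K] [CharZero K]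
variable {C : Type*} [Field C] [CharZero C] {X : Type*} [Finite X]

/-- The places of `F/K` at which `t` vanishes. -/
def zeroPlaces (K : Type*) {F : Type*} [Field K] [Field F] [Algebra K F] (t : F) :
    Set (Place K F) := {v | 0 < v.ord t}

/-! ### FF (function-field generalities) -/

omit [CharZero K] in
/-- FF2: all places have degree one. -/
theorem sub_deg_eq_one (j : F) (hj : Transcendental K j)
    [FiniteDimensional ↥(IntermediateField.adjoin K {j}) F] (v : Place K F) : v.deg = 1 :=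
  FF.deg_eq_one v hj

/-- FF3: a principal divisor has degree zero. -/
theorem sub_degree_principal (j : F) (hj : Transcendental K j)
    [FiniteDimensional ↥(IntermediateField.adjoin K {j}) F] (f : F) (hf : f ≠ 0)
    (D : Divisor K F) (hD : ∀ v : Place K F, D v = v.ord f) : Divisor.degree D = 0 :=
  degree_principal j hj f hf D hD

omit [CharZero K] in
/-- FF4: every place lies over a point of `ℙ¹_j`. -/
theorem sub_exists_point (j : F)
    [FiniteDimensional ↥(IntermediateField.adjoin K {j}) F] (v : Place K F) :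
    v.ord j < 0 ∨ ∃ a : K, 0 < v.ord (j - algebraMap K F a) := by
  rcases lt_or_ge (v.ord j) 0 with h | h
  · exact Or.inl h
  · haveI : Algebra.IsAlgebraic ↥(IntermediateField.adjoin K {j}) F :=
      Algebra.IsAlgebraic.of_finite _ _
    exact Or.inr (FF.exists_ord_sub_pos v j h)

/-! ### KD (Kähler differentials) -/

omit [IsAlgClosed K] in
/-- KD1: `Ω[F/K]` is spanned by `D j`. -/
theorem sub_exists_smul_D (j : F)
    [FiniteDimensional ↥(IntermediateField.adjoin K {j}) F] (ω : Ω[F⁄K]) :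
    ∃ f : F, ω = f • D K F j := by
  haveI : Algebra.IsAlgebraic ↥(IntermediateField.adjoin K {j}) F :=
    Algebra.IsAlgebraic.of_finite _ _
  have h : ω ∈ Submodule.span F {D K F j} := by
    rw [H84.span_D_eq_top j]; exact Submodule.mem_top
  obtain ⟨f, hf⟩ := Submodule.mem_span_singleton.mp h
  exact ⟨f, hf.symm⟩

/-- KD2: `ordDifferential` is additive in the coefficient. -/
theorem sub_ordDifferential_smul (j : F)
    [FiniteDimensional ↥(IntermediateField.adjoin K {j}) F] (v : Place K F)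
    (f : F) (hf : f ≠ 0) (ω : Ω[F⁄K]) (hω : ω ≠ 0) :
    v.ordDifferential (f • ω) = v.ord f + v.ordDifferential ω := by
  haveI : v.DCoordGenerates := H84.place_dCoordGenerates j v
  haveI : Nontrivial Ω[F⁄K] := ⟨⟨ω, 0, hω⟩⟩
  refine v.ordDifferential_smul hf ?_
  intro h0
  apply hω
  rw [← v.differentialCoeff_smul_dCoord ω, h0, zero_smul]

/-! ### LT (local theorem) -/

/-- LT: the places over the zero of `t` are finite in number, in bijection with the orbits of
`perm`, and the ramification indices add up to the degree. -/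
theorem sub_local_count (t : F)
    [FiniteDimensional ↥(IntermediateField.adjoin K {t}) F]
    (hrank : Module.finrank ↥(IntermediateField.adjoin K {t}) F = Nat.card X)
    (d : LocalData K F C X t) :
    (zeroPlaces K t).Finite ∧ Nat.card ↥(zeroPlaces K t) = numOrbits d.perm ∧
      ∑ᶠ v ∈ zeroPlaces K t, v.ord t = (Nat.card X : ℤ) := by
  classical
  have hfin : (zeroPlaces K t).Finite :=
    H117.finite_places_over d (IntermediateField.adjoin K {t}) le_rfl hrank
  have hs : ∀ v : Place K F, v ∈ hfin.toFinset ↔ 0 < v.ord t := fun v => by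
    simp [zeroPlaces]
  have ht : Transcendental K t := by
    have hpos : 0 < Nat.card X := hrank ▸ Module.finrank_pos
    obtain ⟨x⟩ := (Nat.card_pos_iff.mp hpos).1
    refine FF.transcendental_of_not_mem_range ?_
    rintro ⟨c, hc⟩
    have h1 := d.σ_t_order x
    have h3 : d.σ x t = HahnSeries.C (d.ι c) := by rw [← d.σ_const x c, hc]
    rw [h3] at h1
    have h2 : (HahnSeries.C (d.ι c) : LaurentSeries C).order = 0 := by
      rw [HahnSeries.C_apply]
      by_cases h0 : d.ι c = 0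
      · simp [h0]
      · exact HahnSeries.order_single h0
    rw [h2] at h1
    have := d.m_pos
    omega
  have hle : (Nat.card X : ℤ) ≤ ∑ v ∈ hfin.toFinset, v.ord t := by
    rw [← hrank]
    exact fundamental_le t ht hfin.toFinset hs
  obtain ⟨h1, -, h3⟩ :=
    H117.localThm d (IntermediateField.adjoin K {t}) le_rfl hrank hfin.toFinset hs hle
  refine ⟨hfin, ?_, ?_⟩
  · rw [Nat.card_coe_set_eq, Set.ncard_eq_toFinset_card _ hfin]
    exact h1
  · rw [finsum_mem_eq_finite_toFinset_sum _ hfin]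
    exact h3

/-- LT + KD4: order of `dt` at a zero of `t`. -/
theorem sub_ordDifferential_D (t : F)
    [FiniteDimensional ↥(IntermediateField.adjoin K {t}) F]
    (hrank : Module.finrank ↥(IntermediateField.adjoin K {t}) F = Nat.card X)
    (d : LocalData K F C X t) (v : Place K F) (hv : 0 < v.ord t) :
    v.ordDifferential (D K F t) = v.ord t - 1 := by
  obtain ⟨x, rfl⟩ :=
    H117.exists_placeOf_eq d (IntermediateField.adjoin K {t}) le_rfl hrank v hv
  haveI : (H117.placeOf d x).DCoordGenerates := H84.place_dCoordGenerates t _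
  exact H84.place_ordDifferential_D_of_ord_ne_zero (H117.placeOf d x) (d.σ x) d.ι (d.σ_const x)
    (H117.mult d x) (H117.mult_pos d x) (fun f _ => H117.order_eq d x f) t hv.ne'

end Fermat.Agent.S24

end
end
-- ===== PACK-END S24/Alg/Sub.lean

-- ===== PACK-BEGIN A2/IF/H429/Local.lean
section


/-!
# A2 / IF (helper429): local lemmas for a valuation subring `P` of `ℚ̄` over `q`

* `root_unique_of_derivative_notMem` : a root of `f` is determined by its residue class when the
  derivative is a unit there;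
* `exists_root_sub_mem_nonunits` : if `f(a) ≡ 0`, some root of the monic `f` is `≡ a`;
* `exists_pow_sub_mem_nonunits` : the residue field of `P` is algebraic over `𝔽_q`, in the form
  `a ^ N ≡ a` for some `N` divisible by `q`;
* `exists_teichmuller` : every element of `P` is congruent to an element of the inertia field
  (a root of `X ^ N - X`).
-/

set_option autoImplicit false
set_option linter.style.haveILetI false
set_option linter.unusedSectionVars false

open scoped Pointwise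
open Polynomial

namespace Fermat.Agent.A2.IF.H429

open Fermat.Agent.S55.Bridge Fermat.Agent.S55.Bridge.H594

attribute [local instance] isAlgebraic_Qbar isGalois_Qbar

local notation "Qb" => AlgebraicClosure ℚ

/-- A root of `f` is determined by its class modulo `m` if `f'` is not in `m` there. -/
theorem root_unique_of_derivative_notMem {A : Type*} [CommRing A] [IsDomain A] (m : Ideal A)
    (f : A[X]) (a₀ α β : A) (hα : f.IsRoot α) (hβ : f.IsRoot β)
    (hd : f.derivative.eval a₀ ∉ m) (hαa : α - a₀ ∈ m) (hβa : β - a₀ ∈ m) : α = β := by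
  by_contra hne
  obtain ⟨g, hg⟩ : ∃ g, f = (X - C α) * g := Polynomial.dvd_iff_isRoot.mpr hα
  have hgβ : g.eval β = 0 := by
    have h1 : f.eval β = 0 := hβ
    rw [hg, eval_mul, eval_sub, eval_X, eval_C] at h1
    rcases mul_eq_zero.mp h1 with h | h
    · exact absurd (sub_eq_zero.mp h).symm hne
    · exact h
  apply hd
  have h2 : f.derivative.eval a₀ = g.eval a₀ + (a₀ - α) * g.derivative.eval a₀ := by
    rw [hg, derivative_mul, derivative_sub, derivative_X, derivative_C]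
    simp
  rw [h2]
  apply m.add_mem
  · have h3 : a₀ - β ∣ g.eval a₀ - g.eval β := sub_dvd_eval_sub a₀ β g
    rw [hgβ, sub_zero] at h3
    obtain ⟨c, hc⟩ := h3
    rw [hc]
    apply m.mul_mem_right
    have : a₀ - β = -(β - a₀) := by ring
    rw [this]
    exact m.neg_mem hβa
  · apply m.mul_mem_right
    have : a₀ - α = -(α - a₀) := by ring
    rw [this]
    exact m.neg_mem hαa

variable (P : ValuationSubring Qb)

/-- Roots of monic polynomials over `P` lie in `P`. -/
theorem mem_of_isRoot_map (g : (P : Type)[X]) (hg : g.Monic) (r : Qb)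
    (hr : (g.map P.subtype).IsRoot r) : r ∈ P := by
  have hint : IsIntegral P r := by
    refine ⟨g, hg, ?_⟩
    have h1 : (g.map P.subtype).eval r = 0 := hr
    rw [eval_map] at h1
    exact h1
  obtain ⟨y, hy⟩ := IsIntegrallyClosed.isIntegral_iff.mp hint
  rw [← hy]
  exact y.2

/-- If `f(a)` is a non-unit, then `a` is congruent to a root of the monic polynomial `f`. -/
theorem exists_root_sub_mem_nonunits (f : Qb[X]) (hf : f.Monic)
    (hroots : ∀ r ∈ f.roots, r ∈ P) (a : Qb) (ha : a ∈ P) (h : f.eval a ∈ P.nonunits) :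
    ∃ r ∈ f.roots, a - r ∈ P.nonunits := by
  by_contra hcon
  have h1 : ∀ r ∈ f.roots, P.valuation (a - r) = 1 := by
    intro r hr
    have h2 : a - r ∉ P.nonunits := fun h' => hcon ⟨r, hr, h'⟩
    rw [ValuationSubring.mem_nonunits_iff, not_lt] at h2
    exact le_antisymm ((P.valuation_le_one_iff _).mpr (sub_mem ha (hroots r hr))) h2
  have h3 : P.valuation (f.eval a) = 1 := by
    rw [(IsAlgClosed.splits f).eval_eq_prod_roots_of_monic hf a, map_multiset_prod,
      Multiset.map_map]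
    apply Multiset.prod_eq_one
    intro x hx
    obtain ⟨r, hr, rfl⟩ := Multiset.mem_map.mp hx
    exact h1 r hr
  rw [ValuationSubring.mem_nonunits_iff, h3] at h
  exact lt_irrefl _ h

/-- Every algebraic number is a root of a primitive integer polynomial. -/
theorem exists_primitive_aeval_eq_zero (a : Qb) :
    ∃ h : ℤ[X], h.IsPrimitive ∧ aeval a h = 0 := by
  have h1 : IsAlgebraic ℚ a := Algebra.IsAlgebraic.isAlgebraic a
  have h2 : IsAlgebraic ℤ a := (IsFractionRing.isAlgebraic_iff ℤ ℚ Qb).mpr h1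
  obtain ⟨h, hh0, hha⟩ := h2
  refine ⟨h.primPart, h.isPrimitive_primPart, ?_⟩
  have h3 := h.eq_C_content_mul_primPart
  rw [h3, map_mul, aeval_C] at hha
  rcases mul_eq_zero.mp hha with h4 | h4
  · exfalso
    have h5 : h.content ≠ 0 := by
      rw [Ne, content_eq_zero_iff]; exact hh0
    rw [eq_intCast, Int.cast_eq_zero] at h4
    exact h5 h4
  · exact h4

/-- The residue field of `P` is algebraic over `𝔽_q`, elementary form. -/
theorem exists_pow_sub_mem_nonunits (q : ℕ) (hq : q.Prime) (hP : P.LiesOverPrime q)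
    (a : Qb) (ha : a ∈ P) : ∃ N : ℕ, q ∣ N ∧ 0 < N ∧ a ^ N - a ∈ P.nonunits := by
  classical
  haveI : Fact q.Prime := ⟨hq⟩
  let k := IsLocalRing.ResidueField P
  have hqk : ((q : ℕ) : k) = 0 := by
    have h1 : ((q : ℕ) : k) = IsLocalRing.residue P ((q : ℕ) : P) := by
      rw [map_natCast]
    rw [h1, IsLocalRing.residue_eq_zero_iff, ← ValuationSubring.coe_mem_nonunits_iff]
    have h2 : (((q : ℕ) : P) : Qb) = (q : Qb) := by simp
    rw [h2]
    exact hP
  haveI : CharP k q := (CharP.charP_iff_prime_eq_zero hq).mpr hqk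
  letI : Algebra (ZMod q) k := ZMod.algebra k q
  let a' : P := ⟨a, ha⟩
  let ā : k := IsLocalRing.residue P a'
  have halg : IsAlgebraic (ZMod q) ā := by
    obtain ⟨h, hprim, hha⟩ := exists_primitive_aeval_eq_zero a
    refine ⟨h.map (Int.castRingHom (ZMod q)), ?_, ?_⟩
    · intro h0
      have hdvd : C (q : ℤ) ∣ h := by
        rw [C_dvd_iff_dvd_coeff]
        intro i
        have := congrArg (fun p => coeff p i) h0
        simp only [coeff_map, eq_intCast, coeff_zero] at this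
        exact (ZMod.intCast_zmod_eq_zero_iff_dvd _ q).mp this
      have hu := hprim (q : ℤ) hdvd
      rw [Int.isUnit_iff] at hu
      rcases hu with hu | hu
      · have : q = 1 := by exact_mod_cast hu
        exact hq.one_lt.ne' this
      · have : (0 : ℤ) ≤ (q : ℤ) := Int.natCast_nonneg q
        omega
    · rw [aeval_def, eval₂_map]
      have hcomp : (algebraMap (ZMod q) k).comp (Int.castRingHom (ZMod q)) =
          (IsLocalRing.residue P).comp (Int.castRingHom P) := RingHom.ext_int _ _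
      rw [hcomp, ← hom_eval₂]
      have hz : eval₂ (Int.castRingHom P) a' h = 0 := by
        apply Subtype.ext
        have h1 := hom_eval₂ h (Int.castRingHom P) P.subtype a'
        have h2 : P.subtype.comp (Int.castRingHom P) = algebraMap ℤ Qb := RingHom.ext_int _ _
        rw [h2] at h1
        have h3 : eval₂ (algebraMap ℤ Qb) (P.subtype a') h = 0 := hha
        rw [h3] at h1
        exact h1
      rw [hz, map_zero]
  let F : IntermediateField (ZMod q) k := IntermediateField.adjoin (ZMod q) {ā}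
  haveI : FiniteDimensional (ZMod q) F :=
    IntermediateField.adjoin.finiteDimensional halg.isIntegral
  haveI : Finite F := Module.finite_of_finite (ZMod q)
  haveI : Fintype F := Fintype.ofFinite F
  let x : F := ⟨ā, IntermediateField.mem_adjoin_simple_self (ZMod q) ā⟩
  have hx : x ^ Fintype.card F = x := FiniteField.pow_card x
  have hN0 : ((Fintype.card F : ℕ) : F) = 0 := FiniteField.cast_card_eq_zero F
  haveI : CharP F q := (RingHom.charP_iff (algebraMap F k) (algebraMap F k).injective q).mpr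
    inferInstance
  refine ⟨Fintype.card F, (CharP.cast_eq_zero_iff F q _).mp hN0, Fintype.card_pos, ?_⟩
  have h1 : ā ^ Fintype.card F = ā := by
    have := congrArg (fun y : F => (y : k)) hx
    simpa using this
  have h2 : IsLocalRing.residue P (a' ^ Fintype.card F - a') = 0 := by
    rw [map_sub, map_pow]
    exact sub_eq_zero.mpr h1
  rw [IsLocalRing.residue_eq_zero_iff, ← ValuationSubring.coe_mem_nonunits_iff] at h2
  simpa using h2


theorem natCast_mem_maximalIdeal_of_dvd (q : ℕ) (hP : P.LiesOverPrime q) (N : ℕ) (hqN : q ∣ N) :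
    ((N : ℕ) : P) ∈ IsLocalRing.maximalIdeal P := by
  obtain ⟨c, rfl⟩ := hqN
  rw [Nat.cast_mul]
  apply Ideal.mul_mem_right
  rw [← ValuationSubring.coe_mem_nonunits_iff]
  have h2 : (((q : ℕ) : P) : Qb) = (q : Qb) := by simp
  rw [h2]
  exact hP

/-- **Teichmüller lifts.**  Every element of `P` is congruent modulo the maximal ideal to an
element of the inertia field lying in `P`. -/
theorem exists_teichmuller (q : ℕ) (hq : q.Prime) (hP : P.LiesOverPrime q) (a : Qb)
    (ha : a ∈ P) : ∃ z : Qb, z ∈ P ∧ z ∈ inertiaField P ∧ a - z ∈ P.nonunits := by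
  obtain ⟨N, hqN, hN0, haN⟩ := exists_pow_sub_mem_nonunits P q hq hP a ha
  have hN2 : 2 ≤ N := le_trans hq.two_le (Nat.le_of_dvd hN0 hqN)
  let g : (P : Type)[X] := X ^ N - X
  have hg : g.Monic := by
    apply monic_X_pow_sub
    rw [degree_X]
    exact_mod_cast hN2
  have hgmap : g.map P.subtype = X ^ N - X := by
    simp [g]
  have hroots : ∀ r ∈ (g.map P.subtype).roots, r ∈ P := fun r hr =>
    mem_of_isRoot_map P g hg r (isRoot_of_mem_roots hr)
  have heval : (g.map P.subtype).eval a ∈ P.nonunits := by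
    rw [hgmap]
    simpa using haN
  obtain ⟨z, hz, hza⟩ := exists_root_sub_mem_nonunits P _ (hg.map _) hroots a ha heval
  have hzP : z ∈ P := hroots z hz
  have hzN : z ^ N = z := by
    have h1 : (g.map P.subtype).eval z = 0 := isRoot_of_mem_roots hz
    rw [hgmap] at h1
    simp only [eval_sub, eval_pow, eval_X] at h1
    exact sub_eq_zero.mp h1
  refine ⟨z, hzP, ?_, hza⟩
  rw [mem_inertiaField_iff]
  intro τ hτ
  have hτzP : τ z ∈ P := mem_of_mem_decomp P (decomp_of_inertia P hτ) hzP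
  have hτzN : (τ z) ^ N = τ z := by rw [← map_pow, hzN]
  have key := root_unique_of_derivative_notMem (IsLocalRing.maximalIdeal P) g
    (⟨z, hzP⟩ : P) ⟨z, hzP⟩ ⟨τ z, hτzP⟩ ?_ ?_ ?_ ?_ ?_
  · exact (congrArg Subtype.val key).symm
  · show g.eval _ = 0
    simp only [g, eval_sub, eval_pow, eval_X]
    apply Subtype.ext
    simpa using sub_eq_zero.mpr hzN
  · show g.eval _ = 0
    simp only [g, eval_sub, eval_pow, eval_X]
    apply Subtype.ext
    simpa using sub_eq_zero.mpr hτzN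
  · intro hmem
    have hN := natCast_mem_maximalIdeal_of_dvd P q hP N hqN
    have h1 : g.derivative.eval (⟨z, hzP⟩ : P) =
        (N : P) * (⟨z, hzP⟩ : P) ^ (N - 1) - 1 := by
      simp [g, derivative_X_pow]
    rw [h1] at hmem
    have h2 : (1 : P) ∈ IsLocalRing.maximalIdeal P := by
      have := Ideal.sub_mem _ (Ideal.mul_mem_right ((⟨z, hzP⟩ : P) ^ (N - 1)) _ hN) hmem
      simpa using this
    exact (Ideal.ne_top_iff_one _).mp (IsLocalRing.maximalIdeal.isMaximal P).ne_top h2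
  · simp
  · rw [← ValuationSubring.coe_mem_nonunits_iff]
    exact sub_mem_nonunits_of_inertia P hτ hzP


end Fermat.Agent.A2.IF.H429

end
-- ===== PACK-END A2/IF/H429/Local.lean

-- ===== PACK-BEGIN S36/H193/LabelLocal.lean
section


/-!
# S36 engine, leaf CLOPEN (helper193), part 5: labels at a closed point from a purity datum

Setting of `LabelWall.lean`.  `C` is a chart of the cover field `Z`, `𝔫` a closed point of its
special fibre, `G ∈ Z` the Kummer generator.

* `isUnit_sub_of_pow_eq_one` : two distinct `m`-th roots of unity in a domain in which `m` is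
  invertible differ by a unit.
* `label_ratio_at_point` : let `G = Y h` with `Y` regular at `𝔫` (`s' G = a' h`, `s' ∉ 𝔫`), and let
  `W, W'` be sheets through `𝔫` on which `h` has the residues `t / s`, `t₁ / s₁` (regular at `𝔫`)
  and `G` the labels `ca`, `cb`.  Then `ca · s · t₁ ≡ cb · s₁ · t` modulo `𝔫`: *the ratio of the
  labels is the ratio of the values at `𝔫` of the residues of `h`*.
* `PureValuesAt` : a purity datum `h` at `𝔫` whose residue on every sheet `W` through `𝔫` has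
  the value `ζ ^ κ W · v` at `𝔫` (the output of purity + norm compatibility of the label ratios).
* **`kummer_wall3_of_values`** : `PureValuesAt` at every closed point of the special fibre of the
  two charts of `Z`, with `κ` depending only on the colour of the sheet, implies `G ∈ F`.
-/

set_option autoImplicit false
set_option linter.style.haveILetI false

namespace Fermat.Agent.S36.H193

open Polynomial Fermat.Agent.S18.H138

section Units

variable {A : Type*} [CommRing A] [IsDomain A]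

/-- Distinct `m`-th roots of unity differ by a unit if `m` is invertible. -/
theorem isUnit_sub_of_pow_eq_one {m : ℕ} {mi : A} (hmi : (m : A) * mi = 1) {u v : A}
    (hu : u ^ m = 1) (hv : v ^ m = 1) (hne : u ≠ v) : IsUnit (u - v) := by
  have hm0 : m ≠ 0 := by
    rintro rfl
    simp at hmi
  have hS : ∑ i ∈ Finset.range m, u ^ i * v ^ (m - 1 - i) = 0 := by
    have h := geom_sum₂_mul u v m
    rw [hu, hv, sub_self] at h
    rcases mul_eq_zero.1 h with h1 | h1
    · exact h1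
    · exact absurd (sub_eq_zero.1 h1) hne
  have hdvd : u - v ∣ ∑ i ∈ Finset.range m, (u ^ i - v ^ i) * v ^ (m - 1 - i) :=
    Finset.dvd_sum fun i _ => Dvd.dvd.mul_right (sub_dvd_pow_sub_pow u v i) _
  have hsum : ∑ i ∈ Finset.range m, (u ^ i - v ^ i) * v ^ (m - 1 - i) =
      -((m : A) * v ^ (m - 1)) := by
    have h1 : ∀ i ∈ Finset.range m, (u ^ i - v ^ i) * v ^ (m - 1 - i) =
        u ^ i * v ^ (m - 1 - i) - v ^ (m - 1) := by
      intro i hi
      have hi' : i + (m - 1 - i) = m - 1 := by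
        have := Finset.mem_range.1 hi
        omega
      rw [sub_mul, ← pow_add, hi']
    rw [Finset.sum_congr rfl h1, Finset.sum_sub_distrib, hS, zero_sub]
    simp
  rw [hsum] at hdvd
  have hvu : IsUnit v := IsUnit.of_pow_eq_one hv hm0
  have hmu : IsUnit (m : A) := IsUnit.of_mul_eq_one _ hmi
  exact isUnit_of_dvd_unit hdvd ((hmu.mul (hvu.pow _)).neg)

end Units

section Local

variable {R : Type*} [CommRing R] {Z : Type*} [Field Z] [Algebra R Z]

/-- **The ratio of the labels of two sheets through a closed point** is the ratio of the values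
at that point of the residues of a purity datum. -/
theorem label_ratio_at_point (C : Subalgebra R Z) (𝔫 : Ideal C) [h𝔫 : 𝔫.IsPrime]
    {W W' : ValuationSubring Z} (hCW : ∀ c ∈ C, c ∈ W) (hCW' : ∀ c ∈ C, c ∈ W')
    (hth : Through C 𝔫 W) (hth' : Through C 𝔫 W')
    {G h : Z} {a' s' : C} (hs' : s' ∉ 𝔫) (hY : (s' : Z) * G = a' * h)
    {s t s₁ t₁ : C} (hh : (s : Z) * h - t ∈ W.nonunits) (hh' : (s₁ : Z) * h - t₁ ∈ W'.nonunits)
    {ca cb : C} (hGa : G - ca ∈ W.nonunits) (hGb : G - cb ∈ W'.nonunits) :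
    ca * s * t₁ - cb * s₁ * t ∈ 𝔫 := by
  -- on `W`: `s s' ca - a' t ∈ 𝔫`
  have key : ∀ {V : ValuationSubring Z}, (∀ c ∈ C, c ∈ V) → Through C 𝔫 V →
      ∀ {σ τ c : C}, (σ : Z) * h - τ ∈ V.nonunits → G - c ∈ V.nonunits →
        σ * s' * c - a' * τ ∈ 𝔫 := by
    intro V hCV hV σ τ c h1 h2
    apply hV
    have : ((σ * s' * c - a' * τ : C) : Z) =
        (a' : Z) * ((σ : Z) * h - τ) - (σ : Z) * (s' : Z) * (G - c) := by
      push_cast
      have : (σ : Z) * (s' : Z) * G = (σ : Z) * ((a' : Z) * h) := by rw [← hY]; ring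
      linear_combination this
    rw [this]
    exact nu_sub V (nu_mul_left V h1 (hCV _ a'.2))
      (nu_mul_left V h2 (V.mul_mem _ _ (hCV _ σ.2) (hCV _ s'.2)))
  have h1 := key hCW hth hh hGa
  have h2 := key hCW' hth' hh' hGb
  have h3 : s' * (ca * s * t₁ - cb * s₁ * t) ∈ 𝔫 := by
    have : s' * (ca * s * t₁ - cb * s₁ * t) =
        t₁ * (s * s' * ca - a' * t) - t * (s₁ * s' * cb - a' * t₁) := by ring
    rw [this]
    exact 𝔫.sub_mem (𝔫.mul_mem_left _ h1) (𝔫.mul_mem_left _ h2)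
  exact (h𝔫.mem_or_mem h3).resolve_left hs'

/-- A **purity datum with normalised values** at the closed point `𝔫` of the chart `C`:
`G = Y h` with `Y` regular at `𝔫`, and on every sheet `W` through `𝔫` the residue of `h` is
regular at `𝔫` with value `ζ ^ κ W · v`. -/
def PureValuesAt (𝒲 : Set (ValuationSubring Z)) (C : Subalgebra R Z) (𝔫 : Ideal C) (G : Z)
    (ζ : R) (κ : ValuationSubring Z → ℕ) : Prop :=
  ∃ (h : Z) (a' s' v : C), s' ∉ 𝔫 ∧ v ∉ 𝔫 ∧ (s' : Z) * G = a' * h ∧
    ∀ W ∈ 𝒲, Through C 𝔫 W → ∃ s t : C, s ∉ 𝔫 ∧ (s : Z) * h - t ∈ W.nonunits ∧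
      t - algebraMap R C (ζ ^ κ W) * v * s ∈ 𝔫

/-- The local hypothesis of `kummer_wall3` from a purity datum with normalised values. -/
theorem label_eq_of_pureValuesAt [IsDomain R] {𝒲 : Set (ValuationSubring Z)}
    (C : Subalgebra R Z) (𝔫 : Ideal C) [h𝔫 : 𝔫.IsPrime]
    (hC : ∀ W ∈ 𝒲, ∀ c ∈ C, c ∈ W)
    {m : ℕ} {mi : R} (hmi : (m : R) * mi = 1) {ζ : R} (hζ : ζ ^ m = 1)
    {G : Z} {κ : ValuationSubring Z → ℕ} (hpv : PureValuesAt 𝒲 C 𝔫 G ζ κ)
    {W W' : ValuationSubring Z} (hW : W ∈ 𝒲) (hW' : W' ∈ 𝒲)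
    (hth : Through C 𝔫 W) (hth' : Through C 𝔫 W') {a b : ℕ}
    (ha : G - algebraMap R Z (ζ ^ a) ∈ W.nonunits)
    (hb : G - algebraMap R Z (ζ ^ b) ∈ W'.nonunits) :
    ζ ^ (a + κ W') = ζ ^ (b + κ W) := by
  obtain ⟨h, a', s', v, hs', hv, hY, hval⟩ := hpv
  obtain ⟨s, t, hs, hh, ht⟩ := hval W hW hth
  obtain ⟨s₁, t₁, hs₁, hh', ht₁⟩ := hval W' hW' hth'
  have hA := label_ratio_at_point C 𝔫 (hC W hW) (hC W' hW') hth hth' hs' hY hh hh'
    (ca := algebraMap R C (ζ ^ a)) (cb := algebraMap R C (ζ ^ b)) ha hb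
  -- substitute the values
  have hB : algebraMap R C (ζ ^ (a + κ W') - ζ ^ (b + κ W)) * (v * s * s₁) ∈ 𝔫 := by
    have : algebraMap R C (ζ ^ (a + κ W') - ζ ^ (b + κ W)) * (v * s * s₁) =
        (algebraMap R C (ζ ^ a) * s * t₁ - algebraMap R C (ζ ^ b) * s₁ * t)
          - algebraMap R C (ζ ^ a) * s * (t₁ - algebraMap R C (ζ ^ κ W') * v * s₁)
          + algebraMap R C (ζ ^ b) * s₁ * (t - algebraMap R C (ζ ^ κ W) * v * s) := by
      simp only [map_sub, map_pow, map_mul, pow_add]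
      ring
    rw [this]
    exact 𝔫.add_mem (𝔫.sub_mem hA (𝔫.mul_mem_left _ ht₁)) (𝔫.mul_mem_left _ ht)
  have hprod : v * s * s₁ ∉ 𝔫 := by
    intro hmem
    rcases h𝔫.mem_or_mem hmem with h1 | h1
    · rcases h𝔫.mem_or_mem h1 with h2 | h2
      · exact hv h2
      · exact hs h2
    · exact hs₁ h1
  have hC0 : algebraMap R C (ζ ^ (a + κ W') - ζ ^ (b + κ W)) ∈ 𝔫 :=
    (h𝔫.mem_or_mem hB).resolve_right hprod
  by_contra hne
  have hu : IsUnit (ζ ^ (a + κ W') - ζ ^ (b + κ W)) :=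
    isUnit_sub_of_pow_eq_one hmi (by rw [← pow_mul, mul_comm, pow_mul, hζ, one_pow])
      (by rw [← pow_mul, mul_comm, pow_mul, hζ, one_pow]) hne
  exact h𝔫.ne_top (𝔫.eq_top_of_isUnit_mem hC0 (hu.map (algebraMap R C)))

end Local

section Wall

variable {R : Type*} [CommRing R] {Z : Type*} [Field Z] [Algebra R Z]
variable [IsNoetherianRing R] [IsIntegrallyClosed (Polynomial R)] [CharZero Z]

/-- **The label wall, purity form.**  If at every closed point of the special fibre of the two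
charts of the cover there is a purity datum with normalised values (normalisation depending only
on the colour of the sheet), then the split Kummer generator `G` lies in the base field. -/
theorem kummer_wall3_of_values [IsDomain R]
    (hinjR : Function.Injective (algebraMap R Z))
    (hRF : ∀ y : Z, IsIntegral R y → y ∈ Set.range (algebraMap R Z))
    {x : Z} (hx : Transcendental R x) [FiniteDimensional (baseField R x) Z]
    (w : R) (hw : Prime w)
    {𝒲 : Set (ValuationSubring Z)} (h𝒲 : 𝒲.Finite) (hne : 𝒲.Nonempty) (hsep : Sep 𝒲)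
    (hmid : ∀ W ∈ 𝒲, ∀ c ∈ chart R ({x, x⁻¹} : Set Z), c ∈ W)
    (hwW : ∀ W ∈ 𝒲, algebraMap R Z w ∈ W.nonunits)
    (qep_fin : QepRad 𝒲 w (chart R ({x} : Set Z)))
    (qep_inf : QepRad 𝒲 w (chart R ({x⁻¹} : Set Z)))
    (qep_mid : QepRad 𝒲 w (chart R ({x, x⁻¹} : Set Z)))
    {F : Type*} [Field F] [Algebra R F] [Algebra F Z] [IsScalarTower R F Z]
    [IsGalois F Z] [FiniteDimensional F Z]
    (hstable : ∀ σ : Z ≃ₐ[F] Z, ∀ W ∈ 𝒲, W.comap ((σ.symm : Z ≃+* Z) : Z →+* Z) ∈ 𝒲)
    {m : ℕ} (hm : 0 < m) {mi : R} (hmi : (m : R) * mi = 1) {ζ : R} (hζ : IsPrimitiveRoot ζ m)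
    {G : Z} (hGF : G ^ m ∈ Set.range (algebraMap F Z))
    (hG1 : ∀ W ∈ 𝒲, G ^ m - 1 ∈ W.nonunits)
    (κ : ValuationSubring F → ℕ)
    (hpv_fin : ∀ 𝔫 : Ideal (chart R ({x} : Set Z)), 𝔫.IsMaximal →
      algebraMap R (chart R ({x} : Set Z)) w ∈ 𝔫 →
      PureValuesAt 𝒲 (chart R ({x} : Set Z)) 𝔫 G ζ fun W => κ (W.comap (algebraMap F Z)))
    (hpv_inf : ∀ 𝔫 : Ideal (chart R ({x⁻¹} : Set Z)), 𝔫.IsMaximal →
      algebraMap R (chart R ({x⁻¹} : Set Z)) w ∈ 𝔫 →
      PureValuesAt 𝒲 (chart R ({x⁻¹} : Set Z)) 𝔫 G ζ fun W => κ (W.comap (algebraMap F Z))) :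
    G ∈ Set.range (algebraMap F Z) := by
  have hfm : chart R ({x} : Set Z) ≤ chart R ({x, x⁻¹} : Set Z) := chart_mono (by simp)
  have him : chart R ({x⁻¹} : Set Z) ≤ chart R ({x, x⁻¹} : Set Z) := chart_mono (by simp)
  refine kummer_wall3 hinjR hRF hx w hw h𝒲 hne hsep hmid hwW qep_fin qep_inf qep_mid hstable
    hm hmi hζ hGF hG1 κ ?_ ?_
  · intro 𝔫 h𝔫 hw𝔫 W hW W' hW' hth hth' a b ha hb
    haveI := h𝔫.isPrime
    exact label_eq_of_pureValuesAt _ 𝔫 (fun V hV c hc => hmid V hV c (hfm hc)) hmi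
      hζ.pow_eq_one (hpv_fin 𝔫 h𝔫 hw𝔫) hW hW' hth hth' ha hb
  · intro 𝔫 h𝔫 hw𝔫 W hW W' hW' hth hth' a b ha hb
    haveI := h𝔫.isPrime
    exact label_eq_of_pureValuesAt _ 𝔫 (fun V hV c hc => hmid V hV c (him hc)) hmi
      hζ.pow_eq_one (hpv_inf 𝔫 h𝔫 hw𝔫) hW hW' hth hth' ha hb

end Wall

end Fermat.Agent.S36.H193

end
-- ===== PACK-END S36/H193/LabelLocal.lean

-- ===== PACK-BEGIN S36/H972/EisOfH83.lean
section




/-!
# S36 / MOD3 (helper972): the formal input `EisSeries` from helper83's EIS leaf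

`exists_eisSeries q hq : ∃ Ψ G, EisSeries q (J ^ (q ^ 2)) Ψ G` for every prime `q`, from
`S36/H83/Eis.lean` (`h83_eisPsi_eq_add`, `h83_eisPsi_mem_lifts`, `h83_eisPsi_eval_jpp`) and the
modular polynomial `S28.H326.nonempty_modPolyData`.
-/

set_option autoImplicit false

noncomputable section

namespace Fermat.Agent.S36.H972

open Polynomial ModularCurve Fermat.Agent.S28 Fermat.Agent.S36.H83

theorem exists_not_dvd_of_red_ne_zero (q : ℕ) {x : LaurentSeries ℤ} (hx : h83_red q x ≠ 0) :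
    ∃ n : ℤ, ¬ (q : ℤ) ∣ x.coeff n := by
  by_contra hcon
  simp only [not_exists, not_not] at hcon
  apply hx
  ext n
  simp only [h83_red, coeffMap_coeff, HahnSeries.coeff_zero, Int.coe_castRingHom]
  exact (ZMod.intCast_zmod_eq_zero_iff_dvd _ q).mpr (hcon n)

theorem exists_eisSeries (q : ℕ) [NeZero q] (hq : q.Prime) :
    ∃ Ψ G : (LaurentSeries ℤ)[X], EisSeries q (jqModC ℤ ^ (q ^ 2)) Ψ G := by
  have : Fact q.Prime := ⟨hq⟩
  obtain ⟨Φ⟩ := Fermat.Agent.S28.H326.nonempty_modPolyData q hq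
  obtain ⟨G, hdec, -, hG, hA⟩ := h83_eisPsi_eq_add q Φ
  have hJ : jqModC ℤ ∈ jjRing q := Subring.subset_closure (by simp)
  have hJq : qExpand ℤ q (jqModC ℤ) ∈ jjRing q := Subring.subset_closure (by simp)
  have hqq : qExpand ℤ (q * q) (jqModC ℤ) = qExpand ℤ q (qExpand ℤ q (jqModC ℤ)) :=
    (qExpand_qExpand q q (jqModC ℤ)).symm
  refine ⟨h83_eisPsi q Φ, G, ?_⟩
  refine
    { monic := h83_eisPsi_monic q Φ
      natDegree_eq := h83_eisPsi_natDegree q Φ
      coeff_mem := ?_
      root := by rw [hqq]; exact h83_eisPsi_eval_jpp q Φ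
      A_mem := pow_mem hJ _
      A_cong := ?_
      A_unit := exists_not_dvd_of_red_ne_zero q hA
      dec := by rw [hdec]; ring
      unit := exists_not_dvd_of_red_ne_zero q hG }
  · intro i
    obtain ⟨Ψ₀, -, hΨ₀⟩ := h83_eisPsi_mem_lifts q Φ (jjRing q) hJ hJq
    rw [← hΨ₀, Polynomial.coeff_map]
    exact (Ψ₀.coeff i).2
  · have h0 : h83_red q (qExpand ℤ (q * q) (jqModC ℤ) - jqModC ℤ ^ (q ^ 2)) = 0 := by
      rw [map_sub, hqq, h83_red_jpp, map_pow, h83_red_j, sub_self]
    obtain ⟨H, hH⟩ := h83_dvd_of_red_eq_zero q h0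
    exact ⟨H, hH⟩

end Fermat.Agent.S36.H972

end

end
-- ===== PACK-END S36/H972/EisOfH83.lean

-- ===== PACK-BEGIN S36/H876/LiteSelf.lean
section


/-!
# REG at the closed points lying on the middle component ONLY, from `Qep3` alone
(helper876, S36 / MOD3, leaf `LeafRegM`: fields `regular_m` and `regular_i`)

Elementwise, in the vocabulary of `Eng.TripleCtx`.  NO noetherianity, NO Hartogs lemma,
NO localisation, NO `IsLocDVR`, NO modular unit with prescribed divisor, NO horizontal analysis.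

`B ⊆ V₁ ∩ V₂ ∩ V₃` a chart with `Qep3 w B V₁ V₂ V₃`, `w` a uniformiser of `V₁` and of `V₃`,
`𝔪` a prime of `B` on the component `V₂` and NOT on `V₁`, NOT on `V₃`
(a point of the middle component only: an ordinary point of `mid`, or a cusp of `mid`).  If

* `x ∈ B` is a uniformiser of `V₂`,
* `g₁ ∈ B ∖ 𝔪`, `g₂ ∈ B`,
* `x ^ N · g₂ ≡ w ^ k · g₁` modulo `w ^ k · 𝔪_{V₂}`      (a congruence in the residue field of `V₂`),

then `x` generates `B ∩ 𝔪_{V₂}` locally at `𝔪`: `Eng.PrincipalAt B 𝔪 V₂`.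

Proof.  Choose `e₁ ∈ B ∩ 𝔪_{V₁}`, `e₃ ∈ B ∩ 𝔪_{V₃}` outside `𝔪`, `e = e₁ e₃`.  Then
`G = x ^ N g₂ e ^ k / w ^ k` and `c = a x ^ (N - 1) g₂ e ^ k / w ^ k` (`a ∈ B ∩ 𝔪_{V₂}`) lie in
`V₁ ∩ V₂ ∩ V₃`, hence in `B` (`Qep3` iterated), `G a = x c`, and `G ≡ g₁ e ^ k` modulo `𝔪_{V₂}`,
so `G ∉ 𝔪`.

* `lite_qep3_pow`          : `Qep3` iterated;
* `principalAt_lite`       : the statement above;
* `lite_unifAt_of_cong`    : the congruence + `w ^ k = unit · t ^ N` (`t` a uniformiser) ⟹ `x` is a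
                             uniformiser;
* `principalAt_lite'`      : the same with `w ^ k = unit · t ^ N` instead of "`x` uniformiser"
                             (application: `k = 12`, `N = 12 (q - 1)`, `ram₂`).
-/

set_option autoImplicit false

namespace Fermat.Agent.S36.H876

open Fermat.Agent.S36.Eng

variable {R F : Type*} [CommRing R] [Field F] [Algebra R F]

/-- `𝔪_V · V ⊆ 𝔪_V`. -/
theorem lite_nonunits_mul (V : ValuationSubring F) {a b : F} (ha : a ∈ V.nonunits)
    (hb : b ∈ V) : a * b ∈ V.nonunits := by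
  rw [ValuationSubring.mem_nonunits_iff, map_mul]
  exact mul_lt_one_of_lt_of_le ((V.mem_nonunits_iff).1 ha) ((V.valuation_le_one_iff b).2 hb)

/-- `Qep3`, iterated: an element `b / w ^ k` (`b ∈ B`) of `V₁ ∩ V₂ ∩ V₃` lies in `B`. -/
theorem lite_qep3_pow (w : R) (B : Subalgebra R F) (V₁ V₂ V₃ : ValuationSubring F)
    (hw0 : algebraMap R F w ≠ 0)
    (hw₁ : algebraMap R F w ∈ V₁) (hw₂ : algebraMap R F w ∈ V₂) (hw₃ : algebraMap R F w ∈ V₃)
    (hqep : Qep3 w B V₁ V₂ V₃) (k : ℕ) (b : B)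
    (h₁ : (b : F) * (algebraMap R F w ^ k)⁻¹ ∈ V₁)
    (h₂ : (b : F) * (algebraMap R F w ^ k)⁻¹ ∈ V₂)
    (h₃ : (b : F) * (algebraMap R F w ^ k)⁻¹ ∈ V₃) :
    ∃ c : B, (c : F) = (b : F) * (algebraMap R F w ^ k)⁻¹ := by
  induction k generalizing b with
  | zero => exact ⟨b, by simp⟩
  | succ k ih =>
    have e : (b : F) * (algebraMap R F w)⁻¹
        = (b : F) * (algebraMap R F w ^ (k + 1))⁻¹ * algebraMap R F w ^ k := by
      rw [pow_succ, mul_inv, mul_assoc, mul_assoc, mul_comm (algebraMap R F w)⁻¹,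
        inv_mul_cancel_left₀ (pow_ne_zero k hw0)]
    obtain ⟨c, hc⟩ := hqep b
      (by rw [e]; exact V₁.mul_mem _ _ h₁ (pow_mem hw₁ k))
      (by rw [e]; exact V₂.mul_mem _ _ h₂ (pow_mem hw₂ k))
      (by rw [e]; exact V₃.mul_mem _ _ h₃ (pow_mem hw₃ k))
    have hcF : (b : F) = algebraMap R F w * (c : F) := by
      have := congrArg (fun t : B => (t : F)) hc
      simpa using this
    have e' : (c : F) * (algebraMap R F w ^ k)⁻¹
        = (b : F) * (algebraMap R F w ^ (k + 1))⁻¹ := by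
      rw [hcF, pow_succ, mul_inv]
      field_simp
    obtain ⟨c', hc'⟩ := ih c (by rw [e']; exact h₁) (by rw [e']; exact h₂) (by rw [e']; exact h₃)
    exact ⟨c', by rw [hc', e']⟩

/-- `e ∈ 𝔪_V`, `w` a uniformiser of `V`: `e ^ k / w ^ k ∈ V`. -/
theorem lite_pow_div_mem (V : ValuationSubring F) {w₀ e : F} (hw : UnifAt V w₀)
    (he : e ∈ V.nonunits) (k : ℕ) : e ^ k * (w₀ ^ k)⁻¹ ∈ V := by
  have h : e ^ k * (w₀ ^ k)⁻¹ = (e * w₀⁻¹) ^ k := by
    rw [mul_pow, inv_pow]
  rw [h]
  exact pow_mem (hw.2.2 e he) k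

/-- **REG-lite from `Qep3`.**  See the header. -/
theorem principalAt_lite (w : R) (B : Subalgebra R F) (V₁ V₂ V₃ : ValuationSubring F)
    (hB₁ : ∀ b : B, (b : F) ∈ V₁) (hB₂ : ∀ b : B, (b : F) ∈ V₂) (hB₃ : ∀ b : B, (b : F) ∈ V₃)
    (hqep : Qep3 w B V₁ V₂ V₃)
    (hu₁ : UnifAt V₁ (algebraMap R F w)) (hu₃ : UnifAt V₃ (algebraMap R F w))
    (𝔪 : Ideal B) (h𝔪 : 𝔪.IsPrime) (hthr : Through B 𝔪 V₂)
    (hn₁ : ¬ Through B 𝔪 V₁) (hn₃ : ¬ Through B 𝔪 V₃)
    (x g₁ g₂ : B) (k N : ℕ) (hN : 0 < N)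
    (hx : UnifAt V₂ (x : F)) (hg₁ : g₁ ∉ 𝔪)
    (hcong : ((x : F) ^ N * (g₂ : F) - algebraMap R F w ^ k * (g₁ : F))
        * (algebraMap R F w ^ k)⁻¹ ∈ V₂.nonunits) :
    PrincipalAt B 𝔪 V₂ := by
  have hw0 : algebraMap R F w ≠ 0 := hu₁.1
  have hwk0 : algebraMap R F w ^ k ≠ 0 := pow_ne_zero k hw0
  have hwB : ∀ V : ValuationSubring F, (∀ b : B, (b : F) ∈ V) → algebraMap R F w ∈ V :=
    fun V h => by simpa using h (algebraMap R B w)
  -- the two auxiliary elements
  obtain ⟨e₁, he₁V, he₁⟩ : ∃ e₁ : B, (e₁ : F) ∈ V₁.nonunits ∧ e₁ ∉ 𝔪 := by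
    by_contra hcon
    exact hn₁ fun b hb => by_contra fun hbm => hcon ⟨b, hb, hbm⟩
  obtain ⟨e₃, he₃V, he₃⟩ : ∃ e₃ : B, (e₃ : F) ∈ V₃.nonunits ∧ e₃ ∉ 𝔪 := by
    by_contra hcon
    exact hn₃ fun b hb => by_contra fun hbm => hcon ⟨b, hb, hbm⟩
  -- `y = x ^ N g₂ / w ^ k ∈ V₂`, `y ≡ g₁`
  have hysplit : (x : F) ^ N * (g₂ : F) * (algebraMap R F w ^ k)⁻¹
      = ((x : F) ^ N * (g₂ : F) - algebraMap R F w ^ k * (g₁ : F)) * (algebraMap R F w ^ k)⁻¹
        + (g₁ : F) := by
    field_simp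
    ring
  have hcong' : ((x : F) ^ N * (g₂ : F) - algebraMap R F w ^ k * (g₁ : F))
      * (algebraMap R F w ^ k)⁻¹ ∈ V₂ :=
    (V₂.valuation_le_one_iff _).1 ((V₂.mem_nonunits_iff).1 hcong).le
  have hy₂ : (x : F) ^ N * (g₂ : F) * (algebraMap R F w ^ k)⁻¹ ∈ V₂ := by
    rw [hysplit]
    exact V₂.add_mem _ _ hcong' (hB₂ g₁)
  have hE₁ : ((e₁ : F) * (e₃ : F)) ^ k * (algebraMap R F w ^ k)⁻¹ ∈ V₁ := by
    have h : ((e₁ : F) * (e₃ : F)) ^ k * (algebraMap R F w ^ k)⁻¹
        = ((e₁ : F) ^ k * (algebraMap R F w ^ k)⁻¹) * (e₃ : F) ^ k := by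
      rw [mul_pow]; ring
    rw [h]
    exact V₁.mul_mem _ _ (lite_pow_div_mem V₁ hu₁ he₁V k) (pow_mem (hB₁ e₃) k)
  have hE₃ : ((e₁ : F) * (e₃ : F)) ^ k * (algebraMap R F w ^ k)⁻¹ ∈ V₃ := by
    have h : ((e₁ : F) * (e₃ : F)) ^ k * (algebraMap R F w ^ k)⁻¹
        = ((e₃ : F) ^ k * (algebraMap R F w ^ k)⁻¹) * (e₁ : F) ^ k := by
      rw [mul_pow]; ring
    rw [h]
    exact V₃.mul_mem _ _ (lite_pow_div_mem V₃ hu₃ he₃V k) (pow_mem (hB₃ e₁) k)
  -- `G = x ^ N g₂ e ^ k / w ^ k ∈ B`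
  obtain ⟨G, hG⟩ := lite_qep3_pow w B V₁ V₂ V₃ hw0 (hwB V₁ hB₁) (hwB V₂ hB₂) (hwB V₃ hB₃) hqep k
    (x ^ N * g₂ * (e₁ * e₃) ^ k)
    (by
      have : ((x ^ N * g₂ * (e₁ * e₃) ^ k : B) : F) * (algebraMap R F w ^ k)⁻¹
          = ((x : F) ^ N * (g₂ : F))
            * (((e₁ : F) * (e₃ : F)) ^ k * (algebraMap R F w ^ k)⁻¹) := by
        push_cast; ring
      rw [this]
      exact V₁.mul_mem _ _ (V₁.mul_mem _ _ (pow_mem (hB₁ x) N) (hB₁ g₂)) hE₁)
    (by
      have : ((x ^ N * g₂ * (e₁ * e₃) ^ k : B) : F) * (algebraMap R F w ^ k)⁻¹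
          = ((x : F) ^ N * (g₂ : F) * (algebraMap R F w ^ k)⁻¹)
            * ((e₁ : F) * (e₃ : F)) ^ k := by
        push_cast; ring
      rw [this]
      exact V₂.mul_mem _ _ hy₂ (pow_mem (V₂.mul_mem _ _ (hB₂ e₁) (hB₂ e₃)) k))
    (by
      have : ((x ^ N * g₂ * (e₁ * e₃) ^ k : B) : F) * (algebraMap R F w ^ k)⁻¹
          = ((x : F) ^ N * (g₂ : F))
            * (((e₁ : F) * (e₃ : F)) ^ k * (algebraMap R F w ^ k)⁻¹) := by
        push_cast; ring
      rw [this]
      exact V₃.mul_mem _ _ (V₃.mul_mem _ _ (pow_mem (hB₃ x) N) (hB₃ g₂)) hE₃)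
  have hGF : (G : F) = (x : F) ^ N * (g₂ : F) * (algebraMap R F w ^ k)⁻¹
      * ((e₁ : F) * (e₃ : F)) ^ k := by
    rw [hG]; push_cast; ring
  -- `G ∉ 𝔪`
  have hG𝔪 : G ∉ 𝔪 := by
    intro hmem
    have h1 : G - g₁ * (e₁ * e₃) ^ k ∈ 𝔪 := by
      apply hthr
      have : ((G - g₁ * (e₁ * e₃) ^ k : B) : F)
          = ((x : F) ^ N * (g₂ : F) - algebraMap R F w ^ k * (g₁ : F))
              * (algebraMap R F w ^ k)⁻¹ * ((e₁ : F) * (e₃ : F)) ^ k := by
        push_cast
        rw [hGF, hysplit]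
        ring
      rw [this]
      exact lite_nonunits_mul V₂ hcong (pow_mem (V₂.mul_mem _ _ (hB₂ e₁) (hB₂ e₃)) k)
    have h2 : g₁ * (e₁ * e₃) ^ k ∈ 𝔪 := by
      have := 𝔪.sub_mem hmem h1
      simpa using this
    rcases h𝔪.mem_or_mem h2 with h | h
    · exact hg₁ h
    · rcases h𝔪.mem_or_mem (h𝔪.mem_of_pow_mem k h) with h' | h'
      · exact he₁ h'
      · exact he₃ h'
  obtain ⟨hx0, hxnu, hxunif⟩ := hx
  refine ⟨x, hxnu, fun a ha => ?_⟩
  obtain ⟨N', rfl⟩ : ∃ N', N = N' + 1 := ⟨N - 1, by omega⟩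
  -- `c = a x ^ N' g₂ e ^ k / w ^ k ∈ B`
  have hz₂ : (a : F) * (x : F) ^ N' * (g₂ : F) * (algebraMap R F w ^ k)⁻¹ ∈ V₂ := by
    have : (a : F) * (x : F) ^ N' * (g₂ : F) * (algebraMap R F w ^ k)⁻¹
        = ((a : F) * (x : F)⁻¹)
          * ((x : F) ^ (N' + 1) * (g₂ : F) * (algebraMap R F w ^ k)⁻¹) := by
      rw [pow_succ]
      field_simp
    rw [this]
    exact V₂.mul_mem _ _ (hxunif _ ha) hy₂
  obtain ⟨c, hc⟩ := lite_qep3_pow w B V₁ V₂ V₃ hw0 (hwB V₁ hB₁) (hwB V₂ hB₂) (hwB V₃ hB₃) hqep k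
    (a * x ^ N' * g₂ * (e₁ * e₃) ^ k)
    (by
      have : ((a * x ^ N' * g₂ * (e₁ * e₃) ^ k : B) : F) * (algebraMap R F w ^ k)⁻¹
          = ((a : F) * (x : F) ^ N' * (g₂ : F))
            * (((e₁ : F) * (e₃ : F)) ^ k * (algebraMap R F w ^ k)⁻¹) := by
        push_cast; ring
      rw [this]
      exact V₁.mul_mem _ _
        (V₁.mul_mem _ _ (V₁.mul_mem _ _ (hB₁ a) (pow_mem (hB₁ x) N')) (hB₁ g₂)) hE₁)
    (by
      have : ((a * x ^ N' * g₂ * (e₁ * e₃) ^ k : B) : F) * (algebraMap R F w ^ k)⁻¹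
          = ((a : F) * (x : F) ^ N' * (g₂ : F) * (algebraMap R F w ^ k)⁻¹)
            * ((e₁ : F) * (e₃ : F)) ^ k := by
        push_cast; ring
      rw [this]
      exact V₂.mul_mem _ _ hz₂ (pow_mem (V₂.mul_mem _ _ (hB₂ e₁) (hB₂ e₃)) k))
    (by
      have : ((a * x ^ N' * g₂ * (e₁ * e₃) ^ k : B) : F) * (algebraMap R F w ^ k)⁻¹
          = ((a : F) * (x : F) ^ N' * (g₂ : F))
            * (((e₁ : F) * (e₃ : F)) ^ k * (algebraMap R F w ^ k)⁻¹) := by
        push_cast; ring
      rw [this]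
      exact V₃.mul_mem _ _
        (V₃.mul_mem _ _ (V₃.mul_mem _ _ (hB₃ a) (pow_mem (hB₃ x) N')) (hB₃ g₂)) hE₃)
  refine ⟨G, c, hG𝔪, ?_⟩
  apply Subtype.ext
  push_cast
  rw [hGF, hc]
  push_cast
  rw [pow_succ]
  ring

/-- A unit of a valuation subring has valuation one. -/
theorem lite_valuation_eq_one (V : ValuationSubring F) {y : F} (hy : UnitAt V y) :
    V.valuation y = 1 := by
  obtain ⟨hy0, hy1, hy2⟩ := hy
  have h1 : V.valuation y ≤ 1 := (V.valuation_le_one_iff _).2 hy1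
  have h2 : V.valuation y⁻¹ ≤ 1 := (V.valuation_le_one_iff _).2 hy2
  rw [map_inv₀] at h2
  have hv0 : V.valuation y ≠ 0 := by rw [Ne, map_eq_zero]; exact hy0
  exact le_antisymm h1 ((inv_le_one₀ (zero_lt_iff.2 hv0)).1 h2)

/-- An element of `B ∖ 𝔪` has valuation one at a component through `𝔪`. -/
theorem lite_valuation_eq_one_of_not_mem (B : Subalgebra R F) (V : ValuationSubring F)
    (hB : ∀ b : B, (b : F) ∈ V) (𝔪 : Ideal B) (hthr : Through B 𝔪 V) {g : B} (hg : g ∉ 𝔪) :
    V.valuation (g : F) = 1 := by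
  have h1 : V.valuation (g : F) ≤ 1 := (V.valuation_le_one_iff _).2 (hB g)
  rcases lt_or_eq_of_le h1 with h | h
  · exact absurd (hthr g ((V.mem_nonunits_iff).2 h)) hg
  · exact h

/-- In a valuation subring: if `t` is a uniformiser and `x ^ N` has the valuation of `t ^ N`
(`N > 0`), then `x` is a uniformiser. -/
theorem lite_unifAt_of_pow (V : ValuationSubring F) (t x : F) (N : ℕ) (hN : 0 < N)
    (ht : UnifAt V t) (hxt : V.valuation x ^ N = V.valuation t ^ N) : UnifAt V x := by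
  obtain ⟨ht0, htnu, htunif⟩ := ht
  have hvx : V.valuation x = V.valuation t := by
    rcases lt_trichotomy (V.valuation x) (V.valuation t) with h | h | h
    · exfalso
      have := pow_lt_pow_left₀ h (zero_le (a := V.valuation _)) hN.ne'
      rw [hxt] at this
      exact lt_irrefl _ this
    · exact h
    · exfalso
      have := pow_lt_pow_left₀ h (zero_le (a := V.valuation _)) hN.ne'
      rw [hxt] at this
      exact lt_irrefl _ this
  have hvt0 : V.valuation t ≠ 0 := by rw [Ne, map_eq_zero]; exact ht0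
  have hx0 : x ≠ 0 := by
    intro h
    rw [h, map_zero] at hvx
    exact hvt0 hvx.symm
  refine ⟨hx0, ?_, fun f hf => ?_⟩
  · rw [ValuationSubring.mem_nonunits_iff, hvx]
    exact (V.mem_nonunits_iff).1 htnu
  · have h1 := htunif f hf
    rw [← V.valuation_le_one_iff] at h1 ⊢
    rw [map_mul, map_inv₀] at h1 ⊢
    rwa [hvx]

/-- The congruence `x ^ N g₂ ≡ w ^ k g₁` (`g₁, g₂ ∉ 𝔪`) and `w ^ k = unit · t ^ N` with `t` a
uniformiser of `V₂` force `x` to be a uniformiser of `V₂`. -/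
theorem lite_unifAt_of_cong (w : R) (B : Subalgebra R F) (V₂ : ValuationSubring F)
    (hw0 : algebraMap R F w ≠ 0)
    (hB₂ : ∀ b : B, (b : F) ∈ V₂)
    (𝔪 : Ideal B) (hthr : Through B 𝔪 V₂)
    (x g₁ g₂ : B) (k N : ℕ) (hN : 0 < N)
    (t : F) (ht : UnifAt V₂ t) (hwt : UnitAt V₂ (algebraMap R F w ^ k * (t ^ N)⁻¹))
    (hg₁ : g₁ ∉ 𝔪) (hg₂ : g₂ ∉ 𝔪)
    (hcong : ((x : F) ^ N * (g₂ : F) - algebraMap R F w ^ k * (g₁ : F))
        * (algebraMap R F w ^ k)⁻¹ ∈ V₂.nonunits) :
    UnifAt V₂ (x : F) := by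
  have hwk0 : algebraMap R F w ^ k ≠ 0 := pow_ne_zero k hw0
  have hvg₁ := lite_valuation_eq_one_of_not_mem B V₂ hB₂ 𝔪 hthr hg₁
  have hvg₂ := lite_valuation_eq_one_of_not_mem B V₂ hB₂ 𝔪 hthr hg₂
  have hysplit : (x : F) ^ N * (g₂ : F) * (algebraMap R F w ^ k)⁻¹
      = ((x : F) ^ N * (g₂ : F) - algebraMap R F w ^ k * (g₁ : F)) * (algebraMap R F w ^ k)⁻¹
        + (g₁ : F) := by
    field_simp
    ring
  have hone : V₂.valuation ((x : F) ^ N * (g₂ : F) * (algebraMap R F w ^ k)⁻¹) = 1 := by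
    rw [hysplit, ← hvg₁]
    apply Valuation.map_add_eq_of_lt_right
    rw [hvg₁]
    exact (V₂.mem_nonunits_iff).1 hcong
  have hvw : V₂.valuation (algebraMap R F w ^ k) = V₂.valuation t ^ N := by
    have h := lite_valuation_eq_one V₂ hwt
    rw [map_mul, map_inv₀, map_pow V₂.valuation t] at h
    have hne : V₂.valuation t ^ N ≠ 0 := by
      apply pow_ne_zero
      rw [Ne, map_eq_zero]; exact ht.1
    calc V₂.valuation (algebraMap R F w ^ k)
        = V₂.valuation (algebraMap R F w ^ k) * (V₂.valuation t ^ N)⁻¹ * V₂.valuation t ^ N := by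
          rw [mul_assoc, inv_mul_cancel₀ hne, mul_one]
      _ = V₂.valuation t ^ N := by rw [h, one_mul]
  have hvx : V₂.valuation (x : F) ^ N = V₂.valuation t ^ N := by
    rw [map_mul, map_mul, map_inv₀, map_pow V₂.valuation (x : F), hvg₂, mul_one] at hone
    have hne : V₂.valuation (algebraMap R F w ^ k) ≠ 0 := by rw [Ne, map_eq_zero]; exact hwk0
    calc V₂.valuation (x : F) ^ N
        = V₂.valuation (x : F) ^ N * (V₂.valuation (algebraMap R F w ^ k))⁻¹
            * V₂.valuation (algebraMap R F w ^ k) := by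
          rw [mul_assoc, inv_mul_cancel₀ hne, mul_one]
      _ = V₂.valuation t ^ N := by rw [hone, one_mul, hvw]
  exact lite_unifAt_of_pow V₂ t (x : F) N hN ht hvx

/-- **REG-lite from `Qep3`, ramification form**: `w ^ k = unit · t ^ N` at `V₂` (`t` a
uniformiser) instead of "`x` is a uniformiser of `V₂`".  Application: `k = 12`,
`N = 12 (q - 1)`, `t` from `ram₂`. -/
theorem principalAt_lite' (w : R) (B : Subalgebra R F) (V₁ V₂ V₃ : ValuationSubring F)
    (hB₁ : ∀ b : B, (b : F) ∈ V₁) (hB₂ : ∀ b : B, (b : F) ∈ V₂) (hB₃ : ∀ b : B, (b : F) ∈ V₃)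
    (hqep : Qep3 w B V₁ V₂ V₃)
    (hu₁ : UnifAt V₁ (algebraMap R F w)) (hu₃ : UnifAt V₃ (algebraMap R F w))
    (𝔪 : Ideal B) (h𝔪 : 𝔪.IsPrime) (hthr : Through B 𝔪 V₂)
    (hn₁ : ¬ Through B 𝔪 V₁) (hn₃ : ¬ Through B 𝔪 V₃)
    (x g₁ g₂ : B) (k N : ℕ) (hN : 0 < N)
    (t : F) (ht : UnifAt V₂ t) (hwt : UnitAt V₂ (algebraMap R F w ^ k * (t ^ N)⁻¹))
    (hg₁ : g₁ ∉ 𝔪) (hg₂ : g₂ ∉ 𝔪)
    (hcong : ((x : F) ^ N * (g₂ : F) - algebraMap R F w ^ k * (g₁ : F))
        * (algebraMap R F w ^ k)⁻¹ ∈ V₂.nonunits) :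
    PrincipalAt B 𝔪 V₂ :=
  principalAt_lite w B V₁ V₂ V₃ hB₁ hB₂ hB₃ hqep hu₁ hu₃ 𝔪 h𝔪 hthr hn₁ hn₃ x g₁ g₂ k N hN
    (lite_unifAt_of_cong w B V₂ hu₁.1 hB₂ 𝔪 hthr x g₁ g₂ k N hN t ht hwt hg₁ hg₂ hcong)
    hg₁ hcong

/-- `ram₂` in the form used by `principalAt_lite'`: `w = unit · t ^ e` ⟹
`w ^ k = unit · t ^ (k e)`. -/
theorem lite_unitAt_pow (V : ValuationSubring F) {a t : F} (e k : ℕ)
    (h : UnitAt V (a * (t ^ e)⁻¹)) : UnitAt V (a ^ k * (t ^ (k * e))⁻¹) := by
  obtain ⟨h0, h1, h2⟩ := h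
  have heq : a ^ k * (t ^ (k * e))⁻¹ = (a * (t ^ e)⁻¹) ^ k := by
    rw [mul_pow, inv_pow, ← pow_mul, mul_comm e k]
  refine ⟨?_, ?_, ?_⟩
  · rw [heq]; exact pow_ne_zero k h0
  · rw [heq]; exact pow_mem h1 k
  · rw [heq, ← inv_pow]; exact pow_mem h2 k

end Fermat.Agent.S36.H876

end
-- ===== PACK-END S36/H876/LiteSelf.lean

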