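import Fermat.Prelude.Def_ModularCurve_HeckeModule
import Mathlib
import Fermat.Prelude.Def_EllipticCurve_FrobeniusTrace
import Fermat.Prelude.Def_ModularCurve_ReductionModL
import Fermat.Prelude.Def_FLTPrelim_Ramification
import Fermat.Prelude.Def_ModularCurve_LaurentCoeff
import Fermat.Prelude.Def_ModularCurve_X0ModL
import Fermat.Agent.Pack.S36.E14L0
import Fermat.Agent.Pack.S36.E12L1
import Fermat.Agent.Pack.S36.E4L0
import Fermat.Agent.Pack.S36.E7L3
import Fermat.Agent.Pack.S36.E12L3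
import Fermat.Agent.Pack.S36.E14L3
import Fermat.Agent.Pack.S36.E0L3
import Fermat.Agent.Pack.S36.E14L2
import Fermat.Agent.Pack.S36.E11L3
import Fermat.Agent.Pack.S36.E6L3
import Fermat.Agent.Pack.S36.E14L1
import Fermat.Agent.Pack.S36.E6L2
import Fermat.Agent.Pack.S36.E10L2
import Fermat.Agent.Pack.S36.E8L0

-- ===== PACK-BEGIN Lib/FF398/Hecke.lean
section




/-!
# Lib/FF398 — the Hecke correspondence `T_ℓ` on `J₀(N)` is the genuine one

`ModularCurve.heckeOperatorAlong L N ℓ` is defined by `dite` on `HeckeInputsAlong L N ℓ`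
(junk value `0` if the inputs fail).  We prove the inputs for `L = ℚ̄`:

* `heckeInputs_general` : for ANY two `K`-embeddings `α β : F → F'` of function fields of one
  variable over an algebraically closed field of characteristic zero, all six inputs hold;
* `heckeInputsAlong N ℓ : HeckeInputsAlong ℚ̄ N ℓ`;
* `heckeOperatorBar_eq` : `heckeOperatorBar N ℓ` is `Pic0.correspondence β α` (norm ∘ conorm).
(helper398)
-/

set_option autoImplicit false
set_option linter.unusedSectionVars false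

open AlgebraicCurve IsDedekindDomain IntermediateField ModularCurve

namespace Fermat.Agent.Lib.FF398

section General

variable {K F F' : Type*} [Field K] [Field F] [Field F'] [Algebra K F] [Algebra K F']
  [IsAlgClosed K] [CharZero K]

/-- A `K`-embedding of function fields of one variable is finite. -/
theorem finiteAlong_of_functionField (φ : F →ₐ[K] F') (j : F) (hj : Transcendental K j)
    (j' : F') (hj' : Transcendental K j') [FiniteDimensional K⟮j'⟯ F'] :
    FiniteAlong K φ := by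
  letI := algebraAlong φ
  show Module.Finite F F'
  have hy : Transcendental K (φ j) := by
    intro h
    exact hj ((isAlgebraic_algHom_iff φ φ.injective).mp h)
  haveI : FiniteDimensional K⟮φ j⟯ F' :=
    Fermat.Agent.S24.FF.finiteDimensional_adjoin_of_transcendental hj' hy
  obtain ⟨S, hS⟩ := (Module.finite_def (R := K⟮φ j⟯) (M := F')).mp inferInstance
  refine Module.finite_def.mpr ⟨S, ?_⟩
  have hle : K⟮φ j⟯ ≤ φ.fieldRange := by
    rw [adjoin_le_iff]
    rintro _ rfl
    exact ⟨j, rfl⟩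
  have key : ∀ x : F', x ∈ Submodule.span K⟮φ j⟯ (S : Set F') →
      x ∈ Submodule.span F (S : Set F') := by
    intro x hx
    induction hx using Submodule.span_induction with
    | mem x hx => exact Submodule.subset_span hx
    | zero => exact zero_mem _
    | add x y _ _ hx hy => exact add_mem hx hy
    | smul e x _ hx =>
      obtain ⟨f, hf⟩ := hle e.2
      have : e • x = f • x := by
        rw [Algebra.smul_def, Algebra.smul_def]
        show (e : F') * x = φ f * x
        rw [← hf]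
        rfl
      rw [this]
      exact Submodule.smul_mem _ _ hx
  rw [eq_top_iff]
  intro x _
  exact key x (by rw [hS]; trivial)

/-- **All six inputs of the Hecke correspondence** for two embeddings of function fields. -/
theorem heckeInputs_general (α β : F →ₐ[K] F') (j : F) (hj : Transcendental K j)
    (j' : F') (hj' : Transcendental K j') [FiniteDimensional K⟮j'⟯ F'] :
    ∃ (_ : α.toRingHom.IsIntegral) (hβ : β.toRingHom.IsIntegral)
      (_ : HasPrincipalDivisors K F') (hfin : FiniteAlong K α),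
      FundamentalIdentityAlong K β hβ ∧ NormFormulaAlong K α hfin := by
  haveI hP : HasPrincipalDivisors K F' := hasPrincipalDivisors j' hj'
  haveI : CharZero F := charZero_of_injective_algebraMap (algebraMap K F).injective
  have hdeg' : ∀ w : Place K F', w.deg = 1 := fun w => Fermat.Agent.S24.FF.deg_eq_one w hj'
  have hfinα : FiniteAlong K α := finiteAlong_of_functionField α j hj j' hj'
  have hfinβ : FiniteAlong K β := finiteAlong_of_functionField β j hj j' hj'
  have hα : α.toRingHom.IsIntegral := by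
    letI := algebraAlong α
    haveI : Module.Finite F F' := hfinα
    exact fun x => Algebra.IsIntegral.isIntegral (R := F) x
  have hβ : β.toRingHom.IsIntegral := by
    letI := algebraAlong β
    haveI : Module.Finite F F' := hfinβ
    exact fun x => Algebra.IsIntegral.isIntegral (R := F) x
  refine ⟨hα, hβ, hP, hfinα, ?_, ?_⟩
  · letI := algebraAlong β
    haveI := isScalarTower_along β
    haveI : Module.Finite F F' := hfinβ
    exact fundamentalIdentity (K := K) (F := F) (F' := F') hdeg'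
  · letI := algebraAlong α
    haveI := isScalarTower_along α
    haveI : Module.Finite F F' := hfinα
    exact pushforwardNormFormula (K := K) (F := F) (F' := F') hdeg'

end General

section Modular

open Fermat.Agent.S24

theorem transcendental_jF (N : ℕ) [NeZero N] : Transcendental Kbar (jF N) := by
  intro halg
  obtain ⟨p, hp0, hp⟩ := halg
  apply Deg457.aeval_JK_ne_zero Kbar hp0
  have h2 := congrArg (algebraMap (FF N) (LaurentSeries Kbar)) hp
  rw [← Polynomial.aeval_algebraMap_apply, map_zero] at h2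
  exact h2

instance finiteDimensional_FF (N : ℕ) [NeZero N] :
    FiniteDimensional ↥(IntermediateField.adjoin Kbar {jF N}) (FF N) :=
  (Deg457.degree_fields N).1

/-- The function field of `X₀(N)` over `ℚ̄` has principal divisors. -/
theorem hasPrincipalDivisors_FF (N : ℕ) [NeZero N] :
    HasPrincipalDivisors Kbar (FF N) :=
  hasPrincipalDivisors (jF N) (transcendental_jF N)

/-- Every place of the function field of `X₀(N)` over `ℚ̄` has degree one. -/
theorem deg_eq_one_FF (N : ℕ) [NeZero N] (v : Place Kbar (FF N)) : v.deg = 1 :=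
  Fermat.Agent.S24.FF.deg_eq_one v (transcendental_jF N)

/-- **The Hecke correspondence `T_ℓ` on `J₀(N)` over `ℚ̄` is the genuine one.** -/
theorem heckeInputsAlong (N ℓ : ℕ) [NeZero N] [NeZero ℓ] :
    HeckeInputsAlong (AlgebraicClosure ℚ) N ℓ :=
  heckeInputs_general (heckeAlphaBar (AlgebraicClosure ℚ) N ℓ)
    (heckeBetaBar (AlgebraicClosure ℚ) N ℓ) (jF N) (transcendental_jF N)
    (jF (N * ℓ)) (transcendental_jF (N * ℓ))

/-! ### Named components (for unfolding `T_ℓ`) -/

variable (N ℓ : ℕ) [NeZero N] [NeZero ℓ]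

/-- The function field of `X₀(M)` over `ℚ̄` has principal divisors (instance form). -/
instance instHasPrincipalDivisorsFF (M : ℕ) [NeZero M] :
    HasPrincipalDivisors (AlgebraicClosure ℚ)
      (laurentBaseChange (AlgebraicClosure ℚ) (modularFunctionFieldFull M)) :=
  hasPrincipalDivisors_FF M

theorem heckeAlphaBarIntegral : HeckeAlphaBarIntegral (AlgebraicClosure ℚ) N ℓ :=
  (heckeInputsAlong N ℓ).1

theorem heckeBetaBarIntegral : HeckeBetaBarIntegral (AlgebraicClosure ℚ) N ℓ :=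
  (heckeInputsAlong N ℓ).2.1

theorem finiteAlong_alpha : FiniteAlong (AlgebraicClosure ℚ) (heckeAlphaBar (AlgebraicClosure ℚ) N ℓ) :=
  finiteAlong_of_functionField _ (jF N) (transcendental_jF N) (jF (N * ℓ))
    (transcendental_jF (N * ℓ))

theorem finiteAlong_beta : FiniteAlong (AlgebraicClosure ℚ) (heckeBetaBar (AlgebraicClosure ℚ) N ℓ) :=
  finiteAlong_of_functionField _ (jF N) (transcendental_jF N) (jF (N * ℓ))
    (transcendental_jF (N * ℓ))

theorem fundamentalIdentityAlong_beta :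
    FundamentalIdentityAlong (AlgebraicClosure ℚ) (heckeBetaBar (AlgebraicClosure ℚ) N ℓ)
      (heckeBetaBarIntegral N ℓ) := by
  letI := algebraAlong (heckeBetaBar (AlgebraicClosure ℚ) N ℓ)
  haveI := isScalarTower_along (heckeBetaBar (AlgebraicClosure ℚ) N ℓ)
  haveI : Module.Finite (FF N) (FF (N * ℓ)) := finiteAlong_beta N ℓ
  haveI : CharZero (FF N) :=
    charZero_of_injective_algebraMap (algebraMap (AlgebraicClosure ℚ) (FF N)).injective
  exact fundamentalIdentity (K := AlgebraicClosure ℚ) (F := FF N) (F' := FF (N * ℓ))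
    (deg_eq_one_FF (N * ℓ))

theorem fundamentalIdentityAlong_alpha :
    FundamentalIdentityAlong (AlgebraicClosure ℚ) (heckeAlphaBar (AlgebraicClosure ℚ) N ℓ)
      (heckeAlphaBarIntegral N ℓ) := by
  letI := algebraAlong (heckeAlphaBar (AlgebraicClosure ℚ) N ℓ)
  haveI := isScalarTower_along (heckeAlphaBar (AlgebraicClosure ℚ) N ℓ)
  haveI : Module.Finite (FF N) (FF (N * ℓ)) := finiteAlong_alpha N ℓ
  haveI : CharZero (FF N) :=
    charZero_of_injective_algebraMap (algebraMap (AlgebraicClosure ℚ) (FF N)).injective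
  exact fundamentalIdentity (K := AlgebraicClosure ℚ) (F := FF N) (F' := FF (N * ℓ))
    (deg_eq_one_FF (N * ℓ))

theorem normFormulaAlong_alpha :
    NormFormulaAlong (AlgebraicClosure ℚ) (heckeAlphaBar (AlgebraicClosure ℚ) N ℓ)
      (finiteAlong_alpha N ℓ) := by
  letI := algebraAlong (heckeAlphaBar (AlgebraicClosure ℚ) N ℓ)
  haveI := isScalarTower_along (heckeAlphaBar (AlgebraicClosure ℚ) N ℓ)
  haveI : Module.Finite (FF N) (FF (N * ℓ)) := finiteAlong_alpha N ℓ
  haveI : CharZero (FF N) :=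
    charZero_of_injective_algebraMap (algebraMap (AlgebraicClosure ℚ) (FF N)).injective
  exact pushforwardNormFormula (K := AlgebraicClosure ℚ) (F := FF N) (F' := FF (N * ℓ))
    (deg_eq_one_FF (N * ℓ))

theorem normFormulaAlong_beta :
    NormFormulaAlong (AlgebraicClosure ℚ) (heckeBetaBar (AlgebraicClosure ℚ) N ℓ)
      (finiteAlong_beta N ℓ) := by
  letI := algebraAlong (heckeBetaBar (AlgebraicClosure ℚ) N ℓ)
  haveI := isScalarTower_along (heckeBetaBar (AlgebraicClosure ℚ) N ℓ)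
  haveI : Module.Finite (FF N) (FF (N * ℓ)) := finiteAlong_beta N ℓ
  haveI : CharZero (FF N) :=
    charZero_of_injective_algebraMap (algebraMap (AlgebraicClosure ℚ) (FF N)).injective
  exact pushforwardNormFormula (K := AlgebraicClosure ℚ) (F := FF N) (F' := FF (N * ℓ))
    (deg_eq_one_FF (N * ℓ))

/-- `T_ℓ` on `Pic⁰` is `α_* ∘ β^*` (norm ∘ conorm), not the junk value. -/
theorem heckeOperatorAlong_eq_heckePic0Bar :
    heckeOperatorAlong (AlgebraicClosure ℚ) N ℓ
      = heckePic0Bar (heckeAlphaBarIntegral N ℓ) (heckeBetaBarIntegral N ℓ)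
          (fundamentalIdentityAlong_beta N ℓ) (finiteAlong_alpha N ℓ)
          (normFormulaAlong_alpha N ℓ) :=
  heckeOperatorAlong_eq _ _ _ _ _

/-- `T_ℓ` on a divisor class: `T_ℓ [D] = [α_* β^* D]`. -/
theorem heckeOperatorAlong_mk
    (D : Divisor.degZero (K := AlgebraicClosure ℚ)
      (F := laurentBaseChange (AlgebraicClosure ℚ) (modularFunctionFieldFull N))) :
    heckeOperatorAlong (AlgebraicClosure ℚ) N ℓ (Pic0.mk D)
      = Pic0.mk (Pic0.degZeroCorrespondence (heckeBetaBar (AlgebraicClosure ℚ) N ℓ)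
          (heckeAlphaBar (AlgebraicClosure ℚ) N ℓ) (heckeBetaBarIntegral N ℓ)
          (heckeAlphaBarIntegral N ℓ) (fundamentalIdentityAlong_beta N ℓ) D) := by
  rw [heckeOperatorAlong_eq_heckePic0Bar]
  rfl

/-- `T_ℓ` (as `heckeOperatorBar`) on a divisor class. -/
theorem heckeOperatorBar_mk (p : Nat.Primes)
    (D : Divisor.degZero (K := AlgebraicClosure ℚ)
      (F := laurentBaseChange (AlgebraicClosure ℚ) (modularFunctionFieldFull N))) :
    haveI : NeZero (p : ℕ) := ⟨p.2.ne_zero⟩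
    heckeOperatorBar N p (Pic0.mk D)
      = Pic0.mk (Pic0.degZeroCorrespondence (heckeBetaBar (AlgebraicClosure ℚ) N p)
          (heckeAlphaBar (AlgebraicClosure ℚ) N p) (heckeBetaBarIntegral N p)
          (heckeAlphaBarIntegral N p) (fundamentalIdentityAlong_beta N p) D) := by
  haveI : NeZero (p : ℕ) := ⟨p.2.ne_zero⟩
  rw [heckeOperatorBar_apply]
  exact heckeOperatorAlong_mk N p D

end Modular

end Fermat.Agent.Lib.FF398

end
-- ===== PACK-END Lib/FF398/Hecke.lean

-- ===== PACK-BEGIN S35/H155/B2.lean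
section
/-
S35 / cell FROB, leaf B2 (helper155): the two degeneracy push-forwards
`α_*, β_* : J₀(N q) → J₀(N)`.

* `pushforwardPic0Along`       : push-forward on `Pic0` along a finite homomorphism of function
                                 fields with norm formula (abstract; Prelude language);
* `pushforwardPic0Along_smul`  : equivariance for intertwined semilinear automorphisms;
* `pushA`, `pushB`             : `α_*`, `β_*` on `JZero (N * q) →+ JZero N`;
* `pushA_galois`, `pushB_galois`: Galois equivariance;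
* `hecke_eq_frob`              : on `p`-power torsion `T_ℓ y = σ y + ℓ σ⁻¹ y` for every Frobenius
                                 lift `σ` at `ℓ ∤ N p` (from the torsion relations (T));
* `map_hecke_of_galois`        : ANY Galois-equivariant additive map `J₀(M) → J₀(N)` commutes with
                                 `T_ℓ` (`ℓ ∤ M N p`) on `p`-power torsion, given (T) at both levels;
* `pushA_hecke`, `pushB_hecke` : the instances for `α_*`, `β_*`;
* `IsQNew`                     : `x` is `q`-new (`α_* x = 0 = β_* x`), stability lemmas.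

The torsion relations are taken in UNFOLDED form (`TorsRel`, definitionally equal to
`Fermat.Agent.S30.H330.TorsionRelations`), so this file does not import the S30 tower.
-/






set_option autoImplicit false
set_option linter.style.haveILetI false

noncomputable section

namespace Fermat.Agent.S35.H155

open AlgebraicCurve ModularCurve Fermat.Agent.Lib.FF398

/-! ### Abstract push-forward on `Pic0` -/

section Abstract

variable {K F F' : Type*} [Field K] [Field F] [Field F'] [Algebra K F] [Algebra K F']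
variable (φ : F →ₐ[K] F') (hφ : φ.toRingHom.IsIntegral)
variable (hfin : FiniteAlong K φ) (hN : NormFormulaAlong K φ hfin)

/-- Push-forward of degree-zero divisors along `φ`. -/
def pushforwardDegZeroAlong :
    Divisor.degZero (K := K) (F := F') →+ Divisor.degZero (K := K) (F := F) :=
  ((Divisor.pushforwardAlong φ hφ).domRestrict (Divisor.degZero (K := K) (F := F'))).codRestrict _
    fun D => Divisor.pushforwardAlong_mem_degZero φ hφ D.2

@[simp]
theorem coe_pushforwardDegZeroAlong (D : Divisor.degZero (K := K) (F := F')) :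
    (pushforwardDegZeroAlong φ hφ D : Divisor K F) =
      Divisor.pushforwardAlong φ hφ (D : Divisor K F') := rfl

/-- Push-forward on `Pic0` along `φ` (the degeneracy map `π_*`). -/
def pushforwardPic0Along : Pic0 K F' →+ Pic0 K F :=
  QuotientAddGroup.map _ _ (pushforwardDegZeroAlong φ hφ) (by
    rintro ⟨D, hD0⟩ hD
    simp only [AddSubgroup.mem_addSubgroupOf] at hD ⊢
    exact Divisor.isPrincipal_pushforwardAlong φ hφ hfin hN hD)

theorem pushforwardPic0Along_mk (D : Divisor.degZero (K := K) (F := F')) :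
    pushforwardPic0Along φ hφ hfin hN (Pic0.mk D) = Pic0.mk (pushforwardDegZeroAlong φ hφ D) :=
  rfl

/-- `π_*` on `Pic0` is equivariant for intertwined semilinear automorphisms. -/
theorem pushforwardPic0Along_smul {g : SemilinearAut K F} {g' : SemilinearAut K F'}
    (h : SemilinearAut.IntertwinesAlong (φ : F →+* F') g g') (x : Pic0 K F') :
    pushforwardPic0Along φ hφ hfin hN (g' • x) = g • pushforwardPic0Along φ hφ hfin hN x := by
  obtain ⟨D, rfl⟩ := Pic0.mk_surjective x
  rw [SemilinearAut.pic0_smul_mk, pushforwardPic0Along_mk, pushforwardPic0Along_mk,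
    SemilinearAut.pic0_smul_mk]
  refine congrArg Pic0.mk (Subtype.ext ?_)
  rw [coe_pushforwardDegZeroAlong, SemilinearAut.coe_degZeroSMulHom,
    SemilinearAut.coe_degZeroSMulHom, coe_pushforwardDegZeroAlong]
  exact Fermat.Agent.S29.H571.pushforwardAlong_smul φ hφ h (D : Divisor K F')

/-- The class of `D` is killed by `π_*` iff `π_* D` is principal. -/
theorem pushforwardPic0Along_mk_eq_zero_iff (D : Divisor.degZero (K := K) (F := F')) :
    pushforwardPic0Along φ hφ hfin hN (Pic0.mk D) = 0 ↔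
      (Divisor.pushforwardAlong φ hφ (D : Divisor K F')).IsPrincipal := by
  rw [pushforwardPic0Along_mk]
  change ((QuotientAddGroup.mk (pushforwardDegZeroAlong φ hφ D) :
    Divisor.degZero (K := K) (F := F) ⧸ _) = 0) ↔ _
  rw [QuotientAddGroup.eq_zero_iff]
  simp only [AddSubgroup.mem_addSubgroupOf, coe_pushforwardDegZeroAlong]
  rfl

end Abstract

/-! ### The degeneracy push-forwards on `J₀` -/

abbrev Kbar : Type := AlgebraicClosure ℚ

abbrev GQ : Type := Kbar ≃ₐ[ℚ] Kbar

section Degeneracy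

variable (N q : ℕ) [NeZero N] [NeZero q]

/-- `α_* : J₀(N q) → J₀(N)`, push-forward along the inclusion `heckeAlphaBar`. -/
def pushA : JZero (N * q) →+ JZero N :=
  pushforwardPic0Along (heckeAlphaBar Kbar N q) (heckeAlphaBarIntegral N q)
    (finiteAlong_alpha N q) (normFormulaAlong_alpha N q)

/-- `β_* : J₀(N q) → J₀(N)`, push-forward along `heckeBetaBar` (`f(τ) ↦ f(qτ)`). -/
def pushB : JZero (N * q) →+ JZero N :=
  pushforwardPic0Along (heckeBetaBar Kbar N q) (heckeBetaBarIntegral N q)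
    (finiteAlong_beta N q) (normFormulaAlong_beta N q)

theorem pushA_galois (σ : GQ) (x : JZero (N * q)) : pushA N q (σ • x) = σ • pushA N q x := by
  rw [galois_smul_pic0_def, galois_smul_pic0_def]
  exact pushforwardPic0Along_smul _ _ _ _
    (Fermat.Agent.S29.H571.intertwines_heckeAlphaBar N q σ) x

theorem pushB_galois (σ : GQ) (x : JZero (N * q)) : pushB N q (σ • x) = σ • pushB N q x := by
  rw [galois_smul_pic0_def, galois_smul_pic0_def]
  exact pushforwardPic0Along_smul _ _ _ _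
    (Fermat.Agent.S29.H571.intertwines_heckeBetaBar N q σ) x

theorem pushA_mk_eq_zero_iff
    (D : Divisor.degZero (K := Kbar) (F := modularFunctionFieldBar (N * q))) :
    pushA N q (Pic0.mk D) = 0 ↔
      (Divisor.pushforwardAlong (heckeAlphaBar Kbar N q) (heckeAlphaBarIntegral N q)
        (D : Divisor Kbar (modularFunctionFieldBar (N * q)))).IsPrincipal :=
  pushforwardPic0Along_mk_eq_zero_iff _ _ _ _ D

theorem pushB_mk_eq_zero_iff
    (D : Divisor.degZero (K := Kbar) (F := modularFunctionFieldBar (N * q))) :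
    pushB N q (Pic0.mk D) = 0 ↔
      (Divisor.pushforwardAlong (heckeBetaBar Kbar N q) (heckeBetaBarIntegral N q)
        (D : Divisor Kbar (modularFunctionFieldBar (N * q)))).IsPrincipal :=
  pushforwardPic0Along_mk_eq_zero_iff _ _ _ _ D

end Degeneracy

/-! ### Hecke operators on torsion through Frobenius -/

/-- The torsion relations (T) at level `N` for the prime `p`, in unfolded form
(definitionally `Fermat.Agent.S30.H330.TorsionRelations N p`). -/
def TorsRel (N : ℕ) [NeZero N] (p : ℕ) : Prop :=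
  ∀ (ℓ : ℕ) (hℓ : ℓ.Prime), ¬ ℓ ∣ N * p → ∀ A : ValuationSubring Kbar, A.LiesOverPrime ℓ →
    (∀ σ ∈ A.inertiaSubgroupIn ℚ, ∀ x : JZero N, (∃ n : ℕ, (p ^ n) • x = 0) → σ • x = x) ∧
    (∀ σ : GQ, A.IsFrobeniusAt σ ℓ → ∀ x : JZero N, (∃ n : ℕ, (p ^ n) • x = 0) →
      σ • σ • x - heckeOperatorBar N ⟨ℓ, hℓ⟩ (σ • x) + ℓ • x = 0)

section Torsion

variable {N : ℕ} [NeZero N] {p : ℕ}

omit [NeZero N] in
theorem galois_torsion (σ : GQ) {x : JZero N} (hx : ∃ n : ℕ, (p ^ n) • x = 0) :
    ∃ n : ℕ, (p ^ n) • (σ • x) = 0 := by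
  obtain ⟨n, hn⟩ := hx
  refine ⟨n, ?_⟩
  have h : (p ^ n) • (σ • x) = σ • ((p ^ n) • x) :=
    (map_nsmul (DistribSMul.toAddMonoidHom (JZero N) σ) (p ^ n) x).symm
  rw [h, hn]
  exact map_zero (DistribSMul.toAddMonoidHom (JZero N) σ)

/-- On `p`-power torsion, `T_ℓ = σ + ℓ σ⁻¹` for every Frobenius lift `σ` at a prime
`ℓ ∤ N p`. -/
theorem hecke_eq_frob (hT : TorsRel N p) {ℓ : ℕ} (hℓ : ℓ.Prime) (hℓN : ¬ ℓ ∣ N * p)
    (A : ValuationSubring Kbar) (hA : A.LiesOverPrime ℓ) (σ : GQ) (hσ : A.IsFrobeniusAt σ ℓ)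
    (y : JZero N) (hy : ∃ n : ℕ, (p ^ n) • y = 0) :
    heckeOperatorBar N ⟨ℓ, hℓ⟩ y = σ • y + ℓ • (σ⁻¹ • y) := by
  have h := (hT ℓ hℓ hℓN A hA).2 σ hσ (σ⁻¹ • y) (galois_torsion σ⁻¹ hy)
  rw [smul_inv_smul] at h
  have h2 : σ • y + ℓ • (σ⁻¹ • y) - heckeOperatorBar N ⟨ℓ, hℓ⟩ y = 0 := by
    rw [← h]; abel
  exact (sub_eq_zero.mp h2).symm

end Torsion

section MapHecke

variable {M N : ℕ} [NeZero M] [NeZero N] {p : ℕ}

/-- **Hecke equivariance for free.**  Any Galois-equivariant additive map `J₀(M) → J₀(N)`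
commutes with `T_ℓ` on `p`-power torsion, for every prime `ℓ ∤ M p`, `ℓ ∤ N p`, as soon as the
torsion relations (T) hold at both levels. -/
theorem map_hecke_of_galois (f : JZero M →+ JZero N) (hf : ∀ (σ : GQ) (x : JZero M),
    f (σ • x) = σ • f x) (hTM : TorsRel M p) (hTN : TorsRel N p) {ℓ : ℕ} (hℓ : ℓ.Prime)
    (hℓM : ¬ ℓ ∣ M * p) (hℓN : ¬ ℓ ∣ N * p) (y : JZero M) (hy : ∃ n : ℕ, (p ^ n) • y = 0) :
    f (heckeOperatorBar M ⟨ℓ, hℓ⟩ y) = heckeOperatorBar N ⟨ℓ, hℓ⟩ (f y) := by
  obtain ⟨A, hA⟩ := Fermat.Agent.S54.exists_valuationSubring_liesOver ℓ hℓ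
  obtain ⟨σ, hσ⟩ := Fermat.Agent.S37.H99.exists_isFrobeniusAt ℓ hℓ A hA
  have hfy : ∃ n : ℕ, (p ^ n) • f y = 0 := by
    obtain ⟨n, hn⟩ := hy
    exact ⟨n, by rw [← map_nsmul, hn, map_zero]⟩
  rw [hecke_eq_frob hTM hℓ hℓM A hA σ hσ y hy, hecke_eq_frob hTN hℓ hℓN A hA σ hσ (f y) hfy,
    map_add, map_nsmul, hf, hf]

/-- Additive maps preserve `p`-power torsion. -/
theorem map_torsion {A B : Type*} [AddCommGroup A] [AddCommGroup B] (f : A →+ B) {y : A}
    (hy : ∃ n : ℕ, (p ^ n) • y = 0) : ∃ n : ℕ, (p ^ n) • f y = 0 := by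
  obtain ⟨n, hn⟩ := hy
  exact ⟨n, by rw [← map_nsmul, hn, map_zero]⟩

/-- **Hecke equivariance for free, polynomial form.**  A Galois-equivariant additive map
`J₀(M) → J₀(N)` commutes, on `p`-power torsion, with every element of the abstract Hecke algebra
supported on the variables `ℓ ∤ M N p`. -/
theorem map_heckeEval_of_galois (f : JZero M →+ JZero N) (hf : ∀ (σ : GQ) (x : JZero M),
    f (σ • x) = σ • f x) (hTM : TorsRel M p) (hTN : TorsRel N p)
    (hcM : HeckeOperatorsCommuteBar M) (hcN : HeckeOperatorsCommuteBar N)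
    (t : HeckeAlg)
    (ht : t ∈ MvPolynomial.supported ℤ {ℓ : Nat.Primes | ¬ (ℓ : ℕ) ∣ M * p ∧ ¬ (ℓ : ℕ) ∣ N * p})
    (y : JZero M) (hy : ∃ n : ℕ, (p ^ n) • y = 0) :
    f (heckeEvalBar hcM t y) = heckeEvalBar hcN t (f y) := by
  rw [MvPolynomial.supported_eq_adjoin_X] at ht
  induction ht using Algebra.adjoin_induction generalizing y with
  | mem t ht =>
    obtain ⟨ℓ, hℓ, rfl⟩ := ht
    rw [show (MvPolynomial.X ℓ : HeckeAlg) = heckeGen ℓ from rfl, heckeEvalBar_heckeGen,
      heckeEvalBar_heckeGen]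
    exact map_hecke_of_galois f hf hTM hTN ℓ.2 hℓ.1 hℓ.2 y hy
  | algebraMap r =>
    rw [MvPolynomial.algebraMap_eq, heckeEvalBar_C, heckeEvalBar_C, Module.End.intCast_apply,
      Module.End.intCast_apply, map_zsmul]
  | add a b _ _ ha hb =>
    rw [map_add, map_add, LinearMap.add_apply, LinearMap.add_apply, map_add, ha y hy, hb y hy]
  | mul a b _ _ ha hb =>
    have hby : ∃ n : ℕ, (p ^ n) • (heckeEvalBar hcM b y) = 0 :=
      map_torsion (heckeEvalBar hcM b).toAddMonoidHom hy
    rw [map_mul, map_mul, Module.End.mul_apply, Module.End.mul_apply, ha _ hby, hb y hy]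

end MapHecke

section DegeneracyHecke

variable (N q : ℕ) [NeZero N] [NeZero q] {p : ℕ}

omit [NeZero N] [NeZero q] in
theorem not_dvd_of_not_dvd_mul {ℓ : ℕ} (h : ¬ ℓ ∣ N * q * p) : ¬ ℓ ∣ N * p := fun h' =>
  h (by
    obtain ⟨c, hc⟩ := h'
    exact ⟨c * q, by rw [← mul_assoc, ← hc]; ring⟩)

/-- `α_*` commutes with `T_ℓ` (`ℓ ∤ N q p`) on `p`-power torsion. -/
theorem pushA_hecke (hT' : TorsRel (N * q) p) (hT : TorsRel N p) {ℓ : ℕ} (hℓ : ℓ.Prime)
    (hℓN : ¬ ℓ ∣ N * q * p) (y : JZero (N * q)) (hy : ∃ n : ℕ, (p ^ n) • y = 0) :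
    pushA N q (heckeOperatorBar (N * q) ⟨ℓ, hℓ⟩ y) = heckeOperatorBar N ⟨ℓ, hℓ⟩ (pushA N q y) :=
  map_hecke_of_galois (pushA N q) (pushA_galois N q) hT' hT hℓ hℓN
    (not_dvd_of_not_dvd_mul N q hℓN) y hy

/-- `β_*` commutes with `T_ℓ` (`ℓ ∤ N q p`) on `p`-power torsion. -/
theorem pushB_hecke (hT' : TorsRel (N * q) p) (hT : TorsRel N p) {ℓ : ℕ} (hℓ : ℓ.Prime)
    (hℓN : ¬ ℓ ∣ N * q * p) (y : JZero (N * q)) (hy : ∃ n : ℕ, (p ^ n) • y = 0) :
    pushB N q (heckeOperatorBar (N * q) ⟨ℓ, hℓ⟩ y) = heckeOperatorBar N ⟨ℓ, hℓ⟩ (pushB N q y) :=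
  map_hecke_of_galois (pushB N q) (pushB_galois N q) hT' hT hℓ hℓN
    (not_dvd_of_not_dvd_mul N q hℓN) y hy

end DegeneracyHecke

/-! ### `q`-new classes -/

section QNew

variable (N q : ℕ) [NeZero N] [NeZero q]

/-- `x ∈ J₀(N q)` is `q`-new: it is killed by both degeneracy push-forwards to level `N`. -/
def IsQNew (x : JZero (N * q)) : Prop := pushA N q x = 0 ∧ pushB N q x = 0

variable {N q}

theorem isQNew_zero : IsQNew N q 0 := ⟨map_zero _, map_zero _⟩

theorem IsQNew.add {x y : JZero (N * q)} (hx : IsQNew N q x) (hy : IsQNew N q y) :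
    IsQNew N q (x + y) :=
  ⟨by rw [map_add, hx.1, hy.1, add_zero], by rw [map_add, hx.2, hy.2, add_zero]⟩

theorem IsQNew.neg {x : JZero (N * q)} (hx : IsQNew N q x) : IsQNew N q (-x) :=
  ⟨by rw [map_neg, hx.1, neg_zero], by rw [map_neg, hx.2, neg_zero]⟩

theorem IsQNew.nsmul {x : JZero (N * q)} (hx : IsQNew N q x) (n : ℕ) : IsQNew N q (n • x) :=
  ⟨by rw [map_nsmul, hx.1, smul_zero], by rw [map_nsmul, hx.2, smul_zero]⟩

theorem IsQNew.zsmul {x : JZero (N * q)} (hx : IsQNew N q x) (n : ℤ) : IsQNew N q (n • x) :=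
  ⟨by rw [map_zsmul, hx.1, smul_zero], by rw [map_zsmul, hx.2, smul_zero]⟩

theorem IsQNew.galois {x : JZero (N * q)} (hx : IsQNew N q x) (σ : GQ) : IsQNew N q (σ • x) :=
  ⟨by rw [pushA_galois, hx.1]; exact map_zero (DistribSMul.toAddMonoidHom (JZero N) σ),
   by rw [pushB_galois, hx.2]; exact map_zero (DistribSMul.toAddMonoidHom (JZero N) σ)⟩

/-- `q`-newness in terms of divisors: `x = [D]` with `α_* D` and `β_* D` principal. -/
theorem isQNew_mk_iff (D : Divisor.degZero (K := Kbar) (F := modularFunctionFieldBar (N * q))) :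
    IsQNew N q (Pic0.mk D) ↔
      (Divisor.pushforwardAlong (heckeAlphaBar Kbar N q) (heckeAlphaBarIntegral N q)
        (D : Divisor Kbar (modularFunctionFieldBar (N * q)))).IsPrincipal ∧
      (Divisor.pushforwardAlong (heckeBetaBar Kbar N q) (heckeBetaBarIntegral N q)
        (D : Divisor Kbar (modularFunctionFieldBar (N * q)))).IsPrincipal := by
  rw [IsQNew, pushA_mk_eq_zero_iff, pushB_mk_eq_zero_iff]

/-- `T_ℓ` (`ℓ ∤ N q p`) preserves `q`-new `p`-power torsion classes. -/
theorem IsQNew.hecke {p : ℕ} (hT' : TorsRel (N * q) p) (hT : TorsRel N p) {ℓ : ℕ} (hℓ : ℓ.Prime)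
    (hℓN : ¬ ℓ ∣ N * q * p) {y : JZero (N * q)} (hy : ∃ n : ℕ, (p ^ n) • y = 0)
    (hq : IsQNew N q y) : IsQNew N q (heckeOperatorBar (N * q) ⟨ℓ, hℓ⟩ y) :=
  ⟨by rw [pushA_hecke N q hT' hT hℓ hℓN y hy, hq.1, map_zero],
   by rw [pushB_hecke N q hT' hT hℓ hℓN y hy, hq.2, map_zero]⟩

/-- **KILLER ⇒ `q`-new.**  If `t` (supported on the variables `ℓ ∤ N q p`) kills the `p`-power
torsion of `J₀(N)`, then `t • y` is `q`-new for every `p`-power torsion `y ∈ J₀(N q)`. -/
theorem isQNew_heckeEval {p : ℕ} (hT' : TorsRel (N * q) p) (hT : TorsRel N p)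
    (hc' : HeckeOperatorsCommuteBar (N * q)) (hc : HeckeOperatorsCommuteBar N)
    (t : HeckeAlg)
    (ht : t ∈ MvPolynomial.supported ℤ {ℓ : Nat.Primes | ¬ (ℓ : ℕ) ∣ N * q * p})
    (hkill : ∀ z : JZero N, (∃ n : ℕ, (p ^ n) • z = 0) → heckeEvalBar hc t z = 0)
    (y : JZero (N * q)) (hy : ∃ n : ℕ, (p ^ n) • y = 0) :
    IsQNew N q (heckeEvalBar hc' t y) := by
  have ht' : t ∈ MvPolynomial.supported ℤ
      {ℓ : Nat.Primes | ¬ (ℓ : ℕ) ∣ N * q * p ∧ ¬ (ℓ : ℕ) ∣ N * p} := by
    refine MvPolynomial.supported_mono ?_ ht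
    intro ℓ hℓ
    exact ⟨hℓ, not_dvd_of_not_dvd_mul N q hℓ⟩
  constructor
  · rw [map_heckeEval_of_galois (pushA N q) (pushA_galois N q) hT' hT hc' hc t ht' y hy]
    exact hkill _ (map_torsion (pushA N q) hy)
  · rw [map_heckeEval_of_galois (pushB N q) (pushB_galois N q) hT' hT hc' hc t ht' y hy]
    exact hkill _ (map_torsion (pushB N q) hy)

end QNew

end Fermat.Agent.S35.H155

end

end
-- ===== PACK-END S35/H155/B2.lean

-- ===== PACK-BEGIN S35/H891/Spec.lean
section





/-!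
# S35, cell FROB — interfaces (helper891).  Definitions only, no `sorry`.

Plan: `coord/S35-FROB-helper891.md` (origin/helper891).  Notation: `N = M' * q`, `q ∤ M'`, `q ∤ m`,
`s` a Frobenius lift at a place `P ∣ q`, `φ = s²`, `Q = q²`.

* `FrobCtx`, `AlgFrobStatement`   : **FS**, the abstract theorem (language of `A2/Spec.lean` and of
  route G, `A2/H12/GSpec.lean`): for a semilinear automorphism `φ` of the function field which
  induces `r ↦ r ^ Q` on the residue field of `R`, preserves the two sheets and fixes the crossing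
  points of the two charts, every Kummer class `u` with `m ∣ div u` whose residues at the sheets are
  `m`-th powers satisfies `φ u = z ^ m * u ^ Q`.
* `SurjLeaf`, `CoverFLeaf`        : the two leaves which FS needs besides the route-G leaves
  `BaseLeaf`, `RootLeaf`, `SheetsLeaf`, `RedLeaf`, `ConstLeaf`, `CountLeaf` of `A2/H12/AlgLeaves.lean`
  (`FrobLeaves.lean` : `algFrob_of_leaves`).
* `KummerQNewFrobStatement`       : **QNF**, Kummer form, in the modular function field `F̄_N`.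
* `QNewFrobStatement`             : **QNF** on `JZero (M' * q)`:
  `(φ - Q)(φ - 1)² x = 0` for every `q`-new `x` of order prime to `q`.
  (The quartic relation `(φ - Q)(φ - 1) x = 0` of helper991 / helper433 implies it; the top glue
  `Top.lean` only needs the cubic one.)
-/

set_option autoImplicit false

noncomputable section

namespace Fermat.Agent.S35.H891

open Fermat.Agent.A2 Fermat.Agent.A2.H12 ModularCurve AlgebraicCurve

/-! ## FS: the abstract Frobenius theorem -/

/-- The data and hypotheses of `AlgFrobStatement`: those of `A2.AlgSSStatement`, with the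
inertia automorphism replaced by a Frobenius-type automorphism `φ`. -/
structure FrobCtx {R E F : Type} [CommRing R] [IsDomain R] [IsDiscreteValuationRing R]
    [HenselianLocalRing R] [IsAlgClosed (IsLocalRing.ResidueField R)]
    [Field E] [CharZero E] [Algebra R E] [IsFractionRing R E]
    [Field F] [Algebra E F] [Algebra R F] [IsScalarTower R E F]
    (w : R) (q m Q : ℕ) (x : F) (Bf Bi : Subalgebra R F)
    (φ : F ≃+* F) (φE : E ≃+* E) (φR : R ≃+* R) : Prop where
  irr : Irreducible w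
  qprime : q.Prime
  qmem : (q : R) ∈ IsLocalRing.maximalIdeal R
  mpos : 0 < m
  qm : ¬ q ∣ m
  transc : Transcendental E x
  fin : FiniteDimensional (IntermediateField.adjoin E ({x} : Set F)) F
  const : ∀ f : F, IsAlgebraic E f → f ∈ (algebraMap E F).range
  hBf : ∀ f : F, f ∈ Bf ↔ IsIntegral (Algebra.adjoin R ({x} : Set F)) f
  hBi : ∀ f : F, f ∈ Bi ↔ IsIntegral (Algebra.adjoin R ({x⁻¹} : Set F)) f
  cf : Nonempty (SSChart w Bf)
  ci : Nonempty (SSChart w Bi)
  sf : SepCoord R E x Bf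
  si : SepCoord R E x⁻¹ Bi
  hφE : ∀ e : E, φ (algebraMap E F e) = algebraMap E F (φE e)
  hφR : ∀ r : R, φE (algebraMap R E r) = algebraMap R E (φR r)
  hφx : φ x = x
  /-- `φ` induces `r ↦ r ^ Q` on the residue field of `R` -/
  hfrob : ∀ r : R, w ∣ φR r - r ^ Q
  /-- `φ` preserves every sheet (= every component of the special fibre) -/
  hsheet : ∀ V : ValuationSubring F, IsSheet w x V → ∀ c : F, c ∈ V ↔ φ c ∈ V
  /-- `φ` fixes the crossing points of both charts -/
  hnodes : NodesFixed w x φ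

/-- **FS (interface statement).** -/
def AlgFrobStatement : Prop :=
  ∀ {R E F : Type} [CommRing R] [IsDomain R] [IsDiscreteValuationRing R]
    [HenselianLocalRing R] [IsAlgClosed (IsLocalRing.ResidueField R)]
    [Field E] [CharZero E] [Algebra R E] [IsFractionRing R E]
    [Field F] [Algebra E F] [Algebra R F] [IsScalarTower R E F]
    (w : R) (q m Q : ℕ) (x : F) (Bf Bi : Subalgebra R F)
    (φ : F ≃+* F) (φE : E ≃+* E) (φR : R ≃+* R),
    FrobCtx w q m Q x Bf Bi φ φE φR →
    ∀ u : F, u ≠ 0 → DivisibleDiv E m u →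
      (∀ V : ValuationSubring F, IsSheet w x V → SplitAt m V u) →
      (∃ r : ℕ, 0 < r ∧ (φ ^ r) u = u) →
      ∃ z : F, z ≠ 0 ∧ φ u = z ^ m * u ^ Q

/-- Leaf **SURJ**: for every Kummer-split cover, the charts of the cover are generated by the
charts of the base modulo every sheet. -/
def SurjLeaf : Prop :=
  ∀ {R E F : Type} [CommRing R] [IsDomain R] [IsDiscreteValuationRing R]
    [HenselianLocalRing R] [IsAlgClosed (IsLocalRing.ResidueField R)]
    [Field E] [CharZero E] [Algebra R E] [IsFractionRing R E]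
    [Field F] [Algebra E F] [Algebra R F] [IsScalarTower R E F]
    (w : R) (q m : ℕ) (x : F) (Bf Bi : Subalgebra R F)
    (τ : F ≃+* F) (τE : E ≃+* E) (τR : R ≃+* R),
    SSCtx w q m x Bf Bi τ τE τR →
    ∀ (L : Type) [Field L] [Algebra F L] [Algebra R L] [IsScalarTower R F L],
      IsKummerSplit L w x m → SurjConclusion L w x

/-- Leaf **COVER-F**: a Kummer-split cover containing an `m`-th root of `g` to which `φ` lifts,
for `g` with a finite `φ`-orbit (`φ` itself has infinite order). -/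
def CoverFLeaf : Prop :=
  ∀ {R F : Type} [CommRing R] [Field F] [CharZero F] [Algebra R F]
    (w : R) (x : F) (m : ℕ) (φ : F ≃+* F) (φR : R ≃+* R),
    Function.Injective (algebraMap R F) → 0 < m → (∃ ζ : R, IsPrimitiveRoot ζ m) →
    φ x = x → (∀ r, φ (algebraMap R F r) = algebraMap R F (φR r)) → (∀ r, w ∣ r ↔ w ∣ φR r) →
    ∀ (r : ℕ), 0 < r → ∀ g : F, (φ ^ r) g = g → g ≠ 0 → HorDiv R m g →
      (∀ V : ValuationSubring F, IsSheet w x V → SplitAt m V g) →
      CoverConclusion w x m φ g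

/-! ## QNF: the theorem on the modular curve -/

/-- `φ = s²` on the modular function field `F̄_N`. -/
abbrev actSq (N : ℕ) (s : Qb ≃ₐ[ℚ] Qb) (f : modularFunctionFieldBar N) :
    modularFunctionFieldBar N :=
  act N s (act N s f)

/-- **QNF, Kummer form.**  `N = M' * q`.  If `m ∣ div f` and both norms `N_α f`, `N_β f` are
`m`-th powers in `F̄_{M'}` (the class of `f` is `q`-new), then
`φ³ f · (φ f) ^ (1 + 2Q) = h ^ m · (φ² f) ^ (2 + Q) · f ^ Q`, `φ = s²`, `Q = q²`. -/
def KummerQNewFrobStatement : Prop :=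
  ∀ (M' q m : ℕ) [NeZero M'] [NeZero q], q.Prime → ¬ q ∣ M' → 0 < m → ¬ q ∣ m →
    ∀ P : ValuationSubring Qb, P.LiesOverPrime q →
    ∀ s : Qb ≃ₐ[ℚ] Qb, P.IsFrobeniusAt s q →
    ∀ f : modularFunctionFieldBar (M' * q), f ≠ 0 →
      (∀ v : Place Qb (modularFunctionFieldBar (M' * q)), (m : ℤ) ∣ v.ord f) →
      (∃ h : modularFunctionFieldBar M', h ≠ 0 ∧
        Fermat.Agent.S29.H395.normAlong (heckeAlphaBar Qb M' q) f = h ^ m) →
      (∃ h : modularFunctionFieldBar M', h ≠ 0 ∧
        Fermat.Agent.S29.H395.normAlong (heckeBetaBar Qb M' q) f = h ^ m) →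
      ∃ h : modularFunctionFieldBar (M' * q), h ≠ 0 ∧
        actSq (M' * q) s (actSq (M' * q) s (actSq (M' * q) s f)) *
            actSq (M' * q) s f ^ (1 + 2 * q ^ 2) =
          h ^ m * actSq (M' * q) s (actSq (M' * q) s f) ^ (2 + q ^ 2) * f ^ (q ^ 2)

/-- `x ∈ J₀(M' q)` is `q`-new: it is the class of a divisor of degree `0` both of whose
pushforwards to level `M'` are principal. -/
def IsQNew (M' q : ℕ) [NeZero M'] [NeZero q] (x : JZero (M' * q)) : Prop :=
  ∃ (hα : HeckeAlphaBarIntegral Qb M' q) (hβ : HeckeBetaBarIntegral Qb M' q)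
    (D : Divisor.degZero (K := Qb) (F := modularFunctionFieldBar (M' * q))),
    Pic0.mk D = x ∧
      (Divisor.pushforwardAlong (heckeAlphaBar Qb M' q) hα (D : Divisor Qb _)).IsPrincipal ∧
      (Divisor.pushforwardAlong (heckeBetaBar Qb M' q) hβ (D : Divisor Qb _)).IsPrincipal

/-- **QNF.**  `(φ - Q)(φ - 1)² x = 0` for every `q`-new `x ∈ J₀(M' q)[m]`, `φ = s²`, `Q = q²`:
`φ³ x + (1 + 2Q) φ x = (2 + Q) φ² x + Q x`. -/
def QNewFrobStatement : Prop :=
  ∀ (M' q m : ℕ) [NeZero M'] [NeZero q], q.Prime → ¬ q ∣ M' → 0 < m → ¬ q ∣ m →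
    ∀ P : ValuationSubring Qb, P.LiesOverPrime q →
    ∀ s : Qb ≃ₐ[ℚ] Qb, P.IsFrobeniusAt s q →
    ∀ x : JZero (M' * q), m • x = 0 → IsQNew M' q x →
      s • s • s • s • s • s • x + (1 + 2 * q ^ 2) • (s • s • x) =
        (2 + q ^ 2) • (s • s • s • s • x) + q ^ 2 • x

end Fermat.Agent.S35.H891

end
end
-- ===== PACK-END S35/H891/Spec.lean

-- ===== PACK-BEGIN S29/H222/ESKFrob.lean
section
/-
S29 / helper222 — piece ESK-F: every Frobenius element at `A` satisfies the Eichler–Shimura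
relation `σ² - T_ℓ σ + ℓ = 0` on `J₀(N)(ℚ̄)[m]`, from `S18.CoreStatement N A m`, the Prelude's
`PrincipalGeneratedByIntegral`, `HeckeInputsAlong` and NORM-ID.

Proof: `x = [D]`, `m D = div U₁ - div U₂` (`U₁, U₂` integral).  With `K(U) := kronNorm ℓ (σU)`
(`= Nm_α (β (σU))` by NORM-ID, reduction `Ū^ℓ · Φ²Ū` by the Kronecker congruence) put
`V₁ = σ²U₁ · U₁^ℓ · K(U₂)`, `V₂ = σ²U₂ · U₂^ℓ · K(U₁)`: same reduction, and
`div V₁ - div V₂ = m (σ²D - T_ℓ σD + ℓ D)`.  CORE gives `V₁ = c y^m V₂`.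
-/


set_option autoImplicit false
set_option linter.style.haveILetI false

noncomputable section

namespace Fermat.Agent.S29.H222

open ModularCurve AlgebraicCurve HahnSeries IsLocalRing
open Fermat.Agent.S18 (Qb IsInt toF CoreStatement)
open Fermat.Agent.S37.H400 (kronNorm)

variable {A : ValuationSubring Qb} {N : ℕ}

section Kron

variable [NeZero N] {ℓ : ℕ} [Fact ℓ.Prime] [NeZero ℓ] [CharP (ResidueField A) ℓ]

/-- Reduction of the Kronecker norm of `σU` for a Frobenius element `σ`. -/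
theorem coeffMap_residue_kronNorm_galA {g : A.decompositionSubgroup ℚ}
    (hgk : decK g = frobenius (ResidueField A) ℓ) (U : LaurentSeries A) :
    coeffMap (residue A) (kronNorm ℓ (galA g U))
      = coeffMap (residue A) U ^ ℓ
        * coeffMap (decK g) (coeffMap (decK g) (coeffMap (residue A) U)) := by
  have h1 := Fermat.Agent.S37.H400.coeffMap_kronNorm_char ℓ (residue A) (galA g U)
  have h2 := Fermat.Agent.S37.H400.laurent_pow_char ℓ (coeffMap (residue A) U)
  rw [coeffMap_residue_galA, ← hgk] at h1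
  rw [← hgk] at h2
  rw [h1, h2]

/-- The integral Kronecker norm `K(U) = kronNorm ℓ (σ U)`. -/
theorem isInt_kronNorm_galA (hnid : NormId N ℓ) {g : A.decompositionSubgroup ℚ}
    (hgk : decK g = frobenius (ResidueField A) ℓ) {U : LaurentSeries A} (hU : IsInt A N U) :
    IsInt A N (kronNorm ℓ (galA g U)) := by
  refine ⟨?_, ?_, ?_⟩
  · rw [Fermat.Agent.S37.H400.coeffMap_kronNorm]
    have := hnid (toF (isInt_galA g hU))
    rw [coe_toF] at this
    rw [← this]
    exact (heckeNorm N ℓ (toF (isInt_galA g hU))).2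
  · rw [coeffMap_residue_kronNorm_galA hgk]
    exact mul_mem (pow_mem hU.2.1 ℓ) (coeffMap_mem_fullC _ (coeffMap_mem_fullC _ hU.2.1))
  · rw [coeffMap_residue_kronNorm_galA hgk]
    exact mul_ne_zero (pow_ne_zero ℓ hU.2.2)
      (coeffMap_ne_zero_of_injective _ (decK_injective g)
        (coeffMap_ne_zero_of_injective _ (decK_injective g) hU.2.2))

theorem toF_kronNorm_galA (hnid : NormId N ℓ) {g : A.decompositionSubgroup ℚ}
    (hgk : decK g = frobenius (ResidueField A) ℓ) {U : LaurentSeries A} (hU : IsInt A N U) :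
    toF (isInt_kronNorm_galA hnid hgk hU) = heckeNorm N ℓ (toF (isInt_galA g hU)) := by
  apply Subtype.ext
  rw [coe_toF, Fermat.Agent.S37.H400.coeffMap_kronNorm, hnid (toF (isInt_galA g hU)), coe_toF]

end Kron

end Fermat.Agent.S29.H222

namespace Fermat.Agent.S29.H222

open ModularCurve AlgebraicCurve HahnSeries IsLocalRing
open Fermat.Agent.S18 (Qb IsInt toF CoreStatement)
open Fermat.Agent.S37.H400 (kronNorm)

variable {A : ValuationSubring Qb} {N : ℕ}

/-- A class is zero as soon as its divisor is the divisor of a function. -/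
theorem pic0_mk_eq_zero_of_isDivOf
    (D : Divisor.degZero (K := Qb) (F := modularFunctionFieldBar N))
    {y : modularFunctionFieldBar N} (hy : y ≠ 0)
    (h : IsDivOf (K := Qb) y (D : Divisor Qb (modularFunctionFieldBar N))) :
    (Pic0.mk D : JZero N) = 0 := by
  refine (QuotientAddGroup.eq_zero_iff _).mpr ?_
  rw [AddSubgroup.mem_addSubgroupOf]
  exact ⟨y, hy, h⟩

theorem galois_smul_mk (σ : Qb ≃ₐ[ℚ] Qb)
    (D : Divisor.degZero (K := Qb) (F := modularFunctionFieldBar N)) :
    σ • (Pic0.mk D : JZero N)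
      = Pic0.mk (SemilinearAut.degZeroSMulHom
          (arithmeticGalois (modularFunctionFieldFull N) σ) D) := by
  rw [galois_smul_pic0_def, SemilinearAut.pic0_smul_mk]

/-- **ESK-F.** -/
theorem esk_frob : ESKFrobStatement := by
  intro N _ ℓ hℓ m hm A hA hcore hpgi hHI hnid σ hσ x hx
  haveI : NeZero ℓ := ⟨hℓ.ne_zero⟩
  haveI : Fact ℓ.Prime := ⟨hℓ⟩
  haveI : CharP (ResidueField A) ℓ := charP_residueField_of_liesOver hℓ hA
  obtain ⟨hdec, hfrob⟩ := hσ
  set g : A.decompositionSubgroup ℚ := ⟨σ, hdec⟩ with hg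
  have hgk : decK g = frobenius (ResidueField A) ℓ := RingHom.ext fun x => hfrob x
  obtain ⟨hα, hβ, hP, hfin, hFI, hN⟩ := hHI
  haveI := hP
  obtain ⟨D, rfl⟩ := Pic0.mk_surjective x
  obtain ⟨U₁, U₂, h₁, h₂, D₁, D₂, hd₁, hd₂, hDD⟩ :=
    exists_isInt_of_principal hpgi (smul_mem_principal_of_torsion D hx)
  set G := arithmeticGalois (modularFunctionFieldFull N) σ with hG
  -- the integral series
  have hg₁ := isInt_galA g h₁
  have hg₂ := isInt_galA g h₂
  have hgg₁ := isInt_galA g hg₁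
  have hgg₂ := isInt_galA g hg₂
  have hK₁ := isInt_kronNorm_galA hnid hgk h₁
  have hK₂ := isInt_kronNorm_galA hnid hgk h₂
  have hV₁ : IsInt A N (galA g (galA g U₁) * U₁ ^ ℓ * kronNorm ℓ (galA g U₂)) :=
    isInt_mul (isInt_mul hgg₁ (isInt_pow h₁ ℓ)) hK₂
  have hV₂ : IsInt A N (galA g (galA g U₂) * U₂ ^ ℓ * kronNorm ℓ (galA g U₁)) :=
    isInt_mul (isInt_mul hgg₂ (isInt_pow h₂ ℓ)) hK₁
  -- equal reductions
  have hred : coeffMap (residue A) (galA g (galA g U₁) * U₁ ^ ℓ * kronNorm ℓ (galA g U₂))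
      = coeffMap (residue A) (galA g (galA g U₂) * U₂ ^ ℓ * kronNorm ℓ (galA g U₁)) := by
    simp only [map_mul, map_pow, coeffMap_residue_galA, coeffMap_residue_kronNorm_galA hgk]
    ring
  -- divisors
  have hσ₁ : IsDivOf (toF hg₁) (G • D₁) := by rw [toF_galA]; exact hd₁.smul G
  have hσ₂ : IsDivOf (toF hg₂) (G • D₂) := by rw [toF_galA]; exact hd₂.smul G
  have hσσ₁ : IsDivOf (toF hgg₁) (G • G • D₁) := by rw [toF_galA]; exact hσ₁.smul G
  have hσσ₂ : IsDivOf (toF hgg₂) (G • G • D₂) := by rw [toF_galA]; exact hσ₂.smul G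
  have hp₁ : IsDivOf (toF (isInt_pow h₁ ℓ)) ((ℓ : ℤ) • D₁) := by
    rw [toF_pow]; exact hd₁.pow ℓ
  have hp₂ : IsDivOf (toF (isInt_pow h₂ ℓ)) ((ℓ : ℤ) • D₂) := by
    rw [toF_pow]; exact hd₂.pow ℓ
  have hT₁ : IsDivOf (toF hK₁) (heckeDivBar hα hβ (G • D₁)) := by
    rw [toF_kronNorm_galA hnid hgk h₁]
    exact isDivOf_heckeDivBar hα hβ hfin hN (toF_ne_zero hg₁) hσ₁
  have hT₂ : IsDivOf (toF hK₂) (heckeDivBar hα hβ (G • D₂)) := by
    rw [toF_kronNorm_galA hnid hgk h₂]
    exact isDivOf_heckeDivBar hα hβ hfin hN (toF_ne_zero hg₂) hσ₂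
  have hdV₁ : IsDivOf (toF hV₁)
      (G • G • D₁ + (ℓ : ℤ) • D₁ + heckeDivBar hα hβ (G • D₂)) := by
    rw [toF_mul (isInt_mul hgg₁ (isInt_pow h₁ ℓ)) hK₂, toF_mul hgg₁ (isInt_pow h₁ ℓ)]
    exact ((hσσ₁.mul (toF_ne_zero _) (toF_ne_zero _) hp₁).mul
      (mul_ne_zero (toF_ne_zero _) (toF_ne_zero _)) (toF_ne_zero _) hT₂)
  have hdV₂ : IsDivOf (toF hV₂)
      (G • G • D₂ + (ℓ : ℤ) • D₂ + heckeDivBar hα hβ (G • D₁)) := by
    rw [toF_mul (isInt_mul hgg₂ (isInt_pow h₂ ℓ)) hK₁, toF_mul hgg₂ (isInt_pow h₂ ℓ)]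
    exact ((hσσ₂.mul (toF_ne_zero _) (toF_ne_zero _) hp₂).mul
      (mul_ne_zero (toF_ne_zero _) (toF_ne_zero _)) (toF_ne_zero _) hT₁)
  -- the divisor of the relation
  set Dv : Divisor Qb (modularFunctionFieldBar N) := (D : Divisor Qb (modularFunctionFieldBar N))
    with hDv
  set E : Divisor Qb (modularFunctionFieldBar N) :=
    G • G • Dv - heckeDivBar hα hβ (G • Dv) + (ℓ : ℤ) • Dv with hE
  have hGz : ∀ X : Divisor Qb (modularFunctionFieldBar N), G • ((m : ℤ) • X) = (m : ℤ) • (G • X) :=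
    fun X => map_zsmul (DistribSMul.toAddMonoidHom (Divisor Qb (modularFunctionFieldBar N)) G) m X
  have hmE : (m : ℤ) • E
      = (G • G • D₁ + (ℓ : ℤ) • D₁ + heckeDivBar hα hβ (G • D₂))
        - (G • G • D₂ + (ℓ : ℤ) • D₂ + heckeDivBar hα hβ (G • D₁)) := by
    have e1 : (m : ℤ) • E = G • G • ((m : ℤ) • Dv) - heckeDivBar hα hβ (G • ((m : ℤ) • Dv))
        + (ℓ : ℤ) • ((m : ℤ) • Dv) := by
      rw [hE, smul_add, smul_sub, hGz, hGz, map_zsmul, smul_comm (m : ℤ) (ℓ : ℤ) Dv]
    rw [e1, hDD, smul_sub, smul_sub, smul_sub, map_sub]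
    abel
  have hkey : ∀ v : Place Qb (modularFunctionFieldBar N),
      (m : ℤ) * E v = v.ord (toF hV₁) - v.ord (toF hV₂) := by
    intro v
    rw [← hdV₁ v, ← hdV₂ v, ← Finsupp.sub_apply, ← hmE, Finsupp.smul_apply, smul_eq_mul]
  have hord : ∀ v : Place Qb (modularFunctionFieldBar N),
      (m : ℤ) ∣ v.ord (toF hV₁) - v.ord (toF hV₂) := fun v => ⟨_, (hkey v).symm⟩
  obtain ⟨c, y, hc, hy, hcy⟩ := hcore _ _ hV₁ hV₂ hred hord
  have hEy : IsDivOf y E := isDivOf_of_eq_const_mul_pow hm hc hy (toF_ne_zero hV₂) hcy hkey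
  -- conclusion in `Pic0`
  have hT : heckeOperatorBar N ⟨ℓ, hℓ⟩
      = (heckePic0Bar hα hβ hFI hfin hN).toIntLinearMap := by
    unfold heckeOperatorBar
    rw [heckeOperatorAlong_eq hα hβ hFI hfin hN]
  rw [galois_smul_mk, galois_smul_mk, hT]
  show Pic0.mk _ - Pic0.correspondence _ _ hβ hα hFI hfin hN (Pic0.mk _) + (ℓ : ℤ) • Pic0.mk D = 0
  rw [Pic0.correspondence_mk]
  have hfinal : (Pic0.mk (SemilinearAut.degZeroSMulHom G (SemilinearAut.degZeroSMulHom G D))
      - Pic0.mk (Pic0.degZeroCorrespondence (heckeBetaBar Qb N ℓ) (heckeAlphaBar Qb N ℓ) hβ hα hFI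
          (SemilinearAut.degZeroSMulHom G D))
      + (ℓ : ℤ) • Pic0.mk D : JZero N)
      = Pic0.mk (SemilinearAut.degZeroSMulHom G (SemilinearAut.degZeroSMulHom G D)
          - Pic0.degZeroCorrespondence (heckeBetaBar Qb N ℓ) (heckeAlphaBar Qb N ℓ) hβ hα hFI
              (SemilinearAut.degZeroSMulHom G D)
          + (ℓ : ℤ) • D) := rfl
  rw [hfinal]
  exact pic0_mk_eq_zero_of_isDivOf _ hy hEy

end Fermat.Agent.S29.H222

end
end
-- ===== PACK-END S29/H222/ESKFrob.lean

-- ===== PACK-BEGIN S18/H516/CoreRes.lean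
section







/-!
# S18 / MOD (helper516): the S28 core data for the residue field of a place over `ℓ`

`coreData_residue` : for `A ⊆ L` a valuation subring with `(ℓ : L) ∈ 𝔪_A` (`A.LiesOverPrime ℓ`),
`ℓ ∤ N`: `CoreData N (IsLocalRing.ResidueField A)` (S28 H867 + H326 + H25, all on main).
`coreData_of_charP` : the same for any field `k : Type` of characteristic `ℓ`.
-/

set_option autoImplicit false

noncomputable section

namespace Fermat.Agent.S18.H516

open ModularCurve Fermat.Agent.S28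

/-- S28 core data for every field of characteristic `ℓ ∤ N`. -/
theorem coreData_of_charP (N : ℕ) [NeZero N] (ℓ : ℕ) [Fact ℓ.Prime] (hℓN : ¬ ℓ ∣ N)
    (k : Type) [Field k] [CharP k ℓ] : CoreData N k :=
  H867.coreData_of_inputs N ℓ hℓN k
    (fun p hp _ _ => H326.nonempty_modPolyData p hp)
    (fun p hp _ _ => H326.nonempty_unitPolyData p hp)
    H25.theta_identity

theorem charP_residue {L : Type*} [Field L] (A : ValuationSubring L) {ℓ : ℕ} [Fact ℓ.Prime]
    (hA : A.LiesOverPrime ℓ) : CharP (IsLocalRing.ResidueField A) ℓ := by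
  have hℓ : ℓ.Prime := Fact.out
  have h0 : ((ℓ : ℕ) : IsLocalRing.ResidueField A) = 0 := by
    have h1 : IsLocalRing.residue A ((ℓ : ℕ) : ↥A) = 0 := by
      rw [IsLocalRing.residue_eq_zero_iff, IsLocalRing.mem_maximalIdeal, mem_nonunits_iff]
      intro hu
      have h2 : (ℓ : L) ∈ A.nonunits := hA
      rw [ValuationSubring.mem_nonunits_iff] at h2
      have h3 : A.valuation (ℓ : L) = 1 := by
        have := (A.valuation_eq_one_iff ((ℓ : ℕ) : ↥A)).mp hu
        simpa using this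
      exact absurd h3 h2.ne
    simpa using h1
  exact (CharP.charP_iff_prime_eq_zero hℓ).mpr h0

/-- **S28 core data for the residue field of a place over `ℓ ∤ N`.** -/
theorem coreData_residue (N : ℕ) [NeZero N] {ℓ : ℕ} [Fact ℓ.Prime] (hℓN : ¬ ℓ ∣ N)
    (A : ValuationSubring (AlgebraicClosure ℚ)) (hA : A.LiesOverPrime ℓ) :
    CoreData N (IsLocalRing.ResidueField A) := by
  have := charP_residue A hA
  exact coreData_of_charP N ℓ hℓN _

end Fermat.Agent.S18.H516

end
end
-- ===== PACK-END S18/H516/CoreRes.lean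

-- ===== PACK-BEGIN Lib/Newform/H958/Leaves.lean
section



/-!
# Shared library NEWFORM — leaves already available

* `occurs : Occurs` (adapter around helper863's `exists_normalizedEigenform_of_eigenvector`);
* `incl : Incl` (level inclusion `M ∣ C`).
-/

set_option autoImplicit false

open CongruenceSubgroup UpperHalfPlane
open scoped MatrixGroups

namespace Fermat.Agent.Lib.Newform.H958

theorem occurs : Occurs := by
  intro M _ h hh P a heig
  obtain ⟨g, hg, hgl⟩ := Fermat.Agent.Lib.Newform.H863.exists_normalizedEigenform_of_eigenvector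
    (S := Pᶜ) a h hh (fun ℓ hℓ hℓM hS => heig ℓ hℓ hℓM (by simpa using hS))
  exact ⟨g, hg, fun ℓ hℓ hℓM hP => hgl ℓ hℓ hℓM (by simpa using hP)⟩

theorem gamma0_le_of_dvd {M C : ℕ} (h : M ∣ C) : Gamma0 C ≤ Gamma0 M := by
  intro γ hγ
  rw [Gamma0_mem] at hγ ⊢
  exact (ZMod.intCast_zmod_eq_zero_iff_dvd _ _).mpr
    ((Int.natCast_dvd_natCast.mpr h).trans ((ZMod.intCast_zmod_eq_zero_iff_dvd _ _).mp hγ))

theorem incl : Incl := by
  intro M C hMC g
  have hle : (Gamma0 C : Subgroup (GL (Fin 2) ℝ)) ≤ (Gamma0 M : Subgroup (GL (Fin 2) ℝ)) :=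
    Subgroup.map_mono (gamma0_le_of_dvd hMC)
  exact ⟨{ toFun := ⇑g
           slash_action_eq' := fun γ hγ => SlashInvariantFormClass.slash_action_eq g γ (hle hγ)
           holo' := CuspFormClass.holo g
           zero_at_cusps' := fun hc => CuspFormClass.zero_at_cusps g (hc.mono hle) }, rfl⟩

end Fermat.Agent.Lib.Newform.H958

end
-- ===== PACK-END Lib/Newform/H958/Leaves.lean

-- ===== PACK-BEGIN S36/H370/Mod3Res.lean
section
/-
S36 / MOD3, rows FF (helper370): residue degree one along `α` at ANY level.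

`resInfQ` is leaf L11 of A2/MOD (`A2.Mod.H378.resInf`, helper378) with the hypothesis `q ∤ M`
removed: for every level `M ≠ 0` (in particular `M = q M'`) and every prime `q`,

    V∞(M q) = α (V∞(M)) + w · V∞(M q).

The proof is helper378's, verbatim: it never used `q ∤ M` (the Kronecker relation
`(j_{dq}^q - j_d)(j_{dq} - j_d^q) = - q Θ` holds for every `d`, and the divisors of `M q` are the
`d ∣ M` and the `d' q`, `d' ∣ M`, for every `M`); only the packaging `A2.Mod.Setting` carried it.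
`SettingQ` is `Setting` without `q_not_dvd` and `M_ne_zero`.

Also: `comap_alpha_vinfQ` : `V∞(M q).comap α = V∞(M)` (field `comap_α₁` of `S36.Eng.TripleCtx`).
-/


set_option autoImplicit false
set_option linter.unusedSectionVars false
set_option linter.style.haveILetI false
set_option synthInstance.maxHeartbeats 400000
set_option maxHeartbeats 1600000

noncomputable section

namespace Fermat.Agent.S36.H370

open ModularCurve HahnSeries Fermat.Agent.A2 Fermat.Agent.A2.Mod Fermat.Agent.A2.H708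
  Fermat.Agent.S28 Fermat.Agent.A2.Mod.H378

/-- The standing hypotheses of the `q`-adic leaves at an ARBITRARY level: `q` prime, `P` over `q`,
`R_E = P ∩ E` a discrete valuation ring with uniformiser `w`.  (`A2.Mod.Setting` without the
hypothesis `q ∤ M`.) -/
structure SettingQ (P : ValuationSubring _root_.Fermat.Agent.A2.Mod.Qb) (E : IntermediateField ℚ _root_.Fermat.Agent.A2.Mod.Qb) (q : ℕ)
    (w : _root_.Fermat.Agent.A2.Mod.RE P E) : Prop where
  q_prime : q.Prime
  lies_over : P.LiesOverPrime q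
  dvr : IsDiscreteValuationRing (_root_.Fermat.Agent.A2.Mod.RE P E)
  unif : Irreducible w

theorem SettingQ.of_setting {P : ValuationSubring _root_.Fermat.Agent.A2.Mod.Qb} {E : IntermediateField ℚ _root_.Fermat.Agent.A2.Mod.Qb} {M q : ℕ}
    {w : _root_.Fermat.Agent.A2.Mod.RE P E} (h : Setting P E M q w) : SettingQ P E q w :=
  ⟨h.q_prime, h.lies_over, h.dvr, h.unif⟩

section Concrete

variable {P : ValuationSubring _root_.Fermat.Agent.A2.Mod.Qb} {E : IntermediateField ℚ _root_.Fermat.Agent.A2.Mod.Qb} {M q : ℕ} [NeZero M] [NeZero q]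
  {w : _root_.Fermat.Agent.A2.Mod.RE P E}

theorem attainsQ (hS : SettingQ P E q w) (N : ℕ) :
    AttainsMax (_root_.Fermat.Agent.A2.Mod.RE P E) (modularFunctionFieldFull N) := by
  haveI := hS.dvr
  exact attainsMax_of_isNoetherianRing _ _

theorem alpha_mem_iffQ (hS : SettingQ P E q w) {VM : ValuationSubring (_root_.Fermat.Agent.A2.Mod.FE E M)}
    {V : ValuationSubring (_root_.Fermat.Agent.A2.Mod.FE E (M * q))} (hVM : IsVinf P E M VM) (hV : IsVinf P E (M * q) V)
    (g : _root_.Fermat.Agent.A2.Mod.FE E M) : αE E M q g ∈ V ↔ g ∈ VM := by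
  rw [hV (αE E M q g), hVM g, coe_heckeAlphaBar]
  constructor
  · exact isGaussInt_descend (_root_.Fermat.Agent.A2.Mod.RE P E) (intGen_full M) (attainsQ hS M) (FE_le E M q) g.2
  · exact isGaussInt_mono (_root_.Fermat.Agent.A2.Mod.RE P E) (FE_le E M q)

theorem w_ne_zeroQ (hS : SettingQ P E q w) : (w : E) ≠ 0 :=
  fun h => hS.unif.ne_zero (Subtype.ext h)

theorem cE_ne_zeroQ (hS : SettingQ P E q w) (N : ℕ) : cE P E N w ≠ 0 := by
  intro h
  exact w_ne_zeroQ hS ((map_eq_zero (algebraMap E (_root_.Fermat.Agent.A2.Mod.FE E N))).mp h)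

theorem w_inv_not_memQ (hS : SettingQ P E q w) : (w : E)⁻¹ ∉ _root_.Fermat.Agent.A2.Mod.RE P E := by
  intro h
  apply hS.unif.not_isUnit
  refine ⟨⟨w, ⟨(w : E)⁻¹, h⟩, ?_, ?_⟩, rfl⟩
  · exact Subtype.ext (mul_inv_cancel₀ (w_ne_zeroQ hS))
  · exact Subtype.ext (inv_mul_cancel₀ (w_ne_zeroQ hS))

theorem exists_q_eqQ (hS : SettingQ P E q w) : ∃ c : _root_.Fermat.Agent.A2.Mod.RE P E, ((q : ℕ) : E) = (w : E) * (c : E) := by
  haveI := hS.dvr
  have hq := hS.lies_over
  have hqv : P.valuation ((q : ℕ) : _root_.Fermat.Agent.A2.Mod.Qb) < 1 := (ValuationSubring.mem_nonunits_iff P).mp hq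
  have hqP : algebraMap E _root_.Fermat.Agent.A2.Mod.Qb ((q : ℕ) : E) ∈ P := by
    rw [map_natCast, ← ValuationSubring.valuation_le_one_iff]
    exact hqv.le
  set qA : _root_.Fermat.Agent.A2.Mod.RE P E := ⟨((q : ℕ) : E), hqP⟩ with hqA
  have hnu : ¬ IsUnit qA := by
    rintro ⟨u, hu⟩
    have h1 : qA * ((u⁻¹ : (_root_.Fermat.Agent.A2.Mod.RE P E)ˣ) : _root_.Fermat.Agent.A2.Mod.RE P E) = 1 := by
      rw [← hu]
      exact u.mul_inv
    have h2 : ((q : ℕ) : _root_.Fermat.Agent.A2.Mod.Qb) * algebraMap E _root_.Fermat.Agent.A2.Mod.Qb (((u⁻¹ : (_root_.Fermat.Agent.A2.Mod.RE P E)ˣ) : _root_.Fermat.Agent.A2.Mod.RE P E) : E) = 1 := by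
      have h3 := congrArg (fun z : _root_.Fermat.Agent.A2.Mod.RE P E => algebraMap E _root_.Fermat.Agent.A2.Mod.Qb (z : E)) h1
      simpa [hqA] using h3
    have h4 : P.valuation (algebraMap E _root_.Fermat.Agent.A2.Mod.Qb (((u⁻¹ : (_root_.Fermat.Agent.A2.Mod.RE P E)ˣ) : _root_.Fermat.Agent.A2.Mod.RE P E) : E)) ≤ 1 :=
      (ValuationSubring.valuation_le_one_iff _ _).mpr ((u⁻¹ : (_root_.Fermat.Agent.A2.Mod.RE P E)ˣ) : _root_.Fermat.Agent.A2.Mod.RE P E).2
    have h5 := congrArg P.valuation h2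
    rw [map_mul, map_one] at h5
    have h6 : P.valuation ((q : ℕ) : _root_.Fermat.Agent.A2.Mod.Qb) *
        P.valuation (algebraMap E _root_.Fermat.Agent.A2.Mod.Qb (((u⁻¹ : (_root_.Fermat.Agent.A2.Mod.RE P E)ˣ) : _root_.Fermat.Agent.A2.Mod.RE P E) : E)) < 1 := by
      calc _ ≤ P.valuation ((q : ℕ) : _root_.Fermat.Agent.A2.Mod.Qb) * 1 := by gcongr
        _ = P.valuation ((q : ℕ) : _root_.Fermat.Agent.A2.Mod.Qb) := mul_one _
        _ < 1 := hqv
    exact (ne_of_lt h6) h5
  have hmem : qA ∈ IsLocalRing.maximalIdeal (_root_.Fermat.Agent.A2.Mod.RE P E) := (IsLocalRing.mem_maximalIdeal _).mpr hnu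
  rw [hS.unif.maximalIdeal_eq, Ideal.mem_span_singleton] at hmem
  obtain ⟨c, hc⟩ := hmem
  refine ⟨c, ?_⟩
  have := congrArg Subtype.val hc
  simpa [hqA] using this

theorem kron_XQ (hS : SettingQ P E q w) {VM : ValuationSubring (_root_.Fermat.Agent.A2.Mod.FE E M)}
    {V : ValuationSubring (_root_.Fermat.Agent.A2.Mod.FE E (M * q))} (hVM : IsVinf P E M VM) (hV : IsVinf P E (M * q) V)
    {x : _root_.Fermat.Agent.A2.Mod.FE E (M * q)} (hx : x ∈ Xset E M q) :
    ∃ a ∈ Oring E M q VM,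
      ∃ s ∈ Subring.closure ((Oring E M q VM : Set (_root_.Fermat.Agent.A2.Mod.FE E (M * q))) ∪ Xset E M q),
        s ≠ 0 ∧ s⁻¹ ∈ V.toSubring ∧
        ∃ c ∈ Subring.closure ((Oring E M q VM : Set (_root_.Fermat.Agent.A2.Mod.FE E (M * q))) ∪ Xset E M q),
          s * (x - a) = cE P E (M * q) w * c := by
  obtain ⟨d, hd, hdM, hxd⟩ := hx
  haveI := hd
  set B := Subring.closure ((Oring E M q VM : Set (_root_.Fermat.Agent.A2.Mod.FE E (M * q))) ∪ Xset E M q) with hB
  set y0 : _root_.Fermat.Agent.A2.Mod.FE E M := ⟨jser E d, jser_mem E M d hdM⟩ with hy0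
  have hy0V : y0 ∈ VM := jser_mem_V hVM (d := d) rfl
  set y : _root_.Fermat.Agent.A2.Mod.FE E (M * q) := αE E M q y0 with hy
  have hyc : (y : LaurentSeries E) = jser E d := coe_heckeAlphaBar M q y0
  have hyO : y ∈ Oring E M q VM := mem_Oring.mpr ⟨y0, hy0V, rfl⟩
  have hxB : x ∈ B := Subring.subset_closure (Or.inr ⟨d, hd, hdM, hxd⟩)
  have hyB : y ∈ B := Subring.subset_closure (Or.inl hyO)
  obtain ⟨Θ, hΘ⟩ := kron_series E q hS.q_prime d
  obtain ⟨c0, hc0⟩ := exists_q_eqQ hS
  set θ : _root_.Fermat.Agent.A2.Mod.FE E (M * q) := Θ.eval₂ ((Polynomial.aeval (R := ℤ) y).toRingHom) x with hθ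
  have hθB : θ ∈ B := by
    refine eval₂_mem_subring _ x B (fun r => ?_) hxB Θ
    show Polynomial.aeval y r ∈ B
    rw [Polynomial.aeval_def]
    refine eval₂_mem_subring _ y B (fun n => ?_) hyB r
    rw [eq_intCast]
    exact intCast_mem B n
  have hθc : (θ : LaurentSeries E) = Θ.eval₂ (evalAt (jser E d)) (jser E (d * q)) := by
    rw [← valHom_apply, hθ, Polynomial.hom_eval₂, valHom_comp_aeval, valHom_apply, hxd, hyc]
  -- the unit `s`
  have hsc : ((x ^ q - y : _root_.Fermat.Agent.A2.Mod.FE E (M * q)) : LaurentSeries E)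
      = incl (_root_.Fermat.Agent.A2.Mod.RE P E) (castA (_root_.Fermat.Agent.A2.Mod.RE P E) (jInt (d * q) ^ q - jInt d)) := by
    rw [incl_sInt, ← valHom_apply, map_sub, map_pow, valHom_apply, valHom_apply, hxd, hyc]
  have hred := red_sInt_ne_zero E (_root_.Fermat.Agent.A2.Mod.RE P E) q hS.q_prime.two_le d
  have hs0 : x ^ q - y ≠ 0 := by
    intro h
    have h1 : ((x ^ q - y : _root_.Fermat.Agent.A2.Mod.FE E (M * q)) : LaurentSeries E) = 0 := by
      rw [h]
      rfl
    rw [hsc] at h1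
    exact incl_ne_zero _ (ne_zero_of_red_ne_zero _ hred) h1
  have hsi : (x ^ q - y)⁻¹ ∈ V := by
    rw [hV, IntermediateField.coe_inv, hsc]
    refine isGaussInt_inv_of_prim _ hred ?_
    rw [← hsc]
    exact (x ^ q - y).2
  have hc0O : cE P E (M * q) c0 ∈ Oring E M q VM :=
    mem_Oring.mpr ⟨cE P E M c0, cE_mem hVM c0, alpha_cE c0⟩
  refine ⟨y ^ q, (Oring E M q VM).pow_mem hyO q, x ^ q - y,
    B.sub_mem (B.pow_mem hxB q) hyB, hs0, hsi, -(cE P E (M * q) c0 * θ),
    B.neg_mem (B.mul_mem (Subring.subset_closure (Or.inl hc0O)) hθB), ?_⟩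
  apply Subtype.ext
  have hqc : ((q : ℕ) : LaurentSeries E) = cst ((w : E)) * cst (c0 : E) := by
    rw [← cst_mul, ← hc0]
    exact (map_natCast (algebraMap E (LaurentSeries E)) q).symm
  have hL : (((x ^ q - y) * (x - y ^ q) : _root_.Fermat.Agent.A2.Mod.FE E (M * q)) : LaurentSeries E)
      = (jser E (d * q) ^ q - jser E d) * (jser E (d * q) - jser E d ^ q) := by
    rw [← valHom_apply, map_mul, map_sub, map_sub, map_pow, map_pow, valHom_apply, valHom_apply,
      hxd, hyc]
  have hR : ((cE P E (M * q) w * -(cE P E (M * q) c0 * θ) : _root_.Fermat.Agent.A2.Mod.FE E (M * q)) : LaurentSeries E)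
      = cst (w : E) * -(cst (c0 : E) * Θ.eval₂ (evalAt (jser E d)) (jser E (d * q))) := by
    rw [← valHom_apply, map_mul, map_neg, map_mul, valHom_apply _ θ, hθc]
    rfl
  rw [hL, hR]
  rw [hqc] at hΘ
  linear_combination hΘ

theorem gen_XQ (hS : SettingQ P E q w) {VM : ValuationSubring (_root_.Fermat.Agent.A2.Mod.FE E M)}
    (hVM : IsVinf P E M VM) (f : _root_.Fermat.Agent.A2.Mod.FE E (M * q)) :
    f ∈ Subfield.closure ((Oring E M q VM : Set (_root_.Fermat.Agent.A2.Mod.FE E (M * q))) ∪ Xset E M q) := by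
  set G := Subfield.closure ((Oring E M q VM : Set (_root_.Fermat.Agent.A2.Mod.FE E (M * q))) ∪ Xset E M q) with hG
  set Gs : Subfield (LaurentSeries E) := G.map (valHom E (M * q)) with hGsdef
  have hGs : ∀ x : _root_.Fermat.Agent.A2.Mod.FE E (M * q), (x : LaurentSeries E) ∈ Gs → x ∈ G := by
    intro x hx
    obtain ⟨y, hy, hyx⟩ := Subfield.mem_map.mp hx
    have h1 : y = x := Subtype.ext hyx
    rw [← h1]
    exact hy
  have hGs' : ∀ x : _root_.Fermat.Agent.A2.Mod.FE E (M * q), x ∈ G → (x : LaurentSeries E) ∈ Gs :=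
    fun x hx => Subfield.mem_map.mpr ⟨x, hx, rfl⟩
  -- constants
  have hconstA : ∀ r : _root_.Fermat.Agent.A2.Mod.RE P E, cE P E (M * q) r ∈ G := fun r =>
    Subfield.subset_closure (Or.inl (mem_Oring.mpr ⟨cE P E M r, cE_mem hVM r, alpha_cE r⟩))
  have hconst : ∀ e : E, algebraMap E (LaurentSeries E) e ∈ Gs := by
    intro e
    refine hGs' (algebraMap E (_root_.Fermat.Agent.A2.Mod.FE E (M * q)) e) ?_
    rcases (_root_.Fermat.Agent.A2.Mod.RE P E).mem_or_inv_mem e with h | h
    · exact hconstA ⟨e, h⟩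
    · have h1 : algebraMap E (_root_.Fermat.Agent.A2.Mod.FE E (M * q)) e = (cE P E (M * q) ⟨e⁻¹, h⟩)⁻¹ := by
        rw [cE, ← map_inv₀, inv_inv]
      rw [h1]
      exact G.inv_mem (hconstA _)
  -- generators
  have hj : ∀ (d : ℕ) [NeZero d], d ∣ M * q → jser E d ∈ Gs := by
    intro d hd hdN
    rcases dvd_cases hS.q_prime hdN with hdM | ⟨d', hd'M, hdd'⟩
    · have h1 : αE E M q ⟨jser E d, jser_mem E M d hdM⟩ ∈ G :=
        Subfield.subset_closure (Or.inl (mem_Oring.mpr
          ⟨⟨jser E d, jser_mem E M d hdM⟩, jser_mem_V hVM (d := d) rfl, rfl⟩))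
      exact hGs' _ h1
    · subst hdd'
      haveI : NeZero d' := ⟨fun h => by
        rw [h, zero_mul] at hd
        exact hd.out rfl⟩
      have h1 : (⟨jser E (d' * q), jser_mem E (M * q) (d' * q) hdN⟩ : _root_.Fermat.Agent.A2.Mod.FE E (M * q)) ∈ G :=
        Subfield.subset_closure (Or.inr ⟨d', inferInstance, hd'M, rfl⟩)
      exact hGs' _ h1
  apply hGs
  have hf := mem_laurentBaseChange_iff.mp f.2
  refine Subfield.closure_le.mpr ?_ hf
  rintro z (⟨e, rfl⟩ | ⟨z0, hz0, rfl⟩)
  · exact hconst e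
  · have hz0' : z0 ∈ IntermediateField.adjoin ℚ (divisorExpansions (M * q)) := hz0
    induction hz0' using IntermediateField.adjoin_induction with
    | mem y hy =>
      obtain ⟨d, hd, hdN, rfl⟩ := hy
      haveI := hd
      show coeffEmb E (qExpand ℚ d jq) ∈ Gs
      rw [← jser_eq_coeffEmb]
      exact hj d hdN
    | algebraMap c =>
      have h1 : coeffEmb E (algebraMap ℚ (LaurentSeries ℚ) c)
          = algebraMap E (LaurentSeries E) (algebraMap ℚ E c) := by
        rw [coeffEmb, algebraMap_laurentSeries_eq_single, algebraMap_laurentSeries_eq_single,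
          coeffMap_single]
      show coeffEmb E (algebraMap ℚ (LaurentSeries ℚ) c) ∈ Gs
      rw [h1]
      exact hconst _
    | add x y hx hy ihx ihy =>
      show coeffEmb E (x + y) ∈ Gs
      rw [map_add]
      exact Gs.add_mem (ihx hx) (ihy hy)
    | inv x hx ihx =>
      show coeffEmb E x⁻¹ ∈ Gs
      rw [map_inv₀]
      exact Gs.inv_mem (ihx hx)
    | mul x y hx hy ihx ihy =>
      show coeffEmb E (x * y) ∈ Gs
      rw [map_mul]
      exact Gs.mul_mem (ihx hx) (ihy hy)

theorem disc_VQ (hS : SettingQ P E q w) (N : ℕ) {V : ValuationSubring (_root_.Fermat.Agent.A2.Mod.FE E N)}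
    (hV : IsVinf P E N V) {x : _root_.Fermat.Agent.A2.Mod.FE E N} (hx : x ∈ V) (hx0 : x ≠ 0) :
    ∃ (n : ℕ) (u : _root_.Fermat.Agent.A2.Mod.FE E N), u ∈ V ∧ u⁻¹ ∈ V ∧ x = cE P E N w ^ n * u := by
  haveI := hS.dvr
  have hx0' : (x : LaurentSeries E) ≠ 0 := fun h => hx0 (Subtype.ext h)
  obtain ⟨n, h1, h2⟩ := exists_pow_mul_unit (_root_.Fermat.Agent.A2.Mod.RE P E) hS.unif (intGen_full N) (attainsQ hS N)
    x.2 hx0' ((hV x).mp hx)
  have hcw := cE_ne_zeroQ hS N
  have hu : ((x * (cE P E N w ^ n)⁻¹ : _root_.Fermat.Agent.A2.Mod.FE E N) : LaurentSeries E)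
      = (x : LaurentSeries E) * (cst ((w : _root_.Fermat.Agent.A2.Mod.RE P E) : E) ^ n)⁻¹ := by
    rw [← valHom_apply, map_mul, map_inv₀, map_pow]
    rfl
  refine ⟨n, x * (cE P E N w ^ n)⁻¹, ?_, ?_, ?_⟩
  · rw [hV, hu]
    exact h1
  · rw [hV, ← valHom_apply, map_inv₀, valHom_apply, hu]
    exact h2
  · field_simp

theorem resOneDataQ (hS : SettingQ P E q w) {VM : ValuationSubring (_root_.Fermat.Agent.A2.Mod.FE E M)}
    {V : ValuationSubring (_root_.Fermat.Agent.A2.Mod.FE E (M * q))} (hVM : IsVinf P E M VM) (hV : IsVinf P E (M * q) V) :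
    ResOneData V.toSubring (Oring E M q VM) (cE P E (M * q) w) (Xset E M q) where
  O_le := by
    intro x hx
    obtain ⟨g, hg, rfl⟩ := mem_Oring.mp hx
    exact (alpha_mem_iffQ hS hVM hV g).mpr hg
  w_mem := mem_Oring.mpr ⟨cE P E M w, cE_mem hVM w, alpha_cE w⟩
  w_ne := cE_ne_zeroQ hS _
  w_nonunit := by
    intro h
    have h1 : (cE P E (M * q) w)⁻¹ ∈ V := h
    rw [hV, ← valHom_apply, map_inv₀] at h1
    have h2 : valHom E (M * q) (cE P E (M * q) w) = cst ((w : _root_.Fermat.Agent.A2.Mod.RE P E) : E) := rfl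
    have h3 : (cst ((w : _root_.Fermat.Agent.A2.Mod.RE P E) : E))⁻¹ = cst ((w : E)⁻¹) := (map_inv₀ _ _).symm
    rw [h2, h3, isGaussInt_cst_iff] at h1
    exact w_inv_not_memQ hS h1
  O_div := by
    intro x hx hxw
    obtain ⟨g, hg, rfl⟩ := mem_Oring.mp hx
    have h1 : αE E M q g * (cE P E (M * q) w)⁻¹ = αE E M q (g * (cE P E M w)⁻¹) := by
      rw [map_mul, map_inv₀, alpha_cE]
    rw [h1] at hxw ⊢
    exact mem_Oring.mpr ⟨_, (alpha_mem_iffQ hS hVM hV _).mp hxw, rfl⟩
  O_inv := by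
    intro x hx hxi
    obtain ⟨g, hg, rfl⟩ := mem_Oring.mp hx
    have h1 : (αE E M q g)⁻¹ = αE E M q g⁻¹ := (map_inv₀ _ _).symm
    rw [h1] at hxi ⊢
    exact mem_Oring.mpr ⟨_, (alpha_mem_iffQ hS hVM hV _).mp hxi, rfl⟩
  X_le := by
    rintro x ⟨d, hd, hdM, hxd⟩
    haveI := hd
    exact jser_mem_V hV hxd
  disc := fun x hx hx0 => disc_VQ hS (M * q) hV hx hx0
  kron := fun x hx => kron_XQ hS hVM hV hx
  gen := gen_XQ hS hVM

/-- **Residue degree one along `α`, any level** (`q ∣ M` allowed):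
`V∞(M q) = α (V∞(M)) + w V∞(M q)`. -/
theorem resInfQ (hS : SettingQ P E q w) {VM : ValuationSubring (_root_.Fermat.Agent.A2.Mod.FE E M)}
    {V : ValuationSubring (_root_.Fermat.Agent.A2.Mod.FE E (M * q))} (hVM : IsVinf P E M VM) (hV : IsVinf P E (M * q) V)
    {f : _root_.Fermat.Agent.A2.Mod.FE E (M * q)} (hf : f ∈ V) :
    ∃ g ∈ VM, InW P E (M * q) V w (f - αE E M q g) := by
  obtain ⟨g', hg', hcong⟩ := (resOneDataQ hS hVM hV).exists_congr hf
  obtain ⟨g, hg, rfl⟩ := mem_Oring.mp hg'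
  exact ⟨g, hg, hcong⟩

/-- `V∞(M q)` lies over `V∞(M)` along `α` (any level). -/
theorem comap_alpha_vinfQ (hS : SettingQ P E q w) {VM : ValuationSubring (_root_.Fermat.Agent.A2.Mod.FE E M)}
    {V : ValuationSubring (_root_.Fermat.Agent.A2.Mod.FE E (M * q))} (hVM : IsVinf P E M VM) (hV : IsVinf P E (M * q) V) :
    V.comap (αE E M q : _root_.Fermat.Agent.A2.Mod.FE E M →+* _root_.Fermat.Agent.A2.Mod.FE E (M * q)) = VM := by
  ext g
  rw [ValuationSubring.mem_comap]
  exact alpha_mem_iffQ hS hVM hV g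

end Concrete

end Fermat.Agent.S36.H370

end
end
-- ===== PACK-END S36/H370/Mod3Res.lean

-- ===== PACK-BEGIN S36/Mod3/H756/NormalSide.lean
section




/-!
# S36 / MOD3, leaf NORMAL — one component, any level (helper756)

`normalIn_side3` : for a valuation subring `V'` of `F_{N,E}` (ANY level `N`; `w ∈ 𝔪_{V'}`, `w` need
not be a uniformiser of `V'`) and an `E`-embedding `γ : F_{M,E} → F_{N,E}` such that

* `γ V∞_M ⊆ V'`, residue degree one (`V' = γ V∞_M + 𝔪_{V'}`),
* `y ≡ γ (y_M ^ k) mod 𝔪_{V'}`, `γ y_M ∈ chartAlg y`,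
* good reduction at level `M` in the chart of `y_M`,

the image of the chart `chartAlg y` in the residue field of `V'` is integrally closed
(`H142.NormalIn`), hence `S36.Eng.NormalAlong (chart R {y}) V'` (`normalAlong_side3`, unfolded).

This is helper142's `normal_side` (level `M q`, `V'` unramified) with the level and the
ramification freed; the abstract core is `H142.normalIn_transfer` + `isIntegralElem_of_coord`.
-/

set_option autoImplicit false
set_option synthInstance.maxHeartbeats 400000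
set_option maxHeartbeats 1600000
set_option linter.unusedSectionVars false
set_option linter.style.haveILetI false

noncomputable section

namespace Fermat.Agent.S36.Mod3.H756

open ModularCurve HahnSeries Polynomial
open Fermat.Agent.A2.Mod Fermat.Agent.A2.Mod.H142

variable (P : ValuationSubring Qb) (E : IntermediateField ℚ Qb)
variable (M N : ℕ) [NeZero M] (w : RE P E)

/-- **One component is normal** (`NormalIn` form), any level, any ramification. -/
theorem normalIn_side3 (hdvr : IsDiscreteValuationRing (RE P E)) (hw : Irreducible w)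
    (VM : ValuationSubring (FE E M)) (hVM : IsVinf P E M VM)
    (V' : ValuationSubring (FE E N))
    (hRV' : ∀ r : RE P E, algebraMap (RE P E) (FE E N) r ∈ V')
    (hwV' : V'.valuation (cE P E N w) < 1)
    (γ : FE E M →ₐ[E] FE E N)
    (hγV : ∀ g ∈ VM, γ g ∈ V')
    (hres : ∀ f ∈ V', ∃ g ∈ VM, V'.valuation (f - γ g) < 1)
    (yM : FE E M) (y : FE E N) (k : ℕ)
    (hyM : yM ∈ VM) (hy : y ∈ V')
    (hcong : V'.valuation (y - γ (yM ^ k)) < 1)
    (hγy : γ yM ∈ chartAlg P E N y)
    (hgood : GoodRedAt P E M w VM yM) :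
    NormalIn V' ((chartAlg P E N y : Subalgebra (RE P E) (FE E N)) : Set (FE E N)) := by
  have hL2M := Fermat.Agent.A2.Mod.H553.vinfBasic P E w M (NeZero.ne M) hdvr hw VM hVM
  have hUM : Fermat.Agent.A2.H48.IsUnif VM (cE P E M w) := hL2M.1
  have hRVM : ∀ r : RE P E, algebraMap (RE P E) (FE E M) r ∈ VM := fun r =>
    (hL2M.2.1 (r : E)).mpr r.2
  have hγR : ∀ r : RE P E, (γ : FE E M →+* FE E N) (algebraMap (RE P E) (FE E M) r) =
      algebraMap (RE P E) (FE E N) r := fun r => γ.commutes (r : E)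
  have hγc : γ (cE P E M w) = cE P E N w := γ.commutes (w : E)
  -- the charts lie in the valuation rings
  have hB₀ : ∀ b ∈ chartAlg P E M yM, b ∈ VM := fun b hb =>
    mem_valuationSubring_of_isIntegral_adjoin VM hRVM hyM ((mem_chartAlg P E M).1 hb)
  have hB : ∀ b ∈ chartAlg P E N y, b ∈ V' := fun b hb =>
    mem_valuationSubring_of_isIntegral_adjoin V' hRV' hy ((mem_chartAlg P E N).1 hb)
  have hγB : ∀ b ∈ chartAlg P E M yM, (γ : FE E M →+* FE E N) b ∈ chartAlg P E N y :=
    fun b hb => (mem_chartAlg P E N).2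
      (isIntegral_adjoin_map (γ : FE E M →+* FE E N) hγR
        ((mem_chartAlg P E N).1 hγy) ((mem_chartAlg P E M).1 hb))
  have hγp : ∀ g : FE E M, VM.valuation g < 1 →
      V'.valuation ((γ : FE E M →+* FE E N) g) < 1 := by
    intro g hg
    rw [← inW_iff hUM] at hg
    unfold InW at hg
    have h1 := hγV _ hg
    rw [map_mul, map_inv₀, hγc] at h1
    have hc0 : cE P E N w ≠ 0 := by
      rw [← hγc]
      exact (map_ne_zero γ).2 hUM.ne_zero
    have h2 : (γ : FE E M →+* FE E N) g = γ g * (cE P E N w)⁻¹ * cE P E N w := by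
      rw [mul_assoc, inv_mul_cancel₀ hc0, mul_one]
      rfl
    rw [h2, map_mul]
    calc V'.valuation (γ g * (cE P E N w)⁻¹) * V'.valuation (cE P E N w)
        ≤ 1 * V'.valuation (cE P E N w) := by
          gcongr
          exact (V'.valuation_le_one_iff _).2 h1
      _ = V'.valuation (cE P E N w) := one_mul _
      _ < 1 := hwV'
  have hnorm₀ : NormalIn VM ((chartAlg P E M yM : Subalgebra (RE P E) (FE E M)) : Set (FE E M)) := by
    intro f hf ⟨n, c, hc, hrel⟩
    obtain ⟨b, hb, hfb⟩ := hgood.normal f hf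
      ⟨n, c, fun i => (mem_chart_iff P E M yM (c i)).2 (hc i), (inW_iff hUM _).2 hrel⟩
    exact ⟨b, (mem_chart_iff P E M yM b).1 hb, (inW_iff hUM _).1 hfb⟩
  have hint := isIntegralElem_of_coord (γ : FE E M →+* FE E N) hγR V'
    (chartAlg P E M yM) (chartAlg P E N y) hB hγB y (self_mem_chartAlg P E N y)
    (yM ^ k) (pow_mem (self_mem_chartAlg P E M yM) _) hcong
    (fun b hb => (mem_chartAlg P E N).1 hb)
  exact normalIn_transfer (γ : FE E M →+* FE E N) VM V' hγV hγp
    (chartAlg P E M yM) (chartAlg P E N y) hB₀ hB hγB hres hint hnorm₀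

/-- `A2.Mod.chartAlg` and `S18.H138.chart` at a single coordinate are the same subalgebra. -/
theorem chartAlg_eq_chart (y : FE E N) :
    chartAlg P E N y = Fermat.Agent.S18.H138.chart (RE P E) ({y} : Set (FE E N)) := rfl

/-- **One component is normal** (`S36.Eng.NormalAlong` form, unfolded). -/
theorem normalAlong_side3 (hdvr : IsDiscreteValuationRing (RE P E)) (hw : Irreducible w)
    (VM : ValuationSubring (FE E M)) (hVM : IsVinf P E M VM)
    (V' : ValuationSubring (FE E N))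
    (hRV' : ∀ r : RE P E, algebraMap (RE P E) (FE E N) r ∈ V')
    (hwV' : V'.valuation (cE P E N w) < 1)
    (γ : FE E M →ₐ[E] FE E N)
    (hγV : ∀ g ∈ VM, γ g ∈ V')
    (hres : ∀ f ∈ V', ∃ g ∈ VM, V'.valuation (f - γ g) < 1)
    (yM : FE E M) (y : FE E N) (k : ℕ)
    (hyM : yM ∈ VM) (hy : y ∈ V')
    (hcong : V'.valuation (y - γ (yM ^ k)) < 1)
    (hγy : γ yM ∈ Fermat.Agent.S18.H138.chart (RE P E) ({y} : Set (FE E N)))
    (hgood : GoodRedAt P E M w VM yM) :
    ∀ (f : FE E N) (p : Polynomial (Fermat.Agent.S18.H138.chart (RE P E) ({y} : Set (FE E N)))),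
      p.Monic → Polynomial.aeval f p ∈ V'.nonunits →
      ∃ b : Fermat.Agent.S18.H138.chart (RE P E) ({y} : Set (FE E N)),
        f - (b : FE E N) ∈ V'.nonunits := by
  have hB : ∀ b ∈ Fermat.Agent.S18.H138.chart (RE P E) ({y} : Set (FE E N)), b ∈ V' :=
    fun b hb => mem_valuationSubring_of_isIntegral_adjoin V' hRV' hy hb
  exact normalAlong_of_normalIn V' _ hB
    (normalIn_side3 P E M N w hdvr hw VM hVM V' hRV' hwV' γ hγV hres yM y k hyM hy hcong hγy
      hgood)

end Fermat.Agent.S36.Mod3.H756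

end

end
-- ===== PACK-END S36/Mod3/H756/NormalSide.lean

-- ===== PACK-BEGIN A2/Mod/H216/Bridge.lean
section





/-!
# A2 / GOODRED (helper216): the BRIDGE between the `E`-level objects of `A2/Mod/Spec.lean`
and the concrete objects of row S18 (`S18/Mod/Defs.lean`)

`F_{M,E} = FE E M ⊆ E((t))` (A2 language)  versus  `Fc M E ⊆ Ω = Om M ⊆ Q̄((t))` (S18 language).

* `bridge E M : FE E M →+* Om M` : coefficientwise embedding `E ⊆ Q̄`; injective, range `Fc M E`;
* `bridge_algebraMap`, `bridge_cE`, `bridge_jE` : constants and generators;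
* `bridge_mem_VcSet_iff`  : `H708.IsGaussInt (RE P E) _ f ↔ bridge f ∈ VcSet M P E`
                            (so `IsVinf V` means `f ∈ V ↔ bridge f ∈ VcSet`);
* `bridge_mem_chart_iff`  : `f ∈ Mod.chart P E M y ↔ bridge f ∈ S18.Alg.chart Fc R (bridge y)`.
-/

set_option autoImplicit false
set_option linter.unusedSectionVars false
set_option linter.style.haveILetI false
set_option synthInstance.maxHeartbeats 400000
set_option maxHeartbeats 1600000

noncomputable section

namespace Fermat.Agent.A2.Mod.H216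

open ModularCurve HahnSeries Polynomial

variable (P : ValuationSubring _root_.Fermat.Agent.A2.Mod.Qb) (E : IntermediateField ℚ _root_.Fermat.Agent.A2.Mod.Qb) (M : ℕ)

/-- The coefficientwise embedding `F_{M,E} → Ω = F_M`. -/
def bridge : _root_.Fermat.Agent.A2.Mod.FE E M →+* S18.Mod.Om M where
  toFun f := ⟨coeffMap (algebraMap E _root_.Fermat.Agent.A2.Mod.Qb) (f : LaurentSeries E),
    S18.H602.coeffMap_mem_laurentBaseChange _ _ f.2⟩
  map_one' := Subtype.ext (by simp)
  map_mul' x y := Subtype.ext (by simp)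
  map_zero' := Subtype.ext (by simp)
  map_add' x y := Subtype.ext (by simp)

variable {E M}

theorem coe_bridge (f : _root_.Fermat.Agent.A2.Mod.FE E M) :
    ((bridge E M f : S18.Mod.Om M) : LaurentSeries _root_.Fermat.Agent.A2.Mod.Qb) =
      coeffMap (algebraMap E _root_.Fermat.Agent.A2.Mod.Qb) (f : LaurentSeries E) := rfl

theorem bridge_injective : Function.Injective (bridge E M) := by
  intro x y h
  have h1 : coeffMap (algebraMap E _root_.Fermat.Agent.A2.Mod.Qb) (x : LaurentSeries E) =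
      coeffMap (algebraMap E _root_.Fermat.Agent.A2.Mod.Qb) (y : LaurentSeries E) := congrArg Subtype.val h
  exact Subtype.ext (S18.H602.coeffMap_injective _ (algebraMap E _root_.Fermat.Agent.A2.Mod.Qb).injective h1)

theorem bridge_mem_Fc (f : _root_.Fermat.Agent.A2.Mod.FE E M) : bridge E M f ∈ S18.Mod.Fc M E := by
  obtain ⟨g, hg, hgf⟩ := S18.H576.exists_mem_Fc_of_mem_FE (M := M) (E := E) f.2
  have : bridge E M f = g := Subtype.ext (by rw [coe_bridge, hgf])
  rw [this]
  exact hg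

theorem exists_bridge_eq {g : S18.Mod.Om M} (hg : g ∈ S18.Mod.Fc M E) :
    ∃ f : _root_.Fermat.Agent.A2.Mod.FE E M, bridge E M f = g := by
  obtain ⟨y, hy, hyg⟩ := S18.H576.descendsTo_of_mem_Fc hg
  exact ⟨⟨y, hy⟩, Subtype.ext hyg⟩

theorem bridge_algebraMap (e : E) :
    bridge E M (algebraMap E (_root_.Fermat.Agent.A2.Mod.FE E M) e) = algebraMap _root_.Fermat.Agent.A2.Mod.Qb (S18.Mod.Om M) (e : _root_.Fermat.Agent.A2.Mod.Qb) := by
  apply Subtype.ext
  rw [coe_bridge]
  exact S18.H602.coeffMap_algebraMap' (algebraMap E _root_.Fermat.Agent.A2.Mod.Qb) e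

theorem bridge_cE (r : _root_.Fermat.Agent.A2.Mod.RE P E) :
    bridge E M (cE P E M r) = S18.H576.iotaR M P E r :=
  bridge_algebraMap (r : E)

theorem bridge_cE_mem_Rc (r : _root_.Fermat.Agent.A2.Mod.RE P E) : bridge E M (cE P E M r) ∈ S18.Mod.Rc M P E := by
  rw [bridge_cE]
  exact S18.H576.mem_Rc_iff_exists_iotaR.2 ⟨r, rfl⟩

theorem bridge_jE (d : ℕ) [NeZero d] (hd : d ∣ M) :
    bridge E M (jE E M d hd) = S18.Mod.jd M d hd := by
  apply Subtype.ext
  rw [coe_bridge]
  exact S18.H602.coeffMap_coeffEmb' (algebraMap E _root_.Fermat.Agent.A2.Mod.Qb) _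

/-! ### The Gauss valuation ring -/

theorem bridge_mem_VcSet_iff (f : _root_.Fermat.Agent.A2.Mod.FE E M) :
    bridge E M f ∈ S18.Mod.VcSet M P E ↔
      H708.IsGaussInt (_root_.Fermat.Agent.A2.Mod.RE P E) (modularFunctionFieldFull M) (f : LaurentSeries E) := by
  constructor
  · intro hf
    obtain ⟨V₁, V₂, h2, h⟩ := S18.H576.exists_rep_of_mem_VcSet hf
    refine ⟨V₁.1, V₂.1, h2, V₂.2, ?_⟩
    apply S18.H602.coeffMap_injective _ (algebraMap E _root_.Fermat.Agent.A2.Mod.Qb).injective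
    have h' := congrArg Subtype.val h
    rw [map_mul]
    exact h'
  · rintro ⟨U₁, U₂, h0, hm, he⟩
    have hm1 : coeffMap (_root_.Fermat.Agent.A2.Mod.RE P E).subtype U₁ ∈
        laurentBaseChange E (modularFunctionFieldFull M) := by
      have : H708.incl (_root_.Fermat.Agent.A2.Mod.RE P E) U₁ = (f : LaurentSeries E) * H708.incl (_root_.Fermat.Agent.A2.Mod.RE P E) U₂ := he.symm
      show H708.incl (_root_.Fermat.Agent.A2.Mod.RE P E) U₁ ∈ _
      rw [this]
      exact mul_mem f.2 hm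
    refine S18.H576.mem_VcSet_of_rep (M := M) (A := P) (E := E) ⟨U₁, hm1⟩ ⟨U₂, hm⟩ h0 ?_
    apply Subtype.ext
    show coeffMap (algebraMap E _root_.Fermat.Agent.A2.Mod.Qb) (f : LaurentSeries E) *
        coeffMap (algebraMap E _root_.Fermat.Agent.A2.Mod.Qb) (coeffMap (_root_.Fermat.Agent.A2.Mod.RE P E).subtype U₂) =
      coeffMap (algebraMap E _root_.Fermat.Agent.A2.Mod.Qb) (coeffMap (_root_.Fermat.Agent.A2.Mod.RE P E).subtype U₁)
    rw [← map_mul]
    exact congrArg _ he

theorem mem_iff_bridge_mem_VcSet {V : ValuationSubring (_root_.Fermat.Agent.A2.Mod.FE E M)} (hV : IsVinf P E M V)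
    (f : _root_.Fermat.Agent.A2.Mod.FE E M) : f ∈ V ↔ bridge E M f ∈ S18.Mod.VcSet M P E := by
  rw [bridge_mem_VcSet_iff]
  exact hV f

theorem mem_iff_bridge_mem_Vc {V : ValuationSubring (_root_.Fermat.Agent.A2.Mod.FE E M)} (hV : IsVinf P E M V)
    (f : _root_.Fermat.Agent.A2.Mod.FE E M) : f ∈ V ↔ bridge E M f ∈ S18.Mod.H216.Vc M P E := by
  rw [mem_iff_bridge_mem_VcSet P hV]
  rw [← S18.Mod.H216.coe_Vc M P E]
  rfl

/-! ### The charts -/

section Chart

variable (y : _root_.Fermat.Agent.A2.Mod.FE E M)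

/-- The structure map `R_E → F_{M,E}`. -/
abbrev c0 (P : ValuationSubring _root_.Fermat.Agent.A2.Mod.Qb) (E : IntermediateField ℚ _root_.Fermat.Agent.A2.Mod.Qb) (M : ℕ) : _root_.Fermat.Agent.A2.Mod.RE P E →+* _root_.Fermat.Agent.A2.Mod.FE E M :=
  (algebraMap E (_root_.Fermat.Agent.A2.Mod.FE E M)).comp (_root_.Fermat.Agent.A2.Mod.RE P E).subtype

/-- `R_E → R = Rc M P E`. -/
def toRc (P : ValuationSubring _root_.Fermat.Agent.A2.Mod.Qb) (E : IntermediateField ℚ _root_.Fermat.Agent.A2.Mod.Qb) (M : ℕ) :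
    _root_.Fermat.Agent.A2.Mod.RE P E →+* ↥(S18.Mod.Rc M P E) :=
  ((bridge E M).comp (c0 P E M)).codRestrict (S18.Mod.Rc M P E) (fun r => bridge_cE_mem_Rc P r)

theorem coe_toRc (r : _root_.Fermat.Agent.A2.Mod.RE P E) :
    ((toRc P E M r : ↥(S18.Mod.Rc M P E)) : S18.Mod.Om M) = bridge E M (c0 P E M r) := rfl

theorem toRc_surjective : Function.Surjective (toRc P E M) := by
  rintro ⟨u, hu⟩
  obtain ⟨r, hr⟩ := S18.H576.mem_Rc_iff_exists_iotaR.1 hu
  have hr' : bridge E M (cE P E M (show _root_.Fermat.Agent.A2.Mod.RE P E from r)) = u := by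
    rw [bridge_cE]
    exact hr
  exact ⟨(show _root_.Fermat.Agent.A2.Mod.RE P E from r), Subtype.ext hr'⟩

/-- `bridge (a(y)) = (ρ a)(bridge y)` for `a ∈ R_E[X]`. -/
theorem bridge_eval₂ (a : Polynomial (_root_.Fermat.Agent.A2.Mod.RE P E)) :
    bridge E M (a.eval₂ (c0 P E M) y) =
      S18.Mod.H216.evR (S18.Mod.Rc M P E) (bridge E M y) (a.map (toRc P E M)) := by
  rw [S18.Mod.H216.evR_apply, Polynomial.eval₂_map, Polynomial.hom_eval₂]
  rfl

theorem bridge_eval₂_mem_polyRing (a : Polynomial (_root_.Fermat.Agent.A2.Mod.RE P E)) :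
    bridge E M (a.eval₂ (c0 P E M) y) ∈
      S18.Alg.polyRing (S18.Mod.Rc M P E) (bridge E M y) := by
  rw [bridge_eval₂, S18.Mod.H216.mem_polyRing_iff]
  exact ⟨_, rfl⟩

/-- `R_E[X] → R[bridge y]`, `X ↦ bridge y`. -/
def toPolyRing : Polynomial (_root_.Fermat.Agent.A2.Mod.RE P E) →+*
    ↥(S18.Alg.polyRing (S18.Mod.Rc M P E) (bridge E M y)) :=
  ((bridge E M).comp (Polynomial.eval₂RingHom (c0 P E M) y)).codRestrict _
    (fun a => bridge_eval₂_mem_polyRing P y a)

theorem coe_toPolyRing (a : Polynomial (_root_.Fermat.Agent.A2.Mod.RE P E)) :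
    ((toPolyRing P y a : ↥(S18.Alg.polyRing (S18.Mod.Rc M P E) (bridge E M y))) :
      S18.Mod.Om M) = bridge E M (a.eval₂ (c0 P E M) y) := rfl

theorem toPolyRing_surjective : Function.Surjective (toPolyRing P y) := by
  rintro ⟨u, hu⟩
  obtain ⟨p, hp⟩ := (S18.Mod.H216.mem_polyRing_iff _ _).1 hu
  obtain ⟨a, ha⟩ := Polynomial.map_surjective (toRc P E M) (toRc_surjective P) p
  refine ⟨a, Subtype.ext ?_⟩
  rw [coe_toPolyRing, bridge_eval₂, ha, hp]

theorem subtype_comp_toPolyRing :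
    (S18.Alg.polyRing (S18.Mod.Rc M P E) (bridge E M y)).subtype.comp (toPolyRing P y) =
      (bridge E M).comp (Polynomial.eval₂RingHom (c0 P E M) y) :=
  RingHom.ext fun _ => rfl

/-- **The charts correspond.** -/
theorem bridge_mem_chart_iff (f : _root_.Fermat.Agent.A2.Mod.FE E M) :
    f ∈ chart P E M y ↔
      bridge E M f ∈ S18.Alg.chart (S18.Mod.Fc M E) (S18.Mod.Rc M P E) (bridge E M y) := by
  constructor
  · rintro ⟨p, hpm, hp⟩
    refine ⟨bridge_mem_Fc f, p.map (toPolyRing P y), hpm.map _, ?_⟩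
    rw [Polynomial.eval₂_map]
    have h1 : (algebraMap ↥(S18.Alg.polyRing (S18.Mod.Rc M P E) (bridge E M y))
        (S18.Mod.Om M)).comp (toPolyRing P y) =
        (bridge E M).comp (Polynomial.eval₂RingHom (c0 P E M) y) :=
      subtype_comp_toPolyRing P y
    rw [h1, ← Polynomial.hom_eval₂]
    have hp' : p.eval₂ (Polynomial.eval₂RingHom (c0 P E M) y) f = 0 := hp
    rw [hp', map_zero]
  · rintro ⟨-, p, hpm, hp⟩
    have hl : p ∈ Polynomial.lifts (toPolyRing P y) := by
      rw [Polynomial.lifts_iff_coeff_lifts]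
      intro i
      exact toPolyRing_surjective P y _
    obtain ⟨q, hq, -, hqm⟩ := Polynomial.lifts_and_natDegree_eq_and_monic hl hpm
    refine ⟨q, hqm, ?_⟩
    apply bridge_injective
    rw [map_zero, Polynomial.hom_eval₂]
    have h1 : (algebraMap ↥(S18.Alg.polyRing (S18.Mod.Rc M P E) (bridge E M y))
        (S18.Mod.Om M)).comp (toPolyRing P y) =
        (bridge E M).comp (Polynomial.eval₂RingHom (c0 P E M) y) :=
      subtype_comp_toPolyRing P y
    rw [← h1, ← Polynomial.eval₂_map, hq]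
    exact hp

end Chart

end Fermat.Agent.A2.Mod.H216

end
end
-- ===== PACK-END A2/Mod/H216/Bridge.lean

-- ===== PACK-BEGIN S36/Mod3/H189/ResAbs.lean
section


/-!
# S36 / MOD3, cell CHART (helper189) — residue degree one in chart form, abstract part

Vocabulary of `S36/Eng/Spec.lean`.  Mathlib only.

* `normalAlong_of_closed` : a chart `B ⊆ V` whose centre `p = B ∩ 𝔪_V` has an integrally closed
  quotient `B / p`, with `V` the local ring of `B` at `p` (`hfrac`), is `Eng.NormalAlong B V`.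
* `res_chart_of_normalAlong` : the chart form of residue degree one.  `V | V'` along `α`,
  `B ⊆ V` integral over `α B'`, `B'` normal along `V'`, residue degree one at the level of the
  valuation rings  ⟹  `∀ b ∈ B, ∃ b' ∈ B', b - α b' ∈ 𝔪_V`
  (the shape of the fields `res_α₁`, `res_α₂`, `res_β₃`, `res_β₂` of `Eng.TripleCtx`).
-/

set_option autoImplicit false
set_option linter.style.haveILetI false
set_option linter.unusedSectionVars false

noncomputable section

namespace Fermat.Agent.S36.Mod3.H189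

open Polynomial
open Fermat.Agent.S36.Eng (NormalAlong)

section Nonunits

variable {K : Type*} [Field K]

theorem mul_mem_nonunits_left (V : ValuationSubring K) {x y : K} (hx : x ∈ V)
    (hy : y ∈ V.nonunits) : x * y ∈ V.nonunits := by
  rw [ValuationSubring.mem_nonunits_iff] at hy ⊢
  rw [map_mul]
  calc V.valuation x * V.valuation y ≤ 1 * V.valuation y := by
        gcongr
        exact (V.valuation_le_one_iff x).2 hx
    _ < 1 := by rwa [one_mul]

theorem mul_mem_nonunits_right (V : ValuationSubring K) {x y : K} (hx : x ∈ V.nonunits)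
    (hy : y ∈ V) : x * y ∈ V.nonunits := by
  rw [mul_comm]
  exact mul_mem_nonunits_left V hy hx

theorem nonunits_subset (V : ValuationSubring K) {x : K} (hx : x ∈ V.nonunits) : x ∈ V :=
  (V.valuation_le_one_iff x).1 ((ValuationSubring.mem_nonunits_iff V).1 hx).le

theorem inv_mem_of_not_mem_nonunits (V : ValuationSubring K) {s : K} (hs : s ∉ V.nonunits) :
    s⁻¹ ∈ V := by
  rw [ValuationSubring.mem_nonunits_iff_or, not_or, not_not] at hs
  exact hs.2

theorem ne_zero_of_not_mem_nonunits (V : ValuationSubring K) {s : K} (hs : s ∉ V.nonunits) :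
    s ≠ 0 := by
  rw [ValuationSubring.mem_nonunits_iff_or, not_or, not_not] at hs
  exact hs.1

/-- Nonunits of the pull-back of a valuation ring along a field homomorphism. -/
theorem mem_nonunits_comap_iff {K' : Type*} [Field K'] (V : ValuationSubring K) (φ : K' →+* K)
    (f : K') : f ∈ (V.comap φ).nonunits ↔ φ f ∈ V.nonunits := by
  rw [ValuationSubring.mem_nonunits_iff_or, ValuationSubring.mem_nonunits_iff_or,
    ValuationSubring.mem_comap]
  constructor
  · rintro (h | h)
    · left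
      rw [h, map_zero]
    · right
      intro h'
      apply h
      rw [map_inv₀]
      exact h'
  · rintro (h | h)
    · left
      exact (map_eq_zero φ).mp h
    · right
      intro h'
      apply h
      rwa [map_inv₀] at h'

end Nonunits

section Normal

variable {R F : Type*} [CommRing R] [Field F] [Algebra R F]

/-- A root modulo `𝔪_V` of a monic polynomial over `B ⊆ V` lies in `V`. -/
theorem mem_of_monic_aeval_nonunit (B : Subalgebra R F) (V : ValuationSubring F)
    (hle : ∀ b ∈ B, b ∈ V) {f : F} (P : Polynomial B) (hPm : P.Monic)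
    (hPf : aeval f P ∈ V.nonunits) : f ∈ V := by
  classical
  let φ : B →+* V :=
    { toFun := fun b => ⟨(b : F), hle b b.2⟩
      map_one' := rfl
      map_mul' := fun _ _ => rfl
      map_zero' := rfl
      map_add' := fun _ _ => rfl }
  have hφ : (algebraMap V F).comp φ = algebraMap B F := by
    ext b
    rfl
  have hc : aeval f P ∈ V := nonunits_subset V hPf
  have hdeg : 0 < P.natDegree := by
    rcases Nat.eq_zero_or_pos P.natDegree with h0 | h0
    · exfalso
      have h1 : P = 1 := by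
        have := Polynomial.eq_C_of_natDegree_eq_zero h0
        rw [this]
        have hl : P.coeff 0 = 1 := by
          have := hPm.leadingCoeff
          rwa [Polynomial.leadingCoeff, h0] at this
        rw [hl, map_one]
      rw [h1, map_one, ValuationSubring.mem_nonunits_iff, map_one] at hPf
      exact lt_irrefl _ hPf
    · exact h0
  have hint : IsIntegral V f := by
    refine ⟨P.map φ - C ⟨aeval f P, hc⟩, ?_, ?_⟩
    · apply (hPm.map φ).sub_of_left
      have h2 : (P.map φ).natDegree = P.natDegree := hPm.natDegree_map φ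
      have h3 : (P.map φ).degree = (P.natDegree : WithBot ℕ) := by
        rw [Polynomial.degree_eq_natDegree (hPm.map φ).ne_zero, h2]
      calc (C (⟨aeval f P, hc⟩ : V)).degree ≤ 0 := degree_C_le
        _ < (P.map φ).degree := by
            rw [h3]
            exact_mod_cast hdeg
    · rw [eval₂_sub, eval₂_map, eval₂_C, hφ]
      show eval₂ (algebraMap B F) f P - aeval f P = 0
      rw [Polynomial.aeval_def, sub_self]
  obtain ⟨y, hy⟩ := IsIntegrallyClosed.isIntegral_iff (R := V) (K := F) |>.mp hint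
  rw [← hy]
  exact y.2

/-- In a ring `A` with `A / 𝔭` an integrally closed domain: if `t / s` (`s ∉ 𝔭`) is a root modulo
`𝔭` of a monic polynomial, in the homogeneous form `(P.scaleRoots s)(t) ∈ 𝔭`, then `t ≡ b s` modulo
`𝔭` for some `b ∈ A`. -/
theorem exists_mul_sub_mem_of_scaleRoots_mem {A : Type*} [CommRing A] (p : Ideal A) [p.IsPrime]
    [IsIntegrallyClosed (A ⧸ p)] (P : A[X]) (hPm : P.Monic) (s t : A) (hs : s ∉ p)
    (hB : eval t (P.scaleRoots s) ∈ p) : ∃ b : A, b * s - t ∈ p := by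
  classical
  have hfinj : Function.Injective (algebraMap (A ⧸ p) (FractionRing (A ⧸ p))) :=
    IsFractionRing.injective (A ⧸ p) (FractionRing (A ⧸ p))
  have hs0 : algebraMap (A ⧸ p) (FractionRing (A ⧸ p)) (Ideal.Quotient.mk p s) ≠ 0 := by
    intro h
    have h1 : Ideal.Quotient.mk p s = 0 := hfinj (by rw [h, map_zero])
    exact hs (Ideal.Quotient.eq_zero_iff_mem.1 h1)
  have hint : IsIntegral (A ⧸ p)
      (algebraMap (A ⧸ p) (FractionRing (A ⧸ p)) (Ideal.Quotient.mk p t) /
        algebraMap (A ⧸ p) (FractionRing (A ⧸ p)) (Ideal.Quotient.mk p s)) := by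
    refine ⟨P.map (Ideal.Quotient.mk p), hPm.map _, ?_⟩
    have h2 := scaleRoots_eval₂_mul (p := P.map (Ideal.Quotient.mk p))
      (algebraMap (A ⧸ p) (FractionRing (A ⧸ p)))
      (algebraMap (A ⧸ p) (FractionRing (A ⧸ p)) (Ideal.Quotient.mk p t) /
        algebraMap (A ⧸ p) (FractionRing (A ⧸ p)) (Ideal.Quotient.mk p s)) (Ideal.Quotient.mk p s)
    have h3 : algebraMap (A ⧸ p) (FractionRing (A ⧸ p)) (Ideal.Quotient.mk p s) *
        (algebraMap (A ⧸ p) (FractionRing (A ⧸ p)) (Ideal.Quotient.mk p t) /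
        algebraMap (A ⧸ p) (FractionRing (A ⧸ p)) (Ideal.Quotient.mk p s))
        = algebraMap (A ⧸ p) (FractionRing (A ⧸ p)) (Ideal.Quotient.mk p t) := by
      field_simp
    have h4 : (P.map (Ideal.Quotient.mk p)).scaleRoots (Ideal.Quotient.mk p s)
        = (P.scaleRoots s).map (Ideal.Quotient.mk p) := by
      rw [map_scaleRoots]
      rw [hPm.leadingCoeff, map_one]
      exact one_ne_zero
    rw [h3, eval₂_at_apply, h4, eval_map, eval₂_at_apply] at h2
    have h5 : Ideal.Quotient.mk p (eval t (P.scaleRoots s)) = 0 :=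
      Ideal.Quotient.eq_zero_iff_mem.2 hB
    rw [h5, map_zero] at h2
    rcases mul_eq_zero.1 h2.symm with h | h
    · exact absurd (eq_zero_of_pow_eq_zero h) hs0
    · exact h
  obtain ⟨a, ha⟩ := IsIntegrallyClosed.isIntegral_iff.1 hint
  obtain ⟨b', rfl⟩ := Ideal.Quotient.mk_surjective a
  refine ⟨b', ?_⟩
  rw [← Ideal.Quotient.eq_zero_iff_mem]
  apply hfinj
  rw [map_zero, map_sub, map_sub, map_mul, map_mul, ha]
  field_simp
  ring

/-- **Normality along a component**, from the ring-theoretic form: `B ⊆ V`, `p = B ∩ 𝔪_V`,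
`B / p` integrally closed, `V` the local ring of `B` at `p`. -/
theorem normalAlong_of_closed (B : Subalgebra R F) (V : ValuationSubring F) (p : Ideal B)
    [p.IsPrime] [IsIntegrallyClosed (B ⧸ p)]
    (hle : ∀ b ∈ B, b ∈ V)
    (hp : ∀ b : B, b ∈ p ↔ (b : F) ∈ V.nonunits)
    (hfrac : ∀ y ∈ V, ∃ a s : B, (s : F) ∉ V.nonunits ∧ y = a * (s : F)⁻¹) :
    NormalAlong B V := by
  intro f P hPm hPf
  have hfV : f ∈ V := mem_of_monic_aeval_nonunit B V hle P hPm hPf
  obtain ⟨a, s, hs, hfa⟩ := hfrac f hfV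
  have hs0 : (s : F) ≠ 0 := ne_zero_of_not_mem_nonunits V hs
  have hsi : (s : F)⁻¹ ∈ V := inv_mem_of_not_mem_nonunits V hs
  have hsp : s ∉ p := fun h => hs ((hp s).1 h)
  -- `(P.scaleRoots s)(a) = s ^ n * P(f)`
  have h1 : ((eval a (P.scaleRoots s) : B) : F) = (s : F) ^ P.natDegree * aeval f P := by
    have h2 := scaleRoots_eval₂_mul (p := P) (algebraMap B F) f s
    have h3 : algebraMap B F s * f = algebraMap B F a := by
      rw [hfa]
      show (s : F) * ((a : F) * (s : F)⁻¹) = (a : F)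
      field_simp
    rw [h3, eval₂_at_apply] at h2
    rw [Polynomial.aeval_def]
    exact h2
  have h4 : eval a (P.scaleRoots s) ∈ p := by
    rw [hp, h1]
    exact mul_mem_nonunits_left V (pow_mem (hle s s.2) _) hPf
  obtain ⟨b, hb⟩ := exists_mul_sub_mem_of_scaleRoots_mem p P hPm s a hsp h4
  refine ⟨b, ?_⟩
  have h5 : f - (b : F) = -(((b * s - a : B) : F)) * (s : F)⁻¹ := by
    rw [hfa]
    push_cast
    field_simp
    ring
  rw [h5]
  exact mul_mem_nonunits_right V (neg_mem ((hp _).1 hb)) hsi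

end Normal

section Res

variable {R E F F' : Type*} [CommRing R] [Field E] [Algebra R E]
  [Field F] [Algebra E F] [Algebra R F] [Field F'] [Algebra E F'] [Algebra R F']

/-- **RES, chart form.**  Residue degree one at the level of the valuation rings, integrality of
the chart `B` over `α B'` and normality of `B'` along `V'` give residue degree one in chart
form. -/
theorem res_chart_of_normalAlong (α : F' →ₐ[E] F) (B' : Subalgebra R F') (B : Subalgebra R F)
    (V : ValuationSubring F) (V' : ValuationSubring F')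
    (hcomap : V.comap (α : F' →+* F) = V')
    (hnorm : NormalAlong B' V')
    (hint : ∀ b ∈ B, ∃ p : Polynomial F', p.Monic ∧ (∀ i, p.coeff i ∈ B') ∧
      (p.map (α : F' →+* F)).eval b = 0)
    (hB'V' : ∀ b ∈ B', b ∈ V')
    (hBV : ∀ b ∈ B, b ∈ V)
    (hres : ∀ z ∈ V, ∃ y ∈ V', z - α y ∈ V.nonunits) :
    ∀ b ∈ B, ∃ b' ∈ B', b - α b' ∈ V.nonunits := by
  classical
  intro b hb
  have hover : ∀ a : F', α a ∈ V ↔ a ∈ V' := by
    intro a
    rw [← hcomap]
    rfl
  have hoverN : ∀ a : F', α a ∈ V.nonunits ↔ a ∈ V'.nonunits := by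
    intro a
    rw [← hcomap, mem_nonunits_comap_iff]
    rfl
  obtain ⟨y, hy, hby⟩ := hres b (hBV b hb)
  obtain ⟨p, hpm, hpc, hp0⟩ := hint b hb
  -- lift `p` to `B'[X]`
  have hlift : p ∈ Polynomial.lifts (algebraMap B' F') := by
    rw [Polynomial.lifts_iff_coeff_lifts]
    intro n
    exact ⟨⟨p.coeff n, hpc n⟩, rfl⟩
  obtain ⟨P, hP, -, hPm⟩ := Polynomial.lifts_and_degree_eq_and_monic hlift hpm
  -- the ring homomorphism `B' → V`
  let φ : B' →+* V :=
    { toFun := fun c => ⟨α (c : F'), (hover _).2 (hB'V' c c.2)⟩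
      map_one' := by ext; simp
      map_mul' := fun x y => by ext; simp
      map_zero' := by ext; simp
      map_add' := fun x y => by ext; simp }
  have hφ : ∀ x : V, ((eval x (P.map φ) : V) : F) = eval (x : F) (p.map (α : F' →+* F)) := by
    intro x
    rw [← hP, Polynomial.map_map, eval_map, eval_map]
    have hcomp : (V.subtype : V →+* F).comp φ = (α : F' →+* F).comp (algebraMap B' F') := by
      ext c
      rfl
    have := hom_eval₂ P φ (V.subtype : V →+* F) x
    rw [hcomp] at this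
    exact this
  have hyV : α y ∈ V := (hover y).2 hy
  have hbV : b ∈ V := hBV b hb
  -- `P(y) ∈ 𝔪_{V'}`
  have hA : aeval y P ∈ V'.nonunits := by
    rw [← hoverN]
    have h1 : α (aeval y P) = eval (α y) (p.map (α : F' →+* F)) := by
      rw [← hP, Polynomial.map_map, eval_map, Polynomial.aeval_def]
      exact hom_eval₂ P (algebraMap B' F') (α : F' →+* F) y
    obtain ⟨c, hc⟩ := sub_dvd_eval_sub (⟨α y, hyV⟩ : V) ⟨b, hbV⟩ (P.map φ)
    have h4 : ((eval (⟨α y, hyV⟩ : V) (P.map φ) - eval (⟨b, hbV⟩ : V) (P.map φ) : V) : F)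
        = (((⟨α y, hyV⟩ : V) - ⟨b, hbV⟩) * c : V) := congrArg (fun x : V => (x : F)) hc
    push_cast at h4
    rw [hφ, hφ] at h4
    rw [hp0, sub_zero] at h4
    rw [h1, h4]
    refine mul_mem_nonunits_right V ?_ c.2
    have : α y - b = -(b - α y) := by ring
    rw [this]
    exact neg_mem hby
  obtain ⟨b', hb'⟩ := hnorm y P hPm hA
  refine ⟨b', b'.2, ?_⟩
  have h6 : b - α (b' : F') = (b - α y) + α (y - (b' : F')) := by
    rw [map_sub]
    ring
  rw [h6]
  exact add_mem hby ((hoverN _).2 hb')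

end Res

end Fermat.Agent.S36.Mod3.H189

end

end
-- ===== PACK-END S36/Mod3/H189/ResAbs.lean

-- ===== PACK-BEGIN Lib/Haupt/Laurent.lean
section



/-!
# Hauptmodul relations in `K((q))` for every commutative ring `K` (helper637)

* `t2 K`, `t3 K : LaurentSeries K`;
* `jq_mul_t2_sq`   : `jqModC K * t2 K ^ 2 = (t2 K + 256) ^ 3`
* `jq2_mul_t2`     : `qExpand K 2 (jqModC K) * t2 K = (t2 K + 16) ^ 3`
* `jq_mul_t3_cube` : `jqModC K * t3 K ^ 3 = (t3 K + 27) * (t3 K + 243) ^ 3`
* `jq3_mul_t3`     : `qExpand K 3 (jqModC K) * t3 K = (t3 K + 27) * (t3 K + 3) ^ 3`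
* `coeffMap_t2`, `coeffMap_t3` : compatibility with change of coefficients.
-/

set_option autoImplicit false

noncomputable section

namespace Fermat.Agent.Lib.Haupt

open PowerSeries HahnSeries ModularCurve

variable (K : Type*) [CommRing K]

/-- `q⁻¹ · f(q)` for an integral power series `f`, with coefficients in `K`. -/
def lau (f : PowerSeries ℤ) : LaurentSeries K :=
  HahnSeries.ofPowerSeries ℤ K (f.map (Int.castRingHom K))

/-- `q⁻¹`. -/
def qinv : LaurentSeries K := HahnSeries.single (-1 : ℤ) 1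

theorem lau_mul (f g : PowerSeries ℤ) : lau K (f * g) = lau K f * lau K g := by
  rw [lau, map_mul, map_mul]; rfl

theorem lau_add (f g : PowerSeries ℤ) : lau K (f + g) = lau K f + lau K g := by
  rw [lau, map_add, map_add]; rfl

theorem lau_pow (f : PowerSeries ℤ) (n : ℕ) : lau K (f ^ n) = lau K f ^ n := by
  rw [lau, map_pow, map_pow]; rfl

theorem qinv_mul_lau_X : qinv K * lau K X = 1 := by
  rw [qinv, lau, PowerSeries.map_X, HahnSeries.ofPowerSeries_X, HahnSeries.single_mul_single]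
  simp

theorem lau_C (c : ℤ) : lau K (C c) = (c : LaurentSeries K) := by
  rw [lau, PowerSeries.map_C, HahnSeries.ofPowerSeries_C]
  simp

theorem jqModC_eq : jqModC K = qinv K * lau K jNum := rfl

/-- The Hauptmodul of `Γ₀(2)`: `t₂ = Δ(q)/Δ(q²)`. -/
def t2 : LaurentSeries K := qinv K * lau K T2

/-- The Hauptmodul of `Γ₀(3)`: `t₃ = (η(q)/η(q³))¹²`. -/
def t3 : LaurentSeries K := qinv K * lau K T3

theorem t_add_const (T : PowerSeries ℤ) (c : ℤ) :
    qinv K * lau K T + (c : LaurentSeries K) = qinv K * lau K (T + C c * X) := by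
  rw [lau_add, lau_mul, lau_C, mul_add, mul_left_comm, qinv_mul_lau_X, mul_one]

/-- `j · t₂² = (t₂ + 256)³`. -/
theorem jq_mul_t2_sq : jqModC K * t2 K ^ 2 = (t2 K + 256) ^ 3 := by
  have h := congrArg (fun f => qinv K ^ 3 * lau K f) T2_rel₁
  simp only [lau_mul, lau_pow] at h
  have e : (t2 K + 256) = qinv K * lau K (T2 + C 256 * X) := by
    rw [← t_add_const, t2]; simp
  rw [e, jqModC_eq, t2]
  linear_combination h

theorem qExpand_ofPowerSeries (d : ℕ) [NeZero d] (g : PowerSeries K) :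
    qExpand K d (HahnSeries.ofPowerSeries ℤ K g)
      = HahnSeries.ofPowerSeries ℤ K (PowerSeries.expand d (NeZero.ne d) g) := by
  have hd : (0 : ℤ) < d := by exact_mod_cast Nat.pos_of_ne_zero (NeZero.ne d)
  ext k
  by_cases hk : (d : ℤ) ∣ k
  · obtain ⟨m, rfl⟩ := hk
    rw [qExpand_coeff_mul]
    rcases le_or_gt 0 m with hm | hm
    · lift m to ℕ using hm
      rw [HahnSeries.ofPowerSeries_apply_coeff, show (d : ℤ) * (m : ℤ) = ((d * m : ℕ) : ℤ) by
        push_cast; ring, HahnSeries.ofPowerSeries_apply_coeff, PowerSeries.coeff_expand_mul]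
    · rw [ofPowerSeries_coeff_of_neg _ hm, ofPowerSeries_coeff_of_neg _ (by nlinarith)]
  · rw [qExpand_coeff_of_not_dvd d _ hk]
    rcases le_or_gt 0 k with hk0 | hk0
    · lift k to ℕ using hk0
      rw [HahnSeries.ofPowerSeries_apply_coeff, PowerSeries.coeff_expand_of_not_dvd]
      intro h
      exact hk (by exact_mod_cast h)
    · rw [ofPowerSeries_coeff_of_neg _ hk0]

theorem qExpand_lau (d : ℕ) [NeZero d] (f : PowerSeries ℤ) :
    qExpand K d (lau K f) = lau K (ex d f) := by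
  rw [lau, qExpand_ofPowerSeries, lau, ex, PowerSeries.map_expand]

theorem qExpand_qinv (d : ℕ) [NeZero d] : qExpand K d (qinv K) = qinv K ^ d := by
  rw [qinv, qExpand_single, HahnSeries.single_pow, one_pow]
  simp

theorem qExpand_jqModC (d : ℕ) [NeZero d] :
    qExpand K d (jqModC K) = qinv K ^ d * lau K (ex d jNum) := by
  rw [jqModC_eq, map_mul, qExpand_qinv, qExpand_lau]

/-- `j(q²) · t₂ = (t₂ + 16)³`. -/
theorem jq2_mul_t2 : qExpand K 2 (jqModC K) * t2 K = (t2 K + 16) ^ 3 := by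
  have h := congrArg (fun f => qinv K ^ 3 * lau K f) T2_rel₂
  simp only [lau_mul, lau_pow] at h
  have e : (t2 K + 16) = qinv K * lau K (T2 + C 16 * X) := by
    rw [← t_add_const, t2]; simp
  rw [e, qExpand_jqModC, t2]
  linear_combination h

/-- `j · t₃³ = (t₃ + 27)(t₃ + 243)³`. -/
theorem jq_mul_t3_cube : jqModC K * t3 K ^ 3 = (t3 K + 27) * (t3 K + 243) ^ 3 := by
  have h := congrArg (fun f => qinv K ^ 4 * lau K f) T3_rel₁
  simp only [lau_mul, lau_pow] at h
  have e1 : (t3 K + 27) = qinv K * lau K (T3 + C 27 * X) := by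
    rw [← t_add_const, t3]; simp
  have e2 : (t3 K + 243) = qinv K * lau K (T3 + C 243 * X) := by
    rw [← t_add_const, t3]; simp
  rw [e1, e2, jqModC_eq, t3]
  linear_combination h

/-- `j(q³) · t₃ = (t₃ + 27)(t₃ + 3)³`. -/
theorem jq3_mul_t3 : qExpand K 3 (jqModC K) * t3 K = (t3 K + 27) * (t3 K + 3) ^ 3 := by
  have h := congrArg (fun f => qinv K ^ 4 * lau K f) T3_rel₂
  simp only [lau_mul, lau_pow] at h
  have e1 : (t3 K + 27) = qinv K * lau K (T3 + C 27 * X) := by
    rw [← t_add_const, t3]; simp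
  have e2 : (t3 K + 3) = qinv K * lau K (T3 + C 3 * X) := by
    rw [← t_add_const, t3]; simp
  rw [e1, e2, qExpand_jqModC, t3]
  linear_combination h

/-! ### Basic properties -/

variable {K}

theorem coeffMap_ofPS {K' : Type*} [CommRing K'] (φ : K →+* K') (p : PowerSeries K) :
    coeffMap φ (HahnSeries.ofPowerSeries ℤ K p) = HahnSeries.ofPowerSeries ℤ K' (p.map φ) := by
  ext k
  rw [coeffMap_coeff]
  rcases le_or_gt 0 k with hk | hk
  · lift k to ℕ using hk
    rw [HahnSeries.ofPowerSeries_apply_coeff, HahnSeries.ofPowerSeries_apply_coeff,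
      PowerSeries.coeff_map]
  · rw [ofPowerSeries_coeff_of_neg _ hk, ofPowerSeries_coeff_of_neg _ hk, map_zero]

theorem coeffMap_lau {K' : Type*} [CommRing K'] (φ : K →+* K') (g : PowerSeries ℤ) :
    coeffMap φ (lau K g) = lau K' g := by
  rw [lau, lau, coeffMap_ofPS,
    ← RingHom.comp_apply (PowerSeries.map φ) (PowerSeries.map (Int.castRingHom K)),
    ← PowerSeries.map_comp, RingHom.ext_int (φ.comp (Int.castRingHom K)) (Int.castRingHom K')]

theorem coeffMap_qinv {K' : Type*} [CommRing K'] (φ : K →+* K') :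
    coeffMap φ (qinv K) = qinv K' := by
  rw [qinv, coeffMap_single, map_one, qinv]

/-- `t₂` is compatible with every change of coefficients (base change, reduction mod `ℓ`). -/
theorem coeffMap_t2 {K' : Type*} [CommRing K'] (φ : K →+* K') :
    coeffMap φ (t2 K) = t2 K' := by
  rw [t2, map_mul, coeffMap_qinv, coeffMap_lau, t2]

/-- `t₃` is compatible with every change of coefficients (base change, reduction mod `ℓ`). -/
theorem coeffMap_t3 {K' : Type*} [CommRing K'] (φ : K →+* K') :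
    coeffMap φ (t3 K) = t3 K' := by
  rw [t3, map_mul, coeffMap_qinv, coeffMap_lau, t3]

variable (K)

theorem coeff_qinv_mul_lau (g : PowerSeries ℤ) (k : ℤ) :
    (qinv K * lau K g).coeff k = (lau K g).coeff (k + 1) := by
  rw [qinv, HahnSeries.coeff_single_mul, one_mul, sub_neg_eq_add]

theorem coeff_lau_natCast (g : PowerSeries ℤ) (n : ℕ) :
    (lau K g).coeff (n : ℤ) = ((PowerSeries.coeff n g : ℤ) : K) := by
  rw [lau, HahnSeries.ofPowerSeries_apply_coeff, PowerSeries.coeff_map, eq_intCast]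

theorem coeff_lau_of_neg (g : PowerSeries ℤ) {k : ℤ} (hk : k < 0) : (lau K g).coeff k = 0 :=
  ofPowerSeries_coeff_of_neg _ hk

/-- `t₂ = q⁻¹ + …`. -/
theorem coeff_t2_neg_one : (t2 K).coeff (-1) = 1 := by
  rw [t2, coeff_qinv_mul_lau, show (-1 : ℤ) + 1 = ((0 : ℕ) : ℤ) by norm_num, coeff_lau_natCast,
    PowerSeries.coeff_zero_eq_constantCoeff, constantCoeff_T2, Int.cast_one]

theorem coeff_t2_of_lt {k : ℤ} (hk : k < -1) : (t2 K).coeff k = 0 := by
  rw [t2, coeff_qinv_mul_lau, coeff_lau_of_neg K _ (by omega)]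

/-- `t₃ = q⁻¹ + …`. -/
theorem coeff_t3_neg_one : (t3 K).coeff (-1) = 1 := by
  rw [t3, coeff_qinv_mul_lau, show (-1 : ℤ) + 1 = ((0 : ℕ) : ℤ) by norm_num, coeff_lau_natCast,
    PowerSeries.coeff_zero_eq_constantCoeff, constantCoeff_T3, Int.cast_one]

theorem coeff_t3_of_lt {k : ℤ} (hk : k < -1) : (t3 K).coeff k = 0 := by
  rw [t3, coeff_qinv_mul_lau, coeff_lau_of_neg K _ (by omega)]

theorem t2_ne_zero [Nontrivial K] : t2 K ≠ 0 := fun h => by
  have := coeff_t2_neg_one K
  rw [h] at this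
  simp at this

theorem t3_ne_zero [Nontrivial K] : t3 K ≠ 0 := fun h => by
  have := coeff_t3_neg_one K
  rw [h] at this
  simp at this

/-- `t₂` is a root of the monic cubic `T³ + (768 - j) T² + 196608 T + 16777216` over `ℤ[j]`. -/
theorem t2_cubic :
    t2 K ^ 3 + (768 - jqModC K) * t2 K ^ 2 + 196608 * t2 K + 16777216 = 0 := by
  linear_combination -(jq_mul_t2_sq K)

/-- `t₂` is a root of the monic cubic `T³ + 48 T² + (768 - j(q²)) T + 4096` over `ℤ[j(q²)]`. -/
theorem t2_cubic' :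
    t2 K ^ 3 + 48 * t2 K ^ 2 + (768 - qExpand K 2 (jqModC K)) * t2 K + 4096 = 0 := by
  linear_combination -(jq2_mul_t2 K)

/-- `t₃` is a root of the monic quartic `T⁴ + (756 - j) T³ + 196830 T² + 19131876 T + 387420489`
over `ℤ[j]`. -/
theorem t3_quartic :
    t3 K ^ 4 + (756 - jqModC K) * t3 K ^ 3 + 196830 * t3 K ^ 2 + 19131876 * t3 K + 387420489
      = 0 := by
  linear_combination -(jq_mul_t3_cube K)

/-- `t₃` is a root of the monic quartic `T⁴ + 36 T³ + 270 T² + (756 - j(q³)) T + 729`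
over `ℤ[j(q³)]`. -/
theorem t3_quartic' :
    t3 K ^ 4 + 36 * t3 K ^ 3 + 270 * t3 K ^ 2 + (756 - qExpand K 3 (jqModC K)) * t3 K + 729
      = 0 := by
  linear_combination -(jq3_mul_t3 K)

/-- `j - 1728 = (t₂ + 64)(t₂ - 512)² / t₂²`: the elliptic point of order 2 of `X₀(2)` is
`t₂ = -64`; `t₂ = 512` lies over `j = 1728` with ramification index `2` (not a branch value of
higher levels over the `t₂`-line). -/
theorem jq_sub_1728_mul_t2_sq :
    (jqModC K - 1728) * t2 K ^ 2 = (t2 K + 64) * (t2 K - 512) ^ 2 := by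
  linear_combination jq_mul_t2_sq K

/-- `j - 1728 = (t₃² - 486 t₃ - 19683)² / t₃³`: `X₀(3)` has no elliptic point of order 2. -/
theorem jq_sub_1728_mul_t3_cube :
    (jqModC K - 1728) * t3 K ^ 3 = (t3 K ^ 2 - 486 * t3 K - 19683) ^ 2 := by
  linear_combination jq_mul_t3_cube K

end Fermat.Agent.Lib.Haupt

end
end
-- ===== PACK-END Lib/Haupt/Laurent.lean

-- ===== PACK-BEGIN Lib/Haupt/Member.lean
section



/-!
# The Hauptmoduln `t₂`, `t₃` lie in the function field of `X₀(M)` (helper637)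

For EVERY field `K` (any characteristic) and every level `M`:

* `t2_mem_fullC : 2 ∣ M → t2 K ∈ modularFunctionFieldFullC K M`
* `t3_mem_fullC : 3 ∣ M → t3 K ∈ modularFunctionFieldFullC K M`
* `t2_mem_full`, `t3_mem_full` : the same for `modularFunctionFieldFull M` (`K = ℚ`).

Proof: explicit linear relations `U · t = W` with `U, W ∈ ℤ[j, j(q^d)]` (found by linear algebra
over `ℚ[t, t⁻¹]`, checked here by `field_simp; ring` after substituting `j = (t+256)³/t²` etc.),

* `t2_lin : (j j₂ - 720 j - 720 j₂ - 16250625) · t₂ = j₂² + 4095 j + 195120 j₂ + 660960000`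
* `t3_lin : U₃ · t₃ = W₃` (degree 4 in `j, j₃`),

and `U ≠ 0` because `U · t^m` is a MONIC polynomial in `t = q⁻¹ + …` (`t2_U_ne_zero`,
`t3_U_ne_zero`).
-/

set_option autoImplicit false

noncomputable section

namespace Fermat.Agent.Lib.Haupt

open PowerSeries HahnSeries ModularCurve

section Generic

variable (K : Type*) [CommRing K]

theorem lau_neg (f : PowerSeries ℤ) : lau K (-f) = -lau K f := by
  rw [lau, map_neg, map_neg]; rfl

theorem lau_sub (f g : PowerSeries ℤ) : lau K (f - g) = lau K f - lau K g := by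
  rw [sub_eq_add_neg, lau_add, lau_neg, sub_eq_add_neg]

theorem lau_one : lau K 1 = 1 := by
  rw [lau, map_one, map_one]

/-- If `f · qⁿ` is an integral power series with constant coefficient `1`, then `f ≠ 0`. -/
theorem ne_zero_of_mul_eq_lau [Nontrivial K] {f : LaurentSeries K} {n : ℕ} {P : PowerSeries ℤ}
    (h : f * lau K X ^ n = lau K P) (hP : constantCoeff P = 1) : f ≠ 0 := by
  rintro rfl
  rw [zero_mul] at h
  have h0 := coeff_lau_natCast K P 0
  rw [← h, PowerSeries.coeff_zero_eq_constantCoeff, hP] at h0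
  simp at h0

end Generic

section Field

variable (K : Type*) [Field K]

theorem lau_X_ne_zero : lau K X ≠ 0 := fun h => by
  have := qinv_mul_lau_X K
  rw [h, mul_zero] at this
  exact zero_ne_one this

theorem qinv_eq_inv : qinv K = (lau K X)⁻¹ :=
  eq_inv_of_mul_eq_one_left (qinv_mul_lau_X K)

theorem lau_T2_ne_zero : lau K T2 ≠ 0 := fun h => by
  have := t2_ne_zero (K := K)
  rw [t2, h, mul_zero] at this
  exact this rfl

theorem lau_T3_ne_zero : lau K T3 ≠ 0 := fun h => by
  have := t3_ne_zero (K := K)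
  rw [t3, h, mul_zero] at this
  exact this rfl

theorem jq_eq_t2 : jqModC K = (t2 K + 256) ^ 3 / t2 K ^ 2 := by
  rw [eq_div_iff (pow_ne_zero 2 (t2_ne_zero (K := K)))]
  exact jq_mul_t2_sq K

theorem jq2_eq_t2 : qExpand K 2 (jqModC K) = (t2 K + 16) ^ 3 / t2 K := by
  rw [eq_div_iff (t2_ne_zero (K := K))]
  exact jq2_mul_t2 K

theorem jq_eq_t3 : jqModC K = (t3 K + 27) * (t3 K + 243) ^ 3 / t3 K ^ 3 := by
  rw [eq_div_iff (pow_ne_zero 3 (t3_ne_zero (K := K)))]
  exact jq_mul_t3_cube K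

theorem jq3_eq_t3 : qExpand K 3 (jqModC K) = (t3 K + 27) * (t3 K + 3) ^ 3 / t3 K := by
  rw [eq_div_iff (t3_ne_zero (K := K))]
  exact jq3_mul_t3 K

/-! ### Level 2 -/

/-- The denominator `U₂ = j j₂ - 720 j - 720 j₂ - 16250625`. -/
def U2 : LaurentSeries K :=
  jqModC K * qExpand K 2 (jqModC K) - 720 * jqModC K - 720 * qExpand K 2 (jqModC K) - 16250625

/-- The numerator `W₂ = j₂² + 4095 j + 195120 j₂ + 660960000`. -/
def W2 : LaurentSeries K :=
  qExpand K 2 (jqModC K) ^ 2 + 4095 * jqModC K + 195120 * qExpand K 2 (jqModC K) + 660960000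

/-- `U₂ · t₂ = W₂`. -/
theorem t2_lin : U2 K * t2 K = W2 K := by
  have ht := t2_ne_zero (K := K)
  rw [U2, W2, jq2_eq_t2, jq_eq_t2]
  field_simp
  ring

/-- `q⁶ · t₂³ · U₂`, an integral power series with constant coefficient `1`. -/
def P2 : PowerSeries ℤ :=
  (T2 + PowerSeries.C (256 : ℤ) * X) ^ 3 * (T2 + PowerSeries.C (16 : ℤ) * X) ^ 3
    - PowerSeries.C (720 : ℤ) * (T2 + PowerSeries.C (256 : ℤ) * X) ^ 3 * T2 * X ^ 2
    - PowerSeries.C (720 : ℤ) * (T2 + PowerSeries.C (16 : ℤ) * X) ^ 3 * T2 ^ 2 * X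
    - PowerSeries.C (16250625 : ℤ) * T2 ^ 3 * X ^ 3

theorem constantCoeff_P2 : constantCoeff P2 = 1 := by
  simp [P2, constantCoeff_T2]

theorem U2_mul : U2 K * t2 K ^ 3 * lau K X ^ 6 = lau K P2 := by
  have hu := lau_X_ne_zero K
  have hτ := lau_T2_ne_zero K
  have ht := t2_ne_zero (K := K)
  rw [U2, jq2_eq_t2, jq_eq_t2, P2]
  simp only [lau_sub, lau_add, lau_mul, lau_pow, lau_C]
  rw [t2, qinv_eq_inv] at ht ⊢
  push_cast
  field_simp

theorem U2_ne_zero : U2 K ≠ 0 := fun h => by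
  have := ne_zero_of_mul_eq_lau K (U2_mul K) constantCoeff_P2
  rw [h, zero_mul] at this
  exact this rfl

/-! ### Level 3 -/

/-- The denominator `U₃ ∈ ℤ[j, j₃]`. -/
def U3 : LaurentSeries K :=
  729 * jqModC K ^ 2 * qExpand K 3 (jqModC K)
    + 196830 * jqModC K * qExpand K 3 (jqModC K) ^ 2 + qExpand K 3 (jqModC K) ^ 3
    - 524880 * jqModC K ^ 2 + 18821147040 * jqModC K * qExpand K 3 (jqModC K)
    - 103456080 * qExpand K 3 (jqModC K) ^ 2 + 14229831680000 * jqModC K
    + 276373831680000 * qExpand K 3 (jqModC K) - 3623878656000000000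

/-- The numerator `W₃ ∈ ℤ[j, j₃]`. -/
def W3 : LaurentSeries K :=
  jqModC K * qExpand K 3 (jqModC K) ^ 3 + 19129644 * jqModC K * qExpand K 3 (jqModC K) ^ 2
    - 756 * qExpand K 3 (jqModC K) ^ 3 + 531440 * jqModC K ^ 2
    + 76509442080 * jqModC K * qExpand K 3 (jqModC K)
    + 23150726640 * qExpand K 3 (jqModC K) ^ 2 - 48430448640000 * jqModC K
    - 14204206448640000 * qExpand K 3 (jqModC K) + 97844723712000000000

/-- `U₃ · t₃ = W₃`. -/
theorem t3_lin : U3 K * t3 K = W3 K := by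
  have ht := t3_ne_zero (K := K)
  rw [U3, W3, jq3_eq_t3, jq_eq_t3]
  field_simp
  ring

/-- `q⁴ (t₃ + 27)(t₃ + 243)³`. -/
def N3a : PowerSeries ℤ :=
  (T3 + PowerSeries.C (27 : ℤ) * X) * (T3 + PowerSeries.C (243 : ℤ) * X) ^ 3

/-- `q⁴ (t₃ + 27)(t₃ + 3)³`. -/
def N3b : PowerSeries ℤ :=
  (T3 + PowerSeries.C (27 : ℤ) * X) * (T3 + PowerSeries.C (3 : ℤ) * X) ^ 3

/-- `q¹⁶ · t₃⁷ · U₃`, an integral power series with constant coefficient `1`. -/
def P3 : PowerSeries ℤ :=
  PowerSeries.C (729 : ℤ) * N3a ^ 2 * N3b * X ^ 4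
    + PowerSeries.C (196830 : ℤ) * N3a * N3b ^ 2 * T3 ^ 2 * X ^ 2 + N3b ^ 3 * T3 ^ 4
    - PowerSeries.C (524880 : ℤ) * N3a ^ 2 * T3 * X ^ 7
    + PowerSeries.C (18821147040 : ℤ) * N3a * N3b * T3 ^ 3 * X ^ 5
    - PowerSeries.C (103456080 : ℤ) * N3b ^ 2 * T3 ^ 5 * X ^ 3
    + PowerSeries.C (14229831680000 : ℤ) * N3a * T3 ^ 4 * X ^ 8
    + PowerSeries.C (276373831680000 : ℤ) * N3b * T3 ^ 6 * X ^ 6
    - PowerSeries.C (3623878656000000000 : ℤ) * T3 ^ 7 * X ^ 9

theorem constantCoeff_P3 : constantCoeff P3 = 1 := by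
  simp [P3, N3a, N3b, constantCoeff_T3]

theorem U3_mul : U3 K * t3 K ^ 7 * lau K X ^ 16 = lau K P3 := by
  have hu := lau_X_ne_zero K
  have hτ := lau_T3_ne_zero K
  have ht := t3_ne_zero (K := K)
  rw [U3, jq3_eq_t3, jq_eq_t3, P3, N3a, N3b]
  simp only [lau_sub, lau_add, lau_mul, lau_pow, lau_C]
  rw [t3, qinv_eq_inv] at ht ⊢
  push_cast
  field_simp

theorem U3_ne_zero : U3 K ≠ 0 := fun h => by
  have := ne_zero_of_mul_eq_lau K (U3_mul K) constantCoeff_P3
  rw [h, zero_mul] at this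
  exact this rfl

/-! ### Membership -/

theorem jqModC_mem_fullC (M : ℕ) : jqModC K ∈ modularFunctionFieldFullC K M := by
  have h := jqModCd_mem_full K M (one_dvd M)
  rwa [qExpand_one_apply] at h

theorem U2_mem (M : ℕ) (h2 : 2 ∣ M) : U2 K ∈ modularFunctionFieldFullC K M := by
  have hj := jqModC_mem_fullC K M
  have hk := jqModCd_mem_full K M h2
  rw [U2]
  exact sub_mem (sub_mem (sub_mem (mul_mem hj hk) (mul_mem (ofNat_mem _ 720) hj))
    (mul_mem (ofNat_mem _ 720) hk)) (ofNat_mem _ 16250625)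

theorem W2_mem (M : ℕ) (h2 : 2 ∣ M) : W2 K ∈ modularFunctionFieldFullC K M := by
  have hj := jqModC_mem_fullC K M
  have hk := jqModCd_mem_full K M h2
  rw [W2]
  exact add_mem (add_mem (add_mem (pow_mem hk 2) (mul_mem (ofNat_mem _ 4095) hj))
    (mul_mem (ofNat_mem _ 195120) hk)) (ofNat_mem _ 660960000)

/-- **`t₂ ∈ K(j_d : d ∣ M)` for `2 ∣ M`**, over every field `K`. -/
theorem t2_mem_fullC (M : ℕ) (h2 : 2 ∣ M) : t2 K ∈ modularFunctionFieldFullC K M := by
  have h : t2 K = W2 K / U2 K := by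
    rw [eq_div_iff (U2_ne_zero K), mul_comm]
    exact t2_lin K
  rw [h]
  exact div_mem (W2_mem K M h2) (U2_mem K M h2)

theorem U3_mem (M : ℕ) (h3 : 3 ∣ M) : U3 K ∈ modularFunctionFieldFullC K M := by
  have hj := jqModC_mem_fullC K M
  have hk := jqModCd_mem_full K M h3
  rw [U3]
  refine sub_mem (add_mem (add_mem (sub_mem (add_mem (sub_mem (add_mem (add_mem ?_ ?_) ?_) ?_)
    ?_) ?_) ?_) ?_) (ofNat_mem _ _)
  · exact mul_mem (mul_mem (ofNat_mem _ _) (pow_mem hj 2)) hk
  · exact mul_mem (mul_mem (ofNat_mem _ _) hj) (pow_mem hk 2)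
  · exact pow_mem hk 3
  · exact mul_mem (ofNat_mem _ _) (pow_mem hj 2)
  · exact mul_mem (mul_mem (ofNat_mem _ _) hj) hk
  · exact mul_mem (ofNat_mem _ _) (pow_mem hk 2)
  · exact mul_mem (ofNat_mem _ _) hj
  · exact mul_mem (ofNat_mem _ _) hk

theorem W3_mem (M : ℕ) (h3 : 3 ∣ M) : W3 K ∈ modularFunctionFieldFullC K M := by
  have hj := jqModC_mem_fullC K M
  have hk := jqModCd_mem_full K M h3
  rw [W3]
  refine add_mem (sub_mem (sub_mem (add_mem (add_mem (add_mem (sub_mem (add_mem ?_ ?_) ?_) ?_)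
    ?_) ?_) ?_) ?_) (ofNat_mem _ _)
  · exact mul_mem hj (pow_mem hk 3)
  · exact mul_mem (mul_mem (ofNat_mem _ _) hj) (pow_mem hk 2)
  · exact mul_mem (ofNat_mem _ _) (pow_mem hk 3)
  · exact mul_mem (ofNat_mem _ _) (pow_mem hj 2)
  · exact mul_mem (mul_mem (ofNat_mem _ _) hj) hk
  · exact mul_mem (ofNat_mem _ _) (pow_mem hk 2)
  · exact mul_mem (ofNat_mem _ _) hj
  · exact mul_mem (ofNat_mem _ _) hk

/-- **`t₃ ∈ K(j_d : d ∣ M)` for `3 ∣ M`**, over every field `K`. -/
theorem t3_mem_fullC (M : ℕ) (h3 : 3 ∣ M) : t3 K ∈ modularFunctionFieldFullC K M := by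
  have h : t3 K = W3 K / U3 K := by
    rw [eq_div_iff (U3_ne_zero K), mul_comm]
    exact t3_lin K
  rw [h]
  exact div_mem (W3_mem K M h3) (U3_mem K M h3)

end Field

/-- `t₂ ∈ ℚ(j_d : d ∣ M)` for `2 ∣ M`. -/
theorem t2_mem_full (M : ℕ) (h2 : 2 ∣ M) : t2 ℚ ∈ modularFunctionFieldFull M :=
  t2_mem_fullC ℚ M h2

/-- `t₃ ∈ ℚ(j_d : d ∣ M)` for `3 ∣ M`. -/
theorem t3_mem_full (M : ℕ) (h3 : 3 ∣ M) : t3 ℚ ∈ modularFunctionFieldFull M :=
  t3_mem_fullC ℚ M h3

end Fermat.Agent.Lib.Haupt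

end
end
-- ===== PACK-END Lib/Haupt/Member.lean

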