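import Mathlib
import Fermat.Agent.Pack.S36.E15L2
import Fermat.Agent.Pack.S36.E13L2
import Fermat.Agent.Pack.S36.E13L0
import Fermat.Agent.Pack.S36.E15L1
import Fermat.Agent.Pack.S36.E0L0
import Fermat.Agent.Pack.S36.E4L3
import Fermat.Agent.Pack.S36.E4L2
import Fermat.Agent.Pack.S36.E12L3
import Fermat.Agent.Pack.S36.E12L0
import Fermat.Agent.Pack.S36.E14L3
import Fermat.Agent.Pack.S36.E2L0
import Fermat.Agent.Pack.S36.E15L3
import Fermat.Agent.Pack.S36.E10L2
import Fermat.Agent.Pack.S36.E8L1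
import Fermat.Agent.Pack.S36.E10L0
import Fermat.Agent.Pack.S36.E9L3
import Fermat.Agent.Pack.S36.E3L2
import Fermat.Agent.Pack.S36.E14L2
import Fermat.Agent.Pack.S36.E11L3

-- ===== PACK-BEGIN S36/H36/Wired.lean
section
/-
S36 (helper36): the frozen statement S36, FULLY WIRED.

`result_of_inputs` : the frozen statement S36 (binders as in the template) from
* the six inputs of row S30 in the unfolded lattice form shared with rows S34 / S35
  (`Fermat/Agent/S34/H789/Inputs.lean`),
* `NewPartInertiaStatement` (the Carayol engine: bounded inertia invariants on the `q`-new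
  torsion at `q² ∥ M`),
* `S35.H991.ExclTateStatement` (the eigensystem of a newform does not occur at level `M / q`).
-/


set_option autoImplicit false

namespace Fermat.Agent.S36.H36

open Polynomial TensorProduct Fermat.Agent.S30.H990 Fermat.Agent.S35.H991

theorem result_of_inputs
    (hfin : ∀ (N p : ℕ) [NeZero N], p.Prime →
      Finite {x : ModularCurve.JZero N // (p : ℤ) • x = 0})
    (hsm : ∀ (N p : ℕ) [NeZero N], ∀ x : ModularCurve.JZero N,
      (∃ n : ℕ, ((p : ℤ) ^ n) • x = 0) →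
        ∃ L : IntermediateField ℚ (AlgebraicClosure ℚ), FiniteDimensional ℚ L ∧
          ∀ σ : GQ, (∀ y ∈ L, σ y = y) → σ • x = x)
    (hgeq : ∀ (N : ℕ) [NeZero N] (ℓ : Nat.Primes) (σ : GQ) (x : ModularCurve.JZero N),
      ModularCurve.heckeOperatorBar N ℓ (σ • x) = σ • ModularCurve.heckeOperatorBar N ℓ x)
    (hunr : ∀ (N p : ℕ) [NeZero N], ∀ q : ℕ, q.Prime → ¬ q ∣ N * p →
      ∀ A : ValuationSubring (AlgebraicClosure ℚ), A.LiesOverPrime q →
        ∀ σ ∈ A.inertiaSubgroupIn ℚ, ∀ x : ModularCurve.JZero N,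
          (∃ n : ℕ, ((p : ℤ) ^ n) • x = 0) → σ • x = x)
    (hes : ∀ (N p : ℕ) [NeZero N], ∀ (ℓ : ℕ) (hℓ : ℓ.Prime), ¬ ℓ ∣ N * p →
      ∀ A : ValuationSubring (AlgebraicClosure ℚ), A.LiesOverPrime ℓ →
        ∀ σ : GQ, A.IsFrobeniusAt σ ℓ → ∀ x : ModularCurve.JZero N,
          (∃ n : ℕ, ((p : ℤ) ^ n) • x = 0) →
            σ • σ • x - ModularCurve.heckeOperatorBar N ⟨ℓ, hℓ⟩ (σ • x) + (ℓ : ℤ) • x = 0)
    (hlat : ∀ (N p : ℕ) [NeZero N], p.Prime →
      ∃ (Λ : Type) (_ : AddCommGroup Λ) (_ : Module.Free ℤ Λ) (_ : Module.Finite ℤ Λ)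
        (TΛ : Nat.Primes → Λ →ₗ[ℤ] Λ) (κ : ℕ → Λ →ₗ[ℤ] ModularCurve.JZero N),
        (∀ (n : ℕ) (x : Λ), κ n x = 0 ↔ ∃ y : Λ, x = ((p : ℤ) ^ n) • y) ∧
        (∀ (n : ℕ) (x : Λ), (p : ℤ) • κ (n + 1) x = κ n x) ∧
        (∀ ℓ : Nat.Primes, ¬ (ℓ : ℕ) ∣ N * p → ∀ (n : ℕ) (x : Λ),
          κ n (TΛ ℓ x) = ModularCurve.heckeOperatorBar N ℓ (κ n x)) ∧
        (∀ (S : Set ℕ) (R : Type) [CommRing R] [IsDomain R] [CharZero R]
          (χ : CuspForm.heckeAlgebra N 2 S →+* R),
          ∃ v : R ⊗[ℤ] Λ, v ≠ 0 ∧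
            ∀ (ℓ : ℕ) (hℓ : ℓ.Prime) (hℓN : ¬ ℓ ∣ N) (hℓS : ℓ ∉ S),
              (TΛ ⟨ℓ, hℓ⟩).baseChange R v = χ (CuspForm.heckeAlgebra.T hℓ hℓN hℓS) • v))
    (hN : NewPartInertiaStatement) (hX : ExclTateStatement)
    {M : ℕ} [NeZero M] {g : CuspForm (CongruenceSubgroup.Gamma0 M) 2} (hg : g.IsNewform)
    (lam : ℕ) [Fact lam.Prime]
    (S : Finset ℕ)
    (O' : Type) [CommRing O'] [IsDomain O'] [IsDiscreteValuationRing O']
    [IsAdicComplete (IsLocalRing.maximalIdeal O') O'] [Finite (IsLocalRing.ResidueField O')]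
    [CharZero O'] (hlamO' : (lam : O') ∈ IsLocalRing.maximalIdeal O')
    (chig : CuspForm.heckeAlgebra M 2 (↑S : Set ℕ) →+* ℂ)
    (hchig : ∀ (ℓ : ℕ) (hℓ : ℓ.Prime) (hℓM : ¬ ℓ ∣ M) (hℓS : ℓ ∉ (↑S : Set ℕ)),
      chig (CuspForm.heckeAlgebra.T hℓ hℓM hℓS) = ModularFormClass.qCoeff g ℓ)
    (iota : chig.range →+* O')
    (hlamS : lam ∈ S) (hMS : ∀ q : ℕ, q.Prime → q ∣ M → q ∈ S) :
    ∃ (O'' : Type) (_ : CommRing O'') (_ : IsDomain O'') (_ : IsDiscreteValuationRing O'')
      (_ : IsAdicComplete (IsLocalRing.maximalIdeal O'') O'') (_ : Finite (IsLocalRing.ResidueField O''))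
      (_ : CharZero O'') (_ : Algebra O' O'') (_ : Module.Finite O' O'') (_ : IsLocalHom (algebraMap O' O'')),
      Function.Injective (algebraMap O' O'') ∧
      ∃ ρ : GaloisRepAdic O'',
        (∀ (ℓ : ℕ) (hℓ : ℓ.Prime) (hℓM : ¬ ℓ ∣ M) (hℓS : ℓ ∉ (↑S : Set ℕ)),
          ∀ A : ValuationSubring (AlgebraicClosure ℚ), A.LiesOverPrime ℓ →
            ∀ σ : AlgebraicClosure ℚ ≃ₐ[ℚ] AlgebraicClosure ℚ, A.IsFrobeniusAt σ ℓ →
              LinearMap.charpoly (ρ.ρ σ) =
                X ^ 2 - C (algebraMap O' O'' ((iota.comp chig.rangeRestrict) (CuspForm.heckeAlgebra.T hℓ hℓM hℓS))) * X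
                  + C ((ℓ : O''))) ∧
        (∀ q : ℕ, q.Prime → q ≠ lam → M.factorization q = 2 → ¬ ρ.IsUnipotentOnInertiaAt q) :=
  _root_.Fermat.Agent.S36.H36.result_of (hasNewformEigenModulesNoInv_of_inputs hfin hsm hgeq hunr hes hlat hN hX)
    hg lam S O' hlamO' chig hchig iota hlamS hMS

end Fermat.Agent.S36.H36

end
-- ===== PACK-END S36/H36/Wired.lean

-- ===== PACK-BEGIN S29/H882/MeroMain.lean
section




/-!
# S29 / MERO (helper882), part 3: good functions have `q`-expansions in the function field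

Main result `qexpFun_mem_FC`: for `f` holomorphic on `ℍ`, `Γ₀(N)`-invariant, with all
`SL₂(ℤ)`-translates of at most exponential growth at `i∞` (i.e. `f ∈ S24.H648.goodRing N`), the
`q`-expansion of `f` lies in `laurentBaseChange ℂ (modularFunctionFieldFull N)`, the function field
of `X₀(N)` over `ℂ` of the Prelude.

Proof: the field `MC N` generated by all such `q`-expansions has degree `≤ [SL₂(ℤ):Γ₀(N)]` over
`ℂ(j)` (conjugate product, landed S24), and contains `FC N`, which has degree `≥ [SL₂(ℤ):Γ₀(N)]`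
(landed S24 over `ℚ̄`, transported to `ℂ` by descent of relations).
-/

set_option autoImplicit false

noncomputable section

open UpperHalfPlane ModularGroup CongruenceSubgroup Polynomial ModularCurve IntermediateField
open scoped MatrixGroups Manifold Modular Real

namespace Fermat.Agent.S29.H882

open Fermat.Agent.S24 Fermat.Agent.S24.H648 Fermat.Agent.S24.H708 Fermat.Agent.S24.Deg457

section BaseChange

variable {K L : Type*} [Field K] [Algebra ℚ K] [Field L] [Algebra ℚ L]

/-- `coeffMap ι` maps the function field over `K` into the function field over `L`. -/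
theorem coeffMap_mem_laurentBaseChange_of_mem (ι : K →+* L)
    (F₀ : IntermediateField ℚ (LaurentSeries ℚ)) {x : LaurentSeries K}
    (hx : x ∈ laurentBaseChange K F₀) : coeffMap ι x ∈ laurentBaseChange L F₀ := by
  rw [mem_laurentBaseChange_iff] at hx
  induction hx using Subfield.closure_induction with
  | mem y hy =>
      rcases hy with ⟨a, rfl⟩ | ⟨z, hz, rfl⟩
      · rw [coeffMap_algebraMap']
        exact (laurentBaseChange L F₀).algebraMap_mem _
      · rw [coeffMap_coeffEmb']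
        exact coeffEmb_mem_laurentBaseChange L hz
  | one => simp
  | add x y _ _ hx hy => simpa using add_mem hx hy
  | neg x _ hx => simpa using neg_mem hx
  | inv x _ hx => simpa using inv_mem hx
  | mul x y _ _ hx hy => simpa using mul_mem hx hy

end BaseChange

variable (N : ℕ) [NeZero N]

/-- The function field of `X₀(N)` over `ℂ` (Prelude object). -/
abbrev FC : IntermediateField ℂ (LaurentSeries ℂ) :=
  laurentBaseChange ℂ (modularFunctionFieldFull N)

/-- The field generated by the `q`-expansions of good functions. -/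
def MC : IntermediateField ℂ (LaurentSeries ℂ) :=
  IntermediateField.adjoin ℂ (goodQ N : Set (LaurentSeries ℂ))

theorem goodQ_le_MC {b : LaurentSeries ℂ} (hb : b ∈ goodQ N) : b ∈ MC N :=
  IntermediateField.subset_adjoin ℂ _ hb

theorem JK_mem_FC : JK ℂ ∈ FC N :=
  coeffEmb_mem_laurentBaseChange ℂ (modularFunctionField_le_full N (jq_mem N))

theorem FC_le_MC : FC N ≤ MC N := by
  refine (laurentBaseChange_full_le (K := ℂ) N).trans ?_
  refine IntermediateField.adjoin.mono ℂ _ _ ?_
  intro b hb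
  exact AK_le_goodQ N (Algebra.subset_adjoin hb)

/-- `j` as an element of `MC N`. -/
def jM : MC N := ⟨JK ℂ, goodQ_le_MC N (JK_mem_goodQ N)⟩

theorem aeval_jM_ne_zero {t : ℂ[X]} (ht : t ≠ 0) :
    aeval (AdjoinSimple.gen ℂ (jM N)) t ≠ 0 := by
  intro h0
  apply aeval_JK_ne_zero ℂ ht
  have h1 := congrArg (algebraMap ↥(IntermediateField.adjoin ℂ {jM N}) (MC N)) h0
  rw [← aeval_algebraMap_apply, map_zero, AdjoinSimple.algebraMap_gen] at h1
  have h2 := congrArg (algebraMap (MC N) (LaurentSeries ℂ)) h1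
  rw [← aeval_algebraMap_apply, map_zero] at h2
  exact h2

theorem algebraMap_comp_aeval_jM :
    (algebraMap (MC N) (LaurentSeries ℂ)).comp
      ((aeval (jM N) : ℂ[X] →ₐ[ℂ] MC N).toRingHom) = evJ (JK ℂ) := by
  refine Polynomial.ringHom_ext ?_ ?_
  · intro c
    simp [evJ, ← IsScalarTower.algebraMap_apply]
  · simp [evJ]
    rfl

/-- **Degree bound**: `[MC N : ℂ(j)] ≤ [SL₂(ℤ) : Γ₀(N)]`. -/
theorem finiteDimensional_and_finrank_le_MC :
    FiniteDimensional ↥(IntermediateField.adjoin ℂ {jM N}) (MC N) ∧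
      Module.finrank ↥(IntermediateField.adjoin ℂ {jM N}) (MC N) ≤ Nat.card (XX N) := by
  refine finiteDimensional_and_finrank_le_of_forall_natDegree_minpoly_le _ fun x => ?_
  obtain ⟨Q, hQ0, hQn, hQ⟩ := algDeg_of_mem_adjoin (goodQ N) (JK_mem_goodQ N)
    (fun b hb => algDeg_of_mem_goodQ hb) x.2
  have hinc : Function.Injective (algebraMap (MC N) (LaurentSeries ℂ)) :=
    (algebraMap (MC N) (LaurentSeries ℂ)).injective
  refine isIntegral_and_natDegree_le_of_relation (K := ℂ)
    (AdjoinSimple.gen ℂ (jM N)) (fun t ht => aeval_jM_ne_zero N ht) x Q hQ0 _ hQn ?_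
  apply hinc
  rw [map_zero, Polynomial.hom_eval₂, AdjoinSimple.algebraMap_gen, algebraMap_comp_aeval_jM]
  exact hQ

end Fermat.Agent.S29.H882

end
end
-- ===== PACK-END S29/H882/MeroMain.lean

-- ===== PACK-BEGIN S24/Alg.lean
section





/-!
# S24 — algebraic side (Riemann–Hurwitz for `F / K(j)` from local embedding data)

Global assembly (helper984): the two frozen interface theorems
`exists_differential_ne_zero` and `degree_eq_of_localData`, proved from the sub-interface
in `Alg/Sub.lean`.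
-/

set_option autoImplicit false

noncomputable section

open AlgebraicCurve KaehlerDifferential

namespace Fermat.Agent.S24

variable {K F : Type*} [Field K] [Field F] [Algebra K F] [IsAlgClosed K] [CharZero K]
variable {C : Type*} [Field C] [CharZero C] {X : Type*} [Finite X]

omit [CharZero K] in
theorem exists_algebraMap_eq_of_isAlgebraic {x : F} (hx : IsAlgebraic K x) :
    ∃ c : K, algebraMap K F c = x := by
  have hint : IsIntegral K x := hx.isIntegral
  refine ⟨-(minpoly K x).coeff 0, ?_⟩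
  have hq : (minpoly K x).leadingCoeff = 1 := minpoly.monic hint
  have h : (minpoly K x).degree = 1 :=
    IsAlgClosed.degree_eq_one_of_irreducible K (minpoly.irreducible hint)
  have : Polynomial.aeval x (minpoly K x) = 0 := minpoly.aeval K x
  rw [Polynomial.eq_X_add_C_of_degree_eq_one h, hq, Polynomial.C_1, one_mul,
    Polynomial.aeval_add, Polynomial.aeval_X, Polynomial.aeval_C,
    add_eq_zero_iff_eq_neg] at this
  exact (map_neg (algebraMap K F) ((minpoly K x).coeff 0)).symm ▸ this.symm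

omit [IsAlgClosed K] [CharZero K] [CharZero C] [Finite X] in
theorem not_mem_range_of_localData {t : F} [Nonempty X] (d : LocalData K F C X t) (c : K) :
    t ≠ algebraMap K F c := by
  intro h
  obtain ⟨x⟩ := ‹Nonempty X›
  have h1 := d.σ_t_order x
  have h3 : d.σ x t = HahnSeries.C (d.ι c) := (congrArg (d.σ x) h).trans (d.σ_const x c)
  rw [h3] at h1
  have h2 : (HahnSeries.C (d.ι c) : LaurentSeries C).order = 0 := by
    rw [HahnSeries.C_apply]
    by_cases hc : d.ι c = 0
    · simp [hc]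
    · exact HahnSeries.order_single hc
  rw [h2] at h1
  have := d.m_pos
  omega

omit [CharZero K] [CharZero C] [Finite X] in
theorem transcendental_of_localData_inv (j : F) [Nonempty X]
    (dataInf : LocalData K F C X j⁻¹) : Transcendental K j := by
  intro halg
  obtain ⟨c, hc⟩ := exists_algebraMap_eq_of_isAlgebraic halg
  refine not_mem_range_of_localData dataInf c⁻¹ ?_
  rw [map_inv₀, hc]

omit [Finite X] in
theorem numOrbits_one : numOrbits (1 : Equiv.Perm X) = Nat.card X := by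
  unfold numOrbits
  refine Nat.card_congr (Equiv.ofBijective (Quotient.mk'' (s₁ := MulAction.orbitRel _ X)) ?_).symm
  constructor
  · intro x y hxy
    have h := Quotient.exact' hxy
    change x ∈ MulAction.orbit _ y at h
    obtain ⟨⟨g, hg⟩, hgx⟩ := h
    rw [Subgroup.zpowers_one_eq_bot, Subgroup.mem_bot] at hg
    subst hg
    simpa using hgx.symm
  · exact Quotient.mk''_surjective

end Fermat.Agent.S24

namespace Fermat.Agent.S24

variable {K F : Type*} [Field K] [Field F] [Algebra K F] [IsAlgClosed K] [CharZero K]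
variable {C : Type*} [Field C] [CharZero C] {X : Type*} [Finite X]

omit [IsAlgClosed K] [CharZero K] [Finite X] in
/-- `dt ≠ 0` if there is local data at `t` (helper240). -/
theorem D_ne_zero_of_localData {t : F} [Nonempty X] (d : LocalData K F C X t) :
    D K F t ≠ 0 := by
  obtain ⟨x⟩ := ‹Nonempty X›
  apply H240.exists_embDerivation (d.σ x) d.ι (d.σ_const x)
  apply H240.lsD_ne_zero_of_order_ne_zero
  rw [d.σ_t_order x]
  exact_mod_cast d.m_pos.ne'

omit [IsAlgClosed K] [CharZero K] [Finite X] in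
/-- If `F` admits local data at `j⁻¹`, then `Ω[F/K] ≠ 0` (helper240). -/
theorem exists_differential_ne_zero (j : F) [Nonempty X]
    (dataInf : LocalData K F C X j⁻¹) :
    ∃ ω : Ω[F⁄K], ω ≠ 0 :=
  ⟨D K F j⁻¹, D_ne_zero_of_localData dataInf⟩

section LocalConsequences

variable (t : F) [FiniteDimensional ↥(IntermediateField.adjoin K {t}) F]
  (hrank : Module.finrank ↥(IntermediateField.adjoin K {t}) F = Nat.card X)
  (d : LocalData K F C X t)

include hrank d in
theorem zeroPlaces_finite : (zeroPlaces K t).Finite := (sub_local_count t hrank d).1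

include hrank in
theorem card_zeroPlaces_toFinset :
    ((zeroPlaces_finite t hrank d).toFinset.card : ℤ) = numOrbits d.perm := by
  have h := (sub_local_count t hrank d).2.1
  rw [Nat.card_coe_set_eq, Set.ncard_eq_toFinset_card _ (zeroPlaces_finite t hrank d)] at h
  exact_mod_cast h

include hrank in
theorem sum_ord_zeroPlaces :
    ∑ v ∈ (zeroPlaces_finite t hrank d).toFinset, v.ord t = (Nat.card X : ℤ) := by
  have h := (sub_local_count t hrank d).2.2
  rwa [finsum_mem_eq_finite_toFinset_sum _ (zeroPlaces_finite t hrank d)] at h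

include hrank in
theorem sum_ord_sub_one_zeroPlaces :
    ∑ v ∈ (zeroPlaces_finite t hrank d).toFinset, (v.ord t - 1)
      = (Nat.card X : ℤ) - numOrbits d.perm := by
  rw [Finset.sum_sub_distrib, sum_ord_zeroPlaces t hrank d, Finset.sum_const,
    ← card_zeroPlaces_toFinset t hrank d]
  simp

include hrank in
theorem sum_neg_ord_sub_one_zeroPlaces :
    ∑ v ∈ (zeroPlaces_finite t hrank d).toFinset, (-(v.ord t) - 1)
      = -(Nat.card X : ℤ) - numOrbits d.perm := by
  rw [Finset.sum_sub_distrib, Finset.sum_neg_distrib, sum_ord_zeroPlaces t hrank d,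
    Finset.sum_const, ← card_zeroPlaces_toFinset t hrank d]
  simp

include hrank in
/-- If the monodromy is trivial, `t` is unramified: every zero of `t` is simple. -/
theorem ord_eq_one_of_perm_eq_one (hperm : d.perm = 1) (v : Place K F) (hv : 0 < v.ord t) :
    v.ord t = 1 := by
  have hsum := sum_ord_sub_one_zeroPlaces t hrank d
  rw [hperm, numOrbits_one, sub_self] at hsum
  have hnonneg : ∀ w ∈ (zeroPlaces_finite t hrank d).toFinset, 0 ≤ w.ord t - 1 := by
    intro w hw
    have : 0 < w.ord t := by simpa [zeroPlaces] using hw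
    omega
  have hz := (Finset.sum_eq_zero_iff_of_nonneg hnonneg).mp hsum v
    (by simpa [zeroPlaces] using hv)
  omega

end LocalConsequences

section Global

variable (j : F) [FiniteDimensional ↥(IntermediateField.adjoin K {j}) F]
  (hrank : Module.finrank ↥(IntermediateField.adjoin K {j}) F = Nat.card X)

include hrank in
/-- Local package at a finite point, with all instance transport done. -/
theorem local_fin (a : K) (d : LocalData K F C X (j - algebraMap K F a)) :
    ∃ Z : Finset (Place K F), (∀ v : Place K F, v ∈ Z ↔ 0 < v.ord (j - algebraMap K F a)) ∧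
      ∑ v ∈ Z, (v.ord (j - algebraMap K F a) - 1) = (Nat.card X : ℤ) - numOrbits d.perm ∧
      (∀ v : Place K F, 0 < v.ord (j - algebraMap K F a) →
        v.ordDifferential (D K F (j - algebraMap K F a)) = v.ord (j - algebraMap K F a) - 1) ∧
      (d.perm = 1 → ∀ v : Place K F, 0 < v.ord (j - algebraMap K F a) →
        v.ord (j - algebraMap K F a) = 1) := by
  obtain ⟨hfd, hfr⟩ := finiteDimensional_and_finrank_of_eq (adjoin_sub_algebraMap K j a)
  have hr := hfr.trans hrank
  refine ⟨(zeroPlaces_finite _ hr d).toFinset, fun v => by simp [zeroPlaces],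
    sum_ord_sub_one_zeroPlaces _ hr d, fun v hv => sub_ordDifferential_D _ hr d v hv,
    fun h v hv => ord_eq_one_of_perm_eq_one _ hr d h v hv⟩

include hrank in
/-- Local package at infinity, with all instance transport done. -/
theorem local_inf (d : LocalData K F C X j⁻¹) :
    ∃ Z : Finset (Place K F), (∀ v : Place K F, v ∈ Z ↔ 0 < v.ord j⁻¹) ∧
      ∑ v ∈ Z, (-(v.ord j⁻¹) - 1) = -(Nat.card X : ℤ) - numOrbits d.perm ∧
      (∀ v : Place K F, 0 < v.ord j⁻¹ → v.ordDifferential (D K F j⁻¹) = v.ord j⁻¹ - 1) := by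
  obtain ⟨hfd, hfr⟩ := finiteDimensional_and_finrank_of_eq (adjoin_inv K j)
  have hr := hfr.trans hrank
  exact ⟨(zeroPlaces_finite _ hr d).toFinset, fun v => by simp [zeroPlaces],
    sum_neg_ord_sub_one_zeroPlaces _ hr d, fun v hv => sub_ordDifferential_D _ hr d v hv⟩

omit [IsAlgClosed K] [CharZero K] in
theorem degree_eq_sum_of_deg_one (hdeg : ∀ v : Place K F, v.deg = 1) (E : Divisor K F)
    (T : Finset (Place K F)) (hT : E.support ⊆ T) :
    Divisor.degree E = ∑ v ∈ T, E v := by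
  have h1 : Divisor.degree E = E.sum fun v n => n * (v.deg : ℤ) := by
    simp [Divisor.degree, Finsupp.liftAddHom_apply]
  rw [h1, Finsupp.sum_of_support_subset E hT _ (fun v _ => by simp)]
  refine Finset.sum_congr rfl fun v _ => ?_
  rw [hdeg v]; simp

include hrank in
/-- **Riemann–Hurwitz from embeddings.**  Degree of the divisor of any nonzero differential. -/
theorem degree_eq_of_localData
    (dataFin : ∀ a : K, LocalData K F C X (j - algebraMap K F a))
    (dataInf : LocalData K F C X j⁻¹)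
    (S₀ : Finset K) (hgen : ∀ a : K, a ∉ S₀ → (dataFin a).perm = 1)
    (ω : Ω[F⁄K]) (hω : ω ≠ 0) (E : Divisor K F)
    (hE : ∀ v : Place K F, E v = v.ordDifferential ω) :
    Divisor.degree E =
      (∑ a ∈ S₀, ((Nat.card X : ℤ) - numOrbits (dataFin a).perm))
        - Nat.card X - numOrbits dataInf.perm := by
  classical
  have hpos : 0 < Nat.card X := hrank ▸ Module.finrank_pos
  have hne : Nonempty X := (Nat.card_pos_iff.mp hpos).1
  have hj : Transcendental K j := transcendental_of_localData_inv j dataInf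
  have hj0 : j ≠ 0 := fun h => hj (h ▸ isAlgebraic_zero)
  have hdeg : ∀ v : Place K F, v.deg = 1 := sub_deg_eq_one j hj
  -- `ω = f • dj`
  obtain ⟨f, rfl⟩ := sub_exists_smul_D j ω
  have hf : f ≠ 0 := by rintro rfl; simp at hω
  have hDinv : D K F j = (-(j ^ 2)) • D K F j⁻¹ := by
    have h := Derivation.leibniz_inv (D K F) (j⁻¹)
    rw [inv_inv] at h
    exact h
  have hDjinv : D K F j⁻¹ ≠ 0 := D_ne_zero_of_localData dataInf
  have hc : (-(j ^ 2)) ≠ 0 := neg_ne_zero.mpr (pow_ne_zero 2 hj0)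
  have hDj : D K F j ≠ 0 := by
    rw [hDinv]
    exact smul_ne_zero hc hDjinv
  -- local packages
  choose Zf hZf_mem hZf_sum hZf_ord hZf_unr using fun a => local_fin j hrank a (dataFin a)
  obtain ⟨Zi, hZi_mem, hZi_sum, hZi_ord⟩ := local_inf j hrank dataInf
  -- the ramification function
  set R : Place K F → ℤ := fun v => v.ordDifferential (D K F j) with hR
  have hDv : ∀ v : Place K F, E v = v.ord f + R v := fun v => by
    rw [hE, sub_ordDifferential_smul j v f hf _ hDj]
  have hRfin : ∀ (a : K) (v : Place K F), 0 < v.ord (j - algebraMap K F a) →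
      R v = v.ord (j - algebraMap K F a) - 1 := by
    intro a v hv
    have : D K F (j - algebraMap K F a) = D K F j := by simp
    rw [← hZf_ord a v hv, this]
  have hRinf : ∀ v : Place K F, 0 < v.ord j⁻¹ → R v = -(v.ord j⁻¹) - 1 := by
    intro v hv
    show v.ordDifferential (D K F j) = _
    rw [hDinv, sub_ordDifferential_smul j v _ hc _ hDjinv, hZi_ord v hv, ord_neg, pow_two,
      v.ord_mul hj0 hj0]
    have := v.ord_inv j
    omega
  -- the finite set of special places
  set T : Finset (Place K F) := S₀.biUnion Zf ∪ Zi with hT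
  have hRT : ∀ v : Place K F, R v ≠ 0 → v ∈ T := by
    intro v hv
    rcases sub_exists_point j v with h | ⟨a, ha⟩
    · refine Finset.mem_union_right _ ((hZi_mem v).mpr ?_)
      have := v.ord_inv j
      omega
    · by_cases haS : a ∈ S₀
      · exact Finset.mem_union_left _ (Finset.mem_biUnion.mpr ⟨a, haS, (hZf_mem a v).mpr ha⟩)
      · exfalso
        apply hv
        rw [hRfin a v ha, hZf_unr a (hgen a haS) v ha]
        simp
  let Rfs : Divisor K F := Finsupp.onFinset T R hRT
  have hRfs : ∀ v : Place K F, Rfs v = R v := fun v => rfl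
  have hprinc : Divisor.degree (E - Rfs) = 0 :=
    sub_degree_principal j hj f hf (E - Rfs) fun v => by
      rw [Finsupp.sub_apply, hRfs, hDv]; ring
  have hsplit : Divisor.degree E = Divisor.degree Rfs := by
    have := map_sub (Divisor.degree (K := K) (F := F)) E Rfs
    rw [hprinc] at this
    linarith
  rw [hsplit, degree_eq_sum_of_deg_one hdeg Rfs T Finsupp.support_onFinset_subset]
  simp only [hRfs]
  -- split the sum
  have hdisj1 : Disjoint (S₀.biUnion Zf) Zi := by
    rw [Finset.disjoint_left]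
    intro v hv hvi
    obtain ⟨a, -, hva⟩ := Finset.mem_biUnion.mp hv
    exact not_pos_ord_sub_of_pos_ord_inv v j a ((hZi_mem v).mp hvi) ((hZf_mem a v).mp hva)
  have hdisj2 : (S₀ : Set K).PairwiseDisjoint Zf := by
    intro a _ b _ hab
    rw [Function.onFun, Finset.disjoint_left]
    intro v hva hvb
    exact hab (point_unique v j ((hZf_mem a v).mp hva) ((hZf_mem b v).mp hvb))
  rw [hT, Finset.sum_union hdisj1, Finset.sum_biUnion hdisj2]
  have h1 : ∀ a ∈ S₀, ∑ v ∈ Zf a, R v = (Nat.card X : ℤ) - numOrbits (dataFin a).perm := by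
    intro a _
    rw [← hZf_sum a]
    exact Finset.sum_congr rfl fun v hv => hRfin a v ((hZf_mem a v).mp hv)
  have h2 : ∑ v ∈ Zi, R v = -(Nat.card X : ℤ) - numOrbits dataInf.perm := by
    rw [← hZi_sum]
    exact Finset.sum_congr rfl fun v hv => hRinf v ((hZi_mem v).mp hv)
  rw [Finset.sum_congr rfl h1, h2]
  ring

end Global

end Fermat.Agent.S24

end
end
-- ===== PACK-END S24/Alg.lean

-- ===== PACK-BEGIN S29/H389/Dict.lean
section





/-!
# S29 / layer M / BR — piece DICT (helper389)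

Places dictionary for the function field `FF N = ℚ̄(j(q^d) : d ∣ N)` of `X₀(N)`, on top of the
landed S24 library (`H997.analyticCore`, `H117` local theorem).

Main result `dvd_ord_of_analytic_pow` : let `r, t ∈ R_N = ℚ̄[j(q^d)]`, and let `h₁, h₂` be
functions in the S24 ring `Hol` with `e(r) · h₂ ^ p = c · h₁ ^ p · e(t)` (`e` the bridge
`R_N → Hol`), such that the quotient `h₁ / h₂` is invariant under every `δ ∈ Γ₀(N)` which has
finite order or trace `2`.  Then `p ∣ ord_v (r / t)` for EVERY place `v` of `FF N`.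

(Intended use: `h₁/h₂ = h·u` with `h` a twisted Eisenstein quotient of character `χ`, `χ` trivial
on elliptic and parabolic elements, and `u` a modular function; `r / t` the Kummer generator.)
-/

set_option autoImplicit false
set_option linter.style.haveILetI false

noncomputable section

open AlgebraicCurve HahnSeries ModularCurve
open scoped MatrixGroups

namespace Fermat.Agent.S29.H389

open Fermat.Agent.S24 Fermat.Agent.S24.H997

variable {N : ℕ} [NeZero N]

/-- Iterating the rotation data: precomposition with `ε ^ n`. -/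
theorem rot_iter (B : HolBase N) (X : Expansion B) (ε : SL(2, ℤ)) (R : RotData B X ε)
    (n : ℕ) (h : B.Hol) :
    (X.E (B.compH (ε ^ n) h)).order = (X.E h).order ∧
      (X.E (B.compH (ε ^ n) h)).leadingCoeff
        = (R.ζ ^ (X.E h).order) ^ n * (X.E h).leadingCoeff := by
  induction n with
  | zero => simp [B.compH_one]
  | succ n ih =>
    have hstep : B.compH (ε ^ (n + 1)) h = B.compH ε (B.compH (ε ^ n) h) := by
      rw [pow_succ, B.compH_mul]
    have hr := R.rot (B.compH (ε ^ n) h)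
    rw [hstep]
    refine ⟨by rw [hr.1, ih.1], ?_⟩
    rw [hr.2, ih.1, ih.2, pow_succ]
    ring


/-! ### Small facts on Laurent series over `ℂ` -/

theorem ls_order_mul {a b : LaurentSeries ℂ} (ha : a ≠ 0) (hb : b ≠ 0) :
    (a * b).order = a.order + b.order :=
  order_mul_of_ne_zero
    (mul_ne_zero (leadingCoeff_ne_zero.mpr ha) (leadingCoeff_ne_zero.mpr hb))

theorem ls_order_pow {a : LaurentSeries ℂ} (ha : a ≠ 0) (n : ℕ) :
    (a ^ n).order = n * a.order := by
  induction n with
  | zero => simp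
  | succ n ih =>
    rw [pow_succ, ls_order_mul (pow_ne_zero n ha) ha, ih]
    push_cast
    ring

theorem ls_order_C {c : ℂ} : (HahnSeries.C c : LaurentSeries ℂ).order = 0 := order_C

/-! ### "Nice" elements: finite order or trace `2` -/

/-- An element of `SL(2,ℤ)` of finite order, or of trace `2`. -/
def Nice (δ : SL(2, ℤ)) : Prop :=
  IsOfFinOrder δ ∨ (δ : Matrix (Fin 2) (Fin 2) ℤ).trace = 2

theorem Nice.conj {δ : SL(2, ℤ)} (h : Nice δ) (g : SL(2, ℤ)) : Nice (g⁻¹ * δ * g) := by
  rcases h with h | h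
  · left
    rw [isOfFinOrder_iff_pow_eq_one] at h ⊢
    obtain ⟨n, hn, hδ⟩ := h
    refine ⟨n, hn, ?_⟩
    have : (g⁻¹ * δ * g) ^ n = g⁻¹ * δ ^ n * g := by
      have := conj_pow (a := g⁻¹) (b := δ) (i := n)
      simpa using this
    rw [this, hδ]
    simp
  · right
    have h1 : ((g⁻¹ * δ * g : SL(2, ℤ)) : Matrix (Fin 2) (Fin 2) ℤ)
        = (g⁻¹ : SL(2, ℤ)).1 * δ.1 * g.1 := by
      simp
    rw [h1, Matrix.trace_mul_comm, ← mul_assoc]
    have h2 : g.1 * (g⁻¹ : SL(2, ℤ)).1 = 1 := by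
      rw [← Matrix.SpecialLinearGroup.coe_mul, mul_inv_cancel,
        Matrix.SpecialLinearGroup.coe_one]
    rw [h2, one_mul]
    exact h

/-! ### The local statement -/

/-- **DICT, local form.**  For the local data built from an expansion with rotation data,
an analytic `p`-th power relation whose root is invariant under nice elements of `Γ₀(N)`
forces `p ∣ ord_v` at every place over `t = 0`. -/
theorem dvd_ord_mkLocalData (B : HolBase N) (X : Expansion B) (ε : SL(2, ℤ))
    (R : RotData B X ε) (t : FF N) (u : LaurentSeries ℂ)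
    (ht : ∀ g : SL(2, ℤ), B.sigmaG X g t = u) (hu : u.order = (R.m : ℤ))
    [FiniteDimensional ↥(IntermediateField.adjoin Kbar {t}) (FF N)]
    (hrank : Module.finrank ↥(IntermediateField.adjoin Kbar {t}) (FF N) = Nat.card (XX N))
    (hε : ∀ n : ℕ, Nice (ε ^ n))
    (p : ℕ) (r s : RN N) (hr : r ≠ 0) (hs : s ≠ 0) (h₁ h₂ : B.Hol) (hh₁ : h₁ ≠ 0)
    (hh₂ : h₂ ≠ 0) (c : ℂ) (hc : c ≠ 0)
    (hrel : B.bridge r * h₂ ^ p = B.constH c * h₁ ^ p * B.bridge s)
    (hinv : ∀ δ : SL(2, ℤ), δ ∈ CongruenceSubgroup.Gamma0 N → Nice δ →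
      B.compH δ h₁ * h₂ = h₁ * B.compH δ h₂)
    (v : Place Kbar (FF N)) (hv : 0 < v.ord t) :
    (p : ℤ) ∣ v.ord (inclRN N r / inclRN N s) := by
  classical
  set L := B.mkLocalData X ε R t u ht hu with hL
  obtain ⟨x, hx⟩ :=
    H117.exists_placeOf_eq L (IntermediateField.adjoin Kbar {t}) le_rfl hrank v hv
  obtain ⟨g, rfl⟩ := QuotientGroup.mk_surjective x
  have hσ : L.σ (g : XX N) = B.sigmaG X g := B.sigmaX_mk X g
  -- translated functions
  set h₁' := B.compH g⁻¹ h₁ with hh₁'
  set h₂' := B.compH g⁻¹ h₂ with hh₂'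
  have hE₁ : X.E h₁' ≠ 0 := by
    intro h0
    apply hh₁
    apply B.compH_injective g⁻¹
    apply X.inj
    rw [h0, map_zero, map_zero]
  have hE₂ : X.E h₂' ≠ 0 := by
    intro h0
    apply hh₂
    apply B.compH_injective g⁻¹
    apply X.inj
    rw [h0, map_zero, map_zero]
  set k₁ := (X.E h₁').order with hk₁
  set k₂ := (X.E h₂').order with hk₂
  -- the relation, expanded
  have hrel' : B.sigmaG X g (inclRN N r) * (X.E h₂') ^ p
      = HahnSeries.C c * (X.E h₁') ^ p * B.sigmaG X g (inclRN N s) := by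
    rw [B.sigmaG_inclRN, B.sigmaG_inclRN]
    have := congrArg (fun z => X.E (B.compH g⁻¹ z)) hrel
    simp only [map_mul, map_pow, B.compH_constH, X.const] at this
    exact this
  have hr' : inclRN N r ≠ 0 := fun h => hr (inclRN_injective N (by rw [h, map_zero]))
  have hs' : inclRN N s ≠ 0 := fun h => hs (inclRN_injective N (by rw [h, map_zero]))
  have hσr : B.sigmaG X g (inclRN N r) ≠ 0 := (map_ne_zero _).mpr hr'
  have hσs : B.sigmaG X g (inclRN N s) ≠ 0 := (map_ne_zero _).mpr hs'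
  have hC : (HahnSeries.C c : LaurentSeries ℂ) ≠ 0 := by
    intro h0
    apply hc
    have := congrArg (fun z : LaurentSeries ℂ => z.coeff 0) h0
    simpa using this
  have hord : (B.sigmaG X g (inclRN N r / inclRN N s)).order = (p : ℤ) * (k₁ - k₂) := by
    have h1 := congrArg HahnSeries.order hrel'
    rw [ls_order_mul hσr (pow_ne_zero p hE₂), ls_order_pow hE₂,
      ls_order_mul (mul_ne_zero hC (pow_ne_zero p hE₁)) hσs,
      ls_order_mul hC (pow_ne_zero p hE₁), ls_order_pow hE₁, ls_order_C] at h1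
    rw [map_div₀, div_eq_mul_inv, ls_order_mul hσr (inv_ne_zero hσs),
      RotRel.order_inv' hσs]
    linarith
  -- multiplicity
  have hmult := H117.order_eq L (g : XX N) (inclRN N r / inclRN N s)
  rw [hσ, hord, hx] at hmult
  -- orbit length
  have hfin := H117.finite_places_over L (IntermediateField.adjoin Kbar {t}) le_rfl hrank
  have hS : ∀ w : Place Kbar (FF N), w ∈ hfin.toFinset ↔ 0 < w.ord t := fun w => by
    simp
  have hsum := H144.loc_fundamental_inequality L hfin.toFinset hS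
  obtain ⟨-, horb, -⟩ :=
    H117.localThm L (IntermediateField.adjoin Kbar {t}) le_rfl hrank hfin.toFinset hS hsum
  have hn := horb (g : XX N)
  rw [hx] at hn
  set n := Nat.card (MulAction.orbit (Subgroup.zpowers L.perm) (g : XX N)) with hn_def
  have hnpos : 0 < n := by
    have : (0 : ℤ) < n := by rw [hn]; exact hv
    exact_mod_cast this
  -- `perm ^ n` fixes `x`
  have hper : (L.perm ^ n) (g : XX N) = (g : XX N) := by
    letI : Fintype (MulAction.orbit (Subgroup.zpowers L.perm) (g : XX N)) :=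
      Fintype.ofFinite _
    have h1 : Function.minimalPeriod (L.perm • ·) (g : XX N) = n := by
      rw [MulAction.minimalPeriod_eq_card, hn_def, Nat.card_eq_fintype_card]
    have h2 := Function.isPeriodicPt_minimalPeriod (L.perm • ·) (g : XX N)
    rw [h1] at h2
    have h3 : ((L.perm • ·) : XX N → XX N) = ⇑L.perm := rfl
    rw [h3] at h2
    have h4 : (⇑L.perm)^[n] (g : XX N) = (g : XX N) := h2
    rw [Equiv.Perm.iterate_eq_pow] at h4
    exact h4
  -- the element `δ = g⁻¹ ε ^ n g` of `Γ₀(N)`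
  have hperm_pow : (L.perm ^ n) (g : XX N) = (((ε⁻¹) ^ n * g : SL(2, ℤ)) : XX N) := by
    have h1 : L.perm = permOf N ε⁻¹ := rfl
    rw [h1]
    have h2 : (permOf N ε⁻¹) ^ n = permOf N ((ε⁻¹) ^ n) := by
      unfold permOf
      exact (map_pow (MulAction.toPermHom SL(2, ℤ) (XX N)) ε⁻¹ n).symm
    rw [h2]
    rfl
  have hδmem : g⁻¹ * ε ^ n * g ∈ CongruenceSubgroup.Gamma0 N := by
    have h1 := hper
    rw [hperm_pow] at h1
    have h2 := QuotientGroup.eq.mp h1
    have h3 : ((ε⁻¹) ^ n * g)⁻¹ * g = g⁻¹ * ε ^ n * g := by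
      rw [mul_inv_rev, inv_pow, inv_inv]
    rwa [h3] at h2
  have hδnice : Nice (g⁻¹ * ε ^ n * g) := (hε n).conj g
  have hinv' := hinv _ hδmem hδnice
  -- transport by `g⁻¹`
  have hcomp : ∀ h : B.Hol, B.compH g⁻¹ (B.compH (g⁻¹ * ε ^ n * g) h)
      = B.compH (ε ^ n) (B.compH g⁻¹ h) := by
    intro h
    rw [← B.compH_mul, ← B.compH_mul]
    congr 1
    group
  have hrot : B.compH (ε ^ n) h₁' * h₂' = h₁' * B.compH (ε ^ n) h₂' := by
    have := congrArg (B.compH g⁻¹) hinv'
    rw [map_mul, map_mul, hcomp, hcomp] at this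
    exact this
  have hlc := congrArg (fun z => (X.E z).leadingCoeff) hrot
  simp only [map_mul, leadingCoeff_mul] at hlc
  rw [(rot_iter B X ε R n h₁').2, (rot_iter B X ε R n h₂').2] at hlc
  have hl₁ : (X.E h₁').leadingCoeff ≠ 0 := leadingCoeff_ne_zero.mpr hE₁
  have hl₂ : (X.E h₂').leadingCoeff ≠ 0 := leadingCoeff_ne_zero.mpr hE₂
  have hζ0 : R.ζ ≠ 0 := R.hζ.ne_zero R.m_pos.ne'
  have hζeq : (R.ζ ^ k₁) ^ n = (R.ζ ^ k₂) ^ n := by
    have h1 : (R.ζ ^ k₁) ^ n * ((X.E h₁').leadingCoeff * (X.E h₂').leadingCoeff)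
        = (R.ζ ^ k₂) ^ n * ((X.E h₁').leadingCoeff * (X.E h₂').leadingCoeff) := by
      linear_combination hlc
    exact mul_right_cancel₀ (mul_ne_zero hl₁ hl₂) h1
  have hζ1 : R.ζ ^ ((n : ℤ) * (k₁ - k₂)) = 1 := by
    have h1 : R.ζ ^ ((n : ℤ) * k₁) = R.ζ ^ ((n : ℤ) * k₂) := by
      rw [mul_comm (n : ℤ) k₁, mul_comm (n : ℤ) k₂, zpow_mul, zpow_mul, zpow_natCast,
        zpow_natCast]
      exact hζeq
    rw [mul_sub, zpow_sub₀ hζ0, h1]
    exact div_self (zpow_ne_zero _ hζ0)
  have hdvd : ((R.m : ℕ) : ℤ) ∣ (n : ℤ) * (k₁ - k₂) := (R.hζ.zpow_eq_one_iff_dvd _).mp hζ1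
  have hmm := H117.mult_mul_ord_t L (g : XX N)
  rw [hx, ← hn] at hmm
  have hLm : L.m = R.m := rfl
  rw [hLm] at hmm
  rw [← hmm] at hdvd
  have hn0 : (n : ℤ) ≠ 0 := by exact_mod_cast hnpos.ne'
  have hdvd' : (H117.mult L (g : XX N) : ℤ) ∣ (k₁ - k₂) := by
    rw [mul_comm] at hdvd
    exact (mul_dvd_mul_iff_left hn0).mp hdvd
  obtain ⟨q, hq⟩ := hdvd'
  refine ⟨q, ?_⟩
  have hm0 : (H117.mult L (g : XX N) : ℤ) ≠ 0 := by
    exact_mod_cast (H117.mult_pos L (g : XX N)).ne'
  rw [hq] at hmult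
  have : (H117.mult L (g : XX N) : ℤ) * ((p : ℤ) * q)
      = (H117.mult L (g : XX N) : ℤ) * v.ord (inclRN N r / inclRN N s) := by
    rw [← hmult]; ring
  exact (mul_left_cancel₀ hm0 this).symm


/-! ### Nice powers of the four rotation elements -/

theorem nice_pow_one (n : ℕ) : Nice ((1 : SL(2, ℤ)) ^ n) := by
  left
  rw [one_pow]
  exact IsOfFinOrder.one

theorem S_pow_four : ModularGroup.S ^ 4 = 1 := by
  apply Subtype.ext
  simp only [Matrix.SpecialLinearGroup.coe_pow, Matrix.SpecialLinearGroup.coe_one,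
    ModularGroup.coe_S]
  ext i j
  fin_cases i <;> fin_cases j <;> simp [pow_succ, Matrix.mul_apply, Fin.sum_univ_two]

theorem ST_pow_six : (ModularGroup.S * ModularGroup.T) ^ 6 = 1 := by
  apply Subtype.ext
  simp only [Matrix.SpecialLinearGroup.coe_pow, Matrix.SpecialLinearGroup.coe_mul,
    Matrix.SpecialLinearGroup.coe_one, ModularGroup.coe_S, ModularGroup.coe_T]
  ext i j
  fin_cases i <;> fin_cases j <;> simp [pow_succ, Matrix.mul_apply, Fin.sum_univ_two]

theorem nice_pow_S (n : ℕ) : Nice (ModularGroup.S ^ n) := by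
  left
  exact (isOfFinOrder_iff_pow_eq_one.mpr ⟨4, by norm_num, S_pow_four⟩).pow

theorem nice_pow_ST (n : ℕ) : Nice ((ModularGroup.S * ModularGroup.T) ^ n) := by
  left
  exact (isOfFinOrder_iff_pow_eq_one.mpr ⟨6, by norm_num, ST_pow_six⟩).pow

theorem nice_pow_T (n : ℕ) : Nice (ModularGroup.T ^ n) := by
  right
  have h := ModularGroup.coe_T_zpow (n : ℤ)
  rw [zpow_natCast] at h
  show (ModularGroup.T ^ n).1.trace = 2
  rw [h]
  simp [Matrix.trace_fin_two]

/-! ### The global statement -/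

/-- **DICT.**  Let `A` be an analytic core for level `N` (e.g. `S24.H997.analyticCore N`), let
`r, s ∈ R_N` be nonzero and `h₁, h₂ ∈ Hol` nonzero with `e(r) · h₂ ^ p = c · h₁ ^ p · e(s)`,
`c ≠ 0`, and suppose `h₁ / h₂` is invariant under every element of `Γ₀(N)` of finite order or of
trace `2`.  Then `p` divides the order of `r / s` at EVERY place of the function field `FF N`. -/
theorem dvd_ord_of_analytic_pow (A : AnalyticCore N) (p : ℕ) (r s : RN N) (hr : r ≠ 0)
    (hs : s ≠ 0) (h₁ h₂ : A.toHolBase.Hol) (hh₁ : h₁ ≠ 0) (hh₂ : h₂ ≠ 0) (c : ℂ) (hc : c ≠ 0)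
    (hrel : A.toHolBase.bridge r * h₂ ^ p
      = A.toHolBase.constH c * h₁ ^ p * A.toHolBase.bridge s)
    (hinv : ∀ δ : SL(2, ℤ), δ ∈ CongruenceSubgroup.Gamma0 N → Nice δ →
      A.toHolBase.compH δ h₁ * h₂ = h₁ * A.toHolBase.compH δ h₂)
    (v : Place Kbar (FF N)) :
    (p : ℤ) ∣ v.ord (inclRN N r / inclRN N s) := by
  classical
  obtain ⟨hfd, hle⟩ := Deg457.degree_fields N
  haveI := hfd
  have hrank : Module.finrank ↥(IntermediateField.adjoin Kbar {jF N}) (FF N)
      = Nat.card (XX N) := le_antisymm hle A.card_le_finrank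
  by_cases hj : 0 ≤ v.ord (jF N)
  · haveI : Algebra.IsAlgebraic ↥(IntermediateField.adjoin Kbar {jF N}) (FF N) :=
      Algebra.IsAlgebraic.of_finite _ _
    obtain ⟨a, ha⟩ := FF.exists_ord_sub_pos v (jF N) hj
    obtain ⟨hfd', hfr⟩ :=
      finiteDimensional_and_finrank_of_eq (adjoin_sub_algebraMap Kbar (jF N) a)
    haveI := hfd'
    have hr' := hfr.trans hrank
    have key : ∀ (ε : SL(2, ℤ)) (P : PointData A.toHolBase (ιK a) ε),
        (∀ n : ℕ, Nice (ε ^ n)) → (p : ℤ) ∣ v.ord (inclRN N r / inclRN N s) := fun ε P hε =>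
      dvd_ord_mkLocalData A.toHolBase P.X ε P.R _ _ (fun g => A.sigmaG_sub P g) P.order_J hr'
        hε p r s hr hs h₁ h₂ hh₁ hh₂ c hc hrel hinv v ha
    by_cases h0 : a = 0
    · exact key (ModularGroup.S * ModularGroup.T) (by rw [h0, map_zero]; exact A.at0)
        nice_pow_ST
    · by_cases h1 : a = 1728
      · refine key ModularGroup.S ?_ nice_pow_S
        have : ιK a = 1728 := by rw [h1]; exact map_ofNat ιK 1728
        rw [this]; exact A.at1728
      · exact key 1 (A.generic (ιK a)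
          (fun h => h0 (ιK_injective (by rw [h, map_zero])))
          (fun h => h1 (ιK_injective (by rw [h]; exact (map_ofNat ιK 1728).symm))))
          nice_pow_one
  · have hjinv : 0 < v.ord (jF N)⁻¹ := by
      rw [Place.ord_inv]
      omega
    obtain ⟨hfd', hfr⟩ := finiteDimensional_and_finrank_of_eq (adjoin_inv Kbar (jF N))
    haveI := hfd'
    have hr' := hfr.trans hrank
    exact dvd_ord_mkLocalData A.toHolBase A.toHolBase.qexpExpansion ModularGroup.T A.infRot
      (jF N)⁻¹ (A.qexp (A.toHolBase.JH 1 (one_dvd N)))⁻¹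
      (fun g => by rw [map_inv₀, HolBase.sigmaG_jF]; rfl)
      (by
        rw [RotRel.order_inv' A.toHolBase.qexp_J_one_ne_zero, A.toHolBase.order_qexp_J_one,
          neg_neg]
        rfl)
      hr' nice_pow_T p r s hr hs h₁ h₂ hh₁ hh₂ c hc hrel hinv v hjinv

end Fermat.Agent.S29.H389

end
end
-- ===== PACK-END S29/H389/Dict.lean

-- ===== PACK-BEGIN S18/H564/ConstF.lean
section




/-!
# S18 / T2 (helper564): `CONST_F` — a function without zeros is constant (char 0)

* `exists_const_of_forall_ord_eq_zero` : generic form, for any function field `F/K`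
  (`K` algebraically closed of characteristic `0`) having a coordinate `t`
  (`t` transcendental, `F/K(t)` finite): `u ≠ const ⇒ u` has a zero.  From the fundamental
  identity `∑_{v(u) > 0} ord_v u = [F : K(u)]` (S24, `FF.sum_ord_pos_eq_finrank`, on main).
* `constOfOrdZero_modularFunctionFieldBar N` : the instance `F = ℚ̄(j(q^d) : d ∣ N)`; its
  statement is (defeq to) helper94's `ConstOfOrdZero (AlgebraicClosure ℚ) (modularFunctionFieldBar N)`.
-/

set_option autoImplicit false

noncomputable section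

open AlgebraicCurve ModularCurve IntermediateField

namespace Fermat.Agent.S18.H564

section Generic

variable {K F : Type*} [Field K] [Field F] [Algebra K F] [IsAlgClosed K] [CharZero K]

/-- A non-constant function has a zero. -/
theorem exists_ord_pos_of_transcendental (t : F) (ht : Transcendental K t)
    [FiniteDimensional K⟮t⟯ F] {u : F} (hu : Transcendental K u) :
    ∃ v : Place K F, 0 < v.ord u := by
  have hcoord0 : Fermat.Agent.S24.FF.IsCoord K t := ⟨ht, inferInstance⟩
  have hcoord : Fermat.Agent.S24.FF.IsCoord K u :=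
    Fermat.Agent.S24.FF.IsCoord.of_transcendental (x := t) hu
  have : FiniteDimensional K⟮u⟯ F := hcoord.finite
  have hsum := Fermat.Agent.S24.FF.sum_ord_pos_eq_finrank (K := K) (F := F) hu
  by_contra hne
  have hempty : (Fermat.Agent.S24.FF.finite_setOf_ord_pos (K := K) (F := F) hu).toFinset = ∅ := by
    rw [Finset.eq_empty_iff_forall_notMem]
    intro v hv
    rw [Set.Finite.mem_toFinset] at hv
    exact hne ⟨v, hv⟩
  rw [hempty, Finset.sum_empty] at hsum
  have hpos : 0 < Module.finrank K⟮u⟯ F := Module.finrank_pos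
  omega

/-- **CONST_F, generic form.** -/
theorem exists_const_of_forall_ord_eq_zero (t : F) (ht : Transcendental K t)
    [FiniteDimensional K⟮t⟯ F] (u : F) (hu : ∀ v : Place K F, v.ord u = 0) :
    ∃ c : K, u = algebraMap K F c := by
  by_contra hne
  have hu_tr : Transcendental K u := by
    intro halg
    obtain ⟨c, hc⟩ := Fermat.Agent.S24.exists_algebraMap_eq_of_isAlgebraic halg
    exact hne ⟨c, hc.symm⟩
  obtain ⟨v, hv⟩ := exists_ord_pos_of_transcendental t ht hu_tr
  rw [hu v] at hv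
  exact lt_irrefl _ hv

end Generic

/-- `j` is a coordinate of the function field of `X₀(N)` over `ℚ̄`. -/
theorem transcendental_jF (N : ℕ) [NeZero N] :
    Transcendental (AlgebraicClosure ℚ) (Fermat.Agent.S24.jF N) := by
  obtain ⟨P⟩ := Fermat.Agent.S24.nonempty_modularPackage N
  have : Nonempty (Fermat.Agent.S24.XX N) := ⟨((1 : Matrix.SpecialLinearGroup (Fin 2) ℤ) :
    Fermat.Agent.S24.XX N)⟩
  exact Fermat.Agent.S24.transcendental_of_localData_inv (Fermat.Agent.S24.jF N) P.dataInf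

theorem finiteDimensional_jF (N : ℕ) [NeZero N] :
    FiniteDimensional (AlgebraicClosure ℚ)⟮Fermat.Agent.S24.jF N⟯
      ↥(modularFunctionFieldBar N) := by
  obtain ⟨P⟩ := Fermat.Agent.S24.nonempty_modularPackage N
  exact P.finiteDimensional

/-- **T2 = CONST_F** for `F = modularFunctionFieldBar N`
(= helper94's `ConstOfOrdZero (AlgebraicClosure ℚ) (modularFunctionFieldBar N)`, unfolded). -/
theorem constOfOrdZero_modularFunctionFieldBar (N : ℕ) [NeZero N] :
    ∀ u : ↥(modularFunctionFieldBar N), u ≠ 0 →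
      (∀ v : Place (AlgebraicClosure ℚ) ↥(modularFunctionFieldBar N), v.ord u = 0) →
      ∃ c : AlgebraicClosure ℚ,
        u = algebraMap (AlgebraicClosure ℚ) ↥(modularFunctionFieldBar N) c := by
  intro u _ hu
  have := finiteDimensional_jF N
  exact exists_const_of_forall_ord_eq_zero (Fermat.Agent.S24.jF N) (transcendental_jF N) u hu

/-- A non-constant modular function has a zero (and, applied to `u⁻¹`, a pole). -/
theorem exists_ord_pos_modularFunctionFieldBar (N : ℕ) [NeZero N]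
    {u : ↥(modularFunctionFieldBar N)} (hu : Transcendental (AlgebraicClosure ℚ) u) :
    ∃ v : Place (AlgebraicClosure ℚ) ↥(modularFunctionFieldBar N), 0 < v.ord u := by
  have := finiteDimensional_jF N
  exact exists_ord_pos_of_transcendental (Fermat.Agent.S24.jF N) (transcendental_jF N) hu

end Fermat.Agent.S18.H564

end
end
-- ===== PACK-END S18/H564/ConstF.lean

-- ===== PACK-BEGIN Lib/RR/H804/Modular.lean
section




/-!
# RR library, bridge: `FF1` for the function field of `X₀(N)` over `ℚ̄`  (helper804)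

Inputs: the modular package of S24 (`j` is transcendental and `F` is finite over `ℚ̄(j)`).
-/

set_option autoImplicit false

noncomputable section

open AlgebraicCurve IntermediateField ModularCurve

namespace Fermat.Agent.Lib.RR.H804

open Fermat.Agent.S24

variable (N : ℕ) [NeZero N]

/-- `j` is transcendental over `ℚ̄` in the function field of `X₀(N)`. -/
theorem transcendental_jF : Transcendental Kbar (jF N) := by
  obtain ⟨P⟩ := nonempty_modularPackage N
  exact transcendental_of_localData_inv (jF N) P.dataInf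

/-- The function field of `X₀(N)` is finite over `ℚ̄(j)`. -/
theorem finiteDimensional_jF : FiniteDimensional Kbar⟮jF N⟯ (FF N) :=
  (nonempty_modularPackage N).some.finiteDimensional

/-- `[ℚ̄(X₀(N)) : ℚ̄(j)] = [SL₂(ℤ) : Γ₀(N)]`. -/
theorem finrank_jF : Module.finrank Kbar⟮jF N⟯ (FF N) = Nat.card (XX N) :=
  (nonempty_modularPackage N).some.finrank_eq

/-- **Bridge**: the standing hypotheses of the RR library hold for `ℚ̄(X₀(N))`. -/
instance ff1_modular : FF1 (AlgebraicClosure ℚ) ↥(modularFunctionFieldBar N) :=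
  haveI := finiteDimensional_jF N
  ff1 (transcendental_jF N)

/-- Principal divisors of `ℚ̄(X₀(N))` exist and have degree zero. -/
instance hasPrincipalDivisors_modular :
    HasPrincipalDivisors (AlgebraicClosure ℚ) ↥(modularFunctionFieldBar N) :=
  haveI := finiteDimensional_jF N
  hasPrincipalDivisors (transcendental_jF N)

/-- Every place of `ℚ̄(X₀(N))` has degree one. -/
theorem deg_eq_one_modular (v : Place (AlgebraicClosure ℚ) ↥(modularFunctionFieldBar N)) :
    v.deg = 1 :=
  haveI := finiteDimensional_jF N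
  FF.deg_eq_one v (transcendental_jF N)

/-- Residue fields of places of `ℚ̄(X₀(N))` are finite over `ℚ̄`. -/
instance finite_residueField_modular
    (v : Place (AlgebraicClosure ℚ) ↥(modularFunctionFieldBar N)) :
    Module.Finite (AlgebraicClosure ℚ) v.ResidueField :=
  haveI := finiteDimensional_jF N
  finite_residueField (transcendental_jF N) v

end Fermat.Agent.Lib.RR.H804

end
end
-- ===== PACK-END Lib/RR/H804/Modular.lean

-- ===== PACK-BEGIN S18/H558/BranchJ.lean
section



/-!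
# S18 / MOD M2 (part 1): char-0 ramification of `F_M / ℚ̄(j)` in Prelude `Place` language

From the landed S24 analytic core (`H997.analyticCore`, `H117` local theorem), for every level `N`
(`FF N = modularFunctionFieldBar N`, `jF N` the `j`-function, `Kbar = ℚ̄`):

* `ord_j_sub_eq_one`   : `a ≠ 0`, `a ≠ 1728`, `0 < v.ord (j - a)` ⟹ `v.ord (j - a) = 1`;
* `ord_j_dvd_three`    : `0 < v.ord j` ⟹ `v.ord j ∣ 3`;
* `ord_j_sub_1728_dvd_two` : `0 < v.ord (j - 1728)` ⟹ `v.ord (j - 1728) ∣ 2`;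
* `finrank_jF`         : `[FF N : ℚ̄(j)] = #(SL₂(ℤ)/Γ₀(N))`.
-/

set_option autoImplicit false

noncomputable section

open AlgebraicCurve ModularCurve
open scoped MatrixGroups

namespace Fermat.Agent.S18.H558

open Fermat.Agent.S24

variable (N : ℕ) [NeZero N]

/-- `-1` acts trivially on `SL₂(ℤ) / Γ₀(N)`. -/
theorem permOf_neg_one : permOf N (-1 : SL(2, ℤ)) = 1 := by
  ext x
  obtain ⟨g, rfl⟩ := QuotientGroup.mk_surjective x
  show ((-1 : SL(2, ℤ)) • (g : XX N)) = (g : XX N)
  rw [MulAction.Quotient.smul_mk, smul_eq_mul]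
  apply QuotientGroup.eq.mpr
  have hinv : ((-1 : SL(2, ℤ)))⁻¹ = -1 := by
    rw [inv_eq_iff_eq_inv, eq_comm, inv_eq_iff_mul_eq_one, neg_mul_neg, one_mul]
  have h : (-1 * g)⁻¹ * g = (-1 : SL(2, ℤ)) := by
    rw [neg_one_mul, ← mul_neg_one, mul_inv_rev, mul_assoc, inv_mul_cancel, mul_one, hinv]
  rw [h, CongruenceSubgroup.Gamma0_mem]
  simp

omit [NeZero N] in
theorem permOf_mul (g h : SL(2, ℤ)) : permOf N (g * h) = permOf N g * permOf N h := by
  ext x
  simp [permOf, mul_smul]

theorem permOf_pow (g : SL(2, ℤ)) (n : ℕ) : permOf N (g ^ n) = permOf N g ^ n := by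
  induction n with
  | zero => simp [H997.permOf_one]
  | succ n ih => rw [pow_succ, pow_succ, permOf_mul, ih]

theorem S_sq : ModularGroup.S ^ 2 = (-1 : SL(2, ℤ)) := by
  apply Subtype.ext
  rw [pow_two, Matrix.SpecialLinearGroup.coe_mul, ModularGroup.coe_S,
    Matrix.SpecialLinearGroup.coe_neg, Matrix.SpecialLinearGroup.coe_one]
  ext i j
  fin_cases i <;> fin_cases j <;> simp [Matrix.mul_apply, Fin.sum_univ_two]

theorem ST_cube : (ModularGroup.S * ModularGroup.T) ^ 3 = (-1 : SL(2, ℤ)) := by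
  apply Subtype.ext
  rw [pow_succ, pow_two, Matrix.SpecialLinearGroup.coe_mul, Matrix.SpecialLinearGroup.coe_mul,
    Matrix.SpecialLinearGroup.coe_mul, ModularGroup.coe_S, ModularGroup.coe_T,
    Matrix.SpecialLinearGroup.coe_neg, Matrix.SpecialLinearGroup.coe_one]
  ext i j
  fin_cases i <;> fin_cases j <;> simp [Matrix.mul_apply, Fin.sum_univ_two]

theorem permOf_inv_pow_eq_one (g : SL(2, ℤ)) (n : ℕ) (hg : g ^ n = -1) :
    (permOf N g⁻¹) ^ n = 1 := by
  rw [H997.permOf_inv, inv_pow, ← permOf_pow, hg, permOf_neg_one, inv_one]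

/-- The degree of `F_N` over `ℚ̄(j)`. -/
theorem finrank_jF :
    FiniteDimensional ↥(IntermediateField.adjoin Kbar {jF N}) (FF N) ∧
      Module.finrank ↥(IntermediateField.adjoin Kbar {jF N}) (FF N) = Nat.card (XX N) := by
  obtain ⟨hfd, hle⟩ := Deg457.degree_fields N
  exact ⟨hfd, le_antisymm hle (H997.analyticCore N).card_le_finrank⟩

/-- Generic values of `j` are unramified. -/
theorem ord_j_sub_eq_one (a : Kbar) (h0 : a ≠ 0) (h1 : a ≠ 1728) (v : Place Kbar (FF N))
    (hv : 0 < v.ord (jF N - algebraMap Kbar (FF N) a)) :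
    v.ord (jF N - algebraMap Kbar (FF N) a) = 1 := by
  obtain ⟨hfd, hrank⟩ := finrank_jF N
  obtain ⟨Z, -, -, -, h⟩ := local_fin (jF N) hrank a ((H997.analyticCore N).dataFin a)
  exact h ((H997.analyticCore N).dataFin_perm_generic a h0 h1) v hv

/-- General divisibility: if the `n`-th power of the monodromy at `a` is trivial, every zero of
`j - a` has order dividing `n`. -/
theorem ord_j_sub_dvd (a : Kbar) (n : ℕ)
    (hperm : ((H997.analyticCore N).dataFin a).perm ^ n = 1) (v : Place Kbar (FF N))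
    (hv : 0 < v.ord (jF N - algebraMap Kbar (FF N) a)) :
    v.ord (jF N - algebraMap Kbar (FF N) a) ∣ (n : ℤ) := by
  obtain ⟨hfd, hrank⟩ := finrank_jF N
  set L := (H997.analyticCore N).dataFin a with hL
  have hE : IntermediateField.adjoin Kbar {jF N} ≤
      IntermediateField.adjoin Kbar {jF N - algebraMap Kbar (FF N) a} :=
    (adjoin_sub_algebraMap Kbar (jF N) a).ge
  obtain ⟨x, rfl⟩ := H117.exists_placeOf_eq L _ hE hrank v hv
  exact H117.ord_t_dvd_of_pow_apply_eq L x n (by rw [hperm]; rfl)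

theorem dataFin_zero_perm_eq :
    ((H997.analyticCore N).dataFin 0).perm = permOf N (ModularGroup.S * ModularGroup.T)⁻¹ := by
  unfold H997.AnalyticCore.dataFin
  rw [dif_pos rfl]
  rfl

theorem dataFin_1728_perm_eq :
    ((H997.analyticCore N).dataFin 1728).perm = permOf N (ModularGroup.S)⁻¹ := by
  have h0 : (1728 : Kbar) ≠ 0 := by norm_num
  unfold H997.AnalyticCore.dataFin
  rw [dif_neg h0, dif_pos rfl]
  rfl

/-- Zeros of `j` have order `1` or `3`. -/
theorem ord_j_dvd_three (v : Place Kbar (FF N)) (hv : 0 < v.ord (jF N)) :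
    v.ord (jF N) ∣ 3 := by
  have h := ord_j_sub_dvd N 0 3
    (by rw [dataFin_zero_perm_eq]; exact permOf_inv_pow_eq_one N _ 3 ST_cube) v
    (by rwa [map_zero, sub_zero])
  rw [map_zero, sub_zero] at h
  exact_mod_cast h

/-- Zeros of `j - 1728` have order `1` or `2`. -/
theorem ord_j_sub_1728_dvd_two (v : Place Kbar (FF N))
    (hv : 0 < v.ord (jF N - algebraMap Kbar (FF N) 1728)) :
    v.ord (jF N - algebraMap Kbar (FF N) 1728) ∣ 2 := by
  have h := ord_j_sub_dvd N 1728 2
    (by rw [dataFin_1728_perm_eq]; exact permOf_inv_pow_eq_one N _ 2 S_sq) v hv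
  exact_mod_cast h

end Fermat.Agent.S18.H558

end
end
-- ===== PACK-END S18/H558/BranchJ.lean

-- ===== PACK-BEGIN S35/H252/ExclGlue.lean
section
/-
S35, piece (X) (helper252): the tail glue

  `ExclPolyStatement → Fermat.Agent.S35.H991.ExclTateStatement`.

Given a polynomial `t` in the Hecke operators away from `S` which kills the `p`-power torsion of
`J₀(M / q)` and with `t(a_ℓ(g)) ≠ 0`, an eigen-sequence `z n ∈ O' ⊗ J₀(M / q)` with the eigenvalues
of `g` satisfies `0 = t • z n = ι(t(a_ℓ(g))) • z n`; as `ι` is injective (integrality) the scalar is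
a nonzero element of the discrete valuation ring `O'`, hence divides a power of `p`, and
`z n = p ^ k • z (n + k) = 0`.
-/




set_option autoImplicit false

namespace Fermat.Agent.S35.H252

open TensorProduct CongruenceSubgroup

/-- A ring homomorphism from a domain which is integral over `ℤ` to a ring of characteristic
zero is injective. -/
theorem injective_of_isIntegral_int {A B : Type*} [CommRing A] [IsDomain A]
    [Algebra.IsIntegral ℤ A] [CommRing B] [CharZero B] (f : A →+* B) : Function.Injective f := by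
  rw [RingHom.injective_iff_ker_eq_bot]
  apply Ideal.eq_bot_of_comap_eq_bot (R := ℤ)
  rw [eq_bot_iff]
  intro n hn
  rw [Ideal.mem_comap, RingHom.mem_ker, eq_intCast, map_intCast] at hn
  rw [Ideal.mem_bot]
  exact_mod_cast hn

/-- In a discrete valuation ring every nonzero element divides a power of any element of the
maximal ideal. -/
theorem exists_pow_eq_mul_of_ne_zero {O : Type*} [CommRing O] [IsDomain O]
    [IsDiscreteValuationRing O] {π c : O} (hπ : π ∈ IsLocalRing.maximalIdeal O) (hc : c ≠ 0) :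
    ∃ (k : ℕ) (d : O), π ^ k = d * c := by
  obtain ⟨ϖ, hϖ⟩ := IsDiscreteValuationRing.exists_irreducible O
  obtain ⟨k, hk⟩ := IsDiscreteValuationRing.associated_pow_irreducible hc hϖ
  have h1 : ϖ ∣ π := by
    rw [hϖ.maximalIdeal_eq, Ideal.mem_span_singleton] at hπ
    exact hπ
  have h2 : c ∣ π ^ k := hk.dvd.trans (pow_dvd_pow_of_dvd h1 k)
  obtain ⟨d, hd⟩ := h2
  exact ⟨k, d, by rw [hd, mul_comm]⟩

/-- **(X), tail glue.** -/
theorem exclTate_of_poly (hX : ExclPolyStatement) :
    Fermat.Agent.S35.H991.ExclTateStatement := by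
  classical
  intro M _ g hg q _ hq hqM p _ S O' _ _ _ _ _ _ hpO' chig hchig iota hpS hMS z hz0 hzs hzeig
  have hp : p.Prime := Fact.out
  obtain ⟨h, t, hkill, htg⟩ := hX M g hg q hq hqM p S hp hpS hMS
  -- the index type and the good primes
  have hIM : ∀ i : {ℓ : Nat.Primes // (ℓ : ℕ) ∉ S}, ¬ ((i : Nat.Primes) : ℕ) ∣ M :=
    fun i hdvd => i.2 (hMS _ i.1.2 hdvd)
  have hIS : ∀ i : {ℓ : Nat.Primes // (ℓ : ℕ) ∉ S}, ((i : Nat.Primes) : ℕ) ∉ (↑S : Set ℕ) :=
    fun i hmem => i.2 (Finset.mem_coe.mp hmem)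
  -- the evaluation at level `M`
  let evM : MvPolynomial {ℓ : Nat.Primes // (ℓ : ℕ) ∉ S} ℤ →ₐ[ℤ]
      CuspForm.heckeAlgebra M 2 (↑S : Set ℕ) :=
    MvPolynomial.aeval fun i => CuspForm.heckeAlgebra.T i.1.2 (hIM i) (hIS i)
  let ψ : MvPolynomial {ℓ : Nat.Primes // (ℓ : ℕ) ∉ S} ℤ →+* O' :=
    (iota.comp chig.rangeRestrict).comp evM.toRingHom
  have hψX : ∀ i : {ℓ : Nat.Primes // (ℓ : ℕ) ∉ S},
      ψ (MvPolynomial.X i)
        = (iota.comp chig.rangeRestrict) (CuspForm.heckeAlgebra.T i.1.2 (hIM i) (hIS i)) := by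
    intro i
    show (iota.comp chig.rangeRestrict) (evM (MvPolynomial.X i)) = _
    rw [MvPolynomial.aeval_X]
  have hψC : ∀ a : ℤ, ψ (MvPolynomial.C a) = (a : O') := by
    intro a
    rw [← MvPolynomial.algebraMap_eq, eq_intCast, map_intCast]
  -- Claim 1: `t` acts on the eigen-sequence through `ψ`
  have claim1 : ∀ (s : MvPolynomial {ℓ : Nat.Primes // (ℓ : ℕ) ∉ S} ℤ) (n : ℕ),
      (ModularCurve.heckeEvalBar h (MvPolynomial.rename Subtype.val s)).baseChange O' (z n)
        = ψ s • z n := by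
    intro s
    induction s using MvPolynomial.induction_on with
    | C a =>
      intro n
      rw [MvPolynomial.rename_C, ModularCurve.heckeEvalBar_C, hψC]
      have h1 : ((a : Module.End ℤ (ModularCurve.JZero (M / q))))
          = a • (LinearMap.id : ModularCurve.JZero (M / q) →ₗ[ℤ] ModularCurve.JZero (M / q)) := by
        rw [← Module.End.one_eq_id, zsmul_one]
      rw [h1, LinearMap.baseChange_smul, LinearMap.baseChange_id, LinearMap.smul_apply,
        LinearMap.id_apply]
      exact (Int.cast_smul_eq_zsmul O' a (z n)).symm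
    | add s₁ s₂ h₁ h₂ =>
      intro n
      rw [map_add, map_add, LinearMap.baseChange_add, LinearMap.add_apply, h₁ n, h₂ n, map_add,
        add_smul]
    | mul_X s i hs =>
      intro n
      rw [map_mul, map_mul, MvPolynomial.rename_X]
      have h1 : ModularCurve.heckeEvalBar h (MvPolynomial.X (i : Nat.Primes))
          = ModularCurve.heckeOperatorBar (M / q) (i : Nat.Primes) :=
        ModularCurve.heckeEvalBar_heckeGen h (i : Nat.Primes)
      rw [h1, Module.End.mul_eq_comp, LinearMap.baseChange_comp, LinearMap.comp_apply]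
      have h2 : (ModularCurve.heckeOperatorBar (M / q) (i : Nat.Primes)).baseChange O' (z n)
          = (iota.comp chig.rangeRestrict)
              (CuspForm.heckeAlgebra.T i.1.2 (hIM i) (hIS i)) • z n :=
        hzeig i.1 i.1.2 (hIM i) (hIS i) n
      rw [h2, map_smul, hs n, map_mul, hψX i, smul_smul, mul_comm]
  -- Claim 2: `z n` is killed by `p ^ (n + 1)`
  have hzp : ∀ n : ℕ, ((p : O') ^ (n + 1)) • z n = 0 := by
    intro n
    induction n with
    | zero => rw [zero_add, pow_one]; exact hz0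
    | succ n ih => rw [pow_succ, mul_smul, hzs n]; exact ih
  have hzpZ : ∀ n : ℕ, ((p : ℤ) ^ (n + 1)) • z n = 0 := by
    intro n
    rw [← Int.cast_smul_eq_zsmul O' ((p : ℤ) ^ (n + 1)) (z n)]
    push_cast
    exact hzp n
  haveI : Module.Flat ℤ O' := inferInstance
  have claim2 : ∀ n : ℕ,
      (ModularCurve.heckeEvalBar h (MvPolynomial.rename Subtype.val t)).baseChange O' (z n)
        = 0 := fun n =>
    Fermat.Agent.S30.H529.baseChange_eq_zero_of_torsion O' ((p : ℤ) ^ (n + 1))
      (ModularCurve.heckeEvalBar h (MvPolynomial.rename Subtype.val t))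
      (fun y hy => hkill (n + 1) y hy) (z n) (hzpZ n)
  have hc0 : ∀ n : ℕ, ψ t • z n = 0 := fun n => by rw [← claim1 t n, claim2 n]
  -- `ψ t ≠ 0`
  have hchigev : ∀ s : MvPolynomial {ℓ : Nat.Primes // (ℓ : ℕ) ∉ S} ℤ,
      chig (evM s) = MvPolynomial.aeval (fun ℓ : {ℓ : Nat.Primes // (ℓ : ℕ) ∉ S} =>
        ModularFormClass.qCoeff g ((ℓ : Nat.Primes) : ℕ)) s := by
    intro s
    induction s using MvPolynomial.induction_on with
    | C a =>
      rw [← MvPolynomial.algebraMap_eq, eq_intCast, map_intCast, map_intCast, map_intCast]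
    | add s₁ s₂ h₁ h₂ => rw [map_add, map_add, map_add, h₁, h₂]
    | mul_X s i hs =>
      rw [map_mul, map_mul, map_mul, hs, MvPolynomial.aeval_X, MvPolynomial.aeval_X,
        hchig i.1 i.1.2 (hIM i) (hIS i)]
  haveI : Module.Finite ℤ (CuspForm.heckeAlgebra M 2 (↑S : Set ℕ)) :=
    Fermat.Agent.S22.result M 2 (↑S : Set ℕ)
  haveI : Algebra.IsIntegral ℤ (CuspForm.heckeAlgebra M 2 (↑S : Set ℕ)) := inferInstance
  haveI : Algebra.IsIntegral ℤ chig.range := by
    refine ⟨fun y => ?_⟩
    obtain ⟨b, hb⟩ := chig.rangeRestrict_surjective y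
    rw [← hb]
    exact (Algebra.IsIntegral.isIntegral (R := ℤ) b).map
      (chig.rangeRestrict.toIntAlgHom)
  have hinj : Function.Injective iota := injective_of_isIntegral_int iota
  have hψt : ψ t ≠ 0 := by
    intro h0
    have h1 : iota (chig.rangeRestrict (evM t)) = iota 0 := by rw [map_zero]; exact h0
    have h2 := hinj h1
    have h3 : chig (evM t) = 0 := congrArg Subtype.val h2
    rw [hchigev t] at h3
    exact htg h3
  -- conclusion
  obtain ⟨k, d, hkd⟩ := exists_pow_eq_mul_of_ne_zero hpO' hψt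
  have hpk : ∀ n : ℕ, ((p : O') ^ k) • z n = 0 := by
    intro n
    rw [hkd, mul_smul, hc0 n, smul_zero]
  have hshift : ∀ (j n : ℕ), ((p : O') ^ j) • z (n + j) = z n := by
    intro j
    induction j with
    | zero => intro n; rw [pow_zero, one_smul, add_zero]
    | succ j ih =>
      intro n
      rw [pow_succ, mul_smul, ← add_assoc, hzs (n + j)]
      exact ih n
  funext n
  rw [← hshift k n, hpk (n + k)]
  rfl

end Fermat.Agent.S35.H252

end
-- ===== PACK-END S35/H252/ExclGlue.lean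

-- ===== PACK-BEGIN Lib/Newform/H958/Final.lean
section





/-!
# Shared library NEWFORM — unconditional results (consumer API, part 1)

All leaf interfaces of `Spec.lean` are proved (helper683: `EigenT`, `EigenU`; helper563:
`LowerU`; helper923: `TraceAL`; helper863/helper958: `Occurs`, `Incl`), so the targets hold
unconditionally:

* `newformBadPrimeCoeff N : CuspForm.NewformBadPrimeCoeff N` for every `N ≠ 0`;
* `badCoeffAt` : the same for forms that are new at a single prime (`CuspForm.IsNewformAt`);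
* `descent` : every normalized eigenform comes from a newform of a level dividing its level;
* `stab` : a normalized eigenform of level `M ∣ C` gives a normalized eigenform of level `C`
  with the same eigenvalues at all primes `ℓ ∤ C`.
-/

set_option autoImplicit false

open CongruenceSubgroup

namespace Fermat.Agent.Lib.Newform.H958

theorem badCoeffAt : BadCoeffAt :=
  badCoeffAt_of Fermat.Agent.Lib.Newform.H683.eigenT Fermat.Agent.Lib.Newform.H683.eigenU occurs
    Fermat.Agent.Lib.Newform.H563.lowerU Fermat.Agent.Lib.Newform.H923.traceAL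

theorem badCoeff : BadCoeff := badCoeff_of badCoeffAt

/-- The Prelude's `NewformBadPrimeCoeff` holds at every positive level. -/
theorem newformBadPrimeCoeff (N : ℕ) [NeZero N] : CuspForm.NewformBadPrimeCoeff N := badCoeff N

theorem stab : Stab :=
  stab_of Fermat.Agent.Lib.Newform.H683.eigenT incl occurs

/-- `a_q² = 1` for a newform at a prime `q ∥ N`. -/
theorem qCoeff_sq_eq_one {N : ℕ} [NeZero N] {f : CuspForm (Gamma0 N) 2} (hf : f.IsNewform)
    {q : ℕ} (hq : q.Prime) (hqN : q ∣ N) (hq2 : ¬ q ^ 2 ∣ N) :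
    ModularFormClass.qCoeff f q ^ 2 = 1 :=
  (newformBadPrimeCoeff N f hf q hq hqN).1 hq2

/-- `a_q = 0` for a newform at a prime `q` with `q² ∣ N`. -/
theorem qCoeff_eq_zero {N : ℕ} [NeZero N] {f : CuspForm (Gamma0 N) 2} (hf : f.IsNewform)
    {q : ℕ} (hq : q.Prime) (hq2 : q ^ 2 ∣ N) :
    ModularFormClass.qCoeff f q = 0 :=
  (newformBadPrimeCoeff N f hf q hq ((dvd_pow_self q two_ne_zero).trans hq2)).2 hq2

end Fermat.Agent.Lib.Newform.H958

end
-- ===== PACK-END Lib/Newform/H958/Final.lean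

-- ===== PACK-BEGIN A2/IF/H429/Level.lean
section


/-!
# A2 / IF (helper429): levels `E ⊇ ℚ̄^{I_P}`

For an intermediate field `E` containing the inertia field of `P`, the valuation ring
`R_E = P ∩ E = P.comap (algebraMap E ℚ̄)` is henselian with algebraically closed residue field.
-/

set_option autoImplicit false
set_option linter.style.haveILetI false
set_option linter.unusedSectionVars false

open scoped Pointwise
open Polynomial

namespace Fermat.Agent.A2.IF.H429

open Fermat.Agent.S55.Bridge Fermat.Agent.S55.Bridge.H594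

attribute [local instance] isAlgebraic_Qbar isGalois_Qbar

local notation "Qb" => AlgebraicClosure ℚ

variable (P : ValuationSubring Qb) (E : IntermediateField ℚ Qb)

/-- The inclusion `R_E → P`. -/
noncomputable def inclRE : (P.comap (algebraMap E Qb)) →+* P where
  toFun x := ⟨algebraMap E Qb (x : E), x.2⟩
  map_one' := Subtype.ext (by simp)
  map_mul' x y := Subtype.ext (by simp)
  map_zero' := Subtype.ext (by simp)
  map_add' x y := Subtype.ext (by simp)

theorem inclRE_coe (x : P.comap (algebraMap E Qb)) :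
    ((inclRE P E x : P) : Qb) = ((x : E) : Qb) := rfl

theorem mem_maximalIdeal_RE_iff (x : P.comap (algebraMap E Qb)) :
    x ∈ IsLocalRing.maximalIdeal (P.comap (algebraMap E Qb)) ↔ ((x : E) : Qb) ∈ P.nonunits := by
  rw [← ValuationSubring.coe_mem_nonunits_iff, mem_nonunits_comap_iff]
  rfl

/-- An element of `ℚ̄` fixed by every automorphism fixing `E` lies in `E`. -/
theorem mem_of_fixed (x : Qb) (hx : ∀ σ : Qb ≃ₐ[ℚ] Qb, (∀ e ∈ E, σ e = e) → σ x = x) :
    x ∈ E := by
  have h1 : x ∈ IntermediateField.fixedField E.fixingSubgroup := by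
    rw [IntermediateField.mem_fixedField_iff]
    intro σ hσ
    exact hx σ (fun e he => (IntermediateField.mem_fixingSubgroup_iff E σ).mp hσ e he)
  rwa [InfiniteGalois.fixedField_fixingSubgroup] at h1

/-- An automorphism fixing `E ⊇ E_I` pointwise preserves the non-units of `P`. -/
theorem map_mem_nonunits_of_fixes (hE : inertiaField P ≤ E) (σ : Qb ≃ₐ[ℚ] Qb)
    (hσ : ∀ e ∈ E, σ e = e) {x : Qb} (hx : x ∈ P.nonunits) : σ x ∈ P.nonunits := by
  obtain ⟨τ, hτ, h⟩ := exists_inertia_apply_eq P σ (fun e he => hσ e (hE he)) x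
  rw [h]
  exact mem_nonunits_of_mem_decomp P (decomp_of_inertia P hτ) hx

/-- An automorphism fixing `E ⊇ E_I` pointwise preserves the valuation of `P`. -/
theorem valuation_map_eq_of_fixes (hE : inertiaField P ≤ E) (σ : Qb ≃ₐ[ℚ] Qb)
    (hσ : ∀ e ∈ E, σ e = e) (x : Qb) : P.valuation (σ x) = P.valuation x := by
  obtain ⟨τ, hτ, h⟩ := exists_inertia_apply_eq P σ (fun e he => hσ e (hE he)) x
  rw [h]
  exact valuation_map_eq P (decomp_of_inertia P hτ) x

/-- **Galois-fixed simple roots.**  Let `f` be a monic polynomial over `R_E`, `E ⊇ E_I`, and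
`a₀ ∈ R_E` with `f(a₀) ≡ 0` and `f'(a₀)` a unit.  Then `f` has a root `≡ a₀` in `R_E`. -/
theorem exists_root_RE (hE : inertiaField P ≤ E) (f : (P.comap (algebraMap E Qb) : Type)[X])
    (hf : f.Monic) (a₀ : P.comap (algebraMap E Qb))
    (h₁ : f.eval a₀ ∈ IsLocalRing.maximalIdeal (P.comap (algebraMap E Qb)))
    (h₂ : IsUnit (f.derivative.eval a₀)) :
    ∃ a : P.comap (algebraMap E Qb), f.IsRoot a ∧
      a - a₀ ∈ IsLocalRing.maximalIdeal (P.comap (algebraMap E Qb)) := by
  let ι := inclRE P E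
  let g : (P : Type)[X] := f.map ι
  have hg : g.Monic := hf.map ι
  let φ : (P.comap (algebraMap E Qb)) →+* Qb := P.subtype.comp ι
  have hFg : g.map P.subtype = f.map φ := by
    rw [Polynomial.map_map]
  have hroots : ∀ r ∈ (f.map φ).roots, r ∈ P := fun r hr =>
    mem_of_isRoot_map P g hg r (by rw [hFg]; exact isRoot_of_mem_roots hr)
  have ha₀P : ((a₀ : E) : Qb) ∈ P := a₀.2
  have heval : (f.map φ).eval ((a₀ : E) : Qb) ∈ P.nonunits := by
    have h3 : (f.map φ).eval (φ a₀) = φ (f.eval a₀) := eval_map_apply φ a₀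
    have h4 : φ a₀ = ((a₀ : E) : Qb) := rfl
    rw [h4] at h3
    rw [h3]
    exact (mem_maximalIdeal_RE_iff P E _).mp h₁
  obtain ⟨α, hα, hαa⟩ := exists_root_sub_mem_nonunits P _ (hf.map φ) hroots _ ha₀P heval
  have hαP : α ∈ P := hroots α hα
  have hαroot : (f.map φ).eval α = 0 := isRoot_of_mem_roots hα
  have hgα : g.IsRoot (⟨α, hαP⟩ : P) := by
    show g.eval _ = 0
    apply Subtype.ext
    have h3 : (g.map P.subtype).eval (P.subtype ⟨α, hαP⟩) = P.subtype (g.eval ⟨α, hαP⟩) :=
      eval_map_apply P.subtype _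
    rw [hFg] at h3
    have h4 : P.subtype ⟨α, hαP⟩ = α := rfl
    rw [h4, hαroot] at h3
    exact h3.symm
  have hder : g.derivative.eval (ι a₀) ∉ IsLocalRing.maximalIdeal P := by
    have h3 : g.derivative.eval (ι a₀) = ι (f.derivative.eval a₀) := by
      show (f.map ι).derivative.eval (ι a₀) = _
      rw [derivative_map, eval_map_apply]
    rw [h3]
    intro hmem
    exact (IsLocalRing.mem_maximalIdeal _).mp hmem (h₂.map ι)
  have hαa' : (⟨α, hαP⟩ : P) - ι a₀ ∈ IsLocalRing.maximalIdeal P := by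
    rw [← ValuationSubring.coe_mem_nonunits_iff]
    have h3 : (((⟨α, hαP⟩ : P) - ι a₀ : P) : Qb) = -(((a₀ : E) : Qb) - α) := by
      show α - ((a₀ : E) : Qb) = _
      ring
    rw [h3]
    exact neg_mem hαa
  -- `α` is fixed by every automorphism fixing `E`
  have hfix : ∀ σ : Qb ≃ₐ[ℚ] Qb, (∀ e ∈ E, σ e = e) → σ α = α := by
    intro σ hσ
    have hσφ : (σ : Qb →+* Qb).comp φ = φ := by
      ext x
      exact hσ _ (x : E).2
    have hσroot : (f.map φ).eval (σ α) = 0 := by
      have h3 : ((f.map φ).map (σ : Qb →+* Qb)).eval ((σ : Qb →+* Qb) α) =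
          (σ : Qb →+* Qb) ((f.map φ).eval α) := eval_map_apply (σ : Qb →+* Qb) α
      rw [Polynomial.map_map, hσφ, hαroot, map_zero] at h3
      exact h3
    have hσαP : σ α ∈ P := by
      apply hroots
      rw [mem_roots (hf.map φ).ne_zero]
      exact hσroot
    have hgσ : g.IsRoot (⟨σ α, hσαP⟩ : P) := by
      show g.eval _ = 0
      apply Subtype.ext
      have h3 : (g.map P.subtype).eval (P.subtype ⟨σ α, hσαP⟩) =
          P.subtype (g.eval ⟨σ α, hσαP⟩) := eval_map_apply P.subtype _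
      rw [hFg] at h3
      have h4 : P.subtype ⟨σ α, hσαP⟩ = σ α := rfl
      rw [h4, hσroot] at h3
      exact h3.symm
    have hσa : (⟨σ α, hσαP⟩ : P) - ι a₀ ∈ IsLocalRing.maximalIdeal P := by
      rw [← ValuationSubring.coe_mem_nonunits_iff]
      have h3 : (((⟨σ α, hσαP⟩ : P) - ι a₀ : P) : Qb) = σ (-(((a₀ : E) : Qb) - α)) := by
        show σ α - ((a₀ : E) : Qb) = _
        rw [map_neg, map_sub, hσ _ (a₀ : E).2]
        ring
      rw [h3]
      exact map_mem_nonunits_of_fixes P E hE σ hσ (neg_mem hαa)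
    have key := root_unique_of_derivative_notMem (IsLocalRing.maximalIdeal P) g (ι a₀)
      ⟨α, hαP⟩ ⟨σ α, hσαP⟩ hgα hgσ hder hαa' hσa
    exact (congrArg Subtype.val key).symm
  have hαE : α ∈ E := mem_of_fixed E α hfix
  refine ⟨⟨⟨α, hαE⟩, hαP⟩, ?_, ?_⟩
  · show f.eval _ = 0
    have hφinj : Function.Injective φ := by
      intro x y hxy
      apply Subtype.ext
      apply Subtype.ext
      exact hxy
    apply hφinj
    rw [map_zero, ← eval_map_apply φ]
    exact hαroot
  · rw [mem_maximalIdeal_RE_iff]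
    have h3 : ((((⟨⟨α, hαE⟩, hαP⟩ : P.comap (algebraMap E Qb)) - a₀ :
        P.comap (algebraMap E Qb)) : E) : Qb) = -(((a₀ : E) : Qb) - α) := by
      show α - ((a₀ : E) : Qb) = _
      ring
    rw [h3]
    exact neg_mem hαa

/-- `R_E` is henselian for `E ⊇ E_I`. -/
theorem henselian_RE (hE : inertiaField P ≤ E) :
    HenselianLocalRing (P.comap (algebraMap E Qb)) where
  is_henselian f hf a₀ h₁ h₂ := exists_root_RE P E hE f hf a₀ h₁ h₂

/-- The residue field of `R_E` is algebraically closed for `E ⊇ E_I`. -/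
theorem isAlgClosed_residueField_RE (q : ℕ) (hq : q.Prime) (hP : P.LiesOverPrime q)
    (hE : inertiaField P ≤ E) :
    IsAlgClosed (IsLocalRing.ResidueField (P.comap (algebraMap E Qb))) := by
  apply IsAlgClosed.of_exists_root
  intro p hpm hpi
  obtain ⟨f, hfp, hfdeg, hfm⟩ := Polynomial.lifts_and_natDegree_eq_and_monic
    ((Polynomial.mem_lifts p).mpr
      (Polynomial.map_surjective _ IsLocalRing.residue_surjective p)) hpm
  let ι := inclRE P E
  let g : (P : Type)[X] := f.map ι
  have hg : g.Monic := hfm.map ι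
  have hgdeg : (g.map P.subtype).degree ≠ 0 := by
    have h1 : (g.map P.subtype).Monic := hg.map _
    have h2 : (g.map P.subtype).natDegree = p.natDegree := by
      rw [hg.natDegree_map P.subtype, hfm.natDegree_map ι, hfdeg]
    have h3 : 0 < p.natDegree := hpi.natDegree_pos
    intro h0
    have := natDegree_eq_zero_iff_degree_le_zero.mpr h0.le
    omega
  obtain ⟨α, hα⟩ := IsAlgClosed.exists_root (g.map P.subtype) hgdeg
  have hαP : α ∈ P := mem_of_isRoot_map P g hg α hα
  obtain ⟨z, hzP, hzI, hαz⟩ := exists_teichmuller P q hq hP α hαP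
  have hzE : z ∈ E := hE hzI
  let zR : P.comap (algebraMap E Qb) := ⟨⟨z, hzE⟩, hzP⟩
  refine ⟨IsLocalRing.residue _ zR, ?_⟩
  rw [← hfp, eval_map_apply, IsLocalRing.residue_eq_zero_iff, mem_maximalIdeal_RE_iff]
  have hgα : g.eval (⟨α, hαP⟩ : P) = 0 := by
    apply Subtype.ext
    have h3 : (g.map P.subtype).eval (P.subtype ⟨α, hαP⟩) = P.subtype (g.eval ⟨α, hαP⟩) :=
      eval_map_apply P.subtype _
    have h4 : (g.map P.subtype).eval α = 0 := hα
    have h5 : P.subtype ⟨α, hαP⟩ = α := rfl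
    rw [h5, h4] at h3
    exact h3.symm
  have h6 : (⟨z, hzP⟩ : P) - ⟨α, hαP⟩ ∣ g.eval (⟨z, hzP⟩ : P) - g.eval (⟨α, hαP⟩ : P) :=
    sub_dvd_eval_sub _ _ g
  rw [hgα, sub_zero] at h6
  obtain ⟨c, hc⟩ := h6
  have h7 : g.eval (⟨z, hzP⟩ : P) ∈ IsLocalRing.maximalIdeal P := by
    rw [hc]
    apply Ideal.mul_mem_right
    rw [← ValuationSubring.coe_mem_nonunits_iff]
    have h8 : (((⟨z, hzP⟩ : P) - ⟨α, hαP⟩ : P) : Qb) = -(α - z) := by
      show z - α = _
      ring
    rw [h8]
    exact neg_mem hαz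
  rw [← ValuationSubring.coe_mem_nonunits_iff] at h7
  have h9 : ((g.eval (⟨z, hzP⟩ : P) : P) : Qb) = (((f.eval zR : P.comap (algebraMap E Qb)) : E) : Qb) := by
    have h10 : g.eval (ι zR) = ι (f.eval zR) := eval_map_apply ι zR
    have h11 : ι zR = ⟨z, hzP⟩ := rfl
    rw [h11] at h10
    rw [h10]
    rfl
  rw [← h9]
  exact h7


end Fermat.Agent.A2.IF.H429

end
-- ===== PACK-END A2/IF/H429/Level.lean

-- ===== PACK-BEGIN S36/H630/ChartChange.lean
section



/-!
# S36 engine, LABEL core (helper630), part 12: change of chart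

`B`, `B'` two charts of `F` (`B = chart R {x}`, `B' = chart R {x⁻¹}`), `y ∈ B'` (`y = x⁻¹`) such
that every element of `B` lands in `B'` after multiplication by a power of `y`
(`B[y] = B'[y⁻¹]`).  A closed point `n'` of `B'` with `y ∉ n'` is also a closed point of `B`:

* `backIdeal`            : the ideal `n = {b ∈ B | y ^ k b ∈ n'}` of `B`;
* `mem_backIdeal_iff`    : `b ∈ n ↔ y ^ k b ∈ n'` for EVERY `k` with `y ^ k b ∈ B'`;
* `backIdeal_rat`        : `n` is rational if `n'` is;
* `backIdeal_isMaximal`  : `n` is maximal;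
* `pure_back`            : a purity datum at `n'` gives a purity datum at `n`;
* `LabelAt.of_back`      : a label datum at `n` gives a label datum at `n'`.
-/

set_option autoImplicit false
set_option linter.unusedSectionVars false

namespace Fermat.Agent.S36.H630

variable {R : Type*} [CommRing R] {F : Type*} [Field F] [Algebra R F]

section Back

variable {B B' : Subalgebra R F} {n' : Ideal B'} {y : F}

/-- transport of membership along an equality of underlying elements -/
theorem mem_congr_val {c c' : B'} (hcc : (c : F) = (c' : F)) (h : c ∈ n') : c' ∈ n' := by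
  have : c = c' := Subtype.ext hcc
  rwa [← this]

/-- The closed point of `B` defined by the closed point `n'` of `B'`. -/
def backIdeal (B : Subalgebra R F) (n' : Ideal B') (y : F) (hy : y ∈ B')
    (hclear : ∀ b : B, ∃ k : ℕ, y ^ k * (b : F) ∈ B') : Ideal B where
  carrier := {b | ∃ (k : ℕ) (h : y ^ k * (b : F) ∈ B'), (⟨_, h⟩ : B') ∈ n'}
  zero_mem' := by
    refine ⟨0, ?_, ?_⟩
    · rw [ZeroMemClass.coe_zero, mul_zero]
      exact B'.zero_mem
    · refine mem_congr_val ?_ n'.zero_mem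
      show ((0 : B') : F) = y ^ 0 * ((0 : B) : F)
      rw [ZeroMemClass.coe_zero, ZeroMemClass.coe_zero, mul_zero]
  add_mem' := by
    rintro a b ⟨k₁, h₁, m₁⟩ ⟨k₂, h₂, m₂⟩
    have e : y ^ (k₁ + k₂) * ((a + b : B) : F)
        = y ^ k₂ * (y ^ k₁ * (a : F)) + y ^ k₁ * (y ^ k₂ * (b : F)) := by
      push_cast
      ring
    have hmem : y ^ k₂ * (y ^ k₁ * (a : F)) + y ^ k₁ * (y ^ k₂ * (b : F)) ∈ B' :=
      B'.add_mem (B'.mul_mem (B'.pow_mem hy k₂) h₁) (B'.mul_mem (B'.pow_mem hy k₁) h₂)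
    refine ⟨k₁ + k₂, by rw [e]; exact hmem, ?_⟩
    have h3 : (⟨y, hy⟩ : B') ^ k₂ * ⟨_, h₁⟩ + (⟨y, hy⟩ : B') ^ k₁ * ⟨_, h₂⟩ ∈ n' :=
      n'.add_mem (n'.mul_mem_left _ m₁) (n'.mul_mem_left _ m₂)
    refine mem_congr_val ?_ h3
    show _ = y ^ (k₁ + k₂) * ((a + b : B) : F)
    rw [e]
    simp only [Subalgebra.coe_add, Subalgebra.coe_mul, Subalgebra.coe_pow]
  smul_mem' := by
    rintro c a ⟨k, h, hm⟩
    obtain ⟨j, hj⟩ := hclear c
    have e : y ^ (j + k) * ((c • a : B) : F) = (y ^ j * (c : F)) * (y ^ k * (a : F)) := by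
      rw [smul_eq_mul]
      push_cast
      ring
    refine ⟨j + k, by rw [e]; exact B'.mul_mem hj h, ?_⟩
    have h3 : (⟨_, hj⟩ : B') * ⟨_, h⟩ ∈ n' := n'.mul_mem_left _ hm
    refine mem_congr_val ?_ h3
    show _ = y ^ (j + k) * ((c • a : B) : F)
    rw [e]
    simp only [Subalgebra.coe_mul]

variable (hy : y ∈ B') (hclear : ∀ b : B, ∃ k : ℕ, y ^ k * (b : F) ∈ B')

/-- Membership in `backIdeal` can be tested with any exponent. -/
theorem mem_backIdeal_iff [hn' : n'.IsPrime] (hyn : (⟨y, hy⟩ : B') ∉ n') (b : B) (k : ℕ)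
    (h : y ^ k * (b : F) ∈ B') :
    b ∈ backIdeal B n' y hy hclear ↔ (⟨_, h⟩ : B') ∈ n' := by
  constructor
  · rintro ⟨k', h', hm⟩
    have h3 : (⟨y, hy⟩ : B') ^ k * ⟨_, h'⟩ ∈ n' := n'.mul_mem_left _ hm
    have h4 : (⟨y, hy⟩ : B') ^ k' * ⟨_, h⟩ ∈ n' := by
      refine mem_congr_val ?_ h3
      simp only [Subalgebra.coe_mul, Subalgebra.coe_pow]
      ring
    rcases hn'.mem_or_mem h4 with h5 | h5
    · exact absurd (hn'.mem_of_pow_mem k' h5) hyn
    · exact h5
  · intro hm
    exact ⟨k, h, hm⟩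

/-- `R`-constants: `algebraMap R B r ∈ n ↔ algebraMap R B' r ∈ n'`. -/
theorem algebraMap_mem_backIdeal_iff [hn' : n'.IsPrime] (hyn : (⟨y, hy⟩ : B') ∉ n') (r : R) :
    algebraMap R B r ∈ backIdeal B n' y hy hclear ↔ algebraMap R B' r ∈ n' := by
  have h : y ^ 0 * ((algebraMap R B r : B) : F) ∈ B' := by
    rw [pow_zero, one_mul]
    exact B'.algebraMap_mem r
  rw [mem_backIdeal_iff hy hclear hyn _ 0 h]
  constructor
  · intro h1
    refine mem_congr_val ?_ h1
    show y ^ 0 * ((algebraMap R B r : B) : F) = ((algebraMap R B' r : B') : F)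
    rw [pow_zero, one_mul]
    rfl
  · intro h1
    refine mem_congr_val ?_ h1
    show ((algebraMap R B' r : B') : F) = y ^ 0 * ((algebraMap R B r : B) : F)
    rw [pow_zero, one_mul]
    rfl

theorem backIdeal_ne_top [hn' : n'.IsPrime] (hyn : (⟨y, hy⟩ : B') ∉ n') :
    backIdeal B n' y hy hclear ≠ ⊤ := by
  intro htop
  have h1 : (1 : B) ∈ backIdeal B n' y hy hclear := by
    rw [htop]
    exact Submodule.mem_top
  have h : y ^ 0 * (((1 : B) : B) : F) ∈ B' := by
    rw [pow_zero, one_mul]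
    exact B'.one_mem
  rw [mem_backIdeal_iff hy hclear hyn _ 0 h] at h1
  apply hn'.ne_top
  rw [Ideal.eq_top_iff_one]
  refine mem_congr_val ?_ h1
  show y ^ 0 * ((1 : B) : F) = ((1 : B') : F)
  rw [pow_zero, one_mul]
  rfl

/-- **Rationality passes to the other chart.** -/
theorem backIdeal_rat [IsLocalRing R] [hn' : n'.IsPrime] (hyn : (⟨y, hy⟩ : B') ∉ n')
    (h𝔪n' : ∀ r ∈ IsLocalRing.maximalIdeal R, algebraMap R B' r ∈ n')
    (hrat' : ∀ c : B', ∃ r : R, c - algebraMap R B' r ∈ n') (b : B) :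
    ∃ r : R, b - algebraMap R B r ∈ backIdeal B n' y hy hclear := by
  obtain ⟨k, h⟩ := hclear b
  obtain ⟨r, hr⟩ := hrat' ⟨_, h⟩
  obtain ⟨r₀, hr₀⟩ := hrat' ⟨y, hy⟩
  have hr₀u : IsUnit r₀ := by
    by_contra hnu
    have h1 : r₀ ∈ IsLocalRing.maximalIdeal R := (IsLocalRing.mem_maximalIdeal r₀).2 hnu
    apply hyn
    have h2 : (⟨y, hy⟩ : B') = (⟨y, hy⟩ - algebraMap R B' r₀) + algebraMap R B' r₀ := by ring
    rw [h2]
    exact n'.add_mem hr₀ (h𝔪n' r₀ h1)
  obtain ⟨s₀, hs₀⟩ := hr₀u.exists_right_inv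
  -- `s₀ y ≡ 1`
  have h1 : algebraMap R B' s₀ * (⟨y, hy⟩ : B') - 1 ∈ n' := by
    have : algebraMap R B' s₀ * (⟨y, hy⟩ : B') - 1
        = algebraMap R B' s₀ * (⟨y, hy⟩ - algebraMap R B' r₀) := by
      have h2 : algebraMap R B' s₀ * algebraMap R B' r₀ = 1 := by
        rw [← map_mul, mul_comm, hs₀, map_one]
      linear_combination h2
    rw [this]
    exact n'.mul_mem_left _ hr₀
  have h2 : (algebraMap R B' s₀ * (⟨y, hy⟩ : B')) ^ k - 1 ∈ n' := by
    have := pow_sub_pow_mem_ideal n' h1 k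
    rwa [one_pow] at this
  refine ⟨r * s₀ ^ k, ?_⟩
  have hmem : y ^ k * (((b - algebraMap R B (r * s₀ ^ k) : B) : B) : F) ∈ B' := by
    have e : y ^ k * (((b - algebraMap R B (r * s₀ ^ k) : B) : B) : F)
        = y ^ k * (b : F) - algebraMap R F (r * s₀ ^ k) * y ^ k := by
      simp only [Subalgebra.coe_sub, Subalgebra.coe_algebraMap]
      ring
    rw [e]
    exact B'.sub_mem h (B'.mul_mem (B'.algebraMap_mem _) (B'.pow_mem hy k))
  rw [mem_backIdeal_iff hy hclear hyn _ k hmem]
  have h3 : ((⟨_, h⟩ : B') - algebraMap R B' r)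
      - algebraMap R B' r * ((algebraMap R B' s₀ * (⟨y, hy⟩ : B')) ^ k - 1) ∈ n' :=
    n'.sub_mem hr (n'.mul_mem_left _ h2)
  refine mem_congr_val ?_ h3
  simp only [Subalgebra.coe_sub, Subalgebra.coe_mul, Subalgebra.coe_pow,
    Subalgebra.coe_algebraMap, Subalgebra.coe_one, map_mul, map_pow]
  ring

/-- **The point of `B` is closed.** -/
theorem backIdeal_isMaximal [IsLocalRing R] [hn' : n'.IsPrime] (hyn : (⟨y, hy⟩ : B') ∉ n')
    (h𝔪n' : ∀ r ∈ IsLocalRing.maximalIdeal R, algebraMap R B' r ∈ n')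
    (hrat' : ∀ c : B', ∃ r : R, c - algebraMap R B' r ∈ n') :
    (backIdeal B n' y hy hclear).IsMaximal := by
  rw [Ideal.isMaximal_iff]
  refine ⟨fun h1 => backIdeal_ne_top hy hclear hyn ((Ideal.eq_top_iff_one _).2 h1), ?_⟩
  intro J b hle hbn hbJ
  obtain ⟨r, hr⟩ := backIdeal_rat hy hclear hyn h𝔪n' hrat' b
  have hrJ : algebraMap R B r ∈ J := by
    have : algebraMap R B r = b - (b - algebraMap R B r) := by ring
    rw [this]
    exact J.sub_mem hbJ (hle hr)
  have hru : IsUnit r := by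
    by_contra hnu
    have h1 : r ∈ IsLocalRing.maximalIdeal R := (IsLocalRing.mem_maximalIdeal r).2 hnu
    apply hbn
    have h2 : b = (b - algebraMap R B r) + algebraMap R B r := by ring
    rw [h2]
    exact Ideal.add_mem _ hr
      ((algebraMap_mem_backIdeal_iff hy hclear hyn r).2 (h𝔪n' r h1))
  obtain ⟨s, hs⟩ := hru.exists_right_inv
  have : (1 : B) = algebraMap R B r * algebraMap R B s := by
    rw [← map_mul, hs, map_one]
  rw [this]
  exact J.mul_mem_right _ hrJ

/-- A sheet through `n'` passes through the point of `B`. -/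
theorem passThrough_back [hn' : n'.IsPrime] (hyn : (⟨y, hy⟩ : B') ∉ n')
    {V : ValuationSubring F} (hyV : y ∈ V) (hth : PassThrough B' n' V) :
    PassThrough B (backIdeal B n' y hy hclear) V := by
  intro b hb
  obtain ⟨k, h⟩ := hclear b
  rw [mem_backIdeal_iff hy hclear hyn b k h]
  exact hth _ (vnu_mul_left V hb (V.pow_mem hyV k))

/-- **A purity datum at `n'` gives a purity datum at the point of `B`.** -/
theorem pure_back [hn' : n'.IsPrime] (hyn : (⟨y, hy⟩ : B') ∉ n')
    (hyinv : y⁻¹ ∈ B) (hclear' : ∀ c : B', ∃ k : ℕ, y⁻¹ ^ k * (c : F) ∈ B)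
    {m : ℕ} {u : F}
    (h : ∃ (d : F) (a₀ s₀ : B'), a₀ ∉ n' ∧ s₀ ∉ n' ∧ u * d ^ m * (s₀ : F) = a₀) :
    ∃ (d : F) (a₀ s₀ : B), a₀ ∉ backIdeal B n' y hy hclear ∧
      s₀ ∉ backIdeal B n' y hy hclear ∧ u * d ^ m * (s₀ : F) = a₀ := by
  obtain ⟨d, a₀, s₀, ha₀, hs₀, hpure⟩ := h
  have hy0 : y ≠ 0 := by
    rintro rfl
    apply hyn
    have : (⟨0, hy⟩ : B') = 0 := rfl
    rw [this]
    exact n'.zero_mem
  obtain ⟨k₁, h₁⟩ := hclear' a₀
  obtain ⟨k₂, h₂⟩ := hclear' s₀
  have ha : y⁻¹ ^ (k₁ + k₂) * (a₀ : F) ∈ B := by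
    have : y⁻¹ ^ (k₁ + k₂) * (a₀ : F) = y⁻¹ ^ k₂ * (y⁻¹ ^ k₁ * (a₀ : F)) := by ring
    rw [this]
    exact B.mul_mem (B.pow_mem hyinv k₂) h₁
  have hs : y⁻¹ ^ (k₁ + k₂) * (s₀ : F) ∈ B := by
    have : y⁻¹ ^ (k₁ + k₂) * (s₀ : F) = y⁻¹ ^ k₁ * (y⁻¹ ^ k₂ * (s₀ : F)) := by ring
    rw [this]
    exact B.mul_mem (B.pow_mem hyinv k₁) h₂
  have hcancel : ∀ c : F, y ^ (k₁ + k₂) * (y⁻¹ ^ (k₁ + k₂) * c) = c := by
    intro c
    rw [← mul_assoc, ← mul_pow, mul_inv_cancel₀ hy0, one_pow, one_mul]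
  refine ⟨d, ⟨_, ha⟩, ⟨_, hs⟩, ?_, ?_, ?_⟩
  · have h3 : y ^ (k₁ + k₂) * (((⟨_, ha⟩ : B) : B) : F) ∈ B' := by
      rw [hcancel]
      exact a₀.2
    rw [mem_backIdeal_iff hy hclear hyn _ (k₁ + k₂) h3]
    intro h4
    apply ha₀
    exact mem_congr_val (hcancel _) h4
  · have h3 : y ^ (k₁ + k₂) * (((⟨_, hs⟩ : B) : B) : F) ∈ B' := by
      rw [hcancel]
      exact s₀.2
    rw [mem_backIdeal_iff hy hclear hyn _ (k₁ + k₂) h3]
    intro h4
    apply hs₀
    exact mem_congr_val (hcancel _) h4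
  · show u * d ^ m * (y⁻¹ ^ (k₁ + k₂) * (s₀ : F)) = y⁻¹ ^ (k₁ + k₂) * (a₀ : F)
    rw [← hpure]
    ring

include hy hclear in
/-- two elements of `B` are moved into `B'` by a common power of `y` -/
theorem exists_clear₂ (a b : B) :
    ∃ k : ℕ, y ^ k * (a : F) ∈ B' ∧ y ^ k * (b : F) ∈ B' := by
  obtain ⟨k₁, h₁⟩ := hclear a
  obtain ⟨k₂, h₂⟩ := hclear b
  refine ⟨k₁ + k₂, ?_, ?_⟩
  · have : y ^ (k₁ + k₂) * (a : F) = y ^ k₂ * (y ^ k₁ * (a : F)) := by ring
    rw [this]
    exact B'.mul_mem (B'.pow_mem hy k₂) h₁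
  · have : y ^ (k₁ + k₂) * (b : F) = y ^ k₁ * (y ^ k₂ * (b : F)) := by ring
    rw [this]
    exact B'.mul_mem (B'.pow_mem hy k₁) h₂

/-- **Values pass to the other chart.** -/
theorem ValAt.of_back [hn' : n'.IsPrime] (hyn : (⟨y, hy⟩ : B') ∉ n')
    {V : ValuationSubring F} (hyV : y ∈ V) {d : F} {η : R}
    (h : ValAt B (backIdeal B n' y hy hclear) V d η) : ValAt B' n' V d η := by
  obtain ⟨a, b, hb, hV, hn⟩ := h
  obtain ⟨k, hka, hkb⟩ := exists_clear₂ hy hclear a b
  refine ⟨⟨_, hka⟩, ⟨_, hkb⟩, ?_, ?_, ?_⟩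
  · intro h1
    exact hb ((mem_backIdeal_iff hy hclear hyn b k hkb).2 h1)
  · have : y ^ k * (b : F) * d - y ^ k * (a : F) = y ^ k * ((b : F) * d - (a : F)) := by ring
    show y ^ k * (b : F) * d - y ^ k * (a : F) ∈ V.nonunits
    rw [this]
    exact vnu_mul_left V hV (V.pow_mem hyV k)
  · have hmem : y ^ k * (((a - algebraMap R B η * b : B) : B) : F) ∈ B' := by
      have e : y ^ k * (((a - algebraMap R B η * b : B) : B) : F)
          = y ^ k * (a : F) - algebraMap R F η * (y ^ k * (b : F)) := by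
        simp only [Subalgebra.coe_sub, Subalgebra.coe_mul, Subalgebra.coe_algebraMap]
        ring
      rw [e]
      exact B'.sub_mem hka (B'.mul_mem (B'.algebraMap_mem _) hkb)
    have h1 := (mem_backIdeal_iff hy hclear hyn _ k hmem).1 hn
    refine mem_congr_val ?_ h1
    simp only [Subalgebra.coe_sub, Subalgebra.coe_mul, Subalgebra.coe_algebraMap]
    ring

/-- **The label datum passes to the other chart.** -/
theorem LabelAt.of_back [hn' : n'.IsPrime] (hyn : (⟨y, hy⟩ : B') ∉ n')
    {𝒱 : Set (ValuationSubring F)} (hyV : ∀ V ∈ 𝒱, y ∈ V) {m : ℕ} {u : F} {ζ : R}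
    {κ : ValuationSubring F → ℕ}
    (h : LabelAt B (backIdeal B n' y hy hclear) 𝒱 m u ζ κ) : LabelAt B' n' 𝒱 m u ζ κ := by
  obtain ⟨d, a₀, s₀, η₀, hd0, hs₀, hpure, hη₀, hval⟩ := h
  obtain ⟨k, hka, hks⟩ := exists_clear₂ hy hclear a₀ s₀
  refine ⟨d, ⟨_, hka⟩, ⟨_, hks⟩, η₀, hd0, ?_, ?_, ?_, ?_⟩
  · intro h1
    exact hs₀ ((mem_backIdeal_iff hy hclear hyn s₀ k hks).2 h1)
  · show u * d ^ m * (y ^ k * (s₀ : F)) = y ^ k * (a₀ : F)
    rw [← hpure]
    ring
  · intro h1
    exact hη₀ ((algebraMap_mem_backIdeal_iff hy hclear hyn η₀).2 h1)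
  · intro V hV hth
    exact (hval V hV (passThrough_back hy hclear hyn (hyV V hV) hth)).of_back hy hclear hyn
      (hyV V hV)

end Back

end Fermat.Agent.S36.H630

end
-- ===== PACK-END S36/H630/ChartChange.lean

-- ===== PACK-BEGIN A2/Mod/H753/IndInf.lean
section






/-!
# A2 / MOD leaf L9 `IndInf` (helper753): residue independence on `C∞`

Level `N = M q`, `q ∤ M`, `R = R_E` a DVR with uniformiser `w`, `k = R / w` (characteristic `q`).

* `exists_monomials` : `ψ(M)` integral monomials `Y i ∈ ℤ[j_d : d ∣ M]` whose reductions are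
  polynomially independent over `k[j̄]` (row S28: `Good.exists_linearIndependent`);
* `red_eq_zero_of_inW` : an `R`-integral series lying in `w V∞` has zero reduction;
* `indInf_strong` : the family `g (a, i) = Y i · j^a ∈ F_M` (`0 ≤ a ≤ q`) consists of integral
  series (so it lies in EVERY Gauss ring of level `M`), and `b = α ∘ g` is `IndepMod` for the
  coordinate `x = j j_q`  (`x̄ = j̄^(q+1)`, Frobenius congruence + base-`(q+1)` digits);
* `indInf : IndInfStatement P E M q w`;
* `eq_zero_of_sum_expand_mul_X_pow` : `∑_{a<n} p_a(X^n) X^a = 0 ⟹ p_a = 0` (Mathlib-only).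
-/

set_option autoImplicit false
set_option synthInstance.maxHeartbeats 400000
set_option maxHeartbeats 1600000

noncomputable section

namespace Fermat.Agent.A2.Mod.H753

open ModularCurve HahnSeries Polynomial
open Fermat.Agent.S28 (intDivisorExpansions jField)
open Fermat.Agent.S28.H325 (castL PolyIndep)

/-! ## 0. base-`n` digits of polynomials (Mathlib-only) -/


/-- coefficient of `∑_{a<n} p_a(X^n) X^a` at `n m + a₀` is the `m`-th coefficient of `p_{a₀}`. -/
theorem coeff_sum_expand_mul_X_pow {k : Type*} [CommSemiring k] {n : ℕ} (hn : 0 < n)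
    (p : Fin n → k[X]) (a₀ : Fin n) (m : ℕ) :
    (∑ a : Fin n, expand k n (p a) * X ^ (a : ℕ)).coeff (n * m + a₀) = (p a₀).coeff m := by
  rw [Polynomial.finsetSum_coeff]
  rw [Finset.sum_eq_single a₀]
  · rw [coeff_mul_X_pow, coeff_expand_mul' hn]
  · intro a _ hne
    rw [coeff_mul_X_pow']
    split_ifs with hle
    · rw [coeff_expand hn, if_neg]
      intro hdvd
      apply hne
      have h1 : (n : ℤ) ∣ ((a₀ : ℕ) : ℤ) - ((a : ℕ) : ℤ) := by
        have h2 : (n : ℤ) ∣ ((n * m + a₀ - a : ℕ) : ℤ) := by exact_mod_cast hdvd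
        rw [Nat.cast_sub hle] at h2
        push_cast at h2
        have h3 : ((n : ℤ) * m + a₀ - a) = (a₀ - a) + n * m := by ring
        rw [h3] at h2
        exact (Int.dvd_add_left (Dvd.intro _ rfl)).mp h2
      have ha : ((a : ℕ) : ℤ) < n := by exact_mod_cast a.2
      have ha₀ : ((a₀ : ℕ) : ℤ) < n := by exact_mod_cast a₀.2
      have h0a : (0 : ℤ) ≤ ((a : ℕ) : ℤ) := by positivity
      have h0a₀ : (0 : ℤ) ≤ ((a₀ : ℕ) : ℤ) := by positivity
      have h4 : ((a₀ : ℕ) : ℤ) - ((a : ℕ) : ℤ) = 0 := by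
        apply Int.eq_zero_of_abs_lt_dvd h1
        rw [abs_lt]
        constructor <;> linarith
      apply Fin.ext
      have : ((a : ℕ) : ℤ) = ((a₀ : ℕ) : ℤ) := by linarith
      exact_mod_cast this
    · rfl
  · intro h
    exact absurd (Finset.mem_univ a₀) h

/-- **Digits.**  `∑_{a<n} p_a(X^n) X^a = 0 ⟹ p_a = 0`. -/
theorem eq_zero_of_sum_expand_mul_X_pow {k : Type*} [CommSemiring k] {n : ℕ} (hn : 0 < n)
    (p : Fin n → k[X]) (h : ∑ a : Fin n, expand k n (p a) * X ^ (a : ℕ) = 0) (a₀ : Fin n) :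
    p a₀ = 0 := by
  ext m
  rw [← coeff_sum_expand_mul_X_pow hn p a₀ m, h, Polynomial.coeff_zero, Polynomial.coeff_zero]

/-! ## 1. the residue field has characteristic `q` -/

section Char

variable (P : ValuationSubring _root_.Fermat.Agent.A2.Mod.Qb) (E : IntermediateField ℚ _root_.Fermat.Agent.A2.Mod.Qb)

theorem natCast_mem_maximalIdeal {q : ℕ} (hP : P.LiesOverPrime q) :
    (q : _root_.Fermat.Agent.A2.Mod.RE P E) ∈ IsLocalRing.maximalIdeal (_root_.Fermat.Agent.A2.Mod.RE P E) := by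
  rw [IsLocalRing.mem_maximalIdeal, mem_nonunits_iff]
  intro hu
  obtain ⟨u, hu⟩ := hu.exists_right_inv
  have h1 : ((q : _root_.Fermat.Agent.A2.Mod.RE P E) : E) * (u : E) = 1 := by
    have := congrArg (fun z : _root_.Fermat.Agent.A2.Mod.RE P E => (z : E)) hu
    simpa using this
  have h2 : (q : _root_.Fermat.Agent.A2.Mod.Qb) * algebraMap E _root_.Fermat.Agent.A2.Mod.Qb (u : E) = 1 := by
    have := congrArg (algebraMap E _root_.Fermat.Agent.A2.Mod.Qb) h1
    simpa using this
  have hmem : algebraMap E _root_.Fermat.Agent.A2.Mod.Qb (u : E) ∈ P := u.2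
  have hq : (q : _root_.Fermat.Agent.A2.Mod.Qb) ∈ P := natCast_mem P q
  have hunit : IsUnit (⟨(q : _root_.Fermat.Agent.A2.Mod.Qb), hq⟩ : P) := by
    refine IsUnit.of_mul_eq_one (⟨algebraMap E _root_.Fermat.Agent.A2.Mod.Qb (u : E), hmem⟩ : P) ?_
    exact Subtype.ext h2
  have h3 : ((⟨(q : _root_.Fermat.Agent.A2.Mod.Qb), hq⟩ : P) : _root_.Fermat.Agent.A2.Mod.Qb) ∈ P.nonunits := hP
  rw [ValuationSubring.coe_mem_nonunits_iff, IsLocalRing.mem_maximalIdeal, mem_nonunits_iff] at h3
  exact h3 hunit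

theorem charP_residueField {q : ℕ} (hq : q.Prime) (hP : P.LiesOverPrime q) :
    CharP (IsLocalRing.ResidueField (_root_.Fermat.Agent.A2.Mod.RE P E)) q := by
  refine (CharP.charP_iff_prime_eq_zero hq).mpr ?_
  have h3 := (IsLocalRing.residue_eq_zero_iff (q : _root_.Fermat.Agent.A2.Mod.RE P E)).mpr (natCast_mem_maximalIdeal P E hP)
  rwa [map_natCast] at h3

end Char

/-! ## 2. the monomials -/

/-- `ψ(M)` integral monomials with polynomially independent reductions. -/
theorem exists_monomials (M q : ℕ) [NeZero M] (hq : q.Prime) (hqM : ¬ q ∣ M)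
    (k : Type*) [Field k] [CharP k q] :
    ∃ Y : Fin (dedekindPsi M) → LaurentSeries ℤ,
      (∀ i, Y i ∈ Submonoid.closure (intDivisorExpansions M)) ∧
      PolyIndep (jqModC k) (fun i => castL k (Y i)) := by
  have hchar : ∀ p : ℕ, p.Prime → p ∣ M → (p : k) ≠ 0 := by
    intro p hp hpM h0
    have hdvd : q ∣ p := (CharP.cast_eq_zero_iff k q p).mp h0
    have : q = p := (Nat.prime_dvd_prime_iff_eq hq hp).mp hdvd
    exact hqM (this ▸ hpM)
  have hΦ : ∀ p : ℕ, p.Prime → p ∣ M → ∀ [NeZero p], Nonempty (Fermat.Agent.S28.ModPolyData p) :=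
    fun p hp _ _ => Fermat.Agent.S28.H807.nonempty_modPolyData p hp
  have hW : ∀ p : ℕ, p.Prime → p ∣ M → ∀ [NeZero p], Nonempty (Fermat.Agent.S28.UnitPolyData p) :=
    fun p hp _ _ => Fermat.Agent.S28.H807.nonempty_unitPolyData p hp
  have hgood : Fermat.Agent.S28.H867.Good k M :=
    Fermat.Agent.S28.H867.good_of_inputs k M (NeZero.ne M) hΦ hW
      Fermat.Agent.S28.H25.theta_identity hchar
  obtain ⟨Y, hY, hli⟩ := Fermat.Agent.S28.H325.exists_monomials_linearIndependent k M
    (Fermat.Agent.S28.H867.coreData_integral M hΦ) (dedekindPsi M) hgood.exists_linearIndependent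
  refine ⟨Y, hY, ?_⟩
  exact Fermat.Agent.S28.H325.polyIndep_of_linearIndependent
    (fun Q hQ => (Fermat.Agent.S28.H325.aeval_jqModC_eq_zero_iff k Q).mp hQ) hli

/-! ## 3. integral series in `w V∞` have zero reduction -/

section Red

variable (P : ValuationSubring _root_.Fermat.Agent.A2.Mod.Qb) (E : IntermediateField ℚ _root_.Fermat.Agent.A2.Mod.Qb) (N : ℕ)

theorem coe_cE (r : _root_.Fermat.Agent.A2.Mod.RE P E) :
    ((cE P E N r : _root_.Fermat.Agent.A2.Mod.FE E N) : LaurentSeries E) = H708.cst ((r : E)) := rfl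

variable {P E N}

theorem red_eq_zero_of_inW {V : ValuationSubring (_root_.Fermat.Agent.A2.Mod.FE E N)} (hV : IsVinf P E N V) {w : _root_.Fermat.Agent.A2.Mod.RE P E}
    (hw0 : w ≠ 0) (hw : w ∈ IsLocalRing.maximalIdeal (_root_.Fermat.Agent.A2.Mod.RE P E)) {f : _root_.Fermat.Agent.A2.Mod.FE E N}
    {S : LaurentSeries (_root_.Fermat.Agent.A2.Mod.RE P E)} (hS : (f : LaurentSeries E) = H708.incl (_root_.Fermat.Agent.A2.Mod.RE P E) S)
    (h : InW P E N V w f) : H708.red (_root_.Fermat.Agent.A2.Mod.RE P E) S = 0 := by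
  obtain ⟨U₁, U₂, hU₂, -, he⟩ := (hV _).mp h
  have hwE : ((w : E)) ≠ 0 := fun h0 => hw0 (Subtype.ext h0)
  have hc : H708.cst (w : E) ≠ 0 := H708.cst_ne_zero hwE
  have hcoe : (((f * (cE P E N w)⁻¹ : _root_.Fermat.Agent.A2.Mod.FE E N)) : LaurentSeries E)
      = (f : LaurentSeries E) * (H708.cst (w : E))⁻¹ := by
    rw [IntermediateField.coe_mul, IntermediateField.coe_inv]
    rfl
  have he' : (f : LaurentSeries E) * H708.incl (_root_.Fermat.Agent.A2.Mod.RE P E) U₂
      = H708.cst (w : E) * H708.incl (_root_.Fermat.Agent.A2.Mod.RE P E) U₁ := by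
    rw [← he, hcoe]
    field_simp
  have h2 : S * U₂ = H708.cstA (_root_.Fermat.Agent.A2.Mod.RE P E) w * U₁ := by
    apply H708.incl_injective (_root_.Fermat.Agent.A2.Mod.RE P E)
    rw [map_mul, map_mul, H708.incl_cstA, ← hS, he']
  have h3 := congrArg (H708.red (_root_.Fermat.Agent.A2.Mod.RE P E)) h2
  rw [map_mul, map_mul, H708.red_cstA, (IsLocalRing.residue_eq_zero_iff w).mpr hw,
    HahnSeries.single_eq_zero, zero_mul] at h3
  rcases mul_eq_zero.mp h3 with h4 | h4
  · exact h4
  · exact absurd h4 hU₂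

end Red

/-! ## 4. the family `Y i · j^a` -/

section Family

variable (M q : ℕ)

/-- the integral series `Y_i · j^a`, indexed by `Fin ((q+1) ψ(M)) ≃ Fin (q+1) × Fin ψ(M)`. -/
def monoZ (Y : Fin (dedekindPsi M) → LaurentSeries ℤ) (i : Fin ((q + 1) * dedekindPsi M)) :
    LaurentSeries ℤ :=
  Y (finProdFinEquiv.symm i).2 * jqModC ℤ ^ ((finProdFinEquiv.symm i).1 : ℕ)

/-- the integral series of the coordinate `x = j · j_q`. -/
def xZ [NeZero q] : LaurentSeries ℤ := jqModC ℤ * qExpand ℤ q (jqModC ℤ)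

theorem castQ_jqModC : H708.castQ (jqModC ℤ) = jq := by
  rw [H708.castQ, coeffMap_jqModC, jqModC_rat]

theorem castQ_mem_full_of_mem_closure [NeZero M] {y : LaurentSeries ℤ}
    (hy : y ∈ Submonoid.closure (intDivisorExpansions M)) :
    H708.castQ y ∈ modularFunctionFieldFull M := by
  have h1 : castL ℚ y ∈ castL ℚ ''
      ((Submonoid.closure (intDivisorExpansions M) : Submonoid (LaurentSeries ℤ)) :
        Set (LaurentSeries ℤ)) := ⟨y, hy, rfl⟩
  rw [Fermat.Agent.S28.H325.castL_image_closure] at h1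
  exact Fermat.Agent.S28.H325.monomials_subset_full ℚ M h1

theorem castQ_monoZ_mem [NeZero M] {Y : Fin (dedekindPsi M) → LaurentSeries ℤ}
    (hY : ∀ i, Y i ∈ Submonoid.closure (intDivisorExpansions M))
    (i : Fin ((q + 1) * dedekindPsi M)) :
    H708.castQ (monoZ M q Y i) ∈ modularFunctionFieldFull M := by
  rw [monoZ, map_mul, map_pow, castQ_jqModC]
  refine mul_mem (castQ_mem_full_of_mem_closure M (hY _)) (pow_mem ?_ _)
  have := jqd_mem_full M (one_dvd M)
  rwa [qExpand_one_apply] at this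

end Family

section Main

variable (P : ValuationSubring _root_.Fermat.Agent.A2.Mod.Qb) (E : IntermediateField ℚ _root_.Fermat.Agent.A2.Mod.Qb) (M q : ℕ) [NeZero M] [NeZero q]

/-- the elements `g i = Y i · j^a` of `F_M`. -/
def gFam {Y : Fin (dedekindPsi M) → LaurentSeries ℤ}
    (hY : ∀ i, Y i ∈ Submonoid.closure (intDivisorExpansions M))
    (i : Fin ((q + 1) * dedekindPsi M)) : _root_.Fermat.Agent.A2.Mod.FE E M :=
  ⟨coeffEmb E (H708.castQ (monoZ M q Y i)),
    coeffEmb_mem_laurentBaseChange E (castQ_monoZ_mem M q hY i)⟩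

omit [NeZero q] in
theorem coe_gFam {Y : Fin (dedekindPsi M) → LaurentSeries ℤ}
    (hY : ∀ i, Y i ∈ Submonoid.closure (intDivisorExpansions M))
    (i : Fin ((q + 1) * dedekindPsi M)) :
    ((gFam E M q hY i : _root_.Fermat.Agent.A2.Mod.FE E M) : LaurentSeries E)
      = H708.incl (_root_.Fermat.Agent.A2.Mod.RE P E) (H708.castA (_root_.Fermat.Agent.A2.Mod.RE P E) (monoZ M q Y i)) := by
  rw [H708.incl_castA]
  rfl

omit [NeZero q] in
theorem gFam_mem {Y : Fin (dedekindPsi M) → LaurentSeries ℤ}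
    (hY : ∀ i, Y i ∈ Submonoid.closure (intDivisorExpansions M))
    {VM : ValuationSubring (_root_.Fermat.Agent.A2.Mod.FE E M)} (hVM : IsVinf P E M VM)
    (i : Fin ((q + 1) * dedekindPsi M)) : gFam E M q hY i ∈ VM := by
  rw [hVM, coe_gFam P]
  exact H708.IsGaussInt.of_incl _

theorem alpha_gFam_mem {Y : Fin (dedekindPsi M) → LaurentSeries ℤ}
    (hY : ∀ i, Y i ∈ Submonoid.closure (intDivisorExpansions M))
    {V : ValuationSubring (_root_.Fermat.Agent.A2.Mod.FE E (M * q))} (hV : IsVinf P E (M * q) V)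
    (i : Fin ((q + 1) * dedekindPsi M)) : αE E M q (gFam E M q hY i) ∈ V := by
  rw [hV, coe_heckeAlphaBar, coe_gFam P]
  exact H708.IsGaussInt.of_incl _

omit [NeZero M] in
theorem coe_xE :
    ((xE E M q : _root_.Fermat.Agent.A2.Mod.FE E (M * q)) : LaurentSeries E)
      = H708.incl (_root_.Fermat.Agent.A2.Mod.RE P E) (H708.castA (_root_.Fermat.Agent.A2.Mod.RE P E) (xZ q)) := by
  rw [H708.incl_castA, xZ, map_mul, H708.castQ, coeffMap_qExpand, ← H708.castQ, castQ_jqModC,
    map_mul, xE, IntermediateField.coe_mul]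
  show coeffEmb E (qExpand ℚ 1 jq) * coeffEmb E (qExpand ℚ q jq) = _
  rw [qExpand_one_apply]

/-- the coercion of `ev x p` is the inclusion of the integral series `p(X)`. -/
theorem coe_ev {N : ℕ} (x : _root_.Fermat.Agent.A2.Mod.FE E N) (X : LaurentSeries (_root_.Fermat.Agent.A2.Mod.RE P E))
    (hx : (x : LaurentSeries E) = H708.incl (_root_.Fermat.Agent.A2.Mod.RE P E) X) (p : Polynomial (_root_.Fermat.Agent.A2.Mod.RE P E)) :
    ((ev P E N x p : _root_.Fermat.Agent.A2.Mod.FE E N) : LaurentSeries E) = H708.incl (_root_.Fermat.Agent.A2.Mod.RE P E) (aeval X p) := by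
  rw [H708.incl, Fermat.Agent.S28.H325.coeffMap_aeval, ← H708.incl, ← hx, aeval_def,
    Polynomial.eval₂_map, ev]
  exact Polynomial.hom_eval₂ p ((algebraMap E (_root_.Fermat.Agent.A2.Mod.FE E N)).comp (_root_.Fermat.Agent.A2.Mod.RE P E).subtype)
    (algebraMap (_root_.Fermat.Agent.A2.Mod.FE E N) (LaurentSeries E)) x

/-! ## 5. reductions -/

theorem red_castA (Z : LaurentSeries ℤ) :
    H708.red (_root_.Fermat.Agent.A2.Mod.RE P E) (H708.castA (_root_.Fermat.Agent.A2.Mod.RE P E) Z)
      = castL (IsLocalRing.ResidueField (_root_.Fermat.Agent.A2.Mod.RE P E)) Z := by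
  rw [H708.red, H708.castA, coeffMap_coeffMap]
  exact coeffMap_congr (RingHom.ext_int _ _) Z

/-- Frobenius: `j̄_q = j̄^q` in characteristic `q`. -/
theorem castL_qExpand_jqModC (hq : q.Prime) (k : Type*) [Field k] [CharP k q] :
    castL k (qExpand ℤ q (jqModC ℤ)) = jqModC k ^ q := by
  have : Fact q.Prime := ⟨hq⟩
  obtain ⟨g, hg⟩ := H528.exists_frobCong q (jqModC ℤ)
  have h1 : qExpand ℤ q (jqModC ℤ) = jqModC ℤ ^ q + HahnSeries.C (q : ℤ) * g := by
    rw [← hg]; ring
  have h2 : castL k (HahnSeries.C (q : ℤ)) = 0 := by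
    ext n
    rw [castL, coeffMap_coeff, HahnSeries.coeff_zero, HahnSeries.C_apply,
      HahnSeries.coeff_single]
    split_ifs
    · rw [eq_intCast, Int.cast_natCast, CharP.cast_eq_zero k q]
    · rw [map_zero]
  rw [h1, map_add, map_mul, h2, zero_mul, add_zero, map_pow,
    Fermat.Agent.S28.H325.castL_jqModC]

theorem castL_xZ (hq : q.Prime) (k : Type*) [Field k] [CharP k q] :
    castL k (xZ q) = jqModC k ^ (q + 1) := by
  rw [xZ, map_mul, castL_qExpand_jqModC q hq k, Fermat.Agent.S28.H325.castL_jqModC, pow_succ']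

omit [NeZero M] [NeZero q] in
theorem castL_monoZ (k : Type*) [Field k] (Y : Fin (dedekindPsi M) → LaurentSeries ℤ)
    (i : Fin ((q + 1) * dedekindPsi M)) :
    castL k (monoZ M q Y i)
      = castL k (Y (finProdFinEquiv.symm i).2) * jqModC k ^ ((finProdFinEquiv.symm i).1 : ℕ) := by
  rw [monoZ, map_mul, map_pow, Fermat.Agent.S28.H325.castL_jqModC]

/-- polynomial independence of the family `v i · J^a` over `k[J^(q+1)]`. -/
theorem polyIndep_tower {k : Type*} [Field k] {n : ℕ} (m : ℕ) (hm : 0 < m)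
    (J : LaurentSeries k) (v : Fin n → LaurentSeries k) (hv : PolyIndep J v)
    (p : Fin (m * n) → Polynomial k)
    (h : ∑ i, aeval (J ^ m) (p i) *
      (v (finProdFinEquiv.symm i).2 * J ^ ((finProdFinEquiv.symm i).1 : ℕ)) = 0)
    (i : Fin (m * n)) : p i = 0 := by
  have h1 : ∑ i' : Fin n, aeval J (∑ a : Fin m,
      expand k m (p (finProdFinEquiv (a, i'))) * X ^ (a : ℕ)) * v i' = 0 := by
    rw [← h]
    rw [Fintype.sum_equiv finProdFinEquiv.symm
      (fun i => aeval (J ^ m) (p i) *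
        (v (finProdFinEquiv.symm i).2 * J ^ ((finProdFinEquiv.symm i).1 : ℕ)))
      (fun z : Fin m × Fin n => aeval (J ^ m) (p (finProdFinEquiv z)) * (v z.2 * J ^ (z.1 : ℕ)))
      (fun i => by simp only [Equiv.apply_symm_apply])]
    rw [Fintype.sum_prod_type, Finset.sum_comm]
    refine Finset.sum_congr rfl fun i' _ => ?_
    rw [map_sum, Finset.sum_mul]
    refine Finset.sum_congr rfl fun a _ => ?_
    rw [map_mul, expand_aeval, map_pow, aeval_X]
    ring
  have h2 := hv _ h1 (finProdFinEquiv.symm i).2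
  have h3 : p (finProdFinEquiv ((finProdFinEquiv.symm i).1, (finProdFinEquiv.symm i).2)) = 0 :=
    eq_zero_of_sum_expand_mul_X_pow hm
      (fun a => p (finProdFinEquiv (a, (finProdFinEquiv.symm i).2))) h2 (finProdFinEquiv.symm i).1
  rwa [Prod.mk.eta, Equiv.apply_symm_apply] at h3

/-- `p̄ = 0 ⟹ w ∣ p`. -/
theorem C_dvd_of_map_residue_eq_zero {w : _root_.Fermat.Agent.A2.Mod.RE P E} (hdvr : IsDiscreteValuationRing (_root_.Fermat.Agent.A2.Mod.RE P E))
    (hw : Irreducible w) {p : Polynomial (_root_.Fermat.Agent.A2.Mod.RE P E)}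
    (hp : p.map (IsLocalRing.residue (_root_.Fermat.Agent.A2.Mod.RE P E)) = 0) : Polynomial.C w ∣ p := by
  rw [Polynomial.C_dvd_iff_dvd_coeff]
  intro n
  have h1 : IsLocalRing.residue (_root_.Fermat.Agent.A2.Mod.RE P E) (p.coeff n) = 0 := by
    have := congrArg (fun z => z.coeff n) hp
    simpa using this
  rw [IsLocalRing.residue_eq_zero_iff, hw.maximalIdeal_eq, Ideal.mem_span_singleton] at h1
  exact h1

/-! ## 6. the leaf -/

/-- **L9, strong form.**  There is a family `g` of `(q+1) ψ(M)` elements of `F_M`, integral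
series (hence in every Gauss ring of level `M`), such that `α ∘ g` lies in `V∞` (level `M q`) and
is independent modulo `w` over `R[x]`, `x = j j_q`. -/
theorem indInf_strong (w : _root_.Fermat.Agent.A2.Mod.RE P E) (hS : Setting P E M q w) :
    ∃ g : Fin ((q + 1) * dedekindPsi M) → _root_.Fermat.Agent.A2.Mod.FE E M,
      (∀ VM : ValuationSubring (_root_.Fermat.Agent.A2.Mod.FE E M), IsVinf P E M VM → ∀ i, g i ∈ VM) ∧
      ∀ V : ValuationSubring (_root_.Fermat.Agent.A2.Mod.FE E (M * q)), IsVinf P E (M * q) V →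
        (∀ i, αE E M q (g i) ∈ V) ∧
        IndepMod P E (M * q) V w (xE E M q) (fun i => αE E M q (g i)) := by
  have hdvr := hS.dvr
  have : CharP (IsLocalRing.ResidueField (_root_.Fermat.Agent.A2.Mod.RE P E)) q :=
    charP_residueField P E hS.q_prime hS.lies_over
  obtain ⟨Y, hY, hYi⟩ := exists_monomials M q hS.q_prime hS.q_not_dvd
    (IsLocalRing.ResidueField (_root_.Fermat.Agent.A2.Mod.RE P E))
  refine ⟨gFam E M q hY, fun VM hVM i => gFam_mem P E M q hY hVM i, fun V hV => ⟨fun i =>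
    alpha_gFam_mem P E M q hY hV i, ?_⟩⟩
  intro a ha i
  -- the integral series of the relation
  set S : LaurentSeries (_root_.Fermat.Agent.A2.Mod.RE P E) :=
    ∑ i, aeval (H708.castA (_root_.Fermat.Agent.A2.Mod.RE P E) (xZ q)) (a i) * H708.castA (_root_.Fermat.Agent.A2.Mod.RE P E) (monoZ M q Y i) with hSdef
  have hcoe : ((∑ i, ev P E (M * q) (xE E M q) (a i) * αE E M q (gFam E M q hY i) :
      _root_.Fermat.Agent.A2.Mod.FE E (M * q)) : LaurentSeries E) = H708.incl (_root_.Fermat.Agent.A2.Mod.RE P E) S := by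
    rw [hSdef, map_sum, IntermediateField.coe_sum]
    refine Finset.sum_congr rfl fun i _ => ?_
    rw [IntermediateField.coe_mul, coe_ev P E (xE E M q) _ (coe_xE P E M q) (a i),
      coe_heckeAlphaBar, coe_gFam P, map_mul]
  have hw0 : w ≠ 0 := hS.unif.ne_zero
  have hwm : w ∈ IsLocalRing.maximalIdeal (_root_.Fermat.Agent.A2.Mod.RE P E) := by
    rw [IsLocalRing.mem_maximalIdeal, mem_nonunits_iff]
    exact hS.unif.not_isUnit
  have hred := red_eq_zero_of_inW hV hw0 hwm hcoe ha
  rw [hSdef, map_sum] at hred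
  have hred' : ∑ i, aeval (jqModC (IsLocalRing.ResidueField (_root_.Fermat.Agent.A2.Mod.RE P E)) ^ (q + 1))
      ((a i).map (IsLocalRing.residue (_root_.Fermat.Agent.A2.Mod.RE P E))) *
      (castL (IsLocalRing.ResidueField (_root_.Fermat.Agent.A2.Mod.RE P E)) (Y (finProdFinEquiv.symm i).2) *
        jqModC (IsLocalRing.ResidueField (_root_.Fermat.Agent.A2.Mod.RE P E)) ^ ((finProdFinEquiv.symm i).1 : ℕ)) = 0 := by
    rw [← hred]
    refine Finset.sum_congr rfl fun i _ => ?_
    rw [map_mul, H708.red, Fermat.Agent.S28.H325.coeffMap_aeval, ← H708.red, red_castA, red_castA,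
      castL_xZ q hS.q_prime, castL_monoZ]
  have hzero := polyIndep_tower (q + 1) (Nat.succ_pos q) _ _ hYi
    (fun i => (a i).map (IsLocalRing.residue (_root_.Fermat.Agent.A2.Mod.RE P E))) hred' i
  exact C_dvd_of_map_residue_eq_zero P E hdvr hS.unif hzero

end Main

/-- **L9** `IndInf` (exact shape of `Spec.IndInfStatement`). -/
theorem indInf (P : ValuationSubring _root_.Fermat.Agent.A2.Mod.Qb) (E : IntermediateField ℚ _root_.Fermat.Agent.A2.Mod.Qb) (M q : ℕ) [NeZero q]
    (w : _root_.Fermat.Agent.A2.Mod.RE P E) : IndInfStatement P E M q w := by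
  intro hS V hV
  have : NeZero M := ⟨hS.M_ne_zero⟩
  obtain ⟨g, -, hg⟩ := indInf_strong P E M q w hS
  exact ⟨fun i => αE E M q (g i), (hg V hV).1, (hg V hV).2⟩

end Fermat.Agent.A2.Mod.H753

end

end
-- ===== PACK-END A2/Mod/H753/IndInf.lean

-- ===== PACK-BEGIN S28/H589/UnitPoly.lean
section



/-!
# S28 / [A-W] (helper589): `p¹² Δ(q^p)/Δ(q)` is integral over `ℤ[j]`

Same route as `[A-Φ]` (`ModPoly.lean`): helper648's conjugate product for the good function
`u(τ) = p¹² Δ(pτ)/Δ(τ)` gives `W ∈ ℂ[Y][X]`, monic of degree `p + 1`, with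
`W(u(τ), j(τ)) = 0` and `W(Δ(τ)/Δ(pτ), j(pτ)) = 0`; `descent` shows `W ∈ ℤ[Y][X]`.
-/

set_option autoImplicit false

noncomputable section

open UpperHalfPlane ModularCurve CongruenceSubgroup Function
open scoped MatrixGroups Manifold Real Modular

namespace Fermat.Agent.S28.H589

open Fermat.Agent.S28.H565 (HasTExp deltaSeriesC deltaInvSeriesC)
open Fermat.Agent.S24.H648 (goodRing ExpGrowth)

local notation "Δ" => ModularForm.discriminant

/-! ### Formal identifications -/

theorem map_map_intCast (x : PowerSeries ℤ) :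
    (x.map (Int.castRingHom ℤ)).map (Int.castRingHom ℂ) = x.map (Int.castRingHom ℂ) := by
  ext n
  simp

theorem iotaC_deltaL : iotaC (deltaL ℤ) = deltaSeriesC := by
  rw [deltaL, map_mul, iotaC, coeffMap_single, coeffMap_ofPowerSeries, map_map_intCast,
    Fermat.Agent.S28.H565.map_dedekindEtaUnit, deltaSeriesC]
  simp

theorem iotaC_deltaInvL : iotaC (deltaInvL ℤ) = deltaInvSeriesC := by
  rw [deltaInvL, map_mul, iotaC, coeffMap_single, coeffMap_ofPowerSeries, map_map_intCast,
    deltaInvSeriesC, Fermat.Agent.S28.H565.etaInvC]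
  simp

theorem iotaC_unit (p : ℕ) [NeZero p] :
    iotaC ((p : LaurentSeries ℤ) ^ 12 * unitL ℤ p) = unitSeriesC p := by
  rw [unitL, map_mul, map_mul, map_pow, map_natCast, iotaC, coeffMap_qExpand]
  change _ * (qExpand ℂ p (iotaC (deltaL ℤ)) * iotaC (deltaInvL ℤ)) = _
  rw [iotaC_deltaL, iotaC_deltaInvL, unitSeriesC, map_pow, map_natCast]
  ring

/-- The integral series `Δ(q)/Δ(q^p)`. -/
def unitL' (p : ℕ) [NeZero p] : LaurentSeries ℤ := deltaL ℤ * qExpand ℤ p (deltaInvL ℤ)

theorem iotaC_unit' (p : ℕ) [NeZero p] : iotaC (unitL' p) = unitSeriesC' p := by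
  rw [unitL', map_mul, iotaC, coeffMap_qExpand]
  change iotaC (deltaL ℤ) * qExpand ℂ p (iotaC (deltaInvL ℤ)) = _
  rw [iotaC_deltaL, iotaC_deltaInvL, unitSeriesC']

theorem deltaSeriesC_ne_zero : deltaSeriesC ≠ 0 := by
  intro h
  have := Fermat.Agent.S28.H565.deltaSeriesC_mul_inv
  rw [h, zero_mul] at this
  exact zero_ne_one this

theorem order_deltaSeriesC : deltaSeriesC.order = 1 := by
  have hc : ∀ n : ℤ, deltaSeriesC.coeff n =
      (HahnSeries.ofPowerSeries ℤ ℂ (Fermat.Agent.S28.H565.etaProdC ^ 24)).coeff (n - 1) := by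
    intro n
    rw [deltaSeriesC, HahnSeries.coeff_single_mul, one_mul]
  have h1 : deltaSeriesC.coeff 1 ≠ 0 := by
    rw [hc]
    have : ((1 : ℤ) - 1) = ((0 : ℕ) : ℤ) := by norm_num
    rw [this, HahnSeries.ofPowerSeries_apply_coeff]
    have h2 : PowerSeries.constantCoeff (Fermat.Agent.S28.H565.etaProdC ^ 24) = 1 := by
      rw [map_pow, Fermat.Agent.S28.H565.etaProdC]
      have : PowerSeries.constantCoeff (PowerSeries.map (Int.castRingHom ℂ) ModularCurve.etaProd)
          = 1 := by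
        rw [← PowerSeries.coeff_zero_eq_constantCoeff_apply, PowerSeries.coeff_map,
          PowerSeries.coeff_zero_eq_constantCoeff_apply, ModularCurve.constantCoeff_etaProd]
        simp
      rw [this, one_pow]
    rw [PowerSeries.coeff_zero_eq_constantCoeff_apply, h2]
    exact one_ne_zero
  refine le_antisymm (HahnSeries.order_le_of_coeff_ne_zero h1) ?_
  by_contra hlt
  rw [not_le] at hlt
  refine (HahnSeries.coeff_order_eq_zero.not.mpr deltaSeriesC_ne_zero) ?_
  rw [hc]
  exact ModularCurve.ofPowerSeries_coeff_of_neg _ (by omega)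

theorem unitSeriesC'_mul (p : ℕ) [NeZero p] :
    unitSeriesC' p * qExpand ℂ p deltaSeriesC = deltaSeriesC := by
  rw [unitSeriesC', mul_assoc, ← map_mul, mul_comm deltaInvSeriesC,
    Fermat.Agent.S28.H565.deltaSeriesC_mul_inv, map_one, mul_one]

theorem unitSeriesC'_ne_zero (p : ℕ) [NeZero p] : unitSeriesC' p ≠ 0 := by
  intro h
  have := unitSeriesC'_mul p
  rw [h, zero_mul] at this
  exact deltaSeriesC_ne_zero this.symm

/-- `ord (Δ(q)/Δ(q^p)) ≡ 1 mod p`. -/
theorem exists_order_unitSeriesC' (p : ℕ) [NeZero p] :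
    ∃ m : ℤ, (unitSeriesC' p).order = 1 - p * m := by
  have hV : qExpand ℂ p deltaSeriesC ≠ 0 := by
    intro h
    have := unitSeriesC'_mul p
    rw [h, mul_zero] at this
    exact deltaSeriesC_ne_zero this.symm
  have hdvd : (p : ℤ) ∣ (qExpand ℂ p deltaSeriesC).order :=
    Fermat.Agent.S28.H145.dvd_order_qExpand (k := ℂ) p deltaSeriesC
  obtain ⟨m, hm⟩ := hdvd
  have h1 : (unitSeriesC' p * qExpand ℂ p deltaSeriesC).order
      = (unitSeriesC' p).order + (qExpand ℂ p deltaSeriesC).order :=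
    HahnSeries.order_mul (unitSeriesC'_ne_zero p) hV
  have h2 : (unitSeriesC' p * qExpand ℂ p deltaSeriesC).order = 1 := by
    rw [unitSeriesC'_mul p]
    exact order_deltaSeriesC
  refine ⟨m, ?_⟩
  rw [h2, hm] at h1
  generalize (unitSeriesC' p).order = o at h1
  omega

/-- The complex polynomial of the unit with its two formal vanishing relations. -/
theorem exists_unitPoly_complex (p : ℕ) [NeZero p] (hp : p.Prime) :
    ∃ W : Polynomial (Polynomial ℂ), W.Monic ∧ W.natDegree = p + 1 ∧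
      W.eval₂ (evC (jqModC ℂ)) (unitSeriesC p) = 0 ∧
      W.eval₂ (evC (qExpand ℂ p (jqModC ℂ))) (unitSeriesC' p) = 0 := by
  letI := fintypeQuot p
  have hu := unitFun_mem_goodRing p hp.pos
  obtain ⟨P, hPm, hPd, hP⟩ := Fermat.Agent.S24.H648.exists_charPoly_jFun hu
  have hj : HasTExp 1 Fermat.Agent.S24.H648.jFun (jqModC ℂ) := by
    rw [jFun648_eq]; exact Fermat.Agent.S28.H565.hasTExp_jFun
  have hjp : HasTExp 1 (fun τ => Fermat.Agent.S24.H648.jFun (scaleH p hp.pos τ))
      (qExpand ℂ p (jqModC ℂ)) := hasTExp_comp_scaleH p hp.pos hj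
  refine ⟨P, hPm, ?_, ?_, ?_⟩
  · rw [hPd]; exact card_quot_prime p hp
  · refine eval₂_eq_zero_of_forall P hj (hasTExp_unitFun p hp.pos) fun τ => ?_
    rw [hP]
    exact Fermat.Agent.S24.H648.charPolyAt_eval_self hu.2.1 τ
  · refine eval₂_eq_zero_of_forall P hjp (hasTExp_unitFun' p hp.pos) fun w => ?_
    show (P.map (Polynomial.evalRingHom
      (Fermat.Agent.S24.H648.jFun (scaleH p hp.pos w)))).eval (unitFun' p hp.pos w) = 0
    rw [hP]
    have hconj : Fermat.Agent.S24.H648.conj p (unitFun p hp.pos)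
        (((ModularGroup.S)⁻¹ : SL(2, ℤ)) : SL(2, ℤ) ⧸ Gamma0 p) (scaleH p hp.pos w)
        = unitFun' p hp.pos w := by
      rw [Fermat.Agent.S24.H648.conj_mk hu.2.1, inv_inv]
      exact unitFun_S_scaleH p hp.pos w
    rw [← hconj]
    exact Fermat.Agent.S24.H648.charPolyAt_eval_conj (unitFun p hp.pos) _ _

/-- **[A-W]** -/
theorem nonempty_unitPolyData (p : ℕ) [NeZero p] (hp : p.Prime) :
    Nonempty (UnitPolyData p) := by
  obtain ⟨W, hWm, hWd, h1, h2⟩ := exists_unitPoly_complex p hp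
  obtain ⟨m, hm⟩ := exists_order_unitSeriesC' p
  have hord : (unitL' p).order = 1 - p * m := by
    rw [← order_iotaC, iotaC_unit', hm]
  have hf0 : unitL' p ≠ 0 := by
    intro h
    apply unitSeriesC'_ne_zero p
    rw [← iotaC_unit', h, map_zero]
  have hcop : IsCoprime (unitL' p).order (p : ℤ) := by
    rw [hord]
    exact ⟨1, m, by ring⟩
  have hne : unitL' p ≠ qExpand ℤ p ((p : LaurentSeries ℤ) ^ 12 * unitL ℤ p) := by
    intro h
    have h3 := congrArg iotaC h
    rw [iotaC_unit', iotaC, coeffMap_qExpand] at h3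
    obtain ⟨k, hk⟩ := Fermat.Agent.S28.H145.dvd_order_qExpand (k := ℂ) p
      (coeffMap (Int.castRingHom ℂ) ((p : LaurentSeries ℤ) ^ 12 * unitL ℤ p))
    rw [← h3, hm] at hk
    have hp2 : (2 : ℤ) ≤ p := by exact_mod_cast hp.two_le
    have hdvd : (p : ℤ) ∣ 1 := ⟨k + m, by linarith⟩
    have := Int.le_of_dvd one_pos hdvd
    omega
  obtain ⟨Ψ, hΨm, -, hΨ1, -⟩ := descent p W hWm (p + 1) hWd rfl
    ((p : LaurentSeries ℤ) ^ 12 * unitL ℤ p) (unitL' p) hf0 hcop hne
    (by rw [iotaC_unit]; exact h1)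
    (by rw [iotaC_unit']; exact h2)
  exact ⟨⟨Ψ, hΨm, hΨ1⟩⟩

end Fermat.Agent.S28.H589

end

end
-- ===== PACK-END S28/H589/UnitPoly.lean

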