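import Fermat.Prelude.Def_ModularCurve_HeckeOperatorTotal
import Mathlib
import Fermat.Prelude.Def_AlgebraicCurve_Correspondence
import Fermat.Prelude.Thm_CuspForm_heckeTLin_comm
import Fermat.Agent.Pack.S36.E15L1
import Fermat.Agent.Pack.S36.E12L0
import Fermat.Agent.Pack.S36.E15L2
import Fermat.Agent.Pack.S36.E1L1
import Fermat.Agent.Pack.S36.E14L2
import Fermat.Agent.Pack.S36.E0L1
import Fermat.Agent.Pack.S36.E0L0
import Fermat.Agent.Pack.S36.E11L1
import Fermat.Agent.Pack.S36.E15L0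
import Fermat.Agent.Pack.S36.E10L1
import Fermat.Agent.Pack.S36.E11L3
import Fermat.Agent.Pack.S36.E12L1
import Fermat.Agent.Pack.S36.E10L3
import Fermat.Agent.Pack.S36.E13L0
import Fermat.Agent.Pack.S36.E5L3
import Fermat.Agent.Pack.S36.E2L3
import Fermat.Agent.Pack.S36.E6L2
import Fermat.Agent.Pack.S36.E10L2
import Fermat.Agent.Pack.S36.E15L3

-- ===== PACK-BEGIN Lib/X0Deg/Basic.lean
section




/-!
# Shared library X0DEG (helper760): relative degrees of the function fields `ℚ̄(X₀(M))`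

All fields are the Prelude fields `modularFunctionFieldBar M ⊆ ℚ̄((q))`.

* `relfinrank_JB`      : `[F̄_N : ℚ̄(j)] = ψ(N)` in ambient (`IntermediateField.relfinrank`) form;
* `relfinrank_mul_psi` : `N ∣ M → [F̄_M : F̄_N] * ψ(N) = ψ(M)`;
* `finrankAlong_inclusion`, `finrankAlong_heckeAlphaBar_mul_psi`,
  `finrankAlong_heckeAlphaBar_of_not_dvd` (`= ℓ + 1`), `finrankAlong_heckeAlphaBar_of_dvd` (`= ℓ`),
  `finiteAlong_heckeAlphaBar` : the same for the Prelude degeneracy map `heckeAlphaBar`.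

Input: landed S24 (`nonempty_modularPackage`, `card_XX`) and S20 (`dedekindPsi` arithmetic).
-/

set_option autoImplicit false

noncomputable section

open ModularCurve AlgebraicCurve IntermediateField
open Fermat.Agent.S24

namespace Fermat.Agent.Lib.X0Deg

/-- The `j`-function as a Laurent series over `ℚ̄`. -/
def jB : LaurentSeries Kbar := coeffEmb Kbar jq

/-- `j(q^d)` as a Laurent series over `ℚ̄`. -/
def jBd (d : ℕ) [NeZero d] : LaurentSeries Kbar := coeffEmb Kbar (qExpand ℚ d jq)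

/-- `ℚ̄(j)` as an intermediate field of `ℚ̄((q))/ℚ̄`. -/
def JB : IntermediateField Kbar (LaurentSeries Kbar) := adjoin Kbar {jB}

theorem jBd_mem {d M : ℕ} [NeZero d] (hd : d ∣ M) : jBd d ∈ modularFunctionFieldBar M :=
  coeffEmb_mem_laurentBaseChange Kbar (jqd_mem_full M hd)

theorem jB_mem (M : ℕ) [NeZero M] : jB ∈ modularFunctionFieldBar M :=
  coeffEmb_mem_laurentBaseChange Kbar (modularFunctionField_le_full M (jq_mem M))

theorem jBd_one : jBd 1 = jB := by
  simp [jBd, jB, qExpand_one_apply]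

theorem JB_le (M : ℕ) [NeZero M] : JB ≤ modularFunctionFieldBar M := by
  rw [JB, adjoin_le_iff]
  rintro x hx
  rw [Set.mem_singleton_iff] at hx
  subst hx
  exact jB_mem M

/-- Monotonicity of the Prelude function fields in the level. -/
theorem modularFunctionFieldBar_mono {N M : ℕ} [NeZero N] [NeZero M] (h : N ∣ M) :
    modularFunctionFieldBar N ≤ modularFunctionFieldBar M := by
  show laurentBaseChange Kbar _ ≤ laurentBaseChange Kbar _
  rw [laurentBaseChange, adjoin_le_iff]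
  rintro _ ⟨y, hy, rfl⟩
  exact coeffEmb_mem_laurentBaseChange Kbar (full_degeneracy_le h hy)

theorem val_jF (N : ℕ) [NeZero N] : ((jF N : FF N) : LaurentSeries Kbar) = jB := rfl

theorem comap_val_JB (N : ℕ) [NeZero N] :
    JB.comap (modularFunctionFieldBar N).val = adjoin Kbar {jF N} := by
  have h1 : (adjoin Kbar {jF N}).map (modularFunctionFieldBar N).val = JB := by
    rw [adjoin_map, Set.image_singleton]
    rfl
  rw [← h1]
  exact comap_map _ _

/-- `[F̄_N : ℚ̄(j)] = ψ(N)`. -/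
theorem relfinrank_JB (N : ℕ) [NeZero N] :
    JB.relfinrank (modularFunctionFieldBar N) = dedekindPsi N := by
  obtain ⟨P⟩ := nonempty_modularPackage N
  have h1 := relfinrank_comap JB (modularFunctionFieldBar N).val ⊤
  rw [relfinrank_top_right, ← AlgHom.fieldRange_eq_map, fieldRange_val] at h1
  rw [← h1, ← card_XX N, ← P.finrank_eq]
  rw [comap_val_JB]

theorem dedekindPsi_pos (N : ℕ) [NeZero N] : 0 < dedekindPsi N := by
  rw [← card_XX N]
  exact Nat.card_pos

/-- `N ∣ M → [F̄_M : F̄_N] * ψ(N) = ψ(M)`. -/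
theorem relfinrank_mul_psi {N M : ℕ} [NeZero N] [NeZero M] (h : N ∣ M) :
    (modularFunctionFieldBar N).relfinrank (modularFunctionFieldBar M) * dedekindPsi N
      = dedekindPsi M := by
  have := relfinrank_mul_relfinrank (JB_le N) (modularFunctionFieldBar_mono h)
  rw [relfinrank_JB, relfinrank_JB] at this
  rw [mul_comm]
  exact this

end Fermat.Agent.Lib.X0Deg

end
end
-- ===== PACK-END Lib/X0Deg/Basic.lean

-- ===== PACK-BEGIN S29/H871/Restrict.lean
section


/-!
# S29 / E3, part 4: restriction of a place of `F'/K'` to `F`, and the dichotomy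

A place `w` of `F'/K'` is either trivial on `F` (all orders of elements of `F` vanish) or it is
the base change `placeBC` of its restriction to `F`.

(helper871)
-/

set_option autoImplicit false
set_option linter.unusedSectionVars false

noncomputable section

namespace Fermat.Agent.S29.H871

open AlgebraicCurve TensorProduct
open Fermat.Agent.S24.H117 (mem_iff_ord_nonneg ord_pow)

variable {K F K' F' : Type*} [Field K] [Field F] [Field K'] [Field F']
  [Algebra K F] [Algebra K' F'] [Algebra K K'] [Algebra F F'] [Algebra K F']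
  [IsScalarTower K F F'] [IsScalarTower K K' F']

section Rord

variable (w : Place K' F')

/-- The order at `w` of an element of `F`. -/
def rord (f : F) : ℤ := w.ord (algebraMap F F' f)

theorem rord_zero : rord w (0 : F) = 0 := by simp [rord]

theorem rord_one : rord w (1 : F) = 0 := by simp [rord]

theorem rord_mul {f g : F} (hf : f ≠ 0) (hg : g ≠ 0) : rord w (f * g) = rord w f + rord w g := by
  unfold rord
  rw [map_mul, w.ord_mul (by simpa using hf) (by simpa using hg)]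

theorem rord_inv (f : F) : rord w f⁻¹ = -rord w f := by
  unfold rord
  rw [map_inv₀, w.ord_inv]

theorem rord_pow (f : F) (n : ℕ) : rord w (f ^ n) = n * rord w f := by
  unfold rord
  rw [map_pow, ord_pow]

theorem rord_zpow (f : F) (n : ℤ) : rord w (f ^ n) = n * rord w f := by
  unfold rord
  rw [map_zpow₀, w.ord_zpow]

/-- The restriction of the valuation ring of `w` to `F`. -/
def restrictRing : ValuationSubring F := w.toValuationSubring.comap (algebraMap F F')

theorem mem_restrictRing {f : F} : f ∈ restrictRing (F := F) w ↔ 0 ≤ rord w f := by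
  unfold restrictRing rord
  rw [ValuationSubring.mem_comap]
  exact mem_iff_ord_nonneg w

theorem coe_ne_zero_restrictRing {a : restrictRing (F := F) w} (ha : a ≠ 0) : (a : F) ≠ 0 :=
  fun h => ha (Subtype.ext h)

theorem isUnit_restrictRing_iff {a : restrictRing (F := F) w} (ha : a ≠ 0) :
    IsUnit a ↔ rord w (a : F) = 0 := by
  have ha0 : (a : F) ≠ 0 := coe_ne_zero_restrictRing w ha
  constructor
  · intro h
    obtain ⟨b, hb⟩ := isUnit_iff_exists_inv.mp h
    have hb' : (a : F) * (b : F) = 1 := congrArg Subtype.val hb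
    have hbne : (b : F) ≠ 0 := by
      intro h0
      rw [h0, mul_zero] at hb'
      exact zero_ne_one hb'
    have hsum := rord_mul w ha0 hbne
    rw [hb', rord_one] at hsum
    have h1 : 0 ≤ rord w (a : F) := (mem_restrictRing w).mp a.2
    have h2 : 0 ≤ rord w (b : F) := (mem_restrictRing w).mp b.2
    omega
  · intro h0
    have hinv : (a : F)⁻¹ ∈ restrictRing (F := F) w := by
      rw [mem_restrictRing, rord_inv]; omega
    exact ⟨⟨a, ⟨(a : F)⁻¹, hinv⟩, Subtype.ext (mul_inv_cancel₀ ha0),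
      Subtype.ext (inv_mul_cancel₀ ha0)⟩, rfl⟩

theorem exists_min_pos_rord (hnt : ∃ t : F, rord w t ≠ 0) :
    ∃ (k : ℕ) (π : F), 0 < k ∧ π ≠ 0 ∧ rord w π = k ∧ ∀ f : F, (k : ℤ) ∣ rord w f := by
  classical
  obtain ⟨t, ht⟩ := hnt
  have hex : ∃ n : ℕ, 0 < n ∧ ∃ f : F, rord w f = n := by
    rcases lt_or_gt_of_ne ht with h | h
    · refine ⟨(rord w t⁻¹).toNat, ?_, t⁻¹, ?_⟩
      · rw [rord_inv]; omega
      · rw [rord_inv]; omega
    · exact ⟨(rord w t).toNat, by omega, t, by omega⟩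
  let k := Nat.find hex
  obtain ⟨hk0, π, hπ⟩ := Nat.find_spec hex
  have hmin : ∀ n : ℕ, 0 < n → (∃ f : F, rord w f = n) → k ≤ n := fun n hn hf =>
    Nat.find_min' hex ⟨hn, hf⟩
  have hπ0 : π ≠ 0 := by
    rintro rfl
    rw [rord_zero] at hπ
    have : (k : ℤ) = 0 := hπ.symm
    have hk0' : 0 < k := hk0
    omega
  refine ⟨k, π, hk0, hπ0, hπ, fun f => ?_⟩
  rcases eq_or_ne f 0 with rfl | hf
  · simp [rord_zero]
  set q := rord w f / (k : ℤ) with hq
  set r := rord w f % (k : ℤ) with hr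
  have hk0' : (0 : ℤ) < k := by exact_mod_cast hk0
  have hr0 : 0 ≤ r := Int.emod_nonneg _ hk0'.ne'
  have hrk : r < k := Int.emod_lt_of_pos _ hk0'
  have hdecomp : rord w f = k * q + r := (Int.mul_ediv_add_emod _ _).symm
  have hg : rord w (f * π ^ (-q)) = r := by
    rw [rord_mul w hf (zpow_ne_zero _ hπ0), rord_zpow, hπ, hdecomp]
    ring
  by_cases hr' : r = 0
  · exact Int.dvd_of_emod_eq_zero hr'
  · exfalso
    have := hmin r.toNat (by omega) ⟨_, by rw [hg]; omega⟩
    have hk0'' : 0 < k := hk0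
    omega

theorem isDiscreteValuationRing_restrictRing (hnt : ∃ t : F, rord w t ≠ 0) :
    IsDiscreteValuationRing (restrictRing (F := F) w) := by
  obtain ⟨k, π, hk0, hπ0, hπ, hdvd⟩ := exists_min_pos_rord w hnt
  have hπmem : π ∈ restrictRing (F := F) w := by rw [mem_restrictRing, hπ]; positivity
  have hk0' : (0 : ℤ) < k := by exact_mod_cast hk0
  apply IsDiscreteValuationRing.ofHasUnitMulPowIrreducibleFactorization
  refine ⟨⟨π, hπmem⟩, ?_, ?_⟩
  · have hπne : (⟨π, hπmem⟩ : restrictRing (F := F) w) ≠ 0 :=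
      fun h => hπ0 (congrArg Subtype.val h)
    refine ⟨fun hu => ?_, fun a b hab => ?_⟩
    · have := (isUnit_restrictRing_iff w hπne).mp hu
      simp only at this
      omega
    · have hab' : π = (a : F) * (b : F) := congrArg Subtype.val hab
      have ha0 : a ≠ 0 := by
        rintro rfl
        apply hπ0
        simpa using hab'
      have hb0 : b ≠ 0 := by
        rintro rfl
        apply hπ0
        simpa using hab'
      have ha0' : (a : F) ≠ 0 := coe_ne_zero_restrictRing w ha0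
      have hb0' : (b : F) ≠ 0 := coe_ne_zero_restrictRing w hb0
      have hsum := rord_mul w ha0' hb0'
      rw [← hab', hπ] at hsum
      obtain ⟨ca, hca⟩ := hdvd (a : F)
      obtain ⟨cb, hcb⟩ := hdvd (b : F)
      have h1 : 0 ≤ rord w (a : F) := (mem_restrictRing w).mp a.2
      have h2 : 0 ≤ rord w (b : F) := (mem_restrictRing w).mp b.2
      rw [isUnit_restrictRing_iff w ha0, isUnit_restrictRing_iff w hb0]
      have hca0 : 0 ≤ ca := by
        by_contra hneg
        push Not at hneg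
        rw [hca] at h1
        nlinarith
      have hcb0 : 0 ≤ cb := by
        by_contra hneg
        push Not at hneg
        rw [hcb] at h2
        nlinarith
      have hsum' : (k : ℤ) * (ca + cb) = k * 1 := by rw [hca, hcb] at hsum; linarith
      have h3 : ca + cb = 1 := mul_left_cancel₀ hk0'.ne' hsum'
      rcases (show ca = 0 ∨ cb = 0 by omega) with h | h
      · left; rw [hca, h, mul_zero]
      · right; rw [hcb, h, mul_zero]
  · intro x hx
    have hx0 : (x : F) ≠ 0 := coe_ne_zero_restrictRing w hx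
    obtain ⟨c, hc⟩ := hdvd (x : F)
    have hxnn : 0 ≤ rord w (x : F) := (mem_restrictRing w).mp x.2
    have hc0 : 0 ≤ c := by
      by_contra hneg
      push Not at hneg
      rw [hc] at hxnn
      nlinarith
    refine ⟨c.toNat, ?_⟩
    have hu : rord w ((x : F) * (π ^ c.toNat)⁻¹) = 0 := by
      rw [rord_mul w hx0 (inv_ne_zero (pow_ne_zero _ hπ0)), rord_inv, rord_pow, hπ, hc]
      have : ((c.toNat : ℕ) : ℤ) = c := Int.toNat_of_nonneg hc0
      rw [this]; ring
    have hmem : (x : F) * (π ^ c.toNat)⁻¹ ∈ restrictRing (F := F) w := by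
      rw [mem_restrictRing, hu]
    have hne : (⟨_, hmem⟩ : restrictRing (F := F) w) ≠ 0 := fun h =>
      (mul_ne_zero hx0 (inv_ne_zero (pow_ne_zero _ hπ0))) (congrArg Subtype.val h)
    have hunit : IsUnit (⟨_, hmem⟩ : restrictRing (F := F) w) :=
      (isUnit_restrictRing_iff w hne).mpr hu
    refine ⟨hunit.unit, ?_⟩
    apply Subtype.ext
    have hπpow : π ^ c.toNat ≠ 0 := pow_ne_zero _ hπ0
    show π ^ c.toNat * ((x : F) * (π ^ c.toNat)⁻¹) = (x : F)
    field_simp

/-- The restriction to `F` of a place of `F'/K'` that is nontrivial on `F`. -/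
def restrictPlace (hnt : ∃ t : F, rord w t ≠ 0) : Place K F where
  toValuationSubring := restrictRing (F := F) w
  algebraMap_mem' := by
    intro a
    rw [mem_restrictRing, rord, ← IsScalarTower.algebraMap_apply K F F',
      IsScalarTower.algebraMap_apply K K' F', Fermat.Agent.S24.FF.ord_algebraMap]
  ne_top' := by
    intro htop
    obtain ⟨t, ht⟩ := hnt
    have h1 : t ∈ restrictRing (F := F) w := htop ▸ ValuationSubring.mem_top t
    have h2 : t⁻¹ ∈ restrictRing (F := F) w := htop ▸ ValuationSubring.mem_top _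
    rw [mem_restrictRing] at h1 h2
    rw [rord_inv] at h2
    omega
  isPrincipalIdealRing' := by
    have := isDiscreteValuationRing_restrictRing w hnt
    infer_instance

@[simp]
theorem restrictPlace_toValuationSubring (hnt : ∃ t : F, rord w t ≠ 0) :
    (restrictPlace (K := K) w hnt).toValuationSubring = restrictRing (F := F) w := rfl

theorem ord_restrictPlace_nonneg_iff (hnt : ∃ t : F, rord w t ≠ 0) (f : F) :
    0 ≤ (restrictPlace (K := K) w hnt).ord f ↔ 0 ≤ rord w f := by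
  rw [← mem_iff_ord_nonneg, restrictPlace_toValuationSubring, mem_restrictRing]

end Rord

end Fermat.Agent.S29.H871

end
end
-- ===== PACK-END S29/H871/Restrict.lean

-- ===== PACK-BEGIN S29/H332/KummerFun.lean
section




/-!
# S29 / M4b / K1 — the Kummer function `h = E^χ₁₂ / (2Δ)`

For a character `χ : Γ₀(N) →* ℂˣ`, unitary and trivial on all elements of trace `±2`, the function
`kummerFun N χ = E^χ₁₂ / (2Δ)` is holomorphic on `ℍ`, satisfies `h(γτ) = χ(γ) h(τ)`, belongs to the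
S24 ring `holN N` (expansions in `exp(2πiτ/N)` at all cusps) and has a simple pole with leading
coefficient `1` at `i∞` (in `q = exp(2πiτ)`).

The first part is abstract: any holomorphic function with a parabolic character and moderate growth
belongs to `holN N`.
-/

set_option autoImplicit false

noncomputable section

open UpperHalfPlane EisensteinSeries ModularForm Filter Topology HahnSeries ModularCurve
open scoped Matrix MatrixGroups Manifold

namespace Fermat.Agent.S29.H332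

open Fermat.Agent.S24 Fermat.Agent.S24.H997 Fermat.Agent.S24.H624

local notation "Δ" => ModularForm.discriminant

/-! ### Conjugates of translations -/

/-- `g T^w g⁻¹` has trace `2`. -/
theorem trace_conj_T_zpow (g : SL(2, ℤ)) (w : ℤ) :
    (g * ModularGroup.T ^ w * g⁻¹ : SL(2, ℤ)).1.trace = 2 := by
  rw [Matrix.SpecialLinearGroup.coe_mul, Matrix.SpecialLinearGroup.coe_mul, Matrix.trace_mul_comm,
    ← Matrix.mul_assoc, ← Matrix.SpecialLinearGroup.coe_mul, inv_mul_cancel,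
    Matrix.SpecialLinearGroup.coe_one, Matrix.one_mul, ModularGroup.coe_T_zpow]
  simp [Matrix.trace_fin_two]

/-- `g T^N g⁻¹ ∈ Γ₀(N)` for every `g ∈ SL(2,ℤ)`. -/
theorem conj_T_zpow_mem_Gamma0 (N : ℕ) (g : SL(2, ℤ)) (m : ℤ) :
    g * ModularGroup.T ^ ((N : ℤ) * m) * g⁻¹ ∈ CongruenceSubgroup.Gamma0 N := by
  rw [CongruenceSubgroup.Gamma0_mem]
  have h : (g * ModularGroup.T ^ ((N : ℤ) * m) * g⁻¹ : SL(2, ℤ)).1 1 0
      = -((N : ℤ) * m * (g.1 1 0) ^ 2) := by
    rw [Matrix.SpecialLinearGroup.coe_mul, Matrix.SpecialLinearGroup.coe_mul,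
      ModularGroup.coe_T_zpow, Matrix.SpecialLinearGroup.coe_inv, Matrix.adjugate_fin_two]
    simp [Matrix.mul_apply, Fin.sum_univ_two]
    ring
  rw [h]
  push_cast
  simp

/-! ### The discriminant -/

theorem mdiff_delta : MDiff Δ := CuspForm.discriminant.holo'

theorem mdiff_delta_pow (m : ℕ) : MDiff (fun τ : ℍ => Δ τ ^ m) := by
  induction m with
  | zero => simpa using (mdifferentiable_const : MDiff (fun _ : ℍ => (1 : ℂ)))
  | succ m ih =>
    have := ih.mul mdiff_delta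
    have e : (fun τ : ℍ => Δ τ ^ (m + 1)) = (fun τ => Δ τ ^ m) * Δ := by
      funext τ
      simp [pow_succ]
    rw [e]
    exact this

theorem delta_slash (γ : SL(2, ℤ)) : Δ ∣[(12 : ℤ)] γ = Δ := by
  have := SlashInvariantFormClass.slash_action_eq CuspForm.discriminant
    (Matrix.SpecialLinearGroup.mapGL ℝ γ) ⟨γ, rfl⟩
  rw [CuspForm.coe_discriminant] at this
  rw [ModularForm.SL_slash]
  exact this

theorem delta_smul (γ : SL(2, ℤ)) (τ : ℍ) : Δ (γ • τ) = denom γ τ ^ (12 : ℤ) * Δ τ := by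
  have h := congrFun (delta_slash γ) τ
  rw [SL_slash_apply] at h
  have hd : denom γ τ ≠ 0 := denom_ne_zero γ τ
  rw [← h, mul_comm, mul_assoc, ← zpow_add₀ hd]
  simp

theorem delta_vadd (n : ℤ) (τ : ℍ) : Δ ((n : ℝ) +ᵥ τ) = Δ τ := by
  have h := delta_smul (ModularGroup.T ^ n) τ
  rw [denom_T_zpow, one_zpow, one_mul, UpperHalfPlane.modular_T_zpow_smul] at h
  exact h

/-- A function on `ℍ` invariant under `τ ↦ τ + N` gives an `N`-periodic function on `ℂ`. -/
theorem periodic_comp_ofComplex_of_vadd {f : ℍ → ℂ} {N : ℕ}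
    (h : ∀ τ : ℍ, f (((N : ℤ) : ℝ) +ᵥ τ) = f τ) :
    Function.Periodic (f ∘ ofComplex) (N : ℝ) := by
  intro z
  simp only [Function.comp_apply]
  by_cases hz : 0 < z.im
  · have hz' : 0 < (z + (N : ℝ)).im := by simpa using hz
    rw [ofComplex_apply_of_im_pos hz, ofComplex_apply_of_im_pos hz']
    rw [← h ⟨z, hz⟩]
    congr 1
    apply UpperHalfPlane.ext
    simp [add_comm]
  · have hz' : ¬ 0 < (z + (N : ℝ)).im := by simpa using hz
    rw [ofComplex_apply_eq_of_im_nonpos (not_lt.mp hz') (not_lt.mp hz)]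

theorem infExp_deltaInv (N : ℕ) [NeZero N] :
    InfExp N (fun τ : ℍ => (Δ τ)⁻¹) (qExpand ℂ N Fermat.Agent.S28.H568.dInvS) := by
  have hN : 0 < N := Nat.pos_of_ne_zero (NeZero.ne N)
  have h := Fermat.Agent.S28.H568.infExp_delta_inv_aff (N := N) (e := N) 0 one_pos one_pos hN
    (by ring)
  rw [infRoot_zero, infTwist_one] at h
  exact h.congr fun τ => by rw [infAff_one_zero_one]

/-! ### Functions with a parabolic character -/

section Character

variable {N : ℕ} [NeZero N]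

/-- `χ` is trivial on all elements of `Γ₀(N)` of trace `±2` (cusp stabilisers and `-1`). -/
def ParTrivial (χ : CongruenceSubgroup.Gamma0 N →* ℂˣ) : Prop :=
  ∀ γ : CongruenceSubgroup.Gamma0 N,
    ((γ : SL(2, ℤ)).1.trace = 2 ∨ (γ : SL(2, ℤ)).1.trace = -2) → χ γ = 1

/-- `h(γ τ) = χ(γ) h(τ)` for all `γ ∈ Γ₀(N)`. -/
def HasCharacter (χ : CongruenceSubgroup.Gamma0 N →* ℂˣ) (h : ℍ → ℂ) : Prop :=
  ∀ (γ : CongruenceSubgroup.Gamma0 N) (τ : ℍ), h ((γ : SL(2, ℤ)) • τ) = (χ γ : ℂ) * h τ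

variable {χ : CongruenceSubgroup.Gamma0 N →* ℂˣ} {h : ℍ → ℂ}

omit [NeZero N] in
/-- If `g T^w g⁻¹ ∈ Γ₀(N)`, then `h ∘ g` is invariant under `τ ↦ τ + w` (local parameter of width
`w` at the cusp `g∞`). -/
theorem HasCharacter.compSL_T_zpow (hh : HasCharacter χ h) (hχ : ParTrivial χ) (g : SL(2, ℤ))
    (w : ℤ) (hw : g * ModularGroup.T ^ w * g⁻¹ ∈ CongruenceSubgroup.Gamma0 N) (τ : ℍ) :
    compSL g h (ModularGroup.T ^ w • τ) = compSL g h τ := by
  have h1 : g • (ModularGroup.T ^ w • τ) = (g * ModularGroup.T ^ w * g⁻¹) • (g • τ) := by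
    rw [← mul_smul, ← mul_smul, mul_assoc, mul_assoc, inv_mul_cancel, mul_one]
  have h2 := hh ⟨_, hw⟩ (g • τ)
  rw [hχ ⟨_, hw⟩ (Or.inl (trace_conj_T_zpow g w))] at h2
  simp only [compSL_apply]
  rw [h1, h2, Units.val_one, one_mul]

omit [NeZero N] in
/-- `h ∘ g` is `w`-periodic if `g T^w g⁻¹ ∈ Γ₀(N)`. -/
theorem HasCharacter.compSL_vadd (hh : HasCharacter χ h) (hχ : ParTrivial χ) (g : SL(2, ℤ))
    (w : ℕ) (hw : g * ModularGroup.T ^ (w : ℤ) * g⁻¹ ∈ CongruenceSubgroup.Gamma0 N)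
    (τ : ℍ) : compSL g h (((w : ℤ) : ℝ) +ᵥ τ) = compSL g h τ := by
  have := hh.compSL_T_zpow hχ g (w : ℤ) hw τ
  rwa [UpperHalfPlane.modular_T_zpow_smul] at this

omit [NeZero N] in
theorem HasCharacter.periodic (hh : HasCharacter χ h) (hχ : ParTrivial χ) (g : SL(2, ℤ))
    (w : ℕ) (hw : g * ModularGroup.T ^ (w : ℤ) * g⁻¹ ∈ CongruenceSubgroup.Gamma0 N) :
    Function.Periodic (compSL g h ∘ ofComplex) (w : ℝ) :=
  periodic_comp_ofComplex_of_vadd (hh.compSL_vadd hχ g w hw)

/-- The expansion of `h ∘ g` in the local parameter of width `w`, as an explicit Laurent series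
(`m` = a bound for the pole order in units of `Δ⁻¹`). -/
def cuspExp (h : ℍ → ℂ) (m : ℕ) (g : SL(2, ℤ)) (w : ℕ) [NeZero w] : LaurentSeries ℂ :=
  qExpand ℂ w Fermat.Agent.S28.H568.dInvS ^ m *
    HahnSeries.ofPowerSeries ℤ ℂ
      (UpperHalfPlane.qExpansion (w : ℝ) (fun τ => Δ τ ^ m * compSL g h τ))

omit [NeZero N] in
/-- Expansion at the cusp `g∞` in the local parameter of width `w` (any `w` with
`g T^w g⁻¹ ∈ Γ₀(N)`): a holomorphic function with a parabolic character such that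
`Δ^m · (h ∘ g)` is bounded at `i∞` has a Laurent expansion in `exp(2πiτ/w)`. -/
theorem HasCharacter.infExp_cuspExp (hh : HasCharacter χ h) (hχ : ParTrivial χ)
    (hhol : MDiff h) (m : ℕ) (g : SL(2, ℤ)) (w : ℕ) [NeZero w]
    (hw : g * ModularGroup.T ^ (w : ℤ) * g⁻¹ ∈ CongruenceSubgroup.Gamma0 N)
    (hbd : IsBoundedAtImInfty (fun τ => Δ τ ^ m * compSL g h τ)) :
    InfExp w (compSL g h) (cuspExp h m g w) := by
  have hN : (0 : ℝ) < w := by exact_mod_cast Nat.pos_of_ne_zero (NeZero.ne w)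
  set F : ℍ → ℂ := fun τ => Δ τ ^ m * compSL g h τ with hF
  have hcomp : MDiff (compSL g h) := (precompSL g ⟨h, hhol⟩).2
  have hFhol : MDiff F := (mdiff_delta_pow m).mul hcomp
  have hFper : Function.Periodic (F ∘ ofComplex) (w : ℝ) := by
    intro z
    have h1 := hh.periodic hχ g w hw z
    have h2 := periodic_comp_ofComplex_of_vadd (f := Δ) (N := w) (fun τ => delta_vadd w τ) z
    simp only [Function.comp_apply, hF] at h1 h2 ⊢
    rw [h1, h2]
  have hsum := fun τ => UpperHalfPlane.hasSum_qExpansion hN hFper hFhol hbd τ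
  have hP : InfPExp w F (UpperHalfPlane.qExpansion (w : ℝ) F) := by
    intro τ
    simpa [infZ, smul_eq_mul] using hsum τ
  have hE : InfExp w F (HahnSeries.ofPowerSeries ℤ ℂ (UpperHalfPlane.qExpansion (w : ℝ) F)) := by
    have := hP.infExp 0
    simp only [zpow_zero, one_mul] at this
    have e : (HahnSeries.single (0 : ℤ) (1 : ℂ)) = 1 := rfl
    rwa [e, one_mul] at this
  have hDinv : InfExp w (fun τ => (Δ τ)⁻¹ ^ m)
      (qExpand ℂ w Fermat.Agent.S28.H568.dInvS ^ m) :=
    Fermat.Agent.S28.H568.InfExp.pow' (infExp_deltaInv w) m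
  have : compSL g h = fun τ => (Δ τ)⁻¹ ^ m * F τ := by
    funext τ
    simp only [hF]
    have hΔ : Δ τ ≠ 0 := ModularForm.discriminant_ne_zero τ
    rw [← mul_assoc, ← mul_pow, inv_mul_cancel₀ hΔ, one_pow, one_mul]
  rw [this]
  exact hDinv.mul hE

/-- Abstract membership criterion at one cusp. -/
theorem HasCharacter.compSL_mem_expRing (hh : HasCharacter χ h) (hχ : ParTrivial χ)
    (hhol : MDiff h) (m : ℕ) (g : SL(2, ℤ))
    (hbd : IsBoundedAtImInfty (fun τ => Δ τ ^ m * compSL g h τ)) :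
    compSL g h ∈ expRing N :=
  (hh.infExp_cuspExp hχ hhol m g N (by simpa using conj_T_zpow_mem_Gamma0 N g 1) hbd).mem_expRing

/-- Abstract membership criterion: a holomorphic function with a parabolic character such that
`Δ^m · (h ∘ g)` is bounded at `i∞` for every `g ∈ SL(2,ℤ)` lies in the S24 ring `holN N`. -/
theorem HasCharacter.mem_holN (hh : HasCharacter χ h) (hχ : ParTrivial χ)
    (hhol : MDiff h) (m : ℕ)
    (hbd : ∀ g : SL(2, ℤ), IsBoundedAtImInfty (fun τ => Δ τ ^ m * compSL g h τ)) :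
    h ∈ holN N :=
  ⟨hhol, fun g => hh.compSL_mem_expRing hχ hhol m g (hbd g)⟩

omit [NeZero N] in
/-- Powers: `h ^ p` has character `χ ^ p`; in particular it is `Γ₀(N)`-invariant if `χ ^ p = 1`. -/
theorem HasCharacter.pow_invariant (hh : HasCharacter χ h) {p : ℕ}
    (hp : ∀ γ, χ γ ^ p = 1) (γ : CongruenceSubgroup.Gamma0 N) (τ : ℍ) :
    h ((γ : SL(2, ℤ)) • τ) ^ p = h τ ^ p := by
  rw [hh γ τ, mul_pow, ← Units.val_pow_eq_pow_val, hp γ, Units.val_one, one_mul]

end Character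

/-! ### The Kummer function -/

section Kummer

variable (N : ℕ) [NeZero N] (χ : CongruenceSubgroup.Gamma0 N →* ℂˣ)

/-- The Kummer function `E^χ₁₂ / (2Δ)`. -/
def kummerFun : ℍ → ℂ :=
  fun τ => twistedEis (CongruenceSubgroup.Gamma0 N) χ 12 τ / (2 * Δ τ)

variable {N χ}

omit [NeZero N] in
theorem ParTrivial.trivialOnUnipotent (hχ : ParTrivial χ) : TrivialOnUnipotent χ := by
  intro γ hγ
  apply hχ γ
  left
  have h10 : (γ : SL(2, ℤ)).1 1 0 = 0 := by
    have := congrFun hγ 0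
    simpa [botRow] using this
  have h11 : (γ : SL(2, ℤ)).1 1 1 = 1 := by
    have := congrFun hγ 1
    simpa [botRow] using this
  have hdet := (γ : SL(2, ℤ)).det_coe
  rw [Matrix.det_fin_two, h10, h11, mul_zero, sub_zero, mul_one] at hdet
  rw [Matrix.trace_fin_two, hdet, h11]
  rfl

omit [NeZero N] in
theorem ParTrivial.neg_one (hχ : ParTrivial χ)
    (hneg : (-1 : SL(2, ℤ)) ∈ CongruenceSubgroup.Gamma0 N) : χ ⟨-1, hneg⟩ = 1 := by
  apply hχ
  right
  simp [Matrix.trace_fin_two]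

omit [NeZero N] in
theorem neg_one_mem_Gamma0 : (-1 : SL(2, ℤ)) ∈ CongruenceSubgroup.Gamma0 N := by
  rw [CongruenceSubgroup.Gamma0_mem]
  simp

omit [NeZero N] in
theorem compSL_kummerFun (g : SL(2, ℤ)) :
    compSL g (kummerFun N χ)
      = fun τ => (twistedEis (CongruenceSubgroup.Gamma0 N) χ 12 ∣[(12 : ℤ)] g) τ / (2 * Δ τ) := by
  funext τ
  have hd : denom g τ ≠ 0 := denom_ne_zero g τ
  have hΔ : Δ τ ≠ 0 := ModularForm.discriminant_ne_zero τ
  simp only [compSL_apply, kummerFun]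
  rw [SL_slash_apply, delta_smul, zpow_neg]
  field_simp

omit [NeZero N] in
theorem hasCharacter_kummerFun (hχ : ParTrivial χ) : HasCharacter χ (kummerFun N χ) := by
  intro γ τ
  have h := congrFun (compSL_kummerFun (N := N) (χ := χ) (γ : SL(2, ℤ))) τ
  rw [compSL_apply] at h
  rw [h, twistedEis_slash hχ.trivialOnUnipotent]
  simp only [Pi.smul_apply, smul_eq_mul, kummerFun]
  ring

omit [NeZero N] in
theorem mdiff_kummerFun (hχ : ParTrivial χ) (hnorm : ∀ γ, ‖(χ γ : ℂ)‖ = 1) :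
    MDiff (kummerFun N χ) := by
  have hE : MDiff (twistedEis (CongruenceSubgroup.Gamma0 N) χ 12) :=
    twistedEis_mdifferentiable hχ.trivialOnUnipotent hnorm (by norm_num)
  rw [UpperHalfPlane.mdifferentiable_iff] at hE ⊢
  have hΔ := UpperHalfPlane.mdifferentiable_iff.mp mdiff_delta
  have h2 : DifferentiableOn ℂ (fun z => 2 * (Δ ∘ ofComplex) z) {z : ℂ | 0 < z.im} :=
    hΔ.const_mul 2
  refine (hE.div h2 ?_).congr ?_
  · intro z hz
    exact mul_ne_zero two_ne_zero (ModularForm.discriminant_ne_zero _)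
  · intro z hz
    simp [kummerFun]

omit [NeZero N] in
theorem isBoundedAtImInfty_delta_mul_kummerFun (hχ : ParTrivial χ)
    (hnorm : ∀ γ, ‖(χ γ : ℂ)‖ = 1) (g : SL(2, ℤ)) :
    IsBoundedAtImInfty (fun τ => Δ τ ^ 1 * compSL g (kummerFun N χ) τ) := by
  have hE := twistedEis_slash_isBoundedAtImInfty hχ.trivialOnUnipotent hnorm
    (k := 12) (by norm_num) g
  have : (fun τ => Δ τ ^ 1 * compSL g (kummerFun N χ) τ)
      = (fun _ : ℍ => (1 / 2 : ℂ)) * (twistedEis (CongruenceSubgroup.Gamma0 N) χ 12 ∣[(12 : ℤ)] g) := by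
    funext τ
    have hΔ : Δ τ ≠ 0 := ModularForm.discriminant_ne_zero τ
    rw [compSL_kummerFun]
    simp only [Pi.mul_apply, pow_one]
    field_simp
  rw [this]
  exact (Filter.const_boundedAtFilter _ _).mul hE

/-- **K1**: the Kummer function lies in the S24 ring `holN N`. -/
theorem kummerFun_mem_holN (hχ : ParTrivial χ) (hnorm : ∀ γ, ‖(χ γ : ℂ)‖ = 1) :
    kummerFun N χ ∈ holN N :=
  (hasCharacter_kummerFun hχ).mem_holN hχ (mdiff_kummerFun hχ hnorm) 1
    (isBoundedAtImInfty_delta_mul_kummerFun hχ hnorm)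

/-! ### The expansion of the Kummer function at `i∞` -/

omit [NeZero N] in
theorem T_mem_Gamma0 :
    (1 : SL(2, ℤ)) * ModularGroup.T ^ ((1 : ℕ) : ℤ) * (1 : SL(2, ℤ))⁻¹
      ∈ CongruenceSubgroup.Gamma0 N := by
  rw [CongruenceSubgroup.Gamma0_mem]
  simp [ModularGroup.T]

omit [NeZero N] in
theorem delta_mul_kummerFun (τ : ℍ) :
    Δ τ ^ 1 * compSL 1 (kummerFun N χ) τ
      = twistedEis (CongruenceSubgroup.Gamma0 N) χ 12 τ / 2 := by
  have hΔ : Δ τ ≠ 0 := ModularForm.discriminant_ne_zero τ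
  rw [compSL_one]
  simp only [kummerFun, pow_one]
  field_simp

omit [NeZero N] in
theorem tendsto_delta_mul_kummerFun (hχ : ParTrivial χ) (hnorm : ∀ γ, ‖(χ γ : ℂ)‖ = 1) :
    Tendsto (fun τ => Δ τ ^ 1 * compSL 1 (kummerFun N χ) τ) atImInfty (𝓝 1) := by
  have h := tendsto_twistedEis_two hχ.trivialOnUnipotent hnorm (k := 12) (by norm_num)
    (by decide) neg_one_mem_Gamma0 (hχ.neg_one _)
  have h2 := h.div_const 2
  rw [div_self (two_ne_zero)] at h2
  refine h2.congr fun τ => ?_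
  rw [delta_mul_kummerFun]

variable (N χ) in
/-- The expansion of the Kummer function at `i∞` in `q = exp(2πiτ)`. -/
def kummerExp : LaurentSeries ℂ := cuspExp (kummerFun N χ) 1 1 1

omit [NeZero N] in
theorem infExp_kummerFun (hχ : ParTrivial χ) (hnorm : ∀ γ, ‖(χ γ : ℂ)‖ = 1) :
    InfExp 1 (kummerFun N χ) (kummerExp N χ) := by
  have h := (hasCharacter_kummerFun hχ).infExp_cuspExp hχ (mdiff_kummerFun hχ hnorm) 1 1 1
    T_mem_Gamma0 (isBoundedAtImInfty_delta_mul_kummerFun hχ hnorm 1)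
  rwa [compSL_one] at h

omit [NeZero N] in
theorem coeff_zero_qExpansion_kummer (hχ : ParTrivial χ) (hnorm : ∀ γ, ‖(χ γ : ℂ)‖ = 1) :
    (UpperHalfPlane.qExpansion ((1 : ℕ) : ℝ)
      (fun τ => Δ τ ^ 1 * compSL 1 (kummerFun N χ) τ)).coeff 0 = 1 := by
  have hper : Function.Periodic ((fun τ => Δ τ ^ 1 * compSL 1 (kummerFun N χ) τ) ∘ ofComplex)
      ((1 : ℕ) : ℝ) := by
    intro z
    have h1 := (hasCharacter_kummerFun hχ).periodic hχ 1 1 T_mem_Gamma0 z
    have h2 := periodic_comp_ofComplex_of_vadd (f := Δ) (N := 1) (fun τ => delta_vadd (1 : ℕ) τ) z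
    simp only [Function.comp_apply] at h1 h2 ⊢
    rw [h1, h2]
  have hhol : MDiff (fun τ => Δ τ ^ 1 * compSL 1 (kummerFun N χ) τ) :=
    (mdiff_delta_pow 1).mul (precompSL 1 ⟨_, mdiff_kummerFun hχ hnorm⟩).2
  have han := UpperHalfPlane.analyticAt_cuspFunction_zero (h := ((1 : ℕ) : ℝ)) (by norm_num)
    hper hhol (isBoundedAtImInfty_delta_mul_kummerFun hχ hnorm 1)
  rw [UpperHalfPlane.qExpansion_coeff_zero (by norm_num) han hper]
  exact (tendsto_delta_mul_kummerFun hχ hnorm).limUnder_eq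

omit [NeZero N] in
theorem kummerExp_eq (hχ : ParTrivial χ) (hnorm : ∀ γ, ‖(χ γ : ℂ)‖ = 1) :
    (kummerExp N χ).order = -1 ∧ (kummerExp N χ).leadingCoeff = 1 := by
  set ψ := UpperHalfPlane.qExpansion ((1 : ℕ) : ℝ)
      (fun τ => Δ τ ^ 1 * compSL 1 (kummerFun N χ) τ) with hψ
  have hc : PowerSeries.coeff 0 ψ = 1 := coeff_zero_qExpansion_kummer hχ hnorm
  have hord : ψ.order = ((0 : ℕ) : ℕ∞) := by
    rw [PowerSeries.order_eq_nat]
    exact ⟨by rw [hc]; exact one_ne_zero, fun i hi => absurd hi (Nat.not_lt_zero i)⟩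
  have h1 : (HahnSeries.ofPowerSeries ℤ ℂ ψ).order = 0 := by
    simpa using order_ofPowerSeries hord
  have h2 : (HahnSeries.ofPowerSeries ℤ ℂ ψ).leadingCoeff = 1 := by
    rw [leadingCoeff_ofPowerSeries hord, hc]
  have h3 : (qExpand ℂ 1 Fermat.Agent.S28.H568.dInvS ^ 1).order = -1 := by
    rw [pow_one, inf_qExpand_order, Fermat.Agent.S28.H568.dInvS_order]
    simp
  have h4 : (qExpand ℂ 1 Fermat.Agent.S28.H568.dInvS ^ 1).leadingCoeff = 1 := by
    rw [pow_one, inf_qExpand_leadingCoeff, Fermat.Agent.S28.H568.dInvS_leadingCoeff]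
  have hx : (qExpand ℂ 1 Fermat.Agent.S28.H568.dInvS ^ 1) ≠ 0 := by
    intro h0
    rw [h0] at h4
    simp at h4
  have hy : (HahnSeries.ofPowerSeries ℤ ℂ ψ) ≠ 0 := by
    intro h0
    rw [h0] at h2
    simp at h2
  refine ⟨?_, ?_⟩
  · show (_ * _ : LaurentSeries ℂ).order = -1
    rw [HahnSeries.order_mul hx hy, h3, h1, add_zero]
  · show (_ * _ : LaurentSeries ℂ).leadingCoeff = 1
    rw [HahnSeries.leadingCoeff_mul, h4, h2, one_mul]

omit [NeZero N] in
theorem kummerExp_ne_zero (hχ : ParTrivial χ) (hnorm : ∀ γ, ‖(χ γ : ℂ)‖ = 1) :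
    kummerExp N χ ≠ 0 := by
  intro h0
  have := (kummerExp_eq hχ hnorm).2
  rw [h0] at this
  simp at this

omit [NeZero N] in
theorem kummerFun_ne_zero (hχ : ParTrivial χ) (hnorm : ∀ γ, ‖(χ γ : ℂ)‖ = 1) :
    kummerFun N χ ≠ 0 := by
  intro h0
  have h := infExp_kummerFun hχ hnorm
  rw [h0] at h
  exact kummerExp_ne_zero hχ hnorm (InfExp.eq_zero h)

/-- The expansion in `exp(2πiτ/N)` (the S24 `qexp`). -/
theorem infExp_kummerFun_level (hχ : ParTrivial χ) (hnorm : ∀ γ, ‖(χ γ : ℂ)‖ = 1) :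
    InfExp N (kummerFun N χ) (qExpand ℂ N (kummerExp N χ)) := by
  have hN : (N : ℂ) ≠ 0 := by exact_mod_cast NeZero.ne N
  have h := (infExp_kummerFun hχ hnorm).subst (N := N) (fun τ => τ) 1 N (fun τ => by
    rw [infZ_def, infZ_def, Units.val_one, one_mul, ← Complex.exp_nat_mul]
    congr 1
    push_cast
    field_simp)
  rwa [infTwist_one] at h

theorem expInf_kummerFun (hχ : ParTrivial χ) (hnorm : ∀ γ, ‖(χ γ : ℂ)‖ = 1) :
    expInf N (holToExp N ⟨kummerFun N χ, kummerFun_mem_holN hχ hnorm⟩)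
      = qExpand ℂ N (kummerExp N χ) :=
  (infExp_kummerFun_level hχ hnorm).expInf_eq

end Kummer


end Fermat.Agent.S29.H332

end
end
-- ===== PACK-END S29/H332/KummerFun.lean

-- ===== PACK-BEGIN S29/H332/Growth.lean
section




/-!
# S29 / M4b / K1 → K2 bridge: `holN N` ⊆ exponential growth, and `h ^ p ∈ goodRing N`

* `expGrowth_of_infExp` : a convergent Laurent expansion in `exp(2πiτ/N)` gives the S24 `ExpGrowth`
  bound on all of `im τ ≥ 1`;
* `mem_goodRing_of_mem_holN` : a `Γ₀(N)`-invariant element of the S24 ring `holN N` lies in the S24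
  ring `goodRing N` (the input of helper882's MERO);
* `kummerFun_pow_mem_goodRing`, `hasQExp_kummerFun_pow`.
-/

set_option autoImplicit false

noncomputable section

open UpperHalfPlane HahnSeries ModularCurve Complex
open scoped Real MatrixGroups Manifold

namespace Fermat.Agent.S29.H332

open Fermat.Agent.S24 Fermat.Agent.S24.H997 Fermat.Agent.S24.H624 Fermat.Agent.S24.H648

variable {N : ℕ} [NeZero N]

omit [NeZero N] in
theorem norm_infZ_eq (τ : ℍ) : ‖infZ N τ‖ = Real.exp (-2 * π * τ.im / N) := by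
  rw [infZ, Function.Periodic.norm_qParam]
  rfl

/-- A convergent power series in `z = exp (2πiτ/N)` is bounded on `‖z‖ ≤ r` for every `r < 1`. -/
theorem exists_bound_of_infPExp_of_lt {g : ℍ → ℂ} {ψ : PowerSeries ℂ} (h : InfPExp N g ψ)
    {r : ℝ} (hr0 : 0 < r) (hr1 : r < 1) :
    ∃ C : ℝ, ∀ τ : ℍ, ‖infZ N τ‖ ≤ r → ‖g τ‖ ≤ C := by
  obtain ⟨ρ, hrρ, hρ1⟩ : ∃ ρ, r < ρ ∧ ρ < 1 := exists_between hr1
  have hρ0 : 0 < ρ := hr0.trans hrρ
  obtain ⟨τ₀, hτ₀⟩ := exists_infZ_eq N (z := ((ρ : ℝ) : ℂ))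
    (by exact_mod_cast hρ0.ne')
    (by rw [Complex.norm_real, Real.norm_eq_abs, abs_of_pos hρ0]; exact hρ1)
  have h0 := h τ₀
  rw [hτ₀] at h0
  have hterm := h0.summable.tendsto_atTop_zero
  obtain ⟨B, hB⟩ := (Metric.isBounded_range_of_tendsto _ hterm).exists_norm_le
  have hB' : ∀ n : ℕ, ‖PowerSeries.coeff n ψ‖ * ρ ^ n ≤ B := by
    intro n
    have := hB _ ⟨n, rfl⟩
    rwa [norm_mul, norm_pow, Complex.norm_real, Real.norm_eq_abs, abs_of_pos hρ0] at this
  have hB0 : 0 ≤ B := le_trans (by positivity) (hB' 0)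
  have hq0 : 0 ≤ r / ρ := by positivity
  have hq1 : r / ρ < 1 := (div_lt_one hρ0).mpr hrρ
  refine ⟨B * (1 - r / ρ)⁻¹, fun τ hτ => ?_⟩
  have hgeo : HasSum (fun n : ℕ => B * (r / ρ) ^ n) (B * (1 - r / ρ)⁻¹) :=
    (hasSum_geometric_of_lt_one hq0 hq1).mul_left B
  rw [← (h τ).tsum_eq]
  refine tsum_of_norm_bounded hgeo fun n => ?_
  rw [norm_mul, norm_pow]
  have h1 : ‖infZ N τ‖ ^ n ≤ r ^ n := pow_le_pow_left₀ (norm_nonneg _) hτ n
  calc ‖PowerSeries.coeff n ψ‖ * ‖infZ N τ‖ ^ n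
      ≤ ‖PowerSeries.coeff n ψ‖ * r ^ n :=
        mul_le_mul_of_nonneg_left h1 (norm_nonneg _)
    _ = (‖PowerSeries.coeff n ψ‖ * ρ ^ n) * (r / ρ) ^ n := by
        have e : ρ * (r / ρ) = r := by field_simp
        rw [mul_assoc, ← mul_pow, e]
    _ ≤ B * (r / ρ) ^ n := mul_le_mul_of_nonneg_right (hB' n) (by positivity)

/-- A function with a convergent Laurent expansion in `exp (2πiτ/N)` satisfies the S24
`ExpGrowth` bound (on all of `im τ ≥ 1`). -/
theorem expGrowth_of_infExp {f : ℍ → ℂ} {φ : LaurentSeries ℂ} (h : InfExp N f φ) :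
    ExpGrowth f := by
  have hN : (0 : ℝ) < N := by exact_mod_cast Nat.pos_of_ne_zero (NeZero.ne N)
  have hN1 : (1 : ℝ) ≤ N := by exact_mod_cast Nat.one_le_iff_ne_zero.mpr (NeZero.ne N)
  set r : ℝ := Real.exp (-2 * π / N) with hr
  have hr0 : 0 < r := Real.exp_pos _
  have hr1 : r < 1 := by
    rw [hr, Real.exp_lt_one_iff]
    have : 0 < 2 * π / N := by positivity
    have e : -2 * π / N = -(2 * π / N) := by ring
    rw [e]
    linarith
  obtain ⟨C, hC⟩ := exists_bound_of_infPExp_of_lt h.powerSeriesPart hr0 hr1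
  refine ⟨C, (-φ.order).toNat, fun τ hτ => ?_⟩
  have hz0 : infZ N τ ≠ 0 := infZ_ne_zero N τ
  have hzpos : 0 < ‖infZ N τ‖ := norm_pos_iff.mpr hz0
  have hzle : ‖infZ N τ‖ ≤ r := by
    rw [norm_infZ_eq, hr]
    apply Real.exp_le_exp.mpr
    have hpi := Real.pi_pos
    rw [div_le_div_iff_of_pos_right hN]
    nlinarith
  have hg := hC τ hzle
  rw [norm_mul, norm_zpow] at hg
  have hf : ‖f τ‖ = ‖infZ N τ‖ ^ φ.order * (‖infZ N τ‖ ^ (-φ.order) * ‖f τ‖) := by
    rw [← mul_assoc, ← zpow_add₀ hzpos.ne', add_neg_cancel, zpow_zero, one_mul]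
  have hC0 : 0 ≤ C := le_trans (by positivity) hg
  have hpow : ‖infZ N τ‖ ^ φ.order ≤ Real.exp (2 * π * ((-φ.order).toNat : ℕ) * τ.im) := by
    have hz1 : ‖infZ N τ‖ ≤ 1 := hzle.trans hr1.le
    have hle : -(((-φ.order).toNat : ℕ) : ℤ) ≤ φ.order := by
      have := Int.self_le_toNat (-φ.order)
      omega
    have h1 : ‖infZ N τ‖ ^ φ.order ≤ ‖infZ N τ‖ ^ (-(((-φ.order).toNat : ℕ) : ℤ)) :=
      zpow_le_zpow_right_of_le_one₀ hzpos hz1 hle
    refine h1.trans ?_
    rw [zpow_neg, zpow_natCast, ← inv_pow, norm_infZ_eq, ← Real.exp_neg, ← Real.exp_nat_mul]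
    apply Real.exp_le_exp.mpr
    have him : 0 < τ.im := τ.im_pos
    have hm0 : (0 : ℝ) ≤ ((-φ.order).toNat : ℕ) := Nat.cast_nonneg _
    have hq : 2 * π * τ.im / N ≤ 2 * π * τ.im := by
      rw [div_le_iff₀ hN]
      have : 0 < 2 * π * τ.im := by positivity
      nlinarith
    have : -(-2 * π * τ.im / N) = 2 * π * τ.im / N := by ring
    rw [this]
    calc (((-φ.order).toNat : ℕ) : ℝ) * (2 * π * τ.im / N)
        ≤ (((-φ.order).toNat : ℕ) : ℝ) * (2 * π * τ.im) :=
          mul_le_mul_of_nonneg_left hq hm0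
      _ = 2 * π * ((-φ.order).toNat : ℕ) * τ.im := by ring
  rw [hf]
  calc ‖infZ N τ‖ ^ φ.order * (‖infZ N τ‖ ^ (-φ.order) * ‖f τ‖)
      ≤ Real.exp (2 * π * ((-φ.order).toNat : ℕ) * τ.im) * C :=
        mul_le_mul hpow hg (by positivity) (Real.exp_pos _).le
    _ = C * Real.exp (2 * π * ((-φ.order).toNat : ℕ) * τ.im) := mul_comm _ _

/-- A `Γ₀(N)`-invariant element of `holN N` lies in `goodRing N`. -/
theorem mem_goodRing_of_mem_holN {f : ℍ → ℂ} (hf : f ∈ holN N)
    (hinv : ∀ γ ∈ CongruenceSubgroup.Gamma0 N, ∀ τ : ℍ, f (γ • τ) = f τ) :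
    f ∈ goodRing N := by
  refine ⟨hf.1, hinv, fun g => ?_⟩
  obtain ⟨φ, hφ⟩ := hf.2 g
  exact expGrowth_of_infExp hφ

/-- **K1 → MERO**: the `p`-th power of the Kummer function is a good function of level `N`. -/
theorem kummerFun_pow_mem_goodRing {χ : CongruenceSubgroup.Gamma0 N →* ℂˣ} (hχ : ParTrivial χ)
    (hnorm : ∀ γ, ‖(χ γ : ℂ)‖ = 1) {p : ℕ} (hp : ∀ γ, χ γ ^ p = 1) :
    kummerFun N χ ^ p ∈ goodRing N := by
  refine mem_goodRing_of_mem_holN (pow_mem (kummerFun_mem_holN hχ hnorm) p) ?_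
  intro γ hγ τ
  exact (hasCharacter_kummerFun hχ).pow_invariant hp ⟨γ, hγ⟩ τ

/-- `InfExp` (S24 `Inf`) implies `HasQExp` (S24 `H708`) for holomorphic functions. -/
theorem hasQExp_of_infExp {f : ℍ → ℂ} {φ : LaurentSeries ℂ} (hol : MDiff f)
    (h : InfExp N f φ) : Fermat.Agent.S24.H708.HasQExp N f φ :=
  Fermat.Agent.S24.H708.HasQExp.of_hasSum hol h

omit [NeZero N] in
/-- The `q`-expansion of the Kummer function (S24 `H708` form). -/
theorem hasQExp_kummerFun {χ : CongruenceSubgroup.Gamma0 N →* ℂˣ} (hχ : ParTrivial χ)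
    (hnorm : ∀ γ, ‖(χ γ : ℂ)‖ = 1) :
    Fermat.Agent.S24.H708.HasQExp 1 (kummerFun N χ) (kummerExp N χ) :=
  hasQExp_of_infExp (mdiff_kummerFun hχ hnorm) (infExp_kummerFun hχ hnorm)

omit [NeZero N] in
/-- The `q`-expansion of the `p`-th power of the Kummer function. -/
theorem hasQExp_kummerFun_pow {χ : CongruenceSubgroup.Gamma0 N →* ℂˣ} (hχ : ParTrivial χ)
    (hnorm : ∀ γ, ‖(χ γ : ℂ)‖ = 1) (p : ℕ) :
    Fermat.Agent.S24.H708.HasQExp 1 (kummerFun N χ ^ p) (kummerExp N χ ^ p) :=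
  (hasQExp_kummerFun hχ hnorm).pow p

end Fermat.Agent.S29.H332

end
end
-- ===== PACK-END S29/H332/Growth.lean

-- ===== PACK-BEGIN S29/H332/Rot.lean
section



/-!
# S29 / M4b / K2 (analytic part): local orders of a function with character

In the S24 framework (`HolBase`, `Expansion`, `RotData`): if `f ∈ Hol` is invariant under `ε ^ k`
then `R.m ∣ k * ord (X.E f)`.  For a function `h` with a character `χ` of `Γ₀(N)` and the coset
`x = g Γ₀(N)`, `h ∘ g⁻¹` is invariant under `ε ^ k` as soon as `ε ^ k x = x` and `χ` is trivial on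
`g⁻¹ ε ^ k g` (automatic if `χ` kills parabolic and finite-order elements).  Hence the order of
the expansion `σ_x` of `h ^ p` is divisible by `p * (m / k)`: the divisor of `h ^ p` is divisible
by `p` at every place.
-/

set_option autoImplicit false
set_option linter.unusedSectionVars false

noncomputable section

open UpperHalfPlane HahnSeries ModularCurve
open scoped MatrixGroups

namespace Fermat.Agent.S29.H332

open Fermat.Agent.S24 Fermat.Agent.S24.H997

variable {N : ℕ} [NeZero N]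

section Abstract

variable (B : HolBase N) (X : Expansion B) {ε : SL(2, ℤ)} (R : RotData B X ε)

/-- Iterating the rotation relation. -/
theorem rotRel_pow (k : ℕ) (f : B.Hol) :
    RotRel (R.ζ ^ k) (X.E f) (X.E (B.compH (ε ^ k) f)) := by
  induction k with
  | zero =>
    rw [pow_zero, pow_zero, HolBase.compH_one]
    exact ⟨rfl, by simp⟩
  | succ k ih =>
    have h1 := R.rot (B.compH (ε ^ k) f)
    rw [← HolBase.compH_mul, ← pow_succ] at h1
    refine ⟨h1.1.trans ih.1, ?_⟩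
    rw [h1.2, ih.1, ih.2, ← mul_assoc, pow_succ, mul_zpow, mul_comm (R.ζ ^ (X.E f).order)]

/-- If `f ≠ 0` is invariant under `ε ^ k`, then `m ∣ k * ord (E f)`. -/
theorem dvd_mul_order_of_compH_pow_eq (k : ℕ) {f : B.Hol} (hf : f ≠ 0)
    (hinv : B.compH (ε ^ k) f = f) : (R.m : ℤ) ∣ (k : ℤ) * (X.E f).order := by
  have h := rotRel_pow B X R k f
  rw [hinv] at h
  have hE : X.E f ≠ 0 := fun h0 => hf (X.inj (by rw [h0, map_zero]))
  have hlc : (X.E f).leadingCoeff ≠ 0 := leadingCoeff_ne_zero.mpr hE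
  have h2 := h.2
  have h3 : (R.ζ ^ k) ^ (X.E f).order = 1 := by
    have : (R.ζ ^ k) ^ (X.E f).order * (X.E f).leadingCoeff = 1 * (X.E f).leadingCoeff := by
      rw [one_mul]
      exact h2.symm
    exact mul_right_cancel₀ hlc this
  rw [← zpow_natCast, ← zpow_mul] at h3
  exact (R.hζ.zpow_eq_one_iff_dvd _).mp h3

end Abstract

section Character

variable {χ : CongruenceSubgroup.Gamma0 N →* ℂˣ} {h : ℍ → ℂ}

omit [NeZero N] in
/-- `h ∘ g` is invariant under `δ` if `g δ g⁻¹ ∈ Γ₀(N)` and `χ (g δ g⁻¹) = 1`. -/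
theorem HasCharacter.compSL_compSL (hh : HasCharacter χ h) (g δ : SL(2, ℤ))
    (hδ : g * δ * g⁻¹ ∈ CongruenceSubgroup.Gamma0 N) (hχ : χ ⟨_, hδ⟩ = 1) :
    compSL δ (compSL g h) = compSL g h := by
  funext τ
  simp only [compSL_apply]
  have h1 : g • (δ • τ) = (g * δ * g⁻¹) • (g • τ) := by
    rw [← mul_smul, ← mul_smul, mul_assoc, mul_assoc, inv_mul_cancel, mul_one]
  have h2 := hh ⟨_, hδ⟩ (g • τ)
  rw [hχ, Units.val_one, one_mul] at h2
  rw [h1, h2]

/-- `χ` is trivial on the elements of finite order. -/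
def EllTrivial (χ : CongruenceSubgroup.Gamma0 N →* ℂˣ) : Prop :=
  ∀ (γ : CongruenceSubgroup.Gamma0 N) (n : ℕ), 0 < n → γ ^ n = 1 → χ γ = 1

/-- **Local divisibility.**  Let `h ∈ holN N` be nonzero with character `χ`, `X` an expansion with
rotation data for `ε`, `g ∈ SL(2,ℤ)` and `k` with `g ε^k g⁻¹ ∈ Γ₀(N)`, `χ(g ε^k g⁻¹) = 1`.  Then
`m ∣ k * ord (E (h ∘ g))`. -/
theorem HasCharacter.dvd_mul_order (hh : HasCharacter χ h) (hmem : h ∈ holN N) (h0 : h ≠ 0)
    (X : Expansion (holBase N)) {ε : SL(2, ℤ)} (R : RotData (holBase N) X ε)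
    (g : SL(2, ℤ)) (k : ℕ) (hk : g * ε ^ k * g⁻¹ ∈ CongruenceSubgroup.Gamma0 N)
    (hχ : χ ⟨_, hk⟩ = 1) :
    (R.m : ℤ) ∣ (k : ℤ) * (X.E ((holBase N).compH g ⟨h, hmem⟩)).order := by
  refine dvd_mul_order_of_compH_pow_eq (holBase N) X R k ?_ ?_
  · intro hz
    apply h0
    have := (holBase N).compH_injective g (hz.trans (map_zero _).symm)
    exact congrArg Subtype.val this
  · apply Subtype.ext
    exact hh.compSL_compSL g (ε ^ k) hk hχ

omit [NeZero N] in
/-- Conjugates of elements of finite order have finite order. -/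
theorem EllTrivial.conj (hχ : EllTrivial χ) {ε : SL(2, ℤ)} {n : ℕ} (hn : 0 < n) (hε : ε ^ n = 1)
    (g : SL(2, ℤ)) (k : ℕ) (hk : g * ε ^ k * g⁻¹ ∈ CongruenceSubgroup.Gamma0 N) :
    χ ⟨_, hk⟩ = 1 := by
  refine hχ _ n hn ?_
  apply Subtype.ext
  rw [SubgroupClass.coe_pow, Subgroup.coe_mk, OneMemClass.coe_one]
  have : (g * ε ^ k * g⁻¹) ^ n = g * (ε ^ k) ^ n * g⁻¹ := conj_pow
  rw [this, ← pow_mul, mul_comm, pow_mul, hε, one_pow, mul_one, mul_inv_cancel]

omit [NeZero N] in
/-- Conjugates of powers of `T` are parabolic. -/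
theorem ParTrivial.conj_T (hχ : ParTrivial χ) (g : SL(2, ℤ)) (k : ℕ)
    (hk : g * ModularGroup.T ^ k * g⁻¹ ∈ CongruenceSubgroup.Gamma0 N) :
    χ ⟨_, hk⟩ = 1 := by
  apply hχ
  left
  have := trace_conj_T_zpow g (k : ℤ)
  rwa [zpow_natCast] at this

/-- Local divisibility at a point with finite-order rotation `ε` (elliptic points: `ε = S`,
`ε = S * T`; generic points: `ε = 1`). -/
theorem HasCharacter.dvd_mul_order_of_finite_order (hh : HasCharacter χ h) (hmem : h ∈ holN N)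
    (h0 : h ≠ 0) (hχ : EllTrivial χ)
    (X : Expansion (holBase N)) {ε : SL(2, ℤ)} (R : RotData (holBase N) X ε)
    {n : ℕ} (hn : 0 < n) (hε : ε ^ n = 1)
    (g : SL(2, ℤ)) (k : ℕ) (hk : g * ε ^ k * g⁻¹ ∈ CongruenceSubgroup.Gamma0 N) :
    (R.m : ℤ) ∣ (k : ℤ) * (X.E ((holBase N).compH g ⟨h, hmem⟩)).order :=
  hh.dvd_mul_order hmem h0 X R g k hk (hχ.conj hn hε g k hk)

/-- Local divisibility at the cusps (`ε = T`). -/
theorem HasCharacter.dvd_mul_order_T (hh : HasCharacter χ h) (hmem : h ∈ holN N)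
    (h0 : h ≠ 0) (hχ : ParTrivial χ)
    (X : Expansion (holBase N)) (R : RotData (holBase N) X ModularGroup.T)
    (g : SL(2, ℤ)) (k : ℕ)
    (hk : g * ModularGroup.T ^ k * g⁻¹ ∈ CongruenceSubgroup.Gamma0 N) :
    (R.m : ℤ) ∣ (k : ℤ) * (X.E ((holBase N).compH g ⟨h, hmem⟩)).order :=
  hh.dvd_mul_order hmem h0 X R g k hk (hχ.conj_T g k hk)

end Character

end Fermat.Agent.S29.H332

end
end
-- ===== PACK-END S29/H332/Rot.lean

-- ===== PACK-BEGIN S29/H282/FracK.lean
section


/-!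
# S29 / M4b-K2 (helper282) — the function field of `X₀(N)` over an arbitrary field `K ⊇ ℚ`

Port of `Fermat/Agent/S24/Mod/H997Frac.lean` from `ℚ̄` to an arbitrary field `K` of
characteristic zero:

* `FFK K N`    : the function field `laurentBaseChange K (modularFunctionFieldFull N)`;
* `RNK K N`    : the `K`-subalgebra of `K((q))` generated by the `j(q^d)`, `d ∣ N`;
* `inclRNK`    : the inclusion `RNK K N → FFK K N`;
* `liftFK`     : every injective ring hom `RNK K N →+* L` into a field extends to `FFK K N`.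
-/

set_option autoImplicit false

noncomputable section

open ModularCurve HahnSeries IntermediateField

namespace Fermat.Agent.S29.H282

open Fermat.Agent.S24 Fermat.Agent.S24.Deg457

variable (K : Type*) [Field K] [Algebra ℚ K] (N : ℕ)

/-- The function field of `X₀(N)` over `K` (as a type). -/
abbrev FFK : Type _ := ↥(laurentBaseChange K (modularFunctionFieldFull N))

/-- The function field of `X₀(N)` over `K` is generated over `K` by the `j(q^d)`, `d ∣ N`. -/
theorem ffK_eq_adjoin :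
    laurentBaseChange K (modularFunctionFieldFull N) = IntermediateField.adjoin K (gens K N) := by
  apply le_antisymm
  · exact laurentBaseChange_full_le N
  · rw [laurentBaseChange]
    exact IntermediateField.adjoin.mono _ _ _
      (Set.image_mono (IntermediateField.subset_adjoin ℚ _))

/-- The polynomial ring `K[j(q^d) : d ∣ N] ⊆ K((q))`. -/
abbrev RNK : Subalgebra K (LaurentSeries K) := AK K N

theorem RNK_le : RNK K N ≤ (laurentBaseChange K (modularFunctionFieldFull N)).toSubalgebra := by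
  rw [ffK_eq_adjoin]
  exact IntermediateField.algebra_adjoin_le_adjoin K (gens K N)

/-- The inclusion `R_N → FFK K N`. -/
def inclRNK : RNK K N →ₐ[K] FFK K N := Subalgebra.inclusion (RNK_le K N)

@[simp] theorem coe_inclRNK (r : RNK K N) :
    ((inclRNK K N r : FFK K N) : LaurentSeries K) = r := rfl

theorem inclRNK_injective : Function.Injective (inclRNK K N) :=
  Subalgebra.inclusion_injective (RNK_le K N)

theorem exists_div_inclRNK (f : FFK K N) :
    ∃ r t : RNK K N, t ≠ 0 ∧ f = inclRNK K N r / inclRNK K N t := by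
  have hf : (f : LaurentSeries K) ∈ IntermediateField.adjoin K (gens K N) := by
    rw [← ffK_eq_adjoin]; exact f.2
  obtain ⟨r, hr, s, hs, h⟩ := IntermediateField.mem_adjoin_iff_div.mp hf
  by_cases hs0 : s = 0
  · refine ⟨0, 1, one_ne_zero, ?_⟩
    apply Subtype.ext
    rw [h, hs0, div_zero]
    simp
  · refine ⟨⟨r, hr⟩, ⟨s, hs⟩, fun h0 => hs0 (congrArg Subtype.val h0), ?_⟩
    apply Subtype.ext
    rw [h]
    simp

/-- The generator `j(q^d)` as an element of `R_N`. -/
def jRK (d : ℕ) [NeZero d] (hd : d ∣ N) : RNK K N :=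
  ⟨coeffEmb K (qExpand ℚ d jq),
    Algebra.subset_adjoin ⟨_, mem_divisorExpansions N hd, rfl⟩⟩

/-- The `j`-function as an element of the function field of `X₀(N)` over `K`. -/
def jFK [NeZero N] : FFK K N :=
  ⟨coeffEmb K jq,
    coeffEmb_mem_laurentBaseChange K (modularFunctionField_le_full N (jq_mem N))⟩

theorem inclRNK_jRK_one [NeZero N] : inclRNK K N (jRK K N 1 (one_dvd N)) = jFK K N := by
  apply Subtype.ext
  simp [jRK, jFK, qExpand_one_apply]

theorem jFK_Kbar [NeZero N] : jFK Kbar N = jF N := rfl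

section Lift

variable {K N}
variable {L : Type*} [Field L]

/-- Extension of an injective ring hom `R_N →+* L` to the fraction field `FFK K N`. -/
def liftFK (s : RNK K N →+* L) (hs : Function.Injective s) : FFK K N →+* L :=
  letI : Algebra (RNK K N) (FFK K N) := (inclRNK K N).toRingHom.toAlgebra
  haveI : FaithfulSMul (RNK K N) (FFK K N) :=
    (faithfulSMul_iff_algebraMap_injective _ _).mpr (inclRNK_injective K N)
  haveI : IsFractionRing (RNK K N) (FFK K N) :=
    IsFractionRing.of_field _ _ fun z => by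
      obtain ⟨r, t, -, h⟩ := exists_div_inclRNK K N z
      exact ⟨r, t, h⟩
  IsFractionRing.lift hs

theorem liftFK_inclRNK (s : RNK K N →+* L) (hs : Function.Injective s) (r : RNK K N) :
    liftFK s hs (inclRNK K N r) = s r := by
  let _ : Algebra (RNK K N) (FFK K N) := (inclRNK K N).toRingHom.toAlgebra
  have : FaithfulSMul (RNK K N) (FFK K N) :=
    (faithfulSMul_iff_algebraMap_injective _ _).mpr (inclRNK_injective K N)
  have : IsFractionRing (RNK K N) (FFK K N) :=
    IsFractionRing.of_field _ _ fun z => by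
      obtain ⟨r, t, -, h⟩ := exists_div_inclRNK K N z
      exact ⟨r, t, h⟩
  exact IsFractionRing.lift_algebraMap hs r

theorem liftFK_div (s : RNK K N →+* L) (hs : Function.Injective s) (r t : RNK K N) :
    liftFK s hs (inclRNK K N r / inclRNK K N t) = s r / s t := by
  rw [map_div₀, liftFK_inclRNK, liftFK_inclRNK]

theorem liftFK_algebraMap (s : RNK K N →+* L) (hs : Function.Injective s) (c : K) :
    liftFK s hs (algebraMap K (FFK K N) c) = s (algebraMap K (RNK K N) c) := by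
  rw [← liftFK_inclRNK s hs]
  congr 1

end Lift

end Fermat.Agent.S29.H282

end
end
-- ===== PACK-END S29/H282/FracK.lean

-- ===== PACK-BEGIN S18/H568/D2.lean
section






/-!
# S18 / node D2 (helper568): transfer `CORE(M) → CORE(N)`

EXACT node statement of `origin/helper18:Fermat/Agent/S18/Integ/Skeleton.lean` (`node_d2`), with
`levelM N ℓ` unfolded (`levelM` lives in the skeleton file, which contains `sorry`):

    theorem node_d2 (N : ℕ) [NeZero N] {ℓ : ℕ} [Fact ℓ.Prime] (hℓN : ¬ ℓ ∣ N)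
        (A : ValuationSubring Qb) (hA : A.LiesOverPrime ℓ) (m : ℕ) (hm : ¬ ℓ ∣ m) :
        CoreStatement (if ℓ = 3 then Nat.lcm N 2 else if ℓ = 2 then Nat.lcm N 3 else N) A m →
          CoreStatement N A m

General form: `coreStatement_of_dvd` (any `N ∣ M` with `[F_M : F_N]` nonzero and prime to `m`).

Proof: (1) `IsInt A N U → IsInt A M U` (monotonicity of the function fields);
(2) for a place `w` of `F_M`, `ord_w(f) = e(w) · ord_{w|F_N}(f)` for `f ∈ F_N` (Prelude
`Place.ord_restrictAlong`), so `m ∣ div` is inherited; (3) norm trick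
(`exists_pow_of_norm_coprime`); (4) degree `[F_{Np} : F_N] = p + 1` for `p ∤ N`
(helper988, `relfinrank_bar_mul_prime`, on main).
-/

set_option autoImplicit false

noncomputable section

namespace Fermat.Agent.S18.H568

open ModularCurve AlgebraicCurve HahnSeries IntermediateField Module

section Generic

variable {K Ω : Type*} [Field K] [Field Ω] [Algebra K Ω] {E F : IntermediateField K Ω}

/-- `extendScalars h` and `F` (with the `E`-algebra structure along the inclusion) are the same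
`E`-vector space. -/
def extendScalarsLinearEquiv568 (hEF : E ≤ F) :
    letI := (IntermediateField.inclusion hEF).toRingHom.toAlgebra
    ↥(extendScalars hEF) ≃ₗ[E] F :=
  letI := (IntermediateField.inclusion hEF).toRingHom.toAlgebra
  { toFun := fun x => ⟨x.1, (mem_extendScalars hEF).mp x.2⟩
    invFun := fun x => ⟨x.1, (mem_extendScalars hEF).mpr x.2⟩
    map_add' := fun _ _ => rfl
    map_smul' := fun _ _ => rfl
    left_inv := fun _ => rfl
    right_inv := fun _ => rfl }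

theorem finrank_inclusion_eq_relfinrank (hEF : E ≤ F) :
    letI := (IntermediateField.inclusion hEF).toRingHom.toAlgebra
    finrank E F = E.relfinrank F := by
  letI := (IntermediateField.inclusion hEF).toRingHom.toAlgebra
  rw [relfinrank_eq_finrank_of_le hEF]
  exact (extendScalarsLinearEquiv568 hEF).finrank_eq.symm

theorem finiteDimensional_inclusion (hEF : E ≤ F) (h0 : E.relfinrank F ≠ 0) :
    letI := (IntermediateField.inclusion hEF).toRingHom.toAlgebra
    FiniteDimensional E F := by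
  letI := (IntermediateField.inclusion hEF).toRingHom.toAlgebra
  apply FiniteDimensional.of_finrank_pos
  rw [finrank_inclusion_eq_relfinrank hEF]
  exact Nat.pos_of_ne_zero h0

end Generic

/-- Monotonicity of `ℚ̄(X₀(N))` in the level. -/
theorem bar_le_of_dvd {N M : ℕ} [NeZero N] [NeZero M] (h : N ∣ M) :
    modularFunctionFieldBar N ≤ modularFunctionFieldBar M := by
  rw [Fermat.Agent.S28.H988.modularFunctionFieldBar_eq_fullC,
    Fermat.Agent.S28.H988.modularFunctionFieldBar_eq_fullC]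
  exact full_degeneracyC_le _ h

theorem isInt_of_dvd {N M : ℕ} [NeZero N] [NeZero M] (h : N ∣ M) {A : ValuationSubring Qb}
    {U : LaurentSeries A} (hU : IsInt A N U) : IsInt A M U :=
  ⟨bar_le_of_dvd h hU.1, full_degeneracyC_le _ h hU.2.1, hU.2.2⟩

theorem toF_ne_zero {N : ℕ} {A : ValuationSubring Qb} {U : LaurentSeries A}
    (hU : IsInt A N U) : toF hU ≠ 0 := by
  intro h0
  have h1 : coeffMap A.subtype U = 0 := congrArg Subtype.val h0
  have h2 : U = 0 := by
    ext n
    have := congrArg (fun f : LaurentSeries Qb => f.coeff n) h1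
    simpa [coeffMap_coeff] using this
  exact hU.2.2 (by rw [h2]; exact map_zero _)

/-- **General transfer**: `CORE(M) → CORE(N)` for `N ∣ M` when `[F_M : F_N]` is finite and prime
to `m`. -/
theorem coreStatement_of_dvd (N M : ℕ) [NeZero N] [NeZero M] (hNM : N ∣ M)
    (A : ValuationSubring Qb) (m : ℕ)
    (hd0 : (modularFunctionFieldBar N).relfinrank (modularFunctionFieldBar M) ≠ 0)
    (hcop : Nat.Coprime ((modularFunctionFieldBar N).relfinrank (modularFunctionFieldBar M)) m) :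
    CoreStatement M A m → CoreStatement N A m := by
  intro hM U₁ U₂ h₁ h₂ hred hord
  have hle := bar_le_of_dvd hNM
  set φ : modularFunctionFieldBar N →ₐ[Qb] modularFunctionFieldBar M :=
    IntermediateField.inclusion hle with hφdef
  letI : Algebra (modularFunctionFieldBar N) (modularFunctionFieldBar M) := algebraAlong φ
  haveI : IsScalarTower Qb (modularFunctionFieldBar N) (modularFunctionFieldBar M) :=
    isScalarTower_along φ
  haveI hfd : FiniteDimensional (modularFunctionFieldBar N) (modularFunctionFieldBar M) :=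
    finiteDimensional_inclusion hle hd0
  have hfr : finrank (modularFunctionFieldBar N) (modularFunctionFieldBar M) =
      (modularFunctionFieldBar N).relfinrank (modularFunctionFieldBar M) :=
    finrank_inclusion_eq_relfinrank hle
  have hφint : φ.toRingHom.IsIntegral := fun x =>
    (Algebra.IsIntegral.of_finite (modularFunctionFieldBar N) (modularFunctionFieldBar M)).isIntegral x
  have h₁' : IsInt A M U₁ := isInt_of_dvd hNM h₁
  have h₂' : IsInt A M U₂ := isInt_of_dvd hNM h₂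
  have e₁ : toF h₁' = φ (toF h₁) := rfl
  have e₂ : toF h₂' = φ (toF h₂) := rfl
  obtain ⟨c, y, hc, hy, hcy⟩ := hM U₁ U₂ h₁' h₂' hred (fun w => by
    rw [e₁, e₂, Place.ord_restrictAlong φ hφint w, Place.ord_restrictAlong φ hφint w, ← mul_sub]
    exact Dvd.dvd.mul_left (hord _) _)
  have hn₁ := toF_ne_zero h₁
  have hn₂ := toF_ne_zero h₂
  -- descend `u = toF h₁ / toF h₂`
  have hu : toF h₁ / toF h₂ ≠ 0 := div_ne_zero hn₁ hn₂
  have hkey : algebraMap (modularFunctionFieldBar N) (modularFunctionFieldBar M)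
      (toF h₁ / toF h₂) = algebraMap Qb (modularFunctionFieldBar M) c * y ^ m := by
    have hn₂' : toF h₂' ≠ 0 := toF_ne_zero h₂'
    show φ (toF h₁ / toF h₂) = _
    rw [map_div₀, ← e₁, ← e₂, hcy, mul_div_assoc, div_self hn₂', mul_one]
  obtain ⟨c', y', hc', hy', hfin⟩ :=
    exists_pow_of_norm_coprime m (by rw [hfr]; exact hcop) (toF h₁ / toF h₂) hu c hc y hy hkey
  refine ⟨c', y', hc', hy', ?_⟩
  rw [← hfin, div_mul_cancel₀ _ hn₂]

/-- Transfer along `N ∣ N * p`, `p` prime not dividing `N`, when `p + 1` is prime to `m`. -/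
theorem coreStatement_of_mul_prime (N p : ℕ) [NeZero N] (hp : p.Prime) (hpN : ¬ p ∣ N)
    (A : ValuationSubring Qb) (m : ℕ) (h2 : Nat.Coprime (p + 1) m) :
    CoreStatement (N * p) A m → CoreStatement N A m := by
  haveI : NeZero (N * p) := ⟨Nat.mul_ne_zero (NeZero.ne N) hp.ne_zero⟩
  have hdeg := Fermat.Agent.S28.H988.relfinrank_bar_mul_prime N p (NeZero.ne N) hp
  rw [if_neg hpN] at hdeg
  refine coreStatement_of_dvd N (N * p) (Dvd.intro p rfl) A m ?_ ?_
  · rw [hdeg]; exact Nat.succ_ne_zero p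
  · rw [hdeg]; exact h2

/-- **NODE D2** (statement of `Integ/Skeleton.lean`, `levelM N ℓ` unfolded). -/
theorem node_d2 (N : ℕ) [NeZero N] {ℓ : ℕ} [Fact ℓ.Prime] (_hℓN : ¬ ℓ ∣ N)
    (A : ValuationSubring Qb) (_hA : A.LiesOverPrime ℓ) (m : ℕ) (hm : ¬ ℓ ∣ m) :
    CoreStatement (if ℓ = 3 then Nat.lcm N 2 else if ℓ = 2 then Nat.lcm N 3 else N) A m →
      CoreStatement N A m := by
  split_ifs with h3 h2
  · -- ℓ = 3, M = lcm N 2
    subst h3
    by_cases h : 2 ∣ N
    · rw [Nat.lcm_eq_left h]; exact id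
    · have hc : Nat.Coprime N 2 :=
        (Nat.coprime_comm.mp ((Nat.Prime.coprime_iff_not_dvd Nat.prime_two).mpr h))
      rw [hc.lcm_eq_mul]
      have hm3 : Nat.Coprime 3 m := (Nat.Prime.coprime_iff_not_dvd Nat.prime_three).mpr hm
      exact coreStatement_of_mul_prime N 2 Nat.prime_two h A m hm3
  · -- ℓ = 2, M = lcm N 3
    subst h2
    by_cases h : 3 ∣ N
    · rw [Nat.lcm_eq_left h]; exact id
    · have hc : Nat.Coprime N 3 :=
        (Nat.coprime_comm.mp ((Nat.Prime.coprime_iff_not_dvd Nat.prime_three).mpr h))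
      rw [hc.lcm_eq_mul]
      have hm2 : Nat.Coprime 2 m := (Nat.Prime.coprime_iff_not_dvd Nat.prime_two).mpr hm
      have hm4 : Nat.Coprime (3 + 1) m := by
        have : (3 + 1 : ℕ) = 2 ^ 2 := by norm_num
        rw [this]
        exact Nat.Coprime.pow_left 2 hm2
      exact coreStatement_of_mul_prime N 3 Nat.prime_three h A m hm4
  · exact id

end Fermat.Agent.S18.H568

end

end
-- ===== PACK-END S18/H568/D2.lean

-- ===== PACK-BEGIN S18/Mod/H216/NodeJ.lean
section






/-!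
# S18 / MOD (helper216): G-V and G-QEP for the coordinate `j` — UNCONDITIONAL

For `ℓ ∤ M` and `A` over `ℓ`:
* `coreData_residue` : S28 `CoreData M κ` for the residue field `κ` of `A`;
* `partVStatement_j`   : `PartVStatement M A (jOm M)`;
* `partQepStatement_j` : `PartQepStatement M A (jOm M)`.
-/

set_option autoImplicit false
set_option linter.unusedSectionVars false

noncomputable section

namespace Fermat.Agent.S18.Mod.H216

open ModularCurve AlgebraicCurve HahnSeries Polynomial Fermat.Agent.S18 Fermat.Agent.S18.Mod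
open Fermat.Agent.S28 Fermat.Agent.S18.Alg

variable {M : ℕ} [NeZero M] {ℓ : ℕ} [Fact ℓ.Prime] (A : ValuationSubring Qb)

theorem charP_residue (hA : A.LiesOverPrime ℓ) : CharP (IsLocalRing.ResidueField ↥A) ℓ := by
  have hp : ℓ.Prime := Fact.out
  rw [CharP.charP_iff_prime_eq_zero hp]
  obtain ⟨ha, hmem⟩ := (ValuationSubring.mem_nonunits_iff_exists_mem_maximalIdeal).mp hA
  have h1 : IsLocalRing.residue ↥A ⟨(ℓ : Qb), ha⟩ = 0 :=
    (IsLocalRing.residue_eq_zero_iff _).mpr hmem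
  have h2 : (⟨(ℓ : Qb), ha⟩ : ↥A) = ((ℓ : ℕ) : ↥A) := Subtype.ext (by simp)
  rw [h2, map_natCast] at h1
  exact h1

/-- S28 `CoreData` over the residue field of `A`. -/
theorem coreData_residue (hℓM : ¬ ℓ ∣ M) (hA : A.LiesOverPrime ℓ) :
    CoreData M (IsLocalRing.ResidueField ↥A) := by
  haveI := charP_residue A hA
  exact H867.coreData_of_inputs M ℓ hℓM (IsLocalRing.ResidueField ↥A)
    (fun p hp _ _ => H807.nonempty_modPolyData p hp)
    (fun p hp _ _ => H807.nonempty_unitPolyData p hp)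
    H25.theta_identity

/-- **G-V for `x = j`** (exact target `PartVStatement M A (jOm M)`). -/
theorem partVStatement_j (hℓM : ¬ ℓ ∣ M) (hA : A.LiesOverPrime ℓ) :
    PartVStatement M A (jOm M) :=
  fun E _ _ hR => partV_j A E (coreData_residue A hℓM hA) hR

/-- **G-QEP for `x = j`** (exact target `PartQepStatement M A (jOm M)`). -/
theorem partQepStatement_j (hℓM : ¬ ℓ ∣ M) (hA : A.LiesOverPrime ℓ) :
    PartQepStatement M A (jOm M) :=
  fun E _ _ hR => partQep_j A E (coreData_residue A hℓM hA) hR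

end Fermat.Agent.S18.Mod.H216

end
end
-- ===== PACK-END S18/Mod/H216/NodeJ.lean

-- ===== PACK-BEGIN S18/H438/Front/Regular.lean
section




/-!
# S18 / ALG-FRONT (helper438), part 10: `H754.RegularAlong` on the chart of a good model

For `G : Alg.GoodModel Lc Ec Fc R V w x S`, `B := H138.chart (Rf Fc R) {xf G}`:

* `GoodModelFront.hsep_chart`  : elementwise separability (field form of
  `B12.H33.regularAlong_chart_field`), from `G.separable` and the `q`-expansion principle;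
* `GoodModelFront.hNC_chart`   : `(span {π(x)}).IsRadical` for the primes `π` of `R[X]` not
  associated to `w`, `X - c` (`c ∈ S`), from `G.unramified` via `H754.hNC_typed`;
* `GoodModelFront.regularAlong_chart` : `H754.RegularAlong (algebraMap R B w)`  (b2 on the chart).
-/

set_option autoImplicit false
set_option linter.style.haveILetI false
set_option linter.unusedSectionVars false

noncomputable section

namespace Fermat.Agent.S18.H438

open Alg Polynomial

variable {Ω : Type*} [Field Ω] {Lc Ec Fc : Subfield Ω} {R V : Subring Ω} {w x : Ω}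
  {S : Finset Ω}

namespace GoodModelFront

/-- the branch values, as a finite subset of the ring `R` -/
def SR (Fc : Subfield Ω) (R : Subring Ω) (S : Finset Ω) : Finset (Rf Fc R) :=
  S.preimage (fun r : Rf Fc R => ((r : Fc) : Ω))
    (fun _ _ _ _ h => Subtype.ext (Subtype.ext h))

theorem mem_SR {c : Rf Fc R} : c ∈ SR Fc R S ↔ ((c : Fc) : Ω) ∈ S := Finset.mem_preimage

variable (G : GoodModel Lc Ec Fc R V w x S)

include G in
theorem SR_isUnit_sub :
    ∀ c ∈ SR Fc R S, ∀ c' ∈ SR Fc R S, c ≠ c' → IsUnit (c - c') := by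
  intro c hc c' hc' hne
  rw [isUnit_subring_iff]
  have h1 : ((c : Fc) : Ω) ≠ ((c' : Fc) : Ω) := fun h => hne (Subtype.ext (Subtype.ext h))
  refine ⟨fun h => hne (sub_eq_zero.1 (Subtype.ext h)), ?_⟩
  exact G.S_distinct _ (mem_SR.1 hc) _ (mem_SR.1 hc') h1

/-- evaluation of polynomials over `Fc`, seen in `Ω` -/
theorem coe_eval_Fc (Q : Polynomial Fc) (b : Fc) :
    ((Q.eval b : Fc) : Ω) = (Q.map Fc.subtype).eval (b : Ω) := by
  rw [Polynomial.eval_map]
  exact (Polynomial.eval₂_at_apply Fc.subtype b).symm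

include G in
/-- **Elementwise separability of the special fibre of the chart** (field form). -/
theorem hsep_chart : ∀ b ∈ H138.chart (Rf Fc R) ({xf G} : Set Fc), ∃ P : Polynomial Fc,
    (∀ i, P.coeff i ∈ Algebra.adjoin (Rf Fc R) ({xf G} : Set Fc)) ∧
    (∃ t ∈ H138.chart (Rf Fc R) ({xf G} : Set Fc),
      P.eval b = algebraMap (Rf Fc R) Fc (wR G) * t) ∧
    ¬ ∃ t ∈ H138.chart (Rf Fc R) ({xf G} : Set Fc),
      (derivative P).eval b = algebraMap (Rf Fc R) Fc (wR G) * t := by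
  intro b hb
  have hb' : b ∈ chartRing (Rf Fc R) (xf G) := hb
  have hbV : b ∈ Vf G :=
    chartRing_le_valuationSubring (Rf Fc R) (xf G) (Vf G) (Rf_le_Vf G) (xf_mem_Vf G) hb'
  obtain ⟨P₀, hc, h1, h2, h3⟩ := G.separable (b : Ω) hbV
  have hRF : ∀ r ∈ R, r ∈ Fc := fun r hr => R_le_Fc G hr
  -- lift `P₀` to `Fc[X]`
  have hlift : P₀ ∈ Polynomial.lifts Fc.subtype := by
    rw [Polynomial.lifts_iff_coeff_lifts]
    intro n
    obtain ⟨a, -, h⟩ := exists_mem_baseRing_of_mem_polyRing Fc R (xf G) hRF (hc n)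
    exact ⟨a, h⟩
  obtain ⟨P, hP⟩ := (Polynomial.mem_lifts _).1 hlift
  have hcoe : ∀ i, ((P.coeff i : Fc) : Ω) = P₀.coeff i := fun i => by
    rw [← hP, Polynomial.coeff_map]; rfl
  have hcoeff : ∀ i, P.coeff i ∈ baseRing (Rf Fc R) (xf G) := fun i =>
    (mem_baseRing_iff Fc R (xf G) hRF).2 (by rw [hcoe]; exact hc i)
  have hw0 : wf G ≠ 0 := wf_ne_zero G
  -- values of polynomials with coefficients in `R[x]` at `b` lie in the chart
  have hmem : ∀ Q : Polynomial Fc, (∀ i, Q.coeff i ∈ baseRing (Rf Fc R) (xf G)) →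
      Q.eval b ∈ chartRing (Rf Fc R) (xf G) := by
    intro Q hQ
    rw [Polynomial.eval_eq_sum_range]
    refine Subalgebra.sum_mem _ fun i _ => ?_
    exact Subalgebra.mul_mem _
      ((chartRing (Rf Fc R) (xf G)).algebraMap_mem ⟨Q.coeff i, hQ i⟩)
      (Subalgebra.pow_mem _ hb' i)
  refine ⟨P, hcoeff, ?_, ?_⟩
  · refine ⟨P.eval b * (wf G)⁻¹, ?_, ?_⟩
    · refine qep_fin' G _ (hmem P hcoeff) ?_
      show ((P.eval b : Fc) : Ω) * w⁻¹ ∈ V
      rw [coe_eval_Fc, hP]
      exact h1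
    · show P.eval b = wf G * (P.eval b * (wf G)⁻¹)
      field_simp
  · rintro ⟨t, ht, h⟩
    have htV : t ∈ Vf G :=
      chartRing_le_valuationSubring (Rf Fc R) (xf G) (Vf G) (Rf_le_Vf G) (xf_mem_Vf G) ht
    have hd : (((derivative P).eval b : Fc) : Ω) = (derivative P₀).eval (b : Ω) := by
      rw [coe_eval_Fc, ← Polynomial.derivative_map, hP]
    have h' : (derivative P₀).eval (b : Ω) = w * (t : Ω) := by
      rw [← hd, h]; rfl
    have hw0' : w ≠ 0 := G.w_ne_zero
    have ht0 : (t : Ω) ≠ 0 := by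
      intro ht0
      rw [ht0, mul_zero] at h'
      exact h2 h'
    apply G.w_inv_not_mem_V
    have : w⁻¹ = (t : Ω) * ((derivative P₀).eval (b : Ω))⁻¹ := by
      rw [h']
      field_simp
    rw [this]
    exact V.mul_mem htV h3

include G in
/-- every element of `Lc` is algebraic over the ring `R` -/
theorem exists_poly_of_mem_Lc (a : Ω) (ha : a ∈ Lc) :
    ∃ p : Polynomial (Rf Fc R), p ≠ 0 ∧
      Polynomial.eval₂ (Fc.subtype.comp (Rf Fc R).subtype) a p = 0 := by
  have halg : IsAlgebraic Ec a := G.L_algebraic a ha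
  letI : Algebra (Re G) Ω := ((algebraMap Ec Ω).comp (algebraMap (Re G) Ec)).toAlgebra
  haveI : IsScalarTower (Re G) Ec Ω := IsScalarTower.of_algebraMap_eq (fun _ => rfl)
  obtain ⟨q, hq0, hq⟩ := (IsFractionRing.isAlgebraic_iff (Re G) Ec Ω).2 halg
  let j : Re G →+* Rf Fc R :=
    { toFun := fun e => ⟨⟨((e : Ec) : Ω), G.E_le_F (e : Ec).2⟩, e.2⟩
      map_one' := rfl
      map_mul' := fun _ _ => rfl
      map_zero' := rfl
      map_add' := fun _ _ => rfl }
  have hj : Function.Injective j := fun a b h =>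
    Subtype.ext (Subtype.ext (congrArg (fun t : Rf Fc R => ((t : Fc) : Ω)) h))
  refine ⟨q.map j, (Polynomial.map_ne_zero_iff hj).2 hq0, ?_⟩
  rw [Polynomial.eval₂_map]
  rw [Polynomial.aeval_def] at hq
  exact hq

include G in
/-- **hNC on the chart**: for every prime `π` of `R[X]` not associated to `w` or to `X - c`,
`c ∈ S`, the ideal `π(x) B` is radical. -/
theorem hNC_chart :
    ∀ π : Polynomial (Rf Fc R), Prime π → ¬ Associated π (C (wR G)) →
      (∀ c ∈ SR Fc R S, ¬ Associated π (X - C c)) →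
      (Ideal.span {(B12.H33.chartPolyHom (Rf Fc R) (xf G) π :
        H138.chart (Rf Fc R) ({xf G} : Set Fc))}).IsRadical := by
  haveI := charZero_Fc G
  haveI := isDiscreteValuationRing_Rf G
  haveI := finiteDimensional_baseField G
  haveI : CharZero (Rf Fc R) := RingHom.charZero (Rf Fc R).subtype
  have hx := transcendental_xf G
  obtain ⟨hic, hfin⟩ := B12.H33.chart_package (R := Rf Fc R) hx
  letI := B12.H33.chartAlgebra (Rf Fc R) (xf G)
  haveI := hic
  haveI := hfin
  haveI : Module.IsTorsionFree (Polynomial (Rf Fc R)) (H138.chart (Rf Fc R) ({xf G} : Set Fc)) :=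
    Module.isTorsionFree_iff_algebraMap_injective.2 (B12.H33.chartPolyHom_injective hx)
  haveI : FaithfulSMul (H138.chart (Rf Fc R) ({xf G} : Set Fc)) Ω :=
    (faithfulSMul_iff_algebraMap_injective (H138.chart (Rf Fc R) ({xf G} : Set Fc)) Ω).2
      (fun a b h => Subtype.ext (Subtype.ext h))
  have hC : ∀ r : Rf Fc R,
      algebraMap (H138.chart (Rf Fc R) ({xf G} : Set Fc)) Ω
        (algebraMap (Polynomial (Rf Fc R)) (H138.chart (Rf Fc R) ({xf G} : Set Fc)) (C r)) =
        ((r : Fc) : Ω) := by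
    intro r
    show ((B12.H33.chartPolyHom (Rf Fc R) (xf G) (C r) : H138.chart (Rf Fc R) ({xf G} : Set Fc)) :
      Fc).1 = _
    rw [B12.H33.coe_chartPolyHom, Polynomial.aeval_C]
    rfl
  have hX : algebraMap (H138.chart (Rf Fc R) ({xf G} : Set Fc)) Ω
        (algebraMap (Polynomial (Rf Fc R)) (H138.chart (Rf Fc R) ({xf G} : Set Fc)) X) = x := by
    show ((B12.H33.chartPolyHom (Rf Fc R) (xf G) X : H138.chart (Rf Fc R) ({xf G} : Set Fc)) :
      Fc).1 = _
    rw [B12.H33.coe_chartPolyHom, Polynomial.aeval_X]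
    rfl
  have hwB : Prime (algebraMap (Polynomial (Rf Fc R)) (H138.chart (Rf Fc R) ({xf G} : Set Fc))
      (C (wR G))) := by
    show Prime (B12.H33.chartPolyHom (Rf Fc R) (xf G) (C (wR G)))
    rw [B12.H33.chartPolyHom_C]
    exact prime_chart G
  refine H754.hNC_typed (Rf Fc R) (H138.chart (Rf Fc R) ({xf G} : Set Fc)) (Ω := Ω) (wR G)
    (irreducible_wf G) hwB Lc G.L_algClosed ?_ ?_ (SR Fc R S) S ?_ ?_
  · intro r
    rw [hC]
    exact G.E_le_L (G.R_le r.2)
  · intro a ha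
    obtain ⟨p, hp0, hp⟩ := exists_poly_of_mem_Lc G a ha
    refine ⟨p, hp0, ?_⟩
    have hhom : ((algebraMap (H138.chart (Rf Fc R) ({xf G} : Set Fc)) Ω).comp
        ((algebraMap (Polynomial (Rf Fc R)) (H138.chart (Rf Fc R) ({xf G} : Set Fc))).comp C)) =
        Fc.subtype.comp (Rf Fc R).subtype := RingHom.ext fun r => hC r
    rw [hhom]
    exact hp
  · intro c hc
    refine ⟨⟨⟨c, R_le_Fc G (G.S_mem c hc)⟩, G.S_mem c hc⟩, mem_SR.2 hc, ?_⟩
    rw [hC]
  · rw [hX]
    exact G.unramified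

include G in
/-- **b2 on the chart of a good model**: the chart is regular along `w`. -/
theorem regularAlong_chart :
    H754.RegularAlong
      (algebraMap (Rf Fc R) (H138.chart (Rf Fc R) ({xf G} : Set Fc)) (wR G)) := by
  haveI := charZero_Fc G
  haveI := isDiscreteValuationRing_Rf G
  haveI := finiteDimensional_baseField G
  refine B12.H33.regularAlong_chart_field (transcendental_xf G) (wR G) (irreducible_wf G)
    (prime_chart G) (hsep_chart G) (SR Fc R S) (SR_isUnit_sub G) ?_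
  intro π hπ hπw hπS b hb hb2
  have hrad := hNC_chart G π hπ hπw hπS
  have h1 : (⟨b, hb⟩ : H138.chart (Rf Fc R) ({xf G} : Set Fc)) ^ 2 ∈
      Ideal.span {(B12.H33.chartPolyHom (Rf Fc R) (xf G) π :
        H138.chart (Rf Fc R) ({xf G} : Set Fc))} := by
    rw [Ideal.mem_span_singleton, B12.H33.chartPolyHom_dvd_chart_iff]
    obtain ⟨t, ht, h⟩ := hb2
    exact ⟨t, ht, h⟩
  have h2 := hrad (Ideal.mem_radical_iff.2 ⟨2, h1⟩)
  rw [Ideal.mem_span_singleton, B12.H33.chartPolyHom_dvd_chart_iff] at h2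
  exact h2

end GoodModelFront

end Fermat.Agent.S18.H438

end
end
-- ===== PACK-END S18/H438/Front/Regular.lean

-- ===== PACK-BEGIN S18/H438/Front/AlgMain.lean
section




/-!
# S18 / node_alg (helper438): `Alg.AlgMainStatement` (v4, prime `m`)

    theorem algMain (Lc x S 𝓕) : Alg.AlgMainStatement Lc x S 𝓕

Wiring: for a member `(Ec, Fc, R, V, w)` of the good family, `G : Alg.GoodModel …`,
`R' := Rf Fc R`, `x' := xf G`, charts `B₀ = H138.chart R' {x'}`, `B₁ = H138.chart R' {x'⁻¹}`: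

* `H394.kummer_charts_of_regular` (typed core: LE + graded Kummer algebra + b5) needs on both
  charts: `Prime w`, `H754.RegularAlong w`, `H754.OneModPi w u`, `H754.DivisibleDivisor B m u`;
* these are `GoodModelFront.prime_chart`, `regularAlong_chart` (b2 = `B12.H33`, hNC = `H754`),
  `oneModPi_chart`, `divisibleDivisor_chart` (places = `H845`), applied to `G` and to
  `H425.goodModel_inv G`.
-/

set_option autoImplicit false
set_option linter.style.haveILetI false
set_option linter.unusedSectionVars false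

noncomputable section

namespace Fermat.Agent.S18.H438

open Alg Polynomial

variable {Ω : Type*} [Field Ω] {Lc Ec Fc : Subfield Ω} {R V : Subring Ω} {w x : Ω}
  {S : Finset Ω}

namespace GoodModelFront

/-- **node_alg for one good model** (no enlargement of constants is needed). -/
theorem algMain_of_goodModel (G : GoodModel Lc Ec Fc R V w x S)
    (m : ℕ) (hm : m.Prime) (hmR : ((m : Ω))⁻¹ ∈ R)
    (u : Ω) (huF : u ∈ Fc) (hu0 : u ≠ 0) (hu1 : (u - 1) * w⁻¹ ∈ V)
    (hdiv : ∀ O : ValuationSubring Ω, (∀ a ∈ Lc, a ∈ O) →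
      ∃ t : Ω, t ≠ 0 ∧ u * t ^ m ∈ O ∧ (u * t ^ m)⁻¹ ∈ O) :
    ∃ y : Ω, ∃ c ∈ Lc, c ≠ 0 ∧ u = c * y ^ m := by
  classical
  haveI := G.charZero
  haveI := charZero_Fc G
  haveI := isDiscreteValuationRing_Rf G
  haveI := finiteDimensional_baseField G
  have G' := H425.goodModel_inv G
  have hxinv : xf G' = (xf G)⁻¹ := rfl
  have hwR : wR G' = wR G := rfl
  -- the data in `Fc`
  set u' : Fc := ⟨u, huF⟩ with hu'
  have hu'0 : u' ≠ 0 := fun h => hu0 (congrArg Subtype.val h)
  have hm0 : (m : Ω) ≠ 0 := Nat.cast_ne_zero.2 hm.ne_zero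
  let ν : Rf Fc R := ⟨⟨(m : Ω)⁻¹, R_le_Fc G hmR⟩, hmR⟩
  have hν : ν * (m : Rf Fc R) = 1 := by
    apply Subtype.ext
    apply Subtype.ext
    show (m : Ω)⁻¹ * (((m : Rf Fc R) : Fc) : Ω) = 1
    have : ((((m : Rf Fc R) : Fc) : Ω)) = (m : Ω) := by
      simp
    rw [this, inv_mul_cancel₀ hm0]
  have hinjR : Function.Injective (algebraMap (Rf Fc R) Fc) := Subtype.val_injective
  -- both charts
  have hw₁ : Prime (algebraMap (Rf Fc R) (H138.chart (Rf Fc R) ({(xf G)⁻¹} : Set Fc)) (wR G)) :=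
    prime_chart G'
  have hreg₁ : H754.RegularAlong
      (algebraMap (Rf Fc R) (H138.chart (Rf Fc R) ({(xf G)⁻¹} : Set Fc)) (wR G)) :=
    regularAlong_chart G'
  have hu₁ : H754.OneModPi
      (algebraMap (Rf Fc R) (H138.chart (Rf Fc R) ({(xf G)⁻¹} : Set Fc)) (wR G)) u' :=
    oneModPi_chart G' hu1
  have hdiv₁ : H754.DivisibleDivisor (H138.chart (Rf Fc R) ({(xf G)⁻¹} : Set Fc)) m u' :=
    divisibleDivisor_chart G' hu1 hdiv
  obtain ⟨r, a, y, hr, h⟩ := H394.kummer_charts_of_regular hinjR (isIntegral_Rf_mem_range G)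
    (transcendental_xf G) (wR G) m hm ν hν u' hu'0
    (prime_chart G) hw₁ (regularAlong_chart G) hreg₁ (oneModPi_chart G hu1) hu₁
    (divisibleDivisor_chart G hu1 hdiv) hdiv₁
  have hrΩ : ((r : Fc) : Ω) ≠ 0 := fun h0 => hr (Subtype.ext (Subtype.ext h0))
  refine ⟨(y : Ω), ((r : Fc) : Ω) ^ a, ?_, zpow_ne_zero _ hrΩ, ?_⟩
  · exact Lc.zpow_mem (G.E_le_L (G.R_le r.2)) a
  · have h2 : u = ((algebraMap (Rf Fc R) Fc r ^ a * y ^ m : Fc) : Ω) :=
      congrArg (fun t : Fc => (t : Ω)) h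
    have h3 : ((algebraMap (Rf Fc R) Fc r ^ a * y ^ m : Fc) : Ω) =
        ((r : Fc) : Ω) ^ a * (y : Ω) ^ m := by
      have h4 : Fc.subtype (algebraMap (Rf Fc R) Fc r ^ a) = ((r : Fc) : Ω) ^ a :=
        map_zpow₀ Fc.subtype _ a
      show Fc.subtype (algebraMap (Rf Fc R) Fc r ^ a * y ^ m) = _
      rw [map_mul, map_pow, h4]
      rfl
    exact h2.trans h3

end GoodModelFront

/-- **node_alg**: the ALG main statement (v4, prime `m`), for every good family. -/
theorem algMain (Lc : Subfield Ω) (x : Ω) (S : Finset Ω) (𝓕 : Set (Model Ω)) :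
    AlgMainStatement Lc x S 𝓕 := by
  intro hfam p hp m hm hmR u huF hu0 hu1 hdiv
  exact GoodModelFront.algMain_of_goodModel (hfam.good p hp) m hm hmR u huF hu0 hu1 hdiv

end Fermat.Agent.S18.H438

end
end
-- ===== PACK-END S18/H438/Front/AlgMain.lean

-- ===== PACK-BEGIN Lib/Newform/H443/SMOCore.lean
section
/-
NEWFORM library (helper443) — STRONG MULTIPLICITY ONE from the MAIN LEMMA.

Prelude language: `CuspForm (Gamma0 N) 2`, `CuspForm.heckeTLin`, `ModularFormClass.qCoeff`,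
`CuspForm.IsNewform` (= normalised eigenform whose good eigensystem does not occur at a proper
divisor level).

* `qCoeff_eq_of_prime_eq` : two normalised eigenforms (levels dividing `D`) with the same `a_ℓ`
  at all primes `ℓ ∤ D` have the same `a_n` for all `n` coprime to `D`.
* `IsNewform.eq_zero_of_mem_old` : let `Φ j : S₂(Γ₀(M j)) → S₂(Γ₀(N))` (`j` in a finite type,
  `M j ∣ N`, `M j ≠ N`) be linear maps commuting with `T_ℓ`, `ℓ ∤ N`.  A common eigenvector of the
  `T_ℓ`, `ℓ ∤ N`, with the eigenvalues of a NEWFORM `f` of level `N`, which lies in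
  `⨆ j, range (Φ j)` ("old space"), is zero.
* `IsNewform.eq_of_mainLemma` : **strong multiplicity one at level `N`**, given the main lemma
  in the form "`a_n(h) = 0` for all `n` coprime to `N` ⟹ `h ∈ ⨆ j, range (Φ j)`":
  a normalised eigenform `g` of level `N` with `a_ℓ(g) = a_ℓ(f)` for all primes `ℓ ∤ N`
  equals the newform `f`.
* `IsNewform.eq_smul_of_mainLemma` : the good eigenspace of a newform is the line `ℂ f`.
-/





set_option autoImplicit false

open CuspForm CongruenceSubgroup ModularFormClass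

namespace Fermat.Agent.Lib.Newform.H443

/-- The coefficients `a_{p^r}`, `p ∤ N, N'`, of normalised eigenforms are determined by `a_p`. -/
theorem qCoeff_prime_pow_eq {N N' : ℕ} {f : CuspForm (Gamma0 N) 2} {g : CuspForm (Gamma0 N') 2}
    (hf : f.IsNormalizedEigenform) (hg : g.IsNormalizedEigenform) {p : ℕ} (hp : p.Prime)
    (hpN : ¬ p ∣ N) (hpN' : ¬ p ∣ N') (h : qCoeff g p = qCoeff f p) :
    ∀ r : ℕ, qCoeff g (p ^ r) = qCoeff f (p ^ r) := by
  have key : ∀ r : ℕ, qCoeff g (p ^ r) = qCoeff f (p ^ r) ∧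
      qCoeff g (p ^ (r + 1)) = qCoeff f (p ^ (r + 1)) := by
    intro r
    induction r with
    | zero =>
      refine ⟨?_, ?_⟩
      · rw [pow_zero, hf.qCoeff_one, hg.qCoeff_one]
      · simpa using h
    | succ r ih =>
      refine ⟨ih.2, ?_⟩
      rw [hf.qCoeff_prime_pow_of_not_dvd p r hp hpN, hg.qCoeff_prime_pow_of_not_dvd p r hp hpN',
        h, ih.1, ih.2]
  exact fun r => (key r).1

/-- Two normalised eigenforms of levels dividing `D` with the same `a_ℓ` at all primes `ℓ ∤ D`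
have the same `a_n` for all `n` coprime to `D`. -/
theorem qCoeff_eq_of_prime_eq {N N' D : ℕ} (hND : N ∣ D) (hN'D : N' ∣ D)
    {f : CuspForm (Gamma0 N) 2} {g : CuspForm (Gamma0 N') 2}
    (hf : f.IsNormalizedEigenform) (hg : g.IsNormalizedEigenform)
    (h : ∀ ℓ : ℕ, ℓ.Prime → ¬ ℓ ∣ D → qCoeff g ℓ = qCoeff f ℓ) :
    ∀ n : ℕ, n.Coprime D → qCoeff g n = qCoeff f n := by
  intro n
  induction n using Nat.strong_induction_on with
  | _ n ih =>
    intro hn
    rcases Nat.eq_zero_or_pos n with rfl | hpos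
    · rw [Fermat.Agent.Lib.Newform.H683.qCoeff_zero_cusp, Fermat.Agent.Lib.Newform.H683.qCoeff_zero_cusp]
    rcases Nat.eq_or_lt_of_le (Nat.succ_le_of_lt hpos) with h1 | h1
    · have : n = 1 := h1.symm
      subst this
      rw [hf.qCoeff_one, hg.qCoeff_one]
    · -- `n ≥ 2`: split off a prime power
      obtain ⟨p, hp, hpn⟩ := Nat.exists_prime_and_dvd (show n ≠ 1 by omega)
      obtain ⟨r, m, hm, rfl⟩ := Nat.exists_eq_pow_mul_and_not_dvd hpos.ne' p hp.ne_one
      have hr : r ≠ 0 := by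
        rintro rfl
        rw [pow_zero, one_mul] at hpn
        exact hm hpn
      have hcop : (p ^ r).Coprime m :=
        Nat.Coprime.pow_left r ((Nat.Prime.coprime_iff_not_dvd hp).mpr hm)
      have hpD : ¬ p ∣ D := by
        intro hpD
        have h2 : p ∣ Nat.gcd (p ^ r * m) D :=
          Nat.dvd_gcd (Dvd.dvd.mul_right (dvd_pow_self p hr) m) hpD
        rw [Nat.Coprime] at hn
        rw [hn] at h2
        exact hp.one_lt.ne' (Nat.dvd_one.mp h2)
      have hmD : m.Coprime D := Nat.Coprime.coprime_dvd_left (Dvd.intro_left _ rfl) hn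
      have hmlt : m < p ^ r * m := by
        have hmpos : 0 < m := Nat.pos_of_ne_zero (by rintro rfl; simp at hpos)
        have : 1 < p ^ r := Nat.one_lt_pow hr hp.one_lt
        nlinarith
      rw [hf.qCoeff_mul_of_coprime _ _ hcop, hg.qCoeff_mul_of_coprime _ _ hcop,
        ih m hmlt hmD,
        qCoeff_prime_pow_eq hf hg hp (fun hd => hpD (hd.trans hND))
          (fun hd => hpD (hd.trans hN'D)) (h p hp hpD) r]

section Old

variable {N : ℕ} [NeZero N] {J : Type*} [Finite J] (M : J → ℕ) (hMN : ∀ j, M j ∣ N)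
  (Φ : ∀ j, CuspForm (Gamma0 (M j)) 2 →ₗ[ℂ] CuspForm (Gamma0 N) 2)

/-- **No newform eigensystem in the old space.**  Let `Φ j : S₂(Γ₀(M j)) → S₂(Γ₀(N))` be finitely
many linear maps from proper divisor levels commuting with the `T_ℓ`, `ℓ ∤ N`.  If `f` is a
newform of level `N` and `h ∈ ⨆ j, range (Φ j)` satisfies `T_ℓ h = a_ℓ(f) h` for all primes
`ℓ ∤ N`, then `h = 0`. -/
theorem IsNewform.eq_zero_of_mem_old {f : CuspForm (Gamma0 N) 2} (hf : f.IsNewform)
    (hne : ∀ j, M j ≠ N)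
    (hΦ : ∀ j (ℓ : ℕ) (hℓ : ℓ.Prime) (hℓN : ¬ ℓ ∣ N) (v : CuspForm (Gamma0 (M j)) 2),
      Φ j (heckeTLin 2 hℓ (fun hd => hℓN (hd.trans (hMN j))) v) = heckeTLin 2 hℓ hℓN (Φ j v))
    (h : CuspForm (Gamma0 N) 2) (hmem : h ∈ ⨆ j, LinearMap.range (Φ j))
    (heig : ∀ (ℓ : ℕ) (hℓ : ℓ.Prime) (hℓN : ¬ ℓ ∣ N), heckeTLin 2 hℓ hℓN h = qCoeff f ℓ • h) :
    h = 0 := by
  by_contra hh
  have hM0 : ∀ j, NeZero (M j) := fun j =>
    ⟨fun h0 => NeZero.ne N (Nat.eq_zero_of_zero_dvd (h0 ▸ hMN j))⟩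
  have : ∀ j, FiniteDimensional ℂ (CuspForm (Gamma0 (M j)) 2) := fun j =>
    have := hM0 j
    Fermat.Agent.Lib.Newform.H863.finiteDimensional_cuspForm (M j)
  -- the operators, indexed by the good primes
  let ι : Type := {ℓ : ℕ // ℓ.Prime ∧ ¬ ℓ ∣ N}
  let S : ∀ j, ι → Module.End ℂ (CuspForm (Gamma0 (M j)) 2) := fun j ℓ =>
    heckeTLin 2 ℓ.2.1 (fun hd => ℓ.2.2 (hd.trans (hMN j)))
  let T : ι → Module.End ℂ (CuspForm (Gamma0 N) 2) := fun ℓ => heckeTLin 2 ℓ.2.1 ℓ.2.2
  obtain ⟨j, v, hv0, hv⟩ := exists_eigenvector_of_equivariant_family S T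
    (fun j ℓ ℓ' => CuspForm.heckeTLin_comm 2 _ _ _ _) Φ
    (fun j ℓ v => hΦ j ℓ.1 ℓ.2.1 ℓ.2.2 v) (fun ℓ => qCoeff f ℓ.1) hh hmem
    (fun ℓ => heig ℓ.1 ℓ.2.1 ℓ.2.2)
  exact hv0 (Fermat.Agent.Lib.Newform.H863.IsNewform.eq_zero_of_eigenvector (hMN j) (hne j) hf v
    (fun ℓ hℓ hℓN => hv ⟨ℓ, hℓ, hℓN⟩))

/-- **Strong multiplicity one at level `N`, from the main lemma.**  Assume the main lemma in
the form: every `h ∈ S₂(Γ₀(N))` with `a_n(h) = 0` for all `n` coprime to `N` lies in the old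
space `⨆ j, range (Φ j)`.  Then a `T_ℓ`-eigenvector (`ℓ ∤ N`) with the eigenvalues of a newform
`f` of level `N` is a multiple of `f`. -/
theorem IsNewform.eq_smul_of_mainLemma {f : CuspForm (Gamma0 N) 2} (hf : f.IsNewform)
    (hne : ∀ j, M j ≠ N)
    (hΦ : ∀ j (ℓ : ℕ) (hℓ : ℓ.Prime) (hℓN : ¬ ℓ ∣ N) (v : CuspForm (Gamma0 (M j)) 2),
      Φ j (heckeTLin 2 hℓ (fun hd => hℓN (hd.trans (hMN j))) v) = heckeTLin 2 hℓ hℓN (Φ j v))
    (hmain : ∀ h : CuspForm (Gamma0 N) 2, (∀ n : ℕ, n.Coprime N → qCoeff h n = 0) →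
      h ∈ ⨆ j, LinearMap.range (Φ j))
    (g : CuspForm (Gamma0 N) 2)
    (heig : ∀ (ℓ : ℕ) (hℓ : ℓ.Prime) (hℓN : ¬ ℓ ∣ N), heckeTLin 2 hℓ hℓN g = qCoeff f ℓ • g) :
    g = qCoeff g 1 • f := by
  have hfeig : ∀ (ℓ : ℕ) (hℓ : ℓ.Prime) (hℓN : ¬ ℓ ∣ N),
      heckeTLin 2 hℓ hℓN f = qCoeff f ℓ • f := fun ℓ hℓ hℓN =>
    Fermat.Agent.Lib.Newform.H683.heckeTLin_eq_of_eigenform hf.1 hℓ hℓN
  set h : CuspForm (Gamma0 N) 2 := g - qCoeff g 1 • f with hh
  have hheig : ∀ (ℓ : ℕ) (hℓ : ℓ.Prime) (hℓN : ¬ ℓ ∣ N),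
      heckeTLin 2 hℓ hℓN h = qCoeff f ℓ • h := by
    intro ℓ hℓ hℓN
    rw [hh, map_sub, map_smul, heig ℓ hℓ hℓN, hfeig ℓ hℓ hℓN, smul_sub, smul_comm]
  -- the coefficients of `h` prime to `N` vanish
  have hcoeff1 : qCoeff h 1 = 0 := by
    rw [hh, Fermat.Agent.Lib.Newform.H683.qCoeff_sub_cusp,
      Fermat.Agent.Lib.Newform.H683.qCoeff_smul_cusp, hf.1.qCoeff_one, mul_one, sub_self]
  have hstep : ∀ (ℓ : ℕ) (hℓ : ℓ.Prime) (hℓN : ¬ ℓ ∣ N) (n : ℕ), ¬ ℓ ∣ n →
      qCoeff h (n * ℓ) = qCoeff f ℓ * qCoeff h n := by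
    intro ℓ hℓ hℓN n hn
    have h1 := congrArg (fun F : CuspForm (Gamma0 N) 2 => qCoeff (⇑F) n) (hheig ℓ hℓ hℓN)
    beta_reduce at h1
    rw [Fermat.Agent.Lib.Newform.H683.qCoeff_smul_cusp, CuspForm.coe_heckeTLin_apply,
      Fermat.Agent.Lib.Newform.H683.qCoeff_heckeT_cusp 2 h hℓ.ne_zero,
      ModularForm.coeffHeckeT_apply, if_neg hn, add_zero] at h1
    exact h1
  have hstep2 : ∀ (ℓ : ℕ) (hℓ : ℓ.Prime) (hℓN : ¬ ℓ ∣ N) (n : ℕ), ℓ ∣ n →
      qCoeff h (n * ℓ) = qCoeff f ℓ * qCoeff h n - (ℓ : ℂ) * qCoeff h (n / ℓ) := by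
    intro ℓ hℓ hℓN n hn
    have h1 := congrArg (fun F : CuspForm (Gamma0 N) 2 => qCoeff (⇑F) n) (hheig ℓ hℓ hℓN)
    beta_reduce at h1
    rw [Fermat.Agent.Lib.Newform.H683.qCoeff_smul_cusp, CuspForm.coe_heckeTLin_apply,
      Fermat.Agent.Lib.Newform.H683.qCoeff_heckeT_cusp 2 h hℓ.ne_zero,
      ModularForm.coeffHeckeT_apply, if_pos hn] at h1
    rw [← h1]
    norm_num
  have hzero : ∀ n : ℕ, n.Coprime N → qCoeff h n = 0 := by
    intro n
    induction n using Nat.strong_induction_on with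
    | _ n ih =>
      intro hn
      rcases Nat.eq_zero_or_pos n with rfl | hpos
      · exact Fermat.Agent.Lib.Newform.H683.qCoeff_zero_cusp 2 h
      rcases Nat.eq_or_lt_of_le (Nat.succ_le_of_lt hpos) with h1 | h1
      · have : n = 1 := h1.symm
        subst this
        exact hcoeff1
      · obtain ⟨p, hp, hpn⟩ := Nat.exists_prime_and_dvd (show n ≠ 1 by omega)
        obtain ⟨m, rfl⟩ := hpn
        have hmpos : 0 < m := Nat.pos_of_ne_zero (by rintro rfl; simp at hpos)
        have hpN : ¬ p ∣ N := by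
          intro hpN
          have h2 : p ∣ Nat.gcd (p * m) N := Nat.dvd_gcd (Dvd.intro _ rfl) hpN
          rw [Nat.Coprime] at hn
          rw [hn] at h2
          exact hp.one_lt.ne' (Nat.dvd_one.mp h2)
        have hmN : m.Coprime N := Nat.Coprime.coprime_dvd_left (Dvd.intro_left _ rfl) hn
        have hmlt : m < p * m := by
          have := hp.one_lt
          nlinarith
        rw [mul_comm p m]
        by_cases hpm : p ∣ m
        · rw [hstep2 p hp hpN m hpm, ih m hmlt hmN, mul_zero, zero_sub, neg_eq_zero]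
          have hdlt : m / p < p * m :=
            lt_of_le_of_lt (Nat.div_le_self m p) hmlt
          have hdN : (m / p).Coprime N :=
            Nat.Coprime.coprime_dvd_left (Nat.div_dvd_of_dvd hpm) hmN
          rw [ih (m / p) hdlt hdN, mul_zero]
        · rw [hstep p hp hpN m hpm, ih m hmlt hmN, mul_zero]
  have h0 : h = 0 := IsNewform.eq_zero_of_mem_old M hMN Φ hf hne hΦ h (hmain h hzero) hheig
  exact sub_eq_zero.mp h0

/-- **Strong multiplicity one at level `N`, from the main lemma** (normalised form): a normalised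
eigenform `g` of level `N` with the good eigenvalues of a newform `f` of level `N` equals `f`. -/
theorem IsNewform.eq_of_mainLemma {f : CuspForm (Gamma0 N) 2} (hf : f.IsNewform)
    (hne : ∀ j, M j ≠ N)
    (hΦ : ∀ j (ℓ : ℕ) (hℓ : ℓ.Prime) (hℓN : ¬ ℓ ∣ N) (v : CuspForm (Gamma0 (M j)) 2),
      Φ j (heckeTLin 2 hℓ (fun hd => hℓN (hd.trans (hMN j))) v) = heckeTLin 2 hℓ hℓN (Φ j v))
    (hmain : ∀ h : CuspForm (Gamma0 N) 2, (∀ n : ℕ, n.Coprime N → qCoeff h n = 0) →
      h ∈ ⨆ j, LinearMap.range (Φ j))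
    {g : CuspForm (Gamma0 N) 2} (hg : g.IsNormalizedEigenform)
    (hgf : ∀ ℓ : ℕ, ℓ.Prime → ¬ ℓ ∣ N → qCoeff g ℓ = qCoeff f ℓ) :
    g = f := by
  have := IsNewform.eq_smul_of_mainLemma M hMN Φ hf hne hΦ hmain g (fun ℓ hℓ hℓN => by
    rw [Fermat.Agent.Lib.Newform.H683.heckeTLin_eq_of_eigenform hg hℓ hℓN, hgf ℓ hℓ hℓN])
  rw [hg.qCoeff_one, one_smul] at this
  exact this

end Old

end Fermat.Agent.Lib.Newform.H443

end
-- ===== PACK-END Lib/Newform/H443/SMOCore.lean

-- ===== PACK-BEGIN Lib/Newform/H958/X/Global.lean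
section



/-!
# NEWFORM block X — step X6: the global identity between Euler polynomials
-/

set_option autoImplicit false

open CongruenceSubgroup Complex Polynomial
open UpperHalfPlane hiding I
open scoped MatrixGroups ModularForm

namespace Fermat.Agent.Lib.Newform.H958.X

open ModularFormClass ModularForm

/-- The product of the Euler polynomials at the primes of `T`, evaluated at `p ^ (-s)`. -/
noncomputable def eulerProd (N : ℕ) (a : ℕ → ℂ) (T : Finset ℕ) (s : ℂ) : ℂ :=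
  ∏ p ∈ T, (eulerPoly N a p).eval ((p : ℂ) ^ (-s))

theorem differentiable_cpow_neg (p : ℕ) (hp : p ≠ 0) :
    Differentiable ℂ (fun s : ℂ => (p : ℂ) ^ (-s)) := by
  have hpc : (p : ℂ) ≠ 0 := Nat.cast_ne_zero.mpr hp
  intro s
  exact (differentiableAt_id.neg).const_cpow (Or.inl hpc)

theorem differentiable_eulerProd (N : ℕ) (a : ℕ → ℂ) (T : Finset ℕ) (hT : ∀ p ∈ T, p.Prime) :
    Differentiable ℂ (eulerProd N a T) := by
  unfold eulerProd
  apply Differentiable.fun_finsetProd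
  intro p hp
  exact (Polynomial.differentiable _).comp (differentiable_cpow_neg p (hT p hp).ne_zero)

theorem differentiable_natCast_cpow (N : ℕ) [NeZero N] :
    Differentiable ℂ (fun s : ℂ => (N : ℂ) ^ (s - 1)) := by
  have hNc : (N : ℂ) ≠ 0 := Nat.cast_ne_zero.mpr (NeZero.ne N)
  intro s
  exact (differentiableAt_id.sub_const 1).const_cpow (Or.inl hNc)

variable {N N' : ℕ} [NeZero N] [NeZero N']

/-- Step (a): the depleted coefficients agree. -/
theorem depleted_eq {f : CuspForm (Gamma0 N) 2} {g : CuspForm (Gamma0 N') 2}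
    (hf : f.IsNormalizedEigenform) (hg : g.IsNormalizedEigenform)
    (T : Finset ℕ) (hT : ∀ p ∈ T, p.Prime)
    (hTN : N.primeFactors ⊆ T) (hTN' : N'.primeFactors ⊆ T)
    (hagree : ∀ ℓ : ℕ, ℓ.Prime → ℓ ∉ T → qCoeff f ℓ = qCoeff g ℓ) (n : ℕ)
    (hn : ∀ p ∈ T, ¬ p ∣ n) : qCoeff f n = qCoeff g n := by
  have hN : N ≠ 0 := NeZero.ne N
  have hN' : N' ≠ 0 := NeZero.ne N'
  -- every prime factor of `D` lies in `T`
  have hD : ∀ p : ℕ, p.Prime → p ∣ N * N' * ∏ t ∈ T, t → p ∈ T := by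
    intro p hp hpD
    rcases (Nat.Prime.dvd_mul hp).mp hpD with h | h
    · rcases (Nat.Prime.dvd_mul hp).mp h with h | h
      · exact hTN (Nat.mem_primeFactors.mpr ⟨hp, h, hN⟩)
      · exact hTN' (Nat.mem_primeFactors.mpr ⟨hp, h, hN'⟩)
    · obtain ⟨t, htT, hpt⟩ := (Prime.dvd_finsetProd_iff hp.prime _).mp h
      rw [(Nat.prime_dvd_prime_iff_eq hp (hT t htT)).mp hpt]
      exact htT
  symm
  refine Fermat.Agent.Lib.Newform.H443.qCoeff_eq_of_prime_eq (D := N * N' * ∏ t ∈ T, t)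
    ((dvd_mul_right N N').mul_right _) ((dvd_mul_left N' N).mul_right _) hf hg ?_ n ?_
  · intro ℓ hℓ hℓD
    refine (hagree ℓ hℓ fun hℓT => hℓD ?_).symm
    exact (Finset.dvd_prod_of_mem _ hℓT).mul_left _
  · exact Nat.coprime_of_dvd fun p hp hpn hpD => hn p (hD p hp hpD) hpn

theorem Gammaℂ_ne_zero_of_pos {s : ℂ} (hs : 0 < s.re) : Gammaℂ s ≠ 0 := by
  rw [Gammaℂ_def]
  have h1 : ((2 : ℂ) * (Real.pi : ℂ)) ≠ 0 :=
    mul_ne_zero two_ne_zero (ofReal_ne_zero.mpr Real.pi_ne_zero)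
  exact mul_ne_zero (mul_ne_zero two_ne_zero ((cpow_ne_zero_iff_of_exponent_ne_zero
    (by
      intro h
      rw [neg_eq_zero] at h
      rw [h] at hs
      simp at hs)).mpr h1)) (Complex.Gamma_ne_zero_of_re_pos hs)

/-- An entire function vanishing on the half-plane `Re s > 2` vanishes identically. -/
theorem eq_zero_of_eq_zero_on_halfplane {F : ℂ → ℂ} (hF : Differentiable ℂ F)
    (h : ∀ s : ℂ, 2 < s.re → F s = 0) : ∀ s : ℂ, F s = 0 := by
  have han : AnalyticOnNhd ℂ F Set.univ :=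
    (hF.differentiableOn).analyticOnNhd isOpen_univ
  have hev : F =ᶠ[nhds (3 : ℂ)] 0 := by
    have hopen : IsOpen {s : ℂ | 2 < s.re} := isOpen_lt continuous_const continuous_re
    have hmem : (3 : ℂ) ∈ {s : ℂ | 2 < s.re} := by
      show (2 : ℝ) < (3 : ℂ).re
      simp only [re_ofNat]
      norm_num
    filter_upwards [hopen.mem_nhds hmem] with s hs
    exact h s hs
  have := han.eqOn_zero_of_preconnected_of_eventuallyEq_zero isPreconnected_univ
    (Set.mem_univ (3 : ℂ)) hev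
  intro s
  exact this (Set.mem_univ s)

/-- Step (b)+(c): `Λ_f P_f = Λ_g P_g` everywhere. -/
theorem Lam_mul_eulerProd_eq (hDep : Deplete)
    {f : CuspForm (Gamma0 N) 2} {g : CuspForm (Gamma0 N') 2}
    (hf : f.IsNormalizedEigenform) (hg : g.IsNormalizedEigenform)
    (T : Finset ℕ) (hT : ∀ p ∈ T, p.Prime)
    (hTN : N.primeFactors ⊆ T) (hTN' : N'.primeFactors ⊆ T)
    (hagree : ∀ ℓ : ℕ, ℓ.Prime → ℓ ∉ T → qCoeff f ℓ = qCoeff g ℓ) (s : ℂ) :
    Lam f s * eulerProd N (qCoeff f) T s = Lam g s * eulerProd N' (qCoeff g) T s := by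
  have key : ∀ s : ℂ, 2 < s.re →
      Lam f s * eulerProd N (qCoeff f) T s - Lam g s * eulerProd N' (qCoeff g) T s = 0 := by
    intro s hs
    have h1 := hDep N f hf T hT s hs
    have h2 := hDep N' g hg T hT s hs
    have hfun : (fun n : ℕ => (if ∀ p ∈ T, ¬ p ∣ n then qCoeff f n else 0) / (n : ℂ) ^ s) =
        fun n : ℕ => (if ∀ p ∈ T, ¬ p ∣ n then qCoeff g n else 0) / (n : ℂ) ^ s := by
      funext n
      by_cases hn : ∀ p ∈ T, ¬ p ∣ n
      · rw [if_pos hn, if_pos hn, depleted_eq hf hg T hT hTN hTN' hagree n hn]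
      · rw [if_neg hn, if_neg hn]
    rw [hfun] at h1
    have h3 := h1.unique h2
    have hG : (2 : ℂ) / Gammaℂ s ≠ 0 :=
      div_ne_zero two_ne_zero (Gammaℂ_ne_zero_of_pos (by linarith))
    have h4 : (2 / Gammaℂ s) * (Lam f s * eulerProd N (qCoeff f) T s) =
        (2 / Gammaℂ s) * (Lam g s * eulerProd N' (qCoeff g) T s) := by
      unfold eulerProd
      linear_combination h3
    rw [sub_eq_zero]
    exact mul_left_cancel₀ hG h4
  have hdiff : Differentiable ℂ (fun s : ℂ =>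
      Lam f s * eulerProd N (qCoeff f) T s - Lam g s * eulerProd N' (qCoeff g) T s) :=
    ((differentiable_Lam f).mul (differentiable_eulerProd N _ T hT)).sub
      ((differentiable_Lam g).mul (differentiable_eulerProd N' _ T hT))
  exact sub_eq_zero.mp (eq_zero_of_eq_zero_on_halfplane hdiff key s)

/-- **X6**: the global identity between the Euler polynomials of two newforms with the same
eigenvalues outside `T`. -/
theorem globalIdentity_of (hD : DirichletSeries) (hDep : Deplete)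
    {f : CuspForm (Gamma0 N) 2} {g : CuspForm (Gamma0 N') 2}
    (hf : f.IsNormalizedEigenform) (hg : g.IsNormalizedEigenform) {wf wg : ℂ}
    (hFEf : ∀ s : ℂ, Lam f (2 - s) = -(wf * (N : ℂ) ^ (s - 1)) * Lam f s)
    (hFEg : ∀ s : ℂ, Lam g (2 - s) = -(wg * (N' : ℂ) ^ (s - 1)) * Lam g s)
    (T : Finset ℕ) (hT : ∀ p ∈ T, p.Prime)
    (hTN : N.primeFactors ⊆ T) (hTN' : N'.primeFactors ⊆ T)
    (hagree : ∀ ℓ : ℕ, ℓ.Prime → ℓ ∉ T → qCoeff f ℓ = qCoeff g ℓ) (s : ℂ) :
    wf * (N : ℂ) ^ (s - 1) * eulerProd N (qCoeff f) T (2 - s) * eulerProd N' (qCoeff g) T s =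
      wg * (N' : ℂ) ^ (s - 1) * eulerProd N (qCoeff f) T s * eulerProd N' (qCoeff g) T (2 - s) := by
  have hI := Lam_mul_eulerProd_eq hDep hf hg T hT hTN hTN' hagree
  -- `Λ_f · U = 0`
  have hprod : ∀ s : ℂ, Lam f s *
      (wf * (N : ℂ) ^ (s - 1) * eulerProd N (qCoeff f) T (2 - s) * eulerProd N' (qCoeff g) T s -
        wg * (N' : ℂ) ^ (s - 1) * eulerProd N (qCoeff f) T s *
          eulerProd N' (qCoeff g) T (2 - s)) = 0 := by
    intro s
    have h1 := hI s
    have h2 := hI (2 - s)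
    rw [hFEf s, hFEg s] at h2
    linear_combination (-eulerProd N' (qCoeff g) T s) * h2 -
      (wg * (N' : ℂ) ^ (s - 1) * eulerProd N' (qCoeff g) T (2 - s)) * h1
  -- analyticity
  have hLan : AnalyticOnNhd ℂ (Lam f) Set.univ :=
    ((differentiable_Lam f).differentiableOn).analyticOnNhd isOpen_univ
  have hsub : Differentiable ℂ (fun s : ℂ => (2 : ℂ) - s) :=
    (differentiable_const _).sub differentiable_id
  have hUd : Differentiable ℂ (fun s : ℂ =>
      wf * (N : ℂ) ^ (s - 1) * eulerProd N (qCoeff f) T (2 - s) * eulerProd N' (qCoeff g) T s -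
        wg * (N' : ℂ) ^ (s - 1) * eulerProd N (qCoeff f) T s *
          eulerProd N' (qCoeff g) T (2 - s)) := by
    have e1 := differentiable_eulerProd N (qCoeff f) T hT
    have e2 := differentiable_eulerProd N' (qCoeff g) T hT
    have c1 := differentiable_natCast_cpow N
    have c2 := differentiable_natCast_cpow N'
    exact ((((differentiable_const wf).mul c1).mul (e1.comp hsub)).mul e2).sub
      ((((differentiable_const wg).mul c2).mul e1).mul (e2.comp hsub))
  have hUan := (hUd.differentiableOn).analyticOnNhd isOpen_univ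
  rcases AnalyticOnNhd.eq_zero_or_eq_zero_of_mul_eq_zero hLan hUan
    (fun s _ => hprod s) isPreconnected_univ with h | h
  · exfalso
    obtain ⟨s₀, -, hs₀⟩ := exists_Lam_ne_zero hD f hf.qCoeff_one
    exact hs₀ (h s₀ (Set.mem_univ s₀))
  · exact sub_eq_zero.mp (h s (Set.mem_univ s))

end Fermat.Agent.Lib.Newform.H958.X

end
-- ===== PACK-END Lib/Newform/H958/X/Global.lean

-- ===== PACK-BEGIN S36/H878/Haupt4.lean
section


/-!
# The Hauptmodul `t₄` of `Γ₀(4)` (helper878, S36 cell REG: elliptic points, all odd `q`)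

`t₄ = η(z)⁸/η(4z)⁸ = t⁻¹ ∏ (1 - tⁿ)⁸/(1 - t⁴ⁿ)⁸`, obtained here WITHOUT any new modular input from
helper637's level-2 relations (`Lib/Haupt`):

  `t₄ := (t₂(t²) - 16 t₂) / (t₂ + 16)`,      `t₂ = Δ(t)/Δ(t²)`.

* `t4_sq`      : `t₄² = t₂ (t₄ + 16)`;
* `t2e_eq`     : `t₂(t²) = t₄ (t₄ + 16)`;
* `jq_mul_t4`  : `j · t₄⁴ (t₄ + 16) = (t₄² + 256 t₄ + 4096)³`;
* `jq_sub_1728_mul_t4` : `(j - 1728) · t₄⁴ (t₄ + 16) = (t₄ + 32)² (t₄² - 512 t₄ - 8192)²`;
* `t4_mul_cofactor`, `t4_add_mul_cofactor` : `t₄ ∣ 2³⁶` and `t₄ + 16 ∣ 2²⁴` in `ℤ[j, t₄]`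
  (so `t₄`, `t₄ + 16` are units of every chart on which `2` is invertible);
* `t4_mem_fullC`, `t4_mem_full` : `t₄ ∈ K(j_d : d ∣ M)` for `4 ∣ M`;
* `coeffMap_t4` : compatibility with change of coefficients.

`X₀(4)` has no elliptic points, and `t₄` is a local coordinate at every non-cuspidal point of
`X₀(4 M')` in every odd characteristic: see `Theta4.lean` for `(θ t₄)⁶ = Δ t₄² (t₄ + 16)⁵`.
-/

set_option autoImplicit false

noncomputable section

namespace Fermat.Agent.S36.H878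

open PowerSeries ModularCurve Fermat.Agent.Lib.Haupt

/-! ## Integral power series -/

/-- `X² · t₂(X²)`. -/
abbrev T2e : PowerSeries ℤ := ex 2 T2

theorem constantCoeff_T2e : constantCoeff T2e = 1 := by
  rw [T2e, constantCoeff_ex, constantCoeff_T2]


/-- `j(X²) · (X² t₂(X²))² = (X² t₂(X²) + 256 X²)³`. -/
theorem T2e_rel : ex 2 ModularCurve.jNum * T2e ^ 2 = (T2e + C 256 * X ^ 2) ^ 3 := by
  have h := congrArg (ex 2) T2_rel₁
  simp only [ex, map_mul, map_pow, map_add, PowerSeries.expand_X, PowerSeries.expand_C] at h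
  exact h

theorem T2_mul_T2e_sub_ne_zero : T2 * T2e - C 4096 * X ^ 3 ≠ 0 := by
  intro h
  have := congrArg constantCoeff h
  simp [constantCoeff_T2] at this

/-- The modular equation of `X₀(4)` in terms of `t₂`, `t₂(t²)`:
`B² = (A² + 48 A X) B + 4096 A X³`, `A = X t₂`, `B = X² t₂(X²)`. -/
theorem T2_T2e_rel :
    T2e ^ 2 = (T2 ^ 2 + C 48 * (X * T2)) * T2e + C 4096 * (X ^ 3 * T2) := by
  have h1 := T2_rel₂
  have h2 := T2e_rel
  have e16 : (C (16 : ℤ) : PowerSeries ℤ) = 16 := map_ofNat C 16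
  have e48 : (C (48 : ℤ) : PowerSeries ℤ) = 48 := map_ofNat C 48
  have e256 : (C (256 : ℤ) : PowerSeries ℤ) = 256 := map_ofNat C 256
  have e4096 : (C (4096 : ℤ) : PowerSeries ℤ) = 4096 := map_ofNat C 4096
  rw [e16] at h1
  rw [e256] at h2
  rw [e48, e4096]
  have hne := T2_mul_T2e_sub_ne_zero
  rw [e4096] at hne
  have key : (T2 * T2e - 4096 * X ^ 3) *
      (T2e ^ 2 - ((T2 ^ 2 + 48 * (X * T2)) * T2e + 4096 * (X ^ 3 * T2))) = 0 := by
    linear_combination T2e ^ 2 * h1 - T2 * h2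
  rcases mul_eq_zero.1 key with h | h
  · exact absurd h hne
  · exact sub_eq_zero.1 h

/-- `X · t₄`, an integral power series with constant coefficient `1`. -/
def T4 : PowerSeries ℤ := (T2e - C 16 * (X * T2)) * (T2 + C 16 * X).invOfUnit 1

theorem constantCoeff_T2_add : constantCoeff (T2 + C 16 * X) = 1 := by
  simp [constantCoeff_T2]

theorem T4_mul : T4 * (T2 + C 16 * X) = T2e - C 16 * (X * T2) := by
  have hu : (T2 + C 16 * X) * (T2 + C 16 * X).invOfUnit 1 = 1 :=
    PowerSeries.mul_invOfUnit _ _ (by rw [constantCoeff_T2_add]; rfl)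
  rw [T4]
  linear_combination (T2e - C 16 * (X * T2)) * hu

theorem T2_add_ne_zero : T2 + C 16 * X ≠ 0 := fun h => by
  have := constantCoeff_T2_add; rw [h, map_zero] at this; exact zero_ne_one this

theorem constantCoeff_T4 : constantCoeff T4 = 1 := by
  have h := congrArg constantCoeff T4_mul
  simpa [constantCoeff_T2, constantCoeff_T2e] using h

/-- `t₄² = t₂ (t₄ + 16)`. -/
theorem T4_sq : T4 ^ 2 = T2 * (T4 + C 16 * X) := by
  have h := T4_mul
  have hr := T2_T2e_rel
  have e16 : (C (16 : ℤ) : PowerSeries ℤ) = 16 := map_ofNat C 16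
  have e48 : (C (48 : ℤ) : PowerSeries ℤ) = 48 := map_ofNat C 48
  have e4096 : (C (4096 : ℤ) : PowerSeries ℤ) = 4096 := map_ofNat C 4096
  rw [e16] at h ⊢
  rw [e48, e4096] at hr
  have hne := T2_add_ne_zero
  rw [e16] at hne
  apply mul_right_cancel₀ (pow_ne_zero 2 hne)
  linear_combination (T4 * (T2 + 16 * X) + T2e - 16 * (X * T2) - T2 * (T2 + 16 * X)) * h + hr

/-- `t₂(t²) = t₄ (t₄ + 16)`. -/
theorem T2e_eq : T2e = T4 * (T4 + C 16 * X) := by
  have h := T4_mul
  have hs := T4_sq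
  linear_combination -hs - h

/-- `j · t₄⁴ (t₄ + 16) = (t₄² + 256 t₄ + 4096)³`. -/
theorem T4_rel :
    ModularCurve.jNum * (T4 ^ 4 * (T4 + C 16 * X))
      = (T4 ^ 2 + C 256 * (X * T4) + C 4096 * X ^ 2) ^ 3 := by
  have h1 := T2_rel₁
  have hs := T4_sq
  have e16 : (C (16 : ℤ) : PowerSeries ℤ) = 16 := map_ofNat C 16
  have e256 : (C (256 : ℤ) : PowerSeries ℤ) = 256 := map_ofNat C 256
  have e4096 : (C (4096 : ℤ) : PowerSeries ℤ) = 4096 := map_ofNat C 4096
  rw [e16] at hs ⊢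
  rw [e256] at h1 ⊢
  rw [e4096]
  have e : T4 ^ 2 + 256 * (X * T4) + 4096 * X ^ 2 = (T2 + 256 * X) * (T4 + 16 * X) := by
    linear_combination hs
  rw [e]
  linear_combination (ModularCurve.jNum * (T4 + 16 * X) * (T4 ^ 2 + T2 * (T4 + 16 * X))) * hs
    + (T4 + 16 * X) ^ 3 * h1


/-! ## Laurent series over an arbitrary commutative ring -/

section Laurent

variable (K : Type*) [CommRing K]

/-- The Hauptmodul of `Γ₀(4)`: `t₄ = η(z)⁸/η(4z)⁸ = t⁻¹ - 8 + 20 t - 62 t³ + …`. -/
def t4 : LaurentSeries K := qinv K * lau K T4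

theorem t4_add_const (c : ℤ) :
    t4 K + (c : LaurentSeries K) = qinv K * lau K (T4 + PowerSeries.C c * X) := by
  rw [t4, t_add_const]

theorem t4_add_16 : t4 K + 16 = qinv K * lau K (T4 + PowerSeries.C 16 * X) := by
  rw [← t4_add_const]; simp

theorem t2_add_16 : t2 K + 16 = qinv K * lau K (T2 + PowerSeries.C 16 * X) := by
  rw [← t_add_const, t2]; simp

theorem qExpand_t2 : qExpand K 2 (t2 K) = qinv K ^ 2 * lau K T2e := by
  rw [t2, map_mul, qExpand_qinv, qExpand_lau]

/-- `t₄² = t₂ (t₄ + 16)`. -/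
theorem t4_sq : t4 K ^ 2 = t2 K * (t4 K + 16) := by
  have h := congrArg (fun f => qinv K ^ 2 * lau K f) T4_sq
  simp only [lau_mul, lau_pow] at h
  rw [t4_add_16, t4, t2]
  linear_combination h

/-- `t₂(t²) = t₄ (t₄ + 16)`. -/
theorem t2e_eq : qExpand K 2 (t2 K) = t4 K * (t4 K + 16) := by
  have h := congrArg (fun f => qinv K ^ 2 * lau K f) T2e_eq
  simp only [lau_mul] at h
  rw [qExpand_t2, t4_add_16, t4]
  linear_combination h

/-- `t₄ (t₂ + 16) = t₂(t²) - 16 t₂`: the definition of `t₄`. -/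
theorem t4_mul : t4 K * (t2 K + 16) = qExpand K 2 (t2 K) - 16 * t2 K := by
  have h1 := t4_sq K
  have h2 := t2e_eq K
  linear_combination -h1 - h2

theorem t4_quad : t4 K ^ 2 + 256 * t4 K + 4096 = (t2 K + 256) * (t4 K + 16) := by
  linear_combination t4_sq K

/-- `j · t₄⁴ (t₄ + 16) = (t₄² + 256 t₄ + 4096)³`. -/
theorem jq_mul_t4 :
    jqModC K * (t4 K ^ 4 * (t4 K + 16)) = (t4 K ^ 2 + 256 * t4 K + 4096) ^ 3 := by
  have h1 := jq_mul_t2_sq K
  have hs := t4_sq K
  rw [t4_quad]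
  linear_combination (jqModC K * (t4 K + 16) * (t4 K ^ 2 + t2 K * (t4 K + 16))) * hs
    + (t4 K + 16) ^ 3 * h1

theorem t4_add_32_sq : (t4 K + 32) ^ 2 = (t2 K + 64) * (t4 K + 16) := by
  linear_combination t4_sq K

theorem t4_quad' : t4 K ^ 2 - 512 * t4 K - 8192 = (t2 K - 512) * (t4 K + 16) := by
  linear_combination t4_sq K

/-- `(j - 1728) · t₄⁴ (t₄ + 16) = (t₄ + 32)² (t₄² - 512 t₄ - 8192)²`. -/
theorem jq_sub_1728_mul_t4 :
    (jqModC K - 1728) * (t4 K ^ 4 * (t4 K + 16))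
      = (t4 K + 32) ^ 2 * (t4 K ^ 2 - 512 * t4 K - 8192) ^ 2 := by
  have h1 := jq_sub_1728_mul_t2_sq K
  have hs := t4_sq K
  rw [t4_add_32_sq, t4_quad']
  linear_combination ((jqModC K - 1728) * (t4 K + 16) * (t4 K ^ 2 + t2 K * (t4 K + 16))) * hs
    + (t4 K + 16) ^ 3 * h1

/-- `t₄` is a root of the monic sextic `(T² + 256 T + 4096)³ - j T⁴ (T + 16)` over `ℤ[j]`. -/
theorem t4_sextic :
    (t4 K ^ 2 + 256 * t4 K + 4096) ^ 3 - jqModC K * (t4 K ^ 4 * (t4 K + 16)) = 0 := by
  rw [jq_mul_t4, sub_self]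

/-- `t₄ ∣ 2³⁶` in `ℤ[j, t₄]`. -/
theorem t4_mul_cofactor :
    t4 K * (jqModC K * (t4 K ^ 3 * (t4 K + 16))
      - (t4 K ^ 5 + 768 * t4 K ^ 4 + 208896 * t4 K ^ 3 + 23068672 * t4 K ^ 2
        + 855638016 * t4 K + 12884901888)) = 2 ^ 36 := by
  linear_combination jq_mul_t4 K

/-- `t₄ + 16 ∣ 2²⁴` in `ℤ[j, t₄]`. -/
theorem t4_add_mul_cofactor :
    (t4 K + 16) * (jqModC K * t4 K ^ 4
      - ((t4 K + 16) ^ 5 + 672 * (t4 K + 16) ^ 4 + 151296 * (t4 K + 16) ^ 3
        + 11583488 * (t4 K + 16) ^ 2 + 38731776 * (t4 K + 16) + 44040192)) = 2 ^ 24 := by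
  linear_combination jq_mul_t4 K


/-! ### Basic properties -/

variable {K}

/-- `t₄` is compatible with every change of coefficients (base change, reduction mod `ℓ`). -/
theorem coeffMap_t4 {K' : Type*} [CommRing K'] (φ : K →+* K') :
    coeffMap φ (t4 K) = t4 K' := by
  rw [t4, map_mul, coeffMap_qinv, coeffMap_lau, t4]

variable (K)

/-- `t₄ = t⁻¹ + …`. -/
theorem coeff_t4_neg_one : (t4 K).coeff (-1) = 1 := by
  rw [t4, coeff_qinv_mul_lau, show (-1 : ℤ) + 1 = ((0 : ℕ) : ℤ) by norm_num, coeff_lau_natCast,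
    PowerSeries.coeff_zero_eq_constantCoeff, constantCoeff_T4, Int.cast_one]

theorem coeff_t4_of_lt {k : ℤ} (hk : k < -1) : (t4 K).coeff k = 0 := by
  rw [t4, coeff_qinv_mul_lau, coeff_lau_of_neg K _ (by omega)]

theorem t4_ne_zero [Nontrivial K] : t4 K ≠ 0 := fun h => by
  have := coeff_t4_neg_one K
  rw [h] at this
  simp at this

theorem coeff_t2_add_neg_one (c : ℤ) : (t2 K + (c : LaurentSeries K)).coeff (-1) = 1 := by
  rw [t2, t_add_const, coeff_qinv_mul_lau, show (-1 : ℤ) + 1 = ((0 : ℕ) : ℤ) by norm_num,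
    coeff_lau_natCast, PowerSeries.coeff_zero_eq_constantCoeff]
  simp [constantCoeff_T2]

theorem coeff_t4_add_neg_one (c : ℤ) : (t4 K + (c : LaurentSeries K)).coeff (-1) = 1 := by
  rw [t4_add_const, coeff_qinv_mul_lau, show (-1 : ℤ) + 1 = ((0 : ℕ) : ℤ) by norm_num,
    coeff_lau_natCast, PowerSeries.coeff_zero_eq_constantCoeff]
  simp [constantCoeff_T4]

theorem t2_add_ne_zero [Nontrivial K] (c : ℤ) : t2 K + (c : LaurentSeries K) ≠ 0 := fun h => by
  have := coeff_t2_add_neg_one K c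
  rw [h] at this
  simp at this

theorem t4_add_ne_zero [Nontrivial K] (c : ℤ) : t4 K + (c : LaurentSeries K) ≠ 0 := fun h => by
  have := coeff_t4_add_neg_one K c
  rw [h] at this
  simp at this

end Laurent

/-! ## Membership in the function field of `X₀(M)`, `4 ∣ M` -/

section Field

variable (K : Type*) [Field K]

theorem fullC_le_of_dvd {N M : ℕ} (h : N ∣ M) :
    modularFunctionFieldFullC K N ≤ modularFunctionFieldFullC K M := by
  rw [modularFunctionFieldFullC, IntermediateField.adjoin_le_iff]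
  rintro x ⟨d, hne, hdvd, rfl⟩
  exact @jqModCd_mem_full K _ M d hne (hdvd.trans h)

theorem qExpand_t2_mem_fullC (M : ℕ) (h4 : 4 ∣ M) :
    qExpand K 2 (t2 K) ∈ modularFunctionFieldFullC K M := by
  have h2 : t2 K ∈ modularFunctionFieldFullC K 2 := t2_mem_fullC K 2 dvd_rfl
  have h := full_degeneracyC_map_le K 2 2
    ((IntermediateField.mem_map _).2 ⟨t2 K, h2, rfl⟩)
  rw [qExpandAlgHomC_apply] at h
  exact fullC_le_of_dvd K (N := 2 * 2) (M := M) (by simpa using h4) h

/-- **`t₄ ∈ K(j_d : d ∣ M)` for `4 ∣ M`**, over every field `K`. -/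
theorem t4_mem_fullC (M : ℕ) (h4 : 4 ∣ M) : t4 K ∈ modularFunctionFieldFullC K M := by
  have h2 : t2 K ∈ modularFunctionFieldFullC K M :=
    t2_mem_fullC K M ((by norm_num : (2 : ℕ) ∣ 4).trans h4)
  have h2e := qExpand_t2_mem_fullC K M h4
  have hne : t2 K + 16 ≠ 0 := by
    have := t2_add_ne_zero K 16
    simpa using this
  have h : t4 K = (qExpand K 2 (t2 K) - 16 * t2 K) / (t2 K + 16) := by
    rw [eq_div_iff hne]
    exact t4_mul K
  rw [h]
  exact div_mem (sub_mem h2e (mul_mem (ofNat_mem _ 16) h2)) (add_mem h2 (ofNat_mem _ 16))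

end Field

/-- `t₄ ∈ ℚ(j_d : d ∣ M)` for `4 ∣ M`. -/
theorem t4_mem_full (M : ℕ) (h4 : 4 ∣ M) : t4 ℚ ∈ modularFunctionFieldFull M :=
  t4_mem_fullC ℚ M h4

/-- `t₄ ∈ L(j_d : d ∣ M)` for `4 ∣ M`, in the base-changed function field. -/
theorem t4_mem_laurentBaseChange (L : Type*) [Field L] [Algebra ℚ L] (M : ℕ) (h4 : 4 ∣ M) :
    t4 L ∈ laurentBaseChange L (modularFunctionFieldFull M) := by
  have h := coeffEmb_mem_laurentBaseChange L (t4_mem_full M h4)
  rwa [coeffEmb, coeffMap_t4] at h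


end Fermat.Agent.S36.H878

end
end
-- ===== PACK-END S36/H878/Haupt4.lean

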