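import Fermat.Prelude.Def_ModularCurve_HeckeOperator
import Fermat.Agent.Pack.S36.E15L1
import Fermat.Agent.Pack.S36.E7L3
import Fermat.Agent.Pack.S36.E15L2
import Fermat.Agent.Pack.S36.E5L0
import Fermat.Agent.Pack.S36.E5L1
import Fermat.Agent.Pack.S36.E8L1
import Fermat.Agent.Pack.S36.E15L3
import Fermat.Agent.Pack.S36.E5L3
import Fermat.Agent.Pack.S36.E8L3
import Fermat.Agent.Pack.S36.E10L0
import Fermat.Agent.Pack.S36.E8L0
import Fermat.Agent.Pack.S36.E15L0
import Fermat.Agent.Pack.S36.E13L3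
import Fermat.Agent.Pack.S36.E2L2
import Fermat.Agent.Pack.S36.E10L2
import Fermat.Agent.Pack.S36.E12L3
import Fermat.Agent.Pack.S36.E12L1

-- ===== PACK-BEGIN S37/H218/Degree.lean
section




/-!
# S37 / [ES] leaf D-deg (helper218): the degree of the degeneracy map `β = V_ℓ`

`E_N(k) := modularFunctionFieldFullC k N = k(j(q^d) : d ∣ N) ⊂ k((q))`, `V_ℓ : f(q) ↦ f(q^ℓ)`.

* `relfinrank_map_qExpand_full_mul_prime` :
  `[E_{Np}(k) : V_p(E_N(k))] = p + 1` if `p ∤ N`, `= p` if `p ∣ N`
  (all primes dividing `N p` invertible in `k`);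
* `relfinrank_map_qExpand_bar_mul_prime` : the same for the Prelude's `modularFunctionFieldBar`;
* `finrankAlong_heckeBetaBar` :
  `finrankAlong ℚ̄ (heckeBetaBar ℚ̄ N ℓ) = [F̄_{Nℓ} : V_ℓ(F̄_N)]` (as a `relfinrank`);
* `finrankAlong_heckeBetaBar_of_not_dvd` : `finrankAlong ℚ̄ (heckeBetaBar ℚ̄ N ℓ) = ℓ + 1` for a
  prime `ℓ ∤ N`;  `finrankAlong_heckeBetaBar_of_dvd` : `= ℓ` for a prime `ℓ ∣ N`.

Proof: degree counting over `k(j)` and `k(j(q^p))` with the landed S28 degree theory
(`H867.PrimeLevel`: `[k(j, j_p) : k(j)] = p + 1 = [k(j, j_p) : k(j_p)]`, `H988`: `[E_N : k(j)] = ψ(N)`).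
-/

set_option autoImplicit false

noncomputable section

open ModularCurve HahnSeries IntermediateField AlgebraicCurve

namespace Fermat.Agent.S37.H218

open Fermat.Agent.S28

section AnyField

variable (k : Type*) [Field k]

/-- `[E_{Np} : V_p(E_N)] * ψ(N) = ψ(N p)` for a prime `p`. -/
theorem relfinrank_map_qExpand_full_mul_psi (N p : ℕ) [NeZero p] (hN : N ≠ 0) (hp : p.Prime)
    (hchar : ∀ r : ℕ, r.Prime → r ∣ N * p → (r : k) ≠ 0) :
    dedekindPsi N *
      ((modularFunctionFieldFullC k N).map (qExpandAlgHomC k p)).relfinrank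
        (modularFunctionFieldFullC k (N * p)) = dedekindPsi (N * p) := by
  have hNp : N * p ≠ 0 := Nat.mul_ne_zero hN hp.ne_zero
  have hG := H988.good_of_char k (N * p) hNp hchar
  have hP : H867.PrimeLevel k p := hG.prime p hp (dvd_mul_left p N)
  set V := qExpandAlgHomC k p with hV
  set A₀ := jField k with hA₀
  set A := H867.jpField k p with hA
  set B := (modularFunctionFieldFullC k N).map V with hB
  set E' := modularFunctionFieldFullC k (N * p) with hE'
  set P := A₀ ⊔ A with hPdef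
  have hAB : A ≤ B := by
    rw [hA, H867.jpField_eq_map, hB]
    exact IntermediateField.map_mono _ (H867.jField_le_EF k N)
  have hBE : B ≤ E' := H867.map_EF_le k N p
  have hA₀E : A₀ ≤ E' := H867.jField_le_EF k (N * p)
  have hPE : P ≤ E' := sup_le hA₀E (hAB.trans hBE)
  have hA₀P : A₀ ≤ P := le_sup_left
  have hAP : A ≤ P := le_sup_right
  have h1 : A₀.relfinrank E' = A.relfinrank E' := by
    rw [← relfinrank_mul_relfinrank hA₀P hPE, ← relfinrank_mul_relfinrank hAP hPE,
      hP.deg_j, hP.deg_jp]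
  have h3 : A.relfinrank B = dedekindPsi N := by
    rw [hA, H867.jpField_eq_map, hB, relfinrank_map_map]
    exact H988.relfinrank_jField_full_eq k N hN
      (fun r hr hrN => hchar r hr (hrN.trans (Dvd.intro p rfl)))
  have h4 : A₀.relfinrank E' = dedekindPsi (N * p) :=
    H988.relfinrank_jField_full_eq k (N * p) hNp hchar
  rw [← h3, relfinrank_mul_relfinrank hAB hBE, ← h1, h4]

/-- **Degree of `β = V_p`.** `[E_{Np} : V_p(E_N)] = p + 1` if `p ∤ N`, `= p` if `p ∣ N`. -/
theorem relfinrank_map_qExpand_full_mul_prime (N p : ℕ) [NeZero p] (hN : N ≠ 0) (hp : p.Prime)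
    (hchar : ∀ r : ℕ, r.Prime → r ∣ N * p → (r : k) ≠ 0) :
    ((modularFunctionFieldFullC k N).map (qExpandAlgHomC k p)).relfinrank
        (modularFunctionFieldFullC k (N * p)) = if p ∣ N then p else p + 1 := by
  have h := relfinrank_map_qExpand_full_mul_psi k N p hN hp hchar
  have hpos := H988.dedekindPsi_pos N hN
  by_cases hpN : p ∣ N
  · rw [if_pos hpN]
    rw [H626.psi_mul_prime_of_dvd hN hp hpN, mul_comm p] at h
    exact Nat.eq_of_mul_eq_mul_left hpos h
  · rw [if_neg hpN]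
    rw [H626.psi_mul_prime_of_not_dvd hN hp hpN, mul_comm (p + 1)] at h
    exact Nat.eq_of_mul_eq_mul_left hpos h

end AnyField

section Bar

/-- `[ℚ̄(X₀(Np)) : V_p ℚ̄(X₀(N))] = p + 1` if `p ∤ N`, `= p` if `p ∣ N`. -/
theorem relfinrank_map_qExpand_bar_mul_prime (N p : ℕ) [NeZero p] (hN : N ≠ 0) (hp : p.Prime) :
    ((modularFunctionFieldBar N).map (qExpandAlgHomC (AlgebraicClosure ℚ) p)).relfinrank
        (modularFunctionFieldBar (N * p)) = if p ∣ N then p else p + 1 := by
  rw [H988.modularFunctionFieldBar_eq_fullC, H988.modularFunctionFieldBar_eq_fullC]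
  exact relfinrank_map_qExpand_full_mul_prime _ N p hN hp
    (fun r hr _ => H988.natCast_ne_zero_bar hr.ne_zero)

variable (N ℓ : ℕ) [NeZero N] [NeZero ℓ]

omit [NeZero N] in
theorem map_qExpand_bar_le :
    (modularFunctionFieldBar N).map (qExpandAlgHomC (AlgebraicClosure ℚ) ℓ)
      ≤ modularFunctionFieldBar (N * ℓ) := by
  rintro _ ⟨x, hx, rfl⟩
  exact (heckeBetaBar (AlgebraicClosure ℚ) N ℓ ⟨x, hx⟩).2

omit [NeZero N] in
/-- The degree of the Prelude degeneracy map `β` is `[F̄_{Nℓ} : V_ℓ(F̄_N)]`. -/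
theorem finrankAlong_heckeBetaBar :
    finrankAlong (AlgebraicClosure ℚ) (heckeBetaBar (AlgebraicClosure ℚ) N ℓ)
      = ((modularFunctionFieldBar N).map (qExpandAlgHomC (AlgebraicClosure ℚ) ℓ)).relfinrank
          (modularFunctionFieldBar (N * ℓ)) := by
  have hle := map_qExpand_bar_le N ℓ
  rw [relfinrank_eq_finrank_of_le hle]
  let _ := algebraAlong (heckeBetaBar (AlgebraicClosure ℚ) N ℓ)
  show Module.finrank ↥(modularFunctionFieldBar N) ↥(modularFunctionFieldBar (N * ℓ)) = _
  let i : ↥(modularFunctionFieldBar N) ≃+*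
      ↥((modularFunctionFieldBar N).map (qExpandAlgHomC (AlgebraicClosure ℚ) ℓ)) :=
    (IntermediateField.equivMap (modularFunctionFieldBar N)
      (qExpandAlgHomC (AlgebraicClosure ℚ) ℓ)).toRingEquiv
  let j : ↥(modularFunctionFieldBar (N * ℓ)) ≃+* ↥(extendScalars hle) :=
    { toFun := fun x => ⟨x.1, x.2⟩
      invFun := fun y => ⟨y.1, y.2⟩
      left_inv := fun _ => rfl
      right_inv := fun _ => rfl
      map_mul' := fun _ _ => rfl
      map_add' := fun _ _ => rfl }
  refine Algebra.finrank_eq_of_equiv_equiv i j ?_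
  ext x
  rfl

/-- For a prime `ℓ ∤ N` the degeneracy map `β : F̄_N → F̄_{Nℓ}` has degree `ℓ + 1`. -/
theorem finrankAlong_heckeBetaBar_of_not_dvd (hℓ : ℓ.Prime) (h : ¬ ℓ ∣ N) :
    finrankAlong (AlgebraicClosure ℚ) (heckeBetaBar (AlgebraicClosure ℚ) N ℓ) = ℓ + 1 := by
  rw [finrankAlong_heckeBetaBar, relfinrank_map_qExpand_bar_mul_prime N ℓ (NeZero.ne N) hℓ,
    if_neg h]

/-- For a prime `ℓ ∣ N` the degeneracy map `β : F̄_N → F̄_{Nℓ}` has degree `ℓ`. -/
theorem finrankAlong_heckeBetaBar_of_dvd (hℓ : ℓ.Prime) (h : ℓ ∣ N) :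
    finrankAlong (AlgebraicClosure ℚ) (heckeBetaBar (AlgebraicClosure ℚ) N ℓ) = ℓ := by
  rw [finrankAlong_heckeBetaBar, relfinrank_map_qExpand_bar_mul_prime N ℓ (NeZero.ne N) hℓ,
    if_pos h]

/-- For every prime `ℓ` the degree of `β` is at most `ℓ + 1`. -/
theorem finrankAlong_heckeBetaBar_le (hℓ : ℓ.Prime) :
    finrankAlong (AlgebraicClosure ℚ) (heckeBetaBar (AlgebraicClosure ℚ) N ℓ) ≤ ℓ + 1 := by
  by_cases h : ℓ ∣ N
  · rw [finrankAlong_heckeBetaBar_of_dvd N ℓ hℓ h]
    exact Nat.le_succ ℓ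
  · rw [finrankAlong_heckeBetaBar_of_not_dvd N ℓ hℓ h]

end Bar

end Fermat.Agent.S37.H218

end

end
-- ===== PACK-END S37/H218/Degree.lean

-- ===== PACK-BEGIN S29/H509/KummerHom.lean
section


/-!
# The Kummer function of an additive character `Γ₀(N) → ℤ/p` (helper509, S29 piece K1-full)

`chiOfHom c γ = exp (2πi c(γ) / p)` turns `c : Additive Γ →+ ZMod p` into a character
`Γ →* ℂˣ`; `exists_kummerFun_of_hom` is the packaged statement for consumers (DICT / DESC / NORM).
-/

set_option autoImplicit false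

namespace Fermat.Agent.S29.H509

open ModularForm UpperHalfPlane Matrix CongruenceSubgroup EisensteinSeries Filter Topology
open scoped MatrixGroups Manifold Real

open Fermat.Agent.S24.H648 (goodRing ExpGrowth)

noncomputable section

variable {Γ : Subgroup SL(2, ℤ)} {p : ℕ} [NeZero p]

/-- The character `γ ↦ exp (2πi c(γ) / p)` attached to `c : Γ → ℤ/p`. -/
def chiOfHom (c : Additive Γ →+ ZMod p) : Γ →* ℂˣ :=
  MonoidHom.toHomUnits
    { toFun := fun γ => ZMod.stdAddChar (N := p) (c (Additive.ofMul γ))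
      map_one' := by simp
      map_mul' := fun a b => by
        rw [ofMul_mul, map_add, AddChar.map_add_eq_mul] }

@[simp] lemma chiOfHom_apply (c : Additive Γ →+ ZMod p) (γ : Γ) :
    ((chiOfHom c γ : ℂˣ) : ℂ) = ZMod.stdAddChar (N := p) (c (Additive.ofMul γ)) := rfl

lemma chiOfHom_eq_one_iff (c : Additive Γ →+ ZMod p) (γ : Γ) :
    chiOfHom c γ = 1 ↔ c (Additive.ofMul γ) = 0 := by
  rw [← Units.val_inj, chiOfHom_apply, Units.val_one,
    ← (ZMod.stdAddChar (N := p)).map_zero_eq_one, ZMod.injective_stdAddChar.eq_iff]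

lemma chiOfHom_pow (c : Additive Γ →+ ZMod p) (γ : Γ) : chiOfHom c γ ^ p = 1 := by
  rw [← Units.val_inj, Units.val_pow_eq_pow_val, chiOfHom_apply, Units.val_one,
    ← AddChar.map_nsmul_eq_pow]
  simp

lemma chiOfHom_add (c c' : Additive Γ →+ ZMod p) (γ : Γ) :
    chiOfHom (c + c') γ = chiOfHom c γ * chiOfHom c' γ := by
  rw [← Units.val_inj, Units.val_mul, chiOfHom_apply, chiOfHom_apply, chiOfHom_apply,
    AddMonoidHom.add_apply, AddChar.map_add_eq_mul]

lemma chiOfHom_zero : chiOfHom (0 : Additive Γ →+ ZMod p) = 1 := by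
  ext γ
  simp

lemma trivOnStabInfty_chiOfHom {c : Additive Γ →+ ZMod p}
    (hc : ∀ γ : Γ, (γ : SL(2, ℤ)) 1 0 = 0 → c (Additive.ofMul γ) = 0) :
    TrivOnStabInfty (chiOfHom c) :=
  fun γ hγ => (chiOfHom_eq_one_iff c γ).mpr (hc γ hγ)

/-- An element of `SL(2, ℤ)` with lower left entry `0` has trace `±2`. -/
lemma trace_sq_of_lower_left_eq_zero (γ : SL(2, ℤ)) (h : γ 1 0 = 0) :
    (γ : Matrix (Fin 2) (Fin 2) ℤ).trace ^ 2 = 4 := by
  have hdet := γ.det_coe
  rw [Matrix.det_fin_two] at hdet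
  have h' : (γ : Matrix (Fin 2) (Fin 2) ℤ) 1 0 = 0 := h
  rw [h', mul_zero, sub_zero] at hdet
  rw [Matrix.trace_fin_two]
  rcases Int.eq_one_or_neg_one_of_mul_eq_one' hdet with ⟨h1, h2⟩ | ⟨h1, h2⟩
  · rw [h1, h2]; norm_num
  · rw [h1, h2]; norm_num

/-- **K1 (packaged).**  For an additive character `c : Γ₀(N) → ℤ/p` vanishing on the elements
fixing `∞` (e.g. on all elements with `trace ^ 2 = 4`), the Kummer function
`h = kumH (chiOfHom c)` is holomorphic, nonzero, transforms by
`h (γ • τ) = exp (2πi c(γ)/p) * h τ` under `Γ₀(N)`, all its `SL(2, ℤ)`-translates have at most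
exponential growth, and `h ^ p` is a good function for `Γ₀(N)`. -/
theorem exists_kummerFun_of_hom (N : ℕ) (c : Additive (Gamma0 N) →+ ZMod p)
    (hc : ∀ γ : Gamma0 N, (γ : SL(2, ℤ)) 1 0 = 0 → c (Additive.ofMul γ) = 0) :
    ∃ h : ℍ → ℂ, MDiff h ∧ h ≠ 0 ∧
      (∀ (γ : Gamma0 N) (τ : ℍ),
        h ((γ : SL(2, ℤ)) • τ) = ZMod.stdAddChar (N := p) (c (Additive.ofMul γ)) * h τ) ∧
      (∀ g : SL(2, ℤ), ExpGrowth (fun τ => h (g • τ))) ∧
      h ^ p ∈ goodRing N := by
  have hp : p ≠ 0 := NeZero.ne p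
  have hstab := trivOnStabInfty_chiOfHom hc
  have hnorm : ∀ γ, ‖((chiOfHom c γ : ℂˣ) : ℂ)‖ = 1 :=
    fun γ => norm_eq_one_of_pow_eq_one' hp (chiOfHom_pow c γ)
  refine ⟨kumH (chiOfHom c), kumH_mdifferentiable hnorm, kumH_ne_zero hnorm hstab,
    fun γ τ => ?_, kumH_expGrowth hnorm, kumH_pow_mem_goodRing hstab.trivOnUnip hp
      (chiOfHom_pow c)⟩
  rw [kumH_smul hstab.trivOnUnip, chiOfHom_apply]

end

end Fermat.Agent.S29.H509

end
-- ===== PACK-END S29/H509/KummerHom.lean

-- ===== PACK-BEGIN S18/H264/SepConcrete.lean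
section






/-!
# S18 / G-SEP at the concrete objects (helper264)

The field `separable` of `Alg.GoodModel` for the concrete objects of `Mod/Defs.lean`
(`Rc M A E`, `VcSet M A E`, coordinate `jOm M`), for every subring `V` with underlying set
`VcSet M A E` and every uniformiser `w` of `Rc M A E`.
-/

set_option autoImplicit false

noncomputable section

namespace Fermat.Agent.S18.H264

open ModularCurve AlgebraicCurve Polynomial Fermat.Agent.S18 Fermat.Agent.S18.Mod
open Fermat.Agent.S28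

/-! ### (C1) the residue field of a valuation ring of `Q̄` over `ℓ` is algebraic over `𝔽_ℓ` -/

section ResAlg

variable (A : ValuationSubring Qb) (ℓ : ℕ) [hℓ : Fact ℓ.Prime]
  [Algebra (ZMod ℓ) (IsLocalRing.ResidueField A)]

theorem isAlgebraic_residue_zmod (c : IsLocalRing.ResidueField A) : IsAlgebraic (ZMod ℓ) c := by
  obtain ⟨a, rfl⟩ := IsLocalRing.residue_surjective c
  have halgQ : IsAlgebraic ℚ (a : Qb) := (AlgebraicClosure.isAlgebraic ℚ).isAlgebraic _
  have halgZ : IsAlgebraic ℤ (a : Qb) := (IsFractionRing.isAlgebraic_iff ℤ ℚ Qb).mpr halgQ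
  obtain ⟨p, hp0, hpa⟩ := halgZ
  have hq0 : p.primPart ≠ 0 := primPart_ne_zero p
  have hqa : aeval (a : Qb) p.primPart = 0 := aeval_primPart_eq_zero hp0 hpa
  have hqA : Polynomial.eval₂ (Int.castRingHom A) a p.primPart = 0 := by
    apply Subtype.ext
    have h := Polynomial.hom_eval₂ p.primPart (Int.castRingHom A) A.subtype a
    rw [ZeroMemClass.coe_zero, ← hqa, aeval_def]
    have hc : (A.subtype).comp (Int.castRingHom A) = algebraMap ℤ Qb := RingHom.ext_int _ _
    rw [← hc]
    exact h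
  refine ⟨p.primPart.map (Int.castRingHom (ZMod ℓ)), ?_, ?_⟩
  · intro h0
    have hdvd : Polynomial.C (ℓ : ℤ) ∣ p.primPart := by
      rw [C_dvd_iff_dvd_coeff]
      intro i
      have := congrArg (fun r => r.coeff i) h0
      simp only [coeff_map, coeff_zero, eq_intCast] at this
      exact (ZMod.intCast_zmod_eq_zero_iff_dvd _ _).mp this
    have hu := (isPrimitive_iff_isUnit_of_C_dvd.mp (isPrimitive_primPart p)) _ hdvd
    have := Int.isUnit_iff.mp hu
    have h2 := hℓ.out.two_le
    omega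
  · rw [aeval_def, Polynomial.eval₂_map]
    have hc : (algebraMap (ZMod ℓ) (IsLocalRing.ResidueField A)).comp (Int.castRingHom (ZMod ℓ)) =
        (IsLocalRing.residue A).comp (Int.castRingHom A) := RingHom.ext_int _ _
    rw [hc, ← Polynomial.hom_eval₂, hqA, map_zero]

instance algebra_isAlgebraic_residue_zmod :
    Algebra.IsAlgebraic (ZMod ℓ) (IsLocalRing.ResidueField A) :=
  ⟨isAlgebraic_residue_zmod A ℓ⟩

end ResAlg

/-! ### (C2), (C3) the function field `F_k` is algebraic over `𝔽_ℓ(j̄)` -/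

section FullAlg

variable {k : Type} [Field k] (ℓ : ℕ) [hℓ : Fact ℓ.Prime]

theorem evalAt_eq_eval₂RingHom {B : Type*} [CommRing B] (y : LaurentSeries B) :
    evalAt y = Polynomial.eval₂RingHom (Int.castRingHom (LaurentSeries B)) y := by
  refine Polynomial.ringHom_ext (fun n => ?_) ?_
  · simp [evalAt]
  · simp [evalAt]

/-- Base change of the integrality equation of `j(q^d)` to `k((q))`. -/
theorem evalZZ_jd_eq_zero {N : ℕ} [NeZero N] (core : CoreData N k) (d : ℕ) [NeZero d]
    (hd : d ∣ N) :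
    ∃ P : Polynomial (Polynomial ℤ), P.Monic ∧
      evalZZ (jqModC k) (qExpand k d (jqModC k)) P = 0 := by
  obtain ⟨P, hP, h0⟩ := core.integral d hd
  refine ⟨P, hP, ?_⟩
  rw [evalAt_eq_eval₂RingHom, ← evalZZ_apply] at h0
  have h := map_evalZZ (coeffMap (Int.castRingHom k)) (jqModC ℤ) (qExpand ℤ d (jqModC ℤ)) P
  rw [h0, map_zero, coeffMap_qExpand, coeffMap_jqModC] at h
  exact h.symm

/-- `j(q^d)` is integral over `𝔽_ℓ(j̄)`. -/
theorem isIntegral_jd [Algebra (ZMod ℓ) (LaurentSeries k)] {N : ℕ} [NeZero N]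
    (core : CoreData N k) (d : ℕ) [NeZero d] (hd : d ∣ N) :
    IsIntegral (IntermediateField.adjoin (ZMod ℓ) {jqModC k}) (qExpand k d (jqModC k)) := by
  obtain ⟨P, hP, h0⟩ := evalZZ_jd_eq_zero core d hd
  set J := IntermediateField.adjoin (ZMod ℓ) {jqModC k} with hJ
  set ψ : Polynomial ℤ →+* J := Polynomial.eval₂RingHom (Int.castRingHom J)
    ⟨jqModC k, IntermediateField.mem_adjoin_simple_self _ _⟩ with hψ
  have hcomp : (algebraMap J (LaurentSeries k)).comp ψ =
      Polynomial.eval₂RingHom (Int.castRingHom (LaurentSeries k)) (jqModC k) := by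
    refine Polynomial.ringHom_ext (fun n => ?_) ?_
    · simp [hψ]
    · simp [hψ]
  refine ⟨P.map ψ, hP.map _, ?_⟩
  rw [Polynomial.eval₂_map, hcomp, ← evalZZ_apply]
  exact h0

/-- Every element of `F_k = k(j(q^d) : d ∣ N)` is algebraic over `𝔽_ℓ(j̄)`. -/
theorem isAlgebraic_of_mem_fullC [Algebra (ZMod ℓ) k] [Algebra.IsAlgebraic (ZMod ℓ) k]
    {N : ℕ} [NeZero N] (core : CoreData N k)
    {a : LaurentSeries k} (ha : a ∈ modularFunctionFieldFullC k N) :
    IsAlgebraic (IntermediateField.adjoin (ZMod ℓ) {jqModC k}) a := by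
  set J := IntermediateField.adjoin (ZMod ℓ) {jqModC k} with hJ
  rw [← mem_algebraicClosure_iff]
  have hle : (modularFunctionFieldFullC k N).toSubfield ≤ (algebraicClosure J (LaurentSeries k)).toSubfield := by
    rw [modularFunctionFieldFullC, IntermediateField.adjoin_toSubfield, Subfield.closure_le]
    rintro y (⟨c, rfl⟩ | ⟨d, hd0, hd, rfl⟩)
    · show algebraMap k (LaurentSeries k) c ∈ algebraicClosure J (LaurentSeries k)
      rw [mem_algebraicClosure_iff]
      obtain ⟨p, hp0, hpc⟩ := (Algebra.IsAlgebraic.isAlgebraic c : IsAlgebraic (ZMod ℓ) c)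
      refine ⟨p.map (algebraMap (ZMod ℓ) J), (Polynomial.map_ne_zero_iff
        (algebraMap (ZMod ℓ) J).injective).mpr hp0, ?_⟩
      rw [aeval_def, Polynomial.eval₂_map]
      have hc : (algebraMap J (LaurentSeries k)).comp (algebraMap (ZMod ℓ) J) =
          (algebraMap k (LaurentSeries k)).comp (algebraMap (ZMod ℓ) k) := RingHom.ext_zmod _ _
      rw [hc, ← Polynomial.hom_eval₂, ← aeval_def, hpc, map_zero]
    · show qExpand k d (jqModC k) ∈ algebraicClosure J (LaurentSeries k)
      rw [mem_algebraicClosure_iff']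
      have := hd0
      exact isIntegral_jd ℓ core d hd
  exact hle ha

end FullAlg

/-! ### (C4) the reduction relation on the Gauss valuation ring -/

section RedRel

variable (M : ℕ) (A : ValuationSubring Qb) (E : IntermediateField ℚ Qb)

/-- Reduction of series modulo the maximal ideal of `A`. -/
abbrev redS : LaurentSeries A →+* LaurentSeries (IsLocalRing.ResidueField A) :=
  coeffMap (IsLocalRing.residue A)

/-- Inclusion `A((q)) → Q̄((q))`. -/
abbrev inclS : LaurentSeries A →+* LaurentSeries Qb := coeffMap A.subtype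

/-- The coercion `Ω = F_M → Q̄((q))` as a ring homomorphism. -/
def omValH : Om M →+* LaurentSeries Qb := (modularFunctionFieldBar M).val.toRingHom

@[simp] theorem omValH_apply (f : Om M) : omValH M f = (f : LaurentSeries Qb) := rfl

/-- Series over `Q̄` all of whose coefficients lie in `E`. -/
def coeffsInE : Subring (LaurentSeries Qb) where
  carrier := {U | ∀ n : ℤ, U.coeff n ∈ E}
  zero_mem' := fun n => by simp
  one_mem' := fun n => by
    rw [HahnSeries.coeff_one]
    split_ifs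
    · exact one_mem _
    · exact zero_mem _
  add_mem' := fun {a b} ha hb n => by
    rw [HahnSeries.coeff_add]
    exact add_mem (ha n) (hb n)
  neg_mem' := fun {a} ha n => by
    rw [HahnSeries.coeff_neg]
    exact neg_mem (ha n)
  mul_mem' := fun {a b} ha hb n => by
    rw [HahnSeries.coeff_mul]
    exact sum_mem fun ij _ => mul_mem (ha _) (hb _)

/-- The subring of `A((q))` cut out by `IsIntE`. -/
def intESub : Subring (LaurentSeries A) :=
  (coeffsInE E).comap (inclS A) ⊓ ((Fc M E).toSubring.map (omValH M)).comap (inclS A)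

theorem mem_intESub {U : LaurentSeries A} : U ∈ intESub M A E ↔ IsIntE M A E U := by
  constructor
  · rintro ⟨h1, f, hf, hfU⟩
    exact ⟨fun n => h1 n, f, hf, hfU⟩
  · rintro ⟨h1, f, hf, hfU⟩
    exact ⟨fun n => h1 n, f, hf, hfU⟩

/-- The reduction relation: `(g, ḡ) ∈ redRel` iff `g = U₁/U₂` and `ḡ = Ū₁/Ū₂` for `E`-rational
integral series `U₁, U₂` in `Fc` with `Ū₂ ≠ 0`. -/
def redRel : Subring (Om M × LaurentSeries (IsLocalRing.ResidueField A)) where
  carrier := {z | z.1 ∈ Fc M E ∧ ∃ U₁ U₂ : LaurentSeries A, U₁ ∈ intESub M A E ∧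
    U₂ ∈ intESub M A E ∧ redS A U₂ ≠ 0 ∧
    (z.1 : LaurentSeries Qb) * inclS A U₂ = inclS A U₁ ∧ z.2 * redS A U₂ = redS A U₁}
  zero_mem' := by
    refine ⟨zero_mem _, 0, 1, zero_mem _, one_mem _, ?_, ?_, ?_⟩
    · rw [map_one]; exact one_ne_zero
    · simp
    · simp
  one_mem' := by
    refine ⟨one_mem _, 1, 1, one_mem _, one_mem _, ?_, ?_, ?_⟩
    · rw [map_one]; exact one_ne_zero
    · simp
    · simp
  add_mem' := by
    rintro ⟨f, a⟩ ⟨g, b⟩ ⟨hf, U₁, U₂, h₁, h₂, hne, heq, hred⟩ ⟨hg, W₁, W₂, k₁, k₂, kne, keq, kred⟩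
    refine ⟨add_mem hf hg, U₁ * W₂ + W₁ * U₂, U₂ * W₂, add_mem (mul_mem h₁ k₂) (mul_mem k₁ h₂),
      mul_mem h₂ k₂, ?_, ?_, ?_⟩
    · rw [map_mul]; exact mul_ne_zero hne kne
    · simp only [Prod.fst_add] at heq keq ⊢
      push_cast
      rw [map_add, map_mul, map_mul, map_mul, ← heq, ← keq]
      ring
    · simp only [Prod.snd_add] at hred kred ⊢
      rw [map_add, map_mul, map_mul, map_mul, ← hred, ← kred]
      ring
  neg_mem' := by
    rintro ⟨f, a⟩ ⟨hf, U₁, U₂, h₁, h₂, hne, heq, hred⟩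
    refine ⟨neg_mem hf, -U₁, U₂, neg_mem h₁, h₂, hne, ?_, ?_⟩
    · simp only [Prod.fst_neg] at heq ⊢
      push_cast
      rw [map_neg, ← heq]
      ring
    · simp only [Prod.snd_neg] at hred ⊢
      rw [map_neg, ← hred]
      ring
  mul_mem' := by
    rintro ⟨f, a⟩ ⟨g, b⟩ ⟨hf, U₁, U₂, h₁, h₂, hne, heq, hred⟩ ⟨hg, W₁, W₂, k₁, k₂, kne, keq, kred⟩
    refine ⟨mul_mem hf hg, U₁ * W₁, U₂ * W₂, mul_mem h₁ k₁, mul_mem h₂ k₂, ?_, ?_, ?_⟩
    · rw [map_mul]; exact mul_ne_zero hne kne
    · simp only [Prod.fst_mul] at heq keq ⊢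
      push_cast
      rw [map_mul, map_mul, ← heq, ← keq]
      ring
    · simp only [Prod.snd_mul] at hred kred ⊢
      rw [map_mul, map_mul, ← hred, ← kred]
      ring

theorem mem_redRel {g : Om M} {a : LaurentSeries (IsLocalRing.ResidueField A)} :
    (g, a) ∈ redRel M A E ↔ g ∈ Fc M E ∧ ∃ U₁ U₂ : LaurentSeries A, U₁ ∈ intESub M A E ∧
      U₂ ∈ intESub M A E ∧ redS A U₂ ≠ 0 ∧
      (g : LaurentSeries Qb) * inclS A U₂ = inclS A U₁ ∧ a * redS A U₂ = redS A U₁ := Iff.rfl

/-- (R2) every element of the Gauss valuation ring has a reduction. -/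
theorem exists_red_of_mem_VcSet {f : Om M} (hf : f ∈ VcSet M A E) :
    ∃ a, (f, a) ∈ redRel M A E := by
  obtain ⟨hfF, U₁, U₂, h₁, h₂, hne, heq⟩ := hf
  refine ⟨redS A U₁ * (redS A U₂)⁻¹, hfF, U₁, U₂, (mem_intESub M A E).mpr h₁,
    (mem_intESub M A E).mpr h₂, hne, heq, ?_⟩
  rw [mul_assoc, inv_mul_cancel₀ hne, mul_one]

theorem mem_VcSet_of_mem_redRel {g : Om M} {a : LaurentSeries (IsLocalRing.ResidueField A)}
    (h : (g, a) ∈ redRel M A E) : g ∈ VcSet M A E := by
  obtain ⟨hgF, U₁, U₂, h₁, h₂, hne, heq, -⟩ := h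
  exact ⟨hgF, U₁, U₂, (mem_intESub M A E).mp h₁, (mem_intESub M A E).mp h₂, hne, heq⟩

/-- (R4) an element with nonzero reduction is a unit of the Gauss valuation ring. -/
theorem inv_mem_VcSet_of_red_ne_zero {g : Om M}
    {a : LaurentSeries (IsLocalRing.ResidueField A)} (h : (g, a) ∈ redRel M A E) (ha : a ≠ 0) :
    g ≠ 0 ∧ g⁻¹ ∈ VcSet M A E := by
  obtain ⟨hgF, U₁, U₂, h₁, h₂, hne, heq, hred⟩ := h
  have hne₁ : redS A U₁ ≠ 0 := by
    rw [← hred]
    exact mul_ne_zero ha hne
  have hg0 : g ≠ 0 := by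
    rintro rfl
    apply hne₁
    have h0 : inclS A U₁ = 0 := by
      rw [← heq]
      simp
    have hU : U₁ = 0 := H516.incl_injective A (by rw [h0, map_zero])
    rw [hU, map_zero]
  refine ⟨hg0, inv_mem hgF, U₂, U₁, (mem_intESub M A E).mp h₂, (mem_intESub M A E).mp h₁,
    hne₁, ?_⟩
  have hg0' : (g : LaurentSeries Qb) ≠ 0 := fun h => hg0 (Subtype.ext h)
  push_cast
  rw [← heq, ← mul_assoc, inv_mul_cancel₀ hg0', one_mul]

/-- (C5) reductions lie in the function field `F_k`. -/
theorem red_mem_fullC [NeZero M] (core : CoreData M (IsLocalRing.ResidueField A)) {g : Om M}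
    {a : LaurentSeries (IsLocalRing.ResidueField A)} (h : (g, a) ∈ redRel M A E) :
    a ∈ modularFunctionFieldFullC (IsLocalRing.ResidueField A) M := by
  obtain ⟨-, U₁, U₂, h₁, h₂, hne, -, hred⟩ := h
  have key : ∀ U : LaurentSeries A, U ∈ intESub M A E →
      redS A U ∈ modularFunctionFieldFullC (IsLocalRing.ResidueField A) M := by
    intro U hU
    obtain ⟨-, f, -, hfU⟩ := (mem_intESub M A E).mp hU
    refine H516.red_mem_of_incl_mem A (IsLocalRing.residue A) M core ?_
    rw [← hfU]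
    exact f.2
  have ha : a = redS A U₁ * (redS A U₂)⁻¹ := by
    rw [← hred, mul_assoc, mul_inv_cancel₀ hne, mul_one]
  rw [ha]
  exact mul_mem (key U₁ h₁) (inv_mem (key U₂ h₂))

/-- (R5) the reduction of `j` is `j̄`. -/
theorem jOm_mem_redRel : (jOm M, jqModC (IsLocalRing.ResidueField A)) ∈ redRel M A E := by
  have hjF : jOm M ∈ Fc M E :=
    Subfield.subset_closure (Set.mem_union_right _ ⟨1, inferInstance, one_dvd M, rfl⟩)
  have hjval : (jOm M : LaurentSeries Qb) = inclS A (jqModC A) := by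
    show coeffEmb Qb (qExpand ℚ 1 jq) = coeffMap A.subtype (jqModC A)
    rw [qExpand_one_apply, H516.coeffEmb_jq, coeffMap_jqModC]
  have hjint : jqModC A ∈ intESub M A E := by
    refine ⟨fun n => ?_, jOm M, hjF, hjval⟩
    show ((coeffMap A.subtype (jqModC A)).coeff n) ∈ E
    rw [coeffMap_jqModC, coeff_jqModC_eq_intCast]
    exact intCast_mem E _
  refine ⟨hjF, jqModC A, 1, hjint, one_mem _, ?_, ?_, ?_⟩
  · rw [map_one]; exact one_ne_zero
  · rw [map_one, mul_one, hjval]
  · rw [map_one, mul_one]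
    exact (coeffMap_jqModC (IsLocalRing.residue A)).symm

/-- (R3) an element with zero reduction is divisible by the uniformiser `w`. -/
theorem mul_inv_mem_VcSet_of_red_eq_zero {w : Om M} (hw : w ∈ Rc M A E) (hw0 : w ≠ 0)
    (hgen : ∀ r ∈ Rc M A E, r⁻¹ ∉ Rc M A E → r * w⁻¹ ∈ Rc M A E) {g : Om M}
    (h : (g, (0 : LaurentSeries (IsLocalRing.ResidueField A))) ∈ redRel M A E) :
    g * w⁻¹ ∈ VcSet M A E := by
  obtain ⟨hgF, U₁, U₂, h₁, h₂, hne, heq, hred⟩ := h
  simp only [zero_mul] at hred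
  obtain ⟨aw, ⟨hawA, hawE⟩, rfl⟩ := hw
  have haw0 : aw ≠ 0 := by
    rintro rfl
    exact hw0 (map_zero _)
  obtain ⟨hU₁E, f₁, hf₁F, hf₁U⟩ := (mem_intESub M A E).mp h₁
  have hinj : Function.Injective (algebraMap Qb (Om M)) := (algebraMap Qb (Om M)).injective
  -- every coefficient of `U₁` is divisible by `aw` in `A`
  have hdiv : ∀ n : ℤ, ((U₁.coeff n : A) : Qb) * aw⁻¹ ∈ A := by
    intro n
    by_cases hc0 : ((U₁.coeff n : A) : Qb) = 0
    · rw [hc0, zero_mul]
      exact zero_mem _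
    have hcres : IsLocalRing.residue A (U₁.coeff n) = 0 := by
      have := congrArg (fun S : LaurentSeries (IsLocalRing.ResidueField A) => S.coeff n) hred
      simpa using this.symm
    have hr : algebraMap Qb (Om M) ((U₁.coeff n : A) : Qb) ∈ Rc M A E :=
      ⟨_, ⟨(U₁.coeff n).2, hU₁E n⟩, rfl⟩
    have hrinv : (algebraMap Qb (Om M) ((U₁.coeff n : A) : Qb))⁻¹ ∉ Rc M A E := by
      rintro ⟨b, ⟨hbA, -⟩, hb⟩
      have hb' : b = ((U₁.coeff n : A) : Qb)⁻¹ := hinj (by rw [hb, map_inv₀])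
      have hunit : IsUnit (U₁.coeff n) := by
        refine isUnit_iff_exists_inv.mpr ⟨⟨b, hbA⟩, Subtype.ext ?_⟩
        show ((U₁.coeff n : A) : Qb) * b = 1
        rw [hb', mul_inv_cancel₀ hc0]
      have hmem : U₁.coeff n ∈ IsLocalRing.maximalIdeal A :=
        (IsLocalRing.residue_eq_zero_iff _).mp hcres
      exact (IsLocalRing.mem_maximalIdeal _).mp hmem hunit
    obtain ⟨b, ⟨hbA, -⟩, hb⟩ := hgen _ hr hrinv
    have hb' : b = ((U₁.coeff n : A) : Qb) * aw⁻¹ := hinj (by rw [hb, map_mul, map_inv₀])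
    rw [← hb']
    exact hbA
  -- the divided series
  let U₁' : LaurentSeries A :=
    ⟨fun n => ⟨((U₁.coeff n : A) : Qb) * aw⁻¹, hdiv n⟩,
      U₁.isPWO_support.mono (fun n hn => by
        intro h0
        apply hn
        apply Subtype.ext
        show ((U₁.coeff n : A) : Qb) * aw⁻¹ = 0
        rw [h0]
        simp)⟩
  have hwval : algebraMap Qb (LaurentSeries Qb) aw = HahnSeries.single 0 aw :=
    algebraMap_laurentSeries_eq_single Qb aw
  have hwcoe : ((algebraMap Qb (Om M) aw : Om M) : LaurentSeries Qb) =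
      algebraMap Qb (LaurentSeries Qb) aw := rfl
  have hwne : algebraMap Qb (LaurentSeries Qb) aw ≠ 0 := by
    rw [← hwcoe]
    exact fun h => hw0 (Subtype.ext h)
  have hU' : inclS A U₁' * algebraMap Qb (LaurentSeries Qb) aw = inclS A U₁ := by
    rw [hwval]
    ext n
    rw [HahnSeries.coeff_mul_single_zero]
    show ((U₁.coeff n : A) : Qb) * aw⁻¹ * aw = ((U₁.coeff n : A) : Qb)
    rw [mul_assoc, inv_mul_cancel₀ haw0, mul_one]
  have hU'' : inclS A U₁' = inclS A U₁ * (algebraMap Qb (LaurentSeries Qb) aw)⁻¹ := by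
    rw [← hU', mul_assoc, mul_inv_cancel₀ hwne, mul_one]
  have hwF : algebraMap Qb (Om M) aw ∈ Fc M E :=
    Subfield.subset_closure (Set.mem_union_left _ ⟨aw, hawE, rfl⟩)
  have hU₁' : IsIntE M A E U₁' := by
    refine ⟨fun n => ?_, f₁ * (algebraMap Qb (Om M) aw)⁻¹, mul_mem hf₁F (inv_mem hwF), ?_⟩
    · show ((U₁.coeff n : A) : Qb) * aw⁻¹ ∈ E
      exact mul_mem (hU₁E n) (inv_mem hawE)
    · show (f₁ : LaurentSeries Qb) *
        (((algebraMap Qb (Om M) aw : Om M) : LaurentSeries Qb))⁻¹ = inclS A U₁'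
      rw [hwcoe, hf₁U, hU'']
  refine ⟨mul_mem hgF (inv_mem hwF), U₁', U₂, hU₁', (mem_intESub M A E).mp h₂, hne, ?_⟩
  show (g : LaurentSeries Qb) * (((algebraMap Qb (Om M) aw : Om M) : LaurentSeries Qb))⁻¹ *
    inclS A U₂ = inclS A U₁'
  rw [hwcoe, hU'', ← heq]
  ring

end RedRel

/-! ### (C6) the field `separable` at the concrete objects -/

section Main

variable (M : ℕ) [NeZero M] {ℓ : ℕ} [hℓ : Fact ℓ.Prime]

/-- **G-SEP at the concrete objects, coordinate `j`.**  For every subring `V` with underlying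
set `VcSet M A E` and every `w ∈ Rc M A E`, `w ≠ 0`, generating the maximal ideal of `Rc M A E`
(fields `w_mem`, `w_ne_zero`, `w_gen` of `PartR`): the field `separable` of `Alg.GoodModel`.
No hypothesis on `E`.  The polynomial even has coefficients in `ℤ[j]`. -/
theorem separable_jOm (hℓM : ¬ ℓ ∣ M) (A : ValuationSubring Qb) (hA : A.LiesOverPrime ℓ)
    (E : IntermediateField ℚ Qb) (V : Subring (Om M)) (hV : (V : Set (Om M)) = VcSet M A E)
    (w : Om M) (hw : w ∈ Rc M A E) (hw0 : w ≠ 0)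
    (hgen : ∀ r ∈ Rc M A E, r⁻¹ ∉ Rc M A E → r * w⁻¹ ∈ Rc M A E) :
    ∀ f ∈ V, ∃ P : Polynomial (Om M), (∀ i, P.coeff i ∈ Alg.polyRing (Rc M A E) (jOm M)) ∧
      P.eval f * w⁻¹ ∈ V ∧ (Polynomial.derivative P).eval f ≠ 0 ∧
      ((Polynomial.derivative P).eval f)⁻¹ ∈ V := by
  intro f hf
  have hmemV : ∀ g : Om M, g ∈ V ↔ g ∈ VcSet M A E := fun g => by
    rw [← hV]
    rfl
  have hchar : CharP (IsLocalRing.ResidueField A) ℓ := H516.charP_residue A hA
  let _ : Algebra (ZMod ℓ) (IsLocalRing.ResidueField A) := ZMod.algebra _ ℓ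
  have core := H516.coreData_residue M hℓM A hA
  obtain ⟨a, ha⟩ := exists_red_of_mem_VcSet M A E ((hmemV f).mp hf)
  have halg := isAlgebraic_of_mem_fullC ℓ core (red_mem_fullC M A E core ha)
  have hv : HahnSeries.addVal ℤ (IsLocalRing.ResidueField A)
      (jqModC (IsLocalRing.ResidueField A)) = ((-1 : ℤ) : WithTop ℤ) := by
    rw [HahnSeries.addVal_apply_of_ne (jqModC_ne_zero_of_nontrivial _), order_jqModC]
  exact exists_poly_of_graph_sep ℓ (HahnSeries.addVal ℤ _) (redRel M A E) V (Rc M A E) w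
    (jOm M) f (jqModC _) a (jOm_mem_redRel M A E) ha
    (fun g hg => (hmemV _).mpr (mul_inv_mem_VcSet_of_red_eq_zero M A E hw hw0 hgen hg))
    (fun g b hg hb => ⟨(inv_mem_VcSet_of_red_ne_zero M A E hg hb).1,
      (hmemV _).mpr (inv_mem_VcSet_of_red_ne_zero M A E hg hb).2⟩)
    (-1) hv (not_prime_dvd_neg_one ℓ hℓ.out) halg

end Main

end Fermat.Agent.S18.H264

end
end
-- ===== PACK-END S18/H264/SepConcrete.lean

-- ===== PACK-BEGIN S21/HodgeAssembly.lean
section





/-!
# S21 — assembly of D' (Hodge existence) from the interface pieces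
-/

set_option autoImplicit false

open ModularCurve ModularCurve.Period UpperHalfPlane CongruenceSubgroup Filter Topology
open MeasureTheory
open scoped MatrixGroups ComplexConjugate ContDiff

namespace Fermat.Agent.S21

/-- The integrand `∇u · ∇η` is continuous with compact support. -/
theorem asm_integrable_pair {u : ℂ → ℝ} (hu : ContDiffOn ℝ 1 u Uhp) {η : ℂ → ℝ}
    (hη : ContDiff ℝ ∞ η) (hc : HasCompactSupport η) (hs : tsupport η ⊆ Uhp) (a b : ℂ) :
    Integrable (fun z => fderiv ℝ u z a * fderiv ℝ η z b) := by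
  have hcont : Continuous (fun z => fderiv ℝ u z a * fderiv ℝ η z b) := by
    rw [continuous_iff_continuousAt]
    intro z
    by_cases hz : z ∈ tsupport η
    · have hzU : z ∈ Uhp := hs hz
      have h1 : ContinuousOn (fderiv ℝ u) Uhp :=
        hu.continuousOn_fderiv_of_isOpen isOpen_Uhp le_rfl
      have h2 : ContinuousAt (fderiv ℝ u) z := h1.continuousAt (isOpen_Uhp.mem_nhds hzU)
      have h3 : ContinuousAt (fun z => fderiv ℝ u z a) z :=
        (ContinuousLinearMap.apply ℝ ℝ a).continuous.continuousAt.comp h2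
      have h4 : Continuous (fun z => fderiv ℝ η z b) :=
        (ContinuousLinearMap.apply ℝ ℝ b).continuous.comp
          (hη.continuous_fderiv (by norm_num))
      exact h3.mul h4.continuousAt
    · have hopen : IsOpen (tsupport η)ᶜ := (isClosed_tsupport η).isOpen_compl
      have : (fun z => fderiv ℝ u z a * fderiv ℝ η z b) =ᶠ[𝓝 z] fun _ => 0 := by
        filter_upwards [hopen.mem_nhds hz] with w hw
        rw [fderiv_of_notMem_tsupport ℝ hw]
        simp
      exact (continuousAt_const).congr this.symm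
  refine hcont.integrable_of_hasCompactSupport ?_
  refine hc.mono' ?_
  intro z hz
  by_contra hzn
  apply hz
  show fderiv ℝ u z a * fderiv ℝ η z b = 0
  rw [fderiv_of_notMem_tsupport ℝ hzn]
  simp

/-- The hypothesis `hweak` of the Weyl lemma for `g n = dz (u n)`. -/
theorem asm_weak {u : ℕ → ℂ → ℝ} (hu : ∀ n, ContDiffOn ℝ ∞ (u n) Uhp)
    (hw : ∀ η : ℂ → ℝ, ContDiff ℝ ∞ η → HasCompactSupport η → tsupport η ⊆ Uhp →
          Tendsto (fun n => ∫ z, (fderiv ℝ (u n) z 1 * fderiv ℝ η z 1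
              + fderiv ℝ (u n) z Complex.I * fderiv ℝ η z Complex.I)) atTop (𝓝 0))
    (η : ℂ → ℝ) (hη : ContDiff ℝ ∞ η) (hc : HasCompactSupport η) (hs : tsupport η ⊆ Uhp) :
    Tendsto (fun n => ∫ z, dz (u n) z *
          (((fderiv ℝ η z 1 : ℝ) : ℂ) + Complex.I * ((fderiv ℝ η z Complex.I : ℝ) : ℂ)))
          atTop (𝓝 0) := by
  have key : ∀ n, ∫ z, dz (u n) z *
          (((fderiv ℝ η z 1 : ℝ) : ℂ) + Complex.I * ((fderiv ℝ η z Complex.I : ℝ) : ℂ))
      = ((∫ z, (fderiv ℝ (u n) z 1 * fderiv ℝ η z 1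
              + fderiv ℝ (u n) z Complex.I * fderiv ℝ η z Complex.I) : ℝ) : ℂ) := by
    intro n
    have hu1 : ContDiffOn ℝ 1 (u n) Uhp := (hu n).of_le (by norm_num)
    have hu2 : ContDiffOn ℝ 2 (u n) Uhp := (hu n).of_le (by norm_cast)
    have i11 := asm_integrable_pair hu1 hη hc hs 1 1
    have iII := asm_integrable_pair hu1 hη hc hs Complex.I Complex.I
    have i1I := asm_integrable_pair hu1 hη hc hs 1 Complex.I
    have iI1 := asm_integrable_pair hu1 hη hc hs Complex.I 1
    have hcurl := integral_curl_eq_zero (u n) hu2 η hη hc hs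
    have hpt : ∀ z, dz (u n) z *
          (((fderiv ℝ η z 1 : ℝ) : ℂ) + Complex.I * ((fderiv ℝ η z Complex.I : ℝ) : ℂ))
        = (((fderiv ℝ (u n) z 1 * fderiv ℝ η z 1
              + fderiv ℝ (u n) z Complex.I * fderiv ℝ η z Complex.I : ℝ)) : ℂ)
          + (((fderiv ℝ (u n) z 1 * fderiv ℝ η z Complex.I
              - fderiv ℝ (u n) z Complex.I * fderiv ℝ η z 1 : ℝ)) : ℂ) * Complex.I := by
      intro z
      unfold dz
      push_cast
      ring_nf
      rw [Complex.I_sq]
      ring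
    simp_rw [hpt]
    rw [integral_add, integral_mul_const]
    · rw [integral_complex_ofReal, integral_complex_ofReal, hcurl]
      simp
    · exact (i11.add iII).ofReal
    · exact ((i1I.sub iI1).ofReal).mul_const _
  simp_rw [key]
  have := (Complex.continuous_ofReal.tendsto (0 : ℝ)).comp (hw η hη hc hs)
  exact this

end Fermat.Agent.S21

namespace Fermat.Agent.S21

/-- `L²` convergence on compacts transfers under Möbius maps. -/
theorem asm_tendsto_mob {g : ℕ → ℂ → ℂ} {f : ℂ → ℂ}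
    (hconv : ∀ K : Set ℂ, IsCompact K → K ⊆ Uhp →
      Tendsto (fun n => ∫ z in K, ‖g n z - f z‖ ^ 2) atTop (𝓝 0))
    (δ : SL(2, ℤ)) (K : Set ℂ) (hK : IsCompact K) (hKU : K ⊆ Uhp) :
    Tendsto (fun n => ∫ z in K, ‖g n (mob δ z) - f (mob δ z)‖ ^ 2 / ‖cd δ z‖ ^ 4)
      atTop (𝓝 0) := by
  have h1 : IsCompact (mob δ '' K) := hK.image_of_continuousOn ((continuousOn_mob δ).mono hKU)
  have h2 : mob δ '' K ⊆ Uhp := by
    rintro _ ⟨z, -, rfl⟩
    exact mob_mem_Uhp δ z
  have h3 := hconv _ h1 h2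
  have h4 : ∀ n, ∫ z in K, ‖g n (mob δ z) - f (mob δ z)‖ ^ 2 / ‖cd δ z‖ ^ 4
      = ∫ w in mob δ '' K, ‖g n w - f w‖ ^ 2 := fun n =>
    setIntegral_mob δ K hK.measurableSet hKU (fun w => ‖g n w - f w‖ ^ 2)
  simp_rw [h4]
  exact h3

theorem asm_integrableOn {F : ℂ → ℝ} {K : Set ℂ} (hK : IsCompact K) (hF : ContinuousOn F K) :
    IntegrableOn F K := hF.integrableOn_compact hK

/-- If a continuous nonnegative function has arbitrarily small integral on every small closed
ball, it vanishes. -/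
theorem asm_eq_zero_of_integral_le {D : ℂ → ℝ} (hD : ContinuousOn D Uhp) (hpos : ∀ z, 0 ≤ D z)
    (h : ∀ K : Set ℂ, IsCompact K → K ⊆ Uhp → ∫ z in K, D z ≤ 0) {z₀ : ℂ} (hz₀ : z₀ ∈ Uhp) :
    D z₀ = 0 := by
  by_contra hne
  have hpos0 : 0 < D z₀ := lt_of_le_of_ne (hpos z₀) (Ne.symm hne)
  -- a small ball where `D ≥ D z₀ / 2`
  have hopen : {z | z ∈ Uhp ∧ D z₀ / 2 < D z} ∈ 𝓝 z₀ := by
    have h1 : Uhp ∈ 𝓝 z₀ := isOpen_Uhp.mem_nhds hz₀
    have h2 : ∀ᶠ z in 𝓝 z₀, D z₀ / 2 < D z := by
      have := (hD.continuousAt h1).eventually (lt_mem_nhds (show D z₀ / 2 < D z₀ by linarith))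
      exact this
    filter_upwards [h1, h2] with z hz1 hz2 using ⟨hz1, hz2⟩
  obtain ⟨r, hr, hball⟩ := Metric.nhds_basis_closedBall.mem_iff.mp hopen
  have hKU : Metric.closedBall z₀ r ⊆ Uhp := fun z hz => (hball hz).1
  have hK : IsCompact (Metric.closedBall z₀ r) := isCompact_closedBall z₀ r
  have hint := h _ hK hKU
  have hvol : 0 < (volume (Metric.closedBall z₀ r)).toReal := by
    refine ENNReal.toReal_pos ?_ ?_
    · exact (Metric.measure_closedBall_pos volume z₀ hr).ne'
    · exact hK.measure_lt_top.ne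
  have hge : (D z₀ / 2) * (volume (Metric.closedBall z₀ r)).toReal
      ≤ ∫ z in Metric.closedBall z₀ r, D z := by
    have hc : ∫ _z in Metric.closedBall z₀ r, (D z₀ / 2) = (D z₀ / 2) * (volume (Metric.closedBall z₀ r)).toReal := by
      rw [setIntegral_const]
      simp [Measure.real, mul_comm]
    rw [← hc]
    refine setIntegral_mono_on ?_ ?_ hK.measurableSet ?_
    · exact (continuousOn_const).integrableOn_compact hK
    · exact (hD.mono hKU).integrableOn_compact hK
    · intro z hz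
      exact (hball hz).2.le
  have : 0 < (D z₀ / 2) * (volume (Metric.closedBall z₀ r)).toReal := by positivity
  linarith

end Fermat.Agent.S21

namespace Fermat.Agent.S21

theorem asm_cont_comp_mob {E : Type*} [TopologicalSpace E] {h : ℂ → E} (hh : ContinuousOn h Uhp)
    (δ : SL(2, ℤ)) : ContinuousOn (fun z => h (mob δ z)) Uhp :=
  hh.comp (continuousOn_mob δ) fun z _ => mob_mem_Uhp δ z

theorem asm_norm_sq_add_le (a b : ℂ) : ‖a + b‖ ^ 2 ≤ 2 * ‖a‖ ^ 2 + 2 * ‖b‖ ^ 2 := by
  have h1 : ‖a + b‖ ≤ ‖a‖ + ‖b‖ := norm_add_le a b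
  have h2 : ‖a + b‖ ^ 2 ≤ (‖a‖ + ‖b‖) ^ 2 := by
    apply pow_le_pow_left₀ (norm_nonneg _) h1
  nlinarith [sq_nonneg (‖a‖ - ‖b‖)]

/-- weight-2 invariance of the limit `f`. -/
theorem asm_f_inv {g : ℕ → ℂ → ℂ} {f : ℂ → ℂ} (hg : ∀ n, ContinuousOn (g n) Uhp)
    (hf : ContinuousOn f Uhp)
    (hconv : ∀ K : Set ℂ, IsCompact K → K ⊆ Uhp →
      Tendsto (fun n => ∫ z in K, ‖g n z - f z‖ ^ 2) atTop (𝓝 0))
    (γ : SL(2, ℤ)) (hginv : ∀ n, ∀ z ∈ Uhp, g n (mob γ z) = (cd γ z) ^ 2 * g n z)
    {z₀ : ℂ} (hz₀ : z₀ ∈ Uhp) : f (mob γ z₀) = (cd γ z₀) ^ 2 * f z₀ := by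
  set D : ℂ → ℝ := fun z => ‖f (mob γ z) - (cd γ z) ^ 2 * f z‖ ^ 2 / ‖cd γ z‖ ^ 4 with hD
  have hcdcont : ContinuousOn (fun z => ‖cd γ z‖ ^ 4) Uhp :=
    ((continuous_cd γ).norm.pow 4).continuousOn
  have hcdpos : ∀ z ∈ Uhp, ‖cd γ z‖ ^ 4 ≠ 0 := fun z hz =>
    pow_ne_zero 4 (norm_ne_zero_iff.mpr (cd_ne_zero γ hz))
  have hDcont : ContinuousOn D Uhp := by
    refine ContinuousOn.div ?_ hcdcont hcdpos
    refine (ContinuousOn.norm ?_).pow 2
    exact (asm_cont_comp_mob hf γ).sub (((continuous_cd γ).pow 2).continuousOn.mul hf)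
  have hDpos : ∀ z, 0 ≤ D z := fun z => by positivity
  have key : ∀ K : Set ℂ, IsCompact K → K ⊆ Uhp → ∫ z in K, D z ≤ 0 := by
    intro K hK hKU
    have ha := asm_tendsto_mob hconv γ K hK hKU
    have hb := hconv K hK hKU
    have hlim : Tendsto (fun n => 2 * (∫ z in K, ‖g n (mob γ z) - f (mob γ z)‖ ^ 2 / ‖cd γ z‖ ^ 4)
        + 2 * ∫ z in K, ‖g n z - f z‖ ^ 2) atTop (𝓝 0) := by
      have := (ha.const_mul 2).add (hb.const_mul 2)
      simpa using this
    refine ge_of_tendsto' hlim fun n => ?_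
    have hi1 : IntegrableOn (fun z => ‖g n (mob γ z) - f (mob γ z)‖ ^ 2 / ‖cd γ z‖ ^ 4) K := by
      refine ContinuousOn.integrableOn_compact hK (ContinuousOn.mono ?_ hKU)
      refine ContinuousOn.div ?_ hcdcont hcdpos
      exact (((asm_cont_comp_mob (hg n) γ).sub (asm_cont_comp_mob hf γ)).norm).pow 2
    have hi2 : IntegrableOn (fun z => ‖g n z - f z‖ ^ 2) K :=
      ContinuousOn.integrableOn_compact hK ((((hg n).sub hf).norm.pow 2).mono hKU)
    rw [← integral_const_mul, ← integral_const_mul, ← integral_add (hi1.const_mul 2) (hi2.const_mul 2)]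
    refine setIntegral_mono_on ((hDcont.mono hKU).integrableOn_compact hK)
      ((hi1.const_mul 2).add (hi2.const_mul 2)) hK.measurableSet fun z hz => ?_
    have hzU := hKU hz
    have hne := cd_ne_zero γ hzU
    have hpos : 0 < ‖cd γ z‖ ^ 4 := by positivity
    have e : f (mob γ z) - (cd γ z) ^ 2 * f z
        = (f (mob γ z) - g n (mob γ z)) + (cd γ z) ^ 2 * (g n z - f z) := by
      rw [hginv n z hzU]; ring
    have h1 := asm_norm_sq_add_le (f (mob γ z) - g n (mob γ z)) ((cd γ z) ^ 2 * (g n z - f z))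
    have h2 : ‖(cd γ z) ^ 2 * (g n z - f z)‖ ^ 2 = ‖cd γ z‖ ^ 4 * ‖g n z - f z‖ ^ 2 := by
      rw [norm_mul, norm_pow]; ring
    have h3 : ‖f (mob γ z) - g n (mob γ z)‖ = ‖g n (mob γ z) - f (mob γ z)‖ := norm_sub_rev _ _
    show D z ≤ _
    simp only [hD]
    rw [e, div_le_iff₀ hpos]
    rw [h2, h3] at h1
    have : (2 * (‖g n (mob γ z) - f (mob γ z)‖ ^ 2 / ‖cd γ z‖ ^ 4) + 2 * ‖g n z - f z‖ ^ 2)
        * ‖cd γ z‖ ^ 4 = 2 * ‖g n (mob γ z) - f (mob γ z)‖ ^ 2
          + 2 * (‖cd γ z‖ ^ 4 * ‖g n z - f z‖ ^ 2) := by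
      field_simp
    rw [this]
    exact h1
  have hzero := asm_eq_zero_of_integral_le hDcont hDpos key hz₀
  have hne := cd_ne_zero γ hz₀
  have hpos : 0 < ‖cd γ z₀‖ ^ 4 := by positivity
  simp only [hD] at hzero
  rw [div_eq_zero_iff] at hzero
  rcases hzero with h | h
  · have := pow_eq_zero_iff (two_ne_zero) |>.mp h
    exact sub_eq_zero.mp (norm_eq_zero.mp this)
  · exact absurd h hpos.ne'

/-- The cusp-strip energy bound passes to the limit. -/
theorem asm_f_cusp {g : ℕ → ℂ → ℂ} {f : ℂ → ℂ} (hg : ∀ n, ContinuousOn (g n) Uhp)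
    (hf : ContinuousOn f Uhp)
    (hconv : ∀ K : Set ℂ, IsCompact K → K ⊆ Uhp →
      Tendsto (fun n => ∫ z in K, ‖g n z - f z‖ ^ 2) atTop (𝓝 0))
    (δ : SL(2, ℤ)) (C : ℝ) (Y : ℝ)
    (hC : ∀ n, ∫ z in strip Y, ‖g n (mob δ z)‖ ^ 2 / ‖cd δ z‖ ^ 4 ≤ C) :
    ∫ z in strip Y, ‖f (mob δ z)‖ ^ 2 / ‖cd δ z‖ ^ 4 ≤ C := by
  have hK := isCompact_strip Y
  have hKU := strip_subset_Uhp Y
  have hcdcont : ContinuousOn (fun z => ‖cd δ z‖ ^ 4) Uhp :=
    ((continuous_cd δ).norm.pow 4).continuousOn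
  have hcdpos : ∀ z ∈ Uhp, ‖cd δ z‖ ^ 4 ≠ 0 := fun z hz =>
    pow_ne_zero 4 (norm_ne_zero_iff.mpr (cd_ne_zero δ hz))
  have hlim := asm_tendsto_mob hconv δ (strip Y) hK hKU
  -- for every `ε > 0`: `b ≤ (1+ε) C + (1+1/ε) e_n`
  have hC0 : 0 ≤ C := by
    refine le_trans ?_ (hC 0)
    exact integral_nonneg fun z => by positivity
  refine le_of_forall_pos_le_add fun ε hε => ?_
  -- choose t with t * C ≤ ε
  obtain ⟨t, ht, htC⟩ : ∃ t : ℝ, 0 < t ∧ t * C ≤ ε := by
    refine ⟨ε / (C + 1), by positivity, ?_⟩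
    rw [div_mul_eq_mul_div, div_le_iff₀ (by positivity)]
    nlinarith
  have hlim2 : Tendsto (fun n => (1 + t) * C + (1 + 1 / t) *
      ∫ z in strip Y, ‖g n (mob δ z) - f (mob δ z)‖ ^ 2 / ‖cd δ z‖ ^ 4) atTop
      (𝓝 ((1 + t) * C + (1 + 1 / t) * 0)) :=
    tendsto_const_nhds.add (hlim.const_mul _)
  have hle : ∫ z in strip Y, ‖f (mob δ z)‖ ^ 2 / ‖cd δ z‖ ^ 4 ≤ (1 + t) * C + (1 + 1 / t) * 0 := by
    refine ge_of_tendsto' hlim2 fun n => ?_
    have hi0 : IntegrableOn (fun z => ‖f (mob δ z)‖ ^ 2 / ‖cd δ z‖ ^ 4) (strip Y) := by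
      refine ContinuousOn.integrableOn_compact hK (ContinuousOn.mono ?_ hKU)
      exact ContinuousOn.div ((asm_cont_comp_mob hf δ).norm.pow 2) hcdcont hcdpos
    have hi1 : IntegrableOn (fun z => ‖g n (mob δ z)‖ ^ 2 / ‖cd δ z‖ ^ 4) (strip Y) := by
      refine ContinuousOn.integrableOn_compact hK (ContinuousOn.mono ?_ hKU)
      exact ContinuousOn.div ((asm_cont_comp_mob (hg n) δ).norm.pow 2) hcdcont hcdpos
    have hi2 : IntegrableOn (fun z => ‖g n (mob δ z) - f (mob δ z)‖ ^ 2 / ‖cd δ z‖ ^ 4)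
        (strip Y) := by
      refine ContinuousOn.integrableOn_compact hK (ContinuousOn.mono ?_ hKU)
      refine ContinuousOn.div ?_ hcdcont hcdpos
      exact (((asm_cont_comp_mob (hg n) δ).sub (asm_cont_comp_mob hf δ)).norm).pow 2
    have hmono : ∫ z in strip Y, ‖f (mob δ z)‖ ^ 2 / ‖cd δ z‖ ^ 4
        ≤ ∫ z in strip Y, ((1 + t) * (‖g n (mob δ z)‖ ^ 2 / ‖cd δ z‖ ^ 4)
          + (1 + 1 / t) * (‖g n (mob δ z) - f (mob δ z)‖ ^ 2 / ‖cd δ z‖ ^ 4)) := by
      refine setIntegral_mono_on hi0 ((hi1.const_mul _).add (hi2.const_mul _))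
        hK.measurableSet fun z hz => ?_
      have hzU := hKU hz
      have hne := cd_ne_zero δ hzU
      have hpos : 0 < ‖cd δ z‖ ^ 4 := by positivity
      have hpt : ‖f (mob δ z)‖ ^ 2 ≤ (1 + t) * ‖g n (mob δ z)‖ ^ 2
          + (1 + 1 / t) * ‖g n (mob δ z) - f (mob δ z)‖ ^ 2 := by
        set a := ‖g n (mob δ z)‖
        set b := ‖g n (mob δ z) - f (mob δ z)‖
        have h1 : ‖f (mob δ z)‖ ≤ a + b := by
          have : f (mob δ z) = g n (mob δ z) - (g n (mob δ z) - f (mob δ z)) := by ring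
          calc ‖f (mob δ z)‖ = ‖g n (mob δ z) - (g n (mob δ z) - f (mob δ z))‖ := by rw [← this]
            _ ≤ a + b := norm_sub_le _ _
        have ha : 0 ≤ a := norm_nonneg _
        have hb : 0 ≤ b := norm_nonneg _
        have h2 : ‖f (mob δ z)‖ ^ 2 ≤ (a + b) ^ 2 := pow_le_pow_left₀ (norm_nonneg _) h1 2
        have h3 : 2 * a * b ≤ t * a ^ 2 + (1 / t) * b ^ 2 := by
          have := sq_nonneg (t * a - b)
          have e : t * a ^ 2 + (1 / t) * b ^ 2 - 2 * a * b = (t * a - b) ^ 2 / t := by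
            field_simp
            ring
          have : 0 ≤ (t * a - b) ^ 2 / t := by positivity
          linarith
        nlinarith
      have : (1 + t) * (‖g n (mob δ z)‖ ^ 2 / ‖cd δ z‖ ^ 4)
          + (1 + 1 / t) * (‖g n (mob δ z) - f (mob δ z)‖ ^ 2 / ‖cd δ z‖ ^ 4)
          = ((1 + t) * ‖g n (mob δ z)‖ ^ 2
              + (1 + 1 / t) * ‖g n (mob δ z) - f (mob δ z)‖ ^ 2) / ‖cd δ z‖ ^ 4 := by
        ring
      rw [this]
      exact div_le_div_of_nonneg_right hpt hpos.le
    rw [integral_add (hi1.const_mul _) (hi2.const_mul _), integral_const_mul,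
      integral_const_mul] at hmono
    have := hC n
    have h1t : 0 ≤ 1 + t := by linarith
    nlinarith [mul_le_mul_of_nonneg_left this h1t]
  calc ∫ z in strip Y, ‖f (mob δ z)‖ ^ 2 / ‖cd δ z‖ ^ 4 ≤ (1 + t) * C + (1 + 1 / t) * 0 := hle
    _ = C + t * C := by ring
    _ ≤ C + ε := by linarith

end Fermat.Agent.S21

namespace Fermat.Agent.S21

/-- **D'** (Hodge existence): every real parabolic homomorphism is the real part of the period
homomorphism of a cusp form. -/
theorem exists_cuspForm_re_period_eq (N : ℕ) [NeZero N] (φ : Additive (Gamma0 N) →+ ℝ)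
    (hφ : IsParabolicHom (Gamma0 N) φ) :
    ∃ (f : CuspForm (Gamma0 N) 2) (F : ℍ → ℂ), HasEquivariantPrimitive N f F ∧
      ∀ γ : Gamma0 N,
        (F ((γ : SL(2, ℤ)) • UpperHalfPlane.I) - F UpperHalfPlane.I).re
          = φ (Additive.ofMul γ) := by
  obtain ⟨u, hu_smooth, hu_per, hu_cauchy, hu_weak, hu_cusp⟩ :=
    exists_minimizing_sequence N φ hφ
  have hu1 : ∀ n, ContDiffOn ℝ 1 (u n) Uhp := fun n => (hu_smooth n).of_le (by norm_cast)
  have hg_cont : ∀ n, ContinuousOn (dz (u n)) Uhp := fun n => continuousOn_dz (hu1 n)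
  obtain ⟨f, hf_diff, hf_conv⟩ :=
    weyl_lemma (fun n => dz (u n)) hg_cont hu_cauchy (asm_weak hu_smooth hu_weak)
  have hf_cont : ContinuousOn f Uhp := hf_diff.continuousOn
  have hf_inv : ∀ (γ : Gamma0 N) (z : ℍ),
      f ↑((γ : SL(2, ℤ)) • z) = (cd (γ : SL(2, ℤ)) z) ^ 2 * f ↑z := by
    intro γ z
    have := asm_f_inv hg_cont hf_cont hf_conv (γ : SL(2, ℤ))
      (fun n w hw => asm_dz_inv (hu1 n) _ _ (hu_per n γ) hw) (coe_mem_Uhp z)
    rwa [mob_coe] at this
  have hf_cusp : ∀ δ : SL(2, ℤ), ∃ C : ℝ, ∀ Y : ℝ,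
      ∫ z in strip Y, ‖f (mob δ z)‖ ^ 2 / ‖cd δ z‖ ^ 4 ≤ C := by
    intro δ
    obtain ⟨C, hC⟩ := hu_cusp δ
    exact ⟨C, fun Y => asm_f_cusp hg_cont hf_cont hf_conv δ C Y (fun n => hC n Y)⟩
  obtain ⟨fc, hfc⟩ := exists_cuspForm_of_energy N f hf_diff hf_inv hf_cusp
  obtain ⟨F, hF⟩ := exists_primitive N fc
  refine ⟨fc, F, hF, fun γ => ?_⟩
  -- periods
  set v : ℕ → ℂ → ℝ := fun n z => u n z - (F (ofComplex z)).re with hv
  have hQ : ∀ z ∈ Uhp, HasDerivAt (F ∘ ofComplex) (f z) z := by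
    intro z hz
    have := hF.1 ⟨z, hz⟩
    rw [hfc] at this
    exact this
  have hQdiff : DifferentiableOn ℂ (F ∘ ofComplex) Uhp := fun z hz =>
    (hQ z hz).differentiableAt.differentiableWithinAt
  have hQsmooth : ContDiffOn ℝ 1 (fun z => (F (ofComplex z)).re) Uhp := by
    have h1 : ContDiffOn ℂ 1 (F ∘ ofComplex) Uhp := hQdiff.contDiffOn isOpen_Uhp
    have h2 : ContDiffOn ℝ 1 (F ∘ ofComplex) Uhp := h1.restrict_scalars ℝ
    exact Complex.reCLM.contDiff.comp_contDiffOn h2
  have hv1 : ∀ n, ContDiffOn ℝ 1 (v n) Uhp := fun n => (hu1 n).sub hQsmooth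
  have hdzv : ∀ n, ∀ z ∈ Uhp, dz (v n) z = dz (u n) z - f z := by
    intro n z hz
    have hU := isOpen_Uhp.mem_nhds hz
    have d1 : DifferentiableAt ℝ (u n) z :=
      ((hu1 n).differentiableOn one_ne_zero).differentiableAt hU
    have d2 : DifferentiableAt ℝ (fun z => (F (ofComplex z)).re) z :=
      (hQsmooth.differentiableOn one_ne_zero).differentiableAt hU
    have e := dz_sub d1 d2
    have e2 : dz (fun z => (F (ofComplex z)).re) z = f z := dz_re_of_hasDerivAt (hQ z hz)
    rw [e2] at e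
    exact e
  have hconv : ∀ K : Set ℂ, IsCompact K → K ⊆ Uhp →
      Tendsto (fun n => ∫ z in K, ‖dz (v n) z‖ ^ 2) atTop (𝓝 0) := by
    intro K hK hKU
    refine (hf_conv K hK hKU).congr fun n => ?_
    refine setIntegral_congr_fun hK.measurableSet fun z hz => ?_
    show ‖dz (u n) z - f z‖ ^ 2 = ‖dz (v n) z‖ ^ 2
    rw [hdzv n z (hKU hz)]
  have hper : ∀ n (z : ℍ), v n ↑((γ : SL(2, ℤ)) • z) = v n ↑z + (φ (Additive.ofMul γ)
      - (F ((γ : SL(2, ℤ)) • UpperHalfPlane.I) - F UpperHalfPlane.I).re) := by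
    intro n z
    have h1 := hu_per n γ z
    have h2 := hF.2.2.1.sub_eq_period γ z
    have h3 := hF.2.2.1.sub_eq_period γ UpperHalfPlane.I
    simp only [hv, ofComplex_apply]
    have : F ((γ : SL(2, ℤ)) • z)
        = F z + (F ((γ : SL(2, ℤ)) • UpperHalfPlane.I) - F UpperHalfPlane.I) := by
      rw [h3, ← h2]; ring
    rw [h1, this, Complex.add_re]
    ring
  have := period_eq_zero_of_tendsto v hv1 hconv (γ : SL(2, ℤ)) _ hper
  linarith

end Fermat.Agent.S21

end
-- ===== PACK-END S21/HodgeAssembly.lean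

-- ===== PACK-BEGIN S21/Glue.lean
section



/-!
# S21 — glue: the frozen statement from the six interface theorems
-/

set_option autoImplicit false

open ModularCurve ModularCurve.Period UpperHalfPlane CongruenceSubgroup Filter Topology
open scoped MatrixGroups ComplexConjugate

namespace Fermat.Agent.S21

variable {N : ℕ}

theorem hasEquivariantPrimitive_add {f g : CuspForm (Gamma0 N) 2} {F G : ℍ → ℂ}
    (hF : HasEquivariantPrimitive N f F) (hG : HasEquivariantPrimitive N g G) :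
    HasEquivariantPrimitive N (f + g) (F + G) := by
  refine ⟨fun τ => ?_, ?_, fun γ => ?_, fun δ => ?_⟩
  · have := (hF.1 τ).add (hG.1 τ)
    exact this
  · have := hF.2.1.add hG.2.1
    rw [add_zero] at this
    exact this
  · obtain ⟨c, hc⟩ := hF.2.2.1 γ
    obtain ⟨d, hd⟩ := hG.2.2.1 γ
    refine ⟨c + d, fun z => ?_⟩
    have h1 := hc z
    have h2 := hd z
    simp only [Pi.add_apply]
    linear_combination h1 + h2
  · obtain ⟨L, hL⟩ := hF.2.2.2 δ
    obtain ⟨M, hM⟩ := hG.2.2.2 δ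
    exact ⟨L + M, hL.add hM⟩

theorem hasEquivariantPrimitive_smul (c : ℂ) {f : CuspForm (Gamma0 N) 2} {F : ℍ → ℂ}
    (hF : HasEquivariantPrimitive N f F) :
    HasEquivariantPrimitive N (c • f) (c • F) := by
  refine ⟨fun τ => ?_, ?_, fun γ => ?_, fun δ => ?_⟩
  · have := (hF.1 τ).const_smul c
    exact this
  · have := hF.2.1.const_smul c
    rw [smul_zero] at this
    exact this
  · obtain ⟨d, hd⟩ := hF.2.2.1 γ
    refine ⟨c * d, fun z => ?_⟩
    have h1 := hd z
    simp only [Pi.smul_apply, smul_eq_mul]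
    linear_combination c * h1
  · obtain ⟨L, hL⟩ := hF.2.2.2 δ
    exact ⟨c • L, hL.const_smul c⟩

theorem periodMap_eq_of_primitive {f : CuspForm (Gamma0 N) 2} {F : ℍ → ℂ}
    (hF : HasEquivariantPrimitive N f F) :
    periodMap N f = hF.2.2.1.periodHom := by
  obtain ⟨F₀, h₀, h⟩ := periodMap_def N f hF
  have hFF : F₀ = F := primitive_unique N f h₀ hF
  subst hFF
  exact h

theorem periodMap_apply {f : CuspForm (Gamma0 N) 2} {F : ℍ → ℂ}
    (hF : HasEquivariantPrimitive N f F) (γ : Gamma0 N) :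
    periodMap N f (Additive.ofMul γ)
      = F ((γ : SL(2, ℤ)) • UpperHalfPlane.I) - F UpperHalfPlane.I := by
  rw [periodMap_eq_of_primitive hF]
  rfl

variable (N) in
theorem existsPeriodMapLinear [NeZero N] : ExistsPeriodMapLinear N := by
  refine ⟨{ toFun := periodMap N, map_add' := fun f g => ?_, map_smul' := fun c f => ?_ },
    fun f => rfl⟩
  · obtain ⟨F, hF⟩ := exists_primitive N f
    obtain ⟨G, hG⟩ := exists_primitive N g
    refine AddMonoidHom.ext fun γ => ?_
    obtain ⟨γ, rfl⟩ := Additive.ofMul.surjective γ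
    rw [AddMonoidHom.add_apply, periodMap_apply hF, periodMap_apply hG,
      periodMap_apply (hasEquivariantPrimitive_add hF hG)]
    simp only [Pi.add_apply]
    ring
  · obtain ⟨F, hF⟩ := exists_primitive N f
    refine AddMonoidHom.ext fun γ => ?_
    obtain ⟨γ, rfl⟩ := Additive.ofMul.surjective γ
    rw [RingHom.id_apply, AddMonoidHom.smul_apply, periodMap_apply hF,
      periodMap_apply (hasEquivariantPrimitive_smul c hF)]
    simp only [Pi.smul_apply, smul_eq_mul]
    ring

/-- The period map as a linear map. -/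
noncomputable def periodLin (N : ℕ) [NeZero N] :
    CuspForm (Gamma0 N) 2 →ₗ[ℂ] (Additive (Gamma0 N) →+ ℂ) :=
  (existsPeriodMapLinear N).choose

theorem periodLin_apply [NeZero N] (f : CuspForm (Gamma0 N) 2) :
    periodLin N f = periodMap N f :=
  (existsPeriodMapLinear N).choose_spec f

theorem periodHomPair_eq [NeZero N] :
    periodHomPair N = LinearMap.coprod
      ((LinearMap.id + charInvolution N ℂ ℂ) ∘ₗ periodLin N)
      ((LinearMap.id - charInvolution N ℂ ℂ) ∘ₗ periodLin N) := by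
  unfold periodHomPair
  rw [dif_pos (existsPeriodMapLinear N)]
  rfl

theorem periodHomPair_apply [NeZero N] (f g : CuspForm (Gamma0 N) 2) (γ : Gamma0 N) :
    periodHomPair N (f, g) (Additive.ofMul γ)
      = (periodMap N f (Additive.ofMul γ)
          + periodMap N f (Additive.ofMul (jConjGamma0 N γ)))
        + (periodMap N g (Additive.ofMul γ)
          - periodMap N g (Additive.ofMul (jConjGamma0 N γ))) := by
  rw [periodHomPair_eq]
  simp [LinearMap.coprod_apply, periodLin_apply, charInvolution_apply]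

theorem periodMap_add [NeZero N] (f g : CuspForm (Gamma0 N) 2) :
    periodMap N (f + g) = periodMap N f + periodMap N g := by
  rw [← periodLin_apply, map_add, periodLin_apply, periodLin_apply]

theorem periodMap_sub [NeZero N] (f g : CuspForm (Gamma0 N) 2) :
    periodMap N (f - g) = periodMap N f - periodMap N g := by
  rw [← periodLin_apply, map_sub, periodLin_apply, periodLin_apply]

theorem periodMap_smul [NeZero N] (c : ℂ) (f : CuspForm (Gamma0 N) 2) :
    periodMap N (c • f) = c • periodMap N f := by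
  rw [← periodLin_apply, map_smul, periodLin_apply]

theorem periodMap_mem_parabolicHoms [NeZero N] (f : CuspForm (Gamma0 N) 2) :
    periodMap N f ∈ parabolicHoms ℂ (Gamma0 N) ℂ :=
  periodMap_mem_parabolicHoms' N f

/-- C' restated with `periodMap`. -/
theorem eq_zero_of_re_periodMap_eq_zero [NeZero N] (f : CuspForm (Gamma0 N) 2)
    (h : ∀ γ : Gamma0 N, (periodMap N f (Additive.ofMul γ)).re = 0) : f = 0 := by
  obtain ⟨F, hF⟩ := exists_primitive N f
  refine eq_zero_of_re_period_eq_zero N f hF fun γ => ?_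
  rw [← periodMap_apply hF]
  exact h γ

/-- D' restated with `periodMap`. -/
theorem exists_re_periodMap_eq [NeZero N] (φ : Additive (Gamma0 N) →+ ℝ)
    (hφ : IsParabolicHom (Gamma0 N) φ) :
    ∃ f : CuspForm (Gamma0 N) 2, ∀ γ : Gamma0 N,
      (periodMap N f (Additive.ofMul γ)).re = φ (Additive.ofMul γ) := by
  obtain ⟨f, F, hF, h⟩ := exists_cuspForm_re_period_eq N φ hφ
  refine ⟨f, fun γ => ?_⟩
  rw [periodMap_apply hF]
  exact h γ

/-- E1 restated with `periodMap`. -/
theorem exists_star [NeZero N] (f : CuspForm (Gamma0 N) 2) :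
    ∃ g : CuspForm (Gamma0 N) 2, ∀ γ : Gamma0 N,
      periodMap N g (Additive.ofMul γ)
        = - conj (periodMap N f (Additive.ofMul (jConjGamma0 N γ))) := by
  obtain ⟨F, hF⟩ := exists_primitive N f
  obtain ⟨g, G, hG, h⟩ := exists_conj_partner N f hF
  refine ⟨g, fun γ => ?_⟩
  rw [periodMap_apply hG, periodMap_apply hF]
  exact h γ

theorem exists_star' [NeZero N] (f : CuspForm (Gamma0 N) 2) :
    ∃ g : CuspForm (Gamma0 N) 2, (∀ γ : Gamma0 N,
      periodMap N g (Additive.ofMul γ)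
        = - conj (periodMap N f (Additive.ofMul (jConjGamma0 N γ)))) ∧
      ∀ γ : Gamma0 N, periodMap N g (Additive.ofMul (jConjGamma0 N γ))
        = - conj (periodMap N f (Additive.ofMul γ)) := by
  obtain ⟨g, hg⟩ := exists_star f
  refine ⟨g, hg, fun γ => ?_⟩
  rw [hg, jConjGamma0_jConjGamma0]

/-- The `+`-part: `(1 + ι) P f = 0 → f = 0`. -/
theorem eq_zero_of_plus [NeZero N] (f : CuspForm (Gamma0 N) 2)
    (h : ∀ γ : Gamma0 N, periodMap N f (Additive.ofMul γ)
          + periodMap N f (Additive.ofMul (jConjGamma0 N γ)) = 0) : f = 0 := by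
  obtain ⟨s, hs, -⟩ := exists_star' f
  -- `P s = conj (P f)`
  have hs' : ∀ γ : Gamma0 N,
      periodMap N s (Additive.ofMul γ) = conj (periodMap N f (Additive.ofMul γ)) := by
    intro γ
    rw [hs, ← map_neg]
    congr 1
    linear_combination - h γ
  have h1 : f - s = 0 := by
    refine eq_zero_of_re_periodMap_eq_zero _ fun γ => ?_
    rw [periodMap_sub, AddMonoidHom.sub_apply, hs', Complex.sub_re, Complex.conj_re, sub_self]
  have h2 : (Complex.I : ℂ) • (f + s) = 0 := by
    refine eq_zero_of_re_periodMap_eq_zero _ fun γ => ?_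
    rw [periodMap_smul, periodMap_add, AddMonoidHom.smul_apply, AddMonoidHom.add_apply, hs']
    simp
  have h3 : f + s = 0 := by
    have := congrArg (fun x => (-Complex.I) • x) h2
    simpa [smul_smul] using this
  have h4 : f = s := sub_eq_zero.mp h1
  rw [← h4] at h3
  have h5 : (2 : ℂ) • f = 0 := by rw [two_smul]; exact h3
  have := congrArg (fun x => (2⁻¹ : ℂ) • x) h5
  simpa [smul_smul] using this

/-- The `-`-part: `(1 - ι) P g = 0 → g = 0`. -/
theorem eq_zero_of_minus [NeZero N] (g : CuspForm (Gamma0 N) 2)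
    (h : ∀ γ : Gamma0 N, periodMap N g (Additive.ofMul γ)
          - periodMap N g (Additive.ofMul (jConjGamma0 N γ)) = 0) : g = 0 := by
  obtain ⟨s, hs, -⟩ := exists_star' g
  -- `P s = - conj (P g)`
  have hs' : ∀ γ : Gamma0 N,
      periodMap N s (Additive.ofMul γ) = - conj (periodMap N g (Additive.ofMul γ)) := by
    intro γ
    rw [hs]
    congr 2
    linear_combination - h γ
  have h1 : g + s = 0 := by
    refine eq_zero_of_re_periodMap_eq_zero _ fun γ => ?_
    rw [periodMap_add, AddMonoidHom.add_apply, hs', Complex.add_re, Complex.neg_re,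
      Complex.conj_re, add_neg_cancel]
  have h2 : (Complex.I : ℂ) • (g - s) = 0 := by
    refine eq_zero_of_re_periodMap_eq_zero _ fun γ => ?_
    rw [periodMap_smul, periodMap_sub, AddMonoidHom.smul_apply, AddMonoidHom.sub_apply, hs']
    simp
  have h3 : g - s = 0 := by
    have := congrArg (fun x => (-Complex.I) • x) h2
    simpa [smul_smul] using this
  have h4 : g = s := sub_eq_zero.mp h3
  rw [← h4] at h1
  have h5 : (2 : ℂ) • g = 0 := by rw [two_smul]; exact h1
  have := congrArg (fun x => (2⁻¹ : ℂ) • x) h5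
  simpa [smul_smul] using this

theorem periodHomPair_injective (N : ℕ) [NeZero N] : Function.Injective (periodHomPair N) := by
  rw [injective_iff_map_eq_zero]
  rintro ⟨f, g⟩ hfg
  have key : ∀ γ : Gamma0 N,
      (periodMap N f (Additive.ofMul γ) + periodMap N f (Additive.ofMul (jConjGamma0 N γ)))
        + (periodMap N g (Additive.ofMul γ)
          - periodMap N g (Additive.ofMul (jConjGamma0 N γ))) = 0 := by
    intro γ
    rw [← periodHomPair_apply, hfg]
    rfl
  have hf : f = 0 := by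
    refine eq_zero_of_plus f fun γ => ?_
    have h1 := key γ
    have h2 := key (jConjGamma0 N γ)
    rw [jConjGamma0_jConjGamma0] at h2
    linear_combination (1 / 2 : ℂ) * h1 + (1 / 2 : ℂ) * h2
  have hg : g = 0 := by
    refine eq_zero_of_minus g fun γ => ?_
    have h1 := key γ
    have h2 := key (jConjGamma0 N γ)
    rw [jConjGamma0_jConjGamma0] at h2
    linear_combination (1 / 2 : ℂ) * h1 - (1 / 2 : ℂ) * h2
  rw [hf, hg]
  rfl

theorem periodHomPair_mem_parabolicHoms [NeZero N] (x : CuspForm (Gamma0 N) 2 × CuspForm (Gamma0 N) 2) :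
    periodHomPair N x ∈ parabolicHoms ℂ (Gamma0 N) ℂ := by
  rw [periodHomPair_eq]
  obtain ⟨f, g⟩ := x
  simp only [LinearMap.coprod_apply, LinearMap.comp_apply, LinearMap.add_apply,
    LinearMap.sub_apply, LinearMap.id_apply, periodLin_apply]
  have hf := periodMap_mem_parabolicHoms f
  have hg := periodMap_mem_parabolicHoms g
  exact Submodule.add_mem _
    (Submodule.add_mem _ hf (charInvolution_mem_parabolicHoms N ℂ ℂ hf))
    (Submodule.sub_mem _ hg (charInvolution_mem_parabolicHoms N ℂ ℂ hg))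

/-- real part of a complex parabolic hom -/
noncomputable def reHom (ψ : Additive (Gamma0 N) →+ ℂ) : Additive (Gamma0 N) →+ ℝ :=
  (Complex.reLm.toAddMonoidHom).comp ψ

/-- imaginary part of a complex parabolic hom -/
noncomputable def imHom (ψ : Additive (Gamma0 N) →+ ℂ) : Additive (Gamma0 N) →+ ℝ :=
  (Complex.imLm.toAddMonoidHom).comp ψ

theorem periodHomPair_surjective [NeZero N] (ψ : Additive (Gamma0 N) →+ ℂ)
    (hψ : ψ ∈ parabolicHoms ℂ (Gamma0 N) ℂ) : ∃ x, periodHomPair N x = ψ := by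
  rw [mem_parabolicHoms_iff] at hψ
  have h1 : IsParabolicHom (Gamma0 N) (reHom ψ) := fun γ hγ => by
    show (ψ (Additive.ofMul γ)).re = 0
    rw [hψ γ hγ]; rfl
  have h2 : IsParabolicHom (Gamma0 N) (imHom ψ) := fun γ hγ => by
    show (ψ (Additive.ofMul γ)).im = 0
    rw [hψ γ hγ]; rfl
  obtain ⟨f₁, hf₁⟩ := exists_re_periodMap_eq (reHom ψ) h1
  obtain ⟨f₂, hf₂⟩ := exists_re_periodMap_eq (imHom ψ) h2
  obtain ⟨s₁, -, hs₁⟩ := exists_star' f₁
  obtain ⟨s₂, -, hs₂⟩ := exists_star' (Complex.I • f₂)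
  -- `ψ = ½ P(a) + ½ ι P(b)`, `a = f₁ + i f₂`, `b = s₂ - s₁`
  set a : CuspForm (Gamma0 N) 2 := f₁ + Complex.I • f₂ with ha
  set b : CuspForm (Gamma0 N) 2 := s₂ - s₁ with hb
  refine ⟨((4⁻¹ : ℂ) • (a + b), (4⁻¹ : ℂ) • (a - b)), ?_⟩
  refine AddMonoidHom.ext fun γ => ?_
  obtain ⟨γ, rfl⟩ := Additive.ofMul.surjective γ
  rw [periodHomPair_apply]
  simp only [periodMap_smul, periodMap_add, periodMap_sub, AddMonoidHom.smul_apply,
    AddMonoidHom.add_apply, AddMonoidHom.sub_apply, ha, hb, hs₁, hs₂, smul_eq_mul]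
  have e1 : (periodMap N f₁ (Additive.ofMul γ)).re = (ψ (Additive.ofMul γ)).re := hf₁ γ
  have e2 : (periodMap N f₂ (Additive.ofMul γ)).re = (ψ (Additive.ofMul γ)).im := hf₂ γ
  apply Complex.ext
  · simp only [Complex.add_re, Complex.sub_re, Complex.mul_re, Complex.neg_re, Complex.conj_re,
      Complex.I_re, Complex.I_im, Complex.conj_im, Complex.add_im, Complex.sub_im, Complex.mul_im,
      Complex.neg_im, map_mul, Complex.conj_I, Complex.inv_re, Complex.inv_im]
    norm_num
    linarith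
  · simp only [Complex.add_re, Complex.sub_re, Complex.mul_re, Complex.neg_re, Complex.conj_re,
      Complex.I_re, Complex.I_im, Complex.conj_im, Complex.add_im, Complex.sub_im, Complex.mul_im,
      Complex.neg_im, map_mul, Complex.conj_I, Complex.inv_re, Complex.inv_im]
    norm_num
    linarith

theorem main (N : ℕ) [NeZero N] :
    Function.Injective (ModularCurve.periodHomPair N)
      ∧ LinearMap.range (ModularCurve.periodHomPair N)
          = ModularCurve.Period.parabolicHoms ℂ (CongruenceSubgroup.Gamma0 N) ℂ := by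
  refine ⟨periodHomPair_injective N, le_antisymm ?_ ?_⟩
  · rintro ψ ⟨x, rfl⟩
    exact periodHomPair_mem_parabolicHoms x
  · intro ψ hψ
    exact periodHomPair_surjective ψ hψ

end Fermat.Agent.S21

end
-- ===== PACK-END S21/Glue.lean

-- ===== PACK-BEGIN S36/H193/SheetsAll.lean
section




/-!
# S36 engine, leaf CLOPEN (helper193), part 7: the sheets of an arbitrary finite cover

Setting: `R` a noetherian domain with `R[X]` integrally closed, `w ∈ R` prime, `Z` a field of
characteristic `0`, `x ∈ Z` transcendental over `R`, `Z` finite over `baseField R x`.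
`C = chart R {x}` is the integral closure of `R[x]` in `Z`; the sheets are the valuation subrings
`W` of `Z` with `A2.H12.IsSheet w x W`.

**No hypothesis on the special fibre** (it may be non-reduced, with any singularities):

* `chart_inst` : `C` is noetherian, integrally closed, with fraction field `Z`.
* `centre_mem_minimalPrimes` : the centre on `C` of a sheet is a minimal prime over `w C`.
* `sheet_mem_iff` : a sheet is the localisation of `C` at its centre (a discrete valuation ring).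
* `sheets_finite` : there are finitely many sheets.
* `sheets_sep` : the sheets are pairwise separated (`Sep`).
* **`clopen_label_sheets`**, **`kummer_wall3_sheets`** : the CLOPEN theorems of `ClopenGraph.lean`
  and `LabelWall.lean` for the set of all sheets, without any structural hypothesis.
-/

set_option autoImplicit false
set_option linter.style.haveILetI false
set_option linter.unusedSectionVars false

namespace Fermat.Agent.S36.H193

open Polynomial
open Fermat.Agent.A2.H12 (IsSheet)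
open Fermat.Agent.A2.H849 (locAt mem_locAt_iff isDiscreteValuationRing_locAt_of_colon)
open Fermat.Agent.S18.H138

universe u

section Inst

variable {R : Type*} [CommRing R] {Z : Type*} [Field Z] [Algebra R Z]
variable [IsNoetherianRing R] [IsIntegrallyClosed R[X]] [CharZero Z]

/-- The identity ring equivalence between the integral closure of `R[S]` and the chart. -/
def chartEquiv (S : Set Z) : ↥(integralClosure (Algebra.adjoin R S) Z) ≃+* ↥(chart R S) where
  toFun y := ⟨y.1, y.2⟩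
  invFun y := ⟨y.1, y.2⟩
  left_inv _ := rfl
  right_inv _ := rfl
  map_mul' _ _ := rfl
  map_add' _ _ := rfl

/-- The chart is noetherian, integrally closed, and every element of `Z` is a quotient of
elements of the chart. -/
theorem chart_inst {x : Z} (hx : Transcendental R x) [FiniteDimensional (baseField R x) Z] :
    IsNoetherianRing (chart R ({x} : Set Z)) ∧ IsIntegrallyClosed (chart R ({x} : Set Z)) ∧
      ∀ z : Z, ∃ a ∈ chart R ({x} : Set Z), ∃ b ∈ chart R ({x} : Set Z), b ≠ 0 ∧ z = a / b := by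
  classical
  set A : Subalgebra R Z := Algebra.adjoin R ({x} : Set Z) with hA
  set K : Subfield Z := baseField R x with hK
  haveI := isIntegrallyClosed_adjoin_singleton (R := R) hx
  haveI := isNoetherianRing_adjoin_singleton (R := R) hx
  let φ : A →+* K :=
    { toFun := fun a => ⟨a, adjoin_le_baseField x a.2⟩
      map_one' := rfl
      map_mul' := fun _ _ => rfl
      map_zero' := rfl
      map_add' := fun _ _ => rfl }
  letI : Algebra A K := φ.toAlgebra
  haveI : IsScalarTower A K Z := IsScalarTower.of_algebraMap_eq (fun _ => rfl)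
  have hinj : Function.Injective (algebraMap A K) := by
    intro a b hab
    have : (a : Z) = b := congrArg (fun t : K => (t : Z)) hab
    exact Subtype.ext this
  haveI : FaithfulSMul A K := (faithfulSMul_iff_algebraMap_injective A K).2 hinj
  haveI : IsFractionRing A K := by
    refine IsFractionRing.of_field A K (fun z => ?_)
    obtain ⟨a, ha, b, hb, h⟩ := exists_div_of_mem_baseField (R := R) x z.2
    exact ⟨⟨a, ha⟩, ⟨b, hb⟩, Subtype.ext h⟩
  haveI : CharZero K := (algebraMap K Z).charZero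
  haveI h1 : IsNoetherianRing (integralClosure A Z) :=
    IsIntegralClosure.isNoetherianRing A K Z (integralClosure A Z)
  haveI h2 : IsIntegrallyClosed (integralClosure A Z) :=
    integralClosure.isIntegrallyClosedOfFiniteExtension K
  haveI h3 : IsFractionRing (integralClosure A Z) Z :=
    integralClosure.isFractionRing_of_finite_extension K Z
  refine ⟨isNoetherianRing_of_ringEquiv _ (chartEquiv (R := R) ({x} : Set Z)),
    IsIntegrallyClosed.of_equiv (chartEquiv (R := R) ({x} : Set Z)), ?_⟩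
  intro z
  obtain ⟨a, b, hb, h⟩ := IsFractionRing.div_surjective (A := integralClosure A Z) z
  refine ⟨a.1, a.2, b.1, b.2, ?_, h.symm⟩
  have := nonZeroDivisors.ne_zero hb
  intro h0
  exact this (Subtype.ext h0)

end Inst

section Centre

variable {R : Type*} [CommRing R] {Z : Type*} [Field Z] [Algebra R Z]

/-- The inclusion of a subalgebra contained in a valuation subring. -/
def inclW (W : ValuationSubring Z) (C : Subalgebra R Z) (h : ∀ c ∈ C, c ∈ W) : C →+* W where
  toFun b := ⟨b, h b b.2⟩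
  map_one' := rfl
  map_mul' _ _ := rfl
  map_zero' := rfl
  map_add' _ _ := rfl

/-- The centre of a valuation subring on a subalgebra contained in it. -/
def centreW (W : ValuationSubring Z) (C : Subalgebra R Z) (h : ∀ c ∈ C, c ∈ W) : Ideal C :=
  (IsLocalRing.maximalIdeal W).comap (inclW W C h)

theorem mem_centreW (W : ValuationSubring Z) (C : Subalgebra R Z) (h : ∀ c ∈ C, c ∈ W)
    (b : C) : b ∈ centreW W C h ↔ (b : Z) ∈ W.nonunits := by
  rw [centreW, Ideal.mem_comap, ValuationSubring.mem_nonunits_iff_exists_mem_maximalIdeal]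
  constructor
  · intro hb
    exact ⟨h b b.2, hb⟩
  · rintro ⟨_, hb⟩
    exact hb

instance centreW_isPrime (W : ValuationSubring Z) (C : Subalgebra R Z) (h : ∀ c ∈ C, c ∈ W) :
    (centreW W C h).IsPrime :=
  Ideal.comap_isPrime _ _

theorem through_centreW (W : ValuationSubring Z) (C : Subalgebra R Z) (h : ∀ c ∈ C, c ∈ W)
    (𝔫 : Ideal C) : Through C 𝔫 W ↔ centreW W C h ≤ 𝔫 := by
  constructor
  · intro hth c hc
    exact hth c ((mem_centreW W C h c).1 hc)
  · intro hle c hc
    exact hle ((mem_centreW W C h c).2 hc)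

end Centre

section Sheets

variable {R : Type u} [CommRing R] [IsDomain R] {Z : Type u} [Field Z] [Algebra R Z]

theorem sheet_chart_le {w : R} {x : Z} {W : ValuationSubring Z} (hW : IsSheet w x W) :
    ∀ c ∈ chart R ({x} : Set Z), c ∈ W := fun _ hc =>
  hW.chart_le (T := {x}) (by simp) hc

theorem sheet_chart_mid_le {w : R} {x : Z} {W : ValuationSubring Z} (hW : IsSheet w x W) :
    ∀ c ∈ chart R ({x, x⁻¹} : Set Z), c ∈ W := fun _ hc =>
  hW.chart_le (T := {x, x⁻¹}) (le_refl _) hc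

/-- Gauss condition: a polynomial in `x` which is a nonunit of a sheet is divisible by `w`. -/
theorem sheet_dvd_of_nonunit {w : R} {x : Z} {W : ValuationSubring Z} (hW : IsSheet w x W)
    (P : R[X]) (h : aeval x P ∈ W.nonunits) :
    ∃ Q : R[X], aeval x P = algebraMap R Z w * aeval x Q := by
  by_cases h0 : aeval x P = 0
  · exact ⟨0, by rw [h0, map_zero, mul_zero]⟩
  have hall : ∀ i, w ∣ P.coeff i := by
    by_contra hcon
    rw [not_forall] at hcon
    have h1 := hW.2.2.2 P hcon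
    rw [ValuationSubring.mem_nonunits_iff_or] at h
    rcases h with h | h
    · exact h0 h
    · exact h h1
  obtain ⟨Q, hQ⟩ := (Polynomial.C_dvd_iff_dvd_coeff w P).2 hall
  refine ⟨Q, ?_⟩
  rw [hQ, map_mul, aeval_C]

/-- The centre of a sheet on the chart is a minimal prime over `w`. -/
theorem centre_mem_minimalPrimes {w : R} {x : Z} {W : ValuationSubring Z}
    (hW : IsSheet w x W) :
    centreW W (chart R ({x} : Set Z)) (sheet_chart_le hW) ∈
      (Ideal.span {algebraMap R (chart R ({x} : Set Z)) w}).minimalPrimes := by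
  set B := chart R ({x} : Set Z) with hB
  set 𝔭 := centreW W B (sheet_chart_le hW) with h𝔭
  have hw𝔭 : algebraMap R B w ∈ 𝔭 := (mem_centreW W B _ _).2 hW.2.2.1
  refine ⟨⟨inferInstance, ?_⟩, ?_⟩
  · rw [Ideal.span_le, Set.singleton_subset_iff]
    exact hw𝔭
  · rintro p ⟨hpp, hwp⟩ hle
    haveI := hpp
    have hwp' : algebraMap R B w ∈ p := hwp (Ideal.subset_span rfl)
    by_contra hnot
    obtain ⟨b, hbc, hbp⟩ := SetLike.not_le_iff_exists.1 hnot
    set A : Subalgebra R Z := Algebra.adjoin R ({x} : Set Z) with hA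
    have hAB : A ≤ B := adjoin_le_chart _
    letI : Algebra A B := (Subalgebra.inclusion hAB).toRingHom.toAlgebra
    have hint : IsIntegral A b := by
      obtain ⟨P, hPm, hP⟩ := (mem_chart.1 b.2)
      refine ⟨P, hPm, ?_⟩
      apply Subtype.ext
      have := Polynomial.hom_eval₂ P (algebraMap A B) (B.val : B →+* Z) b
      rw [show ((B.val : B →+* Z) (eval₂ (algebraMap A B) b P) : Z)
        = ((eval₂ (algebraMap A B) b P : B) : Z) from rfl] at this
      rw [this]
      exact hP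
    have hlt := Ideal.comap_lt_comap_of_integral_mem_sdiff hle ⟨hbc, hbp⟩ hint
    obtain ⟨a, hac, hap⟩ := SetLike.exists_of_lt hlt
    rw [Ideal.mem_comap] at hac hap
    rw [mem_centreW] at hac
    have haF : ((algebraMap A B a : B) : Z) = (a : Z) := rfl
    obtain ⟨P, hP⟩ : ∃ P : R[X], aeval x P = (a : Z) := by
      have h1 : (a : Z) ∈ Algebra.adjoin R ({x} : Set Z) := a.2
      rw [Algebra.adjoin_singleton_eq_range_aeval] at h1
      exact h1
    rw [haF, ← hP] at hac
    obtain ⟨Q, hQ⟩ := sheet_dvd_of_nonunit hW P hac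
    apply hap
    have hQB : aeval x Q ∈ B := hAB (by
      show aeval x Q ∈ Algebra.adjoin R ({x} : Set Z)
      rw [Algebra.adjoin_singleton_eq_range_aeval]
      exact ⟨Q, rfl⟩)
    have : algebraMap A B a = algebraMap R B w * ⟨aeval x Q, hQB⟩ := by
      apply Subtype.ext
      rw [haF, ← hP, hQ]
      rfl
    rw [this]
    exact Ideal.mul_mem_right _ _ hwp'

variable [IsNoetherianRing R] [IsIntegrallyClosed R[X]] [CharZero Z]

/-- **A sheet is the localisation of the chart at its centre.** -/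
theorem sheet_mem_iff (hinjR : Function.Injective (algebraMap R Z)) {w : R} (hw : Prime w)
    {x : Z} (hx : Transcendental R x)
    [FiniteDimensional (baseField R x) Z] {W : ValuationSubring Z} (hW : IsSheet w x W) (z : Z) :
    z ∈ W ↔ ∃ a s : chart R ({x} : Set Z), (s : Z) ∉ W.nonunits ∧ z = a * (s : Z)⁻¹ := by
  classical
  set B := chart R ({x} : Set Z) with hB
  obtain ⟨hnoeth, hic, hfrac⟩ := chart_inst (R := R) hx
  haveI := hnoeth
  haveI := hic
  haveI : IsFractionRing B Z := by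
    refine IsFractionRing.of_field B Z (fun z => ?_)
    obtain ⟨a, ha, b, hb, -, h⟩ := hfrac z
    exact ⟨⟨a, ha⟩, ⟨b, hb⟩, h⟩
  set 𝔭 := centreW W B (sheet_chart_le hW) with h𝔭
  have hmin := centre_mem_minimalPrimes hW
  have hBW := sheet_chart_le hW
  constructor
  · intro hz
    -- the localisation at the centre is a discrete valuation ring
    have hw0 : algebraMap R B w ≠ 0 := by
      intro h0
      have : algebraMap R Z w = 0 := congrArg Subtype.val h0
      exact hw.ne_zero (hinjR (by rw [this, map_zero]))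
    have hcolon : ((Ideal.span {algebraMap R B w} : Ideal B) : Submodule B B).colon {(1 : B)} =
        Ideal.span {algebraMap R B w} := by
      ext r
      rw [Submodule.mem_colon_singleton, smul_eq_mul, mul_one]
    have hmin' : 𝔭 ∈ (((Ideal.span {algebraMap R B w} : Ideal B) : Submodule B B).colon
        {(1 : B)}).minimalPrimes := by
      rw [hcolon]
      exact hmin
    obtain ⟨c, hc⟩ := Submodule.exists_eq_colon_of_mem_minimalPrimes hmin'
    have hP : ∀ r, r ∈ 𝔭 ↔ algebraMap R B w ∣ r * c := by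
      intro r
      rw [hc, Submodule.mem_colon_singleton, smul_eq_mul]
      exact Ideal.mem_span_singleton
    haveI hdvr : IsDiscreteValuationRing (locAt Z 𝔭) :=
      isDiscreteValuationRing_locAt_of_colon 𝔭 (algebraMap R B w) c hw0 hP
    rcases ValuationRing.isInteger_or_isInteger (locAt Z 𝔭) (K := Z) z with ⟨y, hy⟩ | ⟨y, hy⟩
    · obtain ⟨a, s, hs, h⟩ := (mem_locAt_iff 𝔭 (y : Z)).1 y.2
      refine ⟨a, s, fun hsn => hs ((mem_centreW W B hBW s).2 hsn), ?_⟩
      rw [← hy]
      exact h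
    · -- `z⁻¹ ∈ B_𝔭`
      by_cases hz0 : z = 0
      · exact ⟨0, 1, by simpa using nu_one_not W, by simp [hz0]⟩
      obtain ⟨a, s, hs, h⟩ := (mem_locAt_iff 𝔭 (y : Z)).1 y.2
      have hy' : (y : Z) = z⁻¹ := hy
      rw [hy'] at h
      have hs0 : (s : Z) ≠ 0 := by
        intro h0
        apply hs
        rw [mem_centreW, h0]
        exact nu_zero W
      have ha0 : (a : Z) ≠ 0 := by
        intro h0
        have h1 : algebraMap B Z a = 0 := h0
        rw [h1, zero_mul] at h
        exact hz0 (inv_eq_zero.1 h)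
      -- `a` is a unit of `W`
      have haW : (a : Z) ∉ W.nonunits := by
        intro han
        have hsW : (s : Z) ∈ W := hBW s s.2
        have hsn : (s : Z) ∉ W.nonunits := fun h1 => hs ((mem_centreW W B hBW s).2 h1)
        have h1 : z⁻¹ ∈ W.nonunits := by
          rw [h]
          exact nu_mul_right W han (nu_unit_inv W hsW hsn)
        have h2 := nu_mul_left W h1 hz
        rw [mul_inv_cancel₀ hz0] at h2
        exact nu_one_not W h2
      refine ⟨s, a, haW, ?_⟩
      have h1 : z = (z⁻¹)⁻¹ := (inv_inv z).symm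
      rw [h1, h]
      have e1 : algebraMap B Z a = (a : Z) := rfl
      have e2 : algebraMap B Z s = (s : Z) := rfl
      rw [e1, e2, mul_inv, inv_inv, mul_comm]
  · rintro ⟨a, s, hs, rfl⟩
    exact W.mul_mem _ _ (hBW a a.2) (nu_unit_inv W (hBW s s.2) hs)

/-- A sheet is determined by its centre on the chart. -/
theorem sheet_eq_of_centre_eq (hinjR : Function.Injective (algebraMap R Z)) {w : R}
    (hw : Prime w) {x : Z} (hx : Transcendental R x)
    [FiniteDimensional (baseField R x) Z] {W W' : ValuationSubring Z} (hW : IsSheet w x W)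
    (hW' : IsSheet w x W')
    (h : centreW W (chart R ({x} : Set Z)) (sheet_chart_le hW) =
      centreW W' (chart R ({x} : Set Z)) (sheet_chart_le hW')) : W = W' := by
  have hnu : ∀ s : chart R ({x} : Set Z), (s : Z) ∈ W.nonunits ↔ (s : Z) ∈ W'.nonunits := by
    intro s
    rw [← mem_centreW W _ (sheet_chart_le hW), ← mem_centreW W' _ (sheet_chart_le hW'), h]
  ext z
  rw [sheet_mem_iff hinjR hw hx hW, sheet_mem_iff hinjR hw hx hW']
  constructor
  · rintro ⟨a, s, hs, hz⟩
    exact ⟨a, s, fun h1 => hs ((hnu s).2 h1), hz⟩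
  · rintro ⟨a, s, hs, hz⟩
    exact ⟨a, s, fun h1 => hs ((hnu s).1 h1), hz⟩

/-- **There are finitely many sheets.** -/
theorem sheets_finite (hinjR : Function.Injective (algebraMap R Z)) (w : R) (hw : Prime w)
    {x : Z} (hx : Transcendental R x) [FiniteDimensional (baseField R x) Z] :
    {W : ValuationSubring Z | IsSheet w x W}.Finite := by
  classical
  set B := chart R ({x} : Set Z) with hB
  obtain ⟨hnoeth, -, -⟩ := chart_inst (R := R) hx
  haveI := hnoeth
  have hfin := Ideal.finite_minimalPrimes_of_isNoetherianRing B (Ideal.span {algebraMap R B w})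
  let f : ValuationSubring Z → Ideal B := fun W =>
    if h : IsSheet w x W then centreW W B (sheet_chart_le h) else ⊥
  refine Set.Finite.of_injOn (f := f) (t := (Ideal.span {algebraMap R B w}).minimalPrimes)
    ?_ ?_ hfin
  · intro W hW
    have hW' : IsSheet w x W := hW
    simp only [f, dif_pos hW']
    exact centre_mem_minimalPrimes hW'
  · intro W hW W' hW' hff
    have h1 : IsSheet w x W := hW
    have h2 : IsSheet w x W' := hW'
    simp only [f, dif_pos h1, dif_pos h2] at hff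
    exact sheet_eq_of_centre_eq hinjR hw hx h1 h2 hff

/-- **The sheets are pairwise separated.** -/
theorem sheets_sep (hinjR : Function.Injective (algebraMap R Z)) (w : R) (hw : Prime w)
    {x : Z} (hx : Transcendental R x) [FiniteDimensional (baseField R x) Z] :
    Sep {W : ValuationSubring Z | IsSheet w x W} := by
  intro W hW W' hW' hne
  have h1 : IsSheet w x W := hW
  have h2 : IsSheet w x W' := hW'
  set B := chart R ({x} : Set Z) with hB
  have hnle : ¬ centreW W' B (sheet_chart_le h2) ≤ centreW W B (sheet_chart_le h1) := by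
    intro hle
    have hge := (centre_mem_minimalPrimes h1).2 (centre_mem_minimalPrimes h2).1 hle
    exact hne (sheet_eq_of_centre_eq hinjR hw hx h1 h2 (le_antisymm hge hle))
  obtain ⟨c, hc', hc⟩ := SetLike.not_le_iff_exists.1 hnle
  refine ⟨c, fun V hV => sheet_chart_le (show IsSheet w x V from hV) c c.2,
    (mem_centreW W' B _ c).1 hc', fun h => hc ((mem_centreW W B _ c).2 h)⟩

end Sheets

end Fermat.Agent.S36.H193

end
-- ===== PACK-END S36/H193/SheetsAll.lean

-- ===== PACK-BEGIN S36/H630/Side.lean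
section


/-!
# S36 engine, LABEL core (helper630), part 13: the label equation along ONE degeneracy map,
hypotheses in the shape of the fields of `Eng.TripleCtx`

`F'` (level `qM'`) inside `F` (level `q²M'`) via `algebraMap F' F` (`= α` or `β`, instance
`algebraAlong`); charts `A = chart R {x'}`, `B = chart R {x}`; `n` a closed point of `B`, alone in
its fibre over `A`; sheets `Va` (`e = f = 1`), `Vb` (`e = q - 1`, `f = 1`) over `V'` and `Vc`
(purely inseparable of degree `q`) over `V''`, all three through `n`.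

`label_eq_side` :  `ξ₁ η_a η_b ^ (q - 1) ≡ ξ₂ η_c ^ q`  modulo the maximal ideal of `R`.
-/

set_option autoImplicit false
set_option linter.unusedSectionVars false
set_option linter.style.haveILetI false

namespace Fermat.Agent.S36.H630

open Polynomial
open Fermat.Agent.S18.H138 (chart mem_chart)

section Side

variable {R : Type*} [CommRing R] [IsLocalRing R]
variable {F' : Type*} [Field F'] [Algebra R F']
variable {F : Type*} [Field F] [Algebra R F] [Algebra F' F] [IsScalarTower R F' F]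

/-- The inclusion of the chart below into the chart above. -/
def chartIncl {x : F} {x' : F'}
    (hchart : ∀ b ∈ chart R ({x'} : Set F'), algebraMap F' F b ∈ chart R ({x} : Set F)) :
    chart R ({x'} : Set F') →+* chart R ({x} : Set F) where
  toFun a := ⟨algebraMap F' F (a : F'), hchart a a.2⟩
  map_one' := Subtype.ext (by simp)
  map_mul' _ _ := Subtype.ext (by simp)
  map_zero' := Subtype.ext (by simp)
  map_add' _ _ := Subtype.ext (by simp)

theorem chartIncl_isIntegral {x : F} {x' : F'}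
    (hchart : ∀ b ∈ chart R ({x'} : Set F'), algebraMap F' F b ∈ chart R ({x} : Set F))
    (hint : ∀ b ∈ chart R ({x} : Set F), ∃ p : Polynomial F', p.Monic ∧
      (∀ i, p.coeff i ∈ chart R ({x'} : Set F')) ∧ (p.map (algebraMap F' F)).eval b = 0) :
    (chartIncl hchart).IsIntegral := by
  intro b
  obtain ⟨p, hp, hc, hroot⟩ := hint b b.2
  have hl : p ∈ Polynomial.lifts (algebraMap (chart R ({x'} : Set F')) F') :=
    (Polynomial.lifts_iff_coeff_lifts p).2 (fun i => ⟨⟨p.coeff i, hc i⟩, rfl⟩)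
  obtain ⟨q, hq, -, hqm⟩ := Polynomial.lifts_and_degree_eq_and_monic hl hp
  refine ⟨q, hqm, ?_⟩
  apply Subtype.ext
  have h1 : ((Polynomial.eval₂ (chartIncl hchart) b q : chart R ({x} : Set F)) : F)
      = Polynomial.eval₂ ((algebraMap F' F).comp (algebraMap (chart R ({x'} : Set F')) F'))
          (b : F) q := by
    have := Polynomial.hom_eval₂ q (chartIncl hchart) (chart R ({x} : Set F)).val.toRingHom b
    exact this
  rw [h1, ← Polynomial.eval₂_map, hq, Polynomial.eval₂_eq_eval_map]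
  exact hroot

/-- **The label equation along one degeneracy map.** -/
theorem label_eq_side {x : F} {x' : F'}
    (n : Ideal (chart R ({x} : Set F))) [hn : n.IsMaximal]
    (hchart : ∀ b ∈ chart R ({x'} : Set F'), algebraMap F' F b ∈ chart R ({x} : Set F))
    (hint : ∀ b ∈ chart R ({x} : Set F), ∃ p : Polynomial F', p.Monic ∧
      (∀ i, p.coeff i ∈ chart R ({x'} : Set F')) ∧ (p.map (algebraMap F' F)).eval b = 0)
    (huniq : ∀ Q : Ideal (chart R ({x} : Set F)), Q.IsMaximal →
      (∀ (b' : F') (h : b' ∈ chart R ({x'} : Set F')),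
        (⟨algebraMap F' F b', hchart b' h⟩ : chart R ({x} : Set F)) ∈ n →
        (⟨algebraMap F' F b', hchart b' h⟩ : chart R ({x} : Set F)) ∈ Q) → Q = n)
    {Va Vb Vc : ValuationSubring F} {V' V'' : ValuationSubring F'}
    (hBa : ChartLe (chart R ({x} : Set F)) Va) (htha : PassThrough (chart R ({x} : Set F)) n Va)
    (hBb : ChartLe (chart R ({x} : Set F)) Vb) (hthb : PassThrough (chart R ({x} : Set F)) n Vb)
    (hBc : ChartLe (chart R ({x} : Set F)) Vc) (hthc : PassThrough (chart R ({x} : Set F)) n Vc)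
    (hcomap_a : Va.comap (algebraMap F' F) = V') (hcomap_c : Vc.comap (algebraMap F' F) = V'')
    (hres_a : ∀ b ∈ chart R ({x} : Set F), ∃ b' ∈ chart R ({x'} : Set F'),
      b - algebraMap F' F b' ∈ Va.nonunits)
    (hres_b : ∀ b ∈ chart R ({x} : Set F), ∃ b' ∈ chart R ({x'} : Set F'),
      b - algebraMap F' F b' ∈ Vb.nonunits)
    {q : ℕ} (hq : q ≠ 0)
    (hnr_s : NormResSplitU V' Va Vb (q - 1)) (hnr_i : NormResInsepU (F' := F') Vc q)
    {m : ℕ} (hm : 0 < m) {u d : F} {a₀ s₀ : chart R ({x} : Set F)} (hs₀ : s₀ ∉ n)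
    (hpure : u * d ^ m * (s₀ : F) = a₀)
    {k : F'} (hk : Algebra.norm F' u = k ^ m) {ξ₁ ξ₂ : R}
    (hξ₁ : k - algebraMap R F' ξ₁ ∈ V'.nonunits) (hξ₂ : k - algebraMap R F' ξ₂ ∈ V''.nonunits)
    {ηa ηb ηc : R}
    (hηa : algebraMap R (chart R ({x} : Set F)) ηa ∉ n)
    (hηb : algebraMap R (chart R ({x} : Set F)) ηb ∉ n)
    (hηc : algebraMap R (chart R ({x} : Set F)) ηc ∉ n)
    (hva : ValAt (chart R ({x} : Set F)) n Va d ηa)
    (hvb : ValAt (chart R ({x} : Set F)) n Vb d ηb)
    (hvc : ValAt (chart R ({x} : Set F)) n Vc d ηc) :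
    ξ₁ * (ηa * ηb ^ (q - 1)) - ξ₂ * ηc ^ q ∈ IsLocalRing.maximalIdeal R := by
  have hnp : n.IsPrime := hn.isPrime
  set ι := chartIncl hchart with hι
  have hιint : ι.IsIntegral := chartIncl_isIntegral hchart hint
  -- the point below
  set N₁ : Ideal (chart R ({x'} : Set F')) := n.comap ι with hN₁
  haveI hN₁p : N₁.IsPrime := Ideal.comap_isPrime ι n
  haveI hN₁m : N₁.IsMaximal := Ideal.isMaximal_comap_of_isIntegral_of_isMaximal' ι hιint n
  have hAB : ∀ a : chart R ({x'} : Set F'), algebraMap F' F (a : F') ∈ chart R ({x} : Set F) :=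
    fun a => hchart a a.2
  have hNn : ∀ a : chart R ({x'} : Set F'),
      a ∈ N₁ ↔ (⟨algebraMap F' F (a : F'), hAB a⟩ : chart R ({x} : Set F)) ∈ n :=
    fun a => Iff.rfl
  -- norms and roots
  have hnormA : ∀ b : chart R ({x} : Set F), Algebra.norm F' (b : F) ∈ chart R ({x'} : Set F') :=
    fun b => norm_mem_chart (hint b b.2)
  have hrootA : ∀ z : F', z ^ m ∈ chart R ({x'} : Set F') → z ∈ chart R ({x'} : Set F') := by
    intro z hz
    rw [mem_chart] at hz ⊢
    exact IsIntegral.of_pow hm hz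
  -- the sheets below
  have hAV' : ChartLe (chart R ({x'} : Set F')) V' := by
    intro a
    rw [← hcomap_a, ValuationSubring.mem_comap]
    exact hBa ⟨_, hAB a⟩
  have hAV'' : ChartLe (chart R ({x'} : Set F')) V'' := by
    intro a
    rw [← hcomap_c, ValuationSubring.mem_comap]
    exact hBc ⟨_, hAB a⟩
  have hth' : PassThrough (chart R ({x'} : Set F')) N₁ V' := by
    intro c hc
    rw [← hcomap_a, mem_nonunits_comap_iff] at hc
    exact htha ⟨_, hAB c⟩ hc
  have hth'' : PassThrough (chart R ({x'} : Set F')) N₁ V'' := by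
    intro c hc
    rw [← hcomap_c, mem_nonunits_comap_iff] at hc
    exact hthc ⟨_, hAB c⟩ hc
  have hliftFF : ResLift (chart R ({x'} : Set F')) (chart R ({x} : Set F)) Va := by
    intro b
    obtain ⟨b', hb', h⟩ := hres_a b b.2
    exact ⟨⟨b', hb'⟩, h⟩
  have hliftmid : ResLift (chart R ({x'} : Set F')) (chart R ({x} : Set F)) Vb := by
    intro b
    obtain ⟨b', hb', h⟩ := hres_b b b.2
    exact ⟨⟨b', hb'⟩, h⟩
  have hcomap : ∀ y' : F', algebraMap F' F y' ∈ Vc.nonunits → y' ∈ V''.nonunits := by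
    intro y' hy'
    rw [← hcomap_c, mem_nonunits_comap_iff]
    exact hy'
  -- local denominators
  have huniq' : ∀ Q : Ideal (chart R ({x} : Set F)), Q.IsPrime →
      Q.comap ι = n.comap ι → Q = n := by
    intro Q hQ hQc
    haveI := hQ
    have hQm : Q.IsMaximal := by
      refine Ideal.isMaximal_of_isIntegral_of_isMaximal_comap' ι hιint Q ?_
      rw [hQc]
      exact hN₁m
    refine huniq Q hQm (fun b' h hb => ?_)
    have h1 : (⟨b', h⟩ : chart R ({x'} : Set F')) ∈ n.comap ι := hb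
    rw [← hQc] at h1
    exact h1
  obtain ⟨s', t, ht, hst⟩ := exists_local_denominator ι hιint n huniq' s₀ hs₀
  have hst' : (s₀ : F) * (s' : F) = algebraMap F' F (t : F') := by
    have := congrArg (fun z : chart R ({x} : Set F) => (z : F)) hst
    exact this
  have hp : u * d ^ m * algebraMap F' F (t : F') = ((a₀ * s' : chart R ({x} : Set F)) : F) := by
    rw [← hst', Subalgebra.coe_mul, ← hpure]
    ring
  have key := label_eq_of_normU (A := chart R ({x'} : Set F')) (B := chart R ({x} : Set F))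
    (N₁ := N₁) (n := n) hAB hNn hnormA hrootA hAV' hth' hAV'' hth'' hBa htha hBb hthb hBc hthc
    hliftFF hliftmid hcomap hq hnr_s hnr_i ht hp hk hξ₁ hξ₂ hηa hηb hηc hva hvb hvc
  -- back to `R`
  by_contra hcon
  have hu : IsUnit (ξ₁ * (ηa * ηb ^ (q - 1)) - ξ₂ * ηc ^ q) := by
    by_contra hnu
    exact hcon ((IsLocalRing.mem_maximalIdeal _).2 hnu)
  have hu' : IsUnit (algebraMap R (chart R ({x'} : Set F'))
      (ξ₁ * (ηa * ηb ^ (q - 1)) - ξ₂ * ηc ^ q)) := hu.map _
  exact hN₁p.ne_top (Ideal.eq_top_of_isUnit_mem _ key hu')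

end Side

end Fermat.Agent.S36.H630

end
-- ===== PACK-END S36/H630/Side.lean

-- ===== PACK-BEGIN A2/Mod/H873/L13.lean
section



/-!
# A2 / MOD — leaf L13 `ChartCompatStatement` (helper873)

`x = j · j_q`.  Then `j, j_q` are integral over `R_E[x]` and `1/j, 1/j_q` are integral over
`R_E[1/x]`.

Proof (valuative criterion, `iInf_valuationSubring_superset`): let `V` be a valuation subring of
`F_N` containing `x`.  If `j ∉ V` then `1/j ∈ V`, so `j_q = x / j ∈ V`; but `j` is integral over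
`ℤ[j_q]` (`Φ_q(j, j_q) = 0`, `Φ_q` monic), hence `j ∈ V`.  Chart at infinity: if `1/x ∈ V` and
`1/j ∉ V` then `j ∈ V`, so `j_q ∈ V` (integral over `ℤ[j]`), and `1/j = j_q · (1/x) ∈ V`.
Only the monicity of `Φ_q` in the outer variable and the two vanishing properties of
`S28.ModPolyData` are used.

Main results:
* `chartCompat_of_modPolyData (D : S28.ModPolyData q) : ChartCompatStatement P E M q`
* `chartCompat : ChartCompatStatement P E M q`   (exact frozen leaf of `Mod/Spec.lean`)
-/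

set_option autoImplicit false
set_option synthInstance.maxHeartbeats 400000
set_option maxHeartbeats 1600000

noncomputable section

namespace Fermat.Agent.A2.Mod.H873

open ModularCurve HahnSeries Polynomial

/-! ## Abstract part (Mathlib only) -/

section Abstract

variable {K : Type*} [Field K]

/-- valuative criterion, one element: `a` lies in every valuation subring containing `x`
implies `a` is integral over `ℤ[x]`. -/
theorem isIntegral_closure_of_forall_valuationSubring {x a : K}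
    (h : ∀ V : ValuationSubring K, x ∈ V → a ∈ V) :
    IsIntegral (Subring.closure ({x} : Set K)) a := by
  have key := iInf_valuationSubring_superset (K := K) (s := ({x} : Set K))
  have hmem : a ∈ (integralClosure (Subring.closure ({x} : Set K)) K).toSubring := by
    rw [← key]
    rw [Subring.mem_iInf]
    rintro ⟨V, hV⟩
    exact h V (hV (Set.mem_singleton x))
  exact hmem

/-- an element integral over `ℤ[b]` lies in every valuation subring containing `b` -/
theorem mem_valuationSubring_of_monic_eval {a b : K} (Φ : Polynomial (Polynomial ℤ))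
    (hΦ : Φ.Monic) (h : Φ.eval₂ (Polynomial.aeval (R := ℤ) b).toRingHom a = 0)
    (V : ValuationSubring K) (hb : b ∈ V) : a ∈ V := by
  have hint : IsIntegral V a := by
    refine ⟨Φ.map (Polynomial.aeval (R := ℤ) (⟨b, hb⟩ : V)).toRingHom, hΦ.map _, ?_⟩
    rw [Polynomial.eval₂_map]
    rw [← h]
    congr 1
    apply Polynomial.ringHom_ext
    · intro n
      simp
    · simp
  have := IsIntegrallyClosed.isIntegral_iff (R := V) (K := K) |>.mp hint
  obtain ⟨y, hy⟩ := this
  rw [← hy]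
  exact y.2

/-- **core of L13, finite chart**: `Φ(X = a; Y = b) = 0`, `Φ` monic in `X` ⟹ `a` integral over
`ℤ[a b]`. -/
theorem isIntegral_closure_mul {a b : K} (Φ : Polynomial (Polynomial ℤ))
    (hΦ : Φ.Monic) (h : Φ.eval₂ (Polynomial.aeval (R := ℤ) b).toRingHom a = 0) :
    IsIntegral (Subring.closure ({a * b} : Set K)) a := by
  refine isIntegral_closure_of_forall_valuationSubring fun V hx => ?_
  by_contra ha
  have ha0 : a ≠ 0 := fun h0 => ha (h0 ▸ V.zero_mem)
  have hinv : a⁻¹ ∈ V := (V.mem_or_inv_mem a).resolve_left ha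
  have hb : b ∈ V := by
    have : b = a * b * a⁻¹ := by field_simp
    rw [this]
    exact V.mul_mem _ _ hx hinv
  exact ha (mem_valuationSubring_of_monic_eval Φ hΦ h V hb)

/-- **core of L13, chart at infinity**: `Φ(X = b; Y = a) = 0`, `Φ` monic in `X`, `b ≠ 0`
⟹ `a⁻¹` integral over `ℤ[(a b)⁻¹]`. -/
theorem isIntegral_closure_inv_mul {a b : K} (hb0 : b ≠ 0) (Φ : Polynomial (Polynomial ℤ))
    (hΦ : Φ.Monic) (h : Φ.eval₂ (Polynomial.aeval (R := ℤ) a).toRingHom b = 0) :
    IsIntegral (Subring.closure ({(a * b)⁻¹} : Set K)) a⁻¹ := by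
  refine isIntegral_closure_of_forall_valuationSubring fun V hx => ?_
  by_contra ha
  have ha0 : a ≠ 0 := fun h0 => ha (by rw [h0, inv_zero]; exact V.zero_mem)
  have haV : a ∈ V := by
    have := (V.mem_or_inv_mem a⁻¹).resolve_left ha
    rwa [inv_inv] at this
  have hb : b ∈ V := mem_valuationSubring_of_monic_eval Φ hΦ h V haV
  have : a⁻¹ = b * (a * b)⁻¹ := by field_simp
  exact ha (this ▸ V.mul_mem _ _ hb hx)

/-- from integrality over `ℤ[x]` to integrality along `R[X] → K`, `X ↦ x`. -/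
theorem isIntegralElem_of_isIntegral_closure {R : Type*} [CommRing R] (φ : R →+* K) {x a : K}
    (h : IsIntegral (Subring.closure ({x} : Set K)) a) :
    ∃ p : Polynomial (Polynomial R), p.Monic ∧ p.eval₂ (Polynomial.eval₂RingHom φ x) a = 0 := by
  obtain ⟨p, hp, hpa⟩ := h
  set ψ : Polynomial R →+* K := Polynomial.eval₂RingHom φ x with hψ
  have hle : Subring.closure ({x} : Set K) ≤ ψ.range := by
    rw [Subring.closure_le]
    rintro y hy
    rw [Set.mem_singleton_iff] at hy
    subst hy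
    exact ⟨Polynomial.X, by simp [hψ]⟩
  set incl : Subring.closure ({x} : Set K) →+* ψ.range := Subring.inclusion hle with hincl
  have hlift : p.map incl ∈ Polynomial.lifts ψ.rangeRestrict := by
    rw [Polynomial.lifts_iff_coeff_lifts]
    intro n
    exact ψ.rangeRestrict_surjective _
  obtain ⟨q, hq, -, hqm⟩ := Polynomial.lifts_and_natDegree_eq_and_monic hlift (hp.map incl)
  refine ⟨q, hqm, ?_⟩
  have h1 : q.eval₂ ψ a = (q.map ψ.rangeRestrict).eval₂ ψ.range.subtype a := by
    rw [Polynomial.eval₂_map]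
    rfl
  rw [h1, hq, Polynomial.eval₂_map]
  exact hpa

end Abstract

/-! ## Concrete part -/

section Concrete

variable (P : ValuationSubring _root_.Fermat.Agent.A2.Mod.Qb) (E : IntermediateField ℚ _root_.Fermat.Agent.A2.Mod.Qb) (M q : ℕ) [NeZero M] [NeZero q]

/-- the underlying series of `j_d` is `j(t^d)` over `E` -/
theorem coe_jE (N d : ℕ) [NeZero d] (hd : d ∣ N) :
    ((jE E N d hd : _root_.Fermat.Agent.A2.Mod.FE E N) : LaurentSeries E) = qExpand E d (jqModC E) := by
  show coeffEmb E (qExpand ℚ d jq) = _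
  rw [coeffEmb, coeffMap_qExpand, ← jqModC_rat, coeffMap_jqModC]

/-- the underlying series of `j_d` is the image of the integral series `j(t^d)` -/
theorem coe_jE_int (N d : ℕ) [NeZero d] (hd : d ∣ N) :
    ((jE E N d hd : _root_.Fermat.Agent.A2.Mod.FE E N) : LaurentSeries E) =
      coeffMap (Int.castRingHom E) (qExpand ℤ d (jqModC ℤ)) := by
  rw [coe_jE, coeffMap_qExpand, coeffMap_jqModC]

theorem coe_jE_one (N : ℕ) :
    ((jE E N 1 (one_dvd N) : _root_.Fermat.Agent.A2.Mod.FE E N) : LaurentSeries E) =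
      coeffMap (Int.castRingHom E) (jqModC ℤ) := by
  rw [coe_jE_int, qExpand_one_apply]

/-- evaluation of a two-variable integral polynomial commutes with the coercion
`F_N → E((t))` -/
theorem coe_eval₂_aeval (N : ℕ) (Φ : Polynomial (Polynomial ℤ)) (a b : _root_.Fermat.Agent.A2.Mod.FE E N) :
    ((Φ.eval₂ (Polynomial.aeval (R := ℤ) b).toRingHom a : _root_.Fermat.Agent.A2.Mod.FE E N) : LaurentSeries E) =
      Φ.eval₂ (Polynomial.aeval (R := ℤ) (b : LaurentSeries E)).toRingHom
        (a : LaurentSeries E) := by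
  have h := Polynomial.hom_eval₂ Φ (Polynomial.aeval (R := ℤ) b).toRingHom
    (_root_.Fermat.Agent.A2.Mod.FE E N).val.toRingHom a
  have hcomp : ((_root_.Fermat.Agent.A2.Mod.FE E N).val.toRingHom).comp (Polynomial.aeval (R := ℤ) b).toRingHom =
      (Polynomial.aeval (R := ℤ) (b : LaurentSeries E)).toRingHom := by
    apply Polynomial.ringHom_ext
    · intro n
      simp
    · simp
  rw [hcomp] at h
  exact h

/-- transfer of a vanishing statement from `ℤ((t))` to `F_N` -/
theorem eval₂_eq_zero_of_int (N : ℕ) (Φ : Polynomial (Polynomial ℤ)) (a b : _root_.Fermat.Agent.A2.Mod.FE E N)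
    (A B : LaurentSeries ℤ) (ha : (a : LaurentSeries E) = coeffMap (Int.castRingHom E) A)
    (hb : (b : LaurentSeries E) = coeffMap (Int.castRingHom E) B)
    (h : Φ.eval₂ (S28.evalAt B) A = 0) :
    Φ.eval₂ (Polynomial.aeval (R := ℤ) b).toRingHom a = 0 := by
  apply Subtype.ext
  rw [coe_eval₂_aeval, ha, hb]
  have h2 := Polynomial.hom_eval₂ Φ (S28.evalAt B) (coeffMap (Int.castRingHom E)) A
  have hcomp : (coeffMap (Int.castRingHom E)).comp (S28.evalAt B) =
      (Polynomial.aeval (R := ℤ) (coeffMap (Int.castRingHom E) B)).toRingHom := by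
    apply Polynomial.ringHom_ext
    · intro n
      simp [S28.evalAt]
    · simp [S28.evalAt]
  rw [hcomp, h, map_zero] at h2
  rw [← h2]
  rfl

theorem jE_ne_zero (N d : ℕ) [NeZero d] (hd : d ∣ N) : jE E N d hd ≠ 0 := by
  intro h
  have h1 : ((jE E N d hd : _root_.Fermat.Agent.A2.Mod.FE E N) : LaurentSeries E) = 0 := by rw [h]; rfl
  rw [coe_jE] at h1
  have h2 : jqModC E = 0 := by
    have hinj : Function.Injective (qExpand E d) := by
      intro x y hxy
      ext n
      have := congrArg (fun z => z.coeff ((d : ℤ) * n)) hxy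
      simpa [qExpand_coeff_mul] using this
    exact hinj (by rw [h1, map_zero])
  exact jqModC_ne_zero_of_nontrivial E h2

/-- **L13 from the modular polynomial.** -/
theorem chartCompat_of_modPolyData (D : S28.ModPolyData q) : ChartCompatStatement P E M q := by
  intro _
  -- the two vanishing statements in `F_N`
  have hj : D.Φ.eval₂ (Polynomial.aeval (R := ℤ)
      (jE E (M * q) q (dvd_mul_left q M))).toRingHom (jE E (M * q) 1 (one_dvd _)) = 0 :=
    eval₂_eq_zero_of_int E (M * q) D.Φ _ _ _ _ (coe_jE_one E (M * q))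
      (coe_jE_int E (M * q) q (dvd_mul_left q M)) D.eval_j
  have hjq : D.Φ.eval₂ (Polynomial.aeval (R := ℤ)
      (jE E (M * q) 1 (one_dvd _))).toRingHom (jE E (M * q) q (dvd_mul_left q M)) = 0 :=
    eval₂_eq_zero_of_int E (M * q) D.Φ _ _ _ _ (coe_jE_int E (M * q) q (dvd_mul_left q M))
      (coe_jE_one E (M * q)) D.eval_jp
  refine ⟨?_, ?_, ?_, ?_⟩
  · exact isIntegralElem_of_isIntegral_closure _ (isIntegral_closure_mul D.Φ D.monic hj)
  · have h := isIntegral_closure_mul D.Φ D.monic hjq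
    rw [mul_comm (jE E (M * q) q (dvd_mul_left q M)) (jE E (M * q) 1 (one_dvd _))] at h
    exact isIntegralElem_of_isIntegral_closure _ h
  · exact isIntegralElem_of_isIntegral_closure _
      (isIntegral_closure_inv_mul (jE_ne_zero E (M * q) q (dvd_mul_left q M)) D.Φ D.monic hjq)
  · have h := isIntegral_closure_inv_mul (jE_ne_zero E (M * q) 1 (one_dvd _)) D.Φ D.monic hj
    rw [mul_comm (jE E (M * q) q (dvd_mul_left q M)) (jE E (M * q) 1 (one_dvd _))] at h
    exact isIntegralElem_of_isIntegral_closure _ h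

/-- **L13** (exact frozen leaf of `Mod/Spec.lean`). -/
theorem chartCompat : ChartCompatStatement P E M q := fun hq =>
  chartCompat_of_modPolyData P E M q (S28.H807.nonempty_modPolyData q hq).some hq

end Concrete

end Fermat.Agent.A2.Mod.H873

end

end
-- ===== PACK-END A2/Mod/H873/L13.lean

-- ===== PACK-BEGIN A2/Mod/H96/L12.lean
section




/-!
# A2 / MOD leaf L12 (helper96): the Kronecker congruence, semilinear form

`kron : KronStatement P E M q w` (`Mod/Spec.lean`, verbatim):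
for `a ∈ V∞_M` there is `a' ∈ V∞_M` with `β a ≡ (α a')^q mod w V∞` at level `M q`.

Proof.  `a = U₁/U₂` with `U₁, U₂ ∈ R((t)) ∩ F_M`, `Ū₂ ≠ 0`.  By `S28.CoreData M k` (good reduction
at level `M`, via `S18.H516.red_mem_of_incl_mem`) the residues `Ū₁, Ū₂` lie in
`F_k = k(j̄_d : d ∣ M)`.  `F_k` is stable under the inverse Frobenius twist of the coefficients
(`exists_frob_root_of_mem_fullC`: `k` is perfect, the generators have coefficients in `𝔽_q`): there
is `r' ∈ F_k` with `r'^q = (Ū₁/Ū₂)(t^q)`.  Lift `r' = W̄₁/W̄₂` (`exists_lift_of_mem_fullC`) and put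
`a' := W₁/W₂`.  Then `β a − (α a')^q = (U₁(t^q) W₂^q − W₁^q U₂(t^q)) / (U₂(t^q) W₂^q)`, the
denominator is primitive and the numerator reduces to `0`, hence is divisible by `w`.
-/

set_option autoImplicit false
set_option linter.unusedSectionVars false
set_option linter.style.haveILetI false
set_option synthInstance.maxHeartbeats 400000
set_option maxHeartbeats 1600000

noncomputable section

namespace Fermat.Agent.A2.Mod.H96

open ModularCurve HahnSeries Fermat.Agent.S28

section Residue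

variable (P : ValuationSubring _root_.Fermat.Agent.A2.Mod.Qb) (E : IntermediateField ℚ _root_.Fermat.Agent.A2.Mod.Qb)

/-- `R_E` lies over `q` if `P` does. -/
theorem liesOver_RE {q : ℕ} (hP : P.LiesOverPrime q) : (_root_.Fermat.Agent.A2.Mod.RE P E).LiesOverPrime q := by
  have h1 : P.valuation ((q : ℕ) : _root_.Fermat.Agent.A2.Mod.Qb) < 1 := (ValuationSubring.mem_nonunits_iff _).mp hP
  show ((q : ℕ) : E) ∈ (_root_.Fermat.Agent.A2.Mod.RE P E).nonunits
  rw [ValuationSubring.mem_nonunits_iff_exists_mem_maximalIdeal]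
  have hmem : ((q : ℕ) : E) ∈ _root_.Fermat.Agent.A2.Mod.RE P E := by
    show algebraMap E _root_.Fermat.Agent.A2.Mod.Qb ((q : ℕ) : E) ∈ P
    rw [map_natCast]
    exact natCast_mem P q
  refine ⟨hmem, ?_⟩
  rw [IsLocalRing.mem_maximalIdeal, mem_nonunits_iff]
  intro hu
  obtain ⟨s, hs⟩ := isUnit_iff_exists_inv.mp hu
  have h2 : ((q : ℕ) : _root_.Fermat.Agent.A2.Mod.Qb) * algebraMap E _root_.Fermat.Agent.A2.Mod.Qb (s : E) = 1 := by
    have := congrArg (fun z : _root_.Fermat.Agent.A2.Mod.RE P E => algebraMap E _root_.Fermat.Agent.A2.Mod.Qb (z : E)) hs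
    simpa using this
  have h3 : P.valuation (algebraMap E _root_.Fermat.Agent.A2.Mod.Qb (s : E)) ≤ 1 :=
    (P.valuation_le_one_iff _).mpr s.2
  have h4 := congrArg P.valuation h2
  rw [map_mul, map_one] at h4
  have h5 : P.valuation ((q : ℕ) : _root_.Fermat.Agent.A2.Mod.Qb) * P.valuation (algebraMap E _root_.Fermat.Agent.A2.Mod.Qb (s : E)) < 1 :=
    calc P.valuation ((q : ℕ) : _root_.Fermat.Agent.A2.Mod.Qb) * P.valuation (algebraMap E _root_.Fermat.Agent.A2.Mod.Qb (s : E))
        ≤ P.valuation ((q : ℕ) : _root_.Fermat.Agent.A2.Mod.Qb) * 1 := mul_le_mul_right h3 _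
      _ = P.valuation ((q : ℕ) : _root_.Fermat.Agent.A2.Mod.Qb) := mul_one _
      _ < 1 := h1
  exact absurd h4 h5.ne

/-- Every element of `R_E` is a root of an integer polynomial which is nonzero modulo `q`. -/
theorem exists_intPoly_residue (r : _root_.Fermat.Agent.A2.Mod.RE P E) {q : ℕ} (hq : q.Prime) :
    ∃ G : Polynomial ℤ, G.map (Int.castRingHom (ZMod q)) ≠ 0 ∧
      Polynomial.eval₂ (Int.castRingHom (_root_.Fermat.Agent.A2.Mod.RE P E)) r G = 0 := by
  haveI : Fact q.Prime := ⟨hq⟩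
  have halgQ : IsAlgebraic ℚ ((r : E) : _root_.Fermat.Agent.A2.Mod.Qb) := (AlgebraicClosure.isAlgebraic ℚ).isAlgebraic _
  have halgZ : IsAlgebraic ℤ ((r : E) : _root_.Fermat.Agent.A2.Mod.Qb) := (IsFractionRing.isAlgebraic_iff ℤ ℚ _root_.Fermat.Agent.A2.Mod.Qb).mpr halgQ
  obtain ⟨G, hG0, hG⟩ := halgZ
  have hprim : G.primPart.IsPrimitive := Polynomial.isPrimitive_primPart G
  have hev : Polynomial.aeval ((r : E) : _root_.Fermat.Agent.A2.Mod.Qb) G.primPart = 0 := by
    have h1 := G.eq_C_content_mul_primPart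
    rw [h1, map_mul, Polynomial.aeval_C] at hG
    rcases mul_eq_zero.mp hG with h | h
    · exfalso
      have : (G.content : _root_.Fermat.Agent.A2.Mod.Qb) = 0 := by simpa using h
      have h2 : G.content = 0 := by exact_mod_cast this
      exact hG0 (Polynomial.content_eq_zero_iff.mp h2)
    · exact h
  refine ⟨G.primPart, ?_, ?_⟩
  · intro h0
    have hdvd : Polynomial.C (q : ℤ) ∣ G.primPart := by
      rw [Polynomial.C_dvd_iff_dvd_coeff]
      intro i
      have := congrArg (fun Q : Polynomial (ZMod q) => Q.coeff i) h0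
      simp only [Polynomial.coeff_map, Polynomial.coeff_zero, eq_intCast] at this
      exact (ZMod.intCast_zmod_eq_zero_iff_dvd _ _).mp this
    have hu := hprim _ hdvd
    have : IsUnit (q : ℤ) := hu
    rw [Int.isUnit_iff] at this
    have hq2 := hq.two_le
    omega
  · have hinj : Function.Injective ((algebraMap E _root_.Fermat.Agent.A2.Mod.Qb).comp (_root_.Fermat.Agent.A2.Mod.RE P E).subtype) := by
      intro a b h
      exact Subtype.ext (Subtype.ext h)
    apply hinj
    rw [map_zero, Polynomial.hom_eval₂]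
    have : (((algebraMap E _root_.Fermat.Agent.A2.Mod.Qb).comp (_root_.Fermat.Agent.A2.Mod.RE P E).subtype).comp (Int.castRingHom (_root_.Fermat.Agent.A2.Mod.RE P E))) =
        algebraMap ℤ _root_.Fermat.Agent.A2.Mod.Qb := RingHom.ext_int _ _
    rw [this]
    exact hev

/-- The residue field of `R_E` is perfect: Frobenius is surjective. -/
theorem exists_pow_eq_residue {q : ℕ} (hq : q.Prime) (hP : P.LiesOverPrime q)
    (c : IsLocalRing.ResidueField (_root_.Fermat.Agent.A2.Mod.RE P E)) :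
    ∃ c' : IsLocalRing.ResidueField (_root_.Fermat.Agent.A2.Mod.RE P E), c' ^ q = c := by
  haveI : Fact q.Prime := ⟨hq⟩
  haveI : CharP (IsLocalRing.ResidueField (_root_.Fermat.Agent.A2.Mod.RE P E)) q :=
    Fermat.Agent.S18.H516.charP_residue (_root_.Fermat.Agent.A2.Mod.RE P E) (liesOver_RE P E hP)
  letI : Algebra (ZMod q) (IsLocalRing.ResidueField (_root_.Fermat.Agent.A2.Mod.RE P E)) := ZMod.algebra _ q
  haveI : Algebra.IsAlgebraic (ZMod q) (IsLocalRing.ResidueField (_root_.Fermat.Agent.A2.Mod.RE P E)) := by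
    refine ⟨fun x => ?_⟩
    obtain ⟨r', rfl⟩ := IsLocalRing.residue_surjective x
    obtain ⟨G, hG0, hG⟩ := exists_intPoly_residue P E r' hq
    refine ⟨G.map (Int.castRingHom (ZMod q)), hG0, ?_⟩
    rw [Polynomial.aeval_def, Polynomial.eval₂_map]
    have h1 : (algebraMap (ZMod q) (IsLocalRing.ResidueField (_root_.Fermat.Agent.A2.Mod.RE P E))).comp
        (Int.castRingHom (ZMod q)) =
        (IsLocalRing.residue (_root_.Fermat.Agent.A2.Mod.RE P E)).comp (Int.castRingHom (_root_.Fermat.Agent.A2.Mod.RE P E)) := RingHom.ext_int _ _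
    rw [h1, ← Polynomial.hom_eval₂, hG, map_zero]
  haveI : PerfectField (IsLocalRing.ResidueField (_root_.Fermat.Agent.A2.Mod.RE P E)) :=
    Algebra.IsAlgebraic.perfectField (ZMod q)
  haveI : ExpChar (IsLocalRing.ResidueField (_root_.Fermat.Agent.A2.Mod.RE P E)) q := ExpChar.prime hq
  obtain ⟨y, hy⟩ := surjective_frobenius (IsLocalRing.ResidueField (_root_.Fermat.Agent.A2.Mod.RE P E)) q c
  exact ⟨y, hy⟩

end Residue

section Divide

variable {L : Type*} [Field L] (A : ValuationSubring L)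

/-- An integral series with zero reduction is divisible by a uniformiser. -/
theorem exists_incl_eq_inv_mul [IsDiscreteValuationRing A] {w : A} (hw : Irreducible w)
    {U : LaurentSeries A} (hU : H708.red A U = 0) :
    ∃ U' : LaurentSeries A, H708.incl A U' = H708.cst ((w : L))⁻¹ * H708.incl A U := by
  apply H708.exists_incl_eq
  intro n
  rw [H708.coeff_cst_mul, H708.coeff_incl]
  have h1 : A.valuation ((U.coeff n : A) : L) < 1 := (H708.red_eq_zero_iff A U).mp hU n
  have h2 : U.coeff n ∈ IsLocalRing.maximalIdeal A := (A.valuation_lt_one_iff _).mpr h1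
  rw [hw.maximalIdeal_eq, Ideal.mem_span_singleton'] at h2
  obtain ⟨y, hy⟩ := h2
  have hw0 : (w : L) ≠ 0 := by
    intro h
    exact hw.ne_zero (Subtype.ext h)
  have h3 : ((U.coeff n : A) : L) = (y : L) * (w : L) := by
    rw [← hy]; rfl
  rw [h3, mul_comm (y : L), ← mul_assoc, inv_mul_cancel₀ hw0, one_mul]
  exact y.2

end Divide

section Main

variable (P : ValuationSubring _root_.Fermat.Agent.A2.Mod.Qb) (E : IntermediateField ℚ _root_.Fermat.Agent.A2.Mod.Qb) (M q : ℕ) [NeZero M] [NeZero q]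
  (w : _root_.Fermat.Agent.A2.Mod.RE P E)

/-- **L12 (Kronecker, semilinear form).** -/
theorem kron : KronStatement P E M q w := by
  intro hS VM V hVM hV a ha
  have hq := hS.q_prime
  haveI : Fact q.Prime := ⟨hq⟩
  haveI := hS.dvr
  have hAq : (_root_.Fermat.Agent.A2.Mod.RE P E).LiesOverPrime q := liesOver_RE P E hS.lies_over
  haveI : CharP (IsLocalRing.ResidueField (_root_.Fermat.Agent.A2.Mod.RE P E)) q :=
    Fermat.Agent.S18.H516.charP_residue (_root_.Fermat.Agent.A2.Mod.RE P E) hAq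
  have core : CoreData M (IsLocalRing.ResidueField (_root_.Fermat.Agent.A2.Mod.RE P E)) :=
    Fermat.Agent.S18.H516.coreData_of_charP M q hS.q_not_dvd _
  -- a representation of `a`
  obtain ⟨U₁, U₂, hU₂, hU₂F, hU⟩ := (hVM a).mp ha
  have hU₁F : H708.incl (_root_.Fermat.Agent.A2.Mod.RE P E) U₁ ∈ _root_.Fermat.Agent.A2.Mod.FE E M := by
    rw [← hU]; exact mul_mem a.2 hU₂F
  -- the residues lie in `F_k`
  have hr₁ : H708.red (_root_.Fermat.Agent.A2.Mod.RE P E) U₁ ∈ modularFunctionFieldFullC _ M :=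
    Fermat.Agent.S18.H516.red_mem_of_incl_mem (_root_.Fermat.Agent.A2.Mod.RE P E) (IsLocalRing.residue _) M core hU₁F
  have hr₂ : H708.red (_root_.Fermat.Agent.A2.Mod.RE P E) U₂ ∈ modularFunctionFieldFullC _ M :=
    Fermat.Agent.S18.H516.red_mem_of_incl_mem (_root_.Fermat.Agent.A2.Mod.RE P E) (IsLocalRing.residue _) M core hU₂F
  -- the Frobenius twist of the residue of `a`
  obtain ⟨r', hr', hr'e⟩ := exists_frob_root_of_mem_fullC _ q M hq
    (exists_pow_eq_residue P E hq hS.lies_over) (mul_mem hr₁ (inv_mem hr₂))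
  -- lift it
  obtain ⟨W₁, W₂, hW₁F, hW₂F, hW₂, hW⟩ := exists_lift_of_mem_fullC (_root_.Fermat.Agent.A2.Mod.RE P E) M hr'
  have hW₂0 : H708.incl (_root_.Fermat.Agent.A2.Mod.RE P E) W₂ ≠ 0 :=
    H708.incl_ne_zero _ (H708.ne_zero_of_red_ne_zero _ hW₂)
  have hU₂0 : H708.incl (_root_.Fermat.Agent.A2.Mod.RE P E) U₂ ≠ 0 :=
    H708.incl_ne_zero _ (H708.ne_zero_of_red_ne_zero _ hU₂)
  set a' : _root_.Fermat.Agent.A2.Mod.FE E M := ⟨H708.incl (_root_.Fermat.Agent.A2.Mod.RE P E) W₁, hW₁F⟩ * (⟨H708.incl (_root_.Fermat.Agent.A2.Mod.RE P E) W₂, hW₂F⟩)⁻¹ with ha'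
  have ha'c : (a' : LaurentSeries E) = H708.incl (_root_.Fermat.Agent.A2.Mod.RE P E) W₁ * (H708.incl (_root_.Fermat.Agent.A2.Mod.RE P E) W₂)⁻¹ := by
    rw [ha', IntermediateField.coe_mul, IntermediateField.coe_inv]
  have ha'V : a' ∈ VM := by
    rw [hVM]
    refine ⟨W₁, W₂, hW₂, hW₂F, ?_⟩
    rw [ha'c, mul_assoc, inv_mul_cancel₀ hW₂0, mul_one]
  refine ⟨a', ha'V, ?_⟩
  -- the numerator
  set Wn : LaurentSeries (_root_.Fermat.Agent.A2.Mod.RE P E) :=
    qExpand _ q U₁ * W₂ ^ q - W₁ ^ q * qExpand _ q U₂ with hWn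
  have hρ₂ : qExpand _ q (H708.red (_root_.Fermat.Agent.A2.Mod.RE P E) U₂) ≠ 0 := by
    rw [Ne, map_eq_zero_iff _ (RingHom.injective _)]
    exact hU₂
  have hred : H708.red (_root_.Fermat.Agent.A2.Mod.RE P E) Wn = 0 := by
    rw [hWn, map_sub, map_mul, map_mul, map_pow, map_pow]
    show coeffMap _ (qExpand _ q U₁) * _ - _ * coeffMap _ (qExpand _ q U₂) = 0
    rw [coeffMap_qExpand, coeffMap_qExpand]
    show qExpand _ q (H708.red (_root_.Fermat.Agent.A2.Mod.RE P E) U₁) * _ - _ * qExpand _ q (H708.red (_root_.Fermat.Agent.A2.Mod.RE P E) U₂) = 0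
    rw [hW, mul_pow, hr'e, map_mul, map_inv₀]
    field_simp
    ring
  obtain ⟨W', hW'⟩ := exists_incl_eq_inv_mul (_root_.Fermat.Agent.A2.Mod.RE P E) hS.unif hred
  -- conclusion
  show (βE E M q a - (αE E M q a') ^ q) * (cE P E (M * q) w)⁻¹ ∈ V
  rw [hV]
  refine ⟨W', qExpand _ q U₂ * W₂ ^ q, ?_, ?_, ?_⟩
  · rw [map_mul, map_pow]
    show coeffMap _ (qExpand _ q U₂) * _ ≠ 0
    rw [coeffMap_qExpand]
    exact mul_ne_zero hρ₂ (pow_ne_zero _ hW₂)
  · rw [map_mul, map_pow]
    show coeffMap _ (qExpand _ q U₂) * _ ∈ _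
    rw [coeffMap_qExpand]
    exact mul_mem (βE E M q ⟨H708.incl (_root_.Fermat.Agent.A2.Mod.RE P E) U₂, hU₂F⟩).2
      (pow_mem (αE E M q ⟨H708.incl (_root_.Fermat.Agent.A2.Mod.RE P E) W₂, hW₂F⟩).2 _)
  · rw [hW']
    have hc : (((βE E M q a - (αE E M q a') ^ q) * (cE P E (M * q) w)⁻¹ : _root_.Fermat.Agent.A2.Mod.FE E (M * q)) :
        LaurentSeries E) =
        (qExpand E q (a : LaurentSeries E) - (a' : LaurentSeries E) ^ q) *
          (H708.cst ((w : E)))⁻¹ := rfl
    have hcst : H708.cst ((w : E))⁻¹ = (H708.cst ((w : E)))⁻¹ := map_inv₀ _ _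
    have hq1 : H708.incl (_root_.Fermat.Agent.A2.Mod.RE P E) (qExpand _ q U₁) = qExpand E q (H708.incl (_root_.Fermat.Agent.A2.Mod.RE P E) U₁) :=
      coeffMap_qExpand _ q U₁
    have hq2 : H708.incl (_root_.Fermat.Agent.A2.Mod.RE P E) (qExpand _ q U₂) = qExpand E q (H708.incl (_root_.Fermat.Agent.A2.Mod.RE P E) U₂) :=
      coeffMap_qExpand _ q U₂
    have hpow : (a' : LaurentSeries E) ^ q * (H708.incl (_root_.Fermat.Agent.A2.Mod.RE P E) W₂) ^ q =
        (H708.incl (_root_.Fermat.Agent.A2.Mod.RE P E) W₁) ^ q := by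
      rw [ha'c, ← mul_pow, mul_assoc, inv_mul_cancel₀ hW₂0, mul_one]
    rw [hc, hcst, hWn, map_sub, map_mul, map_mul, map_mul, map_pow, map_pow, hq1, hq2,
      ← hU, map_mul, ← hpow]
    ring

end Main

end Fermat.Agent.A2.Mod.H96

end
end
-- ===== PACK-END A2/Mod/H96/L12.lean

-- ===== PACK-BEGIN A2/Mod/H900/L7.lean
section



/-!
# A2 / MOD leaf L7 (helper900): `FrickeStableStatement`, verbatim

At a level `M` prime to `q` the Fricke involution `W` of `F_{M,E}` preserves the Gauss valuation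
ring `V∞` (no discreteness of `R_E` is used; only `P ∣ q`, `q ∤ M`, `V∞` = Gauss-integral
elements, `W j_d = j_{M/d}`).

Proof (`L7Core.lean`): by `S28.CoreData M k` every `f ∈ F_{M,E}` is
`c · (∑ᵢ Hᵢ(j) yᵢ) / G(j)` with `G, Hᵢ ∈ R[X]` primitive and `yᵢ ∈ ℤ[j_d]`, and `f ∈ V∞ ↔ c ∈ R`
(independence of the residues `ȳᵢ` over `k(j̄)`); then
`W f = c · (∑ᵢ Hᵢ(j_M) W yᵢ) / G(j_M)` with `G(j_M)` an integral series of nonzero reduction.
-/

set_option autoImplicit false
set_option synthInstance.maxHeartbeats 400000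
set_option maxHeartbeats 1600000

noncomputable section

namespace Fermat.Agent.A2.Mod.H900

open ModularCurve HahnSeries Polynomial IntermediateField Fermat.Agent.S28

/-- `R_E = P ∩ E` lies over `q` when `P` does. -/
theorem liesOverPrime_RE {P : ValuationSubring _root_.Fermat.Agent.A2.Mod.Qb} (E : IntermediateField ℚ _root_.Fermat.Agent.A2.Mod.Qb) {q : ℕ}
    (hP : P.LiesOverPrime q) : (_root_.Fermat.Agent.A2.Mod.RE P E).LiesOverPrime q := by
  have h1 : (q : _root_.Fermat.Agent.A2.Mod.Qb) ∈ P.nonunits := hP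
  show (q : E) ∈ (_root_.Fermat.Agent.A2.Mod.RE P E).nonunits
  rw [ValuationSubring.mem_nonunits_iff_or] at h1 ⊢
  rcases h1 with h1 | h1
  · left
    have : algebraMap E _root_.Fermat.Agent.A2.Mod.Qb (q : E) = 0 := by rw [map_natCast]; exact h1
    exact (map_eq_zero _).mp this
  · right
    intro h2
    apply h1
    have h3 : algebraMap E _root_.Fermat.Agent.A2.Mod.Qb ((q : E)⁻¹) ∈ P := h2
    rwa [map_inv₀, map_natCast] at h3

/-- S28 core data for the residue field of `R_E`, `q ∤ M`. -/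
theorem coreData_RE {P : ValuationSubring _root_.Fermat.Agent.A2.Mod.Qb} (E : IntermediateField ℚ _root_.Fermat.Agent.A2.Mod.Qb) (M : ℕ) [NeZero M]
    {q : ℕ} (hq : q.Prime) (hqM : ¬ q ∣ M) (hP : P.LiesOverPrime q) :
    CoreData M (IsLocalRing.ResidueField (_root_.Fermat.Agent.A2.Mod.RE P E)) := by
  haveI : Fact q.Prime := ⟨hq⟩
  haveI := S18.H516.charP_residue (_root_.Fermat.Agent.A2.Mod.RE P E) (liesOverPrime_RE E hP)
  exact S18.H516.coreData_of_charP M q hqM _

/-- **Leaf L7 (FrickeStable), verbatim.** -/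
theorem frickeStable (P : ValuationSubring _root_.Fermat.Agent.A2.Mod.Qb) (E : IntermediateField ℚ _root_.Fermat.Agent.A2.Mod.Qb) (M q : ℕ)
    [NeZero M] [NeZero q] (w : _root_.Fermat.Agent.A2.Mod.RE P E) : FrickeStableStatement P E M q w := by
  intro hS V W hV hW f hf
  have core := coreData_RE E M hS.q_prime hS.q_not_dvd hS.lies_over
  have hW' : FrickeOnGens M W := fun d d' _ _ hd hd' h => hW.1 d d' hd hd' h
  exact (hV (W f)).mpr (frickeStable_core (_root_.Fermat.Agent.A2.Mod.RE P E) core hW' f ((hV f).mp hf))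

end Fermat.Agent.A2.Mod.H900

end
end
-- ===== PACK-END A2/Mod/H900/L7.lean

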