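import Mathlib
import Fermat.Agent.Pack.S36.E15L2
import Fermat.Agent.Pack.S36.E13L2
import Fermat.Agent.Pack.S36.E15L1
import Fermat.Agent.Pack.S36.E15L3
import Fermat.Agent.Pack.S36.E1L1
import Fermat.Agent.Pack.S36.E8L1
import Fermat.Agent.Pack.S36.E4L0
import Fermat.Agent.Pack.S36.E11L0
import Fermat.Agent.Pack.S36.E4L1
import Fermat.Agent.Pack.S36.E12L1
import Fermat.Agent.Pack.S36.E11L3
import Fermat.Agent.Pack.S36.E12L0
import Fermat.Agent.Pack.S36.E10L1
import Fermat.Agent.Pack.S36.E5L1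
import Fermat.Agent.Pack.S36.E1L0
import Fermat.Agent.Pack.S36.E15L0
import Fermat.Agent.Pack.S36.E5L3

-- ===== PACK-BEGIN S29/H812/NormFormula.lean
section


/-!
# S29 / H812 — the norm formula and the Prelude classes `SumRamificationInertia`,
`FundamentalIdentity`, `PushforwardNormFormula` for finite extensions of function fields over an
algebraically closed field of characteristic zero.
-/

set_option autoImplicit false

noncomputable section

open AlgebraicCurve IntermediateField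

namespace Fermat.Agent.S29.H812

open Fermat.Agent.S24

variable {K F F' : Type*} [Field K] [Field F] [Field F']
  [Algebra K F] [Algebra K F'] [Algebra F F'] [IsScalarTower K F F']
  [Algebra.IsIntegral F F'] [HasPrincipalDivisors K F']
  [IsAlgClosed K] [CharZero K] [Module.Finite F F']

variable (hF : ∃ x : F, Transcendental K x ∧ FiniteDimensional K⟮x⟯ F)

include hF in
omit [HasPrincipalDivisors K F'] [CharZero K] in
theorem inertiaDeg_eq_one (w : Place K F') : w.inertiaDeg F = 1 := by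
  obtain ⟨x, hx, hxfin⟩ := hF
  haveI := finiteDimensional_adjoin_algebraMap (K := K) (F' := F') x
  have h := w.deg_restrict_mul_inertiaDeg (F := F)
  rw [FF.deg_eq_one (w.restrict F) hx,
    FF.deg_eq_one w (transcendental_algebraMap_of (F' := F') hx), one_mul] at h
  exact h

include hF in
/-- **Norm formula**: `ord_v (N f) = ∑_{w | v} ord_w f`. -/
theorem ord_norm_eq_sum (v : Place K F) {f : F'} (hf : f ≠ 0) :
    v.ord (Algebra.norm F f) = ∑ w ∈ v.fiber F', w.ord f := by
  classical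
  have hϖ : ∀ w : Place K F', ∃ ϖ : F', ϖ ≠ 0 ∧ w.ord ϖ = 1 ∧
      ∀ w' ∈ (v.fiber F').erase w, w'.ord ϖ = 0 := fun w =>
    exists_ord_eq_one_and_zero w _ (Finset.notMem_erase _ _)
  choose ϖ hϖ0 hϖ1 hϖ2 using hϖ
  set c : Place K F' → ℤ := fun w => v.ord (Algebra.norm F (ϖ w)) with hc
  have hpne : ∀ k : Place K F' → ℕ, ∏ w ∈ v.fiber F', ϖ w ^ k w ≠ 0 := fun k =>
    Finset.prod_ne_zero_iff.mpr fun w _ => pow_ne_zero _ (hϖ0 w)
  have hprod : ∀ (k : Place K F' → ℕ), ∀ w' ∈ v.fiber F',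
      w'.ord (∏ w ∈ v.fiber F', ϖ w ^ k w) = k w' := by
    intro k w' hw'
    rw [ord_prod w' _ _ fun w _ => pow_ne_zero _ (hϖ0 w)]
    simp_rw [H117.ord_pow]
    rw [Finset.sum_eq_single w']
    · rw [hϖ1 w']; ring
    · intro w _ hne
      rw [hϖ2 w w' (Finset.mem_erase.mpr ⟨fun h => hne h.symm, hw'⟩)]; ring
    · intro h; exact absurd hw' h
  have hnorm : ∀ k : Place K F' → ℕ,
      v.ord (Algebra.norm F (∏ w ∈ v.fiber F', ϖ w ^ k w)) = ∑ w ∈ v.fiber F', (k w : ℤ) * c w := by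
    intro k
    rw [map_prod, ord_prod v _ _ fun w _ =>
      Algebra.norm_ne_zero_iff.mpr (pow_ne_zero _ (hϖ0 w))]
    refine Finset.sum_congr rfl fun w _ => ?_
    rw [map_pow, H117.ord_pow]
  have hstar : ∀ f : F', f ≠ 0 →
      v.ord (Algebra.norm F f) = ∑ w ∈ v.fiber F', w.ord f * c w := by
    intro f hf
    set p : Place K F' → ℕ := fun w => (w.ord f).toNat with hp
    set n : Place K F' → ℕ := fun w => (-(w.ord f)).toNat with hn
    have hpn : ∀ w : Place K F', w.ord f = (p w : ℤ) - (n w : ℤ) := by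
      intro w
      simp only [hp, hn]
      omega
    have hcong := ord_norm_congr hF v (g := f * ∏ w ∈ v.fiber F', ϖ w ^ n w)
      (h := ∏ w ∈ v.fiber F', ϖ w ^ p w) (mul_ne_zero hf (hpne n)) (hpne p) (by
        intro w' hw'
        rw [w'.ord_mul hf (hpne n), hprod n w' hw', hprod p w' hw', hpn w']
        ring)
    rw [map_mul, v.ord_mul (Algebra.norm_ne_zero_iff.mpr hf)
      (Algebra.norm_ne_zero_iff.mpr (hpne n)), hnorm, hnorm] at hcong
    have : ∑ w ∈ v.fiber F', w.ord f * c w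
        = ∑ w ∈ v.fiber F', (p w : ℤ) * c w - ∑ w ∈ v.fiber F', (n w : ℤ) * c w := by
      rw [← Finset.sum_sub_distrib]
      refine Finset.sum_congr rfl fun w _ => ?_
      rw [hpn w]; ring
    rw [this]
    linarith
  -- the constants `c w` are all `1`
  obtain ⟨π, hπ0, hπ1⟩ := H117.exists_ord_eq_one v
  have hπ' : algebraMap F F' π ≠ 0 := by simpa using hπ0
  have h1 := hstar (algebraMap F F' π) hπ'
  rw [Algebra.norm_algebraMap, H117.ord_pow, hπ1, mul_one] at h1
  have h2 : ∀ w ∈ v.fiber F', w.ord (algebraMap F F' π) = (w.ramificationIndex F : ℤ) := by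
    intro w hw
    rw [w.ord_restrict, Place.mem_fiber.mp hw, hπ1, mul_one]
  have h3 : ((∑ w ∈ v.fiber F', w.ramificationIndex F : ℕ) : ℤ) = (Module.finrank F F' : ℤ) := by
    exact_mod_cast sum_ramificationIndex_eq_finrank hF v
  have hcpos : ∀ w ∈ v.fiber F', 1 ≤ c w := by
    intro w hw
    have hin : InFib v (ϖ w) := inFib_iff_ord.mpr fun w' hw' => by
      by_cases h : w' = w
      · rw [h, hϖ1]; norm_num
      · rw [hϖ2 w w' (Finset.mem_erase.mpr ⟨h, hw'⟩)]
    have := ord_norm_pos_of_ord_pos hF v (hϖ0 w) hin hw (by rw [hϖ1]; norm_num)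
    exact this
  have h4 : ∑ w ∈ v.fiber F', (w.ramificationIndex F : ℤ) * (c w - 1) = 0 := by
    have : ∑ w ∈ v.fiber F', (w.ramificationIndex F : ℤ) * (c w - 1)
        = ∑ w ∈ v.fiber F', w.ord (algebraMap F F' π) * c w
          - ∑ w ∈ v.fiber F', (w.ramificationIndex F : ℤ) := by
      rw [← Finset.sum_sub_distrib]
      refine Finset.sum_congr rfl fun w hw => ?_
      rw [h2 w hw]; ring
    rw [this, ← h1]
    push_cast at h3
    rw [h3]; ring
  have h5 := (Finset.sum_eq_zero_iff_of_nonneg (fun w hw => by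
    have he : (0 : ℤ) ≤ (w.ramificationIndex F : ℤ) := Int.natCast_nonneg _
    have := hcpos w hw
    exact mul_nonneg he (by omega))).mp h4
  have hc1 : ∀ w ∈ v.fiber F', c w = 1 := by
    intro w hw
    have h6 := h5 w hw
    have he : (0 : ℤ) < (w.ramificationIndex F : ℤ) := by
      exact_mod_cast w.ramificationIndex_pos (F := F)
    rcases mul_eq_zero.mp h6 with h7 | h7
    · omega
    · omega
  rw [hstar f hf]
  refine Finset.sum_congr rfl fun w hw => ?_
  rw [hc1 w hw, mul_one]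

include hF in
/-- The Prelude's `PushforwardNormFormula`. -/
theorem pushforwardNormFormula : Divisor.PushforwardNormFormula K F F' := by
  classical
  intro f hf D hD v
  rw [Divisor.pushforward_apply, ord_norm_eq_sum hF v hf]
  have h1 : ∀ w ∈ D.support,
      (if w.restrict F = v then D w * (w.inertiaDeg F : ℤ) else 0)
        = if w.restrict F = v then w.ord f else 0 := by
    intro w _
    rw [inertiaDeg_eq_one hF w, hD w]
    simp
  rw [Finset.sum_congr rfl h1, ← Finset.sum_filter]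
  refine Finset.sum_subset ?_ ?_
  · intro w hw
    exact Place.mem_fiber.mpr (Finset.mem_filter.mp hw).2
  · intro w hw hnot
    have : w ∉ D.support := fun h => hnot (Finset.mem_filter.mpr ⟨h, Place.mem_fiber.mp hw⟩)
    rw [Finsupp.notMem_support_iff] at this
    rw [← hD w, this]

include hF in
/-- The Prelude's `SumRamificationInertia`. -/
theorem sumRamificationInertia : SumRamificationInertia K F F' where
  sum_ramificationIndex_mul_inertiaDeg v := by
    have h := sum_ramificationIndex_eq_finrank (F' := F') hF v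
    rw [← h]
    push_cast
    refine Finset.sum_congr rfl fun w _ => ?_
    rw [inertiaDeg_eq_one hF w]
    simp

include hF in
/-- The Prelude's `FundamentalIdentity`. -/
theorem fundamentalIdentity : FundamentalIdentity K F F' :=
  haveI := sumRamificationInertia (F' := F') hF
  inferInstance

end Fermat.Agent.S29.H812

end
end
-- ===== PACK-END S29/H812/NormFormula.lean

-- ===== PACK-BEGIN Lib/RR/H864/FF1Modular.lean
section



/-!
# RR library, bridge: `FF1` for the function field of `X₀(N)` over `ℚ̄`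
-/

set_option autoImplicit false

noncomputable section

open AlgebraicCurve ModularCurve IntermediateField

namespace Fermat.Agent.Lib.RR.H864

open Fermat.Agent.S24 in
theorem jF_not_mem_range (N : ℕ) [NeZero N] :
    jF N ∉ (algebraMap Kbar (FF N)).range := by
  rintro ⟨c, hc⟩
  have h1 : ((algebraMap Kbar (FF N) c : FF N) : LaurentSeries Kbar).coeff (-1)
      = ((jF N : FF N) : LaurentSeries Kbar).coeff (-1) := by rw [hc]
  have h2 : ((algebraMap Kbar (FF N) c : FF N) : LaurentSeries Kbar)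
      = algebraMap Kbar (LaurentSeries Kbar) c := rfl
  rw [h2, algebraMap_laurentSeries_eq_single] at h1
  have h3 : ((jF N : FF N) : LaurentSeries Kbar) = coeffEmb Kbar jq := rfl
  rw [h3, coeffEmb_coeff, coeff_jq_neg_one, map_one,
    HahnSeries.coeff_single_of_ne (by norm_num)] at h1
  exact zero_ne_one h1

open Fermat.Agent.S24 in
theorem transcendental_jF (N : ℕ) [NeZero N] : Transcendental Kbar (jF N) :=
  FF.transcendental_of_not_mem_range (jF_not_mem_range N)

open Fermat.Agent.S24 in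
/-- **`FF1` for the modular function field** `ℚ̄(j(q^d) : d ∣ N)`. -/
theorem ff1_modularFunctionFieldBar (N : ℕ) [NeZero N] :
    FF1 (AlgebraicClosure ℚ) ↥(modularFunctionFieldBar N) := by
  obtain ⟨P⟩ := nonempty_modularPackage N
  haveI := P.finiteDimensional
  exact ff1 (jF N) (transcendental_jF N)

/-- The modular function field has principal divisors. -/
theorem hasPrincipalDivisors_modularFunctionFieldBar (N : ℕ) [NeZero N] :
    HasPrincipalDivisors (AlgebraicClosure ℚ) ↥(modularFunctionFieldBar N) :=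
  (ff1_modularFunctionFieldBar N).hpd

end Fermat.Agent.Lib.RR.H864

end
end
-- ===== PACK-END Lib/RR/H864/FF1Modular.lean

-- ===== PACK-BEGIN S37/H819/Gamma.lean
section


/-!
# S37 / NORM (helper819) — matrix lemmas for the cosets of `Γ₀(Nℓ)` in `Γ₀(N)`

For a prime `ℓ ∤ N` and `h ∈ Γ₀(N)`:
* either `ℓ ∣ h₁₀` (then `h ∈ Γ₀(Nℓ)`), or there is `b` with `ℓ ∣ h₁₁ - b h₁₀`;
* in the second case `diag(dℓ,1)·h = γ'·[[d, d b],[0, ℓ]]` for every `d ∣ N`, i.e.
  `j(dℓ·hτ) = j(d(τ+b)/ℓ)`;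
* every residue `b` occurs.
-/

set_option autoImplicit false

noncomputable section

open UpperHalfPlane
open scoped MatrixGroups

namespace Fermat.Agent.S37.H819

open Fermat.Agent.S24 Fermat.Agent.S24.H997

theorem gamma0_mem_iff_dvd (N : ℕ) (g : SL(2, ℤ)) :
    g ∈ CongruenceSubgroup.Gamma0 N ↔ (N : ℤ) ∣ g 1 0 := by
  rw [CongruenceSubgroup.Gamma0_mem, ZMod.intCast_zmod_eq_zero_iff_dvd]

/-- If `ℓ ∣ h₁₀` and `h ∈ Γ₀(N)` with `gcd(N,ℓ) = 1`, then `h ∈ Γ₀(Nℓ)`. -/
theorem mem_gamma0_mul {N ℓ : ℕ} (hcop : Nat.Coprime N ℓ) {h : SL(2, ℤ)}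
    (hN : h ∈ CongruenceSubgroup.Gamma0 N) (hℓ : (ℓ : ℤ) ∣ h 1 0) :
    h ∈ CongruenceSubgroup.Gamma0 (N * ℓ) := by
  rw [gamma0_mem_iff_dvd] at hN ⊢
  have hc : IsCoprime (N : ℤ) (ℓ : ℤ) := Nat.isCoprime_iff_coprime.mpr hcop
  push_cast
  exact hc.mul_dvd hN hℓ

/-- For `ℓ` prime, either `ℓ ∣ h₁₀` or `h₁₁ ≡ b h₁₀ mod ℓ` for some `b`. -/
theorem dvd_or_exists_b {ℓ : ℕ} (hℓ : ℓ.Prime) (h : SL(2, ℤ)) :
    (ℓ : ℤ) ∣ h 1 0 ∨ ∃ b : ℤ, (ℓ : ℤ) ∣ h 1 1 - b * h 1 0 := by
  by_cases hd : (ℓ : ℤ) ∣ h 1 0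
  · exact Or.inl hd
  · right
    have hp : Prime (ℓ : ℤ) := Nat.prime_iff_prime_int.mp hℓ
    have hc : IsCoprime (ℓ : ℤ) (h 1 0) := (Prime.coprime_iff_not_dvd hp).mpr hd
    obtain ⟨s, t, hst⟩ := hc
    refine ⟨h 1 1 * t, ⟨h 1 1 * s, ?_⟩⟩
    linear_combination (-(h 1 1)) * hst

/-- `ℓ ∣ h₁₁ - b h₁₀` excludes `ℓ ∣ h₁₀`. -/
theorem not_dvd_of_twist {ℓ : ℕ} (hℓ : ℓ.Prime) {h : SL(2, ℤ)} {b : ℤ}
    (hb : (ℓ : ℤ) ∣ h 1 1 - b * h 1 0) : ¬ (ℓ : ℤ) ∣ h 1 0 := by
  intro hd
  have h11 : (ℓ : ℤ) ∣ h 1 1 := by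
    have := dvd_add hb (Dvd.dvd.mul_left hd b)
    simpa using this
  have hdet := inf_sl_det h
  have h1 : (ℓ : ℤ) ∣ 1 := by
    rw [← hdet]
    exact dvd_sub (Dvd.dvd.mul_left h11 _) (Dvd.dvd.mul_left hd _)
  have hp : Prime (ℓ : ℤ) := Nat.prime_iff_prime_int.mp hℓ
  exact hp.not_dvd_one h1

/-- The Hermite normal form `diag(dℓ,1)·h = γ'·[[d, d b],[0, ℓ]]`. -/
theorem exists_hnf_twist (d ℓ : ℕ) (b : ℤ) (h : SL(2, ℤ)) (hd : (d : ℤ) ∣ h 1 0)
    (hb : (ℓ : ℤ) ∣ h 1 1 - b * h 1 0) :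
    ∃ γ' : SL(2, ℤ), ((d * ℓ : ℕ) : ℤ) * h 0 0 = γ' 0 0 * (d : ℕ) ∧
      ((d * ℓ : ℕ) : ℤ) * h 0 1 = γ' 0 0 * ((d : ℤ) * b) + γ' 0 1 * (ℓ : ℕ) ∧
      h 1 0 = γ' 1 0 * (d : ℕ) ∧ h 1 1 = γ' 1 0 * ((d : ℤ) * b) + γ' 1 1 * (ℓ : ℕ) := by
  obtain ⟨c, hc⟩ := hd
  obtain ⟨e, he⟩ := hb
  have hdet := inf_sl_det h
  refine ⟨⟨!![(ℓ : ℤ) * h 0 0, (d : ℤ) * h 0 1 - (d : ℤ) * b * h 0 0; c, e], ?_⟩, ?_, ?_, ?_, ?_⟩
  · rw [Matrix.det_fin_two_of]
    have h11 : h 1 1 = (ℓ : ℤ) * e + b * h 1 0 := by linarith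
    rw [h11, hc] at hdet
    linear_combination hdet
  · simp; ring
  · simp; ring
  · simp [hc]; ring
  · simp
    have h11 : h 1 1 = (ℓ : ℤ) * e + b * h 1 0 := by linarith
    rw [h11, hc]; ring

/-- Every residue class `b` is realised by some `h ∈ Γ₀(N)`. -/
theorem exists_rep {N ℓ : ℕ} (hcop : Nat.Coprime N ℓ) (b : ℤ) :
    ∃ h : SL(2, ℤ), h ∈ CongruenceSubgroup.Gamma0 N ∧ (ℓ : ℤ) ∣ h 1 1 - b * h 1 0 := by
  have hc : IsCoprime (b * N + ℓ : ℤ) (N : ℤ) := by
    have h0 : IsCoprime (ℓ : ℤ) (N : ℤ) := (Nat.isCoprime_iff_coprime.mpr hcop).symm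
    have := h0.add_mul_right_left b
    simpa [add_comm] using this
  obtain ⟨s, t, hst⟩ := hc
  have hdet : (!![s, -t; (N : ℤ), b * N + ℓ] : Matrix (Fin 2) (Fin 2) ℤ).det = 1 := by
    rw [Matrix.det_fin_two_of]
    linear_combination hst
  let g : SL(2, ℤ) := ⟨!![s, -t; (N : ℤ), b * N + ℓ], hdet⟩
  have g10 : g 1 0 = (N : ℤ) := by simp [g]
  have g11 : g 1 1 = b * N + ℓ := by simp [g]
  refine ⟨g, ?_, ?_⟩
  · rw [gamma0_mem_iff_dvd, g10]
  · rw [g10, g11]
    exact ⟨1, by ring⟩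

end Fermat.Agent.S37.H819

end
end
-- ===== PACK-END S37/H819/Gamma.lean

-- ===== PACK-BEGIN S29/H222/ESKFamily.lean
section
/-
S29 / helper222 — piece ESK, adapter: the Eichler–Shimura input of layer M in the exact shape of
`Fermat.Agent.S29.M.ESStatement` (deputy helper30's `M/Defs.lean`), from the four external inputs
stated as families:

* `CoreFamily`   : `S18.CoreStatement N A m` for `ℓ ∤ N`, `ℓ ∤ m`, `A` over `ℓ`     (row S18)
* `PGIFamily`    : Prelude `PrincipalGeneratedByIntegral A (residue A) N`            (S18/S37, M1-Gauss)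
* `HIFamily`     : Prelude `HeckeInputsAlong ℚ̄ N ℓ`                                  (piece HI)
* `NormIdFamily` : `NormId N ℓ`                                                      (piece NKI)
-/


set_option autoImplicit false
set_option linter.style.haveILetI false

noncomputable section

namespace Fermat.Agent.S29.H222

open ModularCurve AlgebraicCurve HahnSeries IsLocalRing
open Fermat.Agent.S18 (Qb IsInt toF CoreStatement)

/-- Row S18: the Kummer core for all `ℓ ∤ N m`. -/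
def CoreFamily : Prop :=
  ∀ (N : ℕ) [NeZero N] (ℓ : ℕ), ℓ.Prime → ¬ ℓ ∣ N → ∀ m : ℕ, ¬ ℓ ∣ m →
    ∀ A : ValuationSubring Qb, A.LiesOverPrime ℓ → CoreStatement N A m

/-- Principal divisors are generated by divisors of integral series (a theorem for `ℓ ∤ N`). -/
def PGIFamily : Prop :=
  ∀ (N : ℕ) [NeZero N] (ℓ : ℕ), ℓ.Prime → ¬ ℓ ∣ N →
    ∀ A : ValuationSubring Qb, A.LiesOverPrime ℓ →
      PrincipalGeneratedByIntegral A (IsLocalRing.residue A) N

/-- The six Prelude inputs of the Hecke correspondence `T_ℓ`, `ℓ ∤ N`. -/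
def HIFamily : Prop :=
  ∀ (N : ℕ) [NeZero N] (ℓ : ℕ) [NeZero ℓ], ℓ.Prime → ¬ ℓ ∣ N → HeckeInputsAlong Qb N ℓ

/-- NORM-ID for all `ℓ ∤ N`. -/
def NormIdFamily : Prop :=
  ∀ (N : ℕ) [NeZero N] (ℓ : ℕ) [NeZero ℓ], ℓ.Prime → ¬ ℓ ∣ N → NormId N ℓ

/-- **ES raw**, in the exact shape of the body of `Fermat.Agent.S29.M.ESStatement`. -/
theorem esRaw_of_families (hcore : CoreFamily) (hpgi : PGIFamily) (hHI : HIFamily)
    (hnid : NormIdFamily) :
    ∀ (N p : ℕ) [NeZero N] (ℓ : ℕ) (hℓ : ℓ.Prime), ¬ ℓ ∣ N * p →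
      ∀ A : ValuationSubring Qb, A.LiesOverPrime ℓ →
        (∀ τ ∈ A.inertiaSubgroupIn ℚ, ∀ x : JZero N, (∃ n : ℕ, p ^ n • x = 0) → τ • x = x) ∧
        (∀ σ : Qb ≃ₐ[ℚ] Qb, A.IsFrobeniusAt σ ℓ → ∀ x : JZero N, (∃ n : ℕ, p ^ n • x = 0) →
          σ • σ • x - heckeOperatorBar N ⟨ℓ, hℓ⟩ (σ • x) + ℓ • x = 0) := by
  intro N p _ ℓ hℓ hℓNp A hA
  haveI : NeZero ℓ := ⟨hℓ.ne_zero⟩
  have hℓN : ¬ ℓ ∣ N := fun h => hℓNp (Dvd.dvd.mul_right h p)
  have hℓp : ¬ ℓ ∣ p := fun h => hℓNp (Dvd.dvd.mul_left h N)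
  have hp0 : p ≠ 0 := fun h => hℓp (h ▸ dvd_zero ℓ)
  have hℓpn : ∀ n : ℕ, ¬ ℓ ∣ p ^ n := fun n h => hℓp (hℓ.dvd_of_dvd_pow h)
  have hx' : ∀ (n : ℕ) (x : JZero N), p ^ n • x = 0 → ((p ^ n : ℕ) : ℤ) • x = 0 := by
    intro n x hx
    rw [natCast_zsmul]
    exact hx
  refine ⟨?_, ?_⟩
  · rintro τ hτ x ⟨n, hx⟩
    exact esk_inertia N (p ^ n) (pow_ne_zero n hp0) A (hcore N ℓ hℓ hℓN (p ^ n) (hℓpn n) A hA)
      (hpgi N ℓ hℓ hℓN A hA) τ hτ x (hx' n x hx)
  · rintro σ hσ x ⟨n, hx⟩
    have h := esk_frob N ℓ hℓ (p ^ n) (pow_ne_zero n hp0) A hA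
      (hcore N ℓ hℓ hℓN (p ^ n) (hℓpn n) A hA) (hpgi N ℓ hℓ hℓN A hA)
      (hHI N ℓ hℓ hℓN) (hnid N ℓ hℓ hℓN) σ hσ x (hx' n x hx)
    rw [natCast_zsmul] at h
    exact h

end Fermat.Agent.S29.H222

end
end
-- ===== PACK-END S29/H222/ESKFamily.lean

-- ===== PACK-BEGIN S18/H694/CoreMul.lean
section






/-!
# S18 / helper694 — the hub `CoreStatement N A m` is multiplicative in `m`

The S18 interfaces (v4) prove `CoreStatement N A p` only for PRIME `p ≠ ℓ`.  Row S29 (ES-KUM,
`S29/H222/ESKFamily.lean`, `CoreFamily`) consumes `CoreStatement N A (p ^ n)`.  This file is the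
bridge:

* `laurent_const_of_pow_eq_C` : in `k((q))`, `z ^ a = C γ`, `γ ≠ 0`, `(a : k) ≠ 0` ⟹ `z = C δ`.
* `gauss_unit`      : `incl W₁ = C γ * incl W₂` with `W̄₁ ≠ 0 ≠ W̄₂` ⟹ `γ` is a unit of `A`.
* `core_mul`        : `CoreStatement N A a → CoreStatement N A b → CoreStatement N A (a * b)`
                      (given `CoreData N k` for the residue field `k` and `(a : k) ≠ 0`).
* `coreStatement_one`, `coreStatement_of_prime`, `coreFamily_of_prime` (exact body of
  `S29.H222.CoreFamily`).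
-/

set_option autoImplicit false

noncomputable section

namespace Fermat.Agent.S18.H694

open ModularCurve AlgebraicCurve HahnSeries

/-! ## 1. Constants of `k((q))` -/

section Const

variable {k : Type*} [Field k]

/-- In a power series ring over a field: `p ^ a = C γ` with `(a : k) ≠ 0`, `γ ≠ 0` forces `p`
to be constant. -/
theorem powerSeries_const_of_pow_eq_C {a : ℕ} (ha : (a : k) ≠ 0) {p : PowerSeries k} {γ : k}
    (hγ : γ ≠ 0) (h : p ^ a = PowerSeries.C γ) :
    p = PowerSeries.C (PowerSeries.constantCoeff p) := by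
  set p₀ : k := PowerSeries.constantCoeff p with hp₀
  have h0 : p₀ ^ a = γ := by
    have := congrArg PowerSeries.constantCoeff h
    rwa [map_pow, PowerSeries.constantCoeff_C] at this
  have hp₀ne : p₀ ≠ 0 := by
    intro h'
    rw [h'] at h0
    have ha0 : a ≠ 0 := by
      rintro rfl
      exact ha (by simp)
    rw [zero_pow ha0] at h0
    exact hγ h0.symm
  have hgeom := geom_sum₂_mul p (PowerSeries.C p₀) a
  have hrhs : p ^ a - (PowerSeries.C p₀) ^ a = 0 := by
    rw [h, ← map_pow, h0, sub_self]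
  rw [hrhs] at hgeom
  have hsum : (∑ i ∈ Finset.range a, p ^ i * (PowerSeries.C p₀) ^ (a - 1 - i)) ≠ 0 := by
    intro hs
    have := congrArg PowerSeries.constantCoeff hs
    rw [map_sum, map_zero] at this
    have h2 : ∀ i ∈ Finset.range a,
        PowerSeries.constantCoeff (p ^ i * (PowerSeries.C p₀) ^ (a - 1 - i)) = p₀ ^ (a - 1) := by
      intro i hi
      rw [map_mul, map_pow, map_pow, PowerSeries.constantCoeff_C, ← hp₀, ← _root_.pow_add]
      congr 1
      have := Finset.mem_range.mp hi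
      omega
    rw [Finset.sum_congr rfl h2, Finset.sum_const, Finset.card_range, nsmul_eq_mul] at this
    rcases mul_eq_zero.mp this with h3 | h3
    · exact ha h3
    · exact hp₀ne (pow_eq_zero_iff (n := a - 1) (by
        intro h4
        rw [h4, pow_zero] at h3
        exact one_ne_zero h3) |>.mp h3)
  rcases mul_eq_zero.mp hgeom with h1 | h1
  · exact absurd h1 hsum
  · exact sub_eq_zero.mp h1

/-- In `k((q))`: `z ^ a = C γ` with `(a : k) ≠ 0`, `γ ≠ 0` forces `z` to be a nonzero constant. -/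
theorem laurent_const_of_pow_eq_C {a : ℕ} (ha : (a : k) ≠ 0) {z : LaurentSeries k} {γ : k}
    (hγ : γ ≠ 0) (h : z ^ a = HahnSeries.C γ) :
    ∃ δ : k, δ ≠ 0 ∧ z = HahnSeries.C δ := by
  have ha0 : a ≠ 0 := by
    rintro rfl
    exact ha (by simp)
  have hz : z ≠ 0 := by
    rintro rfl
    rw [zero_pow ha0] at h
    exact hγ (HahnSeries.C_injective (by rw [← h, map_zero]))
  have hord : z.order = 0 := by
    have h1 := congrArg HahnSeries.order h
    rw [HahnSeries.order_pow, HahnSeries.order_C, nsmul_eq_mul] at h1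
    rcases mul_eq_zero.mp h1 with h2 | h2
    · exact absurd (by exact_mod_cast h2) ha0
    · exact h2
  have hp : HahnSeries.ofPowerSeries ℤ k z.powerSeriesPart = z := by
    rw [LaurentSeries.ofPowerSeries_powerSeriesPart, hord, neg_zero]
    show (1 : LaurentSeries k) * z = z
    rw [one_mul]
  have hpa : z.powerSeriesPart ^ a = PowerSeries.C γ := by
    apply HahnSeries.ofPowerSeries_injective (Γ := ℤ)
    rw [map_pow, hp, h, HahnSeries.ofPowerSeries_C]
  have hconst := powerSeries_const_of_pow_eq_C ha hγ hpa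
  refine ⟨PowerSeries.constantCoeff z.powerSeriesPart, ?_, ?_⟩
  · intro h0
    rw [h0, map_zero] at hconst
    rw [hconst, map_zero] at hp
    exact hz hp.symm
  · rw [← HahnSeries.ofPowerSeries_C, ← hconst, hp]

end Const

/-! ## 2. The Gauss unit lemma -/

section Gauss

variable {L : Type*} [Field L] (A : ValuationSubring L)

/-- If two series over `A` with nonzero reductions differ by a constant `γ` of `L`, then `γ` is
(the image of) a unit of `A`. -/
theorem gauss_unit {W₁ W₂ : LaurentSeries A} {γ : L}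
    (h1 : coeffMap (IsLocalRing.residue A) W₁ ≠ 0)
    (h2 : coeffMap (IsLocalRing.residue A) W₂ ≠ 0)
    (h : coeffMap A.subtype W₁ = HahnSeries.C γ * coeffMap A.subtype W₂) :
    ∃ g : A, (g : L) = γ ∧ IsLocalRing.residue A g ≠ 0 ∧ W₁ = HahnSeries.C g * W₂ := by
  have key : ∀ hγ : γ ∈ A, ∃ g : A, (g : L) = γ ∧ IsLocalRing.residue A g ≠ 0 ∧
      W₁ = HahnSeries.C g * W₂ := by
    intro hγ
    have hW : W₁ = HahnSeries.C (⟨γ, hγ⟩ : A) * W₂ := by
      apply H516.incl_injective A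
      rw [map_mul, H516.coeffMap_C, h]
      rfl
    refine ⟨⟨γ, hγ⟩, rfl, ?_, hW⟩
    intro h0
    apply h1
    rw [hW, map_mul, H516.coeffMap_C, h0, map_zero, zero_mul]
  rcases A.mem_or_inv_mem γ with hγ | hγ
  · exact key hγ
  · have hγ0 : γ ≠ 0 := by
      rintro rfl
      apply h1
      have : W₁ = 0 := by
        apply H516.incl_injective A
        rw [h, map_zero, zero_mul, map_zero]
      rw [this, map_zero]
    have hW : HahnSeries.C (⟨γ⁻¹, hγ⟩ : A) * W₁ = W₂ := by
      apply H516.incl_injective A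
      rw [map_mul, H516.coeffMap_C, h]
      show HahnSeries.C γ⁻¹ * (HahnSeries.C γ * _) = _
      rw [← mul_assoc, ← map_mul, inv_mul_cancel₀ hγ0, map_one, one_mul]
    have hres : IsLocalRing.residue A (⟨γ⁻¹, hγ⟩ : A) ≠ 0 := by
      intro h0
      apply h2
      rw [← hW, map_mul, H516.coeffMap_C, h0, map_zero, zero_mul]
    have hu : IsUnit (⟨γ⁻¹, hγ⟩ : A) := by
      by_contra hnu
      exact hres ((IsLocalRing.residue_eq_zero_iff _).mpr
        ((IsLocalRing.mem_maximalIdeal _).mpr (mem_nonunits_iff.mpr hnu)))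
    obtain ⟨u, hu⟩ := hu
    have hmem : γ ∈ A := by
      have h3 : ((u⁻¹ : Aˣ) : A) * (⟨γ⁻¹, hγ⟩ : A) = 1 := by
        rw [← hu]
        exact u.inv_mul
      have h4 : (((u⁻¹ : Aˣ) : A) : L) * γ⁻¹ = 1 := by
        have := congrArg (Subtype.val) h3
        simpa using this
      have h5 : (((u⁻¹ : Aˣ) : A) : L) = γ := by
        field_simp at h4
        exact h4
      rw [← h5]
      exact ((u⁻¹ : Aˣ) : A).2
    exact key hmem

end Gauss

/-! ## 3. Multiplicativity of the hub -/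

section Core

variable (N : ℕ) [NeZero N] (A : ValuationSubring Qb)

omit [NeZero N] in
theorem coe_algebraMap_bar (c : Qb) :
    ((algebraMap Qb (modularFunctionFieldBar N) c : modularFunctionFieldBar N) :
      LaurentSeries Qb) = HahnSeries.C c := by
  show algebraMap Qb (LaurentSeries Qb) c = HahnSeries.C c
  rw [algebraMap_laurentSeries_eq_single, ← HahnSeries.C_apply]

variable {N A}

omit [NeZero N] in
theorem toF_ne_zero {U : LaurentSeries A} (h : IsInt A N U) : toF h ≠ 0 := by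
  intro h0
  have h1 : coeffMap A.subtype U = 0 := congrArg Subtype.val h0
  have h2 : U = 0 := H516.incl_injective A (by rw [h1, map_zero])
  exact h.2.2 (by rw [h2, map_zero])

theorem isInt_C_mul {U : LaurentSeries A} (h : IsInt A N U) {g : A}
    (hg : IsLocalRing.residue A g ≠ 0) : IsInt A N (HahnSeries.C g * U) := by
  refine ⟨?_, ?_, ?_⟩
  · rw [map_mul, H516.coeffMap_C]
    exact mul_mem (H516.C_mem_baseChange N _) h.1
  · rw [map_mul, H516.coeffMap_C]
    exact mul_mem (H516.C_mem_fullC N _ _) h.2.1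
  · rw [map_mul, H516.coeffMap_C]
    refine mul_ne_zero ?_ h.2.2
    intro h0
    exact hg (HahnSeries.C_injective (by rw [h0, map_zero]))

omit [NeZero N] in
theorem toF_C_mul {U : LaurentSeries A} (h : IsInt A N U) {g : A}
    (hg : IsInt A N (HahnSeries.C g * U)) :
    toF hg = algebraMap Qb (modularFunctionFieldBar N) (g : Qb) * toF h := by
  apply Subtype.ext
  show coeffMap A.subtype (HahnSeries.C g * U) = _
  rw [map_mul, H516.coeffMap_C]
  show _ = ((algebraMap Qb (modularFunctionFieldBar N) (g : Qb) : modularFunctionFieldBar N) :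
      LaurentSeries Qb) * coeffMap A.subtype U
  rw [coe_algebraMap_bar]
  rfl

/-- **Multiplicativity of the hub.**  `CORE(a)` and `CORE(b)` imply `CORE(a * b)`, provided `a` is
invertible in the residue field of `A` (and the S28 core data for the residue field). -/
theorem core_mul (core : Fermat.Agent.S28.CoreData N (IsLocalRing.ResidueField A)) {a b : ℕ}
    (ha : ((a : ℕ) : IsLocalRing.ResidueField A) ≠ 0)
    (hCa : CoreStatement N A a) (hCb : CoreStatement N A b) : CoreStatement N A (a * b) := by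
  intro U₁ U₂ h₁ h₂ hred hdiv
  have ha0 : a ≠ 0 := by
    rintro rfl
    exact ha (by simp)
  have hdiv_a : ∀ v : Place Qb (modularFunctionFieldBar N),
      (a : ℤ) ∣ v.ord (toF h₁) - v.ord (toF h₂) := by
    intro v
    refine dvd_trans ?_ (hdiv v)
    push_cast
    exact dvd_mul_right _ _
  obtain ⟨c, y, hc, hy, hcy⟩ := hCa U₁ U₂ h₁ h₂ hred hdiv_a
  have h₂ne := toF_ne_zero h₂
  have hcne : ∀ {c : Qb}, c ≠ 0 → algebraMap Qb (modularFunctionFieldBar N) c ≠ 0 := by
    intro c hc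
    exact (map_ne_zero _).mpr hc
  have hord : ∀ v : Place Qb (modularFunctionFieldBar N),
      v.ord (toF h₁) - v.ord (toF h₂) = a * v.ord y := by
    intro v
    rw [hcy, v.ord_mul (mul_ne_zero (hcne hc) (pow_ne_zero _ hy)) h₂ne,
      v.ord_mul (hcne hc) (pow_ne_zero _ hy), Lib.RR.ord_algebraMap, Lib.RR.ord_pow]
    ring
  have hb : ∀ v : Place Qb (modularFunctionFieldBar N), (b : ℤ) ∣ v.ord y := by
    intro v
    have := hdiv v
    rw [hord v] at this
    push_cast at this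
    exact (mul_dvd_mul_iff_left (by exact_mod_cast ha0)).mp this
  -- Gauss decomposition of `y`
  have hyL : (y : LaurentSeries Qb) ≠ 0 := fun h => hy (Subtype.ext h)
  obtain ⟨c', Y₁, Y₂, hc', hY₁, hY₂, hdec⟩ :=
    H516.exists_gauss_decomp A (IsLocalRing.residue A) N core y.2 hyL
  have hY₁' : IsInt A N Y₁ := hY₁
  have hY₂' : IsInt A N Y₂ := hY₂
  -- the identity of series
  have hcyL : coeffMap A.subtype U₁ =
      HahnSeries.C c * (y : LaurentSeries Qb) ^ a * coeffMap A.subtype U₂ := by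
    have h := congrArg (Subtype.val) hcy
    rw [← coe_algebraMap_bar N c]
    exact h
  have hW : coeffMap A.subtype (U₁ * Y₂ ^ a) =
      HahnSeries.C (c * c' ^ a) * coeffMap A.subtype (Y₁ ^ a * U₂) := by
    rw [map_mul, map_pow, map_mul, map_pow, hcyL, map_mul, map_pow]
    calc HahnSeries.C c * (y : LaurentSeries Qb) ^ a * coeffMap A.subtype U₂ *
          coeffMap A.subtype Y₂ ^ a
        = HahnSeries.C c * ((y : LaurentSeries Qb) * coeffMap A.subtype Y₂) ^ a *
          coeffMap A.subtype U₂ := by ring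
      _ = HahnSeries.C c * (HahnSeries.C c' * coeffMap A.subtype Y₁) ^ a *
          coeffMap A.subtype U₂ := by rw [hdec]
      _ = _ := by ring
  have hW₁ : coeffMap (IsLocalRing.residue A) (U₁ * Y₂ ^ a) ≠ 0 := by
    rw [map_mul, map_pow]
    exact mul_ne_zero h₁.2.2 (pow_ne_zero _ hY₂'.2.2)
  have hW₂ : coeffMap (IsLocalRing.residue A) (Y₁ ^ a * U₂) ≠ 0 := by
    rw [map_mul, map_pow]
    exact mul_ne_zero (pow_ne_zero _ hY₁'.2.2) h₂.2.2
  obtain ⟨g, -, hgres, hWA⟩ := gauss_unit A hW₁ hW₂ hW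
  -- reduce mod the maximal ideal
  have hWk := congrArg (coeffMap (IsLocalRing.residue A)) hWA
  rw [map_mul, map_pow, map_mul, map_mul, map_pow, H516.coeffMap_C, ← hred] at hWk
  have hY₁ne := hY₁'.2.2
  have hz : (coeffMap (IsLocalRing.residue A) Y₂ * (coeffMap (IsLocalRing.residue A) Y₁)⁻¹) ^ a =
      HahnSeries.C (IsLocalRing.residue A g) := by
    have h3 : coeffMap (IsLocalRing.residue A) Y₂ ^ a =
        HahnSeries.C (IsLocalRing.residue A g) * coeffMap (IsLocalRing.residue A) Y₁ ^ a := by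
      apply mul_left_cancel₀ h₁.2.2
      rw [hWk]
      ring
    rw [mul_pow, h3, inv_pow, mul_assoc, mul_inv_cancel₀ (pow_ne_zero _ hY₁ne), mul_one]
  obtain ⟨δ', hδ', hzδ⟩ := laurent_const_of_pow_eq_C ha hgres hz
  obtain ⟨δ, rfl⟩ := IsLocalRing.residue_surjective δ'
  have hY₁'' : IsInt A N (HahnSeries.C δ * Y₁) := isInt_C_mul hY₁' hδ'
  have hredY : coeffMap (IsLocalRing.residue A) (HahnSeries.C δ * Y₁) =
      coeffMap (IsLocalRing.residue A) Y₂ := by
    rw [map_mul, H516.coeffMap_C, ← hzδ, mul_assoc, inv_mul_cancel₀ hY₁ne, mul_one]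
  have hδne : (δ : Qb) ≠ 0 := by
    intro h0
    apply hδ'
    have : δ = 0 := Subtype.ext h0
    rw [this, map_zero]
  have hF1 := toF_C_mul hY₁' hY₁''
  have hF2 : y * toF hY₂' = algebraMap Qb (modularFunctionFieldBar N) c' * toF hY₁' := by
    apply Subtype.ext
    show (y : LaurentSeries Qb) * coeffMap A.subtype Y₂ =
      ((algebraMap Qb (modularFunctionFieldBar N) c' : modularFunctionFieldBar N) :
        LaurentSeries Qb) * coeffMap A.subtype Y₁
    rw [coe_algebraMap_bar, hdec]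
  have hY₁F := toF_ne_zero hY₁'
  have hY₂F := toF_ne_zero hY₂'
  have hdivb : ∀ v : Place Qb (modularFunctionFieldBar N),
      (b : ℤ) ∣ v.ord (toF hY₁'') - v.ord (toF hY₂') := by
    intro v
    have e1 : v.ord (toF hY₁'') = v.ord (toF hY₁') := by
      rw [hF1, v.ord_mul (hcne hδne) hY₁F, Lib.RR.ord_algebraMap, zero_add]
    have e2 : v.ord y + v.ord (toF hY₂') = v.ord (toF hY₁') := by
      have := congrArg v.ord hF2
      rw [v.ord_mul hy hY₂F, v.ord_mul (hcne hc') hY₁F, Lib.RR.ord_algebraMap, zero_add] at this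
      exact this
    have e3 : v.ord (toF hY₁'') - v.ord (toF hY₂') = v.ord y := by
      rw [e1, ← e2]
      ring
    rw [e3]
    exact hb v
  obtain ⟨c'', t, hc'', ht, hct⟩ := hCb (HahnSeries.C δ * Y₁) Y₂ hY₁'' hY₂' hredY hdivb
  have hyt : y = algebraMap Qb (modularFunctionFieldBar N) (c' * (δ : Qb)⁻¹ * c'') * t ^ b := by
    apply mul_right_cancel₀ hY₂F
    rw [hF2]
    have h4 : toF hY₁' = algebraMap Qb (modularFunctionFieldBar N) (δ : Qb)⁻¹ * toF hY₁'' := by
      rw [hF1, ← mul_assoc, ← map_mul, inv_mul_cancel₀ hδne, map_one, one_mul]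
    rw [h4, hct]
    simp only [map_mul]
    ring
  refine ⟨c * (c' * (δ : Qb)⁻¹ * c'') ^ a, t, ?_, ht, ?_⟩
  · exact mul_ne_zero hc
      (pow_ne_zero _ (mul_ne_zero (mul_ne_zero hc' (inv_ne_zero hδne)) hc''))
  · rw [hcy, hyt]
    simp only [map_mul, map_pow]
    rw [mul_comm a b, pow_mul]
    ring

omit [NeZero N] in
/-- `CORE(1)` is trivial. -/
theorem coreStatement_one : CoreStatement N A 1 := by
  intro U₁ U₂ h₁ h₂ _ _
  have h₁ne := toF_ne_zero h₁
  have h₂ne := toF_ne_zero h₂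
  refine ⟨1, toF h₁ * (toF h₂)⁻¹, one_ne_zero, mul_ne_zero h₁ne (inv_ne_zero h₂ne), ?_⟩
  rw [map_one, one_mul, pow_one, mul_assoc, inv_mul_cancel₀ h₂ne, mul_one]

/-- **From prime `m` to all `m`.**  If the hub holds for all primes `p ≠ ℓ`, it holds for all `m`
prime to `ℓ` (`A` over `ℓ ∤ N`). -/
theorem coreStatement_of_prime {ℓ : ℕ} [Fact ℓ.Prime] (hℓN : ¬ ℓ ∣ N)
    (hA : A.LiesOverPrime ℓ)
    (h : ∀ p : ℕ, p.Prime → ¬ ℓ ∣ p → CoreStatement N A p) :
    ∀ m : ℕ, ¬ ℓ ∣ m → CoreStatement N A m := by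
  have core := H516.coreData_residue N hℓN A hA
  have := H516.charP_residue A hA
  intro m
  induction m using Nat.recOnMul with
  | zero => intro h0; exact absurd (dvd_zero ℓ) h0
  | one => intro _; exact coreStatement_one
  | prime p hp => intro hp'; exact h p hp hp'
  | mul a b iha ihb =>
    intro hab
    have ha' : ¬ ℓ ∣ a := fun h' => hab (Dvd.dvd.mul_right h' b)
    have hb' : ¬ ℓ ∣ b := fun h' => hab (Dvd.dvd.mul_left h' a)
    refine core_mul core ?_ (iha ha') (ihb hb')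
    rw [Ne, CharP.cast_eq_zero_iff (IsLocalRing.ResidueField A) ℓ]
    exact ha'

end Core

/-- The bridge S18 → S29 in the exact shape of `Fermat.Agent.S29.H222.CoreFamily`: the hub for
all primes `p ≠ ℓ` gives the hub for all `m` prime to `ℓ`. -/
theorem coreFamily_of_prime
    (h : ∀ (N : ℕ) [NeZero N] (ℓ : ℕ), ℓ.Prime → ¬ ℓ ∣ N → ∀ p : ℕ, p.Prime → ¬ ℓ ∣ p →
      ∀ A : ValuationSubring Qb, A.LiesOverPrime ℓ → CoreStatement N A p) :
    ∀ (N : ℕ) [NeZero N] (ℓ : ℕ), ℓ.Prime → ¬ ℓ ∣ N → ∀ m : ℕ, ¬ ℓ ∣ m →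
      ∀ A : ValuationSubring Qb, A.LiesOverPrime ℓ → CoreStatement N A m := by
  intro N _ ℓ hℓ hℓN m hm A hA
  have : Fact ℓ.Prime := ⟨hℓ⟩
  exact coreStatement_of_prime hℓN hA (fun p hp hp' => h N ℓ hℓ hℓN p hp hp' A hA) m hm

end Fermat.Agent.S18.H694

end
end
-- ===== PACK-END S18/H694/CoreMul.lean

-- ===== PACK-BEGIN S18/H24/Finite.lean
section




/-!
# S18 / node_mod, part G-FLD (helper24) — the field `finite` for `x = j`

`field_finite_j` : for every intermediate field `E` of `Q̄/ℚ` and every level `M ≥ 1`,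

    ∃ s : Finset (Om M), ↑s ⊆ Fc M E ∧ ∀ f ∈ Fc M E, f ∈ Submodule.span (ratField (Ec M E) (jOm M)) ↑s

(exact type of the field `finite` of `Alg.GoodModel` at the concrete objects, `x = jOm M`).

Proof: `Fc = Ec(j)(j_d : d ∣ M)`, finitely many generators, each integral over `ℤ[j]`
(modular polynomials, S28 `H867.coreData_integral` + `H807.nonempty_modPolyData`).
`field_finite_of_mem` : the same for any coordinate `x ∈ Fc` with `j ∈ Ec(x)` (e.g. `t₂`, `t₃`).
-/

set_option autoImplicit false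

noncomputable section

namespace Fermat.Agent.S18.H24

open ModularCurve AlgebraicCurve HahnSeries Fermat.Agent.S18 Fermat.Agent.S18.Mod
open Fermat.Agent.S18.Alg Fermat.Agent.S18.H456 Fermat.Agent.S28 Polynomial

variable (M : ℕ) [NeZero M] (E : IntermediateField ℚ Qb)

/-- `ℤ[Y] → Ω`, `Y ↦ j`. -/
def evJOm : Polynomial ℤ →+* Om M := (Polynomial.aeval (R := ℤ) (jOm M)).toRingHom

/-- The subtype map `Ω → Q̄((q))` as a ring hom. -/
abbrev valHom : Om M →+* LaurentSeries Qb := (modularFunctionFieldBar M).val.toRingHom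

theorem valHom_injective : Function.Injective (valHom M) := Subtype.val_injective

theorem val_jd' (d : ℕ) [NeZero d] (hd : d ∣ M) :
    valHom M (jd M d hd) = coeffMap (Int.castRingHom Qb) (qExpand ℤ d (jqModC ℤ)) := by
  show coeffEmb Qb (qExpand ℚ d jq) = _
  have h1 : coeffEmb Qb (qExpand ℚ d jq) = jqNModC Qb d := coeffMap_jqNModC (algebraMap ℚ Qb) d
  have h2 : coeffMap (Int.castRingHom Qb) (jqNModC ℤ d) = jqNModC Qb d :=
    coeffMap_jqNModC (Int.castRingHom Qb) d
  exact h1.trans h2.symm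

theorem val_jOm' : valHom M (jOm M) = coeffMap (Int.castRingHom Qb) (jqModC ℤ) := by
  show ((jOm M : Om M) : LaurentSeries Qb) = _
  rw [val_jOm, coeffMap_jqModC]

/-- compatibility of the two evaluations `ℤ[Y] → Q̄((q))`. -/
theorem valHom_comp_evJOm :
    (valHom M).comp (evJOm M) =
      (coeffMap (Int.castRingHom Qb)).comp (evalAt (jqModC ℤ)) := by
  apply Polynomial.ringHom_ext
  · intro a
    simp [evJOm, evalAt]
  · show valHom M (Polynomial.aeval (jOm M) (X : Polynomial ℤ)) =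
      coeffMap (Int.castRingHom Qb) (Polynomial.aeval (jqModC ℤ) (X : Polynomial ℤ))
    rw [Polynomial.aeval_X, Polynomial.aeval_X]
    exact val_jOm' M

/-- `j_d` is a root of a monic polynomial with coefficients in `ℤ[j] ⊆ Ω`. -/
theorem exists_monic_root_jd (d : ℕ) [NeZero d] (hd : d ∣ M) :
    ∃ P : Polynomial (Polynomial ℤ), P.Monic ∧ (P.map (evJOm M)).eval (jd M d hd) = 0 := by
  obtain ⟨P, hP, hPe⟩ := H867.coreData_integral M
    (fun p hp _ _ => H807.nonempty_modPolyData p hp) d hd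
  refine ⟨P, hP, ?_⟩
  apply valHom_injective M
  rw [map_zero, Polynomial.eval_map, Polynomial.hom_eval₂, valHom_comp_evJOm, val_jd',
    ← Polynomial.hom_eval₂, hPe, map_zero]

theorem jOm_mem_ratField : jOm M ∈ ratField (Ec M E) (jOm M) :=
  Subfield.subset_closure (Or.inr rfl)

theorem Ec_le_ratField (x : Om M) : Ec M E ≤ ratField (Ec M E) x :=
  fun _ h => Subfield.subset_closure (Or.inl h)

theorem evJOm_mem_ratField (p : Polynomial ℤ) : evJOm M p ∈ ratField (Ec M E) (jOm M) := by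
  show Polynomial.aeval (jOm M) p ∈ _
  rw [Polynomial.aeval_def, Polynomial.eval₂_eq_sum_range]
  refine Subfield.sum_mem _ fun i _ => ?_
  refine mul_mem ?_ (pow_mem (jOm_mem_ratField M E) i)
  rw [eq_intCast]
  exact intCast_mem _ _

/-- `j_d` is integral over `Ec(j)`. -/
theorem isIntegral_jd (d : ℕ) [NeZero d] (hd : d ∣ M) :
    IsIntegral (ratField (Ec M E) (jOm M)) (jd M d hd) := by
  obtain ⟨P, hP, hroot⟩ := exists_monic_root_jd M d hd
  have hl : P.map (evJOm M) ∈ Polynomial.lifts (ratField (Ec M E) (jOm M)).subtype := by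
    rw [Polynomial.lifts_iff_coeff_lifts]
    intro i
    rw [Polynomial.coeff_map]
    exact ⟨⟨_, evJOm_mem_ratField M E (P.coeff i)⟩, rfl⟩
  obtain ⟨q, hq, -, hqm⟩ := Polynomial.lifts_and_natDegree_eq_and_monic hl (hP.map _)
  refine ⟨q, hqm, ?_⟩
  have : eval₂ (ratField (Ec M E) (jOm M)).subtype (jd M d hd) q =
      eval (jd M d hd) (q.map (ratField (Ec M E) (jOm M)).subtype) := (eval_map _ _).symm
  rw [show (algebraMap (ratField (Ec M E) (jOm M)) (Om M)) =
    (ratField (Ec M E) (jOm M)).subtype from rfl, this, hq, hroot]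

theorem gens_finite : (gens M).Finite := by
  classical
  have : gens M ⊆ Set.range (fun d : {d : ℕ // d ∣ M ∧ d ≠ 0} =>
      haveI : NeZero d.1 := ⟨d.2.2⟩
      jd M d.1 d.2.1) := by
    rintro y ⟨d, hd, hdM, rfl⟩
    exact ⟨⟨d, hdM, hd.out⟩, rfl⟩
  refine Set.Finite.subset ?_ this
  have hfin : Finite {d : ℕ // d ∣ M ∧ d ≠ 0} := by
    have : {d : ℕ | d ∣ M ∧ d ≠ 0} ⊆ (M.divisors : Set ℕ) := by
      intro d hd
      exact Nat.mem_divisors.mpr ⟨hd.1, NeZero.ne M⟩
    exact Set.Finite.subset (Finset.finite_toSet _) this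
  exact Set.finite_range _

/-- `Fc` as an intermediate field over `Ec(j)`. -/
theorem Fc_eq_adjoin :
    (Fc M E : Set (Om M)) =
      (IntermediateField.adjoin (ratField (Ec M E) (jOm M)) (gens M) : Set (Om M)) := by
  have hjF : jOm M ∈ Fc M E :=
    Subfield.subset_closure (Or.inr ⟨1, inferInstance, one_dvd M, rfl⟩)
  have hK : ratField (Ec M E) (jOm M) ≤ Fc M E := by
    refine Subfield.closure_le.mpr ?_
    rintro y (hy | hy)
    · exact field_E_le_F M E hy
    · rw [Set.mem_singleton_iff] at hy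
      rw [hy]; exact hjF
  apply Set.Subset.antisymm
  · -- `Fc ⊆ adjoin`
    have : Fc M E ≤ (IntermediateField.adjoin (ratField (Ec M E) (jOm M)) (gens M)).toSubfield := by
      refine Subfield.closure_le.mpr ?_
      rintro y (hy | hy)
      · exact IntermediateField.algebraMap_mem
          (IntermediateField.adjoin (ratField (Ec M E) (jOm M)) (gens M))
          (⟨y, Ec_le_ratField M E _ hy⟩ : ratField (Ec M E) (jOm M))
      · exact IntermediateField.subset_adjoin _ _ hy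
    exact this
  · -- `adjoin ⊆ Fc`
    intro y hy
    have h : IntermediateField.adjoin (ratField (Ec M E) (jOm M)) (gens M) ≤
        Subfield.toIntermediateField (Fc M E) (fun x => hK x.2) := by
      rw [IntermediateField.adjoin_le_iff]
      intro z hz
      exact Subfield.subset_closure (Or.inr hz)
    exact h hy

/-- **field `finite` for `x = j`.** -/
theorem field_finite_j :
    ∃ s : Finset (Om M), (s : Set (Om M)) ⊆ Fc M E ∧
      ∀ f ∈ Fc M E, f ∈ Submodule.span (ratField (Ec M E) (jOm M)) (s : Set (Om M)) := by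
  classical
  set K := ratField (Ec M E) (jOm M) with hKdef
  set L := IntermediateField.adjoin K (gens M) with hLdef
  have hint : ∀ y ∈ gens M, IsIntegral K y := by
    rintro y ⟨d, hd, hdM, rfl⟩
    exact isIntegral_jd M E d hdM
  haveI : Finite (gens M) := (gens_finite M).to_subtype
  haveI hfd : FiniteDimensional K L := IntermediateField.finiteDimensional_adjoin hint
  -- a finite spanning set of `L` over `K`
  obtain ⟨s, hs⟩ := (Module.finite_def (R := K) (M := L)).mp hfd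
  refine ⟨s.image (fun y : L => (y : Om M)), ?_, ?_⟩
  · intro y hy
    rw [Finset.coe_image] at hy
    obtain ⟨z, -, rfl⟩ := hy
    have h0 : (z : Om M) ∈
        (IntermediateField.adjoin (ratField (Ec M E) (jOm M)) (gens M) : Set (Om M)) := z.2
    rw [← Fc_eq_adjoin M E] at h0
    exact h0
  · intro f hf
    have hfL : f ∈ L := by
      have h0 : f ∈
          (IntermediateField.adjoin (ratField (Ec M E) (jOm M)) (gens M) : Set (Om M)) := by
        rw [← Fc_eq_adjoin M E]; exact hf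
      exact h0
    have h1 : (⟨f, hfL⟩ : L) ∈ Submodule.span K (s : Set L) := by
      rw [hs]; exact Submodule.mem_top
    have h2 := Submodule.mem_map_of_mem (f := (L.val.toLinearMap : L →ₗ[K] Om M)) h1
    rw [Submodule.map_span] at h2
    rw [Finset.coe_image]
    exact h2

omit [NeZero M] in
theorem span_mono_subfield {K₁ K₂ : Subfield (Om M)} (h : K₁ ≤ K₂) (s : Set (Om M)) {f : Om M}
    (hf : f ∈ Submodule.span K₁ s) : f ∈ Submodule.span K₂ s := by
  induction hf using Submodule.span_induction with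
  | mem x hx => exact Submodule.subset_span hx
  | zero => exact Submodule.zero_mem _
  | add x y _ _ hx hy => exact Submodule.add_mem _ hx hy
  | smul c x _ hx =>
    have : c • x = (⟨(c : Om M), h c.2⟩ : K₂) • x := rfl
    rw [this]
    exact Submodule.smul_mem _ _ hx

/-- **field `finite`** for every admissible coordinate. -/
theorem field_finite {ℓ : ℕ} {x : Om M} {S : Finset (Om M)} (hx : IsCoordinate M ℓ x S) :
    ∃ s : Finset (Om M), (s : Set (Om M)) ⊆ Fc M E ∧
      ∀ f ∈ Fc M E, f ∈ Submodule.span (ratField (Ec M E) x) (s : Set (Om M)) := by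
  have hx0 : x ≠ 0 := by
    rintro rfl
    exact field_x_transcendental M hx isAlgebraic_zero
  have hxK : x ∈ ratField (Ec M E) x := Subfield.subset_closure (Or.inr rfl)
  have hnat : ∀ n : ℕ, (n : Om M) ∈ ratField (Ec M E) x := fun n => natCast_mem _ n
  -- `j ∈ Ec(x)`
  have hj : jOm M ∈ ratField (Ec M E) x := by
    rcases hx with ⟨-, rfl, -⟩ | ⟨h | h, -⟩
    · exact hxK
    · obtain ⟨-, hid, -⟩ := h
      have : jOm M = (x + 256) ^ 3 * (x ^ 2)⁻¹ := by
        rw [← hid]; field_simp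
      rw [this]
      exact mul_mem (pow_mem (add_mem hxK (by exact_mod_cast hnat 256)) 3)
        (inv_mem (pow_mem hxK 2))
    · obtain ⟨-, hid, -⟩ := h
      have : jOm M = (x + 27) * (x + 243) ^ 3 * (x ^ 3)⁻¹ := by
        rw [← hid]; field_simp
      rw [this]
      exact mul_mem (mul_mem (add_mem hxK (by exact_mod_cast hnat 27))
        (pow_mem (add_mem hxK (by exact_mod_cast hnat 243)) 3)) (inv_mem (pow_mem hxK 3))
  have hle : ratField (Ec M E) (jOm M) ≤ ratField (Ec M E) x := by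
    refine Subfield.closure_le.mpr ?_
    rintro y (hy | hy)
    · exact Ec_le_ratField M E x hy
    · rw [Set.mem_singleton_iff] at hy
      rw [hy]; exact hj
  obtain ⟨s, hs, hspan⟩ := field_finite_j M E
  exact ⟨s, hs, fun f hf => span_mono_subfield M hle _ (hspan f hf)⟩

end Fermat.Agent.S18.H24

end
end
-- ===== PACK-END S18/H24/Finite.lean

-- ===== PACK-BEGIN S18/H24/Branch.lean
section






/-!
# S18 / MOD (M2) — ramification of `F_N / ℚ̄(j)` in `Place` language  (helper24)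

`F_N = modularFunctionFieldBar N = ℚ̄(j(q^d) : d ∣ N)`, `j = jF N`.  For a place `v` of `F_N/ℚ̄`:

* `ord_sub_eq_one`     : `a ≠ 0, 1728`, `0 < v.ord (j - a)`  ⟹  `v.ord (j - a) = 1`   (unramified);
* `ord_zero_dvd`       : `0 < v.ord j`                      ⟹  `v.ord j ∣ 3`;
* `ord_1728_dvd`       : `0 < v.ord (j - 1728)`             ⟹  `v.ord (j - 1728) ∣ 2`;
* `ord_inv_dvd`        : `0 < v.ord j⁻¹`                    ⟹  `v.ord j⁻¹ ∣ N`;
* `finrank_eq_psi`     : `[F_N : ℚ̄(j)] = ψ(N)`.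

So `F_N/ℚ̄(j)` is tamely ramified, with branch values in `{0, 1728, ∞}` and ramification indices
dividing `3`, `2`, `N` respectively.  Source: the `LocalData` of the S24 modular package
(`H997.analyticCore`), helper117's local theorem and the relations `S² = (ST)³ = -1`,
`T^N ∈ Γ(N)`.
-/

set_option autoImplicit false

noncomputable section

open AlgebraicCurve ModularCurve IntermediateField
open scoped MatrixGroups

namespace Fermat.Agent.S18.H24

open Fermat.Agent.S24

variable (N : ℕ) [NeZero N]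

/-- `[F_N : ℚ̄(j)]` is finite. -/
instance finiteDimensional_FF :
    FiniteDimensional ↥(IntermediateField.adjoin Kbar {jF N}) (FF N) :=
  (Deg457.degree_fields N).1

theorem finrank_eq_card :
    Module.finrank ↥(IntermediateField.adjoin Kbar {jF N}) (FF N) = Nat.card (XX N) := by
  obtain ⟨hfd, hle⟩ := Deg457.degree_fields N
  obtain ⟨_, _, h1, -⟩ := (H997.analyticCore N).modularPackage_fields hfd hle
  exact h1

/-- `[F_N : ℚ̄(j)] = ψ(N)`. -/
theorem finrank_eq_psi :
    Module.finrank ↥(IntermediateField.adjoin Kbar {jF N}) (FF N) = dedekindPsi N := by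
  rw [finrank_eq_card, card_XX]

instance finite_XX : Finite (XX N) := by
  apply Nat.finite_of_card_ne_zero
  rw [← finrank_eq_card]
  exact Module.finrank_pos.ne'

section Generic

variable {N}
variable {t : FF N} (L : LocalData Kbar (FF N) ℂ (XX N) t)

/-- General principle: if `perm ^ k = 1` then every ramification index over `t = 0`
divides `k`. -/
theorem ord_dvd_of_perm_pow (hE : IntermediateField.adjoin Kbar {jF N} ≤ Kbar⟮t⟯) (k : ℕ)
    (hk : L.perm ^ k = 1) (v : Place Kbar (FF N)) (hv : 0 < v.ord t) : v.ord t ∣ (k : ℤ) := by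
  obtain ⟨x, rfl⟩ := H117.exists_placeOf_eq L (IntermediateField.adjoin Kbar {jF N}) hE
    (finrank_eq_card N) v hv
  exact H117.ord_t_dvd_of_pow_apply_eq L x k (by rw [hk]; rfl)

end Generic

theorem adjoin_le_sub (a : Kbar) :
    IntermediateField.adjoin Kbar {jF N} ≤ Kbar⟮jF N - algebraMap Kbar (FF N) a⟯ := by
  rw [IntermediateField.adjoin_simple_le_iff]
  have h1 : jF N - algebraMap Kbar (FF N) a ∈ Kbar⟮jF N - algebraMap Kbar (FF N) a⟯ :=
    IntermediateField.mem_adjoin_simple_self _ _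
  have h2 : algebraMap Kbar (FF N) a ∈ Kbar⟮jF N - algebraMap Kbar (FF N) a⟯ :=
    IntermediateField.algebraMap_mem _ a
  have := add_mem h1 h2
  rwa [sub_add_cancel] at this

theorem adjoin_le_inv : IntermediateField.adjoin Kbar {jF N} ≤ Kbar⟮(jF N)⁻¹⟯ := by
  rw [IntermediateField.adjoin_simple_le_iff]
  have h1 : (jF N)⁻¹ ∈ Kbar⟮(jF N)⁻¹⟯ := IntermediateField.mem_adjoin_simple_self _ _
  have := inv_mem h1
  rwa [inv_inv] at this

/-! ### the permutations of the concrete local data -/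

theorem permOf_pow (g : SL(2, ℤ)) (k : ℕ) : (permOf N g) ^ k = permOf N (g ^ k) :=
  (map_pow (MulAction.toPermHom SL(2, ℤ) (XX N)) g k).symm

theorem permOf_neg_one : permOf N (-1) = 1 := by
  ext x
  exact Fermat.Agent.S20.Comb.neg_one_smul_quotient N x

theorem permOf_one' : permOf N 1 = 1 := by
  ext x
  simp [permOf]

theorem dataFin_perm_zero :
    ((H997.analyticCore N).dataFin 0).perm = permOf N (ModularGroup.S * ModularGroup.T)⁻¹ := by
  unfold H997.AnalyticCore.dataFin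
  rw [dif_pos rfl]
  rfl

theorem dataFin_perm_1728 :
    ((H997.analyticCore N).dataFin 1728).perm = permOf N ModularGroup.S⁻¹ := by
  have h0 : (1728 : Kbar) ≠ 0 := by norm_num
  unfold H997.AnalyticCore.dataFin
  rw [dif_neg h0, dif_pos rfl]
  rfl

theorem dataInf_perm : (H997.analyticCore N).dataInf.perm = permOf N ModularGroup.T⁻¹ := rfl

theorem perm_zero_pow : ((H997.analyticCore N).dataFin 0).perm ^ 3 = 1 := by
  rw [dataFin_perm_zero, permOf_pow, inv_pow, Fermat.Agent.S20.Comb.ST_pow_three]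
  have : ((-1 : SL(2, ℤ)))⁻¹ = -1 := by
    rw [inv_eq_iff_eq_inv, eq_inv_iff_mul_eq_one]
    simp
  rw [this, permOf_neg_one]

theorem perm_1728_pow : ((H997.analyticCore N).dataFin 1728).perm ^ 2 = 1 := by
  rw [dataFin_perm_1728, permOf_pow, inv_pow, Fermat.Agent.S20.Comb.S_pow_two]
  have : ((-1 : SL(2, ℤ)))⁻¹ = -1 := by
    rw [inv_eq_iff_eq_inv, eq_inv_iff_mul_eq_one]
    simp
  rw [this, permOf_neg_one]

/-- `T ^ N` acts trivially on `SL₂(ℤ)/Γ₀(N)`. -/
theorem permOf_T_pow : permOf N (ModularGroup.T ^ N) = 1 := by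
  ext x
  obtain ⟨g, rfl⟩ := QuotientGroup.mk_surjective x
  show (ModularGroup.T ^ N) • (QuotientGroup.mk g : SL(2, ℤ) ⧸ CongruenceSubgroup.Gamma0 N) = _
  rw [Equiv.Perm.one_apply, Fermat.Agent.S20.Comb.smul_mk_eq_mk_iff]
  have hT : ((ModularGroup.T ^ N : SL(2, ℤ)) : Matrix (Fin 2) (Fin 2) ℤ) = !![1, (N : ℤ); 0, 1] := by
    have := ModularGroup.coe_T_zpow (N : ℤ)
    rw [zpow_natCast] at this
    exact this
  have h00 : ((ModularGroup.T ^ N * g : SL(2, ℤ)) 0 0 : ℤ) = g 0 0 + N * g 1 0 := by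
    rw [Matrix.SpecialLinearGroup.coe_mul, hT, Matrix.mul_apply, Fin.sum_univ_two]
    simp
  have h10 : ((ModularGroup.T ^ N * g : SL(2, ℤ)) 1 0 : ℤ) = g 1 0 := by
    rw [Matrix.SpecialLinearGroup.coe_mul, hT, Matrix.mul_apply, Fin.sum_univ_two]
    simp
  rw [h00, h10]
  push_cast
  simp
  ring

theorem perm_inf_pow : (H997.analyticCore N).dataInf.perm ^ N = 1 := by
  rw [dataInf_perm, permOf_pow, inv_pow, ← permOf_one' N]
  have h : permOf N ((ModularGroup.T ^ N)⁻¹) = (permOf N (ModularGroup.T ^ N))⁻¹ := by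
    ext x
    simp [permOf]
  rw [h, permOf_T_pow, inv_one, permOf_one']

/-! ### the ramification statements -/

/-- **Unramified outside `0, 1728, ∞`.** -/
theorem ord_sub_eq_one (a : Kbar) (h0 : a ≠ 0) (h1 : a ≠ 1728) (v : Place Kbar (FF N))
    (hv : 0 < v.ord (jF N - algebraMap Kbar (FF N) a)) :
    v.ord (jF N - algebraMap Kbar (FF N) a) = 1 := by
  have hperm : ((H997.analyticCore N).dataFin a).perm ^ 1 = 1 := by
    rw [pow_one]
    exact (H997.analyticCore N).dataFin_perm_generic a h0 h1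
  have h := ord_dvd_of_perm_pow ((H997.analyticCore N).dataFin a) (adjoin_le_sub N a) 1 hperm v hv
  have h2 : v.ord (jF N - algebraMap Kbar (FF N) a) ≤ 1 := Int.le_of_dvd one_pos (by simpa using h)
  omega

/-- Over `j = 0` the ramification indices divide `3`. -/
theorem ord_zero_dvd (v : Place Kbar (FF N)) (hv : 0 < v.ord (jF N)) : v.ord (jF N) ∣ 3 := by
  have hv' : 0 < v.ord (jF N - algebraMap Kbar (FF N) 0) := by rwa [map_zero, sub_zero]
  have h := ord_dvd_of_perm_pow ((H997.analyticCore N).dataFin 0) (adjoin_le_sub N 0) 3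
    (perm_zero_pow N) v hv'
  rw [map_zero, sub_zero] at h
  exact_mod_cast h

/-- Over `j = 1728` the ramification indices divide `2`. -/
theorem ord_1728_dvd (v : Place Kbar (FF N))
    (hv : 0 < v.ord (jF N - algebraMap Kbar (FF N) 1728)) :
    v.ord (jF N - algebraMap Kbar (FF N) 1728) ∣ 2 := by
  have h := ord_dvd_of_perm_pow ((H997.analyticCore N).dataFin 1728) (adjoin_le_sub N 1728) 2
    (perm_1728_pow N) v hv
  exact_mod_cast h

/-- Over `j = ∞` the ramification indices divide `N`. -/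
theorem ord_inv_dvd (v : Place Kbar (FF N)) (hv : 0 < v.ord (jF N)⁻¹) :
    v.ord (jF N)⁻¹ ∣ (N : ℤ) :=
  ord_dvd_of_perm_pow (H997.analyticCore N).dataInf (adjoin_le_inv N) N (perm_inf_pow N) v hv

end Fermat.Agent.S18.H24

end
end
-- ===== PACK-END S18/H24/Branch.lean

-- ===== PACK-BEGIN S18/H107/BranchConcrete.lean
section







/-!
# helper107 — S18 / node_mod, G-BR : the branch data of the `j`-line at the CONCRETE objects

`branchJ_concrete107 M : BranchJ107 (Mod.Lc M) (Mod.jOm M)` — in valuation-subring language over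
`Ω = Om M = F_M`:  `F_M / ℚ̄(j)` is unramified outside `0, 1728, ∞`, with `ord ≤ 3` over `0` and
`ord ≤ 2` over `1728`.

Adapter from the `Place`-language results on main (`H24.ord_sub_eq_one`, `ord_zero_dvd`,
`ord_1728_dvd`) via `H504.placeOfValuationSubring` (a valuation subring of `F_M` containing `ℚ̄`
with a nonzero non-unit is a `Place`).

Consequences: `unramified_j_concrete107` (= field `unramified` of `Alg.GoodModel` for `x = j`,
`S = {0, 1728}`), and, through `unramified_t2_107` / `unramified_t3_107`, the field `unramified`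
for the Hauptmodul coordinates.
-/

set_option autoImplicit false

noncomputable section

namespace Fermat.Agent.S18.H107

open AlgebraicCurve ModularCurve IntermediateField HahnSeries
open Fermat.Agent.S18 Fermat.Agent.S18.Mod Fermat.Agent.S24 Fermat.Agent.Lib.RR

variable (M : ℕ) [NeZero M]

theorem jOm_eq_jF107 : jOm M = jF M := by
  apply Subtype.ext
  show coeffEmb Qb (qExpand ℚ 1 jq) = coeffEmb Kbar jq
  rw [qExpand_one_apply]

variable {M}

omit [NeZero M] in
theorem algebraMap_mem_of_Lc107 {O : ValuationSubring (Om M)} (hL : ∀ a ∈ Lc M, a ∈ O)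
    (a : Qb) : algebraMap Qb (Om M) a ∈ O :=
  hL _ ⟨a, rfl⟩

omit [NeZero M] in
/-- A bound on `ord` at the place defined by `O` gives `OrdLe107`. -/
theorem ordLe_of_place107 (v : Place Qb (Om M)) {y : Om M} (hy0 : y ≠ 0) (k : ℕ)
    (hk : v.ord y ≤ k) : OrdLe107 v.toValuationSubring y k := by
  intro s hs hs'
  have hs0 : s ≠ 0 := by
    rintro rfl
    exact hs' (by rw [inv_zero]; exact v.toValuationSubring.zero_mem)
  have h1 : 0 ≤ v.ord s := ord_nonneg_of_mem v hs
  have h2 : ¬ 0 ≤ v.ord s⁻¹ := fun h => hs' (mem_of_ord_nonneg v h)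
  rw [v.ord_inv] at h2
  have h3 : 1 ≤ v.ord s := by omega
  apply mem_of_ord_nonneg v
  rw [v.ord_mul (pow_ne_zero _ hs0) (inv_ne_zero hy0), ord_pow, v.ord_inv]
  have h4 : (k : ℤ) * 1 ≤ (k : ℤ) * v.ord s := by
    apply mul_le_mul_of_nonneg_left h3
    exact_mod_cast Nat.zero_le k
  omega

omit [NeZero M] in
/-- positivity of `ord` at the place of a valuation ring, for a non-unit. -/
theorem ord_pos_of_nonunit107 (v : Place Qb (Om M)) {y : Om M} (hy : y ∈ v.toValuationSubring)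
    (hy' : y⁻¹ ∉ v.toValuationSubring) : 0 < v.ord y := by
  have h1 : 0 ≤ v.ord y := ord_nonneg_of_mem v hy
  have h2 : ¬ 0 ≤ v.ord y⁻¹ := fun h => hy' (mem_of_ord_nonneg v h)
  rw [v.ord_inv] at h2
  omega

omit [NeZero M] in
theorem ne_zero_of_inv_not_mem107 {O : ValuationSubring (Om M)} {y : Om M} (hy' : y⁻¹ ∉ O) :
    y ≠ 0 := by
  rintro rfl
  exact hy' (by rw [inv_zero]; exact O.zero_mem)

variable (M)

/-- **G-BR, branch data of the `j`-line** at the concrete objects. -/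
theorem branchJ_concrete107 : BranchJ107 (Lc M) (jOm M) := by
  haveI : FiniteDimensional Kbar⟮jF M⟯ (FF M) := H24.finiteDimensional_FF M
  refine ⟨?_, ?_, ?_⟩
  · rintro O hL _ ⟨a, rfl⟩ ha0 ha1728 hz hz'
    have ha0' : a ≠ 0 := fun h => ha0 (by rw [h, map_zero])
    have ha1728' : a ≠ 1728 := fun h => ha1728 (by rw [h, map_ofNat])
    rw [jOm_eq_jF107] at hz hz' ⊢
    haveI : FiniteDimensional Kbar⟮jF M - algebraMap Kbar (FF M) a⟯ (FF M) :=
      FF.finiteDimensional_adjoin_sub_const (jF M) a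
    set v : Place Kbar (FF M) :=
      H504.placeOfValuationSubring O (algebraMap_mem_of_Lc107 hL) hz hz' with hv
    have hpos : 0 < v.ord (jF M - algebraMap Kbar (FF M) a) := ord_pos_of_nonunit107 v hz hz'
    have h1 := H24.ord_sub_eq_one M a ha0' ha1728' v hpos
    exact ordLe_of_place107 v (ne_zero_of_inv_not_mem107 hz') 1 (by rw [h1]; norm_num)
  · intro O hL hz hz'
    rw [jOm_eq_jF107] at hz hz' ⊢
    set v : Place Kbar (FF M) :=
      H504.placeOfValuationSubring O (algebraMap_mem_of_Lc107 hL) hz hz' with hv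
    have hpos : 0 < v.ord (jF M) := ord_pos_of_nonunit107 v hz hz'
    have h1 := H24.ord_zero_dvd M v hpos
    exact ordLe_of_place107 v (ne_zero_of_inv_not_mem107 hz') 3
      (Int.le_of_dvd (by norm_num) h1)
  · intro O hL hz hz'
    rw [jOm_eq_jF107] at hz hz' ⊢
    have e : (1728 : FF M) = algebraMap Kbar (FF M) 1728 := by rw [map_ofNat]
    rw [e] at hz hz' ⊢
    haveI : FiniteDimensional Kbar⟮jF M - algebraMap Kbar (FF M) 1728⟯ (FF M) :=
      FF.finiteDimensional_adjoin_sub_const (jF M) 1728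
    set v : Place Kbar (FF M) :=
      H504.placeOfValuationSubring O (algebraMap_mem_of_Lc107 hL) hz hz' with hv
    have hpos : 0 < v.ord (jF M - algebraMap Kbar (FF M) 1728) :=
      ord_pos_of_nonunit107 v hz hz'
    have h1 := H24.ord_1728_dvd M v hpos
    exact ordLe_of_place107 v (ne_zero_of_inv_not_mem107 hz') 2
      (Int.le_of_dvd (by norm_num) h1)

/-- The field `unramified` of `Alg.GoodModel` for `x = j`, `S = {0, 1728}`. -/
theorem unramified_j_concrete107 (S : Finset (Om M)) (hS : ∀ s, s ∈ S ↔ s = 0 ∨ s = 1728) :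
    ∀ O : ValuationSubring (Om M), (∀ a ∈ Lc M, a ∈ O) → ∀ c ∈ Lc M, c ∉ S →
      jOm M - c ∈ O → (jOm M - c)⁻¹ ∉ O → ∀ t ∈ O, t⁻¹ ∉ O → t * (jOm M - c)⁻¹ ∈ O := by
  intro O hL c hc hcS hz hz'
  rw [← OrdLe107.one_iff]
  exact (branchJ_concrete107 M).generic O hL c hc (fun h => hcS ((hS c).2 (Or.inl h)))
    (fun h => hcS ((hS c).2 (Or.inr h))) hz hz'

end Fermat.Agent.S18.H107

end
end
-- ===== PACK-END S18/H107/BranchConcrete.lean

-- ===== PACK-BEGIN A2/H528/Fricke.lean
section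


/-!
# A2 / W — the Fricke (Atkin–Lehner) involution `w_N` of the function field of `X₀(N)`

* `fricke N τ = -1/(Nτ)` on `ℍ`, `Jd d ∘ fricke N = Jd (N/d)` for `d ∣ N`;
* `wR N : RN N →+* RN N`, the induced involution of `ℚ̄[j(q^d) : d ∣ N] ⊆ ℚ̄((q))`
  (`j(q^d) ↦ j(q^{N/d})`, identity on the constants);
* `wF N : FF N ≃ₐ[ℚ̄] FF N`, its extension to `FF N = modularFunctionFieldBar N`.
-/

set_option autoImplicit false

noncomputable section

open ModularCurve HahnSeries UpperHalfPlane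
open scoped MatrixGroups

namespace Fermat.Agent.A2.H528

open Fermat.Agent.S24 Fermat.Agent.S24.H997

variable (N : ℕ) [NeZero N]

/-- The Fricke map `τ ↦ -1/(Nτ)` of the upper half plane. -/
def fricke (τ : ℍ) : ℍ := ModularGroup.S • infAff N 0 1 τ

theorem fricke_coe (τ : ℍ) : (fricke N τ : ℂ) = -1 / ((N : ℂ) * τ) := by
  have hN : 0 < N := Nat.pos_of_ne_zero (NeZero.ne N)
  rw [fricke, UpperHalfPlane.modular_S_smul]
  show (-(infAff N 0 1 τ : ℂ))⁻¹ = _
  rw [infAff_coe hN one_pos]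
  simp only [Int.cast_zero, add_zero, Nat.cast_one, div_one]
  rw [inv_neg, neg_div, one_div]

theorem fricke_fricke (τ : ℍ) : fricke N (fricke N τ) = τ := by
  apply UpperHalfPlane.ext
  rw [fricke_coe, fricke_coe]
  have hN : (N : ℂ) ≠ 0 := by exact_mod_cast NeZero.ne N
  have hτ : (τ : ℂ) ≠ 0 := UpperHalfPlane.ne_zero τ
  field_simp

theorem Jd_fricke {d : ℕ} (hd : d ∣ N) (τ : ℍ) : Jd d (fricke N τ) = Jd (N / d) τ := by
  have hN : 0 < N := Nat.pos_of_ne_zero (NeZero.ne N)
  have hd0 : 0 < d := Nat.pos_of_dvd_of_pos hd hN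
  have hd1 : 0 < N / d := Nat.div_pos (Nat.le_of_dvd hN hd) hd0
  have key : infAff d 0 1 (fricke N τ) = ModularGroup.S • infAff (N / d) 0 1 τ := by
    apply UpperHalfPlane.ext
    rw [infAff_coe hd0 one_pos, fricke_coe, UpperHalfPlane.modular_S_smul]
    show _ = (-(infAff (N / d) 0 1 τ : ℂ))⁻¹
    rw [infAff_coe hd1 one_pos]
    have hNd : (N : ℂ) = (d : ℂ) * ((N / d : ℕ) : ℂ) := by
      rw [← Nat.cast_mul, Nat.mul_div_cancel' hd]
    have hdc : (d : ℂ) ≠ 0 := by exact_mod_cast hd0.ne'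
    have hd1c : ((N / d : ℕ) : ℂ) ≠ 0 := by exact_mod_cast hd1.ne'
    have hτ : (τ : ℂ) ≠ 0 := UpperHalfPlane.ne_zero τ
    rw [hNd]
    simp only [Int.cast_zero, add_zero, Nat.cast_one, div_one]
    field_simp
  unfold Jd
  rw [key, jFun_smul']

/-- Precomposition with the Fricke map, as a ring endomorphism of `ℍ → ℂ`. -/
def compW : (ℍ → ℂ) →+* (ℍ → ℂ) where
  toFun f := fun τ => f (fricke N τ)
  map_one' := rfl
  map_mul' _ _ := rfl
  map_zero' := rfl
  map_add' _ _ := rfl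

omit [NeZero N] in
@[simp] theorem compW_apply (f : ℍ → ℂ) (τ : ℍ) : compW N f τ = f (fricke N τ) := rfl

theorem compW_compW (f : ℍ → ℂ) : compW N (compW N f) = f := by
  funext τ
  simp [fricke_fricke]

/-- The analytic realisation `R_N → (ℍ → ℂ)` of the polynomial ring. -/
def toFun : RN N →+* (ℍ → ℂ) := (holBase N).Hol.subtype.comp (holBase N).bridge

theorem toFun_injective : Function.Injective (toFun N) := by
  intro r r' h
  exact (holBase N).bridge_injective (Subtype.ext h)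

theorem toFun_jR (d : ℕ) [NeZero d] (hd : d ∣ N) : toFun N (jR N d hd) = Jd d := by
  show (((holBase N).bridge (jR N d hd) : (holBase N).Hol) : ℍ → ℂ) = _
  rw [(holBase N).bridge_jR d hd]
  rfl

theorem toFun_algebraMap (c : Kbar) :
    toFun N (algebraMap Kbar (RN N) c) = fun _ => ιK c := by
  show (((holBase N).bridge (algebraMap Kbar (RN N) c) : (holBase N).Hol) : ℍ → ℂ) = _
  rw [(holBase N).bridge_algebraMap c]
  rfl

theorem neZero_div {d : ℕ} (hd : d ∣ N) : NeZero (N / d) := by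
  have hN : 0 < N := Nat.pos_of_ne_zero (NeZero.ne N)
  have hd0 : 0 < d := Nat.pos_of_dvd_of_pos hd hN
  exact ⟨(Nat.div_pos (Nat.le_of_dvd hN hd) hd0).ne'⟩

theorem compW_toFun_mem (r : RN N) : compW N (toFun N r) ∈ (toFun N).range := by
  obtain ⟨r, hr⟩ := r
  induction hr using Algebra.adjoin_induction with
  | mem x hx =>
      obtain ⟨y, ⟨d, hne, hd, rfl⟩, rfl⟩ := hx
      have := hne
      have := neZero_div N hd
      have h1 : (⟨coeffEmb Kbar (qExpand ℚ d jq), Algebra.subset_adjoin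
          ⟨_, ⟨d, hne, hd, rfl⟩, rfl⟩⟩ : RN N) = jR N d hd := rfl
      rw [h1, toFun_jR]
      refine ⟨jR N (N / d) (Nat.div_dvd_of_dvd hd), ?_⟩
      rw [toFun_jR]
      funext τ
      exact (Jd_fricke N hd τ).symm
  | algebraMap c =>
      have h1 : (⟨algebraMap Kbar (LaurentSeries Kbar) c, Subalgebra.algebraMap_mem _ c⟩ : RN N)
          = algebraMap Kbar (RN N) c := rfl
      rw [h1, toFun_algebraMap]
      exact ⟨algebraMap Kbar (RN N) c, toFun_algebraMap N c⟩
  | add x y hx hy ihx ihy =>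
      have h1 : (⟨x + y, add_mem hx hy⟩ : RN N) = ⟨x, hx⟩ + ⟨y, hy⟩ := rfl
      rw [h1, map_add, map_add]
      exact add_mem ihx ihy
  | mul x y hx hy ihx ihy =>
      have h1 : (⟨x * y, mul_mem hx hy⟩ : RN N) = ⟨x, hx⟩ * ⟨y, hy⟩ := rfl
      rw [h1, map_mul, map_mul]
      exact mul_mem ihx ihy

/-- `R_N ≃ range toFun`. -/
def toFunEquiv : RN N ≃+* (toFun N).range :=
  RingEquiv.ofBijective (toFun N).rangeRestrict
    ⟨fun x y h => by
      have h' : ((toFun N).rangeRestrict x : ℍ → ℂ) = ((toFun N).rangeRestrict y : ℍ → ℂ) := by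
        rw [h]
      exact toFun_injective N h', (toFun N).rangeRestrict_surjective⟩

/-- **The Fricke involution on `R_N = ℚ̄[j(q^d) : d ∣ N]`.** -/
def wR : RN N →+* RN N :=
  ((toFunEquiv N).symm : (toFun N).range →+* RN N).comp
    (((compW N).comp (toFun N)).codRestrict (toFun N).range fun r => compW_toFun_mem N r)

theorem toFun_wR (r : RN N) : toFun N (wR N r) = compW N (toFun N r) := by
  have h := (toFunEquiv N).apply_symm_apply
    ((((compW N).comp (toFun N)).codRestrict (toFun N).range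
      fun r => compW_toFun_mem N r) r)
  exact congrArg Subtype.val h

theorem wR_wR (r : RN N) : wR N (wR N r) = r := by
  apply toFun_injective N
  rw [toFun_wR, toFun_wR, compW_compW]

theorem wR_injective : Function.Injective (wR N) :=
  Function.LeftInverse.injective (wR_wR N)

theorem wR_algebraMap (c : Kbar) : wR N (algebraMap Kbar (RN N) c) = algebraMap Kbar (RN N) c := by
  apply toFun_injective N
  rw [toFun_wR, toFun_algebraMap]
  rfl

theorem wR_jR (d : ℕ) [NeZero d] (hd : d ∣ N) :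
    haveI := neZero_div N hd
    wR N (jR N d hd) = jR N (N / d) (Nat.div_dvd_of_dvd hd) := by
  have := neZero_div N hd
  apply toFun_injective N
  rw [toFun_wR, toFun_jR, toFun_jR]
  funext τ
  exact Jd_fricke N hd τ

/-- The Fricke involution on `FF N`, as a ring homomorphism. -/
def wFHom : FF N →+* FF N :=
  liftF ((inclRN N).toRingHom.comp (wR N))
    ((inclRN_injective N).comp (wR_injective N))

theorem wFHom_inclRN (r : RN N) : wFHom N (inclRN N r) = inclRN N (wR N r) :=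
  liftF_inclRN _ _ r

theorem wFHom_wFHom (f : FF N) : wFHom N (wFHom N f) = f := by
  obtain ⟨r, t, -, rfl⟩ := exists_div_inclRN N f
  rw [map_div₀, map_div₀, wFHom_inclRN, wFHom_inclRN, wFHom_inclRN, wFHom_inclRN, wR_wR, wR_wR]

theorem wFHom_algebraMap (c : Kbar) :
    wFHom N (algebraMap Kbar (FF N) c) = algebraMap Kbar (FF N) c := by
  have h : algebraMap Kbar (FF N) c = inclRN N (algebraMap Kbar (RN N) c) :=
    ((inclRN N).commutes c).symm
  rw [h, wFHom_inclRN, wR_algebraMap]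

/-- **The Fricke involution `w_N` of the function field of `X₀(N)` over `ℚ̄`.** -/
def wF : FF N ≃ₐ[Kbar] FF N :=
  AlgEquiv.ofAlgHom
    { toRingHom := wFHom N, commutes' := wFHom_algebraMap N }
    { toRingHom := wFHom N, commutes' := wFHom_algebraMap N }
    (AlgHom.ext fun f => wFHom_wFHom N f)
    (AlgHom.ext fun f => wFHom_wFHom N f)

@[simp] theorem wF_apply (f : FF N) : wF N f = wFHom N f := rfl

theorem wF_wF (f : FF N) : wF N (wF N f) = f := wFHom_wFHom N f

theorem wF_symm : (wF N).symm = wF N := by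
  refine AlgEquiv.ext fun f => ?_
  apply (wF N).injective
  rw [AlgEquiv.apply_symm_apply, wF_wF]

/-- `j(q^d)` as an element of `FF N`. -/
def jFd (d : ℕ) [NeZero d] (hd : d ∣ N) : FF N := inclRN N (jR N d hd)

omit [NeZero N] in
@[simp] theorem coe_jFd (d : ℕ) [NeZero d] (hd : d ∣ N) :
    ((jFd N d hd : FF N) : LaurentSeries Kbar) = coeffEmb Kbar (qExpand ℚ d jq) := rfl

/-- `w_N (j(q^d)) = j(q^{N/d})`. -/
theorem wF_jFd (d : ℕ) [NeZero d] (hd : d ∣ N) :
    haveI := neZero_div N hd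
    wF N (jFd N d hd) = jFd N (N / d) (Nat.div_dvd_of_dvd hd) := by
  have := neZero_div N hd
  show wFHom N (inclRN N (jR N d hd)) = _
  rw [wFHom_inclRN, wR_jR]
  rfl

end Fermat.Agent.A2.H528

end
end
-- ===== PACK-END A2/H528/Fricke.lean

-- ===== PACK-BEGIN S37/Rim/H383/NormalLift.lean
section




/-!
# S37 / RIM-NORMAL (helper383), part 1: the normality lift over a DVR, inside a field

Typed, Mathlib-only consumer of b2 (`Fermat.Agent.S18.B12.H638.b2NormalDom`) and HSEP
(`Fermat.Agent.S18.H425.hsep_poly`).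

Setting: `F` a field of characteristic `0`, `R : Subring F` a discrete valuation ring with
uniformiser `w`, `z : F` transcendental over `R`, `B := integralClosure R[z] F` (the chart),
finite over `R[z]` with fraction field `F`; `V : ValuationSubring F` the Gauss valuation ring:
`R ⊆ V`, `z ∈ V`, `𝔪_V = w V`, and

* `qep`  : `b ∈ B`, `b / w ∈ V` ⟹ `b / w ∈ B`                      (`q`-expansion principle),
* `sepB` : every `f ∈ B` is a simple root mod `w` of a polynomial over `R[z]`,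
* `S`, `hS` : branch values, pairwise distinct mod `w`,
* `hNC`  : for a prime `π ∈ R[X]` not associated to `w`, `X - c` (`c ∈ S`): `π(z) B` is radical
           (elementwise form).

**Theorem `exists_chart_lift`**: every `v ∈ V` which is integral over `B` modulo `w`
(`Q(v) ∈ w V` for a monic `Q` with coefficients in `B`) is congruent modulo `w V` to an element
of `B`.  (Normality of the special fibre `B / w B`.)
-/

set_option autoImplicit false
set_option linter.style.haveILetI false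
set_option linter.unusedSectionVars false

noncomputable section

namespace Fermat.Agent.S37.Rim.H383

open Polynomial

variable {F : Type*} [Field F] (R : Subring F) (z : F)

/-- The chart `B`: the integral closure of `R[z]` in `F`. -/
abbrev chartB : Subalgebra (Algebra.adjoin R ({z} : Set F)) F :=
  integralClosure (Algebra.adjoin R ({z} : Set F)) F

/-- The structure map `R[X] → B`, `X ↦ z`. -/
def polyToChart : Polynomial R →+* chartB R z :=
  (algebraMap (Algebra.adjoin R ({z} : Set F)) (chartB R z)).comp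
    ((aeval (⟨z, Algebra.self_mem_adjoin_singleton R z⟩ : Algebra.adjoin R ({z} : Set F)) :
      Polynomial R →ₐ[R] Algebra.adjoin R ({z} : Set F)) : Polynomial R →+*
        Algebra.adjoin R ({z} : Set F))

theorem coe_aeval_adjoin (p : Polynomial R) :
    ((aeval (⟨z, Algebra.self_mem_adjoin_singleton R z⟩ : Algebra.adjoin R ({z} : Set F)) p :
      Algebra.adjoin R ({z} : Set F)) : F) = aeval z p := by
  have : (aeval (⟨z, Algebra.self_mem_adjoin_singleton R z⟩ :
      Algebra.adjoin R ({z} : Set F)) p : F) =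
      (Algebra.adjoin R ({z} : Set F)).val (aeval (⟨z, Algebra.self_mem_adjoin_singleton R z⟩ :
        Algebra.adjoin R ({z} : Set F)) p) := rfl
  rw [this, ← aeval_algHom_apply]
  rfl

@[simp] theorem coe_polyToChart (p : Polynomial R) :
    ((polyToChart R z p : chartB R z) : F) = aeval z p :=
  coe_aeval_adjoin R z p

theorem aeval_surjective_adjoin :
    Function.Surjective (aeval (⟨z, Algebra.self_mem_adjoin_singleton R z⟩ :
      Algebra.adjoin R ({z} : Set F)) : Polynomial R → Algebra.adjoin R ({z} : Set F)) := by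
  rintro ⟨a, ha⟩
  obtain ⟨p, hp⟩ := Algebra.adjoin_mem_exists_aeval R z ha
  exact ⟨p, Subtype.ext (by rw [coe_aeval_adjoin, hp])⟩

theorem polyToChart_injective (hz : Transcendental R z) :
    Function.Injective (polyToChart R z) := by
  intro p q hpq
  have h : aeval z p = aeval z q := by
    rw [← coe_polyToChart, ← coe_polyToChart, hpq]
  exact (transcendental_iff_injective.mp hz) h


/-! ### The Gauss valuation ring and the chart -/

section Gauss

variable {R z}
variable (V : ValuationSubring F) {w : F} (hwR : w ∈ R)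

/-- `R[z] ⊆ V`. -/
theorem adjoin_le_V (hRV : ∀ r ∈ R, r ∈ V) (hzV : z ∈ V) {f : F}
    (hf : f ∈ Algebra.adjoin R ({z} : Set F)) : f ∈ V := by
  obtain ⟨P, rfl⟩ := Algebra.adjoin_mem_exists_aeval R z hf
  rw [aeval_eq_sum_range]
  refine V.toSubring.sum_mem fun i _ => ?_
  rw [Algebra.smul_def]
  exact mul_mem (hRV _ (P.coeff i).2) (pow_mem hzV i)

/-- `B ⊆ V`: valuation rings are integrally closed. -/
theorem chart_le_V (hRV : ∀ r ∈ R, r ∈ V) (hzV : z ∈ V) {f : F} (hf : f ∈ chartB R z) :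
    f ∈ V := by
  let i : Algebra.adjoin R ({z} : Set F) →+* V :=
    (algebraMap (Algebra.adjoin R ({z} : Set F)) F).codRestrict V.toSubring
      (fun a => adjoin_le_V V hRV hzV a.2)
  have hi : (algebraMap V F).comp i = algebraMap (Algebra.adjoin R ({z} : Set F)) F := by
    ext a; rfl
  have hint : IsIntegral V f := by
    obtain ⟨p, hp, hpf⟩ := hf
    refine ⟨p.map i, hp.map i, ?_⟩
    rw [eval₂_map, hi]
    exact hpf
  obtain ⟨y, hy⟩ := (IsIntegrallyClosed.isIntegral_iff (R := V) (K := F)).1 hint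
  rw [← hy]
  exact y.2

/-- the uniformiser as an element of the chart -/
def wB : chartB R z := polyToChart R z (C ⟨w, hwR⟩)

@[simp] theorem coe_wB : ((wB (z := z) hwR : chartB R z) : F) = w := by
  unfold wB
  rw [coe_polyToChart, aeval_C]
  rfl

/-- divisibility by `w` in the chart, elementwise -/
theorem wB_dvd_iff (hw0 : w ≠ 0) (b : chartB R z) :
    wB (z := z) hwR ∣ b ↔ (b : F) * w⁻¹ ∈ chartB R z := by
  constructor
  · rintro ⟨c, rfl⟩
    have : ((wB (z := z) hwR * c : chartB R z) : F) * w⁻¹ = (c : F) := by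
      rw [MulMemClass.coe_mul, coe_wB]
      field_simp
    rw [this]
    exact c.2
  · intro h
    refine ⟨⟨(b : F) * w⁻¹, h⟩, Subtype.ext ?_⟩
    rw [MulMemClass.coe_mul, coe_wB]
    field_simp

/-- divisibility by `π(z)` in the chart, elementwise -/
theorem polyToChart_dvd_iff (π : Polynomial R) (hπ : aeval z π ≠ 0) (b : chartB R z) :
    polyToChart R z π ∣ b ↔ (b : F) * (aeval z π)⁻¹ ∈ chartB R z := by
  constructor
  · rintro ⟨c, rfl⟩
    have : ((polyToChart R z π * c : chartB R z) : F) * (aeval z π)⁻¹ = (c : F) := by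
      rw [MulMemClass.coe_mul, coe_polyToChart]
      field_simp
    rw [this]
    exact c.2
  · intro h
    refine ⟨⟨(b : F) * (aeval z π)⁻¹, h⟩, Subtype.ext ?_⟩
    rw [MulMemClass.coe_mul, coe_polyToChart]
    field_simp

section Prime

variable (hw0 : w ≠ 0) (hRV : ∀ r ∈ R, r ∈ V) (hzV : z ∈ V)
  (hwV : w⁻¹ ∉ V) (hVgen : ∀ f ∈ V, f⁻¹ ∉ V → f * w⁻¹ ∈ V)
  (qep : ∀ b ∈ chartB R z, b * w⁻¹ ∈ V → b * w⁻¹ ∈ chartB R z)

include hVgen in
/-- In `V`, if `a * b ∈ w V` then `a ∈ w V` or `b ∈ w V`. -/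
theorem mem_wV_of_mul_mem {a b : F} (hab : a * b * w⁻¹ ∈ V) (ha : a ∈ V) :
    a * w⁻¹ ∈ V ∨ b * w⁻¹ ∈ V := by
  by_cases ha0 : a = 0
  · left; rw [ha0, zero_mul]; exact V.zero_mem
  by_cases hau : a⁻¹ ∈ V
  · right
    have : b * w⁻¹ = a⁻¹ * (a * b * w⁻¹) := by field_simp
    rw [this]
    exact mul_mem hau hab
  · left
    exact hVgen a ha hau

include hw0 hRV hzV hwV hVgen qep in
/-- **`w` is a prime element of the chart.** -/
theorem prime_wB : Prime (wB (z := z) hwR) := by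
  refine ⟨?_, ?_, ?_⟩
  · intro h
    apply hw0
    have := congrArg (Subtype.val : chartB R z → F) h
    simpa using this
  · rintro ⟨⟨u, v, huv, hvu⟩, hu⟩
    have hv : (v : F) = w⁻¹ := by
      have h1 : (u : F) * (v : F) = 1 := congrArg Subtype.val huv
      have h2 : (u : F) = w := by
        have h3 : u = wB (z := z) hwR := hu
        rw [h3]; exact coe_wB hwR
      rw [h2] at h1
      exact eq_inv_of_mul_eq_one_right h1
    exact hwV (hv ▸ chart_le_V V hRV hzV v.2)
  · intro a b hab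
    rw [wB_dvd_iff hwR hw0] at hab
    have haV := chart_le_V V hRV hzV a.2
    have habV : (a : F) * (b : F) * w⁻¹ ∈ V := by
      have := chart_le_V V hRV hzV hab
      simpa using this
    rcases mem_wV_of_mul_mem V hVgen habV haV with h | h
    · left
      rw [wB_dvd_iff hwR hw0]
      exact qep _ a.2 h
    · right
      rw [wB_dvd_iff hwR hw0]
      exact qep _ b.2 h

include hwR hw0 hRV qep in
/-- stripping powers of `w`: if `w ^ n * y ∈ B` and `y ∈ V` then `y ∈ B`. -/
theorem mem_chart_of_pow_mul_mem {y : F} (hy : y ∈ V) (n : ℕ)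
    (h : w ^ n * y ∈ chartB R z) : y ∈ chartB R z := by
  induction n with
  | zero => simpa using h
  | succ n ih =>
    apply ih
    have h1 : w ^ (n + 1) * y * w⁻¹ = w ^ n * y := by
      rw [pow_succ]; field_simp
    have hwV' : w ∈ V := hRV w hwR
    have h2 : w ^ (n + 1) * y * w⁻¹ ∈ V := by
      rw [h1]
      exact mul_mem (pow_mem hwV' n) hy
    have := qep _ h h2
    rwa [h1] at this

end Prime

end Gauss

/-! ### The chart as an `R[X]`-algebra -/

section Typed

variable {R z}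

/-- the `R[X]`-algebra structure of the chart (`X ↦ z`) -/
@[reducible] def polyAlgebra (R : Subring F) (z : F) : Algebra (Polynomial R) (chartB R z) :=
  (polyToChart R z).toAlgebra

theorem coe_eval₂_chart (b : chartB R z) (P : Polynomial (Polynomial R)) :
    ((eval₂ (polyToChart R z) b P : chartB R z) : F) =
      (P.map ((aeval z : Polynomial R →ₐ[R] F) : Polynomial R →+* F)).eval (b : F) := by
  have h1 : ((eval₂ (polyToChart R z) b P : chartB R z) : F) =
      (chartB R z).val.toRingHom (eval₂ (polyToChart R z) b P) := rfl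
  rw [h1, hom_eval₂, eval_map]
  congr 1
  ext p
  · simp
  · simp

theorem finite_poly [Module.Finite (Algebra.adjoin R ({z} : Set F)) (chartB R z)] :
    @Module.Finite (Polynomial R) (chartB R z) _ _ (polyAlgebra R z).toModule := by
  letI : Algebra (Polynomial R) (chartB R z) := polyAlgebra R z
  letI : Algebra (Polynomial R) (Algebra.adjoin R ({z} : Set F)) :=
    ((aeval (⟨z, Algebra.self_mem_adjoin_singleton R z⟩ : Algebra.adjoin R ({z} : Set F)) :
      Polynomial R →ₐ[R] Algebra.adjoin R ({z} : Set F)) : Polynomial R →+*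
        Algebra.adjoin R ({z} : Set F)).toAlgebra
  haveI : IsScalarTower (Polynomial R) (Algebra.adjoin R ({z} : Set F)) (chartB R z) :=
    IsScalarTower.of_algebraMap_eq (fun _ => rfl)
  haveI : Module.Finite (Polynomial R) (Algebra.adjoin R ({z} : Set F)) :=
    Module.Finite.of_surjective (Algebra.linearMap (Polynomial R) (Algebra.adjoin R ({z} : Set F)))
      (aeval_surjective_adjoin R z)
  exact Module.Finite.trans (Algebra.adjoin R ({z} : Set F)) (chartB R z)

theorem torsionFree_poly (hz : Transcendental R z) :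
    @Module.IsTorsionFree (Polynomial R) (chartB R z) _ _ (polyAlgebra R z).toModule := by
  letI : Algebra (Polynomial R) (chartB R z) := polyAlgebra R z
  rw [Module.isTorsionFree_iff_algebraMap_injective (R := Polynomial R) (A := chartB R z)]
  exact polyToChart_injective R z hz

end Typed

/-! ### The hypotheses of b2 -/

section Hyps

variable {R z}
variable (V : ValuationSubring F) {w : F} (hwR : w ∈ R)

/-- lifting a polynomial with coefficients in `R[z]` to `R[X][X]` -/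
theorem exists_lift_poly (P : Polynomial F)
    (hP : ∀ i, P.coeff i ∈ Algebra.adjoin R ({z} : Set F)) :
    ∃ P' : Polynomial (Polynomial R),
      P'.map ((aeval z : Polynomial R →ₐ[R] F) : Polynomial R →+* F) = P := by
  have : P ∈ Polynomial.lifts ((aeval z : Polynomial R →ₐ[R] F) : Polynomial R →+* F) := by
    rw [Polynomial.lifts_iff_coeff_lifts]
    intro n
    obtain ⟨p, hp⟩ := Algebra.adjoin_mem_exists_aeval R z (hP n)
    exact ⟨p, hp⟩
  exact (Polynomial.mem_lifts _).mp this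

variable (hw0 : w ≠ 0) (hRV : ∀ r ∈ R, r ∈ V) (hzV : z ∈ V) (hwV : w⁻¹ ∉ V)
  (qep : ∀ b ∈ chartB R z, b * w⁻¹ ∈ V → b * w⁻¹ ∈ chartB R z)

include hw0 hRV hzV hwV qep in
/-- the elementwise separability hypothesis of HSEP, from `sepB` -/
theorem hel_of_sepB
    (sepB : ∀ f ∈ chartB R z, ∃ P : Polynomial F,
      (∀ i, P.coeff i ∈ Algebra.adjoin R ({z} : Set F)) ∧
      P.eval f * w⁻¹ ∈ V ∧ (derivative P).eval f ≠ 0 ∧ ((derivative P).eval f)⁻¹ ∈ V)
    (b : chartB R z) :
    ∃ P : Polynomial (Polynomial R), wB (z := z) hwR ∣ eval₂ (polyToChart R z) b P ∧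
      ¬ wB (z := z) hwR ∣ eval₂ (polyToChart R z) b (derivative P) := by
  obtain ⟨P₀, hP₀c, hP₀v, hP₀d, hP₀u⟩ := sepB b b.2
  obtain ⟨P, hP⟩ := exists_lift_poly P₀ hP₀c
  refine ⟨P, ?_, ?_⟩
  · rw [wB_dvd_iff hwR hw0]
    have h1 : ((eval₂ (polyToChart R z) b P : chartB R z) : F) = P₀.eval (b : F) := by
      rw [coe_eval₂_chart, hP]
    apply qep _ (Subtype.mem _)
    rw [h1]
    exact hP₀v
  · rw [wB_dvd_iff hwR hw0]
    have h1 : ((eval₂ (polyToChart R z) b (derivative P) : chartB R z) : F) =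
        (derivative P₀).eval (b : F) := by
      rw [coe_eval₂_chart, ← hP, derivative_map]
    rw [h1]
    intro hmem
    apply hwV
    have hV := chart_le_V V hRV hzV hmem
    have : w⁻¹ = ((derivative P₀).eval (b : F))⁻¹ * ((derivative P₀).eval (b : F) * w⁻¹) := by
      field_simp
    rw [this]
    exact mul_mem hP₀u hV

/-- the radical hypothesis `hNC` of b2 from its elementwise form -/
theorem isRadical_of_elementwise (hz : Transcendental R z) (π : Polynomial R) (hπ0 : π ≠ 0)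
    (h : ∀ f ∈ chartB R z, ∀ n : ℕ, f ^ n * (aeval z π)⁻¹ ∈ chartB R z →
        f * (aeval z π)⁻¹ ∈ chartB R z) :
    (Ideal.span {polyToChart R z π}).IsRadical := by
  have hπz : aeval z π ≠ 0 := by
    intro h0
    apply hπ0
    apply transcendental_iff_injective.mp hz
    rw [h0, map_zero]
  intro f hf
  obtain ⟨n, hn⟩ := hf
  rw [Ideal.mem_span_singleton] at hn ⊢
  rw [polyToChart_dvd_iff π hπz] at hn ⊢
  have := h f f.2 n (by simpa using hn)
  exact this

end Hyps

/-! ### The normality lift -/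

section Main

variable {R z}
variable [CharZero F] [IsDiscreteValuationRing R]
variable [IsIntegrallyClosed (chartB R z)]
  [Module.Finite (Algebra.adjoin R ({z} : Set F)) (chartB R z)]

/-- **Normality of the special fibre, elementwise (RIM-NORMAL over a DVR).**
Every `v ∈ V` which is integral over the chart `B` modulo `w` is congruent modulo `w V` to an
element of `B`. -/
theorem exists_chart_lift (hz : Transcendental R z)
    (halg : ∀ f : F, IsAlgebraic (Algebra.adjoin R ({z} : Set F)) f)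
    (V : ValuationSubring F) {w : F} (hwR : w ∈ R) (hirr : Irreducible (⟨w, hwR⟩ : R))
    (hRV : ∀ r ∈ R, r ∈ V) (hzV : z ∈ V) (hwV : w⁻¹ ∉ V)
    (hVgen : ∀ f ∈ V, f⁻¹ ∉ V → f * w⁻¹ ∈ V)
    (qep : ∀ b ∈ chartB R z, b * w⁻¹ ∈ V → b * w⁻¹ ∈ chartB R z)
    (sepB : ∀ f ∈ chartB R z, ∃ P : Polynomial F,
      (∀ i, P.coeff i ∈ Algebra.adjoin R ({z} : Set F)) ∧
      P.eval f * w⁻¹ ∈ V ∧ (derivative P).eval f ≠ 0 ∧ ((derivative P).eval f)⁻¹ ∈ V)
    (S : Finset R) (hS : ∀ c ∈ S, ∀ c' ∈ S, c ≠ c' → IsUnit (c - c'))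
    (hNC : ∀ π : Polynomial R, Prime π → ¬ Associated π (C ⟨w, hwR⟩) →
      (∀ c ∈ S, ¬ Associated π (X - C c)) →
      ∀ f ∈ chartB R z, ∀ n : ℕ, f ^ n * (aeval z π)⁻¹ ∈ chartB R z →
        f * (aeval z π)⁻¹ ∈ chartB R z)
    {v : F} (hv : v ∈ V) (Q : Polynomial F) (hQ : Q.Monic)
    (hQc : ∀ i, Q.coeff i ∈ chartB R z) (hQv : Q.eval v * w⁻¹ ∈ V) :
    ∃ b ∈ chartB R z, (v - b) * w⁻¹ ∈ V := by
  classical
  have hw0 : w ≠ 0 := fun h => hirr.ne_zero (Subtype.ext h)
  have hwVmem : w ∈ V := hRV w hwR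
  letI : Algebra (Polynomial R) (chartB R z) := polyAlgebra R z
  haveI : Module.Finite (Polynomial R) (chartB R z) := finite_poly
  haveI : Module.IsTorsionFree (Polynomial R) (chartB R z) := torsionFree_poly hz
  haveI : CharZero R := RingHom.charZero R.subtype
  have hdom : Prime (algebraMap (Polynomial R) (chartB R z) (C ⟨w, hwR⟩)) :=
    prime_wB V hwR hw0 hRV hzV hwV hVgen qep
  have hel : ∀ b : chartB R z, ∃ P : Polynomial (Polynomial R),
      algebraMap (Polynomial R) (chartB R z) (C ⟨w, hwR⟩) ∣ aeval b P ∧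
      ¬ algebraMap (Polynomial R) (chartB R z) (C ⟨w, hwR⟩) ∣ aeval b (derivative P) :=
    fun b => hel_of_sepB V hwR hw0 hRV hzV hwV qep sepB b
  have hsep := Fermat.Agent.S18.H425.hsep_poly R ⟨w, hwR⟩ hirr (chartB R z) hdom hel
  have hNC' : ∀ π : Polynomial R, Prime π → ¬ Associated π (C ⟨w, hwR⟩) →
      (∀ c ∈ S, ¬ Associated π (X - C c)) →
      (Ideal.span {algebraMap (Polynomial R) (chartB R z) π}).IsRadical :=
    fun π hπ h1 h2 => isRadical_of_elementwise hz π hπ.ne_zero (hNC π hπ h1 h2)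
  -- a denominator `g ∈ R[X]`, `w ∤ g`, with `g(z) v ∈ B`
  obtain ⟨g₀, hg₀, hint⟩ := (halg v).exists_integral_multiple
  obtain ⟨G, hG⟩ := aeval_surjective_adjoin R z g₀
  have hG0 : G ≠ 0 := by
    rintro rfl
    apply hg₀
    rw [← hG, map_zero]
  have hCw : Prime (C (⟨w, hwR⟩ : R) : Polynomial R) := Polynomial.prime_C_iff.mpr hirr.prime
  obtain ⟨n, g, hng, hGeq⟩ := WfDvdMonoid.max_power_factor hG0 hCw.irreducible
  have hgz : aeval z G = w ^ n * aeval z g := by
    rw [hGeq, map_mul, map_pow, aeval_C]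
    rfl
  have hgV : aeval z g ∈ V :=
    adjoin_le_V V hRV hzV (by
      rw [← coe_aeval_adjoin]; exact Subtype.mem _)
  have hgvV : aeval z g * v ∈ V := mul_mem hgV hv
  have hbB : aeval z g * v ∈ chartB R z := by
    apply mem_chart_of_pow_mul_mem V hwR hw0 hRV qep hgvV n
    have : w ^ n * (aeval z g * v) = g₀ • v := by
      rw [← mul_assoc, ← hgz, ← coe_aeval_adjoin, hG]
      rfl
    rw [this]
    exact hint
  -- `g(z)` is a unit of `V`
  have hgunit : (aeval z g)⁻¹ ∈ V := by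
    by_contra hcon
    have h1 : aeval z g * w⁻¹ ∈ V := hVgen _ hgV hcon
    have h2 : aeval z g * w⁻¹ ∈ chartB R z := by
      have hmem : aeval z g ∈ chartB R z := by
        rw [← coe_polyToChart]; exact Subtype.mem _
      exact qep _ hmem h1
    have h3 : algebraMap (Polynomial R) (chartB R z) (C ⟨w, hwR⟩) ∣
        algebraMap (Polynomial R) (chartB R z) g := by
      have := (wB_dvd_iff (z := z) hwR hw0 (polyToChart R z g)).mpr (by simpa using h2)
      exact this
    haveI : Algebra.IsIntegral (Polynomial R) (chartB R z) := Algebra.IsIntegral.of_finite _ _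
    haveI hic : IsIntegrallyClosed (Polynomial R) := inferInstance
    have h7 : (C (⟨w, hwR⟩ : R) : Polynomial R) ∣ g :=
      Fermat.Agent.S18.B12.H638.dvd_of_algebraMap_dvd (P := Polynomial R) (B := chartB R z)
        (C ⟨w, hwR⟩) g hCw.ne_zero h3
    exact hng h7
  -- the integrality relation
  set d := Q.natDegree with hd
  let a : Fin d → chartB R z := fun i => ⟨Q.coeff i, hQc i⟩
  let b : chartB R z := ⟨aeval z g * v, hbB⟩
  have hrel : b ^ d + ∑ i : Fin d, a i * b ^ (i : ℕ) *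
      algebraMap (Polynomial R) (chartB R z) g ^ (d - (i : ℕ)) ∈
        Ideal.span {algebraMap (Polynomial R) (chartB R z) (C ⟨w, hwR⟩)} := by
    rw [Ideal.mem_span_singleton]
    have hval : ((b ^ d + ∑ i : Fin d, a i * b ^ (i : ℕ) *
        algebraMap (Polynomial R) (chartB R z) g ^ (d - (i : ℕ)) : chartB R z) : F) =
        aeval z g ^ d * Q.eval v := by
      have hQsum : Q.eval v = v ^ d + ∑ i : Fin d, Q.coeff i * v ^ (i : ℕ) := by
        conv_lhs => rw [hQ.as_sum]
        rw [eval_add, eval_pow, eval_X, eval_finsetSum, Finset.sum_range]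
        congr 1
        refine Finset.sum_congr rfl fun i _ => ?_
        rw [eval_mul, eval_C, eval_pow, eval_X]
      rw [hQsum, mul_add, Finset.mul_sum]
      push_cast
      congr 1
      · show (aeval z g * v) ^ d = _
        rw [mul_pow]
      · refine Finset.sum_congr rfl fun i _ => ?_
        show Q.coeff i * (aeval z g * v) ^ (i : ℕ) *
          ((polyToChart R z g : chartB R z) : F) ^ (d - (i : ℕ)) = _
        rw [coe_polyToChart, mul_pow]
        have hi : (i : ℕ) + (d - (i : ℕ)) = d := by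
          have := i.2
          omega
        calc Q.coeff i * (aeval z g ^ (i : ℕ) * v ^ (i : ℕ)) * aeval z g ^ (d - (i : ℕ))
            = aeval z g ^ ((i : ℕ) + (d - (i : ℕ))) * (Q.coeff i * v ^ (i : ℕ)) := by
              rw [pow_add]; ring
          _ = aeval z g ^ d * (Q.coeff i * v ^ (i : ℕ)) := by rw [hi]
    apply (wB_dvd_iff (z := z) hwR hw0 _).mpr
    apply qep _ (Subtype.mem _)
    rw [hval, mul_assoc]
    exact mul_mem (pow_mem hgV d) hQv
  obtain ⟨b₀, hb₀⟩ := Fermat.Agent.S18.B12.H638.b2NormalDom R ⟨w, hwR⟩ hirr (chartB R z) hdom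
    hsep S hS hNC' b g hng ⟨d, a, hrel⟩
  refine ⟨b₀, b₀.2, ?_⟩
  rw [Ideal.mem_span_singleton] at hb₀
  have h4 := (wB_dvd_iff (z := z) hwR hw0 _).mp hb₀
  have h5 : ((b - algebraMap (Polynomial R) (chartB R z) g * b₀ : chartB R z) : F) =
      aeval z g * (v - b₀) := by
    push_cast
    show aeval z g * v - ((polyToChart R z g : chartB R z) : F) * (b₀ : F) = _
    rw [coe_polyToChart]
    ring
  rw [h5] at h4
  have h6 := chart_le_V V hRV hzV h4
  have hg0 : aeval z g ≠ 0 := by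
    intro h0
    apply hng
    have : g = 0 := by
      apply transcendental_iff_injective.mp hz
      rw [h0, map_zero]
    rw [this]
    exact dvd_zero _
  have : (v - b₀) * w⁻¹ = (aeval z g)⁻¹ * (aeval z g * (v - b₀) * w⁻¹) := by
    field_simp
  rw [this]
  exact mul_mem hgunit h6

end Main

end Fermat.Agent.S37.Rim.H383

end
end
-- ===== PACK-END S37/Rim/H383/NormalLift.lean

-- ===== PACK-BEGIN S36/H890/Haupt9.lean
section


/-!
# The Hauptmodul `t₉` of `Γ₀(9)` (helper890, S36 cell REG: elliptic points, `q = 2`)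

`t₉ = η(z)³/η(9z)³ = t⁻¹ ∏ (1 - tⁿ)³/(1 - t⁹ⁿ)³ = t⁻¹ - 3 + 5 t² - 7 t⁵ + …`, obtained here WITHOUT
any new modular input from helper637's level-3 relations (`Lib/Haupt`).  With `A = t₃`,
`B = t₃(t³)`:

  `t₉ := (A² B + 18 A B + 27 B + 1458 A) / (A B - 243 A + 9 B + 729)`.

Mirror of helper878's `S36/H878/Haupt4.lean` (level 4, odd `q`).  Write `Q(T) = T² + 9 T + 27`.

* `t9_cube`    : `t₃ · Q(t₉) = t₉³`;
* `t3e_eq`     : `t₃(t³) = t₉ · Q(t₉)`;
* `t9_mul`     : the definition, `t₉ · (A B - 243 A + 9 B + 729) = A² B + 18 A B + 27 B + 1458 A`;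
* `jq_mul_t9`  : `j · t₉⁹ Q(t₉) = (t₉ + 9)³ (t₉³ + 243 Q(t₉))³`;
* `jq_sub_1728_mul_t9` : `(j - 1728) · t₉⁹ Q(t₉) = (t₉⁶ - 486 t₉³ Q(t₉) - 19683 Q(t₉)²)²`;
* `t9_mul_cofactor`, `t9_quad_mul_cofactor` : `t₉ ∣ 3³⁰` and `Q(t₉) ∣ 3¹⁸` in `ℤ[j, t₉]`
  (so `t₉`, `Q(t₉)` are units of every chart on which `3` is invertible);
* `t9_mem_fullC`, `t9_mem_full`, `t9_mem_laurentBaseChange` : `t₉ ∈ K(j_d : d ∣ M)` for `9 ∣ M`;
* `coeffMap_t9` : compatibility with change of coefficients.

`X₀(9)` has no elliptic points, and `t₉` is a local coordinate at every non-cuspidal point of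
`X₀(9 M')` in every characteristic `≠ 3`: see `Theta9.lean` for `(θ t₉)⁶ t₉³ = Δ Q(t₉)⁵`.
-/

set_option autoImplicit false

noncomputable section

namespace Fermat.Agent.S36.H890

open PowerSeries ModularCurve Fermat.Agent.Lib.Haupt

/-! ## Integral power series -/

/-- `X³ · t₃(X³)`. -/
abbrev T3e : PowerSeries ℤ := ex 3 T3

theorem constantCoeff_T3e : constantCoeff T3e = 1 := by
  rw [T3e, constantCoeff_ex, constantCoeff_T3]

/-- `j(X³) · (X³ t₃(X³))³ = (X³ t₃(X³) + 27 X³) (X³ t₃(X³) + 243 X³)³`. -/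
theorem T3e_rel :
    ex 3 ModularCurve.jNum * T3e ^ 3 = (T3e + C 27 * X ^ 3) * (T3e + C 243 * X ^ 3) ^ 3 := by
  have h := congrArg (ex 3) T3_rel₁
  simp only [ex, map_mul, map_pow, map_add, PowerSeries.expand_X, PowerSeries.expand_C] at h
  exact h

theorem T3_mul_T3e_sub_ne_zero : T3 * T3e - C 729 * X ^ 4 ≠ 0 := by
  intro h
  have := congrArg constantCoeff h
  simp [constantCoeff_T3] at this

/-- The modular equation of `X₀(9)` in terms of `a = X t₃`, `b = X³ t₃(X³)`:
`b³ = (a³ + 36 X a² + 270 X² a) b² + (729 X⁴ a² + 26244 X⁵ a) b + 531441 X⁸ a`. -/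
theorem T3_T3e_rel :
    T3e ^ 3 = (T3 ^ 3 + C 36 * (X * T3 ^ 2) + C 270 * (X ^ 2 * T3)) * T3e ^ 2
      + (C 729 * (X ^ 4 * T3 ^ 2) + C 26244 * (X ^ 5 * T3)) * T3e
      + C 531441 * (X ^ 8 * T3) := by
  have h1 := T3_rel₂
  have h2 := T3e_rel
  have e3 : (C (3 : ℤ) : PowerSeries ℤ) = 3 := map_ofNat C 3
  have e27 : (C (27 : ℤ) : PowerSeries ℤ) = 27 := map_ofNat C 27
  have e36 : (C (36 : ℤ) : PowerSeries ℤ) = 36 := map_ofNat C 36
  have e243 : (C (243 : ℤ) : PowerSeries ℤ) = 243 := map_ofNat C 243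
  have e270 : (C (270 : ℤ) : PowerSeries ℤ) = 270 := map_ofNat C 270
  have e729 : (C (729 : ℤ) : PowerSeries ℤ) = 729 := map_ofNat C 729
  have e26244 : (C (26244 : ℤ) : PowerSeries ℤ) = 26244 := map_ofNat C 26244
  have e531441 : (C (531441 : ℤ) : PowerSeries ℤ) = 531441 := map_ofNat C 531441
  rw [e3, e27] at h1
  rw [e27, e243] at h2
  rw [e36, e270, e729, e26244, e531441]
  have hne := T3_mul_T3e_sub_ne_zero
  rw [e729] at hne
  have key : (T3 * T3e - 729 * X ^ 4) *
      (T3e ^ 3 - ((T3 ^ 3 + 36 * (X * T3 ^ 2) + 270 * (X ^ 2 * T3)) * T3e ^ 2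
        + (729 * (X ^ 4 * T3 ^ 2) + 26244 * (X ^ 5 * T3)) * T3e
        + 531441 * (X ^ 8 * T3))) = 0 := by
    linear_combination T3e ^ 3 * h1 - T3 * h2
  rcases mul_eq_zero.1 key with h | h
  · exact absurd h hne
  · exact sub_eq_zero.1 h

/-- Numerator of `X t₉`. -/
def N9 : PowerSeries ℤ :=
  T3 ^ 2 * T3e + C 18 * (X * (T3 * T3e)) + C 27 * (X ^ 2 * T3e) + C 1458 * (X ^ 4 * T3)

/-- Denominator of `X t₉`. -/
def D9 : PowerSeries ℤ :=
  T3 * T3e - C 243 * (X ^ 3 * T3) + C 9 * (X * T3e) + C 729 * X ^ 4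

theorem constantCoeff_N9 : constantCoeff N9 = 1 := by
  simp [N9, constantCoeff_T3]

theorem constantCoeff_D9 : constantCoeff D9 = 1 := by
  simp [D9, constantCoeff_T3]

theorem D9_ne_zero : D9 ≠ 0 := fun h => by
  have := constantCoeff_D9; rw [h, map_zero] at this; exact zero_ne_one this

/-- `X · t₉`, an integral power series with constant coefficient `1`. -/
def T9 : PowerSeries ℤ := N9 * D9.invOfUnit 1

theorem T9_mul : T9 * D9 = N9 := by
  have hu : D9 * D9.invOfUnit 1 = 1 :=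
    PowerSeries.mul_invOfUnit _ _ (by rw [constantCoeff_D9]; rfl)
  rw [T9]
  linear_combination N9 * hu

theorem constantCoeff_T9 : constantCoeff T9 = 1 := by
  have h := congrArg constantCoeff T9_mul
  simpa [constantCoeff_N9, constantCoeff_D9] using h

/-- `X² Q(t₉)`, `Q(T) = T² + 9 T + 27`. -/
abbrev Q9 : PowerSeries ℤ := T9 ^ 2 + C 9 * (X * T9) + C 27 * X ^ 2

theorem constantCoeff_Q9 : constantCoeff Q9 = 1 := by
  simp [Q9, constantCoeff_T9]

/-- `t₃ · Q(t₉) = t₉³`. -/
theorem T9_cube : T3 * Q9 = T9 ^ 3 := by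
  have h := T9_mul
  have hr := T3_T3e_rel
  have e9 : (C (9 : ℤ) : PowerSeries ℤ) = 9 := map_ofNat C 9
  have e18 : (C (18 : ℤ) : PowerSeries ℤ) = 18 := map_ofNat C 18
  have e27 : (C (27 : ℤ) : PowerSeries ℤ) = 27 := map_ofNat C 27
  have e36 : (C (36 : ℤ) : PowerSeries ℤ) = 36 := map_ofNat C 36
  have e243 : (C (243 : ℤ) : PowerSeries ℤ) = 243 := map_ofNat C 243
  have e270 : (C (270 : ℤ) : PowerSeries ℤ) = 270 := map_ofNat C 270
  have e729 : (C (729 : ℤ) : PowerSeries ℤ) = 729 := map_ofNat C 729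
  have e1458 : (C (1458 : ℤ) : PowerSeries ℤ) = 1458 := map_ofNat C 1458
  have e26244 : (C (26244 : ℤ) : PowerSeries ℤ) = 26244 := map_ofNat C 26244
  have e531441 : (C (531441 : ℤ) : PowerSeries ℤ) = 531441 := map_ofNat C 531441
  have hne := D9_ne_zero
  rw [N9, D9, e9, e18, e27, e243, e729, e1458] at h
  rw [D9, e9, e243, e729] at hne
  rw [e36, e270, e729, e26244, e531441] at hr
  rw [Q9, e9, e27]
  apply mul_right_cancel₀ (pow_ne_zero 3 hne)
  generalize T9 = τ at h ⊢
  generalize T3 = a at h hr ⊢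
  generalize T3e = b at h hr ⊢
  generalize (X : PowerSeries ℤ) = x at h hr ⊢
  linear_combination
    (a * (a * b - 243 * (x ^ 3 * a) + 9 * (x * b) + 729 * x ^ 4)
        * ((τ * (a * b - 243 * (x ^ 3 * a) + 9 * (x * b) + 729 * x ^ 4)
            + (a ^ 2 * b + 18 * (x * (a * b)) + 27 * (x ^ 2 * b) + 1458 * (x ^ 4 * a)))
          + 9 * x * (a * b - 243 * (x ^ 3 * a) + 9 * (x * b) + 729 * x ^ 4))
      - ((τ * (a * b - 243 * (x ^ 3 * a) + 9 * (x * b) + 729 * x ^ 4)) ^ 2
          + (τ * (a * b - 243 * (x ^ 3 * a) + 9 * (x * b) + 729 * x ^ 4))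
            * (a ^ 2 * b + 18 * (x * (a * b)) + 27 * (x ^ 2 * b) + 1458 * (x ^ 4 * a))
          + (a ^ 2 * b + 18 * (x * (a * b)) + 27 * (x ^ 2 * b) + 1458 * (x ^ 4 * a)) ^ 2)) * h
    - (-243 * x ^ 3 * a ^ 3 - 5103 * x ^ 4 * a ^ 2 - 6561 * x ^ 5 * a + 19683 * x ^ 6) * hr

/-- `t₃(t³) = t₉ · Q(t₉)`. -/
theorem T3e_eq : T3e = T9 * Q9 := by
  have h := T9_mul
  have hr := T3_T3e_rel
  have e9 : (C (9 : ℤ) : PowerSeries ℤ) = 9 := map_ofNat C 9
  have e18 : (C (18 : ℤ) : PowerSeries ℤ) = 18 := map_ofNat C 18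
  have e27 : (C (27 : ℤ) : PowerSeries ℤ) = 27 := map_ofNat C 27
  have e36 : (C (36 : ℤ) : PowerSeries ℤ) = 36 := map_ofNat C 36
  have e243 : (C (243 : ℤ) : PowerSeries ℤ) = 243 := map_ofNat C 243
  have e270 : (C (270 : ℤ) : PowerSeries ℤ) = 270 := map_ofNat C 270
  have e729 : (C (729 : ℤ) : PowerSeries ℤ) = 729 := map_ofNat C 729
  have e1458 : (C (1458 : ℤ) : PowerSeries ℤ) = 1458 := map_ofNat C 1458
  have e26244 : (C (26244 : ℤ) : PowerSeries ℤ) = 26244 := map_ofNat C 26244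
  have e531441 : (C (531441 : ℤ) : PowerSeries ℤ) = 531441 := map_ofNat C 531441
  have hne := D9_ne_zero
  rw [N9, D9, e9, e18, e27, e243, e729, e1458] at h
  rw [D9, e9, e243, e729] at hne
  rw [e36, e270, e729, e26244, e531441] at hr
  rw [Q9, e9, e27]
  apply mul_right_cancel₀ (pow_ne_zero 3 hne)
  generalize T9 = τ at h ⊢
  generalize T3 = a at h hr ⊢
  generalize T3e = b at h hr ⊢
  generalize (X : PowerSeries ℤ) = x at h hr ⊢
  linear_combination
    (-((a ^ 2 * b + 18 * (x * (a * b)) + 27 * (x ^ 2 * b) + 1458 * (x ^ 4 * a)) ^ 2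
        + (a ^ 2 * b + 18 * (x * (a * b)) + 27 * (x ^ 2 * b) + 1458 * (x ^ 4 * a))
          * (τ * (a * b - 243 * (x ^ 3 * a) + 9 * (x * b) + 729 * x ^ 4))
        + (τ * (a * b - 243 * (x ^ 3 * a) + 9 * (x * b) + 729 * x ^ 4)) ^ 2
        + 9 * x * (a * b - 243 * (x ^ 3 * a) + 9 * (x * b) + 729 * x ^ 4)
          * ((a ^ 2 * b + 18 * (x * (a * b)) + 27 * (x ^ 2 * b) + 1458 * (x ^ 4 * a))
            + τ * (a * b - 243 * (x ^ 3 * a) + 9 * (x * b) + 729 * x ^ 4))
        + 27 * x ^ 2 * (a * b - 243 * (x ^ 3 * a) + 9 * (x * b) + 729 * x ^ 4) ^ 2)) * h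
    - (-a ^ 3 * b - 27 * x * a ^ 2 * b - 243 * x ^ 2 * a * b - 729 * x ^ 3 * b
        - 1458 * x ^ 4 * a ^ 2 - 39366 * x ^ 6) * hr

/-- `t₉⁴ = t₃ · t₃(t³)`. -/
theorem T9_pow_four : T9 ^ 4 = T3 * T3e := by
  have h1 := T9_cube
  have h2 := T3e_eq
  linear_combination (-T9) * h1 - T3 * h2

/-! ## Laurent series over an arbitrary commutative ring -/

section Laurent

variable (K : Type*) [CommRing K]

/-- The Hauptmodul of `Γ₀(9)`: `t₉ = η(z)³/η(9z)³ = t⁻¹ - 3 + 5 t² - 7 t⁵ + …`. -/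
def t9 : LaurentSeries K := qinv K * lau K T9

theorem t9_add_const (c : ℤ) :
    t9 K + (c : LaurentSeries K) = qinv K * lau K (T9 + PowerSeries.C c * X) := by
  rw [t9, t_add_const]

theorem t3_add_const (c : ℤ) :
    t3 K + (c : LaurentSeries K) = qinv K * lau K (T3 + PowerSeries.C c * X) := by
  rw [t3, t_add_const]

/-- `Q(t₉) = t⁻² · (X² Q(t₉))`. -/
theorem t9_quad_eq : t9 K ^ 2 + 9 * t9 K + 27 = qinv K ^ 2 * lau K Q9 := by
  have hx := qinv_mul_lau_X K
  rw [Q9, t9]
  simp only [lau_add, lau_mul, lau_pow, lau_C]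
  push_cast
  linear_combination (-(9 * (qinv K * lau K T9) + 27 * (1 + qinv K * lau K X))) * hx

theorem qExpand_t3 : qExpand K 3 (t3 K) = qinv K ^ 3 * lau K T3e := by
  rw [t3, map_mul, qExpand_qinv, qExpand_lau]

/-- `t₃ · Q(t₉) = t₉³`. -/
theorem t9_cube : t3 K * (t9 K ^ 2 + 9 * t9 K + 27) = t9 K ^ 3 := by
  have h := congrArg (fun f => qinv K ^ 3 * lau K f) T9_cube
  simp only [lau_mul, lau_pow] at h
  rw [t9_quad_eq, t9, t3]
  linear_combination h

/-- `t₃(t³) = t₉ · Q(t₉)`. -/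
theorem t3e_eq : qExpand K 3 (t3 K) = t9 K * (t9 K ^ 2 + 9 * t9 K + 27) := by
  have h := congrArg (fun f => qinv K ^ 3 * lau K f) T3e_eq
  simp only [lau_mul] at h
  rw [qExpand_t3, t9_quad_eq, t9]
  linear_combination h

/-- `t₉⁴ = t₃ · t₃(t³)`. -/
theorem t9_pow_four : t9 K ^ 4 = t3 K * qExpand K 3 (t3 K) := by
  linear_combination (-t9 K) * t9_cube K - t3 K * t3e_eq K

/-- The definition of `t₉`:
`t₉ · (A B - 243 A + 9 B + 729) = A² B + 18 A B + 27 B + 1458 A`, `A = t₃`, `B = t₃(t³)`. -/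
theorem t9_mul :
    t9 K * (t3 K * qExpand K 3 (t3 K) - 243 * t3 K + 9 * qExpand K 3 (t3 K) + 729)
      = t3 K ^ 2 * qExpand K 3 (t3 K) + 18 * (t3 K * qExpand K 3 (t3 K))
        + 27 * qExpand K 3 (t3 K) + 1458 * t3 K := by
  linear_combination
    (t9 K * t3 K + 9 * t9 K - t3 K ^ 2 - 18 * t3 K - 27) * t3e_eq K
      + (-(t9 K * t3 K) - 9 * t9 K - 54) * t9_cube K

/-- `(t₉ + 9)³ = (t₃ + 27) · Q(t₉)`. -/
theorem t9_add_9_cube : (t9 K + 9) ^ 3 = (t3 K + 27) * (t9 K ^ 2 + 9 * t9 K + 27) := by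
  linear_combination -(t9_cube K)

/-- `(t₉ + 3)³ = t₃(t³) + 27`. -/
theorem t9_add_3_cube : (t9 K + 3) ^ 3 = qExpand K 3 (t3 K) + 27 := by
  linear_combination -(t3e_eq K)

/-- `t₉³ + 243 Q(t₉) = (t₃ + 243) · Q(t₉)`. -/
theorem t9_cube_add : t9 K ^ 3 + 243 * (t9 K ^ 2 + 9 * t9 K + 27)
    = (t3 K + 243) * (t9 K ^ 2 + 9 * t9 K + 27) := by
  linear_combination -(t9_cube K)

/-- `t₉⁶ - 486 t₉³ Q(t₉) - 19683 Q(t₉)² = (t₃² - 486 t₃ - 19683) · Q(t₉)²`. -/
theorem t9_sextic_eq :
    t9 K ^ 6 - 486 * (t9 K ^ 3 * (t9 K ^ 2 + 9 * t9 K + 27))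
        - 19683 * (t9 K ^ 2 + 9 * t9 K + 27) ^ 2
      = (t3 K ^ 2 - 486 * t3 K - 19683) * (t9 K ^ 2 + 9 * t9 K + 27) ^ 2 := by
  linear_combination
    (-(t9 K ^ 3) - t3 K * (t9 K ^ 2 + 9 * t9 K + 27)
      + 486 * (t9 K ^ 2 + 9 * t9 K + 27)) * t9_cube K

theorem t9_pow_nine : t9 K ^ 9 = t3 K ^ 3 * (t9 K ^ 2 + 9 * t9 K + 27) ^ 3 := by
  have h := congrArg (fun x => x ^ 3) (t9_cube K)
  beta_reduce at h
  linear_combination -h

/-- `j · t₉⁹ Q(t₉) = (t₉ + 9)³ (t₉³ + 243 Q(t₉))³`. -/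
theorem jq_mul_t9 :
    jqModC K * (t9 K ^ 9 * (t9 K ^ 2 + 9 * t9 K + 27))
      = (t9 K + 9) ^ 3 * (t9 K ^ 3 + 243 * (t9 K ^ 2 + 9 * t9 K + 27)) ^ 3 := by
  rw [t9_add_9_cube, t9_cube_add, t9_pow_nine]
  linear_combination (t9 K ^ 2 + 9 * t9 K + 27) ^ 4 * jq_mul_t3_cube K

/-- `(j - 1728) · t₉⁹ Q(t₉) = (t₉⁶ - 486 t₉³ Q(t₉) - 19683 Q(t₉)²)²`. -/
theorem jq_sub_1728_mul_t9 :
    (jqModC K - 1728) * (t9 K ^ 9 * (t9 K ^ 2 + 9 * t9 K + 27))
      = (t9 K ^ 6 - 486 * (t9 K ^ 3 * (t9 K ^ 2 + 9 * t9 K + 27))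
          - 19683 * (t9 K ^ 2 + 9 * t9 K + 27) ^ 2) ^ 2 := by
  rw [t9_sextic_eq, t9_pow_nine]
  linear_combination (t9 K ^ 2 + 9 * t9 K + 27) ^ 4 * jq_sub_1728_mul_t3_cube K

/-- `t₉` is a root of the monic polynomial `(T + 9)³ (T³ + 243 Q(T))³ - j T⁹ Q(T)` of degree `12`
over `ℤ[j]`. -/
theorem t9_duodecic :
    (t9 K + 9) ^ 3 * (t9 K ^ 3 + 243 * (t9 K ^ 2 + 9 * t9 K + 27)) ^ 3
      - jqModC K * (t9 K ^ 9 * (t9 K ^ 2 + 9 * t9 K + 27)) = 0 := by
  rw [jq_mul_t9, sub_self]

/-- `t₉ ∣ 3³⁰` in `ℤ[j, t₉]`. -/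
theorem t9_mul_cofactor :
    t9 K * (jqModC K * (t9 K ^ 8 * (t9 K ^ 2 + 9 * t9 K + 27))
      - (t9 K ^ 11 + 756 * t9 K ^ 10 + 203634 * t9 K ^ 9 + 22695228 * t9 K ^ 8
        + 930553191 * t9 K ^ 7 + 20241524808 * t9 K ^ 6 + 272112672348 * t9 K ^ 5
        + 2426801943096 * t9 K ^ 4 + 14780479075839 * t9 K ^ 3 + 61381352595204 * t9 K ^ 2
        + 167763144669714 * t9 K + 274521509459532)) = 3 ^ 30 := by
  linear_combination jq_mul_t9 K

/-- `Q(t₉) ∣ 3¹⁸` in `ℤ[j, t₉]`. -/
theorem t9_quad_mul_cofactor :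
    (t9 K ^ 2 + 9 * t9 K + 27) * (jqModC K * t9 K ^ 9
      - (t9 K ^ 10 + 747 * t9 K ^ 9 + 196884 * t9 K ^ 8 + 20903103 * t9 K ^ 7
        + 737109396 * t9 K ^ 6 + 13043156463 * t9 K ^ 5 + 134822310489 * t9 K ^ 4
        + 861235924194 * t9 K ^ 3 + 3389153374890 * t9 K ^ 2 + 7625602267956 * t9 K
        + 7625583136080)) = 3 ^ 18 := by
  linear_combination jq_mul_t9 K

/-- `t₃ ∣ 3¹⁸` in `ℤ[j, t₃]`. -/
theorem t3_mul_cofactor :
    t3 K * (jqModC K * t3 K ^ 2
      - (t3 K ^ 3 + 756 * t3 K ^ 2 + 196830 * t3 K + 19131876)) = 3 ^ 18 := by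
  linear_combination jq_mul_t3_cube K

/-! ### Basic properties -/

variable {K}

/-- `t₉` is compatible with every change of coefficients (base change, reduction mod `ℓ`). -/
theorem coeffMap_t9 {K' : Type*} [CommRing K'] (φ : K →+* K') :
    coeffMap φ (t9 K) = t9 K' := by
  rw [t9, map_mul, coeffMap_qinv, coeffMap_lau, t9]

variable (K)

/-- `t₉ = t⁻¹ + …`. -/
theorem coeff_t9_neg_one : (t9 K).coeff (-1) = 1 := by
  rw [t9, coeff_qinv_mul_lau, show (-1 : ℤ) + 1 = ((0 : ℕ) : ℤ) by norm_num, coeff_lau_natCast,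
    PowerSeries.coeff_zero_eq_constantCoeff, constantCoeff_T9, Int.cast_one]

theorem coeff_t9_of_lt {k : ℤ} (hk : k < -1) : (t9 K).coeff k = 0 := by
  rw [t9, coeff_qinv_mul_lau, coeff_lau_of_neg K _ (by omega)]

theorem t9_ne_zero [Nontrivial K] : t9 K ≠ 0 := fun h => by
  have := coeff_t9_neg_one K
  rw [h] at this
  simp at this

theorem coeff_t3_add_neg_one (c : ℤ) : (t3 K + (c : LaurentSeries K)).coeff (-1) = 1 := by
  rw [t3_add_const, coeff_qinv_mul_lau, show (-1 : ℤ) + 1 = ((0 : ℕ) : ℤ) by norm_num,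
    coeff_lau_natCast, PowerSeries.coeff_zero_eq_constantCoeff]
  simp [constantCoeff_T3]

theorem coeff_t9_add_neg_one (c : ℤ) : (t9 K + (c : LaurentSeries K)).coeff (-1) = 1 := by
  rw [t9_add_const, coeff_qinv_mul_lau, show (-1 : ℤ) + 1 = ((0 : ℕ) : ℤ) by norm_num,
    coeff_lau_natCast, PowerSeries.coeff_zero_eq_constantCoeff]
  simp [constantCoeff_T9]

theorem t3_add_ne_zero [Nontrivial K] (c : ℤ) : t3 K + (c : LaurentSeries K) ≠ 0 := fun h => by
  have := coeff_t3_add_neg_one K c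
  rw [h] at this
  simp at this

theorem t9_add_ne_zero [Nontrivial K] (c : ℤ) : t9 K + (c : LaurentSeries K) ≠ 0 := fun h => by
  have := coeff_t9_add_neg_one K c
  rw [h] at this
  simp at this

/-- `Q(t₉) = t⁻² + …`. -/
theorem coeff_t9_quad_neg_two : (t9 K ^ 2 + 9 * t9 K + 27).coeff (-2) = 1 := by
  rw [t9_quad_eq, qinv, HahnSeries.single_pow, HahnSeries.coeff_single_mul]
  simp only [one_pow, one_mul]
  rw [show (-2 : ℤ) - (2 : ℕ) • (-1 : ℤ) = ((0 : ℕ) : ℤ) by norm_num, coeff_lau_natCast,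
    PowerSeries.coeff_zero_eq_constantCoeff, constantCoeff_Q9, Int.cast_one]

theorem t9_quad_ne_zero [Nontrivial K] : t9 K ^ 2 + 9 * t9 K + 27 ≠ 0 := fun h => by
  have := coeff_t9_quad_neg_two K
  rw [h] at this
  simp at this

end Laurent

/-! ## Membership in the function field of `X₀(M)`, `9 ∣ M` -/

section Field

variable (K : Type*) [Field K]

theorem h9_fullC_le_of_dvd {N M : ℕ} (h : N ∣ M) :
    modularFunctionFieldFullC K N ≤ modularFunctionFieldFullC K M := by
  rw [modularFunctionFieldFullC, IntermediateField.adjoin_le_iff]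
  rintro x ⟨d, hne, hdvd, rfl⟩
  exact @jqModCd_mem_full K _ M d hne (hdvd.trans h)

theorem qExpand_t3_mem_fullC (M : ℕ) (h9 : 9 ∣ M) :
    qExpand K 3 (t3 K) ∈ modularFunctionFieldFullC K M := by
  have h3 : t3 K ∈ modularFunctionFieldFullC K 3 := t3_mem_fullC K 3 dvd_rfl
  have h := full_degeneracyC_map_le K 3 3
    ((IntermediateField.mem_map _).2 ⟨t3 K, h3, rfl⟩)
  rw [qExpandAlgHomC_apply] at h
  exact h9_fullC_le_of_dvd K (N := 3 * 3) (M := M) (by simpa using h9) h

/-- The denominator of `t₉` is `t⁻⁴ · D9`. -/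
theorem t9_den_mul :
    (t3 K * qExpand K 3 (t3 K) - 243 * t3 K + 9 * qExpand K 3 (t3 K) + 729) * lau K X ^ 4
      = lau K D9 := by
  have hx := qinv_mul_lau_X K
  rw [D9, qExpand_t3, t3]
  simp only [lau_sub, lau_add, lau_mul, lau_pow, lau_C]
  push_cast
  linear_combination
    (lau K T3 * lau K T3e * (1 + qinv K * lau K X + (qinv K * lau K X) ^ 2
        + (qinv K * lau K X) ^ 3)
      - 243 * (lau K T3 * lau K X ^ 3)
      + 9 * (lau K T3e * lau K X) * (1 + qinv K * lau K X + (qinv K * lau K X) ^ 2)) * hx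

theorem t9_den_ne_zero :
    t3 K * qExpand K 3 (t3 K) - 243 * t3 K + 9 * qExpand K 3 (t3 K) + 729 ≠ 0 :=
  ne_zero_of_mul_eq_lau K (t9_den_mul K) constantCoeff_D9

/-- **`t₉ ∈ K(j_d : d ∣ M)` for `9 ∣ M`**, over every field `K`. -/
theorem t9_mem_fullC (M : ℕ) (h9 : 9 ∣ M) : t9 K ∈ modularFunctionFieldFullC K M := by
  have h3 : t3 K ∈ modularFunctionFieldFullC K M :=
    t3_mem_fullC K M ((by norm_num : (3 : ℕ) ∣ 9).trans h9)
  have h3e := qExpand_t3_mem_fullC K M h9
  have h : t9 K = (t3 K ^ 2 * qExpand K 3 (t3 K) + 18 * (t3 K * qExpand K 3 (t3 K))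
        + 27 * qExpand K 3 (t3 K) + 1458 * t3 K)
      / (t3 K * qExpand K 3 (t3 K) - 243 * t3 K + 9 * qExpand K 3 (t3 K) + 729) := by
    rw [eq_div_iff (t9_den_ne_zero K)]
    exact t9_mul K
  rw [h]
  exact div_mem
    (add_mem (add_mem (add_mem (mul_mem (pow_mem h3 2) h3e)
      (mul_mem (ofNat_mem _ 18) (mul_mem h3 h3e))) (mul_mem (ofNat_mem _ 27) h3e))
      (mul_mem (ofNat_mem _ 1458) h3))
    (add_mem (add_mem (sub_mem (mul_mem h3 h3e) (mul_mem (ofNat_mem _ 243) h3))
      (mul_mem (ofNat_mem _ 9) h3e)) (ofNat_mem _ 729))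

end Field

/-- `t₉ ∈ ℚ(j_d : d ∣ M)` for `9 ∣ M`. -/
theorem t9_mem_full (M : ℕ) (h9 : 9 ∣ M) : t9 ℚ ∈ modularFunctionFieldFull M :=
  t9_mem_fullC ℚ M h9

/-- `t₉ ∈ L(j_d : d ∣ M)` for `9 ∣ M`, in the base-changed function field. -/
theorem t9_mem_laurentBaseChange (L : Type*) [Field L] [Algebra ℚ L] (M : ℕ) (h9 : 9 ∣ M) :
    t9 L ∈ laurentBaseChange L (modularFunctionFieldFull M) := by
  have h := coeffEmb_mem_laurentBaseChange L (t9_mem_full M h9)
  rwa [coeffEmb, coeffMap_t9] at h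

end Fermat.Agent.S36.H890

end
end
-- ===== PACK-END S36/H890/Haupt9.lean

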