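import Fermat.Prelude.Thm_ModularCurve_coeffMap_qExpand
import Fermat.Agent.Pack.S36.E16L1
import Fermat.Agent.Pack.S36.E11L2
import Fermat.Agent.Pack.S36.E14L2
import Fermat.Agent.Pack.S36.E15L1
import Fermat.Agent.Pack.S36.E11L3
import Fermat.Agent.Pack.S36.E16L3
import Fermat.Agent.Pack.S36.E14L3
import Fermat.Agent.Pack.S36.E16L0
import Fermat.Agent.Pack.S36.E10L2
import Fermat.Agent.Pack.S36.E16L2
import Fermat.Agent.Pack.S36.E12L2
import Fermat.Agent.Pack.S36.E6L3
import Fermat.Agent.Pack.S36.E6L0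
import Fermat.Agent.Pack.S36.E12L0
import Fermat.Agent.Pack.S36.E0L3

-- ===== PACK-BEGIN S29/H871/Dichotomy.lean
section


/-!
# S29 / E3, part 5: uniqueness of the base-changed place and the dichotomy

(helper871)
-/

set_option autoImplicit false
set_option linter.unusedSectionVars false

noncomputable section

namespace Fermat.Agent.S29.H871

open AlgebraicCurve TensorProduct
open Fermat.Agent.S24.H117 (mem_iff_ord_nonneg ord_pow ord_add_eq_of_lt place_ext_of_le
  mem_of_ord_nonneg ord_nonneg_of_mem)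

variable {K F K' F' : Type*} [Field K] [Field F] [Field K'] [Field F']
  [Algebra K F] [Algebra K' F'] [Algebra K K'] [Algebra F F'] [Algebra K F']
  [IsScalarTower K F F'] [IsScalarTower K K' F']

section Unique

variable {v : Place K F} (hv : IsRationalPlace v) (w : Place K' F')

theorem muA_mem_of_le (h1 : ∀ f ∈ v.toValuationSubring, 0 ≤ w.ord (algebraMap F F' f))
    (x : v.toValuationSubring ⊗[K] K') : muA K' F' v x ∈ w.toValuationSubring := by
  induction x using TensorProduct.induction_on with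
  | zero => rw [map_zero]; exact zero_mem _
  | tmul a c =>
    rw [muA_tmul]
    exact mul_mem (mem_of_ord_nonneg w (h1 a a.2)) (w.algebraMap_mem' c)
  | add x y hx hy => rw [map_add]; exact add_mem hx hy

theorem epsHom_one_tmul (c : K') :
    epsHom hv ((1 : v.toValuationSubring) ⊗ₜ[K] c) = c := by
  rw [epsHom_tmul, map_one, map_one, one_mul]

theorem ord_muA_eq_zero_of_eps_ne_zero
    (h1 : ∀ f ∈ v.toValuationSubring, 0 ≤ w.ord (algebraMap F F' f))
    {π : v.toValuationSubring} (hπ : Irreducible π)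
    (h2 : 0 < w.ord (algebraMap F F' (π : F)))
    {s : v.toValuationSubring ⊗[K] K'} (hs : epsHom hv s ≠ 0) :
    w.ord (muA K' F' v s) = 0 := by
  set c := epsHom hv s with hc
  have hker : epsHom hv (s - (1 : v.toValuationSubring) ⊗ₜ[K] c) = 0 := by
    rw [map_sub, epsHom_one_tmul, sub_self]
  obtain ⟨t, ht⟩ := exists_eq_piT_mul_of_epsHom_eq_zero hv hπ hker
  have hs' : s = (1 : v.toValuationSubring) ⊗ₜ[K] c + piT π * t := by
    rw [← ht]; ring
  have hμ : muA K' F' v s = algebraMap K' F' c + algebraMap F F' (π : F) * muA K' F' v t := by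
    conv_lhs => rw [hs']
    rw [map_add, map_mul, muA_piT, muA_tmul]
    simp
  have hc0 : algebraMap K' F' c ≠ 0 := by
    intro h
    exact hs ((algebraMap K' F').injective (by rw [h, map_zero]))
  have hordc : w.ord (algebraMap K' F' c) = 0 := Fermat.Agent.S24.FF.ord_algebraMap w c
  rw [hμ]
  by_cases hzero : algebraMap F F' (π : F) * muA K' F' v t = 0
  · rw [hzero, add_zero, hordc]
  · have hπ0 : algebraMap F F' (π : F) ≠ 0 := left_ne_zero_of_mul hzero
    have ht0 : muA K' F' v t ≠ 0 := right_ne_zero_of_mul hzero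
    have hordt : 0 ≤ w.ord (muA K' F' v t) := ord_nonneg_of_mem w (muA_mem_of_le w h1 t)
    have hlt : w.ord (algebraMap K' F' c) <
        w.ord (algebraMap F F' (π : F) * muA K' F' v t) := by
      rw [w.ord_mul hπ0 ht0, hordc]
      omega
    rw [ord_add_eq_of_lt w hlt hc0, hordc]

variable [IsConstExt K F K' F']

/-- **Uniqueness**: a place of `F'/K'` whose valuation ring contains `O_v` and whose maximal
ideal contains a uniformizer of `v` is the base change of `v`. -/
theorem placeBC_eq_of_le (h1 : ∀ f ∈ v.toValuationSubring, 0 ≤ w.ord (algebraMap F F' f))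
    {π : v.toValuationSubring} (hπ : Irreducible π)
    (h2 : 0 < w.ord (algebraMap F F' (π : F))) : placeBC K' F' hv = w := by
  apply place_ext_of_le
  intro z hz
  have hz' : IsIntegralBC K' F' hv z := mem_of_ord_nonneg (placeBC K' F' hv) hz
  obtain ⟨x, s, hs, hxs⟩ := hz'
  have hs0 : muA K' F' v s ≠ 0 := muA_ne_zero (eps_ne_zero_ne_zero hv hs)
  rcases eq_or_ne z 0 with rfl | hz0
  · simp
  have hords := ord_muA_eq_zero_of_eps_ne_zero hv w h1 hπ h2 hs
  have hordx : 0 ≤ w.ord (muA K' F' v x) := ord_nonneg_of_mem w (muA_mem_of_le w h1 x)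
  rw [← hxs, w.ord_mul hz0 hs0, hords, add_zero] at hordx
  exact hordx

end Unique

section Dichotomy

variable [IsConstExt K F K' F'] (w : Place K' F')

/-- **Dichotomy**: a place of `F'/K'` which is nontrivial on `F` and whose restriction to `F` is
rational is the base change of its restriction. -/
theorem placeBC_restrictPlace (hnt : ∃ t : F, rord w t ≠ 0)
    (hrat : IsRationalPlace (restrictPlace (K := K) w hnt)) :
    placeBC K' F' hrat = w := by
  obtain ⟨π, hπ⟩ := IsDiscreteValuationRing.exists_irreducible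
    (restrictPlace (K := K) w hnt).toValuationSubring
  refine placeBC_eq_of_le hrat w ?_ hπ ?_
  · intro f hf
    exact (mem_restrictRing w).mp hf
  · have hπ0 : (π : F) ≠ 0 := fun h => hπ.ne_zero (Subtype.ext h)
    have hmem : 0 ≤ rord w (π : F) := (mem_restrictRing w).mp π.2
    by_contra hcon
    have h0 : rord w (π : F) = 0 := le_antisymm (not_lt.mp hcon) hmem
    have hπne : π ≠ 0 := hπ.ne_zero
    exact hπ.not_isUnit ((isUnit_restrictRing_iff w hπne).mpr h0)

/-- The restriction of `placeBC v` to `F` is `v`. -/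
theorem rord_placeBC {v : Place K F} (hv : IsRationalPlace v) (f : F) :
    rord (placeBC K' F' hv) f = v.ord f :=
  ord_placeBC_algebraMap hv f

end Dichotomy

end Fermat.Agent.S29.H871

end
end
-- ===== PACK-END S29/H871/Dichotomy.lean

-- ===== PACK-BEGIN S29/H282/BridgeK.lean
section


/-!
# S29 / M4b-K2 (helper282) — the bridge `R_N(K) → Hol` for an arbitrary coefficient field `K ⊆ ℂ`

Port of the second half of `Fermat/Agent/S24/Mod/H997Bridge.lean` from `(ℚ̄, ιK)` to an arbitrary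
field `K` with a ring hom `ι : K →+* ℂ`.
-/

set_option autoImplicit false

noncomputable section

open ModularCurve HahnSeries UpperHalfPlane
open scoped MatrixGroups

namespace Fermat.Agent.S29.H282

open Fermat.Agent.S24 Fermat.Agent.S24.H997 Fermat.Agent.S24.Deg457

variable {K : Type*} [Field K] [Algebra ℚ K] (ι : K →+* ℂ)
variable {N : ℕ} [NeZero N] (B : HolBase N)

theorem ι_algebraMap (c : ℚ) : ι (algebraMap ℚ K c) = (c : ℂ) := by
  have h : ι.comp (algebraMap ℚ K) = algebraMap ℚ ℂ := Subsingleton.elim _ _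
  have := congrArg (fun f : ℚ →+* ℂ => f c) h
  simpa using this

/-- The formal comparison map `K((q)) → ℂ((z))`, `q ↦ z^N`, coefficients via `ι`. -/
def ΦK (N : ℕ) [NeZero N] : LaurentSeries K →+* LaurentSeries ℂ :=
  (qExpand ℂ N).comp (coeffMap ι)

theorem ΦK_injective : Function.Injective (ΦK ι N) := by
  intro x y h
  have h1 : coeffMap ι x = coeffMap ι y := qExpand_injective N h
  ext k
  apply ι.injective
  have := congrArg (fun s => s.coeff k) h1
  simpa using this

theorem ΦK_coeff (x : LaurentSeries K) (k : ℤ) :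
    (ΦK ι N x).coeff k = if (N : ℤ) ∣ k then ι (x.coeff (k / N)) else 0 := by
  split_ifs with h
  · obtain ⟨m, rfl⟩ := h
    have hN : (N : ℤ) ≠ 0 := by exact_mod_cast NeZero.ne N
    rw [Int.mul_ediv_cancel_left _ hN]
    show (qExpand ℂ N (coeffMap ι x)).coeff (N * m) = _
    rw [qExpand_coeff_mul]; rfl
  · exact qExpand_coeff_of_not_dvd N _ h

theorem ΦK_algebraMap (c : K) :
    ΦK ι N (algebraMap K (LaurentSeries K) c) = HahnSeries.C (ι c) := by
  rw [algebraMap_laurentSeries_eq_single]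
  show qExpand ℂ N (coeffMap ι (HahnSeries.single 0 c)) = _
  rw [coeffMap_single, qExpand_single, mul_zero]; rfl

theorem ΦK_gen (d : ℕ) [NeZero d] (hd : d ∣ N) :
    ΦK ι N (coeffEmb K (qExpand ℚ d jq)) = B.qexp (B.JH d hd) := by
  ext k
  rw [ΦK_coeff]
  show _ = (B.qexp ⟨B.J d, B.J_mem d hd⟩).coeff k
  rw [B.qexp_J d hd k]
  have hN : (N : ℤ) ≠ 0 := by exact_mod_cast NeZero.ne N
  have hd0 : (d : ℤ) ≠ 0 := by exact_mod_cast NeZero.ne d
  by_cases h1 : (N : ℤ) ∣ k
  · obtain ⟨m, rfl⟩ := h1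
    rw [if_pos (dvd_mul_right _ _), Int.mul_ediv_cancel_left _ hN, coeffEmb_coeff, ι_algebraMap]
    by_cases h2 : (d : ℤ) ∣ m
    · obtain ⟨l, rfl⟩ := h2
      have h3 : ((N * d : ℕ) : ℤ) ∣ (N : ℤ) * (d * l) := ⟨l, by push_cast; ring⟩
      rw [if_pos h3, qExpand_coeff_mul]
      have : (N : ℤ) * (d * l) / ((N * d : ℕ) : ℤ) = l := by
        have h4 : (N : ℤ) * (d * l) = ((N * d : ℕ) : ℤ) * l := by push_cast; ring
        rw [h4, Int.mul_ediv_cancel_left]
        exact_mod_cast (Nat.mul_ne_zero (NeZero.ne N) (NeZero.ne d))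
      rw [this]
    · have h3 : ¬ ((N * d : ℕ) : ℤ) ∣ (N : ℤ) * m := by
        rintro ⟨l, hl⟩
        apply h2
        refine ⟨l, ?_⟩
        have : (N : ℤ) * m = N * (d * l) := by rw [hl]; push_cast; ring
        exact mul_left_cancel₀ hN this
      rw [if_neg h3, qExpand_coeff_of_not_dvd d _ h2]
      simp
  · have h3 : ¬ ((N * d : ℕ) : ℤ) ∣ k := by
      intro h; apply h1
      exact dvd_trans ⟨(d : ℤ), by push_cast; ring⟩ h
    rw [if_neg h1, if_neg h3]

theorem ΦK_mem_range {r : LaurentSeries K} (hr : r ∈ RNK K N) : ΦK ι N r ∈ B.qexp.range := by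
  induction hr using Algebra.adjoin_induction with
  | mem x hx =>
      obtain ⟨y, ⟨d, hne, hd, rfl⟩, rfl⟩ := hx
      exact ⟨B.JH d hd, (ΦK_gen ι B d hd).symm⟩
  | algebraMap c =>
      exact ⟨B.constH (ι c), by rw [ΦK_algebraMap]; exact B.qexp_const _⟩
  | add _ _ _ _ hx hy => rw [map_add]; exact add_mem hx hy
  | mul _ _ _ _ hx hy => rw [map_mul]; exact mul_mem hx hy

/-- The bridge `e : R_N(K) →+* Hol`. -/
def bridgeK : RNK K N →+* B.Hol :=
  (B.qexpEquiv.symm : B.qexp.range →+* B.Hol).comp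
    (((ΦK ι N).comp (RNK K N).val.toRingHom).codRestrict B.qexp.range
      fun r => ΦK_mem_range ι B r.2)

theorem qexp_bridgeK (r : RNK K N) :
    B.qexp (bridgeK ι B r) = ΦK ι N (r : LaurentSeries K) := by
  have h := B.qexpEquiv.apply_symm_apply
    ((((ΦK ι N).comp (RNK K N).val.toRingHom).codRestrict B.qexp.range
      fun r => ΦK_mem_range ι B r.2) r)
  exact congrArg Subtype.val h

theorem bridgeK_injective : Function.Injective (bridgeK ι B) := by
  intro r r' h
  apply Subtype.ext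
  apply ΦK_injective ι (N := N)
  rw [← qexp_bridgeK, ← qexp_bridgeK, h]

theorem bridgeK_algebraMap (c : K) :
    bridgeK ι B (algebraMap K (RNK K N) c) = B.constH (ι c) := by
  apply B.qexp_injective
  rw [qexp_bridgeK]
  show ΦK ι N (algebraMap K (LaurentSeries K) c) = _
  rw [ΦK_algebraMap]
  exact (B.qexp_const _).symm

theorem bridgeK_jRK (d : ℕ) [NeZero d] (hd : d ∣ N) :
    bridgeK ι B (jRK K N d hd) = B.JH d hd := by
  apply B.qexp_injective
  rw [qexp_bridgeK]
  exact ΦK_gen ι B d hd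

/-- Every `e r` is `Γ₀(N)`-invariant. -/
theorem compH_bridgeK_of_mem {g : SL(2, ℤ)} (hg : g ∈ CongruenceSubgroup.Gamma0 N)
    (r : RNK K N) : B.compH g (bridgeK ι B r) = bridgeK ι B r := by
  obtain ⟨r, hr⟩ := r
  induction hr using Algebra.adjoin_induction with
  | mem x hx =>
      obtain ⟨y, ⟨d, hne, hd, rfl⟩, rfl⟩ := hx
      have : (⟨coeffEmb K (qExpand ℚ d jq), Algebra.subset_adjoin
          ⟨_, ⟨d, hne, hd, rfl⟩, rfl⟩⟩ : RNK K N) = jRK K N d hd := rfl
      rw [this, bridgeK_jRK]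
      exact B.compH_JH_of_mem d hd hg
  | algebraMap c =>
      have : (⟨algebraMap K (LaurentSeries K) c, Subalgebra.algebraMap_mem _ c⟩ : RNK K N)
          = algebraMap K (RNK K N) c := rfl
      rw [this, bridgeK_algebraMap]
      rfl
  | add x y hx hy ihx ihy =>
      have : (⟨x + y, add_mem hx hy⟩ : RNK K N) = ⟨x, hx⟩ + ⟨y, hy⟩ := rfl
      rw [this, map_add, map_add, ihx, ihy]
  | mul x y hx hy ihx ihy =>
      have : (⟨x * y, mul_mem hx hy⟩ : RNK K N) = ⟨x, hx⟩ * ⟨y, hy⟩ := rfl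
      rw [this, map_mul, map_mul, ihx, ihy]

end Fermat.Agent.S29.H282

end
end
-- ===== PACK-END S29/H282/BridgeK.lean

-- ===== PACK-BEGIN S37/H98/Gen.lean
section






/-!
# S37, piece R-f [GEN] (helper98): `PrincipalGeneratedByIntegral` unconditionally

`gen N ℓ hℓ hℓN A hA : PrincipalGeneratedByIntegral A (IsLocalRing.residue A) N`
for every valuation subring `A` of `ℚ̄` over a prime `ℓ ∤ N`: the field `gen` of
`Core.PlaceRed` / `Core.GeoRed` (second half of the Prelude `ReductionInputsModL A N`).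

Assembly of landed pieces only:
* `H700.pgi` (helper700): PGI from `S28.CoreData N k` and `HasPrincipalDivisors ℚ̄ F̄_N`;
* `S28.H867.coreData_of_inputs` + `H807` + `H25` (row S28): `CoreData N k` for every field `k`
  of characteristic `ℓ ∤ N`;
* `Lib.RR.H864.hasPrincipalDivisors_modularFunctionFieldBar` (from row S24).
Also exported: `charP_residueField` (the residue field of `A` has characteristic `ℓ`),
`coreData_residueField`, and `reduction_mem` (hypothesis `hyk` of the Prelude property (ii) is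
automatic).
-/

set_option autoImplicit false
set_option synthInstance.maxHeartbeats 400000

noncomputable section

namespace Fermat.Agent.S37.H98

open ModularCurve ValuationSubring AlgebraicCurve HahnSeries

/-- The residue field of a valuation subring over the prime `ℓ` has characteristic `ℓ`. -/
theorem charP_residueField {L : Type*} [Field L] (A : ValuationSubring L) (ℓ : ℕ)
    (hℓ : ℓ.Prime) (hA : A.LiesOverPrime ℓ) : CharP (IsLocalRing.ResidueField A) ℓ := by
  have hℓm : ((ℓ : ℕ) : A) ∈ IsLocalRing.maximalIdeal A := by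
    obtain ⟨ha, hm⟩ := (ValuationSubring.mem_nonunits_iff_exists_mem_maximalIdeal).mp hA
    have : (⟨(ℓ : L), ha⟩ : A) = ((ℓ : ℕ) : A) := by
      apply Subtype.ext; simp
    rwa [this] at hm
  have h0 : ((ℓ : ℕ) : IsLocalRing.ResidueField A) = 0 := by
    have := (IsLocalRing.residue_eq_zero_iff ((ℓ : ℕ) : A)).mpr hℓm
    rwa [map_natCast] at this
  have : Fact ℓ.Prime := ⟨hℓ⟩
  exact (CharP.charP_iff_prime_eq_zero hℓ).mpr h0

/-- `S28.CoreData` over the residue field of a valuation subring of `ℚ̄` over `ℓ ∤ N`. -/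
theorem coreData_residueField (N : ℕ) [NeZero N] (ℓ : ℕ) (hℓ : ℓ.Prime) (hℓN : ¬ ℓ ∣ N)
    (A : ValuationSubring (AlgebraicClosure ℚ)) (hA : A.LiesOverPrime ℓ) :
    Fermat.Agent.S28.CoreData N (IsLocalRing.ResidueField A) := by
  have : Fact ℓ.Prime := ⟨hℓ⟩
  have : CharP (IsLocalRing.ResidueField A) ℓ := charP_residueField A ℓ hℓ hA
  exact Fermat.Agent.S28.H867.coreData_of_inputs N ℓ hℓN (IsLocalRing.ResidueField A)
    (fun p hp _ _ => Fermat.Agent.S28.H807.nonempty_modPolyData p hp)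
    (fun p hp _ _ => Fermat.Agent.S28.H807.nonempty_unitPolyData p hp)
    Fermat.Agent.S28.H25.theta_identity

/-- **R-f [GEN]**: every principal divisor of `ℚ̄(X₀(N))` is generated by divisors of
Gauss-integral functions with nonzero reduction (Prelude `PrincipalGeneratedByIntegral`), for
every valuation subring `A` of `ℚ̄` over a prime `ℓ ∤ N`. -/
theorem gen (N : ℕ) [NeZero N] (ℓ : ℕ) (hℓ : ℓ.Prime) (hℓN : ¬ ℓ ∣ N)
    (A : ValuationSubring (AlgebraicClosure ℚ)) (hA : A.LiesOverPrime ℓ) :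
    PrincipalGeneratedByIntegral A (IsLocalRing.residue A) N := by
  have := Fermat.Agent.Lib.RR.H864.hasPrincipalDivisors_modularFunctionFieldBar N
  exact Fermat.Agent.S37.H700.pgi (coreData_residueField N ℓ hℓ hℓN A hA)

/-- Reductions of Gauss-integral elements of `ℚ̄(X₀(N))` lie in the function field of the
special fibre: the hypothesis `hyk` of the Prelude property (ii) is automatic. -/
theorem reduction_mem (N : ℕ) [NeZero N] (ℓ : ℕ) (hℓ : ℓ.Prime) (hℓN : ¬ ℓ ∣ N)
    (A : ValuationSubring (AlgebraicClosure ℚ)) (hA : A.LiesOverPrime ℓ)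
    (u : LaurentSeries A) (hu : coeffMap A.subtype u ∈ modularFunctionFieldBar N) :
    coeffMap (IsLocalRing.residue A) u ∈
      modularFunctionFieldFullC (IsLocalRing.ResidueField A) N :=
  Fermat.Agent.S37.H700.reduction_mem (coreData_residueField N ℓ hℓ hℓN A hA) u hu

end Fermat.Agent.S37.H98

end
end
-- ===== PACK-END S37/H98/Gen.lean

-- ===== PACK-BEGIN S18/H804/ValPlaceModular.lean
section



/-!
# S18 / GLUE input for the modular function field `F_M = ℚ̄(j(q^d) : d ∣ M)`  (helper804)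

* `exists_place_of_valuationSubring_modular` : every proper valuation subring of `F_M` containing
  `ℚ̄` is the valuation ring of a `Place`.
* `exists_mul_pow_unit_modular` : Place-divisibility of the divisor of `u` by `m` gives the
  valuation-subring form used in `Alg.AlgMainStatement`.
-/

set_option autoImplicit false

namespace Fermat.Agent.S18.H804

open AlgebraicCurve ModularCurve Fermat.Agent.S24

variable (M : ℕ) [NeZero M]

theorem exists_place_of_valuationSubring_modular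
    (O : ValuationSubring ↥(modularFunctionFieldBar M))
    (hK : ∀ a : AlgebraicClosure ℚ,
      algebraMap (AlgebraicClosure ℚ) ↥(modularFunctionFieldBar M) a ∈ O) (hO : O ≠ ⊤) :
    ∃ v : Place (AlgebraicClosure ℚ) ↥(modularFunctionFieldBar M), v.toValuationSubring = O :=
  haveI := Fermat.Agent.Lib.RR.H804.finiteDimensional_jF M
  exists_place_of_valuationSubring (Fermat.Agent.Lib.RR.H804.transcendental_jF M) O hK hO

theorem exists_mul_pow_unit_modular (m : ℕ) (u : ↥(modularFunctionFieldBar M)) (hu : u ≠ 0)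
    (hdiv : ∀ v : Place (AlgebraicClosure ℚ) ↥(modularFunctionFieldBar M), (m : ℤ) ∣ v.ord u)
    (O : ValuationSubring ↥(modularFunctionFieldBar M))
    (hK : ∀ a : AlgebraicClosure ℚ,
      algebraMap (AlgebraicClosure ℚ) ↥(modularFunctionFieldBar M) a ∈ O) :
    ∃ t : ↥(modularFunctionFieldBar M), t ≠ 0 ∧ u * t ^ m ∈ O ∧ (u * t ^ m)⁻¹ ∈ O :=
  haveI := Fermat.Agent.Lib.RR.H804.finiteDimensional_jF M
  exists_mul_pow_unit (Fermat.Agent.Lib.RR.H804.transcendental_jF M) m u hu hdiv O hK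

end Fermat.Agent.S18.H804

end
-- ===== PACK-END S18/H804/ValPlaceModular.lean

-- ===== PACK-BEGIN A2/Mod/H751/Fricke.lean
section




/-!
# A2 / MOD, leaves L4 (`FrickeExists`) and L5 (`FrickeCompat`)  (helper751)

* `FE_induction` : induction principle for the function field `F_{N,K} = K(j_d : d ∣ N)`
  (any field `K ⊇ ℚ`): a predicate holding on the constants and on the generators `j_d`, stable
  under `+`, `*`, `⁻¹`, holds everywhere;
* `ringHom_ext_FE` : two ring homomorphisms out of `F_{N,K}` agreeing on constants and generators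
  are equal;
* `frickeCompat : FrickeCompatStatement E M q`  (**L5**);
* `frickeExists : FrickeExistsStatement E`  (**L4**), by descent of `H528.wF` (the Fricke
  involution over `ℚ̄`) along the coefficientwise inclusion `ι : F_{N,E} → F_{N,ℚ̄}`;
  `frickeE`, `iotaE_frickeE : ι (W_E f) = w_N (ι f)`.
-/

set_option autoImplicit false
set_option synthInstance.maxHeartbeats 400000
set_option maxHeartbeats 1600000

noncomputable section

namespace Fermat.Agent.A2.Mod.H751

open ModularCurve HahnSeries Polynomial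

/-! ### Induction on the function field `K(j_d : d ∣ N)` -/

section Induction

variable {K : Type*} [Field K] [Algebra ℚ K] (N : ℕ)

/-- The generator `j_d = j(t^d)` of `F_{N,K}`. -/
def jK (K : Type*) [Field K] [Algebra ℚ K] (N d : ℕ) [NeZero d] (hd : d ∣ N) :
    ↥(laurentBaseChange K (modularFunctionFieldFull N)) :=
  ⟨coeffEmb K (qExpand ℚ d jq), coeffEmb_mem_laurentBaseChange K (jqd_mem_full N hd)⟩

theorem coeffEmb_algebraMap (c : ℚ) :
    coeffEmb K (algebraMap ℚ (LaurentSeries ℚ) c)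
      = algebraMap K (LaurentSeries K) (algebraMap ℚ K c) := by
  rw [algebraMap_apply_eq_single, algebraMap_laurentSeries_eq_single, coeffEmb, coeffMap_single]

/-- **Induction principle for `F_{N,K}`.** -/
theorem FE_induction
    (p : ↥(laurentBaseChange K (modularFunctionFieldFull N)) → Prop)
    (hc : ∀ e : K, p (algebraMap K _ e))
    (hj : ∀ (d : ℕ) [NeZero d] (hd : d ∣ N), p (jK K N d hd))
    (hadd : ∀ x y, p x → p y → p (x + y))
    (hmul : ∀ x y, p x → p y → p (x * y))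
    (hinv : ∀ x, p x → p x⁻¹) :
    ∀ x, p x := by
  -- step 1: the rational functions
  have key1 : ∀ y ∈ modularFunctionFieldFull N,
      ∀ h : coeffEmb K y ∈ laurentBaseChange K (modularFunctionFieldFull N),
        p ⟨coeffEmb K y, h⟩ := by
    intro y hy
    have hy0 : y ∈ IntermediateField.adjoin ℚ (divisorExpansions N) := hy
    induction hy0 using IntermediateField.adjoin_induction with
    | mem z hz =>
        intro h
        obtain ⟨d, hne, hd, rfl⟩ := hz
        haveI := hne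
        exact hj d hd
    | algebraMap c =>
        intro h
        have h1 : (⟨coeffEmb K (algebraMap ℚ (LaurentSeries ℚ) c), h⟩ :
            ↥(laurentBaseChange K (modularFunctionFieldFull N)))
            = algebraMap K _ (algebraMap ℚ K c) := Subtype.ext (coeffEmb_algebraMap c)
        rw [h1]
        exact hc _
    | add a b ha hb iha ihb =>
        intro h
        have ha' := coeffEmb_mem_laurentBaseChange K (F₀ := modularFunctionFieldFull N) ha
        have hb' := coeffEmb_mem_laurentBaseChange K (F₀ := modularFunctionFieldFull N) hb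
        have h1 : (⟨coeffEmb K (a + b), h⟩ :
            ↥(laurentBaseChange K (modularFunctionFieldFull N)))
            = ⟨coeffEmb K a, ha'⟩ + ⟨coeffEmb K b, hb'⟩ := Subtype.ext (map_add _ _ _)
        rw [h1]
        exact hadd _ _ (iha ha ha') (ihb hb hb')
    | inv a ha iha =>
        intro h
        have ha' := coeffEmb_mem_laurentBaseChange K (F₀ := modularFunctionFieldFull N) ha
        have h1 : (⟨coeffEmb K (a⁻¹), h⟩ :
            ↥(laurentBaseChange K (modularFunctionFieldFull N)))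
            = (⟨coeffEmb K a, ha'⟩ : ↥(laurentBaseChange K (modularFunctionFieldFull N)))⁻¹ :=
          Subtype.ext (map_inv₀ _ _)
        rw [h1]
        exact hinv _ (iha ha ha')
    | mul a b ha hb iha ihb =>
        intro h
        have ha' := coeffEmb_mem_laurentBaseChange K (F₀ := modularFunctionFieldFull N) ha
        have hb' := coeffEmb_mem_laurentBaseChange K (F₀ := modularFunctionFieldFull N) hb
        have h1 : (⟨coeffEmb K (a * b), h⟩ :
            ↥(laurentBaseChange K (modularFunctionFieldFull N)))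
            = ⟨coeffEmb K a, ha'⟩ * ⟨coeffEmb K b, hb'⟩ := Subtype.ext (map_mul _ _ _)
        rw [h1]
        exact hmul _ _ (iha ha ha') (ihb hb hb')
  -- step 2: the whole field
  have key2 : ∀ x (h : x ∈ laurentBaseChange K (modularFunctionFieldFull N)), p ⟨x, h⟩ := by
    intro x hx
    have hx0 : x ∈ IntermediateField.adjoin K
        (⇑(coeffEmb K) '' ((modularFunctionFieldFull N : IntermediateField ℚ (LaurentSeries ℚ)) :
          Set (LaurentSeries ℚ))) := hx
    induction hx0 using IntermediateField.adjoin_induction with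
    | mem z hz =>
        obtain ⟨y, hy, rfl⟩ := hz
        exact key1 y hy hx
    | algebraMap c =>
        have h1 : (⟨algebraMap K (LaurentSeries K) c, hx⟩ :
            ↥(laurentBaseChange K (modularFunctionFieldFull N))) = algebraMap K _ c := rfl
        rw [h1]
        exact hc c
    | add a b ha hb iha ihb =>
        have h1 : (⟨a + b, hx⟩ : ↥(laurentBaseChange K (modularFunctionFieldFull N)))
            = ⟨a, ha⟩ + ⟨b, hb⟩ := rfl
        rw [h1]
        exact hadd ⟨a, ha⟩ ⟨b, hb⟩ (iha ha) (ihb hb)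
    | inv a ha iha =>
        have h1 : (⟨a⁻¹, hx⟩ : ↥(laurentBaseChange K (modularFunctionFieldFull N)))
            = (⟨a, ha⟩ : ↥(laurentBaseChange K (modularFunctionFieldFull N)))⁻¹ := rfl
        rw [h1]
        exact hinv ⟨a, ha⟩ (iha ha)
    | mul a b ha hb iha ihb =>
        have h1 : (⟨a * b, hx⟩ : ↥(laurentBaseChange K (modularFunctionFieldFull N)))
            = ⟨a, ha⟩ * ⟨b, hb⟩ := rfl
        rw [h1]
        exact hmul ⟨a, ha⟩ ⟨b, hb⟩ (iha ha) (ihb hb)
  intro x
  exact key2 x.1 x.2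

/-- Two ring homomorphisms out of `F_{N,K}` which agree on the constants and on the generators
`j_d`, `d ∣ N`, are equal. -/
theorem ringHom_ext_FE {T : Type*} [DivisionRing T]
    (φ ψ : ↥(laurentBaseChange K (modularFunctionFieldFull N)) →+* T)
    (hc : ∀ e : K, φ (algebraMap K _ e) = ψ (algebraMap K _ e))
    (hj : ∀ (d : ℕ) [NeZero d] (hd : d ∣ N), φ (jK K N d hd) = ψ (jK K N d hd)) :
    ∀ x, φ x = ψ x := by
  refine FE_induction N (fun x => φ x = ψ x) hc hj ?_ ?_ ?_
  · intro x y hx hy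
    show φ (x + y) = ψ (x + y)
    rw [map_add, map_add, hx, hy]
  · intro x y hx hy
    show φ (x * y) = ψ (x * y)
    rw [map_mul, map_mul, hx, hy]
  · intro x hx
    show φ x⁻¹ = ψ x⁻¹
    rw [map_inv₀, map_inv₀, hx]

end Induction

/-! ### L5: compatibility of the Fricke involutions with `α`, `β` -/

section L5

variable (E : IntermediateField ℚ _root_.Fermat.Agent.A2.Mod.Qb) (M q : ℕ) [NeZero M] [NeZero q]

theorem jE_eq_jK (N d : ℕ) [NeZero d] (hd : d ∣ N) : jE E N d hd = jK E N d hd := rfl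

/-- `α j_d = j_d`. -/
theorem alpha_jE (d : ℕ) [NeZero d] (hd : d ∣ M) :
    αE E M q (jE E M d hd) = jE E (M * q) d (hd.trans (dvd_mul_right M q)) :=
  Subtype.ext (coe_heckeAlphaBar M q _)

/-- `β j_d = j_{qd}`. -/
theorem beta_jE (d : ℕ) [NeZero d] (hd : d ∣ M) :
    βE E M q (jE E M d hd)
      = jE E (M * q) (q * d) (by rw [mul_comm M q]; exact mul_dvd_mul_left q hd) := by
  apply Subtype.ext
  show qExpand E q (coeffEmb E (qExpand ℚ d jq)) = coeffEmb E (qExpand ℚ (q * d) jq)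
  rw [coeffEmb, ← ModularCurve.coeffMap_qExpand, qExpand_qExpand]

theorem jE_congr (N : ℕ) {d d' : ℕ} [NeZero d] [NeZero d'] (h : d = d') (hd : d ∣ N)
    (hd' : d' ∣ N) : jE E N d hd = jE E N d' hd' := by
  subst h
  rfl

/-- **L5** (`FrickeCompat`). -/
theorem frickeCompat : FrickeCompatStatement E M q := by
  intro WM WN hWM hWN
  have hM0 : 0 < M := Nat.pos_of_ne_zero (NeZero.ne M)
  have key1 : ∀ f : _root_.Fermat.Agent.A2.Mod.FE E M, WN (αE E M q f) = βE E M q (WM f) := by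
    refine ringHom_ext_FE M
      ((WN : _root_.Fermat.Agent.A2.Mod.FE E (M * q) →+* _root_.Fermat.Agent.A2.Mod.FE E (M * q)).comp (αE E M q : _root_.Fermat.Agent.A2.Mod.FE E M →+* _root_.Fermat.Agent.A2.Mod.FE E (M * q)))
      ((βE E M q : _root_.Fermat.Agent.A2.Mod.FE E M →+* _root_.Fermat.Agent.A2.Mod.FE E (M * q)).comp (WM : _root_.Fermat.Agent.A2.Mod.FE E M →+* _root_.Fermat.Agent.A2.Mod.FE E M)) ?_ ?_
    · intro e
      show WN (αE E M q (algebraMap E _ e)) = βE E M q (WM (algebraMap E _ e))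
      rw [AlgHom.commutes, AlgEquiv.commutes, AlgEquiv.commutes, AlgHom.commutes]
    · intro d _ hd
      show WN (αE E M q (jE E M d hd)) = βE E M q (WM (jE E M d hd))
      have hd0 : 0 < d := Nat.pos_of_dvd_of_pos hd hM0
      haveI : NeZero (M / d) := ⟨(Nat.div_pos (Nat.le_of_dvd hM0 hd) hd0).ne'⟩
      have h1 : WM (jE E M d hd) = jE E M (M / d) (Nat.div_dvd_of_dvd hd) :=
        hWM.1 d (M / d) hd (Nat.div_dvd_of_dvd hd) (Nat.mul_div_cancel' hd)
      have hdvd : q * (M / d) ∣ M * q := by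
        rw [mul_comm M q]; exact mul_dvd_mul_left q (Nat.div_dvd_of_dvd hd)
      have h2 : WN (jE E (M * q) d (hd.trans (dvd_mul_right M q)))
          = jE E (M * q) (q * (M / d)) hdvd :=
        hWN.1 d (q * (M / d)) _ hdvd (by
          rw [mul_left_comm, Nat.mul_div_cancel' hd, mul_comm])
      rw [alpha_jE, h2, h1, beta_jE]
  have key2 : ∀ f : _root_.Fermat.Agent.A2.Mod.FE E M, WN (βE E M q f) = αE E M q (WM f) := by
    refine ringHom_ext_FE M
      ((WN : _root_.Fermat.Agent.A2.Mod.FE E (M * q) →+* _root_.Fermat.Agent.A2.Mod.FE E (M * q)).comp (βE E M q : _root_.Fermat.Agent.A2.Mod.FE E M →+* _root_.Fermat.Agent.A2.Mod.FE E (M * q)))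
      ((αE E M q : _root_.Fermat.Agent.A2.Mod.FE E M →+* _root_.Fermat.Agent.A2.Mod.FE E (M * q)).comp (WM : _root_.Fermat.Agent.A2.Mod.FE E M →+* _root_.Fermat.Agent.A2.Mod.FE E M)) ?_ ?_
    · intro e
      show WN (βE E M q (algebraMap E _ e)) = αE E M q (WM (algebraMap E _ e))
      rw [AlgHom.commutes, AlgEquiv.commutes, AlgEquiv.commutes, AlgHom.commutes]
    · intro d _ hd
      show WN (βE E M q (jE E M d hd)) = αE E M q (WM (jE E M d hd))
      have hd0 : 0 < d := Nat.pos_of_dvd_of_pos hd hM0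
      haveI : NeZero (M / d) := ⟨(Nat.div_pos (Nat.le_of_dvd hM0 hd) hd0).ne'⟩
      have h1 : WM (jE E M d hd) = jE E M (M / d) (Nat.div_dvd_of_dvd hd) :=
        hWM.1 d (M / d) hd (Nat.div_dvd_of_dvd hd) (Nat.mul_div_cancel' hd)
      have hdvd : q * d ∣ M * q := by
        rw [mul_comm M q]; exact mul_dvd_mul_left q hd
      have hdvd' : M / d ∣ M * q := (Nat.div_dvd_of_dvd hd).trans (dvd_mul_right M q)
      have h2 : WN (jE E (M * q) (q * d) hdvd) = jE E (M * q) (M / d) hdvd' :=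
        hWN.1 (q * d) (M / d) hdvd hdvd' (by
          rw [mul_assoc, Nat.mul_div_cancel' hd, mul_comm])
      rw [beta_jE, h2, h1, alpha_jE]
  exact fun f => ⟨key1 f, key2 f⟩

end L5

/-! ### L4: the Fricke involution over `E`, by descent from `ℚ̄` -/

section L4

open Fermat.Agent.S24 Fermat.Agent.A2.H528

variable (E : IntermediateField ℚ _root_.Fermat.Agent.A2.Mod.Qb) (N : ℕ)

/-- The comparison map `ι : F_{N,E} → F_{N,ℚ̄}` (inclusion of the coefficients). -/
def iotaE : _root_.Fermat.Agent.A2.Mod.FE E N →+* FF N where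
  toFun y := ⟨coeffMap (algebraMap E _root_.Fermat.Agent.A2.Mod.Qb) (y : LaurentSeries E),
    Fermat.Agent.S18.H602.coeffMap_mem_laurentBaseChange _ (algebraMap E _root_.Fermat.Agent.A2.Mod.Qb) y.2⟩
  map_one' := Subtype.ext (map_one (coeffMap (algebraMap E _root_.Fermat.Agent.A2.Mod.Qb)))
  map_mul' _ _ := Subtype.ext (map_mul (coeffMap (algebraMap E _root_.Fermat.Agent.A2.Mod.Qb)) _ _)
  map_zero' := Subtype.ext (map_zero (coeffMap (algebraMap E _root_.Fermat.Agent.A2.Mod.Qb)))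
  map_add' _ _ := Subtype.ext (map_add (coeffMap (algebraMap E _root_.Fermat.Agent.A2.Mod.Qb)) _ _)

theorem coe_iotaE (y : _root_.Fermat.Agent.A2.Mod.FE E N) :
    ((iotaE E N y : FF N) : LaurentSeries Kbar)
      = coeffMap (algebraMap E _root_.Fermat.Agent.A2.Mod.Qb) (y : LaurentSeries E) := rfl

theorem iotaE_injective : Function.Injective (iotaE E N) := (iotaE E N).injective

theorem iotaE_algebraMap (e : E) :
    iotaE E N (algebraMap E (_root_.Fermat.Agent.A2.Mod.FE E N) e) = algebraMap Kbar (FF N) (e : _root_.Fermat.Agent.A2.Mod.Qb) := by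
  apply Subtype.ext
  show coeffMap (algebraMap E _root_.Fermat.Agent.A2.Mod.Qb) (algebraMap E (LaurentSeries E) e) = _
  rw [Fermat.Agent.S18.H602.coeffMap_algebraMap']
  rfl

theorem iotaE_jE (d : ℕ) [NeZero d] (hd : d ∣ N) : iotaE E N (jE E N d hd) = jFd N d hd := by
  apply Subtype.ext
  show coeffMap (algebraMap E _root_.Fermat.Agent.A2.Mod.Qb) (coeffEmb E (qExpand ℚ d jq)) = coeffEmb Kbar (qExpand ℚ d jq)
  exact Fermat.Agent.S18.H602.coeffMap_coeffEmb' _ _

variable [NeZero N]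

/-- `w_N` preserves the `E`-rational functions. -/
theorem exists_iotaE_eq_wF (f : _root_.Fermat.Agent.A2.Mod.FE E N) : ∃ g : _root_.Fermat.Agent.A2.Mod.FE E N, iotaE E N g = wF N (iotaE E N f) := by
  refine FE_induction N (fun f => ∃ g : _root_.Fermat.Agent.A2.Mod.FE E N, iotaE E N g = wF N (iotaE E N f)) ?_ ?_ ?_ ?_ ?_ f
  · intro e
    refine ⟨algebraMap E (_root_.Fermat.Agent.A2.Mod.FE E N) e, ?_⟩
    rw [iotaE_algebraMap, AlgEquiv.commutes]
  · intro d _ hd
    haveI := neZero_div N hd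
    refine ⟨jE E N (N / d) (Nat.div_dvd_of_dvd hd), ?_⟩
    show iotaE E N (jE E N (N / d) (Nat.div_dvd_of_dvd hd)) = wF N (iotaE E N (jE E N d hd))
    rw [iotaE_jE, iotaE_jE, wF_jFd]
  · rintro x y ⟨a, ha⟩ ⟨b, hb⟩
    exact ⟨a + b, by rw [map_add, map_add, map_add, ha, hb]⟩
  · rintro x y ⟨a, ha⟩ ⟨b, hb⟩
    exact ⟨a * b, by rw [map_mul, map_mul, map_mul, ha, hb]⟩
  · rintro x ⟨a, ha⟩
    exact ⟨a⁻¹, by rw [map_inv₀, map_inv₀, map_inv₀, ha]⟩

/-- The Fricke involution of `F_{N,E}`, as a function. -/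
def frickeFun (f : _root_.Fermat.Agent.A2.Mod.FE E N) : _root_.Fermat.Agent.A2.Mod.FE E N := Classical.choose (exists_iotaE_eq_wF E N f)

theorem iotaE_frickeFun (f : _root_.Fermat.Agent.A2.Mod.FE E N) : iotaE E N (frickeFun E N f) = wF N (iotaE E N f) :=
  Classical.choose_spec (exists_iotaE_eq_wF E N f)

/-- The Fricke involution of `F_{N,E}`, as an `E`-algebra homomorphism. -/
def frickeHom : _root_.Fermat.Agent.A2.Mod.FE E N →ₐ[E] _root_.Fermat.Agent.A2.Mod.FE E N where
  toFun := frickeFun E N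
  map_one' := iotaE_injective E N (by rw [iotaE_frickeFun, map_one, map_one])
  map_mul' x y := iotaE_injective E N (by
    rw [iotaE_frickeFun, map_mul, map_mul, map_mul, iotaE_frickeFun, iotaE_frickeFun])
  map_zero' := iotaE_injective E N (by rw [iotaE_frickeFun, map_zero, map_zero])
  map_add' x y := iotaE_injective E N (by
    rw [iotaE_frickeFun, map_add, map_add, map_add, iotaE_frickeFun, iotaE_frickeFun])
  commutes' e := iotaE_injective E N (by
    rw [iotaE_frickeFun, iotaE_algebraMap, AlgEquiv.commutes])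

theorem iotaE_frickeHom (f : _root_.Fermat.Agent.A2.Mod.FE E N) : iotaE E N (frickeHom E N f) = wF N (iotaE E N f) :=
  iotaE_frickeFun E N f

theorem frickeHom_frickeHom (f : _root_.Fermat.Agent.A2.Mod.FE E N) : frickeHom E N (frickeHom E N f) = f :=
  iotaE_injective E N (by rw [iotaE_frickeHom, iotaE_frickeHom, wF_wF])

/-- **The Fricke involution `W_E` of `F_{N,E}` over `E`.** -/
def frickeE : _root_.Fermat.Agent.A2.Mod.FE E N ≃ₐ[E] _root_.Fermat.Agent.A2.Mod.FE E N :=
  AlgEquiv.ofAlgHom (frickeHom E N) (frickeHom E N)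
    (AlgHom.ext fun f => frickeHom_frickeHom E N f)
    (AlgHom.ext fun f => frickeHom_frickeHom E N f)

/-- `ι (W_E f) = w_N (ι f)`. -/
theorem iotaE_frickeE (f : _root_.Fermat.Agent.A2.Mod.FE E N) : iotaE E N (frickeE E N f) = wF N (iotaE E N f) :=
  iotaE_frickeFun E N f

theorem frickeE_frickeE (f : _root_.Fermat.Agent.A2.Mod.FE E N) : frickeE E N (frickeE E N f) = f :=
  frickeHom_frickeHom E N f

theorem frickeE_jE (d : ℕ) [NeZero d] (hd : d ∣ N) :
    haveI := neZero_div N hd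
    frickeE E N (jE E N d hd) = jE E N (N / d) (Nat.div_dvd_of_dvd hd) := by
  haveI := neZero_div N hd
  apply iotaE_injective E N
  rw [iotaE_frickeE, iotaE_jE, iotaE_jE, wF_jFd]

theorem isFricke_frickeE : IsFricke E N (frickeE E N) := by
  refine ⟨?_, frickeE_frickeE E N⟩
  intro d d' _ _ hd hd' hdd
  have hN : 0 < N := Nat.pos_of_ne_zero (NeZero.ne N)
  have hd0 : 0 < d := Nat.pos_of_dvd_of_pos hd hN
  have h : N / d = d' := Nat.div_eq_of_eq_mul_right hd0 hdd.symm
  haveI := neZero_div N hd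
  rw [frickeE_jE]
  exact jE_congr E N h _ _

end L4

/-- **L4** (`FrickeExists`). -/
theorem frickeExists (E : IntermediateField ℚ _root_.Fermat.Agent.A2.Mod.Qb) : FrickeExistsStatement E := by
  intro N hN
  haveI : NeZero N := ⟨hN⟩
  exact ⟨frickeE E N, isFricke_frickeE E N⟩

end Fermat.Agent.A2.Mod.H751

end
end
-- ===== PACK-END A2/Mod/H751/Fricke.lean

-- ===== PACK-BEGIN A2/Mod/H753/IndZero.lean
section






/-!
# A2 / MOD leaf L10 `IndZero` (helper753): residue independence on `C₀`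

`V₀ = V∞ ∘ W` at level `N = M q`.  With `W x = j_M · j_{Mq}` (`x = j j_q`), reduction
`J^(q+1)`, `J = j̄(t^M)`, the family `d (a, i) = α(Z i · j_M^a)` (`Z i` = Fricke dual at level `M`
of the S28 monomial `Y i`, `0 ≤ a ≤ q`) lies in `V∞` and is independent modulo `w` over `R[W x]`;
`c := W ∘ d`.

* `inW_of_red_eq_zero` : converse of `red_eq_zero_of_inW`;
* `map_ev`, `inW_comap_iff` : transport along an `E`-automorphism;
* `polyIndep_dual` : `PolyIndep J (Z̄ i)` from `PolyIndep j̄ (Ȳ i)` and L7 (level `M`);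
* `indZero_of`, `indZero : IndZeroStatement P E M q w`;
* `indepMod_inv` : `IndepMod` for the coordinate `x⁻¹` from `IndepMod` for `x` (`x` a unit of `V`).
-/

set_option autoImplicit false
set_option synthInstance.maxHeartbeats 400000
set_option maxHeartbeats 1600000

noncomputable section

namespace Fermat.Agent.A2.Mod.H753

open ModularCurve HahnSeries Polynomial
open Fermat.Agent.S28 (intDivisorExpansions jField)
open Fermat.Agent.S28.H325 (castL PolyIndep)

section Gen

variable (P : ValuationSubring _root_.Fermat.Agent.A2.Mod.Qb) (E : IntermediateField ℚ _root_.Fermat.Agent.A2.Mod.Qb)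

/-- an integral series with zero reduction lies in `w V∞`. -/
theorem inW_of_red_eq_zero {N : ℕ} {V : ValuationSubring (_root_.Fermat.Agent.A2.Mod.FE E N)} (hV : IsVinf P E N V)
    {w : _root_.Fermat.Agent.A2.Mod.RE P E} (hdvr : IsDiscreteValuationRing (_root_.Fermat.Agent.A2.Mod.RE P E)) (hw : Irreducible w) {f : _root_.Fermat.Agent.A2.Mod.FE E N}
    {S : LaurentSeries (_root_.Fermat.Agent.A2.Mod.RE P E)} (hS : (f : LaurentSeries E) = H708.incl (_root_.Fermat.Agent.A2.Mod.RE P E) S)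
    (hred : H708.red (_root_.Fermat.Agent.A2.Mod.RE P E) S = 0) : InW P E N V w f := by
  have hw0 : w ≠ 0 := hw.ne_zero
  have hdiv : ∀ n, w ∣ S.coeff n := by
    intro n
    have h1 : IsLocalRing.residue (_root_.Fermat.Agent.A2.Mod.RE P E) (S.coeff n) = 0 := by
      have := congrArg (fun z => z.coeff n) hred
      simpa using this
    rw [IsLocalRing.residue_eq_zero_iff, hw.maximalIdeal_eq, Ideal.mem_span_singleton] at h1
    exact h1
  obtain ⟨U', hU'⟩ := H549.exists_cstA_mul_eq w hw0 S hdiv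
  have hwE : ((w : E)) ≠ 0 := fun h0 => hw0 (Subtype.ext h0)
  have hc : H708.cst (w : E) ≠ 0 := H708.cst_ne_zero hwE
  have hcoe : (((f * (cE P E N w)⁻¹ : _root_.Fermat.Agent.A2.Mod.FE E N)) : LaurentSeries E) = H708.incl (_root_.Fermat.Agent.A2.Mod.RE P E) U' := by
    rw [IntermediateField.coe_mul, IntermediateField.coe_inv, hS, ← hU', map_mul, H708.incl_cstA]
    show H708.cst (w : E) * _ * (H708.cst (w : E))⁻¹ = _
    field_simp
  show f * (cE P E N w)⁻¹ ∈ V
  rw [hV, hcoe]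
  exact H708.IsGaussInt.of_incl _

variable {P E}

theorem map_ev {N : ℕ} (W : _root_.Fermat.Agent.A2.Mod.FE E N ≃ₐ[E] _root_.Fermat.Agent.A2.Mod.FE E N) (x : _root_.Fermat.Agent.A2.Mod.FE E N) (p : Polynomial (_root_.Fermat.Agent.A2.Mod.RE P E)) :
    W (ev P E N x p) = ev P E N (W x) p := by
  have h := Polynomial.hom_eval₂ p ((algebraMap E (_root_.Fermat.Agent.A2.Mod.FE E N)).comp (_root_.Fermat.Agent.A2.Mod.RE P E).subtype)
    (W : _root_.Fermat.Agent.A2.Mod.FE E N →+* _root_.Fermat.Agent.A2.Mod.FE E N) x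
  have h2 : ((W : _root_.Fermat.Agent.A2.Mod.FE E N →+* _root_.Fermat.Agent.A2.Mod.FE E N).comp ((algebraMap E (_root_.Fermat.Agent.A2.Mod.FE E N)).comp (_root_.Fermat.Agent.A2.Mod.RE P E).subtype))
      = (algebraMap E (_root_.Fermat.Agent.A2.Mod.FE E N)).comp (_root_.Fermat.Agent.A2.Mod.RE P E).subtype :=
    RingHom.ext fun r => W.commutes _
  rw [h2] at h
  exact h

theorem inW_comap_iff {N : ℕ} (V : ValuationSubring (_root_.Fermat.Agent.A2.Mod.FE E N)) (W : _root_.Fermat.Agent.A2.Mod.FE E N ≃ₐ[E] _root_.Fermat.Agent.A2.Mod.FE E N)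
    (w : _root_.Fermat.Agent.A2.Mod.RE P E) (f : _root_.Fermat.Agent.A2.Mod.FE E N) :
    InW P E N (V.comap (W : _root_.Fermat.Agent.A2.Mod.FE E N →+* _root_.Fermat.Agent.A2.Mod.FE E N)) w f ↔ InW P E N V w (W f) := by
  have h1 : W (f * (cE P E N w)⁻¹) = W f * (cE P E N w)⁻¹ := by
    rw [map_mul, map_inv₀]
    congr 2
    exact W.commutes _
  show (W : _root_.Fermat.Agent.A2.Mod.FE E N →+* _root_.Fermat.Agent.A2.Mod.FE E N) (f * (cE P E N w)⁻¹) ∈ V ↔ W f * (cE P E N w)⁻¹ ∈ V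
  rw [← h1]
  rfl

theorem coe_jE_incl (N d : ℕ) [NeZero d] (hd : d ∣ N) :
    ((jE E N d hd : _root_.Fermat.Agent.A2.Mod.FE E N) : LaurentSeries E)
      = H708.incl (_root_.Fermat.Agent.A2.Mod.RE P E) (H708.castA (_root_.Fermat.Agent.A2.Mod.RE P E) (qExpand ℤ d (jqModC ℤ))) := by
  rw [H708.incl_castA, H708.castQ, coeffMap_qExpand, ← H708.castQ, castQ_jqModC]
  rfl

end Gen

/-! ## relations of integral series and their reductions -/

section Rel

variable (P : ValuationSubring _root_.Fermat.Agent.A2.Mod.Qb) (E : IntermediateField ℚ _root_.Fermat.Agent.A2.Mod.Qb)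

/-- the series of `∑ aᵢ(u) hᵢ` for integer series `u`, `hᵢ`. -/
theorem coe_sum_ev {N n : ℕ} (u : _root_.Fermat.Agent.A2.Mod.FE E N) (U : LaurentSeries ℤ)
    (hu : (u : LaurentSeries E) = H708.incl (_root_.Fermat.Agent.A2.Mod.RE P E) (H708.castA (_root_.Fermat.Agent.A2.Mod.RE P E) U))
    (h : Fin n → _root_.Fermat.Agent.A2.Mod.FE E N) (Z : Fin n → LaurentSeries ℤ)
    (hh : ∀ i, (h i : LaurentSeries E) = H708.incl (_root_.Fermat.Agent.A2.Mod.RE P E) (H708.castA (_root_.Fermat.Agent.A2.Mod.RE P E) (Z i)))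
    (a : Fin n → Polynomial (_root_.Fermat.Agent.A2.Mod.RE P E)) :
    ((∑ i, ev P E N u (a i) * h i : _root_.Fermat.Agent.A2.Mod.FE E N) : LaurentSeries E)
      = H708.incl (_root_.Fermat.Agent.A2.Mod.RE P E)
        (∑ i, aeval (H708.castA (_root_.Fermat.Agent.A2.Mod.RE P E) U) (a i) * H708.castA (_root_.Fermat.Agent.A2.Mod.RE P E) (Z i)) := by
  rw [map_sum, IntermediateField.coe_sum]
  refine Finset.sum_congr rfl fun i _ => ?_
  rw [IntermediateField.coe_mul, coe_ev P E u _ hu (a i), hh i, map_mul]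

theorem red_sum_aeval {n : ℕ} (U : LaurentSeries ℤ) (Z : Fin n → LaurentSeries ℤ)
    (a : Fin n → Polynomial (_root_.Fermat.Agent.A2.Mod.RE P E)) :
    H708.red (_root_.Fermat.Agent.A2.Mod.RE P E)
        (∑ i, aeval (H708.castA (_root_.Fermat.Agent.A2.Mod.RE P E) U) (a i) * H708.castA (_root_.Fermat.Agent.A2.Mod.RE P E) (Z i))
      = ∑ i, aeval (castL (IsLocalRing.ResidueField (_root_.Fermat.Agent.A2.Mod.RE P E)) U)
          ((a i).map (IsLocalRing.residue (_root_.Fermat.Agent.A2.Mod.RE P E))) *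
          castL (IsLocalRing.ResidueField (_root_.Fermat.Agent.A2.Mod.RE P E)) (Z i) := by
  rw [map_sum]
  refine Finset.sum_congr rfl fun i _ => ?_
  rw [map_mul, H708.red, Fermat.Agent.S28.H325.coeffMap_aeval, ← H708.red, red_castA, red_castA]

/-- a relation in `w V∞` between integer series reduces to a relation over `k`. -/
theorem relation_red {N n : ℕ} {V : ValuationSubring (_root_.Fermat.Agent.A2.Mod.FE E N)} (hV : IsVinf P E N V)
    {w : _root_.Fermat.Agent.A2.Mod.RE P E} (hw : Irreducible w)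
    (u : _root_.Fermat.Agent.A2.Mod.FE E N) (U : LaurentSeries ℤ)
    (hu : (u : LaurentSeries E) = H708.incl (_root_.Fermat.Agent.A2.Mod.RE P E) (H708.castA (_root_.Fermat.Agent.A2.Mod.RE P E) U))
    (h : Fin n → _root_.Fermat.Agent.A2.Mod.FE E N) (Z : Fin n → LaurentSeries ℤ)
    (hh : ∀ i, (h i : LaurentSeries E) = H708.incl (_root_.Fermat.Agent.A2.Mod.RE P E) (H708.castA (_root_.Fermat.Agent.A2.Mod.RE P E) (Z i)))
    (a : Fin n → Polynomial (_root_.Fermat.Agent.A2.Mod.RE P E))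
    (hin : InW P E N V w (∑ i, ev P E N u (a i) * h i)) :
    ∑ i, aeval (castL (IsLocalRing.ResidueField (_root_.Fermat.Agent.A2.Mod.RE P E)) U)
        ((a i).map (IsLocalRing.residue (_root_.Fermat.Agent.A2.Mod.RE P E))) *
        castL (IsLocalRing.ResidueField (_root_.Fermat.Agent.A2.Mod.RE P E)) (Z i) = 0 := by
  have hwm : w ∈ IsLocalRing.maximalIdeal (_root_.Fermat.Agent.A2.Mod.RE P E) := by
    rw [IsLocalRing.mem_maximalIdeal, mem_nonunits_iff]
    exact hw.not_isUnit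
  rw [← red_sum_aeval]
  exact red_eq_zero_of_inW hV hw.ne_zero hwm (coe_sum_ev P E u U hu h Z hh a) hin

/-- a relation over `k` between reductions of integer series lifts to a relation in `w V∞`. -/
theorem relation_inW {N n : ℕ} {V : ValuationSubring (_root_.Fermat.Agent.A2.Mod.FE E N)} (hV : IsVinf P E N V)
    {w : _root_.Fermat.Agent.A2.Mod.RE P E} (hdvr : IsDiscreteValuationRing (_root_.Fermat.Agent.A2.Mod.RE P E)) (hw : Irreducible w)
    (u : _root_.Fermat.Agent.A2.Mod.FE E N) (U : LaurentSeries ℤ)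
    (hu : (u : LaurentSeries E) = H708.incl (_root_.Fermat.Agent.A2.Mod.RE P E) (H708.castA (_root_.Fermat.Agent.A2.Mod.RE P E) U))
    (h : Fin n → _root_.Fermat.Agent.A2.Mod.FE E N) (Z : Fin n → LaurentSeries ℤ)
    (hh : ∀ i, (h i : LaurentSeries E) = H708.incl (_root_.Fermat.Agent.A2.Mod.RE P E) (H708.castA (_root_.Fermat.Agent.A2.Mod.RE P E) (Z i)))
    (a : Fin n → Polynomial (_root_.Fermat.Agent.A2.Mod.RE P E))
    (hrel : ∑ i, aeval (castL (IsLocalRing.ResidueField (_root_.Fermat.Agent.A2.Mod.RE P E)) U)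
        ((a i).map (IsLocalRing.residue (_root_.Fermat.Agent.A2.Mod.RE P E))) *
        castL (IsLocalRing.ResidueField (_root_.Fermat.Agent.A2.Mod.RE P E)) (Z i) = 0) :
    InW P E N V w (∑ i, ev P E N u (a i) * h i) := by
  rw [← red_sum_aeval] at hrel
  exact inW_of_red_eq_zero P E hV hdvr hw (coe_sum_ev P E u U hu h Z hh a) hrel

end Rel

/-! ## the Fricke-dual family at level `M` -/

section Dual

variable (P : ValuationSubring _root_.Fermat.Agent.A2.Mod.Qb) (E : IntermediateField ℚ _root_.Fermat.Agent.A2.Mod.Qb) (M q : ℕ) [NeZero M] [NeZero q]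

/-- **dual independence.**  If `W_M hᵢ = gᵢ` (integer series `Zᵢ`, `Yᵢ`) and the `Ȳᵢ` are
polynomially independent over `k[j̄]`, then the `Z̄ᵢ` are polynomially independent over
`k[j̄_M]`. -/
theorem polyIndep_dual (w : _root_.Fermat.Agent.A2.Mod.RE P E) (hS : Setting P E M q w)
    (WM : _root_.Fermat.Agent.A2.Mod.FE E M ≃ₐ[E] _root_.Fermat.Agent.A2.Mod.FE E M) (hWM : IsFricke E M WM)
    (VM : ValuationSubring (_root_.Fermat.Agent.A2.Mod.FE E M)) (hVM : IsVinf P E M VM)
    {n : ℕ} (g h : Fin n → _root_.Fermat.Agent.A2.Mod.FE E M) (Y Z : Fin n → LaurentSeries ℤ)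
    (hg : ∀ i, (g i : LaurentSeries E) = H708.incl (_root_.Fermat.Agent.A2.Mod.RE P E) (H708.castA (_root_.Fermat.Agent.A2.Mod.RE P E) (Y i)))
    (hh : ∀ i, (h i : LaurentSeries E) = H708.incl (_root_.Fermat.Agent.A2.Mod.RE P E) (H708.castA (_root_.Fermat.Agent.A2.Mod.RE P E) (Z i)))
    (hgh : ∀ i, WM (h i) = g i)
    (hY : PolyIndep (jqModC (IsLocalRing.ResidueField (_root_.Fermat.Agent.A2.Mod.RE P E)))
      (fun i => castL (IsLocalRing.ResidueField (_root_.Fermat.Agent.A2.Mod.RE P E)) (Y i))) :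
    PolyIndep (castL (IsLocalRing.ResidueField (_root_.Fermat.Agent.A2.Mod.RE P E)) (qExpand ℤ M (jqModC ℤ)))
      (fun i => castL (IsLocalRing.ResidueField (_root_.Fermat.Agent.A2.Mod.RE P E)) (Z i)) := by
  intro Pb hPb
  have hsurj : ∀ i, ∃ p : Polynomial (_root_.Fermat.Agent.A2.Mod.RE P E), p.map (IsLocalRing.residue (_root_.Fermat.Agent.A2.Mod.RE P E)) = Pb i :=
    fun i => Polynomial.map_surjective _ IsLocalRing.residue_surjective (Pb i)
  choose p hp using hsurj
  have hrel : ∑ i, aeval (castL (IsLocalRing.ResidueField (_root_.Fermat.Agent.A2.Mod.RE P E)) (qExpand ℤ M (jqModC ℤ)))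
      ((p i).map (IsLocalRing.residue (_root_.Fermat.Agent.A2.Mod.RE P E))) *
      castL (IsLocalRing.ResidueField (_root_.Fermat.Agent.A2.Mod.RE P E)) (Z i) = 0 := by
    rw [← hPb]
    exact Finset.sum_congr rfl fun i _ => by rw [hp i]
  have h1 := relation_inW P E hVM hS.dvr hS.unif (jE E M M dvd_rfl) _
    (coe_jE_incl M M dvd_rfl) h Z hh p hrel
  have h2 : InW P E M VM w (WM (∑ i, ev P E M (jE E M M dvd_rfl) (p i) * h i)) := by
    rw [← inW_comap_iff]
    exact H900.frickeStable P E M q w hS VM WM hVM hWM _ h1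
  have h3 : WM (∑ i, ev P E M (jE E M M dvd_rfl) (p i) * h i)
      = ∑ i, ev P E M (jE E M 1 (one_dvd M)) (p i) * g i := by
    rw [map_sum]
    refine Finset.sum_congr rfl fun i _ => ?_
    rw [map_mul, map_ev, hgh i, hWM.1 M 1 dvd_rfl (one_dvd M) (mul_one M)]
  rw [h3] at h2
  have h4 := relation_red P E hVM hS.unif (jE E M 1 (one_dvd M)) _
    (coe_jE_incl M 1 (one_dvd M)) g Y hg p h2
  rw [qExpand_one_apply, Fermat.Agent.S28.H325.castL_jqModC] at h4
  intro i
  rw [← hp i]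
  exact hY _ h4 i

end Dual

/-! ## the leaf L10 -/

section MainZero

variable (P : ValuationSubring _root_.Fermat.Agent.A2.Mod.Qb) (E : IntermediateField ℚ _root_.Fermat.Agent.A2.Mod.Qb) (M q : ℕ) [NeZero q]

theorem incl_castA_eq (y : LaurentSeries ℤ) :
    H708.incl (_root_.Fermat.Agent.A2.Mod.RE P E) (H708.castA (_root_.Fermat.Agent.A2.Mod.RE P E) y) = coeffMap (Int.castRingHom E) y := by
  rw [H708.incl, H708.castA, coeffMap_coeffMap]
  exact coeffMap_congr (RingHom.ext_int _ _) y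

/-- Frobenius for an arbitrary integer series: `x̄(t^q) = x̄(t)^q` in characteristic `q`. -/
theorem castL_qExpand_pow (hq : q.Prime) (k : Type*) [Field k] [CharP k q]
    (x : LaurentSeries ℤ) : castL k (qExpand ℤ q x) = castL k x ^ q := by
  have : Fact q.Prime := ⟨hq⟩
  obtain ⟨g, hg⟩ := H528.exists_frobCong q x
  have h1 : qExpand ℤ q x = x ^ q + HahnSeries.C (q : ℤ) * g := by
    rw [← hg]; ring
  have h2 : castL k (HahnSeries.C (q : ℤ)) = 0 := by
    ext n
    rw [castL, coeffMap_coeff, HahnSeries.coeff_zero, HahnSeries.C_apply,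
      HahnSeries.coeff_single]
    split_ifs
    · rw [eq_intCast, Int.cast_natCast, CharP.cast_eq_zero k q]
    · rw [map_zero]
  rw [h1, map_add, map_mul, h2, zero_mul, add_zero, map_pow]

/-- **L10, strong form**: the family `d` lies in `V∞`, is independent modulo `w` over `R[W x]`,
and `c = W ∘ d`. -/
theorem indZero_strong (w : _root_.Fermat.Agent.A2.Mod.RE P E) (hS : Setting P E M q w)
    (V : ValuationSubring (_root_.Fermat.Agent.A2.Mod.FE E (M * q))) (W : _root_.Fermat.Agent.A2.Mod.FE E (M * q) ≃ₐ[E] _root_.Fermat.Agent.A2.Mod.FE E (M * q))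
    (hV : IsVinf P E (M * q) V) (hW : IsFricke E (M * q) W) :
    ∃ d : Fin ((q + 1) * dedekindPsi M) → _root_.Fermat.Agent.A2.Mod.FE E (M * q),
      (∀ i, d i ∈ V) ∧ IndepMod P E (M * q) V w (W (xE E M q)) d ∧
      IndepMod P E (M * q) (V.comap (W : _root_.Fermat.Agent.A2.Mod.FE E (M * q) →+* _root_.Fermat.Agent.A2.Mod.FE E (M * q))) w (xE E M q)
        (fun i => W (d i)) := by
  have hM : NeZero M := ⟨hS.M_ne_zero⟩
  have hMq : NeZero (M * q) := ⟨mul_ne_zero hS.M_ne_zero (NeZero.ne q)⟩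
  have hchar : CharP (IsLocalRing.ResidueField (_root_.Fermat.Agent.A2.Mod.RE P E)) q :=
    charP_residueField P E hS.q_prime hS.lies_over
  obtain ⟨Y, hY, hYi⟩ := exists_monomials M q hS.q_prime hS.q_not_dvd
    (IsLocalRing.ResidueField (_root_.Fermat.Agent.A2.Mod.RE P E))
  obtain ⟨VM, hVM⟩ := H553.vinfExists P E M hS.M_ne_zero hS.dvr
  obtain ⟨WM, hWM⟩ := H751.frickeExists E M hS.M_ne_zero
  have hW' : H900.FrickeOnGens M WM := fun d d' _ _ hd hd' h => hWM.1 d d' hd hd' h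
  have hsub : Submonoid.closure (intDivisorExpansions M) ≤
      (Subring.closure (intDivisorExpansions M)).toSubmonoid := by
    rw [Submonoid.closure_le]
    exact Subring.subset_closure
  have hex : ∀ i, ∃ (g : _root_.Fermat.Agent.A2.Mod.FE E M) (Z : LaurentSeries ℤ),
      (g : LaurentSeries E) = H900.castL E (Y i) ∧
      ((WM g : _root_.Fermat.Agent.A2.Mod.FE E M) : LaurentSeries E) = H900.castL E Z :=
    fun i => H900.exists_int_of_closure hW' (hsub (hY i))
  choose g Z hg hZ using hex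
  have hgi : ∀ i, (g i : LaurentSeries E)
      = H708.incl (_root_.Fermat.Agent.A2.Mod.RE P E) (H708.castA (_root_.Fermat.Agent.A2.Mod.RE P E) (Y i)) := fun i => by
    rw [incl_castA_eq]; exact hg i
  have hhi : ∀ i, ((WM (g i) : _root_.Fermat.Agent.A2.Mod.FE E M) : LaurentSeries E)
      = H708.incl (_root_.Fermat.Agent.A2.Mod.RE P E) (H708.castA (_root_.Fermat.Agent.A2.Mod.RE P E) (Z i)) := fun i => by
    rw [incl_castA_eq]; exact hZ i
  have hdual := polyIndep_dual P E M q w hS WM hWM VM hVM g (fun i => WM (g i)) Y Z hgi hhi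
    (fun i => hWM.2 (g i)) hYi
  -- the family at level `M q`
  set d : Fin ((q + 1) * dedekindPsi M) → _root_.Fermat.Agent.A2.Mod.FE E (M * q) := fun i =>
    αE E M q (WM (g (finProdFinEquiv.symm i).2) *
      (jE E M M dvd_rfl) ^ ((finProdFinEquiv.symm i).1 : ℕ)) with hd
  have hdcoe : ∀ i, (d i : LaurentSeries E) = H708.incl (_root_.Fermat.Agent.A2.Mod.RE P E) (H708.castA (_root_.Fermat.Agent.A2.Mod.RE P E)
      (Z (finProdFinEquiv.symm i).2 *
        (qExpand ℤ M (jqModC ℤ)) ^ ((finProdFinEquiv.symm i).1 : ℕ))) := fun i => by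
    rw [hd, coe_heckeAlphaBar, IntermediateField.coe_mul, IntermediateField.coe_pow, hhi,
      coe_jE_incl (P := P) M M dvd_rfl, map_mul, map_mul, map_pow, map_pow]
  have hdV : ∀ i, d i ∈ V := fun i => by
    rw [hV, hdcoe]
    exact H708.IsGaussInt.of_incl _
  have hWx : W (xE E M q) = jE E (M * q) (M * q) dvd_rfl * jE E (M * q) M (dvd_mul_right M q) := by
    rw [xE, map_mul, hW.1 1 (M * q) (one_dvd _) dvd_rfl (one_mul _),
      hW.1 q M (dvd_mul_left q M) (dvd_mul_right M q) (mul_comm q M)]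
  have hWxcoe : ((W (xE E M q) : _root_.Fermat.Agent.A2.Mod.FE E (M * q)) : LaurentSeries E)
      = H708.incl (_root_.Fermat.Agent.A2.Mod.RE P E) (H708.castA (_root_.Fermat.Agent.A2.Mod.RE P E)
        (qExpand ℤ (M * q) (jqModC ℤ) * qExpand ℤ M (jqModC ℤ))) := by
    rw [hWx, IntermediateField.coe_mul, coe_jE_incl (P := P) (M * q) (M * q) dvd_rfl,
      coe_jE_incl (P := P) (M * q) M (dvd_mul_right M q), map_mul, map_mul]
  have hXW : castL (IsLocalRing.ResidueField (_root_.Fermat.Agent.A2.Mod.RE P E))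
      (qExpand ℤ (M * q) (jqModC ℤ) * qExpand ℤ M (jqModC ℤ))
      = castL (IsLocalRing.ResidueField (_root_.Fermat.Agent.A2.Mod.RE P E)) (qExpand ℤ M (jqModC ℤ)) ^ (q + 1) := by
    have h1 : qExpand ℤ (M * q) (jqModC ℤ) = qExpand ℤ q (qExpand ℤ M (jqModC ℤ)) := by
      rw [qExpand_qExpand]
      exact qExpand_congr (mul_comm M q) _
    rw [map_mul, h1, castL_qExpand_pow q hS.q_prime, pow_succ]
  have hind : IndepMod P E (M * q) V w (W (xE E M q)) d := by
    intro a ha i
    have h1 := relation_red P E hV hS.unif (W (xE E M q)) _ hWxcoe d _ hdcoe a ha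
    rw [hXW] at h1
    have h2 : ∑ i, aeval (castL (IsLocalRing.ResidueField (_root_.Fermat.Agent.A2.Mod.RE P E))
          (qExpand ℤ M (jqModC ℤ)) ^ (q + 1))
        ((a i).map (IsLocalRing.residue (_root_.Fermat.Agent.A2.Mod.RE P E))) *
        (castL (IsLocalRing.ResidueField (_root_.Fermat.Agent.A2.Mod.RE P E)) (Z (finProdFinEquiv.symm i).2) *
          castL (IsLocalRing.ResidueField (_root_.Fermat.Agent.A2.Mod.RE P E)) (qExpand ℤ M (jqModC ℤ))
            ^ ((finProdFinEquiv.symm i).1 : ℕ)) = 0 := by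
      rw [← h1]
      refine Finset.sum_congr rfl fun i _ => ?_
      rw [map_mul, map_pow]
    have hzero := polyIndep_tower (q + 1) (Nat.succ_pos q) _ _ hdual
      (fun i => (a i).map (IsLocalRing.residue (_root_.Fermat.Agent.A2.Mod.RE P E))) h2 i
    exact C_dvd_of_map_residue_eq_zero P E hS.dvr hS.unif hzero
  refine ⟨d, hdV, hind, ?_⟩
  intro a ha i
  rw [inW_comap_iff] at ha
  have h3 : W (∑ i, ev P E (M * q) (xE E M q) (a i) * W (d i))
      = ∑ i, ev P E (M * q) (W (xE E M q)) (a i) * d i := by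
    rw [map_sum]
    refine Finset.sum_congr rfl fun i _ => ?_
    rw [map_mul, map_ev, hW.2]
  rw [h3] at ha
  exact hind a ha i

/-- **L10** `IndZero` (exact shape of `Spec.IndZeroStatement`). -/
theorem indZero (w : _root_.Fermat.Agent.A2.Mod.RE P E) : IndZeroStatement P E M q w := by
  intro hS V W hV hW
  obtain ⟨d, hdV, -, hc⟩ := indZero_strong P E M q w hS V W hV hW
  refine ⟨fun i => W (d i), fun i => ?_, hc⟩
  rw [hW.2]
  exact hdV i

end MainZero

/-! ## the coordinate `x⁻¹` (chart at infinity): the reverse trick -/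

section Inv

variable (P : ValuationSubring _root_.Fermat.Agent.A2.Mod.Qb) (E : IntermediateField ℚ _root_.Fermat.Agent.A2.Mod.Qb)

theorem ev_reflect {N : ℕ} (x : _root_.Fermat.Agent.A2.Mod.FE E N) (hx : x ≠ 0) (D : ℕ) (p : Polynomial (_root_.Fermat.Agent.A2.Mod.RE P E))
    (hp : p.natDegree ≤ D) :
    ev P E N x (p.reflect D) = ev P E N x⁻¹ p * x ^ D := by
  letI : Invertible (x⁻¹) := ⟨x, mul_inv_cancel₀ hx, inv_mul_cancel₀ hx⟩
  have h := Polynomial.eval₂_reflect_mul_pow
    ((algebraMap E (_root_.Fermat.Agent.A2.Mod.FE E N)).comp (_root_.Fermat.Agent.A2.Mod.RE P E).subtype) (x⁻¹) D p hp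
  have h2 : ⅟(x⁻¹) = x := rfl
  rw [h2] at h
  have h3 : ev P E N x (p.reflect D) * (x⁻¹) ^ D * x ^ D = ev P E N x⁻¹ p * x ^ D := by
    rw [ev, ev, h]
  rw [← h3, mul_assoc, ← mul_pow, inv_mul_cancel₀ hx, one_pow, mul_one]

theorem C_dvd_of_C_dvd_reflect {w : _root_.Fermat.Agent.A2.Mod.RE P E} {D : ℕ} {p : Polynomial (_root_.Fermat.Agent.A2.Mod.RE P E)}
    (h : Polynomial.C w ∣ p.reflect D) : Polynomial.C w ∣ p := by
  rw [Polynomial.C_dvd_iff_dvd_coeff] at h ⊢
  intro j
  have := h (Polynomial.revAt D j)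
  rwa [Polynomial.coeff_reflect, Polynomial.revAt_invol] at this

/-- **reverse trick.**  Independence modulo `w` over `R[x]` implies independence modulo `w` over
`R[x⁻¹]`, for `x ∈ V`. -/
theorem indepMod_inv {N n : ℕ} (V : ValuationSubring (_root_.Fermat.Agent.A2.Mod.FE E N)) (w : _root_.Fermat.Agent.A2.Mod.RE P E) (x : _root_.Fermat.Agent.A2.Mod.FE E N)
    (hx : x ∈ V) (b : Fin n → _root_.Fermat.Agent.A2.Mod.FE E N) (h : IndepMod P E N V w x b) :
    IndepMod P E N V w x⁻¹ b := by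
  by_cases hx0 : x = 0
  · rw [hx0, inv_zero]
    rw [hx0] at h
    exact h
  intro a ha i
  set D : ℕ := Finset.univ.sup (fun i => (a i).natDegree) with hD
  have hdeg : ∀ i, (a i).natDegree ≤ D := fun i =>
    Finset.le_sup (f := fun i => (a i).natDegree) (Finset.mem_univ i)
  have h1 : ∑ i, ev P E N x ((a i).reflect D) * b i
      = (∑ i, ev P E N x⁻¹ (a i) * b i) * x ^ D := by
    rw [Finset.sum_mul]
    refine Finset.sum_congr rfl fun i _ => ?_
    rw [ev_reflect P E x hx0 D (a i) (hdeg i)]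
    ring
  have h2 : InW P E N V w (∑ i, ev P E N x ((a i).reflect D) * b i) := by
    rw [h1]
    show (∑ i, ev P E N x⁻¹ (a i) * b i) * x ^ D * (cE P E N w)⁻¹ ∈ V
    have h3 : (∑ i, ev P E N x⁻¹ (a i) * b i) * x ^ D * (cE P E N w)⁻¹
        = ((∑ i, ev P E N x⁻¹ (a i) * b i) * (cE P E N w)⁻¹) * x ^ D := by ring
    rw [h3]
    exact mul_mem ha (pow_mem hx D)
  exact C_dvd_of_C_dvd_reflect P E (h _ h2 i)

end Inv

end Fermat.Agent.A2.Mod.H753

end

end
-- ===== PACK-END A2/Mod/H753/IndZero.lean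

-- ===== PACK-BEGIN S36/Mod3/H189/Chart3.lean
section





/-!
# S36 / MOD3, cell CHART3 (helper189) — the chart fields of `TripleCtx` at level `M q²`

Level `N' = M q` (`F' = F_E(M q)`), level `N = M q q` (`F = F_E(M q q)`), degeneracy maps
`α = A2.Mod.αE E (M q) q`, `β = A2.Mod.βE E (M q) q : F' → F`.  Coordinates

* `x' = A2.Mod.xE E M q = j · j_q`            (the A2 coordinate of level `M q`),
* `x  = x3 E M q = j · j_q · j_{q²}`   (the coordinate of level `M q²` suggested by the architect).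

Results (all from the monicity of `Φ_q` and its two vanishing properties, `S28.ModPolyData q`):

* `j_mem_chart`, `jq_mem_chart`, `jqq_mem_chart`           : `j, j_q, j_{q²} ∈ chart R {x}`;
* `j_inv_mem_chart`, `jq_inv_mem_chart`, `jqq_inv_mem_chart` : their inverses lie in `chart R {x⁻¹}`;
* `chart_α`, `chart_β`  : the fields `chart_α`, `chart_β` of `S36.Eng.TripleCtx`;
* `int_α`, `int_β`      : the fields `int_α`, `int_β` of `S36.Eng.TripleCtx`.

No hypothesis on `P`, `E`, `M`, `q` beyond `q` prime.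
-/

set_option autoImplicit false
set_option synthInstance.maxHeartbeats 400000
set_option maxHeartbeats 1600000

noncomputable section

namespace Fermat.Agent.S36.Mod3.H189

open ModularCurve Polynomial
open Fermat.Agent.S18.H138 (chart mem_chart mem_chart_of_mem)
open Fermat.Agent

/-- transport of a vanishing statement `Φ(a; b) = 0` along a ring homomorphism -/
theorem eval₂_aeval_map {K L : Type*} [CommRing K] [CommRing L] (φ : K →+* L)
    (Φ : Polynomial (Polynomial ℤ)) (a b : K)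
    (h : Φ.eval₂ (Polynomial.aeval (R := ℤ) b).toRingHom a = 0) :
    Φ.eval₂ (Polynomial.aeval (R := ℤ) (φ b)).toRingHom (φ a) = 0 := by
  have h1 := Polynomial.hom_eval₂ Φ (Polynomial.aeval (R := ℤ) b).toRingHom φ a
  have hcomp : φ.comp (Polynomial.aeval (R := ℤ) b).toRingHom =
      (Polynomial.aeval (R := ℤ) (φ b)).toRingHom := by
    apply Polynomial.ringHom_ext
    · intro n
      simp
    · simp
  rw [hcomp, h, map_zero] at h1
  exact h1.symm

variable (P : ValuationSubring A2.Qb) (E : IntermediateField ℚ A2.Qb) (M q : ℕ)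
  [NeZero M] [NeZero q] [NeZero (M * q)]

/-! ## The generators -/

/-- `j` at level `M q`. -/
abbrev j' : A2.Mod.FE E (M * q) := A2.Mod.jE E (M * q) 1 (one_dvd _)

/-- `j_q` at level `M q`. -/
abbrev jq' : A2.Mod.FE E (M * q) := A2.Mod.jE E (M * q) q (dvd_mul_left q M)

/-- `j` at level `M q q`. -/
abbrev j3 : A2.Mod.FE E (M * q * q) := A2.Mod.jE E (M * q * q) 1 (one_dvd _)

/-- `j_q` at level `M q q`. -/
abbrev jq3 : A2.Mod.FE E (M * q * q) := A2.Mod.jE E (M * q * q) q (dvd_mul_left q (M * q))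

/-- `j_{q²}` at level `M q q`. -/
abbrev jqq3 : A2.Mod.FE E (M * q * q) :=
  A2.Mod.jE E (M * q * q) (q * q) (by rw [mul_assoc]; exact dvd_mul_left (q * q) M)

/-- **The coordinate of level `M q²`**: `x = j · j_q · j_{q²}`. -/
def x3 : A2.Mod.FE E (M * q * q) := j3 E M q * jq3 E M q * jqq3 E M q

theorem x3_def : x3 E M q = j3 E M q * jq3 E M q * jqq3 E M q := rfl

theorem xE_eq : A2.Mod.xE E M q = j' E M q * jq' E M q := rfl

/-! ## The degeneracy maps on the generators -/

theorem alpha_j' : A2.Mod.αE E (M * q) q (j' E M q) = j3 E M q :=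
  A2.Mod.H751.alpha_jE E (M * q) q 1 (one_dvd _)

theorem alpha_jq' : A2.Mod.αE E (M * q) q (jq' E M q) = jq3 E M q :=
  A2.Mod.H751.alpha_jE E (M * q) q q (dvd_mul_left q M)

theorem beta_j' : A2.Mod.βE E (M * q) q (j' E M q) = jq3 E M q := by
  rw [A2.Mod.H751.beta_jE E (M * q) q 1 (one_dvd _)]
  exact A2.Mod.H751.jE_congr E (M * q * q) (mul_one q) _ _

theorem beta_jq' : A2.Mod.βE E (M * q) q (jq' E M q) = jqq3 E M q :=
  A2.Mod.H751.beta_jE E (M * q) q q (dvd_mul_left q M)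

theorem alpha_xE : A2.Mod.αE E (M * q) q (A2.Mod.xE E M q) = j3 E M q * jq3 E M q := by
  rw [xE_eq, map_mul, alpha_j', alpha_jq']

theorem beta_xE : A2.Mod.βE E (M * q) q (A2.Mod.xE E M q) = jq3 E M q * jqq3 E M q := by
  rw [xE_eq, map_mul, beta_j', beta_jq']

/-! ## The modular equations -/

section ModEq

variable (D : S28.ModPolyData q)

/-- `Φ_q(X = j; Y = j_q) = 0` at level `M q`. -/
theorem modEq_j' : D.Φ.eval₂ (Polynomial.aeval (R := ℤ) (jq' E M q)).toRingHom (j' E M q) = 0 :=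
  A2.Mod.H873.eval₂_eq_zero_of_int E (M * q) D.Φ _ _ _ _ (A2.Mod.H873.coe_jE_one E (M * q))
    (A2.Mod.H873.coe_jE_int E (M * q) q (dvd_mul_left q M)) D.eval_j

/-- `Φ_q(X = j_q; Y = j) = 0` at level `M q`. -/
theorem modEq_jq' : D.Φ.eval₂ (Polynomial.aeval (R := ℤ) (j' E M q)).toRingHom (jq' E M q) = 0 :=
  A2.Mod.H873.eval₂_eq_zero_of_int E (M * q) D.Φ _ _ _ _
    (A2.Mod.H873.coe_jE_int E (M * q) q (dvd_mul_left q M)) (A2.Mod.H873.coe_jE_one E (M * q)) D.eval_jp

/-- `Φ_q(X = j; Y = j_q) = 0` at level `M q q`. -/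
theorem modEq_j_jq : D.Φ.eval₂ (Polynomial.aeval (R := ℤ) (jq3 E M q)).toRingHom (j3 E M q) = 0 := by
  have := eval₂_aeval_map (A2.Mod.αE E (M * q) q : A2.Mod.FE E (M * q) →+* A2.Mod.FE E (M * q * q)) D.Φ _ _
    (modEq_j' E M q D)
  rwa [AlgHom.coe_toRingHom, alpha_j', alpha_jq'] at this

/-- `Φ_q(X = j_q; Y = j) = 0` at level `M q q`. -/
theorem modEq_jq_j : D.Φ.eval₂ (Polynomial.aeval (R := ℤ) (j3 E M q)).toRingHom (jq3 E M q) = 0 := by
  have := eval₂_aeval_map (A2.Mod.αE E (M * q) q : A2.Mod.FE E (M * q) →+* A2.Mod.FE E (M * q * q)) D.Φ _ _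
    (modEq_jq' E M q D)
  rwa [AlgHom.coe_toRingHom, alpha_j', alpha_jq'] at this

/-- `Φ_q(X = j_q; Y = j_{q²}) = 0` at level `M q q`. -/
theorem modEq_jq_jqq :
    D.Φ.eval₂ (Polynomial.aeval (R := ℤ) (jqq3 E M q)).toRingHom (jq3 E M q) = 0 := by
  have := eval₂_aeval_map (A2.Mod.βE E (M * q) q : A2.Mod.FE E (M * q) →+* A2.Mod.FE E (M * q * q)) D.Φ _ _
    (modEq_j' E M q D)
  rwa [AlgHom.coe_toRingHom, beta_j', beta_jq'] at this

/-- `Φ_q(X = j_{q²}; Y = j_q) = 0` at level `M q q`. -/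
theorem modEq_jqq_jq :
    D.Φ.eval₂ (Polynomial.aeval (R := ℤ) (jq3 E M q)).toRingHom (jqq3 E M q) = 0 := by
  have := eval₂_aeval_map (A2.Mod.βE E (M * q) q : A2.Mod.FE E (M * q) →+* A2.Mod.FE E (M * q * q)) D.Φ _ _
    (modEq_jq' E M q D)
  rwa [AlgHom.coe_toRingHom, beta_j', beta_jq'] at this

end ModEq

/-! ## The generators lie in the charts -/

section Mem

variable (hq : q.Prime)
include hq

/-- valuation subrings containing `x = j j_q j_{q²}` contain `j`, `j_q`, `j_{q²}` -/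
theorem mem_of_x3_mem (V : ValuationSubring (A2.Mod.FE E (M * q * q))) (hx : x3 E M q ∈ V) :
    j3 E M q ∈ V ∧ jq3 E M q ∈ V ∧ jqq3 E M q ∈ V := by
  obtain ⟨D⟩ := S28.H807.nonempty_modPolyData q hq
  exact mem_triple V
    (fun h => mem_valuationSubring_of_monic D.Φ D.monic (modEq_jq_j E M q D) V h)
    (fun h => mem_valuationSubring_of_monic D.Φ D.monic (modEq_j_jq E M q D) V h)
    (fun h => mem_valuationSubring_of_monic D.Φ D.monic (modEq_jqq_jq E M q D) V h)
    (fun h => mem_valuationSubring_of_monic D.Φ D.monic (modEq_jq_jqq E M q D) V h) hx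

/-- valuation subrings containing `x⁻¹` contain `j⁻¹`, `j_q⁻¹`, `j_{q²}⁻¹` -/
theorem inv_mem_of_x3_inv_mem (V : ValuationSubring (A2.Mod.FE E (M * q * q)))
    (hx : (x3 E M q)⁻¹ ∈ V) :
    (j3 E M q)⁻¹ ∈ V ∧ (jq3 E M q)⁻¹ ∈ V ∧ (jqq3 E M q)⁻¹ ∈ V := by
  obtain ⟨D⟩ := S28.H807.nonempty_modPolyData q hq
  exact inv_mem_triple (A2.Mod.H873.jE_ne_zero E _ _ _) (A2.Mod.H873.jE_ne_zero E _ _ _)
    (A2.Mod.H873.jE_ne_zero E _ _ _) V
    (fun h => mem_valuationSubring_of_monic D.Φ D.monic (modEq_jq_j E M q D) V h)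
    (fun h => mem_valuationSubring_of_monic D.Φ D.monic (modEq_j_jq E M q D) V h)
    (fun h => mem_valuationSubring_of_monic D.Φ D.monic (modEq_jqq_jq E M q D) V h)
    (fun h => mem_valuationSubring_of_monic D.Φ D.monic (modEq_jq_jqq E M q D) V h) hx

theorem j_mem_chart : j3 E M q ∈ chart (A2.RE P E) ({x3 E M q} : Set (A2.Mod.FE E (M * q * q))) :=
  mem_chart_of_forall_valuationSubring fun V hx => (mem_of_x3_mem E M q hq V hx).1

theorem jq_mem_chart : jq3 E M q ∈ chart (A2.RE P E) ({x3 E M q} : Set (A2.Mod.FE E (M * q * q))) :=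
  mem_chart_of_forall_valuationSubring fun V hx => (mem_of_x3_mem E M q hq V hx).2.1

theorem jqq_mem_chart : jqq3 E M q ∈ chart (A2.RE P E) ({x3 E M q} : Set (A2.Mod.FE E (M * q * q))) :=
  mem_chart_of_forall_valuationSubring fun V hx => (mem_of_x3_mem E M q hq V hx).2.2

theorem j_inv_mem_chart :
    (j3 E M q)⁻¹ ∈ chart (A2.RE P E) ({(x3 E M q)⁻¹} : Set (A2.Mod.FE E (M * q * q))) :=
  mem_chart_of_forall_valuationSubring fun V hx => (inv_mem_of_x3_inv_mem E M q hq V hx).1

theorem jq_inv_mem_chart :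
    (jq3 E M q)⁻¹ ∈ chart (A2.RE P E) ({(x3 E M q)⁻¹} : Set (A2.Mod.FE E (M * q * q))) :=
  mem_chart_of_forall_valuationSubring fun V hx => (inv_mem_of_x3_inv_mem E M q hq V hx).2.1

theorem jqq_inv_mem_chart :
    (jqq3 E M q)⁻¹ ∈ chart (A2.RE P E) ({(x3 E M q)⁻¹} : Set (A2.Mod.FE E (M * q * q))) :=
  mem_chart_of_forall_valuationSubring fun V hx => (inv_mem_of_x3_inv_mem E M q hq V hx).2.2

/-- `j ∈ chart R {x'}` at level `M q`. -/
theorem j'_mem_chart : j' E M q ∈ chart (A2.RE P E) ({A2.Mod.xE E M q} : Set (A2.Mod.FE E (M * q))) := by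
  obtain ⟨D⟩ := S28.H807.nonempty_modPolyData q hq
  exact mem_chart_of_isIntegral_closure
    (A2.Mod.H873.isIntegral_closure_mul D.Φ D.monic (modEq_j' E M q D))

/-- `j_q ∈ chart R {x'}` at level `M q`. -/
theorem jq'_mem_chart : jq' E M q ∈ chart (A2.RE P E) ({A2.Mod.xE E M q} : Set (A2.Mod.FE E (M * q))) := by
  obtain ⟨D⟩ := S28.H807.nonempty_modPolyData q hq
  have h := A2.Mod.H873.isIntegral_closure_mul D.Φ D.monic (modEq_jq' E M q D)
  rw [mul_comm (jq' E M q) (j' E M q)] at h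
  exact mem_chart_of_isIntegral_closure h

/-! ## The fields `chart_α`, `chart_β`, `int_α`, `int_β` of `TripleCtx` -/

/-- **`chart_α`.** -/
theorem chart_α : ∀ b ∈ chart (A2.RE P E) ({A2.Mod.xE E M q} : Set (A2.Mod.FE E (M * q))),
    A2.Mod.αE E (M * q) q b ∈ chart (A2.RE P E) ({x3 E M q} : Set (A2.Mod.FE E (M * q * q))) := by
  apply chart_map
  rw [alpha_xE]
  exact Subalgebra.mul_mem _ (j_mem_chart P E M q hq) (jq_mem_chart P E M q hq)

/-- **`chart_β`.** -/
theorem chart_β : ∀ b ∈ chart (A2.RE P E) ({A2.Mod.xE E M q} : Set (A2.Mod.FE E (M * q))),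
    A2.Mod.βE E (M * q) q b ∈ chart (A2.RE P E) ({x3 E M q} : Set (A2.Mod.FE E (M * q * q))) := by
  apply chart_map
  rw [beta_xE]
  exact Subalgebra.mul_mem _ (jq_mem_chart P E M q hq) (jqq_mem_chart P E M q hq)

/-- **`int_α`.** -/
theorem int_α : ∀ b ∈ chart (A2.RE P E) ({x3 E M q} : Set (A2.Mod.FE E (M * q * q))),
    ∃ p : Polynomial (A2.Mod.FE E (M * q)), p.Monic ∧
      (∀ i, p.coeff i ∈ chart (A2.RE P E) ({A2.Mod.xE E M q} : Set (A2.Mod.FE E (M * q)))) ∧
      (p.map (A2.Mod.αE E (M * q) q : A2.Mod.FE E (M * q) →+* A2.Mod.FE E (M * q * q))).eval b = 0 := by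
  obtain ⟨D⟩ := S28.H807.nonempty_modPolyData q hq
  apply int_map
  -- `x = α x' · j_{q²}`
  have hx : x3 E M q = A2.Mod.αE E (M * q) q (A2.Mod.xE E M q) * jqq3 E M q := by
    rw [alpha_xE, x3_def]
  rw [hx]
  have h1 : A2.Mod.αE E (M * q) q (A2.Mod.xE E M q) ∈ imgChart (R := A2.RE P E) (A2.Mod.αE E (M * q) q) (A2.Mod.xE E M q) :=
    mem_imgChart.mpr ⟨A2.Mod.xE E M q, mem_chart_of_mem rfl, rfl⟩
  have h2 : jq3 E M q ∈ imgChart (R := A2.RE P E) (A2.Mod.αE E (M * q) q) (A2.Mod.xE E M q) :=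
    mem_imgChart.mpr ⟨jq' E M q, jq'_mem_chart P E M q hq, alpha_jq' E M q⟩
  exact (isIntegral_algebraMap (R := imgChart (R := A2.RE P E) (A2.Mod.αE E (M * q) q) (A2.Mod.xE E M q))
    (x := ⟨_, h1⟩)).mul (isIntegral_of_monic_eval₂ D.Φ D.monic (modEq_jqq_jq E M q D) h2)

/-- **`int_β`.** -/
theorem int_β : ∀ b ∈ chart (A2.RE P E) ({x3 E M q} : Set (A2.Mod.FE E (M * q * q))),
    ∃ p : Polynomial (A2.Mod.FE E (M * q)), p.Monic ∧
      (∀ i, p.coeff i ∈ chart (A2.RE P E) ({A2.Mod.xE E M q} : Set (A2.Mod.FE E (M * q)))) ∧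
      (p.map (A2.Mod.βE E (M * q) q : A2.Mod.FE E (M * q) →+* A2.Mod.FE E (M * q * q))).eval b = 0 := by
  obtain ⟨D⟩ := S28.H807.nonempty_modPolyData q hq
  apply int_map
  -- `x = j · β x'`
  have hx : x3 E M q = j3 E M q * A2.Mod.βE E (M * q) q (A2.Mod.xE E M q) := by
    rw [beta_xE, x3_def]
    exact mul_assoc (j3 E M q) (jq3 E M q) (jqq3 E M q)
  rw [hx]
  have h1 : A2.Mod.βE E (M * q) q (A2.Mod.xE E M q) ∈ imgChart (R := A2.RE P E) (A2.Mod.βE E (M * q) q) (A2.Mod.xE E M q) :=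
    mem_imgChart.mpr ⟨A2.Mod.xE E M q, mem_chart_of_mem rfl, rfl⟩
  have h2 : jq3 E M q ∈ imgChart (R := A2.RE P E) (A2.Mod.βE E (M * q) q) (A2.Mod.xE E M q) :=
    mem_imgChart.mpr ⟨j' E M q, j'_mem_chart P E M q hq, beta_j' E M q⟩
  exact (isIntegral_of_monic_eval₂ D.Φ D.monic (modEq_j_jq E M q D) h2).mul
    (isIntegral_algebraMap (R := imgChart (R := A2.RE P E) (A2.Mod.βE E (M * q) q) (A2.Mod.xE E M q))
      (x := ⟨_, h1⟩))

end Mem

end Fermat.Agent.S36.Mod3.H189

end

end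
-- ===== PACK-END S36/Mod3/H189/Chart3.lean

-- ===== PACK-BEGIN A2/Mod/H142/S2.lean
section




/-!
# A2 / MODASM sub-assembly S2 (components normal) (helper142)

`s2_of_leaves : FrickeStableStatement P E M q w → ResInfStatement P E M q w → S2Statement P E M q w`

The leaves L2 (H553), L4/L5 (H751), L13 (H873) are taken from main; L7 and L11 are hypotheses
(VERBATIM `Mod/Spec.lean` statements).

Route: `normal_side` (`S2Side.lean`) with `(V', γ) = (V∞, α)` for `p₁` and
`(V', γ) = (V₀ = V∞ ∘ W, β)` for `p₂`; the coordinate congruences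
`x ≡ α(j)^(q+1) mod w V∞`, `W x ≡ α(j_M)^(q+1) mod w V∞` are Frobenius congruences of integer
series (`frobCong`).
-/

set_option autoImplicit false
set_option synthInstance.maxHeartbeats 400000
set_option maxHeartbeats 1600000
set_option linter.unusedSectionVars false
set_option linter.style.haveILetI false

noncomputable section

namespace Fermat.Agent.A2.Mod.H142

open ModularCurve HahnSeries Polynomial

variable (P : ValuationSubring _root_.Fermat.Agent.A2.Mod.Qb) (E : IntermediateField ℚ _root_.Fermat.Agent.A2.Mod.Qb)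
variable (M q : ℕ) [NeZero M] [NeZero q] (w : _root_.Fermat.Agent.A2.Mod.RE P E)

/-- `α` maps `V∞` of level `M` into `V∞` of level `M q`. -/
theorem alpha_mem {VM : ValuationSubring (_root_.Fermat.Agent.A2.Mod.FE E M)} {V : ValuationSubring (_root_.Fermat.Agent.A2.Mod.FE E (M * q))}
    (hVM : IsVinf P E M VM) (hV : IsVinf P E (M * q) V) {g : _root_.Fermat.Agent.A2.Mod.FE E M} (hg : g ∈ VM) :
    αE E M q g ∈ V := by
  obtain ⟨U₁, U₂, h0, hm, he⟩ := (hVM g).1 hg
  refine (hV _).2 ⟨U₁, U₂, h0, ?_, ?_⟩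
  · have h := (αE E M q ⟨_, hm⟩).2
    rwa [coe_heckeAlphaBar] at h
  · rw [coe_heckeAlphaBar]
    exact he

/-- The frame of the two coordinates. -/
theorem xE_eq : xE E M q = jE E (M * q) 1 (one_dvd _) * jE E (M * q) q (dvd_mul_left q M) := rfl

/-- **S2 on `C∞`.** -/
theorem normal_inf (hL11 : ResInfStatement P E M q w) (hS : Setting P E M q w)
    (VM : ValuationSubring (_root_.Fermat.Agent.A2.Mod.FE E M)) (V : ValuationSubring (_root_.Fermat.Agent.A2.Mod.FE E (M * q)))
    (hVM : IsVinf P E M VM) (hV : IsVinf P E (M * q) V)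
    (yM : _root_.Fermat.Agent.A2.Mod.FE E M) (y : _root_.Fermat.Agent.A2.Mod.FE E (M * q)) (hy : IsCoordPair E M q yM y)
    (hgood : GoodRedAt P E M w VM yM)
    (p : Ideal (chartAlg P E (M * q) y))
    (hp : IsCut P E (M * q) w V (chartAlg P E (M * q) y) p) :
    IsIntegrallyClosed (chartAlg P E (M * q) y ⧸ p) := by
  have hN : M * q ≠ 0 := Nat.mul_ne_zero hS.M_ne_zero hS.q_prime.ne_zero
  haveI : NeZero (M * q) := ⟨hN⟩
  haveI : NeZero (1 * q) := ⟨by rw [one_mul]; exact hS.q_prime.ne_zero⟩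
  have hL2 := H553.vinfBasic P E w (M * q) hN hS.dvr hS.unif V hV
  have hL2M := H553.vinfBasic P E w M hS.M_ne_zero hS.dvr hS.unif VM hVM
  have hL13 := H873.chartCompat P E M q hS.q_prime
  have hRV : ∀ r : _root_.Fermat.Agent.A2.Mod.RE P E, algebraMap (_root_.Fermat.Agent.A2.Mod.RE P E) (_root_.Fermat.Agent.A2.Mod.FE E (M * q)) r ∈ V := fun r =>
    (hL2.2.1 (r : E)).mpr r.2
  -- notation
  obtain ⟨j, hj⟩ : ∃ j : _root_.Fermat.Agent.A2.Mod.FE E (M * q), j = jE E (M * q) 1 (one_dvd _) := ⟨_, rfl⟩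
  obtain ⟨jq, hjq⟩ : ∃ jq : _root_.Fermat.Agent.A2.Mod.FE E (M * q), jq = jE E (M * q) q (dvd_mul_left q M) := ⟨_, rfl⟩
  have hjV : j ∈ V ∧ j⁻¹ ∈ V := hj ▸ hL2.2.2 1 (one_dvd _)
  have hjqV : jq ∈ V ∧ jq⁻¹ ∈ V := hjq ▸ hL2.2.2 q (dvd_mul_left q M)
  have hx : xE E M q = j * jq := by rw [hj, hjq]; rfl
  have hαj : αE E M q (jE E M 1 (one_dvd _)) = j := by
    rw [hj]
    exact H751.alpha_jE E M q 1 (one_dvd M)
  have hfrob : InW P E (M * q) V w (jq - j ^ q) := by
    have h := frobCong (P := P) (E := E) (w := w) hS.q_prime hS.dvr hS.unif hS.lies_over hN hV 1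
      (one_dvd _) (by rw [one_mul]; exact dvd_mul_left q M)
    rw [hj, hjq]
    have h1 : jE E (M * q) (1 * q) (by rw [one_mul]; exact dvd_mul_left q M) =
        jE E (M * q) q (dvd_mul_left q M) := H751.jE_congr E (M * q) (one_mul q) _ _
    rwa [h1] at h
  have hj0 : j ≠ 0 := hj ▸ H873.jE_ne_zero E (M * q) 1 (one_dvd _)
  have hjq0 : jq ≠ 0 := hjq ▸ H873.jE_ne_zero E (M * q) q (dvd_mul_left q M)
  have hcinv : (j * jq)⁻¹ - j⁻¹ ^ (q + 1) = -(jq - j ^ q) * (j⁻¹ * jq⁻¹ * j⁻¹ ^ q) := by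
    have hjqb : jq * jq⁻¹ = 1 := mul_inv_cancel₀ hjq0
    have hpow : j ^ q * j⁻¹ ^ q = 1 := by rw [← mul_pow, mul_inv_cancel₀ hj0, one_pow]
    have h1 : -(jq - j ^ q) * (j⁻¹ * jq⁻¹ * j⁻¹ ^ q) =
        (j ^ q * j⁻¹ ^ q) * (j⁻¹ * jq⁻¹) - (jq * jq⁻¹) * j⁻¹ ^ (q + 1) := by ring
    rw [h1, hpow, hjqb, mul_inv]
    ring
  rcases hy with ⟨rfl, rfl⟩ | ⟨rfl, rfl⟩
  · -- finite chart
    refine normal_side P E M q w hS VM hVM V hL2.1 hRV (αE E M q)
      (fun g hg => alpha_mem P E M q hVM hV hg) (hL11 hS VM V hVM hV) _ _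
      (hL2M.2.2 1 (one_dvd M)).1 ?_ ?_ ?_ hgood p hp
    · rw [hx]
      exact V.mul_mem _ _ hjV.1 hjqV.1
    · rw [map_pow, hαj, hx]
      have : j * jq - j ^ (q + 1) = (jq - j ^ q) * j := by ring
      rw [this]
      exact inW_mul_right hfrob hjV.1
    · rw [hαj, hj]
      exact (mem_chart_iff P E (M * q) _ _).1 hL13.1
  · -- chart at infinity
    refine normal_side P E M q w hS VM hVM V hL2.1 hRV (αE E M q)
      (fun g hg => alpha_mem P E M q hVM hV hg) (hL11 hS VM V hVM hV) _ _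
      (hL2M.2.2 1 (one_dvd M)).2 ?_ ?_ ?_ hgood p hp
    · rw [hx, mul_inv]
      exact V.mul_mem _ _ hjV.2 hjqV.2
    · rw [map_pow, map_inv₀, hαj, hx]
      rw [hcinv]
      exact inW_mul_right (inW_neg hfrob)
        (V.mul_mem _ _ (V.mul_mem _ _ hjV.2 hjqV.2) (pow_mem hjV.2 q))
    · rw [map_inv₀, hαj, hj]
      exact (mem_chart_iff P E (M * q) _ _).1 hL13.2.2.1

section Comap

variable {P E} {N : ℕ} {V : ValuationSubring (_root_.Fermat.Agent.A2.Mod.FE E N)} {w}

theorem isUnif_comap (W : _root_.Fermat.Agent.A2.Mod.FE E N ≃ₐ[E] _root_.Fermat.Agent.A2.Mod.FE E N) (hU : H48.IsUnif V (cE P E N w)) :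
    H48.IsUnif (V.comap (W : _root_.Fermat.Agent.A2.Mod.FE E N →+* _root_.Fermat.Agent.A2.Mod.FE E N)) (cE P E N w) := by
  have hWc : W (cE P E N w) = cE P E N w := W.commutes _
  refine ⟨?_, ?_, ?_⟩
  · rw [ValuationSubring.mem_comap]
    show W (cE P E N w) ∈ V
    rw [hWc]
    exact hU.mem
  · rw [ValuationSubring.mem_comap]
    show ¬ W (cE P E N w)⁻¹ ∈ V
    rw [map_inv₀, hWc]
    exact hU.inv_not_mem
  · intro f hf hfinv
    rw [ValuationSubring.mem_comap] at hf hfinv ⊢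
    show W (f * (cE P E N w)⁻¹) ∈ V
    rw [map_mul, map_inv₀, hWc]
    refine hU.gen _ hf ?_
    have : (W f)⁻¹ = W f⁻¹ := (map_inv₀ W f).symm
    rw [this]
    exact hfinv

theorem inW_comap_iff (W : _root_.Fermat.Agent.A2.Mod.FE E N ≃ₐ[E] _root_.Fermat.Agent.A2.Mod.FE E N) (f : _root_.Fermat.Agent.A2.Mod.FE E N) :
    InW P E N (V.comap (W : _root_.Fermat.Agent.A2.Mod.FE E N →+* _root_.Fermat.Agent.A2.Mod.FE E N)) w f ↔ InW P E N V w (W f) := by
  have hWc : W (cE P E N w) = cE P E N w := W.commutes _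
  unfold InW
  rw [ValuationSubring.mem_comap]
  show W (f * (cE P E N w)⁻¹) ∈ V ↔ _
  rw [map_mul, map_inv₀, hWc]

end Comap

/-- **S2 on `C₀`.** -/
theorem normal_zero (hL7 : FrickeStableStatement P E M q w) (hL11 : ResInfStatement P E M q w)
    (hS : Setting P E M q w)
    (VM : ValuationSubring (_root_.Fermat.Agent.A2.Mod.FE E M)) (V : ValuationSubring (_root_.Fermat.Agent.A2.Mod.FE E (M * q)))
    (W : _root_.Fermat.Agent.A2.Mod.FE E (M * q) ≃ₐ[E] _root_.Fermat.Agent.A2.Mod.FE E (M * q))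
    (hVM : IsVinf P E M VM) (hV : IsVinf P E (M * q) V) (hW : IsFricke E (M * q) W)
    (yM : _root_.Fermat.Agent.A2.Mod.FE E M) (y : _root_.Fermat.Agent.A2.Mod.FE E (M * q)) (hy : IsCoordPair E M q yM y)
    (hgood : GoodRedAt P E M w VM yM)
    (p : Ideal (chartAlg P E (M * q) y))
    (hp : IsCut P E (M * q) w (V.comap (W : _root_.Fermat.Agent.A2.Mod.FE E (M * q) →+* _root_.Fermat.Agent.A2.Mod.FE E (M * q)))
      (chartAlg P E (M * q) y) p) :
    IsIntegrallyClosed (chartAlg P E (M * q) y ⧸ p) := by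
  have hN : M * q ≠ 0 := Nat.mul_ne_zero hS.M_ne_zero hS.q_prime.ne_zero
  haveI : NeZero (M * q) := ⟨hN⟩
  have hL2 := H553.vinfBasic P E w (M * q) hN hS.dvr hS.unif V hV
  have hL2M := H553.vinfBasic P E w M hS.M_ne_zero hS.dvr hS.unif VM hVM
  have hL13 := H873.chartCompat P E M q hS.q_prime
  have hU0 := isUnif_comap W hL2.1
  have hWM := H751.isFricke_frickeE E M
  have hL5 := H751.frickeCompat E M q (H751.frickeE E M) W hWM hW
  have hRV0 : ∀ r : _root_.Fermat.Agent.A2.Mod.RE P E, algebraMap (_root_.Fermat.Agent.A2.Mod.RE P E) (_root_.Fermat.Agent.A2.Mod.FE E (M * q)) r ∈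
      V.comap (W : _root_.Fermat.Agent.A2.Mod.FE E (M * q) →+* _root_.Fermat.Agent.A2.Mod.FE E (M * q)) := fun r => by
    rw [ValuationSubring.mem_comap]
    show W (algebraMap E (_root_.Fermat.Agent.A2.Mod.FE E (M * q)) (r : E)) ∈ V
    rw [W.commutes]
    exact (hL2.2.1 (r : E)).mpr r.2
  -- notation
  obtain ⟨j, hj⟩ : ∃ j : _root_.Fermat.Agent.A2.Mod.FE E (M * q), j = jE E (M * q) 1 (one_dvd _) := ⟨_, rfl⟩
  obtain ⟨jq, hjq⟩ : ∃ jq : _root_.Fermat.Agent.A2.Mod.FE E (M * q), jq = jE E (M * q) q (dvd_mul_left q M) := ⟨_, rfl⟩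
  obtain ⟨jM, hjM⟩ : ∃ jM : _root_.Fermat.Agent.A2.Mod.FE E (M * q), jM = jE E (M * q) M (dvd_mul_right M q) := ⟨_, rfl⟩
  obtain ⟨jN, hjN⟩ : ∃ jN : _root_.Fermat.Agent.A2.Mod.FE E (M * q), jN = jE E (M * q) (M * q) dvd_rfl := ⟨_, rfl⟩
  have hjMV : jM ∈ V ∧ jM⁻¹ ∈ V := hjM ▸ hL2.2.2 M (dvd_mul_right M q)
  have hjNV : jN ∈ V ∧ jN⁻¹ ∈ V := hjN ▸ hL2.2.2 (M * q) dvd_rfl
  have hx : xE E M q = j * jq := by rw [hj, hjq]; rfl
  have hWj : W j = jN := by
    rw [hj, hjN]
    exact hW.1 1 (M * q) (one_dvd _) dvd_rfl (one_mul _)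
  have hWjq : W jq = jM := by
    rw [hjq, hjM]
    exact hW.1 q M (dvd_mul_left q M) (dvd_mul_right M q) (mul_comm q M)
  have hWx : W (xE E M q) = jN * jM := by rw [hx, map_mul, hWj, hWjq]
  have hβj : βE E M q (jE E M 1 (one_dvd _)) = jq := by
    rw [hjq, H751.beta_jE E M q 1 (one_dvd M)]
    exact H751.jE_congr E (M * q) (mul_one q) _ _
  have hWβj : W (βE E M q (jE E M 1 (one_dvd _))) = jM := by rw [hβj, hWjq]
  have hfrob : InW P E (M * q) V w (jN - jM ^ q) := by
    have h := frobCong (P := P) (E := E) (w := w) hS.q_prime hS.dvr hS.unif hS.lies_over hN hV M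
      (dvd_mul_right M q) dvd_rfl
    rw [hjN, hjM]
    exact h
  have hjM0 : jM ≠ 0 := hjM ▸ H873.jE_ne_zero E (M * q) M (dvd_mul_right M q)
  have hjN0 : jN ≠ 0 := hjN ▸ H873.jE_ne_zero E (M * q) (M * q) dvd_rfl
  have hcinv : (jN * jM)⁻¹ - jM⁻¹ ^ (q + 1) = -(jN - jM ^ q) * (jM⁻¹ * jN⁻¹ * jM⁻¹ ^ q) := by
    have hb : jN * jN⁻¹ = 1 := mul_inv_cancel₀ hjN0
    have hpow : jM ^ q * jM⁻¹ ^ q = 1 := by rw [← mul_pow, mul_inv_cancel₀ hjM0, one_pow]
    have h1 : -(jN - jM ^ q) * (jM⁻¹ * jN⁻¹ * jM⁻¹ ^ q) =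
        (jM ^ q * jM⁻¹ ^ q) * (jM⁻¹ * jN⁻¹) - (jN * jN⁻¹) * jM⁻¹ ^ (q + 1) := by ring
    rw [h1, hpow, hb, mul_inv]
    ring
  -- `β` maps `V∞_M` into `V₀`
  have hβV : ∀ g ∈ VM, βE E M q g ∈ V.comap (W : _root_.Fermat.Agent.A2.Mod.FE E (M * q) →+* _root_.Fermat.Agent.A2.Mod.FE E (M * q)) := by
    intro g hg
    rw [ValuationSubring.mem_comap]
    show W (βE E M q g) ∈ V
    rw [(hL5 g).2]
    exact alpha_mem P E M q hVM hV (hL7 hS VM (H751.frickeE E M) hVM hWM g hg)
  -- residue degree one on `C₀`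
  have hres : ∀ f ∈ V.comap (W : _root_.Fermat.Agent.A2.Mod.FE E (M * q) →+* _root_.Fermat.Agent.A2.Mod.FE E (M * q)), ∃ g ∈ VM,
      InW P E (M * q) (V.comap (W : _root_.Fermat.Agent.A2.Mod.FE E (M * q) →+* _root_.Fermat.Agent.A2.Mod.FE E (M * q))) w (f - βE E M q g) := by
    intro f hf
    rw [ValuationSubring.mem_comap] at hf
    obtain ⟨g', hg', h⟩ := hL11 hS VM V hVM hV (W f) hf
    refine ⟨H751.frickeE E M g', hL7 hS VM (H751.frickeE E M) hVM hWM g' hg', ?_⟩
    rw [inW_comap_iff, map_sub, (hL5 _).2, hWM.2]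
    exact h
  rcases hy with ⟨rfl, rfl⟩ | ⟨rfl, rfl⟩
  · -- finite chart
    refine normal_side P E M q w hS VM hVM _ hU0 hRV0 (βE E M q) hβV hres _ _
      (hL2M.2.2 1 (one_dvd M)).1 ?_ ?_ ?_ hgood p hp
    · rw [ValuationSubring.mem_comap]
      show W (xE E M q) ∈ V
      rw [hWx]
      exact V.mul_mem _ _ hjNV.1 hjMV.1
    · rw [inW_comap_iff, map_sub, hWx, map_pow, map_pow, hWβj]
      have : jN * jM - jM ^ (q + 1) = (jN - jM ^ q) * jM := by ring
      rw [this]
      exact inW_mul_right hfrob hjMV.1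
    · rw [hβj, hjq]
      exact (mem_chart_iff P E (M * q) _ _).1 hL13.2.1
  · -- chart at infinity
    refine normal_side P E M q w hS VM hVM _ hU0 hRV0 (βE E M q) hβV hres _ _
      (hL2M.2.2 1 (one_dvd M)).2 ?_ ?_ ?_ hgood p hp
    · rw [ValuationSubring.mem_comap]
      show W (xE E M q)⁻¹ ∈ V
      rw [map_inv₀, hWx, mul_inv]
      exact V.mul_mem _ _ hjNV.2 hjMV.2
    · rw [inW_comap_iff, map_sub, map_inv₀, hWx, map_pow, map_pow, map_inv₀, map_inv₀, hWβj, hcinv]
      exact inW_mul_right (inW_neg hfrob)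
        (V.mul_mem _ _ (V.mul_mem _ _ hjMV.2 hjNV.2) (pow_mem hjMV.2 q))
    · rw [map_inv₀, hβj, hjq]
      exact (mem_chart_iff P E (M * q) _ _).1 hL13.2.2.2

/-- **MODASM sub-assembly S2** from the leaves L7 (`FrickeStable`) and L11 (`ResInf`);
the leaves L2, L4, L5, L13 are taken from main (H553, H751, H873). -/
theorem s2_of_leaves (hL7 : FrickeStableStatement P E M q w)
    (hL11 : ResInfStatement P E M q w) : S2Statement P E M q w := by
  intro hS VM V W hVM hV hW yM y hy hgood p₁ p₂ hc₁ hc₂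
  exact ⟨normal_inf P E M q w hL11 hS VM V hVM hV yM y hy hgood p₁ hc₁,
    normal_zero P E M q w hL7 hL11 hS VM V W hVM hV hW yM y hy hgood p₂ hc₂⟩

end Fermat.Agent.A2.Mod.H142

end
end
-- ===== PACK-END A2/Mod/H142/S2.lean

-- ===== PACK-BEGIN A2/Mod/H189/GoodRedT.lean
section






/-!
# Cell A2 / MOD, GOODRED part G3 (helper189): `GoodRedAt` for `j`, `1/j` from the Hauptmodul charts

The level-`M` hypothesis `Mod.GoodRedAt P E M w VM y` of MODASM (`A2/Mod/Spec.lean`) is needed for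
`y = j` and `y = j⁻¹`.  Row S18 proves good reduction in the coordinate `j` only for residue
characteristic `≥ 5`; for `q = 3` (`2 ∣ M`) and `q = 2` (`3 ∣ M`) it works with the Hauptmodul
`t = t₂` (`j t² = (t + 256)³`) resp. `t = t₃` (`j t³ = (t + 27)(t + 243)³`).  Here:

* `mem_chart_iff`       : the frozen `Mod.chart` is the integral closure of `R_E[y]`;
* `goodRedAt_iff_goodOn`: `Mod.GoodRedAt` is `H189.GoodOn` (the Mathlib-only form);
* `goodRedAt_j_of_t2`, `goodRedAt_j_of_t3` : `GoodRedAt` at `t`, `t⁻¹` ⟹ `GoodRedAt` at `j`, `j⁻¹`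
  (unit conditions as hypotheses);
* `goodRedAt_j_of_t2_polar`, `goodRedAt_j_of_t3_polar` : the same, with the unit conditions
  discharged by L3 (`H816.vinfGauss`) and L2 (`H708.vinfBasic`) for a polar `t = t⁻¹·(unit + …)`.
-/

set_option autoImplicit false
set_option synthInstance.maxHeartbeats 400000
set_option maxHeartbeats 1600000

noncomputable section

namespace Fermat.Agent.A2.Mod.H189

open ModularCurve HahnSeries Polynomial Fermat.Agent.A2 Fermat.Agent.A2.Mod

section Chart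

variable (P : ValuationSubring _root_.Fermat.Agent.A2.Mod.Qb) (E : IntermediateField ℚ _root_.Fermat.Agent.A2.Mod.Qb) (N : ℕ)

/-- `R_E[X] → R_E[y] ⊆ F`. -/
def evAdjoin (y : _root_.Fermat.Agent.A2.Mod.FE E N) :
    Polynomial (_root_.Fermat.Agent.A2.Mod.RE P E) →+* Algebra.adjoin (_root_.Fermat.Agent.A2.Mod.RE P E) ({y} : Set (_root_.Fermat.Agent.A2.Mod.FE E N)) :=
  ((Polynomial.aeval (R := _root_.Fermat.Agent.A2.Mod.RE P E) y).codRestrict (Algebra.adjoin (_root_.Fermat.Agent.A2.Mod.RE P E) ({y} : Set (_root_.Fermat.Agent.A2.Mod.FE E N)))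
    (fun p => by
      rw [Algebra.adjoin_singleton_eq_range_aeval]
      exact ⟨p, rfl⟩)).toRingHom

theorem evAdjoin_surjective (y : _root_.Fermat.Agent.A2.Mod.FE E N) : Function.Surjective (evAdjoin P E N y) := by
  rintro ⟨a, ha⟩
  rw [Algebra.adjoin_singleton_eq_range_aeval] at ha
  obtain ⟨p, hp⟩ := ha
  exact ⟨p, Subtype.ext hp⟩

theorem algebraMap_comp_evAdjoin (y : _root_.Fermat.Agent.A2.Mod.FE E N) :
    (algebraMap (Algebra.adjoin (_root_.Fermat.Agent.A2.Mod.RE P E) ({y} : Set (_root_.Fermat.Agent.A2.Mod.FE E N))) (_root_.Fermat.Agent.A2.Mod.FE E N)).comp (evAdjoin P E N y)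
      = Polynomial.eval₂RingHom ((algebraMap E (_root_.Fermat.Agent.A2.Mod.FE E N)).comp (_root_.Fermat.Agent.A2.Mod.RE P E).subtype) y := by
  refine Polynomial.ringHom_ext (fun a => ?_) ?_
  · show (Polynomial.aeval (R := _root_.Fermat.Agent.A2.Mod.RE P E) y) (C a) = _
    rw [Polynomial.aeval_C, Polynomial.coe_eval₂RingHom, Polynomial.eval₂_C]
    rfl
  · show (Polynomial.aeval (R := _root_.Fermat.Agent.A2.Mod.RE P E) y) X = _
    rw [Polynomial.aeval_X, Polynomial.coe_eval₂RingHom, Polynomial.eval₂_X]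

/-- The frozen chart of `Mod/Spec.lean` is the integral closure of `R_E[y]`. -/
theorem mem_chart_iff {y f : _root_.Fermat.Agent.A2.Mod.FE E N} :
    f ∈ chart P E N y ↔ IsIntegral (Algebra.adjoin (_root_.Fermat.Agent.A2.Mod.RE P E) ({y} : Set (_root_.Fermat.Agent.A2.Mod.FE E N))) f := by
  constructor
  · rintro ⟨p, hp, hpf⟩
    refine ⟨p.map (evAdjoin P E N y), hp.map _, ?_⟩
    rw [eval₂_map, algebraMap_comp_evAdjoin]
    exact hpf
  · rintro ⟨q, hq, hqf⟩
    have hl : q ∈ lifts (evAdjoin P E N y) := by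
      rw [lifts_iff_coeff_lifts]
      intro n
      exact evAdjoin_surjective P E N y _
    obtain ⟨p, hpq, -, hp⟩ := lifts_and_degree_eq_and_monic hl hq
    refine ⟨p, hp, ?_⟩
    rw [← algebraMap_comp_evAdjoin, ← eval₂_map, hpq]
    exact hqf

variable {N} in
/-- `Mod.GoodRedAt` in Mathlib-only form. -/
theorem goodRedAt_iff_goodOn (w : _root_.Fermat.Agent.A2.Mod.RE P E) (VM : ValuationSubring (_root_.Fermat.Agent.A2.Mod.FE E N)) (y : _root_.Fermat.Agent.A2.Mod.FE E N) :
    GoodRedAt P E N w VM y ↔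
      GoodOn VM.toSubring (cE P E N w) (Algebra.adjoin (_root_.Fermat.Agent.A2.Mod.RE P E) ({y} : Set (_root_.Fermat.Agent.A2.Mod.FE E N))) := by
  constructor
  · intro h
    refine ⟨fun b hb hbw => ?_, fun f hf hint => ?_⟩
    · exact (mem_chart_iff P E N).1 (h.qep b ((mem_chart_iff P E N).2 hb) hbw)
    · obtain ⟨n, c, hc, hcw⟩ := hint
      obtain ⟨b, hb, hbw⟩ := h.normal f hf ⟨n, c, fun i => (mem_chart_iff P E N).2 (hc i), hcw⟩
      exact ⟨b, (mem_chart_iff P E N).1 hb, hbw⟩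
  · rintro ⟨hq, hn⟩
    refine ⟨fun b hb hbw => ?_, fun f hf hint => ?_⟩
    · exact (mem_chart_iff P E N).2 (hq b ((mem_chart_iff P E N).1 hb) hbw)
    · obtain ⟨n, c, hc, hcw⟩ := hint
      obtain ⟨b, hb, hbw⟩ := hn f hf ⟨n, c, fun i => (mem_chart_iff P E N).1 (hc i), hcw⟩
      exact ⟨b, (mem_chart_iff P E N).2 hb, hbw⟩

end Chart

section Main

variable (P : ValuationSubring _root_.Fermat.Agent.A2.Mod.Qb) (E : IntermediateField ℚ _root_.Fermat.Agent.A2.Mod.Qb) (M : ℕ) (w : _root_.Fermat.Agent.A2.Mod.RE P E)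

/-- `n ≡ 1 mod q` is a unit of `R_E` when `P` lies over `q`. -/
theorem exists_inv_of_liesOver {q : ℕ} (hP : P.LiesOverPrime q) (n k : ℕ) (hn : n = q * k + 1) :
    ∃ i : _root_.Fermat.Agent.A2.Mod.RE P E, (n : _root_.Fermat.Agent.A2.Mod.RE P E) * i = 1 := by
  have hq : P.valuation (q : _root_.Fermat.Agent.A2.Mod.Qb) < 1 := by
    have h : (q : _root_.Fermat.Agent.A2.Mod.Qb) ∈ P.nonunits := hP
    exact (P.mem_nonunits_iff).1 h
  have hk : P.valuation ((q : _root_.Fermat.Agent.A2.Mod.Qb) * (k : _root_.Fermat.Agent.A2.Mod.Qb)) < 1 := by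
    calc P.valuation ((q : _root_.Fermat.Agent.A2.Mod.Qb) * (k : _root_.Fermat.Agent.A2.Mod.Qb)) = P.valuation (q : _root_.Fermat.Agent.A2.Mod.Qb) * P.valuation (k : _root_.Fermat.Agent.A2.Mod.Qb) :=
          map_mul _ _ _
      _ ≤ P.valuation (q : _root_.Fermat.Agent.A2.Mod.Qb) * 1 := by
          gcongr
          exact (P.valuation_le_one_iff _).2 (natCast_mem P k)
      _ = P.valuation (q : _root_.Fermat.Agent.A2.Mod.Qb) := mul_one _
      _ < 1 := hq
  have hval : P.valuation (n : _root_.Fermat.Agent.A2.Mod.Qb) = 1 := by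
    have e : (n : _root_.Fermat.Agent.A2.Mod.Qb) = 1 + (q : _root_.Fermat.Agent.A2.Mod.Qb) * (k : _root_.Fermat.Agent.A2.Mod.Qb) := by
      rw [hn]
      push_cast
      ring
    rw [e, ← map_one P.valuation]
    exact Valuation.map_add_eq_of_lt_left _ (by rw [map_one]; exact hk)
  have hinv : ((n : _root_.Fermat.Agent.A2.Mod.Qb))⁻¹ ∈ P := by
    refine (P.valuation_le_one_iff _).1 ?_
    rw [map_inv₀, hval, inv_one]
  have hn0 : (n : E) ≠ 0 := by
    have : n ≠ 0 := by omega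
    exact_mod_cast this
  refine ⟨⟨((n : E))⁻¹, ?_⟩, Subtype.ext ?_⟩
  · show algebraMap E _root_.Fermat.Agent.A2.Mod.Qb ((n : E))⁻¹ ∈ P
    rw [map_inv₀, map_natCast]
    exact hinv
  · show ((n : _root_.Fermat.Agent.A2.Mod.RE P E) : E) * ((n : E))⁻¹ = 1
    have : ((n : _root_.Fermat.Agent.A2.Mod.RE P E) : E) = (n : E) := by simp
    rw [this, mul_inv_cancel₀ hn0]

/-- **`t₂ → j`** (`q = 3`, `2 ∣ M`): good reduction in the charts of the Hauptmodul `t` of `X₀(2)`
gives good reduction in the charts of `j`. -/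
theorem goodRedAt_j_of_t2 (i : _root_.Fermat.Agent.A2.Mod.RE P E) (hi : (256 : _root_.Fermat.Agent.A2.Mod.RE P E) * i = 1)
    (VM : ValuationSubring (_root_.Fermat.Agent.A2.Mod.FE E M))
    (hRV : ∀ r : _root_.Fermat.Agent.A2.Mod.RE P E, algebraMap (_root_.Fermat.Agent.A2.Mod.RE P E) (_root_.Fermat.Agent.A2.Mod.FE E M) r ∈ VM)
    (t : _root_.Fermat.Agent.A2.Mod.FE E M) (hrel : jE E M 1 (one_dvd _) * t ^ 2 = (t + 256) ^ 3)
    (htV : t ∈ VM) (htV' : t⁻¹ ∈ VM) (huV : (t + 256)⁻¹ ∈ VM)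
    (hg : GoodRedAt P E M w VM t) (hg' : GoodRedAt P E M w VM t⁻¹) :
    GoodRedAt P E M w VM (jE E M 1 (one_dvd _)) ∧
      GoodRedAt P E M w VM (jE E M 1 (one_dvd _))⁻¹ := by
  rw [goodRedAt_iff_goodOn] at hg hg' ⊢
  rw [goodRedAt_iff_goodOn]
  have hj := H873.jE_ne_zero E M 1 (one_dvd _)
  exact ⟨goodOn_j_of_t2 i hi hj hrel htV htV' hg,
    goodOn_jinv_of_t2 i hi hj hrel hRV htV htV' huV hg hg'⟩

/-- **`t₃ → j`** (`q = 2`, `3 ∣ M`): good reduction in the charts of the Hauptmodul `t` of `X₀(3)`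
gives good reduction in the charts of `j`. -/
theorem goodRedAt_j_of_t3 (i : _root_.Fermat.Agent.A2.Mod.RE P E) (hi : (3 : _root_.Fermat.Agent.A2.Mod.RE P E) * i = 1)
    (VM : ValuationSubring (_root_.Fermat.Agent.A2.Mod.FE E M))
    (hRV : ∀ r : _root_.Fermat.Agent.A2.Mod.RE P E, algebraMap (_root_.Fermat.Agent.A2.Mod.RE P E) (_root_.Fermat.Agent.A2.Mod.FE E M) r ∈ VM)
    (t : _root_.Fermat.Agent.A2.Mod.FE E M) (hrel : jE E M 1 (one_dvd _) * t ^ 3 = (t + 27) * (t + 243) ^ 3)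
    (htV : t ∈ VM) (htV' : t⁻¹ ∈ VM) (hu₁V : (t + 27)⁻¹ ∈ VM) (hu₂V : (t + 243)⁻¹ ∈ VM)
    (hg : GoodRedAt P E M w VM t) (hg' : GoodRedAt P E M w VM t⁻¹) :
    GoodRedAt P E M w VM (jE E M 1 (one_dvd _)) ∧
      GoodRedAt P E M w VM (jE E M 1 (one_dvd _))⁻¹ := by
  rw [goodRedAt_iff_goodOn] at hg hg' ⊢
  rw [goodRedAt_iff_goodOn]
  have hj := H873.jE_ne_zero E M 1 (one_dvd _)
  exact ⟨goodOn_j_of_t3 i hi hj hrel htV htV' hg,
    goodOn_jinv_of_t3 i hi hj hrel hRV htV htV' hu₁V hu₂V hg hg'⟩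

/-! ### Unit conditions from L2 and L3 -/

theorem not_C_dvd_X_add_C {w : _root_.Fermat.Agent.A2.Mod.RE P E} (hw : Irreducible w) (c : _root_.Fermat.Agent.A2.Mod.RE P E) :
    ¬ (Polynomial.C w : Polynomial (_root_.Fermat.Agent.A2.Mod.RE P E)) ∣ Polynomial.X + Polynomial.C c := by
  intro h
  rw [Polynomial.C_dvd_iff_dvd_coeff] at h
  have h1 := h 1
  rw [Polynomial.coeff_add, Polynomial.coeff_X_one, Polynomial.coeff_C] at h1
  simp only [one_ne_zero, if_false, add_zero] at h1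
  exact hw.not_isUnit (isUnit_of_dvd_one h1)

theorem ev_X_add_C (t : _root_.Fermat.Agent.A2.Mod.FE E M) (c : _root_.Fermat.Agent.A2.Mod.RE P E) :
    ev P E M t (Polynomial.X + Polynomial.C c) = t + algebraMap (_root_.Fermat.Agent.A2.Mod.RE P E) (_root_.Fermat.Agent.A2.Mod.FE E M) c := by
  unfold ev
  rw [Polynomial.eval₂_add, Polynomial.eval₂_X, Polynomial.eval₂_C]
  rfl

/-- For a polar `t = t⁻¹ · (unit + …)` all `t + c`, `c ∈ R_E`, are units of `V∞` (L3). -/
theorem add_const_unit_of_polar (hM : M ≠ 0) (hdvr : IsDiscreteValuationRing (_root_.Fermat.Agent.A2.Mod.RE P E))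
    (hw : Irreducible w) (VM : ValuationSubring (_root_.Fermat.Agent.A2.Mod.FE E M)) (hVM : IsVinf P E M VM)
    (t : _root_.Fermat.Agent.A2.Mod.FE E M) (U : LaurentSeries (_root_.Fermat.Agent.A2.Mod.RE P E))
    (hU : (t : LaurentSeries E) = H708.incl (_root_.Fermat.Agent.A2.Mod.RE P E) U)
    (hlow : ∀ n : ℤ, n < -1 → U.coeff n = 0) (htop : IsUnit (U.coeff (-1))) (c : _root_.Fermat.Agent.A2.Mod.RE P E) :
    t + algebraMap (_root_.Fermat.Agent.A2.Mod.RE P E) (_root_.Fermat.Agent.A2.Mod.FE E M) c ∈ VM ∧ (t + algebraMap (_root_.Fermat.Agent.A2.Mod.RE P E) (_root_.Fermat.Agent.A2.Mod.FE E M) c)⁻¹ ∈ VM := by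
  have h := H816.vinfGauss P E w M hM hdvr hw VM hVM t U 1 one_pos hU
    (by simpa using hlow) (by simpa using htop) (Polynomial.X + Polynomial.C c)
    (not_C_dvd_X_add_C P E hw c)
  rwa [ev_X_add_C] at h

theorem const_mem_of_isVinf (hM : M ≠ 0) (hdvr : IsDiscreteValuationRing (_root_.Fermat.Agent.A2.Mod.RE P E))
    (hw : Irreducible w) (VM : ValuationSubring (_root_.Fermat.Agent.A2.Mod.FE E M)) (hVM : IsVinf P E M VM)
    (r : _root_.Fermat.Agent.A2.Mod.RE P E) : algebraMap (_root_.Fermat.Agent.A2.Mod.RE P E) (_root_.Fermat.Agent.A2.Mod.FE E M) r ∈ VM :=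
  ((H708.vinfBasic P E w M hM hdvr hw VM hVM).2.1 (r : E)).2 r.2

/-- **`t₂ → j`**, polar form: `P` over `3`, `t` the image of an integral series `t⁻¹(unit + …)`
with `j t² = (t + 256)³`. -/
theorem goodRedAt_j_of_t2_polar (hP : P.LiesOverPrime 3) (hM : M ≠ 0)
    (hdvr : IsDiscreteValuationRing (_root_.Fermat.Agent.A2.Mod.RE P E)) (hw : Irreducible w)
    (VM : ValuationSubring (_root_.Fermat.Agent.A2.Mod.FE E M)) (hVM : IsVinf P E M VM)
    (t : _root_.Fermat.Agent.A2.Mod.FE E M) (U : LaurentSeries (_root_.Fermat.Agent.A2.Mod.RE P E))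
    (hU : (t : LaurentSeries E) = H708.incl (_root_.Fermat.Agent.A2.Mod.RE P E) U)
    (hlow : ∀ n : ℤ, n < -1 → U.coeff n = 0) (htop : IsUnit (U.coeff (-1)))
    (hrel : jE E M 1 (one_dvd _) * t ^ 2 = (t + 256) ^ 3)
    (hg : GoodRedAt P E M w VM t) (hg' : GoodRedAt P E M w VM t⁻¹) :
    GoodRedAt P E M w VM (jE E M 1 (one_dvd _)) ∧
      GoodRedAt P E M w VM (jE E M 1 (one_dvd _))⁻¹ := by
  obtain ⟨i, hi⟩ := exists_inv_of_liesOver P E hP 256 85 (by norm_num)
  have hi' : (256 : _root_.Fermat.Agent.A2.Mod.RE P E) * i = 1 := by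
    rw [← hi]
    norm_num
  have h0 := add_const_unit_of_polar P E M w hM hdvr hw VM hVM t U hU hlow htop 0
  rw [map_zero, add_zero] at h0
  have h256 := add_const_unit_of_polar P E M w hM hdvr hw VM hVM t U hU hlow htop 256
  rw [map_ofNat] at h256
  exact goodRedAt_j_of_t2 P E M w i hi' VM
    (const_mem_of_isVinf P E M w hM hdvr hw VM hVM) t hrel h0.1 h0.2 h256.2 hg hg'

/-- **`t₃ → j`**, polar form: `P` over `2`, `t` the image of an integral series `t⁻¹(unit + …)`
with `j t³ = (t + 27)(t + 243)³`. -/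
theorem goodRedAt_j_of_t3_polar (hP : P.LiesOverPrime 2) (hM : M ≠ 0)
    (hdvr : IsDiscreteValuationRing (_root_.Fermat.Agent.A2.Mod.RE P E)) (hw : Irreducible w)
    (VM : ValuationSubring (_root_.Fermat.Agent.A2.Mod.FE E M)) (hVM : IsVinf P E M VM)
    (t : _root_.Fermat.Agent.A2.Mod.FE E M) (U : LaurentSeries (_root_.Fermat.Agent.A2.Mod.RE P E))
    (hU : (t : LaurentSeries E) = H708.incl (_root_.Fermat.Agent.A2.Mod.RE P E) U)
    (hlow : ∀ n : ℤ, n < -1 → U.coeff n = 0) (htop : IsUnit (U.coeff (-1)))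
    (hrel : jE E M 1 (one_dvd _) * t ^ 3 = (t + 27) * (t + 243) ^ 3)
    (hg : GoodRedAt P E M w VM t) (hg' : GoodRedAt P E M w VM t⁻¹) :
    GoodRedAt P E M w VM (jE E M 1 (one_dvd _)) ∧
      GoodRedAt P E M w VM (jE E M 1 (one_dvd _))⁻¹ := by
  obtain ⟨i, hi⟩ := exists_inv_of_liesOver P E hP 3 1 (by norm_num)
  have hi' : (3 : _root_.Fermat.Agent.A2.Mod.RE P E) * i = 1 := by
    rw [← hi]
    norm_num
  have h0 := add_const_unit_of_polar P E M w hM hdvr hw VM hVM t U hU hlow htop 0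
  rw [map_zero, add_zero] at h0
  have h27 := add_const_unit_of_polar P E M w hM hdvr hw VM hVM t U hU hlow htop 27
  rw [map_ofNat] at h27
  have h243 := add_const_unit_of_polar P E M w hM hdvr hw VM hVM t U hU hlow htop 243
  rw [map_ofNat] at h243
  exact goodRedAt_j_of_t3 P E M w i hi' VM
    (const_mem_of_isVinf P E M w hM hdvr hw VM hVM) t hrel h0.1 h0.2 h27.2 h243.2 hg hg'

end Main

end Fermat.Agent.A2.Mod.H189

end
end
-- ===== PACK-END A2/Mod/H189/GoodRedT.lean

-- ===== PACK-BEGIN S36/H922/UnitBar.lean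
section





/-!
# S36 engine / cell REG, route R4 (MID-UNIT): the unit polynomial modulo `p`  — helper922

Formal `q`-series only (Mathlib + S28).  Let `Ψ ∈ ℤ[Y][X]` be the unit polynomial of level `p`
(`S15.H482.exists_unitPoly_int` / `S28.H589.descent`): monic of degree `p + 1` with

* `Ψ(j ; p¹² Δ(q^p)/Δ(q)) = 0`,
* `Ψ(j(q^p) ; Δ(q)/Δ(q^p)) = 0`.

Then modulo `p`

  `Ψ̄ = X ^ (p+1) - D(Y) · X`,   `D(j̄) = Δ̄ ^ (1 - p) = Δ̄ · (Δ̄⁻¹) ^ p`.

Consequence (`h922_unit_roots_congr`): in ANY commutative ring `κ` of characteristic `p` which is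
reduced, two UNIT roots `b, g` of `Ψ̄(y ; X)` (for the same `y`) are EQUAL.  Applied to the residue
field of the valuation `V_mid` of `X₀(p² M')`, `y = j_p`, `b = β(U')`, `g = α(p¹²/U')`:
`β(U') ≡ α(p¹²/U') mod 𝔪_mid` — the residue of the modular unit along `mid`, with no Fricke
involution on residue fields and no expansion at the cusp `1/p`.
-/

set_option autoImplicit false

noncomputable section

open ModularCurve HahnSeries Polynomial

namespace Fermat.Agent.S36.H922

open Fermat.Agent.S28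

section Order

variable (k : Type*) [Field k]

theorem h922_deltaL_coeff (n : ℤ) :
    (deltaL k).coeff n
      = (HahnSeries.ofPowerSeries ℤ k (dedekindEtaUnit.map (Int.castRingHom k))).coeff (n - 1) := by
  rw [deltaL, HahnSeries.coeff_single_mul, one_mul]

theorem h922_deltaL_coeff_one : (deltaL k).coeff 1 = 1 := by
  rw [h922_deltaL_coeff]
  have : ((1 : ℤ) - 1) = ((0 : ℕ) : ℤ) := by norm_num
  rw [this, HahnSeries.ofPowerSeries_apply_coeff, PowerSeries.coeff_map,
    PowerSeries.coeff_zero_eq_constantCoeff_apply, constantCoeff_dedekindEtaUnit]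
  simp

theorem h922_deltaL_ne_zero : deltaL k ≠ 0 := by
  intro h
  have := h922_deltaL_coeff_one k
  rw [h, HahnSeries.coeff_zero] at this
  exact zero_ne_one this

theorem h922_order_deltaL : (deltaL k).order = 1 := by
  refine le_antisymm (HahnSeries.order_le_of_coeff_ne_zero ?_) ?_
  · rw [h922_deltaL_coeff_one]; exact one_ne_zero
  · by_contra hlt
    rw [not_le] at hlt
    refine (HahnSeries.coeff_order_eq_zero.not.mpr (h922_deltaL_ne_zero k)) ?_
    rw [h922_deltaL_coeff]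
    exact ModularCurve.ofPowerSeries_coeff_of_neg _ (by omega)

/-- `ḡ = Δ(q)/Δ(q^p)` over `k`. -/
def h922_g (p : ℕ) [NeZero p] : LaurentSeries k := deltaL k * qExpand k p (deltaInvL k)

theorem h922_g_mul (p : ℕ) [NeZero p] : h922_g k p * qExpand k p (deltaL k) = deltaL k := by
  rw [h922_g, mul_assoc, ← map_mul, mul_comm (deltaInvL k), h88_deltaL_mul_deltaInvL, map_one,
    mul_one]

theorem h922_g_ne_zero (p : ℕ) [NeZero p] : h922_g k p ≠ 0 := by
  intro h
  have := h922_g_mul k p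
  rw [h, zero_mul] at this
  exact h922_deltaL_ne_zero k this.symm

theorem h922_g_order_coprime (p : ℕ) [NeZero p] : IsCoprime (h922_g k p).order (p : ℤ) := by
  have hV : qExpand k p (deltaL k) ≠ 0 := by
    intro h
    have := h922_g_mul k p
    rw [h, mul_zero] at this
    exact h922_deltaL_ne_zero k this.symm
  obtain ⟨m, hm⟩ := Fermat.Agent.S28.H145.dvd_order_qExpand (k := k) p (deltaL k)
  have h1 : (h922_g k p * qExpand k p (deltaL k)).order
      = (h922_g k p).order + (qExpand k p (deltaL k)).order :=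
    HahnSeries.order_mul (h922_g_ne_zero k p) hV
  rw [h922_g_mul, h922_order_deltaL, hm] at h1
  exact ⟨1, m, by rw [one_mul]; linarith⟩

end Order

section Main

variable (p : ℕ) [hp : Fact p.Prime] [NeZero p]

/-- Reduction of coefficients `ℤ((q)) → 𝔽_p((q))`. -/
abbrev h922_red : LaurentSeries ℤ →+* LaurentSeries (ZMod p) :=
  coeffMap (Int.castRingHom (ZMod p))

/-- `Ψ mod p ∈ 𝔽_p[Y][X]`. -/
def h922_bar (Ψ : Polynomial (Polynomial ℤ)) : Polynomial (Polynomial (ZMod p)) :=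
  Ψ.map (Polynomial.mapRingHom (Int.castRingHom (ZMod p)))

theorem h922_red_comp_evalAt (y : LaurentSeries ℤ) :
    (h922_red p).comp (evalAt y) = evalAt (h922_red p y) := by
  apply Polynomial.ringHom_ext
  · intro a
    simp [evalAt]
  · simp [evalAt]

theorem h922_bar_eval₂ (Ψ : Polynomial (Polynomial ℤ)) (Y x : LaurentSeries (ZMod p)) :
    (h922_bar p Ψ).eval₂ (Polynomial.aeval (R := ZMod p) Y).toRingHom x
      = Ψ.eval₂ (evalAt Y) x := by
  rw [h922_bar, Polynomial.eval₂_map, h88_aeval_comp_mapRingHom]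

theorem h922_red_eval₂ (Ψ : Polynomial (Polynomial ℤ)) (y x : LaurentSeries ℤ) :
    h922_red p (Ψ.eval₂ (evalAt y) x) = Ψ.eval₂ (evalAt (h922_red p y)) (h922_red p x) := by
  rw [Polynomial.hom_eval₂, h922_red_comp_evalAt]

theorem h922_red_unit : h922_red p ((p : LaurentSeries ℤ) ^ 12 * unitL ℤ p) = 0 := by
  have : CharP (LaurentSeries (ZMod p)) p := h88_charP_laurent (ZMod p) p
  rw [map_mul, map_pow, map_natCast, CharP.cast_eq_zero, zero_pow (by norm_num), zero_mul]

theorem h922_red_jp :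
    h922_red p (qExpand ℤ p (jqModC ℤ)) = jqModC (ZMod p) ^ p := by
  rw [h922_red, coeffMap_qExpand, coeffMap_jqModC, h88_qExpand_zmod]

theorem h922_red_unit' : h922_red p (H589.unitL' p) = h922_g (ZMod p) p := by
  rw [h922_red, H589.unitL', map_mul, coeffMap_qExpand, h88_coeffMap_deltaL,
    h88_coeffMap_deltaInvL, h922_g]

/-- **The unit polynomial modulo `p`.** -/
theorem h922_unitPoly_bar (Ψ : Polynomial (Polynomial ℤ)) (hΨ : Ψ.Monic)
    (hdeg : Ψ.natDegree = p + 1)
    (h1 : Ψ.eval₂ (evalAt (jqModC ℤ)) ((p : LaurentSeries ℤ) ^ 12 * unitL ℤ p) = 0)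
    (h2 : Ψ.eval₂ (evalAt (qExpand ℤ p (jqModC ℤ))) (H589.unitL' p) = 0) :
    ∃ D : Polynomial (ZMod p),
      h922_bar p Ψ = X ^ (p + 1) - Polynomial.C D * X ∧
      Polynomial.aeval (jqModC (ZMod p)) D = h922_g (ZMod p) p := by
  classical
  set J := jqModC (ZMod p) with hJ
  set g := h922_g (ZMod p) p with hg
  set Ψb := h922_bar p Ψ with hΨb
  have hpp : 2 ≤ p := hp.out.two_le
  have hΨbm : Ψb.Monic := hΨ.map _
  have hΨbd : Ψb.natDegree = p + 1 := by rw [hΨb, h922_bar, hΨ.natDegree_map, hdeg]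
  have hg0 : g ≠ 0 := h922_g_ne_zero (ZMod p) p
  -- the two relations modulo `p`
  have r1 : Ψb.eval₂ (Polynomial.aeval (R := ZMod p) J).toRingHom 0 = 0 := by
    have h := congrArg (h922_red p) h1
    rw [h922_red_eval₂, h922_red_unit, map_zero, coeffMap_jqModC] at h
    rw [h922_bar_eval₂]
    exact h
  have r2 : Ψb.eval₂ (Polynomial.aeval (R := ZMod p) (J ^ p)).toRingHom g = 0 := by
    have h := congrArg (h922_red p) h2
    rw [h922_red_eval₂, h922_red_jp, h922_red_unit', map_zero] at h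
    rw [h922_bar_eval₂]
    exact h
  -- coefficients
  set a : ℕ → LaurentSeries (ZMod p) := fun i => Polynomial.aeval J (Ψb.coeff i) with ha
  have ha0 : a 0 = 0 := by
    rw [Polynomial.eval₂_at_zero] at r1
    exact r1
  have hatop : a (p + 1) = 1 := by
    have : Ψb.coeff (p + 1) = 1 := by
      rw [← hΨbd]; exact hΨbm.coeff_natDegree
    simp only [ha, this, map_one]
  have hgp : g ^ p = qExpand (ZMod p) p g := (h88_qExpand_zmod p g).symm
  have hsum : ∑ i ∈ Finset.range p, qExpand (ZMod p) p (a i) * g ^ i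
      + qExpand (ZMod p) p (a p * g) + qExpand (ZMod p) p g * g = 0 := by
    rw [Polynomial.eval₂_eq_sum_range, hΨbd, Finset.sum_range_succ, Finset.sum_range_succ] at r2
    have e : ∀ i, (Polynomial.aeval (R := ZMod p) (J ^ p)).toRingHom (Ψb.coeff i)
        = qExpand (ZMod p) p (a i) := fun i => h88_aeval_pow_eq_qExpand p (Ψb.coeff i)
    simp only [e] at r2
    rw [hatop, map_one, one_mul, pow_succ, hgp] at r2
    rw [map_mul]
    exact r2
  -- regroup
  set c : Fin p → LaurentSeries (ZMod p) := fun i =>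
    a i + (if (i : ℕ) = 0 then a p * g else 0) + (if (i : ℕ) = 1 then g else 0) with hc
  have hsum' : ∑ i : Fin p, qExpand (ZMod p) p (c i) * g ^ (i : ℕ) = 0 := by
    have h0 : ∑ i : Fin p, qExpand (ZMod p) p (c i) * g ^ (i : ℕ)
        = ∑ i ∈ Finset.range p, qExpand (ZMod p) p
            (a i + (if i = 0 then a p * g else 0) + (if i = 1 then g else 0)) * g ^ i :=
      Fin.sum_univ_eq_sum_range (fun i => qExpand (ZMod p) p
        (a i + (if i = 0 then a p * g else 0) + (if i = 1 then g else 0)) * g ^ i) p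
    rw [h0]
    refine Eq.trans ?_ hsum
    simp only [map_add, add_mul, Finset.sum_add_distrib]
    have e0 : ∑ i ∈ Finset.range p,
        qExpand (ZMod p) p (if i = 0 then a p * g else 0) * g ^ i
        = qExpand (ZMod p) p (a p * g) := by
      rw [Finset.sum_eq_single 0]
      · simp
      · intro i _ hi
        simp [hi]
      · intro h
        exact absurd (Finset.mem_range.mpr (by omega)) h
    have e1 : ∑ i ∈ Finset.range p,
        qExpand (ZMod p) p (if i = 1 then g else 0) * g ^ i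
        = qExpand (ZMod p) p g * g := by
      rw [Finset.sum_eq_single 1]
      · simp
      · intro i _ hi
        simp [hi]
      · intro h
        exact absurd (Finset.mem_range.mpr (by omega)) h
    rw [e0, e1]
  have hc0 := Fermat.Agent.S28.H145.eq_zero_of_sum_qExpand_mul_pow_eq_zero (k := ZMod p) p g hg0
    (h922_g_order_coprime (ZMod p) p) c hsum'
  -- read off the coefficients
  have hap : a p = 0 := by
    have h := hc0 ⟨0, by omega⟩
    simp only [hc, ha0, zero_add, if_true] at h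
    have h' : a p * g = 0 := by simpa using h
    rcases mul_eq_zero.mp h' with h | h
    · exact h
    · exact absurd h hg0
  have ha1 : a 1 = -g := by
    have h := hc0 ⟨1, by omega⟩
    simp only [hc] at h
    have h' : a 1 + g = 0 := by simpa using h
    exact eq_neg_of_add_eq_zero_left h'
  have hai : ∀ i, i ≠ 1 → i ≠ p + 1 → a i = 0 := by
    intro i hi1 hip
    rcases Nat.lt_or_ge i p with hlt | hge
    · rcases Nat.eq_zero_or_pos i with h0 | hpos
      · rw [h0]; exact ha0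
      · have h := hc0 ⟨i, hlt⟩
        simp only [hc] at h
        have hi0 : i ≠ 0 := by omega
        simpa [hi0, hi1] using h
    · rcases Nat.eq_or_lt_of_le hge with h | h
      · rw [← h]; exact hap
      · have : Ψb.coeff i = 0 :=
          Polynomial.coeff_eq_zero_of_natDegree_lt (by rw [hΨbd]; omega)
        simp only [ha, this, map_zero]
  have hinj := h88_aeval_jqModC_injective (ZMod p)
  refine ⟨-Ψb.coeff 1, ?_, ?_⟩
  · ext1 n
    rw [Polynomial.coeff_sub, Polynomial.coeff_X_pow, Polynomial.coeff_C_mul_X]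
    by_cases hn1 : n = 1
    · subst hn1
      have : (1 : ℕ) ≠ p + 1 := by omega
      have hp0 : p ≠ 0 := by omega
      simp [this, hp0]
    · by_cases hnp : n = p + 1
      · subst hnp
        have : Ψb.coeff (p + 1) = 1 := by
          rw [← hΨbd]; exact hΨbm.coeff_natDegree
        have hp0 : p ≠ 0 := by omega
        simp [this, hp0]
      · have h0 : Ψb.coeff n = 0 := by
          apply hinj
          rw [map_zero]
          exact hai n hn1 hnp
        simp [h0, hn1, hnp]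
  · rw [map_neg]
    have : Polynomial.aeval J (Ψb.coeff 1) = a 1 := rfl
    rw [this, ha1, neg_neg]

open Fermat.Agent.S28.H589 in
/-- The unit polynomial `Ψ ∈ ℤ[Y][X]` of helper589, with its degree and both vanishing
relations (same proof as `S15.H482.exists_unitPoly_int`, keeping the degree). -/
theorem h922_exists_unitPoly (hp' : p.Prime) :
    ∃ Ψ : Polynomial (Polynomial ℤ), Ψ.Monic ∧ Ψ.natDegree = p + 1 ∧
      Ψ.eval₂ (evalAt (jqModC ℤ)) ((p : LaurentSeries ℤ) ^ 12 * unitL ℤ p) = 0 ∧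
      Ψ.eval₂ (evalAt (qExpand ℤ p (jqModC ℤ))) (unitL' p) = 0 := by
  obtain ⟨W, hWm, hWd, h1, h2⟩ := exists_unitPoly_complex p hp'
  obtain ⟨m, hm⟩ := exists_order_unitSeriesC' p
  have hord : (unitL' p).order = 1 - p * m := by
    rw [← order_iotaC, iotaC_unit', hm]
  have hf0 : unitL' p ≠ 0 := by
    intro h
    apply unitSeriesC'_ne_zero p
    rw [← iotaC_unit', h, map_zero]
  have hcop : IsCoprime (unitL' p).order (p : ℤ) := by
    rw [hord]
    exact ⟨1, m, by ring⟩
  have hne : unitL' p ≠ qExpand ℤ p ((p : LaurentSeries ℤ) ^ 12 * unitL ℤ p) := by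
    intro h
    have h3 := congrArg iotaC h
    rw [iotaC_unit', iotaC, coeffMap_qExpand] at h3
    obtain ⟨k, hk⟩ := Fermat.Agent.S28.H145.dvd_order_qExpand (k := ℂ) p
      (coeffMap (Int.castRingHom ℂ) ((p : LaurentSeries ℤ) ^ 12 * unitL ℤ p))
    rw [← h3, hm] at hk
    have hp2 : (2 : ℤ) ≤ p := by exact_mod_cast hp'.two_le
    have hdvd : (p : ℤ) ∣ 1 := ⟨k + m, by linarith⟩
    have := Int.le_of_dvd one_pos hdvd
    omega
  exact descent p W hWm (p + 1) hWd rfl
    ((p : LaurentSeries ℤ) ^ 12 * unitL ℤ p) (unitL' p) hf0 hcop hne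
    (by rw [iotaC_unit]; exact h1)
    (by rw [iotaC_unit']; exact h2)

/-- Evaluation `𝔽_p[Y] → κ`, `Y ↦ y`, for a ring `κ` of characteristic `p`. -/
def h922_evK (κ : Type*) [CommRing κ] [CharP κ p] (y : κ) : Polynomial (ZMod p) →+* κ :=
  Polynomial.eval₂RingHom (ZMod.castHom (dvd_refl p) κ) y

theorem h922_evK_comp (κ : Type*) [CommRing κ] [CharP κ p] (y : κ) :
    (h922_evK p κ y).comp (Polynomial.mapRingHom (Int.castRingHom (ZMod p)))
      = (Polynomial.aeval (R := ℤ) y).toRingHom := by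
  apply Polynomial.ringHom_ext
  · intro a
    simp [h922_evK]
  · simp [h922_evK]

/-- **Unit roots of the unit polynomial are unique in characteristic `p`.**
`κ` a reduced ring of characteristic `p` (e.g. a residue field), `Ψ` the unit polynomial;
if `b` and `g` are UNITS of `κ` with `Ψ(y ; b) = 0 = Ψ(y ; g)` then `b = g`. -/
theorem h922_unit_roots_eq (Ψ : Polynomial (Polynomial ℤ)) (hΨ : Ψ.Monic)
    (hdeg : Ψ.natDegree = p + 1)
    (h1 : Ψ.eval₂ (evalAt (jqModC ℤ)) ((p : LaurentSeries ℤ) ^ 12 * unitL ℤ p) = 0)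
    (h2 : Ψ.eval₂ (evalAt (qExpand ℤ p (jqModC ℤ))) (H589.unitL' p) = 0)
    (κ : Type*) [CommRing κ] [IsReduced κ] [CharP κ p] (y b g : κ)
    (hb : IsUnit b) (hg : IsUnit g)
    (hΨb : Ψ.eval₂ (Polynomial.aeval (R := ℤ) y).toRingHom b = 0)
    (hΨg : Ψ.eval₂ (Polynomial.aeval (R := ℤ) y).toRingHom g = 0) : b = g := by
  obtain ⟨D, hD, -⟩ := h922_unitPoly_bar p Ψ hΨ hdeg h1 h2
  have key : ∀ x : κ, IsUnit x → Ψ.eval₂ (Polynomial.aeval (R := ℤ) y).toRingHom x = 0 →
      x ^ p = h922_evK p κ y D := by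
    intro x hx h
    rw [← h922_evK_comp p κ y, ← Polynomial.eval₂_map] at h
    have h' : (h922_bar p Ψ).eval₂ (h922_evK p κ y) x = 0 := h
    rw [hD, Polynomial.eval₂_sub, Polynomial.eval₂_pow, Polynomial.eval₂_X, Polynomial.eval₂_mul,
      Polynomial.eval₂_C, Polynomial.eval₂_X, pow_succ, ← sub_mul] at h'
    have h3 := hx.mul_left_eq_zero.mp h'
    exact sub_eq_zero.mp h3
  have hbg : b ^ p = g ^ p := (key b hb hΨb).trans (key g hg hΨg).symm
  have hsub : (b - g) ^ p = 0 := by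
    rw [sub_pow_char, hbg, sub_self]
  have := IsReduced.eq_zero _ ⟨p, hsub⟩
  exact sub_eq_zero.mp this

end Main

end Fermat.Agent.S36.H922

end
end
-- ===== PACK-END S36/H922/UnitBar.lean

-- ===== PACK-BEGIN S36/H890/Gauss9.lean
section


/-!
# Gauss units of level `9` (helper890, S36 cell REG, `q = 2`)

Every function below is `t⁻ⁿ · P(t)` with `P ∈ ℤ⟦t⟧`, `P(0) = 1`, over EVERY commutative ring `K`;
so its `t`-expansion is integral with a coefficient `1`, and it is a unit of the Gauss valuation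
ring `V∞` of every level and every residue characteristic (`A2.Mod.H553.mem_of_int`,
`inv_mem_of_int`).  These are the unit hypotheses of helper934's `Congr9.t9_congr`
(`hU`, `hUe`, `hden`) and `Transfer9.hres_transfer9` (`hh₁`, `hQ₁`, `hj₁`, `hj₁'`):

| function | `n` | statement |
|---|---|---|
| `t₉` | `1` | `Haupt9.t9` (definition), `coeff_t9_neg_one` |
| `Q(t₉) = t₉² + 9 t₉ + 27` | `2` | `Haupt9.t9_quad_eq`, `coeff_t9_quad_neg_two` |
| `den₉ = A B - 243 A + 9 B + 729` | `4` | `den9_eq`, `coeff_den9` |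
| `U₃(j, j₃)` | `9` | `u3_eq`, `coeff_u3` |
| `U₃(j₃, j₉)` | `27` | `u3e_eq`, `coeff_u3e` |
| `j`, `j - 1728` | `1` | `jq_sub_eq`, `coeff_jq_sub` |
-/

set_option autoImplicit false

noncomputable section

namespace Fermat.Agent.S36.H890

open PowerSeries ModularCurve Fermat.Agent.Lib.Haupt

/-! ## Polynomials -/

/-- `U₃ ∈ ℤ[x, y]` (`= Lib.Haupt.U3` at `x = j`, `y = j₃`; same body as `H934.u3`). -/
def h9u3 {S : Type*} [CommRing S] (x y : S) : S :=
  729 * x ^ 2 * y + 196830 * x * y ^ 2 + y ^ 3 - 524880 * x ^ 2 + 18821147040 * x * y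
    - 103456080 * y ^ 2 + 14229831680000 * x + 276373831680000 * y - 3623878656000000000

/-- `W₃ ∈ ℤ[x, y]` (`= Lib.Haupt.W3` at `x = j`, `y = j₃`; same body as `H934.w3`). -/
def h9w3 {S : Type*} [CommRing S] (x y : S) : S :=
  x * y ^ 3 + 19129644 * x * y ^ 2 - 756 * y ^ 3 + 531440 * x ^ 2 + 76509442080 * x * y
    + 23150726640 * y ^ 2 - 48430448640000 * x - 14204206448640000 * y
    + 97844723712000000000

/-- `den₉ = A B - 243 A + 9 B + 729` (same body as `H934.den9`). -/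
def h9den {S : Type*} [CommRing S] (A B : S) : S := A * B - 243 * A + 9 * B + 729

/-- `num₉ = A² B + 18 A B + 27 B + 1458 A` (same body as `H934.num9`). -/
def h9num {S : Type*} [CommRing S] (A B : S) : S :=
  A ^ 2 * B + 18 * (A * B) + 27 * B + 1458 * A

theorem map_h9u3 {S T : Type*} [CommRing S] [CommRing T] (f : S →+* T) (x y : S) :
    f (h9u3 x y) = h9u3 (f x) (f y) := by
  simp only [h9u3, map_sub, map_add, map_mul, map_pow, map_ofNat]

theorem map_h9w3 {S T : Type*} [CommRing S] [CommRing T] (f : S →+* T) (x y : S) :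
    f (h9w3 x y) = h9w3 (f x) (f y) := by
  simp only [h9w3, map_sub, map_add, map_mul, map_pow, map_ofNat]

theorem map_h9den {S T : Type*} [CommRing S] [CommRing T] (f : S →+* T) (x y : S) :
    f (h9den x y) = h9den (f x) (f y) := by
  simp only [h9den, map_sub, map_add, map_mul, map_ofNat]

theorem map_h9num {S T : Type*} [CommRing S] [CommRing T] (f : S →+* T) (x y : S) :
    f (h9num x y) = h9num (f x) (f y) := by
  simp only [h9num, map_add, map_mul, map_pow, map_ofNat]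

/-! ## Shifts -/

section Shift

variable (K : Type*) [CommRing K]

/-- `t⁻ⁿ · tᵏ = t^{-(n-k)}`. -/
theorem qinv_pow_mul_X_pow {n k : ℕ} (h : k ≤ n) :
    qinv K ^ n * lau K X ^ k = qinv K ^ (n - k) := by
  obtain ⟨m, rfl⟩ := Nat.exists_eq_add_of_le h
  rw [Nat.add_sub_cancel_left, pow_add, mul_right_comm, ← mul_pow, qinv_mul_lau_X, one_pow,
    one_mul]

/-- The coefficient of `t⁻ⁿ` in `t⁻ⁿ · P` is `P(0)`. -/
theorem coeff_qinv_pow_mul_lau (n : ℕ) (P : PowerSeries ℤ) :
    (qinv K ^ n * lau K P).coeff (-(n : ℤ)) = ((constantCoeff P : ℤ) : K) := by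
  rw [qinv, HahnSeries.single_pow, HahnSeries.coeff_single_mul]
  simp only [one_pow, one_mul]
  rw [show -(n : ℤ) - n • (-1 : ℤ) = ((0 : ℕ) : ℤ) by simp, coeff_lau_natCast,
    PowerSeries.coeff_zero_eq_constantCoeff]

theorem qExpand_qinv_pow_mul_lau (d : ℕ) [NeZero d] (n : ℕ) (P : PowerSeries ℤ) :
    qExpand K d (qinv K ^ n * lau K P) = qinv K ^ (d * n) * lau K (ex d P) := by
  rw [map_mul, map_pow, qExpand_qinv, qExpand_lau, ← pow_mul]

end Shift

/-! ## The integral power series -/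

/-- `X³ · j(X³)`. -/
abbrev J3 : PowerSeries ℤ := ex 3 ModularCurve.jNum

theorem constantCoeff_J3 : constantCoeff J3 = 1 := by
  rw [J3, constantCoeff_ex, ModularCurve.constantCoeff_jNum]

/-- `X⁹ · U₃(j, j₃)`. -/
def Pu3 : PowerSeries ℤ :=
  C 729 * (X ^ 4 * (ModularCurve.jNum ^ 2 * J3)) + C 196830 * (X ^ 2 * (ModularCurve.jNum * J3 ^ 2))
    + J3 ^ 3 - C 524880 * (X ^ 7 * ModularCurve.jNum ^ 2)
    + C 18821147040 * (X ^ 5 * (ModularCurve.jNum * J3)) - C 103456080 * (X ^ 3 * J3 ^ 2)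
    + C 14229831680000 * (X ^ 8 * ModularCurve.jNum) + C 276373831680000 * (X ^ 6 * J3)
    - C 3623878656000000000 * X ^ 9

theorem constantCoeff_Pu3 : constantCoeff Pu3 = 1 := by
  simp [Pu3]

section Laurent

variable (K : Type*) [CommRing K]

/-! ## `U₃(j, j₃)` and `U₃(j₃, j₉)` -/

/-- `U₃(j, j₃) = t⁻⁹ · Pu3`. -/
theorem u3_eq :
    h9u3 (jqModC K) (qExpand K 3 (jqModC K)) = qinv K ^ 9 * lau K Pu3 := by
  have s2 := qinv_pow_mul_X_pow K (n := 9) (k := 2) (by norm_num)
  have s3 := qinv_pow_mul_X_pow K (n := 9) (k := 3) (by norm_num)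
  have s4 := qinv_pow_mul_X_pow K (n := 9) (k := 4) (by norm_num)
  have s5 := qinv_pow_mul_X_pow K (n := 9) (k := 5) (by norm_num)
  have s6 := qinv_pow_mul_X_pow K (n := 9) (k := 6) (by norm_num)
  have s7 := qinv_pow_mul_X_pow K (n := 9) (k := 7) (by norm_num)
  have s8 := qinv_pow_mul_X_pow K (n := 9) (k := 8) (by norm_num)
  have s9 := qinv_pow_mul_X_pow K (n := 9) (k := 9) (by norm_num)
  norm_num at s2 s3 s4 s5 s6 s7 s8 s9
  rw [h9u3, Pu3, qExpand_jqModC, jqModC_eq]
  simp only [lau_sub, lau_add, lau_mul, lau_pow, lau_C]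
  push_cast
  generalize lau K ModularCurve.jNum = a at *
  generalize lau K J3 = b at *
  generalize lau K X = x at *
  generalize qinv K = q at *
  linear_combination (-(729 * (a ^ 2 * b))) * s4 + (-(196830 * (a * b ^ 2))) * s2
    + (524880 * a ^ 2) * s7 + (-(18821147040 * (a * b))) * s5 + (103456080 * b ^ 2) * s3
    + (-(14229831680000 * a)) * s8 + (-(276373831680000 * b)) * s6
    + (3623878656000000000 : LaurentSeries K) * s9

theorem coeff_u3 : (h9u3 (jqModC K) (qExpand K 3 (jqModC K))).coeff (-9) = 1 := by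
  have h := coeff_qinv_pow_mul_lau K 9 Pu3
  rw [← u3_eq, constantCoeff_Pu3] at h
  simpa using h

/-- `U₃(j₃, j₉) = t⁻²⁷ · Pu3(t³)`. -/
theorem u3e_eq :
    h9u3 (qExpand K 3 (jqModC K)) (qExpand K 9 (jqModC K))
      = qinv K ^ 27 * lau K (ex 3 Pu3) := by
  have h := congrArg (qExpand K 3) (u3_eq K)
  rw [map_h9u3, qExpand_qinv_pow_mul_lau, qExpand_qExpand] at h
  exact h

theorem coeff_u3e :
    (h9u3 (qExpand K 3 (jqModC K)) (qExpand K 9 (jqModC K))).coeff (-27) = 1 := by
  have h := coeff_qinv_pow_mul_lau K 27 (ex 3 Pu3)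
  rw [← u3e_eq, constantCoeff_ex, constantCoeff_Pu3] at h
  simpa using h

/-! ## `den₉` -/

/-- `den₉(t₃, t₃(t³)) = t⁻⁴ · D9`. -/
theorem den9_eq : h9den (t3 K) (qExpand K 3 (t3 K)) = qinv K ^ 4 * lau K D9 := by
  have s1 := qinv_pow_mul_X_pow K (n := 4) (k := 1) (by norm_num)
  have s3 := qinv_pow_mul_X_pow K (n := 4) (k := 3) (by norm_num)
  have s4 := qinv_pow_mul_X_pow K (n := 4) (k := 4) (by norm_num)
  norm_num at s1 s3 s4
  rw [h9den, D9, qExpand_t3, t3]
  simp only [lau_sub, lau_add, lau_mul, lau_pow, lau_C]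
  push_cast
  generalize lau K T3 = a at *
  generalize lau K T3e = b at *
  generalize lau K X = x at *
  generalize qinv K = q at *
  linear_combination (243 * a) * s3 + (-(9 * b)) * s1 + (-(729 : LaurentSeries K)) * s4

theorem coeff_den9 : (h9den (t3 K) (qExpand K 3 (t3 K))).coeff (-4) = 1 := by
  have h := coeff_qinv_pow_mul_lau K 4 D9
  rw [← den9_eq, constantCoeff_D9] at h
  simpa using h

/-! ## `j - c` -/

/-- `j + c = t⁻¹ · (jNum + c X)`. -/
theorem jq_add_eq (c : ℤ) :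
    jqModC K + (c : LaurentSeries K) = qinv K ^ 1 * lau K (ModularCurve.jNum + C c * X) := by
  rw [pow_one, jqModC_eq, t_add_const]

theorem coeff_jq_add (c : ℤ) : (jqModC K + (c : LaurentSeries K)).coeff (-1) = 1 := by
  have h := coeff_qinv_pow_mul_lau K 1 (ModularCurve.jNum + C c * X)
  rw [← jq_add_eq] at h
  simpa [ModularCurve.constantCoeff_jNum] using h

theorem coeff_jq_sub_1728 : (jqModC K - 1728).coeff (-1) = 1 := by
  have h := coeff_jq_add K (-1728)
  have e : jqModC K + ((-1728 : ℤ) : LaurentSeries K) = jqModC K - 1728 := by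
    push_cast; ring
  rwa [e] at h

/-! ## The relations `l1`, `l2`, `l3` of `Congr9.t9_congr`, over every FIELD -/

end Laurent

section Field

variable (K : Type*) [Field K]

theorem u3_eq_U3 : h9u3 (jqModC K) (qExpand K 3 (jqModC K)) = U3 K := rfl

theorem w3_eq_W3 : h9w3 (jqModC K) (qExpand K 3 (jqModC K)) = W3 K := rfl

/-- `l1` : `U₃(j, j₃) · t₃ = W₃(j, j₃)`. -/
theorem t3_lin9 :
    h9u3 (jqModC K) (qExpand K 3 (jqModC K)) * t3 K = h9w3 (jqModC K) (qExpand K 3 (jqModC K)) :=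
  t3_lin K

/-- `l2` : `U₃(j₃, j₉) · t₃(t³) = W₃(j₃, j₉)`. -/
theorem t3e_lin9 :
    h9u3 (qExpand K 3 (jqModC K)) (qExpand K 9 (jqModC K)) * qExpand K 3 (t3 K)
      = h9w3 (qExpand K 3 (jqModC K)) (qExpand K 9 (jqModC K)) := by
  have h := congrArg (qExpand K 3) (t3_lin9 K)
  rw [map_mul, map_h9u3, map_h9w3, qExpand_qExpand] at h
  exact h

/-- `l3` : `t₉ · den₉(A, B) = num₉(A, B)`. -/
theorem t9_lin9 :
    t9 K * h9den (t3 K) (qExpand K 3 (t3 K)) = h9num (t3 K) (qExpand K 3 (t3 K)) :=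
  t9_mul K

end Field

end Fermat.Agent.S36.H890

end
end
-- ===== PACK-END S36/H890/Gauss9.lean

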