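import Mathlib
import Fermat.Prelude.Def_AlgebraicCurve_Correspondence
import Fermat.Prelude.Def_FLTPrelim_Ramification
import Fermat.Prelude.Def_ModularCurve_HeckeModule
import Fermat.Agent.Pack.S36.E16L2
import Fermat.Agent.Pack.S36.E0L3
import Fermat.Agent.Pack.S36.E4L1
import Fermat.Agent.Pack.S36.E0L2
import Fermat.Agent.Pack.S36.E16L3
import Fermat.Agent.Pack.S36.E16L0
import Fermat.Agent.Pack.S36.E5L1
import Fermat.Agent.Pack.S36.E13L1
import Fermat.Agent.Pack.S36.E13L2
import Fermat.Agent.Pack.S36.E8L1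
import Fermat.Agent.Pack.S36.E13L3
import Fermat.Agent.Pack.S36.E15L1
import Fermat.Agent.Pack.S36.E7L3
import Fermat.Agent.Pack.S36.E2L3
import Fermat.Agent.Pack.S36.E15L2
import Fermat.Agent.Pack.S36.E13L0
import Fermat.Agent.Pack.S36.E3L0
import Fermat.Agent.Pack.S36.E12L2
import Fermat.Agent.Pack.S36.E14L1

-- ===== PACK-BEGIN Ribet/H801/DegGen.lean
section
/-
RIBET / W-DEG (helper801), part 3: the function field of level `N ℓ p` is generated by the two
"`β`-images":

    F̄_{Nℓp} = V_p(F̄_{Nℓ}) ⊔ V_ℓ(F̄_{Np})        (`p ≠ ℓ` primes)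

(degree count: `[F̄_{Nℓp} : V_p F̄_{Nℓ}] ≤ p + 1` by helper218, and `1, x, …, x^{p-1}` with
`x = j(q^ℓ)` are linearly independent over every subfield of `ℚ̄((q^p))`, helper145).
-/






set_option autoImplicit false
set_option linter.style.haveILetI false

noncomputable section

namespace Fermat.Agent.Ribet.H801

open ModularCurve HahnSeries IntermediateField AlgebraicCurve
open Fermat.Agent.S28 Fermat.Agent.S37

section Generic

variable {K E : Type*} [Field K] [Field E] [Algebra K E]

/-- Elements of `T` are algebraic over `A` when `[T : A]` is finite. -/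
theorem isAlgebraic_of_relfinrank_ne_zero {A T : IntermediateField K E} (hAT : A ≤ T)
    (h : A.relfinrank T ≠ 0) {x : E} (hx : x ∈ T) : IsAlgebraic A x := by
  rw [relfinrank_eq_finrank_of_le hAT] at h
  haveI : FiniteDimensional A (extendScalars hAT) :=
    Module.finite_of_finrank_pos (Nat.pos_of_ne_zero h)
  have h1 : IsAlgebraic A (⟨x, hx⟩ : extendScalars hAT) :=
    Algebra.IsAlgebraic.isAlgebraic _
  exact (IntermediateField.isAlgebraic_iff (S := extendScalars hAT) (x := ⟨x, hx⟩)).mp h1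

end Generic

theorem modularFunctionFieldBar_congr {a b : ℕ} [NeZero a] [NeZero b] (h : a = b) :
    modularFunctionFieldBar a = modularFunctionFieldBar b := by
  subst h
  rfl

/-- `j ∈ F̄_N`. -/
theorem jqModC_mem_bar (N : ℕ) [NeZero N] :
    jqModC (AlgebraicClosure ℚ) ∈ modularFunctionFieldBar N := by
  have h : jq ∈ modularFunctionFieldFull N := by
    have h := jqd_mem_full N (one_dvd N)
    rwa [qExpand_one_apply] at h
  have h2 := coeffEmb_mem_laurentBaseChange (AlgebraicClosure ℚ) h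
  have h3 : coeffEmb (AlgebraicClosure ℚ) jq = jqModC (AlgebraicClosure ℚ) := by
    rw [← jqModC_rat]
    exact coeffMap_jqModC (algebraMap ℚ (AlgebraicClosure ℚ))
  rwa [h3] at h2

/-- `1, x, …, x^{p-1}`, `x = j(q^ℓ)`, are linearly independent over every subfield of
`k((q^p))` when `ℓ` is prime to `p`. -/
theorem linearIndependent_pow_qExpand_j (k : Type*) [Field k] (p ℓ : ℕ) [NeZero p] [NeZero ℓ]
    (hcop : Nat.Coprime ℓ p) (B : IntermediateField k (LaurentSeries k))
    (hB : B ≤ (qExpandAlgHomC k p).fieldRange) :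
    LinearIndependent B (fun i : Fin p => (qExpand k ℓ (jqModC k)) ^ (i : ℕ)) := by
  rw [Fintype.linearIndependent_iff]
  intro g hg i
  have hc : ∀ i, ∃ c : LaurentSeries k, qExpand k p c = (g i : LaurentSeries k) := by
    intro i
    obtain ⟨c, hc⟩ := hB (g i).2
    exact ⟨c, hc⟩
  choose c hc using hc
  have h : ∑ i : Fin p, qExpand k p (c i) * (qExpand k ℓ (jqModC k)) ^ (i : ℕ) = 0 := by
    rw [← hg]
    refine Finset.sum_congr rfl fun i _ => ?_
    rw [hc i]
    rfl
  have hx : qExpand k ℓ (jqModC k) ≠ 0 := by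
    intro h0
    exact H145.jqModC_ne_zero' k
      ((Fermat.Agent.S24.inf_qExpand_eq_zero_iff ℓ (jqModC k)).mp h0)
  have hord : IsCoprime (qExpand k ℓ (jqModC k)).order (p : ℤ) := by
    rw [Fermat.Agent.S24.inf_qExpand_order, H145.order_jqModC, mul_neg, mul_one]
    exact (Nat.isCoprime_iff_coprime.mpr hcop).neg_left
  have := H145.eq_zero_of_sum_qExpand_mul_pow_eq_zero p _ hx hord c h i
  apply Subtype.ext
  rw [← hc i, this, map_zero]
  rfl

/-- **Generation by the two `β`-images.** -/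
theorem bar_eq_sup_map_map (N p ℓ : ℕ) [NeZero N] [NeZero p] [NeZero ℓ] (hp : p.Prime)
    (hℓ : ℓ.Prime) (hne : ℓ ≠ p) :
    modularFunctionFieldBar (N * ℓ * p) =
      (modularFunctionFieldBar (N * ℓ)).map (qExpandAlgHomC (AlgebraicClosure ℚ) p) ⊔
        (modularFunctionFieldBar (N * p)).map (qExpandAlgHomC (AlgebraicClosure ℚ) ℓ) := by
  set A := (modularFunctionFieldBar (N * ℓ)).map (qExpandAlgHomC (AlgebraicClosure ℚ) p) with hA
  set B := (modularFunctionFieldBar (N * p)).map (qExpandAlgHomC (AlgebraicClosure ℚ) ℓ) with hB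
  set T := modularFunctionFieldBar (N * ℓ * p) with hT
  have hAT : A ≤ T := H218.map_qExpand_bar_le (N * ℓ) p
  have hBT : B ≤ T := by
    have h := H218.map_qExpand_bar_le (N * p) ℓ
    rwa [modularFunctionFieldBar_congr (Nat.mul_right_comm N p ℓ)] at h
  have hCT : A ⊔ B ≤ T := sup_le hAT hBT
  have hAC : A ≤ A ⊔ B := le_sup_left
  have hd : A.relfinrank T = if p ∣ N * ℓ then p else p + 1 :=
    H218.relfinrank_map_qExpand_bar_mul_prime (N * ℓ) p (NeZero.ne _) hp
  have hd_le : A.relfinrank T ≤ p + 1 := by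
    rw [hd]; split_ifs <;> omega
  have hd_ne : A.relfinrank T ≠ 0 := by
    rw [hd]; split_ifs
    · exact hp.ne_zero
    · omega
  have htower : A.relfinrank (A ⊔ B) * (A ⊔ B).relfinrank T = A.relfinrank T :=
    relfinrank_mul_relfinrank hAC hCT
  have hAC_ne : A.relfinrank (A ⊔ B) ≠ 0 := by
    intro h0; rw [h0, zero_mul] at htower; exact hd_ne htower.symm
  have hCT_ne : (A ⊔ B).relfinrank T ≠ 0 := by
    intro h0; rw [h0, mul_zero] at htower; exact hd_ne htower.symm
  have hcop : Nat.Coprime ℓ p := (Nat.coprime_primes hℓ hp).mpr hne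
  have hxB : qExpand (AlgebraicClosure ℚ) ℓ (jqModC (AlgebraicClosure ℚ)) ∈ B :=
    ⟨jqModC (AlgebraicClosure ℚ), jqModC_mem_bar (N * p), rfl⟩
  have h4 : p ≤ A.relfinrank (A ⊔ B) := by
    refine H867.le_relfinrank_of_linearIndependent hAC hAC_ne _ ?_
      (linearIndependent_pow_qExpand_j (AlgebraicClosure ℚ) p ℓ hcop A ?_)
    · intro i
      exact pow_mem ((le_sup_right : B ≤ A ⊔ B) hxB) _
    · intro x hx
      obtain ⟨y, -, rfl⟩ := hx
      exact ⟨y, rfl⟩
  have h1 : (A ⊔ B).relfinrank T = 1 := by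
    by_contra hne1
    have h2 : 2 ≤ (A ⊔ B).relfinrank T := by omega
    have h3 : p * 2 ≤ A.relfinrank (A ⊔ B) * (A ⊔ B).relfinrank T := Nat.mul_le_mul h4 h2
    have hp2 := hp.two_le
    omega
  exact le_antisymm (relfinrank_eq_one_iff.mp h1) hCT

end Fermat.Agent.Ribet.H801

end

end
-- ===== PACK-END Ribet/H801/DegGen.lean

-- ===== PACK-BEGIN S29/H812/Along.lean
section



/-!
# S29 / H812 — the Prelude's `…Along` predicates for an arbitrary `K`-algebra homomorphism between
function fields of one variable over an algebraically closed field of characteristic zero.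
-/

set_option autoImplicit false

noncomputable section

open AlgebraicCurve IntermediateField

namespace Fermat.Agent.S29.H812

open Fermat.Agent.S24

variable {K F F' : Type*} [Field K] [Field F] [Field F'] [Algebra K F] [Algebra K F']
  [IsAlgClosed K] [CharZero K]

/-- A `K`-algebra homomorphism of function fields of one variable is finite. -/
theorem finiteAlong (hF : ∃ x : F, Transcendental K x ∧ FiniteDimensional K⟮x⟯ F)
    (hF' : ∃ x : F', Transcendental K x ∧ FiniteDimensional K⟮x⟯ F') (φ : F →ₐ[K] F') :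
    FiniteAlong K φ := by
  letI := algebraAlong φ
  haveI := isScalarTower_along φ
  obtain ⟨x, hx, -⟩ := hF
  obtain ⟨x', hx', hx'fin⟩ := hF'
  have hφx : Transcendental K (algebraMap F F' x) := transcendental_algebraMap_of hx
  haveI : FiniteDimensional K⟮algebraMap F F' x⟯ F' :=
    FF.finiteDimensional_adjoin_of_transcendental hx' hφx
  exact finite_of_finite_adjoin_algebraMap (K := K) x

theorem isIntegral_of_finiteAlong {φ : F →ₐ[K] F'} (h : FiniteAlong K φ) :
    φ.toRingHom.IsIntegral := by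
  letI := algebraAlong φ
  haveI : Module.Finite F F' := h
  exact (Algebra.IsIntegral.of_finite F F').isIntegral

theorem fundamentalIdentityAlong (hF : ∃ x : F, Transcendental K x ∧ FiniteDimensional K⟮x⟯ F)
    [HasPrincipalDivisors K F'] (φ : F →ₐ[K] F') (hfin : FiniteAlong K φ)
    (hφ : φ.toRingHom.IsIntegral) : FundamentalIdentityAlong K φ hφ := by
  letI := algebraAlong φ
  haveI := isScalarTower_along φ
  haveI := isIntegral_along φ hφ
  haveI : Module.Finite F F' := hfin
  exact fundamentalIdentity (F' := F') hF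

theorem normFormulaAlong (hF : ∃ x : F, Transcendental K x ∧ FiniteDimensional K⟮x⟯ F)
    [HasPrincipalDivisors K F'] (φ : F →ₐ[K] F') (hfin : FiniteAlong K φ) :
    NormFormulaAlong K φ hfin := by
  letI := algebraAlong φ
  haveI := isScalarTower_along φ
  haveI : Module.Finite F F' := hfin
  exact pushforwardNormFormula (F' := F') hF

end Fermat.Agent.S29.H812

end
end
-- ===== PACK-END S29/H812/Along.lean

-- ===== PACK-BEGIN S29/H882/MeroPrim.lean
section


/-!
# S29 / MERO (helper882), part 4: `MC N = FC N`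

A primitive element `θ` of the function field over `ℚ̄` stays of degree `[SL₂(ℤ):Γ₀(N)]` over
`ℂ(j)` after base change (descent of relations), hence generates `MC N` over `ℂ(j)`.
-/

set_option autoImplicit false

noncomputable section

open UpperHalfPlane ModularGroup CongruenceSubgroup Polynomial ModularCurve IntermediateField
open scoped MatrixGroups Manifold Modular Real

namespace Fermat.Agent.S29.H882

open Fermat.Agent.S24 Fermat.Agent.S24.H648 Fermat.Agent.S24.H708 Fermat.Agent.S24.Deg457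

variable (N : ℕ) [NeZero N]

/-- A primitive element of the function field over `ℚ̄(j)`. -/
theorem exists_theta (P : ModularPackage N) : ∃ θ : FF N,
    (minpoly ↥(IntermediateField.adjoin Kbar {jF N}) θ).natDegree = Nat.card (XX N) := by
  haveI := P.finiteDimensional
  obtain ⟨θ, hθ⟩ := Field.exists_primitive_element ↥(IntermediateField.adjoin Kbar {jF N}) (FF N)
  refine ⟨θ, ?_⟩
  rw [(Field.primitive_element_iff_minpoly_natDegree_eq _ θ).mp hθ, P.finrank_eq]

/-- The base change of an element of the function field over `ℚ̄`, as a Laurent series over `ℂ`. -/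
def ΘL (θ : FF N) : LaurentSeries ℂ := coeffMap iotaC (θ : LaurentSeries Kbar)

theorem ΘL_mem_FC (θ : FF N) : ΘL N θ ∈ FC N :=
  coeffMap_mem_laurentBaseChange_of_mem iotaC _ θ.2

/-- The same element in `MC N`. -/
def ΘM (θ : FF N) : MC N := ⟨ΘL N θ, FC_le_MC N (ΘL_mem_FC N θ)⟩

theorem aeval_jF_ne_zero {t : Kbar[X]} (ht : t ≠ 0) :
    aeval (AdjoinSimple.gen Kbar (jF N)) t ≠ 0 := by
  intro h0
  apply aeval_JK_ne_zero Kbar ht
  have h1 := congrArg (algebraMap ↥(IntermediateField.adjoin Kbar {jF N}) (FF N)) h0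
  rw [← aeval_algebraMap_apply, map_zero, AdjoinSimple.algebraMap_gen] at h1
  have h2 := congrArg (algebraMap (FF N) (LaurentSeries Kbar)) h1
  rw [← aeval_algebraMap_apply, map_zero] at h2
  exact h2

theorem algebraMap_comp_aeval_jF :
    (algebraMap (FF N) (LaurentSeries Kbar)).comp
      ((aeval (jF N) : Kbar[X] →ₐ[Kbar] FF N).toRingHom) = evJ (JK Kbar) := by
  refine Polynomial.ringHom_ext ?_ ?_
  · intro c
    simp [evJ, ← IsScalarTower.algebraMap_apply]
  · simp [evJ]
    rfl

theorem card_le_natDegree_minpoly (θ : FF N)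
    (hθ : (minpoly ↥(IntermediateField.adjoin Kbar {jF N}) θ).natDegree = Nat.card (XX N)) :
    Nat.card (XX N) ≤ (minpoly ↥(IntermediateField.adjoin ℂ {jM N}) (ΘM N θ)).natDegree := by
  haveI := (finiteDimensional_and_finrank_le_MC N).1
  by_contra hlt
  rw [not_le] at hlt
  have hint : IsIntegral ↥(IntermediateField.adjoin ℂ {jM N}) (ΘM N θ) := IsIntegral.of_finite _ _
  have hp0 : minpoly ↥(IntermediateField.adjoin ℂ {jM N}) (ΘM N θ) ≠ 0 := minpoly.ne_zero hint
  obtain ⟨t, Q, ht, hQ⟩ := exists_clear_denominators (K := ℂ) (jM N)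
    (minpoly ↥(IntermediateField.adjoin ℂ {jM N}) (ΘM N θ))
  have hφinj : Function.Injective
      ((aeval (AdjoinSimple.gen ℂ (jM N)) : ℂ[X] →ₐ[ℂ] ℂ⟮jM N⟯).toRingHom) := by
    rw [injective_iff_map_eq_zero]
    intro t ht0
    by_contra h
    exact aeval_jM_ne_zero N h ht0
  have hQ0 : Q ≠ 0 := by
    intro h
    rw [h, Polynomial.map_zero] at hQ
    exact (mul_ne_zero (C_ne_zero.mpr ht) hp0) hQ.symm
  have hQd : Q.natDegree ≤
      (minpoly ↥(IntermediateField.adjoin ℂ {jM N}) (ΘM N θ)).natDegree := by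
    rw [← Polynomial.natDegree_map_eq_of_injective hφinj Q, hQ, natDegree_C_mul ht]
  have hroot : Q.eval₂ (evJ (JK ℂ)) (ΘL N θ) = 0 := by
    have h1 : aeval (ΘM N θ)
        (Q.map ((aeval (AdjoinSimple.gen ℂ (jM N)) : ℂ[X] →ₐ[ℂ] ℂ⟮jM N⟯).toRingHom)) = 0 := by
      rw [hQ, map_mul, minpoly.aeval, mul_zero]
    have h2 := congrArg (algebraMap (MC N) (LaurentSeries ℂ)) h1
    rw [map_zero, aeval_def, eval₂_map, Polynomial.hom_eval₂] at h2
    have hcomp : (algebraMap (MC N) (LaurentSeries ℂ)).comp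
        ((algebraMap ↥(IntermediateField.adjoin ℂ {jM N}) (MC N)).comp
          ((aeval (AdjoinSimple.gen ℂ (jM N)) : ℂ[X] →ₐ[ℂ] ℂ⟮jM N⟯).toRingHom))
        = evJ (JK ℂ) := by
      refine Polynomial.ringHom_ext ?_ ?_
      · intro c
        simp [evJ, ← IsScalarTower.algebraMap_apply]
      · simp [evJ]
        rfl
    rw [hcomp] at h2
    exact h2
  obtain ⟨Q', hQ'0, hQ'd, hQ'⟩ := exists_relation_of_coeffMap_ne_zero iotaC (JK Kbar)
    (θ : LaurentSeries Kbar) _ Q hQ0 hQd (by rw [coeffMap_JK]; exact hroot)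
  have hinc : Function.Injective (algebraMap (FF N) (LaurentSeries Kbar)) :=
    (algebraMap (FF N) (LaurentSeries Kbar)).injective
  have key := isIntegral_and_natDegree_le_of_relation (K := Kbar)
    (AdjoinSimple.gen Kbar (jF N)) (fun t ht => aeval_jF_ne_zero N ht) θ Q' hQ'0 _ hQ'd (by
      apply hinc
      rw [map_zero, Polynomial.hom_eval₂, AdjoinSimple.algebraMap_gen, algebraMap_comp_aeval_jF]
      exact hQ')
  have := key.2
  omega

/-- `ΘM` is a primitive element of `MC N` over `ℂ(j)`. -/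
theorem adjoin_ΘM_eq_top (θ : FF N)
    (hθ : (minpoly ↥(IntermediateField.adjoin Kbar {jF N}) θ).natDegree = Nat.card (XX N)) :
    IntermediateField.adjoin ↥(IntermediateField.adjoin ℂ {jM N}) {ΘM N θ} = ⊤ := by
  haveI := (finiteDimensional_and_finrank_le_MC N).1
  rw [Field.primitive_element_iff_minpoly_natDegree_eq]
  have h1 := card_le_natDegree_minpoly N θ hθ
  have h2 := (finiteDimensional_and_finrank_le_MC N).2
  have h3 : (minpoly ↥(IntermediateField.adjoin ℂ {jM N}) (ΘM N θ)).natDegree ≤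
      Module.finrank ↥(IntermediateField.adjoin ℂ {jM N}) (MC N) := minpoly.natDegree_le _
  omega

theorem coe_mem_FC_of_mem_adjoin_jM (e : ↥(IntermediateField.adjoin ℂ {jM N})) :
    (((e : MC N)) : LaurentSeries ℂ) ∈ FC N := by
  obtain ⟨r, s, hrs⟩ := (IntermediateField.mem_adjoin_simple_iff ℂ (e : MC N)).mp e.2
  have hr : ((aeval (jM N) r : MC N) : LaurentSeries ℂ) = aeval (JK ℂ) r := by
    have := (aeval_algebraMap_apply (LaurentSeries ℂ) (jM N) r).symm
    exact this
  have hs : ((aeval (jM N) s : MC N) : LaurentSeries ℂ) = aeval (JK ℂ) s := by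
    have := (aeval_algebraMap_apply (LaurentSeries ℂ) (jM N) s).symm
    exact this
  have hmem : ∀ t : ℂ[X], aeval (JK ℂ) t ∈ FC N := by
    intro t
    have := (aeval_algebraMap_apply (LaurentSeries ℂ) (⟨JK ℂ, JK_mem_FC N⟩ : FC N) t)
    have h2 : (algebraMap (FC N) (LaurentSeries ℂ)) (⟨JK ℂ, JK_mem_FC N⟩ : FC N) = JK ℂ := rfl
    rw [h2] at this
    rw [this]
    exact (aeval (⟨JK ℂ, JK_mem_FC N⟩ : FC N) t).2
  rw [hrs]
  have : (((aeval (jM N) r / aeval (jM N) s : MC N)) : LaurentSeries ℂ)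
      = aeval (JK ℂ) r / aeval (JK ℂ) s := by
    rw [← hr, ← hs]
    rfl
  rw [this]
  exact div_mem (hmem r) (hmem s)

/-- **`MC N ≤ FC N`**: every `q`-expansion of a good function lies in the function field. -/
theorem MC_le_FC : MC N ≤ FC N := by
  obtain ⟨P⟩ := nonempty_modularPackage N
  obtain ⟨θ, hθ⟩ := exists_theta N P
  have htop := adjoin_ΘM_eq_top N θ hθ
  intro y hy
  have hy' : (⟨y, hy⟩ : MC N) ∈
      IntermediateField.adjoin ↥(IntermediateField.adjoin ℂ {jM N}) {ΘM N θ} := by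
    rw [htop]; exact IntermediateField.mem_top
  have key : ∀ z : MC N,
      z ∈ IntermediateField.adjoin ↥(IntermediateField.adjoin ℂ {jM N}) {ΘM N θ} →
      (z : LaurentSeries ℂ) ∈ FC N := by
    intro z hz
    refine IntermediateField.adjoin_induction ↥(IntermediateField.adjoin ℂ {jM N})
      (p := fun (z : MC N) _ => ((z : MC N) : LaurentSeries ℂ) ∈ FC N) ?_ ?_ ?_ ?_ ?_ hz
    · intro x hx
      rw [Set.mem_singleton_iff] at hx
      subst hx
      exact ΘL_mem_FC N θ
    · intro e
      exact coe_mem_FC_of_mem_adjoin_jM N e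
    · intro x y _ _ hx hy
      exact add_mem hx hy
    · intro x _ hx
      exact inv_mem hx
    · intro x y _ _ hx hy
      exact mul_mem hx hy
  exact key ⟨y, hy⟩ hy'

theorem MC_eq_FC : MC N = FC N := le_antisymm (MC_le_FC N) (FC_le_MC N)

variable {N}

/-- **MERO (A)**: the `q`-expansion of a good function of level `N` lies in the function field of
`X₀(N)` over `ℂ`. -/
theorem mem_FC_of_mem_goodQ {b : LaurentSeries ℂ} (hb : b ∈ goodQ N) :
    b ∈ laurentBaseChange ℂ (modularFunctionFieldFull N) :=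
  MC_le_FC N (goodQ_le_MC N hb)

/-- **MERO (A)**, function form. -/
theorem qexpFun_mem_FC {f : ℍ → ℂ} (hf : f ∈ goodRing N) :
    qexpFun 1 f ∈ laurentBaseChange ℂ (modularFunctionFieldFull N) :=
  mem_FC_of_mem_goodQ (qexpFun_mem_goodQ hf)

/-- **MERO (A)**, `HasQExp` form. -/
theorem mem_FC_of_hasQExp {f : ℍ → ℂ} {b : LaurentSeries ℂ} (hf : f ∈ goodRing N)
    (hb : HasQExp 1 f b) : b ∈ laurentBaseChange ℂ (modularFunctionFieldFull N) :=
  mem_FC_of_mem_goodQ ⟨f, hf, hb⟩

end Fermat.Agent.S29.H882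

end
end
-- ===== PACK-END S29/H882/MeroPrim.lean

-- ===== PACK-BEGIN S18/H965/GlueLemmas.lean
section





/-!
# S18 / GLUE (helper965): lemmas for `node_glue`

Interface-independent lemmas about the concrete objects of `Mod/Defs.lean`:

* `coeff_mem_of_mem_Fc`      : elements of `Fc M E` have `q`-expansion coefficients in `E`;
* `exists_finset_mem_Fc`     : every `f ∈ Ω = F_M` lies in `Fc M E` as soon as `E` contains a
                               finite set `T` of constants (descent to a number field);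
* `natCast_inv_mem_Rc`       : `ℓ ∤ m` ⟹ `m⁻¹ ∈ Rc M A E`;
* `exists_unit_twist`        : the divisor hypothesis of `CoreStatement` in the valuation-subring
                               form required by `Alg.AlgMainStatement`;
* `sub_one_mul_inv_mem_VcSet`: `u = U₁/U₂`, `Ū₁ = Ū₂` ⟹ `(u - 1)/w ∈ VcSet M A E`.
-/

set_option autoImplicit false

noncomputable section

namespace Fermat.Agent.S18.H965

open ModularCurve AlgebraicCurve HahnSeries Fermat.Agent.S18 Fermat.Agent.S18.Mod

variable (M : ℕ) (E : IntermediateField ℚ Qb)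

/-- The subfield of `Ω = F_M` of series all of whose coefficients lie in `E`. -/
def coeffField : Subfield (Om M) :=
  ((coeffMap (algebraMap (↥E) Qb)).fieldRange).comap
    (algebraMap (Om M) (LaurentSeries Qb))

variable {M E}

theorem coeff_mem_of_mem_coeffField {f : Om M} (hf : f ∈ coeffField M E) (n : ℤ) :
    ((f : LaurentSeries Qb)).coeff n ∈ E := by
  obtain ⟨y, hy⟩ := hf
  have h : (f : LaurentSeries Qb) = coeffMap (algebraMap (↥E) Qb) y := hy.symm
  rw [h, coeffMap_coeff]
  exact (y.coeff n).2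

theorem Ec_le_coeffField : Ec M E ≤ coeffField M E := by
  rintro y ⟨a, ha, rfl⟩
  refine ⟨HahnSeries.single 0 ⟨a, ha⟩, ?_⟩
  rw [coeffMap_single]
  change _ = algebraMap Qb (LaurentSeries Qb) a
  rw [algebraMap_laurentSeries_eq_single]
  rfl

theorem gens_subset_coeffField : gens M ⊆ (coeffField M E : Set (Om M)) := by
  rintro y ⟨d, hd, hdM, rfl⟩
  refine ⟨coeffMap (algebraMap ℚ (↥E)) (qExpand ℚ d jq), ?_⟩
  rw [coeffMap_coeffMap]
  change _ = coeffEmb Qb (qExpand ℚ d jq)
  unfold coeffEmb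
  exact coeffMap_congr (RingHom.ext fun c => rfl) _

theorem Fc_le_coeffField : Fc M E ≤ coeffField M E := by
  unfold Fc
  rw [Subfield.closure_le]
  rintro y (hy | hy)
  · exact Ec_le_coeffField hy
  · exact gens_subset_coeffField hy

/-- Elements of `Fc M E` have all their `q`-expansion coefficients in `E`. -/
theorem coeff_mem_of_mem_Fc {f : Om M} (hf : f ∈ Fc M E) (n : ℤ) :
    ((f : LaurentSeries Qb)).coeff n ∈ E :=
  coeff_mem_of_mem_coeffField (Fc_le_coeffField hf) n


/-! ### Descent to a number field -/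

theorem Ec_le_Fc : Ec M E ≤ Fc M E := fun _ hy =>
  Subfield.subset_closure (Or.inl hy)

theorem algebraMap_mem_Ec {a : Qb} (ha : a ∈ E) : algebraMap Qb (Om M) a ∈ Ec M E :=
  ⟨a, ha, rfl⟩

theorem algebraMap_mem_Fc {a : Qb} (ha : a ∈ E) : algebraMap Qb (Om M) a ∈ Fc M E :=
  Ec_le_Fc (algebraMap_mem_Ec ha)

/-- The image of `ℚ(j_d : d ∣ M)` lies in `Fc M E` for every `E`. -/
theorem exists_mem_Fc_of_mem_full {z : LaurentSeries ℚ} (hz : z ∈ modularFunctionFieldFull M) :
    ∃ f ∈ Fc M E, (f : LaurentSeries Qb) = coeffEmb Qb z := by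
  unfold modularFunctionFieldFull at hz
  induction hz using IntermediateField.adjoin_induction with
  | mem y hy =>
      obtain ⟨d, hd, hdM, rfl⟩ := hy
      exact ⟨jd M d hdM, Subfield.subset_closure (Or.inr ⟨d, hd, hdM, rfl⟩), rfl⟩
  | algebraMap r =>
      refine ⟨algebraMap Qb (Om M) (algebraMap ℚ Qb r),
        algebraMap_mem_Fc (E.algebraMap_mem r), ?_⟩
      change algebraMap Qb (LaurentSeries Qb) (algebraMap ℚ Qb r) = _
      rw [algebraMap_laurentSeries_eq_single, algebraMap_laurentSeries_eq_single]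
      unfold coeffEmb
      rw [coeffMap_single]
  | add x y _ _ hx hy =>
      obtain ⟨f, hf, hfx⟩ := hx
      obtain ⟨g, hg, hgy⟩ := hy
      exact ⟨f + g, add_mem hf hg, by rw [map_add, ← hfx, ← hgy]; rfl⟩
  | inv x _ hx =>
      obtain ⟨f, hf, hfx⟩ := hx
      exact ⟨f⁻¹, inv_mem hf, by rw [map_inv₀, ← hfx]; rfl⟩
  | mul x y _ _ hx hy =>
      obtain ⟨f, hf, hfx⟩ := hx
      obtain ⟨g, hg, hgy⟩ := hy
      exact ⟨f * g, mul_mem hf hg, by rw [map_mul, ← hfx, ← hgy]; rfl⟩

variable (M) in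
/-- **Descent.**  Every element of `Ω = F_M` lies in `Fc M E` as soon as the number field `E`
contains a certain finite set of constants. -/
theorem exists_finset_series (x : LaurentSeries Qb) (hx : x ∈ modularFunctionFieldBar M) :
    ∃ T : Finset Qb, ∀ E : IntermediateField ℚ Qb, (∀ a ∈ T, a ∈ E) →
      ∃ f ∈ Fc M E, (f : LaurentSeries Qb) = x := by
  classical
  rw [mem_laurentBaseChange_iff] at hx
  induction hx using Subfield.closure_induction with
  | mem y hy =>
      rcases hy with ⟨a, rfl⟩ | ⟨z, hz, rfl⟩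
      · refine ⟨{a}, fun E hE => ⟨algebraMap Qb (Om M) a, algebraMap_mem_Fc (hE a (by simp)), rfl⟩⟩
      · exact ⟨∅, fun E _ => exists_mem_Fc_of_mem_full hz⟩
  | one => exact ⟨∅, fun E _ => ⟨1, one_mem _, rfl⟩⟩
  | add x y _ _ hx hy =>
      obtain ⟨T₁, h₁⟩ := hx
      obtain ⟨T₂, h₂⟩ := hy
      refine ⟨T₁ ∪ T₂, fun E hE => ?_⟩
      obtain ⟨f, hf, hfx⟩ := h₁ E (fun a ha => hE a (Finset.mem_union_left _ ha))
      obtain ⟨g, hg, hgy⟩ := h₂ E (fun a ha => hE a (Finset.mem_union_right _ ha))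
      exact ⟨f + g, add_mem hf hg, by rw [← hfx, ← hgy]; rfl⟩
  | neg x _ hx =>
      obtain ⟨T₁, h₁⟩ := hx
      refine ⟨T₁, fun E hE => ?_⟩
      obtain ⟨f, hf, hfx⟩ := h₁ E hE
      exact ⟨-f, neg_mem hf, by rw [← hfx]; rfl⟩
  | inv x _ hx =>
      obtain ⟨T₁, h₁⟩ := hx
      refine ⟨T₁, fun E hE => ?_⟩
      obtain ⟨f, hf, hfx⟩ := h₁ E hE
      exact ⟨f⁻¹, inv_mem hf, by rw [← hfx]; rfl⟩
  | mul x y _ _ hx hy =>
      obtain ⟨T₁, h₁⟩ := hx
      obtain ⟨T₂, h₂⟩ := hy
      refine ⟨T₁ ∪ T₂, fun E hE => ?_⟩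
      obtain ⟨f, hf, hfx⟩ := h₁ E (fun a ha => hE a (Finset.mem_union_left _ ha))
      obtain ⟨g, hg, hgy⟩ := h₂ E (fun a ha => hE a (Finset.mem_union_right _ ha))
      exact ⟨f * g, mul_mem hf hg, by rw [← hfx, ← hgy]; rfl⟩

variable (M) in
/-- **Descent**, elementwise form. -/
theorem exists_finset_mem_Fc (f : Om M) :
    ∃ T : Finset Qb, ∀ E : IntermediateField ℚ Qb, (∀ a ∈ T, a ∈ E) → f ∈ Fc M E := by
  obtain ⟨T, hT⟩ := exists_finset_series M (f : LaurentSeries Qb) f.2
  refine ⟨T, fun E hE => ?_⟩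
  obtain ⟨g, hg, hgf⟩ := hT E hE
  have : g = f := Subtype.ext hgf
  exact this ▸ hg


/-! ### `m` is a unit of `A ∩ E` -/

theorem natCast_inv_mem_valuationSubring {ℓ : ℕ} (hℓ : ℓ.Prime) (A : ValuationSubring Qb)
    (hA : A.LiesOverPrime ℓ) {m : ℕ} (hm : ¬ ℓ ∣ m) : ((m : Qb))⁻¹ ∈ A := by
  have hcop : IsCoprime (ℓ : ℤ) (m : ℤ) :=
    Nat.isCoprime_iff_coprime.mpr ((Nat.Prime.coprime_iff_not_dvd hℓ).mpr hm)
  obtain ⟨a, b, hab⟩ := hcop
  have habQ : (a : Qb) * (ℓ : Qb) + (b : Qb) * (m : Qb) = 1 := by exact_mod_cast hab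
  have hℓv : A.valuation (ℓ : Qb) < 1 := (A.mem_nonunits_iff).mp hA
  have hint : ∀ c : ℤ, A.valuation (c : Qb) ≤ 1 := fun c =>
    (A.valuation_le_one_iff _).mpr (intCast_mem A c)
  have hmle : A.valuation (m : Qb) ≤ 1 := (A.valuation_le_one_iff _).mpr (natCast_mem A m)
  have hmge : ¬ A.valuation (m : Qb) < 1 := by
    intro hlt
    have h1 : A.valuation ((a : Qb) * (ℓ : Qb)) < 1 := by
      rw [map_mul]
      calc A.valuation (a : Qb) * A.valuation (ℓ : Qb) ≤ 1 * A.valuation (ℓ : Qb) :=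
            mul_le_mul' (hint a) le_rfl
        _ = A.valuation (ℓ : Qb) := one_mul _
        _ < 1 := hℓv
    have h2 : A.valuation ((b : Qb) * (m : Qb)) < 1 := by
      rw [map_mul]
      calc A.valuation (b : Qb) * A.valuation (m : Qb) ≤ 1 * A.valuation (m : Qb) :=
            mul_le_mul' (hint b) le_rfl
        _ = A.valuation (m : Qb) := one_mul _
        _ < 1 := hlt
    have h3 : A.valuation ((a : Qb) * (ℓ : Qb) + (b : Qb) * (m : Qb)) < 1 :=
      Valuation.map_add_lt _ h1 h2
    rw [habQ, map_one] at h3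
    exact lt_irrefl _ h3
  have hm1 : A.valuation (m : Qb) = 1 := le_antisymm hmle (not_lt.mp hmge)
  rw [← A.valuation_le_one_iff, map_inv₀, hm1, inv_one]

theorem mem_Rc_iff {A : ValuationSubring Qb} {y : Om M} :
    y ∈ Rc M A E ↔ ∃ a : Qb, a ∈ A ∧ a ∈ E ∧ algebraMap Qb (Om M) a = y := by
  constructor
  · rintro ⟨a, ⟨haA, haE⟩, rfl⟩
    exact ⟨a, haA, haE, rfl⟩
  · rintro ⟨a, haA, haE, rfl⟩
    exact ⟨a, ⟨haA, haE⟩, rfl⟩

theorem natCast_inv_mem_Rc {ℓ : ℕ} (hℓ : ℓ.Prime) (A : ValuationSubring Qb)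
    (hA : A.LiesOverPrime ℓ) {m : ℕ} (hm : ¬ ℓ ∣ m) : ((m : Om M))⁻¹ ∈ Rc M A E := by
  rw [mem_Rc_iff]
  refine ⟨((m : Qb))⁻¹, natCast_inv_mem_valuationSubring hℓ A hA hm,
    inv_mem (natCast_mem E m), ?_⟩
  rw [map_inv₀, map_natCast]

theorem Rc_le_Ec {A : ValuationSubring Qb} {y : Om M} (hy : y ∈ Rc M A E) : y ∈ Ec M E := by
  obtain ⟨a, -, haE, rfl⟩ := mem_Rc_iff.mp hy
  exact algebraMap_mem_Ec haE

/-! ### The divisor hypothesis in valuation-subring form -/

theorem exists_unit_twist [NeZero M] {m : ℕ} {f g : Om M} (hf : f ≠ 0) (hg : g ≠ 0)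
    (hdiv : ∀ v : Place Qb (modularFunctionFieldBar M), (m : ℤ) ∣ v.ord f - v.ord g)
    (O : ValuationSubring (Om M)) (hO : ∀ a ∈ Lc M, a ∈ O) :
    ∃ t : Om M, t ≠ 0 ∧ (f / g) * t ^ m ∈ O ∧ ((f / g) * t ^ m)⁻¹ ∈ O := by
  by_cases hO' : O = ⊤
  · subst hO'
    exact ⟨1, one_ne_zero, ValuationSubring.mem_top _, ValuationSubring.mem_top _⟩
  obtain ⟨P⟩ := Fermat.Agent.S24.nonempty_modularPackage M
  have := P.finiteDimensional
  obtain ⟨v, hv⟩ := Fermat.Agent.Lib.RR.H443.exists_place_eq O
    (fun a => hO _ ⟨a, rfl⟩) hO' (Fermat.Agent.Lib.RR.H864.transcendental_jF M)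
  obtain ⟨k, hk⟩ := hdiv v
  obtain ⟨π, hπ⟩ := Fermat.Agent.Lib.RR.exists_ord_eq_one v
  have hπ0 : π ≠ 0 := Fermat.Agent.Lib.RR.ne_zero_of_ord_ne_zero v (by rw [hπ]; exact one_ne_zero)
  have ht0 : π ^ (-k) ≠ 0 := zpow_ne_zero _ hπ0
  have hfg : f / g ≠ 0 := div_ne_zero hf hg
  have hord : v.ord ((f / g) * (π ^ (-k)) ^ m) = 0 := by
    rw [v.ord_mul hfg (pow_ne_zero _ ht0), div_eq_mul_inv, v.ord_mul hf (inv_ne_zero hg),
      v.ord_inv, Fermat.Agent.Lib.RR.ord_pow, v.ord_zpow, hπ]
    have : v.ord f = v.ord g + m * k := by linarith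
    rw [this]
    ring
  refine ⟨π ^ (-k), ht0, ?_, ?_⟩
  · rw [← hv]
    exact Fermat.Agent.Lib.RR.mem_of_ord_nonneg v (by rw [hord])
  · rw [← hv]
    exact Fermat.Agent.Lib.RR.mem_of_ord_nonneg v (by rw [v.ord_inv, hord, neg_zero])


/-! ### `u ≡ 1` modulo the uniformiser -/

/-- A series over `Q̄` with coefficients in `A` comes from a series over `A`. -/
theorem exists_series_of_coeff_mem (A : ValuationSubring Qb) (x : LaurentSeries Qb)
    (hx : ∀ n, x.coeff n ∈ A) : ∃ U : LaurentSeries A, coeffMap A.subtype U = x := by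
  refine ⟨⟨fun n => ⟨x.coeff n, hx n⟩, x.isPWO_support.mono ?_⟩, ?_⟩
  · intro n hn
    rw [HahnSeries.mem_support]
    intro h0
    exact hn (Subtype.ext h0)
  · ext n
    rfl

theorem toF_ne_zero {A : ValuationSubring Qb} {U : LaurentSeries A} (hU : IsInt A M U) :
    toF hU ≠ 0 := by
  intro h0
  apply hU.2.2
  have h1 : coeffMap A.subtype U = 0 := congrArg Subtype.val h0
  have h2 : U = 0 := by
    ext n
    have := congrArg (fun x => x.coeff n) h1
    simpa using this
  rw [h2, map_zero]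

theorem coe_toF {A : ValuationSubring Qb} {U : LaurentSeries A} (hU : IsInt A M U) :
    ((toF hU : Om M) : LaurentSeries Qb) = coeffMap A.subtype U := rfl

/-- **`u ≡ 1 mod w`.**  If `U₁, U₂` are integral with the same reduction and `toF U_i ∈ Fc M E`,
then `(U₁/U₂ - 1)/w` lies in the Gauss valuation ring `VcSet M A E`, for any `w` generating the
maximal ideal of `Rc M A E`. -/
theorem sub_one_mul_inv_mem_VcSet (A : ValuationSubring Qb) {U₁ U₂ : LaurentSeries A}
    (h₁ : IsInt A M U₁) (h₂ : IsInt A M U₂)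
    (hred : coeffMap (IsLocalRing.residue A) U₁ = coeffMap (IsLocalRing.residue A) U₂)
    (hf₁ : toF h₁ ∈ Fc M E) (hf₂ : toF h₂ ∈ Fc M E)
    {w : Om M} (hw : w ∈ Rc M A E)
    (hgen : ∀ r ∈ Rc M A E, r⁻¹ ∉ Rc M A E → r * w⁻¹ ∈ Rc M A E) :
    (toF h₁ / toF h₂ - 1) * w⁻¹ ∈ VcSet M A E := by
  obtain ⟨w', hw'A, hw'E, rfl⟩ := mem_Rc_iff.mp hw
  have hg0 : toF h₂ ≠ 0 := toF_ne_zero h₂
  have hwF : algebraMap Qb (Om M) w' ∈ Fc M E := algebraMap_mem_Fc hw'E
  set f : Om M := (toF h₁ - toF h₂) * (algebraMap Qb (Om M) w')⁻¹ with hf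
  have hfF : f ∈ Fc M E := mul_mem (sub_mem hf₁ hf₂) (inv_mem hwF)
  have huF : (toF h₁ / toF h₂ - 1) * (algebraMap Qb (Om M) w')⁻¹ ∈ Fc M E :=
    mul_mem (sub_mem (div_mem hf₁ hf₂) (one_mem _)) (inv_mem hwF)
  -- coefficients of `f`
  have hcoeff : ∀ n : ℤ, (f : LaurentSeries Qb).coeff n
      = ((U₁.coeff n : Qb) - (U₂.coeff n : Qb)) * w'⁻¹ := by
    intro n
    have e1 : (f : LaurentSeries Qb) = (coeffMap A.subtype U₁ - coeffMap A.subtype U₂)
        * (algebraMap Qb (LaurentSeries Qb) w')⁻¹ := rfl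
    rw [e1, ← map_inv₀, algebraMap_laurentSeries_eq_single, HahnSeries.coeff_mul_single_zero,
      HahnSeries.coeff_sub, coeffMap_coeff, coeffMap_coeff]
    rfl
  have hcoeffE : ∀ (U : LaurentSeries A) (hU : IsInt A M U), toF hU ∈ Fc M E →
      ∀ n : ℤ, ((U.coeff n : A) : Qb) ∈ E := by
    intro U hU hUF n
    have := coeff_mem_of_mem_Fc hUF n
    rwa [coe_toF, coeffMap_coeff] at this
  have hcoeffA : ∀ n : ℤ, (f : LaurentSeries Qb).coeff n ∈ A := by
    intro n
    rw [hcoeff]
    set d : A := U₁.coeff n - U₂.coeff n with hd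
    have hdval : ((U₁.coeff n : Qb) - (U₂.coeff n : Qb)) = (d : Qb) := rfl
    rw [hdval]
    have hdE : (d : Qb) ∈ E := sub_mem (hcoeffE U₁ h₁ hf₁ n) (hcoeffE U₂ h₂ hf₂ n)
    have hres : IsLocalRing.residue A d = 0 := by
      have := congrArg (fun x => x.coeff n) hred
      simp only [coeffMap_coeff] at this
      rw [hd, map_sub, this, sub_self]
    have hnu : ¬ IsUnit d := by
      rw [IsLocalRing.residue_eq_zero_iff] at hres
      exact (IsLocalRing.mem_maximalIdeal _).mp hres
    by_cases hd0 : (d : Qb) = 0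
    · rw [hd0, zero_mul]
      exact A.zero_mem
    have hr : algebraMap Qb (Om M) (d : Qb) ∈ Rc M A E := mem_Rc_iff.mpr ⟨d, d.2, hdE, rfl⟩
    have hr' : (algebraMap Qb (Om M) (d : Qb))⁻¹ ∉ Rc M A E := by
      intro hmem
      obtain ⟨b, hbA, -, hb⟩ := mem_Rc_iff.mp hmem
      rw [← map_inv₀] at hb
      have hb' : b = (d : Qb)⁻¹ := (algebraMap Qb (Om M)).injective hb
      apply hnu
      refine IsUnit.of_mul_eq_one (⟨b, hbA⟩ : A) (Subtype.ext ?_)
      change (d : Qb) * b = 1
      rw [hb', mul_inv_cancel₀ hd0]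
    obtain ⟨c, hcA, -, hc⟩ := mem_Rc_iff.mp (hgen _ hr hr')
    rw [← map_inv₀, ← map_mul] at hc
    have hc' : c = (d : Qb) * w'⁻¹ := (algebraMap Qb (Om M)).injective hc
    rw [← hc']
    exact hcA
  obtain ⟨W₁, hW₁⟩ := exists_series_of_coeff_mem A (f : LaurentSeries Qb) hcoeffA
  refine ⟨huF, W₁, U₂, ⟨?_, f, hfF, hW₁.symm⟩, ⟨hcoeffE U₂ h₂ hf₂, toF h₂, hf₂, rfl⟩,
    h₂.2.2, ?_⟩
  · intro n
    have := coeff_mem_of_mem_Fc hfF n
    rwa [← hW₁, coeffMap_coeff] at this
  · rw [hW₁, ← coe_toF h₂]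
    have : (toF h₁ / toF h₂ - 1) * (algebraMap Qb (Om M) w')⁻¹ * toF h₂ = f := by
      rw [hf]
      field_simp
    rw [← this]
    rfl

end Fermat.Agent.S18.H965

end
end
-- ===== PACK-END S18/H965/GlueLemmas.lean

-- ===== PACK-BEGIN Lib/HFree/H412/R3Core.lean
section







/-!
# R3 core: a Hecke eigen-character modulo `p` of `Γ₀(M)` comes from an eigenform of level `M`

Let `c : Γ₀(M) → ℤ/p` be a nonzero parabolic character (killing parabolic and finite order
elements) with `T_ℓ c = a_ℓ c` for the primes `ℓ ∤ M`, `ℓ ∉ S`.  Then there is a normalised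
eigenform `g` of weight 2 and level `M` and a maximal ideal `𝔪 ∋ p` of `ℤ̄` with
`a_ℓ(g) ≡ a_ℓ mod 𝔪` for all those `ℓ`.

Inputs: HFree (this library), the real form of Eichler–Shimura (S21: `f ↦ Re per_f` is a
bijection `S₂(Γ₀(M)) → Hom_par(Γ₀(M), ℝ)`), Hecke equivariance of the period map (S29/H201) and
Deligne–Serre lifting (Lib/Ribet/H584).
-/

set_option autoImplicit false
set_option linter.unusedSectionVars false
set_option linter.style.haveILetI false

open CuspForm CongruenceSubgroup ModularFormClass ModularCurve ModularCurve.Period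
open scoped MatrixGroups

namespace Fermat.Agent.Lib.HFree.H412

open Fermat.Agent.S29.H201 (heckeHom heckeHom_comp heckeHom_mem_pe IsPe periodMap_heckeTLin)
open Fermat.Agent.S21 (reHom exists_re_periodMap_eq eq_zero_of_re_periodMap_eq_zero
  periodMap_add periodMap_sub periodMap_smul)

variable {M : ℕ} [NeZero M]

/-! ### Integral parabolic characters -/

/-- `ℤ`-valued characters kill elements of finite order. -/
theorem int_hom_finOrder (c : Additive (Gamma0 M) →+ ℤ) (γ : Gamma0 M) (hγ : IsOfFinOrder γ) :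
    c (Additive.ofMul γ) = 0 := by
  obtain ⟨n, hn, hγn⟩ := hγ.exists_pow_eq_one
  have h1 : c (Additive.ofMul (γ ^ n)) = n • c (Additive.ofMul γ) := by
    rw [ofMul_pow, map_nsmul]
  rw [hγn, ofMul_one, map_zero] at h1
  have hn' : (n : ℤ) ≠ 0 := by exact_mod_cast hn.ne'
  rw [nsmul_eq_mul] at h1
  exact (mul_eq_zero.mp h1.symm).resolve_left hn'

theorem isPe_int {c : Additive (Gamma0 M) →+ ℤ} (hc : IsParabolicHom (Gamma0 M) c) : IsPe c :=
  ⟨hc, fun γ hγ => int_hom_finOrder c γ hγ⟩

/-- HFree for bundled characters. -/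
theorem exists_lift_isPe (m : ℕ) [NeZero m] (c : Additive (Gamma0 M) →+ ZMod m) (hc : IsPe c) :
    ∃ c' : Additive (Gamma0 M) →+ ℤ, IsParabolicHom (Gamma0 M) c' ∧
      (Int.castAddHom (ZMod m)).comp c' = c := by
  obtain ⟨c', hc', hpar, hred⟩ := exists_lift_addChar (Γ := Gamma0 M)
    (neg_one_mem_Gamma0_HFree M) m (fun γ => c (Additive.ofMul γ))
    (fun γ γ' => map_add c (Additive.ofMul γ) (Additive.ofMul γ'))
    (fun γ n hn hγ => hc.2 γ (isOfFinOrder_iff_pow_eq_one.mpr ⟨n, hn, hγ⟩))
    (fun γ hγ => hc.1 γ (by rw [hγ]; norm_num))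
  refine ⟨AddMonoidHom.mk' (fun γ => c' (Additive.toMul γ)) (fun γ γ' => hc' _ _), ?_, ?_⟩
  · intro γ hγ
    have h2 : ((γ : SL(2, ℤ)) : Matrix (Fin 2) (Fin 2) ℤ).trace = 2 ∨
        ((γ : SL(2, ℤ)) : Matrix (Fin 2) (Fin 2) ℤ).trace = -2 := by
      have : (((γ : SL(2, ℤ)) : Matrix (Fin 2) (Fin 2) ℤ).trace - 2) *
          (((γ : SL(2, ℤ)) : Matrix (Fin 2) (Fin 2) ℤ).trace + 2) = 0 := by
        linear_combination hγ
      rcases mul_eq_zero.mp this with h' | h'
      · left; linarith
      · right; linarith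
    exact hpar γ h2
  · refine AddMonoidHom.ext fun γ => ?_
    exact hred (Additive.toMul γ)

/-- An integral parabolic character which vanishes modulo `m` is divisible by `m`. -/
theorem exists_eq_nsmul_of_comp_eq_zero (m : ℕ) [NeZero m] (c : Additive (Gamma0 M) →+ ℤ)
    (hc : IsParabolicHom (Gamma0 M) c) (h0 : (Int.castAddHom (ZMod m)).comp c = 0) :
    ∃ c' : Additive (Gamma0 M) →+ ℤ, IsParabolicHom (Gamma0 M) c' ∧ c = m • c' := by
  have hm0 : (m : ℤ) ≠ 0 := by exact_mod_cast NeZero.ne m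
  have hdvd : ∀ γ : Additive (Gamma0 M), ∃ e : ℤ, c γ = m * e := fun γ =>
    (ZMod.intCast_zmod_eq_zero_iff_dvd (c γ) m).mp (DFunLike.congr_fun h0 γ)
  choose c' hc' using hdvd
  refine ⟨AddMonoidHom.mk' c' (fun γ γ' => ?_), fun γ hγ => ?_, ?_⟩
  · apply mul_left_cancel₀ hm0
    rw [mul_add, ← hc', ← hc', ← hc', map_add]
  · apply mul_left_cancel₀ hm0
    show (m : ℤ) * c' (Additive.ofMul γ) = m * 0
    rw [← hc', mul_zero, hc γ hγ]
  · refine AddMonoidHom.ext fun γ => ?_
    show c γ = (m • AddMonoidHom.mk' c' _) γ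
    rw [AddMonoidHom.smul_apply, nsmul_eq_mul]
    exact hc' γ

/-! ### The lattice of cusp forms with integral real periods -/

/-- The cusp forms whose real periods form an integral parabolic character. -/
def intPerLattice (M : ℕ) [NeZero M] : AddSubgroup (CuspForm (Gamma0 M) 2) where
  carrier := {f | ∃ c : Additive (Gamma0 M) →+ ℤ, IsParabolicHom (Gamma0 M) c ∧
    reHom (periodMap M f) = (Int.castAddHom ℝ).comp c}
  zero_mem' := by
    refine ⟨0, fun _ _ => rfl, ?_⟩
    refine AddMonoidHom.ext fun γ => ?_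
    have h0 : periodMap M (0 : CuspForm (Gamma0 M) 2) = 0 := by
      have := periodMap_smul (N := M) (0 : ℂ) (0 : CuspForm (Gamma0 M) 2)
      rwa [zero_smul, zero_smul] at this
    show (periodMap M (0 : CuspForm (Gamma0 M) 2) γ).re = ((0 : ℤ) : ℝ)
    rw [h0]
    simp
  add_mem' := by
    rintro f g ⟨c, hc, hf⟩ ⟨d, hd, hg⟩
    refine ⟨c + d, fun γ hγ => ?_, ?_⟩
    · show c (Additive.ofMul γ) + d (Additive.ofMul γ) = 0
      rw [hc γ hγ, hd γ hγ, add_zero]
    · refine AddMonoidHom.ext fun γ => ?_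
      have h1 : (periodMap M f γ).re = ((c γ : ℤ) : ℝ) := DFunLike.congr_fun hf γ
      have h2 : (periodMap M g γ).re = ((d γ : ℤ) : ℝ) := DFunLike.congr_fun hg γ
      show (periodMap M (f + g) γ).re = (((c + d) γ : ℤ) : ℝ)
      rw [periodMap_add, AddMonoidHom.add_apply, Complex.add_re, h1, h2,
        AddMonoidHom.add_apply]
      push_cast
      rfl
  neg_mem' := by
    rintro f ⟨c, hc, hf⟩
    refine ⟨-c, fun γ hγ => ?_, ?_⟩
    · show -c (Additive.ofMul γ) = 0
      rw [hc γ hγ, neg_zero]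
    · refine AddMonoidHom.ext fun γ => ?_
      have h1 : (periodMap M f γ).re = ((c γ : ℤ) : ℝ) := DFunLike.congr_fun hf γ
      have hneg : periodMap M (-f) = -periodMap M f := by
        have := periodMap_smul (N := M) (-1 : ℂ) f
        rwa [neg_one_smul, neg_one_smul] at this
      show (periodMap M (-f) γ).re = (((-c) γ : ℤ) : ℝ)
      rw [hneg, AddMonoidHom.neg_apply, Complex.neg_re, h1, AddMonoidHom.neg_apply]
      push_cast
      rfl

theorem mem_intPerLattice {f : CuspForm (Gamma0 M) 2} :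
    f ∈ intPerLattice M ↔ ∃ c : Additive (Gamma0 M) →+ ℤ, IsParabolicHom (Gamma0 M) c ∧
      reHom (periodMap M f) = (Int.castAddHom ℝ).comp c := Iff.rfl

/-- Every integral parabolic character is the real period character of a cusp form. -/
theorem exists_mem_intPerLattice (c : Additive (Gamma0 M) →+ ℤ)
    (hc : IsParabolicHom (Gamma0 M) c) :
    ∃ f : CuspForm (Gamma0 M) 2, reHom (periodMap M f) = (Int.castAddHom ℝ).comp c := by
  obtain ⟨f, hf⟩ := exists_re_periodMap_eq ((Int.castAddHom ℝ).comp c) (fun γ hγ => by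
    show ((c (Additive.ofMul γ) : ℤ) : ℝ) = 0
    rw [hc γ hγ]
    simp)
  refine ⟨f, AddMonoidHom.ext fun γ => ?_⟩
  obtain ⟨γ, rfl⟩ : ∃ γ' : Gamma0 M, Additive.ofMul γ' = γ := ⟨Additive.toMul γ, rfl⟩
  exact hf γ

/-- A cusp form is determined by its real periods. -/
theorem eq_of_reHom_periodMap_eq {f g : CuspForm (Gamma0 M) 2}
    (h : reHom (periodMap M f) = reHom (periodMap M g)) : f = g := by
  rw [← sub_eq_zero]
  refine eq_zero_of_re_periodMap_eq_zero (f - g) fun γ => ?_
  have h1 : (periodMap M f (Additive.ofMul γ)).re = (periodMap M g (Additive.ofMul γ)).re :=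
    DFunLike.congr_fun h (Additive.ofMul γ)
  rw [periodMap_sub, AddMonoidHom.sub_apply, Complex.sub_re, h1, sub_self]

/-- Real periods of `T_ℓ f`. -/
theorem reHom_periodMap_heckeTLin {ℓ : ℕ} [Fact ℓ.Prime] (hℓ : ℓ.Prime) (hℓM : ¬ ℓ ∣ M)
    (f : CuspForm (Gamma0 M) 2) :
    reHom (periodMap M (heckeTLin 2 hℓ hℓM f)) = heckeHom ℓ hℓM ℝ (reHom (periodMap M f)) := by
  rw [periodMap_heckeTLin hℓ hℓM f]
  exact (heckeHom_comp hℓM Complex.reLm.toAddMonoidHom (periodMap M f)).symm

theorem heckeTLin_mem_intPerLattice {ℓ : ℕ} (hℓ : ℓ.Prime) (hℓM : ¬ ℓ ∣ M)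
    {f : CuspForm (Gamma0 M) 2} (hf : f ∈ intPerLattice M) :
    heckeTLin 2 hℓ hℓM f ∈ intPerLattice M := by
  haveI : Fact ℓ.Prime := ⟨hℓ⟩
  obtain ⟨c, hc, hfc⟩ := hf
  refine ⟨heckeHom ℓ hℓM ℤ c, (heckeHom_mem_pe hℓM (isPe_int hc)).1, ?_⟩
  rw [reHom_periodMap_heckeTLin hℓ hℓM, hfc, heckeHom_comp]

/-- The Hecke algebra away from `S'` (containing all primes dividing `M`) preserves the lattice. -/
theorem apply_mem_intPerLattice (S' : Set ℕ) (hS' : ∀ q : ℕ, q.Prime → q ∣ M → q ∈ S')
    {t : Module.End ℂ (CuspForm (Gamma0 M) 2)} (ht : t ∈ heckeAlgebra M 2 S')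
    {f : CuspForm (Gamma0 M) 2} (hf : f ∈ intPerLattice M) : t f ∈ intPerLattice M := by
  induction ht using Algebra.adjoin_induction generalizing f with
  | mem x hx =>
    rcases hx with ⟨ℓ, hℓ, hℓM, -, rfl⟩ | ⟨q, hqM, hq, hqS, rfl⟩
    · exact heckeTLin_mem_intPerLattice hℓ hℓM hf
    · exact absurd (hS' q hq hqM) hqS
  | algebraMap r =>
    rw [Algebra.algebraMap_eq_smul_one, LinearMap.smul_apply, Module.End.one_apply]
    exact (intPerLattice M).zsmul_mem hf r
  | add x y _ _ hx hy =>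
    rw [LinearMap.add_apply]
    exact (intPerLattice M).add_mem (hx hf) (hy hf)
  | mul x y _ _ hx hy =>
    rw [Module.End.mul_apply]
    exact hx (hy hf)

/-! ### The main theorem -/

/-- **R3 core.** A nonzero parabolic Hecke eigen-character modulo `p` of `Γ₀(M)` is congruent to
a normalised eigenform of level `M`. -/
theorem exists_eigenform_of_eigen_isPe {p : ℕ} (hp : p.Prime) (S : Set ℕ) (a : ℕ → ℤ)
    (c : Additive (Gamma0 M) →+ ZMod p) (hc : IsPe c) (hc0 : c ≠ 0)
    (heig : ∀ (ℓ : ℕ) [Fact ℓ.Prime] (hℓM : ¬ ℓ ∣ M), ℓ ∉ S →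
      heckeHom ℓ hℓM (ZMod p) c = a ℓ • c) :
    ∃ (g : CuspForm (Gamma0 M) 2) (𝔪 : Ideal (integralClosure ℤ ℂ)),
      g.IsNormalizedEigenform ∧ 𝔪.IsMaximal ∧ (p : integralClosure ℤ ℂ) ∈ 𝔪 ∧
      ∀ ℓ : ℕ, ℓ.Prime → ¬ ℓ ∣ M → ℓ ∉ S →
        ∃ b : integralClosure ℤ ℂ, (b : ℂ) = qCoeff g ℓ ∧
          b - ((a ℓ : ℤ) : integralClosure ℤ ℂ) ∈ 𝔪 := by
  classical
  haveI : NeZero p := ⟨hp.ne_zero⟩
  -- the excluded set
  set S' : Set ℕ := {ℓ | ℓ ∈ S ∨ ℓ ∣ M} with hS'def
  have hS' : ∀ q : ℕ, q.Prime → q ∣ M → q ∈ S' := fun q _ hqM => Or.inr hqM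
  -- lift the character and realise it by real periods
  obtain ⟨c', hc'par, hc'red⟩ := exists_lift_isPe p c hc
  obtain ⟨f₀, hf₀⟩ := exists_mem_intPerLattice c' hc'par
  have hf₀L : f₀ ∈ intPerLattice M := ⟨c', hc'par, hf₀⟩
  -- the ideal
  set gens : Set (heckeAlgebra M 2 S') :=
    insert ((p : ℕ) : heckeAlgebra M 2 S')
      {t | ∃ (ℓ : ℕ) (hℓ : ℓ.Prime) (hℓM : ¬ ℓ ∣ M) (hℓS : ℓ ∉ S'),
        t = heckeAlgebra.T hℓ hℓM hℓS - ((a ℓ : ℤ) : heckeAlgebra M 2 S')} with hgens
  have hkey : ∀ t ∈ Ideal.span gens, ∃ f' ∈ intPerLattice M,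
      (t : Module.End ℂ (CuspForm (Gamma0 M) 2)) f₀ = p • f' := by
    intro t ht
    induction ht using Submodule.span_induction with
    | mem x hx =>
      rcases hx with rfl | ⟨ℓ, hℓ, hℓM, hℓS, rfl⟩
      · refine ⟨f₀, hf₀L, ?_⟩
        show ((heckeAlgebra M 2 S').val ((p : ℕ) : heckeAlgebra M 2 S')) f₀ = p • f₀
        rw [map_natCast, Module.End.natCast_apply]
      · haveI : Fact ℓ.Prime := ⟨hℓ⟩
        have hℓS0 : ℓ ∉ S := fun h => hℓS (Or.inl h)
        -- the integral character `T_ℓ c' - a_ℓ c'` vanishes mod `p`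
        set d : Additive (Gamma0 M) →+ ℤ := heckeHom ℓ hℓM ℤ c' - a ℓ • c' with hd
        have hdpar : IsParabolicHom (Gamma0 M) d := by
          intro γ hγ
          show heckeHom ℓ hℓM ℤ c' (Additive.ofMul γ) - a ℓ • c' (Additive.ofMul γ) = 0
          rw [(heckeHom_mem_pe hℓM (isPe_int hc'par)).1 γ hγ, hc'par γ hγ]
          simp
        have hdred : (Int.castAddHom (ZMod p)).comp d = 0 := by
          have h1 : (Int.castAddHom (ZMod p)).comp (heckeHom ℓ hℓM ℤ c') =
              heckeHom ℓ hℓM (ZMod p) c := by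
            rw [← heckeHom_comp, hc'red]
          refine AddMonoidHom.ext fun γ => ?_
          have h2 := DFunLike.congr_fun h1 γ
          have h3 := DFunLike.congr_fun (heig ℓ hℓM hℓS0) γ
          have h4 := DFunLike.congr_fun hc'red γ
          simp only [AddMonoidHom.comp_apply, Int.coe_castAddHom, AddMonoidHom.smul_apply]
            at h2 h3 h4
          show (((heckeHom ℓ hℓM ℤ c' γ - a ℓ • c' γ : ℤ)) : ZMod p) = 0
          rw [smul_eq_mul]
          push_cast
          rw [h2, h3, h4, zsmul_eq_mul, sub_self]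
        obtain ⟨d', hd'par, hdd'⟩ := exists_eq_nsmul_of_comp_eq_zero p d hdpar hdred
        obtain ⟨f', hf'⟩ := exists_mem_intPerLattice d' hd'par
        refine ⟨f', ⟨d', hd'par, hf'⟩, ?_⟩
        have hcoe : ((heckeAlgebra.T hℓ hℓM hℓS - ((a ℓ : ℤ) : heckeAlgebra M 2 S') :
            heckeAlgebra M 2 S') : Module.End ℂ (CuspForm (Gamma0 M) 2)) f₀ =
            heckeTLin 2 hℓ hℓM f₀ - (a ℓ : ℤ) • f₀ := by
          show ((heckeAlgebra M 2 S').val (heckeAlgebra.T hℓ hℓM hℓS -
            ((a ℓ : ℤ) : heckeAlgebra M 2 S'))) f₀ = _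
          rw [map_sub, map_intCast, LinearMap.sub_apply, Module.End.intCast_apply]
          rfl
        rw [hcoe]
        apply eq_of_reHom_periodMap_eq
        refine AddMonoidHom.ext fun γ => ?_
        have e1 := DFunLike.congr_fun (reHom_periodMap_heckeTLin hℓ hℓM f₀) γ
        have e2 := DFunLike.congr_fun hf₀ γ
        have e3 := DFunLike.congr_fun hf' γ
        have e4 := DFunLike.congr_fun hdd' γ
        have e5 := DFunLike.congr_fun (heckeHom_comp hℓM (Int.castAddHom ℝ) c') γ
        rw [hf₀] at e1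
        rw [e5] at e1
        have hsmulp : periodMap M (p • f') = (p : ℂ) • periodMap M f' := by
          rw [← periodMap_smul, Nat.cast_smul_eq_nsmul]
        have hsmula : periodMap M ((a ℓ : ℤ) • f₀) = (a ℓ : ℂ) • periodMap M f₀ := by
          rw [← periodMap_smul, Int.cast_smul_eq_zsmul]
        show (periodMap M (heckeTLin 2 hℓ hℓM f₀ - (a ℓ : ℤ) • f₀) γ).re =
          (periodMap M (p • f') γ).re
        rw [periodMap_sub, hsmulp, hsmula]
        simp only [AddMonoidHom.sub_apply, AddMonoidHom.smul_apply, Complex.sub_re,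
          smul_eq_mul, Complex.mul_re, Complex.intCast_re, Complex.intCast_im,
          Complex.natCast_re, Complex.natCast_im, zero_mul, sub_zero]
        have e1' : (periodMap M (heckeTLin 2 hℓ hℓM f₀) γ).re =
            ((heckeHom ℓ hℓM ℤ c' γ : ℤ) : ℝ) := e1
        have e2' : (periodMap M f₀ γ).re = ((c' γ : ℤ) : ℝ) := e2
        have e3' : (periodMap M f' γ).re = ((d' γ : ℤ) : ℝ) := e3
        have e4' : heckeHom ℓ hℓM ℤ c' γ - a ℓ * c' γ = p * d' γ := by
          simpa [hd, AddMonoidHom.sub_apply, AddMonoidHom.smul_apply, zsmul_eq_mul,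
            nsmul_eq_mul] using e4
        rw [e1', e2', e3']
        exact_mod_cast e4'
    | zero =>
      refine ⟨0, (intPerLattice M).zero_mem, ?_⟩
      simp
    | add x y _ _ hx hy =>
      obtain ⟨f₁, hf₁, e₁⟩ := hx
      obtain ⟨f₂, hf₂, e₂⟩ := hy
      refine ⟨f₁ + f₂, (intPerLattice M).add_mem hf₁ hf₂, ?_⟩
      rw [Subalgebra.coe_add, LinearMap.add_apply, e₁, e₂, smul_add]
    | smul b x _ hx =>
      obtain ⟨f₁, hf₁, e₁⟩ := hx
      refine ⟨(b : Module.End ℂ (CuspForm (Gamma0 M) 2)) f₁,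
        apply_mem_intPerLattice S' hS' b.2 hf₁, ?_⟩
      rw [smul_eq_mul, Subalgebra.coe_mul, Module.End.mul_apply, e₁, map_nsmul]
  -- the ideal is proper
  have hne : Ideal.span gens ≠ ⊤ := by
    intro htop
    obtain ⟨f', ⟨d', hd'par, hf'⟩, e⟩ := hkey 1 (htop ▸ Submodule.mem_top)
    rw [Subalgebra.coe_one, Module.End.one_apply] at e
    apply hc0
    rw [← hc'red]
    refine AddMonoidHom.ext fun γ => ?_
    have e2 : (periodMap M f₀ γ).re = ((c' γ : ℤ) : ℝ) := DFunLike.congr_fun hf₀ γ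
    have e3 : (periodMap M f' γ).re = ((d' γ : ℤ) : ℝ) := DFunLike.congr_fun hf' γ
    have hsmulp : periodMap M (p • f') = (p : ℂ) • periodMap M f' := by
      rw [← periodMap_smul, Nat.cast_smul_eq_nsmul]
    rw [e, hsmulp] at e2
    simp only [AddMonoidHom.smul_apply, smul_eq_mul, Complex.mul_re, Complex.natCast_re,
      Complex.natCast_im, zero_mul, sub_zero] at e2
    rw [e3] at e2
    have e4 : (p : ℤ) * d' γ = c' γ := by exact_mod_cast e2
    show ((c' γ : ℤ) : ZMod p) = 0
    rw [← e4]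
    push_cast
    simp
  obtain ⟨𝔫, h𝔫max, h𝔫le⟩ := Ideal.exists_le_maximal _ hne
  letI : Field (heckeAlgebra M 2 S' ⧸ 𝔫) := Ideal.Quotient.field 𝔫
  have hpk : ((p : ℕ) : heckeAlgebra M 2 S' ⧸ 𝔫) = 0 := by
    have h1 : ((p : ℕ) : heckeAlgebra M 2 S') ∈ 𝔫 :=
      h𝔫le (Ideal.subset_span (Set.mem_insert _ _))
    have h2 := Ideal.Quotient.eq_zero_iff_mem.mpr h1
    rwa [map_natCast] at h2
  haveI : CharP (heckeAlgebra M 2 S' ⧸ 𝔫) p := (CharP.charP_iff_prime_eq_zero hp).mpr hpk
  obtain ⟨g, 𝔪, hg, h𝔪, hp𝔪, hcongr⟩ :=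
    Fermat.Agent.Lib.Ribet.H584.exists_eigenform_congr_of_ringHom S' p
      (Ideal.Quotient.mk 𝔫) a (fun ℓ hℓ hℓM hℓS => by
        have h1 : heckeAlgebra.T hℓ hℓM hℓS - ((a ℓ : ℤ) : heckeAlgebra M 2 S') ∈ 𝔫 :=
          h𝔫le (Ideal.subset_span (Set.mem_insert_of_mem _ ⟨ℓ, hℓ, hℓM, hℓS, rfl⟩))
        have h2 := Ideal.Quotient.eq_zero_iff_mem.mpr h1
        rw [map_sub, map_intCast, sub_eq_zero] at h2
        exact h2)
  refine ⟨g, 𝔪, hg, h𝔪, hp𝔪, fun ℓ hℓ hℓM hℓS => hcongr ℓ hℓ hℓM ?_⟩
  rintro (h | h)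
  · exact hℓS h
  · exact hℓM h

/-! ### The same in the language of `Fermat.Agent.S29.DefsM` (`G0`, `IsParHom`, `heckeCoh`) -/

open Fermat.Agent.S29 (G0 IsParHom heckeCoh)

/-- The bundled character of a parabolic character in the sense of `S29.DefsM`. -/
def bundle {A : Type*} [AddCommGroup A] (c : G0 M → A) (hc : IsParHom c) :
    Additive (Gamma0 M) →+ A :=
  AddMonoidHom.mk' (fun γ => c (Additive.toMul γ)) (fun _ _ => hc.map_mul _ _)

theorem bundle_apply {A : Type*} [AddCommGroup A] (c : G0 M → A) (hc : IsParHom c)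
    (γ : Gamma0 M) : bundle c hc (Additive.ofMul γ) = c γ := rfl

theorem isPe_bundle {A : Type*} [AddCommGroup A] (c : G0 M → A) (hc : IsParHom c) :
    IsPe (bundle c hc) := by
  refine ⟨fun γ hγ => ?_, fun γ hγ => ?_⟩
  · have h2 : ((γ : SL(2, ℤ)) : Matrix (Fin 2) (Fin 2) ℤ).trace = 2 ∨
        ((γ : SL(2, ℤ)) : Matrix (Fin 2) (Fin 2) ℤ).trace = -2 := by
      have : (((γ : SL(2, ℤ)) : Matrix (Fin 2) (Fin 2) ℤ).trace - 2) *
          (((γ : SL(2, ℤ)) : Matrix (Fin 2) (Fin 2) ℤ).trace + 2) = 0 := by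
        linear_combination hγ
      rcases mul_eq_zero.mp this with h' | h'
      · left; linarith
      · right; linarith
    exact hc.parabolic γ h2
  · obtain ⟨n, hn, hγn⟩ := hγ.exists_pow_eq_one
    exact hc.elliptic γ n hn hγn

theorem heckeHom_bundle {A : Type*} [AddCommGroup A] {ℓ : ℕ} [Fact ℓ.Prime] (hℓM : ¬ ℓ ∣ M)
    (c : G0 M → A) (hc : IsParHom c) (γ : Gamma0 M) :
    heckeHom ℓ hℓM A (bundle c hc) (Additive.ofMul γ) = heckeCoh M ℓ c γ := by
  rw [Fermat.Agent.S29.M4aTop_heckeCoh_eq_sum_trf hℓM c γ]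
  rfl

/-- **R3 core**, `S29.DefsM` form. -/
theorem exists_eigenform_of_eigen_isParHom {p : ℕ} (hp : p.Prime) (S : Set ℕ) (a : ℕ → ℤ)
    (c : G0 M → ZMod p) (hc : IsParHom c) (hc0 : ∃ γ, c γ ≠ 0)
    (heig : ∀ ℓ : ℕ, ℓ.Prime → ¬ ℓ ∣ M → ℓ ∉ S →
      ∀ γ : G0 M, heckeCoh M ℓ c γ = (a ℓ : ZMod p) * c γ) :
    ∃ (g : CuspForm (Gamma0 M) 2) (𝔪 : Ideal (integralClosure ℤ ℂ)),
      g.IsNormalizedEigenform ∧ 𝔪.IsMaximal ∧ (p : integralClosure ℤ ℂ) ∈ 𝔪 ∧
      ∀ ℓ : ℕ, ℓ.Prime → ¬ ℓ ∣ M → ℓ ∉ S →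
        ∃ b : integralClosure ℤ ℂ, (b : ℂ) = qCoeff g ℓ ∧
          b - ((a ℓ : ℤ) : integralClosure ℤ ℂ) ∈ 𝔪 := by
  refine exists_eigenform_of_eigen_isPe hp S a (bundle c hc) (isPe_bundle c hc) ?_ ?_
  · intro h0
    obtain ⟨γ, hγ⟩ := hc0
    apply hγ
    rw [← bundle_apply c hc γ, h0]
    rfl
  · intro ℓ _ hℓM hℓS
    refine AddMonoidHom.ext fun γ => ?_
    obtain ⟨γ, rfl⟩ : ∃ γ' : Gamma0 M, Additive.ofMul γ' = γ := ⟨Additive.toMul γ, rfl⟩
    rw [heckeHom_bundle hℓM c hc γ, heig ℓ Fact.out hℓM hℓS γ, AddMonoidHom.smul_apply,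
      bundle_apply, zsmul_eq_mul]

end Fermat.Agent.Lib.HFree.H412

end
-- ===== PACK-END Lib/HFree/H412/R3Core.lean

-- ===== PACK-BEGIN Lib/Newform/H863/X8.lean
section




/-!
# NEWFORM block X, piece X8 (helper863): local case analysis

From the local identity (`H958.X.LocalIdentity`, the output of X6 + X7) we derive the targets of
block X:

* `crossLevelSq_of : LocalIdentity → CrossLevelSq`  (what S36 needs; no strict bound);
* `crossLevel_of : LocalIdentity → StrictBound → CrossLevel`;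
* `strongMultOne_of : LocalIdentity → StrictBound → StrongMultOne`.

Inputs from the core of the library (all on main, unconditional): `H958.badCoeff`
(`a_q² = 1` if `q ∥ N`, `a_q = 0` if `q² ∣ N`) and `H958.descent`.
-/

set_option autoImplicit false

open CongruenceSubgroup Polynomial

namespace Fermat.Agent.Lib.Newform.H863.X8

open ModularFormClass Fermat.Agent.Lib.Newform.H958 Fermat.Agent.Lib.Newform.H958.X

/-- The three possible shapes of the local Euler factor of a newform. -/
theorem shape {N : ℕ} [NeZero N] {f : CuspForm (Gamma0 N) 2} (hf : f.IsNewform) {q : ℕ}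
    (hq : q.Prime) :
    (N.factorization q = 0 ∧ ¬ q ∣ N ∧
      eulerPoly N (qCoeff f) q = 1 - C (qCoeff f q) * X + C (q : ℂ) * X ^ 2 ∧
      eulerPolyRev N (qCoeff f) q =
        X ^ 2 - C (qCoeff f q * ((q : ℂ) ^ 2)⁻¹) * X + C (((q : ℂ) ^ 3)⁻¹)) ∨
    (N.factorization q = 1 ∧ qCoeff f q ^ 2 = 1 ∧
      eulerPoly N (qCoeff f) q = 1 - C (qCoeff f q) * X ∧
      eulerPolyRev N (qCoeff f) q = X ^ 2 - C (qCoeff f q * ((q : ℂ) ^ 2)⁻¹) * X) ∨
    (2 ≤ N.factorization q ∧ qCoeff f q = 0 ∧
      eulerPoly N (qCoeff f) q = 1 ∧ eulerPolyRev N (qCoeff f) q = X ^ 2) := by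
  have hN : N ≠ 0 := NeZero.ne N
  by_cases hqN : q ∣ N
  · have hbad := badCoeff N f hf q hq hqN
    have hpos : 0 < N.factorization q := hq.factorization_pos_of_dvd hN hqN
    by_cases hq2 : q ^ 2 ∣ N
    · right; right
      have ha := hbad.2 hq2
      refine ⟨(hq.pow_dvd_iff_le_factorization hN).mp hq2, ha, ?_, ?_⟩
      · rw [eulerPoly, if_pos hqN, ha]; simp
      · rw [eulerPolyRev, if_pos hqN, ha]; simp
    · right; left
      have ha := hbad.1 hq2
      have hle : ¬ 2 ≤ N.factorization q := fun h =>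
        hq2 ((hq.pow_dvd_iff_le_factorization hN).mpr h)
      refine ⟨by omega, ha, ?_, ?_⟩
      · rw [eulerPoly, if_pos hqN, add_zero]
      · rw [eulerPolyRev, if_pos hqN, add_zero]
  · left
    refine ⟨Nat.factorization_eq_zero_of_not_dvd hqN, hqN, ?_, ?_⟩
    · rw [eulerPoly, if_neg hqN]
    · rw [eulerPolyRev, if_neg hqN]

theorem cast_prime_ne_zero {q : ℕ} (hq : q.Prime) : (q : ℂ) ≠ 0 :=
  Nat.cast_ne_zero.mpr hq.ne_zero

theorem cast_prime_ne_one {q : ℕ} (hq : q.Prime) : (q : ℂ) ≠ 1 := by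
  intro h
  have : q = 1 := by exact_mod_cast h
  exact hq.ne_one this

theorem cast_prime_sq_ne_one {q : ℕ} (hq : q.Prime) : (q : ℂ) ^ 2 ≠ 1 := by
  intro h
  have h1 : q ^ 2 = 1 := by exact_mod_cast h
  have h2 : q = 1 := by
    rcases Nat.pow_eq_one.mp h1 with h3 | h3
    · exact h3
    · exact absurd h3 (by norm_num)
  exact hq.ne_one h2

/-- The local comparison at one prime: if two newforms satisfy the local identity at `q`, then
either `v_q(N) ≤ v_q(N')`-type information or an exceptional equality `a_q(g)² = (q+1)²`. -/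
theorem local_le {N N' : ℕ} [NeZero N] [NeZero N'] {f : CuspForm (Gamma0 N) 2}
    {g : CuspForm (Gamma0 N') 2} (hf : f.IsNewform) (hg : g.IsNewform) {q : ℕ} (hq : q.Prime)
    {c : ℂ} (hc : c ≠ 0)
    (hid : X ^ (N'.factorization q) * eulerPolyRev N (qCoeff f) q * eulerPoly N' (qCoeff g) q =
        C c * (X ^ (N.factorization q) * eulerPoly N (qCoeff f) q *
          eulerPolyRev N' (qCoeff g) q)) :
    (2 ≤ N.factorization q → N.factorization q = N'.factorization q) ∧
    (N.factorization q = 1 → N'.factorization q = 0 →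
      ¬ q ∣ N' ∧ qCoeff g q ^ 2 = ((q : ℂ) + 1) ^ 2) := by
  have hq0 := cast_prime_ne_zero hq
  have hq1 := cast_prime_ne_one hq
  have hq2 := cast_prime_sq_ne_one hq
  rcases shape hf hq with ⟨he, -, hP, hR⟩ | ⟨he, ha, hP, hR⟩ | ⟨he, -, hP, hR⟩
  · exact ⟨fun h => by omega, fun h => by omega⟩
  · refine ⟨fun h => by omega, fun _ he'0 => ?_⟩
    rcases shape hg hq with ⟨he', hqN', hP', hR'⟩ | ⟨he', -, -, -⟩ | ⟨he', -, -, -⟩
    · rw [hP, hR, hP', hR', he, he'] at hid
      exact ⟨hqN', caseD _ _ _ _ hq0 hq1 ha hid⟩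
    · omega
    · omega
  · refine ⟨fun _ => ?_, fun h => by omega⟩
    rcases shape hg hq with ⟨he', -, hP', hR'⟩ | ⟨he', ha', hP', hR'⟩ | ⟨he', -, hP', hR'⟩
    · rw [hP, hR, hP', hR', he'] at hid
      exact (caseA _ _ _ hq0 hq2 _ he hid).elim
    · rw [hP, hR, hP', hR', he'] at hid
      exact (caseB _ _ _ hq0 hq2 ha' _ he hid).elim
    · rw [hP, hR, hP', hR'] at hid
      exact caseC c hc _ _ hid

/-- Equality of the `q`-th coefficients when the levels have the same `q`-adic valuation. -/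
theorem local_eq {N N' : ℕ} [NeZero N] [NeZero N'] {f : CuspForm (Gamma0 N) 2}
    {g : CuspForm (Gamma0 N') 2} (hf : f.IsNewform) (hg : g.IsNewform) {q : ℕ} (hq : q.Prime)
    {c : ℂ}
    (hid : X ^ (N'.factorization q) * eulerPolyRev N (qCoeff f) q * eulerPoly N' (qCoeff g) q =
        C c * (X ^ (N.factorization q) * eulerPoly N (qCoeff f) q *
          eulerPolyRev N' (qCoeff g) q))
    (hee : N.factorization q = N'.factorization q) : qCoeff f q = qCoeff g q := by
  have hq0 := cast_prime_ne_zero hq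
  have hq1 := cast_prime_ne_one hq
  have hq2 := cast_prime_sq_ne_one hq
  rcases shape hf hq with ⟨he, -, hP, hR⟩ | ⟨he, ha, hP, hR⟩ | ⟨he, ha, hP, hR⟩ <;>
    rcases shape hg hq with ⟨he', -, hP', hR'⟩ | ⟨he', ha', hP', hR'⟩ | ⟨he', ha', hP', hR'⟩
  · rw [hP, hR, hP', hR', he, he'] at hid
    exact caseE _ _ _ _ hq0 hq1 hid
  · omega
  · omega
  · omega
  · rw [hP, hR, hP', hR', he, he'] at hid
    exact caseF _ _ _ _ hq0 hq2 ha ha' hid
  · omega
  · omega
  · omega
  · rw [ha, ha']

/-- Passing from a normalized eigenform to the newform below it keeps the hypothesis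
"same eigenvalues outside a finite set". -/
theorem exists_newform_same {N N' : ℕ} [NeZero N'] {f : CuspForm (Gamma0 N) 2}
    {g : CuspForm (Gamma0 N') 2} (hg : g.IsNormalizedEigenform) (S : Finset ℕ)
    (hS : ∀ ℓ : ℕ, ℓ.Prime → ℓ ∉ S → qCoeff f ℓ = qCoeff g ℓ) :
    ∃ (M' : ℕ) (_ : NeZero M') (_ : M' ∣ N') (g₀ : CuspForm (Gamma0 M') 2), g₀.IsNewform ∧
      ∀ ℓ : ℕ, ℓ.Prime → ℓ ∉ S ∪ N'.primeFactors → qCoeff f ℓ = qCoeff g₀ ℓ := by
  obtain ⟨M', hM', g₀, hg₀, hgg⟩ := descent N' g hg
  have hN' : N' ≠ 0 := NeZero.ne N'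
  have hM0 : M' ≠ 0 := fun h => by
    subst h
    exact hN' (zero_dvd_iff.mp hM')
  refine ⟨M', ⟨hM0⟩, hM', g₀, hg₀, fun ℓ hℓ hℓS => ?_⟩
  rw [Finset.mem_union, not_or] at hℓS
  have hℓN' : ¬ ℓ ∣ N' := fun h => hℓS.2 (Nat.mem_primeFactors.mpr ⟨hℓ, h, hN'⟩)
  rw [hS ℓ hℓ hℓS.1, hgg ℓ hℓ hℓN']

/-- **X-SQ** from the local identity. -/
theorem crossLevelSq_of (hL : LocalIdentity) : CrossLevelSq := by
  intro N N' _ _ f g hf hg S hS q hq hq2
  obtain ⟨M', hM'0, hM', g₀, hg₀, hS'⟩ := exists_newform_same hg S hS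
  obtain ⟨c, hc, hid⟩ := hL N M' f g₀ hf hg₀ _ hS' q hq
  have hN : N ≠ 0 := NeZero.ne N
  have hM0 : M' ≠ 0 := NeZero.ne M'
  have he : 2 ≤ N.factorization q := (hq.pow_dvd_iff_le_factorization hN).mp hq2
  have hee := (local_le hf hg₀ hq hc hid).1 he
  have : q ^ 2 ∣ M' := (hq.pow_dvd_iff_le_factorization hM0).mpr (hee ▸ he)
  exact this.trans hM'

/-- **X-LEVEL** from the local identity and the strict trivial bound. -/
theorem crossLevel_of (hL : LocalIdentity) (hSB : StrictBound) : CrossLevel := by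
  intro N N' _ _ f g hf hg S hS
  obtain ⟨M', hM'0, hM', g₀, hg₀, hS'⟩ := exists_newform_same hg S hS
  have hN : N ≠ 0 := NeZero.ne N
  have hM0 : M' ≠ 0 := NeZero.ne M'
  refine Dvd.dvd.trans ?_ hM'
  rw [← Nat.factorization_le_iff_dvd hN hM0]
  intro q
  by_cases hq : q.Prime
  · obtain ⟨c, hc, hid⟩ := hL N M' f g₀ hf hg₀ _ hS' q hq
    have h := local_le hf hg₀ hq hc hid
    rcases Nat.lt_or_ge (N.factorization q) 2 with h2 | h2
    · rcases Nat.eq_zero_or_pos (N.factorization q) with h0 | h0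
      · rw [h0]; exact Nat.zero_le _
      · have h1 : N.factorization q = 1 := by omega
        rcases Nat.eq_zero_or_pos (M'.factorization q) with h0' | h0'
        · obtain ⟨hqM', hsq⟩ := h.2 h1 h0'
          exact absurd hsq (hSB M' g₀ hg₀.1 q hq hqM')
        · omega
    · exact (h.1 h2).le
  · rw [Nat.factorization_eq_zero_of_not_prime N hq]
    exact Nat.zero_le _

/-- Two normalized eigenforms of the same level with the same `a_p` for all primes `p` have the
same coefficients. -/
theorem qCoeff_eq_of_forall_prime {N : ℕ} {f g : CuspForm (Gamma0 N) 2}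
    (hf : f.IsNormalizedEigenform) (hg : g.IsNormalizedEigenform)
    (h : ∀ p : ℕ, p.Prime → qCoeff f p = qCoeff g p) : ∀ n : ℕ, qCoeff f n = qCoeff g n := by
  have hpow : ∀ p : ℕ, p.Prime → ∀ r : ℕ, qCoeff f (p ^ r) = qCoeff g (p ^ r) ∧
      qCoeff f (p ^ (r + 1)) = qCoeff g (p ^ (r + 1)) := by
    intro p hp r
    induction r with
    | zero =>
      refine ⟨?_, ?_⟩
      · rw [pow_zero, hf.qCoeff_one, hg.qCoeff_one]
      · simpa using h p hp
    | succ r ih =>
      refine ⟨ih.2, ?_⟩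
      by_cases hpN : p ∣ N
      · rw [hf.qCoeff_prime_pow_of_dvd p r hp hpN, hg.qCoeff_prime_pow_of_dvd p r hp hpN,
          h p hp, ih.2]
      · rw [hf.qCoeff_prime_pow_of_not_dvd p r hp hpN,
          hg.qCoeff_prime_pow_of_not_dvd p r hp hpN, h p hp, ih.1, ih.2]
  intro n
  induction n using Nat.strong_induction_on with
  | _ n ih =>
    rcases Nat.eq_zero_or_pos n with rfl | hpos
    · rw [Fermat.Agent.Lib.Newform.H683.qCoeff_zero_cusp,
        Fermat.Agent.Lib.Newform.H683.qCoeff_zero_cusp]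
    rcases Nat.eq_or_lt_of_le (Nat.succ_le_of_lt hpos) with h1 | h1
    · have : n = 1 := h1.symm
      subst this
      rw [hf.qCoeff_one, hg.qCoeff_one]
    · obtain ⟨p, hp, hpn⟩ := Nat.exists_prime_and_dvd (show n ≠ 1 by omega)
      obtain ⟨r, m, hm, rfl⟩ := Nat.exists_eq_pow_mul_and_not_dvd hpos.ne' p hp.ne_one
      have hr : r ≠ 0 := by
        rintro rfl
        rw [pow_zero, one_mul] at hpn
        exact hm hpn
      have hcop : (p ^ r).Coprime m :=
        Nat.Coprime.pow_left r ((Nat.Prime.coprime_iff_not_dvd hp).mpr hm)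
      have hmlt : m < p ^ r * m := by
        have hmpos : 0 < m := Nat.pos_of_ne_zero (by rintro rfl; simp at hpos)
        have : 1 < p ^ r := Nat.one_lt_pow hr hp.one_lt
        nlinarith
      rw [hf.qCoeff_mul_of_coprime _ _ hcop, hg.qCoeff_mul_of_coprime _ _ hcop,
        ih m hmlt, (hpow p hp r).1]

/-- **X-SMO** from the local identity and the strict trivial bound. -/
theorem strongMultOne_of (hL : LocalIdentity) (hSB : StrictBound) : StrongMultOne := by
  intro N N' _ _ f g hf hg S hS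
  have h1 : N ∣ N' := crossLevel_of hL hSB N N' f g hf hg.1 S hS
  have h2 : N' ∣ N := crossLevel_of hL hSB N' N g f hg hf.1 S
    (fun ℓ hℓ hℓS => (hS ℓ hℓ hℓS).symm)
  have hNN : N = N' := Nat.dvd_antisymm h1 h2
  subst hNN
  refine ⟨rfl, ?_⟩
  apply qCoeff_eq_of_forall_prime hf.1 hg.1
  intro p hp
  obtain ⟨c, -, hid⟩ := hL N N f g hf hg S hS p hp
  exact local_eq hf hg hp hid rfl

end Fermat.Agent.Lib.Newform.H863.X8

end
-- ===== PACK-END Lib/Newform/H863/X8.lean

-- ===== PACK-BEGIN S36/H193/WallSheets.lean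
section



/-!
# S36 engine, leaf CLOPEN (helper193), part 8: the CLOPEN theorems for the set of all sheets

Setting: `R` a noetherian domain with `R[X]` integrally closed, `w ∈ R` prime, `Z` a field of
characteristic `0`, `x ∈ Z` transcendental over `R`, `Z` finite over `baseField R x`, `R`
integrally closed in `Z` (`hRF`: no new constants).  Sheets: `A2.H12.IsSheet w x W`.

The structural hypotheses of `Clopen.lean` / `ClopenGraph.lean` / `LabelWall.lean` (finiteness and
separation of the sheets, radical `q`-expansion principle for the three charts) are *theorems*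
(`SheetsAll.lean`, `QepAll.lean`), so that only the local hypotheses remain:

* `clopen_sheets_all` : a property of sheets which propagates along sheets meeting at a closed
  point of the special fibre of one of the two charts holds for all sheets or for none.
* `clopen_label_sheets` : a labelling of the sheets which agrees on any two sheets through a
  common closed point is constant.
* **`kummer_wall3_sheets`** : `Z / F` finite Galois, `x ∈ F`, `G ^ m ∈ F` split on every sheet of
  `Z`, normalised labels agree at every closed point ⟹ `G ∈ F`.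
* **`kummer_wall3_sheets_of_values`** : the same with the local hypothesis `PureValuesAt`.
-/

set_option autoImplicit false
set_option linter.style.haveILetI false
set_option linter.unusedSectionVars false

namespace Fermat.Agent.S36.H193

open Polynomial
open Fermat.Agent.A2.H12 (IsSheet)
open Fermat.Agent.S18.H138

universe u

section All

variable {R : Type u} [CommRing R] [IsDomain R] {Z : Type u} [Field Z] [Algebra R Z]
variable [IsNoetherianRing R] [IsIntegrallyClosed R[X]] [CharZero Z]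

/-- **CLOPEN for all sheets, graph form.** -/
theorem clopen_sheets_all
    (hinjR : Function.Injective (algebraMap R Z))
    (hRF : ∀ y : Z, IsIntegral R y → y ∈ Set.range (algebraMap R Z))
    {x : Z} (hx : Transcendental R x) [FiniteDimensional (baseField R x) Z]
    (w : R) (hw : Prime w)
    (P : ValuationSubring Z → Prop)
    (hloc_fin : ∀ 𝔫 : Ideal (chart R ({x} : Set Z)), 𝔫.IsMaximal →
      algebraMap R (chart R ({x} : Set Z)) w ∈ 𝔫 →
      ∀ W, IsSheet w x W → ∀ W', IsSheet w x W' →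
        Through _ 𝔫 W → Through _ 𝔫 W' → P W → P W')
    (hloc_inf : ∀ 𝔫 : Ideal (chart R ({x⁻¹} : Set Z)), 𝔫.IsMaximal →
      algebraMap R (chart R ({x⁻¹} : Set Z)) w ∈ 𝔫 →
      ∀ W, IsSheet w x W → ∀ W', IsSheet w x W' →
        Through _ 𝔫 W → Through _ 𝔫 W' → P W → P W') :
    (∀ W, IsSheet w x W → P W) ∨ (∀ W, IsSheet w x W → ¬ P W) := by
  obtain ⟨q1, q2, q3⟩ := qepRad_sheets w hw hx
  exact clopen_sheets hinjR hRF hx w hw (sheets_finite hinjR w hw hx) (sheets_sep hinjR w hw hx)
    (fun W hW => sheet_chart_mid_le (show IsSheet w x W from hW))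
    (fun W hW => (show IsSheet w x W from hW).2.2.1) q1 q2 q3 P hloc_fin hloc_inf

/-- **CLOPEN for all sheets, label form.** -/
theorem clopen_label_sheets
    (hinjR : Function.Injective (algebraMap R Z))
    (hRF : ∀ y : Z, IsIntegral R y → y ∈ Set.range (algebraMap R Z))
    {x : Z} (hx : Transcendental R x) [FiniteDimensional (baseField R x) Z]
    (w : R) (hw : Prime w)
    {α : Type*} (lab : ValuationSubring Z → α)
    (hloc_fin : ∀ 𝔫 : Ideal (chart R ({x} : Set Z)), 𝔫.IsMaximal →
      algebraMap R (chart R ({x} : Set Z)) w ∈ 𝔫 →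
      ∀ W, IsSheet w x W → ∀ W', IsSheet w x W' →
        Through _ 𝔫 W → Through _ 𝔫 W' → lab W = lab W')
    (hloc_inf : ∀ 𝔫 : Ideal (chart R ({x⁻¹} : Set Z)), 𝔫.IsMaximal →
      algebraMap R (chart R ({x⁻¹} : Set Z)) w ∈ 𝔫 →
      ∀ W, IsSheet w x W → ∀ W', IsSheet w x W' →
        Through _ 𝔫 W → Through _ 𝔫 W' → lab W = lab W') :
    ∀ W, IsSheet w x W → ∀ W', IsSheet w x W' → lab W = lab W' := by
  obtain ⟨q1, q2, q3⟩ := qepRad_sheets w hw hx
  exact clopen_label hinjR hRF hx w hw (sheets_finite hinjR w hw hx) (sheets_sep hinjR w hw hx)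
    (fun W hW => sheet_chart_mid_le (show IsSheet w x W from hW))
    (fun W hW => (show IsSheet w x W from hW).2.2.1) q1 q2 q3 lab hloc_fin hloc_inf

/-- There is at least one sheet. -/
theorem sheets_nonempty (w : R) (hw : Prime w) {x : Z} (hx : Transcendental R x) :
    {W : ValuationSubring Z | IsSheet w x W}.Nonempty := by
  set B := chart R ({x} : Set Z) with hB
  have hne : Ideal.span {algebraMap R B w} ≠ ⊤ := by
    intro htop
    -- `1 = w t` with `t` integral over `R[x]` is impossible: `w` is prime in `R[x]`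
    rw [Ideal.span_singleton_eq_top] at htop
    obtain ⟨t, ht⟩ := htop.exists_right_inv
    have hx0 : x ≠ 0 := ne_zero_of_transcendental hx
    have h1 : algebraMap R Z 1 = algebraMap R Z w * (t : Z) := by
      rw [map_one]
      exact (congrArg Subtype.val ht).symm
    -- use the `R / w → B / w` injectivity lemma of `S18.H138`
    have hinj : Function.Injective (algebraMap R Z) := by
      rw [injective_iff_map_eq_zero]
      intro r hr
      by_contra hr0
      have : aeval x (C r : R[X]) = 0 := by rw [aeval_C, hr]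
      have h2 := (transcendental_iff.1 hx) _ this
      exact hr0 (C_eq_zero.1 h2)
    have := dvd_of_algebraMap_eq_mul hinj hx w 1 t.2 h1
    exact hw.not_isUnit (isUnit_of_dvd_one this)
  obtain ⟨p, hp⟩ := Ideal.nonempty_minimalPrimes hne
  obtain ⟨V, hV, -⟩ := exists_sheet_of_minimal w hw hx p hp
  exact ⟨V, hV⟩

end All

section Wall

variable {R : Type u} [CommRing R] [IsDomain R] {Z : Type u} [Field Z] [Algebra R Z]
variable [IsNoetherianRing R] [IsIntegrallyClosed R[X]] [CharZero Z]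
variable {F : Type u} [Field F] [Algebra R F] [Algebra F Z] [IsScalarTower R F Z]

/-- The image of a sheet under an element of the Galois group is a sheet. -/
theorem isSheet_comap_symm {w : R} {x : F} (σ : Z ≃ₐ[F] Z) {W : ValuationSubring Z}
    (hW : IsSheet w (algebraMap F Z x) W) :
    IsSheet w (algebraMap F Z x) (W.comap ((σ.symm : Z ≃+* Z) : Z →+* Z)) := by
  have hσs : ∀ f : F, ((σ.symm : Z ≃+* Z) : Z →+* Z) (algebraMap F Z f) = algebraMap F Z f :=
    fun f => σ.symm.commutes f
  have hσR : ∀ r : R, ((σ.symm : Z ≃+* Z) : Z →+* Z) (algebraMap R Z r) = algebraMap R Z r := by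
    intro r
    rw [IsScalarTower.algebraMap_apply R F Z, hσs]
  refine ⟨?_, ?_, ?_, ?_⟩
  · intro r
    rw [ValuationSubring.mem_comap, hσR]
    exact hW.1 r
  · rw [ValuationSubring.mem_comap, hσs]
    exact hW.2.1
  · have := (mem_nonunits_comap_symm W σ (algebraMap R Z w)).2 hW.2.2.1
    have h2 : σ (algebraMap R Z w) = algebraMap R Z w := by
      rw [IsScalarTower.algebraMap_apply R F Z, σ.commutes]
    rwa [h2] at this
  · intro P hP
    rw [ValuationSubring.mem_comap, map_inv₀]
    have h1 : ((σ.symm : Z ≃+* Z) : Z →+* Z) (aeval (algebraMap F Z x) P) =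
        aeval (algebraMap F Z x) P := by
      have h2 : aeval (algebraMap F Z x) P = algebraMap F Z (aeval x P) := by
        rw [← aeval_algebraMap_apply]
      rw [h2, hσs]
    rw [h1]
    exact hW.2.2.2 P hP

/-- **The label wall for all sheets.** -/
theorem kummer_wall3_sheets
    (hinjR : Function.Injective (algebraMap R Z))
    (hRF : ∀ y : Z, IsIntegral R y → y ∈ Set.range (algebraMap R Z))
    {x : F} (hx : Transcendental R (algebraMap F Z x))
    [FiniteDimensional (baseField R (algebraMap F Z x)) Z]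
    (w : R) (hw : Prime w)
    [IsGalois F Z] [FiniteDimensional F Z]
    {m : ℕ} (hm : 0 < m) {mi : R} (hmi : (m : R) * mi = 1) {ζ : R} (hζ : IsPrimitiveRoot ζ m)
    {G : Z} (hGF : G ^ m ∈ Set.range (algebraMap F Z))
    (hG1 : ∀ W, IsSheet w (algebraMap F Z x) W → G ^ m - 1 ∈ W.nonunits)
    (κ : ValuationSubring F → ℕ)
    (hloc_fin : ∀ 𝔫 : Ideal (chart R ({algebraMap F Z x} : Set Z)), 𝔫.IsMaximal →
      algebraMap R (chart R ({algebraMap F Z x} : Set Z)) w ∈ 𝔫 →
      ∀ W, IsSheet w (algebraMap F Z x) W → ∀ W', IsSheet w (algebraMap F Z x) W' →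
        Through _ 𝔫 W → Through _ 𝔫 W' → ∀ a b : ℕ,
        G - algebraMap R Z (ζ ^ a) ∈ W.nonunits → G - algebraMap R Z (ζ ^ b) ∈ W'.nonunits →
        ζ ^ (a + κ (W'.comap (algebraMap F Z))) = ζ ^ (b + κ (W.comap (algebraMap F Z))))
    (hloc_inf : ∀ 𝔫 : Ideal (chart R ({(algebraMap F Z x)⁻¹} : Set Z)), 𝔫.IsMaximal →
      algebraMap R (chart R ({(algebraMap F Z x)⁻¹} : Set Z)) w ∈ 𝔫 →
      ∀ W, IsSheet w (algebraMap F Z x) W → ∀ W', IsSheet w (algebraMap F Z x) W' →
        Through _ 𝔫 W → Through _ 𝔫 W' → ∀ a b : ℕ,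
        G - algebraMap R Z (ζ ^ a) ∈ W.nonunits → G - algebraMap R Z (ζ ^ b) ∈ W'.nonunits →
        ζ ^ (a + κ (W'.comap (algebraMap F Z))) = ζ ^ (b + κ (W.comap (algebraMap F Z)))) :
    G ∈ Set.range (algebraMap F Z) := by
  obtain ⟨q1, q2, q3⟩ := qepRad_sheets w hw hx
  exact kummer_wall3 hinjR hRF hx w hw (sheets_finite hinjR w hw hx) (sheets_nonempty w hw hx)
    (sheets_sep hinjR w hw hx)
    (fun W hW => sheet_chart_mid_le (show IsSheet w (algebraMap F Z x) W from hW))
    (fun W hW => (show IsSheet w (algebraMap F Z x) W from hW).2.2.1) q1 q2 q3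
    (fun σ W hW => isSheet_comap_symm σ (show IsSheet w (algebraMap F Z x) W from hW))
    hm hmi hζ hGF hG1 κ hloc_fin hloc_inf

/-- **The label wall for all sheets, purity form.** -/
theorem kummer_wall3_sheets_of_values
    (hinjR : Function.Injective (algebraMap R Z))
    (hRF : ∀ y : Z, IsIntegral R y → y ∈ Set.range (algebraMap R Z))
    {x : F} (hx : Transcendental R (algebraMap F Z x))
    [FiniteDimensional (baseField R (algebraMap F Z x)) Z]
    (w : R) (hw : Prime w)
    [IsGalois F Z] [FiniteDimensional F Z]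
    {m : ℕ} (hm : 0 < m) {mi : R} (hmi : (m : R) * mi = 1) {ζ : R} (hζ : IsPrimitiveRoot ζ m)
    {G : Z} (hGF : G ^ m ∈ Set.range (algebraMap F Z))
    (hG1 : ∀ W, IsSheet w (algebraMap F Z x) W → G ^ m - 1 ∈ W.nonunits)
    (κ : ValuationSubring F → ℕ)
    (hpv_fin : ∀ 𝔫 : Ideal (chart R ({algebraMap F Z x} : Set Z)), 𝔫.IsMaximal →
      algebraMap R (chart R ({algebraMap F Z x} : Set Z)) w ∈ 𝔫 →
      PureValuesAt {W | IsSheet w (algebraMap F Z x) W} (chart R ({algebraMap F Z x} : Set Z))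
        𝔫 G ζ fun W => κ (W.comap (algebraMap F Z)))
    (hpv_inf : ∀ 𝔫 : Ideal (chart R ({(algebraMap F Z x)⁻¹} : Set Z)), 𝔫.IsMaximal →
      algebraMap R (chart R ({(algebraMap F Z x)⁻¹} : Set Z)) w ∈ 𝔫 →
      PureValuesAt {W | IsSheet w (algebraMap F Z x) W}
        (chart R ({(algebraMap F Z x)⁻¹} : Set Z)) 𝔫 G ζ
        fun W => κ (W.comap (algebraMap F Z))) :
    G ∈ Set.range (algebraMap F Z) := by
  obtain ⟨q1, q2, q3⟩ := qepRad_sheets w hw hx
  exact kummer_wall3_of_values hinjR hRF hx w hw (sheets_finite hinjR w hw hx)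
    (sheets_nonempty w hw hx) (sheets_sep hinjR w hw hx)
    (fun W hW => sheet_chart_mid_le (show IsSheet w (algebraMap F Z x) W from hW))
    (fun W hW => (show IsSheet w (algebraMap F Z x) W from hW).2.2.1) q1 q2 q3
    (fun σ W hW => isSheet_comap_symm σ (show IsSheet w (algebraMap F Z x) W from hW))
    hm hmi hζ hGF hG1 κ hpv_fin hpv_inf

end Wall

end Fermat.Agent.S36.H193

end
-- ===== PACK-END S36/H193/WallSheets.lean

-- ===== PACK-BEGIN S36/H193/WallBase.lean
section


/-!
# S36 engine, leaf CLOPEN (helper193), part 9: the label wall with hypotheses on the base only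

Setting of `WallSheets.lean`: base field `F ∋ x`, finite Galois cover `Z / F`, `G ∈ Z` with
`G ^ m = f ∈ F`, `R` integrally closed in `Z`.

* `BasePureValuesAt` : a purity datum for `f` at the closed point `𝔫` of a chart `B` of the BASE:
  `f = ε h ^ m` with `ε = e₁ / e₂` a unit at `𝔫`, and on every sheet `V` of `F` through `𝔫` the
  residue of `h` is regular at `𝔫` with value `ζ ^ κ V · v`.
* **`kummer_wall3_of_base`** : if `f ≡ 1` on every sheet of `F` and `f` has a purity datum with
  normalised values at every closed point of the special fibre of the two charts of `F`, then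
  every `m`-th root `G` of `f` in `Z` lies in `F`.

No hypothesis on the cover except "no new constants" (`hRF`), no hypothesis on the special fibre
of the base (non-reduced fibres, any number of branches through a point).
-/

set_option autoImplicit false
set_option linter.style.haveILetI false
set_option linter.unusedSectionVars false

namespace Fermat.Agent.S36.H193

open Polynomial
open Fermat.Agent.A2.H12 (IsSheet)
open Fermat.Agent.S18.H138

universe u

section Tower

variable {R : Type*} [CommRing R] {F : Type*} [Field F] [Algebra R F]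
variable {Z : Type*} [Field Z] [Algebra F Z] [Algebra R Z] [IsScalarTower R F Z]

/-- The chart of the base maps into the chart of the cover. -/
theorem algebraMap_mem_chart (T : Set F) {b : F} (hb : b ∈ chart R T) :
    algebraMap F Z b ∈ chart R (algebraMap F Z '' T) := by
  rw [mem_chart] at hb ⊢
  have h1 : IsIntegral (Algebra.adjoin R T) (algebraMap F Z b) :=
    hb.map (IsScalarTower.toAlgHom (Algebra.adjoin R T) F Z)
  exact Fermat.Agent.A2.H652.isIntegral_adjoin_image_of_isIntegral_adjoin T h1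

/-- The ring homomorphism from the chart of the base to the chart of the cover. -/
def chartMap (T : Set F) : chart R T →+* chart R (algebraMap F Z '' T : Set Z) where
  toFun b := ⟨algebraMap F Z b, algebraMap_mem_chart T b.2⟩
  map_one' := Subtype.ext (map_one _)
  map_mul' _ _ := Subtype.ext (map_mul _ _ _)
  map_zero' := Subtype.ext (map_zero _)
  map_add' _ _ := Subtype.ext (map_add _ _ _)

theorem coe_chartMap (T : Set F) (b : chart R T) :
    ((chartMap (Z := Z) T b : chart R (algebraMap F Z '' T : Set Z)) : Z) = algebraMap F Z b :=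
  rfl

theorem chartMap_algebraMap (T : Set F) (r : R) :
    chartMap (Z := Z) T (algebraMap R (chart R T) r) =
      algebraMap R (chart R (algebraMap F Z '' T : Set Z)) r := by
  apply Subtype.ext
  rw [coe_chartMap]
  exact (IsScalarTower.algebraMap_apply R F Z r).symm

/-- The chart of the cover is integral over the chart of the base. -/
theorem chartMap_isIntegral (T : Set F) : (chartMap (R := R) (Z := Z) T).IsIntegral := by
  intro c
  have hc : IsIntegral (Algebra.adjoin R T) (c : Z) :=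
    Fermat.Agent.A2.H652.isIntegral_adjoin_of_isIntegral_adjoin_image T (mem_chart.1 c.2)
  obtain ⟨P, hPm, hP⟩ := hc
  -- push the coefficients into the chart of the base
  let ι : Algebra.adjoin R T →+* chart R T :=
    (Subalgebra.inclusion (adjoin_le_chart T)).toRingHom
  refine ⟨P.map ι, hPm.map ι, ?_⟩
  rw [eval₂_map]
  apply Subtype.ext
  have h1 := Polynomial.hom_eval₂ P ((chartMap (Z := Z) T).comp ι)
    ((chart R (algebraMap F Z '' T : Set Z)).val : _ →+* Z) c
  rw [show (((chart R (algebraMap F Z '' T : Set Z)).val : _ →+* Z)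
    (eval₂ ((chartMap (Z := Z) T).comp ι) c P) : Z) =
      ((eval₂ ((chartMap (Z := Z) T).comp ι) c P : chart R (algebraMap F Z '' T : Set Z)) : Z)
    from rfl] at h1
  rw [h1]
  exact hP

/-- The closed point of the base below a closed point of the cover. -/
theorem comap_chartMap_isMaximal (T : Set F)
    (𝔫 : Ideal (chart R (algebraMap F Z '' T : Set Z))) [h𝔫 : 𝔫.IsMaximal] :
    (𝔫.comap (chartMap (Z := Z) T)).IsMaximal := by
  letI : Algebra (chart R T) (chart R (algebraMap F Z '' T : Set Z)) :=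
    (chartMap (Z := Z) T).toAlgebra
  haveI : Algebra.IsIntegral (chart R T) (chart R (algebraMap F Z '' T : Set Z)) :=
    ⟨chartMap_isIntegral T⟩
  exact Ideal.isMaximal_comap_of_isIntegral_of_isMaximal 𝔫

theorem mem_nonunits_comap_algebraMap (W : ValuationSubring Z) (b : F) :
    b ∈ (W.comap (algebraMap F Z)).nonunits ↔ algebraMap F Z b ∈ W.nonunits := by
  rw [ValuationSubring.mem_nonunits_iff_or, ValuationSubring.mem_nonunits_iff_or,
    ValuationSubring.mem_comap, map_inv₀, map_eq_zero]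

/-- A sheet of the cover through a closed point restricts to a sheet of the base through the
point below. -/
theorem through_comap (T : Set F) (𝔫 : Ideal (chart R (algebraMap F Z '' T : Set Z)))
    {W : ValuationSubring Z} (hth : Through _ 𝔫 W) :
    Through (chart R T) (𝔫.comap (chartMap (Z := Z) T)) (W.comap (algebraMap F Z)) := by
  intro c hc
  rw [Ideal.mem_comap]
  exact hth _ ((mem_nonunits_comap_algebraMap W _).1 hc)

/-- A **purity datum with normalised values on the base**: `f = (e₁ / e₂) h ^ m` with `e₂ ∉ 𝔫`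
(and `e₁ ∉ 𝔫` automatically if `f` is a unit on a sheet through `𝔫`), and on every sheet `V`
of `𝒱` through `𝔫` the residue of `h` is `t / s` with `s ∉ 𝔫` and value `ζ ^ κ V · v` at `𝔫`. -/
def BasePureValuesAt (𝒱 : Set (ValuationSubring F)) (B : Subalgebra R F) (𝔫 : Ideal B) (m : ℕ)
    (f : F) (ζ : R) (κ : ValuationSubring F → ℕ) : Prop :=
  ∃ (h : F) (e₁ e₂ v : B), h ≠ 0 ∧ e₂ ∉ 𝔫 ∧ v ∉ 𝔫 ∧ (e₂ : F) * f = e₁ * h ^ m ∧
    ∀ V ∈ 𝒱, Through B 𝔫 V → ∃ s t : B, s ∉ 𝔫 ∧ (s : F) * h - t ∈ V.nonunits ∧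
      t - algebraMap R B (ζ ^ κ V) * v * s ∈ 𝔫

/-- Transfer of a purity datum from the base to the cover. -/
theorem pureValuesAt_of_base (T : Set F) {𝒱 : Set (ValuationSubring F)}
    {𝒲 : Set (ValuationSubring Z)} (h𝒲 : ∀ W ∈ 𝒲, W.comap (algebraMap F Z) ∈ 𝒱)
    (𝔫 : Ideal (chart R (algebraMap F Z '' T : Set Z)))
    {m : ℕ} (hm : 0 < m) {f : F} {G : Z} (hG : G ^ m = algebraMap F Z f) {ζ : R}
    {κ : ValuationSubring F → ℕ}
    (hb : BasePureValuesAt 𝒱 (chart R T) (𝔫.comap (chartMap (Z := Z) T)) m f ζ κ) :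
    PureValuesAt 𝒲 (chart R (algebraMap F Z '' T : Set Z)) 𝔫 G ζ
      fun W => κ (W.comap (algebraMap F Z)) := by
  obtain ⟨h, e₁, e₂, v, hh0, he₂, hv, hf, hval⟩ := hb
  have hhZ : algebraMap F Z h ≠ 0 := by
    rwa [Ne, map_eq_zero]
  -- `a' = e₂ G / h` lies in the chart of the cover
  have ha' : algebraMap F Z e₂ * G * (algebraMap F Z h)⁻¹ ∈
      chart R (algebraMap F Z '' T : Set Z) := by
    rw [mem_chart]
    refine IsIntegral.of_pow hm ?_
    have h1 : (algebraMap F Z e₂ * G * (algebraMap F Z h)⁻¹) ^ m =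
        algebraMap F Z ((e₂ : F) ^ (m - 1) * e₁) := by
      have h2 : (e₂ : F) ^ m * f = (e₂ : F) ^ (m - 1) * e₁ * h ^ m := by
        have : (e₂ : F) ^ m = (e₂ : F) ^ (m - 1) * e₂ := by
          rw [← pow_succ, Nat.sub_add_cancel hm]
        rw [this, mul_assoc, hf]
        ring
      rw [mul_pow, mul_pow, hG, ← map_pow, ← map_mul, h2, inv_pow, ← map_pow, map_mul,
        mul_assoc, mul_inv_cancel₀ (by rw [map_pow]; exact pow_ne_zero _ hhZ), mul_one]
    rw [h1]
    exact mem_chart.1 (algebraMap_mem_chart T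
      (Subalgebra.mul_mem _ (Subalgebra.pow_mem _ e₂.2 _) e₁.2))
  refine ⟨algebraMap F Z h, ⟨_, ha'⟩, chartMap T e₂, chartMap T v, he₂, hv, ?_, ?_⟩
  · rw [coe_chartMap]
    field_simp
  · intro W hW hth
    obtain ⟨s, t, hs, hst, ht⟩ := hval _ (h𝒲 W hW) (through_comap T 𝔫 hth)
    refine ⟨chartMap T s, chartMap T t, hs, ?_, ?_⟩
    · rw [coe_chartMap, coe_chartMap, ← map_mul, ← map_sub]
      exact (mem_nonunits_comap_algebraMap W _).1 hst
    · rw [Ideal.mem_comap, map_sub, map_mul, map_mul, chartMap_algebraMap] at ht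
      exact ht

end Tower

section Wall

variable {R : Type u} [CommRing R] [IsDomain R] {Z : Type u} [Field Z] [Algebra R Z]
variable [IsNoetherianRing R] [IsIntegrallyClosed R[X]] [CharZero Z]
variable {F : Type u} [Field F] [Algebra R F] [Algebra F Z] [IsScalarTower R F Z]

/-- **The label wall, base form.**  `f ∈ F` split on every sheet of `F`, with a purity datum
with colour-normalised values at every closed point of the special fibre of the two charts of
`F`: then every `m`-th root of `f` in a finite Galois cover `Z / F` without new constants lies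
in `F`. -/
theorem kummer_wall3_of_base
    (hinjR : Function.Injective (algebraMap R Z))
    (hRF : ∀ y : Z, IsIntegral R y → y ∈ Set.range (algebraMap R Z))
    {x : F} (hx : Transcendental R (algebraMap F Z x))
    [FiniteDimensional (baseField R (algebraMap F Z x)) Z]
    (w : R) (hw : Prime w)
    [IsGalois F Z] [FiniteDimensional F Z]
    {m : ℕ} (hm : 0 < m) {mi : R} (hmi : (m : R) * mi = 1) {ζ : R} (hζ : IsPrimitiveRoot ζ m)
    {f : F} {G : Z} (hG : G ^ m = algebraMap F Z f)
    (hsplit : ∀ V, IsSheet w x V → f - 1 ∈ V.nonunits)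
    (κ : ValuationSubring F → ℕ)
    (hpure_fin : ∀ 𝔫 : Ideal (chart R ({x} : Set F)), 𝔫.IsMaximal →
      algebraMap R (chart R ({x} : Set F)) w ∈ 𝔫 →
      BasePureValuesAt {V | IsSheet w x V} (chart R ({x} : Set F)) 𝔫 m f ζ κ)
    (hpure_inf : ∀ 𝔫 : Ideal (chart R ({x⁻¹} : Set F)), 𝔫.IsMaximal →
      algebraMap R (chart R ({x⁻¹} : Set F)) w ∈ 𝔫 →
      BasePureValuesAt {V | IsSheet w x V} (chart R ({x⁻¹} : Set F)) 𝔫 m f ζ κ) :
    G ∈ Set.range (algebraMap F Z) := by
  have hcomap : ∀ W ∈ {W : ValuationSubring Z | IsSheet w (algebraMap F Z x) W},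
      W.comap (algebraMap F Z) ∈ {V : ValuationSubring F | IsSheet w x V} :=
    fun W hW => Fermat.Agent.A2.H12.IsSheet.comap_algebraMap hW
  have himg1 : (algebraMap F Z '' ({x} : Set F) : Set Z) = {algebraMap F Z x} :=
    Set.image_singleton
  have himg2 : (algebraMap F Z '' ({x⁻¹} : Set F) : Set Z) = {(algebraMap F Z x)⁻¹} := by
    rw [Set.image_singleton, map_inv₀]
  refine kummer_wall3_sheets_of_values hinjR hRF hx w hw hm hmi hζ ⟨f, hG.symm⟩ ?_ κ ?_ ?_
  · intro W hW
    have h1 := hsplit _ (hcomap W hW)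
    rw [mem_nonunits_comap_algebraMap, map_sub, map_one, ← hG] at h1
    exact h1
  · rw [← himg1]
    intro 𝔫 h𝔫 hw𝔫
    haveI := h𝔫
    refine pureValuesAt_of_base ({x} : Set F) hcomap 𝔫 hm hG
      (hpure_fin _ (comap_chartMap_isMaximal _ 𝔫) ?_)
    rw [Ideal.mem_comap, chartMap_algebraMap]
    exact hw𝔫
  · rw [← himg2]
    intro 𝔫 h𝔫 hw𝔫
    haveI := h𝔫
    refine pureValuesAt_of_base ({x⁻¹} : Set F) hcomap 𝔫 hm hG
      (hpure_inf _ (comap_chartMap_isMaximal _ 𝔫) ?_)
    rw [Ideal.mem_comap, chartMap_algebraMap]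
    exact hw𝔫

end Wall

end Fermat.Agent.S36.H193

end
-- ===== PACK-END S36/H193/WallBase.lean

-- ===== PACK-BEGIN S36/H919/SheetsBase.lean
section


/-!
# S36 engine, ALG3 gap lemma G2 (helper919), part 1: the base ring lies in every DVR

`R` a henselian local ring with algebraically closed residue field of characteristic `q`.

* `h919_exists_pow_eq_unit` : every unit of `R` is an `n`-th power for every `n` prime to `q`;
* `h919_unit_mem_of_dvr`    : every unit of `R` lies in every discrete valuation subring `V` of an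
                              `R`-field `F` (no hypothesis relating `V` and `R`);
* `h919_algebraMap_mem_of_dvr` : if moreover `R` is a DVR with uniformiser `w` and `w ∈ V`, then
                              `R ⊆ V`;
* `h919_chart_le_of_dvr`    : hence the charts `chart R {x}`, `chart R {x⁻¹}` lie in `V` as soon
                              as `x`, resp. `x⁻¹`, does;
* `h919_exists_pow_mul_inv_mem` : in a discrete valuation subring, a power of every non-unit is
                              divisible by a given non-zero element.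

Mathlib only (plus `A2.H12.mem_of_isIntegral_of_le`).
-/

set_option autoImplicit false
set_option linter.style.haveILetI false
set_option linter.unusedSectionVars false

namespace Fermat.Agent.S36.H919

open Polynomial
open Fermat.Agent.S18.H138

universe u

section Roots

variable {R : Type u} [CommRing R] [IsDomain R] [HenselianLocalRing R]
  [IsAlgClosed (IsLocalRing.ResidueField R)]

/-- A natural number prime to the residue characteristic is a unit. -/
theorem h919_isUnit_natCast {q : ℕ} (hq : (q : R) ∈ IsLocalRing.maximalIdeal R)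
    {n : ℕ} (hn : Nat.Coprime n q) : IsUnit (n : R) := by
  by_contra hnu
  have hnm : (n : R) ∈ IsLocalRing.maximalIdeal R := (IsLocalRing.mem_maximalIdeal _).2 hnu
  have hco : IsCoprime (n : ℤ) (q : ℤ) := Nat.isCoprime_iff_coprime.2 hn
  obtain ⟨a, b, hab⟩ := hco
  have h1 : ((a : R) * (n : R) + (b : R) * (q : R)) = 1 := by
    have := congrArg (fun z : ℤ => (z : R)) hab
    simpa using this
  have h2 : (1 : R) ∈ IsLocalRing.maximalIdeal R := by
    rw [← h1]
    exact Ideal.add_mem _ (Ideal.mul_mem_left _ _ hnm) (Ideal.mul_mem_left _ _ hq)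
  exact (Ideal.ne_top_iff_one _).1 (IsLocalRing.maximalIdeal.isMaximal R).ne_top h2

/-- Every unit is an `n`-th power, `n` prime to the residue characteristic. -/
theorem h919_exists_pow_eq_unit {q : ℕ} (hq : (q : R) ∈ IsLocalRing.maximalIdeal R)
    {n : ℕ} (hn0 : 0 < n) (hn : Nat.Coprime n q) {u : R} (hu : IsUnit u) :
    ∃ y : R, y ^ n = u := by
  obtain ⟨z, hz⟩ := IsAlgClosed.exists_pow_nat_eq (IsLocalRing.residue R u) hn0
  obtain ⟨a₀, rfl⟩ := IsLocalRing.residue_surjective z
  have hnunit : IsUnit (n : R) := h919_isUnit_natCast hq hn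
  have hres : IsLocalRing.residue R (a₀ ^ n - u) = 0 := by
    rw [map_sub, map_pow, hz, sub_self]
  have hmem : a₀ ^ n - u ∈ IsLocalRing.maximalIdeal R :=
    (IsLocalRing.residue_eq_zero_iff _).1 hres
  have ha₀ : IsUnit a₀ := by
    by_contra hna
    have h1 : a₀ ∈ IsLocalRing.maximalIdeal R := (IsLocalRing.mem_maximalIdeal _).2 hna
    have h2 : a₀ ^ n ∈ IsLocalRing.maximalIdeal R := Ideal.pow_mem_of_mem _ h1 n hn0
    have h3 : u ∈ IsLocalRing.maximalIdeal R := by
      have := Ideal.sub_mem _ h2 hmem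
      simpa using this
    exact (IsLocalRing.mem_maximalIdeal _).1 h3 hu
  obtain ⟨a, ha, -⟩ := HenselianLocalRing.is_henselian (X ^ n - C u : R[X])
    (monic_X_pow_sub_C u hn0.ne') a₀ (by simpa using hmem) (by
      simp only [derivative_sub, derivative_X_pow, derivative_C, sub_zero, eval_mul, eval_pow,
        eval_X, eval_C]
      exact (by simpa using hnunit.mul (ha₀.pow (n - 1))))
  refine ⟨a, ?_⟩
  have : eval a (X ^ n - C u : R[X]) = 0 := ha
  simpa [sub_eq_zero] using this

end Roots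

section Mem

variable {R : Type u} [CommRing R] [IsDomain R] [HenselianLocalRing R]
  [IsAlgClosed (IsLocalRing.ResidueField R)]
variable {F : Type u} [Field F] [Algebra R F]

/-- **Units of `R` are units of every discrete valuation subring.** -/
theorem h919_unit_mem_of_dvr {q : ℕ} (hq0 : 0 < q)
    (hq : (q : R) ∈ IsLocalRing.maximalIdeal R)
    (V : ValuationSubring F) [IsDiscreteValuationRing V] {u : R} (hu : IsUnit u) :
    algebraMap R F u ∈ V := by
  by_contra hnot
  have hu0 : algebraMap R F u ≠ 0 := fun h => hnot (h ▸ V.zero_mem)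
  -- `a = u⁻¹` is a non-unit of `V`
  have hinv : (algebraMap R F u)⁻¹ ∈ V := (V.mem_or_inv_mem _).resolve_left hnot
  set a : V := ⟨(algebraMap R F u)⁻¹, hinv⟩ with ha
  have ha0 : a ≠ 0 := by
    intro h
    have := congrArg Subtype.val h
    simp only [ha] at this
    exact (inv_ne_zero hu0) this
  -- `a ∈ 𝔪 ^ N` for all `N`
  have hall : ∀ N : ℕ, a ∈ (IsLocalRing.maximalIdeal V) ^ N := by
    intro N
    have hn0 : 0 < q * N + 1 := Nat.succ_pos _
    have hn : Nat.Coprime (q * N + 1) q := by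
      rw [Nat.coprime_comm]
      have : Nat.Coprime q (q * N + 1) := by
        rw [Nat.coprime_mul_left_add_right]
        exact Nat.coprime_one_right q
      exact this
    obtain ⟨y, hy⟩ := h919_exists_pow_eq_unit hq hn0 hn hu
    have hyF : (algebraMap R F y) ^ (q * N + 1) = algebraMap R F u := by
      rw [← map_pow, hy]
    have hy0 : algebraMap R F y ≠ 0 := by
      intro h
      rw [h, zero_pow hn0.ne'] at hyF
      exact hu0 hyF.symm
    -- `y ∉ V`
    have hyV : algebraMap R F y ∉ V := by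
      intro h
      exact hnot (hyF ▸ V.pow_mem h _)
    have hbV : (algebraMap R F y)⁻¹ ∈ V := (V.mem_or_inv_mem _).resolve_left hyV
    set b : V := ⟨(algebraMap R F y)⁻¹, hbV⟩ with hb
    have hbm : b ∈ IsLocalRing.maximalIdeal V := by
      rw [IsLocalRing.mem_maximalIdeal, mem_nonunits_iff]
      intro hbu
      obtain ⟨c, hc⟩ := hbu.exists_right_inv
      have h1 : (algebraMap R F y)⁻¹ * (c : F) = 1 := by
        have := congrArg Subtype.val hc
        simpa [hb] using this
      have h2 : (c : F) = algebraMap R F y := by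
        field_simp at h1
        exact h1
      exact hyV (h2 ▸ c.2)
    have hab : a = b ^ (q * N + 1) := by
      apply Subtype.ext
      simp only [ha, hb, SubmonoidClass.coe_pow, inv_pow, hyF]
    rw [hab]
    have h1 : b ^ (q * N + 1) ∈ (IsLocalRing.maximalIdeal V) ^ (q * N + 1) :=
      Ideal.pow_mem_pow hbm _
    have hNle : N ≤ q * N + 1 := by nlinarith
    exact Ideal.pow_le_pow_right hNle h1
  have hbot : a ∈ (⨅ N : ℕ, (IsLocalRing.maximalIdeal V) ^ N) := by
    rw [Ideal.mem_iInf]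
    exact hall
  rw [Ideal.iInf_pow_eq_bot_of_isLocalRing _ (IsLocalRing.maximalIdeal.isMaximal V).ne_top] at hbot
  exact ha0 ((Ideal.mem_bot).1 hbot)

/-- **`R ⊆ V`** for every discrete valuation subring `V` containing the uniformiser of `R`. -/
theorem h919_algebraMap_mem_of_dvr [IsDiscreteValuationRing R] {q : ℕ} (hq0 : 0 < q)
    (hq : (q : R) ∈ IsLocalRing.maximalIdeal R) {w : R} (hw : Irreducible w)
    (V : ValuationSubring F) [IsDiscreteValuationRing V] (hwV : algebraMap R F w ∈ V) (r : R) :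
    algebraMap R F r ∈ V := by
  by_cases hr : r = 0
  · subst hr
    rw [map_zero]
    exact V.zero_mem
  obtain ⟨n, u, hu⟩ := IsDiscreteValuationRing.eq_unit_mul_pow_irreducible hr hw
  rw [hu, map_mul, map_pow]
  exact V.mul_mem _ _ (h919_unit_mem_of_dvr hq0 hq V u.isUnit) (V.pow_mem hwV n)

/-- A chart lies in a valuation subring containing `R` and the coordinates. -/
theorem h919_chart_le (V : ValuationSubring F) (hR : ∀ r : R, algebraMap R F r ∈ V)
    {T : Set F} (hT : ∀ t ∈ T, t ∈ V) {c : F} (hc : c ∈ chart R T) : c ∈ V := by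
  refine Fermat.Agent.A2.H12.mem_of_isIntegral_of_le V (Algebra.adjoin R T) ?_ (mem_chart.1 hc)
  intro a ha
  induction ha using Algebra.adjoin_induction with
  | mem y hy => exact hT y hy
  | algebraMap r => exact hR r
  | add y z _ _ hy hz => exact V.add_mem _ _ hy hz
  | mul y z _ _ hy hz => exact V.mul_mem _ _ hy hz

/-- The charts lie in every discrete valuation subring containing `w` and `x`
(resp. `x⁻¹`). -/
theorem h919_chart_le_of_dvr [IsDiscreteValuationRing R] {q : ℕ} (hq0 : 0 < q)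
    (hq : (q : R) ∈ IsLocalRing.maximalIdeal R) {w : R} (hw : Irreducible w)
    (V : ValuationSubring F) [IsDiscreteValuationRing V] (hwV : algebraMap R F w ∈ V)
    {T : Set F} (hT : ∀ t ∈ T, t ∈ V) : ∀ c ∈ chart R T, c ∈ V := fun _ hc =>
  h919_chart_le V (h919_algebraMap_mem_of_dvr hq0 hq hw V hwV) hT hc

end Mem

section Div

variable {F : Type*} [Field F]

/-- In a discrete valuation subring, a fixed power of every non-unit is divisible by a given
non-zero element. -/
theorem h919_exists_pow_mul_inv_mem (V : ValuationSubring F) [IsDiscreteValuationRing V]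
    {c : F} (hc : c ≠ 0) : ∃ e : ℕ, ∀ f ∈ V.nonunits, f ^ e * c⁻¹ ∈ V := by
  by_cases hcV : c ∈ V
  · set c' : V := ⟨c, hcV⟩ with hc'
    have hc'0 : c' ≠ 0 := by
      intro h
      exact hc (congrArg Subtype.val h)
    have hex : ∃ e : ℕ, c' ∉ (IsLocalRing.maximalIdeal V) ^ e := by
      by_contra hcon
      rw [not_exists] at hcon
      have hcon : ∀ e : ℕ, c' ∈ (IsLocalRing.maximalIdeal V) ^ e := fun e => not_not.1 (hcon e)
      have hbot : c' ∈ (⨅ N : ℕ, (IsLocalRing.maximalIdeal V) ^ N) := by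
        rw [Ideal.mem_iInf]
        exact hcon
      rw [Ideal.iInf_pow_eq_bot_of_isLocalRing _
        (IsLocalRing.maximalIdeal.isMaximal V).ne_top] at hbot
      exact hc'0 ((Ideal.mem_bot).1 hbot)
    obtain ⟨e, he⟩ := hex
    refine ⟨e, fun f hf => ?_⟩
    have hfV : f ∈ V := V.nonunits_subset hf
    set f' : V := ⟨f, hfV⟩ with hf'
    have hfm : f' ∈ IsLocalRing.maximalIdeal V := by
      rw [ValuationSubring.mem_nonunits_iff_exists_mem_maximalIdeal] at hf
      obtain ⟨h1, h2⟩ := hf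
      exact h2
    rcases ValuationRing.dvd_total c' (f' ^ e) with h | h
    · obtain ⟨d, hd⟩ := h
      have h1 : f ^ e = c * (d : F) := by
        have := congrArg Subtype.val hd
        simpa [hf', hc'] using this
      rw [h1, mul_comm c, mul_assoc, mul_inv_cancel₀ hc, mul_one]
      exact d.2
    · exfalso
      obtain ⟨d, hd⟩ := h
      apply he
      rw [hd]
      exact Ideal.mul_mem_right _ _ (Ideal.pow_mem_pow hfm e)
  · refine ⟨0, fun f _ => ?_⟩
    rw [pow_zero, one_mul]
    exact (V.mem_or_inv_mem c).resolve_left hcV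

end Div

end Fermat.Agent.S36.H919

end
-- ===== PACK-END S36/H919/SheetsBase.lean

-- ===== PACK-BEGIN S37/H818/ModularNorm.lean
section
/-
S37 / LEVEL TRANSFER (helper818), part 10: degrees, generation and norm compatibility for the
modular function fields (char 0), from the S28 degree API (helper988).
-/







set_option autoImplicit false
set_option linter.style.haveILetI false

noncomputable section

namespace Fermat.Agent.S37.H818

open AlgebraicCurve ModularCurve IntermediateField Fermat.Agent.S28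

variable {L : Type*} [Field L] [Algebra ℚ L]

theorem natCast_ne_zero_of_prime {r : ℕ} (hr : r.Prime) : ((r : ℕ) : L) ≠ 0 := by
  haveI : CharZero L := algebraRat.charZero L
  exact Nat.cast_ne_zero.mpr hr.ne_zero

/-- `[F_{Nℓ} : F_N] = ℓ + 1` for a prime `ℓ ∤ N`, in `finrankAlong` form. -/
theorem finrankAlong_heckeAlphaBar (N ℓ : ℕ) [NeZero N] [NeZero ℓ] (hℓ : ℓ.Prime)
    (hℓN : ¬ ℓ ∣ N) : finrankAlong L (heckeAlphaBar L N ℓ) = ℓ + 1 := by
  have h := H988.relfinrank_full_mul_prime L N ℓ (NeZero.ne N) hℓ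
    (fun r hr _ => natCast_ne_zero_of_prime hr)
  rw [if_neg hℓN, ← H988.laurentBaseChange_full_eq_fullC, ← H988.laurentBaseChange_full_eq_fullC]
    at h
  rw [← h]
  exact finrankAlong_inclusion _

/-- `[F_{Np} : F_N] = p` or `p + 1` for a prime `p`. -/
theorem finrankAlong_heckeAlphaBar' (N p : ℕ) [NeZero N] [NeZero p] (hp : p.Prime) :
    finrankAlong L (heckeAlphaBar L N p) = if p ∣ N then p else p + 1 := by
  have h := H988.relfinrank_full_mul_prime L N p (NeZero.ne N) hp
    (fun r hr _ => natCast_ne_zero_of_prime hr)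
  rw [← H988.laurentBaseChange_full_eq_fullC, ← H988.laurentBaseChange_full_eq_fullC] at h
  rw [← h]
  exact finrankAlong_inclusion _

theorem finiteAlong_heckeAlphaBar (N p : ℕ) [NeZero N] [NeZero p] (hp : p.Prime) :
    FiniteAlong L (heckeAlphaBar L N p) := by
  have h := finrankAlong_heckeAlphaBar' (L := L) N p hp
  unfold FiniteAlong
  unfold finrankAlong at h
  letI := algebraAlong (heckeAlphaBar L N p)
  refine Module.finite_of_finrank_pos ?_
  rw [h]
  split_ifs
  · exact hp.pos
  · exact Nat.succ_pos _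

theorem isIntegral_heckeAlphaBar (N p : ℕ) [NeZero N] [NeZero p] (hp : p.Prime) :
    (heckeAlphaBar L N p).toRingHom.IsIntegral := by
  have hfin := finiteAlong_heckeAlphaBar (L := L) N p hp
  letI := algebraAlong (heckeAlphaBar L N p)
  haveI : Module.Finite (FB L N) (FB L (N * p)) := hfin
  intro x
  exact Algebra.IsIntegral.isIntegral (R := FB L N) x

/-- Generation: `F_{N k ℓ} ≤ F_{N k} ⊔ F_{N ℓ}` for a prime `ℓ ∤ k`. -/
theorem FB_le_sup (N k ℓ : ℕ) [NeZero N] [NeZero k] [NeZero ℓ] (hℓ : ℓ.Prime) (hℓk : ¬ ℓ ∣ k) :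
    FB L (N * k * ℓ) ≤ FB L (N * k) ⊔ FB L (N * ℓ) := by
  have hM : N * k ≠ 0 := Nat.mul_ne_zero (NeZero.ne N) (NeZero.ne k)
  have hMℓ : N * k * ℓ ≠ 0 := Nat.mul_ne_zero hM (NeZero.ne ℓ)
  have hNℓ : N * ℓ ≠ 0 := Nat.mul_ne_zero (NeZero.ne N) (NeZero.ne ℓ)
  show laurentBaseChange L (modularFunctionFieldFull (N * k * ℓ)) ≤ _
  rw [H988.laurentBaseChange_full_eq_fullC, H988.full_le_iff L hMℓ]
  have hA : modularFunctionFieldFullC L (N * k) ≤ FB L (N * k) ⊔ FB L (N * ℓ) := by
    refine le_trans (le_of_eq ?_) le_sup_left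
    exact (H988.laurentBaseChange_full_eq_fullC L (N * k)).symm
  have hB : modularFunctionFieldFullC L (N * ℓ) ≤ FB L (N * k) ⊔ FB L (N * ℓ) := by
    refine le_trans (le_of_eq ?_) le_sup_right
    exact (H988.laurentBaseChange_full_eq_fullC L (N * ℓ)).symm
  let Φ : ℕ → Polynomial (Polynomial ℤ) := fun r =>
    if hr : r.Prime then
      (haveI : NeZero r := ⟨hr.ne_zero⟩; (Classical.choice (H807.nonempty_modPolyData (p := r) hr)).Φ)
    else 0
  have hΦ : ∀ r, r.Prime → r ∣ N * k * ℓ → H988.PhiRel L r (Φ r) := by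
    intro r hr _
    haveI : NeZero r := ⟨hr.ne_zero⟩
    have := H988.phiRel_of_modPolyData L r (Classical.choice (H807.nonempty_modPolyData (p := r) hr))
    simpa [Φ, hr] using this
  refine H988.jd_mem_of_dvd_mul Φ hM hℓ hΦ _ (fun d hd => hA (H988.jd_mem_full L hM hd)) ?_
  intro b hb
  apply hB
  apply H988.jd_mem_full L hNℓ
  have hcop : Nat.Coprime (ℓ ^ b) k :=
    Nat.Coprime.pow_left b ((Nat.Prime.coprime_iff_not_dvd hℓ).mpr hℓk)
  have h1 : ℓ ^ b ∣ k * (N * ℓ) := by
    rw [show k * (N * ℓ) = N * k * ℓ by ring]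
    exact hb
  exact hcop.dvd_of_dvd_mul_left h1

/-- **Norm compatibility for the modular `α`-square** (`ℓ` prime, `ℓ ∤ N k`). -/
theorem normCompat_modular (N k ℓ : ℕ) [NeZero N] [NeZero k] [NeZero ℓ] (hℓ : ℓ.Prime)
    (hℓN : ¬ ℓ ∣ N) (hℓk : ¬ ℓ ∣ k) :
    NormCompat (heckeAlphaBar L N ℓ) (heckeAlphaBar L N k)
      (heckeAlphaBar L (N * k) ℓ) (degenTop L N k ℓ) := by
  have hℓM : ¬ ℓ ∣ N * k := fun h => (hℓ.dvd_mul.mp h).elim hℓN hℓk
  refine normCompat_of_finrank_eq _ _ _ _ (square_alpha L N k ℓ)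
    (finiteAlong_heckeAlphaBar N ℓ hℓ) (finiteAlong_heckeAlphaBar (N * k) ℓ hℓ) ?_ ?_
  · rw [finrankAlong_heckeAlphaBar N ℓ hℓ hℓN, finrankAlong_heckeAlphaBar (N * k) ℓ hℓ hℓM]
  · exact adjoin_range_inclusion_eq_top _ _ (FB_le_sup N k ℓ hℓ hℓk)
      (finiteAlong_heckeAlphaBar (N * k) ℓ hℓ)

end Fermat.Agent.S37.H818

end

end
-- ===== PACK-END S37/H818/ModularNorm.lean

-- ===== PACK-BEGIN S36/Mod3/H27/QepAbs.lean
section



/-!
# S36 / MOD3, leaf QEP (helper27, independent owner): the abstract core, ROUTE B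

Setting: `R` a noetherian domain with `R[X]` integrally closed, `w ∈ R` prime, `F` a field of
characteristic `0`, `x ∈ F` transcendental over `R`, `F` finite over `baseField R x`.
The sheets are the valuation subrings `V` of `F` with `A2.H12.IsSheet w x V`.

* `mul_inv_mem_chart_of_sheets` : an element `b` of the chart with `b / w` in EVERY sheet is
  divisible by `w` in the chart (algebraic Hartogs `A2.H849` + every height-one prime of the chart
  containing `w` is the centre of a sheet, `S36.H193.isSheet_of_minimal`).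
  No hypothesis on the special fibre (multiplicities, singularities): it is a statement about the
  normal noetherian chart only.
* `qep3_fin_of_complete`, `qep3_inf_of_complete`, `qep3_of_complete` : if every sheet is one of
  `V₁, V₂, V₃` then `Eng.Qep3` holds for the finite chart AND for the chart at infinity
  (uniformly: no integrality of the chart at infinity over a smaller level is needed).
-/

set_option autoImplicit false
set_option linter.style.haveILetI false
set_option linter.unusedSectionVars false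

namespace Fermat.Agent.S36.Mod3.H27

open Polynomial
open Fermat.Agent.A2.H12 (IsSheet)
open Fermat.Agent.A2.H849 (IsLocDVR mem_range_of_forall_isLocDVR)
open Fermat.Agent.S18.H138
open Fermat.Agent.S36.H193 (chart_inst isSheet_of_minimal isSheet_inv_iff)
open Fermat.Agent.S36.Eng

universe u

section Hartogs

variable {R : Type u} [CommRing R] [IsDomain R] [IsNoetherianRing R] [IsIntegrallyClosed R[X]]
  {F : Type u} [Field F] [CharZero F] [Algebra R F]

/-- **Full `q`-expansion principle with respect to all sheets** (finite chart).  If `b` lies in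
the chart and `b / w` lies in every sheet, then `b / w` lies in the chart. -/
theorem mul_inv_mem_chart_of_sheets (hinjR : Function.Injective (algebraMap R F)) {w : R}
    (hw : Prime w) {x : F} (hx : Transcendental R x) [FiniteDimensional (baseField R x) F]
    {b : F} (hb : b ∈ chart R ({x} : Set F))
    (h : ∀ V : ValuationSubring F, IsSheet w x V → b * (algebraMap R F w)⁻¹ ∈ V) :
    b * (algebraMap R F w)⁻¹ ∈ chart R ({x} : Set F) := by
  classical
  obtain ⟨hnoeth, hic, hfrac⟩ := chart_inst (R := R) hx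
  set C : Subalgebra R F := chart R ({x} : Set F) with hC
  haveI := hnoeth
  haveI := hic
  haveI : IsFractionRing C F := by
    refine IsFractionRing.of_field C F (fun z => ?_)
    obtain ⟨a, ha, c, hc, -, h⟩ := hfrac z
    exact ⟨⟨a, ha⟩, ⟨c, hc⟩, h⟩
  have hw0 : algebraMap R F w ≠ 0 := fun h0 => hw.ne_zero (hinjR (by rw [h0, map_zero]))
  have hwC0 : algebraMap R C w ≠ 0 := by
    intro h0
    exact hw0 (congrArg Subtype.val h0)
  have hmem : b * (algebraMap R F w)⁻¹ ∈ (algebraMap C F).range := by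
    apply mem_range_of_forall_isLocDVR
    intro O P hOP
    haveI := hOP.prime
    have hCO : ∀ c ∈ C, c ∈ O := fun c hc => hOP.le ⟨c, hc⟩
    by_cases hwP : algebraMap R C w ∈ P
    · -- `O` is a sheet
      have hmin : P ∈ (Ideal.span {algebraMap R C w}).minimalPrimes := by
        refine ⟨⟨hOP.prime, ?_⟩, ?_⟩
        · rw [Ideal.span_le, Set.singleton_subset_iff]
          exact hwP
        · rintro Q ⟨hQ, hQw⟩ hQP
          have hQ0 : Q ≠ ⊥ := by
            intro hbot
            apply hwC0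
            have : algebraMap R C w ∈ Q := hQw (Ideal.subset_span rfl)
            rw [hbot, Ideal.mem_bot] at this
            exact this
          exact (hOP.height_one Q hQ hQ0 hQP).ge
      have hV : ∀ c : C, (c : F) ∈ O.nonunits ↔ c ∈ P := by
        intro c
        constructor
        · intro hc
          by_contra hcP
          have := hOP.inv_mem c hcP
          rw [ValuationSubring.mem_nonunits_iff_or] at hc
          rcases hc with hc | hc
          · apply hcP
            have : c = 0 := Subtype.ext hc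
            rw [this]
            exact Ideal.zero_mem _
          · exact hc this
        · intro hcP
          rw [ValuationSubring.mem_nonunits_iff_or]
          by_cases hc0 : c = 0
          · left
            rw [hc0]
            rfl
          · right
            exact hOP.inv_not_mem c hcP hc0
      exact h O (isSheet_of_minimal w hw hx C (fun _ => Iff.rfl) P hmin O hCO hV)
    · have h1 : (algebraMap R F w)⁻¹ ∈ O := hOP.inv_mem (algebraMap R C w) hwP
      exact O.mul_mem _ _ (hCO b hb) h1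
  obtain ⟨c, hc⟩ := hmem
  rw [← hc]
  exact c.2

end Hartogs

section Qep3

variable {R : Type u} [CommRing R] [IsDomain R] [IsNoetherianRing R] [IsIntegrallyClosed R[X]]
  {F : Type u} [Field F] [CharZero F] [Algebra R F]

/-- `Qep3` for the finite chart from completeness of `{V₁, V₂, V₃}`. -/
theorem qep3_fin_of_complete (hinjR : Function.Injective (algebraMap R F)) {w : R}
    (hw : Prime w) {x : F} (hx : Transcendental R x) [FiniteDimensional (baseField R x) F]
    (V₁ V₂ V₃ : ValuationSubring F)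
    (hcomplete : ∀ V : ValuationSubring F, IsSheet w x V → V = V₁ ∨ V = V₂ ∨ V = V₃) :
    Qep3 w (chart R ({x} : Set F)) V₁ V₂ V₃ := by
  intro b h₁ h₂ h₃
  have := mul_inv_mem_chart_of_sheets hinjR hw hx b.2 (fun V hV => by
    rcases hcomplete V hV with rfl | rfl | rfl
    · exact h₁
    · exact h₂
    · exact h₃)
  refine ⟨⟨_, this⟩, ?_⟩
  have hw0 : algebraMap R F w ≠ 0 := fun h0 => hw.ne_zero (hinjR (by rw [h0, map_zero]))
  apply Subtype.ext
  show (b : F) = algebraMap R F w * ((b : F) * (algebraMap R F w)⁻¹)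
  field_simp

/-- `Qep3` for the chart at infinity from completeness of `{V₁, V₂, V₃}`. -/
theorem qep3_inf_of_complete (hinjR : Function.Injective (algebraMap R F)) {w : R}
    (hw : Prime w) {x : F} (hx : Transcendental R x) [FiniteDimensional (baseField R x) F]
    (V₁ V₂ V₃ : ValuationSubring F)
    (hcomplete : ∀ V : ValuationSubring F, IsSheet w x V → V = V₁ ∨ V = V₂ ∨ V = V₃) :
    Qep3 w (chart R ({x⁻¹} : Set F)) V₁ V₂ V₃ := by
  have hx0 : x ≠ 0 := ne_zero_of_transcendental hx
  haveI : FiniteDimensional (baseField R x⁻¹) F := by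
    rw [baseField_inv]
    infer_instance
  exact qep3_fin_of_complete hinjR hw (transcendental_inv hx) V₁ V₂ V₃
    (fun V hV => hcomplete V ((isSheet_inv_iff w hx0 V).1 hV))

/-- **`Qep3` for both charts from completeness.** -/
theorem qep3_of_complete (hinjR : Function.Injective (algebraMap R F)) {w : R}
    (hw : Prime w) {x : F} (hx : Transcendental R x) [FiniteDimensional (baseField R x) F]
    (V₁ V₂ V₃ : ValuationSubring F)
    (hcomplete : ∀ V : ValuationSubring F, IsSheet w x V → V = V₁ ∨ V = V₂ ∨ V = V₃) :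
    Qep3 w (chart R ({x} : Set F)) V₁ V₂ V₃ ∧ Qep3 w (chart R ({x⁻¹} : Set F)) V₁ V₂ V₃ :=
  ⟨qep3_fin_of_complete hinjR hw hx V₁ V₂ V₃ hcomplete,
    qep3_inf_of_complete hinjR hw hx V₁ V₂ V₃ hcomplete⟩

end Qep3

end Fermat.Agent.S36.Mod3.H27

end
-- ===== PACK-END S36/Mod3/H27/QepAbs.lean

-- ===== PACK-BEGIN S36/Mod3/H27/Complete.lean
section


/-!
# S36 / MOD3, leaf QEP (helper27): completeness of the sheets from the tower, abstract part

* `chart_eq_of_mem` : `x ∈ chart R {y}`, `y ∈ chart R {x}` ⟹ the two charts coincide.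
* `isSheet_of_chart_eq` : **change of coordinate** — a sheet of `x` is a sheet of `y` as soon as
  `x` and `y` have the same chart (going down, via `S36.H193.isSheet_of_minimal`).
* `isSheet_comap` : `IsSheet w (α x') V → IsSheet w x' (V.comap α)`.
* `complete_of_tower` : if the sheets of the lower level are `V₁'`, `V₂'`, the restriction of a
  sheet is a sheet, and `V₁, V₂` (resp. `V₃`) are the only sheets over `V₁'` (resp. `V₂'`), then
  every sheet of the upper level is one of `V₁, V₂, V₃`.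
* `qep3_of_tower` : the conclusion `Eng.Qep3` for both charts.
-/

set_option autoImplicit false
set_option linter.style.haveILetI false
set_option linter.unusedSectionVars false

namespace Fermat.Agent.S36.Mod3.H27

open Polynomial
open Fermat.Agent.A2.H12 (IsSheet)
open Fermat.Agent.S18.H138
open Fermat.Agent.S36.H193 (isSheet_of_minimal centreW mem_centreW sheet_chart_le
  centre_mem_minimalPrimes)
open Fermat.Agent.S36.Eng

universe u

section Charts

variable {R : Type*} [CommRing R] {F : Type*} [Field F] [Algebra R F]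

/-- An element integral over a chart lies in the chart. -/
theorem mem_chart_of_isIntegral_chart27 {S : Set F} {y : F} (hy : IsIntegral (chart R S) y) :
    y ∈ chart R S := by
  rw [mem_chart]
  have h1 : IsIntegral (integralClosure (Algebra.adjoin R S) F) y := hy
  exact isIntegral_trans (R := Algebra.adjoin R S) (A := integralClosure (Algebra.adjoin R S) F)
    y h1

/-- If `S ⊆ chart R T` then `chart R S ≤ chart R T`. -/
theorem chart_le_of_subset {S T : Set F} (h : S ⊆ chart R T) : chart R S ≤ chart R T := by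
  intro f hf
  apply mem_chart_of_isIntegral_chart27
  exact isIntegral_of_le (Algebra.adjoin_le h) (mem_chart.1 hf)

/-- Two coordinates, each integral over the other, have the same chart. -/
theorem chart_eq_of_mem {x y : F} (hxy : x ∈ chart R ({y} : Set F))
    (hyx : y ∈ chart R ({x} : Set F)) : chart R ({x} : Set F) = chart R ({y} : Set F) :=
  le_antisymm (chart_le_of_subset (Set.singleton_subset_iff.2 hxy))
    (chart_le_of_subset (Set.singleton_subset_iff.2 hyx))

end Charts

section Coord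

variable {R : Type u} [CommRing R] [IsDomain R] [IsIntegrallyClosed R[X]]
  {F : Type u} [Field F] [Algebra R F]

/-- **Change of coordinate for sheets.** -/
theorem isSheet_of_chart_eq {w : R} (hw : Prime w) {x y : F} (hy : Transcendental R y)
    (hxy : x ∈ chart R ({y} : Set F)) (hyx : y ∈ chart R ({x} : Set F))
    {V : ValuationSubring F} (hV : IsSheet w x V) : IsSheet w y V := by
  have heq := chart_eq_of_mem hxy hyx
  refine isSheet_of_minimal w hw hy (chart R ({x} : Set F)) (fun f => ?_)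
    (centreW V (chart R ({x} : Set F)) (sheet_chart_le hV)) (centre_mem_minimalPrimes hV) V
    (sheet_chart_le hV) (fun b => (mem_centreW V _ (sheet_chart_le hV) b).symm)
  rw [heq]
  exact mem_chart

end Coord

section Comap

variable {R : Type u} [CommRing R] {F F' : Type u} [Field F] [Algebra R F] [Field F']
  [Algebra R F']

/-- The restriction of a sheet along a ring homomorphism over `R`. -/
theorem isSheet_comap (α : F' →+* F) (hα : ∀ r : R, α (algebraMap R F' r) = algebraMap R F r)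
    {w : R} {x' : F'} {V : ValuationSubring F} (hV : IsSheet w (α x') V) :
    IsSheet w x' (V.comap α) := by
  have haev : ∀ P : R[X], α (aeval x' P) = aeval (α x') P := by
    intro P
    rw [aeval_def, aeval_def, hom_eval₂]
    congr 1
    ext r
    exact hα r
  obtain ⟨h1, h2, h3, h4⟩ := hV
  refine ⟨fun r => ?_, h2, ?_, fun P hP => ?_⟩
  · show α (algebraMap R F' r) ∈ V
    rw [hα]
    exact h1 r
  · rw [ValuationSubring.mem_nonunits_iff_or] at h3 ⊢
    rcases h3 with h3 | h3
    · left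
      rw [← hα] at h3
      exact (map_eq_zero α).1 h3
    · right
      intro hc
      apply h3
      have : α ((algebraMap R F' w)⁻¹) ∈ V := hc
      rwa [map_inv₀, hα] at this
  · show α ((aeval x' P)⁻¹) ∈ V
    rw [map_inv₀, haev]
    exact h4 P hP

end Comap

section Tower

variable {R : Type u} [CommRing R] [IsDomain R] [IsNoetherianRing R] [IsIntegrallyClosed R[X]]
  {F F' : Type u} [Field F] [CharZero F] [Algebra R F] [Field F'] [Algebra R F']

/-- **Completeness from the tower.** -/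
theorem complete_of_tower {w : R} (hw : Prime w) (α : F' →+* F)
    (hα : ∀ r : R, α (algebraMap R F' r) = algebraMap R F r) {x : F} {x' : F'}
    (hx' : Transcendental R (α x'))
    (hc₁ : x ∈ chart R ({α x'} : Set F)) (hc₂ : α x' ∈ chart R ({x} : Set F))
    (V₁ V₂ V₃ : ValuationSubring F) (V₁' V₂' : ValuationSubring F')
    (hS' : ∀ V' : ValuationSubring F', IsSheet w x' V' → V' = V₁' ∨ V' = V₂')
    (hE₁ : ∀ V : ValuationSubring F, IsSheet w x V → V.comap α = V₁' → V = V₁ ∨ V = V₂)
    (hE₂ : ∀ V : ValuationSubring F, IsSheet w x V → V.comap α = V₂' → V = V₃) :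
    ∀ V : ValuationSubring F, IsSheet w x V → V = V₁ ∨ V = V₂ ∨ V = V₃ := by
  intro V hV
  have h1 : IsSheet w (α x') V := isSheet_of_chart_eq hw hx' hc₁ hc₂ hV
  have h2 : IsSheet w x' (V.comap α) := isSheet_comap α hα h1
  rcases hS' _ h2 with h | h
  · rcases hE₁ V hV h with h | h
    · exact Or.inl h
    · exact Or.inr (Or.inl h)
  · exact Or.inr (Or.inr (hE₂ V hV h))

/-- **`Qep3` for both charts from the tower.** -/
theorem qep3_of_tower (hinjR : Function.Injective (algebraMap R F)) {w : R} (hw : Prime w)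
    (α : F' →+* F) (hα : ∀ r : R, α (algebraMap R F' r) = algebraMap R F r) {x : F} {x' : F'}
    (hx : Transcendental R x) [FiniteDimensional (baseField R x) F]
    (hx' : Transcendental R (α x'))
    (hc₁ : x ∈ chart R ({α x'} : Set F)) (hc₂ : α x' ∈ chart R ({x} : Set F))
    (V₁ V₂ V₃ : ValuationSubring F) (V₁' V₂' : ValuationSubring F')
    (hS' : ∀ V' : ValuationSubring F', IsSheet w x' V' → V' = V₁' ∨ V' = V₂')
    (hE₁ : ∀ V : ValuationSubring F, IsSheet w x V → V.comap α = V₁' → V = V₁ ∨ V = V₂)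
    (hE₂ : ∀ V : ValuationSubring F, IsSheet w x V → V.comap α = V₂' → V = V₃) :
    Qep3 w (chart R ({x} : Set F)) V₁ V₂ V₃ ∧ Qep3 w (chart R ({x⁻¹} : Set F)) V₁ V₂ V₃ :=
  qep3_of_complete hinjR hw hx V₁ V₂ V₃
    (complete_of_tower hw α hα hx' hc₁ hc₂ V₁ V₂ V₃ V₁' V₂' hS' hE₁ hE₂)

end Tower

end Fermat.Agent.S36.Mod3.H27

end
-- ===== PACK-END S36/Mod3/H27/Complete.lean

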