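import Fermat.Prelude.Def_ModularCurve_HeckeModule
import Fermat.Prelude.Thm_ModularCurve_coeffMap_qExpand
import Fermat.Prelude.Thm_ModularCurve_coeff_jqModC_pow_self
import Fermat.Prelude.Thm_ModularCurve_coeff_jqModC_pow_of_lt
import Fermat.Agent.Pack.S36.E16L1
import Fermat.Agent.Pack.S36.E16L0
import Fermat.Agent.Pack.S36.E0L0
import Fermat.Agent.Pack.S36.E16L3
import Fermat.Agent.Pack.S36.E13L3
import Fermat.Agent.Pack.S36.E8L3
import Fermat.Agent.Pack.S36.E2L3
import Fermat.Agent.Pack.S36.E2L1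
import Fermat.Agent.Pack.S36.E0L3
import Fermat.Agent.Pack.S36.E13L1
import Fermat.Agent.Pack.S36.E16L2
import Fermat.Agent.Pack.S36.E3L2
import Fermat.Agent.Pack.S36.E11L3
import Fermat.Agent.Pack.S36.E12L2
import Fermat.Agent.Pack.S36.E6L1
import Fermat.Agent.Pack.S36.E9L1

-- ===== PACK-BEGIN Lib/X0Deg/Gen.lean
section


/-!
# X0DEG (helper760): `ℚ̄(X₀(M)) = ℚ̄(j, j(q^M))`

* `adjoin_jF_jMF_eq_top` : `ℚ̄(j)(j_M) = F̄_M` (as intermediate field of `F̄_M / ℚ̄(j)`);
* `modularFunctionFieldBar_eq_adjoin_pair` : `F̄_M = ℚ̄(j, j(q^M))` inside `ℚ̄((q))`;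
* `modularFunctionFieldBar_eq_sup` : `N ∣ M → F̄_M = F̄_N ⊔ ℚ̄(j(q^M))`;
* `modularFunctionFieldBar_square` : `F̄_{Nℓℓ'} = F̄_{Nℓ} ⊔ V_ℓ(F̄_{Nℓ'})` (the square used for the
  commutation of Hecke operators is "cartesian").

Proof: the `ψ(M)` embeddings `σ_x : F̄_M → ℂ((z))` of S24 (`H997.HolBase.sigmaX`) agree on `ℚ̄(j)`
and are pairwise distinct on `j(q^M)`; compare with `[F̄_M : ℚ̄(j)] = ψ(M)`.
-/

set_option autoImplicit false

noncomputable section

open ModularCurve AlgebraicCurve IntermediateField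
open Fermat.Agent.S24

namespace Fermat.Agent.Lib.X0Deg

variable (M : ℕ) [NeZero M]

/-- `j(q^M)` as an element of the function field `F̄_M`. -/
def jMF : FF M := H997.inclRN M (H997.jR M M dvd_rfl)

theorem val_jMF : ((jMF M : FF M) : LaurentSeries Kbar) = jBd M := rfl

/-- The S24 embeddings `σ_x` are pairwise distinct on `j(q^M)`. -/
theorem sigmaX_jMF_injective (B : H997.HolBase M) (X : H997.Expansion B) {x y : XX M}
    (hxy : B.sigmaX X x (jMF M) = B.sigmaX X y (jMF M)) : x = y := by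
  obtain ⟨g, rfl⟩ := QuotientGroup.mk_surjective x
  obtain ⟨g', rfl⟩ := QuotientGroup.mk_surjective y
  rw [H997.HolBase.sigmaX_mk, H997.HolBase.sigmaX_mk] at hxy
  have h1 : X.E (B.compH g⁻¹ (B.JH M dvd_rfl)) = X.E (B.compH g'⁻¹ (B.JH M dvd_rfl)) := by
    have := hxy
    simp only [jMF, H997.HolBase.sigmaG_inclRN, H997.HolBase.bridge_jR] at this
    exact this
  have h2 := X.inj h1
  apply QuotientGroup.eq.mpr
  apply B.J_distinct
  intro τ
  have h3 := congrArg (fun h : B.Hol => (h : UpperHalfPlane → ℂ) (g' • τ)) h2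
  simp only [H997.HolBase.compH_apply] at h3
  rw [← mul_smul, ← mul_smul, inv_mul_cancel, one_smul] at h3
  exact h3

/-- `ℚ̄(j)(j(q^M)) = F̄_M`. -/
theorem adjoin_jF_jMF_eq_top :
    IntermediateField.adjoin ↥(IntermediateField.adjoin Kbar {jF M}) {jMF M} = ⊤ := by
  classical
  obtain ⟨P⟩ := nonempty_modularPackage M
  have := P.finiteDimensional
  set E := IntermediateField.adjoin Kbar {jF M} with hE
  set E' := IntermediateField.adjoin ↥E {jMF M} with hE'
  let A := H997.analyticCore M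
  let X := A.toHolBase.qexpExpansion
  let x0 : XX M := ((1 : Matrix.SpecialLinearGroup (Fin 2) ℤ) : XX M)
  let ψ : ↥E →+* LaurentSeries ℂ := (A.toHolBase.sigmaX X x0).comp (algebraMap ↥E (FF M))
  let _ : Algebra ↥E (LaurentSeries ℂ) := ψ.toAlgebra
  let a : XX M → (FF M →ₐ[↥E] LaurentSeries ℂ) := fun x =>
    { A.toHolBase.sigmaX X x with
      commutes' := fun y => A.sigmaX_eq_on_adjoin X x x0 y.2 }
  let b : XX M → (↥E' →ₐ[↥E] LaurentSeries ℂ) := fun x => (a x).comp E'.val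
  have hb : Function.Injective b := by
    intro x y hxy
    apply sigmaX_jMF_injective M A.toHolBase X
    have hmem : jMF M ∈ E' := IntermediateField.mem_adjoin_simple_self _ _
    have := congrArg (fun φ : ↥E' →ₐ[↥E] LaurentSeries ℂ => φ ⟨jMF M, hmem⟩) hxy
    exact this
  have : Module.Free ↥E ↥E' := Module.Free.of_divisionRing ↥E ↥E'
  have : Module.Finite ↥E ↥E' := inferInstance
  have : Finite (↥E' →ₐ[↥E] LaurentSeries ℂ) := Finite.algHom ↥E ↥E' (LaurentSeries ℂ)
  have h1 : Nat.card (XX M) ≤ Module.finrank ↥E ↥E' :=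
    calc Nat.card (XX M) ≤ Nat.card (↥E' →ₐ[↥E] LaurentSeries ℂ) :=
          Nat.card_le_card_of_injective b hb
      _ ≤ Module.finrank ↥E ↥E' := card_algHom_le_finrank ↥E ↥E' (LaurentSeries ℂ)
  have h2 : Module.finrank ↥E (FF M) = Nat.card (XX M) := P.finrank_eq
  have h3 : Module.finrank ↥E ↥E' ≤ Module.finrank ↥E (FF M) :=
    Submodule.finrank_le (Subalgebra.toSubmodule E'.toSubalgebra)
  have h4 : Module.finrank ↥E ↥E' = Module.finrank ↥E (FF M) := le_antisymm h3 (h2 ▸ h1)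
  exact IntermediateField.eq_of_le_of_finrank_eq le_top
    (by rw [h4, IntermediateField.finrank_top'])

/-- `F̄_M = ℚ̄(j, j(q^M))` inside `ℚ̄((q))`. -/
theorem modularFunctionFieldBar_eq_adjoin_pair :
    modularFunctionFieldBar M = IntermediateField.adjoin Kbar {jB, jBd M} := by
  apply le_antisymm
  · intro x hx
    have h1 : (⟨x, hx⟩ : FF M) ∈
        IntermediateField.adjoin ↥(IntermediateField.adjoin Kbar {jF M}) {jMF M} := by
      rw [adjoin_jF_jMF_eq_top]
      exact IntermediateField.mem_top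
    have h2 : (⟨x, hx⟩ : FF M) ∈ IntermediateField.adjoin Kbar ({jF M} ∪ {jMF M}) := by
      rw [← IntermediateField.adjoin_adjoin_left]
      exact h1
    have h3 : (IntermediateField.adjoin Kbar ({jF M} ∪ {jMF M} : Set (FF M))).map
        (modularFunctionFieldBar M).val = IntermediateField.adjoin Kbar {jB, jBd M} := by
      rw [IntermediateField.adjoin_map, Set.image_union, Set.image_singleton,
        Set.image_singleton]
      rfl
    rw [← h3]
    exact ⟨⟨x, hx⟩, h2, rfl⟩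
  · rw [IntermediateField.adjoin_le_iff]
    rintro x (rfl | rfl)
    · exact jB_mem M
    · exact jBd_mem dvd_rfl

/-- `N ∣ M → F̄_M = F̄_N ⊔ ℚ̄(j(q^M))`. -/
theorem modularFunctionFieldBar_eq_sup {N : ℕ} [NeZero N] (h : N ∣ M) :
    modularFunctionFieldBar M
      = modularFunctionFieldBar N ⊔ IntermediateField.adjoin Kbar {jBd M} := by
  apply le_antisymm
  · rw [modularFunctionFieldBar_eq_adjoin_pair M, IntermediateField.adjoin_le_iff]
    rintro x (rfl | rfl)
    · exact (le_sup_left : modularFunctionFieldBar N ≤ _) (jB_mem N)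
    · exact (le_sup_right : IntermediateField.adjoin Kbar {jBd M} ≤ _)
        (IntermediateField.mem_adjoin_simple_self _ _)
  · refine sup_le (modularFunctionFieldBar_mono h) ?_
    rw [IntermediateField.adjoin_le_iff]
    rintro x rfl
    exact jBd_mem dvd_rfl

theorem coeffMap_qExpand_comm {R S : Type*} [CommRing R] [CommRing S] (f : R →+* S) (n : ℕ)
    [NeZero n] (x : LaurentSeries R) : coeffMap f (qExpand R n x) = qExpand S n (coeffMap f x) := by
  ext k
  by_cases hk : (n : ℤ) ∣ k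
  · obtain ⟨m, rfl⟩ := hk
    rw [coeffMap_coeff, qExpand_coeff_mul, qExpand_coeff_mul, coeffMap_coeff]
  · rw [coeffMap_coeff, qExpand_coeff_of_not_dvd n _ hk, qExpand_coeff_of_not_dvd n _ hk,
      map_zero]

theorem qExpand_congr_level {R : Type*} [CommRing R] {a b : ℕ} [NeZero a] [NeZero b] (h : a = b)
    (f : LaurentSeries R) : qExpand R a f = qExpand R b f := by
  subst h
  rfl

/-- `V_k (j(q^M)) = j(q^{M k})`. -/
theorem qExpand_jBd (k : ℕ) [NeZero k] : qExpand Kbar k (jBd M) = jBd (M * k) := by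
  unfold jBd coeffEmb
  rw [← coeffMap_qExpand_comm, qExpand_qExpand]
  congr 1
  exact qExpand_congr_level (mul_comm k M) _

omit [NeZero M] in
/-- `V_k` maps `F̄_M` into `F̄_{M k}`. -/
theorem map_qExpand_le (k : ℕ) [NeZero k] :
    (modularFunctionFieldBar M).map (qExpandAlgHomC Kbar k) ≤ modularFunctionFieldBar (M * k) := by
  rintro _ ⟨x, hx, rfl⟩
  exact (heckeBetaBar Kbar M k ⟨x, hx⟩).2

/-- **Cartesian square, general form.** For every `N' ∣ M k`:
`F̄_{M k} = F̄_{N'} ⊔ V_k(F̄_M)`. -/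
theorem modularFunctionFieldBar_mul_eq_sup (k : ℕ) [NeZero k] {N' : ℕ} [NeZero N']
    (h : N' ∣ M * k) :
    modularFunctionFieldBar (M * k)
      = modularFunctionFieldBar N' ⊔ (modularFunctionFieldBar M).map (qExpandAlgHomC Kbar k) := by
  apply le_antisymm
  · rw [modularFunctionFieldBar_eq_adjoin_pair (M * k), IntermediateField.adjoin_le_iff]
    rintro x (rfl | rfl)
    · exact (le_sup_left : modularFunctionFieldBar N' ≤ _) (jB_mem N')
    · refine (le_sup_right : (modularFunctionFieldBar M).map (qExpandAlgHomC Kbar k) ≤ _) ?_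
      exact ⟨jBd M, jBd_mem dvd_rfl, qExpand_jBd M k⟩
  · exact sup_le (modularFunctionFieldBar_mono h) (map_qExpand_le M k)

/-- **Cartesian square for the commutation of Hecke operators.**
`F̄_{Nℓℓ'} = F̄_{Nℓ} ⊔ V_ℓ(F̄_{Nℓ'})`. -/
theorem modularFunctionFieldBar_square (N ℓ ℓ' : ℕ) [NeZero N] [NeZero ℓ] [NeZero ℓ'] :
    modularFunctionFieldBar (N * ℓ * ℓ')
      = modularFunctionFieldBar (N * ℓ)
        ⊔ (modularFunctionFieldBar (N * ℓ')).map (qExpandAlgHomC Kbar ℓ) := by
  have e : N * ℓ * ℓ' = N * ℓ' * ℓ := by ring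
  have h : N * ℓ ∣ N * ℓ' * ℓ := by rw [← e]; exact dvd_mul_right _ _
  rw [e]
  exact modularFunctionFieldBar_mul_eq_sup (N * ℓ') ℓ h

end Fermat.Agent.Lib.X0Deg

end
end
-- ===== PACK-END Lib/X0Deg/Gen.lean

-- ===== PACK-BEGIN S29/H389/DictKummer.lean
section




/-!
# S29 / layer M / BR — DICT, Kummer-class form (helper389)

`exists_isKummerClass_of_analytic_pow` : in the situation of `dvd_ord_of_analytic_pow`
(`e(r) · h₂ ^ p = c · h₁ ^ p · e(s)`, `h₁ / h₂` invariant under the elliptic and parabolic elements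
of `Γ₀(N)`), the function `f = r / s ∈ FF N` has a `p`-Kummer class in `J₀(N)(ℚ̄) = Pic⁰(FF N)`:
there is a degree-zero divisor `D` with `p • D = div f` (landed predicate `H455.IsKummerClass`).
-/

set_option autoImplicit false
set_option linter.style.haveILetI false

noncomputable section

open AlgebraicCurve HahnSeries ModularCurve
open scoped MatrixGroups

namespace Fermat.Agent.S29.H389

open Fermat.Agent.S24 Fermat.Agent.S24.H997

variable {N : ℕ} [NeZero N]

/-- A divisor all of whose coefficients are divisible by `p ≠ 0` is `p` times a divisor, of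
degree zero if the original one is. -/
theorem exists_divisor_div {K F : Type*} [Field K] [Field F] [Algebra K F]
    (p : ℕ) (hp : p ≠ 0) (D₀ : Divisor K F) (hdvd : ∀ v, (p : ℤ) ∣ D₀ v)
    (hdeg : Divisor.degree D₀ = 0) :
    ∃ D : Divisor K F, Divisor.degree D = 0 ∧ ∀ v, (p : ℤ) * D v = D₀ v := by
  classical
  have hp' : (p : ℤ) ≠ 0 := by exact_mod_cast hp
  let D : Divisor K F := D₀.mapRange (fun n : ℤ => n / (p : ℤ)) (by simp)
  have hD : ∀ v, (p : ℤ) * D v = D₀ v := by
    intro v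
    show (p : ℤ) * (D₀.mapRange (fun n : ℤ => n / (p : ℤ)) (by simp)) v = D₀ v
    rw [Finsupp.mapRange_apply]
    exact Int.mul_ediv_cancel' (hdvd v)
  have hsmul : (p : ℤ) • D = D₀ := by
    ext v
    rw [Finsupp.smul_apply, smul_eq_mul, hD]
  refine ⟨D, ?_, hD⟩
  have h1 : (p : ℤ) * Divisor.degree D = 0 := by
    rw [← smul_eq_mul, ← map_zsmul, hsmul, hdeg]
  rcases mul_eq_zero.1 h1 with h | h
  · exact absurd h hp'
  · exact h

/-- **DICT, Kummer form.** -/
theorem exists_isKummerClass_of_analytic_pow (A : AnalyticCore N) (p : ℕ) (hp : p ≠ 0)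
    (r s : RN N) (hr : r ≠ 0) (hs : s ≠ 0) (h₁ h₂ : A.toHolBase.Hol) (hh₁ : h₁ ≠ 0)
    (hh₂ : h₂ ≠ 0) (c : ℂ) (hc : c ≠ 0)
    (hrel : A.toHolBase.bridge r * h₂ ^ p
      = A.toHolBase.constH c * h₁ ^ p * A.toHolBase.bridge s)
    (hinv : ∀ δ : SL(2, ℤ), δ ∈ CongruenceSubgroup.Gamma0 N → Nice δ →
      A.toHolBase.compH δ h₁ * h₂ = h₁ * A.toHolBase.compH δ h₂) :
    ∃ x : JZero N, H455.IsKummerClass (p : ℤ) (inclRN N r / inclRN N s) x := by
  have hr' : inclRN N r ≠ 0 := fun h => hr (inclRN_injective N (by rw [h, map_zero]))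
  have hs' : inclRN N s ≠ 0 := fun h => hs (inclRN_injective N (by rw [h, map_zero]))
  have hf : inclRN N r / inclRN N s ≠ 0 := div_ne_zero hr' hs'
  haveI := Fermat.Agent.Lib.RR.H864.hasPrincipalDivisors_modularFunctionFieldBar N
  obtain ⟨D₀, hD₀, hdeg₀⟩ :=
    HasPrincipalDivisors.exists_divisor (K := AlgebraicClosure ℚ) (inclRN N r / inclRN N s) hf
  obtain ⟨D, hdeg, hD⟩ := exists_divisor_div p hp D₀
    (fun v => by
      rw [hD₀ v]
      exact dvd_ord_of_analytic_pow A p r s hr hs h₁ h₂ hh₁ hh₂ c hc hrel hinv v)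
    hdeg₀
  refine ⟨Pic0.mk ⟨D, hdeg⟩, hf, ⟨D, hdeg⟩, rfl, fun v => ?_⟩
  rw [hD v, hD₀ v]

end Fermat.Agent.S29.H389

end
end
-- ===== PACK-END S29/H389/DictKummer.lean

-- ===== PACK-BEGIN S37/H819/Emb.lean
section




/-!
# S37 / NORM (helper819) — the embeddings `σ_g` of `ℚ̄(X₀(Nℓ))` for `g ∈ Γ₀(N)`

`M = N ℓ`, `σ_g := sigmaG (holBase M) qexp g : FF M →+* ℂ((z))`, `z = q^{1/M}`
(S24, helper997).  For `h ∈ Γ₀(N)`:
* `σ_{h⁻¹} ∘ α = Φ_M` on `FF N`                                  (`sig_alpha`)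
* `σ_{h⁻¹} ∘ β = (y ↦ y(ζ^b q^{1/ℓ}))` if `ℓ ∣ h₁₁ - b h₁₀`       (`sig_beta`)
* `σ_1 = Φ_M`                                                      (`sig_one`)
where `α, β : FF N → FF M` are the Prelude degeneracy maps `heckeAlphaBar`, `heckeBetaBar`.
-/

set_option autoImplicit false

noncomputable section

open ModularCurve HahnSeries UpperHalfPlane AlgebraicCurve
open scoped MatrixGroups

namespace Fermat.Agent.S37.H819

open Fermat.Agent.S24 Fermat.Agent.S24.H997

/-! ### Formal lemmas on `infTwist`, `qExpand`, `coeffMap` -/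

section Formal

variable {R : Type*} [CommRing R]

theorem infTwist_qExpand (u : Rˣ) (d : ℕ) [NeZero d] (x : LaurentSeries R) :
    infTwist u (qExpand R d x) = qExpand R d (infTwist (u ^ d) x) := by
  ext k
  rw [infTwist_coeff]
  by_cases hk : (d : ℤ) ∣ k
  · obtain ⟨m, rfl⟩ := hk
    rw [qExpand_coeff_mul, qExpand_coeff_mul, infTwist_coeff]
    congr 2
    rw [zpow_mul, zpow_natCast]
  · rw [qExpand_coeff_of_not_dvd d _ hk, qExpand_coeff_of_not_dvd d _ hk, zero_mul]

theorem coeffMap_infTwist {S : Type*} [CommRing S] (f : R →+* S) (u : Rˣ)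
    (x : LaurentSeries R) :
    coeffMap f (infTwist u x) = infTwist (Units.map (f : R →* S) u) (coeffMap f x) := by
  ext k
  rw [coeffMap_coeff, infTwist_coeff, infTwist_coeff, coeffMap_coeff, map_mul]
  congr 1
  rw [← map_zpow]
  rfl

theorem coeffMap_C' {S : Type*} [CommRing S] (f : R →+* S) (r : R) :
    coeffMap f (HahnSeries.C r) = HahnSeries.C (f r) := by
  rw [C_apply, coeffMap_single, C_apply]

end Formal

theorem coeffMap_ιK_coeffEmb (s : LaurentSeries ℚ) :
    coeffMap ιK (coeffEmb Kbar s) = coeffEmb ℂ s := by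
  rw [coeffEmb, coeffMap_coeffMap, coeffEmb]
  refine coeffMap_congr (RingHom.ext fun c => ?_) s
  rw [RingHom.comp_apply, ιK_algebraMap]
  simp

theorem infRoot_pow (b : ℤ) (n d : ℕ) : (infRoot b n) ^ d = infRoot ((d : ℤ) * b) n := by
  apply Units.ext
  rw [Units.val_pow_eq_pow_val, infRoot_coe, infRoot_coe, ← Complex.exp_nat_mul]
  congr 1
  push_cast
  ring

/-- the expansion of `j(d(τ+b)/ℓ)` is `j_d(ζ^b q^{1/ℓ})`, in the variable `z = q^{1/(Nℓ)}` -/
theorem infGenExp_eq_twist (N ℓ d : ℕ) [NeZero N] [NeZero d] (b : ℤ) :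
    haveI : NeZero (d * N) := ⟨Nat.mul_ne_zero (NeZero.ne d) (NeZero.ne N)⟩
    infGenExp (d * N) ((d : ℤ) * b) ℓ
      = qExpand ℂ N (infTwist (infRoot b ℓ) (coeffMap ιK (coeffEmb Kbar (qExpand ℚ d jq)))) := by
  have : NeZero (d * N) := ⟨Nat.mul_ne_zero (NeZero.ne d) (NeZero.ne N)⟩
  rw [coeffMap_ιK_coeffEmb, coeffEmb, coeffMap_qExpand, infTwist_qExpand, qExpand_qExpand,
    infRoot_pow, infGenExp]
  have : coeffMap (algebraMap ℚ ℂ) jq = infJq := rfl
  rw [this]
  exact qExpand_congr (Nat.mul_comm d N) _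

variable (N ℓ : ℕ) [NeZero N] [NeZero ℓ]

/-- the embedding `σ_g` at level `N ℓ` -/
def sig (g : SL(2, ℤ)) : FF (N * ℓ) →+* LaurentSeries ℂ :=
  (holBase (N * ℓ)).sigmaG (holBase (N * ℓ)).qexpExpansion g

theorem sig_inclRN (g : SL(2, ℤ)) (r : RN (N * ℓ)) :
    sig N ℓ g (inclRN (N * ℓ) r)
      = (holBase (N * ℓ)).qexp ((holBase (N * ℓ)).compH g⁻¹ ((holBase (N * ℓ)).bridge r)) :=
  (holBase (N * ℓ)).sigmaG_inclRN _ g r

theorem sig_algebraMap (g : SL(2, ℤ)) (c : Kbar) :
    sig N ℓ g (algebraMap Kbar (FF (N * ℓ)) c) = HahnSeries.C (ιK c) :=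
  (holBase (N * ℓ)).sigmaG_algebraMap _ g c

/-- the value of `qexp` from a convergent expansion -/
theorem qexp_eq_of_infExp {M : ℕ} [NeZero M] (h : (holBase M).Hol) {φ : LaurentSeries ℂ}
    (hφ : InfExp M (h : ℍ → ℂ) φ) : (holBase M).qexp h = φ :=
  (expInf_spec (holToExp M h)).unique hφ

/-- `σ_1` is the formal comparison map `Φ_M`. -/
theorem sig_one (x : FF (N * ℓ)) :
    sig N ℓ 1 x = HolBase.Φ (N * ℓ) (x : LaurentSeries Kbar) := by
  obtain ⟨r, t, -, rfl⟩ := exists_div_inclRN (N * ℓ) x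
  rw [map_div₀, sig_inclRN, sig_inclRN, inv_one, HolBase.compH_one, HolBase.compH_one,
    HolBase.qexp_bridge, HolBase.qexp_bridge]
  rw [IntermediateField.coe_div, map_div₀]
  rfl

/-- Two ring homs out of `FF N` into a field agree if they agree on constants and on the
generators `j(q^d)`, `d ∣ N`. -/
theorem ringHom_ext_FF {E : Type*} [Field E] (f g : FF N →+* E)
    (hc : ∀ c : Kbar, f (algebraMap Kbar (FF N) c) = g (algebraMap Kbar (FF N) c))
    (hgen : ∀ (d : ℕ) [NeZero d] (hd : d ∣ N),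
      f (inclRN N (jR N d hd)) = g (inclRN N (jR N d hd))) : f = g := by
  let f' : RN N →+* E := f.comp (inclRN N).toRingHom
  let g' : RN N →+* E := g.comp (inclRN N).toRingHom
  have key' : ∀ r : RN N, f' r = g' r := by
    rintro ⟨r, hr⟩
    induction hr using Algebra.adjoin_induction with
    | mem x hx =>
        obtain ⟨y, ⟨d, hne, hd, rfl⟩, rfl⟩ := hx
        have : (⟨coeffEmb Kbar (qExpand ℚ d jq), Algebra.subset_adjoin
            ⟨_, ⟨d, hne, hd, rfl⟩, rfl⟩⟩ : RN N) = jR N d hd := rfl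
        rw [this]
        exact hgen d hd
    | algebraMap c =>
        have : (⟨algebraMap Kbar (LaurentSeries Kbar) c, Subalgebra.algebraMap_mem _ c⟩ : RN N)
            = algebraMap Kbar (RN N) c := rfl
        rw [this]
        show f (inclRN N (algebraMap Kbar (RN N) c)) = g (inclRN N (algebraMap Kbar (RN N) c))
        have e : inclRN N (algebraMap Kbar (RN N) c) = algebraMap Kbar (FF N) c := rfl
        rw [e]
        exact hc c
    | add x y hx hy ihx ihy =>
        have : (⟨x + y, add_mem hx hy⟩ : RN N) = ⟨x, hx⟩ + ⟨y, hy⟩ := rfl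
        rw [this, map_add, map_add, ihx, ihy]
    | mul x y hx hy ihx ihy =>
        have : (⟨x * y, mul_mem hx hy⟩ : RN N) = ⟨x, hx⟩ * ⟨y, hy⟩ := rfl
        rw [this, map_mul, map_mul, ihx, ihy]
  have key : ∀ r : RN N, f (inclRN N r) = g (inclRN N r) := key'
  ext x
  obtain ⟨r, t, -, rfl⟩ := exists_div_inclRN N x
  rw [map_div₀, map_div₀, key, key]

/-- the coercion `FF N → ℚ̄((q))` as a ring hom -/
def coeHom : FF N →+* LaurentSeries Kbar where
  toFun x := (x : LaurentSeries Kbar)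
  map_one' := rfl
  map_mul' _ _ := rfl
  map_zero' := rfl
  map_add' _ _ := rfl

@[simp] theorem coeHom_apply (x : FF N) : coeHom N x = (x : LaurentSeries Kbar) := rfl

theorem coe_inclRN_jR (d : ℕ) [NeZero d] (hd : d ∣ N) :
    ((inclRN N (jR N d hd) : FF N) : LaurentSeries Kbar) = coeffEmb Kbar (qExpand ℚ d jq) := rfl

theorem coe_algebraMap_FF (c : Kbar) :
    ((algebraMap Kbar (FF N) c : FF N) : LaurentSeries Kbar)
      = algebraMap Kbar (LaurentSeries Kbar) c := rfl

theorem alpha_inclRN_jR (d : ℕ) [NeZero d] (hd : d ∣ N) (hd' : d ∣ N * ℓ) :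
    heckeAlphaBar Kbar N ℓ (inclRN N (jR N d hd)) = inclRN (N * ℓ) (jR (N * ℓ) d hd') := by
  apply Subtype.ext
  rw [coe_heckeAlphaBar, coe_inclRN_jR, coe_inclRN_jR]

theorem beta_inclRN_jR (d : ℕ) [NeZero d] (hd : d ∣ N) [NeZero (d * ℓ)]
    (hdℓ : d * ℓ ∣ N * ℓ) :
    heckeBetaBar Kbar N ℓ (inclRN N (jR N d hd)) = inclRN (N * ℓ) (jR (N * ℓ) (d * ℓ) hdℓ) := by
  apply Subtype.ext
  rw [coe_heckeBetaBar, coe_inclRN_jR, coe_inclRN_jR, coeffEmb, ← coeffMap_qExpand,
    qExpand_qExpand]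
  congr 1
  exact qExpand_congr (Nat.mul_comm ℓ d) _

theorem compH_JH_of_mem_gamma0 {h : SL(2, ℤ)} (hh : h ∈ CongruenceSubgroup.Gamma0 N)
    (d : ℕ) (hd : d ∣ N) (hd' : d ∣ N * ℓ) :
    (holBase (N * ℓ)).compH h ((holBase (N * ℓ)).JH d hd') = (holBase (N * ℓ)).JH d hd' := by
  apply Subtype.ext
  funext τ
  exact Jd_inv N d hd h hh τ

/-- For `h ∈ Γ₀(N)` the embedding `σ_{h⁻¹}` restricts to `Φ_M` on `α(FF N)`. -/
theorem sig_alpha {h : SL(2, ℤ)} (hh : h ∈ CongruenceSubgroup.Gamma0 N) (y : FF N) :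
    sig N ℓ h⁻¹ (heckeAlphaBar Kbar N ℓ y) = HolBase.Φ (N * ℓ) (y : LaurentSeries Kbar) := by
  have key := ringHom_ext_FF N ((sig N ℓ h⁻¹).comp (heckeAlphaBar Kbar N ℓ).toRingHom)
    ((HolBase.Φ (N * ℓ)).comp (coeHom N)) ?_ ?_
  · exact RingHom.congr_fun key y
  · intro c
    rw [RingHom.comp_apply, RingHom.comp_apply, coeHom_apply, coe_algebraMap_FF,
      HolBase.Φ_algebraMap]
    have e : (heckeAlphaBar Kbar N ℓ).toRingHom (algebraMap Kbar (FF N) c)
        = algebraMap Kbar (FF (N * ℓ)) c := (heckeAlphaBar Kbar N ℓ).commutes c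
    rw [e, sig_algebraMap]
  · intro d _ hd
    have hd' : d ∣ N * ℓ := Dvd.dvd.mul_right hd ℓ
    rw [RingHom.comp_apply, RingHom.comp_apply, coeHom_apply, coe_inclRN_jR]
    have e : (heckeAlphaBar Kbar N ℓ).toRingHom (inclRN N (jR N d hd))
        = inclRN (N * ℓ) (jR (N * ℓ) d hd') := alpha_inclRN_jR N ℓ d hd hd'
    rw [e, sig_inclRN, HolBase.bridge_jR, inv_inv, (holBase (N * ℓ)).Φ_gen d hd',
      compH_JH_of_mem_gamma0 N ℓ hh d hd hd']

/-- For `h ∈ Γ₀(N)` with `h₁₁ ≡ b h₁₀ mod ℓ`, the embedding `σ_{h⁻¹}` is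
`y ↦ y(ζ_ℓ^b q^{1/ℓ})` on `β(FF N)`. -/
theorem sig_beta {h : SL(2, ℤ)} (hh : h ∈ CongruenceSubgroup.Gamma0 N) {b : ℤ}
    (hb : (ℓ : ℤ) ∣ h 1 1 - b * h 1 0) (y : FF N) :
    sig N ℓ h⁻¹ (heckeBetaBar Kbar N ℓ y)
      = qExpand ℂ N (infTwist (infRoot b ℓ) (coeffMap ιK (y : LaurentSeries Kbar))) := by
  have key := ringHom_ext_FF N ((sig N ℓ h⁻¹).comp (heckeBetaBar Kbar N ℓ).toRingHom)
    (((qExpand ℂ N).comp (infTwist (infRoot b ℓ))).comp ((coeffMap ιK).comp (coeHom N))) ?_ ?_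
  · exact RingHom.congr_fun key y
  · intro c
    rw [RingHom.comp_apply, RingHom.comp_apply, RingHom.comp_apply, RingHom.comp_apply,
      coeHom_apply, coe_algebraMap_FF]
    have e : (heckeBetaBar Kbar N ℓ).toRingHom (algebraMap Kbar (FF N) c)
        = algebraMap Kbar (FF (N * ℓ)) c := (heckeBetaBar Kbar N ℓ).commutes c
    rw [e, sig_algebraMap, algebraMap_laurentSeries_eq_single, coeffMap_single,
      infTwist_single, qExpand_single]
    simp [HahnSeries.C_apply]
  · intro d _ hd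
    have hN0 : 0 < N := Nat.pos_of_ne_zero (NeZero.ne N)
    have hℓ0 : 0 < ℓ := Nat.pos_of_ne_zero (NeZero.ne ℓ)
    have hd0 : 0 < d := Nat.pos_of_dvd_of_pos hd hN0
    have hdℓ : d * ℓ ∣ N * ℓ := Nat.mul_dvd_mul_right hd ℓ
    haveI hne1 : NeZero (d * ℓ) := ⟨Nat.mul_ne_zero (NeZero.ne d) (NeZero.ne ℓ)⟩
    haveI hne2 : NeZero (d * N) := ⟨Nat.mul_ne_zero (NeZero.ne d) (NeZero.ne N)⟩
    rw [RingHom.comp_apply, RingHom.comp_apply, RingHom.comp_apply, RingHom.comp_apply,
      coeHom_apply, coe_inclRN_jR]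
    have e : (heckeBetaBar Kbar N ℓ).toRingHom (inclRN N (jR N d hd))
        = inclRN (N * ℓ) (jR (N * ℓ) (d * ℓ) hdℓ) := beta_inclRN_jR N ℓ d hd hdℓ
    rw [e, sig_inclRN, HolBase.bridge_jR, inv_inv, ← infGenExp_eq_twist N ℓ d b]
    have hdvd : ((d : ℕ) : ℤ) ∣ h 1 0 := by
      rw [gamma0_mem_iff_dvd] at hh
      exact dvd_trans (by exact_mod_cast hd) hh
    obtain ⟨γ', h00, h01, h10, h11⟩ := exists_hnf_twist d ℓ b h hdvd hb
    have hexp : InfExp (N * ℓ) (fun τ => Fermat.Agent.S20.L1.jFun (infAff d ((d : ℤ) * b) ℓ τ))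
        (infGenExp (d * N) ((d : ℤ) * b) ℓ) :=
      inf_J_infAff_exp infExp_jFun (e := d * N) (N := N * ℓ) ((d : ℤ) * b) hd0 hℓ0
        (Nat.mul_pos hN0 hℓ0) (by ring)
    refine qexp_eq_of_infExp _ (hexp.congr fun τ => ?_)
    have hJ : (((holBase (N * ℓ)).compH h ((holBase (N * ℓ)).JH (d * ℓ) hdℓ) :
        (holBase (N * ℓ)).Hol) : ℍ → ℂ) τ = Jd (d * ℓ) (h • τ) := rfl
    rw [hJ]
    unfold Jd
    rw [inf_aff_smul_eq (Nat.mul_pos hd0 hℓ0) hd0 hℓ0 h γ' h00 h01 h10 h11 τ, jFun_smul']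

end Fermat.Agent.S37.H819

end
end
-- ===== PACK-END S37/H819/Emb.lean

-- ===== PACK-BEGIN Lib/Newform/H958/X/Local.lean
section


/-!
# NEWFORM block X — from the global identity to the local identities
-/

set_option autoImplicit false

open CongruenceSubgroup Complex Polynomial
open UpperHalfPlane hiding I
open scoped MatrixGroups ModularForm

namespace Fermat.Agent.Lib.Newform.H958.X

open ModularFormClass ModularForm

/-- `(∏_{p ∈ T} p ^ k p) ^ z = ∏_{p ∈ T} (p ^ z) ^ k p`. -/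
theorem natCast_prod_pow_cpow (T : Finset ℕ) (k : ℕ → ℕ) (z : ℂ) :
    (((∏ p ∈ T, p ^ k p : ℕ) : ℂ)) ^ z = ∏ p ∈ T, ((p : ℂ) ^ z) ^ k p := by
  classical
  induction T using Finset.induction_on with
  | empty => simp
  | insert a T ha ih =>
    rw [Finset.prod_insert ha, Finset.prod_insert ha, Nat.cast_mul, natCast_mul_natCast_cpow, ih]
    congr 1
    rw [Nat.cast_pow, ← natCast_cpow_natCast_mul, Complex.cpow_nat_mul]

/-- `N = ∏_{p ∈ T} p ^ v_p(N)` if `T` is a set of primes containing the prime factors of `N`. -/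
theorem prod_pow_factorization_eq {N : ℕ} (hN : N ≠ 0) (T : Finset ℕ)
    (hTN : N.primeFactors ⊆ T) : ∏ p ∈ T, p ^ N.factorization p = N := by
  have h1 : ∏ p ∈ T, p ^ N.factorization p = ∏ p ∈ N.primeFactors, p ^ N.factorization p := by
    refine (Finset.prod_subset hTN fun p _ hp => ?_).symm
    have : N.factorization p = 0 := by
      rw [← Finsupp.notMem_support_iff, Nat.support_factorization]
      exact hp
    rw [this, pow_zero]
  rw [h1]
  exact Nat.prod_factorization_pow_eq_self hN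

theorem natCast_cpow_eq_prod {N : ℕ} (hN : N ≠ 0) (T : Finset ℕ)
    (hTN : N.primeFactors ⊆ T) (z : ℂ) :
    (N : ℂ) ^ z = ∏ p ∈ T, ((p : ℂ) ^ z) ^ N.factorization p := by
  rw [← natCast_prod_pow_cpow, prod_pow_factorization_eq hN T hTN]

/-- `p ^ (-(2 - s)) = p⁻² / p ^ (-s)`. -/
theorem cpow_neg_two_sub {p : ℕ} (hp : p ≠ 0) (s : ℂ) :
    (p : ℂ) ^ (-(2 - s)) = ((p : ℂ) ^ 2)⁻¹ / (p : ℂ) ^ (-s) := by
  have hpc : (p : ℂ) ≠ 0 := Nat.cast_ne_zero.mpr hp
  rw [show -(2 - s) = (-(2 : ℕ) : ℂ) + s by push_cast; ring, Complex.cpow_add _ _ hpc,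
    Complex.cpow_neg, Complex.cpow_natCast, Complex.cpow_neg, div_eq_mul_inv, inv_inv]

theorem eulerProd_two_sub (N : ℕ) (a : ℕ → ℂ) (T : Finset ℕ) (hT : ∀ p ∈ T, p.Prime) (s : ℂ) :
    (∏ p ∈ T, ((p : ℂ) ^ (-s)) ^ 2) * eulerProd N a T (2 - s) =
      ∏ p ∈ T, (eulerPolyRev N a p).eval ((p : ℂ) ^ (-s)) := by
  unfold eulerProd
  rw [← Finset.prod_mul_distrib]
  refine Finset.prod_congr rfl fun p hp => ?_
  have hp0 : p ≠ 0 := (hT p hp).ne_zero
  have hpc : (p : ℂ) ≠ 0 := Nat.cast_ne_zero.mpr hp0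
  have hx : (p : ℂ) ^ (-s) ≠ 0 := (Complex.cpow_ne_zero_iff).mpr (Or.inl hpc)
  rw [eval_eulerPolyRev N a hp0 hx, cpow_neg_two_sub hp0]

/-- From the global identity to the local identity at a prime `q ∈ T`. -/
theorem localIdentity_of_global (hIL : IndepLocal)
    {N N' : ℕ} [NeZero N] [NeZero N'] (a b : ℕ → ℂ) {wf wg : ℂ} (hwf : wf ≠ 0) (hwg : wg ≠ 0)
    (T : Finset ℕ) (hT : ∀ p ∈ T, p.Prime)
    (hTN : N.primeFactors ⊆ T) (hTN' : N'.primeFactors ⊆ T)
    (hglob : ∀ s : ℂ, wf * (N : ℂ) ^ (s - 1) * eulerProd N a T (2 - s) * eulerProd N' b T s =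
      wg * (N' : ℂ) ^ (s - 1) * eulerProd N a T s * eulerProd N' b T (2 - s))
    (q : ℕ) (hq : q ∈ T) :
    ∃ c : ℂ, c ≠ 0 ∧
      X ^ (N'.factorization q) * eulerPolyRev N a q * eulerPoly N' b q =
        C c * (X ^ (N.factorization q) * eulerPoly N a q * eulerPolyRev N' b q) := by
  classical
  have hN : N ≠ 0 := NeZero.ne N
  have hN' : N' ≠ 0 := NeZero.ne N'
  have hNc : (N : ℂ) ≠ 0 := Nat.cast_ne_zero.mpr hN
  have hN'c : (N' : ℂ) ≠ 0 := Nat.cast_ne_zero.mpr hN'
  set c₀ : ℂ := wg * N / (wf * N') with hc₀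
  have hc₀ne : c₀ ≠ 0 := div_ne_zero (mul_ne_zero hwg hNc) (mul_ne_zero hwf hN'c)
  let A : ℕ → ℂ[X] := fun p =>
    X ^ (N'.factorization p) * eulerPolyRev N a p * eulerPoly N' b p
  let B : ℕ → ℂ[X] := fun p =>
    X ^ (N.factorization p) * eulerPoly N a p * eulerPolyRev N' b p
  let B' : ℕ → ℂ[X] := fun p => (if p = q then C c₀ else 1) * B p
  have hA : ∀ p ∈ T, A p ≠ 0 := fun p _ =>
    mul_ne_zero (mul_ne_zero (pow_ne_zero _ X_ne_zero) (eulerPolyRev_ne_zero N a p))
      (eulerPoly_ne_zero N' b p)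
  have hB : ∀ p, B p ≠ 0 := fun p =>
    mul_ne_zero (mul_ne_zero (pow_ne_zero _ X_ne_zero) (eulerPoly_ne_zero N a p))
      (eulerPolyRev_ne_zero N' b p)
  have hB' : ∀ p ∈ T, B' p ≠ 0 := by
    intro p _
    refine mul_ne_zero ?_ (hB p)
    split_ifs
    · exact C_ne_zero.mpr hc₀ne
    · exact one_ne_zero
  have hid : ∀ s : ℂ, ∏ p ∈ T, (A p).eval ((p : ℂ) ^ (-s)) =
      ∏ p ∈ T, (B' p).eval ((p : ℂ) ^ (-s)) := by
    intro s
    have hL : ∏ p ∈ T, (A p).eval ((p : ℂ) ^ (-s)) =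
        (N' : ℂ) ^ (-s) * ((∏ p ∈ T, ((p : ℂ) ^ (-s)) ^ 2) * eulerProd N a T (2 - s)) *
          eulerProd N' b T s := by
      rw [eulerProd_two_sub N a T hT, natCast_cpow_eq_prod hN' T hTN', eulerProd,
        ← Finset.prod_mul_distrib, ← Finset.prod_mul_distrib]
      refine Finset.prod_congr rfl fun p _ => ?_
      simp only [A, eval_mul, eval_pow, eval_X]
    have hR : ∏ p ∈ T, (B' p).eval ((p : ℂ) ^ (-s)) =
        c₀ * ((N : ℂ) ^ (-s) * eulerProd N a T s *
          ((∏ p ∈ T, ((p : ℂ) ^ (-s)) ^ 2) * eulerProd N' b T (2 - s))) := by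
      rw [eulerProd_two_sub N' b T hT, natCast_cpow_eq_prod hN T hTN, eulerProd,
        ← Finset.prod_mul_distrib, ← Finset.prod_mul_distrib]
      have h1 : ∏ p ∈ T, (B' p).eval ((p : ℂ) ^ (-s)) =
          (∏ p ∈ T, (if p = q then c₀ else 1)) * ∏ p ∈ T, (B p).eval ((p : ℂ) ^ (-s)) := by
        rw [← Finset.prod_mul_distrib]
        refine Finset.prod_congr rfl fun p _ => ?_
        simp only [B', eval_mul]
        split_ifs <;> simp
      rw [h1, Finset.prod_ite_eq' T q (fun _ => c₀), if_pos hq]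
      congr 1
      refine Finset.prod_congr rfl fun p _ => ?_
      simp only [B, eval_mul, eval_pow, eval_X]
    rw [hL, hR]
    have hg := hglob s
    rw [Complex.cpow_sub _ _ hNc, Complex.cpow_sub _ _ hN'c, Complex.cpow_one,
      Complex.cpow_one] at hg
    rw [Complex.cpow_neg, Complex.cpow_neg]
    have hu : (N : ℂ) ^ s ≠ 0 := (Complex.cpow_ne_zero_iff).mpr (Or.inl hNc)
    have hv : (N' : ℂ) ^ s ≠ 0 := (Complex.cpow_ne_zero_iff).mpr (Or.inl hN'c)
    rw [hc₀]
    field_simp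
    field_simp at hg
    linear_combination (∏ p ∈ T, ((p : ℂ) ^ (-s)) ^ 2) * hg
  obtain ⟨c, hc, hAB⟩ := hIL T hT A B' hA hB' hid q hq
  refine ⟨c * c₀, mul_ne_zero hc hc₀ne, ?_⟩
  have : A q = C c * B' q := hAB
  simp only [A, B', B, ↓reduceIte] at this
  rw [this, C_mul]
  ring

end Fermat.Agent.Lib.Newform.H958.X

end
-- ===== PACK-END Lib/Newform/H958/X/Local.lean

-- ===== PACK-BEGIN Lib/Newform/H803/MultOne.lean
section




/-!
# Multiplicity one for Prelude newforms (helper803)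

Glue of the Atkin–Lehner main lemma (`H803.mainLemma`) with helper443's conditional strong
multiplicity one (`H443.IsNewform.eq_smul_of_mainLemma`) and helper863's degeneracy maps.

* `oldMap N p : S₂(Γ₀(N/p)) →ₗ S₂(Γ₀(N))`, `g ↦ g(p τ)`, for `p ∈ N.primeFactors`;
* `mem_oldSpace_of_coprime_coeff_eq_zero` : main lemma, submodule form;
* `IsNewform.eq_smul_of_eigen` : the good eigenspace of a newform is the line `ℂ f`;
* `IsNewform.eq_of_eigenform` : a normalised eigenform of level `N` with the good eigenvalues of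
  a newform `f` of level `N` equals `f`.
-/

set_option autoImplicit false

namespace Fermat.Agent.Lib.Newform.H803

open CongruenceSubgroup ModularFormClass UpperHalfPlane
open ModularForm (heckeDiagMatrix)
open Fermat.Agent.Lib.Newform.H863
open scoped MatrixGroups

/-- The old-space map `S₂(Γ₀(N/p)) → S₂(Γ₀(N))`, `g ↦ g(p τ)`. -/
noncomputable def oldMap (N : ℕ) (p : N.primeFactors) :
    CuspForm (Gamma0 (N / (p : ℕ))) 2 →ₗ[ℂ] CuspForm (Gamma0 N) 2 :=
  haveI : NeZero (p : ℕ) := ⟨(Nat.prime_of_mem_primeFactors p.2).ne_zero⟩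
  (levelIncl (dvd_of_eq (Nat.div_mul_cancel (Nat.dvd_of_mem_primeFactors p.2)))).comp
    (degen (p : ℕ))

theorem oldMap_apply (N : ℕ) (p : N.primeFactors) (g : CuspForm (Gamma0 (N / (p : ℕ))) 2)
    (τ : ℍ) : oldMap N p g τ = g (heckeDiagMatrix (p : ℕ) • τ) := by
  have : NeZero (p : ℕ) := ⟨(Nat.prime_of_mem_primeFactors p.2).ne_zero⟩
  exact degen_apply (p : ℕ) g τ

theorem div_dvd_of_mem_primeFactors {N : ℕ} (p : N.primeFactors) : N / (p : ℕ) ∣ N :=
  Nat.div_dvd_of_dvd (Nat.dvd_of_mem_primeFactors p.2)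

theorem div_ne_of_mem_primeFactors {N : ℕ} (p : N.primeFactors) : N / (p : ℕ) ≠ N := by
  have hp := Nat.prime_of_mem_primeFactors p.2
  have hpN := Nat.dvd_of_mem_primeFactors p.2
  have hN : 0 < N := Nat.pos_of_ne_zero (Nat.mem_primeFactors.mp p.2).2.2
  exact (Nat.div_lt_self hN hp.one_lt).ne

/-- `oldMap` commutes with the good Hecke operators. -/
theorem oldMap_heckeTLin (N : ℕ) (p : N.primeFactors) (ℓ : ℕ) (hℓ : ℓ.Prime) (hℓN : ¬ ℓ ∣ N)
    (v : CuspForm (Gamma0 (N / (p : ℕ))) 2) :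
    oldMap N p (CuspForm.heckeTLin 2 hℓ (fun hd => hℓN (hd.trans (div_dvd_of_mem_primeFactors p))) v) =
      CuspForm.heckeTLin 2 hℓ hℓN (oldMap N p v) := by
  have : NeZero (p : ℕ) := ⟨(Nat.prime_of_mem_primeFactors p.2).ne_zero⟩
  have hpN : N / (p : ℕ) * (p : ℕ) = N := Nat.div_mul_cancel (Nat.dvd_of_mem_primeFactors p.2)
  have hℓ' : ¬ ℓ ∣ N / (p : ℕ) * (p : ℕ) := by rw [hpN]; exact hℓN
  show levelIncl (dvd_of_eq hpN) (degen (p : ℕ) _) =
    CuspForm.heckeTLin 2 hℓ hℓN (levelIncl (dvd_of_eq hpN) (degen (p : ℕ) v))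
  rw [heckeTLin_levelIncl (dvd_of_eq hpN) hℓ hℓN, heckeTLin_degen hℓ hℓ']

theorem coe_sum_cuspForm {Γ : Subgroup (GL (Fin 2) ℝ)} {k : ℤ} {ι : Type*} (s : Finset ι)
    (F : ι → CuspForm Γ k) : (⇑(∑ i ∈ s, F i) : ℍ → ℂ) = ∑ i ∈ s, ⇑(F i) := by
  classical
  induction s using Finset.induction_on with
  | empty => simp
  | insert a s ha ih => rw [Finset.sum_insert ha, Finset.sum_insert ha, FunLike.coe_add, ih]

/-- **Main lemma, submodule form.** -/
theorem mem_oldSpace_of_coprime_coeff_eq_zero (N : ℕ) [NeZero N] (h : CuspForm (Gamma0 N) 2)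
    (h0 : ∀ n : ℕ, n.Coprime N → qCoeff h n = 0) :
    h ∈ ⨆ p : N.primeFactors, LinearMap.range (oldMap N p) := by
  obtain ⟨g, hg⟩ := mainLemma N 2 h h0
  have e : h = ∑ p : N.primeFactors, oldMap N p (g p) := by
    apply DFunLike.coe_injective
    funext τ
    rw [hg τ, ← Finset.sum_coe_sort]
    rw [coe_sum_cuspForm, Finset.sum_apply]
    exact Finset.sum_congr rfl fun p _ => (oldMap_apply N p (g p) τ).symm
  rw [e]
  exact Submodule.sum_mem _ fun p _ =>
    Submodule.mem_iSup_of_mem p (LinearMap.mem_range_self _ _)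

/-- **Multiplicity one.** The good eigenspace of a newform `f` of level `N` is the line `ℂ f`. -/
theorem IsNewform.eq_smul_of_eigen {N : ℕ} [NeZero N] {f : CuspForm (Gamma0 N) 2}
    (hf : CuspForm.IsNewform f) (g : CuspForm (Gamma0 N) 2)
    (heig : ∀ (ℓ : ℕ) (hℓ : ℓ.Prime) (hℓN : ¬ ℓ ∣ N), CuspForm.heckeTLin 2 hℓ hℓN g = qCoeff f ℓ • g) :
    g = qCoeff g 1 • f :=
  Fermat.Agent.Lib.Newform.H443.IsNewform.eq_smul_of_mainLemma
    (fun p : N.primeFactors => N / (p : ℕ)) div_dvd_of_mem_primeFactors (oldMap N) hf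
    div_ne_of_mem_primeFactors (oldMap_heckeTLin N)
    (mem_oldSpace_of_coprime_coeff_eq_zero N) g heig

/-- **Multiplicity one**, normalised form. -/
theorem IsNewform.eq_of_eigenform {N : ℕ} [NeZero N] {f : CuspForm (Gamma0 N) 2}
    (hf : CuspForm.IsNewform f) {g : CuspForm (Gamma0 N) 2} (hg : CuspForm.IsNormalizedEigenform g)
    (hgf : ∀ ℓ : ℕ, ℓ.Prime → ¬ ℓ ∣ N → qCoeff g ℓ = qCoeff f ℓ) : g = f :=
  Fermat.Agent.Lib.Newform.H443.IsNewform.eq_of_mainLemma
    (fun p : N.primeFactors => N / (p : ℕ)) div_dvd_of_mem_primeFactors (oldMap N) hf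
    div_ne_of_mem_primeFactors (oldMap_heckeTLin N)
    (mem_oldSpace_of_coprime_coeff_eq_zero N) hg hgf

end Fermat.Agent.Lib.Newform.H803

end
-- ===== PACK-END Lib/Newform/H803/MultOne.lean

-- ===== PACK-BEGIN Lib/Newform/H803/XMultOne.lean
section



/-!
# Leaf `MULT-ONE` of NEWFORM block X (helper803)

Same-level multiplicity one for Prelude newforms, in the frozen form `H958.X.MultOne`.
-/

set_option autoImplicit false

namespace Fermat.Agent.Lib.Newform.H803

/-- **MULT-ONE** (unconditional). -/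
theorem multOne : Fermat.Agent.Lib.Newform.H958.X.MultOne :=
  fun _ _ _ hf h heig => IsNewform.eq_smul_of_eigen hf h heig

end Fermat.Agent.Lib.Newform.H803

end
-- ===== PACK-END Lib/Newform/H803/XMultOne.lean

-- ===== PACK-BEGIN A2/IF/H429/Good.lean
section



/-!
# A2 / IF (helper429): finite levels over the inertia field are discretely valued

`E₁` a finite extension of the inertia field `E_I = ℚ̄^{I_P}` inside `ℚ̄`.  Then
`P ∩ E₁` is a discrete valuation ring.  The level `level P S = E_I(conjugates of S)` is stable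
under the inertia group.
-/

set_option autoImplicit false
set_option linter.style.haveILetI false
set_option linter.unusedSectionVars false

open scoped Pointwise
open Polynomial

namespace Fermat.Agent.A2.IF.H429

open Fermat.Agent.S55.Bridge Fermat.Agent.S55.Bridge.H594

attribute [local instance] isAlgebraic_Qbar isGalois_Qbar

local notation "Qb" => AlgebraicClosure ℚ

variable (P : ValuationSubring Qb)

theorem valuation_natCast_lt_one (q : ℕ) (hP : P.LiesOverPrime q) :
    P.valuation (q : Qb) < 1 := by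
  have h : (q : Qb) ∈ P.nonunits := hP
  rwa [ValuationSubring.mem_nonunits_iff] at h

theorem valuation_natCast_ne_zero (q : ℕ) (hq : q.Prime) : P.valuation (q : Qb) ≠ 0 := by
  rw [Valuation.ne_zero_iff]
  exact_mod_cast hq.ne_zero

/-- Conjugates over the inertia field have the same valuation. -/
theorem valuation_eq_of_root_minpoly (x r : Qb)
    (hr : aeval r (minpoly (inertiaField P) x) = 0) : P.valuation r = P.valuation x := by
  haveI : IsGalois (inertiaField P) Qb := IsGalois.tower_top_of_isGalois ℚ (inertiaField P) Qb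
  haveI : Normal (inertiaField P) Qb := IsGalois.to_normal
  have hx : IsAlgebraic (inertiaField P) x := Algebra.IsAlgebraic.isAlgebraic x
  obtain ⟨σ, hσ⟩ := minpoly.exists_algEquiv_of_root hx hr
  have h1 := valuation_map_eq_of_fixes P (inertiaField P) le_rfl (σ.restrictScalars ℚ)
    (fun e he => σ.commutes ⟨e, he⟩) r
  rw [← hσ]
  exact h1.symm

/-- For `x` in a finite extension `E₁` of the inertia field, `x ^ [E₁ : E_I]!` has the value of a
power of `q`. -/
theorem exists_pow_valuation_eq (q : ℕ) (hq : q.Prime) (hP : P.LiesOverPrime q)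
    (E₁ : IntermediateField (inertiaField P) Qb) [FiniteDimensional (inertiaField P) E₁]
    (x : Qb) (hx : x ∈ E₁) (hx0 : x ≠ 0) :
    ∃ k : ℤ, P.valuation (x ^ (Module.finrank (inertiaField P) E₁).factorial) =
      P.valuation (q : Qb) ^ k := by
  have hxint : IsIntegral (inertiaField P) x := Algebra.IsIntegral.isIntegral x
  set p := minpoly (inertiaField P) x with hp
  have hd0 : 0 < p.natDegree := minpoly.natDegree_pos hxint
  have hd : p.natDegree ≤ Module.finrank (inertiaField P) E₁ := by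
    have h1 := minpoly.natDegree_le (A := inertiaField P) (⟨x, hx⟩ : E₁)
    rw [IntermediateField.minpoly_eq] at h1
    exact h1
  have hpm : p.Monic := minpoly.monic hxint
  have hc0 : p.coeff 0 ≠ 0 := minpoly.coeff_zero_ne_zero hxint hx0
  -- the value of the constant coefficient
  have hval : P.valuation ((p.coeff 0 : inertiaField P) : Qb) = P.valuation x ^ p.natDegree := by
    have hsplit : (p.map (algebraMap (inertiaField P) Qb)).Splits := IsAlgClosed.splits _
    have h1 := hsplit.coeff_zero_eq_prod_roots_of_monic (hpm.map _)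
    rw [coeff_map] at h1
    have h2 : algebraMap (inertiaField P) Qb (p.coeff 0) = ((p.coeff 0 : inertiaField P) : Qb) :=
      rfl
    rw [h2] at h1
    rw [h1, map_mul, map_pow, Valuation.map_neg, map_one, one_pow, one_mul, map_multiset_prod]
    have h3 : (p.map (algebraMap (inertiaField P) Qb)).roots.map P.valuation =
        Multiset.replicate (p.map (algebraMap (inertiaField P) Qb)).roots.card
          (P.valuation x) := by
      rw [Multiset.eq_replicate]
      refine ⟨Multiset.card_map _ _, fun b hb => ?_⟩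
      obtain ⟨r, hr, rfl⟩ := Multiset.mem_map.mp hb
      apply valuation_eq_of_root_minpoly P x r
      have h4 := isRoot_of_mem_roots hr
      rw [IsRoot, eval_map, ← aeval_def] at h4
      exact h4
    rw [h3, Multiset.prod_replicate, ← hsplit.natDegree_eq_card_roots, hpm.natDegree_map]
  obtain ⟨k, hk⟩ := exists_zpow_of_mem_inertiaField P q hq hP
    ((p.coeff 0 : inertiaField P) : Qb) (p.coeff 0).2
    (fun h => hc0 (Subtype.ext h))
  rw [map_div₀, map_zpow₀] at hk
  have hqv : P.valuation (q : Qb) ^ k ≠ 0 :=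
    zpow_ne_zero k (valuation_natCast_ne_zero P q hq)
  have hk' : P.valuation ((p.coeff 0 : inertiaField P) : Qb) = P.valuation (q : Qb) ^ k :=
    (div_eq_one_iff_eq hqv).mp hk
  obtain ⟨e, he⟩ := Nat.dvd_factorial hd0 hd
  refine ⟨k * e, ?_⟩
  rw [he, map_pow, pow_mul, ← hval, hk', zpow_mul, zpow_natCast]

/-- `P ∩ E` is a discrete valuation ring when every element of `E` has, after raising to a fixed
power `N`, the value of a power of `q`. -/
theorem isDiscreteValuationRing_RE_of_pow (q : ℕ) (hq : q.Prime) (hP : P.LiesOverPrime q)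
    (E : IntermediateField ℚ Qb) (N : ℕ) (hN : 0 < N)
    (h : ∀ x : Qb, x ∈ E → x ≠ 0 → ∃ k : ℤ, P.valuation (x ^ N) = P.valuation (q : Qb) ^ k) :
    IsDiscreteValuationRing (P.comap (algebraMap E Qb)) := by
  have hqlt := valuation_natCast_lt_one P q hP
  have hq0 := valuation_natCast_ne_zero P q hq
  have hqpos : 0 < P.valuation (q : Qb) := zero_lt_iff.mpr hq0
  have hcoe : ∀ n : ℕ, ((((n : ℕ) : P.comap (algebraMap E Qb)) : E) : Qb) = (n : Qb) := by
    intro n
    simp
  refine isDiscreteValuationRing_of_pow_associated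
    ((q : ℕ) : P.comap (algebraMap E Qb)) ?_ ?_ N hN ?_
  · intro h0
    have h1 := hcoe q
    rw [h0] at h1
    have h2 : (q : Qb) = 0 := by
      rw [← h1]; rfl
    exact hq.ne_zero (by exact_mod_cast h2)
  · intro hu
    have h1 : ((q : ℕ) : P.comap (algebraMap E Qb)) ∈
        IsLocalRing.maximalIdeal (P.comap (algebraMap E Qb)) := by
      rw [mem_maximalIdeal_RE_iff, hcoe]
      exact hP
    exact (IsLocalRing.mem_maximalIdeal _).mp h1 hu
  · intro x hx
    have hxE : ((x : E) : Qb) ∈ E := (x : E).2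
    have hx0 : ((x : E) : Qb) ≠ 0 := by
      intro h0
      apply hx
      apply Subtype.ext
      apply Subtype.ext
      exact h0
    have hxP : ((x : E) : Qb) ∈ P := x.2
    obtain ⟨k, hk⟩ := h _ hxE hx0
    -- `k ≥ 0`
    have hle : P.valuation (((x : E) : Qb) ^ N) ≤ 1 :=
      (P.valuation_le_one_iff _).mpr (pow_mem hxP N)
    have hk0 : 0 ≤ k := by
      by_contra hneg
      rw [not_le] at hneg
      have h1 : 1 < P.valuation (q : Qb) ^ k := by
        obtain ⟨m, hm⟩ : ∃ m : ℕ, k = -((m : ℤ) + 1) := ⟨(-k - 1).toNat, by omega⟩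
        rw [hm, zpow_neg]
        have h2 : P.valuation (q : Qb) ^ ((m : ℤ) + 1) < 1 := by
          have : P.valuation (q : Qb) ^ ((m : ℤ) + 1) = P.valuation (q : Qb) ^ (m + 1) := by
            exact_mod_cast zpow_natCast (P.valuation (q : Qb)) (m + 1)
          rw [this]
          exact pow_lt_one₀ zero_le hqlt (Nat.succ_ne_zero m)
        have h3 : 0 < P.valuation (q : Qb) ^ ((m : ℤ) + 1) := zpow_pos hqpos _
        exact (one_lt_inv₀ h3).mpr h2
      rw [← hk] at h1
      exact absurd hle (not_le.mpr h1)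
    obtain ⟨n, rfl⟩ := Int.eq_ofNat_of_zero_le hk0
    rw [zpow_natCast] at hk
    refine ⟨n, ?_⟩
    -- the unit
    let u : Qb := ((x : E) : Qb) ^ N / (q : Qb) ^ n
    have huv : P.valuation u = 1 := by
      show P.valuation (((x : E) : Qb) ^ N / (q : Qb) ^ n) = 1
      rw [map_div₀, hk, map_pow]
      exact div_self (pow_ne_zero n hq0)
    have huE : u ∈ E := div_mem (pow_mem hxE N) (pow_mem (natCast_mem E q) n)
    have huP : u ∈ P := (P.valuation_le_one_iff _).mp huv.le
    let uR : P.comap (algebraMap E Qb) := ⟨⟨u, huE⟩, huP⟩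
    have huR : IsUnit uR := by
      rw [← IsLocalRing.notMem_maximalIdeal, mem_maximalIdeal_RE_iff,
        ValuationSubring.mem_nonunits_iff]
      show ¬ P.valuation u < 1
      rw [huv]
      exact lt_irrefl _
    have heq : x ^ N = ((q : ℕ) : P.comap (algebraMap E Qb)) ^ n * uR := by
      apply Subtype.ext
      apply Subtype.ext
      show ((x : E) : Qb) ^ N = ((((q : ℕ) : P.comap (algebraMap E Qb)) : E) : Qb) ^ n * u
      rw [hcoe]
      have hqn : (q : Qb) ^ n ≠ 0 := pow_ne_zero n (by exact_mod_cast hq.ne_zero)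
      show ((x : E) : Qb) ^ N = (q : Qb) ^ n * (((x : E) : Qb) ^ N / (q : Qb) ^ n)
      field_simp
    rw [heq]
    exact associated_mul_unit_left _ uR huR


/-- All conjugates over `ℚ` of the elements of a finite set. -/
noncomputable def conjSet (S : Finset Qb) : Set Qb := (∏ s ∈ S, minpoly ℚ s).rootSet Qb

theorem conjSet_prod_ne_zero (S : Finset Qb) : (∏ s ∈ S, minpoly ℚ s) ≠ 0 :=
  Finset.prod_ne_zero_iff.mpr fun s _ => minpoly.ne_zero (Algebra.IsIntegral.isIntegral s)

theorem conjSet_finite (S : Finset Qb) : (conjSet S).Finite := Polynomial.rootSet_finite _ _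

theorem mem_conjSet_iff (S : Finset Qb) (x : Qb) :
    x ∈ conjSet S ↔ aeval x (∏ s ∈ S, minpoly ℚ s) = 0 := by
  unfold conjSet
  rw [Polynomial.mem_rootSet]
  exact ⟨fun h => h.2, fun h => ⟨conjSet_prod_ne_zero S, h⟩⟩

theorem mem_conjSet (S : Finset Qb) {s : Qb} (hs : s ∈ S) : s ∈ conjSet S := by
  rw [mem_conjSet_iff, map_prod]
  exact Finset.prod_eq_zero hs (minpoly.aeval ℚ s)

theorem map_mem_conjSet (S : Finset Qb) (σ : Qb ≃ₐ[ℚ] Qb) {x : Qb} (hx : x ∈ conjSet S) :
    σ x ∈ conjSet S := by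
  rw [mem_conjSet_iff] at hx ⊢
  have := Polynomial.aeval_algHom_apply (σ : Qb →ₐ[ℚ] Qb) x (∏ s ∈ S, minpoly ℚ s)
  rw [hx, map_zero] at this
  exact this

/-- The level: the inertia field with all conjugates of `S` adjoined, over the inertia field. -/
noncomputable def level₁ (S : Finset Qb) : IntermediateField (inertiaField P) Qb :=
  IntermediateField.adjoin (inertiaField P) (conjSet S)

instance level₁_finiteDimensional (S : Finset Qb) :
    FiniteDimensional (inertiaField P) (level₁ P S) := by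
  haveI : Finite (conjSet S) := (conjSet_finite S).to_subtype
  exact IntermediateField.finiteDimensional_adjoin
    (fun x _ => Algebra.IsIntegral.isIntegral x)

/-- The level as an intermediate field of `ℚ̄/ℚ`. -/
noncomputable def level (S : Finset Qb) : IntermediateField ℚ Qb :=
  (level₁ P S).restrictScalars ℚ

theorem mem_level_iff (S : Finset Qb) (x : Qb) : x ∈ level P S ↔ x ∈ level₁ P S := Iff.rfl

theorem inertiaField_le_level (S : Finset Qb) : inertiaField P ≤ level P S := by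
  intro x hx
  rw [mem_level_iff]
  exact (level₁ P S).algebraMap_mem ⟨x, hx⟩

theorem mem_level_of_mem (S : Finset Qb) {s : Qb} (hs : s ∈ S) : s ∈ level P S := by
  rw [mem_level_iff]
  exact IntermediateField.subset_adjoin _ _ (mem_conjSet S hs)

/-- The level is stable under every automorphism fixing the inertia field pointwise. -/
theorem level_stable (S : Finset Qb) (τ : Qb ≃ₐ[ℚ] Qb)
    (hτ : ∀ e ∈ inertiaField P, τ e = e) {x : Qb} (hx : x ∈ level P S) : τ x ∈ level P S := by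
  let τK : Qb ≃ₐ[inertiaField P] Qb :=
    { τ.toRingEquiv with commutes' := fun e => hτ (e : Qb) e.2 }
  have hτK : ∀ y : Qb, τK y = τ y := fun _ => rfl
  have h1 : (level₁ P S).map (τK : Qb →ₐ[inertiaField P] Qb) ≤ level₁ P S := by
    unfold level₁
    rw [IntermediateField.adjoin_map]
    apply IntermediateField.adjoin.mono
    rintro _ ⟨y, hy, rfl⟩
    exact map_mem_conjSet S τ hy
  rw [mem_level_iff] at hx ⊢
  apply h1
  rw [IntermediateField.mem_map]
  exact ⟨x, hx, rfl⟩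

theorem level_stable_inertia (S : Finset Qb) {τ : Qb ≃ₐ[ℚ] Qb}
    (hτ : τ ∈ P.inertiaSubgroupIn ℚ) {x : Qb} (hx : x ∈ level P S) : τ x ∈ level P S :=
  level_stable P S τ (fun e he => (mem_inertiaField_iff P).mp he τ hτ) hx

/-- The level is discretely valued. -/
theorem isDiscreteValuationRing_level (q : ℕ) (hq : q.Prime) (hP : P.LiesOverPrime q)
    (S : Finset Qb) : IsDiscreteValuationRing (P.comap (algebraMap (level P S) Qb)) :=
  isDiscreteValuationRing_RE_of_pow P q hq hP (level P S)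
    (Module.finrank (inertiaField P) (level₁ P S)).factorial (Nat.factorial_pos _)
    (fun x hx hx0 => exists_pow_valuation_eq P q hq hP (level₁ P S) x hx hx0)


theorem iterate_eq_pow_apply (σ : Qb ≃ₐ[ℚ] Qb) (r : ℕ) (x : Qb) : (⇑σ)^[r] x = (σ ^ r) x := by
  induction r with
  | zero => rfl
  | succ n ih =>
    rw [Function.iterate_succ_apply', ih, pow_succ']
    rfl

theorem pow_mul_apply_eq (σ : Qb ≃ₐ[ℚ] Qb) (a b : ℕ) (x : Qb) (h : (σ ^ a) x = x) :
    (σ ^ (a * b)) x = x := by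
  induction b with
  | zero => simp
  | succ n ih =>
    rw [Nat.mul_succ, pow_add]
    show (σ ^ (a * n)) ((σ ^ a) x) = x
    rw [h, ih]

/-- Some positive power of `σ` fixes every element of a finite set. -/
theorem exists_pow_fixes_finset (σ : Qb ≃ₐ[ℚ] Qb) (T : Finset Qb) :
    ∃ r : ℕ, 0 < r ∧ ∀ x ∈ T, (σ ^ r) x = x := by
  classical
  induction T using Finset.induction_on with
  | empty => exact ⟨1, one_pos, fun x hx => absurd hx (Finset.notMem_empty x)⟩
  | insert a T _ ih =>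
    obtain ⟨r, hr, hT⟩ := ih
    obtain ⟨k, hk⟩ := exists_pow_apply_eq σ a
    refine ⟨(k + 1) * r, Nat.mul_pos (Nat.succ_pos k) hr, fun x hx => ?_⟩
    rcases Finset.mem_insert.mp hx with rfl | hx
    · exact pow_mul_apply_eq σ (k + 1) r x hk
    · rw [mul_comm]
      exact pow_mul_apply_eq σ r (k + 1) x (hT x hx)

/-- An automorphism fixing the inertia field and the conjugates of `S` fixes the level. -/
theorem level_fixed (S : Finset Qb) (ρ : Qb ≃ₐ[ℚ] Qb)
    (hρ : ∀ e ∈ inertiaField P, ρ e = e) (hS : ∀ x ∈ conjSet S, ρ x = x)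
    {x : Qb} (hx : x ∈ level P S) : ρ x = x := by
  rw [mem_level_iff] at hx
  unfold level₁ at hx
  induction hx using IntermediateField.adjoin_induction with
  | mem x hx => exact hS x hx
  | algebraMap x => exact hρ _ x.2
  | add x y _ _ hx hy => rw [map_add, hx, hy]
  | inv x _ hx => rw [map_inv₀, hx]
  | mul x y _ _ hx hy => rw [map_mul, hx, hy]

/-- Every element of the inertia group has finite order on the level. -/
theorem level_finite_order (S : Finset Qb) {τ : Qb ≃ₐ[ℚ] Qb}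
    (hτ : τ ∈ P.inertiaSubgroupIn ℚ) :
    ∃ r : ℕ, 0 < r ∧ ∀ e : Qb, e ∈ level P S → (⇑τ)^[r] e = e := by
  obtain ⟨r, hr, hT⟩ := exists_pow_fixes_finset τ (conjSet_finite S).toFinset
  refine ⟨r, hr, fun e he => ?_⟩
  rw [iterate_eq_pow_apply]
  apply level_fixed P S (τ ^ r) _ _ he
  · intro e he
    exact (mem_inertiaField_iff P).mp he (τ ^ r) (Subgroup.pow_mem _ hτ r)
  · intro x hx
    exact hT x ((conjSet_finite S).mem_toFinset.mpr hx)


end Fermat.Agent.A2.IF.H429

end
-- ===== PACK-END A2/IF/H429/Good.lean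

-- ===== PACK-BEGIN A2/IF/H429/IF.lean
section



/-!
# A2 / IF (helper429): good levels exist

`ifStatement : IFStatement` is the interface IF of `Fermat/Agent/A2/Spec.lean` (v2, row-lead
helper13); `exists_goodField` is the same statement with explicit binders (Skel form).
The good level is `level P S = ℚ̄^{I_P}(all ℚ-conjugates of S)`:

* stable under `I_P` (`level_stable_inertia`);
* `P ∩ E` is a discrete valuation ring (`isDiscreteValuationRing_level`: the inertia field is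
  unramified — Hilbert theory at finite level, `Hilbert.lean` — and `[E : E_I] < ∞`);
* henselian (`henselian_RE`: a simple root is fixed by `Gal(ℚ̄/E)`);
* algebraically closed residue field (`isAlgClosed_residueField_RE`: Teichmüller lifts);
* inertia acts trivially modulo the maximal ideal (definition of inertia);
* every inertia element has finite order on `E` (`level_finite_order`).
-/

set_option autoImplicit false

namespace Fermat.Agent.A2.IF.H429

open Fermat.Agent.A2

theorem goodField_level (q : ℕ) (hq : q.Prime) (P : ValuationSubring Qb)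
    (hP : P.LiesOverPrime q) (S : Finset Qb) : GoodField P (level P S) where
  stable := fun _ hτ _ he => level_stable_inertia P S hτ he
  dvr := isDiscreteValuationRing_level P q hq hP S
  henselian := henselian_RE P (level P S) (inertiaField_le_level P S)
  algClosed := isAlgClosed_residueField_RE P (level P S) q hq hP (inertiaField_le_level P S)
  trivial_mod := fun _ hτ _ _ heP => sub_mem_nonunits_of_inertia P hτ heP
  finite_order := fun _ hτ => level_finite_order P S hτ

/-- **IF** (Skel form).  Every finite set of algebraic numbers lies in a good level for `P`. -/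
theorem exists_goodField (q : ℕ) (hq : q.Prime) (P : ValuationSubring Qb)
    (hP : P.LiesOverPrime q) (S : Finset Qb) :
    ∃ E : IntermediateField ℚ Qb, (∀ s ∈ S, s ∈ E) ∧ GoodField P E :=
  ⟨level P S, fun _ hs => mem_level_of_mem P S hs, goodField_level q hq P hP S⟩

/-- **IF** (interface statement of `Spec.lean`). -/
theorem ifStatement : IFStatement :=
  fun q hq P hP S => exists_goodField q hq P hP S

end Fermat.Agent.A2.IF.H429

end
-- ===== PACK-END A2/IF/H429/IF.lean

-- ===== PACK-BEGIN S36/H987/PureCore.lean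
section




/-!
# S36 engine, ALG3 gap lemma G3 (helper987), part 1: purity at a closed point, core

Setting: `R` a discrete valuation ring with uniformiser `w`, `E = Frac R`, `F / E` a function
field with coordinate `x`, `B = chart R {x}` (the integral closure of `R[x]` in `F`).

* `isIntegrallyClosed_quotient_centre` : if the component of `B` cut out by a sheet `V` is normal
  in the ELEMENTWISE sense of `Eng.NormalAlong` (an element of `F` which is integral over `B`
  modulo `𝔪_V` is congruent modulo `𝔪_V` to an element of `B`), then `B ⧸ (B ∩ 𝔪_V)` is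
  integrally closed.
* `divisibleDivisor_of_sheets` : `A2.DivisibleDiv E m u` and `u` a unit of EVERY sheet give
  `S18.H754.DivisibleDivisor B m u` (the vertical height-one primes of `B` are the centres of the
  sheets; no hypothesis on the special fibre).
* **`pure_of_locReg`** : if some sheet `V` through the closed point `𝔪` has a centre which is
  principal locally at `𝔪` (`LocReg`, = `Eng.Through ∧ Eng.PrincipalAt`) and a normal component,
  then `u` has a purity datum at `𝔪`:  `u · d ^ m · s₀ = a₀` with `a₀, s₀ ∈ B ∖ 𝔪`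
  (the exact purity input of `H630.basePureValuesAt_single / _triple`).
-/

set_option autoImplicit false
set_option linter.style.haveILetI false
set_option linter.unusedSectionVars false
set_option linter.unusedVariables false
set_option synthInstance.maxHeartbeats 400000
set_option maxHeartbeats 1600000

noncomputable section

namespace Fermat.Agent.S36.H987

open Polynomial IsLocalRing
open Fermat.Agent.A2
open Fermat.Agent.A2.H12 (IsSheet)
open Fermat.Agent.S18.H138 (chart baseField)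
open Fermat.Agent.S18.H754 (DivisibleDivisor)
open Fermat.Agent.A2.Alg.H754 (LocU)
open Fermat.Agent.S36.H193 (centreW mem_centreW sheet_chart_le)

universe u

/-- **Local regularity datum** at the closed point `𝔪` of the chart `B` along the valuation ring
`V`: `V` passes through `𝔪` and its centre `B ∩ 𝔪_V` is principal locally at `𝔪`. -/
def LocReg {R F : Type*} [CommRing R] [Field F] [Algebra R F] (B : Subalgebra R F)
    (𝔪 : Ideal B) (V : ValuationSubring F) : Prop :=
  (∀ b : B, (b : F) ∈ V.nonunits → b ∈ 𝔪) ∧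
    ∃ t : B, (t : F) ∈ V.nonunits ∧
      ∀ a : B, (a : F) ∈ V.nonunits → ∃ g c : B, g ∉ 𝔪 ∧ g * a = t * c

section Normal

variable {R : Type u} [CommRing R] [IsDomain R] {F : Type u} [Field F] [Algebra R F]

/-- Elementwise normality of the component cut out by `V` gives an integrally closed quotient. -/
theorem isIntegrallyClosed_quotient_centre (B : Subalgebra R F) (V : ValuationSubring F)
    (hBV : ∀ c ∈ B, c ∈ V)
    (hnormal : ∀ (f : F) (P : Polynomial B), P.Monic → Polynomial.aeval f P ∈ V.nonunits →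
      ∃ b : B, f - (b : F) ∈ V.nonunits) :
    IsIntegrallyClosed (B ⧸ centreW V B hBV) := by
  classical
  set p : Ideal B := centreW V B hBV with hp
  haveI hpp : p.IsPrime := inferInstance
  haveI hdom : IsDomain (B ⧸ p) := Ideal.Quotient.isDomain p
  let D := B ⧸ p
  haveI : IsDomain D := hdom
  set π : B →+* D := Ideal.Quotient.mk p with hπ
  have hπs : Function.Surjective π := Ideal.Quotient.mk_surjective
  refine (isIntegrallyClosed_iff (FractionRing D)).2 fun {z} hz => ?_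
  obtain ⟨ab, sb, hsb, rfl⟩ := IsFractionRing.div_surjective (A := D) z
  obtain ⟨a, rfl⟩ := hπs ab
  obtain ⟨s, rfl⟩ := hπs sb
  have hs0 : π s ≠ 0 := nonZeroDivisors.ne_zero hsb
  have hsp : s ∉ p := fun h => hs0 (Ideal.Quotient.eq_zero_iff_mem.2 h)
  have hsV : (s : F) ∉ V.nonunits := fun h => hsp ((mem_centreW V B hBV s).2 h)
  have hsF0 : (s : F) ≠ 0 := by
    intro h
    apply hsV
    rw [h]
    rw [ValuationSubring.mem_nonunits_iff, map_zero]
    exact zero_lt_one
  have hsinv : (s : F)⁻¹ ∈ V := by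
    have h1 : V.valuation (s : F) = 1 := by
      refine le_antisymm ((V.valuation_le_one_iff _).2 (hBV _ s.2)) ?_
      rw [ValuationSubring.mem_nonunits_iff, not_lt] at hsV
      exact hsV
    rw [← V.valuation_le_one_iff, map_inv₀, h1, inv_one]
  -- the integral equation, lifted
  obtain ⟨Pb, hPbm, hPb⟩ := hz
  obtain ⟨P, hPmap, -, hPm⟩ := Polynomial.lifts_and_degree_eq_and_monic
    ((Polynomial.mem_lifts Pb).2 (Polynomial.map_surjective π hπs Pb)) hPbm
  -- the homogenised equation in `D`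
  have h1 : Polynomial.eval₂ (algebraMap D (FractionRing D)) (algebraMap D (FractionRing D) (π a))
      (Polynomial.scaleRoots Pb (π s)) = 0 :=
    Polynomial.scaleRoots_eval₂_eq_zero_of_eval₂_div_eq_zero
      (IsFractionRing.injective D (FractionRing D)) hPb hsb
  have h2 : Polynomial.eval (π a) (Polynomial.scaleRoots Pb (π s)) = 0 := by
    apply IsFractionRing.injective D (FractionRing D)
    rw [map_zero, ← h1, Polynomial.eval₂_at_apply]
  have h3 : Polynomial.scaleRoots Pb (π s) = (Polynomial.scaleRoots P s).map π := by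
    rw [← hPmap]
    refine (Polynomial.map_scaleRoots P s π ?_).symm
    rw [hPm.leadingCoeff, map_one]
    exact one_ne_zero
  have h4 : Polynomial.eval a (Polynomial.scaleRoots P s) ∈ p := by
    rw [← Ideal.Quotient.eq_zero_iff_mem]
    show π (Polynomial.eval a (Polynomial.scaleRoots P s)) = 0
    rw [← Polynomial.eval_map_apply, ← h3]
    exact h2
  -- in `F`
  have h5 : ((Polynomial.eval a (Polynomial.scaleRoots P s) : B) : F)
      = (s : F) ^ P.natDegree * Polynomial.aeval ((a : F) * (s : F)⁻¹) P := by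
    have e1 := Polynomial.scaleRoots_eval₂_mul (p := P) (algebraMap B F)
      ((a : F) * (s : F)⁻¹) s
    have e2 : algebraMap B F s * ((a : F) * (s : F)⁻¹) = algebraMap B F a := by
      show (s : F) * ((a : F) * (s : F)⁻¹) = (a : F)
      field_simp
    rw [e2] at e1
    rw [Polynomial.aeval_def]
    have e3 : (algebraMap B F s) = (s : F) := rfl
    rw [e3] at e1
    rw [← e1, Polynomial.eval₂_at_apply]
    rfl
  have h6 : Polynomial.aeval ((a : F) * (s : F)⁻¹) P ∈ V.nonunits := by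
    have h7 : ((Polynomial.eval a (Polynomial.scaleRoots P s) : B) : F) ∈ V.nonunits :=
      (mem_centreW V B hBV _).1 h4
    have h8 : Polynomial.aeval ((a : F) * (s : F)⁻¹) P
        = ((s : F)⁻¹) ^ P.natDegree
          * ((Polynomial.eval a (Polynomial.scaleRoots P s) : B) : F) := by
      rw [h5, ← mul_assoc, ← mul_pow, inv_mul_cancel₀ hsF0, one_pow, one_mul]
    rw [h8]
    rw [ValuationSubring.mem_nonunits_iff] at h7 ⊢
    rw [map_mul]
    have h9 : V.valuation (((s : F)⁻¹) ^ P.natDegree) ≤ 1 :=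
      (V.valuation_le_one_iff _).2 (V.pow_mem hsinv _)
    calc V.valuation (((s : F)⁻¹) ^ P.natDegree) * V.valuation _
        ≤ 1 * V.valuation ((Polynomial.eval a (Polynomial.scaleRoots P s) : B) : F) := by
          gcongr
      _ = V.valuation ((Polynomial.eval a (Polynomial.scaleRoots P s) : B) : F) := one_mul _
      _ < 1 := h7
  obtain ⟨b, hb⟩ := hnormal _ P hPm h6
  refine ⟨π b, ?_⟩
  -- `a - s b ∈ p`
  have h10 : a - s * b ∈ p := by
    rw [mem_centreW]
    have : ((a - s * b : B) : F) = (s : F) * ((a : F) * (s : F)⁻¹ - (b : F)) := by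
      push_cast
      field_simp
    rw [this]
    rw [ValuationSubring.mem_nonunits_iff] at hb ⊢
    rw [map_mul]
    calc V.valuation (s : F) * V.valuation _ ≤ 1 * V.valuation ((a : F) * (s : F)⁻¹ - (b : F)) := by
          gcongr
          exact (V.valuation_le_one_iff _).2 (hBV _ s.2)
      _ = _ := one_mul _
      _ < 1 := hb
  have h11 : π a = π s * π b := by
    rw [← map_mul]
    exact (Ideal.Quotient.eq.2 h10)
  have hs' : algebraMap D (FractionRing D) (π s) ≠ 0 := by
    intro h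
    exact hs0 (IsFractionRing.injective D (FractionRing D) (by rw [h, map_zero]))
  show algebraMap D (FractionRing D) (π b)
    = algebraMap D (FractionRing D) (π a) / algebraMap D (FractionRing D) (π s)
  rw [h11, map_mul, mul_div_cancel_left₀ _ hs']

end Normal

section Core

variable {R E F : Type u} [CommRing R] [IsDomain R] [IsDiscreteValuationRing R]
  [Field E] [CharZero E] [Algebra R E] [IsFractionRing R E]
  [Field F] [Algebra E F] [Algebra R F] [IsScalarTower R E F]

/-- `m ∣ div u` at every height-one prime of the chart, if `m ∣ div u` on the generic fibre and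
`u` is a unit of every sheet. -/
theorem divisibleDivisor_of_sheets (w : R) (hw : Irreducible w) {x : F}
    (hx : Transcendental E x)
    (hfin : FiniteDimensional (IntermediateField.adjoin E ({x} : Set F)) F)
    [IsNoetherianRing (chart R ({x} : Set F))] [IsIntegrallyClosed (chart R ({x} : Set F))]
    [IsFractionRing (chart R ({x} : Set F)) F]
    (m : ℕ) (u : F) (hu : u ≠ 0) (hdiv : DivisibleDiv E m u)
    (hus : ∀ V, IsSheet w x V → u ∈ V ∧ u⁻¹ ∈ V) :
    DivisibleDivisor (chart R ({x} : Set F)) m u := by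
  classical
  set B := chart R ({x} : Set F) with hB
  intro 𝔭 h𝔭 hht
  haveI := h𝔭
  have hxR : Transcendental R x := Fermat.Agent.A2.Alg.H754.transcendental_base hx
  haveI : CharZero F := charZero_of_injective_algebraMap (algebraMap E F).injective
  haveI := Fermat.Agent.A2.Alg.H754.finiteDimensional_baseField (R := R) x hfin
  have hinjRF : Function.Injective (algebraMap R F) :=
    Fermat.Agent.A2.Alg.H754.algebraMap_base_injective (E := E)
  have hinjB : Function.Injective (algebraMap R B) :=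
    Fermat.Agent.A2.Alg.H754.algebraMap_chart_injective (E := E) B
  have hwB0 : algebraMap R B w ≠ 0 := fun h0 => hw.ne_zero (hinjB (by rw [h0, map_zero]))
  by_cases hw𝔭 : algebraMap R B w ∈ 𝔭
  · -- vertical prime: the centre of a sheet
    have hmin : 𝔭 ∈ (Ideal.span {algebraMap R B w}).minimalPrimes := by
      refine ⟨⟨h𝔭, ?_⟩, ?_⟩
      · rw [Ideal.span_le, Set.singleton_subset_iff]
        exact hw𝔭
      · rintro q ⟨hq, hwq⟩ hq𝔭
        haveI := hq
        haveI : q.FiniteHeight := Ideal.finiteHeight_of_isNoetherianRing q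
        have hq0 : q ≠ ⊥ := by
          intro h0
          have : algebraMap R B w ∈ q := hwq (Ideal.subset_span rfl)
          rw [h0, Ideal.mem_bot] at this
          exact hwB0 this
        have : q = 𝔭 := by
          refine Ideal.eq_of_le_of_height_le (I := q) (J := 𝔭) hq𝔭 ?_
          rw [hht, Order.one_le_iff_pos, pos_iff_ne_zero, Ne, Ideal.height_eq_zero_iff_eq_bot]
          exact hq0
        rw [this]
    obtain ⟨V, hV, hVp⟩ := Fermat.Agent.S36.H193.exists_sheet_of_minimal w hw.prime hxR 𝔭 hmin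
    obtain ⟨huV, huV'⟩ := hus V hV
    obtain ⟨a, s, hs, has⟩ :=
      (Fermat.Agent.S36.H193.sheet_mem_iff hinjRF hw.prime hxR hV u).1 huV
    have hs𝔭 : s ∉ 𝔭 := fun h => hs ((hVp s).2 h)
    have hsF0 : (s : F) ≠ 0 := by
      intro h
      apply hs
      rw [h, ValuationSubring.mem_nonunits_iff, map_zero]
      exact zero_lt_one
    have hua : u * (s : F) = a := by
      rw [has, mul_assoc, inv_mul_cancel₀ hsF0, mul_one]
    refine ⟨1, a, s, ?_, hs𝔭, ?_⟩
    · intro ha
      have haV : (a : F) ∈ V.nonunits := (hVp a).2 ha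
      -- `s = u⁻¹ a` would be a non-unit
      apply hs
      have : (s : F) = u⁻¹ * (a : F) := by
        rw [← hua, ← mul_assoc, inv_mul_cancel₀ hu, one_mul]
      rw [this]
      rw [ValuationSubring.mem_nonunits_iff] at haV ⊢
      rw [map_mul]
      calc V.valuation u⁻¹ * V.valuation (a : F) ≤ 1 * V.valuation (a : F) := by
            gcongr
            exact (V.valuation_le_one_iff _).2 huV'
        _ = V.valuation (a : F) := one_mul _
        _ < 1 := haV
    · rw [one_pow, mul_one]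
      exact hua
  · -- horizontal prime: `B_𝔭` is a DVR containing `E`
    obtain ⟨W, hdvr, hW⟩ := Fermat.Agent.S18.H438.exists_dvr_of_height_one (F := F) 𝔭 hht
    have hE : ∀ e : E, algebraMap E F e ∈ W := by
      intro e
      obtain ⟨a, b, hb, rfl⟩ := IsFractionRing.div_surjective (A := R) e
      have hb0 : b ≠ 0 := nonZeroDivisors.ne_zero hb
      obtain ⟨k, υ, hbk⟩ := IsDiscreteValuationRing.eq_unit_mul_pow_irreducible hb0 hw
      have hb𝔭 : algebraMap R B b ∉ 𝔭 := by
        rw [hbk, map_mul, map_pow]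
        intro h
        rcases h𝔭.mem_or_mem h with h | h
        · exact h𝔭.ne_top (Ideal.eq_top_of_isUnit_mem _ h (υ.isUnit.map (algebraMap R B)))
        · exact hw𝔭 (h𝔭.mem_of_pow_mem k h)
      have hbF : algebraMap R F b ≠ 0 := fun h0 => hb0 (hinjRF (by rw [h0, map_zero]))
      refine (hW _).2 ⟨algebraMap R B a, algebraMap R B b, hb𝔭, ?_⟩
      rw [← IsScalarTower.algebraMap_apply R B F, ← IsScalarTower.algebraMap_apply R B F,
        map_div₀, ← IsScalarTower.algebraMap_apply R E F, ← IsScalarTower.algebraMap_apply R E F,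
        div_mul_cancel₀ _ hbF]
    obtain ⟨h, u₀, hh, hu₀, hu₀', huh⟩ := hdiv W hdvr hE
    have hu₀0 : u₀ ≠ 0 := by
      rintro rfl
      rw [zero_mul] at huh
      exact hu huh
    obtain ⟨a, s, ha, hs', has⟩ :=
      (Fermat.Agent.A2.Alg.H754.locU_iff_of_valuationSubring 𝔭 W hW hu₀0).2 ⟨hu₀, hu₀'⟩
    refine ⟨h⁻¹, a, s, ha, hs', ?_⟩
    rw [huh, inv_pow, mul_assoc u₀, mul_inv_cancel₀ (pow_ne_zero _ hh), mul_one]
    exact has

/-- **Purity at a closed point** from a local regularity datum along a sheet with normal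
component. -/
theorem pure_of_locReg_aux (w : R) (hw : Irreducible w) {x : F} (hx : Transcendental E x)
    (hfin : FiniteDimensional (IntermediateField.adjoin E ({x} : Set F)) F)
    {m : ℕ} (hm : 0 < m) {u : F} (hu : u ≠ 0) (hdiv : DivisibleDiv E m u)
    (hus : ∀ V, IsSheet w x V → u ∈ V ∧ u⁻¹ ∈ V)
    (V : ValuationSubring F) (hV : IsSheet w x V)
    (B : Subalgebra R F) (hBdef : B = chart R ({x} : Set F))
    (hnormal : ∀ (f : F) (P : Polynomial B), P.Monic →
      Polynomial.aeval f P ∈ V.nonunits → ∃ b : B, f - (b : F) ∈ V.nonunits)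
    (𝔪 : Ideal B) (h𝔪 : 𝔪.IsMaximal)
    (hreg : LocReg B 𝔪 V) :
    ∃ d : F, d ≠ 0 ∧ ∃ a₀ s₀ : B, a₀ ∉ 𝔪 ∧ s₀ ∉ 𝔪 ∧
      u * d ^ m * (s₀ : F) = a₀ := by
  classical
  subst hBdef
  have hxR : Transcendental R x := Fermat.Agent.A2.Alg.H754.transcendental_base hx
  haveI : CharZero F := charZero_of_injective_algebraMap (algebraMap E F).injective
  haveI := Fermat.Agent.A2.Alg.H754.finiteDimensional_baseField (R := R) x hfin
  obtain ⟨hN, hIC, hFr⟩ := Fermat.Agent.S18.H394.chart_instances (R := R) hxR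
  haveI := hN
  haveI := hIC
  haveI := hFr
  have hinjB : Function.Injective (algebraMap R (chart R ({x} : Set F))) :=
    Fermat.Agent.A2.Alg.H754.algebraMap_chart_injective (E := E) (chart R ({x} : Set F))
  have hwB0 : algebraMap R (chart R ({x} : Set F)) w ≠ 0 := fun h0 => hw.ne_zero (hinjB (by rw [h0, map_zero]))
  have hBV : ∀ c ∈ (chart R ({x} : Set F)), c ∈ V := sheet_chart_le hV
  set p : Ideal (chart R ({x} : Set F)) := centreW V (chart R ({x} : Set F)) hBV with hp
  haveI hpp : p.IsPrime := inferInstance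
  have hwp : algebraMap R (chart R ({x} : Set F)) w ∈ p := (mem_centreW V (chart R ({x} : Set F)) hBV _).2 hV.2.2.1
  have hp0 : p ≠ ⊥ := by
    intro h0
    rw [h0, Ideal.mem_bot] at hwp
    exact hwB0 hwp
  -- the component is Dedekind
  have hnorm : IsIntegrallyClosed ((chart R ({x} : Set F)) ⧸ p) := isIntegrallyClosed_quotient_centre (chart R ({x} : Set F)) V hBV hnormal
  haveI := Fermat.Agent.S18.H138.isNoetherianRing_adjoin_singleton (R := R) hxR
  letI : Algebra (Algebra.adjoin R ({x} : Set F)) (chart R ({x} : Set F)) :=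
    inferInstanceAs (Algebra (Algebra.adjoin R ({x} : Set F))
      (integralClosure (Algebra.adjoin R ({x} : Set F)) F))
  haveI : Algebra.IsIntegral (Algebra.adjoin R ({x} : Set F)) (chart R ({x} : Set F)) :=
    inferInstanceAs (Algebra.IsIntegral (Algebra.adjoin R ({x} : Set F))
      (integralClosure (Algebra.adjoin R ({x} : Set F)) F))
  have hD : IsDedekindDomain ((chart R ({x} : Set F)) ⧸ p) :=
    Fermat.Agent.A2.Alg.H754.isDedekindDomain_quotient_of_dim
      (A₀ := Algebra.adjoin R ({x} : Set F))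
      (Fermat.Agent.A2.Alg.H754.ringKrullDim_adjoin_le x hxR) p hp0 hnorm
  have hDD : DivisibleDivisor (chart R ({x} : Set F)) m u := divisibleDivisor_of_sheets w hw hx hfin m u hu hdiv hus
  obtain ⟨hth, t, htV, hgen⟩ := hreg
  have hpn : p ≤ 𝔪 := fun b hb => hth b ((mem_centreW V (chart R ({x} : Set F)) hBV b).1 hb)
  have htp : t ∈ p := (mem_centreW V (chart R ({x} : Set F)) hBV t).2 htV
  have ht0 : t ≠ 0 := by
    rintro rfl
    -- `p` would be locally zero, but `w ∈ p`, `w ≠ 0`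
    obtain ⟨g, c, hg, hgc⟩ := hgen _ ((mem_centreW V (chart R ({x} : Set F)) hBV _).1 hwp)
    rw [zero_mul] at hgc
    rcases mul_eq_zero.1 hgc with h | h
    · exact hg (h ▸ 𝔪.zero_mem)
    · exact hwB0 h
  have hgen' : ∀ a ∈ p, ∃ g : (chart R ({x} : Set F)), g ∉ 𝔪 ∧ ∃ c : (chart R ({x} : Set F)), g * a = t * c := by
    intro a ha
    obtain ⟨g, c, hg, hgc⟩ := hgen a ((mem_centreW V (chart R ({x} : Set F)) hBV a).1 ha)
    exact ⟨g, hg, c, hgc⟩
  obtain ⟨d, hd0, a, s, ha, hs, has⟩ :=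
    pure_regular_abs987 t ht0 p 𝔪 h𝔪 hpn htp hgen' hD m hm u hu hDD
  exact ⟨d, hd0, a, s, ha, hs, has⟩

/-- **Purity at a closed point** of `chart R {x}` from a local regularity datum along a sheet
with normal component. -/
theorem pure_of_locReg (w : R) (hw : Irreducible w) {x : F} (hx : Transcendental E x)
    (hfin : FiniteDimensional (IntermediateField.adjoin E ({x} : Set F)) F)
    {m : ℕ} (hm : 0 < m) {u : F} (hu : u ≠ 0) (hdiv : DivisibleDiv E m u)
    (hus : ∀ V, IsSheet w x V → u ∈ V ∧ u⁻¹ ∈ V)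
    (V : ValuationSubring F) (hV : IsSheet w x V)
    (hnormal : ∀ (f : F) (P : Polynomial (chart R ({x} : Set F))), P.Monic →
      Polynomial.aeval f P ∈ V.nonunits → ∃ b : chart R ({x} : Set F), f - (b : F) ∈ V.nonunits)
    (𝔪 : Ideal (chart R ({x} : Set F))) (h𝔪 : 𝔪.IsMaximal)
    (hreg : LocReg (chart R ({x} : Set F)) 𝔪 V) :
    ∃ d : F, d ≠ 0 ∧ ∃ a₀ s₀ : chart R ({x} : Set F), a₀ ∉ 𝔪 ∧ s₀ ∉ 𝔪 ∧
      u * d ^ m * (s₀ : F) = a₀ :=
  pure_of_locReg_aux w hw hx hfin hm hu hdiv hus V hV _ rfl hnormal 𝔪 h𝔪 hreg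

end Core

end Fermat.Agent.S36.H987

end

end
-- ===== PACK-END S36/H987/PureCore.lean

-- ===== PACK-BEGIN S36/H987/Pure3.lean
section


/-!
# S36 engine, ALG3 gap lemma G3 (helper987), part 2: purity with three components

Setting of `PureCore.lean`, with three sheets `V₁, V₂, V₃` of multiplicities `1, q - 1, 1`
(`Mult3`) which satisfy the `q`-expansion principle on the chart `B = chart R {x}`
(`Qep3F`, = `Eng.Qep3` unfolded).

* `three_dvd` : `g₁ g₂ ^ (q - 1) g₃ ∈ w B` if `gᵢ ∈ B ∩ 𝔪_{Vᵢ}`.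
* `sheets_three` : every sheet is one of `V₁, V₂, V₃`.
* `locReg_of_three` : at a closed point `𝔪 ∋ w` of `B`, some component through `𝔪` is locally
  principal, provided this holds at the points of the MIDDLE component (`hreg`) and a point on
  `V₁` and `V₃` is on `V₂` (`hinc`): off the middle component, `w` is a local generator.
* **`pure_of_three`** : the purity datum `u · d ^ m · s₀ = a₀`, `a₀, s₀ ∈ B ∖ 𝔪`, at every closed
  point `𝔪 ∋ w` of `B`, for `u` with `m ∣ div u` on the generic fibre, `u` a unit of `V₁, V₂, V₃`.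
-/

set_option autoImplicit false
set_option linter.style.haveILetI false
set_option linter.unusedSectionVars false
set_option linter.unusedVariables false
set_option synthInstance.maxHeartbeats 400000
set_option maxHeartbeats 1600000

noncomputable section

namespace Fermat.Agent.S36.H987

open Polynomial IsLocalRing
open Fermat.Agent.A2
open Fermat.Agent.A2.H12 (IsSheet)
open Fermat.Agent.S18.H138 (chart baseField)
open Fermat.Agent.S18.H754 (DivisibleDivisor)
open Fermat.Agent.S36.H193 (centreW mem_centreW sheet_chart_le)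

universe u

section Vocab

variable {R F : Type*} [CommRing R] [Field F] [Algebra R F]

/-- The multiplicities `1, q - 1, 1` of the three components: `w` is a uniformiser of `V₁` and of
`V₃`, and `w = unit · t ^ (q - 1)` at `V₂`, `t` a uniformiser. -/
structure Mult3 (w : R) (q : ℕ) (V₁ V₂ V₃ : ValuationSubring F) : Prop where
  w₁ : algebraMap R F w ∈ V₁.nonunits
  w₃ : algebraMap R F w ∈ V₃.nonunits
  unif₁ : ∀ a ∈ V₁.nonunits, a * (algebraMap R F w)⁻¹ ∈ V₁
  unif₃ : ∀ a ∈ V₃.nonunits, a * (algebraMap R F w)⁻¹ ∈ V₃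
  ram₂ : ∃ t : F, t ≠ 0 ∧ (∀ a ∈ V₂.nonunits, a * t⁻¹ ∈ V₂) ∧
    t ^ (q - 1) * (algebraMap R F w)⁻¹ ∈ V₂

/-- `Eng.Qep3`, unfolded. -/
def Qep3F (w : R) (B : Subalgebra R F) (V₁ V₂ V₃ : ValuationSubring F) : Prop :=
  ∀ b : B, (b : F) * (algebraMap R F w)⁻¹ ∈ V₁ → (b : F) * (algebraMap R F w)⁻¹ ∈ V₂ →
    (b : F) * (algebraMap R F w)⁻¹ ∈ V₃ → ∃ c : B, b = algebraMap R B w * c

/-- `Eng.Through`, unfolded. -/
def Thru (B : Subalgebra R F) (𝔪 : Ideal B) (V : ValuationSubring F) : Prop :=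
  ∀ b : B, (b : F) ∈ V.nonunits → b ∈ 𝔪

/-- `Eng.NormalAlong`, unfolded. -/
def NormalF (B : Subalgebra R F) (V : ValuationSubring F) : Prop :=
  ∀ (f : F) (P : Polynomial B), P.Monic → Polynomial.aeval f P ∈ V.nonunits →
    ∃ b : B, f - (b : F) ∈ V.nonunits

theorem three_dvd {B : Subalgebra R F} {w : R} {q : ℕ} {V₁ V₂ V₃ : ValuationSubring F}
    (hM : Mult3 w q V₁ V₂ V₃)
    (hB₁ : ∀ c ∈ B, c ∈ V₁) (hB₂ : ∀ c ∈ B, c ∈ V₂) (hB₃ : ∀ c ∈ B, c ∈ V₃)
    (qep : Qep3F w B V₁ V₂ V₃)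
    (g₁ g₂ g₃ : B) (h₁ : (g₁ : F) ∈ V₁.nonunits) (h₂ : (g₂ : F) ∈ V₂.nonunits)
    (h₃ : (g₃ : F) ∈ V₃.nonunits) :
    ∃ c : B, g₁ * g₂ ^ (q - 1) * g₃ = algebraMap R B w * c := by
  obtain ⟨t, ht0, ht, htw⟩ := hM.ram₂
  refine qep _ ?_ ?_ ?_
  · have e : ((g₁ * g₂ ^ (q - 1) * g₃ : B) : F) * (algebraMap R F w)⁻¹
        = ((g₁ : F) * (algebraMap R F w)⁻¹) * ((g₂ : F) ^ (q - 1) * (g₃ : F)) := by
      push_cast
      ring
    rw [e]
    exact V₁.mul_mem _ _ (hM.unif₁ _ h₁)
      (V₁.mul_mem _ _ (V₁.pow_mem (hB₁ _ g₂.2) _) (hB₁ _ g₃.2))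
  · have e : ((g₁ * g₂ ^ (q - 1) * g₃ : B) : F) * (algebraMap R F w)⁻¹
        = (((g₂ : F) * t⁻¹) ^ (q - 1) * (t ^ (q - 1) * (algebraMap R F w)⁻¹))
          * ((g₁ : F) * (g₃ : F)) := by
      push_cast
      rw [mul_pow, inv_pow]
      have ht' : t ^ (q - 1) ≠ 0 := pow_ne_zero _ ht0
      field_simp
    rw [e]
    exact V₂.mul_mem _ _ (V₂.mul_mem _ _ (V₂.pow_mem (ht _ h₂) _) htw)
      (V₂.mul_mem _ _ (hB₂ _ g₁.2) (hB₂ _ g₃.2))
  · have e : ((g₁ * g₂ ^ (q - 1) * g₃ : B) : F) * (algebraMap R F w)⁻¹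
        = ((g₃ : F) * (algebraMap R F w)⁻¹) * ((g₁ : F) * (g₂ : F) ^ (q - 1)) := by
      push_cast
      ring
    rw [e]
    exact V₃.mul_mem _ _ (hM.unif₃ _ h₃)
      (V₃.mul_mem _ _ (hB₃ _ g₁.2) (V₃.pow_mem (hB₃ _ g₂.2) _))

/-- At a point `𝔪 ∋ w`, some component through `𝔪` is locally principal. -/
theorem locReg_of_three {B : Subalgebra R F} {w : R} {q : ℕ} {V₁ V₂ V₃ : ValuationSubring F}
    (hM : Mult3 w q V₁ V₂ V₃)
    (hB₁ : ∀ c ∈ B, c ∈ V₁) (hB₂ : ∀ c ∈ B, c ∈ V₂) (hB₃ : ∀ c ∈ B, c ∈ V₃)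
    (qep : Qep3F w B V₁ V₂ V₃)
    (𝔪 : Ideal B) [h𝔪 : 𝔪.IsPrime] (hw𝔪 : algebraMap R B w ∈ 𝔪)
    (hinc : Thru B 𝔪 V₁ → Thru B 𝔪 V₃ → Thru B 𝔪 V₂)
    (hreg : Thru B 𝔪 V₂ → LocReg B 𝔪 V₁ ∨ LocReg B 𝔪 V₂ ∨ LocReg B 𝔪 V₃) :
    LocReg B 𝔪 V₁ ∨ LocReg B 𝔪 V₂ ∨ LocReg B 𝔪 V₃ := by
  classical
  by_cases h₂ : Thru B 𝔪 V₂
  · exact hreg h₂
  have h₂' := h₂
  unfold Thru at h₂'
  push Not at h₂'
  obtain ⟨g₂, hg₂, hg₂𝔪⟩ := h₂'
  have hg₂q : g₂ ^ (q - 1) ∉ 𝔪 := fun h => hg₂𝔪 (h𝔪.mem_of_pow_mem _ h)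
  by_cases h₁ : Thru B 𝔪 V₁
  · by_cases h₃ : Thru B 𝔪 V₃
    · exact absurd (hinc h₁ h₃) h₂
    · have h₃' := h₃
      unfold Thru at h₃'
      push Not at h₃'
      obtain ⟨g₃, hg₃, hg₃𝔪⟩ := h₃'
      refine Or.inl ⟨h₁, algebraMap R B w, hM.w₁, fun a ha => ?_⟩
      obtain ⟨c, hc⟩ := three_dvd hM hB₁ hB₂ hB₃ qep a g₂ g₃ ha hg₂ hg₃
      refine ⟨g₂ ^ (q - 1) * g₃, c, ?_, ?_⟩
      · intro h
        rcases h𝔪.mem_or_mem h with h | h
        · exact hg₂q h
        · exact hg₃𝔪 h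
      · rw [← hc]
        ring
  · have h₁' := h₁
    unfold Thru at h₁'
    push Not at h₁'
    obtain ⟨g₁, hg₁, hg₁𝔪⟩ := h₁'
    by_cases h₃ : Thru B 𝔪 V₃
    · refine Or.inr (Or.inr ⟨h₃, algebraMap R B w, hM.w₃, fun a ha => ?_⟩)
      obtain ⟨c, hc⟩ := three_dvd hM hB₁ hB₂ hB₃ qep g₁ g₂ a hg₁ hg₂ ha
      refine ⟨g₁ * g₂ ^ (q - 1), c, ?_, ?_⟩
      · intro h
        rcases h𝔪.mem_or_mem h with h | h
        · exact hg₁𝔪 h
        · exact hg₂q h
      · rw [← hc]
    · exfalso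
      have h₃' := h₃
      unfold Thru at h₃'
      push Not at h₃'
      obtain ⟨g₃, hg₃, hg₃𝔪⟩ := h₃'
      obtain ⟨c, hc⟩ := three_dvd hM hB₁ hB₂ hB₃ qep g₁ g₂ g₃ hg₁ hg₂ hg₃
      have hmem : g₁ * g₂ ^ (q - 1) * g₃ ∈ 𝔪 := by
        rw [hc]
        exact 𝔪.mul_mem_right _ hw𝔪
      rcases h𝔪.mem_or_mem hmem with h | h
      · rcases h𝔪.mem_or_mem h with h | h
        · exact hg₁𝔪 h
        · exact hg₂q h
      · exact hg₃𝔪 h

end Vocab

section Three

variable {R E F : Type u} [CommRing R] [IsDomain R] [IsDiscreteValuationRing R]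
  [Field E] [CharZero E] [Algebra R E] [IsFractionRing R E]
  [Field F] [Algebra E F] [Algebra R F] [IsScalarTower R E F]

/-- **Every sheet is one of the three components** (from the `q`-expansion principle). -/
theorem sheets_three (w : R) (hw : Irreducible w) {x : F} (hx : Transcendental E x)
    (hfin : FiniteDimensional (IntermediateField.adjoin E ({x} : Set F)) F)
    {q : ℕ} {V₁ V₂ V₃ : ValuationSubring F}
    (hV₁ : IsSheet w x V₁) (hV₂ : IsSheet w x V₂) (hV₃ : IsSheet w x V₃)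
    (hM : Mult3 w q V₁ V₂ V₃)
    (qep : Qep3F w (chart R ({x} : Set F)) V₁ V₂ V₃) :
    ∀ V, IsSheet w x V → V = V₁ ∨ V = V₂ ∨ V = V₃ := by
  classical
  intro V hV
  by_contra hcon
  push Not at hcon
  obtain ⟨hne₁, hne₂, hne₃⟩ := hcon
  have hxR : Transcendental R x := Fermat.Agent.A2.Alg.H754.transcendental_base hx
  haveI : CharZero F := charZero_of_injective_algebraMap (algebraMap E F).injective
  haveI := Fermat.Agent.A2.Alg.H754.finiteDimensional_baseField (R := R) x hfin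
  have hinjRF : Function.Injective (algebraMap R F) :=
    Fermat.Agent.A2.Alg.H754.algebraMap_base_injective (E := E)
  -- a component different from `V` has an element of its centre which is a unit of `V`
  have key : ∀ W, IsSheet w x W → V ≠ W →
      ∃ g : chart R ({x} : Set F), (g : F) ∈ W.nonunits ∧ (g : F) ∉ V.nonunits := by
    intro W hW hne
    by_contra hno
    push Not at hno
    apply hne
    refine Fermat.Agent.S36.H193.sheet_eq_of_centre_eq hinjRF hw.prime hxR hV hW ?_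
    have hle : centreW W (chart R ({x} : Set F)) (sheet_chart_le hW)
        ≤ centreW V (chart R ({x} : Set F)) (sheet_chart_le hV) := by
      intro g hg
      rw [mem_centreW] at hg ⊢
      exact hno g hg
    have hminV := Fermat.Agent.S36.H193.centre_mem_minimalPrimes hV
    have hminW := Fermat.Agent.S36.H193.centre_mem_minimalPrimes hW
    exact le_antisymm (hminV.2 hminW.1 hle) hle
  obtain ⟨g₁, hg₁, hg₁V⟩ := key V₁ hV₁ hne₁
  obtain ⟨g₂, hg₂, hg₂V⟩ := key V₂ hV₂ hne₂
  obtain ⟨g₃, hg₃, hg₃V⟩ := key V₃ hV₃ hne₃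
  obtain ⟨c, hc⟩ := three_dvd hM (sheet_chart_le hV₁) (sheet_chart_le hV₂) (sheet_chart_le hV₃)
    qep g₁ g₂ g₃ hg₁ hg₂ hg₃
  set p := centreW V (chart R ({x} : Set F)) (sheet_chart_le hV) with hp
  haveI hpp : p.IsPrime := inferInstance
  have hwp : algebraMap R (chart R ({x} : Set F)) w ∈ p :=
    (mem_centreW V _ (sheet_chart_le hV) _).2 hV.2.2.1
  have hmem : g₁ * g₂ ^ (q - 1) * g₃ ∈ p := by
    rw [hc]
    exact p.mul_mem_right _ hwp
  rcases hpp.mem_or_mem hmem with h | h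
  · rcases hpp.mem_or_mem h with h | h
    · exact hg₁V ((mem_centreW V _ (sheet_chart_le hV) _).1 h)
    · exact hg₂V ((mem_centreW V _ (sheet_chart_le hV) _).1 (hpp.mem_of_pow_mem _ h))
  · exact hg₃V ((mem_centreW V _ (sheet_chart_le hV) _).1 h)

/-- **Purity at every closed point of the special fibre of a chart with three components.** -/
theorem pure_of_three (w : R) (hw : Irreducible w) {x : F} (hx : Transcendental E x)
    (hfin : FiniteDimensional (IntermediateField.adjoin E ({x} : Set F)) F)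
    {q : ℕ} {V₁ V₂ V₃ : ValuationSubring F}
    (hV₁ : IsSheet w x V₁) (hV₂ : IsSheet w x V₂) (hV₃ : IsSheet w x V₃)
    (hM : Mult3 w q V₁ V₂ V₃)
    (qep : Qep3F w (chart R ({x} : Set F)) V₁ V₂ V₃)
    (hn₁ : NormalF (chart R ({x} : Set F)) V₁) (hn₂ : NormalF (chart R ({x} : Set F)) V₂)
    (hn₃ : NormalF (chart R ({x} : Set F)) V₃)
    (𝔪 : Ideal (chart R ({x} : Set F))) (h𝔪 : 𝔪.IsMaximal)
    (hw𝔪 : algebraMap R (chart R ({x} : Set F)) w ∈ 𝔪)
    (hinc : Thru _ 𝔪 V₁ → Thru _ 𝔪 V₃ → Thru _ 𝔪 V₂)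
    (hreg : Thru _ 𝔪 V₂ → LocReg _ 𝔪 V₁ ∨ LocReg _ 𝔪 V₂ ∨ LocReg _ 𝔪 V₃)
    {m : ℕ} (hm : 0 < m) {u : F} (hu : u ≠ 0) (hdiv : DivisibleDiv E m u)
    (hu₁ : u ∈ V₁ ∧ u⁻¹ ∈ V₁) (hu₂ : u ∈ V₂ ∧ u⁻¹ ∈ V₂) (hu₃ : u ∈ V₃ ∧ u⁻¹ ∈ V₃) :
    ∃ d : F, d ≠ 0 ∧ ∃ a₀ s₀ : chart R ({x} : Set F), a₀ ∉ 𝔪 ∧ s₀ ∉ 𝔪 ∧
      u * d ^ m * (s₀ : F) = a₀ := by
  classical
  haveI := h𝔪.isPrime
  have hsheets := sheets_three w hw hx hfin hV₁ hV₂ hV₃ hM qep
  have hus : ∀ V, IsSheet w x V → u ∈ V ∧ u⁻¹ ∈ V := by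
    intro V hV
    rcases hsheets V hV with rfl | rfl | rfl
    · exact hu₁
    · exact hu₂
    · exact hu₃
  rcases locReg_of_three hM (sheet_chart_le hV₁) (sheet_chart_le hV₂) (sheet_chart_le hV₃) qep
    𝔪 hw𝔪 hinc hreg with h | h | h
  · exact pure_of_locReg w hw hx hfin hm hu hdiv hus V₁ hV₁ hn₁ 𝔪 h𝔪 h
  · exact pure_of_locReg w hw hx hfin hm hu hdiv hus V₂ hV₂ hn₂ 𝔪 h𝔪 h
  · exact pure_of_locReg w hw hx hfin hm hu hdiv hus V₃ hV₃ hn₃ 𝔪 h𝔪 h

end Three

end Fermat.Agent.S36.H987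

end

end
-- ===== PACK-END S36/H987/Pure3.lean

-- ===== PACK-BEGIN A2/H528/FrickeGalois.lean
section


/-!
# A2 / W — the Fricke involution commutes with the arithmetic Galois action

* `wF_galois` : `w_N (σ • f) = σ • w_N f` for `σ ∈ Gal(ℚ̄/ℚ)` acting on the coefficients;
* `wSemi N : SemilinearAut ℚ̄ (FF N)` : `w_N` as a semilinear automorphism (so that it acts on
  places, divisors and on `JZero N = Pic0`), commuting with `arithmeticGalois`;
* `wF_rat` : `w_N` preserves the `ℚ`-rational functions `coeffEmb (modularFunctionFieldFull N)`;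
* `comapW` : pull back of a valuation subring by `w_N` (`V₀ := comapW V∞`), with transfer of
  "`σ`-stable" and "`σ` acts trivially on the residue field".
-/

set_option autoImplicit false
set_option synthInstance.maxHeartbeats 400000
set_option maxHeartbeats 1000000

noncomputable section

open ModularCurve HahnSeries AlgebraicCurve

namespace Fermat.Agent.A2.H528

open Fermat.Agent.S24 Fermat.Agent.S24.H997

variable (N : ℕ) [NeZero N]

/-- the Galois action on `FF N` through the coefficients -/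
abbrev gal (σ : Kbar ≃ₐ[ℚ] Kbar) : FF N ≃+* FF N :=
  arithmeticRingAut (modularFunctionFieldFull N) σ

omit [NeZero N] in
theorem gal_inclRN_jR (σ : Kbar ≃ₐ[ℚ] Kbar) (d : ℕ) [NeZero d] (hd : d ∣ N) :
    gal N σ (inclRN N (jR N d hd)) = inclRN N (jR N d hd) := by
  apply Subtype.ext
  show coeffMap (σ : Kbar →+* Kbar) (coeffEmb Kbar (qExpand ℚ d jq)) = _
  rw [coeffMap_coeffEmb]
  rfl

omit [NeZero N] in
theorem gal_algebraMap (σ : Kbar ≃ₐ[ℚ] Kbar) (c : Kbar) :
    gal N σ (algebraMap Kbar (FF N) c) = algebraMap Kbar (FF N) (σ c) :=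
  arithmeticRingAut_algebraMap (modularFunctionFieldFull N) σ c

theorem wFHom_gal_inclRN (σ : Kbar ≃ₐ[ℚ] Kbar) (r : RN N) :
    wFHom N (gal N σ (inclRN N r)) = gal N σ (wFHom N (inclRN N r)) := by
  obtain ⟨r, hr⟩ := r
  induction hr using Algebra.adjoin_induction with
  | mem x hx =>
      obtain ⟨y, ⟨d, hne, hd, rfl⟩, rfl⟩ := hx
      have := hne
      have := neZero_div N hd
      have h1 : (⟨coeffEmb Kbar (qExpand ℚ d jq), Algebra.subset_adjoin
          ⟨_, ⟨d, hne, hd, rfl⟩, rfl⟩⟩ : RN N) = jR N d hd := rfl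
      rw [h1, gal_inclRN_jR, wFHom_inclRN, wR_jR, gal_inclRN_jR]
  | algebraMap c =>
      have h1 : (⟨algebraMap Kbar (LaurentSeries Kbar) c, Subalgebra.algebraMap_mem _ c⟩ : RN N)
          = algebraMap Kbar (RN N) c := rfl
      have h2 : inclRN N (algebraMap Kbar (RN N) c) = algebraMap Kbar (FF N) c :=
        (inclRN N).commutes c
      rw [h1, h2, gal_algebraMap, wFHom_algebraMap, wFHom_algebraMap, gal_algebraMap]
  | add x y hx hy ihx ihy =>
      have h1 : (⟨x + y, add_mem hx hy⟩ : RN N) = ⟨x, hx⟩ + ⟨y, hy⟩ := rfl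
      rw [h1, map_add, map_add, map_add, map_add, map_add, ihx, ihy]
  | mul x y hx hy ihx ihy =>
      have h1 : (⟨x * y, mul_mem hx hy⟩ : RN N) = ⟨x, hx⟩ * ⟨y, hy⟩ := rfl
      rw [h1, map_mul, map_mul, map_mul, map_mul, map_mul, ihx, ihy]

/-- **`w_N` commutes with the Galois action on the coefficients.** -/
theorem wF_gal (σ : Kbar ≃ₐ[ℚ] Kbar) (f : FF N) :
    wF N (gal N σ f) = gal N σ (wF N f) := by
  obtain ⟨r, t, -, rfl⟩ := exists_div_inclRN N f
  show wFHom N (gal N σ (inclRN N r / inclRN N t)) = gal N σ (wFHom N (inclRN N r / inclRN N t))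
  rw [map_div₀, map_div₀, map_div₀, map_div₀, wFHom_gal_inclRN, wFHom_gal_inclRN]

/-- `w_N` as a semilinear automorphism of `FF N / ℚ̄` (trivial on the constants). -/
def wSemi : SemilinearAut Kbar (FF N) := SemilinearAut.ofAlgAut (wF N)

@[simp] theorem wSemi_smul (f : FF N) : wSemi N • f = wF N f := rfl

theorem wSemi_mul_self : wSemi N * wSemi N = 1 := by
  rw [wSemi, ← map_mul]
  have h : wF N * wF N = 1 := AlgEquiv.ext fun f => wF_wF N f
  rw [h, map_one]

theorem wSemi_inv : (wSemi N)⁻¹ = wSemi N :=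
  inv_eq_of_mul_eq_one_left (wSemi_mul_self N)

/-- **`w_N` commutes with `arithmeticGalois` inside `SemilinearAut`**; hence the actions on
places, divisors and on `JZero N` commute. -/
theorem wSemi_comm (σ : Kbar ≃ₐ[ℚ] Kbar) :
    wSemi N * arithmeticGalois (modularFunctionFieldFull N) σ
      = arithmeticGalois (modularFunctionFieldFull N) σ * wSemi N := by
  refine Subtype.ext (Prod.ext (RingEquiv.ext fun f => ?_) ?_)
  · exact wF_gal N σ f
  · show (1 : RingAut Kbar) * σ.toRingEquiv = σ.toRingEquiv * 1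
    rw [one_mul, mul_one]

/-- The actions of `w_N` and of the Galois group on `JZero N` commute. -/
theorem wSemi_smul_galois_smul (σ : Kbar ≃ₐ[ℚ] Kbar) (x : JZero N) :
    wSemi N • (σ • x) = σ • (wSemi N • x) := by
  rw [galois_smul_pic0_def, galois_smul_pic0_def, ← mul_smul, ← mul_smul, wSemi_comm]

/-- `w_N` preserves the `ℚ`-rational functions. -/
theorem wF_rat {x : LaurentSeries ℚ} (hx : x ∈ modularFunctionFieldFull N) :
    ∃ y ∈ modularFunctionFieldFull N,
      ((wF N ⟨coeffEmb Kbar x, coeffEmb_mem_laurentBaseChange Kbar hx⟩ : FF N) :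
        LaurentSeries Kbar) = coeffEmb Kbar y := by
  have key : ∀ x ∈ modularFunctionFieldFull N, ∀ hx' : coeffEmb Kbar x ∈ modularFunctionFieldBar N,
      ∃ y ∈ modularFunctionFieldFull N,
        ((wF N ⟨coeffEmb Kbar x, hx'⟩ : FF N) : LaurentSeries Kbar) = coeffEmb Kbar y := by
    intro x hx
    have hx0 : x ∈ IntermediateField.adjoin ℚ (divisorExpansions N) := hx
    induction hx0 using IntermediateField.adjoin_induction with
    | mem y hy =>
        intro hx'
        obtain ⟨d, hne, hd, rfl⟩ := hy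
        have := hne
        have := neZero_div N hd
        refine ⟨qExpand ℚ (N / d) jq, jqd_mem_full N (Nat.div_dvd_of_dvd hd), ?_⟩
        have h1 : (⟨coeffEmb Kbar (qExpand ℚ d jq), hx'⟩ : FF N) = jFd N d hd := rfl
        rw [h1, wF_jFd]
        rfl
    | algebraMap c =>
        intro hx'
        refine ⟨algebraMap ℚ (LaurentSeries ℚ) c, IntermediateField.algebraMap_mem _ c, ?_⟩
        have h0 : coeffEmb Kbar (algebraMap ℚ (LaurentSeries ℚ) c)
            = algebraMap Kbar (LaurentSeries Kbar) (algebraMap ℚ Kbar c) := by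
          rw [algebraMap_apply_eq_single, algebraMap_laurentSeries_eq_single, coeffEmb,
            coeffMap_single]
        have h1 : (⟨coeffEmb Kbar (algebraMap ℚ (LaurentSeries ℚ) c), hx'⟩ : FF N)
            = algebraMap Kbar (FF N) (algebraMap ℚ Kbar c) := Subtype.ext h0
        rw [h1]
        show ((wFHom N (algebraMap Kbar (FF N) (algebraMap ℚ Kbar c)) : FF N) :
          LaurentSeries Kbar) = _
        rw [wFHom_algebraMap, h0]
        rfl
    | add y z hy hz ihy ihz =>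
        intro hx'
        have hy' := coeffEmb_mem_laurentBaseChange Kbar (F₀ := modularFunctionFieldFull N) hy
        have hz' := coeffEmb_mem_laurentBaseChange Kbar (F₀ := modularFunctionFieldFull N) hz
        obtain ⟨a, ha, ha'⟩ := ihy hy hy'
        obtain ⟨b, hb, hb'⟩ := ihz hz hz'
        refine ⟨a + b, add_mem ha hb, ?_⟩
        have h1 : (⟨coeffEmb Kbar (y + z), hx'⟩ : FF N)
            = ⟨coeffEmb Kbar y, hy'⟩ + ⟨coeffEmb Kbar z, hz'⟩ := Subtype.ext (map_add _ _ _)
        rw [h1, map_add, map_add]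
        show ((wF N ⟨coeffEmb Kbar y, hy'⟩ : FF N) : LaurentSeries Kbar)
          + ((wF N ⟨coeffEmb Kbar z, hz'⟩ : FF N) : LaurentSeries Kbar) = _
        rw [ha', hb']
    | inv y hy ihy =>
        intro hx'
        have hy' := coeffEmb_mem_laurentBaseChange Kbar (F₀ := modularFunctionFieldFull N) hy
        obtain ⟨a, ha, ha'⟩ := ihy hy hy'
        refine ⟨a⁻¹, inv_mem ha, ?_⟩
        have h1 : (⟨coeffEmb Kbar (y⁻¹), hx'⟩ : FF N)
            = (⟨coeffEmb Kbar y, hy'⟩ : FF N)⁻¹ := Subtype.ext (map_inv₀ _ _)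
        rw [h1, map_inv₀, map_inv₀]
        show ((wF N ⟨coeffEmb Kbar y, hy'⟩ : FF N) : LaurentSeries Kbar)⁻¹ = _
        rw [ha']
    | mul y z hy hz ihy ihz =>
        intro hx'
        have hy' := coeffEmb_mem_laurentBaseChange Kbar (F₀ := modularFunctionFieldFull N) hy
        have hz' := coeffEmb_mem_laurentBaseChange Kbar (F₀ := modularFunctionFieldFull N) hz
        obtain ⟨a, ha, ha'⟩ := ihy hy hy'
        obtain ⟨b, hb, hb'⟩ := ihz hz hz'
        refine ⟨a * b, mul_mem ha hb, ?_⟩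
        have h1 : (⟨coeffEmb Kbar (y * z), hx'⟩ : FF N)
            = ⟨coeffEmb Kbar y, hy'⟩ * ⟨coeffEmb Kbar z, hz'⟩ := Subtype.ext (map_mul _ _ _)
        rw [h1, map_mul, map_mul]
        show ((wF N ⟨coeffEmb Kbar y, hy'⟩ : FF N) : LaurentSeries Kbar)
          * ((wF N ⟨coeffEmb Kbar z, hz'⟩ : FF N) : LaurentSeries Kbar) = _
        rw [ha', hb']
  exact key x hx _

/-! ### Pull back of valuation subrings by `w_N` -/

/-- The pull back `V ∘ w_N` of a valuation subring of `FF N`. (`V₀ := comapW N V∞`.) -/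
def comapW (V : ValuationSubring (FF N)) : ValuationSubring (FF N) :=
  V.comap (wF N : FF N ≃+* FF N).toRingHom

theorem mem_comapW {V : ValuationSubring (FF N)} {f : FF N} :
    f ∈ comapW N V ↔ wF N f ∈ V := Iff.rfl

theorem comapW_comapW (V : ValuationSubring (FF N)) : comapW N (comapW N V) = V := by
  ext f
  rw [mem_comapW, mem_comapW, wF_wF]

/-- the constants of `V ∘ w_N` are the constants of `V` -/
theorem algebraMap_mem_comapW {V : ValuationSubring (FF N)} {c : Kbar} :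
    algebraMap Kbar (FF N) c ∈ comapW N V ↔ algebraMap Kbar (FF N) c ∈ V := by
  rw [mem_comapW]
  show wFHom N (algebraMap Kbar (FF N) c) ∈ V ↔ _
  rw [wFHom_algebraMap]

/-- if `σ` stabilises `V`, it stabilises `V ∘ w_N` -/
theorem gal_mem_comapW {V : ValuationSubring (FF N)} (σ : Kbar ≃ₐ[ℚ] Kbar)
    (h : ∀ f : FF N, f ∈ V → gal N σ f ∈ V) (f : FF N) (hf : f ∈ comapW N V) :
    gal N σ f ∈ comapW N V := by
  rw [mem_comapW] at hf ⊢
  rw [wF_gal]
  exact h _ hf

/-- if `σ` acts trivially on the residue field of `V`, it does so on that of `V ∘ w_N`: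
`σ f - f` is a non-unit of `V ∘ w_N` for every `f ∈ V ∘ w_N`. -/
theorem gal_sub_mem_comapW {V : ValuationSubring (FF N)} (σ : Kbar ≃ₐ[ℚ] Kbar)
    (h : ∀ f : FF N, f ∈ V → V.valuation (gal N σ f - f) < 1) (f : FF N)
    (hf : f ∈ comapW N V) :
    V.valuation (wF N (gal N σ f - f)) < 1 := by
  rw [mem_comapW] at hf
  rw [map_sub, wF_gal]
  exact h _ hf

end Fermat.Agent.A2.H528

end
end
-- ===== PACK-END A2/H528/FrickeGalois.lean

-- ===== PACK-BEGIN A2/H528/FrickeDistinct.lean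
section





/-!
# A2 / W — the element separating the two Gauss valuations `V∞` and `V₀ = V∞ ∘ w_N`

For a prime `ℓ ∣ N` put `u := j(q^ℓ) - j(q)^ℓ ∈ FF N` (`frobElt`).  Then

* `coe_frobElt`    : `u = ℓ · g` with `g ∈ ℤ((q))`          (so `u` is a non-unit at `V∞`);
* `wF_frobElt`     : `w_N u = j(q^{N/ℓ}) - j(q^N)^ℓ`;
* `coe_wF_frobElt` : `w_N u ∈ ℤ((q))` with coefficient `-1` at `q^{-Nℓ}`
                                                           (so `w_N u` is a unit at `V∞`).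
-/

set_option autoImplicit false
set_option synthInstance.maxHeartbeats 400000
set_option maxHeartbeats 1000000

noncomputable section

open ModularCurve HahnSeries AlgebraicCurve

namespace Fermat.Agent.A2.H528

open Fermat.Agent.S24 Fermat.Agent.S24.H997

/-- integral Laurent series, viewed in `ℚ̄((q))` -/
def intEmb : LaurentSeries ℤ →+* LaurentSeries Kbar := coeffMap (Int.castRingHom Kbar)

@[simp] theorem intEmb_coeff (x : LaurentSeries ℤ) (k : ℤ) :
    (intEmb x).coeff k = ((x.coeff k : ℤ) : Kbar) := rfl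

theorem intEmb_injective : Function.Injective intEmb := by
  intro x y h
  ext k
  have h1 := congrArg (fun s => s.coeff k) h
  simpa using h1

/-- `j(q^d)` over `ℤ` -/
def jZ (d : ℕ) [NeZero d] : LaurentSeries ℤ := qExpand ℤ d (jqModC ℤ)

theorem coeffEmb_jqd (d : ℕ) [NeZero d] :
    coeffEmb Kbar (qExpand ℚ d jq) = intEmb (jZ d) := by
  have h1 : jq = coeffMap (Int.castRingHom ℚ) (jqModC ℤ) := by
    rw [← jqModC_rat]
    exact (map_jqModC (Int.castRingHom ℚ)).symm
  rw [h1, jZ, intEmb, coeffMap_qExpand, coeffEmb, coeffMap_qExpand, coeffMap_coeffMap]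
  congr 1

variable (N : ℕ) [NeZero N] (ℓ : ℕ) [hℓ : Fact ℓ.Prime]

omit [NeZero N] in
theorem coe_jFd_int (d : ℕ) [NeZero d] (hd : d ∣ N) :
    ((jFd N d hd : FF N) : LaurentSeries Kbar) = intEmb (jZ d) := by
  rw [coe_jFd, coeffEmb_jqd]

/-- **The Frobenius element** `u = j(q^ℓ) - j(q)^ℓ` of `FF N`, `ℓ ∣ N`. -/
def frobElt (h : ℓ ∣ N) : FF N := jFd N ℓ h - jFd N 1 (one_dvd N) ^ ℓ

omit [NeZero N] in
theorem coe_frobElt_eq (h : ℓ ∣ N) :
    ((frobElt N ℓ h : FF N) : LaurentSeries Kbar) = intEmb (jZ ℓ - jZ 1 ^ ℓ) := by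
  show ((jFd N ℓ h : FF N) : LaurentSeries Kbar)
    - ((jFd N 1 (one_dvd N) : FF N) : LaurentSeries Kbar) ^ ℓ = _
  rw [coe_jFd_int, coe_jFd_int, map_sub, map_pow]

omit [NeZero N] in
/-- `u = ℓ · g` with `g ∈ ℤ((q))`: the Frobenius element is divisible by `ℓ`. -/
theorem coe_frobElt (h : ℓ ∣ N) :
    ∃ g : LaurentSeries ℤ, ((frobElt N ℓ h : FF N) : LaurentSeries Kbar)
      = HahnSeries.C (ℓ : Kbar) * intEmb g := by
  obtain ⟨g, hg⟩ := exists_frobCong ℓ (jqModC ℤ)
  refine ⟨g, ?_⟩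
  rw [coe_frobElt_eq]
  have h1 : jZ 1 = jqModC ℤ := qExpand_one_apply _
  rw [h1, jZ, hg, map_mul]
  congr 1
  show coeffMap (Int.castRingHom Kbar) (HahnSeries.single 0 (ℓ : ℤ)) = HahnSeries.single 0 (ℓ : Kbar)
  rw [coeffMap_single]
  simp

/-- `u = ℓ · g'` with `g' ∈ FF N` having integral `q`-expansion. -/
theorem exists_frobElt_eq_mul (h : ℓ ∣ N) :
    ∃ (g : LaurentSeries ℤ) (g' : FF N), ((g' : FF N) : LaurentSeries Kbar) = intEmb g ∧
      frobElt N ℓ h = algebraMap Kbar (FF N) (ℓ : Kbar) * g' := by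
  obtain ⟨g, hg⟩ := coe_frobElt N ℓ h
  have hℓ0 : (ℓ : Kbar) ≠ 0 := by exact_mod_cast hℓ.out.ne_zero
  have hc : algebraMap Kbar (FF N) (ℓ : Kbar) ≠ 0 := by
    rw [Ne, map_eq_zero_iff _ (algebraMap Kbar (FF N)).injective]
    exact hℓ0
  refine ⟨g, (algebraMap Kbar (FF N) (ℓ : Kbar))⁻¹ * frobElt N ℓ h, ?_, ?_⟩
  · have hC : ((algebraMap Kbar (FF N) (ℓ : Kbar) : FF N) : LaurentSeries Kbar)
        = HahnSeries.C (ℓ : Kbar) := by
      show algebraMap Kbar (LaurentSeries Kbar) (ℓ : Kbar) = _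
      rw [algebraMap_laurentSeries_eq_single]
      rfl
    have hC0 : (HahnSeries.C (ℓ : Kbar) : LaurentSeries Kbar) ≠ 0 := by
      rw [← hC]
      exact fun h0 => hc (Subtype.ext h0)
    show ((algebraMap Kbar (FF N) (ℓ : Kbar) : FF N) : LaurentSeries Kbar)⁻¹
      * ((frobElt N ℓ h : FF N) : LaurentSeries Kbar) = _
    rw [hC, hg, ← mul_assoc, inv_mul_cancel₀ hC0, one_mul]
  · rw [← mul_assoc, mul_inv_cancel₀ hc, one_mul]

omit [NeZero N] in
theorem jFd_congr {d d' : ℕ} [NeZero d] [NeZero d'] (hd : d ∣ N) (hd' : d' ∣ N) (h : d = d') :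
    jFd N d hd = jFd N d' hd' := by
  subst h
  rfl

/-- `w_N u = j(q^{N/ℓ}) - j(q^N)^ℓ`. -/
theorem wF_frobElt (h : ℓ ∣ N) :
    haveI := neZero_div N h
    wF N (frobElt N ℓ h) = jFd N (N / ℓ) (Nat.div_dvd_of_dvd h) - jFd N N dvd_rfl ^ ℓ := by
  have := neZero_div N h
  have := neZero_div N (one_dvd N)
  rw [frobElt, map_sub, map_pow, wF_jFd, wF_jFd]
  congr 2
  exact jFd_congr N _ _ (Nat.div_one N)

theorem coeff_jZ_pow_top (d n : ℕ) [NeZero d] :
    ((jZ d) ^ n).coeff (-((d * n : ℕ) : ℤ)) = 1 := by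
  rw [jZ, ← map_pow,
    show (-((d * n : ℕ) : ℤ)) = (d : ℤ) * (-(n : ℤ)) by push_cast; ring, qExpand_coeff_mul]
  exact coeff_jqModC_pow_self ℤ n

theorem coeff_jZ_of_lt (d : ℕ) [NeZero d] {k : ℤ} (hk : k < -(d : ℤ)) :
    (jZ d).coeff k = 0 := by
  rw [jZ]
  by_cases hdk : (d : ℤ) ∣ k
  · obtain ⟨m, rfl⟩ := hdk
    rw [qExpand_coeff_mul]
    have hd0 : 0 < (d : ℤ) := by exact_mod_cast Nat.pos_of_ne_zero (NeZero.ne d)
    have hm : m < -((1 : ℕ) : ℤ) := by
      have : (d : ℤ) * m < (d : ℤ) * (-1) := by linarith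
      have := lt_of_mul_lt_mul_left this hd0.le
      simpa using this
    have h1 := coeff_jqModC_pow_of_lt ℤ (b := 1) (m := m) hm
    simpa using h1
  · exact qExpand_coeff_of_not_dvd d _ hdk

/-- `w_N u` has an integral `q`-expansion with coefficient `-1` at `q^{-Nℓ}`. -/
theorem coe_wF_frobElt (h : ℓ ∣ N) :
    ∃ g : LaurentSeries ℤ, ((wF N (frobElt N ℓ h) : FF N) : LaurentSeries Kbar) = intEmb g ∧
      g.coeff (-((N * ℓ : ℕ) : ℤ)) = -1 := by
  have := neZero_div N h
  have hN : 0 < N := Nat.pos_of_ne_zero (NeZero.ne N)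
  have hℓ1 : 1 < ℓ := hℓ.out.one_lt
  refine ⟨jZ (N / ℓ) - jZ N ^ ℓ, ?_, ?_⟩
  · rw [wF_frobElt]
    show ((jFd N (N / ℓ) (Nat.div_dvd_of_dvd h) : FF N) : LaurentSeries Kbar)
      - ((jFd N N dvd_rfl : FF N) : LaurentSeries Kbar) ^ ℓ = _
    rw [coe_jFd_int, coe_jFd_int, map_sub, map_pow]
  · rw [HahnSeries.coeff_sub, coeff_jZ_pow_top, coeff_jZ_of_lt, zero_sub]
    have h1 : N / ℓ ≤ N := Nat.div_le_self N ℓ
    have h2 : N < N * ℓ := by
      calc N = N * 1 := (mul_one N).symm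
        _ < N * ℓ := (Nat.mul_lt_mul_left hN).mpr hℓ1
    have h3 : ((N / ℓ : ℕ) : ℤ) < ((N * ℓ : ℕ) : ℤ) := by exact_mod_cast lt_of_le_of_lt h1 h2
    linarith

/-- **`V∞ ≠ V₀`.**  Let `V` be a valuation subring of `FF N` which contains the functions with
integral `q`-expansion, in which those with a coefficient `±1` are units, and in which the prime
`ℓ ∣ N` is not a unit (e.g. the Gauss valuation ring above `ℓ` of the expansion at `∞`).  Then the
Frobenius element `u = j(q^ℓ) - j^ℓ` is a non-unit of `V` and a unit of `V ∘ w_N`; in particular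
`V ∘ w_N ≠ V`. -/
theorem frobElt_separates (h : ℓ ∣ N) (V : ValuationSubring (FF N))
    (hint : ∀ (f : FF N) (g : LaurentSeries ℤ), ((f : FF N) : LaurentSeries Kbar) = intEmb g → f ∈ V)
    (hunit : ∀ (f : FF N) (g : LaurentSeries ℤ) (k : ℤ),
      ((f : FF N) : LaurentSeries Kbar) = intEmb g → g.coeff k = -1 → f⁻¹ ∈ V)
    (hℓV : (algebraMap Kbar (FF N) (ℓ : Kbar))⁻¹ ∉ V) :
    (frobElt N ℓ h)⁻¹ ∉ V ∧ (frobElt N ℓ h)⁻¹ ∈ comapW N V := by
  constructor
  · intro hu
    obtain ⟨g, g', hg', hmul⟩ := exists_frobElt_eq_mul N ℓ h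
    have hg'V : g' ∈ V := hint g' g hg'
    have hℓ0 : (ℓ : Kbar) ≠ 0 := by exact_mod_cast hℓ.out.ne_zero
    have hc : algebraMap Kbar (FF N) (ℓ : Kbar) ≠ 0 := by
      rw [Ne, map_eq_zero_iff _ (algebraMap Kbar (FF N)).injective]
      exact hℓ0
    have hu0 : frobElt N ℓ h ≠ 0 := by
      intro h0
      obtain ⟨g2, hg2, hcoef⟩ := coe_wF_frobElt N ℓ h
      rw [h0, map_zero] at hg2
      have : g2 = 0 := intEmb_injective (by rw [← hg2, map_zero]; rfl)
      rw [this] at hcoef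
      simp at hcoef
    have hkey : (algebraMap Kbar (FF N) (ℓ : Kbar))⁻¹ = g' * (frobElt N ℓ h)⁻¹ := by
      rw [eq_mul_inv_iff_mul_eq₀ hu0, hmul, ← mul_assoc, inv_mul_cancel₀ hc, one_mul]
    exact hℓV (hkey ▸ V.mul_mem _ _ hg'V hu)
  · rw [mem_comapW, map_inv₀]
    obtain ⟨g2, hg2, hcoef⟩ := coe_wF_frobElt N ℓ h
    exact hunit _ g2 _ hg2 hcoef

theorem comapW_ne (h : ℓ ∣ N) (V : ValuationSubring (FF N))
    (hint : ∀ (f : FF N) (g : LaurentSeries ℤ), ((f : FF N) : LaurentSeries Kbar) = intEmb g → f ∈ V)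
    (hunit : ∀ (f : FF N) (g : LaurentSeries ℤ) (k : ℤ),
      ((f : FF N) : LaurentSeries Kbar) = intEmb g → g.coeff k = -1 → f⁻¹ ∈ V)
    (hℓV : (algebraMap Kbar (FF N) (ℓ : Kbar))⁻¹ ∉ V) :
    comapW N V ≠ V := by
  intro heq
  obtain ⟨h1, h2⟩ := frobElt_separates N ℓ h V hint hunit hℓV
  rw [heq] at h2
  exact h1 h2

end Fermat.Agent.A2.H528

end
end
-- ===== PACK-END A2/H528/FrickeDistinct.lean

-- ===== PACK-BEGIN A2/Mod/H372/S3Base.lean
section







/-!
# A2 / MODASM S3, concrete base (helper372)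

Mod/Spec language (`FE E N`, `IsVinf`, `InW`, `chartAlg`, `αE`, `βE`).

* `alpha_mem`, `alpha_jE`, `beta_jE`, `alpha_cE`, `beta_cE` : the degeneracy maps on generators,
  constants and the Gauss valuation rings;
* `inW_jE_sub_pow` : **Kronecker congruence for the generators** `j_{dq} ≡ j_d ^ q mod w V∞`
  (`H528.exists_frobCong`);
* `mem_chartAlg_iff` : `chartAlg` (helper13 `Asm.lean`) = `chart` (helper994 `Spec.lean`)
  = integrality along `R_E[X] → F`, `X ↦ y`;
* `isIntegralElem_trans`, `mem_of_alpha_mem`, `isUnif_comap`, ...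
-/

set_option autoImplicit false
set_option synthInstance.maxHeartbeats 400000
set_option maxHeartbeats 1600000
set_option linter.unusedSectionVars false
set_option linter.style.haveILetI false

noncomputable section

namespace Fermat.Agent.A2.Mod.H372

open ModularCurve HahnSeries Polynomial

/-! ## Generalities -/

section General

variable {F : Type*} [Field F]

/-- elements integral over `R[y]`, `R, y ⊆ V`, lie in the valuation ring `V`. -/
theorem mem_of_isIntegralElem (V : ValuationSubring F) {R : Type*} [CommRing R] (c : R →+* F)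
    (y : F) (hcV : ∀ r, c r ∈ V) (hyV : y ∈ V) {b : F}
    (hb : (Polynomial.eval₂RingHom c y).IsIntegralElem b) : b ∈ V := by
  set cV : R →+* V := c.codRestrict V hcV with hcV'
  set yV : V := ⟨y, hyV⟩ with hyV'
  have hcomp : (V.subtype).comp (Polynomial.eval₂RingHom cV yV) = Polynomial.eval₂RingHom c y := by
    apply Polynomial.ringHom_ext
    · intro r
      simp [cV]
    · simp [yV]
  have hint : IsIntegral V b := by
    obtain ⟨p, hp, hpb⟩ := hb
    refine ⟨p.map (Polynomial.eval₂RingHom cV yV), hp.map _, ?_⟩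
    rw [Polynomial.eval₂_map]
    have : (algebraMap V F).comp (Polynomial.eval₂RingHom cV yV) =
        Polynomial.eval₂RingHom c y := hcomp
    rw [this]
    exact hpb
  obtain ⟨v, hv⟩ := (IsIntegrallyClosed.isIntegral_iff (R := V) (K := F)).mp hint
  rw [← hv]
  exact v.2

/-- transitivity of integrality over `R[y]`. -/
theorem isIntegralElem_trans {R : Type*} [CommRing R] (c : R →+* F) {y z b : F}
    (hz : (Polynomial.eval₂RingHom c y).IsIntegralElem z)
    (hb : (Polynomial.eval₂RingHom c z).IsIntegralElem b) :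
    (Polynomial.eval₂RingHom c y).IsIntegralElem b := by
  letI : Algebra (Polynomial R) F := (Polynomial.eval₂RingHom c y).toAlgebra
  have hzT : z ∈ integralClosure (Polynomial R) F := hz
  have hcT : ∀ r, c r ∈ integralClosure (Polynomial R) F := by
    intro r
    have : c r = algebraMap (Polynomial R) F (Polynomial.C r) := by
      show c r = Polynomial.eval₂RingHom c y (Polynomial.C r)
      simp
    rw [this]
    exact Subalgebra.algebraMap_mem _ _
  have h1 : IsIntegral (integralClosure (Polynomial R) F) b := by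
    refine isIntegralElem_of_forall_exists (Polynomial.eval₂RingHom c z) _ (fun p => ?_) hb
    refine ⟨⟨Polynomial.eval₂ c z p, ?_⟩, rfl⟩
    rw [Polynomial.eval₂_eq_sum_range]
    refine Subalgebra.sum_mem _ (fun i _ => ?_)
    exact Subalgebra.mul_mem _ (hcT _) (Subalgebra.pow_mem _ hzT _)
  exact isIntegral_trans (R := Polynomial R) (A := integralClosure (Polynomial R) F) b h1

/-- `a - b ∈ ϖ V` with `a, b` units of `V` ⟹ `a⁻¹ - b⁻¹ ∈ ϖ V`. -/
theorem inv_sub_inv_mul_mem (V : ValuationSubring F) {ϖ a b : F} (ha0 : a ≠ 0) (hb0 : b ≠ 0)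
    (ha : a⁻¹ ∈ V) (hb : b⁻¹ ∈ V) (h : (a - b) * ϖ⁻¹ ∈ V) : (a⁻¹ - b⁻¹) * ϖ⁻¹ ∈ V := by
  have : (a⁻¹ - b⁻¹) * ϖ⁻¹ = -((a - b) * ϖ⁻¹ * a⁻¹ * b⁻¹) := by
    field_simp
    ring
  rw [this]
  exact V.neg_mem _ (V.mul_mem _ _ (V.mul_mem _ _ h ha) hb)

/-- transport of a uniformiser along an automorphism fixing it. -/
theorem isUnif_comap {V : ValuationSubring F} {ϖ : F} (hu : H48.IsUnif V ϖ) (W : F →+* F)
    (hW : W ϖ = ϖ) : H48.IsUnif (V.comap W) ϖ where
  mem := by
    rw [ValuationSubring.mem_comap, hW]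
    exact hu.mem
  inv_not_mem := by
    rw [ValuationSubring.mem_comap, map_inv₀, hW]
    exact hu.inv_not_mem
  gen := by
    intro f hf hfinv
    rw [ValuationSubring.mem_comap] at hf hfinv ⊢
    rw [map_mul, map_inv₀, hW]
    rw [map_inv₀] at hfinv
    exact hu.gen _ hf hfinv

end General

/-! ## Levels -/

section Levels

variable (P : ValuationSubring _root_.Fermat.Agent.A2.Mod.Qb) (E : IntermediateField ℚ _root_.Fermat.Agent.A2.Mod.Qb) (M q : ℕ) [NeZero M] [NeZero q]
  (w : _root_.Fermat.Agent.A2.Mod.RE P E)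

theorem alpha_cE (r : _root_.Fermat.Agent.A2.Mod.RE P E) : αE E M q (cE P E M r) = cE P E (M * q) r :=
  (αE E M q).commutes (r : E)

theorem beta_cE (r : _root_.Fermat.Agent.A2.Mod.RE P E) : βE E M q (cE P E M r) = cE P E (M * q) r :=
  (βE E M q).commutes (r : E)

variable {P E M q}

/-- `α` maps `V∞_M` into `V∞_{Mq}`. -/
theorem alpha_mem {VM : ValuationSubring (_root_.Fermat.Agent.A2.Mod.FE E M)} {V : ValuationSubring (_root_.Fermat.Agent.A2.Mod.FE E (M * q))}
    (hVM : IsVinf P E M VM) (hV : IsVinf P E (M * q) V) {f : _root_.Fermat.Agent.A2.Mod.FE E M} (hf : f ∈ VM) :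
    αE E M q f ∈ V := by
  rw [hV, coe_heckeAlphaBar]
  obtain ⟨U₁, U₂, hred, hmem, he⟩ := (hVM f).mp hf
  refine ⟨U₁, U₂, hred, ?_, he⟩
  have h := (αE E M q ⟨_, hmem⟩).2
  rwa [coe_heckeAlphaBar] at h

theorem alpha_jE (d : ℕ) [NeZero d] (hd : d ∣ M) :
    αE E M q (jE E M d hd) = jE E (M * q) d (hd.mul_right q) := by
  apply Subtype.ext
  rw [coe_heckeAlphaBar]
  rfl

theorem beta_jE (d : ℕ) [NeZero d] (hd : d ∣ M) :
    βE E M q (jE E M d hd) = jE E (M * q) (d * q) (mul_dvd_mul_right hd q) := by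
  apply Subtype.ext
  rw [coe_heckeBetaBar]
  show qExpand E q (coeffEmb E (qExpand ℚ d jq)) = coeffEmb E (qExpand ℚ (d * q) jq)
  rw [coeffEmb, ← coeffMap_qExpand, qExpand_qExpand, qExpand_congr (mul_comm q d)]

/-- `q = w r` in `R_E`. -/
theorem exists_q_eq (hS : Setting P E M q w) : ∃ r : _root_.Fermat.Agent.A2.Mod.RE P E, (q : _root_.Fermat.Agent.A2.Mod.RE P E) = w * r := by
  have hnu : ¬ IsUnit ((q : ℕ) : _root_.Fermat.Agent.A2.Mod.RE P E) := by
    intro hu
    obtain ⟨s, hs⟩ := isUnit_iff_exists_inv.mp hu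
    have h1 : ((q : ℕ) : _root_.Fermat.Agent.A2.Mod.Qb) * ((s : E) : _root_.Fermat.Agent.A2.Mod.Qb) = 1 := by
      have := congrArg (fun t : _root_.Fermat.Agent.A2.Mod.RE P E => ((t : E) : _root_.Fermat.Agent.A2.Mod.Qb)) hs
      simpa using this
    have hq : ((q : ℕ) : _root_.Fermat.Agent.A2.Mod.Qb) ∈ P.nonunits := hS.lies_over
    rw [ValuationSubring.mem_nonunits_iff] at hq
    have hs' : ((s : E) : _root_.Fermat.Agent.A2.Mod.Qb) ∈ P := s.2
    have hv : P.valuation ((s : E) : _root_.Fermat.Agent.A2.Mod.Qb) ≤ 1 := (P.valuation_le_one_iff _).mpr hs'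
    have h2 := congrArg P.valuation h1
    rw [map_mul, map_one] at h2
    have h3 : P.valuation ((q : ℕ) : _root_.Fermat.Agent.A2.Mod.Qb) * P.valuation ((s : E) : _root_.Fermat.Agent.A2.Mod.Qb) < 1 :=
      lt_of_le_of_lt (mul_le_of_le_one_right' hv) hq
    exact absurd h2 (ne_of_lt h3)
  have := hS.dvr
  have hmem : ((q : ℕ) : _root_.Fermat.Agent.A2.Mod.RE P E) ∈ IsLocalRing.maximalIdeal (_root_.Fermat.Agent.A2.Mod.RE P E) :=
    (IsLocalRing.mem_maximalIdeal _).mpr hnu
  rw [hS.unif.maximalIdeal_eq, Ideal.mem_span_singleton'] at hmem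
  obtain ⟨r, hr⟩ := hmem
  exact ⟨r, by rw [← hr, mul_comm]⟩

theorem cE_mem (hS : Setting P E M q w) {N : ℕ} {V : ValuationSubring (_root_.Fermat.Agent.A2.Mod.FE E N)}
    (hV : IsVinf P E N V) (r : _root_.Fermat.Agent.A2.Mod.RE P E) : cE P E N r ∈ V := by
  have := hS.dvr
  exact (H553.algebraMap_mem_iff P E hV _).mpr r.2

theorem cE_ne_zero (hS : Setting P E M q w) (N : ℕ) : cE P E N w ≠ 0 := by
  have hw0 : (w : E) ≠ 0 := fun h0 => hS.unif.ne_zero (Subtype.ext h0)
  exact (map_ne_zero_iff _ (algebraMap E (_root_.Fermat.Agent.A2.Mod.FE E N)).injective).mpr hw0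

/-- **Kronecker congruence for the generators**: `j_{dq} ≡ j_d ^ q mod w V∞`. -/
theorem inW_jE_sub_pow (hS : Setting P E M q w) {V : ValuationSubring (_root_.Fermat.Agent.A2.Mod.FE E (M * q))}
    (hV : IsVinf P E (M * q) V) (d : ℕ) [NeZero d] (hd : d ∣ M) :
    InW P E (M * q) V w (jE E (M * q) (d * q) (mul_dvd_mul_right hd q) -
      (jE E (M * q) d (hd.mul_right q)) ^ q) := by
  haveI : Fact q.Prime := ⟨hS.q_prime⟩
  obtain ⟨g, hg⟩ := H528.exists_frobCong q (H708.jInt d)
  have hj : H708.jInt (d * q) = qExpand ℤ q (H708.jInt d) := by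
    unfold H708.jInt jqNModC
    rw [qExpand_qExpand, qExpand_congr (mul_comm q d)]
  obtain ⟨r, hr⟩ := exists_q_eq w hS
  set D : _root_.Fermat.Agent.A2.Mod.FE E (M * q) := jE E (M * q) (d * q) (mul_dvd_mul_right hd q) -
      (jE E (M * q) d (hd.mul_right q)) ^ q with hD
  have hqC : HahnSeries.C ((q : ℕ) : ℤ) = ((q : ℕ) : LaurentSeries ℤ) := map_natCast _ q
  have hcoe : (D : LaurentSeries E) = ((q : ℕ) : LaurentSeries E) * coeffEmb E (H708.castQ g) := by
    have h1 : (D : LaurentSeries E) = coeffEmb E (H708.castQ (H708.jInt (d * q))) -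
        (coeffEmb E (H708.castQ (H708.jInt d))) ^ q := by
      rw [← H553.coe_jE (E := E) (M * q) (d * q) (mul_dvd_mul_right hd q),
        ← H553.coe_jE (E := E) (M * q) d (hd.mul_right q)]
      rfl
    rw [h1, hj, ← map_pow, ← map_pow, ← map_sub, ← map_sub, hg, hqC, map_mul, map_mul,
      map_natCast, map_natCast]
  have hq0 : ((q : ℕ) : _root_.Fermat.Agent.A2.Mod.FE E (M * q)) ≠ 0 := by
    exact_mod_cast hS.q_prime.ne_zero
  set G : _root_.Fermat.Agent.A2.Mod.FE E (M * q) := D * ((q : ℕ) : _root_.Fermat.Agent.A2.Mod.FE E (M * q))⁻¹ with hG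
  have hGcoe : (G : LaurentSeries E) = coeffEmb E (H708.castQ g) := by
    have hqcoe : (((q : ℕ) : _root_.Fermat.Agent.A2.Mod.FE E (M * q)) : LaurentSeries E) = ((q : ℕ) : LaurentSeries E) :=
      rfl
    have hq0' : ((q : ℕ) : LaurentSeries E) ≠ 0 := by
      rw [← hqcoe]
      exact fun h => hq0 (Subtype.ext h)
    have h2 : (G : LaurentSeries E) = (D : LaurentSeries E) * ((q : ℕ) : LaurentSeries E)⁻¹ := by
      rw [hG, IntermediateField.coe_mul, IntermediateField.coe_inv, hqcoe]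
    rw [h2, hcoe, mul_comm, ← mul_assoc, inv_mul_cancel₀ hq0', one_mul]
  have hGV : G ∈ V := H553.mem_of_int hV hGcoe
  have hqF : ((q : ℕ) : _root_.Fermat.Agent.A2.Mod.FE E (M * q)) = cE P E (M * q) w * cE P E (M * q) r := by
    have := congrArg (algebraMap (_root_.Fermat.Agent.A2.Mod.RE P E) (_root_.Fermat.Agent.A2.Mod.FE E (M * q))) hr
    rw [map_natCast, map_mul] at this
    exact this
  have hfin : D * (cE P E (M * q) w)⁻¹ = G * cE P E (M * q) r := by
    have hw0 := cE_ne_zero w hS (M * q)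
    have hDG : D = G * ((q : ℕ) : _root_.Fermat.Agent.A2.Mod.FE E (M * q)) := by
      rw [hG, mul_assoc, inv_mul_cancel₀ hq0, mul_one]
    rw [hDG, hqF]
    field_simp
  show D * (cE P E (M * q) w)⁻¹ ∈ V
  rw [hfin]
  exact V.mul_mem _ _ hGV (cE_mem w hS hV r)


/-- `w` is a uniformiser of `V∞` (leaf L2, `H553.vinfBasic`). -/
theorem unifE (hS : Setting P E M q w) {N : ℕ} (hN : N ≠ 0) {V : ValuationSubring (_root_.Fermat.Agent.A2.Mod.FE E N)}
    (hV : IsVinf P E N V) : H48.IsUnif V (cE P E N w) :=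
  (H553.vinfBasic P E w N hN hS.dvr hS.unif V hV).1

theorem jE_mem (hS : Setting P E M q w) {N : ℕ} (hN : N ≠ 0) {V : ValuationSubring (_root_.Fermat.Agent.A2.Mod.FE E N)}
    (hV : IsVinf P E N V) (d : ℕ) [NeZero d] (hd : d ∣ N) : jE E N d hd ∈ V :=
  ((H553.vinfBasic P E w N hN hS.dvr hS.unif V hV).2.2 d hd).1

theorem jE_inv_mem (hS : Setting P E M q w) {N : ℕ} (hN : N ≠ 0) {V : ValuationSubring (_root_.Fermat.Agent.A2.Mod.FE E N)}
    (hV : IsVinf P E N V) (d : ℕ) [NeZero d] (hd : d ∣ N) : (jE E N d hd)⁻¹ ∈ V :=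
  ((H553.vinfBasic P E w N hN hS.dvr hS.unif V hV).2.2 d hd).2

theorem jE_congr {N d d' : ℕ} [NeZero d] [NeZero d'] (h : d = d') (hd : d ∣ N) (hd' : d' ∣ N) :
    jE E N d hd = jE E N d' hd' := by
  subst h
  rfl

theorem level_ne_zero (hS : Setting P E M q w) : M * q ≠ 0 :=
  mul_ne_zero hS.M_ne_zero hS.q_prime.ne_zero

/-- `q ∈ w V∞`. -/
theorem q_mul_inv_mem (hS : Setting P E M q w) {V : ValuationSubring (_root_.Fermat.Agent.A2.Mod.FE E (M * q))}
    (hV : IsVinf P E (M * q) V) :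
    ((q : ℕ) : _root_.Fermat.Agent.A2.Mod.FE E (M * q)) * (cE P E (M * q) w)⁻¹ ∈ V := by
  obtain ⟨r, hr⟩ := exists_q_eq w hS
  have hqF : ((q : ℕ) : _root_.Fermat.Agent.A2.Mod.FE E (M * q)) = cE P E (M * q) w * cE P E (M * q) r := by
    have := congrArg (algebraMap (_root_.Fermat.Agent.A2.Mod.RE P E) (_root_.Fermat.Agent.A2.Mod.FE E (M * q))) hr
    rw [map_natCast, map_mul] at this
    exact this
  have hw0 := cE_ne_zero w hS (M * q)
  have : ((q : ℕ) : _root_.Fermat.Agent.A2.Mod.FE E (M * q)) * (cE P E (M * q) w)⁻¹ = cE P E (M * q) r := by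
    rw [hqF]
    field_simp
  rw [this]
  exact cE_mem w hS hV r

/-- `α` reflects membership in the Gauss valuation rings: `V∞_{Mq} ∩ F_M = V∞_M`. -/
theorem mem_of_alpha_mem (hS : Setting P E M q w) {VM : ValuationSubring (_root_.Fermat.Agent.A2.Mod.FE E M)}
    {V : ValuationSubring (_root_.Fermat.Agent.A2.Mod.FE E (M * q))} (hVM : IsVinf P E M VM) (hV : IsVinf P E (M * q) V)
    {x : _root_.Fermat.Agent.A2.Mod.FE E M} (hx : αE E M q x ∈ V) : x ∈ VM := by
  by_contra hxV
  have hx0 : x ≠ 0 := fun h0 => hxV (h0 ▸ VM.zero_mem)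
  have hinv : x⁻¹ ∈ VM := (VM.mem_or_inv_mem x).resolve_left hxV
  have huM := unifE w hS hS.M_ne_zero hVM
  have huN := unifE w hS (level_ne_zero w hS) hV
  have h1 : x⁻¹ * (cE P E M w)⁻¹ ∈ VM := huM.gen _ hinv (by rwa [inv_inv])
  have h2 := alpha_mem hVM hV h1
  rw [map_mul, map_inv₀, map_inv₀, alpha_cE] at h2
  apply huN.inv_not_mem
  have hαx0 : αE E M q x ≠ 0 := (map_ne_zero_iff _ (αE E M q).toRingHom.injective).mpr hx0
  have : (cE P E (M * q) w)⁻¹ = αE E M q x * ((αE E M q x)⁻¹ * (cE P E (M * q) w)⁻¹) := by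
    rw [← mul_assoc, mul_inv_cancel₀ hαx0, one_mul]
  rw [this]
  exact V.mul_mem _ _ hx h2

/-- `chartAlg` in terms of integrality along `R_E[X] → F`, `X ↦ y` (= `chart` of `Spec.lean`). -/
theorem mem_chartAlg_iff {N : ℕ} {y f : _root_.Fermat.Agent.A2.Mod.FE E N} :
    f ∈ chartAlg P E N y ↔
      (Polynomial.eval₂RingHom (algebraMap (_root_.Fermat.Agent.A2.Mod.RE P E) (_root_.Fermat.Agent.A2.Mod.FE E N)) y).IsIntegralElem f := by
  rw [mem_chartAlg]
  constructor
  · intro h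
    refine isIntegralElem_of_forall_exists
      (algebraMap (Algebra.adjoin (_root_.Fermat.Agent.A2.Mod.RE P E) ({y} : Set (_root_.Fermat.Agent.A2.Mod.FE E N))) (_root_.Fermat.Agent.A2.Mod.FE E N)) _ (fun c => ?_) h
    obtain ⟨p, hp⟩ := Algebra.adjoin_mem_exists_aeval (_root_.Fermat.Agent.A2.Mod.RE P E) y c.2
    exact ⟨p, hp⟩
  · intro h
    refine isIntegralElem_of_forall_exists _
      (algebraMap (Algebra.adjoin (_root_.Fermat.Agent.A2.Mod.RE P E) ({y} : Set (_root_.Fermat.Agent.A2.Mod.FE E N))) (_root_.Fermat.Agent.A2.Mod.FE E N)) (fun p => ?_) h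
    exact ⟨⟨Polynomial.aeval y p, Polynomial.aeval_mem_adjoin_singleton (_root_.Fermat.Agent.A2.Mod.RE P E) y⟩, rfl⟩

theorem mem_chart_iff {N : ℕ} {y f : _root_.Fermat.Agent.A2.Mod.FE E N} : f ∈ chart P E N y ↔ f ∈ chartAlg P E N y :=
  mem_chartAlg_iff.symm

end Levels

end Fermat.Agent.A2.Mod.H372

end
end
-- ===== PACK-END A2/Mod/H372/S3Base.lean

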