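import Fermat.Prelude.Def_FLTPrelim_Ramification
import Mathlib
import Fermat.Prelude.Def_ModularCurve_HeckeOperator
import Fermat.Agent.Pack.S36.E16L1
import Fermat.Agent.Pack.S36.E4L0
import Fermat.Agent.Pack.S36.E12L0
import Fermat.Agent.Pack.S36.E16L0
import Fermat.Agent.Pack.S36.E5L1
import Fermat.Agent.Pack.S36.E16L3
import Fermat.Agent.Pack.S36.E11L0
import Fermat.Agent.Pack.S36.E14L1
import Fermat.Agent.Pack.S36.E8L0
import Fermat.Agent.Pack.S36.E16L2
import Fermat.Agent.Pack.S36.E12L2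
import Fermat.Agent.Pack.S36.E15L1
import Fermat.Agent.Pack.S36.E10L2
import Fermat.Agent.Pack.S36.E3L2
import Fermat.Agent.Pack.S36.E9L1
import Fermat.Agent.Pack.S36.E10L3
import Fermat.Agent.Pack.S36.E5L3

-- ===== PACK-BEGIN Lib/X0Deg/Alpha.lean
section


/-!
# X0DEG (helper760): the degree of the Prelude degeneracy map `heckeAlphaBar`

* `finrankAlong_inclusion`, `finiteAlong_inclusion` : abstract (any tower of intermediate fields);
* `finrankAlong_heckeAlphaBar_mul_psi` : `[F̄_{Nℓ} : α F̄_N] * ψ(N) = ψ(Nℓ)` (any `ℓ ≠ 0`);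
* `finrankAlong_heckeAlphaBar_of_not_dvd` : `= ℓ + 1` for a prime `ℓ ∤ N`;
* `finrankAlong_heckeAlphaBar_of_dvd` : `= ℓ` for a prime `ℓ ∣ N`;
* `finiteAlong_heckeAlphaBar` : `FiniteAlong ℚ̄ (heckeAlphaBar ℚ̄ N ℓ)` (one of the six fields of
  the Prelude `HeckeInputsAlong`);
* `finrankAlong_heckeAlphaBar_square` : equal degrees in the square used for the commutation of
  Hecke operators: `[F̄_{Nℓℓ'} : F̄_{Nℓ}] = [F̄_{Nℓ'} : F̄_N]` for primes `ℓ ≠ ℓ'`.
-/

set_option autoImplicit false

noncomputable section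

open ModularCurve AlgebraicCurve IntermediateField
open Fermat.Agent.S24

namespace Fermat.Agent.Lib.X0Deg

section Abstract

variable {K E : Type*} [Field K] [Field E] [Algebra K E]

/-- For intermediate fields `A ≤ B`, the `A`-module `B` (via the inclusion) is linearly
equivalent to `extendScalars`. -/
def inclusionLinearEquiv {A B : IntermediateField K E} (h : A ≤ B) :
    letI := algebraAlong (IntermediateField.inclusion h)
    ↥B ≃ₗ[↥A] ↥(extendScalars h) :=
  letI := algebraAlong (IntermediateField.inclusion h)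
  { toFun := fun x => ⟨x.1, x.2⟩
    invFun := fun y => ⟨y.1, y.2⟩
    map_add' := fun _ _ => rfl
    map_smul' := fun _ _ => rfl
    left_inv := fun _ => rfl
    right_inv := fun _ => rfl }

theorem finrankAlong_inclusion {A B : IntermediateField K E} (h : A ≤ B) :
    finrankAlong K (IntermediateField.inclusion h) = A.relfinrank B := by
  rw [relfinrank_eq_finrank_of_le h]
  let _ := algebraAlong (IntermediateField.inclusion h)
  exact (inclusionLinearEquiv h).finrank_eq

theorem finiteAlong_inclusion {A B : IntermediateField K E} (h : A ≤ B)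
    (hpos : 0 < A.relfinrank B) : FiniteAlong K (IntermediateField.inclusion h) := by
  let _ := algebraAlong (IntermediateField.inclusion h)
  show Module.Finite ↥A ↥B
  apply Module.finite_of_finrank_pos
  have := finrankAlong_inclusion h
  rw [finrankAlong] at this
  rw [this]
  exact hpos

end Abstract

section Modular

variable (N ℓ : ℕ) [NeZero N] [NeZero ℓ]

theorem le_mul : modularFunctionFieldBar N ≤ modularFunctionFieldBar (N * ℓ) :=
  modularFunctionFieldBar_mono (dvd_mul_right N ℓ)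

theorem finrankAlong_heckeAlphaBar :
    finrankAlong Kbar (heckeAlphaBar Kbar N ℓ)
      = (modularFunctionFieldBar N).relfinrank (modularFunctionFieldBar (N * ℓ)) := by
  rw [heckeAlphaBar_eq_inclusion N ℓ (le_mul N ℓ)]
  exact finrankAlong_inclusion _

/-- `[F̄_{Nℓ} : α F̄_N] * ψ(N) = ψ(Nℓ)`. -/
theorem finrankAlong_heckeAlphaBar_mul_psi :
    finrankAlong Kbar (heckeAlphaBar Kbar N ℓ) * dedekindPsi N = dedekindPsi (N * ℓ) := by
  rw [finrankAlong_heckeAlphaBar]
  exact relfinrank_mul_psi (dvd_mul_right N ℓ)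

/-- For a prime `ℓ ∤ N` the degeneracy map `α : F̄_N → F̄_{Nℓ}` has degree `ℓ + 1`. -/
theorem finrankAlong_heckeAlphaBar_of_not_dvd (hℓ : ℓ.Prime) (h : ¬ ℓ ∣ N) :
    finrankAlong Kbar (heckeAlphaBar Kbar N ℓ) = ℓ + 1 := by
  have h1 := finrankAlong_heckeAlphaBar_mul_psi N ℓ
  have h2 : dedekindPsi (N * ℓ) = (ℓ + 1) * dedekindPsi N := by
    rw [mul_comm N ℓ]
    exact Fermat.Agent.S20.Comb694.dedekindPsi_prime_mul_of_not_dvd ℓ N hℓ (NeZero.ne N) h
  exact Nat.eq_of_mul_eq_mul_right (dedekindPsi_pos N) (h1.trans h2)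

/-- For a prime `ℓ ∣ N` the degeneracy map `α : F̄_N → F̄_{Nℓ}` has degree `ℓ`. -/
theorem finrankAlong_heckeAlphaBar_of_dvd (hℓ : ℓ.Prime) (h : ℓ ∣ N) :
    finrankAlong Kbar (heckeAlphaBar Kbar N ℓ) = ℓ := by
  have h1 := finrankAlong_heckeAlphaBar_mul_psi N ℓ
  have h2 : dedekindPsi (N * ℓ) = ℓ * dedekindPsi N := by
    rw [mul_comm N ℓ]
    exact Fermat.Agent.S20.Comb694.dedekindPsi_prime_mul_of_dvd ℓ N hℓ (NeZero.ne N) h
  exact Nat.eq_of_mul_eq_mul_right (dedekindPsi_pos N) (h1.trans h2)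

theorem finrankAlong_heckeAlphaBar_pos : 0 < finrankAlong Kbar (heckeAlphaBar Kbar N ℓ) := by
  have h1 := finrankAlong_heckeAlphaBar_mul_psi N ℓ
  have h2 := dedekindPsi_pos (N * ℓ)
  rw [← h1] at h2
  exact Nat.pos_of_mul_pos_right h2

/-- The degeneracy map `α` is finite (a field of the Prelude `HeckeInputsAlong`). -/
theorem finiteAlong_heckeAlphaBar : FiniteAlong Kbar (heckeAlphaBar Kbar N ℓ) := by
  have hpos := finrankAlong_heckeAlphaBar_pos N ℓ
  rw [finrankAlong_heckeAlphaBar] at hpos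
  rw [heckeAlphaBar_eq_inclusion N ℓ (le_mul N ℓ)]
  exact finiteAlong_inclusion _ hpos

/-- Equal degrees in the commutation square: for primes `ℓ ≠ ℓ'`,
`[F̄_{Nℓℓ'} : F̄_{Nℓ}] = [F̄_{Nℓ'} : F̄_N]`. -/
theorem finrankAlong_heckeAlphaBar_square (ℓ' : ℕ) [NeZero ℓ'] (hℓ : ℓ.Prime) (hℓ' : ℓ'.Prime)
    (hne : ℓ ≠ ℓ') :
    finrankAlong Kbar (heckeAlphaBar Kbar (N * ℓ) ℓ')
      = finrankAlong Kbar (heckeAlphaBar Kbar N ℓ') := by
  by_cases h : ℓ' ∣ N
  · rw [finrankAlong_heckeAlphaBar_of_dvd N ℓ' hℓ' h,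
      finrankAlong_heckeAlphaBar_of_dvd (N * ℓ) ℓ' hℓ' (h.mul_right ℓ)]
  · have h' : ¬ ℓ' ∣ N * ℓ := by
      intro hd
      rcases (Nat.Prime.dvd_mul hℓ').mp hd with h1 | h1
      · exact h h1
      · exact hne ((Nat.prime_dvd_prime_iff_eq hℓ' hℓ).mp h1).symm
    rw [finrankAlong_heckeAlphaBar_of_not_dvd N ℓ' hℓ' h,
      finrankAlong_heckeAlphaBar_of_not_dvd (N * ℓ) ℓ' hℓ' h']

end Modular

end Fermat.Agent.Lib.X0Deg

end
end
-- ===== PACK-END Lib/X0Deg/Alpha.lean

-- ===== PACK-BEGIN S29/H126/M3.lean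
section
/-
S29 row, piece `M3` (helper126): the Galois action on `J₀(N)(ℚ̄)` is smooth — every class is fixed
by an open subgroup `Gal(ℚ̄/L)`, `L/ℚ` finite.

Route: every element of the function field `ℚ̄(X₀(N))` (a subfield of `ℚ̄((q))` generated by `ℚ̄` and
series with rational coefficients) is fixed by an open subgroup; a place `v` is determined, among the
finitely many zeros of a function `t` with `v(t) > 0`, by finitely many functions separating it from
the other zeros; a divisor has finite support.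
-/




set_option autoImplicit false

noncomputable section

namespace Fermat.Agent.S29.H126

open ModularCurve AlgebraicCurve IntermediateField
open Fermat.Agent.S24 Fermat.Agent.Lib.RR.H804

/-- A property of Galois elements which holds on an open subgroup `Gal(ℚ̄/L)`, `L/ℚ` finite. -/
def M3OpenFixed (P : GQ → Prop) : Prop :=
  ∃ L : IntermediateField ℚ (AlgebraicClosure ℚ), FiniteDimensional ℚ L ∧
    ∀ σ : GQ, (∀ y ∈ L, σ y = y) → P σ

theorem M3OpenFixed.mono {P Q : GQ → Prop} (h : M3OpenFixed P) (hPQ : ∀ σ, P σ → Q σ) :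
    M3OpenFixed Q := by
  obtain ⟨L, hL, hP⟩ := h
  exact ⟨L, hL, fun σ hσ => hPQ σ (hP σ hσ)⟩

theorem M3OpenFixed.of_forall {P : GQ → Prop} (h : ∀ σ, P σ) : M3OpenFixed P :=
  ⟨⊥, inferInstance, fun σ _ => h σ⟩

theorem M3OpenFixed.and {P Q : GQ → Prop} (hP : M3OpenFixed P) (hQ : M3OpenFixed Q) :
    M3OpenFixed (fun σ => P σ ∧ Q σ) := by
  obtain ⟨L₁, hL₁, h₁⟩ := hP
  obtain ⟨L₂, hL₂, h₂⟩ := hQ
  refine ⟨L₁ ⊔ L₂, inferInstance,
    fun σ hσ => ⟨h₁ σ fun y hy => hσ y ?_, h₂ σ fun y hy => hσ y ?_⟩⟩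
  · exact (le_sup_left : L₁ ≤ L₁ ⊔ L₂) hy
  · exact (le_sup_right : L₂ ≤ L₁ ⊔ L₂) hy

theorem M3OpenFixed.finset {ι : Type*} (s : Finset ι) {P : ι → GQ → Prop}
    (h : ∀ i ∈ s, M3OpenFixed (P i)) : M3OpenFixed (fun σ => ∀ i ∈ s, P i σ) := by
  classical
  induction s using Finset.induction_on with
  | empty => exact .of_forall (fun σ i hi => absurd hi (Finset.notMem_empty i))
  | insert a s ha ih =>
    have h1 := h a (Finset.mem_insert_self a s)
    have h2 := ih (fun i hi => h i (Finset.mem_insert_of_mem hi))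
    refine (h1.and h2).mono fun σ hσ i hi => ?_
    rcases Finset.mem_insert.mp hi with rfl | hi
    · exact hσ.1
    · exact hσ.2 i hi

/-- Every element of the base-changed field is fixed (coefficientwise) by an open subgroup. -/
theorem M3_coeffMap_openFixed (F₀ : IntermediateField ℚ (LaurentSeries ℚ))
    {f : LaurentSeries (AlgebraicClosure ℚ)}
    (hf : f ∈ laurentBaseChange (AlgebraicClosure ℚ) F₀) :
    M3OpenFixed (fun σ => coeffMap (σ : AlgebraicClosure ℚ →+* AlgebraicClosure ℚ) f = f) := by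
  rw [mem_laurentBaseChange_iff] at hf
  induction hf using Subfield.closure_induction with
  | mem y hy =>
      rcases hy with ⟨a, rfl⟩ | ⟨z, hz, rfl⟩
      · have ha : IsIntegral ℚ a := ((AlgebraicClosure.isAlgebraic ℚ).isAlgebraic a).isIntegral
        refine ⟨ℚ⟮a⟯, adjoin.finiteDimensional ha, fun σ hσ => ?_⟩
        show coeffMap (σ : AlgebraicClosure ℚ →+* AlgebraicClosure ℚ) (algebraMap _ _ a) = _
        rw [coeffMap_algebraMap]
        exact congrArg _ (hσ a (mem_adjoin_simple_self ℚ a))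
      · exact .of_forall fun σ => coeffMap_coeffEmb σ z
  | one => exact .of_forall fun σ => map_one _
  | add x y _ _ hx hy => exact (hx.and hy).mono fun σ h => by rw [map_add, h.1, h.2]
  | neg x _ hx => exact hx.mono fun σ h => by rw [map_neg, h]
  | inv x _ hx => exact hx.mono fun σ h => by rw [map_inv₀, h]
  | mul x y _ _ hx hy => exact (hx.and hy).mono fun σ h => by rw [map_mul, h.1, h.2]

/-- Two distinct places are separated by a function. -/
theorem M3_exists_mem_not_mem {K F : Type*} [Field K] [Field F] [Algebra K F] {v w : Place K F}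
    (h : w ≠ v) : ∃ g : F, g ∈ v.toValuationSubring ∧ g ∉ w.toValuationSubring := by
  by_contra hcon
  have hle : v.toValuationSubring ≤ w.toValuationSubring := fun g hg =>
    by_contra fun hgw => hcon ⟨g, hg, hgw⟩
  exact h (Place.ext (ValuationSubring.eq_of_le_of_ne_top _ hle w.ne_top').symm)

variable (N : ℕ) [NeZero N]

omit [NeZero N] in
/-- Every function in `ℚ̄(X₀(N))` is fixed by an open subgroup. -/
theorem M3_elt_openFixed (f : FF N) :
    M3OpenFixed (fun σ => arithmeticGalois (modularFunctionFieldFull N) σ • f = f) :=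
  (M3_coeffMap_openFixed _ f.2).mono fun σ h =>
    Subtype.ext (by rw [coe_arithmeticGalois_smul]; exact h)

/-- Every place of `ℚ̄(X₀(N))` is fixed by an open subgroup. -/
theorem M3_place_openFixed (v : Place Kbar (FF N)) :
    M3OpenFixed (fun σ => arithmeticGalois (modularFunctionFieldFull N) σ • v = v) := by
  classical
  obtain ⟨x, hx⟩ : ∃ x : FF N, x ∉ v.toValuationSubring := by
    by_contra h
    exact v.ne_top' (eq_top_iff.mpr fun x _ => by_contra fun hx => h ⟨x, hx⟩)
  have hx0 : x ≠ 0 := fun h0 => hx (h0 ▸ zero_mem _)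
  set t : FF N := x⁻¹ with ht
  have htpos : 0 < v.ord t := by
    have h1 : ¬ 0 ≤ v.ord x := mt (FF.mem_of_ord_nonneg v) hx
    rw [ht, v.ord_inv]
    omega
  have htK : t ∉ (algebraMap Kbar (FF N)).range := by
    rintro ⟨a, ha⟩
    rw [← ha, FF.ord_algebraMap] at htpos
    exact lt_irrefl _ htpos
  have htr : Transcendental Kbar t := FF.transcendental_of_not_mem_range htK
  have := finiteDimensional_jF N
  have : FiniteDimensional Kbar⟮t⟯ (FF N) :=
    FF.finiteDimensional_adjoin_of_transcendental (transcendental_jF N) htr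
  have hZ : {w : Place Kbar (FF N) | 0 < w.ord t}.Finite := FF.finite_setOf_ord_pos htr
  have hQ : ∀ w ∈ hZ.toFinset, M3OpenFixed
      (fun σ => arithmeticGalois (modularFunctionFieldFull N) σ • v = w → w = v) := by
    intro w _
    by_cases hwv : w = v
    · exact .of_forall fun σ _ => hwv
    · obtain ⟨g, hgv, hgw⟩ := M3_exists_mem_not_mem hwv
      refine (M3_elt_openFixed N g).mono fun σ hσ hσv => ?_
      exfalso
      apply hgw
      rw [← hσv, SemilinearAut.smul_toValuationSubring, ← hσ]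
      exact ValuationSubring.smul_mem_pointwise_smul _ g _ hgv
  refine ((M3_elt_openFixed N t).and (M3OpenFixed.finset _ hQ)).mono fun σ hσ => ?_
  obtain ⟨hσt, hσQ⟩ := hσ
  have hmem : arithmeticGalois (modularFunctionFieldFull N) σ • v ∈ hZ.toFinset := by
    rw [Set.Finite.mem_toFinset]
    show 0 < (arithmeticGalois (modularFunctionFieldFull N) σ • v).ord t
    have := SemilinearAut.ord_smul (arithmeticGalois (modularFunctionFieldFull N) σ) v t
    rw [hσt] at this
    rw [this]
    exact htpos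
  exact hσQ _ hmem rfl

/-- Every divisor of `ℚ̄(X₀(N))` is fixed by an open subgroup. -/
theorem M3_divisor_openFixed (D : Divisor Kbar (FF N)) :
    M3OpenFixed (fun σ => arithmeticGalois (modularFunctionFieldFull N) σ • D = D) := by
  refine (M3OpenFixed.finset D.support (fun v _ => M3_place_openFixed N v)).mono fun σ hσ => ?_
  rw [SemilinearAut.divisor_smul_def]
  conv_rhs => rw [← Finsupp.mapDomain_id (v := D)]
  exact Finsupp.mapDomain_congr fun v hv => hσ v hv

/-- PIECE `M3`: the Galois action on `J₀(N)(ℚ̄)` is smooth. -/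
theorem M3_jZero_smooth (x : JZero N) :
    ∃ L : IntermediateField ℚ (AlgebraicClosure ℚ), FiniteDimensional ℚ L ∧
      ∀ σ : GQ, (∀ y ∈ L, σ y = y) → σ • x = x := by
  obtain ⟨D, rfl⟩ := Pic0.mk_surjective x
  refine (M3_divisor_openFixed N (D : Divisor Kbar (FF N))).mono fun σ hσ => ?_
  rw [galois_smul_pic0_def, SemilinearAut.pic0_smul_mk]
  exact congrArg Pic0.mk (Subtype.ext (by rw [SemilinearAut.coe_degZeroSMulHom]; exact hσ))

end Fermat.Agent.S29.H126

end
end
-- ===== PACK-END S29/H126/M3.lean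

-- ===== PACK-BEGIN S18/H558/BranchT2.lean
section


/-!
# S18 / MOD M2 (part 2): ramification of `F_M / ℚ̄(t)` for the Hauptmodul `t = t₂` of `X₀(2)`

Hypothesis (proved elsewhere, piece c3-i): `t ∈ FF M` with `j * t ^ 2 = (t + 256) ^ 3`.
Then `F_M / ℚ̄(t)` is unramified outside `t ∈ {0, -64, ∞}`:

* `ord_t2_sub_eq_one` : `c ≠ 0`, `c ≠ -64`, `0 < v.ord (t - c)` ⟹ `v.ord (t - c) = 1`;
* `ord_t2_add_64_dvd_two` : `0 < v.ord (t + 64)` ⟹ `v.ord (t + 64) ∣ 2`;
* `ord_t2_inv_sub_eq_one` : the same in the coordinate `1/t` (chart at infinity).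
-/

set_option autoImplicit false

noncomputable section

open AlgebraicCurve ModularCurve

namespace Fermat.Agent.S18.H558

open Fermat.Agent.S24

section Generic

variable {K F : Type*} [Field K] [Field F] [Algebra K F] (v : Place K F)

/-- A nonzero constant plus an element of positive order has order `0`. -/
theorem ord_const_add {g : K} (hg : g ≠ 0) {z : F} (hz : 0 < v.ord z) :
    v.ord (algebraMap K F g + z) = 0 := by
  have hg' : algebraMap K F g ≠ 0 := (map_ne_zero _).2 hg
  have h0 : v.ord (algebraMap K F g) = 0 := H117.ord_algebraMap v g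
  rw [H117.ord_add_eq_of_lt v (by rw [h0]; exact hz) hg', h0]

/-- A nonzero constant plus `T * y` with `0 < ord T`, `y` integral, has order `0`. -/
theorem ord_const_add_mul {g : K} (hg : g ≠ 0) {T y : F} (hT : 0 < v.ord T)
    (hy : y ∈ v.toValuationSubring) : v.ord (algebraMap K F g + T * y) = 0 := by
  rcases eq_or_ne y 0 with rfl | hy0
  · rw [mul_zero, add_zero]; exact H117.ord_algebraMap v g
  · have hT0 : T ≠ 0 := H117.ne_zero_of_ord_ne_zero v hT.ne'
    refine ord_const_add v hg ?_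
    rw [v.ord_mul hT0 hy0]
    have := H117.ord_nonneg_of_mem v hy
    omega

/-- If `0 < ord (t - c)` then `t` is integral at `v`. -/
theorem mem_of_ord_sub_pos {t : F} {c : K} (h : 0 < v.ord (t - algebraMap K F c)) :
    t ∈ v.toValuationSubring := by
  have h1 : t - algebraMap K F c ∈ v.toValuationSubring := H117.mem_of_ord_nonneg v h.le
  have h2 : algebraMap K F c ∈ v.toValuationSubring := v.algebraMap_mem' c
  have := add_mem h1 h2
  rwa [sub_add_cancel] at this

/-- If `0 < ord (t - c)` and `c ≠ 0` then `ord t = 0`. -/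
theorem ord_eq_zero_of_ord_sub_pos {t : F} {c : K} (hc : c ≠ 0)
    (h : 0 < v.ord (t - algebraMap K F c)) : v.ord t = 0 := by
  have := ord_const_add v hc h
  rwa [add_sub_cancel] at this

/-- Nonvanishing version of `ord_const_add_mul`. -/
theorem const_add_mul_ne_zero {g : K} (hg : g ≠ 0) {T y : F} (hT : 0 < v.ord T)
    (hy : y ∈ v.toValuationSubring) : algebraMap K F g + T * y ≠ 0 := by
  intro h
  rcases eq_or_ne y 0 with rfl | hy0
  · rw [mul_zero, add_zero] at h
    exact hg ((map_eq_zero _).1 h)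
  · have hT0 : T ≠ 0 := H117.ne_zero_of_ord_ne_zero v hT.ne'
    have h1 : T * y = algebraMap K F (-g) := by
      rw [map_neg, eq_neg_iff_add_eq_zero, add_comm]; exact h
    have h2 := congrArg v.ord h1
    rw [v.ord_mul hT0 hy0, H117.ord_algebraMap] at h2
    have := H117.ord_nonneg_of_mem v hy
    omega

/-- **Tower lemma.**  If `J * D = T ^ k * U` with `D`, `U` units at `v`, then
`ord J = k * ord T`. -/
theorem ord_eq_of_key {J D T U : F} (k : ℕ) (hkey : J * D = T ^ k * U)
    (hD0 : D ≠ 0) (hD : v.ord D = 0) (hU0 : U ≠ 0) (hU : v.ord U = 0) (hT0 : T ≠ 0) :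
    J ≠ 0 ∧ v.ord J = k * v.ord T := by
  have hJ0 : J ≠ 0 := by
    intro h
    rw [h, zero_mul] at hkey
    exact (mul_ne_zero (pow_ne_zero k hT0) hU0) hkey.symm
  refine ⟨hJ0, ?_⟩
  have h1 := congrArg v.ord hkey
  rw [v.ord_mul hJ0 hD0, v.ord_mul (pow_ne_zero k hT0) hU0, H117.ord_pow, hD, hU] at h1
  simpa using h1

/-- A positive integer `e` with `k * e ∣ k` (`k > 0`) is `1`. -/
theorem eq_one_of_mul_dvd {k : ℕ} (hk : 0 < k) {e : ℤ} (he : 0 < e) (h : (k : ℤ) * e ∣ (k : ℤ)) :
    e = 1 := by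
  have hk' : (k : ℤ) ≠ 0 := by exact_mod_cast hk.ne'
  have h1 : (k : ℤ) * e ∣ (k : ℤ) * 1 := by rwa [mul_one]
  have h2 : e ∣ 1 := (mul_dvd_mul_iff_left hk').mp h1
  exact Int.eq_one_of_dvd_one he.le h2

end Generic

section T2

variable (M : ℕ) [NeZero M] (t : FF M) (hid : jF M * t ^ 2 = (t + 256) ^ 3)

include hid

theorem t2_ne_zero : t ≠ 0 := by
  rintro rfl
  norm_num at hid

/-- Places over `t = -64`: ramification index `1` or `2`. -/
theorem ord_t2_add_64_dvd_two (v : Place Kbar (FF M))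
    (hv : 0 < v.ord (t - algebraMap Kbar (FF M) (-64))) :
    v.ord (t - algebraMap Kbar (FF M) (-64)) ∣ 2 := by
  set T := t - algebraMap Kbar (FF M) (-64) with hT
  have ht0 : t ≠ 0 := t2_ne_zero M t hid
  have hT0 : T ≠ 0 := H117.ne_zero_of_ord_ne_zero v hv.ne'
  have htv : v.ord t = 0 := ord_eq_zero_of_ord_sub_pos v (by norm_num) hv
  have htmem : t ∈ v.toValuationSubring := mem_of_ord_sub_pos v hv
  have hTmem : T ∈ v.toValuationSubring := H117.mem_of_ord_nonneg v hv.le
  -- (j - 1728) t^2 = (t + 64) (t - 512)^2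
  have key : (jF M - algebraMap Kbar (FF M) 1728) * t ^ 2
      = T * (algebraMap Kbar (FF M) (-576) + T * 1) ^ 2 := by
    have e1 : algebraMap Kbar (FF M) (-64) = -64 := by rw [map_neg, map_ofNat]
    have e2 : algebraMap Kbar (FF M) 1728 = 1728 := map_ofNat _ _
    have e3 : algebraMap Kbar (FF M) (-576) = -576 := by rw [map_neg, map_ofNat]
    rw [hT, e1, e2, e3]
    linear_combination hid
  have hU : v.ord (algebraMap Kbar (FF M) (-576) + T * 1) = 0 :=
    ord_const_add_mul v (by norm_num) hv (one_mem _)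
  have hU0 : algebraMap Kbar (FF M) (-576) + T * 1 ≠ 0 := by
    intro h
    have h2 : t ^ 2 ≠ 0 := pow_ne_zero 2 ht0
    rw [h] at key
    simp only [ne_eq, OfNat.ofNat_ne_zero, not_false_eq_true, zero_pow, mul_zero, mul_eq_zero,
      h2, or_false] at key
    -- j = 1728, so `j` would be constant; contradiction with hid? use orders instead
    have hj : jF M = algebraMap Kbar (FF M) 1728 := sub_eq_zero.mp key
    have ht512 : t = algebraMap Kbar (FF M) 512 := by
      have : t = algebraMap Kbar (FF M) (-64) + T := by rw [hT]; ring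
      have hT' : T = algebraMap Kbar (FF M) 576 := by
        have : T * 1 = -algebraMap Kbar (FF M) (-576) := by
          rw [eq_neg_iff_add_eq_zero, add_comm]; exact h
        rw [mul_one] at this
        rw [this, ← map_neg]; norm_num
      rw [this, hT', ← map_add]; norm_num
    have : v.ord T = 0 := by
      have hT' : T = algebraMap Kbar (FF M) 576 := by
        rw [hT, ht512, ← map_sub]; norm_num
      rw [hT']; exact H117.ord_algebraMap v _
    omega
  have hj0 : jF M - algebraMap Kbar (FF M) 1728 ≠ 0 := by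
    intro h
    rw [h, zero_mul] at key
    have := mul_ne_zero hT0 (pow_ne_zero 2 hU0)
    exact this key.symm
  have hord : v.ord (jF M - algebraMap Kbar (FF M) 1728) = v.ord T := by
    have h1 := congrArg v.ord key
    rw [v.ord_mul hj0 (pow_ne_zero 2 ht0), v.ord_mul hT0 (pow_ne_zero 2 hU0),
      H117.ord_pow, H117.ord_pow, htv, hU] at h1
    simpa using h1
  have hpos : 0 < v.ord (jF M - algebraMap Kbar (FF M) 1728) := by rw [hord]; exact hv
  have := ord_j_sub_1728_dvd_two M v hpos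
  rwa [hord] at this

end T2

end Fermat.Agent.S18.H558

namespace Fermat.Agent.S18.H558

open Fermat.Agent.S24

section T2main

variable (M : ℕ) [NeZero M] (t : FF M) (hid : jF M * t ^ 2 = (t + 256) ^ 3)

include hid

/-- **`F_M / ℚ̄(t₂)` is unramified outside `t₂ ∈ {0, -64, ∞}`.** -/
theorem ord_t2_sub_eq_one (c : Kbar) (hc0 : c ≠ 0) (hc64 : c ≠ -64) (v : Place Kbar (FF M))
    (hv : 0 < v.ord (t - algebraMap Kbar (FF M) c)) :
    v.ord (t - algebraMap Kbar (FF M) c) = 1 := by
  set C : FF M := algebraMap Kbar (FF M) c with hC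
  set T := t - C with hT
  have ht0 : t ≠ 0 := t2_ne_zero M t hid
  have hT0 : T ≠ 0 := H117.ne_zero_of_ord_ne_zero v hv.ne'
  have htv : v.ord t = 0 := ord_eq_zero_of_ord_sub_pos v hc0 hv
  have htmem : t ∈ v.toValuationSubring := mem_of_ord_sub_pos v hv
  have hCmem : C ∈ v.toValuationSubring := v.algebraMap_mem' c
  have hC0 : C ≠ 0 := (map_ne_zero _).2 hc0
  have hCv : v.ord C = 0 := H117.ord_algebraMap v c
  have ht2 : v.ord (t ^ 2) = 0 := by rw [H117.ord_pow, htv]; simp
  by_cases h256 : c = -256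
  · -- `j t² = (t + 256)³`
    have hCe : C = -256 := by rw [hC, h256, map_neg, map_ofNat]
    have key : jF M * t ^ 2 = T ^ 3 * 1 := by
      rw [hT, hCe]; linear_combination hid
    obtain ⟨hJ0, hJ⟩ := ord_eq_of_key v 3 key (pow_ne_zero 2 ht0) ht2 one_ne_zero v.ord_one hT0
    have hpos : 0 < v.ord (jF M) := by rw [hJ]; positivity
    have h3 := ord_j_dvd_three M v hpos
    rw [hJ] at h3
    exact eq_one_of_mul_dvd (k := 3) (by norm_num) hv (by exact_mod_cast h3)
  by_cases h512 : c = 512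
  · -- `(j - 1728) t² = (t - 512)² (t + 64)`
    have hCe : C = 512 := by rw [hC, h512, map_ofNat]
    have e2 : algebraMap Kbar (FF M) 1728 = 1728 := map_ofNat _ _
    have e3 : algebraMap Kbar (FF M) 576 = 576 := map_ofNat _ _
    have key : (jF M - algebraMap Kbar (FF M) 1728) * t ^ 2
        = T ^ 2 * (algebraMap Kbar (FF M) 576 + T * 1) := by
      rw [hT, hCe, e2, e3]; linear_combination hid
    obtain ⟨hJ0, hJ⟩ := ord_eq_of_key v 2 key (pow_ne_zero 2 ht0) ht2
      (const_add_mul_ne_zero v (by norm_num) hv (one_mem _))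
      (ord_const_add_mul v (by norm_num) hv (one_mem _)) hT0
    have hpos : 0 < v.ord (jF M - algebraMap Kbar (FF M) 1728) := by rw [hJ]; positivity
    have h2 := ord_j_sub_1728_dvd_two M v hpos
    rw [hJ] at h2
    exact eq_one_of_mul_dvd (k := 2) (by norm_num) hv (by exact_mod_cast h2)
  · -- generic case
    set a : Kbar := (c + 256) ^ 3 / c ^ 2 with ha
    have hc2 : c ^ 2 ≠ 0 := pow_ne_zero 2 hc0
    have hac : a * c ^ 2 = (c + 256) ^ 3 := by rw [ha]; field_simp
    have ha0 : a ≠ 0 := by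
      rw [ha]
      refine div_ne_zero (pow_ne_zero 3 ?_) hc2
      intro h
      exact h256 (eq_neg_of_add_eq_zero_left h)
    have ha1728 : a ≠ 1728 := by
      intro h
      rw [h] at hac
      have : (c + 64) * (c - 512) ^ 2 = 0 := by linear_combination -hac
      rcases mul_eq_zero.mp this with h1 | h1
      · exact hc64 (eq_neg_of_add_eq_zero_left h1)
      · exact h512 (sub_eq_zero.mp (pow_eq_zero_iff (by norm_num) |>.mp h1))
    set q : Kbar := c * (c + 256) ^ 2 * (c - 512) with hq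
    have hq0 : q ≠ 0 := by
      rw [hq]
      refine mul_ne_zero (mul_ne_zero hc0 (pow_ne_zero 2 ?_)) (sub_ne_zero.mpr h512)
      intro h
      exact h256 (eq_neg_of_add_eq_zero_left h)
    have hA : algebraMap Kbar (FF M) a * C ^ 2 = (C + 256) ^ 3 := by
      have := congrArg (algebraMap Kbar (FF M)) hac
      simpa [map_mul, map_pow, map_add, map_ofNat] using this
    have hQ : algebraMap Kbar (FF M) q = C * (C + 256) ^ 2 * (C - 512) := by
      rw [hq]; simp [map_mul, map_pow, map_add, map_sub, map_ofNat, hC]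
    set W : FF M := t * C ^ 2 + C ^ 3 - 196608 * C - 16777216 with hW
    have hWmem : W ∈ v.toValuationSubring := by
      have h1 : (196608 : FF M) ∈ v.toValuationSubring := by
        have := v.algebraMap_mem' (196608 : Kbar); rwa [map_ofNat] at this
      have h2 : (16777216 : FF M) ∈ v.toValuationSubring := by
        have := v.algebraMap_mem' (16777216 : Kbar); rwa [map_ofNat] at this
      exact sub_mem (sub_mem (add_mem (mul_mem htmem (pow_mem hCmem 2)) (pow_mem hCmem 3))
        (mul_mem h1 hCmem)) h2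
    have key : (jF M - algebraMap Kbar (FF M) a) * (t ^ 2 * C ^ 2)
        = T ^ 1 * (algebraMap Kbar (FF M) q + T * W) := by
      rw [hQ, hW, hT]
      linear_combination C ^ 2 * hid - t ^ 2 * hA
    have hD0 : t ^ 2 * C ^ 2 ≠ 0 := mul_ne_zero (pow_ne_zero 2 ht0) (pow_ne_zero 2 hC0)
    have hD : v.ord (t ^ 2 * C ^ 2) = 0 := by
      rw [v.ord_mul (pow_ne_zero 2 ht0) (pow_ne_zero 2 hC0), ht2, H117.ord_pow, hCv]; simp
    obtain ⟨hJ0, hJ⟩ := ord_eq_of_key v 1 key hD0 hD
      (const_add_mul_ne_zero v hq0 hv hWmem) (ord_const_add_mul v hq0 hv hWmem) hT0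
    have hJ' : v.ord (jF M - algebraMap Kbar (FF M) a) = v.ord T := by simpa using hJ
    have hpos : 0 < v.ord (jF M - algebraMap Kbar (FF M) a) := by rw [hJ']; exact hv
    rw [← hJ']
    exact ord_j_sub_eq_one M a ha0 ha1728 v hpos

/-- The same statement in the coordinate `s = 1/t` (chart at infinity): unramified outside
`s ∈ {0, -1/64}`. -/
theorem ord_t2_inv_sub_eq_one (s : Kbar) (hs0 : s ≠ 0) (hs64 : s ≠ -(1 / 64))
    (v : Place Kbar (FF M)) (hv : 0 < v.ord (t⁻¹ - algebraMap Kbar (FF M) s)) :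
    v.ord (t⁻¹ - algebraMap Kbar (FF M) s) = 1 := by
  have ht0 : t ≠ 0 := t2_ne_zero M t hid
  have hti : v.ord t⁻¹ = 0 := ord_eq_zero_of_ord_sub_pos v hs0 hv
  have htv : v.ord t = 0 := by rw [v.ord_inv] at hti; omega
  set S : FF M := algebraMap Kbar (FF M) s with hS
  have hS0 : S ≠ 0 := (map_ne_zero _).2 hs0
  have hSv : v.ord S = 0 := H117.ord_algebraMap v s
  -- `t⁻¹ - s = -(s / t) (t - 1/s)`
  have hrel : t⁻¹ - S = (-(S * t⁻¹)) * (t - algebraMap Kbar (FF M) s⁻¹) := by
    rw [map_inv₀, ← hS]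
    have h1 : S * S⁻¹ = 1 := mul_inv_cancel₀ hS0
    have h2 : t * t⁻¹ = 1 := mul_inv_cancel₀ ht0
    linear_combination (-t⁻¹) * h1 + S * h2
  have hne1 : -(S * t⁻¹) ≠ 0 := neg_ne_zero.mpr (mul_ne_zero hS0 (inv_ne_zero ht0))
  have hord1 : v.ord (-(S * t⁻¹)) = 0 := by
    rw [H117.ord_neg, v.ord_mul hS0 (inv_ne_zero ht0), hSv, hti]; rfl
  have hne2 : t - algebraMap Kbar (FF M) s⁻¹ ≠ 0 := by
    intro h
    rw [h, mul_zero] at hrel
    rw [hrel, v.ord_zero] at hv
    exact lt_irrefl _ hv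
  have hord : v.ord (t⁻¹ - S) = v.ord (t - algebraMap Kbar (FF M) s⁻¹) := by
    rw [hrel, v.ord_mul hne1 hne2, hord1, zero_add]
  rw [hord] at hv ⊢
  refine ord_t2_sub_eq_one M t hid s⁻¹ (inv_ne_zero hs0) ?_ v hv
  intro h
  apply hs64
  have : s = (s⁻¹)⁻¹ := (inv_inv s).symm
  rw [this, h]
  norm_num

end T2main

end Fermat.Agent.S18.H558

namespace Fermat.Agent.S18.H558

open Fermat.Agent.S24

/-- `j`-line, chart at infinity: in the coordinate `s = 1/j`, `F_N / ℚ̄(j)` is unramified outside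
`s ∈ {0, 1/1728}`. -/
theorem ord_j_inv_sub_eq_one (N : ℕ) [NeZero N] (s : Kbar) (hs0 : s ≠ 0) (hs : s ≠ 1 / 1728)
    (v : Place Kbar (FF N)) (hv : 0 < v.ord ((jF N)⁻¹ - algebraMap Kbar (FF N) s)) :
    v.ord ((jF N)⁻¹ - algebraMap Kbar (FF N) s) = 1 := by
  have hti : v.ord (jF N)⁻¹ = 0 := ord_eq_zero_of_ord_sub_pos v hs0 hv
  have ht0 : jF N ≠ 0 := by
    intro h
    rw [h, inv_zero, zero_sub, H117.ord_neg, H117.ord_algebraMap] at hv
    exact lt_irrefl _ hv
  set S : FF N := algebraMap Kbar (FF N) s with hS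
  have hS0 : S ≠ 0 := (map_ne_zero _).2 hs0
  have hSv : v.ord S = 0 := H117.ord_algebraMap v s
  have hrel : (jF N)⁻¹ - S = (-(S * (jF N)⁻¹)) * (jF N - algebraMap Kbar (FF N) s⁻¹) := by
    rw [map_inv₀, ← hS]
    have h1 : S * S⁻¹ = 1 := mul_inv_cancel₀ hS0
    have h2 : jF N * (jF N)⁻¹ = 1 := mul_inv_cancel₀ ht0
    linear_combination (-(jF N)⁻¹) * h1 + S * h2
  have hne1 : -(S * (jF N)⁻¹) ≠ 0 := neg_ne_zero.mpr (mul_ne_zero hS0 (inv_ne_zero ht0))
  have hord1 : v.ord (-(S * (jF N)⁻¹)) = 0 := by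
    rw [H117.ord_neg, v.ord_mul hS0 (inv_ne_zero ht0), hSv, hti]; rfl
  have hne2 : jF N - algebraMap Kbar (FF N) s⁻¹ ≠ 0 := by
    intro h
    rw [h, mul_zero] at hrel
    rw [hrel, v.ord_zero] at hv
    exact lt_irrefl _ hv
  have hord : v.ord ((jF N)⁻¹ - S) = v.ord (jF N - algebraMap Kbar (FF N) s⁻¹) := by
    rw [hrel, v.ord_mul hne1 hne2, hord1, zero_add]
  rw [hord] at hv ⊢
  refine ord_j_sub_eq_one N s⁻¹ (inv_ne_zero hs0) ?_ v hv
  intro h
  apply hs
  have : s = (s⁻¹)⁻¹ := (inv_inv s).symm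
  rw [this, h]
  norm_num

end Fermat.Agent.S18.H558

end
end
-- ===== PACK-END S18/H558/BranchT2.lean

-- ===== PACK-BEGIN S18/H107/M3T.lean
section






/-!
# helper107 — S18 / node_mod, piece M3-T at the CONCRETE objects of `Mod/Defs.lean`

`goodModel_of_isCoordinate107` : for `ℓ ∈ {2, 3}` (`¬ 5 ≤ ℓ`), every admissible coordinate `x`
(`Mod.IsCoordinate M ℓ x S`), every intermediate field `E` and every `V`, `w`:

    BaseModel107 (Lc M) (Ec M E) (Fc M E) (Rc M A E) V w (jOm M)      -- the j-model minus S-fields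
    + x ∈ Fc M E + x ∈ V + gauss for x
    ⟹  Alg.GoodModel (Lc M) (Ec M E) (Fc M E) (Rc M A E) V w x S.

The branch data (`branchJ_concrete107`) and the units `2⁻¹` resp. `3⁻¹ ∈ Rc M A E` are proved here.
-/

set_option autoImplicit false

noncomputable section

namespace Fermat.Agent.S18.H107

open AlgebraicCurve ModularCurve IntermediateField HahnSeries
open Fermat.Agent.S18 Fermat.Agent.S18.Mod Fermat.Agent.S18.Alg

/-- If `A` lies over `ℓ` and `n ≡ 1 mod ℓ`-like: `n = ℓ * k + 1` then `n` is a unit of `A`.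
We only need: `ℓ ∈ 𝔪_A`, `n - 1 ∈ ℓ ℤ` ⟹ `n⁻¹ ∈ A`. -/
theorem inv_natCast_mem_of_liesOver107 {L : Type*} [Field L] (A : ValuationSubring L) {ℓ : ℕ}
    (hA : A.LiesOverPrime ℓ) (n k : ℕ) (hn : n = ℓ * k + 1) : ((n : L))⁻¹ ∈ A := by
  have hℓ : A.valuation (ℓ : L) < 1 := by
    have h : (ℓ : L) ∈ A.nonunits := hA
    exact (A.mem_nonunits_iff).1 h
  have hk : A.valuation ((ℓ : L) * (k : L)) < 1 := by
    rw [map_mul]
    calc A.valuation (ℓ : L) * A.valuation (k : L) ≤ A.valuation (ℓ : L) * 1 := by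
          gcongr
          exact (A.valuation_le_one_iff _).2 (_root_.natCast_mem A k)
      _ = A.valuation (ℓ : L) := mul_one _
      _ < 1 := hℓ
  have hval : A.valuation (n : L) = 1 := by
    have e : (n : L) = 1 + (ℓ : L) * (k : L) := by
      rw [hn]
      push_cast
      ring
    rw [e, ← map_one A.valuation]
    exact Valuation.map_add_eq_of_lt_left _ (by rw [map_one]; exact hk)
  refine (A.valuation_le_one_iff _).1 ?_
  rw [map_inv₀, hval, inv_one]

variable (M : ℕ)

theorem inv_natCast_mem_Rc107 (A : ValuationSubring Qb) (E : IntermediateField ℚ Qb) {ℓ : ℕ}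
    (hA : A.LiesOverPrime ℓ) (n k : ℕ) (hn : n = ℓ * k + 1) :
    ((n : Om M))⁻¹ ∈ Rc M A E := by
  refine ⟨((n : Qb))⁻¹, ⟨inv_natCast_mem_of_liesOver107 A hA n k hn, ?_⟩, ?_⟩
  · exact E.toSubfield.inv_mem (_root_.natCast_mem E.toSubfield n)
  · rw [map_inv₀, map_natCast]

variable [NeZero M]

/-- **M3-T, concrete form.** -/
theorem goodModel_of_isCoordinate107 {ℓ : ℕ} (A : ValuationSubring Qb) (hA : A.LiesOverPrime ℓ)
    (h5 : ¬ 5 ≤ ℓ) {x : Om M} {S : Finset (Om M)} (hx : IsCoordinate M ℓ x S)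
    (E : IntermediateField ℚ Qb) {V : Subring (Om M)} {w : Om M}
    (hb : BaseModel107 (Lc M) (Ec M E) (Fc M E) (Rc M A E) V w (jOm M))
    (hxF : x ∈ Fc M E) (hxV : x ∈ V)
    (hgauss : ∀ P : Polynomial (Om M), (∀ i, P.coeff i ∈ Rc M A E) →
      (∃ i, P.coeff i ≠ 0 ∧ (P.coeff i)⁻¹ ∈ Rc M A E) → (P.eval x)⁻¹ ∈ V) :
    GoodModel (Lc M) (Ec M E) (Fc M E) (Rc M A E) V w x S := by
  rcases hx with ⟨h, -⟩ | ⟨h | h, -⟩
  · exact absurd h h5
  · obtain ⟨hℓ, hrel, hS⟩ := h
    subst hℓ
    have h2 : (2 : Om M)⁻¹ ∈ Rc M A E := by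
      have h4 := inv_natCast_mem_Rc107 M A E hA 4 1 (by norm_num)
      have e : (2 : Om M)⁻¹ = 2 * ((4 : ℕ) : Om M)⁻¹ := by
        push_cast
        norm_num
      rw [e]
      exact (Rc M A E).mul_mem (ofNat_mem _ 2) h4
    exact goodModel_t2_107 hb (branchJ_concrete107 M) hrel hxF hxV h2 hgauss hS
  · obtain ⟨hℓ, hrel, hS⟩ := h
    subst hℓ
    have h3 : (3 : Om M)⁻¹ ∈ Rc M A E := by
      have := inv_natCast_mem_Rc107 M A E hA 3 1 (by norm_num)
      simpa using this
    exact goodModel_t3_107 hb (branchJ_concrete107 M) hrel hxF hxV h3 hgauss hS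

end Fermat.Agent.S18.H107

end
end
-- ===== PACK-END S18/H107/M3T.lean

-- ===== PACK-BEGIN S18/H438/NodeAlg.lean
section



/-!
# S18 / NODE ALG (helper438): `Mod.AlgStatement M`

Exact type of `Integ.node_alg` (skeleton v4 of row-lead helper18):

    theorem node_alg (M : ℕ) : Mod.AlgStatement M

It is the instance `Ω = Om M` of `H438.algMain : Alg.AlgMainStatement Lc x S 𝓕`
(`Front/AlgMain.lean`), which holds for every field `Ω` and every good family.
-/

set_option autoImplicit false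

namespace Fermat.Agent.S18.H438

/-- **NODE ALG.** -/
theorem node_alg (M : ℕ) : Mod.AlgStatement M :=
  fun Lc x S 𝓕 => algMain Lc x S 𝓕

end Fermat.Agent.S18.H438

end
-- ===== PACK-END S18/H438/NodeAlg.lean

-- ===== PACK-BEGIN S36/H586/G1Table.lean
section




/-!
# S36 engine, ALG3 leaf STEP-A (helper586), part 3: the norm table of a three-component context

Adapters from the elementwise vocabulary of `Eng/Spec.lean` (`UnitAt`, `UnifAt`, the fields of
`Eng.TripleCtx` passed one by one) to the valuation vocabulary of `StepAB.lean`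
(`IsOrd`, `PU`, `NormTable`).

* `unitAt_iff`, `isOrd_iff_unitAt`, `pu_iff`
* `over_of_comap`, `over_isOrd_down`
* `res_lift_of_chart` : chart-level residue lifts (`res_α₁`, …) ⟹ valuation-level residue lifts
                        (a sheet is the localisation of the chart);
* `normAlong_map`     : `N_φ (φ a) = a ^ [F : φ F']`;
* `normTable_of_fields` : the `NormTable` of one degeneracy map.
-/

set_option autoImplicit false
set_option linter.style.haveILetI false
set_option linter.unusedSectionVars false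
set_option linter.unusedVariables false

noncomputable section

namespace Fermat.Agent.S36.H586

open Fermat.Agent.S36.Eng
open Fermat.Agent.S18.H138 (chart baseField)
open Fermat.Agent.A2.H12 (IsSheet)
open AlgebraicCurve

section Vocab

variable {F : Type*} [Field F]

theorem unitAt_iff {V : ValuationSubring F} {y : F} : UnitAt V y ↔ V.valuation y = 1 := by
  constructor
  · rintro ⟨h0, h1, h2⟩
    have a1 := (ValuationSubring.valuation_le_one_iff V _).2 h1
    have a2 := (ValuationSubring.valuation_le_one_iff V _).2 h2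
    rw [map_inv₀] at a2
    have hv0 : 0 < V.valuation y := zero_lt_iff.2 ((Valuation.ne_zero_iff _).2 h0)
    exact le_antisymm a1 ((inv_le_one₀ hv0).1 a2)
  · intro h
    have h0 : y ≠ 0 := by
      rintro rfl
      rw [map_zero] at h
      exact zero_ne_one h
    refine ⟨h0, (ValuationSubring.valuation_le_one_iff V _).1 h.le, ?_⟩
    rw [← ValuationSubring.valuation_le_one_iff, map_inv₀, h, inv_one]

theorem isOrd_iff_unitAt {V : ValuationSubring F} {t : F} (ht0 : t ≠ 0) (y : F) (a : ℤ) :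
    IsOrd V t y a ↔ UnitAt V (y * (t ^ a)⁻¹) := by
  rw [unitAt_iff, map_mul, map_inv₀, map_zpow₀]
  have h0 : V.valuation t ^ a ≠ 0 := zpow_ne_zero a (val_ne_zero_of_ne_zero ht0)
  unfold IsOrd
  constructor
  · intro h
    rw [h]
    exact mul_inv_cancel₀ h0
  · intro h
    have := congrArg (fun z => z * V.valuation t ^ a) h
    simpa [mul_assoc, inv_mul_cancel₀ h0] using this

theorem pu_iff {V : ValuationSubring F} {u : F} : PU V u ↔ u - 1 ∈ V.nonunits :=
  (ValuationSubring.mem_nonunits_iff V).symm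

theorem val_lt_one_iff_mem_nonunits {V : ValuationSubring F} {u : F} :
    V.valuation u < 1 ↔ u ∈ V.nonunits :=
  (ValuationSubring.mem_nonunits_iff V).symm

theorem UnifAt.val_lt_one {V : ValuationSubring F} {t : F} (h : UnifAt V t) :
    V.valuation t < 1 := val_lt_one_of_mem_nonunits h.2.1

/-- Orders exist at a discrete valuation subring with a uniformiser in the sense of
`Eng.UnifAt`. -/
theorem exists_isOrd_of_unifAt (V : ValuationSubring F) [IsDiscreteValuationRing V] {t : F}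
    (h : UnifAt V t) (y : F) (hy : y ≠ 0) : ∃ a : ℤ, IsOrd V t y a :=
  exists_isOrd_of_dvr V h.1 h.2.1 h.2.2 y hy

end Vocab

section OverDown

variable {F' F : Type*} [Field F'] [Field F] {φ : F' →+* F} {O : ValuationSubring F'}
  {V : ValuationSubring F}

theorem over_of_comap (h : V.comap φ = O) : ∀ a : F', φ a ∈ V ↔ a ∈ O := by
  intro a
  rw [← h, ValuationSubring.mem_comap]

theorem over_isOrd_down (hov : ∀ a : F', φ a ∈ V ↔ a ∈ O) {t : F'} (ht0 : t ≠ 0) (a : F')
    (n : ℤ) (h : IsOrd V (φ t) (φ a) n) : IsOrd O t a n := by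
  have hφt : φ t ≠ 0 := (map_ne_zero φ).2 ht0
  have h1 : V.valuation (φ (a * (t ^ n)⁻¹)) = 1 := by
    rw [map_mul, map_inv₀, map_zpow₀]
    exact unitAt_iff.1 ((isOrd_iff_unitAt hφt _ _).1 h)
  have h2 := (over_val_eq_one hov _).1 h1
  exact (isOrd_iff_unitAt ht0 _ _).2 (unitAt_iff.2 h2)

end OverDown

/-! ## Residue lifts: from the chart to the valuation ring -/

section ResLift

universe u

variable {R : Type u} [CommRing R] [IsDomain R] [IsNoetherianRing R]
  [IsIntegrallyClosed (Polynomial R)]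
variable {F : Type u} [Field F] [Algebra R F] [CharZero F]
variable {F' : Type*} [Field F']

/-- If every element of the chart is congruent modulo `𝔪_V` to an element of `φ F'`, so is every
unit of the sheet `V`. -/
theorem res_lift_of_chart (hinjR : Function.Injective (algebraMap R F)) {w : R} (hw : Prime w)
    {x : F} (hx : Transcendental R x) [FiniteDimensional (baseField R x) F]
    {V : ValuationSubring F} (hV : IsSheet w x V) (φ : F' →+* F)
    (hres : ∀ b ∈ chart R ({x} : Set F), ∃ b' : F', b - φ b' ∈ V.nonunits)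
    (y : F) (hy : V.valuation y = 1) : ∃ a : F', V.valuation (y - φ a) < 1 := by
  have hyV : y ∈ V := (ValuationSubring.valuation_le_one_iff V _).1 hy.le
  obtain ⟨a, s, hs, hya⟩ := (Fermat.Agent.S36.H193.sheet_mem_iff hinjR hw hx hV y).1 hyV
  have haV : (a : F) ∈ V := Fermat.Agent.S36.H193.sheet_chart_le hV _ a.2
  have hsV : (s : F) ∈ V := Fermat.Agent.S36.H193.sheet_chart_le hV _ s.2
  have hs1 : V.valuation (s : F) = 1 := by
    refine le_antisymm ((ValuationSubring.valuation_le_one_iff V _).2 hsV) (not_lt.1 ?_)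
    intro h
    exact hs ((ValuationSubring.mem_nonunits_iff V).2 h)
  obtain ⟨a', ha'⟩ := hres a a.2
  obtain ⟨s', hs'⟩ := hres s s.2
  have ha'' : V.valuation ((a : F) - φ a') < 1 := (ValuationSubring.mem_nonunits_iff V).1 ha'
  have hs'' : V.valuation ((s : F) - φ s') < 1 := (ValuationSubring.mem_nonunits_iff V).1 hs'
  have hφs1 : V.valuation (φ s') = 1 := by
    have e : φ s' = (s : F) + -((s : F) - φ s') := by ring
    rw [e, Valuation.map_add_eq_of_lt_left _ (by rw [Valuation.map_neg, hs1]; exact hs''), hs1]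
  have hs0 : (s : F) ≠ 0 := by
    intro h
    rw [h, map_zero] at hs1
    exact zero_ne_one hs1
  have hφs0 : φ s' ≠ 0 := by
    intro h
    rw [h, map_zero] at hφs1
    exact zero_ne_one hφs1
  refine ⟨a' * s'⁻¹, ?_⟩
  have e : y - φ (a' * s'⁻¹) =
      (((a : F) - φ a') * (s : F) + -((a : F) * ((s : F) - φ s'))) * ((s : F) * φ s')⁻¹ := by
    rw [hya, map_mul, map_inv₀]
    field_simp
    ring
  rw [e, map_mul, map_inv₀, map_mul, hs1, hφs1, mul_one, inv_one, mul_one]
  refine Valuation.map_add_lt _ ?_ ?_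
  · rw [map_mul, hs1, mul_one]
    exact ha''
  · rw [Valuation.map_neg, map_mul]
    calc V.valuation (a : F) * V.valuation ((s : F) - φ s')
        ≤ 1 * V.valuation ((s : F) - φ s') := by
          gcongr
          exact (ValuationSubring.valuation_le_one_iff V _).2 haV
      _ = V.valuation ((s : F) - φ s') := one_mul _
      _ < 1 := hs''

end ResLift

/-! ## The norm table -/

section Table

variable {E F F' : Type*} [Field E] [Field F] [Field F'] [Algebra E F] [Algebra E F']

/-- `N_φ (φ a) = a ^ [F : φ F']`. -/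
theorem normAlong_map (φ : F' →ₐ[E] F) (a : F') :
    S29.H395.normAlong φ (φ a) =
      a ^ (letI := algebraAlong φ; Module.finrank F' F) := by
  letI := algebraAlong φ
  exact Algebra.norm_algebraMap a

/-- **The norm table of one degeneracy map**, from the fields of `Eng.TripleCtx`. -/
theorem normTable_of_fields (φ : F' →ₐ[E] F) (q : ℕ) (hq : 0 < q) (w' : F') (w π : F)
    (hφw : φ w' = w) (Os Oi : ValuationSubring F') (Vu Vr Vi : ValuationSubring F)
    [IsDiscreteValuationRing Vu] [IsDiscreteValuationRing Vr] [IsDiscreteValuationRing Vi]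
    (hu : UnifAt Vu w) (hi : UnifAt Vi w) (hπ : UnifAt Vr π)
    (hram : UnitAt Vr (w * (π ^ (q - 1))⁻¹))
    (cu : Vu.comap (φ : F' →+* F) = Os) (cr : Vr.comap (φ : F' →+* F) = Os)
    (ci : Vi.comap (φ : F' →+* F) = Oi)
    (resu : ∀ y : F, Vu.valuation y = 1 → ∃ a : F', Vu.valuation (y - φ a) < 1)
    (resr : ∀ y : F, Vr.valuation y = 1 → ∃ a : F', Vr.valuation (y - φ a) < 1)
    (nv : ∀ (y : F) (a₁ a₂ a₃ : ℤ), y ≠ 0 → UnitAt Vu (y * (w ^ a₁)⁻¹) →
      UnitAt Vr (y * (π ^ a₂)⁻¹) → UnitAt Vi (y * (w ^ a₃)⁻¹) →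
      UnitAt Os (S29.H395.normAlong φ y * (w' ^ (a₁ + a₂))⁻¹) ∧
        UnitAt Oi (S29.H395.normAlong φ y * (w' ^ ((q : ℤ) * a₃))⁻¹))
    (nrs : ∀ y : F, UnitAt Vu y → UnitAt Vr y → ∀ x₁ x₂ : F',
      φ x₁ - y ∈ Vu.nonunits → φ x₂ - y ∈ Vr.nonunits →
      S29.H395.normAlong φ y - x₁ * x₂ ^ (q - 1) ∈ Os.nonunits)
    (nri : ∀ y : F, UnitAt Vi y → φ (S29.H395.normAlong φ y) - y ^ q ∈ Vi.nonunits) :
    NormTable (φ : F' →+* F) (S29.H395.normAlong φ) q w' π Os Oi Vu Vr Vi := by
  have hw0 : w ≠ 0 := hu.1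
  have hw'0 : w' ≠ 0 := by
    rintro rfl
    rw [map_zero] at hφw
    exact hw0 hφw.symm
  have hπ0 : π ≠ 0 := hπ.1
  have ovu := over_of_comap cu
  have ovr := over_of_comap cr
  have ovi := over_of_comap ci
  have hφw' : (φ : F' →+* F) w' = w := hφw
  -- `w'` is small at `Os`
  have hw's : Os.valuation w' < 1 := by
    rw [← over_val_lt_one ovu, hφw']
    exact UnifAt.val_lt_one hu
  -- the order of `w` at `Vr`
  have hramO : IsOrd Vr π w ((q - 1 : ℕ) : ℤ) := by
    rw [isOrd_iff_unitAt hπ0, zpow_natCast]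
    exact hram
  -- the two valuation formulas
  have val_s : ∀ (y : F) (a b : ℤ), IsOrd Vu w y a → IsOrd Vr π y b →
      IsOrd Os w' (S29.H395.normAlong φ y) (a + b) := by
    intro y a b ha hb
    have hy0 : y ≠ 0 := ha.ne_zero hw0
    obtain ⟨c, hc⟩ := exists_isOrd_of_unifAt Vi hi y hy0
    rw [isOrd_iff_unitAt hw'0]
    exact (nv y a b c hy0 ((isOrd_iff_unitAt hw0 _ _).1 ha) ((isOrd_iff_unitAt hπ0 _ _).1 hb)
      ((isOrd_iff_unitAt hw0 _ _).1 hc)).1
  -- the degree
  have hdeg : (letI := algebraAlong φ; Module.finrank F' F) = q := by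
    have h1 : IsOrd Os w' (S29.H395.normAlong φ w) ((1 : ℤ) + ((q - 1 : ℕ) : ℤ)) :=
      val_s w 1 _ IsOrd.self hramO
    have h2 : IsOrd Os w' (S29.H395.normAlong φ w)
        (((letI := algebraAlong φ; Module.finrank F' F : ℕ) : ℤ) * 1) := by
      rw [← hφw, normAlong_map]
      exact IsOrd.self.pow _
    have h3 := IsOrd.unique hw'0 hw's h1 h2
    have h4 : ((q - 1 : ℕ) : ℤ) = (q : ℤ) - 1 := by
      rw [Nat.cast_sub hq]
      simp
    rw [h4] at h3
    have h5 : ((letI := algebraAlong φ; Module.finrank F' F : ℕ) : ℤ) = (q : ℤ) := by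
      linarith
    exact_mod_cast h5
  refine
    { norm_one := S29.H395.normAlong_one φ
      norm_mul := S29.H395.normAlong_mul φ
      norm_w := ?_
      over_u := ovu
      over_r := ovr
      over_i := ovi
      res_u := resu
      res_r := resr
      res_i := ?_
      norm_s := ?_
      norm_i := ?_
      val_s := ?_
      val_i := ?_ }
  · show S29.H395.normAlong φ (φ w') = w' ^ q
    rw [normAlong_map, hdeg]
  · intro y hy
    refine ⟨S29.H395.normAlong φ y, ?_⟩
    have h := nri y (unitAt_iff.2 hy)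
    rw [← Valuation.map_neg, neg_sub]
    exact (ValuationSubring.mem_nonunits_iff Vi).1 h
  · intro y a b hyu hyr ha hb
    refine (ValuationSubring.mem_nonunits_iff Os).1
      (nrs y (unitAt_iff.2 hyu) (unitAt_iff.2 hyr) a b ?_ ?_)
    · rw [ValuationSubring.mem_nonunits_iff, ← Valuation.map_neg, neg_sub]
      exact ha
    · rw [ValuationSubring.mem_nonunits_iff, ← Valuation.map_neg, neg_sub]
      exact hb
  · intro y c hy hyc
    have h := (ValuationSubring.mem_nonunits_iff Vi).1 (nri y (unitAt_iff.2 hy))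
    have h2 : Vi.valuation ((φ : F' →+* F) (S29.H395.normAlong φ y - c)) < 1 := by
      have e : (φ : F' →+* F) (S29.H395.normAlong φ y - c) =
          (φ (S29.H395.normAlong φ y) - y ^ q) + (y ^ q - φ c) := by
        rw [map_sub]
        show φ (S29.H395.normAlong φ y) - φ c = _
        ring
      rw [e]
      exact Valuation.map_add_lt _ h hyc
    exact (over_val_lt_one ovi _).1 h2
  · intro y a b ha hb
    rw [hφw'] at ha
    exact val_s y a b ha hb
  · intro y c hc
    rw [hφw'] at hc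
    have hy0 : y ≠ 0 := hc.ne_zero hw0
    obtain ⟨a, ha⟩ := exists_isOrd_of_unifAt Vu hu y hy0
    obtain ⟨b, hb⟩ := exists_isOrd_of_unifAt Vr hπ y hy0
    rw [isOrd_iff_unitAt hw'0]
    exact (nv y a b c hy0 ((isOrd_iff_unitAt hw0 _ _).1 ha) ((isOrd_iff_unitAt hπ0 _ _).1 hb)
      ((isOrd_iff_unitAt hw0 _ _).1 hc)).2

end Table

end Fermat.Agent.S36.H586

end

end
-- ===== PACK-END S36/H586/G1Table.lean

-- ===== PACK-BEGIN S37/H988/BetaDeg.lean
section
/-
S37 NORM-ID (helper988), part 1: degree counting for the `β`-structure.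

`L` a field of characteristic `0`, `E_M = L(j(q^d) : d ∣ M) ⊂ L((q))`, `V = (q ↦ q^ℓ)`,
`ℓ` prime, `ℓ ∤ N`, `K₀ = V(E_N) ⊂ K₁ = E_{Nℓ}`.

* `relfinrank_map_full` : `[E_{Nℓ} : V(E_N)] = ℓ + 1`.
* `minpoly_j_eq`        : the minimal polynomial of `j` over `V(E_N)` is `Φ_ℓ(X, j(q^ℓ))`.

Only the degree formula `[E_M : L(j)] = ψ(M)` and the two vanishing properties of `Φ_ℓ` are used.
-/





set_option autoImplicit false
set_option linter.unusedSectionVars false
set_option linter.style.haveILetI false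

noncomputable section

open ModularCurve IntermediateField Polynomial

namespace Fermat.Agent.S37.H988

open Fermat.Agent.S28.H988

/-! ### Generalities on intermediate fields -/

section General

variable {F Ω : Type*} [Field F] [Field Ω] [Algebra F Ω]

/-- `A ⊔ F(x)`, as an intermediate field over `A`, is `A(x)`. -/
theorem extendScalars_sup_adjoin (A : IntermediateField F Ω) (x : Ω) :
    extendScalars (le_sup_left : A ≤ A ⊔ F⟮x⟯) = A⟮x⟯ := by
  apply restrictScalars_injective F
  rw [extendScalars_restrictScalars, restrictScalars_adjoin_eq_sup]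

/-- The degree of a simple extension inside the lattice of intermediate fields. -/
theorem relfinrank_sup_adjoin (A : IntermediateField F Ω) (x : Ω) (hx : IsIntegral A x) :
    A.relfinrank (A ⊔ F⟮x⟯) = (minpoly A x).natDegree := by
  rw [relfinrank_eq_finrank_of_le le_sup_left, extendScalars_sup_adjoin, adjoin.finrank hx]

/-- A monic polynomial over `A` of degree `[A(x) : A]` killing `x` is the minimal polynomial. -/
theorem minpoly_eq_of_relfinrank (A : IntermediateField F Ω) (x : Ω) (P : Polynomial A)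
    (hP : P.Monic) (hroot : aeval x P = 0) (hdeg : P.natDegree ≤ A.relfinrank (A ⊔ F⟮x⟯)) :
    minpoly A x = P := by
  have hint : IsIntegral A x := ⟨P, hP, by rwa [← aeval_def]⟩
  rw [relfinrank_sup_adjoin A x hint] at hdeg
  exact (Polynomial.eq_of_monic_of_dvd_of_natDegree_le (minpoly.monic hint) hP
    (minpoly.dvd _ _ hroot) hdeg).symm

end General

/-! ### `V` as an algebra homomorphism -/

section VAlg

variable (L : Type*) [Field L]

/-- `q ↦ q^m` as an `L`-algebra endomorphism of `L((q))`. -/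
def VAlg (m : ℕ) : LaurentSeries L →ₐ[L] LaurentSeries L :=
  { Vm L m with
    commutes' := fun c => by
      show Vm L m (algebraMap L (LaurentSeries L) c) = algebraMap L (LaurentSeries L) c
      by_cases h : m = 0
      · subst h
        unfold Vm
        rw [dif_pos rfl]
        rfl
      · rw [Vm_of_ne L h, algebraMap_laurentSeries_eq_single]
        have : NeZero m := ⟨h⟩
        rw [qExpand_single, mul_zero] }

@[simp]
theorem VAlg_apply (m : ℕ) (f : LaurentSeries L) : VAlg L m f = Vm L m f := rfl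

theorem VAlg_jd {m e : ℕ} (hm : m ≠ 0) (he : e ≠ 0) : VAlg L m (jd L e) = jd L (m * e) :=
  Vm_jd L hm he

/-- `V_ℓ(E_N) ≤ E_{Nℓ}`. -/
theorem map_full_le {N ℓ : ℕ} (hN : N ≠ 0) (hℓ : ℓ ≠ 0) :
    (modularFunctionFieldFullC L N).map (VAlg L ℓ) ≤ modularFunctionFieldFullC L (N * ℓ) := by
  rw [IntermediateField.map_le_iff_le_comap, full_le_iff L hN]
  intro d hd
  have hd0 : d ≠ 0 := fun h => hN (by rw [h] at hd; exact Nat.eq_zero_of_zero_dvd hd)
  show VAlg L ℓ (jd L d) ∈ modularFunctionFieldFullC L (N * ℓ)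
  rw [VAlg_jd L hℓ hd0, mul_comm ℓ d]
  exact jd_mem_full L (Nat.mul_ne_zero hN hℓ) (Nat.mul_dvd_mul_right hd ℓ)

theorem jd_mul_mem_map {N ℓ d : ℕ} (hN : N ≠ 0) (hℓ : ℓ ≠ 0) (hd : d ∣ N) :
    jd L (ℓ * d) ∈ (modularFunctionFieldFullC L N).map (VAlg L ℓ) := by
  have hd0 : d ≠ 0 := fun h => hN (by rw [h] at hd; exact Nat.eq_zero_of_zero_dvd hd)
  rw [← VAlg_jd L hℓ hd0]
  exact ⟨jd L d, jd_mem_full L hN hd, rfl⟩

end VAlg

/-! ### Modular polynomials over every field -/

section PhiFam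

variable (k : Type*) [Field k]

theorem exists_phiRel (r : ℕ) (hr : r.Prime) : ∃ Φ : Polynomial (Polynomial ℤ), PhiRel k r Φ := by
  haveI : NeZero r := ⟨hr.ne_zero⟩
  obtain ⟨D⟩ := Fermat.Agent.S28.H807.nonempty_modPolyData r hr
  exact ⟨D.Φ, phiRel_of_modPolyData k r D⟩

open Classical in
/-- A choice of modular polynomials `Φ_r`, `r` prime. -/
def PhiFam (r : ℕ) : Polynomial (Polynomial ℤ) :=
  if h : r.Prime then (exists_phiRel k r h).choose else 0

theorem phiFam_spec {r : ℕ} (hr : r.Prime) : PhiRel k r (PhiFam k r) := by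
  unfold PhiFam
  rw [dif_pos hr]
  exact (exists_phiRel k r hr).choose_spec

/-- `E_{Nℓ} = E_N ⊔ k(j(q^ℓ))` for `ℓ ∤ N`. -/
theorem full_mul_eq_sup {ℓ N : ℕ} (hℓ : ℓ.Prime) (hN : N ≠ 0) (hℓN : ¬ ℓ ∣ N) :
    modularFunctionFieldFullC k (N * ℓ) = modularFunctionFieldFullC k N ⊔ k⟮jd k ℓ⟯ := by
  have h := full_mul_eq (k := k) (PhiFam k) hN hℓ (fun r hr _ => phiFam_spec k hr)
  have ht : topGen k N ℓ = jd k ℓ := by
    unfold topGen topExp
    rw [Nat.factorization_eq_zero_of_not_dvd hℓN, zero_add, pow_one]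
  rw [h, restrictScalars_adjoin_eq_sup, ht]

end PhiFam

/-! ### The degree of `E_{Nℓ}` over `V(E_N)` -/

section Degree

variable (L : Type*) [Field L] [CharZero L]
variable {ℓ : ℕ} {Φ : Polynomial (Polynomial ℤ)}

theorem natCast_prime_ne_zero (r : ℕ) (hr : r.Prime) : (r : L) ≠ 0 :=
  Nat.cast_ne_zero.mpr hr.ne_zero

theorem jd_mem_map {N : ℕ} (hN : N ≠ 0) (hℓ : ℓ ≠ 0) :
    jd L ℓ ∈ (modularFunctionFieldFullC L N).map (VAlg L ℓ) := by
  have := jd_mul_mem_map L hN hℓ (one_dvd N)
  rwa [mul_one] at this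

/-- `[V(E_N)(j(q^{ℓ²})) : V(E_N)] = ℓ + 1`. -/
theorem relfinrank_map_sup (hℓ : ℓ.Prime) {N : ℕ} (hN : N ≠ 0) (hℓN : ¬ ℓ ∣ N) :
    ((modularFunctionFieldFullC L N).map (VAlg L ℓ)).relfinrank
      ((modularFunctionFieldFullC L N).map (VAlg L ℓ) ⊔ L⟮jd L (ℓ * ℓ)⟯) = ℓ + 1 := by
  have h1 : (modularFunctionFieldFullC L N).map (VAlg L ℓ) ⊔ L⟮jd L (ℓ * ℓ)⟯ =
      (modularFunctionFieldFullC L (N * ℓ)).map (VAlg L ℓ) := by
    rw [full_mul_eq_sup L hℓ hN hℓN, IntermediateField.map_sup, adjoin_map, Set.image_singleton,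
      VAlg_jd L hℓ.ne_zero hℓ.ne_zero]
  rw [h1, relfinrank_map_map,
    relfinrank_full_mul_prime L N ℓ hN hℓ (fun r hr _ => natCast_prime_ne_zero L r hr),
    if_neg hℓN]

variable {L}

/-- The polynomial `Φ(X, y)` over an intermediate field containing `y`. -/
theorem PhiAt_subtype_map (A : IntermediateField L (LaurentSeries L)) (y : LaurentSeries L)
    (hy : y ∈ A) :
    (PhiAt Φ (⟨y, hy⟩ : A)).map (algebraMap A (LaurentSeries L)) = PhiAt Φ y := by
  rw [PhiAt_map]
  rfl

theorem aeval_PhiAt_subtype (A : IntermediateField L (LaurentSeries L)) (y : LaurentSeries L)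
    (hy : y ∈ A) (x : LaurentSeries L) :
    aeval x (PhiAt Φ (⟨y, hy⟩ : A)) = (PhiAt Φ y).eval x := by
  rw [aeval_def, eval₂_eq_eval_map, PhiAt_subtype_map]

/-- **The minimal polynomial of `j` over `V(E_N)`** is `Φ_ℓ(X, j(q^ℓ))`. -/
theorem minpoly_j_eq (hℓ : ℓ.Prime) (hΦ : PhiRel L ℓ Φ) {N : ℕ} (hN : N ≠ 0) (hℓN : ¬ ℓ ∣ N) :
    minpoly ((modularFunctionFieldFullC L N).map (VAlg L ℓ)) (jqModC L) =
      PhiAt Φ (⟨jd L ℓ, jd_mem_map L hN hℓ.ne_zero⟩ :
        (modularFunctionFieldFullC L N).map (VAlg L ℓ)) := by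
  set A := (modularFunctionFieldFullC L N).map (VAlg L ℓ) with hA
  set P : Polynomial A := PhiAt Φ (⟨jd L ℓ, jd_mem_map L hN hℓ.ne_zero⟩ : A) with hP
  have hPm : P.Monic := PhiAt_monic hΦ.monic _
  have hPd : P.natDegree = ℓ + 1 := by rw [hP, PhiAt_natDegree hΦ.monic, hΦ.natDegree_eq]
  have h0 : aeval (jd L (ℓ * ℓ)) P = 0 := by
    rw [hP, aeval_PhiAt_subtype]
    exact hΦ.root1 hℓ.ne_zero hℓ.ne_zero
  have hx : aeval (jqModC L) P = 0 := by
    rw [hP, aeval_PhiAt_subtype]
    exact hΦ.root_j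
  have h1 : minpoly A (jd L (ℓ * ℓ)) = P :=
    minpoly_eq_of_relfinrank A _ P hPm h0 (by rw [hPd, relfinrank_map_sup L hℓ hN hℓN])
  have hirr : Irreducible P := by
    rw [← h1]
    exact minpoly.irreducible ⟨P, hPm, by rwa [← aeval_def]⟩
  exact (minpoly.eq_of_irreducible_of_monic hirr hx hPm).symm

theorem isIntegral_j (hℓ : ℓ.Prime) {N : ℕ} (hN : N ≠ 0) :
    IsIntegral ((modularFunctionFieldFullC L N).map (VAlg L ℓ)) (jqModC L) := by
  obtain ⟨Φ, hΦ⟩ := exists_phiRel L ℓ hℓ
  refine ⟨PhiAt Φ (⟨jd L ℓ, jd_mem_map L hN hℓ.ne_zero⟩ :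
        (modularFunctionFieldFullC L N).map (VAlg L ℓ)), PhiAt_monic hΦ.monic _, ?_⟩
  rw [← aeval_def, aeval_PhiAt_subtype]
  exact hΦ.root_j

/-- `[V(E_N)(j) : V(E_N)] = ℓ + 1`. -/
theorem relfinrank_map_sup_j (hℓ : ℓ.Prime) {N : ℕ} (hN : N ≠ 0) (hℓN : ¬ ℓ ∣ N) :
    ((modularFunctionFieldFullC L N).map (VAlg L ℓ)).relfinrank
      ((modularFunctionFieldFullC L N).map (VAlg L ℓ) ⊔ L⟮jqModC L⟯) = ℓ + 1 := by
  obtain ⟨Φ, hΦ⟩ := exists_phiRel L ℓ hℓ
  rw [relfinrank_sup_adjoin _ _ (isIntegral_j hℓ hN), minpoly_j_eq hℓ hΦ hN hℓN,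
    PhiAt_natDegree hΦ.monic, hΦ.natDegree_eq]

variable (L)

/-- **Degree of the `β`-structure**: `[E_{Nℓ} : V(E_N)] = ℓ + 1` for `ℓ ∤ N`. -/
theorem relfinrank_map_full (hℓ : ℓ.Prime) {N : ℕ} (hN : N ≠ 0) (hℓN : ¬ ℓ ∣ N) :
    ((modularFunctionFieldFullC L N).map (VAlg L ℓ)).relfinrank
      (modularFunctionFieldFullC L (N * ℓ)) = ℓ + 1 := by
  have hℓ0 : ℓ ≠ 0 := hℓ.ne_zero
  have hNℓ : N * ℓ ≠ 0 := Nat.mul_ne_zero hN hℓ0
  have hchar : ∀ (M : ℕ) (r : ℕ), r.Prime → r ∣ M → (r : L) ≠ 0 :=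
    fun _ r hr _ => natCast_prime_ne_zero L r hr
  set J := modularFunctionFieldFullC L 1 with hJ
  set Jl := J.map (VAlg L ℓ) with hJl
  set El := modularFunctionFieldFullC L ℓ with hEl
  set K0 := (modularFunctionFieldFullC L N).map (VAlg L ℓ) with hK0
  set K1 := modularFunctionFieldFullC L (N * ℓ) with hK1
  have hJeq : J = Fermat.Agent.S28.jField L := full_one L
  -- inclusions
  have i1 : J ≤ El := full_mono L hℓ0 (one_dvd ℓ)
  have i2 : El ≤ K1 := full_mono L hNℓ (Dvd.intro_left N rfl)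
  have i3 : Jl ≤ El := by
    have := map_full_le L (N := 1) one_ne_zero hℓ0
    rwa [one_mul] at this
  have i4 : Jl ≤ K0 := IntermediateField.map_mono _ (full_mono L hN (one_dvd N))
  have i5 : K0 ≤ K1 := map_full_le L hN hℓ0
  -- degrees over `L(j)`
  have d1 : J.relfinrank El = ℓ + 1 := by
    rw [hJeq, relfinrank_jField_full_eq L ℓ hℓ0 (hchar ℓ)]
    have := Fermat.Agent.S28.H626.psi_mul_prime_of_not_dvd (N := 1) one_ne_zero hℓ
      (by simpa using hℓ.one_lt.ne')
    rw [one_mul] at this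
    rw [this]
    have h1 : dedekindPsi 1 = 1 := by
      have := relfinrank_jField_full_eq L 1 one_ne_zero (hchar 1)
      rw [← hJeq, relfinrank_self] at this
      exact this.symm
    rw [h1, mul_one]
  have d2 : J.relfinrank K1 = dedekindPsi N * (ℓ + 1) := by
    rw [hJeq, relfinrank_jField_full_eq L (N * ℓ) hNℓ (hchar _),
      Fermat.Agent.S28.H626.psi_mul_prime_of_not_dvd hN hℓ hℓN, mul_comm]
  have d3 : El.relfinrank K1 = dedekindPsi N := by
    have h := relfinrank_mul_relfinrank i1 i2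
    rw [d1, d2, mul_comm] at h
    exact Nat.eq_of_mul_eq_mul_right (Nat.succ_pos ℓ) h
  -- degrees over `L(j(q^ℓ))`
  have d4 : Jl.relfinrank El = ℓ + 1 := by
    have h := relfinrank_map_sup_j (L := L) hℓ (N := 1) one_ne_zero
      (by simpa using hℓ.one_lt.ne')
    have e1 : (modularFunctionFieldFullC L 1).map (VAlg L ℓ) ⊔ L⟮jqModC L⟯ = El := by
      rw [hEl, ← one_mul ℓ, full_mul_eq_sup L hℓ one_ne_zero (by simpa using hℓ.one_lt.ne'),
        one_mul, sup_comm]
      congr 1
      · rw [full_one]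
      · rw [full_one, adjoin_map, Set.image_singleton, VAlg_apply]
        rfl
    rw [e1] at h
    exact h
  have d5 : Jl.relfinrank K0 = dedekindPsi N := by
    rw [hJl, hK0, relfinrank_map_map, hJeq, relfinrank_jField_full_eq L N hN (hchar N)]
  have d6 : Jl.relfinrank K1 = (ℓ + 1) * dedekindPsi N := by
    rw [← relfinrank_mul_relfinrank i3 i2, d4, d3]
  have h := relfinrank_mul_relfinrank i4 i5
  rw [d5, d6, mul_comm] at h
  exact Nat.eq_of_mul_eq_mul_right (dedekindPsi_pos N hN) h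

end Degree

end Fermat.Agent.S37.H988

end

end
-- ===== PACK-END S37/H988/BetaDeg.lean

-- ===== PACK-BEGIN S36/H83/BetaDeg.lean
section
/-
S36 engine, MOD-3 (helper83): the degree of the `β`-structure at a level divisible by `ℓ`.

`L` a field of characteristic `0`, `E_M = L(j(q^d) : d ∣ M) ⊂ L((q))`, `V = (q ↦ q^ℓ)`.

* `h83_relfinrank_map_full` : `[E_{Nℓ} : V(E_N)] = ℓ` if `ℓ ∣ N`, `= ℓ + 1` otherwise;
* `h83_exists_beta_expansion` : for `ℓ ∣ N` every element of `E_{Nℓ}` is
  `∑_{i<ℓ} V(a_i) j^i` with `a_i ∈ E_N`  (`1, j, …, j^{ℓ-1}` is a basis of `E_{Nℓ}` over `V(E_N)`).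
-/



set_option autoImplicit false
set_option linter.unusedSectionVars false
set_option linter.style.haveILetI false

noncomputable section

open ModularCurve IntermediateField Polynomial

namespace Fermat.Agent.S36.H83

open Fermat.Agent.S28.H988 Fermat.Agent.S37.H988

section Degree

variable (L : Type*) [Field L] [CharZero L] {ℓ : ℕ}

/-- **Degree of the `β`-structure**, any level:
`[E_{Nℓ} : V(E_N)] = ℓ` if `ℓ ∣ N`, `ℓ + 1` if `ℓ ∤ N`. -/
theorem h83_relfinrank_map_full (hℓ : ℓ.Prime) {N : ℕ} (hN : N ≠ 0) :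
    ((modularFunctionFieldFullC L N).map (VAlg L ℓ)).relfinrank
      (modularFunctionFieldFullC L (N * ℓ)) = if ℓ ∣ N then ℓ else ℓ + 1 := by
  have hℓ0 : ℓ ≠ 0 := hℓ.ne_zero
  have hNℓ : N * ℓ ≠ 0 := Nat.mul_ne_zero hN hℓ0
  have h1ℓ : 1 * ℓ ≠ 0 := Nat.mul_ne_zero one_ne_zero hℓ0
  have hchar : ∀ (M : ℕ) (r : ℕ), r.Prime → r ∣ M → (r : L) ≠ 0 :=
    fun _ r hr _ => natCast_prime_ne_zero L r hr
  have hℓ1 : ¬ ℓ ∣ 1 := by simpa using hℓ.one_lt.ne'
  set J := modularFunctionFieldFullC L 1 with hJ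
  set Jl := J.map (VAlg L ℓ) with hJl
  set El := modularFunctionFieldFullC L (1 * ℓ) with hEl
  set K0 := (modularFunctionFieldFullC L N).map (VAlg L ℓ) with hK0
  set K1 := modularFunctionFieldFullC L (N * ℓ) with hK1
  have hJeq : J = Fermat.Agent.S28.jField L := full_one L
  -- inclusions
  have i1 : J ≤ El := full_mono L h1ℓ (one_dvd _)
  have i2 : El ≤ K1 := full_mono L hNℓ (Nat.mul_dvd_mul_right (one_dvd N) ℓ)
  have i3 : Jl ≤ El := map_full_le L (N := 1) one_ne_zero hℓ0
  have i4 : Jl ≤ K0 := IntermediateField.map_mono _ (full_mono L hN (one_dvd N))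
  have i5 : K0 ≤ K1 := map_full_le L hN hℓ0
  -- degrees
  have d1 : J.relfinrank El = ℓ + 1 := by
    rw [hJ, hEl, relfinrank_full_mul_prime L 1 ℓ one_ne_zero hℓ (hchar _), if_neg hℓ1]
  have d2 : J.relfinrank K1 = dedekindPsi (N * ℓ) := by
    rw [hJeq, relfinrank_jField_full_eq L (N * ℓ) hNℓ (hchar _)]
  have d3 : (ℓ + 1) * El.relfinrank K1 = dedekindPsi (N * ℓ) := by
    rw [← d1, ← d2]
    exact relfinrank_mul_relfinrank i1 i2
  have d4 : Jl.relfinrank El = ℓ + 1 := relfinrank_map_full L hℓ one_ne_zero hℓ1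
  have d5 : Jl.relfinrank K0 = dedekindPsi N := by
    rw [hJl, hK0, relfinrank_map_map, hJeq, relfinrank_jField_full_eq L N hN (hchar N)]
  have d6 : Jl.relfinrank K1 = dedekindPsi (N * ℓ) := by
    rw [← relfinrank_mul_relfinrank i3 i2, d4, d3]
  have h := relfinrank_mul_relfinrank i4 i5
  rw [d5, d6] at h
  have hpos := dedekindPsi_pos N hN
  by_cases hℓN : ℓ ∣ N
  · rw [if_pos hℓN]
    rw [Fermat.Agent.S28.H626.psi_mul_prime_of_dvd hN hℓ hℓN, mul_comm ℓ] at h
    exact Nat.eq_of_mul_eq_mul_left hpos h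
  · rw [if_neg hℓN]
    rw [Fermat.Agent.S28.H626.psi_mul_prime_of_not_dvd hN hℓ hℓN, mul_comm (ℓ + 1)] at h
    exact Nat.eq_of_mul_eq_mul_left hpos h

omit [CharZero L] in
/-- `1, j, …, j^{ℓ-1}` are linearly independent over `V(L((q)))`, `Fin`-indexed form. -/
theorem h83_linIndep_fin [NeZero ℓ] (a : Fin ℓ → LaurentSeries L)
    (h : ∑ i : Fin ℓ, qExpand L ℓ (a i) * jqModC L ^ (i : ℕ) = 0) : ∀ i, a i = 0 := by
  classical
  set c : ℕ → LaurentSeries L := fun i => if hi : i < ℓ then a ⟨i, hi⟩ else 0 with hc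
  have hsum : ∑ i ∈ Finset.range ℓ, qExpand L ℓ (c i) * jqModC L ^ i = 0 := by
    rw [← h, ← Fin.sum_univ_eq_sum_range (fun i => qExpand L ℓ (c i) * jqModC L ^ i) ℓ]
    refine Finset.sum_congr rfl fun i _ => ?_
    simp only [hc, dif_pos i.2, Fin.eta]
  have h0 := Fermat.Agent.S28.h88_linIndep_core L ℓ c hsum
  intro i
  have := h0 i (Finset.mem_range.mpr i.2)
  simpa only [hc, dif_pos i.2, Fin.eta] using this

/-- **Power basis of the `β`-structure**: for `ℓ ∣ N` every element of `E_{Nℓ}` is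
`∑_{i<ℓ} V(a_i) j^i` with `a_i ∈ E_N`. -/
theorem h83_exists_beta_expansion [NeZero ℓ] (hℓ : ℓ.Prime) {N : ℕ} (hN : N ≠ 0) (hℓN : ℓ ∣ N)
    {f : LaurentSeries L} (hf : f ∈ modularFunctionFieldFullC L (N * ℓ)) :
    ∃ a : Fin ℓ → LaurentSeries L, (∀ i, a i ∈ modularFunctionFieldFullC L N) ∧
      f = ∑ i : Fin ℓ, qExpand L ℓ (a i) * jqModC L ^ (i : ℕ) := by
  classical
  have hℓ0 : ℓ ≠ 0 := hℓ.ne_zero
  have hNℓ : N * ℓ ≠ 0 := Nat.mul_ne_zero hN hℓ0
  set K0 := (modularFunctionFieldFullC L N).map (VAlg L ℓ) with hK0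
  set K1 := modularFunctionFieldFullC L (N * ℓ) with hK1
  have i5 : K0 ≤ K1 := map_full_le L hN hℓ0
  have hdeg : K0.relfinrank K1 = ℓ := by
    rw [hK0, hK1, h83_relfinrank_map_full L hℓ hN, if_pos hℓN]
  rw [relfinrank_eq_finrank_of_le i5] at hdeg
  -- the family `j^i`
  have hj : jqModC L ∈ K1 := by
    have := jd_mem_full L hNℓ (one_dvd (N * ℓ))
    rwa [jd_one] at this
  set v : Fin ℓ → LaurentSeries L := fun i => jqModC L ^ (i : ℕ) with hv
  have hli : LinearIndependent K0 v := by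
    rw [Fintype.linearIndependent_iff]
    intro g hg i
    have hmem : ∀ i, ∃ b ∈ modularFunctionFieldFullC L N, VAlg L ℓ b = (g i : LaurentSeries L) :=
      fun i => (IntermediateField.mem_map _).mp (g i).2
    choose b hb hbg using hmem
    have hsum : ∑ i : Fin ℓ, qExpand L ℓ (b i) * jqModC L ^ (i : ℕ) = 0 := by
      rw [← hg]
      refine Finset.sum_congr rfl fun i _ => ?_
      rw [IntermediateField.smul_def, smul_eq_mul, ← hbg i, VAlg_apply, Vm_eq]
    have h0 := h83_linIndep_fin L b hsum i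
    apply Subtype.ext
    rw [← hbg i, h0, map_zero]
    rfl
  -- the span is everything
  set W : Submodule K0 (LaurentSeries L) := Submodule.span K0 (Set.range v) with hW
  set T : Submodule K0 (LaurentSeries L) :=
    (extendScalars i5).toSubalgebra.toSubmodule with hT
  have hWT : W ≤ T := by
    rw [hW, Submodule.span_le]
    rintro x ⟨i, rfl⟩
    show jqModC L ^ (i : ℕ) ∈ K1
    exact pow_mem hj _
  have hfinT : Module.finrank K0 T = ℓ := hdeg
  have hfinW : Module.finrank K0 W = ℓ := by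
    rw [hW, finrank_span_eq_card hli, Fintype.card_fin]
  haveI : Module.Finite K0 T := Module.finite_of_finrank_pos (by
    rw [hfinT]; exact Nat.pos_of_ne_zero hℓ0)
  have hEq : W = T := Submodule.eq_of_le_of_finrank_eq hWT (by rw [hfinW, hfinT])
  have hfT : f ∈ T := hf
  rw [← hEq, hW, Submodule.mem_span_range_iff_exists_fun] at hfT
  obtain ⟨g, hg⟩ := hfT
  have hmem : ∀ i, ∃ b ∈ modularFunctionFieldFullC L N, VAlg L ℓ b = (g i : LaurentSeries L) :=
    fun i => (IntermediateField.mem_map _).mp (g i).2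
  choose b hb hbg using hmem
  refine ⟨b, hb, ?_⟩
  rw [← hg]
  refine Finset.sum_congr rfl fun i _ => ?_
  rw [IntermediateField.smul_def, smul_eq_mul, ← hbg i, VAlg_apply, Vm_eq]

end Degree

end Fermat.Agent.S36.H83

end

end
-- ===== PACK-END S36/H83/BetaDeg.lean

-- ===== PACK-BEGIN A2/Mod/H31/DegField.lean
section



/-!
# A2 / MOD leaf L8 (helper31) — part 2: `[k(j(t^d) : d ∣ M q) : k(j · j_q)] = 2 (q+1) ψ(M)`

`k` any field in which the primes dividing `M q` are invertible, `q ∤ M` prime.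
Inputs: helper988's degree formula `[F_N : k(j)] = ψ(N)`, the modular polynomial `Φ_q`
(`S28.ModPolyData`, both vanishing properties), and the bivariate degree lemma of `Biv.lean`.
-/

set_option autoImplicit false

noncomputable section

namespace Fermat.Agent.A2.Mod.H31

open ModularCurve HahnSeries Polynomial IntermediateField
open scoped Polynomial.Bivariate

/-! ### Algebraic Laurent series are constant -/

section LaurentConst

variable {K : Type*} [Field K]

/-- A Laurent series over a field `K` which is algebraic over `K` is constant. -/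
theorem laurent_const_of_isAlgebraic (f : LaurentSeries K) (hf : IsAlgebraic K f) :
    ∃ c : K, f = algebraMap K (LaurentSeries K) c := by
  have key : ∀ g : LaurentSeries K, IsAlgebraic K g →
      ∃ y : PowerSeries K, algebraMap (PowerSeries K) (LaurentSeries K) y = g := by
    intro g hg
    obtain ⟨p, hpm, hp⟩ := hg.isIntegral
    have h2 : IsIntegral (PowerSeries K) g := by
      refine ⟨p.map (PowerSeries.C (R := K)), hpm.map _, ?_⟩
      rw [Polynomial.eval₂_map]
      exact hp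
    exact IsIntegrallyClosed.isIntegral_iff.mp h2
  obtain ⟨y, hy⟩ := key f hf
  set c₀ := PowerSeries.constantCoeff y with hc₀
  by_cases hg : y - PowerSeries.C c₀ = 0
  · refine ⟨c₀, ?_⟩
    rw [← hy, sub_eq_zero.mp hg]
    rfl
  · exfalso
    have hg' : algebraMap (PowerSeries K) (LaurentSeries K) (y - PowerSeries.C c₀) ≠ 0 := by
      intro h
      exact hg ((injective_iff_map_eq_zero _).1
        (IsFractionRing.injective (PowerSeries K) (LaurentSeries K)) _ h)
    have halg : IsAlgebraic K (algebraMap (PowerSeries K) (LaurentSeries K)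
        (y - PowerSeries.C c₀)) := by
      rw [map_sub, hy]
      refine hf.sub ?_
      have : algebraMap (PowerSeries K) (LaurentSeries K) (PowerSeries.C c₀) =
          algebraMap K (LaurentSeries K) c₀ := rfl
      rw [this]
      exact isAlgebraic_algebraMap c₀
    obtain ⟨z, hz⟩ := key _ halg.inv
    have h1 : algebraMap (PowerSeries K) (LaurentSeries K) ((y - PowerSeries.C c₀) * z) =
        algebraMap (PowerSeries K) (LaurentSeries K) 1 := by
      rw [map_mul, hz, map_one, mul_inv_cancel₀ hg']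
    have h2 := IsFractionRing.injective (PowerSeries K) (LaurentSeries K) h1
    have h3 := congrArg (PowerSeries.constantCoeff (R := K)) h2
    rw [map_mul, map_sub, PowerSeries.constantCoeff_C, ← hc₀, sub_self, zero_mul, map_one] at h3
    exact zero_ne_one h3

/-- A Laurent series with a pole is transcendental over the constants. -/
theorem transcendental_of_order_neg {f : LaurentSeries K} (hf : f.order < 0) :
    Transcendental K f := by
  intro halg
  obtain ⟨c, hc⟩ := laurent_const_of_isAlgebraic f halg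
  rw [hc, algebraMap_laurentSeries_eq_single, ← HahnSeries.C_apply, HahnSeries.order_C] at hf
  exact lt_irrefl _ hf

end LaurentConst

/-! ### The generators `j`, `j_q` and the coordinate `x = j j_q` over a field -/

section Main

variable (k : Type*) [Field k]

theorem order_qExpand_jqModC_neg (d : ℕ) [NeZero d] : (qExpand k d (jqModC k)).order < 0 := by
  have h1 : (qExpand k d (jqModC k)).coeff (-(d : ℤ)) = 1 := by
    rw [show (-(d : ℤ)) = (d : ℤ) * (-1) by ring, qExpand_coeff_mul, coeff_jqModC_neg_one]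
  have h2 : (qExpand k d (jqModC k)).coeff (-(d : ℤ)) ≠ 0 := by
    rw [h1]
    exact one_ne_zero
  have h3 := HahnSeries.order_le_of_coeff_ne_zero h2
  have h4 : (0 : ℤ) < d := by exact_mod_cast Nat.pos_of_ne_zero (NeZero.ne d)
  omega

theorem order_jqModC_neg : (jqModC k).order < 0 := by
  have := order_qExpand_jqModC_neg k 1
  rwa [qExpand_one_apply] at this

theorem transcendental_jqModC : Transcendental k (jqModC k) :=
  transcendental_of_order_neg (order_jqModC_neg k)

theorem order_x_neg (q : ℕ) [NeZero q] : (jqModC k * qExpand k q (jqModC k)).order < 0 := by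
  have h1 := order_jqModC_neg k
  have h2 := order_qExpand_jqModC_neg k q
  have hj : jqModC k ≠ 0 := by
    intro h
    rw [h] at h1
    simp at h1
  have hjq : qExpand k q (jqModC k) ≠ 0 := by
    intro h
    rw [h] at h2
    simp at h2
  rw [HahnSeries.order_mul hj hjq]
  omega

theorem transcendental_x (q : ℕ) [NeZero q] :
    Transcendental k (jqModC k * qExpand k q (jqModC k)) :=
  transcendental_of_order_neg (order_x_neg k q)

/-! ### The modular polynomial over `k` -/

/-- The modular polynomial `Φ_q` with coefficients in `k`. -/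
def modPolyK (q : ℕ) [NeZero q] (D : S28.ModPolyData q) : k[X][Y] :=
  D.Φ.map (mapRingHom (Int.castRingHom k))

theorem modPolyK_monic (q : ℕ) [NeZero q] (D : S28.ModPolyData q) : (modPolyK k q D).Monic :=
  D.monic.map _

theorem natDegree_modPolyK (q : ℕ) [NeZero q] (D : S28.ModPolyData q) :
    (modPolyK k q D).natDegree = q + 1 := by
  rw [modPolyK, D.monic.natDegree_map, D.natDegree_eq]

theorem aeval_comp_mapRingHom (y : LaurentSeries k) :
    (aeval (R := k) y).toRingHom.comp (mapRingHom (Int.castRingHom k)) = S28.evalAt y := by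
  refine Polynomial.ringHom_ext' (Subsingleton.elim _ _) ?_
  simp [S28.evalAt]

theorem coeffMap_comp_evalAt (y : LaurentSeries ℤ) :
    (coeffMap (Int.castRingHom k)).comp (S28.evalAt y)
      = S28.evalAt (coeffMap (Int.castRingHom k) y) := by
  refine Polynomial.ringHom_ext' (Subsingleton.elim _ _) ?_
  simp [S28.evalAt]

theorem aevalAeval_modPolyK (q : ℕ) [NeZero q] (D : S28.ModPolyData q) :
    aevalAeval (jqModC k) (qExpand k q (jqModC k)) (modPolyK k q D) = 0 := by
  rw [aevalAeval_eq_eval₂, modPolyK, eval₂_map, aeval_comp_mapRingHom]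
  have h := congrArg (coeffMap (Int.castRingHom k)) D.eval_jp
  rw [Polynomial.hom_eval₂, map_zero, coeffMap_comp_evalAt, coeffMap_qExpand,
    coeffMap_jqModC] at h
  exact h

theorem aevalAeval_modPolyK' (q : ℕ) [NeZero q] (D : S28.ModPolyData q) :
    aevalAeval (qExpand k q (jqModC k)) (jqModC k) (modPolyK k q D) = 0 := by
  rw [aevalAeval_eq_eval₂, modPolyK, eval₂_map, aeval_comp_mapRingHom]
  have h := congrArg (coeffMap (Int.castRingHom k)) D.eval_j
  rw [Polynomial.hom_eval₂, map_zero, coeffMap_comp_evalAt, coeffMap_qExpand,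
    coeffMap_jqModC] at h
  exact h

/-! ### Degrees -/

theorem divisorExpansionsC_prime {q : ℕ} [NeZero q] (hq : q.Prime) :
    divisorExpansionsC k q = {jqModC k, qExpand k q (jqModC k)} := by
  ext x
  constructor
  · rintro ⟨d, hd, hdq, rfl⟩
    rcases (Nat.dvd_prime hq).mp hdq with h | h
    · subst h
      left
      exact qExpand_one_apply _
    · subst h
      right
      rfl
  · rintro (rfl | rfl)
    · exact ⟨1, inferInstance, one_dvd _, (qExpand_one_apply _).symm⟩
    · exact ⟨q, inferInstance, dvd_rfl, rfl⟩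

theorem fullC_prime_eq {q : ℕ} [NeZero q] (hq : q.Prime) :
    modularFunctionFieldFullC k q = adjoin k {jqModC k, qExpand k q (jqModC k)} := by
  rw [modularFunctionFieldFullC, divisorExpansionsC_prime k hq]

theorem fullC_mono {N N' : ℕ} (h : N ∣ N') :
    modularFunctionFieldFullC k N ≤ modularFunctionFieldFullC k N' := by
  apply IntermediateField.adjoin.mono
  rintro x ⟨d, hd, hdN, rfl⟩
  exact ⟨d, hd, hdN.trans h, rfl⟩

theorem dedekindPsi_prime {q : ℕ} (hq : q.Prime) : dedekindPsi q = q + 1 := by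
  have h := S28.H626.psi_mul_prime_of_not_dvd (N := 1) one_ne_zero hq
    (fun h => hq.one_lt.ne' (Nat.dvd_one.mp h))
  rwa [one_mul, dedekindPsi_one, mul_one] at h

theorem relfinrank_j_fullC (N : ℕ) (hN : N ≠ 0)
    (hchar : ∀ p : ℕ, p.Prime → p ∣ N → (p : k) ≠ 0) :
    (k⟮jqModC k⟯).relfinrank (modularFunctionFieldFullC k N) = dedekindPsi N :=
  S28.H988.relfinrank_jField_full_eq k N hN hchar

theorem jField_le_fullC (N : ℕ) : k⟮jqModC k⟯ ≤ modularFunctionFieldFullC k N := by
  rw [adjoin_le_iff]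
  rintro x hx
  rw [Set.mem_singleton_iff] at hx
  subst hx
  exact IntermediateField.subset_adjoin k _ ⟨1, inferInstance, one_dvd _, (qExpand_one_apply _).symm⟩

/-- `[k(j, j_q) : k(j)] = q + 1`, in the form needed by `finrank_adjoin_mul`. -/
theorem finrank_adjoin_jq {q : ℕ} [NeZero q] (hq : q.Prime) (hchar : (q : k) ≠ 0) :
    Module.finrank k⟮jqModC k⟯ (k⟮jqModC k⟯)⟮qExpand k q (jqModC k)⟯ = q + 1 := by
  have h1 := relfinrank_j_fullC k q hq.ne_zero (fun p hp hpq => by
    rw [(Nat.prime_dvd_prime_iff_eq hp hq).mp hpq]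
    exact hchar)
  rw [dedekindPsi_prime hq, relfinrank_eq_finrank_of_le (jField_le_fullC k q)] at h1
  have hext : extendScalars (jField_le_fullC k q)
      = (k⟮jqModC k⟯)⟮qExpand k q (jqModC k)⟯ := by
    apply restrictScalars_injective k
    rw [extendScalars_restrictScalars, adjoin_adjoin_left, fullC_prime_eq k hq,
      Set.singleton_union]
  rw [← h1]
  exact (congrArg (fun F : IntermediateField (k⟮jqModC k⟯) (LaurentSeries k) =>
    Module.finrank k⟮jqModC k⟯ F) hext).symm

/-- `[k(j, j_q) : k(j j_q)] = 2 (q + 1)`. -/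
theorem relfinrank_x_fullC_prime {q : ℕ} [NeZero q] (hq : q.Prime) (hchar : (q : k) ≠ 0) :
    (k⟮jqModC k * qExpand k q (jqModC k)⟯).relfinrank (modularFunctionFieldFullC k q)
      = 2 * (q + 1) := by
  obtain ⟨D⟩ := S28.H807.nonempty_modPolyData q hq
  have hmain := finrank_adjoin_mul (transcendental_jqModC k) (transcendental_x k q)
    (modPolyK_monic k q D) (aevalAeval_modPolyK k q D) (aevalAeval_modPolyK' k q D)
    (by rw [natDegree_modPolyK]; exact finrank_adjoin_jq k hq hchar)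
  rw [natDegree_modPolyK] at hmain
  have hj0 : jqModC k ≠ 0 := by
    intro h
    have := order_jqModC_neg k
    rw [h] at this
    simp at this
  have hset : adjoin k ({jqModC k * qExpand k q (jqModC k)} ∪ {jqModC k})
      = modularFunctionFieldFullC k q := by
    rw [fullC_prime_eq k hq]
    apply le_antisymm
    · rw [adjoin_le_iff]
      rintro x (hx | hx)
      · rw [Set.mem_singleton_iff] at hx
        subst hx
        exact mul_mem (subset_adjoin k _ (Set.mem_insert _ _))
          (subset_adjoin k _ (Set.mem_insert_of_mem _ rfl))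
      · rw [Set.mem_singleton_iff] at hx
        subst hx
        exact subset_adjoin k _ (Set.mem_insert _ _)
    · rw [adjoin_le_iff]
      rintro x (hx | hx)
      · subst hx
        exact subset_adjoin k _ (Or.inr rfl)
      · rw [Set.mem_singleton_iff] at hx
        subst hx
        have h1 : (jqModC k)⁻¹ * (jqModC k * qExpand k q (jqModC k))
            = qExpand k q (jqModC k) := by
          rw [← mul_assoc, inv_mul_cancel₀ hj0, one_mul]
        have h2 : (jqModC k)⁻¹ * (jqModC k * qExpand k q (jqModC k)) ∈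
            adjoin k ({jqModC k * qExpand k q (jqModC k)} ∪ {jqModC k}) :=
          mul_mem (inv_mem (subset_adjoin k _ (Or.inr rfl))) (subset_adjoin k _ (Or.inl rfl))
        rwa [h1] at h2
  have hle : k⟮jqModC k * qExpand k q (jqModC k)⟯ ≤ modularFunctionFieldFullC k q := by
    rw [← hset]
    exact IntermediateField.adjoin.mono k _ _ Set.subset_union_left
  rw [relfinrank_eq_finrank_of_le hle]
  have hext : extendScalars hle
      = (k⟮jqModC k * qExpand k q (jqModC k)⟯)⟮jqModC k⟯ := by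
    apply restrictScalars_injective k
    rw [extendScalars_restrictScalars, adjoin_adjoin_left, hset]
  rw [← hmain]
  exact congrArg (fun F : IntermediateField (k⟮jqModC k * qExpand k q (jqModC k)⟯)
    (LaurentSeries k) => Module.finrank k⟮jqModC k * qExpand k q (jqModC k)⟯ F) hext

/-- **Degree over `k(x)`, `x = j j_q`, at level `M q`.** -/
theorem relfinrank_x_fullC (M : ℕ) {q : ℕ} [NeZero q] (hq : q.Prime) (hqM : ¬ q ∣ M)
    (hchar : ∀ p : ℕ, p.Prime → p ∣ M * q → (p : k) ≠ 0) :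
    (k⟮jqModC k * qExpand k q (jqModC k)⟯).relfinrank (modularFunctionFieldFullC k (M * q))
      = 2 * ((q + 1) * dedekindPsi M) := by
  have hM : M ≠ 0 := by
    rintro rfl
    exact hqM (dvd_zero q)
  have hqk : (q : k) ≠ 0 := hchar q hq (dvd_mul_left q M)
  have hqdvd : q ∣ M * q := dvd_mul_left q M
  have h1 := relfinrank_j_fullC k q hq.ne_zero (fun p hp hpq =>
    hchar p hp (hpq.trans hqdvd))
  have h2 := relfinrank_j_fullC k (M * q) (Nat.mul_ne_zero hM hq.ne_zero) hchar
  rw [dedekindPsi_prime hq] at h1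
  rw [S28.H626.psi_mul_prime_of_not_dvd hM hq hqM] at h2
  have h3 := relfinrank_mul_relfinrank (jField_le_fullC k q) (fullC_mono k hqdvd)
  rw [h1, h2] at h3
  have h4 : (modularFunctionFieldFullC k q).relfinrank (modularFunctionFieldFullC k (M * q))
      = dedekindPsi M := Nat.eq_of_mul_eq_mul_left (Nat.succ_pos q) h3
  have h5 := relfinrank_x_fullC_prime k hq hqk
  have hle : k⟮jqModC k * qExpand k q (jqModC k)⟯ ≤ modularFunctionFieldFullC k q := by
    rw [adjoin_simple_le_iff, fullC_prime_eq k hq]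
    exact mul_mem (subset_adjoin k _ (Set.mem_insert _ _))
      (subset_adjoin k _ (Set.mem_insert_of_mem _ rfl))
  have h6 := relfinrank_mul_relfinrank hle (fullC_mono k hqdvd)
  rw [h5, h4] at h6
  rw [← h6]
  ring

end Main

end Fermat.Agent.A2.Mod.H31

end

end
-- ===== PACK-END A2/Mod/H31/DegField.lean

-- ===== PACK-BEGIN A2/Mod/H31/Deg.lean
section



/-!
# A2 / MOD leaf L8 (helper31): `DegStatement`

`[F_{Mq} : E(x)] = 2 (q+1) ψ(M)` for `x = j · j_q`, `x` transcendental over `E`, and `E` is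
algebraically closed in `F_{Mq}`.  Statement VERBATIM from `Fermat/Agent/A2/Mod/Spec.lean`.
-/

set_option autoImplicit false
set_option synthInstance.maxHeartbeats 400000
set_option maxHeartbeats 1600000

noncomputable section

namespace Fermat.Agent.A2.Mod.H31

open ModularCurve HahnSeries Polynomial IntermediateField

variable (E : IntermediateField ℚ _root_.Fermat.Agent.A2.Mod.Qb)

theorem FE_eq_fullC (N : ℕ) : _root_.Fermat.Agent.A2.Mod.FE E N = modularFunctionFieldFullC E N :=
  S28.H988.laurentBaseChange_full_eq_fullC E N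

theorem coe_jE (N d : ℕ) [NeZero d] (hd : d ∣ N) :
    ((jE E N d hd : _root_.Fermat.Agent.A2.Mod.FE E N) : LaurentSeries E) = qExpand E d (jqModC E) := by
  show coeffEmb E (qExpand ℚ d jq) = _
  rw [coeffEmb, ← jqModC_rat, coeffMap_qExpand, coeffMap_jqModC]

theorem coe_xE (M q : ℕ) [NeZero q] :
    ((xE E M q : _root_.Fermat.Agent.A2.Mod.FE E (M * q)) : LaurentSeries E) = jqModC E * qExpand E q (jqModC E) := by
  rw [xE, MulMemClass.coe_mul, coe_jE, coe_jE, qExpand_one_apply]

/-- **Leaf L8.** -/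
theorem deg (M q : ℕ) [NeZero q] : DegStatement E M q := by
  intro hq hqM
  have hchar : ∀ p : ℕ, p.Prime → p ∣ M * q → ((p : ℕ) : E) ≠ 0 :=
    fun p hp _ => Nat.cast_ne_zero.mpr hp.ne_zero
  refine ⟨?_, ?_, ?_⟩
  · intro h
    have h2 : IsAlgebraic E ((xE E M q : _root_.Fermat.Agent.A2.Mod.FE E (M * q)) : LaurentSeries E) :=
      (isAlgebraic_algHom_iff (_root_.Fermat.Agent.A2.Mod.FE E (M * q)).val Subtype.val_injective).mpr h
    rw [coe_xE] at h2
    exact transcendental_x E q h2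
  · have h1 : adjoin E {xE E M q}
        = (adjoin E {((xE E M q : _root_.Fermat.Agent.A2.Mod.FE E (M * q)) : LaurentSeries E)}).comap
            (_root_.Fermat.Agent.A2.Mod.FE E (M * q)).val := by
      have h0 : (adjoin E {xE E M q}).map (_root_.Fermat.Agent.A2.Mod.FE E (M * q)).val
          = adjoin E {((xE E M q : _root_.Fermat.Agent.A2.Mod.FE E (M * q)) : LaurentSeries E)} := by
        rw [adjoin_map, Set.image_singleton]
        rfl
      rw [← h0, comap_map]
    rw [h1, finrank_comap, fieldRange_val, coe_xE, FE_eq_fullC]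
    exact relfinrank_x_fullC E M hq hqM hchar
  · intro f hf
    have h2 : IsAlgebraic E ((f : _root_.Fermat.Agent.A2.Mod.FE E (M * q)) : LaurentSeries E) :=
      (isAlgebraic_algHom_iff (_root_.Fermat.Agent.A2.Mod.FE E (M * q)).val Subtype.val_injective).mpr hf
    obtain ⟨c, hc⟩ := laurent_const_of_isAlgebraic _ h2
    exact ⟨c, Subtype.ext hc.symm⟩

end Fermat.Agent.A2.Mod.H31

end

end
-- ===== PACK-END A2/Mod/H31/Deg.lean

-- ===== PACK-BEGIN S37/Rim/H383/NormalAbs.lean
section






/-!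
# S37 board v3, leaf D2 (helper383): normality of the special fibre of a good model

`normalAbs` : for `G : Alg.GoodModel Lc Ec Fc R V w x S` (frozen interface of row S18), an element
`f ∈ V` which is a root modulo `w` of a monic polynomial over `R[x]` is congruent modulo `w` to an
element of the chart `B = {b ∈ Fc integral over R[x]}`:

    ∀ f ∈ V, ∀ P : Polynomial Ω, P.Monic → (∀ i, P.coeff i ∈ Alg.polyRing R x) →
      P.eval f * w⁻¹ ∈ V → ∃ b ∈ Alg.chart Fc R x, (f - b) * w⁻¹ ∈ V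

This is `NormalAbsStatement` of helper37's `Core/Skeleton4.lean` (board v3), universe-polymorphic.
Proof: `exists_chart_lift` (`NormalLift.lean`) applied inside the field `Fc`, with the hypotheses
supplied by helper438's front (`S18/H438/Front`), helper754's `hNC_typed` and the field
`separable` of `GoodModel`.  `normalAbs_inv` is the same statement on the chart at infinity.
-/

set_option autoImplicit false
set_option linter.style.haveILetI false
set_option linter.unusedSectionVars false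

noncomputable section

namespace Fermat.Agent.S37.Rim.H383

open Polynomial Fermat.Agent.S18 Fermat.Agent.S18.Alg Fermat.Agent.S18.H438
open Fermat.Agent.S18.H438.GoodModelFront

variable {Ω : Type*} [Field Ω] {Lc Ec Fc : Subfield Ω} {R V : Subring Ω} {w x : Ω}
  {S : Finset Ω}

/-! ### Polynomials over `Ω` with coefficients in `R[z]` come from `Fc` -/

/-- A polynomial over `Ω` with coefficients in `polyRing R z` is the image of a polynomial over
`Fc` with coefficients in `R[z]`. -/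
theorem exists_poly_Fc (hR : ∀ r ∈ R, r ∈ Fc) (z : Fc) (P : Polynomial Ω)
    (hP : ∀ i, P.coeff i ∈ polyRing R (z : Ω)) :
    ∃ Q : Polynomial Fc, Q.map Fc.subtype = P ∧
      ∀ i, Q.coeff i ∈ Algebra.adjoin (Rf Fc R) ({z} : Set Fc) := by
  have hl : P ∈ Polynomial.lifts Fc.subtype := by
    rw [Polynomial.lifts_iff_coeff_lifts]
    intro i
    obtain ⟨a, -, ha⟩ := exists_mem_baseRing_of_mem_polyRing Fc R z hR (hP i)
    exact ⟨a, ha⟩
  obtain ⟨Q, hQ⟩ := (Polynomial.mem_lifts P).1 hl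
  refine ⟨Q, hQ, fun i => ?_⟩
  have h1 : ((Q.coeff i : Fc) : Ω) = P.coeff i := by
    rw [← hQ, coeff_map]
    rfl
  have h2 : Q.coeff i ∈ baseRing (Rf Fc R) z := by
    rw [mem_baseRing_iff Fc R z hR, h1]
    exact hP i
  exact h2

theorem coe_eval_Fc (Q : Polynomial Fc) (f : Fc) :
    ((Q.eval f : Fc) : Ω) = (Q.map Fc.subtype).eval (f : Ω) := by
  rw [eval_map]
  exact (Polynomial.hom_eval₂ Q (RingHom.id Fc) Fc.subtype f)

/-! ### Generic lemmas (abstract field `F`, no good model) -/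

section Generic

attribute [local instance] FractionRing.liftAlgebra

/-- elements of a finite extension of the fraction field of `A` are algebraic over `A` -/
theorem isAlgebraic_of_finite_fractionRing {A F : Type*} [CommRing A] [IsDomain A] [Field F]
    [Algebra A F] [FaithfulSMul A F] [FiniteDimensional (FractionRing A) F] (f : F) :
    IsAlgebraic A f := by
  have h : IsAlgebraic (FractionRing A) f := IsAlgebraic.of_finite _ f
  exact (IsFractionRing.isAlgebraic_iff A (FractionRing A) F).2 h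

variable {F : Type*} [Field F] {R : Subring F} {z : F}

/-- the elementwise form of `hNC` from the radical form -/
theorem elementwise_of_isRadical (hz : Transcendental R z) (π : Polynomial R) (hπ0 : π ≠ 0)
    (h : (Ideal.span {polyToChart R z π}).IsRadical) :
    ∀ f ∈ chartB R z, ∀ n : ℕ, f ^ n * (aeval z π)⁻¹ ∈ chartB R z →
        f * (aeval z π)⁻¹ ∈ chartB R z := by
  have hπz : aeval z π ≠ 0 := by
    intro h0
    apply hπ0
    apply transcendental_iff_injective.mp hz
    rw [h0, map_zero]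
  intro f hf n hn
  have h1 : polyToChart R z π ∣ (⟨f, hf⟩ : chartB R z) ^ n := by
    rw [polyToChart_dvd_iff π hπz]
    simpa using hn
  have h2 : (⟨f, hf⟩ : chartB R z) ∈ (Ideal.span {polyToChart R z π}).radical :=
    ⟨n, Ideal.mem_span_singleton.2 h1⟩
  have h3 := Ideal.mem_span_singleton.1 (h h2)
  rw [polyToChart_dvd_iff π hπz] at h3
  exact h3

/-- an element algebraic over a field `K` is a root of a nonzero polynomial over any valuation
subring of `K` -/
theorem exists_poly_valuationSubring {K L : Type*} [Field K] [Field L] [Algebra K L]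
    (A : ValuationSubring K) {a : L} (ha : IsAlgebraic K a) :
    ∃ p : Polynomial A, p ≠ 0 ∧ eval₂ ((algebraMap K L).comp A.subtype) a p = 0 := by
  letI : Algebra A L := ((algebraMap K L).comp A.subtype).toAlgebra
  haveI : IsScalarTower A K L := IsScalarTower.of_algebraMap_eq (fun _ => rfl)
  obtain ⟨p, hp0, hp⟩ := (IsFractionRing.isAlgebraic_iff A K L).2 ha
  exact ⟨p, hp0, hp⟩

variable {Ω : Type*} [Field Ω]

/-- **`hNC` from "unramified outside `S`"** (helper754's `hNC_typed` on the chart `B ⊆ F`,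
`F` embedded in `Ω`), elementwise form. -/
theorem hNC_of_unramified [CharZero F] [IsDiscreteValuationRing R]
    [IsIntegrallyClosed (chartB R z)]
    [Module.Finite (Algebra.adjoin R ({z} : Set F)) (chartB R z)]
    (hz : Transcendental R z) (ι : F →+* Ω)
    {w : F} (hwR : w ∈ R) (hirr : Irreducible (⟨w, hwR⟩ : R))
    (hwB : Prime (wB (z := z) hwR))
    (Lc : Subfield Ω) (hLcl : IsAlgClosed Lc)
    (hRL : ∀ r : R, ι (r : F) ∈ Lc)
    (hLalg : ∀ a ∈ Lc, ∃ p : Polynomial R, p ≠ 0 ∧ eval₂ (ι.comp R.subtype) a p = 0)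
    (S : Finset R) (SΩ : Finset Ω) (hS : ∀ c ∈ SΩ, ∃ s ∈ S, ι (s : F) = c)
    (hunr : ∀ O : ValuationSubring Ω, (∀ a ∈ Lc, a ∈ O) → ∀ c ∈ Lc, c ∉ SΩ →
        ι z - c ∈ O → (ι z - c)⁻¹ ∉ O → ∀ t ∈ O, t⁻¹ ∉ O → t * (ι z - c)⁻¹ ∈ O) :
    ∀ π : Polynomial R, Prime π → ¬ Associated π (C ⟨w, hwR⟩) →
      (∀ c ∈ S, ¬ Associated π (X - C c)) →
      ∀ f ∈ chartB R z, ∀ n : ℕ, f ^ n * (aeval z π)⁻¹ ∈ chartB R z →
        f * (aeval z π)⁻¹ ∈ chartB R z := by
  letI : Algebra (Polynomial R) (chartB R z) := polyAlgebra R z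
  haveI : Module.Finite (Polynomial R) (chartB R z) := finite_poly
  haveI : Module.IsTorsionFree (Polynomial R) (chartB R z) := torsionFree_poly hz
  haveI : CharZero R := RingHom.charZero R.subtype
  letI : Algebra (chartB R z) Ω := (ι.comp (algebraMap (chartB R z) F)).toAlgebra
  haveI : FaithfulSMul (chartB R z) Ω :=
    (faithfulSMul_iff_algebraMap_injective (chartB R z) Ω).2
      (ι.injective.comp Subtype.val_injective)
  have hC : ∀ r : R, algebraMap (chartB R z) Ω (algebraMap (Polynomial R) (chartB R z) (C r)) =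
      ι (r : F) := by
    intro r
    show ι ((polyToChart R z (C r) : chartB R z) : F) = _
    rw [coe_polyToChart, aeval_C]
    rfl
  have hX : algebraMap (chartB R z) Ω (algebraMap (Polynomial R) (chartB R z) X) = ι z := by
    show ι ((polyToChart R z X : chartB R z) : F) = _
    rw [coe_polyToChart, aeval_X]
  have hcomp : (algebraMap (chartB R z) Ω).comp
      ((algebraMap (Polynomial R) (chartB R z)).comp C) = ι.comp R.subtype := by
    ext r
    exact hC r
  intro π hπ hπw hπS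
  have hrad := Fermat.Agent.S18.H754.hNC_typed R (chartB R z) ⟨w, hwR⟩ hirr hwB Lc hLcl
    (fun r => by rw [hC]; exact hRL r)
    (fun a ha => by rw [hcomp]; exact hLalg a ha) S SΩ
    (fun c hc => by
      obtain ⟨s, hs, hsc⟩ := hS c hc
      exact ⟨s, hs, by rw [hC]; exact hsc⟩)
    (by rw [hX]; exact hunr) π hπ hπw hπS
  exact elementwise_of_isRadical hz π hπ.ne_zero hrad

end Generic

/-! ### The hypotheses of `exists_chart_lift` from a good model -/

section Hyp

variable (G : GoodModel Lc Ec Fc R V w x S)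

/-- the branch values as elements of `R ⊆ Fc` -/
def Sf : Finset (Rf Fc R) :=
  S.attach.map
    ⟨fun s => (⟨⟨s.1, R_le_Fc G (G.S_mem s.1 s.2)⟩, G.S_mem s.1 s.2⟩ : Rf Fc R),
      fun _ _ h => Subtype.ext (congrArg (fun c : Rf Fc R => ((c : Fc) : Ω)) h)⟩

theorem coe_mem_of_mem_Sf {c : Rf Fc R} (hc : c ∈ Sf G) : ((c : Fc) : Ω) ∈ S := by
  unfold Sf at hc
  obtain ⟨s, -, rfl⟩ := Finset.mem_map.1 hc
  exact s.2

theorem exists_mem_Sf {c : Ω} (hc : c ∈ S) : ∃ s ∈ Sf G, (((s : Rf Fc R) : Fc) : Ω) = c := by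
  refine ⟨⟨⟨c, R_le_Fc G (G.S_mem c hc)⟩, G.S_mem c hc⟩, ?_, rfl⟩
  unfold Sf
  exact Finset.mem_map.2 ⟨⟨c, hc⟩, Finset.mem_attach _ _, rfl⟩

include G in
theorem isUnit_sub_Sf : ∀ c ∈ Sf G, ∀ c' ∈ Sf G, c ≠ c' → IsUnit (c - c') := by
  intro c hc c' hc' hne
  rw [isUnit_subring_iff]
  have hne' : ((c : Fc) : Ω) ≠ ((c' : Fc) : Ω) := fun h => hne (Subtype.ext (Subtype.ext h))
  refine ⟨fun h => hne (sub_eq_zero.1 (Subtype.ext h)), ?_⟩
  have := G.S_distinct _ (coe_mem_of_mem_Sf G hc) _ (coe_mem_of_mem_Sf G hc') hne'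
  exact this

section Alg

attribute [local instance] FractionRing.liftAlgebra

include G in
/-- every element of `Fc` is algebraic over `R[x]` -/
theorem isAlgebraic_adjoin_of_goodModel (f : Fc) :
    IsAlgebraic (Algebra.adjoin (Rf Fc R) ({xf G} : Set Fc)) f := by
  haveI := finiteDimensional_fractionRing G
  exact isAlgebraic_of_finite_fractionRing (A := baseRing (Rf Fc R) (xf G)) f

end Alg

include G in
/-- elementwise separability of the special fibre, inside `Fc` -/
theorem sepB_of_goodModel : ∀ f ∈ chartB (Rf Fc R) (xf G), ∃ P : Polynomial Fc,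
    (∀ i, P.coeff i ∈ Algebra.adjoin (Rf Fc R) ({xf G} : Set Fc)) ∧
    P.eval f * (wf G)⁻¹ ∈ Vf G ∧ (derivative P).eval f ≠ 0 ∧
    ((derivative P).eval f)⁻¹ ∈ Vf G := by
  intro f hf
  have hfV : f ∈ Vf G := chart_le_V (Vf G) (Rf_le_Vf G) (xf_mem_Vf G) hf
  obtain ⟨P, hPc, hP1, hP2, hP3⟩ := G.separable (f : Ω) hfV
  obtain ⟨Q, hQ, hQc⟩ := exists_poly_Fc (fun r hr => R_le_Fc G hr) (xf G) P hPc
  have e1 : ((Q.eval f : Fc) : Ω) = P.eval (f : Ω) := by rw [_root_.Fermat.Agent.S37.Rim.H383.coe_eval_Fc, hQ]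
  have e2 : (((derivative Q).eval f : Fc) : Ω) = (derivative P).eval (f : Ω) := by
    rw [_root_.Fermat.Agent.S37.Rim.H383.coe_eval_Fc, ← derivative_map, hQ]
  refine ⟨Q, hQc, ?_, ?_, ?_⟩
  · show ((Q.eval f * (wf G)⁻¹ : Fc) : Ω) ∈ V
    rw [Subfield.coe_mul, Subfield.coe_inv, e1]
    exact hP1
  · intro h0
    apply hP2
    rw [← e2, h0]
    rfl
  · show ((((derivative Q).eval f)⁻¹ : Fc) : Ω) ∈ V
    rw [Subfield.coe_inv, e2]
    exact hP3

/-- the comparison `R ⊆ Ec` to `R ⊆ Fc` -/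
def reToRf : Re G →+* Rf Fc R where
  toFun e := ⟨⟨((e : Ec) : Ω), G.E_le_F (e : Ec).2⟩, e.2⟩
  map_one' := rfl
  map_mul' _ _ := rfl
  map_zero' := rfl
  map_add' _ _ := rfl

theorem reToRf_injective : Function.Injective (reToRf G) := by
  intro a b h
  apply Subtype.ext
  apply Subtype.ext
  exact congrArg (fun c : Rf Fc R => ((c : Fc) : Ω)) h

include G in
/-- the constants are algebraic over `R` -/
theorem hLalg_of_goodModel : ∀ a ∈ Lc, ∃ p : Polynomial (Rf Fc R), p ≠ 0 ∧
    eval₂ (Fc.subtype.comp (Rf Fc R).subtype) a p = 0 := by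
  intro a ha
  obtain ⟨p, hp0, hp⟩ := exists_poly_valuationSubring (Re G) (G.L_algebraic a ha)
  refine ⟨p.map (reToRf G), (Polynomial.map_ne_zero_iff (reToRf_injective G)).2 hp0, ?_⟩
  rw [eval₂_map]
  exact hp

section Inst

attribute [local instance] FractionRing.liftAlgebra

include G in
theorem isIntegrallyClosed_chartB : IsIntegrallyClosed (chartB (Rf Fc R) (xf G)) := by
  haveI := finiteDimensional_fractionRing G
  haveI := charZero_Fc G
  exact chartRing_isIntegrallyClosed (Rf Fc R) (xf G)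

include G in
theorem finite_chartB :
    Module.Finite (Algebra.adjoin (Rf Fc R) ({xf G} : Set Fc)) (chartB (Rf Fc R) (xf G)) := by
  haveI := finiteDimensional_fractionRing G
  haveI := charZero_Fc G
  haveI := isDiscreteValuationRing_Rf G
  exact chartRing_finite (Rf Fc R) (xf G) (transcendental_xf G)

end Inst

include G in
/-- `w` is a prime element of the chart -/
theorem prime_wB_of_goodModel : Prime (wB (z := xf G) (wf_mem_Rf G)) :=
  prime_wB (Vf G) (wf_mem_Rf G) (wf_ne_zero G) (Rf_le_Vf G) (xf_mem_Vf G)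
    (wf_inv_not_mem_Vf G) (Vf_gen G) (qep_fin' G)

include G in
/-- `hNC` for the chart of a good model, elementwise form -/
theorem hNC_of_goodModel :
    ∀ π : Polynomial (Rf Fc R), Prime π → ¬ Associated π (C ⟨wf G, wf_mem_Rf G⟩) →
      (∀ c ∈ Sf G, ¬ Associated π (X - C c)) →
      ∀ f ∈ chartB (Rf Fc R) (xf G), ∀ n : ℕ,
        f ^ n * (aeval (xf G) π)⁻¹ ∈ chartB (Rf Fc R) (xf G) →
        f * (aeval (xf G) π)⁻¹ ∈ chartB (Rf Fc R) (xf G) := by
  haveI := charZero_Fc G
  haveI := isDiscreteValuationRing_Rf G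
  haveI := isIntegrallyClosed_chartB G
  haveI := finite_chartB G
  exact hNC_of_unramified (transcendental_xf G) Fc.subtype (wf_mem_Rf G) (irreducible_wf G)
    (prime_wB_of_goodModel G) Lc G.L_algClosed (fun r => G.E_le_L (G.R_le r.2))
    (hLalg_of_goodModel G) (Sf G) S (fun c hc => exists_mem_Sf G hc) G.unramified

end Hyp

/-! ### D2 -/

/-- **Leaf D2 (board v3): normality of the special fibre of a good model.**  An element `f ∈ V`
which is a root modulo `w` of a monic polynomial over `R[x]` is congruent modulo `w` to an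
element of the chart. -/
theorem normalAbs (G : GoodModel Lc Ec Fc R V w x S) :
    ∀ f ∈ V, ∀ P : Polynomial Ω, P.Monic → (∀ i, P.coeff i ∈ polyRing R x) →
      P.eval f * w⁻¹ ∈ V → ∃ b ∈ chart Fc R x, (f - b) * w⁻¹ ∈ V := by
  intro f hf P hPm hPc hPv
  haveI := charZero_Fc G
  haveI := isDiscreteValuationRing_Rf G
  haveI := isIntegrallyClosed_chartB G
  haveI := finite_chartB G
  have hR : ∀ r ∈ R, r ∈ Fc := fun r hr => R_le_Fc G hr
  obtain ⟨Q, hQ, hQc⟩ := exists_poly_Fc hR (xf G) P hPc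
  have hQm : Q.Monic := by
    rw [← hQ] at hPm
    exact Polynomial.monic_of_injective Fc.subtype_injective hPm
  have hv : (⟨f, G.V_le hf⟩ : Fc) ∈ Vf G := hf
  have hQv : Q.eval (⟨f, G.V_le hf⟩ : Fc) * (wf G)⁻¹ ∈ Vf G := by
    show ((Q.eval (⟨f, G.V_le hf⟩ : Fc) * (wf G)⁻¹ : Fc) : Ω) ∈ V
    rw [Subfield.coe_mul, Subfield.coe_inv, _root_.Fermat.Agent.S37.Rim.H383.coe_eval_Fc, hQ]
    exact hPv
  obtain ⟨b, hb, hbv⟩ := exists_chart_lift (transcendental_xf G)
    (isAlgebraic_adjoin_of_goodModel G) (Vf G) (wf_mem_Rf G) (irreducible_wf G) (Rf_le_Vf G)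
    (xf_mem_Vf G) (wf_inv_not_mem_Vf G) (Vf_gen G) (qep_fin' G) (sepB_of_goodModel G) (Sf G)
    (isUnit_sub_Sf G) (hNC_of_goodModel G) hv Q hQm
    (fun i => (chartB (Rf Fc R) (xf G)).algebraMap_mem ⟨Q.coeff i, hQc i⟩) hQv
  exact ⟨(b : Ω), (mem_chartRing_iff Fc R (xf G) hR).1 hb, hbv⟩

/-- The same on the chart at infinity. -/
theorem normalAbs_inv (G : GoodModel Lc Ec Fc R V w x S) :
    ∀ f ∈ V, ∀ P : Polynomial Ω, P.Monic → (∀ i, P.coeff i ∈ polyRing R x⁻¹) →
      P.eval f * w⁻¹ ∈ V → ∃ b ∈ chart Fc R x⁻¹, (f - b) * w⁻¹ ∈ V := by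
  classical
  exact normalAbs (Fermat.Agent.S18.H425.goodModel_inv G)

/-- `NormalAbsStatement` of board v3 (`Core/Skeleton4.lean`), verbatim. -/
theorem normalAbsStatement :
    ∀ (Ω : Type) [Field Ω] (Lc Ec Fc : Subfield Ω) (R V : Subring Ω) (w x : Ω) (S : Finset Ω),
      Alg.GoodModel Lc Ec Fc R V w x S →
      ∀ f ∈ V, ∀ P : Polynomial Ω, P.Monic → (∀ i, P.coeff i ∈ Alg.polyRing R x) →
        P.eval f * w⁻¹ ∈ V →
        ∃ b ∈ Alg.chart Fc R x, (f - b) * w⁻¹ ∈ V :=
  fun _ _ _ _ _ _ _ _ _ _ G => normalAbs G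

end Fermat.Agent.S37.Rim.H383

end
end
-- ===== PACK-END S37/Rim/H383/NormalAbs.lean

-- ===== PACK-BEGIN A2/Mod/H216/NormalChart.lean
section


/-!
# A2 / GOODRED (helper216): normality of the special fibre of a good model, CHART coefficients

`normalAbs_chart` : for `G : Alg.GoodModel Lc Ec Fc R V w x S`, an element `f ∈ V` which is a
root modulo `w` of a monic polynomial with coefficients in the CHART `B = Alg.chart Fc R x`
(not only in `R[x]`) is congruent modulo `w` to an element of `B`.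

Same proof as `S37.Rim.H383.normalAbs` (helper383): `H383.exists_chart_lift` already allows
coefficients in the chart.
-/

set_option autoImplicit false
set_option linter.style.haveILetI false
set_option linter.unusedSectionVars false

noncomputable section

namespace Fermat.Agent.A2.Mod.H216

open Polynomial Fermat.Agent.S18 Fermat.Agent.S18.Alg Fermat.Agent.S18.H438
open Fermat.Agent.S18.H438.GoodModelFront Fermat.Agent.S37.Rim.H383

variable {Ω : Type*} [Field Ω] {Lc Ec Fc : Subfield Ω} {R V : Subring Ω} {w x : Ω}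
  {S : Finset Ω}

/-- A polynomial over `Ω` with coefficients in the chart is the image of a polynomial over `Fc`
with coefficients in the typed chart. -/
theorem exists_poly_Fc_chart (hR : ∀ r ∈ R, r ∈ Fc) (z : Fc) (P : Polynomial Ω)
    (hP : ∀ i, P.coeff i ∈ _root_.Fermat.Agent.S18.Alg.chart Fc R (z : Ω)) :
    ∃ Q : Polynomial Fc, Q.map Fc.subtype = P ∧
      ∀ i, Q.coeff i ∈ chartB (Rf Fc R) z := by
  have hl : P ∈ Polynomial.lifts Fc.subtype := by
    rw [Polynomial.lifts_iff_coeff_lifts]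
    intro i
    exact ⟨⟨P.coeff i, (hP i).1⟩, rfl⟩
  obtain ⟨Q, hQ⟩ := (Polynomial.mem_lifts P).1 hl
  refine ⟨Q, hQ, fun i => ?_⟩
  have h1 : ((Q.coeff i : Fc) : Ω) = P.coeff i := by
    rw [← hQ, coeff_map]
    rfl
  have h2 : Q.coeff i ∈ chartRing (Rf Fc R) z := by
    rw [mem_chartRing_iff Fc R z hR, h1]
    exact hP i
  exact h2

/-- **Normality of the special fibre of a good model, chart coefficients.** -/
theorem normalAbs_chart (G : GoodModel Lc Ec Fc R V w x S) :
    ∀ f ∈ V, ∀ P : Polynomial Ω, P.Monic → (∀ i, P.coeff i ∈ _root_.Fermat.Agent.S18.Alg.chart Fc R x) →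
      P.eval f * w⁻¹ ∈ V → ∃ b ∈ _root_.Fermat.Agent.S18.Alg.chart Fc R x, (f - b) * w⁻¹ ∈ V := by
  intro f hf P hPm hPc hPv
  haveI := charZero_Fc G
  haveI := isDiscreteValuationRing_Rf G
  haveI := isIntegrallyClosed_chartB G
  haveI := finite_chartB G
  have hR : ∀ r ∈ R, r ∈ Fc := fun r hr => R_le_Fc G hr
  obtain ⟨Q, hQ, hQc⟩ := exists_poly_Fc_chart hR (xf G) P hPc
  have hQm : Q.Monic := by
    rw [← hQ] at hPm
    exact Polynomial.monic_of_injective Fc.subtype_injective hPm
  have hv : (⟨f, G.V_le hf⟩ : Fc) ∈ Vf G := hf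
  have hQv : Q.eval (⟨f, G.V_le hf⟩ : Fc) * (wf G)⁻¹ ∈ Vf G := by
    show ((Q.eval (⟨f, G.V_le hf⟩ : Fc) * (wf G)⁻¹ : Fc) : Ω) ∈ V
    rw [Subfield.coe_mul, Subfield.coe_inv, _root_.Fermat.Agent.S37.Rim.H383.coe_eval_Fc, hQ]
    exact hPv
  obtain ⟨b, hb, hbv⟩ := exists_chart_lift (transcendental_xf G)
    (isAlgebraic_adjoin_of_goodModel G) (Vf G) (wf_mem_Rf G) (irreducible_wf G) (Rf_le_Vf G)
    (xf_mem_Vf G) (wf_inv_not_mem_Vf G) (Vf_gen G) (qep_fin' G) (sepB_of_goodModel G) (Sf G)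
    (isUnit_sub_Sf G) (hNC_of_goodModel G) hv Q hQm hQc hQv
  exact ⟨(b : Ω), (mem_chartRing_iff Fc R (xf G) hR).1 hb, hbv⟩

/-- The same on the chart at infinity. -/
theorem normalAbs_chart_inv (G : GoodModel Lc Ec Fc R V w x S) :
    ∀ f ∈ V, ∀ P : Polynomial Ω, P.Monic → (∀ i, P.coeff i ∈ _root_.Fermat.Agent.S18.Alg.chart Fc R x⁻¹) →
      P.eval f * w⁻¹ ∈ V → ∃ b ∈ _root_.Fermat.Agent.S18.Alg.chart Fc R x⁻¹, (f - b) * w⁻¹ ∈ V := by
  classical
  exact normalAbs_chart (Fermat.Agent.S18.H425.goodModel_inv G)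

end Fermat.Agent.A2.Mod.H216

end
end
-- ===== PACK-END A2/Mod/H216/NormalChart.lean

-- ===== PACK-BEGIN S36/H994/Gauss4.lean
section


/-!
# Gauss units of level `4` (helper994, S36 cell REG, `q` odd)

Mirror of helper890's `Gauss9.lean` for the level-`4` tower of helper878's `Haupt4.lean`.
Every function below is `t⁻ⁿ · P(t)` with `P ∈ ℤ⟦t⟧`, `P(0) = 1`, over EVERY commutative ring `K`;
so its `t`-expansion is integral with a coefficient `1`, and it is a unit of the Gauss valuation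
ring `V∞` of every level and every residue characteristic (`A2.Mod.H553.mem_of_int`,
`inv_mem_of_int`).  These are the unit hypotheses of helper878's `Congr4.t4_congr`
(`hU`, `hUe`, `h16`) and `Transfer4.hres_transfer4` (`hh₁`, `hh₁'`, `hj₁`, `hj₁'`):

| function | `n` | statement |
|---|---|---|
| `t₄` | `1` | `H878.t4` (definition), `H878.coeff_t4_neg_one` |
| `t₄ + 16` | `1` | `H878.coeff_t4_add_neg_one` |
| `t₂ + 16` | `1` | `H878.coeff_t2_add_neg_one` |
| `U₂(j, j₂)` | `3` | `u2_eq`, `coeff_u2` |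
| `U₂(j₂, j₄)` | `6` | `u2e_eq`, `coeff_u2e` |
| `j`, `j - 1728` | `1` | `jq4_add_eq`, `coeff_jq4_sub_1728` |

and the relations `l1`, `l2`, `l3` of `Congr4.t4_congr` over every field (`t2_lin4`, `t2e_lin4`,
`t4_lin4`).
-/

set_option autoImplicit false
set_option linter.unusedSectionVars false

noncomputable section

namespace Fermat.Agent.S36.H994

open PowerSeries ModularCurve Fermat.Agent.Lib.Haupt Fermat.Agent.S36.H878

/-! ## Polynomials -/

/-- `U₂ ∈ ℤ[x, y]` (`= Lib.Haupt.U2` at `x = j`, `y = j₂`; the shape of `Congr4.t4_congr`). -/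
def h4u2 {S : Type*} [CommRing S] (x y : S) : S :=
  x * y - 720 * x - 720 * y - 16250625

/-- `W₂ ∈ ℤ[x, y]` (`= Lib.Haupt.W2` at `x = j`, `y = j₂`; the shape of `Congr4.t4_congr`). -/
def h4w2 {S : Type*} [CommRing S] (x y : S) : S :=
  y ^ 2 + 4095 * x + 195120 * y + 660960000

theorem h4u2_def {S : Type*} [CommRing S] (x y : S) :
    h4u2 x y = x * y - 720 * x - 720 * y - 16250625 := rfl

theorem h4w2_def {S : Type*} [CommRing S] (x y : S) :
    h4w2 x y = y ^ 2 + 4095 * x + 195120 * y + 660960000 := rfl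

theorem map_h4u2 {S T : Type*} [CommRing S] [CommRing T] (f : S →+* T) (x y : S) :
    f (h4u2 x y) = h4u2 (f x) (f y) := by
  simp only [h4u2, map_sub, map_mul, map_ofNat]

theorem map_h4w2 {S T : Type*} [CommRing S] [CommRing T] (f : S →+* T) (x y : S) :
    f (h4w2 x y) = h4w2 (f x) (f y) := by
  simp only [h4w2, map_add, map_mul, map_pow, map_ofNat]

/-! ## Shifts -/

section Shift

variable (K : Type*) [CommRing K]

/-- `t⁻ⁿ · tᵏ = t^{-(n-k)}`. -/
theorem h4_qinv_pow_mul_X_pow {n k : ℕ} (h : k ≤ n) :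
    qinv K ^ n * lau K X ^ k = qinv K ^ (n - k) := by
  obtain ⟨m, rfl⟩ := Nat.exists_eq_add_of_le h
  rw [Nat.add_sub_cancel_left, pow_add, mul_right_comm, ← mul_pow, qinv_mul_lau_X, one_pow,
    one_mul]

/-- The coefficient of `t⁻ⁿ` in `t⁻ⁿ · P` is `P(0)`. -/
theorem h4_coeff_qinv_pow_mul_lau (n : ℕ) (P : PowerSeries ℤ) :
    (qinv K ^ n * lau K P).coeff (-(n : ℤ)) = ((constantCoeff P : ℤ) : K) := by
  rw [qinv, HahnSeries.single_pow, HahnSeries.coeff_single_mul]
  simp only [one_pow, one_mul]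
  rw [show -(n : ℤ) - n • (-1 : ℤ) = ((0 : ℕ) : ℤ) by simp, coeff_lau_natCast,
    PowerSeries.coeff_zero_eq_constantCoeff]

theorem h4_qExpand_qinv_pow_mul_lau (d : ℕ) [NeZero d] (n : ℕ) (P : PowerSeries ℤ) :
    qExpand K d (qinv K ^ n * lau K P) = qinv K ^ (d * n) * lau K (ex d P) := by
  rw [map_mul, map_pow, qExpand_qinv, qExpand_lau, ← pow_mul]

end Shift

/-! ## The integral power series -/

/-- `X² · j(X²)`. -/
abbrev J2 : PowerSeries ℤ := ex 2 ModularCurve.jNum

theorem constantCoeff_J2 : constantCoeff J2 = 1 := by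
  rw [J2, constantCoeff_ex, ModularCurve.constantCoeff_jNum]

/-- `X³ · U₂(j, j₂)`. -/
def Pu2 : PowerSeries ℤ :=
  ModularCurve.jNum * J2 - C 720 * (X ^ 2 * ModularCurve.jNum) - C 720 * (X * J2)
    - C 16250625 * X ^ 3

theorem constantCoeff_Pu2 : constantCoeff Pu2 = 1 := by
  simp [Pu2, ModularCurve.constantCoeff_jNum]

section Laurent

variable (K : Type*) [CommRing K]

/-! ## `U₂(j, j₂)` and `U₂(j₂, j₄)` -/

/-- `U₂(j, j₂) = t⁻³ · Pu2`. -/
theorem u2_eq :
    h4u2 (jqModC K) (qExpand K 2 (jqModC K)) = qinv K ^ 3 * lau K Pu2 := by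
  have s1 := h4_qinv_pow_mul_X_pow K (n := 3) (k := 1) (by norm_num)
  have s2 := h4_qinv_pow_mul_X_pow K (n := 3) (k := 2) (by norm_num)
  have s3 := h4_qinv_pow_mul_X_pow K (n := 3) (k := 3) (by norm_num)
  norm_num at s1 s2 s3
  rw [h4u2, Pu2, qExpand_jqModC, jqModC_eq]
  simp only [lau_sub, lau_mul, lau_pow, lau_C]
  push_cast
  generalize lau K ModularCurve.jNum = a at *
  generalize lau K J2 = b at *
  generalize lau K X = x at *
  generalize qinv K = q at *
  linear_combination (720 * a) * s2 + (720 * b) * s1 + (16250625 : LaurentSeries K) * s3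

theorem coeff_u2 : (h4u2 (jqModC K) (qExpand K 2 (jqModC K))).coeff (-3) = 1 := by
  have h := h4_coeff_qinv_pow_mul_lau K 3 Pu2
  rw [← u2_eq, constantCoeff_Pu2] at h
  simpa using h

/-- `U₂(j₂, j₄) = t⁻⁶ · Pu2(t²)`. -/
theorem u2e_eq :
    h4u2 (qExpand K 2 (jqModC K)) (qExpand K 4 (jqModC K))
      = qinv K ^ 6 * lau K (ex 2 Pu2) := by
  have h := congrArg (qExpand K 2) (u2_eq K)
  rw [map_h4u2, h4_qExpand_qinv_pow_mul_lau, qExpand_qExpand] at h
  exact h

theorem coeff_u2e :
    (h4u2 (qExpand K 2 (jqModC K)) (qExpand K 4 (jqModC K))).coeff (-6) = 1 := by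
  have h := h4_coeff_qinv_pow_mul_lau K 6 (ex 2 Pu2)
  rw [← u2e_eq, constantCoeff_ex, constantCoeff_Pu2] at h
  simpa using h

/-! ## `t₂ + 16`, `t₄`, `t₄ + 16` -/

theorem coeff_t2_add_16 : (t2 K + 16).coeff (-1) = 1 := by
  have h := coeff_t2_add_neg_one K 16
  simpa using h

theorem coeff_t4_add_16 : (t4 K + 16).coeff (-1) = 1 := by
  have h := coeff_t4_add_neg_one K 16
  simpa using h

/-! ## `j - c` -/

/-- `j + c = t⁻¹ · (jNum + c X)`. -/
theorem jq4_add_eq (c : ℤ) :
    jqModC K + (c : LaurentSeries K) = qinv K ^ 1 * lau K (ModularCurve.jNum + C c * X) := by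
  rw [pow_one, jqModC_eq, t_add_const]

theorem coeff_jq4_add (c : ℤ) : (jqModC K + (c : LaurentSeries K)).coeff (-1) = 1 := by
  have h := h4_coeff_qinv_pow_mul_lau K 1 (ModularCurve.jNum + C c * X)
  rw [← jq4_add_eq] at h
  simpa [ModularCurve.constantCoeff_jNum] using h

theorem coeff_jq4_sub_1728 : (jqModC K - 1728).coeff (-1) = 1 := by
  have h := coeff_jq4_add K (-1728)
  have e : jqModC K + ((-1728 : ℤ) : LaurentSeries K) = jqModC K - 1728 := by
    push_cast; ring
  rwa [e] at h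

end Laurent

/-! ## The relations `l1`, `l2`, `l3` of `Congr4.t4_congr`, over every FIELD -/

section Field

variable (K : Type*) [Field K]

theorem u2_eq_U2 : h4u2 (jqModC K) (qExpand K 2 (jqModC K)) = U2 K := rfl

theorem w2_eq_W2 : h4w2 (jqModC K) (qExpand K 2 (jqModC K)) = W2 K := rfl

/-- `l1` : `U₂(j, j₂) · t₂ = W₂(j, j₂)`. -/
theorem t2_lin4 :
    h4u2 (jqModC K) (qExpand K 2 (jqModC K)) * t2 K = h4w2 (jqModC K) (qExpand K 2 (jqModC K)) :=
  t2_lin K

/-- `l2` : `U₂(j₂, j₄) · t₂(t²) = W₂(j₂, j₄)`. -/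
theorem t2e_lin4 :
    h4u2 (qExpand K 2 (jqModC K)) (qExpand K 4 (jqModC K)) * qExpand K 2 (t2 K)
      = h4w2 (qExpand K 2 (jqModC K)) (qExpand K 4 (jqModC K)) := by
  have h := congrArg (qExpand K 2) (t2_lin4 K)
  rw [map_mul, map_h4u2, map_h4w2, qExpand_qExpand] at h
  exact h

/-- `l3` : `t₄ · (t₂ + 16) = t₂(t²) - 16 t₂`. -/
theorem t4_lin4 : t4 K * (t2 K + 16) = qExpand K 2 (t2 K) - 16 * t2 K :=
  t4_mul K

end Field

end Fermat.Agent.S36.H994

end
end
-- ===== PACK-END S36/H994/Gauss4.lean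

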