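import Fermat.Agent.Pack.S36.E4L0
import Fermat.Agent.Pack.S36.E0L0
import Fermat.Agent.Pack.S36.E17L1
import Fermat.Agent.Pack.S36.E16L2
import Fermat.Agent.Pack.S36.E17L2
import Fermat.Agent.Pack.S36.E13L2
import Fermat.Agent.Pack.S36.E16L1
import Fermat.Agent.Pack.S36.E7L2
import Fermat.Agent.Pack.S36.E7L1
import Fermat.Agent.Pack.S36.E12L1
import Fermat.Agent.Pack.S36.E14L0
import Fermat.Agent.Pack.S36.E2L1
import Fermat.Agent.Pack.S36.E6L3
import Fermat.Agent.Pack.S36.E10L0
import Fermat.Agent.Pack.S36.E10L2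
import Fermat.Agent.Pack.S36.E8L0
import Fermat.Agent.Pack.S36.E10L1
import Fermat.Agent.Pack.S36.E14L1
import Fermat.Agent.Pack.S36.E17L0
import Fermat.Agent.Pack.S36.E11L3
import Fermat.Agent.Pack.S36.E12L2
import Fermat.Agent.Pack.S36.E13L1
import Fermat.Agent.Pack.S36.E17L3

-- ===== PACK-BEGIN S29/M4b/Defs.lean
section
/-
S29 row, LAYER M, SUB-LAYER M4b (the Kummer map) — FROZEN interface definitions
(sub-architect: deputy helper822).  Namespace `Fermat.Agent.S29.M4b`.
Do not edit; propose changes via a note kind='question' stmt='S29'.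

The relation `IsKum N p c x` ("`x` is the Kummer class of the character `c`"):
`x = [D]`, `p • D = div f` (landed `H455.IsKummerClass`), and after clearing poles by a `p`-th power
`t ^ p` the function `f * t ^ p` is the `p`-th power of a holomorphic `U : ℍ → ℂ` which transforms
under `Γ₀(N)` by the character `γ ↦ ζ_p ^ c(γ)`.

"Analytic realisation" = equality of `q`-expansions at `i∞` (landed S24 / H882 language):
`G` realises `u ∈ FF N` iff `G ∈ S24.H648.goodRing N` (holomorphic, `Γ₀(N)`-invariant, all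
`SL₂(ℤ)`-translates of at most exponential growth) and `qexpFun 1 G = coeffMap iotaC u`.
-/




set_option autoImplicit false

noncomputable section

open ModularCurve AlgebraicCurve CongruenceSubgroup UpperHalfPlane
open scoped MatrixGroups Manifold

namespace Fermat.Agent.S29.M4b

open Fermat.Agent.S24 Fermat.Agent.S29

/-- The fixed primitive `p`-th root of unity `exp(2πi/p)`. -/
def zetaP (p : ℕ) : ℂ := Complex.exp (2 * Real.pi * Complex.I / p)

/-- `G : ℍ → ℂ` realises `u ∈ FF N = ℚ̄(j(q^d) : d ∣ N)`: `G` is a "good" function (holomorphic on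
`ℍ`, `Γ₀(N)`-invariant, exponential growth at all cusps) whose `q`-expansion at `i∞` is `u`, the
coefficients being embedded by the fixed `Deg457.iotaC : ℚ̄ → ℂ`. -/
def Realises (N : ℕ) [NeZero N] (u : FF N) (G : ℍ → ℂ) : Prop :=
  G ∈ H648.goodRing N ∧
    H708.qexpFun 1 G = coeffMap Deg457.iotaC ((u : FF N) : LaurentSeries Kbar)

/-- `U` transforms under `Γ₀(N)` by the character `γ ↦ ζ_p ^ c(γ)`. -/
def HasChar (N p : ℕ) (c : G0 N → ZMod p) (U : ℍ → ℂ) : Prop :=
  ∀ (γ : G0 N) (τ : ℍ), U ((γ : SL(2, ℤ)) • τ) = zetaP p ^ (c γ).val * U τ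

/-- `U` is a twisted function of character `c`: holomorphic on `ℍ`, not identically zero, of
character `c`, with `U ^ p` good (i.e. `U` has at most exponential growth at every cusp). -/
structure IsTwisted (N p : ℕ) (c : G0 N → ZMod p) (U : ℍ → ℂ) : Prop where
  mdiff : MDifferentiable 𝓘(ℂ) 𝓘(ℂ) U
  ne_zero : ∃ τ : ℍ, U τ ≠ 0
  hasChar : HasChar N p c U
  pow_mem : (fun τ => U τ ^ p) ∈ H648.goodRing N

/-- **The Kummer relation.**  `x ∈ J₀(N)(ℚ̄)` is the Kummer class of the character `c`. -/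
def IsKum (N p : ℕ) [NeZero N] (c : G0 N → ZMod p) (x : JZero N) : Prop :=
  ∃ (f t : FF N) (U : ℍ → ℂ), t ≠ 0 ∧ H455.IsKummerClass (p : ℤ) f x ∧
    IsTwisted N p c U ∧ Realises N (f * t ^ p) (fun τ => U τ ^ p)

/-- `c'` is the transfer (= Hecke image `T_ℓ c`) of `c`: `c'(γ) = ∑ᵢ c(δᵢ)` for EVERY
factorisation `αᵢ γ = δᵢ α_{π i}` (`αᵢ = heckeRep ℓ i` of `DefsM`).  For `ℓ ∤ N` prime the
factorisation exists and is unique (piece `HCoh`), so `c' = heckeCoh N ℓ c`. -/
def IsTransfer (N ℓ : ℕ) {A : Type*} [AddCommMonoid A] (c c' : G0 N → A) : Prop :=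
  ∀ (γ : G0 N) (π : Option (Fin ℓ) → Option (Fin ℓ)) (δ : Option (Fin ℓ) → G0 N),
    (∀ i, IsHeckeFactor ℓ γ i (π i, δ i)) → c' γ = ∑ i, c (δ i)

end Fermat.Agent.S29.M4b

end
end
-- ===== PACK-END S29/M4b/Defs.lean

-- ===== PACK-BEGIN S30/H450/KumCompat.lean
section
/-
S30 (p-adic version), helper450: the Kummer relation of S29 sub-layer M4b (`M4b.IsKum`, frozen
definitions of helper822, general modulus) is compatible with change of modulus.

* `isKum_red`  : REDUCTION.  `IsKum N (m * d) c x → IsKum N m (c mod m) (d • x)`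
  (data `(f, t, U) ↦ (f, t ^ d, U ^ d)`).
* `isKum_infl` : INFLATION.  `IsKum N m c x → IsKum N (m * d) (d * c) x`
  (data `(f, t, U) ↦ (f ^ d, t, U)`).

Everything here is formal: no analysis beyond `ζ_{md} ^ d = ζ_m`.
-/


set_option autoImplicit false

noncomputable section

open ModularCurve AlgebraicCurve CongruenceSubgroup UpperHalfPlane
open scoped MatrixGroups Manifold

namespace Fermat.Agent.S30.H450

open Fermat.Agent.S24 Fermat.Agent.S29 Fermat.Agent.S29.M4b

/-! ### Roots of unity -/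

theorem zetaP_pow_self (m : ℕ) (hm : m ≠ 0) : zetaP m ^ m = 1 := by
  unfold zetaP
  rw [← Complex.exp_nat_mul]
  have hm' : (m : ℂ) ≠ 0 := by exact_mod_cast hm
  have : (m : ℂ) * (2 * Real.pi * Complex.I / m) = 2 * Real.pi * Complex.I := by
    field_simp
  rw [this, Complex.exp_two_pi_mul_I]

theorem zetaP_mul_pow (m d : ℕ) (hd : d ≠ 0) : zetaP (m * d) ^ d = zetaP m := by
  unfold zetaP
  rw [← Complex.exp_nat_mul]
  congr 1
  have hd' : (d : ℂ) ≠ 0 := by exact_mod_cast hd
  by_cases hm : m = 0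
  · subst hm
    simp
  have hm' : (m : ℂ) ≠ 0 := by exact_mod_cast hm
  push_cast
  field_simp

theorem zetaP_pow_mod (m : ℕ) (hm : m ≠ 0) (a : ℕ) : zetaP m ^ (a % m) = zetaP m ^ a := by
  conv_rhs => rw [← Nat.mod_add_div a m]
  rw [pow_add, pow_mul, zetaP_pow_self m hm, one_pow, mul_one]

/-! ### Reduction and inflation of characters -/

/-- Reduction of a character modulo a divisor of the modulus. -/
def redChar {N m m' : ℕ} (h : m ∣ m') (c : G0 N → ZMod m') : G0 N → ZMod m :=
  fun γ => ZMod.castHom h (ZMod m) (c γ)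

/-- Inflation of a character: `ZMod m → ZMod (m * d)`, `a ↦ d * a` (on representatives). -/
def inflChar {N : ℕ} (m d : ℕ) (c : G0 N → ZMod m) : G0 N → ZMod (m * d) :=
  fun γ => ((d * (c γ).val : ℕ) : ZMod (m * d))

theorem isParHom_redChar {N m m' : ℕ} (h : m ∣ m') {c : G0 N → ZMod m'} (hc : IsParHom c) :
    IsParHom (redChar h c) where
  map_mul γ γ' := by
    simp only [redChar, hc.map_mul, map_add]
  parabolic γ hγ := by
    simp only [redChar, hc.parabolic γ hγ, map_zero]
  elliptic γ n hn hγ := by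
    simp only [redChar, hc.elliptic γ n hn hγ, map_zero]

theorem redChar_add {N m m' : ℕ} (h : m ∣ m') (c c' : G0 N → ZMod m') :
    redChar h (c + c') = redChar h c + redChar h c' := by
  funext γ
  simp only [redChar, Pi.add_apply, map_add]

theorem val_redChar {N m m' : ℕ} [NeZero m'] (h : m ∣ m') (c : G0 N → ZMod m') (γ : G0 N) :
    (redChar h c γ).val = (c γ).val % m := by
  unfold redChar
  have h1 : ZMod.castHom h (ZMod m) (c γ) = (((c γ).val : ℕ) : ZMod m) := by
    conv_lhs => rw [← ZMod.natCast_zmod_val (c γ)]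
    rw [map_natCast]
  rw [h1, ZMod.val_natCast]

/-! ### Kummer classes under change of modulus (Prelude language) -/

section Alg

variable {K F : Type*} [Field K] [Field F] [Algebra K F]

theorem isKummerClass_red {m d : ℕ} {f : F} {x : Pic0 K F}
    (h : H455.IsKummerClass ((m * d : ℕ) : ℤ) f x) :
    H455.IsKummerClass (m : ℤ) f (d • x) := by
  obtain ⟨hf, D, rfl, hD⟩ := h
  refine ⟨hf, d • D, rfl, fun v => ?_⟩
  rw [← hD v]
  simp only [AddSubmonoidClass.coe_nsmul, Finsupp.smul_apply, nsmul_eq_mul]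
  push_cast
  ring

theorem isKummerClass_infl {m d : ℕ} {f : F} {x : Pic0 K F}
    (h : H455.IsKummerClass (m : ℤ) f x) :
    H455.IsKummerClass ((m * d : ℕ) : ℤ) (f ^ d) x := by
  obtain ⟨hf, D, rfl, hD⟩ := h
  refine ⟨pow_ne_zero d hf, D, rfl, fun v => ?_⟩
  rw [← zpow_natCast, Place.ord_zpow, ← hD v]
  push_cast
  ring

end Alg

/-! ### The analytic part -/

section An

variable {N : ℕ}

theorem isTwisted_red {m d : ℕ} [NeZero m] [NeZero d] {c : G0 N → ZMod (m * d)} {U : ℍ → ℂ}
    (hU : IsTwisted N (m * d) c U) :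
    IsTwisted N m (redChar (Dvd.intro d rfl) c) (fun τ => U τ ^ d) where
  mdiff := hU.mdiff.pow d
  ne_zero := by
    obtain ⟨τ, hτ⟩ := hU.ne_zero
    exact ⟨τ, pow_ne_zero d hτ⟩
  hasChar := by
    intro γ τ
    have : NeZero (m * d) := ⟨Nat.mul_ne_zero (NeZero.ne m) (NeZero.ne d)⟩
    beta_reduce
    rw [hU.hasChar γ τ, mul_pow, ← pow_mul, mul_comm (c γ).val d, pow_mul,
      zetaP_mul_pow m d (NeZero.ne d), val_redChar, zetaP_pow_mod m (NeZero.ne m)]
  pow_mem := by
    have h := hU.pow_mem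
    have e : (fun τ => (U τ ^ d) ^ m) = fun τ => U τ ^ (m * d) := by
      funext τ
      rw [← pow_mul, mul_comm]
    rw [e]
    exact h

variable [NeZero N]

theorem realises_red {m d : ℕ} {f t : FF N} {U : ℍ → ℂ}
    (h : Realises N (f * t ^ (m * d)) (fun τ => U τ ^ (m * d))) :
    Realises N (f * (t ^ d) ^ m) (fun τ => (U τ ^ d) ^ m) := by
  have e : (fun τ => (U τ ^ d) ^ m) = fun τ => U τ ^ (m * d) := by
    funext τ
    rw [← pow_mul, mul_comm]
  have e' : f * (t ^ d) ^ m = f * t ^ (m * d) := by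
    rw [← pow_mul, mul_comm d m]
  rw [e, e']
  exact h

/-- **REDUCTION.**  If `x` is the Kummer class of `c` for the modulus `m * d`, then `d • x` is the
Kummer class of `c mod m` for the modulus `m`. -/
theorem isKum_red {m d : ℕ} [NeZero m] [NeZero d] {c : G0 N → ZMod (m * d)} {x : JZero N}
    (h : IsKum N (m * d) c x) :
    IsKum N m (redChar (Dvd.intro d rfl) c) (d • x) := by
  obtain ⟨f, t, U, ht, hx, hU, hR⟩ := h
  exact ⟨f, t ^ d, fun τ => U τ ^ d, pow_ne_zero d ht, isKummerClass_red hx, isTwisted_red hU,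
    realises_red hR⟩

/-- Variant of `isKum_red` with a propositional equality of moduli (e.g. `p ^ (n+1) = p ^ n * p`). -/
theorem isKum_red' {m m' d : ℕ} [NeZero m] [NeZero d] (hm : m' = m * d) (hdvd : m ∣ m')
    {c : G0 N → ZMod m'} {x : JZero N} (h : IsKum N m' c x) :
    IsKum N m (redChar hdvd c) (d • x) := by
  subst hm
  exact isKum_red h

theorem realises_pow {u : FF N} {G : ℍ → ℂ} (h : Realises N u G) (d : ℕ) :
    Realises N (u ^ d) (fun τ => G τ ^ d) := by
  obtain ⟨h1, h2⟩ := h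
  have hq : H708.HasQExp 1 G (coeffMap Deg457.iotaC ((u : FF N) : LaurentSeries Kbar)) :=
    h2 ▸ H882.hasQExp_of_mem_goodRing h1
  have hG : (fun τ => G τ ^ d) = G ^ d := rfl
  refine ⟨hG ▸ (H648.goodRing N).pow_mem h1 d, ?_⟩
  rw [hG, (hq.pow d).qexpFun_eq]
  rw [IntermediateField.coe_pow, map_pow]

omit [NeZero N] in
theorem zetaP_pow_val_inflChar {m d : ℕ} [NeZero m] [NeZero d] (c : G0 N → ZMod m) (γ : G0 N) :
    zetaP (m * d) ^ (inflChar m d c γ).val = zetaP m ^ (c γ).val := by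
  have hmd : m * d ≠ 0 := Nat.mul_ne_zero (NeZero.ne m) (NeZero.ne d)
  have : NeZero (m * d) := ⟨hmd⟩
  unfold inflChar
  rw [ZMod.val_natCast, zetaP_pow_mod (m * d) hmd, pow_mul, zetaP_mul_pow m d (NeZero.ne d)]

/-- **INFLATION.**  If `x` is the Kummer class of `c` for the modulus `m`, then `x` is the Kummer
class of `d * c` for the modulus `m * d`. -/
theorem isKum_infl {m d : ℕ} [NeZero m] [NeZero d] {c : G0 N → ZMod m} {x : JZero N}
    (h : IsKum N m c x) : IsKum N (m * d) (inflChar m d c) x := by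
  obtain ⟨f, t, U, ht, hx, hU, hR⟩ := h
  have e : (fun τ => U τ ^ (m * d)) = fun τ => (U τ ^ m) ^ d := by
    funext τ
    rw [pow_mul]
  refine ⟨f ^ d, t, U, ht, isKummerClass_infl hx, ⟨hU.mdiff, hU.ne_zero, fun γ τ => ?_, ?_⟩, ?_⟩
  · rw [zetaP_pow_val_inflChar]
    exact hU.hasChar γ τ
  · rw [e]
    exact (realises_pow hR d).1
  · have e' : f ^ d * t ^ (m * d) = (f * t ^ m) ^ d := by
      rw [mul_pow, pow_mul]
    rw [e, e']
    exact realises_pow hR d

end An

end Fermat.Agent.S30.H450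

end
end
-- ===== PACK-END S30/H450/KumCompat.lean

-- ===== PACK-BEGIN S29/H509/K1.lean
section



/-!
# S29 / M4b piece K1 (`exists_isTwisted`) in helper822's EXACT shape (helper509)

`U := kumH (chiOfHom c)`, i.e. `E^χ₁₂ / Δ` with `χ = ζ_p ^ c`.
-/

set_option autoImplicit false

namespace Fermat.Agent.S29.H509

open ModularCurve AlgebraicCurve CongruenceSubgroup UpperHalfPlane
open scoped MatrixGroups Manifold

open Fermat.Agent.S24 Fermat.Agent.S29 Fermat.Agent.S29.M4b

noncomputable section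

/-- The additive character `Additive Γ₀(N) →+ ZMod p` underlying a parabolic hom `c`. -/
def homOfParHom {N p : ℕ} {c : G0 N → ZMod p} (hc : IsParHom c) :
    Additive (Gamma0 N) →+ ZMod p where
  toFun γ := c (Additive.toMul γ)
  map_zero' := by
    have h := hc.map_mul 1 1
    rw [mul_one] at h
    have : c 1 + 0 = c 1 + c 1 := by rw [add_zero]; exact h
    exact (add_left_cancel this).symm
  map_add' a b := hc.map_mul _ _

@[simp] lemma homOfParHom_apply {N p : ℕ} {c : G0 N → ZMod p} (hc : IsParHom c)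
    (γ : Gamma0 N) : homOfParHom hc (Additive.ofMul γ) = c γ := rfl

lemma stdAddChar_eq_zetaP_pow (p : ℕ) [NeZero p] (a : ZMod p) :
    ZMod.stdAddChar (N := p) a = zetaP p ^ a.val := by
  have h1 : ((a.val : ℤ) : ZMod p) = a := by
    rw [Int.cast_natCast, ZMod.natCast_zmod_val]
  conv_lhs => rw [← h1]
  rw [ZMod.stdAddChar_coe, zetaP, ← Complex.exp_nat_mul]
  congr 1
  push_cast
  ring

/-- **PIECE K1** of `M4b/Skeleton.lean`, exact type. -/
theorem exists_isTwisted (N : ℕ) [NeZero N] (p : ℕ) [NeZero p] {c : G0 N → ZMod p}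
    (hc : IsParHom c) : ∃ U : ℍ → ℂ, IsTwisted N p c U := by
  have hstab : ∀ γ : Gamma0 N, (γ : SL(2, ℤ)) 1 0 = 0 →
      homOfParHom hc (Additive.ofMul γ) = 0 := by
    intro γ hγ
    rw [homOfParHom_apply]
    apply hc.parabolic
    have hdet := (γ : SL(2, ℤ)).det_coe
    rw [Matrix.det_fin_two] at hdet
    have h' : ((γ : SL(2, ℤ)) : Matrix (Fin 2) (Fin 2) ℤ) 1 0 = 0 := hγ
    rw [h', mul_zero, sub_zero] at hdet
    have htr : (G0.mat γ).trace = ((γ : SL(2, ℤ)) : Matrix (Fin 2) (Fin 2) ℤ) 0 0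
        + ((γ : SL(2, ℤ)) : Matrix (Fin 2) (Fin 2) ℤ) 1 1 := by
      rw [G0.mat, Matrix.trace_fin_two]
    rw [htr]
    rcases Int.eq_one_or_neg_one_of_mul_eq_one' hdet with ⟨h1, h2⟩ | ⟨h1, h2⟩
    · left; rw [h1, h2]; norm_num
    · right; rw [h1, h2]; norm_num
  obtain ⟨h, hmd, hne, hchar, -, hgood⟩ := exists_kummerFun_of_hom N (homOfParHom hc) hstab
  refine ⟨h, hmd, ?_, ?_, hgood⟩
  · by_contra hall
    push_neg at hall
    exact hne (funext hall)
  · intro γ τ
    rw [hchar γ τ, homOfParHom_apply, stdAddChar_eq_zetaP_pow]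

end

end Fermat.Agent.S29.H509

end
-- ===== PACK-END S29/H509/K1.lean

-- ===== PACK-BEGIN S29/H389/K2.lean
section





/-!
# S29 / M4b / PIECE K2 (DICT) — `exists_isKummerClass_of_realised` (helper389)

The piece `K2` of helper822's M4b sub-skeleton, in the EXACT type of `M4b/Skeleton.lean`
(general modulus `p`, `[NeZero p]`):

if `u ∈ FF N` is realised by `U ^ p`, `U` a twisted function whose character kills the parabolic
and the elliptic elements of `Γ₀(N)`, then `u` has a `p`-Kummer class in `J₀(N)(ℚ̄)`.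

Proof: direct route over `ℚ̄` on the landed S24 package.
* `U ∈ holN N` (S24 ring of the concrete analytic core): every `SL₂(ℤ)`-translate of `U` is
  holomorphic, `N`-periodic (`g T^N g⁻¹ ∈ Γ₀(N)` has trace `2`) and of exponential growth (because
  its `p`-th power is), so it has a convergent expansion in `exp(2πiτ/N)`;
* `e(r) = U ^ p · e(s)` for `u = r / s` (equality of expansions at `i∞`);
* `U` is invariant under the elliptic and parabolic elements of `Γ₀(N)`;
* conclude by the landed `H389.exists_isKummerClass_of_analytic_pow` (BR-DICT).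
-/

set_option autoImplicit false

noncomputable section

open ModularCurve AlgebraicCurve CongruenceSubgroup UpperHalfPlane HahnSeries
open scoped MatrixGroups Manifold Real

namespace Fermat.Agent.S29.H389

open Fermat.Agent.S24 Fermat.Agent.S24.H997 Fermat.Agent.S24.H648 Fermat.Agent.S24.H708
  Fermat.Agent.S24.H624 Fermat.Agent.S29 Fermat.Agent.S29.M4b

/-- A function whose `p`-th power (`p ≠ 0`) has exponential growth has exponential growth. -/
theorem K2_expGrowth_of_pow {f : ℍ → ℂ} {p : ℕ} (hp : p ≠ 0)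
    (h : ExpGrowth (fun τ => f τ ^ p)) : ExpGrowth f := by
  obtain ⟨C, m, hC⟩ := h
  refine ⟨max C 1, m, fun τ hτ => ?_⟩
  have h1 := hC τ hτ
  rw [norm_pow] at h1
  have him : 0 < τ.im := τ.im_pos
  have hpi := Real.pi_pos
  have hE : 1 ≤ Real.exp (2 * π * m * τ.im) := Real.one_le_exp (by positivity)
  have hmax : (1 : ℝ) ≤ max C 1 := le_max_right _ _
  have hB : 1 ≤ max C 1 * Real.exp (2 * π * m * τ.im) := by
    calc (1 : ℝ) = 1 * 1 := (one_mul 1).symm
      _ ≤ max C 1 * Real.exp (2 * π * m * τ.im) :=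
        mul_le_mul hmax hE zero_le_one (zero_le_one.trans hmax)
  have hle : ‖f τ‖ ^ p ≤ max C 1 * Real.exp (2 * π * m * τ.im) :=
    h1.trans (mul_le_mul_of_nonneg_right (le_max_left _ _) (Real.exp_pos _).le)
  by_cases h0 : ‖f τ‖ ≤ 1
  · exact h0.trans hB
  · have : ‖f τ‖ ≤ ‖f τ‖ ^ p := le_self_pow₀ (le_of_lt (not_le.mp h0)) hp
    exact this.trans hle

/-- `qh N ^ N = qh 1`. -/
theorem K2_qh_pow (N : ℕ) [NeZero N] (M : ℕ) : qh N ^ (N * M) = qh 1 ^ M := by
  funext τ
  have hN : (N : ℂ) ≠ 0 := by exact_mod_cast NeZero.ne N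
  simp only [Pi.pow_apply, qh_apply, pow_mul]
  congr 1
  simp only [Function.Periodic.qParam]
  rw [← Complex.exp_nat_mul]
  congr 1
  push_cast
  field_simp

section Twisted

variable (N : ℕ) [NeZero N] (p : ℕ) [NeZero p]

omit [NeZero N] [NeZero p] in
/-- All translates of a function with a parabolic character are `N`-periodic. -/
theorem K2_compSL_vadd {c : G0 N → ZMod p} (hc : IsParHom c) {U : ℍ → ℂ}
    (hU : HasChar N p c U) (g : SL(2, ℤ)) (τ : ℍ) :
    compSL g U (((N : ℤ) : ℝ) +ᵥ τ) = compSL g U τ := by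
  have hmem := H332.conj_T_zpow_mem_Gamma0 N g 1
  rw [mul_one] at hmem
  have htr := H332.trace_conj_T_zpow g (N : ℤ)
  have hc0 : c ⟨_, hmem⟩ = 0 := hc.parabolic ⟨_, hmem⟩ (Or.inl htr)
  have h2 := hU ⟨_, hmem⟩ (g • τ)
  rw [hc0] at h2
  simp only [ZMod.val_zero, pow_zero, one_mul] at h2
  rw [← UpperHalfPlane.modular_T_zpow_smul]
  simp only [compSL_apply]
  rw [← h2]
  congr 1
  rw [← mul_smul, ← mul_smul, mul_assoc, mul_assoc, inv_mul_cancel, mul_one]

/-- Every translate of a twisted function is meromorphic at `i∞` of width `N`. -/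
theorem K2_isMerInf {c : G0 N → ZMod p} (hc : IsParHom c) {U : ℍ → ℂ}
    (hU : IsTwisted N p c U) (g : SL(2, ℤ)) : IsMerInf N (compSL g U) := by
  refine ⟨H648.mdifferentiable_comp_smul hU.mdiff g,
    H332.periodic_comp_ofComplex_of_vadd (K2_compSL_vadd N p hc hU.hasChar g), ?_⟩
  have hg : ExpGrowth (compSL g U) :=
    K2_expGrowth_of_pow (NeZero.ne p) (hU.pow_mem.2.2 g)
  obtain ⟨M, hM⟩ := H882.isBounded_mul_qh_pow_of_expGrowth hg
  exact ⟨N * M, by rw [K2_qh_pow]; exact hM⟩

/-- A twisted function lies in the S24 ring `holN N`. -/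
theorem K2_mem_holN {c : G0 N → ZMod p} (hc : IsParHom c) {U : ℍ → ℂ}
    (hU : IsTwisted N p c U) : U ∈ holN N :=
  ⟨hU.mdiff, fun g => ⟨qexpFun N (compSL g U), fun τ => hasSum_qexpFun (K2_isMerInf N p hc hU g) τ⟩⟩

end Twisted

/-- The two fixed embeddings `ℚ̄ → ℂ` of S24 agree. -/
theorem K2_iotaC_eq : Deg457.iotaC = ιK := rfl

/-- An expansion in `q` is an expansion in `q^{1/N}`. -/
theorem K2_infExp_of_one (N : ℕ) [NeZero N] {f : ℍ → ℂ} {φ : LaurentSeries ℂ}
    (h : InfExp 1 f φ) : InfExp N f (qExpand ℂ N φ) := by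
  have hN : 0 < N := Nat.pos_of_ne_zero (NeZero.ne N)
  have h1 := h.comp_infAff (N := N) (e := N) 0 one_pos one_pos one_pos hN (by ring)
  rw [mul_one, infRoot_zero, infTwist_one] at h1
  refine h1.congr fun τ => ?_
  rw [infAff_one_zero_one]

section Main

variable (N : ℕ) [NeZero N] (p : ℕ) [NeZero p]

/-- **PIECE `K2`** of the M4b sub-skeleton (EXACT type of `M4b/Skeleton.lean`). -/
theorem exists_isKummerClass_of_realised {c : G0 N → ZMod p} (hc : IsParHom c) {U : ℍ → ℂ}
    {u : FF N} (hU : IsTwisted N p c U) (hu : Realises N u (fun τ => U τ ^ p)) :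
    ∃ x : JZero N, H455.IsKummerClass (p : ℤ) u x := by
  classical
  set A : AnalyticCore N := analyticCore N with hA
  -- `U` as an element of `Hol`
  have hmem : U ∈ holN N := K2_mem_holN N p hc hU
  let Uh : A.toHolBase.Hol := ⟨U, hmem⟩
  have hUh : Uh ≠ 0 := by
    intro h0
    obtain ⟨τ, hτ⟩ := hU.ne_zero
    apply hτ
    have := congrArg (fun f : A.toHolBase.Hol => (f : ℍ → ℂ) τ) h0
    simpa [Uh] using this
  -- the expansion of `U ^ p`
  have hmer : IsMerInf 1 (fun τ => U τ ^ p) := H882.isMerInf_of_mem_goodRing hu.1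
  have hexp1 : InfExp 1 (fun τ => U τ ^ p)
      (coeffMap ιK ((u : FF N) : LaurentSeries Kbar)) := by
    intro τ
    have := hasSum_qexpFun hmer τ
    rw [hu.2, K2_iotaC_eq] at this
    exact this
  have hexpN := K2_infExp_of_one N hexp1
  have hqU : A.toHolBase.qexp (Uh ^ p) = HolBase.Φ N ((u : FF N) : LaurentSeries Kbar) := by
    have hs : InfExp N (((Uh ^ p : A.toHolBase.Hol) : ℍ → ℂ)) (A.toHolBase.qexp (Uh ^ p)) :=
      expInf_spec (holToExp N (Uh ^ p))
    exact hs.unique' hexpN (fun τ => rfl)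
  -- `u = r / s`
  obtain ⟨r, s, hs, hrs⟩ := exists_div_inclRN N u
  have hs' : inclRN N s ≠ 0 := fun h => hs (inclRN_injective N (by rw [h, map_zero]))
  have hus : ((u : FF N) : LaurentSeries Kbar) * (s : LaurentSeries Kbar)
      = (r : LaurentSeries Kbar) := by
    have h1 : u * inclRN N s = inclRN N r := by rw [hrs, div_mul_cancel₀ _ hs']
    have := congrArg (fun f : FF N => (f : LaurentSeries Kbar)) h1
    simpa using this
  have hrel : A.toHolBase.bridge r * (1 : A.toHolBase.Hol) ^ p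
      = A.toHolBase.constH 1 * Uh ^ p * A.toHolBase.bridge s := by
    apply A.toHolBase.qexp_injective
    have h1 : A.toHolBase.qexp (A.toHolBase.constH 1) = 1 := by
      have := A.toHolBase.qexp_const 1
      rw [HahnSeries.C_one] at this
      exact this
    rw [one_pow, mul_one, map_mul, map_mul, HolBase.qexp_bridge, HolBase.qexp_bridge, hqU,
      h1, one_mul, ← map_mul, hus]
  have hr : r ≠ 0 := by
    intro hr0
    rw [hr0, map_zero, zero_mul] at hrel
    have h1 : A.toHolBase.constH 1 * Uh ^ p * A.toHolBase.bridge s = 0 := hrel.symm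
    have hb : A.toHolBase.bridge s ≠ 0 := fun h =>
      hs (HolBase.bridge_injective A.toHolBase (by rw [h, map_zero]))
    have hc1 : A.toHolBase.constH 1 ≠ 0 := by
      intro h
      have := congrArg A.toHolBase.qexp h
      rw [map_zero] at this
      have h2 := A.toHolBase.qexp_const 1
      rw [HahnSeries.C_one] at h2
      rw [HolBase.constH, h2] at this
      exact one_ne_zero this
    have : IsDomain A.toHolBase.Hol :=
      Function.Injective.isDomain A.toHolBase.qexp A.toHolBase.qexp_injective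
    exact mul_ne_zero (mul_ne_zero hc1 (pow_ne_zero p hUh)) hb h1
  have hinv : ∀ δ : SL(2, ℤ), δ ∈ CongruenceSubgroup.Gamma0 N → Nice δ →
      A.toHolBase.compH δ Uh * 1 = Uh * A.toHolBase.compH δ 1 := by
    intro δ hδ hnice
    rw [map_one, mul_one, mul_one]
    have hc0 : c ⟨δ, hδ⟩ = 0 := by
      rcases hnice with hfin | htr
      · obtain ⟨n, hn, hpow⟩ := isOfFinOrder_iff_pow_eq_one.mp hfin
        exact hc.elliptic ⟨δ, hδ⟩ n hn (Subtype.ext (by simpa using hpow))
      · exact hc.parabolic ⟨δ, hδ⟩ (Or.inl htr)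
    apply Subtype.ext
    funext τ
    have h2 := hU.hasChar ⟨δ, hδ⟩ τ
    rw [hc0] at h2
    simp only [ZMod.val_zero, pow_zero, one_mul] at h2
    exact h2
  obtain ⟨x, hx⟩ := exists_isKummerClass_of_analytic_pow A p (NeZero.ne p) r s hr hs Uh 1 hUh
    one_ne_zero 1 one_ne_zero hrel hinv
  exact ⟨x, by rw [hrs]; exact hx⟩

end Main

end Fermat.Agent.S29.H389

end
end
-- ===== PACK-END S29/H389/K2.lean

-- ===== PACK-BEGIN S29/M4b/K3/Defs.lean
section
/-
S29 row, LAYER M, SUB-LAYER M4b, PIECE K3 (descent `ℂ → ℚ̄`) — interface definitions of the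
K3 sub-skeleton (helper42, squad-lead S29/S42).  Namespace `Fermat.Agent.S29.M4b.K3`.

K3 (`exists_realised_isTwisted` of `M4b/Skeleton.lean`) is PROVED in `M4b/K3/Top.lean` from
* `H152.desc_main` (helper152; places-free descent of Kummer classes),
* the landed ROOT lemma `H751.exists_pow_eq_UHP`, MERO `H882`, and
* the two `Prop`s below: `DegStatement` (bounded degree of `F_ℂ` over `ℂ(j)`) and `FinStatement`
  (finiteness of the `Aut(ℂ/ℚ̄)`-orbit of the Kummer class of a twisted function).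
-/


set_option autoImplicit false

noncomputable section

open ModularCurve AlgebraicCurve CongruenceSubgroup UpperHalfPlane
open scoped MatrixGroups Manifold

namespace Fermat.Agent.S29.M4b.K3

open Fermat.Agent.S24 Fermat.Agent.S24.H648 Fermat.Agent.S24.H708 Fermat.Agent.S24.Deg457
open Fermat.Agent.S29 Fermat.Agent.S29.M4b

/-- `ℂ` as an algebra over `ℚ̄` along the fixed embedding `Deg457.iotaC`.  (A `def`, not an
instance: use `letI := algKC`.) -/
@[reducible] def algKC : Algebra Kbar ℂ := iotaC.toAlgebra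

/-- The function field of `X₀(N)` over `ℂ` inside `ℂ((q))` (Prelude object). -/
abbrev FC (N : ℕ) : IntermediateField ℂ (LaurentSeries ℂ) :=
  laurentBaseChange ℂ (modularFunctionFieldFull N)

/-- SUB-PIECE `K3-DEG`: the function field `F_ℂ = ℂ(j(q^d) : d ∣ N)` has bounded degree over
`ℂ(j)` (every element is a root of a polynomial of degree `≤ n` over `ℂ(j)`).
Exactly the hypothesis `hdeg` of `H152.desc_main`. -/
def DegStatement (N : ℕ) : Prop :=
  ∃ n : ℕ, ∀ u ∈ FC N,
    IsIntegral (IntermediateField.adjoin ℂ {coeffEmb ℂ jq}) u ∧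
      (minpoly (IntermediateField.adjoin ℂ {coeffEmb ℂ jq}) u).natDegree ≤ n

/-- SUB-PIECE `K3-FIN` (the arithmetic heart of K3): for a twisted function `U` of a parabolic
character, the `Aut(ℂ/ℚ̄)`-orbit of the class of `f = qexp (U ^ p)` in `F_ℂˣ / (F_ℂˣ) ^ p` is
finite.  Exactly the hypothesis `horb` of `H152.desc_main`.

Why true: `p ∣ ord_w f` at every place `w` of `F_ℂ/ℂ` (K2 over `ℂ`); `σ` permutes the places, so
the same holds for `σ f`, which is again the `q`-expansion of a good function `G_σ` (`σ f` is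
integral over `ℂ[j]`); by the easy half of the dictionary `p ∣ ord_τ G_σ` for all `τ ∈ ℍ`, so
`G_σ = U_σ ^ p` (ROOT) and `U_σ` has a character `χ_σ : Γ₀(N) → μ_p`
(`H751.exists_character_of_pow_eq`); there are finitely many characters (`Γ₀(N)` is finitely
generated), and `χ_σ = χ_σ'` implies `σ f / σ' f = (U_σ U_σ' ^ (p-1) / G_σ') ^ p ∈ (F_ℂˣ) ^ p`
(MERO applied to the good invariant function `U_σ U_σ' ^ (p-1)`). -/
def FinStatement (N p : ℕ) : Prop :=
  letI := algKC
  ∀ (c : G0 N → ZMod p), IsParHom c → ∀ U : ℍ → ℂ, IsTwisted N p c U →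
    ∃ T : Set (LaurentSeries ℂ), T.Finite ∧ ∀ σ : ℂ ≃ₐ[Kbar] ℂ, ∃ t ∈ T,
      ∃ u ∈ FC N, u ≠ 0 ∧
        coeffMap (σ : ℂ →+* ℂ) (qexpFun 1 (fun τ => U τ ^ p)) = t * u ^ p

end Fermat.Agent.S29.M4b.K3

end
end
-- ===== PACK-END S29/M4b/K3/Defs.lean

-- ===== PACK-BEGIN S29/M4b/Top.lean
section
/-
S29 row, LAYER M, SUB-LAYER M4b (the Kummer map) — TOP ASSEMBLY over the seven pieces of
helper822's sub-skeleton (`origin/helper822:Fermat/Agent/S29/M4b/Skeleton.lean`), with the pieces
as `Prop`s (row-lead helper269; the assembly proof is helper822's `exists_kummerMap_of`).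

A piece is DONE when it proves one of the `Prop`s `PieceK1 N p`, ..., `PieceHecke N p` below
(they are the EXACT statements of the skeleton, for a fixed level `N` and modulus `p`).

`M4b_of_pieces` : the seven pieces for `(N, p)`, `p` prime ⟹ the Kummer bridge for `(N, p)`;
`M4bStatement_of_pieces` : the seven pieces for all `N` and all primes `p` ⟹ `M4bStatement`
(the `Prop` of `Fermat/Agent/S29/Parts.lean` consumed by `Main.S29_of_parts`).
The two group-theoretic facts about Hecke factorisations come from the landed `H149/HCoh.lean`.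
-/




set_option autoImplicit false

noncomputable section

open ModularCurve AlgebraicCurve CongruenceSubgroup UpperHalfPlane
open scoped MatrixGroups Manifold

namespace Fermat.Agent.S29.M4b

open Fermat.Agent.S24 Fermat.Agent.S29

section Pieces

variable (N : ℕ) [NeZero N] (p : ℕ)

/-- PIECE `K1` (twisted Eisenstein series). -/
def PieceK1 : Prop :=
  ∀ {c : G0 N → ZMod p}, IsParHom c → ∃ U : ℍ → ℂ, IsTwisted N p c U

/-- PIECE `K3` (descent `ℂ → ℚ̄`). -/
def PieceK3 : Prop :=
  ∀ {c : G0 N → ZMod p}, IsParHom c → ∀ {U : ℍ → ℂ}, IsTwisted N p c U →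
    ∃ (U' : ℍ → ℂ) (u : FF N), IsTwisted N p c U' ∧ Realises N u (fun τ => U' τ ^ p)

/-- PIECE `K2` (dictionary over `ℚ̄`). -/
def PieceK2 : Prop :=
  ∀ {c : G0 N → ZMod p}, IsParHom c → ∀ {U : ℍ → ℂ} {u : FF N}, IsTwisted N p c U →
    Realises N u (fun τ => U τ ^ p) → ∃ x : JZero N, H455.IsKummerClass (p : ℤ) u x

/-- PIECE `K4-UNIQ`. -/
def PieceUniq : Prop :=
  ∀ {c : G0 N → ZMod p} {x x' : JZero N}, IsKum N p c x → IsKum N p c x' → x = x'

/-- PIECE `K4-INJ`. -/
def PieceInj : Prop :=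
  ∀ {c : G0 N → ZMod p}, IsKum N p c (0 : JZero N) → c = 0

/-- PIECE `K4-ADD`. -/
def PieceAdd : Prop :=
  ∀ {c c' : G0 N → ZMod p} {x x' : JZero N},
    IsKum N p c x → IsKum N p c' x' → IsKum N p (c + c') (x + x')

/-- PIECE `K4-HECKE`. -/
def PieceHecke : Prop :=
  ∀ (ℓ : Nat.Primes), ¬ (ℓ : ℕ) ∣ N * p →
    (∀ γ : G0 N, ∃ (π : Equiv.Perm (Option (Fin (ℓ : ℕ)))) (δ : Option (Fin (ℓ : ℕ)) → G0 N),
      ∀ i, IsHeckeFactor (ℓ : ℕ) γ i (π i, δ i)) →
    ∀ {c c' : G0 N → ZMod p}, IsParHom c → IsTransfer N (ℓ : ℕ) c c' →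
      ∀ {x : JZero N}, IsKum N p c x → IsKum N p c' (heckeOperatorBar N ℓ x)

end Pieces

section Assembly

variable {N : ℕ} [NeZero N] {p : ℕ}

theorem top_isKum_exists (h1 : PieceK1 N p) (h3 : PieceK3 N p) (h2 : PieceK2 N p)
    {c : G0 N → ZMod p} (hc : IsParHom c) : ∃ x : JZero N, IsKum N p c x := by
  obtain ⟨U, hU⟩ := h1 hc
  obtain ⟨U', u, hU', hu⟩ := h3 hc hU
  obtain ⟨x, hx⟩ := h2 hc hU' hu
  refine ⟨x, u, 1, U', one_ne_zero, hx, hU', ?_⟩
  simpa using hu

theorem top_isKum_mem_Jp {c : G0 N → ZMod p} {x : JZero N} (h : IsKum N p c x) :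
    x ∈ Jp N p := by
  obtain ⟨f, t, U, -, hx, -, -⟩ := h
  rw [Submodule.mem_torsionBy_iff]
  exact hx.zsmul_eq_zero

open Classical in
/-- The Kummer map: `κ c` is THE Kummer class of `c` (and `0` if there is none). -/
def topKummerMap (N : ℕ) [NeZero N] (p : ℕ) (c : G0 N → ZMod p) : Jp N p :=
  if h : ∃ x : JZero N, IsKum N p c x then ⟨h.choose, top_isKum_mem_Jp h.choose_spec⟩ else 0

theorem top_isKum_kummerMap (h1 : PieceK1 N p) (h3 : PieceK3 N p) (h2 : PieceK2 N p)
    {c : G0 N → ZMod p} (hc : IsParHom c) :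
    IsKum N p c (topKummerMap N p c : JZero N) := by
  have h := top_isKum_exists h1 h3 h2 hc
  rw [topKummerMap, dif_pos h]
  exact h.choose_spec

theorem top_kummerMap_eq (hu : PieceUniq N p) {c : G0 N → ZMod p} {x : JZero N}
    (h : IsKum N p c x) : (topKummerMap N p c : JZero N) = x := by
  have h' : ∃ x : JZero N, IsKum N p c x := ⟨x, h⟩
  rw [topKummerMap, dif_pos h']
  exact hu h'.choose_spec h

/-- The transfer of `c` is `heckeCoh N ℓ c` (`ℓ ∤ N` prime). -/
theorem top_isTransfer_heckeCoh {ℓ : ℕ} (hℓ : ℓ.Prime) (hℓN : ¬ ℓ ∣ N) (c : G0 N → ZMod p) :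
    IsTransfer N ℓ c (heckeCoh N ℓ c) := by
  intro γ π δ hfac
  unfold heckeCoh
  refine Finset.sum_congr rfl fun i _ => ?_
  rw [H149.HCoh_heckeFac_unique hℓ hℓN (hfac i)]

/-- Existence of the Hecke factorisation, with the index map a permutation. -/
theorem top_exists_factor {ℓ : ℕ} (hℓ : ℓ.Prime) (hℓN : ¬ ℓ ∣ N) (γ : G0 N) :
    ∃ (π : Equiv.Perm (Option (Fin ℓ))) (δ : Option (Fin ℓ) → G0 N),
      ∀ i, IsHeckeFactor ℓ γ i (π i, δ i) :=
  ⟨H149.HCoh_perm (H149.HCoh_isFactorSystem hℓ hℓN) γ, fun i => (heckeFac N ℓ γ i).2,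
    fun i => H149.HCoh_heckeFac_spec hℓ hℓN γ i⟩

/-- **Output of sub-layer M4b** for a fixed level and modulus, from the seven pieces. -/
theorem M4b_of_pieces (N : ℕ) [NeZero N] (p : ℕ)
    (h1 : PieceK1 N p) (h3 : PieceK3 N p) (h2 : PieceK2 N p) (hu : PieceUniq N p)
    (hi : PieceInj N p) (ha : PieceAdd N p) (hh : PieceHecke N p) :
    ∃ κ : (G0 N → ZMod p) → Jp N p,
      (∀ c c', IsParHom c → IsParHom c' → κ (c + c') = κ c + κ c') ∧
      (∀ c, IsParHom c → κ c = 0 → c = 0) ∧
      (∀ ℓ : Nat.Primes, ¬ (ℓ : ℕ) ∣ N * p → ∀ c, IsParHom c →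
        κ (heckeCoh N ℓ c) = heckeJp N p ℓ (κ c)) := by
  refine ⟨topKummerMap N p, fun c c' hc hc' => ?_, fun c hc h0 => ?_, fun ℓ hℓ c hc => ?_⟩
  · apply Subtype.ext
    rw [Submodule.coe_add]
    exact top_kummerMap_eq hu
      (ha (top_isKum_kummerMap h1 h3 h2 hc) (top_isKum_kummerMap h1 h3 h2 hc'))
  · have h := top_isKum_kummerMap h1 h3 h2 hc
    rw [h0] at h
    exact hi h
  · apply Subtype.ext
    rw [coe_heckeJp]
    have hℓN : ¬ (ℓ : ℕ) ∣ N := fun h => hℓ (Dvd.dvd.mul_right h p)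
    exact top_kummerMap_eq hu (hh ℓ hℓ (top_exists_factor ℓ.2 hℓN) hc
      (top_isTransfer_heckeCoh ℓ.2 hℓN c) (top_isKum_kummerMap h1 h3 h2 hc))

/-- The seven pieces for all levels and all PRIME moduli give `M4bStatement`. -/
theorem M4bStatement_of_pieces
    (h1 : ∀ (N : ℕ) [NeZero N] (p : ℕ), p.Prime → PieceK1 N p)
    (h3 : ∀ (N : ℕ) [NeZero N] (p : ℕ), p.Prime → PieceK3 N p)
    (h2 : ∀ (N : ℕ) [NeZero N] (p : ℕ), p.Prime → PieceK2 N p)
    (hu : ∀ (N : ℕ) [NeZero N] (p : ℕ), p.Prime → PieceUniq N p)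
    (hi : ∀ (N : ℕ) [NeZero N] (p : ℕ), p.Prime → PieceInj N p)
    (ha : ∀ (N : ℕ) [NeZero N] (p : ℕ), p.Prime → PieceAdd N p)
    (hh : ∀ (N : ℕ) [NeZero N] (p : ℕ), p.Prime → PieceHecke N p) :
    M4bStatement := by
  intro N _ p hp
  exact M4b_of_pieces N p (h1 N p hp.out) (h3 N p hp.out) (h2 N p hp.out) (hu N p hp.out)
    (hi N p hp.out) (ha N p hp.out) (hh N p hp.out)

end Assembly

end Fermat.Agent.S29.M4b

end
end
-- ===== PACK-END S29/M4b/Top.lean

-- ===== PACK-BEGIN S29/H332/KummerChar.lean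
section




/-!
# S29 / M4b / K1 — Kummer functions of additive characters `Γ₀(N) → ℤ/m`

For an additive map `c : Γ₀(N) → ZMod m` vanishing on all elements of trace `±2` we package the
character `χ_c(γ) = exp(2πi c(γ)/m)` and the Kummer function `h_c = E^{χ_c}₁₂ / (2Δ)`:

* `h_c ∈ holN N`, `h_c(γτ) = χ_c(γ) h_c(τ)`;
* `h_c ^ m ∈ goodRing N` and its `q`-expansion `kummerExp ^ m` lies in the function field
  `laurentBaseChange ℂ (modularFunctionFieldFull N)` (via helper882's MERO);
* `q`-expansion of `h_c` has order `-1` and leading coefficient `1`.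

The modulus `m ≥ 1` is arbitrary (rows S29: `m = p`; S30: `m = p ^ n`).
-/

set_option autoImplicit false
set_option linter.unusedSectionVars false

noncomputable section

open UpperHalfPlane HahnSeries ModularCurve Complex AlgebraicCurve
open scoped Real MatrixGroups Manifold

namespace Fermat.Agent.S29.H332

open Fermat.Agent.S24 Fermat.Agent.S24.H997 Fermat.Agent.S24.H624 Fermat.Agent.S24.H648

variable {N m : ℕ} [NeZero m]

/-- An additive character `Γ₀(N) → ℤ/m` vanishing on the elements of trace `±2`. -/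
structure IsParAdd (c : CongruenceSubgroup.Gamma0 N → ZMod m) : Prop where
  map_mul : ∀ γ γ' : CongruenceSubgroup.Gamma0 N, c (γ * γ') = c γ + c γ'
  parabolic : ∀ γ : CongruenceSubgroup.Gamma0 N,
    ((γ : SL(2, ℤ)).1.trace = 2 ∨ (γ : SL(2, ℤ)).1.trace = -2) → c γ = 0

namespace IsParAdd

variable {c c' : CongruenceSubgroup.Gamma0 N → ZMod m}

theorem map_one (hc : IsParAdd c) : c 1 = 0 := by
  have h := hc.map_mul 1 1
  rw [mul_one] at h
  exact left_eq_add.mp h

/-- The multiplicative character `γ ↦ exp(2πi c(γ)/m)`. -/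
def char (hc : IsParAdd c) : CongruenceSubgroup.Gamma0 N →* ℂˣ :=
  MonoidHom.toHomUnits
    { toFun := fun γ => ZMod.stdAddChar (c γ)
      map_one' := by rw [hc.map_one, AddChar.map_zero_eq_one]
      map_mul' := fun γ γ' => by rw [hc.map_mul, AddChar.map_add_eq_mul] }

@[simp]
theorem char_apply (hc : IsParAdd c) (γ : CongruenceSubgroup.Gamma0 N) :
    (hc.char γ : ℂ) = ZMod.stdAddChar (c γ) := rfl

theorem norm_char (hc : IsParAdd c) (γ : CongruenceSubgroup.Gamma0 N) :
    ‖(hc.char γ : ℂ)‖ = 1 := by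
  rw [char_apply, ZMod.stdAddChar_apply]
  exact Circle.norm_coe _

theorem char_pow (hc : IsParAdd c) (γ : CongruenceSubgroup.Gamma0 N) : hc.char γ ^ m = 1 := by
  apply Units.ext
  rw [Units.val_pow_eq_pow_val, char_apply, ← AddChar.map_nsmul_eq_pow, Units.val_one]
  have : m • c γ = 0 := by
    rw [nsmul_eq_mul]
    simp
  rw [this, AddChar.map_zero_eq_one]

theorem char_eq_one_iff (hc : IsParAdd c) (γ : CongruenceSubgroup.Gamma0 N) :
    hc.char γ = 1 ↔ c γ = 0 := by
  constructor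
  · intro h
    have h1 : (hc.char γ : ℂ) = 1 := by rw [h, Units.val_one]
    rw [char_apply, ← AddChar.map_zero_eq_one (ZMod.stdAddChar (N := m))] at h1
    exact ZMod.injective_stdAddChar h1
  · intro h
    apply Units.ext
    rw [char_apply, h, AddChar.map_zero_eq_one, Units.val_one]

theorem parTrivial (hc : IsParAdd c) : ParTrivial hc.char := by
  intro γ hγ
  rw [char_eq_one_iff]
  exact hc.parabolic γ hγ

theorem ellTrivial (hc : IsParAdd c)
    (hell : ∀ (γ : CongruenceSubgroup.Gamma0 N) (n : ℕ), 0 < n → γ ^ n = 1 → c γ = 0) :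
    EllTrivial hc.char := by
  intro γ n hn hγ
  rw [char_eq_one_iff]
  exact hell γ n hn hγ

theorem add (hc : IsParAdd c) (hc' : IsParAdd c') : IsParAdd (c + c') where
  map_mul γ γ' := by
    simp only [Pi.add_apply, hc.map_mul, hc'.map_mul]
    abel
  parabolic γ hγ := by
    simp only [Pi.add_apply, hc.parabolic γ hγ, hc'.parabolic γ hγ, add_zero]

theorem char_add (hc : IsParAdd c) (hc' : IsParAdd c') :
    (hc.add hc').char = hc.char * hc'.char := by
  ext γ
  simp [AddChar.map_add_eq_mul]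

variable [NeZero N]

variable (N) in
/-- The Kummer function of an additive parabolic character. -/
def kfun (hc : IsParAdd c) : ℍ → ℂ := kummerFun N hc.char

variable (N) in
/-- Its `q`-expansion at `i∞`. -/
def kexp (hc : IsParAdd c) : LaurentSeries ℂ := kummerExp N hc.char

theorem kfun_mem_holN (hc : IsParAdd c) : hc.kfun N ∈ holN N :=
  kummerFun_mem_holN hc.parTrivial hc.norm_char

theorem kfun_smul (hc : IsParAdd c) (γ : CongruenceSubgroup.Gamma0 N) (τ : ℍ) :
    hc.kfun N ((γ : SL(2, ℤ)) • τ) = ZMod.stdAddChar (c γ) * hc.kfun N τ :=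
  hasCharacter_kummerFun hc.parTrivial γ τ

theorem kfun_pow_mem_goodRing (hc : IsParAdd c) : hc.kfun N ^ m ∈ goodRing N :=
  kummerFun_pow_mem_goodRing hc.parTrivial hc.norm_char hc.char_pow

theorem hasQExp_kfun (hc : IsParAdd c) :
    Fermat.Agent.S24.H708.HasQExp 1 (hc.kfun N) (hc.kexp N) :=
  hasQExp_kummerFun hc.parTrivial hc.norm_char

theorem kexp_order (hc : IsParAdd c) : (hc.kexp N).order = -1 :=
  (kummerExp_eq hc.parTrivial hc.norm_char).1

theorem kexp_leadingCoeff (hc : IsParAdd c) : (hc.kexp N).leadingCoeff = 1 :=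
  (kummerExp_eq hc.parTrivial hc.norm_char).2

theorem kexp_ne_zero (hc : IsParAdd c) : hc.kexp N ≠ 0 :=
  kummerExp_ne_zero hc.parTrivial hc.norm_char

theorem kfun_ne_zero (hc : IsParAdd c) : hc.kfun N ≠ 0 :=
  kummerFun_ne_zero hc.parTrivial hc.norm_char

theorem hasCharacter_kfun (hc : IsParAdd c) : HasCharacter hc.char (hc.kfun N) :=
  hasCharacter_kummerFun hc.parTrivial

/-- **K2 (analytic part)**: local divisibility of the orders of the Kummer function, at a point
with rotation `ε` of finite order (`ε = 1`, `S`, `S * T`), for the coset `g⁻¹ Γ₀(N)` of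
`ε`-period `k`. -/
theorem kfun_dvd_mul_order_of_finite_order (hc : IsParAdd c)
    (hell : ∀ (γ : CongruenceSubgroup.Gamma0 N) (n : ℕ), 0 < n → γ ^ n = 1 → c γ = 0)
    (X : Expansion (holBase N)) {ε : SL(2, ℤ)} (R : RotData (holBase N) X ε)
    {n : ℕ} (hn : 0 < n) (hε : ε ^ n = 1)
    (g : SL(2, ℤ)) (k : ℕ) (hk : g * ε ^ k * g⁻¹ ∈ CongruenceSubgroup.Gamma0 N) :
    (R.m : ℤ) ∣ (k : ℤ) * (X.E ((holBase N).compH g ⟨hc.kfun N, hc.kfun_mem_holN⟩)).order :=
  hc.hasCharacter_kfun.dvd_mul_order_of_finite_order hc.kfun_mem_holN hc.kfun_ne_zero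
    (hc.ellTrivial hell) X R hn hε g k hk

/-- **K2 (analytic part)** at the cusps (`ε = T`). -/
theorem kfun_dvd_mul_order_T (hc : IsParAdd c)
    (X : Expansion (holBase N)) (R : RotData (holBase N) X ModularGroup.T)
    (g : SL(2, ℤ)) (k : ℕ)
    (hk : g * ModularGroup.T ^ k * g⁻¹ ∈ CongruenceSubgroup.Gamma0 N) :
    (R.m : ℤ) ∣ (k : ℤ) * (X.E ((holBase N).compH g ⟨hc.kfun N, hc.kfun_mem_holN⟩)).order :=
  hc.hasCharacter_kfun.dvd_mul_order_T hc.kfun_mem_holN hc.kfun_ne_zero hc.parTrivial X R g k hk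

/-- **K1 + MERO**: the `q`-expansion of `h_c ^ m` lies in the function field of `X₀(N)` over `ℂ`. -/
theorem kexp_pow_mem_FC (hc : IsParAdd c) :
    hc.kexp N ^ m ∈ laurentBaseChange ℂ (modularFunctionFieldFull N) :=
  Fermat.Agent.S29.H882.mem_FC_of_hasQExp hc.kfun_pow_mem_goodRing
    ((hc.hasQExp_kfun).pow m)

end IsParAdd

end Fermat.Agent.S29.H332

end
end
-- ===== PACK-END S29/H332/KummerChar.lean

-- ===== PACK-BEGIN S29/H332/K1.lean
section



/-!
# S29 / M4b — PIECE `K1` (exact skeleton type)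

`exists_isTwisted` : for a parabolic character `c : Γ₀(N) → ℤ/p` (any modulus `p ≥ 1`) there is a
twisted function `U` of character `c`; `U = E^χ₁₂ / (2Δ)`, `χ = ζ_p ^ c`.
-/

set_option autoImplicit false
set_option linter.unusedSectionVars false

noncomputable section

open ModularCurve AlgebraicCurve CongruenceSubgroup UpperHalfPlane
open scoped MatrixGroups Manifold

namespace Fermat.Agent.S29.H332

open Fermat.Agent.S24 Fermat.Agent.S29 Fermat.Agent.S29.M4b

variable {N : ℕ} {p : ℕ} [NeZero p]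

/-- `ζ_p ^ (a.val) = stdAddChar a`. -/
theorem zetaP_pow_val (a : ZMod p) : zetaP p ^ a.val = ZMod.stdAddChar a := by
  have h := ZMod.stdAddChar_coe (N := p) (a.val : ℤ)
  rw [Int.cast_natCast, ZMod.natCast_zmod_val] at h
  rw [h, zetaP, ← Complex.exp_nat_mul]
  congr 1
  push_cast
  ring

/-- A parabolic character in the sense of `DefsM` is one in the sense of `H332`. -/
theorem isParAdd_of_isParHom {c : G0 N → ZMod p} (hc : IsParHom c) : IsParAdd c where
  map_mul := hc.map_mul
  parabolic := hc.parabolic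

variable (N p) in
/-- **PIECE `K1`** of the M4b skeleton (exact type). -/
theorem exists_isTwisted [NeZero N] {c : G0 N → ZMod p} (hc : IsParHom c) :
    ∃ U : ℍ → ℂ, IsTwisted N p c U := by
  have hc' : IsParAdd c := isParAdd_of_isParHom hc
  refine ⟨hc'.kfun N, ?_, ?_, ?_, ?_⟩
  · exact (hc'.kfun_mem_holN).1
  · by_contra hne
    exact hc'.kfun_ne_zero (funext fun τ => by_contra fun h => hne ⟨τ, h⟩)
  · intro γ τ
    rw [zetaP_pow_val]
    exact hc'.kfun_smul γ τ
  · exact hc'.kfun_pow_mem_goodRing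

end Fermat.Agent.S29.H332

end
end
-- ===== PACK-END S29/H332/K1.lean

-- ===== PACK-BEGIN S29/H942/SameChar.lean
section


/-!
# S29 / M4b / K3 (DESC), sub-piece (B) "FINITE" (helper942)

Two twisted functions of the SAME character have `p`-th powers whose `q`-expansions differ by a
`p`-th power of the function field `F_ℂ = laurentBaseChange ℂ (modularFunctionFieldFull N)`.

* `expGrowth_of_pow` : root of a growth bound.
* `mem_goodRing_of_pow_mem` : a holomorphic `Γ₀(N)`-invariant function with a good power is good.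
* `mul_pow_pred_mem_goodRing` : `U * V ^ (p - 1)` is good for `U`, `V` twisted of the same
  character.
* `exists_pow_mul_eq_of_isTwisted` : `qexp (U ^ p) = g ^ p * qexp (V ^ p)` with `g ∈ F_ℂ`, `g ≠ 0`.
* `exists_pow_mul_eq_of_realised` : the same for data `(f, t, U)` with `qexp (U ^ p) = f * t ^ p`
  (the shape used in `IsKum`).
-/

set_option autoImplicit false

noncomputable section

open ModularCurve AlgebraicCurve CongruenceSubgroup UpperHalfPlane
open scoped MatrixGroups Manifold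

namespace Fermat.Agent.S29.H942

open Fermat.Agent.S24 Fermat.Agent.S29 Fermat.Agent.S29.M4b

/-- Root of a growth bound: if `f ^ p` (`p ≠ 0`) has at most exponential growth, so has `f`. -/
theorem expGrowth_of_pow {f : ℍ → ℂ} {p : ℕ} (hp : p ≠ 0)
    (h : H648.ExpGrowth (fun τ => f τ ^ p)) : H648.ExpGrowth f := by
  obtain ⟨C, m, hC⟩ := h
  refine ⟨max C 1, m, fun τ hτ => ?_⟩
  have hexp : (1 : ℝ) ≤ Real.exp (2 * Real.pi * m * τ.im) := by
    apply Real.one_le_exp
    have := Real.pi_pos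
    have := τ.im_pos
    positivity
  have hpow := hC τ hτ
  rw [norm_pow] at hpow
  rcases le_total ‖f τ‖ 1 with h1 | h1
  · calc ‖f τ‖ ≤ 1 := h1
      _ = 1 * 1 := (one_mul 1).symm
      _ ≤ max C 1 * Real.exp (2 * Real.pi * m * τ.im) :=
          mul_le_mul (le_max_right _ _) hexp zero_le_one (le_trans zero_le_one (le_max_right _ _))
  · calc ‖f τ‖ ≤ ‖f τ‖ ^ p := le_self_pow₀ h1 hp
      _ ≤ C * Real.exp (2 * Real.pi * m * τ.im) := hpow
      _ ≤ max C 1 * Real.exp (2 * Real.pi * m * τ.im) := by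
          gcongr
          exact le_max_left _ _

/-- A holomorphic `Γ₀(N)`-invariant function one of whose powers is good is good. -/
theorem mem_goodRing_of_pow_mem (N : ℕ) {W : ℍ → ℂ} {p : ℕ} (hp : p ≠ 0)
    (hW : MDifferentiable 𝓘(ℂ) 𝓘(ℂ) W)
    (hinv : ∀ γ ∈ Gamma0 N, ∀ τ : ℍ, W (γ • τ) = W τ)
    (hpow : (fun τ => W τ ^ p) ∈ H648.goodRing N) : W ∈ H648.goodRing N := by
  refine ⟨hW, hinv, fun g => ?_⟩
  exact expGrowth_of_pow hp (hpow.2.2 g)

/-- `ζ_p ^ p = 1`. -/
theorem zetaP_pow_self' (p : ℕ) [NeZero p] : zetaP p ^ p = 1 := by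
  unfold zetaP
  rw [← Complex.exp_nat_mul]
  have hp : (p : ℂ) ≠ 0 := Nat.cast_ne_zero.mpr (NeZero.ne p)
  rw [mul_div_cancel₀ _ hp]
  exact Complex.exp_two_pi_mul_I

variable (N : ℕ) [NeZero N] (p : ℕ) [NeZero p]

/-- For `U`, `V` of the same character, `U * V ^ (p - 1)` is `Γ₀(N)`-invariant. -/
theorem mul_pow_pred_invariant {c : G0 N → ZMod p} {U V : ℍ → ℂ}
    (hU : HasChar N p c U) (hV : HasChar N p c V) (γ : SL(2, ℤ)) (hγ : γ ∈ Gamma0 N) (τ : ℍ) :
    U (γ • τ) * V (γ • τ) ^ (p - 1) = U τ * V τ ^ (p - 1) := by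
  have h1 := hU ⟨γ, hγ⟩ τ
  have h2 := hV ⟨γ, hγ⟩ τ
  simp only at h1 h2
  rw [h1, h2, mul_pow, ← pow_mul]
  have hp1 : 1 ≤ p := Nat.one_le_iff_ne_zero.mpr (NeZero.ne p)
  have hz : zetaP p ^ (c ⟨γ, hγ⟩).val * zetaP p ^ ((c ⟨γ, hγ⟩).val * (p - 1)) = 1 := by
    rw [← pow_add]
    have : (c ⟨γ, hγ⟩).val + (c ⟨γ, hγ⟩).val * (p - 1) = p * (c ⟨γ, hγ⟩).val := by
      have hpp : p - 1 + 1 = p := Nat.sub_add_cancel hp1
      calc (c ⟨γ, hγ⟩).val + (c ⟨γ, hγ⟩).val * (p - 1)
          = (c ⟨γ, hγ⟩).val * (p - 1 + 1) := by ring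
        _ = p * (c ⟨γ, hγ⟩).val := by rw [hpp, mul_comm]
    rw [this, pow_mul, zetaP_pow_self', one_pow]
  calc zetaP p ^ (c ⟨γ, hγ⟩).val * U τ * (zetaP p ^ ((c ⟨γ, hγ⟩).val * (p - 1)) * V τ ^ (p - 1))
      = (zetaP p ^ (c ⟨γ, hγ⟩).val * zetaP p ^ ((c ⟨γ, hγ⟩).val * (p - 1))) *
          (U τ * V τ ^ (p - 1)) := by ring
    _ = U τ * V τ ^ (p - 1) := by rw [hz, one_mul]

/-- For `U`, `V` twisted of the same character, `U * V ^ (p - 1)` is good. -/
theorem mul_pow_pred_mem_goodRing {c : G0 N → ZMod p} {U V : ℍ → ℂ}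
    (hU : IsTwisted N p c U) (hV : IsTwisted N p c V) :
    (fun τ => U τ * V τ ^ (p - 1)) ∈ H648.goodRing N := by
  refine mem_goodRing_of_pow_mem N (NeZero.ne p) (hU.mdiff.mul (hV.mdiff.pow (p - 1)))
    (fun γ hγ τ => mul_pow_pred_invariant N p hU.hasChar hV.hasChar γ hγ τ) ?_
  have h : (fun τ => (U τ * V τ ^ (p - 1)) ^ p)
      = (fun τ => U τ ^ p) * (fun τ => V τ ^ p) ^ (p - 1) := by
    funext τ
    simp only [Pi.mul_apply, Pi.pow_apply]
    rw [mul_pow, ← pow_mul, ← pow_mul, mul_comm (p - 1) p]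
  rw [h]
  exact (H648.goodRing N).mul_mem hU.pow_mem ((H648.goodRing N).pow_mem hV.pow_mem _)

/-- `qexpFun` commutes with powers of functions meromorphic at `i∞`. -/
theorem qexpFun_pow' {f : ℍ → ℂ} (hf : H708.IsMerInf 1 f) (n : ℕ) :
    H708.qexpFun 1 (f ^ n) = H708.qexpFun 1 f ^ n := by
  induction n with
  | zero =>
      rw [pow_zero, pow_zero]
      have h1 : (1 : ℍ → ℂ) = fun _ => (1 : ℂ) := rfl
      rw [h1, H708.qexpFun_const]
      simp
  | succ n ih => rw [pow_succ, H708.qexpFun_mul (hf.pow n) hf, ih, pow_succ]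

omit [NeZero N] [NeZero p] in
/-- A twisted function has a nonzero `p`-th power. -/
theorem pow_ne_zero_of_isTwisted {c : G0 N → ZMod p} {U : ℍ → ℂ} (hU : IsTwisted N p c U) :
    (fun τ => U τ ^ p) ≠ 0 := by
  obtain ⟨τ, hτ⟩ := hU.ne_zero
  intro h0
  exact pow_ne_zero p hτ (congrFun h0 τ)

/-- The `q`-expansion of the `p`-th power of a twisted function is a nonzero element of `F_ℂ`. -/
theorem qexpFun_pow_ne_zero_of_isTwisted {c : G0 N → ZMod p} {U : ℍ → ℂ}
    (hU : IsTwisted N p c U) : H708.qexpFun 1 (fun τ => U τ ^ p) ≠ 0 := by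
  intro h0
  exact pow_ne_zero_of_isTwisted N p hU
    ((H708.qexpFun_eq_zero_iff (H882.isMerInf_of_mem_goodRing hU.pow_mem)).mp h0)

/-- **Sub-piece (B) of K3.**  If `U` and `V` are twisted functions of the same character `c`, then
the `q`-expansions of `U ^ p` and `V ^ p` differ by the `p`-th power of a nonzero element of the
function field `F_ℂ` of `X₀(N)` over `ℂ`. -/
theorem exists_pow_mul_eq_of_isTwisted {c : G0 N → ZMod p} {U V : ℍ → ℂ}
    (hU : IsTwisted N p c U) (hV : IsTwisted N p c V) :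
    ∃ g : LaurentSeries ℂ, g ∈ H882.FC N ∧ g ≠ 0 ∧
      H708.qexpFun 1 (fun τ => U τ ^ p) = g ^ p * H708.qexpFun 1 (fun τ => V τ ^ p) := by
  set W : ℍ → ℂ := fun τ => U τ * V τ ^ (p - 1) with hWdef
  have hW : W ∈ H648.goodRing N := mul_pow_pred_mem_goodRing N p hU hV
  have hWm := H882.isMerInf_of_mem_goodRing hW
  have hUm := H882.isMerInf_of_mem_goodRing hU.pow_mem
  have hVm := H882.isMerInf_of_mem_goodRing hV.pow_mem
  set w := H708.qexpFun 1 W with hw
  set a := H708.qexpFun 1 (fun τ => U τ ^ p) with ha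
  set b := H708.qexpFun 1 (fun τ => V τ ^ p) with hb
  have hwFC : w ∈ H882.FC N := H882.qexpFun_mem_FC hW
  have hbFC : b ∈ H882.FC N := H882.qexpFun_mem_FC hV.pow_mem
  have hb0 : b ≠ 0 := qexpFun_pow_ne_zero_of_isTwisted N p hV
  have ha0 : a ≠ 0 := qexpFun_pow_ne_zero_of_isTwisted N p hU
  -- `w ^ p = a * b ^ (p - 1)`
  have hfun : W ^ p = (fun τ => U τ ^ p) * (fun τ => V τ ^ p) ^ (p - 1) := by
    funext τ
    simp only [hWdef, Pi.mul_apply, Pi.pow_apply]
    rw [mul_pow, ← pow_mul, ← pow_mul, mul_comm (p - 1) p]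
  have hwp : w ^ p = a * b ^ (p - 1) := by
    rw [hw, ← qexpFun_pow' hWm p, hfun, H708.qexpFun_mul hUm (hVm.pow (p - 1)),
      qexpFun_pow' hVm (p - 1)]
  have hp1 : p - 1 + 1 = p := Nat.sub_add_cancel (Nat.one_le_iff_ne_zero.mpr (NeZero.ne p))
  refine ⟨w * b⁻¹, mul_mem hwFC (inv_mem hbFC), ?_, ?_⟩
  · refine mul_ne_zero ?_ (inv_ne_zero hb0)
    intro h0
    rw [h0, zero_pow (NeZero.ne p)] at hwp
    exact mul_ne_zero ha0 (pow_ne_zero _ hb0) hwp.symm
  · rw [mul_pow, hwp, inv_pow]
    have hbp : b ^ p = b ^ (p - 1) * b := by rw [← pow_succ, hp1]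
    rw [hbp, mul_inv]
    field_simp

/-- Variant of (B) for data in the shape of `IsKum`: if `qexp (U ^ p) = f * t ^ p` and
`qexp (V ^ p) = f' * t' ^ p` with `U`, `V` twisted of the same character, `t, t' ≠ 0`, then
`f = g ^ p * f'` for some nonzero `g ∈ F_ℂ` (provided `t, t' ∈ F_ℂ`). -/
theorem exists_pow_mul_eq_of_realised {c : G0 N → ZMod p} {U V : ℍ → ℂ}
    (hU : IsTwisted N p c U) (hV : IsTwisted N p c V) {f t f' t' : LaurentSeries ℂ}
    (ht : t ∈ H882.FC N) (ht0 : t ≠ 0) (ht' : t' ∈ H882.FC N) (ht0' : t' ≠ 0)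
    (hf : H708.qexpFun 1 (fun τ => U τ ^ p) = f * t ^ p)
    (hf' : H708.qexpFun 1 (fun τ => V τ ^ p) = f' * t' ^ p) :
    ∃ g : LaurentSeries ℂ, g ∈ H882.FC N ∧ g ≠ 0 ∧ f = g ^ p * f' := by
  obtain ⟨g, hg, hg0, h⟩ := exists_pow_mul_eq_of_isTwisted N p hU hV
  refine ⟨g * t' * t⁻¹, mul_mem (mul_mem hg ht') (inv_mem ht),
    mul_ne_zero (mul_ne_zero hg0 ht0') (inv_ne_zero ht0), ?_⟩
  rw [hf, hf'] at h
  have htp : t ^ p ≠ 0 := pow_ne_zero _ ht0
  rw [mul_pow, mul_pow, inv_pow]
  field_simp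
  rw [h]
  ring

end Fermat.Agent.S29.H942

end
end
-- ===== PACK-END S29/H942/SameChar.lean

-- ===== PACK-BEGIN S29/M4b/H822/Basic.lean
section
/-
S29 / M4b (helper822): basic API for the frozen definitions of `M4b/Defs.lean`
(roots of unity, characters, realisations).  Sorry-free.
-/


set_option autoImplicit false

noncomputable section

open ModularCurve AlgebraicCurve CongruenceSubgroup UpperHalfPlane
open scoped MatrixGroups Manifold

namespace Fermat.Agent.S29.M4b.H822

open Fermat.Agent.S24 Fermat.Agent.S29 Fermat.Agent.S29.M4b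

/-! ### The root of unity `zetaP p` -/

theorem isPrimitiveRoot_zetaP (p : ℕ) [NeZero p] : IsPrimitiveRoot (zetaP p) p := by
  unfold zetaP
  exact Complex.isPrimitiveRoot_exp p (NeZero.ne p)

theorem zetaP_pow_self (p : ℕ) [NeZero p] : zetaP p ^ p = 1 :=
  (isPrimitiveRoot_zetaP p).pow_eq_one

theorem zetaP_ne_zero (p : ℕ) [NeZero p] : zetaP p ≠ 0 := by
  unfold zetaP
  exact Complex.exp_ne_zero _

theorem zetaP_pow_val_add (p : ℕ) [NeZero p] (a b : ZMod p) :
    zetaP p ^ (a + b).val = zetaP p ^ a.val * zetaP p ^ b.val := by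
  rw [ZMod.val_add, ← pow_add, ← pow_eq_pow_mod _ (zetaP_pow_self p)]

theorem zetaP_pow_val_eq_one_iff (p : ℕ) [NeZero p] (a : ZMod p) :
    zetaP p ^ a.val = 1 ↔ a = 0 := by
  rw [(isPrimitiveRoot_zetaP p).pow_eq_one_iff_dvd]
  constructor
  · intro h
    have h1 : a.val = 0 := Nat.eq_zero_of_dvd_of_lt h (ZMod.val_lt a)
    exact (ZMod.val_eq_zero a).mp h1
  · rintro rfl
    simp

theorem zetaP_pow_val_zero (p : ℕ) [NeZero p] : zetaP p ^ (0 : ZMod p).val = 1 := by
  simp

/-! ### Characters -/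

theorem hasChar_mul {N p : ℕ} [NeZero p] {c c' : G0 N → ZMod p} {U U' : ℍ → ℂ}
    (h : HasChar N p c U) (h' : HasChar N p c' U') :
    HasChar N p (c + c') (fun τ => U τ * U' τ) := by
  intro γ τ
  show U _ * U' _ = _
  rw [h γ τ, h' γ τ, Pi.add_apply, zetaP_pow_val_add]
  ring

theorem hasChar_pow_invariant {N p : ℕ} [NeZero p] {c : G0 N → ZMod p} {U : ℍ → ℂ}
    (h : HasChar N p c U) (γ : G0 N) (τ : ℍ) :
    U ((γ : SL(2, ℤ)) • τ) ^ p = U τ ^ p := by
  rw [h γ τ, mul_pow, ← pow_mul, mul_comm (c γ).val p, pow_mul, zetaP_pow_self, one_pow, one_mul]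

/-! ### Realisations -/

section Realises

variable {N : ℕ} [NeZero N]

theorem realises_mem {u : FF N} {G : ℍ → ℂ} (h : Realises N u G) : G ∈ H648.goodRing N := h.1

theorem realises_isMerInf {u : FF N} {G : ℍ → ℂ} (h : Realises N u G) : H708.IsMerInf 1 G :=
  H882.isMerInf_of_mem_goodRing h.1

theorem realises_hasQExp {u : FF N} {G : ℍ → ℂ} (h : Realises N u G) :
    H708.HasQExp 1 G (coeffMap Deg457.iotaC ((u : FF N) : LaurentSeries Kbar)) :=
  ⟨realises_isMerInf h, h.2⟩

theorem realises_of_hasQExp {u : FF N} {G : ℍ → ℂ} (hG : G ∈ H648.goodRing N)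
    (h : H708.HasQExp 1 G (coeffMap Deg457.iotaC ((u : FF N) : LaurentSeries Kbar))) :
    Realises N u G :=
  ⟨hG, h.2⟩

theorem realises_mul {u v : FF N} {G H : ℍ → ℂ} (hu : Realises N u G) (hv : Realises N v H) :
    Realises N (u * v) (G * H) := by
  refine realises_of_hasQExp ((H648.goodRing N).mul_mem hu.1 hv.1) ?_
  have := (realises_hasQExp hu).mul (realises_hasQExp hv)
  simpa using this

theorem realises_pow {u : FF N} {G : ℍ → ℂ} (hu : Realises N u G) (n : ℕ) :
    Realises N (u ^ n) (G ^ n) := by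
  refine realises_of_hasQExp ((H648.goodRing N).pow_mem hu.1 n) ?_
  have := (realises_hasQExp hu).pow n
  simpa using this

theorem coeffMap_iotaC_injective :
    Function.Injective (coeffMap Deg457.iotaC : LaurentSeries Kbar → LaurentSeries ℂ) := by
  intro x y h
  ext n
  have h1 := congrArg (fun z : LaurentSeries ℂ => z.coeff n) h
  simp only [coeffMap] at h1
  exact Deg457.iotaC.injective (by simpa using h1)

/-- A realisation of a nonzero element is not the zero function. -/
theorem realises_ne_zero {u : FF N} {G : ℍ → ℂ} (h : Realises N u G) (hu : u ≠ 0) : G ≠ 0 := by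
  intro hG
  have h1 := ((realises_hasQExp h).eq_zero_iff).mpr hG
  have h2 : ((u : FF N) : LaurentSeries Kbar) = 0 :=
    coeffMap_iotaC_injective (by rw [h1, map_zero])
  exact hu (Subtype.ext h2)

/-- The realised element is determined by the function. -/
theorem realises_unique_left {u v : FF N} {G : ℍ → ℂ} (hu : Realises N u G)
    (hv : Realises N v G) : u = v := by
  apply Subtype.ext
  apply coeffMap_iotaC_injective
  rw [← hu.2, ← hv.2]

/-- The function is determined by the realised element. -/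
theorem realises_unique_right {u : FF N} {G H : ℍ → ℂ} (hG : Realises N u G)
    (hH : Realises N u H) : G = H :=
  (realises_hasQExp hG).eq_of_eq (realises_hasQExp hH)

/-- Every element of the polynomial ring `ℚ̄[j(q^d) : d ∣ N]` is realised by a good function. -/
theorem exists_realises_of_mem_AK {a : FF N}
    (ha : ((a : FF N) : LaurentSeries Kbar) ∈ Deg457.AK Kbar N) :
    ∃ G : ℍ → ℂ, Realises N a G := by
  have h1 := Deg457.coeffMap_mem_AK Deg457.iotaC ha
  obtain ⟨G, hG, hq⟩ := H882.AK_le_goodQ N h1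
  exact ⟨G, hG, hq.2⟩

end Realises

end Fermat.Agent.S29.M4b.H822

end
end
-- ===== PACK-END S29/M4b/H822/Basic.lean

-- ===== PACK-BEGIN S30/Fin/Count.lean
section
/-
S30 row, piece FIN (helper49): finiteness of the `m`-torsion of `J₀(N)(ℚ̄)` from the Kummer
relation `IsKum` of `Fermat.Agent.S29.M4b.Defs`.

`finite_torsion_of` : if every `m`-torsion class is the Kummer class of SOME function
`c : Γ₀(N) → ℤ/m` (piece `ONTO`), and Kummer classes are unique (piece `K4-UNIQ` of S29/M4b), then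
`J₀(N)(ℚ̄)[m]` is finite.  Reason: the character of a twisted function is additive, `Γ₀(N)` is
finitely generated, so there are only finitely many characters.
-/


set_option autoImplicit false

noncomputable section

open ModularCurve AlgebraicCurve CongruenceSubgroup UpperHalfPlane
open scoped MatrixGroups Manifold

namespace Fermat.Agent.S30.Fin

open Fermat.Agent.S29 Fermat.Agent.S29.M4b

/-- `SL(2, ℤ)` is finitely generated. -/
theorem fin_fg_SL2Z : Group.FG SL(2, ℤ) :=
  Group.fg_iff.mpr ⟨{ModularGroup.S, ModularGroup.T}, SpecialLinearGroup.SL2Z_generators,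
    Set.toFinite _⟩

/-- `Γ₀(N)` is finitely generated (Schreier). -/
theorem fin_fg_Gamma0 (N : ℕ) [NeZero N] : Group.FG (G0 N) := by
  have := fin_fg_SL2Z
  exact Subgroup.fg_of_index_ne_zero (Gamma0 N)

theorem fin_zetaP_isPrimitiveRoot (m : ℕ) [NeZero m] : IsPrimitiveRoot (zetaP m) m :=
  Complex.isPrimitiveRoot_exp m (NeZero.ne m)

/-- `ζ_m ^ a = ζ_m ^ b` forces `a = b` in `ℤ/m`. -/
theorem fin_natCast_eq_of_zetaP_pow_eq (m : ℕ) [NeZero m] {a b : ℕ}
    (h : zetaP m ^ a = zetaP m ^ b) : (a : ZMod m) = (b : ZMod m) := by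
  have hζ := fin_zetaP_isPrimitiveRoot m
  have hne : zetaP m ≠ 0 := hζ.ne_zero (NeZero.ne m)
  have key : ∀ a b : ℕ, a ≤ b → zetaP m ^ a = zetaP m ^ b → (a : ZMod m) = (b : ZMod m) := by
    intro a b hab h
    obtain ⟨d, rfl⟩ := Nat.exists_eq_add_of_le hab
    rw [pow_add] at h
    have h1 : zetaP m ^ d = 1 := by
      have h2 : zetaP m ^ a * 1 = zetaP m ^ a * zetaP m ^ d := by rw [mul_one]; exact h
      exact (mul_left_cancel₀ (pow_ne_zero a hne) h2).symm
    have h3 : m ∣ d := (hζ.pow_eq_one_iff_dvd d).mp h1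
    rw [Nat.cast_add, (ZMod.natCast_eq_zero_iff d m).mpr h3, add_zero]
  rcases le_total a b with hab | hab
  · exact key a b hab h
  · exact (key b a hab h.symm).symm

/-- The character of a twisted function is additive. -/
theorem fin_isTwisted_map_mul {N m : ℕ} [NeZero m] {c : G0 N → ZMod m} {U : ℍ → ℂ}
    (h : IsTwisted N m c U) (γ γ' : G0 N) : c (γ * γ') = c γ + c γ' := by
  obtain ⟨τ₀, hτ₀⟩ := h.ne_zero
  have h1 := h.hasChar (γ * γ') τ₀
  have h2 := h.hasChar γ (((γ' : G0 N) : SL(2, ℤ)) • τ₀)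
  have h3 := h.hasChar γ' τ₀
  have hsmul : (((γ * γ' : G0 N) : SL(2, ℤ))) • τ₀
      = ((γ : G0 N) : SL(2, ℤ)) • ((γ' : G0 N) : SL(2, ℤ)) • τ₀ := by
    rw [← mul_smul]
    rfl
  rw [hsmul, h2, h3, ← mul_assoc, ← pow_add] at h1
  have h4 : zetaP m ^ ((c γ).val + (c γ').val) = zetaP m ^ (c (γ * γ')).val :=
    mul_right_cancel₀ hτ₀ h1
  have h5 := fin_natCast_eq_of_zetaP_pow_eq m h4
  rw [Nat.cast_add, ZMod.natCast_zmod_val, ZMod.natCast_zmod_val, ZMod.natCast_zmod_val] at h5
  exact h5.symm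

/-- The character of a Kummer class is additive. -/
theorem fin_isKum_map_mul {N m : ℕ} [NeZero N] [NeZero m] {c : G0 N → ZMod m} {x : JZero N}
    (h : IsKum N m c x) (γ γ' : G0 N) : c (γ * γ') = c γ + c γ' := by
  obtain ⟨f, t, U, -, -, hU, -⟩ := h
  exact fin_isTwisted_map_mul hU γ γ'

/-- **FIN from ONTO and UNIQ.** -/
theorem finite_torsion_of (N : ℕ) [NeZero N] (m : ℕ) [NeZero m]
    (hex : ∀ x : JZero N, (m : ℤ) • x = 0 → ∃ c : G0 N → ZMod m, IsKum N m c x)
    (huniq : ∀ (c : G0 N → ZMod m) (x x' : JZero N), IsKum N m c x → IsKum N m c x' → x = x') :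
    {x : JZero N | (m : ℤ) • x = 0}.Finite := by
  classical
  obtain ⟨S, hS, hSfin⟩ := Group.fg_iff.mp (fin_fg_Gamma0 N)
  have : Finite S := hSfin.to_subtype
  choose! c hc using hex
  -- the character of `x` as a monoid homomorphism
  have hone : ∀ x : JZero N, (m : ℤ) • x = 0 → c x 1 = 0 := by
    intro x hx
    have h := fin_isKum_map_mul (hc x hx) 1 1
    rw [mul_one] at h
    exact left_eq_add.mp h
  let φ : {x : JZero N // (m : ℤ) • x = 0} → (S → ZMod m) := fun x s => c x.1 s.1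
  have hinj : Function.Injective φ := by
    rintro ⟨x, hx⟩ ⟨x', hx'⟩ h
    let f : G0 N →* Multiplicative (ZMod m) :=
      { toFun := fun γ => Multiplicative.ofAdd (c x γ)
        map_one' := by
          show Multiplicative.ofAdd (c x 1) = 1
          rw [hone x hx]; rfl
        map_mul' := fun γ γ' => by
          show Multiplicative.ofAdd (c x (γ * γ')) = _
          rw [fin_isKum_map_mul (hc x hx) γ γ']; rfl }
    let f' : G0 N →* Multiplicative (ZMod m) :=
      { toFun := fun γ => Multiplicative.ofAdd (c x' γ)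
        map_one' := by
          show Multiplicative.ofAdd (c x' 1) = 1
          rw [hone x' hx']; rfl
        map_mul' := fun γ γ' => by
          show Multiplicative.ofAdd (c x' (γ * γ')) = _
          rw [fin_isKum_map_mul (hc x' hx') γ γ']; rfl }
    have hff' : f = f' := by
      refine MonoidHom.eq_of_eqOn_dense hS ?_
      intro s hs
      show Multiplicative.ofAdd (c x s) = Multiplicative.ofAdd (c x' s)
      have := congrFun h ⟨s, hs⟩
      exact congrArg Multiplicative.ofAdd this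
    have hcc : c x = c x' := by
      funext γ
      have := DFunLike.congr_fun hff' γ
      exact Multiplicative.ofAdd.injective this
    apply Subtype.ext
    have h1 := hc x hx
    rw [hcc] at h1
    exact huniq (c x') x x' h1 (hc x' hx')
  have hfin : Finite {x : JZero N // (m : ℤ) • x = 0} := Finite.of_injective φ hinj
  exact Set.finite_coe_iff.mp hfin

end Fermat.Agent.S30.Fin

end
end
-- ===== PACK-END S30/Fin/Count.lean

-- ===== PACK-BEGIN S30/H810/Real.lean
section
/-
S30 / piece FIN-ONTO (helper810), part 1: analytic realisation of `R_N = ℚ̄[j(q^d) : d ∣ N]`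
by good functions, and the Taylor embeddings `σ_τ : FF N → ℂ((z))`.

* `realRN N : RN N →+* goodRing N` : the good function with `q`-expansion `ι r`;
* `sigmaTau N τ : FF N →+* LaurentSeries ℂ` : Taylor expansion at `τ` of the realisation;
* `sigmaTau_of_realises` : if `G` realises `u` (M4b `Realises`), then
  `sigmaTau N τ u = taylorLaurent τ G`.
-/





set_option autoImplicit false
set_option linter.unusedSectionVars false

noncomputable section

open ModularCurve AlgebraicCurve CongruenceSubgroup UpperHalfPlane HahnSeries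
open scoped MatrixGroups Manifold

namespace Fermat.Agent.S30.H810

open Fermat.Agent.S24 Fermat.Agent.S24.H648 Fermat.Agent.S24.H708 Fermat.Agent.S24.Deg457
open Fermat.Agent.S24.H624 Fermat.Agent.S24.H997 Fermat.Agent.S29 Fermat.Agent.S29.M4b
open Fermat.Agent.S29.H882

variable (N : ℕ) [NeZero N]

/-- every element of `R_N` is the `q`-expansion of a good function -/
theorem exists_good_of_RN (r : RN N) :
    ∃ f : ℍ → ℂ, f ∈ goodRing N ∧ HasQExp 1 f (coeffMap iotaC (r : LaurentSeries Kbar)) := by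
  have h1 : (r : LaurentSeries Kbar) ∈ AK Kbar N := r.2
  have h2 : coeffMap iotaC (r : LaurentSeries Kbar) ∈ AK ℂ N := coeffMap_mem_AK iotaC h1
  exact AK_le_goodQ N h2

/-- the good function realising `r ∈ R_N` -/
def realFun (r : RN N) : ℍ → ℂ := (exists_good_of_RN N r).choose

theorem realFun_mem (r : RN N) : realFun N r ∈ goodRing N :=
  (exists_good_of_RN N r).choose_spec.1

theorem realFun_hasQExp (r : RN N) :
    HasQExp 1 (realFun N r) (coeffMap iotaC (r : LaurentSeries Kbar)) :=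
  (exists_good_of_RN N r).choose_spec.2

/-- the realisation `R_N → goodRing N` as a ring hom -/
def realRN : RN N →+* goodRing N where
  toFun r := ⟨realFun N r, realFun_mem N r⟩
  map_one' := by
    apply Subtype.ext
    have h := realFun_hasQExp N (1 : RN N)
    have h1 : coeffMap iotaC ((1 : RN N) : LaurentSeries Kbar) = 1 := by
      rw [OneMemClass.coe_one, map_one]
    rw [h1] at h
    exact h.eq_of_eq (HasQExp.one 1)
  map_mul' a b := by
    apply Subtype.ext
    have h := realFun_hasQExp N (a * b)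
    have h1 : coeffMap iotaC ((a * b : RN N) : LaurentSeries Kbar)
        = coeffMap iotaC (a : LaurentSeries Kbar) * coeffMap iotaC (b : LaurentSeries Kbar) := by
      rw [MulMemClass.coe_mul, map_mul]
    rw [h1] at h
    exact h.eq_of_eq ((realFun_hasQExp N a).mul (realFun_hasQExp N b))
  map_zero' := by
    apply Subtype.ext
    have h := realFun_hasQExp N (0 : RN N)
    have h1 : coeffMap iotaC ((0 : RN N) : LaurentSeries Kbar) = 0 := by
      rw [ZeroMemClass.coe_zero, map_zero]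
    rw [h1] at h
    exact h.eq_of_eq (HasQExp.zero 1)
  map_add' a b := by
    apply Subtype.ext
    have h := realFun_hasQExp N (a + b)
    have h1 : coeffMap iotaC ((a + b : RN N) : LaurentSeries Kbar)
        = coeffMap iotaC (a : LaurentSeries Kbar) + coeffMap iotaC (b : LaurentSeries Kbar) := by
      rw [AddMemClass.coe_add, map_add]
    rw [h1] at h
    exact h.eq_of_eq ((realFun_hasQExp N a).add (realFun_hasQExp N b))

@[simp] theorem coe_realRN (r : RN N) : ((realRN N r : goodRing N) : ℍ → ℂ) = realFun N r := rfl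

theorem iotaC_injective : Function.Injective iotaC := iotaC.injective

theorem coeffMap_iotaC_injective :
    Function.Injective (coeffMap iotaC : LaurentSeries Kbar → LaurentSeries ℂ) := by
  intro x y h
  ext k
  apply iotaC_injective
  have := congrArg (fun s : LaurentSeries ℂ => s.coeff k) h
  simpa using this

theorem realRN_injective : Function.Injective (realRN N) := by
  intro a b h
  apply Subtype.ext
  apply coeffMap_iotaC_injective
  have ha := realFun_hasQExp N a
  have hb := realFun_hasQExp N b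
  have h' : realFun N a = realFun N b := congrArg Subtype.val h
  rw [h'] at ha
  exact ha.unique hb

/-- good functions are holomorphic -/
theorem goodRing_le_holoRing : goodRing N ≤ holoRing := fun _ hf => hf.1

/-- the inclusion `goodRing N → holoRing` -/
def goodToHolo : goodRing N →+* holoRing :=
  (Subalgebra.inclusion (goodRing_le_holoRing N)).toRingHom

@[simp] theorem coe_goodToHolo (f : goodRing N) :
    ((goodToHolo N f : holoRing) : ℍ → ℂ) = (f : ℍ → ℂ) := rfl

theorem goodToHolo_injective : Function.Injective (goodToHolo N) :=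
  Subalgebra.inclusion_injective (goodRing_le_holoRing N)

/-- Taylor expansion at `τ` of the realisation of `r ∈ R_N` -/
def sTau (τ : ℍ) : RN N →+* LaurentSeries ℂ :=
  (taylorLaurent τ).comp ((goodToHolo N).comp (realRN N))

theorem sTau_injective (τ : ℍ) : Function.Injective (sTau N τ) :=
  (taylorLaurent_injective τ).comp ((goodToHolo_injective N).comp (realRN_injective N))

/-- **The Taylor embedding** `σ_τ : FF N → ℂ((z))`. -/
def sigmaTau (τ : ℍ) : FF N →+* LaurentSeries ℂ := liftF (sTau N τ) (sTau_injective N τ)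

theorem sigmaTau_inclRN (τ : ℍ) (r : RN N) :
    sigmaTau N τ (inclRN N r) = taylorLaurent τ (goodToHolo N (realRN N r)) :=
  liftF_inclRN _ _ r

theorem algebraMap_laurent_eq_C (c : ℂ) :
    algebraMap ℂ (LaurentSeries ℂ) c = HahnSeries.C c := by
  rw [algebraMap_laurentSeries_eq_single]; rfl

theorem realFun_algebraMap (c : Kbar) :
    realFun N (algebraMap Kbar (RN N) c) = fun _ => iotaC c := by
  have h := realFun_hasQExp N (algebraMap Kbar (RN N) c)
  have h1 : ((algebraMap Kbar (RN N) c : RN N) : LaurentSeries Kbar)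
      = algebraMap Kbar (LaurentSeries Kbar) c := rfl
  rw [h1, coeffMap_algebraMap', algebraMap_laurent_eq_C] at h
  exact h.eq_of_eq (HasQExp.const 1 (iotaC c))

theorem taylorLaurent_const (τ : ℍ) (c : ℂ) (f : holoRing) (hf : (f : ℍ → ℂ) = fun _ => c) :
    taylorLaurent τ f = HahnSeries.C c := by
  have : f = algebraMap ℂ holoRing c := Subtype.ext hf
  rw [this, taylorLaurent_apply, AlgHom.commutes, PowerSeries.algebraMap_apply,
    Algebra.algebraMap_self, RingHom.id_apply, HahnSeries.ofPowerSeries_C]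

theorem sigmaTau_algebraMap (τ : ℍ) (c : Kbar) :
    sigmaTau N τ (algebraMap Kbar (FF N) c) = HahnSeries.C (iotaC c) := by
  rw [sigmaTau, liftF_algebraMap]
  exact taylorLaurent_const τ (iotaC c) _ (realFun_algebraMap N c)

variable {N}

theorem Realises.hasQExp {u : FF N} {G : ℍ → ℂ} (hG : Realises N u G) :
    HasQExp 1 G (coeffMap iotaC ((u : FF N) : LaurentSeries Kbar)) := by
  have h := hasQExp_of_mem_goodRing hG.1
  rwa [hG.2] at h

/-- **Compatibility**: if `G` realises `u`, then `σ_τ u` is the Taylor expansion of `G` at `τ`. -/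
theorem sigmaTau_of_realises {u : FF N} {G : ℍ → ℂ} (hG : Realises N u G)
    (hmd : G ∈ holoRing) (τ : ℍ) :
    sigmaTau N τ u = taylorLaurent τ ⟨G, hmd⟩ := by
  obtain ⟨r, t, ht, hu⟩ := exists_div_inclRN N u
  have ht' : inclRN N t ≠ 0 := fun h => ht (inclRN_injective N (by rw [h, map_zero]))
  have hmul : u * inclRN N t = inclRN N r := by
    rw [hu, div_mul_cancel₀ _ ht']
  have hcoe : ((u : FF N) : LaurentSeries Kbar) * (t : LaurentSeries Kbar)
      = (r : LaurentSeries Kbar) := by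
    have := congrArg (fun x : FF N => (x : LaurentSeries Kbar)) hmul
    simpa using this
  have hq : HasQExp 1 (G * realFun N t) (coeffMap iotaC (r : LaurentSeries Kbar)) := by
    have := (Realises.hasQExp hG).mul (realFun_hasQExp N t)
    rwa [← map_mul, hcoe] at this
  have hfun : G * realFun N t = realFun N r := hq.eq_of_eq (realFun_hasQExp N r)
  have hholo : (⟨G, hmd⟩ : holoRing) * goodToHolo N (realRN N t)
      = goodToHolo N (realRN N r) := Subtype.ext hfun
  have hT0 : taylorLaurent τ (goodToHolo N (realRN N t)) ≠ 0 := by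
    intro h
    exact ht (sTau_injective N τ (by rw [map_zero]; exact h))
  rw [hu, map_div₀, sigmaTau_inclRN, sigmaTau_inclRN, ← hholo, map_mul, mul_div_assoc,
    div_self hT0, mul_one]

end Fermat.Agent.S30.H810

end
end
-- ===== PACK-END S30/H810/Real.lean

-- ===== PACK-BEGIN S30/H109/Onto.lean
section



/-!
# S30 / adic layer, piece ONTO (helper109): every torsion class is a Kummer class

`exists_isKum_of_torsion` : if `m • x = 0` in `J₀(N)(ℚ̄)` then `x` is the Kummer class
(`M4b.IsKum`) of an additive character `c : Γ₀(N) → ℤ/m`.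

Input (hypothesis `DCStatement`, the converse direction of the dictionary DICT): a function
`f ∈ FF N` all of whose orders at the places of `FF N / ℚ̄` are divisible by `m` has, after
multiplication by an `m`-th power, a holomorphic realisation all of whose analytic orders of
vanishing are divisible by `m`.  Then ROOT (landed `H751`) gives the `m`-th root `U`, which
transforms by a character of `Γ₀(N)`.
-/

set_option autoImplicit false

noncomputable section

open ModularCurve AlgebraicCurve CongruenceSubgroup UpperHalfPlane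
open scoped MatrixGroups Manifold

namespace Fermat.Agent.S30.H109

open Fermat.Agent.S24 Fermat.Agent.S29 Fermat.Agent.S29.M4b

/-- The converse dictionary: divisibility of all algebraic orders by `m` gives a holomorphic
realisation (up to an `m`-th power) with all analytic orders divisible by `m`. -/
def DCStatement (N m : ℕ) [NeZero N] : Prop :=
  ∀ f : FF N, f ≠ 0 → (∀ v : Place Kbar (FF N), (m : ℤ) ∣ v.ord f) →
    ∃ (t : FF N) (G : ℍ → ℂ), t ≠ 0 ∧ Realises N (f * t ^ m) G ∧
      ∀ τ : ℍ, ∃ k : ℕ, analyticOrderAt (G ∘ ofComplex) (τ : ℂ) = ((m * k : ℕ) : ℕ∞)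

section roots

variable (m : ℕ) [NeZero m]

lemma zetaP_isPrimitiveRoot : IsPrimitiveRoot (zetaP m) m :=
  Complex.isPrimitiveRoot_exp m (NeZero.ne m)

lemma zetaP_pow_val_add (a b : ZMod m) :
    zetaP m ^ (a + b).val = zetaP m ^ a.val * zetaP m ^ b.val := by
  rw [← pow_add]
  have h1 : (a + b).val = (a.val + b.val) % m := ZMod.val_add a b
  rw [h1]
  exact (pow_mod_orderOf_aux m).symm
where
  pow_mod_orderOf_aux (m : ℕ) [NeZero m] {n : ℕ} :
      zetaP m ^ n = zetaP m ^ (n % m) := by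
    conv_lhs => rw [← Nat.div_add_mod n m, pow_add, pow_mul,
      (zetaP_isPrimitiveRoot m).pow_eq_one, one_pow, one_mul]

lemma zetaP_pow_val_injective {a b : ZMod m}
    (h : zetaP m ^ a.val = zetaP m ^ b.val) : a = b := by
  apply ZMod.val_injective m
  exact (zetaP_isPrimitiveRoot m).pow_inj (ZMod.val_lt a) (ZMod.val_lt b) h

lemma exists_zmod_of_pow_eq_one {z : ℂ} (hz : z ^ m = 1) :
    ∃ c : ZMod m, zetaP m ^ c.val = z := by
  obtain ⟨i, hi, hiz⟩ := (zetaP_isPrimitiveRoot m).eq_pow_of_pow_eq_one hz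
  refine ⟨(i : ZMod m), ?_⟩
  rw [ZMod.val_natCast_of_lt hi, hiz]

end roots

section onto

variable (N : ℕ) [NeZero N] (m : ℕ) [NeZero m]

/-- The character of an `m`-th root of a `Γ₀(N)`-invariant function. -/
theorem exists_hom_hasChar {U : ℍ → ℂ} (hU : MDifferentiable 𝓘(ℂ) 𝓘(ℂ) U)
    (hne : ∃ τ, U τ ≠ 0)
    (hinv : ∀ γ ∈ Gamma0 N, ∀ τ : ℍ, U (γ • τ) ^ m = U τ ^ m) :
    ∃ c : G0 N → ZMod m, (∀ γ γ' : G0 N, c (γ * γ') = c γ + c γ') ∧ HasChar N m c U := by
  have hm : m ≠ 0 := NeZero.ne m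
  obtain ⟨τ₁, hτ₁⟩ := hne
  -- the constant attached to `γ`
  have key : ∀ γ : G0 N, ∃ c : ZMod m, ∀ τ : ℍ,
      U ((γ : SL(2, ℤ)) • τ) = zetaP m ^ c.val * U τ := by
    intro γ
    have hA1 : U ((γ : SL(2, ℤ)) • τ₁) ≠ 0 := by
      intro h0
      have := hinv γ γ.2 τ₁
      rw [h0, zero_pow hm] at this
      exact pow_ne_zero m hτ₁ this.symm
    set z : ℂ := U ((γ : SL(2, ℤ)) • τ₁) / U τ₁ with hz
    have hzm : z ^ m = 1 := by
      rw [hz, div_pow, hinv γ γ.2 τ₁, div_self (pow_ne_zero m hτ₁)]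
    obtain ⟨c, hc⟩ := exists_zmod_of_pow_eq_one m hzm
    refine ⟨c, fun τ => ?_⟩
    have hdet : 0 < ((Matrix.SpecialLinearGroup.mapGL ℝ (γ : SL(2, ℤ))).det : ℝ) := by
      simp
    have hAd : MDifferentiable 𝓘(ℂ) 𝓘(ℂ) (fun τ : ℍ => U ((γ : SL(2, ℤ)) • τ)) :=
      hU.comp (UpperHalfPlane.mdifferentiable_smul hdet)
    have hBd : MDifferentiable 𝓘(ℂ) 𝓘(ℂ) (fun τ : ℍ => zetaP m ^ c.val * U τ) :=
      (mdifferentiable_const (c := zetaP m ^ c.val)).mul hU
    have := H751.eq_of_pow_eq_UHP hAd hBd hm (fun τ => by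
      rw [hinv γ γ.2 τ, mul_pow, hc, hzm, one_mul]) (τ₀ := τ₁)
      (by
        simp only [hc, hz]
        field_simp) hA1
    exact congrFun this τ
  choose c hc using key
  refine ⟨c, fun γ γ' => ?_, fun γ τ => hc γ τ⟩
  apply zetaP_pow_val_injective m
  rw [zetaP_pow_val_add]
  have h1 := hc (γ * γ') τ₁
  have h2 := hc γ ((γ' : SL(2, ℤ)) • τ₁)
  have h3 := hc γ' τ₁
  have hsm : ((γ * γ' : G0 N) : SL(2, ℤ)) • τ₁ = (γ : SL(2, ℤ)) • ((γ' : SL(2, ℤ)) • τ₁) := by
    rw [Subgroup.coe_mul, mul_smul]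
  rw [hsm, h2, h3] at h1
  have h5 : zetaP m ^ (c γ).val * zetaP m ^ (c γ').val * U τ₁ =
      zetaP m ^ (c (γ * γ')).val * U τ₁ := by
    linear_combination h1
  exact (mul_right_cancel₀ hτ₁ h5).symm

/-- **ONTO.**  Every `m`-torsion class of `J₀(N)(ℚ̄)` is the Kummer class of an additive
character of `Γ₀(N)` with values in `ℤ/m`. -/
theorem exists_isKum_of_torsion (hDC : DCStatement N m) {x : JZero N}
    (hx : (m : ℤ) • x = 0) :
    ∃ c : G0 N → ZMod m, (∀ γ γ' : G0 N, c (γ * γ') = c γ + c γ') ∧ IsKum N m c x := by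
  have hm : m ≠ 0 := NeZero.ne m
  obtain ⟨f, hf⟩ := H455.exists_isKummerClass_of_zsmul_eq_zero hx
  have hdvd : ∀ v : Place Kbar (FF N), (m : ℤ) ∣ v.ord f := by
    obtain ⟨-, D, -, hD⟩ := hf
    exact fun v => ⟨_, (hD v).symm⟩
  obtain ⟨t, G, ht, hG, hord⟩ := hDC f hf.ne_zero hdvd
  have hGgood := hG.1
  obtain ⟨U, hUd, hUG⟩ := H751.exists_pow_eq_UHP hGgood.1 m hm hord
  have hpowfun : (fun τ => U τ ^ m) = G := funext hUG
  -- `G` is not identically zero
  have hGne : G ≠ 0 := by
    intro h0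
    have hq := hG.2
    have hmer := (H882.hasQExp_of_mem_goodRing hGgood).isMerInf
    rw [(H708.qexpFun_eq_zero_iff hmer).2 h0] at hq
    have hne : (f * t ^ m : FF N) ≠ 0 := mul_ne_zero hf.ne_zero (pow_ne_zero m ht)
    have hne' : ((f * t ^ m : FF N) : LaurentSeries Kbar) ≠ 0 := by
      intro h
      exact hne (Subtype.ext h)
    exact hne' ((map_eq_zero_iff _ (coeffMap Deg457.iotaC).injective).1 hq.symm)
  have hUne : ∃ τ, U τ ≠ 0 := by
    by_contra hcon
    simp only [not_exists, not_not] at hcon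
    apply hGne
    funext τ
    rw [← hUG τ, hcon τ, zero_pow hm]
    rfl
  obtain ⟨c, hcmul, hchar⟩ := exists_hom_hasChar N m hUd hUne (fun γ hγ τ => by
    rw [hUG, hUG, hGgood.2.1 γ hγ τ])
  refine ⟨c, hcmul, f, t, U, ht, hf, ⟨hUd, hUne, hchar, ?_⟩, ?_⟩
  · rw [hpowfun]
    exact hGgood
  · rw [hpowfun]
    exact hG

/-- The set of additive characters `Γ₀(N) → ℤ/m` is finite (`Γ₀(N)` is finitely generated). -/
theorem finite_hom_set :
    {c : G0 N → ZMod m | ∀ γ γ' : G0 N, c (γ * γ') = c γ + c γ'}.Finite := by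
  haveI : Group.FG SL(2, ℤ) := Group.fg_iff.mpr ⟨{ModularGroup.S, ModularGroup.T},
    SpecialLinearGroup.SL2Z_generators, by simp⟩
  haveI : Group.FG (G0 N) := inferInstance
  obtain ⟨s, hs⟩ := Group.fg_def.mp (inferInstance : Group.FG (G0 N))
  let T := {c : G0 N → ZMod m | ∀ γ γ' : G0 N, c (γ * γ') = c γ + c γ'}
  let r : T → (s → ZMod m) := fun c x => c.1 x
  have hr : Function.Injective r := by
    intro c d hcd
    have hc := c.2
    have hd := d.2
    have hc1 : c.1 1 = 0 := by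
      have := hc 1 1
      rw [mul_one] at this
      exact left_eq_add.mp this
    have hd1 : d.1 1 = 0 := by
      have := hd 1 1
      rw [mul_one] at this
      exact left_eq_add.mp this
    have hcinv : ∀ γ, c.1 γ⁻¹ = -c.1 γ := fun γ => by
      have := hc γ γ⁻¹
      rw [mul_inv_cancel, hc1] at this
      exact eq_neg_of_add_eq_zero_right this.symm
    have hdinv : ∀ γ, d.1 γ⁻¹ = -d.1 γ := fun γ => by
      have := hd γ γ⁻¹
      rw [mul_inv_cancel, hd1] at this
      exact eq_neg_of_add_eq_zero_right this.symm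
    apply Subtype.ext
    funext γ
    have hγ : γ ∈ Subgroup.closure (s : Set (G0 N)) := by rw [hs]; trivial
    induction hγ using Subgroup.closure_induction with
    | mem x hx => exact congrFun hcd ⟨x, hx⟩
    | one => rw [hc1, hd1]
    | mul x y _ _ hx hy => rw [hc, hd, hx, hy]
    | inv x _ hx => rw [hcinv, hdinv, hx]
  haveI : Finite T := Finite.of_injective r hr
  exact Set.toFinite T

/-- **FIN.**  `J₀(N)(ℚ̄)[m]` is finite, given the converse dictionary and the uniqueness of
Kummer classes (piece `K4-UNIQ` of sub-layer M4b). -/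
theorem finite_torsion (hDC : DCStatement N m)
    (huniq : ∀ (c : G0 N → ZMod m) (x x' : JZero N),
      IsKum N m c x → IsKum N m c x' → x = x') :
    {x : JZero N | m • x = 0}.Finite := by
  have key : ∀ x : {x : JZero N | m • x = 0}, ∃ c : G0 N → ZMod m,
      (∀ γ γ' : G0 N, c (γ * γ') = c γ + c γ') ∧ IsKum N m c x.1 := fun x =>
    exists_isKum_of_torsion N m hDC (by rw [natCast_zsmul]; exact x.2)
  choose c hc1 hc2 using key
  let T := {c : G0 N → ZMod m | ∀ γ γ' : G0 N, c (γ * γ') = c γ + c γ'}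
  haveI : Finite T := (finite_hom_set N m).to_subtype
  let φ : {x : JZero N | m • x = 0} → T := fun x => ⟨c x, hc1 x⟩
  have hinj : Function.Injective φ := by
    intro x y h
    have hxy : c x = c y := congrArg Subtype.val h
    apply Subtype.ext
    exact huniq (c x) x.1 y.1 (hc2 x) (hxy ▸ hc2 y)
  haveI : Finite {x : JZero N | m • x = 0} := Finite.of_injective φ hinj
  exact Set.toFinite _

end onto

end Fermat.Agent.S30.H109

end
end
-- ===== PACK-END S30/H109/Onto.lean

-- ===== PACK-BEGIN S29/H102/KBasic.lean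
section
/-
S29 / M4b / K4 (helper102) — basic lemmas shared by the K4 pieces.

* `KBasic_zetaP_pow`            : `zetaP p ^ p = 1`;
* `KBasic_expGrowth_of_pow`     : `ExpGrowth (F ^ p) → ExpGrowth F` (`p ≠ 0`);
* `KBasic_mem_goodRing_of_pow`  : a holomorphic `Γ₀(N)`-invariant `V` with `V ^ p` good is good;
* `KBasic_realises_hasQExp`     : `Realises N u G → HasQExp 1 G (coeffMap iotaC u)`;
* `KBasic_exists_root`          : a good function `V` whose `p`-th power realises `w ∈ FF N`
                                  realises a `p`-th root `v ∈ FF N` of `w`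
                                  (MERO + root descent + `F_ℂ ∩ ℚ̄((q)) = FF N`).
-/




set_option autoImplicit false

noncomputable section

open ModularCurve AlgebraicCurve CongruenceSubgroup UpperHalfPlane
open scoped MatrixGroups Manifold

namespace Fermat.Agent.S29.H102

open Fermat.Agent.S24 Fermat.Agent.S29 Fermat.Agent.S29.M4b
open Fermat.Agent.S24.H648 Fermat.Agent.S24.H708

theorem KBasic_zetaP_pow (p : ℕ) [NeZero p] : zetaP p ^ p = 1 := by
  have hp : (p : ℂ) ≠ 0 := Nat.cast_ne_zero.mpr (NeZero.ne p)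
  rw [zetaP, ← Complex.exp_nat_mul, mul_div_cancel₀ _ hp]
  exact Complex.exp_two_pi_mul_I

theorem KBasic_zetaP_ne_zero (p : ℕ) : zetaP p ≠ 0 := Complex.exp_ne_zero _

/-- `ζ_p ^ a = 1` iff `p ∣ a`. -/
theorem KBasic_zetaP_pow_eq_one_iff (p : ℕ) [NeZero p] (a : ℕ) : zetaP p ^ a = 1 ↔ p ∣ a := by
  have h : IsPrimitiveRoot (zetaP p) p := by
    have := Complex.isPrimitiveRoot_exp p (NeZero.ne p)
    simpa [zetaP] using this
  exact h.pow_eq_one_iff_dvd a

/-- The character value only depends on the class mod `p`. -/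
theorem KBasic_zetaP_pow_val_add (p : ℕ) [NeZero p] (a b : ZMod p) :
    zetaP p ^ (a + b).val = zetaP p ^ a.val * zetaP p ^ b.val := by
  rw [← pow_add, ZMod.val_add]
  conv_rhs => rw [← Nat.mod_add_div (a.val + b.val) p]
  rw [pow_add, pow_mul, KBasic_zetaP_pow, one_pow, mul_one]

theorem KBasic_expGrowth_of_pow {F : ℍ → ℂ} {p : ℕ} (hp : p ≠ 0)
    (h : ExpGrowth (fun τ => F τ ^ p)) : ExpGrowth F := by
  obtain ⟨C, m, hC⟩ := h
  refine ⟨max C 1, m, fun τ hτ => ?_⟩
  have hexp : (1 : ℝ) ≤ Real.exp (2 * Real.pi * m * τ.im) := by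
    apply Real.one_le_exp
    have := Real.pi_pos
    have := τ.im_pos
    positivity
  have hmax1 : (1 : ℝ) ≤ max C 1 := le_max_right _ _
  by_cases h1 : ‖F τ‖ ≤ 1
  · calc ‖F τ‖ ≤ 1 := h1
      _ = 1 * 1 := (one_mul 1).symm
      _ ≤ max C 1 * Real.exp (2 * Real.pi * m * τ.im) :=
          mul_le_mul hmax1 hexp zero_le_one (le_trans zero_le_one hmax1)
  · have h1' : 1 ≤ ‖F τ‖ := le_of_lt (not_le.mp h1)
    have h2 : ‖F τ‖ ≤ ‖F τ‖ ^ p := le_self_pow₀ h1' hp
    have h3 : ‖F τ‖ ^ p ≤ C * Real.exp (2 * Real.pi * m * τ.im) := by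
      have := hC τ hτ
      rwa [norm_pow] at this
    calc ‖F τ‖ ≤ ‖F τ‖ ^ p := h2
      _ ≤ C * Real.exp (2 * Real.pi * m * τ.im) := h3
      _ ≤ max C 1 * Real.exp (2 * Real.pi * m * τ.im) :=
          mul_le_mul_of_nonneg_right (le_max_left _ _) (Real.exp_pos _).le

theorem KBasic_mem_goodRing_of_pow {N : ℕ} {V : ℍ → ℂ} {p : ℕ} (hp : p ≠ 0)
    (hV : MDifferentiable 𝓘(ℂ) 𝓘(ℂ) V)
    (hinv : ∀ γ ∈ Gamma0 N, ∀ τ : ℍ, V (γ • τ) = V τ)
    (hpow : (fun τ => V τ ^ p) ∈ goodRing N) : V ∈ goodRing N := by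
  refine ⟨hV, hinv, fun g => ?_⟩
  exact KBasic_expGrowth_of_pow hp (hpow.2.2 g)

variable {N : ℕ} [NeZero N]

theorem KBasic_realises_hasQExp {u : FF N} {G : ℍ → ℂ} (h : Realises N u G) :
    HasQExp 1 G (coeffMap Deg457.iotaC ((u : FF N) : LaurentSeries Kbar)) :=
  ⟨H882.isMerInf_of_mem_goodRing h.1, h.2⟩

theorem KBasic_coeffMap_iotaC_injective :
    Function.Injective (coeffMap Deg457.iotaC : LaurentSeries Kbar → LaurentSeries ℂ) := by
  intro x y h
  ext k
  have := congrArg (fun z : LaurentSeries ℂ => z.coeff k) h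
  simp only [coeffMap_coeff] at this
  exact Deg457.iotaC.injective this

/-- **Analytic `p`-th roots are algebraic.**  If `V` is good of level `N` and `V ^ p` realises
`w ∈ FF N`, then `V` realises some `v ∈ FF N` with `v ^ p = w`. -/
theorem KBasic_exists_root {p : ℕ} (hp : p ≠ 0) {V : ℍ → ℂ} (hV : V ∈ goodRing N) {w : FF N}
    (hw : Realises N w (fun τ => V τ ^ p)) :
    ∃ v : FF N, v ^ p = w ∧ Realises N v V := by
  have hVq : HasQExp 1 V (qexpFun 1 V) := H882.hasQExp_of_mem_goodRing hV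
  have hVp : HasQExp 1 (fun τ => V τ ^ p) (qexpFun 1 V ^ p) := hVq.pow p
  have hwq := KBasic_realises_hasQExp hw
  have heq : qexpFun 1 V ^ p = coeffMap Deg457.iotaC ((w : FF N) : LaurentSeries Kbar) :=
    hVp.unique hwq
  obtain ⟨v₀, hv₀⟩ := RootDesc_laurent Deg457.iotaC hp (qexpFun 1 V)
    ((w : FF N) : LaurentSeries Kbar) heq
  have hmem : v₀ ∈ modularFunctionFieldBar N := by
    apply H882.mem_laurentBaseChange_of_coeffMap_mem Deg457.iotaC (modularFunctionFieldFull N)
    rw [hv₀]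
    exact H882.qexpFun_mem_FC hV
  refine ⟨⟨v₀, hmem⟩, ?_, hV, hv₀.symm⟩
  apply Subtype.ext
  apply KBasic_coeffMap_iotaC_injective
  show coeffMap Deg457.iotaC (v₀ ^ p) = _
  rw [map_pow, hv₀, heq]

end Fermat.Agent.S29.H102

end
end
-- ===== PACK-END S29/H102/KBasic.lean

-- ===== PACK-BEGIN Lib/Newform/H958/X/MainOf.lean
section


/-!
# NEWFORM block X — `LocalIdentity` from the leaves
-/

set_option autoImplicit false

open CongruenceSubgroup Complex Polynomial
open UpperHalfPlane hiding I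
open scoped MatrixGroups ModularForm

namespace Fermat.Agent.Lib.Newform.H958.X

open ModularFormClass ModularForm

theorem localIdentity_of (hIL : IndepLocal) (hD : DirichletSeries) (hDep : Deplete)
    (hO : FrickeOp) (hI : FrickeInvol) (hH : FrickeHecke) (hM : MultOne)
    (hET : Fermat.Agent.Lib.Newform.H958.EigenT) : LocalIdentity := by
  intro N N' _ _ f g hf hg S hagree q hq
  classical
  let T : Finset ℕ := (S ∪ N.primeFactors ∪ N'.primeFactors ∪ {q}).filter Nat.Prime
  have hT : ∀ p ∈ T, p.Prime := fun p hp => (Finset.mem_filter.mp hp).2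
  have hqT : q ∈ T := Finset.mem_filter.mpr ⟨by simp, hq⟩
  have hTN : N.primeFactors ⊆ T := fun p hp =>
    Finset.mem_filter.mpr ⟨by simp [hp], (Nat.mem_primeFactors.mp hp).1⟩
  have hTN' : N'.primeFactors ⊆ T := fun p hp =>
    Finset.mem_filter.mpr ⟨by simp [hp], (Nat.mem_primeFactors.mp hp).1⟩
  have hag : ∀ ℓ : ℕ, ℓ.Prime → ℓ ∉ T → qCoeff f ℓ = qCoeff g ℓ := fun ℓ hℓ hℓT =>
    hagree ℓ hℓ fun hS => hℓT (Finset.mem_filter.mpr ⟨by simp [hS], hℓ⟩)
  obtain ⟨wf, hwf, hFEf⟩ := functionalEq_newform_of hO hI hH hM hET hf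
  obtain ⟨wg, hwg, hFEg⟩ := functionalEq_newform_of hO hI hH hM hET hg
  have hwf0 : wf ≠ 0 := by
    rintro rfl
    simp at hwf
  have hwg0 : wg ≠ 0 := by
    rintro rfl
    simp at hwg
  have hglob := globalIdentity_of hD hDep hf.1 hg.1 hFEf hFEg T hT hTN hTN' hag
  exact localIdentity_of_global hIL _ _ hwf0 hwg0 T hT hTN hTN' hglob q hqT

end Fermat.Agent.Lib.Newform.H958.X

end
-- ===== PACK-END Lib/Newform/H958/X/MainOf.lean

-- ===== PACK-BEGIN Lib/Newform/H958/X/Final.lean
section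









/-!
# NEWFORM block X — unconditional results (consumer API, part 2)

Cross-level strong multiplicity one for Prelude-newforms of weight 2 on `Γ₀(N)`, proved with the
functional equation of the Hecke `L`-function (Mathlib) and the strict trivial bound.

* `crossLevelSq` : a newform of level `N` and a normalized eigenform of level `N'` with the
  same `a_ℓ` outside a finite set of primes satisfy `q² ∣ N → q² ∣ N'`  (input of S36);
* `crossLevel` : under the same hypotheses `N ∣ N'`;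
* `strongMultOne` : two newforms with the same `a_ℓ` outside a finite set of primes have the
  same level and the same `q`-expansion;
* `localIdentity` : the local identity between Euler polynomials at every prime.

Leaves: helper16 (Fricke), helper683 (depletion, independence, `EigenT`), helper803
(same-level multiplicity one), helper863 (local case analysis), helper263 (strict bound),
helper958 (functional equation, Dirichlet series, global identity, assembly).
-/

set_option autoImplicit false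

open CongruenceSubgroup

namespace Fermat.Agent.Lib.Newform.H958.X

theorem localIdentity : LocalIdentity :=
  localIdentity_of Fermat.Agent.Lib.Newform.H683.indepLocal dirichletSeries
    Fermat.Agent.Lib.Newform.H683.deplete Fermat.Agent.Lib.Newform.H16.frickeOp
    Fermat.Agent.Lib.Newform.H16.frickeInvol Fermat.Agent.Lib.Newform.H16.frickeHecke
    Fermat.Agent.Lib.Newform.H803.multOne Fermat.Agent.Lib.Newform.H683.eigenT

theorem crossLevelSq : CrossLevelSq :=
  Fermat.Agent.Lib.Newform.H863.X8.crossLevelSq_of localIdentity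

theorem crossLevel : CrossLevel :=
  Fermat.Agent.Lib.Newform.H863.X8.crossLevel_of localIdentity
    Fermat.Agent.Lib.Newform.H263.strictBound

theorem strongMultOne : StrongMultOne :=
  Fermat.Agent.Lib.Newform.H863.X8.strongMultOne_of localIdentity
    Fermat.Agent.Lib.Newform.H263.strictBound

end Fermat.Agent.Lib.Newform.H958.X

end
-- ===== PACK-END Lib/Newform/H958/X/Final.lean

-- ===== PACK-BEGIN S36/H987/PureCtx.lean
section



/-!
# S36 engine, ALG3 gap lemma G3 (helper987), part 3: purity from the frozen `Eng.TripleCtx`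

In a three-component context (`Eng.TripleCtx`, `Eng/Spec.lean` v1.3), for `u ≠ 0` with
`m ∣ div u` on the generic fibre (`A2.DivisibleDiv E m u`) which is a unit of `V₁, V₂, V₃`:

* `ctx_isSheet₁/₂/₃`, `ctx_mult3`, `ctx_sheets` : the `Vᵢ` are sheets, with multiplicities
  `1, q - 1, 1`, and every sheet is one of them.
* **`ctx_pure_fin`** : the purity datum `u · d ^ m · s₀ = a₀`, `a₀, s₀ ∈ Bf ∖ 𝔪`, at EVERY closed
  point `𝔪 ∋ w` of the finite chart `Bf = chart R {x}`.
* **`ctx_pure_cusp`** : the same at every closed point `𝔪 ∋ w, x⁻¹` (cusp) of `Bi = chart R {x⁻¹}`.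

These are exactly the purity inputs `(d, a₀, s₀, ha₀, hs₀, hpure)` of
`H630.basePureValuesAt_single / _triple`.
-/

set_option autoImplicit false
set_option linter.style.haveILetI false
set_option linter.unusedSectionVars false
set_option linter.unusedVariables false
set_option synthInstance.maxHeartbeats 400000
set_option maxHeartbeats 1600000

noncomputable section

namespace Fermat.Agent.S36.H987

open Polynomial IsLocalRing
open Fermat.Agent.A2
open Fermat.Agent.A2.H12 (IsSheet)
open Fermat.Agent.S18.H138 (chart baseField)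

universe u

section Adjoin

variable {E F : Type*} [Field E] [Field F] [Algebra E F]

theorem adjoin_inv_eq987 (x : F) :
    IntermediateField.adjoin E ({x⁻¹} : Set F) = IntermediateField.adjoin E ({x} : Set F) := by
  apply le_antisymm
  · rw [IntermediateField.adjoin_le_iff, Set.singleton_subset_iff]
    exact (IntermediateField.adjoin E ({x} : Set F)).inv_mem
      (IntermediateField.subset_adjoin E _ rfl)
  · rw [IntermediateField.adjoin_le_iff, Set.singleton_subset_iff]
    have h := (IntermediateField.adjoin E ({x⁻¹} : Set F)).inv_mem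
      (IntermediateField.subset_adjoin E _ rfl)
    rwa [inv_inv] at h

theorem finiteDimensional_adjoin_inv987 {x : F}
    (hfin : FiniteDimensional (IntermediateField.adjoin E ({x} : Set F)) F) :
    FiniteDimensional (IntermediateField.adjoin E ({x⁻¹} : Set F)) F := by
  rw [adjoin_inv_eq987]
  exact hfin

end Adjoin

section Ctx

variable {R E F F' : Type u} [CommRing R] [IsDomain R] [IsDiscreteValuationRing R]
  [Field E] [CharZero E] [Algebra R E] [IsFractionRing R E]
  [Field F] [Algebra E F] [Algebra R F] [IsScalarTower R E F]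
  [Field F'] [Algebra E F'] [Algebra R F']
variable {w : R} {q : ℕ} {α β : F' →ₐ[E] F} {x : F} {x' : F'}
  {V₁ V₂ V₃ : ValuationSubring F} {V₁' V₂' : ValuationSubring F'}

omit [IsDomain R] [IsDiscreteValuationRing R] [CharZero E] [IsFractionRing R E]
  [IsScalarTower R E F] in
theorem ctx_w_mem₂ (hq : q.Prime) (ctx : Eng.TripleCtx w q α β x x' V₁ V₂ V₃ V₁' V₂') :
    algebraMap R F w ∈ V₂.nonunits := by
  obtain ⟨t, ⟨ht0, htn, -⟩, ⟨-, hy, -⟩⟩ := ctx.ram₂
  have hq1 : q - 1 ≠ 0 := by
    have := hq.two_le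
    omega
  have e : algebraMap R F w = (algebraMap R F w * (t ^ (q - 1))⁻¹) * t ^ (q - 1) := by
    rw [mul_assoc, inv_mul_cancel₀ (pow_ne_zero _ ht0), mul_one]
  rw [e]
  exact Fermat.Agent.S36.H193.nu_mul_left V₂ (Fermat.Agent.S36.H193.nu_pow V₂ htn hq1) hy

omit [IsDomain R] [IsDiscreteValuationRing R] [CharZero E] [IsFractionRing R E]
  [IsScalarTower R E F] in
theorem ctx_isSheet₁ (ctx : Eng.TripleCtx w q α β x x' V₁ V₂ V₃ V₁' V₂') : IsSheet w x V₁ :=
  ⟨ctx.base₁, ctx.x_unit₁.2.1, ctx.unif₁.2.1, ctx.gauss₁⟩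

omit [IsDomain R] [IsDiscreteValuationRing R] [CharZero E] [IsFractionRing R E]
  [IsScalarTower R E F] in
theorem ctx_isSheet₂ (hq : q.Prime) (ctx : Eng.TripleCtx w q α β x x' V₁ V₂ V₃ V₁' V₂') :
    IsSheet w x V₂ :=
  ⟨ctx.base₂, ctx.x_unit₂.2.1, ctx_w_mem₂ hq ctx, ctx.gauss₂⟩

omit [IsDomain R] [IsDiscreteValuationRing R] [CharZero E] [IsFractionRing R E]
  [IsScalarTower R E F] in
theorem ctx_isSheet₃ (ctx : Eng.TripleCtx w q α β x x' V₁ V₂ V₃ V₁' V₂') : IsSheet w x V₃ :=
  ⟨ctx.base₃, ctx.x_unit₃.2.1, ctx.unif₃.2.1, ctx.gauss₃⟩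

omit [IsDomain R] [IsDiscreteValuationRing R] [CharZero E] [IsFractionRing R E]
  [IsScalarTower R E F] in
theorem ctx_mult3 (ctx : Eng.TripleCtx w q α β x x' V₁ V₂ V₃ V₁' V₂') :
    Mult3 w q V₁ V₂ V₃ where
  w₁ := ctx.unif₁.2.1
  w₃ := ctx.unif₃.2.1
  unif₁ := ctx.unif₁.2.2
  unif₃ := ctx.unif₃.2.2
  ram₂ := by
    obtain ⟨t, ⟨ht0, -, ht⟩, ⟨-, -, hy⟩⟩ := ctx.ram₂
    refine ⟨t, ht0, ht, ?_⟩
    have e : t ^ (q - 1) * (algebraMap R F w)⁻¹ = (algebraMap R F w * (t ^ (q - 1))⁻¹)⁻¹ := by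
      rw [mul_inv, inv_inv, mul_comm]
    rw [e]
    exact hy

/-- Every sheet is one of `V₁, V₂, V₃`. -/
theorem ctx_sheets (hw : Irreducible w) (hq : q.Prime)
    (ctx : Eng.TripleCtx w q α β x x' V₁ V₂ V₃ V₁' V₂') :
    ∀ V, IsSheet w x V → V = V₁ ∨ V = V₂ ∨ V = V₃ :=
  sheets_three w hw ctx.hx ctx.hfin (ctx_isSheet₁ ctx) (ctx_isSheet₂ hq ctx) (ctx_isSheet₃ ctx)
    (ctx_mult3 ctx) ctx.qep_f

/-- **Purity at every closed point of the special fibre of the finite chart.** -/
theorem ctx_pure_fin (hw : Irreducible w) (hq : q.Prime)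
    (ctx : Eng.TripleCtx w q α β x x' V₁ V₂ V₃ V₁' V₂')
    (𝔪 : Ideal (chart R ({x} : Set F))) (h𝔪 : 𝔪.IsMaximal)
    (hw𝔪 : algebraMap R (chart R ({x} : Set F)) w ∈ 𝔪)
    {m : ℕ} (hm : 0 < m) {u : F} (hdiv : DivisibleDiv E m u)
    (hu₁ : Eng.UnitAt V₁ u) (hu₂ : Eng.UnitAt V₂ u) (hu₃ : Eng.UnitAt V₃ u) :
    ∃ d : F, d ≠ 0 ∧ ∃ a₀ s₀ : chart R ({x} : Set F), a₀ ∉ 𝔪 ∧ s₀ ∉ 𝔪 ∧
      u * d ^ m * (s₀ : F) = a₀ := by
  refine pure_of_three w hw ctx.hx ctx.hfin (ctx_isSheet₁ ctx) (ctx_isSheet₂ hq ctx)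
    (ctx_isSheet₃ ctx) (ctx_mult3 ctx) ctx.qep_f ctx.normal_f₁ ctx.normal_f₂ ctx.normal_f₃
    𝔪 h𝔪 hw𝔪 ?_ ?_ hm hu₁.1 hdiv hu₁.2 hu₂.2 hu₃.2
  · intro h₁ h₃
    exact (ctx.incidence 𝔪 h𝔪 (Or.inr (Or.inl ⟨h₁, h₃⟩))).2.1
  · intro h₂
    rcases ctx.regular_f 𝔪 h𝔪 h₂ with ⟨h₁, hp⟩ | hp | ⟨h₃, hp⟩
    · exact Or.inl ⟨h₁, hp⟩
    · exact Or.inr (Or.inl ⟨h₂, hp⟩)
    · exact Or.inr (Or.inr ⟨h₃, hp⟩)

/-- **Purity at the cusps** (closed points `𝔪 ∋ w, x⁻¹` of the chart at infinity). -/
theorem ctx_pure_cusp (hw : Irreducible w) (hq : q.Prime)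
    (ctx : Eng.TripleCtx w q α β x x' V₁ V₂ V₃ V₁' V₂')
    (𝔪 : Ideal (chart R ({x⁻¹} : Set F))) (h𝔪 : 𝔪.IsMaximal)
    (hw𝔪 : algebraMap R (chart R ({x⁻¹} : Set F)) w ∈ 𝔪)
    (hx𝔪 : (⟨x⁻¹, Fermat.Agent.S18.H138.mem_chart_of_mem rfl⟩ : chart R ({x⁻¹} : Set F)) ∈ 𝔪)
    {m : ℕ} (hm : 0 < m) {u : F} (hdiv : DivisibleDiv E m u)
    (hu₁ : Eng.UnitAt V₁ u) (hu₂ : Eng.UnitAt V₂ u) (hu₃ : Eng.UnitAt V₃ u) :
    ∃ d : F, d ≠ 0 ∧ ∃ a₀ s₀ : chart R ({x⁻¹} : Set F), a₀ ∉ 𝔪 ∧ s₀ ∉ 𝔪 ∧
      u * d ^ m * (s₀ : F) = a₀ := by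
  have hx0 : x ≠ 0 := ctx.x_unit₁.1
  have hxi : Transcendental E x⁻¹ := Fermat.Agent.S18.H138.transcendental_inv ctx.hx
  have hfini := finiteDimensional_adjoin_inv987 ctx.hfin
  have hs₁ : IsSheet w x⁻¹ V₁ := (Fermat.Agent.S36.H193.isSheet_inv_iff w hx0 V₁).2 (ctx_isSheet₁ ctx)
  have hs₂ : IsSheet w x⁻¹ V₂ :=
    (Fermat.Agent.S36.H193.isSheet_inv_iff w hx0 V₂).2 (ctx_isSheet₂ hq ctx)
  have hs₃ : IsSheet w x⁻¹ V₃ := (Fermat.Agent.S36.H193.isSheet_inv_iff w hx0 V₃).2 (ctx_isSheet₃ ctx)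
  obtain ⟨hc₁₂, hc₁₃, hc₂₃⟩ := ctx.cusp_single 𝔪 h𝔪 hw𝔪 hx𝔪
  refine pure_of_three w hw hxi hfini hs₁ hs₂ hs₃ (ctx_mult3 ctx) ctx.qep_i
    ctx.normal_i₁ ctx.normal_i₂ ctx.normal_i₃ 𝔪 h𝔪 hw𝔪 ?_ ?_ hm hu₁.1 hdiv hu₁.2 hu₂.2 hu₃.2
  · intro h₁ h₃
    exact absurd ⟨h₁, h₃⟩ hc₁₃
  · intro h₂
    exact Or.inr (Or.inl ⟨h₂, ctx.regular_i 𝔪 h𝔪 hx𝔪 h₂⟩)

end Ctx

end Fermat.Agent.S36.H987

end

end
-- ===== PACK-END S36/H987/PureCtx.lean

-- ===== PACK-BEGIN A2/Mod/H142/S2Final.lean
section




/-!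
# A2 / MODASM sub-assembly S2 (components normal), unconditional (helper142)

`s2 : S2Statement P E M q w` (VERBATIM `A2/Mod/Asm.lean`), from `s2_of_leaves` with the leaves
L7 (`H900.frickeStable`) and L11 (`H378.resInf`) taken from main.
-/

set_option autoImplicit false
set_option synthInstance.maxHeartbeats 400000
set_option maxHeartbeats 1600000

namespace Fermat.Agent.A2.Mod.H142

/-- **MODASM sub-assembly S2** (components of the special fibre are normal). -/
theorem s2 (P : ValuationSubring _root_.Fermat.Agent.A2.Mod.Qb) (E : IntermediateField ℚ _root_.Fermat.Agent.A2.Mod.Qb) (M q : ℕ) [NeZero M]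
    [NeZero q] (w : _root_.Fermat.Agent.A2.Mod.RE P E) : S2Statement P E M q w :=
  s2_of_leaves P E M q w (H900.frickeStable P E M q w) (H378.resInf P E M q w)

end Fermat.Agent.A2.Mod.H142

end
-- ===== PACK-END A2/Mod/H142/S2Final.lean

-- ===== PACK-BEGIN A2/Top/H994/ModTop.lean
section





/-!
# WALL A2 / MOD — final assembly `ModSSGoodStatement` (deputy helper994, MOD architect)

`Mod.modSSData_of_parts` (helper13, `A2/Mod/Asm.lean`) produces `ModSSData P E (M * q)` from the
leaves L1, L4, L8, the sub-assemblies S1–S4, Sτ and the level-`M` hypothesis `GoodRedHyp`.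
This file turns it into the statement consumed by the wall (`Top.H994.wall`,
`H562.wall_of_alg_if_mod`):

* `GoodRedStatement` : the EXACT target of the GOODRED owners (good reduction of `X₀(M)` at
  `q ∤ M` over every good level `E`, in the two charts `j`, `1/j`; for `q = 3` only when `2 ∣ M`,
  for `q = 2` only when `3 ∣ M`);
* `modSSGood_of_parts` : L8 + S1–S4 + Sτ + GOODRED ⟹ `ModSSGoodStatement`
  (L1 = `H553.vinfExists`, L4 = `H751.frickeExists` are plugged in from main).
-/

set_option autoImplicit false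
set_option linter.unusedSectionVars false
set_option synthInstance.maxHeartbeats 400000
set_option maxHeartbeats 1600000

noncomputable section

namespace Fermat.Agent.A2.Top.H994

open ModularCurve Fermat.Agent.A2

/-- **GOODRED (target statement).**  Good reduction of `X₀(M)` at a prime `q ∤ M` over every good
level `E`, in the charts of `j` and `1/j` (`Mod.GoodRedHyp`), at the levels carrying the auxiliary
prime (`2 ∣ M` for `q = 3`, `3 ∣ M` for `q = 2`). -/
def GoodRedStatement : Prop :=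
  ∀ (P : ValuationSubring Qb) (E : IntermediateField ℚ Qb) (M q : ℕ) [NeZero M] [NeZero q],
    q.Prime → ¬ q ∣ M → (q = 3 → 2 ∣ M) → (q = 2 → 3 ∣ M) → P.LiesOverPrime q →
    GoodField P E → Mod.GoodRedHyp P E M

/-- **MOD, final assembly.** -/
theorem modSSGood_of_parts
    (hDeg : ∀ (E : IntermediateField ℚ Qb) (M q : ℕ) [NeZero M] [NeZero q],
      Mod.DegStatement E M q)
    (hS1 : ∀ (P : ValuationSubring Qb) (E : IntermediateField ℚ Qb) (M q : ℕ) [NeZero M]
      [NeZero q] (w : RE P E), Mod.S1Statement P E M q w)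
    (hS2 : ∀ (P : ValuationSubring Qb) (E : IntermediateField ℚ Qb) (M q : ℕ) [NeZero M]
      [NeZero q] (w : RE P E), Mod.S2Statement P E M q w)
    (hS3 : ∀ (P : ValuationSubring Qb) (E : IntermediateField ℚ Qb) (M q : ℕ) [NeZero M]
      [NeZero q] (w : RE P E), Mod.S3Statement P E M q w)
    (hS4 : ∀ (P : ValuationSubring Qb) (E : IntermediateField ℚ Qb) (M q : ℕ) [NeZero M]
      [NeZero q] (w : RE P E), Mod.S4Statement P E M q w)
    (hSτ : ∀ (P : ValuationSubring Qb) (E : IntermediateField ℚ Qb) (M q : ℕ) [NeZero M]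
      [NeZero q] (w : RE P E), Mod.StauStatement P E M q w)
    (hGood : GoodRedStatement) :
    ModSSGoodStatement := by
  intro P E N q hq hqN hq2 hN h3 h2 hP hE
  obtain ⟨M, hM⟩ := hqN
  have hNM : N = M * q := by rw [hM, mul_comm]
  subst hNM
  have hM0 : M ≠ 0 := fun h => hN (by rw [h, zero_mul])
  haveI : NeZero M := ⟨hM0⟩
  haveI : NeZero q := ⟨hq.ne_zero⟩
  have hqM : ¬ q ∣ M := by
    rintro ⟨c, hc⟩
    exact hq2 ⟨c, by rw [hc]; ring⟩
  have h3' : q = 3 → 2 ∣ M := by
    intro h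
    have h2N := h3 h
    subst h
    exact (Nat.Coprime.dvd_mul_right (by norm_num : Nat.Coprime 2 3)).1 h2N
  have h2' : q = 2 → 3 ∣ M := by
    intro h
    have h3N := h2 h
    subst h
    exact (Nat.Coprime.dvd_mul_right (by norm_num : Nat.Coprime 3 2)).1 h3N
  exact Mod.modSSData_of_parts P E M q hq hqM hP hE.dvr
    (Mod.H553.vinfExists P E M hM0 hE.dvr)
    (Mod.H553.vinfExists P E (M * q) hN hE.dvr)
    (Mod.H751.frickeExists E (M * q) hN)
    (hDeg E M q) (hS1 P E M q) (hS2 P E M q) (hS3 P E M q) (hS4 P E M q) (hSτ P E M q)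
    (hGood P E M q hq hqM h3' h2' hP hE)

end Fermat.Agent.A2.Top.H994

end

end
-- ===== PACK-END A2/Top/H994/ModTop.lean

-- ===== PACK-BEGIN S36/Mod3/H933/FFCore.lean
section



/-!
# S36 / MOD3 leaf FF, core (helper933) — imports only files on main

For `x = j · j_q · j_{q²}` at level `N = M q q` over ANY intermediate field `E ⊆ ℚ̄`:
`x` is transcendental over `E`, `F = F_E(N)` is finite over `E(x)`, and `E` is algebraically
closed in `F`.  (`ffCore` = the body of `Mod3.LeafFF` with `x3E`, `PartFF` unfolded; no hypothesis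
on `q`, `M` beyond `NeZero`.)

Route (as L8 of A2/Mod, helper31): `F ⊆ E((t))`; a Laurent series with a pole is transcendental,
an algebraic Laurent series is constant; `[F : E(j)] = ψ(N)` (helper988) and the exchange
lemma of S24 give finiteness over `E(x)`.
-/

set_option autoImplicit false
set_option linter.style.haveILetI false
set_option linter.unusedSectionVars false
set_option synthInstance.maxHeartbeats 400000
set_option maxHeartbeats 1600000

noncomputable section

namespace Fermat.Agent.S36.Mod3.H933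

open ModularCurve HahnSeries Polynomial IntermediateField
open Fermat.Agent.A2.Mod

variable (E : IntermediateField ℚ Fermat.Agent.A2.Mod.Qb)

/-- transcendence passes from the `t`-expansion to `F_N`. -/
theorem transcendental_of_coe (N : ℕ) (f : FE E N)
    (hf : Transcendental E ((f : FE E N) : LaurentSeries E)) : Transcendental E f := by
  intro h
  exact hf ((isAlgebraic_algHom_iff (FE E N).val Subtype.val_injective).mpr h)

/-- an element of `F_N` algebraic over `E` is a constant (any level). -/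
theorem mem_range_of_isAlgebraic (N : ℕ) (f : FE E N) (hf : IsAlgebraic E f) :
    f ∈ (algebraMap E (FE E N)).range := by
  have h2 : IsAlgebraic E ((f : FE E N) : LaurentSeries E) :=
    (isAlgebraic_algHom_iff (FE E N).val Subtype.val_injective).mpr hf
  obtain ⟨c, hc⟩ := H31.laurent_const_of_isAlgebraic _ h2
  exact ⟨c, Subtype.ext hc.symm⟩

theorem transcendental_jE_one (N : ℕ) : Transcendental E (jE E N 1 (one_dvd _)) := by
  apply transcendental_of_coe
  rw [H31.coe_jE, qExpand_one_apply]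
  exact H31.transcendental_jqModC E

/-- `F_N` is finite over `E(j)` (any level `N ≠ 0`). -/
theorem finiteDimensional_jE_one (N : ℕ) (hN : N ≠ 0) :
    FiniteDimensional (adjoin E ({jE E N 1 (one_dvd _)} : Set (FE E N))) (FE E N) := by
  have hchar : ∀ p : ℕ, p.Prime → p ∣ N → ((p : ℕ) : E) ≠ 0 :=
    fun p hp _ => Nat.cast_ne_zero.mpr hp.ne_zero
  have h1 : adjoin E {jE E N 1 (one_dvd _)}
      = (adjoin E {((jE E N 1 (one_dvd _) : FE E N) : LaurentSeries E)}).comap
          (FE E N).val := by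
    have h0 : (adjoin E {jE E N 1 (one_dvd _)}).map (FE E N).val
        = adjoin E {((jE E N 1 (one_dvd _) : FE E N) : LaurentSeries E)} := by
      rw [adjoin_map, Set.image_singleton]
      rfl
    rw [← h0, comap_map]
  have h2 : Module.finrank (adjoin E ({jE E N 1 (one_dvd _)} : Set (FE E N))) (FE E N)
      = dedekindPsi N := by
    rw [h1, finrank_comap, fieldRange_val, H31.coe_jE, qExpand_one_apply, H31.FE_eq_fullC]
    exact S28.H988.relfinrank_jField_full_eq E N hN hchar
  apply Module.finite_of_finrank_pos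
  rw [h2]
  exact S28.H988.dedekindPsi_pos N hN

/-- `F_N` is finite over `E(y)` for EVERY transcendental `y ∈ F_N` (any level `N ≠ 0`). -/
theorem finiteDimensional_of_transcendental (N : ℕ) (hN : N ≠ 0) (y : FE E N)
    (hy : Transcendental E y) :
    FiniteDimensional (adjoin E ({y} : Set (FE E N))) (FE E N) := by
  haveI := finiteDimensional_jE_one E N hN
  exact Fermat.Agent.S24.FF.finiteDimensional_adjoin_of_transcendental
    (transcendental_jE_one E N) hy

variable (M q : ℕ) [NeZero M] [NeZero q] [NeZero (M * q)]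

/-- `x = j j_q j_{q²}` has a pole at `t = 0`. -/
theorem order_x3_neg :
    (jqModC E * qExpand E q (jqModC E) * qExpand E (q * q) (jqModC E)).order < 0 := by
  have h1 := H31.order_jqModC_neg E
  have h2 := H31.order_qExpand_jqModC_neg E q
  have h3 := H31.order_qExpand_jqModC_neg E (q * q)
  have hj : jqModC E ≠ 0 := by
    intro h
    rw [h] at h1
    simp at h1
  have hjq : qExpand E q (jqModC E) ≠ 0 := by
    intro h
    rw [h] at h2
    simp at h2
  have hjqq : qExpand E (q * q) (jqModC E) ≠ 0 := by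
    intro h
    rw [h] at h3
    simp at h3
  rw [HahnSeries.order_mul (mul_ne_zero hj hjq) hjqq, HahnSeries.order_mul hj hjq]
  omega

/-- `x = j j_q j_{q²}` is transcendental over `E`. -/
theorem transcendental_x3 (h1 : 1 ∣ M * q * q) (hq : q ∣ M * q * q) (hqq : q * q ∣ M * q * q) :
    Transcendental E (jE E (M * q * q) 1 h1 * jE E (M * q * q) q hq *
      jE E (M * q * q) (q * q) hqq) := by
  apply transcendental_of_coe
  rw [MulMemClass.coe_mul, MulMemClass.coe_mul, H31.coe_jE, H31.coe_jE, H31.coe_jE,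
    qExpand_one_apply]
  exact H31.transcendental_of_order_neg (order_x3_neg E q)

/-- **Leaf FF, unfolded.**  The three fields of `Mod3.PartFF E (Mod3.x3E E M q)`. -/
theorem ffCore (h1 : 1 ∣ M * q * q) (hq : q ∣ M * q * q) (hqq : q * q ∣ M * q * q) :
    Transcendental E (jE E (M * q * q) 1 h1 * jE E (M * q * q) q hq *
        jE E (M * q * q) (q * q) hqq) ∧
      FiniteDimensional
        (adjoin E ({jE E (M * q * q) 1 h1 * jE E (M * q * q) q hq *
          jE E (M * q * q) (q * q) hqq} : Set (FE E (M * q * q)))) (FE E (M * q * q)) ∧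
      ∀ f : FE E (M * q * q), IsAlgebraic E f → f ∈ (algebraMap E (FE E (M * q * q))).range := by
  have hN : M * q * q ≠ 0 := mul_ne_zero (NeZero.ne (M * q)) (NeZero.ne q)
  exact ⟨transcendental_x3 E M q h1 hq hqq,
    finiteDimensional_of_transcendental E (M * q * q) hN _ (transcendental_x3 E M q h1 hq hqq),
    mem_range_of_isAlgebraic E (M * q * q)⟩

end Fermat.Agent.S36.Mod3.H933

end

end
-- ===== PACK-END S36/Mod3/H933/FFCore.lean

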