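import Mathlib
import Fermat.Prelude.Def_ModularCurve_HeckeOperatorTotal
import Fermat.Agent.Pack.S36.E11L0
import Fermat.Agent.Pack.S36.E7L3
import Fermat.Agent.Pack.S36.E17L3
import Fermat.Agent.Pack.S36.E17L2
import Fermat.Agent.Pack.S36.E11L3
import Fermat.Agent.Pack.S36.E11L1
import Fermat.Agent.Pack.S36.E4L0
import Fermat.Agent.Pack.S36.E14L0
import Fermat.Agent.Pack.S36.E17L1
import Fermat.Agent.Pack.S36.E16L3
import Fermat.Agent.Pack.S36.E5L3
import Fermat.Agent.Pack.S36.E14L2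
import Fermat.Agent.Pack.S36.E16L1
import Fermat.Agent.Pack.S36.E14L3
import Fermat.Agent.Pack.S36.E13L1
import Fermat.Agent.Pack.S36.E15L1
import Fermat.Agent.Pack.S36.E16L2
import Fermat.Agent.Pack.S36.E16L0
import Fermat.Agent.Pack.S36.E14L1
import Fermat.Agent.Pack.S36.E12L2

-- ===== PACK-BEGIN S29/H801/M1NC.lean
section
/-
S29 / M1 (helper801), part 5: the norm compatibility `nc` of the mixed square

      F_N   --α_{ℓ'}-->  F_{Nℓ'}
       |β_ℓ               |β_ℓ
       v                  v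
      F_{Nℓ} --α_{ℓ'}--> F_{Nℓℓ'}

from `F_{Nℓℓ'} = F_{Nℓ} ⊔ V_ℓ(F_{Nℓ'})` and `[F_{Nℓ'} : F_N] ≤ [F_{Nℓℓ'} : F_{Nℓ}]`
(general coefficient field `L`); over `ℚ̄` both inputs are in the shared library X0DEG (helper760).
-/






set_option autoImplicit false
set_option linter.style.haveILetI false

noncomputable section

namespace Fermat.Agent.S29.H801

open AlgebraicCurve ModularCurve Fermat.Agent.S37.H818

section General

variable (L : Type*) [Field L] [Algebra ℚ L]

theorem algebraMap_along_apply (M k : ℕ) [NeZero M] [NeZero k] (a : _root_.Fermat.Agent.S29.H801.FB L M) :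
    letI := algebraAlong (heckeAlphaBar L M k)
    algebraMap (_root_.Fermat.Agent.S29.H801.FB L M) (_root_.Fermat.Agent.S29.H801.FB L (M * k)) a = heckeAlphaBar L M k a := rfl

theorem algebraMap_level_apply (M : ℕ) [NeZero M] (a : _root_.Fermat.Agent.S29.H801.FB L M) :
    algebraMap (laurentBaseChange L (modularFunctionFieldFull M)) (LaurentSeries L) a
      = (a : LaurentSeries L) := rfl

theorem smul_along_coe (M k : ℕ) [NeZero M] [NeZero k] (a : _root_.Fermat.Agent.S29.H801.FB L M) (x : _root_.Fermat.Agent.S29.H801.FB L (M * k)) :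
    letI := algebraAlong (heckeAlphaBar L M k)
    ((a • x : _root_.Fermat.Agent.S29.H801.FB L (M * k)) : LaurentSeries L) = (a : LaurentSeries L) * (x : LaurentSeries L) := by
  letI := algebraAlong (heckeAlphaBar L M k)
  rw [Algebra.smul_def, algebraMap_along_apply, MulMemClass.coe_mul, coe_heckeAlphaBar]

theorem smul_level_eq (M : ℕ) [NeZero M] (a : _root_.Fermat.Agent.S29.H801.FB L M) (x : LaurentSeries L) :
    a • x = (a : LaurentSeries L) * x := by
  rw [Algebra.smul_def, algebraMap_level_apply]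

/-- Elements of `F_{Mk}` are algebraic over `F_M`. -/
theorem isAlgebraic_level (M k : ℕ) [NeZero M] [NeZero k]
    (hfin : FiniteAlong L (heckeAlphaBar L M k)) (x : LaurentSeries L)
    (hx : x ∈ laurentBaseChange L (modularFunctionFieldFull (M * k))) :
    IsAlgebraic (laurentBaseChange L (modularFunctionFieldFull M)) x := by
  letI := algebraAlong (heckeAlphaBar L M k)
  haveI : Module.Finite (_root_.Fermat.Agent.S29.H801.FB L M) (_root_.Fermat.Agent.S29.H801.FB L (M * k)) := hfin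
  have hint : IsIntegral (_root_.Fermat.Agent.S29.H801.FB L M) (⟨x, hx⟩ : _root_.Fermat.Agent.S29.H801.FB L (M * k)) := IsIntegral.of_finite _ _
  obtain ⟨p, hp, hpx⟩ := hint
  refine ⟨p, hp.ne_zero, ?_⟩
  have h := Polynomial.hom_eval₂ p (algebraMap (_root_.Fermat.Agent.S29.H801.FB L M) (_root_.Fermat.Agent.S29.H801.FB L (M * k)))
    ((laurentBaseChange L (modularFunctionFieldFull (M * k))).val :
      _root_.Fermat.Agent.S29.H801.FB L (M * k) →+* LaurentSeries L) ⟨x, hx⟩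
  rw [hpx, map_zero] at h
  have hcomp : ((laurentBaseChange L (modularFunctionFieldFull (M * k))).val :
      _root_.Fermat.Agent.S29.H801.FB L (M * k) →+* LaurentSeries L).comp (algebraMap (_root_.Fermat.Agent.S29.H801.FB L M) (_root_.Fermat.Agent.S29.H801.FB L (M * k)))
      = algebraMap (laurentBaseChange L (modularFunctionFieldFull M)) (LaurentSeries L) := by
    refine RingHom.ext fun a => ?_
    rw [RingHom.comp_apply, algebraMap_along_apply, algebraMap_level_apply]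
    exact coe_heckeAlphaBar M k a
  rw [hcomp] at h
  rw [Polynomial.aeval_def]
  exact h.symm

/-- The image of `β_ℓ : F_{Nℓ'} → F_{Nℓℓ'}` spans `F_{Nℓℓ'}` over `F_{Nℓ}`. -/
theorem span_range_betaTo (N ℓ ℓ' : ℕ) [NeZero N] [NeZero ℓ] [NeZero ℓ']
    (hfin : FiniteAlong L (heckeAlphaBar L (N * ℓ) ℓ'))
    (hsup : laurentBaseChange L (modularFunctionFieldFull (N * ℓ * ℓ'))
      = laurentBaseChange L (modularFunctionFieldFull (N * ℓ))
        ⊔ (laurentBaseChange L (modularFunctionFieldFull (N * ℓ'))).map (qExpandAlgHomC L ℓ)) :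
    letI := algebraAlong (heckeAlphaBar L (N * ℓ) ℓ')
    Submodule.span (_root_.Fermat.Agent.S29.H801.FB L (N * ℓ))
      (Set.range (betaTo L (N * ℓ') ℓ (N * ℓ * ℓ') (Nat.mul_right_comm N ℓ' ℓ))) = ⊤ := by
  letI := algebraAlong (heckeAlphaBar L (N * ℓ) ℓ')
  rw [eq_top_iff]
  rintro t -
  have ht : (t : LaurentSeries L) ∈ laurentBaseChange L (modularFunctionFieldFull (N * ℓ))
      ⊔ (laurentBaseChange L (modularFunctionFieldFull (N * ℓ'))).map (qExpandAlgHomC L ℓ) := by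
    rw [← hsup]
    exact t.2
  have halg : ∀ x ∈ (laurentBaseChange L (modularFunctionFieldFull (N * ℓ'))).map
      (qExpandAlgHomC L ℓ),
      IsAlgebraic (laurentBaseChange L (modularFunctionFieldFull (N * ℓ))) x := by
    intro x hx
    refine isAlgebraic_level L (N * ℓ) ℓ' hfin x ?_
    rw [hsup]
    exact (le_sup_right : (laurentBaseChange L (modularFunctionFieldFull (N * ℓ'))).map
      (qExpandAlgHomC L ℓ) ≤ _) hx
  have hs := mem_span_of_mem_sup _ _ halg ht
  -- transport the span statement from `L((q))` to `F_{Nℓℓ'}`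
  have key : ∀ x : LaurentSeries L,
      x ∈ Submodule.span (laurentBaseChange L (modularFunctionFieldFull (N * ℓ)))
        (((laurentBaseChange L (modularFunctionFieldFull (N * ℓ'))).map (qExpandAlgHomC L ℓ) :
          IntermediateField L (LaurentSeries L)) : Set (LaurentSeries L)) →
      ∃ y : _root_.Fermat.Agent.S29.H801.FB L (N * ℓ * ℓ'),
        y ∈ Submodule.span (_root_.Fermat.Agent.S29.H801.FB L (N * ℓ))
          (Set.range (betaTo L (N * ℓ') ℓ (N * ℓ * ℓ') (Nat.mul_right_comm N ℓ' ℓ))) ∧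
        (y : LaurentSeries L) = x := by
    intro x hx
    induction hx using Submodule.span_induction with
    | mem x hx =>
      obtain ⟨z, hz, rfl⟩ := hx
      refine ⟨betaTo L (N * ℓ') ℓ (N * ℓ * ℓ') (Nat.mul_right_comm N ℓ' ℓ) ⟨z, hz⟩,
        Submodule.subset_span ⟨_, rfl⟩, ?_⟩
      rw [coe_betaTo]
      rfl
    | zero => exact ⟨0, Submodule.zero_mem _, rfl⟩
    | add x y _ _ hx hy =>
      obtain ⟨x', hx', rfl⟩ := hx
      obtain ⟨y', hy', rfl⟩ := hy
      exact ⟨x' + y', Submodule.add_mem _ hx' hy', rfl⟩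
    | smul a x _ hx =>
      obtain ⟨x', hx', rfl⟩ := hx
      refine ⟨a • x', Submodule.smul_mem _ a hx', ?_⟩
      rw [smul_along_coe, smul_level_eq]
  obtain ⟨y, hy, hyt⟩ := key _ hs
  have : y = t := Subtype.ext hyt
  rw [← this]
  exact hy

/-- The norm compatibility `nc` from the cartesian square and the degrees. -/
theorem normCompat_of_square (N ℓ ℓ' : ℕ) [NeZero N] [NeZero ℓ] [NeZero ℓ']
    (hfin : FiniteAlong L (heckeAlphaBar L N ℓ'))
    (hfin' : FiniteAlong L (heckeAlphaBar L (N * ℓ) ℓ'))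
    (hrk : finrankAlong L (heckeAlphaBar L N ℓ') ≤ finrankAlong L (heckeAlphaBar L (N * ℓ) ℓ'))
    (hsup : laurentBaseChange L (modularFunctionFieldFull (N * ℓ * ℓ'))
      = laurentBaseChange L (modularFunctionFieldFull (N * ℓ))
        ⊔ (laurentBaseChange L (modularFunctionFieldFull (N * ℓ'))).map (qExpandAlgHomC L ℓ)) :
    NormCompat (heckeAlphaBar L N ℓ') (heckeBetaBar L N ℓ) (heckeAlphaBar L (N * ℓ) ℓ')
      (betaTo L (N * ℓ') ℓ (N * ℓ * ℓ') (Nat.mul_right_comm N ℓ' ℓ)) :=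
  normCompat_of_span _ _ _ _ (rel_sq₁ N ℓ ℓ') hfin hfin' hrk
    (span_range_betaTo L N ℓ ℓ' hfin' hsup)

end General

/-- **The norm compatibility `nc` over `ℚ̄`.** -/
theorem normCompat_bar (N ℓ ℓ' : ℕ) [NeZero N] [NeZero ℓ] [NeZero ℓ'] (hℓ : ℓ.Prime)
    (hℓ' : ℓ'.Prime) (hne : ℓ ≠ ℓ') :
    NormCompat (heckeAlphaBar (AlgebraicClosure ℚ) N ℓ') (heckeBetaBar (AlgebraicClosure ℚ) N ℓ)
      (heckeAlphaBar (AlgebraicClosure ℚ) (N * ℓ) ℓ')
      (betaTo (AlgebraicClosure ℚ) (N * ℓ') ℓ (N * ℓ * ℓ') (Nat.mul_right_comm N ℓ' ℓ)) :=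
  normCompat_of_square (AlgebraicClosure ℚ) N ℓ ℓ'
    (Fermat.Agent.Lib.X0Deg.finiteAlong_heckeAlphaBar N ℓ')
    (Fermat.Agent.Lib.X0Deg.finiteAlong_heckeAlphaBar (N * ℓ) ℓ')
    (le_of_eq (Fermat.Agent.Lib.X0Deg.finrankAlong_heckeAlphaBar_square N ℓ ℓ' hℓ hℓ' hne).symm)
    (Fermat.Agent.Lib.X0Deg.modularFunctionFieldBar_square N ℓ ℓ')

end Fermat.Agent.S29.H801

end

end
-- ===== PACK-END S29/H801/M1NC.lean

-- ===== PACK-BEGIN Ribet/H801/DegAlpha.lean
section
/-
RIBET / W-DEG (helper801), part 2: the degeneracy push-forwards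

    alphaPush M p, betaPush M p : J₀(M p)(ℚ̄) →+ J₀(M)(ℚ̄)

(`α_*`, `β_*` along the Prelude maps `heckeAlphaBar`, `heckeBetaBar : F_M → F_{Mp}`), their
Galois-equivariance, and the Hecke-equivariance of `α_*`:

    α_* ∘ T_ℓ^{(Mp)} = T_ℓ^{(M)} ∘ α_*     for all primes `ℓ ≠ p`.
-/







set_option autoImplicit false
set_option linter.style.haveILetI false

noncomputable section

namespace Fermat.Agent.Ribet.H801

open AlgebraicCurve ModularCurve Fermat.Agent.S37.H818 Fermat.Agent.S29.H801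
open Fermat.Agent.Lib.HI

section Defs

variable (M p : ℕ) [NeZero M] [NeZero p]

/-- `α_* : J₀(Mp) → J₀(M)`, push-forward along the inclusion `F_M ⊆ F_{Mp}`. -/
def alphaPush : JZero (M * p) →+ JZero M :=
  pushPic0 (heckeAlphaBar (AlgebraicClosure ℚ) M p) (H864.heckeAlphaBarIntegral M p)
    (H864.finiteAlong_alpha M p) (H864.normFormulaAlong_alpha M p _)

/-- `β_* : J₀(Mp) → J₀(M)`, push-forward along `V_p : F_M → F_{Mp}`, `f(q) ↦ f(q^p)`. -/
def betaPush : JZero (M * p) →+ JZero M :=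
  pushPic0 (heckeBetaBar (AlgebraicClosure ℚ) M p) (H864.heckeBetaBarIntegral M p)
    (H864.finiteAlong_beta M p) (H864.normFormulaAlong_beta M p _)

theorem alphaPush_mk (D : Divisor.degZero (K := AlgebraicClosure ℚ)
    (F := laurentBaseChange (AlgebraicClosure ℚ) (modularFunctionFieldFull (M * p)))) :
    alphaPush M p (Pic0.mk D) =
      Pic0.mk (pushDegZero (heckeAlphaBar (AlgebraicClosure ℚ) M p)
        (H864.heckeAlphaBarIntegral M p) D) :=
  rfl

theorem betaPush_mk (D : Divisor.degZero (K := AlgebraicClosure ℚ)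
    (F := laurentBaseChange (AlgebraicClosure ℚ) (modularFunctionFieldFull (M * p)))) :
    betaPush M p (Pic0.mk D) =
      Pic0.mk (pushDegZero (heckeBetaBar (AlgebraicClosure ℚ) M p)
        (H864.heckeBetaBarIntegral M p) D) :=
  rfl

/-- `α_*` is Galois-equivariant. -/
theorem alphaPush_smul (σ : AlgebraicClosure ℚ ≃ₐ[ℚ] AlgebraicClosure ℚ) (x : JZero (M * p)) :
    alphaPush M p (σ • x) = σ • alphaPush M p x := by
  rw [galois_smul_pic0_def, galois_smul_pic0_def]
  exact pushPic0_smul _ _ _ _ (Fermat.Agent.S29.H571.intertwines_heckeAlphaBar M p σ) x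

/-- `β_*` is Galois-equivariant. -/
theorem betaPush_smul (σ : AlgebraicClosure ℚ ≃ₐ[ℚ] AlgebraicClosure ℚ) (x : JZero (M * p)) :
    betaPush M p (σ • x) = σ • betaPush M p x := by
  rw [galois_smul_pic0_def, galois_smul_pic0_def]
  exact pushPic0_smul _ _ _ _ (Fermat.Agent.S29.H571.intertwines_heckeBetaBar M p σ) x

end Defs

section Hecke

variable (M p ℓ : ℕ) [NeZero M] [NeZero p] [NeZero ℓ]

/-- `normCompat_bar` with the top level renamed. -/
theorem normCompat_bar_to (M' : ℕ) [NeZero M'] (hℓ : ℓ.Prime) (hp : p.Prime) (hne : ℓ ≠ p)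
    (h₁ : M * ℓ * p = M') (h₂ : M * p * ℓ = M') :
    NormCompat (heckeAlphaBar (AlgebraicClosure ℚ) M p) (heckeBetaBar (AlgebraicClosure ℚ) M ℓ)
      (alphaTo (AlgebraicClosure ℚ) (M * ℓ) p M' h₁)
      (betaTo (AlgebraicClosure ℚ) (M * p) ℓ M' h₂) := by
  subst h₁
  exact normCompat_bar M ℓ p hℓ hp hne

/-- **`α_*` is Hecke-equivariant** (operator form, any prime `ℓ ≠ p`). -/
theorem alphaPush_heckeOperatorAlong (hℓ : ℓ.Prime) (hp : p.Prime) (hne : ℓ ≠ p)
    (x : JZero (M * p)) :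
    alphaPush M p (heckeOperatorAlong (AlgebraicClosure ℚ) (M * p) ℓ x) =
      heckeOperatorAlong (AlgebraicClosure ℚ) M ℓ (alphaPush M p x) := by
  haveI hP₁ : HasPrincipalDivisors (AlgebraicClosure ℚ)
      (laurentBaseChange (AlgebraicClosure ℚ) (modularFunctionFieldFull (M * p))) :=
    H864.hasPrincipalDivisors_FF (M * p)
  haveI hP₂ : HasPrincipalDivisors (AlgebraicClosure ℚ)
      (laurentBaseChange (AlgebraicClosure ℚ) (modularFunctionFieldFull (M * ℓ))) :=
    H864.hasPrincipalDivisors_FF (M * ℓ)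
  haveI hP₃ : HasPrincipalDivisors (AlgebraicClosure ℚ)
      (laurentBaseChange (AlgebraicClosure ℚ) (modularFunctionFieldFull (M * p * ℓ))) :=
    H864.hasPrincipalDivisors_FF (M * p * ℓ)
  have hc : M * ℓ * p = M * p * ℓ := Nat.mul_right_comm M ℓ p
  rw [heckeOperatorAlong_eq (H864.heckeAlphaBarIntegral (M * p) ℓ)
      (H864.heckeBetaBarIntegral (M * p) ℓ) (H864.fundamentalIdentityAlong_beta (M * p) ℓ _)
      (H864.finiteAlong_alpha (M * p) ℓ) (H864.normFormulaAlong_alpha (M * p) ℓ _),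
    heckeOperatorAlong_eq (H864.heckeAlphaBarIntegral M ℓ)
      (H864.heckeBetaBarIntegral M ℓ) (H864.fundamentalIdentityAlong_beta M ℓ _)
      (H864.finiteAlong_alpha M ℓ) (H864.normFormulaAlong_alpha M ℓ _)]
  exact pushPic0_correspondence
    (heckeAlphaBar (AlgebraicClosure ℚ) M p)
    (heckeBetaBar (AlgebraicClosure ℚ) M ℓ) (heckeAlphaBar (AlgebraicClosure ℚ) M ℓ)
    (heckeBetaBar (AlgebraicClosure ℚ) (M * p) ℓ) (heckeAlphaBar (AlgebraicClosure ℚ) (M * p) ℓ)
    (alphaTo (AlgebraicClosure ℚ) (M * ℓ) p (M * p * ℓ) hc)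
    (H864.heckeAlphaBarIntegral M p) (H864.heckeBetaBarIntegral M ℓ)
    (H864.heckeAlphaBarIntegral M ℓ) (H864.heckeBetaBarIntegral (M * p) ℓ)
    (H864.heckeAlphaBarIntegral (M * p) ℓ)
    (alphaTo_integral (AlgebraicClosure ℚ) hc (H864.heckeAlphaBarIntegral (M * ℓ) p))
    (rel_sq₂ M p ℓ) (rel_AA M p ℓ)
    (H864.fundamentalIdentityAlong_beta M ℓ _) (H864.fundamentalIdentityAlong_beta (M * p) ℓ _)
    (H864.finiteAlong_alpha M ℓ) (H864.normFormulaAlong_alpha M ℓ _)
    (H864.finiteAlong_alpha (M * p) ℓ) (H864.normFormulaAlong_alpha (M * p) ℓ _)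
    (H864.finiteAlong_alpha M p) (H864.normFormulaAlong_alpha M p _)
    (alphaTo_finite (AlgebraicClosure ℚ) hc (H864.finiteAlong_alpha (M * ℓ) p))
    (alphaTo_normFormula (AlgebraicClosure ℚ) hc (H864.finiteAlong_alpha (M * ℓ) p)
      (H864.normFormulaAlong_alpha (M * ℓ) p _))
    (normCompat_bar_to M p ℓ (M * p * ℓ) hℓ hp hne hc rfl)
    (hasLocalGenerators_of_hasPrincipalDivisors _ _) x

end Hecke

section Bar

variable (M p : ℕ) [NeZero M] [NeZero p]

/-- **`α_*` is Hecke-equivariant**: `α_* (T_ℓ x) = T_ℓ (α_* x)` for every prime `ℓ ≠ p`. -/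
theorem alphaPush_heckeOperatorBar (hp : p.Prime) (ℓ : Nat.Primes) (hne : (ℓ : ℕ) ≠ p)
    (x : JZero (M * p)) :
    alphaPush M p (heckeOperatorBar (M * p) ℓ x) = heckeOperatorBar M ℓ (alphaPush M p x) := by
  haveI : NeZero (ℓ : ℕ) := ⟨ℓ.2.ne_zero⟩
  rw [heckeOperatorBar_apply, heckeOperatorBar_apply]
  exact alphaPush_heckeOperatorAlong M p (ℓ : ℕ) ℓ.2 hp hne x

end Bar

end Fermat.Agent.Ribet.H801

end

end
-- ===== PACK-END Ribet/H801/DegAlpha.lean

-- ===== PACK-BEGIN S29/H812/HeckeInputs.lean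
section




/-!
# S29 / H812 — the Prelude Hecke operator on `J₀(N)(ℚ̄)` is the genuine correspondence

All six inputs of `ModularCurve.HeckeInputsAlong (AlgebraicClosure ℚ) N ℓ` hold, for every `N ≠ 0`
and every `ℓ ≠ 0` (prime or not, dividing `N` or not); consequently
`heckeOperatorAlong = heckePic0Bar …` (Prelude `heckeOperatorAlong_eq`).

Generic part (`Fermat/Agent/S29/H812/*.lean`): for a finite extension `F'/F` of function fields of
one variable over an algebraically closed field of characteristic zero,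
`∑_{w | v} e(w | v) = [F' : F]` and `ord_v (N_{F'/F} f) = ∑_{w | v} ord_w f`.
-/

set_option autoImplicit false

noncomputable section

namespace Fermat.Agent.S29.H812

open ModularCurve AlgebraicCurve IntermediateField

/-- The modular function field has a coordinate. -/
theorem exists_coord_modular (M : ℕ) [NeZero M] :
    ∃ x : ↥(modularFunctionFieldBar M), Transcendental (AlgebraicClosure ℚ) x ∧
      FiniteDimensional (AlgebraicClosure ℚ)⟮x⟯ ↥(modularFunctionFieldBar M) :=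
  (Fermat.Agent.Lib.RR.H864.ff1_modularFunctionFieldBar M).exists_finite

/-- The degeneracy map `α` (inclusion) is finite. -/
theorem finiteAlong_heckeAlphaBar (N : ℕ) [NeZero N] (ℓ : ℕ) [NeZero ℓ] :
    FiniteAlong (AlgebraicClosure ℚ) (heckeAlphaBar (AlgebraicClosure ℚ) N ℓ) := by
  haveI : NeZero (N * ℓ) := ⟨Nat.mul_ne_zero (NeZero.ne N) (NeZero.ne ℓ)⟩
  exact finiteAlong (exists_coord_modular N) (exists_coord_modular (N * ℓ)) _

/-- The degeneracy map `β` (`q ↦ q^ℓ`) is finite. -/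
theorem finiteAlong_heckeBetaBar (N : ℕ) [NeZero N] (ℓ : ℕ) [NeZero ℓ] :
    FiniteAlong (AlgebraicClosure ℚ) (heckeBetaBar (AlgebraicClosure ℚ) N ℓ) := by
  haveI : NeZero (N * ℓ) := ⟨Nat.mul_ne_zero (NeZero.ne N) (NeZero.ne ℓ)⟩
  exact finiteAlong (exists_coord_modular N) (exists_coord_modular (N * ℓ)) _

/-- `HeckeInputsAlong` for every `ℓ ≠ 0`. -/
theorem heckeInputsAlong (N : ℕ) [NeZero N] (ℓ : ℕ) [NeZero ℓ] :
    HeckeInputsAlong (AlgebraicClosure ℚ) N ℓ := by
  haveI : NeZero (N * ℓ) := ⟨Nat.mul_ne_zero (NeZero.ne N) (NeZero.ne ℓ)⟩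
  haveI hP : HasPrincipalDivisors (AlgebraicClosure ℚ)
      (laurentBaseChange (AlgebraicClosure ℚ) (modularFunctionFieldFull (N * ℓ))) :=
    Fermat.Agent.Lib.RR.H864.hasPrincipalDivisors_modularFunctionFieldBar (N * ℓ)
  have hF := exists_coord_modular N
  have hfinα := finiteAlong_heckeAlphaBar N ℓ
  have hfinβ := finiteAlong_heckeBetaBar N ℓ
  have hα : HeckeAlphaBarIntegral (AlgebraicClosure ℚ) N ℓ := isIntegral_of_finiteAlong hfinα
  have hβ : HeckeBetaBarIntegral (AlgebraicClosure ℚ) N ℓ := isIntegral_of_finiteAlong hfinβ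
  exact heckeInputsAlong_intro hα hβ
    (fundamentalIdentityAlong hF (heckeBetaBar (AlgebraicClosure ℚ) N ℓ) hfinβ hβ)
    hfinα
    (normFormulaAlong hF (heckeAlphaBar (AlgebraicClosure ℚ) N ℓ) hfinα)

end Fermat.Agent.S29.H812

end
end
-- ===== PACK-END S29/H812/HeckeInputs.lean

-- ===== PACK-BEGIN S29/HI.lean
section



/-!
# S29, layer M, piece `HI` (helper812): exact `SkeletonM` statement.
Proof in `Fermat/Agent/S29/H812/HeckeInputs.lean` (holds for every `ℓ ≠ 0`).
-/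

set_option autoImplicit false

noncomputable section

namespace Fermat.Agent.S29

open ModularCurve AlgebraicCurve

variable (N : ℕ) [NeZero N]

/-- PIECE `HI`: the Prelude Hecke operator is the genuine correspondence (all six inputs hold). -/
theorem heckeInputsAlong_bar (ℓ : ℕ) [NeZero ℓ] (_hℓ : ℓ.Prime) :
    HeckeInputsAlong (AlgebraicClosure ℚ) N ℓ :=
  H812.heckeInputsAlong N ℓ

end Fermat.Agent.S29

end
end
-- ===== PACK-END S29/HI.lean

-- ===== PACK-BEGIN S37/H819/Enum.lean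
section


/-!
# S37 / NORM (helper819) — enumeration of the `FF N`-embeddings of `FF (N ℓ)` and the norm
-/

set_option autoImplicit false

noncomputable section

open ModularCurve HahnSeries UpperHalfPlane AlgebraicCurve
open scoped MatrixGroups

namespace Fermat.Agent.S37.H819

open Fermat.Agent.S24 Fermat.Agent.S24.H997

variable (N ℓ : ℕ) [NeZero N] [NeZero ℓ]

/-- `α (j) = j` -/
theorem alpha_jF : heckeAlphaBar Kbar N ℓ (jF N) = jF (N * ℓ) := by
  apply Subtype.ext
  rw [coe_heckeAlphaBar]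
  rfl

/-- every element of `ℚ̄(j) ⊆ FF (N ℓ)` lies in the image of `α` -/
theorem exists_alpha_eq_of_mem_adjoin {c : FF (N * ℓ)}
    (hc : c ∈ IntermediateField.adjoin Kbar {jF (N * ℓ)}) :
    ∃ c' : FF N, heckeAlphaBar Kbar N ℓ c' = c := by
  induction hc using IntermediateField.adjoin_induction with
  | mem z hz =>
      rw [Set.mem_singleton_iff] at hz
      subst hz
      exact ⟨jF N, alpha_jF N ℓ⟩
  | algebraMap a => exact ⟨algebraMap Kbar (FF N) a, (heckeAlphaBar Kbar N ℓ).commutes a⟩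
  | add z w _ _ hz hw =>
      obtain ⟨z', rfl⟩ := hz
      obtain ⟨w', rfl⟩ := hw
      exact ⟨z' + w', map_add _ _ _⟩
  | inv z _ hz =>
      obtain ⟨z', rfl⟩ := hz
      exact ⟨z'⁻¹, map_inv₀ _ _⟩
  | mul z w _ _ hz hw =>
      obtain ⟨z', rfl⟩ := hz
      obtain ⟨w', rfl⟩ := hw
      exact ⟨z' * w', map_mul _ _ _⟩

/-- `FF (N ℓ)` is finite over `FF N` (along `α`). -/
theorem finite_alpha :
    letI := algebraAlong (heckeAlphaBar Kbar N ℓ)
    Module.Finite (FF N) (FF (N * ℓ)) := by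
  letI := algebraAlong (heckeAlphaBar Kbar N ℓ)
  haveI hfd := (Deg457.degree_fields (N * ℓ)).1
  obtain ⟨s, hs⟩ := (Module.Finite.fg_top :
    (⊤ : Submodule ↥(IntermediateField.adjoin Kbar {jF (N * ℓ)}) (FF (N * ℓ))).FG)
  refine ⟨⟨s, ?_⟩⟩
  rw [eq_top_iff]
  intro x hxt
  have hx : x ∈ Submodule.span ↥(IntermediateField.adjoin Kbar {jF (N * ℓ)})
      (s : Set (FF (N * ℓ))) := by rw [hs]; trivial
  revert hxt
  induction hx using Submodule.span_induction with
  | mem y hy => exact fun _ => Submodule.subset_span hy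
  | zero => exact fun _ => zero_mem _
  | add y z _ _ hy hz => exact fun _ => add_mem (hy trivial) (hz trivial)
  | smul c y _ hy =>
      obtain ⟨c', hc'⟩ := exists_alpha_eq_of_mem_adjoin N ℓ c.2
      have e : c • y = c' • y := by
        show (c : FF (N * ℓ)) * y = heckeAlphaBar Kbar N ℓ c' * y
        rw [hc']
      rw [e]
      exact fun _ => Submodule.smul_mem _ c' (hy trivial)

/-! ### The target field and the algebra structures -/

/-- An algebraic closure of `ℂ((z))` (type synonym carrying `N`, `ℓ`). -/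
def Om (_N _ℓ : ℕ) : Type := AlgebraicClosure (LaurentSeries ℂ)

instance : Field (Om N ℓ) := inferInstanceAs (Field (AlgebraicClosure (LaurentSeries ℂ)))

instance : IsAlgClosed (Om N ℓ) :=
  inferInstanceAs (IsAlgClosed (AlgebraicClosure (LaurentSeries ℂ)))

/-- the inclusion `ℂ((z)) → Ω` -/
def incOm : LaurentSeries ℂ →+* Om N ℓ :=
  algebraMap (LaurentSeries ℂ) (AlgebraicClosure (LaurentSeries ℂ))

theorem incOm_injective : Function.Injective (incOm N ℓ) :=
  (algebraMap (LaurentSeries ℂ) (AlgebraicClosure (LaurentSeries ℂ))).injective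

/-- `FF (N ℓ)` as an `FF N`-algebra along `α` (the Prelude's `algebraAlong`) -/
local instance instAlgAlpha : Algebra (FF N) (FF (N * ℓ)) :=
  algebraAlong (heckeAlphaBar Kbar N ℓ)

/-- `Ω` as an `FF N`-algebra through `σ₁ ∘ α` -/
local instance instAlgOm : Algebra (FF N) (Om N ℓ) :=
  (((incOm N ℓ).comp (sig N ℓ 1)).comp (heckeAlphaBar Kbar N ℓ).toRingHom).toAlgebra

theorem algebraMap_alpha (y : FF N) :
    algebraMap (FF N) (FF (N * ℓ)) y = heckeAlphaBar Kbar N ℓ y := rfl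

theorem algebraMap_Om (y : FF N) :
    algebraMap (FF N) (Om N ℓ) y = incOm N ℓ (sig N ℓ 1 (heckeAlphaBar Kbar N ℓ y)) := rfl

local instance instFiniteAlpha : Module.Finite (FF N) (FF (N * ℓ)) := finite_alpha N ℓ

example : Algebra.IsSeparable (FF N) (FF (N * ℓ)) := inferInstance

/-- the `FF N`-embedding `σ_{h⁻¹}` for `h ∈ Γ₀(N)` -/
def embOf (h : SL(2, ℤ)) (hh : h ∈ CongruenceSubgroup.Gamma0 N) :
    FF (N * ℓ) →ₐ[FF N] Om N ℓ :=
  { (incOm N ℓ).comp (sig N ℓ h⁻¹) with
    commutes' := fun y => by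
      show incOm N ℓ (sig N ℓ h⁻¹ (heckeAlphaBar Kbar N ℓ y))
        = incOm N ℓ (sig N ℓ 1 (heckeAlphaBar Kbar N ℓ y))
      rw [sig_alpha N ℓ hh, sig_one, coe_heckeAlphaBar] }

theorem embOf_apply (h : SL(2, ℤ)) (hh : h ∈ CongruenceSubgroup.Gamma0 N) (x : FF (N * ℓ)) :
    embOf N ℓ h hh x = incOm N ℓ (sig N ℓ h⁻¹ x) := rfl

/-! ### Every `FF N`-embedding is some `σ_g` -/

/-- all the `σ_g` agree with `σ₁` on `ℚ̄(j)` -/
theorem sig_eq_on_adjoin (g : SL(2, ℤ)) {f : FF (N * ℓ)}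
    (hf : f ∈ IntermediateField.adjoin Kbar {jF (N * ℓ)}) : sig N ℓ g f = sig N ℓ 1 f := by
  induction hf using IntermediateField.adjoin_induction with
  | mem z hz =>
      rw [Set.mem_singleton_iff] at hz
      subst hz
      unfold sig
      rw [HolBase.sigmaG_jF, HolBase.sigmaG_jF]
  | algebraMap c => rw [sig_algebraMap, sig_algebraMap]
  | add z w _ _ hz hw => rw [map_add, map_add, hz, hw]
  | inv z _ hz => rw [map_inv₀, map_inv₀, hz]
  | mul z w _ _ hz hw => rw [map_mul, map_mul, hz, hw]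

/-- `ℚ̄(j)` inside `FF (N ℓ)` -/
abbrev Kj : Type := ↥(IntermediateField.adjoin Kbar {jF (N * ℓ)})

/-- `Ω` as a `ℚ̄(j)`-algebra through `σ₁` -/
local instance instAlgKjOm : Algebra (Kj N ℓ) (Om N ℓ) :=
  (((incOm N ℓ).comp (sig N ℓ 1)).comp (algebraMap (Kj N ℓ) (FF (N * ℓ)))).toAlgebra

/-- the `ℚ̄(j)`-embedding attached to a coset -/
def embK (x : XX (N * ℓ)) : FF (N * ℓ) →ₐ[Kj N ℓ] Om N ℓ :=
  { (incOm N ℓ).comp ((holBase (N * ℓ)).sigmaX (holBase (N * ℓ)).qexpExpansion x) with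
    commutes' := fun c => by
      show incOm N ℓ (sig N ℓ (Quotient.out x) (c : FF (N * ℓ)))
        = incOm N ℓ (sig N ℓ 1 (c : FF (N * ℓ)))
      rw [sig_eq_on_adjoin N ℓ _ c.2] }

theorem embK_apply (x : XX (N * ℓ)) (f : FF (N * ℓ)) :
    embK N ℓ x f = incOm N ℓ ((holBase (N * ℓ)).sigmaX (holBase (N * ℓ)).qexpExpansion x f) :=
  rfl

theorem embK_injective : Function.Injective (embK N ℓ) := by
  intro x y hxy
  apply (holBase (N * ℓ)).sigmaX_injective (holBase (N * ℓ)).qexpExpansion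
  refine RingHom.ext fun f => ?_
  apply incOm_injective N ℓ
  have := congrArg (fun φ : FF (N * ℓ) →ₐ[Kj N ℓ] Om N ℓ => φ f) hxy
  simpa only [embK_apply] using this

theorem embK_bijective : Function.Bijective (embK N ℓ) := by
  haveI hfd := (Deg457.degree_fields (N * ℓ)).1
  haveI : Module.Finite (Kj N ℓ) (FF (N * ℓ)) := hfd
  haveI : Module.Free (Kj N ℓ) (FF (N * ℓ)) := Module.Free.of_divisionRing _ _
  haveI : Finite (FF (N * ℓ) →ₐ[Kj N ℓ] Om N ℓ) := Finite.algHom _ _ _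
  refine (embK_injective N ℓ).bijective_of_nat_card_le ?_
  calc Nat.card (FF (N * ℓ) →ₐ[Kj N ℓ] Om N ℓ)
      ≤ Module.finrank (Kj N ℓ) (FF (N * ℓ)) := card_algHom_le_finrank _ _ _
    _ ≤ Nat.card (XX (N * ℓ)) := (Deg457.degree_fields (N * ℓ)).2

/-- an `FF N`-embedding agrees with `σ₁` on `ℚ̄(j)` -/
theorem algHom_eq_on_adjoin (τ : FF (N * ℓ) →ₐ[FF N] Om N ℓ) {f : FF (N * ℓ)}
    (hf : f ∈ IntermediateField.adjoin Kbar {jF (N * ℓ)}) :
    τ f = incOm N ℓ (sig N ℓ 1 f) := by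
  obtain ⟨c', rfl⟩ := exists_alpha_eq_of_mem_adjoin N ℓ hf
  exact τ.commutes c'

/-- **Classification.** Every `FF N`-embedding of `FF (N ℓ)` into `Ω` is `σ_{h⁻¹}` for some
`h ∈ Γ₀(N)`. -/
theorem exists_embOf_eq (τ : FF (N * ℓ) →ₐ[FF N] Om N ℓ) :
    ∃ (h : SL(2, ℤ)) (hh : h ∈ CongruenceSubgroup.Gamma0 N), τ = embOf N ℓ h hh := by
  -- view `τ` as a `ℚ̄(j)`-embedding
  let τK : FF (N * ℓ) →ₐ[Kj N ℓ] Om N ℓ :=
    { τ.toRingHom with
      commutes' := fun c => algHom_eq_on_adjoin N ℓ τ c.2 }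
  obtain ⟨x, hx⟩ := (embK_bijective N ℓ).2 τK
  obtain ⟨g, rfl⟩ := QuotientGroup.mk_surjective x
  have hτ : ∀ f : FF (N * ℓ), τ f = incOm N ℓ (sig N ℓ g f) := by
    intro f
    have h1 : τK f = τ f := rfl
    rw [← h1, ← hx, embK_apply, HolBase.sigmaX_mk]
    rfl
  -- `g⁻¹ ∈ Γ₀(N)`
  have hg : g⁻¹ ∈ CongruenceSubgroup.Gamma0 N := by
    have hNN : N ∣ N * ℓ := Dvd.intro ℓ rfl
    have h2 := hτ (heckeAlphaBar Kbar N ℓ (inclRN N (jR N N dvd_rfl)))
    have h3 : τ (heckeAlphaBar Kbar N ℓ (inclRN N (jR N N dvd_rfl)))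
        = incOm N ℓ (sig N ℓ 1 (heckeAlphaBar Kbar N ℓ (inclRN N (jR N N dvd_rfl)))) :=
      τ.commutes _
    rw [h3] at h2
    have h4 := incOm_injective N ℓ h2
    rw [alpha_inclRN_jR N ℓ N dvd_rfl hNN, sig_inclRN, sig_inclRN, HolBase.bridge_jR, inv_one,
      HolBase.compH_one] at h4
    have h5 := (holBase (N * ℓ)).qexp_injective h4
    apply Jd_distinct N
    intro t
    have h6 := congrArg (fun f : (holBase (N * ℓ)).Hol => (f : ℍ → ℂ) t) h5
    exact h6.symm
  refine ⟨g⁻¹, hg, ?_⟩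
  apply AlgHom.ext
  intro f
  rw [hτ f, embOf_apply, inv_inv]

/-! ### Generation of `FF (N ℓ)` by `α(FF N)` and `β(FF N)` -/

omit [NeZero ℓ] in
theorem dvd_cases {ℓ : ℕ} (hℓ : ℓ.Prime) {N d : ℕ} (hd : d ∣ N * ℓ) :
    d ∣ N ∨ ∃ d', d' ∣ N ∧ d = d' * ℓ := by
  by_cases hℓd : ℓ ∣ d
  · right
    obtain ⟨d', rfl⟩ := hℓd
    refine ⟨d', ?_, Nat.mul_comm _ _⟩
    rw [Nat.mul_comm N ℓ] at hd
    exact Nat.dvd_of_mul_dvd_mul_left hℓ.pos hd
  · left
    have hc : Nat.Coprime d ℓ := (Nat.coprime_comm.mp ((Nat.Prime.coprime_iff_not_dvd hℓ).mpr hℓd))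
    exact hc.dvd_of_dvd_mul_right hd

/-- Two ring homs out of `FF (N ℓ)` agreeing on `α(FF N)` and on `β(FF N)` are equal. -/
theorem ringHom_ext_alpha_beta (hℓ : ℓ.Prime) {E : Type*} [Field E]
    (f g : FF (N * ℓ) →+* E)
    (hα : ∀ y : FF N, f (heckeAlphaBar Kbar N ℓ y) = g (heckeAlphaBar Kbar N ℓ y))
    (hβ : ∀ y : FF N, f (heckeBetaBar Kbar N ℓ y) = g (heckeBetaBar Kbar N ℓ y)) : f = g := by
  apply ringHom_ext_FF (N * ℓ) f g
  · intro c
    have := hα (algebraMap Kbar (FF N) c)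
    rwa [AlgHom.commutes] at this
  · intro d hne hd
    rcases dvd_cases hℓ hd with hdN | ⟨d', hd', rfl⟩
    · rw [← alpha_inclRN_jR N ℓ d hdN hd]
      exact hα _
    · haveI : NeZero d' := ⟨fun h0 => hne.out (by rw [h0, Nat.zero_mul])⟩
      rw [← beta_inclRN_jR N ℓ d' hd' hd]
      exact hβ _

/-! ### The `ℓ + 1` embeddings -/

section Reps

variable (hℓ : ℓ.Prime) (hℓN : ¬ ℓ ∣ N)

include hℓ hℓN in
theorem coprime_N_ℓ : Nat.Coprime N ℓ :=
  Nat.coprime_comm.mp ((Nat.Prime.coprime_iff_not_dvd hℓ).mpr hℓN)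

/-- a representative `h_b ∈ Γ₀(N)` with `(h_b)₁₁ ≡ b (h_b)₁₀ mod ℓ` -/
def hrep (b : ℤ) : SL(2, ℤ) := Classical.choose (exists_rep (coprime_N_ℓ N ℓ hℓ hℓN) b)

theorem hrep_mem (b : ℤ) : hrep N ℓ hℓ hℓN b ∈ CongruenceSubgroup.Gamma0 N :=
  (Classical.choose_spec (exists_rep (coprime_N_ℓ N ℓ hℓ hℓN) b)).1

theorem hrep_dvd (b : ℤ) :
    (ℓ : ℤ) ∣ (hrep N ℓ hℓ hℓN b) 1 1 - b * (hrep N ℓ hℓ hℓN b) 1 0 :=
  (Classical.choose_spec (exists_rep (coprime_N_ℓ N ℓ hℓ hℓN) b)).2

/-- the `ℓ + 1` embeddings: `none ↦ σ₁`, `some b ↦ σ_{h_b⁻¹}` -/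
def embList : Option (Fin ℓ) → (FF (N * ℓ) →ₐ[FF N] Om N ℓ)
  | none => embOf N ℓ 1 (one_mem _)
  | some b => embOf N ℓ (hrep N ℓ hℓ hℓN (b : ℕ)) (hrep_mem N ℓ hℓ hℓN _)

theorem embList_none_beta (y : FF N) :
    embList N ℓ hℓ hℓN none (heckeBetaBar Kbar N ℓ y)
      = incOm N ℓ (HolBase.Φ (N * ℓ) (qExpand Kbar ℓ (y : LaurentSeries Kbar))) := by
  show incOm N ℓ (sig N ℓ 1⁻¹ (heckeBetaBar Kbar N ℓ y)) = _
  rw [inv_one, sig_one, coe_heckeBetaBar]

theorem embList_some_beta (b : Fin ℓ) (y : FF N) :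
    embList N ℓ hℓ hℓN (some b) (heckeBetaBar Kbar N ℓ y)
      = incOm N ℓ (qExpand ℂ N (infTwist (infRoot (b : ℕ) ℓ)
          (coeffMap ιK (y : LaurentSeries Kbar)))) := by
  show incOm N ℓ (sig N ℓ (hrep N ℓ hℓ hℓN (b : ℕ))⁻¹ (heckeBetaBar Kbar N ℓ y)) = _
  rw [sig_beta N ℓ (hrep_mem N ℓ hℓ hℓN _) (hrep_dvd N ℓ hℓ hℓN _)]

/-- the test element `j ∈ FF N` -/
def jTest : FF N := inclRN N (jR N 1 (one_dvd N))

theorem coe_jTest : ((jTest N : FF N) : LaurentSeries Kbar) = coeffEmb Kbar (qExpand ℚ 1 jq) :=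
  rfl

theorem phi_beta_jTest_order :
    (HolBase.Φ (N * ℓ) (qExpand Kbar ℓ ((jTest N : FF N) : LaurentSeries Kbar))).order
      = -(((N * ℓ * ℓ : ℕ)) : ℤ) := by
  rw [coe_jTest]
  show (qExpand ℂ (N * ℓ) (coeffMap ιK (qExpand Kbar ℓ
    (coeffEmb Kbar (qExpand ℚ 1 jq))))).order = _
  rw [coeffMap_qExpand, coeffMap_ιK_coeffEmb, coeffEmb, coeffMap_qExpand, inf_qExpand_order,
    inf_qExpand_order, inf_qExpand_order]
  have : coeffMap (algebraMap ℚ ℂ) jq = infJq := rfl
  rw [this, infJq_order]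
  push_cast
  ring

theorem twist_jTest_eq (b : ℤ) :
    haveI : NeZero (1 * N) := ⟨by rw [one_mul]; exact NeZero.ne N⟩
    qExpand ℂ N (infTwist (infRoot b ℓ) (coeffMap ιK ((jTest N : FF N) : LaurentSeries Kbar)))
      = infGenExp (1 * N) (((1 : ℕ) : ℤ) * b) ℓ := by
  rw [coe_jTest]
  exact (infGenExp_eq_twist N ℓ 1 b).symm

include hℓ in
theorem embList_injective : Function.Injective (embList N ℓ hℓ hℓN) := by
  haveI : NeZero (1 * N) := ⟨by rw [one_mul]; exact NeZero.ne N⟩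
  have hℓ2 : 2 ≤ ℓ := hℓ.two_le
  have hN1 : 1 ≤ N := Nat.pos_of_ne_zero (NeZero.ne N)
  have key_ns : ∀ b : Fin ℓ, embList N ℓ hℓ hℓN none ≠ embList N ℓ hℓ hℓN (some b) := by
    intro b hEq
    have h1 := congrArg (fun φ : FF (N * ℓ) →ₐ[FF N] Om N ℓ =>
      φ (heckeBetaBar Kbar N ℓ (jTest N))) hEq
    simp only [embList_none_beta, embList_some_beta] at h1
    have h2 := incOm_injective N ℓ h1
    have h3 := congrArg HahnSeries.order h2
    rw [phi_beta_jTest_order, twist_jTest_eq, infGenExp_order] at h3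
    have h4 : N * ℓ * ℓ = 1 * N := by
      have : ((N * ℓ * ℓ : ℕ) : ℤ) = ((1 * N : ℕ) : ℤ) := by linarith
      exact_mod_cast this
    have h5 : N * 4 ≤ N * ℓ * ℓ := by
      rw [Nat.mul_assoc]
      exact Nat.mul_le_mul_left N (Nat.mul_le_mul hℓ2 hℓ2)
    omega
  have key_ss : ∀ b b' : Fin ℓ, embList N ℓ hℓ hℓN (some b) = embList N ℓ hℓ hℓN (some b') →
      b = b' := by
    intro b b' hEq
    have h1 := congrArg (fun φ : FF (N * ℓ) →ₐ[FF N] Om N ℓ =>
      φ (heckeBetaBar Kbar N ℓ (jTest N))) hEq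
    simp only [embList_some_beta] at h1
    have h2 := incOm_injective N ℓ h1
    rw [twist_jTest_eq, twist_jTest_eq] at h2
    have h3 := congrArg HahnSeries.leadingCoeff h2
    rw [infGenExp_leadingCoeff, infGenExp_leadingCoeff] at h3
    have h4 : infRoot (((1 : ℕ) : ℤ) * ((b : ℕ) : ℤ)) ℓ = infRoot (((1 : ℕ) : ℤ) * ((b' : ℕ) : ℤ)) ℓ :=
      inv_injective (Units.val_inj.mp h3)
    obtain ⟨k, hk⟩ := (infRoot_eq_iff hℓ.pos).mp h4
    have hb := b.2
    have hb' := b'.2
    apply Fin.ext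
    have h5 : ((b : ℕ) : ℤ) - ((b' : ℕ) : ℤ) = ℓ * k := by
      simp only [Nat.cast_one, one_mul] at hk
      exact hk
    have hk0 : k = 0 := by
      by_contra hne
      rcases lt_or_gt_of_ne hne with hlt | hgt
      · have : (ℓ : ℤ) * k ≤ ℓ * (-1) :=
          mul_le_mul_of_nonneg_left (by omega) (by positivity)
        have h6 : ((b : ℕ) : ℤ) < ℓ := by exact_mod_cast hb
        have h7 : (0 : ℤ) ≤ ((b : ℕ) : ℤ) := by positivity
        have h8 : ((b' : ℕ) : ℤ) < ℓ := by exact_mod_cast hb'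
        linarith
      · have : (ℓ : ℤ) * 1 ≤ ℓ * k :=
          mul_le_mul_of_nonneg_left (by omega) (by positivity)
        have h6 : ((b : ℕ) : ℤ) < ℓ := by exact_mod_cast hb
        have h7 : (0 : ℤ) ≤ ((b' : ℕ) : ℤ) := by positivity
        linarith
    rw [hk0, mul_zero] at h5
    have : ((b : ℕ) : ℤ) = ((b' : ℕ) : ℤ) := by linarith
    exact_mod_cast this
  intro o o' hEq
  rcases o with _ | b <;> rcases o' with _ | b'
  · rfl
  · exact absurd hEq (key_ns b')
  · exact absurd hEq.symm (key_ns b)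
  · rw [key_ss b b' hEq]

include hℓ in
theorem embList_surjective : Function.Surjective (embList N ℓ hℓ hℓN) := by
  intro τ
  obtain ⟨h, hh, rfl⟩ := exists_embOf_eq N ℓ τ
  rcases dvd_or_exists_b hℓ h with hd | ⟨b, hb⟩
  · -- `h ∈ Γ₀(N ℓ)`, so `σ_{h⁻¹} = σ₁`
    refine ⟨none, ?_⟩
    have hM : h ∈ CongruenceSubgroup.Gamma0 (N * ℓ) :=
      mem_gamma0_mul (coprime_N_ℓ N ℓ hℓ hℓN) hh hd
    have e : sig N ℓ h⁻¹ = sig N ℓ (1 : SL(2, ℤ))⁻¹ := by
      have := (holBase (N * ℓ)).sigmaG_mul_of_mem (holBase (N * ℓ)).qexpExpansion 1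
        (inv_mem hM)
      rw [one_mul] at this
      rw [inv_one]
      exact this
    apply AlgHom.ext
    intro f
    show incOm N ℓ (sig N ℓ (1 : SL(2, ℤ))⁻¹ f) = incOm N ℓ (sig N ℓ h⁻¹ f)
    rw [e]
  · -- `σ_{h⁻¹} = σ_{h_{b₀}⁻¹}` with `b₀ = b mod ℓ`
    have hℓpos : (0 : ℤ) < ℓ := by exact_mod_cast hℓ.pos
    have hb0 : 0 ≤ b % (ℓ : ℤ) := Int.emod_nonneg b hℓpos.ne'
    have hb1 : b % (ℓ : ℤ) < ℓ := Int.emod_lt_of_pos b hℓpos
    let b₀ : Fin ℓ := ⟨(b % (ℓ : ℤ)).toNat, by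
      have := hb1
      omega⟩
    have hb₀ : ((b₀ : ℕ) : ℤ) = b % (ℓ : ℤ) := Int.toNat_of_nonneg hb0
    refine ⟨some b₀, ?_⟩
    have e : sig N ℓ (hrep N ℓ hℓ hℓN ((b₀ : ℕ) : ℤ))⁻¹ = sig N ℓ h⁻¹ := by
      apply ringHom_ext_alpha_beta N ℓ hℓ
      · intro y
        rw [sig_alpha N ℓ (hrep_mem N ℓ hℓ hℓN _), sig_alpha N ℓ hh]
      · intro y
        rw [sig_beta N ℓ (hrep_mem N ℓ hℓ hℓN _) (hrep_dvd N ℓ hℓ hℓN _), sig_beta N ℓ hh hb]
        have : infRoot ((b₀ : ℕ) : ℤ) ℓ = infRoot b ℓ := by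
          rw [infRoot_eq_iff hℓ.pos, hb₀]
          exact ⟨-(b / (ℓ : ℤ)), by linarith [Int.emod_add_mul_ediv b ℓ]⟩
        rw [this]
    apply AlgHom.ext
    intro f
    show incOm N ℓ (sig N ℓ (hrep N ℓ hℓ hℓN ((b₀ : ℕ) : ℤ))⁻¹ f) = incOm N ℓ (sig N ℓ h⁻¹ f)
    rw [e]

include hℓ in
theorem embList_bijective : Function.Bijective (embList N ℓ hℓ hℓN) :=
  ⟨embList_injective N ℓ hℓ hℓN, embList_surjective N ℓ hℓ hℓN⟩

end Reps

end Fermat.Agent.S37.H819

end
end
-- ===== PACK-END S37/H819/Enum.lean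

-- ===== PACK-BEGIN S37/H819/Norm.lean
section


/-!
# S37 / NORM (helper819) — the norm of `β y` over `α(FF N)` is the Kronecker product

Main results (`K = ℚ̄`, `ℓ` prime, `ℓ ∤ N`, `α = heckeAlphaBar`, `β = heckeBetaBar`,
`FF N = ℚ̄(j(q^d) : d ∣ N) ⊆ ℚ̄((q))`, the norm is taken for the Prelude algebra structure
`algebraAlong α` on `FF (N ℓ)`):

* `norm_heckeBeta` :
  `V_ℓ (Nm_α (β y)) = V_{ℓ²} y * ∏_{b < ℓ} y(ζ^b u)`   in `ℚ̄((u))`, `u = q^{1/ℓ}`,
  i.e. `Nm_α(β y)(q) = y(q^ℓ) ∏_b y(ζ^b q^{1/ℓ})`, for any primitive `ℓ`-th root of unity `ζ`.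
-/

set_option autoImplicit false

noncomputable section

open ModularCurve HahnSeries UpperHalfPlane AlgebraicCurve
open scoped MatrixGroups

namespace Fermat.Agent.S37.H819

open Fermat.Agent.S24 Fermat.Agent.S24.H997

variable (N ℓ : ℕ) [NeZero N] [NeZero ℓ]

section Internal

attribute [local instance] instAlgAlpha instAlgOm instFiniteAlpha

/-- The norm formula over `ℂ((z))`, `z = q^{1/(N ℓ)}`. -/
theorem norm_complex (hℓ : ℓ.Prime) (hℓN : ¬ ℓ ∣ N) (y : FF N) :
    HolBase.Φ (N * ℓ)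
        ((Algebra.norm (FF N) (heckeBetaBar Kbar N ℓ y) : FF N) : LaurentSeries Kbar)
      = HolBase.Φ (N * ℓ) (qExpand Kbar ℓ (y : LaurentSeries Kbar))
        * ∏ b : Fin ℓ, qExpand ℂ N (infTwist (infRoot ((b : ℕ) : ℤ) ℓ)
            (coeffMap ιK (y : LaurentSeries Kbar))) := by
  have h := Algebra.norm_eq_prod_embeddings (FF N) (Om N ℓ) (heckeBetaBar Kbar N ℓ y)
  rw [algebraMap_Om, sig_one, coe_heckeAlphaBar] at h
  have he := embList_bijective N ℓ hℓ hℓN
  rw [← he.prod_comp (fun σ : FF (N * ℓ) →ₐ[FF N] Om N ℓ => σ (heckeBetaBar Kbar N ℓ y)),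
    Fintype.prod_option, embList_none_beta] at h
  simp only [embList_some_beta] at h
  rw [← map_prod, ← map_mul] at h
  exact incOm_injective N ℓ h

/-- Products over the powers of a primitive root do not depend on the primitive root. -/
theorem prod_range_pow_primitive {R M : Type*} [CommRing R] [IsDomain R] [CommMonoid M] {n : ℕ}
    {ω ε : R} (hω : IsPrimitiveRoot ω n) (hε : IsPrimitiveRoot ε n) (T : R → M) :
    ∏ b ∈ Finset.range n, T (ω ^ b) = ∏ b ∈ Finset.range n, T (ε ^ b) := by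
  classical
  rcases Nat.eq_zero_or_pos n with rfl | hn
  · simp
  have key : ∀ {ξ : R}, IsPrimitiveRoot ξ n →
      ∏ b ∈ Finset.range n, T (ξ ^ b) = ∏ u ∈ Polynomial.nthRootsFinset n (1 : R), T u := by
    intro ξ hξ
    have himg : (Finset.range n).image (fun b => ξ ^ b) = Polynomial.nthRootsFinset n (1 : R) := by
      apply Finset.eq_of_subset_of_card_le
      · intro u hu
        obtain ⟨b, -, rfl⟩ := Finset.mem_image.mp hu
        rw [Polynomial.mem_nthRootsFinset hn, ← pow_mul, mul_comm, pow_mul, hξ.pow_eq_one, one_pow]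
      · rw [hξ.card_nthRootsFinset, Finset.card_image_of_injOn hξ.injOn_pow, Finset.card_range]
    rw [← himg, Finset.prod_image]
    intro a ha b hb hab
    exact hξ.injOn_pow ha hb hab
  rw [key hω, key hε]

omit [NeZero N] in
theorem coe_infRoot_one_isPrimitiveRoot : IsPrimitiveRoot ((infRoot 1 ℓ : ℂˣ) : ℂ) ℓ := by
  have h := Complex.isPrimitiveRoot_exp ℓ (NeZero.ne ℓ)
  have e : ((infRoot 1 ℓ : ℂˣ) : ℂ) = Complex.exp (2 * Real.pi * Complex.I / ℓ) := by
    rw [infRoot_coe]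
    congr 1
    push_cast
    ring
  rw [e]
  exact h

/-- `Φ_N ∘ V_ℓ = Φ_{N ℓ}` -/
theorem Φ_qExpand (x : LaurentSeries Kbar) :
    HolBase.Φ N (qExpand Kbar ℓ x) = HolBase.Φ (N * ℓ) x := by
  show qExpand ℂ N (coeffMap ιK (qExpand Kbar ℓ x)) = qExpand ℂ (N * ℓ) (coeffMap ιK x)
  rw [coeffMap_qExpand, qExpand_qExpand]

/-- **The norm of `β y` over `α(FF N)`** (Kronecker product formula): for `ℓ ∤ N` prime and
any primitive `ℓ`-th root of unity `ζ ∈ ℚ̄`,
`Nm(β y)(u^ℓ) = y(u^{ℓ²}) · ∏_{b<ℓ} y(ζ^b u)`. -/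
theorem norm_heckeBeta_aux (hℓ : ℓ.Prime) (hℓN : ¬ ℓ ∣ N) (ζ : Kbarˣ)
    (hζ : IsPrimitiveRoot (ζ : Kbar) ℓ) (y : FF N) :
    qExpand Kbar ℓ
        ((Algebra.norm (FF N) (heckeBetaBar Kbar N ℓ y) : FF N) : LaurentSeries Kbar)
      = qExpand Kbar (ℓ * ℓ) (y : LaurentSeries Kbar)
        * ∏ b ∈ Finset.range ℓ, infTwist (ζ ^ b) (y : LaurentSeries Kbar) := by
  apply HolBase.Φ_injective (N := N)
  have e2 : HolBase.Φ N (qExpand Kbar (ℓ * ℓ) (y : LaurentSeries Kbar))
      = HolBase.Φ (N * ℓ) (qExpand Kbar ℓ (y : LaurentSeries Kbar)) := by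
    rw [← Φ_qExpand, qExpand_qExpand]
  rw [map_mul, map_prod, Φ_qExpand, norm_complex N ℓ hℓ hℓN y, e2]
  congr 1
  rw [Fin.prod_univ_eq_prod_range (fun b : ℕ => qExpand ℂ N (infTwist (infRoot ((b : ℕ) : ℤ) ℓ)
    (coeffMap ιK (y : LaurentSeries Kbar)))) ℓ]
  -- both sides are products of `T (ξ ^ b)`
  let T : ℂ → LaurentSeries ℂ := fun u =>
    if h : u = 0 then 1
    else qExpand ℂ N (infTwist (Units.mk0 u h) (coeffMap ιK (y : LaurentSeries Kbar)))
  have hT : ∀ v : ℂˣ, T (v : ℂ)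
      = qExpand ℂ N (infTwist v (coeffMap ιK (y : LaurentSeries Kbar))) := by
    intro v
    simp only [T]
    rw [dif_neg v.ne_zero]
    congr 3
    exact Units.ext rfl
  have hε := coe_infRoot_one_isPrimitiveRoot ℓ
  have hω : IsPrimitiveRoot (ιK (ζ : Kbar)) ℓ := hζ.map_of_injective ιK_injective
  have hL : ∀ b ∈ Finset.range ℓ,
      qExpand ℂ N (infTwist (infRoot ((b : ℕ) : ℤ) ℓ) (coeffMap ιK (y : LaurentSeries Kbar)))
        = T (((infRoot 1 ℓ : ℂˣ) : ℂ) ^ b) := by
    intro b _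
    rw [← Units.val_pow_eq_pow_val, hT, infRoot_pow, mul_one]
  have hR : ∀ b ∈ Finset.range ℓ,
      HolBase.Φ N (infTwist (ζ ^ b) (y : LaurentSeries Kbar)) = T ((ιK (ζ : Kbar)) ^ b) := by
    intro b _
    have e : (ιK (ζ : Kbar)) ^ b = ((Units.map (ιK : Kbar →* ℂ) (ζ ^ b) : ℂˣ) : ℂ) := by
      simp
    rw [e, hT]
    show qExpand ℂ N (coeffMap ιK (infTwist (ζ ^ b) (y : LaurentSeries Kbar))) = _
    rw [coeffMap_infTwist]
  rw [Finset.prod_congr rfl hL, Finset.prod_congr rfl hR]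
  exact prod_range_pow_primitive hε hω T

/-- the degree of `FF (N ℓ)` over `α(FF N)` is `ℓ + 1` -/
theorem finrank_alpha_aux (hℓ : ℓ.Prime) (hℓN : ¬ ℓ ∣ N) :
    Module.finrank (FF N) (FF (N * ℓ)) = ℓ + 1 := by
  rw [← AlgHom.card (FF N) (FF (N * ℓ)) (Om N ℓ),
    ← Fintype.card_of_bijective (embList_bijective N ℓ hℓ hℓN)]
  simp

omit [NeZero N] in
theorem coe_sub_FF (a b : FF N) :
    ((a - b : FF N) : LaurentSeries Kbar) = (a : LaurentSeries Kbar) - (b : LaurentSeries Kbar) :=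
  rfl

set_option maxHeartbeats 1000000 in
set_option synthInstance.maxHeartbeats 200000 in
/-- the characteristic polynomial of `β y` over `α(FF N)` is the Kronecker polynomial -/
theorem charpoly_heckeBeta_aux (hℓ : ℓ.Prime) (hℓN : ¬ ℓ ∣ N) (ζ : Kbarˣ)
    (hζ : IsPrimitiveRoot (ζ : Kbar) ℓ) (y : FF N) :
    (((Algebra.lmul (FF N) (FF (N * ℓ)) (heckeBetaBar Kbar N ℓ y)).charpoly.map
        (coeHom N)).map (qExpand Kbar ℓ))
      = (Polynomial.X - Polynomial.C (qExpand Kbar (ℓ * ℓ) (y : LaurentSeries Kbar)))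
        * ∏ b ∈ Finset.range ℓ,
            (Polynomial.X - Polynomial.C (infTwist (ζ ^ b) (y : LaurentSeries Kbar))) := by
  apply Polynomial.eq_of_infinite_eval_eq
  refine Set.infinite_of_injective_forall_mem
    (f := fun c : Kbar => algebraMap Kbar (LaurentSeries Kbar) c)
    (algebraMap Kbar (LaurentSeries Kbar)).injective ?_
  intro c
  show Polynomial.eval _ _ = Polynomial.eval _ _
  -- the constant `c` as an element of `FF N`
  set t : FF N := algebraMap Kbar (FF N) c with ht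
  have hc : algebraMap Kbar (LaurentSeries Kbar) c = qExpand Kbar ℓ (coeHom N t) := by
    rw [coeHom_apply, ht, coe_algebraMap_FF, algebraMap_laurentSeries_eq_single, qExpand_single,
      mul_zero]
  -- left side
  have hL : Polynomial.eval (algebraMap Kbar (LaurentSeries Kbar) c)
      (((Algebra.lmul (FF N) (FF (N * ℓ)) (heckeBetaBar Kbar N ℓ y)).charpoly.map
        (coeHom N)).map (qExpand Kbar ℓ))
      = qExpand Kbar ℓ ((Algebra.norm (FF N)
          (heckeBetaBar Kbar N ℓ (t - y)) : FF N) : LaurentSeries Kbar) := by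
    rw [hc, Polynomial.eval_map, Polynomial.eval₂_hom, Polynomial.eval_map,
      Polynomial.eval₂_hom, LinearMap.eval_charpoly, coeHom_apply]
    congr 2
    rw [Algebra.norm_apply]
    congr 1
    rw [map_sub, map_sub]
    congr 1
    refine LinearMap.ext fun z => ?_
    show heckeAlphaBar Kbar N ℓ t * z = heckeBetaBar Kbar N ℓ t * z
    rw [ht, AlgHom.commutes, AlgHom.commutes]
  rw [hL, norm_heckeBeta_aux N ℓ hℓ hℓN ζ hζ (t - y)]
  have hsub : ((t - y : FF N) : LaurentSeries Kbar)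
      = algebraMap Kbar (LaurentSeries Kbar) c - (y : LaurentSeries Kbar) := by
    rw [coe_sub_FF, ht, coe_algebraMap_FF]
  have hV : ∀ (n : ℕ) [NeZero n], qExpand Kbar n (algebraMap Kbar (LaurentSeries Kbar) c)
      = algebraMap Kbar (LaurentSeries Kbar) c := by
    intro n _
    rw [algebraMap_laurentSeries_eq_single, qExpand_single, mul_zero]
  have hT : ∀ u : Kbarˣ, infTwist u (algebraMap Kbar (LaurentSeries Kbar) c)
      = algebraMap Kbar (LaurentSeries Kbar) c := by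
    intro u
    rw [algebraMap_laurentSeries_eq_single, infTwist_single]
    simp
  rw [hsub, map_sub, hV, Polynomial.eval_mul, Polynomial.eval_sub, Polynomial.eval_X,
    Polynomial.eval_C, Polynomial.eval_prod]
  congr 1
  refine Finset.prod_congr rfl fun b _ => ?_
  rw [map_sub, hT, Polynomial.eval_sub, Polynomial.eval_X, Polynomial.eval_C]

end Internal

/-! ### Public statements (with the Prelude's `algebraAlong`) -/

/-- `FF (N ℓ)` is a finite extension of `α(FF N)`: the Prelude's `FiniteAlong`. -/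
theorem finiteAlong_heckeAlphaBar :
    FiniteAlong Kbar (heckeAlphaBar Kbar N ℓ) :=
  finite_alpha N ℓ

/-- `[FF (N ℓ) : α(FF N)] = ℓ + 1` for a prime `ℓ ∤ N`. -/
theorem finrankAlong_heckeAlphaBar (hℓ : ℓ.Prime) (hℓN : ¬ ℓ ∣ N) :
    finrankAlong Kbar (heckeAlphaBar Kbar N ℓ) = ℓ + 1 :=
  finrank_alpha_aux N ℓ hℓ hℓN

/-- **NORM.** For a prime `ℓ ∤ N`, a primitive `ℓ`-th root of unity `ζ ∈ ℚ̄` and `y ∈ FF N`:
`Nm_{FF(Nℓ)/α(FF N)}(β y)(u^ℓ) = y(u^{ℓ²}) · ∏_{b<ℓ} y(ζ^b u)` in `ℚ̄((u))`. -/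
theorem norm_heckeBeta (hℓ : ℓ.Prime) (hℓN : ¬ ℓ ∣ N) (ζ : Kbarˣ)
    (hζ : IsPrimitiveRoot (ζ : Kbar) ℓ) (y : FF N) :
    letI := algebraAlong (heckeAlphaBar Kbar N ℓ)
    qExpand Kbar ℓ
        ((Algebra.norm (FF N) (heckeBetaBar Kbar N ℓ y) : FF N) : LaurentSeries Kbar)
      = qExpand Kbar (ℓ * ℓ) (y : LaurentSeries Kbar)
        * ∏ b ∈ Finset.range ℓ, infTwist (ζ ^ b) (y : LaurentSeries Kbar) :=
  norm_heckeBeta_aux N ℓ hℓ hℓN ζ hζ y

set_option maxHeartbeats 1000000 in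
set_option synthInstance.maxHeartbeats 200000 in
/-- **CHARPOLY.** The characteristic polynomial of `β y` over `α(FF N)` is the Kronecker
polynomial `(X - y(q^ℓ)) ∏_b (X - y(ζ^b q^{1/ℓ}))` (written in `u = q^{1/ℓ}`). -/
theorem charpoly_heckeBeta (hℓ : ℓ.Prime) (hℓN : ¬ ℓ ∣ N) (ζ : Kbarˣ)
    (hζ : IsPrimitiveRoot (ζ : Kbar) ℓ) (y : FF N) :
    letI := algebraAlong (heckeAlphaBar Kbar N ℓ)
    haveI : Module.Finite (FF N) (FF (N * ℓ)) := finiteAlong_heckeAlphaBar N ℓ
    (((Algebra.lmul (FF N) (FF (N * ℓ)) (heckeBetaBar Kbar N ℓ y)).charpoly.map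
        (coeHom N)).map (qExpand Kbar ℓ))
      = (Polynomial.X - Polynomial.C (qExpand Kbar (ℓ * ℓ) (y : LaurentSeries Kbar)))
        * ∏ b ∈ Finset.range ℓ,
            (Polynomial.X - Polynomial.C (infTwist (ζ ^ b) (y : LaurentSeries Kbar))) :=
  charpoly_heckeBeta_aux N ℓ hℓ hℓN ζ hζ y

end Fermat.Agent.S37.H819

end
end
-- ===== PACK-END S37/H819/Norm.lean

-- ===== PACK-BEGIN S29/H222/ESKAdapterM.lean
section
/-
S29 / helper222 — piece ESK, adapter to layer M: `Fermat.Agent.S29.M.ESStatement` (the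
Eichler–Shimura input of deputy helper30's layer M, `M/Defs.lean`) from the external inputs
of `ESKFamily.lean`:

* `CoreFamily`   : `S18.CoreStatement N A m` for `ℓ ∤ N`, `ℓ ∤ m`, `A` over `ℓ`     (row S18)
* `PGIFamily`    : Prelude `PrincipalGeneratedByIntegral A (residue A) N`            (S18/S37, M1-Gauss)
* `NormIdFamily` : `NormId N ℓ`                                                      (piece NKI)

(`HIFamily`, the fourth input, is discharged here from helper812's piece HI.)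
-/




set_option autoImplicit false
set_option linter.style.haveILetI false

noncomputable section

namespace Fermat.Agent.S29.H222

/-- **ES for layer M**: the exact `M.ESStatement`, from the four families. -/
theorem esStatement_of_families (hcore : CoreFamily) (hpgi : PGIFamily) (hHI : HIFamily)
    (hnid : NormIdFamily) : Fermat.Agent.S29.M.ESStatement :=
  esRaw_of_families hcore hpgi hHI hnid

/-- Piece HI (helper812) in family form. -/
theorem hiFamily : HIFamily :=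
  fun N _ ℓ _ _ _ => Fermat.Agent.S29.H812.heckeInputsAlong N ℓ

/-- **ES for layer M** from the three remaining external inputs. -/
theorem esStatement_of_core_pgi_normId (hcore : CoreFamily) (hpgi : PGIFamily)
    (hnid : NormIdFamily) : Fermat.Agent.S29.M.ESStatement :=
  esStatement_of_families hcore hpgi hiFamily hnid

end Fermat.Agent.S29.H222

end
end
-- ===== PACK-END S29/H222/ESKAdapterM.lean

-- ===== PACK-BEGIN S18/H965/Glue.lean
section


/-!
# S18 / NODE GLUE (helper965)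

`node_glue : Mod.GlueStatement M ℓ A m` (for PRIME `m`) — exactly the type of `node_glue` in
`Fermat/Agent/S18/Integ/Skeleton.lean` (interfaces v4 = FINAL, on main b6b9cd58):

    CoordinateStatement M ℓ → GoodModelStatement M ℓ A → AlgStatement M → CoreStatement M A m.

Proof: given integral `U₁, U₂` with the same reduction, put `u = U₁/U₂ ∈ Ω`.
* descent: `U₁, U₂ ∈ Fc M E` as soon as `E ⊇ T` (`exists_finset_mem_Fc`); MOD supplies a member
  `p = (Ec M E, Fc M E, Rc M A E, V, w)` of the good family with `E ⊇ T`;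
* `m⁻¹ ∈ Rc M A E` since `ℓ ∤ m` (`natCast_inv_mem_Rc`);
* `(u - 1)/w ∈ V = VcSet M A E` (`sub_one_mul_inv_mem_VcSet`, uses only `w_mem`, `w_gen`);
* every valuation subring `O ⊇ Q̄` of `Ω` is `⊤` or a place (`H443.exists_place_eq`), whence the
  divisor hypothesis in the form required by ALG (`exists_unit_twist`);
* ALG gives `u = c y^m`.
-/

set_option autoImplicit false

noncomputable section

namespace Fermat.Agent.S18.H965

open ModularCurve AlgebraicCurve HahnSeries Fermat.Agent.S18 Fermat.Agent.S18.Mod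

/-- **NODE GLUE (d1).** -/
theorem node_glue (M : ℕ) [NeZero M] {ℓ : ℕ} [Fact ℓ.Prime] (_hℓM : ¬ ℓ ∣ M)
    (A : ValuationSubring Qb) (hA : A.LiesOverPrime ℓ) (m : ℕ) (hmp : m.Prime) (hm : ¬ ℓ ∣ m) :
    Mod.GlueStatement M ℓ A m := by
  classical
  intro hcoord hmod halg U₁ U₂ h₁ h₂ hred hdiv
  obtain ⟨x, S, hxS⟩ := hcoord
  obtain ⟨𝓕, -, hfam, hT⟩ := hmod x S hxS
  obtain ⟨T₁, hT₁⟩ := exists_finset_mem_Fc M (toF h₁)
  obtain ⟨T₂, hT₂⟩ := exists_finset_mem_Fc M (toF h₂)
  obtain ⟨E, V, w, -, hTE, hV, hp⟩ := hT (T₁ ∪ T₂)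
  have hf₁ : toF h₁ ∈ Fc M E := hT₁ E (fun a ha => hTE a (Finset.mem_union_left _ ha))
  have hf₂ : toF h₂ ∈ Fc M E := hT₂ E (fun a ha => hTE a (Finset.mem_union_right _ ha))
  have hgood : Alg.GoodModel (Lc M) (Ec M E) (Fc M E) (Rc M A E) V w x S := hfam.good _ hp
  have hm0 : m ≠ 0 := hmp.ne_zero
  have hu0 : toF h₁ / toF h₂ ≠ 0 := div_ne_zero (toF_ne_zero h₁) (toF_ne_zero h₂)
  have huV : (toF h₁ / toF h₂ - 1) * w⁻¹ ∈ V := by
    have h := sub_one_mul_inv_mem_VcSet A h₁ h₂ hred hf₁ hf₂ hgood.w_mem hgood.w_gen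
    rw [← hV] at h
    exact h
  obtain ⟨y, c, hcL, hc0, huy⟩ := halg (Lc M) x S 𝓕 hfam _ hp m
    hmp (natCast_inv_mem_Rc Fact.out A hA hm) (toF h₁ / toF h₂) (div_mem hf₁ hf₂) hu0 huV
    (exists_unit_twist (toF_ne_zero h₁) (toF_ne_zero h₂) hdiv)
  obtain ⟨c', rfl⟩ := hcL
  refine ⟨c', y, ?_, ?_, ?_⟩
  · rintro rfl
    exact hc0 (map_zero _)
  · rintro rfl
    rw [zero_pow hm0, mul_zero] at huy
    exact hu0 huy
  · rw [← huy, div_mul_cancel₀ _ (toF_ne_zero h₂)]

end Fermat.Agent.S18.H965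

end
end
-- ===== PACK-END S18/H965/Glue.lean

-- ===== PACK-BEGIN S18/H694/CoreFamilyOfNodes.lean
section





/-!
# S18 / helper694 — the hub for ALL `m` from the two open nodes (`node_mod`, `node_alg`)

The S18 skeleton (interfaces v4) produces the hub `CoreStatement N A p` only for PRIME `p ≠ ℓ`.
Row S29 (`S29/H222/ESKFamily.lean`, `CoreFamily`; `esStatement_of_core`) needs it for all `m`
prime to `ℓ`.  This file wires the closed nodes on main (`H333.node_coord`, `H965.node_glue`,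
`H568.node_d2`) with `H694.coreStatement_of_prime`:

* `coreStatement_of_nodes` : `CoreStatement N A m` for all `m` with `ℓ ∤ m`, from `node_mod` at the
  level `M = levelM N ℓ` and `node_alg`;
* `coreFamily_of_nodes` : the exact body of `S29.H222.CoreFamily` from the two node statements
  (in the exact shapes of `Integ/Skeleton.lean`).

When `node_mod` and `node_alg` are on main, `CoreFamily` is `coreFamily_of_nodes node_mod node_alg`.
-/

set_option autoImplicit false

noncomputable section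

namespace Fermat.Agent.S18.H694

open ModularCurve AlgebraicCurve

/-- The level at which good reduction is proved (same as `Integ.levelM` of the skeleton). -/
def levelAux (N ℓ : ℕ) : ℕ := if ℓ = 3 then Nat.lcm N 2 else if ℓ = 2 then Nat.lcm N 3 else N

theorem levelAux_ne_zero (N ℓ : ℕ) [NeZero N] : levelAux N ℓ ≠ 0 := by
  unfold levelAux
  split_ifs <;> simp [NeZero.ne N]

theorem not_dvd_levelAux (N : ℕ) {ℓ : ℕ} [Fact ℓ.Prime] (hℓN : ¬ ℓ ∣ N) :
    ¬ ℓ ∣ levelAux N ℓ := by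
  unfold levelAux
  split_ifs with h3 h2
  · subst h3
    intro h
    have := (Nat.Prime.dvd_mul (by norm_num : Nat.Prime 3)).mp (h.trans (Nat.lcm_dvd_mul N 2))
    rcases this with h | h
    · exact hℓN h
    · omega
  · subst h2
    intro h
    have := (Nat.Prime.dvd_mul (by norm_num : Nat.Prime 2)).mp (h.trans (Nat.lcm_dvd_mul N 3))
    rcases this with h | h
    · exact hℓN h
    · omega
  · exact hℓN

/-- The hub at level `N` for all `m` prime to `ℓ`, from `node_mod` at level `levelAux N ℓ` and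
`node_alg`. -/
theorem coreStatement_of_nodes (N : ℕ) [NeZero N] {ℓ : ℕ} [Fact ℓ.Prime] (hℓN : ¬ ℓ ∣ N)
    (A : ValuationSubring Qb) (hA : A.LiesOverPrime ℓ)
    (hmod : Mod.GoodModelStatement (levelAux N ℓ) ℓ A)
    (halg : Mod.AlgStatement (levelAux N ℓ)) :
    ∀ m : ℕ, ¬ ℓ ∣ m → CoreStatement N A m := by
  have : NeZero (levelAux N ℓ) := ⟨levelAux_ne_zero N ℓ⟩
  have hℓM := not_dvd_levelAux N hℓN
  have h3 : ℓ = 3 → 2 ∣ levelAux N ℓ := fun h => by
    unfold levelAux; rw [if_pos h]; exact Nat.dvd_lcm_right N 2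
  have h2 : ℓ = 2 → 3 ∣ levelAux N ℓ := fun h => by
    unfold levelAux
    rw [if_neg (by omega), if_pos h]; exact Nat.dvd_lcm_right N 3
  refine coreStatement_of_prime hℓN hA (fun p hp hℓp => ?_)
  have hcoreM : CoreStatement (levelAux N ℓ) A p :=
    H965.node_glue (levelAux N ℓ) hℓM A hA p hp hℓp
      (H333.node_coord (levelAux N ℓ) hℓM h3 h2) hmod halg
  exact H568.node_d2 N hℓN A hA p hℓp hcoreM

/-- **The S18 hub family needed by row S29** (exact body of `Fermat.Agent.S29.H222.CoreFamily`),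
from the two open nodes of the S18 skeleton in their exact shapes. -/
theorem coreFamily_of_nodes
    (node_mod : ∀ (M : ℕ) [NeZero M] {ℓ : ℕ} [Fact ℓ.Prime], ¬ ℓ ∣ M →
      ∀ A : ValuationSubring Qb, A.LiesOverPrime ℓ → Mod.GoodModelStatement M ℓ A)
    (node_alg : ∀ M : ℕ, Mod.AlgStatement M) :
    ∀ (N : ℕ) [NeZero N] (ℓ : ℕ), ℓ.Prime → ¬ ℓ ∣ N → ∀ m : ℕ, ¬ ℓ ∣ m →
      ∀ A : ValuationSubring Qb, A.LiesOverPrime ℓ → CoreStatement N A m := by
  intro N _ ℓ hℓ hℓN m hm A hA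
  have : Fact ℓ.Prime := ⟨hℓ⟩
  have : NeZero (levelAux N ℓ) := ⟨levelAux_ne_zero N ℓ⟩
  exact coreStatement_of_nodes N hℓN A hA
    (node_mod (levelAux N ℓ) (not_dvd_levelAux N hℓN) A hA) (node_alg (levelAux N ℓ)) m hm

end Fermat.Agent.S18.H694

end
end
-- ===== PACK-END S18/H694/CoreFamilyOfNodes.lean

-- ===== PACK-BEGIN S36/Eng/H189/Unr.lean
section


/-!
# S36 ENGINE, leaf UNR (helper189): the inertia field is an unramified good level

`unramified_inertiaField` : for a prime `q` and a valuation subring `P` of `ℚ̄` over `q`, the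
inertia field `E = ℚ̄^{I_P}` is a good level for `P` (`A2.GoodField`: `P ∩ E` is a henselian DVR
with algebraically closed residue field, inertia acts trivially) and `q` is a uniformiser of
`P ∩ E`:  every `e ∈ E ∩ 𝔪_P` satisfies `e / q ∈ P`.

This is `Fermat.Agent.S36.Eng.InertiaFieldStatement` (architect helper996, `S36/Eng/Top.lean`)
with `Eng.Unramified` and `Eng.inertiaFld` unfolded; the file imports only `A2/IF/H429`
(Hilbert theory at finite level: `exists_zpow_of_mem_inertiaField`).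
-/

set_option autoImplicit false

namespace Fermat.Agent.S36.Eng.H189

open Fermat.Agent.A2 Fermat.Agent.A2.IF.H429

/-- The inertia field (same term as `A2.IF.H429.inertiaField P` and `S36.Eng.inertiaFld P`). -/
theorem inertiaField_eq_fixedField (P : ValuationSubring Qb) :
    inertiaField P = IntermediateField.fixedField (P.inertiaSubgroupIn ℚ) := rfl

/-- The inertia field is a good level. -/
theorem goodField_inertiaField (q : ℕ) (hq : q.Prime) (P : ValuationSubring Qb)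
    (hP : P.LiesOverPrime q) : GoodField P (inertiaField P) where
  stable := fun τ hτ e he => by
    rw [(mem_inertiaField_iff P).mp he τ hτ]
    exact he
  dvr := isDiscreteValuationRing_RE_of_pow P q hq hP (inertiaField P) 1 one_pos
    (fun x hx hx0 => by
      obtain ⟨k, hk⟩ := exists_zpow_of_mem_inertiaField P q hq hP x hx hx0
      refine ⟨k, ?_⟩
      have hq0 : P.valuation (q : Qb) ≠ 0 := valuation_natCast_ne_zero P q hq
      rw [map_div₀, map_zpow₀] at hk
      rw [pow_one]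
      have hz : P.valuation (q : Qb) ^ k ≠ 0 := zpow_ne_zero _ hq0
      exact (div_eq_one_iff_eq hz).mp hk)
  henselian := henselian_RE P (inertiaField P) le_rfl
  algClosed := isAlgClosed_residueField_RE P (inertiaField P) q hq hP le_rfl
  trivial_mod := fun _ hτ _ _ heP => sub_mem_nonunits_of_inertia P hτ heP
  finite_order := fun τ hτ => ⟨1, one_pos, fun e he => by
    rw [Function.iterate_one]
    exact (mem_inertiaField_iff P).mp he τ hτ⟩

/-- `q` is a uniformiser of `P ∩ ℚ̄^{I_P}`: every element of the inertia field lying in the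
maximal ideal of `P` is divisible by `q` in `P`. -/
theorem mul_inv_natCast_mem (q : ℕ) (hq : q.Prime) (P : ValuationSubring Qb)
    (hP : P.LiesOverPrime q) (e : Qb) (he : e ∈ inertiaField P) (hem : e ∈ P.nonunits) :
    e * (q : Qb)⁻¹ ∈ P := by
  rcases eq_or_ne e 0 with rfl | he0
  · rw [zero_mul]
    exact zero_mem P
  obtain ⟨k, hk⟩ := exists_zpow_of_mem_inertiaField P q hq hP e he he0
  have hq0 : P.valuation (q : Qb) ≠ 0 := valuation_natCast_ne_zero P q hq
  have hqlt : P.valuation (q : Qb) < 1 := valuation_natCast_lt_one P q hP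
  have hz : P.valuation (q : Qb) ^ k ≠ 0 := zpow_ne_zero _ hq0
  rw [map_div₀, map_zpow₀] at hk
  have hek : P.valuation e = P.valuation (q : Qb) ^ k := (div_eq_one_iff_eq hz).mp hk
  have helt : P.valuation e < 1 := (ValuationSubring.mem_nonunits_iff (A := P)).mp hem
  -- `k ≥ 1`
  have hk1 : 1 ≤ k := by
    by_contra hcon
    have hk0 : k ≤ 0 := by omega
    have h1 : 1 ≤ P.valuation (q : Qb) ^ k := by
      obtain ⟨n, hn⟩ : ∃ n : ℕ, k = -(n : ℤ) := ⟨(-k).toNat, by omega⟩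
      rw [hn, zpow_neg, zpow_natCast]
      have h2 : P.valuation (q : Qb) ^ n ≤ 1 := pow_le_one' hqlt.le n
      have h3 : P.valuation (q : Qb) ^ n ≠ 0 := pow_ne_zero _ hq0
      exact (one_le_inv₀ (zero_lt_iff.mpr h3)).mpr h2
    rw [← hek] at h1
    exact absurd helt (not_lt.mpr h1)
  rw [← ValuationSubring.valuation_le_one_iff, map_mul, map_inv₀, hek]
  obtain ⟨n, hn⟩ : ∃ n : ℕ, k = (n : ℤ) + 1 := ⟨(k - 1).toNat, by omega⟩
  rw [hn, zpow_add_one₀ hq0, zpow_natCast, mul_assoc, mul_inv_cancel₀ hq0, mul_one]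
  exact pow_le_one' hqlt.le n

/-- **UNR** (= `S36.Eng.InertiaFieldStatement`, unfolded).  The inertia field of a place `P` over
`q` is an unramified good level. -/
theorem unramified_inertiaField :
    ∀ q : ℕ, q.Prime → ∀ P : ValuationSubring Qb, P.LiesOverPrime q →
      GoodField P (IntermediateField.fixedField (P.inertiaSubgroupIn ℚ)) ∧
        ∀ e : (IntermediateField.fixedField (P.inertiaSubgroupIn ℚ) : IntermediateField ℚ Qb),
          (e : Qb) ∈ P.nonunits → (e : Qb) * ((q : Qb))⁻¹ ∈ P :=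
  fun q hq P hP => ⟨goodField_inertiaField q hq P hP,
    fun e hem => mul_inv_natCast_mem q hq P hP (e : Qb) e.2 hem⟩

end Fermat.Agent.S36.Eng.H189

end
-- ===== PACK-END S36/Eng/H189/Unr.lean

-- ===== PACK-BEGIN S36/H193/WallPow.lean
section





/-!
# S36 engine, leaf CLOPEN (helper193), part 10: the label wall, final form (no cover in sight)

`R` a Henselian discrete valuation ring with algebraically closed residue field, uniformiser `w`,
fraction field `E` of characteristic `0`; `F` a field over `E`, `x ∈ F` transcendental over `R`,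
`F` finite over `Frac R (x)`; `m` invertible in `R`, `ζ ∈ R` a primitive `m`-th root of unity.
Sheets of `F`: `A2.H12.IsSheet w x V`.

**Theorem** (`exists_pow_eq_of_base`).  Let `f ∈ F^×` be such that
* `f ≡ 1` on every sheet of `F` (`f` is split),
* some sheet `V₀` of `F` is unramified over `R` (`w` generates its maximal ideal) and discrete,
* at every closed point `𝔫` of the special fibre of the two charts of `F` there is a purity
  datum `f = ε h ^ m` (`ε` a unit at `𝔫`) such that on every sheet `V` through `𝔫` the residue of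
  `h` has the value `ζ ^ κ V · v` at `𝔫` (`BasePureValuesAt`; `κ` = normalising exponents,
  depending on the sheet only).
Then `f` is an `m`-th power in `F`.

The special fibre may be non-reduced and any number of sheets may pass through a closed point
(level `q²`: `q B = p_FF ∩ p_mid^(q-1) ∩ p_VV`, triple points; `V₀ = V_FF`).
The Kummer cover `Z = F(f^(1/m))` is constructed inside the proof; "no new constants" in `Z` is
`A2.H552.isIntegral_mem_range_of_unramified` applied to a sheet of `Z` over `V₀`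
(`A2.H93.CoverSplit`).
-/

set_option autoImplicit false
set_option linter.style.haveILetI false
set_option linter.unusedSectionVars false

namespace Fermat.Agent.S36.H193

open Polynomial
open Fermat.Agent.A2.H12 (IsSheet)
open Fermat.Agent.S18.H138

universe u

section Pow

variable {R : Type u} [CommRing R] [IsDomain R] [IsDiscreteValuationRing R]
  [HenselianLocalRing R] [IsAlgClosed (IsLocalRing.ResidueField R)] [IsIntegrallyClosed R[X]]
variable (E : Type u) [Field E] [CharZero E] [Algebra R E] [IsFractionRing R E]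
variable {F : Type u} [Field F] [Algebra E F] [Algebra R F] [IsScalarTower R E F]

include E in

/-- **The label wall, final form.** -/
theorem exists_pow_eq_of_base (w : R) (hw : Irreducible w)
    {x : F} (hx : Transcendental R x) [FiniteDimensional (baseField R x) F]
    {m : ℕ} (hm : 0 < m) {mi : R} (hmi : (m : R) * mi = 1) {ζ : R} (hζ : IsPrimitiveRoot ζ m)
    {f : F} (hf0 : f ≠ 0)
    (hsplit : ∀ V, IsSheet w x V → f - 1 ∈ V.nonunits)
    (V₀ : ValuationSubring F) (hV₀ : IsSheet w x V₀)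
    (hunif : ∀ a ∈ V₀.nonunits, ∃ b ∈ V₀, a = algebraMap R F w * b)
    (hdisc : ∀ g : F, ∃ k : ℕ, g * algebraMap R F w ^ k ∈ V₀)
    (κ : ValuationSubring F → ℕ)
    (hpure_fin : ∀ 𝔫 : Ideal (chart R ({x} : Set F)), 𝔫.IsMaximal →
      algebraMap R (chart R ({x} : Set F)) w ∈ 𝔫 →
      BasePureValuesAt {V | IsSheet w x V} (chart R ({x} : Set F)) 𝔫 m f ζ κ)
    (hpure_inf : ∀ 𝔫 : Ideal (chart R ({x⁻¹} : Set F)), 𝔫.IsMaximal →
      algebraMap R (chart R ({x⁻¹} : Set F)) w ∈ 𝔫 →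
      BasePureValuesAt {V | IsSheet w x V} (chart R ({x⁻¹} : Set F)) 𝔫 m f ζ κ) :
    ∃ g : F, g ^ m = f := by
  classical
  have hwp : Prime w := hw.prime
  have hinjRE : Function.Injective (algebraMap R E) := IsFractionRing.injective R E
  have hinjRF : Function.Injective (algebraMap R F) := by
    rw [IsScalarTower.algebraMap_eq R E F]
    exact (algebraMap E F).injective.comp hinjRE
  haveI : CharZero F := charZero_of_injective_algebraMap (algebraMap E F).injective
  have hmF : (m : F) ≠ 0 := Nat.cast_ne_zero.2 hm.ne'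
  -- the cover
  let Z := (X ^ m - C f : F[X]).SplittingField
  haveI : FiniteDimensional F Z := IsSplittingField.finiteDimensional Z (X ^ m - C f : F[X])
  haveI : IsGalois F Z := IsGalois.of_separable_splitting_field (p := (X ^ m - C f : F[X]))
    (separable_X_pow_sub_C f hmF hf0)
  haveI : IsScalarTower R E Z := by
    refine IsScalarTower.of_algebraMap_eq (fun r => ?_)
    rw [IsScalarTower.algebraMap_apply R F Z, IsScalarTower.algebraMap_apply E F Z,
      ← IsScalarTower.algebraMap_apply R E F]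
  haveI : CharZero Z := charZero_of_injective_algebraMap (algebraMap F Z).injective
  have hinjRZ : Function.Injective (algebraMap R Z) := by
    rw [IsScalarTower.algebraMap_eq R F Z]
    exact (algebraMap F Z).injective.comp hinjRF
  have hxZ : Transcendental R (algebraMap F Z x) :=
    (transcendental_algebraMap_iff (algebraMap F Z).injective).2 hx
  haveI : FiniteDimensional (baseField R (algebraMap F Z x)) Z :=
    Fermat.Agent.A2.H313.finiteDimensional_baseField_tower (R := R) (L := Z) x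
  -- a root
  have hdeg : (((X ^ m - C f : F[X])).map (algebraMap F Z)).degree ≠ 0 := by
    rw [degree_map, degree_X_pow_sub_C hm]
    exact_mod_cast hm.ne'
  obtain ⟨G, hGroot⟩ := (SplittingField.splits (X ^ m - C f : F[X])).exists_eval_eq_zero hdeg
  have hG : G ^ m = algebraMap F Z f := by
    simp only [Polynomial.map_sub, Polynomial.map_pow, map_X, map_C, eval_sub, eval_pow, eval_X,
      eval_C] at hGroot
    exact sub_eq_zero.1 hGroot
  have hG0 : G ≠ 0 := by
    rintro rfl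
    rw [zero_pow hm.ne'] at hG
    exact hf0 ((map_eq_zero (algebraMap F Z)).1 hG.symm)
  -- the cover is generated by `G`
  have hζZ : IsPrimitiveRoot (algebraMap R Z ζ) m := hζ.map_of_injective hinjRZ
  have hgen : Algebra.adjoin F (Set.range fun _ : Unit => G) = ⊤ := by
    rw [eq_top_iff, ← SplittingField.adjoin_rootSet (X ^ m - C f : F[X])]
    refine Algebra.adjoin_le ?_
    intro r hr
    rw [mem_rootSet] at hr
    have hr1 : r ^ m = algebraMap F Z f := by
      have := hr.2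
      simp only [map_sub, map_pow, aeval_X, aeval_C] at this
      exact sub_eq_zero.1 this
    have hpow : (r / G) ^ m = 1 := by
      rw [div_pow, hr1, hG, div_self]
      rw [← hG]
      exact pow_ne_zero _ hG0
    haveI : NeZero m := ⟨hm.ne'⟩
    obtain ⟨i, -, hi⟩ := hζZ.eq_pow_of_pow_eq_one hpow
    have hrG : r = algebraMap R Z ζ ^ i * G := by
      rw [hi]
      field_simp
    rw [hrG]
    refine Subalgebra.mul_mem _ (Subalgebra.pow_mem _ ?_ i) (Algebra.subset_adjoin ⟨(), rfl⟩)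
    rw [IsScalarTower.algebraMap_apply R F Z]
    exact Subalgebra.algebraMap_mem _ _
  -- a sheet of the cover over `V₀`, unramified
  obtain ⟨W, hWV⟩ := Fermat.Agent.A2.H93.exists_comap_eq_of_unif (L := Z) V₀
    (algebraMap R F w) hV₀.2.2.1 hunif
  have hwF0 : algebraMap R F w ≠ 0 := fun h => hw.ne_zero (hinjRF (by rw [h, map_zero]))
  have hfV₀ : f ∈ V₀ := by
    have : f = (f - 1) + 1 := by ring
    rw [this]
    exact V₀.add_mem _ _ (nu_mem V₀ (hsplit V₀ hV₀)) V₀.one_mem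
  have hfnu : f ∉ V₀.nonunits := by
    intro h
    have h1 := nu_sub V₀ h (hsplit V₀ hV₀)
    have : f - (f - 1) = 1 := by ring
    rw [this] at h1
    exact nu_one_not V₀ h1
  have hgenV₀ : ∀ a ∈ V₀, a⁻¹ ∉ V₀ → a * (algebraMap R F w)⁻¹ ∈ V₀ := by
    intro a ha hainv
    have han : a ∈ V₀.nonunits := by
      rw [ValuationSubring.mem_nonunits_iff_or]
      exact Or.inr hainv
    obtain ⟨b, hb, rfl⟩ := hunif a han
    rw [mul_comm, ← mul_assoc, inv_mul_cancel₀ hwF0, one_mul]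
    exact hb
  have hD : Fermat.Agent.A2.H93.CoverSplit V₀ W (algebraMap R F w) m (algebraMap R F ζ)
      (fun _ : Unit => G) (fun _ => f) (fun _ => 1) := by
    refine ⟨?_, ?_, hgenV₀, hdisc, hζ.map_of_injective hinjRF, hm, ?_, fun _ => hG,
      fun _ => hfV₀, fun _ => hf0, fun _ => nu_unit_inv V₀ hfV₀ hfnu, fun _ => V₀.one_mem, ?_,
      hgen⟩
    · intro a
      rw [← hWV, ValuationSubring.mem_comap]
    · intro h
      have h1 := nu_mul_left V₀ hV₀.2.2.1 h
      rw [inv_mul_cancel₀ hwF0] at h1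
      exact nu_one_not V₀ h1
    · have h1 : (m : F)⁻¹ = algebraMap R F mi := by
        have := congrArg (algebraMap R F) hmi
        rw [map_mul, map_natCast, map_one] at this
        exact inv_eq_of_mul_eq_one_right this
      rw [h1]
      exact hV₀.1 mi
    · intro _
      rw [one_pow]
      by_cases h0 : f - 1 = 0
      · rw [h0, zero_mul]
        exact V₀.zero_mem
      · have h1 := hsplit V₀ hV₀
        refine hgenV₀ _ (nu_mem V₀ h1) ?_
        rw [ValuationSubring.mem_nonunits_iff_or] at h1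
        exact h1.resolve_left h0
  have hRW : ∀ r : R, algebraMap R Z r ∈ W := by
    intro r
    have : algebraMap F Z (algebraMap R F r) ∈ W := by
      rw [← ValuationSubring.mem_comap, hWV]
      exact hV₀.1 r
    exact this
  have hwW : algebraMap R Z w ∈ W.nonunits := by
    have : algebraMap F Z (algebraMap R F w) ∈ W.nonunits := by
      rw [← mem_nonunits_comap_algebraMap, hWV]
      exact hV₀.2.2.1
    exact this
  have hunifW : ∀ a ∈ W.nonunits, ∃ b ∈ W, a = algebraMap R Z w * b := by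
    intro a ha
    have hwZ0 : algebraMap R Z w ≠ 0 := fun h => hw.ne_zero (hinjRZ (by rw [h, map_zero]))
    by_cases ha0 : a = 0
    · exact ⟨0, W.zero_mem, by rw [ha0, mul_zero]⟩
    · have hainv : a⁻¹ ∉ W := by
        have := (ValuationSubring.mem_nonunits_iff_or W).1 ha
        exact this.resolve_left ha0
      refine ⟨a * (algebraMap R Z w)⁻¹, hD.mul_inv_mem (nu_mem W ha) hainv, ?_⟩
      rw [mul_comm a, ← mul_assoc, mul_inv_cancel₀ hwZ0, one_mul]
  have hRF : ∀ y : Z, IsIntegral R y → y ∈ Set.range (algebraMap R Z) := fun y hy =>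
    Fermat.Agent.A2.H552.isIntegral_mem_range_of_unramified E w hw W hRW hwW hunifW y hy
  -- the wall
  obtain ⟨g, hg⟩ := kummer_wall3_of_base hinjRZ hRF hxZ w hwp hm hmi hζ hG hsplit κ
    hpure_fin hpure_inf
  refine ⟨g, (algebraMap F Z).injective ?_⟩
  rw [map_pow, hg, hG]

end Pow

end Fermat.Agent.S36.H193

end
-- ===== PACK-END S36/H193/WallPow.lean

-- ===== PACK-BEGIN S36/H193/WallFlex.lean
section


/-!
# S36 engine, leaf CLOPEN (helper193), part 11: the label wall, flexible form (ALG3 step (c6))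

Same theorem as `exists_pow_eq_of_base` (`WallPow.lean`), in the shape consumed by the assembly of
ALG3 from a three-component context:

* the set `𝒱` of valuation rings along which the values are given is ANY set containing all sheets
  (e.g. `{V₁, V₂, V₃}` once "every sheet is one of `V₁, V₂, V₃`" is known);
* the unramified discrete valuation ring `V₀` used for "no new constants" need NOT be a sheet:
  only `R ⊆ V₀`, `w` generates the maximal ideal of `V₀`, `V₀` is `w`-adically discrete and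
  `f ≡ 1` on `V₀`;
* `exists_pow_eq_of_three` : the hypotheses on the base are those of the frozen context
  (`Transcendental E x`, `F` finite over `E(x)`, `q ∤ m`), for the three rings `V₁, V₂, V₃`.

* `BasePureValuesAt.mono` : monotonicity in the set of sheets.
-/

set_option autoImplicit false
set_option linter.style.haveILetI false
set_option linter.unusedSectionVars false

namespace Fermat.Agent.S36.H193

open Polynomial
open Fermat.Agent.A2.H12 (IsSheet)
open Fermat.Agent.S18.H138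

universe u

section Mono

variable {R : Type*} [CommRing R] {F : Type*} [Field F] [Algebra R F]

/-- A purity datum with normalised values along a set of sheets is one along every subset. -/
theorem BasePureValuesAt.mono {𝒱 𝒱' : Set (ValuationSubring F)} (h : 𝒱 ⊆ 𝒱')
    {B : Subalgebra R F} {𝔫 : Ideal B} {m : ℕ} {f : F} {ζ : R} {κ : ValuationSubring F → ℕ}
    (hb : BasePureValuesAt 𝒱' B 𝔫 m f ζ κ) : BasePureValuesAt 𝒱 B 𝔫 m f ζ κ := by
  obtain ⟨h', e₁, e₂, v, hh0, he₂, hv, hf, hval⟩ := hb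
  exact ⟨h', e₁, e₂, v, hh0, he₂, hv, hf, fun V hV hth => hval V (h hV) hth⟩

end Mono

section Flex

variable {R : Type u} [CommRing R] [IsDomain R] [IsDiscreteValuationRing R]
  [HenselianLocalRing R] [IsAlgClosed (IsLocalRing.ResidueField R)] [IsIntegrallyClosed R[X]]
variable (E : Type u) [Field E] [CharZero E] [Algebra R E] [IsFractionRing R E]
variable {F : Type u} [Field F] [Algebra E F] [Algebra R F] [IsScalarTower R E F]

include E in
/-- **The label wall, flexible form.**  `𝒱` any set of valuation rings containing all sheets,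
`V₀` any unramified discrete valuation ring of `F` containing `R` on which `f ≡ 1`. -/
theorem exists_pow_eq_of_base_set (w : R) (hw : Irreducible w)
    {x : F} (hx : Transcendental R x) [FiniteDimensional (baseField R x) F]
    {m : ℕ} (hm : 0 < m) {mi : R} (hmi : (m : R) * mi = 1) {ζ : R} (hζ : IsPrimitiveRoot ζ m)
    {f : F} (hf0 : f ≠ 0)
    (𝒱 : Set (ValuationSubring F)) (h𝒱 : ∀ V, IsSheet w x V → V ∈ 𝒱)
    (hsplit : ∀ V ∈ 𝒱, f - 1 ∈ V.nonunits)
    (V₀ : ValuationSubring F) (hRV₀ : ∀ r : R, algebraMap R F r ∈ V₀)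
    (hwV₀ : algebraMap R F w ∈ V₀.nonunits) (hsplit₀ : f - 1 ∈ V₀.nonunits)
    (hunif : ∀ a ∈ V₀.nonunits, ∃ b ∈ V₀, a = algebraMap R F w * b)
    (hdisc : ∀ g : F, ∃ k : ℕ, g * algebraMap R F w ^ k ∈ V₀)
    (κ : ValuationSubring F → ℕ)
    (hpure_fin : ∀ 𝔫 : Ideal (chart R ({x} : Set F)), 𝔫.IsMaximal →
      algebraMap R (chart R ({x} : Set F)) w ∈ 𝔫 →
      BasePureValuesAt 𝒱 (chart R ({x} : Set F)) 𝔫 m f ζ κ)
    (hpure_inf : ∀ 𝔫 : Ideal (chart R ({x⁻¹} : Set F)), 𝔫.IsMaximal →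
      algebraMap R (chart R ({x⁻¹} : Set F)) w ∈ 𝔫 →
      BasePureValuesAt 𝒱 (chart R ({x⁻¹} : Set F)) 𝔫 m f ζ κ) :
    ∃ g : F, g ^ m = f := by
  classical
  have hwp : Prime w := hw.prime
  have hinjRE : Function.Injective (algebraMap R E) := IsFractionRing.injective R E
  have hinjRF : Function.Injective (algebraMap R F) := by
    rw [IsScalarTower.algebraMap_eq R E F]
    exact (algebraMap E F).injective.comp hinjRE
  haveI : CharZero F := charZero_of_injective_algebraMap (algebraMap E F).injective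
  have hmF : (m : F) ≠ 0 := Nat.cast_ne_zero.2 hm.ne'
  -- the cover
  let Z := (X ^ m - C f : F[X]).SplittingField
  haveI : FiniteDimensional F Z := IsSplittingField.finiteDimensional Z (X ^ m - C f : F[X])
  haveI : IsGalois F Z := IsGalois.of_separable_splitting_field (p := (X ^ m - C f : F[X]))
    (separable_X_pow_sub_C f hmF hf0)
  haveI : IsScalarTower R E Z := by
    refine IsScalarTower.of_algebraMap_eq (fun r => ?_)
    rw [IsScalarTower.algebraMap_apply R F Z, IsScalarTower.algebraMap_apply E F Z,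
      ← IsScalarTower.algebraMap_apply R E F]
  haveI : CharZero Z := charZero_of_injective_algebraMap (algebraMap F Z).injective
  have hinjRZ : Function.Injective (algebraMap R Z) := by
    rw [IsScalarTower.algebraMap_eq R F Z]
    exact (algebraMap F Z).injective.comp hinjRF
  have hxZ : Transcendental R (algebraMap F Z x) :=
    (transcendental_algebraMap_iff (algebraMap F Z).injective).2 hx
  haveI : FiniteDimensional (baseField R (algebraMap F Z x)) Z :=
    Fermat.Agent.A2.H313.finiteDimensional_baseField_tower (R := R) (L := Z) x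
  -- a root
  have hdeg : (((X ^ m - C f : F[X])).map (algebraMap F Z)).degree ≠ 0 := by
    rw [degree_map, degree_X_pow_sub_C hm]
    exact_mod_cast hm.ne'
  obtain ⟨G, hGroot⟩ := (SplittingField.splits (X ^ m - C f : F[X])).exists_eval_eq_zero hdeg
  have hG : G ^ m = algebraMap F Z f := by
    simp only [Polynomial.map_sub, Polynomial.map_pow, map_X, map_C, eval_sub, eval_pow, eval_X,
      eval_C] at hGroot
    exact sub_eq_zero.1 hGroot
  have hG0 : G ≠ 0 := by
    rintro rfl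
    rw [zero_pow hm.ne'] at hG
    exact hf0 ((map_eq_zero (algebraMap F Z)).1 hG.symm)
  -- the cover is generated by `G`
  have hζZ : IsPrimitiveRoot (algebraMap R Z ζ) m := hζ.map_of_injective hinjRZ
  have hgen : Algebra.adjoin F (Set.range fun _ : Unit => G) = ⊤ := by
    rw [eq_top_iff, ← SplittingField.adjoin_rootSet (X ^ m - C f : F[X])]
    refine Algebra.adjoin_le ?_
    intro r hr
    rw [mem_rootSet] at hr
    have hr1 : r ^ m = algebraMap F Z f := by
      have := hr.2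
      simp only [map_sub, map_pow, aeval_X, aeval_C] at this
      exact sub_eq_zero.1 this
    have hpow : (r / G) ^ m = 1 := by
      rw [div_pow, hr1, hG, div_self]
      rw [← hG]
      exact pow_ne_zero _ hG0
    haveI : NeZero m := ⟨hm.ne'⟩
    obtain ⟨i, -, hi⟩ := hζZ.eq_pow_of_pow_eq_one hpow
    have hrG : r = algebraMap R Z ζ ^ i * G := by
      rw [hi]
      field_simp
    rw [hrG]
    refine Subalgebra.mul_mem _ (Subalgebra.pow_mem _ ?_ i) (Algebra.subset_adjoin ⟨(), rfl⟩)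
    rw [IsScalarTower.algebraMap_apply R F Z]
    exact Subalgebra.algebraMap_mem _ _
  -- a valuation ring of the cover over `V₀`, unramified
  obtain ⟨W, hWV⟩ := Fermat.Agent.A2.H93.exists_comap_eq_of_unif (L := Z) V₀
    (algebraMap R F w) hwV₀ hunif
  have hwF0 : algebraMap R F w ≠ 0 := fun h => hw.ne_zero (hinjRF (by rw [h, map_zero]))
  have hfV₀ : f ∈ V₀ := by
    have : f = (f - 1) + 1 := by ring
    rw [this]
    exact V₀.add_mem _ _ (nu_mem V₀ hsplit₀) V₀.one_mem
  have hfnu : f ∉ V₀.nonunits := by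
    intro h
    have h1 := nu_sub V₀ h hsplit₀
    have : f - (f - 1) = 1 := by ring
    rw [this] at h1
    exact nu_one_not V₀ h1
  have hgenV₀ : ∀ a ∈ V₀, a⁻¹ ∉ V₀ → a * (algebraMap R F w)⁻¹ ∈ V₀ := by
    intro a ha hainv
    have han : a ∈ V₀.nonunits := by
      rw [ValuationSubring.mem_nonunits_iff_or]
      exact Or.inr hainv
    obtain ⟨b, hb, rfl⟩ := hunif a han
    rw [mul_comm, ← mul_assoc, inv_mul_cancel₀ hwF0, one_mul]
    exact hb
  have hD : Fermat.Agent.A2.H93.CoverSplit V₀ W (algebraMap R F w) m (algebraMap R F ζ)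
      (fun _ : Unit => G) (fun _ => f) (fun _ => 1) := by
    refine ⟨?_, ?_, hgenV₀, hdisc, hζ.map_of_injective hinjRF, hm, ?_, fun _ => hG,
      fun _ => hfV₀, fun _ => hf0, fun _ => nu_unit_inv V₀ hfV₀ hfnu, fun _ => V₀.one_mem, ?_,
      hgen⟩
    · intro a
      rw [← hWV, ValuationSubring.mem_comap]
    · intro h
      have h1 := nu_mul_left V₀ hwV₀ h
      rw [inv_mul_cancel₀ hwF0] at h1
      exact nu_one_not V₀ h1
    · have h1 : (m : F)⁻¹ = algebraMap R F mi := by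
        have := congrArg (algebraMap R F) hmi
        rw [map_mul, map_natCast, map_one] at this
        exact inv_eq_of_mul_eq_one_right this
      rw [h1]
      exact hRV₀ mi
    · intro _
      rw [one_pow]
      by_cases h0 : f - 1 = 0
      · rw [h0, zero_mul]
        exact V₀.zero_mem
      · have h1 := hsplit₀
        refine hgenV₀ _ (nu_mem V₀ h1) ?_
        rw [ValuationSubring.mem_nonunits_iff_or] at h1
        exact h1.resolve_left h0
  have hRW : ∀ r : R, algebraMap R Z r ∈ W := by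
    intro r
    have : algebraMap F Z (algebraMap R F r) ∈ W := by
      rw [← ValuationSubring.mem_comap, hWV]
      exact hRV₀ r
    exact this
  have hwW : algebraMap R Z w ∈ W.nonunits := by
    have : algebraMap F Z (algebraMap R F w) ∈ W.nonunits := by
      rw [← mem_nonunits_comap_algebraMap, hWV]
      exact hwV₀
    exact this
  have hunifW : ∀ a ∈ W.nonunits, ∃ b ∈ W, a = algebraMap R Z w * b := by
    intro a ha
    have hwZ0 : algebraMap R Z w ≠ 0 := fun h => hw.ne_zero (hinjRZ (by rw [h, map_zero]))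
    by_cases ha0 : a = 0
    · exact ⟨0, W.zero_mem, by rw [ha0, mul_zero]⟩
    · have hainv : a⁻¹ ∉ W := by
        have := (ValuationSubring.mem_nonunits_iff_or W).1 ha
        exact this.resolve_left ha0
      refine ⟨a * (algebraMap R Z w)⁻¹, hD.mul_inv_mem (nu_mem W ha) hainv, ?_⟩
      rw [mul_comm a, ← mul_assoc, mul_inv_cancel₀ hwZ0, one_mul]
  have hRF : ∀ y : Z, IsIntegral R y → y ∈ Set.range (algebraMap R Z) := fun y hy =>
    Fermat.Agent.A2.H552.isIntegral_mem_range_of_unramified E w hw W hRW hwW hunifW y hy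
  -- the wall
  obtain ⟨g, hg⟩ := kummer_wall3_of_base hinjRZ hRF hxZ w hwp hm hmi hζ hG
    (fun V hV => hsplit V (h𝒱 V hV)) κ
    (fun 𝔫 h𝔫 hw𝔫 => (hpure_fin 𝔫 h𝔫 hw𝔫).mono (fun V hV => h𝒱 V hV))
    (fun 𝔫 h𝔫 hw𝔫 => (hpure_inf 𝔫 h𝔫 hw𝔫).mono (fun V hV => h𝒱 V hV))
  refine ⟨g, (algebraMap F Z).injective ?_⟩
  rw [map_pow, hg, hG]

include E in
/-- **The label wall for a three-component context** (ALG3, step (c6)).  Hypotheses on the base
in the shape of the frozen context: `x` transcendental over `E`, `F` finite over `E(x)`, residue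
characteristic `q ∤ m`; `V₁` unramified and discrete, containing `R`; every sheet is one of
`V₁, V₂, V₃`; `f ≡ 1` on `V₁, V₂, V₃`; purity data with normalised values along `V₁, V₂, V₃` at
every closed point of the special fibre of the two charts. -/
theorem exists_pow_eq_of_three (w : R) (hw : Irreducible w) (q : ℕ) (hq : q.Prime)
    (hqR : (q : R) ∈ IsLocalRing.maximalIdeal R)
    {x : F} (hx : Transcendental E x)
    (hfin : FiniteDimensional (IntermediateField.adjoin E ({x} : Set F)) F)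
    {m : ℕ} (hm : 0 < m) (hqm : ¬ q ∣ m) {ζ : R} (hζ : IsPrimitiveRoot ζ m)
    {f : F} (hf0 : f ≠ 0)
    (V₁ V₂ V₃ : ValuationSubring F)
    (hsheets : ∀ V, IsSheet w x V → V = V₁ ∨ V = V₂ ∨ V = V₃)
    (h₁ : f - 1 ∈ V₁.nonunits) (h₂ : f - 1 ∈ V₂.nonunits) (h₃ : f - 1 ∈ V₃.nonunits)
    (hRV₁ : ∀ r : R, algebraMap R F r ∈ V₁)
    (hwV₁ : algebraMap R F w ∈ V₁.nonunits)
    (hunif : ∀ a ∈ V₁.nonunits, a * (algebraMap R F w)⁻¹ ∈ V₁)
    (hdisc : ∀ g : F, ∃ k : ℕ, g * algebraMap R F w ^ k ∈ V₁)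
    (κ : ValuationSubring F → ℕ)
    (hpure_fin : ∀ 𝔫 : Ideal (chart R ({x} : Set F)), 𝔫.IsMaximal →
      algebraMap R (chart R ({x} : Set F)) w ∈ 𝔫 →
      BasePureValuesAt {V | V = V₁ ∨ V = V₂ ∨ V = V₃} (chart R ({x} : Set F)) 𝔫 m f ζ κ)
    (hpure_inf : ∀ 𝔫 : Ideal (chart R ({x⁻¹} : Set F)), 𝔫.IsMaximal →
      algebraMap R (chart R ({x⁻¹} : Set F)) w ∈ 𝔫 →
      BasePureValuesAt {V | V = V₁ ∨ V = V₂ ∨ V = V₃} (chart R ({x⁻¹} : Set F)) 𝔫 m f ζ κ) :
    ∃ g : F, g ^ m = f := by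
  have hinjRE : Function.Injective (algebraMap R E) := IsFractionRing.injective R E
  have hinjRF : Function.Injective (algebraMap R F) := by
    rw [IsScalarTower.algebraMap_eq R E F]
    exact (algebraMap E F).injective.comp hinjRE
  have hwF0 : algebraMap R F w ≠ 0 := fun h => hw.ne_zero (hinjRF (by rw [h, map_zero]))
  have hxR : Transcendental R x := hx.restrictScalars hinjRE
  haveI := hfin
  haveI : FiniteDimensional (baseField R x) F :=
    Fermat.Agent.A2.H313.finiteDimensional_baseField_of_adjoin E x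
  -- `m` is invertible in `R`
  obtain ⟨mi, hmi⟩ : ∃ mi : R, (m : R) * mi = 1 := by
    have hu : IsUnit (m : R) := by
      by_contra hnu
      have hmem : (m : R) ∈ IsLocalRing.maximalIdeal R := (IsLocalRing.mem_maximalIdeal _).2 hnu
      have hcop : Nat.Coprime q m := (Nat.Prime.coprime_iff_not_dvd hq).2 hqm
      have h1 : ((Nat.gcd q m : ℕ) : R) ∈ IsLocalRing.maximalIdeal R := by
        have hb : ((Nat.gcd q m : ℕ) : ℤ) = q * Nat.gcdA q m + m * Nat.gcdB q m :=
          Nat.gcd_eq_gcd_ab q m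
        have hc : ((Nat.gcd q m : ℕ) : R) = (q : R) * ((Nat.gcdA q m : ℤ) : R) +
            (m : R) * ((Nat.gcdB q m : ℤ) : R) := by
          have := congrArg (fun z : ℤ => (z : R)) hb
          simpa using this
        rw [hc]
        exact Ideal.add_mem _ (Ideal.mul_mem_right _ _ hqR) (Ideal.mul_mem_right _ _ hmem)
      rw [hcop, Nat.cast_one] at h1
      exact (IsLocalRing.mem_maximalIdeal _).1 h1 isUnit_one
    obtain ⟨v, hv⟩ := hu
    exact ⟨(v⁻¹ : Rˣ), by rw [← hv, Units.mul_inv]⟩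
  refine exists_pow_eq_of_base_set E w hw hxR hm hmi hζ hf0
    {V | V = V₁ ∨ V = V₂ ∨ V = V₃} hsheets ?_ V₁ hRV₁ hwV₁ h₁ ?_ hdisc κ hpure_fin hpure_inf
  · rintro V (rfl | rfl | rfl)
    · exact h₁
    · exact h₂
    · exact h₃
  · intro a ha
    refine ⟨a * (algebraMap R F w)⁻¹, hunif a ha, ?_⟩
    rw [mul_comm a, ← mul_assoc, mul_inv_cancel₀ hwF0, one_mul]

end Flex

end Fermat.Agent.S36.H193

end
-- ===== PACK-END S36/H193/WallFlex.lean

-- ===== PACK-BEGIN S36/H630/ToBase.lean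
section



/-!
# S36 engine, LABEL core (helper630), part 7: from `LabelAt` to `H193.BasePureValuesAt`

`H193.kummer_wall3_of_base` (main) needs, at every closed point `𝔫` of the special fibre of the
two charts of the base, the datum `H193.BasePureValuesAt`.  This file produces it from
`H630.LabelAt`, i.e. (via `labelAt_of_one`, `labelAt_of_three`) from

* purity at `𝔫` (cell REG),
* the values of the purity datum along the sheets through `𝔫` (`ExistVal.lean`),
* at triple points: the two label equations (`LabEq.label_eq_of_norm`, or `H203.label_rel`).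
-/

set_option autoImplicit false
set_option linter.unusedSectionVars false

namespace Fermat.Agent.S36.H630

open Fermat.Agent.S36.H193

variable {R : Type*} [CommRing R] {F : Type*} [Field F] [Algebra R F]

/-- **`LabelAt ⟹ BasePureValuesAt`.** -/
theorem basePureValuesAt_of_labelAt {B : Subalgebra R F} {n : Ideal B} [hn : n.IsMaximal]
    {𝒱 : Set (ValuationSubring F)} (hBV : ∀ V ∈ 𝒱, ChartLe B V)
    {m : ℕ} (hm : 0 < m) {ζ : R} (hζ : ζ ^ m = 1) {κ : ValuationSubring F → ℕ} {u : F}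
    (h : LabelAt B n 𝒱 m u ζ κ) : BasePureValuesAt 𝒱 B n m u ζ κ := by
  have : n.IsPrime := hn.isPrime
  obtain ⟨d, a₀, s₀, η₀, hd0, hs₀, hpure, hη₀, hval⟩ := h
  -- an inverse of `η₀` modulo `n`
  obtain ⟨v, i, hi, hvi⟩ := hn.exists_inv hη₀
  have hvn : v ∉ n := by
    intro hv
    apply hn.ne_top
    rw [Ideal.eq_top_iff_one, ← hvi]
    exact n.add_mem (n.mul_mem_right _ hv) hi
  have hv1 : v * algebraMap R B η₀ - 1 ∈ n := by
    have : v * algebraMap R B η₀ - 1 = -i := by rw [← hvi]; ring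
    rw [this]
    exact n.neg_mem hi
  have hm1 : m - 1 + 1 = m := Nat.sub_add_cancel hm
  refine ⟨d⁻¹, a₀, s₀, v, inv_ne_zero hd0, hs₀, hvn, ?_, ?_⟩
  · rw [← hpure, inv_pow]
    field_simp
  · intro V hV hth
    have hth' : PassThrough B n V := hth
    have hval' := hval V hV hth'
    -- the value is a unit modulo `n`
    have hηV : algebraMap R B (η₀ * ζ ^ ((m - 1) * κ V)) ∉ n := by
      intro h1
      apply hη₀
      have h2 : algebraMap R B η₀
          = algebraMap R B (η₀ * ζ ^ ((m - 1) * κ V)) * algebraMap R B (ζ ^ κ V) := by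
        rw [← map_mul, mul_assoc, ← pow_add]
        have : (m - 1) * κ V + κ V = m * κ V := by
          calc (m - 1) * κ V + κ V = (m - 1 + 1) * κ V := by ring
            _ = m * κ V := by rw [hm1]
        rw [this, pow_mul, hζ, one_pow, mul_one]
      rw [h2]
      exact n.mul_mem_right _ h1
    have hdV : d ∈ V := hval'.mem (hBV V hV) hth'
    have hdu : d ∉ V.nonunits := hval'.not_nonunits (hBV V hV) hth' hηV
    obtain ⟨a, b, hb, hVab, hnab⟩ := hval'
    have han : a ∉ n := by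
      intro ha
      have h3 : algebraMap R B (η₀ * ζ ^ ((m - 1) * κ V)) * b ∈ n := by
        have : algebraMap R B (η₀ * ζ ^ ((m - 1) * κ V)) * b
            = a - (a - algebraMap R B (η₀ * ζ ^ ((m - 1) * κ V)) * b) := by ring
        rw [this]
        exact n.sub_mem ha hnab
      rcases (Ideal.IsPrime.mem_or_mem ‹n.IsPrime› h3) with h5 | h5
      · exact hηV h5
      · exact hb h5
    refine ⟨a, b, han, ?_, ?_⟩
    · have : (a : F) * d⁻¹ - b = -(((b : F) * d - a) * d⁻¹) := by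
        field_simp
        ring
      rw [this]
      exact vnu_neg V (vnu_mul_right V hVab (vnu_inv_mem V hdV hdu))
    · -- `b - ζ^κ v a = -(ζ^κ v (a - η_V b)) - (v η₀ - 1) b` using `ζ^κ ζ^((m-1)κ) = 1`
      have hz : ζ ^ κ V * ζ ^ ((m - 1) * κ V) = 1 := by
        rw [← pow_add]
        have : κ V + (m - 1) * κ V = m * κ V := by
          calc κ V + (m - 1) * κ V = (m - 1 + 1) * κ V := by ring
            _ = m * κ V := by rw [hm1]
        rw [this, pow_mul, hζ, one_pow]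
      have hz' : algebraMap R B (ζ ^ κ V) * algebraMap R B (ζ ^ ((m - 1) * κ V)) = 1 := by
        rw [← map_mul, hz, map_one]
      have : b - algebraMap R B (ζ ^ κ V) * v * a
          = -(algebraMap R B (ζ ^ κ V) * v * (a - algebraMap R B (η₀ * ζ ^ ((m - 1) * κ V)) * b))
            - (v * algebraMap R B η₀ - 1) * b := by
        rw [map_mul]
        linear_combination (-(v * algebraMap R B η₀ * b)) * hz'
      rw [this]
      exact n.sub_mem (n.neg_mem (n.mul_mem_left _ hnab)) (n.mul_mem_right _ hv1)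

end Fermat.Agent.S36.H630

end
-- ===== PACK-END S36/H630/ToBase.lean

-- ===== PACK-BEGIN S36/H630/FromCtx.lean
section





/-!
# S36 engine, ALG3 gap G4 (helper630): the label data from `Eng.TripleCtx`

`R` a discrete valuation ring with algebraically closed residue field, uniformiser `w`;
`ctx : Eng.TripleCtx w q α β x x' V₁ V₂ V₃ V₁' V₂'` (Spec v1.3, on main).  Let `u ∈ F` be split
on the three sheets (`u ≡ 1` on `V₁, V₂, V₃`) with `N_α u = k₁ ^ m`, `N_β u = k₂ ^ m`, and let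
`ζ ∈ R` be a primitive `m`-th root of unity.

**Theorem** (`exists_kappa_basePure`).  There is ONE colouring `κ` such that at EVERY closed point
`n` of the special fibre of the two charts `chart R {x}`, `chart R {x⁻¹}`:  a purity datum
`u d ^ m s₀ = a₀` (`a₀, s₀ ∉ n`) at `n` gives
`H193.BasePureValuesAt {V | V = V₁ ∨ V = V₂ ∨ V = V₃} B n m (u ^ ((q - 1) (q + 1))) ζ κ`,
the local hypothesis of `H193.exists_pow_eq_of_three`.

Fields used: `base_i`, `x_unit_i`, `normal_f_i`, `normal_i_i`, `incidence`, `cusp_single`,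
`comap_α₁, comap_α₃, comap_β₁, comap_β₃`, `nr_*`, `chart_*`, `int_*`, `res_*`, `unique_*`,
`ne_*`.  Proved inside: rationality of the closed points, local denominators, norms of chart
elements, existence of the labels of `k₁, k₂`, the change of chart `Bf ↔ Bi` off the cusps.
-/

set_option autoImplicit false
set_option linter.unusedSectionVars false
set_option linter.style.haveILetI false
set_option maxHeartbeats 1600000

namespace Fermat.Agent.S36.H630

open Fermat.Agent.S18.H138 (chart mem_chart)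
open Fermat.Agent.S36.H193 (BasePureValuesAt)
open Fermat.Agent.S36.Eng (TripleCtx)
open AlgebraicCurve

section Generic

variable {R : Type*} [CommRing R] {F : Type*} [Field F] [Algebra R F]

open Classical in
/-- The colouring with the values `a` on `V₁`, `b` on `V₂` and `0` elsewhere. -/
noncomputable def kappa3 (V₁ V₂ : ValuationSubring F) (a b : ℕ) : ValuationSubring F → ℕ :=
  fun V => if V = V₁ then a else if V = V₂ then b else 0

theorem kappa3_left (V₁ V₂ : ValuationSubring F) (a b : ℕ) : kappa3 V₁ V₂ a b V₁ = a := by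
  unfold kappa3
  rw [if_pos rfl]

theorem kappa3_mid {V₁ V₂ : ValuationSubring F} (h : V₁ ≠ V₂) (a b : ℕ) :
    kappa3 V₁ V₂ a b V₂ = b := by
  unfold kappa3
  rw [if_neg (Ne.symm h), if_pos rfl]

theorem kappa3_right {V₁ V₂ V₃ : ValuationSubring F} (h₁ : V₁ ≠ V₃) (h₂ : V₂ ≠ V₃) (a b : ℕ) :
    kappa3 V₁ V₂ a b V₃ = 0 := by
  unfold kappa3
  rw [if_neg (Ne.symm h₁), if_neg (Ne.symm h₂)]

theorem zeta_pow_sq {K : Type*} [CommRing K] [IsDomain K] {ζ : K} {m : ℕ} (hm : 0 < m)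
    (hζ : ζ ^ m = 1) (X : ℕ) : ζ ^ ((m - 1) * ((m - 1) * X)) = ζ ^ X := by
  have h1 := zeta_pow_mul_inv hm hζ X
  have h2 := zeta_pow_mul_inv hm hζ ((m - 1) * X)
  calc ζ ^ ((m - 1) * ((m - 1) * X))
      = (ζ ^ X * ζ ^ ((m - 1) * X)) * ζ ^ ((m - 1) * ((m - 1) * X)) := by rw [h1, one_mul]
    _ = ζ ^ X * (ζ ^ ((m - 1) * X) * ζ ^ ((m - 1) * ((m - 1) * X))) := by ring
    _ = ζ ^ X := by rw [h2, mul_one]

/-- `u ≡ 1` on `V` ⟹ `u` is a unit of `V`. -/
theorem unit_of_split {V : ValuationSubring F} {u : F} (hu : u - 1 ∈ V.nonunits) :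
    u ≠ 0 ∧ u ∈ V ∧ u⁻¹ ∈ V := by
  have h := vnu_unit_of_sub V hu V.one_mem (vnu_one_not V)
  refine ⟨?_, h.1, vnu_inv_mem V h.1 h.2⟩
  rintro rfl
  exact h.2 (vnu_zero V)

/-- **The label datum at a point through which no sheet passes.** -/
theorem labelAt_of_none {B : Subalgebra R F} {n : Ideal B} [hn : n.IsPrime]
    {𝒱 : Set (ValuationSubring F)} (hnone : ∀ V ∈ 𝒱, ¬ PassThrough B n V)
    {m : ℕ} (hm : 0 < m) {u d : F} {a₀ s₀ : B} (ha₀ : a₀ ∉ n) (hs₀ : s₀ ∉ n)
    (hpure : u * d ^ m * (s₀ : F) = a₀) (ζ : R) (κ : ValuationSubring F → ℕ) :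
    LabelAt B n 𝒱 m u ζ κ := by
  have hd0 : d ≠ 0 := by
    rintro rfl
    apply ha₀
    have : a₀ = 0 := by
      apply Subtype.ext
      rw [← hpure, zero_pow hm.ne', mul_zero, zero_mul]
      rfl
    rw [this]
    exact n.zero_mem
  refine ⟨d, a₀, s₀, 1, hd0, hs₀, hpure, ?_, fun V hV hth => absurd hth (hnone V hV)⟩
  rw [map_one]
  exact fun h => hn.ne_top ((Ideal.eq_top_iff_one _).2 h)

/-- **The label datum at a point on exactly one sheet.** -/
theorem labelAt_single {B : Subalgebra R F} {n : Ideal B} [hn : n.IsMaximal]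
    (hrat : ∀ c : B, ∃ r : R, c - algebraMap R B r ∈ n)
    {𝒱 : Set (ValuationSubring F)}
    {V₀ : ValuationSubring F} (hone : ∀ V ∈ 𝒱, PassThrough B n V → V = V₀)
    (hBV₀ : ChartLe B V₀) (hthV₀ : PassThrough B n V₀)
    {m : ℕ} (hm : 0 < m) (hnormal : _root_.Fermat.Agent.S36.H630.NormalAlong B V₀ m) {ζ : R} (hζ : ζ ^ m = 1)
    (κ : ValuationSubring F → ℕ)
    {u d : F} (hu : u - 1 ∈ V₀.nonunits) {a₀ s₀ : B} (ha₀ : a₀ ∉ n) (hs₀ : s₀ ∉ n)
    (hpure : u * d ^ m * (s₀ : F) = a₀) (c : ℕ) :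
    LabelAt B n 𝒱 m (u ^ c) ζ κ := by
  have hnp : n.IsPrime := hn.isPrime
  obtain ⟨η, hη, hval⟩ := exists_valAt_of_pure hrat hBV₀ hthV₀ hm hnormal hu ha₀ hs₀ hpure
  refine labelAt_of_one hm hζ κ hone hBV₀ hthV₀ (u := u ^ c) (d := d ^ c) (a₀ := a₀ ^ c)
    (s₀ := s₀ ^ c) (η := η ^ c) ?_ (pure_pow hpure c) ?_ (hval.pow hBV₀ hthV₀ c)
  · exact fun h => hs₀ (hnp.mem_of_pow_mem c h)
  · intro h
    rw [map_pow] at h
    exact hη (hnp.mem_of_pow_mem c h)

/-- **The label datum at a point through which at most one of three sheets passes.** -/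
theorem labelAt_of_le_one {B : Subalgebra R F} {n : Ideal B} [hn : n.IsMaximal]
    (hrat : ∀ c : B, ∃ r : R, c - algebraMap R B r ∈ n)
    {V₁ V₂ V₃ : ValuationSubring F}
    (hB₁ : ChartLe B V₁) (hB₂ : ChartLe B V₂) (hB₃ : ChartLe B V₃)
    {m : ℕ} (hm : 0 < m)
    (hn₁ : _root_.Fermat.Agent.S36.H630.NormalAlong B V₁ m) (hn₂ : _root_.Fermat.Agent.S36.H630.NormalAlong B V₂ m) (hn₃ : _root_.Fermat.Agent.S36.H630.NormalAlong B V₃ m)
    {ζ : R} (hζ : ζ ^ m = 1) (κ : ValuationSubring F → ℕ)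
    (h12 : ¬ (PassThrough B n V₁ ∧ PassThrough B n V₂))
    (h13 : ¬ (PassThrough B n V₁ ∧ PassThrough B n V₃))
    (h23 : ¬ (PassThrough B n V₂ ∧ PassThrough B n V₃))
    {u d : F} (hu₁ : u - 1 ∈ V₁.nonunits) (hu₂ : u - 1 ∈ V₂.nonunits)
    (hu₃ : u - 1 ∈ V₃.nonunits)
    {a₀ s₀ : B} (ha₀ : a₀ ∉ n) (hs₀ : s₀ ∉ n) (hpure : u * d ^ m * (s₀ : F) = a₀) (c : ℕ) :
    LabelAt B n {V | V = V₁ ∨ V = V₂ ∨ V = V₃} m (u ^ c) ζ κ := by
  have hnp : n.IsPrime := hn.isPrime
  by_cases h1 : PassThrough B n V₁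
  · refine labelAt_single hrat (V₀ := V₁) ?_ hB₁ h1 hm hn₁ hζ κ hu₁ ha₀ hs₀ hpure c
    rintro V (rfl | rfl | rfl) hth
    · rfl
    · exact absurd ⟨h1, hth⟩ h12
    · exact absurd ⟨h1, hth⟩ h13
  by_cases h2 : PassThrough B n V₂
  · refine labelAt_single hrat (V₀ := V₂) ?_ hB₂ h2 hm hn₂ hζ κ hu₂ ha₀ hs₀ hpure c
    rintro V (rfl | rfl | rfl) hth
    · exact absurd hth h1
    · rfl
    · exact absurd ⟨h2, hth⟩ h23
  by_cases h3 : PassThrough B n V₃
  · refine labelAt_single hrat (V₀ := V₃) ?_ hB₃ h3 hm hn₃ hζ κ hu₃ ha₀ hs₀ hpure c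
    rintro V (rfl | rfl | rfl) hth
    · exact absurd hth h1
    · exact absurd hth h2
    · rfl
  · refine labelAt_of_none ?_ hm (u := u ^ c) (d := d ^ c) (a₀ := a₀ ^ c) (s₀ := s₀ ^ c)
      (fun h => ha₀ (hnp.mem_of_pow_mem c h)) (fun h => hs₀ (hnp.mem_of_pow_mem c h))
      (pure_pow hpure c) ζ κ
    rintro V (rfl | rfl | rfl) hth
    · exact h1 hth
    · exact h2 hth
    · exact h3 hth

end Generic

section Labels

variable {R : Type*} [CommRing R] [IsDomain R]
variable {F' : Type*} [Field F'] [Algebra R F']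
variable {F : Type*} [Field F] [Algebra R F] [Algebra F' F] [IsScalarTower R F' F]

/-- **The labels of `k`, `k ^ m = N u`, on the two sheets below.** -/
theorem exists_labels_side (hinj : Function.Injective (algebraMap R F'))
    {Va Vb Vc : ValuationSubring F} {V' V'' : ValuationSubring F'}
    (hRa : ∀ r : R, algebraMap R F r ∈ Va) (hRc : ∀ r : R, algebraMap R F r ∈ Vc)
    (hcomap_a : Va.comap (algebraMap F' F) = V') (hcomap_c : Vc.comap (algebraMap F' F) = V'')
    {q : ℕ} (hnr_s : NormResSplitU V' Va Vb (q - 1)) (hnr_i : NormResInsepU (F' := F') Vc q)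
    {m : ℕ} (hm : 0 < m) {ζ : R} (hζ : IsPrimitiveRoot ζ m)
    {u : F} (hua : u - 1 ∈ Va.nonunits) (hub : u - 1 ∈ Vb.nonunits) (huc : u - 1 ∈ Vc.nonunits)
    {k : F'} (hk : Algebra.norm F' u = k ^ m) :
    ∃ i i' : ℕ, k - algebraMap R F' (ζ ^ i) ∈ V'.nonunits ∧
      k - algebraMap R F' (ζ ^ i') ∈ V''.nonunits := by
  have hR' : ∀ r : R, algebraMap R F' r ∈ V' := by
    intro r
    rw [← hcomap_a, ValuationSubring.mem_comap, ← IsScalarTower.algebraMap_apply]
    exact hRa r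
  have hR'' : ∀ r : R, algebraMap R F' r ∈ V'' := by
    intro r
    rw [← hcomap_c, ValuationSubring.mem_comap, ← IsScalarTower.algebraMap_apply]
    exact hRc r
  have h1a : algebraMap F' F 1 - u ∈ Va.nonunits := by
    rw [map_one]
    have := vnu_neg Va hua
    rwa [neg_sub] at this
  have h1b : algebraMap F' F 1 - u ∈ Vb.nonunits := by
    rw [map_one]
    have := vnu_neg Vb hub
    rwa [neg_sub] at this
  have hN' : k ^ m - 1 ∈ V'.nonunits := by
    have := hnr_s u (unit_of_split hua) (unit_of_split hub) 1 1 h1a h1b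
    rwa [one_pow, mul_one, hk] at this
  have hN'' : k ^ m - 1 ∈ V''.nonunits := by
    have h2 := hnr_i u (unit_of_split huc)
    have huV := (unit_of_split huc).2.1
    have h3 : u ^ q - 1 ∈ Vc.nonunits := by
      have := pow_sub_pow_mem_nonunits Vc huV Vc.one_mem huc q
      rwa [one_pow] at this
    rw [← hk, ← hcomap_c, mem_nonunits_comap_iff, map_sub, map_one]
    have : algebraMap F' F (Algebra.norm F' u) - 1
        = (algebraMap F' F (Algebra.norm F' u) - u ^ q) + (u ^ q - 1) := by ring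
    rw [this]
    exact vnu_add Vc h2 h3
  obtain ⟨i, hi⟩ := _root_.Fermat.Agent.S36.H630.exists_label hR' hinj hm hζ hN'
  obtain ⟨i', hi'⟩ := _root_.Fermat.Agent.S36.H630.exists_label hR'' hinj hm hζ hN''
  exact ⟨i, i', hi, hi'⟩

end Labels

section Ctx

variable {R E F F' : Type*} [CommRing R] [IsDomain R] [IsDiscreteValuationRing R]
  [IsAlgClosed (IsLocalRing.ResidueField R)]
  [Field E] [Algebra R E] [Field F] [Algebra E F] [Algebra R F] [IsScalarTower R E F]
  [Field F'] [Algebra E F'] [Algebra R F'] [IsScalarTower R E F']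
  {w : R} {q : ℕ} {α β : F' →ₐ[E] F} {x : F} {x' : F'}
  {V₁ V₂ V₃ : ValuationSubring F} {V₁' V₂' : ValuationSubring F'}

omit [IsDomain R] [IsDiscreteValuationRing R] [IsAlgClosed (IsLocalRing.ResidueField R)] in
/-- the scalar tower `R → F' → F` along a degeneracy map -/
theorem isScalarTower_alongR (φ : F' →ₐ[E] F) :
    letI := algebraAlong φ; IsScalarTower R F' F :=
  letI := algebraAlong φ
  IsScalarTower.of_algebraMap_eq fun r => by
    show algebraMap R F r = φ (algebraMap R F' r)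
    rw [IsScalarTower.algebraMap_apply R E F, IsScalarTower.algebraMap_apply R E F',
      φ.commutes]

/-- **The label datum at a triple point of the finite chart.** -/
theorem labelAt_triple_ctx (ctx : TripleCtx w q α β x x' V₁ V₂ V₃ V₁' V₂')
    (hq : 0 < q) {m : ℕ} (hm : 0 < m) {ζ : R} (hζ : ζ ^ m = 1)
    (n : Ideal (chart R ({x} : Set F))) [hn : n.IsMaximal]
    (h𝔪n : ∀ r ∈ IsLocalRing.maximalIdeal R, algebraMap R (chart R ({x} : Set F)) r ∈ n)
    (h1 : PassThrough (chart R ({x} : Set F)) n V₁)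
    (h2 : PassThrough (chart R ({x} : Set F)) n V₂)
    (h3 : PassThrough (chart R ({x} : Set F)) n V₃)
    {u : F} (hu₁ : u - 1 ∈ V₁.nonunits) (hu₂ : u - 1 ∈ V₂.nonunits)
    (hu₃ : u - 1 ∈ V₃.nonunits)
    {k₁ k₂ : F'} (hk₁ : S29.H395.normAlong α u = k₁ ^ m)
    (hk₂ : S29.H395.normAlong β u = k₂ ^ m)
    {i₁ i₂ j₁ j₂ : ℕ}
    (hi₁ : k₁ - algebraMap R F' (ζ ^ i₁) ∈ V₁'.nonunits)
    (hi₂ : k₁ - algebraMap R F' (ζ ^ i₂) ∈ V₂'.nonunits)
    (hj₂ : k₂ - algebraMap R F' (ζ ^ j₂) ∈ V₂'.nonunits)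
    (hj₁ : k₂ - algebraMap R F' (ζ ^ j₁) ∈ V₁'.nonunits)
    (κ : ValuationSubring F → ℕ)
    (hκFF : ζ ^ ((m - 1) * κ V₁) = ζ ^ ((q - 1) * (i₂ + j₂ + (m - 1) * (i₁ + j₁))))
    (hκmid : ζ ^ ((m - 1) * κ V₂) = ζ ^ (q * i₂ + j₁ + (m - 1) * (q * i₁ + j₂)))
    (hκVV : ζ ^ ((m - 1) * κ V₃) = 1)
    {d : F} {a₀ s₀ : chart R ({x} : Set F)} (ha₀ : a₀ ∉ n) (hs₀ : s₀ ∉ n)
    (hpure : u * d ^ m * (s₀ : F) = a₀) :
    LabelAt (chart R ({x} : Set F)) n {V | V = V₁ ∨ V = V₂ ∨ V = V₃} m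
      (u ^ ((q - 1) * (q + 1))) ζ κ := by
  have hnp : n.IsPrime := hn.isPrime
  have hB₁ : ChartLe (chart R ({x} : Set F)) V₁ :=
    chartLe_chart ctx.base₁ (fun s hs => by rw [Set.mem_singleton_iff.1 hs]; exact ctx.x_unit₁.2.1)
  have hB₂ : ChartLe (chart R ({x} : Set F)) V₂ :=
    chartLe_chart ctx.base₂ (fun s hs => by rw [Set.mem_singleton_iff.1 hs]; exact ctx.x_unit₂.2.1)
  have hB₃ : ChartLe (chart R ({x} : Set F)) V₃ :=
    chartLe_chart ctx.base₃ (fun s hs => by rw [Set.mem_singleton_iff.1 hs]; exact ctx.x_unit₃.2.1)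
  have hrat := rat_chart x n hn h𝔪n
  obtain ⟨η₁, hη₁, hv₁⟩ := exists_valAt_of_pure hrat hB₁ h1 hm
    (normalAlong_of_monic ctx.normal_f₁ hm) hu₁ ha₀ hs₀ hpure
  obtain ⟨η₂, hη₂, hv₂⟩ := exists_valAt_of_pure hrat hB₂ h2 hm
    (normalAlong_of_monic ctx.normal_f₂ hm) hu₂ ha₀ hs₀ hpure
  obtain ⟨η₃, hη₃, hv₃⟩ := exists_valAt_of_pure hrat hB₃ h3 hm
    (normalAlong_of_monic ctx.normal_f₃ hm) hu₃ ha₀ hs₀ hpure
  have hα : ζ ^ i₁ * (η₁ * η₂ ^ (q - 1)) - ζ ^ i₂ * η₃ ^ q ∈ IsLocalRing.maximalIdeal R := by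
    letI := algebraAlong α
    haveI : IsScalarTower R F' F := isScalarTower_alongR α
    exact label_eq_side n ctx.chart_α ctx.int_α
      (fun Q hQ h => ctx.unique_α n Q hn hQ ⟨h1, h2, h3⟩ h)
      hB₁ h1 hB₂ h2 hB₃ h3 ctx.comap_α₁ ctx.comap_α₃ ctx.res_α₁ ctx.res_α₂ hq.ne'
      ctx.nr_α₁ ctx.nr_α₂ hm hs₀ hpure hk₁ hi₁ hi₂ hη₁ hη₂ hη₃ hv₁ hv₂ hv₃
  have hβ : ζ ^ j₂ * (η₃ * η₂ ^ (q - 1)) - ζ ^ j₁ * η₁ ^ q ∈ IsLocalRing.maximalIdeal R := by
    letI := algebraAlong β
    haveI : IsScalarTower R F' F := isScalarTower_alongR β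
    exact label_eq_side n ctx.chart_β ctx.int_β
      (fun Q hQ h => ctx.unique_β n Q hn hQ ⟨h1, h2, h3⟩ h)
      hB₃ h3 hB₂ h2 hB₁ h1 ctx.comap_β₃ ctx.comap_β₁ ctx.res_β₃ ctx.res_β₂ hq.ne'
      ctx.nr_β₁ ctx.nr_β₂ hm hs₀ hpure hk₂ hj₂ hj₁ hη₃ hη₂ hη₁ hv₃ hv₂ hv₁
  exact labelAt_of_three (IsLocalRing.maximalIdeal R) h𝔪n (fun V hV => hV) hB₁ h1 hB₂ h2 hB₃ h3
    hm hζ hq κ hκFF hκmid hκVV hs₀ hpure (fun h => hη₂ (h𝔪n _ h)) (fun h => hη₃ (h𝔪n _ h)) hη₃
    hv₁ hv₂ hv₃ hα hβ

end Ctx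

end Fermat.Agent.S36.H630

end
-- ===== PACK-END S36/H630/FromCtx.lean

-- ===== PACK-BEGIN A2/Mod/H553/VzeroNe.lean
section



/-!
# A2 / MOD leaf L6 `VzeroNe` (helper553)

`V₀ := V∞ ∘ W ≠ V∞` at level `Mq` over `E`: the Frobenius element `u = j_q - j^q` is a non-unit
of `V∞` (`u = q · g`, `g` integral) while `W u = j_M - j_{Mq}^q` has an integral `t`-expansion
with a coefficient `-1`, hence is a unit of `V∞`.

* `frobE` : the element `u`;
* `inv_frobE_not_mem`, `inv_W_frobE_mem`;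
* `vzeroNe : VzeroNeStatement P E M q w`  (L6).
-/

set_option autoImplicit false
set_option synthInstance.maxHeartbeats 400000
set_option maxHeartbeats 1600000
set_option linter.unusedSectionVars false
set_option linter.style.haveILetI false

noncomputable section

namespace Fermat.Agent.A2.Mod.H553

open ModularCurve HahnSeries Polynomial
open Fermat.Agent.A2 Fermat.Agent.A2.Mod

variable (P : ValuationSubring _root_.Fermat.Agent.A2.Mod.Qb) (E : IntermediateField ℚ _root_.Fermat.Agent.A2.Mod.Qb) (M q : ℕ) [NeZero M] [NeZero q]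

/-- The Frobenius element `u = j_q - j^q` of `F_{Mq,E}`. -/
def frobE : ↥(_root_.Fermat.Agent.A2.Mod.FE E (M * q)) :=
  jE E (M * q) q (dvd_mul_left q M) - jE E (M * q) 1 (one_dvd _) ^ q

/-- its integral `t`-expansion -/
theorem coe_frobE :
    ((frobE E M q : ↥(_root_.Fermat.Agent.A2.Mod.FE E (M * q))) : LaurentSeries ↥E) =
      coeffEmb (↥E) (H708.castQ (H708.jInt q - H708.jInt 1 ^ q)) := by
  rw [map_sub, map_sub, map_pow, map_pow, ← coe_jE (E := E) (M * q) q (dvd_mul_left q M),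
    ← coe_jE (E := E) (M * q) 1 (one_dvd _)]
  rfl

theorem jInt_eq_qExpand (d : ℕ) [NeZero d] : H708.jInt d = qExpand ℤ d (H708.jInt 1) := by
  show qExpand ℤ d (jqModC ℤ) = qExpand ℤ d (qExpand ℤ 1 (jqModC ℤ))
  rw [qExpand_one_apply]

/-- `u = q · g` with `g` integral. -/
theorem exists_frobE_eq [Fact q.Prime] :
    ∃ g : LaurentSeries ℤ,
      ((frobE E M q : ↥(_root_.Fermat.Agent.A2.Mod.FE E (M * q))) : LaurentSeries ↥E) =
        algebraMap (↥E) (LaurentSeries ↥E) (q : ↥E) * coeffEmb (↥E) (H708.castQ g) := by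
  obtain ⟨g, hg⟩ := H528.exists_frobCong q (H708.jInt 1)
  refine ⟨g, ?_⟩
  rw [coe_frobE, jInt_eq_qExpand q, hg, map_mul, map_mul]
  congr 1
  ext n
  simp [coeffEmb, H708.castQ, HahnSeries.coeff_single, algebraMap_laurentSeries_eq_single]

variable {P E M q}

/-- the Frobenius element is not a unit of `V∞` -/
theorem inv_frobE_not_mem [Fact q.Prime] [IsNoetherianRing ↥(_root_.Fermat.Agent.A2.Mod.RE P E)]
    (hP : P.LiesOverPrime q) {V : ValuationSubring ↥(_root_.Fermat.Agent.A2.Mod.FE E (M * q))}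
    (hV : IsVinf P E (M * q) V) (hu0 : frobE E M q ≠ 0) : (frobE E M q)⁻¹ ∉ V := by
  intro hmem
  obtain ⟨g, hg⟩ := exists_frobE_eq E M q
  have hq0 : (q : ↥E) ≠ 0 := by exact_mod_cast NeZero.ne q
  have hqF : algebraMap ↥E ↥(_root_.Fermat.Agent.A2.Mod.FE E (M * q)) (q : ↥E) ≠ 0 :=
    (map_ne_zero_iff _ (algebraMap ↥E ↥(_root_.Fermat.Agent.A2.Mod.FE E (M * q))).injective).mpr hq0
  -- `g' := u / q` has integral expansion `g`
  set g' : ↥(_root_.Fermat.Agent.A2.Mod.FE E (M * q)) := (algebraMap ↥E ↥(_root_.Fermat.Agent.A2.Mod.FE E (M * q)) (q : ↥E))⁻¹ * frobE E M q with hg'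
  have hcoe : ((g' : ↥(_root_.Fermat.Agent.A2.Mod.FE E (M * q))) : LaurentSeries ↥E) = coeffEmb (↥E) (H708.castQ g) := by
    have hqS : algebraMap (↥E) (LaurentSeries ↥E) (q : ↥E) ≠ 0 :=
      (map_ne_zero_iff _ (algebraMap (↥E) (LaurentSeries ↥E)).injective).mpr hq0
    have h1 : ((g' : ↥(_root_.Fermat.Agent.A2.Mod.FE E (M * q))) : LaurentSeries ↥E) =
        (algebraMap (↥E) (LaurentSeries ↥E) (q : ↥E))⁻¹ *
          ((frobE E M q : ↥(_root_.Fermat.Agent.A2.Mod.FE E (M * q))) : LaurentSeries ↥E) := by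
      rw [hg', IntermediateField.coe_mul, IntermediateField.coe_inv]
      rfl
    rw [h1, hg, ← mul_assoc, inv_mul_cancel₀ hqS, one_mul]
  have hg'V : g' ∈ V := mem_of_int hV hcoe
  have hkey : (algebraMap ↥E ↥(_root_.Fermat.Agent.A2.Mod.FE E (M * q)) (q : ↥E))⁻¹ = g' * (frobE E M q)⁻¹ := by
    rw [hg', mul_assoc, mul_inv_cancel₀ hu0, mul_one]
  have h2 : (algebraMap ↥E ↥(_root_.Fermat.Agent.A2.Mod.FE E (M * q)) (q : ↥E))⁻¹ ∈ V := by
    rw [hkey]
    exact V.mul_mem _ _ hg'V hmem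
  have h3 : (algebraMap ↥E ↥(_root_.Fermat.Agent.A2.Mod.FE E (M * q)) (q : ↥E))⁻¹ =
      algebraMap ↥E ↥(_root_.Fermat.Agent.A2.Mod.FE E (M * q)) ((q : ↥E)⁻¹) := (map_inv₀ _ _).symm
  rw [h3] at h2
  have h4 : ((q : ↥E)⁻¹) ∈ _root_.Fermat.Agent.A2.Mod.RE P E := (algebraMap_mem_iff P E hV _).mp h2
  have h5 : ((q : _root_.Fermat.Agent.A2.Mod.Qb)⁻¹) ∈ P := by
    have : (((q : ↥E)⁻¹ : ↥E) : _root_.Fermat.Agent.A2.Mod.Qb) ∈ P := h4
    simpa using this
  have h6 : (q : _root_.Fermat.Agent.A2.Mod.Qb) ∈ P.nonunits := hP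
  rw [ValuationSubring.mem_nonunits_iff] at h6
  have h7 : P.valuation ((q : _root_.Fermat.Agent.A2.Mod.Qb)⁻¹) ≤ 1 := (P.valuation_le_one_iff _).mpr h5
  rw [map_inv₀] at h7
  have hq0' : P.valuation (q : _root_.Fermat.Agent.A2.Mod.Qb) ≠ 0 := by
    rw [Valuation.ne_zero_iff]
    exact_mod_cast NeZero.ne q
  have h8 : 1 ≤ P.valuation (q : _root_.Fermat.Agent.A2.Mod.Qb) := (inv_le_one₀ (zero_lt_iff.mpr hq0')).mp h7
  exact absurd h6 (not_lt.mpr h8)

/-- the expansion of `W u = j_M - j_{Mq}^q` -/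
theorem coe_W_frobE {W : ↥(_root_.Fermat.Agent.A2.Mod.FE E (M * q)) ≃ₐ[↥E] ↥(_root_.Fermat.Agent.A2.Mod.FE E (M * q))}
    (hW : IsFricke E (M * q) W) :
    haveI : NeZero (M * q) := ⟨mul_ne_zero (NeZero.ne M) (NeZero.ne q)⟩
    ((W (frobE E M q) : ↥(_root_.Fermat.Agent.A2.Mod.FE E (M * q))) : LaurentSeries ↥E) =
      coeffEmb (↥E) (H708.castQ (H708.jInt M - H708.jInt (M * q) ^ q)) := by
  haveI : NeZero (M * q) := ⟨mul_ne_zero (NeZero.ne M) (NeZero.ne q)⟩
  have h1 : W (frobE E M q) =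
      jE E (M * q) M (dvd_mul_right M q) - jE E (M * q) (M * q) dvd_rfl ^ q := by
    rw [frobE, map_sub, map_pow,
      hW.1 q M (dvd_mul_left q M) (dvd_mul_right M q) (mul_comm q M),
      hW.1 1 (M * q) (one_dvd _) dvd_rfl (one_mul _)]
  rw [h1, map_sub, map_sub, map_pow, map_pow, ← coe_jE (E := E) (M * q) M (dvd_mul_right M q),
    ← coe_jE (E := E) (M * q) (M * q) dvd_rfl]
  rfl

theorem coeff_W_frob [Fact q.Prime] :
    haveI : NeZero (M * q) := ⟨mul_ne_zero (NeZero.ne M) (NeZero.ne q)⟩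
    (H708.jInt M - H708.jInt (M * q) ^ q).coeff (-((M * q * q : ℕ) : ℤ)) = -1 := by
  haveI : NeZero (M * q) := ⟨mul_ne_zero (NeZero.ne M) (NeZero.ne q)⟩
  have hM : 0 < M := Nat.pos_of_ne_zero (NeZero.ne M)
  have hq1 : 1 < q := (Fact.out : q.Prime).one_lt
  have e1 : H708.jInt M = H528.jZ M := rfl
  have e2 : H708.jInt (M * q) = H528.jZ (M * q) := rfl
  rw [HahnSeries.coeff_sub, e1, e2, H528.coeff_jZ_pow_top, H528.coeff_jZ_of_lt, zero_sub]
  have h2 : M < M * q * q := by
    calc M = M * 1 * 1 := by ring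
      _ < M * q * q := by
        have : 1 * 1 < q * q := Nat.mul_lt_mul'' hq1 hq1
        nlinarith
  have h3 : ((M : ℕ) : ℤ) < ((M * q * q : ℕ) : ℤ) := by exact_mod_cast h2
  linarith

/-- `W u` is a unit of `V∞` -/
theorem inv_W_frobE_mem [Fact q.Prime] {V : ValuationSubring ↥(_root_.Fermat.Agent.A2.Mod.FE E (M * q))}
    (hV : IsVinf P E (M * q) V) {W : ↥(_root_.Fermat.Agent.A2.Mod.FE E (M * q)) ≃ₐ[↥E] ↥(_root_.Fermat.Agent.A2.Mod.FE E (M * q))}
    (hW : IsFricke E (M * q) W) : (W (frobE E M q))⁻¹ ∈ V :=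
  inv_mem_of_int hV (coe_W_frobE hW) (Or.inr coeff_W_frob)

theorem coeff_coeffEmb_castQ (x : LaurentSeries ℤ) (k : ℤ) :
    (coeffEmb (↥E) (H708.castQ x)).coeff k = ((x.coeff k : ℤ) : ↥E) := by
  show algebraMap ℚ (↥E) ((Int.castRingHom ℚ) (x.coeff k)) = _
  simp

theorem W_frobE_ne_zero [Fact q.Prime] {W : ↥(_root_.Fermat.Agent.A2.Mod.FE E (M * q)) ≃ₐ[↥E] ↥(_root_.Fermat.Agent.A2.Mod.FE E (M * q))}
    (hW : IsFricke E (M * q) W) : W (frobE E M q) ≠ 0 := by
  haveI : NeZero (M * q) := ⟨mul_ne_zero (NeZero.ne M) (NeZero.ne q)⟩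
  intro h0
  have h1 := coe_W_frobE (E := E) (M := M) (q := q) hW
  rw [h0] at h1
  have h2 := congrArg (fun s : LaurentSeries ↥E => s.coeff (-((M * q * q : ℕ) : ℤ))) h1
  simp only [ZeroMemClass.coe_zero, HahnSeries.coeff_zero] at h2
  rw [coeff_coeffEmb_castQ, coeff_W_frob] at h2
  have : ((-1 : ℤ) : ↥E) ≠ 0 := by simp
  exact this h2.symm

variable (P E M q)

/-- **L6.** -/
theorem vzeroNe (w : _root_.Fermat.Agent.A2.Mod.RE P E) : VzeroNeStatement P E M q w := by
  intro hS V W hV hW heq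
  haveI : Fact q.Prime := ⟨hS.q_prime⟩
  haveI := hS.dvr
  have hWu0 : W (frobE E M q) ≠ 0 := W_frobE_ne_zero hW
  have hu0 : frobE E M q ≠ 0 := fun h0 => hWu0 (by rw [h0, map_zero])
  have h1 : (frobE E M q)⁻¹ ∈ V.comap (W : ↥(_root_.Fermat.Agent.A2.Mod.FE E (M * q)) →+* ↥(_root_.Fermat.Agent.A2.Mod.FE E (M * q))) := by
    show W ((frobE E M q)⁻¹) ∈ V
    rw [map_inv₀]
    exact inv_W_frobE_mem hV hW
  rw [heq] at h1
  exact inv_frobE_not_mem hS.lies_over hV hu0 h1

end Fermat.Agent.A2.Mod.H553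

end
end
-- ===== PACK-END A2/Mod/H553/VzeroNe.lean

-- ===== PACK-BEGIN A2/Mod/H372/S3Noeth.lean
section



/-!
# A2 / MODASM S3 (helper372): the charts of level `Mq` are noetherian

From leaf L8 (`DegStatement`: `x` transcendental over `E`, `[F_{Mq} : E(x)] < ∞`) and
`S18.H394.chart_instances`.
-/

set_option autoImplicit false
set_option synthInstance.maxHeartbeats 400000
set_option maxHeartbeats 1600000
set_option linter.unusedSectionVars false
set_option linter.style.haveILetI false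

noncomputable section

namespace Fermat.Agent.A2.Mod.H372

open ModularCurve HahnSeries Polynomial
open Fermat.Agent.S18

variable {P : ValuationSubring _root_.Fermat.Agent.A2.Mod.Qb} {E : IntermediateField ℚ _root_.Fermat.Agent.A2.Mod.Qb}

/-- `E(x) ⊆ R_E(x)` inside `F`. -/
theorem adjoin_le_baseField {N : ℕ} (x : _root_.Fermat.Agent.A2.Mod.FE E N) {f : _root_.Fermat.Agent.A2.Mod.FE E N}
    (hf : f ∈ IntermediateField.adjoin E ({x} : Set (_root_.Fermat.Agent.A2.Mod.FE E N))) :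
    f ∈ H138.baseField (_root_.Fermat.Agent.A2.Mod.RE P E) x := by
  have hf' : f ∈ Subfield.closure (Set.range (algebraMap E (_root_.Fermat.Agent.A2.Mod.FE E N)) ∪ ({x} : Set (_root_.Fermat.Agent.A2.Mod.FE E N))) := hf
  refine (Subfield.closure_le (t := H138.baseField (_root_.Fermat.Agent.A2.Mod.RE P E) x)).mpr ?_ hf'
  rintro z (⟨e, rfl⟩ | hz)
  · rcases (_root_.Fermat.Agent.A2.Mod.RE P E).mem_or_inv_mem e with he | he
    · exact Subfield.subset_closure (Or.inl ⟨⟨e, he⟩, rfl⟩)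
    · have h1 : algebraMap E (_root_.Fermat.Agent.A2.Mod.FE E N) e⁻¹ ∈ H138.baseField (_root_.Fermat.Agent.A2.Mod.RE P E) x :=
        Subfield.subset_closure (Or.inl ⟨⟨e⁻¹, he⟩, rfl⟩)
      have h2 := (H138.baseField (_root_.Fermat.Agent.A2.Mod.RE P E) x).inv_mem h1
      rwa [map_inv₀, inv_inv] at h2
  · exact Subfield.subset_closure (Or.inr hz)

/-- finiteness over `E(x)` implies finiteness over `R_E(x)`. -/
theorem finiteDimensional_baseField {N : ℕ} (x : _root_.Fermat.Agent.A2.Mod.FE E N)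
    [FiniteDimensional (IntermediateField.adjoin E ({x} : Set (_root_.Fermat.Agent.A2.Mod.FE E N))) (_root_.Fermat.Agent.A2.Mod.FE E N)] :
    FiniteDimensional (H138.baseField (_root_.Fermat.Agent.A2.Mod.RE P E) x) (_root_.Fermat.Agent.A2.Mod.FE E N) := by
  let ι : IntermediateField.adjoin E ({x} : Set (_root_.Fermat.Agent.A2.Mod.FE E N)) →+* H138.baseField (_root_.Fermat.Agent.A2.Mod.RE P E) x :=
    { toFun := fun a => ⟨a, adjoin_le_baseField x a.2⟩
      map_one' := rfl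
      map_mul' := fun _ _ => rfl
      map_zero' := rfl
      map_add' := fun _ _ => rfl }
  letI : Algebra (IntermediateField.adjoin E ({x} : Set (_root_.Fermat.Agent.A2.Mod.FE E N))) (H138.baseField (_root_.Fermat.Agent.A2.Mod.RE P E) x) :=
    ι.toAlgebra
  haveI : IsScalarTower (IntermediateField.adjoin E ({x} : Set (_root_.Fermat.Agent.A2.Mod.FE E N)))
      (H138.baseField (_root_.Fermat.Agent.A2.Mod.RE P E) x) (_root_.Fermat.Agent.A2.Mod.FE E N) := IsScalarTower.of_algebraMap_eq (fun _ => rfl)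
  exact Module.Finite.of_restrictScalars_finite
    (IntermediateField.adjoin E ({x} : Set (_root_.Fermat.Agent.A2.Mod.FE E N))) (H138.baseField (_root_.Fermat.Agent.A2.Mod.RE P E) x) (_root_.Fermat.Agent.A2.Mod.FE E N)

/-- **The charts are noetherian.** -/
theorem isNoetherianRing_chartAlg_of_transcendental {N : ℕ}
    (hdvr : IsDiscreteValuationRing (_root_.Fermat.Agent.A2.Mod.RE P E)) (x : _root_.Fermat.Agent.A2.Mod.FE E N) (hx : Transcendental E x)
    [FiniteDimensional (IntermediateField.adjoin E ({x} : Set (_root_.Fermat.Agent.A2.Mod.FE E N))) (_root_.Fermat.Agent.A2.Mod.FE E N)] :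
    IsNoetherianRing (chartAlg P E N x) ∧ IsNoetherianRing (chartAlg P E N x⁻¹) := by
  haveI := hdvr
  have hinj : Function.Injective (algebraMap (_root_.Fermat.Agent.A2.Mod.RE P E) E) := Subtype.val_injective
  have hxR : Transcendental (_root_.Fermat.Agent.A2.Mod.RE P E) x := hx.restrictScalars hinj
  have hxi : Transcendental E x⁻¹ := fun h => hx (IsAlgebraic.inv_iff.mp h)
  have hxiR : Transcendental (_root_.Fermat.Agent.A2.Mod.RE P E) x⁻¹ := hxi.restrictScalars hinj
  haveI h1 : FiniteDimensional (H138.baseField (_root_.Fermat.Agent.A2.Mod.RE P E) x) (_root_.Fermat.Agent.A2.Mod.FE E N) :=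
    finiteDimensional_baseField x
  haveI h2 : FiniteDimensional (H138.baseField (_root_.Fermat.Agent.A2.Mod.RE P E) x⁻¹) (_root_.Fermat.Agent.A2.Mod.FE E N) := by
    rw [H138.baseField_inv]
    exact h1
  exact ⟨(H394.chart_instances hxR).1, (H394.chart_instances hxiR).1⟩

end Fermat.Agent.A2.Mod.H372

end
end
-- ===== PACK-END A2/Mod/H372/S3Noeth.lean

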