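import Fermat.Prelude.Def_FLTPrelim_Ramification
import Fermat.Prelude.Def_ModularCurve_ModularUnit
import Fermat.Agent.Pack.S36.E17L0
import Fermat.Agent.Pack.S36.E4L0
import Fermat.Agent.Pack.S36.E17L3
import Fermat.Agent.Pack.S36.E10L3
import Fermat.Agent.Pack.S36.E14L2
import Fermat.Agent.Pack.S36.E5L1
import Fermat.Agent.Pack.S36.E12L0
import Fermat.Agent.Pack.S36.E16L0
import Fermat.Agent.Pack.S36.E16L2
import Fermat.Agent.Pack.S36.E17L2
import Fermat.Agent.Pack.S36.E11L3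
import Fermat.Agent.Pack.S36.E3L3
import Fermat.Agent.Pack.S36.E17L1
import Fermat.Agent.Pack.S36.E14L0
import Fermat.Agent.Pack.S36.E14L1
import Fermat.Agent.Pack.S36.E10L2
import Fermat.Agent.Pack.S36.E12L2

-- ===== PACK-BEGIN S29/H282/LocalK.lean
section


/-!
# S29 / M4b-K2 (helper282) — `LocalData` for the function field over `K` from an expansion

Port of `Fermat/Agent/S24/Mod/H997Local.lean` (namespace `HolBase`) and of the first half of
`H997Core.lean` from `(ℚ̄, ιK)` to an arbitrary field `K` with `ι : K →+* ℂ`.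
-/

set_option autoImplicit false

noncomputable section

open ModularCurve HahnSeries UpperHalfPlane
open scoped MatrixGroups

namespace Fermat.Agent.S29.H282

open Fermat.Agent.S24 Fermat.Agent.S24.H997 Fermat.Agent.S24.Deg457

variable {K : Type*} [Field K] [Algebra ℚ K] (ι : K →+* ℂ)
variable {N : ℕ} [NeZero N] (B : HolBase N) (X : Expansion B)

/-- the ring hom `R_N(K) → ℂ((z))`, `r ↦ E (e r ∘ g⁻¹)` -/
def sGK (g : SL(2, ℤ)) : RNK K N →+* LaurentSeries ℂ :=
  X.E.comp ((B.compH g⁻¹).comp (bridgeK ι B))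

theorem sGK_apply (g : SL(2, ℤ)) (r : RNK K N) :
    sGK ι B X g r = X.E (B.compH g⁻¹ (bridgeK ι B r)) := rfl

theorem sGK_injective (g : SL(2, ℤ)) : Function.Injective (sGK ι B X g) :=
  X.inj.comp ((B.compH_injective g⁻¹).comp (bridgeK_injective ι B))

/-- the embedding `FFK K N → ℂ((z))` attached to `g` -/
def sigmaGK (g : SL(2, ℤ)) : FFK K N →+* LaurentSeries ℂ :=
  liftFK (sGK ι B X g) (sGK_injective ι B X g)

theorem sigmaGK_inclRNK (g : SL(2, ℤ)) (r : RNK K N) :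
    sigmaGK ι B X g (inclRNK K N r) = X.E (B.compH g⁻¹ (bridgeK ι B r)) :=
  liftFK_inclRNK _ _ r

theorem sigmaGK_algebraMap (g : SL(2, ℤ)) (c : K) :
    sigmaGK ι B X g (algebraMap K (FFK K N) c) = HahnSeries.C (ι c) := by
  rw [sigmaGK, liftFK_algebraMap, sGK_apply, bridgeK_algebraMap, HolBase.compH_constH, X.const]

theorem sigmaGK_jFK (g : SL(2, ℤ)) :
    sigmaGK ι B X g (jFK K N) = X.E (B.JH 1 (one_dvd N)) := by
  rw [← inclRNK_jRK_one, sigmaGK_inclRNK, bridgeK_jRK, HolBase.compH_JH_one]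

theorem sGK_mul_of_mem (g : SL(2, ℤ)) {δ : SL(2, ℤ)} (hδ : δ ∈ CongruenceSubgroup.Gamma0 N) :
    sGK ι B X (g * δ) = sGK ι B X g := by
  ext1 r
  rw [sGK_apply, sGK_apply, mul_inv_rev, HolBase.compH_mul,
    compH_bridgeK_of_mem ι B (inv_mem hδ)]

theorem sigmaGK_mul_of_mem (g : SL(2, ℤ)) {δ : SL(2, ℤ)}
    (hδ : δ ∈ CongruenceSubgroup.Gamma0 N) : sigmaGK ι B X (g * δ) = sigmaGK ι B X g := by
  unfold sigmaGK
  congr 1
  exact sGK_mul_of_mem ι B X g hδ

theorem sigmaGK_eq_of_mk_eq {g g' : SL(2, ℤ)}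
    (h : (g : XX N) = (g' : XX N)) : sigmaGK ι B X g = sigmaGK ι B X g' := by
  have hmem : g⁻¹ * g' ∈ CongruenceSubgroup.Gamma0 N := QuotientGroup.eq.mp h
  have := sigmaGK_mul_of_mem ι B X g hmem
  rw [mul_inv_cancel_left] at this
  exact this.symm

/-- the embedding attached to a coset -/
def sigmaXK (x : XX N) : FFK K N →+* LaurentSeries ℂ := sigmaGK ι B X (Quotient.out x)

theorem sigmaXK_mk (g : SL(2, ℤ)) : sigmaXK ι B X (g : XX N) = sigmaGK ι B X g :=
  sigmaGK_eq_of_mk_eq ι B X (QuotientGroup.out_eq' _)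

theorem sigmaXK_injective : Function.Injective (sigmaXK (K := K) ι B X) := by
  intro x y hxy
  obtain ⟨g, rfl⟩ := QuotientGroup.mk_surjective x
  obtain ⟨g', rfl⟩ := QuotientGroup.mk_surjective y
  rw [sigmaXK_mk, sigmaXK_mk] at hxy
  have h1 := congrArg (fun s => s (inclRNK K N (jRK K N N dvd_rfl))) hxy
  simp only [sigmaGK_inclRNK, bridgeK_jRK] at h1
  have h2 := X.inj h1
  apply QuotientGroup.eq.mpr
  apply B.J_distinct
  intro τ
  have h3 := congrArg (fun h : B.Hol => (h : ℍ → ℂ) (g' • τ)) h2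
  simp only [HolBase.compH_apply] at h3
  rw [← mul_smul, ← mul_smul, inv_mul_cancel, one_smul] at h3
  exact h3

theorem rotRel_sigmaGK (ε : SL(2, ℤ)) (R : RotData B X ε) (g : SL(2, ℤ)) (f : FFK K N) :
    RotRel R.ζ (sigmaGK ι B X g f) (sigmaGK ι B X (ε⁻¹ * g) f) := by
  have hζ : R.ζ ≠ 0 := R.hζ.ne_zero R.m_pos.ne'
  obtain ⟨r, t, -, rfl⟩ := exists_div_inclRNK K N f
  rw [map_div₀, map_div₀]
  have key : ∀ r : RNK K N, RotRel R.ζ (sigmaGK ι B X g (inclRNK K N r))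
      (sigmaGK ι B X (ε⁻¹ * g) (inclRNK K N r)) := by
    intro r
    rw [sigmaGK_inclRNK, sigmaGK_inclRNK, mul_inv_rev, inv_inv, HolBase.compH_mul]
    exact R.rot _
  exact (key r).div hζ (key t)

/-- `LocalData` from an expansion with rotation data. -/
def mkLocalDataK (ε : SL(2, ℤ)) (R : RotData B X ε) (t : FFK K N) (u : LaurentSeries ℂ)
    (ht : ∀ g : SL(2, ℤ), sigmaGK ι B X g t = u) (hu : u.order = (R.m : ℤ)) :
    LocalData K (FFK K N) ℂ (XX N) t where
  m := R.m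
  m_pos := R.m_pos
  ζ := R.ζ
  hζ := R.hζ
  ι := ι
  perm := permOf N ε⁻¹
  σ := sigmaXK ι B X
  σ_inj := sigmaXK_injective ι B X
  σ_const x c := sigmaGK_algebraMap ι B X _ c
  σ_t_eq x y := by
    show sigmaGK ι B X _ t = sigmaGK ι B X _ t
    rw [ht, ht]
  σ_t_order x := by
    show (sigmaGK ι B X _ t).order = _
    rw [ht, hu]
  σ_perm_order x f := by
    obtain ⟨g, rfl⟩ := QuotientGroup.mk_surjective x
    have h : permOf N ε⁻¹ (g : XX N) = ((ε⁻¹ * g : SL(2, ℤ)) : XX N) := rfl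
    rw [h, sigmaXK_mk, sigmaXK_mk]
    exact (rotRel_sigmaGK ι B X ε R g f).1
  σ_perm_leadingCoeff x f := by
    obtain ⟨g, rfl⟩ := QuotientGroup.mk_surjective x
    have h : permOf N ε⁻¹ (g : XX N) = ((ε⁻¹ * g : SL(2, ℤ)) : XX N) := rfl
    rw [h, sigmaXK_mk, sigmaXK_mk]
    exact (rotRel_sigmaGK ι B X ε R g f).2

@[simp] theorem mkLocalDataK_perm (ε : SL(2, ℤ)) (R : RotData B X ε) (t : FFK K N)
    (u : LaurentSeries ℂ) (ht : ∀ g : SL(2, ℤ), sigmaGK ι B X g t = u)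
    (hu : u.order = (R.m : ℤ)) :
    (mkLocalDataK ι B X ε R t u ht hu).perm = permOf N ε⁻¹ := rfl

@[simp] theorem mkLocalDataK_σ (ε : SL(2, ℤ)) (R : RotData B X ε) (t : FFK K N)
    (u : LaurentSeries ℂ) (ht : ∀ g : SL(2, ℤ), sigmaGK ι B X g t = u)
    (hu : u.order = (R.m : ℤ)) :
    (mkLocalDataK ι B X ε R t u ht hu).σ = sigmaXK ι B X := rfl

@[simp] theorem mkLocalDataK_m (ε : SL(2, ℤ)) (R : RotData B X ε) (t : FFK K N)
    (u : LaurentSeries ℂ) (ht : ∀ g : SL(2, ℤ), sigmaGK ι B X g t = u)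
    (hu : u.order = (R.m : ℤ)) :
    (mkLocalDataK ι B X ε R t u ht hu).m = R.m := rfl

@[simp] theorem mkLocalDataK_ζ (ε : SL(2, ℤ)) (R : RotData B X ε) (t : FFK K N)
    (u : LaurentSeries ℂ) (ht : ∀ g : SL(2, ℤ), sigmaGK ι B X g t = u)
    (hu : u.order = (R.m : ℤ)) :
    (mkLocalDataK ι B X ε R t u ht hu).ζ = R.ζ := rfl

end Fermat.Agent.S29.H282

end
end
-- ===== PACK-END S29/H282/LocalK.lean

-- ===== PACK-BEGIN S29/H282/CoreK.lean
section


/-!
# S29 / M4b-K2 (helper282) — the local data of the function field over `K` at every point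

Port of the second half of `Fermat/Agent/S24/Mod/H997Core.lean` from `(ℚ̄, ιK)` to an arbitrary
field `K` with `ι : K →+* ℂ`.
-/

set_option autoImplicit false

noncomputable section

open ModularCurve HahnSeries UpperHalfPlane
open scoped MatrixGroups

namespace Fermat.Agent.S29.H282

open Fermat.Agent.S24 Fermat.Agent.S24.H997 Fermat.Agent.S24.Deg457

variable {K : Type*} [Field K] [Algebra ℚ K] (ι : K →+* ℂ)
variable {N : ℕ} [NeZero N] (A : AnalyticCore N)

/-- the local data at `∞` -/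
def dataInfK : LocalData K (FFK K N) ℂ (XX N) (jFK K N)⁻¹ :=
  mkLocalDataK ι A.toHolBase A.toHolBase.qexpExpansion ModularGroup.T A.infRot (jFK K N)⁻¹
    (A.qexp (A.toHolBase.JH 1 (one_dvd N)))⁻¹
    (fun g => by rw [map_inv₀, sigmaGK_jFK]; rfl)
    (by
      rw [RotRel.order_inv' A.toHolBase.qexp_J_one_ne_zero, A.toHolBase.order_qexp_J_one, neg_neg]
      rfl)

theorem sigmaGK_sub {a : K} {ε : SL(2, ℤ)} (P : PointData A.toHolBase (ι a) ε)
    (g : SL(2, ℤ)) :
    sigmaGK ι A.toHolBase P.X g (jFK K N - algebraMap K (FFK K N) a)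
      = P.X.E (A.toHolBase.JH 1 (one_dvd N) - A.toHolBase.constH (ι a)) := by
  rw [map_sub, sigmaGK_jFK, sigmaGK_algebraMap, map_sub, P.X.const]

/-- the local data attached to point data over `a` -/
def dataOfPointK {a : K} {ε : SL(2, ℤ)} (P : PointData A.toHolBase (ι a) ε) :
    LocalData K (FFK K N) ℂ (XX N) (jFK K N - algebraMap K (FFK K N) a) :=
  mkLocalDataK ι A.toHolBase P.X ε P.R _ _ (fun g => sigmaGK_sub ι A P g) P.order_J

/-- all the embeddings `σ_x` agree on `K(j)` -/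
theorem sigmaXK_eq_on_adjoin (X : Expansion A.toHolBase) (x y : XX N) {f : FFK K N}
    (hf : f ∈ IntermediateField.adjoin K {jFK K N}) :
    sigmaXK ι A.toHolBase X x f = sigmaXK ι A.toHolBase X y f := by
  induction hf using IntermediateField.adjoin_induction with
  | mem z hz =>
      rw [Set.mem_singleton_iff] at hz
      subst hz
      show sigmaGK ι A.toHolBase X _ (jFK K N) = sigmaGK ι A.toHolBase X _ (jFK K N)
      rw [sigmaGK_jFK, sigmaGK_jFK]
  | algebraMap c =>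
      show sigmaGK ι A.toHolBase X _ _ = sigmaGK ι A.toHolBase X _ _
      rw [sigmaGK_algebraMap, sigmaGK_algebraMap]
  | add z w _ _ hz hw => rw [map_add, map_add, hz, hw]
  | inv z _ hz => rw [map_inv₀, map_inv₀, hz]
  | mul z w _ _ hz hw => rw [map_mul, map_mul, hz, hw]

include ι A in
/-- lower bound for the degree: `|SL₂(ℤ)/Γ₀(N)| ≤ [FFK K N : K(j)]`. -/
theorem card_le_finrankK
    [FiniteDimensional ↥(IntermediateField.adjoin K {jFK K N}) (FFK K N)] :
    Nat.card (XX N) ≤ Module.finrank ↥(IntermediateField.adjoin K {jFK K N}) (FFK K N) := by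
  classical
  set E := IntermediateField.adjoin K {jFK K N} with hE
  let X := A.toHolBase.qexpExpansion
  let x0 : XX N := ((1 : SL(2, ℤ)) : XX N)
  let ψ : ↥E →+* LaurentSeries ℂ := (sigmaXK ι A.toHolBase X x0).comp (algebraMap ↥E (FFK K N))
  letI : Algebra ↥E (LaurentSeries ℂ) := ψ.toAlgebra
  let a : XX N → (FFK K N →ₐ[↥E] LaurentSeries ℂ) := fun x =>
    { sigmaXK ι A.toHolBase X x with
      commutes' := fun y => sigmaXK_eq_on_adjoin ι A X x x0 y.2 }
  have ha : Function.Injective a := by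
    intro x y hxy
    apply sigmaXK_injective ι A.toHolBase X
    refine RingHom.ext fun f => ?_
    exact congrArg (fun φ : FFK K N →ₐ[↥E] LaurentSeries ℂ => φ f) hxy
  haveI : Module.Free ↥E (FFK K N) := Module.Free.of_divisionRing ↥E (FFK K N)
  haveI : Module.Finite ↥E (FFK K N) := ‹FiniteDimensional ↥E (FFK K N)›
  haveI : Finite (FFK K N →ₐ[↥E] LaurentSeries ℂ) :=
    Finite.algHom ↥E (FFK K N) (LaurentSeries ℂ)
  calc Nat.card (XX N) ≤ Nat.card (FFK K N →ₐ[↥E] LaurentSeries ℂ) :=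
        Nat.card_le_card_of_injective a ha
    _ ≤ Module.finrank ↥E (FFK K N) := card_algHom_le_finrank ↥E (FFK K N) (LaurentSeries ℂ)

/-- the stabiliser generator used over the point `a` -/
def epsAt (a : K) : SL(2, ℤ) :=
  letI := Classical.propDecidable
  if ι a = 0 then ModularGroup.S * ModularGroup.T
  else if ι a = 1728 then ModularGroup.S else 1

/-- the point data over the point `a` -/
def pointAt (a : K) : PointData A.toHolBase (ι a) (epsAt ι a) :=
  letI := Classical.propDecidable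
  if h0 : ι a = 0 then by
    rw [epsAt, if_pos h0, h0]; exact A.at0
  else if h1 : ι a = 1728 then by
    rw [epsAt, if_neg h0, if_pos h1, h1]; exact A.at1728
  else by
    rw [epsAt, if_neg h0, if_neg h1]; exact A.generic (ι a) h0 h1

/-- the local data over a finite point `a : K` -/
def dataFinK (a : K) : LocalData K (FFK K N) ℂ (XX N) (jFK K N - algebraMap K (FFK K N) a) :=
  dataOfPointK ι A (pointAt ι A a)

theorem dataFinK_perm (a : K) : (dataFinK ι A a).perm = permOf N (epsAt ι a)⁻¹ := rfl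

theorem dataFinK_σ (a : K) :
    (dataFinK ι A a).σ = sigmaXK ι A.toHolBase (pointAt ι A a).X := rfl

theorem dataFinK_m (a : K) : (dataFinK ι A a).m = (pointAt ι A a).R.m := rfl

theorem dataFinK_ζ (a : K) : (dataFinK ι A a).ζ = (pointAt ι A a).R.ζ := rfl

theorem dataInfK_perm : (dataInfK (K := K) ι A).perm = permOf N ModularGroup.T⁻¹ := rfl

theorem dataInfK_σ :
    (dataInfK (K := K) ι A).σ = sigmaXK ι A.toHolBase A.toHolBase.qexpExpansion := rfl

theorem dataInfK_m : (dataInfK (K := K) ι A).m = N := rfl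

end Fermat.Agent.S29.H282

end
end
-- ===== PACK-END S29/H282/CoreK.lean

-- ===== PACK-BEGIN S29/M3.lean
section
/-
S29 row, PIECE `M3` (helper126): the Galois action on `J₀(N)(ℚ̄)` is smooth.
Statement exactly as in `SkeletonM.lean`; proof in `Fermat/Agent/S29/H126/M3.lean`.
-/



set_option autoImplicit false

noncomputable section

namespace Fermat.Agent.S29

open ModularCurve AlgebraicCurve

variable (N : ℕ) [NeZero N]

/-- PIECE `M3`: the Galois action on `J₀(N)(ℚ̄)` is smooth. -/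
theorem jZero_smooth (x : JZero N) :
    ∃ L : IntermediateField ℚ (AlgebraicClosure ℚ), FiniteDimensional ℚ L ∧
      ∀ σ : GQ, (∀ y ∈ L, σ y = y) → σ • x = x :=
  H126.M3_jZero_smooth N x

end Fermat.Agent.S29

end
end
-- ===== PACK-END S29/M3.lean

-- ===== PACK-BEGIN S30/H990/FromInputs.lean
section
/-
S30 top glue (helper990): the frozen statement S30 from the three open inputs of the adic module
layer of helper330: (K) Kummer map onto torsion, (P) eigen parabolic character, (T) torsion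
relations.  The inputs (Sm) and (GH) are discharged from main (S29 pieces M3 and M2).
-/





set_option autoImplicit false

namespace Fermat.Agent.S30.H990

open Polynomial

/-- Input (Sm) of the adic module layer holds (S29 piece M3, helper126). -/
theorem smoothStatement (N : ℕ) [NeZero N] : Fermat.Agent.S30.H330.SmoothStatement N :=
  fun x => Fermat.Agent.S29.jZero_smooth N x

/-- Input (GH) of the adic module layer holds (S29 piece M2, helper571). -/
theorem galoisHeckeStatement (N : ℕ) [NeZero N] :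
    Fermat.Agent.S30.H330.GaloisHeckeStatement N :=
  fun σ ℓ x => (Fermat.Agent.S29.H571.heckeOperatorBar_smul N ℓ σ x).symm

/-- **S30 from the inputs (K), (P), (T).** -/
theorem result_of_inputs
    (hK : ∀ (N : ℕ) [NeZero N] (p : ℕ) [Fact p.Prime],
      Fermat.Agent.S30.H330.KummerStatement N p)
    (hT : ∀ (N : ℕ) [NeZero N] (p : ℕ) [Fact p.Prime],
      Fermat.Agent.S30.H330.TorsionRelations N p)
    (hP : ∀ (p : ℕ) [Fact p.Prime] (N : ℕ) [NeZero N] (S : Finset ℕ)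
      (_hpS : p ∈ S) (_hNS : ∀ q : ℕ, q.Prime → q ∣ N → q ∈ S)
      (𝒪' : Type) [CommRing 𝒪'] [IsDomain 𝒪'] [IsDiscreteValuationRing 𝒪']
      [IsAdicComplete (IsLocalRing.maximalIdeal 𝒪') 𝒪'] [Finite (IsLocalRing.ResidueField 𝒪')]
      [CharZero 𝒪'] (_hp𝒪' : (p : 𝒪') ∈ IsLocalRing.maximalIdeal 𝒪')
      (χ : CuspForm.heckeAlgebra N 2 (↑S : Set ℕ) →+* 𝒪'),
      Fermat.Agent.S30.H330.ParEigenStatement N S 𝒪' χ) :
    ∀ (p : ℕ) [Fact p.Prime] (N : ℕ) [NeZero N] (S : Finset ℕ)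
      (_hpS : p ∈ S) (_hNS : ∀ q : ℕ, q.Prime → q ∣ N → q ∈ S)
      (𝒪' : Type) [CommRing 𝒪'] [IsDomain 𝒪'] [IsDiscreteValuationRing 𝒪']
      [IsAdicComplete (IsLocalRing.maximalIdeal 𝒪') 𝒪'] [Finite (IsLocalRing.ResidueField 𝒪')]
      [CharZero 𝒪'] (_hp𝒪' : (p : 𝒪') ∈ IsLocalRing.maximalIdeal 𝒪')
      (χ : CuspForm.heckeAlgebra N 2 (↑S : Set ℕ) →+* 𝒪'),
      ∃ (𝒪'' : Type) (_ : CommRing 𝒪'') (_ : IsDomain 𝒪'') (_ : IsDiscreteValuationRing 𝒪'')
        (_ : IsAdicComplete (IsLocalRing.maximalIdeal 𝒪'') 𝒪'')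
        (_ : Finite (IsLocalRing.ResidueField 𝒪'')) (_ : CharZero 𝒪'')
        (_ : Algebra 𝒪' 𝒪'') (_ : Module.Finite 𝒪' 𝒪'') (_ : IsLocalHom (algebraMap 𝒪' 𝒪'')),
      Function.Injective (algebraMap 𝒪' 𝒪'') ∧
      ∃ ρ : GaloisRepAdic 𝒪'',
        (∀ (ℓ : ℕ) (hℓ : ℓ.Prime) (hℓN : ¬ ℓ ∣ N) (hℓS : ℓ ∉ (↑S : Set ℕ)),
          ∀ A : ValuationSubring (AlgebraicClosure ℚ), A.LiesOverPrime ℓ →
            ∀ σ : AlgebraicClosure ℚ ≃ₐ[ℚ] AlgebraicClosure ℚ, A.IsFrobeniusAt σ ℓ →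
              LinearMap.charpoly (ρ.ρ σ) =
                X ^ 2 - C (algebraMap 𝒪' 𝒪'' (χ (CuspForm.heckeAlgebra.T hℓ hℓN hℓS))) * X
                  + C ((ℓ : 𝒪''))) ∧
        (∀ q : ℕ, q.Prime → ¬ q ∣ N → q ≠ p → ρ.IsUnramifiedAt q) :=
  result_of_hasAdicEigenModules (hasAdicEigenModules_of_H330
    (fun p _ N _ S hpS hNS 𝒪' _ _ _ _ _ _ hp𝒪' χ =>
      Fermat.Agent.S30.H330.hasAdicFrobModule_of_inputs hpS hNS hp𝒪' χ (hK N p)
        (hP p N S hpS hNS 𝒪' hp𝒪' χ) (hT N p) (smoothStatement N) (galoisHeckeStatement N)))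

end Fermat.Agent.S30.H990

end
-- ===== PACK-END S30/H990/FromInputs.lean

-- ===== PACK-BEGIN S18/H558/BranchT3.lean
section


/-!
# S18 / MOD M2 (part 3): ramification of `F_M / ℚ̄(t)` for the Hauptmodul `t = t₃` of `X₀(3)`

Hypothesis (proved elsewhere, piece c3-i): `t ∈ FF M` with `j * t ^ 3 = (t + 27) * (t + 243) ^ 3`.
Then `F_M / ℚ̄(t)` is unramified outside `t ∈ {0, -27, ∞}`:

* `ord_t3_sub_eq_one` : `c ≠ 0`, `c ≠ -27`, `0 < v.ord (t - c)` ⟹ `v.ord (t - c) = 1`;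
* `ord_t3_add_27_dvd_three` : `0 < v.ord (t + 27)` ⟹ `v.ord (t + 27) ∣ 3`;
* `ord_t3_inv_sub_eq_one` : the same in the coordinate `1/t` (chart at infinity).
-/

set_option autoImplicit false

noncomputable section

open AlgebraicCurve ModularCurve

namespace Fermat.Agent.S18.H558

open Fermat.Agent.S24

section T3

variable (M : ℕ) [NeZero M] (t : FF M) (hid : jF M * t ^ 3 = (t + 27) * (t + 243) ^ 3)

include hid

theorem t3_ne_zero : t ≠ 0 := by
  rintro rfl
  norm_num at hid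

/-- Places over `t = -27`: ramification index `1` or `3`. -/
theorem ord_t3_add_27_dvd_three (v : Place Kbar (FF M))
    (hv : 0 < v.ord (t - algebraMap Kbar (FF M) (-27))) :
    v.ord (t - algebraMap Kbar (FF M) (-27)) ∣ 3 := by
  set T := t - algebraMap Kbar (FF M) (-27) with hT
  have ht0 : t ≠ 0 := t3_ne_zero M t hid
  have hT0 : T ≠ 0 := H117.ne_zero_of_ord_ne_zero v hv.ne'
  have htv : v.ord t = 0 := ord_eq_zero_of_ord_sub_pos v (by norm_num) hv
  have ht3 : v.ord (t ^ 3) = 0 := by rw [H117.ord_pow, htv]; simp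
  have e1 : algebraMap Kbar (FF M) (-27) = -27 := by rw [map_neg, map_ofNat]
  have e3 : algebraMap Kbar (FF M) 216 = 216 := map_ofNat _ _
  have key : jF M * t ^ 3 = T ^ 1 * (algebraMap Kbar (FF M) 216 + T * 1) ^ 3 := by
    rw [hT, e1, e3]; linear_combination hid
  have hU0 := const_add_mul_ne_zero v (g := (216 : Kbar)) (by norm_num) hv (one_mem _)
  have hU := ord_const_add_mul v (g := (216 : Kbar)) (by norm_num) hv (one_mem _)
  obtain ⟨hJ0, hJ⟩ := ord_eq_of_key v 1 key (pow_ne_zero 3 ht0) ht3 (pow_ne_zero 3 hU0)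
    (by rw [H117.ord_pow, hU]; simp) hT0
  have hJ' : v.ord (jF M) = v.ord T := by simpa using hJ
  have hpos : 0 < v.ord (jF M) := by rw [hJ']; exact hv
  have := ord_j_dvd_three M v hpos
  rwa [hJ'] at this

/-- **`F_M / ℚ̄(t₃)` is unramified outside `t₃ ∈ {0, -27, ∞}`.** -/
theorem ord_t3_sub_eq_one (c : Kbar) (hc0 : c ≠ 0) (hc27 : c ≠ -27) (v : Place Kbar (FF M))
    (hv : 0 < v.ord (t - algebraMap Kbar (FF M) c)) :
    v.ord (t - algebraMap Kbar (FF M) c) = 1 := by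
  set C : FF M := algebraMap Kbar (FF M) c with hC
  set T := t - C with hT
  have ht0 : t ≠ 0 := t3_ne_zero M t hid
  have hT0 : T ≠ 0 := H117.ne_zero_of_ord_ne_zero v hv.ne'
  have htv : v.ord t = 0 := ord_eq_zero_of_ord_sub_pos v hc0 hv
  have htmem : t ∈ v.toValuationSubring := mem_of_ord_sub_pos v hv
  have hCmem : C ∈ v.toValuationSubring := v.algebraMap_mem' c
  have hC0 : C ≠ 0 := (map_ne_zero _).2 hc0
  have hCv : v.ord C = 0 := H117.ord_algebraMap v c
  have ht3 : v.ord (t ^ 3) = 0 := by rw [H117.ord_pow, htv]; simp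
  by_cases h243 : c = -243
  · -- `j t³ = (t + 243)³ (t + 27)`
    have hCe : C = -243 := by rw [hC, h243, map_neg, map_ofNat]
    have e3 : algebraMap Kbar (FF M) (-216) = -216 := by rw [map_neg, map_ofNat]
    have key : jF M * t ^ 3 = T ^ 3 * (algebraMap Kbar (FF M) (-216) + T * 1) := by
      rw [hT, hCe, e3]; linear_combination hid
    obtain ⟨hJ0, hJ⟩ := ord_eq_of_key v 3 key (pow_ne_zero 3 ht0) ht3
      (const_add_mul_ne_zero v (by norm_num) hv (one_mem _))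
      (ord_const_add_mul v (by norm_num) hv (one_mem _)) hT0
    have hpos : 0 < v.ord (jF M) := by rw [hJ]; positivity
    have h3 := ord_j_dvd_three M v hpos
    rw [hJ] at h3
    exact eq_one_of_mul_dvd (k := 3) (by norm_num) hv (by exact_mod_cast h3)
  by_cases hquad : c ^ 2 - 486 * c - 19683 = 0
  · -- `(j - 1728) t³ = (t² - 486 t - 19683)² = (t - c)² (t - c')²`
    have e2 : algebraMap Kbar (FF M) 1728 = 1728 := map_ofNat _ _
    have hg : (2 * c - 486 : Kbar) ≠ 0 := by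
      intro h
      have hc : c = 243 := by linear_combination h / 2
      rw [hc] at hquad
      norm_num at hquad
    have hG : algebraMap Kbar (FF M) (2 * c - 486) = 2 * C - 486 := by
      simp [map_sub, map_mul, map_ofNat, hC]
    have hquad' : C ^ 2 - 486 * C - 19683 = 0 := by
      have := congrArg (algebraMap Kbar (FF M)) hquad
      simpa [map_sub, map_mul, map_pow, map_ofNat, hC] using this
    have key : (jF M - algebraMap Kbar (FF M) 1728) * t ^ 3
        = T ^ 2 * (algebraMap Kbar (FF M) (2 * c - 486) + T * 1) ^ 2 := by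
      rw [hG, hT, e2]
      linear_combination hid + (2 * t ^ 2 - 972 * t - 39366 - (C ^ 2 - 486 * C - 19683)) * hquad'
    have hU0 := const_add_mul_ne_zero v hg hv (one_mem _)
    have hU := ord_const_add_mul v hg hv (one_mem _)
    obtain ⟨hJ0, hJ⟩ := ord_eq_of_key v 2 key (pow_ne_zero 3 ht0) ht3 (pow_ne_zero 2 hU0)
      (by rw [H117.ord_pow, hU]; simp) hT0
    have hpos : 0 < v.ord (jF M - algebraMap Kbar (FF M) 1728) := by rw [hJ]; positivity
    have h2 := ord_j_sub_1728_dvd_two M v hpos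
    rw [hJ] at h2
    exact eq_one_of_mul_dvd (k := 2) (by norm_num) hv (by exact_mod_cast h2)
  · -- generic case
    set a : Kbar := (c + 27) * (c + 243) ^ 3 / c ^ 3 with ha
    have hc3 : c ^ 3 ≠ 0 := pow_ne_zero 3 hc0
    have h27' : c + 27 ≠ 0 := fun h => hc27 (eq_neg_of_add_eq_zero_left h)
    have h243' : c + 243 ≠ 0 := fun h => h243 (eq_neg_of_add_eq_zero_left h)
    have hac : a * c ^ 3 = (c + 27) * (c + 243) ^ 3 := by rw [ha]; field_simp
    have ha0 : a ≠ 0 := by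
      rw [ha]
      exact div_ne_zero (mul_ne_zero h27' (pow_ne_zero 3 h243')) hc3
    have ha1728 : a ≠ 1728 := by
      intro h
      rw [h] at hac
      have : (c ^ 2 - 486 * c - 19683) ^ 2 = 0 := by linear_combination -hac
      exact hquad (pow_eq_zero_iff (by norm_num) |>.mp this)
    set q : Kbar := c ^ 2 * (c + 243) ^ 2 * (c ^ 2 - 486 * c - 19683) with hq
    have hq0 : q ≠ 0 := by
      rw [hq]
      exact mul_ne_zero (mul_ne_zero (pow_ne_zero 2 hc0) (pow_ne_zero 2 h243')) hquad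
    have hA : algebraMap Kbar (FF M) a * C ^ 3 = (C + 27) * (C + 243) ^ 3 := by
      have := congrArg (algebraMap Kbar (FF M)) hac
      simpa [map_mul, map_pow, map_add, map_ofNat] using this
    have hQ : algebraMap Kbar (FF M) q = C ^ 2 * (C + 243) ^ 2 * (C ^ 2 - 486 * C - 19683) := by
      rw [hq]; simp [map_mul, map_pow, map_add, map_sub, map_ofNat, hC]
    set W : FF M := t ^ 2 * C ^ 3 + t * C ^ 4 - 196830 * (t * C ^ 2) - 19131876 * (t * C)
      - 387420489 * t + C ^ 5 - 196830 * C ^ 3 - 38263752 * C ^ 2 - 774840978 * C with hW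
    have hnum : ∀ n : ℕ, (n : FF M) ∈ v.toValuationSubring := fun n => natCast_mem _ n
    have hWmem : W ∈ v.toValuationSubring := by
      have h1 : (196830 : FF M) ∈ v.toValuationSubring := by exact_mod_cast hnum 196830
      have h2 : (19131876 : FF M) ∈ v.toValuationSubring := by exact_mod_cast hnum 19131876
      have h3 : (387420489 : FF M) ∈ v.toValuationSubring := by exact_mod_cast hnum 387420489
      have h4 : (38263752 : FF M) ∈ v.toValuationSubring := by exact_mod_cast hnum 38263752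
      have h5 : (774840978 : FF M) ∈ v.toValuationSubring := by exact_mod_cast hnum 774840978
      refine sub_mem (sub_mem (sub_mem (add_mem (sub_mem (sub_mem (sub_mem (add_mem ?_ ?_) ?_) ?_)
        ?_) ?_) ?_) ?_) ?_
      · exact mul_mem (pow_mem htmem 2) (pow_mem hCmem 3)
      · exact mul_mem htmem (pow_mem hCmem 4)
      · exact mul_mem h1 (mul_mem htmem (pow_mem hCmem 2))
      · exact mul_mem h2 (mul_mem htmem hCmem)
      · exact mul_mem h3 htmem
      · exact pow_mem hCmem 5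
      · exact mul_mem h1 (pow_mem hCmem 3)
      · exact mul_mem h4 (pow_mem hCmem 2)
      · exact mul_mem h5 hCmem
    have key : (jF M - algebraMap Kbar (FF M) a) * (t ^ 3 * C ^ 3)
        = T ^ 1 * (algebraMap Kbar (FF M) q + T * W) := by
      rw [hQ, hW, hT]
      linear_combination C ^ 3 * hid - t ^ 3 * hA
    have hD0 : t ^ 3 * C ^ 3 ≠ 0 := mul_ne_zero (pow_ne_zero 3 ht0) (pow_ne_zero 3 hC0)
    have hD : v.ord (t ^ 3 * C ^ 3) = 0 := by
      rw [v.ord_mul (pow_ne_zero 3 ht0) (pow_ne_zero 3 hC0), ht3, H117.ord_pow, hCv]; simp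
    obtain ⟨hJ0, hJ⟩ := ord_eq_of_key v 1 key hD0 hD
      (const_add_mul_ne_zero v hq0 hv hWmem) (ord_const_add_mul v hq0 hv hWmem) hT0
    have hJ' : v.ord (jF M - algebraMap Kbar (FF M) a) = v.ord T := by simpa using hJ
    have hpos : 0 < v.ord (jF M - algebraMap Kbar (FF M) a) := by rw [hJ']; exact hv
    rw [← hJ']
    exact ord_j_sub_eq_one M a ha0 ha1728 v hpos

/-- The same statement in the coordinate `s = 1/t` (chart at infinity): unramified outside
`s ∈ {0, -1/27}`. -/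
theorem ord_t3_inv_sub_eq_one (s : Kbar) (hs0 : s ≠ 0) (hs27 : s ≠ -(1 / 27))
    (v : Place Kbar (FF M)) (hv : 0 < v.ord (t⁻¹ - algebraMap Kbar (FF M) s)) :
    v.ord (t⁻¹ - algebraMap Kbar (FF M) s) = 1 := by
  have ht0 : t ≠ 0 := t3_ne_zero M t hid
  have hti : v.ord t⁻¹ = 0 := ord_eq_zero_of_ord_sub_pos v hs0 hv
  have htv : v.ord t = 0 := by rw [v.ord_inv] at hti; omega
  set S : FF M := algebraMap Kbar (FF M) s with hS
  have hS0 : S ≠ 0 := (map_ne_zero _).2 hs0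
  have hSv : v.ord S = 0 := H117.ord_algebraMap v s
  have hrel : t⁻¹ - S = (-(S * t⁻¹)) * (t - algebraMap Kbar (FF M) s⁻¹) := by
    rw [map_inv₀, ← hS]
    have h1 : S * S⁻¹ = 1 := mul_inv_cancel₀ hS0
    have h2 : t * t⁻¹ = 1 := mul_inv_cancel₀ ht0
    linear_combination (-t⁻¹) * h1 + S * h2
  have hne1 : -(S * t⁻¹) ≠ 0 := neg_ne_zero.mpr (mul_ne_zero hS0 (inv_ne_zero ht0))
  have hord1 : v.ord (-(S * t⁻¹)) = 0 := by
    rw [H117.ord_neg, v.ord_mul hS0 (inv_ne_zero ht0), hSv, hti]; rfl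
  have hne2 : t - algebraMap Kbar (FF M) s⁻¹ ≠ 0 := by
    intro h
    rw [h, mul_zero] at hrel
    rw [hrel, v.ord_zero] at hv
    exact lt_irrefl _ hv
  have hord : v.ord (t⁻¹ - S) = v.ord (t - algebraMap Kbar (FF M) s⁻¹) := by
    rw [hrel, v.ord_mul hne1 hne2, hord1, zero_add]
  rw [hord] at hv ⊢
  refine ord_t3_sub_eq_one M t hid s⁻¹ (inv_ne_zero hs0) ?_ v hv
  intro h
  apply hs27
  have : s = (s⁻¹)⁻¹ := (inv_inv s).symm
  rw [this, h]
  norm_num

end T3

end Fermat.Agent.S18.H558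

end
end
-- ===== PACK-END S18/H558/BranchT3.lean

-- ===== PACK-BEGIN S18/H558/PartBr.lean
section






/-!
# S18 / MOD / G-BR (helper558): the branch-value fields of `Alg.GoodModel` at the concrete objects

Target: the four fields `S_mem`, `S_distinct`, `S_unit`, `unramified` of `Alg.GoodModel`
(= the structure `PartBr (Lc M) (Rc M A E) x S` of MOD-ASM helper216) for

* `x = jOm M`, `S = {0, 1728}`, `ℓ ≥ 5`                       (`brJ_*`),
* `x` with `jOm M * x ^ 2 = (x + 256) ^ 3`, `S = {0, -64}`, `ℓ = 3`   (`brT2_*`),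
* `x` with `jOm M * x ^ 3 = (x + 27) * (x + 243) ^ 3`, `S = {0, -27}`, `ℓ = 2` (`brT3_*`),

for EVERY intermediate field `E` of `Q̄/ℚ` (no finiteness needed) and every valuation subring `A`
of `Q̄` lying over `ℓ`.  The bundled forms `brJ`, `brT2`, `brT3` are conjunctions of the four
fields in the order of the structure, so `PartBr` is `⟨h.1, h.2.1, h.2.2.1, h.2.2.2⟩`.

Inputs: M2 (`H558/Branch*.lean`, Place language) and `H804.exists_place_of_valuationSubring_modular`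
(every proper valuation subring of `F_M` containing `Q̄` is a `Place`).
-/

set_option autoImplicit false

noncomputable section

namespace Fermat.Agent.S18.H558

open AlgebraicCurve ModularCurve Fermat.Agent.S24 Fermat.Agent.S18 Fermat.Agent.S18.Mod

variable (M : ℕ) [NeZero M]

/-- The frozen coordinate `jOm M` is the `j`-function `jF M` of the S24 library. -/
theorem jOm_eq_jF : jOm M = jF M := by
  apply Subtype.ext
  show coeffEmb Qb (qExpand ℚ 1 jq) = coeffEmb Kbar jq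
  rw [qExpand_one_apply]

/-! ### Integers in `Rc` -/

section Consts

variable (A : ValuationSubring Qb) (E : IntermediateField ℚ Qb)

theorem algebraMap_mem_Rc {a : Qb} (hA : a ∈ A) (hE : a ∈ E) :
    algebraMap Qb (Om M) a ∈ Rc M A E :=
  Subring.mem_map.2 ⟨a, ⟨hA, hE⟩, rfl⟩

theorem intCast_mem_Rc (n : ℤ) : ((n : ℤ) : Om M) ∈ Rc M A E := by
  have h : ((n : ℤ) : Om M) = algebraMap Qb (Om M) (n : Qb) := (map_intCast _ n).symm
  rw [h]
  exact algebraMap_mem_Rc M A E (intCast_mem A n) (intCast_mem E n)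

theorem inv_intCast_mem_Rc (n : ℤ) (hn : ((n : ℤ) : Qb)⁻¹ ∈ A) :
    (((n : ℤ) : Om M))⁻¹ ∈ Rc M A E := by
  have h : (((n : ℤ) : Om M))⁻¹ = algebraMap Qb (Om M) ((n : Qb)⁻¹) := by
    rw [map_inv₀, map_intCast]
  rw [h]
  exact algebraMap_mem_Rc M A E hn (inv_mem (intCast_mem E n))

/-- An integer prime to the residue characteristic is a unit of `A`. -/
theorem inv_intCast_mem_of_coprime {ℓ : ℕ} (hA : A.LiesOverPrime ℓ) (n : ℤ)
    (hn : IsCoprime n (ℓ : ℤ)) : ((n : ℤ) : Qb)⁻¹ ∈ A := by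
  obtain ⟨a, b, hab⟩ := hn
  have hℓ : A.valuation (ℓ : Qb) < 1 := (A.mem_nonunits_iff).1 hA
  have hb : A.valuation (b : Qb) ≤ 1 := (A.valuation_le_one_iff _).2 (intCast_mem A b)
  have ha : A.valuation (a : Qb) ≤ 1 := (A.valuation_le_one_iff _).2 (intCast_mem A a)
  have hnv : A.valuation (n : Qb) ≤ 1 := (A.valuation_le_one_iff _).2 (intCast_mem A n)
  have hbℓ : A.valuation ((b : Qb) * (ℓ : Qb)) < 1 := by
    rw [map_mul]
    calc A.valuation (b : Qb) * A.valuation (ℓ : Qb) ≤ 1 * A.valuation (ℓ : Qb) :=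
          mul_le_mul' hb le_rfl
      _ = A.valuation (ℓ : Qb) := one_mul _
      _ < 1 := hℓ
  have hone : (a : Qb) * (n : Qb) = 1 - (b : Qb) * (ℓ : Qb) := by
    have h := congrArg (Int.cast : ℤ → Qb) hab
    push_cast at h
    linear_combination h
  have h1 : A.valuation (1 - (b : Qb) * (ℓ : Qb)) = 1 := Valuation.map_one_sub_of_lt _ hbℓ
  have h2 : A.valuation (a : Qb) * A.valuation (n : Qb) = 1 := by
    rw [← map_mul, hone, h1]
  have h3 : A.valuation (n : Qb) = 1 := by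
    apply le_antisymm hnv
    calc (1 : _) = A.valuation (a : Qb) * A.valuation (n : Qb) := h2.symm
      _ ≤ 1 * A.valuation (n : Qb) := mul_le_mul' ha le_rfl
      _ = A.valuation (n : Qb) := one_mul _
  rw [← A.valuation_le_one_iff, map_inv₀, h3, inv_one]

end Consts

/-! ### From the Place statement to the valuation-subring statement -/

/-- If `x - c` has order `1` at every place where it vanishes (for the constants `c ∉ S`), then
`x` satisfies the field `unramified` of `Alg.GoodModel`. -/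
theorem unramified_of_ord (x : Om M) (S : Finset (Om M))
    (h : ∀ c : Qb, algebraMap Qb (Om M) c ∉ S → ∀ v : Place Qb (Om M),
      0 < v.ord (x - algebraMap Qb (Om M) c) → v.ord (x - algebraMap Qb (Om M) c) = 1) :
    ∀ O : ValuationSubring (Om M), (∀ a ∈ Lc M, a ∈ O) → ∀ c ∈ Lc M, c ∉ S →
      x - c ∈ O → (x - c)⁻¹ ∉ O → ∀ t ∈ O, t⁻¹ ∉ O → t * (x - c)⁻¹ ∈ O := by
  intro O hL c hc hcS hxO hxinv t ht htinv
  obtain ⟨c₀, rfl⟩ := hc
  have hK : ∀ a : Qb, algebraMap Qb (Om M) a ∈ O := fun a => hL _ ⟨a, rfl⟩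
  have hO : O ≠ ⊤ := by
    intro htop
    exact hxinv (htop ▸ ValuationSubring.mem_top _)
  obtain ⟨v, rfl⟩ := H804.exists_place_of_valuationSubring_modular M O hK hO
  have hx0 : x - algebraMap Qb (Om M) c₀ ≠ 0 := by
    intro h0
    rw [h0, inv_zero] at hxinv
    exact hxinv (zero_mem _)
  have ht0 : t ≠ 0 := by
    intro h0
    rw [h0, inv_zero] at htinv
    exact htinv (zero_mem _)
  have h1 : 0 ≤ v.ord (x - algebraMap Qb (Om M) c₀) := H117.ord_nonneg_of_mem v hxO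
  have h2 : ¬ 0 ≤ v.ord (x - algebraMap Qb (Om M) c₀)⁻¹ := fun hh =>
    hxinv (H117.mem_of_ord_nonneg v hh)
  rw [v.ord_inv] at h2
  have h3 : 0 ≤ v.ord t := H117.ord_nonneg_of_mem v ht
  have h4 : ¬ 0 ≤ v.ord t⁻¹ := fun hh => htinv (H117.mem_of_ord_nonneg v hh)
  rw [v.ord_inv] at h4
  have h5 := h c₀ hcS v (by omega)
  apply H117.mem_of_ord_nonneg v
  rw [v.ord_mul ht0 (inv_ne_zero hx0), v.ord_inv, h5]
  omega

/-! ### The coordinate `j`, `ℓ ≥ 5` -/

section J

variable (A : ValuationSubring Qb) (E : IntermediateField ℚ Qb) {ℓ : ℕ}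

theorem inv_1728_mem (hℓ : ℓ.Prime) (h5 : 5 ≤ ℓ) (hA : A.LiesOverPrime ℓ) :
    ((1728 : ℤ) : Qb)⁻¹ ∈ A := by
  apply inv_intCast_mem_of_coprime A hA
  have hcop : Nat.Coprime 1728 ℓ := by
    rw [Nat.coprime_comm, Nat.Prime.coprime_iff_not_dvd hℓ]
    intro hdvd
    have h1728 : (1728 : ℕ) = 2 ^ 6 * 3 ^ 3 := by norm_num
    rw [h1728] at hdvd
    rcases (Nat.Prime.dvd_mul hℓ).1 hdvd with h | h
    · have := Nat.le_of_dvd (by norm_num) (hℓ.dvd_of_dvd_pow h)
      omega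
    · have := Nat.le_of_dvd (by norm_num) (hℓ.dvd_of_dvd_pow h)
      omega
  exact_mod_cast (Nat.isCoprime_iff_coprime.2 hcop)

theorem brJ_unramified (S : Finset (Om M)) (hS : ∀ s, s ∈ S ↔ s = 0 ∨ s = 1728) :
    ∀ O : ValuationSubring (Om M), (∀ a ∈ Lc M, a ∈ O) → ∀ c ∈ Lc M, c ∉ S →
      jOm M - c ∈ O → (jOm M - c)⁻¹ ∉ O → ∀ t ∈ O, t⁻¹ ∉ O → t * (jOm M - c)⁻¹ ∈ O := by
  apply unramified_of_ord
  intro c hcS v hv
  rw [jOm_eq_jF] at hv ⊢
  have h0 : c ≠ 0 := by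
    rintro rfl
    exact hcS ((hS _).2 (Or.inl (map_zero _)))
  have h1 : c ≠ 1728 := by
    rintro rfl
    exact hcS ((hS _).2 (Or.inr (map_ofNat _ 1728)))
  exact ord_j_sub_eq_one M c h0 h1 v hv

/-- **G-BR for `x = j`, `ℓ ≥ 5`**: the four fields `S_mem`, `S_distinct`, `S_unit`, `unramified`. -/
theorem brJ (hℓ : ℓ.Prime) (h5 : 5 ≤ ℓ) (hA : A.LiesOverPrime ℓ) (S : Finset (Om M))
    (hS : ∀ s, s ∈ S ↔ s = 0 ∨ s = 1728) :
    (∀ s ∈ S, s ∈ Rc M A E) ∧
    (∀ s ∈ S, ∀ t ∈ S, s ≠ t → (s - t)⁻¹ ∈ Rc M A E) ∧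
    (∀ s ∈ S, s ≠ 0 → s⁻¹ ∈ Rc M A E) ∧
    (∀ O : ValuationSubring (Om M), (∀ a ∈ Lc M, a ∈ O) → ∀ c ∈ Lc M, c ∉ S →
      jOm M - c ∈ O → (jOm M - c)⁻¹ ∉ O → ∀ t ∈ O, t⁻¹ ∉ O → t * (jOm M - c)⁻¹ ∈ O) := by
  have hu : ((1728 : ℤ) : Om M)⁻¹ ∈ Rc M A E :=
    inv_intCast_mem_Rc M A E 1728 (inv_1728_mem A hℓ h5 hA)
  have hcast : ((1728 : ℤ) : Om M) = 1728 := by norm_num
  rw [hcast] at hu
  refine ⟨?_, ?_, ?_, brJ_unramified M S hS⟩
  · intro s hs
    rcases (hS s).1 hs with rfl | rfl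
    · exact zero_mem _
    · have := intCast_mem_Rc M A E 1728
      rwa [hcast] at this
  · intro s hs t ht hst
    rcases (hS s).1 hs with rfl | rfl <;> rcases (hS t).1 ht with rfl | rfl
    · exact absurd rfl hst
    · rw [zero_sub, inv_neg]
      exact neg_mem hu
    · rwa [sub_zero]
    · exact absurd rfl hst
  · intro s hs hs0
    rcases (hS s).1 hs with rfl | rfl
    · exact absurd rfl hs0
    · exact hu

end J

/-! ### The Hauptmodul `t₂`, `ℓ = 3` -/

section T2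

variable (A : ValuationSubring Qb) (E : IntermediateField ℚ Qb)

theorem inv_64_mem (hA : A.LiesOverPrime 3) : ((64 : ℤ) : Qb)⁻¹ ∈ A := by
  apply inv_intCast_mem_of_coprime A hA
  have hcop : Nat.Coprime 64 3 := by norm_num
  exact_mod_cast (Nat.isCoprime_iff_coprime.2 hcop)

theorem brT2_unramified (x : Om M) (hx : jOm M * x ^ 2 = (x + 256) ^ 3) (S : Finset (Om M))
    (hS : ∀ s, s ∈ S ↔ s = 0 ∨ s = -64) :
    ∀ O : ValuationSubring (Om M), (∀ a ∈ Lc M, a ∈ O) → ∀ c ∈ Lc M, c ∉ S →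
      x - c ∈ O → (x - c)⁻¹ ∉ O → ∀ t ∈ O, t⁻¹ ∉ O → t * (x - c)⁻¹ ∈ O := by
  apply unramified_of_ord
  intro c hcS v hv
  rw [jOm_eq_jF] at hx
  have h0 : c ≠ 0 := by
    rintro rfl
    exact hcS ((hS _).2 (Or.inl (map_zero _)))
  have h1 : c ≠ -64 := by
    rintro rfl
    exact hcS ((hS _).2 (Or.inr (by rw [map_neg, map_ofNat])))
  exact ord_t2_sub_eq_one M x hx c h0 h1 v hv

/-- **G-BR for `x = t₂`, `ℓ = 3`**. -/
theorem brT2 (hA : A.LiesOverPrime 3) (x : Om M) (hx : jOm M * x ^ 2 = (x + 256) ^ 3)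
    (S : Finset (Om M)) (hS : ∀ s, s ∈ S ↔ s = 0 ∨ s = -64) :
    (∀ s ∈ S, s ∈ Rc M A E) ∧
    (∀ s ∈ S, ∀ t ∈ S, s ≠ t → (s - t)⁻¹ ∈ Rc M A E) ∧
    (∀ s ∈ S, s ≠ 0 → s⁻¹ ∈ Rc M A E) ∧
    (∀ O : ValuationSubring (Om M), (∀ a ∈ Lc M, a ∈ O) → ∀ c ∈ Lc M, c ∉ S →
      x - c ∈ O → (x - c)⁻¹ ∉ O → ∀ t ∈ O, t⁻¹ ∉ O → t * (x - c)⁻¹ ∈ O) := by
  have hu : ((64 : ℤ) : Om M)⁻¹ ∈ Rc M A E :=
    inv_intCast_mem_Rc M A E 64 (inv_64_mem A hA)
  have hcast : ((64 : ℤ) : Om M) = 64 := by norm_num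
  rw [hcast] at hu
  refine ⟨?_, ?_, ?_, brT2_unramified M x hx S hS⟩
  · intro s hs
    rcases (hS s).1 hs with rfl | rfl
    · exact zero_mem _
    · have := intCast_mem_Rc M A E 64
      rw [hcast] at this
      exact neg_mem this
  · intro s hs t ht hst
    rcases (hS s).1 hs with rfl | rfl <;> rcases (hS t).1 ht with rfl | rfl
    · exact absurd rfl hst
    · rwa [zero_sub, neg_neg]
    · rw [sub_zero, inv_neg]
      exact neg_mem hu
    · exact absurd rfl hst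
  · intro s hs hs0
    rcases (hS s).1 hs with rfl | rfl
    · exact absurd rfl hs0
    · rw [inv_neg]
      exact neg_mem hu

end T2

/-! ### The Hauptmodul `t₃`, `ℓ = 2` -/

section T3

variable (A : ValuationSubring Qb) (E : IntermediateField ℚ Qb)

theorem inv_27_mem (hA : A.LiesOverPrime 2) : ((27 : ℤ) : Qb)⁻¹ ∈ A := by
  apply inv_intCast_mem_of_coprime A hA
  have hcop : Nat.Coprime 27 2 := by norm_num
  exact_mod_cast (Nat.isCoprime_iff_coprime.2 hcop)

theorem brT3_unramified (x : Om M) (hx : jOm M * x ^ 3 = (x + 27) * (x + 243) ^ 3)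
    (S : Finset (Om M)) (hS : ∀ s, s ∈ S ↔ s = 0 ∨ s = -27) :
    ∀ O : ValuationSubring (Om M), (∀ a ∈ Lc M, a ∈ O) → ∀ c ∈ Lc M, c ∉ S →
      x - c ∈ O → (x - c)⁻¹ ∉ O → ∀ t ∈ O, t⁻¹ ∉ O → t * (x - c)⁻¹ ∈ O := by
  apply unramified_of_ord
  intro c hcS v hv
  rw [jOm_eq_jF] at hx
  have h0 : c ≠ 0 := by
    rintro rfl
    exact hcS ((hS _).2 (Or.inl (map_zero _)))
  have h1 : c ≠ -27 := by
    rintro rfl
    exact hcS ((hS _).2 (Or.inr (by rw [map_neg, map_ofNat])))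
  exact ord_t3_sub_eq_one M x hx c h0 h1 v hv

/-- **G-BR for `x = t₃`, `ℓ = 2`**. -/
theorem brT3 (hA : A.LiesOverPrime 2) (x : Om M)
    (hx : jOm M * x ^ 3 = (x + 27) * (x + 243) ^ 3)
    (S : Finset (Om M)) (hS : ∀ s, s ∈ S ↔ s = 0 ∨ s = -27) :
    (∀ s ∈ S, s ∈ Rc M A E) ∧
    (∀ s ∈ S, ∀ t ∈ S, s ≠ t → (s - t)⁻¹ ∈ Rc M A E) ∧
    (∀ s ∈ S, s ≠ 0 → s⁻¹ ∈ Rc M A E) ∧
    (∀ O : ValuationSubring (Om M), (∀ a ∈ Lc M, a ∈ O) → ∀ c ∈ Lc M, c ∉ S →
      x - c ∈ O → (x - c)⁻¹ ∉ O → ∀ t ∈ O, t⁻¹ ∉ O → t * (x - c)⁻¹ ∈ O) := by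
  have hu : ((27 : ℤ) : Om M)⁻¹ ∈ Rc M A E :=
    inv_intCast_mem_Rc M A E 27 (inv_27_mem A hA)
  have hcast : ((27 : ℤ) : Om M) = 27 := by norm_num
  rw [hcast] at hu
  refine ⟨?_, ?_, ?_, brT3_unramified M x hx S hS⟩
  · intro s hs
    rcases (hS s).1 hs with rfl | rfl
    · exact zero_mem _
    · have := intCast_mem_Rc M A E 27
      rw [hcast] at this
      exact neg_mem this
  · intro s hs t ht hst
    rcases (hS s).1 hs with rfl | rfl <;> rcases (hS t).1 ht with rfl | rfl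
    · exact absurd rfl hst
    · rwa [zero_sub, neg_neg]
    · rw [sub_zero, inv_neg]
      exact neg_mem hu
    · exact absurd rfl hst
  · intro s hs hs0
    rcases (hS s).1 hs with rfl | rfl
    · exact absurd rfl hs0
    · rw [inv_neg]
      exact neg_mem hu

end T3

/-- **G-BR, all admissible coordinates at once**: for every coordinate `x` with branch set `S`
in the sense of `Mod.IsCoordinate`, the four branch fields of `Alg.GoodModel` hold at the concrete
objects, for every intermediate field `E`. -/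
theorem br_of_isCoordinate {ℓ : ℕ} [Fact ℓ.Prime] (A : ValuationSubring Qb)
    (hA : A.LiesOverPrime ℓ) (E : IntermediateField ℚ Qb) (x : Om M) (S : Finset (Om M))
    (hx : IsCoordinate M ℓ x S) :
    (∀ s ∈ S, s ∈ Rc M A E) ∧
    (∀ s ∈ S, ∀ t ∈ S, s ≠ t → (s - t)⁻¹ ∈ Rc M A E) ∧
    (∀ s ∈ S, s ≠ 0 → s⁻¹ ∈ Rc M A E) ∧
    (∀ O : ValuationSubring (Om M), (∀ a ∈ Lc M, a ∈ O) → ∀ c ∈ Lc M, c ∉ S →
      x - c ∈ O → (x - c)⁻¹ ∉ O → ∀ t ∈ O, t⁻¹ ∉ O → t * (x - c)⁻¹ ∈ O) := by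
  rcases hx with ⟨h5, rfl, hS⟩ | ⟨⟨h3, hid, hS⟩ | ⟨h2, hid, hS⟩, -⟩
  · exact brJ M A E Fact.out h5 hA S hS
  · subst h3
    exact brT2 M A E hA x hid S hS
  · subst h2
    exact brT3 M A E hA x hid S hS

end Fermat.Agent.S18.H558

end

end
-- ===== PACK-END S18/H558/PartBr.lean

-- ===== PACK-BEGIN S36/H83/BetaVal.lean
section
/-
S36 engine, MOD-3 (helper83): the Gauss valuation `V∞` of level `M q` over the `β`-structure
(`β : F_M → F_{Mq}`, `t ↦ t^q`), in the vocabulary of `A2/Mod/Spec.lean`.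

* `h83_beta_mem_iff`   : `β f ∈ V∞_{Mq} ↔ f ∈ V∞_M`                       (`V∞_{Mq}` lies over `β V∞_M`);
* `h83_beta_indep`     : `∑_{i<q} β(a_i) j^i ∈ w V∞_{Mq}`, `a_i ∈ V∞_M` `⟹` `a_i ∈ w V∞_M`
                         (the residues of `1, j, …, j^{q-1}` are independent over `κ(β V∞_M)`).
-/





set_option autoImplicit false
set_option linter.unusedSectionVars false
set_option linter.style.haveILetI false
set_option synthInstance.maxHeartbeats 400000
set_option maxHeartbeats 1600000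

noncomputable section

namespace Fermat.Agent.S36.H83

open ModularCurve Fermat.Agent.A2 Fermat.Agent.A2.Mod

section BetaVal

variable (P : ValuationSubring _root_.Fermat.Agent.A2.Mod.Qb) (E : IntermediateField ℚ _root_.Fermat.Agent.A2.Mod.Qb) (M q : ℕ) [NeZero M] [NeZero q]

variable {P E M q}

/-- `incl` commutes with `t ↦ t^q`. -/
theorem h83_incl_qExpand (U : LaurentSeries (_root_.Fermat.Agent.A2.Mod.RE P E)) :
    H708.incl (_root_.Fermat.Agent.A2.Mod.RE P E) (qExpand _ q U) = qExpand E q (H708.incl (_root_.Fermat.Agent.A2.Mod.RE P E) U) :=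
  coeffMap_qExpand _ q U

/-- `red` commutes with `t ↦ t^q`. -/
theorem h83_red_qExpand (U : LaurentSeries (_root_.Fermat.Agent.A2.Mod.RE P E)) :
    H708.red (_root_.Fermat.Agent.A2.Mod.RE P E) (qExpand _ q U) = qExpand _ q (H708.red (_root_.Fermat.Agent.A2.Mod.RE P E) U) :=
  coeffMap_qExpand _ q U

theorem h83_red_qExpand_ne_zero {U : LaurentSeries (_root_.Fermat.Agent.A2.Mod.RE P E)} (hU : H708.red (_root_.Fermat.Agent.A2.Mod.RE P E) U ≠ 0) :
    H708.red (_root_.Fermat.Agent.A2.Mod.RE P E) (qExpand _ q U) ≠ 0 := by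
  rw [h83_red_qExpand]
  intro h
  exact hU (qExpand_injective q (by rw [h, map_zero]))

/-- `β` maps `V∞_M` into `V∞_{Mq}`. -/
theorem h83_beta_mem {VM : ValuationSubring (_root_.Fermat.Agent.A2.Mod.FE E M)} {V : ValuationSubring (_root_.Fermat.Agent.A2.Mod.FE E (M * q))}
    (hVM : IsVinf P E M VM) (hV : IsVinf P E (M * q) V) {f : _root_.Fermat.Agent.A2.Mod.FE E M} (hf : f ∈ VM) :
    βE E M q f ∈ V := by
  obtain ⟨U₁, U₂, hU₂, hU₂F, he⟩ := (hVM f).mp hf
  rw [hV]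
  refine ⟨qExpand _ q U₁, qExpand _ q U₂, h83_red_qExpand_ne_zero hU₂, ?_, ?_⟩
  · rw [h83_incl_qExpand]
    have := (βE E M q ⟨H708.incl (_root_.Fermat.Agent.A2.Mod.RE P E) U₂, hU₂F⟩).2
    rwa [coe_heckeBetaBar] at this
  · rw [coe_heckeBetaBar, h83_incl_qExpand, h83_incl_qExpand, ← map_mul, he]

/-- **`V∞_{Mq}` lies over `β(V∞_M)`.** -/
theorem h83_beta_mem_iff (hdvr : IsDiscreteValuationRing (_root_.Fermat.Agent.A2.Mod.RE P E))
    {VM : ValuationSubring (_root_.Fermat.Agent.A2.Mod.FE E M)} {V : ValuationSubring (_root_.Fermat.Agent.A2.Mod.FE E (M * q))}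
    (hVM : IsVinf P E M VM) (hV : IsVinf P E (M * q) V) (f : _root_.Fermat.Agent.A2.Mod.FE E M) :
    βE E M q f ∈ V ↔ f ∈ VM := by
  have := hdvr
  refine ⟨fun h => ?_, fun h => h83_beta_mem hVM hV h⟩
  by_cases hf0 : f = 0
  · rw [hf0]; exact VM.zero_mem
  obtain ⟨c, hc, hu⟩ := H708.exists_const_mul_unit_of_isVinf hVM hf0
  set u : _root_.Fermat.Agent.A2.Mod.FE E M := f * (algebraMap E (_root_.Fermat.Agent.A2.Mod.FE E M) c)⁻¹ with hudef
  have hcF : algebraMap E (_root_.Fermat.Agent.A2.Mod.FE E M) c ≠ 0 := by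
    rw [Ne, map_eq_zero]; exact hc
  have hu1 : u ∈ VM := (VM.valuation_le_one_iff u).mp hu.le
  have hu2 : u⁻¹ ∈ VM := by
    rw [← VM.valuation_le_one_iff, map_inv₀, hu, inv_one]
  have hfu : f = u * algebraMap E (_root_.Fermat.Agent.A2.Mod.FE E M) c := by
    rw [hudef, mul_assoc, inv_mul_cancel₀ hcF, mul_one]
  have hu0 : u ≠ 0 := by
    intro h0
    rw [h0, map_zero] at hu
    exact zero_ne_one hu
  -- `c = β f · β u⁻¹ ∈ V`
  have hβc : algebraMap E (_root_.Fermat.Agent.A2.Mod.FE E (M * q)) c = βE E M q f * βE E M q u⁻¹ := by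
    rw [← map_mul, hfu, mul_comm u, mul_assoc, mul_inv_cancel₀ hu0, mul_one]
    exact ((βE E M q).commutes c).symm
  have hcV : algebraMap E (_root_.Fermat.Agent.A2.Mod.FE E (M * q)) c ∈ V := by
    rw [hβc]
    exact V.mul_mem _ _ h (h83_beta_mem hVM hV hu2)
  have hcR : c ∈ _root_.Fermat.Agent.A2.Mod.RE P E := (H708.algebraMap_mem_iff_of_isVinf hV c).mp hcV
  rw [hfu]
  exact VM.mul_mem _ _ hu1 ((H708.algebraMap_mem_iff_of_isVinf hVM c).mpr hcR)

/-- the integral series of `j`. -/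
abbrev h83_JR (P : ValuationSubring _root_.Fermat.Agent.A2.Mod.Qb) (E : IntermediateField ℚ _root_.Fermat.Agent.A2.Mod.Qb) : LaurentSeries (_root_.Fermat.Agent.A2.Mod.RE P E) :=
  H708.castA (_root_.Fermat.Agent.A2.Mod.RE P E) (H708.jInt 1)

theorem h83_red_JR :
    H708.red (_root_.Fermat.Agent.A2.Mod.RE P E) (h83_JR P E) = jqModC (IsLocalRing.ResidueField (_root_.Fermat.Agent.A2.Mod.RE P E)) := by
  show coeffMap _ (coeffMap _ (jqNModC ℤ 1)) = _
  rw [coeffMap_jqNModC, coeffMap_jqNModC, jqNModC_one]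

/-- a finite family of elements of `V∞` has a common primitive denominator. -/
theorem h83_exists_common_denom {N n : ℕ} {V : ValuationSubring (_root_.Fermat.Agent.A2.Mod.FE E N)}
    (hV : IsVinf P E N V) (a : Fin n → _root_.Fermat.Agent.A2.Mod.FE E N) (ha : ∀ i, a i ∈ V) :
    ∃ (D : LaurentSeries (_root_.Fermat.Agent.A2.Mod.RE P E)) (A : Fin n → LaurentSeries (_root_.Fermat.Agent.A2.Mod.RE P E)),
      H708.red (_root_.Fermat.Agent.A2.Mod.RE P E) D ≠ 0 ∧ H708.incl (_root_.Fermat.Agent.A2.Mod.RE P E) D ∈ _root_.Fermat.Agent.A2.Mod.FE E N ∧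
      ∀ i, (a i : LaurentSeries E) * H708.incl (_root_.Fermat.Agent.A2.Mod.RE P E) D = H708.incl (_root_.Fermat.Agent.A2.Mod.RE P E) (A i) := by
  classical
  have hrep : ∀ i, ∃ U₁ U₂ : LaurentSeries (_root_.Fermat.Agent.A2.Mod.RE P E), H708.red (_root_.Fermat.Agent.A2.Mod.RE P E) U₂ ≠ 0 ∧
      H708.incl (_root_.Fermat.Agent.A2.Mod.RE P E) U₂ ∈ _root_.Fermat.Agent.A2.Mod.FE E N ∧
      (a i : LaurentSeries E) * H708.incl (_root_.Fermat.Agent.A2.Mod.RE P E) U₂ = H708.incl (_root_.Fermat.Agent.A2.Mod.RE P E) U₁ :=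
    fun i => (hV (a i)).mp (ha i)
  choose U₁ U₂ hU₂ hU₂F he using hrep
  refine ⟨∏ i, U₂ i, fun i => U₁ i * ∏ l ∈ Finset.univ.erase i, U₂ l, ?_, ?_, ?_⟩
  · rw [map_prod]
    exact Finset.prod_ne_zero_iff.mpr fun i _ => hU₂ i
  · rw [map_prod]
    exact prod_mem fun i _ => hU₂F i
  · intro i
    rw [← Finset.mul_prod_erase Finset.univ U₂ (Finset.mem_univ i), map_mul, map_mul,
      ← mul_assoc, he i]

/-- **Independence of `1, j, …, j^{q-1}` modulo `w` over `β(V∞_M)`.** -/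
theorem h83_beta_indep (hdvr : IsDiscreteValuationRing (_root_.Fermat.Agent.A2.Mod.RE P E)) {w : _root_.Fermat.Agent.A2.Mod.RE P E}
    (hw : Irreducible w)
    {VM : ValuationSubring (_root_.Fermat.Agent.A2.Mod.FE E M)} {V : ValuationSubring (_root_.Fermat.Agent.A2.Mod.FE E (M * q))}
    (hVM : IsVinf P E M VM) (hV : IsVinf P E (M * q) V)
    (a : Fin q → _root_.Fermat.Agent.A2.Mod.FE E M) (ha : ∀ i, a i ∈ VM)
    (h : InW P E (M * q) V w
      (∑ i : Fin q, βE E M q (a i) * jE E (M * q) 1 (one_dvd _) ^ (i : ℕ))) :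
    ∀ i, InW P E M VM w (a i) := by
  classical
  have := hdvr
  obtain ⟨D, A, hD, hDF, hA⟩ := h83_exists_common_denom hVM a ha
  have hw0 : w ≠ 0 := hw.ne_zero
  have hwm : w ∈ IsLocalRing.maximalIdeal (_root_.Fermat.Agent.A2.Mod.RE P E) :=
    (IsLocalRing.mem_maximalIdeal _).mpr hw.not_isUnit
  -- the element `β D`
  set Dm : _root_.Fermat.Agent.A2.Mod.FE E M := ⟨H708.incl (_root_.Fermat.Agent.A2.Mod.RE P E) D, hDF⟩ with hDm
  have hDmV : Dm ∈ VM := H708.mem_of_isVinf_of_incl hVM D rfl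
  have hβD : βE E M q Dm ∈ V := h83_beta_mem hVM hV hDmV
  set S : _root_.Fermat.Agent.A2.Mod.FE E (M * q) :=
    ∑ i : Fin q, βE E M q (a i) * jE E (M * q) 1 (one_dvd _) ^ (i : ℕ) with hS
  set T : LaurentSeries (_root_.Fermat.Agent.A2.Mod.RE P E) := ∑ i : Fin q, qExpand _ q (A i) * h83_JR P E ^ (i : ℕ)
    with hT
  have hcoe : ((S * βE E M q Dm : _root_.Fermat.Agent.A2.Mod.FE E (M * q)) : LaurentSeries E) = H708.incl (_root_.Fermat.Agent.A2.Mod.RE P E) T := by
    rw [hS, Finset.sum_mul, hT, map_sum]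
    rw [show (((∑ i : Fin q, βE E M q (a i) * jE E (M * q) 1 (one_dvd _) ^ (i : ℕ)
          * βE E M q Dm : _root_.Fermat.Agent.A2.Mod.FE E (M * q))) : LaurentSeries E)
        = ∑ i : Fin q, (((βE E M q (a i) * jE E (M * q) 1 (one_dvd _) ^ (i : ℕ)
          * βE E M q Dm : _root_.Fermat.Agent.A2.Mod.FE E (M * q))) : LaurentSeries E) from
      map_sum (algebraMap (_root_.Fermat.Agent.A2.Mod.FE E (M * q)) (LaurentSeries E)) _ _]
    refine Finset.sum_congr rfl fun i _ => ?_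
    rw [IntermediateField.coe_mul, IntermediateField.coe_mul, IntermediateField.coe_pow,
      coe_heckeBetaBar, coe_heckeBetaBar, H708.coe_jE_eq (P := P) (M * q) 1 (one_dvd _),
      map_mul, map_pow, h83_incl_qExpand, ← hA i, map_mul]
    ring
  have hInW : InW P E (M * q) V w (S * βE E M q Dm) := by
    unfold InW at h ⊢
    rw [mul_right_comm]
    exact V.mul_mem _ _ h hβD
  have hred : H708.red (_root_.Fermat.Agent.A2.Mod.RE P E) T = 0 :=
    H753.red_eq_zero_of_inW hV hw0 hwm hcoe hInW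
  rw [hT, map_sum] at hred
  have hred' : ∑ i : Fin q, qExpand _ q (H708.red (_root_.Fermat.Agent.A2.Mod.RE P E) (A i))
      * jqModC (IsLocalRing.ResidueField (_root_.Fermat.Agent.A2.Mod.RE P E)) ^ (i : ℕ) = 0 := by
    rw [← hred]
    refine Finset.sum_congr rfl fun i _ => ?_
    rw [map_mul, map_pow, h83_red_qExpand, h83_red_JR]
  have hzero := h83_linIndep_fin (IsLocalRing.ResidueField (_root_.Fermat.Agent.A2.Mod.RE P E))
    (fun i => H708.red (_root_.Fermat.Agent.A2.Mod.RE P E) (A i)) hred'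
  intro i
  obtain ⟨U', hU'⟩ := H96.exists_incl_eq_inv_mul (_root_.Fermat.Agent.A2.Mod.RE P E) hw (hzero i)
  unfold InW
  rw [hVM]
  refine ⟨U', D, hD, hDF, ?_⟩
  rw [hU', ← hA i, IntermediateField.coe_mul, IntermediateField.coe_inv, H753.coe_cE]
  have hwE : H708.cst ((w : E))⁻¹ = (H708.cst (w : E))⁻¹ := map_inv₀ _ _
  rw [hwE]
  ring

/-! ### The integral power basis `1, j, …, j^{q-1}` of `V∞_{Mq}` over `β(V∞_M)`, `q ∣ M` -/

theorem h83_coe_jE (N d : ℕ) [NeZero d] (hd : d ∣ N) :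
    ((jE E N d hd : _root_.Fermat.Agent.A2.Mod.FE E N) : LaurentSeries E) = qExpand E d (jqModC E) := by
  show coeffEmb E (qExpand ℚ d jq) = _
  rw [coeffEmb, ← jqModC_rat, coeffMap_qExpand, coeffMap_jqModC]

theorem h83_coe_sum {N n : ℕ} (g : Fin n → _root_.Fermat.Agent.A2.Mod.FE E N) :
    ((∑ i, g i : _root_.Fermat.Agent.A2.Mod.FE E N) : LaurentSeries E) = ∑ i, (g i : LaurentSeries E) :=
  map_sum (algebraMap (_root_.Fermat.Agent.A2.Mod.FE E N) (LaurentSeries E)) g _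

theorem h83_coe_betaSum (a : Fin q → _root_.Fermat.Agent.A2.Mod.FE E M) :
    ((∑ i : Fin q, βE E M q (a i) * jE E (M * q) 1 (one_dvd _) ^ (i : ℕ) : _root_.Fermat.Agent.A2.Mod.FE E (M * q)) :
        LaurentSeries E)
      = ∑ i : Fin q, qExpand E q (a i : LaurentSeries E) * jqModC E ^ (i : ℕ) := by
  rw [h83_coe_sum]
  refine Finset.sum_congr rfl fun i _ => ?_
  rw [IntermediateField.coe_mul, IntermediateField.coe_pow, coe_heckeBetaBar, h83_coe_jE,
    qExpand_one_apply]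

/-- **Spanning**: for `q ∣ M` every element of `F_{Mq}` is `∑_{i<q} β(a_i) j^i`. -/
theorem h83_exists_beta_expansion_FE (hq : q.Prime) (hqM : q ∣ M) (f : _root_.Fermat.Agent.A2.Mod.FE E (M * q)) :
    ∃ a : Fin q → _root_.Fermat.Agent.A2.Mod.FE E M,
      f = ∑ i : Fin q, βE E M q (a i) * jE E (M * q) 1 (one_dvd _) ^ (i : ℕ) := by
  have hf : (f : LaurentSeries E) ∈ modularFunctionFieldFullC E (M * q) := by
    rw [← S28.H988.laurentBaseChange_full_eq_fullC]
    exact f.2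
  obtain ⟨a', ha', hfa⟩ := h83_exists_beta_expansion E hq (NeZero.ne M) hqM hf
  have ha'' : ∀ i, a' i ∈ _root_.Fermat.Agent.A2.Mod.FE E M := fun i => by
    show a' i ∈ laurentBaseChange E (modularFunctionFieldFull M)
    rw [S28.H988.laurentBaseChange_full_eq_fullC]
    exact ha' i
  refine ⟨fun i => ⟨a' i, ha'' i⟩, Subtype.ext ?_⟩
  rw [h83_coe_betaSum, hfa]

/-- **Integral power basis**: for `q ∣ M` every element of `V∞_{Mq}` is `∑_{i<q} β(a_i) j^i`
with `a_i ∈ V∞_M`. -/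
theorem h83_beta_integral_basis (hdvr : IsDiscreteValuationRing (_root_.Fermat.Agent.A2.Mod.RE P E)) {w : _root_.Fermat.Agent.A2.Mod.RE P E}
    (hw : Irreducible w) (hq : q.Prime) (hqM : q ∣ M)
    {VM : ValuationSubring (_root_.Fermat.Agent.A2.Mod.FE E M)} {V : ValuationSubring (_root_.Fermat.Agent.A2.Mod.FE E (M * q))}
    (hVM : IsVinf P E M VM) (hV : IsVinf P E (M * q) V) {f : _root_.Fermat.Agent.A2.Mod.FE E (M * q)} (hf : f ∈ V) :
    ∃ a : Fin q → _root_.Fermat.Agent.A2.Mod.FE E M, (∀ i, a i ∈ VM) ∧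
      f = ∑ i : Fin q, βE E M q (a i) * jE E (M * q) 1 (one_dvd _) ^ (i : ℕ) := by
  classical
  have := hdvr
  obtain ⟨a, hfa⟩ := h83_exists_beta_expansion_FE hq hqM f
  refine ⟨a, ?_, hfa⟩
  by_contra hcon
  rw [not_forall] at hcon
  obtain ⟨i₁, hi₁⟩ := hcon
  obtain ⟨i₀, -, hmax⟩ := Finset.exists_max_image Finset.univ
    (fun i => VM.valuation (a i)) ⟨i₁, Finset.mem_univ _⟩
  have h1 : 1 < VM.valuation (a i₀) :=
    lt_of_lt_of_le (by rwa [← not_le, VM.valuation_le_one_iff]) (hmax i₁ (Finset.mem_univ _))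
  have ha0 : a i₀ ≠ 0 := by
    intro h
    rw [h, map_zero] at h1
    exact absurd h1 (not_lt.mpr zero_le_one)
  obtain ⟨c, hc, hu⟩ := H708.exists_const_mul_unit_of_isVinf hVM ha0
  set cM : _root_.Fermat.Agent.A2.Mod.FE E M := algebraMap E (_root_.Fermat.Agent.A2.Mod.FE E M) c with hcM
  set cN : _root_.Fermat.Agent.A2.Mod.FE E (M * q) := algebraMap E (_root_.Fermat.Agent.A2.Mod.FE E (M * q)) c with hcN
  have hcM0 : cM ≠ 0 := by
    rw [hcM, Ne, map_eq_zero]; exact hc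
  have hcN0 : cN ≠ 0 := by
    rw [hcN, Ne, map_eq_zero]; exact hc
  have hvcM0 : VM.valuation cM ≠ 0 := (Valuation.ne_zero_iff _).mpr hcM0
  have hvc : VM.valuation cM = VM.valuation (a i₀) := by
    rw [map_mul, map_inv₀] at hu
    calc VM.valuation cM = 1 * VM.valuation cM := (one_mul _).symm
      _ = VM.valuation (a i₀) * (VM.valuation cM)⁻¹ * VM.valuation cM := by rw [hu]
      _ = VM.valuation (a i₀) := by rw [mul_assoc, inv_mul_cancel₀ hvcM0, mul_one]
  -- the rescaled coefficients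
  have hb : ∀ i, a i * cM⁻¹ ∈ VM := by
    intro i
    rw [← VM.valuation_le_one_iff, map_mul, map_inv₀]
    exact (mul_inv_le_iff₀ (zero_lt_iff.2 hvcM0)).2
      (by rw [one_mul, hvc]; exact hmax i (Finset.mem_univ _))
  -- `c⁻¹ = w d`
  have hcMnot : cM ∉ VM := by
    rw [← VM.valuation_le_one_iff, hvc]; exact not_le.mpr h1
  have hcMinv : cM⁻¹ ∈ VM := (VM.mem_or_inv_mem cM).resolve_left hcMnot
  have hcR : c⁻¹ ∈ _root_.Fermat.Agent.A2.Mod.RE P E := by
    rw [← H708.algebraMap_mem_iff_of_isVinf hVM, map_inv₀]; exact hcMinv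
  have hcnotR : c ∉ _root_.Fermat.Agent.A2.Mod.RE P E := fun h =>
    hcMnot ((H708.algebraMap_mem_iff_of_isVinf hVM c).mpr h)
  have hnu : ¬ IsUnit (⟨c⁻¹, hcR⟩ : _root_.Fermat.Agent.A2.Mod.RE P E) := by
    intro hunit
    obtain ⟨d, hd⟩ := hunit.exists_right_inv
    apply hcnotR
    have h3 : c⁻¹ * (d : E) = 1 := congrArg Subtype.val hd
    have h4 : c = (d : E) := by
      have := inv_eq_of_mul_eq_one_right h3
      rw [inv_inv] at this
      exact this
    rw [h4]; exact d.2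
  have hmem : (⟨c⁻¹, hcR⟩ : _root_.Fermat.Agent.A2.Mod.RE P E) ∈ IsLocalRing.maximalIdeal (_root_.Fermat.Agent.A2.Mod.RE P E) :=
    (IsLocalRing.mem_maximalIdeal _).mpr hnu
  rw [(IsDiscreteValuationRing.irreducible_iff_uniformizer w).mp hw,
    Ideal.mem_span_singleton] at hmem
  obtain ⟨d, hd⟩ := hmem
  have hcd : c⁻¹ = (w : E) * (d : E) := congrArg Subtype.val hd
  have hw0 : (w : E) ≠ 0 := fun h => hw.ne_zero (Subtype.ext h)
  -- `f c⁻¹ ∈ w V`
  have hsum : ∑ i : Fin q, βE E M q (a i * cM⁻¹) * jE E (M * q) 1 (one_dvd _) ^ (i : ℕ)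
      = f * cN⁻¹ := by
    rw [hfa, Finset.sum_mul]
    refine Finset.sum_congr rfl fun i _ => ?_
    rw [map_mul, map_inv₀, hcM, (βE E M q).commutes c]
    ring
  have hInW : InW P E (M * q) V w
      (∑ i : Fin q, βE E M q (a i * cM⁻¹) * jE E (M * q) 1 (one_dvd _) ^ (i : ℕ)) := by
    rw [hsum]
    unfold InW
    have hcNinv : cN⁻¹ = cE P E (M * q) w * algebraMap E (_root_.Fermat.Agent.A2.Mod.FE E (M * q)) (d : E) := by
      rw [hcN, ← map_inv₀, hcd, map_mul]; rfl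
    have hwN0 : cE P E (M * q) w ≠ 0 := by
      rw [cE, Ne, map_eq_zero]; exact hw0
    have : f * cN⁻¹ * (cE P E (M * q) w)⁻¹ = f * algebraMap E (_root_.Fermat.Agent.A2.Mod.FE E (M * q)) (d : E) := by
      rw [hcNinv]
      field_simp
    rw [this]
    exact V.mul_mem _ _ hf ((H708.algebraMap_mem_iff_of_isVinf hV _).mpr d.2)
  have hall := h83_beta_indep hdvr hw hVM hV (fun i => a i * cM⁻¹) hb hInW
  have hbad := hall i₀
  unfold InW at hbad
  have hunif := (H708.vinfBasic P E w M (NeZero.ne M) hdvr hw VM hVM).1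
  have hlt := hunif.val_lt_one
  have hv1 : VM.valuation (a i₀ * cM⁻¹ * (cE P E M w)⁻¹) ≤ 1 :=
    (VM.valuation_le_one_iff _).mpr hbad
  rw [map_mul, hu, one_mul, map_inv₀] at hv1
  have hv0 : VM.valuation (cE P E M w) ≠ 0 := hunif.val_ne_zero
  have : 1 ≤ VM.valuation (cE P E M w) := by
    have := (inv_le_one₀ (zero_lt_iff.2 hv0)).mp hv1
    exact this
  exact absurd hlt (not_lt.mpr this)

end BetaVal

end Fermat.Agent.S36.H83

end

end
-- ===== PACK-END S36/H83/BetaVal.lean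

-- ===== PACK-BEGIN A2/Mod/H189/GoodRedCoord.lean
section



/-!
# Cell A2 / MOD, GOODRED part G3 (helper189): the Hauptmoduln `t₂`, `t₃` at a level `E`

`t2E E M`, `t3E E M : FE E M` are the images of the integral series `S18.H333.t2Z`, `t3Z`
(`2 ∣ M` resp. `3 ∣ M`); they satisfy `j t₂² = (t₂ + 256)³`, `j t₃³ = (t₃ + 27)(t₃ + 243)³` and are
polar (`t⁻¹ + …`).  Hence (`GoodRedT.lean`):

* `goodRedHyp_of_t2` : `P` over `3`, `2 ∣ M`: `GoodRedAt` at `t₂`, `t₂⁻¹` (for all `w`, `VM`)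
  ⟹ `Mod.GoodRedHyp P E M`;
* `goodRedHyp_of_t3` : `P` over `2`, `3 ∣ M`: `GoodRedAt` at `t₃`, `t₃⁻¹` ⟹ `Mod.GoodRedHyp P E M`.

So a producer of good reduction only has to work in the coordinate of row S18
(`j` for `q ≥ 5`, `t₂` for `q = 3`, `t₃` for `q = 2`).
-/

set_option autoImplicit false
set_option synthInstance.maxHeartbeats 400000
set_option maxHeartbeats 1600000

noncomputable section

namespace Fermat.Agent.A2.Mod.H189

open ModularCurve HahnSeries Polynomial Fermat.Agent.A2 Fermat.Agent.A2.Mod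
open Fermat.Agent.S18.H333 (t2Z t3Z)

variable (P : ValuationSubring _root_.Fermat.Agent.A2.Mod.Qb) (E : IntermediateField ℚ _root_.Fermat.Agent.A2.Mod.Qb) (M : ℕ)

theorem coeffEmb_castQ_eq (X : LaurentSeries ℤ) :
    coeffEmb E (H708.castQ X) = coeffMap (Int.castRingHom E) X := by
  rw [coeffEmb, H708.castQ, coeffMap_coeffMap]
  exact coeffMap_congr (RingHom.ext_int _ _) X

theorem coe_jE_one : ((jE E M 1 (one_dvd _) : _root_.Fermat.Agent.A2.Mod.FE E M) : LaurentSeries E) = jqModC E := by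
  show coeffEmb E (qExpand ℚ 1 jq) = jqModC E
  rw [qExpand_one_apply, ← jqModC_rat, coeffEmb, coeffMap_jqModC]

/-- The element of `F_{M,E}` given by an integral series lying in `ℚ(j_d : d ∣ M)`. -/
def feOf (X : LaurentSeries ℤ) (hX : H708.castQ X ∈ modularFunctionFieldFull M) : _root_.Fermat.Agent.A2.Mod.FE E M :=
  ⟨coeffEmb E (H708.castQ X), coeffEmb_mem_laurentBaseChange E hX⟩

theorem coe_feOf (X : LaurentSeries ℤ) (hX : H708.castQ X ∈ modularFunctionFieldFull M) :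
    ((feOf E M X hX : _root_.Fermat.Agent.A2.Mod.FE E M) : LaurentSeries E) = coeffMap (Int.castRingHom E) X :=
  coeffEmb_castQ_eq E X

theorem coe_feOf_incl (X : LaurentSeries ℤ) (hX : H708.castQ X ∈ modularFunctionFieldFull M) :
    ((feOf E M X hX : _root_.Fermat.Agent.A2.Mod.FE E M) : LaurentSeries E) =
      H708.incl (_root_.Fermat.Agent.A2.Mod.RE P E) (H708.castA (_root_.Fermat.Agent.A2.Mod.RE P E) X) :=
  (H708.incl_castA (_root_.Fermat.Agent.A2.Mod.RE P E) X).symm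

/-- `t₂ ∈ F_{M,E}` (`2 ∣ M`). -/
def t2E (hM : 2 ∣ M) : _root_.Fermat.Agent.A2.Mod.FE E M := feOf E M t2Z (Fermat.Agent.S18.H333.t2Q_mem M hM)

/-- `t₃ ∈ F_{M,E}` (`3 ∣ M`). -/
def t3E (hM : 3 ∣ M) : _root_.Fermat.Agent.A2.Mod.FE E M := feOf E M t3Z (Fermat.Agent.S18.H333.t3Q_mem M hM)

theorem t2E_rel (hM : 2 ∣ M) :
    jE E M 1 (one_dvd _) * t2E E M hM ^ 2 = (t2E E M hM + 256) ^ 3 := by
  apply Subtype.ext
  have h := Fermat.Agent.S18.H333.t2_rel_a E
  have hx : ((t2E E M hM : _root_.Fermat.Agent.A2.Mod.FE E M) : LaurentSeries E) = Fermat.Agent.S18.H333.t2 E :=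
    coe_feOf E M t2Z _
  push_cast
  rw [coe_jE_one, hx]
  exact h

theorem t3E_rel (hM : 3 ∣ M) :
    jE E M 1 (one_dvd _) * t3E E M hM ^ 3 = (t3E E M hM + 27) * (t3E E M hM + 243) ^ 3 := by
  apply Subtype.ext
  have h := Fermat.Agent.S18.H333.t3_rel_a E
  have hx : ((t3E E M hM : _root_.Fermat.Agent.A2.Mod.FE E M) : LaurentSeries E) = Fermat.Agent.S18.H333.t3 E :=
    coe_feOf E M t3Z _
  push_cast
  rw [coe_jE_one, hx]
  exact h

theorem castA_coeff (X : LaurentSeries ℤ) (k : ℤ) :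
    (H708.castA (_root_.Fermat.Agent.A2.Mod.RE P E) X).coeff k = ((X.coeff k : ℤ) : _root_.Fermat.Agent.A2.Mod.RE P E) := rfl

/-- **GOODRED for `q = 3`** from good reduction in the charts of `t₂`. -/
theorem goodRedHyp_of_t2 (hP : P.LiesOverPrime 3) (hM0 : M ≠ 0) (hM : 2 ∣ M)
    (hdvr : IsDiscreteValuationRing (_root_.Fermat.Agent.A2.Mod.RE P E))
    (h : ∀ (w : _root_.Fermat.Agent.A2.Mod.RE P E) (VM : ValuationSubring (_root_.Fermat.Agent.A2.Mod.FE E M)), Irreducible w → IsVinf P E M VM →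
      GoodRedAt P E M w VM (t2E E M hM) ∧ GoodRedAt P E M w VM (t2E E M hM)⁻¹) :
    GoodRedHyp P E M := by
  intro w VM hw hVM
  obtain ⟨hg, hg'⟩ := h w VM hw hVM
  refine goodRedAt_j_of_t2_polar P E M w hP hM0 hdvr hw VM hVM (t2E E M hM)
    (H708.castA (_root_.Fermat.Agent.A2.Mod.RE P E) t2Z) (coe_feOf_incl P E M t2Z _) ?_ ?_ (t2E_rel E M hM) hg hg'
  · intro n hn
    rw [castA_coeff, Fermat.Agent.S18.H333.t2Z_coeff_of_lt hn, Int.cast_zero]
  · rw [castA_coeff, Fermat.Agent.S18.H333.t2Z_coeff_neg_one, Int.cast_one]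
    exact isUnit_one

/-- **GOODRED for `q = 2`** from good reduction in the charts of `t₃`. -/
theorem goodRedHyp_of_t3 (hP : P.LiesOverPrime 2) (hM0 : M ≠ 0) (hM : 3 ∣ M)
    (hdvr : IsDiscreteValuationRing (_root_.Fermat.Agent.A2.Mod.RE P E))
    (h : ∀ (w : _root_.Fermat.Agent.A2.Mod.RE P E) (VM : ValuationSubring (_root_.Fermat.Agent.A2.Mod.FE E M)), Irreducible w → IsVinf P E M VM →
      GoodRedAt P E M w VM (t3E E M hM) ∧ GoodRedAt P E M w VM (t3E E M hM)⁻¹) :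
    GoodRedHyp P E M := by
  intro w VM hw hVM
  obtain ⟨hg, hg'⟩ := h w VM hw hVM
  refine goodRedAt_j_of_t3_polar P E M w hP hM0 hdvr hw VM hVM (t3E E M hM)
    (H708.castA (_root_.Fermat.Agent.A2.Mod.RE P E) t3Z) (coe_feOf_incl P E M t3Z _) ?_ ?_ (t3E_rel E M hM) hg hg'
  · intro n hn
    rw [castA_coeff, Fermat.Agent.S18.H333.t3Z_coeff_of_lt hn, Int.cast_zero]
  · rw [castA_coeff, Fermat.Agent.S18.H333.t3Z_coeff_neg_one, Int.cast_one]
    exact isUnit_one

end Fermat.Agent.A2.Mod.H189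

end
end
-- ===== PACK-END A2/Mod/H189/GoodRedCoord.lean

-- ===== PACK-BEGIN A2/Mod/H372/S3Coord.lean
section


/-!
# A2 / MODASM S3, the coordinate facts (helper372)

For the two coordinate pairs `(j, x)` and `(j⁻¹, x⁻¹)`, `x = j · j_q`:
`y = α(y_M) · β(y_M)`, `β y_M ≡ (α y_M)^q mod w V∞`, `α y_M ≡ (β y_M)^q mod w V₀`,
`α y_M, β y_M ∈ chart(y)` (leaf L13).
-/

set_option autoImplicit false
set_option synthInstance.maxHeartbeats 400000
set_option maxHeartbeats 1600000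
set_option linter.unusedSectionVars false
set_option linter.style.haveILetI false

noncomputable section

namespace Fermat.Agent.A2.Mod.H372

open ModularCurve HahnSeries Polynomial

variable {P : ValuationSubring _root_.Fermat.Agent.A2.Mod.Qb} {E : IntermediateField ℚ _root_.Fermat.Agent.A2.Mod.Qb} {M q : ℕ} [NeZero M] [NeZero q]
  (w : _root_.Fermat.Agent.A2.Mod.RE P E)

/-- `f ∈ w V₀ ↔ W f ∈ w V∞`. -/
theorem inW_comap_iff {N : ℕ} (V : ValuationSubring (_root_.Fermat.Agent.A2.Mod.FE E N)) (W : _root_.Fermat.Agent.A2.Mod.FE E N ≃ₐ[E] _root_.Fermat.Agent.A2.Mod.FE E N)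
    (f : _root_.Fermat.Agent.A2.Mod.FE E N) :
    InW P E N (V.comap (W : _root_.Fermat.Agent.A2.Mod.FE E N →+* _root_.Fermat.Agent.A2.Mod.FE E N)) w f ↔ InW P E N V w (W f) := by
  have hWc : W (cE P E N w) = cE P E N w := W.commutes (w : E)
  show W (f * (cE P E N w)⁻¹) ∈ V ↔ W f * (cE P E N w)⁻¹ ∈ V
  rw [map_mul, map_inv₀, hWc]

/-- The facts about a coordinate pair used by S3. -/
structure CoordFacts (VM : ValuationSubring (_root_.Fermat.Agent.A2.Mod.FE E M)) (V : ValuationSubring (_root_.Fermat.Agent.A2.Mod.FE E (M * q)))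
    (W : _root_.Fermat.Agent.A2.Mod.FE E (M * q) ≃ₐ[E] _root_.Fermat.Agent.A2.Mod.FE E (M * q)) (yM : _root_.Fermat.Agent.A2.Mod.FE E M) (y : _root_.Fermat.Agent.A2.Mod.FE E (M * q)) : Prop where
  mem : yM ∈ VM
  eq_mul : y = αE E M q yM * βE E M q yM
  beta_mem : βE E M q yM ∈ V
  alpha_mem₀ : W (αE E M q yM) ∈ V
  beta_mem₀ : W (βE E M q yM) ∈ V
  cong₁ : InW P E (M * q) V w (βE E M q yM - (αE E M q yM) ^ q)
  cong₂ : InW P E (M * q) V w (W (αE E M q yM) - (W (βE E M q yM)) ^ q)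
  alpha_chart : αE E M q yM ∈ chartAlg P E (M * q) y
  beta_chart : βE E M q yM ∈ chartAlg P E (M * q) y

theorem beta_jE_one : βE E M q (jE E M 1 (one_dvd _)) = jE E (M * q) q (dvd_mul_left q M) := by
  rw [beta_jE 1 (one_dvd M)]
  exact jE_congr (one_mul q) _ _

theorem alpha_jE_one : αE E M q (jE E M 1 (one_dvd _)) = jE E (M * q) 1 (one_dvd _) :=
  alpha_jE 1 (one_dvd M)

theorem fricke_jE_one {W : _root_.Fermat.Agent.A2.Mod.FE E (M * q) ≃ₐ[E] _root_.Fermat.Agent.A2.Mod.FE E (M * q)} (hW : IsFricke E (M * q) W) :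
    W (jE E (M * q) 1 (one_dvd _)) = jE E (M * q) (M * q) (dvd_refl _) :=
  hW.1 1 (M * q) (one_dvd _) (dvd_refl _) (one_mul _)

theorem fricke_jE_q {W : _root_.Fermat.Agent.A2.Mod.FE E (M * q) ≃ₐ[E] _root_.Fermat.Agent.A2.Mod.FE E (M * q)} (hW : IsFricke E (M * q) W) :
    W (jE E (M * q) q (dvd_mul_left q M)) = jE E (M * q) M (dvd_mul_right M q) :=
  hW.1 q M (dvd_mul_left q M) (dvd_mul_right M q) (mul_comm q M)

theorem coordFacts_fin (hS : Setting P E M q w) {VM : ValuationSubring (_root_.Fermat.Agent.A2.Mod.FE E M)}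
    {V : ValuationSubring (_root_.Fermat.Agent.A2.Mod.FE E (M * q))} {W : _root_.Fermat.Agent.A2.Mod.FE E (M * q) ≃ₐ[E] _root_.Fermat.Agent.A2.Mod.FE E (M * q)}
    (hVM : IsVinf P E M VM) (hV : IsVinf P E (M * q) V) (hW : IsFricke E (M * q) W) :
    CoordFacts w VM V W (jE E M 1 (one_dvd _)) (xE E M q) := by
  have hN := level_ne_zero w hS
  obtain ⟨h1, h2, -, -⟩ := H873.chartCompat P E M q hS.q_prime
  refine ⟨jE_mem w hS hS.M_ne_zero hVM 1 (one_dvd _), ?_, ?_, ?_, ?_, ?_, ?_, ?_, ?_⟩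
  · rw [alpha_jE_one, beta_jE_one]; rfl
  · rw [beta_jE_one]; exact jE_mem w hS hN hV _ _
  · rw [alpha_jE_one, fricke_jE_one hW]; exact jE_mem w hS hN hV _ _
  · rw [beta_jE_one, fricke_jE_q hW]; exact jE_mem w hS hN hV _ _
  · rw [alpha_jE_one, beta_jE_one]
    have := inW_jE_sub_pow w hS hV 1 (one_dvd M)
    rwa [jE_congr (one_mul q) _ (dvd_mul_left q M)] at this
  · rw [alpha_jE_one, beta_jE_one, fricke_jE_one hW, fricke_jE_q hW]
    exact inW_jE_sub_pow w hS hV M (dvd_refl M)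
  · rw [alpha_jE_one]; exact mem_chart_iff.mp h1
  · rw [beta_jE_one]; exact mem_chart_iff.mp h2

theorem coordFacts_inf (hS : Setting P E M q w) {VM : ValuationSubring (_root_.Fermat.Agent.A2.Mod.FE E M)}
    {V : ValuationSubring (_root_.Fermat.Agent.A2.Mod.FE E (M * q))} {W : _root_.Fermat.Agent.A2.Mod.FE E (M * q) ≃ₐ[E] _root_.Fermat.Agent.A2.Mod.FE E (M * q)}
    (hVM : IsVinf P E M VM) (hV : IsVinf P E (M * q) V) (hW : IsFricke E (M * q) W) :
    CoordFacts w VM V W (jE E M 1 (one_dvd _))⁻¹ (xE E M q)⁻¹ := by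
  have hN := level_ne_zero w hS
  obtain ⟨-, -, h3, h4⟩ := H873.chartCompat P E M q hS.q_prime
  have hu := unifE w hS hN hV
  refine ⟨jE_inv_mem w hS hS.M_ne_zero hVM 1 (one_dvd _), ?_, ?_, ?_, ?_, ?_, ?_, ?_, ?_⟩
  · rw [map_inv₀, map_inv₀, alpha_jE_one, beta_jE_one, ← mul_inv]; rfl
  · rw [map_inv₀, beta_jE_one]; exact jE_inv_mem w hS hN hV _ _
  · rw [map_inv₀, map_inv₀, alpha_jE_one, fricke_jE_one hW]; exact jE_inv_mem w hS hN hV _ _
  · rw [map_inv₀, map_inv₀, beta_jE_one, fricke_jE_q hW]; exact jE_inv_mem w hS hN hV _ _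
  · rw [map_inv₀, map_inv₀, alpha_jE_one, beta_jE_one, inv_pow]
    have := inW_jE_sub_pow w hS hV 1 (one_dvd M)
    rw [jE_congr (one_mul q) _ (dvd_mul_left q M)] at this
    refine inv_sub_inv_mul_mem V (H873.jE_ne_zero _ _ _ _) (pow_ne_zero _ (H873.jE_ne_zero _ _ _ _))
      (jE_inv_mem w hS hN hV _ _) ?_ this
    rw [← inv_pow]
    exact V.pow_mem (jE_inv_mem w hS hN hV _ _) _
  · rw [map_inv₀, map_inv₀, map_inv₀, map_inv₀, alpha_jE_one, beta_jE_one, fricke_jE_one hW,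
      fricke_jE_q hW, inv_pow]
    have := inW_jE_sub_pow w hS hV M (dvd_refl M)
    refine inv_sub_inv_mul_mem V (H873.jE_ne_zero _ _ _ _) (pow_ne_zero _ (H873.jE_ne_zero _ _ _ _))
      (jE_inv_mem w hS hN hV _ _) ?_ this
    rw [← inv_pow]
    exact V.pow_mem (jE_inv_mem w hS hN hV _ _) _
  · rw [map_inv₀, alpha_jE_one]; exact mem_chart_iff.mp h3
  · rw [map_inv₀, beta_jE_one]; exact mem_chart_iff.mp h4

theorem coordFacts_of_isCoordPair (hS : Setting P E M q w) {VM : ValuationSubring (_root_.Fermat.Agent.A2.Mod.FE E M)}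
    {V : ValuationSubring (_root_.Fermat.Agent.A2.Mod.FE E (M * q))} {W : _root_.Fermat.Agent.A2.Mod.FE E (M * q) ≃ₐ[E] _root_.Fermat.Agent.A2.Mod.FE E (M * q)}
    (hVM : IsVinf P E M VM) (hV : IsVinf P E (M * q) V) (hW : IsFricke E (M * q) W)
    {yM : _root_.Fermat.Agent.A2.Mod.FE E M} {y : _root_.Fermat.Agent.A2.Mod.FE E (M * q)} (hy : IsCoordPair E M q yM y) :
    CoordFacts w VM V W yM y := by
  rcases hy with ⟨rfl, rfl⟩ | ⟨rfl, rfl⟩
  · exact coordFacts_fin w hS hVM hV hW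
  · exact coordFacts_inf w hS hVM hV hW

end Fermat.Agent.A2.Mod.H372

end
end
-- ===== PACK-END A2/Mod/H372/S3Coord.lean

-- ===== PACK-BEGIN A2/Mod/H372/S3Sides.lean
section



/-!
# A2 / MODASM sub-assembly S3 (helper372): the two sides on the charts

`s3_of_leaves : (leaves L4, L5, L7, L8, L11, L12 + sub-assembly S2) → S3Statement P E M q w`
(`Fermat/Agent/A2/Mod/Asm.lean`, VERBATIM).  The leaves L2 (`H553.vinfBasic`) and L13
(`H873.chartCompat`) are used directly (on main).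

Proof: `H372.KronCong.sup_isRadical` applied to the restrictions `α, β : B_M → B` of the two
degeneracy maps to the charts (`B_M` = chart of `j^{±1}` at level `M`, `B` = chart of `x^{±1}`
at level `Mq`):

* `KronCong` : L12 gives the Kronecker twist `a'` only in `V∞_M`; `GoodRedAt.normal` brings it
  back into the chart (`SideData.cong`); on `C₀` one transports by the Fricke involutions
  (L4, L5, L7);
* `α` is onto `B ⧸ p∞` : L11 + `GoodRedAt.normal` (`SideData.surj`);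
* the branch `B ⧸ p∞` is a Dedekind domain : S2 (normal), `B` noetherian (L8), dimension one.
-/

set_option autoImplicit false
set_option synthInstance.maxHeartbeats 400000
set_option maxHeartbeats 1600000
set_option linter.unusedSectionVars false
set_option linter.style.haveILetI false

noncomputable section

namespace Fermat.Agent.A2.Mod.H372

open ModularCurve HahnSeries Polynomial

variable {P : ValuationSubring _root_.Fermat.Agent.A2.Mod.Qb} {E : IntermediateField ℚ _root_.Fermat.Agent.A2.Mod.Qb} {M q : ℕ} [NeZero M] [NeZero q]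
  (w : _root_.Fermat.Agent.A2.Mod.RE P E)

section Sides

variable (hS : Setting P E M q w) {VM : ValuationSubring (_root_.Fermat.Agent.A2.Mod.FE E M)}
  {V : ValuationSubring (_root_.Fermat.Agent.A2.Mod.FE E (M * q))} {W : _root_.Fermat.Agent.A2.Mod.FE E (M * q) ≃ₐ[E] _root_.Fermat.Agent.A2.Mod.FE E (M * q)}
  (hVM : IsVinf P E M VM) (hV : IsVinf P E (M * q) V) (hW : IsFricke E (M * q) W)
  {yM : _root_.Fermat.Agent.A2.Mod.FE E M} {y : _root_.Fermat.Agent.A2.Mod.FE E (M * q)}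

include hS hVM in
theorem chartM_le (hyM : yM ∈ VM) {a : _root_.Fermat.Agent.A2.Mod.FE E M} (ha : a ∈ chartAlg P E M yM) : a ∈ VM :=
  mem_of_isIntegralElem VM (algebraMap (_root_.Fermat.Agent.A2.Mod.RE P E) (_root_.Fermat.Agent.A2.Mod.FE E M)) yM (fun r => cE_mem w hS hVM r) hyM
    (mem_chartAlg_iff.mp ha)

theorem self_mem_chartAlg (N : ℕ) (y : _root_.Fermat.Agent.A2.Mod.FE E N) : y ∈ chartAlg P E N y := by
  rw [mem_chartAlg_iff]
  have := (Polynomial.eval₂RingHom (algebraMap (_root_.Fermat.Agent.A2.Mod.RE P E) (_root_.Fermat.Agent.A2.Mod.FE E N)) y).isIntegralElem_map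
    (x := Polynomial.X)
  simpa using this

include hS hVM hV in
/-- `β` maps `V∞_M` into `V∞_{Mq}` (consequence of L12). -/
theorem beta_mem (hL12 : KronStatement P E M q w) {a : _root_.Fermat.Agent.A2.Mod.FE E M} (ha : a ∈ VM) :
    βE E M q a ∈ V := by
  obtain ⟨a', ha', h⟩ := hL12 hS VM V hVM hV a ha
  have h1 := mem_of_mul_inv_mem (unifE w hS (level_ne_zero w hS) hV) h
  have h2 : (αE E M q a') ^ q ∈ V := V.pow_mem (alpha_mem hVM hV ha') q
  have := V.add_mem _ _ h1 h2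
  simpa using this

include hS hVM hV in
/-- The side `C∞`. -/
theorem side₁ (hyM : yM ∈ VM) (hgood : GoodRedAt P E M w VM yM) :
    SideData VM V (cE P E M w) (cE P E (M * q) w) (αE E M q : _root_.Fermat.Agent.A2.Mod.FE E M →+* _root_.Fermat.Agent.A2.Mod.FE E (M * q)) q
      (chartAlg P E M yM).toSubring where
  unif₁ := unifE w hS hS.M_ne_zero hVM
  unif₂ := unifE w hS (level_ne_zero w hS) hV
  map_mem := fun x hx => alpha_mem hVM hV hx
  map_unif := alpha_cE P E M q w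
  refl := fun x hx => mem_of_alpha_mem w hS hVM hV hx
  prime := hS.q_prime
  q_mem := q_mul_inv_mem w hS hV
  le := fun a ha => chartM_le w hS hVM hyM ha
  normal := by
    rintro f hf ⟨n, c, hc, hrel⟩
    obtain ⟨b, hb, hfb⟩ := hgood.normal f hf ⟨n, c, fun i => mem_chart_iff.mpr (hc i), hrel⟩
    exact ⟨b, mem_chart_iff.mp hb, hfb⟩

include hS hVM hV hW in
/-- The side `C₀`. -/
theorem side₂ (hL5 : FrickeCompatStatement E M q) (hL7 : FrickeStableStatement P E M q w)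
    {WM : _root_.Fermat.Agent.A2.Mod.FE E M ≃ₐ[E] _root_.Fermat.Agent.A2.Mod.FE E M} (hWM : IsFricke E M WM)
    (hyM : yM ∈ VM) (hgood : GoodRedAt P E M w VM yM) :
    SideData VM (V.comap (W : _root_.Fermat.Agent.A2.Mod.FE E (M * q) →+* _root_.Fermat.Agent.A2.Mod.FE E (M * q))) (cE P E M w) (cE P E (M * q) w)
      (βE E M q : _root_.Fermat.Agent.A2.Mod.FE E M →+* _root_.Fermat.Agent.A2.Mod.FE E (M * q)) q (chartAlg P E M yM).toSubring where
  unif₁ := unifE w hS hS.M_ne_zero hVM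
  unif₂ := isUnif_comap (unifE w hS (level_ne_zero w hS) hV) _ (W.commutes (w : E))
  map_mem := fun x hx => by
    rw [ValuationSubring.mem_comap]
    show W (βE E M q x) ∈ V
    rw [(hL5 WM W hWM hW x).2]
    exact alpha_mem hVM hV (hL7 hS VM WM hVM hWM x hx)
  map_unif := beta_cE P E M q w
  refl := fun x hx => by
    rw [ValuationSubring.mem_comap] at hx
    have hx' : W (βE E M q x) ∈ V := hx
    rw [(hL5 WM W hWM hW x).2] at hx'
    have h1 := mem_of_alpha_mem w hS hVM hV hx'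
    have h2 := hL7 hS VM WM hVM hWM _ h1
    rwa [hWM.2] at h2
  prime := hS.q_prime
  q_mem := by
    rw [ValuationSubring.mem_comap]
    show W (((q : ℕ) : _root_.Fermat.Agent.A2.Mod.FE E (M * q)) * (cE P E (M * q) w)⁻¹) ∈ V
    have hWc : W (cE P E (M * q) w) = cE P E (M * q) w := W.commutes (w : E)
    rw [map_mul, map_inv₀, map_natCast, hWc]
    exact q_mul_inv_mem w hS hV
  le := fun a ha => chartM_le w hS hVM hyM ha
  normal := by
    rintro f hf ⟨n, c, hc, hrel⟩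
    obtain ⟨b, hb, hfb⟩ := hgood.normal f hf ⟨n, c, fun i => mem_chart_iff.mpr (hc i), hrel⟩
    exact ⟨b, mem_chart_iff.mp hb, hfb⟩

end Sides

section Congruences

variable (hS : Setting P E M q w) {VM : ValuationSubring (_root_.Fermat.Agent.A2.Mod.FE E M)}
  {V : ValuationSubring (_root_.Fermat.Agent.A2.Mod.FE E (M * q))} {W : _root_.Fermat.Agent.A2.Mod.FE E (M * q) ≃ₐ[E] _root_.Fermat.Agent.A2.Mod.FE E (M * q)}
  (hVM : IsVinf P E M VM) (hV : IsVinf P E (M * q) V) (hW : IsFricke E (M * q) W)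
  {yM : _root_.Fermat.Agent.A2.Mod.FE E M} {y : _root_.Fermat.Agent.A2.Mod.FE E (M * q)} (hC : CoordFacts w VM V W yM y)
  (hgood : GoodRedAt P E M w VM yM)

include hS hVM hV hC hgood in
/-- **Kronecker congruence on `C∞` inside the charts.** -/
theorem chart_cong₁ (hL12 : KronStatement P E M q w) :
    ∀ a ∈ chartAlg P E M yM, ∃ a' ∈ chartAlg P E M yM,
      InW P E (M * q) V w (βE E M q a - (αE E M q a') ^ q) :=
  (side₁ w hS hVM hV hC.mem hgood).cong (βE E M q : _root_.Fermat.Agent.A2.Mod.FE E M →+* _root_.Fermat.Agent.A2.Mod.FE E (M * q))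
    (fun _ hx => beta_mem w hS hVM hV hL12 hx)
    (fun a ha => hL12 hS VM V hVM hV a ha)
    (algebraMap (_root_.Fermat.Agent.A2.Mod.RE P E) (_root_.Fermat.Agent.A2.Mod.FE E M)) yM
    (fun _ ha => mem_chartAlg_iff.mp ha)
    (fun r => (chartAlg P E M yM).algebraMap_mem r)
    (self_mem_chartAlg M yM)
    (fun r => by
      show βE E M q (cE P E M r) = αE E M q (cE P E M r)
      rw [beta_cE, alpha_cE])
    hC.cong₁

include hS hVM hV hW hC hgood in
/-- **Kronecker congruence on `C₀` inside the charts.** -/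
theorem chart_cong₂ (hL5 : FrickeCompatStatement E M q) (hL7 : FrickeStableStatement P E M q w)
    (hL12 : KronStatement P E M q w) {WM : _root_.Fermat.Agent.A2.Mod.FE E M ≃ₐ[E] _root_.Fermat.Agent.A2.Mod.FE E M} (hWM : IsFricke E M WM) :
    ∀ a ∈ chartAlg P E M yM, ∃ a' ∈ chartAlg P E M yM,
      InW P E (M * q) (V.comap (W : _root_.Fermat.Agent.A2.Mod.FE E (M * q) →+* _root_.Fermat.Agent.A2.Mod.FE E (M * q))) w
        (αE E M q a - (βE E M q a') ^ q) := by
  refine (side₂ w hS hVM hV hW hL5 hL7 hWM hC.mem hgood).cong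
    (αE E M q : _root_.Fermat.Agent.A2.Mod.FE E M →+* _root_.Fermat.Agent.A2.Mod.FE E (M * q)) ?_ ?_
    (algebraMap (_root_.Fermat.Agent.A2.Mod.RE P E) (_root_.Fermat.Agent.A2.Mod.FE E M)) yM
    (fun _ ha => mem_chartAlg_iff.mp ha)
    (fun r => (chartAlg P E M yM).algebraMap_mem r)
    (self_mem_chartAlg M yM)
    (fun r => by
      show αE E M q (cE P E M r) = βE E M q (cE P E M r)
      rw [beta_cE, alpha_cE]) ?_
  · intro x hx
    rw [ValuationSubring.mem_comap]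
    show W (αE E M q x) ∈ V
    rw [(hL5 WM W hWM hW x).1]
    exact beta_mem w hS hVM hV hL12 (hL7 hS VM WM hVM hWM x hx)
  · intro a ha
    obtain ⟨c, hc, hac⟩ := hL12 hS VM V hVM hV (WM a) (hL7 hS VM WM hVM hWM a ha)
    refine ⟨WM c, hL7 hS VM WM hVM hWM c hc, ?_⟩
    show InW P E (M * q) (V.comap (W : _root_.Fermat.Agent.A2.Mod.FE E (M * q) →+* _root_.Fermat.Agent.A2.Mod.FE E (M * q))) w
      (αE E M q a - (βE E M q (WM c)) ^ q)
    rw [inW_comap_iff, map_sub, map_pow, (hL5 WM W hWM hW a).1, (hL5 WM W hWM hW (WM c)).2,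
      hWM.2]
    exact hac
  · show InW P E (M * q) (V.comap (W : _root_.Fermat.Agent.A2.Mod.FE E (M * q) →+* _root_.Fermat.Agent.A2.Mod.FE E (M * q))) w
      (αE E M q yM - (βE E M q yM) ^ q)
    rw [inW_comap_iff, map_sub, map_pow]
    exact hC.cong₂

include hS hVM hV hC hgood in
/-- **`α` is onto the branch `C∞`.** -/
theorem chart_surj (hL11 : ResInfStatement P E M q w) :
    ∀ b ∈ chartAlg P E (M * q) y, b ∈ V ∧ ∃ a ∈ chartAlg P E M yM,
      InW P E (M * q) V w (b - αE E M q a) := by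
  have hyV : y ∈ V := by
    rw [hC.eq_mul]
    exact V.mul_mem _ _ (alpha_mem hVM hV hC.mem) hC.beta_mem
  have h := (side₁ w hS hVM hV hC.mem hgood).surj
    (fun b hb => hL11 hS VM V hVM hV b hb)
    (algebraMap (_root_.Fermat.Agent.A2.Mod.RE P E) (_root_.Fermat.Agent.A2.Mod.FE E (M * q))) y
    (fun r => cE_mem w hS hV r) hyV
    (fun r => ⟨cE P E M r, (chartAlg P E M yM).algebraMap_mem r, by
      show (cE P E (M * q) r - αE E M q (cE P E M r)) * (cE P E (M * q) w)⁻¹ ∈ V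
      rw [alpha_cE, sub_self, zero_mul]
      exact V.zero_mem⟩)
    ⟨yM ^ (q + 1), Subalgebra.pow_mem _ (self_mem_chartAlg M yM) _, by
      have e : y - αE E M q (yM ^ (q + 1)) =
          αE E M q yM * (βE E M q yM - (αE E M q yM) ^ q) := by
        rw [hC.eq_mul, map_pow]
        ring
      show (y - αE E M q (yM ^ (q + 1))) * (cE P E (M * q) w)⁻¹ ∈ V
      rw [e, mul_assoc]
      exact V.mul_mem _ _ (alpha_mem hVM hV hC.mem) hC.cong₁⟩
  intro b hb
  exact h b (mem_chartAlg_iff.mp hb)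

end Congruences

section Charts

variable (hS : Setting P E M q w) {VM : ValuationSubring (_root_.Fermat.Agent.A2.Mod.FE E M)}
  {V : ValuationSubring (_root_.Fermat.Agent.A2.Mod.FE E (M * q))} {W : _root_.Fermat.Agent.A2.Mod.FE E (M * q) ≃ₐ[E] _root_.Fermat.Agent.A2.Mod.FE E (M * q)}
  {yM : _root_.Fermat.Agent.A2.Mod.FE E M} {y : _root_.Fermat.Agent.A2.Mod.FE E (M * q)} (hC : CoordFacts w VM V W yM y)

include hC in
/-- `α` maps the level-`M` chart into the level-`Mq` chart. -/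
theorem alpha_chart_mem {a : _root_.Fermat.Agent.A2.Mod.FE E M} (ha : a ∈ chartAlg P E M yM) :
    αE E M q a ∈ chartAlg P E (M * q) y := by
  rw [mem_chartAlg_iff]
  have h1 := isIntegralElem_map _ (αE E M q : _root_.Fermat.Agent.A2.Mod.FE E M →+* _root_.Fermat.Agent.A2.Mod.FE E (M * q)) (mem_chartAlg_iff.mp ha)
  have hcomp : (αE E M q : _root_.Fermat.Agent.A2.Mod.FE E M →+* _root_.Fermat.Agent.A2.Mod.FE E (M * q)).comp
      (Polynomial.eval₂RingHom (algebraMap (_root_.Fermat.Agent.A2.Mod.RE P E) (_root_.Fermat.Agent.A2.Mod.FE E M)) yM) =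
      Polynomial.eval₂RingHom (algebraMap (_root_.Fermat.Agent.A2.Mod.RE P E) (_root_.Fermat.Agent.A2.Mod.FE E (M * q))) (αE E M q yM) := by
    apply Polynomial.ringHom_ext
    · intro r
      simp only [RingHom.comp_apply, Polynomial.coe_eval₂RingHom, Polynomial.eval₂_C]
      exact alpha_cE P E M q r
    · simp
  rw [hcomp] at h1
  exact isIntegralElem_trans _ (mem_chartAlg_iff.mp hC.alpha_chart) h1

include hC in
/-- `β` maps the level-`M` chart into the level-`Mq` chart. -/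
theorem beta_chart_mem {a : _root_.Fermat.Agent.A2.Mod.FE E M} (ha : a ∈ chartAlg P E M yM) :
    βE E M q a ∈ chartAlg P E (M * q) y := by
  rw [mem_chartAlg_iff]
  have h1 := isIntegralElem_map _ (βE E M q : _root_.Fermat.Agent.A2.Mod.FE E M →+* _root_.Fermat.Agent.A2.Mod.FE E (M * q)) (mem_chartAlg_iff.mp ha)
  have hcomp : (βE E M q : _root_.Fermat.Agent.A2.Mod.FE E M →+* _root_.Fermat.Agent.A2.Mod.FE E (M * q)).comp
      (Polynomial.eval₂RingHom (algebraMap (_root_.Fermat.Agent.A2.Mod.RE P E) (_root_.Fermat.Agent.A2.Mod.FE E M)) yM) =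
      Polynomial.eval₂RingHom (algebraMap (_root_.Fermat.Agent.A2.Mod.RE P E) (_root_.Fermat.Agent.A2.Mod.FE E (M * q))) (βE E M q yM) := by
    apply Polynomial.ringHom_ext
    · intro r
      simp only [RingHom.comp_apply, Polynomial.coe_eval₂RingHom, Polynomial.eval₂_C]
      exact beta_cE P E M q r
    · simp
  rw [hcomp] at h1
  exact isIntegralElem_trans _ (mem_chartAlg_iff.mp hC.beta_chart) h1

/-- A cut of a chart contained in the valuation ring is a prime ideal. -/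
theorem isPrime_of_isCut {N : ℕ} {V : ValuationSubring (_root_.Fermat.Agent.A2.Mod.FE E N)}
    (hu : H48.IsUnif V (cE P E N w)) (B : Subalgebra (_root_.Fermat.Agent.A2.Mod.RE P E) (_root_.Fermat.Agent.A2.Mod.FE E N))
    (hBV : ∀ b ∈ B, b ∈ V) (p : Ideal B) (hp : IsCut P E N w V B p) : p.IsPrime := by
  let incB : B →+* V := ((B.val : B →ₐ[_root_.Fermat.Agent.A2.Mod.RE P E] _root_.Fermat.Agent.A2.Mod.FE E N) : B →+* _root_.Fermat.Agent.A2.Mod.FE E N).codRestrict V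
    (fun b => hBV b b.2)
  let ρ : B →+* IsLocalRing.ResidueField V := (IsLocalRing.residue V).comp incB
  have hker : p = RingHom.ker ρ := by
    ext b
    rw [hp b, RingHom.mem_ker]
    show _ ↔ IsLocalRing.residue V (incB b) = 0
    rw [residue_eq_zero_iff hu]
    rfl
  rw [hker]
  exact RingHom.ker_isPrime ρ

end Charts

end Fermat.Agent.A2.Mod.H372

end
end
-- ===== PACK-END A2/Mod/H372/S3Sides.lean

-- ===== PACK-BEGIN S36/H153/CuspNode.lean
section




/-!
# S36 engine, cell INCIDENCE at infinity (helper153) — concrete part, A2 / MOD language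

Level `N = M q`, `q ∤ M`, chart at infinity `Bi = chartAlg P E (M q) x⁻¹`, `x = j · j_q`,
components `p₁ = Bi ∩ w V∞`, `p₂ = Bi ∩ w V₀` (`IsCut`).

* `modPoly_natDegree_coeff_le`, `modPoly_natDegree_coeff_top_le` : SHAPE of the modular polynomial
  (`X`-degree `≤ q + 1`, coefficient of `Y^q` of `X`-degree `≤ q`), from the symmetry
  `A2.Mod.H31.exists_swap_eq`;
* `zE_mem_chartAlg`, `yE_mem_chartAlg` : `z = j_q / j^q` and `y = j / j_q^q` lie in `Bi`;
* `zE_sub_one_inW`, `yE_sub_one_inW` : `z ≡ 1 mod w V∞`, `y ≡ 1 mod w V₀`;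
* **`no_node_at_infinity`** : no proper ideal of `Bi` containing `p₁` and `p₂` contains `x⁻¹`
  (cusps are not nodes; equivalently every node of level `M q` lies in the finite chart).
-/

set_option autoImplicit false
set_option synthInstance.maxHeartbeats 400000
set_option maxHeartbeats 1600000
set_option linter.unusedSectionVars false
set_option linter.style.haveILetI false

noncomputable section

namespace Fermat.Agent.S36.H153

open ModularCurve HahnSeries Polynomial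
open Fermat.Agent.A2.Mod
open scoped Polynomial.Bivariate

/-! ## Shape of the modular polynomial -/

section Shape

variable (q : ℕ) [NeZero q]

theorem exists_swap_modPolyK (hq : q.Prime) (D : S28.ModPolyData q) :
    ∃ c : ℚ, c ≠ 0 ∧ Bivariate.swap (H31.modPolyK ℚ q D) = C (C c) * H31.modPolyK ℚ q D :=
  H31.exists_swap_eq (H31.transcendental_jqModC ℚ) (H31.modPolyK_monic ℚ q D)
    (H31.aevalAeval_modPolyK ℚ q D) (H31.aevalAeval_modPolyK' ℚ q D)
    (by rw [H31.natDegree_modPolyK]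
        exact H31.finrank_adjoin_jq ℚ hq (by exact_mod_cast hq.ne_zero))

theorem coeff_coeff_modPolyK (D : S28.ModPolyData q) (k i : ℕ) :
    ((H31.modPolyK ℚ q D).coeff k).coeff i = (((D.Φ.coeff k).coeff i : ℤ) : ℚ) := by
  rw [H31.modPolyK, Polynomial.coeff_map, Polynomial.coe_mapRingHom, Polynomial.coeff_map]
  rfl

theorem modPoly_coeff_coeff_eq_zero (hq : q.Prime) (D : S28.ModPolyData q) (k i : ℕ)
    (hi : q + 1 < i) : (D.Φ.coeff k).coeff i = 0 := by
  obtain ⟨c, -, hsw⟩ := exists_swap_modPolyK q hq D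
  have h := H31.coeff_coeff_eq_zero_of_swap hsw k i (by rw [H31.natDegree_modPolyK]; exact hi)
  rw [coeff_coeff_modPolyK] at h
  exact_mod_cast h

theorem modPoly_coeff_top (hq : q.Prime) (D : S28.ModPolyData q) :
    (D.Φ.coeff q).coeff (q + 1) = 0 := by
  obtain ⟨c, -, hsw⟩ := exists_swap_modPolyK q hq D
  have h1 : ((Bivariate.swap (H31.modPolyK ℚ q D)).coeff (q + 1)).coeff q
      = ((H31.modPolyK ℚ q D).coeff q).coeff (q + 1) := H31.coeff_coeff_swap _ (q + 1) q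
  have h2 : (H31.modPolyK ℚ q D).coeff (q + 1) = 1 := by
    have := (H31.modPolyK_monic ℚ q D).coeff_natDegree
    rwa [H31.natDegree_modPolyK] at this
  rw [hsw, coeff_C_mul, coeff_C_mul, h2, Polynomial.coeff_one,
    if_neg hq.ne_zero.symm.symm, mul_zero] at h1
  have h3 := h1.symm
  rw [coeff_coeff_modPolyK] at h3
  exact_mod_cast h3

/-- every coefficient of `Φ_q ∈ ℤ[X][Y]` has `X`-degree `≤ q + 1`. -/
theorem modPoly_natDegree_coeff_le (hq : q.Prime) (D : S28.ModPolyData q) (k : ℕ) :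
    (D.Φ.coeff k).natDegree ≤ q + 1 :=
  Polynomial.natDegree_le_iff_coeff_eq_zero.mpr fun i hi =>
    modPoly_coeff_coeff_eq_zero q hq D k i hi

/-- the coefficient of `Y^q` of `Φ_q` has `X`-degree `≤ q`. -/
theorem modPoly_natDegree_coeff_top_le (hq : q.Prime) (D : S28.ModPolyData q) :
    (D.Φ.coeff q).natDegree ≤ q := by
  rw [Polynomial.natDegree_le_iff_coeff_eq_zero]
  intro i hi
  rcases Nat.lt_or_ge (q + 1) i with h | h
  · exact modPoly_coeff_coeff_eq_zero q hq D q i h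
  · have : i = q + 1 := by omega
    subst this
    exact modPoly_coeff_top q hq D

end Shape

/-! ## The functions `z`, `y` lie in every valuation ring containing `1 / (j j_q)` -/

section Val

variable {K : Type*} [Field K]

theorem div_pow_sub_one_mul (a b c : K) (q : ℕ) (hb : b ≠ 0) :
    (a / b ^ q - 1) * c⁻¹ = ((a - b ^ q) * c⁻¹) * (b⁻¹) ^ q := by
  have hbq : b ^ q ≠ 0 := pow_ne_zero _ hb
  rw [inv_pow, sub_mul, sub_mul, sub_mul, div_eq_mul_inv, one_mul]
  have : b ^ q * c⁻¹ * (b ^ q)⁻¹ = c⁻¹ := by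
    rw [mul_comm (b ^ q), mul_assoc, mul_inv_cancel₀ hbq, mul_one]
  rw [this]
  ring

theorem inv_mem_of_inv_mul_mem {j jq : K} (hjq0 : jq ≠ 0) (Φ : Polynomial (Polynomial ℤ))
    (hΦ : Φ.Monic) (h1 : Φ.eval₂ (Polynomial.aeval (R := ℤ) j).toRingHom jq = 0)
    (V : ValuationSubring K) (hx : (j * jq)⁻¹ ∈ V) : j⁻¹ ∈ V := by
  by_contra ha
  have haV : j ∈ V := by
    have := (V.mem_or_inv_mem j⁻¹).resolve_left ha
    rwa [inv_inv] at this
  have hb : jq ∈ V := H873.mem_valuationSubring_of_monic_eval Φ hΦ h1 V haV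
  have : j⁻¹ = jq * (j * jq)⁻¹ := by
    have hj0 : j ≠ 0 := fun h0 => ha (by rw [h0, inv_zero]; exact V.zero_mem)
    field_simp
  exact ha (this ▸ V.mul_mem _ _ hb hx)

theorem div_pow_mem_of_inv_mul_mem {j jq : K} (hj0 : j ≠ 0) (hjq0 : jq ≠ 0)
    (Φ : Polynomial (Polynomial ℤ)) {n : ℕ} (hn : 2 ≤ n) (hΦ : Φ.Monic)
    (hdeg : Φ.natDegree = n) (hin : ∀ k, (Φ.coeff k).natDegree ≤ n)
    (htop : (Φ.coeff (n - 1)).natDegree ≤ n - 1)
    (h1 : Φ.eval₂ (Polynomial.aeval (R := ℤ) j).toRingHom jq = 0)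
    (h2 : Φ.eval₂ (Polynomial.aeval (R := ℤ) jq).toRingHom j = 0)
    (V : ValuationSubring K) (hx : (j * jq)⁻¹ ∈ V) :
    jq / j ^ (n - 1) ∈ V ∧ j / jq ^ (n - 1) ∈ V := by
  have hu : j⁻¹ ∈ V := inv_mem_of_inv_mul_mem hjq0 Φ hΦ h1 V hx
  have huq : jq⁻¹ ∈ V :=
    inv_mem_of_inv_mul_mem hj0 Φ hΦ h2 V (by rwa [mul_comm] at hx)
  constructor
  · have h := pow_div_mem_of_shape V hu huq (inv_ne_zero hj0) (inv_ne_zero hjq0) Φ hn hΦ hdeg
      hin htop (by rw [inv_inv, inv_inv]; exact h1)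
    have e : j⁻¹ ^ (n - 1) / jq⁻¹ = jq / j ^ (n - 1) := by
      rw [inv_pow, div_eq_mul_inv, inv_inv, div_eq_mul_inv, mul_comm]
    rwa [e] at h
  · have h := pow_div_mem_of_shape V huq hu (inv_ne_zero hjq0) (inv_ne_zero hj0) Φ hn hΦ hdeg
      hin htop (by rw [inv_inv, inv_inv]; exact h2)
    have e : jq⁻¹ ^ (n - 1) / j⁻¹ = j / jq ^ (n - 1) := by
      rw [inv_pow, div_eq_mul_inv, inv_inv, div_eq_mul_inv, mul_comm]
    rwa [e] at h

end Val

/-! ## Concrete part -/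

section Concrete

variable (P : ValuationSubring Qb) (E : IntermediateField ℚ Qb) (M q : ℕ) [NeZero M] [NeZero q]

/-- `j` at level `M q`. -/
abbrev j1 : FE E (M * q) := jE E (M * q) 1 (one_dvd _)

/-- `j_q` at level `M q`. -/
abbrev jq1 : FE E (M * q) := jE E (M * q) q (dvd_mul_left q M)

/-- `z = j_q / j ^ q`. -/
def zE : FE E (M * q) := jq1 E M q / j1 E M q ^ q

/-- `y = j / j_q ^ q`. -/
def yE : FE E (M * q) := j1 E M q / jq1 E M q ^ q

theorem xE_eq : xE E M q = j1 E M q * jq1 E M q := rfl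

theorem yE_mul_zE : yE E M q * zE E M q = ((xE E M q)⁻¹) ^ (q - 1) := by
  have h1 : j1 E M q ≠ 0 := H873.jE_ne_zero E (M * q) 1 (one_dvd _)
  have h2 : jq1 E M q ≠ 0 := H873.jE_ne_zero E (M * q) q (dvd_mul_left q M)
  have hq : 1 ≤ q := Nat.one_le_iff_ne_zero.mpr (NeZero.ne q)
  rw [xE_eq, yE, zE, inv_pow, mul_pow]
  have e1 : j1 E M q ^ q = j1 E M q ^ (q - 1) * j1 E M q := by
    rw [← pow_succ, Nat.sub_add_cancel hq]
  have e2 : jq1 E M q ^ q = jq1 E M q ^ (q - 1) * jq1 E M q := by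
    rw [← pow_succ, Nat.sub_add_cancel hq]
  rw [e1, e2]
  field_simp

theorem zy_mem_chartAlg (hq : q.Prime) :
    zE E M q ∈ chartAlg P E (M * q) (xE E M q)⁻¹ ∧
      yE E M q ∈ chartAlg P E (M * q) (xE E M q)⁻¹ := by
  obtain ⟨D⟩ := S28.H807.nonempty_modPolyData q hq
  have hj : D.Φ.eval₂ (Polynomial.aeval (R := ℤ) (jq1 E M q)).toRingHom (j1 E M q) = 0 :=
    H873.eval₂_eq_zero_of_int E (M * q) D.Φ _ _ _ _ (H873.coe_jE_one E (M * q))
      (H873.coe_jE_int E (M * q) q (dvd_mul_left q M)) D.eval_j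
  have hjq : D.Φ.eval₂ (Polynomial.aeval (R := ℤ) (j1 E M q)).toRingHom (jq1 E M q) = 0 :=
    H873.eval₂_eq_zero_of_int E (M * q) D.Φ _ _ _ _
      (H873.coe_jE_int E (M * q) q (dvd_mul_left q M)) (H873.coe_jE_one E (M * q)) D.eval_jp
  have h1 : j1 E M q ≠ 0 := H873.jE_ne_zero E (M * q) 1 (one_dvd _)
  have h2 : jq1 E M q ≠ 0 := H873.jE_ne_zero E (M * q) q (dvd_mul_left q M)
  have key : ∀ V : ValuationSubring (FE E (M * q)), (xE E M q)⁻¹ ∈ V →
      zE E M q ∈ V ∧ yE E M q ∈ V := fun V hx =>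
    div_pow_mem_of_inv_mul_mem (n := q + 1) h1 h2 D.Φ (by have := hq.two_le; omega) D.monic
      D.natDegree_eq (modPoly_natDegree_coeff_le q hq D)
      (modPoly_natDegree_coeff_top_le q hq D) hjq hj V hx
  constructor
  · rw [← H372.mem_chart_iff]
    exact H873.isIntegralElem_of_isIntegral_closure _
      (H873.isIntegral_closure_of_forall_valuationSubring fun V hx => (key V hx).1)
  · rw [← H372.mem_chart_iff]
    exact H873.isIntegralElem_of_isIntegral_closure _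
      (H873.isIntegral_closure_of_forall_valuationSubring fun V hx => (key V hx).2)

variable {P E M q}
variable (w : RE P E)

/-- `z ≡ 1 mod w V∞`. -/
theorem zE_sub_one_inW (hS : Setting P E M q w) {V : ValuationSubring (FE E (M * q))}
    (hV : IsVinf P E (M * q) V) : InW P E (M * q) V w (zE E M q - 1) := by
  have hN := H372.level_ne_zero w hS
  have hk := H372.inW_jE_sub_pow w hS hV 1 (one_dvd M)
  have hcongr : jE E (M * q) (1 * q) (mul_dvd_mul_right (one_dvd M) q) = jq1 E M q :=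
    H372.jE_congr (one_mul q) _ _
  rw [hcongr] at hk
  have hinv : (j1 E M q)⁻¹ ∈ V := H372.jE_inv_mem w hS hN hV 1 (one_dvd _)
  have h1 : j1 E M q ≠ 0 := H873.jE_ne_zero E (M * q) 1 (one_dvd _)
  have e : (zE E M q - 1) * (cE P E (M * q) w)⁻¹
      = ((jq1 E M q - j1 E M q ^ q) * (cE P E (M * q) w)⁻¹) * ((j1 E M q)⁻¹) ^ q := by
    rw [zE]
    exact div_pow_sub_one_mul _ _ _ q h1
  show (zE E M q - 1) * (cE P E (M * q) w)⁻¹ ∈ V
  rw [e]
  exact V.mul_mem _ _ hk (V.pow_mem hinv q)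

/-- `y ≡ 1 mod w V₀`, `V₀ = V∞ ∘ W`. -/
theorem yE_sub_one_inW (hS : Setting P E M q w) {V : ValuationSubring (FE E (M * q))}
    (hV : IsVinf P E (M * q) V) {W : FE E (M * q) ≃ₐ[E] FE E (M * q)}
    (hW : IsFricke E (M * q) W) :
    InW P E (M * q) (V.comap (W : FE E (M * q) →+* FE E (M * q))) w (yE E M q - 1) := by
  rw [H372.inW_comap_iff]
  have hN := H372.level_ne_zero w hS
  have hk := H372.inW_jE_sub_pow w hS hV M (dvd_refl M)
  have hinv : (jE E (M * q) M (dvd_mul_right M q))⁻¹ ∈ V :=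
    H372.jE_inv_mem w hS hN hV M (dvd_mul_right M q)
  have h0 : jE E (M * q) M (dvd_mul_right M q) ≠ 0 := H873.jE_ne_zero E (M * q) M _
  have hWy : W (yE E M q - 1) = jE E (M * q) (M * q) (dvd_refl _) /
      (jE E (M * q) M (dvd_mul_right M q)) ^ q - 1 := by
    rw [yE, map_sub, map_one, map_div₀, map_pow, H372.fricke_jE_one hW, H372.fricke_jE_q hW]
  have e : (W (yE E M q - 1)) * (cE P E (M * q) w)⁻¹
      = ((jE E (M * q) (M * q) (dvd_refl _) - (jE E (M * q) M (dvd_mul_right M q)) ^ q) *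
          (cE P E (M * q) w)⁻¹) * ((jE E (M * q) M (dvd_mul_right M q))⁻¹) ^ q := by
    rw [hWy]
    exact div_pow_sub_one_mul _ _ _ q h0
  show (W (yE E M q - 1)) * (cE P E (M * q) w)⁻¹ ∈ V
  rw [e]
  exact V.mul_mem _ _ hk (V.pow_mem hinv q)

/-- **Cusps are not nodes** (level `M q`, chart at infinity): a proper ideal of the chart at
infinity containing both components does not contain `x⁻¹ = (j j_q)⁻¹`. -/
theorem no_node_at_infinity (hS : Setting P E M q w) (V : ValuationSubring (FE E (M * q)))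
    (W : FE E (M * q) ≃ₐ[E] FE E (M * q)) (hV : IsVinf P E (M * q) V)
    (hW : IsFricke E (M * q) W)
    (p₁ p₂ : Ideal (chartAlg P E (M * q) (xE E M q)⁻¹))
    (h₁ : IsCut P E (M * q) w V (chartAlg P E (M * q) (xE E M q)⁻¹) p₁)
    (h₂ : IsCut P E (M * q) w (V.comap (W : FE E (M * q) →+* FE E (M * q)))
      (chartAlg P E (M * q) (xE E M q)⁻¹) p₂)
    (n : Ideal (chartAlg P E (M * q) (xE E M q)⁻¹)) (hn : n ≠ ⊤) (h1 : p₁ ≤ n) (h2 : p₂ ≤ n)
    (v : chartAlg P E (M * q) (xE E M q)⁻¹) (hv : (v : FE E (M * q)) = (xE E M q)⁻¹) :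
    v ∉ n := by
  obtain ⟨hz, hy⟩ := zy_mem_chartAlg P E M q hS.q_prime
  set zB : chartAlg P E (M * q) (xE E M q)⁻¹ := ⟨zE E M q, hz⟩ with hzB
  set yB : chartAlg P E (M * q) (xE E M q)⁻¹ := ⟨yE E M q, hy⟩ with hyB
  have hq1 : 0 < q - 1 := by have := hS.q_prime.two_le; omega
  refine not_mem_of_yz (pinf := p₁) (pzero := p₂) (y := yB) (z := zB) (k := q - 1) hn h1 h2 hq1
    ?_ ?_ ?_
  · rw [h₁]
    exact zE_sub_one_inW w hS hV
  · rw [h₂]
    exact yE_sub_one_inW w hS hV hW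
  · apply Subtype.ext
    show yE E M q * zE E M q = (v : FE E (M * q)) ^ (q - 1)
    rw [hv, yE_mul_zE]

end Concrete

end Fermat.Agent.S36.H153

end
end
-- ===== PACK-END S36/H153/CuspNode.lean

-- ===== PACK-BEGIN S15/H422/UnitMem.lean
section






/-!
# S15 / P-C1 (helper422), part 1: the modular unit lies in the function field of `X₀(N)`

`gSer N = Δ(q)/Δ(q^N)` (the Prelude's `modularUnitSeries N`, base changed to `ℚ̄`) and
`uSer N = N¹² Δ(q^N)/Δ(q)` are elements of `modularFunctionFieldBar N`.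

Inputs (all on main): helper589's analytic unit (`unitFun ∈ goodRing`, its `q`-expansion),
helper882's MERO theorem (`q`-expansions of good functions lie in the function field over `ℂ`)
and his descent `F_ℂ ∩ ℚ̄((q)) = F_ℚ̄`.
-/

set_option autoImplicit false

noncomputable section

open ModularCurve HahnSeries UpperHalfPlane
open scoped MatrixGroups

namespace Fermat.Agent.S15.H422

open Fermat.Agent.S24 Fermat.Agent.S28

/-- `N¹² Δ(q^N)/Δ(q)` over `ℚ`. -/
def uSerQ (N : ℕ) [NeZero N] : LaurentSeries ℚ :=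
  HahnSeries.C ((N : ℚ) ^ 12) * deltaSeriesN N * deltaSeries⁻¹

theorem uSerQ_mul_modularUnitSeries (N : ℕ) [NeZero N] :
    uSerQ N * modularUnitSeries N = HahnSeries.C ((N : ℚ) ^ 12) := by
  have h1 := deltaSeries_ne_zero
  have h2 := deltaSeriesN_ne_zero N
  rw [uSerQ, modularUnitSeries]
  field_simp

theorem deltaSeries_eq_deltaq : deltaSeries = deltaq := rfl

theorem coeffMap_deltaSeries :
    coeffMap (algebraMap ℚ ℂ) deltaSeries = H565.deltaSeriesC := by
  rw [deltaSeries_eq_deltaq]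
  exact H748.coeffMap_deltaq

theorem coeffMap_C {R S : Type*} [CommRing R] [CommRing S] (f : R →+* S) (c : R) :
    coeffMap f (HahnSeries.C c : LaurentSeries R) = HahnSeries.C (f c) := by
  rw [HahnSeries.C_apply, coeffMap_single, HahnSeries.C_apply]

/-- the base change of `uSerQ` to `ℂ` is helper589's series. -/
theorem coeffMap_uSerQ (N : ℕ) [NeZero N] :
    coeffMap (algebraMap ℚ ℂ) (uSerQ N) = H589.unitSeriesC N := by
  have hinv : (H565.deltaSeriesC)⁻¹ = H565.deltaInvSeriesC :=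
    inv_eq_of_mul_eq_one_right H565.deltaSeriesC_mul_inv
  rw [uSerQ, H589.unitSeriesC, map_mul, map_mul, coeffMap_C, map_inv₀, deltaSeriesN,
    coeffMap_qExpand, coeffMap_deltaSeries, hinv]
  simp

/-- the unit function has the expected `q`-expansion, in helper708's sense. -/
theorem hasQExp_unitFun (N : ℕ) [NeZero N] (hN : 0 < N) :
    H708.HasQExp 1 (H589.unitFun N hN) (H589.unitSeriesC N) := by
  refine H708.HasQExp.of_hasSum (H589.mdifferentiable_unitFun N hN) ?_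
  intro τ
  have h := H589.hasTExp_unitFun N hN τ
  simpa [H708.qh] using h

/-- the unit series over `ℂ` lies in the function field over `ℂ`. -/
theorem unitSeriesC_mem_FC (N : ℕ) [NeZero N] :
    H589.unitSeriesC N ∈ laurentBaseChange ℂ (modularFunctionFieldFull N) := by
  have hN : 0 < N := Nat.pos_of_ne_zero (NeZero.ne N)
  exact Fermat.Agent.S29.H882.mem_FC_of_hasQExp (H589.unitFun_mem_goodRing N hN)
    (hasQExp_unitFun N hN)

/-- `N¹² Δ(q^N)/Δ(q)` over `ℚ̄`. -/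
def uSer (N : ℕ) [NeZero N] : LaurentSeries Kbar := coeffEmb Kbar (uSerQ N)

/-- `Δ(q)/Δ(q^N)` over `ℚ̄`. -/
def gSer (N : ℕ) [NeZero N] : LaurentSeries Kbar := coeffEmb Kbar (modularUnitSeries N)

theorem uSer_mem (N : ℕ) [NeZero N] : uSer N ∈ modularFunctionFieldBar N := by
  refine Fermat.Agent.S29.H882.mem_laurentBaseChange_of_coeffMap_mem H997.ιK
    (modularFunctionFieldFull N) ?_
  rw [uSer, Deg457.coeffMap_coeffEmb']
  show coeffMap (algebraMap ℚ ℂ) (uSerQ N) ∈ _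
  rw [coeffMap_uSerQ]
  exact unitSeriesC_mem_FC N

theorem uSer_mul_gSer (N : ℕ) [NeZero N] :
    uSer N * gSer N = HahnSeries.C ((N : Kbar) ^ 12) := by
  rw [uSer, gSer, ← map_mul, uSerQ_mul_modularUnitSeries, coeffEmb, coeffMap_C]
  simp

theorem natCast_pow_ne_zero (N : ℕ) [NeZero N] : ((N : Kbar) ^ 12) ≠ 0 :=
  pow_ne_zero _ (Nat.cast_ne_zero.mpr (NeZero.ne N))

theorem uSer_ne_zero (N : ℕ) [NeZero N] : uSer N ≠ 0 := by
  intro h
  have := uSer_mul_gSer N
  rw [h, zero_mul] at this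
  have h2 := congrArg (fun s : LaurentSeries Kbar => s.coeff 0) this
  simp only [HahnSeries.coeff_zero, HahnSeries.C_apply, HahnSeries.coeff_single_same] at h2
  exact natCast_pow_ne_zero N h2.symm

theorem gSer_eq (N : ℕ) [NeZero N] :
    gSer N = HahnSeries.C ((N : Kbar) ^ 12) * (uSer N)⁻¹ := by
  rw [← uSer_mul_gSer N]
  field_simp [uSer_ne_zero N]

theorem C_mem (N : ℕ) (c : Kbar) :
    (HahnSeries.C c : LaurentSeries Kbar) ∈ modularFunctionFieldBar N := by
  have : (HahnSeries.C c : LaurentSeries Kbar) = algebraMap Kbar (LaurentSeries Kbar) c := by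
    rw [algebraMap_laurentSeries_eq_single]; rfl
  rw [this]
  exact (modularFunctionFieldBar N).algebraMap_mem c

theorem gSer_mem (N : ℕ) [NeZero N] : gSer N ∈ modularFunctionFieldBar N := by
  rw [gSer_eq]
  exact mul_mem (C_mem N _) (inv_mem (uSer_mem N))

/-- The modular unit `u = N¹² Δ(q^N)/Δ(q)` as an element of the function field of `X₀(N)`. -/
def uF (N : ℕ) [NeZero N] : FF N := ⟨uSer N, uSer_mem N⟩

/-- The modular unit `g = Δ(q)/Δ(q^N)` as an element of the function field of `X₀(N)`. -/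
def gF (N : ℕ) [NeZero N] : FF N := ⟨gSer N, gSer_mem N⟩

@[simp] theorem coe_uF (N : ℕ) [NeZero N] : ((uF N : FF N) : LaurentSeries Kbar) = uSer N := rfl

@[simp] theorem coe_gF (N : ℕ) [NeZero N] : ((gF N : FF N) : LaurentSeries Kbar) = gSer N := rfl

theorem uF_mul_gF (N : ℕ) [NeZero N] :
    uF N * gF N = algebraMap Kbar (FF N) ((N : Kbar) ^ 12) := by
  apply Subtype.ext
  show uSer N * gSer N = algebraMap Kbar (LaurentSeries Kbar) ((N : Kbar) ^ 12)
  rw [uSer_mul_gSer, algebraMap_laurentSeries_eq_single]; rfl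

theorem uF_ne_zero (N : ℕ) [NeZero N] : uF N ≠ 0 := fun h =>
  uSer_ne_zero N (congrArg Subtype.val h)

theorem gF_ne_zero (N : ℕ) [NeZero N] : gF N ≠ 0 := by
  intro h
  have := uF_mul_gF N
  rw [h, mul_zero] at this
  exact natCast_pow_ne_zero N ((algebraMap Kbar (FF N)).injective (by rw [← this, map_zero]))

end Fermat.Agent.S15.H422

end
end
-- ===== PACK-END S15/H422/UnitMem.lean

-- ===== PACK-BEGIN S36/H890/T9E.lean
section



/-!
# The level-`9` Hauptmodul in the function fields `F_{N,E}` (helper890, S36 cell REG, `q = 2`)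

`A2.Mod` vocabulary: `FE E N = E(j_d : d ∣ N) ⊆ E((t))`.  For `9 ∣ N`:

* `t3E`, `t3eE`, `t9E : FE E N` — `t₃`, `t₃(t³)`, `t₉`, with INTEGRAL `t`-expansions
  (`coe_t9E_int` …: `= coeffEmb E (castQ g)`, `g : LaurentSeries ℤ`, the shape of
  `A2.Mod.H553.mem_of_int` / `inv_mem_of_int`);
* the relations in `FE E N`: `jE_mul_t9E` (`j t₉⁹ Q = (t₉ + 9)³ (t₉³ + 243 Q)³`),
  `t3E_mul_quad`, `t3eE_eq`, and `l1`, `l2`, `l3` of helper934's `Congr9.t9_congr`
  (`t3E_lin`, `t3eE_lin`, `t9E_lin`);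
* `αE_t9E`, `coe_βE_t9E` : the images under the two degeneracy maps.
-/

set_option autoImplicit false
set_option synthInstance.maxHeartbeats 400000
set_option maxHeartbeats 1600000
set_option linter.unusedSectionVars false

noncomputable section

namespace Fermat.Agent.S36.H890

open ModularCurve HahnSeries Fermat.Agent.Lib.Haupt Fermat.Agent.A2.Mod
open Fermat.Agent.A2

variable (E : IntermediateField ℚ _root_.Fermat.Agent.A2.Mod.Qb) (N : ℕ)

/-! ## Membership -/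

theorem t3_mem_laurentBaseChange (L : Type*) [Field L] [Algebra ℚ L] (M : ℕ) (h3 : 3 ∣ M) :
    t3 L ∈ laurentBaseChange L (modularFunctionFieldFull M) := by
  have h := coeffEmb_mem_laurentBaseChange L (t3_mem_full M h3)
  rwa [coeffEmb, coeffMap_t3] at h

theorem qExpand_t3_mem_laurentBaseChange (L : Type*) [Field L] [Algebra ℚ L] (M : ℕ)
    (h9 : 9 ∣ M) :
    qExpand L 3 (t3 L) ∈ laurentBaseChange L (modularFunctionFieldFull M) := by
  have h0 : qExpand ℚ 3 (t3 ℚ) ∈ modularFunctionFieldFull M := qExpand_t3_mem_fullC ℚ M h9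
  have h := coeffEmb_mem_laurentBaseChange L h0
  rwa [coeffEmb, coeffMap_qExpand, coeffMap_t3] at h

/-- `t₃ ∈ F_{N,E}`, `3 ∣ N`. -/
def t3E (h3 : 3 ∣ N) : _root_.Fermat.Agent.A2.Mod.FE E N := ⟨t3 E, t3_mem_laurentBaseChange E N h3⟩

/-- `t₃(t³) ∈ F_{N,E}`, `9 ∣ N`. -/
def t3eE (h9 : 9 ∣ N) : _root_.Fermat.Agent.A2.Mod.FE E N := ⟨qExpand E 3 (t3 E), qExpand_t3_mem_laurentBaseChange E N h9⟩

/-- `t₉ ∈ F_{N,E}`, `9 ∣ N`. -/
def t9E (h9 : 9 ∣ N) : _root_.Fermat.Agent.A2.Mod.FE E N := ⟨t9 E, t9_mem_laurentBaseChange E N h9⟩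

theorem coe_t3E (h3 : 3 ∣ N) : ((t3E E N h3 : _root_.Fermat.Agent.A2.Mod.FE E N) : LaurentSeries E) = t3 E := rfl

theorem coe_t3eE (h9 : 9 ∣ N) :
    ((t3eE E N h9 : _root_.Fermat.Agent.A2.Mod.FE E N) : LaurentSeries E) = qExpand E 3 (t3 E) := rfl

theorem coe_t9E (h9 : 9 ∣ N) : ((t9E E N h9 : _root_.Fermat.Agent.A2.Mod.FE E N) : LaurentSeries E) = t9 E := rfl

/-! ## Integral expansions -/

theorem coeffEmb_castQ_eq (g : LaurentSeries ℤ) :
    coeffEmb E (H708.castQ g) = coeffMap (Int.castRingHom E) g := by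
  rw [coeffEmb, H708.castQ, coeffMap_coeffMap]
  exact coeffMap_congr (RingHom.ext_int _ _) g

theorem coe_t3E_int (h3 : 3 ∣ N) :
    ((t3E E N h3 : _root_.Fermat.Agent.A2.Mod.FE E N) : LaurentSeries E) = coeffEmb E (H708.castQ (t3 ℤ)) := by
  rw [coe_t3E, coeffEmb_castQ_eq, coeffMap_t3]

theorem coe_t3eE_int (h9 : 9 ∣ N) :
    ((t3eE E N h9 : _root_.Fermat.Agent.A2.Mod.FE E N) : LaurentSeries E)
      = coeffEmb E (H708.castQ (qExpand ℤ 3 (t3 ℤ))) := by
  rw [coe_t3eE, coeffEmb_castQ_eq, coeffMap_qExpand, coeffMap_t3]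

theorem coe_t9E_int (h9 : 9 ∣ N) :
    ((t9E E N h9 : _root_.Fermat.Agent.A2.Mod.FE E N) : LaurentSeries E) = coeffEmb E (H708.castQ (t9 ℤ)) := by
  rw [coe_t9E, coeffEmb_castQ_eq, coeffMap_t9]

theorem h9_coe_jE (d : ℕ) [NeZero d] (hd : d ∣ N) :
    ((jE E N d hd : _root_.Fermat.Agent.A2.Mod.FE E N) : LaurentSeries E) = qExpand E d (jqModC E) := by
  show coeffEmb E (qExpand ℚ d jq) = _
  rw [coeffEmb, coeffMap_qExpand, ← jqModC_rat, coeffMap_jqModC]

theorem h9_coe_jE_one :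
    ((jE E N 1 (one_dvd N) : _root_.Fermat.Agent.A2.Mod.FE E N) : LaurentSeries E) = jqModC E := by
  rw [h9_coe_jE, qExpand_one_apply]

/-! ## Relations in `F_{N,E}` -/

/-- `j · t₉⁹ Q(t₉) = (t₉ + 9)³ (t₉³ + 243 Q(t₉))³` in `F_{N,E}`. -/
theorem jE_mul_t9E (h9 : 9 ∣ N) :
    jE E N 1 (one_dvd N)
        * (t9E E N h9 ^ 9 * (t9E E N h9 ^ 2 + 9 * t9E E N h9 + 27))
      = (t9E E N h9 + 9) ^ 3
        * (t9E E N h9 ^ 3 + 243 * (t9E E N h9 ^ 2 + 9 * t9E E N h9 + 27)) ^ 3 := by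
  apply Subtype.ext
  have h := jq_mul_t9 E
  rw [← h9_coe_jE_one E N, ← coe_t9E E N h9] at h
  exact h

/-- `t₃ · Q(t₉) = t₉³` in `F_{N,E}`. -/
theorem t3E_mul_quad (h9 : 9 ∣ N) :
    t3E E N (Dvd.dvd.trans (by norm_num) h9) * (t9E E N h9 ^ 2 + 9 * t9E E N h9 + 27)
      = t9E E N h9 ^ 3 :=
  Subtype.ext (t9_cube E)

/-- `t₃(t³) = t₉ · Q(t₉)` in `F_{N,E}`. -/
theorem t3eE_eq (h9 : 9 ∣ N) :
    t3eE E N h9 = t9E E N h9 * (t9E E N h9 ^ 2 + 9 * t9E E N h9 + 27) :=
  Subtype.ext (t3e_eq E)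

/-- `l3` : `t₉ · den₉(t₃, t₃(t³)) = num₉(t₃, t₃(t³))` in `F_{N,E}`. -/
theorem t9E_lin (h9 : 9 ∣ N) :
    t9E E N h9 * h9den (t3E E N (Dvd.dvd.trans (by norm_num) h9)) (t3eE E N h9)
      = h9num (t3E E N (Dvd.dvd.trans (by norm_num) h9)) (t3eE E N h9) :=
  Subtype.ext (t9_mul E)

/-- `l1` : `U₃(j, j₃) · t₃ = W₃(j, j₃)` in `F_{N,E}`. -/
theorem t3E_lin (h3 : 3 ∣ N) :
    h9u3 (jE E N 1 (one_dvd N)) (jE E N 3 h3) * t3E E N h3
      = h9w3 (jE E N 1 (one_dvd N)) (jE E N 3 h3) := by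
  apply Subtype.ext
  have h := t3_lin9 E
  rw [← h9_coe_jE E N 3 h3, ← h9_coe_jE_one E N, ← coe_t3E E N h3] at h
  exact h

/-- `l2` : `U₃(j₃, j₉) · t₃(t³) = W₃(j₃, j₉)` in `F_{N,E}`. -/
theorem t3eE_lin (h9 : 9 ∣ N) :
    h9u3 (jE E N 3 (Dvd.dvd.trans (by norm_num) h9)) (jE E N 9 h9) * t3eE E N h9
      = h9w3 (jE E N 3 (Dvd.dvd.trans (by norm_num) h9)) (jE E N 9 h9) := by
  apply Subtype.ext
  have h := t3e_lin9 E
  rw [← h9_coe_jE E N 3 (Dvd.dvd.trans (by norm_num) h9), ← h9_coe_jE E N 9 h9,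
    ← coe_t3eE E N h9] at h
  exact h

/-! ## The degeneracy maps -/

section Deg

variable [NeZero N] (q : ℕ) [NeZero q]

theorem αE_t9E (h9 : 9 ∣ N) :
    αE E N q (t9E E N h9) = t9E E (N * q) (Dvd.dvd.mul_right h9 q) :=
  Subtype.ext (coe_heckeAlphaBar N q _)

theorem coe_βE_t9E (h9 : 9 ∣ N) :
    ((βE E N q (t9E E N h9) : _root_.Fermat.Agent.A2.Mod.FE E (N * q)) : LaurentSeries E) = qExpand E q (t9 E) := rfl

theorem coe_βE_t9E_int (h9 : 9 ∣ N) :
    ((βE E N q (t9E E N h9) : _root_.Fermat.Agent.A2.Mod.FE E (N * q)) : LaurentSeries E)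
      = coeffEmb E (H708.castQ (qExpand ℤ q (t9 ℤ))) := by
  rw [coe_βE_t9E, coeffEmb_castQ_eq, coeffMap_qExpand, coeffMap_t9]

theorem αE_jE (d : ℕ) [NeZero d] (hd : d ∣ N) :
    αE E N q (jE E N d hd) = jE E (N * q) d (Dvd.dvd.mul_right hd q) :=
  Subtype.ext (coe_heckeAlphaBar N q _)

end Deg

end Fermat.Agent.S36.H890

end
end
-- ===== PACK-END S36/H890/T9E.lean

-- ===== PACK-BEGIN S36/H890/Vinf9.lean
section



/-!
# The level-`9` Gauss units are units of `V∞` (helper890, S36 cell REG, `q = 2`)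

`V` the Gauss valuation ring of `F_{N,E}` (`A2.Mod.IsVinf P E N V`), `9 ∣ N`, ANY residue
characteristic.  The following elements of `F_{N,E}` and their inverses lie in `V`:

  `t₉`, `Q(t₉) = t₉² + 9 t₉ + 27`, `den₉(t₃, t₃(t³))`, `U₃(j, j₃)`, `U₃(j₃, j₉)`, `j`, `j - 1728`,

and they are nonzero (statements in the shape `f ≠ 0 ∧ f ∈ V ∧ f⁻¹ ∈ V` of `Eng.UnitAt`),

and `t₃`, `t₃(t³)`, `num₉`, `W₃(j, j₃)`, `W₃(j₃, j₉)` lie in `V`.  (Units of `V_mid`, `V_FF`
at level `N q²` follow by `α (V∞') ⊆ V`.)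
-/

set_option autoImplicit false
set_option synthInstance.maxHeartbeats 400000
set_option maxHeartbeats 1600000
set_option linter.unusedSectionVars false

noncomputable section

namespace Fermat.Agent.S36.H890

open ModularCurve HahnSeries Fermat.Agent.Lib.Haupt Fermat.Agent.A2.Mod
open Fermat.Agent.A2

variable (P : ValuationSubring _root_.Fermat.Agent.A2.Mod.Qb) (E : IntermediateField ℚ _root_.Fermat.Agent.A2.Mod.Qb) (N : ℕ)

/-- The ring homomorphism `ℤ((t)) → E((t))`. -/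
def castE : LaurentSeries ℤ →+* LaurentSeries E := (coeffEmb E).comp H708.castQ

theorem castE_apply (g : LaurentSeries ℤ) : castE E g = coeffEmb E (H708.castQ g) := rfl

theorem castE_eq (g : LaurentSeries ℤ) : castE E g = coeffMap (Int.castRingHom E) g :=
  coeffEmb_castQ_eq E g

theorem castE_t9 : castE E (t9 ℤ) = t9 E := by rw [castE_eq, coeffMap_t9]

theorem castE_t3 : castE E (t3 ℤ) = t3 E := by rw [castE_eq, coeffMap_t3]

theorem castE_jq : castE E (jqModC ℤ) = jqModC E := by rw [castE_eq, coeffMap_jqModC]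

theorem castE_qExpand (d : ℕ) [NeZero d] (g : LaurentSeries ℤ) :
    castE E (qExpand ℤ d g) = qExpand E d (castE E g) := by
  rw [castE_eq, castE_eq, coeffMap_qExpand]

variable {P E N}

/-- An element of `F_{N,E}` whose expansion is an integral series with a coefficient `1` is
nonzero. -/
theorem ne_zero_of_int {f : _root_.Fermat.Agent.A2.Mod.FE E N} {g : LaurentSeries ℤ} {k : ℤ}
    (hfg : (f : LaurentSeries E) = castE E g) (hk : g.coeff k = 1) : f ≠ 0 := by
  intro h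
  have h1 : (castE E g).coeff k = 1 := by
    rw [castE_eq, coeffMap_coeff, hk, map_one]
  rw [← hfg, h] at h1
  have h2 : (((0 : _root_.Fermat.Agent.A2.Mod.FE E N) : LaurentSeries E)).coeff k = 0 := rfl
  rw [h2] at h1
  exact zero_ne_one h1

/-- An element of `F_{N,E}` whose expansion is an integral series with a coefficient `1` is a
unit of `V∞` (in the form of `Eng.UnitAt`). -/
theorem unit_of_int {V : ValuationSubring (_root_.Fermat.Agent.A2.Mod.FE E N)} (hV : IsVinf P E N V) {f : _root_.Fermat.Agent.A2.Mod.FE E N}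
    {g : LaurentSeries ℤ} {k : ℤ} (hfg : (f : LaurentSeries E) = castE E g)
    (hk : g.coeff k = 1) : f ≠ 0 ∧ f ∈ V ∧ f⁻¹ ∈ V :=
  ⟨ne_zero_of_int hfg hk, H553.mem_of_int hV hfg, H553.inv_mem_of_int hV hfg (Or.inl hk)⟩

variable (P E N)

section Level9

variable {V : ValuationSubring (_root_.Fermat.Agent.A2.Mod.FE E N)} (hV : IsVinf P E N V) (h9 : 9 ∣ N)

include hV

theorem t9E_unit : t9E E N h9 ≠ 0 ∧ t9E E N h9 ∈ V ∧ (t9E E N h9)⁻¹ ∈ V :=
  unit_of_int hV (g := t9 ℤ) (k := -1) (by rw [coe_t9E, castE_t9]) (coeff_t9_neg_one ℤ)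

theorem t9E_quad_unit :
    t9E E N h9 ^ 2 + 9 * t9E E N h9 + 27 ≠ 0 ∧ t9E E N h9 ^ 2 + 9 * t9E E N h9 + 27 ∈ V
      ∧ (t9E E N h9 ^ 2 + 9 * t9E E N h9 + 27)⁻¹ ∈ V := by
  refine unit_of_int hV (g := t9 ℤ ^ 2 + 9 * t9 ℤ + 27) (k := -2) ?_
    (coeff_t9_quad_neg_two ℤ)
  rw [map_add, map_add, map_mul, map_pow, map_ofNat, map_ofNat, castE_t9]
  rfl

theorem t3E_mem : t3E E N (Dvd.dvd.trans (by norm_num) h9) ∈ V :=
  H553.mem_of_int hV (g := t3 ℤ) (by rw [coe_t3E, ← castE_apply, castE_t3])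

theorem t3eE_mem : t3eE E N h9 ∈ V :=
  H553.mem_of_int hV (g := qExpand ℤ 3 (t3 ℤ))
    (by rw [coe_t3eE, ← castE_apply, castE_qExpand, castE_t3])

theorem den9E_unit :
    h9den (t3E E N (Dvd.dvd.trans (by norm_num) h9)) (t3eE E N h9) ≠ 0
      ∧ h9den (t3E E N (Dvd.dvd.trans (by norm_num) h9)) (t3eE E N h9) ∈ V
      ∧ (h9den (t3E E N (Dvd.dvd.trans (by norm_num) h9)) (t3eE E N h9))⁻¹ ∈ V := by
  refine unit_of_int hV (g := h9den (t3 ℤ) (qExpand ℤ 3 (t3 ℤ))) (k := -4) ?_ (coeff_den9 ℤ)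
  rw [map_h9den, castE_qExpand, castE_t3]
  exact (map_h9den (_root_.Fermat.Agent.A2.Mod.FE E N).val.toRingHom _ _)

theorem u3E_unit :
    h9u3 (jE E N 1 (one_dvd N)) (jE E N 3 (Dvd.dvd.trans (by norm_num) h9)) ≠ 0
      ∧ h9u3 (jE E N 1 (one_dvd N)) (jE E N 3 (Dvd.dvd.trans (by norm_num) h9)) ∈ V
      ∧ (h9u3 (jE E N 1 (one_dvd N)) (jE E N 3 (Dvd.dvd.trans (by norm_num) h9)))⁻¹ ∈ V := by
  refine unit_of_int hV (g := h9u3 (jqModC ℤ) (qExpand ℤ 3 (jqModC ℤ))) (k := -9) ?_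
    (coeff_u3 ℤ)
  rw [map_h9u3, castE_qExpand, castE_jq, ← h9_coe_jE E N 3 (Dvd.dvd.trans (by norm_num) h9),
    ← h9_coe_jE_one E N]
  exact (map_h9u3 (_root_.Fermat.Agent.A2.Mod.FE E N).val.toRingHom _ _)

theorem u3eE_unit :
    h9u3 (jE E N 3 (Dvd.dvd.trans (by norm_num) h9)) (jE E N 9 h9) ≠ 0
      ∧ h9u3 (jE E N 3 (Dvd.dvd.trans (by norm_num) h9)) (jE E N 9 h9) ∈ V
      ∧ (h9u3 (jE E N 3 (Dvd.dvd.trans (by norm_num) h9)) (jE E N 9 h9))⁻¹ ∈ V := by
  refine unit_of_int hV (g := h9u3 (qExpand ℤ 3 (jqModC ℤ)) (qExpand ℤ 9 (jqModC ℤ)))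
    (k := -27) ?_ (coeff_u3e ℤ)
  rw [map_h9u3, castE_qExpand, castE_qExpand, castE_jq,
    ← h9_coe_jE E N 3 (Dvd.dvd.trans (by norm_num) h9), ← h9_coe_jE E N 9 h9]
  exact (map_h9u3 (_root_.Fermat.Agent.A2.Mod.FE E N).val.toRingHom _ _)

end Level9

section AnyLevel

variable {V : ValuationSubring (_root_.Fermat.Agent.A2.Mod.FE E N)} (hV : IsVinf P E N V)

include hV

theorem jE_one_unit :
    jE E N 1 (one_dvd N) ≠ 0 ∧ jE E N 1 (one_dvd N) ∈ V ∧ (jE E N 1 (one_dvd N))⁻¹ ∈ V :=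
  unit_of_int hV (g := jqModC ℤ) (k := -1) (by rw [h9_coe_jE_one, castE_jq])
    (coeff_jqModC_neg_one ℤ)

theorem jE_sub_1728_unit :
    jE E N 1 (one_dvd N) - 1728 ≠ 0 ∧ jE E N 1 (one_dvd N) - 1728 ∈ V
      ∧ (jE E N 1 (one_dvd N) - 1728)⁻¹ ∈ V := by
  refine unit_of_int hV (g := jqModC ℤ - 1728) (k := -1) ?_ (coeff_jq_sub_1728 ℤ)
  rw [map_sub, map_ofNat, castE_jq, ← h9_coe_jE_one E N]
  rfl

end AnyLevel

end Fermat.Agent.S36.H890

end
end
-- ===== PACK-END S36/H890/Vinf9.lean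

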