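import Fermat.Agent.Pack.S36.E17L0
import Fermat.Agent.Pack.S36.E17L1
import Fermat.Agent.Pack.S36.E10L2
import Fermat.Agent.Pack.S36.E16L2
import Fermat.Agent.Pack.S36.E3L1
import Fermat.Agent.Pack.S36.E3L3
import Fermat.Agent.Pack.S36.E17L2
import Fermat.Agent.Pack.S36.E6L0
import Fermat.Agent.Pack.S36.E15L1
import Fermat.Agent.Pack.S36.E15L0
import Fermat.Agent.Pack.S36.E17L3
import Fermat.Agent.Pack.S36.E12L2

-- ===== PACK-BEGIN S29/H871/FunctionField.lean
section


/-!
# S29 / E3, part 6: the constant field extension of a function field is a function field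

If `F/K` is a function field with coordinate `t` (`K` algebraically closed of characteristic
zero) and `F'/K'` is its constant field extension, then `t` is still transcendental over `K'`
and `F'` is finite over `K'(t)`.

(helper871)
-/

set_option autoImplicit false
set_option linter.unusedSectionVars false

noncomputable section

namespace Fermat.Agent.S29.H871

open AlgebraicCurve TensorProduct IntermediateField

variable {K F K' F' : Type*} [Field K] [Field F] [Field K'] [Field F']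
  [Algebra K F] [Algebra K' F'] [Algebra K K'] [Algebra F F'] [Algebra K F']
  [IsScalarTower K F F'] [IsScalarTower K K' F']

section Zero

variable [IsAlgClosed K] [CharZero K]

/-- A nonconstant function has a zero. -/
theorem exists_ord_pos {t : F} (ht : Transcendental K t) [FiniteDimensional K⟮t⟯ F] :
    ∃ v : Place K F, 0 < v.ord t := by
  classical
  have hfin := Fermat.Agent.S24.FF.finite_setOf_ord_pos (K := K) ht
  have hsum := Fermat.Agent.S24.FF.sum_ord_eq_finrank (K := K) ht hfin.toFinset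
    (fun v => by simp)
  by_contra hcon
  have hempty : hfin.toFinset = ∅ := by
    ext v
    simp only [Set.Finite.mem_toFinset, Set.mem_ofPred_eq, Finset.notMem_empty, iff_false]
    intro hv
    exact hcon ⟨v, hv⟩
  rw [hempty, Finset.sum_empty] at hsum
  have hpos : 0 < Module.finrank K⟮t⟯ F := Module.finrank_pos
  omega

/-- A function without zeros is constant. -/
theorem mem_range_of_forall_ord_le {f : F} {t : F} (ht : Transcendental K t)
    [FiniteDimensional K⟮t⟯ F] (hf : ∀ v : Place K F, v.ord f ≤ 0) :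
    f ∈ (algebraMap K F).range := by
  by_contra hcon
  have hftr : Transcendental K f := Fermat.Agent.S24.FF.transcendental_of_not_mem_range hcon
  have : FiniteDimensional K⟮f⟯ F :=
    Fermat.Agent.S24.FF.finiteDimensional_adjoin_of_transcendental ht hftr
  obtain ⟨v, hv⟩ := exists_ord_pos (K := K) hftr
  have := hf v
  omega

end Zero

section Transc

variable [IsConstExt K F K' F'] [IsAlgClosed K] [CharZero K] [IsAlgClosed K']

theorem isRationalPlace_all {t : F} (ht : Transcendental K t) [FiniteDimensional K⟮t⟯ F]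
    (v : Place K F) : IsRationalPlace v :=
  isRationalPlace_of_isAlgClosed v ht

/-- The coordinate stays transcendental after constant field extension. -/
theorem transcendental_algebraMap {t : F} (ht : Transcendental K t) [FiniteDimensional K⟮t⟯ F] :
    Transcendental K' (algebraMap F F' t) := by
  intro halg
  obtain ⟨c, hc⟩ := Fermat.Agent.S24.FF.mem_range_of_isAlgebraic halg
  obtain ⟨v, hv⟩ := exists_ord_pos (K := K) ht
  have hrat := isRationalPlace_all ht v
  have h1 := ord_placeBC_algebraMap (K' := K') (F' := F') hrat t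
  rw [← hc, Fermat.Agent.S24.FF.ord_algebraMap] at h1
  omega

end Transc

section Finite

variable [IsConstExt K F K' F']

theorem algebraMap_mem_adjoin_of_mem_adjoin {t : F} {r : F} (hr : r ∈ K⟮t⟯) :
    algebraMap F F' r ∈ K'⟮algebraMap F F' t⟯ := by
  induction hr using IntermediateField.adjoin_induction with
  | mem x hx =>
    rw [Set.mem_singleton_iff] at hx
    rw [hx]
    exact mem_adjoin_simple_self K' _
  | algebraMap x =>
    rw [← IsScalarTower.algebraMap_apply K F F', IsScalarTower.algebraMap_apply K K' F']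
    exact IntermediateField.algebraMap_mem _ _
  | add x y _ _ hx hy => rw [map_add]; exact add_mem hx hy
  | inv x _ hx => rw [map_inv₀]; exact inv_mem hx
  | mul x y _ _ hx hy => rw [map_mul]; exact mul_mem hx hy

/-- The ring homomorphism `K(t) → K'(t)`. -/
def adjoinMap (t : F) : K⟮t⟯ →+* K'⟮algebraMap F F' t⟯ where
  toFun r := ⟨algebraMap F F' (r : F), algebraMap_mem_adjoin_of_mem_adjoin r.2⟩
  map_one' := Subtype.ext (by simp)
  map_mul' x y := Subtype.ext (by simp)
  map_zero' := Subtype.ext (by simp)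
  map_add' x y := Subtype.ext (by simp)

theorem isIntegral_algebraMap {t : F} [FiniteDimensional K⟮t⟯ F] (f : F) :
    IsIntegral K'⟮algebraMap F F' t⟯ (algebraMap F F' f) := by
  have hf : IsIntegral K⟮t⟯ f := Algebra.IsIntegral.isIntegral f
  exact IsIntegral.map_of_comp_eq (adjoinMap (K := K) (K' := K') (F' := F') t)
    (algebraMap F F') (RingHom.ext fun r => rfl) hf

/-- The constant field extension is finite over `K'(t)`. -/
theorem finiteDimensional_adjoin_algebraMap (t : F) [FiniteDimensional K⟮t⟯ F] :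
    FiniteDimensional K'⟮algebraMap F F' t⟯ F' := by
  classical
  obtain ⟨S, hS⟩ := (Module.Finite.fg_top : (⊤ : Submodule K⟮t⟯ F).FG)
  set t' := algebraMap F F' t with ht'
  let S' : Set F' := (algebraMap F F') '' (S : Set F)
  have hS'fin : Finite S' := (S.finite_toSet.image _).to_subtype
  let E : IntermediateField K'⟮t'⟯ F' := IntermediateField.adjoin K'⟮t'⟯ S'
  have hEfin : FiniteDimensional K'⟮t'⟯ E := by
    apply IntermediateField.finiteDimensional_adjoin
    rintro x ⟨f, _, rfl⟩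
    exact isIntegral_algebraMap (K := K) (K' := K') f
  -- `E` contains the image of `F`
  have hF : ∀ f : F, algebraMap F F' f ∈ E := by
    intro f
    have hf : f ∈ Submodule.span K⟮t⟯ (S : Set F) := by rw [hS]; trivial
    induction hf using Submodule.span_induction with
    | mem x hx => exact IntermediateField.subset_adjoin _ _ ⟨x, hx, rfl⟩
    | zero => rw [map_zero]; exact zero_mem _
    | add x y _ _ hx hy => rw [map_add]; exact add_mem hx hy
    | smul a x _ hx =>
      rw [Algebra.smul_def, map_mul]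
      refine mul_mem ?_ hx
      have h1 : algebraMap F F' (algebraMap K⟮t⟯ F a) ∈ K'⟮t'⟯ :=
        algebraMap_mem_adjoin_of_mem_adjoin a.2
      exact IntermediateField.algebraMap_mem E (⟨_, h1⟩ : K'⟮t'⟯)
  have hK' : ∀ c : K', algebraMap K' F' c ∈ E := by
    intro c
    have h1 : algebraMap K' F' c ∈ K'⟮t'⟯ := IntermediateField.algebraMap_mem _ _
    exact IntermediateField.algebraMap_mem E (⟨_, h1⟩ : K'⟮t'⟯)
  have hμ : ∀ x : F ⊗[K] K', mulMapF K F K' F' x ∈ E := by
    intro x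
    induction x using TensorProduct.induction_on with
    | zero => rw [map_zero]; exact zero_mem _
    | tmul f c => rw [mulMapF_tmul]; exact mul_mem (hF f) (hK' c)
    | add x y hx hy => rw [map_add]; exact add_mem hx hy
  have htop : E = ⊤ := by
    rw [eq_top_iff]
    intro z _
    obtain ⟨x, y, hy, hxy⟩ := IsConstExt.gen (K := K) (F := F) (K' := K') z
    have hz : z = mulMapF K F K' F' x * (mulMapF K F K' F' y)⁻¹ := by
      rw [← hxy]; field_simp
    rw [hz]
    exact mul_mem (hμ x) (inv_mem (hμ y))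
  have hfin_top : FiniteDimensional K'⟮t'⟯ (⊤ : IntermediateField K'⟮t'⟯ F') := htop ▸ hEfin
  exact Module.Finite.equiv (IntermediateField.topEquiv (F := K'⟮t'⟯) (E := F')).toLinearEquiv

end Finite

end Fermat.Agent.S29.H871

end
end
-- ===== PACK-END S29/H871/FunctionField.lean

-- ===== PACK-BEGIN S29/H871/DivBC.lean
section


/-!
# S29 / E3, part 7: base change of divisors and of `Pic0`

(helper871)
-/

set_option autoImplicit false
set_option linter.unusedSectionVars false

noncomputable section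

namespace Fermat.Agent.S29.H871

open AlgebraicCurve TensorProduct IntermediateField

variable {K F K' F' : Type*} [Field K] [Field F] [Field K'] [Field F']
  [Algebra K F] [Algebra K' F'] [Algebra K K'] [Algebra F F'] [Algebra K F']
  [IsScalarTower K F F'] [IsScalarTower K K' F']
  [IsConstExt K F K' F'] [IsAlgClosed K] [CharZero K] [IsAlgClosed K']

variable (K' F') {t : F} (ht : Transcendental K t) [FiniteDimensional K⟮t⟯ F]

/-- Base change of a place of a function field over an algebraically closed field. -/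
def bcPlace (v : Place K F) : Place K' F' := placeBC K' F' (isRationalPlace_all ht v)

variable {K' F'}

theorem bcPlace_injective : Function.Injective (bcPlace K' F' ht) := fun _ _ h =>
  placeBC_injective _ _ h

theorem ord_bcPlace (v : Place K F) (f : F) :
    (bcPlace K' F' ht v).ord (algebraMap F F' f) = v.ord f :=
  ord_placeBC_algebraMap _ f

/-- A place of `F'` that is nontrivial on `F` is a base change. -/
theorem exists_bcPlace_eq (w : Place K' F') (hnt : ∃ f : F, rord w f ≠ 0) :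
    ∃ v : Place K F, bcPlace K' F' ht v = w :=
  ⟨restrictPlace (K := K) w hnt, placeBC_restrictPlace w hnt _⟩

theorem rord_eq_zero_of_notMem_range {w : Place K' F'} (hw : w ∉ Set.range (bcPlace K' F' ht))
    (f : F) : rord w f = 0 := by
  by_contra h
  exact hw (exists_bcPlace_eq ht w ⟨f, h⟩)

theorem deg_bcPlace (v : Place K F) : (bcPlace K' F' ht v).deg = v.deg := by
  have := finiteDimensional_adjoin_algebraMap (K := K) (K' := K') (F' := F') t
  rw [Fermat.Agent.S24.FF.deg_eq_one v ht,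
    Fermat.Agent.S24.FF.deg_eq_one _ (transcendental_algebraMap (K' := K') (F' := F') ht)]

variable (K' F')

/-- Base change of divisors. -/
def bcDiv : Divisor K F →+ Divisor K' F' :=
  Finsupp.mapDomain.addMonoidHom (bcPlace K' F' ht)

variable {K' F'}

@[simp]
theorem bcDiv_single (v : Place K F) (n : ℤ) :
    bcDiv K' F' ht (Finsupp.single v n) = Finsupp.single (bcPlace K' F' ht v) n := by
  simp [bcDiv]

theorem bcDiv_apply_bcPlace (D : Divisor K F) (v : Place K F) :
    bcDiv K' F' ht D (bcPlace K' F' ht v) = D v :=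
  Finsupp.mapDomain_apply (bcPlace_injective ht) D v

theorem bcDiv_apply_of_notMem_range (D : Divisor K F) {w : Place K' F'}
    (hw : w ∉ Set.range (bcPlace K' F' ht)) : bcDiv K' F' ht D w = 0 :=
  Finsupp.mapDomain_of_notMem_range D w hw

theorem bcDiv_injective : Function.Injective (bcDiv K' F' ht) :=
  Finsupp.mapDomain_injective (bcPlace_injective ht)

theorem degree_bcDiv (D : Divisor K F) :
    Divisor.degree (bcDiv K' F' ht D) = Divisor.degree D := by
  have h : (Divisor.degree (K := K') (F := F')).comp (bcDiv K' F' ht) = Divisor.degree := by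
    refine Finsupp.addHom_ext fun v n => ?_
    rw [AddMonoidHom.comp_apply, bcDiv_single, Divisor.degree_single, Divisor.degree_single,
      deg_bcPlace]
  exact DFunLike.congr_fun h D

/-- The base change of the divisor of `f ∈ F` is the divisor of `f` in `F'`. -/
theorem bcDiv_eq_ord {f : F} {D : Divisor K F} (hD : ∀ v : Place K F, D v = v.ord f)
    (w : Place K' F') : bcDiv K' F' ht D w = w.ord (algebraMap F F' f) := by
  by_cases hw : w ∈ Set.range (bcPlace K' F' ht)
  · obtain ⟨v, rfl⟩ := hw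
    rw [bcDiv_apply_bcPlace, hD, ord_bcPlace]
  · rw [bcDiv_apply_of_notMem_range ht D hw]
    exact (rord_eq_zero_of_notMem_range ht hw f).symm

theorem bcDiv_mem_principal {D : Divisor K F} (hD : D ∈ Divisor.principal (K := K) (F := F)) :
    bcDiv K' F' ht D ∈ Divisor.principal (K := K') (F := F') := by
  obtain ⟨f, hf, hDf⟩ := hD
  exact ⟨algebraMap F F' f, by simpa using hf, fun w => bcDiv_eq_ord ht hDf w⟩

variable (K' F')

/-- Base change of degree-zero divisors. -/
def bcDegZero : Divisor.degZero (K := K) (F := F) →+ Divisor.degZero (K := K') (F := F') :=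
  ((bcDiv K' F' ht).domRestrict (Divisor.degZero (K := K) (F := F))).codRestrict _
    fun D => by
      rw [Divisor.mem_degZero]
      show Divisor.degree (bcDiv K' F' ht (D : Divisor K F)) = 0
      rw [degree_bcDiv]
      exact D.2

/-- **Base change on `Pic0`** along a constant field extension. -/
def bcPic0 : Pic0 K F →+ Pic0 K' F' :=
  QuotientAddGroup.map _ _ (bcDegZero K' F' ht) (by
    rintro ⟨D, hD0⟩ hD
    simp only [AddSubgroup.mem_addSubgroupOf] at hD ⊢
    exact bcDiv_mem_principal ht hD)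

variable {K' F'}

@[simp]
theorem coe_bcDegZero (D : Divisor.degZero (K := K) (F := F)) :
    (bcDegZero K' F' ht D : Divisor K' F') = bcDiv K' F' ht (D : Divisor K F) := rfl

theorem bcPic0_mk (D : Divisor.degZero (K := K) (F := F)) :
    bcPic0 K' F' ht (Pic0.mk D) = Pic0.mk (bcDegZero K' F' ht D) := rfl

end Fermat.Agent.S29.H871

end
end
-- ===== PACK-END S29/H871/DivBC.lean

-- ===== PACK-BEGIN S36/H919/Sheets.lean
section


/-!
# S36 engine, ALG3 gap lemma G2 (helper919), part 2: every sheet is one of `V₁`, `V₂`, `V₃`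

Setting of `S36/H193/SheetsAll.lean`: `R` a noetherian domain with `R[X]` integrally closed,
`w ∈ R` prime, `F` a field of characteristic `0`, `x ∈ F` transcendental over `R`, `F` finite over
`baseField R x`.  A *sheet* is a valuation subring `W` of `F` with `A2.H12.IsSheet w x W`.

* `h919_eq_sheet_of_centre_le` : a valuation subring `V ⊇ chart R {x}` with `w ∈ 𝔪_V` whose centre
  on the chart is contained in the centre of a sheet `W` is equal to `W`;
* `h919_sheet_cases` : if `V₁, V₂, V₃` are discrete valuation subrings containing the chart, with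
  `w ∈ 𝔪_{V_i}`, satisfying the `q`-expansion principle
  `B ∩ w (V₁ ∩ V₂ ∩ V₃) ⊆ w B` (`Eng.Qep3`), then every sheet is one of `V₁, V₂, V₃`.
-/

set_option autoImplicit false
set_option linter.style.haveILetI false
set_option linter.unusedSectionVars false

namespace Fermat.Agent.S36.H919

open Polynomial
open Fermat.Agent.A2.H12 (IsSheet)
open Fermat.Agent.S18.H138
open Fermat.Agent.S36.H193

universe u

section Val

variable {F : Type u} [Field F]

theorem h919_mem_nonunits_mul (V : ValuationSubring F) {a c : F} (ha : a ∈ V.nonunits)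
    (hc : c ∈ V) : a * c ∈ V.nonunits := by
  rw [ValuationSubring.mem_nonunits_iff] at ha ⊢
  rw [map_mul]
  have h1 : V.valuation c ≤ 1 := (ValuationSubring.valuation_le_one_iff V c).2 hc
  calc V.valuation a * V.valuation c ≤ V.valuation a * 1 := by gcongr
    _ < 1 := by rwa [mul_one]

theorem h919_inv_mem_of_not_nonunits (V : ValuationSubring F) {s : F} (hs : s ∈ V)
    (hs' : s ∉ V.nonunits) : s⁻¹ ∈ V := by
  rw [ValuationSubring.mem_nonunits_iff, not_lt] at hs'
  have h1 : V.valuation s ≤ 1 := (ValuationSubring.valuation_le_one_iff V s).2 hs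
  have h2 : V.valuation s = 1 := le_antisymm h1 hs'
  rw [← ValuationSubring.valuation_le_one_iff, map_inv₀, h2, inv_one]

theorem h919_one_not_mem_nonunits (V : ValuationSubring F) : (1 : F) ∉ V.nonunits := by
  rw [ValuationSubring.mem_nonunits_iff, map_one]
  exact lt_irrefl _

theorem h919_inv_mem_nonunits_of_not_mem (V : ValuationSubring F) {z : F} (hz : z ∉ V) :
    z⁻¹ ∈ V.nonunits := by
  rw [ValuationSubring.mem_nonunits_iff, map_inv₀]
  rw [← ValuationSubring.valuation_le_one_iff, not_le] at hz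
  exact inv_lt_one_of_one_lt₀ hz

end Val

section Cases

variable {R : Type u} [CommRing R] [IsDomain R] {F : Type u} [Field F] [Algebra R F]
variable [IsNoetherianRing R] [IsIntegrallyClosed R[X]] [CharZero F]

/-- A valuation subring containing the chart, with `w` in its maximal ideal, whose centre on the
chart is contained in the centre of a sheet `W`, is `W`. -/
theorem h919_eq_sheet_of_centre_le (hinjR : Function.Injective (algebraMap R F)) {w : R}
    (hw : Prime w) {x : F} (hx : Transcendental R x) [FiniteDimensional (baseField R x) F]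
    {W : ValuationSubring F} (hW : IsSheet w x W) (V : ValuationSubring F)
    (hV : ∀ c ∈ chart R ({x} : Set F), c ∈ V) (hwV : algebraMap R F w ∈ V.nonunits)
    (hle : ∀ b : chart R ({x} : Set F), (b : F) ∈ V.nonunits → (b : F) ∈ W.nonunits) :
    V = W := by
  set B := chart R ({x} : Set F) with hB
  have hWB : ∀ c ∈ B, c ∈ W := sheet_chart_le hW
  -- the centres agree
  have hmin := centre_mem_minimalPrimes hW
  have hcle : centreW V B hV ≤ centreW W B hWB := by
    intro b hb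
    rw [mem_centreW] at hb ⊢
    exact hle b hb
  have hspan : Ideal.span {algebraMap R B w} ≤ centreW V B hV := by
    rw [Ideal.span_le, Set.singleton_subset_iff, SetLike.mem_coe, mem_centreW]
    exact hwV
  have hge : centreW W B hWB ≤ centreW V B hV :=
    hmin.2 ⟨centreW_isPrime V B hV, hspan⟩ hcle
  have hiff : ∀ b : B, (b : F) ∈ W.nonunits → (b : F) ∈ V.nonunits := by
    intro b hb
    have := hge ((mem_centreW W B hWB b).2 hb)
    exact (mem_centreW V B hV b).1 this
  apply le_antisymm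
  · -- `V ≤ W`
    intro z hz
    by_contra hzW
    have h1 : z⁻¹ ∈ W.nonunits := h919_inv_mem_nonunits_of_not_mem W hzW
    have h1W : z⁻¹ ∈ W := W.nonunits_subset h1
    obtain ⟨a, s, hs, hzas⟩ := (sheet_mem_iff hinjR hw hx hW z⁻¹).1 h1W
    have hsW : (s : F) ∈ W := hWB s s.2
    have hs0 : (s : F) ≠ 0 := by
      intro h0
      apply hs
      rw [h0, ValuationSubring.mem_nonunits_iff, map_zero]
      exact zero_lt_one
    have ha : (a : F) = z⁻¹ * s := by
      rw [hzas, mul_assoc, inv_mul_cancel₀ hs0, mul_one]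
    have haW : (a : F) ∈ W.nonunits := by
      rw [ha]
      exact h919_mem_nonunits_mul W h1 hsW
    have haV : (a : F) ∈ V.nonunits := hiff a haW
    have hsV : (s : F)⁻¹ ∈ V :=
      h919_inv_mem_of_not_nonunits V (hV s s.2) (fun h => hs (hle s h))
    have hzV : z⁻¹ ∈ V.nonunits := by
      rw [hzas]
      exact h919_mem_nonunits_mul V haV hsV
    have h2 := h919_mem_nonunits_mul V hzV hz
    have hz0 : z ≠ 0 := by
      intro h0
      exact hzW (h0 ▸ W.zero_mem)
    rw [inv_mul_cancel₀ hz0] at h2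
    exact h919_one_not_mem_nonunits V h2
  · -- `W ≤ V`
    intro z hz
    obtain ⟨a, s, hs, hzas⟩ := (sheet_mem_iff hinjR hw hx hW z).1 hz
    rw [hzas]
    exact V.mul_mem _ _ (hV a a.2)
      (h919_inv_mem_of_not_nonunits V (hV s s.2) (fun h => hs (hle s h)))

/-- **Every sheet is one of `V₁`, `V₂`, `V₃`** (from the `q`-expansion principle `Qep3`). -/
theorem h919_sheet_cases (hinjR : Function.Injective (algebraMap R F)) {w : R}
    (hw : Prime w) {x : F} (hx : Transcendental R x) [FiniteDimensional (baseField R x) F]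
    (V₁ V₂ V₃ : ValuationSubring F)
    [IsDiscreteValuationRing V₁] [IsDiscreteValuationRing V₂] [IsDiscreteValuationRing V₃]
    (hV₁ : ∀ c ∈ chart R ({x} : Set F), c ∈ V₁) (hV₂ : ∀ c ∈ chart R ({x} : Set F), c ∈ V₂)
    (hV₃ : ∀ c ∈ chart R ({x} : Set F), c ∈ V₃)
    (hw₁ : algebraMap R F w ∈ V₁.nonunits) (hw₂ : algebraMap R F w ∈ V₂.nonunits)
    (hw₃ : algebraMap R F w ∈ V₃.nonunits)
    (hqep : ∀ b : chart R ({x} : Set F), (b : F) * (algebraMap R F w)⁻¹ ∈ V₁ →
      (b : F) * (algebraMap R F w)⁻¹ ∈ V₂ → (b : F) * (algebraMap R F w)⁻¹ ∈ V₃ →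
      ∃ c : chart R ({x} : Set F), b = algebraMap R (chart R ({x} : Set F)) w * c)
    {W : ValuationSubring F} (hW : IsSheet w x W) : W = V₁ ∨ W = V₂ ∨ W = V₃ := by
  set B := chart R ({x} : Set F) with hB
  have hWB : ∀ c ∈ B, c ∈ W := sheet_chart_le hW
  by_contra hcon
  rw [not_or, not_or] at hcon
  obtain ⟨h1, h2, h3⟩ := hcon
  have hw0 : algebraMap R F w ≠ 0 := by
    intro h0
    exact hw.ne_zero (hinjR (h0.trans (map_zero _).symm))
  -- separating elements
  have hsep : ∀ V : ValuationSubring F, (∀ c ∈ B, c ∈ V) → algebraMap R F w ∈ V.nonunits →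
      W ≠ V → ∃ b : B, (b : F) ∈ V.nonunits ∧ (b : F) ∉ W.nonunits := by
    intro V hV hwV hne
    by_contra hno
    apply hne
    symm
    refine h919_eq_sheet_of_centre_le hinjR hw hx hW V hV hwV (fun b hb => ?_)
    by_contra hbW
    exact hno ⟨b, hb, hbW⟩
  obtain ⟨b₁, hb₁, hb₁W⟩ := hsep V₁ hV₁ hw₁ h1
  obtain ⟨b₂, hb₂, hb₂W⟩ := hsep V₂ hV₂ hw₂ h2
  obtain ⟨b₃, hb₃, hb₃W⟩ := hsep V₃ hV₃ hw₃ h3
  obtain ⟨e₁, he₁⟩ := h919_exists_pow_mul_inv_mem V₁ hw0
  obtain ⟨e₂, he₂⟩ := h919_exists_pow_mul_inv_mem V₂ hw0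
  obtain ⟨e₃, he₃⟩ := h919_exists_pow_mul_inv_mem V₃ hw0
  set b : B := b₁ ^ e₁ * b₂ ^ e₂ * b₃ ^ e₃ with hb
  have hbF : (b : F) = (b₁ : F) ^ e₁ * (b₂ : F) ^ e₂ * (b₃ : F) ^ e₃ := by
    simp [hb]
  have hq₁ : (b : F) * (algebraMap R F w)⁻¹ ∈ V₁ := by
    have : (b : F) * (algebraMap R F w)⁻¹ =
        ((b₁ : F) ^ e₁ * (algebraMap R F w)⁻¹) * ((b₂ : F) ^ e₂ * (b₃ : F) ^ e₃) := by
      rw [hbF]; ring
    rw [this]
    exact V₁.mul_mem _ _ (he₁ _ hb₁)
      (V₁.mul_mem _ _ (V₁.pow_mem (hV₁ b₂ b₂.2) _) (V₁.pow_mem (hV₁ b₃ b₃.2) _))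
  have hq₂ : (b : F) * (algebraMap R F w)⁻¹ ∈ V₂ := by
    have : (b : F) * (algebraMap R F w)⁻¹ =
        ((b₂ : F) ^ e₂ * (algebraMap R F w)⁻¹) * ((b₁ : F) ^ e₁ * (b₃ : F) ^ e₃) := by
      rw [hbF]; ring
    rw [this]
    exact V₂.mul_mem _ _ (he₂ _ hb₂)
      (V₂.mul_mem _ _ (V₂.pow_mem (hV₂ b₁ b₁.2) _) (V₂.pow_mem (hV₂ b₃ b₃.2) _))
  have hq₃ : (b : F) * (algebraMap R F w)⁻¹ ∈ V₃ := by
    have : (b : F) * (algebraMap R F w)⁻¹ =
        ((b₃ : F) ^ e₃ * (algebraMap R F w)⁻¹) * ((b₁ : F) ^ e₁ * (b₂ : F) ^ e₂) := by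
      rw [hbF]; ring
    rw [this]
    exact V₃.mul_mem _ _ (he₃ _ hb₃)
      (V₃.mul_mem _ _ (V₃.pow_mem (hV₃ b₁ b₁.2) _) (V₃.pow_mem (hV₃ b₂ b₂.2) _))
  obtain ⟨c, hc⟩ := hqep b hq₁ hq₂ hq₃
  -- `b` is a non-unit of `W`
  have hbW : (b : F) ∈ W.nonunits := by
    have : (b : F) = algebraMap R F w * (c : F) := by
      have := congrArg (fun z : B => (z : F)) hc
      simpa using this
    rw [this]
    exact h919_mem_nonunits_mul W hW.2.2.1 (hWB c c.2)
  -- but it is a unit
  have hunit : ∀ b' : B, (b' : F) ∉ W.nonunits → W.valuation (b' : F) = 1 := by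
    intro b' hb'
    rw [ValuationSubring.mem_nonunits_iff, not_lt] at hb'
    exact le_antisymm ((ValuationSubring.valuation_le_one_iff W _).2 (hWB b' b'.2)) hb'
  rw [ValuationSubring.mem_nonunits_iff, hbF, map_mul, map_mul, map_pow, map_pow, map_pow,
    hunit b₁ hb₁W, hunit b₂ hb₂W, hunit b₃ hb₃W, one_pow, one_pow, one_pow, mul_one,
    mul_one] at hbW
  exact lt_irrefl _ hbW

end Cases

end Fermat.Agent.S36.H919

end
-- ===== PACK-END S36/H919/Sheets.lean

-- ===== PACK-BEGIN S36/H919/SheetsProp.lean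
section


/-!
# S36 engine, ALG3 gap lemma G2 (helper919), part 3: propagation of sheets

`ResInt R V y` : the residue of `y` at the valuation subring `V` is integral over (the image of)
`R`, in elementwise form: some monic `P ∈ R[X]` has `P(y) ∈ 𝔪_V`.

A valuation subring `V ⊇ R[x]` with `w ∈ 𝔪_V` is a sheet iff the residue of `x` is NOT integral
over `R` (`h919_resInt_of_not_isSheet`, `h919_not_resInt_of_isSheet`).  Residual integrality
passes to the chart (`h919_resInt_chart`), through `comap` (`h919_resInt_comap`) and along integral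
extensions (`h919_resInt_of_root`).  Hence:

* `h919_isSheet_transfer` : if `V` and `V'` induce the same valuation subring on `F'` via
  `α : F' → F`, the chart of `F` is integral over the image of the chart of `F'`, and `V'` is a
  sheet, then `V` is a sheet.
-/

set_option autoImplicit false
set_option linter.style.haveILetI false
set_option linter.unusedSectionVars false

namespace Fermat.Agent.S36.H919

open Polynomial
open Fermat.Agent.A2.H12 (IsSheet)
open Fermat.Agent.S18.H138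
open Fermat.Agent.S36.H193

universe u

section ResInt

variable (R : Type u) [CommRing R] {F : Type u} [Field F] [Algebra R F]

/-- The residue of `y` at `V` is integral over `R` (elementwise form). -/
def ResInt (V : ValuationSubring F) (y : F) : Prop :=
  ∃ P : R[X], P.Monic ∧ aeval y P ∈ V.nonunits

variable {R}

/-- The homomorphism `R → V`. -/
def h919_toV (V : ValuationSubring F) (hRV : ∀ r : R, algebraMap R F r ∈ V) : R →+* V where
  toFun r := ⟨algebraMap R F r, hRV r⟩
  map_one' := Subtype.ext (map_one _)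
  map_mul' _ _ := Subtype.ext (map_mul _ _ _)
  map_zero' := Subtype.ext (map_zero _)
  map_add' _ _ := Subtype.ext (map_add _ _ _)

/-- The homomorphism from `R` to the residue field of `V`. -/
noncomputable def h919_resHom (V : ValuationSubring F) (hRV : ∀ r : R, algebraMap R F r ∈ V) :
    R →+* IsLocalRing.ResidueField V :=
  (IsLocalRing.residue V).comp (h919_toV V hRV)

theorem h919_coe_eval₂_toV (V : ValuationSubring F) (hRV : ∀ r : R, algebraMap R F r ∈ V)
    (y : V) (P : R[X]) : ((eval₂ (h919_toV V hRV) y P : V) : F) = aeval (y : F) P := by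
  have h1 := Polynomial.hom_eval₂ P (h919_toV V hRV) (V.subtype) y
  rw [aeval_def]
  have h2 : (V.subtype).comp (h919_toV V hRV) = algebraMap R F := by
    ext r
    rfl
  rw [h2] at h1
  exact h1

/-- `ResInt` implies membership. -/
theorem h919_resInt_mem (V : ValuationSubring F) (hRV : ∀ r : R, algebraMap R F r ∈ V)
    {y : F} (h : ResInt R V y) : y ∈ V := by
  obtain ⟨P, hP, hPy⟩ := h
  haveI : Nontrivial R := RingHom.domain_nontrivial (algebraMap R F)
  have hc : aeval y P ∈ V := V.nonunits_subset hPy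
  by_cases hdeg : P.natDegree = 0
  · exfalso
    have h1 : P = 1 := by
      rw [Polynomial.eq_C_of_natDegree_eq_zero hdeg]
      have : P.coeff 0 = 1 := by
        have := hP.coeff_natDegree
        rwa [hdeg] at this
      rw [this, map_one]
    rw [h1, map_one] at hPy
    exact h919_one_not_mem_nonunits V hPy
  -- `y` is integral over `V`
  set Q : (V : Type u)[X] := P.map (h919_toV V hRV) - C ⟨aeval y P, hc⟩ with hQ
  have hQm : Q.Monic := by
    rw [hQ]
    refine Polynomial.Monic.sub_of_left (hP.map _) ?_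
    rw [Polynomial.degree_map_eq_of_leadingCoeff_ne_zero]
    · refine lt_of_le_of_lt Polynomial.degree_C_le ?_
      rw [Polynomial.degree_eq_natDegree hP.ne_zero]
      exact_mod_cast Nat.pos_of_ne_zero hdeg
    · rw [hP.leadingCoeff, map_one]
      exact one_ne_zero
  have hint : IsIntegral V y := by
    refine ⟨Q, hQm, ?_⟩
    rw [hQ, eval₂_sub, eval₂_C, eval₂_map]
    have h2 : (algebraMap V F).comp (h919_toV V hRV) = algebraMap R F := by
      ext r
      rfl
    rw [h2, ← aeval_def]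
    exact sub_self _
  obtain ⟨z, hz⟩ := (IsIntegrallyClosed.isIntegral_iff (R := V) (K := F)).1 hint
  rw [← hz]
  exact z.2

/-- Vanishing in the residue field of `V`. -/
theorem h919_eval₂_resHom_eq_zero_iff (V : ValuationSubring F)
    (hRV : ∀ r : R, algebraMap R F r ∈ V) {y : F} (hy : y ∈ V) (P : R[X]) :
    eval₂ (h919_resHom V hRV) (IsLocalRing.residue V ⟨y, hy⟩) P = 0 ↔
      aeval y P ∈ V.nonunits := by
  have h1 := Polynomial.hom_eval₂ P (h919_toV V hRV) (IsLocalRing.residue V) ⟨y, hy⟩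
  rw [h919_resHom, ← h1, IsLocalRing.residue_eq_zero_iff,
    ValuationSubring.mem_nonunits_iff_exists_mem_maximalIdeal]
  constructor
  · intro h
    refine ⟨?_, ?_⟩
    · rw [← h919_coe_eval₂_toV V hRV ⟨y, hy⟩ P]
      exact (eval₂ (h919_toV V hRV) ⟨y, hy⟩ P).2
    · convert h using 1
      exact Subtype.ext (h919_coe_eval₂_toV V hRV ⟨y, hy⟩ P).symm
  · rintro ⟨h1, h2⟩
    convert h2 using 1
    exact Subtype.ext (h919_coe_eval₂_toV V hRV ⟨y, hy⟩ P)

/-- `ResInt` in terms of the residue field. -/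
theorem h919_resInt_iff (V : ValuationSubring F) (hRV : ∀ r : R, algebraMap R F r ∈ V)
    {y : F} (hy : y ∈ V) :
    ResInt R V y ↔ (h919_resHom V hRV).IsIntegralElem (IsLocalRing.residue V ⟨y, hy⟩) := by
  constructor
  · rintro ⟨P, hP, hPy⟩
    exact ⟨P, hP, (h919_eval₂_resHom_eq_zero_iff V hRV hy P).2 hPy⟩
  · rintro ⟨P, hP, hPy⟩
    exact ⟨P, hP, (h919_eval₂_resHom_eq_zero_iff V hRV hy P).1 hPy⟩

/-- Elements of `R` are residually integral. -/
theorem h919_resInt_algebraMap (V : ValuationSubring F) (r : R) :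
    ResInt R V (algebraMap R F r) := by
  refine ⟨X - C r, monic_X_sub_C r, ?_⟩
  rw [map_sub, aeval_X, aeval_C, sub_self, ValuationSubring.mem_nonunits_iff, map_zero]
  exact zero_lt_one

theorem h919_resInt_add (V : ValuationSubring F) (hRV : ∀ r : R, algebraMap R F r ∈ V)
    {y z : F} (hy : ResInt R V y) (hz : ResInt R V z) : ResInt R V (y + z) := by
  have hyV := h919_resInt_mem V hRV hy
  have hzV := h919_resInt_mem V hRV hz
  rw [h919_resInt_iff V hRV hyV] at hy
  rw [h919_resInt_iff V hRV hzV] at hz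
  rw [h919_resInt_iff V hRV (V.add_mem _ _ hyV hzV)]
  letI : Algebra R (IsLocalRing.ResidueField V) := (h919_resHom V hRV).toAlgebra
  have h1 : IsIntegral R (IsLocalRing.residue V ⟨y, hyV⟩) := hy
  have h2 : IsIntegral R (IsLocalRing.residue V ⟨z, hzV⟩) := hz
  have h3 := h1.add h2
  rw [← map_add] at h3
  exact h3

theorem h919_resInt_mul (V : ValuationSubring F) (hRV : ∀ r : R, algebraMap R F r ∈ V)
    {y z : F} (hy : ResInt R V y) (hz : ResInt R V z) : ResInt R V (y * z) := by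
  have hyV := h919_resInt_mem V hRV hy
  have hzV := h919_resInt_mem V hRV hz
  rw [h919_resInt_iff V hRV hyV] at hy
  rw [h919_resInt_iff V hRV hzV] at hz
  rw [h919_resInt_iff V hRV (V.mul_mem _ _ hyV hzV)]
  letI : Algebra R (IsLocalRing.ResidueField V) := (h919_resHom V hRV).toAlgebra
  have h1 : IsIntegral R (IsLocalRing.residue V ⟨y, hyV⟩) := hy
  have h2 : IsIntegral R (IsLocalRing.residue V ⟨z, hzV⟩) := hz
  have h3 := h1.mul h2
  rw [← map_mul] at h3
  exact h3

/-- **Residual integrality passes to roots of monic polynomials.** -/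
theorem h919_resInt_of_root (V : ValuationSubring F) (hRV : ∀ r : R, algebraMap R F r ∈ V)
    (p : F[X]) (hp : p.Monic) (hcoef : ∀ i, ResInt R V (p.coeff i)) {y : F}
    (hy : p.eval y = 0) : ResInt R V y := by
  classical
  -- descend `p` to `V`
  have hlift : p ∈ Polynomial.lifts (V.subtype) := by
    rw [Polynomial.lifts_iff_coeff_lifts]
    intro n
    exact ⟨⟨p.coeff n, h919_resInt_mem V hRV (hcoef n)⟩, rfl⟩
  obtain ⟨q, hqp, -, hqm⟩ := Polynomial.lifts_and_degree_eq_and_monic hlift hp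
  have hint : IsIntegral V y := by
    refine ⟨q, hqm, ?_⟩
    have : eval₂ (algebraMap V F) y q = eval y (q.map (V.subtype)) := by
      rw [eval_map]
      rfl
    rw [this, hqp, hy]
  obtain ⟨y', hy'⟩ := (IsIntegrallyClosed.isIntegral_iff (R := V) (K := F)).1 hint
  have hyV : y ∈ V := by
    rw [← hy']
    exact y'.2
  have hy'' : y' = ⟨y, hyV⟩ := Subtype.ext hy'
  have hq0 : q.eval y' = 0 := by
    apply Subtype.ext
    have h1 := Polynomial.hom_eval₂ q (RingHom.id V) (V.subtype) y'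
    rw [RingHom.comp_id] at h1
    have h2 : eval₂ (V.subtype) ((V.subtype) y') q = eval y (q.map (V.subtype)) := by
      rw [eval_map]
      congr 1
    rw [h2, hqp, hy] at h1
    rw [eval₂_id] at h1
    exact h1
  rw [h919_resInt_iff V hRV hyV, ← hy'']
  -- the residue field
  letI : Algebra R (IsLocalRing.ResidueField V) := (h919_resHom V hRV).toAlgebra
  set κ := IsLocalRing.ResidueField V with hκ
  set A := integralClosure R κ with hA
  have hcoefA : ∀ n, (q.map (IsLocalRing.residue V)).coeff n ∈ Set.range (algebraMap A κ) := by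
    intro n
    rw [coeff_map]
    have hn : ((q.coeff n : V) : F) = p.coeff n := by
      rw [← hqp, coeff_map]
      rfl
    have h1 : ResInt R V ((q.coeff n : V) : F) := by
      rw [hn]
      exact hcoef n
    rw [h919_resInt_iff V hRV (q.coeff n).2] at h1
    have h2 : IsIntegral R (IsLocalRing.residue V (q.coeff n)) := h1
    exact ⟨⟨_, h2⟩, rfl⟩
  have hliftA : q.map (IsLocalRing.residue V) ∈ Polynomial.lifts (algebraMap A κ) := by
    rw [Polynomial.lifts_iff_coeff_lifts]
    exact hcoefA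
  obtain ⟨q₂, hq₂, -, hq₂m⟩ := Polynomial.lifts_and_degree_eq_and_monic hliftA
    (hqm.map (IsLocalRing.residue V))
  have hintA : IsIntegral A (IsLocalRing.residue V y') := by
    refine ⟨q₂, hq₂m, ?_⟩
    rw [← eval_map, hq₂, eval_map]
    have h1 := Polynomial.hom_eval₂ q (RingHom.id V) (IsLocalRing.residue V) y'
    rw [RingHom.comp_id, eval₂_id, hq0, map_zero] at h1
    exact h1.symm
  have hfin : IsIntegral R (IsLocalRing.residue V y') := isIntegral_trans (A := A) _ hintA
  exact hfin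

/-- Residual integrality of `x` passes to `R[x]`. -/
theorem h919_resInt_adjoin (V : ValuationSubring F) (hRV : ∀ r : R, algebraMap R F r ∈ V)
    {x : F} (hx : ResInt R V x) : ∀ a ∈ Algebra.adjoin R ({x} : Set F), ResInt R V a := by
  intro a ha
  induction ha using Algebra.adjoin_induction with
  | mem y hy =>
    rw [Set.mem_singleton_iff] at hy
    rw [hy]
    exact hx
  | algebraMap r => exact h919_resInt_algebraMap V r
  | add y z _ _ hy hz => exact h919_resInt_add V hRV hy hz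
  | mul y z _ _ hy hz => exact h919_resInt_mul V hRV hy hz

/-- Residual integrality of `x` passes to the chart `chart R {x}`. -/
theorem h919_resInt_chart (V : ValuationSubring F) (hRV : ∀ r : R, algebraMap R F r ∈ V)
    {x : F} (hx : ResInt R V x) : ∀ b ∈ chart R ({x} : Set F), ResInt R V b := by
  intro b hb
  obtain ⟨P, hP, hPb⟩ := mem_chart.1 hb
  refine h919_resInt_of_root V hRV (P.map (algebraMap (Algebra.adjoin R ({x} : Set F)) F))
    (hP.map _) (fun i => ?_) ?_
  · rw [coeff_map]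
    exact h919_resInt_adjoin V hRV hx _ (P.coeff i).2
  · rw [eval_map]
    exact hPb

end ResInt

section Comap

variable {R : Type u} [CommRing R] {F : Type u} [Field F] [Algebra R F]
  {F' : Type u} [Field F'] [Algebra R F']

/-- Residual integrality and `comap`. -/
theorem h919_resInt_comap (α : F' →+* F)
    (hα : ∀ r : R, α (algebraMap R F' r) = algebraMap R F r) (V : ValuationSubring F) (b : F') :
    ResInt R (V.comap α) b ↔ ResInt R V (α b) := by
  have key : ∀ P : R[X], α (aeval b P) = aeval (α b) P := by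
    intro P
    let αA : F' →ₐ[R] F := { α with commutes' := hα }
    exact (aeval_algHom_apply αA b P).symm
  constructor
  · rintro ⟨P, hP, hPb⟩
    refine ⟨P, hP, ?_⟩
    rw [← key]
    exact (Fermat.Agent.A2.H12.mem_nonunits_comap V α _).1 hPb
  · rintro ⟨P, hP, hPb⟩
    refine ⟨P, hP, ?_⟩
    rw [← key] at hPb
    exact (Fermat.Agent.A2.H12.mem_nonunits_comap V α _).2 hPb

end Comap

section Sheet

variable {R : Type u} [CommRing R] [IsDomain R] [IsDiscreteValuationRing R]
  {F : Type u} [Field F] [Algebra R F]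

/-- A valuation subring over `R[x]` with `w ∈ 𝔪_V` which is NOT a sheet has `x` residually
integral (= residually algebraic) over `R`. -/
theorem h919_resInt_of_not_isSheet {w : R} (hw : Irreducible w) {x : F} (V : ValuationSubring F)
    (hRV : ∀ r : R, algebraMap R F r ∈ V) (hxV : x ∈ V)
    (hwV : algebraMap R F w ∈ V.nonunits) (h : ¬ IsSheet w x V) : ResInt R V x := by
  classical
  have hex : ∃ P : R[X], (∃ i, ¬ w ∣ P.coeff i) ∧ (aeval x P)⁻¹ ∉ V := by
    by_contra hno
    apply h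
    refine ⟨hRV, hxV, hwV, fun P hP => ?_⟩
    by_contra hPV
    exact hno ⟨P, hP, hPV⟩
  obtain ⟨P, ⟨i, hi⟩, hPV⟩ := hex
  have hPn : aeval x P ∈ V.nonunits := by
    have := h919_inv_mem_nonunits_of_not_mem V hPV
    rwa [inv_inv] at this
  rw [h919_resInt_iff V hRV hxV]
  set φ := h919_resHom V hRV with hφ
  set z := IsLocalRing.residue V ⟨x, hxV⟩ with hz
  have hz0 : eval₂ φ z P = 0 := (h919_eval₂_resHom_eq_zero_iff V hRV hxV P).2 hPn
  -- `φ` kills the maximal ideal
  have hφw : φ w = 0 := by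
    have h1 : eval₂ φ (IsLocalRing.residue V ⟨algebraMap R F w, hRV w⟩) (C w : R[X]) = 0 := by
      rw [h919_eval₂_resHom_eq_zero_iff V hRV (hRV w) (C w), aeval_C]
      exact hwV
    rwa [eval₂_C] at h1
  have hunit : ∀ c : R, φ c ≠ 0 → IsUnit c := by
    intro c hc
    by_contra hcu
    have h1 : c ∈ IsLocalRing.maximalIdeal R := (IsLocalRing.mem_maximalIdeal _).2 hcu
    rw [hw.maximalIdeal_eq, Ideal.mem_span_singleton] at h1
    obtain ⟨d, rfl⟩ := h1
    rw [map_mul, hφw, zero_mul] at hc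
    exact hc rfl
  have hφi : φ (P.coeff i) ≠ 0 := by
    have h1 : IsUnit (P.coeff i) := by
      by_contra hcu
      have h1 : P.coeff i ∈ IsLocalRing.maximalIdeal R := (IsLocalRing.mem_maximalIdeal _).2 hcu
      rw [hw.maximalIdeal_eq, Ideal.mem_span_singleton] at h1
      exact hi h1
    exact (h1.map φ).ne_zero
  have hP0 : P.map φ ≠ 0 := by
    intro h0
    have := congrArg (fun p => Polynomial.coeff p i) h0
    simp only [coeff_map, coeff_zero] at this
    exact hφi this
  have hl : (P.map φ).leadingCoeff ≠ 0 := Polynomial.leadingCoeff_ne_zero.2 hP0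
  have hl' : (P.map φ).leadingCoeff = φ (P.coeff (P.map φ).natDegree) := by
    rw [Polynomial.leadingCoeff, coeff_map]
  have hu : IsUnit (P.coeff (P.map φ).natDegree) := hunit _ (by rw [← hl']; exact hl)
  obtain ⟨u, hu'⟩ := hu
  have hmon : (P.map φ * C (P.map φ).leadingCoeff⁻¹).Monic :=
    Polynomial.monic_mul_leadingCoeff_inv hP0
  have hinv : (P.map φ).leadingCoeff⁻¹ = φ ((u⁻¹ : Rˣ) : R) := by
    rw [hl', ← hu']
    apply inv_eq_of_mul_eq_one_right
    rw [← map_mul, Units.mul_inv, map_one]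
  have hlift : P.map φ * C (P.map φ).leadingCoeff⁻¹ ∈ Polynomial.lifts φ := by
    rw [Polynomial.mem_lifts]
    refine ⟨P * C ((u⁻¹ : Rˣ) : R), ?_⟩
    rw [Polynomial.map_mul, Polynomial.map_C, hinv]
  obtain ⟨Q, hQ, -, hQm⟩ := Polynomial.lifts_and_degree_eq_and_monic hlift hmon
  refine ⟨Q, hQm, ?_⟩
  rw [← eval_map, hQ, eval_mul, eval_map, hz0, zero_mul]

/-- A sheet does not have `x` residually integral over `R`. -/
theorem h919_not_resInt_of_isSheet {w : R} {x : F} (hx : Transcendental R x)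
    {W : ValuationSubring F} (hW : IsSheet w x W) : ¬ ResInt R W x := by
  rintro ⟨P, hP, hPx⟩
  have h1 : (aeval x P)⁻¹ ∈ W := hW.2.2.2 P ⟨P.natDegree, by
    rw [hP.coeff_natDegree]
    exact hW.not_dvd_one⟩
  have h0 : aeval x P ≠ 0 := by
    intro h0
    exact hP.ne_zero ((transcendental_iff.1 hx) P h0)
  have h2 := h919_mem_nonunits_mul W hPx h1
  rw [mul_inv_cancel₀ h0] at h2
  exact h919_one_not_mem_nonunits W h2

variable {F' : Type u} [Field F'] [Algebra R F']

/-- **Propagation of sheets.**  `V` and `V'` valuation subrings of `F` over `R[x]` inducing the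
same valuation subring of `F'` via `α`; the chart of `F'` maps to the chart of `F` and `x` is
integral over its image.  If `V'` is a sheet, so is `V`. -/
theorem h919_isSheet_transfer {w : R} (hw : Irreducible w) {x : F} (hx : Transcendental R x)
    (α : F' →+* F) (hα : ∀ r : R, α (algebraMap R F' r) = algebraMap R F r)
    (V V' : ValuationSubring F)
    (hRV : ∀ r : R, algebraMap R F r ∈ V) (hRV' : ∀ r : R, algebraMap R F r ∈ V')
    (hxV : x ∈ V) (hwV : algebraMap R F w ∈ V.nonunits)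
    (hcomap : V.comap α = V'.comap α)
    {x' : F'} (hchart : ∀ b ∈ chart R ({x'} : Set F'), α b ∈ chart R ({x} : Set F))
    (hint : ∃ p : F'[X], p.Monic ∧ (∀ i, p.coeff i ∈ chart R ({x'} : Set F')) ∧
      (p.map α).eval x = 0)
    (hV' : IsSheet w x V') : IsSheet w x V := by
  by_contra hV
  have h1 : ResInt R V x := h919_resInt_of_not_isSheet hw V hRV hxV hwV hV
  have h2 : ∀ b ∈ chart R ({x} : Set F), ResInt R V b := h919_resInt_chart V hRV h1
  obtain ⟨p, hp, hpc, hpx⟩ := hint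
  have h3 : ∀ i, ResInt R V' ((p.map α).coeff i) := by
    intro i
    rw [coeff_map]
    have := h2 _ (hchart _ (hpc i))
    rw [← h919_resInt_comap α hα V, hcomap, h919_resInt_comap α hα V'] at this
    exact this
  have h4 : ResInt R V' x := h919_resInt_of_root V' hRV' (p.map α) (hp.map α) h3 hpx
  exact h919_not_resInt_of_isSheet hx hV' h4

end Sheet

end Fermat.Agent.S36.H919

end
-- ===== PACK-END S36/H919/SheetsProp.lean

-- ===== PACK-BEGIN A2/Mod/H816/L8Val.lean
section







/-!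
# A2 / MOD leaf L8, part 2 (helper816): the two cuspidal valuations of `F_{q,E}`

* `vInf E N` : the `t`-adic valuation of `F_{N,E} ⊆ E((t))`, `vInf (j_d) = -d`;
* `vZero E q` : `vInf ∘ W ∘ ι` at prime level `q` (`W` = `H528.wF` over `ℚ̄`, `ι` = `H849.iota`),
  `vZero j = -q`, `vZero j_q = -1`;
* `transcendental_xE`, `mem_range_of_isAlgebraic` : parts (a), (c) of `DegStatement`;
* `linearIndependent_pow` : `j_q, …, j_q^(q+1), j, …, j^(q+1)` are linearly independent over
  `E(x)`, `x = j j_q` (level `q`).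
-/

set_option autoImplicit false
set_option linter.unusedSectionVars false
set_option synthInstance.maxHeartbeats 400000
set_option maxHeartbeats 1600000

noncomputable section

namespace Fermat.Agent.A2.Mod.H816

open ModularCurve HahnSeries Polynomial

/-! ## Laurent series -/

section Laurent

variable (k : Type*) [Field k]

theorem addVal_algebraMap_laurent {c : k} (hc : c ≠ 0) :
    HahnSeries.addVal ℤ k (algebraMap k (LaurentSeries k) c) = 0 := by
  rw [HahnSeries.addVal_apply, algebraMap_laurentSeries_eq_single, HahnSeries.orderTop_single hc]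
  rfl

theorem coeff_jd_of_lt (d : ℕ) [NeZero d] {n : ℤ} (hn : n < -(d : ℤ)) :
    (qExpand k d (jqModC k)).coeff n = 0 := by
  by_cases hdvd : (d : ℤ) ∣ n
  · obtain ⟨m, rfl⟩ := hdvd
    rw [qExpand_coeff_mul]
    apply coeff_jqModC_of_lt
    have hd : (0 : ℤ) < d := by exact_mod_cast Nat.pos_of_ne_zero (NeZero.ne d)
    nlinarith
  · exact qExpand_coeff_of_not_dvd _ _ hdvd

theorem coeff_jd_neg (d : ℕ) [NeZero d] : (qExpand k d (jqModC k)).coeff (-(d : ℤ)) = 1 := by
  have h := qExpand_coeff_mul (R := k) d (jqModC k) (-1)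
  rw [coeff_jqModC_neg_one] at h
  rw [← h]
  congr 1
  ring

theorem addVal_jd (d : ℕ) [NeZero d] :
    HahnSeries.addVal ℤ k (qExpand k d (jqModC k)) = ((-(d : ℤ) : ℤ) : WithTop ℤ) := by
  have h1 : (qExpand k d (jqModC k)).coeff (-(d : ℤ)) ≠ 0 := by
    rw [coeff_jd_neg]; exact one_ne_zero
  have hne := ne_zero_of_polar h1
  rw [HahnSeries.addVal_apply_of_ne hne,
    order_eq_of_polar (fun n hn => coeff_jd_of_lt k d hn) h1]

/-- a series algebraic over the constants is constant -/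
theorem eq_algebraMap_of_isAlgebraic {f : LaurentSeries k} (hf : IsAlgebraic k f) :
    f = algebraMap k (LaurentSeries k) (f.coeff 0) := by
  set g := f - algebraMap k (LaurentSeries k) (f.coeff 0) with hg
  have hgalg : IsAlgebraic k g := hf.sub (isAlgebraic_algebraMap _)
  by_contra hne
  have hg0 : g ≠ 0 := fun h => hne (sub_eq_zero.mp h)
  have hval : HahnSeries.addVal ℤ k g = ((g.order : ℤ) : WithTop ℤ) :=
    HahnSeries.addVal_apply_of_ne hg0
  have hcoeff0 : g.coeff 0 = 0 := by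
    rw [hg, HahnSeries.coeff_sub, algebraMap_laurentSeries_eq_single,
      HahnSeries.coeff_single_same, sub_self]
  have hord : g.order ≠ 0 := by
    intro h0
    have := HahnSeries.coeff_order_eq_zero.not.mpr hg0
    rw [h0] at this
    exact this hcoeff0
  exact transcendental_of_addVal_ne_zero (HahnSeries.addVal ℤ k)
    (fun c hc => addVal_algebraMap_laurent k hc) hord hval hgalg

end Laurent

/-! ## The valuation at `∞` -/

section VInf

variable (E : IntermediateField ℚ _root_.Fermat.Agent.A2.Mod.Qb) (N : ℕ)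

/-- the `t`-adic valuation of `F_{N,E}` -/
def vInf : AddValuation (_root_.Fermat.Agent.A2.Mod.FE E N) (WithTop ℤ) :=
  (HahnSeries.addVal ℤ E).comap (algebraMap (_root_.Fermat.Agent.A2.Mod.FE E N) (LaurentSeries E))

theorem vInf_apply (f : _root_.Fermat.Agent.A2.Mod.FE E N) :
    vInf E N f = HahnSeries.addVal ℤ E (f : LaurentSeries E) := rfl

theorem vInf_algebraMap {c : E} (hc : c ≠ 0) : vInf E N (algebraMap E (_root_.Fermat.Agent.A2.Mod.FE E N) c) = 0 := by
  rw [vInf_apply]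
  exact addVal_algebraMap_laurent E hc

theorem vInf_jE (d : ℕ) [NeZero d] (hd : d ∣ N) :
    vInf E N (jE E N d hd) = ((-(d : ℤ) : ℤ) : WithTop ℤ) := by
  rw [vInf_apply, H873.coe_jE]
  exact addVal_jd E d

end VInf

/-! ## The valuation at `0` (prime level) -/

section VZero

variable (E : IntermediateField ℚ _root_.Fermat.Agent.A2.Mod.Qb) (q : ℕ) [NeZero q]

/-- `W ∘ ι : F_{q,E} → F_{q,ℚ̄}` -/
def wIota : _root_.Fermat.Agent.A2.Mod.FE E q →+* Fermat.Agent.S24.FF q :=
  ((Fermat.Agent.A2.H528.wF q : Fermat.Agent.S24.FF q ≃ₐ[_root_.Fermat.Agent.A2.Mod.Qb] Fermat.Agent.S24.FF q) :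
      Fermat.Agent.S24.FF q →+* Fermat.Agent.S24.FF q).comp
    (Fermat.Agent.A2.T1.H849.iota E (modularFunctionFieldFull q))

theorem wIota_apply (f : _root_.Fermat.Agent.A2.Mod.FE E q) :
    wIota E q f = Fermat.Agent.A2.H528.wF q
      (Fermat.Agent.A2.T1.H849.iota E (modularFunctionFieldFull q) f) := rfl

/-- the valuation at the cusp `0`: `vInf ∘ W` -/
def vZero : AddValuation (_root_.Fermat.Agent.A2.Mod.FE E q) (WithTop ℤ) :=
  (HahnSeries.addVal ℤ _root_.Fermat.Agent.A2.Mod.Qb).comap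
    ((algebraMap (Fermat.Agent.S24.FF q) (LaurentSeries _root_.Fermat.Agent.A2.Mod.Qb)).comp (wIota E q))

theorem vZero_apply (f : _root_.Fermat.Agent.A2.Mod.FE E q) :
    vZero E q f =
      HahnSeries.addVal ℤ _root_.Fermat.Agent.A2.Mod.Qb ((wIota E q f : Fermat.Agent.S24.FF q) : LaurentSeries _root_.Fermat.Agent.A2.Mod.Qb) := rfl

theorem iota_jE (d : ℕ) [NeZero d] (hd : d ∣ q) :
    Fermat.Agent.A2.T1.H849.iota E (modularFunctionFieldFull q) (jE E q d hd) =
      Fermat.Agent.A2.H528.jFd q d hd := by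
  apply Subtype.ext
  rw [Fermat.Agent.A2.T1.H849.coe_iota, Fermat.Agent.A2.H528.coe_jFd]
  show coeffMap (algebraMap E _root_.Fermat.Agent.A2.Mod.Qb) (coeffEmb E (qExpand ℚ d jq)) = coeffEmb _root_.Fermat.Agent.A2.Mod.Qb (qExpand ℚ d jq)
  ext n
  simp only [coeffMap_coeff, coeffEmb_coeff]
  exact (IsScalarTower.algebraMap_apply ℚ E _root_.Fermat.Agent.A2.Mod.Qb _).symm

theorem coe_jFd_eq (d : ℕ) [NeZero d] (hd : d ∣ q) :
    ((Fermat.Agent.A2.H528.jFd q d hd : Fermat.Agent.S24.FF q) : LaurentSeries _root_.Fermat.Agent.A2.Mod.Qb) =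
      qExpand _root_.Fermat.Agent.A2.Mod.Qb d (jqModC _root_.Fermat.Agent.A2.Mod.Qb) := by
  rw [Fermat.Agent.A2.H528.coe_jFd, coeffEmb, coeffMap_qExpand, ← jqModC_rat, coeffMap_jqModC]

theorem wIota_algebraMap (c : E) :
    wIota E q (algebraMap E (_root_.Fermat.Agent.A2.Mod.FE E q) c) = algebraMap _root_.Fermat.Agent.A2.Mod.Qb (Fermat.Agent.S24.FF q) (c : _root_.Fermat.Agent.A2.Mod.Qb) := by
  rw [wIota_apply, Fermat.Agent.A2.T1.H849.iota_algebraMap]
  exact (Fermat.Agent.A2.H528.wF q).commutes _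

theorem vZero_algebraMap {c : E} (hc : c ≠ 0) : vZero E q (algebraMap E (_root_.Fermat.Agent.A2.Mod.FE E q) c) = 0 := by
  rw [vZero_apply, wIota_algebraMap]
  have hc' : (c : _root_.Fermat.Agent.A2.Mod.Qb) ≠ 0 := fun h => hc (Subtype.ext h)
  exact addVal_algebraMap_laurent _root_.Fermat.Agent.A2.Mod.Qb hc'

theorem wIota_jE_one :
    wIota E q (jE E q 1 (one_dvd q)) = Fermat.Agent.A2.H528.jFd q q dvd_rfl := by
  rw [wIota_apply, iota_jE]
  have := Fermat.Agent.A2.H528.neZero_div q (one_dvd q)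
  rw [Fermat.Agent.A2.H528.wF_jFd q 1 (one_dvd q)]
  exact Fermat.Agent.A2.H528.jFd_congr q _ _ (Nat.div_one q)

theorem wIota_jE_self :
    wIota E q (jE E q q dvd_rfl) = Fermat.Agent.A2.H528.jFd q 1 (one_dvd q) := by
  rw [wIota_apply, iota_jE]
  have := Fermat.Agent.A2.H528.neZero_div q (dvd_refl q)
  rw [Fermat.Agent.A2.H528.wF_jFd q q dvd_rfl]
  exact Fermat.Agent.A2.H528.jFd_congr q _ _ (Nat.div_self (Nat.pos_of_ne_zero (NeZero.ne q)))

theorem vZero_jE_one :
    vZero E q (jE E q 1 (one_dvd q)) = ((-(q : ℤ) : ℤ) : WithTop ℤ) := by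
  rw [vZero_apply, wIota_jE_one, coe_jFd_eq]
  exact addVal_jd _root_.Fermat.Agent.A2.Mod.Qb q

theorem vZero_jE_self :
    vZero E q (jE E q q dvd_rfl) = ((-((1 : ℕ) : ℤ) : ℤ) : WithTop ℤ) := by
  rw [vZero_apply, wIota_jE_self, coe_jFd_eq]
  exact addVal_jd _root_.Fermat.Agent.A2.Mod.Qb 1

end VZero

/-! ## Consequences -/

section Cons

theorem addVal_pow_coe {R : Type*} [Ring R] (v : AddValuation R (WithTop ℤ)) {y : R} {b : ℤ}
    (hy : v y = (b : WithTop ℤ)) (n : ℕ) : v (y ^ n) = (((n : ℤ) * b : ℤ) : WithTop ℤ) := by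
  rw [AddValuation.map_pow, hy, ← WithTop.coe_nsmul, nsmul_eq_mul]

theorem addVal_mul_coe {R : Type*} [Ring R] (v : AddValuation R (WithTop ℤ)) {y z : R} {b c : ℤ}
    (hy : v y = (b : WithTop ℤ)) (hz : v z = (c : WithTop ℤ)) :
    v (y * z) = ((b + c : ℤ) : WithTop ℤ) := by
  rw [AddValuation.map_mul, hy, hz, WithTop.coe_add]

variable (E : IntermediateField ℚ _root_.Fermat.Agent.A2.Mod.Qb)

/-- `vInf x = -(q+1)` at level `M q`. -/
theorem vInf_xE (M q : ℕ) [NeZero M] [NeZero q] :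
    vInf E (M * q) (xE E M q) = ((-((q : ℤ) + 1) : ℤ) : WithTop ℤ) := by
  rw [xE, addVal_mul_coe _ (vInf_jE E (M * q) 1 (one_dvd _))
    (vInf_jE E (M * q) q (dvd_mul_left q M))]
  congr 1
  push_cast
  ring

/-- **L8 (a).** `x = j j_q` is transcendental over `E`. -/
theorem transcendental_xE (M q : ℕ) [NeZero M] [NeZero q] : Transcendental E (xE E M q) := by
  refine transcendental_of_addVal_neg (vInf E (M * q)) (fun c hc => vInf_algebraMap E _ hc)
    (a := -((q : ℤ) + 1)) ?_ (vInf_xE E M q)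
  have : (0 : ℤ) ≤ q := Int.natCast_nonneg q
  omega

/-- **L8 (c).** `E` is algebraically closed in `F_{N,E}`. -/
theorem mem_range_of_isAlgebraic (N : ℕ) (f : _root_.Fermat.Agent.A2.Mod.FE E N) (hf : IsAlgebraic E f) :
    f ∈ (algebraMap E (_root_.Fermat.Agent.A2.Mod.FE E N)).range := by
  have hf' : IsAlgebraic E (f : LaurentSeries E) :=
    (IntermediateField.isAlgebraic_iff (S := _root_.Fermat.Agent.A2.Mod.FE E N)).mp hf
  refine ⟨(f : LaurentSeries E).coeff 0, ?_⟩
  apply Subtype.ext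
  exact (eq_algebraMap_of_isAlgebraic E hf').symm

/-- the product `x_q = j j_q` at level `q` -/
def xq (q : ℕ) [NeZero q] : _root_.Fermat.Agent.A2.Mod.FE E q := jE E q 1 (one_dvd q) * jE E q q dvd_rfl

theorem vInf_xq (q : ℕ) [NeZero q] :
    vInf E q (xq E q) = ((-((q : ℤ) + 1) : ℤ) : WithTop ℤ) := by
  rw [xq, addVal_mul_coe _ (vInf_jE E q 1 (one_dvd _)) (vInf_jE E q q dvd_rfl)]
  congr 1
  push_cast
  ring

theorem vZero_xq (q : ℕ) [NeZero q] :
    vZero E q (xq E q) = ((-((q : ℤ) + 1) : ℤ) : WithTop ℤ) := by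
  rw [xq, addVal_mul_coe _ (vZero_jE_one E q) (vZero_jE_self E q)]
  congr 1
  push_cast
  ring

/-- **Lower bound, level `q`.** `j_q, …, j_q^(q+1), j, …, j^(q+1)` are linearly independent over
`E(x)`. -/
theorem linearIndependent_pow (q : ℕ) [NeZero q] (hq : 2 ≤ q) :
    LinearIndependent (IntermediateField.adjoin E ({xq E q} : Set (_root_.Fermat.Agent.A2.Mod.FE E q)))
      (Sum.elim (fun i : Fin (q + 1) => jE E q q dvd_rfl ^ ((i : ℕ) + 1))
        (fun i : Fin (q + 1) => jE E q 1 (one_dvd q) ^ ((i : ℕ) + 1))) := by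
  have hq0 : (2 : ℤ) ≤ q := by exact_mod_cast hq
  refine linearIndependent_of_two_addVal (vInf E q) (vZero E q)
    (fun c hc => vInf_algebraMap E q hc) (fun c hc => vZero_algebraMap E q hc)
    (a := -((q : ℤ) + 1)) (by omega) (vInf_xq E q) (vZero_xq E q)
    (fun i : Fin (q + 1) => (((i : ℕ) : ℤ) + 1) * (-(q : ℤ))) ?_ _ _ ?_ ?_ ?_ ?_
  · intro i i' m m' h
    have hi := i.2
    have hi' := i'.2
    set d : ℤ := ((i : ℕ) : ℤ) - ((i' : ℕ) : ℤ) with hd
    have hdvd : ((q : ℤ) + 1) ∣ d := by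
      refine ⟨d - (m' - m), ?_⟩
      rw [hd]
      linear_combination h
    have habs : |d| < (q : ℤ) + 1 := by
      rw [abs_lt]
      constructor <;> omega
    have hd0 : d = 0 := Int.eq_zero_of_abs_lt_dvd hdvd habs
    apply Fin.ext
    omega
  · intro i
    rw [addVal_pow_coe _ (vInf_jE E q q dvd_rfl)]
    congr 1
  · intro i
    rw [addVal_pow_coe _ (vZero_jE_self E q)]
    have h1 : ((((i : ℕ) : ℤ) + 1) * (-(q : ℤ)) : ℤ) + 1 ≤ (((i : ℕ) + 1 : ℕ) : ℤ) * (-((1 : ℕ) : ℤ)) := by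
      push_cast
      have : (0 : ℤ) ≤ ((i : ℕ) : ℤ) := Int.natCast_nonneg _
      nlinarith
    calc ((((((i : ℕ) : ℤ) + 1) * (-(q : ℤ)) : ℤ)) : WithTop ℤ) + 1
        = (((((i : ℕ) : ℤ) + 1) * (-(q : ℤ)) + 1 : ℤ) : WithTop ℤ) := by
          push_cast; rfl
      _ ≤ _ := WithTop.coe_le_coe.mpr h1
  · intro i
    rw [addVal_pow_coe _ (vZero_jE_one E q)]
    congr 1
  · intro i
    rw [addVal_pow_coe _ (vInf_jE E q 1 (one_dvd q))]
    have h1 : ((((i : ℕ) : ℤ) + 1) * (-(q : ℤ)) : ℤ) + 1 ≤ (((i : ℕ) + 1 : ℕ) : ℤ) * (-((1 : ℕ) : ℤ)) := by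
      push_cast
      have : (0 : ℤ) ≤ ((i : ℕ) : ℤ) := Int.natCast_nonneg _
      nlinarith
    calc ((((((i : ℕ) : ℤ) + 1) * (-(q : ℤ)) : ℤ)) : WithTop ℤ) + 1
        = (((((i : ℕ) : ℤ) + 1) * (-(q : ℤ)) + 1 : ℤ) : WithTop ℤ) := by
          push_cast; rfl
      _ ≤ _ := WithTop.coe_le_coe.mpr h1

end Cons

end Fermat.Agent.A2.Mod.H816

end

end
-- ===== PACK-END A2/Mod/H816/L8Val.lean

-- ===== PACK-BEGIN A2/Mod/H816/L8Upper.lean
section





/-!
# A2 / MOD leaf L8, part 3 (helper816): the modular polynomial has degree `q + 1` in BOTH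
variables, hence `j` has degree `≤ 2 (q + 1)` over `E(j j_q)`

* `natDegree_swap_modPoly` : for `D : S28.ModPolyData q`, `(swap D.Φ).natDegree = q + 1`
  (from `Φ(X, j) = minpoly_{ℚ(j)} j_q` and `Φ(j, j_q) = 0`: `Φ ∣ swap Φ`, compare degrees);
* `exists_poly_of_mul` : abstract: `Φ ∈ ℤ[Y][X]` monic in `X` of degree `n`, of degree `d` in `Y`,
  `Φ(y, z) = 0`, `x ↦ y z` ⟹ a polynomial `P ≠ 0` over `K ∋ x` of degree `≤ n + d` with
  `P(y) = 0`  (`P(T) = T^d Φ(T, x / T)`).
-/

set_option autoImplicit false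
set_option synthInstance.maxHeartbeats 400000
set_option maxHeartbeats 1600000

noncomputable section

namespace Fermat.Agent.A2.Mod.H816

open ModularCurve HahnSeries Polynomial
open scoped Polynomial.Bivariate

/-! ## Bivariate polynomials -/

section Biv

variable {R A : Type*} [CommRing R] [CommRing A] [Algebra R A]

theorem aevalAeval_eq_eval₂ (x y : A) (p : R[X][Y]) :
    aevalAeval x y p = p.eval₂ (aeval x : R[X] →ₐ[R] A).toRingHom y := by
  induction p using Polynomial.induction_on' with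
  | add p q hp hq => rw [map_add, hp, hq, eval₂_add]
  | monomial n a =>
    rw [← C_mul_X_pow_eq_monomial, map_mul, map_pow, aevalAeval_C, aevalAeval_Y, eval₂_mul,
      eval₂_pow, eval₂_C, eval₂_X]
    rfl

theorem eval₂_swap (x y : A) (p : R[X][Y]) :
    (Bivariate.swap p).eval₂ (aeval x : R[X] →ₐ[R] A).toRingHom y =
      p.eval₂ (aeval y : R[X] →ₐ[R] A).toRingHom x := by
  rw [← aevalAeval_eq_eval₂, ← aevalAeval_eq_eval₂, Bivariate.aevalAeval_swap]

theorem coeff_coeff_swap (p : R[X][Y]) (a b : ℕ) :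
    ((Bivariate.swap p).coeff b).coeff a = (p.coeff a).coeff b := by
  induction p using Polynomial.induction_on' with
  | add p q hp hq =>
    rw [map_add, Polynomial.coeff_add, Polynomial.coeff_add, Polynomial.coeff_add,
      Polynomial.coeff_add, hp, hq]
  | monomial n f =>
    induction f using Polynomial.induction_on' with
    | add f g hf hg =>
      rw [map_add (monomial n), map_add, Polynomial.coeff_add, Polynomial.coeff_add,
        Polynomial.coeff_add, Polynomial.coeff_add, hf, hg]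
    | monomial m c =>
      rw [Bivariate.swap_monomial_monomial, Polynomial.coeff_monomial, Polynomial.coeff_monomial]
      by_cases h1 : m = b <;> by_cases h2 : n = a <;>
        simp [h1, h2, Polynomial.coeff_monomial]

end Biv

section EvZ

/-- evaluation `ℤ[X] → L`, `X ↦ z` (instance-free form) -/
abbrev evZ {L : Type*} [CommRing L] (z : L) : Polynomial ℤ →+* L :=
  Polynomial.eval₂RingHom (Int.castRingHom L) z

theorem evZ_of_algebra {L : Type*} [CommRing L] [Algebra ℤ L] (z : L) :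
    (aeval z : Polynomial ℤ →ₐ[ℤ] L).toRingHom = evZ z := by
  refine Polynomial.ringHom_ext' (Subsingleton.elim _ _) ?_
  simp [evZ]

theorem eval₂_swap_int {L : Type*} [CommRing L] (x y : L) (p : ℤ[X][Y]) :
    (Bivariate.swap p).eval₂ (evZ x) y = p.eval₂ (evZ y) x := by
  rw [← evZ_of_algebra, ← evZ_of_algebra]
  exact eval₂_swap x y p

theorem aeval_map_intCast {K L : Type*} [Field K] [CommRing L] [Algebra K L] (y : L)
    (p : Polynomial ℤ) : aeval y (p.map (Int.castRingHom K)) = evZ y p := by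
  rw [aeval_def, eval₂_map]
  show _ = p.eval₂ (Int.castRingHom L) y
  congr 1
  exact Subsingleton.elim _ _

end EvZ

/-! ## The degree of `Φ_q` in the inner variable -/

section Inner

open Fermat.Agent.S28

theorem addVal_jqModC (k : Type*) [Field k] :
    HahnSeries.addVal ℤ k (jqModC k) = ((-1 : ℤ) : WithTop ℤ) := by
  have h := addVal_jd k 1
  rw [qExpand_one_apply] at h
  rw [h]
  rfl

theorem evalAt_jqModC_injective (k : Type*) [Field k] [CharZero k] :
    Function.Injective (evalAt (jqModC k)) := by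
  rw [injective_iff_map_eq_zero]
  intro p hp
  by_contra hne
  have hmap : p.map (Int.castRingHom k) ≠ 0 := by
    intro h
    exact hne (Polynomial.map_injective (Int.castRingHom k) Int.cast_injective
      (by rw [h, Polynomial.map_zero]))
  have := aeval_ne_zero_of_addVal (HahnSeries.addVal ℤ k) (E := k) (F := LaurentSeries k)
      (fun c hc => addVal_algebraMap_laurent k hc) (a := -1) (by norm_num) (x := jqModC k)
      (addVal_jqModC k) hmap
  apply this
  rw [aeval_map_intCast, ← evZ_of_algebra]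
  exact hp

/-- **The modular polynomial has degree `q + 1` in the inner variable.** -/
theorem natDegree_swap_modPoly (q : ℕ) [NeZero q] (hq : q.Prime) (D : ModPolyData q) :
    (Bivariate.swap D.Φ).natDegree = q + 1 := by
  have hB1 : qExpand ℚ q (jqModC ℚ) ∉ jField ℚ :=
    h88_jp_not_mem_jField ℚ q (Nat.cast_ne_zero.mpr hq.ne_zero) hq.one_lt
      (H807.nonempty_unitPolyData q hq).some H25.theta_identity
  set σ := H145.evalAtSub (jField ℚ) (jqModC ℚ) H145.jqModC_mem_jField with hσ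
  have hσinj : Function.Injective σ := by
    intro a b hab
    apply evalAt_jqModC_injective ℚ
    have := congrArg (algebraMap (jField ℚ) (LaurentSeries ℚ)) hab
    rw [← RingHom.comp_apply, ← RingHom.comp_apply, H145.algebraMap_comp_evalAtSub] at this
    exact this
  have hmin := H145.minpoly_jp_over_jField (k := ℚ) D hq.two_le hB1
  have hroot : Polynomial.aeval (qExpand ℚ q (jqModC ℚ)) ((Bivariate.swap D.Φ).map σ) = 0 := by
    rw [H145.aeval_map_evalAtSub]
    have h1 : evalAt (jqModC ℚ) = evZ (jqModC ℚ) := evZ_of_algebra _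
    have h2 : evalAt (qExpand ℚ q (jqModC ℚ)) = evZ (qExpand ℚ q (jqModC ℚ)) :=
      evZ_of_algebra _
    rw [h1, eval₂_swap_int, ← h2]
    exact H145.modPoly_eval_j_field D
  have hmonic := D.monic
  have hdvd : D.Φ.map σ ∣ (Bivariate.swap D.Φ).map σ := by
    rw [← hmin]; exact minpoly.dvd _ _ hroot
  have hdvd' : D.Φ ∣ Bivariate.swap D.Φ := by
    rw [← Polynomial.modByMonic_eq_zero_iff_dvd hmonic]
    apply Polynomial.map_injective σ hσinj
    rw [Polynomial.map_modByMonic _ hmonic, Polynomial.map_zero]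
    exact (Polynomial.modByMonic_eq_zero_iff_dvd (hmonic.map σ)).mpr hdvd
  obtain ⟨h, hh⟩ := hdvd'
  have hΦ0 : D.Φ ≠ 0 := hmonic.ne_zero
  have hsw0 : Bivariate.swap D.Φ ≠ 0 := by
    intro h0
    apply hΦ0
    exact (Bivariate.swap (R := ℤ)).injective (by rw [h0, map_zero])
  have hh0 : h ≠ 0 := by
    rintro rfl
    rw [mul_zero] at hh
    exact hsw0 hh
  have hswh0 : Bivariate.swap h ≠ 0 := by
    intro h0
    apply hh0
    exact (Bivariate.swap (R := ℤ)).injective (by rw [h0, map_zero])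
  have e1 : (Bivariate.swap D.Φ).natDegree = D.Φ.natDegree + h.natDegree := by
    rw [hh, natDegree_mul hΦ0 hh0]
  have e2 : D.Φ.natDegree = (Bivariate.swap D.Φ).natDegree + (Bivariate.swap h).natDegree := by
    have h3 := congrArg (Bivariate.swap (R := ℤ)) hh
    rw [Bivariate.swap_swap_apply, map_mul] at h3
    conv_lhs => rw [h3]
    rw [natDegree_mul hsw0 hswh0]
  rw [D.natDegree_eq] at e1 e2
  omega

end Inner

/-! ## The polynomial `T^d Φ(T, x / T)` -/

section PolyP

variable {K L : Type*} [Field K] [Field L] [Algebra K L]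

theorem exists_poly_of_mul (Φ : ℤ[X][Y]) (hΦ : Φ.Monic) {n d : ℕ} (hn : Φ.natDegree = n)
    (hd : (Bivariate.swap Φ).natDegree = d) (x : K) (y z : L)
    (hxyz : algebraMap K L x = y * z)
    (hroot : Φ.eval₂ (evZ z) y = 0) :
    ∃ P : K[X], P ≠ 0 ∧ P.natDegree ≤ n + d ∧ aeval y P = 0 := by
  classical
  set φ : ℕ → Polynomial ℤ := fun b => (Bivariate.swap Φ).coeff b with hφ
  set P : K[X] := ∑ b ∈ Finset.range (d + 1),
    (φ b).map (Int.castRingHom K) * Polynomial.C (x ^ b) * X ^ (d - b) with hP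
  have hφcoeff : ∀ a b, (φ b).coeff a = (Φ.coeff a).coeff b := fun a b =>
    coeff_coeff_swap Φ a b
  have hφdeg : ∀ b, (φ b).natDegree ≤ n := by
    intro b
    rw [natDegree_le_iff_coeff_eq_zero]
    intro a ha
    have h0 : Φ.coeff a = 0 := coeff_eq_zero_of_natDegree_lt (by rw [hn]; exact ha)
    rw [hφcoeff, h0, Polynomial.coeff_zero]
  have hcoeff : P.coeff (n + d) = 1 := by
    rw [hP, finsetSum_coeff]
    rw [Finset.sum_eq_single 0]
    · rw [Nat.sub_zero, pow_zero, coeff_mul_X_pow, map_one, mul_one, coeff_map, hφcoeff,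
        ← hn, hΦ.coeff_natDegree]
      simp
    · intro b hb hb0
      have hbd : b ≤ d := Nat.lt_succ_iff.mp (Finset.mem_range.mp hb)
      have hle : d - b ≤ n + d := by omega
      rw [coeff_mul_X_pow', if_pos hle, coeff_mul_C, coeff_map, hφcoeff]
      have hlt : Φ.natDegree < n + d - (d - b) := by
        rw [hn]
        have : 0 < b := Nat.pos_of_ne_zero hb0
        omega
      have h0 : Φ.coeff (n + d - (d - b)) = 0 := coeff_eq_zero_of_natDegree_lt hlt
      rw [h0]
      simp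
    · intro h0
      exact absurd (Finset.mem_range.mpr (Nat.succ_pos d)) h0
  refine ⟨P, ?_, ?_, ?_⟩
  · intro h0
    rw [h0, Polynomial.coeff_zero] at hcoeff
    exact zero_ne_one hcoeff
  · rw [hP]
    apply natDegree_sum_le_of_forall_le
    intro b hb
    have hbd : b ≤ d := Nat.lt_succ_iff.mp (Finset.mem_range.mp hb)
    calc ((φ b).map (Int.castRingHom K) * Polynomial.C (x ^ b) * X ^ (d - b)).natDegree
        ≤ ((φ b).map (Int.castRingHom K) * Polynomial.C (x ^ b)).natDegree + (X ^ (d - b) : K[X]).natDegree :=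
          natDegree_mul_le
      _ ≤ ((φ b).map (Int.castRingHom K)).natDegree + (Polynomial.C (x ^ b) : K[X]).natDegree + (d - b) := by
          gcongr
          · exact natDegree_mul_le
          · exact natDegree_X_pow_le _
      _ ≤ n + 0 + d := by
          gcongr
          · exact (natDegree_map_le).trans (hφdeg b)
          · rw [natDegree_C]
          · omega
      _ = n + d := by ring
  · rw [hP, map_sum]
    have hterm : ∀ b ∈ Finset.range (d + 1),
        aeval y ((φ b).map (Int.castRingHom K) * Polynomial.C (x ^ b) * X ^ (d - b)) =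
          (evZ y (φ b) * z ^ b) * y ^ d := by
      intro b hb
      have hbd : b ≤ d := Nat.lt_succ_iff.mp (Finset.mem_range.mp hb)
      rw [map_mul, map_mul, aeval_C, map_pow, map_pow, aeval_X, hxyz]
      rw [aeval_map_intCast]
      have h2 : y ^ d = y ^ b * y ^ (d - b) := by
        rw [← _root_.pow_add]
        congr 1
        omega
      rw [h2, mul_pow]
      ring
    rw [Finset.sum_congr rfl hterm, ← Finset.sum_mul]
    have h3 : (Bivariate.swap Φ).eval₂ (evZ y) z =
        ∑ b ∈ Finset.range (d + 1), evZ y (φ b) * z ^ b := by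
      rw [eval₂_eq_sum_range, hd]
    rw [← h3, eval₂_swap_int, hroot, zero_mul]

end PolyP

end Fermat.Agent.A2.Mod.H816

end

end
-- ===== PACK-END A2/Mod/H816/L8Upper.lean

-- ===== PACK-BEGIN A2/Mod/H553/Fricke.lean
section




/-!
# A2 / MOD leaves L4 `FrickeExists`, L5 `FrickeCompat` (helper553)

* `ringHom_ext_FE` : two ring homomorphisms out of `F_{N,E} = E(j_d : d ∣ N)` which agree on the
  constants `E` and on the generators `j_d` are equal;
* `wE E N : FE E N ≃ₐ[E] FE E N` : the Fricke involution over `E`, the restriction of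
  `H528.wF N` along `ι : F_{N,E} → F̄_N` (`iota_wE`);
* `frickeExists : FrickeExistsStatement E`  (L4);
* `frickeCompat : FrickeCompatStatement E M q`  (L5);
* `IsFricke` determines `W` (`isFricke_unique`).
-/

set_option autoImplicit false
set_option synthInstance.maxHeartbeats 400000
set_option maxHeartbeats 1600000
set_option linter.unusedSectionVars false
set_option linter.style.haveILetI false

noncomputable section

namespace Fermat.Agent.A2.Mod.H553

open ModularCurve HahnSeries Polynomial IntermediateField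
open Fermat.Agent.A2 Fermat.Agent.A2.Mod Fermat.Agent.S18.H602

variable (E : IntermediateField ℚ _root_.Fermat.Agent.A2.Mod.Qb)

/-! ### Extensionality for ring homomorphisms out of `F_{N,E}` -/

theorem coeffEmb_algebraMap_rat (c : ℚ) :
    coeffEmb (↥E) (algebraMap ℚ (LaurentSeries ℚ) c) =
      algebraMap (↥E) (LaurentSeries ↥E) (algebraMap ℚ (↥E) c) := by
  rw [algebraMap_apply_eq_single, algebraMap_laurentSeries_eq_single, coeffEmb,
    coeffMap_single]

/-- Two ring homomorphisms out of `F_{N,E}` agreeing on `E` and on the `j_d`, `d ∣ N`, agree. -/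
theorem ringHom_ext_FE {N : ℕ} {K : Type*} [DivisionRing K] (φ ψ : ↥(_root_.Fermat.Agent.A2.Mod.FE E N) →+* K)
    (hE : ∀ e : ↥E, φ (algebraMap ↥E ↥(_root_.Fermat.Agent.A2.Mod.FE E N) e) = ψ (algebraMap ↥E ↥(_root_.Fermat.Agent.A2.Mod.FE E N) e))
    (hj : ∀ (d : ℕ) [NeZero d] (hd : d ∣ N), φ (jE E N d hd) = ψ (jE E N d hd)) :
    φ = ψ := by
  -- first: the rational functions
  have hrat : ∀ z ∈ modularFunctionFieldFull N, ∀ hz' : coeffEmb (↥E) z ∈ _root_.Fermat.Agent.A2.Mod.FE E N,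
      φ ⟨coeffEmb (↥E) z, hz'⟩ = ψ ⟨coeffEmb (↥E) z, hz'⟩ := by
    intro z₀ hz₀
    have hz0 : z₀ ∈ IntermediateField.adjoin ℚ (divisorExpansions N) := hz₀
    clear hz₀
    induction hz0 using IntermediateField.adjoin_induction with
    | mem y hy =>
        intro hz'
        obtain ⟨d, hne, hd, rfl⟩ := hy
        haveI := hne
        exact hj d hd
    | algebraMap c =>
        intro hz'
        have h1 : (⟨coeffEmb (↥E) (algebraMap ℚ (LaurentSeries ℚ) c), hz'⟩ : ↥(_root_.Fermat.Agent.A2.Mod.FE E N))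
            = algebraMap ↥E ↥(_root_.Fermat.Agent.A2.Mod.FE E N) (algebraMap ℚ ↥E c) :=
          Subtype.ext (coeffEmb_algebraMap_rat E c)
        rw [h1]
        exact hE _
    | add y z hy hz ihy ihz =>
        intro hz'
        have hy' := coeffEmb_mem_laurentBaseChange (↥E) (F₀ := modularFunctionFieldFull N) hy
        have hz'' := coeffEmb_mem_laurentBaseChange (↥E) (F₀ := modularFunctionFieldFull N) hz
        have h1 : (⟨coeffEmb (↥E) (y + z), hz'⟩ : ↥(_root_.Fermat.Agent.A2.Mod.FE E N))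
            = ⟨coeffEmb (↥E) y, hy'⟩ + ⟨coeffEmb (↥E) z, hz''⟩ := Subtype.ext (map_add _ _ _)
        rw [h1, map_add, map_add, ihy hy', ihz hz'']
    | inv y hy ihy =>
        intro hz'
        have hy' := coeffEmb_mem_laurentBaseChange (↥E) (F₀ := modularFunctionFieldFull N) hy
        have h1 : (⟨coeffEmb (↥E) (y⁻¹), hz'⟩ : ↥(_root_.Fermat.Agent.A2.Mod.FE E N))
            = (⟨coeffEmb (↥E) y, hy'⟩ : ↥(_root_.Fermat.Agent.A2.Mod.FE E N))⁻¹ := Subtype.ext (map_inv₀ _ _)
        rw [h1, map_inv₀, map_inv₀, ihy hy']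
    | mul y z hy hz ihy ihz =>
        intro hz'
        have hy' := coeffEmb_mem_laurentBaseChange (↥E) (F₀ := modularFunctionFieldFull N) hy
        have hz'' := coeffEmb_mem_laurentBaseChange (↥E) (F₀ := modularFunctionFieldFull N) hz
        have h1 : (⟨coeffEmb (↥E) (y * z), hz'⟩ : ↥(_root_.Fermat.Agent.A2.Mod.FE E N))
            = ⟨coeffEmb (↥E) y, hy'⟩ * ⟨coeffEmb (↥E) z, hz''⟩ := Subtype.ext (map_mul _ _ _)
        rw [h1, map_mul, map_mul, ihy hy', ihz hz'']
  have key : ∀ (x : LaurentSeries ↥E) (hx : x ∈ _root_.Fermat.Agent.A2.Mod.FE E N), φ ⟨x, hx⟩ = ψ ⟨x, hx⟩ := by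
    intro x hx
    have hx0 : x ∈ IntermediateField.adjoin (↥E)
        (⇑(coeffEmb ↥E) '' (modularFunctionFieldFull N : Set (LaurentSeries ℚ))) := hx
    suffices h : ∀ hx' : x ∈ _root_.Fermat.Agent.A2.Mod.FE E N, φ ⟨x, hx'⟩ = ψ ⟨x, hx'⟩ from h hx
    clear hx
    induction hx0 using IntermediateField.adjoin_induction with
    | mem y hy =>
        intro hx'
        obtain ⟨z, hz, rfl⟩ := hy
        exact hrat z hz hx'
    | algebraMap c =>
        intro hx'
        exact hE c
    | add y z hy hz ihy ihz =>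
        intro hx'
        have h1 : (⟨y + z, hx'⟩ : ↥(_root_.Fermat.Agent.A2.Mod.FE E N)) = ⟨y, hy⟩ + ⟨z, hz⟩ := rfl
        rw [h1, map_add, map_add, ihy hy, ihz hz]
    | inv y hy ihy =>
        intro hx'
        have h1 : (⟨y⁻¹, hx'⟩ : ↥(_root_.Fermat.Agent.A2.Mod.FE E N)) = (⟨y, hy⟩ : ↥(_root_.Fermat.Agent.A2.Mod.FE E N))⁻¹ := rfl
        rw [h1, map_inv₀, map_inv₀, ihy hy]
    | mul y z hy hz ihy ihz =>
        intro hx'
        have h1 : (⟨y * z, hx'⟩ : ↥(_root_.Fermat.Agent.A2.Mod.FE E N)) = ⟨y, hy⟩ * ⟨z, hz⟩ := rfl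
        rw [h1, map_mul, map_mul, ihy hy, ihz hz]
  exact RingHom.ext fun f => key f.1 f.2

/-! ### The Fricke involution over `E` -/

section Fricke

variable (N : ℕ) [NeZero N]

/-- the comparison map `F_{N,E} → F̄_N` -/
abbrev iotaN : ↥(_root_.Fermat.Agent.A2.Mod.FE E N) →+* ↥(modularFunctionFieldBar N) :=
  T1.H849.iota E (modularFunctionFieldFull N)

theorem iotaN_injective : Function.Injective (iotaN E N) := (iotaN E N).injective

theorem iotaN_algebraMap (e : ↥E) :
    iotaN E N (algebraMap ↥E ↥(_root_.Fermat.Agent.A2.Mod.FE E N) e) =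
      algebraMap _root_.Fermat.Agent.A2.Mod.Qb ↥(modularFunctionFieldBar N) (e : _root_.Fermat.Agent.A2.Mod.Qb) :=
  T1.H849.iota_algebraMap E (modularFunctionFieldFull N) e

theorem iotaN_jE (d : ℕ) [NeZero d] (hd : d ∣ N) :
    iotaN E N (jE E N d hd) = H528.jFd N d hd := by
  apply Subtype.ext
  show coeffMap (algebraMap ↥E _root_.Fermat.Agent.A2.Mod.Qb) (coeffEmb (↥E) (qExpand ℚ d jq)) = _
  rw [coeffMap_coeffEmb']
  rfl

/-- `w_N` preserves `F_{N,E}`. -/
theorem exists_iota_eq_wF (f : ↥(_root_.Fermat.Agent.A2.Mod.FE E N)) :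
    ∃ g : ↥(_root_.Fermat.Agent.A2.Mod.FE E N), iotaN E N g = H528.wF N (iotaN E N f) := by
  obtain ⟨x, hx⟩ := f
  have hx0 : x ∈ IntermediateField.adjoin (↥E)
      (⇑(coeffEmb ↥E) '' (modularFunctionFieldFull N : Set (LaurentSeries ℚ))) := hx
  suffices h : ∀ hx' : x ∈ _root_.Fermat.Agent.A2.Mod.FE E N,
      ∃ g : ↥(_root_.Fermat.Agent.A2.Mod.FE E N), iotaN E N g = H528.wF N (iotaN E N ⟨x, hx'⟩) from h hx
  clear hx
  induction hx0 using IntermediateField.adjoin_induction with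
  | mem y hy =>
      intro hx'
      obtain ⟨z, hz, rfl⟩ := hy
      obtain ⟨y', hy', hy''⟩ := H528.wF_rat N hz
      refine ⟨⟨coeffEmb (↥E) y', coeffEmb_mem_laurentBaseChange (↥E) hy'⟩, Subtype.ext ?_⟩
      have h1 : iotaN E N ⟨coeffEmb (↥E) z, hx'⟩ =
          ⟨coeffEmb _root_.Fermat.Agent.A2.Mod.Qb z, coeffEmb_mem_laurentBaseChange _root_.Fermat.Agent.A2.Mod.Qb hz⟩ :=
        Subtype.ext (coeffMap_coeffEmb' _ z)
      rw [h1, hy'']
      exact coeffMap_coeffEmb' _ y'
  | algebraMap c =>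
      intro hx'
      refine ⟨algebraMap ↥E ↥(_root_.Fermat.Agent.A2.Mod.FE E N) c, ?_⟩
      have h1 : (⟨algebraMap (↥E) (LaurentSeries ↥E) c, hx'⟩ : ↥(_root_.Fermat.Agent.A2.Mod.FE E N)) =
          algebraMap ↥E ↥(_root_.Fermat.Agent.A2.Mod.FE E N) c := rfl
      rw [h1, iotaN_algebraMap, AlgEquiv.commutes]
  | add y z hy hz ihy ihz =>
      intro hx'
      obtain ⟨a, ha⟩ := ihy hy
      obtain ⟨b, hb⟩ := ihz hz
      refine ⟨a + b, ?_⟩
      have h1 : (⟨y + z, hx'⟩ : ↥(_root_.Fermat.Agent.A2.Mod.FE E N)) = ⟨y, hy⟩ + ⟨z, hz⟩ := rfl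
      rw [h1, map_add, map_add, map_add, ha, hb]
  | inv y hy ihy =>
      intro hx'
      obtain ⟨a, ha⟩ := ihy hy
      refine ⟨a⁻¹, ?_⟩
      have h1 : (⟨y⁻¹, hx'⟩ : ↥(_root_.Fermat.Agent.A2.Mod.FE E N)) = (⟨y, hy⟩ : ↥(_root_.Fermat.Agent.A2.Mod.FE E N))⁻¹ := rfl
      rw [h1, map_inv₀, map_inv₀, map_inv₀, ha]
  | mul y z hy hz ihy ihz =>
      intro hx'
      obtain ⟨a, ha⟩ := ihy hy
      obtain ⟨b, hb⟩ := ihz hz
      refine ⟨a * b, ?_⟩
      have h1 : (⟨y * z, hx'⟩ : ↥(_root_.Fermat.Agent.A2.Mod.FE E N)) = ⟨y, hy⟩ * ⟨z, hz⟩ := rfl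
      rw [h1, map_mul, map_mul, map_mul, ha, hb]

/-- the Fricke involution over `E`, as a function -/
def wEFun (f : ↥(_root_.Fermat.Agent.A2.Mod.FE E N)) : ↥(_root_.Fermat.Agent.A2.Mod.FE E N) := (exists_iota_eq_wF E N f).choose

theorem iota_wEFun (f : ↥(_root_.Fermat.Agent.A2.Mod.FE E N)) :
    iotaN E N (wEFun E N f) = H528.wF N (iotaN E N f) :=
  (exists_iota_eq_wF E N f).choose_spec

/-- the Fricke involution over `E`, as a ring homomorphism -/
def wEHom : ↥(_root_.Fermat.Agent.A2.Mod.FE E N) →+* ↥(_root_.Fermat.Agent.A2.Mod.FE E N) where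
  toFun := wEFun E N
  map_one' := iotaN_injective E N (by rw [iota_wEFun, map_one, map_one])
  map_mul' a b := iotaN_injective E N (by
    rw [iota_wEFun, map_mul, map_mul, map_mul, iota_wEFun, iota_wEFun])
  map_zero' := iotaN_injective E N (by rw [iota_wEFun, map_zero, map_zero])
  map_add' a b := iotaN_injective E N (by
    rw [iota_wEFun, map_add, map_add, map_add, iota_wEFun, iota_wEFun])

theorem iota_wEHom (f : ↥(_root_.Fermat.Agent.A2.Mod.FE E N)) :
    iotaN E N (wEHom E N f) = H528.wF N (iotaN E N f) := iota_wEFun E N f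

theorem wEHom_wEHom (f : ↥(_root_.Fermat.Agent.A2.Mod.FE E N)) : wEHom E N (wEHom E N f) = f :=
  iotaN_injective E N (by rw [iota_wEHom, iota_wEHom, H528.wF_wF])

theorem wEHom_algebraMap (e : ↥E) :
    wEHom E N (algebraMap ↥E ↥(_root_.Fermat.Agent.A2.Mod.FE E N) e) = algebraMap ↥E ↥(_root_.Fermat.Agent.A2.Mod.FE E N) e :=
  iotaN_injective E N (by rw [iota_wEHom, iotaN_algebraMap, AlgEquiv.commutes])

/-- **The Fricke involution `w_N` of `F_{N,E}` over `E`.** -/
def wE : ↥(_root_.Fermat.Agent.A2.Mod.FE E N) ≃ₐ[↥E] ↥(_root_.Fermat.Agent.A2.Mod.FE E N) :=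
  AlgEquiv.ofAlgHom
    { toRingHom := wEHom E N, commutes' := wEHom_algebraMap E N }
    { toRingHom := wEHom E N, commutes' := wEHom_algebraMap E N }
    (AlgHom.ext fun f => wEHom_wEHom E N f)
    (AlgHom.ext fun f => wEHom_wEHom E N f)

theorem wE_apply (f : ↥(_root_.Fermat.Agent.A2.Mod.FE E N)) : wE E N f = wEHom E N f := rfl

/-- `ι ∘ w_{N,E} = w_N ∘ ι`. -/
theorem iota_wE (f : ↥(_root_.Fermat.Agent.A2.Mod.FE E N)) :
    iotaN E N (wE E N f) = H528.wF N (iotaN E N f) := iota_wEHom E N f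

theorem wE_jE (d d' : ℕ) [NeZero d] [NeZero d'] (hd : d ∣ N) (hd' : d' ∣ N) (h : d * d' = N) :
    wE E N (jE E N d hd) = jE E N d' hd' := by
  apply iotaN_injective E N
  rw [iota_wE, iotaN_jE, iotaN_jE, H528.wF_jFd]
  have hd0 : 0 < d := Nat.pos_of_ne_zero (NeZero.ne d)
  have hdiv : N / d = d' := by
    rw [← h]
    exact Nat.mul_div_cancel_left d' hd0
  haveI := H528.neZero_div N hd
  exact H528.jFd_congr N (Nat.div_dvd_of_dvd hd) hd' hdiv

theorem isFricke_wE : IsFricke E N (wE E N) :=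
  ⟨fun d d' _ _ hd hd' h => wE_jE E N d d' hd hd' h, fun f => wEHom_wEHom E N f⟩

end Fricke

/-- **L4.** -/
theorem frickeExists : FrickeExistsStatement E := by
  intro N hN
  haveI : NeZero N := ⟨hN⟩
  exact ⟨wE E N, isFricke_wE E N⟩

/-- `IsFricke` determines the involution. -/
theorem isFricke_unique {N : ℕ} (hN : N ≠ 0) {W W' : ↥(_root_.Fermat.Agent.A2.Mod.FE E N) ≃ₐ[↥E] ↥(_root_.Fermat.Agent.A2.Mod.FE E N)}
    (hW : IsFricke E N W) (hW' : IsFricke E N W') : W = W' := by
  have h : (W : ↥(_root_.Fermat.Agent.A2.Mod.FE E N) →+* ↥(_root_.Fermat.Agent.A2.Mod.FE E N)) = (W' : ↥(_root_.Fermat.Agent.A2.Mod.FE E N) →+* ↥(_root_.Fermat.Agent.A2.Mod.FE E N)) := by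
    refine ringHom_ext_FE E _ _ (fun e => ?_) (fun d _ hd => ?_)
    · show W (algebraMap ↥E ↥(_root_.Fermat.Agent.A2.Mod.FE E N) e) = W' (algebraMap ↥E ↥(_root_.Fermat.Agent.A2.Mod.FE E N) e)
      rw [AlgEquiv.commutes, AlgEquiv.commutes]
    · show W (jE E N d hd) = W' (jE E N d hd)
      have hd0 : 0 < d := Nat.pos_of_ne_zero (NeZero.ne d)
      haveI : NeZero (N / d) := ⟨by
        intro h0
        rcases (Nat.div_eq_zero_iff).mp h0 with h1 | h1
        · exact (NeZero.ne d) h1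
        · exact absurd (Nat.le_of_dvd (Nat.pos_of_ne_zero hN) hd) (not_le.mpr h1)⟩
      rw [hW.1 d (N / d) hd (Nat.div_dvd_of_dvd hd) (Nat.mul_div_cancel' hd),
        hW'.1 d (N / d) hd (Nat.div_dvd_of_dvd hd) (Nat.mul_div_cancel' hd)]
  exact AlgEquiv.ext fun f => congrArg (fun φ : ↥(_root_.Fermat.Agent.A2.Mod.FE E N) →+* ↥(_root_.Fermat.Agent.A2.Mod.FE E N) => φ f) h

/-! ### L5: compatibility with the degeneracy maps -/

section Compat

variable (M q : ℕ) [NeZero M] [NeZero q]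

theorem αE_jE (d : ℕ) [NeZero d] (hd : d ∣ M) :
    αE E M q (jE E M d hd) = jE E (M * q) d (hd.trans (dvd_mul_right M q)) :=
  Subtype.ext rfl

theorem βE_jE (d : ℕ) [NeZero d] (hd : d ∣ M) :
    haveI : NeZero (d * q) := ⟨mul_ne_zero (NeZero.ne d) (NeZero.ne q)⟩
    βE E M q (jE E M d hd) = jE E (M * q) (d * q) (mul_dvd_mul_right hd q) := by
  haveI : NeZero (d * q) := ⟨mul_ne_zero (NeZero.ne d) (NeZero.ne q)⟩
  apply Subtype.ext
  show qExpand (↥E) q (coeffEmb (↥E) (qExpand ℚ d jq)) = coeffEmb (↥E) (qExpand ℚ (d * q) jq)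
  rw [coeffEmb, ← coeffMap_qExpand, qExpand_qExpand]
  congr 1
  exact qExpand_congr (mul_comm q d) jq

/-- **L5.** -/
theorem frickeCompat : FrickeCompatStatement E M q := by
  intro WM WN hWM hWN
  have hM0 : M ≠ 0 := NeZero.ne M
  have hq0 : q ≠ 0 := NeZero.ne q
  -- the two identities as equalities of ring homomorphisms
  have h1 : ((WN : ↥(_root_.Fermat.Agent.A2.Mod.FE E (M * q)) →+* ↥(_root_.Fermat.Agent.A2.Mod.FE E (M * q))).comp
      (αE E M q : ↥(_root_.Fermat.Agent.A2.Mod.FE E M) →+* ↥(_root_.Fermat.Agent.A2.Mod.FE E (M * q)))) =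
      ((βE E M q : ↥(_root_.Fermat.Agent.A2.Mod.FE E M) →+* ↥(_root_.Fermat.Agent.A2.Mod.FE E (M * q))).comp
        (WM : ↥(_root_.Fermat.Agent.A2.Mod.FE E M) →+* ↥(_root_.Fermat.Agent.A2.Mod.FE E M))) := by
    refine ringHom_ext_FE E _ _ (fun e => ?_) (fun d _ hd => ?_)
    · show WN (αE E M q (algebraMap ↥E ↥(_root_.Fermat.Agent.A2.Mod.FE E M) e)) = βE E M q (WM (algebraMap ↥E ↥(_root_.Fermat.Agent.A2.Mod.FE E M) e))
      rw [AlgHom.commutes, AlgEquiv.commutes, AlgEquiv.commutes, AlgHom.commutes]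
    · show WN (αE E M q (jE E M d hd)) = βE E M q (WM (jE E M d hd))
      have hd0 : d ≠ 0 := NeZero.ne d
      haveI hMd : NeZero (M / d) := ⟨by
        intro h0
        rcases (Nat.div_eq_zero_iff).mp h0 with h1 | h1
        · exact hd0 h1
        · exact absurd (Nat.le_of_dvd (Nat.pos_of_ne_zero hM0) hd) (not_le.mpr h1)⟩
      haveI : NeZero (M / d * q) := ⟨mul_ne_zero (NeZero.ne (M / d)) hq0⟩
      rw [αE_jE, hWM.1 d (M / d) hd (Nat.div_dvd_of_dvd hd) (Nat.mul_div_cancel' hd), βE_jE]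
      refine hWN.1 d (M / d * q) _ _ ?_
      rw [← mul_assoc, Nat.mul_div_cancel' hd]
  have h2 : ((WN : ↥(_root_.Fermat.Agent.A2.Mod.FE E (M * q)) →+* ↥(_root_.Fermat.Agent.A2.Mod.FE E (M * q))).comp
      (βE E M q : ↥(_root_.Fermat.Agent.A2.Mod.FE E M) →+* ↥(_root_.Fermat.Agent.A2.Mod.FE E (M * q)))) =
      ((αE E M q : ↥(_root_.Fermat.Agent.A2.Mod.FE E M) →+* ↥(_root_.Fermat.Agent.A2.Mod.FE E (M * q))).comp
        (WM : ↥(_root_.Fermat.Agent.A2.Mod.FE E M) →+* ↥(_root_.Fermat.Agent.A2.Mod.FE E M))) := by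
    refine ringHom_ext_FE E _ _ (fun e => ?_) (fun d _ hd => ?_)
    · show WN (βE E M q (algebraMap ↥E ↥(_root_.Fermat.Agent.A2.Mod.FE E M) e)) = αE E M q (WM (algebraMap ↥E ↥(_root_.Fermat.Agent.A2.Mod.FE E M) e))
      rw [AlgHom.commutes, AlgEquiv.commutes, AlgEquiv.commutes, AlgHom.commutes]
    · show WN (βE E M q (jE E M d hd)) = αE E M q (WM (jE E M d hd))
      have hd0 : d ≠ 0 := NeZero.ne d
      haveI hMd : NeZero (M / d) := ⟨by
        intro h0
        rcases (Nat.div_eq_zero_iff).mp h0 with h1 | h1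
        · exact hd0 h1
        · exact absurd (Nat.le_of_dvd (Nat.pos_of_ne_zero hM0) hd) (not_le.mpr h1)⟩
      haveI : NeZero (d * q) := ⟨mul_ne_zero hd0 hq0⟩
      rw [βE_jE, hWM.1 d (M / d) hd (Nat.div_dvd_of_dvd hd) (Nat.mul_div_cancel' hd), αE_jE]
      refine hWN.1 (d * q) (M / d) _ _ ?_
      rw [mul_assoc, mul_comm q, ← mul_assoc, Nat.mul_div_cancel' hd]
  intro f
  exact ⟨congrArg (fun φ : ↥(_root_.Fermat.Agent.A2.Mod.FE E M) →+* ↥(_root_.Fermat.Agent.A2.Mod.FE E (M * q)) => φ f) h1,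
    congrArg (fun φ : ↥(_root_.Fermat.Agent.A2.Mod.FE E M) →+* ↥(_root_.Fermat.Agent.A2.Mod.FE E (M * q)) => φ f) h2⟩

end Compat

end Fermat.Agent.A2.Mod.H553

end
end
-- ===== PACK-END A2/Mod/H553/Fricke.lean

-- ===== PACK-BEGIN S36/Mod3/H27/SheetsTwo.lean
section


/-!
# S36 / MOD3, leaf QEP (helper27): the sheets of a chart with two reduced components (abstract)

`complete_of_inf_eq` : chart `B = chart R {x}`, primes `p₁, p₂` of `B` with `p₁ ⊓ p₂ = w B`
(reduced special fibre with two components), sheets `V₁, V₂` with `p_i ⊆ B ∩ w V_i`.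
Then every sheet is `V₁` or `V₂`.
-/

set_option autoImplicit false
set_option linter.style.haveILetI false
set_option linter.unusedSectionVars false

namespace Fermat.Agent.S36.Mod3.H27

open Polynomial
open Fermat.Agent.A2.H12 (IsSheet)
open Fermat.Agent.S18.H138
open Fermat.Agent.S36.H193 (centreW mem_centreW sheet_chart_le centre_mem_minimalPrimes
  sheet_eq_of_centre_eq nu_mul_right)

universe u

section Two

variable {R : Type u} [CommRing R] [IsDomain R] {F : Type u} [Field F] [Algebra R F]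

/-- The centre of a sheet `V₁` is the prime `p₁` as soon as `p₁ ⊆ B ∩ w V₁`, `p₁` is prime and
contains `w`. -/
theorem centre_eq_of_le {w : R} (hw0 : algebraMap R F w ≠ 0) {x : F} {V₁ : ValuationSubring F}
    (hs₁ : IsSheet w x V₁)
    (p₁ : Ideal (chart R ({x} : Set F))) (hp₁ : p₁.IsPrime)
    (hw₁ : algebraMap R (chart R ({x} : Set F)) w ∈ p₁)
    (hc₁ : ∀ b : chart R ({x} : Set F), b ∈ p₁ → (b : F) * (algebraMap R F w)⁻¹ ∈ V₁) :
    centreW V₁ (chart R ({x} : Set F)) (sheet_chart_le hs₁) = p₁ := by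
  have hle : p₁ ≤ centreW V₁ (chart R ({x} : Set F)) (sheet_chart_le hs₁) := by
    intro b hb
    rw [mem_centreW]
    have h1 := hc₁ b hb
    have hwn : algebraMap R F w ∈ V₁.nonunits := hs₁.2.2.1
    have : (b : F) = algebraMap R F w * ((b : F) * (algebraMap R F w)⁻¹) := by
      field_simp
    rw [this]
    exact nu_mul_right V₁ hwn h1
  have hmin := centre_mem_minimalPrimes hs₁
  have hspan : Ideal.span {algebraMap R (chart R ({x} : Set F)) w} ≤ p₁ := by
    rw [Ideal.span_le, Set.singleton_subset_iff]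
    exact hw₁
  exact le_antisymm (hmin.2 ⟨hp₁, hspan⟩ hle) hle

variable [IsNoetherianRing R] [IsIntegrallyClosed R[X]] [CharZero F]

/-- **Two reduced components ⟹ two sheets.** -/
theorem complete_of_inf_eq (hinjR : Function.Injective (algebraMap R F)) {w : R} (hw : Prime w)
    {x : F} (hx : Transcendental R x) [FiniteDimensional (baseField R x) F]
    (V₁ V₂ : ValuationSubring F) (hs₁ : IsSheet w x V₁) (hs₂ : IsSheet w x V₂)
    (p₁ p₂ : Ideal (chart R ({x} : Set F))) (hp₁ : p₁.IsPrime) (hp₂ : p₂.IsPrime)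
    (hinf : p₁ ⊓ p₂ = Ideal.span {algebraMap R (chart R ({x} : Set F)) w})
    (hc₁ : ∀ b : chart R ({x} : Set F), b ∈ p₁ → (b : F) * (algebraMap R F w)⁻¹ ∈ V₁)
    (hc₂ : ∀ b : chart R ({x} : Set F), b ∈ p₂ → (b : F) * (algebraMap R F w)⁻¹ ∈ V₂) :
    ∀ V : ValuationSubring F, IsSheet w x V → V = V₁ ∨ V = V₂ := by
  intro V hV
  have hw0 : algebraMap R F w ≠ 0 := fun h0 => hw.ne_zero (hinjR (by rw [h0, map_zero]))
  have hwinf : algebraMap R (chart R ({x} : Set F)) w ∈ p₁ ⊓ p₂ := by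
    rw [hinf]
    exact Ideal.subset_span rfl
  have h₁ := centre_eq_of_le hw0 hs₁ p₁ hp₁ hwinf.1 hc₁
  have h₂ := centre_eq_of_le hw0 hs₂ p₂ hp₂ hwinf.2 hc₂
  set p := centreW V (chart R ({x} : Set F)) (sheet_chart_le hV) with hp
  have hmin := centre_mem_minimalPrimes hV
  have hpp : p.IsPrime := hmin.1.1
  have hle : p₁ ⊓ p₂ ≤ p := by
    rw [hinf]
    exact hmin.1.2
  have hspan₁ : Ideal.span {algebraMap R (chart R ({x} : Set F)) w} ≤ p₁ := by
    rw [← hinf]; exact inf_le_left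
  have hspan₂ : Ideal.span {algebraMap R (chart R ({x} : Set F)) w} ≤ p₂ := by
    rw [← hinf]; exact inf_le_right
  rcases (Ideal.IsPrime.inf_le hpp).1 hle with h | h
  · left
    have : p = p₁ := le_antisymm (hmin.2 ⟨hp₁, hspan₁⟩ h) h
    exact sheet_eq_of_centre_eq hinjR hw hx hV hs₁ (by rw [← hp, this, h₁])
  · right
    have : p = p₂ := le_antisymm (hmin.2 ⟨hp₂, hspan₂⟩ h) h
    exact sheet_eq_of_centre_eq hinjR hw hx hV hs₂ (by rw [← hp, this, h₂])

end Two

end Fermat.Agent.S36.Mod3.H27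

end
-- ===== PACK-END S36/Mod3/H27/SheetsTwo.lean

-- ===== PACK-BEGIN S36/Mod3/H189/ChartLeaf.lean
section



/-!
# S36 / MOD3, leaf CHART (helper189): the integrality half of `LeafChart`, in the frozen shape

`Mod3.LeafChart` (= `PartChart` at the concrete objects of `Mod3/Spec.lean`) has eight fields.
The four integrality fields `chart_α`, `chart_β`, `int_α`, `int_β` are proved in
`Mod3/H189/Chart3.lean` (monicity of `Φ_q` + valuative criterion, no hypothesis beyond `q` prime).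
The four residue fields `res_α₁`, `res_α₂`, `res_β₃`, `res_β₂` are collected in `LeafRes`:

* `x3_eq_x3E`            : the coordinate of `Chart3.lean` is `Mod3.x3E` (`rfl`);
* `chart_α_x3E`, `chart_β_x3E`, `int_α_x3E`, `int_β_x3E` : the four fields at `x3E`, VERBATIM;
* `j1_mem_chart` … `jqq_inv_mem_chart` : `j, j_q, j_{q²} ∈ chart R {x3E}`, inverses in
  `chart R {x3E⁻¹}`;
* `LeafRes`, `leafChart_of_res : LeafRes → LeafChart`.
-/

set_option autoImplicit false
set_option linter.style.haveILetI false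
set_option linter.unusedSectionVars false
set_option synthInstance.maxHeartbeats 400000
set_option maxHeartbeats 1600000

noncomputable section

namespace Fermat.Agent.S36.Mod3.H189

open ModularCurve
open Fermat.Agent.S18.H138 (chart)
open Fermat.Agent Fermat.Agent.S36.Eng

section Concrete

variable (P : ValuationSubring A2.Qb) (E : IntermediateField ℚ A2.Qb) (M q : ℕ)
  [NeZero M] [NeZero q] [NeZero (M * q)]

theorem x3_eq_x3E : x3 E M q = Mod3.x3E E M q := rfl

theorem j3_eq_j1 : j3 E M q = Mod3.j1 E M q := rfl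

theorem jq3_eq_jq : jq3 E M q = Mod3.jq E M q := rfl

theorem jqq3_eq_jqq : jqq3 E M q = Mod3.jqq E M q := rfl

variable (hq : q.Prime)
include hq

theorem j1_mem_chart :
    Mod3.j1 E M q ∈ chart (A2.RE P E) ({Mod3.x3E E M q} : Set (A2.Mod.FE E (M * q * q))) :=
  j_mem_chart P E M q hq

theorem jq_mem_chart' :
    Mod3.jq E M q ∈ chart (A2.RE P E) ({Mod3.x3E E M q} : Set (A2.Mod.FE E (M * q * q))) :=
  jq_mem_chart P E M q hq

theorem jqq_mem_chart' :
    Mod3.jqq E M q ∈ chart (A2.RE P E) ({Mod3.x3E E M q} : Set (A2.Mod.FE E (M * q * q))) :=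
  jqq_mem_chart P E M q hq

theorem j1_inv_mem_chart :
    (Mod3.j1 E M q)⁻¹ ∈
      chart (A2.RE P E) ({(Mod3.x3E E M q)⁻¹} : Set (A2.Mod.FE E (M * q * q))) :=
  j_inv_mem_chart P E M q hq

theorem jq_inv_mem_chart' :
    (Mod3.jq E M q)⁻¹ ∈
      chart (A2.RE P E) ({(Mod3.x3E E M q)⁻¹} : Set (A2.Mod.FE E (M * q * q))) :=
  jq_inv_mem_chart P E M q hq

theorem jqq_inv_mem_chart' :
    (Mod3.jqq E M q)⁻¹ ∈
      chart (A2.RE P E) ({(Mod3.x3E E M q)⁻¹} : Set (A2.Mod.FE E (M * q * q))) :=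
  jqq_inv_mem_chart P E M q hq

/-- **`chart_α`** at the frozen objects. -/
theorem chart_α_x3E : ∀ b ∈ chart (A2.RE P E) ({A2.Mod.xE E M q} : Set (A2.Mod.FE E (M * q))),
    A2.Mod.αE E (M * q) q b ∈
      chart (A2.RE P E) ({Mod3.x3E E M q} : Set (A2.Mod.FE E (M * q * q))) :=
  chart_α P E M q hq

/-- **`chart_β`** at the frozen objects. -/
theorem chart_β_x3E : ∀ b ∈ chart (A2.RE P E) ({A2.Mod.xE E M q} : Set (A2.Mod.FE E (M * q))),
    A2.Mod.βE E (M * q) q b ∈
      chart (A2.RE P E) ({Mod3.x3E E M q} : Set (A2.Mod.FE E (M * q * q))) :=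
  chart_β P E M q hq

/-- **`int_α`** at the frozen objects. -/
theorem int_α_x3E :
    ∀ b ∈ chart (A2.RE P E) ({Mod3.x3E E M q} : Set (A2.Mod.FE E (M * q * q))),
    ∃ p : Polynomial (A2.Mod.FE E (M * q)), p.Monic ∧
      (∀ i, p.coeff i ∈ chart (A2.RE P E) ({A2.Mod.xE E M q} : Set (A2.Mod.FE E (M * q)))) ∧
      (p.map (A2.Mod.αE E (M * q) q : A2.Mod.FE E (M * q) →+* A2.Mod.FE E (M * q * q))).eval b
        = 0 :=
  int_α P E M q hq

/-- **`int_β`** at the frozen objects. -/
theorem int_β_x3E :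
    ∀ b ∈ chart (A2.RE P E) ({Mod3.x3E E M q} : Set (A2.Mod.FE E (M * q * q))),
    ∃ p : Polynomial (A2.Mod.FE E (M * q)), p.Monic ∧
      (∀ i, p.coeff i ∈ chart (A2.RE P E) ({A2.Mod.xE E M q} : Set (A2.Mod.FE E (M * q)))) ∧
      (p.map (A2.Mod.βE E (M * q) q : A2.Mod.FE E (M * q) →+* A2.Mod.FE E (M * q * q))).eval b
        = 0 :=
  int_β P E M q hq

end Concrete

/-- The residue half of `PartChart` (residue degree one in chart form), generic. -/
structure PartRes (R : Type*) [CommRing R] {E F F' : Type*} [Field E] [Field F] [Algebra E F]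
    [Algebra R F] [Field F'] [Algebra E F'] [Algebra R F']
    (α β : F' →ₐ[E] F) (x : F) (x' : F') (V₁ V₂ V₃ : ValuationSubring F) : Prop where
  res_α₁ : ∀ b ∈ chart R ({x} : Set F), ∃ b' ∈ chart R ({x'} : Set F'), b - α b' ∈ V₁.nonunits
  res_α₂ : ∀ b ∈ chart R ({x} : Set F), ∃ b' ∈ chart R ({x'} : Set F'), b - α b' ∈ V₂.nonunits
  res_β₃ : ∀ b ∈ chart R ({x} : Set F), ∃ b' ∈ chart R ({x'} : Set F'), b - β b' ∈ V₃.nonunits
  res_β₂ : ∀ b ∈ chart R ({x} : Set F), ∃ b' ∈ chart R ({x'} : Set F'), b - β b' ∈ V₂.nonunits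

/-- **RES (leaf)**: the residue half of `LeafChart`. -/
def LeafRes : Prop :=
  Mod3.Leaf fun P E M q _ _ _ _ _ _ V₁ V₂ V₃ =>
    PartRes (A2.RE P E) (A2.Mod.αE E (M * q) q) (A2.Mod.βE E (M * q) q)
      (Mod3.x3E E M q) (A2.Mod.xE E M q) V₁ V₂ V₃

/-- **`LeafChart` from its residue half.** -/
theorem leafChart_of_res (h : LeafRes) : Mod3.LeafChart := by
  intro P E M q _ _ _ w hS V₁' V₂' V₁ V₂ V₃ W' W hO
  have hr := h P E M q w hS V₁' V₂' V₁ V₂ V₃ W' W hO
  exact
    { chart_α := chart_α_x3E P E M q hS.q_prime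
      chart_β := chart_β_x3E P E M q hS.q_prime
      int_α := int_α_x3E P E M q hS.q_prime
      int_β := int_β_x3E P E M q hS.q_prime
      res_α₁ := hr.res_α₁
      res_α₂ := hr.res_α₂
      res_β₃ := hr.res_β₃
      res_β₂ := hr.res_β₂ }

end Fermat.Agent.S36.Mod3.H189

end

end
-- ===== PACK-END S36/Mod3/H189/ChartLeaf.lean

-- ===== PACK-BEGIN S36/H994/T4E.lean
section



/-!
# The level-`4` Hauptmodul in the function fields `F_{N,E}` (helper994, S36 cell REG, `q` odd)

Mirror of helper890's `T9E.lean`.  `A2.Mod` vocabulary: `FE E N = E(j_d : d ∣ N) ⊆ E((t))`.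
For `4 ∣ N`:

* `t2E`, `t2eE`, `t4E : FE E N` — `t₂`, `t₂(t²)`, `t₄`, with INTEGRAL `t`-expansions
  (`coe_t4E_int` …: `= coeffEmb E (castQ g)`, `g : LaurentSeries ℤ`, the shape of
  `A2.Mod.H553.mem_of_int` / `inv_mem_of_int`);
* the relations in `FE E N`: `jE_mul_t4E` (`j t₄⁴ (t₄ + 16) = (t₄² + 256 t₄ + 4096)³`),
  `jE_sub_1728_mul_t4E`, `t4E_sq`, `t2eE_eq`, and `l1`, `l2`, `l3` of helper878's
  `Congr4.t4_congr` (`t2E_lin`, `t2eE_lin`, `t4E_lin`);
* `αE_t4E`, `coe_βE_t4E` : the images under the two degeneracy maps.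
-/

set_option autoImplicit false
set_option synthInstance.maxHeartbeats 400000
set_option maxHeartbeats 1600000
set_option linter.unusedSectionVars false

noncomputable section

namespace Fermat.Agent.S36.H994

open ModularCurve HahnSeries Fermat.Agent.Lib.Haupt Fermat.Agent.A2.Mod
open Fermat.Agent.A2 Fermat.Agent.S36.H878

variable (E : IntermediateField ℚ _root_.Fermat.Agent.A2.Mod.Qb) (N : ℕ)

/-! ## Membership -/

theorem t2_mem_laurentBaseChange4 (L : Type*) [Field L] [Algebra ℚ L] (M : ℕ) (h2 : 2 ∣ M) :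
    t2 L ∈ laurentBaseChange L (modularFunctionFieldFull M) := by
  have h := coeffEmb_mem_laurentBaseChange L (t2_mem_full M h2)
  rwa [coeffEmb, coeffMap_t2] at h

theorem qExpand_t2_mem_laurentBaseChange4 (L : Type*) [Field L] [Algebra ℚ L] (M : ℕ)
    (h4 : 4 ∣ M) :
    qExpand L 2 (t2 L) ∈ laurentBaseChange L (modularFunctionFieldFull M) := by
  have h0 : qExpand ℚ 2 (t2 ℚ) ∈ modularFunctionFieldFull M := qExpand_t2_mem_fullC ℚ M h4
  have h := coeffEmb_mem_laurentBaseChange L h0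
  rwa [coeffEmb, coeffMap_qExpand, coeffMap_t2] at h

/-- `t₂ ∈ F_{N,E}`, `2 ∣ N`. -/
def t2E (h2 : 2 ∣ N) : _root_.Fermat.Agent.A2.Mod.FE E N := ⟨t2 E, t2_mem_laurentBaseChange4 E N h2⟩

/-- `t₂(t²) ∈ F_{N,E}`, `4 ∣ N`. -/
def t2eE (h4 : 4 ∣ N) : _root_.Fermat.Agent.A2.Mod.FE E N := ⟨qExpand E 2 (t2 E), qExpand_t2_mem_laurentBaseChange4 E N h4⟩

/-- `t₄ ∈ F_{N,E}`, `4 ∣ N`. -/
def t4E (h4 : 4 ∣ N) : _root_.Fermat.Agent.A2.Mod.FE E N := ⟨t4 E, t4_mem_laurentBaseChange E N h4⟩

theorem coe_t2E (h2 : 2 ∣ N) : ((t2E E N h2 : _root_.Fermat.Agent.A2.Mod.FE E N) : LaurentSeries E) = t2 E := rfl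

theorem coe_t2eE (h4 : 4 ∣ N) :
    ((t2eE E N h4 : _root_.Fermat.Agent.A2.Mod.FE E N) : LaurentSeries E) = qExpand E 2 (t2 E) := rfl

theorem coe_t4E (h4 : 4 ∣ N) : ((t4E E N h4 : _root_.Fermat.Agent.A2.Mod.FE E N) : LaurentSeries E) = t4 E := rfl

theorem two_dvd_of_four_dvd {N : ℕ} (h4 : 4 ∣ N) : 2 ∣ N :=
  Dvd.dvd.trans (by norm_num) h4

/-! ## Integral expansions -/

theorem coeffEmb_castQ_eq4 (g : LaurentSeries ℤ) :
    coeffEmb E (H708.castQ g) = coeffMap (Int.castRingHom E) g := by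
  rw [coeffEmb, H708.castQ, coeffMap_coeffMap]
  exact coeffMap_congr (RingHom.ext_int _ _) g

theorem coe_t2E_int (h2 : 2 ∣ N) :
    ((t2E E N h2 : _root_.Fermat.Agent.A2.Mod.FE E N) : LaurentSeries E) = coeffEmb E (H708.castQ (t2 ℤ)) := by
  rw [coe_t2E, coeffEmb_castQ_eq4, coeffMap_t2]

theorem coe_t2eE_int (h4 : 4 ∣ N) :
    ((t2eE E N h4 : _root_.Fermat.Agent.A2.Mod.FE E N) : LaurentSeries E)
      = coeffEmb E (H708.castQ (qExpand ℤ 2 (t2 ℤ))) := by
  rw [coe_t2eE, coeffEmb_castQ_eq4, coeffMap_qExpand, coeffMap_t2]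

theorem coe_t4E_int (h4 : 4 ∣ N) :
    ((t4E E N h4 : _root_.Fermat.Agent.A2.Mod.FE E N) : LaurentSeries E) = coeffEmb E (H708.castQ (t4 ℤ)) := by
  rw [coe_t4E, coeffEmb_castQ_eq4, coeffMap_t4]

theorem h4_coe_jE (d : ℕ) [NeZero d] (hd : d ∣ N) :
    ((jE E N d hd : _root_.Fermat.Agent.A2.Mod.FE E N) : LaurentSeries E) = qExpand E d (jqModC E) := by
  show coeffEmb E (qExpand ℚ d jq) = _
  rw [coeffEmb, coeffMap_qExpand, ← jqModC_rat, coeffMap_jqModC]

theorem h4_coe_jE_one :
    ((jE E N 1 (one_dvd N) : _root_.Fermat.Agent.A2.Mod.FE E N) : LaurentSeries E) = jqModC E := by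
  rw [h4_coe_jE, qExpand_one_apply]

/-! ## Relations in `F_{N,E}` -/

/-- `j · t₄⁴ (t₄ + 16) = (t₄² + 256 t₄ + 4096)³` in `F_{N,E}`. -/
theorem jE_mul_t4E (h4 : 4 ∣ N) :
    jE E N 1 (one_dvd N) * (t4E E N h4 ^ 4 * (t4E E N h4 + 16))
      = (t4E E N h4 ^ 2 + 256 * t4E E N h4 + 4096) ^ 3 := by
  apply Subtype.ext
  have h := jq_mul_t4 E
  rw [← h4_coe_jE_one E N, ← coe_t4E E N h4] at h
  exact h

/-- `(j - 1728) · t₄⁴ (t₄ + 16) = (t₄ + 32)² (t₄² - 512 t₄ - 8192)²` in `F_{N,E}`. -/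
theorem jE_sub_1728_mul_t4E (h4 : 4 ∣ N) :
    (jE E N 1 (one_dvd N) - 1728) * (t4E E N h4 ^ 4 * (t4E E N h4 + 16))
      = (t4E E N h4 + 32) ^ 2 * (t4E E N h4 ^ 2 - 512 * t4E E N h4 - 8192) ^ 2 := by
  apply Subtype.ext
  have h := jq_sub_1728_mul_t4 E
  rw [← h4_coe_jE_one E N, ← coe_t4E E N h4] at h
  exact h

/-- `t₄² = t₂ (t₄ + 16)` in `F_{N,E}`. -/
theorem t4E_sq (h4 : 4 ∣ N) :
    t4E E N h4 ^ 2 = t2E E N (two_dvd_of_four_dvd h4) * (t4E E N h4 + 16) :=
  Subtype.ext (t4_sq E)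

/-- `t₂(t²) = t₄ (t₄ + 16)` in `F_{N,E}`. -/
theorem t2eE_eq (h4 : 4 ∣ N) :
    t2eE E N h4 = t4E E N h4 * (t4E E N h4 + 16) :=
  Subtype.ext (t2e_eq E)

/-- `l3` : `t₄ · (t₂ + 16) = t₂(t²) - 16 t₂` in `F_{N,E}`. -/
theorem t4E_lin (h4 : 4 ∣ N) :
    t4E E N h4 * (t2E E N (two_dvd_of_four_dvd h4) + 16)
      = t2eE E N h4 - 16 * t2E E N (two_dvd_of_four_dvd h4) :=
  Subtype.ext (t4_mul E)

/-- `l1` : `U₂(j, j₂) · t₂ = W₂(j, j₂)` in `F_{N,E}`. -/
theorem t2E_lin (h2 : 2 ∣ N) :
    h4u2 (jE E N 1 (one_dvd N)) (jE E N 2 h2) * t2E E N h2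
      = h4w2 (jE E N 1 (one_dvd N)) (jE E N 2 h2) := by
  apply Subtype.ext
  have h := t2_lin4 E
  rw [← h4_coe_jE E N 2 h2, ← h4_coe_jE_one E N, ← coe_t2E E N h2] at h
  exact h

/-- `l2` : `U₂(j₂, j₄) · t₂(t²) = W₂(j₂, j₄)` in `F_{N,E}`. -/
theorem t2eE_lin (h4 : 4 ∣ N) :
    h4u2 (jE E N 2 (two_dvd_of_four_dvd h4)) (jE E N 4 h4) * t2eE E N h4
      = h4w2 (jE E N 2 (two_dvd_of_four_dvd h4)) (jE E N 4 h4) := by
  apply Subtype.ext
  have h := t2e_lin4 E
  rw [← h4_coe_jE E N 2 (two_dvd_of_four_dvd h4), ← h4_coe_jE E N 4 h4,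
    ← coe_t2eE E N h4] at h
  exact h

/-! ## The degeneracy maps -/

section Deg

variable [NeZero N] (q : ℕ) [NeZero q]

theorem αE_t4E (h4 : 4 ∣ N) :
    αE E N q (t4E E N h4) = t4E E (N * q) (Dvd.dvd.mul_right h4 q) :=
  Subtype.ext (coe_heckeAlphaBar N q _)

theorem αE_t2E (h2 : 2 ∣ N) :
    αE E N q (t2E E N h2) = t2E E (N * q) (Dvd.dvd.mul_right h2 q) :=
  Subtype.ext (coe_heckeAlphaBar N q _)

theorem αE_t2eE (h4 : 4 ∣ N) :
    αE E N q (t2eE E N h4) = t2eE E (N * q) (Dvd.dvd.mul_right h4 q) :=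
  Subtype.ext (coe_heckeAlphaBar N q _)

theorem coe_βE_t4E (h4 : 4 ∣ N) :
    ((βE E N q (t4E E N h4) : _root_.Fermat.Agent.A2.Mod.FE E (N * q)) : LaurentSeries E) = qExpand E q (t4 E) := rfl

theorem coe_βE_t4E_int (h4 : 4 ∣ N) :
    ((βE E N q (t4E E N h4) : _root_.Fermat.Agent.A2.Mod.FE E (N * q)) : LaurentSeries E)
      = coeffEmb E (H708.castQ (qExpand ℤ q (t4 ℤ))) := by
  rw [coe_βE_t4E, coeffEmb_castQ_eq4, coeffMap_qExpand, coeffMap_t4]

theorem coe_βE_t2E (h2 : 2 ∣ N) :
    ((βE E N q (t2E E N h2) : _root_.Fermat.Agent.A2.Mod.FE E (N * q)) : LaurentSeries E) = qExpand E q (t2 E) := rfl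

theorem coe_βE_t2eE (h4 : 4 ∣ N) :
    ((βE E N q (t2eE E N h4) : _root_.Fermat.Agent.A2.Mod.FE E (N * q)) : LaurentSeries E)
      = qExpand E q (qExpand E 2 (t2 E)) := rfl

theorem αE_jE4 (d : ℕ) [NeZero d] (hd : d ∣ N) :
    αE E N q (jE E N d hd) = jE E (N * q) d (Dvd.dvd.mul_right hd q) :=
  Subtype.ext (coe_heckeAlphaBar N q _)

end Deg

end Fermat.Agent.S36.H994

end
end
-- ===== PACK-END S36/H994/T4E.lean

-- ===== PACK-BEGIN S36/H994/Vinf4.lean
section



/-!
# The level-`4` Gauss units are units of `V∞` (helper994, S36 cell REG, `q` odd)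

Mirror of helper890's `Vinf9.lean`.  `V` the Gauss valuation ring of `F_{N,E}`
(`A2.Mod.IsVinf P E N V`), `4 ∣ N`, ANY residue characteristic.  The following elements of
`F_{N,E}` and their inverses lie in `V`:

  `t₄`, `t₄ + 16`, `t₂ + 16`, `U₂(j, j₂)`, `U₂(j₂, j₄)`, `j`, `j - 1728`,

and `t₂`, `t₂(t²)` lie in `V`.  (Units of `V_mid`, `V_FF` at level `N q` follow by
`V.comap α = V∞'`: `valuation_α_eq_one`.)
-/

set_option autoImplicit false
set_option synthInstance.maxHeartbeats 400000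
set_option maxHeartbeats 1600000
set_option linter.unusedSectionVars false

noncomputable section

namespace Fermat.Agent.S36.H994

open ModularCurve HahnSeries Fermat.Agent.Lib.Haupt Fermat.Agent.A2.Mod
open Fermat.Agent.A2 Fermat.Agent.S36.H878

variable (P : ValuationSubring _root_.Fermat.Agent.A2.Mod.Qb) (E : IntermediateField ℚ _root_.Fermat.Agent.A2.Mod.Qb) (N : ℕ)

/-- The ring homomorphism `ℤ((t)) → E((t))`. -/
def castE4 : LaurentSeries ℤ →+* LaurentSeries E := (coeffEmb E).comp H708.castQ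

theorem castE4_apply (g : LaurentSeries ℤ) : castE4 E g = coeffEmb E (H708.castQ g) := rfl

theorem castE4_eq (g : LaurentSeries ℤ) : castE4 E g = coeffMap (Int.castRingHom E) g :=
  coeffEmb_castQ_eq4 E g

theorem castE4_t4 : castE4 E (t4 ℤ) = t4 E := by rw [castE4_eq, coeffMap_t4]

theorem castE4_t2 : castE4 E (t2 ℤ) = t2 E := by rw [castE4_eq, coeffMap_t2]

theorem castE4_jq : castE4 E (jqModC ℤ) = jqModC E := by rw [castE4_eq, coeffMap_jqModC]

theorem castE4_qExpand (d : ℕ) [NeZero d] (g : LaurentSeries ℤ) :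
    castE4 E (qExpand ℤ d g) = qExpand E d (castE4 E g) := by
  rw [castE4_eq, castE4_eq, coeffMap_qExpand]

variable {P E N}

/-- An element of `F_{N,E}` whose expansion is an integral series with a coefficient `1` is a
unit of `V∞`. -/
theorem unit_of_int4 {V : ValuationSubring (_root_.Fermat.Agent.A2.Mod.FE E N)} (hV : IsVinf P E N V) {f : _root_.Fermat.Agent.A2.Mod.FE E N}
    {g : LaurentSeries ℤ} {k : ℤ} (hfg : (f : LaurentSeries E) = castE4 E g)
    (hk : g.coeff k = 1) : f ∈ V ∧ f⁻¹ ∈ V :=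
  ⟨H553.mem_of_int hV hfg, H553.inv_mem_of_int hV hfg (Or.inl hk)⟩

variable (P E N)

section Level4

variable {V : ValuationSubring (_root_.Fermat.Agent.A2.Mod.FE E N)} (hV : IsVinf P E N V) (h4 : 4 ∣ N)

include hV

theorem t4E_unit : t4E E N h4 ∈ V ∧ (t4E E N h4)⁻¹ ∈ V :=
  unit_of_int4 hV (g := t4 ℤ) (k := -1) (by rw [coe_t4E, castE4_t4]) (coeff_t4_neg_one ℤ)

theorem t4E_add_unit : t4E E N h4 + 16 ∈ V ∧ (t4E E N h4 + 16)⁻¹ ∈ V := by
  refine unit_of_int4 hV (g := t4 ℤ + 16) (k := -1) ?_ (coeff_t4_add_16 ℤ)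
  rw [map_add, map_ofNat, castE4_t4]
  rfl

theorem t2E_mem : t2E E N (two_dvd_of_four_dvd h4) ∈ V :=
  H553.mem_of_int hV (g := t2 ℤ) (by rw [coe_t2E, ← castE4_apply, castE4_t2])

theorem t2eE_mem : t2eE E N h4 ∈ V :=
  H553.mem_of_int hV (g := qExpand ℤ 2 (t2 ℤ))
    (by rw [coe_t2eE, ← castE4_apply, castE4_qExpand, castE4_t2])

theorem t2E_add_unit :
    t2E E N (two_dvd_of_four_dvd h4) + 16 ∈ V
      ∧ (t2E E N (two_dvd_of_four_dvd h4) + 16)⁻¹ ∈ V := by
  refine unit_of_int4 hV (g := t2 ℤ + 16) (k := -1) ?_ (coeff_t2_add_16 ℤ)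
  rw [map_add, map_ofNat, castE4_t2]
  rfl

theorem u2E_unit :
    h4u2 (jE E N 1 (one_dvd N)) (jE E N 2 (two_dvd_of_four_dvd h4)) ∈ V
      ∧ (h4u2 (jE E N 1 (one_dvd N)) (jE E N 2 (two_dvd_of_four_dvd h4)))⁻¹ ∈ V := by
  refine unit_of_int4 hV (g := h4u2 (jqModC ℤ) (qExpand ℤ 2 (jqModC ℤ))) (k := -3) ?_
    (coeff_u2 ℤ)
  rw [map_h4u2, castE4_qExpand, castE4_jq, ← h4_coe_jE E N 2 (two_dvd_of_four_dvd h4),
    ← h4_coe_jE_one E N]
  exact (map_h4u2 (_root_.Fermat.Agent.A2.Mod.FE E N).val.toRingHom _ _)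

theorem u2eE_unit :
    h4u2 (jE E N 2 (two_dvd_of_four_dvd h4)) (jE E N 4 h4) ∈ V
      ∧ (h4u2 (jE E N 2 (two_dvd_of_four_dvd h4)) (jE E N 4 h4))⁻¹ ∈ V := by
  refine unit_of_int4 hV (g := h4u2 (qExpand ℤ 2 (jqModC ℤ)) (qExpand ℤ 4 (jqModC ℤ)))
    (k := -6) ?_ (coeff_u2e ℤ)
  rw [map_h4u2, castE4_qExpand, castE4_qExpand, castE4_jq,
    ← h4_coe_jE E N 2 (two_dvd_of_four_dvd h4), ← h4_coe_jE E N 4 h4]
  exact (map_h4u2 (_root_.Fermat.Agent.A2.Mod.FE E N).val.toRingHom _ _)

end Level4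

section AnyLevel

variable {V : ValuationSubring (_root_.Fermat.Agent.A2.Mod.FE E N)} (hV : IsVinf P E N V)

include hV

theorem jE_one_unit4 : jE E N 1 (one_dvd N) ∈ V ∧ (jE E N 1 (one_dvd N))⁻¹ ∈ V :=
  unit_of_int4 hV (g := jqModC ℤ) (k := -1) (by rw [h4_coe_jE_one, castE4_jq])
    (coeff_jqModC_neg_one ℤ)

theorem jE_sub_1728_unit4 :
    jE E N 1 (one_dvd N) - 1728 ∈ V ∧ (jE E N 1 (one_dvd N) - 1728)⁻¹ ∈ V := by
  refine unit_of_int4 hV (g := jqModC ℤ - 1728) (k := -1) ?_ (coeff_jq4_sub_1728 ℤ)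
  rw [map_sub, map_ofNat, castE4_jq, ← h4_coe_jE_one E N]
  rfl

/-- `j_d ∈ V∞` for every `d ∣ N`. -/
theorem jE_mem4 (d : ℕ) [NeZero d] (hd : d ∣ N) : jE E N d hd ∈ V :=
  H553.mem_of_int hV (g := qExpand ℤ d (jqModC ℤ))
    (by rw [h4_coe_jE, ← castE4_apply, castE4_qExpand, castE4_jq])

end AnyLevel

end Fermat.Agent.S36.H994

end
end
-- ===== PACK-END S36/H994/Vinf4.lean

-- ===== PACK-BEGIN S36/H922/UnitRes.lean
section


/-!
# S36 engine / cell REG, route R4 (MID-UNIT): the residue of `β(U')` along `mid` — helper922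

`V` a valuation subring of a field `L` of residue characteristic `p`; `Ψ ∈ ℤ[Y][X]` the unit
polynomial of level `p`.  If `b, g ∈ Vˣ` and `y ∈ V` satisfy `Ψ(y ; b) = 0 = Ψ(y ; g)`, then
`b ≡ g` modulo `𝔪_V`.

Application: `L = F_{p² M'}`, `V = V_mid`, `y = j_p`, `b = β(U') = p¹² Δ(t^{p²})/Δ(t^p)`
(`Ψ(j_p ; β U') = β(Ψ(j ; U')) = 0`), `g = α(p¹²/U') = Δ(t)/Δ(t^p)` (second relation of
`h922_exists_unitPoly`).  Both are units of `V_mid` (`V_mid ∘ β = V₂'`, `V_mid ∘ α = V₁'`).
So `β(U') ≡ Δ(t)/Δ(t^p)` modulo `𝔪_mid`: hypothesis `h2'` of `h922_hres_abs` with `u = Δ(t^p)/Δ(t)`.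
-/

set_option autoImplicit false

noncomputable section

open ModularCurve HahnSeries Polynomial

namespace Fermat.Agent.S36.H922

open Fermat.Agent.S28

variable (p : ℕ) [hp : Fact p.Prime] [NeZero p]

/-- A field in which `p = 0` has characteristic `p`. -/
theorem h922_charP_of_cast_eq_zero (κ : Type*) [Field κ] (h : (p : κ) = 0) : CharP κ p := by
  obtain ⟨c, hc⟩ := CharP.exists κ
  have hdvd : c ∣ p := (CharP.cast_eq_zero_iff κ c p).1 h
  rcases (Nat.dvd_prime hp.out).1 hdvd with h1 | h1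
  · exfalso
    subst h1
    exact CharP.char_ne_one κ 1 rfl
  · subst h1
    exact hc

/-- **Unit roots of the unit polynomial are congruent modulo `𝔪_V`.** -/
theorem h922_unit_roots_congr {L : Type*} [Field L] (V : ValuationSubring L)
    (hpV : (p : L) ∈ V.nonunits)
    (Ψ : Polynomial (Polynomial ℤ)) (hΨ : Ψ.Monic) (hdeg : Ψ.natDegree = p + 1)
    (h1 : Ψ.eval₂ (evalAt (jqModC ℤ)) ((p : LaurentSeries ℤ) ^ 12 * unitL ℤ p) = 0)
    (h2 : Ψ.eval₂ (evalAt (qExpand ℤ p (jqModC ℤ))) (H589.unitL' p) = 0)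
    (y b g : L) (hy : y ∈ V) (hb : b ∈ V) (hb' : b⁻¹ ∈ V) (hg : g ∈ V) (hg' : g⁻¹ ∈ V)
    (hb0 : b ≠ 0) (hg0 : g ≠ 0)
    (hΨb : Ψ.eval₂ (Polynomial.aeval (R := ℤ) y).toRingHom b = 0)
    (hΨg : Ψ.eval₂ (Polynomial.aeval (R := ℤ) y).toRingHom g = 0) :
    b - g ∈ V.nonunits := by
  classical
  set κ := IsLocalRing.ResidueField V with hκ
  set res : V →+* κ := IsLocalRing.residue V with hres
  -- characteristic
  have hpm : ((p : V)) ∈ IsLocalRing.maximalIdeal V := by
    rw [IsLocalRing.mem_maximalIdeal, mem_nonunits_iff]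
    intro hu
    have h3 : V.valuation ((p : V) : L) = 1 := (V.valuation_eq_one_iff (p : V)).1 hu
    have h4 : V.valuation (p : L) < 1 := (V.mem_nonunits_iff).1 hpV
    have h5 : ((p : V) : L) = (p : L) := by push_cast; rfl
    rw [h5] at h3
    rw [h3] at h4
    exact lt_irrefl _ h4
  have hp0 : (p : κ) = 0 := by
    have : res (p : V) = 0 := (IsLocalRing.residue_eq_zero_iff _).2 hpm
    rwa [map_natCast] at this
  haveI : CharP κ p := h922_charP_of_cast_eq_zero p κ hp0
  -- elements of `V`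
  set yV : V := ⟨y, hy⟩ with hyV
  set bV : V := ⟨b, hb⟩ with hbV
  set gV : V := ⟨g, hg⟩ with hgV
  have hcomp : (V.subtype : V →+* L).comp (Polynomial.aeval (R := ℤ) yV).toRingHom
      = (Polynomial.aeval (R := ℤ) y).toRingHom := by
    apply Polynomial.ringHom_ext
    · intro a
      simp
    · simp [hyV]
  have hcomp' : res.comp (Polynomial.aeval (R := ℤ) yV).toRingHom
      = (Polynomial.aeval (R := ℤ) (res yV)).toRingHom := by
    apply Polynomial.ringHom_ext
    · intro a
      simp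
    · simp
  have key : ∀ x : L, ∀ hx : x ∈ V,
      Ψ.eval₂ (Polynomial.aeval (R := ℤ) y).toRingHom x = 0 →
      Ψ.eval₂ (Polynomial.aeval (R := ℤ) (res yV)).toRingHom (res ⟨x, hx⟩) = 0 := by
    intro x hx h
    have h3 : Ψ.eval₂ (Polynomial.aeval (R := ℤ) yV).toRingHom (⟨x, hx⟩ : V) = 0 := by
      apply Subtype.val_injective
      have := Polynomial.hom_eval₂ Ψ (Polynomial.aeval (R := ℤ) yV).toRingHom
        (V.subtype : V →+* L) (⟨x, hx⟩ : V)
      rw [hcomp] at this
      show (V.subtype : V →+* L) _ = _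
      rw [this]
      exact h
    have h4 := congrArg res h3
    rwa [Polynomial.hom_eval₂, hcomp', map_zero] at h4
  have hunit : ∀ x : L, ∀ hx : x ∈ V, x ≠ 0 → x⁻¹ ∈ V → IsUnit (res ⟨x, hx⟩) := by
    intro x hx hx0 hx'
    apply IsUnit.map
    exact IsUnit.of_mul_eq_one ⟨x⁻¹, hx'⟩ (Subtype.ext (mul_inv_cancel₀ hx0))
  have heq : res bV = res gV :=
    h922_unit_roots_eq p Ψ hΨ hdeg h1 h2 κ (res yV) (res bV) (res gV)
      (hunit b hb hb0 hb') (hunit g hg hg0 hg') (key b hb hΨb) (key g hg hΨg)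
  have hmem : bV - gV ∈ IsLocalRing.maximalIdeal V := by
    rw [← IsLocalRing.residue_eq_zero_iff, map_sub, ← hres, heq, sub_self]
  rw [IsLocalRing.mem_maximalIdeal, mem_nonunits_iff] at hmem
  rw [ValuationSubring.mem_nonunits_iff]
  have hle : V.valuation (b - g) ≤ 1 := (V.valuation_le_one_iff _).2 (sub_mem hb hg)
  rcases lt_or_eq_of_le hle with h | h
  · exact h
  · exfalso
    apply hmem
    exact (V.valuation_eq_one_iff (bV - gV)).2 h

end Fermat.Agent.S36.H922

end
end
-- ===== PACK-END S36/H922/UnitRes.lean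

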