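import Fermat.Prelude.Thm_ModularCurve_coeffMap_qExpand
import Fermat.Agent.Pack.S36.E18L3
import Fermat.Agent.Pack.S36.E4L3
import Fermat.Agent.Pack.S36.E18L0
import Fermat.Agent.Pack.S36.E13L2
import Fermat.Agent.Pack.S36.E15L3
import Fermat.Agent.Pack.S36.E16L2
import Fermat.Agent.Pack.S36.E18L2
import Fermat.Agent.Pack.S36.E6L3
import Fermat.Agent.Pack.S36.E14L3
import Fermat.Agent.Pack.S36.E18L1
import Fermat.Agent.Pack.S36.E17L3
import Fermat.Agent.Pack.S36.E16L0
import Fermat.Agent.Pack.S36.E17L0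
import Fermat.Agent.Pack.S36.E12L2
import Fermat.Agent.Pack.S36.E15L1
import Fermat.Agent.Pack.S36.E15L0
import Fermat.Agent.Pack.S36.E13L1
import Fermat.Agent.Pack.S36.E14L0
import Fermat.Agent.Pack.S36.E17L1
import Fermat.Agent.Pack.S36.E12L0

-- ===== PACK-BEGIN S29/H871/Inj.lean
section



/-!
# S29 / E3, part 8: injectivity of base change on `Pic0`

`G` acts semilinearly on `F'/K'`, fixing `F` pointwise, with `F'^G = F`.  Then
`Pic0 K F → Pic0 K' F'` is injective.

(helper871)
-/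

set_option autoImplicit false
set_option linter.unusedSectionVars false

noncomputable section

namespace Fermat.Agent.S29.H871

open AlgebraicCurve TensorProduct IntermediateField
open Fermat.Agent.S24.H117 (mem_iff_ord_nonneg ord_pow ord_add_eq_of_lt place_ext_of_le
  mem_of_ord_nonneg ord_nonneg_of_mem exists_ord_eq_one ord_div)

variable {K F K' F' : Type*} [Field K] [Field F] [Field K'] [Field F']
  [Algebra K F] [Algebra K' F'] [Algebra K K'] [Algebra F F'] [Algebra K F']
  [IsScalarTower K F F'] [IsScalarTower K K' F']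

variable (K F) in
/-- A group acting semilinearly on `F'/K'`, fixing `F` pointwise, with fixed field `F`, such that
the elements of `K'` with finite orbit lie in `K`. -/
structure IsDescentAction {G : Type*} [Group G] (θ : G →* SemilinearAut K' F') : Prop where
  fixes : ∀ (g : G) (f : F), θ g • algebraMap F F' f = algebraMap F F' f
  fixed : ∀ x : F', (∀ g : G, θ g • x = x) → x ∈ (algebraMap F F').range
  finite_orbit : ∀ c : K', (Set.range fun g : G => SemilinearAut.baseAut (θ g) c).Finite →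
    c ∈ (algebraMap K K').range

section Action

variable {G : Type*} [Group G] {θ : G →* SemilinearAut K' F'} (hθ : IsDescentAction K F θ)

theorem ord_smul_eq (g : SemilinearAut K' F') (w : Place K' F') (x : F') :
    w.ord (g • x) = (g⁻¹ • w).ord x := by
  have h := SemilinearAut.ord_smul g⁻¹ w (g • x)
  rw [inv_smul_smul] at h
  exact h.symm

theorem ord_smul_place (g : SemilinearAut K' F') (w : Place K' F') (x : F') :
    (g • w).ord x = w.ord (g⁻¹ • x) := by
  rw [ord_smul_eq, inv_inv]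

variable [IsConstExt K F K' F'] [IsAlgClosed K] [CharZero K] [IsAlgClosed K']
variable {t : F} (ht : Transcendental K t) [FiniteDimensional K⟮t⟯ F]

include hθ in
theorem ord_smul_algebraMap (g : G) (w : Place K' F') (f : F) :
    (θ g • w).ord (algebraMap F F' f) = w.ord (algebraMap F F' f) := by
  have h := SemilinearAut.ord_smul (θ g) w (algebraMap F F' f)
  rwa [hθ.fixes] at h

include hθ in
/-- Base-changed places are fixed by the descent action. -/
theorem smul_bcPlace (g : G) (v : Place K F) :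
    θ g • bcPlace K' F' ht v = bcPlace K' F' ht v := by
  obtain ⟨π, hπ⟩ := IsDiscreteValuationRing.exists_irreducible v.toValuationSubring
  refine (placeBC_eq_of_le (isRationalPlace_all ht v) (θ g • bcPlace K' F' ht v) ?_ hπ ?_).symm
  · intro f hf
    rw [ord_smul_algebraMap hθ, ord_bcPlace]
    exact ord_nonneg_of_mem v hf
  · rw [ord_smul_algebraMap hθ, ord_bcPlace, v.ord_coe_irreducible hπ]
    exact one_pos

include hθ in
theorem smul_bcDiv (g : G) (D : Divisor K F) :
    θ g • bcDiv K' F' ht D = bcDiv K' F' ht D := by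
  induction D using Finsupp.induction with
  | zero => simp
  | single_add v n D _ _ ih =>
    rw [map_add, smul_add, ih, bcDiv_single, SemilinearAut.smul_single, smul_bcPlace hθ]

end Action

section Const

variable [IsAlgClosed K'] [CharZero K']

/-- An element of `F'` all of whose orders vanish is a nonzero constant. -/
theorem exists_const_of_forall_ord_eq_zero {t' : F'} (ht' : Transcendental K' t')
    [FiniteDimensional K'⟮t'⟯ F'] {x : F'} (hx0 : x ≠ 0) (hx : ∀ w : Place K' F', w.ord x = 0) :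
    ∃ c : K', c ≠ 0 ∧ x = algebraMap K' F' c := by
  obtain ⟨c, hc⟩ := mem_range_of_forall_ord_le (K := K') ht' (fun w => (hx w).le)
  refine ⟨c, ?_, hc.symm⟩
  rintro rfl
  rw [map_zero] at hc
  exact hx0 hc.symm

end Const

section InMax

variable (P : Place K' F')

/-- `a` lies in the maximal ideal of `P`. -/
def InMax (a : F') : Prop := a = 0 ∨ 0 < P.ord a

variable {P}

theorem InMax.add {a b : F'} (ha : InMax P a) (hb : InMax P b) : InMax P (a + b) := by
  have ha' : a = 0 ∨ (0 + 1 : ℤ) ≤ P.ord a := ha.imp id (fun h => by omega)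
  have hb' : b = 0 ∨ (0 + 1 : ℤ) ≤ P.ord b := hb.imp id (fun h => by omega)
  exact (Fermat.Agent.S24.le_ord_add P ha' hb').imp id (fun h => by omega)

theorem InMax.neg {a : F'} (ha : InMax P a) : InMax P (-a) := by
  rcases ha with h | h
  · left; rw [h, neg_zero]
  · right; rwa [Fermat.Agent.S24.ord_neg]

theorem InMax.sub {a b : F'} (ha : InMax P a) (hb : InMax P b) : InMax P (a - b) := by
  rw [sub_eq_add_neg]
  exact ha.add hb.neg

theorem InMax.const_mul {a : F'} (c : K') (ha : InMax P a) : InMax P (algebraMap K' F' c * a) := by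
  rcases ha with h | h
  · left; rw [h, mul_zero]
  · by_cases hc : c = 0
    · left; rw [hc, map_zero, zero_mul]
    · right
      have hcF : algebraMap K' F' c ≠ 0 := by simpa using hc
      have ha0 : a ≠ 0 := by
        rintro rfl
        rw [P.ord_zero] at h
        exact lt_irrefl _ h
      rw [P.ord_mul hcF ha0, Fermat.Agent.S24.FF.ord_algebraMap, zero_add]
      exact h

theorem InMax.const_eq_zero {c : K'} (h : InMax P (algebraMap K' F' c)) : c = 0 := by
  rcases h with h | h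
  · exact (algebraMap K' F').injective (by rw [h, map_zero])
  · rw [Fermat.Agent.S24.FF.ord_algebraMap] at h
    exact absurd h (lt_irrefl _)

theorem inMax_of_mem_nonunits {a : F'} (h : a ∈ P.toValuationSubring.nonunits) : InMax P a := by
  by_cases ha : a = 0
  · exact Or.inl ha
  · exact Or.inr ((Fermat.Agent.S24.FF.ord_pos_iff_mem_nonunits P ha).mpr h)

theorem InMax.smul {a : F'} (g : SemilinearAut K' F') (hg : g⁻¹ • P = P) (ha : InMax P a) :
    InMax P (g • a) := by
  rcases ha with h | h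
  · left; rw [h, smul_zero]
  · right; rw [ord_smul_eq, hg]; exact h

end InMax

section Inj

variable {G : Type*} [Group G] {θ : G →* SemilinearAut K' F'} (hθ : IsDescentAction K F θ)
variable [IsConstExt K F K' F'] [IsAlgClosed K] [CharZero K] [IsAlgClosed K'] [CharZero K']
variable {t : F} (ht : Transcendental K t) [FiniteDimensional K⟮t⟯ F]

include hθ in
/-- **Rigidity**: an element of `F'` whose divisor is `G`-invariant and which takes the value `1`
at a base-changed place is `G`-invariant. -/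
theorem smul_eq_self_of_ord_invariant {z : F'} (hz0 : z ≠ 0)
    (hz : ∀ (g : G) (w : Place K' F'), w.ord (θ g • z) = w.ord z)
    (v₀ : Place K F) (h1 : InMax (bcPlace K' F' ht v₀) (z - 1)) (g : G) : θ g • z = z := by
  have hfd := finiteDimensional_adjoin_algebraMap (K := K) (K' := K') (F' := F') t
  have ht' := transcendental_algebraMap (K' := K') (F' := F') ht
  set P := bcPlace K' F' ht v₀ with hP
  have hgz0 : θ g • z ≠ 0 := by
    rw [SemilinearAut.smul_def]
    simpa using hz0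
  have hq : ∀ w : Place K' F', w.ord (θ g • z / z) = 0 := by
    intro w
    rw [ord_div w hgz0 hz0, hz]
    ring
  obtain ⟨d, hd0, hd⟩ := exists_const_of_forall_ord_eq_zero ht' (div_ne_zero hgz0 hz0) hq
  have hgz : θ g • z = algebraMap K' F' d * z := by
    rw [← hd]; field_simp
  have hgP : (θ g)⁻¹ • P = P := by
    rw [hP, ← map_inv, smul_bcPlace hθ]
  have h2 : InMax P (θ g • z - 1) := by
    have := h1.smul (θ g) hgP
    rwa [smul_sub, smul_one] at this
  have h3 : InMax P (algebraMap K' F' d * (z - 1)) := h1.const_mul d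
  have h4 : InMax P (algebraMap K' F' (d - 1)) := by
    have := h2.sub h3
    rw [hgz] at this
    have heq : algebraMap K' F' d * z - 1 - algebraMap K' F' d * (z - 1)
        = algebraMap K' F' (d - 1) := by
      rw [map_sub, map_one]; ring
    rwa [heq] at this
  have hd1 : d = 1 := sub_eq_zero.mp h4.const_eq_zero
  rw [hgz, hd1, map_one, one_mul]

include hθ in
/-- If the base change of `D` is the divisor of `x ∈ F'`, then `x` is a constant multiple of an
element of `F`. -/
theorem exists_algebraMap_of_bcDiv_eq {D : Divisor K F} {x : F'} (hx0 : x ≠ 0)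
    (hx : ∀ w : Place K' F', bcDiv K' F' ht D w = w.ord x) :
    ∃ (c : K') (f : F), c ≠ 0 ∧ f ≠ 0 ∧ x = algebraMap K' F' c * algebraMap F F' f := by
  have hfd := finiteDimensional_adjoin_algebraMap (K := K) (K' := K') (F' := F') t
  have ht' := transcendental_algebraMap (K' := K') (F' := F') ht
  -- a base place and a uniformizer
  obtain ⟨v₀, _⟩ := exists_ord_pos (K := K) ht
  obtain ⟨π, hπ0, hπ⟩ := exists_ord_eq_one v₀
  set P := bcPlace K' F' ht v₀ with hP
  have hPπ : P.ord (algebraMap F F' π) = 1 := by rw [hP, ord_bcPlace, hπ]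
  set n := P.ord x with hn
  have hpn0 : π ^ (-n) ≠ 0 := zpow_ne_zero _ hπ0
  have hpn0' : algebraMap F F' (π ^ (-n)) ≠ 0 := fun h =>
    hpn0 ((algebraMap F F').injective (by rw [h, map_zero]))
  set y := x * algebraMap F F' (π ^ (-n)) with hy
  have hy0 : y ≠ 0 := mul_ne_zero hx0 hpn0'
  have hyord : P.ord y = 0 := by
    rw [hy, P.ord_mul hx0 hpn0', hP, ord_bcPlace, v₀.ord_zpow, hπ, ← hP]
    omega
  -- the value of `y` at `P`
  have hPrat : IsRationalPlace P := isRationalPlace_of_isAlgClosed P ht'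
  obtain ⟨c, hc⟩ := hPrat y (mem_of_ord_nonneg P hyord.ge)
  have hyc : InMax P (y - algebraMap K' F' c) := inMax_of_mem_nonunits hc
  have hc0 : c ≠ 0 := by
    rintro rfl
    rw [map_zero, sub_zero] at hyc
    rcases hyc with h | h
    · exact hy0 h
    · omega
  have hcF : algebraMap K' F' c⁻¹ ≠ 0 := by simpa using hc0
  set z := algebraMap K' F' c⁻¹ * y with hz
  have hz0 : z ≠ 0 := mul_ne_zero hcF hy0
  have hz1 : InMax P (z - 1) := by
    have := hyc.const_mul c⁻¹
    have heq : algebraMap K' F' c⁻¹ * (y - algebraMap K' F' c) = z - 1 := by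
      rw [hz, mul_sub, ← map_mul, inv_mul_cancel₀ hc0, map_one]
    rwa [heq] at this
  have hzord : ∀ (g : G) (w : Place K' F'), w.ord (θ g • z) = w.ord z := by
    intro g w
    rw [ord_smul_eq, hz, hy]
    rw [((θ g)⁻¹ • w).ord_mul hcF hy0, w.ord_mul hcF hy0,
      ((θ g)⁻¹ • w).ord_mul hx0 hpn0', w.ord_mul hx0 hpn0',
      Fermat.Agent.S24.FF.ord_algebraMap, Fermat.Agent.S24.FF.ord_algebraMap,
      ← map_inv, ord_smul_algebraMap hθ, ← hx, ← hx]
    have h1 : bcDiv K' F' ht D (θ g⁻¹ • w) = bcDiv K' F' ht D w := by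
      have h := congrArg (fun E : Divisor K' F' => E w) (smul_bcDiv hθ ht g D)
      simp only [SemilinearAut.divisor_smul_apply] at h
      rwa [← map_inv] at h
    rw [h1]
  have hfix : ∀ g : G, θ g • z = z := smul_eq_self_of_ord_invariant hθ ht hz0 hzord v₀ hz1
  obtain ⟨f₀, hf₀⟩ := hθ.fixed z hfix
  have hf₀0 : f₀ ≠ 0 := by
    rintro rfl
    rw [map_zero] at hf₀
    exact hz0 hf₀.symm
  refine ⟨c, f₀ * π ^ n, hc0, mul_ne_zero hf₀0 (zpow_ne_zero _ hπ0), ?_⟩
  have hcF' : algebraMap K' F' c ≠ 0 := by simpa using hc0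
  have hπ' : algebraMap F F' π ≠ 0 := by simpa using hπ0
  rw [map_mul, hf₀, hz, hy, map_zpow₀, map_zpow₀, map_inv₀]
  field_simp
  rw [zpow_neg]
  field_simp

include hθ in
/-- **Descent of principality**: if the base change of `D` is principal, so is `D`. -/
theorem mem_principal_of_bcDiv_mem_principal {D : Divisor K F}
    (hD : bcDiv K' F' ht D ∈ Divisor.principal (K := K') (F := F')) :
    D ∈ Divisor.principal (K := K) (F := F) := by
  obtain ⟨x, hx0, hx⟩ := hD
  obtain ⟨c, f, hc0, hf0, hxf⟩ := exists_algebraMap_of_bcDiv_eq hθ ht hx0 hx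
  refine ⟨f, hf0, fun v => ?_⟩
  have hcF : algebraMap K' F' c ≠ 0 := by simpa using hc0
  have hfF : algebraMap F F' f ≠ 0 := by simpa using hf0
  rw [← bcDiv_apply_bcPlace (K' := K') (F' := F') ht D v, hx, hxf,
    (bcPlace K' F' ht v).ord_mul hcF hfF, Fermat.Agent.S24.FF.ord_algebraMap, zero_add,
    ord_bcPlace]

include hθ in
/-- **E3 (a)**: base change is injective on `Pic0`. -/
theorem bcPic0_injective : Function.Injective (bcPic0 K' F' ht) := by
  rw [injective_iff_map_eq_zero]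
  intro x hx
  obtain ⟨D, rfl⟩ := Pic0.mk_surjective x
  rw [bcPic0_mk] at hx
  have h1 : bcDegZero K' F' ht D ∈ (Divisor.principal (K := K') (F := F')).addSubgroupOf
      (Divisor.degZero (K := K') (F := F')) := (QuotientAddGroup.eq_zero_iff _).mp hx
  rw [AddSubgroup.mem_addSubgroupOf, coe_bcDegZero] at h1
  have h2 := mem_principal_of_bcDiv_mem_principal hθ ht h1
  exact (QuotientAddGroup.eq_zero_iff _).mpr (AddSubgroup.mem_addSubgroupOf.mpr h2)

end Inj

end Fermat.Agent.S29.H871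

end
end
-- ===== PACK-END S29/H871/Inj.lean

-- ===== PACK-BEGIN S29/M4b/K3/Basic.lean
section
/-
S29 row, M4b, piece K3 — basic lemmas for the top assembly (helper42).

* `isMerInf_of_isTwisted` : a twisted function of a parabolic character has a `q`-expansion at `i∞`.
* `exists_div_AK`, `exists_div_goodQ` : elements of the function fields over `ℚ̄` / `ℂ` are
  quotients of polynomials in the `j(q^d)` / of `q`-expansions of good functions.
* `hasChar_of_mul_eq` : transport of the character along `U' * B = ζ * U * A`.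
-/



set_option autoImplicit false

noncomputable section

open ModularCurve AlgebraicCurve CongruenceSubgroup UpperHalfPlane
open scoped MatrixGroups Manifold

namespace Fermat.Agent.S29.M4b.K3

open Fermat.Agent.S24 Fermat.Agent.S24.H648 Fermat.Agent.S24.H708 Fermat.Agent.S24.Deg457
open Fermat.Agent.S24.H624
open Fermat.Agent.S29 Fermat.Agent.S29.M4b

variable {N : ℕ} [NeZero N] {p : ℕ} [NeZero p]

/-- The translation `T` as an element of `Γ₀(N)`. -/
def TG (N : ℕ) : G0 N := ⟨ModularGroup.T, H882.T_mem_Gamma0 N⟩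

omit [NeZero N] in
theorem trace_TG : (TG N).mat.trace = 2 := by
  simp [TG, G0.mat, ModularGroup.T, Matrix.trace_fin_two]

omit [NeZero N] [NeZero p] in
/-- A twisted function of a parabolic character is `1`-periodic. -/
theorem periodic_of_isTwisted {c : G0 N → ZMod p} (hc : IsParHom c) {U : ℍ → ℂ}
    (hU : HasChar N p c U) : Function.Periodic (U ∘ ofComplex) (1 : ℝ) := by
  have hT : ∀ τ : ℍ, U (ModularGroup.T • τ) = U τ := by
    intro τ
    have h := hU (TG N) τ
    rw [hc.parabolic (TG N) (Or.inl trace_TG)] at h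
    simpa [TG] using h
  intro w
  by_cases hw : 0 < Complex.im w
  · have hw' : 0 < Complex.im (w + ((1 : ℝ) : ℂ)) := by simpa using hw
    simp only [Function.comp_apply, ofComplex_apply_of_im_pos hw', ofComplex_apply_of_im_pos hw]
    rw [← hT ⟨w, hw⟩]
    congr 1
    apply UpperHalfPlane.ext
    rw [UpperHalfPlane.modular_T_smul, UpperHalfPlane.coe_vadd]
    simp [add_comm]
  · have hw0 : Complex.im w ≤ 0 := not_lt.mp hw
    have hw' : Complex.im (w + ((1 : ℝ) : ℂ)) ≤ 0 := by simpa using hw0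
    simp only [Function.comp_apply]
    rw [ofComplex_apply_of_im_nonpos hw', ofComplex_apply_of_im_nonpos hw0]

omit [NeZero N] in
/-- If `U ^ p` has at most exponential growth, so has `U`. -/
theorem expGrowth_of_pow {U : ℍ → ℂ} (h : ExpGrowth (fun τ => U τ ^ p)) : ExpGrowth U := by
  obtain ⟨C, m, hC⟩ := h
  refine ⟨1 + |C|, m, fun τ hτ => ?_⟩
  have h1 := hC τ hτ
  rw [norm_pow] at h1
  have hp : p ≠ 0 := NeZero.ne p
  have hexp : (1 : ℝ) ≤ Real.exp (2 * Real.pi * m * τ.im) := by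
    apply Real.one_le_exp
    have := Real.pi_pos
    have := τ.im_pos
    positivity
  by_cases hle : ‖U τ‖ ≤ 1
  · calc ‖U τ‖ ≤ 1 := hle
      _ ≤ (1 + |C|) * 1 := by have := abs_nonneg C; linarith
      _ ≤ (1 + |C|) * Real.exp (2 * Real.pi * m * τ.im) := by
          apply mul_le_mul_of_nonneg_left hexp
          have := abs_nonneg C; linarith
  · have hgt : 1 ≤ ‖U τ‖ := (not_le.mp hle).le
    have h2 : ‖U τ‖ ≤ ‖U τ‖ ^ p := le_self_pow₀ hgt hp
    calc ‖U τ‖ ≤ ‖U τ‖ ^ p := h2
      _ ≤ C * Real.exp (2 * Real.pi * m * τ.im) := h1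
      _ ≤ (1 + |C|) * Real.exp (2 * Real.pi * m * τ.im) := by
          apply mul_le_mul_of_nonneg_right _ (Real.exp_pos _).le
          have := le_abs_self C; linarith

omit [NeZero N] in
/-- **K3a**: a twisted function of a parabolic character is meromorphic at `i∞` in `q`. -/
theorem isMerInf_of_isTwisted {c : G0 N → ZMod p} (hc : IsParHom c) {U : ℍ → ℂ}
    (hU : IsTwisted N p c U) : IsMerInf 1 U := by
  refine ⟨hU.mdiff, ?_, ?_⟩
  · have := periodic_of_isTwisted hc hU.hasChar
    simpa using this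
  · obtain ⟨-, -, h3⟩ := hU.pow_mem
    have h := h3 1
    simp only [one_smul] at h
    exact H882.isBounded_mul_qh_pow_of_expGrowth (expGrowth_of_pow h)

/-! ### Quotient presentations -/

section Quot

variable (K : Type*) [Field K] [Algebra ℚ K]

omit [NeZero N] in
/-- The polynomials in the `j(q^d)` lie in the function field. -/
theorem AK_le_laurentBaseChange (N : ℕ) :
    AK K N ≤ (laurentBaseChange K (modularFunctionFieldFull N)).toSubalgebra := by
  refine Algebra.adjoin_le ?_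
  rintro _ ⟨y, hy, rfl⟩
  exact coeffEmb_mem_laurentBaseChange K (IntermediateField.subset_adjoin ℚ _ hy)

omit [NeZero N] in
/-- Every element of the function field is a quotient of two polynomials in the `j(q^d)`. -/
theorem exists_div_AK (N : ℕ) {x : LaurentSeries K}
    (hx : x ∈ laurentBaseChange K (modularFunctionFieldFull N)) :
    ∃ r ∈ AK K N, ∃ s ∈ AK K N, s ≠ 0 ∧ x = r / s := by
  have h := laurentBaseChange_full_le (K := K) N hx
  rw [IntermediateField.mem_adjoin_iff_div] at h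
  obtain ⟨r, hr, s, hs, rfl⟩ := h
  by_cases hs0 : s = 0
  · refine ⟨0, zero_mem _, 1, one_mem _, one_ne_zero, ?_⟩
    rw [hs0, div_zero, zero_div]
  · exact ⟨r, hr, s, hs, hs0, rfl⟩

end Quot

/-- Every element of `F_ℂ` is a quotient of `q`-expansions of good functions. -/
theorem exists_div_goodQ {x : LaurentSeries ℂ} (hx : x ∈ FC N) :
    ∃ a ∈ H882.goodQ N, ∃ b ∈ H882.goodQ N, b ≠ 0 ∧ x = a / b := by
  obtain ⟨r, hr, s, hs, hs0, h⟩ := exists_div_AK ℂ N hx
  exact ⟨r, H882.AK_le_goodQ N hr, s, H882.AK_le_goodQ N hs, hs0, h⟩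

/-! ### Transport of the character -/

omit [NeZero N] [NeZero p] in
/-- If `U' * B = ζ * (U * A)` with `A`, `B` invariant under `Γ₀(N)`, `B ≠ 0`, all functions
holomorphic, and `U` has character `c`, then `U'` has character `c`. -/
theorem hasChar_of_mul_eq {c : G0 N → ZMod p} {U U' A B : ℍ → ℂ} (ζ : ℂ)
    (hU' : MDifferentiable 𝓘(ℂ) 𝓘(ℂ) U') (hB : MDifferentiable 𝓘(ℂ) 𝓘(ℂ) B) (hB0 : B ≠ 0)
    (hAinv : ∀ γ ∈ Gamma0 N, ∀ τ : ℍ, A (γ • τ) = A τ)
    (hBinv : ∀ γ ∈ Gamma0 N, ∀ τ : ℍ, B (γ • τ) = B τ)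
    (hU : HasChar N p c U) (h : ∀ τ, U' τ * B τ = ζ * (U τ * A τ)) : HasChar N p c U' := by
  intro γ τ₀
  -- the holomorphic function `D τ = U' (γ τ) - χ U' τ`
  set χ : ℂ := zetaP p ^ (c γ).val with hχ
  set D : ℍ → ℂ := fun τ => U' ((γ : SL(2, ℤ)) • τ) - χ * U' τ with hD
  have hDm : MDifferentiable 𝓘(ℂ) 𝓘(ℂ) D := by
    have h1 : MDifferentiable 𝓘(ℂ) 𝓘(ℂ) (fun τ : ℍ => U' ((γ : SL(2, ℤ)) • τ)) :=
      (precompSL (γ : SL(2, ℤ)) ⟨U', hU'⟩).2
    have h2 : MDifferentiable 𝓘(ℂ) 𝓘(ℂ) (fun τ : ℍ => χ * U' τ) :=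
      (mdifferentiable_const (c := χ)).mul hU'
    exact h1.sub h2
  have hDB : D * B = 0 := by
    funext τ
    simp only [Pi.mul_apply, Pi.zero_apply, hD]
    have e1 := h ((γ : SL(2, ℤ)) • τ)
    rw [hBinv _ γ.2 τ, hAinv _ γ.2 τ, hU γ τ] at e1
    have e2 := h τ
    calc (U' ((γ : SL(2, ℤ)) • τ) - χ * U' τ) * B τ
        = U' ((γ : SL(2, ℤ)) • τ) * B τ - χ * (U' τ * B τ) := by ring
      _ = ζ * (zetaP p ^ (c γ).val * U τ * A τ) - χ * (ζ * (U τ * A τ)) := by rw [e1, e2]
      _ = 0 := by rw [hχ]; ring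
  rcases mul_eq_zero_of_mdiff hDm hB hDB with h0 | h0
  · have := congrFun h0 τ₀
    simp only [hD, Pi.zero_apply] at this
    exact sub_eq_zero.mp this
  · exact absurd h0 hB0

end Fermat.Agent.S29.M4b.K3

end
end
-- ===== PACK-END S29/M4b/K3/Basic.lean

-- ===== PACK-BEGIN S29/H282/K2Ana.lean
section




/-!
# S29 / M4b-K2 (helper282) — analytic adapter: twisted functions lie in `holN N`

* `expGrowth_of_pow` : `f ^ p` of exponential growth (`p ≥ 1`) ⟹ `f` of exponential growth;
* `mem_holN_of_isTwisted` : a twisted function (M4b `IsTwisted`) of a parabolic character lies in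
  the S24 ring `holN N`;
* `infExp_level_of_hasQExp` : a `q`-expansion (`H708.HasQExp 1`) gives the `q^{1/N}`-expansion.
-/

set_option autoImplicit false

noncomputable section

open ModularCurve AlgebraicCurve CongruenceSubgroup UpperHalfPlane
open scoped MatrixGroups Manifold Real

namespace Fermat.Agent.S29.H282

open Fermat.Agent.S24 Fermat.Agent.S24.H997 Fermat.Agent.S24.H648 Fermat.Agent.S24.H708
open Fermat.Agent.S24.H624
open Fermat.Agent.S29 Fermat.Agent.S29.M4b Fermat.Agent.S29.H332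

/-- root extraction for growth bounds -/
theorem expGrowth_of_pow {f : ℍ → ℂ} {p : ℕ} (hp : p ≠ 0)
    (h : ExpGrowth (fun τ => f τ ^ p)) : ExpGrowth f := by
  obtain ⟨C, m, hb⟩ := h
  refine ⟨1 + |C|, m, fun τ hτ => ?_⟩
  have h1 := hb τ hτ
  rw [norm_pow] at h1
  have hexp : (1 : ℝ) ≤ Real.exp (2 * π * m * τ.im) := by
    apply Real.one_le_exp
    have := Real.pi_pos
    have := τ.im_pos
    positivity
  have hC : C * Real.exp (2 * π * m * τ.im) ≤ |C| * Real.exp (2 * π * m * τ.im) :=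
    mul_le_mul_of_nonneg_right (le_abs_self C) (Real.exp_pos _).le
  rcases le_or_gt ‖f τ‖ 1 with h0 | h0
  · calc ‖f τ‖ ≤ 1 := h0
      _ ≤ Real.exp (2 * π * m * τ.im) := hexp
      _ ≤ (1 + |C|) * Real.exp (2 * π * m * τ.im) := by
        have : 0 ≤ |C| * Real.exp (2 * π * m * τ.im) :=
          mul_nonneg (abs_nonneg C) (Real.exp_pos _).le
        linarith
  · have h2 : ‖f τ‖ ≤ ‖f τ‖ ^ p := le_self_pow₀ h0.le hp
    calc ‖f τ‖ ≤ ‖f τ‖ ^ p := h2
      _ ≤ C * Real.exp (2 * π * m * τ.im) := h1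
      _ ≤ |C| * Real.exp (2 * π * m * τ.im) := hC
      _ ≤ (1 + |C|) * Real.exp (2 * π * m * τ.im) := by
        have : 0 ≤ Real.exp (2 * π * m * τ.im) := (Real.exp_pos _).le
        linarith

theorem qh_one_eq_qh_pow (N : ℕ) [NeZero N] (τ : ℍ) : qh 1 τ = qh N τ ^ N := by
  have hN : (N : ℂ) ≠ 0 := by exact_mod_cast NeZero.ne N
  rw [qh_apply, qh_apply, Function.Periodic.qParam, Function.Periodic.qParam,
    ← Complex.exp_nat_mul]
  congr 1
  push_cast
  field_simp

/-- exponential growth gives a pole of finite order in the variable `q^{1/N}` -/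
theorem isBounded_mul_qh_pow_level (N : ℕ) [NeZero N] {f : ℍ → ℂ} (hf : ExpGrowth f) :
    ∃ M : ℕ, IsBoundedAtImInfty (f * qh N ^ M) := by
  obtain ⟨M, hM⟩ := Fermat.Agent.S29.H882.isBounded_mul_qh_pow_of_expGrowth hf
  refine ⟨N * M, ?_⟩
  have : f * qh N ^ (N * M) = f * qh 1 ^ M := by
    funext τ
    simp only [Pi.mul_apply, Pi.pow_apply]
    rw [qh_one_eq_qh_pow N τ, ← pow_mul]
  rw [this]
  exact hM

variable {N : ℕ} [NeZero N] {p : ℕ} [NeZero p]

/-- the multiplicative character of a twisted function -/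
theorem hasCharacter_of_hasChar {c : G0 N → ZMod p} (hc : IsParHom c) {U : ℍ → ℂ}
    (hU : HasChar N p c U) : HasCharacter (isParAdd_of_isParHom hc).char U := by
  intro γ τ
  rw [hU γ τ, IsParAdd.char_apply, zetaP_pow_val]

/-- **A twisted function of a parabolic character lies in `holN N`.** -/
theorem mem_holN_of_isTwisted {c : G0 N → ZMod p} (hc : IsParHom c) {U : ℍ → ℂ}
    (hU : IsTwisted N p c U) : U ∈ holN N := by
  have hc' : IsParAdd c := isParAdd_of_isParHom hc
  have hh : HasCharacter hc'.char U := hasCharacter_of_hasChar hc hU.hasChar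
  have hχ : ParTrivial hc'.char := hc'.parTrivial
  refine ⟨hU.mdiff, fun g => ?_⟩
  have hhol : MDiff (compSL g U) := (precompSL g ⟨U, hU.mdiff⟩).2
  have hper : Function.Periodic (compSL g U ∘ ofComplex) (N : ℝ) :=
    hh.periodic hχ g N (by simpa using conj_T_zpow_mem_Gamma0 N g 1)
  have hgr : ExpGrowth (compSL g U) :=
    expGrowth_of_pow (NeZero.ne p) (hU.pow_mem.2.2 g)
  have hmer : IsMerInf N (compSL g U) := ⟨hhol, hper, isBounded_mul_qh_pow_level N hgr⟩
  have hq := HasQExp.of_isMerInf hmer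
  have hinf : InfExp N (compSL g U) (qexpFun N (compSL g U)) := fun τ => hq.hasSum τ
  exact hinf.mem_expRing

/-- from the `q`-expansion to the `q^{1/N}`-expansion -/
theorem infExp_level_of_hasQExp {G : ℍ → ℂ} {φ : LaurentSeries ℂ} (h : HasQExp 1 G φ) :
    InfExp N G (qExpand ℂ N φ) := by
  have hN : (N : ℂ) ≠ 0 := by exact_mod_cast NeZero.ne N
  have h1 : InfExp 1 G φ := fun τ => h.hasSum τ
  have h2 := h1.subst (N := N) (fun τ => τ) 1 N (fun τ => by
    rw [infZ_def, infZ_def, Units.val_one, one_mul, ← Complex.exp_nat_mul]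
    congr 1
    push_cast
    field_simp)
  rwa [infTwist_one] at h2

end Fermat.Agent.S29.H282

end
end
-- ===== PACK-END S29/H282/K2Ana.lean

-- ===== PACK-BEGIN S36/H370/Mod3Kron.lean
section
/-
S36 / MOD3, rows FF and VV of the `(e, f)` table (helper370).

Level `N` ARBITRARY (`q ∣ N` allowed), `V∞(N)`, `V∞(N q)` the Gauss valuation rings
(`A2.Mod.IsVinf`), `α, β : F_N → F_{Nq}` the two degeneracy maps.

* `isGaussInt_qExpand`   : `t ↦ t^q` preserves Gauss-integrality (`F_N → F_{Nq}`);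
* `beta_mem_iffQ`        : `β g ∈ V∞(N q) ↔ g ∈ V∞(N)`;
* `comap_beta_vinfQ`     : `V∞(N q).comap β = V∞(N)`              (field `comap_β₁` of `TripleCtx`);
* `beta_inWQ`, `alpha_inWQ` : `α`, `β` map `w V∞(N)` into `w V∞(N q)`;
* `beta_alpha_commQ`     : `β_{Mq} ∘ α_M = α_{Mq} ∘ β_M` on `F_M`;
* `kronQ`                : **Kronecker congruence at level `M q → M q²`** (`q ∤ M`):
      for `a ∈ V∞(M q)` there is `a' ∈ V∞(M q)` with `β a ≡ (α a')^q  mod w V∞(M q²)`
  (from leaves L11 and L12 of A2/MOD at level `M`);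
* `comap_alpha_vzeroQ`, `comap_beta_vzeroQ` : the rows of `V₀ := V∞ ∘ W` (Fricke, leaf L5):
      `V₀(N q).comap α = V₀(N)`, `V₀(N q).comap β = V₀(N)`   (fields `comap_α₃`, `comap_β₃`);
* `resZeroQ`, `kronZeroQ` : residue degree one along `β` on `V₀`, Kronecker along `α` on `V₀`.
-/





set_option autoImplicit false
set_option linter.unusedSectionVars false
set_option linter.style.haveILetI false
set_option synthInstance.maxHeartbeats 400000
set_option maxHeartbeats 1600000

noncomputable section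

namespace Fermat.Agent.S36.H370

open ModularCurve HahnSeries Fermat.Agent.A2 Fermat.Agent.A2.Mod Fermat.Agent.A2.H708
  Fermat.Agent.S28 Fermat.Agent.A2.Mod.H378

/-! ## `t ↦ t^q` and Gauss-integrality -/

section Generic

variable {L : Type*} [Field L] [Algebra ℚ L] (A : ValuationSubring L)

theorem incl_qExpand (q : ℕ) [NeZero q] (U : LaurentSeries A) :
    incl A (qExpand A q U) = qExpand L q (incl A U) :=
  coeffMap_qExpand _ q U

theorem red_qExpand (q : ℕ) [NeZero q] (U : LaurentSeries A) :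
    red A (qExpand A q U) = qExpand (IsLocalRing.ResidueField A) q (red A U) :=
  coeffMap_qExpand _ q U

theorem red_qExpand_ne_zero (q : ℕ) [NeZero q] {U : LaurentSeries A} (hU : red A U ≠ 0) :
    red A (qExpand A q U) ≠ 0 := by
  rw [red_qExpand]
  intro h
  exact hU (qExpand_injective q (h.trans (map_zero _).symm))

theorem qExpand_cst (q : ℕ) [NeZero q] (c : L) : qExpand L q (cst c) = cst c := by
  rw [cst, algebraMap_laurentSeries_eq_single, qExpand_single, mul_zero]

theorem qExpand_mem_full (N q : ℕ) [NeZero N] [NeZero q] {x : LaurentSeries L}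
    (hx : x ∈ laurentBaseChange L (modularFunctionFieldFull N)) :
    qExpand L q x ∈ laurentBaseChange L (modularFunctionFieldFull (N * q)) :=
  (heckeBetaBar L N q ⟨x, hx⟩).2

/-- `t ↦ t^q` preserves Gauss-integrality. -/
theorem isGaussInt_qExpand (N q : ℕ) [NeZero N] [NeZero q] {f : LaurentSeries L}
    (hf : IsGaussInt A (modularFunctionFieldFull N) f) :
    IsGaussInt A (modularFunctionFieldFull (N * q)) (qExpand L q f) := by
  obtain ⟨U₁, U₂, h0, hm, he⟩ := hf
  refine ⟨qExpand A q U₁, qExpand A q U₂, red_qExpand_ne_zero A q h0, ?_, ?_⟩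
  · rw [incl_qExpand]
    exact qExpand_mem_full N q hm
  · rw [incl_qExpand, incl_qExpand, ← map_mul, he]

/-- … and reflects it. -/
theorem isGaussInt_of_qExpand (N q : ℕ) [NeZero N] [NeZero q]
    (hmax : AttainsMax A (modularFunctionFieldFull N)) {f : LaurentSeries L}
    (hfF : f ∈ laurentBaseChange L (modularFunctionFieldFull N))
    (hf : IsGaussInt A (modularFunctionFieldFull (N * q)) (qExpand L q f)) :
    IsGaussInt A (modularFunctionFieldFull N) f := by
  by_cases hf0 : f = 0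
  · rw [hf0]
    exact IsGaussInt.zero
  obtain ⟨c, U₁, U₂, hc, h₁, h₂, hm₁, hm₂, he⟩ :=
    exists_normal_form (intGen_full N) hmax hfF hf0
  have he' : qExpand L q f * incl A (qExpand A q U₂) = cst c * incl A (qExpand A q U₁) := by
    rw [incl_qExpand, incl_qExpand, ← map_mul, he, map_mul, qExpand_cst]
  have hm₂' : incl A (qExpand A q U₂) ∈
      laurentBaseChange L (modularFunctionFieldFull (N * q)) := by
    rw [incl_qExpand]
    exact qExpand_mem_full N q hm₂
  have hcA : c ∈ A :=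
    (isGaussInt_iff_of_normal_form (red_qExpand_ne_zero A q h₁) (red_qExpand_ne_zero A q h₂)
      hm₂' he').mp hf
  exact (isGaussInt_iff_of_normal_form h₁ h₂ hm₂ he).mpr hcA

end Generic

/-! ## The rows of `V∞` -/

section Concrete

variable {P : ValuationSubring _root_.Fermat.Agent.A2.Mod.Qb} {E : IntermediateField ℚ _root_.Fermat.Agent.A2.Mod.Qb} {M q : ℕ} [NeZero M] [NeZero q]
  {w : _root_.Fermat.Agent.A2.Mod.RE P E}

/-- `β g ∈ V∞(M q) ↔ g ∈ V∞(M)` (any level `M`). -/
theorem beta_mem_iffQ (hS : SettingQ P E q w) {VM : ValuationSubring (_root_.Fermat.Agent.A2.Mod.FE E M)}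
    {V : ValuationSubring (_root_.Fermat.Agent.A2.Mod.FE E (M * q))} (hVM : IsVinf P E M VM) (hV : IsVinf P E (M * q) V)
    (g : _root_.Fermat.Agent.A2.Mod.FE E M) : βE E M q g ∈ V ↔ g ∈ VM := by
  rw [hV (βE E M q g), hVM g, coe_heckeBetaBar]
  constructor
  · exact isGaussInt_of_qExpand (_root_.Fermat.Agent.A2.Mod.RE P E) M q (attainsQ hS M) g.2
  · exact isGaussInt_qExpand (_root_.Fermat.Agent.A2.Mod.RE P E) M q

/-- `V∞(M q)` lies over `V∞(M)` along `β` (any level). -/
theorem comap_beta_vinfQ (hS : SettingQ P E q w) {VM : ValuationSubring (_root_.Fermat.Agent.A2.Mod.FE E M)}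
    {V : ValuationSubring (_root_.Fermat.Agent.A2.Mod.FE E (M * q))} (hVM : IsVinf P E M VM) (hV : IsVinf P E (M * q) V) :
    V.comap (βE E M q : _root_.Fermat.Agent.A2.Mod.FE E M →+* _root_.Fermat.Agent.A2.Mod.FE E (M * q)) = VM := by
  ext g
  rw [ValuationSubring.mem_comap]
  exact beta_mem_iffQ hS hVM hV g

theorem beta_cE (r : _root_.Fermat.Agent.A2.Mod.RE P E) : βE E M q (cE P E M r) = cE P E (M * q) r :=
  (βE E M q).commutes (r : E)

/-- `α` maps `w V∞(M)` into `w V∞(M q)`. -/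
theorem alpha_inWQ (hS : SettingQ P E q w) {VM : ValuationSubring (_root_.Fermat.Agent.A2.Mod.FE E M)}
    {V : ValuationSubring (_root_.Fermat.Agent.A2.Mod.FE E (M * q))} (hVM : IsVinf P E M VM) (hV : IsVinf P E (M * q) V)
    {g : _root_.Fermat.Agent.A2.Mod.FE E M} (hg : InW P E M VM w g) : InW P E (M * q) V w (αE E M q g) := by
  have h1 : αE E M q g * (cE P E (M * q) w)⁻¹ = αE E M q (g * (cE P E M w)⁻¹) := by
    rw [map_mul, map_inv₀, alpha_cE]
  show αE E M q g * (cE P E (M * q) w)⁻¹ ∈ V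
  rw [h1]
  exact (alpha_mem_iffQ hS hVM hV _).mpr hg

/-- `β` maps `w V∞(M)` into `w V∞(M q)`. -/
theorem beta_inWQ (hS : SettingQ P E q w) {VM : ValuationSubring (_root_.Fermat.Agent.A2.Mod.FE E M)}
    {V : ValuationSubring (_root_.Fermat.Agent.A2.Mod.FE E (M * q))} (hVM : IsVinf P E M VM) (hV : IsVinf P E (M * q) V)
    {g : _root_.Fermat.Agent.A2.Mod.FE E M} (hg : InW P E M VM w g) : InW P E (M * q) V w (βE E M q g) := by
  have h1 : βE E M q g * (cE P E (M * q) w)⁻¹ = βE E M q (g * (cE P E M w)⁻¹) := by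
    rw [map_mul, map_inv₀, beta_cE]
  show βE E M q g * (cE P E (M * q) w)⁻¹ ∈ V
  rw [h1]
  exact (beta_mem_iffQ hS hVM hV _).mpr hg

theorem inW_add {N : ℕ} {V : ValuationSubring (_root_.Fermat.Agent.A2.Mod.FE E N)} {f g : _root_.Fermat.Agent.A2.Mod.FE E N}
    (hf : InW P E N V w f) (hg : InW P E N V w g) : InW P E N V w (f + g) := by
  show (f + g) * (cE P E N w)⁻¹ ∈ V
  rw [add_mul]
  exact V.add_mem _ _ hf hg

/-- `β_{Mq} ∘ α_M = α_{Mq} ∘ β_M`. -/
theorem beta_alpha_commQ (g : _root_.Fermat.Agent.A2.Mod.FE E M) :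
    βE E (M * q) q (αE E M q g) = αE E (M * q) q (βE E M q g) := by
  apply Subtype.ext
  rw [coe_heckeBetaBar, coe_heckeAlphaBar, coe_heckeAlphaBar, coe_heckeBetaBar]

/-- **Kronecker congruence at level `M q → M q²`**, `q ∤ M`:
for `a ∈ V∞(M q)` there is `a' ∈ V∞(M q)` with `β a ≡ (α a')^q mod w V∞(M q²)`.
Moreover `a' = α a''` comes from level `M`. -/
theorem kronQ (hS : Setting P E M q w) {VM : ValuationSubring (_root_.Fermat.Agent.A2.Mod.FE E M)}
    {VN : ValuationSubring (_root_.Fermat.Agent.A2.Mod.FE E (M * q))} {V : ValuationSubring (_root_.Fermat.Agent.A2.Mod.FE E (M * q * q))}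
    (hVM : IsVinf P E M VM) (hVN : IsVinf P E (M * q) VN) (hV : IsVinf P E (M * q * q) V)
    {a : _root_.Fermat.Agent.A2.Mod.FE E (M * q)} (ha : a ∈ VN) :
    ∃ a' ∈ VN, (∃ a'' ∈ VM, a' = αE E M q a'') ∧
      InW P E (M * q * q) V w (βE E (M * q) q a - (αE E (M * q) q a') ^ q) := by
  have hQ : SettingQ P E q w := SettingQ.of_setting hS
  obtain ⟨g, hg, h1⟩ := resInfQ hQ hVM hVN ha
  obtain ⟨g', hg', h2⟩ := H96.kron P E M q w hS VM VN hVM hVN g hg
  refine ⟨αE E M q g', (alpha_mem_iffQ hQ hVM hVN g').mpr hg', ⟨g', hg', rfl⟩, ?_⟩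
  have e1 : βE E (M * q) q a - (αE E (M * q) q (αE E M q g')) ^ q
      = βE E (M * q) q (a - αE E M q g)
        + αE E (M * q) q (βE E M q g - (αE E M q g') ^ q) := by
    rw [map_sub, map_sub, map_pow, beta_alpha_commQ]
    ring
  rw [e1]
  exact inW_add (beta_inWQ hQ hVN hV h1) (alpha_inWQ hQ hVN hV h2)

/-! ## The rows of `V₀ = V∞ ∘ W` -/

/-- `V₀(M q).comap α = V₀(M)` (any level `M`). -/
theorem comap_alpha_vzeroQ (hS : SettingQ P E q w) {VM : ValuationSubring (_root_.Fermat.Agent.A2.Mod.FE E M)}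
    {V : ValuationSubring (_root_.Fermat.Agent.A2.Mod.FE E (M * q))} (hVM : IsVinf P E M VM) (hV : IsVinf P E (M * q) V)
    {WM : _root_.Fermat.Agent.A2.Mod.FE E M ≃ₐ[E] _root_.Fermat.Agent.A2.Mod.FE E M} {W : _root_.Fermat.Agent.A2.Mod.FE E (M * q) ≃ₐ[E] _root_.Fermat.Agent.A2.Mod.FE E (M * q)}
    (hWM : IsFricke E M WM) (hW : IsFricke E (M * q) W) :
    (V.comap (W : _root_.Fermat.Agent.A2.Mod.FE E (M * q) →+* _root_.Fermat.Agent.A2.Mod.FE E (M * q))).comap (αE E M q : _root_.Fermat.Agent.A2.Mod.FE E M →+* _root_.Fermat.Agent.A2.Mod.FE E (M * q))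
      = VM.comap (WM : _root_.Fermat.Agent.A2.Mod.FE E M →+* _root_.Fermat.Agent.A2.Mod.FE E M) := by
  ext g
  rw [ValuationSubring.mem_comap, ValuationSubring.mem_comap, ValuationSubring.mem_comap]
  have h := (H553.frickeCompat E M q WM W hWM hW g).1
  show W (αE E M q g) ∈ V ↔ WM g ∈ VM
  rw [h]
  exact beta_mem_iffQ hS hVM hV (WM g)

/-- `V₀(M q).comap β = V₀(M)` (any level `M`). -/
theorem comap_beta_vzeroQ (hS : SettingQ P E q w) {VM : ValuationSubring (_root_.Fermat.Agent.A2.Mod.FE E M)}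
    {V : ValuationSubring (_root_.Fermat.Agent.A2.Mod.FE E (M * q))} (hVM : IsVinf P E M VM) (hV : IsVinf P E (M * q) V)
    {WM : _root_.Fermat.Agent.A2.Mod.FE E M ≃ₐ[E] _root_.Fermat.Agent.A2.Mod.FE E M} {W : _root_.Fermat.Agent.A2.Mod.FE E (M * q) ≃ₐ[E] _root_.Fermat.Agent.A2.Mod.FE E (M * q)}
    (hWM : IsFricke E M WM) (hW : IsFricke E (M * q) W) :
    (V.comap (W : _root_.Fermat.Agent.A2.Mod.FE E (M * q) →+* _root_.Fermat.Agent.A2.Mod.FE E (M * q))).comap (βE E M q : _root_.Fermat.Agent.A2.Mod.FE E M →+* _root_.Fermat.Agent.A2.Mod.FE E (M * q))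
      = VM.comap (WM : _root_.Fermat.Agent.A2.Mod.FE E M →+* _root_.Fermat.Agent.A2.Mod.FE E M) := by
  ext g
  rw [ValuationSubring.mem_comap, ValuationSubring.mem_comap, ValuationSubring.mem_comap]
  have h := (H553.frickeCompat E M q WM W hWM hW g).2
  show W (βE E M q g) ∈ V ↔ WM g ∈ VM
  rw [h]
  exact alpha_mem_iffQ hS hVM hV (WM g)

theorem fricke_cE {N : ℕ} (W : _root_.Fermat.Agent.A2.Mod.FE E N ≃ₐ[E] _root_.Fermat.Agent.A2.Mod.FE E N) (r : _root_.Fermat.Agent.A2.Mod.RE P E) :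
    W (cE P E N r) = cE P E N r :=
  W.commutes (r : E)

/-- membership in `w V₀` -/
theorem inW_comap_iff {N : ℕ} (V : ValuationSubring (_root_.Fermat.Agent.A2.Mod.FE E N)) (W : _root_.Fermat.Agent.A2.Mod.FE E N ≃ₐ[E] _root_.Fermat.Agent.A2.Mod.FE E N)
    (f : _root_.Fermat.Agent.A2.Mod.FE E N) :
    InW P E N (V.comap (W : _root_.Fermat.Agent.A2.Mod.FE E N →+* _root_.Fermat.Agent.A2.Mod.FE E N)) w f ↔ InW P E N V w (W f) := by
  show f * (cE P E N w)⁻¹ ∈ V.comap (W : _root_.Fermat.Agent.A2.Mod.FE E N →+* _root_.Fermat.Agent.A2.Mod.FE E N) ↔ W f * (cE P E N w)⁻¹ ∈ V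
  rw [ValuationSubring.mem_comap]
  have h1 : (W : _root_.Fermat.Agent.A2.Mod.FE E N →+* _root_.Fermat.Agent.A2.Mod.FE E N) (f * (cE P E N w)⁻¹) = W f * (cE P E N w)⁻¹ := by
    show W (f * (cE P E N w)⁻¹) = W f * (cE P E N w)⁻¹
    rw [map_mul, map_inv₀, fricke_cE]
  rw [h1]

/-- **Residue degree one along `β` on `V₀`** (any level):
`V₀(M q) = β (V₀(M)) + w V₀(M q)`. -/
theorem resZeroQ (hS : SettingQ P E q w) {VM : ValuationSubring (_root_.Fermat.Agent.A2.Mod.FE E M)}
    {V : ValuationSubring (_root_.Fermat.Agent.A2.Mod.FE E (M * q))} (hVM : IsVinf P E M VM) (hV : IsVinf P E (M * q) V)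
    {WM : _root_.Fermat.Agent.A2.Mod.FE E M ≃ₐ[E] _root_.Fermat.Agent.A2.Mod.FE E M} {W : _root_.Fermat.Agent.A2.Mod.FE E (M * q) ≃ₐ[E] _root_.Fermat.Agent.A2.Mod.FE E (M * q)}
    (hWM : IsFricke E M WM) (hW : IsFricke E (M * q) W)
    {f : _root_.Fermat.Agent.A2.Mod.FE E (M * q)} (hf : f ∈ V.comap (W : _root_.Fermat.Agent.A2.Mod.FE E (M * q) →+* _root_.Fermat.Agent.A2.Mod.FE E (M * q))) :
    ∃ g ∈ VM.comap (WM : _root_.Fermat.Agent.A2.Mod.FE E M →+* _root_.Fermat.Agent.A2.Mod.FE E M),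
      InW P E (M * q) (V.comap (W : _root_.Fermat.Agent.A2.Mod.FE E (M * q) →+* _root_.Fermat.Agent.A2.Mod.FE E (M * q))) w (f - βE E M q g) := by
  have hf' : W f ∈ V := hf
  obtain ⟨g0, hg0, h⟩ := resInfQ hS hVM hV hf'
  refine ⟨WM g0, ?_, ?_⟩
  · rw [ValuationSubring.mem_comap]
    show WM (WM g0) ∈ VM
    rw [hWM.2]
    exact hg0
  · rw [inW_comap_iff, map_sub, (H553.frickeCompat E M q WM W hWM hW (WM g0)).2, hWM.2]
    exact h

end Concrete

end Fermat.Agent.S36.H370

end
end
-- ===== PACK-END S36/H370/Mod3Kron.lean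

-- ===== PACK-BEGIN S36/H83/BetaUniq.lean
section
/-
S36 engine, MOD-3 (helper83): `V∞_{Mq}` is the ONLY valuation ring of `F_{Mq}` over `β(V∞_M)`
when `q ∣ M`, and its residue extension is purely inseparable of degree `q`.

* `h83_j_mem_of_beta_mem` : `j` is integral over `β(V∞_M)`;
* `h83_beta_unique`       : a valuation subring `V'` of `F_{Mq}` with `β f ∈ V' ↔ f ∈ V∞_M` is `V∞_{Mq}`;
* `h83_beta_insep`        : for `f ∈ V∞_{Mq}` there is `g ∈ V∞_M` with `f^q ≡ β g mod w V∞_{Mq}`.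
-/



set_option autoImplicit false
set_option linter.unusedSectionVars false
set_option linter.style.haveILetI false
set_option synthInstance.maxHeartbeats 400000
set_option maxHeartbeats 1600000

noncomputable section

namespace Fermat.Agent.S36.H83

open ModularCurve Fermat.Agent.A2 Fermat.Agent.A2.Mod

section BetaUniq

variable {P : ValuationSubring _root_.Fermat.Agent.A2.Mod.Qb} {E : IntermediateField ℚ _root_.Fermat.Agent.A2.Mod.Qb} {M q : ℕ} [NeZero M] [NeZero q]

/-- polynomials with integer coefficients in an element of a valuation subring stay inside. -/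
theorem h83_aeval_mem {F : Type*} [Field F] (V : ValuationSubring F) {x : F} (hx : x ∈ V)
    (c : Polynomial ℤ) : Polynomial.aeval x c ∈ V := by
  induction c using Polynomial.induction_on' with
  | add c d hc hd => rw [map_add]; exact V.add_mem _ _ hc hd
  | monomial n a =>
    rw [Polynomial.aeval_monomial, eq_intCast]
    exact V.mul_mem _ _ (intCast_mem V a) (pow_mem hx n)

theorem h83_coe_comp_aeval {N : ℕ} (y : _root_.Fermat.Agent.A2.Mod.FE E N) :
    (algebraMap (_root_.Fermat.Agent.A2.Mod.FE E N) (LaurentSeries E)).comp (Polynomial.aeval (R := ℤ) y).toRingHom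
      = Fermat.Agent.S28.evalAt (y : LaurentSeries E) := by
  apply Polynomial.ringHom_ext
  · intro a
    simp [Fermat.Agent.S28.evalAt]
  · simp [Fermat.Agent.S28.evalAt]

theorem h83_beta_jE :
    βE E M q (jE E M 1 (one_dvd _)) = jE E (M * q) q (dvd_mul_left q M) := by
  apply Subtype.ext
  rw [coe_heckeBetaBar, h83_coe_jE, h83_coe_jE, qExpand_one_apply]

/-- `j` lies in every valuation subring of `F_{Mq}` containing `β(V∞_M)`. -/
theorem h83_j_mem_of_beta_mem (hq : q.Prime) {VM : ValuationSubring (_root_.Fermat.Agent.A2.Mod.FE E M)}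
    (hVM : IsVinf P E M VM) (V' : ValuationSubring (_root_.Fermat.Agent.A2.Mod.FE E (M * q)))
    (hV' : ∀ f : _root_.Fermat.Agent.A2.Mod.FE E M, f ∈ VM → βE E M q f ∈ V') :
    jE E (M * q) 1 (one_dvd _) ∈ V' := by
  obtain ⟨Φ⟩ := Fermat.Agent.S28.H807.nonempty_modPolyData q hq
  have hjM : jE E M 1 (one_dvd _) ∈ VM :=
    H708.mem_of_isVinf_of_incl hVM _ (H708.coe_jE_eq M 1 (one_dvd _))
  have hjq : jE E (M * q) q (dvd_mul_left q M) ∈ V' := by
    rw [← h83_beta_jE]
    exact hV' _ hjM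
  set φ : Polynomial ℤ →+* _root_.Fermat.Agent.A2.Mod.FE E (M * q) :=
    (Polynomial.aeval (R := ℤ) (jE E (M * q) q (dvd_mul_left q M))).toRingHom with hφ
  refine H48.mem_of_monic_root V' (Φ.monic.map φ) (fun i => ?_) ?_
  · rw [Polynomial.coeff_map]
    exact h83_aeval_mem V' hjq _
  · rw [Polynomial.eval_map]
    apply Subtype.ext
    have h := Polynomial.hom_eval₂ Φ.Φ φ (algebraMap (_root_.Fermat.Agent.A2.Mod.FE E (M * q)) (LaurentSeries E))
      (jE E (M * q) 1 (one_dvd _))
    have h2 : ((Polynomial.eval₂ φ (jE E (M * q) 1 (one_dvd _)) Φ.Φ : _root_.Fermat.Agent.A2.Mod.FE E (M * q)) :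
        LaurentSeries E) = Polynomial.eval₂
          ((algebraMap (_root_.Fermat.Agent.A2.Mod.FE E (M * q)) (LaurentSeries E)).comp φ)
          ((jE E (M * q) 1 (one_dvd _) : _root_.Fermat.Agent.A2.Mod.FE E (M * q)) : LaurentSeries E) Φ.Φ := h
    rw [h2, hφ, h83_coe_comp_aeval, h83_coe_jE, h83_coe_jE, qExpand_one_apply]
    exact Fermat.Agent.S28.h88_modPoly_eval_j E q Φ

/-- **Uniqueness**: for `q ∣ M`, `V∞_{Mq}` is the only valuation subring of `F_{Mq}` lying over
`β(V∞_M)`. -/
theorem h83_beta_unique (hdvr : IsDiscreteValuationRing (_root_.Fermat.Agent.A2.Mod.RE P E)) {w : _root_.Fermat.Agent.A2.Mod.RE P E}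
    (hw : Irreducible w) (hq : q.Prime) (hqM : q ∣ M)
    {VM : ValuationSubring (_root_.Fermat.Agent.A2.Mod.FE E M)} {V : ValuationSubring (_root_.Fermat.Agent.A2.Mod.FE E (M * q))}
    (hVM : IsVinf P E M VM) (hV : IsVinf P E (M * q) V)
    (V' : ValuationSubring (_root_.Fermat.Agent.A2.Mod.FE E (M * q)))
    (hV' : ∀ f : _root_.Fermat.Agent.A2.Mod.FE E M, βE E M q f ∈ V' ↔ f ∈ VM) : V' = V := by
  have := hdvr
  have hj : jE E (M * q) 1 (one_dvd _) ∈ V' :=
    h83_j_mem_of_beta_mem hq hVM V' (fun f hf => (hV' f).mpr hf)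
  have hle : V ≤ V' := by
    intro f hf
    obtain ⟨a, ha, hfa⟩ := h83_beta_integral_basis hdvr hw hq hqM hVM hV hf
    rw [hfa]
    exact sum_mem fun i _ => V'.mul_mem _ _ ((hV' _).mpr (ha i)) (pow_mem hj _)
  apply le_antisymm _ hle
  intro f hf
  by_contra hfV
  have hunifN := (H708.vinfBasic P E w (M * q) (NeZero.ne _) hdvr hw V hV).1
  have hunifM := (H708.vinfBasic P E w M (NeZero.ne _) hdvr hw VM hVM).1
  have hfinv : f⁻¹ ∈ V := (V.mem_or_inv_mem f).resolve_left hfV
  have h1 : f⁻¹ * (cE P E (M * q) w)⁻¹ ∈ V := hunifN.gen _ hfinv (by rwa [inv_inv])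
  have hf0 : f ≠ 0 := by
    rintro rfl
    exact hfV V.zero_mem
  have h2 : (cE P E (M * q) w)⁻¹ ∈ V' := by
    have : (cE P E (M * q) w)⁻¹ = f * (f⁻¹ * (cE P E (M * q) w)⁻¹) := by
      rw [← mul_assoc, mul_inv_cancel₀ hf0, one_mul]
    rw [this]
    exact V'.mul_mem _ _ hf (hle h1)
  have h3 : (cE P E (M * q) w)⁻¹ = βE E M q (cE P E M w)⁻¹ := by
    rw [map_inv₀]
    congr 1
    exact ((βE E M q).commutes (w : E)).symm
  rw [h3, hV'] at h2
  exact hunifM.inv_not_mem h2

/-! ### The residue extension is purely inseparable -/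

/-- an element with an integral expansion of zero reduction lies in `w V∞`. -/
theorem h83_inW_of_red_eq_zero (hdvr : IsDiscreteValuationRing (_root_.Fermat.Agent.A2.Mod.RE P E)) {w : _root_.Fermat.Agent.A2.Mod.RE P E}
    (hw : Irreducible w) {N : ℕ} {V : ValuationSubring (_root_.Fermat.Agent.A2.Mod.FE E N)} (hV : IsVinf P E N V)
    {x : _root_.Fermat.Agent.A2.Mod.FE E N} {S : LaurentSeries (_root_.Fermat.Agent.A2.Mod.RE P E)}
    (hx : (x : LaurentSeries E) = H708.incl (_root_.Fermat.Agent.A2.Mod.RE P E) S) (hS : H708.red (_root_.Fermat.Agent.A2.Mod.RE P E) S = 0) :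
    InW P E N V w x := by
  have := hdvr
  obtain ⟨U', hU'⟩ := H96.exists_incl_eq_inv_mul (_root_.Fermat.Agent.A2.Mod.RE P E) hw hS
  unfold InW
  refine H708.mem_of_isVinf_of_incl hV U' ?_
  rw [hU', ← hx, IntermediateField.coe_mul, IntermediateField.coe_inv, H753.coe_cE]
  have hwE : H708.cst ((w : E))⁻¹ = (H708.cst (w : E))⁻¹ := map_inv₀ _ _
  rw [hwE, mul_comm]

/-- `V∞` lies over `q`. -/
theorem h83_vinf_liesOver (hdvr : IsDiscreteValuationRing (_root_.Fermat.Agent.A2.Mod.RE P E))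
    (hP : P.LiesOverPrime q) {N : ℕ} {V : ValuationSubring (_root_.Fermat.Agent.A2.Mod.FE E N)} (hV : IsVinf P E N V) :
    V.LiesOverPrime q := by
  have := hdvr
  have hR : (_root_.Fermat.Agent.A2.Mod.RE P E).LiesOverPrime q := H96.liesOver_RE P E hP
  have h1 : (_root_.Fermat.Agent.A2.Mod.RE P E).valuation ((q : ℕ) : E) < 1 := (ValuationSubring.mem_nonunits_iff _).mp hR
  show ((q : ℕ) : _root_.Fermat.Agent.A2.Mod.FE E N) ∈ V.nonunits
  rw [ValuationSubring.mem_nonunits_iff]
  have hqE : ((q : ℕ) : _root_.Fermat.Agent.A2.Mod.FE E N) = algebraMap E (_root_.Fermat.Agent.A2.Mod.FE E N) ((q : ℕ) : E) := (map_natCast _ q).symm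
  have hmem : ((q : ℕ) : E) ∈ _root_.Fermat.Agent.A2.Mod.RE P E := ((_root_.Fermat.Agent.A2.Mod.RE P E).valuation_le_one_iff _).mp h1.le
  have hle : V.valuation ((q : ℕ) : _root_.Fermat.Agent.A2.Mod.FE E N) ≤ 1 := by
    rw [V.valuation_le_one_iff, hqE]
    exact (H708.algebraMap_mem_iff_of_isVinf hV _).mpr hmem
  rcases lt_or_eq_of_le hle with h | h
  · exact h
  · exfalso
    have hinv : (((q : ℕ) : _root_.Fermat.Agent.A2.Mod.FE E N))⁻¹ ∈ V := by
      rw [← V.valuation_le_one_iff, map_inv₀, h, inv_one]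
    rw [hqE, ← map_inv₀, H708.algebraMap_mem_iff_of_isVinf hV] at hinv
    have h2 : (_root_.Fermat.Agent.A2.Mod.RE P E).valuation (((q : ℕ) : E))⁻¹ ≤ 1 := ((_root_.Fermat.Agent.A2.Mod.RE P E).valuation_le_one_iff _).mpr hinv
    rw [map_inv₀] at h2
    have hq0 : (_root_.Fermat.Agent.A2.Mod.RE P E).valuation ((q : ℕ) : E) ≠ 0 := by
      rw [Valuation.ne_zero_iff]
      exact Nat.cast_ne_zero.mpr (NeZero.ne q)
    have h3 : 1 ≤ (_root_.Fermat.Agent.A2.Mod.RE P E).valuation ((q : ℕ) : E) := (inv_le_one₀ (zero_lt_iff.2 hq0)).mp h2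
    exact absurd h1 (not_lt.mpr h3)

/-- Frobenius congruence `j^q ≡ j_q mod w V∞`. -/
theorem h83_inW_j_pow_sub (hdvr : IsDiscreteValuationRing (_root_.Fermat.Agent.A2.Mod.RE P E)) {w : _root_.Fermat.Agent.A2.Mod.RE P E}
    (hw : Irreducible w) (hq : q.Prime) (hP : P.LiesOverPrime q)
    {V : ValuationSubring (_root_.Fermat.Agent.A2.Mod.FE E (M * q))} (hV : IsVinf P E (M * q) V) :
    InW P E (M * q) V w
      (jE E (M * q) 1 (one_dvd _) ^ q - jE E (M * q) q (dvd_mul_left q M)) := by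
  have := hdvr
  haveI : Fact q.Prime := ⟨hq⟩
  haveI : CharP (IsLocalRing.ResidueField (_root_.Fermat.Agent.A2.Mod.RE P E)) q :=
    Fermat.Agent.S18.H516.charP_residue (_root_.Fermat.Agent.A2.Mod.RE P E) (H96.liesOver_RE P E hP)
  refine h83_inW_of_red_eq_zero hdvr hw hV
    (S := H708.castA (_root_.Fermat.Agent.A2.Mod.RE P E) (H708.jInt 1 ^ q - H708.jInt q)) ?_ ?_
  · rw [AddSubgroupClass.coe_sub, IntermediateField.coe_pow,
      H708.coe_jE_eq (P := P) (M * q) 1 (one_dvd _),
      H708.coe_jE_eq (P := P) (M * q) q (dvd_mul_left q M), map_sub, map_sub, map_pow, map_pow]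
  · rw [H753.red_castA, map_sub, map_pow]
    have h1 : H708.jInt 1 = jqModC ℤ := jqNModC_one ℤ
    have h2 : H708.jInt q = qExpand ℤ q (jqModC ℤ) := rfl
    rw [h1, h2, H753.castL_qExpand_jqModC q hq, Fermat.Agent.S28.H325.castL_jqModC, sub_self]

/-- **Purely inseparable residue extension**: for `q ∣ M` and `f ∈ V∞_{Mq}` there is
`g ∈ V∞_M` with `f^q ≡ β g mod w V∞_{Mq}`. -/
theorem h83_beta_insep (hdvr : IsDiscreteValuationRing (_root_.Fermat.Agent.A2.Mod.RE P E)) {w : _root_.Fermat.Agent.A2.Mod.RE P E}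
    (hw : Irreducible w) (hq : q.Prime) (hqM : q ∣ M) (hP : P.LiesOverPrime q)
    {VM : ValuationSubring (_root_.Fermat.Agent.A2.Mod.FE E M)} {V : ValuationSubring (_root_.Fermat.Agent.A2.Mod.FE E (M * q))}
    (hVM : IsVinf P E M VM) (hV : IsVinf P E (M * q) V) {f : _root_.Fermat.Agent.A2.Mod.FE E (M * q)} (hf : f ∈ V) :
    ∃ g ∈ VM, InW P E (M * q) V w (f ^ q - βE E M q g) := by
  classical
  have := hdvr
  haveI : Fact q.Prime := ⟨hq⟩
  obtain ⟨a, ha, hfa⟩ := h83_beta_integral_basis hdvr hw hq hqM hVM hV hf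
  have hjM : jE E M 1 (one_dvd _) ∈ VM :=
    H708.mem_of_isVinf_of_incl hVM _ (H708.coe_jE_eq M 1 (one_dvd _))
  have hjN : jE E (M * q) 1 (one_dvd _) ∈ V :=
    H708.mem_of_isVinf_of_incl hV _ (H708.coe_jE_eq (M * q) 1 (one_dvd _))
  have hjq : jE E (M * q) q (dvd_mul_left q M) ∈ V :=
    H708.mem_of_isVinf_of_incl hV _ (H708.coe_jE_eq (M * q) q (dvd_mul_left q M))
  have hβa : ∀ i, βE E M q (a i) ∈ V := fun i => h83_beta_mem hVM hV (ha i)
  set g : _root_.Fermat.Agent.A2.Mod.FE E M := ∑ i : Fin q, a i ^ q * jE E M 1 (one_dvd _) ^ (i : ℕ) with hg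
  have hgV : g ∈ VM := sum_mem fun i _ => VM.mul_mem _ _ (pow_mem (ha i) q) (pow_mem hjM _)
  refine ⟨g, hgV, ?_⟩
  have hβg : βE E M q g
      = ∑ i : Fin q, βE E M q (a i) ^ q * jE E (M * q) q (dvd_mul_left q M) ^ (i : ℕ) := by
    rw [hg, map_sum]
    refine Finset.sum_congr rfl fun i _ => ?_
    rw [map_mul, map_pow, map_pow, h83_beta_jE]
  -- the residue field of `V`
  haveI : CharP (IsLocalRing.ResidueField V) q :=
    Fermat.Agent.S18.H516.charP_residue V (h83_vinf_liesOver hdvr hP hV)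
  set r := IsLocalRing.residue V with hr
  have hunif := (H708.vinfBasic P E w (M * q) (NeZero.ne _) hdvr hw V hV).1
  -- key congruence
  have hkey : r ⟨_, hjN⟩ ^ q = r ⟨_, hjq⟩ := by
    have h1 := h83_inW_j_pow_sub (M := M) hdvr hw hq hP hV
    unfold InW at h1
    have h2 : V.valuation (jE E (M * q) 1 (one_dvd _) ^ q
        - jE E (M * q) q (dvd_mul_left q M)) < 1 := hunif.mul_inv_mem_iff.mp h1
    have h3 : (⟨_, hjN⟩ : V) ^ q - ⟨_, hjq⟩ ∈ IsLocalRing.maximalIdeal V := by
      rw [V.valuation_lt_one_iff]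
      exact h2
    have h4 : r ((⟨_, hjN⟩ : V) ^ q - ⟨_, hjq⟩) = 0 :=
      (IsLocalRing.residue_eq_zero_iff _).mpr h3
    rw [map_sub, map_pow] at h4
    exact sub_eq_zero.mp h4
  have hfV : (⟨f, hf⟩ : V) = ∑ i : Fin q, ⟨_, hβa i⟩ * (⟨_, hjN⟩ : V) ^ (i : ℕ) := by
    apply Subtype.ext
    show f = _
    rw [hfa]
    push_cast
    rfl
  have hβgV : βE E M q g ∈ V := h83_beta_mem hVM hV hgV
  have hgV' : (⟨_, hβgV⟩ : V) = ∑ i : Fin q, (⟨_, hβa i⟩ : V) ^ q * (⟨_, hjq⟩ : V) ^ (i : ℕ) := by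
    apply Subtype.ext
    show βE E M q g = _
    rw [hβg]
    push_cast
    rfl
  have hzero : r ((⟨f, hf⟩ : V) ^ q - ⟨_, hβgV⟩) = 0 := by
    rw [map_sub, map_pow, hfV, hgV', map_sum, map_sum, sum_pow_char, sub_eq_zero]
    refine Finset.sum_congr rfl fun i _ => ?_
    rw [map_mul, map_mul, map_pow, map_pow, map_pow, mul_pow, ← hkey, ← pow_mul, ← pow_mul,
      mul_comm (i : ℕ) q]
  have hmem := (IsLocalRing.residue_eq_zero_iff _).mp hzero
  rw [V.valuation_lt_one_iff] at hmem
  unfold InW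
  exact hunif.mul_inv_mem_iff.mpr hmem

end BetaUniq

end Fermat.Agent.S36.H83

end

end
-- ===== PACK-END S36/H83/BetaUniq.lean

-- ===== PACK-BEGIN Ribet/H279/FrickeSwap.lean
section







/-!
# RIBET, wall at `p`, norm contraction: FRICKE versus SWAP (helper279)

Level `N = M * q`, `q ∤ M` prime, `E` a level, `V = V∞` the Gauss valuation ring of `F_{N,E}`
(`A2.Mod.IsVinf`), `W` the full Fricke involution `w_N` (`A2.Mod.IsFricke`), so that the second
component of the special fibre is `V₀ = V.comap W` (`A2/Mod/Spec.lean`).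

The norm-contraction cores (`Ribet/H400/NCAbs.lean`, `Ribet/H279/NCInst.lean`) work with the
Atkin–Lehner SWAP `s = w_q` (`s ∘ α = β`, `s ∘ β = α`) and produce depth at `V∞` and at
`V∞ ∘ s`.  This file identifies the two:

* `eq_or_eq_of_isGaussOver` : a valuation subring of `F_{N,E}` inducing the Gauss valuation on
  `E(x)`, `x = j · j_q`, is `V∞` or `V₀` (from `H489.TwoExtHyp.only` and the landed leaves
  L2, L3, L6, L8, L9, L10 of A2 MOD);
* `comap_swap_eq_comap_fricke` : `V.comap s = V.comap W` for EVERY ring endomorphism `s` of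
  `F_{N,E}` with `s ∘ α = β` and `s ∘ β = α`;
* `swap_mem_iff_fricke_mem`, `inW_swap_iff_inW_fricke` : elementwise forms.
-/

set_option autoImplicit false
set_option linter.unusedSectionVars false
set_option linter.style.haveILetI false
set_option synthInstance.maxHeartbeats 400000
set_option maxHeartbeats 1600000

noncomputable section

namespace Fermat.Agent.Ribet.H279

open ModularCurve HahnSeries Polynomial IntermediateField
open Fermat.Agent.A2.Mod

variable {P : ValuationSubring Qb} {E : IntermediateField ℚ Qb} {M q : ℕ} [NeZero M] [NeZero q]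
  {w : RE P E}

/-! ### Only two valuation rings induce the Gauss valuation on `E(x)` -/

/-- **Third valuation.**  A valuation subring of `F_{Mq,E}` which induces the Gauss valuation on
`E(x)`, `x = j · j_q`, is `V∞` or `V₀ = V∞ ∘ W`. -/
theorem eq_or_eq_of_isGaussOver (hS : Setting P E M q w)
    {V : ValuationSubring (FE E (M * q))} {W : FE E (M * q) ≃ₐ[E] FE E (M * q)}
    (hV : IsVinf P E (M * q) V) (hW : IsFricke E (M * q) W)
    {V' : ValuationSubring (FE E (M * q))}
    (hV' : haveI := hS.dvr; A2.H489.IsGaussOver (RE P E) V' (xE E M q)) :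
    V' = V ∨ V' = V.comap (W : FE E (M * q) →+* FE E (M * q)) := by
  haveI := hS.dvr
  obtain ⟨htr, hfr, -⟩ := H31.deg E M q hS.q_prime hS.q_not_dvd
  have hpos : 0 < Module.finrank (IntermediateField.adjoin E ({xE E M q} : Set (FE E (M * q))))
      (FE E (M * q)) := by
    rw [hfr]
    have h1 := dedekindPsi_pos_of_ne_zero M (NeZero.ne M)
    positivity
  haveI hfin : FiniteDimensional (IntermediateField.adjoin E ({xE E M q} : Set (FE E (M * q))))
      (FE E (M * q)) := Module.finite_of_finrank_pos hpos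
  obtain ⟨b, c, hdvr, hT⟩ := H13.twoExtHyp_of_leaves hS V W hV hW
    (H553.vzeroNe P E M q w) (H31.deg E M q) (H753.indInf P E M q w) (H753.indZero P E M q w)
  haveI := hdvr
  have hG₁ := H13.isGaussOver_xE hS.unif hV htr
  have hover : A2.H489.IsOver (A2.H489.gaussRing E V (xE E M q)) V' :=
    { mem := fun a => (hG₁.mem_iff_mem (E := E) hV' (a : E⟮xE E M q⟯).2).mp a.2
      nonunit := fun a ha =>
        (hG₁.mem_nonunits_iff_mem (E := E) hV' (a : E⟮xE E M q⟯).2).mp
          ((A2.H489.mem_maximalIdeal_gaussRing a).mp ha) }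
  exact hT.only hover

/-! ### The swap -/

section Swap

variable (s : FE E (M * q) →+* FE E (M * q))
  (hsα : ∀ a : FE E M, s (αE E M q a) = βE E M q a)
  (hsβ : ∀ a : FE E M, s (βE E M q a) = αE E M q a)

include hsα in
/-- a swap fixes the constants -/
theorem swapE_algebraMap (e : E) :
    s (algebraMap E (FE E (M * q)) e) = algebraMap E (FE E (M * q)) e := by
  have h1 : algebraMap E (FE E (M * q)) e = αE E M q (algebraMap E (FE E M) e) :=
    ((αE E M q).commutes e).symm
  have h2 : algebraMap E (FE E (M * q)) e = βE E M q (algebraMap E (FE E M) e) :=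
    ((βE E M q).commutes e).symm
  rw [h1, hsα, ← h2, ← h1]

include hsα in
/-- `s j = j_q` -/
theorem swapE_j :
    s (jE E (M * q) 1 (one_dvd _)) = jE E (M * q) q (dvd_mul_left q M) := by
  have h1 : jE E (M * q) 1 (one_dvd _) = αE E M q (jE E M 1 (one_dvd _)) :=
    (H553.αE_jE E M q 1 (one_dvd _)).symm
  have h2 : βE E M q (jE E M 1 (one_dvd _)) = jE E (M * q) q (dvd_mul_left q M) := by
    rw [H553.βE_jE E M q 1 (one_dvd _)]
    apply Subtype.ext
    show coeffEmb E (qExpand ℚ (1 * q) jq) = coeffEmb E (qExpand ℚ q jq)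
    rw [qExpand_congr (one_mul q) jq]
  rw [h1, hsα, h2]

include hsβ in
/-- `s j_q = j` -/
theorem swapE_jq :
    s (jE E (M * q) q (dvd_mul_left q M)) = jE E (M * q) 1 (one_dvd _) := by
  have h1 : jE E (M * q) 1 (one_dvd _) = αE E M q (jE E M 1 (one_dvd _)) :=
    (H553.αE_jE E M q 1 (one_dvd _)).symm
  have h2 : βE E M q (jE E M 1 (one_dvd _)) = jE E (M * q) q (dvd_mul_left q M) := by
    rw [H553.βE_jE E M q 1 (one_dvd _)]
    apply Subtype.ext
    show coeffEmb E (qExpand ℚ (1 * q) jq) = coeffEmb E (qExpand ℚ q jq)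
    rw [qExpand_congr (one_mul q) jq]
  rw [← h2, hsβ, h1]

include hsα hsβ in
/-- a swap fixes the coordinate `x = j · j_q` -/
theorem swapE_xE : s (xE E M q) = xE E M q := by
  rw [xE, map_mul, swapE_j s hsα, swapE_jq s hsβ]
  exact mul_comm _ _

/-- a swap as an `E`-algebra endomorphism -/
def swapEAlg : FE E (M * q) →ₐ[E] FE E (M * q) :=
  { s with commutes' := fun e => swapE_algebraMap s hsα e }

theorem swapEAlg_apply (f : FE E (M * q)) : swapEAlg s hsα f = s f := rfl

include hsα in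
theorem swapE_aeval [IsDiscreteValuationRing (RE P E)] (u : FE E (M * q))
    (p : Polynomial (RE P E)) : s (aeval u p) = aeval (s u) p := by
  have := Polynomial.aeval_algHom_apply ((swapEAlg s hsα).restrictScalars (RE P E)) u p
  exact this.symm

include hsα in
/-- `V∞ ∘ s` lies over `R_E` -/
theorem isOver_comap_swap [IsDiscreteValuationRing (RE P E)]
    {V : ValuationSubring (FE E (M * q))} (hV : IsVinf P E (M * q) V) :
    A2.H489.IsOver (RE P E) (V.comap s) where
  mem := fun r => by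
    rw [ValuationSubring.mem_comap]
    show s (algebraMap (RE P E) (FE E (M * q)) r) ∈ V
    rw [H13.algebraMap_RE_eq, swapE_algebraMap s hsα]
    exact (H13.isOver_of_isVinf hV).mem r
  nonunit := fun r hr => by
    rw [H13.mem_nonunits_comap]
    show s (algebraMap (RE P E) (FE E (M * q)) r) ∈ V.nonunits
    rw [H13.algebraMap_RE_eq, swapE_algebraMap s hsα]
    exact (H13.isOver_of_isVinf hV).nonunit r hr

include hsα hsβ in
/-- `V∞ ∘ s` induces the Gauss valuation on `E(x)` -/
theorem isGaussOver_comap_swap (hS : Setting P E M q w)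
    {V : ValuationSubring (FE E (M * q))} (hV : IsVinf P E (M * q) V) :
    haveI := hS.dvr
    A2.H489.IsGaussOver (RE P E) (V.comap s) (xE E M q) := by
  haveI := hS.dvr
  obtain ⟨htr, -, -⟩ := H31.deg E M q hS.q_prime hS.q_not_dvd
  have hG₁ := H13.isGaussOver_xE hS.unif hV htr
  refine ⟨isOver_comap_swap s hsα hV, ?_, ?_⟩
  · show s (xE E M q) ∈ V
    rw [swapE_xE s hsα hsβ]
    exact hG₁.mem
  · intro p hp
    apply hG₁.prim p
    rw [H13.mem_nonunits_comap, swapE_aeval s hsα, swapE_xE s hsα hsβ] at hp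
    exact hp

/-! ### `V∞ ∘ s ≠ V∞` -/

include hsα hsβ in
/-- the expansion of `s u = j - j_q ^ q`, `u = j_q - j ^ q` the Frobenius element -/
theorem coe_swap_frobE :
    ((s (H553.frobE E M q) : FE E (M * q)) : LaurentSeries E) =
      coeffEmb E (A2.H708.castQ (A2.H708.jInt 1 - A2.H708.jInt q ^ q)) := by
  have h1 : s (H553.frobE E M q) =
      jE E (M * q) 1 (one_dvd _) - jE E (M * q) q (dvd_mul_left q M) ^ q := by
    rw [H553.frobE, map_sub, map_pow, swapE_j s hsα, swapE_jq s hsβ]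
  rw [h1, map_sub, map_sub, map_pow, map_pow, ← H553.coe_jE (E := E) (M * q) 1 (one_dvd _),
    ← H553.coe_jE (E := E) (M * q) q (dvd_mul_left q M)]
  rfl

theorem coeff_swap_frob (hq : q.Prime) :
    (A2.H708.jInt 1 - A2.H708.jInt q ^ q).coeff (-((q * q : ℕ) : ℤ)) = -1 := by
  have hq1 : 1 < q := hq.one_lt
  have e1 : A2.H708.jInt 1 = A2.H528.jZ 1 := rfl
  have e2 : A2.H708.jInt q = A2.H528.jZ q := rfl
  rw [HahnSeries.coeff_sub, e1, e2, A2.H528.coeff_jZ_pow_top, A2.H528.coeff_jZ_of_lt, zero_sub]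
  have h2 : 1 < q * q := by nlinarith
  have h3 : ((1 : ℕ) : ℤ) < ((q * q : ℕ) : ℤ) := by exact_mod_cast h2
  linarith

include hsα hsβ in
/-- `V∞ ∘ s ≠ V∞`: the Frobenius element `j_q - j ^ q` is a non-unit of `V∞` and a unit of
`V∞ ∘ s`. -/
theorem comap_swap_ne (hS : Setting P E M q w)
    {V : ValuationSubring (FE E (M * q))} {W : FE E (M * q) ≃ₐ[E] FE E (M * q)}
    (hV : IsVinf P E (M * q) V) (hW : IsFricke E (M * q) W) :
    V.comap s ≠ V := by
  intro heq
  haveI : Fact q.Prime := ⟨hS.q_prime⟩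
  haveI := hS.dvr
  have hWu0 : W (H553.frobE E M q) ≠ 0 := H553.W_frobE_ne_zero hW
  have hu0 : H553.frobE E M q ≠ 0 := fun h0 => hWu0 (by rw [h0, map_zero])
  have h1 : (H553.frobE E M q)⁻¹ ∈ V.comap s := by
    show s ((H553.frobE E M q)⁻¹) ∈ V
    rw [map_inv₀]
    exact H553.inv_mem_of_int hV (coe_swap_frobE s hsα hsβ) (Or.inr (coeff_swap_frob hS.q_prime))
  rw [heq] at h1
  exact H553.inv_frobE_not_mem hS.lies_over hV hu0 h1

/-! ### FRICKE = SWAP on valuation rings -/

include hsα hsβ in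
/-- **FRICKE-SWAP.**  For every ring endomorphism `s` of `F_{Mq,E}` exchanging `α` and `β`
(the Atkin–Lehner involution `w_q`), `V∞ ∘ s = V∞ ∘ W = V₀`, `W` the full Fricke involution. -/
theorem comap_swap_eq_comap_fricke (hS : Setting P E M q w)
    {V : ValuationSubring (FE E (M * q))} {W : FE E (M * q) ≃ₐ[E] FE E (M * q)}
    (hV : IsVinf P E (M * q) V) (hW : IsFricke E (M * q) W) :
    V.comap s = V.comap (W : FE E (M * q) →+* FE E (M * q)) :=
  (eq_or_eq_of_isGaussOver hS hV hW (isGaussOver_comap_swap s hsα hsβ hS hV)).resolve_left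
    (comap_swap_ne s hsα hsβ hS hV hW)

include hsα hsβ in
/-- elementwise form -/
theorem swap_mem_iff_fricke_mem (hS : Setting P E M q w)
    {V : ValuationSubring (FE E (M * q))} {W : FE E (M * q) ≃ₐ[E] FE E (M * q)}
    (hV : IsVinf P E (M * q) V) (hW : IsFricke E (M * q) W) (f : FE E (M * q)) :
    s f ∈ V ↔ W f ∈ V := by
  have h := comap_swap_eq_comap_fricke s hsα hsβ hS hV hW
  have h1 : f ∈ V.comap s ↔ f ∈ V.comap (W : FE E (M * q) →+* FE E (M * q)) := by rw [h]
  exact h1

include hsα hsβ in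
/-- `s f ∈ c · V∞ ⟺ f ∈ c · V₀` for every constant `c ∈ E`. -/
theorem swap_mul_const_mem_iff (hS : Setting P E M q w)
    {V : ValuationSubring (FE E (M * q))} {W : FE E (M * q) ≃ₐ[E] FE E (M * q)}
    (hV : IsVinf P E (M * q) V) (hW : IsFricke E (M * q) W) (f : FE E (M * q)) (c : E) :
    s f * algebraMap E (FE E (M * q)) c ∈ V ↔
      f * algebraMap E (FE E (M * q)) c ∈ V.comap (W : FE E (M * q) →+* FE E (M * q)) := by
  rw [← comap_swap_eq_comap_fricke s hsα hsβ hS hV hW, ValuationSubring.mem_comap, map_mul,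
    swapE_algebraMap s hsα]

include hsα hsβ in
/-- `s f ∈ w V∞ ⟺ f ∈ w V₀`. -/
theorem inW_swap_iff_inW_fricke (hS : Setting P E M q w)
    {V : ValuationSubring (FE E (M * q))} {W : FE E (M * q) ≃ₐ[E] FE E (M * q)}
    (hV : IsVinf P E (M * q) V) (hW : IsFricke E (M * q) W) (f : FE E (M * q)) :
    InW P E (M * q) V w (s f) ↔
      InW P E (M * q) (V.comap (W : FE E (M * q) →+* FE E (M * q))) w f := by
  unfold InW
  rw [← comap_swap_eq_comap_fricke s hsα hsβ hS hV hW, ValuationSubring.mem_comap, map_mul,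
    map_inv₀]
  have h : s (cE P E (M * q) w) = cE P E (M * q) w := swapE_algebraMap s hsα _
  rw [h]

end Swap

end Fermat.Agent.Ribet.H279

end

end
-- ===== PACK-END Ribet/H279/FrickeSwap.lean

-- ===== PACK-BEGIN S36/H370/Mod3Mid.lean
section







/-!
# S36 / MOD3 — the middle valuation ring lies over `V₀` along `β` (helper370)

Levels `N' = M q`, `N = M q q`, `q ∤ M`.  Let `V` be ANY valuation subring of `F_N` with
`V.comap α = V∞(N')`, `V ≠ V∞(N)` (the "middle" component `V₂` of `Mod3.Objs`).  Then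

    V.comap β = V₀(N') = V∞(N').comap W'.

Route (no Eisenstein splitting needed):
* Kronecker `Φ_q(X,Y) ≡ (X^q - Y)(X - Y^q) mod q` and `Φ_q(j_q, j_{qq}) = 0` give, in the residue
  field of `V`, `j_{qq}^q = j_q` or `j_{qq} = j_q^q`; with `j_q ≡ j^q` on `V∞(N')` this yields
  `β x' ≡ α (x'^n) mod 𝔪_V` for `n = 1` or `n = q`  (`x' = j j_q`);
* hence `V.comap β` induces the Gauss valuation on `E(x')` (`isGaussOver_comap_of_congr`), so it
  is `V∞(N')` or `V₀(N')` (`Ribet.H279.eq_or_eq_of_isGaussOver`, the two-extension theorem of A2);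
* `V.comap β = V∞(N')` would force `V = V∞(N)` (`H83.h83_beta_unique`).
-/

set_option autoImplicit false
set_option linter.unusedSectionVars false
set_option linter.style.haveILetI false
set_option synthInstance.maxHeartbeats 400000
set_option maxHeartbeats 1600000

noncomputable section

namespace Fermat.Agent.S36.H370

open ModularCurve HahnSeries Polynomial Fermat.Agent.A2.Mod

/-! ## Generic valuation lemmas -/

section GenericVal

variable {K L : Type*} [Field K] [Field L]

/-- Nonunits of the pull-back of a valuation ring along a field homomorphism. -/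
theorem mem_nonunits_comap_hom (V : ValuationSubring L) (φ : K →+* L) (f : K) :
    f ∈ (V.comap φ).nonunits ↔ φ f ∈ V.nonunits := by
  rw [ValuationSubring.mem_nonunits_iff_or, ValuationSubring.mem_nonunits_iff_or,
    ValuationSubring.mem_comap]
  constructor
  · rintro (h | h)
    · left
      rw [h, map_zero]
    · right
      intro h'
      apply h
      show φ f⁻¹ ∈ V
      rw [map_inv₀]
      exact h'
  · rintro (h | h)
    · left
      exact (map_eq_zero φ).mp h
    · right
      intro h'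
      apply h
      have h'' : φ f⁻¹ ∈ V := h'
      rwa [map_inv₀] at h''

theorem nonunits_sub_mem370 {V : ValuationSubring L} {a b : L} (ha : a ∈ V.nonunits)
    (hb : b ∈ V.nonunits) : a - b ∈ V.nonunits := by
  rw [ValuationSubring.mem_nonunits_iff] at ha hb ⊢
  exact Valuation.map_sub_lt _ ha hb

theorem nonunits_mem370 {V : ValuationSubring L} {a : L} (ha : a ∈ V.nonunits) : a ∈ V := by
  rw [ValuationSubring.mem_nonunits_iff] at ha
  exact (V.valuation_le_one_iff a).mp ha.le

/-- equality of residues -/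
theorem residue_eq_iff370 (V : ValuationSubring L) {x y : L} (hx : x ∈ V) (hy : y ∈ V) :
    IsLocalRing.residue V ⟨x, hx⟩ = IsLocalRing.residue V ⟨y, hy⟩ ↔ x - y ∈ V.nonunits := by
  rw [← sub_eq_zero, ← map_sub, IsLocalRing.residue_eq_zero_iff,
    ← ValuationSubring.coe_mem_nonunits_iff]
  rfl

variable {R : Type*} [CommRing R] [Algebra R L]

/-- `aeval` at congruent points is congruent. -/
theorem aeval_sub_mem_nonunits370 (V : ValuationSubring L)
    (hR : ∀ r : R, algebraMap R L r ∈ V) {a b : L} (ha : a ∈ V) (hb : b ∈ V)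
    (hab : a - b ∈ V.nonunits) (p : R[X]) : aeval a p - aeval b p ∈ V.nonunits := by
  set φ : R →+* V := (algebraMap R L).codRestrict V.toSubring hR with hφ
  have hcomp : V.subtype.comp φ = algebraMap R L := by
    ext r
    rfl
  have e : ∀ (c : L) (hc : c ∈ V), aeval c p = ((p.eval₂ φ ⟨c, hc⟩ : V) : L) := by
    intro c hc
    have h := Polynomial.hom_eval₂ p φ V.subtype ⟨c, hc⟩
    rw [hcomp] at h
    exact h.symm
  have hres : IsLocalRing.residue V (p.eval₂ φ ⟨a, ha⟩) =
      IsLocalRing.residue V (p.eval₂ φ ⟨b, hb⟩) := by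
    rw [Polynomial.hom_eval₂, Polynomial.hom_eval₂, (residue_eq_iff370 V ha hb).mpr hab]
  rw [e a ha, e b hb]
  exact (residue_eq_iff370 V (p.eval₂ φ ⟨a, ha⟩).2 (p.eval₂ φ ⟨b, hb⟩).2).mp hres

end GenericVal

/-! ## Transfer of the Gauss property -/

section Transfer

variable {R K L : Type*} [CommRing R] [IsLocalRing R] [Field K] [Field L]
  [Algebra R K] [Algebra R L]

/-- **Transfer.**  `V` over `V'` along `α`, `V'` Gauss for `x`, and `β x ≡ α (x^n)` modulo `𝔪_V`
(`n > 0`): then `V.comap β` is Gauss for `x`. -/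
theorem isGaussOver_comap_of_congr (α β : K →ₐ[R] L) {V : ValuationSubring L}
    {V' : ValuationSubring K} (hmid : V.comap (α : K →+* L) = V') {x : K}
    (hG : A2.H489.IsGaussOver R V' x) {n : ℕ} (hn : 0 < n)
    (h : β x - α (x ^ n) ∈ V.nonunits) :
    A2.H489.IsGaussOver R (V.comap (β : K →+* L)) x := by
  have hα : ∀ f : K, α f ∈ V ↔ f ∈ V' := fun f => by
    rw [← hmid, ValuationSubring.mem_comap]
    rfl
  have hαn : ∀ f : K, α f ∈ V.nonunits ↔ f ∈ V'.nonunits := fun f => by
    rw [← hmid, mem_nonunits_comap_hom]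
    rfl
  have hR : ∀ r : R, algebraMap R L r ∈ V := fun r => by
    rw [← α.commutes, hα]
    exact hG.isOver.mem r
  have hαx : α (x ^ n) ∈ V := (hα _).mpr (pow_mem hG.mem n)
  have hβx : β x ∈ V := by
    have : β x = (β x - α (x ^ n)) + α (x ^ n) := by ring
    rw [this]
    exact V.add_mem _ _ (nonunits_mem370 h) hαx
  refine ⟨⟨fun r => ?_, fun r hr => ?_⟩, ?_, ?_⟩
  · rw [ValuationSubring.mem_comap]
    show β (algebraMap R K r) ∈ V
    rw [β.commutes]
    exact hR r
  · rw [mem_nonunits_comap_hom]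
    show β (algebraMap R K r) ∈ V.nonunits
    rw [β.commutes, ← α.commutes, hαn]
    exact hG.isOver.nonunit r hr
  · rw [ValuationSubring.mem_comap]
    exact hβx
  · intro p hp
    rw [mem_nonunits_comap_hom] at hp
    have e1 : β (aeval x p) = aeval (β x) p := (Polynomial.aeval_algHom_apply β x p).symm
    have e2 : α (aeval (x ^ n) p) = aeval (α (x ^ n)) p :=
      (Polynomial.aeval_algHom_apply α (x ^ n) p).symm
    have hp' : aeval (β x) p ∈ V.nonunits := by
      rw [← e1]
      exact hp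
    have key := aeval_sub_mem_nonunits370 V hR hβx hαx h p
    have h3 : aeval (α (x ^ n)) p ∈ V.nonunits := by
      have : aeval (α (x ^ n)) p = aeval (β x) p - (aeval (β x) p - aeval (α (x ^ n)) p) := by
        ring
      rw [this]
      exact nonunits_sub_mem370 hp' key
    have h4 : aeval (x ^ n) p ∈ V'.nonunits := by
      rw [← hαn, e2]
      exact h3
    have h5 : aeval (x ^ n) p = aeval x (Polynomial.expand R n p) :=
      (Polynomial.expand_aeval n p x).symm
    rw [h5] at h4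
    have h6 := hG.prim _ h4
    rw [Polynomial.map_expand] at h6
    exact (Polynomial.expand_eq_zero hn).mp h6

end Transfer

/-! ## Kronecker in a field of characteristic `q` -/

section KronField

variable {κ : Type*} [Field κ] (q : ℕ) [Fact q.Prime] [NeZero q] [CharP κ q]

/-- `Φ_q(y, z) = 0` in a field of characteristic `q` forces `z^q = y` or `z = y^q`. -/
theorem kronecker_field370 (Φ : S28.ModPolyData q) (y z : κ)
    (h : Φ.Φ.eval₂ (Polynomial.aeval (R := ℤ) y).toRingHom z = 0) :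
    (z ^ q - y) * (z - y ^ q) = 0 := by
  have hcomp : (Polynomial.evalRingHom y).comp (Polynomial.mapRingHom (Int.castRingHom κ)) =
      (Polynomial.aeval (R := ℤ) y).toRingHom := by
    apply Polynomial.ringHom_ext
    · intro n
      simp
    · simp
  have h1 : (Φ.Φ.map (Polynomial.mapRingHom (Int.castRingHom κ))).eval₂
      (Polynomial.evalRingHom y) z = 0 := by
    rw [Polynomial.eval₂_map, hcomp]
    exact h
  rw [S28.h88_kronecker_charP q κ Φ] at h1
  simpa [Polynomial.eval₂_mul, Polynomial.eval₂_sub, Polynomial.eval₂_pow] using h1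

end KronField

/-! ## The concrete statement -/

section Concrete

variable {P : ValuationSubring Qb} {E : IntermediateField ℚ Qb} {M q : ℕ} [NeZero M] [NeZero q]
  [NeZero (M * q)] {w : RE P E}

/-- `Φ_q(j_q, j_{qq}) = 0` at level `M q q`. -/
theorem modPoly_eval_jqq370 (Φ : S28.ModPolyData q) :
    Φ.Φ.eval₂ (Polynomial.aeval (R := ℤ)
      (jE E (M * q * q) q (Dvd.intro_left (M * q) rfl))).toRingHom
      (jE E (M * q * q) (q * q) ⟨M, by ring⟩) = 0 := by
  refine H873.eval₂_eq_zero_of_int E (M * q * q) Φ.Φ _ _ (qExpand ℤ (q * q) (jqModC ℤ))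
    (qExpand ℤ q (jqModC ℤ)) (H873.coe_jE_int E _ (q * q) _) (H873.coe_jE_int E _ q _) ?_
  have h := congrArg (qExpand ℤ q) Φ.eval_jp
  rw [Polynomial.hom_eval₂, map_zero, S28.h88_comp_evalAt, qExpand_qExpand] at h
  exact h

theorem beta_j_eq_alpha_jq370 :
    βE E (M * q) q (jE E (M * q) 1 (one_dvd _)) =
      αE E (M * q) q (jE E (M * q) q (dvd_mul_left q M)) := by
  apply Subtype.ext
  rw [coe_heckeBetaBar, coe_heckeAlphaBar, H873.coe_jE, H873.coe_jE, qExpand_one_apply]

theorem alpha_jq_eq370 :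
    αE E (M * q) q (jE E (M * q) q (dvd_mul_left q M)) =
      jE E (M * q * q) q (Dvd.intro_left (M * q) rfl) := by
  apply Subtype.ext
  rw [coe_heckeAlphaBar, H873.coe_jE, H873.coe_jE]

theorem beta_jq_eq370 :
    βE E (M * q) q (jE E (M * q) q (dvd_mul_left q M)) =
      jE E (M * q * q) (q * q) ⟨M, by ring⟩ := by
  apply Subtype.ext
  rw [coe_heckeBetaBar, H873.coe_jE, H873.coe_jE, qExpand_qExpand]

/-- **The middle component lies over `V₀` along `β`.** -/
theorem comap_beta_mid (hS : Setting P E M q w)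
    {V₁' : ValuationSubring (FE E (M * q))} {W' : FE E (M * q) ≃ₐ[E] FE E (M * q)}
    {V₁ V₂ : ValuationSubring (FE E (M * q * q))}
    (hV₁' : IsVinf P E (M * q) V₁') (hW' : IsFricke E (M * q) W')
    (hV₁ : IsVinf P E (M * q * q) V₁)
    (hmid : V₂.comap (αE E (M * q) q : FE E (M * q) →+* FE E (M * q * q)) = V₁')
    (hne : V₂ ≠ V₁) :
    V₂.comap (βE E (M * q) q : FE E (M * q) →+* FE E (M * q * q)) =
      V₁'.comap (W' : FE E (M * q) →+* FE E (M * q)) := by
  haveI := hS.dvr
  haveI : Fact q.Prime := ⟨hS.q_prime⟩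
  obtain ⟨Φ⟩ := S28.H807.nonempty_modPolyData q hS.q_prime
  obtain ⟨htr, -, -⟩ := H31.deg E M q hS.q_prime hS.q_not_dvd
  have hG := H13.isGaussOver_xE hS.unif hV₁' htr
  have hu := (H553.vinfBasic P E w (M * q) (NeZero.ne _) hS.dvr hS.unif V₁' hV₁').1
  have hαmem : ∀ f, αE E (M * q) q f ∈ V₂ ↔ f ∈ V₁' := fun f => by
    rw [← hmid, ValuationSubring.mem_comap]
    rfl
  have hαnon : ∀ f, αE E (M * q) q f ∈ V₂.nonunits ↔ f ∈ V₁'.nonunits := fun f => by
    rw [← hmid, mem_nonunits_comap_hom]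
    rfl
  have hj' : jE E (M * q) 1 (one_dvd _) ∈ V₁' :=
    ((H553.vinfBasic P E w (M * q) (NeZero.ne _) hS.dvr hS.unif V₁' hV₁').2.2 1 (one_dvd _)).1
  have hjq' : jE E (M * q) q (dvd_mul_left q M) ∈ V₁' :=
    ((H553.vinfBasic P E w (M * q) (NeZero.ne _) hS.dvr hS.unif V₁' hV₁').2.2 q
      (dvd_mul_left q M)).1
  have h1 : αE E (M * q) q (jE E (M * q) 1 (one_dvd _)) ∈ V₂ := (hαmem _).mpr hj'
  have hq : αE E (M * q) q (jE E (M * q) q (dvd_mul_left q M)) ∈ V₂ := (hαmem _).mpr hjq'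
  have hΦ0 : Φ.Φ.eval₂ (Polynomial.aeval (R := ℤ)
      (αE E (M * q) q (jE E (M * q) q (dvd_mul_left q M)))).toRingHom
      (βE E (M * q) q (jE E (M * q) q (dvd_mul_left q M))) = 0 := by
    rw [alpha_jq_eq370, beta_jq_eq370]
    exact modPoly_eval_jqq370 Φ
  have hqq : βE E (M * q) q (jE E (M * q) q (dvd_mul_left q M)) ∈ V₂ :=
    H873.mem_valuationSubring_of_monic_eval Φ.Φ Φ.monic hΦ0 V₂ hq
  -- the residue field has characteristic `q`
  have hLO : V₂.LiesOverPrime q := by
    have h0 : ((q : ℕ) : FE E (M * q)) ∈ V₁'.nonunits :=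
      H83.h83_vinf_liesOver hS.dvr hS.lies_over hV₁'
    rw [← hαnon, map_natCast] at h0
    exact h0
  haveI : CharP (IsLocalRing.ResidueField V₂) q := S18.H516.charP_residue V₂ hLO
  -- Frobenius congruence `j^q ≡ j_q`
  have hfrob : IsLocalRing.residue V₂ ⟨_, h1⟩ ^ q = IsLocalRing.residue V₂ ⟨_, hq⟩ := by
    have hA := H83.h83_inW_j_pow_sub (M := M) hS.dvr hS.unif hS.q_prime hS.lies_over hV₁'
    have hA' : jE E (M * q) 1 (one_dvd _) ^ q - jE E (M * q) q (dvd_mul_left q M)
        ∈ V₁'.nonunits := (H13.inW_iff_mem_nonunits hu _).mp hA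
    rw [← hαnon, map_sub, map_pow] at hA'
    rw [← map_pow]
    exact (residue_eq_iff370 V₂ (pow_mem h1 q) hq).mpr hA'
  -- Kronecker
  have hkron : (IsLocalRing.residue V₂ ⟨_, hqq⟩ ^ q - IsLocalRing.residue V₂ ⟨_, hq⟩) *
      (IsLocalRing.residue V₂ ⟨_, hqq⟩ - IsLocalRing.residue V₂ ⟨_, hq⟩ ^ q) = 0 := by
    apply kronecker_field370 q Φ
    have hV : Φ.Φ.eval₂ (Polynomial.aeval (R := ℤ)
        (⟨_, hq⟩ : V₂)).toRingHom (⟨_, hqq⟩ : V₂) = 0 := by
      apply Subtype.ext
      have h := Polynomial.hom_eval₂ Φ.Φ (Polynomial.aeval (R := ℤ) (⟨_, hq⟩ : V₂)).toRingHom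
        V₂.subtype ⟨_, hqq⟩
      have hcomp : V₂.subtype.comp (Polynomial.aeval (R := ℤ) (⟨_, hq⟩ : V₂)).toRingHom =
          (Polynomial.aeval (R := ℤ)
            (αE E (M * q) q (jE E (M * q) q (dvd_mul_left q M)))).toRingHom := by
        apply Polynomial.ringHom_ext
        · intro n
          simp
        · simp
      rw [hcomp] at h
      exact h.trans hΦ0
    have h := congrArg (IsLocalRing.residue V₂) hV
    rw [Polynomial.hom_eval₂, map_zero] at h
    have hcomp : (IsLocalRing.residue V₂).comp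
        (Polynomial.aeval (R := ℤ) (⟨_, hq⟩ : V₂)).toRingHom =
        (Polynomial.aeval (R := ℤ) (IsLocalRing.residue V₂ ⟨_, hq⟩)).toRingHom := by
      apply Polynomial.ringHom_ext
      · intro n
        simp
      · simp
    rw [hcomp] at h
    exact h
  -- `β x' ≡ α (x'^n)`
  have hβx : βE E (M * q) q (xE E M q) =
      αE E (M * q) q (jE E (M * q) q (dvd_mul_left q M)) *
        βE E (M * q) q (jE E (M * q) q (dvd_mul_left q M)) := by
    rw [xE, map_mul, beta_j_eq_alpha_jq370]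
  have hαx : ∀ n : ℕ, αE E (M * q) q (xE E M q ^ n) =
      (αE E (M * q) q (jE E (M * q) 1 (one_dvd _)) *
        αE E (M * q) q (jE E (M * q) q (dvd_mul_left q M))) ^ n := by
    intro n
    rw [xE, map_pow, map_mul]
  obtain ⟨n, hn, hcong⟩ : ∃ n : ℕ, 0 < n ∧
      βE E (M * q) q (xE E M q) - αE E (M * q) q (xE E M q ^ n) ∈ V₂.nonunits := by
    rcases mul_eq_zero.mp hkron with h | h
    · -- `j_qq^q = j_q = j^q`, so `j_qq = j`
      refine ⟨1, one_pos, ?_⟩
      rw [sub_eq_zero] at h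
      have h2 : IsLocalRing.residue V₂ ⟨_, hqq⟩ = IsLocalRing.residue V₂ ⟨_, h1⟩ := by
        apply frobenius_inj (IsLocalRing.ResidueField V₂) q
        rw [frobenius_def, frobenius_def, h, hfrob]
      rw [hβx, hαx, pow_one]
      apply (residue_eq_iff370 V₂ (V₂.mul_mem _ _ hq hqq) (V₂.mul_mem _ _ h1 hq)).mp
      have e1 : (⟨_, V₂.mul_mem _ _ hq hqq⟩ : V₂) = ⟨_, hq⟩ * ⟨_, hqq⟩ := rfl
      have e2 : (⟨_, V₂.mul_mem _ _ h1 hq⟩ : V₂) = ⟨_, h1⟩ * ⟨_, hq⟩ := rfl
      rw [e1, e2, map_mul, map_mul, h2]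
      exact mul_comm _ _
    · -- `j_qq = j_q^q`
      refine ⟨q, hS.q_prime.pos, ?_⟩
      rw [sub_eq_zero] at h
      rw [hβx, hαx]
      apply (residue_eq_iff370 V₂ (V₂.mul_mem _ _ hq hqq)
        (pow_mem (V₂.mul_mem _ _ h1 hq) q)).mp
      have e1 : (⟨_, V₂.mul_mem _ _ hq hqq⟩ : V₂) = ⟨_, hq⟩ * ⟨_, hqq⟩ := rfl
      have e2 : (⟨_, pow_mem (V₂.mul_mem _ _ h1 hq) q⟩ : V₂) = (⟨_, h1⟩ * ⟨_, hq⟩) ^ q := rfl
      rw [e1, e2, map_mul, map_pow, map_mul, mul_pow, hfrob, h]
  have hGU := isGaussOver_comap_of_congr ((αE E (M * q) q).restrictScalars (RE P E))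
    ((βE E (M * q) q).restrictScalars (RE P E)) hmid hG hn hcong
  rcases Ribet.H279.eq_or_eq_of_isGaussOver hS hV₁' hW' hGU with hU | hU
  · exfalso
    apply hne
    refine H83.h83_beta_unique (M := M * q) hS.dvr hS.unif hS.q_prime (dvd_mul_left q M)
      hV₁' hV₁ V₂ (fun f => ?_)
    rw [← hU, ValuationSubring.mem_comap]
    rfl
  · exact hU

end Concrete

end Fermat.Agent.S36.H370

end

end
-- ===== PACK-END S36/H370/Mod3Mid.lean

-- ===== PACK-BEGIN S36/H83/AlphaVV.lean
section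
/-
S36 engine, MOD-3 (helper83): the valuation `V₀ = V∞ ∘ W` (`= V_VV`) of level `M q`, `q ∣ M`,
over the `α`-structure (`α : F_M → F_{Mq}` the inclusion), by Fricke transport of `BetaUniq`.

With `W_M`, `W_N` the Fricke involutions of levels `M` and `N = M q`, `V₀_M = V∞_M ∘ W_M`,
`V₀_N = V∞_N ∘ W_N`, and `j_N = j(t^N) = W_N j`:

* `h83_alpha_mem_iff`        : `α f ∈ V₀_N ↔ f ∈ V₀_M`;
* `h83_alpha_integral_basis` : every `f ∈ V₀_N` is `∑_{i<q} α(b_i) j_N^i`, `b_i ∈ V₀_M`;
* `h83_alpha_unique`         : `V₀_N` is the only valuation subring of `F_N` over `α(V₀_M)`;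
* `h83_alpha_insep`          : `f ∈ V₀_N ⟹ ∃ g ∈ V₀_M, f^q ≡ α g mod w V₀_N`.
-/



set_option autoImplicit false
set_option linter.unusedSectionVars false
set_option linter.style.haveILetI false
set_option synthInstance.maxHeartbeats 400000
set_option maxHeartbeats 1600000

noncomputable section

namespace Fermat.Agent.S36.H83

open ModularCurve Fermat.Agent.A2 Fermat.Agent.A2.Mod

section AlphaVV

variable {P : ValuationSubring _root_.Fermat.Agent.A2.Mod.Qb} {E : IntermediateField ℚ _root_.Fermat.Agent.A2.Mod.Qb} {M q : ℕ} [NeZero M] [NeZero q]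

/-- `V₀ = V ∘ W`. -/
abbrev h83_comapW {N : ℕ} (V : ValuationSubring (_root_.Fermat.Agent.A2.Mod.FE E N)) (W : _root_.Fermat.Agent.A2.Mod.FE E N ≃ₐ[E] _root_.Fermat.Agent.A2.Mod.FE E N) :
    ValuationSubring (_root_.Fermat.Agent.A2.Mod.FE E N) :=
  V.comap (W : _root_.Fermat.Agent.A2.Mod.FE E N →+* _root_.Fermat.Agent.A2.Mod.FE E N)

theorem h83_mem_comapW {N : ℕ} (V : ValuationSubring (_root_.Fermat.Agent.A2.Mod.FE E N)) (W : _root_.Fermat.Agent.A2.Mod.FE E N ≃ₐ[E] _root_.Fermat.Agent.A2.Mod.FE E N)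
    (f : _root_.Fermat.Agent.A2.Mod.FE E N) : f ∈ h83_comapW V W ↔ W f ∈ V := Iff.rfl

/-- `InW` for `V ∘ W`. -/
theorem h83_inW_comapW {N : ℕ} (V : ValuationSubring (_root_.Fermat.Agent.A2.Mod.FE E N)) (W : _root_.Fermat.Agent.A2.Mod.FE E N ≃ₐ[E] _root_.Fermat.Agent.A2.Mod.FE E N)
    (w : _root_.Fermat.Agent.A2.Mod.RE P E) (f : _root_.Fermat.Agent.A2.Mod.FE E N) :
    InW P E N (h83_comapW V W) w f ↔ InW P E N V w (W f) := by
  unfold InW
  rw [h83_mem_comapW, map_mul, map_inv₀]
  have : W (cE P E N w) = cE P E N w := W.commutes (w : E)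
  rw [this]

variable (WM : _root_.Fermat.Agent.A2.Mod.FE E M ≃ₐ[E] _root_.Fermat.Agent.A2.Mod.FE E M) (WN : _root_.Fermat.Agent.A2.Mod.FE E (M * q) ≃ₐ[E] _root_.Fermat.Agent.A2.Mod.FE E (M * q))

/-- **`V₀_N` lies over `α(V₀_M)`.** -/
theorem h83_alpha_mem_iff (hdvr : IsDiscreteValuationRing (_root_.Fermat.Agent.A2.Mod.RE P E))
    (hWM : IsFricke E M WM) (hWN : IsFricke E (M * q) WN)
    {VM : ValuationSubring (_root_.Fermat.Agent.A2.Mod.FE E M)} {V : ValuationSubring (_root_.Fermat.Agent.A2.Mod.FE E (M * q))}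
    (hVM : IsVinf P E M VM) (hV : IsVinf P E (M * q) V) (f : _root_.Fermat.Agent.A2.Mod.FE E M) :
    αE E M q f ∈ h83_comapW V WN ↔ f ∈ h83_comapW VM WM := by
  rw [h83_mem_comapW, h83_mem_comapW, (H751.frickeCompat E M q WM WN hWM hWN f).1]
  exact h83_beta_mem_iff hdvr hVM hV _

/-- **Integral power basis of `V₀_N` over `α(V₀_M)`**: `1, j_N, …, j_N^{q-1}`. -/
theorem h83_alpha_integral_basis (hdvr : IsDiscreteValuationRing (_root_.Fermat.Agent.A2.Mod.RE P E)) {w : _root_.Fermat.Agent.A2.Mod.RE P E}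
    (hw : Irreducible w) (hq : q.Prime) (hqM : q ∣ M)
    (hWM : IsFricke E M WM) (hWN : IsFricke E (M * q) WN)
    {VM : ValuationSubring (_root_.Fermat.Agent.A2.Mod.FE E M)} {V : ValuationSubring (_root_.Fermat.Agent.A2.Mod.FE E (M * q))}
    (hVM : IsVinf P E M VM) (hV : IsVinf P E (M * q) V) {f : _root_.Fermat.Agent.A2.Mod.FE E (M * q)}
    (hf : f ∈ h83_comapW V WN) :
    ∃ b : Fin q → _root_.Fermat.Agent.A2.Mod.FE E M, (∀ i, b i ∈ h83_comapW VM WM) ∧
      f = ∑ i : Fin q, αE E M q (b i) * jE E (M * q) (M * q) dvd_rfl ^ (i : ℕ) := by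
  have hf' : WN f ∈ V := (h83_mem_comapW V WN f).mp hf
  obtain ⟨a, ha, hfa⟩ := h83_beta_integral_basis hdvr hw hq hqM hVM hV hf'
  refine ⟨fun i => WM (a i), fun i => ?_, ?_⟩
  · rw [h83_mem_comapW, hWM.2]
    exact ha i
  · have h1 := congrArg WN hfa
    rw [hWN.2, map_sum] at h1
    rw [h1]
    refine Finset.sum_congr rfl fun i _ => ?_
    rw [map_mul, map_pow, (H751.frickeCompat E M q WM WN hWM hWN (a i)).2,
      hWN.1 1 (M * q) (one_dvd _) dvd_rfl (one_mul _)]

/-- **Uniqueness**: for `q ∣ M`, `V₀_N` is the only valuation subring of `F_N` lying over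
`α(V₀_M)`. -/
theorem h83_alpha_unique (hdvr : IsDiscreteValuationRing (_root_.Fermat.Agent.A2.Mod.RE P E)) {w : _root_.Fermat.Agent.A2.Mod.RE P E}
    (hw : Irreducible w) (hq : q.Prime) (hqM : q ∣ M)
    (hWM : IsFricke E M WM) (hWN : IsFricke E (M * q) WN)
    {VM : ValuationSubring (_root_.Fermat.Agent.A2.Mod.FE E M)} {V : ValuationSubring (_root_.Fermat.Agent.A2.Mod.FE E (M * q))}
    (hVM : IsVinf P E M VM) (hV : IsVinf P E (M * q) V)
    (V' : ValuationSubring (_root_.Fermat.Agent.A2.Mod.FE E (M * q)))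
    (hV' : ∀ f : _root_.Fermat.Agent.A2.Mod.FE E M, αE E M q f ∈ V' ↔ f ∈ h83_comapW VM WM) :
    V' = h83_comapW V WN := by
  have key : h83_comapW V' WN = V := by
    apply h83_beta_unique hdvr hw hq hqM hVM hV
    intro f
    rw [h83_mem_comapW, (H751.frickeCompat E M q WM WN hWM hWN f).2, hV', h83_mem_comapW,
      hWM.2]
  ext x
  rw [h83_mem_comapW, ← key, h83_mem_comapW, hWN.2]

/-- **Purely inseparable residue extension** of `V₀_N` over `α(V₀_M)`. -/
theorem h83_alpha_insep (hdvr : IsDiscreteValuationRing (_root_.Fermat.Agent.A2.Mod.RE P E)) {w : _root_.Fermat.Agent.A2.Mod.RE P E}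
    (hw : Irreducible w) (hq : q.Prime) (hqM : q ∣ M) (hP : P.LiesOverPrime q)
    (hWM : IsFricke E M WM) (hWN : IsFricke E (M * q) WN)
    {VM : ValuationSubring (_root_.Fermat.Agent.A2.Mod.FE E M)} {V : ValuationSubring (_root_.Fermat.Agent.A2.Mod.FE E (M * q))}
    (hVM : IsVinf P E M VM) (hV : IsVinf P E (M * q) V) {f : _root_.Fermat.Agent.A2.Mod.FE E (M * q)}
    (hf : f ∈ h83_comapW V WN) :
    ∃ g ∈ h83_comapW VM WM, InW P E (M * q) (h83_comapW V WN) w (f ^ q - αE E M q g) := by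
  have hf' : WN f ∈ V := (h83_mem_comapW V WN f).mp hf
  obtain ⟨g, hg, hInW⟩ := h83_beta_insep hdvr hw hq hqM hP hVM hV hf'
  refine ⟨WM g, ?_, ?_⟩
  · rw [h83_mem_comapW, hWM.2]
    exact hg
  · rw [h83_inW_comapW, map_sub, map_pow, (H751.frickeCompat E M q WM WN hWM hWN (WM g)).1,
      hWM.2]
    exact hInW

end AlphaVV

end Fermat.Agent.S36.H83

end

end
-- ===== PACK-END S36/H83/AlphaVV.lean

-- ===== PACK-BEGIN S36/Mod3/H27/SheetsLow.lean
section







/-!
# S36 / MOD3, leaf QEP (helper27): the sheets of level `M q` (concrete)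

`sheets_low` : at level `M q` (`q ∤ M`), coordinate `x' = j j_q`, every sheet is `V∞` or
`V₀ = V∞ ∘ W` (from the sub-assembly S1 of cell A2: `p∞ ⊓ p₀ = (w)`).
-/

set_option autoImplicit false
set_option linter.style.haveILetI false
set_option linter.unusedSectionVars false
set_option synthInstance.maxHeartbeats 400000
set_option maxHeartbeats 1600000

noncomputable section

namespace Fermat.Agent.S36.Mod3.H27

open Polynomial ModularCurve
open Fermat.Agent.A2.H12 (IsSheet)
open Fermat.Agent.S18.H138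
open Fermat.Agent.A2.Mod

section GaussSheet

universe u

variable {R : Type u} [CommRing R] [IsDomain R] [IsDiscreteValuationRing R]
  {F : Type u} [Field F] [Algebra R F]

/-- `IsGaussOver` (vocabulary of `A2/H489`) gives `IsSheet` (vocabulary of `A2/H12`). -/
theorem isSheet_of_isGaussOver {w : R} (hw : Irreducible w) {V : ValuationSubring F} {x : F}
    (h : Fermat.Agent.A2.H489.IsGaussOver R V x) : IsSheet w x V := by
  refine ⟨h.isOver.mem, h.mem, h.isOver.nonunit w ?_, fun P hP => ?_⟩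
  · rw [IsLocalRing.mem_maximalIdeal, mem_nonunits_iff]
    exact hw.not_isUnit
  · apply h.inv_aeval_mem
    intro h0
    obtain ⟨i, hi⟩ := hP
    apply hi
    have hd : C w ∣ P := by
      obtain ⟨P', hP'⟩ := Fermat.Agent.A2.H489.exists_eq_C_mul_of_map_residue_eq_zero hw h0
      exact ⟨P', hP'⟩
    exact (Polynomial.C_dvd_iff_dvd_coeff _ _).1 hd i

end GaussSheet

section Low

variable {P : ValuationSubring Qb} {E : IntermediateField ℚ Qb} {M q : ℕ} [NeZero M] [NeZero q]
  {w : RE P E}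

theorem algebraMap_RE_injective (N : ℕ) :
    Function.Injective (algebraMap (RE P E) (FE E N)) := by
  intro a b hab
  have h1 : algebraMap E (FE E N) (a : E) = algebraMap E (FE E N) (b : E) := hab
  exact Subtype.ext ((algebraMap E (FE E N)).injective h1)

/-- **The sheets of level `M q`** are `V∞` and `V₀`. -/
theorem sheets_low (hS : Setting P E M q w) {V : ValuationSubring (FE E (M * q))}
    {W : FE E (M * q) ≃ₐ[E] FE E (M * q)} (hV : IsVinf P E (M * q) V)
    (hW : IsFricke E (M * q) W) :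
    ∀ V' : ValuationSubring (FE E (M * q)), IsSheet w (xE E M q) V' →
      V' = V ∨ V' = V.comap (W : FE E (M * q) →+* FE E (M * q)) := by
  haveI := hS.dvr
  obtain ⟨htr, hfr, -⟩ := H31.deg E M q hS.q_prime hS.q_not_dvd
  have hs1 := H13.s1 (H553.vzeroNe P E M q w) (H31.deg E M q) (H753.indInf P E M q w)
    (H753.indZero P E M q w) hS V W hV hW (xE E M q) (Or.inl rfl)
  obtain ⟨p₁, p₂, hc₁, hc₂, hp₁, hp₂, -, -, hinf⟩ := hs1
  have hG₁ := H13.isGaussOver_xE hS.unif hV htr
  have hG₂ := H13.isGaussOver_comap_xE hS.unif hV hW htr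
  have hxR : Transcendental (RE P E) (xE E M q) := H13.transcendental_RE htr
  haveI : FiniteDimensional (IntermediateField.adjoin E ({xE E M q} : Set (FE E (M * q))))
      (FE E (M * q)) := Module.finite_of_finrank_pos (by
        rw [hfr]
        have := dedekindPsi_pos_of_ne_zero M (NeZero.ne M)
        positivity)
  haveI : FiniteDimensional (baseField (RE P E) (xE E M q)) (FE E (M * q)) :=
    Fermat.Agent.A2.H313.finiteDimensional_baseField_of_adjoin E (xE E M q)
  exact complete_of_inf_eq (algebraMap_RE_injective (M * q)) hS.unif.prime hxR V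
    (V.comap (W : FE E (M * q) →+* FE E (M * q)))
    (isSheet_of_isGaussOver hS.unif hG₁) (isSheet_of_isGaussOver hS.unif hG₂)
    p₁ p₂ hp₁ hp₂ hinf (fun b hb => (hc₁ b).1 hb) (fun b hb => (hc₂ b).1 hb)

end Low

end Fermat.Agent.S36.Mod3.H27

end

end
-- ===== PACK-END S36/Mod3/H27/SheetsLow.lean

-- ===== PACK-BEGIN S36/Mod3/H657/NormLeaf.lean
section







/-!
# S36 / MOD3 — the leaves `LeafNV` and `LeafNR` from `LeafVal` and `LeafTable` (helper657)

`Mod3.LeafNV` (valuations of norms) and `Mod3.LeafNR` (residues of norms) are obtained from the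
generic adapter `S36.H253.eng_norm_six` (helper253) by supplying its CONCRETE inputs at the levels
`M q` and `M q q`:

* degrees: `[F : α F'] = [F : β F'] = q` (`S37.H818.finrankAlong_heckeAlphaBar'` for `α`; for `β`
  by transport along the Fricke involutions, `W ∘ α = β ∘ W'`);
* residue characteristic: `q ∈ 𝔪_{V₁}`, `q ∈ 𝔪_{V₃}`;
* witnesses of inseparability: `j ^ q ≡ β j` at `V₁ = V∞`, and `j` is not a `q`-th power modulo
  `𝔪_{V₁'}` (helper83: `h83_inW_j_pow_sub`, `h83_beta_indep`); the witness for `α` at `V₃` is the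
  Fricke transform of the one for `β` at `V₁`.

The other inputs are fields of `PartVal` and `PartTable`, i.e. the leaves `LeafVal`, `LeafTable`.

Main statements:
* `partNV_NR_of`  : `Std → Objs → PartVal → PartTable → PartNV ∧ PartNR` (concrete arguments);
* `leafNV_of`     : `LeafVal → LeafTable → LeafNV`;
* `leafNR_of`     : `LeafVal → LeafTable → LeafNR`.
-/

set_option autoImplicit false
set_option linter.style.haveILetI false
set_option linter.unusedSectionVars false
set_option synthInstance.maxHeartbeats 400000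
set_option maxHeartbeats 1600000

noncomputable section

namespace Fermat.Agent.S36.Mod3.H657

open ModularCurve AlgebraicCurve
open Fermat.Agent.A2.Mod
open Fermat.Agent.S36.Eng

/-! ## Abstract preliminaries -/

section Abstract

/-- Non-units of a valuation subring, elementwise. -/
theorem mem_nonunits_iff_inv {F : Type*} [Field F] (V : ValuationSubring F) (x : F) :
    x ∈ V.nonunits ↔ x = 0 ∨ x⁻¹ ∉ V := by
  rw [ValuationSubring.mem_nonunits_iff]
  by_cases hx : x = 0
  · subst hx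
    simp
  · have hv : 0 < V.valuation x := by rw [Valuation.pos_iff]; exact hx
    rw [← V.valuation_le_one_iff, map_inv₀, not_le, one_lt_inv₀ hv]
    simp [hx]

/-- Non-units of the pull-back of a valuation subring along a homomorphism of fields. -/
theorem mem_nonunits_comap {K L : Type*} [Field K] [Field L] (V : ValuationSubring L)
    (f : K →+* L) (x : K) : x ∈ (V.comap f).nonunits ↔ f x ∈ V.nonunits := by
  rw [mem_nonunits_iff_inv, mem_nonunits_iff_inv, ValuationSubring.mem_comap, map_inv₀,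
    map_eq_zero]

/-- The degree along a degeneracy map is invariant under transport by automorphisms. -/
theorem finrankAlong_eq_of_equiv {K F F' : Type*} [Field K] [Field F] [Field F'] [Algebra K F]
    [Algebra K F'] (φ ψ : F →ₐ[K] F') (i : F ≃+* F) (j : F' ≃+* F')
    (h : ∀ f, ψ (i f) = j (φ f)) : finrankAlong K φ = finrankAlong K ψ := by
  unfold finrankAlong
  exact @Algebra.finrank_eq_of_equiv_equiv F F' _ _ (algebraAlong φ) F F' _ _ (algebraAlong ψ)
    i j (RingHom.ext fun f => h f)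

/-- Positive degree gives finiteness. -/
theorem finiteAlong_of_pos {K F F' : Type*} [Field K] [Field F] [Field F'] [Algebra K F]
    [Algebra K F'] (φ : F →ₐ[K] F') (h : 0 < finrankAlong K φ) : FiniteAlong K φ := by
  unfold FiniteAlong
  unfold finrankAlong at h
  letI := algebraAlong φ
  exact Module.finite_of_finrank_pos h

/-- `f ∈ ϖ V` with `ϖ` a non-unit: `f` is a non-unit. -/
theorem mem_nonunits_of_mul_inv_mem {F : Type*} [Field F] (V : ValuationSubring F) {f ϖ : F}
    (hϖ : ϖ ∈ V.nonunits) (hϖ0 : ϖ ≠ 0) (h : f * ϖ⁻¹ ∈ V) : f ∈ V.nonunits := by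
  rw [ValuationSubring.mem_nonunits_iff] at hϖ ⊢
  have h1 : V.valuation (f * ϖ⁻¹) ≤ 1 := (V.valuation_le_one_iff _).2 h
  have h2 : f = f * ϖ⁻¹ * ϖ := by rw [inv_mul_cancel_right₀ hϖ0]
  rw [h2, map_mul]
  calc V.valuation (f * ϖ⁻¹) * V.valuation ϖ ≤ 1 * V.valuation ϖ := by gcongr
    _ = V.valuation ϖ := one_mul _
    _ < 1 := hϖ

end Abstract

/-! ## The concrete inputs -/

section Concrete

variable {P : ValuationSubring Qb} {E : IntermediateField ℚ Qb} {M q : ℕ}
  [NeZero M] [NeZero q] [NeZero (M * q)]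

/-- `[F_{Mqq} : α F_{Mq}] = q`. -/
theorem deg_alpha (hq : q.Prime) : finrankAlong E (αE E (M * q) q) = q := by
  have h := Fermat.Agent.S37.H818.finrankAlong_heckeAlphaBar' (L := E) (M * q) q hq
  rw [if_pos (dvd_mul_left q M)] at h
  exact h

/-- `[F_{Mqq} : β F_{Mq}] = q` (Fricke transport of `deg_alpha`). -/
theorem deg_beta (hq : q.Prime) {W' : FE E (M * q) ≃ₐ[E] FE E (M * q)}
    {W : FE E (M * q * q) ≃ₐ[E] FE E (M * q * q)}
    (hW' : IsFricke E (M * q) W') (hW : IsFricke E (M * q * q) W) :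
    finrankAlong E (βE E (M * q) q) = q := by
  refine ((finrankAlong_eq_of_equiv (αE E (M * q) q) (βE E (M * q) q) W'.toRingEquiv
    W.toRingEquiv fun f => ?_).symm).trans (deg_alpha (E := E) (M := M) hq)
  exact ((H751.frickeCompat E (M * q) q W' W hW' hW f).1).symm

/-- `j` (level `N`) is not congruent modulo `𝔪_{V∞}` to an element of `β (V∞)` (level `N' q = N`):
the residue of `j` does not lie in the image of the residue field of the lower level. -/
theorem j_not_congr_beta (hdvr : IsDiscreteValuationRing (RE P E)) {w : RE P E}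
    (hw : Irreducible w) (hq : q.Prime)
    {VM : ValuationSubring (FE E M)} {V : ValuationSubring (FE E (M * q))}
    (hVM : IsVinf P E M VM) (hV : IsVinf P E (M * q) V) :
    ∀ a : FE E M, a ∈ VM →
      jE E (M * q) 1 (one_dvd _) - βE E M q a ∉ V.nonunits := by
  classical
  intro a ha hmem
  have hN : M * q ≠ 0 := mul_ne_zero (NeZero.ne M) (NeZero.ne q)
  obtain ⟨hunif, -, -⟩ := H708.vinfBasic P E w (M * q) hN hdvr hw V hV
  obtain ⟨hunifM, -, -⟩ := H708.vinfBasic P E w M (NeZero.ne M) hdvr hw VM hVM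
  -- the coefficients `(-a, 1, 0, …, 0)`
  let i0 : Fin q := ⟨0, hq.pos⟩
  let i1 : Fin q := ⟨1, hq.one_lt⟩
  have h01 : i0 ≠ i1 := by
    intro h
    have := congrArg Fin.val h
    simp [i0, i1] at this
  let c : Fin q → FE E M := fun i => if i = i0 then -a else if i = i1 then 1 else 0
  have hc : ∀ i, c i ∈ VM := by
    intro i
    simp only [c]
    split_ifs
    · exact VM.neg_mem _ ha
    · exact VM.one_mem
    · exact VM.zero_mem
  have hsum : (∑ i : Fin q, βE E M q (c i) * jE E (M * q) 1 (one_dvd _) ^ (i : ℕ))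
      = jE E (M * q) 1 (one_dvd _) - βE E M q a := by
    rw [Finset.sum_eq_add i0 i1 h01]
    · simp only [c, if_true, if_neg h01.symm, i0, i1]
      rw [map_neg, map_one]
      ring
    · intro k _ hk
      simp only [c, if_neg hk.1, if_neg hk.2, map_zero, zero_mul]
    · intro h; exact absurd (Finset.mem_univ _) h
    · intro h; exact absurd (Finset.mem_univ _) h
  have hInW : InW P E (M * q) V w
      (∑ i : Fin q, βE E M q (c i) * jE E (M * q) 1 (one_dvd _) ^ (i : ℕ)) := by
    rw [hsum]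
    unfold InW
    exact hunif.mul_inv_mem_iff.2 ((ValuationSubring.mem_nonunits_iff _).1 hmem)
  have h1 := Fermat.Agent.S36.H83.h83_beta_indep hdvr hw hVM hV c hc hInW i1
  have hci1 : c i1 = 1 := by simp only [c, if_neg h01.symm, if_true]
  rw [hci1] at h1
  unfold InW at h1
  rw [one_mul] at h1
  exact hunifM.inv_not_mem h1

/-- `j ^ q ≡ β j` modulo `𝔪_{V∞}`. -/
theorem j_pow_sub_beta_mem (hdvr : IsDiscreteValuationRing (RE P E)) {w : RE P E}
    (hw : Irreducible w) (hq : q.Prime) (hP : P.LiesOverPrime q)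
    {V : ValuationSubring (FE E (M * q))} (hV : IsVinf P E (M * q) V) :
    jE E (M * q) 1 (one_dvd _) ^ q - βE E M q (jE E M 1 (one_dvd _)) ∈ V.nonunits := by
  have hN : M * q ≠ 0 := mul_ne_zero (NeZero.ne M) (NeZero.ne q)
  obtain ⟨hunif, -, -⟩ := H708.vinfBasic P E w (M * q) hN hdvr hw V hV
  rw [Fermat.Agent.S36.H83.h83_beta_jE]
  have h := Fermat.Agent.S36.H83.h83_inW_j_pow_sub hdvr hw hq hP hV
  unfold InW at h
  exact (ValuationSubring.mem_nonunits_iff _).2 (hunif.mul_inv_mem_iff.1 h)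

end Concrete

/-! ## The leaves -/

section Leaves

variable {P : ValuationSubring Qb} {E : IntermediateField ℚ Qb} {M q : ℕ}
  [NeZero M] [NeZero q] [NeZero (M * q)]

/-- **NV and NR at the concrete objects**, from `PartVal` and `PartTable`. -/
theorem partNV_NR_of {w : RE P E} (hS : Std P E M q w)
    {V₁' V₂' : ValuationSubring (FE E (M * q))}
    {V₁ V₂ V₃ : ValuationSubring (FE E (M * q * q))}
    {W' : FE E (M * q) ≃ₐ[E] FE E (M * q)}
    {W : FE E (M * q * q) ≃ₐ[E] FE E (M * q * q)}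
    (hO : Objs P E M q V₁' V₂' V₁ V₂ V₃ W' W)
    (hVal : PartVal (R := RE P E) w q (x3E E M q) V₁ V₂ V₃)
    (hTab : PartTable (αE E (M * q) q) (βE E (M * q) q) V₁ V₂ V₃ V₁' V₂') :
    PartNV (R := RE P E) w q (αE E (M * q) q) (βE E (M * q) q) V₁ V₂ V₃ V₁' V₂' ∧
      PartNR q (αE E (M * q) q) (βE E (M * q) q) V₁ V₂ V₃ V₁' V₂' := by
  have hq : q.Prime := hS.q_prime
  have hdvr : IsDiscreteValuationRing (RE P E) := hS.unram.1.dvr
  have hw : Irreducible w := hS.unif
  have hP : P.LiesOverPrime q := hS.lies_over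
  have hN : M * q * q ≠ 0 := mul_ne_zero (NeZero.ne (M * q)) (NeZero.ne q)
  -- degrees
  have deg_α : finrankAlong E (αE E (M * q) q) = q := deg_alpha hq
  have deg_β : finrankAlong E (βE E (M * q) q) = q := deg_beta hq hO.fricke' hO.fricke
  have fin_α : FiniteAlong E (αE E (M * q) q) :=
    finiteAlong_of_pos _ (by rw [deg_α]; exact hq.pos)
  have fin_β : FiniteAlong E (βE E (M * q) q) :=
    finiteAlong_of_pos _ (by rw [deg_β]; exact hq.pos)
  -- constants
  have hαw : αE E (M * q) q (algebraMap (RE P E) (FE E (M * q)) w)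
      = algebraMap (RE P E) (FE E (M * q * q)) w :=
    Fermat.Agent.S36.H253.along_algebraMap _ w
  have hβw : βE E (M * q) q (algebraMap (RE P E) (FE E (M * q)) w)
      = algebraMap (RE P E) (FE E (M * q * q)) w :=
    Fermat.Agent.S36.H253.along_algebraMap _ w
  -- residue characteristic
  have hq₁ : ((q : ℕ) : FE E (M * q * q)) ∈ V₁.nonunits :=
    Fermat.Agent.S36.H83.h83_vinf_liesOver hdvr hP hO.vinf
  have hq₃ : ((q : ℕ) : FE E (M * q * q)) ∈ V₃.nonunits := by
    rw [hO.vzero, mem_nonunits_comap, map_natCast]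
    exact hq₁
  -- Fricke on the generators
  have hWj : W (jE E (M * q * q) (M * q * q) dvd_rfl) = jE E (M * q * q) 1 (one_dvd _) :=
    hO.fricke.1 (M * q * q) 1 dvd_rfl (one_dvd _) (mul_one _)
  have hW'j : W' (jE E (M * q) (M * q) dvd_rfl) = jE E (M * q) 1 (one_dvd _) :=
    hO.fricke'.1 (M * q) 1 dvd_rfl (one_dvd _) (mul_one _)
  have hcompat : ∀ f : FE E (M * q), W (αE E (M * q) q f) = βE E (M * q) q (W' f) :=
    fun f => (H751.frickeCompat E (M * q) q W' W hO.fricke' hO.fricke f).1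
  -- the witness for `β` at `V₁`
  obtain ⟨-, -, hj⟩ := H708.vinfBasic P E w (M * q * q) hN hdvr hw V₁ hO.vinf
  have hzβ : jE E (M * q * q) 1 (one_dvd _) ∈ V₁ := (hj 1 (one_dvd _)).1
  have hzcβ : jE E (M * q * q) 1 (one_dvd _) ^ q
      - βE E (M * q) q (jE E (M * q) 1 (one_dvd _)) ∈ V₁.nonunits :=
    j_pow_sub_beta_mem hdvr hw hq hP hO.vinf
  have hnpβ : ∀ a : FE E (M * q), a ∈ V₁' →
      a ^ q - jE E (M * q) 1 (one_dvd _) ∉ V₁'.nonunits :=
    Fermat.Agent.S36.H253.hnp_of_not_congr q (βE E (M * q) q) hq hTab.comap_β₁ hq₁ hzβ hzcβ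
      (j_not_congr_beta hdvr hw hq hO.vinf' hO.vinf)
  -- the witness for `α` at `V₃` (Fricke transform)
  have hzα : jE E (M * q * q) (M * q * q) dvd_rfl ∈ V₃ := by
    rw [hO.vzero, ValuationSubring.mem_comap]
    show W _ ∈ V₁
    rw [hWj]
    exact hzβ
  have hzcα : jE E (M * q * q) (M * q * q) dvd_rfl ^ q
      - αE E (M * q) q (jE E (M * q) (M * q) dvd_rfl) ∈ V₃.nonunits := by
    rw [hO.vzero, mem_nonunits_comap]
    show W _ ∈ V₁.nonunits
    rw [map_sub, map_pow, hWj, hcompat, hW'j]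
    exact hzcβ
  have hnpα : ∀ a : FE E (M * q), a ∈ V₂' →
      a ^ q - jE E (M * q) (M * q) dvd_rfl ∉ V₂'.nonunits := by
    intro a ha h
    rw [hO.vzero'] at ha h
    rw [mem_nonunits_comap] at h
    have h' : W' (a ^ q - jE E (M * q) (M * q) dvd_rfl) ∈ V₁'.nonunits := h
    rw [map_sub, map_pow, hW'j] at h'
    exact hnpβ (W' a) ha h'
  obtain ⟨h1, h2, h3, h4, h5, h6⟩ :=
    Fermat.Agent.S36.H253.eng_norm_six (R := RE P E) w q hq
      (αE E (M * q) q) (βE E (M * q) q) fin_α fin_β deg_α deg_β hαw hβw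
      hVal.dvr₁ hVal.dvr₃ hVal.ne₁₂ hVal.ne₂₃ hVal.unif₁ hVal.unif₃ hVal.ram₂
      hTab.comap_α₁ hTab.comap_α₂ hTab.comap_α₃ hTab.comap_β₁ hTab.comap_β₂ hTab.comap_β₃
      hq₁ hq₃ hzα hzcα hnpα hzβ hzcβ hnpβ
  exact ⟨⟨h1, h2⟩, ⟨h3, h4, h5, h6⟩⟩

/-- **`LeafNV`** from `LeafVal` and `LeafTable`. -/
theorem leafNV_of (hVal : LeafVal) (hTab : LeafTable) : LeafNV :=
  fun P E M q _ _ _ w hS V₁' V₂' V₁ V₂ V₃ W' W hO =>
    (partNV_NR_of hS hO (hVal P E M q w hS V₁' V₂' V₁ V₂ V₃ W' W hO)
      (hTab P E M q w hS V₁' V₂' V₁ V₂ V₃ W' W hO)).1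

/-- **`LeafNR`** from `LeafVal` and `LeafTable`. -/
theorem leafNR_of (hVal : LeafVal) (hTab : LeafTable) : LeafNR :=
  fun P E M q _ _ _ w hS V₁' V₂' V₁ V₂ V₃ W' W hO =>
    (partNV_NR_of hS hO (hVal P E M q w hS V₁' V₂' V₁ V₂ V₃ W' W hO)
      (hTab P E M q w hS V₁' V₂' V₁ V₂ V₃ W' W hO)).2

end Leaves

end Fermat.Agent.S36.Mod3.H657

end

end
-- ===== PACK-END S36/Mod3/H657/NormLeaf.lean

-- ===== PACK-BEGIN A2/Mod/H372/S3.lean
section



/-!
# A2 / MODASM sub-assembly S3 (helper372): ordinary double points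

`s3_of_leaves : (leaves L4, L5, L7, L8, L11, L12 + sub-assembly S2) → S3Statement P E M q w`
(`Fermat/Agent/A2/Mod/Asm.lean`, VERBATIM).  The leaves L2 (`H553.vinfBasic`) and L13
(`H873.chartCompat`) are used directly (on main).

Proof: `H372.KronCong.sup_isRadical` applied to the restrictions `α, β : B_M → B` of the two
degeneracy maps to the charts (`B_M` = chart of `j^{±1}` at level `M`, `B` = chart of `x^{±1}`
at level `Mq`):

* `KronCong` : L12 gives the Kronecker twist `a'` only in `V∞_M`; `GoodRedAt.normal` brings it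
  back into the chart (`SideData.cong`); on `C₀` one transports by the Fricke involutions
  (L4, L5, L7);
* `α` is onto `B ⧸ p∞` : L11 + `GoodRedAt.normal` (`SideData.surj`);
* the branch `B ⧸ p∞` is a Dedekind domain : S2 (normal), `B` noetherian (L8), dimension one.
-/

set_option autoImplicit false
set_option synthInstance.maxHeartbeats 400000
set_option maxHeartbeats 1600000
set_option linter.unusedSectionVars false
set_option linter.style.haveILetI false

noncomputable section

namespace Fermat.Agent.A2.Mod.H372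

open ModularCurve HahnSeries Polynomial

variable (P : ValuationSubring _root_.Fermat.Agent.A2.Mod.Qb) (E : IntermediateField ℚ _root_.Fermat.Agent.A2.Mod.Qb) (M q : ℕ) [NeZero M] [NeZero q]
  (w : _root_.Fermat.Agent.A2.Mod.RE P E)

/-- **S3 (ordinary double points)** from the leaves and S2. -/
theorem s3_of_leaves (hL4 : FrickeExistsStatement E) (hL5 : FrickeCompatStatement E M q)
    (hL7 : FrickeStableStatement P E M q w) (hL8 : DegStatement E M q)
    (hL11 : ResInfStatement P E M q w) (hL12 : KronStatement P E M q w)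
    (hS2 : S2Statement P E M q w) : S3Statement P E M q w := by
  intro hS VM V W hVM hV hW yM y hy hgood p₁ p₂ hc₁ hc₂
  have hC := coordFacts_of_isCoordPair w hS hVM hV hW hy
  obtain ⟨WM, hWM⟩ := hL4 M hS.M_ne_zero
  have hN := level_ne_zero w hS
  have hu := unifE w hS hN hV
  -- the restrictions of `α`, `β` to the charts
  let α' : chartAlg P E M yM →+* chartAlg P E (M * q) y :=
    ((αE E M q : _root_.Fermat.Agent.A2.Mod.FE E M →+* _root_.Fermat.Agent.A2.Mod.FE E (M * q)).comp
      ((chartAlg P E M yM).val : chartAlg P E M yM →+* _root_.Fermat.Agent.A2.Mod.FE E M)).codRestrict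
      (chartAlg P E (M * q) y) (fun a => alpha_chart_mem w hC a.2)
  let β' : chartAlg P E M yM →+* chartAlg P E (M * q) y :=
    ((βE E M q : _root_.Fermat.Agent.A2.Mod.FE E M →+* _root_.Fermat.Agent.A2.Mod.FE E (M * q)).comp
      ((chartAlg P E M yM).val : chartAlg P E M yM →+* _root_.Fermat.Agent.A2.Mod.FE E M)).codRestrict
      (chartAlg P E (M * q) y) (fun a => beta_chart_mem w hC a.2)
  have hKC : Fermat.Agent.A2.H372.KronCong q α' β' p₁ p₂ := by
    refine ⟨fun a => ?_, fun a => ?_⟩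
    · obtain ⟨a', ha', h⟩ := chart_cong₁ w hS hVM hV hC hgood hL12 a a.2
      exact ⟨⟨a', ha'⟩, (hc₁ _).mpr h⟩
    · obtain ⟨a', ha', h⟩ := chart_cong₂ w hS hVM hV hW hC hgood hL5 hL7 hL12 hWM a a.2
      exact ⟨⟨a', ha'⟩, (hc₂ _).mpr h⟩
  have hsurj := chart_surj w hS hVM hV hC hgood hL11
  have hα : ∀ b : chartAlg P E (M * q) y, ∃ a : chartAlg P E M yM, b - α' a ∈ p₁ := by
    intro b
    obtain ⟨-, a, ha, h⟩ := hsurj b b.2
    exact ⟨⟨a, ha⟩, (hc₁ _).mpr h⟩
  -- the branch is Dedekind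
  haveI hp₁ : p₁.IsPrime :=
    isPrime_of_isCut w hu (chartAlg P E (M * q) y) (fun b hb => (hsurj b hb).1) p₁ hc₁
  obtain ⟨hx, hfr, -⟩ := hL8 hS.q_prime hS.q_not_dvd
  have hpos : 0 < Module.finrank (IntermediateField.adjoin E ({xE E M q} : Set (_root_.Fermat.Agent.A2.Mod.FE E (M * q))))
      (_root_.Fermat.Agent.A2.Mod.FE E (M * q)) := by
    rw [hfr]
    have h1 := dedekindPsi_pos_of_ne_zero M hS.M_ne_zero
    positivity
  haveI hfin : FiniteDimensional (IntermediateField.adjoin E ({xE E M q} : Set (_root_.Fermat.Agent.A2.Mod.FE E (M * q))))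
      (_root_.Fermat.Agent.A2.Mod.FE E (M * q)) := Module.finite_of_finrank_pos hpos
  obtain ⟨hn₁, hn₂⟩ := isNoetherianRing_chartAlg_of_transcendental (P := P) hS.dvr (xE E M q) hx
  haveI hnoeth : IsNoetherianRing (chartAlg P E (M * q) y) := by
    rcases hy with ⟨-, rfl⟩ | ⟨-, rfl⟩
    · exact hn₁
    · exact hn₂
  haveI hic : IsIntegrallyClosed (chartAlg P E (M * q) y ⧸ p₁) :=
    (hS2 hS VM V W hVM hV hW yM y hy hgood p₁ p₂ hc₁ hc₂).1
  haveI := hS.dvr
  have hint : ∀ b : chartAlg P E (M * q) y,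
      (Polynomial.eval₂RingHom (algebraMap (_root_.Fermat.Agent.A2.Mod.RE P E) (chartAlg P E (M * q) y))
        (⟨y, self_mem_chartAlg (M * q) y⟩ : chartAlg P E (M * q) y)).IsIntegralElem b := by
    intro b
    obtain ⟨p, hp, hpb⟩ := mem_chartAlg_iff.mp b.2
    refine ⟨p, hp, Subtype.ext ?_⟩
    have hcomp : ((chartAlg P E (M * q) y).val : chartAlg P E (M * q) y →+* _root_.Fermat.Agent.A2.Mod.FE E (M * q)).comp
        (Polynomial.eval₂RingHom (algebraMap (_root_.Fermat.Agent.A2.Mod.RE P E) (chartAlg P E (M * q) y))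
          (⟨y, self_mem_chartAlg (M * q) y⟩ : chartAlg P E (M * q) y)) =
        Polynomial.eval₂RingHom (algebraMap (_root_.Fermat.Agent.A2.Mod.RE P E) (_root_.Fermat.Agent.A2.Mod.FE E (M * q))) y := by
      apply Polynomial.ringHom_ext
      · intro r
        simp only [RingHom.comp_apply, Polynomial.coe_eval₂RingHom, Polynomial.eval₂_C]
        rfl
      · simp
    have := Polynomial.hom_eval₂ p (Polynomial.eval₂RingHom (algebraMap (_root_.Fermat.Agent.A2.Mod.RE P E)
      (chartAlg P E (M * q) y)) (⟨y, self_mem_chartAlg (M * q) y⟩ : chartAlg P E (M * q) y))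
      ((chartAlg P E (M * q) y).val : chartAlg P E (M * q) y →+* _root_.Fermat.Agent.A2.Mod.FE E (M * q)) b
    rw [hcomp] at this
    rw [ZeroMemClass.coe_zero, ← hpb]
    exact this
  have hpR : ∀ r ∈ IsLocalRing.maximalIdeal (_root_.Fermat.Agent.A2.Mod.RE P E),
      algebraMap (_root_.Fermat.Agent.A2.Mod.RE P E) (chartAlg P E (M * q) y) r ∈ p₁ := by
    intro r hr
    rw [hS.unif.maximalIdeal_eq, Ideal.mem_span_singleton'] at hr
    obtain ⟨s, rfl⟩ := hr
    rw [hc₁]
    show cE P E (M * q) (s * w) * (cE P E (M * q) w)⁻¹ ∈ V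
    have hw0 := cE_ne_zero w hS (M * q)
    have e : cE P E (M * q) (s * w) * (cE P E (M * q) w)⁻¹ = cE P E (M * q) s := by
      have : cE P E (M * q) (s * w) = cE P E (M * q) s * cE P E (M * q) w :=
        map_mul (algebraMap (_root_.Fermat.Agent.A2.Mod.RE P E) (_root_.Fermat.Agent.A2.Mod.FE E (M * q))) s w
      rw [this, mul_assoc, mul_inv_cancel₀ hw0, mul_one]
    rw [e]
    exact cE_mem w hS hV s
  haveI : IsDedekindDomain (chartAlg P E (M * q) y ⧸ p₁) :=
    isDedekindDomain_quotient_of_integral _ _ hint p₁ hpR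
  exact sup_isRadical_of_quotient hS.q_prime.two_le hKC hα

end Fermat.Agent.A2.Mod.H372

end
end
-- ===== PACK-END A2/Mod/H372/S3.lean

-- ===== PACK-BEGIN S35/G/H862/ModelCore.lean
section



/-!
# S35, piece (G') — leaf MODEL, the charts with their cut data (helper862)

`exists_chart_cutBy` : from the sub-assemblies S1, S2, S3 of `A2/Mod/Asm.lean` the semistable chart
`SSChart w (chartAlg y)` TOGETHER with the description of its two components by the valuation rings
`V∞`, `V₀ = V∞ ∘ W` (`CutBy` of `S35/G/SpecLevel.lean`): `B ⊆ V∞`, `B ⊆ V₀`, `p∞ = B ∩ w V∞`,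
`p₀ = B ∩ w V₀`.  (`A2.Mod.nonempty_ssChart` forgets the cut data.)

`B ⊆ V∞, V₀`: `y = α(y_M) β(y_M)` and `W y` are products of `j_d^{±1}`, units of `V∞`
(`H372.CoordFacts`), and valuation rings are integrally closed (`H372.mem_of_isIntegralElem`).
-/

set_option autoImplicit false
set_option linter.style.haveILetI false
set_option linter.unusedSectionVars false
set_option synthInstance.maxHeartbeats 400000
set_option maxHeartbeats 1600000

noncomputable section

namespace Fermat.Agent.S35.G.H862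

open ModularCurve Fermat.Agent.A2.Mod

variable {A : ValuationSubring _root_.Fermat.Agent.S35.G.Qb} {E : IntermediateField ℚ _root_.Fermat.Agent.S35.G.Qb} {M q : ℕ} [NeZero M] [NeZero q]
  {w : RE A E}

/-- The chart of a coordinate `y ∈ {x, x⁻¹}` lies in `V∞`. -/
theorem chartAlg_le_vinf (hS : Setting A E M q w) {VM : ValuationSubring (FE E M)}
    {V : ValuationSubring (FE E (M * q))} {W : FE E (M * q) ≃ₐ[E] FE E (M * q)}
    (hVM : IsVinf A E M VM) (hV : IsVinf A E (M * q) V) (hW : IsFricke E (M * q) W)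
    {yM : FE E M} {y : FE E (M * q)} (hy : IsCoordPair E M q yM y) :
    ∀ b ∈ chartAlg A E (M * q) y, b ∈ V := by
  have hC := H372.coordFacts_of_isCoordPair w hS hVM hV hW hy
  have hyV : y ∈ V := by
    rw [hC.eq_mul]
    exact V.mul_mem _ _ (H372.alpha_mem hVM hV hC.mem) hC.beta_mem
  intro b hb
  exact H372.mem_of_isIntegralElem V (algebraMap (RE A E) (FE E (M * q))) y
    (fun r => H372.cE_mem w hS hV r) hyV (H372.mem_chartAlg_iff.mp hb)

/-- The chart of a coordinate `y ∈ {x, x⁻¹}` lies in `V₀ = V∞ ∘ W`. -/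
theorem chartAlg_le_vzero (hS : Setting A E M q w) {VM : ValuationSubring (FE E M)}
    {V : ValuationSubring (FE E (M * q))} {W : FE E (M * q) ≃ₐ[E] FE E (M * q)}
    (hVM : IsVinf A E M VM) (hV : IsVinf A E (M * q) V) (hW : IsFricke E (M * q) W)
    {yM : FE E M} {y : FE E (M * q)} (hy : IsCoordPair E M q yM y) :
    ∀ b ∈ chartAlg A E (M * q) y,
      b ∈ V.comap (W : FE E (M * q) →+* FE E (M * q)) := by
  have hC := H372.coordFacts_of_isCoordPair w hS hVM hV hW hy
  have hyV : y ∈ V.comap (W : FE E (M * q) →+* FE E (M * q)) := by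
    rw [ValuationSubring.mem_comap]
    show W y ∈ V
    rw [hC.eq_mul, map_mul]
    exact V.mul_mem _ _ hC.alpha_mem₀ hC.beta_mem₀
  intro b hb
  refine H372.mem_of_isIntegralElem (V.comap (W : FE E (M * q) →+* FE E (M * q)))
    (algebraMap (RE A E) (FE E (M * q))) y (fun r => ?_) hyV (H372.mem_chartAlg_iff.mp hb)
  rw [ValuationSubring.mem_comap]
  show W (cE A E (M * q) r) ∈ V
  have hWc : W (cE A E (M * q) r) = cE A E (M * q) r := W.commutes (r : E)
  rw [hWc]
  exact H372.cE_mem w hS hV r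

/-- **The semistable chart with its cut data**, from S1, S2, S3. -/
theorem exists_chart_cutBy (hS : Setting A E M q w)
    (hS1 : S1Statement A E M q w) (hS2 : S2Statement A E M q w) (hS3 : S3Statement A E M q w)
    (VM : ValuationSubring (FE E M)) (V : ValuationSubring (FE E (M * q)))
    (W : FE E (M * q) ≃ₐ[E] FE E (M * q))
    (hVM : IsVinf A E M VM) (hV : IsVinf A E (M * q) V) (hW : IsFricke E (M * q) W)
    (yM : FE E M) (y : FE E (M * q)) (hy : IsCoordPair E M q yM y)
    (hgood : GoodRedAt A E M w VM yM) :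
    ∃ c : A2.SSChart w (chartAlg A E (M * q) y),
      CutBy w (chartAlg A E (M * q) y) c V (V.comap (W : FE E (M * q) →+* FE E (M * q))) := by
  have hy' : IsCoord E M q y := by
    rcases hy with ⟨-, h⟩ | ⟨-, h⟩
    · exact Or.inl h
    · exact Or.inr h
  obtain ⟨p₁, p₂, hc₁, hc₂, hp₁, hp₂, h₁₂, h₂₁, hinf⟩ := hS1 hS V W hV hW y hy'
  obtain ⟨hn₁, hn₂⟩ := hS2 hS VM V W hVM hV hW yM y hy hgood p₁ p₂ hc₁ hc₂
  have hrad := hS3 hS VM V W hVM hV hW yM y hy hgood p₁ p₂ hc₁ hc₂
  refine ⟨{ p₁ := p₁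
            p₂ := p₂
            prime₁ := hp₁
            prime₂ := hp₂
            ne := fun h => h₁₂ (h ▸ le_refl p₁)
            not_le₁₂ := h₁₂
            not_le₂₁ := h₂₁
            inf_eq := hinf
            normal₁ := hn₁
            normal₂ := hn₂
            transversal := hrad }, ?_⟩
  exact
    { le₁ := chartAlg_le_vinf hS hVM hV hW hy
      le₂ := chartAlg_le_vzero hS hVM hV hW hy
      cut₁ := fun b => hc₁ b
      cut₂ := fun b => hc₂ b }

end Fermat.Agent.S35.G.H862

end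

end
-- ===== PACK-END S35/G/H862/ModelCore.lean

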