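import Fermat.Agent.Pack.S36.E18L0
import Fermat.Agent.Pack.S36.E7L1
import Fermat.Agent.Pack.S36.E18L3
import Fermat.Agent.Pack.S36.E18L1
import Fermat.Agent.Pack.S36.E6L1
import Fermat.Agent.Pack.S36.E3L1
import Fermat.Agent.Pack.S36.E3L0
import Fermat.Agent.Pack.S36.E14L3
import Fermat.Agent.Pack.S36.E14L1
import Fermat.Agent.Pack.S36.E9L0
import Fermat.Agent.Pack.S36.E18L2
import Fermat.Agent.Pack.S36.E16L3
import Fermat.Agent.Pack.S36.E13L0
import Fermat.Agent.Pack.S36.E7L3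
import Fermat.Agent.Pack.S36.E15L1
import Fermat.Agent.Pack.S36.E11L3
import Fermat.Agent.Pack.S36.E17L0
import Fermat.Agent.Pack.S36.E16L2
import Fermat.Agent.Pack.S36.E16L0
import Fermat.Agent.Pack.S36.E3L2

-- ===== PACK-BEGIN S30/H450/KumTower.lean
section
/-
S30 (p-adic version), helper450: the KUMMER TOWER from the pieces of S29 sub-layer M4b.

* `KumPackage N m` : the pieces of helper822's `M4b/Skeleton.lean` at the modulus `m`
  (existence, uniqueness, injectivity, additivity, Hecke-equivariance of `M4b.IsKum N m`).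
* `KumPackage.of_skeleton` : the package from statements in the EXACT shapes of the M4b skeleton
  (the Hecke piece is converted with the landed `HCoh` facts of helper149).
* `exists_kummerTower_of` : the conclusion of helper49's `SkeletonLat.exists_kummerTower`
  (maps `κ n` on characters mod `p ^ n`, additive, injective, `p • κ (n+1) c = κ n (c mod p ^ n)`,
  Hecke-equivariant), from `KumPackage N (p ^ n)` for all `n`; the tower compatibility is
  `isKum_red` of `KumCompat.lean`.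
-/



set_option autoImplicit false

noncomputable section

open ModularCurve AlgebraicCurve CongruenceSubgroup UpperHalfPlane
open scoped MatrixGroups Manifold

namespace Fermat.Agent.S30.H450

open Fermat.Agent.S24 Fermat.Agent.S29 Fermat.Agent.S29.M4b

/-- The pieces of S29 sub-layer M4b at the modulus `m`. -/
structure KumPackage (N m : ℕ) [NeZero N] : Prop where
  ex : ∀ c : G0 N → ZMod m, IsParHom c → ∃ x : JZero N, IsKum N m c x
  uniq : ∀ (c : G0 N → ZMod m) (x x' : JZero N), IsKum N m c x → IsKum N m c x' → x = x'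
  inj : ∀ c : G0 N → ZMod m, IsKum N m c (0 : JZero N) → c = 0
  add : ∀ (c c' : G0 N → ZMod m) (x x' : JZero N),
    IsKum N m c x → IsKum N m c' x' → IsKum N m (c + c') (x + x')
  hecke : ∀ ℓ : Nat.Primes, ¬ (ℓ : ℕ) ∣ N * m → ∀ (c : G0 N → ZMod m) (x : JZero N),
    IsParHom c → IsKum N m c x → IsKum N m (heckeCoh N ℓ c) (heckeOperatorBar N ℓ x)

section Skeleton

variable {N : ℕ} [NeZero N]

omit [NeZero N] in
/-- The transfer of `c` is `heckeCoh N ℓ c` (for `ℓ ∤ N` prime; landed `HCoh`). -/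
theorem isTransfer_heckeCoh_h450 {ℓ : ℕ} (hℓ : ℓ.Prime) (hℓN : ¬ ℓ ∣ N) {A : Type*}
    [AddCommMonoid A] (c : G0 N → A) : IsTransfer N ℓ c (heckeCoh N ℓ c) := by
  intro γ π δ hfac
  unfold heckeCoh
  refine Finset.sum_congr rfl fun i _ => ?_
  rw [H149.HCoh_heckeFac_unique hℓ hℓN (hfac i)]

omit [NeZero N] in
/-- Existence of the Hecke factorisation with a permutation of the indices (landed `HCoh`). -/
theorem exists_perm_factor_h450 {ℓ : ℕ} (hℓ : ℓ.Prime) (hℓN : ¬ ℓ ∣ N) (γ : G0 N) :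
    ∃ (π : Equiv.Perm (Option (Fin ℓ))) (δ : Option (Fin ℓ) → G0 N),
      ∀ i, IsHeckeFactor ℓ γ i (π i, δ i) :=
  ⟨H149.HCoh_perm (H149.HCoh_isFactorSystem hℓ hℓN) γ, fun i => (heckeFac N ℓ γ i).2,
    fun i => H149.HCoh_heckeFac_spec hℓ hℓN γ i⟩

/-- The package at the modulus `m` from statements in the EXACT shapes of
`Fermat/Agent/S29/M4b/Skeleton.lean` (`isKum_exists`, `isKum_unique`, `isKum_zero_right`,
`isKum_add`, `isKum_hecke`). -/
theorem KumPackage.of_skeleton {m : ℕ}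
    (hex : ∀ {c : G0 N → ZMod m}, IsParHom c → ∃ x : JZero N, IsKum N m c x)
    (huniq : ∀ {c : G0 N → ZMod m} {x x' : JZero N}, IsKum N m c x → IsKum N m c x' → x = x')
    (hinj : ∀ {c : G0 N → ZMod m}, IsKum N m c (0 : JZero N) → c = 0)
    (hadd : ∀ {c c' : G0 N → ZMod m} {x x' : JZero N},
      IsKum N m c x → IsKum N m c' x' → IsKum N m (c + c') (x + x'))
    (hhecke : ∀ (ℓ : Nat.Primes), ¬ (ℓ : ℕ) ∣ N * m →
      (∀ γ : G0 N, ∃ (π : Equiv.Perm (Option (Fin (ℓ : ℕ)))) (δ : Option (Fin (ℓ : ℕ)) → G0 N),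
        ∀ i, IsHeckeFactor (ℓ : ℕ) γ i (π i, δ i)) →
      ∀ {c c' : G0 N → ZMod m}, IsParHom c → IsTransfer N (ℓ : ℕ) c c' →
      ∀ {x : JZero N}, IsKum N m c x → IsKum N m c' (heckeOperatorBar N ℓ x)) :
    KumPackage N m where
  ex _ hc := hex hc
  uniq _ _ _ h h' := huniq h h'
  inj _ h := hinj h
  add _ _ _ _ h h' := hadd h h'
  hecke ℓ hℓ c x hc h := by
    have hℓN : ¬ (ℓ : ℕ) ∣ N := fun hd => hℓ (Dvd.dvd.mul_right hd m)
    exact hhecke ℓ hℓ (exists_perm_factor_h450 ℓ.2 hℓN) hc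
      (isTransfer_heckeCoh_h450 ℓ.2 hℓN c) h

end Skeleton

section Tower

variable (N : ℕ) [NeZero N] (p : ℕ)

open Classical in
/-- The Kummer tower: `kumTower N p n c` is THE Kummer class of the character `c` mod `p ^ n`
(and `0` if there is none). -/
def kumTower (n : ℕ) (c : G0 N → ZMod (p ^ n)) : JZero N :=
  if h : ∃ x : JZero N, IsKum N (p ^ n) c x then h.choose else 0

variable {N p}

theorem isKum_kumTower (H : ∀ n, KumPackage N (p ^ n)) {n : ℕ} {c : G0 N → ZMod (p ^ n)}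
    (hc : IsParHom c) : IsKum N (p ^ n) c (kumTower N p n c) := by
  have h := (H n).ex c hc
  rw [kumTower, dif_pos h]
  exact h.choose_spec

theorem kumTower_eq (H : ∀ n, KumPackage N (p ^ n)) {n : ℕ} {c : G0 N → ZMod (p ^ n)}
    {x : JZero N} (h : IsKum N (p ^ n) c x) : kumTower N p n c = x := by
  have h' : ∃ x : JZero N, IsKum N (p ^ n) c x := ⟨x, h⟩
  rw [kumTower, dif_pos h']
  exact (H n).uniq c _ _ h'.choose_spec h

theorem not_dvd_mul_pow {ℓ : ℕ} (hℓ : ℓ.Prime) {N p : ℕ} (h : ¬ ℓ ∣ N * p) (n : ℕ) :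
    ¬ ℓ ∣ N * p ^ n := by
  intro hd
  rcases (Nat.Prime.dvd_mul hℓ).1 hd with h1 | h1
  · exact h (Dvd.dvd.mul_right h1 p)
  · exact h (Dvd.dvd.mul_left (hℓ.dvd_of_dvd_pow h1) N)

/-- **The Kummer tower** (conclusion of helper49's `SkeletonLat.exists_kummerTower`, with the
extra information that `κ n c` IS the Kummer class of `c`), from the M4b pieces at all moduli
`p ^ n`. -/
theorem exists_kummerTower_isKum_of [NeZero p] (H : ∀ n, KumPackage N (p ^ n)) :
    ∃ κ : (n : ℕ) → (G0 N → ZMod (p ^ n)) → JZero N,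
      (∀ n c, IsParHom c → IsKum N (p ^ n) c (κ n c)) ∧
      (∀ n c c', IsParHom c → IsParHom c' → κ n (c + c') = κ n c + κ n c') ∧
      (∀ n c, IsParHom c → κ n c = 0 → c = 0) ∧
      (∀ (n : ℕ) (c : G0 N → ZMod (p ^ (n + 1))), IsParHom c →
        (p : ℤ) • κ (n + 1) c =
          κ n (fun γ => ZMod.castHom (pow_dvd_pow p (Nat.le_succ n)) (ZMod (p ^ n)) (c γ))) ∧
      (∀ ℓ : Nat.Primes, ¬ (ℓ : ℕ) ∣ N * p → ∀ n c, IsParHom c →
        κ n (heckeCoh N ℓ c) = heckeOperatorBar N ℓ (κ n c)) := by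
  refine ⟨kumTower N p, fun n c hc => isKum_kumTower H hc, fun n c c' hc hc' => ?_,
    fun n c hc h0 => ?_, fun n c hc => ?_, fun ℓ hℓ n c hc => ?_⟩
  · exact kumTower_eq H ((H n).add c c' _ _ (isKum_kumTower H hc) (isKum_kumTower H hc'))
  · have h := isKum_kumTower H hc
    rw [h0] at h
    exact (H n).inj c h
  · have h := isKum_kumTower H hc
    have h1 := isKum_red' (m := p ^ n) (d := p) (pow_succ p n)
      (pow_dvd_pow p (Nat.le_succ n)) h
    rw [natCast_zsmul]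
    exact (kumTower_eq H h1).symm
  · exact kumTower_eq H ((H n).hecke ℓ (not_dvd_mul_pow ℓ.2 hℓ n) c _ hc (isKum_kumTower H hc))

/-- **The Kummer tower**, EXACT conclusion of helper49's `SkeletonLat.exists_kummerTower`. -/
theorem exists_kummerTower_of [NeZero p] (H : ∀ n, KumPackage N (p ^ n)) :
    ∃ κ : (n : ℕ) → (G0 N → ZMod (p ^ n)) → JZero N,
      (∀ n c c', IsParHom c → IsParHom c' → κ n (c + c') = κ n c + κ n c') ∧
      (∀ n c, IsParHom c → κ n c = 0 → c = 0) ∧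
      (∀ (n : ℕ) (c : G0 N → ZMod (p ^ (n + 1))), IsParHom c →
        (p : ℤ) • κ (n + 1) c =
          κ n (fun γ => ZMod.castHom (pow_dvd_pow p (Nat.le_succ n)) (ZMod (p ^ n)) (c γ))) ∧
      (∀ ℓ : Nat.Primes, ¬ (ℓ : ℕ) ∣ N * p → ∀ n c, IsParHom c →
        κ n (heckeCoh N ℓ c) = heckeOperatorBar N ℓ (κ n c)) := by
  obtain ⟨κ, -, h1, h2, h3, h4⟩ := exists_kummerTower_isKum_of H
  exact ⟨κ, h1, h2, h3, h4⟩

end Tower

end Fermat.Agent.S30.H450

end
end
-- ===== PACK-END S30/H450/KumTower.lean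

-- ===== PACK-BEGIN S30/H810/RevDict.lean
section
/-
S30 / piece FIN-ONTO (helper810), part 2: the REVERSE DICTIONARY.

If `u ∈ FF N` is realised by the good function `G` and `p ∣ ord_v u` at every place `v` of
`FF N / ℚ̄`, then `p ∣ ord_τ G` at EVERY point `τ ∈ ℍ`.

Proof: the Taylor embedding `σ_τ : FF N → ℂ((z))` either is trivial (all orders `0`; this is the
case of transcendental `j(τ)`) or defines a place `v_τ` with `ord ∘ σ_τ = k * ord_{v_τ}`
(`S24.H117.exists_mult`).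
-/


set_option autoImplicit false
set_option linter.unusedSectionVars false

noncomputable section

open ModularCurve AlgebraicCurve CongruenceSubgroup UpperHalfPlane HahnSeries
open scoped MatrixGroups Manifold

namespace Fermat.Agent.S30.H810

open Fermat.Agent.S24 Fermat.Agent.S24.H648 Fermat.Agent.S24.H708 Fermat.Agent.S24.Deg457
open Fermat.Agent.S24.H624 Fermat.Agent.S24.H997 Fermat.Agent.S29 Fermat.Agent.S29.M4b
open Fermat.Agent.S29.H882

variable {N : ℕ} [NeZero N]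

theorem eord_sigmaTau_algebraMap (τ : ℍ) (c : Kbar) :
    H117.eord (sigmaTau N τ) (algebraMap Kbar (FF N) c) = 0 := by
  rw [H117.eord, sigmaTau_algebraMap, HahnSeries.order_C]

/-- the order of the Taylor embedding of a realised element is the analytic order -/
theorem eord_sigmaTau_of_realises {u : FF N} {G : ℍ → ℂ} (hG : Realises N u G)
    (τ : ℍ) {n : ℕ} (hn : ordAt τ G = (n : ℕ∞)) :
    H117.eord (sigmaTau N τ) u = (n : ℤ) := by
  have hmd : G ∈ holoRing := hG.1.1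
  rw [H117.eord, sigmaTau_of_realises hG hmd τ, taylorLaurent_apply]
  apply order_ofPowerSeries
  rw [order_taylorAt]
  exact hn

theorem realises_ne_zero {u : FF N} {G : ℍ → ℂ} (hG : Realises N u G) (hu : u ≠ 0) : G ≠ 0 := by
  intro h0
  have h := Realises.hasQExp hG
  have h1 : coeffMap iotaC ((u : FF N) : LaurentSeries Kbar) = 0 := (h.eq_zero_iff).mpr h0
  apply hu
  apply Subtype.ext
  apply coeffMap_iotaC_injective
  rw [h1]
  simp

/-- **REVERSE DICTIONARY.** -/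
theorem exists_analyticOrderAt_eq_mul {u : FF N} {G : ℍ → ℂ} (hG : Realises N u G) (hu : u ≠ 0)
    (p : ℕ) (hp : p ≠ 0) (hdiv : ∀ v : Place Kbar (FF N), (p : ℤ) ∣ v.ord u) (τ : ℍ) :
    ∃ m : ℕ, analyticOrderAt (G ∘ ofComplex) (τ : ℂ) = ((p * m : ℕ) : ℕ∞) := by
  have hmd : MDiff G := hG.1.1
  have hG0 : G ≠ 0 := realises_ne_zero hG hu
  have htop : ordAt τ G ≠ ⊤ := ordAt_ne_top hmd hG0 τ
  obtain ⟨n, hn⟩ := ENat.ne_top_iff_exists.mp htop
  have hord : H117.eord (sigmaTau N τ) u = (n : ℤ) := eord_sigmaTau_of_realises hG τ hn.symm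
  rw [← ordAt_def, ← hn]
  by_cases hnt : ∃ t : FF N, H117.eord (sigmaTau N τ) t ≠ 0
  · obtain ⟨k, hk, h⟩ := H117.exists_mult (K := Kbar) (sigmaTau N τ)
      (fun c => (eord_sigmaTau_algebraMap τ c).ge) hnt
    obtain ⟨j, hj⟩ := hdiv (H117.placeOfEmb (sigmaTau N τ)
      (fun c => (eord_sigmaTau_algebraMap τ c).ge) hnt)
    have h1 := h u
    rw [hord, hj] at h1
    have hk' : (0 : ℤ) < k := by exact_mod_cast hk
    have hp' : (0 : ℤ) < p := by exact_mod_cast Nat.pos_of_ne_zero hp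
    have hj0 : 0 ≤ j := by
      by_contra hneg
      push Not at hneg
      have : (k : ℤ) * (p * j) < 0 :=
        mul_neg_of_pos_of_neg hk' (mul_neg_of_pos_of_neg hp' hneg)
      omega
    refine ⟨k * j.toNat, ?_⟩
    have h2 : (n : ℤ) = ((p * (k * j.toNat) : ℕ) : ℤ) := by
      push_cast
      rw [Int.toNat_of_nonneg hj0, h1]
      ring
    have h3 : n = p * (k * j.toNat) := by exact_mod_cast h2
    rw [h3]
  · push Not at hnt
    have h1 := hnt u
    rw [hord] at h1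
    have h3 : n = 0 := by exact_mod_cast h1
    exact ⟨0, by rw [h3]; simp⟩

end Fermat.Agent.S30.H810

end
end
-- ===== PACK-END S30/H810/RevDict.lean

-- ===== PACK-BEGIN S29/H102/KUniq.lean
section
/-
S29 / M4b / PIECE `K4-UNIQ` (helper102): the Kummer class of a character is unique.

EXACT statement of `origin/helper822:Fermat/Agent/S29/M4b/Skeleton.lean` (`isKum_unique`):

    theorem isKum_unique (N : ℕ) [NeZero N] (p : ℕ) [NeZero p] {c : G0 N → ZMod p}
        {x x' : JZero N} (h : IsKum N p c x) (h' : IsKum N p c x') : x = x'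

Proof.  Data `(f, t, U)`, `(f', t', U')`.  `V := U * U' ^ (p-1)` has trivial character and
`V ^ p = U ^ p * (U' ^ p) ^ (p-1)` is good, so `V` is good and realises a `p`-th root `v ∈ FF N`
of `w := (f t^p) (f' t'^p)^(p-1)` (`KBasic_exists_root`: MERO + root descent + coefficient
descent).  Hence `f * f' ^ (p-1) = (v / (t * t' ^ (p-1))) ^ p`, so `x + (p-1) • x' = 0`; as
`p • x' = 0` we get `x = x'`.
-/


set_option autoImplicit false

noncomputable section

open ModularCurve AlgebraicCurve CongruenceSubgroup UpperHalfPlane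
open scoped MatrixGroups Manifold

namespace Fermat.Agent.S29.H102

open Fermat.Agent.S24 Fermat.Agent.S29 Fermat.Agent.S29.M4b
open Fermat.Agent.S24.H648 Fermat.Agent.S24.H708

section Algebra

variable {K F : Type*} [Field K] [Field F] [Algebra K F]

/-- Kummer classes of powers. -/
theorem KUniq_isKummerClass_pow {n : ℤ} {g : F} {y : Pic0 K F}
    (h : H455.IsKummerClass n g y) (k : ℕ) : H455.IsKummerClass n (g ^ k) (k • y) := by
  induction k with
  | zero =>
    rw [pow_zero, zero_nsmul]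
    exact H455.IsKummerClass.zero
  | succ k ih =>
    rw [pow_succ, succ_nsmul]
    exact ih.add h

/-- The Kummer class of an `n`-th power is trivial. -/
theorem KUniq_eq_zero_of_pow {p : ℕ} (hp : p ≠ 0) {g : F} (hg : g ≠ 0) {y : Pic0 K F}
    (h : H455.IsKummerClass (p : ℤ) (g ^ p) y) : y = 0 := by
  have hn : (p : ℤ) ≠ 0 := Int.natCast_ne_zero.mpr hp
  rw [h.eq_zero_iff hn]
  refine ⟨g, hg, fun v => ?_⟩
  rw [← zpow_natCast, Place.ord_zpow]

end Algebra

variable (N : ℕ) [NeZero N] (p : ℕ) [NeZero p]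

omit [NeZero N] in
/-- The product `U * U' ^ (p-1)` of two twisted functions of the same character is
`Γ₀(N)`-invariant. -/
theorem KUniq_invariant {c : G0 N → ZMod p} {U U' : ℍ → ℂ} (hU : HasChar N p c U)
    (hU' : HasChar N p c U') (γ : SL(2, ℤ)) (hγ : γ ∈ Gamma0 N) (τ : ℍ) :
    U (γ • τ) * U' (γ • τ) ^ (p - 1) = U τ * U' τ ^ (p - 1) := by
  have h1 := hU ⟨γ, hγ⟩ τ
  have h2 := hU' ⟨γ, hγ⟩ τ
  simp only at h1 h2
  rw [h1, h2, mul_pow]
  have hp : p - 1 + 1 = p := Nat.sub_add_cancel (Nat.one_le_iff_ne_zero.mpr (NeZero.ne p))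
  have h3 : zetaP p ^ (c ⟨γ, hγ⟩).val * (zetaP p ^ (c ⟨γ, hγ⟩).val) ^ (p - 1) = 1 := by
    rw [← pow_succ', hp, ← pow_mul, mul_comm, pow_mul, KBasic_zetaP_pow, one_pow]
  calc zetaP p ^ (c ⟨γ, hγ⟩).val * U τ * ((zetaP p ^ (c ⟨γ, hγ⟩).val) ^ (p - 1) * U' τ ^ (p - 1))
      = (zetaP p ^ (c ⟨γ, hγ⟩).val * (zetaP p ^ (c ⟨γ, hγ⟩).val) ^ (p - 1))
          * (U τ * U' τ ^ (p - 1)) := by ring
    _ = U τ * U' τ ^ (p - 1) := by rw [h3, one_mul]

/-- **PIECE `K4-UNIQ`.** -/
theorem isKum_unique {c : G0 N → ZMod p} {x x' : JZero N}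
    (h : IsKum N p c x) (h' : IsKum N p c x') : x = x' := by
  obtain ⟨f, t, U, ht, hx, hU, hR⟩ := h
  obtain ⟨f', t', U', ht', hx', hU', hR'⟩ := h'
  have hp : p ≠ 0 := NeZero.ne p
  have hp1 : p - 1 + 1 = p := Nat.sub_add_cancel (Nat.one_le_iff_ne_zero.mpr hp)
  -- the invariant function
  set V : ℍ → ℂ := fun τ => U τ * U' τ ^ (p - 1) with hVdef
  have hVmd : MDifferentiable 𝓘(ℂ) 𝓘(ℂ) V := hU.mdiff.mul (hU'.mdiff.pow (p - 1))
  have hVinv : ∀ γ ∈ Gamma0 N, ∀ τ : ℍ, V (γ • τ) = V τ := fun γ hγ τ =>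
    KUniq_invariant N p hU.hasChar hU'.hasChar γ hγ τ
  have hVfun : (fun τ => V τ ^ p)
      = (fun τ => U τ ^ p) * (fun τ => U' τ ^ p) ^ (p - 1) := by
    funext τ
    simp only [hVdef, Pi.mul_apply, Pi.pow_apply]
    rw [mul_pow, ← pow_mul, ← pow_mul, mul_comm (p - 1) p]
  have hVpow : (fun τ => V τ ^ p) ∈ goodRing N := by
    rw [hVfun]
    exact (goodRing N).mul_mem hR.1 ((goodRing N).pow_mem hR'.1 _)
  have hVgood : V ∈ goodRing N := KBasic_mem_goodRing_of_pow hp hVmd hVinv hVpow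
  -- the algebraic function realised by `V ^ p`
  set w : FF N := (f * t ^ p) * (f' * t' ^ p) ^ (p - 1) with hwdef
  have hw : Realises N w (fun τ => V τ ^ p) := by
    refine ⟨hVpow, ?_⟩
    have h1 := (KBasic_realises_hasQExp hR).mul ((KBasic_realises_hasQExp hR').pow (p - 1))
    rw [← hVfun] at h1
    rw [h1.qexpFun_eq, hwdef]
    simp only [MulMemClass.coe_mul, SubmonoidClass.coe_pow, map_mul, map_pow]
  obtain ⟨v, hvp, -⟩ := KBasic_exists_root hp hVgood hw
  -- `f * f' ^ (p-1)` is a `p`-th power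
  have hf0 : f ≠ 0 := hx.ne_zero
  have hf0' : f' ≠ 0 := hx'.ne_zero
  have hd0 : t * t' ^ (p - 1) ≠ 0 := mul_ne_zero ht (pow_ne_zero _ ht')
  have hv0 : v ≠ 0 := by
    intro h0
    have : w = 0 := by rw [← hvp, h0, zero_pow hp]
    rw [hwdef] at this
    exact (mul_ne_zero (mul_ne_zero hf0 (pow_ne_zero _ ht))
      (pow_ne_zero _ (mul_ne_zero hf0' (pow_ne_zero _ ht')))) this
  have hg0 : v / (t * t' ^ (p - 1)) ≠ 0 := div_ne_zero hv0 hd0
  have hpow : f * f' ^ (p - 1) = (v / (t * t' ^ (p - 1))) ^ p := by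
    rw [div_pow, hvp, hwdef, eq_div_iff (pow_ne_zero _ hd0)]
    ring
  have hcl : H455.IsKummerClass (p : ℤ) (f * f' ^ (p - 1)) (x + (p - 1) • x') :=
    hx.add (KUniq_isKummerClass_pow hx' (p - 1))
  rw [hpow] at hcl
  have hzero : x + (p - 1) • x' = 0 := KUniq_eq_zero_of_pow hp hg0 hcl
  have hpx' : p • x' = 0 := by
    have := hx'.zsmul_eq_zero
    rwa [natCast_zsmul] at this
  have h2 : (p - 1) • x' + x' = 0 := by
    rw [← succ_nsmul, hp1]
    exact hpx'
  have h3 : (p - 1) • x' = -x' := eq_neg_of_add_eq_zero_left h2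
  rw [h3] at hzero
  exact eq_of_sub_eq_zero (by rw [sub_eq_add_neg]; exact hzero)

end Fermat.Agent.S29.H102

end
end
-- ===== PACK-END S29/H102/KUniq.lean

-- ===== PACK-BEGIN S36/H919/SheetsTop.lean
section



/-!
# S36 engine, ALG3 gap lemma G2 = SHEETS (helper919): `V₁, V₂, V₃` are exactly the sheets

Setting of `Eng.Alg3Statement`: `R` a henselian DVR with algebraically closed residue field of
characteristic `q`, uniformiser `w`, `E = Frac R` of characteristic `0`, `F`, `F'` fields over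
`E`, `α, β : F' → F`.  The hypotheses are FIELDS of `Eng.TripleCtx`, passed one by one
(`hw_i` = first half of `unif₁`, `unif₃`, and `ram₂`; `hx_i` = first half of `x_unit_i`;
`hα`, `hβ` = `comap_α₁ ▸ comap_α₂`, `comap_β₂ ▸ comap_β₃`; `hint_α`, `hint_β` = `int_α`, `int_β`
at `b = x`).

* **`h919_sheets`** : `V₁`, `V₂`, `V₃` are sheets (`A2.H12.IsSheet w x`), and every sheet is one
  of them.
* `h919_transcendental`, `h919_finiteDimensional` : the coordinate hypotheses of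
  `S36.H193.exists_pow_eq_of_base` from `TripleCtx.hx`, `TripleCtx.hfin`.
* `h919_unif_of_unifAt`, `h919_disc_of_dvr` : the hypotheses `hunif`, `hdisc` of
  `S36.H193.exists_pow_eq_of_base` for `V₀ = V₁`.

Proof of `h919_sheets`: `R ⊆ V_i` because units of `R` are infinitely divisible
(`SheetsBase.lean`); every sheet is some `V_i` by `Qep3` (`Sheets.lean`); there is a sheet
(`H193.sheets_nonempty`); being a sheet propagates between `V₁` and `V₂` (same restriction along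
`α`) and between `V₂` and `V₃` (same restriction along `β`) (`SheetsProp.lean`).
-/

set_option autoImplicit false
set_option linter.style.haveILetI false
set_option linter.unusedSectionVars false

namespace Fermat.Agent.S36.H919

open Polynomial
open Fermat.Agent.A2.H12 (IsSheet)
open Fermat.Agent.S18.H138
open Fermat.Agent.S36.H193

universe u

section Top

variable {R : Type u} [CommRing R] [IsDomain R] [IsDiscreteValuationRing R]
  [HenselianLocalRing R] [IsAlgClosed (IsLocalRing.ResidueField R)]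
variable (E : Type u) [Field E] [CharZero E] [Algebra R E] [IsFractionRing R E]
variable {F : Type u} [Field F] [Algebra E F] [Algebra R F] [IsScalarTower R E F]
variable {F' : Type u} [Field F'] [Algebra E F'] [Algebra R F'] [IsScalarTower R E F']

include E in
/-- `x` transcendental over `E = Frac R` is transcendental over `R`. -/
theorem h919_transcendental {x : F} (hx : Transcendental E x) : Transcendental R x :=
  hx.restrictScalars (IsFractionRing.injective R E)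

include E in
/-- `F` finite over `E(x)` is finite over `baseField R x`. -/
theorem h919_finiteDimensional {x : F}
    (hfin : FiniteDimensional (IntermediateField.adjoin E ({x} : Set F)) F) :
    FiniteDimensional (baseField R x) F :=
  haveI := hfin
  Fermat.Agent.A2.H313.finiteDimensional_baseField_of_adjoin E x

include E in
theorem h919_injective : Function.Injective (algebraMap R F) := by
  rw [IsScalarTower.algebraMap_eq R E F]
  exact (algebraMap E F).injective.comp (IsFractionRing.injective R E)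

include E in
/-- **G2 = SHEETS.**  In a three-component context the valuation subrings `V₁`, `V₂`, `V₃` are
sheets of `F` over the Gauss valuation of `R[x]`, and there is no other sheet. -/
theorem h919_sheets (w : R) (hw : Irreducible w) {q : ℕ} (hq : q.Prime)
    (hqR : (q : R) ∈ IsLocalRing.maximalIdeal R)
    (α β : F' →ₐ[E] F) {x : F} {x' : F'}
    (hx : Transcendental E x)
    (hfin : FiniteDimensional (IntermediateField.adjoin E ({x} : Set F)) F)
    (V₁ V₂ V₃ : ValuationSubring F)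
    (dvr₁ : IsDiscreteValuationRing V₁) (dvr₂ : IsDiscreteValuationRing V₂)
    (dvr₃ : IsDiscreteValuationRing V₃)
    (hw₁ : algebraMap R F w ∈ V₁.nonunits) (hw₂ : algebraMap R F w ∈ V₂.nonunits)
    (hw₃ : algebraMap R F w ∈ V₃.nonunits)
    (hx₁ : x ∈ V₁) (hx₂ : x ∈ V₂) (hx₃ : x ∈ V₃)
    (hqep : ∀ b : chart R ({x} : Set F), (b : F) * (algebraMap R F w)⁻¹ ∈ V₁ →
      (b : F) * (algebraMap R F w)⁻¹ ∈ V₂ → (b : F) * (algebraMap R F w)⁻¹ ∈ V₃ →
      ∃ c : chart R ({x} : Set F), b = algebraMap R (chart R ({x} : Set F)) w * c)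
    (hα : V₁.comap (α : F' →+* F) = V₂.comap (α : F' →+* F))
    (hβ : V₂.comap (β : F' →+* F) = V₃.comap (β : F' →+* F))
    (chart_α : ∀ b ∈ chart R ({x'} : Set F'), α b ∈ chart R ({x} : Set F))
    (chart_β : ∀ b ∈ chart R ({x'} : Set F'), β b ∈ chart R ({x} : Set F))
    (hint_α : ∃ p : F'[X], p.Monic ∧ (∀ i, p.coeff i ∈ chart R ({x'} : Set F')) ∧
      (p.map (α : F' →+* F)).eval x = 0)
    (hint_β : ∃ p : F'[X], p.Monic ∧ (∀ i, p.coeff i ∈ chart R ({x'} : Set F')) ∧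
      (p.map (β : F' →+* F)).eval x = 0) :
    (IsSheet w x V₁ ∧ IsSheet w x V₂ ∧ IsSheet w x V₃) ∧
      ∀ W : ValuationSubring F, IsSheet w x W → W = V₁ ∨ W = V₂ ∨ W = V₃ := by
  haveI := dvr₁
  haveI := dvr₂
  haveI := dvr₃
  haveI : CharZero F := charZero_of_injective_algebraMap (algebraMap E F).injective
  have hinj : Function.Injective (algebraMap R F) := h919_injective E
  have hxR : Transcendental R x := h919_transcendental E hx
  haveI : FiniteDimensional (baseField R x) F := h919_finiteDimensional E hfin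
  have hwp : Prime w := hw.prime
  -- `R ⊆ V_i`
  have hR₁ : ∀ r : R, algebraMap R F r ∈ V₁ :=
    h919_algebraMap_mem_of_dvr hq.pos hqR hw V₁ (V₁.nonunits_subset hw₁)
  have hR₂ : ∀ r : R, algebraMap R F r ∈ V₂ :=
    h919_algebraMap_mem_of_dvr hq.pos hqR hw V₂ (V₂.nonunits_subset hw₂)
  have hR₃ : ∀ r : R, algebraMap R F r ∈ V₃ :=
    h919_algebraMap_mem_of_dvr hq.pos hqR hw V₃ (V₃.nonunits_subset hw₃)
  -- the chart lies in `V_i`
  have hB₁ : ∀ c ∈ chart R ({x} : Set F), c ∈ V₁ := fun c hc =>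
    h919_chart_le V₁ hR₁ (fun t ht => by rw [Set.mem_singleton_iff.1 ht]; exact hx₁) hc
  have hB₂ : ∀ c ∈ chart R ({x} : Set F), c ∈ V₂ := fun c hc =>
    h919_chart_le V₂ hR₂ (fun t ht => by rw [Set.mem_singleton_iff.1 ht]; exact hx₂) hc
  have hB₃ : ∀ c ∈ chart R ({x} : Set F), c ∈ V₃ := fun c hc =>
    h919_chart_le V₃ hR₃ (fun t ht => by rw [Set.mem_singleton_iff.1 ht]; exact hx₃) hc
  -- every sheet is one of the three
  have hcases : ∀ W : ValuationSubring F, IsSheet w x W → W = V₁ ∨ W = V₂ ∨ W = V₃ :=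
    fun W hW => h919_sheet_cases hinj hwp hxR V₁ V₂ V₃ hB₁ hB₂ hB₃ hw₁ hw₂ hw₃ hqep hW
  -- compatibility of `α`, `β` with `R`
  have hαR : ∀ r : R, (α : F' →+* F) (algebraMap R F' r) = algebraMap R F r := by
    intro r
    rw [IsScalarTower.algebraMap_apply R E F', IsScalarTower.algebraMap_apply R E F]
    exact α.commutes _
  have hβR : ∀ r : R, (β : F' →+* F) (algebraMap R F' r) = algebraMap R F r := by
    intro r
    rw [IsScalarTower.algebraMap_apply R E F', IsScalarTower.algebraMap_apply R E F]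
    exact β.commutes _
  -- propagation
  have h12 : IsSheet w x V₁ → IsSheet w x V₂ := fun h =>
    h919_isSheet_transfer hw hxR (α : F' →+* F) hαR V₂ V₁ hR₂ hR₁ hx₂ hw₂ hα.symm
      chart_α hint_α h
  have h21 : IsSheet w x V₂ → IsSheet w x V₁ := fun h =>
    h919_isSheet_transfer hw hxR (α : F' →+* F) hαR V₁ V₂ hR₁ hR₂ hx₁ hw₁ hα
      chart_α hint_α h
  have h23 : IsSheet w x V₂ → IsSheet w x V₃ := fun h =>
    h919_isSheet_transfer hw hxR (β : F' →+* F) hβR V₃ V₂ hR₃ hR₂ hx₃ hw₃ hβ.symm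
      chart_β hint_β h
  have h32 : IsSheet w x V₃ → IsSheet w x V₂ := fun h =>
    h919_isSheet_transfer hw hxR (β : F' →+* F) hβR V₂ V₃ hR₂ hR₃ hx₂ hw₂ hβ
      chart_β hint_β h
  -- there is a sheet
  obtain ⟨W, hW⟩ := sheets_nonempty (R := R) (Z := F) w hwp hxR
  have hW' : IsSheet w x W := hW
  have h2 : IsSheet w x V₂ := by
    rcases hcases W hW' with h | h | h
    · exact h12 (h ▸ hW')
    · exact h ▸ hW'
    · exact h32 (h ▸ hW')
  exact ⟨⟨h21 h2, h2, h23 h2⟩, hcases⟩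

end Top

section Unif

variable {R : Type u} [CommRing R] {F : Type u} [Field F] [Algebra R F]

/-- `hunif` of `H193.exists_pow_eq_of_base` from `Eng.UnifAt V w` (second half), `w ≠ 0`. -/
theorem h919_unif_of_unifAt (V : ValuationSubring F) {w : R} (hw0 : algebraMap R F w ≠ 0)
    (h : ∀ f ∈ V.nonunits, f * (algebraMap R F w)⁻¹ ∈ V) :
    ∀ a ∈ V.nonunits, ∃ b ∈ V, a = algebraMap R F w * b := by
  intro a ha
  refine ⟨a * (algebraMap R F w)⁻¹, h a ha, ?_⟩
  rw [mul_comm a, ← mul_assoc, mul_inv_cancel₀ hw0, one_mul]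

/-- `hdisc` of `H193.exists_pow_eq_of_base` for a discrete valuation subring with `w ∈ 𝔪_V`. -/
theorem h919_disc_of_dvr (V : ValuationSubring F) [IsDiscreteValuationRing V] {w : R}
    (hwV : algebraMap R F w ∈ V.nonunits) :
    ∀ g : F, ∃ k : ℕ, g * algebraMap R F w ^ k ∈ V := by
  intro g
  by_cases hg : g ∈ V
  · exact ⟨0, by rwa [pow_zero, mul_one]⟩
  have hg0 : g ≠ 0 := fun h => hg (h ▸ V.zero_mem)
  obtain ⟨e, he⟩ := h919_exists_pow_mul_inv_mem V (inv_ne_zero hg0)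
  refine ⟨e, ?_⟩
  have := he _ hwV
  rwa [inv_inv, mul_comm] at this

end Unif

end Fermat.Agent.S36.H919

end
-- ===== PACK-END S36/H919/SheetsTop.lean

-- ===== PACK-BEGIN S36/H630/Final.lean
section


/-!
# S36 engine, ALG3 gap G4 (helper630): `BasePureValuesAt` at EVERY closed point of both charts,
from `Eng.TripleCtx` (Spec v1.3)

* `labelAt_fin_ctx`        : the label datum at a closed point of `chart R {x}` (triple point:
  `labelAt_triple_ctx`; otherwise at most one sheet passes, by `ctx.incidence`);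
* `labelAt_inf_ctx`        : the label datum at a closed point of `chart R {x⁻¹}` (cusps: at most
  one sheet, by `ctx.cusp_single`; off the cusps: change of chart);
* `exists_kappa_basePure`  : **the theorem for the assembler**: ONE colouring `κ` and, at every
  closed point of the special fibre of both charts, purity datum ⟹ `H193.BasePureValuesAt`
  for `u ^ ((q - 1) (q + 1))`, in the exact shape of the hypotheses `hpure_fin`, `hpure_inf` of
  `H193.exists_pow_eq_of_three`.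
-/

set_option autoImplicit false
set_option linter.unusedSectionVars false
set_option linter.style.haveILetI false
set_option maxHeartbeats 1600000

namespace Fermat.Agent.S36.H630

open Fermat.Agent.S18.H138 (chart mem_chart)
open Fermat.Agent.S36.H193 (BasePureValuesAt)
open Fermat.Agent.S36.Eng (TripleCtx)
open AlgebraicCurve

section Ctx

variable {R E F F' : Type*} [CommRing R] [IsDomain R] [IsDiscreteValuationRing R]
  [IsAlgClosed (IsLocalRing.ResidueField R)]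
  [Field E] [Algebra R E] [Field F] [Algebra E F] [Algebra R F] [IsScalarTower R E F]
  [Field F'] [Algebra E F'] [Algebra R F'] [IsScalarTower R E F']
  {w : R} {q : ℕ} {α β : F' →ₐ[E] F} {x : F} {x' : F'}
  {V₁ V₂ V₃ : ValuationSubring F} {V₁' V₂' : ValuationSubring F'}

omit [IsAlgClosed (IsLocalRing.ResidueField R)] in
/-- `w ∈ n` ⟹ the maximal ideal of `R` maps into `n`. -/
theorem maximalIdeal_map_mem (hw : Irreducible w) {B : Subalgebra R F} {n : Ideal B}
    (hwn : algebraMap R B w ∈ n) :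
    ∀ r ∈ IsLocalRing.maximalIdeal R, algebraMap R B r ∈ n := by
  intro r hr
  rw [hw.maximalIdeal_eq, Ideal.mem_span_singleton] at hr
  obtain ⟨t, rfl⟩ := hr
  rw [map_mul]
  exact n.mul_mem_right _ hwn

/-- **The label datum at a closed point of the finite chart.** -/
theorem labelAt_fin_ctx (ctx : TripleCtx w q α β x x' V₁ V₂ V₃ V₁' V₂')
    (hw : Irreducible w) (hq : 0 < q) {m : ℕ} (hm : 0 < m) {ζ : R} (hζ : ζ ^ m = 1)
    {u : F} (hu₁ : u - 1 ∈ V₁.nonunits) (hu₂ : u - 1 ∈ V₂.nonunits)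
    (hu₃ : u - 1 ∈ V₃.nonunits)
    {k₁ k₂ : F'} (hk₁ : S29.H395.normAlong α u = k₁ ^ m)
    (hk₂ : S29.H395.normAlong β u = k₂ ^ m)
    {i₁ i₂ j₁ j₂ : ℕ}
    (hi₁ : k₁ - algebraMap R F' (ζ ^ i₁) ∈ V₁'.nonunits)
    (hi₂ : k₁ - algebraMap R F' (ζ ^ i₂) ∈ V₂'.nonunits)
    (hj₂ : k₂ - algebraMap R F' (ζ ^ j₂) ∈ V₂'.nonunits)
    (hj₁ : k₂ - algebraMap R F' (ζ ^ j₁) ∈ V₁'.nonunits)
    (κ : ValuationSubring F → ℕ)
    (hκFF : ζ ^ ((m - 1) * κ V₁) = ζ ^ ((q - 1) * (i₂ + j₂ + (m - 1) * (i₁ + j₁))))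
    (hκmid : ζ ^ ((m - 1) * κ V₂) = ζ ^ (q * i₂ + j₁ + (m - 1) * (q * i₁ + j₂)))
    (hκVV : ζ ^ ((m - 1) * κ V₃) = 1)
    (n : Ideal (chart R ({x} : Set F))) (hn : n.IsMaximal)
    (hwn : algebraMap R (chart R ({x} : Set F)) w ∈ n)
    (hpur : ∃ (d : F) (a₀ s₀ : chart R ({x} : Set F)), a₀ ∉ n ∧ s₀ ∉ n ∧
      u * d ^ m * (s₀ : F) = a₀) :
    LabelAt (chart R ({x} : Set F)) n {V | V = V₁ ∨ V = V₂ ∨ V = V₃} m
      (u ^ ((q - 1) * (q + 1))) ζ κ := by
  haveI := hn
  obtain ⟨d, a₀, s₀, ha₀, hs₀, hpure⟩ := hpur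
  have h𝔪n := maximalIdeal_map_mem hw hwn
  by_cases htr : (PassThrough (chart R ({x} : Set F)) n V₁ ∧
      PassThrough (chart R ({x} : Set F)) n V₂) ∨
      (PassThrough (chart R ({x} : Set F)) n V₁ ∧ PassThrough (chart R ({x} : Set F)) n V₃) ∨
      (PassThrough (chart R ({x} : Set F)) n V₂ ∧ PassThrough (chart R ({x} : Set F)) n V₃)
  · obtain ⟨h1, h2, h3⟩ := ctx.incidence n hn htr
    exact labelAt_triple_ctx ctx hq hm hζ n h𝔪n h1 h2 h3 hu₁ hu₂ hu₃ hk₁ hk₂ hi₁ hi₂ hj₂ hj₁ κ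
      hκFF hκmid hκVV ha₀ hs₀ hpure
  · rw [not_or, not_or] at htr
    have hB₁ : ChartLe (chart R ({x} : Set F)) V₁ := chartLe_chart ctx.base₁
      (fun s hs => by rw [Set.mem_singleton_iff.1 hs]; exact ctx.x_unit₁.2.1)
    have hB₂ : ChartLe (chart R ({x} : Set F)) V₂ := chartLe_chart ctx.base₂
      (fun s hs => by rw [Set.mem_singleton_iff.1 hs]; exact ctx.x_unit₂.2.1)
    have hB₃ : ChartLe (chart R ({x} : Set F)) V₃ := chartLe_chart ctx.base₃
      (fun s hs => by rw [Set.mem_singleton_iff.1 hs]; exact ctx.x_unit₃.2.1)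
    exact labelAt_of_le_one (rat_chart x n hn h𝔪n) hB₁ hB₂ hB₃ hm
      (normalAlong_of_monic ctx.normal_f₁ hm) (normalAlong_of_monic ctx.normal_f₂ hm)
      (normalAlong_of_monic ctx.normal_f₃ hm) hζ κ htr.1 htr.2.1 htr.2.2 hu₁ hu₂ hu₃ ha₀ hs₀
      hpure _

/-- **The label datum at a closed point of the chart at infinity.** -/
theorem labelAt_inf_ctx (ctx : TripleCtx w q α β x x' V₁ V₂ V₃ V₁' V₂')
    (hw : Irreducible w) (hq : 0 < q) {m : ℕ} (hm : 0 < m) {ζ : R} (hζ : ζ ^ m = 1)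
    {u : F} (hu₁ : u - 1 ∈ V₁.nonunits) (hu₂ : u - 1 ∈ V₂.nonunits)
    (hu₃ : u - 1 ∈ V₃.nonunits)
    {k₁ k₂ : F'} (hk₁ : S29.H395.normAlong α u = k₁ ^ m)
    (hk₂ : S29.H395.normAlong β u = k₂ ^ m)
    {i₁ i₂ j₁ j₂ : ℕ}
    (hi₁ : k₁ - algebraMap R F' (ζ ^ i₁) ∈ V₁'.nonunits)
    (hi₂ : k₁ - algebraMap R F' (ζ ^ i₂) ∈ V₂'.nonunits)
    (hj₂ : k₂ - algebraMap R F' (ζ ^ j₂) ∈ V₂'.nonunits)
    (hj₁ : k₂ - algebraMap R F' (ζ ^ j₁) ∈ V₁'.nonunits)
    (κ : ValuationSubring F → ℕ)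
    (hκFF : ζ ^ ((m - 1) * κ V₁) = ζ ^ ((q - 1) * (i₂ + j₂ + (m - 1) * (i₁ + j₁))))
    (hκmid : ζ ^ ((m - 1) * κ V₂) = ζ ^ (q * i₂ + j₁ + (m - 1) * (q * i₁ + j₂)))
    (hκVV : ζ ^ ((m - 1) * κ V₃) = 1)
    (n' : Ideal (chart R ({x⁻¹} : Set F))) (hn' : n'.IsMaximal)
    (hwn' : algebraMap R (chart R ({x⁻¹} : Set F)) w ∈ n')
    (hpur : ∃ (d : F) (a₀ s₀ : chart R ({x⁻¹} : Set F)), a₀ ∉ n' ∧ s₀ ∉ n' ∧
      u * d ^ m * (s₀ : F) = a₀) :
    LabelAt (chart R ({x⁻¹} : Set F)) n' {V | V = V₁ ∨ V = V₂ ∨ V = V₃} m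
      (u ^ ((q - 1) * (q + 1))) ζ κ := by
  haveI := hn'
  have hn'p : n'.IsPrime := hn'.isPrime
  have h𝔪n' := maximalIdeal_map_mem hw hwn'
  have hrat' := rat_chart x⁻¹ n' hn' h𝔪n'
  have hx0 : x ≠ 0 := ctx.x_unit₁.1
  have hyB' : x⁻¹ ∈ chart R ({x⁻¹} : Set F) := Fermat.Agent.S18.H138.mem_chart_of_mem rfl
  by_cases hy : (⟨x⁻¹, hyB'⟩ : chart R ({x⁻¹} : Set F)) ∈ n'
  · -- a cusp: at most one sheet
    obtain ⟨h12, h13, h23⟩ := ctx.cusp_single n' hn' hwn' hy
    obtain ⟨d, a₀, s₀, ha₀, hs₀, hpure⟩ := hpur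
    have hB₁ : ChartLe (chart R ({x⁻¹} : Set F)) V₁ := chartLe_chart ctx.base₁
      (fun s hs => by rw [Set.mem_singleton_iff.1 hs]; exact ctx.x_unit₁.2.2)
    have hB₂ : ChartLe (chart R ({x⁻¹} : Set F)) V₂ := chartLe_chart ctx.base₂
      (fun s hs => by rw [Set.mem_singleton_iff.1 hs]; exact ctx.x_unit₂.2.2)
    have hB₃ : ChartLe (chart R ({x⁻¹} : Set F)) V₃ := chartLe_chart ctx.base₃
      (fun s hs => by rw [Set.mem_singleton_iff.1 hs]; exact ctx.x_unit₃.2.2)
    exact labelAt_of_le_one hrat' hB₁ hB₂ hB₃ hm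
      (normalAlong_of_monic ctx.normal_i₁ hm) (normalAlong_of_monic ctx.normal_i₂ hm)
      (normalAlong_of_monic ctx.normal_i₃ hm) hζ κ h12 h13 h23 hu₁ hu₂ hu₃ ha₀ hs₀ hpure _
  · -- off the cusps: change of chart
    have hclear : ∀ b : chart R ({x} : Set F),
        ∃ k : ℕ, x⁻¹ ^ k * (b : F) ∈ chart R ({x⁻¹} : Set F) :=
      fun b => Fermat.Agent.S18.H138.exists_inv_pow_mul_mem_chart hx0 b.2
    have hclear' : ∀ c : chart R ({x⁻¹} : Set F),
        ∃ k : ℕ, x⁻¹⁻¹ ^ k * (c : F) ∈ chart R ({x} : Set F) := by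
      intro c
      have hc : (c : F) ∈ chart R ({x, x⁻¹} : Set F) :=
        Fermat.Agent.S18.H138.chart_mono (by simp) c.2
      obtain ⟨K, hK⟩ := Fermat.Agent.S18.H138.exists_pow_mul_mem_chart hx0 hc
      exact ⟨K, by rw [inv_inv]; exact hK⟩
    have hyinv : x⁻¹⁻¹ ∈ chart R ({x} : Set F) := by
      rw [inv_inv]
      exact Fermat.Agent.S18.H138.mem_chart_of_mem rfl
    have hnmax : (backIdeal (chart R ({x} : Set F)) n' x⁻¹ hyB' hclear).IsMaximal :=
      backIdeal_isMaximal hyB' hclear hy h𝔪n' hrat'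
    have hwn : algebraMap R (chart R ({x} : Set F)) w
        ∈ backIdeal (chart R ({x} : Set F)) n' x⁻¹ hyB' hclear :=
      (algebraMap_mem_backIdeal_iff hyB' hclear hy w).2 hwn'
    have hpurB := pure_back hyB' hclear hy hyinv hclear' hpur
    have hlab := labelAt_fin_ctx ctx hw hq hm hζ hu₁ hu₂ hu₃ hk₁ hk₂ hi₁ hi₂ hj₂ hj₁ κ
      hκFF hκmid hκVV _ hnmax hwn hpurB
    refine LabelAt.of_back hyB' hclear hy ?_ hlab
    rintro V (rfl | rfl | rfl)
    · exact ctx.x_unit₁.2.2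
    · exact ctx.x_unit₂.2.2
    · exact ctx.x_unit₃.2.2

/-- **G4 + KAPPA + CHART-CHANGE (the theorem for the assembler).**  One colouring `κ`; at every
closed point of the special fibre of both charts a purity datum for `u` gives
`BasePureValuesAt` for `u ^ ((q - 1) (q + 1))`. -/
theorem exists_kappa_basePure (ctx : TripleCtx w q α β x x' V₁ V₂ V₃ V₁' V₂')
    (hw : Irreducible w) (hq : 0 < q) (hinjE : Function.Injective (algebraMap R E))
    {m : ℕ} (hm : 0 < m) {ζ : R} (hζ : IsPrimitiveRoot ζ m)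
    {u : F} (hu₁ : u - 1 ∈ V₁.nonunits) (hu₂ : u - 1 ∈ V₂.nonunits)
    (hu₃ : u - 1 ∈ V₃.nonunits)
    {k₁ k₂ : F'} (hk₁ : S29.H395.normAlong α u = k₁ ^ m)
    (hk₂ : S29.H395.normAlong β u = k₂ ^ m) :
    ∃ κ : ValuationSubring F → ℕ,
      (∀ n : Ideal (chart R ({x} : Set F)), n.IsMaximal →
        algebraMap R (chart R ({x} : Set F)) w ∈ n →
        (∃ (d : F) (a₀ s₀ : chart R ({x} : Set F)), a₀ ∉ n ∧ s₀ ∉ n ∧
          u * d ^ m * (s₀ : F) = a₀) →
        BasePureValuesAt {V | V = V₁ ∨ V = V₂ ∨ V = V₃} (chart R ({x} : Set F)) n m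
          (u ^ ((q - 1) * (q + 1))) ζ κ) ∧
      (∀ n : Ideal (chart R ({x⁻¹} : Set F)), n.IsMaximal →
        algebraMap R (chart R ({x⁻¹} : Set F)) w ∈ n →
        (∃ (d : F) (a₀ s₀ : chart R ({x⁻¹} : Set F)), a₀ ∉ n ∧ s₀ ∉ n ∧
          u * d ^ m * (s₀ : F) = a₀) →
        BasePureValuesAt {V | V = V₁ ∨ V = V₂ ∨ V = V₃} (chart R ({x⁻¹} : Set F)) n m
          (u ^ ((q - 1) * (q + 1))) ζ κ) := by
  have hζ1 : ζ ^ m = 1 := hζ.pow_eq_one
  have hinj : Function.Injective (algebraMap R F') := by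
    rw [IsScalarTower.algebraMap_eq R E F']
    exact (algebraMap E F').injective.comp hinjE
  -- the labels
  obtain ⟨i₁, i₂, hi₁, hi₂⟩ :
      ∃ i₁ i₂ : ℕ, k₁ - algebraMap R F' (ζ ^ i₁) ∈ V₁'.nonunits ∧
        k₁ - algebraMap R F' (ζ ^ i₂) ∈ V₂'.nonunits := by
    letI := algebraAlong α
    haveI : IsScalarTower R F' F := isScalarTower_alongR α
    exact exists_labels_side hinj ctx.base₁ ctx.base₃ ctx.comap_α₁ ctx.comap_α₃
      ctx.nr_α₁ ctx.nr_α₂ hm hζ hu₁ hu₂ hu₃ hk₁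
  obtain ⟨j₂, j₁, hj₂, hj₁⟩ :
      ∃ j₂ j₁ : ℕ, k₂ - algebraMap R F' (ζ ^ j₂) ∈ V₂'.nonunits ∧
        k₂ - algebraMap R F' (ζ ^ j₁) ∈ V₁'.nonunits := by
    letI := algebraAlong β
    haveI : IsScalarTower R F' F := isScalarTower_alongR β
    exact exists_labels_side hinj ctx.base₃ ctx.base₁ ctx.comap_β₃ ctx.comap_β₁
      ctx.nr_β₁ ctx.nr_β₂ hm hζ hu₃ hu₂ hu₁ hk₂
  -- the colouring
  set κ : ValuationSubring F → ℕ := kappa3 V₁ V₂
    ((m - 1) * ((q - 1) * (i₂ + j₂ + (m - 1) * (i₁ + j₁))))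
    ((m - 1) * (q * i₂ + j₁ + (m - 1) * (q * i₁ + j₂))) with hκ
  have hκFF : ζ ^ ((m - 1) * κ V₁) = ζ ^ ((q - 1) * (i₂ + j₂ + (m - 1) * (i₁ + j₁))) := by
    rw [hκ, kappa3_left]
    exact zeta_pow_sq hm hζ1 _
  have hκmid : ζ ^ ((m - 1) * κ V₂) = ζ ^ (q * i₂ + j₁ + (m - 1) * (q * i₁ + j₂)) := by
    rw [hκ, kappa3_mid ctx.ne₁₂]
    exact zeta_pow_sq hm hζ1 _
  have hκVV : ζ ^ ((m - 1) * κ V₃) = 1 := by
    rw [hκ, kappa3_right ctx.ne₁₃ ctx.ne₂₃, mul_zero, pow_zero]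
  refine ⟨κ, ?_, ?_⟩
  · intro n hn hwn hpur
    haveI := hn
    refine basePureValuesAt_of_labelAt ?_ hm hζ1
      (labelAt_fin_ctx ctx hw hq hm hζ1 hu₁ hu₂ hu₃ hk₁ hk₂ hi₁ hi₂ hj₂ hj₁ κ hκFF hκmid hκVV
        n hn hwn hpur)
    rintro V (rfl | rfl | rfl)
    · exact chartLe_chart ctx.base₁
        (fun s hs => by rw [Set.mem_singleton_iff.1 hs]; exact ctx.x_unit₁.2.1)
    · exact chartLe_chart ctx.base₂
        (fun s hs => by rw [Set.mem_singleton_iff.1 hs]; exact ctx.x_unit₂.2.1)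
    · exact chartLe_chart ctx.base₃
        (fun s hs => by rw [Set.mem_singleton_iff.1 hs]; exact ctx.x_unit₃.2.1)
  · intro n hn hwn hpur
    haveI := hn
    refine basePureValuesAt_of_labelAt ?_ hm hζ1
      (labelAt_inf_ctx ctx hw hq hm hζ1 hu₁ hu₂ hu₃ hk₁ hk₂ hi₁ hi₂ hj₂ hj₁ κ hκFF hκmid hκVV
        n hn hwn hpur)
    rintro V (rfl | rfl | rfl)
    · exact chartLe_chart ctx.base₁
        (fun s hs => by rw [Set.mem_singleton_iff.1 hs]; exact ctx.x_unit₁.2.2)
    · exact chartLe_chart ctx.base₂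
        (fun s hs => by rw [Set.mem_singleton_iff.1 hs]; exact ctx.x_unit₂.2.2)
    · exact chartLe_chart ctx.base₃
        (fun s hs => by rw [Set.mem_singleton_iff.1 hs]; exact ctx.x_unit₃.2.2)

end Ctx

end Fermat.Agent.S36.H630

end
-- ===== PACK-END S36/H630/Final.lean

-- ===== PACK-BEGIN S36/H994/Plug4.lean
section





/-!
# The level-`4` plug for R4 (helper994, S36 cell REG, `q` odd)

`N` a level with `4 ∣ N`, `q` a prime (any natural number `≠ 0` here), `F = F_E(N q q)`,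

  `φ = α ∘ α : F_E(N) → F`   (inclusion),        `γ = β ∘ β : F_E(N) → F`   (`f(t) ↦ f(t^{q²})`).

* `t4E_congr_of_hom`   : helper878's `Congr4.t4_congr` for two ring homomorphisms `φ, ψ` out of
  `F_E(N)`:  `ψ(j_d) ≡ φ(j_d)` (`d ∣ 4`) and Gauss units ⟹ `ψ(t₄) ≡ φ(t₄)`;
* `hres_transfer4_of_hom` : helper878's `Transfer4.hres_transfer4` in the same form;
* `φ4`, `γ4` and their values on `j_d`, `t₄` (`φ4_jE`, `γ4_jE`, `φ4_t4E`, `coe_γ4_t4E`);
* `valuation_φ4_eq_one` : a unit of `V∞(N q)` is a unit of every valuation ring `V` of `F` with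
  `V.comap α = V∞(N q)` (in particular of `V_mid` and `V_FF`);
* `reg4_congr`, `reg4_hres` : the two statements at `V` with ALL unit hypotheses discharged:
  from `γ(j_d) - φ(j_d) ∈ 𝔪_V` (`d = 1, 2, 4`; FROB) get `γ(t₄) - t₄ ∈ 𝔪_V`, and `hres` for
  `(π_j, (j⁴ (j - 1728)³)^k)` gives `hres` for `(π_{t₄}, (t₄² (t₄ + 16)⁵)^k)`.
-/

set_option autoImplicit false
set_option synthInstance.maxHeartbeats 400000
set_option maxHeartbeats 1600000
set_option linter.unusedSectionVars false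

noncomputable section

namespace Fermat.Agent.S36.H994

open ModularCurve HahnSeries Fermat.Agent.Lib.Haupt Fermat.Agent.A2.Mod
open Fermat.Agent.A2 Fermat.Agent.S36.H878

/-! ## Generic form: two ring homomorphisms out of `F_E(N)` -/

section Hom

variable (E : IntermediateField ℚ _root_.Fermat.Agent.A2.Mod.Qb) (N : ℕ) {L : Type*} [Field L]

/-- **`ψ(t₄) ≡ φ(t₄)` modulo `𝔪_V`** from `ψ(j_d) ≡ φ(j_d)`, `d ∈ {1, 2, 4}`. -/
theorem t4E_congr_of_hom (φ ψ : _root_.Fermat.Agent.A2.Mod.FE E N →+* L) (V : ValuationSubring L) (h4 : 4 ∣ N)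
    (hj : φ (jE E N 1 (one_dvd N)) ∈ V)
    (hj2 : φ (jE E N 2 (two_dvd_of_four_dvd h4)) ∈ V)
    (hj4 : φ (jE E N 4 h4) ∈ V)
    (c1 : ψ (jE E N 1 (one_dvd N)) - φ (jE E N 1 (one_dvd N)) ∈ V.nonunits)
    (c2 : ψ (jE E N 2 (two_dvd_of_four_dvd h4)) - φ (jE E N 2 (two_dvd_of_four_dvd h4))
      ∈ V.nonunits)
    (c4 : ψ (jE E N 4 h4) - φ (jE E N 4 h4) ∈ V.nonunits)
    (hU : V.valuation
      (φ (h4u2 (jE E N 1 (one_dvd N)) (jE E N 2 (two_dvd_of_four_dvd h4)))) = 1)
    (hUe : V.valuation (φ (h4u2 (jE E N 2 (two_dvd_of_four_dvd h4)) (jE E N 4 h4))) = 1)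
    (h16 : V.valuation (φ (t2E E N (two_dvd_of_four_dvd h4) + 16)) = 1) :
    φ (t4E E N h4) ∈ V ∧ ψ (t4E E N h4) ∈ V ∧
      ψ (t4E E N h4) - φ (t4E E N h4) ∈ V.nonunits := by
  have l1 := congrArg φ (t2E_lin E N (two_dvd_of_four_dvd h4))
  have l2 := congrArg φ (t2eE_lin E N h4)
  have l3 := congrArg φ (t4E_lin E N h4)
  have l1' := congrArg ψ (t2E_lin E N (two_dvd_of_four_dvd h4))
  have l2' := congrArg ψ (t2eE_lin E N h4)
  have l3' := congrArg ψ (t4E_lin E N h4)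
  rw [map_mul, map_h4u2, map_h4w2] at l1 l2 l1' l2'
  simp only [map_mul, map_add, map_sub, map_ofNat] at l3 l3'
  rw [map_h4u2] at hU hUe
  rw [map_add, map_ofNat] at h16
  exact t4_congr V hj hj2 hj4 c1 c2 c4 hU hUe h16 l1 l2 l3 l1' l2' l3'

/-- **Transfer of `hres` from `j` to `t₄`**, for two ring homomorphisms out of `F_E(N)`. -/
theorem hres_transfer4_of_hom (φ ψ : _root_.Fermat.Agent.A2.Mod.FE E N →+* L) (V : ValuationSubring L) (h4 : 4 ∣ N)
    (U : L) (k : ℕ)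
    (hh₁ : V.valuation (φ (t4E E N h4)) = 1)
    (hh₁' : V.valuation (φ (t4E E N h4) + 16) = 1)
    (hj₁ : V.valuation (φ (jE E N 1 (one_dvd N))) = 1)
    (hj₁' : V.valuation (φ (jE E N 1 (one_dvd N)) - 1728) = 1)
    (hh₂ : ψ (t4E E N h4) ∈ V)
    (hx : ψ (t4E E N h4) - φ (t4E E N h4) ∈ V.nonunits)
    (hres : ((ψ (jE E N 1 (one_dvd N)) - φ (jE E N 1 (one_dvd N))) ^ (6 * k)
        - (φ (jE E N 1 (one_dvd N)) ^ 4 * (φ (jE E N 1 (one_dvd N)) - 1728) ^ 3) ^ k * U)
          * U⁻¹ ∈ V.nonunits) :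
    ((ψ (t4E E N h4) - φ (t4E E N h4)) ^ (6 * k)
        - (φ (t4E E N h4) ^ 2 * (φ (t4E E N h4) + 16) ^ 5) ^ k * U) * U⁻¹ ∈ V.nonunits := by
  have hJ₁ := congrArg φ (jE_mul_t4E E N h4)
  have hJ₂ := congrArg ψ (jE_mul_t4E E N h4)
  simp only [map_mul, map_pow, map_add, map_ofNat] at hJ₁ hJ₂
  exact hres_transfer4 V _ _ _ _ U k hJ₁ hJ₂ hh₁ hh₁' hj₁ hj₁' hh₂ hx hres

end Hom

/-! ## The two maps `F_E(N) → F_E(N q q)` -/

section Maps

variable (E : IntermediateField ℚ _root_.Fermat.Agent.A2.Mod.Qb) (N q : ℕ) [NeZero N] [NeZero q] [NeZero (N * q)]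

/-- The inclusion `φ = α ∘ α : F_E(N) → F_E(N q q)`. -/
def φ4 : _root_.Fermat.Agent.A2.Mod.FE E N →+* _root_.Fermat.Agent.A2.Mod.FE E (N * q * q) :=
  ((αE E (N * q) q : _root_.Fermat.Agent.A2.Mod.FE E (N * q) →+* _root_.Fermat.Agent.A2.Mod.FE E (N * q * q))).comp
    (αE E N q : _root_.Fermat.Agent.A2.Mod.FE E N →+* _root_.Fermat.Agent.A2.Mod.FE E (N * q))

/-- `γ = β ∘ β : F_E(N) → F_E(N q q)`, `f(t) ↦ f(t^{q²})`. -/
def γ4 : _root_.Fermat.Agent.A2.Mod.FE E N →+* _root_.Fermat.Agent.A2.Mod.FE E (N * q * q) :=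
  ((βE E (N * q) q : _root_.Fermat.Agent.A2.Mod.FE E (N * q) →+* _root_.Fermat.Agent.A2.Mod.FE E (N * q * q))).comp
    (βE E N q : _root_.Fermat.Agent.A2.Mod.FE E N →+* _root_.Fermat.Agent.A2.Mod.FE E (N * q))

theorem φ4_apply (f : _root_.Fermat.Agent.A2.Mod.FE E N) : φ4 E N q f = αE E (N * q) q (αE E N q f) := rfl

theorem γ4_apply (f : _root_.Fermat.Agent.A2.Mod.FE E N) : γ4 E N q f = βE E (N * q) q (βE E N q f) := rfl

theorem coe_φ4 (f : _root_.Fermat.Agent.A2.Mod.FE E N) : ((φ4 E N q f : _root_.Fermat.Agent.A2.Mod.FE E (N * q * q)) : LaurentSeries E) = f := by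
  rw [φ4_apply]
  show ((heckeAlphaBar E (N * q) q (heckeAlphaBar E N q f) : _) : LaurentSeries E) = f
  rw [coe_heckeAlphaBar, coe_heckeAlphaBar]

theorem coe_γ4 (f : _root_.Fermat.Agent.A2.Mod.FE E N) :
    ((γ4 E N q f : _root_.Fermat.Agent.A2.Mod.FE E (N * q * q)) : LaurentSeries E)
      = qExpand E q (qExpand E q (f : LaurentSeries E)) := rfl

theorem dvd_mul_mul {d : ℕ} (hd : d ∣ N) : d ∣ N * q * q :=
  Dvd.dvd.mul_right (Dvd.dvd.mul_right hd q) q

theorem φ4_jE (d : ℕ) [NeZero d] (hd : d ∣ N) :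
    φ4 E N q (jE E N d hd) = jE E (N * q * q) d (dvd_mul_mul N q hd) := by
  rw [φ4_apply, αE_jE4, αE_jE4]

theorem φ4_t4E (h4 : 4 ∣ N) :
    φ4 E N q (t4E E N h4) = t4E E (N * q * q) (dvd_mul_mul N q h4) := by
  rw [φ4_apply, αE_t4E, αE_t4E]

theorem coe_γ4_t4E (h4 : 4 ∣ N) :
    ((γ4 E N q (t4E E N h4) : _root_.Fermat.Agent.A2.Mod.FE E (N * q * q)) : LaurentSeries E)
      = qExpand E (q * q) (t4 E) := by
  rw [coe_γ4, coe_t4E, qExpand_qExpand]

theorem coe_γ4_jE (d : ℕ) [NeZero d] (hd : d ∣ N) :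
    ((γ4 E N q (jE E N d hd) : _root_.Fermat.Agent.A2.Mod.FE E (N * q * q)) : LaurentSeries E)
      = qExpand E (q * q) (qExpand E d (jqModC E)) := by
  rw [coe_γ4, h4_coe_jE, qExpand_qExpand]

end Maps

/-! ## Units of `V∞(N q)` are units of `V` when `V.comap α = V∞(N q)` -/

section Pull

variable {P : ValuationSubring _root_.Fermat.Agent.A2.Mod.Qb} {E : IntermediateField ℚ _root_.Fermat.Agent.A2.Mod.Qb} {N q : ℕ}
  [NeZero N] [NeZero q] [NeZero (N * q)]

theorem valuation_eq_one_of_mem_inv_mem {L : Type*} [Field L] (V : ValuationSubring L) {u : L}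
    (hu0 : u ≠ 0) (hu : u ∈ V) (hui : u⁻¹ ∈ V) : V.valuation u = 1 := by
  refine le_antisymm ((V.valuation_le_one_iff _).2 hu) ?_
  have h1 : V.valuation u⁻¹ ≤ 1 := (V.valuation_le_one_iff _).2 hui
  rw [map_inv₀] at h1
  exact (inv_le_one₀ (by rw [zero_lt_iff]; exact (_root_.map_ne_zero _).2 hu0)).1 h1

theorem mem_α_of_mem {V : ValuationSubring (_root_.Fermat.Agent.A2.Mod.FE E (N * q * q))}
    {V' : ValuationSubring (_root_.Fermat.Agent.A2.Mod.FE E (N * q))}
    (hcomap : V.comap (αE E (N * q) q : _root_.Fermat.Agent.A2.Mod.FE E (N * q) →+* _root_.Fermat.Agent.A2.Mod.FE E (N * q * q)) = V')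
    {u : _root_.Fermat.Agent.A2.Mod.FE E (N * q)} (hu : u ∈ V') : αE E (N * q) q u ∈ V := by
  subst hcomap
  have h := (ValuationSubring.mem_comap).1 hu
  rwa [RingHom.coe_coe] at h

theorem inv_mem_α_of_inv_mem {V : ValuationSubring (_root_.Fermat.Agent.A2.Mod.FE E (N * q * q))}
    {V' : ValuationSubring (_root_.Fermat.Agent.A2.Mod.FE E (N * q))}
    (hcomap : V.comap (αE E (N * q) q : _root_.Fermat.Agent.A2.Mod.FE E (N * q) →+* _root_.Fermat.Agent.A2.Mod.FE E (N * q * q)) = V')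
    {u : _root_.Fermat.Agent.A2.Mod.FE E (N * q)} (hu : u⁻¹ ∈ V') : (αE E (N * q) q u)⁻¹ ∈ V := by
  have h := mem_α_of_mem hcomap hu
  rwa [map_inv₀] at h

/-- A unit of `V' = V.comap α` maps to a unit of `V`. -/
theorem valuation_α_eq_one {V : ValuationSubring (_root_.Fermat.Agent.A2.Mod.FE E (N * q * q))}
    {V' : ValuationSubring (_root_.Fermat.Agent.A2.Mod.FE E (N * q))}
    (hcomap : V.comap (αE E (N * q) q : _root_.Fermat.Agent.A2.Mod.FE E (N * q) →+* _root_.Fermat.Agent.A2.Mod.FE E (N * q * q)) = V')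
    {u : _root_.Fermat.Agent.A2.Mod.FE E (N * q)} (hu0 : u ≠ 0) (hu : u ∈ V' ∧ u⁻¹ ∈ V') :
    V.valuation (αE E (N * q) q u) = 1 :=
  valuation_eq_one_of_mem_inv_mem V ((_root_.map_ne_zero (αE E (N * q) q)).2 hu0)
    (mem_α_of_mem hcomap hu.1) (inv_mem_α_of_inv_mem hcomap hu.2)

/-- An element with an integral expansion with a coefficient `1` is not zero. -/
theorem ne_zero_of_int4 {M : ℕ} {f : _root_.Fermat.Agent.A2.Mod.FE E M} {g : LaurentSeries ℤ} {k : ℤ}
    (hfg : (f : LaurentSeries E) = castE4 E g) (hk : g.coeff k = 1) : f ≠ 0 := by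
  rintro rfl
  rw [ZeroMemClass.coe_zero, castE4_eq] at hfg
  have h0 := congrArg (fun x : LaurentSeries E => x.coeff k) hfg
  simp only [HahnSeries.coeff_zero, coeffMap_coeff, hk, map_one] at h0
  exact zero_ne_one h0

/-- Gauss units (integral expansion with a coefficient `1`) of level `N q` are units of `V`. -/
theorem valuation_α_eq_one_of_int {V : ValuationSubring (_root_.Fermat.Agent.A2.Mod.FE E (N * q * q))}
    {V' : ValuationSubring (_root_.Fermat.Agent.A2.Mod.FE E (N * q))} (hV' : IsVinf P E (N * q) V')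
    (hcomap : V.comap (αE E (N * q) q : _root_.Fermat.Agent.A2.Mod.FE E (N * q) →+* _root_.Fermat.Agent.A2.Mod.FE E (N * q * q)) = V')
    {f : _root_.Fermat.Agent.A2.Mod.FE E (N * q)} {g : LaurentSeries ℤ} {k : ℤ}
    (hfg : (f : LaurentSeries E) = castE4 E g) (hk : g.coeff k = 1) :
    V.valuation (αE E (N * q) q f) = 1 :=
  valuation_α_eq_one hcomap (ne_zero_of_int4 hfg hk) (unit_of_int4 hV' hfg hk)

end Pull

/-! ## The concrete statements at `V` with `V.comap α = V∞(N q)` -/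

section Concrete

variable {P : ValuationSubring _root_.Fermat.Agent.A2.Mod.Qb} {E : IntermediateField ℚ _root_.Fermat.Agent.A2.Mod.Qb} {N q : ℕ}
  [NeZero N] [NeZero q] [NeZero (N * q)]
  {V : ValuationSubring (_root_.Fermat.Agent.A2.Mod.FE E (N * q * q))} {V' : ValuationSubring (_root_.Fermat.Agent.A2.Mod.FE E (N * q))}

theorem four_dvd_mul {N : ℕ} (q : ℕ) (h4 : 4 ∣ N) : 4 ∣ N * q := Dvd.dvd.mul_right h4 q

/-- `φ(j_d) ∈ V`. -/
theorem φ4_jE_mem (hV' : IsVinf P E (N * q) V')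
    (hcomap : V.comap (αE E (N * q) q : _root_.Fermat.Agent.A2.Mod.FE E (N * q) →+* _root_.Fermat.Agent.A2.Mod.FE E (N * q * q)) = V')
    (d : ℕ) [NeZero d] (hd : d ∣ N) : φ4 E N q (jE E N d hd) ∈ V := by
  rw [φ4_apply, αE_jE4]
  exact mem_α_of_mem hcomap (jE_mem4 P E (N * q) hV' d _)

/-- `v(φ t₄) = 1`. -/
theorem valuation_φ4_t4E (hV' : IsVinf P E (N * q) V')
    (hcomap : V.comap (αE E (N * q) q : _root_.Fermat.Agent.A2.Mod.FE E (N * q) →+* _root_.Fermat.Agent.A2.Mod.FE E (N * q * q)) = V')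
    (h4 : 4 ∣ N) : V.valuation (φ4 E N q (t4E E N h4)) = 1 := by
  rw [φ4_apply, αE_t4E]
  exact valuation_α_eq_one_of_int hV' hcomap (g := t4 ℤ) (k := -1)
    (by rw [coe_t4E, castE4_t4]) (coeff_t4_neg_one ℤ)

/-- `v(φ t₄ + 16) = 1`. -/
theorem valuation_φ4_t4E_add (hV' : IsVinf P E (N * q) V')
    (hcomap : V.comap (αE E (N * q) q : _root_.Fermat.Agent.A2.Mod.FE E (N * q) →+* _root_.Fermat.Agent.A2.Mod.FE E (N * q * q)) = V')
    (h4 : 4 ∣ N) : V.valuation (φ4 E N q (t4E E N h4) + 16) = 1 := by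
  have e : φ4 E N q (t4E E N h4) + 16
      = αE E (N * q) q (t4E E (N * q) (four_dvd_mul q h4) + 16) := by
    rw [φ4_apply, αE_t4E, map_add, map_ofNat]
  rw [e]
  refine valuation_α_eq_one_of_int hV' hcomap (g := t4 ℤ + 16) (k := -1) ?_ (coeff_t4_add_16 ℤ)
  rw [map_add, map_ofNat, castE4_t4]
  rfl

/-- `v(φ (t₂ + 16)) = 1`. -/
theorem valuation_φ4_t2E_add (hV' : IsVinf P E (N * q) V')
    (hcomap : V.comap (αE E (N * q) q : _root_.Fermat.Agent.A2.Mod.FE E (N * q) →+* _root_.Fermat.Agent.A2.Mod.FE E (N * q * q)) = V')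
    (h4 : 4 ∣ N) :
    V.valuation (φ4 E N q (t2E E N (two_dvd_of_four_dvd h4) + 16)) = 1 := by
  have e : φ4 E N q (t2E E N (two_dvd_of_four_dvd h4) + 16)
      = αE E (N * q) q (t2E E (N * q) (two_dvd_of_four_dvd (four_dvd_mul q h4)) + 16) := by
    rw [φ4_apply, map_add, map_ofNat, αE_t2E, map_add, map_ofNat]
  rw [e]
  refine valuation_α_eq_one_of_int hV' hcomap (g := t2 ℤ + 16) (k := -1) ?_ (coeff_t2_add_16 ℤ)
  rw [map_add, map_ofNat, castE4_t2]
  rfl

/-- `v(φ j) = 1`. -/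
theorem valuation_φ4_jE_one (hV' : IsVinf P E (N * q) V')
    (hcomap : V.comap (αE E (N * q) q : _root_.Fermat.Agent.A2.Mod.FE E (N * q) →+* _root_.Fermat.Agent.A2.Mod.FE E (N * q * q)) = V') :
    V.valuation (φ4 E N q (jE E N 1 (one_dvd N))) = 1 := by
  rw [φ4_apply, αE_jE4]
  exact valuation_α_eq_one_of_int hV' hcomap (g := jqModC ℤ) (k := -1)
    (by rw [h4_coe_jE, qExpand_one_apply, castE4_jq]) (coeff_jqModC_neg_one ℤ)

/-- `v(φ j - 1728) = 1`. -/
theorem valuation_φ4_jE_sub (hV' : IsVinf P E (N * q) V')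
    (hcomap : V.comap (αE E (N * q) q : _root_.Fermat.Agent.A2.Mod.FE E (N * q) →+* _root_.Fermat.Agent.A2.Mod.FE E (N * q * q)) = V') :
    V.valuation (φ4 E N q (jE E N 1 (one_dvd N)) - 1728) = 1 := by
  have e : φ4 E N q (jE E N 1 (one_dvd N)) - 1728
      = αE E (N * q) q (jE E (N * q) 1 (one_dvd _) - 1728) := by
    rw [φ4_apply, αE_jE4, map_sub, map_ofNat]
  rw [e]
  refine valuation_α_eq_one_of_int hV' hcomap (g := jqModC ℤ - 1728) (k := -1) ?_
    (coeff_jq4_sub_1728 ℤ)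
  rw [map_sub, map_ofNat, castE4_jq, ← h4_coe_jE_one E (N * q)]
  rfl

/-- `v(φ U₂(j, j₂)) = 1`. -/
theorem valuation_φ4_u2 (hV' : IsVinf P E (N * q) V')
    (hcomap : V.comap (αE E (N * q) q : _root_.Fermat.Agent.A2.Mod.FE E (N * q) →+* _root_.Fermat.Agent.A2.Mod.FE E (N * q * q)) = V')
    (h4 : 4 ∣ N) :
    V.valuation (φ4 E N q
      (h4u2 (jE E N 1 (one_dvd N)) (jE E N 2 (two_dvd_of_four_dvd h4)))) = 1 := by
  have e : φ4 E N q (h4u2 (jE E N 1 (one_dvd N)) (jE E N 2 (two_dvd_of_four_dvd h4)))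
      = αE E (N * q) q (h4u2 (jE E (N * q) 1 (one_dvd _))
          (jE E (N * q) 2 (two_dvd_of_four_dvd (four_dvd_mul q h4)))) := by
    rw [map_h4u2, φ4_jE, φ4_jE]
    have h := map_h4u2 (αE E (N * q) q : _root_.Fermat.Agent.A2.Mod.FE E (N * q) →+* _root_.Fermat.Agent.A2.Mod.FE E (N * q * q))
      (jE E (N * q) 1 (one_dvd _)) (jE E (N * q) 2 (two_dvd_of_four_dvd (four_dvd_mul q h4)))
    rw [RingHom.coe_coe] at h
    rw [h, αE_jE4, αE_jE4]
  rw [e]
  refine valuation_α_eq_one_of_int hV' hcomap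
    (g := h4u2 (jqModC ℤ) (qExpand ℤ 2 (jqModC ℤ))) (k := -3) ?_ (coeff_u2 ℤ)
  rw [map_h4u2, castE4_qExpand, castE4_jq,
    ← h4_coe_jE E (N * q) 2 (two_dvd_of_four_dvd (four_dvd_mul q h4)),
    ← h4_coe_jE_one E (N * q)]
  exact (map_h4u2 (_root_.Fermat.Agent.A2.Mod.FE E (N * q)).val.toRingHom _ _)

/-- `v(φ U₂(j₂, j₄)) = 1`. -/
theorem valuation_φ4_u2e (hV' : IsVinf P E (N * q) V')
    (hcomap : V.comap (αE E (N * q) q : _root_.Fermat.Agent.A2.Mod.FE E (N * q) →+* _root_.Fermat.Agent.A2.Mod.FE E (N * q * q)) = V')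
    (h4 : 4 ∣ N) :
    V.valuation (φ4 E N q
      (h4u2 (jE E N 2 (two_dvd_of_four_dvd h4)) (jE E N 4 h4))) = 1 := by
  have e : φ4 E N q (h4u2 (jE E N 2 (two_dvd_of_four_dvd h4)) (jE E N 4 h4))
      = αE E (N * q) q (h4u2 (jE E (N * q) 2 (two_dvd_of_four_dvd (four_dvd_mul q h4)))
          (jE E (N * q) 4 (four_dvd_mul q h4))) := by
    rw [map_h4u2, φ4_jE, φ4_jE]
    have h := map_h4u2 (αE E (N * q) q : _root_.Fermat.Agent.A2.Mod.FE E (N * q) →+* _root_.Fermat.Agent.A2.Mod.FE E (N * q * q))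
      (jE E (N * q) 2 (two_dvd_of_four_dvd (four_dvd_mul q h4)))
      (jE E (N * q) 4 (four_dvd_mul q h4))
    rw [RingHom.coe_coe] at h
    rw [h, αE_jE4, αE_jE4]
  rw [e]
  refine valuation_α_eq_one_of_int hV' hcomap
    (g := h4u2 (qExpand ℤ 2 (jqModC ℤ)) (qExpand ℤ 4 (jqModC ℤ))) (k := -6) ?_ (coeff_u2e ℤ)
  rw [map_h4u2, castE4_qExpand, castE4_qExpand, castE4_jq,
    ← h4_coe_jE E (N * q) 2 (two_dvd_of_four_dvd (four_dvd_mul q h4)),
    ← h4_coe_jE E (N * q) 4 (four_dvd_mul q h4)]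
  exact (map_h4u2 (_root_.Fermat.Agent.A2.Mod.FE E (N * q)).val.toRingHom _ _)

/-- **R4, congruence for `t₄`** (all unit hypotheses discharged): if `γ(j_d) ≡ φ(j_d)` modulo
`𝔪_V` for `d = 1, 2, 4` (FROB), then `φ t₄, γ t₄ ∈ V` and `γ(t₄) ≡ φ(t₄)` modulo `𝔪_V`. -/
theorem reg4_congr (hV' : IsVinf P E (N * q) V')
    (hcomap : V.comap (αE E (N * q) q : _root_.Fermat.Agent.A2.Mod.FE E (N * q) →+* _root_.Fermat.Agent.A2.Mod.FE E (N * q * q)) = V')
    (h4 : 4 ∣ N)
    (c1 : γ4 E N q (jE E N 1 (one_dvd N)) - φ4 E N q (jE E N 1 (one_dvd N)) ∈ V.nonunits)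
    (c2 : γ4 E N q (jE E N 2 (two_dvd_of_four_dvd h4))
      - φ4 E N q (jE E N 2 (two_dvd_of_four_dvd h4)) ∈ V.nonunits)
    (c4 : γ4 E N q (jE E N 4 h4) - φ4 E N q (jE E N 4 h4) ∈ V.nonunits) :
    φ4 E N q (t4E E N h4) ∈ V ∧ γ4 E N q (t4E E N h4) ∈ V ∧
      γ4 E N q (t4E E N h4) - φ4 E N q (t4E E N h4) ∈ V.nonunits :=
  t4E_congr_of_hom E N (φ4 E N q) (γ4 E N q) V h4
    (φ4_jE_mem hV' hcomap 1 _) (φ4_jE_mem hV' hcomap 2 _) (φ4_jE_mem hV' hcomap 4 _)
    c1 c2 c4 (valuation_φ4_u2 hV' hcomap h4) (valuation_φ4_u2e hV' hcomap h4)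
    (valuation_φ4_t2E_add hV' hcomap h4)

/-- **R4, transfer of `hres` from `j` to `t₄`** (all unit hypotheses discharged):
`x_j = γ j - φ j`, `g_j = (j⁴ (j - 1728)³)^k`  ⟹  `x = γ t₄ - φ t₄`, `g = (t₄² (t₄ + 16)⁵)^k`. -/
theorem reg4_hres (hV' : IsVinf P E (N * q) V')
    (hcomap : V.comap (αE E (N * q) q : _root_.Fermat.Agent.A2.Mod.FE E (N * q) →+* _root_.Fermat.Agent.A2.Mod.FE E (N * q * q)) = V')
    (h4 : 4 ∣ N)
    (c1 : γ4 E N q (jE E N 1 (one_dvd N)) - φ4 E N q (jE E N 1 (one_dvd N)) ∈ V.nonunits)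
    (c2 : γ4 E N q (jE E N 2 (two_dvd_of_four_dvd h4))
      - φ4 E N q (jE E N 2 (two_dvd_of_four_dvd h4)) ∈ V.nonunits)
    (c4 : γ4 E N q (jE E N 4 h4) - φ4 E N q (jE E N 4 h4) ∈ V.nonunits)
    (U : _root_.Fermat.Agent.A2.Mod.FE E (N * q * q)) (k : ℕ)
    (hres : ((γ4 E N q (jE E N 1 (one_dvd N)) - φ4 E N q (jE E N 1 (one_dvd N))) ^ (6 * k)
        - (φ4 E N q (jE E N 1 (one_dvd N)) ^ 4
            * (φ4 E N q (jE E N 1 (one_dvd N)) - 1728) ^ 3) ^ k * U) * U⁻¹ ∈ V.nonunits) :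
    ((γ4 E N q (t4E E N h4) - φ4 E N q (t4E E N h4)) ^ (6 * k)
        - (φ4 E N q (t4E E N h4) ^ 2 * (φ4 E N q (t4E E N h4) + 16) ^ 5) ^ k * U) * U⁻¹
      ∈ V.nonunits := by
  obtain ⟨-, h2, hx⟩ := reg4_congr hV' hcomap h4 c1 c2 c4
  exact hres_transfer4_of_hom E N (φ4 E N q) (γ4 E N q) V h4 U k
    (valuation_φ4_t4E hV' hcomap h4) (valuation_φ4_t4E_add hV' hcomap h4)
    (valuation_φ4_jE_one hV' hcomap) (valuation_φ4_jE_sub hV' hcomap) h2 hx hres

end Concrete

end Fermat.Agent.S36.H994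

end
end
-- ===== PACK-END S36/H994/Plug4.lean

-- ===== PACK-BEGIN S36/H816/SymBase.lean
section




/-!
# S36 / MOD3-SYM, part 1 (helper816): the `(α, β)` table of the Gauss valuations

Levels `N' = M q` and `N = M q²` (`A2/Mod/Spec` vocabulary; in this file the levels are
arbitrary: `N` and `N ℓ`).  `α = heckeAlphaBar E N ℓ` (inclusion), `β = heckeBetaBar E N ℓ`
(`t ↦ t^ℓ`).

* `isGaussInt_qExpand`, `isGaussInt_of_qExpand` : `f` is Gauss-integral iff `f(t^ℓ)` is;
* `alpha_mem_iff`, `beta_mem_iff` : `V∞(Nℓ).comap α = V∞(N) = V∞(Nℓ).comap β`   (table, row FF);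
* `alpha_mem_comap_iff`, `beta_mem_comap_iff` : the same for `V₀ = V∞ ∘ W`       (table, row VV);
* `alpha_beta_comm` : the commuting square `β_{Nℓ} ∘ α_N = α_{Nℓ} ∘ β_N`;
* nonunit versions.
-/

set_option autoImplicit false
set_option linter.unusedSectionVars false
set_option linter.style.haveILetI false
set_option synthInstance.maxHeartbeats 400000
set_option maxHeartbeats 1600000

noncomputable section

namespace Fermat.Agent.S36.H816

open ModularCurve HahnSeries Polynomial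
open Fermat.Agent Fermat.Agent.A2.Mod Fermat.Agent.A2.H708

/-! ## Generic: Gauss-integrality and `t ↦ t^ℓ` -/

section Generic

variable {L : Type*} [Field L] [Algebra ℚ L] (A : ValuationSubring L)
variable {F₀ F₁ : IntermediateField ℚ (LaurentSeries ℚ)}

theorem incl_qExpand (ℓ : ℕ) [NeZero ℓ] (U : LaurentSeries A) :
    incl A (qExpand A ℓ U) = qExpand L ℓ (incl A U) :=
  ModularCurve.coeffMap_qExpand A.subtype ℓ U

theorem red_qExpand (ℓ : ℕ) [NeZero ℓ] (U : LaurentSeries A) :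
    red A (qExpand A ℓ U) = qExpand _ ℓ (red A U) :=
  ModularCurve.coeffMap_qExpand (IsLocalRing.residue A) ℓ U

theorem red_qExpand_ne_zero (ℓ : ℕ) [NeZero ℓ] {U : LaurentSeries A} (hU : red A U ≠ 0) :
    red A (qExpand A ℓ U) ≠ 0 := by
  rw [red_qExpand]
  intro h
  apply hU
  apply qExpand_injective (R := IsLocalRing.ResidueField A) (N := ℓ)
  rw [h, map_zero]

theorem qExpand_cst (ℓ : ℕ) [NeZero ℓ] (c : L) : qExpand L ℓ (cst c) = cst c := by
  show qExpand L ℓ (algebraMap L (LaurentSeries L) c) = algebraMap L (LaurentSeries L) c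
  rw [algebraMap_laurentSeries_eq_single, qExpand_single, mul_zero]

/-- `f` Gauss-integral ⟹ `f(t^ℓ)` Gauss-integral. -/
theorem isGaussInt_qExpand (ℓ : ℕ) [NeZero ℓ]
    (hF : ∀ x ∈ laurentBaseChange L F₀, qExpand L ℓ x ∈ laurentBaseChange L F₁)
    {f : LaurentSeries L} (hf : IsGaussInt A F₀ f) : IsGaussInt A F₁ (qExpand L ℓ f) := by
  obtain ⟨U₁, U₂, h0, hm, he⟩ := hf
  refine ⟨qExpand A ℓ U₁, qExpand A ℓ U₂, red_qExpand_ne_zero A ℓ h0, ?_, ?_⟩
  · rw [incl_qExpand]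
    exact hF _ hm
  · rw [incl_qExpand, incl_qExpand, ← map_mul, he]

/-- `f(t^ℓ)` Gauss-integral ⟹ `f` Gauss-integral. -/
theorem isGaussInt_of_qExpand (ℓ : ℕ) [NeZero ℓ] (hgen : IntGen F₀) (hmax : AttainsMax A F₀)
    (hF : ∀ x ∈ laurentBaseChange L F₀, qExpand L ℓ x ∈ laurentBaseChange L F₁)
    {f : LaurentSeries L} (hfF : f ∈ laurentBaseChange L F₀)
    (hf : IsGaussInt A F₁ (qExpand L ℓ f)) : IsGaussInt A F₀ f := by
  by_cases hf0 : f = 0
  · rw [hf0]; exact IsGaussInt.zero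
  obtain ⟨c, U₁, U₂, hc, h₁, h₂, hm₁, hm₂, he⟩ := exists_normal_form hgen hmax hfF hf0
  have he' : qExpand L ℓ f * incl A (qExpand A ℓ U₂) = cst c * incl A (qExpand A ℓ U₁) := by
    rw [incl_qExpand, incl_qExpand, ← map_mul, he, map_mul, qExpand_cst]
  have hm₂' : incl A (qExpand A ℓ U₂) ∈ laurentBaseChange L F₁ := by
    rw [incl_qExpand]
    exact hF _ hm₂
  have hcA : c ∈ A :=
    (isGaussInt_iff_of_normal_form (red_qExpand_ne_zero A ℓ h₁) (red_qExpand_ne_zero A ℓ h₂)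
      hm₂' he').mp hf
  exact (isGaussInt_iff_of_normal_form h₁ h₂ hm₂ he).mpr hcA

end Generic

/-! ## The table for `V∞` and `V₀` -/

section Table

variable {P : ValuationSubring Qb} {E : IntermediateField ℚ Qb}
variable (N ℓ : ℕ) [NeZero N] [NeZero ℓ]

theorem qExpand_mem_FE {x : LaurentSeries E} (hx : x ∈ FE E N) : qExpand E ℓ x ∈ FE E (N * ℓ) := by
  have h := (heckeBetaBar E N ℓ ⟨x, hx⟩).2
  rw [coe_heckeBetaBar] at h
  exact h

variable {N ℓ}

/-- Row FF, column `α`: `V∞(Nℓ).comap α = V∞(N)`. -/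
theorem alpha_mem_iff [IsDiscreteValuationRing (RE P E)] {VN : ValuationSubring (FE E N)}
    {V : ValuationSubring (FE E (N * ℓ))} (hVN : IsVinf P E N VN) (hV : IsVinf P E (N * ℓ) V)
    (g : FE E N) : heckeAlphaBar E N ℓ g ∈ V ↔ g ∈ VN := by
  rw [hV (heckeAlphaBar E N ℓ g), hVN g, coe_heckeAlphaBar]
  constructor
  · exact H378.isGaussInt_descend (RE P E) (intGen_full N)
      (attainsMax_of_isNoetherianRing _ _) (H378.FE_le E N ℓ) g.2
  · exact H378.isGaussInt_mono (RE P E) (H378.FE_le E N ℓ)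

/-- Row FF, column `β`: `V∞(Nℓ).comap β = V∞(N)`. -/
theorem beta_mem_iff [IsDiscreteValuationRing (RE P E)] {VN : ValuationSubring (FE E N)}
    {V : ValuationSubring (FE E (N * ℓ))} (hVN : IsVinf P E N VN) (hV : IsVinf P E (N * ℓ) V)
    (g : FE E N) : heckeBetaBar E N ℓ g ∈ V ↔ g ∈ VN := by
  rw [hV (heckeBetaBar E N ℓ g), hVN g, coe_heckeBetaBar]
  constructor
  · exact isGaussInt_of_qExpand (RE P E) ℓ (intGen_full N)
      (attainsMax_of_isNoetherianRing _ _) (fun x hx => qExpand_mem_FE N ℓ hx) g.2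
  · exact isGaussInt_qExpand (RE P E) ℓ (fun x hx => qExpand_mem_FE N ℓ hx)

/-- A field homomorphism `φ` with `V.comap φ = V'` also matches the nonunits. -/
theorem mem_nonunits_iff_of_comap {F F' : Type*} [Field F] [Field F'] (φ : F' →+* F)
    {V : ValuationSubring F} {V' : ValuationSubring F'} (h : ∀ g, φ g ∈ V ↔ g ∈ V') (g : F') :
    φ g ∈ V.nonunits ↔ g ∈ V'.nonunits := by
  rw [ValuationSubring.mem_nonunits_iff_or, ValuationSubring.mem_nonunits_iff_or,
    map_eq_zero, ← map_inv₀, h]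

/-- Row VV: `V₀(Nℓ).comap α = V₀(N)` and `V₀(Nℓ).comap β = V₀(N)`, `V₀ = V∞ ∘ W`. -/
theorem alpha_mem_comap_iff [IsDiscreteValuationRing (RE P E)]
    {VN : ValuationSubring (FE E N)} {V : ValuationSubring (FE E (N * ℓ))}
    (hVN : IsVinf P E N VN) (hV : IsVinf P E (N * ℓ) V)
    {WN : FE E N ≃ₐ[E] FE E N} {W : FE E (N * ℓ) ≃ₐ[E] FE E (N * ℓ)}
    (hWN : IsFricke E N WN) (hW : IsFricke E (N * ℓ) W) (g : FE E N) :
    heckeAlphaBar E N ℓ g ∈ V.comap (W : FE E (N * ℓ) →+* FE E (N * ℓ)) ↔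
      g ∈ VN.comap (WN : FE E N →+* FE E N) := by
  rw [ValuationSubring.mem_comap, ValuationSubring.mem_comap]
  show W (heckeAlphaBar E N ℓ g) ∈ V ↔ WN g ∈ VN
  rw [(H553.frickeCompat E N ℓ WN W hWN hW g).1]
  exact beta_mem_iff hVN hV (WN g)

theorem beta_mem_comap_iff [IsDiscreteValuationRing (RE P E)]
    {VN : ValuationSubring (FE E N)} {V : ValuationSubring (FE E (N * ℓ))}
    (hVN : IsVinf P E N VN) (hV : IsVinf P E (N * ℓ) V)
    {WN : FE E N ≃ₐ[E] FE E N} {W : FE E (N * ℓ) ≃ₐ[E] FE E (N * ℓ)}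
    (hWN : IsFricke E N WN) (hW : IsFricke E (N * ℓ) W) (g : FE E N) :
    heckeBetaBar E N ℓ g ∈ V.comap (W : FE E (N * ℓ) →+* FE E (N * ℓ)) ↔
      g ∈ VN.comap (WN : FE E N →+* FE E N) := by
  rw [ValuationSubring.mem_comap, ValuationSubring.mem_comap]
  show W (heckeBetaBar E N ℓ g) ∈ V ↔ WN g ∈ VN
  rw [(H553.frickeCompat E N ℓ WN W hWN hW g).2]
  exact alpha_mem_iff hVN hV (WN g)

/-- The commuting square `β_{Nℓ} ∘ α_N = α_{Nℓ} ∘ β_N` (both are `t ↦ t^ℓ`). -/
theorem alpha_beta_comm (g : FE E N) :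
    heckeBetaBar E (N * ℓ) ℓ (heckeAlphaBar E N ℓ g) =
      heckeAlphaBar E (N * ℓ) ℓ (heckeBetaBar E N ℓ g) := by
  apply Subtype.ext
  rw [coe_heckeBetaBar, coe_heckeAlphaBar, coe_heckeAlphaBar, coe_heckeBetaBar]

end Table

end Fermat.Agent.S36.H816

end

end
-- ===== PACK-END S36/H816/SymBase.lean

-- ===== PACK-BEGIN S36/H816/SymKron.lean
section



/-!
# S36 / MOD3-SYM, part 2 (helper816): Kronecker congruences for the generators

`V = V∞` the Gauss valuation ring of `F_N` (`IsVinf`), `P` over the prime `q`.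

* `natCast_mem_nonunits` : `q ∈ 𝔪_V`;
* `kron_jE` : `j_{dq} - j_d ^ q ∈ 𝔪_V` for `d q ∣ N`   (no Frobenius lift needed);
* `sub_mem_nonunits_of_pow` : in a valuation ring with `q ∈ 𝔪`, `x^q - y^q ∈ 𝔪 ⟹ x - y ∈ 𝔪`.
-/

set_option autoImplicit false
set_option linter.unusedSectionVars false
set_option linter.style.haveILetI false
set_option synthInstance.maxHeartbeats 400000
set_option maxHeartbeats 1600000

noncomputable section

namespace Fermat.Agent.S36.H816

open ModularCurve HahnSeries Polynomial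
open Fermat.Agent Fermat.Agent.A2.Mod Fermat.Agent.A2.H708 Fermat.Agent.S28

section Val

variable {F : Type*} [Field F] (V : ValuationSubring F)

theorem add_mem_nonunits {x y : F} (hx : x ∈ V.nonunits) (hy : y ∈ V.nonunits) :
    x + y ∈ V.nonunits := by
  rw [ValuationSubring.mem_nonunits_iff] at hx hy ⊢
  exact lt_of_le_of_lt (V.valuation.map_add x y) (max_lt hx hy)

theorem neg_mem_nonunits {x : F} (hx : x ∈ V.nonunits) : -x ∈ V.nonunits := by
  rw [ValuationSubring.mem_nonunits_iff] at hx ⊢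
  rwa [Valuation.map_neg]

theorem sub_mem_nonunits {x y : F} (hx : x ∈ V.nonunits) (hy : y ∈ V.nonunits) :
    x - y ∈ V.nonunits := by
  rw [sub_eq_add_neg]
  exact add_mem_nonunits V hx (neg_mem_nonunits V hy)

theorem mul_mem_nonunits_left {x y : F} (hx : x ∈ V.nonunits) (hy : y ∈ V) :
    x * y ∈ V.nonunits := by
  rw [ValuationSubring.mem_nonunits_iff] at hx ⊢
  rw [map_mul]
  exact mul_lt_one_of_lt_of_le hx ((ValuationSubring.valuation_le_one_iff V y).mpr hy)

theorem mul_mem_nonunits_right {x y : F} (hx : x ∈ V) (hy : y ∈ V.nonunits) :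
    x * y ∈ V.nonunits := by
  rw [mul_comm]
  exact mul_mem_nonunits_left V hy hx

theorem mem_of_mem_nonunits {x : F} (hx : x ∈ V.nonunits) : x ∈ V :=
  ValuationSubring.nonunits_subset hx

theorem pow_mem_nonunits_iff {x : F} {n : ℕ} (hn : n ≠ 0) :
    x ^ n ∈ V.nonunits ↔ x ∈ V.nonunits := by
  rw [ValuationSubring.mem_nonunits_iff, ValuationSubring.mem_nonunits_iff, map_pow]
  exact pow_lt_one_iff hn

/-- `x ≡ y` and `y ∉ 𝔪` ⟹ `x ∉ 𝔪`. -/
theorem not_mem_nonunits_of_sub {x y : F} (hxy : x - y ∈ V.nonunits) (hy : y ∉ V.nonunits) :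
    x ∉ V.nonunits := by
  intro hx
  apply hy
  have : y = x - (x - y) := by ring
  rw [this]
  exact sub_mem_nonunits V hx hxy

/-- `a ≡ b` ⟹ `a ^ n ≡ b ^ n`. -/
theorem pow_sub_pow_mem_nonunits {a b : F} (ha : a ∈ V) (hb : b ∈ V)
    (hab : a - b ∈ V.nonunits) (n : ℕ) : a ^ n - b ^ n ∈ V.nonunits := by
  induction n with
  | zero => simp only [pow_zero, sub_self]; rw [ValuationSubring.mem_nonunits_iff]; simp
  | succ n ih =>
      have e : a ^ (n + 1) - b ^ (n + 1) = (a ^ n - b ^ n) * a + b ^ n * (a - b) := by ring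
      rw [e]
      exact add_mem_nonunits V (mul_mem_nonunits_left V ih ha)
        (mul_mem_nonunits_right V (pow_mem hb n) hab)

/-- `a ≡ a'`, `b ≡ b'` ⟹ `a b ≡ a' b'`. -/
theorem mul_sub_mul_mem_nonunits {a a' b b' : F} (ha' : a' ∈ V) (hb : b ∈ V)
    (haa : a - a' ∈ V.nonunits) (hbb : b - b' ∈ V.nonunits) : a * b - a' * b' ∈ V.nonunits := by
  have e : a * b - a' * b' = (a - a') * b + a' * (b - b') := by ring
  rw [e]
  exact add_mem_nonunits V (mul_mem_nonunits_left V haa hb) (mul_mem_nonunits_right V ha' hbb)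

/-- In a valuation ring with `q ∈ 𝔪` (`q` prime): `x ^ q - y ^ q ∈ 𝔪 ⟹ x - y ∈ 𝔪`. -/
theorem sub_mem_nonunits_of_pow {q : ℕ} (hq : q.Prime) (hqV : ((q : ℕ) : F) ∈ V.nonunits)
    {x y : F} (hx : x ∈ V) (hy : y ∈ V) (h : x ^ q - y ^ q ∈ V.nonunits) :
    x - y ∈ V.nonunits := by
  haveI : Fact q.Prime := ⟨hq⟩
  set k := IsLocalRing.ResidueField V with hk
  have hchar : CharP k q := by
    rw [CharP.charP_iff_prime_eq_zero hq]
    have h1 : IsLocalRing.residue V ((q : ℕ) : V) = 0 := by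
      rw [IsLocalRing.residue_eq_zero_iff, ← ValuationSubring.coe_mem_nonunits_iff]
      have : (((q : ℕ) : V) : F) = ((q : ℕ) : F) := by simp
      rw [this]
      exact hqV
    rw [map_natCast] at h1
    exact h1
  set X : V := ⟨x, hx⟩
  set Y : V := ⟨y, hy⟩
  have h2 : IsLocalRing.residue V (X ^ q - Y ^ q) = 0 := by
    rw [IsLocalRing.residue_eq_zero_iff, ← ValuationSubring.coe_mem_nonunits_iff]
    exact h
  have h3 : (IsLocalRing.residue V (X - Y)) ^ q = 0 := by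
    rw [map_sub, sub_pow_char, ← map_pow, ← map_pow, ← map_sub]
    exact h2
  have h4 : IsLocalRing.residue V (X - Y) = 0 := pow_eq_zero_iff (hq.ne_zero) |>.mp h3
  rw [IsLocalRing.residue_eq_zero_iff, ← ValuationSubring.coe_mem_nonunits_iff] at h4
  exact h4

end Val

/-! ## Kronecker for the generators -/

section Kron

variable {P : ValuationSubring Qb} {E : IntermediateField ℚ Qb}

theorem natCast_mem_nonunits [IsDiscreteValuationRing (RE P E)] {q : ℕ}
    (hP : P.LiesOverPrime q) {N : ℕ} {V : ValuationSubring (FE E N)} (hV : IsVinf P E N V) :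
    ((q : ℕ) : FE E N) ∈ V.nonunits := by
  have hqE : ((q : ℕ) : E) ∈ (RE P E).nonunits := by
    rw [ValuationSubring.mem_nonunits_iff_or]
    by_cases h0 : ((q : ℕ) : E) = 0
    · exact Or.inl h0
    · right
      intro hmem
      have hmem' : algebraMap E Qb (((q : ℕ) : E)⁻¹) ∈ P := hmem
      rw [map_inv₀, map_natCast] at hmem'
      have hq' : ((q : ℕ) : Qb) ∈ P.nonunits := hP
      rw [ValuationSubring.mem_nonunits_iff_or] at hq'
      rcases hq' with h | h
      · apply h0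
        have : algebraMap E Qb ((q : ℕ) : E) = 0 := by rw [map_natCast]; exact h
        exact (map_eq_zero (algebraMap E Qb)).mp this
      · exact h hmem'
  have hmem : ((q : ℕ) : E) ∈ RE P E := ValuationSubring.nonunits_subset hqE
  have hr : (⟨((q : ℕ) : E), hmem⟩ : RE P E) ∈ IsLocalRing.maximalIdeal (RE P E) := by
    rw [← ValuationSubring.coe_mem_nonunits_iff]
    exact hqE
  have h := (A2.Mod.H13.isOver_of_isVinf hV).nonunit _ hr
  have e : algebraMap (RE P E) (FE E N) ⟨((q : ℕ) : E), hmem⟩ = ((q : ℕ) : FE E N) := by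
    rw [A2.Mod.H13.algebraMap_RE_eq]
    exact map_natCast (algebraMap E (FE E N)) q
  rw [e] at h
  exact h

theorem coe_jE_eq_jser (N d : ℕ) [NeZero d] (hd : d ∣ N) :
    ((jE E N d hd : FE E N) : LaurentSeries E) = H378.jser E d :=
  (H378.jser_eq_coeffEmb E d).symm

theorem jE_mem [IsDiscreteValuationRing (RE P E)] {N : ℕ} {V : ValuationSubring (FE E N)}
    (hV : IsVinf P E N V) (d : ℕ) [NeZero d] (hd : d ∣ N) : jE E N d hd ∈ V :=
  H378.jser_mem_V hV (coe_jE_eq_jser N d hd)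

theorem jE_congr (N : ℕ) {d d' : ℕ} [NeZero d] [NeZero d'] (h : d = d') (hd : d ∣ N)
    (hd' : d' ∣ N) : jE E N d hd = jE E N d' hd' := by
  subst h
  rfl

/-- polynomial expressions: `a ≡ b ⟹ p(a) ≡ p(b)`. -/
theorem aeval_sub_aeval_mem_nonunits {R F : Type*} [CommRing R] [Field F] [Algebra R F]
    (V : ValuationSubring F) (hR : ∀ r : R, algebraMap R F r ∈ V) {a b : F} (ha : a ∈ V)
    (hb : b ∈ V) (hab : a - b ∈ V.nonunits) (p : Polynomial R) :
    Polynomial.aeval a p - Polynomial.aeval b p ∈ V.nonunits := by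
  induction p using Polynomial.induction_on' with
  | add p₁ p₂ h₁ h₂ =>
      have e : Polynomial.aeval a (p₁ + p₂) - Polynomial.aeval b (p₁ + p₂)
          = (Polynomial.aeval a p₁ - Polynomial.aeval b p₁)
            + (Polynomial.aeval a p₂ - Polynomial.aeval b p₂) := by
        rw [map_add, map_add]; ring
      rw [e]
      exact add_mem_nonunits V h₁ h₂
  | monomial n r =>
      have e : Polynomial.aeval a (Polynomial.monomial n r)
          - Polynomial.aeval b (Polynomial.monomial n r)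
          = algebraMap R F r * (a ^ n - b ^ n) := by
        rw [Polynomial.aeval_monomial, Polynomial.aeval_monomial]; ring
      rw [e]
      exact mul_mem_nonunits_right V (hR r) (pow_sub_pow_mem_nonunits V ha hb hab n)

/-- `j_{dq} ^ q - j_d` is a unit of `V∞`. -/
theorem kron_unit_jE [IsDiscreteValuationRing (RE P E)] {q : ℕ} [NeZero q] (hq : q.Prime)
    {N : ℕ} {V : ValuationSubring (FE E N)} (hV : IsVinf P E N V)
    (d : ℕ) [NeZero d] (hd : d ∣ N) (hdq : d * q ∣ N) :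
    (jE E N (d * q) hdq) ^ q - jE E N d hd ≠ 0 ∧
      ((jE E N (d * q) hdq) ^ q - jE E N d hd)⁻¹ ∈ V := by
  set x : FE E N := jE E N (d * q) hdq with hx
  set y : FE E N := jE E N d hd with hy
  have hxc : (x : LaurentSeries E) = H378.jser E (d * q) := coe_jE_eq_jser N (d * q) hdq
  have hyc : (y : LaurentSeries E) = H378.jser E d := coe_jE_eq_jser N d hd
  have hsc : ((x ^ q - y : FE E N) : LaurentSeries E)
      = incl (RE P E) (castA (RE P E) (jInt (d * q) ^ q - jInt d)) := by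
    rw [H378.incl_sInt, ← H378.valHom_apply, map_sub, map_pow, H378.valHom_apply,
      H378.valHom_apply, hxc, hyc]
  have hred := H378.red_sInt_ne_zero E (RE P E) q hq.two_le d
  have hs0 : x ^ q - y ≠ 0 := by
    intro h
    have h1 : ((x ^ q - y : FE E N) : LaurentSeries E) = 0 := by
      rw [h]
      rfl
    rw [hsc] at h1
    exact incl_ne_zero _ (ne_zero_of_red_ne_zero _ hred) h1
  refine ⟨hs0, ?_⟩
  rw [hV, IntermediateField.coe_inv, hsc]
  refine H378.isGaussInt_inv_of_prim _ hred ?_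
  rw [← hsc]
  exact (x ^ q - y).2

/-- **Kronecker congruence for the generators**: `j_{dq} ≡ j_d ^ q mod 𝔪_{V∞}`. -/
theorem kron_jE [IsDiscreteValuationRing (RE P E)] {q : ℕ} [NeZero q] (hq : q.Prime)
    (hP : P.LiesOverPrime q) {N : ℕ} {V : ValuationSubring (FE E N)} (hV : IsVinf P E N V)
    (d : ℕ) [NeZero d] (hd : d ∣ N) (hdq : d * q ∣ N) :
    jE E N (d * q) hdq - (jE E N d hd) ^ q ∈ V.nonunits := by
  set x : FE E N := jE E N (d * q) hdq with hx
  set y : FE E N := jE E N d hd with hy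
  have hxc : (x : LaurentSeries E) = H378.jser E (d * q) := coe_jE_eq_jser N (d * q) hdq
  have hyc : (y : LaurentSeries E) = H378.jser E d := coe_jE_eq_jser N d hd
  have hxV : x ∈ V := jE_mem hV (d * q) hdq
  have hyV : y ∈ V := jE_mem hV d hd
  obtain ⟨Θ, hΘ⟩ := H378.kron_series E q hq d
  set θ : FE E N := Θ.eval₂ ((Polynomial.aeval (R := ℤ) y).toRingHom) x with hθ
  have hθV : θ ∈ V := by
    refine H378.eval₂_mem_subring _ x V.toSubring (fun r => ?_) hxV Θ
    show Polynomial.aeval y r ∈ V.toSubring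
    rw [Polynomial.aeval_def]
    refine H378.eval₂_mem_subring _ y V.toSubring (fun n => ?_) hyV r
    rw [eq_intCast]
    exact intCast_mem V.toSubring n
  have hθc : (θ : LaurentSeries E) = Θ.eval₂ (evalAt (H378.jser E d)) (H378.jser E (d * q)) := by
    rw [← H378.valHom_apply, hθ, Polynomial.hom_eval₂, H378.valHom_comp_aeval,
      H378.valHom_apply, hxc, hyc]
  -- the unit `s`
  have hsc : ((x ^ q - y : FE E N) : LaurentSeries E)
      = incl (RE P E) (castA (RE P E) (jInt (d * q) ^ q - jInt d)) := by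
    rw [H378.incl_sInt, ← H378.valHom_apply, map_sub, map_pow, H378.valHom_apply,
      H378.valHom_apply, hxc, hyc]
  have hred := H378.red_sInt_ne_zero E (RE P E) q hq.two_le d
  have hs0 : x ^ q - y ≠ 0 := by
    intro h
    have h1 : ((x ^ q - y : FE E N) : LaurentSeries E) = 0 := by
      rw [h]
      rfl
    rw [hsc] at h1
    exact incl_ne_zero _ (ne_zero_of_red_ne_zero _ hred) h1
  have hsi : (x ^ q - y)⁻¹ ∈ V := by
    rw [hV, IntermediateField.coe_inv, hsc]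
    refine H378.isGaussInt_inv_of_prim _ hred ?_
    rw [← hsc]
    exact (x ^ q - y).2
  have hkey : (x ^ q - y) * (x - y ^ q) = -(((q : ℕ) : FE E N) * θ) := by
    apply Subtype.ext
    have hL : (((x ^ q - y) * (x - y ^ q) : FE E N) : LaurentSeries E)
        = (H378.jser E (d * q) ^ q - H378.jser E d) * (H378.jser E (d * q) - H378.jser E d ^ q) := by
      rw [← H378.valHom_apply, map_mul, map_sub, map_sub, map_pow, map_pow, H378.valHom_apply,
        H378.valHom_apply, hxc, hyc]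
    have hR : ((-(((q : ℕ) : FE E N) * θ) : FE E N) : LaurentSeries E)
        = -(((q : ℕ) : LaurentSeries E) *
            Θ.eval₂ (evalAt (H378.jser E d)) (H378.jser E (d * q))) := by
      rw [← H378.valHom_apply, map_neg, map_mul, map_natCast, H378.valHom_apply, hθc]
    rw [hL, hR]
    linear_combination hΘ
  have hfin : x - y ^ q = (x ^ q - y)⁻¹ * -(((q : ℕ) : FE E N) * θ) := by
    rw [← hkey, ← mul_assoc, inv_mul_cancel₀ hs0, one_mul]
  rw [hfin]
  exact mul_mem_nonunits_right V hsi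
    (neg_mem_nonunits V (mul_mem_nonunits_left V (natCast_mem_nonunits hP hV) hθV))

end Kron

end Fermat.Agent.S36.H816

end

end
-- ===== PACK-END S36/H816/SymKron.lean

-- ===== PACK-BEGIN S15/H422/UnitFricke.lean
section




/-!
# S15 / P-C1 (helper422), part 3: the Fricke involution on the modular unit

`w_N(u) · u = N¹²` for `u = N¹² Δ(q^N)/Δ(q)`, i.e. `w_N(u) = g = Δ(q)/Δ(q^N)`.

The involution `wF` (helper528, cell A2) is defined through the analytic bridge
`toFun : R_N → (ℍ → ℂ)`; we compare with the analytic unit `τ ↦ N¹² Δ(Nτ)/Δ(τ)` of helper589,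
which lies in helper997's ring `holN N` by helper748's expansions of all its conjugates.
-/

set_option autoImplicit false

noncomputable section

open ModularCurve HahnSeries UpperHalfPlane
open scoped MatrixGroups

namespace Fermat.Agent.S15.H422

open Fermat.Agent.S24 Fermat.Agent.S28 Fermat.Agent.S24.H997 Fermat.Agent.A2.H528

local notation "Δ" => ModularForm.discriminant

variable (N : ℕ) [NeZero N]

theorem pos_N : 0 < N := Nat.pos_of_ne_zero (NeZero.ne N)

/-- the analytic unit `τ ↦ N¹² Δ(Nτ)/Δ(τ)`. -/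
def uAn : ℍ → ℂ := H589.unitFun N (pos_N N)

theorem scaleH_eq_infAff (τ : ℍ) : H589.scaleH N (pos_N N) τ = infAff N 0 1 τ := by
  apply UpperHalfPlane.ext
  rw [H589.scaleH_coe, infAff_coe (pos_N N) one_pos]
  simp

theorem uAn_eq (τ : ℍ) : uAn N τ = (N : ℂ) ^ 12 * H748.conjU N 0 1 τ := by
  simp only [uAn, H589.unitFun, H748.conjU, scaleH_eq_infAff]
  simp
  ring

/-- every `SL(2,ℤ)`-translate of the analytic unit has an expansion in `q^{1/N}`. -/
theorem compSL_uAn_mem_expRing (γ : SL(2, ℤ)) : compSL γ (uAn N) ∈ expRing N := by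
  have hmem : (fun τ => H748.conjU N 0 1 (γ • τ)) ∈ H748.famSet N :=
    H748.famSet_smul (H748.conjU_mem_famSet (pos_N N) dvd_rfl) γ
  obtain ⟨φ, hφ, -⟩ := H748.famSet_infExp hmem
  have h := (InfExp.const (N := N) ((N : ℂ) ^ 12)).mul hφ
  refine InfExp.mem_expRing (h.congr fun τ => ?_)
  rw [compSL_apply, uAn_eq]

theorem uAn_mem_holN : uAn N ∈ holN N :=
  ⟨H589.mdifferentiable_unitFun N (pos_N N), compSL_uAn_mem_expRing N⟩

/-- the analytic unit as an element of `Hol`. -/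
def uHol : (holBase N).Hol := ⟨uAn N, uAn_mem_holN N⟩

theorem infExp_uAn : InfExp N (uAn N) (qExpand ℂ N (H589.unitSeriesC N)) :=
  H748.infExp_level (H748.infExp_of_hasTExp_one (H589.hasTExp_unitFun N (pos_N N)))

theorem Φ_uSer : HolBase.Φ N (uSer N) = qExpand ℂ N (H589.unitSeriesC N) := by
  show qExpand ℂ N (coeffMap ιK (uSer N)) = _
  congr 1
  rw [uSer, Deg457.coeffMap_coeffEmb']
  exact coeffMap_uSerQ N

theorem qexp_uHol : (holBase N).qexp (uHol N) = HolBase.Φ N (uSer N) := by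
  rw [Φ_uSer]
  exact (infExp_uAn N).expInf_eq

/-- the analytic functional equation `u(-1/(Nτ)) · u(τ) = N¹²`. -/
theorem uAn_fricke (τ : ℍ) : uAn N (fricke N τ) * uAn N τ = (N : ℂ) ^ 12 := by
  have h1 : fricke N τ = ModularGroup.S • H589.scaleH N (pos_N N) τ := by
    rw [fricke, scaleH_eq_infAff]
  have h2 := H589.unitFun_S_scaleH N (pos_N N) τ
  rw [uAn, h1, h2, H589.unitFun', H589.unitFun]
  have hΔ1 : Δ τ ≠ 0 := ModularForm.discriminant_ne_zero τ
  have hΔ2 : Δ (H589.scaleH N (pos_N N) τ) ≠ 0 := ModularForm.discriminant_ne_zero _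
  field_simp

/-- formal relation ⇒ analytic relation for the unit. -/
theorem toFun_eq_of_uF_mul {a b : RN N} (h : uF N * inclRN N b = inclRN N a) :
    toFun N a = uAn N * toFun N b := by
  have h1 : (holBase N).bridge a = uHol N * (holBase N).bridge b := by
    apply (holBase N).qexp_injective
    rw [map_mul, HolBase.qexp_bridge, HolBase.qexp_bridge, qexp_uHol, ← map_mul]
    congr 1
    have := congrArg (fun x : FF N => (x : LaurentSeries Kbar)) h
    exact this.symm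
  have h2 := congrArg (fun x : (holBase N).Hol => (x : ℍ → ℂ)) h1
  exact h2

/-- **`w_N(u) · u = N¹²`.** -/
theorem wF_uF_mul_uF : wF N (uF N) * uF N = algebraMap Kbar (FF N) ((N : Kbar) ^ 12) := by
  obtain ⟨a, b, hb, hab⟩ := exists_div_inclRN N (uF N)
  have hb' : inclRN N b ≠ 0 := fun h => hb (inclRN_injective N (by rw [h, map_zero]))
  have hmul : uF N * inclRN N b = inclRN N a := by
    rw [hab, div_mul_cancel₀ _ hb']
  have hfun := toFun_eq_of_uF_mul N hmul
  -- apply the Fricke map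
  have hfunW : toFun N (wR N a) = compW N (uAn N) * toFun N (wR N b) := by
    rw [toFun_wR, toFun_wR, hfun, map_mul]
  -- the relation in `R_N`
  have hR : wR N a * a = algebraMap Kbar (RN N) ((N : Kbar) ^ 12) * (wR N b * b) := by
    apply toFun_injective N
    rw [map_mul, map_mul, map_mul, toFun_algebraMap, hfunW, hfun]
    funext τ
    simp only [Pi.mul_apply, compW_apply]
    have h := uAn_fricke N τ
    have hι : ιK ((N : Kbar) ^ 12) = (N : ℂ) ^ 12 := by
      rw [map_pow, map_natCast]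
    rw [hι, ← h]
    ring
  have hwb : wR N b ≠ 0 := fun h => hb (wR_injective N (by rw [h, map_zero]))
  have hwb' : inclRN N (wR N b) ≠ 0 := fun h => hwb (inclRN_injective N (by rw [h, map_zero]))
  have hF := congrArg (inclRN N) hR
  rw [map_mul, map_mul, map_mul, AlgHom.commutes] at hF
  have hwa : wF N (inclRN N a) = inclRN N (wR N a) := wFHom_inclRN N a
  have hwb2 : wF N (inclRN N b) = inclRN N (wR N b) := wFHom_inclRN N b
  rw [hab, map_div₀, hwa, hwb2]
  field_simp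
  linear_combination hF

/-- `w_N(u) = g`. -/
theorem wF_uF : wF N (uF N) = gF N := by
  have h1 := wF_uF_mul_uF N
  have h2 := uF_mul_gF N
  have hu := uF_ne_zero N
  apply mul_right_cancel₀ hu
  rw [h1, mul_comm, h2]

/-- `w_N(g) = u`. -/
theorem wF_gF : wF N (gF N) = uF N := by
  rw [← wF_uF, wF_wF]

end Fermat.Agent.S15.H422

end
end
-- ===== PACK-END S15/H422/UnitFricke.lean

-- ===== PACK-BEGIN S15/H422/UnitInt.lean
section




/-!
# S15 / P-C1 (helper422), part 2: the modular unit is integral over `ℤ[j]`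

For `N` prime, `uF N = N¹² Δ(q^N)/Δ(q)` is a root of a monic polynomial with coefficients in
`ℤ[j]` (helper589/helper807: `UnitPolyData`), hence lies in every valuation ring of `FF N`
containing `j`: it has no poles outside the cusps.
-/

set_option autoImplicit false

noncomputable section

open ModularCurve HahnSeries AlgebraicCurve Polynomial

namespace Fermat.Agent.S15.H422

open Fermat.Agent.S24 Fermat.Agent.S28

theorem coeffEmb_deltaSeries : coeffEmb Kbar deltaSeries = deltaL Kbar := by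
  have h : deltaSeries = deltaL ℚ := rfl
  rw [h, coeffEmb, h88_coeffMap_deltaL]

theorem deltaL_inv (k : Type*) [Field k] : (deltaL k)⁻¹ = deltaInvL k :=
  inv_eq_of_mul_eq_one_right (h88_deltaL_mul_deltaInvL k)

theorem uSer_eq_unitL (N : ℕ) [NeZero N] :
    uSer N = (N : LaurentSeries Kbar) ^ 12 * unitL Kbar N := by
  rw [uSer, uSerQ, map_mul, map_mul, map_inv₀, coeffEmb_deltaSeries, deltaL_inv, deltaSeriesN,
    unitL]
  have h1 : coeffEmb Kbar (qExpand ℚ N deltaSeries) = qExpand Kbar N (deltaL Kbar) := by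
    rw [coeffEmb, coeffMap_qExpand]
    congr 1
    exact coeffEmb_deltaSeries
  have h2 : coeffEmb Kbar (HahnSeries.C ((N : ℚ) ^ 12)) = (N : LaurentSeries Kbar) ^ 12 := by
    rw [coeffEmb, coeffMap_C, map_pow, map_natCast, map_pow, map_natCast]
  rw [h1, h2, mul_assoc]

/-- the unit polynomial relation for `uSer`, in `ℚ̄((q))`. -/
theorem unitPoly_relation (N : ℕ) [NeZero N] (W : UnitPolyData N) :
    W.W.eval₂ (evalAt (jqModC Kbar)) (uSer N) = 0 := by
  rw [uSer_eq_unitL]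
  exact h88_unitPoly_field Kbar N W

theorem coe_jF_eq (N : ℕ) [NeZero N] : ((jF N : FF N) : LaurentSeries Kbar) = jqModC Kbar :=
  Deg457.JK_eq Kbar

/-- **No poles outside the cusps.** -/
theorem uF_mem_of_jF_mem (N : ℕ) [NeZero N] (hN : N.Prime) (A : ValuationSubring (FF N))
    (hj : jF N ∈ A) : uF N ∈ A := by
  obtain ⟨W⟩ := H807.nonempty_unitPolyData (p := N) hN
  -- the coefficient homomorphism `ℤ[Y] → A`, `Y ↦ j`
  let ψ : Polynomial ℤ →+* A := (Polynomial.aeval (R := ℤ) (⟨jF N, hj⟩ : A)).toRingHom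
  have hint : IsIntegral A (uF N) := by
    refine ⟨W.W.map ψ, W.monic.map ψ, ?_⟩
    rw [Polynomial.eval₂_map]
    -- compare inside `ℚ̄((q))`
    apply Subtype.ext
    have hcomp : ((modularFunctionFieldBar N).val.toRingHom.comp
        ((algebraMap A (FF N)).comp ψ)) = evalAt (jqModC Kbar) := by
      apply Polynomial.ringHom_ext
      · intro a
        simp [ψ, evalAt]
      · simp only [RingHom.coe_comp, Function.comp_apply, ψ, evalAt, AlgHom.toRingHom_eq_coe,
          RingHom.coe_coe, Polynomial.aeval_X]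
        exact coe_jF_eq N
    have h := unitPoly_relation N W
    rw [← hcomp] at h
    have h2 := Polynomial.hom_eval₂ W.W ((algebraMap A (FF N)).comp ψ)
      (modularFunctionFieldBar N).val.toRingHom (uF N)
    show (modularFunctionFieldBar N).val.toRingHom _ = _
    rw [h2]
    exact h
  obtain ⟨y, hy⟩ := (IsIntegrallyClosed.isIntegral_iff (R := A) (K := FF N)).mp hint
  rw [← hy]
  exact y.2

end Fermat.Agent.S15.H422

end
end
-- ===== PACK-END S15/H422/UnitInt.lean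

-- ===== PACK-BEGIN S36/H438/Unit.lean
section










/-!
# S36 / leaf MU (= UNIT): the modular unit `u = Δ(t^q)/Δ(t)` in the language of A2/MOD  (helper438)

Level `N`, `q ∣ N` (`N = q * M'`), `E ⊆ Q̄` any intermediate field, `P` any valuation subring of `Q̄`.

* `uE E N q hqN : FE E N`, `uE' E N q hqN : FE E N` : the elements of `F_{N,E}` with `t`-expansions
  `Δ(t^q)/Δ(t)` and `Δ(t)/Δ(t^q)` (images of the INTEGRAL series `S28.unitL ℤ q`, `S28.H589.unitL' q`);
  `uE_mul_uE' : u * u' = 1`.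
* `uE_mem_vinf`, `uE'_mem_vinf` : both lie in the Gauss valuation ring `V∞` (`IsVinf`), i.e. `u` is a
  unit of `V∞`  (`V₁(u) = 0`).
* `coe_fricke_uE` : for every Fricke involution `W` of level `N = q * M'` (`IsFricke`),
  `W u = q⁻¹² · u'(t^{M'})`, and `W u' = q¹² · u(t^{M'})`.
* `qpow_mul_uE_mem_vzero`, `inv_qpow_mul_uE_mem_vzero` : `q¹² u` is a unit of `V₀ = V∞.comap W`
  (`V₂(u) = -12 v(q)`).
* `qpow_mul_uE_mem_of_x_mem`, `uE'_mem_of_x_mem` : `D = q¹² u` and `D' = u'` lie in every valuation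
  subring of `F_N` containing `x = j · j_q`; `qpow_mul_uE_mem_chart`, `uE'_mem_chart` : they lie in
  the finite chart `chartAlg P E (M * q) (xE E M q)`;  `D · D' = q¹²`  (the unit pair).
* `castK_unitL_eq_pow` : in characteristic `q`, `Δ(t^q)/Δ(t) = Δ(t)^(q-1)`.
-/

set_option autoImplicit false
set_option synthInstance.maxHeartbeats 400000
set_option maxHeartbeats 1600000

noncomputable section

namespace Fermat.Agent.S36.H438

open ModularCurve HahnSeries Polynomial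
open Fermat.Agent.A2.Mod Fermat.Agent.S28

/-! ## 1. The integral series -/

section Series

variable (q : ℕ) [NeZero q]

/-- `Δ(t^q)/Δ(t) · Δ(t)/Δ(t^q) = 1` over `ℤ`. -/
theorem unitL_mul_unitL' : unitL ℤ q * H589.unitL' q = 1 := by
  have h1 : deltaL ℤ * deltaInvL ℤ = 1 := h88_deltaL_mul_deltaInvL ℤ
  have h2 : qExpand ℤ q (deltaL ℤ) * qExpand ℤ q (deltaInvL ℤ) = 1 := by
    rw [← map_mul, h1, map_one]
  calc unitL ℤ q * H589.unitL' q
      = (qExpand ℤ q (deltaL ℤ) * qExpand ℤ q (deltaInvL ℤ)) * (deltaL ℤ * deltaInvL ℤ) := by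
        rw [unitL, H589.unitL']; ring
    _ = 1 := by rw [h1, h2, mul_one]

/-- In characteristic `q` (coefficients in `ZMod q`): `Δ(t^q)/Δ(t) = Δ(t)^(q-1)`. -/
theorem unitL_zmod_eq_pow [hq : Fact q.Prime] :
    unitL (ZMod q) q = deltaL (ZMod q) ^ (q - 1) := by
  have h1 : deltaL (ZMod q) * deltaInvL (ZMod q) = 1 := h88_deltaL_mul_deltaInvL (ZMod q)
  have hq1 : deltaL (ZMod q) ^ q = deltaL (ZMod q) ^ (q - 1) * deltaL (ZMod q) := by
    rw [← pow_succ, Nat.sub_add_cancel hq.out.one_le]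
  rw [unitL, Fermat.Agent.A2.H528.qExpand_eq_pow_zmod, hq1, mul_assoc, h1, mul_one]

/-- In characteristic `q`, any coefficient ring `k`: `Δ(t^q)/Δ(t) = Δ(t)^(q-1)`. -/
theorem castK_unitL_eq_pow [hq : Fact q.Prime] (k : Type*) [CommRing k] [CharP k q] :
    coeffMap (Int.castRingHom k) (unitL ℤ q) = deltaL k ^ (q - 1) := by
  have h := congrArg (coeffMap (ZMod.castHom (dvd_refl q) k)) (unitL_zmod_eq_pow q)
  rw [h88_coeffMap_unitL, map_pow, h88_coeffMap_deltaL] at h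
  rw [h88_coeffMap_unitL]
  exact h

end Series

/-! ## 2. The elements `u`, `u'` of `F_{N,E}` -/

section Elements

variable (E : IntermediateField ℚ Qb)

/-- The coefficient map `ℤ((t)) → E((t))`. -/
abbrev castE : LaurentSeries ℤ →+* LaurentSeries E := coeffMap (Int.castRingHom E)

theorem castE_eq_coeffEmb (X : LaurentSeries ℤ) :
    castE E X = coeffEmb E (coeffMap (Int.castRingHom ℚ) X) := by
  rw [coeffEmb, coeffMap_coeffMap]
  exact coeffMap_congr (Subsingleton.elim _ _) X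

theorem coeffMap_castE (X : LaurentSeries ℤ) :
    coeffMap (algebraMap E Qb) (castE E X) = coeffMap (Int.castRingHom Qb) X := by
  rw [castE, coeffMap_coeffMap]
  exact coeffMap_congr (Subsingleton.elim _ _) X

theorem castE_mul_castE' (q : ℕ) [NeZero q] :
    castE E (unitL ℤ q) * castE E (H589.unitL' q) = 1 := by
  rw [← map_mul, unitL_mul_unitL', map_one]

theorem castE_unitL_ne_zero (q : ℕ) [NeZero q] : castE E (unitL ℤ q) ≠ 0 := by
  intro h
  have := castE_mul_castE' E q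
  rw [h, zero_mul] at this
  exact zero_ne_one this

theorem castE_unitL'_eq_inv (q : ℕ) [NeZero q] :
    castE E (H589.unitL' q) = (castE E (unitL ℤ q))⁻¹ :=
  eq_inv_of_mul_eq_one_right (castE_mul_castE' E q)

theorem laurentBaseChange_mono_h438 (L : Type*) [Field L] [Algebra ℚ L]
    {F₀ F₁ : IntermediateField ℚ (LaurentSeries ℚ)} (h : F₀ ≤ F₁) :
    laurentBaseChange L F₀ ≤ laurentBaseChange L F₁ :=
  IntermediateField.adjoin.mono L _ _ (Set.image_mono h)

/-- `Δ(t^q)/Δ(t)` over `Q̄` lies in the function field of level `q`. -/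
theorem unitL_bar_mem (q : ℕ) [NeZero q] :
    unitL Qb q ∈ laurentBaseChange Qb (modularFunctionFieldFull q) := by
  have h : Fermat.Agent.S15.H422.uSer q ∈ laurentBaseChange Qb (modularFunctionFieldFull q) :=
    Fermat.Agent.S15.H422.uSer_mem q
  rw [Fermat.Agent.S15.H422.uSer_eq_unitL] at h
  have hc : ((q : LaurentSeries Qb) ^ 12) ∈ laurentBaseChange Qb (modularFunctionFieldFull q) :=
    pow_mem (natCast_mem _ q) 12
  have hc0 : ((q : LaurentSeries Qb) ^ 12) ≠ 0 := by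
    refine pow_ne_zero _ ?_
    rw [← map_natCast (algebraMap Qb (LaurentSeries Qb))]
    exact (map_ne_zero_iff _ (algebraMap Qb (LaurentSeries Qb)).injective).mpr
      (Nat.cast_ne_zero.mpr (NeZero.ne q))
  have h2 := mul_mem (inv_mem hc) h
  rwa [← mul_assoc, inv_mul_cancel₀ hc0, one_mul] at h2

/-- `Δ(t^q)/Δ(t)` over `E` lies in the function field of level `q`. -/
theorem castE_unitL_mem_level (q : ℕ) [NeZero q] : castE E (unitL ℤ q) ∈ FE E q := by
  refine Fermat.Agent.S29.H882.mem_laurentBaseChange_of_coeffMap_mem (algebraMap E Qb)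
    (modularFunctionFieldFull q) ?_
  rw [coeffMap_castE, h88_coeffMap_unitL]
  exact unitL_bar_mem q

/-- `Δ(t^q)/Δ(t)` over `E` lies in the function field of every level `N` divisible by `q`. -/
theorem castE_unitL_mem (N q : ℕ) [NeZero N] [NeZero q] (hqN : q ∣ N) :
    castE E (unitL ℤ q) ∈ FE E N :=
  laurentBaseChange_mono_h438 E (full_degeneracy_le hqN) (castE_unitL_mem_level E q)

theorem castE_unitL'_mem (N q : ℕ) [NeZero N] [NeZero q] (hqN : q ∣ N) :
    castE E (H589.unitL' q) ∈ FE E N := by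
  rw [castE_unitL'_eq_inv]
  exact inv_mem (castE_unitL_mem E N q hqN)

/-- **The modular unit** `u = Δ(t^q)/Δ(t)` as an element of `F_{N,E}`, `q ∣ N`. -/
def uE (N q : ℕ) [NeZero N] [NeZero q] (hqN : q ∣ N) : FE E N :=
  ⟨castE E (unitL ℤ q), castE_unitL_mem E N q hqN⟩

/-- **The inverse modular unit** `u' = Δ(t)/Δ(t^q)` as an element of `F_{N,E}`, `q ∣ N`. -/
def uE' (N q : ℕ) [NeZero N] [NeZero q] (hqN : q ∣ N) : FE E N :=
  ⟨castE E (H589.unitL' q), castE_unitL'_mem E N q hqN⟩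

variable (N q : ℕ) [NeZero N] [NeZero q] (hqN : q ∣ N)

@[simp] theorem coe_uE : ((uE E N q hqN : FE E N) : LaurentSeries E) = castE E (unitL ℤ q) := rfl

@[simp] theorem coe_uE' :
    ((uE' E N q hqN : FE E N) : LaurentSeries E) = castE E (H589.unitL' q) := rfl

theorem uE_mul_uE' : uE E N q hqN * uE' E N q hqN = 1 :=
  Subtype.ext (castE_mul_castE' E q)

theorem uE_ne_zero : uE E N q hqN ≠ 0 := fun h =>
  castE_unitL_ne_zero E q (congrArg Subtype.val h)

theorem uE'_eq_inv : uE' E N q hqN = (uE E N q hqN)⁻¹ :=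
  eq_inv_of_mul_eq_one_right (uE_mul_uE' E N q hqN)

theorem uE_inv : (uE E N q hqN)⁻¹ = uE' E N q hqN := (uE'_eq_inv E N q hqN).symm

end Elements

/-! ## 3. `u` is a unit of the Gauss valuation ring `V∞` -/

section Gauss

variable (P : ValuationSubring Qb) (E : IntermediateField ℚ Qb)

/-- The image in `E((t))` of an integral series is Gauss-integral (any level). -/
theorem isGaussInt_castE (F₀ : IntermediateField ℚ (LaurentSeries ℚ)) (X : LaurentSeries ℤ) :
    Fermat.Agent.A2.H708.IsGaussInt (RE P E) F₀ (castE E X) := by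
  have h := Fermat.Agent.A2.H708.IsGaussInt.of_incl (A := RE P E) (F₀ := F₀)
    (Fermat.Agent.A2.H708.castA (RE P E) X)
  rwa [Fermat.Agent.A2.H708.incl_castA, ← castE_eq_coeffEmb] at h

/-- An element of `F_{N,E}` whose `t`-expansion has integral coefficients lies in `V∞`. -/
theorem mem_vinf_of_coe_eq_castE {N : ℕ} {V : ValuationSubring (FE E N)}
    (hV : IsVinf P E N V) {f : FE E N} {X : LaurentSeries ℤ}
    (hf : (f : LaurentSeries E) = castE E X) : f ∈ V := by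
  rw [hV f, hf]
  exact isGaussInt_castE P E _ X

variable (N q : ℕ) [NeZero N] [NeZero q] (hqN : q ∣ N)

theorem uE_mem_vinf {V : ValuationSubring (FE E N)} (hV : IsVinf P E N V) :
    uE E N q hqN ∈ V :=
  mem_vinf_of_coe_eq_castE P E hV (coe_uE E N q hqN)

theorem uE'_mem_vinf {V : ValuationSubring (FE E N)} (hV : IsVinf P E N V) :
    uE' E N q hqN ∈ V :=
  mem_vinf_of_coe_eq_castE P E hV (coe_uE' E N q hqN)

/-- **MU (1)**: `u` is a unit of `V∞`. -/
theorem uE_unit_vinf {V : ValuationSubring (FE E N)} (hV : IsVinf P E N V) :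
    uE E N q hqN ∈ V ∧ (uE E N q hqN)⁻¹ ∈ V :=
  ⟨uE_mem_vinf P E N q hqN hV, by rw [uE_inv]; exact uE'_mem_vinf P E N q hqN hV⟩

end Gauss

/-! ## 4. The Fricke involution: `W u = q⁻¹² · u'(t^{M'})` -/

section Fricke

open Fermat.Agent.A2.Mod.H751 Fermat.Agent.S24 Fermat.Agent.A2.H528

variable (E : IntermediateField ℚ Qb) (q : ℕ) [NeZero q]

theorem castBar_mul_castBar' :
    coeffMap (Int.castRingHom Qb) (unitL ℤ q) * coeffMap (Int.castRingHom Qb) (H589.unitL' q)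
      = 1 := by
  rw [← map_mul, unitL_mul_unitL', map_one]

/-- `S15.H422.gSer q = Δ(t)/Δ(t^q)` is the image of the integral series `unitL' q`. -/
theorem gSer_eq_castBar :
    Fermat.Agent.S15.H422.gSer q = coeffMap (Int.castRingHom Qb) (H589.unitL' q) := by
  have h1 := Fermat.Agent.S15.H422.uSer_mul_gSer q
  rw [Fermat.Agent.S15.H422.uSer_eq_unitL] at h1
  have hC : (HahnSeries.C ((q : Kbar) ^ 12) : LaurentSeries Kbar)
      = (q : LaurentSeries Kbar) ^ 12 := by
    rw [map_pow, map_natCast]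
  rw [hC] at h1
  have hc0 : ((q : LaurentSeries Qb) ^ 12) ≠ 0 := by
    refine pow_ne_zero _ ?_
    rw [← map_natCast (algebraMap Qb (LaurentSeries Qb))]
    exact (map_ne_zero_iff _ (algebraMap Qb (LaurentSeries Qb)).injective).mpr
      (Nat.cast_ne_zero.mpr (NeZero.ne q))
  have h2 : unitL Kbar q * Fermat.Agent.S15.H422.gSer q = 1 := by
    apply mul_left_cancel₀ hc0
    rw [← mul_assoc, h1, mul_one]
  have h3 := castBar_mul_castBar' q
  rw [h88_coeffMap_unitL] at h3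
  have hu0 : unitL Kbar q ≠ 0 := by
    intro h
    rw [h, zero_mul] at h2
    exact zero_ne_one h2
  exact mul_left_cancel₀ hu0 (h2.trans h3.symm)

/-- `ι u = q⁻¹² · uF` at level `q`. -/
theorem iotaE_uE_level :
    iotaE E q (uE E q q dvd_rfl)
      = (algebraMap Kbar (FF q) ((q : Kbar) ^ 12))⁻¹ * Fermat.Agent.S15.H422.uF q := by
  have hc0 : algebraMap Kbar (FF q) ((q : Kbar) ^ 12) ≠ 0 :=
    (map_ne_zero_iff _ (algebraMap Kbar (FF q)).injective).mpr
      (pow_ne_zero _ (Nat.cast_ne_zero.mpr (NeZero.ne q)))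
  rw [eq_inv_mul_iff_mul_eq₀ hc0]
  apply Subtype.ext
  show algebraMap Kbar (LaurentSeries Kbar) ((q : Kbar) ^ 12)
      * coeffMap (algebraMap E Qb) (castE E (unitL ℤ q)) = Fermat.Agent.S15.H422.uSer q
  rw [coeffMap_castE, h88_coeffMap_unitL, Fermat.Agent.S15.H422.uSer_eq_unitL, map_pow,
    map_natCast]

/-- `ι u' = gF` at level `q`. -/
theorem iotaE_uE'_level :
    iotaE E q (uE' E q q dvd_rfl) = Fermat.Agent.S15.H422.gF q := by
  apply Subtype.ext
  show coeffMap (algebraMap E Qb) (castE E (H589.unitL' q)) = Fermat.Agent.S15.H422.gSer q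
  rw [coeffMap_castE, gSer_eq_castBar]

/-- **Level `q`**: `W_q u = q⁻¹² u'`. -/
theorem frickeE_uE_level :
    frickeE E q (uE E q q dvd_rfl)
      = algebraMap E (FE E q) ((q : E) ^ 12)⁻¹ * uE' E q q dvd_rfl := by
  apply iotaE_injective E q
  rw [iotaE_frickeE, iotaE_uE_level, map_mul, map_inv₀, AlgEquiv.commutes,
    Fermat.Agent.S15.H422.wF_uF, map_mul, iotaE_uE'_level, iotaE_algebraMap]
  congr 1
  rw [← map_inv₀]
  congr 1

variable (M' : ℕ) [NeZero M']

theorem alpha_uE_level :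
    αE E q M' (uE E q q dvd_rfl) = uE E (q * M') q (dvd_mul_right q M') :=
  Subtype.ext (coe_heckeAlphaBar q M' _)

theorem alpha_uE'_level :
    αE E q M' (uE' E q q dvd_rfl) = uE' E (q * M') q (dvd_mul_right q M') :=
  Subtype.ext (coe_heckeAlphaBar q M' _)

/-- `u'(t^{M'})` as an element of `F_{qM',E}`. -/
def uEβ' : FE E (q * M') := βE E q M' (uE' E q q dvd_rfl)

/-- `u(t^{M'})` as an element of `F_{qM',E}`. -/
def uEβ : FE E (q * M') := βE E q M' (uE E q q dvd_rfl)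

theorem coe_uEβ' :
    ((uEβ' E q M' : FE E (q * M')) : LaurentSeries E)
      = castE E (qExpand ℤ M' (H589.unitL' q)) := by
  show ((βE E q M' (uE' E q q dvd_rfl) : FE E (q * M')) : LaurentSeries E) = _
  rw [coe_heckeBetaBar, coe_uE', castE, coeffMap_qExpand]

theorem coe_uEβ :
    ((uEβ E q M' : FE E (q * M')) : LaurentSeries E)
      = castE E (qExpand ℤ M' (unitL ℤ q)) := by
  show ((βE E q M' (uE E q q dvd_rfl) : FE E (q * M')) : LaurentSeries E) = _
  rw [coe_heckeBetaBar, coe_uE, castE, coeffMap_qExpand]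

theorem uEβ_mul_uEβ' : uEβ E q M' * uEβ' E q M' = 1 := by
  rw [uEβ, uEβ', ← map_mul, uE_mul_uE', map_one]

theorem uEβ'_inv : (uEβ' E q M')⁻¹ = uEβ E q M' :=
  (eq_inv_of_mul_eq_one_left (uEβ_mul_uEβ' E q M')).symm

/-- **MU (2), level `q * M'`**: `W u = q⁻¹² · u'(t^{M'})` for every Fricke involution `W`. -/
theorem fricke_uE (W : FE E (q * M') ≃ₐ[E] FE E (q * M')) (hW : IsFricke E (q * M') W) :
    W (uE E (q * M') q (dvd_mul_right q M'))
      = algebraMap E (FE E (q * M')) ((q : E) ^ 12)⁻¹ * uEβ' E q M' := by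
  have h := (frickeCompat E q M' (frickeE E q) W (isFricke_frickeE E q) hW
    (uE E q q dvd_rfl)).1
  rw [alpha_uE_level] at h
  rw [h, frickeE_uE_level, map_mul, AlgHom.commutes]
  rfl

/-- `W (q¹² u) = u'(t^{M'})`. -/
theorem fricke_qpow_mul_uE (W : FE E (q * M') ≃ₐ[E] FE E (q * M'))
    (hW : IsFricke E (q * M') W) :
    W (algebraMap E (FE E (q * M')) ((q : E) ^ 12) * uE E (q * M') q (dvd_mul_right q M'))
      = uEβ' E q M' := by
  have hc0 : ((q : E) ^ 12) ≠ 0 := pow_ne_zero _ (Nat.cast_ne_zero.mpr (NeZero.ne q))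
  rw [map_mul, AlgEquiv.commutes, fricke_uE E q M' W hW, ← mul_assoc, ← map_mul,
    mul_inv_cancel₀ hc0, map_one, one_mul]

end Fricke

section Vzero

variable (P : ValuationSubring Qb) (E : IntermediateField ℚ Qb) (q : ℕ) [NeZero q]
  (M' : ℕ) [NeZero M']

/-- **MU (2')**: `q¹² u` is a unit of `V₀ = V∞.comap W`  (`V₂(u) = -12 v(q)`), level `q * M'`. -/
theorem qpow_mul_uE_unit_vzero {V : ValuationSubring (FE E (q * M'))}
    (W : FE E (q * M') ≃ₐ[E] FE E (q * M')) (hV : IsVinf P E (q * M') V)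
    (hW : IsFricke E (q * M') W) :
    algebraMap E (FE E (q * M')) ((q : E) ^ 12) * uE E (q * M') q (dvd_mul_right q M')
        ∈ V.comap (W : FE E (q * M') →+* FE E (q * M')) ∧
      (algebraMap E (FE E (q * M')) ((q : E) ^ 12) * uE E (q * M') q (dvd_mul_right q M'))⁻¹
        ∈ V.comap (W : FE E (q * M') →+* FE E (q * M')) := by
  constructor
  · show W _ ∈ V
    rw [fricke_qpow_mul_uE E q M' W hW]
    exact mem_vinf_of_coe_eq_castE P E hV (coe_uEβ' E q M')
  · show W _ ∈ V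
    rw [map_inv₀, fricke_qpow_mul_uE E q M' W hW, uEβ'_inv]
    exact mem_vinf_of_coe_eq_castE P E hV (coe_uEβ E q M')

end Vzero

/-! ## 5. Horizontal part: the unit pair `D = q¹² u`, `D' = u'`, `D · D' = q¹²` -/

section Horizontal

open Fermat.Agent.A2.Mod.H873

open Fermat.Agent.S28.H589 in
/-- The unit polynomial `Ψ ∈ ℤ[Y][X]` (helper589), keeping BOTH vanishing relations:
`q¹² Δ(t^q)/Δ(t)` is integral over `ℤ[j]` and `Δ(t)/Δ(t^q)` is integral over `ℤ[j(t^q)]`. -/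
theorem exists_unitPoly_both (p : ℕ) [NeZero p] (hp : p.Prime) :
    ∃ Ψ : Polynomial (Polynomial ℤ), Ψ.Monic ∧
      Ψ.eval₂ (evalAt (jqModC ℤ)) ((p : LaurentSeries ℤ) ^ 12 * unitL ℤ p) = 0 ∧
      Ψ.eval₂ (evalAt (qExpand ℤ p (jqModC ℤ))) (unitL' p) = 0 := by
  obtain ⟨W, hWm, hWd, h1, h2⟩ := exists_unitPoly_complex p hp
  obtain ⟨m, hm⟩ := exists_order_unitSeriesC' p
  have hord : (unitL' p).order = 1 - p * m := by
    rw [← order_iotaC, iotaC_unit', hm]
  have hf0 : unitL' p ≠ 0 := by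
    intro h
    apply unitSeriesC'_ne_zero p
    rw [← iotaC_unit', h, map_zero]
  have hcop : IsCoprime (unitL' p).order (p : ℤ) := by
    rw [hord]
    exact ⟨1, m, by ring⟩
  have hne : unitL' p ≠ qExpand ℤ p ((p : LaurentSeries ℤ) ^ 12 * unitL ℤ p) := by
    intro h
    have h3 := congrArg iotaC h
    rw [iotaC_unit', iotaC, coeffMap_qExpand] at h3
    obtain ⟨k, hk⟩ := Fermat.Agent.S28.H145.dvd_order_qExpand (k := ℂ) p
      (coeffMap (Int.castRingHom ℂ) ((p : LaurentSeries ℤ) ^ 12 * unitL ℤ p))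
    rw [← h3, hm] at hk
    have hp2 : (2 : ℤ) ≤ p := by exact_mod_cast hp.two_le
    have hdvd : (p : ℤ) ∣ 1 := ⟨k + m, by linarith⟩
    have := Int.le_of_dvd one_pos hdvd
    omega
  obtain ⟨Ψ, hΨm, -, hΨ1, hΨ2⟩ := descent p W hWm (p + 1) hWd rfl
    ((p : LaurentSeries ℤ) ^ 12 * unitL ℤ p) (unitL' p) hf0 hcop hne
    (by rw [iotaC_unit]; exact h1)
    (by rw [iotaC_unit']; exact h2)
  exact ⟨Ψ, hΨm, hΨ1, hΨ2⟩

variable (E : IntermediateField ℚ Qb) (N q : ℕ) [NeZero N] [NeZero q] (hqN : q ∣ N)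

/-- `D = q¹² u`. -/
def dE : FE E N := algebraMap E (FE E N) ((q : E) ^ 12) * uE E N q hqN

theorem coe_dE :
    ((dE E N q hqN : FE E N) : LaurentSeries E)
      = castE E ((q : LaurentSeries ℤ) ^ 12 * unitL ℤ q) := by
  show algebraMap E (LaurentSeries E) ((q : E) ^ 12) * castE E (unitL ℤ q) = _
  rw [map_mul, map_pow, map_pow, map_natCast, map_natCast]

/-- **The unit pair**: `D · D' = q¹²`. -/
theorem dE_mul_uE' :
    dE E N q hqN * uE' E N q hqN = algebraMap E (FE E N) ((q : E) ^ 12) := by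
  rw [dE, mul_assoc, uE_mul_uE', mul_one]

theorem dE_ne_zero : dE E N q hqN ≠ 0 :=
  mul_ne_zero ((map_ne_zero_iff _ (algebraMap E (FE E N)).injective).mpr
    (pow_ne_zero _ (Nat.cast_ne_zero.mpr (NeZero.ne q)))) (uE_ne_zero E N q hqN)

/-- The two integrality relations in `F_{N,E}`: `Ψ(D; j) = 0` and `Ψ(D'; j_q) = 0`, `Ψ` monic. -/
theorem exists_unitPoly_FE (hq : q.Prime) :
    ∃ Ψ : Polynomial (Polynomial ℤ), Ψ.Monic ∧
      Ψ.eval₂ (Polynomial.aeval (R := ℤ) (jE E N 1 (one_dvd N))).toRingHom (dE E N q hqN) = 0 ∧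
      Ψ.eval₂ (Polynomial.aeval (R := ℤ) (jE E N q hqN)).toRingHom (uE' E N q hqN) = 0 := by
  obtain ⟨Ψ, hΨ, h1, h2⟩ := exists_unitPoly_both q hq
  refine ⟨Ψ, hΨ, ?_, ?_⟩
  · exact eval₂_eq_zero_of_int E N Ψ _ _ _ _ (coe_dE E N q hqN) (coe_jE_one E N) h1
  · exact eval₂_eq_zero_of_int E N Ψ _ _ _ _ (coe_uE' E N q hqN) (coe_jE_int E N q hqN) h2

/-- **MU (3a)**: `D = q¹² u` lies in every valuation subring containing `j`. -/
theorem dE_mem_of_j_mem (hq : q.Prime) (V : ValuationSubring (FE E N))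
    (hj : jE E N 1 (one_dvd N) ∈ V) : dE E N q hqN ∈ V := by
  obtain ⟨Ψ, hΨ, h1, -⟩ := exists_unitPoly_FE E N q hqN hq
  exact mem_valuationSubring_of_monic_eval Ψ hΨ h1 V hj

/-- **MU (3b)**: `D' = u'` lies in every valuation subring containing `j_q`. -/
theorem uE'_mem_of_jq_mem (hq : q.Prime) (V : ValuationSubring (FE E N))
    (hjq : jE E N q hqN ∈ V) : uE' E N q hqN ∈ V := by
  obtain ⟨Ψ, hΨ, -, h2⟩ := exists_unitPoly_FE E N q hqN hq
  exact mem_valuationSubring_of_monic_eval Ψ hΨ h2 V hjq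

/-- `j ∈ V ↔ j_q ∈ V` for every valuation subring `V` of `F_N` (modular equation). -/
theorem j_mem_iff_jq_mem (hq : q.Prime) (V : ValuationSubring (FE E N)) :
    jE E N 1 (one_dvd N) ∈ V ↔ jE E N q hqN ∈ V := by
  obtain ⟨D⟩ := Fermat.Agent.S28.H807.nonempty_modPolyData q hq
  have hj : D.Φ.eval₂ (Polynomial.aeval (R := ℤ) (jE E N q hqN)).toRingHom
      (jE E N 1 (one_dvd _)) = 0 :=
    eval₂_eq_zero_of_int E N D.Φ _ _ _ _ (coe_jE_one E N) (coe_jE_int E N q hqN) D.eval_j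
  have hjq : D.Φ.eval₂ (Polynomial.aeval (R := ℤ) (jE E N 1 (one_dvd _))).toRingHom
      (jE E N q hqN) = 0 :=
    eval₂_eq_zero_of_int E N D.Φ _ _ _ _ (coe_jE_int E N q hqN) (coe_jE_one E N) D.eval_jp
  exact ⟨fun h => mem_valuationSubring_of_monic_eval D.Φ D.monic hjq V h,
    fun h => mem_valuationSubring_of_monic_eval D.Φ D.monic hj V h⟩

/-- **MU (3)**: at a place `V ⊇ E` of `F_N` where `j` is finite, `u` is a unit
(no zeros or poles of `u` outside the cusps). -/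
theorem uE_unit_of_j_mem (hq : q.Prime) (V : ValuationSubring (FE E N))
    (hE : ∀ e : E, algebraMap E (FE E N) e ∈ V) (hj : jE E N 1 (one_dvd N) ∈ V) :
    uE E N q hqN ∈ V ∧ (uE E N q hqN)⁻¹ ∈ V := by
  have hc0 : ((q : E) ^ 12) ≠ 0 := pow_ne_zero _ (Nat.cast_ne_zero.mpr (NeZero.ne q))
  refine ⟨?_, ?_⟩
  · have h1 := V.mul_mem _ _ (hE ((q : E) ^ 12)⁻¹) (dE_mem_of_j_mem E N q hqN hq V hj)
    rwa [dE, ← mul_assoc, ← map_mul, inv_mul_cancel₀ hc0, map_one, one_mul] at h1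
  · rw [uE_inv]
    exact uE'_mem_of_jq_mem E N q hqN hq V ((j_mem_iff_jq_mem E N q hqN hq V).mp hj)

end Horizontal

section Chart

open Fermat.Agent.A2.Mod.H873

variable (P : ValuationSubring Qb) (E : IntermediateField ℚ Qb) (M q : ℕ) [NeZero M] [NeZero q]

/-- A valuation subring of `F_{Mq}` containing `x = j · j_q` contains `j` and `j_q`. -/
theorem j_mem_of_x_mem (hq : q.Prime) (V : ValuationSubring (FE E (M * q)))
    (hx : xE E M q ∈ V) :
    jE E (M * q) 1 (one_dvd _) ∈ V ∧ jE E (M * q) q (dvd_mul_left q M) ∈ V := by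
  have hiff := j_mem_iff_jq_mem E (M * q) q (dvd_mul_left q M) hq V
  by_cases hj : jE E (M * q) 1 (one_dvd _) ∈ V
  · exact ⟨hj, hiff.mp hj⟩
  · exfalso
    have hinv : (jE E (M * q) 1 (one_dvd _))⁻¹ ∈ V := (V.mem_or_inv_mem _).resolve_left hj
    have hj0 : jE E (M * q) 1 (one_dvd _) ≠ 0 := jE_ne_zero E (M * q) 1 (one_dvd _)
    have hjq : jE E (M * q) q (dvd_mul_left q M) ∈ V := by
      have h := V.mul_mem _ _ hinv hx
      rwa [xE, ← mul_assoc, inv_mul_cancel₀ hj0, one_mul] at h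
    exact hj (hiff.mpr hjq)

/-- **MU (3c)**: `D = q¹² u` lies in the finite chart of the coordinate `x = j · j_q`. -/
theorem dE_mem_chartAlg (hq : q.Prime) :
    dE E (M * q) q (dvd_mul_left q M) ∈ chartAlg P E (M * q) (xE E M q) := by
  rw [← Fermat.Agent.A2.Mod.H142.mem_chart_iff]
  refine isIntegralElem_of_isIntegral_closure _
    (isIntegral_closure_of_forall_valuationSubring fun V hx => ?_)
  exact dE_mem_of_j_mem E (M * q) q _ hq V (j_mem_of_x_mem E M q hq V hx).1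

/-- **MU (3d)**: `D' = u'` lies in the finite chart of the coordinate `x = j · j_q`. -/
theorem uE'_mem_chartAlg (hq : q.Prime) :
    uE' E (M * q) q (dvd_mul_left q M) ∈ chartAlg P E (M * q) (xE E M q) := by
  rw [← Fermat.Agent.A2.Mod.H142.mem_chart_iff]
  refine isIntegralElem_of_isIntegral_closure _
    (isIntegral_closure_of_forall_valuationSubring fun V hx => ?_)
  exact uE'_mem_of_jq_mem E (M * q) q _ hq V (j_mem_of_x_mem E M q hq V hx).2

end Chart

/-! ## 6. General level `N = q * M'` (e.g. `N = M * q`), and the packaged statement -/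

section Package

variable (P : ValuationSubring Qb) (E : IntermediateField ℚ Qb)

/-- **MU (2'), any level `N = q * M'`**: `D = q¹² u` is a unit of `V₀ = V∞.comap W`. -/
theorem dE_unit_vzero (N q M' : ℕ) [NeZero N] [NeZero q] [NeZero M'] (hN : N = q * M')
    (hqN : q ∣ N) {V : ValuationSubring (FE E N)} (W : FE E N ≃ₐ[E] FE E N)
    (hV : IsVinf P E N V) (hW : IsFricke E N W) :
    dE E N q hqN ∈ V.comap (W : FE E N →+* FE E N) ∧
      (dE E N q hqN)⁻¹ ∈ V.comap (W : FE E N →+* FE E N) := by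
  subst hN
  exact qpow_mul_uE_unit_vzero P E q M' W hV hW

/-- `W D = u'(t^{M'})` in `t`-expansions, any level `N = q * M'`. -/
theorem coe_fricke_dE (N q M' : ℕ) [NeZero N] [NeZero q] [NeZero M'] (hN : N = q * M')
    (hqN : q ∣ N) (W : FE E N ≃ₐ[E] FE E N) (hW : IsFricke E N W) :
    ((W (dE E N q hqN) : FE E N) : LaurentSeries E)
      = castE E (qExpand ℤ M' (H589.unitL' q)) := by
  subst hN
  have h := fricke_qpow_mul_uE E q M' W hW
  rw [← coe_uEβ' E q M', ← h]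
  rfl

/-- **MU (1'), the pair at `V∞`**: `D' = u'` is a unit of `V∞`, and `D = q¹² u ∈ V∞`. -/
theorem uE'_unit_vinf (N q : ℕ) [NeZero N] [NeZero q] (hqN : q ∣ N)
    {V : ValuationSubring (FE E N)} (hV : IsVinf P E N V) :
    uE' E N q hqN ∈ V ∧ (uE' E N q hqN)⁻¹ ∈ V := by
  refine ⟨uE'_mem_vinf P E N q hqN hV, ?_⟩
  rw [uE'_eq_inv, inv_inv]
  exact uE_mem_vinf P E N q hqN hV

/-- **Leaf MU, packaged at level `M * q`** (`q` prime; `q ∤ M` is NOT needed):
the unit pair `D = q¹² Δ(t^q)/Δ(t)`, `D' = Δ(t)/Δ(t^q)` of the finite chart `B = chartAlg x`,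
`x = j · j_q`:  `D · D' = q¹²`, `D' ∈ (V∞)ˣ`, `D ∈ (V₀)ˣ` for `V₀ = V∞.comap W`, and at every
place `V ⊇ E` of `F_{Mq}` with `j ∈ V` both are units (no horizontal zeros in the finite chart). -/
theorem mu_package (M q : ℕ) [NeZero M] [NeZero q] (hq : q.Prime) :
    ∃ D D' : FE E (M * q),
      (D : LaurentSeries E) = castE E ((q : LaurentSeries ℤ) ^ 12 * unitL ℤ q) ∧
      (D' : LaurentSeries E) = castE E (H589.unitL' q) ∧
      D * D' = algebraMap E (FE E (M * q)) ((q : E) ^ 12) ∧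
      D ∈ chartAlg P E (M * q) (xE E M q) ∧
      D' ∈ chartAlg P E (M * q) (xE E M q) ∧
      (∀ V : ValuationSubring (FE E (M * q)), IsVinf P E (M * q) V → D' ∈ V ∧ D'⁻¹ ∈ V) ∧
      (∀ (V : ValuationSubring (FE E (M * q))) (W : FE E (M * q) ≃ₐ[E] FE E (M * q)),
        IsVinf P E (M * q) V → IsFricke E (M * q) W →
          D ∈ V.comap (W : FE E (M * q) →+* FE E (M * q)) ∧
          D⁻¹ ∈ V.comap (W : FE E (M * q) →+* FE E (M * q))) ∧
      (∀ V : ValuationSubring (FE E (M * q)), (∀ e : E, algebraMap E (FE E (M * q)) e ∈ V) →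
        jE E (M * q) 1 (one_dvd _) ∈ V → (D ∈ V ∧ D⁻¹ ∈ V) ∧ (D' ∈ V ∧ D'⁻¹ ∈ V)) := by
  have hqN : q ∣ M * q := dvd_mul_left q M
  have hc0 : ((q : E) ^ 12) ≠ 0 := pow_ne_zero _ (Nat.cast_ne_zero.mpr (NeZero.ne q))
  refine ⟨dE E (M * q) q hqN, uE' E (M * q) q hqN, coe_dE E (M * q) q hqN,
    coe_uE' E (M * q) q hqN, dE_mul_uE' E (M * q) q hqN, dE_mem_chartAlg P E M q hq,
    uE'_mem_chartAlg P E M q hq, fun V hV => uE'_unit_vinf P E (M * q) q hqN hV,
    fun V W hV hW => dE_unit_vzero P E (M * q) q M (Nat.mul_comm M q) hqN W hV hW,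
    fun V hE hj => ?_⟩
  obtain ⟨hu, hu'⟩ := uE_unit_of_j_mem E (M * q) q hqN hq V hE hj
  rw [uE_inv] at hu'
  refine ⟨⟨dE_mem_of_j_mem E (M * q) q hqN hq V hj, ?_⟩, ⟨hu', ?_⟩⟩
  · rw [dE, mul_inv, uE_inv, ← map_inv₀]
    exact V.mul_mem _ _ (hE _) hu'
  · rw [uE'_eq_inv, inv_inv]
    exact hu

end Package

/-! ## 7. Reduction: `ū = Δ̄^(q-1)` in characteristic `q` -/

section Reduction

variable (P : ValuationSubring Qb) (E : IntermediateField ℚ Qb) (q : ℕ) [NeZero q]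

/-- The reduction of the integral series `Δ(t^q)/Δ(t)` modulo the maximal ideal of `R_E`
is `Δ̄(t)^(q-1)`, when the residue field has characteristic `q`. -/
theorem red_unitL_eq_pow [Fact q.Prime] [CharP (IsLocalRing.ResidueField (RE P E)) q] :
    Fermat.Agent.A2.H708.red (RE P E) (Fermat.Agent.A2.H708.castA (RE P E) (unitL ℤ q))
      = deltaL (IsLocalRing.ResidueField (RE P E)) ^ (q - 1) := by
  rw [← castK_unitL_eq_pow q (IsLocalRing.ResidueField (RE P E))]
  show coeffMap _ (coeffMap _ (unitL ℤ q)) = _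
  rw [coeffMap_coeffMap]
  exact coeffMap_congr (Subsingleton.elim _ _) _

end Reduction

end Fermat.Agent.S36.H438

end

end
-- ===== PACK-END S36/H438/Unit.lean

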