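import Mathlib
import Fermat.Agent.Pack.S36.E18L1
import Fermat.Agent.Pack.S36.E17L1
import Fermat.Agent.Pack.S36.E18L0
import Fermat.Agent.Pack.S36.E13L2
import Fermat.Agent.Pack.S36.E7L2
import Fermat.Agent.Pack.S36.E16L0
import Fermat.Agent.Pack.S36.E1L2
import Fermat.Agent.Pack.S36.E1L1
import Fermat.Agent.Pack.S36.E7L3
import Fermat.Agent.Pack.S36.E10L1
import Fermat.Agent.Pack.S36.E12L1
import Fermat.Agent.Pack.S36.E5L1
import Fermat.Agent.Pack.S36.E15L0
import Fermat.Agent.Pack.S36.E13L1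
import Fermat.Agent.Pack.S36.E14L3
import Fermat.Agent.Pack.S36.E16L2
import Fermat.Agent.Pack.S36.E17L3
import Fermat.Agent.Pack.S36.E18L3
import Fermat.Agent.Pack.S36.E15L1
import Fermat.Agent.Pack.S36.E13L3
import Fermat.Agent.Pack.S36.E17L0
import Fermat.Agent.Pack.S36.E18L2
import Fermat.Agent.Pack.S36.E11L2
import Fermat.Agent.Pack.S36.E11L0

-- ===== PACK-BEGIN Ribet/H801/DegBeta.lean
section
/-
RIBET / W-DEG (helper801), part 4: Hecke-equivariance of `β_* : J₀(Mp) → J₀(M)`: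

    β_* ∘ T_ℓ^{(Mp)} = T_ℓ^{(M)} ∘ β_*     for all primes `ℓ ≠ p`,

from the norm compatibility of the `ββ`-square

      F_M    --β_p-->  F_{Mp}
       |β_ℓ             |β_ℓ
       v                v
      F_{Mℓ} --β_p-->  F_{Mpℓ}

(`F_{Mpℓ} = V_p(F_{Mℓ}) ⊔ V_ℓ(F_{Mp})` and equal degrees).
-/




set_option autoImplicit false
set_option linter.style.haveILetI false

noncomputable section

namespace Fermat.Agent.Ribet.H801

open AlgebraicCurve ModularCurve Fermat.Agent.S37.H818 Fermat.Agent.S29.H801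
open Fermat.Agent.Lib.HI Fermat.Agent.S37

section Retarget

variable (L : Type*) [Field L] [Algebra ℚ L]
variable {M ℓ M' : ℕ} [NeZero M] [NeZero ℓ] [NeZero M']

theorem betaTo_finite (h : M * ℓ = M') (hfin : FiniteAlong L (heckeBetaBar L M ℓ)) :
    FiniteAlong L (betaTo L M ℓ M' h) := by
  subst h
  exact hfin

theorem betaTo_normFormula (h : M * ℓ = M') (hfin : FiniteAlong L (heckeBetaBar L M ℓ))
    (hN : NormFormulaAlong L (heckeBetaBar L M ℓ) hfin) :
    NormFormulaAlong L (betaTo L M ℓ M' h) (betaTo_finite L h hfin) := by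
  subst h
  exact hN

theorem betaTo_finrankAlong (h : M * ℓ = M') :
    finrankAlong L (betaTo L M ℓ M' h) = finrankAlong L (heckeBetaBar L M ℓ) := by
  subst h
  rfl

end Retarget

section Span

variable (L : Type*) [Field L] [Algebra ℚ L]

theorem intermediateField_smul_eq {K E : Type*} [Field K] [Field E] [Algebra K E]
    (A : IntermediateField K E) (a : A) (x : E) : a • x = (a : E) * x := by
  rw [Algebra.smul_def]
  rfl

theorem smul_betaTo_coe {M ℓ M' : ℕ} [NeZero M] [NeZero ℓ] [NeZero M'] (h : M * ℓ = M')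
    (a : _root_.Fermat.Agent.S29.H801.FB L M) (x : _root_.Fermat.Agent.S29.H801.FB L M') :
    letI := algebraAlong (betaTo L M ℓ M' h)
    ((a • x : _root_.Fermat.Agent.S29.H801.FB L M') : LaurentSeries L) = qExpand L ℓ (a : LaurentSeries L) * (x : LaurentSeries L) := by
  letI := algebraAlong (betaTo L M ℓ M' h)
  have h1 : a • x = betaTo L M ℓ M' h a * x := rfl
  rw [h1, MulMemClass.coe_mul, coe_betaTo]

/-- The image of `β_ℓ : F_{Mp} → F_{Mpℓ}` spans `F_{Mpℓ}` over `β_p(F_{Mℓ})`. -/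
theorem span_range_beta_of_sup (M p ℓ : ℕ) [NeZero M] [NeZero p] [NeZero ℓ]
    (hsup : laurentBaseChange L (modularFunctionFieldFull (M * p * ℓ))
      = (laurentBaseChange L (modularFunctionFieldFull (M * ℓ))).map (qExpandAlgHomC L p)
        ⊔ (laurentBaseChange L (modularFunctionFieldFull (M * p))).map (qExpandAlgHomC L ℓ))
    (halg : ∀ x ∈ (laurentBaseChange L (modularFunctionFieldFull (M * p))).map
        (qExpandAlgHomC L ℓ),
      IsAlgebraic ((laurentBaseChange L (modularFunctionFieldFull (M * ℓ))).map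
        (qExpandAlgHomC L p)) x) :
    letI := algebraAlong (betaTo L (M * ℓ) p (M * p * ℓ) (Nat.mul_right_comm M ℓ p))
    Submodule.span (_root_.Fermat.Agent.S29.H801.FB L (M * ℓ)) (Set.range (heckeBetaBar L (M * p) ℓ)) = ⊤ := by
  letI := algebraAlong (betaTo L (M * ℓ) p (M * p * ℓ) (Nat.mul_right_comm M ℓ p))
  rw [eq_top_iff]
  rintro t -
  have ht : (t : LaurentSeries L) ∈
      (laurentBaseChange L (modularFunctionFieldFull (M * ℓ))).map (qExpandAlgHomC L p)
        ⊔ (laurentBaseChange L (modularFunctionFieldFull (M * p))).map (qExpandAlgHomC L ℓ) := by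
    rw [← hsup]
    exact t.2
  have hs := mem_span_of_mem_sup _ _ halg ht
  have key : ∀ x : LaurentSeries L,
      x ∈ Submodule.span
        ((laurentBaseChange L (modularFunctionFieldFull (M * ℓ))).map (qExpandAlgHomC L p))
        (((laurentBaseChange L (modularFunctionFieldFull (M * p))).map (qExpandAlgHomC L ℓ) :
          IntermediateField L (LaurentSeries L)) : Set (LaurentSeries L)) →
      ∃ y : _root_.Fermat.Agent.S29.H801.FB L (M * p * ℓ),
        y ∈ Submodule.span (_root_.Fermat.Agent.S29.H801.FB L (M * ℓ)) (Set.range (heckeBetaBar L (M * p) ℓ)) ∧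
        (y : LaurentSeries L) = x := by
    intro x hx
    induction hx using Submodule.span_induction with
    | mem x hx =>
      obtain ⟨z, hz, rfl⟩ := hx
      refine ⟨heckeBetaBar L (M * p) ℓ ⟨z, hz⟩, Submodule.subset_span ⟨_, rfl⟩, ?_⟩
      rw [coe_heckeBetaBar]
      rfl
    | zero => exact ⟨0, Submodule.zero_mem _, rfl⟩
    | add x y _ _ hx hy =>
      obtain ⟨x', hx', rfl⟩ := hx
      obtain ⟨y', hy', rfl⟩ := hy
      exact ⟨x' + y', Submodule.add_mem _ hx' hy', rfl⟩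
    | smul a x _ hx =>
      obtain ⟨x', hx', rfl⟩ := hx
      obtain ⟨g, hg, hga⟩ := a.2
      refine ⟨(⟨g, hg⟩ : _root_.Fermat.Agent.S29.H801.FB L (M * ℓ)) • x', Submodule.smul_mem _ _ hx', ?_⟩
      rw [smul_betaTo_coe, intermediateField_smul_eq, ← hga]
      rfl
  obtain ⟨y, hy, hyt⟩ := key _ hs
  have : y = t := Subtype.ext hyt
  rw [← this]
  exact hy

/-- Norm compatibility of the `ββ`-square from generation and degrees. -/
theorem normCompat_beta_of_sup (M p ℓ : ℕ) [NeZero M] [NeZero p] [NeZero ℓ]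
    (hfin : FiniteAlong L (heckeBetaBar L M p))
    (hfin' : FiniteAlong L (heckeBetaBar L (M * ℓ) p))
    (hrk : finrankAlong L (heckeBetaBar L M p) ≤ finrankAlong L (heckeBetaBar L (M * ℓ) p))
    (hsup : laurentBaseChange L (modularFunctionFieldFull (M * p * ℓ))
      = (laurentBaseChange L (modularFunctionFieldFull (M * ℓ))).map (qExpandAlgHomC L p)
        ⊔ (laurentBaseChange L (modularFunctionFieldFull (M * p))).map (qExpandAlgHomC L ℓ))
    (halg : ∀ x ∈ (laurentBaseChange L (modularFunctionFieldFull (M * p))).map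
        (qExpandAlgHomC L ℓ),
      IsAlgebraic ((laurentBaseChange L (modularFunctionFieldFull (M * ℓ))).map
        (qExpandAlgHomC L p)) x) :
    NormCompat (heckeBetaBar L M p) (heckeBetaBar L M ℓ)
      (betaTo L (M * ℓ) p (M * p * ℓ) (Nat.mul_right_comm M ℓ p)) (heckeBetaBar L (M * p) ℓ) :=
  normCompat_of_span _ _ _ _ (rel_BB M p ℓ) hfin
    (betaTo_finite L _ hfin')
    (by rw [betaTo_finrankAlong]; exact hrk)
    (span_range_beta_of_sup L M p ℓ hsup halg)

end Span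

section Bar

variable (M p ℓ : ℕ) [NeZero M] [NeZero p] [NeZero ℓ]

/-- **Norm compatibility of the `ββ`-square over `ℚ̄`.** -/
theorem normCompat_beta_bar (hp : p.Prime) (hℓ : ℓ.Prime) (hne : ℓ ≠ p) :
    NormCompat (heckeBetaBar (AlgebraicClosure ℚ) M p) (heckeBetaBar (AlgebraicClosure ℚ) M ℓ)
      (betaTo (AlgebraicClosure ℚ) (M * ℓ) p (M * p * ℓ) (Nat.mul_right_comm M ℓ p))
      (heckeBetaBar (AlgebraicClosure ℚ) (M * p) ℓ) := by
  have hsup0 := bar_eq_sup_map_map M p ℓ hp hℓ hne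
  have hsup : modularFunctionFieldBar (M * p * ℓ) =
      (modularFunctionFieldBar (M * ℓ)).map (qExpandAlgHomC (AlgebraicClosure ℚ) p) ⊔
        (modularFunctionFieldBar (M * p)).map (qExpandAlgHomC (AlgebraicClosure ℚ) ℓ) := by
    rw [← hsup0]
    exact modularFunctionFieldBar_congr (Nat.mul_right_comm M p ℓ)
  have hAT : (modularFunctionFieldBar (M * ℓ)).map (qExpandAlgHomC (AlgebraicClosure ℚ) p)
      ≤ modularFunctionFieldBar (M * ℓ * p) := H218.map_qExpand_bar_le (M * ℓ) p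
  have hd : ((modularFunctionFieldBar (M * ℓ)).map
      (qExpandAlgHomC (AlgebraicClosure ℚ) p)).relfinrank (modularFunctionFieldBar (M * ℓ * p))
        ≠ 0 := by
    rw [H218.relfinrank_map_qExpand_bar_mul_prime (M * ℓ) p (NeZero.ne _) hp]
    split_ifs
    · exact hp.ne_zero
    · omega
  have hpdvd : p ∣ M * ℓ ↔ p ∣ M := by
    constructor
    · intro h
      rcases (Nat.Prime.dvd_mul hp).mp h with h1 | h1
      · exact h1
      · exact absurd ((Nat.prime_dvd_prime_iff_eq hp hℓ).mp h1).symm hne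
    · intro h
      exact h.mul_right ℓ
  refine normCompat_beta_of_sup (AlgebraicClosure ℚ) M p ℓ (H864.finiteAlong_beta M p)
    (H864.finiteAlong_beta (M * ℓ) p) ?_ hsup ?_
  · by_cases h : p ∣ M
    · rw [H218.finrankAlong_heckeBetaBar_of_dvd M p hp h,
        H218.finrankAlong_heckeBetaBar_of_dvd (M * ℓ) p hp (hpdvd.mpr h)]
    · rw [H218.finrankAlong_heckeBetaBar_of_not_dvd M p hp h,
        H218.finrankAlong_heckeBetaBar_of_not_dvd (M * ℓ) p hp (fun h' => h (hpdvd.mp h'))]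
  · intro x hx
    refine isAlgebraic_of_relfinrank_ne_zero hAT hd ?_
    rw [hsup0]
    exact (le_sup_right : (modularFunctionFieldBar (M * p)).map
      (qExpandAlgHomC (AlgebraicClosure ℚ) ℓ) ≤ _) hx

/-- **`β_*` is Hecke-equivariant** (operator form, any prime `ℓ ≠ p`). -/
theorem betaPush_heckeOperatorAlong (hℓ : ℓ.Prime) (hp : p.Prime) (hne : ℓ ≠ p)
    (x : JZero (M * p)) :
    betaPush M p (heckeOperatorAlong (AlgebraicClosure ℚ) (M * p) ℓ x) =
      heckeOperatorAlong (AlgebraicClosure ℚ) M ℓ (betaPush M p x) := by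
  haveI hP₁ : HasPrincipalDivisors (AlgebraicClosure ℚ)
      (laurentBaseChange (AlgebraicClosure ℚ) (modularFunctionFieldFull (M * p))) :=
    H864.hasPrincipalDivisors_FF (M * p)
  haveI hP₂ : HasPrincipalDivisors (AlgebraicClosure ℚ)
      (laurentBaseChange (AlgebraicClosure ℚ) (modularFunctionFieldFull (M * ℓ))) :=
    H864.hasPrincipalDivisors_FF (M * ℓ)
  haveI hP₃ : HasPrincipalDivisors (AlgebraicClosure ℚ)
      (laurentBaseChange (AlgebraicClosure ℚ) (modularFunctionFieldFull (M * p * ℓ))) :=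
    H864.hasPrincipalDivisors_FF (M * p * ℓ)
  have hc : M * ℓ * p = M * p * ℓ := Nat.mul_right_comm M ℓ p
  rw [heckeOperatorAlong_eq (H864.heckeAlphaBarIntegral (M * p) ℓ)
      (H864.heckeBetaBarIntegral (M * p) ℓ) (H864.fundamentalIdentityAlong_beta (M * p) ℓ _)
      (H864.finiteAlong_alpha (M * p) ℓ) (H864.normFormulaAlong_alpha (M * p) ℓ _),
    heckeOperatorAlong_eq (H864.heckeAlphaBarIntegral M ℓ)
      (H864.heckeBetaBarIntegral M ℓ) (H864.fundamentalIdentityAlong_beta M ℓ _)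
      (H864.finiteAlong_alpha M ℓ) (H864.normFormulaAlong_alpha M ℓ _)]
  exact pushPic0_correspondence
    (heckeBetaBar (AlgebraicClosure ℚ) M p)
    (heckeBetaBar (AlgebraicClosure ℚ) M ℓ) (heckeAlphaBar (AlgebraicClosure ℚ) M ℓ)
    (heckeBetaBar (AlgebraicClosure ℚ) (M * p) ℓ) (heckeAlphaBar (AlgebraicClosure ℚ) (M * p) ℓ)
    (betaTo (AlgebraicClosure ℚ) (M * ℓ) p (M * p * ℓ) hc)
    (H864.heckeBetaBarIntegral M p) (H864.heckeBetaBarIntegral M ℓ)
    (H864.heckeAlphaBarIntegral M ℓ) (H864.heckeBetaBarIntegral (M * p) ℓ)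
    (H864.heckeAlphaBarIntegral (M * p) ℓ)
    (betaTo_integral (AlgebraicClosure ℚ) hc (H864.heckeBetaBarIntegral (M * ℓ) p))
    (rel_BB M p ℓ) (rel_sq₁ M p ℓ).symm
    (H864.fundamentalIdentityAlong_beta M ℓ _) (H864.fundamentalIdentityAlong_beta (M * p) ℓ _)
    (H864.finiteAlong_alpha M ℓ) (H864.normFormulaAlong_alpha M ℓ _)
    (H864.finiteAlong_alpha (M * p) ℓ) (H864.normFormulaAlong_alpha (M * p) ℓ _)
    (H864.finiteAlong_beta M p) (H864.normFormulaAlong_beta M p _)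
    (betaTo_finite (AlgebraicClosure ℚ) hc (H864.finiteAlong_beta (M * ℓ) p))
    (betaTo_normFormula (AlgebraicClosure ℚ) hc (H864.finiteAlong_beta (M * ℓ) p)
      (H864.normFormulaAlong_beta (M * ℓ) p _))
    (normCompat_beta_bar M p ℓ hp hℓ hne)
    (hasLocalGenerators_of_hasPrincipalDivisors _ _) x

end Bar

section BarPrimes

variable (M p : ℕ) [NeZero M] [NeZero p]

/-- **`β_*` is Hecke-equivariant**: `β_* (T_ℓ x) = T_ℓ (β_* x)` for every prime `ℓ ≠ p`. -/
theorem betaPush_heckeOperatorBar (hp : p.Prime) (ℓ : Nat.Primes) (hne : (ℓ : ℕ) ≠ p)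
    (x : JZero (M * p)) :
    betaPush M p (heckeOperatorBar (M * p) ℓ x) = heckeOperatorBar M ℓ (betaPush M p x) := by
  haveI : NeZero (ℓ : ℕ) := ⟨ℓ.2.ne_zero⟩
  rw [heckeOperatorBar_apply, heckeOperatorBar_apply]
  exact betaPush_heckeOperatorAlong M p (ℓ : ℕ) ℓ.2 hp hne x

end BarPrimes

end Fermat.Agent.Ribet.H801

end

end
-- ===== PACK-END Ribet/H801/DegBeta.lean

-- ===== PACK-BEGIN S29/M4b/K3/Deg.lean
section
/-
S29 row, M4b, piece K3 — sub-piece `K3-DEG` (helper42): bounded degree of `F_ℂ` over `ℂ(j)`.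

`degStatement N : DegStatement N` (= hypothesis `hdeg` of `H152.desc_main` for `Ω = ℂ`), with
`n = [SL₂(ℤ) : Γ₀(N)]`.  From the landed S24 degree theory (`Deg457.algDeg_of_mem_field`) and
`H882.exists_monic_of_mem_goodQ`.
-/



set_option autoImplicit false

noncomputable section

open ModularCurve AlgebraicCurve CongruenceSubgroup UpperHalfPlane Polynomial
open scoped MatrixGroups Manifold

namespace Fermat.Agent.S29.M4b.K3

open Fermat.Agent.S24 Fermat.Agent.S24.H648 Fermat.Agent.S24.H708 Fermat.Agent.S24.Deg457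
open Fermat.Agent.S29 Fermat.Agent.S29.M4b

/-- The interface hypothesis of the S24 degree theory over `ℂ`. -/
theorem hyp_complex (N : ℕ) [NeZero N] : Hyp ℂ N (Nat.card (XX N)) := by
  intro b hb
  obtain ⟨P, hPm, hPn, hP⟩ := H882.exists_monic_of_mem_goodQ (H882.AK_le_goodQ N hb)
  exact ⟨P, hPm, hPn, hP⟩

/-- **K3-DEG**. -/
theorem degStatement (N : ℕ) [NeZero N] : DegStatement N := by
  refine ⟨Nat.card (XX N), fun u hu => ?_⟩
  obtain ⟨Q, hQ0, hQn, hQ⟩ := algDeg_of_mem_field (RingHom.id ℂ) (_root_.Fermat.Agent.S29.M4b.K3.hyp_complex N) hu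
  have hj : ∀ t : ℂ[X], t ≠ 0 →
      aeval (IntermediateField.AdjoinSimple.gen ℂ (coeffEmb ℂ jq)) t ≠ 0 := by
    intro t ht h0
    apply aeval_JK_ne_zero ℂ ht
    have h1 := congrArg (algebraMap ↥(IntermediateField.adjoin ℂ {coeffEmb ℂ jq})
      (LaurentSeries ℂ)) h0
    rw [← aeval_algebraMap_apply, map_zero, IntermediateField.AdjoinSimple.algebraMap_gen] at h1
    exact h1
  refine isIntegral_and_natDegree_le_of_relation (K := ℂ)
    (IntermediateField.AdjoinSimple.gen ℂ (coeffEmb ℂ jq)) hj u Q hQ0 _ hQn ?_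
  rw [IntermediateField.AdjoinSimple.algebraMap_gen]
  exact hQ

end Fermat.Agent.S29.M4b.K3

end
end
-- ===== PACK-END S29/M4b/K3/Deg.lean

-- ===== PACK-BEGIN S29/M4b/H822/K4Basic.lean
section
/-
S29 / M4b (helper822): PIECES `K4-ADD` (`isKum_add`) and `K4-INJ` (`isKum_zero_right`) of
`M4b/Skeleton.lean`, exact statements.  Sorry-free.
-/




set_option autoImplicit false

noncomputable section

open ModularCurve AlgebraicCurve CongruenceSubgroup UpperHalfPlane
open scoped MatrixGroups Manifold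

namespace Fermat.Agent.S29.M4b.H822

open Fermat.Agent.S24 Fermat.Agent.S29 Fermat.Agent.S29.M4b

variable (N : ℕ) [NeZero N] (p : ℕ) [NeZero p]

/-- A function which is not the zero function has a point of non-vanishing. -/
theorem exists_ne_zero_of_ne_zero {G : ℍ → ℂ} (h : G ≠ 0) : ∃ τ : ℍ, G τ ≠ 0 := by
  by_contra hh
  exact h (funext fun τ => not_not.mp fun hτ => hh ⟨τ, hτ⟩)

/-- PIECE `K4-ADD`: additivity of the Kummer relation. -/
theorem isKum_add {c c' : G0 N → ZMod p} {x x' : JZero N}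
    (h : IsKum N p c x) (h' : IsKum N p c' x') : IsKum N p (c + c') (x + x') := by
  obtain ⟨f, t, U, ht, hx, hU, hr⟩ := h
  obtain ⟨f', t', U', ht', hx', hU', hr'⟩ := h'
  have hfun : (fun τ => (U τ * U' τ) ^ p) = (fun τ => U τ ^ p) * (fun τ => U' τ ^ p) := by
    funext τ
    simp [mul_pow]
  have hreal : Realises N (f * f' * (t * t') ^ p) (fun τ => (U τ * U' τ) ^ p) := by
    have h1 := realises_mul hr hr'
    rw [hfun]
    have h2 : f * f' * (t * t') ^ p = f * t ^ p * (f' * t' ^ p) := by ring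
    rw [h2]
    exact h1
  refine ⟨f * f', t * t', fun τ => U τ * U' τ, mul_ne_zero ht ht', hx.add hx', ?_, hreal⟩
  refine ⟨hU.mdiff.mul hU'.mdiff, ?_, hasChar_mul hU.hasChar hU'.hasChar, hreal.1⟩
  have hne : f * f' * (t * t') ^ p ≠ 0 :=
    mul_ne_zero (mul_ne_zero hx.ne_zero hx'.ne_zero) (pow_ne_zero _ (mul_ne_zero ht ht'))
  obtain ⟨τ, hτ⟩ := exists_ne_zero_of_ne_zero (realises_ne_zero hreal hne)
  refine ⟨τ, fun h0 => hτ ?_⟩
  show (U τ * U' τ) ^ p = 0
  rw [h0, zero_pow (NeZero.ne p)]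

/-- PIECE `K4-INJ`: only the trivial character has Kummer class `0`. -/
theorem isKum_zero_right {c : G0 N → ZMod p} (h : IsKum N p c (0 : JZero N)) : c = 0 := by
  obtain ⟨f, t, U, ht, hx, hU, hr⟩ := h
  have hp0 : (p : ℤ) ≠ 0 := by exact_mod_cast NeZero.ne p
  have hpn : p ≠ 0 := NeZero.ne p
  obtain ⟨g, hg, hfg⟩ := (hx.eq_zero_iff hp0).mp rfl
  have hf0 := hx.ne_zero
  -- `f / g ^ p` is a constant
  have hu : ∀ v : Place Kbar (FF N), v.ord (f / g ^ p) = 0 := by
    intro v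
    have hpow : v.ord (g ^ p) = (p : ℤ) * v.ord g := by
      rw [← zpow_natCast, Place.ord_zpow]
    rw [div_eq_mul_inv, Place.ord_mul v hf0 (inv_ne_zero (pow_ne_zero _ hg)), Place.ord_inv,
      hpow, hfg v]
    ring
  obtain ⟨a0, ha0⟩ := Fermat.Agent.S18.H564.constOfOrdZero_modularFunctionFieldBar N (f / g ^ p)
    (div_ne_zero hf0 (pow_ne_zero _ hg)) hu
  obtain ⟨b0, hb0⟩ := IsAlgClosed.exists_pow_nat_eq a0 (Nat.pos_of_ne_zero hpn)
  -- `f * t ^ p = v ^ p`
  set v : FF N := algebraMap Kbar (FF N) b0 * g * t with hv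
  have hvp : v ^ p = f * t ^ p := by
    have h1 : f = algebraMap Kbar (FF N) a0 * g ^ p := by
      rw [← ha0, div_mul_cancel₀ _ (pow_ne_zero _ hg)]
    rw [hv, mul_pow, mul_pow, ← map_pow, hb0, ← h1]
  have hv0 : v ≠ 0 := by
    intro h0
    have : f * t ^ p = 0 := by rw [← hvp, h0, zero_pow hpn]
    exact (mul_ne_zero hf0 (pow_ne_zero _ ht)) this
  -- `v = A / B` with `A, B` polynomials in the `j(q^d)`
  obtain ⟨A, B, hB0, hvAB⟩ := H997.exists_div_inclRN N v
  have hB0' : H997.inclRN N B ≠ 0 := fun h0 =>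
    hB0 (H997.inclRN_injective N (by rw [h0, map_zero]))
  have hA0' : H997.inclRN N A ≠ 0 := by
    intro h0
    rw [h0, zero_div] at hvAB
    exact hv0 hvAB
  obtain ⟨GA, hGA⟩ := exists_realises_of_mem_AK (a := H997.inclRN N A) A.2
  obtain ⟨GB, hGB⟩ := exists_realises_of_mem_AK (a := H997.inclRN N B) B.2
  have h3 : f * t ^ p * (H997.inclRN N B) ^ p = (H997.inclRN N A) ^ p := by
    rw [← hvp, ← mul_pow, hvAB, div_mul_cancel₀ _ hB0']
  have h1 : Realises N ((H997.inclRN N A) ^ p) ((fun τ => U τ ^ p) * GB ^ p) := by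
    have := realises_mul hr (realises_pow hGB p)
    rwa [h3] at this
  have h4 : (fun τ => U τ ^ p) * GB ^ p = GA ^ p := realises_unique_right h1 (realises_pow hGA p)
  have h5 : ∀ τ : ℍ, (U τ * GB τ) ^ p = GA τ ^ p := by
    intro τ
    have := congrFun h4 τ
    simp only [Pi.mul_apply, Pi.pow_apply] at this
    rw [mul_pow]
    exact this
  obtain ⟨τ₀, hτ₀⟩ := exists_ne_zero_of_ne_zero (realises_ne_zero hGA hA0')
  have hUB0 : U τ₀ * GB τ₀ ≠ 0 := by
    intro h0
    have := h5 τ₀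
    rw [h0, zero_pow hpn] at this
    exact hτ₀ (pow_eq_zero_iff hpn |>.mp this.symm)
  set z : ℂ := U τ₀ * GB τ₀ / GA τ₀ with hz
  have hzp : z ^ p = 1 := by
    rw [hz, div_pow, h5 τ₀, div_self (pow_ne_zero _ hτ₀)]
  have hGAmd : MDifferentiable 𝓘(ℂ) 𝓘(ℂ) GA := hGA.1.1
  have hGBmd : MDifferentiable 𝓘(ℂ) 𝓘(ℂ) GB := hGB.1.1
  have hEq : (fun τ => U τ * GB τ) = fun τ => z * GA τ := by
    refine H751.eq_of_pow_eq_UHP (hU.mdiff.mul hGBmd) (mdifferentiable_const.mul hGAmd) hpn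
      (fun τ => ?_) (τ₀ := τ₀) ?_ hUB0
    · show (U τ * GB τ) ^ p = (z * GA τ) ^ p
      rw [mul_pow z, hzp, one_mul, h5 τ]
    · show U τ₀ * GB τ₀ = z * GA τ₀
      rw [hz, div_mul_cancel₀ _ hτ₀]
  funext γ
  have hinvA : GA ((γ : SL(2, ℤ)) • τ₀) = GA τ₀ := hGA.1.2.1 _ γ.2 τ₀
  have hinvB : GB ((γ : SL(2, ℤ)) • τ₀) = GB τ₀ := hGB.1.2.1 _ γ.2 τ₀
  have e1 := congrFun hEq ((γ : SL(2, ℤ)) • τ₀)
  have e2 := congrFun hEq τ₀
  rw [hinvA, hinvB, ← e2, hU.hasChar γ τ₀] at e1
  have e3 : (zetaP p ^ (c γ).val - 1) * (U τ₀ * GB τ₀) = 0 := by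
    linear_combination e1
  rcases mul_eq_zero.mp e3 with h | h
  · exact (zetaP_pow_val_eq_one_iff p (c γ)).mp (sub_eq_zero.mp h)
  · exact absurd h hUB0

end Fermat.Agent.S29.M4b.H822

end
end
-- ===== PACK-END S29/M4b/H822/K4Basic.lean

-- ===== PACK-BEGIN S29/M4b/H822/K4Uniq.lean
section
/-
S29 / M4b (helper822): PIECE `K4-UNIQ` (`isKum_unique`) of `M4b/Skeleton.lean`, exact statement.
Sorry-free.  Inputs (all on main): MERO `H882.qexpFun_mem_FC`, `H32.mem_range_of_finite_orbit`,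
`H32.exists_of_coeff_mem_range`, `H455.IsKummerClass` API.
-/




set_option autoImplicit false

noncomputable section

open ModularCurve AlgebraicCurve CongruenceSubgroup UpperHalfPlane
open scoped MatrixGroups Manifold

namespace Fermat.Agent.S29.M4b.H822

open Fermat.Agent.S24 Fermat.Agent.S29 Fermat.Agent.S29.M4b

/-! ### Growth of roots -/

theorem expGrowth_of_pow {F : ℍ → ℂ} {p : ℕ} (hp : p ≠ 0)
    (h : H648.ExpGrowth (fun τ => F τ ^ p)) : H648.ExpGrowth F := by
  obtain ⟨C, m, hC⟩ := h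
  refine ⟨1 + |C|, m, fun τ hτ => ?_⟩
  have h1 := hC τ hτ
  rw [norm_pow] at h1
  have hE : (1 : ℝ) ≤ Real.exp (2 * Real.pi * m * τ.im) := by
    apply Real.one_le_exp
    have : (0 : ℝ) ≤ τ.im := τ.im_pos.le
    positivity
  have h2 : ‖F τ‖ ≤ 1 + ‖F τ‖ ^ p := by
    rcases le_or_gt ‖F τ‖ 1 with h | h
    · have : (0 : ℝ) ≤ ‖F τ‖ ^ p := by positivity
      linarith
    · have : ‖F τ‖ ≤ ‖F τ‖ ^ p := le_self_pow₀ h.le hp
      linarith
  have h3 : C * Real.exp (2 * Real.pi * m * τ.im) ≤ |C| * Real.exp (2 * Real.pi * m * τ.im) :=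
    mul_le_mul_of_nonneg_right (le_abs_self C) (Real.exp_pos _).le
  calc ‖F τ‖ ≤ 1 + ‖F τ‖ ^ p := h2
    _ ≤ 1 + |C| * Real.exp (2 * Real.pi * m * τ.im) := by linarith
    _ ≤ Real.exp (2 * Real.pi * m * τ.im) + |C| * Real.exp (2 * Real.pi * m * τ.im) := by
        linarith
    _ = (1 + |C|) * Real.exp (2 * Real.pi * m * τ.im) := by ring

/-- A holomorphic `Γ₀(N)`-invariant function whose `p`-th power is good is good. -/
theorem mem_goodRing_of_pow_mem {N : ℕ} {V : ℍ → ℂ} {p : ℕ} (hp : p ≠ 0)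
    (hV : MDifferentiable 𝓘(ℂ) 𝓘(ℂ) V)
    (hinv : ∀ γ ∈ Gamma0 N, ∀ τ : ℍ, V (γ • τ) = V τ)
    (hpow : (fun τ => V τ ^ p) ∈ H648.goodRing N) : V ∈ H648.goodRing N :=
  ⟨hV, hinv, fun g => expGrowth_of_pow hp (hpow.2.2 g)⟩

/-! ### Algebraicity of the coefficients of a `p`-th root -/

/-- The algebra structure `ℚ̄ → ℂ` given by the fixed embedding `iotaC`. -/
abbrev algKbarC : Algebra Kbar ℂ := Deg457.iotaC.toAlgebra

theorem isScalarTower_algKbarC :
    letI := algKbarC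
    IsScalarTower ℚ Kbar ℂ := by
  letI := algKbarC
  refine IsScalarTower.of_algebraMap_eq fun q => ?_
  show (algebraMap ℚ ℂ) q = Deg457.iotaC (algebraMap ℚ Kbar q)
  unfold Deg457.iotaC
  simp

/-- If `s ^ p` has coefficients in `ℚ̄`, so has `s` (`p ≥ 1`). -/
theorem coeff_mem_range_of_pow_eq {p : ℕ} [NeZero p] {s : LaurentSeries ℂ}
    {w : LaurentSeries Kbar} (hs : s ^ p = coeffMap Deg457.iotaC w) (n : ℤ) :
    s.coeff n ∈ Set.range Deg457.iotaC := by
  letI := algKbarC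
  have hpn : p ≠ 0 := NeZero.ne p
  show s.coeff n ∈ Set.range (algebraMap Kbar ℂ)
  apply H32.mem_range_of_finite_orbit
  rcases eq_or_ne s 0 with rfl | hs0
  · refine (Set.finite_singleton (0 : ℂ)).subset ?_
    rintro _ ⟨σ, rfl⟩
    simp
  -- the conjugates are among the `ζ ^ i * s_n`
  refine (Set.finite_range fun i : Fin p => zetaP p ^ (i : ℕ) * s.coeff n).subset ?_
  rintro _ ⟨σ, rfl⟩
  set s' : LaurentSeries ℂ := coeffMap (σ : ℂ →+* ℂ) s with hs'
  have h1 : s' ^ p = s ^ p := by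
    rw [hs', ← map_pow, hs, coeffMap_coeffMap]
    apply coeffMap_congr
    ext c
    exact σ.commutes c
  have h2 : (s' / s) ^ p = 1 := by
    rw [div_pow, h1, div_self (pow_ne_zero _ hs0)]
  have hprim : IsPrimitiveRoot (algebraMap ℂ (LaurentSeries ℂ) (zetaP p)) p :=
    (isPrimitiveRoot_zetaP p).map_of_injective (algebraMap ℂ (LaurentSeries ℂ)).injective
  obtain ⟨i, hi, hi2⟩ := hprim.eq_pow_of_pow_eq_one h2
  have h3 : s' = algebraMap ℂ (LaurentSeries ℂ) (zetaP p ^ i) * s := by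
    rw [map_pow, hi2, div_mul_cancel₀ _ hs0]
  refine ⟨⟨i, hi⟩, ?_⟩
  show zetaP p ^ i * s.coeff n = σ (s.coeff n)
  have h4 : s'.coeff n = σ (s.coeff n) := rfl
  rw [← h4, h3, H32.coeff_algebraMap_mul]

/-! ### Powers of Kummer classes -/

theorem isKummerClass_pow {K F : Type*} [Field K] [Field F] [Algebra K F] {n : ℤ} {f : F}
    {x : Pic0 K F} (h : H455.IsKummerClass n f x) (k : ℕ) :
    H455.IsKummerClass n (f ^ k) (k • x) := by
  induction k with
  | zero => simpa using (H455.IsKummerClass.zero (n := n) (K := K) (F := F))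
  | succ k ih =>
    rw [pow_succ, succ_nsmul]
    exact ih.add h

/-! ### The piece -/

variable (N : ℕ) [NeZero N] (p : ℕ) [NeZero p]

/-- PIECE `K4-UNIQ`: the Kummer class of a character is unique. -/
theorem isKum_unique {c : G0 N → ZMod p} {x x' : JZero N}
    (h : IsKum N p c x) (h' : IsKum N p c x') : x = x' := by
  obtain ⟨f, t, U, ht, hx, hU, hr⟩ := h
  obtain ⟨f', t', U', ht', hx', hU', hr'⟩ := h'
  have hpn : p ≠ 0 := NeZero.ne p
  have hp0 : (p : ℤ) ≠ 0 := by exact_mod_cast hpn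
  have hp1 : p - 1 + 1 = p := Nat.sub_add_cancel (Nat.pos_of_ne_zero hpn)
  -- the invariant function `V = U * U' ^ (p - 1)`
  set V : ℍ → ℂ := fun τ => U τ * U' τ ^ (p - 1) with hVdef
  set w : FF N := f * t ^ p * (f' * t' ^ p) ^ (p - 1) with hw
  have hVpow : (fun τ => V τ ^ p) = (fun τ => U τ ^ p) * (fun τ => U' τ ^ p) ^ (p - 1) := by
    funext τ
    simp only [hVdef, Pi.mul_apply, Pi.pow_apply, mul_pow]
    rw [← pow_mul, ← pow_mul, mul_comm (p - 1) p]
  have hWreal : Realises N w (fun τ => V τ ^ p) := by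
    rw [hVpow]
    exact realises_mul hr (realises_pow hr' (p - 1))
  have hVmd : MDifferentiable 𝓘(ℂ) 𝓘(ℂ) V := hU.mdiff.mul (hU'.mdiff.pow (p - 1))
  have hVinv : ∀ γ ∈ Gamma0 N, ∀ τ : ℍ, V (γ • τ) = V τ := by
    intro γ hγ τ
    have e1 := hU.hasChar ⟨γ, hγ⟩ τ
    have e2 := hU'.hasChar ⟨γ, hγ⟩ τ
    simp only at e1 e2
    show U (γ • τ) * U' (γ • τ) ^ (p - 1) = U τ * U' τ ^ (p - 1)
    rw [e1, e2, mul_pow]
    have e3 : zetaP p ^ (c ⟨γ, hγ⟩).val * (zetaP p ^ (c ⟨γ, hγ⟩).val) ^ (p - 1) = 1 := by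
      rw [← pow_succ', hp1, ← pow_mul, mul_comm, pow_mul, zetaP_pow_self, one_pow]
    linear_combination (U τ * U' τ ^ (p - 1)) * e3
  have hVgood : V ∈ H648.goodRing N := mem_goodRing_of_pow_mem hpn hVmd hVinv hWreal.1
  -- its `q`-expansion `s`
  set s : LaurentSeries ℂ := H708.qexpFun 1 V with hsdef
  have hsQ : H708.HasQExp 1 V s := H882.hasQExp_of_mem_goodRing hVgood
  have hsFC : s ∈ laurentBaseChange ℂ (modularFunctionFieldFull N) := H882.qexpFun_mem_FC (N := N) hVgood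
  have hsp : s ^ p = coeffMap Deg457.iotaC ((w : FF N) : LaurentSeries Kbar) := by
    have h1 := hsQ.pow p
    have h2 : V ^ p = fun τ => V τ ^ p := rfl
    rw [h2] at h1
    exact h1.unique (realises_hasQExp hWreal)
  -- descent of `s` to `ℚ̄`
  let _ : Algebra Kbar ℂ := algKbarC
  have _ : IsScalarTower ℚ Kbar ℂ := isScalarTower_algKbarC
  obtain ⟨y, hy, hys⟩ := H32.exists_of_coeff_mem_range (k := Kbar) (Ω := ℂ)
    (modularFunctionFieldFull N) hsFC (fun n => coeff_mem_range_of_pow_eq hsp n)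
  set vv : FF N := ⟨y, hy⟩ with hvv
  have hvvp : vv ^ p = w := by
    apply Subtype.ext
    apply coeffMap_iotaC_injective
    show coeffMap Deg457.iotaC (((vv ^ p : FF N) : FF N) : LaurentSeries Kbar) = _
    rw [← hsp, ← hys]
    simp only [SubmonoidClass.coe_pow, map_pow]
    rfl
  -- `f * f' ^ (p - 1)` is a `p`-th power
  have hf0 := hx.ne_zero
  have hf0' := hx'.ne_zero
  have hd0 : t * t' ^ (p - 1) ≠ 0 := mul_ne_zero ht (pow_ne_zero _ ht')
  set g : FF N := vv / (t * t' ^ (p - 1)) with hg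
  have hgp : g ^ p = f * f' ^ (p - 1) := by
    rw [hg, div_pow, hvvp, hw]
    rw [div_eq_iff (pow_ne_zero _ hd0)]
    have e1 : (t' ^ p) ^ (p - 1) = (t' ^ (p - 1)) ^ p := by
      rw [← pow_mul, ← pow_mul, mul_comm]
    rw [mul_pow, mul_pow, e1]
    ring
  have hg0 : g ≠ 0 := by
    intro h0
    rw [h0, zero_pow hpn] at hgp
    exact (mul_ne_zero hf0 (pow_ne_zero _ hf0')) hgp.symm
  have hsum : H455.IsKummerClass (p : ℤ) (f * f' ^ (p - 1)) (x + (p - 1) • x') :=
    hx.add (isKummerClass_pow hx' (p - 1))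
  have hzero : x + (p - 1) • x' = 0 := by
    refine (hsum.eq_zero_iff hp0).mpr ⟨g, hg0, fun v => ?_⟩
    rw [← hgp, ← zpow_natCast, Place.ord_zpow]
  have hpx' : (p : ℤ) • x' = 0 := hx'.zsmul_eq_zero
  have h5 : (p - 1) • x' + x' = 0 := by
    rw [← succ_nsmul, hp1, ← natCast_zsmul]
    exact hpx'
  have h6 : x - x' = 0 := by
    have : x - x' = (x + (p - 1) • x') - ((p - 1) • x' + x') := by abel
    rw [this, hzero, h5, sub_zero]
  exact sub_eq_zero.mp h6

end Fermat.Agent.S29.M4b.H822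

end
end
-- ===== PACK-END S29/M4b/H822/K4Uniq.lean

-- ===== PACK-BEGIN S29/H395/K4Hecke.lean
section
/-
S29 / layer M / sub-layer M4b, PIECE `K4-HECKE` — helper395.

`isKum_hecke_of_normId` : the exact conclusion of `M4b.isKum_hecke` (helper822's skeleton),
from ONE external input, the `q`-expansion form of the norm identity
`H222.NormId N ℓ : (Nm_α (β y) : ℚ̄((q))) = kronNorm ℓ y` (row S37, NORM-ID / NKI).

Everything else is proved: Hecke inputs (landed `HI`), the correspondence on Kummer classes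
(landed `H455`), the transfer formula for products (`ProdChar`), the analytic Kronecker norm
(`AnalyticKron`), stability of good functions under `heckeProd` (`GoodProd`), and the comparison
of the two index conventions (landed `M4a/Fac`).
-/






set_option autoImplicit false
set_option linter.style.haveILetI false

noncomputable section

open ModularCurve AlgebraicCurve CongruenceSubgroup UpperHalfPlane
open scoped MatrixGroups Manifold Real

namespace Fermat.Agent.S29.H395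

open Fermat.Agent.S24 Fermat.Agent.S29 Fermat.Agent.S29.M4b Fermat.Agent.S37.H400

/-! ### Roots of unity bookkeeping -/

theorem zetaP_pow_self (p : ℕ) [NeZero p] : zetaP p ^ p = 1 :=
  (Complex.isPrimitiveRoot_exp p (NeZero.ne p)).pow_eq_one

theorem zetaP_pow_eq_of_natCast_eq (p : ℕ) [NeZero p] {a b : ℕ}
    (h : (a : ZMod p) = (b : ZMod p)) : zetaP p ^ a = zetaP p ^ b := by
  have hab : a ≡ b [MOD p] := (ZMod.natCast_eq_natCast_iff a b p).mp h
  rw [← Nat.div_add_mod a p, ← Nat.div_add_mod b p, pow_add, pow_add, pow_mul, pow_mul,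
    zetaP_pow_self, one_pow, one_pow, one_mul, one_mul, hab]

/-! ### The character of `heckeProd ℓ U` -/

theorem hasChar_heckeProd (N p : ℕ) [NeZero N] [NeZero p] {ℓ : ℕ} [Fact ℓ.Prime] (hℓN : ¬ ℓ ∣ N)
    {c c' : G0 N → ZMod p} (hcc' : IsTransfer N ℓ c c') {U : ℍ → ℂ} (hU : HasChar N p c U) :
    HasChar N p c' (heckeProd ℓ U) := by
  intro γ τ
  rw [heckeProd_smul hℓN (h := U) (c := fun γ => zetaP p ^ (c γ).val) hU γ τ]
  congr 1
  rw [Finset.prod_pow_eq_pow_sum]
  apply zetaP_pow_eq_of_natCast_eq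
  have h1 := hcc' γ (M4aTop_perm γ) (fun i => H201.trf hℓN γ (M4aTop_idx ℓ i))
    (fun i => M4aTop_isHeckeFactor_trf hℓN γ i)
  rw [ZMod.natCast_zmod_val, h1, Nat.cast_sum]
  simp only [ZMod.natCast_zmod_val]
  exact (Equiv.sum_comp (M4aTop_idx ℓ) (fun x => c (H201.trf hℓN γ x))).symm

/-! ### `q`-expansions: `InfExp` versus `HasQExp` -/

theorem infExp_of_hasQExp {f : ℍ → ℂ} {φ : LaurentSeries ℂ} (h : H708.HasQExp 1 f φ) :
    InfExp 1 f φ := fun τ => h.hasSum τ

theorem hasQExp_of_infExp {f : ℍ → ℂ} {φ : LaurentSeries ℂ}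
    (hol : MDifferentiable 𝓘(ℂ) 𝓘(ℂ) f) (h : InfExp 1 f φ) : H708.HasQExp 1 f φ :=
  H708.HasQExp.of_hasSum hol fun τ => h τ

/-- The `q`-expansion of `heckeProd ℓ G` for a good function `G`. -/
theorem qexpFun_heckeProd {N : ℕ} [NeZero N] {ℓ : ℕ} [Fact ℓ.Prime] (hℓN : ¬ ℓ ∣ N) {G : ℍ → ℂ}
    (hG : G ∈ H648.goodRing N) :
    H708.qexpFun 1 (heckeProd ℓ G) = kronNorm ℓ (H708.qexpFun 1 G) := by
  have h1 := infExp_of_hasQExp (H882.hasQExp_of_mem_goodRing hG)
  have h2 := infExp_heckeProd (ℓ := ℓ) h1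
  exact (hasQExp_of_infExp (heckeProd_mem_goodRing hℓN hG).1 h2).qexpFun_eq

/-! ### The main theorem -/

section Main

variable (N : ℕ) [NeZero N] (p : ℕ) [NeZero p]

omit [NeZero p] in
theorem heckeProd_pow_fun (ℓ : ℕ) [Fact ℓ.Prime] (U : ℍ → ℂ) :
    heckeProd ℓ (fun τ => U τ ^ p) = fun τ => heckeProd ℓ U τ ^ p := by
  have := heckeProd_pow (p := ℓ) U p
  exact this

/-- **PIECE `K4-HECKE`**, from the norm identity `NormId N ℓ`. -/
theorem isKum_hecke_of_normId (ℓ : Nat.Primes) (hℓ : ¬ (ℓ : ℕ) ∣ N * p)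
    (hnorm : haveI : NeZero (ℓ : ℕ) := ⟨ℓ.2.ne_zero⟩; H222.NormId N (ℓ : ℕ))
    {c c' : G0 N → ZMod p} (hcc' : IsTransfer N (ℓ : ℕ) c c')
    {x : JZero N} (h : IsKum N p c x) : IsKum N p c' (heckeOperatorBar N ℓ x) := by
  haveI : NeZero (ℓ : ℕ) := ⟨ℓ.2.ne_zero⟩
  haveI : Fact (ℓ : ℕ).Prime := ⟨ℓ.2⟩
  have hℓN : ¬ (ℓ : ℕ) ∣ N := fun h' => hℓ (Dvd.dvd.mul_right h' p)
  obtain ⟨f, t, U, ht, hx, hU, hR⟩ := h
  obtain ⟨hα, hβ, hP, hfin, hFI, hN⟩ := heckeInputsAlong_bar N (ℓ : ℕ) ℓ.2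
  haveI := hP
  -- the new data
  set α := heckeAlphaBar (AlgebraicClosure ℚ) N (ℓ : ℕ) with hαdef
  set β := heckeBetaBar (AlgebraicClosure ℚ) N (ℓ : ℕ) with hβdef
  have hT : heckeOperatorBar N ℓ x = Pic0.correspondence β α hβ hα hFI hfin hN x := by
    rw [heckeOperatorBar_apply, heckeOperatorAlong_eq hα hβ hFI hfin hN]
    rfl
  have hx' := hx.correspondence β α hβ hα hFI hfin hN
  rw [← hT] at hx'
  have ht' : H455.normAlong α (β t) ≠ 0 :=
    H455.normAlong_ne_zero α hfin ((map_ne_zero β).mpr ht)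
  have hmul : H455.normAlong α (β f) * H455.normAlong α (β t) ^ p
      = H222.heckeNorm N (ℓ : ℕ) (f * t ^ p) := by
    rw [← H455.normAlong_pow, ← H455.normAlong_mul, ← map_pow, ← map_mul]
    rfl
  -- the analytic side
  have hgood : (fun τ => heckeProd (ℓ : ℕ) U τ ^ p) ∈ H648.goodRing N := by
    rw [← heckeProd_pow_fun]
    exact heckeProd_mem_goodRing hℓN hR.1
  have hq : H708.qexpFun 1 (fun τ => heckeProd (ℓ : ℕ) U τ ^ p)
      = coeffMap Deg457.iotaC
          ((((H455.normAlong α (β f) * H455.normAlong α (β t) ^ p : FF N)) : FF N) :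
            LaurentSeries Kbar) := by
    rw [← heckeProd_pow_fun, qexpFun_heckeProd hℓN hR.1, hR.2, ← coeffMap_kronNorm, hmul]
    exact congrArg _ (hnorm (f * t ^ p)).symm
  have hne : (H455.normAlong α (β f) * H455.normAlong α (β t) ^ p : FF N) ≠ 0 :=
    mul_ne_zero hx'.ne_zero (pow_ne_zero _ ht')
  refine ⟨H455.normAlong α (β f), H455.normAlong α (β t), heckeProd (ℓ : ℕ) U, ht', hx',
    ⟨mdiff_heckeProd hU.mdiff, ?_, hasChar_heckeProd N p hℓN hcc' hU.hasChar, hgood⟩,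
    ⟨hgood, hq⟩⟩
  -- non-vanishing
  by_contra hzero
  push Not at hzero
  have hp0 : p ≠ 0 := NeZero.ne p
  have h0 : (fun τ => heckeProd (ℓ : ℕ) U τ ^ p) = 0 := by
    funext τ
    rw [hzero τ]
    simp [hp0]
  have h1 := (H882.hasQExp_of_mem_goodRing hgood)
  have h2 : H708.qexpFun 1 (fun τ => heckeProd (ℓ : ℕ) U τ ^ p) = 0 :=
    h1.eq_zero_iff.mpr h0
  rw [hq] at h2
  have hinj : Function.Injective (coeffMap Deg457.iotaC) :=
    inf_coeffMap_injective Deg457.iotaC.injective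
  have h3 : (((H455.normAlong α (β f) * H455.normAlong α (β t) ^ p : FF N)) :
      LaurentSeries Kbar) = 0 := hinj (by rw [h2, map_zero])
  exact hne (by exact_mod_cast h3)

end Main

end Fermat.Agent.S29.H395

end

end
-- ===== PACK-END S29/H395/K4Hecke.lean

-- ===== PACK-BEGIN S37/H819/NormId.lean
section




/-!
# S37 / node NORMID (helper819)

`normId` : for a prime `ℓ ∤ M` and `f ∈ ℚ̄(X₀(M)) = modularFunctionFieldBar M`, the `q`-expansion of
the norm of `β f` over `α(F_M)` (Prelude algebra structure `algebraAlong (heckeAlphaBar ℚ̄ M ℓ)`)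
is the formal Kronecker norm `H400.kronNorm ℓ f = V_ℓ f · det (secMat ℓ f)`.
This is exactly `Board.NormIdStatement M ℓ` of `origin/helper37:Fermat/Agent/S37/Core/Skeleton3.lean`.
-/

set_option autoImplicit false

noncomputable section

open ModularCurve HahnSeries AlgebraicCurve

namespace Fermat.Agent.S37.H819

open Fermat.Agent.S24

/-- H400's section matrix is H340's Kronecker matrix. -/
theorem secMat_eq_kronMat {R : Type*} [CommRing R] (p : ℕ) [NeZero p] (f : LaurentSeries R) :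
    Fermat.Agent.S37.H400.secMat p f = Fermat.Agent.S37.H340.kronMat p f := by
  ext i j n
  rw [Fermat.Agent.S37.H400.secMat_apply', Fermat.Agent.S37.H340.kronMat_apply,
    Fermat.Agent.S37.H400.secL_coeff, Fermat.Agent.S37.H340.sect_coeff]

/-- H340's twist by an `ℓ`-th root of unity is the S24 twist. -/
theorem tw_eq_infTwist {R : Type*} [CommRing R] (ℓ : ℕ) [NeZero ℓ] (u : Rˣ)
    (hu : (u : R) ^ ℓ = 1) (f : LaurentSeries R) :
    Fermat.Agent.S37.H340.tw ℓ (u : R) f = infTwist u f := by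
  ext n
  rw [Fermat.Agent.S37.H340.tw_coeff, infTwist_coeff, mul_comm]
  congr 1
  have hℓ : (ℓ : ℤ) ≠ 0 := by exact_mod_cast NeZero.ne ℓ
  have hu' : u ^ ℓ = 1 := Units.ext (by rw [Units.val_pow_eq_pow_val, hu, Units.val_one])
  unfold Fermat.Agent.S37.H340.zpw
  have h1 : n = n % (ℓ : ℤ) + (ℓ : ℤ) * (n / (ℓ : ℤ)) := (Int.emod_add_mul_ediv n ℓ).symm
  have h0 : 0 ≤ n % (ℓ : ℤ) := Int.emod_nonneg n hℓ
  have h2 : ((n % (ℓ : ℤ)).toNat : ℤ) = n % (ℓ : ℤ) := Int.toNat_of_nonneg h0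
  have h3 : u ^ n = u ^ (n % (ℓ : ℤ)).toNat := by
    conv_lhs => rw [h1, zpow_add, zpow_mul, zpow_natCast, hu', one_zpow, mul_one, ← h2,
      zpow_natCast]
  rw [← Units.val_pow_eq_pow_val, ← h3]

/-- `V_ℓ (det (secMat ℓ f)) = ∏_{b<ℓ} f(ζ^b q)` -/
theorem qExpand_det_secMat {R : Type*} [CommRing R] [IsDomain R] (ℓ : ℕ) [NeZero ℓ] (ζ : Rˣ)
    (hζ : IsPrimitiveRoot (ζ : R) ℓ) (f : LaurentSeries R) :
    qExpand R ℓ (Fermat.Agent.S37.H400.secMat ℓ f).det
      = ∏ b ∈ Finset.range ℓ, infTwist (ζ ^ b) f := by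
  have h := Fermat.Agent.S37.H340.kron_map_qExpand_eq_prod hζ f
  rw [Fermat.Agent.S37.H340.kron, ← secMat_eq_kronMat, ← Matrix.charpoly_map] at h
  have hdet : qExpand R ℓ (Fermat.Agent.S37.H400.secMat ℓ f).det
      = ((Fermat.Agent.S37.H400.secMat ℓ f).map (qExpand R ℓ)).det := by
    rw [RingHom.map_det, RingHom.mapMatrix_apply]
  rw [hdet, Matrix.det_eq_sign_charpoly_coeff, h, Fintype.card_fin,
    Polynomial.coeff_zero_eq_eval_zero, Polynomial.eval_prod]
  simp only [Polynomial.eval_sub, Polynomial.eval_X, Polynomial.eval_C, zero_sub]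
  rw [Finset.prod_neg, Finset.card_univ, Fintype.card_fin, ← mul_assoc, ← mul_pow]
  simp only [mul_neg, mul_one, neg_neg, one_pow, one_mul]
  rw [← Fin.prod_univ_eq_prod_range (fun b : ℕ => infTwist (ζ ^ b) f) ℓ]
  refine Finset.prod_congr rfl fun b _ => ?_
  rw [← Units.val_pow_eq_pow_val, tw_eq_infTwist]
  rw [Units.val_pow_eq_pow_val, ← pow_mul, mul_comm, pow_mul, hζ.pow_eq_one, one_pow]

/-- **Node NORMID** (`Board.NormIdStatement M ℓ`, unfolded): for a prime `ℓ ∤ M` the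
`q`-expansion of `Nm_{F_{Mℓ}/α F_M}(β f)` is the formal Kronecker norm `kronNorm ℓ f`. -/
theorem normId (M ℓ : ℕ) [NeZero M] [NeZero ℓ] (hℓ : ℓ.Prime) (hℓM : ¬ ℓ ∣ M) :
    ∀ f : modularFunctionFieldBar M,
      (((letI := algebraAlong (heckeAlphaBar (AlgebraicClosure ℚ) M ℓ)
         Algebra.norm (modularFunctionFieldBar M) (heckeBetaBar (AlgebraicClosure ℚ) M ℓ f)) :
          modularFunctionFieldBar M) : LaurentSeries (AlgebraicClosure ℚ)) =
        Fermat.Agent.S37.H400.kronNorm ℓ (f : LaurentSeries (AlgebraicClosure ℚ)) := by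
  intro f
  have : NeZero ((ℓ : ℕ) : AlgebraicClosure ℚ) := ⟨by exact_mod_cast NeZero.ne ℓ⟩
  obtain ⟨ζ₀, hζ₀⟩ := HasEnoughRootsOfUnity.exists_primitiveRoot (AlgebraicClosure ℚ) ℓ
  obtain ⟨ζ, rfl⟩ := hζ₀.isUnit (NeZero.ne ℓ)
  apply qExpand_injective (R := AlgebraicClosure ℚ) (N := ℓ)
  have h := norm_heckeBeta M ℓ hℓ hℓM ζ hζ₀ f
  rw [Fermat.Agent.S37.H400.kronNorm, map_mul, qExpand_qExpand, qExpand_det_secMat ℓ ζ hζ₀]
  exact h

end Fermat.Agent.S37.H819

end
end
-- ===== PACK-END S37/H819/NormId.lean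

-- ===== PACK-BEGIN S36/Mod3/H985/Sheet.lean
section









/-!
# S36 / MOD3 — leaf SHEET (helper985)

`leafSheet : Mod3.LeafSheet` (EXACT frozen type of `Mod3/Spec.lean`): the three valuation rings
`V₁` (`FF`), `V₂` (`mid`), `V₃` (`VV`) of `F = F_E(M q q)` contain `R = R_E` and induce the Gauss
valuation on `R[x]`, `x = j · j_q · j_{q²}`.

* `V₁ = V∞`: L3 (`A2.Mod.H816.vinfGauss`, via `H13.isGaussOver_of_polar`), `x` is polar of order
  `1 + q + q²`;
* `V₃ = V₁.comap W`: L3 for `W x = j_{Mq²} j_{Mq} j_M`, polar of order `M q² + M q + M`;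
* `V₂`: ANY valuation ring `V` of `F` with `V.comap α = V∞(M q)` (no Eisenstein data, no table):
  `j = α j` is Gauss at `V` (L3 at level `M q`), `j` is integral over `ℤ[x]` (valuative criterion,
  `Φ_q` monic), and GAUSS-CHANGE (`GaussChange.lean`) transports the Gauss property from `j` to `x`.

Also exported (for the completeness route of QEP3 and for other leaves):
`isGaussOver_x3_of_comap`, `j1_isIntegralElem_x3`, `x3E_mem_of_j_mem`, `transcendental_x3E`.
-/

set_option autoImplicit false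
set_option linter.style.haveILetI false
set_option linter.unusedSectionVars false
set_option synthInstance.maxHeartbeats 400000
set_option maxHeartbeats 1600000

noncomputable section

namespace Fermat.Agent.S36.Mod3.H985

open ModularCurve HahnSeries Polynomial
open Fermat.Agent.A2.Mod

/-! ## Generalities -/

section General

/-- Nonunits of the pull-back of a valuation ring along a field homomorphism. -/
theorem mem_nonunits_comap_hom {F' F : Type*} [Field F'] [Field F] (V : ValuationSubring F)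
    (φ : F' →+* F) (f : F') : f ∈ (V.comap φ).nonunits ↔ φ f ∈ V.nonunits := by
  rw [ValuationSubring.mem_nonunits_iff_or, ValuationSubring.mem_nonunits_iff_or,
    ValuationSubring.mem_comap]
  constructor
  · rintro (h | h)
    · left
      rw [h, map_zero]
    · right
      intro h'
      apply h
      show φ f⁻¹ ∈ V
      rw [map_inv₀]
      exact h'
  · rintro (h | h)
    · left
      exact (map_eq_zero φ).mp h
    · right
      intro h'
      apply h
      have h'' : φ f⁻¹ ∈ V := h'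
      rwa [map_inv₀] at h''

variable (E : IntermediateField ℚ Qb) {N : ℕ}

/-- a polar element is transcendental over `E` -/
theorem transcendental_of_isPolar {u : FE E N} {a : ℕ} (ha : 0 < a)
    (hu : H13.IsPolar E N u a) : Transcendental E u := by
  obtain ⟨g, hg, e⟩ := hu
  have hc : (u : LaurentSeries E).coeff (-(a : ℤ)) ≠ 0 := by
    rw [e, H553.coeff_coeffEmb_castQ, hg.2]
    simp
  have hord : (u : LaurentSeries E).order < 0 := by
    have h1 := HahnSeries.order_le_of_coeff_ne_zero hc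
    have h2 : (-(a : ℤ)) < 0 := by
      have : (0 : ℤ) < a := by exact_mod_cast ha
      omega
    exact lt_of_le_of_lt h1 h2
  have htr := H31.transcendental_of_order_neg hord
  intro halg
  exact htr ((IntermediateField.isAlgebraic_iff (S := FE E N)).mp halg)

end General

/-! ## The modular polynomial at the level `N` -/

section ModPoly

variable (E : IntermediateField ℚ Qb) (N q : ℕ) [NeZero q]

/-- `Φ_q(X = j_{dq}; Y = j_d) = 0`: `j_{dq}` is integral over `ℤ[j_d]`. -/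
theorem modPoly_up (D : S28.ModPolyData q) (d : ℕ) [NeZero d] [NeZero (d * q)] (hd : d ∣ N)
    (hdq : d * q ∣ N) :
    D.Φ.eval₂ (Polynomial.aeval (R := ℤ) (jE E N d hd)).toRingHom (jE E N (d * q) hdq) = 0 := by
  refine H873.eval₂_eq_zero_of_int E N D.Φ _ _ (qExpand ℤ (d * q) (jqModC ℤ))
    (qExpand ℤ d (jqModC ℤ)) (H873.coe_jE_int E N (d * q) hdq) (H873.coe_jE_int E N d hd) ?_
  have h := congrArg (qExpand ℤ d) D.eval_jp
  rw [map_zero, Polynomial.hom_eval₂, qExpand_qExpand] at h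
  have hcomp : (qExpand ℤ d).comp (S28.evalAt (jqModC ℤ)) =
      S28.evalAt (qExpand ℤ d (jqModC ℤ)) := by
    apply Polynomial.ringHom_ext
    · intro n
      simp [S28.evalAt]
    · simp [S28.evalAt]
  rw [hcomp] at h
  exact h

/-- `Φ_q(X = j_d; Y = j_{dq}) = 0`: `j_d` is integral over `ℤ[j_{dq}]`. -/
theorem modPoly_down (D : S28.ModPolyData q) (d : ℕ) [NeZero d] [NeZero (d * q)] (hd : d ∣ N)
    (hdq : d * q ∣ N) :
    D.Φ.eval₂ (Polynomial.aeval (R := ℤ) (jE E N (d * q) hdq)).toRingHom (jE E N d hd) = 0 := by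
  refine H873.eval₂_eq_zero_of_int E N D.Φ _ _ (qExpand ℤ d (jqModC ℤ))
    (qExpand ℤ (d * q) (jqModC ℤ)) (H873.coe_jE_int E N d hd) (H873.coe_jE_int E N (d * q) hdq) ?_
  have h := congrArg (qExpand ℤ d) D.eval_j
  rw [map_zero, Polynomial.hom_eval₂] at h
  have hcomp : (qExpand ℤ d).comp (S28.evalAt (qExpand ℤ q (jqModC ℤ))) =
      S28.evalAt (qExpand ℤ (d * q) (jqModC ℤ)) := by
    apply Polynomial.ringHom_ext
    · intro n
      simp [S28.evalAt]
    · simp [S28.evalAt, qExpand_qExpand]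
  rw [hcomp] at h
  exact h

/-- `Φ_q(X = j_e; Y = j_d) = 0` for `e = d q`. -/
theorem modPoly_up' (D : S28.ModPolyData q) (d e : ℕ) [NeZero d] [NeZero e] (hde : e = d * q)
    (hd : d ∣ N) (he : e ∣ N) :
    D.Φ.eval₂ (Polynomial.aeval (R := ℤ) (jE E N d hd)).toRingHom (jE E N e he) = 0 := by
  subst hde
  exact modPoly_up E N q D d hd he

/-- `Φ_q(X = j_d; Y = j_e) = 0` for `e = d q`. -/
theorem modPoly_down' (D : S28.ModPolyData q) (d e : ℕ) [NeZero d] [NeZero e] (hde : e = d * q)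
    (hd : d ∣ N) (he : e ∣ N) :
    D.Φ.eval₂ (Polynomial.aeval (R := ℤ) (jE E N e he)).toRingHom (jE E N d hd) = 0 := by
  subst hde
  exact modPoly_down E N q D d hd he

end ModPoly

/-! ## The coordinate `x = j · j_q · j_{q²}` -/

section Coord

variable (P : ValuationSubring A2.Qb) (E : IntermediateField ℚ A2.Qb) (M q : ℕ)
  [NeZero M] [NeZero q] [NeZero (M * q)]

theorem isPolar_x3E : H13.IsPolar E (M * q * q) (x3E E M q) (1 + q + q * q) :=
  ((H13.isPolar_jE 1 _).mul (H13.isPolar_jE q _)).mul (H13.isPolar_jE (q * q) _)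

/-- `x = j j_q j_{q²}` is transcendental over `E`. -/
theorem transcendental_x3E : Transcendental E (x3E E M q) :=
  transcendental_of_isPolar E (by omega) (isPolar_x3E E M q)

theorem isPolar_fricke_x3E {W : FE E (M * q * q) ≃ₐ[E] FE E (M * q * q)}
    (hW : IsFricke E (M * q * q) W) :
    H13.IsPolar E (M * q * q) (W (x3E E M q)) (M * q * q + M * q + M) := by
  have h1 : W (j1 E M q) = jE E (M * q * q) (M * q * q) (dvd_refl _) :=
    hW.1 1 (M * q * q) (one_dvd _) (dvd_refl _) (one_mul _)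
  have h2 : W (jq E M q) = jE E (M * q * q) (M * q) (dvd_mul_right _ _) :=
    hW.1 q (M * q) (Dvd.intro_left (M * q) rfl) (dvd_mul_right _ _) (by ring)
  have h3 : W (jqq E M q) = jE E (M * q * q) M ⟨q * q, by ring⟩ :=
    hW.1 (q * q) M ⟨M, by ring⟩ ⟨q * q, by ring⟩ (by ring)
  rw [x3E, map_mul, map_mul, h1, h2, h3]
  exact ((H13.isPolar_jE _ _).mul (H13.isPolar_jE _ _)).mul (H13.isPolar_jE _ _)

theorem α_j1 : αE E (M * q) q (jE E (M * q) 1 (one_dvd _)) = j1 E M q :=
  H553.αE_jE E (M * q) q 1 (one_dvd _)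

theorem α_jq : αE E (M * q) q (jE E (M * q) q (dvd_mul_left q M)) = jq E M q :=
  H553.αE_jE E (M * q) q q (dvd_mul_left q M)

/-- `j_{q²}` is integral over `ℤ[j_q]`. -/
theorem jqq_mem_of_jq_mem (hq : q.Prime) (V : ValuationSubring (FE E (M * q * q)))
    (h : jq E M q ∈ V) : jqq E M q ∈ V := by
  obtain ⟨D⟩ := S28.H807.nonempty_modPolyData q hq
  exact H873.mem_valuationSubring_of_monic_eval D.Φ D.monic
    (modPoly_up' E (M * q * q) q D q (q * q) rfl (Dvd.intro_left (M * q) rfl) ⟨M, by ring⟩) V h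

/-- `j_q` is integral over `ℤ[j]`. -/
theorem jq_mem_of_j1_mem (hq : q.Prime) (V : ValuationSubring (FE E (M * q * q)))
    (h : j1 E M q ∈ V) : jq E M q ∈ V := by
  obtain ⟨D⟩ := S28.H807.nonempty_modPolyData q hq
  exact H873.mem_valuationSubring_of_monic_eval D.Φ D.monic
    (modPoly_up' E (M * q * q) q D 1 q (one_mul q).symm (one_dvd _) (Dvd.intro_left (M * q) rfl))
    V h

/-- `j` is integral over `ℤ[j_q]`. -/
theorem j1_mem_of_jq_mem (hq : q.Prime) (V : ValuationSubring (FE E (M * q * q)))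
    (h : jq E M q ∈ V) : j1 E M q ∈ V := by
  obtain ⟨D⟩ := S28.H807.nonempty_modPolyData q hq
  exact H873.mem_valuationSubring_of_monic_eval D.Φ D.monic
    (modPoly_down' E (M * q * q) q D 1 q (one_mul q).symm (one_dvd _)
      (Dvd.intro_left (M * q) rfl)) V h

/-- `j_q` is integral over `ℤ[j_{q²}]`. -/
theorem jq_mem_of_jqq_mem (hq : q.Prime) (V : ValuationSubring (FE E (M * q * q)))
    (h : jqq E M q ∈ V) : jq E M q ∈ V := by
  obtain ⟨D⟩ := S28.H807.nonempty_modPolyData q hq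
  exact H873.mem_valuationSubring_of_monic_eval D.Φ D.monic
    (modPoly_down' E (M * q * q) q D q (q * q) rfl (Dvd.intro_left (M * q) rfl) ⟨M, by ring⟩) V h

/-- `x ∈ V` as soon as `j ∈ V`. -/
theorem x3E_mem_of_j_mem (hq : q.Prime) (V : ValuationSubring (FE E (M * q * q)))
    (h : j1 E M q ∈ V) : x3E E M q ∈ V := by
  have h2 := jq_mem_of_j1_mem E M q hq V h
  exact V.mul_mem _ _ (V.mul_mem _ _ h h2) (jqq_mem_of_jq_mem E M q hq V h2)

/-- valuative criterion: a valuation ring containing `x = j j_q j_{q²}` contains `j`. -/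
theorem j1_mem_of_x3E_mem (hq : q.Prime) (V : ValuationSubring (FE E (M * q * q)))
    (hx : x3E E M q ∈ V) : j1 E M q ∈ V := by
  by_contra h1
  have h1i : (j1 E M q)⁻¹ ∈ V := (V.mem_or_inv_mem _).resolve_left h1
  have hq' : jq E M q ∉ V := fun h => h1 (j1_mem_of_jq_mem E M q hq V h)
  have hqi : (jq E M q)⁻¹ ∈ V := (V.mem_or_inv_mem _).resolve_left hq'
  have hqq : jqq E M q ∉ V := fun h => hq' (jq_mem_of_jqq_mem E M q hq V h)
  apply hqq
  have hj0 : j1 E M q ≠ 0 := H873.jE_ne_zero E (M * q * q) 1 (one_dvd _)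
  have hq0 : jq E M q ≠ 0 := H873.jE_ne_zero E (M * q * q) q (Dvd.intro_left (M * q) rfl)
  have e : jqq E M q = x3E E M q * (j1 E M q)⁻¹ * (jq E M q)⁻¹ := by
    rw [x3E]
    field_simp
  rw [e]
  exact V.mul_mem _ _ (V.mul_mem _ _ hx h1i) hqi

/-- … and `j_q`, `j_{q²}`. -/
theorem jq_mem_of_x3E_mem (hq : q.Prime) (V : ValuationSubring (FE E (M * q * q)))
    (hx : x3E E M q ∈ V) : jq E M q ∈ V :=
  jq_mem_of_j1_mem E M q hq V (j1_mem_of_x3E_mem E M q hq V hx)

theorem jqq_mem_of_x3E_mem (hq : q.Prime) (V : ValuationSubring (FE E (M * q * q)))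
    (hx : x3E E M q ∈ V) : jqq E M q ∈ V :=
  jqq_mem_of_jq_mem E M q hq V (jq_mem_of_x3E_mem E M q hq V hx)

/-- `j` is integral over `R[x]`, `x = j j_q j_{q²}`. -/
theorem j1_isIntegralElem_x3 (hq : q.Prime) :
    ∃ G : Polynomial (Polynomial (RE P E)), G.Monic ∧
      G.eval₂ (Polynomial.eval₂RingHom (algebraMap (RE P E) (FE E (M * q * q))) (x3E E M q))
        (j1 E M q) = 0 :=
  H873.isIntegralElem_of_isIntegral_closure _
    (H873.isIntegral_closure_of_forall_valuationSubring (j1_mem_of_x3E_mem E M q hq))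

end Coord

/-! ## The Gauss property of the three valuation rings -/

section Gauss

variable (P : ValuationSubring A2.Qb) (E : IntermediateField ℚ A2.Qb) (M q : ℕ)
  [NeZero M] [NeZero q] [NeZero (M * q)] [IsDiscreteValuationRing (RE P E)]

/-- `V₁ = V∞` is Gauss for `x`. -/
theorem isGaussOver_x3_vinf {w : RE P E} (hw : Irreducible w)
    {V : ValuationSubring (FE E (M * q * q))} (hV : IsVinf P E (M * q * q) V) :
    A2.H489.IsGaussOver (RE P E) V (x3E E M q) :=
  H13.isGaussOver_of_polar hV hw (NeZero.ne _) (by omega) (isPolar_x3E E M q)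
    (H13.transcendental_RE (transcendental_x3E E M q))

/-- `V₃ = V∞ ∘ W` is Gauss for `x`. -/
theorem isGaussOver_x3_vzero {w : RE P E} (hw : Irreducible w)
    {V : ValuationSubring (FE E (M * q * q))} (hV : IsVinf P E (M * q * q) V)
    {W : FE E (M * q * q) ≃ₐ[E] FE E (M * q * q)} (hW : IsFricke E (M * q * q) W) :
    A2.H489.IsGaussOver (RE P E)
      (V.comap (W : FE E (M * q * q) →+* FE E (M * q * q))) (x3E E M q) :=
  H13.isGaussOver_comap hV W
    (H13.isGaussOver_of_polar hV hw (NeZero.ne _)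
      (Nat.add_pos_right _ (Nat.pos_of_ne_zero (NeZero.ne M)))
      (isPolar_fricke_x3E E M q hW)
      (H13.transcendental_RE (H13.transcendental_algEquiv W (transcendental_x3E E M q))))

theorem α_algebraMap_RE (r : RE P E) :
    (αE E (M * q) q : FE E (M * q) →+* FE E (M * q * q)) (algebraMap (RE P E) (FE E (M * q)) r) =
      algebraMap (RE P E) (FE E (M * q * q)) r := by
  rw [H13.algebraMap_RE_eq, H13.algebraMap_RE_eq]
  exact (αE E (M * q) q).commutes _

/-- a valuation ring of `F` over `V∞(M q)` (along `α`) lies over `R`. -/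
theorem isOver_of_comap {V' : ValuationSubring (FE E (M * q))} (hV' : IsVinf P E (M * q) V')
    {V : ValuationSubring (FE E (M * q * q))}
    (hcomap : V.comap (αE E (M * q) q : FE E (M * q) →+* FE E (M * q * q)) = V') :
    A2.H489.IsOver (RE P E) V where
  mem := fun r => by
    have h := (H13.isOver_of_isVinf hV').mem r
    rw [← hcomap, ValuationSubring.mem_comap, α_algebraMap_RE] at h
    exact h
  nonunit := fun r hr => by
    have h := (H13.isOver_of_isVinf hV').nonunit r hr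
    rw [← hcomap, mem_nonunits_comap_hom, α_algebraMap_RE] at h
    exact h

/-- `j` is Gauss at every valuation ring of `F` over `V∞(M q)`. -/
theorem isGaussOver_j1_of_comap {w : RE P E} (hw : Irreducible w)
    {V' : ValuationSubring (FE E (M * q))} (hV' : IsVinf P E (M * q) V')
    {V : ValuationSubring (FE E (M * q * q))}
    (hcomap : V.comap (αE E (M * q) q : FE E (M * q) →+* FE E (M * q * q)) = V') :
    A2.H489.IsGaussOver (RE P E) V (j1 E M q) := by
  have hG' : A2.H489.IsGaussOver (RE P E) V' (jE E (M * q) 1 (one_dvd _)) :=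
    H13.isGaussOver_of_polar hV' hw (NeZero.ne _) one_pos (H13.isPolar_jE 1 (one_dvd _))
      (H13.transcendental_RE (transcendental_of_isPolar E one_pos (H13.isPolar_jE 1 (one_dvd _))))
  refine ⟨isOver_of_comap P E M q hV' hcomap, ?_, ?_⟩
  · have h := hG'.mem
    rw [← hcomap, ValuationSubring.mem_comap] at h
    have e : (αE E (M * q) q : FE E (M * q) →+* FE E (M * q * q))
        (jE E (M * q) 1 (one_dvd _)) = j1 E M q := α_j1 E M q
    rw [e] at h
    exact h
  · intro Q hQ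
    apply hG'.prim Q
    rw [← hcomap, mem_nonunits_comap_hom]
    have e : (αE E (M * q) q : FE E (M * q) →+* FE E (M * q * q))
        (aeval (jE E (M * q) 1 (one_dvd _)) Q) = aeval (j1 E M q) Q := by
      have h1 := Polynomial.aeval_algHom_apply ((αE E (M * q) q).restrictScalars (RE P E))
        (jE E (M * q) 1 (one_dvd _)) Q
      have h2 : ((αE E (M * q) q).restrictScalars (RE P E)) (jE E (M * q) 1 (one_dvd _)) =
          j1 E M q := α_j1 E M q
      rw [h2] at h1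
      exact h1.symm
    rw [e]
    exact hQ

/-- **`x = j j_q j_{q²}` is Gauss at EVERY valuation ring of `F` over `V∞(M q)` along `α`**
(in particular at `V₁` and at the middle valuation ring `V₂`). -/
theorem isGaussOver_x3_of_comap (hq : q.Prime) {w : RE P E} (hw : Irreducible w)
    {V' : ValuationSubring (FE E (M * q))} (hV' : IsVinf P E (M * q) V')
    {V : ValuationSubring (FE E (M * q * q))}
    (hcomap : V.comap (αE E (M * q) q : FE E (M * q) →+* FE E (M * q * q)) = V') :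
    A2.H489.IsGaussOver (RE P E) V (x3E E M q) := by
  have hj := isGaussOver_j1_of_comap P E M q hw hV' hcomap
  exact isGaussOver_of_isIntegralElem hj (x3E_mem_of_j_mem E M q hq V hj.mem)
    (j1_isIntegralElem_x3 P E M q hq)

end Gauss

/-! ## The leaf -/

/-- **SHEET (leaf)**, exact frozen type. -/
theorem leafSheet : Mod3.LeafSheet := by
  intro P E M q _ _ _ w hS V₁' V₂' V₁ V₂ V₃ W' W hO
  haveI : IsDiscreteValuationRing (RE P E) := hS.unram.1.dvr
  have hmax : IsLocalRing.maximalIdeal (RE P E) = Ideal.span {w} := hS.unif.maximalIdeal_eq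
  have hG₁ : A2.H489.IsGaussOver (RE P E) V₁ (x3E E M q) :=
    isGaussOver_x3_vinf P E M q hS.unif hO.vinf
  have hG₂ : A2.H489.IsGaussOver (RE P E) V₂ (x3E E M q) :=
    isGaussOver_x3_of_comap P E M q hS.q_prime hS.unif hO.vinf' hO.mid
  have hG₃ : A2.H489.IsGaussOver (RE P E) V₃ (x3E E M q) := by
    rw [hO.vzero]
    exact isGaussOver_x3_vzero P E M q hS.unif hO.vinf hO.fricke
  exact ⟨hG₁.isOver.mem, hG₂.isOver.mem, hG₃.isOver.mem,
    inv_aeval_mem_of_isGaussOver hG₁ hmax, inv_aeval_mem_of_isGaussOver hG₂ hmax,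
    inv_aeval_mem_of_isGaussOver hG₃ hmax⟩

end Fermat.Agent.S36.Mod3.H985

end

end
-- ===== PACK-END S36/Mod3/H985/Sheet.lean

-- ===== PACK-BEGIN A2/Mod/H732/S4.lean
section









/-!
# WALL A2 / MODASM S4 (helper732): `Mod.S4Statement`, UNCONDITIONAL

`s4 : S4Statement P E M q w` (`Fermat/Agent/A2/Mod/Asm.lean`, VERBATIM): the coordinate
`x = j · j_q` (resp. `x⁻¹`) is a separating coordinate (`Spec.SepCoord`) of the chart
`chartAlg x` (resp. `chartAlg x⁻¹`) of level `M q`.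

Proof: `sepCoord_of_gauss` (`SepCoord.lean`) for `V₁ = V∞`, `V₂ = V₀ = V∞ ∘ W` with the data of
S1 (leaves L1, L2, L4, L6, L8, L9, L10, all on main) + the elementwise separability of the two
residue extensions, from `exists_sep_poly_of_graph` (`SepRed.lean`) applied to the reduction
relation `redRel` of `V∞` (`(f, f̄)` with `f U₂ = U₁`, `f̄ Ū₂ = Ū₁`, `U₂` primitive) resp. its
pull-back along `W`: the reductions of `x` and `W x` are polar of orders `q + 1` and `M (q + 1)`,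
prime to `q`, so `dx̄/dt ≠ 0`, and the residue field of `R_E` is perfect.
-/

set_option autoImplicit false
set_option linter.unusedSectionVars false
set_option linter.style.haveILetI false
set_option synthInstance.maxHeartbeats 400000
set_option maxHeartbeats 1600000

noncomputable section

namespace Fermat.Agent.A2.Mod.H732

open ModularCurve HahnSeries Polynomial IsLocalRing
open Fermat.Agent.A2 Fermat.Agent.A2.Mod

/-! ### generalities -/

section General

theorem dq_inv_ne_zero {k : Type*} [Field k] {x : LaurentSeries k}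
    (h : Fermat.Agent.S18.H602.dq x ≠ 0) : Fermat.Agent.S18.H602.dq x⁻¹ ≠ 0 := by
  have hx0 : x ≠ 0 := by
    rintro rfl
    apply h
    have := Fermat.Agent.S18.H602.dq_C (0 : k)
    rwa [map_zero] at this
  have h1 : Fermat.Agent.S18.H602.dq (x * x⁻¹)
      = x * Fermat.Agent.S18.H602.dq x⁻¹ + x⁻¹ * Fermat.Agent.S18.H602.dq x :=
    Fermat.Agent.S18.H602.dq_mul x x⁻¹
  rw [mul_inv_cancel₀ hx0, Fermat.Agent.S18.H602.dq_one] at h1
  intro h2
  rw [h2, mul_zero, zero_add] at h1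
  rcases mul_eq_zero.mp h1.symm with h3 | h3
  · exact inv_ne_zero hx0 h3
  · exact h h3

theorem val_eq_one_of_mem {F : Type*} [Field F] (V : ValuationSubring F) {g : F} (hg0 : g ≠ 0)
    (hg : g ∈ V) (hgi : g⁻¹ ∈ V) : V.valuation g = 1 := by
  have h2 : V.valuation g ≤ 1 := (V.valuation_le_one_iff g).mpr hg
  have h3 : V.valuation g⁻¹ ≤ 1 := (V.valuation_le_one_iff _).mpr hgi
  rw [map_inv₀] at h3
  have hv : V.valuation g ≠ 0 := (Valuation.ne_zero_iff _).mpr hg0
  exact le_antisymm h2 ((inv_le_one₀ (zero_lt_iff.mpr hv)).mp h3)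

end General

/-! ### the reduction relation of `V∞` -/

section Rel

variable (P : ValuationSubring _root_.Fermat.Agent.A2.Mod.Qb) (E : IntermediateField ℚ _root_.Fermat.Agent.A2.Mod.Qb) (N : ℕ)

/-- `b` is a reduction of `f`: `f U₂ = U₁`, `b Ū₂ = Ū₁` with `U₂ ∈ F_N` primitive. -/
def RedRel (f : _root_.Fermat.Agent.A2.Mod.FE E N) (b : LaurentSeries (ResidueField (_root_.Fermat.Agent.A2.Mod.RE P E))) : Prop :=
  ∃ U₁ U₂ : LaurentSeries (_root_.Fermat.Agent.A2.Mod.RE P E), H708.red (_root_.Fermat.Agent.A2.Mod.RE P E) U₂ ≠ 0 ∧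
    H708.incl (_root_.Fermat.Agent.A2.Mod.RE P E) U₂ ∈ _root_.Fermat.Agent.A2.Mod.FE E N ∧
    (f : LaurentSeries E) * H708.incl (_root_.Fermat.Agent.A2.Mod.RE P E) U₂ = H708.incl (_root_.Fermat.Agent.A2.Mod.RE P E) U₁ ∧
    b * H708.red (_root_.Fermat.Agent.A2.Mod.RE P E) U₂ = H708.red (_root_.Fermat.Agent.A2.Mod.RE P E) U₁

/-- the reduction relation as a subring of `F_N × k((t))` -/
def redRel : Subring (_root_.Fermat.Agent.A2.Mod.FE E N × LaurentSeries (ResidueField (_root_.Fermat.Agent.A2.Mod.RE P E))) where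
  carrier := {p | RedRel P E N p.1 p.2}
  mul_mem' := by
    rintro ⟨f, b⟩ ⟨f', b'⟩ ⟨U₁, U₂, h0, hm, he, hr⟩ ⟨U₁', U₂', h0', hm', he', hr'⟩
    refine ⟨U₁ * U₁', U₂ * U₂', ?_, ?_, ?_, ?_⟩
    · rw [map_mul]; exact mul_ne_zero h0 h0'
    · rw [map_mul]; exact mul_mem hm hm'
    · show ((f * f' : _root_.Fermat.Agent.A2.Mod.FE E N) : LaurentSeries E) * _ = _
      rw [IntermediateField.coe_mul, map_mul, map_mul, ← he, ← he']
      ring
    · show (b * b') * _ = _
      rw [map_mul, map_mul, ← hr, ← hr']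
      ring
  one_mem' := by
    refine ⟨1, 1, ?_, ?_, ?_, ?_⟩
    · rw [map_one]; exact one_ne_zero
    · rw [map_one]; exact one_mem _
    · show ((1 : _root_.Fermat.Agent.A2.Mod.FE E N) : LaurentSeries E) * _ = _
      rw [IntermediateField.coe_one, one_mul]
    · show (1 : LaurentSeries (ResidueField (_root_.Fermat.Agent.A2.Mod.RE P E))) * _ = _
      rw [one_mul]
  add_mem' := by
    rintro ⟨f, b⟩ ⟨f', b'⟩ ⟨U₁, U₂, h0, hm, he, hr⟩ ⟨U₁', U₂', h0', hm', he', hr'⟩
    refine ⟨U₁ * U₂' + U₁' * U₂, U₂ * U₂', ?_, ?_, ?_, ?_⟩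
    · rw [map_mul]; exact mul_ne_zero h0 h0'
    · rw [map_mul]; exact mul_mem hm hm'
    · show ((f + f' : _root_.Fermat.Agent.A2.Mod.FE E N) : LaurentSeries E) * _ = _
      rw [IntermediateField.coe_add, map_add, map_mul, map_mul, map_mul, ← he, ← he']
      ring
    · show (b + b') * _ = _
      rw [map_add, map_mul, map_mul, map_mul, ← hr, ← hr']
      ring
  zero_mem' := by
    refine ⟨0, 1, ?_, ?_, ?_, ?_⟩
    · rw [map_one]; exact one_ne_zero
    · rw [map_one]; exact one_mem _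
    · show ((0 : _root_.Fermat.Agent.A2.Mod.FE E N) : LaurentSeries E) * _ = _
      rw [IntermediateField.coe_zero, zero_mul, map_zero]
    · show (0 : LaurentSeries (ResidueField (_root_.Fermat.Agent.A2.Mod.RE P E))) * _ = _
      rw [zero_mul, map_zero]
  neg_mem' := by
    rintro ⟨f, b⟩ ⟨U₁, U₂, h0, hm, he, hr⟩
    refine ⟨-U₁, U₂, h0, hm, ?_, ?_⟩
    · show ((-f : _root_.Fermat.Agent.A2.Mod.FE E N) : LaurentSeries E) * _ = _
      rw [IntermediateField.coe_neg, map_neg, ← he]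
      ring
    · show (-b) * _ = _
      rw [map_neg, ← hr]
      ring

variable {P E N}

theorem mem_redRel {f : _root_.Fermat.Agent.A2.Mod.FE E N} {b : LaurentSeries (ResidueField (_root_.Fermat.Agent.A2.Mod.RE P E))} :
    (f, b) ∈ redRel P E N ↔ RedRel P E N f b := Iff.rfl

/-- constants -/
theorem redRel_const (r : _root_.Fermat.Agent.A2.Mod.RE P E) :
    (algebraMap (_root_.Fermat.Agent.A2.Mod.RE P E) (_root_.Fermat.Agent.A2.Mod.FE E N) r, cres (_root_.Fermat.Agent.A2.Mod.RE P E) r) ∈ redRel P E N := by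
  refine ⟨H708.cstA (_root_.Fermat.Agent.A2.Mod.RE P E) r, 1, ?_, ?_, ?_, ?_⟩
  · rw [map_one]; exact one_ne_zero
  · rw [map_one]; exact one_mem _
  · rw [map_one, mul_one, H708.incl_cstA]
    rfl
  · rw [map_one, mul_one, H708.red_cstA, cres_apply, Fermat.Agent.S18.H602.algebraMap_eq_C]
    rfl

/-- functions with an integer expansion -/
theorem redRel_int {u : _root_.Fermat.Agent.A2.Mod.FE E N} {g : LaurentSeries ℤ}
    (hu : (u : LaurentSeries E) = coeffEmb E (H708.castQ g)) :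
    (u, H708.red (_root_.Fermat.Agent.A2.Mod.RE P E) (H708.castA (_root_.Fermat.Agent.A2.Mod.RE P E) g)) ∈ redRel P E N := by
  refine ⟨H708.castA (_root_.Fermat.Agent.A2.Mod.RE P E) g, 1, ?_, ?_, ?_, ?_⟩
  · rw [map_one]; exact one_ne_zero
  · rw [map_one]; exact one_mem _
  · rw [map_one, mul_one, hu, H553.coeffEmb_castQ (P := P)]
  · rw [map_one, mul_one]

/-- every element of `V∞` has a reduction -/
theorem exists_redRel {V : ValuationSubring (_root_.Fermat.Agent.A2.Mod.FE E N)} (hV : IsVinf P E N V) {f : _root_.Fermat.Agent.A2.Mod.FE E N}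
    (hf : f ∈ V) : ∃ fb, (f, fb) ∈ redRel P E N := by
  obtain ⟨U₁, U₂, h0, hm, he⟩ := (hV f).mp hf
  exact ⟨H708.red (_root_.Fermat.Agent.A2.Mod.RE P E) U₁ * (H708.red (_root_.Fermat.Agent.A2.Mod.RE P E) U₂)⁻¹, U₁, U₂, h0, hm, he,
    by rw [mul_assoc, inv_mul_cancel₀ h0, mul_one]⟩

/-- elements with nonzero reduction are units of `V∞` -/
theorem redRel_unit {V : ValuationSubring (_root_.Fermat.Agent.A2.Mod.FE E N)} (hV : IsVinf P E N V) {g : _root_.Fermat.Agent.A2.Mod.FE E N}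
    {b : LaurentSeries (ResidueField (_root_.Fermat.Agent.A2.Mod.RE P E))} (h : (g, b) ∈ redRel P E N) (hb : b ≠ 0) :
    g ≠ 0 ∧ g ∈ V ∧ g⁻¹ ∈ V ∧ (g⁻¹, b⁻¹) ∈ redRel P E N := by
  obtain ⟨U₁, U₂, h0, hm, he, hr⟩ := h
  have he' : (g : LaurentSeries E) * H708.incl (_root_.Fermat.Agent.A2.Mod.RE P E) U₂ = H708.incl (_root_.Fermat.Agent.A2.Mod.RE P E) U₁ := he
  have hr' : b * H708.red (_root_.Fermat.Agent.A2.Mod.RE P E) U₂ = H708.red (_root_.Fermat.Agent.A2.Mod.RE P E) U₁ := hr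
  have h1 : H708.red (_root_.Fermat.Agent.A2.Mod.RE P E) U₁ ≠ 0 := by
    rw [← hr']
    exact mul_ne_zero hb h0
  have hU₁0 : H708.incl (_root_.Fermat.Agent.A2.Mod.RE P E) U₁ ≠ 0 :=
    H708.incl_ne_zero _ (H708.ne_zero_of_red_ne_zero _ h1)
  have hg0 : (g : LaurentSeries E) ≠ 0 := by
    intro h
    rw [h, zero_mul] at he'
    exact hU₁0 he'.symm
  have hm₁ : H708.incl (_root_.Fermat.Agent.A2.Mod.RE P E) U₁ ∈ _root_.Fermat.Agent.A2.Mod.FE E N := by
    rw [← he']
    exact mul_mem g.2 hm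
  have hinv : ((g⁻¹ : _root_.Fermat.Agent.A2.Mod.FE E N) : LaurentSeries E) * H708.incl (_root_.Fermat.Agent.A2.Mod.RE P E) U₁
      = H708.incl (_root_.Fermat.Agent.A2.Mod.RE P E) U₂ := by
    rw [IntermediateField.coe_inv, ← he', ← mul_assoc, inv_mul_cancel₀ hg0, one_mul]
  refine ⟨fun h => hg0 (by rw [h]; rfl), (hV g).mpr ⟨U₁, U₂, h0, hm, he'⟩,
    (hV g⁻¹).mpr ⟨U₂, U₁, h1, hm₁, hinv⟩, ⟨U₂, U₁, h1, hm₁, hinv, ?_⟩⟩
  show b⁻¹ * H708.red (_root_.Fermat.Agent.A2.Mod.RE P E) U₁ = H708.red (_root_.Fermat.Agent.A2.Mod.RE P E) U₂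
  rw [← hr', ← mul_assoc, inv_mul_cancel₀ hb, one_mul]

/-- elements with zero reduction lie in the maximal ideal of `V∞` -/
theorem redRel_ker {V : ValuationSubring (_root_.Fermat.Agent.A2.Mod.FE E N)} (hV : IsVinf P E N V)
    (hdvr : IsDiscreteValuationRing (_root_.Fermat.Agent.A2.Mod.RE P E)) {w : _root_.Fermat.Agent.A2.Mod.RE P E} (hw : Irreducible w)
    (hu : H48.IsUnif V (algebraMap (_root_.Fermat.Agent.A2.Mod.RE P E) (_root_.Fermat.Agent.A2.Mod.FE E N) w)) {g : _root_.Fermat.Agent.A2.Mod.FE E N}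
    (h : (g, (0 : LaurentSeries (ResidueField (_root_.Fermat.Agent.A2.Mod.RE P E)))) ∈ redRel P E N) :
    V.valuation g < 1 := by
  obtain ⟨U₁, U₂, h0, hm, he, hr⟩ := h
  have he' : (g : LaurentSeries E) * H708.incl (_root_.Fermat.Agent.A2.Mod.RE P E) U₂ = H708.incl (_root_.Fermat.Agent.A2.Mod.RE P E) U₁ := he
  have hr' : (0 : LaurentSeries (ResidueField (_root_.Fermat.Agent.A2.Mod.RE P E))) * H708.red (_root_.Fermat.Agent.A2.Mod.RE P E) U₂
      = H708.red (_root_.Fermat.Agent.A2.Mod.RE P E) U₁ := hr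
  rw [zero_mul] at hr'
  have hdiv : ∀ n, w ∣ U₁.coeff n := by
    intro n
    have h1 : IsLocalRing.residue (_root_.Fermat.Agent.A2.Mod.RE P E) (U₁.coeff n) = 0 := by
      have := congrArg (fun z => z.coeff n) hr'.symm
      simpa using this
    rw [IsLocalRing.residue_eq_zero_iff, hw.maximalIdeal_eq, Ideal.mem_span_singleton] at h1
    exact h1
  obtain ⟨U', hU'⟩ := H549.exists_cstA_mul_eq w hw.ne_zero U₁ hdiv
  have hwE : ((w : E)) ≠ 0 := fun h0 => hw.ne_zero (Subtype.ext h0)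
  have hc : H708.cst (w : E) ≠ 0 := H708.cst_ne_zero hwE
  have hmem : g * (algebraMap (_root_.Fermat.Agent.A2.Mod.RE P E) (_root_.Fermat.Agent.A2.Mod.FE E N) w)⁻¹ ∈ V := by
    rw [hV]
    refine ⟨U', U₂, h0, hm, ?_⟩
    have hcoe : (((g * (algebraMap (_root_.Fermat.Agent.A2.Mod.RE P E) (_root_.Fermat.Agent.A2.Mod.FE E N) w)⁻¹ : _root_.Fermat.Agent.A2.Mod.FE E N)) : LaurentSeries E)
        = (g : LaurentSeries E) * (H708.cst (w : E))⁻¹ := by
      rw [IntermediateField.coe_mul, IntermediateField.coe_inv]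
      rfl
    have h2 : (g : LaurentSeries E) * H708.incl (_root_.Fermat.Agent.A2.Mod.RE P E) U₂
        = H708.cst (w : E) * H708.incl (_root_.Fermat.Agent.A2.Mod.RE P E) U' := by
      rw [he', ← hU', map_mul, H708.incl_cstA]
    rw [hcoe, mul_assoc, mul_comm (H708.cst (w : E))⁻¹, ← mul_assoc, h2, mul_comm (H708.cst _),
      mul_assoc, mul_inv_cancel₀ hc, mul_one]
  have h3 : V.valuation (g * (algebraMap (_root_.Fermat.Agent.A2.Mod.RE P E) (_root_.Fermat.Agent.A2.Mod.FE E N) w)⁻¹) ≤ 1 :=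
    (V.valuation_le_one_iff _).mpr hmem
  rw [map_mul, map_inv₀] at h3
  have hv0 : V.valuation (algebraMap (_root_.Fermat.Agent.A2.Mod.RE P E) (_root_.Fermat.Agent.A2.Mod.FE E N) w) ≠ 0 := hu.val_ne_zero
  rw [mul_inv_le_iff₀ (zero_lt_iff.mpr hv0), one_mul] at h3
  exact lt_of_le_of_lt h3 hu.val_lt_one

end Rel

/-! ### polar series have separating reduction -/

section Polar

variable (P : ValuationSubring _root_.Fermat.Agent.A2.Mod.Qb) (E : IntermediateField ℚ _root_.Fermat.Agent.A2.Mod.Qb)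

theorem dq_red_polar {q : ℕ} (hq : q.Prime) (hP : P.LiesOverPrime q) {g : LaurentSeries ℤ}
    {a : ℕ} (hg : H13.IsPolarInt g a) (ha : ¬ q ∣ a) :
    Fermat.Agent.S18.H602.dq (H708.red (_root_.Fermat.Agent.A2.Mod.RE P E) (H708.castA (_root_.Fermat.Agent.A2.Mod.RE P E) g)) ≠ 0 := by
  haveI : CharP (ResidueField (_root_.Fermat.Agent.A2.Mod.RE P E)) q := H753.charP_residueField P E hq hP
  refine Fermat.Agent.S18.H602.dq_ne_zero_of_coeff _ (-(a : ℤ)) ?_
  have h1 : (H708.red (_root_.Fermat.Agent.A2.Mod.RE P E) (H708.castA (_root_.Fermat.Agent.A2.Mod.RE P E) g)).coeff (-(a : ℤ)) = 1 := by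
    show IsLocalRing.residue (_root_.Fermat.Agent.A2.Mod.RE P E) (((g.coeff (-(a : ℤ)) : ℤ) : _root_.Fermat.Agent.A2.Mod.RE P E)) = 1
    rw [hg.2, Int.cast_one, map_one]
  rw [h1, mul_one]
  intro h0
  rw [CharP.intCast_eq_zero_iff (ResidueField (_root_.Fermat.Agent.A2.Mod.RE P E)) q, dvd_neg, Int.natCast_dvd_natCast] at h0
  exact ha h0

end Polar

/-! ### the core -/

section Core

variable {P : ValuationSubring _root_.Fermat.Agent.A2.Mod.Qb} {E : IntermediateField ℚ _root_.Fermat.Agent.A2.Mod.Qb} {M q : ℕ} [NeZero M] [NeZero q]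
  {w : _root_.Fermat.Agent.A2.Mod.RE P E}

theorem perfectField_residue (hS : Setting P E M q w) :
    PerfectField (ResidueField (_root_.Fermat.Agent.A2.Mod.RE P E)) := by
  haveI : Fact q.Prime := ⟨hS.q_prime⟩
  haveI : CharP (ResidueField (_root_.Fermat.Agent.A2.Mod.RE P E)) q :=
    H753.charP_residueField P E hS.q_prime hS.lies_over
  haveI : ExpChar (ResidueField (_root_.Fermat.Agent.A2.Mod.RE P E)) q := ExpChar.prime hS.q_prime
  haveI : PerfectRing (ResidueField (_root_.Fermat.Agent.A2.Mod.RE P E)) q :=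
    PerfectRing.ofSurjective (ResidueField (_root_.Fermat.Agent.A2.Mod.RE P E)) q
      (fun c => H96.exists_pow_eq_residue P E hS.q_prime hS.lies_over c)
  exact PerfectRing.toPerfectField (ResidueField (_root_.Fermat.Agent.A2.Mod.RE P E)) q

/-- **`SepCoord` for a coordinate `y`** with the Gauss property, residue-independent families
and separating reductions on both components. -/
theorem sepCoord_core (hS : Setting P E M q w)
    (V : ValuationSubring (_root_.Fermat.Agent.A2.Mod.FE E (M * q))) (W : _root_.Fermat.Agent.A2.Mod.FE E (M * q) ≃ₐ[E] _root_.Fermat.Agent.A2.Mod.FE E (M * q))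
    (hV : IsVinf P E (M * q) V)
    (hu : H48.IsUnif V (algebraMap (_root_.Fermat.Agent.A2.Mod.RE P E) (_root_.Fermat.Agent.A2.Mod.FE E (M * q)) w))
    (hne : V ≠ V.comap (W : _root_.Fermat.Agent.A2.Mod.FE E (M * q) →+* _root_.Fermat.Agent.A2.Mod.FE E (M * q)))
    (y : _root_.Fermat.Agent.A2.Mod.FE E (M * q)) (hy : Transcendental E y)
    (hfin : FiniteDimensional (IntermediateField.adjoin E ({y} : Set (_root_.Fermat.Agent.A2.Mod.FE E (M * q))))
      (_root_.Fermat.Agent.A2.Mod.FE E (M * q)))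
    {n : ℕ}
    (hdeg : Module.finrank (IntermediateField.adjoin E ({y} : Set (_root_.Fermat.Agent.A2.Mod.FE E (M * q))))
      (_root_.Fermat.Agent.A2.Mod.FE E (M * q)) ≤ n + n)
    (hG₁ : Fermat.Agent.A2.H489.IsGaussOver (_root_.Fermat.Agent.A2.Mod.RE P E) V y)
    (hG₂ : Fermat.Agent.A2.H489.IsGaussOver (_root_.Fermat.Agent.A2.Mod.RE P E)
      (V.comap (W : _root_.Fermat.Agent.A2.Mod.FE E (M * q) →+* _root_.Fermat.Agent.A2.Mod.FE E (M * q))) y)
    (b c : Fin n → _root_.Fermat.Agent.A2.Mod.FE E (M * q)) (hb : ∀ i, b i ∈ V)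
    (hc : ∀ i, c i ∈ V.comap (W : _root_.Fermat.Agent.A2.Mod.FE E (M * q) →+* _root_.Fermat.Agent.A2.Mod.FE E (M * q)))
    (hIb : IndepMod P E (M * q) V w y b)
    (hIc : IndepMod P E (M * q) (V.comap (W : _root_.Fermat.Agent.A2.Mod.FE E (M * q) →+* _root_.Fermat.Agent.A2.Mod.FE E (M * q))) w y c)
    (yb yb' : LaurentSeries (ResidueField (_root_.Fermat.Agent.A2.Mod.RE P E)))
    (h1 : (y, yb) ∈ redRel P E (M * q)) (h1' : Fermat.Agent.S18.H602.dq yb ≠ 0)
    (h2 : (W y, yb') ∈ redRel P E (M * q)) (h2' : Fermat.Agent.S18.H602.dq yb' ≠ 0) :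
    SepCoord (_root_.Fermat.Agent.A2.Mod.RE P E) E y (chartAlg P E (M * q) y) := by
  haveI hdvr : IsDiscreteValuationRing (_root_.Fermat.Agent.A2.Mod.RE P E) := hS.dvr
  haveI : PerfectField (ResidueField (_root_.Fermat.Agent.A2.Mod.RE P E)) := perfectField_residue hS
  have hw := hS.unif
  have hu₂ : H48.IsUnif (V.comap (W : _root_.Fermat.Agent.A2.Mod.FE E (M * q) →+* _root_.Fermat.Agent.A2.Mod.FE E (M * q)))
      (algebraMap (_root_.Fermat.Agent.A2.Mod.RE P E) (_root_.Fermat.Agent.A2.Mod.FE E (M * q)) w) := Fermat.Agent.A2.Mod.H489.isUnif_comap hu W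
  haveI := hfin
  have halg : ∀ f : _root_.Fermat.Agent.A2.Mod.FE E (M * q),
      IsAlgebraic (IntermediateField.adjoin E ({y} : Set (_root_.Fermat.Agent.A2.Mod.FE E (M * q)))) f :=
    fun f => Algebra.IsAlgebraic.isAlgebraic f
  refine sepCoord_of_gauss w hw y hy hfin (chartAlg P E (M * q) y) (fun f hf => hf)
    V (V.comap (W : _root_.Fermat.Agent.A2.Mod.FE E (M * q) →+* _root_.Fermat.Agent.A2.Mod.FE E (M * q))) hne hu hu₂
    hG₁.aeval_mem hG₂.aeval_mem
    (fun Q hQ => hG₁.inv_aeval_mem (fun h0 => hQ (C_dvd_of_map_residue_eq_zero hw h0)))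
    (fun Q hQ => hG₂.inv_aeval_mem (fun h0 => hQ (C_dvd_of_map_residue_eq_zero hw h0)))
    b c hb hc (fun a ha i => hIb a ha i) (fun a ha i => hIc a ha i) hdeg ?_ ?_
  · intro f hf₁ _
    obtain ⟨fb, hfb⟩ := exists_redRel hV hf₁
    obtain ⟨Pa, hPa, hPf⟩ := exists_primitive_annihilator (E := E) hw hy (halg f)
    exact exists_sep_poly_of_graph V (redRel P E (M * q)) redRel_const
      (fun g hg => redRel_ker hV hdvr hw hu hg)
      (fun g b hg hb => by
        obtain ⟨hg0, hgV, hgi, -⟩ := redRel_unit hV hg hb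
        exact val_eq_one_of_mem V hg0 hgV hgi)
      h1 h1' hfb Pa hPa hPf
  · intro f _ hf₂
    have hf₂' : W f ∈ V := hf₂
    obtain ⟨fb, hfb⟩ := exists_redRel hV hf₂'
    obtain ⟨Pa, hPa, hPf⟩ := exists_primitive_annihilator (E := E) hw hy (halg f)
    refine exists_sep_poly_of_graph (V.comap (W : _root_.Fermat.Agent.A2.Mod.FE E (M * q) →+* _root_.Fermat.Agent.A2.Mod.FE E (M * q)))
      ((redRel P E (M * q)).comap
        (RingHom.prodMap (W : _root_.Fermat.Agent.A2.Mod.FE E (M * q) →+* _root_.Fermat.Agent.A2.Mod.FE E (M * q))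
          (RingHom.id (LaurentSeries (ResidueField (_root_.Fermat.Agent.A2.Mod.RE P E))))))
      ?_ ?_ ?_ (x := y) (xb := yb') ?_ h2' (f := f) (fb := fb) ?_ Pa hPa hPf
    · intro r
      show (W (algebraMap (_root_.Fermat.Agent.A2.Mod.RE P E) (_root_.Fermat.Agent.A2.Mod.FE E (M * q)) r), cres (_root_.Fermat.Agent.A2.Mod.RE P E) r) ∈ redRel P E (M * q)
      have hWr : W (algebraMap (_root_.Fermat.Agent.A2.Mod.RE P E) (_root_.Fermat.Agent.A2.Mod.FE E (M * q)) r)
          = algebraMap (_root_.Fermat.Agent.A2.Mod.RE P E) (_root_.Fermat.Agent.A2.Mod.FE E (M * q)) r := W.commutes (r : E)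
      rw [hWr]
      exact redRel_const r
    · intro g hg
      have hg' : (W g, (0 : LaurentSeries (ResidueField (_root_.Fermat.Agent.A2.Mod.RE P E)))) ∈ redRel P E (M * q) := hg
      have h3 := redRel_ker hV hdvr hw hu hg'
      rw [← ValuationSubring.mem_nonunits_iff] at h3 ⊢
      exact (H13.mem_nonunits_comap V (W : _root_.Fermat.Agent.A2.Mod.FE E (M * q) →+* _root_.Fermat.Agent.A2.Mod.FE E (M * q)) g).mpr h3
    · intro g b hg hb
      have hg' : (W g, b) ∈ redRel P E (M * q) := hg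
      obtain ⟨hg0, hgV, hgi, -⟩ := redRel_unit hV hg' hb
      have hg00 : g ≠ 0 := fun h => hg0 (by rw [h, map_zero])
      refine val_eq_one_of_mem _ hg00 hgV ?_
      show W g⁻¹ ∈ V
      rw [map_inv₀]
      exact hgi
    · exact h2
    · exact hfb

end Core

/-! ### the two charts of `X₀(M q)` -/

section Final

variable (P : ValuationSubring _root_.Fermat.Agent.A2.Mod.Qb) (E : IntermediateField ℚ _root_.Fermat.Agent.A2.Mod.Qb) (M q : ℕ) [NeZero M] [NeZero q]
  (w : _root_.Fermat.Agent.A2.Mod.RE P E)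

theorem not_dvd_succ {q : ℕ} (hq : q.Prime) : ¬ q ∣ 1 + q := by
  intro h
  have h1 : q ∣ 1 := (Nat.dvd_add_left (dvd_refl q)).mp h
  exact hq.one_lt.ne' (Nat.dvd_one.mp h1)

theorem not_dvd_level {M q : ℕ} (hqM : ¬ q ∣ M) : ¬ q ∣ M * q + M := by
  intro h
  have h1 : q ∣ M := (Nat.dvd_add_right (dvd_mul_left q M)).mp h
  exact hqM h1

/-- **MODASM sub-assembly S4** from the leaves L1, L2, L4, L6, L8, L9, L10 (all VERBATIM). -/
theorem s4_of_leaves (hL1 : VinfExistsStatement P E) (hL2 : VinfBasicStatement P E w)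
    (hL4 : FrickeExistsStatement E) (hL6 : VzeroNeStatement P E M q w)
    (hL8 : DegStatement E M q) (hL9 : IndInfStatement P E M q w)
    (hL10 : IndZeroStatement P E M q w) : S4Statement P E M q w := by
  intro hS _ _ _ _
  haveI hdvr : IsDiscreteValuationRing (_root_.Fermat.Agent.A2.Mod.RE P E) := hS.dvr
  have hw := hS.unif
  have hq := hS.q_prime
  have hN : M * q ≠ 0 := mul_ne_zero hS.M_ne_zero hS.q_prime.ne_zero
  obtain ⟨V, hV⟩ := hL1 (M * q) hN hdvr
  obtain ⟨W, hW⟩ := hL4 (M * q) hN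
  obtain ⟨hu, hconst, hj⟩ := hL2 (M * q) hN hdvr hw V hV
  have hu₂ := Fermat.Agent.A2.Mod.H489.isUnif_comap hu W
  have hmem₁ : ∀ r : _root_.Fermat.Agent.A2.Mod.RE P E, algebraMap (_root_.Fermat.Agent.A2.Mod.RE P E) (_root_.Fermat.Agent.A2.Mod.FE E (M * q)) r ∈ V :=
    fun r => (hconst (r : E)).mpr r.2
  have hmem₂ : ∀ r : _root_.Fermat.Agent.A2.Mod.RE P E, algebraMap (_root_.Fermat.Agent.A2.Mod.RE P E) (_root_.Fermat.Agent.A2.Mod.FE E (M * q)) r ∈
      V.comap (W : _root_.Fermat.Agent.A2.Mod.FE E (M * q) →+* _root_.Fermat.Agent.A2.Mod.FE E (M * q)) := by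
    intro r
    show W (algebraMap E (_root_.Fermat.Agent.A2.Mod.FE E (M * q)) (r : E)) ∈ V
    rw [W.commutes]
    exact hmem₁ r
  have ho₁ := Fermat.Agent.A2.Mod.H489.isOver_of_unif hw hu hmem₁
  have ho₂ := Fermat.Agent.A2.Mod.H489.isOver_of_unif hw hu₂ hmem₂
  obtain ⟨b, hb, hIb⟩ := hL9 hS V hV
  obtain ⟨c, hc, hIc⟩ := hL10 hS V W hV hW
  have hx₁ : xE E M q ∈ V := mul_mem (hj 1 (one_dvd _)).1 (hj q (dvd_mul_left q M)).1
  have hx₂ : xE E M q ∈ V.comap (W : _root_.Fermat.Agent.A2.Mod.FE E (M * q) →+* _root_.Fermat.Agent.A2.Mod.FE E (M * q)) := by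
    show W (xE E M q) ∈ V
    unfold xE
    rw [map_mul, hW.1 1 (M * q) (one_dvd _) (dvd_refl _) (one_mul _),
      hW.1 q M (dvd_mul_left q M) (dvd_mul_right M q) (mul_comm q M)]
    exact mul_mem (hj _ _).1 (hj _ _).1
  have hpos : 0 < (q + 1) * dedekindPsi M :=
    Nat.mul_pos (Nat.succ_pos q) (dedekindPsi_pos_of_ne_zero M hS.M_ne_zero)
  have hP₁ := Fermat.Agent.A2.Mod.H489.polyIndepMod_of_indepMod hw hu hIb
  have hP₂ := Fermat.Agent.A2.Mod.H489.polyIndepMod_of_indepMod hw hu₂ hIc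
  have hG₁ := Fermat.Agent.A2.H489.IsGaussOver.of_polyIndepMod ho₁ hx₁ hpos hb hP₁
  have hG₂ := Fermat.Agent.A2.H489.IsGaussOver.of_polyIndepMod ho₂ hx₂ hpos hc hP₂
  have hne : V ≠ V.comap (W : _root_.Fermat.Agent.A2.Mod.FE E (M * q) →+* _root_.Fermat.Agent.A2.Mod.FE E (M * q)) :=
    fun h => hL6 hS V W hV hW h.symm
  obtain ⟨htr, hdeg, -⟩ := hL8 hS.q_prime hS.q_not_dvd
  have hfin : FiniteDimensional
      (IntermediateField.adjoin E ({xE E M q} : Set (_root_.Fermat.Agent.A2.Mod.FE E (M * q)))) (_root_.Fermat.Agent.A2.Mod.FE E (M * q)) :=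
    Module.finite_of_finrank_pos (by rw [hdeg]; omega)
  have hdeg' : Module.finrank
      (IntermediateField.adjoin E ({xE E M q} : Set (_root_.Fermat.Agent.A2.Mod.FE E (M * q)))) (_root_.Fermat.Agent.A2.Mod.FE E (M * q)) ≤
      (q + 1) * dedekindPsi M + (q + 1) * dedekindPsi M := by
    rw [hdeg]
    omega
  -- the reductions of `x` and `W x`
  obtain ⟨g, hg, e⟩ := H13.isPolar_xE (E := E) M q
  obtain ⟨g', hg', e'⟩ := H13.isPolar_fricke_xE (E := E) M q hW
  have h1 := redRel_int (P := P) e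
  have h1' := dq_red_polar P E hq hS.lies_over hg (not_dvd_succ hq)
  have h2 := redRel_int (P := P) e'
  have h2' := dq_red_polar P E hq hS.lies_over hg' (not_dvd_level hS.q_not_dvd)
  refine ⟨sepCoord_core hS V W hV hu hne (xE E M q) htr hfin hdeg' hG₁ hG₂ b c hb hc hIb hIc
    _ _ h1 h1' h2 h2', ?_⟩
  -- the chart at infinity
  have hy0 : ∀ {z : LaurentSeries (ResidueField (_root_.Fermat.Agent.A2.Mod.RE P E))},
      Fermat.Agent.S18.H602.dq z ≠ 0 → z ≠ 0 := by
    intro z hz h0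
    apply hz
    rw [h0]
    have := Fermat.Agent.S18.H602.dq_C (0 : ResidueField (_root_.Fermat.Agent.A2.Mod.RE P E))
    rwa [map_zero] at this
  have hE := Fermat.Agent.A2.H489.adjoin_inv_eq E (xE E M q)
  have key : ∀ (K : IntermediateField E (_root_.Fermat.Agent.A2.Mod.FE E (M * q))),
      K = IntermediateField.adjoin E ({xE E M q} : Set (_root_.Fermat.Agent.A2.Mod.FE E (M * q))) →
      FiniteDimensional K (_root_.Fermat.Agent.A2.Mod.FE E (M * q)) ∧
        Module.finrank K (_root_.Fermat.Agent.A2.Mod.FE E (M * q)) ≤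
          (q + 1) * dedekindPsi M + (q + 1) * dedekindPsi M := by
    rintro K rfl
    exact ⟨hfin, hdeg'⟩
  obtain ⟨hfin_i, hdeg_i⟩ := key _ hE
  have htr_i : Transcendental E (xE E M q)⁻¹ := by
    intro halg
    exact htr (by simpa using halg.inv)
  have h2i : (W (xE E M q)⁻¹, (H708.red (_root_.Fermat.Agent.A2.Mod.RE P E) (H708.castA (_root_.Fermat.Agent.A2.Mod.RE P E) g'))⁻¹)
      ∈ redRel P E (M * q) := by
    rw [map_inv₀]
    exact (redRel_unit hV h2 (hy0 h2')).2.2.2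
  exact sepCoord_core hS V W hV hu hne (xE E M q)⁻¹ htr_i hfin_i hdeg_i hG₁.inv hG₂.inv
    b c hb hc (H753.indepMod_inv P E V w (xE E M q) hx₁ b hIb)
    (H753.indepMod_inv P E _ w (xE E M q) hx₂ c hIc)
    _ _ (redRel_unit hV h1 (hy0 h1')).2.2.2 (dq_inv_ne_zero h1') h2i (dq_inv_ne_zero h2')

/-- **MODASM sub-assembly S4, unconditional.** -/
theorem s4 : S4Statement P E M q w :=
  s4_of_leaves P E M q w (H553.vinfExists P E) (H553.vinfBasic P E w) (H553.frickeExists E)
    (H553.vzeroNe P E M q w) (H31.deg E M q) (H753.indInf P E M q w) (H753.indZero P E M q w)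

end Final

end Fermat.Agent.A2.Mod.H732

end
end
-- ===== PACK-END A2/Mod/H732/S4.lean

-- ===== PACK-BEGIN S36/H153/CuspSq.lean
section



/-!
# S36 engine, cell INCIDENCE (helper153) — the field `cusp_single` of `Eng.TripleCtx`,
concrete part (A2 / MOD vocabulary)

Levels `M q` (`q ∤ M`) and `M q q`; `V₁' = V∞` (`IsVinf`), `V₂' = V∞ ∘ W` (`W` Fricke of level
`M q`); `x' = xE E M q = j j_q`; `u = 1/j`, `u_q = 1/j_q` at level `M q`.

* `mem_nonunits_of_inW`, `mem_nonunits_comap_of_inW` : `w V ⊆ 𝔪_V` for `V = V∞`, `V∞ ∘ W`;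
* `uE_mem_chart`, `uqE_mem_chart`  : `u, u_q ∈ chart R {x'⁻¹}`;
* `kron_inf₁`, `kron_inf₂`         : `u_q - u^q ∈ 𝔪_{V₁'}`, `u - u_q^q ∈ 𝔪_{V₂'}`;
* `hnode_level_q`                  : cusps are not nodes at level `M q`, chart vocabulary;
* `alpha_uq_eq_beta_u`, `inv_x_eq` : `α u_q = β u`, `(j j_q j_{q²})⁻¹ = α u · α u_q · β u_q`;
* **`cusp_single_concrete`**       : the field `cusp_single` for `x = j j_q j_{q²}` from the
  comap table, `R ⊆ Vᵢ`, `x⁻¹ ∈ Vᵢ` and `α, β (chart R {x'⁻¹}) ⊆ chart R {x⁻¹}`.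
-/

set_option autoImplicit false
set_option synthInstance.maxHeartbeats 400000
set_option maxHeartbeats 1600000
set_option linter.unusedSectionVars false
set_option linter.style.haveILetI false

noncomputable section

namespace Fermat.Agent.S36.H153

open ModularCurve HahnSeries Polynomial
open Fermat.Agent.A2.Mod
open Fermat.Agent.S18.H138 (chart)

theorem inv_sub_inv_pow_eq {K : Type*} [Field K] (a b : K) (n : ℕ) (ha : a ≠ 0) (hb : b ≠ 0) :
    b⁻¹ - a⁻¹ ^ n = (-b⁻¹) * (b / a ^ n - 1) := by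
  have han : a ^ n ≠ 0 := pow_ne_zero n ha
  rw [inv_pow]
  field_simp
  ring

section LevelQ

variable {P : ValuationSubring Qb} {E : IntermediateField ℚ Qb} {M q : ℕ} [NeZero M] [NeZero q]
variable (w : RE P E)

/-- `cE w ∈ 𝔪_V` for `V = V∞` (any level). -/
theorem cE_mem_nonunits (hS : Setting P E M q w) {N : ℕ} (hN : N ≠ 0)
    {V : ValuationSubring (FE E N)} (hV : IsVinf P E N V) : cE P E N w ∈ V.nonunits := by
  have hu := (H553.vinfBasic P E w N hN hS.dvr hS.unif V hV).1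
  rw [ValuationSubring.mem_nonunits_iff]
  by_contra hcon
  rw [not_lt] at hcon
  apply hu.inv_not_mem
  rw [← V.valuation_le_one_iff, map_inv₀]
  exact inv_le_one_of_one_le₀ hcon

/-- `w V ⊆ 𝔪_V` for `V = V∞`. -/
theorem mem_nonunits_of_inW (hS : Setting P E M q w) {N : ℕ} (hN : N ≠ 0)
    {V : ValuationSubring (FE E N)} (hV : IsVinf P E N V) {f : FE E N}
    (h : InW P E N V w f) : f ∈ V.nonunits := by
  have hc := cE_mem_nonunits w hS hN hV
  have hc0 : cE P E N w ≠ 0 := by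
    intro h0
    have hu := (H553.vinfBasic P E w N hN hS.dvr hS.unif V hV).1
    exact hu.ne_zero h0
  have e : f = (f * (cE P E N w)⁻¹) * cE P E N w := by
    field_simp
  rw [e]
  exact nonunits_mul_mem V h hc

/-- `w V ⊆ 𝔪_V` for `V = V∞ ∘ W`. -/
theorem mem_nonunits_comap_of_inW (hS : Setting P E M q w) {N : ℕ} (hN : N ≠ 0)
    {V : ValuationSubring (FE E N)} (hV : IsVinf P E N V) (W : FE E N ≃ₐ[E] FE E N)
    {f : FE E N} (h : InW P E N (V.comap (W : FE E N →+* FE E N)) w f) :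
    f ∈ (V.comap (W : FE E N →+* FE E N)).nonunits := by
  rw [mem_nonunits_comap]
  rw [H372.inW_comap_iff] at h
  exact mem_nonunits_of_inW w hS hN hV h

variable (P E M q)

/-- `u = 1/j` at level `M q`. -/
abbrev uE : FE E (M * q) := (j1 E M q)⁻¹

/-- `u_q = 1/j_q` at level `M q`. -/
abbrev uqE : FE E (M * q) := (jq1 E M q)⁻¹

theorem uE_mul_uqE : uE E M q * uqE E M q = (xE E M q)⁻¹ := by
  rw [xE_eq, mul_inv]

theorem uE_mem_chart (hq : q.Prime) :
    uE E M q ∈ _root_.Fermat.Agent.S18.H138.chart (RE P E) ({(xE E M q)⁻¹} : Set (FE E (M * q))) := by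
  have h := (H873.chartCompat P E M q hq).2.2.1
  rw [H372.mem_chart_iff] at h
  exact h

theorem uqE_mem_chart (hq : q.Prime) :
    uqE E M q ∈ _root_.Fermat.Agent.S18.H138.chart (RE P E) ({(xE E M q)⁻¹} : Set (FE E (M * q))) := by
  have h := (H873.chartCompat P E M q hq).2.2.2
  rw [H372.mem_chart_iff] at h
  exact h

variable {P E M q}

/-- Kronecker at infinity on `V∞`: `1/j_q ≡ (1/j)^q`. -/
theorem kron_inf₁ (hS : Setting P E M q w) {V : ValuationSubring (FE E (M * q))}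
    (hV : IsVinf P E (M * q) V) : uqE E M q - uE E M q ^ q ∈ V.nonunits := by
  have hN := H372.level_ne_zero w hS
  have hz := mem_nonunits_of_inW w hS hN hV (zE_sub_one_inW w hS hV)
  have huq : uqE E M q ∈ V := H372.jE_inv_mem w hS hN hV q (dvd_mul_left q M)
  have h1 : j1 E M q ≠ 0 := H873.jE_ne_zero E (M * q) 1 (one_dvd _)
  have h2 : jq1 E M q ≠ 0 := H873.jE_ne_zero E (M * q) q (dvd_mul_left q M)
  have e : uqE E M q - uE E M q ^ q = (-uqE E M q) * (zE E M q - 1) :=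
    inv_sub_inv_pow_eq _ _ q h1 h2
  rw [e]
  exact nonunits_mul_mem V (V.neg_mem _ huq) hz

/-- Kronecker at infinity on `V₀ = V∞ ∘ W`: `1/j ≡ (1/j_q)^q`. -/
theorem kron_inf₂ (hS : Setting P E M q w) {V : ValuationSubring (FE E (M * q))}
    (hV : IsVinf P E (M * q) V) {W : FE E (M * q) ≃ₐ[E] FE E (M * q)}
    (hW : IsFricke E (M * q) W) :
    uE E M q - uqE E M q ^ q ∈ (V.comap (W : FE E (M * q) →+* FE E (M * q))).nonunits := by
  have hN := H372.level_ne_zero w hS
  have hy := mem_nonunits_comap_of_inW w hS hN hV W (yE_sub_one_inW w hS hV hW)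
  have hu : uE E M q ∈ V.comap (W : FE E (M * q) →+* FE E (M * q)) := by
    rw [ValuationSubring.mem_comap]
    show W (uE E M q) ∈ V
    rw [map_inv₀, H372.fricke_jE_one hW]
    exact H372.jE_inv_mem w hS hN hV (M * q) (dvd_refl _)
  have h1 : j1 E M q ≠ 0 := H873.jE_ne_zero E (M * q) 1 (one_dvd _)
  have h2 : jq1 E M q ≠ 0 := H873.jE_ne_zero E (M * q) q (dvd_mul_left q M)
  have e : uE E M q - uqE E M q ^ q = (-uE E M q) * (yE E M q - 1) :=
    inv_sub_inv_pow_eq _ _ q h2 h1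
  rw [e]
  exact nonunits_mul_mem _ (ValuationSubring.neg_mem _ _ hu) hy

/-- **Cusps are not nodes at level `M q`**, chart vocabulary (`hnode` of `cusp_single_of`). -/
theorem hnode_level_q (hS : Setting P E M q w) (V : ValuationSubring (FE E (M * q)))
    (W : FE E (M * q) ≃ₐ[E] FE E (M * q)) (hV : IsVinf P E (M * q) V)
    (hW : IsFricke E (M * q) W)
    (N : Ideal (_root_.Fermat.Agent.S18.H138.chart (RE P E) ({(xE E M q)⁻¹} : Set (FE E (M * q))))) (hN : N.IsPrime)
    (h1 : ∀ b : _root_.Fermat.Agent.S18.H138.chart (RE P E) ({(xE E M q)⁻¹} : Set (FE E (M * q))),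
      (b : FE E (M * q)) ∈ V.nonunits → b ∈ N)
    (h2 : ∀ b : _root_.Fermat.Agent.S18.H138.chart (RE P E) ({(xE E M q)⁻¹} : Set (FE E (M * q))),
      (b : FE E (M * q)) ∈ (V.comap (W : FE E (M * q) →+* FE E (M * q))).nonunits → b ∈ N)
    (v : _root_.Fermat.Agent.S18.H138.chart (RE P E) ({(xE E M q)⁻¹} : Set (FE E (M * q))))
    (hv : (v : FE E (M * q)) = (xE E M q)⁻¹) : v ∉ N := by
  have hNlev := H372.level_ne_zero w hS
  obtain ⟨hz, hy⟩ := zy_mem_chartAlg P E M q hS.q_prime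
  have hz' : zE E M q ∈ _root_.Fermat.Agent.S18.H138.chart (RE P E) ({(xE E M q)⁻¹} : Set (FE E (M * q))) := hz
  have hy' : yE E M q ∈ _root_.Fermat.Agent.S18.H138.chart (RE P E) ({(xE E M q)⁻¹} : Set (FE E (M * q))) := hy
  have hq1 : 0 < q - 1 := by have := hS.q_prime.two_le; omega
  refine not_mem_of_yz (pinf := N) (pzero := N) (y := ⟨yE E M q, hy'⟩) (z := ⟨zE E M q, hz'⟩)
    (k := q - 1) hN.ne_top le_rfl le_rfl hq1 ?_ ?_ ?_
  · exact h1 _ (mem_nonunits_of_inW w hS hNlev hV (zE_sub_one_inW w hS hV))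
  · exact h2 _ (mem_nonunits_comap_of_inW w hS hNlev hV W (yE_sub_one_inW w hS hV hW))
  · apply Subtype.ext
    show yE E M q * zE E M q = (v : FE E (M * q)) ^ (q - 1)
    rw [hv, yE_mul_zE]

end LevelQ

section LevelSq

variable (P : ValuationSubring Qb) (E : IntermediateField ℚ Qb) (M q : ℕ) [NeZero M] [NeZero q]
  [NeZero (M * q)]

/-- The coordinate `x = j · j_q · j_{q²}` of level `M q q`. -/
def xSq : FE E (M * q * q) :=
  jE E (M * q * q) 1 (one_dvd _) * jE E (M * q * q) q (dvd_mul_left q (M * q)) *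
    jE E (M * q * q) (q * q) (mul_dvd_mul_right (dvd_mul_left q M) q)

theorem alpha_uE : αE E (M * q) q (uE E M q) = (jE E (M * q * q) 1 (one_dvd _))⁻¹ := by
  rw [uE, map_inv₀, j1, H372.alpha_jE_one]

theorem alpha_uqE :
    αE E (M * q) q (uqE E M q) = (jE E (M * q * q) q (dvd_mul_left q (M * q)))⁻¹ := by
  rw [uqE, map_inv₀, jq1, H372.alpha_jE q (dvd_mul_left q M)]

theorem beta_uE :
    βE E (M * q) q (uE E M q) = (jE E (M * q * q) q (dvd_mul_left q (M * q)))⁻¹ := by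
  rw [uE, map_inv₀, j1, H372.beta_jE_one]

theorem beta_uqE :
    βE E (M * q) q (uqE E M q) =
      (jE E (M * q * q) (q * q) (mul_dvd_mul_right (dvd_mul_left q M) q))⁻¹ := by
  rw [uqE, map_inv₀, jq1, H372.beta_jE q (dvd_mul_left q M)]

theorem alpha_uq_eq_beta_u : αE E (M * q) q (uqE E M q) = βE E (M * q) q (uE E M q) := by
  rw [alpha_uqE, beta_uE]

theorem inv_xSq_eq :
    (xSq E M q)⁻¹ =
      αE E (M * q) q (uE E M q) * αE E (M * q) q (uqE E M q) * βE E (M * q) q (uqE E M q) := by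
  rw [alpha_uE, alpha_uqE, beta_uqE, xSq, mul_inv, mul_inv]

variable {P E M q}
variable (w : RE P E)

/-- **Field `cusp_single` of `Eng.TripleCtx`, concrete form**: `x = j j_q j_{q²}`,
`V₁' = V∞`, `V₂' = V∞ ∘ W` at level `M q`.  The points at infinity of the level-`M q q` model lie
on exactly one component. -/
theorem cusp_single_concrete (hS : Setting P E M q w)
    (V' : ValuationSubring (FE E (M * q))) (W' : FE E (M * q) ≃ₐ[E] FE E (M * q))
    (hV' : IsVinf P E (M * q) V') (hW' : IsFricke E (M * q) W')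
    (x : FE E (M * q * q)) (hx : x = xSq E M q)
    (V₁ V₂ V₃ : ValuationSubring (FE E (M * q * q)))
    (hR₁ : ∀ r : RE P E, algebraMap (RE P E) (FE E (M * q * q)) r ∈ V₁)
    (hR₂ : ∀ r : RE P E, algebraMap (RE P E) (FE E (M * q * q)) r ∈ V₂)
    (hR₃ : ∀ r : RE P E, algebraMap (RE P E) (FE E (M * q * q)) r ∈ V₃)
    (hx₁ : x⁻¹ ∈ V₁) (hx₂ : x⁻¹ ∈ V₂) (hx₃ : x⁻¹ ∈ V₃)
    (chart_αi : ∀ b ∈ _root_.Fermat.Agent.S18.H138.chart (RE P E) ({(xE E M q)⁻¹} : Set (FE E (M * q))),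
      αE E (M * q) q b ∈ _root_.Fermat.Agent.S18.H138.chart (RE P E) ({x⁻¹} : Set (FE E (M * q * q))))
    (chart_βi : ∀ b ∈ _root_.Fermat.Agent.S18.H138.chart (RE P E) ({(xE E M q)⁻¹} : Set (FE E (M * q))),
      βE E (M * q) q b ∈ _root_.Fermat.Agent.S18.H138.chart (RE P E) ({x⁻¹} : Set (FE E (M * q * q))))
    (comap_α₁ : V₁.comap (αE E (M * q) q : FE E (M * q) →+* FE E (M * q * q)) = V')
    (comap_α₂ : V₂.comap (αE E (M * q) q : FE E (M * q) →+* FE E (M * q * q)) = V')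
    (comap_α₃ : V₃.comap (αE E (M * q) q : FE E (M * q) →+* FE E (M * q * q)) =
      V'.comap (W' : FE E (M * q) →+* FE E (M * q)))
    (comap_β₁ : V₁.comap (βE E (M * q) q : FE E (M * q) →+* FE E (M * q * q)) = V')
    (comap_β₂ : V₂.comap (βE E (M * q) q : FE E (M * q) →+* FE E (M * q * q)) =
      V'.comap (W' : FE E (M * q) →+* FE E (M * q)))
    (comap_β₃ : V₃.comap (βE E (M * q) q : FE E (M * q) →+* FE E (M * q * q)) =
      V'.comap (W' : FE E (M * q) →+* FE E (M * q))) :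
    ∀ 𝔪 : Ideal (_root_.Fermat.Agent.S18.H138.chart (RE P E) ({x⁻¹} : Set (FE E (M * q * q)))), 𝔪.IsMaximal →
    algebraMap (RE P E) (_root_.Fermat.Agent.S18.H138.chart (RE P E) ({x⁻¹} : Set (FE E (M * q * q)))) w ∈ 𝔪 →
    (⟨x⁻¹, Fermat.Agent.S18.H138.mem_chart_of_mem rfl⟩ :
      _root_.Fermat.Agent.S18.H138.chart (RE P E) ({x⁻¹} : Set (FE E (M * q * q)))) ∈ 𝔪 →
    ¬ ((∀ b : _root_.Fermat.Agent.S18.H138.chart (RE P E) ({x⁻¹} : Set (FE E (M * q * q))),
          (b : FE E (M * q * q)) ∈ V₁.nonunits → b ∈ 𝔪) ∧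
        (∀ b : _root_.Fermat.Agent.S18.H138.chart (RE P E) ({x⁻¹} : Set (FE E (M * q * q))),
          (b : FE E (M * q * q)) ∈ V₂.nonunits → b ∈ 𝔪)) ∧
    ¬ ((∀ b : _root_.Fermat.Agent.S18.H138.chart (RE P E) ({x⁻¹} : Set (FE E (M * q * q))),
          (b : FE E (M * q * q)) ∈ V₁.nonunits → b ∈ 𝔪) ∧
        (∀ b : _root_.Fermat.Agent.S18.H138.chart (RE P E) ({x⁻¹} : Set (FE E (M * q * q))),
          (b : FE E (M * q * q)) ∈ V₃.nonunits → b ∈ 𝔪)) ∧
    ¬ ((∀ b : _root_.Fermat.Agent.S18.H138.chart (RE P E) ({x⁻¹} : Set (FE E (M * q * q))),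
          (b : FE E (M * q * q)) ∈ V₂.nonunits → b ∈ 𝔪) ∧
        (∀ b : _root_.Fermat.Agent.S18.H138.chart (RE P E) ({x⁻¹} : Set (FE E (M * q * q))),
          (b : FE E (M * q * q)) ∈ V₃.nonunits → b ∈ 𝔪)) := by
  intro 𝔪 h𝔪 _ hxm
  have hB : ∀ V : ValuationSubring (FE E (M * q * q)),
      (∀ r : RE P E, algebraMap (RE P E) (FE E (M * q * q)) r ∈ V) → x⁻¹ ∈ V →
      ∀ b ∈ _root_.Fermat.Agent.S18.H138.chart (RE P E) ({x⁻¹} : Set (FE E (M * q * q))), b ∈ V := fun V hR hxV =>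
    chart_le_valuationSubring V hR (fun s hs => by rw [Set.mem_singleton_iff.mp hs]; exact hxV)
  have hq := hS.q_prime
  exact cusp_single_of (αE E (M * q) q : FE E (M * q) →+* FE E (M * q * q))
    (βE E (M * q) q : FE E (M * q) →+* FE E (M * q * q)) _ _ V₁ V₂ V₃ V'
    (V'.comap (W' : FE E (M * q) →+* FE E (M * q)))
    (hB V₁ hR₁ hx₁) (hB V₂ hR₂ hx₂) (hB V₃ hR₃ hx₃) chart_αi chart_βi
    comap_α₁ comap_α₂ comap_α₃ comap_β₁ comap_β₂ comap_β₃
    (uE E M q) (uqE E M q) (uE_mem_chart P E M q hq) (uqE_mem_chart P E M q hq)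
    (alpha_uq_eq_beta_u E M q) q hq.pos (kron_inf₁ w hS hV') (kron_inf₂ w hS hV' hW')
    (fun N hN h1 h2 => hnode_level_q w hS V' W' hV' hW' N hN h1 h2 _ (uE_mul_uqE E M q))
    𝔪 h𝔪.isPrime _ (by rw [hx]; exact inv_xSq_eq E M q) hxm

end LevelSq

end Fermat.Agent.S36.H153

end
end
-- ===== PACK-END S36/H153/CuspSq.lean

-- ===== PACK-BEGIN S36/H153/IncQ.lean
section



/-!
# S36 engine, cell INCIDENCE (helper153) — incomparability of the two components of level `M q`
(hypotheses `inc₁₂`, `inc₂₁` of `ChartInc`), concrete, A2 / MOD vocabulary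

`V = V∞` (`IsVinf`), `V₀ = V.comap W` at level `M q`, finite chart `chart R {x'}`, `x' = j j_q`.

* `jE_sub_pow_not_mem` : `j_d - j_d ^ n` (`n ≥ 2`) is a unit of `V∞` (L3, `H816.vinfGauss`);
* `inc₁₂_concrete`     : `j_q - j^q ∈ 𝔪_V`, `∉ 𝔪_{V₀}`;
* `inc₂₁_concrete`     : `j - j_q^q ∈ 𝔪_{V₀}`, `∉ 𝔪_V`.
-/

set_option autoImplicit false
set_option synthInstance.maxHeartbeats 400000
set_option maxHeartbeats 1600000
set_option linter.unusedSectionVars false
set_option linter.style.haveILetI false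

noncomputable section

namespace Fermat.Agent.S36.H153

open ModularCurve HahnSeries Polynomial
open Fermat.Agent.A2.Mod
open Fermat.Agent.S18.H138 (chart)

section Units

variable {P : ValuationSubring Qb} {E : IntermediateField ℚ Qb} {M q : ℕ} [NeZero M] [NeZero q]
variable (w : RE P E)

/-- `j_d` is transcendental over `E`. -/
theorem transcendental_jE' (N d : ℕ) [NeZero d] (hd : d ∣ N) :
    Transcendental E (jE E N d hd) := by
  intro halg
  have h1 : Transcendental E ((jE E N d hd : FE E N) : LaurentSeries E) := by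
    rw [H873.coe_jE]
    exact H31.transcendental_of_order_neg (H31.order_qExpand_jqModC_neg E d)
  apply h1
  obtain ⟨p, hp0, hp⟩ := halg
  refine ⟨p, hp0, ?_⟩
  have h2 := Polynomial.aeval_algHom_apply (FE E N).val (jE E N d hd) p
  rw [hp, map_zero] at h2
  exact h2

/-- **L3 for `j_d`**: `p(j_d)` is a unit of `V∞` for every `p ∈ R[X]` not divisible by `w`. -/
theorem ev_jE_unit (hS : Setting P E M q w) {N : ℕ} (hN : N ≠ 0)
    {V : ValuationSubring (FE E N)} (hV : IsVinf P E N V) (d : ℕ) [NeZero d] (hd : d ∣ N)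
    (p : Polynomial (RE P E)) (hp : ¬ Polynomial.C w ∣ p) :
    ev P E N (jE E N d hd) p ∈ V ∧ (ev P E N (jE E N d hd) p)⁻¹ ∈ V := by
  haveI := hS.dvr
  obtain ⟨g, hg, e⟩ := H13.isPolar_jE (E := E) (N := N) d hd
  have hd0 : 0 < d := Nat.pos_of_ne_zero (NeZero.ne d)
  exact H816.vinfGauss P E w N hN inferInstance hS.unif V hV (jE E N d hd)
    (Fermat.Agent.A2.H708.castA (RE P E) g) d hd0
    (by rw [e]; exact H553.coeffEmb_castQ (P := P) g)
    (fun n hn => by
      show ((g.coeff n : ℤ) : RE P E) = 0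
      rw [hg.1 n hn, Int.cast_zero])
    (by
      have : (Fermat.Agent.A2.H708.castA (RE P E) g).coeff (-(d : ℤ)) = 1 := by
        show ((g.coeff (-(d : ℤ)) : ℤ) : RE P E) = 1
        rw [hg.2, Int.cast_one]
      rw [this]
      exact isUnit_one)
    p hp

/-- `j_d - j_d ^ n`, `n ≥ 2`, is not in the maximal ideal of `V∞`. -/
theorem jE_sub_pow_not_mem (hS : Setting P E M q w) {N : ℕ} (hN : N ≠ 0)
    {V : ValuationSubring (FE E N)} (hV : IsVinf P E N V) (d : ℕ) [NeZero d] (hd : d ∣ N)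
    (n : ℕ) (hn : 2 ≤ n) : jE E N d hd - jE E N d hd ^ n ∉ V.nonunits := by
  set p : Polynomial (RE P E) := Polynomial.X - Polynomial.X ^ n with hp
  have hc1 : p.coeff 1 = 1 := by
    rw [hp, Polynomial.coeff_sub, Polynomial.coeff_X_one, Polynomial.coeff_X_pow]
    have : (1 : ℕ) ≠ n := by omega
    simp [this]
  have hpw : ¬ Polynomial.C w ∣ p := by
    intro hdvd
    have h1 := (Polynomial.C_dvd_iff_dvd_coeff w p).mp hdvd 1
    rw [hc1] at h1
    exact hS.unif.not_isUnit (isUnit_of_dvd_one h1)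
  have hev : ev P E N (jE E N d hd) p = jE E N d hd - jE E N d hd ^ n := by
    haveI := hS.dvr
    rw [H13.ev_eq_aeval (P := P), hp, map_sub, Polynomial.aeval_X, map_pow, Polynomial.aeval_X]
  obtain ⟨-, hinv⟩ := ev_jE_unit w hS hN hV d hd p hpw
  rw [hev] at hinv
  have hne : jE E N d hd - jE E N d hd ^ n ≠ 0 := by
    intro h0
    apply transcendental_jE' (E := E) N d hd
    refine ⟨Polynomial.X - Polynomial.X ^ n, ?_, ?_⟩
    · intro hzero
      have := congrArg (fun r : Polynomial E => r.coeff 1) hzero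
      simp only [Polynomial.coeff_sub, Polynomial.coeff_X_one, Polynomial.coeff_X_pow,
        Polynomial.coeff_zero] at this
      have hn1 : (1 : ℕ) ≠ n := by omega
      simp [hn1] at this
    · rw [map_sub, Polynomial.aeval_X, map_pow, Polynomial.aeval_X]
      exact h0
  intro hmem
  rw [ValuationSubring.mem_nonunits_iff] at hmem
  have h1 : V.valuation (jE E N d hd - jE E N d hd ^ n)⁻¹ ≤ 1 :=
    (V.valuation_le_one_iff _).mpr hinv
  rw [map_inv₀] at h1
  have h2 : V.valuation (jE E N d hd - jE E N d hd ^ n) ≠ 0 :=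
    (V.valuation.ne_zero_iff).mpr hne
  have h3 : 1 ≤ V.valuation (jE E N d hd - jE E N d hd ^ n) :=
    (inv_le_one₀ (zero_lt_iff.mpr h2)).mp h1
  exact absurd hmem (not_lt.mpr h3)

/-- `a ≡ b mod 𝔪_V ⟹ a ^ n ≡ b ^ n mod 𝔪_V`. -/
theorem pow_sub_pow_mem_nonunits {F : Type*} [Field F] (V : ValuationSubring F) {a b : F}
    (ha : a ∈ V) (hb : b ∈ V) (hab : a - b ∈ V.nonunits) (n : ℕ) :
    a ^ n - b ^ n ∈ V.nonunits := by
  have h := eval_sub_eval_mem_nonunits V (Polynomial.X ^ n : Polynomial F)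
    (fun i => by
      rw [Polynomial.coeff_X_pow]
      split_ifs
      · exact V.one_mem
      · exact V.zero_mem) ha hb hab
  simpa using h

end Units

section Inc

variable {P : ValuationSubring Qb} {E : IntermediateField ℚ Qb} {M q : ℕ} [NeZero M] [NeZero q]
variable (w : RE P E)

theorem j1_mem_chart (hq : q.Prime) :
    j1 E M q ∈ _root_.Fermat.Agent.S18.H138.chart (RE P E) ({xE E M q} : Set (FE E (M * q))) := by
  have h := (H873.chartCompat P E M q hq).1
  rw [H372.mem_chart_iff] at h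
  exact h

theorem jq1_mem_chart (hq : q.Prime) :
    jq1 E M q ∈ _root_.Fermat.Agent.S18.H138.chart (RE P E) ({xE E M q} : Set (FE E (M * q))) := by
  have h := (H873.chartCompat P E M q hq).2.1
  rw [H372.mem_chart_iff] at h
  exact h

/-- Kronecker on `V∞` (finite form): `j_q - j^q ∈ 𝔪_V`. -/
theorem kron_fin₁ (hS : Setting P E M q w) {V : ValuationSubring (FE E (M * q))}
    (hV : IsVinf P E (M * q) V) : jq1 E M q - j1 E M q ^ q ∈ V.nonunits := by
  have hN := H372.level_ne_zero w hS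
  have hk := H372.inW_jE_sub_pow w hS hV 1 (one_dvd M)
  have hcongr : jE E (M * q) (1 * q) (mul_dvd_mul_right (one_dvd M) q) = jq1 E M q :=
    H372.jE_congr (one_mul q) _ _
  rw [hcongr] at hk
  exact mem_nonunits_of_inW w hS hN hV hk

/-- Kronecker on `V∞` at the other end: `j_{Mq} - j_M^q ∈ 𝔪_V`. -/
theorem kron_fin_M (hS : Setting P E M q w) {V : ValuationSubring (FE E (M * q))}
    (hV : IsVinf P E (M * q) V) :
    jE E (M * q) (M * q) (dvd_refl _) - jE E (M * q) M (dvd_mul_right M q) ^ q ∈ V.nonunits := by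
  have hN := H372.level_ne_zero w hS
  exact mem_nonunits_of_inW w hS hN hV (H372.inW_jE_sub_pow w hS hV M (dvd_refl M))

/-- **`inc₁₂`**: `j_q - j^q` lies on `C∞` and not on `C₀`. -/
theorem inc₁₂_concrete (hS : Setting P E M q w) (V : ValuationSubring (FE E (M * q)))
    (W : FE E (M * q) ≃ₐ[E] FE E (M * q)) (hV : IsVinf P E (M * q) V)
    (hW : IsFricke E (M * q) W) :
    ∃ b' ∈ _root_.Fermat.Agent.S18.H138.chart (RE P E) ({xE E M q} : Set (FE E (M * q))),
      b' ∈ V.nonunits ∧ b' ∉ (V.comap (W : FE E (M * q) →+* FE E (M * q))).nonunits := by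
  have hN := H372.level_ne_zero w hS
  have hq := hS.q_prime
  refine ⟨jq1 E M q - j1 E M q ^ q,
    Subalgebra.sub_mem _ (jq1_mem_chart hq) (Subalgebra.pow_mem _ (j1_mem_chart hq) q),
    kron_fin₁ w hS hV, ?_⟩
  rw [mem_nonunits_comap]
  intro hmem
  have hWb : (W : FE E (M * q) →+* FE E (M * q)) (jq1 E M q - j1 E M q ^ q) =
      jE E (M * q) M (dvd_mul_right M q) - jE E (M * q) (M * q) (dvd_refl _) ^ q := by
    show W (jq1 E M q - j1 E M q ^ q) = _
    rw [map_sub, map_pow, H372.fricke_jE_one hW, H372.fricke_jE_q hW]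
  rw [hWb] at hmem
  have hk := kron_fin_M w hS hV
  have hjM : jE E (M * q) M (dvd_mul_right M q) ∈ V := H372.jE_mem w hS hN hV M _
  have hjMq : jE E (M * q) (M * q) (dvd_refl _) ∈ V := H372.jE_mem w hS hN hV (M * q) _
  have hpow := pow_sub_pow_mem_nonunits V hjMq (V.pow_mem hjM q) hk q
  have hsum : jE E (M * q) M (dvd_mul_right M q) -
      jE E (M * q) M (dvd_mul_right M q) ^ (q * q) ∈ V.nonunits := by
    have e : jE E (M * q) M (dvd_mul_right M q) -
        jE E (M * q) M (dvd_mul_right M q) ^ (q * q) =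
        (jE E (M * q) M (dvd_mul_right M q) - jE E (M * q) (M * q) (dvd_refl _) ^ q) +
        (jE E (M * q) (M * q) (dvd_refl _) ^ q -
          (jE E (M * q) M (dvd_mul_right M q) ^ q) ^ q) := by
      rw [pow_mul]; ring
    rw [e]
    exact nonunits_add_mem V hmem hpow
  have hqq : 2 ≤ q * q := by
    have := hq.two_le
    nlinarith
  exact jE_sub_pow_not_mem w hS hN hV M (dvd_mul_right M q) (q * q) hqq hsum

/-- **`inc₂₁`**: `j - j_q^q` lies on `C₀` and not on `C∞`. -/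
theorem inc₂₁_concrete (hS : Setting P E M q w) (V : ValuationSubring (FE E (M * q)))
    (W : FE E (M * q) ≃ₐ[E] FE E (M * q)) (hV : IsVinf P E (M * q) V)
    (hW : IsFricke E (M * q) W) :
    ∃ b' ∈ _root_.Fermat.Agent.S18.H138.chart (RE P E) ({xE E M q} : Set (FE E (M * q))),
      b' ∈ (V.comap (W : FE E (M * q) →+* FE E (M * q))).nonunits ∧ b' ∉ V.nonunits := by
  have hN := H372.level_ne_zero w hS
  have hq := hS.q_prime
  refine ⟨j1 E M q - jq1 E M q ^ q,
    Subalgebra.sub_mem _ (j1_mem_chart hq) (Subalgebra.pow_mem _ (jq1_mem_chart hq) q), ?_, ?_⟩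
  · rw [mem_nonunits_comap]
    have hWb : (W : FE E (M * q) →+* FE E (M * q)) (j1 E M q - jq1 E M q ^ q) =
        jE E (M * q) (M * q) (dvd_refl _) - jE E (M * q) M (dvd_mul_right M q) ^ q := by
      show W (j1 E M q - jq1 E M q ^ q) = _
      rw [map_sub, map_pow, H372.fricke_jE_one hW, H372.fricke_jE_q hW]
    rw [hWb]
    exact kron_fin_M w hS hV
  · intro hmem
    have hk := kron_fin₁ w hS hV
    have hj : j1 E M q ∈ V := H372.jE_mem w hS hN hV 1 _
    have hjq : jq1 E M q ∈ V := H372.jE_mem w hS hN hV q _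
    have hpow := pow_sub_pow_mem_nonunits V hjq (V.pow_mem hj q) hk q
    have hsum : j1 E M q - j1 E M q ^ (q * q) ∈ V.nonunits := by
      have e : j1 E M q - j1 E M q ^ (q * q) =
          (j1 E M q - jq1 E M q ^ q) + (jq1 E M q ^ q - (j1 E M q ^ q) ^ q) := by
        rw [pow_mul]; ring
      rw [e]
      exact nonunits_add_mem V hmem hpow
    have hqq : 2 ≤ q * q := by
      have := hq.two_le
      nlinarith
    exact jE_sub_pow_not_mem w hS hN hV 1 (one_dvd _) (q * q) hqq hsum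

end Inc

end Fermat.Agent.S36.H153

end
end
-- ===== PACK-END S36/H153/IncQ.lean

-- ===== PACK-BEGIN S36/H153/ChartInfSq.lean
section



/-!
# S36 engine, cell INCIDENCE (helper153) — the charts at infinity of levels `M q`, `M q q`
(A2 / MOD vocabulary): `α, β (chart R {x'⁻¹}) ⊆ chart R {x⁻¹}`, `x' = j j_q`, `x = j j_q j_{q²}`

* `alpha_algebraMap`, `beta_algebraMap` : `α`, `β` are `R_E`-linear;
* `modPoly_J1_Jq …`   : the four modular relations `Φ_q(j, j_q) = 0`, `Φ_q(j_q, j_{q²}) = 0`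
                        (both orders) at level `M q q`;
* `J_inv_mem_chart`   : `1/j, 1/j_q, 1/j_{q²} ∈ chart R {x⁻¹}` (valuative criterion);
* `J_mem_chart`       : `j, j_q, j_{q²} ∈ chart R {x}`;
* **`chart_αi`, `chart_βi`** : the hypotheses of `cusp_single_concrete`;
* `chart_αf`, `chart_βf` : the same for the finite charts (fields `chart_α`, `chart_β` of the
                        Spec, for the record).
-/

set_option autoImplicit false
set_option synthInstance.maxHeartbeats 400000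
set_option maxHeartbeats 1600000
set_option linter.unusedSectionVars false
set_option linter.style.haveILetI false

noncomputable section

namespace Fermat.Agent.S36.H153

open ModularCurve HahnSeries Polynomial
open Fermat.Agent.A2.Mod
open Fermat.Agent.S18.H138 (chart)

section Linear

variable (P : ValuationSubring Qb) (E : IntermediateField ℚ Qb) (M q : ℕ) [NeZero M] [NeZero q]

theorem alpha_algebraMap (r : RE P E) :
    αE E M q (algebraMap (RE P E) (FE E M) r) = algebraMap (RE P E) (FE E (M * q)) r := by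
  have h1 : algebraMap (RE P E) (FE E M) r = algebraMap E (FE E M) (r : E) := rfl
  have h2 : algebraMap (RE P E) (FE E (M * q)) r = algebraMap E (FE E (M * q)) (r : E) := rfl
  rw [h1, h2]
  exact (αE E M q).commutes _

theorem beta_algebraMap (r : RE P E) :
    βE E M q (algebraMap (RE P E) (FE E M) r) = algebraMap (RE P E) (FE E (M * q)) r := by
  have h1 : algebraMap (RE P E) (FE E M) r = algebraMap E (FE E M) (r : E) := rfl
  have h2 : algebraMap (RE P E) (FE E (M * q)) r = algebraMap E (FE E (M * q)) (r : E) := rfl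
  rw [h1, h2]
  exact (βE E M q).commutes _

end Linear

section Sq

variable (P : ValuationSubring Qb) (E : IntermediateField ℚ Qb) (M q : ℕ) [NeZero M] [NeZero q]
  [NeZero (M * q)]

/-- `j` at level `M q q`. -/
abbrev J1 : FE E (M * q * q) := jE E (M * q * q) 1 (one_dvd _)

/-- `j_q` at level `M q q`. -/
abbrev Jq : FE E (M * q * q) := jE E (M * q * q) q (dvd_mul_left q (M * q))

/-- `j_{q²}` at level `M q q`. -/
abbrev Jqq : FE E (M * q * q) :=
  jE E (M * q * q) (q * q) (mul_dvd_mul_right (dvd_mul_left q M) q)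

theorem xSq_eq : xSq E M q = J1 E M q * Jq E M q * Jqq E M q := rfl

theorem alpha_j1 : αE E (M * q) q (j1 E M q) = J1 E M q := H372.alpha_jE_one

theorem alpha_jq1 : αE E (M * q) q (jq1 E M q) = Jq E M q :=
  H372.alpha_jE q (dvd_mul_left q M)

theorem beta_j1 : βE E (M * q) q (j1 E M q) = Jq E M q := H372.beta_jE_one

theorem beta_jq1 : βE E (M * q) q (jq1 E M q) = Jqq E M q :=
  H372.beta_jE q (dvd_mul_left q M)

/-- transport of a modular relation along a ring homomorphism -/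
theorem eval₂_aeval_map {K L : Type*} [Field K] [Field L] (f : K →+* L)
    (Φ : Polynomial (Polynomial ℤ)) (a b : K)
    (h : Φ.eval₂ (Polynomial.aeval (R := ℤ) b).toRingHom a = 0) :
    Φ.eval₂ (Polynomial.aeval (R := ℤ) (f b)).toRingHom (f a) = 0 := by
  have h1 := Polynomial.hom_eval₂ Φ (Polynomial.aeval (R := ℤ) b).toRingHom f a
  rw [h, map_zero] at h1
  have hcomp : f.comp (Polynomial.aeval (R := ℤ) b).toRingHom =
      (Polynomial.aeval (R := ℤ) (f b)).toRingHom := by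
    apply Polynomial.ringHom_ext
    · intro n
      simp
    · simp
  rw [hcomp] at h1
  exact h1.symm

variable {q} in
/-- The four modular relations at level `M q q`. -/
theorem modPoly_rel (D : S28.ModPolyData q) :
    D.Φ.eval₂ (Polynomial.aeval (R := ℤ) (Jq E M q)).toRingHom (J1 E M q) = 0 ∧
    D.Φ.eval₂ (Polynomial.aeval (R := ℤ) (J1 E M q)).toRingHom (Jq E M q) = 0 ∧
    D.Φ.eval₂ (Polynomial.aeval (R := ℤ) (Jqq E M q)).toRingHom (Jq E M q) = 0 ∧
    D.Φ.eval₂ (Polynomial.aeval (R := ℤ) (Jq E M q)).toRingHom (Jqq E M q) = 0 := by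
  have hj : D.Φ.eval₂ (Polynomial.aeval (R := ℤ) (jq1 E M q)).toRingHom (j1 E M q) = 0 :=
    H873.eval₂_eq_zero_of_int E (M * q) D.Φ _ _ _ _ (H873.coe_jE_one E (M * q))
      (H873.coe_jE_int E (M * q) q (dvd_mul_left q M)) D.eval_j
  have hjq : D.Φ.eval₂ (Polynomial.aeval (R := ℤ) (j1 E M q)).toRingHom (jq1 E M q) = 0 :=
    H873.eval₂_eq_zero_of_int E (M * q) D.Φ _ _ _ _
      (H873.coe_jE_int E (M * q) q (dvd_mul_left q M)) (H873.coe_jE_one E (M * q)) D.eval_jp
  have a1 := eval₂_aeval_map (αE E (M * q) q : FE E (M * q) →+* FE E (M * q * q)) D.Φ _ _ hj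
  have a2 := eval₂_aeval_map (αE E (M * q) q : FE E (M * q) →+* FE E (M * q * q)) D.Φ _ _ hjq
  have b1 := eval₂_aeval_map (βE E (M * q) q : FE E (M * q) →+* FE E (M * q * q)) D.Φ _ _ hj
  have b2 := eval₂_aeval_map (βE E (M * q) q : FE E (M * q) →+* FE E (M * q * q)) D.Φ _ _ hjq
  have e1 : (αE E (M * q) q : FE E (M * q) →+* FE E (M * q * q)) (j1 E M q) = J1 E M q :=
    alpha_j1 E M q
  have e2 : (αE E (M * q) q : FE E (M * q) →+* FE E (M * q * q)) (jq1 E M q) = Jq E M q :=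
    alpha_jq1 E M q
  have e3 : (βE E (M * q) q : FE E (M * q) →+* FE E (M * q * q)) (j1 E M q) = Jq E M q :=
    beta_j1 E M q
  have e4 : (βE E (M * q) q : FE E (M * q) →+* FE E (M * q * q)) (jq1 E M q) = Jqq E M q :=
    beta_jq1 E M q
  rw [e1, e2] at a1 a2
  rw [e3, e4] at b1 b2
  exact ⟨a1, a2, b1, b2⟩

/-- Valuative form: a valuation subring containing `x⁻¹` contains `1/j`, `1/j_q`, `1/j_{q²}`. -/
theorem J_inv_mem_of_inv_x_mem (hq : q.Prime) (V : ValuationSubring (FE E (M * q * q)))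
    (hx : (xSq E M q)⁻¹ ∈ V) :
    (J1 E M q)⁻¹ ∈ V ∧ (Jq E M q)⁻¹ ∈ V ∧ (Jqq E M q)⁻¹ ∈ V := by
  obtain ⟨D⟩ := S28.H807.nonempty_modPolyData q hq
  obtain ⟨r1, r2, r3, r4⟩ := modPoly_rel E M D
  have h1 : J1 E M q ≠ 0 := H873.jE_ne_zero E (M * q * q) 1 _
  have h2 : Jq E M q ≠ 0 := H873.jE_ne_zero E (M * q * q) q _
  have h3 : Jqq E M q ≠ 0 := H873.jE_ne_zero E (M * q * q) (q * q) _
  have up : ∀ {a b : FE E (M * q * q)},
      D.Φ.eval₂ (Polynomial.aeval (R := ℤ) b).toRingHom a = 0 → b ∈ V → a ∈ V :=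
    fun {a b} h hb => H873.mem_valuationSubring_of_monic_eval D.Φ D.monic h V hb
  refine ⟨?_, ?_, ?_⟩
  · by_contra hcon
    have hJ1 : J1 E M q ∈ V := by
      have := (V.mem_or_inv_mem (J1 E M q)⁻¹).resolve_left hcon
      rwa [inv_inv] at this
    have hJq : Jq E M q ∈ V := up r2 hJ1
    have hJqq : Jqq E M q ∈ V := up r4 hJq
    apply hcon
    have e : (J1 E M q)⁻¹ = (xSq E M q)⁻¹ * (Jq E M q * Jqq E M q) := by
      rw [xSq_eq]; field_simp
    rw [e]
    exact V.mul_mem _ _ hx (V.mul_mem _ _ hJq hJqq)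
  · by_contra hcon
    have hJq : Jq E M q ∈ V := by
      have := (V.mem_or_inv_mem (Jq E M q)⁻¹).resolve_left hcon
      rwa [inv_inv] at this
    have hJ1 : J1 E M q ∈ V := up r1 hJq
    have hJqq : Jqq E M q ∈ V := up r4 hJq
    apply hcon
    have e : (Jq E M q)⁻¹ = (xSq E M q)⁻¹ * (J1 E M q * Jqq E M q) := by
      rw [xSq_eq]; field_simp
    rw [e]
    exact V.mul_mem _ _ hx (V.mul_mem _ _ hJ1 hJqq)
  · by_contra hcon
    have hJqq : Jqq E M q ∈ V := by
      have := (V.mem_or_inv_mem (Jqq E M q)⁻¹).resolve_left hcon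
      rwa [inv_inv] at this
    have hJq : Jq E M q ∈ V := up r3 hJqq
    have hJ1 : J1 E M q ∈ V := up r1 hJq
    apply hcon
    have e : (Jqq E M q)⁻¹ = (xSq E M q)⁻¹ * (J1 E M q * Jq E M q) := by
      rw [xSq_eq]; field_simp
    rw [e]
    exact V.mul_mem _ _ hx (V.mul_mem _ _ hJ1 hJq)

/-- Valuative form, finite chart: a valuation subring containing `x` contains `j`, `j_q`,
`j_{q²}`. -/
theorem J_mem_of_x_mem (hq : q.Prime) (V : ValuationSubring (FE E (M * q * q)))
    (hx : xSq E M q ∈ V) : J1 E M q ∈ V ∧ Jq E M q ∈ V ∧ Jqq E M q ∈ V := by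
  obtain ⟨D⟩ := S28.H807.nonempty_modPolyData q hq
  obtain ⟨r1, r2, r3, r4⟩ := modPoly_rel E M D
  have h1 : J1 E M q ≠ 0 := H873.jE_ne_zero E (M * q * q) 1 _
  have h2 : Jq E M q ≠ 0 := H873.jE_ne_zero E (M * q * q) q _
  have h3 : Jqq E M q ≠ 0 := H873.jE_ne_zero E (M * q * q) (q * q) _
  have up : ∀ {a b : FE E (M * q * q)},
      D.Φ.eval₂ (Polynomial.aeval (R := ℤ) b).toRingHom a = 0 → b ∈ V → a ∈ V :=
    fun {a b} h hb => H873.mem_valuationSubring_of_monic_eval D.Φ D.monic h V hb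
  -- if one of the three is not in `V`, its inverse is, and then all inverses are
  have key : ∀ {a b : FE E (M * q * q)}, a ≠ 0 → b ≠ 0 →
      D.Φ.eval₂ (Polynomial.aeval (R := ℤ) b).toRingHom a = 0 →
      D.Φ.eval₂ (Polynomial.aeval (R := ℤ) a).toRingHom b = 0 → a⁻¹ ∈ V → a ∉ V → b⁻¹ ∈ V ∧ b ∉ V := by
    intro a b ha hb hab hba hainv haV
    have hbV : b ∉ V := fun hbV => haV (up hab hbV)
    exact ⟨(V.mem_or_inv_mem b).resolve_left hbV, hbV⟩
  by_contra hcon
  have hsome : J1 E M q ∉ V ∨ Jq E M q ∉ V ∨ Jqq E M q ∉ V := by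
    by_contra hall
    push Not at hall
    exact hcon ⟨hall.1, hall.2.1, hall.2.2⟩
  have hall : ((J1 E M q)⁻¹ ∈ V ∧ J1 E M q ∉ V) ∧ ((Jq E M q)⁻¹ ∈ V ∧ Jq E M q ∉ V) ∧
      ((Jqq E M q)⁻¹ ∈ V ∧ Jqq E M q ∉ V) := by
    rcases hsome with h | h | h
    · have a1 : (J1 E M q)⁻¹ ∈ V ∧ J1 E M q ∉ V := ⟨(V.mem_or_inv_mem _).resolve_left h, h⟩
      have a2 := key h1 h2 r1 r2 a1.1 a1.2
      have a3 := key h2 h3 r3 r4 a2.1 a2.2
      exact ⟨a1, a2, a3⟩
    · have a2 : (Jq E M q)⁻¹ ∈ V ∧ Jq E M q ∉ V := ⟨(V.mem_or_inv_mem _).resolve_left h, h⟩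
      have a1 := key h2 h1 r2 r1 a2.1 a2.2
      have a3 := key h2 h3 r3 r4 a2.1 a2.2
      exact ⟨a1, a2, a3⟩
    · have a3 : (Jqq E M q)⁻¹ ∈ V ∧ Jqq E M q ∉ V := ⟨(V.mem_or_inv_mem _).resolve_left h, h⟩
      have a2 := key h3 h2 r4 r3 a3.1 a3.2
      have a1 := key h2 h1 r2 r1 a2.1 a2.2
      exact ⟨a1, a2, a3⟩
  obtain ⟨⟨i1, n1⟩, ⟨i2, -⟩, ⟨i3, -⟩⟩ := hall
  apply n1
  have e : J1 E M q = xSq E M q * ((Jq E M q)⁻¹ * (Jqq E M q)⁻¹) := by
    rw [xSq_eq]; field_simp
  rw [e]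
  exact V.mul_mem _ _ hx (V.mul_mem _ _ i2 i3)

theorem mem_chart_of_forall (y a : FE E (M * q * q))
    (h : ∀ V : ValuationSubring (FE E (M * q * q)), y ∈ V → a ∈ V) :
    a ∈ _root_.Fermat.Agent.S18.H138.chart (RE P E) ({y} : Set (FE E (M * q * q))) := by
  have h1 : a ∈ Fermat.Agent.A2.Mod.chart P E (M * q * q) y :=
    H873.isIntegralElem_of_isIntegral_closure _
      (H873.isIntegral_closure_of_forall_valuationSubring h)
  rw [H372.mem_chart_iff] at h1
  exact h1

theorem J_inv_mem_chart (hq : q.Prime) :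
    (J1 E M q)⁻¹ ∈ _root_.Fermat.Agent.S18.H138.chart (RE P E) ({(xSq E M q)⁻¹} : Set (FE E (M * q * q))) ∧
    (Jq E M q)⁻¹ ∈ _root_.Fermat.Agent.S18.H138.chart (RE P E) ({(xSq E M q)⁻¹} : Set (FE E (M * q * q))) ∧
    (Jqq E M q)⁻¹ ∈ _root_.Fermat.Agent.S18.H138.chart (RE P E) ({(xSq E M q)⁻¹} : Set (FE E (M * q * q))) :=
  ⟨mem_chart_of_forall P E M q _ _ fun V hV => (J_inv_mem_of_inv_x_mem E M q hq V hV).1,
    mem_chart_of_forall P E M q _ _ fun V hV => (J_inv_mem_of_inv_x_mem E M q hq V hV).2.1,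
    mem_chart_of_forall P E M q _ _ fun V hV => (J_inv_mem_of_inv_x_mem E M q hq V hV).2.2⟩

theorem J_mem_chart (hq : q.Prime) :
    J1 E M q ∈ _root_.Fermat.Agent.S18.H138.chart (RE P E) ({xSq E M q} : Set (FE E (M * q * q))) ∧
    Jq E M q ∈ _root_.Fermat.Agent.S18.H138.chart (RE P E) ({xSq E M q} : Set (FE E (M * q * q))) ∧
    Jqq E M q ∈ _root_.Fermat.Agent.S18.H138.chart (RE P E) ({xSq E M q} : Set (FE E (M * q * q))) :=
  ⟨mem_chart_of_forall P E M q _ _ fun V hV => (J_mem_of_x_mem E M q hq V hV).1,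
    mem_chart_of_forall P E M q _ _ fun V hV => (J_mem_of_x_mem E M q hq V hV).2.1,
    mem_chart_of_forall P E M q _ _ fun V hV => (J_mem_of_x_mem E M q hq V hV).2.2⟩

/-- **`α` maps the chart at infinity of level `M q` into the chart at infinity of level
`M q q`.** -/
theorem chart_αi (hq : q.Prime) :
    ∀ b ∈ _root_.Fermat.Agent.S18.H138.chart (RE P E) ({(xE E M q)⁻¹} : Set (FE E (M * q))),
      αE E (M * q) q b ∈ _root_.Fermat.Agent.S18.H138.chart (RE P E) ({(xSq E M q)⁻¹} : Set (FE E (M * q * q))) := by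
  obtain ⟨h1, h2, -⟩ := J_inv_mem_chart P E M q hq
  refine map_mem_chart_singleton (αE E (M * q) q : FE E (M * q) →+* FE E (M * q * q))
    (alpha_algebraMap P E (M * q) q) _ _ ?_
  show αE E (M * q) q (xE E M q)⁻¹ ∈ _
  rw [← uE_mul_uqE, map_mul, alpha_uE, alpha_uqE]
  exact Subalgebra.mul_mem _ h1 h2

/-- **`β` maps the chart at infinity of level `M q` into the chart at infinity of level
`M q q`.** -/
theorem chart_βi (hq : q.Prime) :
    ∀ b ∈ _root_.Fermat.Agent.S18.H138.chart (RE P E) ({(xE E M q)⁻¹} : Set (FE E (M * q))),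
      βE E (M * q) q b ∈ _root_.Fermat.Agent.S18.H138.chart (RE P E) ({(xSq E M q)⁻¹} : Set (FE E (M * q * q))) := by
  obtain ⟨-, h2, h3⟩ := J_inv_mem_chart P E M q hq
  refine map_mem_chart_singleton (βE E (M * q) q : FE E (M * q) →+* FE E (M * q * q))
    (beta_algebraMap P E (M * q) q) _ _ ?_
  show βE E (M * q) q (xE E M q)⁻¹ ∈ _
  rw [← uE_mul_uqE, map_mul, beta_uE, beta_uqE]
  exact Subalgebra.mul_mem _ h2 h3

/-- `α` maps the finite chart of level `M q` into the finite chart of level `M q q`. -/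
theorem chart_αf (hq : q.Prime) :
    ∀ b ∈ _root_.Fermat.Agent.S18.H138.chart (RE P E) ({xE E M q} : Set (FE E (M * q))),
      αE E (M * q) q b ∈ _root_.Fermat.Agent.S18.H138.chart (RE P E) ({xSq E M q} : Set (FE E (M * q * q))) := by
  obtain ⟨h1, h2, -⟩ := J_mem_chart P E M q hq
  refine map_mem_chart_singleton (αE E (M * q) q : FE E (M * q) →+* FE E (M * q * q))
    (alpha_algebraMap P E (M * q) q) _ _ ?_
  show αE E (M * q) q (xE E M q) ∈ _
  rw [xE_eq, map_mul, alpha_j1, alpha_jq1]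
  exact Subalgebra.mul_mem _ h1 h2

/-- `β` maps the finite chart of level `M q` into the finite chart of level `M q q`. -/
theorem chart_βf (hq : q.Prime) :
    ∀ b ∈ _root_.Fermat.Agent.S18.H138.chart (RE P E) ({xE E M q} : Set (FE E (M * q))),
      βE E (M * q) q b ∈ _root_.Fermat.Agent.S18.H138.chart (RE P E) ({xSq E M q} : Set (FE E (M * q * q))) := by
  obtain ⟨-, h2, h3⟩ := J_mem_chart P E M q hq
  refine map_mem_chart_singleton (βE E (M * q) q : FE E (M * q) →+* FE E (M * q * q))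
    (beta_algebraMap P E (M * q) q) _ _ ?_
  show βE E (M * q) q (xE E M q) ∈ _
  rw [xE_eq, map_mul, beta_j1, beta_jq1]
  exact Subalgebra.mul_mem _ h2 h3

end Sq

end Fermat.Agent.S36.H153

end
end
-- ===== PACK-END S36/H153/ChartInfSq.lean

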