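import Fermat.Agent.Pack.S36.E18L2
import Fermat.Agent.Pack.S36.E16L1
import Fermat.Agent.Pack.S36.E14L1
import Fermat.Agent.Pack.S36.E16L3
import Fermat.Agent.Pack.S36.E15L1
import Fermat.Agent.Pack.S36.E16L2
import Fermat.Agent.Pack.S36.E17L3
import Fermat.Agent.Pack.S36.E4L0
import Fermat.Agent.Pack.S36.E18L1
import Fermat.Agent.Pack.S36.E11L1
import Fermat.Agent.Pack.S36.E2L0
import Fermat.Agent.Pack.S36.E6L1
import Fermat.Agent.Pack.S36.E2L2
import Fermat.Agent.Pack.S36.E13L2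
import Fermat.Agent.Pack.S36.E11L3
import Fermat.Agent.Pack.S36.E14L0
import Fermat.Agent.Pack.S36.E18L0
import Fermat.Agent.Pack.S36.E18L3
import Fermat.Agent.Pack.S36.E12L2
import Fermat.Agent.Pack.S36.E9L0
import Fermat.Agent.Pack.S36.E17L1
import Fermat.Agent.Pack.S36.E9L3
import Fermat.Agent.Pack.S36.E13L3
import Fermat.Agent.Pack.S36.E15L0
import Fermat.Agent.Pack.S36.E15L2
import Fermat.Agent.Pack.S36.E4L3

-- ===== PACK-BEGIN S29/H282/DegK.lean
section


/-!
# S29 / M4b-K2 (helper282) — the degree of the function field over `K`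

For every field `K` with an embedding `ι : K →+* ℂ`:
`[FFK K N : K(j)] = [SL₂(ℤ) : Γ₀(N)]`.
Port of `Fermat/Agent/S24/Deg/H457_Main.lean` (upper bound) and `H997Core` (lower bound).
-/

set_option autoImplicit false

noncomputable section

open Polynomial ModularCurve IntermediateField

namespace Fermat.Agent.S29.H282

open Fermat.Agent.S24 Fermat.Agent.S24.H997 Fermat.Agent.S24.Deg457

variable {K : Type*} [Field K] [Algebra ℚ K] (ι : K →+* ℂ)
variable (N : ℕ) [NeZero N]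

theorem coe_jFK : ((jFK K N : FFK K N) : LaurentSeries K) = JK K := rfl

include ι in
/-- **Degree bound**: `[FFK K N : K(j)] ≤ [SL₂(ℤ) : Γ₀(N)]`. -/
theorem finiteDimensional_and_finrank_leK :
    FiniteDimensional ↥(IntermediateField.adjoin K {jFK K N}) (FFK K N) ∧
      Module.finrank ↥(IntermediateField.adjoin K {jFK K N}) (FFK K N) ≤ Nat.card (XX N) := by
  haveI : CharZero K := algebraRat.charZero K
  refine finiteDimensional_and_finrank_le_of_forall_natDegree_minpoly_le _ fun x => ?_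
  obtain ⟨Q, hQ0, hQn, hQ⟩ := algDeg_of_mem_field ι (hyp_complex_card N) x.2
  have hinc : Function.Injective (algebraMap (FFK K N) (LaurentSeries K)) :=
    (algebraMap (FFK K N) (LaurentSeries K)).injective
  refine isIntegral_and_natDegree_le_of_relation (K := K)
    (AdjoinSimple.gen K (jFK K N)) ?_ x Q hQ0 _ hQn ?_
  · intro t ht h0
    apply aeval_JK_ne_zero K ht
    have h1 := congrArg (algebraMap ↥(IntermediateField.adjoin K {jFK K N}) (FFK K N)) h0
    rw [← aeval_algebraMap_apply, map_zero, AdjoinSimple.algebraMap_gen] at h1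
    have h2 := congrArg (algebraMap (FFK K N) (LaurentSeries K)) h1
    rw [← aeval_algebraMap_apply, map_zero] at h2
    exact h2
  · apply hinc
    rw [map_zero, Polynomial.hom_eval₂, AdjoinSimple.algebraMap_gen]
    have hcomp : (algebraMap (FFK K N) (LaurentSeries K)).comp
        ((aeval (jFK K N) : K[X] →ₐ[K] FFK K N).toRingHom) = evJ (JK K) := by
      refine Polynomial.ringHom_ext ?_ ?_
      · intro c
        simp [evJ, ← IsScalarTower.algebraMap_apply]
      · simp [evJ]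
        rfl
    rw [hcomp]
    exact hQ

include ι in
theorem finiteDimensional_adjoin_jFK :
    FiniteDimensional ↥(IntermediateField.adjoin K {jFK K N}) (FFK K N) :=
  (finiteDimensional_and_finrank_leK ι N).1

include ι in
/-- **The degree**: `[FFK K N : K(j)] = [SL₂(ℤ) : Γ₀(N)]`. -/
theorem finrank_adjoin_jFK :
    Module.finrank ↥(IntermediateField.adjoin K {jFK K N}) (FFK K N) = Nat.card (XX N) := by
  haveI := finiteDimensional_adjoin_jFK ι N
  exact le_antisymm (finiteDimensional_and_finrank_leK ι N).2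
    (card_le_finrankK ι (analyticCore N))

end Fermat.Agent.S29.H282

end
end
-- ===== PACK-END S29/H282/DegK.lean

-- ===== PACK-BEGIN S18/Mod/H216/NodeMod.lean
section








/-!
# S18 / MOD-ASM (helper216): **node_mod** — `Mod.GoodModelStatement M ℓ A`, UNCONDITIONAL

`node_mod (M) [NeZero M] {ℓ} [Fact ℓ.Prime] (hℓM : ¬ ℓ ∣ M) (A) (hA : A.LiesOverPrime ℓ) :
  Mod.GoodModelStatement M ℓ A` — exact type of `Integ.node_mod` (Skeleton v4c).

Wiring of the six parts at the concrete objects of `Mod/Defs.lean`: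

| part | source |
|---|---|
| G-R   | `H456.IsUnif`, `H456.field_residue_perfect`, `H602.isDiscreteValuationRing_RE` |
| G-FLD | `H456.field_*`, `H24.field_finite_j` |
| G-V   | `H216.partVStatement_j` (coordinate `j`), `H24.gv_fields_of_isCoordinate` (`t₂, t₃`) |
| G-QEP | `H216.partQepStatement_j` |
| G-SEP | `H264.separable_jOm` |
| G-BR  | `H558.br_of_isCoordinate` |
| M3-T  | `H107.goodModel_of_isCoordinate107` (transfer `j ↦ t₂, t₃` for `ℓ = 3, 2`) |
-/

set_option autoImplicit false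
set_option linter.unusedSectionVars false

noncomputable section

namespace Fermat.Agent.S18.Mod.H216

open ModularCurve AlgebraicCurve HahnSeries Fermat.Agent.S18 Fermat.Agent.S18.Mod
open Fermat.Agent.S18.Alg

variable (M : ℕ) [NeZero M] {ℓ : ℕ} [Fact ℓ.Prime] (A : ValuationSubring Qb)

/-- **G-R** at the concrete objects. -/
theorem partRStatement (hA : A.LiesOverPrime ℓ) : PartRStatement M A := by
  intro E hE
  have := hE
  have hℓ : ℓ.Prime := Fact.out
  have : IsDiscreteValuationRing (H602.RE A E) :=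
    H602.isDiscreteValuationRing_RE A E hℓ.ne_zero hA
  obtain ⟨w, hw⟩ := H456.exists_isUnif M A E
  exact ⟨w, H456.field_R_le M A E, H456.field_R_total M A E, hw.mem, hw.ne_zero, hw.inv_not_mem,
    hw.gen, hw.discrete, H456.field_residue_perfect A E M hℓ hA hw⟩

/-- **G-FLD** for the coordinate `j`. -/
theorem partFldStatement_j : PartFldStatement M (jOm M) := by
  intro E _
  exact ⟨H456.field_E_le_L M E, H456.field_E_le_F M E, H456.field_L_algebraic M E,
    H456.field_L_algClosed M, H456.field_E_closed_in_F M E, H456.field_compositum M E,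
    H456.mem_Fc_of_hasIntExp M E (H456.hasIntExp_jOm M),
    H456.transcendental_of_hasIntExp M (H456.hasIntExp_jOm M), H24.field_finite_j M E⟩

/-- **G-SEP** for the coordinate `j`. -/
theorem partSepStatement_j (hℓM : ¬ ℓ ∣ M) (hA : A.LiesOverPrime ℓ) :
    PartSepStatement M A (jOm M) :=
  fun E _ w hw => ⟨H264.separable_jOm M hℓM A hA E (Vc M A E) (coe_Vc M A E) w hw.w_mem
    hw.w_ne_zero hw.w_gen⟩

/-- **G-BR** for every admissible coordinate. -/
theorem partBrStatement_of_isCoordinate (hA : A.LiesOverPrime ℓ) (x : Om M) (S : Finset (Om M))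
    (hx : IsCoordinate M ℓ x S) : PartBrStatement M A x S := by
  intro E _
  obtain ⟨h1, h2, h3, h4⟩ := H558.br_of_isCoordinate M A hA E x S hx
  exact ⟨h1, h2, h3, h4⟩

/-- The `j`-model without its branch fields, for every `ℓ ∤ M` (input of the transfer M3-T). -/
theorem baseModel_j (hℓM : ¬ ℓ ∣ M) (hA : A.LiesOverPrime ℓ) (E : IntermediateField ℚ Qb)
    (hE : FiniteDimensional ℚ E) {w : Om M} (hw : PartR (Ec M E) (Rc M A E) w) :
    H107.BaseModel107 (Lc M) (Ec M E) (Fc M E) (Rc M A E) (Vc M A E) w (jOm M) := by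
  have hF := partFldStatement_j M E hE
  have hV := partVStatement_j A hℓM hA E hE w hw
  have hQ := partQepStatement_j A hℓM hA E hE w hw
  have hS := partSepStatement_j M A hℓM hA E hE w hw
  exact
    { charZero := charZero_Om M
      R_le := hw.R_le
      R_total := hw.R_total
      w_mem := hw.w_mem
      w_ne_zero := hw.w_ne_zero
      w_inv_not_mem := hw.w_inv_not_mem
      w_gen := hw.w_gen
      w_discrete := hw.w_discrete
      residue_perfect := hw.residue_perfect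
      E_le_L := hF.E_le_L
      E_le_F := hF.E_le_F
      L_algebraic := hF.L_algebraic
      L_algClosed := hF.L_algClosed
      E_closed_in_F := hF.E_closed_in_F
      compositum := hF.compositum
      x_mem := hF.x_mem
      x_transcendental := hF.x_transcendental
      finite := hF.finite
      V_le := hV.V_le
      V_total := hV.V_total
      R_le_V := hV.R_le_V
      w_inv_not_mem_V := hV.w_inv_not_mem_V
      V_gen := hV.V_gen
      x_mem_V := hV.x_mem_V
      gauss := hV.gauss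
      qep_fin := hQ.qep_fin
      qep_inf := hQ.qep_inf
      separable := hS.separable }

/-- **M3-T**: for `ℓ ∈ {2, 3}` every admissible coordinate is good. -/
theorem goodAt_of_lt_five (hℓM : ¬ ℓ ∣ M) (hA : A.LiesOverPrime ℓ) (h5 : ¬ 5 ≤ ℓ) (x : Om M)
    (S : Finset (Om M)) (hx : IsCoordinate M ℓ x S) : GoodAt M A x S := by
  intro E hE
  obtain ⟨w, hw⟩ := partRStatement M A hA E hE
  obtain ⟨-, -, -, hxV, -, -, hgauss⟩ :=
    H24.gv_fields_of_isCoordinate (M := M) (A := A) (E := E) (Vc M A E) (coe_Vc M A E)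
      hw.w_mem hw.w_ne_zero hw.w_inv_not_mem hw.w_gen hw.w_discrete hx
  exact ⟨Vc M A E, w, coe_Vc M A E,
    H107.goodModel_of_isCoordinate107 M A hA h5 hx E (baseModel_j M A hℓM hA E hE hw)
      (H456.field_x_mem M E hx) hxV hgauss⟩

/-- **NODE MOD**: the concrete objects at level `M` form a good model
(exact type of `Integ.node_mod`, Skeleton v4c). -/
theorem node_mod (M : ℕ) [NeZero M] {ℓ : ℕ} [Fact ℓ.Prime] (hℓM : ¬ ℓ ∣ M)
    (A : ValuationSubring Qb) (hA : A.LiesOverPrime ℓ) : Mod.GoodModelStatement M ℓ A :=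
  goodModelStatement_of_parts M ℓ A
    (fun _ => partRStatement M A hA)
    (fun _ => partFldStatement_j M)
    (fun _ => partVStatement_j A hℓM hA)
    (fun _ => partQepStatement_j A hℓM hA)
    (fun _ => partSepStatement_j M A hℓM hA)
    (fun h5 S hS => partBrStatement_of_isCoordinate M A hA (jOm M) S (Or.inl ⟨h5, rfl, hS⟩))
    (fun h5 x S hx => goodAt_of_lt_five M A hℓM hA h5 x S hx)

end Fermat.Agent.S18.Mod.H216

end
end
-- ===== PACK-END S18/Mod/H216/NodeMod.lean

-- ===== PACK-BEGIN S29/M1.lean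
section





/-!
# S29, layer M, piece `M1` (helper801): exact `SkeletonM` statement

`heckeOperatorsCommuteBar : HeckeOperatorsCommuteBar N` — the Prelude Hecke operators
`heckeOperatorBar N ℓ` on `J₀(N)(ℚ̄) = Pic⁰(ℚ̄(X₀(N)))` commute.  This is the hypothesis `hcomm`
of the frozen statement S37.

Purely algebraic proof (no places ↔ points dictionary): both `T_ℓ T_ℓ'` and `T_ℓ' T_ℓ` are the
correspondence through the common cover `F_{Nℓℓ'}`
(`H801.pic0_correspondence_comm`, on top of helper818's base-change lemma), with inputs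
* `HI` at all levels (helper812 / helper864 / helper460),
* local generators from weak approximation (shared library RR, helper623),
* norm compatibility of the mixed square from `F_{Nℓℓ'} = F_{Nℓ} ⊔ V_ℓ(F_{Nℓ'})` and
  `[F_{Nℓℓ'} : F_{Nℓ}] = [F_{Nℓ'} : F_N]` (shared library X0DEG, helper760).
-/

set_option autoImplicit false
set_option linter.style.haveILetI false

noncomputable section

namespace Fermat.Agent.S29

open ModularCurve AlgebraicCurve

/-- All inputs of the commutation theorem hold over `ℚ̄`. -/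
theorem H801.m1Inputs_bar : H801.M1Inputs (AlgebraicClosure ℚ) where
  hi := fun M ℓ _ _ hℓ => heckeInputsAlong_bar M ℓ hℓ
  lg := fun M ℓ _ _ hℓ hα => by
    obtain ⟨_, _, hP, _, _, _⟩ := heckeInputsAlong_bar M ℓ hℓ
    haveI := hP
    exact H801.hasLocalGenerators_of_hasPrincipalDivisors _ hα
  nc := fun N ℓ ℓ' _ _ _ hℓ hℓ' hne => H801.normCompat_bar N ℓ ℓ' hℓ hℓ' hne

variable (N : ℕ) [NeZero N]

/-- PIECE `M1`: Hecke operators on `J₀(N)(ℚ̄)` commute. -/
theorem heckeOperatorsCommuteBar : HeckeOperatorsCommuteBar N :=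
  H801.heckeOperatorsCommuteBar_of_inputs H801.m1Inputs_bar N

end Fermat.Agent.S29

end

end
-- ===== PACK-END S29/M1.lean

-- ===== PACK-BEGIN S35/H252/XForms.lean
section
/-
S35, piece (X-forms) (helper252): `XFormsStatement`, UNCONDITIONAL.

For a newform `g` of level `M`, a prime `q ∣ M` and a finite set `S` containing the primes of `M`
there is a polynomial `t` in the Hecke operators `T_ℓ`, `ℓ ∉ S`, which vanishes on
`S₂(Γ₀(M / q))` and with `t(a_ℓ(g)) ≠ 0`.

Proof by contradiction: otherwise the kernel of the action on `S₂(Γ₀(M / q))` is contained in the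
kernel of the eigencharacter `ψ` of `g`; the eigenvector lemma (`S49.exists_eigenvector_ker_le'`)
gives an eigenvector with a character `χ`, `ker χ ≤ ker ψ`; by integrality (S22) the kernels are
equal, hence `ψ = σ ∘ χ` for a ring automorphism `σ` of `ℂ` (`exists_ringEquiv_of_ker_eq`); the
`σ`-conjugate (`S23.Cap.galois_stable`) of the normalised eigenform attached to the eigenvector
(`Lib.Newform.H863.exists_normalizedEigenform_of_eigenvector`) is a normalised eigenform of level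
`M / q` with the eigenvalues of `g` away from `S`; this contradicts
`Lib.Newform.H958.X.crossLevel` (`M ∣ M / q`).
-/








set_option autoImplicit false
set_option linter.style.haveILetI false

open CuspForm CongruenceSubgroup ModularFormClass Polynomial

namespace Fermat.Agent.S35.H252

/-- The conjugate of a normalised eigenform by a ring endomorphism of `ℂ`. -/
theorem exists_conj_eigenform {N : ℕ} [NeZero N] (σ : ℂ →+* ℂ) {f : CuspForm (Gamma0 N) 2}
    (hf : f.IsNormalizedEigenform) :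
    ∃ f' : CuspForm (Gamma0 N) 2, f'.IsNormalizedEigenform ∧
      ∀ n : ℕ, qCoeff f' n = σ (qCoeff f n) := by
  obtain ⟨g, ⟨g', rfl⟩, hg⟩ := Fermat.Agent.S23.Cap.galois_stable N 2 σ f ⟨f, rfl⟩
  have hq : ∀ n : ℕ, qCoeff g' n = σ (qCoeff f n) := by
    intro n
    show (Fermat.Agent.S23.Cap.qx (g' : UpperHalfPlane → ℂ)).coeff n
      = σ ((Fermat.Agent.S23.Cap.qx (f : UpperHalfPlane → ℂ)).coeff n)
    rw [hg, PowerSeries.coeff_map]
  refine ⟨g', ⟨?_, ?_, ?_, ?_⟩, hq⟩
  · rw [hq, hf.qCoeff_one, map_one]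
  · intro m n hmn
    rw [hq, hq, hq, hf.qCoeff_mul_of_coprime m n hmn, map_mul]
  · intro p r hp hpN
    rw [hq, hq, hq, hq, hf.qCoeff_prime_pow_of_not_dvd p r hp hpN, map_sub, map_mul, map_mul,
      map_natCast]
  · intro p r hp hpN
    rw [hq, hq, hq, hf.qCoeff_prime_pow_of_dvd p r hp hpN, map_mul]

/-- **(X-forms).** -/
theorem xForms : XFormsStatement := by
  classical
  intro M _ g hg q _ hq hqM S hMS
  by_contra hcon
  push Not at hcon
  -- the good primes
  have hqdvd : M / q ∣ M := Nat.div_dvd_of_dvd hqM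
  have hIN : ∀ i : {ℓ : Nat.Primes // (ℓ : ℕ) ∉ S}, ¬ ((i : Nat.Primes) : ℕ) ∣ M / q :=
    fun i hdvd => i.2 (hMS _ i.1.2 (hdvd.trans hqdvd))
  -- the two characters
  let ρ : MvPolynomial {ℓ : Nat.Primes // (ℓ : ℕ) ∉ S} ℤ →+*
      Module.End ℂ (CuspForm (Gamma0 (M / q)) 2) :=
    ((heckeAlgebra (M / q) 2 ∅).val.toRingHom).comp
      ((heckeEvalForms (M / q) 2).comp (MvPolynomial.rename Subtype.val).toRingHom)
  let ψ : MvPolynomial {ℓ : Nat.Primes // (ℓ : ℕ) ∉ S} ℤ →+* ℂ :=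
    (MvPolynomial.aeval (fun ℓ : {ℓ : Nat.Primes // (ℓ : ℕ) ∉ S} =>
      qCoeff g ((ℓ : Nat.Primes) : ℕ))).toRingHom
  have hρψ : RingHom.ker ρ ≤ RingHom.ker ψ := by
    intro t ht
    rw [RingHom.mem_ker] at ht ⊢
    refine hcon t fun f => ?_
    have : ρ t f = 0 := by rw [ht, LinearMap.zero_apply]
    exact this
  haveI : FiniteDimensional ℂ (CuspForm (Gamma0 (M / q)) 2) :=
    Fermat.Agent.Lib.Newform.H863.finiteDimensional_cuspForm (M / q)
  haveI : (RingHom.ker ψ).IsPrime := RingHom.ker_isPrime ψ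
  obtain ⟨h, χ, hh, hχ, hker⟩ := Fermat.Agent.S49.exists_eigenvector_ker_le'
    (K := ℂ) (V := CuspForm (Gamma0 (M / q)) 2) ρ (RingHom.ker ψ) hρψ
  -- `ker ρ ≤ ker χ`
  have hρχ : RingHom.ker ρ ≤ RingHom.ker χ := by
    intro t ht
    rw [RingHom.mem_ker] at ht ⊢
    have h1 := hχ t
    rw [ht, LinearMap.zero_apply] at h1
    rcases smul_eq_zero.mp h1.symm with h2 | h2
    · exact h2
    · exact absurd h2 hh
  -- integrality
  haveI : Module.Finite ℤ (heckeAlgebra (M / q) 2 (∅ : Set ℕ)) :=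
    Fermat.Agent.S22.result (M / q) 2 ∅
  haveI : Algebra.IsIntegral ℤ (heckeAlgebra (M / q) 2 (∅ : Set ℕ)) := inferInstance
  have hint : ∀ s : MvPolynomial {ℓ : Nat.Primes // (ℓ : ℕ) ∉ S} ℤ, ∃ P : ℤ[X], P.Monic ∧
      eval₂ (algebraMap ℤ (MvPolynomial {ℓ : Nat.Primes // (ℓ : ℕ) ∉ S} ℤ)) s P
        ∈ RingHom.ker χ := by
    intro s
    obtain ⟨P, hPm, hP⟩ := Algebra.IsIntegral.isIntegral (R := ℤ)
      (heckeEvalForms (M / q) 2 (MvPolynomial.rename Subtype.val s))
    refine ⟨P, hPm, hρχ ?_⟩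
    rw [RingHom.mem_ker]
    show ((heckeAlgebra (M / q) 2 ∅).val.toRingHom)
      (((heckeEvalForms (M / q) 2).comp (MvPolynomial.rename Subtype.val).toRingHom)
        (eval₂ (algebraMap ℤ (MvPolynomial {ℓ : Nat.Primes // (ℓ : ℕ) ∉ S} ℤ)) s P)) = 0
    rw [Polynomial.hom_eval₂]
    have e : ((heckeEvalForms (M / q) 2).comp (MvPolynomial.rename Subtype.val).toRingHom).comp
        (algebraMap ℤ (MvPolynomial {ℓ : Nat.Primes // (ℓ : ℕ) ∉ S} ℤ))
        = algebraMap ℤ (heckeAlgebra (M / q) 2 (∅ : Set ℕ)) := RingHom.ext_int _ _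
    rw [e]
    have hP' : eval₂ (algebraMap ℤ (heckeAlgebra (M / q) 2 (∅ : Set ℕ)))
        (((heckeEvalForms (M / q) 2).comp (MvPolynomial.rename Subtype.val).toRingHom) s) P
        = 0 := hP
    rw [hP', map_zero]
  have hker' : RingHom.ker ψ ≤ RingHom.ker χ := ker_le_of_isIntegral χ ψ hker hint
  have hkereq : RingHom.ker χ = RingHom.ker ψ := le_antisymm hker hker'
  -- the values of `χ` are algebraic
  have halg : ∀ s : MvPolynomial {ℓ : Nat.Primes // (ℓ : ℕ) ∉ S} ℤ, IsAlgebraic ℚ (χ s) := by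
    intro s
    obtain ⟨P, hPm, hP⟩ := hint s
    rw [RingHom.mem_ker, Polynomial.hom_eval₂] at hP
    have hZ : IsIntegral ℤ (χ s) := by
      refine ⟨P, hPm, ?_⟩
      have e : χ.comp (algebraMap ℤ (MvPolynomial {ℓ : Nat.Primes // (ℓ : ℕ) ∉ S} ℤ))
          = algebraMap ℤ ℂ := RingHom.ext_int _ _
      rw [← e]
      exact hP
    exact (hZ.tower_top (A := ℚ)).isAlgebraic
  obtain ⟨σ, hσ⟩ := exists_ringEquiv_of_ker_eq χ ψ hkereq halg
  -- the eigenform of level `M / q`
  let lam : ℕ → ℂ := fun ℓ =>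
    if hc : ℓ.Prime ∧ ℓ ∉ S then χ (MvPolynomial.X ⟨⟨ℓ, hc.1⟩, hc.2⟩) else 0
  have hlam : ∀ i : {ℓ : Nat.Primes // (ℓ : ℕ) ∉ S},
      lam ((i : Nat.Primes) : ℕ) = χ (MvPolynomial.X i) := by
    intro i
    have hc : ((i : Nat.Primes) : ℕ).Prime ∧ ((i : Nat.Primes) : ℕ) ∉ S := ⟨i.1.2, i.2⟩
    simp only [lam, dif_pos hc]
    rfl
  have hρX : ∀ i : {ℓ : Nat.Primes // (ℓ : ℕ) ∉ S},
      ρ (MvPolynomial.X i) = heckeTLin 2 i.1.2 (hIN i) := by
    intro i
    show ((heckeAlgebra (M / q) 2 ∅).val.toRingHom)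
      ((heckeEvalForms (M / q) 2) (MvPolynomial.rename Subtype.val (MvPolynomial.X i))) = _
    rw [MvPolynomial.rename_X]
    have e2 : heckeEvalForms (M / q) 2 (MvPolynomial.X (i : Nat.Primes))
        = heckeAlgebra.T i.1.2 (hIN i) (Set.notMem_empty _) :=
      heckeEvalForms_heckeGen_of_not_dvd (hIN i)
    rw [e2]
    rfl
  obtain ⟨f₁, hf₁, hf₁c⟩ :=
    Fermat.Agent.Lib.Newform.H863.exists_normalizedEigenform_of_eigenvector
      (M := M / q) (↑S : Set ℕ) lam h hh (by
        intro ℓ hℓ hℓN hℓS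
        have hℓS' : ℓ ∉ S := fun hmem => hℓS (Finset.mem_coe.mpr hmem)
        have h1 := hχ (MvPolynomial.X ⟨⟨ℓ, hℓ⟩, hℓS'⟩)
        rw [hρX ⟨⟨ℓ, hℓ⟩, hℓS'⟩, ← hlam ⟨⟨ℓ, hℓ⟩, hℓS'⟩] at h1
        exact h1)
  obtain ⟨f₂, hf₂, hf₂c⟩ := exists_conj_eigenform (σ : ℂ →+* ℂ) hf₁
  -- cross level
  have hdvd : M ∣ M / q :=
    Fermat.Agent.Lib.Newform.H958.X.crossLevel M (M / q) g f₂ hg hf₂ S (by
      intro ℓ hℓ hℓS
      have hℓN : ¬ ℓ ∣ M / q := hIN ⟨⟨ℓ, hℓ⟩, hℓS⟩
      rw [hf₂c ℓ, hf₁c ℓ hℓ hℓN (fun hmem => hℓS (Finset.mem_coe.mp hmem)),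
        hlam ⟨⟨ℓ, hℓ⟩, hℓS⟩]
      have h1 := hσ (MvPolynomial.X ⟨⟨ℓ, hℓ⟩, hℓS⟩)
      rw [RingEquiv.coe_toRingHom, h1]
      show qCoeff g ℓ = MvPolynomial.aeval (fun ℓ : {ℓ : Nat.Primes // (ℓ : ℕ) ∉ S} =>
        qCoeff g ((ℓ : Nat.Primes) : ℕ)) (MvPolynomial.X ⟨⟨ℓ, hℓ⟩, hℓS⟩)
      rw [MvPolynomial.aeval_X])
  have hM0 : 0 < M := Nat.pos_of_ne_zero (NeZero.ne M)
  have hlt : M / q < M := Nat.div_lt_self hM0 hq.one_lt
  have hle : M ≤ M / q := Nat.le_of_dvd (Nat.pos_of_ne_zero (NeZero.ne (M / q))) hdvd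
  omega

end Fermat.Agent.S35.H252

end
-- ===== PACK-END S35/H252/XForms.lean

-- ===== PACK-BEGIN S36/Alg3/Spec.lean
section



/-!
# S36 / ALG3 — frozen interfaces (sub-architect helper586)

`Eng/Spec.lean` (architect helper996) freezes `Eng.TripleCtx` and `Eng.Alg3Statement`.
This file cuts `Eng.Alg3Statement` into THREE leaves; `Skel.lean` proves

    alg3_of_leaves : LeafStepA → LeafSheets → LeafPure → Eng.Alg3Statement     (`C = (q² - 1)²`).

Every leaf is quantified over the full context of `Eng.Alg3Statement`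
(`R` henselian DVR with algebraically closed residue field of characteristic `q`, uniformiser `w`,
`E = Frac R`, `TripleCtx w q α β x x' V₁ V₂ V₃ V₁' V₂'`).

* `LeafStepA`  (steps (a), (b); owner helper586, from `S36/H586/StepAB.lean`):
  `f ^ (q² - 1) = w ^ s * G ^ m * u` with `u ≡ 1` on `V₁, V₂, V₃` and `N_α u`, `N_β u`
  `m`-th powers.
* `LeafSheets` (G2): every sheet of `x` is one of `V₁, V₂, V₃` (from `qep_f`).
* `LeafPure`   (steps (c1)–(c5); G3 + G4): for `u ≡ 1` on `V₁, V₂, V₃` with `m ∣ div u` and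
  `N_α u`, `N_β u` `m`-th powers there is a colouring `κ` such that `u ^ ((q - 1) (q + 1))` has a
  purity datum with normalised values (`H193.BasePureValuesAt`) at every closed point of the
  special fibre of the two charts.  (`H630.basePureValuesAt_single`, `_triple`.)

The wall (step (c6)) is `H193.exists_pow_eq_of_three` (on main).
Definitions only (no `sorry`).
-/

set_option autoImplicit false
set_option linter.style.haveILetI false
set_option linter.unusedSectionVars false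
set_option synthInstance.maxHeartbeats 400000
set_option maxHeartbeats 1600000

noncomputable section

namespace Fermat.Agent.S36.Alg3

open Fermat.Agent.S18.H138 (chart)
open Fermat.Agent.S36.Eng
open Fermat.Agent.A2.H12 (IsSheet)

/-- The three valuation rings, as a set. -/
def three {F : Type*} [Field F] (V₁ V₂ V₃ : ValuationSubring F) : Set (ValuationSubring F) :=
  {V | V = V₁ ∨ V = V₂ ∨ V = V₃}

/-- **Leaf STEP-A** (steps (a), (b) of ALG3).  Owner: helper586. -/
def LeafStepA : Prop :=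
  ∀ {R E F F' : Type} [CommRing R] [IsDomain R] [IsDiscreteValuationRing R]
    [HenselianLocalRing R] [IsAlgClosed (IsLocalRing.ResidueField R)]
    [Field E] [CharZero E] [Algebra R E] [IsFractionRing R E]
    [Field F] [Algebra E F] [Algebra R F] [IsScalarTower R E F]
    [Field F'] [Algebra E F'] [Algebra R F'] [IsScalarTower R E F']
    (w : R) (_ : Irreducible w) (q : ℕ) (_ : q.Prime)
    (_ : (q : R) ∈ IsLocalRing.maximalIdeal R)
    (α β : F' →ₐ[E] F) (x : F) (x' : F')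
    (V₁ V₂ V₃ : ValuationSubring F) (V₁' V₂' : ValuationSubring F')
    (_ : TripleCtx w q α β x x' V₁ V₂ V₃ V₁' V₂'),
    ∀ m : ℕ, 0 < m → ¬ q ∣ m →
      ∀ f : F, f ≠ 0 → S35.G.NormPow α m f → S35.G.NormPow β m f →
        ∃ (s : ℤ) (G u : F) (k₁ k₂ : F'), G ≠ 0 ∧
          f ^ (q ^ 2 - 1) = algebraMap R F w ^ s * G ^ m * u ∧
          u - 1 ∈ V₁.nonunits ∧ u - 1 ∈ V₂.nonunits ∧ u - 1 ∈ V₃.nonunits ∧
          S29.H395.normAlong α u = k₁ ^ m ∧ S29.H395.normAlong β u = k₂ ^ m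

/-- **Leaf SHEETS** (G2): every sheet of `x` is one of `V₁, V₂, V₃`. -/
def LeafSheets : Prop :=
  ∀ {R E F F' : Type} [CommRing R] [IsDomain R] [IsDiscreteValuationRing R]
    [HenselianLocalRing R] [IsAlgClosed (IsLocalRing.ResidueField R)]
    [Field E] [CharZero E] [Algebra R E] [IsFractionRing R E]
    [Field F] [Algebra E F] [Algebra R F] [IsScalarTower R E F]
    [Field F'] [Algebra E F'] [Algebra R F'] [IsScalarTower R E F']
    (w : R) (_ : Irreducible w) (q : ℕ) (_ : q.Prime)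
    (_ : (q : R) ∈ IsLocalRing.maximalIdeal R)
    (α β : F' →ₐ[E] F) (x : F) (x' : F')
    (V₁ V₂ V₃ : ValuationSubring F) (V₁' V₂' : ValuationSubring F')
    (_ : TripleCtx w q α β x x' V₁ V₂ V₃ V₁' V₂'),
    ∀ V : ValuationSubring F, IsSheet w x V → V = V₁ ∨ V = V₂ ∨ V = V₃

/-- **Leaf PURE** (steps (c1)–(c5)): purity data with normalised values at every closed point of
the special fibre of the two charts, for `u ^ ((q - 1) (q + 1))`. -/
def LeafPure : Prop :=
  ∀ {R E F F' : Type} [CommRing R] [IsDomain R] [IsDiscreteValuationRing R]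
    [HenselianLocalRing R] [IsAlgClosed (IsLocalRing.ResidueField R)]
    [Field E] [CharZero E] [Algebra R E] [IsFractionRing R E]
    [Field F] [Algebra E F] [Algebra R F] [IsScalarTower R E F]
    [Field F'] [Algebra E F'] [Algebra R F'] [IsScalarTower R E F']
    (w : R) (_ : Irreducible w) (q : ℕ) (_ : q.Prime)
    (_ : (q : R) ∈ IsLocalRing.maximalIdeal R)
    (α β : F' →ₐ[E] F) (x : F) (x' : F')
    (V₁ V₂ V₃ : ValuationSubring F) (V₁' V₂' : ValuationSubring F')
    (_ : TripleCtx w q α β x x' V₁ V₂ V₃ V₁' V₂'),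
    ∀ m : ℕ, 0 < m → ¬ q ∣ m → ∀ ζ : R, IsPrimitiveRoot ζ m →
      ∀ u : F, u ≠ 0 → A2.DivisibleDiv E m u →
        u - 1 ∈ V₁.nonunits → u - 1 ∈ V₂.nonunits → u - 1 ∈ V₃.nonunits →
        ∀ k₁ k₂ : F', S29.H395.normAlong α u = k₁ ^ m → S29.H395.normAlong β u = k₂ ^ m →
          ∃ κ : ValuationSubring F → ℕ,
            (∀ 𝔫 : Ideal (chart R ({x} : Set F)), 𝔫.IsMaximal →
              algebraMap R (chart R ({x} : Set F)) w ∈ 𝔫 →
              H193.BasePureValuesAt (three V₁ V₂ V₃) (chart R ({x} : Set F)) 𝔫 m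
                (u ^ ((q - 1) * (q + 1))) ζ κ) ∧
            (∀ 𝔫 : Ideal (chart R ({x⁻¹} : Set F)), 𝔫.IsMaximal →
              algebraMap R (chart R ({x⁻¹} : Set F)) w ∈ 𝔫 →
              H193.BasePureValuesAt (three V₁ V₂ V₃) (chart R ({x⁻¹} : Set F)) 𝔫 m
                (u ^ ((q - 1) * (q + 1))) ζ κ)

end Fermat.Agent.S36.Alg3

end

end
-- ===== PACK-END S36/Alg3/Spec.lean

-- ===== PACK-BEGIN A2/Mod/H816/L8.lean
section



/-!
# A2 / MOD leaf L8 `DegStatement` (helper816)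

`x = j j_q` at level `M q` (`q` prime, `q ∤ M`):  `x` is transcendental over `E`,
`[F_{Mq} : E(x)] = 2 (q + 1) ψ(M)` and `E` is algebraically closed in `F_{Mq}`.

Tower `E(x) ⊆ K₂ = E(j, j_q) ⊆ F_{Mq}` inside `E((t))`:
* `[F_{Mq} : K₂] = ψ(M)` : `S28.H988.relfinrank_jField_full_eq` at levels `q` and `M q`;
* `[K₂ : E(x)] ≤ 2 (q + 1)` : `j` is a root of `T^(q+1) Φ_q(T, x / T)` (`L8Upper`);
* `[K₂ : E(x)] ≥ 2 (q + 1)` : the two cuspidal valuations `vInf`, `vZero = vInf ∘ W` (`L8Val`).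

Main result: `deg : DegStatement E M q` (exact frozen leaf of `Mod/Spec.lean`).
-/

set_option autoImplicit false
set_option linter.unusedSectionVars false
set_option synthInstance.maxHeartbeats 400000
set_option maxHeartbeats 1600000

noncomputable section

namespace Fermat.Agent.A2.Mod.H816

open ModularCurve HahnSeries Polynomial IntermediateField

/-! ## Generalities on `relfinrank` -/

section Gen

variable {k L : Type*} [Field k] [Field L] [Algebra k L]

/-- the degree of `F` over `k(x)`, computed inside `F` or inside the ambient field -/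
theorem finrank_adjoin_eq_relfinrank (F : IntermediateField k L) (x : F) :
    Module.finrank (adjoin k ({x} : Set F)) F = (adjoin k ({(x : L)} : Set L)).relfinrank F := by
  rw [← relfinrank_top_right, ← relfinrank_map_map (adjoin k ({x} : Set F)) ⊤ F.val,
    adjoin_map, Set.image_singleton, ← AlgHom.fieldRange_eq_map, fieldRange_val]
  rfl

/-- `[A(y) : A] ≤ deg P` for a nonzero polynomial `P` over `A` with root `y`,
where `A(y)` is given as an intermediate field `B` over `k`. -/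
theorem relfinrank_le_of_root (A B : IntermediateField k L) (hAB : A ≤ B) (y : L)
    (hB : (adjoin A ({y} : Set L)).restrictScalars k = B) (P : Polynomial A) (hP : P ≠ 0)
    (hroot : aeval y P = 0) :
    0 < A.relfinrank B ∧ A.relfinrank B ≤ P.natDegree := by
  have hint : IsIntegral A y := (isAlgebraic_iff_isIntegral).mp ⟨P, hP, hroot⟩
  have hext : extendScalars hAB = adjoin A ({y} : Set L) := by
    apply restrictScalars_injective k
    rw [extendScalars_restrictScalars, hB]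
  rw [relfinrank_eq_finrank_of_le hAB, hext, adjoin.finrank hint]
  refine ⟨minpoly.natDegree_pos hint, ?_⟩
  exact natDegree_le_natDegree (minpoly.degree_le_of_ne_zero A y hP hroot)

end Gen

/-! ## Level `q` -/

section LevelQ

open Fermat.Agent.S28

variable (E : IntermediateField ℚ _root_.Fermat.Agent.A2.Mod.Qb) (q : ℕ) [NeZero q]

theorem coe_xq : ((xq E q : _root_.Fermat.Agent.A2.Mod.FE E q) : LaurentSeries E) =
    jqModC E * qExpand E q (jqModC E) := by
  show ((jE E q 1 (one_dvd q) : _root_.Fermat.Agent.A2.Mod.FE E q) : LaurentSeries E) *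
    ((jE E q q dvd_rfl : _root_.Fermat.Agent.A2.Mod.FE E q) : LaurentSeries E) = _
  rw [H873.coe_jE, H873.coe_jE, qExpand_one_apply]

theorem coe_xE (M : ℕ) [NeZero M] : ((xE E M q : _root_.Fermat.Agent.A2.Mod.FE E (M * q)) : LaurentSeries E) =
    jqModC E * qExpand E q (jqModC E) := by
  show ((jE E (M * q) 1 (one_dvd _) : _root_.Fermat.Agent.A2.Mod.FE E (M * q)) : LaurentSeries E) *
    ((jE E (M * q) q (dvd_mul_left q M) : _root_.Fermat.Agent.A2.Mod.FE E (M * q)) : LaurentSeries E) = _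
  rw [H873.coe_jE, H873.coe_jE, qExpand_one_apply]

theorem FE_eq_fullC (N : ℕ) : _root_.Fermat.Agent.A2.Mod.FE E N = modularFunctionFieldFullC E N :=
  H988.laurentBaseChange_full_eq_fullC E N

theorem natCast_ne_zero_E {p : ℕ} (hp : p ≠ 0) : ((p : ℕ) : E) ≠ 0 :=
  Nat.cast_ne_zero.mpr hp

/-- `K₂ = E(j, j_q)` -/
theorem fullC_prime (hq : q.Prime) :
    modularFunctionFieldFullC E q =
      adjoin E ({jqModC E, qExpand E q (jqModC E)} : Set (LaurentSeries E)) := by
  rw [modularFunctionFieldFullC]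
  congr 1
  ext f
  constructor
  · rintro ⟨d, hne, hd, rfl⟩
    rcases (Nat.dvd_prime hq).mp hd with h | h
    · subst h
      rw [qExpand_one_apply]
      exact Set.mem_insert _ _
    · subst h
      exact Set.mem_insert_of_mem _ rfl
  · rintro (h | h)
    · rw [h]
      exact ⟨1, inferInstance, one_dvd q, (qExpand_one_apply _).symm⟩
    · rw [Set.mem_singleton_iff] at h
      rw [h]
      exact ⟨q, inferInstance, dvd_rfl, rfl⟩

theorem jqModC_ne_zero_E : jqModC E ≠ 0 := jqModC_ne_zero_of_nontrivial E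

/-- `E(x)(j) = K₂` -/
theorem adjoin_x_j_eq (hq : q.Prime) :
    (adjoin (adjoin E ({jqModC E * qExpand E q (jqModC E)} : Set (LaurentSeries E)))
      ({jqModC E} : Set (LaurentSeries E))).restrictScalars E =
      modularFunctionFieldFullC E q := by
  rw [adjoin_adjoin_left, fullC_prime E q hq]
  apply le_antisymm
  · rw [adjoin_le_iff]
    rintro f (hf | hf)
    · rw [Set.mem_singleton_iff] at hf
      rw [hf]
      exact mul_mem (subset_adjoin E _ (Set.mem_insert _ _))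
        (subset_adjoin E _ (Set.mem_insert_of_mem _ rfl))
    · rw [Set.mem_singleton_iff] at hf
      rw [hf]
      exact subset_adjoin E _ (Set.mem_insert _ _)
  · rw [adjoin_le_iff]
    have hj : jqModC E ∈ adjoin E (({jqModC E * qExpand E q (jqModC E)} : Set (LaurentSeries E))
        ∪ {jqModC E}) := subset_adjoin E _ (Set.mem_union_right _ rfl)
    have hx : jqModC E * qExpand E q (jqModC E) ∈
        adjoin E (({jqModC E * qExpand E q (jqModC E)} : Set (LaurentSeries E))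
        ∪ {jqModC E}) := subset_adjoin E _ (Set.mem_union_left _ rfl)
    rintro f (hf | hf)
    · rw [hf]; exact hj
    · rw [Set.mem_singleton_iff] at hf
      rw [hf]
      have h3 : qExpand E q (jqModC E) =
          (jqModC E)⁻¹ * (jqModC E * qExpand E q (jqModC E)) := by
        rw [← mul_assoc, inv_mul_cancel₀ (jqModC_ne_zero_E E), one_mul]
      have h4 := mul_mem (inv_mem hj) hx
      rwa [← h3] at h4

theorem adjoin_x_le_fullC (hq : q.Prime) :
    adjoin E ({jqModC E * qExpand E q (jqModC E)} : Set (LaurentSeries E)) ≤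
      modularFunctionFieldFullC E q := by
  rw [fullC_prime E q hq, adjoin_le_iff]
  rintro f hf
  rw [Set.mem_singleton_iff] at hf
  rw [hf]
  exact mul_mem (subset_adjoin E _ (Set.mem_insert _ _))
    (subset_adjoin E _ (Set.mem_insert_of_mem _ rfl))

/-- **Upper bound** `0 < [K₂ : E(x)] ≤ 2 (q + 1)`. -/
theorem relfinrank_x_fullC_le (hq : q.Prime) :
    0 < (adjoin E ({jqModC E * qExpand E q (jqModC E)} : Set (LaurentSeries E))).relfinrank
        (modularFunctionFieldFullC E q) ∧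
      (adjoin E ({jqModC E * qExpand E q (jqModC E)} : Set (LaurentSeries E))).relfinrank
        (modularFunctionFieldFullC E q) ≤ 2 * (q + 1) := by
  obtain ⟨D⟩ := H807.nonempty_modPolyData q hq
  set A := adjoin E ({jqModC E * qExpand E q (jqModC E)} : Set (LaurentSeries E)) with hA
  have hroot : D.Φ.eval₂ (evZ (qExpand E q (jqModC E))) (jqModC E) = 0 := by
    rw [← evZ_of_algebra]
    exact H145.modPoly_eval_j_field D
  obtain ⟨P, hP0, hPdeg, hProot⟩ := exists_poly_of_mul (K := A) (L := LaurentSeries E) D.Φ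
    D.monic D.natDegree_eq (natDegree_swap_modPoly q hq D)
    ⟨jqModC E * qExpand E q (jqModC E), mem_adjoin_simple_self E _⟩
    (jqModC E) (qExpand E q (jqModC E)) rfl hroot
  obtain ⟨h1, h2⟩ := relfinrank_le_of_root A (modularFunctionFieldFullC E q)
    (adjoin_x_le_fullC E q hq) (jqModC E) (adjoin_x_j_eq E q hq) P hP0 hProot
  exact ⟨h1, h2.trans (by omega)⟩

/-- **Lower bound** `2 (q + 1) ≤ [K₂ : E(x)]`. -/
theorem le_relfinrank_x_fullC (hq : q.Prime) :
    2 * (q + 1) ≤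
      (adjoin E ({jqModC E * qExpand E q (jqModC E)} : Set (LaurentSeries E))).relfinrank
        (modularFunctionFieldFullC E q) := by
  have hpos := (relfinrank_x_fullC_le E q hq).1
  rw [← FE_eq_fullC, ← coe_xq, ← finrank_adjoin_eq_relfinrank] at hpos ⊢
  have : Module.Finite (adjoin E ({xq E q} : Set (_root_.Fermat.Agent.A2.Mod.FE E q))) (_root_.Fermat.Agent.A2.Mod.FE E q) :=
    Module.finite_of_finrank_pos hpos
  have h := (linearIndependent_pow E q hq.two_le).fintype_card_le_finrank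
  rw [Fintype.card_sum, Fintype.card_fin] at h
  omega

theorem relfinrank_x_fullC (hq : q.Prime) :
    (adjoin E ({jqModC E * qExpand E q (jqModC E)} : Set (LaurentSeries E))).relfinrank
        (modularFunctionFieldFullC E q) = 2 * (q + 1) :=
  le_antisymm (relfinrank_x_fullC_le E q hq).2 (le_relfinrank_x_fullC E q hq)

/-- `[F_{Mq} : K₂] = ψ(M)` -/
theorem relfinrank_fullC_fullC (M : ℕ) (hM : M ≠ 0) (hq : q.Prime) (hqM : ¬ q ∣ M) :
    (modularFunctionFieldFullC E q).relfinrank (modularFunctionFieldFullC E (M * q)) =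
      dedekindPsi M := by
  have hN : M * q ≠ 0 := Nat.mul_ne_zero hM hq.ne_zero
  have h1 : (jField E).relfinrank (modularFunctionFieldFullC E q) = q + 1 := by
    rw [H988.relfinrank_jField_full_eq E q hq.ne_zero
      (fun p hp _ => natCast_ne_zero_E E hp.ne_zero)]
    have := H626.psi_mul_prime_of_not_dvd (N := 1) one_ne_zero hq
      (fun h => hq.one_lt.ne' (Nat.dvd_one.mp h))
    rw [one_mul, dedekindPsi_one, mul_one] at this
    exact this
  have h2 : (jField E).relfinrank (modularFunctionFieldFullC E (M * q)) =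
      (q + 1) * dedekindPsi M := by
    rw [H988.relfinrank_jField_full_eq E (M * q) hN
      (fun p hp _ => natCast_ne_zero_E E hp.ne_zero)]
    exact H626.psi_mul_prime_of_not_dvd hM hq hqM
  have hle1 : jField E ≤ modularFunctionFieldFullC E q := by
    rw [jField, ← H988.full_one]
    exact H988.full_mono E hq.ne_zero (one_dvd q)
  have hle2 : modularFunctionFieldFullC E q ≤ modularFunctionFieldFullC E (M * q) :=
    H988.full_mono E hN (dvd_mul_left q M)
  have h3 := relfinrank_mul_relfinrank hle1 hle2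
  rw [h1, h2] at h3
  exact Nat.eq_of_mul_eq_mul_left (Nat.succ_pos q) h3

end LevelQ

/-! ## The leaf -/

section Leaf

variable (E : IntermediateField ℚ _root_.Fermat.Agent.A2.Mod.Qb) (M q : ℕ) [NeZero M] [NeZero q]

/-- **L8** (exact frozen leaf of `Mod/Spec.lean`). -/
theorem deg : DegStatement E M q := by
  intro hq hqM
  refine ⟨transcendental_xE E M q, ?_, fun f hf => mem_range_of_isAlgebraic E (M * q) f hf⟩
  have hN : M * q ≠ 0 := Nat.mul_ne_zero (NeZero.ne M) hq.ne_zero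
  rw [finrank_adjoin_eq_relfinrank, coe_xE, FE_eq_fullC]
  rw [← relfinrank_mul_relfinrank (adjoin_x_le_fullC E q hq)
    (Fermat.Agent.S28.H988.full_mono E hN (dvd_mul_left q M)),
    relfinrank_x_fullC E q hq, relfinrank_fullC_fullC E q M (NeZero.ne M) hq hqM]
  ring

end Leaf

end Fermat.Agent.A2.Mod.H816

end

end
-- ===== PACK-END A2/Mod/H816/L8.lean

-- ===== PACK-BEGIN S36/H972/Mod3Base.lean
section





/-!
# S36 / MOD3 (helper972): Gauss valuation toolkit (any level `N`, any `E`)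

Level-free facts on the Gauss valuation ring `V∞` of `F_{N,E}` (`IsVinf P E N V`) used by the
concrete MOD3 instance:

* `castE E : ℤ((t)) →+* E((t))`, `mem_of_castE`, `inv_mem_of_castE` : a function with integral
  `t`-expansion lies in `V∞`; it is a unit of `V∞` as soon as one coefficient is prime to `q`;
* `arch_vinf` : `V∞` has rank one (`∀ f, ∃ k, w^k f ∈ V∞`);
* `exists_lift_poly` : polynomials over `ℤ((t))` with coefficients in `F_N` lift to `V∞[X]`;
* `alpha_mem_iff'`, `beta_mem_iff'` : `V∞_{Nq}` lies over `V∞_N` along `α` and along `β`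
  (no hypothesis `q ∤ N`).
-/

set_option autoImplicit false
set_option linter.unusedSectionVars false
set_option linter.style.haveILetI false
set_option synthInstance.maxHeartbeats 400000
set_option maxHeartbeats 1600000

noncomputable section

namespace Fermat.Agent.S36.H972

open ModularCurve HahnSeries Polynomial
open Fermat.Agent.A2 Fermat.Agent.A2.Mod Fermat.Agent.A2.H48 Fermat.Agent.S28

/-! ### Integral series -/

section Series

variable (E : IntermediateField ℚ _root_.Fermat.Agent.A2.Mod.Qb)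

/-- `ℤ((t)) → E((t))`. -/
def castE : LaurentSeries ℤ →+* LaurentSeries E := coeffMap (Int.castRingHom E)

theorem castE_eq_coeffEmb (g : LaurentSeries ℤ) :
    castE E g = coeffEmb E (H708.castQ g) := by
  rw [castE, coeffEmb, H708.castQ, coeffMap_coeffMap]
  exact coeffMap_congr (RingHom.ext_int _ _) g

theorem castE_coeff (g : LaurentSeries ℤ) (n : ℤ) : (castE E g).coeff n = ((g.coeff n : ℤ) : E) := by
  rw [castE, coeffMap_coeff]
  rfl

theorem castE_injective : Function.Injective (castE E) := by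
  intro a b h
  ext n
  have h1 := congrArg (fun z => z.coeff n) h
  simp only [castE_coeff] at h1
  exact_mod_cast h1

theorem castE_qExpand_j (d : ℕ) [NeZero d] :
    castE E (qExpand ℤ d (jqModC ℤ)) = H378.jser E d := by
  rw [castE, coeffMap_qExpand, coeffMap_jqModC, H378.jser]

theorem castE_j : castE E (jqModC ℤ) = H378.jser E 1 := by
  rw [← castE_qExpand_j, qExpand_one_apply]

theorem castE_natCast (n : ℕ) : castE E (n : LaurentSeries ℤ) = (n : LaurentSeries E) :=
  map_natCast _ n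

theorem coe_jE' (N d : ℕ) [NeZero d] (hd : d ∣ N) :
    ((jE E N d hd : _root_.Fermat.Agent.A2.Mod.FE E N) : LaurentSeries E) = castE E (qExpand ℤ d (jqModC ℤ)) := by
  rw [castE_qExpand_j, H378.jser_eq_coeffEmb]
  rfl

end Series

/-! ### Membership in the Gauss ring -/

section Gauss

variable {P : ValuationSubring _root_.Fermat.Agent.A2.Mod.Qb} {E : IntermediateField ℚ _root_.Fermat.Agent.A2.Mod.Qb}

theorem mem_of_castE {N : ℕ} {V : ValuationSubring (_root_.Fermat.Agent.A2.Mod.FE E N)} (hV : IsVinf P E N V)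
    {f : _root_.Fermat.Agent.A2.Mod.FE E N} {g : LaurentSeries ℤ} (hfg : (f : LaurentSeries E) = castE E g) : f ∈ V :=
  H553.mem_of_int hV (hfg.trans (castE_eq_coeffEmb E g))

/-- an integer prime to `q` is a unit of `R_E`. -/
theorem valuation_intCast_eq_one {q : ℕ} (hq : q.Prime) (hP : P.LiesOverPrime q) {m : ℤ}
    (hm : ¬ (q : ℤ) ∣ m) : (_root_.Fermat.Agent.A2.Mod.RE P E).valuation ((m : ℤ) : E) = 1 := by
  have hqv : (_root_.Fermat.Agent.A2.Mod.RE P E).valuation ((q : ℕ) : E) < 1 := by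
    have h1 : P.valuation ((q : ℕ) : _root_.Fermat.Agent.A2.Mod.Qb) < 1 := (ValuationSubring.mem_nonunits_iff P).mp hP
    have h2 : ((q : ℕ) : E) ∈ (_root_.Fermat.Agent.A2.Mod.RE P E) := by
      show algebraMap E _root_.Fermat.Agent.A2.Mod.Qb ((q : ℕ) : E) ∈ P
      rw [map_natCast, ← ValuationSubring.valuation_le_one_iff]
      exact h1.le
    by_contra hcon
    have h3 : (_root_.Fermat.Agent.A2.Mod.RE P E).valuation ((q : ℕ) : E) = 1 :=
      le_antisymm ((ValuationSubring.valuation_le_one_iff _ _).mpr h2) (not_lt.mp hcon)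
    have h4 : (((q : ℕ) : E))⁻¹ ∈ _root_.Fermat.Agent.A2.Mod.RE P E := by
      rw [← ValuationSubring.valuation_le_one_iff, map_inv₀, h3, inv_one]
    have h5 : (algebraMap E _root_.Fermat.Agent.A2.Mod.Qb ((q : ℕ) : E))⁻¹ ∈ P := by
      have : algebraMap E _root_.Fermat.Agent.A2.Mod.Qb (((q : ℕ) : E))⁻¹ ∈ P := h4
      rwa [map_inv₀] at this
    rw [map_natCast] at h5
    have h6 : P.valuation (((q : ℕ) : _root_.Fermat.Agent.A2.Mod.Qb))⁻¹ ≤ 1 := (ValuationSubring.valuation_le_one_iff _ _).mpr h5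
    rw [map_inv₀] at h6
    have hq0 : P.valuation ((q : ℕ) : _root_.Fermat.Agent.A2.Mod.Qb) ≠ 0 := by
      rw [Valuation.ne_zero_iff]
      exact_mod_cast hq.ne_zero
    have h7 : 1 ≤ P.valuation ((q : ℕ) : _root_.Fermat.Agent.A2.Mod.Qb) := by
      rwa [inv_le_one₀ (zero_lt_iff.mpr hq0)] at h6
    exact absurd h1 (not_lt.mpr h7)
  have hcop : IsCoprime m (q : ℤ) :=
    ((Int.prime_iff_natAbs_prime.mpr (by simpa using hq)).coprime_iff_not_dvd.mpr hm).symm
  obtain ⟨a, b, hab⟩ := hcop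
  have hE : ((a : ℤ) : E) * ((m : ℤ) : E) = 1 - ((b : ℤ) : E) * ((q : ℕ) : E) := by
    have : ((a * m + b * q : ℤ) : E) = 1 := by rw [hab]; simp
    push_cast at this
    linear_combination this
  have hint : ∀ z : ℤ, (_root_.Fermat.Agent.A2.Mod.RE P E).valuation ((z : ℤ) : E) ≤ 1 := by
    intro z
    rw [ValuationSubring.valuation_le_one_iff]
    exact intCast_mem _ z
  have hbq : (_root_.Fermat.Agent.A2.Mod.RE P E).valuation (((b : ℤ) : E) * ((q : ℕ) : E)) < 1 := by
    rw [map_mul]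
    calc _ ≤ 1 * (_root_.Fermat.Agent.A2.Mod.RE P E).valuation ((q : ℕ) : E) := by gcongr; exact hint b
      _ = _ := one_mul _
      _ < 1 := hqv
  have h1 : (_root_.Fermat.Agent.A2.Mod.RE P E).valuation (((a : ℤ) : E) * ((m : ℤ) : E)) = 1 := by
    rw [hE]
    exact Valuation.map_one_sub_of_lt _ hbq
  rw [map_mul] at h1
  refine le_antisymm (hint m) ?_
  calc (1 : _) = (_root_.Fermat.Agent.A2.Mod.RE P E).valuation ((a : ℤ) : E) * (_root_.Fermat.Agent.A2.Mod.RE P E).valuation ((m : ℤ) : E) := h1.symm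
    _ ≤ 1 * (_root_.Fermat.Agent.A2.Mod.RE P E).valuation ((m : ℤ) : E) := by gcongr; exact hint a
    _ = _ := one_mul _

theorem red_castA_ne_zero_of_not_dvd {q : ℕ} (hq : q.Prime) (hP : P.LiesOverPrime q)
    {g : LaurentSeries ℤ} (hg : ∃ n : ℤ, ¬ (q : ℤ) ∣ g.coeff n) :
    H708.red (_root_.Fermat.Agent.A2.Mod.RE P E) (H708.castA (_root_.Fermat.Agent.A2.Mod.RE P E) g) ≠ 0 := by
  obtain ⟨n, hn⟩ := hg
  rw [H708.red_ne_zero_iff]
  refine ⟨n, ?_⟩
  have h1 : (((H708.castA (_root_.Fermat.Agent.A2.Mod.RE P E) g).coeff n : _root_.Fermat.Agent.A2.Mod.RE P E) : E) = ((g.coeff n : ℤ) : E) := by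
    show ((((g.coeff n : ℤ) : _root_.Fermat.Agent.A2.Mod.RE P E)) : E) = _
    simp
  rw [h1]
  exact valuation_intCast_eq_one hq hP hn

/-- functions with integral `t`-expansion having a coefficient prime to `q` are units of `V∞`. -/
theorem inv_mem_of_castE {q : ℕ} (hq : q.Prime) (hP : P.LiesOverPrime q)
    {N : ℕ} {V : ValuationSubring (_root_.Fermat.Agent.A2.Mod.FE E N)} (hV : IsVinf P E N V)
    {f : _root_.Fermat.Agent.A2.Mod.FE E N} {g : LaurentSeries ℤ} (hfg : (f : LaurentSeries E) = castE E g)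
    (hg : ∃ n : ℤ, ¬ (q : ℤ) ∣ g.coeff n) : f⁻¹ ∈ V := by
  rw [hV f⁻¹]
  have hf : (f : LaurentSeries E) = H708.incl (_root_.Fermat.Agent.A2.Mod.RE P E) (H708.castA (_root_.Fermat.Agent.A2.Mod.RE P E) g) := by
    rw [hfg, castE_eq_coeffEmb, H553.coeffEmb_castQ (P := P)]
  have hred := red_castA_ne_zero_of_not_dvd (P := P) (E := E) hq hP hg
  have hne : H708.incl (_root_.Fermat.Agent.A2.Mod.RE P E) (H708.castA (_root_.Fermat.Agent.A2.Mod.RE P E) g) ≠ 0 :=
    H708.incl_ne_zero _ (H708.ne_zero_of_red_ne_zero _ hred)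
  refine ⟨1, H708.castA (_root_.Fermat.Agent.A2.Mod.RE P E) g, hred, ?_, ?_⟩
  · rw [← hf]
    exact f.2
  · rw [IntermediateField.coe_inv, hf, inv_mul_cancel₀ hne, map_one]

/-! ### Rank one -/

theorem arch_RE [IsDiscreteValuationRing (_root_.Fermat.Agent.A2.Mod.RE P E)] {w : _root_.Fermat.Agent.A2.Mod.RE P E} (hw : Irreducible w) (c : E) :
    ∃ k : ℕ, (w : E) ^ k * c ∈ _root_.Fermat.Agent.A2.Mod.RE P E := by
  rcases (_root_.Fermat.Agent.A2.Mod.RE P E).mem_or_inv_mem c with hc | hc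
  · exact ⟨0, by simpa using hc⟩
  · by_cases hc0 : c = 0
    · exact ⟨0, by rw [hc0, mul_zero]; exact zero_mem _⟩
    have hne : (⟨c⁻¹, hc⟩ : _root_.Fermat.Agent.A2.Mod.RE P E) ≠ 0 := by
      intro h
      exact inv_ne_zero hc0 (congrArg Subtype.val h)
    obtain ⟨n, u, hu⟩ := IsDiscreteValuationRing.eq_unit_mul_pow_irreducible hne hw
    have h1 : c⁻¹ = ((u : _root_.Fermat.Agent.A2.Mod.RE P E) : E) * (w : E) ^ n := by
      have := congrArg Subtype.val hu
      simpa using this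
    have hu0 : ((u : _root_.Fermat.Agent.A2.Mod.RE P E) : E) ≠ 0 := fun h => u.ne_zero (Subtype.ext h)
    have hw0 : (w : E) ≠ 0 := fun h => hw.ne_zero (Subtype.ext h)
    refine ⟨n, ?_⟩
    have h2 : (w : E) ^ n * c = (((u⁻¹ : (_root_.Fermat.Agent.A2.Mod.RE P E)ˣ) : _root_.Fermat.Agent.A2.Mod.RE P E) : E) := by
      have h3 : ((u : _root_.Fermat.Agent.A2.Mod.RE P E) : E) * (((u⁻¹ : (_root_.Fermat.Agent.A2.Mod.RE P E)ˣ) : _root_.Fermat.Agent.A2.Mod.RE P E) : E) = 1 := by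
        have h5 := congrArg (_root_.Fermat.Agent.A2.Mod.RE P E).subtype u.mul_inv
        rw [map_mul, map_one] at h5
        exact h5
      have h4 : c = (((u : _root_.Fermat.Agent.A2.Mod.RE P E) : E) * (w : E) ^ n)⁻¹ := by rw [← h1, inv_inv]
      rw [h4]
      field_simp
      linear_combination -h3
    rw [h2]
    exact ((u⁻¹ : (_root_.Fermat.Agent.A2.Mod.RE P E)ˣ) : _root_.Fermat.Agent.A2.Mod.RE P E).2

theorem cE_mem_vinf {N : ℕ} {V : ValuationSubring (_root_.Fermat.Agent.A2.Mod.FE E N)} (hV : IsVinf P E N V) (r : _root_.Fermat.Agent.A2.Mod.RE P E) :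
    cE P E N r ∈ V := by
  rw [hV]
  exact (H378.isGaussInt_cst_iff (_root_.Fermat.Agent.A2.Mod.RE P E) _ (r : E)).mpr r.2

/-- `V∞` has rank one. -/
theorem arch_vinf [IsDiscreteValuationRing (_root_.Fermat.Agent.A2.Mod.RE P E)] {w : _root_.Fermat.Agent.A2.Mod.RE P E} (hw : Irreducible w)
    {N : ℕ} {V : ValuationSubring (_root_.Fermat.Agent.A2.Mod.FE E N)} (hV : IsVinf P E N V) (f : _root_.Fermat.Agent.A2.Mod.FE E N) :
    ∃ k : ℕ, (cE P E N w) ^ k * f ∈ V := by
  by_cases hf : f = 0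
  · exact ⟨0, by rw [hf, mul_zero]; exact zero_mem _⟩
  obtain ⟨c, hc0, hu⟩ := H553.exists_const_mul_unit P E hV hf
  obtain ⟨k, hk⟩ := arch_RE hw c
  refine ⟨k, ?_⟩
  have hcF : algebraMap E (_root_.Fermat.Agent.A2.Mod.FE E N) c ≠ 0 :=
    (map_ne_zero_iff _ (algebraMap E (_root_.Fermat.Agent.A2.Mod.FE E N)).injective).mpr hc0
  have h1 : (cE P E N w) ^ k * f =
      (f * (algebraMap E (_root_.Fermat.Agent.A2.Mod.FE E N) c)⁻¹) * cE P E N ⟨(w : E) ^ k * c, hk⟩ := by
    have : cE P E N ⟨(w : E) ^ k * c, hk⟩ = (cE P E N w) ^ k * algebraMap E (_root_.Fermat.Agent.A2.Mod.FE E N) c := by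
      simp only [cE, map_mul, map_pow]
    rw [this]
    field_simp
  rw [h1]
  exact mul_mem ((V.valuation_le_one_iff _).mp hu.le) (cE_mem_vinf hV _)

/-! ### Lifting polynomials -/

/-- the expansion map `V∞ → E((t))`. -/
def valV {N : ℕ} (V : ValuationSubring (_root_.Fermat.Agent.A2.Mod.FE E N)) : V →+* LaurentSeries E :=
  (H378.valHom E N).comp V.subtype

theorem valV_apply {N : ℕ} (V : ValuationSubring (_root_.Fermat.Agent.A2.Mod.FE E N)) (x : V) :
    valV V x = ((x : _root_.Fermat.Agent.A2.Mod.FE E N) : LaurentSeries E) := rfl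

theorem valV_injective {N : ℕ} (V : ValuationSubring (_root_.Fermat.Agent.A2.Mod.FE E N)) : Function.Injective (valV V) := by
  intro a b h
  exact Subtype.ext (Subtype.ext h)

/-- polynomials over `ℤ((t))` with coefficients in `F_N` lift to `V∞[X]`. -/
theorem exists_lift_poly {N : ℕ} {V : ValuationSubring (_root_.Fermat.Agent.A2.Mod.FE E N)} (hV : IsVinf P E N V)
    (Q : (LaurentSeries ℤ)[X]) (hQ : ∀ i, castE E (Q.coeff i) ∈ _root_.Fermat.Agent.A2.Mod.FE E N) :
    ∃ Q' : V[X], Q'.map (valV V) = Q.map (castE E) := by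
  have h : Q.map (castE E) ∈ Polynomial.lifts (valV V) := by
    rw [Polynomial.lifts_iff_coeff_lifts]
    intro n
    rw [Polynomial.coeff_map]
    exact ⟨⟨⟨castE E (Q.coeff n), hQ n⟩, mem_of_castE hV rfl⟩, rfl⟩
  exact (Polynomial.mem_lifts _).mp h

theorem exists_lift {N : ℕ} {V : ValuationSubring (_root_.Fermat.Agent.A2.Mod.FE E N)} (hV : IsVinf P E N V)
    (g : LaurentSeries ℤ) (hg : castE E g ∈ _root_.Fermat.Agent.A2.Mod.FE E N) :
    ∃ x : V, valV V x = castE E g :=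
  ⟨⟨⟨castE E g, hg⟩, mem_of_castE hV rfl⟩, rfl⟩

/-! ### `V∞_{Nq}` lies over `V∞_N` along `α` and `β` -/

section Over

variable {N q : ℕ} [NeZero N] [NeZero q]

theorem alpha_mem_iff' [IsDiscreteValuationRing (_root_.Fermat.Agent.A2.Mod.RE P E)] {VN : ValuationSubring (_root_.Fermat.Agent.A2.Mod.FE E N)}
    {V : ValuationSubring (_root_.Fermat.Agent.A2.Mod.FE E (N * q))} (hVN : IsVinf P E N VN) (hV : IsVinf P E (N * q) V)
    (g : _root_.Fermat.Agent.A2.Mod.FE E N) : αE E N q g ∈ V ↔ g ∈ VN := by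
  rw [hV (αE E N q g), hVN g, coe_heckeAlphaBar]
  constructor
  · exact H378.isGaussInt_descend (_root_.Fermat.Agent.A2.Mod.RE P E) (H708.intGen_full N)
      (H708.attainsMax_of_isNoetherianRing _ _) (H378.FE_le E N q) g.2
  · exact H378.isGaussInt_mono (_root_.Fermat.Agent.A2.Mod.RE P E) (H378.FE_le E N q)

theorem incl_qExpand (U : LaurentSeries (_root_.Fermat.Agent.A2.Mod.RE P E)) :
    H708.incl (_root_.Fermat.Agent.A2.Mod.RE P E) (qExpand (_root_.Fermat.Agent.A2.Mod.RE P E) q U) = qExpand E q (H708.incl (_root_.Fermat.Agent.A2.Mod.RE P E) U) :=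
  coeffMap_qExpand _ q U

theorem red_qExpand_ne_zero {U : LaurentSeries (_root_.Fermat.Agent.A2.Mod.RE P E)} (hU : H708.red (_root_.Fermat.Agent.A2.Mod.RE P E) U ≠ 0) :
    H708.red (_root_.Fermat.Agent.A2.Mod.RE P E) (qExpand (_root_.Fermat.Agent.A2.Mod.RE P E) q U) ≠ 0 := by
  intro h
  apply hU
  have h1 : H708.red (_root_.Fermat.Agent.A2.Mod.RE P E) (qExpand (_root_.Fermat.Agent.A2.Mod.RE P E) q U) =
      qExpand _ q (H708.red (_root_.Fermat.Agent.A2.Mod.RE P E) U) := coeffMap_qExpand _ q U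
  rw [h1] at h
  exact qExpand_injective q (h.trans (map_zero _).symm)

theorem qExpand_mem_FE {x : LaurentSeries E} (hx : x ∈ _root_.Fermat.Agent.A2.Mod.FE E N) :
    qExpand E q x ∈ _root_.Fermat.Agent.A2.Mod.FE E (N * q) := by
  have h := (βE E N q ⟨x, hx⟩).2
  rwa [coe_heckeBetaBar] at h

theorem qExpand_cst (c : E) : qExpand E q (H708.cst c) = H708.cst c :=
  (qExpandAlgHomC E q).commutes c

theorem beta_mem_iff' [IsDiscreteValuationRing (_root_.Fermat.Agent.A2.Mod.RE P E)] {VN : ValuationSubring (_root_.Fermat.Agent.A2.Mod.FE E N)}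
    {V : ValuationSubring (_root_.Fermat.Agent.A2.Mod.FE E (N * q))} (hVN : IsVinf P E N VN) (hV : IsVinf P E (N * q) V)
    (g : _root_.Fermat.Agent.A2.Mod.FE E N) : βE E N q g ∈ V ↔ g ∈ VN := by
  rw [hV (βE E N q g), hVN g, coe_heckeBetaBar]
  by_cases hg0 : (g : LaurentSeries E) = 0
  · rw [hg0, map_zero]
    exact ⟨fun _ => H708.IsGaussInt.zero, fun _ => H708.IsGaussInt.zero⟩
  obtain ⟨c, U₁, U₂, hc, h₁, h₂, hm₁, hm₂, he⟩ :=
    H708.exists_normal_form (H708.intGen_full N)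
      (H708.attainsMax_of_isNoetherianRing (_root_.Fermat.Agent.A2.Mod.RE P E) _) g.2 hg0
  have he' : qExpand E q (g : LaurentSeries E) * H708.incl (_root_.Fermat.Agent.A2.Mod.RE P E) (qExpand (_root_.Fermat.Agent.A2.Mod.RE P E) q U₂) =
      H708.cst c * H708.incl (_root_.Fermat.Agent.A2.Mod.RE P E) (qExpand (_root_.Fermat.Agent.A2.Mod.RE P E) q U₁) := by
    rw [incl_qExpand, incl_qExpand, ← map_mul, he, map_mul, qExpand_cst]
  have hm₂' : H708.incl (_root_.Fermat.Agent.A2.Mod.RE P E) (qExpand (_root_.Fermat.Agent.A2.Mod.RE P E) q U₂) ∈ _root_.Fermat.Agent.A2.Mod.FE E (N * q) := by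
    rw [incl_qExpand]
    exact qExpand_mem_FE hm₂
  rw [H708.isGaussInt_iff_of_normal_form (red_qExpand_ne_zero h₁) (red_qExpand_ne_zero h₂) hm₂' he',
    H708.isGaussInt_iff_of_normal_form h₁ h₂ hm₂ he]

end Over

end Gauss

end Fermat.Agent.S36.H972

end

end
-- ===== PACK-END S36/H972/Mod3Base.lean

-- ===== PACK-BEGIN S36/H972/Mod3.lean
section




/-!
# S36 / MOD3 (helper972): the middle valuation `V_mid` at level `q² M`, concretely

Setting of `A2/Mod/Spec` (`Setting P E M q w` : `q` prime, `q ∤ M`, `R_E = P ∩ E` a DVR with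
uniformiser `w`), base UNRAMIFIED at `q` (`Unram`: `q = w · unit`).  `K = F_{Mq}`, `L = F_{Mqq}`,
`α : K → L` the inclusion, `V1` the Gauss valuation ring of `K`, `V` the Gauss valuation ring of
`L`.  From the formal input `EisSeries q A Ψ G` (producer: helper83 `S36/H83/Eis.lean`, bridge in
`EisOfH83.lean`) we get the hypotheses `EisData` of the abstract Eisenstein-split theorem
(`EisSplit.lean`) for `y = j_{q²}`, `c = j`, `a = A(j, j_q)`, and conclude (`mod3_alpha`):

there is a valuation ring `V_mid ≠ V` of `L` such that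
* `V` and `V_mid` are exactly the valuation rings of `L` lying over `V1` along `α`;
* `V_mid` has uniformiser `j_{q²} - j`, `(j_{q²} - j)^(q-1) = w · unit` (`e = q - 1`);
* both have residue degree one over `V1`.
-/

set_option autoImplicit false
set_option linter.unusedSectionVars false
set_option linter.style.haveILetI false
set_option synthInstance.maxHeartbeats 400000
set_option maxHeartbeats 1600000

noncomputable section

namespace Fermat.Agent.S36.H972

open ModularCurve HahnSeries Polynomial AlgebraicCurve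
open Fermat.Agent.A2 Fermat.Agent.A2.Mod Fermat.Agent.A2.H48 Fermat.Agent.S28

/-- The base is unramified at `q`: `q = w · unit` in `R_E`. -/
def Unram (P : ValuationSubring _root_.Fermat.Agent.A2.Mod.Qb) (E : IntermediateField ℚ _root_.Fermat.Agent.A2.Mod.Qb) (q : ℕ) (w : _root_.Fermat.Agent.A2.Mod.RE P E) : Prop :=
  ∃ u : (_root_.Fermat.Agent.A2.Mod.RE P E)ˣ, ((q : ℕ) : E) = (w : E) * ((u : _root_.Fermat.Agent.A2.Mod.RE P E) : E)

namespace EisData

variable {K L : Type*} [Field K] [Field L] [Algebra K L]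
variable {O : ValuationSubring K} {y : L} {ϖ : K}
variable {Ψ G : O[X]} {a c : O} {n : ℕ} (h : EisData O ϖ y Ψ G a c n)

include h in
/-- `y - a` is a unit of `V_c`. -/
theorem inv_sub_a_mem_Vc : (y - algebraMap K L (a : K))⁻¹ ∈ h.Vc := by
  have := @inv_mem_locVal_of_notMem L _ _ _ _ h.isNoetherianRing h.isMaximal_c h.locGen_c
    h.isFracOf _ h.alpha_notMem
  rwa [coe_evS_X_sub_C] at this

end EisData

section Alpha

variable {P : ValuationSubring _root_.Fermat.Agent.A2.Mod.Qb} {E : IntermediateField ℚ _root_.Fermat.Agent.A2.Mod.Qb} {M q : ℕ} [NeZero M] [NeZero q]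
  {w : _root_.Fermat.Agent.A2.Mod.RE P E}

variable (E M q) in
/-- `j_{q²} ∈ F_{Mqq}`. -/
def jqq : _root_.Fermat.Agent.A2.Mod.FE E (M * q * q) := jE E (M * q * q) (q * q) ⟨M, by ring⟩

variable (E M q) in
/-- `j ∈ F_{Mq}`. -/
def jone : _root_.Fermat.Agent.A2.Mod.FE E (M * q) := jE E (M * q) 1 (one_dvd _)

theorem coe_jqq : ((jqq E M q : _root_.Fermat.Agent.A2.Mod.FE E (M * q * q)) : LaurentSeries E) =
    castE E (qExpand ℤ (q * q) (jqModC ℤ)) := coe_jE' E _ _ _

theorem coe_jone : ((jone E M q : _root_.Fermat.Agent.A2.Mod.FE E (M * q)) : LaurentSeries E) = castE E (jqModC ℤ) := by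
  rw [jone, coe_jE', qExpand_one_apply]

/-- `ℤ[J, J_q]` maps into `F_{Mq}`. -/
theorem castE_mem_of_mem_jjRing {g : LaurentSeries ℤ} (hg : g ∈ jjRing q) :
    castE E g ∈ _root_.Fermat.Agent.A2.Mod.FE E (M * q) := by
  have hle : jjRing q ≤ (_root_.Fermat.Agent.A2.Mod.FE E (M * q)).toSubring.comap (castE E) := by
    rw [jjRing, Subring.closure_le]
    rintro x (rfl | rfl)
    · show castE E (jqModC ℤ) ∈ _root_.Fermat.Agent.A2.Mod.FE E (M * q)
      rw [castE_j]
      exact H378.jser_mem E (M * q) 1 (one_dvd _)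
    · show castE E (qExpand ℤ q (jqModC ℤ)) ∈ _root_.Fermat.Agent.A2.Mod.FE E (M * q)
      rw [castE_qExpand_j]
      exact H378.jser_mem E (M * q) q (dvd_mul_left q M)
  exact hle hg

/-- `j_{q²} ∉ α(F_{Mq})` (Fricke: otherwise `j_M ∈ E((t^q))`). -/
theorem jqq_not_mem_range (hqM : ¬ q ∣ M) (g : _root_.Fermat.Agent.A2.Mod.FE E (M * q)) :
    αE E (M * q) q g ≠ jqq E M q := by
  intro h
  have hc := H553.frickeCompat E (M * q) q (H553.wE E (M * q)) (H553.wE E (M * q * q))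
    (H553.isFricke_wE E (M * q)) (H553.isFricke_wE E (M * q * q)) g
  have h1 : H553.wE E (M * q * q) (jqq E M q) = jE E (M * q * q) M ⟨q * q, by ring⟩ :=
    H553.wE_jE E (M * q * q) (q * q) M _ _ (by ring)
  rw [h, h1] at hc
  have h2 := congrArg (fun z : _root_.Fermat.Agent.A2.Mod.FE E (M * q * q) => ((z : LaurentSeries E)).coeff (-(M : ℤ))) hc.1
  simp only [coe_heckeBetaBar] at h2
  rw [coe_jE', castE_coeff,
    show (-(M : ℤ)) = (M : ℤ) * (-1) by ring, qExpand_coeff_mul, coeff_jqModC_neg_one] at h2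
  rw [show (M : ℤ) * (-1) = -(M : ℤ) by ring, qExpand_coeff_of_not_dvd] at h2
  · simp at h2
  · rw [Int.dvd_neg]
    exact_mod_cast hqM

/-- the comparison `valHom ∘ α = valV` on `V1`. -/
theorem valHom_comp_phi (V1 : ValuationSubring (_root_.Fermat.Agent.A2.Mod.FE E (M * q))) :
    letI : Algebra (_root_.Fermat.Agent.A2.Mod.FE E (M * q)) (_root_.Fermat.Agent.A2.Mod.FE E (M * q * q)) := algebraAlong (αE E (M * q) q)
    (H378.valHom E (M * q * q)).comp (phi (L := _root_.Fermat.Agent.A2.Mod.FE E (M * q * q)) V1) = valV V1 := by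
  letI : Algebra (_root_.Fermat.Agent.A2.Mod.FE E (M * q)) (_root_.Fermat.Agent.A2.Mod.FE E (M * q * q)) := algebraAlong (αE E (M * q) q)
  refine RingHom.ext fun x => ?_
  have h : algebraMap (_root_.Fermat.Agent.A2.Mod.FE E (M * q)) (_root_.Fermat.Agent.A2.Mod.FE E (M * q * q)) = (αE E (M * q) q).toRingHom :=
    RingHom.algebraMap_toAlgebra _
  rw [RingHom.comp_apply, phi_apply, h, H378.valHom_apply, valV_apply]
  exact coe_heckeAlphaBar (M * q) q (x : _root_.Fermat.Agent.A2.Mod.FE E (M * q))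

theorem finrank_alpha (hq : q.Prime) :
    letI : Algebra (_root_.Fermat.Agent.A2.Mod.FE E (M * q)) (_root_.Fermat.Agent.A2.Mod.FE E (M * q * q)) := algebraAlong (αE E (M * q) q)
    Module.finrank (_root_.Fermat.Agent.A2.Mod.FE E (M * q)) (_root_.Fermat.Agent.A2.Mod.FE E (M * q * q)) = q := by
  have h := Fermat.Agent.S37.H818.finrankAlong_heckeAlphaBar' (L := E) (M * q) q hq
  rw [if_pos (dvd_mul_left q M)] at h
  exact h

theorem finite_alpha (hq : q.Prime) :
    letI : Algebra (_root_.Fermat.Agent.A2.Mod.FE E (M * q)) (_root_.Fermat.Agent.A2.Mod.FE E (M * q * q)) := algebraAlong (αE E (M * q) q)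
    FiniteDimensional (_root_.Fermat.Agent.A2.Mod.FE E (M * q)) (_root_.Fermat.Agent.A2.Mod.FE E (M * q * q)) :=
  Fermat.Agent.S37.H818.finiteAlong_heckeAlphaBar (L := E) (M * q) q hq

/-- **The Eisenstein-split data at level `q² M`.** -/
theorem exists_eisData (hS : Setting P E M q w) (hun : Unram P E q w)
    {A : LaurentSeries ℤ} {Ψ G : (LaurentSeries ℤ)[X]} (hE : EisSeries q A Ψ G)
    {V1 : ValuationSubring (_root_.Fermat.Agent.A2.Mod.FE E (M * q))} (hV1 : IsVinf P E (M * q) V1) :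
    letI : Algebra (_root_.Fermat.Agent.A2.Mod.FE E (M * q)) (_root_.Fermat.Agent.A2.Mod.FE E (M * q * q)) := algebraAlong (αE E (M * q) q)
    ∃ (Ψ' G' : V1[X]) (a c : V1),
      valV V1 a = castE E A ∧ ((c : V1) : _root_.Fermat.Agent.A2.Mod.FE E (M * q)) = jone E M q ∧
      EisData V1 (cE P E (M * q) w) (jqq E M q) Ψ' G' a c (q - 1) := by
  letI : Algebra (_root_.Fermat.Agent.A2.Mod.FE E (M * q)) (_root_.Fermat.Agent.A2.Mod.FE E (M * q * q)) := algebraAlong (αE E (M * q) q)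
  haveI := hS.dvr
  have hq := hS.q_prime
  haveI : FiniteDimensional (_root_.Fermat.Agent.A2.Mod.FE E (M * q)) (_root_.Fermat.Agent.A2.Mod.FE E (M * q * q)) := finite_alpha hq
  have hMq : M * q ≠ 0 := NeZero.ne _
  obtain ⟨u, hu⟩ := hun
  -- the subring of integral series with expansion in `F_{Mq}`
  set T : Subring (LaurentSeries ℤ) := (_root_.Fermat.Agent.A2.Mod.FE E (M * q)).toSubring.comap (castE E) with hT
  have hjjT : jjRing q ≤ T := fun g hg => castE_mem_of_mem_jjRing hg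
  have hTlift : ∀ Q : (LaurentSeries ℤ)[X], Q ∈ Polynomial.liftsRing T.subtype →
      ∀ i, castE E (Q.coeff i) ∈ _root_.Fermat.Agent.A2.Mod.FE E (M * q) := by
    intro Q hQ i
    rw [← Polynomial.lifts_iff_liftsRing, Polynomial.lifts_iff_coeff_lifts] at hQ
    obtain ⟨x, hx⟩ := hQ i
    rw [← hx]
    exact x.2
  have hliftT : ∀ Q : (LaurentSeries ℤ)[X], (∀ i, Q.coeff i ∈ T) →
      Q ∈ Polynomial.liftsRing T.subtype := by
    intro Q hQ
    rw [← Polynomial.lifts_iff_liftsRing, Polynomial.lifts_iff_coeff_lifts]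
    exact fun i => ⟨⟨_, hQ i⟩, rfl⟩
  have hCT : ∀ g ∈ T, (Polynomial.C g : (LaurentSeries ℤ)[X]) ∈ Polynomial.liftsRing T.subtype := by
    intro g hg
    rw [← Polynomial.lifts_iff_liftsRing]
    exact Polynomial.C_mem_lifts T.subtype ⟨g, hg⟩
  have hXT : (Polynomial.X : (LaurentSeries ℤ)[X]) ∈ Polynomial.liftsRing T.subtype := by
    rw [← Polynomial.lifts_iff_liftsRing]
    exact Polynomial.X_mem_lifts T.subtype
  have hJT : jqModC ℤ ∈ T := hjjT (Subring.subset_closure (by simp))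
  have hAT : A ∈ T := hjjT hE.A_mem
  have hΨT : Ψ ∈ Polynomial.liftsRing T.subtype := hliftT Ψ fun i => hjjT (hE.coeff_mem i)
  -- coefficients of `G`
  have hqG : Polynomial.C (q : LaurentSeries ℤ) * G ∈ Polynomial.liftsRing T.subtype := by
    have : Polynomial.C (q : LaurentSeries ℤ) * G =
        Ψ - (Polynomial.X - Polynomial.C A) *
          (Polynomial.X - Polynomial.C (jqModC ℤ)) ^ (q - 1) := by
      conv_rhs => rw [hE.dec]
      ring
    rw [this]
    exact sub_mem hΨT (mul_mem (sub_mem hXT (hCT _ hAT)) (pow_mem (sub_mem hXT (hCT _ hJT)) _))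
  have hq0E : ((q : ℕ) : LaurentSeries E) ≠ 0 := by
    have : ((q : ℕ) : LaurentSeries E) = algebraMap E (LaurentSeries E) ((q : ℕ) : E) :=
      (map_natCast _ q).symm
    rw [this]
    exact (map_ne_zero_iff _ (algebraMap E (LaurentSeries E)).injective).mpr
      (Nat.cast_ne_zero.mpr hq.ne_zero)
  have hqmem : ((q : ℕ) : LaurentSeries E) ∈ _root_.Fermat.Agent.A2.Mod.FE E (M * q) := natCast_mem _ q
  have hGF : ∀ i, castE E (G.coeff i) ∈ _root_.Fermat.Agent.A2.Mod.FE E (M * q) := by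
    intro i
    have h1 := hTlift _ hqG i
    rw [Polynomial.coeff_C_mul, map_mul, castE_natCast] at h1
    have h2 : castE E (G.coeff i) =
        ((q : ℕ) : LaurentSeries E)⁻¹ * (((q : ℕ) : LaurentSeries E) * castE E (G.coeff i)) := by
      rw [← mul_assoc, inv_mul_cancel₀ hq0E, one_mul]
    rw [h2]
    exact mul_mem (inv_mem hqmem) h1
  -- lifts
  obtain ⟨Ψ', hΨ'⟩ := exists_lift_poly hV1 Ψ (hTlift Ψ hΨT)
  obtain ⟨G₁, hG₁⟩ := exists_lift_poly hV1 G hGF
  obtain ⟨a, ha⟩ := exists_lift hV1 A hAT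
  obtain ⟨c, hc⟩ := exists_lift hV1 (jqModC ℤ) hJT
  have hcj : ((c : V1) : _root_.Fermat.Agent.A2.Mod.FE E (M * q)) = jone E M q := by
    apply Subtype.ext
    rw [coe_jone]
    exact hc
  have hinj := valV_injective V1
  have hL2 := H553.vinfBasic P E w (M * q) hMq hS.dvr hS.unif V1 hV1
  have hunif : IsUnif V1 (cE P E (M * q) w) := hL2.1
  set uO : V1 := ⟨cE P E (M * q) (u : _root_.Fermat.Agent.A2.Mod.RE P E), cE_mem_vinf hV1 _⟩ with huO
  have huOinv : ((uO : V1) : _root_.Fermat.Agent.A2.Mod.FE E (M * q))⁻¹ ∈ V1 := by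
    have : ((uO : V1) : _root_.Fermat.Agent.A2.Mod.FE E (M * q))⁻¹ = cE P E (M * q) ((u⁻¹ : (_root_.Fermat.Agent.A2.Mod.RE P E)ˣ) : _root_.Fermat.Agent.A2.Mod.RE P E) := by
      rw [huO]
      show (algebraMap E (_root_.Fermat.Agent.A2.Mod.FE E (M * q)) ((u : _root_.Fermat.Agent.A2.Mod.RE P E) : E))⁻¹ = algebraMap E (_root_.Fermat.Agent.A2.Mod.FE E (M * q)) _
      rw [← map_inv₀]
      congr 1
      apply inv_eq_of_mul_eq_one_right
      have h5 := congrArg (_root_.Fermat.Agent.A2.Mod.RE P E).subtype u.mul_inv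
      rw [map_mul, map_one] at h5
      exact h5
    rw [this]
    exact cE_mem_vinf hV1 _
  have huO0 : ((uO : V1) : _root_.Fermat.Agent.A2.Mod.FE E (M * q)) ≠ 0 := by
    rw [huO]
    show algebraMap E (_root_.Fermat.Agent.A2.Mod.FE E (M * q)) ((u : _root_.Fermat.Agent.A2.Mod.RE P E) : E) ≠ 0
    exact (map_ne_zero_iff _ (algebraMap E (_root_.Fermat.Agent.A2.Mod.FE E (M * q))).injective).mpr
      (fun h => u.ne_zero (Subtype.ext h))
  have hwu : valV V1 ⟨cE P E (M * q) w, hunif.mem⟩ * valV V1 uO = ((q : ℕ) : LaurentSeries E) := by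
    have h1 : cE P E (M * q) w * cE P E (M * q) (u : _root_.Fermat.Agent.A2.Mod.RE P E) = ((q : ℕ) : _root_.Fermat.Agent.A2.Mod.FE E (M * q)) := by
      simp only [cE]
      rw [← map_mul, ← hu, map_natCast]
    have h2 := congrArg (fun z : _root_.Fermat.Agent.A2.Mod.FE E (M * q) => (z : LaurentSeries E)) h1
    show ((cE P E (M * q) w : _root_.Fermat.Agent.A2.Mod.FE E (M * q)) : LaurentSeries E) *
      ((cE P E (M * q) (u : _root_.Fermat.Agent.A2.Mod.RE P E) : _root_.Fermat.Agent.A2.Mod.FE E (M * q)) : LaurentSeries E) = _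
    simpa using h2
  -- the fields
  have hmonic : Ψ'.Monic := Polynomial.monic_of_injective hinj (by rw [hΨ']; exact hE.monic.map _)
  have hdeg : Ψ'.natDegree = Module.finrank (_root_.Fermat.Agent.A2.Mod.FE E (M * q)) (_root_.Fermat.Agent.A2.Mod.FE E (M * q * q)) := by
    rw [finrank_alpha hq, ← Polynomial.natDegree_map_eq_of_injective hinj, hΨ',
      hE.monic.natDegree_map, hE.natDegree_eq]
  have hroot : Ψ'.eval₂ (phi V1) (jqq E M q) = 0 := by
    apply (H378.valHom E (M * q * q)).injective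
    rw [Polynomial.hom_eval₂, valHom_comp_phi, map_zero, ← Polynomial.eval_map, hΨ',
      H378.valHom_apply, coe_jqq, Polynomial.eval_map, Polynomial.eval₂_at_apply, hE.root,
      map_zero]
  have hyK : jqq E M q ∉ (algebraMap (_root_.Fermat.Agent.A2.Mod.FE E (M * q)) (_root_.Fermat.Agent.A2.Mod.FE E (M * q * q))).range := by
    rintro ⟨g, hg⟩
    exact jqq_not_mem_range hS.q_not_dvd g hg
  have hprime : (Module.finrank (_root_.Fermat.Agent.A2.Mod.FE E (M * q)) (_root_.Fermat.Agent.A2.Mod.FE E (M * q * q))).Prime := by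
    rw [finrank_alpha hq]
    exact hq
  have hmin := minpoly_eq_map_of_prime hmonic hprime hdeg hroot hyK
  have hdec : Ψ' = (Polynomial.X - Polynomial.C a) * (Polynomial.X - Polynomial.C c) ^ (q - 1) +
      Polynomial.C ⟨cE P E (M * q) w, hunif.mem⟩ * (Polynomial.C uO * G₁) := by
    apply Polynomial.map_injective _ hinj
    rw [hΨ']
    conv_lhs => rw [hE.dec]
    simp only [Polynomial.map_add, Polynomial.map_mul, Polynomial.map_pow, Polynomial.map_sub,
      Polynomial.map_X, Polynomial.map_C, hG₁, ha, hc]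
    rw [← mul_assoc, ← Polynomial.C_mul, hwu, castE_natCast]
  have hsub : IsUnit (a - c) := by
    have hser : (((a - c : V1) : _root_.Fermat.Agent.A2.Mod.FE E (M * q)) : LaurentSeries E) = castE E (A - jqModC ℤ) := by
      rw [map_sub, ← ha, ← hc]
      rfl
    refine isUnit_of_inv_mem ?_ (inv_mem_of_castE hq hS.lies_over hV1 hser hE.A_unit)
    intro h0
    rw [h0] at hser
    have h1 : A - jqModC ℤ = 0 := castE_injective E (by rw [map_zero]; exact hser.symm)
    obtain ⟨n, hn⟩ := hE.A_unit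
    rw [h1] at hn
    exact hn (by simp)
  have hGu : IsUnit ((Polynomial.C uO * G₁).eval c) := by
    rw [Polynomial.eval_mul, Polynomial.eval_C]
    have hser : (((G₁.eval c : V1) : _root_.Fermat.Agent.A2.Mod.FE E (M * q)) : LaurentSeries E) =
        castE E (G.eval (jqModC ℤ)) := by
      have h1 : valV V1 (G₁.eval c) = (G₁.map (valV V1)).eval (valV V1 c) := by
        rw [Polynomial.eval_map, Polynomial.eval₂_at_apply]
      rw [hG₁, hc, Polynomial.eval_map, Polynomial.eval₂_at_apply] at h1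
      exact h1
    have hG0 : ((G₁.eval c : V1) : _root_.Fermat.Agent.A2.Mod.FE E (M * q)) ≠ 0 := by
      intro h0
      rw [h0] at hser
      have h1 : G.eval (jqModC ℤ) = 0 := castE_injective E (by rw [map_zero]; exact hser.symm)
      obtain ⟨n, hn⟩ := hE.unit
      rw [h1] at hn
      exact hn (by simp)
    exact (isUnit_of_inv_mem huO0 huOinv).mul
      (isUnit_of_inv_mem hG0 (inv_mem_of_castE hq hS.lies_over hV1 hser hE.unit))
  refine ⟨Ψ', Polynomial.C uO * G₁, a, c, ha, hcj, ?_⟩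
  exact
    { unif := hunif
      arch := arch_vinf hS.unif hV1
      monic := hmonic
      minpoly_eq := hmin
      gen := gen_of_natDegree_eq hmin hdeg
      pos := by have := hq.two_le; omega
      dec := hdec
      unit_sub := hsub
      unit_G := hGu }

variable (E M q) in
/-- `j ∈ F_{Mqq}`. -/
def jtop : _root_.Fermat.Agent.A2.Mod.FE E (M * q * q) := jE E (M * q * q) 1 (one_dvd _)

theorem alpha_jone : αE E (M * q) q (jone E M q) = jtop E M q :=
  H553.αE_jE E (M * q) q 1 (one_dvd _)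

theorem alpha_cE' (N : ℕ) [NeZero N] (r : _root_.Fermat.Agent.A2.Mod.RE P E) :
    αE E N q (cE P E N r) = cE P E (N * q) r :=
  (αE E N q).commutes (r : E)

/-- **MOD3, `α`-side**: the Gauss valuation `V = V_FF` and the middle valuation `V_mid` are
exactly the valuation rings of `F_{Mqq}` lying over the Gauss valuation `V1` of `F_{Mq}` along
`α`; `e(V_FF) = 1`, `e(V_mid) = q - 1` with uniformiser `j_{q²} - j`, residue degrees one. -/
theorem mod3_alpha (hS : Setting P E M q w) (hun : Unram P E q w)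
    {A : LaurentSeries ℤ} {Ψ G : (LaurentSeries ℤ)[X]} (hE : EisSeries q A Ψ G)
    {V1 : ValuationSubring (_root_.Fermat.Agent.A2.Mod.FE E (M * q))} (hV1 : IsVinf P E (M * q) V1)
    {V : ValuationSubring (_root_.Fermat.Agent.A2.Mod.FE E (M * q * q))} (hV : IsVinf P E (M * q * q) V) :
    ∃ Vmid : ValuationSubring (_root_.Fermat.Agent.A2.Mod.FE E (M * q * q)),
      Vmid ≠ V ∧
      (∀ k, αE E (M * q) q k ∈ Vmid ↔ k ∈ V1) ∧
      IsUnif Vmid (jqq E M q - jtop E M q) ∧
      (∃ u, u ∈ Vmid ∧ u⁻¹ ∈ Vmid ∧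
        (jqq E M q - jtop E M q) ^ (q - 1) = cE P E (M * q * q) w * u) ∧
      (∀ f ∈ Vmid, ∃ g ∈ V1,
        (f - αE E (M * q) q g) * (jqq E M q - jtop E M q)⁻¹ ∈ Vmid) ∧
      (∀ f ∈ V, ∃ g ∈ V1, (f - αE E (M * q) q g) * (cE P E (M * q * q) w)⁻¹ ∈ V) ∧
      (∀ V' : ValuationSubring (_root_.Fermat.Agent.A2.Mod.FE E (M * q * q)),
        (∀ k, αE E (M * q) q k ∈ V' ↔ k ∈ V1) → V' = V ∨ V' = Vmid) := by
  letI : Algebra (_root_.Fermat.Agent.A2.Mod.FE E (M * q)) (_root_.Fermat.Agent.A2.Mod.FE E (M * q * q)) := algebraAlong (αE E (M * q) q)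
  haveI := hS.dvr
  have hq := hS.q_prime
  obtain ⟨Ψ', G', a, c, ha, hcj, h⟩ := exists_eisData hS hun hE hV1
  have halg : ∀ k : _root_.Fermat.Agent.A2.Mod.FE E (M * q),
      algebraMap (_root_.Fermat.Agent.A2.Mod.FE E (M * q)) (_root_.Fermat.Agent.A2.Mod.FE E (M * q * q)) k = αE E (M * q) q k := fun k => rfl
  have hc' : algebraMap (_root_.Fermat.Agent.A2.Mod.FE E (M * q)) (_root_.Fermat.Agent.A2.Mod.FE E (M * q * q)) (c : _root_.Fermat.Agent.A2.Mod.FE E (M * q)) = jtop E M q := by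
    rw [halg, hcj, alpha_jone]
  have hw' : algebraMap (_root_.Fermat.Agent.A2.Mod.FE E (M * q)) (_root_.Fermat.Agent.A2.Mod.FE E (M * q * q)) (cE P E (M * q) w) =
      cE P E (M * q * q) w := by
    rw [halg, alpha_cE']
  have hN : M * q * q ≠ 0 := NeZero.ne _
  have hL2 := H553.vinfBasic P E w (M * q * q) hN hS.dvr hS.unif V hV
  have hover : ∀ k : _root_.Fermat.Agent.A2.Mod.FE E (M * q),
      algebraMap (_root_.Fermat.Agent.A2.Mod.FE E (M * q)) (_root_.Fermat.Agent.A2.Mod.FE E (M * q * q)) k ∈ V ↔ k ∈ V1 := fun k => by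
    rw [halg]
    exact alpha_mem_iff' hV1 hV k
  -- `V` is `V_a`
  have hVa : V = h.Va := by
    rcases h.eq_Va_or_eq_Vc V hover with h1 | h1
    · exact h1
    exfalso
    have hinv := h.inv_sub_a_mem_Vc
    rw [← h1] at hinv
    obtain ⟨H, hH⟩ := hE.A_cong
    obtain ⟨u, hu⟩ := hun
    set d : _root_.Fermat.Agent.A2.Mod.FE E (M * q * q) :=
      jqq E M q - algebraMap (_root_.Fermat.Agent.A2.Mod.FE E (M * q)) (_root_.Fermat.Agent.A2.Mod.FE E (M * q * q)) (a : _root_.Fermat.Agent.A2.Mod.FE E (M * q)) with hd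
    have hdser : (d : LaurentSeries E) = ((q : ℕ) : LaurentSeries E) * castE E H := by
      rw [hd, halg]
      have h2 : ((jqq E M q - αE E (M * q) q (a : _root_.Fermat.Agent.A2.Mod.FE E (M * q)) : _root_.Fermat.Agent.A2.Mod.FE E (M * q * q)) :
          LaurentSeries E) = (jqq E M q : LaurentSeries E) -
            ((αE E (M * q) q (a : _root_.Fermat.Agent.A2.Mod.FE E (M * q)) : _root_.Fermat.Agent.A2.Mod.FE E (M * q * q)) : LaurentSeries E) := rfl
      rw [h2, coe_heckeAlphaBar, coe_jqq, ← valV_apply, ha, ← map_sub, hH, map_mul,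
        castE_natCast]
    have hd0 : d ≠ 0 := by
      intro h0
      have : jqq E M q = algebraMap (_root_.Fermat.Agent.A2.Mod.FE E (M * q)) (_root_.Fermat.Agent.A2.Mod.FE E (M * q * q)) (a : _root_.Fermat.Agent.A2.Mod.FE E (M * q)) :=
        sub_eq_zero.mp (hd ▸ h0)
      exact jqq_not_mem_range hS.q_not_dvd (a : _root_.Fermat.Agent.A2.Mod.FE E (M * q)) ((halg _).symm.trans this.symm)
    have hq0 : ((q : ℕ) : _root_.Fermat.Agent.A2.Mod.FE E (M * q * q)) ≠ 0 := Nat.cast_ne_zero.mpr hq.ne_zero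
    have hfH : d * ((q : ℕ) : _root_.Fermat.Agent.A2.Mod.FE E (M * q * q))⁻¹ ∈ V := by
      refine mem_of_castE hV (g := H) ?_
      have h3 : ((d * ((q : ℕ) : _root_.Fermat.Agent.A2.Mod.FE E (M * q * q))⁻¹ : _root_.Fermat.Agent.A2.Mod.FE E (M * q * q)) : LaurentSeries E) =
          (d : LaurentSeries E) * (((q : ℕ) : LaurentSeries E))⁻¹ := by
        rw [IntermediateField.coe_mul, IntermediateField.coe_inv]
        simp
      have hq0' : ((q : ℕ) : LaurentSeries E) ≠ 0 := by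
        intro h4
        apply hq0
        apply Subtype.ext
        simpa using h4
      rw [h3, hdser]
      field_simp
    have hqw : ((q : ℕ) : _root_.Fermat.Agent.A2.Mod.FE E (M * q * q)) =
        cE P E (M * q * q) w * cE P E (M * q * q) (u : _root_.Fermat.Agent.A2.Mod.RE P E) := by
      simp only [cE]
      rw [← map_mul, ← hu, map_natCast]
    have hw0 : cE P E (M * q * q) w ≠ 0 := hL2.1.ne_zero
    have hu0 : cE P E (M * q * q) (u : _root_.Fermat.Agent.A2.Mod.RE P E) ≠ 0 := by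
      intro h0
      rw [h0, mul_zero] at hqw
      exact hq0 hqw
    have hdw : d * (cE P E (M * q * q) w)⁻¹ ∈ V := by
      have : d * (cE P E (M * q * q) w)⁻¹ =
          (d * ((q : ℕ) : _root_.Fermat.Agent.A2.Mod.FE E (M * q * q))⁻¹) * cE P E (M * q * q) (u : _root_.Fermat.Agent.A2.Mod.RE P E) := by
        rw [hqw]
        field_simp
      rw [this]
      exact mul_mem hfH (cE_mem_vinf hV _)
    apply hL2.1.inv_not_mem
    have : (cE P E (M * q * q) w)⁻¹ = (d * (cE P E (M * q * q) w)⁻¹) * d⁻¹ := by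
      field_simp
    rw [this]
    exact mul_mem hdw hinv
  refine ⟨h.Vc, ?_, ?_, ?_, ?_, ?_, ?_, ?_⟩
  · rw [hVa]
    exact h.Va_ne_Vc.symm
  · intro k
    rw [← halg]
    exact h.algebraMap_mem_Vc_iff k
  · have := h.isUnif_Vc
    rwa [hc'] at this
  · obtain ⟨u, hu1, hu2, hu3⟩ := h.exists_unit_Vc
    rw [hc', hw'] at hu3
    exact ⟨u, hu1, hu2, hu3⟩
  · intro f hf
    obtain ⟨g, hg, hfg⟩ := h.residue_Vc hf
    rw [hc'] at hfg
    exact ⟨g, hg, hfg⟩
  · intro f hf
    rw [hVa] at hf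
    obtain ⟨g, hg, hfg⟩ := h.residue_Va hf
    rw [hw', ← hVa] at hfg
    exact ⟨g, hg, hfg⟩
  · intro V' hV'
    rcases h.eq_Va_or_eq_Vc V' hV' with h1 | h1
    · left
      rw [hVa]
      exact h1
    · right
      exact h1

end Alpha

end Fermat.Agent.S36.H972

end

end
-- ===== PACK-END S36/H972/Mod3.lean

-- ===== PACK-BEGIN S36/Mod3/H276/CuspChart.lean
section




/-!
# S36 / MOD3, cell REG (R-I): the chart at infinity at the cusps (helper276)

Concrete objects of `Mod3/Spec.lean`: `j = j1`, `j_q = jq`, `j_{q²} = jqq`, `x = x3E = j j_q j_{q²}`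
at level `M q q`; `Bi = chart R {x⁻¹}`.

* `tcusp = (j_{q²} - j) j_q / (j ^ q j_{q²})` — the local parameter of the middle component at its
  cusps; `tcusp_mem_chart : tcusp ∈ Bi`;
* `zcusp = j_q / (j ^ (q - 1) j_{q²})`, `eab = j_q / j ^ q`, `eba = j / j_q ^ q`,
  `ebc = j_{q²} / j_q ^ q`, `ecb = j_q / j_{q²} ^ q` : all in `Bi`; `tcusp = eab - zcusp`;
* `inv_mem_of_cusp` : a closed point `𝔪` of `Bi` with `x⁻¹ ∈ 𝔪` contains `j⁻¹`, `j_q⁻¹`,
  `j_{q²}⁻¹`;
* `one_add_not_mem_of_cusp` : hence `1 + j⁻¹ c ∉ 𝔪` for every `c ∈ Bi`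
  (`(1 - 1728 / j) ^ n ∉ 𝔪`, `H(j) / j ^ (q - 1) ∉ 𝔪` for `H` monic of degree `q - 1`).

Only `q` prime is used (`S28.H807.nonempty_modPolyData`, `S15.H386.isModularShape_of_modPolyData`,
`S15.H962.val_root_of_isModularShape`).
-/

set_option autoImplicit false
set_option linter.style.haveILetI false
set_option linter.unusedSectionVars false
set_option synthInstance.maxHeartbeats 400000
set_option maxHeartbeats 1600000

noncomputable section

namespace Fermat.Agent.S36.Mod3.H276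

open ModularCurve Polynomial
open Fermat.Agent.S18.H138 (chart mem_chart_of_mem)
open Fermat.Agent
open Fermat.Agent.S15.H962 (IsModularShape eval2)

variable (P : ValuationSubring A2.Qb) (E : IntermediateField ℚ A2.Qb) (M q : ℕ)
  [NeZero M] [NeZero q] [NeZero (M * q)]

/-! ## The elements -/

/-- The local parameter of the middle component at its cusps. -/
def tcusp : A2.Mod.FE E (M * q * q) :=
  (jqq E M q - j1 E M q) * jq E M q * (j1 E M q ^ q * jqq E M q)⁻¹

/-- `j_q / (j ^ (q - 1) j_{q²})`. -/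
def zcusp : A2.Mod.FE E (M * q * q) :=
  jq E M q * (j1 E M q ^ (q - 1) * jqq E M q)⁻¹

/-- `j_q / j ^ q`. -/
def eab : A2.Mod.FE E (M * q * q) := jq E M q * (j1 E M q ^ q)⁻¹

/-- `j / j_q ^ q`. -/
def eba : A2.Mod.FE E (M * q * q) := j1 E M q * (jq E M q ^ q)⁻¹

/-- `j_{q²} / j_q ^ q`. -/
def ebc : A2.Mod.FE E (M * q * q) := jqq E M q * (jq E M q ^ q)⁻¹

/-- `j_q / j_{q²} ^ q`. -/
def ecb : A2.Mod.FE E (M * q * q) := jq E M q * (jqq E M q ^ q)⁻¹

theorem j1_ne_zero : j1 E M q ≠ 0 := A2.Mod.H873.jE_ne_zero E _ _ _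

theorem jq_ne_zero : jq E M q ≠ 0 := A2.Mod.H873.jE_ne_zero E _ _ _

theorem jqq_ne_zero : jqq E M q ≠ 0 :=
  haveI : NeZero (q * q) := ⟨Nat.mul_ne_zero (NeZero.ne q) (NeZero.ne q)⟩
  A2.Mod.H873.jE_ne_zero E _ _ _

theorem x3E_ne_zero : x3E E M q ≠ 0 :=
  mul_ne_zero (mul_ne_zero (j1_ne_zero E M q) (jq_ne_zero E M q)) (jqq_ne_zero E M q)

theorem tcusp_eq (hq : 0 < q) : tcusp E M q = eab E M q - zcusp E M q := by
  have h1 := j1_ne_zero E M q
  have h3 := jqq_ne_zero E M q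
  have hqq : j1 E M q ^ q = j1 E M q ^ (q - 1) * j1 E M q := by
    rw [← pow_succ]
    congr 1
    omega
  unfold tcusp eab zcusp
  rw [hqq]
  field_simp

/-! ## The modular equations in the `eval2` convention -/

section ModEq

variable (D : S28.ModPolyData q)

theorem eval2_j1_jq : eval2 D.Φ (j1 E M q) (jq E M q) = 0 :=
  (eval2_eq_aeval D.Φ _ _).trans (H189.modEq_jq_j E M q D)

theorem eval2_jq_j1 : eval2 D.Φ (jq E M q) (j1 E M q) = 0 :=
  (eval2_eq_aeval D.Φ _ _).trans (H189.modEq_j_jq E M q D)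

theorem eval2_jq_jqq : eval2 D.Φ (jq E M q) (jqq E M q) = 0 :=
  (eval2_eq_aeval D.Φ _ _).trans (H189.modEq_jqq_jq E M q D)

theorem eval2_jqq_jq : eval2 D.Φ (jqq E M q) (jq E M q) = 0 :=
  (eval2_eq_aeval D.Φ _ _).trans (H189.modEq_jq_jqq E M q D)

end ModEq

/-! ## Membership in the chart at infinity -/

section Mem

variable (hq : q.Prime)
include hq

/-- the inverses of `j`, `j_q`, `j_{q²}` lie in every valuation ring containing `x⁻¹` -/
theorem inv_mem_of_inv_mem (V : ValuationSubring (A2.Mod.FE E (M * q * q)))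
    (hV : (x3E E M q)⁻¹ ∈ V) :
    (j1 E M q)⁻¹ ∈ V ∧ (jq E M q)⁻¹ ∈ V ∧ (jqq E M q)⁻¹ ∈ V :=
  H189.inv_mem_of_x3_inv_mem E M q hq V hV

/-- **`tcusp ∈ Bi`.** -/
theorem tcusp_mem_chart :
    tcusp E M q ∈ chart (A2.RE P E) ({(x3E E M q)⁻¹} : Set (A2.Mod.FE E (M * q * q))) := by
  obtain ⟨D⟩ := S28.H807.nonempty_modPolyData q hq
  have hΦ := S15.H386.isModularShape_of_modPolyData D hq.one_lt
  refine H189.mem_chart_of_forall_valuationSubring fun V hV => ?_
  obtain ⟨hu, -, hr⟩ := inv_mem_of_inv_mem E M q hq V hV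
  exact tcusp_mem hq.two_le hΦ (eval2_j1_jq E M q D) (eval2_jq_jqq E M q D) V hu hr

/-- `j_q / j ^ q ∈ Bi`. -/
theorem eab_mem_chart :
    eab E M q ∈ chart (A2.RE P E) ({(x3E E M q)⁻¹} : Set (A2.Mod.FE E (M * q * q))) := by
  obtain ⟨D⟩ := S28.H807.nonempty_modPolyData q hq
  have hΦ := S15.H386.isModularShape_of_modPolyData D hq.one_lt
  refine H189.mem_chart_of_forall_valuationSubring fun V hV => ?_
  obtain ⟨hu, -, -⟩ := inv_mem_of_inv_mem E M q hq V hV
  exact pair_mem hq.pos hΦ (eval2_j1_jq E M q D) V hu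

/-- `j / j_q ^ q ∈ Bi`. -/
theorem eba_mem_chart :
    eba E M q ∈ chart (A2.RE P E) ({(x3E E M q)⁻¹} : Set (A2.Mod.FE E (M * q * q))) := by
  obtain ⟨D⟩ := S28.H807.nonempty_modPolyData q hq
  have hΦ := S15.H386.isModularShape_of_modPolyData D hq.one_lt
  refine H189.mem_chart_of_forall_valuationSubring fun V hV => ?_
  obtain ⟨-, hs, -⟩ := inv_mem_of_inv_mem E M q hq V hV
  exact pair_mem' hq.pos hΦ (eval2_j1_jq E M q D) V hs

/-- `j_{q²} / j_q ^ q ∈ Bi`. -/
theorem ebc_mem_chart :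
    ebc E M q ∈ chart (A2.RE P E) ({(x3E E M q)⁻¹} : Set (A2.Mod.FE E (M * q * q))) := by
  obtain ⟨D⟩ := S28.H807.nonempty_modPolyData q hq
  have hΦ := S15.H386.isModularShape_of_modPolyData D hq.one_lt
  refine H189.mem_chart_of_forall_valuationSubring fun V hV => ?_
  obtain ⟨-, hs, -⟩ := inv_mem_of_inv_mem E M q hq V hV
  exact pair_mem hq.pos hΦ (eval2_jq_jqq E M q D) V hs

/-- `j_q / j_{q²} ^ q ∈ Bi`. -/
theorem ecb_mem_chart :
    ecb E M q ∈ chart (A2.RE P E) ({(x3E E M q)⁻¹} : Set (A2.Mod.FE E (M * q * q))) := by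
  obtain ⟨D⟩ := S28.H807.nonempty_modPolyData q hq
  have hΦ := S15.H386.isModularShape_of_modPolyData D hq.one_lt
  refine H189.mem_chart_of_forall_valuationSubring fun V hV => ?_
  obtain ⟨-, -, hr⟩ := inv_mem_of_inv_mem E M q hq V hV
  exact pair_mem' hq.pos hΦ (eval2_jq_jqq E M q D) V hr

/-- `j_q / (j ^ (q - 1) j_{q²}) ∈ Bi`. -/
theorem zcusp_mem_chart :
    zcusp E M q ∈ chart (A2.RE P E) ({(x3E E M q)⁻¹} : Set (A2.Mod.FE E (M * q * q))) := by
  have h1 : zcusp E M q = eab E M q - tcusp E M q := by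
    rw [tcusp_eq E M q hq.pos]
    ring
  rw [h1]
  exact sub_mem (eab_mem_chart P E M q hq) (tcusp_mem_chart P E M q hq)

/-! ## The cusps -/

/-- **At a cusp `j⁻¹`, `j_q⁻¹`, `j_{q²}⁻¹` vanish.** -/
theorem inv_mem_of_cusp
    (𝔪 : Ideal (chart (A2.RE P E) ({(x3E E M q)⁻¹} : Set (A2.Mod.FE E (M * q * q)))))
    (h𝔪 : 𝔪.IsMaximal)
    (hx : (⟨(x3E E M q)⁻¹, mem_chart_of_mem rfl⟩ :
      chart (A2.RE P E) ({(x3E E M q)⁻¹} : Set (A2.Mod.FE E (M * q * q)))) ∈ 𝔪) :
    (⟨(j1 E M q)⁻¹, H189.j1_inv_mem_chart P E M q hq⟩ :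
        chart (A2.RE P E) ({(x3E E M q)⁻¹} : Set (A2.Mod.FE E (M * q * q)))) ∈ 𝔪 ∧
      (⟨(jq E M q)⁻¹, H189.jq_inv_mem_chart' P E M q hq⟩ :
        chart (A2.RE P E) ({(x3E E M q)⁻¹} : Set (A2.Mod.FE E (M * q * q)))) ∈ 𝔪 ∧
      (⟨(jqq E M q)⁻¹, H189.jqq_inv_mem_chart' P E M q hq⟩ :
        chart (A2.RE P E) ({(x3E E M q)⁻¹} : Set (A2.Mod.FE E (M * q * q)))) ∈ 𝔪 := by
  obtain ⟨D⟩ := S28.H807.nonempty_modPolyData q hq
  have hΦ := S15.H386.isModularShape_of_modPolyData D hq.one_lt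
  obtain ⟨V, -, hV⟩ := exists_dominating _ 𝔪 h𝔪
  have hxV : (j1 E M q * jq E M q * jqq E M q)⁻¹ ∈ V.nonunits := (hV _).mp hx
  obtain ⟨h1, h2, h3⟩ := inv_mem_nonunits_of_cusp hq.pos hΦ (eval2_j1_jq E M q D)
    (eval2_jq_jqq E M q D) (x3E_ne_zero E M q) V hxV
  exact ⟨(hV _).mpr h1, (hV _).mpr h2, (hV _).mpr h3⟩

/-- **Units at the cusps**: `1 + j⁻¹ c ∉ 𝔪`. -/
theorem one_add_not_mem_of_cusp
    (𝔪 : Ideal (chart (A2.RE P E) ({(x3E E M q)⁻¹} : Set (A2.Mod.FE E (M * q * q)))))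
    (h𝔪 : 𝔪.IsMaximal)
    (hx : (⟨(x3E E M q)⁻¹, mem_chart_of_mem rfl⟩ :
      chart (A2.RE P E) ({(x3E E M q)⁻¹} : Set (A2.Mod.FE E (M * q * q)))) ∈ 𝔪)
    (g c : chart (A2.RE P E) ({(x3E E M q)⁻¹} : Set (A2.Mod.FE E (M * q * q))))
    (hg : (g : A2.Mod.FE E (M * q * q)) = 1 + (j1 E M q)⁻¹ * c) : g ∉ 𝔪 := by
  intro hgm
  have hu := (inv_mem_of_cusp P E M q hq 𝔪 h𝔪 hx).1
  have e : g = 1 + (⟨(j1 E M q)⁻¹, H189.j1_inv_mem_chart P E M q hq⟩ :
      chart (A2.RE P E) ({(x3E E M q)⁻¹} : Set (A2.Mod.FE E (M * q * q)))) * c :=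
    Subtype.ext (by rw [hg]; rfl)
  have h1 : (1 : chart (A2.RE P E) ({(x3E E M q)⁻¹} : Set (A2.Mod.FE E (M * q * q)))) ∈ 𝔪 := by
    have : (1 : chart (A2.RE P E) ({(x3E E M q)⁻¹} : Set (A2.Mod.FE E (M * q * q)))) =
        g - (⟨(j1 E M q)⁻¹, H189.j1_inv_mem_chart P E M q hq⟩ :
          chart (A2.RE P E) ({(x3E E M q)⁻¹} : Set (A2.Mod.FE E (M * q * q)))) * c := by
      rw [e]
      ring
    rw [this]
    exact 𝔪.sub_mem hgm (𝔪.mul_mem_right _ hu)
  exact h𝔪.ne_top ((Ideal.eq_top_iff_one _).mpr h1)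

/-! ## `tcusp` is a uniformiser of the middle component -/

/-- `j`, `j_q`, `j_{q²}` are units of every valuation ring at which `x` is a unit. -/
theorem unitAt_of_x_unit (V : ValuationSubring (A2.Mod.FE E (M * q * q)))
    (hxV : Eng.UnitAt V (x3E E M q)) :
    Eng.UnitAt V (j1 E M q) ∧ Eng.UnitAt V (jq E M q) ∧ Eng.UnitAt V (jqq E M q) := by
  obtain ⟨h1, h2, h3⟩ := H189.mem_of_x3_mem E M q hq V hxV.2.1
  obtain ⟨h1', h2', h3'⟩ := H189.inv_mem_of_x3_inv_mem E M q hq V hxV.2.2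
  exact ⟨⟨j1_ne_zero E M q, h1, h1'⟩, ⟨jq_ne_zero E M q, h2, h2'⟩,
    ⟨jqq_ne_zero E M q, h3, h3'⟩⟩

/-- The unit `ε = j_q / (j ^ q j_{q²})` with `tcusp = (j_{q²} - j) ε`. -/
theorem tcusp_eq_mul : tcusp E M q =
    (jqq E M q - j1 E M q) * (jq E M q * (j1 E M q ^ q * jqq E M q)⁻¹) := by
  unfold tcusp
  ring

theorem eps_unitAt (V : ValuationSubring (A2.Mod.FE E (M * q * q)))
    (hxV : Eng.UnitAt V (x3E E M q)) :
    Eng.UnitAt V (jq E M q * (j1 E M q ^ q * jqq E M q)⁻¹) := by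
  obtain ⟨⟨a0, a1, a2⟩, ⟨b0, b1, b2⟩, ⟨c0, c1, c2⟩⟩ := unitAt_of_x_unit E M q hq V hxV
  refine ⟨mul_ne_zero b0 (inv_ne_zero (mul_ne_zero (pow_ne_zero q a0) c0)), ?_, ?_⟩
  · rw [mul_inv, ← inv_pow]
    exact V.mul_mem _ _ b1 (V.mul_mem _ _ (V.pow_mem a2 q) c2)
  · rw [mul_inv, inv_inv]
    exact V.mul_mem _ _ b2 (V.mul_mem _ _ (V.pow_mem a1 q) c1)

end Mem

/-- A uniformiser times a unit is a uniformiser. -/
theorem unifAt_mul_unit {F : Type*} [Field F] {V : ValuationSubring F} {t ε : F}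
    (ht : Eng.UnifAt V t) (hε : Eng.UnitAt V ε) : Eng.UnifAt V (t * ε) := by
  obtain ⟨t0, t1, t2⟩ := ht
  obtain ⟨e0, e1, e2⟩ := hε
  refine ⟨mul_ne_zero t0 e0, ?_, fun f hf => ?_⟩
  · rw [V.mem_nonunits_iff] at t1 ⊢
    rw [map_mul]
    have h1 : V.valuation ε ≤ 1 := (V.valuation_le_one_iff _).mpr e1
    calc V.valuation t * V.valuation ε ≤ V.valuation t * 1 := by gcongr
      _ = V.valuation t := mul_one _
      _ < 1 := t1
  · have e : f * (t * ε)⁻¹ = f * t⁻¹ * ε⁻¹ := by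
      rw [mul_inv, mul_assoc]
    rw [e]
    exact V.mul_mem _ _ (t2 f hf) e2

/-- **`tcusp` is a uniformiser of the middle component** (from `PartVal.x_unit₂` and
`PartVT.pi_unif`). -/
theorem tcusp_unifAt (hq : q.Prime) (V₂ : ValuationSubring (A2.Mod.FE E (M * q * q)))
    (hxV : Eng.UnitAt V₂ (x3E E M q)) (hπ : Eng.UnifAt V₂ (jqq E M q - j1 E M q)) :
    Eng.UnifAt V₂ (tcusp E M q) := by
  rw [tcusp_eq_mul E M q hq]
  exact unifAt_mul_unit hπ (eps_unitAt E M q hq V₂ hxV)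

end Fermat.Agent.S36.Mod3.H276

end

end
-- ===== PACK-END S36/Mod3/H276/CuspChart.lean

-- ===== PACK-BEGIN S36/Mod3/H276/RegI.lean
section




/-!
# S36 / MOD3, leaf `LeafRegM`, field `regular_i`: reduction to ONE congruence (helper276)

`regular_i` (local principality of the middle component `V₂` at its cusps, chart
`Bi = chart R {x⁻¹}`, `x = x3E = j j_q j_{q²}`) is reduced to the single analytic input

  `CuspCong` :  `tcusp ^ N · g₂ ≡ w ^ k · g₁`  modulo `w ^ k · 𝔪_{V₂}`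

for SOME `g₁, g₂ ∈ Bi`, `N ≥ 1`, `k`, with `g₁ = h ^ n`, `h = 1 + j⁻¹ c`, `c ∈ Bi`
(in the application `k = 12`, `N = 12 (q - 1)`, `h = 1 - 1728 / j`, `n = 6 (q - 1)`,
`g₂ = unit · (H(j) / j ^ (q - 1)) ^ 2`, `H` the Hasse polynomial).

* `CuspCong`, `LeafCuspCong`              : the congruence, generic / at the concrete objects;
* `regular_i_of_cuspCong`                 : `PartVal`, `PartSheet`, `PartQep`, `cusp_single`,
                                            `pi_unif`, `CuspCong` ⟹ the field `regular_i`;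
* `leafRegI_of`                           : `LeafVal → LeafSheet → LeafQep → LeafInc → LeafVT →
                                            LeafCuspCong → LeafRegI` (`LeafRegI` = `regular_i`
                                            VERBATIM);
* `leafRegM_of`                           : `LeafRegMF` (`regular_m` VERBATIM) + `LeafRegI`
                                            ⟹ `Mod3.LeafRegM`;
* `revPoly_mem_chart`                     : `H(y) / y ^ n ∈ chart R S` for `deg H ≤ n`,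
                                            `y⁻¹ ∈ chart R S`.

Abstract engine: `S36.H876.principalAt_lite` (`Qep3` only).
-/

set_option autoImplicit false
set_option linter.style.haveILetI false
set_option linter.unusedSectionVars false
set_option synthInstance.maxHeartbeats 400000
set_option maxHeartbeats 1600000

noncomputable section

namespace Fermat.Agent.S36.Mod3.H276

open ModularCurve Polynomial
open Fermat.Agent.S18.H138 (chart mem_chart mem_chart_of_mem)
open Fermat.Agent Fermat.Agent.S36.Eng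

/-! ## Generic -/

section Generic

variable {R : Type*} [CommRing R] {F : Type*} [Field F] [Algebra R F]

/-- A valuation ring containing `R` and `y` contains the chart `chart R {y}`. -/
theorem chart_le_h276 (V : ValuationSubring F) {y : F}
    (hR : ∀ r : R, algebraMap R F r ∈ V) (hy : y ∈ V) :
    ∀ b : chart R ({y} : Set F), (b : F) ∈ V := by
  intro b
  have hle : ∀ a ∈ Algebra.adjoin R ({y} : Set F), a ∈ V := by
    intro a ha
    induction ha using Algebra.adjoin_induction with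
    | mem z hz =>
      rw [Set.mem_singleton_iff] at hz
      rw [hz]
      exact hy
    | algebraMap r => exact hR r
    | add z z' _ _ hz hz' => exact V.add_mem _ _ hz hz'
    | mul z z' _ _ hz hz' => exact V.mul_mem _ _ hz hz'
  have hint : IsIntegral (Algebra.adjoin R ({y} : Set F)) (b : F) := mem_chart.1 b.2
  have hint' : IsIntegral V (b : F) := by
    obtain ⟨p, hpm, hp0⟩ := hint
    let φ : Algebra.adjoin R ({y} : Set F) →+* V :=
      { toFun := fun a => ⟨(a : F), hle a a.2⟩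
        map_one' := rfl
        map_mul' := fun _ _ => rfl
        map_zero' := rfl
        map_add' := fun _ _ => rfl }
    refine ⟨p.map φ, hpm.map φ, ?_⟩
    rw [Polynomial.eval₂_map]
    exact hp0
  obtain ⟨z, hz⟩ := IsIntegrallyClosed.isIntegral_iff (R := V) (K := F) |>.mp hint'
  rw [← hz]
  exact z.2

/-- `w ∈ 𝔪_{V₂}` from `ram₂` (`2 ≤ q`). -/
theorem w_mem_nonunits_of_ram {V : ValuationSubring F} {a : F} {q : ℕ} (hq : 2 ≤ q)
    (h : ∃ t : F, UnifAt V t ∧ UnitAt V (a * (t ^ (q - 1))⁻¹)) : a ∈ V.nonunits := by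
  obtain ⟨t, ⟨t0, t1, -⟩, ⟨-, u1, -⟩⟩ := h
  have e : a = a * (t ^ (q - 1))⁻¹ * t ^ (q - 1) := by
    have : t ^ (q - 1) ≠ 0 := pow_ne_zero _ t0
    field_simp
  rw [e, V.mem_nonunits_iff, map_mul, map_pow]
  rw [V.mem_nonunits_iff] at t1
  have h1 : V.valuation (a * (t ^ (q - 1))⁻¹) ≤ 1 := (V.valuation_le_one_iff _).mpr u1
  have h2 : V.valuation t ^ (q - 1) < 1 := pow_lt_one₀ zero_le t1 (by omega)
  calc V.valuation (a * (t ^ (q - 1))⁻¹) * V.valuation t ^ (q - 1)
      ≤ 1 * V.valuation t ^ (q - 1) := by gcongr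
    _ = V.valuation t ^ (q - 1) := one_mul _
    _ < 1 := h2

/-- `H(y) / y ^ n = H^rev(y⁻¹)` when `deg H ≤ n`. -/
theorem revPoly_eq (H : Polynomial R) {n : ℕ} (hn : H.natDegree ≤ n) {y : F} (hy : y ≠ 0) :
    Polynomial.aeval y H * (y⁻¹) ^ n = Polynomial.aeval y⁻¹ (H.reflect n) := by
  letI := invertibleOfNonzero hy
  have h := Polynomial.eval₂_reflect_mul_pow (algebraMap R F) y n H hn
  rw [invOf_eq_inv] at h
  rw [Polynomial.aeval_def, Polynomial.aeval_def, ← h, mul_assoc, ← mul_pow,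
    mul_inv_cancel₀ hy, one_pow, mul_one]

/-- `H(y) / y ^ n` lies in the chart of `y⁻¹` when `deg H ≤ n`. -/
theorem revPoly_mem_chart (H : Polynomial R) {n : ℕ} (hn : H.natDegree ≤ n) {y : F}
    (hy : y ≠ 0) {S : Set F} (hyS : y⁻¹ ∈ chart R S) :
    Polynomial.aeval y H * (y⁻¹) ^ n ∈ chart R S := by
  rw [revPoly_eq H hn hy]
  have h2 : ((Polynomial.aeval (⟨y⁻¹, hyS⟩ : chart R S) (H.reflect n) : chart R S) : F)
      = Polynomial.aeval y⁻¹ (H.reflect n) := by
    simp
  rw [← h2]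
  exact (Polynomial.aeval (⟨y⁻¹, hyS⟩ : chart R S) (H.reflect n)).2

end Generic

/-! ## The congruence -/

section Cong

variable (P : ValuationSubring A2.Qb) (E : IntermediateField ℚ A2.Qb) (M q : ℕ)
  [NeZero M] [NeZero q] [NeZero (M * q)]

/-- **The cusp congruence**: the only analytic input of `regular_i`. -/
def CuspCong (w : A2.RE P E) (V₂ : ValuationSubring (A2.Mod.FE E (M * q * q))) : Prop :=
  ∃ (h c g₂ : chart (A2.RE P E) ({(x3E E M q)⁻¹} : Set (A2.Mod.FE E (M * q * q))))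
    (n k N : ℕ), 0 < N ∧
    (h : A2.Mod.FE E (M * q * q)) = 1 + (j1 E M q)⁻¹ * c ∧
    (tcusp E M q ^ N * (g₂ : A2.Mod.FE E (M * q * q))
        - algebraMap (A2.RE P E) (A2.Mod.FE E (M * q * q)) w ^ k
          * (h : A2.Mod.FE E (M * q * q)) ^ n)
      * (algebraMap (A2.RE P E) (A2.Mod.FE E (M * q * q)) w ^ k)⁻¹ ∈ V₂.nonunits

/-- **`regular_i` from the cusp congruence.** -/
theorem regular_i_of_cuspCong (hq : q.Prime) (w : A2.RE P E)
    (V₁ V₂ V₃ : ValuationSubring (A2.Mod.FE E (M * q * q)))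
    (hval : PartVal (R := A2.RE P E) w q (x3E E M q) V₁ V₂ V₃)
    (hsheet : PartSheet (R := A2.RE P E) w (x3E E M q) V₁ V₂ V₃)
    (hqep : PartQep (R := A2.RE P E) w (x3E E M q) V₁ V₂ V₃)
    (hinc : PartInc (R := A2.RE P E) w (x3E E M q) V₁ V₂ V₃)
    (hπ : UnifAt V₂ (jqq E M q - j1 E M q))
    (hcong : CuspCong P E M q w V₂) :
    ∀ 𝔪 : Ideal (chart (A2.RE P E) ({(x3E E M q)⁻¹} : Set (A2.Mod.FE E (M * q * q)))),
      𝔪.IsMaximal →
      (⟨(x3E E M q)⁻¹, mem_chart_of_mem rfl⟩ :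
        chart (A2.RE P E) ({(x3E E M q)⁻¹} : Set (A2.Mod.FE E (M * q * q)))) ∈ 𝔪 →
      Through _ 𝔪 V₂ → PrincipalAt _ 𝔪 V₂ := by
  intro 𝔪 h𝔪 hx hthr
  obtain ⟨h, c, g₂, n, k, N, hN, hh, hc⟩ := hcong
  -- the chart lies in the three valuation rings
  have hB₁ := chart_le_h276 (R := A2.RE P E) V₁ hsheet.base₁ hval.x_unit₁.2.2
  have hB₂ := chart_le_h276 (R := A2.RE P E) V₂ hsheet.base₂ hval.x_unit₂.2.2
  have hB₃ := chart_le_h276 (R := A2.RE P E) V₃ hsheet.base₃ hval.x_unit₃.2.2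
  -- `w ∈ 𝔪`
  have hw𝔪 : algebraMap (A2.RE P E)
      (chart (A2.RE P E) ({(x3E E M q)⁻¹} : Set (A2.Mod.FE E (M * q * q)))) w ∈ 𝔪 :=
    hthr _ (w_mem_nonunits_of_ram hq.two_le hval.ram₂)
  -- the cusp lies on the middle component only
  obtain ⟨h12, -, h23⟩ := hinc.cusp_single 𝔪 h𝔪 hw𝔪 hx
  have hn₁ : ¬ Through _ 𝔪 V₁ := fun h1 => h12 ⟨h1, hthr⟩
  have hn₃ : ¬ Through _ 𝔪 V₃ := fun h3 => h23 ⟨hthr, h3⟩
  -- `g₁ = h ^ n ∉ 𝔪`
  have hh𝔪 : h ∉ 𝔪 := one_add_not_mem_of_cusp P E M q hq 𝔪 h𝔪 hx h c hh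
  have hg₁ : h ^ n ∉ 𝔪 := fun hmem => hh𝔪 (h𝔪.isPrime.mem_of_pow_mem n hmem)
  -- the uniformiser
  have hun := tcusp_unifAt E M q hq V₂ hval.x_unit₂ hπ
  exact H876.principalAt_lite w _ V₁ V₂ V₃ hB₁ hB₂ hB₃ hqep.qep_i hval.unif₁ hval.unif₃ 𝔪
    h𝔪.isPrime hthr hn₁ hn₃ ⟨tcusp E M q, tcusp_mem_chart P E M q hq⟩ (h ^ n) g₂ k N hN hun hg₁
    (by simpa using hc)

end Cong

/-! ## The leaves -/

section Leaves

/-- The cusp congruence at the concrete objects. -/
def LeafCuspCong : Prop :=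
  Leaf fun P E M q _ _ _ w _ _ _ V₂ _ => CuspCong P E M q w V₂

/-- The field `regular_i` of `PartRegM` / `PartReg` at the concrete objects, VERBATIM. -/
def LeafRegI : Prop :=
  Leaf fun P E M q _ _ _ _ _ _ _ V₂ _ =>
    ∀ 𝔪 : Ideal (chart (A2.RE P E) ({(x3E E M q)⁻¹} : Set (A2.Mod.FE E (M * q * q)))),
      𝔪.IsMaximal →
      (⟨(x3E E M q)⁻¹, Fermat.Agent.S18.H138.mem_chart_of_mem rfl⟩ :
        chart (A2.RE P E) ({(x3E E M q)⁻¹} : Set (A2.Mod.FE E (M * q * q)))) ∈ 𝔪 →
      Through _ 𝔪 V₂ → PrincipalAt _ 𝔪 V₂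

/-- The field `regular_m` of `PartRegM` at the concrete objects, VERBATIM. -/
def LeafRegMF : Prop :=
  Leaf fun P E M q _ _ _ _ _ _ V₁ V₂ V₃ =>
    ∀ 𝔪 : Ideal (chart (A2.RE P E) ({x3E E M q} : Set (A2.Mod.FE E (M * q * q)))),
      𝔪.IsMaximal → Through _ 𝔪 V₂ →
      ¬ Through _ 𝔪 V₁ → ¬ Through _ 𝔪 V₃ → PrincipalAt _ 𝔪 V₂

/-- **`regular_i`** from the leaves VAL, SHEET, QEP, INC, VT and the cusp congruence. -/
theorem leafRegI_of (hVal : LeafVal) (hSheet : LeafSheet) (hQep : LeafQep) (hInc : LeafInc)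
    (hVT : LeafVT) (hC : LeafCuspCong) : LeafRegI := by
  intro P E M q _ _ _ w hstd V₁' V₂' V₁ V₂ V₃ W' W hobj
  exact regular_i_of_cuspCong P E M q hstd.q_prime w V₁ V₂ V₃
    (hVal P E M q w hstd V₁' V₂' V₁ V₂ V₃ W' W hobj)
    (hSheet P E M q w hstd V₁' V₂' V₁ V₂ V₃ W' W hobj)
    (hQep P E M q w hstd V₁' V₂' V₁ V₂ V₃ W' W hobj)
    (hInc P E M q w hstd V₁' V₂' V₁ V₂ V₃ W' W hobj)
    (hVT P E M q w hstd V₁' V₂' V₁ V₂ V₃ W' W hobj).pi_unif
    (hC P E M q w hstd V₁' V₂' V₁ V₂ V₃ W' W hobj)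

/-- **`Mod3.LeafRegM`** from its two fields. -/
theorem leafRegM_of (hM : LeafRegMF) (hI : LeafRegI) : LeafRegM := by
  intro P E M q _ _ _ w hstd V₁' V₂' V₁ V₂ V₃ W' W hobj
  exact
    { regular_m := hM P E M q w hstd V₁' V₂' V₁ V₂ V₃ W' W hobj
      regular_i := hI P E M q w hstd V₁' V₂' V₁ V₂ V₃ W' W hobj }

end Leaves

end Fermat.Agent.S36.Mod3.H276

end

end
-- ===== PACK-END S36/Mod3/H276/RegI.lean

-- ===== PACK-BEGIN A2/Mod/H994/S2.lean
section







/-!
# WALL A2 / MODASM — S2 (components normal), concrete part (helper994)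

`s2_of_resInf : ResInfStatement P E M q w → S2Statement P E M q w`.

Inputs from main: L2 (`H553.vinfBasic`), L5 (`H553.frickeCompat`), L7 (`H900.frickeStable`),
L13 (`H873.chartCompat`), Frobenius congruence (`H528.exists_frobCong`), and the abstract core
`isIntegrallyClosed_quotient_of_residue` (`S2Abs.lean`).  The only open input is L11 (`ResInf`).
-/

set_option autoImplicit false
set_option linter.unusedSectionVars false
set_option linter.style.haveILetI false
set_option synthInstance.maxHeartbeats 400000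
set_option maxHeartbeats 1600000

noncomputable section

namespace Fermat.Agent.A2.Mod.H994

open ModularCurve HahnSeries Polynomial
open Fermat.Agent.A2 Fermat.Agent.A2.Mod

section Prelim

variable {P : ValuationSubring _root_.Fermat.Agent.A2.Mod.Qb} {E : IntermediateField ℚ _root_.Fermat.Agent.A2.Mod.Qb}

/-- `InW` in terms of the valuation. -/
theorem inW_iff_val {N : ℕ} {V : ValuationSubring (_root_.Fermat.Agent.A2.Mod.FE E N)} {w : _root_.Fermat.Agent.A2.Mod.RE P E}
    (hU : H48.IsUnif V (cE P E N w)) {f : _root_.Fermat.Agent.A2.Mod.FE E N} :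
    InW P E N V w f ↔ V.valuation f < 1 :=
  hU.mul_inv_mem_iff

/-- Transport of a uniformiser along an automorphism fixing it. -/
theorem isUnif_comap {F : Type*} [Field F] {V : ValuationSubring F} {ϖ : F}
    (hU : H48.IsUnif V ϖ) (W : F →+* F) (hW : W ϖ = ϖ) : H48.IsUnif (V.comap W) ϖ where
  mem := by
    rw [ValuationSubring.mem_comap, hW]
    exact hU.mem
  inv_not_mem := by
    rw [ValuationSubring.mem_comap, map_inv₀, hW]
    exact hU.inv_not_mem
  gen := by
    intro f hf hfinv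
    rw [ValuationSubring.mem_comap] at hf hfinv ⊢
    rw [map_mul, map_inv₀, hW]
    rw [map_inv₀] at hfinv
    exact hU.gen _ hf hfinv

theorem val_comap_lt_one_iff {F : Type*} [Field F] {V : ValuationSubring F} {ϖ : F}
    (hU : H48.IsUnif V ϖ) (W : F →+* F) (hW : W ϖ = ϖ) {f : F} :
    (V.comap W).valuation f < 1 ↔ V.valuation (W f) < 1 := by
  rw [← (isUnif_comap hU W hW).mul_inv_mem_iff, ← hU.mul_inv_mem_iff,
    ValuationSubring.mem_comap, map_mul, map_inv₀, hW]

/-- `α` maps `V∞` of level `M` into `V∞` of level `M q`. -/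
theorem alpha_mem {M q : ℕ} [NeZero M] [NeZero q] {VM : ValuationSubring (_root_.Fermat.Agent.A2.Mod.FE E M)}
    {V : ValuationSubring (_root_.Fermat.Agent.A2.Mod.FE E (M * q))} (hVM : IsVinf P E M VM) (hV : IsVinf P E (M * q) V)
    {g : _root_.Fermat.Agent.A2.Mod.FE E M} (hg : g ∈ VM) : αE E M q g ∈ V := by
  rw [hV, coe_heckeAlphaBar]
  obtain ⟨U₁, U₂, hred, hmem, heq⟩ := (hVM g).1 hg
  refine ⟨U₁, U₂, hred, ?_, heq⟩
  have h1 := (αE E M q ⟨_, hmem⟩).2
  rw [coe_heckeAlphaBar] at h1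
  exact h1

end Prelim

section Frob

variable {P : ValuationSubring _root_.Fermat.Agent.A2.Mod.Qb} {E : IntermediateField ℚ _root_.Fermat.Agent.A2.Mod.Qb}

/-- the residue characteristic is a non-unit of `V∞` -/
theorem val_natCast_lt_one {N q : ℕ} [NeZero q] [IsNoetherianRing ↥(_root_.Fermat.Agent.A2.Mod.RE P E)]
    (hP : P.LiesOverPrime q) {V : ValuationSubring (_root_.Fermat.Agent.A2.Mod.FE E N)} (hV : IsVinf P E N V) :
    V.valuation (algebraMap ↥E ↥(_root_.Fermat.Agent.A2.Mod.FE E N) (q : ↥E)) < 1 := by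
  by_contra hcon
  have hq0 : (q : ↥E) ≠ 0 := by exact_mod_cast NeZero.ne q
  have hqF : algebraMap ↥E ↥(_root_.Fermat.Agent.A2.Mod.FE E N) (q : ↥E) ≠ 0 :=
    (map_ne_zero_iff _ (algebraMap ↥E ↥(_root_.Fermat.Agent.A2.Mod.FE E N)).injective).mpr hq0
  have h1 : 1 ≤ V.valuation (algebraMap ↥E ↥(_root_.Fermat.Agent.A2.Mod.FE E N) (q : ↥E)) := not_lt.1 hcon
  have h2 : (algebraMap ↥E ↥(_root_.Fermat.Agent.A2.Mod.FE E N) (q : ↥E))⁻¹ ∈ V := by
    rw [← V.valuation_le_one_iff, map_inv₀]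
    exact inv_le_one_of_one_le₀ h1
  have h3 : (algebraMap ↥E ↥(_root_.Fermat.Agent.A2.Mod.FE E N) (q : ↥E))⁻¹ =
      algebraMap ↥E ↥(_root_.Fermat.Agent.A2.Mod.FE E N) ((q : ↥E)⁻¹) := (map_inv₀ _ _).symm
  rw [h3] at h2
  have h4 : ((q : ↥E)⁻¹) ∈ _root_.Fermat.Agent.A2.Mod.RE P E := (H553.algebraMap_mem_iff P E hV _).mp h2
  have h5 : ((q : _root_.Fermat.Agent.A2.Mod.Qb)⁻¹) ∈ P := by
    have : (((q : ↥E)⁻¹ : ↥E) : _root_.Fermat.Agent.A2.Mod.Qb) ∈ P := h4
    simpa using this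
  have h6 : (q : _root_.Fermat.Agent.A2.Mod.Qb) ∈ P.nonunits := hP
  rw [ValuationSubring.mem_nonunits_iff] at h6
  have h7 : P.valuation ((q : _root_.Fermat.Agent.A2.Mod.Qb)⁻¹) ≤ 1 := (P.valuation_le_one_iff _).mpr h5
  rw [map_inv₀] at h7
  have hq0' : P.valuation (q : _root_.Fermat.Agent.A2.Mod.Qb) ≠ 0 := by
    rw [Valuation.ne_zero_iff]
    exact_mod_cast NeZero.ne q
  have h8 : 1 ≤ P.valuation (q : _root_.Fermat.Agent.A2.Mod.Qb) := (inv_le_one₀ (zero_lt_iff.mpr hq0')).mp h7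
  exact absurd h6 (not_lt.mpr h8)

/-- **Frobenius congruence in `V∞`**: a function whose expansion is `x(t^q) - x(t)^q`,
`x` an integral series, is a non-unit of `V∞`. -/
theorem val_frob_lt_one {N q : ℕ} [NeZero q] [Fact q.Prime] [IsNoetherianRing ↥(_root_.Fermat.Agent.A2.Mod.RE P E)]
    (hP : P.LiesOverPrime q) {V : ValuationSubring (_root_.Fermat.Agent.A2.Mod.FE E N)} (hV : IsVinf P E N V)
    (x : LaurentSeries ℤ) {f : _root_.Fermat.Agent.A2.Mod.FE E N}
    (hf : (f : LaurentSeries ↥E) = coeffEmb (↥E) (H708.castQ (qExpand ℤ q x - x ^ q))) :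
    V.valuation f < 1 := by
  obtain ⟨g, hg⟩ := H528.exists_frobCong q x
  have hq0 : (q : ↥E) ≠ 0 := by exact_mod_cast NeZero.ne q
  have hqF : algebraMap ↥E ↥(_root_.Fermat.Agent.A2.Mod.FE E N) (q : ↥E) ≠ 0 :=
    (map_ne_zero_iff _ (algebraMap ↥E ↥(_root_.Fermat.Agent.A2.Mod.FE E N)).injective).mpr hq0
  have hqS : algebraMap (↥E) (LaurentSeries ↥E) (q : ↥E) ≠ 0 :=
    (map_ne_zero_iff _ (algebraMap (↥E) (LaurentSeries ↥E)).injective).mpr hq0
  have hf' : (f : LaurentSeries ↥E) =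
      algebraMap (↥E) (LaurentSeries ↥E) (q : ↥E) * coeffEmb (↥E) (H708.castQ g) := by
    rw [hf, hg, map_mul, map_mul]
    congr 1
    ext n
    simp [coeffEmb, H708.castQ]
  set g' : ↥(_root_.Fermat.Agent.A2.Mod.FE E N) := (algebraMap ↥E ↥(_root_.Fermat.Agent.A2.Mod.FE E N) (q : ↥E))⁻¹ * f with hg'
  have hcoe : ((g' : ↥(_root_.Fermat.Agent.A2.Mod.FE E N)) : LaurentSeries ↥E) = coeffEmb (↥E) (H708.castQ g) := by
    have h1 : ((g' : ↥(_root_.Fermat.Agent.A2.Mod.FE E N)) : LaurentSeries ↥E) =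
        (algebraMap (↥E) (LaurentSeries ↥E) (q : ↥E))⁻¹ * (f : LaurentSeries ↥E) := by
      rw [hg', IntermediateField.coe_mul, IntermediateField.coe_inv]
      rfl
    rw [h1, hf', ← mul_assoc, inv_mul_cancel₀ hqS, one_mul]
  have hg'V : g' ∈ V := H553.mem_of_int hV hcoe
  have hfeq : f = algebraMap ↥E ↥(_root_.Fermat.Agent.A2.Mod.FE E N) (q : ↥E) * g' := by
    rw [hg', ← mul_assoc, mul_inv_cancel₀ hqF, one_mul]
  rw [hfeq, map_mul]
  calc V.valuation (algebraMap ↥E ↥(_root_.Fermat.Agent.A2.Mod.FE E N) (q : ↥E)) * V.valuation g'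
      ≤ V.valuation (algebraMap ↥E ↥(_root_.Fermat.Agent.A2.Mod.FE E N) (q : ↥E)) * 1 :=
        mul_le_mul' le_rfl ((V.valuation_le_one_iff _).2 hg'V)
    _ = V.valuation (algebraMap ↥E ↥(_root_.Fermat.Agent.A2.Mod.FE E N) (q : ↥E)) := mul_one _
    _ < 1 := val_natCast_lt_one hP hV

end Frob

section Kron

variable {P : ValuationSubring _root_.Fermat.Agent.A2.Mod.Qb} {E : IntermediateField ℚ _root_.Fermat.Agent.A2.Mod.Qb} {M q : ℕ} [NeZero M] [NeZero q]
  [NeZero (M * q)]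

/-- `j_q ≡ j^q` modulo `𝔪_{V∞}` -/
theorem val_frobInf [Fact q.Prime] [IsNoetherianRing ↥(_root_.Fermat.Agent.A2.Mod.RE P E)] (hP : P.LiesOverPrime q)
    {V : ValuationSubring (_root_.Fermat.Agent.A2.Mod.FE E (M * q))} (hV : IsVinf P E (M * q) V) :
    V.valuation (jE E (M * q) q (dvd_mul_left q M) - jE E (M * q) 1 (one_dvd _) ^ q) < 1 := by
  refine val_frob_lt_one hP hV (H708.jInt 1) ?_
  rw [← H553.jInt_eq_qExpand q]
  exact H553.coe_frobE E M q

/-- `j_{Mq} ≡ j_M^q` modulo `𝔪_{V∞}` -/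
theorem val_frobZero [Fact q.Prime] [IsNoetherianRing ↥(_root_.Fermat.Agent.A2.Mod.RE P E)] (hP : P.LiesOverPrime q)
    {V : ValuationSubring (_root_.Fermat.Agent.A2.Mod.FE E (M * q))} (hV : IsVinf P E (M * q) V) :
    V.valuation (jE E (M * q) (M * q) dvd_rfl - jE E (M * q) M (dvd_mul_right M q) ^ q) < 1 := by
  refine val_frob_lt_one hP hV (H708.jInt M) ?_
  have h1 : qExpand ℤ q (H708.jInt M) = H708.jInt (M * q) := by
    rw [H553.jInt_eq_qExpand M, qExpand_qExpand, H553.jInt_eq_qExpand (M * q)]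
    exact qExpand_congr (mul_comm q M) _
  rw [h1, map_sub, map_sub, map_pow, map_pow, ← H553.coe_jE (E := E) (M * q) (M * q) dvd_rfl,
    ← H553.coe_jE (E := E) (M * q) M (dvd_mul_right M q)]
  rfl

theorem βE_jE_one :
    βE E M q (jE E M 1 (one_dvd _)) = jE E (M * q) q (dvd_mul_left q M) := by
  apply Subtype.ext
  show qExpand (↥E) q (coeffEmb (↥E) (qExpand ℚ 1 jq)) = coeffEmb (↥E) (qExpand ℚ q jq)
  rw [qExpand_one_apply, coeffEmb, ← coeffMap_qExpand]

theorem αE_jE_one :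
    αE E M q (jE E M 1 (one_dvd _)) = jE E (M * q) 1 (one_dvd _) :=
  Subtype.ext rfl

/-- units `a ≡ b` have `a⁻¹ ≡ b⁻¹` -/
theorem val_inv_sub_inv_lt_one {F : Type*} [Field F] (V : ValuationSubring F) {a b : F}
    (ha : a⁻¹ ∈ V) (hb : b⁻¹ ∈ V) (ha0 : a ≠ 0) (hb0 : b ≠ 0)
    (h : V.valuation (a - b) < 1) : V.valuation (a⁻¹ - b⁻¹) < 1 := by
  have h1 : a⁻¹ - b⁻¹ = -((a - b) * (a⁻¹ * b⁻¹)) := by
    field_simp
    ring
  rw [h1, Valuation.map_neg, map_mul]
  calc V.valuation (a - b) * V.valuation (a⁻¹ * b⁻¹)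
      ≤ V.valuation (a - b) * 1 :=
        mul_le_mul' le_rfl ((V.valuation_le_one_iff _).2 (V.mul_mem _ _ ha hb))
    _ = V.valuation (a - b) := mul_one _
    _ < 1 := h

theorem val_mul_lt_one {F : Type*} [Field F] (V : ValuationSubring F) {a b : F}
    (ha : a ∈ V) (h : V.valuation b < 1) : V.valuation (a * b) < 1 := by
  rw [map_mul]
  calc V.valuation a * V.valuation b ≤ 1 * V.valuation b :=
        mul_le_mul' ((V.valuation_le_one_iff _).2 ha) le_rfl
    _ = V.valuation b := one_mul _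
    _ < 1 := h

end Kron

section Core

variable {P : ValuationSubring _root_.Fermat.Agent.A2.Mod.Qb} {E : IntermediateField ℚ _root_.Fermat.Agent.A2.Mod.Qb} {M q : ℕ} [NeZero M] [NeZero q]
  {w : _root_.Fermat.Agent.A2.Mod.RE P E}

/-- chart membership in `IsIntegral` form -/
theorem isIntegral_of_mem_chart {N : ℕ} {y b : _root_.Fermat.Agent.A2.Mod.FE E N} (hb : b ∈ chart P E N y) :
    IsIntegral (Algebra.adjoin (_root_.Fermat.Agent.A2.Mod.RE P E) ({y} : Set (_root_.Fermat.Agent.A2.Mod.FE E N))) b := by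
  obtain ⟨p, hp, hpb⟩ := hb
  refine isIntegral_adjoin_of_eval₂_self p hp ?_
  have h : (Polynomial.aeval (R := _root_.Fermat.Agent.A2.Mod.RE P E) y).toRingHom =
      Polynomial.eval₂RingHom ((algebraMap E (_root_.Fermat.Agent.A2.Mod.FE E N)).comp (_root_.Fermat.Agent.A2.Mod.RE P E).subtype) y := by
    apply Polynomial.ringHom_ext
    · intro r
      simp
      rfl
    · simp
  rw [h]
  exact hpb

theorem mem_chartAlg_of_mem_chart {N : ℕ} {y b : _root_.Fermat.Agent.A2.Mod.FE E N} (hb : b ∈ chart P E N y) :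
    b ∈ chartAlg P E N y :=
  isIntegral_of_mem_chart hb

/-- the image of `R_E[y]` lies in the chart -/
theorem aeval_mem_chart {N : ℕ} (y : _root_.Fermat.Agent.A2.Mod.FE E N) (a : Polynomial (_root_.Fermat.Agent.A2.Mod.RE P E)) :
    Polynomial.aeval (R := _root_.Fermat.Agent.A2.Mod.RE P E) y a ∈ chart P E N y := by
  refine ⟨Polynomial.X - Polynomial.C a, Polynomial.monic_X_sub_C a, ?_⟩
  rw [Polynomial.eval₂_sub, Polynomial.eval₂_X, Polynomial.eval₂_C, sub_eq_zero]
  rfl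

/-- **S2 for one component**, from the data of that component. -/
theorem normal_of_data
    {VM : ValuationSubring (_root_.Fermat.Agent.A2.Mod.FE E M)} {V' : ValuationSubring (_root_.Fermat.Agent.A2.Mod.FE E (M * q))}
    (hUM : H48.IsUnif VM (cE P E M w)) (hU' : H48.IsUnif V' (cE P E (M * q) w))
    (hRVM : ∀ e : E, e ∈ _root_.Fermat.Agent.A2.Mod.RE P E → algebraMap E (_root_.Fermat.Agent.A2.Mod.FE E M) e ∈ VM)
    (hRV' : ∀ e : E, e ∈ _root_.Fermat.Agent.A2.Mod.RE P E → algebraMap E (_root_.Fermat.Agent.A2.Mod.FE E (M * q)) e ∈ V')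
    (φ : _root_.Fermat.Agent.A2.Mod.FE E M →ₐ[E] _root_.Fermat.Agent.A2.Mod.FE E (M * q))
    (hφV : ∀ g ∈ VM, φ g ∈ V')
    (hres : ∀ f ∈ V', ∃ g ∈ VM, V'.valuation (f - φ g) < 1)
    (yM : _root_.Fermat.Agent.A2.Mod.FE E M) (y : _root_.Fermat.Agent.A2.Mod.FE E (M * q))
    (hyM : yM ∈ VM) (hyV : y ∈ V')
    (hkron : V'.valuation (y - φ yM ^ (q + 1)) < 1)
    (hφy : φ yM ∈ chartAlg P E (M * q) y)
    (hgood : GoodRedAt P E M w VM yM)
    (p : Ideal (chartAlg P E (M * q) y))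
    (hp : IsCut P E (M * q) w V' (chartAlg P E (M * q) y) p) :
    IsIntegrallyClosed (chartAlg P E (M * q) y ⧸ p) := by
  refine isIntegrallyClosed_quotient_of_residue (R := _root_.Fermat.Agent.A2.Mod.RE P E) VM V'
    (φ.restrictScalars (_root_.Fermat.Agent.A2.Mod.RE P E)) yM y (q + 1) (chartAlg P E (M * q) y) (fun f => Iff.rfl) p
    (fun b => (hp b).trans (inW_iff_val hU')) (fun r => hRVM r.1 r.2) hyM
    (fun r => hRV' r.1 r.2) hyV hφV ?_ hkron hres ?_
  · -- `φ` maps non-units to non-units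
    intro g hg
    have h1 : g * (cE P E M w)⁻¹ ∈ VM := hUM.mul_inv_mem_iff.2 hg
    have h2 := hφV _ h1
    rw [map_mul, map_inv₀] at h2
    have h3 : φ (cE P E M w) = cE P E (M * q) w := φ.commutes _
    rw [h3] at h2
    exact hU'.mul_inv_mem_iff.1 h2
  · -- level-`M` normality
    intro g hg Q hQ hz
    have hsum := monic_eval₂_eq_sum (Polynomial.aeval (R := _root_.Fermat.Agent.A2.Mod.RE P E) yM).toRingHom Q hQ g
    rw [hsum] at hz
    obtain ⟨b, hb, hbW⟩ := hgood.normal g hg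
      ⟨Q.natDegree, fun i => Polynomial.aeval (R := _root_.Fermat.Agent.A2.Mod.RE P E) yM (Q.coeff i),
        fun i => aeval_mem_chart yM _, (inW_iff_val hUM).2 hz⟩
    refine ⟨b, ?_, (inW_iff_val hUM).1 hbW⟩
    obtain ⟨p', hp', hpb⟩ := hb
    refine isIntegral_adjoin_of_eval₂ (R := _root_.Fermat.Agent.A2.Mod.RE P E) (y := y) (z := φ yM) hφy p' hp' ?_
    have h1 : (φ : _root_.Fermat.Agent.A2.Mod.FE E M →+* _root_.Fermat.Agent.A2.Mod.FE E (M * q))
        (Polynomial.eval₂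
          (Polynomial.eval₂RingHom ((algebraMap E (_root_.Fermat.Agent.A2.Mod.FE E M)).comp (_root_.Fermat.Agent.A2.Mod.RE P E).subtype) yM) b p') = 0 := by
      rw [hpb, map_zero]
    rw [Polynomial.hom_eval₂] at h1
    have h2 : (φ : _root_.Fermat.Agent.A2.Mod.FE E M →+* _root_.Fermat.Agent.A2.Mod.FE E (M * q)).comp
        (Polynomial.eval₂RingHom ((algebraMap E (_root_.Fermat.Agent.A2.Mod.FE E M)).comp (_root_.Fermat.Agent.A2.Mod.RE P E).subtype) yM) =
        (Polynomial.aeval (R := _root_.Fermat.Agent.A2.Mod.RE P E) (φ yM)).toRingHom := by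
      apply Polynomial.ringHom_ext
      · intro r
        simp
        rfl
      · simp
    rw [← h2]
    exact h1

end Core

section Final

variable (P : ValuationSubring _root_.Fermat.Agent.A2.Mod.Qb) (E : IntermediateField ℚ _root_.Fermat.Agent.A2.Mod.Qb) (M q : ℕ) [NeZero M] [NeZero q]
  (w : _root_.Fermat.Agent.A2.Mod.RE P E)

/-- **MODASM S2 (components normal)** from L11 (`ResInf`); all other inputs are on main. -/
theorem s2_of_resInf (hL11 : ResInfStatement P E M q w) : S2Statement P E M q w := by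
  intro hS VM V W hVM hV hW yM y hy hgood p₁ p₂ hp₁ hp₂
  haveI : NeZero (M * q) := ⟨mul_ne_zero (NeZero.ne M) (NeZero.ne q)⟩
  haveI : Fact q.Prime := ⟨hS.q_prime⟩
  haveI := hS.dvr
  have hN0 : M * q ≠ 0 := NeZero.ne _
  obtain ⟨hUM, hEM, hjM⟩ := H553.vinfBasic P E w M hS.M_ne_zero hS.dvr hS.unif VM hVM
  obtain ⟨hU, hEV, hjV⟩ := H553.vinfBasic P E w (M * q) hN0 hS.dvr hS.unif V hV
  obtain ⟨WM, hWM⟩ := H553.frickeExists E M hS.M_ne_zero
  have hL5 := H553.frickeCompat E M q WM W hWM hW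
  have hL7 := H900.frickeStable P E M q w hS VM WM hVM hWM
  obtain ⟨hc1, hc2, hc3, hc4⟩ := H873.chartCompat P E M q hS.q_prime
  have hWc : (W : _root_.Fermat.Agent.A2.Mod.FE E (M * q) →+* _root_.Fermat.Agent.A2.Mod.FE E (M * q)) (cE P E (M * q) w) = cE P E (M * q) w :=
    W.commutes _
  have hU₀ : H48.IsUnif (V.comap (W : _root_.Fermat.Agent.A2.Mod.FE E (M * q) →+* _root_.Fermat.Agent.A2.Mod.FE E (M * q))) (cE P E (M * q) w) :=
    isUnif_comap hU _ hWc
  -- generators
  set j1 : _root_.Fermat.Agent.A2.Mod.FE E (M * q) := jE E (M * q) 1 (one_dvd _) with hj1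
  set jq : _root_.Fermat.Agent.A2.Mod.FE E (M * q) := jE E (M * q) q (dvd_mul_left q M) with hjq
  set jM : _root_.Fermat.Agent.A2.Mod.FE E (M * q) := jE E (M * q) M (dvd_mul_right M q) with hjMdef
  set jN : _root_.Fermat.Agent.A2.Mod.FE E (M * q) := jE E (M * q) (M * q) dvd_rfl with hjN
  have hx : xE E M q = j1 * jq := rfl
  have hWj1 : W j1 = jN := hW.1 1 (M * q) (one_dvd _) dvd_rfl (one_mul _)
  have hWjq : W jq = jM := hW.1 q M (dvd_mul_left q M) (dvd_mul_right M q) (mul_comm q M)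
  have hj1ne : j1 ≠ 0 := H873.jE_ne_zero E (M * q) 1 (one_dvd _)
  have hjqne : jq ≠ 0 := H873.jE_ne_zero E (M * q) q (dvd_mul_left q M)
  have hjMne : jM ≠ 0 := H873.jE_ne_zero E (M * q) M (dvd_mul_right M q)
  have hjNne : jN ≠ 0 := H873.jE_ne_zero E (M * q) (M * q) dvd_rfl
  have hαj : αE E M q (jE E M 1 (one_dvd _)) = j1 := αE_jE_one
  have hβj : βE E M q (jE E M 1 (one_dvd _)) = jq := βE_jE_one
  -- Kronecker congruences for the generators
  have hk1 : V.valuation (j1 * jq - j1 ^ (q + 1)) < 1 := by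
    have : j1 * jq - j1 ^ (q + 1) = j1 * (jq - j1 ^ q) := by ring
    rw [this]
    exact val_mul_lt_one V (hjV 1 (one_dvd _)).1 (val_frobInf hS.lies_over hV)
  have hk2 : V.valuation (jN * jM - jM ^ (q + 1)) < 1 := by
    have : jN * jM - jM ^ (q + 1) = jM * (jN - jM ^ q) := by ring
    rw [this]
    exact val_mul_lt_one V (hjV M (dvd_mul_right M q)).1 (val_frobZero hS.lies_over hV)
  -- common data
  have hRVM : ∀ e : E, e ∈ _root_.Fermat.Agent.A2.Mod.RE P E → algebraMap E (_root_.Fermat.Agent.A2.Mod.FE E M) e ∈ VM := fun e he => (hEM e).2 he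
  have hRV : ∀ e : E, e ∈ _root_.Fermat.Agent.A2.Mod.RE P E → algebraMap E (_root_.Fermat.Agent.A2.Mod.FE E (M * q)) e ∈ V := fun e he => (hEV e).2 he
  have hRV₀ : ∀ e : E, e ∈ _root_.Fermat.Agent.A2.Mod.RE P E → algebraMap E (_root_.Fermat.Agent.A2.Mod.FE E (M * q)) e ∈
      V.comap (W : _root_.Fermat.Agent.A2.Mod.FE E (M * q) →+* _root_.Fermat.Agent.A2.Mod.FE E (M * q)) := by
    intro e he
    rw [ValuationSubring.mem_comap]
    have : (W : _root_.Fermat.Agent.A2.Mod.FE E (M * q) →+* _root_.Fermat.Agent.A2.Mod.FE E (M * q)) (algebraMap E (_root_.Fermat.Agent.A2.Mod.FE E (M * q)) e) =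
        algebraMap E (_root_.Fermat.Agent.A2.Mod.FE E (M * q)) e := W.commutes e
    rw [this]
    exact hRV e he
  have hαV : ∀ g ∈ VM, αE E M q g ∈ V := fun g hg => alpha_mem hVM hV hg
  have hβV : ∀ g ∈ VM, βE E M q g ∈ V.comap (W : _root_.Fermat.Agent.A2.Mod.FE E (M * q) →+* _root_.Fermat.Agent.A2.Mod.FE E (M * q)) := by
    intro g hg
    rw [ValuationSubring.mem_comap]
    have : (W : _root_.Fermat.Agent.A2.Mod.FE E (M * q) →+* _root_.Fermat.Agent.A2.Mod.FE E (M * q)) (βE E M q g) = αE E M q (WM g) := (hL5 g).2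
    rw [this]
    exact hαV _ (hL7 g hg)
  have hresα : ∀ f ∈ V, ∃ g ∈ VM, V.valuation (f - αE E M q g) < 1 := by
    intro f hf
    obtain ⟨g, hg, h⟩ := hL11 hS VM V hVM hV f hf
    exact ⟨g, hg, (inW_iff_val hU).1 h⟩
  have hresβ : ∀ f ∈ V.comap (W : _root_.Fermat.Agent.A2.Mod.FE E (M * q) →+* _root_.Fermat.Agent.A2.Mod.FE E (M * q)), ∃ g ∈ VM,
      (V.comap (W : _root_.Fermat.Agent.A2.Mod.FE E (M * q) →+* _root_.Fermat.Agent.A2.Mod.FE E (M * q))).valuation (f - βE E M q g) < 1 := by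
    intro f hf
    rw [ValuationSubring.mem_comap] at hf
    obtain ⟨g, hg, h⟩ := hresα _ hf
    refine ⟨WM g, hL7 g hg, ?_⟩
    rw [val_comap_lt_one_iff hU _ hWc, map_sub]
    have h1 : (W : _root_.Fermat.Agent.A2.Mod.FE E (M * q) →+* _root_.Fermat.Agent.A2.Mod.FE E (M * q)) (βE E M q (WM g)) = αE E M q g := by
      have := (hL5 (WM g)).2
      rw [hWM.2 g] at this
      exact this
    rw [h1]
    exact h
  rcases hy with ⟨rfl, rfl⟩ | ⟨rfl, rfl⟩
  · -- the finite chart
    refine ⟨?_, ?_⟩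
    · refine normal_of_data hUM hU hRVM hRV (αE E M q) hαV hresα _ _
        (hjM 1 (one_dvd _)).1 ?_ ?_ ?_ hgood p₁ hp₁
      · rw [hx]
        exact V.mul_mem _ _ (hjV 1 (one_dvd _)).1 (hjV q (dvd_mul_left q M)).1
      · rw [hαj, hx]
        exact hk1
      · rw [hαj]
        exact mem_chartAlg_of_mem_chart hc1
    · refine normal_of_data hUM hU₀ hRVM hRV₀ (βE E M q) hβV hresβ _ _
        (hjM 1 (one_dvd _)).1 ?_ ?_ ?_ hgood p₂ hp₂
      · rw [ValuationSubring.mem_comap, hx, map_mul]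
        have e1 : (W : _root_.Fermat.Agent.A2.Mod.FE E (M * q) →+* _root_.Fermat.Agent.A2.Mod.FE E (M * q)) j1 = jN := hWj1
        have e2 : (W : _root_.Fermat.Agent.A2.Mod.FE E (M * q) →+* _root_.Fermat.Agent.A2.Mod.FE E (M * q)) jq = jM := hWjq
        rw [e1, e2]
        exact V.mul_mem _ _ (hjV (M * q) dvd_rfl).1 (hjV M (dvd_mul_right M q)).1
      · rw [val_comap_lt_one_iff hU _ hWc, hβj, hx, map_sub, map_mul, map_pow]
        have e1 : (W : _root_.Fermat.Agent.A2.Mod.FE E (M * q) →+* _root_.Fermat.Agent.A2.Mod.FE E (M * q)) j1 = jN := hWj1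
        have e2 : (W : _root_.Fermat.Agent.A2.Mod.FE E (M * q) →+* _root_.Fermat.Agent.A2.Mod.FE E (M * q)) jq = jM := hWjq
        rw [e1, e2]
        exact hk2
      · rw [hβj]
        exact mem_chartAlg_of_mem_chart hc2
  · -- the chart at infinity
    have hxne : xE E M q ≠ 0 := by
      rw [hx]
      exact mul_ne_zero hj1ne hjqne
    refine ⟨?_, ?_⟩
    · refine normal_of_data hUM hU hRVM hRV (αE E M q) hαV hresα _ _
        (hjM 1 (one_dvd _)).2 ?_ ?_ ?_ hgood p₁ hp₁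
      · rw [hx, mul_inv]
        exact V.mul_mem _ _ (hjV 1 (one_dvd _)).2 (hjV q (dvd_mul_left q M)).2
      · rw [map_inv₀, hαj, inv_pow, hx]
        refine val_inv_sub_inv_lt_one V ?_ ?_ (mul_ne_zero hj1ne hjqne)
          (pow_ne_zero _ hj1ne) hk1
        · rw [mul_inv]
          exact V.mul_mem _ _ (hjV 1 (one_dvd _)).2 (hjV q (dvd_mul_left q M)).2
        · rw [← inv_pow]
          exact V.pow_mem (hjV 1 (one_dvd _)).2 _
      · rw [map_inv₀, hαj]
        exact mem_chartAlg_of_mem_chart hc3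
    · refine normal_of_data hUM hU₀ hRVM hRV₀ (βE E M q) hβV hresβ _ _
        (hjM 1 (one_dvd _)).2 ?_ ?_ ?_ hgood p₂ hp₂
      · rw [ValuationSubring.mem_comap, hx, map_inv₀, map_mul, mul_inv]
        have e1 : (W : _root_.Fermat.Agent.A2.Mod.FE E (M * q) →+* _root_.Fermat.Agent.A2.Mod.FE E (M * q)) j1 = jN := hWj1
        have e2 : (W : _root_.Fermat.Agent.A2.Mod.FE E (M * q) →+* _root_.Fermat.Agent.A2.Mod.FE E (M * q)) jq = jM := hWjq
        rw [e1, e2]
        exact V.mul_mem _ _ (hjV (M * q) dvd_rfl).2 (hjV M (dvd_mul_right M q)).2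
      · rw [val_comap_lt_one_iff hU _ hWc, map_inv₀, hβj, inv_pow, hx, map_sub, map_inv₀,
          map_inv₀, map_mul, map_pow]
        have e1 : (W : _root_.Fermat.Agent.A2.Mod.FE E (M * q) →+* _root_.Fermat.Agent.A2.Mod.FE E (M * q)) j1 = jN := hWj1
        have e2 : (W : _root_.Fermat.Agent.A2.Mod.FE E (M * q) →+* _root_.Fermat.Agent.A2.Mod.FE E (M * q)) jq = jM := hWjq
        rw [e1, e2]
        refine val_inv_sub_inv_lt_one V ?_ ?_ (mul_ne_zero hjNne hjMne)
          (pow_ne_zero _ hjMne) hk2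
        · rw [mul_inv]
          exact V.mul_mem _ _ (hjV (M * q) dvd_rfl).2 (hjV M (dvd_mul_right M q)).2
        · rw [← inv_pow]
          exact V.pow_mem (hjV M (dvd_mul_right M q)).2 _
      · rw [map_inv₀, hβj]
        exact mem_chartAlg_of_mem_chart hc4

end Final

end Fermat.Agent.A2.Mod.H994

end

end
-- ===== PACK-END A2/Mod/H994/S2.lean

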