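import Fermat.Agent.Pack.S36.E18L0
import Fermat.Agent.Pack.S36.E19L2
import Fermat.Agent.Pack.S36.E10L3
import Fermat.Agent.Pack.S36.E19L1
import Fermat.Agent.Pack.S36.E18L2
import Fermat.Agent.Pack.S36.E13L3
import Fermat.Agent.Pack.S36.E15L0
import Fermat.Agent.Pack.S36.E19L0
import Fermat.Agent.Pack.S36.E19L3
import Fermat.Agent.Pack.S36.E15L2
import Fermat.Agent.Pack.S36.E12L2
import Fermat.Agent.Pack.S36.E18L3
import Fermat.Agent.Pack.S36.E3L0

-- ===== PACK-BEGIN S29/M4b/H395/Hecke.lean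
section
/-
S29 row, LAYER M, SUB-LAYER M4b — PIECE `K4-HECKE` (helper395): DONE, unconditional.

`pieceHecke N p hp : M4b.PieceHecke N p` for every level `N` and every prime `p`
(the exact `Prop` of `Fermat/Agent/S29/M4b/Top.lean`), and `isKum_hecke` (the exact statement
of helper822's sub-skeleton, with its hypotheses `hfac`, `hc`, which are not needed).

Proof: `Fermat.Agent.S29.H395.isKum_hecke_of_normId` (the Hecke product
`V(τ) = ∏ᵢ U(αᵢ τ)` over the `ℓ + 1` Hecke representatives is twisted of character the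
transfer of `c`; its `p`-th power realises `heckeNorm (f · t ^ p)`; `T_ℓ` of a Kummer class is
the Kummer class of the norm), fed with the landed NORM-ID `Fermat.Agent.S37.H819.normId`.
-/




set_option autoImplicit false

noncomputable section

open ModularCurve AlgebraicCurve CongruenceSubgroup UpperHalfPlane
open scoped MatrixGroups Manifold

namespace Fermat.Agent.S29.M4b.H395

open Fermat.Agent.S24 Fermat.Agent.S29 Fermat.Agent.S29.M4b

/-- The landed NORM-ID (`S37.H819.normId`) in the packaging of `H222.NormId`. -/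
theorem normId_H222 (N ℓ : ℕ) [NeZero N] [NeZero ℓ] (hℓ : ℓ.Prime) (hℓN : ¬ ℓ ∣ N) :
    Fermat.Agent.S29.H222.NormId N ℓ :=
  fun y => Fermat.Agent.S37.H819.normId N ℓ hℓ hℓN y

/-- **PIECE `K4-HECKE`**, exact statement of the sub-skeleton
(`origin/helper822:Fermat/Agent/S29/M4b/Skeleton.lean`, `isKum_hecke`). -/
theorem isKum_hecke (N : ℕ) [NeZero N] (p : ℕ) [NeZero p]
    (ℓ : Nat.Primes) (hℓ : ¬ (ℓ : ℕ) ∣ N * p)
    (_hfac : ∀ γ : G0 N, ∃ (π : Equiv.Perm (Option (Fin (ℓ : ℕ))))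
      (δ : Option (Fin (ℓ : ℕ)) → G0 N), ∀ i, IsHeckeFactor (ℓ : ℕ) γ i (π i, δ i))
    {c c' : G0 N → ZMod p} (_hc : IsParHom c) (hcc' : IsTransfer N (ℓ : ℕ) c c')
    {x : JZero N} (h : IsKum N p c x) : IsKum N p c' (heckeOperatorBar N ℓ x) := by
  have : NeZero (ℓ : ℕ) := ⟨ℓ.2.ne_zero⟩
  have hℓN : ¬ (ℓ : ℕ) ∣ N := fun hd => hℓ (Dvd.dvd.mul_right hd p)
  exact Fermat.Agent.S29.H395.isKum_hecke_of_normId N p ℓ hℓ
    (normId_H222 N (ℓ : ℕ) ℓ.2 hℓN) hcc' h

/-- **PIECE `K4-HECKE`** in the form of `M4b/Top.lean`. -/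
theorem pieceHecke (N : ℕ) [NeZero N] (p : ℕ) (hp : p.Prime) : PieceHecke N p := by
  have : NeZero p := ⟨hp.ne_zero⟩
  intro ℓ hℓ hfac c c' hc hcc' x h
  exact isKum_hecke N p ℓ hℓ hfac hc hcc' h

end Fermat.Agent.S29.M4b.H395

end
end
-- ===== PACK-END S29/M4b/H395/Hecke.lean

-- ===== PACK-BEGIN S30/H330/KumQZ.lean
section
/-
S30 -- ADIC MODULE LAYER, input (K) from the pieces of S29 sub-layer M4b (helper330).

The Kummer relation `M4b.IsKum N m c x` of helper822 is stated for `ℤ/m`-valued characters; the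
adic module layer uses `ℚ/ℤ`-valued characters.  This file provides the dictionary:

* `zmodToQZ m : ZMod m →+ ℚ/ℤ`, `a ↦ a/m` (injective, onto the `m`-torsion);
* `IsKumQZ N m c x` : `x` is the Kummer class of the `ℚ/ℤ`-valued character `c`, at modulus `m`;
  it is insensitive to the modulus (`IsKumQZ.mul_right`, inflation of helper450);
* `kummerInjStatement_of_packages` : the Kummer packages `H450.KumPackage N (p ^ n)` for all `n`
  (= the seven pieces of M4b at the moduli `p ^ n`) give a Kummer map on the `p`-primary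
  parabolic characters with values in `ℚ/ℤ`: additive, injective, Hecke-equivariant
  (`KummerInjStatement N p`).

Only characters of `p`-power order are used, because piece `K4-HECKE` at the modulus `m` is only
available for the primes `ℓ ∤ N m`.
-/



set_option autoImplicit false

noncomputable section

namespace Fermat.Agent.S30.H330

open Fermat.Agent.S29 Fermat.Agent.S29.M4b ModularCurve Fermat.Agent.S30.H450

/-! ### The embedding `ℤ/m → ℚ/ℤ` -/

/-- `1/m` in `ℚ/ℤ`. -/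
def invQZ (m : ℕ) : QZ := (((m : ℚ)⁻¹ : ℚ) : QZ)

theorem nsmul_invQZ (m : ℕ) : m • invQZ m = 0 := by
  rcases Nat.eq_zero_or_pos m with h | h
  · subst h; simp
  · unfold invQZ
    rw [← AddCircle.coe_nsmul, nsmul_eq_mul, mul_inv_cancel₀ (by positivity)]
    exact AddCircle.coe_period 1

theorem nsmul_invQZ_mul (m d : ℕ) (hd : d ≠ 0) : d • invQZ (m * d) = invQZ m := by
  unfold invQZ
  rw [← AddCircle.coe_nsmul, nsmul_eq_mul]
  congr 1
  have hd' : (d : ℚ) ≠ 0 := by exact_mod_cast hd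
  push_cast
  rw [mul_inv, mul_comm (m : ℚ)⁻¹, ← mul_assoc, mul_inv_cancel₀ hd', one_mul]

/-- The embedding `ℤ/m → ℚ/ℤ`, `a ↦ a/m`. -/
def zmodToQZ (m : ℕ) : ZMod m →+ QZ :=
  ZMod.lift m ⟨zmultiplesHom QZ (invQZ m), by
    rw [zmultiplesHom_apply, natCast_zsmul]
    exact nsmul_invQZ m⟩

theorem zmodToQZ_intCast (m : ℕ) (k : ℤ) : zmodToQZ m (k : ZMod m) = k • invQZ m := by
  unfold zmodToQZ
  rw [ZMod.lift_coe]
  rfl

theorem zmodToQZ_natCast (m : ℕ) (k : ℕ) : zmodToQZ m (k : ZMod m) = k • invQZ m := by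
  have := zmodToQZ_intCast m (k : ℤ)
  rwa [Int.cast_natCast, natCast_zsmul] at this

theorem zmodToQZ_eq_val (m : ℕ) [NeZero m] (a : ZMod m) : zmodToQZ m a = a.val • invQZ m := by
  conv_lhs => rw [← ZMod.natCast_zmod_val a]
  exact zmodToQZ_natCast m _

theorem zmodToQZ_injective (m : ℕ) [NeZero m] : Function.Injective (zmodToQZ m) := by
  rw [injective_iff_map_eq_zero]
  intro a ha
  rw [zmodToQZ_eq_val] at ha
  have hm : (m : ℚ) ≠ 0 := by exact_mod_cast NeZero.ne m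
  have hmpos : (0 : ℚ) < m := by exact_mod_cast Nat.pos_of_ne_zero (NeZero.ne m)
  unfold invQZ at ha
  rw [← AddCircle.coe_nsmul, nsmul_eq_mul, AddCircle.coe_eq_zero_iff] at ha
  obtain ⟨n, hn⟩ := ha
  rw [zsmul_eq_mul, mul_one] at hn
  have h1 : (a.val : ℚ) = n * m := by
    field_simp at hn
    linarith
  have h2 : (a.val : ℤ) = n * m := by exact_mod_cast h1
  have hlt : (a.val : ℤ) < m := by exact_mod_cast ZMod.val_lt a
  have hnn : (0 : ℤ) ≤ a.val := by positivity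
  have hmz : (0 : ℤ) < m := by exact_mod_cast Nat.pos_of_ne_zero (NeZero.ne m)
  have hn0 : n = 0 := by
    by_contra hne
    rcases lt_or_gt_of_ne hne with h | h
    · have : n * (m : ℤ) < 0 := mul_neg_of_neg_of_pos h hmz
      omega
    · have : (m : ℤ) ≤ n * m := by nlinarith
      omega
  rw [hn0, zero_mul] at h2
  have h3 : a.val = 0 := by exact_mod_cast h2
  exact (ZMod.val_eq_zero a).mp h3

theorem exists_zmodToQZ_eq (m : ℕ) [NeZero m] {y : QZ} (hy : m • y = 0) :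
    ∃ a : ZMod m, zmodToQZ m a = y := by
  obtain ⟨q, rfl⟩ := QuotientAddGroup.mk_surjective y
  have hm : (m : ℚ) ≠ 0 := by exact_mod_cast NeZero.ne m
  change m • ((q : ℚ) : QZ) = 0 at hy
  rw [← AddCircle.coe_nsmul, nsmul_eq_mul, AddCircle.coe_eq_zero_iff] at hy
  obtain ⟨k, hk⟩ := hy
  rw [zsmul_eq_mul, mul_one] at hk
  refine ⟨(k : ZMod m), ?_⟩
  rw [zmodToQZ_intCast]
  unfold invQZ
  rw [← AddCircle.coe_zsmul, zsmul_eq_mul]
  congr 1
  rw [hk]
  field_simp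

theorem nsmul_zmodToQZ (m : ℕ) (a : ZMod m) : m • zmodToQZ m a = 0 := by
  rw [← map_nsmul]
  have : m • a = 0 := by
    rw [nsmul_eq_mul, ZMod.natCast_self, zero_mul]
  rw [this, map_zero]

/-! ### Characters with values in `ℤ/m` and in `ℚ/ℤ` -/

section Char

variable {N : ℕ}

/-- A `ℤ/m`-valued function is a parabolic character as soon as its image in `ℚ/ℤ` is one. -/
theorem isParHom_of_zmodToQZ {m : ℕ} [NeZero m] {cm : G0 N → ZMod m} {c : G0 N → QZ}
    (hc : IsParHom c) (h : ∀ γ, zmodToQZ m (cm γ) = c γ) : IsParHom cm where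
  map_mul γ γ' := by
    apply zmodToQZ_injective m
    rw [map_add, h, h, h, hc.map_mul]
  parabolic γ hγ := by
    apply zmodToQZ_injective m
    rw [h, map_zero, hc.parabolic γ hγ]
  elliptic γ n hn hγ := by
    apply zmodToQZ_injective m
    rw [h, map_zero, hc.elliptic γ n hn hγ]

/-- A `ℚ/ℤ`-valued function killed by `m` factors through `ℤ/m`. -/
theorem exists_zmod_char {m : ℕ} [NeZero m] {c : G0 N → QZ} (hm : m • c = 0) :
    ∃ cm : G0 N → ZMod m, ∀ γ, zmodToQZ m (cm γ) = c γ := by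
  have h : ∀ γ, ∃ a : ZMod m, zmodToQZ m a = c γ := fun γ =>
    exists_zmodToQZ_eq m (by simpa using congrFun hm γ)
  exact ⟨fun γ => (h γ).choose, fun γ => (h γ).choose_spec⟩

theorem zmodToQZ_inflChar {m d : ℕ} [NeZero m] [NeZero d] (cm : G0 N → ZMod m) (γ : G0 N) :
    zmodToQZ (m * d) (inflChar m d cm γ) = zmodToQZ m (cm γ) := by
  unfold inflChar
  rw [zmodToQZ_natCast, zmodToQZ_eq_val, mul_comm d, mul_nsmul',
    nsmul_invQZ_mul m d (NeZero.ne d)]

end Char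

/-! ### The Kummer relation for `ℚ/ℤ`-valued characters -/

section Rel

variable {N : ℕ} [NeZero N]

/-- `x` is the Kummer class of the `ℚ/ℤ`-valued character `c`, at the modulus `m`. -/
def IsKumQZ (N : ℕ) [NeZero N] (m : ℕ) (c : G0 N → QZ) (x : JZero N) : Prop :=
  ∃ cm : G0 N → ZMod m, (∀ γ, zmodToQZ m (cm γ) = c γ) ∧ IsKum N m cm x

/-- The modulus can be multiplied (inflation, helper450). -/
theorem IsKumQZ.mul_right {m : ℕ} [NeZero m] {c : G0 N → QZ} {x : JZero N}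
    (h : IsKumQZ N m c x) (d : ℕ) [NeZero d] : IsKumQZ N (m * d) c x := by
  obtain ⟨cm, hcm, hk⟩ := h
  exact ⟨inflChar m d cm, fun γ => by rw [zmodToQZ_inflChar, hcm], isKum_infl hk⟩

/-- The level of a Kummer class in the `p`-power tower can be raised. -/
theorem IsKumQZ.pow_le {p : ℕ} [NeZero p] {n n' : ℕ} (hn : n ≤ n') {c : G0 N → QZ}
    {x : JZero N} (h : IsKumQZ N (p ^ n) c x) : IsKumQZ N (p ^ n') c x := by
  obtain ⟨k, rfl⟩ := Nat.exists_eq_add_of_le hn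
  have := h.mul_right (p ^ k)
  rwa [← pow_add] at this

theorem IsKumQZ.unique {m : ℕ} [NeZero m] (H : KumPackage N m) {c : G0 N → QZ}
    {x x' : JZero N} (h : IsKumQZ N m c x) (h' : IsKumQZ N m c x') : x = x' := by
  obtain ⟨cm, hcm, hk⟩ := h
  obtain ⟨cm', hcm', hk'⟩ := h'
  have : cm = cm' := funext fun γ => zmodToQZ_injective m (by rw [hcm, hcm'])
  subst this
  exact H.uniq cm x x' hk hk'

theorem IsKumQZ.add {m : ℕ} (H : KumPackage N m) {c c' : G0 N → QZ}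
    {x x' : JZero N} (h : IsKumQZ N m c x) (h' : IsKumQZ N m c' x') :
    IsKumQZ N m (c + c') (x + x') := by
  obtain ⟨cm, hcm, hk⟩ := h
  obtain ⟨cm', hcm', hk'⟩ := h'
  exact ⟨cm + cm', fun γ => by rw [Pi.add_apply, map_add, hcm, hcm', Pi.add_apply],
    H.add cm cm' x x' hk hk'⟩

theorem IsKumQZ.eq_zero {m : ℕ} (H : KumPackage N m) {c : G0 N → QZ}
    (h : IsKumQZ N m c (0 : JZero N)) : c = 0 := by
  obtain ⟨cm, hcm, hk⟩ := h
  have h0 := H.inj cm hk
  funext γ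
  rw [← hcm, h0, Pi.zero_apply, map_zero, Pi.zero_apply]

theorem IsKumQZ.hecke {m : ℕ} [NeZero m] (H : KumPackage N m) (ℓ : Nat.Primes)
    (hℓ : ¬ (ℓ : ℕ) ∣ N * m) {c : G0 N → QZ} (hc : IsParHom c) {x : JZero N}
    (h : IsKumQZ N m c x) : IsKumQZ N m (heckeCoh N ℓ c) (heckeOperatorBar N ℓ x) := by
  obtain ⟨cm, hcm, hk⟩ := h
  refine ⟨heckeCoh N ℓ cm, fun γ => ?_, H.hecke ℓ hℓ cm x (isParHom_of_zmodToQZ hc hcm) hk⟩
  have h1 := congrFun (heckeCoh_comp (N := N) (ℓ : ℕ) cm (zmodToQZ m)) γ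
  rw [← h1]
  congr 1
  funext γ'
  exact hcm γ'

theorem IsKumQZ.exists {m : ℕ} [NeZero m] (H : KumPackage N m) {c : G0 N → QZ}
    (hc : IsParHom c) (hm : m • c = 0) : ∃ x : JZero N, IsKumQZ N m c x := by
  obtain ⟨cm, hcm⟩ := exists_zmod_char hm
  obtain ⟨x, hx⟩ := H.ex cm (isParHom_of_zmodToQZ hc hcm)
  exact ⟨x, cm, hcm, hx⟩

end Rel

/-! ### The `p`-primary Kummer map -/

/-- INPUT (K'), the `p`-primary form of `KummerStatement` without surjectivity: a Kummer map on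
the parabolic characters of `p`-power order with values in `ℚ/ℤ`, additive, injective and
Hecke-equivariant. -/
def KummerInjStatement (N : ℕ) [NeZero N] (p : ℕ) : Prop :=
  ∃ κ : (G0 N → QZ) → JZero N,
    (∀ c c', IsParHom c → IsParHom c' → (∃ n : ℕ, p ^ n • c = 0) → (∃ n : ℕ, p ^ n • c' = 0) →
      κ (c + c') = κ c + κ c') ∧
    (∀ c, IsParHom c → (∃ n : ℕ, p ^ n • c = 0) → κ c = 0 → c = 0) ∧
    (∀ ℓ : Nat.Primes, ¬ (ℓ : ℕ) ∣ N * p → ∀ c, IsParHom c → (∃ n : ℕ, p ^ n • c = 0) →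
      κ (heckeCoh N ℓ c) = heckeOperatorBar N ℓ (κ c))

/-- INPUT (F): finiteness of the `p`-torsion of `J₀(N)(ℚ̄)`. -/
def FinStatement (N : ℕ) [NeZero N] (p : ℕ) : Prop :=
  {x : JZero N | p • x = 0}.Finite

section Tower

variable {N : ℕ} [NeZero N] {p : ℕ}

open Classical in
/-- The Kummer map on `ℚ/ℤ`-valued characters: THE Kummer class at some level of the `p`-power
tower (and `0` if there is none). -/
def kumQZ (N : ℕ) [NeZero N] (p : ℕ) (c : G0 N → QZ) : JZero N :=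
  if h : ∃ x : JZero N, ∃ n : ℕ, IsKumQZ N (p ^ n) c x then h.choose else 0

theorem kumQZ_eq [NeZero p] (H : ∀ n, KumPackage N (p ^ n)) {c : G0 N → QZ} {x : JZero N}
    {n : ℕ} (h : IsKumQZ N (p ^ n) c x) : kumQZ N p c = x := by
  have h' : ∃ x : JZero N, ∃ n : ℕ, IsKumQZ N (p ^ n) c x := ⟨x, n, h⟩
  rw [kumQZ, dif_pos h']
  obtain ⟨n', hn'⟩ := h'.choose_spec
  exact IsKumQZ.unique (H (max n n')) (hn'.pow_le (le_max_right n n'))
    (h.pow_le (le_max_left n n'))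

theorem isKumQZ_kumQZ [NeZero p] (H : ∀ n, KumPackage N (p ^ n)) {c : G0 N → QZ}
    (hc : IsParHom c) {n : ℕ} (hn : p ^ n • c = 0) : IsKumQZ N (p ^ n) c (kumQZ N p c) := by
  obtain ⟨x, hx⟩ := IsKumQZ.exists (H n) hc hn
  rw [kumQZ_eq H hx]
  exact hx

theorem nsmul_eq_zero_of_le {A : Type*} [AddCommMonoid A] {p n n' : ℕ} (h : n ≤ n') {c : A}
    (hc : p ^ n • c = 0) : p ^ n' • c = 0 := by
  obtain ⟨k, rfl⟩ := Nat.exists_eq_add_of_le h
  rw [pow_add, mul_comm, mul_nsmul', hc, nsmul_zero]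

/-- **Input (K') from the pieces of M4b** at the moduli `p ^ n`. -/
theorem kummerInjStatement_of_packages [NeZero p] (H : ∀ n, KumPackage N (p ^ n)) :
    KummerInjStatement N p := by
  refine ⟨kumQZ N p, ?_, ?_, ?_⟩
  · rintro c c' hc hc' ⟨n, hn⟩ ⟨n', hn'⟩
    have h1 := isKumQZ_kumQZ H hc (nsmul_eq_zero_of_le (le_max_left n n') hn)
    have h2 := isKumQZ_kumQZ H hc' (nsmul_eq_zero_of_le (le_max_right n n') hn')
    exact kumQZ_eq H (IsKumQZ.add (H _) h1 h2)
  · rintro c hc ⟨n, hn⟩ h0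
    have h1 := isKumQZ_kumQZ H hc hn
    rw [h0] at h1
    exact IsKumQZ.eq_zero (H n) h1
  · rintro ℓ hℓ c hc ⟨n, hn⟩
    have h1 := isKumQZ_kumQZ H hc hn
    exact kumQZ_eq H (IsKumQZ.hecke (H n) ℓ (not_dvd_mul_pow ℓ.2 hℓ n) hc h1)

end Tower

end Fermat.Agent.S30.H330

end
end
-- ===== PACK-END S30/H330/KumQZ.lean

-- ===== PACK-BEGIN S30/H330/AdicInputs.lean
section
/-
S30 -- ADIC MODULE LAYER, assembly from the `p`-PRIMARY inputs (helper330).

`hasAdicFrobModule_of_inj` : (K') + (F) + (P) + (T) + (Sm) + (GH)  ⟹  `HasAdicFrobModule`, where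
  (K') `KummerInjStatement N p` : Kummer map on the parabolic characters of `p`-power order
       (additive, injective, Hecke-equivariant; NO surjectivity);
  (F)  `FinStatement N p` : `J₀(N)(ℚ̄)[p]` is finite.
This is the form of `hasAdicFrobModule_of_inputs` which is fed by the pieces of S29 sub-layer M4b
(`kummerInjStatement_of_packages`) and by piece FIN of the S30 row.
-/


set_option autoImplicit false

noncomputable section

namespace Fermat.Agent.S30.H330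

open Fermat.Agent.S29 ModularCurve
open scoped MatrixGroups

/-- `KummerStatement` (all characters, with surjectivity) implies the `p`-primary form. -/
theorem kummerInjStatement_of_kummerStatement {N : ℕ} [NeZero N] {p : ℕ}
    (h : KummerStatement N p) : KummerInjStatement N p := by
  obtain ⟨κ, hadd, hinj, -, hhecke⟩ := h
  exact ⟨κ, fun c c' hc hc' _ _ => hadd c c' hc hc', fun c hc _ h0 => hinj c hc h0,
    fun ℓ hℓ c hc _ => hhecke ℓ hℓ c hc⟩

/-- `KummerStatement` implies the finiteness of the `p`-torsion. -/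
theorem finStatement_of_kummerStatement {N : ℕ} [NeZero N] {p : ℕ} [Fact p.Prime]
    (h : KummerStatement N p) : FinStatement N p :=
  finite_torsion h

/-- The eigenvector `f(x) = κ(γ ↦ ϑ(c(γ) x))`, from the `p`-primary Kummer map. -/
theorem exists_eigenHom_of_inj {p : ℕ} [Fact p.Prime] {N : ℕ} [NeZero N] {S : Finset ℕ}
    (hpS : p ∈ S) (hNS : ∀ q : ℕ, q.Prime → q ∣ N → q ∈ S)
    {O : Type} [CommRing O] [IsDomain O] [IsDiscreteValuationRing O]
    (hpO : (p : O) ∈ IsLocalRing.maximalIdeal O)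
    (χ : CuspForm.heckeAlgebra N 2 (↑S : Set ℕ) →+* O)
    (hK : KummerInjStatement N p) (hP : ParEigenStatement N S O χ) :
    ∃ f : FractionRing O →+ JZero N,
      (∀ r : O, f (algebraMap O (FractionRing O) r) = 0) ∧ f ≠ 0 ∧
      ∀ (ℓ : Nat.Primes), (ℓ : ℕ) ∉ S → ∀ x,
        heckeOperatorBar N ℓ (f x) =
          f (algebraMap O (FractionRing O) (eigenvalue χ ℓ) * x) := by
  classical
  obtain ⟨κ, hadd, hinj, hhecke⟩ := hK
  obtain ⟨c, hc, hc0, hceig⟩ := hP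
  obtain ⟨ϖ, hϖ⟩ := IsDiscreteValuationRing.exists_irreducible O
  obtain ⟨ϑ, hϑ0, hϑ1⟩ := exists_character hϖ
  have hϖ0 : algebraMap O (FractionRing O) ϖ ≠ 0 := algebraMap_irreducible_ne_zero hϖ
  -- the additive map `r ↦ ϑ (r x)`
  let φ : FractionRing O → (O →+ QZ) := fun x =>
    ϑ.comp ((AddMonoidHom.mulRight x).comp (algebraMap O (FractionRing O)).toAddMonoidHom)
  have hφ : ∀ x r, φ x r = ϑ (algebraMap O (FractionRing O) r * x) := fun x r => rfl
  let cx : FractionRing O → (G0 N → QZ) := fun x γ => φ x (c γ)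
  have hcx : ∀ x, IsParHom (cx x) := fun x => isParHom_comp hc (φ x)
  have hcx_add : ∀ x y, cx (x + y) = cx x + cx y := by
    intro x y
    funext γ
    show φ (x + y) (c γ) = φ x (c γ) + φ y (c γ)
    rw [hφ, hφ, hφ, mul_add, map_add]
  -- the characters `cx x` have `p`-power order
  have hcx_pow : ∀ x, ∃ n : ℕ, p ^ n • cx x = 0 := by
    intro x
    obtain ⟨n, y, rfl⟩ := exists_eq_div_pow hϖ x
    obtain ⟨b, hb⟩ : ∃ b : O, b * ϖ = (p : O) := by
      have h := hpO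
      rw [hϖ.maximalIdeal_eq, Ideal.mem_span_singleton'] at h
      exact h
    refine ⟨n, ?_⟩
    funext γ
    show p ^ n • φ _ (c γ) = 0
    rw [hφ, ← map_nsmul]
    have : p ^ n • (algebraMap O (FractionRing O) (c γ) *
        (algebraMap O (FractionRing O) y / algebraMap O (FractionRing O) ϖ ^ n)) =
        algebraMap O (FractionRing O) (c γ * (b ^ n * y)) := by
      rw [nsmul_eq_mul]
      have hp : ((p ^ n : ℕ) : FractionRing O) = algebraMap O (FractionRing O) ((b * ϖ) ^ n) := by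
        rw [hb]; simp
      rw [hp, mul_pow]
      simp only [map_mul, map_pow]
      field_simp
    rw [this]
    exact hϑ0 _
  have hκ0 : κ 0 = 0 := by
    have := hadd 0 0 isParHom_zero isParHom_zero ⟨0, by simp⟩ ⟨0, by simp⟩
    rw [add_zero] at this
    exact left_eq_add.mp this
  let f : FractionRing O →+ JZero N := AddMonoidHom.mk' (fun x => κ (cx x)) (fun x y => by
    show κ (cx (x + y)) = κ (cx x) + κ (cx y)
    rw [hcx_add, hadd _ _ (hcx x) (hcx y) (hcx_pow x) (hcx_pow y)])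
  have hf : ∀ x, f x = κ (cx x) := fun x => rfl
  refine ⟨f, fun r => ?_, ?_, fun ℓ hℓS x => ?_⟩
  · rw [hf]
    have : cx (algebraMap O (FractionRing O) r) = 0 := by
      funext γ
      show φ _ (c γ) = 0
      rw [hφ, ← map_mul]
      exact hϑ0 _
    rw [this]
    exact hκ0
  · intro hf0
    obtain ⟨γ₀, hγ₀⟩ : ∃ γ₀, c γ₀ ≠ 0 := by
      by_contra h
      push Not at h
      exact hc0 (funext h)
    have hcγ : algebraMap O (FractionRing O) (c γ₀) ≠ 0 := by
      simpa using hγ₀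
    set x₀ : FractionRing O :=
      (algebraMap O (FractionRing O) (c γ₀))⁻¹ * (algebraMap O (FractionRing O) ϖ)⁻¹ with hx₀
    have h1 : κ (cx x₀) = 0 := by
      rw [← hf, hf0]
      rfl
    have h2 := hinj _ (hcx x₀) (hcx_pow x₀) h1
    have h3 : cx x₀ γ₀ = 0 := by rw [h2]; rfl
    apply hϑ1
    have h4 : cx x₀ γ₀ = ϑ ((algebraMap O (FractionRing O) ϖ)⁻¹) := by
      show φ x₀ (c γ₀) = _
      rw [hφ, hx₀, mul_inv_cancel_left₀ hcγ]
    rw [← h4, h3]
  · have hℓ : (ℓ : ℕ).Prime := ℓ.2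
    have hℓN : ¬ (ℓ : ℕ) ∣ N := fun h => hℓS (hNS _ hℓ h)
    have hℓS' : (ℓ : ℕ) ∉ (↑S : Set ℕ) := by simpa using hℓS
    have hℓNp : ¬ (ℓ : ℕ) ∣ N * p := by
      intro h
      rcases (Nat.Prime.dvd_mul hℓ).mp h with h | h
      · exact hℓN h
      · have : (ℓ : ℕ) = p := (Nat.prime_dvd_prime_iff_eq hℓ (Fact.out : p.Prime)).mp h
        exact hℓS (this ▸ hpS)
    rw [hf, hf, ← hhecke ℓ hℓNp _ (hcx x) (hcx_pow x)]
    congr 1
    rw [show cx x = fun γ => φ x (c γ) from rfl, heckeCoh_comp]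
    funext γ
    show φ x (heckeCoh N ℓ c γ) = φ _ (c γ)
    rw [hφ, hφ, hceig ℓ hℓ hℓN hℓS' γ, eigenvalue_eq χ hℓ hℓN hℓS']
    congr 1
    rw [map_mul (algebraMap O (FractionRing O))]
    ring

/-- ASSEMBLY of the adic module layer from the `p`-primary inputs:
(K') + (F) + (P) + (T) + (Sm) + (GH) ⟹ `HasAdicFrobModule`. -/
theorem hasAdicFrobModule_of_inj {p : ℕ} [Fact p.Prime] {N : ℕ} [NeZero N] {S : Finset ℕ}
    (hpS : p ∈ S) (hNS : ∀ q : ℕ, q.Prime → q ∣ N → q ∈ S)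
    {O : Type} [CommRing O] [IsDomain O] [IsDiscreteValuationRing O]
    [IsAdicComplete (IsLocalRing.maximalIdeal O) O] [Finite (IsLocalRing.ResidueField O)]
    [CharZero O] (hpO : (p : O) ∈ IsLocalRing.maximalIdeal O)
    (χ : CuspForm.heckeAlgebra N 2 (↑S : Set ℕ) →+* O)
    (hK : KummerInjStatement N p) (hF : FinStatement N p) (hP : ParEigenStatement N S O χ)
    (hT : TorsionRelations N p) (hSm : SmoothStatement N) (hGH : GaloisHeckeStatement N) :
    HasAdicFrobModule O (N * p) (fun ℓ => ℓ ∉ S) (eigenvalue χ) := by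
  classical
  obtain ⟨f, hf0, hf, hfe⟩ := exists_eigenHom_of_inj hpS hNS hpO χ hK hP
  -- index set of Hecke operators
  let t : {ℓ : Nat.Primes // (ℓ : ℕ) ∉ S} → JZero N →+ JZero N := fun i =>
    (heckeOperatorBar N i.1).toAddMonoidHom
  let a : {ℓ : Nat.Primes // (ℓ : ℕ) ∉ S} → O := fun i => eigenvalue χ (i.1 : ℕ)
  have ht : ∀ i (σ : GQ) (x : JZero N), σ • t i x = t i (σ • x) := fun i σ x => hGH σ i.1 x
  obtain ⟨M, i1, i2, i3, i4, ρ, hnt, hcont, hunr, hquad⟩ :=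
    adicModule_of_torsion (J := JZero N) (Fact.out : p.Prime) hpO (fun x => hSm x) hF t ht a f
      hf0 hf (fun i x => hfe i.1 i.2 x)
  refine ⟨M, i1, i2, i3, i4, ρ, hnt, hcont, ?_, ?_⟩
  · intro ℓ hℓ hℓNp A hA σ hσ
    exact hunr σ fun x hx => (hT ℓ hℓ hℓNp A hA).1 σ hσ x hx
  · intro ℓ hℓ hℓS A hA σ hσ
    have hℓN : ¬ ℓ ∣ N := fun h => hℓS (hNS _ hℓ h)
    have hℓNp : ¬ ℓ ∣ N * p := by
      intro h
      rcases (Nat.Prime.dvd_mul hℓ).mp h with h | h
      · exact hℓN h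
      · have : ℓ = p := (Nat.prime_dvd_prime_iff_eq hℓ (Fact.out : p.Prime)).mp h
        exact hℓS (this ▸ hpS)
    exact hquad ⟨⟨ℓ, hℓ⟩, hℓS⟩ ℓ σ fun x hx => (hT ℓ hℓ hℓNp A hA).2 σ hσ x hx

end Fermat.Agent.S30.H330

end
end
-- ===== PACK-END S30/H330/AdicInputs.lean

-- ===== PACK-BEGIN S30/H330/AdicFinal.lean
section
/-
S30 -- the frozen statement S30 from the OPEN PIECES (helper330).

Chain:  pieces of S29 sub-layer M4b at the moduli `p ^ n` (`H450.KumPackage N (p ^ n)`)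
        + piece ONTO at the modulus `p` (every `p`-torsion class is a Kummer class)
        + (T) torsion relations (rows S37/S18)
   ⟹  (K') + (F) + (T)                         [`KumQZ.lean`, `Fin/Count.lean`]
   ⟹  `HasAdicFrobModule`                       [`AdicInputs.lean`; (P) = helper709, (Sm) = S29 M3,
                                                   (GH) = helper571]
   ⟹  `H990.HasAdicEigenModules` ⟹ frozen S30   [top glue of helper990].

* `result_of_inj`      : S30 from (K'), (F), (T);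
* `result_of_packages` : S30 from the Kummer packages, ONTO and (T).
-/





set_option autoImplicit false
set_option linter.overlappingInstances false

noncomputable section

namespace Fermat.Agent.S30.H330

open Fermat.Agent.S29 Fermat.Agent.S29.M4b ModularCurve Fermat.Agent.S30.H450 Polynomial

/-- Input (P) of the adic module layer holds (helper709, unconditional). -/
theorem parEigenStatement {N : ℕ} [NeZero N] {S : Finset ℕ}
    (hNS : ∀ q : ℕ, q.Prime → q ∣ N → q ∈ S) {O : Type} [CommRing O] [IsDomain O]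
    (χ : CuspForm.heckeAlgebra N 2 (↑S : Set ℕ) →+* O) : ParEigenStatement N S O χ :=
  Fermat.Agent.S30.H709.exists_parEigen
    (fun q hq hqN => Finset.mem_coe.mpr (hNS q hq hqN)) χ

/-- Input (F) from ONTO and UNIQ at the modulus `p`. -/
theorem finStatement_of_onto {N : ℕ} [NeZero N] {p : ℕ} [NeZero p]
    (huniq : ∀ (c : G0 N → ZMod p) (x x' : JZero N), IsKum N p c x → IsKum N p c x' → x = x')
    (honto : ∀ x : JZero N, (p : ℤ) • x = 0 → ∃ c : G0 N → ZMod p, IsKum N p c x) :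
    FinStatement N p := by
  have h := Fermat.Agent.S30.Fin.finite_torsion_of N p honto huniq
  refine h.subset ?_
  intro x hx
  show (p : ℤ) • x = 0
  rw [natCast_zsmul]
  exact hx

/-- The Kummer package at the modulus `p` from the tower. -/
theorem kumPackage_one {N : ℕ} [NeZero N] {p : ℕ} (H : ∀ n, KumPackage N (p ^ n)) :
    KumPackage N p := by
  have := H 1
  rwa [pow_one] at this

/-- **S30 from (K'), (F), (T).** -/
theorem result_of_inj
    (hK : ∀ (N : ℕ) [NeZero N] (p : ℕ) [Fact p.Prime], KummerInjStatement N p)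
    (hF : ∀ (N : ℕ) [NeZero N] (p : ℕ) [Fact p.Prime], FinStatement N p)
    (hT : ∀ (N : ℕ) [NeZero N] (p : ℕ) [Fact p.Prime], TorsionRelations N p) :
    ∀ (p : ℕ) [Fact p.Prime] (N : ℕ) [NeZero N] (S : Finset ℕ)
      (_hpS : p ∈ S) (_hNS : ∀ q : ℕ, q.Prime → q ∣ N → q ∈ S)
      (𝒪' : Type) [CommRing 𝒪'] [IsDomain 𝒪'] [IsDiscreteValuationRing 𝒪']
      [IsAdicComplete (IsLocalRing.maximalIdeal 𝒪') 𝒪'] [Finite (IsLocalRing.ResidueField 𝒪')]
      [CharZero 𝒪'] (_hp𝒪' : (p : 𝒪') ∈ IsLocalRing.maximalIdeal 𝒪')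
      (χ : CuspForm.heckeAlgebra N 2 (↑S : Set ℕ) →+* 𝒪'),
      ∃ (𝒪'' : Type) (_ : CommRing 𝒪'') (_ : IsDomain 𝒪'') (_ : IsDiscreteValuationRing 𝒪'')
        (_ : IsAdicComplete (IsLocalRing.maximalIdeal 𝒪'') 𝒪'')
        (_ : Finite (IsLocalRing.ResidueField 𝒪'')) (_ : CharZero 𝒪'')
        (_ : Algebra 𝒪' 𝒪'') (_ : Module.Finite 𝒪' 𝒪'') (_ : IsLocalHom (algebraMap 𝒪' 𝒪'')),
      Function.Injective (algebraMap 𝒪' 𝒪'') ∧
      ∃ ρ : GaloisRepAdic 𝒪'',
        (∀ (ℓ : ℕ) (hℓ : ℓ.Prime) (hℓN : ¬ ℓ ∣ N) (hℓS : ℓ ∉ (↑S : Set ℕ)),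
          ∀ A : ValuationSubring (AlgebraicClosure ℚ), A.LiesOverPrime ℓ →
            ∀ σ : AlgebraicClosure ℚ ≃ₐ[ℚ] AlgebraicClosure ℚ, A.IsFrobeniusAt σ ℓ →
              LinearMap.charpoly (ρ.ρ σ) =
                X ^ 2 - C (algebraMap 𝒪' 𝒪'' (χ (CuspForm.heckeAlgebra.T hℓ hℓN hℓS))) * X
                  + C ((ℓ : 𝒪''))) ∧
        (∀ q : ℕ, q.Prime → ¬ q ∣ N → q ≠ p → ρ.IsUnramifiedAt q) :=
  Fermat.Agent.S30.H990.result_of_hasAdicEigenModules
    (Fermat.Agent.S30.H990.hasAdicEigenModules_of_H330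
      (fun p _ N _ _ hpS hNS _ _ _ _ _ _ _ hp𝒪' χ =>
        hasAdicFrobModule_of_inj hpS hNS hp𝒪' χ (hK N p) (hF N p) (parEigenStatement hNS χ)
          (hT N p) (Fermat.Agent.S30.H990.smoothStatement N)
          (Fermat.Agent.S30.H990.galoisHeckeStatement N)))

/-- **S30 from the open pieces**: the Kummer packages at the moduli `p ^ n` (the seven pieces of
S29 sub-layer M4b, see `H450.KumPackage.of_skeleton`), piece ONTO at the modulus `p`, and the
torsion relations (T). -/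
theorem result_of_packages
    (hpk : ∀ (N : ℕ) [NeZero N] (p : ℕ) [Fact p.Prime] (n : ℕ), KumPackage N (p ^ n))
    (honto : ∀ (N : ℕ) [NeZero N] (p : ℕ) [Fact p.Prime] (x : JZero N), (p : ℤ) • x = 0 →
      ∃ c : G0 N → ZMod p, IsKum N p c x)
    (hT : ∀ (N : ℕ) [NeZero N] (p : ℕ) [Fact p.Prime], TorsionRelations N p) :
    ∀ (p : ℕ) [Fact p.Prime] (N : ℕ) [NeZero N] (S : Finset ℕ)
      (_hpS : p ∈ S) (_hNS : ∀ q : ℕ, q.Prime → q ∣ N → q ∈ S)
      (𝒪' : Type) [CommRing 𝒪'] [IsDomain 𝒪'] [IsDiscreteValuationRing 𝒪']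
      [IsAdicComplete (IsLocalRing.maximalIdeal 𝒪') 𝒪'] [Finite (IsLocalRing.ResidueField 𝒪')]
      [CharZero 𝒪'] (_hp𝒪' : (p : 𝒪') ∈ IsLocalRing.maximalIdeal 𝒪')
      (χ : CuspForm.heckeAlgebra N 2 (↑S : Set ℕ) →+* 𝒪'),
      ∃ (𝒪'' : Type) (_ : CommRing 𝒪'') (_ : IsDomain 𝒪'') (_ : IsDiscreteValuationRing 𝒪'')
        (_ : IsAdicComplete (IsLocalRing.maximalIdeal 𝒪'') 𝒪'')
        (_ : Finite (IsLocalRing.ResidueField 𝒪'')) (_ : CharZero 𝒪'')
        (_ : Algebra 𝒪' 𝒪'') (_ : Module.Finite 𝒪' 𝒪'') (_ : IsLocalHom (algebraMap 𝒪' 𝒪'')),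
      Function.Injective (algebraMap 𝒪' 𝒪'') ∧
      ∃ ρ : GaloisRepAdic 𝒪'',
        (∀ (ℓ : ℕ) (hℓ : ℓ.Prime) (hℓN : ¬ ℓ ∣ N) (hℓS : ℓ ∉ (↑S : Set ℕ)),
          ∀ A : ValuationSubring (AlgebraicClosure ℚ), A.LiesOverPrime ℓ →
            ∀ σ : AlgebraicClosure ℚ ≃ₐ[ℚ] AlgebraicClosure ℚ, A.IsFrobeniusAt σ ℓ →
              LinearMap.charpoly (ρ.ρ σ) =
                X ^ 2 - C (algebraMap 𝒪' 𝒪'' (χ (CuspForm.heckeAlgebra.T hℓ hℓN hℓS))) * X
                  + C ((ℓ : 𝒪''))) ∧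
        (∀ q : ℕ, q.Prime → ¬ q ∣ N → q ≠ p → ρ.IsUnramifiedAt q) :=
  result_of_inj
    (fun N _ p hp =>
      haveI : NeZero p := ⟨hp.out.ne_zero⟩
      kummerInjStatement_of_packages (fun n => hpk N p n))
    (fun N _ p hp =>
      haveI : NeZero p := ⟨hp.out.ne_zero⟩
      finStatement_of_onto (kumPackage_one (fun n => hpk N p n)).uniq (honto N p))
    hT

end Fermat.Agent.S30.H330

end
end
-- ===== PACK-END S30/H330/AdicFinal.lean

-- ===== PACK-BEGIN S36/Mod3/H370/Table.lean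
section



/-!
# S36 / MOD3 — leaf TABLE (helper370): `Mod3.LeafTable`, verbatim, unconditional

The six lying-over relations of the three components `V₁ = V∞(M q q)`, `V₂` (middle),
`V₃ = V₁.comap W` over `V₁' = V∞(M q)`, `V₂' = V₁'.comap W'` along `α` and `β`:

    via α :  V₁ | V₁'   V₂ | V₁'   V₃ | V₂'
    via β :  V₁ | V₁'   V₂ | V₂'   V₃ | V₂'

* `comap_α₁`, `comap_β₁` : `H370.comap_alpha_vinfQ`, `H370.comap_beta_vinfQ` (any level);
* `comap_α₂` : the field `Objs.mid`;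
* `comap_α₃`, `comap_β₃` : Fricke transport (`H370.comap_alpha_vzeroQ`, `H370.comap_beta_vzeroQ`);
* `comap_β₂` : `H370.comap_beta_mid` (Kronecker + two-extension theorem of level `M q` +
  uniqueness of the extension of `V₁'` along `β`).
-/

set_option autoImplicit false
set_option linter.unusedSectionVars false
set_option linter.style.haveILetI false
set_option synthInstance.maxHeartbeats 400000
set_option maxHeartbeats 1600000

noncomputable section

namespace Fermat.Agent.S36.Mod3.H370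

open Fermat.Agent.S36.H370

/-- **Leaf TABLE**, exact frozen type. -/
theorem leafTable : Mod3.LeafTable := by
  intro P E M q _ _ _ w hStd V₁' V₂' V₁ V₂ V₃ W' W hO
  have hS : A2.Mod.Setting P E M q w :=
    ⟨hStd.q_prime, hStd.q_not_dvd, NeZero.ne M, hStd.lies_over, hStd.unram.1.dvr, hStd.unif⟩
  have hSQ : SettingQ P E q w := SettingQ.of_setting hS
  refine ⟨?_, hO.mid, ?_, ?_, ?_, ?_⟩
  · exact comap_alpha_vinfQ hSQ hO.vinf' hO.vinf
  · rw [hO.vzero, hO.vzero']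
    exact comap_alpha_vzeroQ hSQ hO.vinf' hO.vinf hO.fricke' hO.fricke
  · exact comap_beta_vinfQ hSQ hO.vinf' hO.vinf
  · rw [hO.vzero']
    exact comap_beta_mid hS hO.vinf' hO.fricke' hO.vinf hO.mid hO.mid_ne
  · rw [hO.vzero, hO.vzero']
    exact comap_beta_vzeroQ hSQ hO.vinf' hO.vinf hO.fricke' hO.fricke

end Fermat.Agent.S36.Mod3.H370

end

end
-- ===== PACK-END S36/Mod3/H370/Table.lean

-- ===== PACK-BEGIN S36/H972/Mod3Alpha.lean
section



/-!
# S36 / MOD3 (helper972): `α`-side, unconditional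

`mod3_alpha_main`: `Setting P E M q w` (`q ∤ M`) + base unramified at `q` ⟹ at level `M q²` the
Gauss valuation ring `V` and ONE more valuation ring `V_mid` are exactly the valuation rings lying
over the Gauss valuation ring `V1` of level `M q` along `α`; `V_mid` has uniformiser
`j_{q²} - j`, `(j_{q²} - j)^(q-1) = w · unit`; residue degrees one.
-/

set_option autoImplicit false

noncomputable section

namespace Fermat.Agent.S36.H972

open ModularCurve Fermat.Agent.A2 Fermat.Agent.A2.Mod Fermat.Agent.A2.H48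

theorem mod3_alpha_main {P : ValuationSubring _root_.Fermat.Agent.A2.Mod.Qb} {E : IntermediateField ℚ _root_.Fermat.Agent.A2.Mod.Qb} {M q : ℕ}
    [NeZero M] [NeZero q] {w : _root_.Fermat.Agent.A2.Mod.RE P E} (hS : Setting P E M q w) (hun : Unram P E q w)
    {V1 : ValuationSubring (_root_.Fermat.Agent.A2.Mod.FE E (M * q))} (hV1 : IsVinf P E (M * q) V1)
    {V : ValuationSubring (_root_.Fermat.Agent.A2.Mod.FE E (M * q * q))} (hV : IsVinf P E (M * q * q) V) :
    ∃ Vmid : ValuationSubring (_root_.Fermat.Agent.A2.Mod.FE E (M * q * q)),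
      Vmid ≠ V ∧
      (∀ k, αE E (M * q) q k ∈ Vmid ↔ k ∈ V1) ∧
      IsUnif Vmid (jqq E M q - jtop E M q) ∧
      (∃ u, u ∈ Vmid ∧ u⁻¹ ∈ Vmid ∧
        (jqq E M q - jtop E M q) ^ (q - 1) = cE P E (M * q * q) w * u) ∧
      (∀ f ∈ Vmid, ∃ g ∈ V1,
        (f - αE E (M * q) q g) * (jqq E M q - jtop E M q)⁻¹ ∈ Vmid) ∧
      (∀ f ∈ V, ∃ g ∈ V1, (f - αE E (M * q) q g) * (cE P E (M * q * q) w)⁻¹ ∈ V) ∧
      (∀ V' : ValuationSubring (_root_.Fermat.Agent.A2.Mod.FE E (M * q * q)),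
        (∀ k, αE E (M * q) q k ∈ V' ↔ k ∈ V1) → V' = V ∨ V' = Vmid) := by
  obtain ⟨Ψ, G, hE⟩ := exists_eisSeries q hS.q_prime
  exact mod3_alpha hS hun hE hV1 hV

end Fermat.Agent.S36.H972

end

end
-- ===== PACK-END S36/H972/Mod3Alpha.lean

-- ===== PACK-BEGIN S36/Mod3/H370/VT.lean
section





/-!
# S36 / MOD3 — the valuation-level hub `Mod3.LeafVT` (helper370): verbatim, unconditional

Assembly of the fifteen fields of `Mod3.PartVT` for the concrete objects: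

* `res_α₁`, `res_α₂`, `only_α₁`, `pi_unif`, `pi_pow` : helper972 `H972.mod3_alpha_main` (main) and
  the identification `V₂ = V_mid` (`Objs.mid`, `Objs.mid_ne`);
* `res_β₃` : `H370.resZeroQ`;  `insep_α₃`, `insep_β₁`, `only_α₃`, `only_β₁` : helper83 (main);
* `V₂.comap W = V₂` (`mid_fricke370`) from `H370.comap_beta_mid` + `only_α₁`; then `res_β₂`,
  `only_β₂` by Fricke transport of `res_α₂`, `only_α₁`;
* `kron₁`, `kron₂`, `kron₃` : the Frobenius congruence `j_d^q ≡ j_{dq}` on `V∞` (`frob_jE370`)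
  transported by `α`, `β`, `W`.
-/

set_option autoImplicit false
set_option linter.unusedSectionVars false
set_option linter.style.haveILetI false
set_option synthInstance.maxHeartbeats 400000
set_option maxHeartbeats 1600000

noncomputable section

namespace Fermat.Agent.S36.Mod3.H370

open ModularCurve HahnSeries Polynomial Fermat.Agent.A2.Mod
open Fermat.Agent.S36.H370 Fermat.Agent.S36.Eng

section Frob

variable {P : ValuationSubring Qb} {E : IntermediateField ℚ Qb} {q : ℕ} [NeZero q]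
  {w : RE P E}

/-- **Frobenius congruence on `V∞`** (any level): `j_d ^ q ≡ j_{d q}` modulo `w V∞`. -/
theorem frob_jE370 (hS : SettingQ P E q w) {N : ℕ} {V : ValuationSubring (FE E N)}
    (hV : IsVinf P E N V) (d : ℕ) [NeZero d] (hd : d ∣ N) (hdq : d * q ∣ N) :
    InW P E N V w (jE E N d hd ^ q - jE E N (d * q) hdq) := by
  haveI := hS.dvr
  haveI : Fact q.Prime := ⟨hS.q_prime⟩
  haveI : CharP (IsLocalRing.ResidueField (RE P E)) q :=
    S18.H516.charP_residue (RE P E) (H96.liesOver_RE P E hS.lies_over)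
  refine H83.h83_inW_of_red_eq_zero hS.dvr hS.unif hV
    (S := A2.H708.castA (RE P E) (A2.H708.jInt d ^ q - A2.H708.jInt (d * q))) ?_ ?_
  · rw [AddSubgroupClass.coe_sub, IntermediateField.coe_pow,
      H708.coe_jE_eq (P := P) N d hd, H708.coe_jE_eq (P := P) N (d * q) hdq, map_sub, map_sub,
      map_pow, map_pow]
  · rw [H753.red_castA, map_sub, map_pow]
    have h1 : A2.H708.jInt d = qExpand ℤ d (jqModC ℤ) := rfl
    have h2 : A2.H708.jInt (d * q) = qExpand ℤ d (qExpand ℤ q (jqModC ℤ)) := by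
      rw [qExpand_qExpand]
      rfl
    rw [h1, h2]
    have e1 : ∀ x : LaurentSeries ℤ,
        S28.H325.castL (IsLocalRing.ResidueField (RE P E)) (qExpand ℤ d x) =
          qExpand _ d (S28.H325.castL (IsLocalRing.ResidueField (RE P E)) x) :=
      fun x => coeffMap_qExpand _ d x
    rw [e1, e1, H753.castL_qExpand_jqModC q hS.q_prime, S28.H325.castL_jqModC, map_pow, sub_self]

end Frob

section Main

variable {P : ValuationSubring Qb} {E : IntermediateField ℚ Qb} {M q : ℕ} [NeZero M] [NeZero q]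
  [NeZero (M * q)] {w : RE P E}

theorem jE_congr370 {N d d' : ℕ} [NeZero d] [NeZero d'] (h : d = d') (hd : d ∣ N)
    (hd' : d' ∣ N) : jE E N d hd = jE E N d' hd' := by
  subst h
  rfl

/-- `Eng.Unramified` gives helper972's `Unram`. -/
theorem unram_of_std370 (hS : SettingQ P E q w) (hun : Eng.Unramified P E q) :
    H972.Unram P E q w := by
  haveI := hS.dvr
  obtain ⟨c, hc⟩ := exists_q_eqQ hS
  have hw0 : (w : E) ≠ 0 := w_ne_zeroQ hS
  have hq0 : ((q : ℕ) : E) ≠ 0 := Nat.cast_ne_zero.mpr (NeZero.ne q)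
  have hwn : (w : E) ∈ (RE P E).nonunits := by
    rw [ValuationSubring.coe_mem_nonunits_iff, IsLocalRing.mem_maximalIdeal, mem_nonunits_iff]
    exact hS.unif.not_isUnit
  have hwP : ((w : E) : Qb) ∈ P.nonunits := (mem_nonunits_comap_hom P (algebraMap E Qb) _).mp hwn
  have h1 := hun.2 (w : E) hwP
  have hmem : (w : E) * ((q : ℕ) : E)⁻¹ ∈ RE P E := by
    show algebraMap E Qb ((w : E) * ((q : ℕ) : E)⁻¹) ∈ P
    rw [map_mul, map_inv₀, map_natCast]
    exact h1
  have hc0 : (c : E) ≠ 0 := by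
    intro h0
    rw [h0, mul_zero] at hc
    exact hq0 hc
  have hci : (c : E) * ((w : E) * ((q : ℕ) : E)⁻¹) = 1 := by
    rw [hc]
    field_simp
  refine ⟨⟨c, ⟨_, hmem⟩, Subtype.ext hci, Subtype.ext ?_⟩, hc⟩
  show (w : E) * ((q : ℕ) : E)⁻¹ * (c : E) = 1
  rw [mul_comm]
  exact hci

theorem nonunits_of_isUnif370 {F : Type*} [Field F] {V : ValuationSubring F} {t x : F}
    (h : A2.H48.IsUnif V t) (hx : x * t⁻¹ ∈ V) : x ∈ V.nonunits := by
  rw [ValuationSubring.mem_nonunits_iff]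
  exact h.mul_inv_mem_iff.mp hx

theorem unifAt_of_isUnif370 {F : Type*} [Field F] {V : ValuationSubring F} {t : F}
    (h : A2.H48.IsUnif V t) : UnifAt V t := by
  refine ⟨h.ne_zero, ?_, fun f hf => ?_⟩
  · rw [ValuationSubring.mem_nonunits_iff_or]
    exact Or.inr h.inv_not_mem
  · rw [ValuationSubring.mem_nonunits_iff] at hf
    exact h.mul_inv_mem_iff.mpr hf

theorem neg_mem_nonunits370 {F : Type*} [Field F] {V : ValuationSubring F} {x : F}
    (h : x ∈ V.nonunits) : -x ∈ V.nonunits := by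
  rw [ValuationSubring.mem_nonunits_iff] at h ⊢
  rwa [Valuation.map_neg]

/-- **VT (leaf)**, exact frozen type. -/
theorem leafVT : Mod3.LeafVT := by
  intro P E M q _ _ _ w hStd V₁' V₂' V₁ V₂ V₃ W' W hO
  have hS : Setting P E M q w :=
    ⟨hStd.q_prime, hStd.q_not_dvd, NeZero.ne M, hStd.lies_over, hStd.unram.1.dvr, hStd.unif⟩
  have hSQ : SettingQ P E q w := SettingQ.of_setting hS
  haveI := hS.dvr
  have hT := leafTable P E M q w hStd V₁' V₂' V₁ V₂ V₃ W' W hO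
  obtain ⟨Vmid, -, -, hunif, ⟨u, hu, hui, hpow⟩, hresmid, hresV, honly⟩ :=
    H972.mod3_alpha_main hS (unram_of_std370 hSQ hStd.unram) hO.vinf' hO.vinf
  have hαV₂ : ∀ k, αE E (M * q) q k ∈ V₂ ↔ k ∈ V₁' := fun k => by
    rw [← hO.mid, ValuationSubring.mem_comap]
    rfl
  have hV₂ : V₂ = Vmid := (honly V₂ hαV₂).resolve_left hO.mid_ne
  subst hV₂
  -- uniformisers
  have hu₁ : A2.H48.IsUnif V₁ (cE P E (M * q * q) w) :=
    (H553.vinfBasic P E w (M * q * q) (NeZero.ne _) hS.dvr hS.unif V₁ hO.vinf).1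
  have hu₁' : A2.H48.IsUnif V₁' (cE P E (M * q) w) :=
    (H553.vinfBasic P E w (M * q) (NeZero.ne _) hS.dvr hS.unif V₁' hO.vinf').1
  have hu₃ : A2.H48.IsUnif (V₁.comap (W : FE E (M * q * q) →+* FE E (M * q * q)))
      (cE P E (M * q * q) w) := H13.isUnif_comap hu₁ W
  have hu₂' : A2.H48.IsUnif (V₁'.comap (W' : FE E (M * q) →+* FE E (M * q)))
      (cE P E (M * q) w) := H13.isUnif_comap hu₁' W'
  have hqM : q ∣ M * q := dvd_mul_left q M
  -- membership along `α`, `β`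
  have hαn₂ : ∀ f, αE E (M * q) q f ∈ V₂.nonunits ↔ f ∈ V₁'.nonunits := fun f => by
    rw [← hT.comap_α₂, mem_nonunits_comap_hom]
    rfl
  have hβn₁ : ∀ f, βE E (M * q) q f ∈ V₁.nonunits ↔ f ∈ V₁'.nonunits := fun f => by
    rw [← hT.comap_β₁, mem_nonunits_comap_hom]
    rfl
  have hαn₃ : ∀ f, αE E (M * q) q f ∈ V₃.nonunits ↔ f ∈ V₂'.nonunits := fun f => by
    rw [← hT.comap_α₃, mem_nonunits_comap_hom]
    rfl
  have hβn₃ : ∀ f, βE E (M * q) q f ∈ V₃.nonunits ↔ f ∈ V₂'.nonunits := fun f => by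
    rw [← hT.comap_β₃, mem_nonunits_comap_hom]
    rfl
  have hβ₂ : ∀ f, βE E (M * q) q f ∈ V₂ ↔ f ∈ V₂' := fun f => by
    rw [← hT.comap_β₂, ValuationSubring.mem_comap]
    rfl
  -- Fricke
  have hWW : ∀ f, W (W f) = f := hO.fricke.2
  have hWW' : ∀ f, W' (W' f) = f := hO.fricke'.2
  have hcompat := H553.frickeCompat E (M * q) q W' W hO.fricke' hO.fricke
  have hV₂'mem : ∀ f, f ∈ V₂' ↔ W' f ∈ V₁' := fun f => by
    rw [hO.vzero', ValuationSubring.mem_comap]
    rfl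
  have hV₃mem : ∀ f, f ∈ V₃ ↔ W f ∈ V₁ := fun f => by
    rw [hO.vzero, ValuationSubring.mem_comap]
    rfl
  -- a valuation ring over `V₂'` along `β` pulls back along `W` to one over `V₁'` along `α`
  have hswap : ∀ V : ValuationSubring (FE E (M * q * q)),
      (∀ f, βE E (M * q) q f ∈ V ↔ f ∈ V₂') →
      ∀ k, αE E (M * q) q k ∈ V.comap (W : FE E (M * q * q) →+* FE E (M * q * q)) ↔ k ∈ V₁' := by
    intro V hV k
    rw [ValuationSubring.mem_comap]
    show W (αE E (M * q) q k) ∈ V ↔ k ∈ V₁'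
    rw [(hcompat k).1, hV, hV₂'mem, hWW']
  have hcomapW : ∀ V V' : ValuationSubring (FE E (M * q * q)),
      V.comap (W : FE E (M * q * q) →+* FE E (M * q * q)) = V' →
      V = V'.comap (W : FE E (M * q * q) →+* FE E (M * q * q)) := by
    intro V V' h
    ext f
    rw [ValuationSubring.mem_comap, ← h, ValuationSubring.mem_comap]
    show f ∈ V ↔ W (W f) ∈ V
    rw [hWW]
  have hne' : V₁' ≠ V₂' := by
    intro h
    apply H553.vzeroNe P E M q w hS V₁' W' hO.vinf' hO.fricke'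
    rw [← hO.vzero', ← h]
  -- `V₂` is Fricke-stable
  have hmidW : V₂.comap (W : FE E (M * q * q) →+* FE E (M * q * q)) = V₂ := by
    rcases honly _ (hswap V₂ hβ₂) with h | h
    · exfalso
      have h3 : V₂ = V₃ := by rw [hO.vzero]; exact hcomapW V₂ V₁ h
      apply hne'
      rw [← hT.comap_α₂, h3, hT.comap_α₃]
    · exact h
  have hW₂ : ∀ f, W f ∈ V₂ ↔ f ∈ V₂ := fun f => by
    conv_rhs => rw [← hmidW, ValuationSubring.mem_comap]
    rfl
  have hW₂n : ∀ f, W f ∈ V₂.nonunits ↔ f ∈ V₂.nonunits := fun f => by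
    conv_rhs => rw [← hmidW, H13.mem_nonunits_comap]
    rfl
  -- residue degree one on the middle component, along `α`
  have hres₂ : ∀ f ∈ V₂, ∃ g ∈ V₁', f - αE E (M * q) q g ∈ V₂.nonunits := by
    intro f hf
    obtain ⟨g, hg, h⟩ := hresmid f hf
    exact ⟨g, hg, nonunits_of_isUnif370 hunif h⟩
  -- Frobenius congruences
  have hF' : jE E (M * q) 1 (one_dvd _) ^ q - jE E (M * q) q hqM ∈ V₁'.nonunits := by
    have h := frob_jE370 hSQ hO.vinf' 1 (one_dvd _) (by rw [one_mul]; exact hqM)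
    rw [jE_congr370 (one_mul q) _ hqM] at h
    exact (H13.inW_iff_mem_nonunits hu₁' _).mp h
  have hF₀' : W' (jE E (M * q) q hqM) ^ q - W' (jE E (M * q) 1 (one_dvd _)) ∈ V₁'.nonunits := by
    have h := frob_jE370 hSQ hO.vinf' M (dvd_mul_right M q) dvd_rfl
    rw [hO.fricke'.1 q M hqM (dvd_mul_right M q) (mul_comm q M),
      hO.fricke'.1 1 (M * q) (one_dvd _) dvd_rfl (one_mul _)]
    exact (H13.inW_iff_mem_nonunits hu₁' _).mp h
  have hF₂' : jE E (M * q) q hqM ^ q - jE E (M * q) 1 (one_dvd _) ∈ V₂'.nonunits := by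
    rw [hO.vzero', H13.mem_nonunits_comap]
    show W' (jE E (M * q) q hqM ^ q - jE E (M * q) 1 (one_dvd _)) ∈ V₁'.nonunits
    rw [map_sub, map_pow]
    exact hF₀'
  have hαj : αE E (M * q) q (jE E (M * q) 1 (one_dvd _)) = j1 E M q :=
    H553.αE_jE E (M * q) q 1 (one_dvd _)
  have hαjq : αE E (M * q) q (jE E (M * q) q hqM) = jq E M q := alpha_jq_eq370
  have hβj : βE E (M * q) q (jE E (M * q) 1 (one_dvd _)) = jq E M q := by
    rw [beta_j_eq_alpha_jq370]
    exact alpha_jq_eq370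
  have hβjq : βE E (M * q) q (jE E (M * q) q hqM) = jqq E M q := beta_jq_eq370
  refine
    { res_α₁ := ?_
      res_α₂ := hres₂
      res_β₃ := ?_
      res_β₂ := ?_
      insep_α₃ := ?_
      insep_β₁ := ?_
      only_α₁ := ?_
      only_α₃ := ?_
      only_β₂ := ?_
      only_β₁ := ?_
      pi_unif := unifAt_of_isUnif370 hunif
      pi_pow := ?_
      kron₁ := ?_
      kron₂ := ?_
      kron₃ := ?_ }
  · -- res_α₁
    intro f hf
    obtain ⟨g, hg, h⟩ := hresV f hf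
    exact ⟨g, hg, nonunits_of_isUnif370 hu₁ h⟩
  · -- res_β₃
    intro f hf
    rw [hO.vzero] at hf ⊢
    obtain ⟨g, hg, h⟩ := resZeroQ hSQ hO.vinf' hO.vinf hO.fricke' hO.fricke hf
    refine ⟨g, ?_, nonunits_of_isUnif370 hu₃ h⟩
    rw [hO.vzero']
    exact hg
  · -- res_β₂
    intro f hf
    obtain ⟨g, hg, h⟩ := hres₂ (W f) ((hW₂ f).mpr hf)
    refine ⟨W' g, ?_, ?_⟩
    · rw [hV₂'mem, hWW']
      exact hg
    · rw [← hW₂n, map_sub, (hcompat (W' g)).2, hWW']
      exact h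
  · -- insep_α₃
    intro f hf
    rw [hO.vzero] at hf ⊢
    obtain ⟨g, hg, h⟩ := H83.h83_alpha_insep (M := M * q) W' W hS.dvr hS.unif hS.q_prime hqM
      hS.lies_over hO.fricke' hO.fricke hO.vinf' hO.vinf hf
    refine ⟨g, ?_, nonunits_of_isUnif370 hu₃ h⟩
    rw [hO.vzero']
    exact hg
  · -- insep_β₁
    intro f hf
    obtain ⟨g, hg, h⟩ := H83.h83_beta_insep (M := M * q) hS.dvr hS.unif hS.q_prime hqM
      hS.lies_over hO.vinf' hO.vinf hf
    exact ⟨g, hg, nonunits_of_isUnif370 hu₁ h⟩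
  · -- only_α₁
    intro V hV
    refine honly V (fun k => ?_)
    rw [← hV, ValuationSubring.mem_comap]
    rfl
  · -- only_α₃
    intro V hV
    rw [hO.vzero]
    refine H83.h83_alpha_unique (M := M * q) W' W hS.dvr hS.unif hS.q_prime hqM
      hO.fricke' hO.fricke hO.vinf' hO.vinf V (fun f => ?_)
    show αE E (M * q) q f ∈ V ↔ f ∈ V₁'.comap (W' : FE E (M * q) →+* FE E (M * q))
    rw [← hO.vzero', ← hV, ValuationSubring.mem_comap]
    rfl
  · -- only_β₂
    intro V hV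
    have hV' : ∀ f, βE E (M * q) q f ∈ V ↔ f ∈ V₂' := fun f => by
      rw [← hV, ValuationSubring.mem_comap]
      rfl
    rcases honly _ (hswap V hV') with h | h
    · left
      rw [hO.vzero]
      exact hcomapW V V₁ h
    · right
      rw [hcomapW V V₂ h, hmidW]
  · -- only_β₁
    intro V hV
    refine H83.h83_beta_unique (M := M * q) hS.dvr hS.unif hS.q_prime hqM hO.vinf' hO.vinf V
      (fun f => ?_)
    rw [← hV, ValuationSubring.mem_comap]
    rfl
  · -- pi_pow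
    have hπ0 : (H972.jqq E M q - H972.jtop E M q) ^ (q - 1) ≠ 0 := pow_ne_zero _ hunif.ne_zero
    have hu0 : u ≠ 0 := by
      intro h0
      rw [h0, mul_zero] at hpow
      exact hπ0 hpow
    have hc0 : cE P E (M * q * q) w ≠ 0 := cE_ne_zeroQ hSQ _
    have e : algebraMap (RE P E) (FE E (M * q * q)) w *
        ((jqq E M q - j1 E M q) ^ (q - 1))⁻¹ = u⁻¹ := by
      show cE P E (M * q * q) w * ((H972.jqq E M q - H972.jtop E M q) ^ (q - 1))⁻¹ = u⁻¹
      rw [hpow]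
      field_simp
    show UnitAt V₂ (algebraMap (RE P E) (FE E (M * q * q)) w *
      ((jqq E M q - j1 E M q) ^ (q - 1))⁻¹)
    rw [e]
    exact ⟨inv_ne_zero hu0, hui, by rw [inv_inv]; exact hu⟩
  · -- kron₁
    constructor
    · have h1 := frob_jE370 hSQ hO.vinf 1 (one_dvd _)
        (by rw [one_mul]; exact Dvd.intro_left (M * q) rfl)
      rw [jE_congr370 (one_mul q) _ (Dvd.intro_left (M * q) rfl)] at h1
      have h2 := neg_mem_nonunits370 ((H13.inW_iff_mem_nonunits hu₁ _).mp h1)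
      rw [neg_sub] at h2
      exact h2
    · have h := neg_mem_nonunits370 ((hβn₁ _).mpr hF')
      rw [map_sub, map_pow, hβj, hβjq, neg_sub] at h
      exact h
  · -- kron₂
    constructor
    · have h := neg_mem_nonunits370 ((hαn₂ _).mpr hF')
      rw [map_sub, map_pow, hαj, hαjq, neg_sub] at h
      exact h
    · exact (unifAt_of_isUnif370 hunif).2.1
  · -- kron₃
    constructor
    · have h := neg_mem_nonunits370 ((hαn₃ _).mpr hF₂')
      rw [map_sub, map_pow, hαj, hαjq, neg_sub] at h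
      exact h
    · have h := neg_mem_nonunits370 ((hβn₃ _).mpr hF₂')
      rw [map_sub, map_pow, hβj, hβjq, neg_sub] at h
      exact h

end Main

end Fermat.Agent.S36.Mod3.H370

end

end
-- ===== PACK-END S36/Mod3/H370/VT.lean

-- ===== PACK-BEGIN S36/Mod3/H370/Val.lean
section


/-!
# S36 / MOD3 — leaves VAL and OBJ (helper370): `Mod3.LeafVal`, `Mod3.LeafObj`, verbatim,
unconditional

* `leafObj` : the objects exist (`V∞`, Fricke at both levels: L1, L4 of A2/Mod; the middle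
  valuation ring: helper972 `H972.mod3_alpha_main`);
* `leafVal` : the three valuation rings are discrete valuation rings, pairwise distinct,
  `w` is a uniformiser of `V₁`, `V₃`, `w = unit · π ^ (q - 1)` at `V₂` (`π = j_{q²} - j`),
  `x = j j_q j_{q²}` is a unit of the three.
-/

set_option autoImplicit false
set_option linter.unusedSectionVars false
set_option linter.style.haveILetI false
set_option synthInstance.maxHeartbeats 400000
set_option maxHeartbeats 1600000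

noncomputable section

namespace Fermat.Agent.S36.Mod3.H370

open ModularCurve HahnSeries Polynomial Fermat.Agent.A2.Mod
open Fermat.Agent.S36.H370 Fermat.Agent.S36.Eng

section Generic

variable {F : Type*} [Field F]

theorem isUnif_of_unifAt370 {V : ValuationSubring F} {t : F} (h : UnifAt V t) :
    A2.H48.IsUnif V t := by
  obtain ⟨h0, hn, hg⟩ := h
  refine ⟨nonunits_mem370 hn, ?_, fun f hf hfi => ?_⟩
  · rcases (ValuationSubring.mem_nonunits_iff_or V).mp hn with h | h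
    · exact absurd h h0
    · exact h
  · exact hg f ((ValuationSubring.mem_nonunits_iff_or V).mpr (Or.inr hfi))

theorem unitAt_mul370 {V : ValuationSubring F} {a b : F} (ha : UnitAt V a) (hb : UnitAt V b) :
    UnitAt V (a * b) :=
  ⟨mul_ne_zero ha.1 hb.1, V.mul_mem _ _ ha.2.1 hb.2.1, by
    rw [mul_inv]
    exact V.mul_mem _ _ ha.2.2 hb.2.2⟩

theorem unitAt_of_map370 {F' : Type*} [Field F'] (φ : F' →+* F) {V : ValuationSubring F}
    {V' : ValuationSubring F'} (h : ∀ f, φ f ∈ V ↔ f ∈ V') {a : F'} (ha0 : a ≠ 0)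
    (ha : a ∈ V') (hai : a⁻¹ ∈ V') : UnitAt V (φ a) :=
  ⟨(map_ne_zero φ).mpr ha0, (h a).mpr ha, by
    rw [← map_inv₀]
    exact (h _).mpr hai⟩

end Generic

section Main

variable {P : ValuationSubring Qb} {E : IntermediateField ℚ Qb} {M q : ℕ} [NeZero M] [NeZero q]
  [NeZero (M * q)] {w : RE P E}

/-- **OBJ (leaf)**, exact frozen type. -/
theorem leafObj : Mod3.LeafObj := by
  intro P E M q _ _ _ w hStd
  have hS : Setting P E M q w :=
    ⟨hStd.q_prime, hStd.q_not_dvd, NeZero.ne M, hStd.lies_over, hStd.unram.1.dvr, hStd.unif⟩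
  have hSQ : SettingQ P E q w := SettingQ.of_setting hS
  obtain ⟨V₁', hV₁'⟩ := H553.vinfExists P E (M * q) (NeZero.ne _) hS.dvr
  obtain ⟨V₁, hV₁⟩ := H553.vinfExists P E (M * q * q) (NeZero.ne _) hS.dvr
  obtain ⟨W', hW'⟩ := H751.frickeExists E (M * q) (NeZero.ne _)
  obtain ⟨W, hW⟩ := H751.frickeExists E (M * q * q) (NeZero.ne _)
  obtain ⟨Vmid, hne, hα, -⟩ :=
    H972.mod3_alpha_main hS (unram_of_std370 hSQ hStd.unram) hV₁' hV₁
  refine ⟨V₁', V₁'.comap (W' : FE E (M * q) →+* FE E (M * q)), V₁, Vmid,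
    V₁.comap (W : FE E (M * q * q) →+* FE E (M * q * q)), W', W,
    ⟨hV₁', hW', rfl, hV₁, hW, rfl, ?_, hne⟩⟩
  ext k
  rw [ValuationSubring.mem_comap]
  exact hα k

/-- **VAL (leaf)**, exact frozen type. -/
theorem leafVal : Mod3.LeafVal := by
  intro P E M q _ _ _ w hStd V₁' V₂' V₁ V₂ V₃ W' W hO
  have hS : Setting P E M q w :=
    ⟨hStd.q_prime, hStd.q_not_dvd, NeZero.ne M, hStd.lies_over, hStd.unram.1.dvr, hStd.unif⟩
  have hSQ : SettingQ P E q w := SettingQ.of_setting hS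
  haveI := hS.dvr
  have hT := leafTable P E M q w hStd V₁' V₂' V₁ V₂ V₃ W' W hO
  have hVT := leafVT P E M q w hStd V₁' V₂' V₁ V₂ V₃ W' W hO
  have hqM : q ∣ M * q := dvd_mul_left q M
  have hB₁ := H553.vinfBasic P E w (M * q * q) (NeZero.ne _) hS.dvr hS.unif V₁ hO.vinf
  have hB₁' := H553.vinfBasic P E w (M * q) (NeZero.ne _) hS.dvr hS.unif V₁' hO.vinf'
  have hu₁ : A2.H48.IsUnif V₁ (cE P E (M * q * q) w) := hB₁.1
  have hu₁' : A2.H48.IsUnif V₁' (cE P E (M * q) w) := hB₁'.1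
  have hu₃ : A2.H48.IsUnif V₃ (cE P E (M * q * q) w) := by
    rw [hO.vzero]
    exact H13.isUnif_comap hu₁ W
  have hu₂ : A2.H48.IsUnif V₂ (jqq E M q - j1 E M q) := isUnif_of_unifAt370 hVT.pi_unif
  have hαV₂ : ∀ k, αE E (M * q) q k ∈ V₂ ↔ k ∈ V₁' := fun k => by
    rw [← hT.comap_α₂, ValuationSubring.mem_comap]
    rfl
  have hβV₂ : ∀ k, βE E (M * q) q k ∈ V₂ ↔ k ∈ V₂' := fun k => by
    rw [← hT.comap_β₂, ValuationSubring.mem_comap]
    rfl
  have hV₃mem : ∀ f, f ∈ V₃ ↔ W f ∈ V₁ := fun f => by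
    rw [hO.vzero, ValuationSubring.mem_comap]
    rfl
  have hV₂'mem : ∀ f, f ∈ V₂' ↔ W' f ∈ V₁' := fun f => by
    rw [hO.vzero', ValuationSubring.mem_comap]
    rfl
  have hne' : V₁' ≠ V₂' := by
    intro h
    apply H553.vzeroNe P E M q w hS V₁' W' hO.vinf' hO.fricke'
    rw [← hO.vzero', ← h]
  -- rank one
  have harch₁ : ∀ a : FE E (M * q * q), ∃ k : ℕ, cE P E (M * q * q) w ^ k * a ∈ V₁ :=
    fun a => H972.arch_vinf hS.unif hO.vinf a
  have harch₃ : ∀ a : FE E (M * q * q), ∃ k : ℕ, cE P E (M * q * q) w ^ k * a ∈ V₃ := by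
    intro a
    obtain ⟨k, hk⟩ := harch₁ (W a)
    refine ⟨k, ?_⟩
    rw [hV₃mem, map_mul, map_pow, fricke_cE]
    exact hk
  have harch₂w : ∀ a : FE E (M * q * q), ∃ k : ℕ, cE P E (M * q * q) w ^ k * a ∈ V₂ := by
    intro a
    letI : Algebra (FE E (M * q)) (FE E (M * q * q)) :=
      AlgebraicCurve.algebraAlong (αE E (M * q) q)
    haveI : FiniteDimensional (FE E (M * q)) (FE E (M * q * q)) :=
      H972.finite_alpha (E := E) (M := M) (q := q) hS.q_prime
    have hint : IsIntegral (FE E (M * q)) a := Algebra.IsIntegral.isIntegral a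
    obtain ⟨k, hk⟩ := A2.H48.exists_pow_mul_mem (O := V₁') (ϖ := cE P E (M * q) w) hu₁'.mem
      (fun a => H972.arch_vinf hS.unif hO.vinf' a) V₂ (fun a ha => (hαV₂ a).mpr ha) hint
    refine ⟨k, ?_⟩
    have e : algebraMap (FE E (M * q)) (FE E (M * q * q)) (cE P E (M * q) w) =
        cE P E (M * q * q) w := (αE E (M * q) q).commutes (w : E)
    rw [e] at hk
    exact hk
  obtain ⟨hpu0, hpu, hpui⟩ := hVT.pi_pow
  have harch₂ : ∀ a : FE E (M * q * q), ∃ k : ℕ, (jqq E M q - j1 E M q) ^ k * a ∈ V₂ := by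
    intro a
    obtain ⟨k, hk⟩ := harch₂w a
    refine ⟨(q - 1) * k, ?_⟩
    have hπ0 : (jqq E M q - j1 E M q) ^ (q - 1) ≠ 0 := pow_ne_zero _ hu₂.ne_zero
    have e : (jqq E M q - j1 E M q) ^ ((q - 1) * k) * a =
        ((algebraMap (RE P E) (FE E (M * q * q)) w *
          ((jqq E M q - j1 E M q) ^ (q - 1))⁻¹)⁻¹) ^ k * (cE P E (M * q * q) w ^ k * a) := by
      have hc0 : cE P E (M * q * q) w ≠ 0 := cE_ne_zeroQ hSQ _
      have hce : algebraMap (RE P E) (FE E (M * q * q)) w = cE P E (M * q * q) w := rfl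
      rw [hce, pow_mul, mul_inv, inv_inv, mul_pow, inv_pow]
      field_simp
    rw [e]
    exact V₂.mul_mem _ _ (pow_mem hpui k) hk
  -- units
  have hj₁ : ∀ (d : ℕ) [NeZero d] (hd : d ∣ M * q * q), UnitAt V₁ (jE E (M * q * q) d hd) :=
    fun d _ hd => ⟨H873.jE_ne_zero E _ d hd, (hB₁.2.2 d hd).1, (hB₁.2.2 d hd).2⟩
  have hj₁' : ∀ (d : ℕ) [NeZero d] (hd : d ∣ M * q), jE E (M * q) d hd ≠ 0 ∧
      jE E (M * q) d hd ∈ V₁' ∧ (jE E (M * q) d hd)⁻¹ ∈ V₁' :=
    fun d _ hd => ⟨H873.jE_ne_zero E _ d hd, (hB₁'.2.2 d hd).1, (hB₁'.2.2 d hd).2⟩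
  have hj₃ : ∀ (d d' : ℕ) [NeZero d] [NeZero d'] (hd : d ∣ M * q * q) (hd' : d' ∣ M * q * q),
      d * d' = M * q * q → UnitAt V₃ (jE E (M * q * q) d hd) := by
    intro d d' _ _ hd hd' h
    refine ⟨H873.jE_ne_zero E _ d hd, ?_, ?_⟩
    · rw [hV₃mem, hO.fricke.1 d d' hd hd' h]
      exact (hB₁.2.2 d' hd').1
    · rw [hV₃mem, map_inv₀, hO.fricke.1 d d' hd hd' h]
      exact (hB₁.2.2 d' hd').2
  have hjq₂' : jE E (M * q) q hqM ∈ V₂' ∧ (jE E (M * q) q hqM)⁻¹ ∈ V₂' := by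
    constructor
    · rw [hV₂'mem, hO.fricke'.1 q M hqM (dvd_mul_right M q) (mul_comm q M)]
      exact (hB₁'.2.2 M (dvd_mul_right M q)).1
    · rw [hV₂'mem, map_inv₀, hO.fricke'.1 q M hqM (dvd_mul_right M q) (mul_comm q M)]
      exact (hB₁'.2.2 M (dvd_mul_right M q)).2
  have hαj : αE E (M * q) q (jE E (M * q) 1 (one_dvd _)) = j1 E M q :=
    H553.αE_jE E (M * q) q 1 (one_dvd _)
  have hαjq : αE E (M * q) q (jE E (M * q) q hqM) = jq E M q := alpha_jq_eq370
  have hβjq : βE E (M * q) q (jE E (M * q) q hqM) = jqq E M q := beta_jq_eq370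
  exact
    { dvr₁ := H972.isDiscreteValuationRing_of_isUnif hu₁ harch₁
      dvr₂ := H972.isDiscreteValuationRing_of_isUnif hu₂ harch₂
      dvr₃ := H972.isDiscreteValuationRing_of_isUnif hu₃ harch₃
      ne₁₂ := fun h => hO.mid_ne h.symm
      ne₁₃ := fun h => hne' (by rw [← hT.comap_α₁, h, hT.comap_α₃])
      ne₂₃ := fun h => hne' (by rw [← hT.comap_α₂, h, hT.comap_α₃])
      unif₁ := unifAt_of_isUnif370 hu₁
      unif₃ := unifAt_of_isUnif370 hu₃
      ram₂ := ⟨_, hVT.pi_unif, hVT.pi_pow⟩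
      x_unit₁ := unitAt_mul370 (unitAt_mul370 (hj₁ 1 _) (hj₁ q _)) (hj₁ (q * q) _)
      x_unit₂ := by
        refine unitAt_mul370 (unitAt_mul370 ?_ ?_) ?_
        · rw [← hαj]
          exact unitAt_of_map370 _ hαV₂ (hj₁' 1 _).1 (hj₁' 1 _).2.1 (hj₁' 1 _).2.2
        · rw [← hαjq]
          exact unitAt_of_map370 _ hαV₂ (hj₁' q _).1 (hj₁' q _).2.1 (hj₁' q _).2.2
        · rw [← hβjq]
          exact unitAt_of_map370 _ hβV₂ (hj₁' q _).1 hjq₂'.1 hjq₂'.2
      x_unit₃ := unitAt_mul370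
        (unitAt_mul370 (hj₃ 1 (M * q * q) (one_dvd _) dvd_rfl (one_mul _))
          (hj₃ q (M * q) (Dvd.intro_left (M * q) rfl) (Dvd.intro _ rfl) (by ring)))
        (hj₃ (q * q) M ⟨M, by ring⟩ ⟨q * q, by ring⟩ (by ring)) }

end Main

end Fermat.Agent.S36.Mod3.H370

end

end
-- ===== PACK-END S36/Mod3/H370/Val.lean

-- ===== PACK-BEGIN S36/Mod3/H356/RegU.lean
section





/-!
# S36 / MOD3, cell REG (route R4), piece (R-U): the modular unit `U_m` (helper356)

`U_m = α(D) / β(D) = Δ(t^q)² / (Δ(t) Δ(t^{q²}))`, `D = q¹² Δ(t^q)/Δ(t)` the modular unit of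
helper438 (`S36/H438/Unit.lean`, `dE`) at level `M q`, `α, β : F_{Mq} → F_{Mqq}` the two degeneracy
maps.  This is the element `αE (dE) * (βE (dE))⁻¹` of helper922's `h922_hres_mid`.

For the concrete objects of `Mod3/Spec.lean` (`Std`, `Objs`):

* `U_m` lies in the finite chart `Bf = chart R {x3E}`, and there is `d ∈ Bf` with
  `U_m · d = w ^ 12`                                  (`exists_pair`);
* `U_m` is a unit of `V₁` and of `V₃`                 (`unit₁`, `unit₃`, with `mem₁`, `mem₃`);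
* `U_m / w ^ 12` is a unit of `V₂`                    (`val₂`);
* `U_m / t ^ (12 (q - 1))` is a unit of `V₂` for EVERY uniformiser `t` of `V₂`   (`val₂'`).

These are the hypotheses `x U d`, `hUd`, `hU₁`, `hU₃`, `hU₂` (with `k = 12`, `N = 12 (q - 1)`) of
`S36.H878.principalAt_of_unit_self'`.

    leafRegU_of : LeafTable → LeafQep → LeafChart → LeafVal → LeafRegU

(`LeafTable`: the comap table; `LeafQep`: `qep_f`; `LeafChart`: `chart_α`, `chart_β`;
`LeafVal`: `ram₂`.)  `leafRegU_core_of` does not need `LeafVal` and gives all but `val₂'`.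
-/

set_option autoImplicit false
set_option linter.style.haveILetI false
set_option linter.unusedSectionVars false
set_option linter.unusedVariables false
set_option synthInstance.maxHeartbeats 400000
set_option maxHeartbeats 1600000

noncomputable section

namespace Fermat.Agent.S36.Mod3.H356

open ModularCurve AlgebraicCurve
open Fermat.Agent.S18.H138 (chart)
open Fermat.Agent.S36.Eng Fermat.Agent.S36.Mod3

/-! ## The base: `q = w · unit` -/

section Base

variable (P : ValuationSubring A2.Qb) (E : IntermediateField ℚ A2.Qb)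

/-- A non-unit of `R_E` is a non-unit of `P`. -/
theorem coe_mem_nonunits_h356 (r : A2.RE P E) (hr : ¬ IsUnit r) :
    ((r : E) : A2.Qb) ∈ P.nonunits := by
  rw [ValuationSubring.mem_nonunits_iff]
  by_contra hge
  rw [not_lt] at hge
  apply hr
  have hr0 : (r : E) ≠ 0 := by
    intro h0
    rw [h0] at hge
    simp at hge
  have hinv : ((r : E))⁻¹ ∈ A2.RE P E := by
    show algebraMap E A2.Qb ((r : E))⁻¹ ∈ P
    rw [map_inv₀, ← P.valuation_le_one_iff, map_inv₀]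
    exact inv_le_one_of_one_le₀ hge
  refine isUnit_iff_exists_inv.mpr ⟨⟨_, hinv⟩, Subtype.ext ?_⟩
  show (r : E) * ((r : E))⁻¹ = 1
  exact mul_inv_cancel₀ hr0

/-- **Unramified base**: `q = w · u` with `u` a unit of `R_E`. -/
theorem exists_unit_q_eq_h356 {q : ℕ} [NeZero q] (hP : P.LiesOverPrime q)
    (hun : Unramified P E q) {w : A2.RE P E} (hw : Irreducible w) :
    ∃ u v : A2.RE P E, u * v = 1 ∧ ((q : ℕ) : E) = (w : E) * (u : E) := by
  have hq0 : ((q : ℕ) : E) ≠ 0 := Nat.cast_ne_zero.mpr (NeZero.ne q)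
  have hw0 : (w : E) ≠ 0 := fun h0 => hw.ne_zero (Subtype.ext h0)
  -- `w / q ∈ R_E`
  have hv : (w : E) * ((q : ℕ) : E)⁻¹ ∈ A2.RE P E := by
    show algebraMap E A2.Qb ((w : E) * ((q : ℕ) : E)⁻¹) ∈ P
    rw [map_mul, map_inv₀, map_natCast]
    exact hun.2 (w : E) (coe_mem_nonunits_h356 P E w hw.not_isUnit)
  -- `q / w ∈ R_E`
  have hu : ((q : ℕ) : E) * ((w : E))⁻¹ ∈ A2.RE P E := by
    by_contra hcon
    -- then `w / q ∈ 𝔪`, so `q ∈ P.nonunits` gives `w = (w/q) q`, `w / q` a non-unit: then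
    -- `w` would be a product of two non-units
    have hqR : ((q : ℕ) : E) ∈ A2.RE P E := by
      show algebraMap E A2.Qb ((q : ℕ) : E) ∈ P
      rw [map_natCast]
      exact P.nonunits_le hP
    have hqnu : ¬ IsUnit (⟨((q : ℕ) : E), hqR⟩ : A2.RE P E) := by
      intro hunit
      obtain ⟨b, hb⟩ := isUnit_iff_exists_inv.mp hunit
      have hbE : ((q : ℕ) : E) * (b : E) = 1 := congrArg Subtype.val hb
      have hbP : algebraMap E A2.Qb (b : E) ∈ P := b.2
      have hbeq : (b : E) = (((q : ℕ) : E))⁻¹ := eq_inv_of_mul_eq_one_right hbE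
      rw [hbeq, map_inv₀, map_natCast] at hbP
      have hlt : P.valuation ((q : ℕ) : A2.Qb) < 1 := (P.mem_nonunits_iff).1 hP
      have hle : P.valuation (((q : ℕ) : A2.Qb))⁻¹ ≤ 1 := (P.valuation_le_one_iff _).2 hbP
      have hqQ : ((q : ℕ) : A2.Qb) ≠ 0 := Nat.cast_ne_zero.mpr (NeZero.ne q)
      have h1 : P.valuation ((q : ℕ) : A2.Qb) * P.valuation (((q : ℕ) : A2.Qb))⁻¹ = 1 := by
        rw [← map_mul, mul_inv_cancel₀ hqQ, map_one]
      have h2 : P.valuation ((q : ℕ) : A2.Qb) * P.valuation (((q : ℕ) : A2.Qb))⁻¹ < 1 :=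
        mul_lt_one_of_lt_of_le hlt hle
      rw [h1] at h2
      exact lt_irrefl _ h2
    have hvnu : ¬ IsUnit (⟨(w : E) * ((q : ℕ) : E)⁻¹, hv⟩ : A2.RE P E) := by
      intro hunit
      obtain ⟨b, hb⟩ := isUnit_iff_exists_inv.mp hunit
      have hbE : (w : E) * ((q : ℕ) : E)⁻¹ * (b : E) = 1 := congrArg Subtype.val hb
      apply hcon
      have hbeq : (b : E) = ((q : ℕ) : E) * ((w : E))⁻¹ := by
        have h3 : (w : E) * ((q : ℕ) : E)⁻¹ ≠ 0 := mul_ne_zero hw0 (inv_ne_zero hq0)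
        have h4 : (b : E) = ((w : E) * ((q : ℕ) : E)⁻¹)⁻¹ := eq_inv_of_mul_eq_one_right hbE
        rw [h4, mul_inv, inv_inv, mul_comm]
      rw [← hbeq]
      exact b.2
    have hprod : w = (⟨(w : E) * ((q : ℕ) : E)⁻¹, hv⟩ : A2.RE P E) * ⟨((q : ℕ) : E), hqR⟩ := by
      apply Subtype.ext
      show (w : E) = (w : E) * ((q : ℕ) : E)⁻¹ * ((q : ℕ) : E)
      rw [mul_assoc, inv_mul_cancel₀ hq0, mul_one]
    rcases hw.isUnit_or_isUnit hprod with h | h
    · exact hvnu h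
    · exact hqnu h
  refine ⟨⟨_, hu⟩, ⟨_, hv⟩, Subtype.ext ?_, ?_⟩
  · show ((q : ℕ) : E) * ((w : E))⁻¹ * ((w : E) * ((q : ℕ) : E)⁻¹) = 1
    field_simp
  · show ((q : ℕ) : E) = (w : E) * (((q : ℕ) : E) * ((w : E))⁻¹)
    field_simp

end Base

/-! ## The modular unit `U_m` and the part `PartRegU` -/

section Defs

variable (E : IntermediateField ℚ A2.Qb) (M q : ℕ) [NeZero M] [NeZero q] [NeZero (M * q)]

/-- The modular unit `D = q¹² Δ(t^q)/Δ(t)` of level `M q` (helper438). -/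
def Dq : A2.Mod.FE E (M * q) := Fermat.Agent.S36.H438.dE E (M * q) q (dvd_mul_left q M)

/-- **The modular unit** `U_m = α(D) / β(D)` of level `M q q`. -/
def Um : A2.Mod.FE E (M * q * q) :=
  A2.Mod.αE E (M * q) q (Dq E M q) * (A2.Mod.βE E (M * q) q (Dq E M q))⁻¹

theorem Um_eq :
    Um E M q = A2.Mod.αE E (M * q) q (Fermat.Agent.S36.H438.dE E (M * q) q (dvd_mul_left q M)) *
      (A2.Mod.βE E (M * q) q (Fermat.Agent.S36.H438.dE E (M * q) q (dvd_mul_left q M)))⁻¹ :=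
  rfl

end Defs

section Parts

variable {R F : Type*} [CommRing R] [Field F] [Algebra R F]

/-- The output of (R-U), without the uniformiser form. -/
structure PartRegUCore (w : R) (x U₀ : F) (V₁ V₂ V₃ : ValuationSubring F) : Prop where
  exists_pair : ∃ U d : chart R ({x} : Set F),
    (U : F) = U₀ ∧ U * d = algebraMap R (chart R ({x} : Set F)) w ^ 12
  mem₁ : U₀ ∈ V₁
  unit₁ : U₀⁻¹ ∈ V₁
  mem₃ : U₀ ∈ V₃
  unit₃ : U₀⁻¹ ∈ V₃
  val₂ : UnitAt V₂ (U₀ * (algebraMap R F w ^ 12)⁻¹)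

/-- The output of (R-U). -/
structure PartRegU (w : R) (q : ℕ) (x U₀ : F) (V₁ V₂ V₃ : ValuationSubring F) : Prop
    extends PartRegUCore w x U₀ V₁ V₂ V₃ where
  val₂' : ∀ t : F, UnifAt V₂ t → UnitAt V₂ (U₀ * (t ^ (12 * (q - 1)))⁻¹)

end Parts

/-- **(R-U), core (leaf-shaped Prop).** -/
def LeafRegUCore : Prop :=
  Leaf fun P E M q _ _ _ w _ _ V₁ V₂ V₃ =>
    PartRegUCore (R := A2.RE P E) w (x3E E M q) (Um E M q) V₁ V₂ V₃

/-- **(R-U) (leaf-shaped Prop).** -/
def LeafRegU : Prop :=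
  Leaf fun P E M q _ _ _ w _ _ V₁ V₂ V₃ =>
    PartRegU (R := A2.RE P E) w q (x3E E M q) (Um E M q) V₁ V₂ V₃

/-! ## Proof -/

section Proof

/-- An `E`-algebra homomorphism commutes with the structure maps of `R_E`. -/
theorem algHom_algebraMap_h356 (P : ValuationSubring A2.Qb) (E : IntermediateField ℚ A2.Qb)
    {N N' : ℕ} (φ : A2.Mod.FE E N →ₐ[E] A2.Mod.FE E N') (r : A2.RE P E) :
    (φ : A2.Mod.FE E N →+* A2.Mod.FE E N') (algebraMap (A2.RE P E) (A2.Mod.FE E N) r) =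
      algebraMap (A2.RE P E) (A2.Mod.FE E N') r := by
  rw [IsScalarTower.algebraMap_apply (A2.RE P E) E (A2.Mod.FE E N),
    IsScalarTower.algebraMap_apply (A2.RE P E) E (A2.Mod.FE E N')]
  exact φ.commutes _

/-- `R_E ⊆ V∞`. -/
theorem algebraMap_mem_vinf_h356 (P : ValuationSubring A2.Qb) (E : IntermediateField ℚ A2.Qb)
    (hdvr : IsDiscreteValuationRing (A2.RE P E)) {N : ℕ}
    {V : ValuationSubring (A2.Mod.FE E N)} (hV : A2.Mod.IsVinf P E N V) (r : A2.RE P E) :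
    algebraMap (A2.RE P E) (A2.Mod.FE E N) r ∈ V := by
  haveI := hdvr
  rw [IsScalarTower.algebraMap_apply (A2.RE P E) E (A2.Mod.FE E N)]
  exact (Fermat.Agent.A2.Mod.H553.algebraMap_mem_iff P E hV _).2 r.2

/-- **(R-U), core.** -/
theorem leafRegUCore_of (hT : LeafTable) (hQ : LeafQep) (hC : LeafChart) : LeafRegUCore := by
  intro P E M q _ _ _ w hStd V₁' V₂' V₁ V₂ V₃ W' W hObj
  have hdvr : IsDiscreteValuationRing (A2.RE P E) := hStd.unram.1.dvr
  have hq : q.Prime := hStd.q_prime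
  have hqN : q ∣ M * q := dvd_mul_left q M
  have hTab := hT P E M q w hStd V₁' V₂' V₁ V₂ V₃ W' W hObj
  have hQep := (hQ P E M q w hStd V₁' V₂' V₁ V₂ V₃ W' W hObj).qep_f
  have hCh := hC P E M q w hStd V₁' V₂' V₁ V₂ V₃ W' W hObj
  -- the base
  obtain ⟨u, v, huv, hqw⟩ := exists_unit_q_eq_h356 P E hStd.lies_over hStd.unram hStd.unif
  -- `R_E ⊆ V_i`
  have hR₁' : ∀ r : A2.RE P E, algebraMap (A2.RE P E) (A2.Mod.FE E (M * q)) r ∈ V₁' :=
    algebraMap_mem_vinf_h356 P E hdvr hObj.vinf'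
  have hR₁ : ∀ r : A2.RE P E, algebraMap (A2.RE P E) (A2.Mod.FE E (M * q * q)) r ∈ V₁ :=
    algebraMap_mem_vinf_h356 P E hdvr hObj.vinf
  have hR₂ : ∀ r : A2.RE P E, algebraMap (A2.RE P E) (A2.Mod.FE E (M * q * q)) r ∈ V₂ := by
    intro r
    have h := hR₁' r
    rw [← hObj.mid, ValuationSubring.mem_comap, algHom_algebraMap_h356] at h
    exact h
  have hR₃ : ∀ r : A2.RE P E, algebraMap (A2.RE P E) (A2.Mod.FE E (M * q * q)) r ∈ V₃ := by
    intro r
    rw [hObj.vzero, ValuationSubring.mem_comap]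
    have e : (W : A2.Mod.FE E (M * q * q) →+* A2.Mod.FE E (M * q * q))
        (algebraMap (A2.RE P E) (A2.Mod.FE E (M * q * q)) r) =
        algebraMap (A2.RE P E) (A2.Mod.FE E (M * q * q)) r := by
      rw [IsScalarTower.algebraMap_apply (A2.RE P E) E (A2.Mod.FE E (M * q * q))]
      exact W.commutes _
    rw [e]
    exact hR₁ r
  have hw0 : algebraMap (A2.RE P E) (A2.Mod.FE E (M * q * q)) w ≠ 0 := by
    rw [IsScalarTower.algebraMap_apply (A2.RE P E) E (A2.Mod.FE E (M * q * q))]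
    refine (map_ne_zero_iff _ (algebraMap E (A2.Mod.FE E (M * q * q))).injective).mpr ?_
    intro h0
    exact hStd.unif.ne_zero (Subtype.ext h0)
  -- the unit pair of level `M q`
  have hDD' : Dq E M q * Fermat.Agent.S36.H438.uE' E (M * q) q hqN
      = algebraMap (A2.RE P E) (A2.Mod.FE E (M * q)) (u ^ 12 * w ^ 12) := by
    rw [Dq, Fermat.Agent.S36.H438.dE_mul_uE',
      IsScalarTower.algebraMap_apply (A2.RE P E) E (A2.Mod.FE E (M * q))]
    congr 1
    show ((q : ℕ) : E) ^ 12 = ((u : E) ^ 12 * (w : E) ^ 12)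
    rw [hqw]
    ring
  obtain ⟨hD'V, hD'inv⟩ := Fermat.Agent.S36.H438.uE'_unit_vinf P E (M * q) q hqN hObj.vinf'
  obtain ⟨hDV, hDinv⟩ := Fermat.Agent.S36.H438.dE_unit_vzero P E (M * q) q M (Nat.mul_comm M q)
    hqN W' hObj.vinf' hObj.fricke'
  rw [← hObj.vzero'] at hDV hDinv
  have hDch : Dq E M q ∈ chart (A2.RE P E) ({A2.Mod.xE E M q} : Set (A2.Mod.FE E (M * q))) :=
    Fermat.Agent.S36.H438.dE_mem_chartAlg P E M q hq
  have hD'ch : Fermat.Agent.S36.H438.uE' E (M * q) q hqN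
      ∈ chart (A2.RE P E) ({A2.Mod.xE E M q} : Set (A2.Mod.FE E (M * q))) :=
    Fermat.Agent.S36.H438.uE'_mem_chartAlg P E M q hq
  obtain ⟨U, d, hU, hUd, hU₁, hU₁i, hU₃, hU₃i, hU₂⟩ := regU_abs_h356 w (v ^ 12) (u ^ 12)
    (by rw [← mul_pow, mul_comm, huv, one_pow])
    (chart (A2.RE P E) ({x3E E M q} : Set (A2.Mod.FE E (M * q * q)))) V₁ V₂ V₃ V₁' V₂'
    (A2.Mod.αE E (M * q) q : A2.Mod.FE E (M * q) →+* A2.Mod.FE E (M * q * q))
    (A2.Mod.βE E (M * q) q : A2.Mod.FE E (M * q) →+* A2.Mod.FE E (M * q * q))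
    (algHom_algebraMap_h356 P E _) (algHom_algebraMap_h356 P E _) hw0 hR₁ hR₂ hR₃ hQep
    hTab.comap_α₁ hTab.comap_α₂ hTab.comap_α₃ hTab.comap_β₁ hTab.comap_β₂ hTab.comap_β₃
    (Dq E M q) (Fermat.Agent.S36.H438.uE' E (M * q) q hqN) hDD'
    hD'V hD'inv hDV hDinv
    (hCh.chart_α _ hDch) (hCh.chart_α _ hD'ch) (hCh.chart_β _ hDch) (hCh.chart_β _ hD'ch)
  have hUm : (U : A2.Mod.FE E (M * q * q)) = Um E M q := hU
  exact
    { exists_pair := ⟨U, d, hUm, hUd⟩
      mem₁ := hUm ▸ hU₁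
      unit₁ := hUm ▸ hU₁i
      mem₃ := hUm ▸ hU₃
      unit₃ := hUm ▸ hU₃i
      val₂ := hUm ▸ hU₂ }

/-- **(R-U).** -/
theorem leafRegU_of (hT : LeafTable) (hQ : LeafQep) (hC : LeafChart) (hV : LeafVal) :
    LeafRegU := by
  intro P E M q _ _ _ w hStd V₁' V₂' V₁ V₂ V₃ W' W hObj
  have hcore := leafRegUCore_of hT hQ hC P E M q w hStd V₁' V₂' V₁ V₂ V₃ W' W hObj
  obtain ⟨t₀, ht₀, hwt₀⟩ := (hV P E M q w hStd V₁' V₂' V₁ V₂ V₃ W' W hObj).ram₂
  refine { toPartRegUCore := hcore, val₂' := fun t ht => ?_ }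
  exact unitAt_div_unif_pow_h356 V₂ _ _ t 12 (q - 1) hcore.val₂
    (unitAt_div_pow_of_unif_h356 V₂ _ t₀ t (q - 1) ht₀ hwt₀ ht)

end Proof

end Fermat.Agent.S36.Mod3.H356

end

end
-- ===== PACK-END S36/Mod3/H356/RegU.lean

-- ===== PACK-BEGIN S36/Mod3/H775/EisRes.lean
section


/-!
# S36 / MOD3 / REG — the Eisenstein residue on the middle component (helper775)

`hEis` of helper922's `h922_hres_mid`, on the concrete objects, UNCONDITIONAL (`Std` + `Objs`):

  `π ^ (q - 1) / q  ≡  α(g₁) / α(j ^ (q²) - j)   mod 𝔪_{V₂}`,     `π = β(j_q) - α(j) = j_{q²} - j`,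

where `g₁ ∈ V₁'` (level `M q`) has `t`-expansion `U = Ψ(j) / q`, the Eisenstein constant of
helper83 (`h83_eisenstein`), `Ū · θ j̄ = (j̄ - j̄^{q²}) (θ j̄)^q`.

DIRECT route (no `EisData`, no minimal polynomial, no `Unram`): the formal decomposition
`Ψ = (X - j^{q²}) (X - j)^{q-1} + q G` over the integer series of `F_{Mq}` is evaluated at
`j_{q²}` INSIDE `V₂`; `G(j_{q²}) ≡ G(j)` because `π ∈ 𝔪_{V₂}` (`kron₂`) and `j_{q²} - j^{q²}` is
a unit of `V₂` because `j^{q²} - j` is a Gauss unit.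
-/

set_option autoImplicit false
set_option linter.unusedSectionVars false
set_option linter.style.haveILetI false
set_option synthInstance.maxHeartbeats 400000
set_option maxHeartbeats 1600000

noncomputable section

namespace Fermat.Agent.S36.Mod3.H775.Res

open ModularCurve Polynomial Fermat.Agent.A2.Mod
open Fermat.Agent.S36.H370 Fermat.Agent.S36.Mod3.H370 Fermat.Agent.S36.Eng
open Fermat.Agent.S36.H83 Fermat.Agent.S28

/-! ## The abstract residue computation -/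

section Abstract

variable {L : Type*} [Field L]

/-- If `(y - a) (y - c)^n + q G(y) = 0` in a valuation ring `V`, `y - c ∈ 𝔪_V` and `a - c` is a
unit, then `(y - c)^n / q ≡ G(c) / (a - c)` modulo `𝔪_V`. -/
theorem eis_residue (V : ValuationSubring L) (G : Polynomial V) (y c a : V) (qq : L) (n : ℕ)
    (hq0 : qq ≠ 0)
    (hrel : ((y : L) - a) * ((y : L) - c) ^ n + qq * ((G.eval y : V) : L) = 0)
    (hπ : (y : L) - c ∈ V.nonunits)
    (hac0 : (a : L) - c ≠ 0) (hac : ((a : L) - c)⁻¹ ∈ V) :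
    ((y : L) - c) ^ n * qq⁻¹ - ((G.eval c : V) : L) * ((a : L) - c)⁻¹ ∈ V.nonunits := by
  obtain ⟨h, hh⟩ := Polynomial.sub_dvd_eval_sub y c G
  have hh' : ((G.eval y : V) : L) = ((G.eval c : V) : L) + ((y : L) - c) * (h : L) := by
    have := congrArg (fun z : V => (z : L)) hh
    simp only [AddSubgroupClass.coe_sub, MulMemClass.coe_mul] at this
    linear_combination this
  -- `y - a` is a unit
  have hva : V.valuation ((a : L) - c) = 1 := by
    refine le_antisymm ((V.valuation_le_one_iff _).mpr (sub_mem a.2 c.2)) ?_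
    have h1 := (V.valuation_le_one_iff _).mpr hac
    rw [map_inv₀] at h1
    have h0 : V.valuation ((a : L) - c) ≠ 0 := by
      rw [Ne, Valuation.zero_iff]
      exact hac0
    exact (inv_le_one₀ (zero_lt_iff.mpr h0)).mp h1
  have hvπ : V.valuation ((y : L) - c) < 1 := (V.mem_nonunits_iff).mp hπ
  have hvy : V.valuation ((y : L) - a) = 1 := by
    have e : (y : L) - a = -((a : L) - c) + ((y : L) - c) := by ring
    rw [e]
    have h2 : V.valuation (-((a : L) - c)) = 1 := by rw [Valuation.map_neg, hva]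
    rw [Valuation.map_add_eq_of_lt_left]
    · exact h2
    · rw [h2]
      exact hvπ
  have hya0 : (y : L) - a ≠ 0 := by
    intro h0
    rw [h0, map_zero] at hvy
    exact zero_ne_one hvy
  have hyai : ((y : L) - a)⁻¹ ∈ V := by
    rw [← V.valuation_le_one_iff, map_inv₀, hvy, inv_one]
  set π : L := (y : L) - c with hπdef
  set Gc : L := ((G.eval c : V) : L) with hGc
  have hrel' : ((y : L) - a) * π ^ n + qq * (Gc + π * (h : L)) = 0 := by
    rw [← hh']
    exact hrel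
  have h1 : π ^ n * qq⁻¹ = -(Gc + π * (h : L)) * ((y : L) - a)⁻¹ := by
    field_simp
    linear_combination hrel'
  have hya : (y : L) - a = π - ((a : L) - c) := by
    rw [hπdef]
    ring
  have key : π ^ n * qq⁻¹ - Gc * ((a : L) - c)⁻¹
      = π * (-(Gc + (h : L) * ((a : L) - c)) * (((y : L) - a)⁻¹ * ((a : L) - c)⁻¹)) := by
    rw [h1]
    field_simp
    rw [hya]
    ring
  rw [key, ValuationSubring.mem_nonunits_iff, map_mul]
  refine mul_lt_one_of_lt_of_le hvπ ((V.valuation_le_one_iff _).mpr ?_)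
  refine mul_mem (neg_mem (add_mem (G.eval c).2 (mul_mem h.2 (sub_mem a.2 c.2)))) ?_
  exact mul_mem hyai hac

end Abstract

/-! ## The integer series lying in `F_{N,E}` -/

section IntSeries

variable (E : IntermediateField ℚ Qb)

/-- The integer series lying in `F_{N,E}`. -/
def intS (N : ℕ) : Subring (LaurentSeries ℤ) :=
  (FE E N).toSubfield.toSubring.comap (H972.castE E)

theorem mem_intS {N : ℕ} {U : LaurentSeries ℤ} :
    U ∈ intS E N ↔ H972.castE E U ∈ FE E N := Iff.rfl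

/-- `intS` is saturated. -/
theorem mem_intS_of_natCast_mul {N : ℕ} {p : ℕ} (hp : p ≠ 0) {U : LaurentSeries ℤ}
    (h : (p : LaurentSeries ℤ) * U ∈ intS E N) : U ∈ intS E N := by
  rw [mem_intS] at h ⊢
  rw [map_mul, map_natCast] at h
  have hp0 : ((p : ℕ) : LaurentSeries E) ≠ 0 := by
    have : CharZero (LaurentSeries E) :=
      charZero_of_injective_algebraMap (algebraMap E (LaurentSeries E)).injective
    exact Nat.cast_ne_zero.mpr hp
  have h1 : ((p : ℕ) : LaurentSeries E) ∈ FE E N := natCast_mem _ p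
  have h2 : ((p : ℕ) : LaurentSeries E)⁻¹ * ((p : LaurentSeries E) * H972.castE E U) ∈ FE E N :=
    (FE E N).mul_mem ((FE E N).inv_mem h1) h
  rwa [inv_mul_cancel_left₀ hp0] at h2

theorem jq_mem_intS (N d : ℕ) [NeZero d] (hd : d ∣ N) :
    qExpand ℤ d (jqModC ℤ) ∈ intS E N := by
  rw [mem_intS, ← H972.coe_jE' E N d hd]
  exact (jE E N d hd).2

theorem j_mem_intS (N : ℕ) : jqModC ℤ ∈ intS E N := by
  have := jq_mem_intS E N 1 (one_dvd _)
  rwa [qExpand_one_apply] at this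

variable {E} {P : ValuationSubring Qb}

/-- `intS → V∞`. -/
def toV {N : ℕ} {V : ValuationSubring (FE E N)} (hV : IsVinf P E N V) : intS E N →+* V :=
  (((H972.castE E).comp (intS E N).subtype).codRestrict (FE E N) (fun U => U.2)).codRestrict V
    (fun _ => H972.mem_of_castE hV rfl)

theorem coe_toV {N : ℕ} {V : ValuationSubring (FE E N)} (hV : IsVinf P E N V)
    (U : intS E N) :
    (((toV hV U : V) : FE E N) : LaurentSeries E) = H972.castE E (U : LaurentSeries ℤ) := rfl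

end IntSeries

/-! ## The polynomials over the integer series -/

section Polys

variable (E : IntermediateField ℚ Qb) (N q : ℕ) [NeZero q]

/-- `j` as an element of `intS`. -/
def jS : intS E N := ⟨jqModC ℤ, j_mem_intS E N⟩

theorem coe_jS : ((jS E N : intS E N) : LaurentSeries ℤ) = jqModC ℤ := rfl

/-- `Ψ = Φ_q(j_q, Y) / (Y - j)` and its Eisenstein-split form, over the integer series lying in
`F_{N,E}` (`q ∣ N`). -/
theorem exists_polys [hq : Fact q.Prime] (Φ : ModPolyData q) (hqN : q ∣ N) :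
    ∃ Ψ₀ G₀ : Polynomial (intS E N),
      Ψ₀.map (intS E N).subtype = h83_eisPsi q Φ ∧
      Ψ₀ = (X - C (jS E N ^ (q ^ 2))) * (X - C (jS E N)) ^ (q - 1)
        + C (q : intS E N) * G₀ ∧
      (h83_eisPsi q Φ).eval (jqModC ℤ)
        = (q : LaurentSeries ℤ) * ((G₀.eval (jS E N) : intS E N) : LaurentSeries ℤ) ∧
      h83_red q ((jS E N ^ (q ^ 2) - jS E N : intS E N) : LaurentSeries ℤ) ≠ 0 := by
  set S := intS E N with hS
  have hinj : Function.Injective S.subtype := Subtype.val_injective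
  obtain ⟨G, hΨ, hev, -, hsub⟩ := h83_eisPsi_eq_add q Φ
  obtain ⟨Ψ₀, -, hmap⟩ := h83_eisPsi_mem_lifts q Φ S
    (j_mem_intS E N) (jq_mem_intS E N q hqN)
  set D : Polynomial S := Ψ₀ - (X - C (jS E N ^ (q ^ 2))) * (X - C (jS E N)) ^ (q - 1)
    with hD
  have hDmap : D.map S.subtype = C (q : LaurentSeries ℤ) * G := by
    rw [hD, Polynomial.map_sub, hmap, hΨ]
    simp only [Polynomial.map_mul, Polynomial.map_pow, Polynomial.map_sub, Polynomial.map_X,
      Polynomial.map_C, map_pow]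
    rw [show S.subtype (jS E N) = jqModC ℤ from rfl]
    ring
  have hcoef : ∀ n, G.coeff n ∈ S := by
    intro n
    apply mem_intS_of_natCast_mul E (NeZero.ne q)
    have h1 := congrArg (fun f => f.coeff n) hDmap
    simp only [Polynomial.coeff_map, Polynomial.coeff_C_mul] at h1
    rw [← h1]
    exact (D.coeff n).2
  obtain ⟨G₀, hG₀⟩ : ∃ G₀ : Polynomial S, G₀.map S.subtype = G := by
    rw [← Polynomial.mem_lifts, Polynomial.lifts_iff_coeff_lifts]
    exact fun n => ⟨⟨G.coeff n, hcoef n⟩, rfl⟩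
  refine ⟨Ψ₀, G₀, hmap, ?_, ?_, hsub⟩
  · apply Polynomial.map_injective S.subtype hinj
    rw [hmap, hΨ]
    have hq1 : (C (q : ↥S) * G₀).map S.subtype = C (q : LaurentSeries ℤ) * G := by
      rw [Polynomial.map_mul, Polynomial.map_C, map_natCast, hG₀]
    rw [Polynomial.map_add, hq1]
    simp only [Polynomial.map_mul, Polynomial.map_pow, Polynomial.map_sub,
      Polynomial.map_X, Polynomial.map_C, map_pow]
    rw [show S.subtype (jS E N) = jqModC ℤ from rfl]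
    ring
  · have : ((G₀.eval (jS E N) : S) : LaurentSeries ℤ) = G.eval (jqModC ℤ) := by
      rw [← hG₀, Polynomial.eval_map]
      exact (Polynomial.eval₂_at_apply S.subtype (jS E N)).symm
    rw [this]
    exact hev

end Polys

/-! ## The concrete statement -/

section Main

variable {P : ValuationSubring Qb} {E : IntermediateField ℚ Qb} {M q : ℕ} [NeZero M] [NeZero q]
  [NeZero (M * q)] {w : RE P E}

/-- **The Eisenstein residue on the middle component** (`hEis` of `h922_hres_mid` at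
`M₁ = M q`, `V = V₂`), together with its companions `hU`, `hg₁`. -/
theorem eis_mid (hStd : Std P E M q w)
    {V₁' V₂' : ValuationSubring (FE E (M * q))}
    {V₁ V₂ V₃ : ValuationSubring (FE E (M * q * q))}
    {W' : FE E (M * q) ≃ₐ[E] FE E (M * q)}
    {W : FE E (M * q * q) ≃ₐ[E] FE E (M * q * q)}
    (hO : Objs P E M q V₁' V₂' V₁ V₂ V₃ W' W) :
    ∃ (U : LaurentSeries ℤ) (g₁ : FE E (M * q)),
      (coeffMap (Int.castRingHom (ZMod q)) U * thetaL (ZMod q) (jqModC (ZMod q))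
        = (jqModC (ZMod q) - jqModC (ZMod q) ^ (q ^ 2))
            * thetaL (ZMod q) (jqModC (ZMod q)) ^ q) ∧
      coeffMap (Int.castRingHom (ZMod q)) U ≠ 0 ∧
      (g₁ : LaurentSeries E) = coeffMap (Int.castRingHom E) U ∧
      g₁ ∈ V₁' ∧
      (βE E (M * q) q (jE E (M * q) q (dvd_mul_left q M))
            - αE E (M * q) q (jE E (M * q) 1 (one_dvd _))) ^ (q - 1)
          * (algebraMap E (FE E (M * q * q)) (q : E))⁻¹
        - αE E (M * q) q g₁
          * (αE E (M * q) q (jE E (M * q) 1 (one_dvd _) ^ (q ^ 2)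
              - jE E (M * q) 1 (one_dvd _)))⁻¹
        ∈ V₂.nonunits := by
  have hS : Setting P E M q w :=
    ⟨hStd.q_prime, hStd.q_not_dvd, NeZero.ne M, hStd.lies_over, hStd.unram.1.dvr, hStd.unif⟩
  haveI := hS.dvr
  haveI : Fact q.Prime := ⟨hStd.q_prime⟩
  have hq := hStd.q_prime
  have hqM : q ∣ M * q := dvd_mul_left q M
  have hVT := leafVT P E M q w hStd V₁' V₂' V₁ V₂ V₃ W' W hO
  have hαV₂ : ∀ k, αE E (M * q) q k ∈ V₂ ↔ k ∈ V₁' := fun k => by
    rw [← hO.mid, ValuationSubring.mem_comap]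
    rfl
  obtain ⟨Φ⟩ := Fermat.Agent.S28.H326.nonempty_modPolyData q hq
  obtain ⟨Ψ₀, G₀, hmap, hdec, hev, hsub⟩ := exists_polys E (M * q) q Φ hqM
  obtain ⟨U, hU1, -, hU3, hU0⟩ := h83_eisenstein q Φ
  have hGU : ((G₀.eval (jS E (M * q)) : intS E (M * q)) : LaurentSeries ℤ) = U :=
    mul_left_cancel₀ (h83_natCast_ne_zero q) (hev.symm.trans hU1)
  -- the ring homomorphisms
  let t1 : intS E (M * q) →+* V₁' := toV hO.vinf'
  let ρ : V₁' →+* V₂ :=
    ((αE E (M * q) q : FE E (M * q) →+* FE E (M * q * q)).comp V₁'.subtype).codRestrict V₂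
      (fun k => (hαV₂ _).mpr k.2)
  let τ : intS E (M * q) →+* V₂ := ρ.comp t1
  have hτcoe : ∀ u : intS E (M * q),
      ((τ u : V₂) : FE E (M * q * q)) = αE E (M * q) q ((t1 u : V₁') : FE E (M * q)) :=
    fun _ => rfl
  have hι : (H972.valV V₂).comp τ = (H972.castE E).comp (intS E (M * q)).subtype := by
    refine RingHom.ext fun u => ?_
    show ((αE E (M * q) q ((t1 u : V₁') : FE E (M * q)) : FE E (M * q * q)) : LaurentSeries E)
      = H972.castE E (u : LaurentSeries ℤ)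
    rw [coe_heckeAlphaBar]
    rfl
  -- the elements
  have hj1 : ((t1 (jS E (M * q)) : V₁') : FE E (M * q)) = jE E (M * q) 1 (one_dvd _) := by
    apply Subtype.ext
    rw [coe_toV, coe_jS, H972.coe_jE', qExpand_one_apply]
  have hc : ((τ (jS E (M * q)) : V₂) : FE E (M * q * q)) = j1 E M q := by
    rw [hτcoe, hj1]
    exact H553.αE_jE E (M * q) q 1 (one_dvd _)
  have hπ : jqq E M q - j1 E M q ∈ V₂.nonunits := hVT.kron₂.2
  have hj1V : j1 E M q ∈ V₂ := by
    rw [← hc]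
    exact (τ (jS E (M * q))).2
  have hyV : jqq E M q ∈ V₂ := by
    have h1 : jqq E M q = (jqq E M q - j1 E M q) + j1 E M q := by ring
    rw [h1]
    exact add_mem (V₂.nonunits_le hπ) hj1V
  set y : V₂ := ⟨jqq E M q, hyV⟩ with hy
  -- the relation
  have hroot : (Ψ₀.map τ).eval y = 0 := by
    apply H972.valV_injective V₂
    rw [map_zero, ← Polynomial.eval₂_hom, Polynomial.eval₂_map, hι, ← Polynomial.eval₂_map,
      hmap]
    have hyc : H972.valV V₂ y = H972.castE E (qExpand ℤ q (qExpand ℤ q (jqModC ℤ))) := by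
      rw [H972.valV_apply, qExpand_qExpand]
      exact H972.coe_jE' E (M * q * q) (q * q) ⟨M, by ring⟩
    rw [hyc, Polynomial.eval₂_hom, h83_eisPsi_eval_jpp, map_zero]
  have hrel : ((y : FE E (M * q * q)) - (τ (jS E (M * q) ^ (q ^ 2)) : V₂))
        * ((y : FE E (M * q * q)) - (τ (jS E (M * q)) : V₂)) ^ (q - 1)
      + ((q : ℕ) : FE E (M * q * q)) * (((G₀.map τ).eval y : V₂) : FE E (M * q * q)) = 0 := by
    have h1 := hroot
    rw [hdec] at h1
    simp only [Polynomial.map_add, Polynomial.map_mul, Polynomial.map_pow, Polynomial.map_sub,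
      Polynomial.map_X, Polynomial.map_C, Polynomial.eval_add, Polynomial.eval_mul,
      Polynomial.eval_pow, Polynomial.eval_sub, Polynomial.eval_X, Polynomial.eval_C,
      map_natCast] at h1
    have h2 := congrArg (fun z : V₂ => (z : FE E (M * q * q))) h1
    simpa using h2
  -- the Gauss unit `j^(q²) - j`
  set k : FE E (M * q) :=
    jE E (M * q) 1 (one_dvd _) ^ (q ^ 2) - jE E (M * q) 1 (one_dvd _) with hk
  have hkcoe : (k : LaurentSeries E) = H972.castE E (jqModC ℤ ^ (q ^ 2) - jqModC ℤ) := by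
    have h1 : (k : LaurentSeries E)
        = ((jE E (M * q) 1 (one_dvd _) : FE E (M * q)) : LaurentSeries E) ^ (q ^ 2)
          - ((jE E (M * q) 1 (one_dvd _) : FE E (M * q)) : LaurentSeries E) := rfl
    rw [h1, H972.coe_jE', qExpand_one_apply, map_sub, map_pow]
  have hk0 : k ≠ 0 := by
    intro h0
    have h1 : H972.castE E (jqModC ℤ ^ (q ^ 2) - jqModC ℤ) = 0 := by
      rw [← hkcoe, h0]
      rfl
    have h2 : jqModC ℤ ^ (q ^ 2) - jqModC ℤ = 0 :=
      H972.castE_injective E (h1.trans (map_zero _).symm)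
    apply hsub
    show h83_red q (jqModC ℤ ^ (q ^ 2) - jqModC ℤ) = 0
    rw [h2, map_zero]
  have hkinv : k⁻¹ ∈ V₁' :=
    H972.inv_mem_of_castE hq hStd.lies_over hO.vinf' hkcoe
      (H972.exists_not_dvd_of_red_ne_zero q hsub)
  have hac_eq : ((τ (jS E (M * q) ^ (q ^ 2)) : V₂) : FE E (M * q * q))
      - (τ (jS E (M * q)) : V₂) = αE E (M * q) q k := by
    rw [map_pow τ, SubmonoidClass.coe_pow, hc, hk, map_sub, map_pow,
      H553.αE_jE E (M * q) q 1 (one_dvd _)]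
    rfl
  have hq0 : ((q : ℕ) : FE E (M * q * q)) ≠ 0 := Nat.cast_ne_zero.mpr hq.ne_zero
  have hres := eis_residue V₂ (G₀.map τ) y (τ (jS E (M * q))) (τ (jS E (M * q) ^ (q ^ 2)))
    ((q : ℕ) : FE E (M * q * q)) (q - 1) hq0 hrel
    (by rw [hc]; exact hπ)
    (by rw [hac_eq]; exact (_root_.map_ne_zero _).mpr hk0)
    (by
      rw [hac_eq, ← map_inv₀]
      exact (hαV₂ _).mpr hkinv)
  -- the function `g₁`
  refine ⟨U, ((t1 (G₀.eval (jS E (M * q))) : V₁') : FE E (M * q)), hU3, hU0, ?_, ?_, ?_⟩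
  · rw [coe_toV, hGU]
    rfl
  · exact (t1 (G₀.eval (jS E (M * q)))).2
  · have hG : (((G₀.map τ).eval (τ (jS E (M * q))) : V₂) : FE E (M * q * q))
        = αE E (M * q) q ((t1 (G₀.eval (jS E (M * q))) : V₁') : FE E (M * q)) := by
      rw [Polynomial.eval_map, Polynomial.eval₂_at_apply]
      rfl
    rw [hG, hac_eq, hc] at hres
    have hβ : βE E (M * q) q (jE E (M * q) q hqM) = jqq E M q := beta_jq_eq370
    have hα : αE E (M * q) q (jE E (M * q) 1 (one_dvd _)) = j1 E M q :=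
      H553.αE_jE E (M * q) q 1 (one_dvd _)
    rw [hβ, hα, map_natCast]
    exact hres

end Main

end Fermat.Agent.S36.Mod3.H775.Res

end

end
-- ===== PACK-END S36/Mod3/H775/EisRes.lean

-- ===== PACK-BEGIN S36/H922/Conc.lean
section





/-!
# S36 engine / cell REG, route R4 (MID-UNIT): the residue of `π^N / U_m` along `mid`, CONCRETE
(helper922; A2/Mod vocabulary, on helper438's leaf MU)

Level `M₁` with `q ∣ M₁` (`M₁ = q M'`), level `N = M₁ * q`; `α = αE E M₁ q`, `β = βE E M₁ q`.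
`V` ANY valuation subring of `F_{N,E}` such that

* `hα`  : `α (V∞') ⊆ V`                       (`V` lies over the Gauss valuation of level `M₁` via `α`);
* `hqV` : `q ∈ 𝔪_V`;
* `hβD` : `β(D)` is a unit of `V`, `D = q¹² Δ(t^q)/Δ(t)`   (`V ∘ β = V₂'`, MOD3-SYM + MU);
* `hac` : `j^(q²) - j` is a unit of `V`        (Gauss unit of level `M₁`);
* `hEis`: `π^(q-1) (j^(q²) - j) / q ≡ g₁` modulo `𝔪_V`, `g₁ ∈ F_{M₁}` with `t`-expansion the
          Eisenstein constant `U = Ψ(j)/q` of helper83 (`h83_eisenstein`);   `π = j_{q²} - j`.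
          [from helper972's `EisData` + `h922_residue_Vc`].

Then, with `U_m = α(D)/β(D)` and `e = (j⁴ (j - 1728)³)^(2(q-1))`:

  `(π ^ (12 (q-1)) - e · U_m) / U_m ∈ 𝔪_V`,

which is hypothesis `hres` of `S36.H878.principal_of_unit_self` at `V = V_mid`.
-/

set_option autoImplicit false
set_option synthInstance.maxHeartbeats 400000
set_option maxHeartbeats 1600000

noncomputable section

open ModularCurve HahnSeries Polynomial

namespace Fermat.Agent.S36.H922

open Fermat.Agent.A2.Mod Fermat.Agent.S28 Fermat.Agent.S36.H438 Fermat.Agent.A2.Mod.H873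

/-! ## 1. The kernel of the reduction `ℤ((t)) → 𝔽_q((t))` -/

section Kernel

variable (q : ℕ) [NeZero q]

/-- Coefficientwise division by `q`. -/
def h922_divSeries (X : LaurentSeries ℤ) : LaurentSeries ℤ where
  coeff n := X.coeff n / (q : ℤ)
  isPWO_support' := X.isPWO_support.mono fun n hn => by
    simp only [Function.mem_support, ne_eq] at hn ⊢
    intro h
    exact hn (by rw [h, Int.zero_ediv])

theorem h922_eq_mul_of_red_eq_zero (X : LaurentSeries ℤ)
    (h : coeffMap (Int.castRingHom (ZMod q)) X = 0) :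
    X = (q : LaurentSeries ℤ) * h922_divSeries q X := by
  ext n
  have hn : (Int.castRingHom (ZMod q)) (X.coeff n) = 0 := by
    have := congrArg (fun Z => Z.coeff n) h
    simpa [coeffMap_coeff] using this
  have hdvd : (q : ℤ) ∣ X.coeff n := by
    rw [← ZMod.intCast_zmod_eq_zero_iff_dvd]
    exact hn
  have hC : (q : LaurentSeries ℤ) = HahnSeries.C ((q : ℕ) : ℤ) := by
    rw [map_natCast]
  rw [hC, HahnSeries.C_apply, HahnSeries.coeff_single_zero_mul]
  show X.coeff n = (q : ℤ) * (X.coeff n / (q : ℤ))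
  rw [Int.mul_ediv_cancel' hdvd]

end Kernel

/-! ## 2. Formal identities -/

section Formal

variable (q : ℕ) [hq : Fact q.Prime] [NeZero q]

/-- The formal series `(j⁴ (j - 1728)³)^(2(q-1)) · u² · (j^(q²) - j)^12 - U^12` is divisible
by `q` in `ℤ((t))`. -/
theorem h922_theta_int (U : LaurentSeries ℤ)
    (hU : coeffMap (Int.castRingHom (ZMod q)) U * thetaL (ZMod q) (jqModC (ZMod q))
      = (jqModC (ZMod q) - jqModC (ZMod q) ^ (q ^ 2))
          * thetaL (ZMod q) (jqModC (ZMod q)) ^ q) :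
    ∃ Z : LaurentSeries ℤ,
      (jqModC ℤ ^ 4 * (jqModC ℤ - 1728) ^ 3) ^ (2 * (q - 1)) * unitL ℤ q ^ 2
          * (jqModC ℤ ^ (q ^ 2) - jqModC ℤ) ^ 12 - U ^ 12
        = (q : LaurentSeries ℤ) * Z := by
  refine ⟨_, h922_eq_mul_of_red_eq_zero q _ ?_⟩
  have h := h922_theta_bar q (coeffMap (Int.castRingHom (ZMod q)) U) hU
  rw [map_sub, map_mul, map_mul, map_pow, map_pow, map_pow, map_pow, map_mul, map_pow, map_pow,
    map_sub, map_sub, map_pow, coeffMap_jqModC, h88_coeffMap_unitL, map_ofNat, h, sub_self]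

/-- The unit relation for `β(D)`: `Ψ(j(t^q) ; q¹² Δ(t^{q²})/Δ(t^q)) = 0`. -/
theorem h922_unitPoly_beta (Ψ : Polynomial (Polynomial ℤ))
    (h1 : Ψ.eval₂ (evalAt (jqModC ℤ)) ((q : LaurentSeries ℤ) ^ 12 * unitL ℤ q) = 0) :
    Ψ.eval₂ (evalAt (qExpand ℤ q (jqModC ℤ)))
      (qExpand ℤ q ((q : LaurentSeries ℤ) ^ 12 * unitL ℤ q)) = 0 := by
  have h := congrArg (qExpand ℤ q) h1
  rw [Polynomial.hom_eval₂, map_zero] at h
  have hcomp : (qExpand ℤ q).comp (evalAt (jqModC ℤ)) = evalAt (qExpand ℤ q (jqModC ℤ)) := by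
    apply Polynomial.ringHom_ext
    · intro a
      simp [evalAt]
    · simp [evalAt]
  rw [hcomp] at h
  exact h

end Formal

/-! ## 3. The concrete residue statement -/

section Concrete

variable (P : ValuationSubring Qb) (E : IntermediateField ℚ Qb)
variable (M₁ q : ℕ) [NeZero M₁] [hq : Fact q.Prime] [NeZero q] (hqM : q ∣ M₁)

omit hq in
/-- An element of level `M₁` with integral `t`-expansion lies in `V` (`V ⊇ α(V∞')`). -/
theorem h922_alpha_mem {Vinf' : ValuationSubring (FE E M₁)} (hVinf : IsVinf P E M₁ Vinf')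
    {V : ValuationSubring (FE E (M₁ * q))} (hα : ∀ f ∈ Vinf', αE E M₁ q f ∈ V)
    (f : FE E M₁) (X : LaurentSeries ℤ) (hf : (f : LaurentSeries E) = castE E X) :
    αE E M₁ q f ∈ V :=
  hα f (mem_vinf_of_coe_eq_castE P E hVinf hf)

omit hq in
theorem h922_natCast_nonunits {V : ValuationSubring (FE E (M₁ * q))}
    (hqV : algebraMap E (FE E (M₁ * q)) (q : E) ∈ V.nonunits) :
    ((q : ℕ) : FE E (M₁ * q)) ∈ V.nonunits := by
  rwa [map_natCast] at hqV

/-- **CONC-RB**: `β(D) ≡ u'` modulo `𝔪_V`. -/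
theorem h922_betaD_congr
    (Vinf' : ValuationSubring (FE E M₁)) (hVinf : IsVinf P E M₁ Vinf')
    (V : ValuationSubring (FE E (M₁ * q)))
    (hα : ∀ f ∈ Vinf', αE E M₁ q f ∈ V)
    (hqV : algebraMap E (FE E (M₁ * q)) (q : E) ∈ V.nonunits)
    (hβD : βE E M₁ q (dE E M₁ q hqM) ∈ V)
    (hβD' : (βE E M₁ q (dE E M₁ q hqM))⁻¹ ∈ V) :
    βE E M₁ q (dE E M₁ q hqM) - αE E M₁ q (uE' E M₁ q hqM) ∈ V.nonunits := by
  obtain ⟨Ψ, hΨ, hdeg, h1, h2⟩ := h922_exists_unitPoly q hq.out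
  have hinjα : Function.Injective (αE E M₁ q) := (αE E M₁ q).toRingHom.injective
  have hinjβ : Function.Injective (βE E M₁ q) := (βE E M₁ q).toRingHom.injective
  refine h922_unit_roots_congr q V (h922_natCast_nonunits E M₁ q hqV) Ψ hΨ hdeg h1 h2
    (αE E M₁ q (jE E M₁ q hqM)) (βE E M₁ q (dE E M₁ q hqM)) (αE E M₁ q (uE' E M₁ q hqM))
    ?_ hβD hβD' ?_ ?_ ?_ ?_ ?_ ?_
  · exact h922_alpha_mem P E M₁ q hVinf hα _ _ (coe_jE_int E M₁ q hqM)
  · exact h922_alpha_mem P E M₁ q hVinf hα _ _ (coe_uE' E M₁ q hqM)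
  · rw [← map_inv₀, uE'_eq_inv, inv_inv]
    exact h922_alpha_mem P E M₁ q hVinf hα _ _ (coe_uE E M₁ q hqM)
  · exact (map_ne_zero_iff _ hinjβ).mpr (dE_ne_zero E M₁ q hqM)
  · rw [uE'_eq_inv]
    exact (map_ne_zero_iff _ hinjα).mpr (inv_ne_zero (uE_ne_zero E M₁ q hqM))
  · refine eval₂_eq_zero_of_int E (M₁ * q) Ψ _ _
      (qExpand ℤ q ((q : LaurentSeries ℤ) ^ 12 * unitL ℤ q)) (qExpand ℤ q (jqModC ℤ)) ?_ ?_
      (h922_unitPoly_beta q Ψ h1)
    · rw [coe_heckeBetaBar, coe_dE, castE, coeffMap_qExpand]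
    · rw [coe_heckeAlphaBar, coe_jE_int]
  · refine eval₂_eq_zero_of_int E (M₁ * q) Ψ _ _
      (H589.unitL' q) (qExpand ℤ q (jqModC ℤ)) ?_ ?_ h2
    · rw [coe_heckeAlphaBar, coe_uE']
    · rw [coe_heckeAlphaBar, coe_jE_int]

omit hq in
/-- The coercion `F_{M₁,E} → E((t))` as a ring homomorphism. -/
theorem h922_coe_ringHom (f : FE E M₁) :
    ((FE E M₁).val.toRingHom f : LaurentSeries E) = (f : LaurentSeries E) := rfl

/-- **CONC-TH**: `e · u² · (j^(q²) - j)^12 - g₁^12 ∈ q · V∞'` (level `M₁`, Gauss valuation). -/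
theorem h922_theta_conc
    (U : LaurentSeries ℤ)
    (hU : coeffMap (Int.castRingHom (ZMod q)) U * thetaL (ZMod q) (jqModC (ZMod q))
      = (jqModC (ZMod q) - jqModC (ZMod q) ^ (q ^ 2))
          * thetaL (ZMod q) (jqModC (ZMod q)) ^ q)
    (g₁ : FE E M₁) (hg₁ : (g₁ : LaurentSeries E) = castE E U) :
    ∃ (z₁ : FE E M₁) (Z : LaurentSeries ℤ), (z₁ : LaurentSeries E) = castE E Z ∧
      (jE E M₁ 1 (one_dvd M₁) ^ 4 * (jE E M₁ 1 (one_dvd M₁) - 1728) ^ 3) ^ (2 * (q - 1))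
          * uE E M₁ q hqM ^ 2
          * (jE E M₁ 1 (one_dvd M₁) ^ (q ^ 2) - jE E M₁ 1 (one_dvd M₁)) ^ 12 - g₁ ^ 12
        = algebraMap E (FE E M₁) (q : E) * z₁ := by
  obtain ⟨Z, hZ⟩ := h922_theta_int q U hU
  set T₁ : FE E M₁ :=
    (jE E M₁ 1 (one_dvd M₁) ^ 4 * (jE E M₁ 1 (one_dvd M₁) - 1728) ^ 3) ^ (2 * (q - 1))
          * uE E M₁ q hqM ^ 2
          * (jE E M₁ 1 (one_dvd M₁) ^ (q ^ 2) - jE E M₁ 1 (one_dvd M₁)) ^ 12 - g₁ ^ 12 with hT₁
  have hq0 : algebraMap E (FE E M₁) (q : E) ≠ 0 :=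
    (map_ne_zero_iff _ (algebraMap E (FE E M₁)).injective).mpr
      (Nat.cast_ne_zero.mpr (NeZero.ne q))
  have hcoeT : (T₁ : LaurentSeries E) = castE E ((q : LaurentSeries ℤ) * Z) := by
    rw [← hZ, ← h922_coe_ringHom, hT₁]
    simp only [map_sub, map_mul, map_pow, map_ofNat]
    rw [h922_coe_ringHom, h922_coe_ringHom, h922_coe_ringHom, coe_jE_one, coe_uE, hg₁]
  have hcoeq : ((algebraMap E (FE E M₁) (q : E) : FE E M₁) : LaurentSeries E)
      = castE E (q : LaurentSeries ℤ) := by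
    rw [map_natCast, map_natCast]
    rfl
  refine ⟨(algebraMap E (FE E M₁) (q : E))⁻¹ * T₁, Z, ?_, ?_⟩
  · have hq0' : castE E (q : LaurentSeries ℤ) ≠ 0 := by
      rw [← hcoeq]
      intro h
      exact hq0 (Subtype.ext h)
    have h1 : ((((algebraMap E (FE E M₁) (q : E))⁻¹ * T₁ : FE E M₁)) : LaurentSeries E)
        = (castE E (q : LaurentSeries ℤ))⁻¹ * castE E ((q : LaurentSeries ℤ) * Z) := by
      rw [← hcoeT, ← hcoeq]
      rfl
    rw [h1, map_mul, ← mul_assoc, inv_mul_cancel₀ hq0', one_mul]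
  · rw [← mul_assoc, mul_inv_cancel₀ hq0, one_mul]

omit hq in
theorem h922_nonunits_mul_mem {L : Type*} [Field L] (V : ValuationSubring L) {x y : L}
    (hx : x ∈ V.nonunits) (hy : y ∈ V) : x * y ∈ V.nonunits := by
  rw [ValuationSubring.mem_nonunits_iff, map_mul]
  exact mul_lt_one_of_lt_of_le ((V.mem_nonunits_iff).1 hx) ((V.valuation_le_one_iff y).2 hy)

omit hq in
theorem h922_nonunits_add {L : Type*} [Field L] (V : ValuationSubring L) {x y : L}
    (hx : x ∈ V.nonunits) (hy : y ∈ V.nonunits) : x + y ∈ V.nonunits := by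
  rw [ValuationSubring.mem_nonunits_iff]
  exact lt_of_le_of_lt (V.valuation.map_add x y)
    (max_lt ((V.mem_nonunits_iff).1 hx) ((V.mem_nonunits_iff).1 hy))

omit hq in
theorem h922_nonunits_neg {L : Type*} [Field L] (V : ValuationSubring L) {x : L}
    (hx : x ∈ V.nonunits) : -x ∈ V.nonunits := by
  rw [ValuationSubring.mem_nonunits_iff, Valuation.map_neg]
  exact (V.mem_nonunits_iff).1 hx

/-- `j^(q²) ≠ j` at level `M₁`. -/
theorem h922_jpow_sub_ne_zero :
    jE E M₁ 1 (one_dvd M₁) ^ (q ^ 2) - jE E M₁ 1 (one_dvd M₁) ≠ 0 := by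
  intro h
  have h1 : ((jE E M₁ 1 (one_dvd M₁) ^ (q ^ 2) : FE E M₁) : LaurentSeries E)
      = (jE E M₁ 1 (one_dvd M₁) : LaurentSeries E) := congrArg Subtype.val (sub_eq_zero.mp h)
  rw [← h922_coe_ringHom, map_pow, h922_coe_ringHom, coe_jE_one, coeffMap_jqModC] at h1
  have h2 := congrArg HahnSeries.order h1
  rw [HahnSeries.order_pow, Fermat.Agent.S28.H145.order_jqModC, nsmul_eq_mul] at h2
  have hq2 : 2 ≤ q := hq.out.two_le
  have h3 : ((q ^ 2 : ℕ) : ℤ) = 1 := by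
    push_cast at h2 ⊢
    linarith
  have h4 : q ^ 2 = 1 := by exact_mod_cast h3
  nlinarith

/-- **R4, the residue of `π^(12(q-1)) / U_m` along `mid`, concrete, general `ρ`.**

`π = j_{q²} - j = β(j_q) - α(j)`, `U_m = α(D)/β(D)`, `e = α((j⁴ (j - 1728)³)^(2(q-1)))`.
Inputs from MOD3: `hα` (`V` lies over the Gauss valuation of level `M₁` via `α`), `hqV`,
`hβD`/`hβD'` (`β(D)` is a unit of `V`), `hac` (`j^(q²) - j` is a unit of `V`), and the Eisenstein
constant `ρ ≡ π^(q-1)/q` with `ρ^12 (j^(q²) - j)^12 ≡ g₁^12`, `g₁` the function of level `M₁` with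
`t`-expansion helper83's `U`. -/
theorem h922_hres_mid_rho
    (Vinf' : ValuationSubring (FE E M₁)) (hVinf : IsVinf P E M₁ Vinf')
    (V : ValuationSubring (FE E (M₁ * q)))
    (hα : ∀ f ∈ Vinf', αE E M₁ q f ∈ V)
    (hqV : algebraMap E (FE E (M₁ * q)) (q : E) ∈ V.nonunits)
    (hβD : βE E M₁ q (dE E M₁ q hqM) ∈ V)
    (hβD' : (βE E M₁ q (dE E M₁ q hqM))⁻¹ ∈ V)
    (hac : (αE E M₁ q (jE E M₁ 1 (one_dvd M₁) ^ (q ^ 2) - jE E M₁ 1 (one_dvd M₁)))⁻¹ ∈ V)
    (U : LaurentSeries ℤ)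
    (hU : coeffMap (Int.castRingHom (ZMod q)) U * thetaL (ZMod q) (jqModC (ZMod q))
      = (jqModC (ZMod q) - jqModC (ZMod q) ^ (q ^ 2))
          * thetaL (ZMod q) (jqModC (ZMod q)) ^ q)
    (g₁ : FE E M₁) (hg₁ : (g₁ : LaurentSeries E) = castE E U)
    (ρ : FE E (M₁ * q)) (hρV : ρ ∈ V)
    (hρ : ρ ^ 12 * (αE E M₁ q (jE E M₁ 1 (one_dvd M₁) ^ (q ^ 2) - jE E M₁ 1 (one_dvd M₁))) ^ 12
        - (αE E M₁ q g₁) ^ 12 ∈ V.nonunits)
    (hEis : (βE E M₁ q (jE E M₁ q hqM) - αE E M₁ q (jE E M₁ 1 (one_dvd M₁))) ^ (q - 1)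
          * (algebraMap E (FE E (M₁ * q)) (q : E))⁻¹ - ρ ∈ V.nonunits) :
    ((βE E M₁ q (jE E M₁ q hqM) - αE E M₁ q (jE E M₁ 1 (one_dvd M₁))) ^ (12 * (q - 1))
        - αE E M₁ q ((jE E M₁ 1 (one_dvd M₁) ^ 4 * (jE E M₁ 1 (one_dvd M₁) - 1728) ^ 3)
              ^ (2 * (q - 1)))
          * (αE E M₁ q (dE E M₁ q hqM) * (βE E M₁ q (dE E M₁ q hqM))⁻¹))
      * (αE E M₁ q (dE E M₁ q hqM) * (βE E M₁ q (dE E M₁ q hqM))⁻¹)⁻¹ ∈ V.nonunits := by
  have hinjα : Function.Injective (αE E M₁ q) := (αE E M₁ q).toRingHom.injective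
  have hinjβ : Function.Injective (βE E M₁ q) := (βE E M₁ q).toRingHom.injective
  have hq0 : algebraMap E (FE E (M₁ * q)) (q : E) ≠ 0 :=
    (map_ne_zero_iff _ (algebraMap E (FE E (M₁ * q))).injective).mpr
      (Nat.cast_ne_zero.mpr (NeZero.ne q))
  have hβD0 : βE E M₁ q (dE E M₁ q hqM) ≠ 0 :=
    (map_ne_zero_iff _ hinjβ).mpr (dE_ne_zero E M₁ q hqM)
  have hu0 : αE E M₁ q (uE E M₁ q hqM) ≠ 0 :=
    (map_ne_zero_iff _ hinjα).mpr (uE_ne_zero E M₁ q hqM)
  have hu' : (αE E M₁ q (uE E M₁ q hqM))⁻¹ ∈ V := by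
    rw [← map_inv₀, uE_inv]
    exact h922_alpha_mem P E M₁ q hVinf hα _ _ (coe_uE' E M₁ q hqM)
  have huinv : (αE E M₁ q (uE E M₁ q hqM))⁻¹ = αE E M₁ q (uE' E M₁ q hqM) := by
    rw [← map_inv₀, uE_inv]
  -- `h2 : U_m · β(D) = q^12 · α(u)`
  have h2 : (αE E M₁ q (dE E M₁ q hqM) * (βE E M₁ q (dE E M₁ q hqM))⁻¹)
        * βE E M₁ q (dE E M₁ q hqM)
      = algebraMap E (FE E (M₁ * q)) (q : E) ^ 12 * αE E M₁ q (uE E M₁ q hqM) := by
    rw [mul_assoc, inv_mul_cancel₀ hβD0, mul_one, dE, map_mul, AlgHom.commutes, map_pow]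
  -- `h2' : β(D) ≡ α(u)⁻¹`
  have h2' : βE E M₁ q (dE E M₁ q hqM) - (αE E M₁ q (uE E M₁ q hqM))⁻¹ ∈ V.nonunits := by
    rw [huinv]
    exact h922_betaD_congr P E M₁ q hqM Vinf' hVinf V hα hqV hβD hβD'
  -- `h3 : e · u² ≡ ρ^12`
  obtain ⟨z₁, Z, hz₁, hθ⟩ := h922_theta_conc E M₁ q hqM U hU g₁ hg₁
  have hz₁V : αE E M₁ q z₁ ∈ V := h922_alpha_mem P E M₁ q hVinf hα _ _ hz₁
  have hθα := congrArg (αE E M₁ q) hθ
  simp only [map_sub, map_mul, map_pow, AlgHom.commutes] at hθα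
  set A : FE E (M₁ * q) :=
    αE E M₁ q (jE E M₁ 1 (one_dvd M₁)) ^ (q ^ 2) - αE E M₁ q (jE E M₁ 1 (one_dvd M₁)) with hA
  have hAeq : αE E M₁ q (jE E M₁ 1 (one_dvd M₁) ^ (q ^ 2) - jE E M₁ 1 (one_dvd M₁)) = A := by
    rw [hA, map_sub, map_pow]
  rw [hAeq] at hac hρ
  have hA0 : A ≠ 0 := by
    rw [← hAeq]
    exact (map_ne_zero_iff _ hinjα).mpr (h922_jpow_sub_ne_zero E M₁ q)
  set qL : FE E (M₁ * q) := algebraMap E (FE E (M₁ * q)) (q : E) with hqL
  set u : FE E (M₁ * q) := αE E M₁ q (uE E M₁ q hqM) with hu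
  set J : FE E (M₁ * q) := αE E M₁ q (jE E M₁ 1 (one_dvd M₁)) with hJ
  set G : FE E (M₁ * q) := αE E M₁ q g₁ with hG
  have hA12 : (A⁻¹) ^ 12 ∈ V := pow_mem hac 12
  have h3 : αE E M₁ q ((jE E M₁ 1 (one_dvd M₁) ^ 4 * (jE E M₁ 1 (one_dvd M₁) - 1728) ^ 3)
        ^ (2 * (q - 1))) * u ^ 2 - ρ ^ 12 ∈ V.nonunits := by
    have hkey : αE E M₁ q ((jE E M₁ 1 (one_dvd M₁) ^ 4 * (jE E M₁ 1 (one_dvd M₁) - 1728) ^ 3)
          ^ (2 * (q - 1))) * u ^ 2 - ρ ^ 12
        = (qL * αE E M₁ q z₁ + -(ρ ^ 12 * A ^ 12 - G ^ 12)) * (A⁻¹) ^ 12 := by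
      have hAA : A ^ 12 * (A⁻¹) ^ 12 = 1 := by
        rw [← mul_pow, mul_inv_cancel₀ hA0, one_pow]
      rw [← hθα]
      simp only [map_mul, map_pow, map_sub, map_ofNat]
      linear_combination (-(J ^ 4 * (J - 1728) ^ 3) ^ (2 * (q - 1)) * u ^ 2 + ρ ^ 12) * hAA
    rw [hkey]
    refine h922_nonunits_mul_mem V (h922_nonunits_add V ?_ (h922_nonunits_neg V hρ)) hA12
    exact h922_nonunits_mul_mem V hqV hz₁V
  have h1 : (βE E M₁ q (jE E M₁ q hqM) - J) ^ (q - 1)
      = qL * ((βE E M₁ q (jE E M₁ q hqM) - J) ^ (q - 1) * qL⁻¹) := by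
    rw [mul_comm qL, mul_assoc, inv_mul_cancel₀ hq0, mul_one]
  exact h922_hres_abs_nonunits V _ qL _ ρ u (βE E M₁ q (dE E M₁ q hqM)) _ _ (q - 1)
    hq0 hρV hu0 hu' h1 hEis h2 h2' h3

/-- **R4, the residue of `π^(12(q-1)) / U_m` along `mid`, concrete** (`hres_j`), with
`ρ = g₁ / (j^(q²) - j)` (the form delivered by `h922_residue_Vc` on helper972's `EisData`:
`G(c) = α(g₁)`, `a - c = α(j^(q²) - j)`). -/
theorem h922_hres_mid
    (Vinf' : ValuationSubring (FE E M₁)) (hVinf : IsVinf P E M₁ Vinf')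
    (V : ValuationSubring (FE E (M₁ * q)))
    (hα : ∀ f ∈ Vinf', αE E M₁ q f ∈ V)
    (hqV : algebraMap E (FE E (M₁ * q)) (q : E) ∈ V.nonunits)
    (hβD : βE E M₁ q (dE E M₁ q hqM) ∈ V)
    (hβD' : (βE E M₁ q (dE E M₁ q hqM))⁻¹ ∈ V)
    (hac : (αE E M₁ q (jE E M₁ 1 (one_dvd M₁) ^ (q ^ 2) - jE E M₁ 1 (one_dvd M₁)))⁻¹ ∈ V)
    (U : LaurentSeries ℤ)
    (hU : coeffMap (Int.castRingHom (ZMod q)) U * thetaL (ZMod q) (jqModC (ZMod q))
      = (jqModC (ZMod q) - jqModC (ZMod q) ^ (q ^ 2))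
          * thetaL (ZMod q) (jqModC (ZMod q)) ^ q)
    (g₁ : FE E M₁) (hg₁ : (g₁ : LaurentSeries E) = castE E U)
    (hEis : (βE E M₁ q (jE E M₁ q hqM) - αE E M₁ q (jE E M₁ 1 (one_dvd M₁))) ^ (q - 1)
          * (algebraMap E (FE E (M₁ * q)) (q : E))⁻¹
        - αE E M₁ q g₁
          * (αE E M₁ q (jE E M₁ 1 (one_dvd M₁) ^ (q ^ 2) - jE E M₁ 1 (one_dvd M₁)))⁻¹
        ∈ V.nonunits) :
    ((βE E M₁ q (jE E M₁ q hqM) - αE E M₁ q (jE E M₁ 1 (one_dvd M₁))) ^ (12 * (q - 1))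
        - αE E M₁ q ((jE E M₁ 1 (one_dvd M₁) ^ 4 * (jE E M₁ 1 (one_dvd M₁) - 1728) ^ 3)
              ^ (2 * (q - 1)))
          * (αE E M₁ q (dE E M₁ q hqM) * (βE E M₁ q (dE E M₁ q hqM))⁻¹))
      * (αE E M₁ q (dE E M₁ q hqM) * (βE E M₁ q (dE E M₁ q hqM))⁻¹)⁻¹ ∈ V.nonunits := by
  have hinjα : Function.Injective (αE E M₁ q) := (αE E M₁ q).toRingHom.injective
  have hA0 : αE E M₁ q (jE E M₁ 1 (one_dvd M₁) ^ (q ^ 2) - jE E M₁ 1 (one_dvd M₁)) ≠ 0 :=
    (map_ne_zero_iff _ hinjα).mpr (h922_jpow_sub_ne_zero E M₁ q)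
  refine h922_hres_mid_rho P E M₁ q hqM Vinf' hVinf V hα hqV hβD hβD' hac U hU g₁ hg₁
    (αE E M₁ q g₁
      * (αE E M₁ q (jE E M₁ 1 (one_dvd M₁) ^ (q ^ 2) - jE E M₁ 1 (one_dvd M₁)))⁻¹)
    (V.mul_mem _ _ (h922_alpha_mem P E M₁ q hVinf hα _ _ hg₁) hac) ?_ hEis
  have h0 : (αE E M₁ q g₁
      * (αE E M₁ q (jE E M₁ 1 (one_dvd M₁) ^ (q ^ 2) - jE E M₁ 1 (one_dvd M₁)))⁻¹) ^ 12
        * (αE E M₁ q (jE E M₁ 1 (one_dvd M₁) ^ (q ^ 2) - jE E M₁ 1 (one_dvd M₁))) ^ 12
      - (αE E M₁ q g₁) ^ 12 = 0 := by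
    rw [← mul_pow, mul_assoc, inv_mul_cancel₀ hA0, mul_one, sub_self]
  rw [h0, ValuationSubring.mem_nonunits_iff, map_zero]
  exact zero_lt_one

end Concrete

end Fermat.Agent.S36.H922

end
end
-- ===== PACK-END S36/H922/Conc.lean

-- ===== PACK-BEGIN S36/Mod3/H775/ResJ.lean
section




/-!
# S36 / MOD3 / REG — (R-RES) on the concrete objects (helper775)

`hresJ : Std → Objs → (π^(12(q-1)) - α(e) · U_m) · U_m⁻¹ ∈ 𝔪_{V₂}`, the conclusion of helper922's
`h922_hres_mid` at `M₁ = M q`, `V = V₂`, `U_m = H356.Um E M q = α(D)/β(D)`, UNCONDITIONAL;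
TEXTUALLY the hypothesis `hres` of `H27.principalAt_mid_t4_conc` / `H890.principalAt_mid_t9_conc`
with `U₀ = H356.Um E M q`, `hqM = dvd_mul_left q M`.

Inputs: `Res.eis_mid` (`hEis`, this directory), `H438.dE_unit_vzero` + `comap_β₂` (`β(D)` is a unit
of `V₂`), the Gauss unit `j^(q²) - j`, `q ∈ 𝔪_{V₂}`.
-/

set_option autoImplicit false
set_option linter.unusedSectionVars false
set_option linter.style.haveILetI false
set_option synthInstance.maxHeartbeats 400000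
set_option maxHeartbeats 1600000

noncomputable section

namespace Fermat.Agent.S36.Mod3.H775.Res

open ModularCurve Polynomial Fermat.Agent.A2.Mod
open Fermat.Agent.S36.H370 Fermat.Agent.S36.Mod3.H370 Fermat.Agent.S36.Eng
open Fermat.Agent.S36.H83 Fermat.Agent.S28

section Main

variable {P : ValuationSubring Qb} {E : IntermediateField ℚ Qb} {M q : ℕ} [NeZero M] [NeZero q]
  [NeZero (M * q)] {w : RE P E}

/-- `q ∈ 𝔪_{V∞}` (any level). -/
theorem natCast_mem_nonunits_vinf (hStd : Std P E M q w) {N : ℕ} [NeZero N]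
    {V : ValuationSubring (FE E N)} (hV : IsVinf P E N V) :
    algebraMap E (FE E N) (q : E) ∈ V.nonunits := by
  have hdvr := hStd.unram.1.dvr
  have hL2 := H553.vinfBasic P E w N (NeZero.ne N) hdvr hStd.unif V hV
  have hq0 : ((q : ℕ) : E) ≠ 0 := Nat.cast_ne_zero.mpr hStd.q_prime.ne_zero
  have hqP : ((q : ℕ) : Qb) ∈ P.nonunits := hStd.lies_over
  have hvq : P.valuation ((q : ℕ) : Qb) < 1 := (ValuationSubring.mem_nonunits_iff P).mp hqP
  rw [ValuationSubring.mem_nonunits_iff_or]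
  refine Or.inr fun hmem => ?_
  rw [← map_inv₀, hL2.2.1] at hmem
  have h1 : algebraMap E Qb ((q : E))⁻¹ ∈ P := hmem
  rw [map_inv₀, map_natCast, ← ValuationSubring.valuation_le_one_iff, map_inv₀] at h1
  have hv0 : P.valuation ((q : ℕ) : Qb) ≠ 0 := by
    rw [Ne, Valuation.zero_iff]
    exact Nat.cast_ne_zero.mpr hStd.q_prime.ne_zero
  have h2 : 1 ≤ P.valuation ((q : ℕ) : Qb) := (inv_le_one₀ (zero_lt_iff.mpr hv0)).mp h1
  exact absurd hvq (not_lt.mpr h2)

/-- **(R-RES) on the concrete objects**: the residue of `π^(12(q-1)) / U_m` along the middle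
component. -/
theorem hresJ (hStd : Std P E M q w)
    {V₁' V₂' : ValuationSubring (FE E (M * q))}
    {V₁ V₂ V₃ : ValuationSubring (FE E (M * q * q))}
    {W' : FE E (M * q) ≃ₐ[E] FE E (M * q)}
    {W : FE E (M * q * q) ≃ₐ[E] FE E (M * q * q)}
    (hO : Objs P E M q V₁' V₂' V₁ V₂ V₃ W' W) :
    ((βE E (M * q) q (jE E (M * q) q (dvd_mul_left q M))
          - αE E (M * q) q (jE E (M * q) 1 (one_dvd _))) ^ (12 * (q - 1))
        - αE E (M * q) q ((jE E (M * q) 1 (one_dvd _) ^ 4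
            * (jE E (M * q) 1 (one_dvd _) - 1728) ^ 3) ^ (2 * (q - 1)))
          * Mod3.H356.Um E M q) * (Mod3.H356.Um E M q)⁻¹
      ∈ V₂.nonunits := by
  have hS : Setting P E M q w :=
    ⟨hStd.q_prime, hStd.q_not_dvd, NeZero.ne M, hStd.lies_over, hStd.unram.1.dvr, hStd.unif⟩
  haveI := hS.dvr
  haveI : Fact q.Prime := ⟨hStd.q_prime⟩
  have hq := hStd.q_prime
  have hqM : q ∣ M * q := dvd_mul_left q M
  have hT := leafTable P E M q w hStd V₁' V₂' V₁ V₂ V₃ W' W hO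
  have hαV₂ : ∀ k, αE E (M * q) q k ∈ V₂ ↔ k ∈ V₁' := fun k => by
    rw [← hO.mid, ValuationSubring.mem_comap]
    rfl
  have hβ₂ : ∀ f, βE E (M * q) q f ∈ V₂ ↔ f ∈ V₂' := fun f => by
    rw [← hT.comap_β₂, ValuationSubring.mem_comap]
    rfl
  have hαn₂ : ∀ f, αE E (M * q) q f ∈ V₂.nonunits ↔ f ∈ V₁'.nonunits := fun f => by
    rw [← hT.comap_α₂, mem_nonunits_comap_hom]
    rfl
  obtain ⟨U, g₁, hU, -, hg₁, -, hEis⟩ := eis_mid hStd hO
  -- `q ∈ 𝔪_{V₂}`
  have hqV : algebraMap E (FE E (M * q * q)) (q : E) ∈ V₂.nonunits := by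
    have h1 : algebraMap E (FE E (M * q * q)) (q : E)
        = αE E (M * q) q (algebraMap E (FE E (M * q)) (q : E)) :=
      ((αE E (M * q) q).commutes _).symm
    rw [h1, hαn₂]
    exact natCast_mem_nonunits_vinf hStd hO.vinf'
  -- `β(D)` is a unit of `V₂`
  have hD := H438.dE_unit_vzero P E (M * q) q M (mul_comm M q) hqM W' hO.vinf' hO.fricke'
  rw [← hO.vzero'] at hD
  have hβD : βE E (M * q) q (H438.dE E (M * q) q hqM) ∈ V₂ := (hβ₂ _).mpr hD.1
  have hβD' : (βE E (M * q) q (H438.dE E (M * q) q hqM))⁻¹ ∈ V₂ := by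
    rw [← map_inv₀]
    exact (hβ₂ _).mpr hD.2
  -- the Gauss unit
  have hac : (αE E (M * q) q (jE E (M * q) 1 (one_dvd _) ^ (q ^ 2)
      - jE E (M * q) 1 (one_dvd _)))⁻¹ ∈ V₂ := by
    rw [← map_inv₀, hαV₂]
    obtain ⟨G, -, -, -, hsub⟩ := h83_eisPsi_eq_add q (Classical.choice
      (Fermat.Agent.S28.H326.nonempty_modPolyData q hq))
    refine H972.inv_mem_of_castE hq hStd.lies_over hO.vinf' ?_
      (H972.exists_not_dvd_of_red_ne_zero q hsub)
    have h1 : ((jE E (M * q) 1 (one_dvd _) ^ (q ^ 2) - jE E (M * q) 1 (one_dvd _) :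
        FE E (M * q)) : LaurentSeries E)
        = ((jE E (M * q) 1 (one_dvd _) : FE E (M * q)) : LaurentSeries E) ^ (q ^ 2)
          - ((jE E (M * q) 1 (one_dvd _) : FE E (M * q)) : LaurentSeries E) := rfl
    rw [h1, H972.coe_jE', qExpand_one_apply, map_sub, map_pow]
  exact Fermat.Agent.S36.H922.h922_hres_mid P E (M * q) q hqM V₁' hO.vinf' V₂
    (fun f hf => (hαV₂ f).mpr hf) hqV hβD hβD' hac U hU g₁ hg₁ hEis

end Main

end Fermat.Agent.S36.Mod3.H775.Res

end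

end
-- ===== PACK-END S36/Mod3/H775/ResJ.lean

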