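import Fermat.Agent.Pack.S36.E19L0
import Fermat.Agent.Pack.S36.E7L1
import Fermat.Agent.Pack.S36.E7L2
import Fermat.Agent.Pack.S36.E19L2
import Fermat.Agent.Pack.S36.E18L0
import Fermat.Agent.Pack.S36.E19L3
import Fermat.Agent.Pack.S36.E1L0
import Fermat.Agent.Pack.S36.E12L2
import Fermat.Agent.Pack.S36.E15L2
import Fermat.Agent.Pack.S36.E17L2
import Fermat.Agent.Pack.S36.E13L1
import Fermat.Agent.Pack.S36.E17L1
import Fermat.Agent.Pack.S36.E19L1
import Fermat.Agent.Pack.S36.E9L1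
import Fermat.Agent.Pack.S36.E6L2
import Fermat.Agent.Pack.S36.E6L3
import Fermat.Agent.Pack.S36.E14L1
import Fermat.Agent.Pack.S36.E17L3
import Fermat.Agent.Pack.S36.E2L2
import Fermat.Agent.Pack.S36.E15L0
import Fermat.Agent.Pack.S36.E4L3
import Fermat.Agent.Pack.S36.E14L3
import Fermat.Agent.Pack.S36.E16L2
import Fermat.Agent.Pack.S36.E18L3
import Fermat.Agent.Pack.S36.E9L3

-- ===== PACK-BEGIN S29/M4b/K3/Top.lean
section
/-
S29 row, LAYER M, SUB-LAYER M4b, PIECE K3 (descent `ℂ → ℚ̄`) — TOP ASSEMBLY (helper42).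

`exists_realised_isTwisted_of` = the EXACT statement of piece `K3` of helper822's
`M4b/Skeleton.lean` (`exists_realised_isTwisted`), PROVED from
* `DegStatement N`   (sub-piece K3-DEG),
* `FinStatement N p` (sub-piece K3-FIN),
* `H152.desc_main` (helper152, places-free descent), ROOT `H751`, MERO `H882`.

Proof.  `f = qexp (U^p) ∈ F_ℂ` (MERO), `h = qexp U`, `h^p = f`.  By `desc_main` there are
`g ∈ F_ℂˣ`, `f' ∈ FF N` with `f g^p = ι f'`.  Write `f' = r / s` with `r, s` polynomials in the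
`j(q^d)` over `ℚ̄`; `u := r s^(p-1) = f' s^p` is realised by a good function `G'`
(`AK ⊆ goodQ`).  Write `g ι(s) = a / b` with `a = qexp A`, `b = qexp B`, `A B` good.  Then
`G' B^p = (U A)^p`, so all orders of `G'` are divisible by `p`, `G' = U'^p` (ROOT), and
`U' B = ζ U A`, whence `U'` has the character of `U`.
-/




set_option autoImplicit false
set_option linter.style.haveILetI false

noncomputable section

open ModularCurve AlgebraicCurve CongruenceSubgroup UpperHalfPlane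
open scoped MatrixGroups Manifold

namespace Fermat.Agent.S29.M4b.K3

open Fermat.Agent.S24 Fermat.Agent.S24.H648 Fermat.Agent.S24.H708 Fermat.Agent.S24.Deg457
open Fermat.Agent.S24.H624
open Fermat.Agent.S29 Fermat.Agent.S29.M4b

theorem order_jq : jq.order = -1 := by
  have hne : jq ≠ 0 := by
    intro h
    have h1 := coeff_jq_neg_one
    rw [h, HahnSeries.coeff_zero] at h1
    exact zero_ne_one h1
  refine le_antisymm (HahnSeries.order_le_of_coeff_ne_zero ?_) ?_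
  · rw [coeff_jq_neg_one]
    exact one_ne_zero
  · by_contra hlt
    rw [not_le] at hlt
    refine HahnSeries.coeff_order_eq_zero.not.mpr hne ?_
    exact coeff_jq_of_lt hlt

/-- ROOT with divisibility read off from an identity `G * B ^ p = V ^ p`. -/
theorem exists_root_of_mul_pow_eq {p : ℕ} (hp : p ≠ 0) {G B V : ℍ → ℂ}
    (hG : MDifferentiable 𝓘(ℂ) 𝓘(ℂ) G) (hB : MDifferentiable 𝓘(ℂ) 𝓘(ℂ) B)
    (hV : MDifferentiable 𝓘(ℂ) 𝓘(ℂ) V) (hB0 : B ≠ 0) (hV0 : V ≠ 0)
    (h : ∀ τ, G τ * B τ ^ p = V τ ^ p) :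
    ∃ U' : ℍ → ℂ, MDifferentiable 𝓘(ℂ) 𝓘(ℂ) U' ∧ ∀ τ : ℍ, U' τ ^ p = G τ := by
  refine H751.exists_pow_eq_UHP hG p hp fun τ => ?_
  have hfun : G * B ^ p = V ^ p := funext h
  have h1 : ordAt τ (G * B ^ p) = ordAt τ G + p • ordAt τ B := by
    rw [ordAt_mul hG (hB.pow p)]
    congr 1
    rw [ordAt_def, ordAt_def]
    have : (B ^ p) ∘ ofComplex = (B ∘ ofComplex) ^ p := rfl
    rw [this, analyticOrderAt_pow (analyticAt_of_mdiff hB τ)]
  have h2 : ordAt τ (V ^ p) = p • ordAt τ V := by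
    rw [ordAt_def, ordAt_def]
    have : (V ^ p) ∘ ofComplex = (V ∘ ofComplex) ^ p := rfl
    rw [this, analyticOrderAt_pow (analyticAt_of_mdiff hV τ)]
  rw [hfun, h2] at h1
  obtain ⟨b, hb⟩ := ENat.ne_top_iff_exists.mp (ordAt_ne_top hB hB0 τ)
  obtain ⟨v, hv⟩ := ENat.ne_top_iff_exists.mp (ordAt_ne_top hV hV0 τ)
  have hGne : ordAt τ G ≠ ⊤ := by
    intro htop
    rw [htop, top_add, ← hv] at h1
    have h4 : ((p * v : ℕ) : ℕ∞) = ⊤ := by
      rw [← h1]; push_cast; simp [nsmul_eq_mul]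
    exact ENat.natCast_ne_top _ h4
  obtain ⟨g, hg⟩ := ENat.ne_top_iff_exists.mp hGne
  rw [← hb, ← hv, ← hg] at h1
  have h3 : p * v = g + p * b := by
    have : ((p * v : ℕ) : ℕ∞) = ((g + p * b : ℕ) : ℕ∞) := by
      push_cast
      simpa [nsmul_eq_mul] using h1
    exact_mod_cast this
  refine ⟨v - b, ?_⟩
  rw [← ordAt_def, ← hg]
  have hbv : b ≤ v := by
    by_contra hlt
    rw [not_le] at hlt
    have : p * v < p * b := Nat.mul_lt_mul_of_pos_left hlt (Nat.pos_of_ne_zero hp)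
    omega
  have : g = p * (v - b) := by
    rw [Nat.mul_sub]
    omega
  rw [this]

/-- **PIECE K3** (exact statement of `exists_realised_isTwisted` in `M4b/Skeleton.lean`), from
the sub-pieces `K3-DEG` and `K3-FIN`. -/
theorem exists_realised_isTwisted_of (N : ℕ) [NeZero N] (p : ℕ) [NeZero p]
    (hdeg : DegStatement N) (hfin : FinStatement N p)
    {c : G0 N → ZMod p} (hc : IsParHom c) {U : ℍ → ℂ} (hU : IsTwisted N p c U) :
    ∃ (U' : ℍ → ℂ) (u : FF N), IsTwisted N p c U' ∧ Realises N u (fun τ => U' τ ^ p) := by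
  classical
  letI : Algebra Kbar ℂ := algKC
  have hp : p ≠ 0 := NeZero.ne p
  -- `q`-expansions of `U` and `U ^ p`
  have hqU : HasQExp 1 U (qexpFun 1 U) := HasQExp.of_isMerInf (isMerInf_of_isTwisted hc hU)
  have hqG : HasQExp 1 (fun τ => U τ ^ p) (qexpFun 1 U ^ p) := hqU.pow p
  have hfFC : qexpFun 1 (fun τ => U τ ^ p) ∈ FC N := H882.qexpFun_mem_FC hU.pow_mem
  have hUne : U ≠ 0 := by
    obtain ⟨τ, hτ⟩ := hU.ne_zero
    intro h0
    exact hτ (by rw [h0]; rfl)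
  have hGne : (fun τ => U τ ^ p) ≠ 0 := by
    obtain ⟨τ, hτ⟩ := hU.ne_zero
    intro h0
    exact pow_ne_zero p hτ (congrFun h0 τ)
  have hf0 : qexpFun 1 (fun τ => U τ ^ p) ≠ 0 := by
    rw [hqG.qexpFun_eq]
    exact fun h0 => hGne (hqG.eq_zero_iff.mp h0)
  -- descent
  obtain ⟨n, hn⟩ := hdeg
  obtain ⟨T, hT, horb⟩ := hfin c hc U hU
  obtain ⟨g, hgF, hg0, -, -, -, f', hf', hfg⟩ := H152.desc_main (K := Kbar) (Ω := ℂ)
    (modularFunctionFieldFull N) jq (modularFunctionField_le_full N (jq_mem N)) order_jq n hn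
    p (Nat.pos_of_ne_zero hp) (qexpFun 1 (fun τ => U τ ^ p)) (qexpFun 1 U) hfFC hf0
    hqG.qexpFun_eq.symm T hT horb
  -- clear the denominator of `f'` by a `p`-th power
  obtain ⟨r, hr, s, hs, hs0, hrs⟩ := exists_div_AK Kbar N hf'
  have hιinj : Function.Injective (coeffMap iotaC) := by
    intro x y hxy
    ext k
    have := congrArg (fun z : LaurentSeries ℂ => z.coeff k) hxy
    simp only [coeffMap_coeff] at this
    exact iotaC.injective this
  have hιs0 : coeffMap iotaC s ≠ 0 := fun h0 => hs0 (hιinj (by rw [h0, map_zero]))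
  set u₀ : LaurentSeries Kbar := r * s ^ (p - 1) with hu₀
  have hu₀AK : u₀ ∈ AK Kbar N := mul_mem hr (pow_mem hs _)
  have hu₀F : u₀ ∈ modularFunctionFieldBar N := AK_le_laurentBaseChange Kbar N hu₀AK
  have hu₀eq : u₀ = f' * s ^ p := by
    rw [hu₀, hrs]
    have : s ^ p = s ^ (p - 1) * s := by
      rw [← pow_succ, Nat.sub_add_cancel (Nat.pos_of_ne_zero hp)]
    rw [this]
    field_simp
  -- `ι u₀ = f * φ ^ p` with `φ = g * ι s ∈ F_ℂ`
  set φ : LaurentSeries ℂ := g * coeffMap iotaC s with hφ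
  have hφF : φ ∈ FC N :=
    mul_mem hgF (AK_le_laurentBaseChange ℂ N (coeffMap_mem_AK iotaC hs))
  have hφ0 : φ ≠ 0 := mul_ne_zero hg0 hιs0
  have hιu : coeffMap iotaC u₀ = qexpFun 1 (fun τ => U τ ^ p) * φ ^ p := by
    rw [hu₀eq, map_mul, map_pow, hφ, mul_pow, ← mul_assoc, hfg]
    rfl
  -- the good function realising `u₀`
  obtain ⟨G', hG'good, hG'q⟩ := H882.AK_le_goodQ N (coeffMap_mem_AK iotaC hu₀AK)
  -- `φ = a / b`, quotient of `q`-expansions of good functions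
  obtain ⟨a, ⟨A, hAgood, hAq⟩, b, ⟨B, hBgood, hBq⟩, hb0, hab⟩ := exists_div_goodQ hφF
  have ha0 : a ≠ 0 := by
    rintro rfl
    rw [zero_div] at hab
    exact hφ0 hab
  have hA0 : A ≠ 0 := fun h0 => ha0 (hAq.eq_zero_iff.mpr h0)
  have hB0 : B ≠ 0 := fun h0 => hb0 (hBq.eq_zero_iff.mpr h0)
  -- `G' * B ^ p = (U * A) ^ p`
  have hser : coeffMap iotaC u₀ * b ^ p = (qexpFun 1 U * a) ^ p := by
    rw [hιu, hab, mul_pow, hqG.qexpFun_eq, mul_assoc, div_pow,
      div_mul_cancel₀ _ (pow_ne_zero p hb0)]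
  have hfunc : G' * B ^ p = (U * A) ^ p :=
    HasQExp.eq_of_eq (hser ▸ hG'q.mul (hBq.pow p)) ((hqU.mul hAq).pow p)
  have hpt : ∀ τ, G' τ * B τ ^ p = (U * A) τ ^ p := fun τ => congrFun hfunc τ
  have hG'm : MDifferentiable 𝓘(ℂ) 𝓘(ℂ) G' := hG'good.1
  have hAm : MDifferentiable 𝓘(ℂ) 𝓘(ℂ) A := hAgood.1
  have hBm : MDifferentiable 𝓘(ℂ) 𝓘(ℂ) B := hBgood.1
  have hUAm : MDifferentiable 𝓘(ℂ) 𝓘(ℂ) (U * A) := hU.mdiff.mul hAm
  have hUA0 : U * A ≠ 0 := by
    intro h0
    rcases mul_eq_zero_of_mdiff hU.mdiff hAm h0 with h1 | h1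
    · exact hUne h1
    · exact hA0 h1
  -- the root
  obtain ⟨U', hU'm, hU'p⟩ := exists_root_of_mul_pow_eq hp hG'm hBm hUAm hB0 hUA0 hpt
  -- `U' * B = ζ * (U * A)`
  obtain ⟨τ₀, hτ₀⟩ : ∃ τ₀, (U * A) τ₀ ≠ 0 := by
    by_contra hcon
    push Not at hcon
    exact hUA0 (funext hcon)
  have hpow : ∀ τ, (U' τ * B τ) ^ p = (U * A) τ ^ p := fun τ => by
    rw [mul_pow, hU'p, hpt]
  set ζ : ℂ := U' τ₀ * B τ₀ / (U * A) τ₀ with hζ
  have hζp : ζ ^ p = 1 := by
    rw [hζ, div_pow, hpow, div_self (pow_ne_zero p hτ₀)]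
  have hζ0 : ζ ≠ 0 := fun h0 => by
    rw [h0, zero_pow hp] at hζp
    exact zero_ne_one hζp
  have hmul : (fun τ => U' τ * B τ) = fun τ => ζ * (U * A) τ := by
    refine H751.eq_of_pow_eq_UHP (hU'm.mul hBm) ((mdifferentiable_const (c := ζ)).mul hUAm) hp
      (fun τ => ?_) (τ₀ := τ₀) ?_ ?_
    · rw [hpow, mul_pow, hζp, one_mul]
    · rw [hζ]
      field_simp
    · intro h0
      have h1 := hpow τ₀
      rw [h0, zero_pow hp] at h1
      exact pow_ne_zero p hτ₀ h1.symm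
  have hchar : HasChar N p c U' :=
    hasChar_of_mul_eq ζ hU'm hBm hB0 hAgood.2.1 hBgood.2.1 hU.hasChar
      (fun τ => congrFun hmul τ)
  have hG'eq : (fun τ => U' τ ^ p) = G' := funext hU'p
  have hG'0 : G' ≠ 0 := by
    intro h0
    have := hpt τ₀
    rw [h0] at this
    simp only [Pi.zero_apply, zero_mul] at this
    exact pow_ne_zero p hτ₀ this.symm
  refine ⟨U', ⟨u₀, hu₀F⟩, ⟨hU'm, ?_, hchar, ?_⟩, ?_, ?_⟩
  · by_contra hcon
    push Not at hcon
    apply hG'0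
    funext τ
    rw [← hU'p, hcon, zero_pow hp]
    rfl
  · rw [hG'eq]; exact hG'good
  · rw [hG'eq]; exact hG'good
  · rw [hG'eq]; exact hG'q.qexpFun_eq

end Fermat.Agent.S29.M4b.K3

end
end
-- ===== PACK-END S29/M4b/K3/Top.lean

-- ===== PACK-BEGIN S29/M4b/K3/Main.lean
section
/-
S29 row, M4b, piece K3 — `PieceK3 N p` from the single remaining sub-piece `K3-FIN` (helper42).
-/




set_option autoImplicit false

noncomputable section

open ModularCurve AlgebraicCurve CongruenceSubgroup UpperHalfPlane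
open scoped MatrixGroups Manifold

namespace Fermat.Agent.S29.M4b.K3

open Fermat.Agent.S24 Fermat.Agent.S29 Fermat.Agent.S29.M4b

/-- **PIECE K3** in the `Prop` form of `M4b/Top.lean`, from `K3-FIN`. -/
theorem pieceK3_of_fin (N : ℕ) [NeZero N] (p : ℕ) [NeZero p] (hfin : FinStatement N p) :
    PieceK3 N p :=
  fun hc _ hU => exists_realised_isTwisted_of N p (degStatement N) hfin hc hU

end Fermat.Agent.S29.M4b.K3

end
end
-- ===== PACK-END S29/M4b/K3/Main.lean

-- ===== PACK-BEGIN S29/H282/Rot.lean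
section


/-!
# S29 / M4b-K2 (helper282) — iterating the rotation relation

For an expansion `X` with rotation data `R` for `ε` (a primitive `m`-th root of unity `ζ`):
if `H ∘ ε ^ e = H` then `m ∣ e * ord (E H)`.
-/

set_option autoImplicit false

noncomputable section

open ModularCurve HahnSeries UpperHalfPlane
open scoped MatrixGroups

namespace Fermat.Agent.S29.H282

open Fermat.Agent.S24 Fermat.Agent.S24.H997

variable {N : ℕ} [NeZero N] (B : HolBase N) (X : Expansion B)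

theorem compH_pow_succ (ε : SL(2, ℤ)) (i : ℕ) (H : B.Hol) :
    B.compH (ε ^ (i + 1)) H = B.compH ε (B.compH (ε ^ i) H) := by
  rw [pow_succ, HolBase.compH_mul]

/-- iterating the rotation relation -/
theorem rot_iterate (ε : SL(2, ℤ)) (R : RotData B X ε) (H : B.Hol) (i : ℕ) :
    (X.E (B.compH (ε ^ i) H)).order = (X.E H).order ∧
      (X.E (B.compH (ε ^ i) H)).leadingCoeff
        = (R.ζ ^ (X.E H).order) ^ i * (X.E H).leadingCoeff := by
  induction i with
  | zero => simp [HolBase.compH_one]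
  | succ n ih =>
    have h := R.rot (B.compH (ε ^ n) H)
    rw [compH_pow_succ]
    refine ⟨by rw [h.1, ih.1], ?_⟩
    rw [h.2, ih.1, ih.2, pow_succ]
    ring

/-- **Key divisibility.**  If `H` is invariant under `ε ^ e`, then the order `m` of the rotation
divides `e * ord (E H)`. -/
theorem rot_dvd_of_compH_pow_eq (ε : SL(2, ℤ)) (R : RotData B X ε) (H : B.Hol) (e : ℕ)
    (hH : B.compH (ε ^ e) H = H) : (R.m : ℤ) ∣ (e : ℤ) * (X.E H).order := by
  by_cases h0 : X.E H = 0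
  · rw [h0, order_zero, mul_zero]
    exact dvd_zero _
  · have hlc : (X.E H).leadingCoeff ≠ 0 := leadingCoeff_ne_zero.mpr h0
    have h := (rot_iterate B X ε R H e).2
    rw [hH] at h
    have h1 : (R.ζ ^ (X.E H).order) ^ e = 1 := by
      have : (R.ζ ^ (X.E H).order) ^ e * (X.E H).leadingCoeff = 1 * (X.E H).leadingCoeff := by
        rw [one_mul]; exact h.symm
      exact mul_right_cancel₀ hlc this
    have h2 : R.ζ ^ ((X.E H).order * (e : ℤ)) = 1 := by
      rw [zpow_mul, zpow_natCast]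
      exact h1
    have h3 := (R.hζ.zpow_eq_one_iff_dvd _).mp h2
    rwa [mul_comm] at h3

end Fermat.Agent.S29.H282

end
end
-- ===== PACK-END S29/H282/Rot.lean

-- ===== PACK-BEGIN S29/H282/Dict.lean
section





/-!
# S29 / M4b-K2 (helper282) — the places dictionary (DICT-hard)

`K` algebraically closed with an embedding `ι : K →+* ℂ` (main cases: `K = ℂ`, `K = ℚ̄`).

* `exists_placeOf_eqK` : every place of `FFK K N / K` is induced by one of the embeddings
  `σ_x` of the local data `dataInfK` (cusps) or `dataFinK a` (points over `j = a`);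
* `IsAvatar`           : `h : Hol` is an analytic avatar of `f : FFK K N`
  (`qexp h = ΦK ι N f`, i.e. the expansion of `h` at `i∞` is the Laurent series `f`);
* `IsAvatar.sigmaGK_eq`: then `σ_g f = E (h ∘ g⁻¹)` for every expansion;
* `dvd_ord_of_isAvatar_pow` (**DICT-hard**): if `f` has the avatar `h ^ M` and `h` is invariant
  under the special elements (finite order or trace `2`) of `Γ₀(N)`, then `M ∣ w.ord f` for every
  place `w` of `FFK K N / K`.
-/

set_option autoImplicit false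

noncomputable section

open ModularCurve HahnSeries UpperHalfPlane AlgebraicCurve IntermediateField
open scoped MatrixGroups

namespace Fermat.Agent.S29.H282

open Fermat.Agent.S24 Fermat.Agent.S24.H997 Fermat.Agent.S24.Deg457

/-! ### Generic: the orbit of `x` under `perm` has `ord_v t` elements -/

section Generic

variable {K F : Type*} [Field K] [Field F] [Algebra K F] [IsAlgClosed K] [CharZero K]
variable {C : Type*} [Field C] [CharZero C] {X : Type*} [Finite X]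
variable {t : F} (L : LocalData K F C X t)
variable (E : IntermediateField K F) (hE : E ≤ K⟮t⟯) [FiniteDimensional E F]
  (hrank : Module.finrank E F = Nat.card X)

include hE hrank in
/-- the cardinality of the `perm`-orbit of `x` is the ramification index `ord_v t` -/
theorem card_orbit_eq_ord_t (x : X) :
    (Nat.card (MulAction.orbit (Subgroup.zpowers L.perm) x) : ℤ) = (H117.placeOf L x).ord t := by
  classical
  haveI := H504.isAlgebraic_adjoin_of_le (t := t) E hE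
  have hfin : {v : Place K F | 0 < v.ord t}.Finite := H117.finite_places_over L E hE hrank
  have hs : ∀ v : Place K F, v ∈ hfin.toFinset ↔ 0 < v.ord t := fun v => by simp
  exact (H117.localThm L E hE hrank hfin.toFinset hs
    (H504.LocalData.card_le_sum_ord L hfin.toFinset hs)).2.1 x

include hE hrank in
/-- `perm ^ e` fixes `x`, where `e = ord_v t` is the ramification index of the place of `x` -/
theorem perm_pow_ord_t_apply (x : X) :
    (L.perm ^ ((H117.placeOf L x).ord t).toNat) x = x := by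
  classical
  have h := card_orbit_eq_ord_t L E hE hrank x
  haveI : Fintype (MulAction.orbit (Subgroup.zpowers L.perm) x) := Fintype.ofFinite _
  have h1 : Function.minimalPeriod (L.perm • ·) x
      = Nat.card (MulAction.orbit (Subgroup.zpowers L.perm) x) := by
    rw [MulAction.minimalPeriod_eq_card, Nat.card_eq_fintype_card]
  have h2 : ((H117.placeOf L x).ord t).toNat
      = Nat.card (MulAction.orbit (Subgroup.zpowers L.perm) x) := by
    rw [← h]; simp
  have h3 : (L.perm ^ ((H117.placeOf L x).ord t).toNat) • x = x := by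
    rw [MulAction.pow_smul_eq_iff_minimalPeriod_dvd, h1, h2]
  exact h3

end Generic

/-! ### Avatars -/

section Avatar

variable {K : Type*} [Field K] [Algebra ℚ K] (ι : K →+* ℂ)
variable {N : ℕ} [NeZero N] (B : HolBase N)

/-- `h : Hol` is an analytic avatar of `f : FFK K N`: the expansion of `h` at `i∞` (in the
variable `q^{1/N}`) is the Laurent series `f` (coefficients mapped by `ι`). -/
def IsAvatar (f : FFK K N) (h : B.Hol) : Prop := B.qexp h = ΦK ι N (f : LaurentSeries K)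

variable {ι B}

theorem isAvatar_inclRNK (r : RNK K N) : IsAvatar ι B (inclRNK K N r) (bridgeK ι B r) :=
  qexp_bridgeK ι B r

theorem IsAvatar.unique {f : FFK K N} {h h' : B.Hol} (hav : IsAvatar ι B f h)
    (hav' : IsAvatar ι B f h') : h = h' :=
  B.qexp_injective (hav.trans hav'.symm)

theorem IsAvatar.injective {f f' : FFK K N} {h : B.Hol} (hav : IsAvatar ι B f h)
    (hav' : IsAvatar ι B f' h) : f = f' :=
  Subtype.ext (ΦK_injective ι (hav.symm.trans hav'))

theorem isAvatar_zero : IsAvatar ι B (0 : FFK K N) 0 := by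
  show B.qexp 0 = ΦK ι N ((0 : FFK K N) : LaurentSeries K)
  simp

theorem isAvatar_one : IsAvatar ι B (1 : FFK K N) 1 := by
  show B.qexp 1 = ΦK ι N ((1 : FFK K N) : LaurentSeries K)
  simp

theorem IsAvatar.mul {f f' : FFK K N} {h h' : B.Hol} (hav : IsAvatar ι B f h)
    (hav' : IsAvatar ι B f' h') : IsAvatar ι B (f * f') (h * h') := by
  show B.qexp (h * h') = ΦK ι N ((f * f' : FFK K N) : LaurentSeries K)
  rw [map_mul, hav, hav', ← map_mul]
  rfl

theorem IsAvatar.add {f f' : FFK K N} {h h' : B.Hol} (hav : IsAvatar ι B f h)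
    (hav' : IsAvatar ι B f' h') : IsAvatar ι B (f + f') (h + h') := by
  show B.qexp (h + h') = ΦK ι N ((f + f' : FFK K N) : LaurentSeries K)
  rw [map_add, hav, hav', ← map_add]
  rfl

theorem IsAvatar.pow {f : FFK K N} {h : B.Hol} (hav : IsAvatar ι B f h) (n : ℕ) :
    IsAvatar ι B (f ^ n) (h ^ n) := by
  induction n with
  | zero => simpa using isAvatar_one
  | succ n ih => rw [pow_succ, pow_succ]; exact ih.mul hav

theorem IsAvatar.eq_zero_iff {f : FFK K N} {h : B.Hol} (hav : IsAvatar ι B f h) :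
    h = 0 ↔ f = 0 :=
  ⟨fun h0 => hav.injective (h0 ▸ isAvatar_zero), fun f0 => hav.unique (f0 ▸ isAvatar_zero)⟩

/-- clearing denominators: `h * e(t) = e(r)` when `f = r / t` -/
theorem IsAvatar.mul_bridgeK {f : FFK K N} {h : B.Hol} (hav : IsAvatar ι B f h)
    {r t : RNK K N} (ht : t ≠ 0) (hf : f = inclRNK K N r / inclRNK K N t) :
    h * bridgeK ι B t = bridgeK ι B r := by
  have ht' : inclRNK K N t ≠ 0 := fun h0 =>
    ht (inclRNK_injective K N (h0.trans (map_zero _).symm))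
  have h1 : f * inclRNK K N t = inclRNK K N r := by
    rw [hf, div_mul_cancel₀ _ ht']
  exact (hav.mul (isAvatar_inclRNK t)).unique (h1 ▸ isAvatar_inclRNK r)

/-- **The embeddings in terms of the avatar**: `σ_g f = E (h ∘ g⁻¹)`. -/
theorem IsAvatar.sigmaGK_eq {f : FFK K N} {h : B.Hol} (hav : IsAvatar ι B f h)
    (X : Expansion B) (g : SL(2, ℤ)) : sigmaGK ι B X g f = X.E (B.compH g⁻¹ h) := by
  obtain ⟨r, t, ht, hf⟩ := exists_div_inclRNK K N f
  have hmul := hav.mul_bridgeK ht hf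
  have ht' : X.E (B.compH g⁻¹ (bridgeK ι B t)) ≠ 0 := by
    intro h0
    apply ht
    apply sGK_injective ι B X g
    rw [sGK_apply, h0, map_zero]
  rw [hf, map_div₀, sigmaGK_inclRNK, sigmaGK_inclRNK, ← hmul, map_mul, map_mul,
    mul_div_assoc, div_self ht', mul_one]

theorem IsAvatar.sigmaXK_mk_eq {f : FFK K N} {h : B.Hol} (hav : IsAvatar ι B f h)
    (X : Expansion B) (g : SL(2, ℤ)) :
    sigmaXK ι B X (g : XX N) f = X.E (B.compH g⁻¹ h) := by
  rw [sigmaXK_mk]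
  exact hav.sigmaGK_eq X g

end Avatar

/-! ### The dictionary -/

section Dict

variable {K : Type*} [Field K] [Algebra ℚ K] (ι : K →+* ℂ)
variable {N : ℕ} [NeZero N]

omit [NeZero N] in
theorem permOf_pow_apply (γ : SL(2, ℤ)) (e : ℕ) (g : SL(2, ℤ)) :
    (permOf N γ ^ e) (g : XX N) = ((γ ^ e * g : SL(2, ℤ)) : XX N) := by
  induction e with
  | zero => simp
  | succ n ih =>
    rw [pow_succ', Equiv.Perm.mul_apply, ih, pow_succ', mul_assoc]
    rfl

omit [NeZero N] in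
/-- if `perm_{ε⁻¹} ^ e` fixes the coset of `g` then `g⁻¹ ε ^ e g ∈ Γ₀(N)` -/
theorem conj_mem_of_permOf_pow_apply_eq {ε g : SL(2, ℤ)} {e : ℕ}
    (h : (permOf N ε⁻¹ ^ e) (g : XX N) = (g : XX N)) :
    g⁻¹ * ε ^ e * g ∈ CongruenceSubgroup.Gamma0 N := by
  rw [permOf_pow_apply] at h
  have h1 := QuotientGroup.eq.mp h
  have h2 : ((ε⁻¹) ^ e * g)⁻¹ * g = g⁻¹ * ε ^ e * g := by
    rw [mul_inv_rev, inv_pow, inv_inv]
  rwa [h2] at h1

variable (B : HolBase N)

/-- `h` is invariant under the special elements of `Γ₀(N)` -/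
def IsUnramified (h : B.Hol) : Prop :=
  ∀ γ : SL(2, ℤ), γ ∈ CongruenceSubgroup.Gamma0 N → IsSpecialElt γ → B.compH γ h = h

variable {B}

theorem IsUnramified.compH_pow_eq {h : B.Hol} (hinv : IsUnramified B h) {ε g : SL(2, ℤ)} {e : ℕ}
    (hε : IsSpecialElt (ε ^ e)) (hmem : g⁻¹ * ε ^ e * g ∈ CongruenceSubgroup.Gamma0 N) :
    B.compH (ε ^ e) (B.compH g⁻¹ h) = B.compH g⁻¹ h := by
  have h1 := hinv _ hmem (hε.conj g)
  rw [← HolBase.compH_mul]
  have h2 : g⁻¹ * ε ^ e = (g⁻¹ * ε ^ e * g) * g⁻¹ := by group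
  rw [h2, HolBase.compH_mul, h1]

variable [IsAlgClosed K]

/-- **DICT-hard, local form**: for local data constructed from an expansion with rotation data for
`ε` (all of whose powers are special), the order at every place `placeOf x` of a function with
avatar `h ^ M`, `h` unramified, is divisible by `M`. -/
theorem dvd_ord_placeOf_mkLocalDataK (X : Expansion B) (ε : SL(2, ℤ)) (R : RotData B X ε)
    (t : FFK K N) (u : LaurentSeries ℂ) (ht : ∀ g : SL(2, ℤ), sigmaGK ι B X g t = u)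
    (hu : u.order = (R.m : ℤ))
    (E : IntermediateField K (FFK K N)) (hE : E ≤ K⟮t⟯) [FiniteDimensional E (FFK K N)]
    (hrank : Module.finrank E (FFK K N) = Nat.card (XX N))
    (hε : ∀ e : ℕ, IsSpecialElt (ε ^ e))
    {h : B.Hol} (hinv : IsUnramified B h) {f : FFK K N} {M : ℕ}
    (hav : IsAvatar ι B f (h ^ M)) (x : XX N) :
    (M : ℤ) ∣ (H117.placeOf (mkLocalDataK ι B X ε R t u ht hu) x).ord f := by
  haveI : CharZero K := algebraRat.charZero K
  set L := mkLocalDataK ι B X ε R t u ht hu with hL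
  obtain ⟨g, rfl⟩ := QuotientGroup.mk_surjective x
  set w := H117.placeOf L (g : XX N) with hw
  set e : ℕ := (w.ord t).toNat with he
  have hpos : 0 < w.ord t := H117.ord_t_pos L _
  have hecast : (e : ℤ) = w.ord t := Int.toNat_of_nonneg hpos.le
  have he0 : (e : ℤ) ≠ 0 := by rw [hecast]; exact hpos.ne'
  -- the orbit
  have hfix : (permOf N ε⁻¹ ^ e) (g : XX N) = (g : XX N) :=
    perm_pow_ord_t_apply L E hE hrank (g : XX N)
  have hmem := conj_mem_of_permOf_pow_apply_eq hfix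
  -- the rotation
  set H : B.Hol := B.compH g⁻¹ h with hH
  have hHinv : B.compH (ε ^ e) H = H := hinv.compH_pow_eq (hε e) hmem
  have hdvd : (R.m : ℤ) ∣ (e : ℤ) * (X.E H).order := rot_dvd_of_compH_pow_eq B X ε R H e hHinv
  -- the multiplicity
  have hmult : (H117.mult L (g : XX N) : ℤ) * w.ord t = (R.m : ℤ) := H117.mult_mul_ord_t L _
  have hk0 : (H117.mult L (g : XX N) : ℤ) ≠ 0 := by
    exact_mod_cast (H117.mult_pos L (g : XX N)).ne'
  have hdvd2 : (H117.mult L (g : XX N) : ℤ) ∣ (X.E H).order := by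
    rw [← hmult, ← hecast, mul_comm] at hdvd
    exact (mul_dvd_mul_iff_left he0).mp hdvd
  obtain ⟨k, hk⟩ := hdvd2
  -- the order of `f`
  have hσ : L.σ (g : XX N) f = X.E H ^ M := by
    show sigmaXK ι B X (g : XX N) f = _
    rw [hav.sigmaXK_mk_eq X g, map_pow, map_pow]
  have hord : (L.σ (g : XX N) f).order = (M : ℤ) * (X.E H).order := by
    rw [hσ, HahnSeries.order_pow, nsmul_eq_mul]
  have h1 := H117.order_eq L (g : XX N) f
  rw [hord, hk] at h1
  refine ⟨k, ?_⟩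
  have h2 : (H117.mult L (g : XX N) : ℤ) * w.ord f = (H117.mult L (g : XX N) : ℤ) * (M * k) := by
    rw [← h1]; ring
  exact mul_left_cancel₀ hk0 h2

omit [IsAlgClosed K] in
theorem adjoin_jFK_le_sub (a : K) :
    K⟮jFK K N⟯ ≤ K⟮jFK K N - algebraMap K (FFK K N) a⟯ := by
  rw [IntermediateField.adjoin_le_iff, Set.singleton_subset_iff]
  have h := add_mem
    (IntermediateField.mem_adjoin_simple_self K (jFK K N - algebraMap K (FFK K N) a))
    (IntermediateField.algebraMap_mem K⟮jFK K N - algebraMap K (FFK K N) a⟯ a)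
  rwa [sub_add_cancel] at h

omit [IsAlgClosed K] in
theorem adjoin_jFK_le_inv : K⟮jFK K N⟯ ≤ K⟮(jFK K N)⁻¹⟯ := by
  rw [IntermediateField.adjoin_le_iff, Set.singleton_subset_iff]
  have h := inv_mem (IntermediateField.mem_adjoin_simple_self K (jFK K N)⁻¹)
  rwa [inv_inv] at h

variable (A : AnalyticCore N)

/-- **Every place of `FFK K N / K` is analytic**: it is induced by an embedding `σ_x` of the local
data at `∞` or over a finite point `a`. -/
theorem exists_placeOf_eqK (w : Place K (FFK K N)) :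
    (∃ x : XX N, H117.placeOf (dataInfK ι A) x = w) ∨
      ∃ (a : K) (x : XX N), H117.placeOf (dataFinK ι A a) x = w := by
  haveI : CharZero K := algebraRat.charZero K
  haveI := finiteDimensional_adjoin_jFK ι N
  have hrank := finrank_adjoin_jFK ι N
  rcases sub_exists_point (jFK K N) w with h | ⟨a, ha⟩
  · left
    have h' : 0 < w.ord (jFK K N)⁻¹ := by
      rw [Place.ord_inv]; omega
    exact H117.exists_placeOf_eq (dataInfK ι A) K⟮jFK K N⟯ adjoin_jFK_le_inv hrank w h'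
  · right
    exact ⟨a, H117.exists_placeOf_eq (dataFinK ι A a) K⟮jFK K N⟯ (adjoin_jFK_le_sub a) hrank w ha⟩

omit [Algebra ℚ K] [IsAlgClosed K] in
theorem isSpecialElt_epsAt_pow (a : K) (e : ℕ) : IsSpecialElt (epsAt ι a ^ e) := by
  classical
  unfold epsAt
  split_ifs
  · exact isSpecialElt_ST_pow e
  · exact isSpecialElt_S_pow e
  · exact isSpecialElt_one_pow e

variable {ι A}

/-- **DICT-hard.**  Let `f` be an element of the function field of `X₀(N)` over `K` whose analytic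
avatar is `h ^ M`, where `h : Hol` is invariant under all special elements (finite order or
trace `2`) of `Γ₀(N)`.  Then `M ∣ ord_w f` for every place `w` of the function field. -/
theorem dvd_ord_of_isAvatar_pow {h : A.Hol} (hinv : IsUnramified A.toHolBase h)
    {f : FFK K N} {M : ℕ} (hav : IsAvatar ι A.toHolBase f (h ^ M))
    (w : Place K (FFK K N)) : (M : ℤ) ∣ w.ord f := by
  haveI := finiteDimensional_adjoin_jFK ι N
  have hrank := finrank_adjoin_jFK ι N
  rcases exists_placeOf_eqK ι A w with ⟨x, rfl⟩ | ⟨a, x, rfl⟩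
  · exact dvd_ord_placeOf_mkLocalDataK ι A.toHolBase.qexpExpansion ModularGroup.T A.infRot
      (jFK K N)⁻¹ (A.qexp (A.toHolBase.JH 1 (one_dvd N)))⁻¹
      (fun g => by rw [map_inv₀, sigmaGK_jFK]; rfl)
      (by
        rw [RotRel.order_inv' A.toHolBase.qexp_J_one_ne_zero, A.toHolBase.order_qexp_J_one,
          neg_neg]
        rfl)
      K⟮jFK K N⟯ adjoin_jFK_le_inv hrank isSpecialElt_T_pow hinv hav x
  · exact dvd_ord_placeOf_mkLocalDataK ι (pointAt ι A a).X (epsAt ι a) (pointAt ι A a).R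
      (jFK K N - algebraMap K (FFK K N) a) _
      (fun g => sigmaGK_sub ι A (pointAt ι A a) g) (pointAt ι A a).order_J
      K⟮jFK K N⟯ (adjoin_jFK_le_sub a) hrank (isSpecialElt_epsAt_pow ι a) hinv hav x

end Dict

end Fermat.Agent.S29.H282

end
end
-- ===== PACK-END S29/H282/Dict.lean

-- ===== PACK-BEGIN S29/H282/K2.lean
section




/-!
# S29 / M4b — PIECE `K2` (DICT), exact skeleton type (helper282)

`exists_isKummerClass_of_realised` : if `u ∈ FF N` is realised by `U ^ p`, `U` twisted of a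
character `c` killing parabolic and elliptic elements, then `u` has a `p`-Kummer class in
`J₀(N)(ℚ̄)`: `p ∣ ord_v u` at every place (`dvd_ord_of_isAvatar_pow`) and `(1/p) div u` has
degree `0`.

Also `dvd_ord_of_realised` (the divisibility alone) and the same over `ℂ`.
-/

set_option autoImplicit false

noncomputable section

open ModularCurve AlgebraicCurve CongruenceSubgroup UpperHalfPlane
open scoped MatrixGroups Manifold Real

namespace Fermat.Agent.S29.H282

open Fermat.Agent.S24 Fermat.Agent.S24.H997 Fermat.Agent.S24.H648 Fermat.Agent.S24.H708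
open Fermat.Agent.S24.H624
open Fermat.Agent.S29 Fermat.Agent.S29.M4b Fermat.Agent.S29.H332

variable {N : ℕ} [NeZero N] {p : ℕ} [NeZero p]

/-- a twisted function as an element of `Hol` of the concrete analytic core -/
def twistedHol {c : G0 N → ZMod p} (hc : IsParHom c) {U : ℍ → ℂ} (hU : IsTwisted N p c U) :
    (analyticCore N).Hol := ⟨U, mem_holN_of_isTwisted hc hU⟩

theorem coe_twistedHol {c : G0 N → ZMod p} (hc : IsParHom c) {U : ℍ → ℂ}
    (hU : IsTwisted N p c U) : ((twistedHol hc hU : (analyticCore N).Hol) : ℍ → ℂ) = U := rfl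

/-- a character killing parabolic and elliptic elements is trivial on special elements -/
theorem isParHom_apply_of_isSpecialElt {c : G0 N → ZMod p} (hc : IsParHom c) (γ : G0 N)
    (hγ : IsSpecialElt (γ : SL(2, ℤ))) : c γ = 0 := by
  rcases hγ with ⟨n, hn, h⟩ | h
  · exact hc.elliptic γ n hn (Subtype.ext (by simpa using h))
  · exact hc.parabolic γ (Or.inl h)

theorem isUnramified_twistedHol {c : G0 N → ZMod p} (hc : IsParHom c) {U : ℍ → ℂ}
    (hU : IsTwisted N p c U) :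
    IsUnramified (analyticCore N).toHolBase (twistedHol hc hU) := by
  intro γ hγ hsp
  apply Subtype.ext
  funext τ
  show U (γ • τ) = U τ
  have h := hU.hasChar ⟨γ, hγ⟩ τ
  rw [isParHom_apply_of_isSpecialElt hc ⟨γ, hγ⟩ hsp] at h
  simpa using h

/-- the avatar relation over `ℚ̄` -/
theorem isAvatar_of_realises {c : G0 N → ZMod p} (hc : IsParHom c) {U : ℍ → ℂ}
    {u : FF N} (hU : IsTwisted N p c U) (hu : Realises N u (fun τ => U τ ^ p)) :
    IsAvatar (K := Kbar) Deg457.iotaC (analyticCore N).toHolBase u (twistedHol hc hU ^ p) := by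
  have hq : HasQExp 1 (fun τ => U τ ^ p) (qexpFun 1 (fun τ => U τ ^ p)) :=
    Fermat.Agent.S29.H882.hasQExp_of_mem_goodRing hu.1
  have hinf : InfExp N (fun τ => U τ ^ p)
      (qExpand ℂ N (coeffMap Deg457.iotaC ((u : FF N) : LaurentSeries Kbar))) := by
    rw [← hu.2]
    exact infExp_level_of_hasQExp hq
  exact (expInf_spec (holToExp N (twistedHol hc hU ^ p))).unique hinf

/-- **DICT-hard over `ℚ̄`, M4b language**: `p ∣ ord_v u` at every place of `FF N`. -/
theorem dvd_ord_of_realised {c : G0 N → ZMod p} (hc : IsParHom c) {U : ℍ → ℂ}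
    {u : FF N} (hU : IsTwisted N p c U) (hu : Realises N u (fun τ => U τ ^ p))
    (v : Place Kbar (FF N)) : (p : ℤ) ∣ v.ord u :=
  dvd_ord_of_isAvatar_pow (K := Kbar) (ι := Deg457.iotaC) (A := analyticCore N)
    (isUnramified_twistedHol hc hU) (isAvatar_of_realises hc hU hu) v

theorem ne_zero_of_realised {c : G0 N → ZMod p} (hc : IsParHom c) {U : ℍ → ℂ}
    {u : FF N} (hU : IsTwisted N p c U) (hu : Realises N u (fun τ => U τ ^ p)) : u ≠ 0 := by
  intro h0
  have hav := isAvatar_of_realises hc hU hu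
  have h1 : twistedHol hc hU ^ p = 0 := hav.eq_zero_iff.mpr h0
  have h2 : twistedHol hc hU = 0 := by
    apply (analyticCore N).toHolBase.qexp_injective
    have h3 := congrArg (analyticCore N).toHolBase.qexp h1
    rw [map_pow, map_zero] at h3
    rw [map_zero]
    exact pow_eq_zero_iff (NeZero.ne p) |>.mp h3
  obtain ⟨τ, hτ⟩ := hU.ne_zero
  apply hτ
  have := congrArg (fun f : (analyticCore N).Hol => (f : ℍ → ℂ) τ) h2
  simpa [coe_twistedHol] using this

variable (N p)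

/-- **PIECE `K2`** of the M4b skeleton (exact type). -/
theorem exists_isKummerClass_of_realised {c : G0 N → ZMod p} (hc : IsParHom c) {U : ℍ → ℂ}
    {u : FF N} (hU : IsTwisted N p c U) (hu : Realises N u (fun τ => U τ ^ p)) :
    ∃ x : JZero N, H455.IsKummerClass (p : ℤ) u x := by
  have hf : u ≠ 0 := ne_zero_of_realised hc hU hu
  haveI := Fermat.Agent.Lib.RR.H864.hasPrincipalDivisors_modularFunctionFieldBar N
  obtain ⟨D₀, hD₀, hdeg₀⟩ :=
    HasPrincipalDivisors.exists_divisor (K := AlgebraicClosure ℚ) u hf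
  obtain ⟨D, hdeg, hD⟩ := Fermat.Agent.S29.H389.exists_divisor_div p (NeZero.ne p) D₀
    (fun v => by
      rw [hD₀ v]
      exact dvd_ord_of_realised hc hU hu v)
    hdeg₀
  refine ⟨Pic0.mk ⟨D, hdeg⟩, hf, ⟨D, hdeg⟩, rfl, fun v => ?_⟩
  rw [hD v, hD₀ v]

end Fermat.Agent.S29.H282

end
end
-- ===== PACK-END S29/H282/K2.lean

-- ===== PACK-BEGIN S29/M4b/K3/DTo.lean
section
/-
S29 row, LAYER M, SUB-LAYER M4b, PIECE K3, sub-piece `K3-DTO` (helper42).
Namespace `Fermat.Agent.S29.M4b.K3`.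

`dto` : for a twisted function `U` of a parabolic character, the `q`-expansion `f = qexp (U ^ p)`
(an element of `F_ℂ = laurentBaseChange ℂ (modularFunctionFieldFull N)`) satisfies
`p ∣ ord_w f` at EVERY place `w` of `F_ℂ / ℂ`.

This is the landed generic-`K` dictionary `H282.dvd_ord_of_isAvatar_pow` at `K = ℂ`, `ι = id`.
-/



set_option autoImplicit false

noncomputable section

open ModularCurve AlgebraicCurve CongruenceSubgroup UpperHalfPlane
open scoped MatrixGroups Manifold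

namespace Fermat.Agent.S29.M4b.K3

open Fermat.Agent.S24 Fermat.Agent.S24.H997 Fermat.Agent.S24.H648 Fermat.Agent.S24.H708
open Fermat.Agent.S24.H624
open Fermat.Agent.S29 Fermat.Agent.S29.M4b Fermat.Agent.S29.H282

variable {N : ℕ} [NeZero N] {p : ℕ} [NeZero p]

/-- the avatar relation over `ℂ` -/
theorem isAvatar_of_qexp {c : G0 N → ZMod p} (hc : IsParHom c) {U : ℍ → ℂ}
    (hU : IsTwisted N p c U) {f : FFK ℂ N}
    (hf : (f : LaurentSeries ℂ) = qexpFun 1 (fun τ => U τ ^ p)) :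
    IsAvatar (K := ℂ) (RingHom.id ℂ) (analyticCore N).toHolBase f (twistedHol hc hU ^ p) := by
  have hq : HasQExp 1 (fun τ => U τ ^ p) (qexpFun 1 (fun τ => U τ ^ p)) :=
    Fermat.Agent.S29.H882.hasQExp_of_mem_goodRing hU.pow_mem
  have hinf : InfExp N (fun τ => U τ ^ p)
      (qExpand ℂ N (coeffMap (RingHom.id ℂ) ((f : FFK ℂ N) : LaurentSeries ℂ))) := by
    rw [coeffMap_id, hf]
    exact infExp_level_of_hasQExp hq
  exact (expInf_spec (holToExp N (twistedHol hc hU ^ p))).unique hinf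

/-- **K3-DTO.**  `p ∣ ord_w (qexp (U ^ p))` at every place `w` of `F_ℂ`. -/
theorem dto {c : G0 N → ZMod p} (hc : IsParHom c) {U : ℍ → ℂ}
    (hU : IsTwisted N p c U) {f : FC N}
    (hf : (f : LaurentSeries ℂ) = qexpFun 1 (fun τ => U τ ^ p))
    (w : Place ℂ (FC N)) : (p : ℤ) ∣ w.ord f :=
  dvd_ord_of_isAvatar_pow (K := ℂ) (ι := RingHom.id ℂ) (A := analyticCore N)
    (isUnramified_twistedHol hc hU) (isAvatar_of_qexp hc hU hf) w

end Fermat.Agent.S29.M4b.K3

end
end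
-- ===== PACK-END S29/M4b/K3/DTo.lean

-- ===== PACK-BEGIN S29/M4b/K3/Fin.lean
section
/-
S29 row, LAYER M, SUB-LAYER M4b, PIECE K3, sub-piece `K3-FIN` (helper42).
Namespace `Fermat.Agent.S29.M4b.K3`.

`finStatement_of_dfrom : DFromStatement N p → FinStatement N p`.

`FinStatement` (= hypothesis `horb` of `H152.desc_main` for `f = qexp (U ^ p)`) is proved from
the single remaining analytic input `DFromStatement N p` ("DICT-easy + ROOT over `ℂ`"):
every `x ∈ F_ℂˣ` whose divisor is divisible by `p` is, up to a `p`-th power of `F_ℂˣ`, the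
`q`-expansion of the `p`-th power of a holomorphic function `V` on `ℍ` with `V ^ p` good.

Steps (`f = qexp (U ^ p)`):
* `dto` (file `DTo.lean`): `p ∣ ord_w f` at every place `w` of `F_ℂ`;
* transport: `σ ∈ Aut(ℂ/ℚ̄)` acts semilinearly on `F_ℂ` (Prelude `arithmeticGalois`) and permutes
  the places (`SemilinearAut.ord_smul`), so `p ∣ ord_w (σ f)` for all `w`;
* `DFromStatement` gives `V_σ` with `qexp (V_σ ^ p) = σ f * s_σ ^ p`;
* `V_σ` has a character `κ_σ : Γ₀(N) →* ℂˣ`, `κ_σ ^ p = 1` (`H942.exists_kummerChar`);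
* there are finitely many such characters (`Γ₀(N)` is finitely generated): `finite_pChar`;
* equal characters give equal classes modulo `p`-th powers: `exists_pow_mul_eq_of_sameChar`.
-/




set_option autoImplicit false
set_option linter.style.haveILetI false

noncomputable section

open ModularCurve AlgebraicCurve CongruenceSubgroup UpperHalfPlane
open scoped MatrixGroups Manifold

namespace Fermat.Agent.S29.M4b.K3

open Fermat.Agent.S24 Fermat.Agent.S24.H648 Fermat.Agent.S24.H708 Fermat.Agent.S24.Deg457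
open Fermat.Agent.S29 Fermat.Agent.S29.M4b

/-- SUB-PIECE `K3-DFROM` ("DICT-easy + ROOT over `ℂ`"): an element `f ≠ 0` of `F_ℂ` all of whose
orders are divisible by `p` is, up to the `p`-th power of a nonzero element `s` of `F_ℂ`, the
`q`-expansion of `V ^ p` for a holomorphic `V : ℍ → ℂ` with `V ^ p` good. -/
def DFromStatement (N p : ℕ) : Prop :=
  ∀ f : FC N, f ≠ 0 → (∀ w : Place ℂ (FC N), (p : ℤ) ∣ w.ord f) →
    ∃ s : LaurentSeries ℂ, s ∈ FC N ∧ s ≠ 0 ∧ ∃ V : ℍ → ℂ, MDifferentiable 𝓘(ℂ) 𝓘(ℂ) V ∧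
      (fun τ => V τ ^ p) ∈ goodRing N ∧
      qexpFun 1 (fun τ => V τ ^ p) = (f : LaurentSeries ℂ) * s ^ p

variable {N : ℕ} [NeZero N] {p : ℕ} [NeZero p]

/-- There are finitely many characters `Γ₀(N) →* ℂˣ` of exponent `p`. -/
theorem finite_pChar (N : ℕ) [NeZero N] (p : ℕ) [NeZero p] :
    Finite {κ : Gamma0 N →* ℂˣ // ∀ γ, κ γ ^ p = 1} := by
  classical
  haveI : Group.FG SL(2, ℤ) := Group.fg_iff.mpr ⟨{ModularGroup.S, ModularGroup.T},
    SpecialLinearGroup.SL2Z_generators, by simp⟩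
  haveI : Group.FG (Gamma0 N) := inferInstance
  obtain ⟨S, hS, hSfin⟩ := Group.fg_iff.mp (inferInstance : Group.FG (Gamma0 N))
  haveI : Finite S := hSfin
  let Φ : {κ : Gamma0 N →* ℂˣ // ∀ γ, κ γ ^ p = 1} → (S → rootsOfUnity p ℂ) :=
    fun κ s => ⟨κ.1 s, (mem_rootsOfUnity p _).mpr (κ.2 s)⟩
  refine Finite.of_injective Φ ?_
  intro κ₁ κ₂ h
  apply Subtype.ext
  apply MonoidHom.eq_of_eqOn_dense hS
  intro x hx
  have := congrFun h ⟨x, hx⟩
  exact congrArg Subtype.val this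

/-- Two holomorphic functions with good `p`-th powers and the SAME character have `p`-th powers
whose `q`-expansions differ by a `p`-th power of `F_ℂ`. -/
theorem exists_pow_mul_eq_of_sameChar {V₁ V₂ : ℍ → ℂ} (κ : Gamma0 N →* ℂˣ)
    (hκ : ∀ γ, κ γ ^ p = 1)
    (h1m : MDifferentiable 𝓘(ℂ) 𝓘(ℂ) V₁) (h2m : MDifferentiable 𝓘(ℂ) 𝓘(ℂ) V₂)
    (h1 : ∀ (γ : Gamma0 N) (τ : ℍ), V₁ ((γ : SL(2, ℤ)) • τ) = ((κ γ : ℂˣ) : ℂ) * V₁ τ)
    (h2 : ∀ (γ : Gamma0 N) (τ : ℍ), V₂ ((γ : SL(2, ℤ)) • τ) = ((κ γ : ℂˣ) : ℂ) * V₂ τ)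
    (h1g : (fun τ => V₁ τ ^ p) ∈ goodRing N) (h2g : (fun τ => V₂ τ ^ p) ∈ goodRing N)
    (h1ne : qexpFun 1 (fun τ => V₁ τ ^ p) ≠ 0) (h2ne : qexpFun 1 (fun τ => V₂ τ ^ p) ≠ 0) :
    ∃ g : LaurentSeries ℂ, g ∈ FC N ∧ g ≠ 0 ∧
      qexpFun 1 (fun τ => V₁ τ ^ p) = g ^ p * qexpFun 1 (fun τ => V₂ τ ^ p) := by
  have hp : p ≠ 0 := NeZero.ne p
  have hp1 : p - 1 + 1 = p := Nat.sub_add_cancel (Nat.one_le_iff_ne_zero.mpr hp)
  set W : ℍ → ℂ := fun τ => V₁ τ * V₂ τ ^ (p - 1) with hWdef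
  have hfun : (fun τ => W τ ^ p) = (fun τ => V₁ τ ^ p) * (fun τ => V₂ τ ^ p) ^ (p - 1) := by
    funext τ
    simp only [hWdef, Pi.mul_apply, Pi.pow_apply]
    rw [mul_pow, ← pow_mul, ← pow_mul, mul_comm (p - 1) p]
  have hWinv : ∀ γ ∈ Gamma0 N, ∀ τ : ℍ, W (γ • τ) = W τ := by
    intro γ hγ τ
    have e1 := h1 ⟨γ, hγ⟩ τ
    have e2 := h2 ⟨γ, hγ⟩ τ
    simp only at e1 e2
    simp only [hWdef]
    rw [e1, e2, mul_pow]
    have hk : ((κ ⟨γ, hγ⟩ : ℂˣ) : ℂ) * ((κ ⟨γ, hγ⟩ : ℂˣ) : ℂ) ^ (p - 1) = 1 := by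
      rw [← pow_succ', hp1]
      have h3 := congrArg (fun u : ℂˣ => (u : ℂ)) (hκ ⟨γ, hγ⟩)
      simpa using h3
    calc ((κ ⟨γ, hγ⟩ : ℂˣ) : ℂ) * V₁ τ * (((κ ⟨γ, hγ⟩ : ℂˣ) : ℂ) ^ (p - 1) * V₂ τ ^ (p - 1))
        = (((κ ⟨γ, hγ⟩ : ℂˣ) : ℂ) * ((κ ⟨γ, hγ⟩ : ℂˣ) : ℂ) ^ (p - 1)) *
            (V₁ τ * V₂ τ ^ (p - 1)) := by ring
      _ = V₁ τ * V₂ τ ^ (p - 1) := by rw [hk, one_mul]
  have hW : W ∈ goodRing N := by
    refine H942.mem_goodRing_of_pow_mem N hp (h1m.mul (h2m.pow (p - 1))) hWinv ?_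
    rw [hfun]
    exact (goodRing N).mul_mem h1g ((goodRing N).pow_mem h2g _)
  have hWm := H882.isMerInf_of_mem_goodRing hW
  have h1M := H882.isMerInf_of_mem_goodRing h1g
  have h2M := H882.isMerInf_of_mem_goodRing h2g
  set w := qexpFun 1 W with hw
  set a := qexpFun 1 (fun τ => V₁ τ ^ p) with ha
  set b := qexpFun 1 (fun τ => V₂ τ ^ p) with hb
  have hwFC : w ∈ FC N := H882.qexpFun_mem_FC hW
  have hbFC : b ∈ FC N := H882.qexpFun_mem_FC h2g
  have hwp : w ^ p = a * b ^ (p - 1) := by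
    have hfun' : W ^ p = (fun τ => V₁ τ ^ p) * (fun τ => V₂ τ ^ p) ^ (p - 1) := hfun
    rw [hw, ← H942.qexpFun_pow' hWm p, hfun', qexpFun_mul h1M (h2M.pow (p - 1)),
      H942.qexpFun_pow' h2M (p - 1)]
  refine ⟨w * b⁻¹, mul_mem hwFC (inv_mem hbFC), ?_, ?_⟩
  · refine mul_ne_zero ?_ (inv_ne_zero h2ne)
    intro h0
    rw [h0, zero_pow hp] at hwp
    exact mul_ne_zero h1ne (pow_ne_zero _ h2ne) hwp.symm
  · rw [mul_pow, hwp, inv_pow]
    have hbp : b ^ p = b ^ (p - 1) * b := by rw [← pow_succ, hp1]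
    rw [hbp, mul_inv]
    field_simp

/-- Representatives of the fibres of a map to a finite type. -/
theorem exists_finset_fibre_rep {G X : Type*} [Finite X] (χ : G → X) :
    ∃ s : Finset G, ∀ g : G, ∃ h ∈ s, χ g = χ h := by
  classical
  haveI : Fintype (Set.range χ) := Fintype.ofFinite _
  let r : Set.range χ → G := fun x => x.2.choose
  have hr : ∀ x : Set.range χ, χ (r x) = x := fun x => x.2.choose_spec
  refine ⟨Finset.univ.image r, fun g => ⟨r ⟨χ g, g, rfl⟩, ?_, ?_⟩⟩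
  · exact Finset.mem_image_of_mem _ (Finset.mem_univ _)
  · exact (hr ⟨χ g, g, rfl⟩).symm

/-- **K3-FIN from K3-DFROM.** -/
theorem finStatement_of_dfrom (N : ℕ) [NeZero N] (p : ℕ) [NeZero p]
    (hd : DFromStatement N p) : FinStatement N p := by
  letI := algKC
  intro c hc U hU
  classical
  have hp : p ≠ 0 := NeZero.ne p
  set a : LaurentSeries ℂ := qexpFun 1 (fun τ => U τ ^ p) with ha
  have haFC : a ∈ FC N := H882.qexpFun_mem_FC hU.pow_mem
  have ha0 : a ≠ 0 := H942.qexpFun_pow_ne_zero_of_isTwisted N p hU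
  set f₀ : FC N := ⟨a, haFC⟩ with hf₀def
  have hf₀ : f₀ ≠ 0 := fun h => ha0 (congrArg Subtype.val h)
  have hdvd : ∀ w : Place ℂ (FC N), (p : ℤ) ∣ w.ord f₀ := fun w => dto hc hU rfl w
  -- the data attached to each `σ`
  have key : ∀ σ : ℂ ≃ₐ[Kbar] ℂ, ∃ (s : LaurentSeries ℂ) (V : ℍ → ℂ)
      (κ : {κ : Gamma0 N →* ℂˣ // ∀ γ, κ γ ^ p = 1}), s ∈ FC N ∧ s ≠ 0 ∧
      MDifferentiable 𝓘(ℂ) 𝓘(ℂ) V ∧ (fun τ => V τ ^ p) ∈ goodRing N ∧
      (∀ (γ : Gamma0 N) (τ : ℍ), V ((γ : SL(2, ℤ)) • τ) = ((κ.1 γ : ℂˣ) : ℂ) * V τ) ∧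
      qexpFun 1 (fun τ => V τ ^ p) ≠ 0 ∧
      qexpFun 1 (fun τ => V τ ^ p) = coeffMap (σ : ℂ →+* ℂ) a * s ^ p := by
    intro σ
    set g : SemilinearAut ℂ (FC N) :=
      arithmeticGalois (modularFunctionFieldFull N) (σ.toRingEquiv.toRatAlgEquiv) with hg
    have hcoe : ((g • f₀ : FC N) : LaurentSeries ℂ) = coeffMap (σ : ℂ →+* ℂ) a := rfl
    have hne : g • f₀ ≠ 0 := (smul_ne_zero_iff_ne g).mpr hf₀
    have hdvd' : ∀ w : Place ℂ (FC N), (p : ℤ) ∣ w.ord (g • f₀) := by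
      intro w
      have h := SemilinearAut.ord_smul g (g⁻¹ • w) f₀
      rw [smul_inv_smul] at h
      rw [h]
      exact hdvd _
    obtain ⟨s, hs, hs0, V, hVm, hVg, hq⟩ := hd (g • f₀) hne hdvd'
    rw [hcoe] at hq
    have hqne : qexpFun 1 (fun τ => V τ ^ p) ≠ 0 := by
      rw [hq]
      refine mul_ne_zero ?_ (pow_ne_zero _ hs0)
      rw [← hcoe]
      exact fun h => hne (Subtype.ext h)
    have hV0 : V ≠ 0 := by
      intro h0
      apply hqne
      have : (fun τ => V τ ^ p) = 0 := by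
        funext τ
        rw [h0]
        simp [hp]
      rw [this]
      exact (qexpFun_eq_zero_iff (H882.isMerInf_of_mem_goodRing
        (by rw [← this]; exact hVg))).mpr rfl
    obtain ⟨κ, hκ, hVκ⟩ := H942.exists_kummerChar (Gamma0 N) hVm hV0 hp
      (fun γ hγ z => hVg.2.1 γ hγ z)
    exact ⟨s, V, ⟨κ, hκ⟩, hs, hs0, hVm, hVg, hVκ, hqne, hq⟩
  choose s V κ hs hs0 hVm hVg hVκ hqne hq using key
  haveI := finite_pChar N p
  obtain ⟨R, hR⟩ := exists_finset_fibre_rep κ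
  refine ⟨(fun σ : ℂ ≃ₐ[Kbar] ℂ => coeffMap (σ : ℂ →+* ℂ) a) '' (R : Set (ℂ ≃ₐ[Kbar] ℂ)),
    R.finite_toSet.image _, fun σ => ?_⟩
  obtain ⟨h, hhR, hκeq⟩ := hR σ
  refine ⟨coeffMap (h : ℂ →+* ℂ) a, ⟨h, hhR, rfl⟩, ?_⟩
  have h2 := hVκ h
  rw [← hκeq] at h2
  obtain ⟨g, hg, hg0, hgeq⟩ := exists_pow_mul_eq_of_sameChar (κ σ).1 (κ σ).2 (hVm σ) (hVm h)
    (hVκ σ) h2 (hVg σ) (hVg h) (hqne σ) (hqne h)
  rw [hq σ, hq h] at hgeq
  refine ⟨g * s h * (s σ)⁻¹, mul_mem (mul_mem hg (hs h)) (inv_mem (hs σ)),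
    mul_ne_zero (mul_ne_zero hg0 (hs0 h)) (inv_ne_zero (hs0 σ)), ?_⟩
  have hsp : s σ ^ p ≠ 0 := pow_ne_zero _ (hs0 σ)
  rw [mul_pow, mul_pow, inv_pow]
  field_simp
  rw [hgeq]
  ring

end Fermat.Agent.S29.M4b.K3

end
end
-- ===== PACK-END S29/M4b/K3/Fin.lean

-- ===== PACK-BEGIN S29/M4b/K3/Final.lean
section
/-
S29 row, M4b, piece K3 — `PieceK3 N p` from the single remaining sub-piece `K3-DFROM` (helper42).
-/



set_option autoImplicit false

noncomputable section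

open ModularCurve AlgebraicCurve CongruenceSubgroup UpperHalfPlane
open scoped MatrixGroups Manifold

namespace Fermat.Agent.S29.M4b.K3

open Fermat.Agent.S24 Fermat.Agent.S29 Fermat.Agent.S29.M4b

/-- **PIECE K3** in the `Prop` form of `M4b/Top.lean`, from `K3-DFROM`. -/
theorem pieceK3_of_dfrom (N : ℕ) [NeZero N] (p : ℕ) [NeZero p] (hd : DFromStatement N p) :
    PieceK3 N p :=
  pieceK3_of_fin N p (finStatement_of_dfrom N p hd)

end Fermat.Agent.S29.M4b.K3

end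
end
-- ===== PACK-END S29/M4b/K3/Final.lean

-- ===== PACK-BEGIN S29/H282/DictEasy.lean
section


/-!
# S29 / M4b-K2 (helper282) — the places dictionary, easy direction (DICT-easy)

For every `τ ∈ ℍ` with `j(τ) ∈ ι(K)` the Taylor expansion at `τ` of the avatar defines a place
`placeAtTau` of `FFK K N / K`, and `ord_τ (avatar of f) = k · ord_w f` with `k > 0`.
Hence: if `m ∣ ord_w f` for every place `w`, then `m ∣ ord_τ h` for the avatar `h` of `f`, at
every such `τ` (for `K = ℂ`: at every `τ ∈ ℍ`).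
-/

set_option autoImplicit false

noncomputable section

open ModularCurve HahnSeries UpperHalfPlane AlgebraicCurve IntermediateField
open scoped MatrixGroups Manifold

namespace Fermat.Agent.S29.H282

open Fermat.Agent.S24 Fermat.Agent.S24.H997 Fermat.Agent.S24.Deg457 Fermat.Agent.S24.H624

variable {K : Type*} [Field K] [Algebra ℚ K] (ι : K →+* ℂ)
variable {N : ℕ} [NeZero N] (B : HolBase N) (hB : B.IsHolo)

/-- the embedding "Taylor expansion at `τ` of the avatar" -/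
def sigmaTau (τ : ℍ) : FFK K N →+* LaurentSeries ℂ :=
  sigmaGK ι B (B.taylorExpansion hB τ) 1

variable {ι B}

theorem IsAvatar.sigmaTau_eq {f : FFK K N} {h : B.Hol} (hav : IsAvatar ι B f h) (τ : ℍ) :
    sigmaTau ι B hB τ f = (B.taylorExpansion hB τ).E h := by
  rw [sigmaTau, hav.sigmaGK_eq, inv_one, B.compH_one]

theorem order_taylorExpansion {h : B.Hol} (hh : h ≠ 0) (τ : ℍ) :
    ((B.taylorExpansion hB τ).E h).order = ((ordAt τ (h : ℍ → ℂ)).toNat : ℤ) := by
  have h0 : B.toHolo hB h ≠ 0 := fun h1 =>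
    hh (B.toHolo_injective hB (h1.trans (map_zero _).symm))
  rw [HolBase.taylorExpansion_E, order_laurentAt_algebraMap τ h0]
  rfl

theorem IsAvatar.order_sigmaTau {f : FFK K N} {h : B.Hol} (hav : IsAvatar ι B f h)
    (hh : h ≠ 0) (τ : ℍ) :
    (sigmaTau ι B hB τ f).order = ((ordAt τ (h : ℍ → ℂ)).toNat : ℤ) := by
  rw [hav.sigmaTau_eq hB τ, order_taylorExpansion hB hh τ]

variable (ι B)

theorem eord_sigmaTau_const (τ : ℍ) (c : K) :
    0 ≤ H117.eord (sigmaTau ι B hB τ) (algebraMap K (FFK K N) c) := by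
  show 0 ≤ (sigmaGK ι B (B.taylorExpansion hB τ) 1 (algebraMap K (FFK K N) c)).order
  rw [sigmaGK_algebraMap, HahnSeries.order_C]

theorem JH_one_sub_constH_ne_zero (c : ℂ) : B.JH 1 (one_dvd N) - B.constH c ≠ 0 := by
  intro h0
  have h1 : B.JH 1 (one_dvd N) = B.constH c := sub_eq_zero.mp h0
  have h2 := B.order_qexp_J_one
  rw [h1] at h2
  have h3 : (B.qexp (B.constH c)).order = 0 := by
    show (B.qexp ⟨_, B.const_mem c⟩).order = 0
    rw [B.qexp_const, HahnSeries.order_C]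
  rw [h3] at h2
  have hN : (0 : ℤ) < N := by exact_mod_cast Nat.pos_of_ne_zero (NeZero.ne N)
  omega

theorem sigmaTau_jFK_sub (τ : ℍ) (a : K) :
    sigmaTau ι B hB τ (jFK K N - algebraMap K (FFK K N) a)
      = (B.taylorExpansion hB τ).E (B.JH 1 (one_dvd N) - B.constH (ι a)) := by
  rw [sigmaTau, map_sub, sigmaGK_jFK, sigmaGK_algebraMap, map_sub, (B.taylorExpansion hB τ).const]

theorem exists_eord_sigmaTau_ne_zero (τ : ℍ) (a : K) (ha : ι a = B.J 1 τ) :
    ∃ t : FFK K N, H117.eord (sigmaTau ι B hB τ) t ≠ 0 := by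
  refine ⟨jFK K N - algebraMap K (FFK K N) a, ?_⟩
  show (sigmaTau ι B hB τ (jFK K N - algebraMap K (FFK K N) a)).order ≠ 0
  rw [sigmaTau_jFK_sub, order_taylorExpansion hB (JH_one_sub_constH_ne_zero B (ι a)) τ]
  have hne := JH_one_sub_constH_ne_zero B (ι a)
  set g : B.Hol := B.JH 1 (one_dvd N) - B.constH (ι a) with hg
  have hmd : MDiff (g : ℍ → ℂ) := hB.mdiff _ g.2
  have hg0 : (g : ℍ → ℂ) ≠ 0 := fun h => hne (Subtype.ext h)
  have htop : ordAt τ (g : ℍ → ℂ) ≠ ⊤ := ordAt_ne_top hmd hg0 τ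
  have hval : (g : ℍ → ℂ) τ = 0 := by
    show B.J 1 τ - ι a = 0
    rw [ha, sub_self]
  have hz : ordAt τ (g : ℍ → ℂ) ≠ 0 := fun h => (ordAt_eq_zero_iff hmd τ).mp h hval
  intro h0
  have h1 : (ordAt τ (g : ℍ → ℂ)).toNat = 0 := by exact_mod_cast h0
  rcases (ENat.toNat_eq_zero).mp h1 with h | h
  · exact hz h
  · exact htop h

/-- **The place of `FFK K N / K` at a point `τ ∈ ℍ`** with `j(τ) = ι a`. -/
def placeAtTau (τ : ℍ) (a : K) (ha : ι a = B.J 1 τ) : Place K (FFK K N) :=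
  H117.placeOfEmb (sigmaTau ι B hB τ) (eord_sigmaTau_const ι B hB τ)
    (exists_eord_sigmaTau_ne_zero ι B hB τ a ha)

theorem exists_mult_placeAtTau (τ : ℍ) (a : K) (ha : ι a = B.J 1 τ) :
    ∃ k : ℕ, 0 < k ∧ ∀ f : FFK K N,
      (sigmaTau ι B hB τ f).order = k * (placeAtTau ι B hB τ a ha).ord f :=
  H117.exists_mult (sigmaTau ι B hB τ) _ _

variable {ι B}

/-- `ord_τ h = k · ord_w f` for the avatar `h` of `f`. -/
theorem IsAvatar.exists_ordAt_eq {f : FFK K N} {h : B.Hol} (hav : IsAvatar ι B f h)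
    (hh : h ≠ 0) (τ : ℍ) (a : K) (ha : ι a = B.J 1 τ) :
    ∃ k : ℕ, 0 < k ∧
      ((ordAt τ (h : ℍ → ℂ)).toNat : ℤ) = k * (placeAtTau ι B hB τ a ha).ord f := by
  obtain ⟨k, hk, hkf⟩ := exists_mult_placeAtTau ι B hB τ a ha
  exact ⟨k, hk, by rw [← hkf f, hav.order_sigmaTau hB hh τ]⟩

include hB in
/-- **DICT-easy.**  If `m ∣ ord_w f` at every place `w` of `FFK K N / K`, then `m` divides the
order of vanishing of the avatar `h` of `f` at every `τ ∈ ℍ` with `j(τ) ∈ ι(K)`. -/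
theorem IsAvatar.exists_ordAt_eq_mul {f : FFK K N} {h : B.Hol} (hav : IsAvatar ι B f h)
    (hh : h ≠ 0) {m : ℕ} (hdvd : ∀ w : Place K (FFK K N), (m : ℤ) ∣ w.ord f)
    (τ : ℍ) (a : K) (ha : ι a = B.J 1 τ) :
    ∃ k : ℕ, ordAt τ (h : ℍ → ℂ) = ((m * k : ℕ) : ℕ∞) := by
  obtain ⟨k, -, hk⟩ := hav.exists_ordAt_eq hB hh τ a ha
  have hmd : MDiff (h : ℍ → ℂ) := hB.mdiff _ h.2
  have hh0 : (h : ℍ → ℂ) ≠ 0 := fun h0 => hh (Subtype.ext h0)
  have htop : ordAt τ (h : ℍ → ℂ) ≠ ⊤ := ordAt_ne_top hmd hh0 τ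
  have h1 : (m : ℤ) ∣ ((ordAt τ (h : ℍ → ℂ)).toNat : ℤ) := by
    rw [hk]
    exact Dvd.dvd.mul_left (hdvd _) _
  obtain ⟨l, hl⟩ := Int.natCast_dvd_natCast.mp h1
  refine ⟨l, ?_⟩
  rw [← hl, ENat.natCast_toNat htop]

end Fermat.Agent.S29.H282

end
end
-- ===== PACK-END S29/H282/DictEasy.lean

-- ===== PACK-BEGIN S29/H282/DictC.lean
section




/-!
# S29 / M4b / K3 (helper282) — the dictionary over `ℂ` (and any alg. closed `K ⊆ ℂ`), K3 language

Sub-pieces (F1) and (F4) of helper42's K3 sub-skeleton (`coord/S29-K3.md`):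

* `mem_holN_of_mem_goodRing`       : a good function lies in the S24 ring `holN N`;
* `isAvatar_of_hasQExp`            : `G ∈ holN N` with `q`-expansion `coeffMap ι f` is an avatar of `f`;
* `dvd_ord_of_isTwisted` (**F1**, generic `K`) and `dvd_ord_of_isTwisted_complex` (**F1**, `K = ℂ`):
  `U` twisted of a parabolic+elliptic-trivial character, `f = qexp (U ^ p) ∈ F_K`
  ⟹ `p ∣ ord_w f` at EVERY place `w` of `F_K / K`;
* `exists_ordAt_eq_mul_of_forall_dvd_ord` (**DICT-easy**, `K = ℂ`) and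
  `exists_pow_eq_of_forall_dvd_ord` (**F4** = DICT-easy + ROOT): `G` good, `G ≢ 0`,
  `m ∣ ord_w (qexp G)` at every place `w` of `F_ℂ / ℂ` ⟹ `G = V ^ m`, `V` holomorphic on `ℍ`.
-/

set_option autoImplicit false

noncomputable section

open ModularCurve AlgebraicCurve CongruenceSubgroup UpperHalfPlane
open scoped MatrixGroups Manifold Real

namespace Fermat.Agent.S29.H282

open Fermat.Agent.S24 Fermat.Agent.S24.H997 Fermat.Agent.S24.H648 Fermat.Agent.S24.H708
open Fermat.Agent.S24.H624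
open Fermat.Agent.S29 Fermat.Agent.S29.M4b Fermat.Agent.S29.H332

variable {N : ℕ} [NeZero N]

/-- the translates of a `Γ₀(N)`-invariant function are `N`-periodic -/
theorem periodic_compSL_of_invariant {G : ℍ → ℂ}
    (hinv : ∀ γ ∈ Gamma0 N, ∀ τ : ℍ, G (γ • τ) = G τ) (g : SL(2, ℤ)) :
    Function.Periodic (compSL g G ∘ ofComplex) (N : ℝ) := by
  have hh : HasCharacter (1 : CongruenceSubgroup.Gamma0 N →* ℂˣ) G := by
    intro γ τ
    rw [hinv γ γ.2 τ]
    simp
  have hχ : ParTrivial (1 : CongruenceSubgroup.Gamma0 N →* ℂˣ) := fun _ _ => rfl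
  exact hh.periodic hχ g N (by simpa using conj_T_zpow_mem_Gamma0 N g 1)

/-- **A good function lies in `holN N`.** -/
theorem mem_holN_of_mem_goodRing {G : ℍ → ℂ} (hG : G ∈ goodRing N) : G ∈ holN N := by
  obtain ⟨hmd, hinv, hgr⟩ := hG
  refine ⟨hmd, fun g => ?_⟩
  have hhol : MDiff (compSL g G) := (precompSL g ⟨G, hmd⟩).2
  have hmer : IsMerInf N (compSL g G) :=
    ⟨hhol, periodic_compSL_of_invariant hinv g, isBounded_mul_qh_pow_level N (hgr g)⟩
  have hq := HasQExp.of_isMerInf hmer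
  have hinf : InfExp N (compSL g G) (qexpFun N (compSL g G)) := fun τ => hq.hasSum τ
  exact hinf.mem_expRing

section Generic

variable {K : Type*} [Field K] [Algebra ℚ K] (ι : K →+* ℂ)

/-- a function of `holN N` whose `q`-expansion is `coeffMap ι f` is an avatar of `f` -/
theorem isAvatar_of_hasQExp {G : ℍ → ℂ} (hG : G ∈ holN N) {f : FFK K N}
    (hq : HasQExp 1 G (coeffMap ι (f : LaurentSeries K))) :
    IsAvatar ι (analyticCore N).toHolBase f (⟨G, hG⟩ : (analyticCore N).Hol) := by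
  have hinf : InfExp N G (qExpand ℂ N (coeffMap ι (f : LaurentSeries K))) :=
    infExp_level_of_hasQExp hq
  exact (expInf_spec (holToExp N (⟨G, hG⟩ : holN N))).unique hinf

theorem isAvatar_of_mem_goodRing {G : ℍ → ℂ} (hG : G ∈ goodRing N) {f : FFK K N}
    (hq : qexpFun 1 G = coeffMap ι (f : LaurentSeries K)) :
    IsAvatar ι (analyticCore N).toHolBase f
      (⟨G, mem_holN_of_mem_goodRing hG⟩ : (analyticCore N).Hol) :=
  isAvatar_of_hasQExp ι _ (hq ▸ Fermat.Agent.S29.H882.hasQExp_of_mem_goodRing hG)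

variable {p : ℕ} [NeZero p]

/-- **(F1), generic `K`**: DICT-hard for twisted functions. -/
theorem dvd_ord_of_isTwisted [IsAlgClosed K] {c : G0 N → ZMod p} (hc : IsParHom c)
    {U : ℍ → ℂ} (hU : IsTwisted N p c U) {f : FFK K N}
    (hq : qexpFun 1 (fun τ => U τ ^ p) = coeffMap ι (f : LaurentSeries K))
    (w : Place K (FFK K N)) : (p : ℤ) ∣ w.ord f := by
  have hav : IsAvatar ι (analyticCore N).toHolBase f
      ((⟨U, mem_holN_of_isTwisted hc hU⟩ : (analyticCore N).Hol) ^ p) :=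
    isAvatar_of_hasQExp ι (G := fun τ => U τ ^ p)
      (pow_mem (mem_holN_of_isTwisted hc hU) p)
      (hq ▸ Fermat.Agent.S29.H882.hasQExp_of_mem_goodRing hU.pow_mem)
  have hinv : IsUnramified (analyticCore N).toHolBase
      (⟨U, mem_holN_of_isTwisted hc hU⟩ : (analyticCore N).Hol) := by
    intro γ hγ hsp
    apply Subtype.ext
    funext τ
    show U (γ • τ) = U τ
    have h := hU.hasChar ⟨γ, hγ⟩ τ
    have h0 : c ⟨γ, hγ⟩ = 0 := by
      rcases hsp with ⟨n, hn, h⟩ | h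
      · exact hc.elliptic ⟨γ, hγ⟩ n hn (Subtype.ext (by simpa using h))
      · exact hc.parabolic ⟨γ, hγ⟩ (Or.inl h)
    rw [h0] at h
    simpa using h
  exact dvd_ord_of_isAvatar_pow hinv hav w

/-- **DICT-easy, generic `K`**, for good functions: at every `τ` with `j(τ) ∈ ι(K)`. -/
theorem exists_ordAt_eq_mul_of_forall_dvd_ord_at {G : ℍ → ℂ} (hG : G ∈ goodRing N)
    (hG0 : G ≠ 0) {f : FFK K N} (hq : qexpFun 1 G = coeffMap ι (f : LaurentSeries K))
    {m : ℕ} (hdvd : ∀ w : Place K (FFK K N), (m : ℤ) ∣ w.ord f)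
    (τ : ℍ) (a : K) (ha : ι a = JFun.jFun τ) :
    ∃ k : ℕ, analyticOrderAt (G ∘ ofComplex) (τ : ℂ) = ((m * k : ℕ) : ℕ∞) := by
  have hav := isAvatar_of_mem_goodRing ι hG hq
  have hh : (⟨G, mem_holN_of_mem_goodRing hG⟩ : (analyticCore N).Hol) ≠ 0 := fun h0 =>
    hG0 (congrArg Subtype.val h0)
  have ha' : ι a = (analyticCore N).toHolBase.J 1 τ := by
    rw [ha]
    show JFun.jFun τ = Jd 1 τ
    rw [Jd_one]
    rfl
  exact hav.exists_ordAt_eq_mul (holBase_isHolo N) hh hdvd τ a ha'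

end Generic

/-! ### `K = ℂ` -/

section Complex

variable {p : ℕ} [NeZero p]

/-- **(F1)**: DICT-hard over `ℂ`.  `f = qexp (U ^ p)` as an element of `F_ℂ`. -/
theorem dvd_ord_of_isTwisted_complex {c : G0 N → ZMod p} (hc : IsParHom c)
    {U : ℍ → ℂ} (hU : IsTwisted N p c U)
    (hf : qexpFun 1 (fun τ => U τ ^ p) ∈ laurentBaseChange ℂ (modularFunctionFieldFull N))
    (w : Place ℂ ↥(laurentBaseChange ℂ (modularFunctionFieldFull N))) :
    (p : ℤ) ∣ w.ord ⟨qexpFun 1 (fun τ => U τ ^ p), hf⟩ :=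
  dvd_ord_of_isTwisted (K := ℂ) (RingHom.id ℂ) hc hU
    (f := ⟨qexpFun 1 (fun τ => U τ ^ p), hf⟩) (coeffMap_id _).symm w

/-- **DICT-easy over `ℂ`**: `G` good, `m ∣ ord_w (qexp G)` at every place of `F_ℂ/ℂ` ⟹
`m ∣ ord_τ G` at every `τ ∈ ℍ` (the exact hypothesis of `H751.exists_pow_eq_UHP`). -/
theorem exists_ordAt_eq_mul_of_forall_dvd_ord {G : ℍ → ℂ} (hG : G ∈ goodRing N) (hG0 : G ≠ 0)
    (hf : qexpFun 1 G ∈ laurentBaseChange ℂ (modularFunctionFieldFull N)) {m : ℕ}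
    (hdvd : ∀ w : Place ℂ ↥(laurentBaseChange ℂ (modularFunctionFieldFull N)),
      (m : ℤ) ∣ w.ord ⟨qexpFun 1 G, hf⟩) (τ : ℍ) :
    ∃ k : ℕ, analyticOrderAt (G ∘ ofComplex) (τ : ℂ) = ((m * k : ℕ) : ℕ∞) :=
  exists_ordAt_eq_mul_of_forall_dvd_ord_at (K := ℂ) (RingHom.id ℂ) hG hG0
    (f := ⟨qexpFun 1 G, hf⟩) (coeffMap_id _).symm hdvd τ (JFun.jFun τ) rfl

/-- **(F4)** = DICT-easy + ROOT: a good function all of whose orders at the places of `F_ℂ/ℂ`
are divisible by `m` is the `m`-th power of a holomorphic function on `ℍ`. -/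
theorem exists_pow_eq_of_forall_dvd_ord {G : ℍ → ℂ} (hG : G ∈ goodRing N) (hG0 : G ≠ 0)
    (hf : qexpFun 1 G ∈ laurentBaseChange ℂ (modularFunctionFieldFull N)) {m : ℕ} (hm : m ≠ 0)
    (hdvd : ∀ w : Place ℂ ↥(laurentBaseChange ℂ (modularFunctionFieldFull N)),
      (m : ℤ) ∣ w.ord ⟨qexpFun 1 G, hf⟩) :
    ∃ V : ℍ → ℂ, MDifferentiable 𝓘(ℂ) 𝓘(ℂ) V ∧ ∀ τ : ℍ, V τ ^ m = G τ :=
  Fermat.Agent.S29.H751.exists_pow_eq_UHP hG.1 m hm
    (fun τ => exists_ordAt_eq_mul_of_forall_dvd_ord hG hG0 hf hdvd τ)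

end Complex

end Fermat.Agent.S29.H282

end
end
-- ===== PACK-END S29/H282/DictC.lean

-- ===== PACK-BEGIN S29/H282/DFrom.lean
section



/-!
# S29 / M4b / K3-DFROM (helper282)

`exists_root_of_forall_dvd_ord` : let `f ≠ 0` be an element of the function field `F_ℂ` of `X₀(N)`
over `ℂ` such that `p ∣ ord_w f` at EVERY place `w` of `F_ℂ/ℂ`.  Then there are `s ∈ F_ℂ`, `s ≠ 0`,
and a holomorphic `V : ℍ → ℂ`, `V ≢ 0`, with `V ^ p` good and `qexp (V ^ p) = f * s ^ p`; moreover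
`V` transforms under `Γ₀(N)` by a character `χ` with `χ ^ p = 1`, i.e. `V` is twisted
(`M4b.IsTwisted`) of an additive character `c : Γ₀(N) → ℤ/p`.
-/

set_option autoImplicit false

noncomputable section

open ModularCurve AlgebraicCurve CongruenceSubgroup UpperHalfPlane
open scoped MatrixGroups Manifold Real

namespace Fermat.Agent.S29.H282

open Fermat.Agent.S24 Fermat.Agent.S24.H997 Fermat.Agent.S24.H648 Fermat.Agent.S24.H708
open Fermat.Agent.S24.H624 Fermat.Agent.S24.Deg457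
open Fermat.Agent.S29 Fermat.Agent.S29.M4b Fermat.Agent.S29.H332

variable {N : ℕ} [NeZero N]

/-! ### The character of a `p`-th root of an invariant function -/

/-- If `V` is holomorphic, `V ≢ 0` and `V ^ p` is `Γ₀(N)`-invariant, then for every `γ ∈ Γ₀(N)`
there is a `p`-th root of unity `z` with `V (γ τ) = z V(τ)`. -/
theorem exists_root_of_unity_of_pow_invariant {p : ℕ} (hp : p ≠ 0) {V : ℍ → ℂ}
    (hV : MDifferentiable 𝓘(ℂ) 𝓘(ℂ) V) {τ₁ : ℍ} (hτ₁ : V τ₁ ≠ 0)
    (hinv : ∀ γ ∈ Gamma0 N, ∀ τ : ℍ, V (γ • τ) ^ p = V τ ^ p) (γ : SL(2, ℤ))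
    (hγ : γ ∈ Gamma0 N) :
    ∃ z : ℂ, z ^ p = 1 ∧ ∀ τ : ℍ, V (γ • τ) = z * V τ := by
  have hA1 : V (γ • τ₁) ≠ 0 := by
    intro h0
    have := hinv γ hγ τ₁
    rw [h0, zero_pow hp] at this
    exact pow_ne_zero p hτ₁ this.symm
  set z : ℂ := V (γ • τ₁) / V τ₁ with hz
  have hzp : z ^ p = 1 := by
    rw [hz, div_pow, hinv γ hγ τ₁, div_self (pow_ne_zero p hτ₁)]
  refine ⟨z, hzp, fun τ => ?_⟩
  have hAd : MDifferentiable 𝓘(ℂ) 𝓘(ℂ) (fun τ : ℍ => V (γ • τ)) :=
    H648.mdifferentiable_comp_smul hV γ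
  have hBd : MDifferentiable 𝓘(ℂ) 𝓘(ℂ) (fun τ : ℍ => z * V τ) :=
    (mdifferentiable_const (c := z)).mul hV
  have := Fermat.Agent.S29.H751.eq_of_pow_eq_UHP hAd hBd hp (fun τ => by
    show V (γ • τ) ^ p = (z * V τ) ^ p
    rw [hinv γ hγ τ, mul_pow, hzp, one_mul]) (τ₀ := τ₁)
    (by
      show V (γ • τ₁) = z * V τ₁
      rw [hz, div_mul_cancel₀ _ hτ₁]) hA1
  exact congrFun this τ

theorem isPrimitiveRoot_zetaP (p : ℕ) [NeZero p] : IsPrimitiveRoot (zetaP p) p := by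
  unfold zetaP
  exact Complex.isPrimitiveRoot_exp p (NeZero.ne p)

/-- the additive character of a `p`-th root of an invariant function -/
theorem exists_hasChar_of_pow_invariant {p : ℕ} [NeZero p] {V : ℍ → ℂ}
    (hV : MDifferentiable 𝓘(ℂ) 𝓘(ℂ) V) (hV0 : ∃ τ, V τ ≠ 0)
    (hinv : ∀ γ ∈ Gamma0 N, ∀ τ : ℍ, V (γ • τ) ^ p = V τ ^ p) :
    ∃ c : G0 N → ZMod p, (∀ γ γ' : G0 N, c (γ * γ') = c γ + c γ') ∧ HasChar N p c V := by
  classical
  obtain ⟨τ₁, hτ₁⟩ := hV0
  have hprim := isPrimitiveRoot_zetaP p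
  have key : ∀ γ : G0 N, ∃ k : ZMod p, ∀ τ : ℍ,
      V ((γ : SL(2, ℤ)) • τ) = zetaP p ^ k.val * V τ := by
    intro γ
    obtain ⟨z, hzp, hz⟩ := exists_root_of_unity_of_pow_invariant (NeZero.ne p) hV hτ₁ hinv γ γ.2
    obtain ⟨i, hi, rfl⟩ := hprim.eq_pow_of_pow_eq_one hzp
    refine ⟨(i : ZMod p), fun τ => ?_⟩
    rw [hz τ, ZMod.val_natCast, Nat.mod_eq_of_lt hi]
  choose c hc using key
  refine ⟨c, fun γ γ' => ?_, hc⟩
  -- additivity
  have h1 := hc (γ * γ') τ₁
  have h2 := hc γ ((γ' : SL(2, ℤ)) • τ₁)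
  have h3 := hc γ' τ₁
  have hsm : ((γ * γ' : G0 N) : SL(2, ℤ)) • τ₁
      = (γ : SL(2, ℤ)) • ((γ' : SL(2, ℤ)) • τ₁) := by
    rw [Subgroup.coe_mul, mul_smul]
  rw [hsm, h2, h3, ← mul_assoc, ← pow_add] at h1
  have h4 : zetaP p ^ ((c γ).val + (c γ').val) = zetaP p ^ (c (γ * γ')).val :=
    mul_right_cancel₀ hτ₁ h1
  have hfin : IsOfFinOrder (zetaP p) :=
    isOfFinOrder_iff_pow_eq_one.mpr ⟨p, Nat.pos_of_ne_zero (NeZero.ne p), hprim.pow_eq_one⟩
  have h5 : ((c γ).val + (c γ').val) ≡ (c (γ * γ')).val [MOD p] := by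
    have := hfin.pow_eq_pow_iff_modEq.mp h4
    rwa [← hprim.eq_orderOf] at this
  have h6 : (((c γ).val + (c γ').val : ℕ) : ZMod p) = ((c (γ * γ')).val : ZMod p) :=
    (ZMod.natCast_eq_natCast_iff _ _ _).mpr h5
  rw [Nat.cast_add, ZMod.natCast_zmod_val, ZMod.natCast_zmod_val, ZMod.natCast_zmod_val] at h6
  exact h6.symm

/-! ### DFROM -/

/-- **K3-DFROM.** -/
theorem exists_root_of_forall_dvd_ord (N : ℕ) [NeZero N] (p : ℕ) [NeZero p]
    {f : LaurentSeries ℂ} (hf : f ∈ laurentBaseChange ℂ (modularFunctionFieldFull N))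
    (hf0 : f ≠ 0)
    (hdvd : ∀ w : Place ℂ ↥(laurentBaseChange ℂ (modularFunctionFieldFull N)),
      (p : ℤ) ∣ w.ord ⟨f, hf⟩) :
    ∃ s : LaurentSeries ℂ, s ∈ laurentBaseChange ℂ (modularFunctionFieldFull N) ∧ s ≠ 0 ∧
      ∃ V : ℍ → ℂ, MDifferentiable 𝓘(ℂ) 𝓘(ℂ) V ∧ (∃ τ, V τ ≠ 0) ∧
        (fun τ => V τ ^ p) ∈ goodRing N ∧ qexpFun 1 (fun τ => V τ ^ p) = f * s ^ p ∧
        ∃ c : G0 N → ZMod p, (∀ γ γ' : G0 N, c (γ * γ') = c γ + c γ') ∧
          IsTwisted N p c V := by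
  have hp : p ≠ 0 := NeZero.ne p
  -- write `f = r / t` with `r, t` polynomials in the `j(q^d)`
  obtain ⟨r, t, ht, hfrt⟩ := exists_div_inclRNK ℂ N ⟨f, hf⟩
  have ht' : inclRNK ℂ N t ≠ 0 := fun h0 =>
    ht (inclRNK_injective ℂ N (h0.trans (map_zero _).symm))
  have hts : ((t : RNK ℂ N) : LaurentSeries ℂ) ≠ 0 := fun h0 => ht (Subtype.ext h0)
  have hfF : (⟨f, hf⟩ : FFK ℂ N) ≠ 0 := fun h0 => hf0 (congrArg Subtype.val h0)
  -- the good function with `q`-expansion `r * t ^ (p - 1) = f * t ^ p`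
  have hmem : ((r * t ^ (p - 1) : RNK ℂ N) : LaurentSeries ℂ) ∈ AK ℂ N := (r * t ^ (p - 1)).2
  obtain ⟨G, hG, hGq⟩ := Fermat.Agent.S29.H882.AK_le_goodQ N hmem
  have hgF : (⟨f, hf⟩ : FFK ℂ N) * inclRNK ℂ N t ^ p = inclRNK ℂ N (r * t ^ (p - 1)) := by
    rw [hfrt, map_mul, map_pow]
    have : p = (p - 1) + 1 := (Nat.succ_pred_eq_of_ne_zero hp).symm
    conv_lhs => rw [this, pow_succ]
    field_simp
  have hgL : f * ((t : RNK ℂ N) : LaurentSeries ℂ) ^ p
      = ((r * t ^ (p - 1) : RNK ℂ N) : LaurentSeries ℂ) := by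
    have := congrArg (fun x : FFK ℂ N => (x : LaurentSeries ℂ)) hgF
    simpa using this
  have hqG : qexpFun 1 G = f * ((t : RNK ℂ N) : LaurentSeries ℂ) ^ p := by
    rw [hGq.qexpFun_eq, hgL]
  have hfs : qexpFun 1 G ∈ laurentBaseChange ℂ (modularFunctionFieldFull N) :=
    Fermat.Agent.S29.H882.qexpFun_mem_FC hG
  have hGF : (⟨qexpFun 1 G, hfs⟩ : FFK ℂ N) = ⟨f, hf⟩ * inclRNK ℂ N t ^ p := by
    apply Subtype.ext
    show qexpFun 1 G = ((⟨f, hf⟩ * inclRNK ℂ N t ^ p : FFK ℂ N) : LaurentSeries ℂ)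
    rw [hqG]
    simp
  have hG0 : G ≠ 0 := by
    intro h0
    have h1 : qexpFun 1 G = 0 := (qexpFun_eq_zero_iff hGq.isMerInf).mpr h0
    rw [hqG] at h1
    rcases mul_eq_zero.mp h1 with h | h
    · exact hf0 h
    · exact hts (pow_eq_zero_iff hp |>.mp h)
  -- divisibility of the orders of `f * t ^ p`
  have hdvd' : ∀ w : Place ℂ ↥(laurentBaseChange ℂ (modularFunctionFieldFull N)),
      (p : ℤ) ∣ w.ord ⟨qexpFun 1 G, hfs⟩ := by
    intro w
    rw [hGF, w.ord_mul hfF (pow_ne_zero p ht'), H117.ord_pow]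
    exact dvd_add (hdvd w) (dvd_mul_right _ _)
  -- the root
  obtain ⟨V, hVmd, hVp⟩ := exists_pow_eq_of_forall_dvd_ord hG hG0 hfs hp hdvd'
  have hVG : (fun τ => V τ ^ p) = G := funext hVp
  have hV0 : ∃ τ, V τ ≠ 0 := by
    by_contra hcon
    push Not at hcon
    apply hG0
    funext τ
    rw [← hVp τ, hcon τ, zero_pow hp]
    rfl
  have hVinv : ∀ γ ∈ Gamma0 N, ∀ τ : ℍ, V (γ • τ) ^ p = V τ ^ p := by
    intro γ hγ τ
    rw [hVp, hVp]
    exact hG.2.1 γ hγ τ
  obtain ⟨c, hcadd, hchar⟩ := exists_hasChar_of_pow_invariant hVmd hV0 hVinv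
  refine ⟨((t : RNK ℂ N) : LaurentSeries ℂ), (inclRNK ℂ N t).2, hts, V, hVmd, hV0,
    hVG ▸ hG, ?_, c, hcadd, ⟨hVmd, hV0, hchar, hVG ▸ hG⟩⟩
  rw [hVG, hqG]

end Fermat.Agent.S29.H282

end
end
-- ===== PACK-END S29/H282/DFrom.lean

-- ===== PACK-BEGIN S30/H810/Onto.lean
section
/-
S30 / piece FIN-ONTO (helper810), part 3: REVERSE KUMMER (ONTO, weak form).

Every `p`-torsion class `x ∈ J₀(N)(ℚ̄)` is the Kummer class (M4b `IsKum`) of some character
`c : Γ₀(N) → ℤ/p`:  `x = [D]`, `p D = div f`, `f t^p` is realised by a good function `G`, all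
analytic orders of `G` are divisible by `p` (reverse dictionary), so `G = U^p` with `U` holomorphic
on `ℍ` (ROOT, landed `H751`), and `U ∘ γ = ζ_p^{c(γ)} U` by the identity theorem.
-/




set_option autoImplicit false
set_option linter.unusedSectionVars false

noncomputable section

open ModularCurve AlgebraicCurve CongruenceSubgroup UpperHalfPlane HahnSeries
open scoped MatrixGroups Manifold

namespace Fermat.Agent.S30.H810

open Fermat.Agent.S24 Fermat.Agent.S24.H648 Fermat.Agent.S24.H708 Fermat.Agent.S24.Deg457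
open Fermat.Agent.S24.H624 Fermat.Agent.S24.H997 Fermat.Agent.S29 Fermat.Agent.S29.M4b
open Fermat.Agent.S29.H882

theorem isPrimitiveRoot_zetaP (p : ℕ) (hp : p ≠ 0) : IsPrimitiveRoot (zetaP p) p :=
  Complex.isPrimitiveRoot_exp p hp

theorem mdiff_comp_smul {U : ℍ → ℂ} (hU : MDiff U) (γ : SL(2, ℤ)) :
    MDiff (fun τ => U (γ • τ)) := by
  have h := (γ⁻¹ • (⟨U, hU⟩ : holoRing)).2
  have h2 : ((γ⁻¹ • (⟨U, hU⟩ : holoRing) : holoRing) : ℍ → ℂ) = fun τ => U (γ • τ) := by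
    funext τ
    rw [smul_holoRing_apply, inv_inv]
  rw [← h2]
  exact h

/-- Two holomorphic functions on `ℍ` with the same `p`-th power differ by a power of `ζ_p`. -/
theorem exists_zetaP_pow_of_pow_eq {A B : ℍ → ℂ} (hA : MDiff A) (hB : MDiff B) (p : ℕ)
    (hp : p ≠ 0) (hB0 : ∃ τ, B τ ≠ 0) (h : ∀ τ, A τ ^ p = B τ ^ p) :
    ∃ k : ZMod p, ∀ τ, A τ = zetaP p ^ k.val * B τ := by
  obtain ⟨τ₀, hτ₀⟩ := hB0
  have hA0 : A τ₀ ≠ 0 := by
    intro h0
    have := h τ₀
    rw [h0, zero_pow hp] at this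
    exact hτ₀ (pow_eq_zero_iff hp |>.mp this.symm)
  have hζ : (A τ₀ / B τ₀) ^ p = 1 := by
    rw [div_pow, h τ₀, div_self (pow_ne_zero _ hτ₀)]
  have : NeZero p := ⟨hp⟩
  obtain ⟨i, hi, hiζ⟩ := (isPrimitiveRoot_zetaP p hp).eq_pow_of_pow_eq_one hζ
  refine ⟨(i : ZMod p), ?_⟩
  rw [ZMod.val_natCast_of_lt hi, hiζ]
  have hB' : MDiff (fun τ => A τ₀ / B τ₀ * B τ) := by
    have : (fun τ => A τ₀ / B τ₀ * B τ) = (fun _ : ℍ => A τ₀ / B τ₀) * B := rfl
    rw [this]
    exact mdifferentiable_const.mul hB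
  have key := H751.eq_of_pow_eq_UHP hA hB' hp (fun τ => by rw [mul_pow, hζ, one_mul, h τ])
    (τ₀ := τ₀) (by rw [div_mul_cancel₀ _ hτ₀]) hA0
  intro τ
  exact congrFun key τ

variable (N : ℕ) [NeZero N]

/-- **REVERSE KUMMER (ONTO)**, weak form: every `p`-torsion class is the Kummer class of a
character. -/
theorem exists_isKum_of_torsion (p : ℕ) [NeZero p] {x : JZero N} (hx : (p : ℤ) • x = 0) :
    ∃ c : G0 N → ZMod p, IsKum N p c x := by
  classical
  have hp : p ≠ 0 := NeZero.ne p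
  obtain ⟨f, hf⟩ := H455.exists_isKummerClass_of_zsmul_eq_zero hx
  have hf0 : f ≠ 0 := hf.ne_zero
  obtain ⟨r, t, ht, hft⟩ := exists_div_inclRN N f
  have ht' : inclRN N t ≠ 0 := fun h => ht (inclRN_injective N (by rw [h, map_zero]))
  -- the pole-free representative
  obtain ⟨q, hq⟩ : ∃ q : ℕ, p = q + 1 := ⟨p - 1, by have := Nat.pos_of_ne_zero hp; omega⟩
  set u : FF N := f * inclRN N t ^ p with hu
  have hu0 : u ≠ 0 := mul_ne_zero hf0 (pow_ne_zero _ ht')
  have hur : u = inclRN N (r * t ^ q) := by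
    rw [hu, hft, hq, map_mul, map_pow, pow_succ]
    field_simp
  set G : ℍ → ℂ := realFun N (r * t ^ q) with hG
  have hGr : Realises N u G := by
    refine ⟨realFun_mem N _, ?_⟩
    rw [(realFun_hasQExp N (r * t ^ q)).qexpFun_eq, hur]
    rfl
  have hmd : MDiff G := hGr.1.1
  -- divisibility of the algebraic orders
  have hdiv : ∀ v : Place Kbar (FF N), (p : ℤ) ∣ v.ord u := by
    intro v
    obtain ⟨-, D, -, hD⟩ := hf
    rw [hu, Place.ord_mul v hf0 (pow_ne_zero _ ht'), H117.ord_pow, ← hD v]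
    exact dvd_add (dvd_mul_right _ _) (dvd_mul_right _ _)
  -- the p-th root
  obtain ⟨U, hU, hUp⟩ := H751.exists_pow_eq_UHP hmd p hp
    (fun τ => exists_analyticOrderAt_eq_mul hGr hu0 p hp hdiv τ)
  have hG0 : G ≠ 0 := realises_ne_zero hGr hu0
  have hU0 : ∃ τ, U τ ≠ 0 := by
    by_contra hcon
    push Not at hcon
    apply hG0
    funext τ
    rw [← hUp τ, hcon τ, zero_pow hp]
    rfl
  -- the character
  have hchar : ∀ γ : G0 N, ∃ k : ZMod p, ∀ τ : ℍ,
      U ((γ : SL(2, ℤ)) • τ) = zetaP p ^ k.val * U τ := by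
    intro γ
    refine exists_zetaP_pow_of_pow_eq (_root_.Fermat.Agent.S30.H810.mdiff_comp_smul hU (γ : SL(2, ℤ))) hU p hp hU0 ?_
    intro τ
    rw [hUp, hUp]
    exact hGr.1.2.1 _ γ.2 τ
  choose c hc using hchar
  refine ⟨c, f, inclRN N t, U, ht', hf, ⟨hU, hU0, hc, ?_⟩, ?_⟩
  · have : (fun τ => U τ ^ p) = G := funext hUp
    rw [this]
    exact hGr.1
  · have : (fun τ => U τ ^ p) = G := funext hUp
    rw [this]
    exact hGr

end Fermat.Agent.S30.H810

end
end
-- ===== PACK-END S30/H810/Onto.lean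

-- ===== PACK-BEGIN S36/Alg3/Skel.lean
section




/-!
# S36 / ALG3 — skeleton (sub-architect helper586)

    alg3_of_leaves : LeafStepA → LeafSheets → LeafPure → Eng.Alg3Statement

with `C = (q² - 1) * ((q - 1) * (q + 1))`.  Sorry-free; the wall is
`H193.exists_pow_eq_of_three`.
-/

set_option autoImplicit false
set_option linter.style.haveILetI false
set_option linter.unusedSectionVars false
set_option linter.unusedVariables false
set_option synthInstance.maxHeartbeats 400000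
set_option maxHeartbeats 1600000

noncomputable section

namespace Fermat.Agent.S36.Alg3

open Fermat.Agent.S18.H138 (chart)
open Fermat.Agent.S36.Eng
open Fermat.Agent.S36.H586

section Aux

variable {F : Type*} [Field F]

theorem sub_one_mem_nonunits_pow {V : ValuationSubring F} {u : F} (hu : u - 1 ∈ V.nonunits)
    (n : ℕ) : u ^ n - 1 ∈ V.nonunits := by
  have h1 : PU V u := (ValuationSubring.mem_nonunits_iff V).1 hu
  exact (ValuationSubring.mem_nonunits_iff V).2 (h1.pow n)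

theorem ne_zero_of_sub_one_mem_nonunits {V : ValuationSubring F} {u : F}
    (hu : u - 1 ∈ V.nonunits) : u ≠ 0 :=
  PU.ne_zero ((ValuationSubring.mem_nonunits_iff V).1 hu)

/-- A discrete valuation subring with uniformiser `t` is `t`-adically discrete. -/
theorem exists_mul_pow_mem_of_unif (V : ValuationSubring F) [IsDiscreteValuationRing V] {t : F}
    (ht0 : t ≠ 0) (ht : t ∈ V.nonunits) (hgen : ∀ f ∈ V.nonunits, f * t⁻¹ ∈ V) (g : F) :
    ∃ k : ℕ, g * t ^ k ∈ V := by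
  by_cases hg : g = 0
  · exact ⟨0, by rw [hg, zero_mul]; exact V.zero_mem⟩
  obtain ⟨a, ha⟩ := exists_isOrd_of_dvr V ht0 ht hgen g hg
  refine ⟨(-a).toNat, ?_⟩
  have hvt : V.valuation t < 1 := val_lt_one_of_mem_nonunits ht
  have hvt0 : 0 < V.valuation t := zero_lt_iff.2 ((Valuation.ne_zero_iff _).2 ht0)
  rw [← ValuationSubring.valuation_le_one_iff, map_mul, map_pow]
  unfold IsOrd at ha
  rw [ha, ← zpow_natCast, ← zpow_add₀ hvt0.ne']
  have hnn : 0 ≤ a + ((-a).toNat : ℤ) := by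
    have := Int.self_le_toNat (-a)
    omega
  have h1 : V.valuation t ^ (a + ((-a).toNat : ℤ)) ≤ V.valuation t ^ (0 : ℤ) :=
    (zpow_le_zpow_iff_right_of_lt_one₀ hvt0 hvt).2 hnn
  simpa using h1

end Aux

/-- `m ∣ div` is stable under the operations of step (a). -/
theorem divisibleDiv_of_eq {E F : Type*} [Field E] [Field F] [Algebra E F] {m : ℕ} {n : ℕ}
    {f G u : F} {c : E} (hc : c ≠ 0) (hG : G ≠ 0) (hdiv : A2.DivisibleDiv E m f)
    (h : f ^ n = algebraMap E F c * G ^ m * u) : A2.DivisibleDiv E m u := by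
  intro V hV hEV
  obtain ⟨h₀, u₀, hh₀, hu₀, hu₀', hfu⟩ := hdiv V hV hEV
  have hcF : algebraMap E F c ≠ 0 := (map_ne_zero (algebraMap E F)).2 hc
  refine ⟨h₀ ^ n * G⁻¹, u₀ ^ n * (algebraMap E F c)⁻¹, mul_ne_zero (pow_ne_zero _ hh₀)
    (inv_ne_zero hG), ?_, ?_, ?_⟩
  · refine V.mul_mem _ _ (pow_mem hu₀ n) ?_
    rw [← map_inv₀]
    exact hEV _
  · rw [mul_inv, inv_inv, ← inv_pow]
    exact V.mul_mem _ _ (pow_mem hu₀' n) (hEV c)
  · have hGm : G ^ m ≠ 0 := pow_ne_zero _ hG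
    have h1 : u = f ^ n * (algebraMap E F c)⁻¹ * (G ^ m)⁻¹ := by
      rw [h]
      field_simp
    rw [h1, hfu, mul_pow, mul_pow, ← pow_mul, ← pow_mul, mul_comm m n, inv_pow]
    ring

/-- **ALG3 from its three leaves.** -/
theorem alg3_of_leaves (hA : LeafStepA) (hS : LeafSheets) (hP : LeafPure) : Alg3Statement := by
  intro R E F F' _ _ _ _ _ _ _ _ _ _ _ _ _ _ _ _ _ w hw q hq hqR α β x x' V₁ V₂ V₃ V₁' V₂' T
  have hq2 : 2 ≤ q := hq.two_le
  have hc0 : 0 < (q - 1) * (q + 1) := Nat.mul_pos (by omega) (by omega)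
  have hq21 : 0 < q ^ 2 - 1 := by
    have : 4 ≤ q ^ 2 := by nlinarith
    omega
  refine ⟨(q ^ 2 - 1) * ((q - 1) * (q + 1)), Nat.mul_pos hq21 hc0, ?_⟩
  intro m hm hqm f hf hdiv hNα hNβ
  obtain ⟨s, G, u, k₁, k₂, hG, hfu, hu₁, hu₂, hu₃, hk₁, hk₂⟩ :=
    hA w hw q hq hqR α β x x' V₁ V₂ V₃ V₁' V₂' T m hm hqm f hf hNα hNβ
  have hu0 : u ≠ 0 := ne_zero_of_sub_one_mem_nonunits hu₁
  -- the uniformiser in `E` and `F`
  have hinjRE : Function.Injective (algebraMap R E) := IsFractionRing.injective R E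
  have hwE : algebraMap R E w ≠ 0 := fun h => hw.ne_zero (hinjRE (by rw [h, map_zero]))
  have hwF : algebraMap R F w = algebraMap E F (algebraMap R E w) :=
    IsScalarTower.algebraMap_apply R E F w
  have hfu' : f ^ (q ^ 2 - 1) = algebraMap E F (algebraMap R E w ^ s) * G ^ m * u := by
    rw [hfu, hwF, map_zpow₀]
  have hdivu : A2.DivisibleDiv E m u :=
    divisibleDiv_of_eq (zpow_ne_zero _ hwE) hG hdiv hfu'
  -- roots of unity and the purity data
  obtain ⟨ζ, hζ⟩ := Fermat.Agent.A2.Alg.H348.exists_primitiveRoot (R := R) q m hq hqR hm hqm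
  obtain ⟨κ, hfin, hinf⟩ := hP w hw q hq hqR α β x x' V₁ V₂ V₃ V₁' V₂' T m hm hqm ζ hζ u hu0
    hdivu hu₁ hu₂ hu₃ k₁ k₂ hk₁ hk₂
  -- the wall
  haveI := T.dvr₁
  have hdisc : ∀ g : F, ∃ k : ℕ, g * algebraMap R F w ^ k ∈ V₁ :=
    exists_mul_pow_mem_of_unif V₁ T.unif₁.1 T.unif₁.2.1 T.unif₁.2.2
  obtain ⟨g, hg⟩ := H193.exists_pow_eq_of_three E w hw q hq hqR T.hx T.hfin hm hqm hζ
    (f := u ^ ((q - 1) * (q + 1))) (pow_ne_zero _ hu0) V₁ V₂ V₃
    (hS w hw q hq hqR α β x x' V₁ V₂ V₃ V₁' V₂' T)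
    (sub_one_mem_nonunits_pow hu₁ _) (sub_one_mem_nonunits_pow hu₂ _)
    (sub_one_mem_nonunits_pow hu₃ _) T.base₁ T.unif₁.2.1 T.unif₁.2.2 hdisc κ hfin hinf
  have hg0 : g ≠ 0 := by
    rintro rfl
    rw [zero_pow hm.ne'] at hg
    exact pow_ne_zero _ hu0 hg.symm
  refine ⟨(algebraMap R E w ^ s) ^ ((q - 1) * (q + 1)), G ^ ((q - 1) * (q + 1)) * g,
    mul_ne_zero (pow_ne_zero _ hG) hg0, ?_⟩
  rw [pow_mul, hfu', mul_pow, mul_pow, ← hg, map_pow, mul_pow, ← pow_mul, ← pow_mul,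
    mul_comm m ((q - 1) * (q + 1))]
  ring

end Fermat.Agent.S36.Alg3

end

end
-- ===== PACK-END S36/Alg3/Skel.lean

-- ===== PACK-BEGIN S36/H919/SheetsCtx.lean
section



/-!
# S36 engine, ALG3 gap lemma G2 = SHEETS for `Eng.TripleCtx` (helper919)

Adapters from the frozen `Eng.TripleCtx` (Spec v1.3, on main) to the hypotheses of
`S36.H193.exists_pow_eq_of_three` / `exists_pow_eq_of_base`:

* `h919_isSheet_of_ctx` : `V₁`, `V₂`, `V₃` are sheets (`A2.H12.IsSheet w x`);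
* **`h919_hsheets_of_ctx`** : every sheet is one of `V₁`, `V₂`, `V₃` (from `qep_f`);
* `h919_hunif_of_ctx`, `h919_hdisc_of_ctx` : `hunif`, `hdisc` for `V₀ = V₁`;
* `h919_mem_nonunits₂_of_ctx` : `w ∈ 𝔪_{V₂}` (from `ram₂`, `q ≥ 2`).

For MOD3 (`Model3Statement`): the fields `base_i` follow from `dvr_i` and `w ∈ V_i`
(`h919_algebraMap_mem_of_dvr`, `SheetsBase.lean`), and `gauss₂`, `gauss₃` follow from `gauss₁`, the
`comap` table and `chart_*`, `int_*` (`h919_isSheet_transfer`, `SheetsProp.lean`;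
`h919_sheets`, `SheetsTop.lean`).
-/

set_option autoImplicit false
set_option linter.style.haveILetI false
set_option linter.unusedSectionVars false

namespace Fermat.Agent.S36.H919

open Polynomial
open Fermat.Agent.A2.H12 (IsSheet)
open Fermat.Agent.S18.H138
open Fermat.Agent.S36.H193

universe u

section Ctx

variable {R : Type u} [CommRing R] [IsDomain R] [IsDiscreteValuationRing R]
  [HenselianLocalRing R] [IsAlgClosed (IsLocalRing.ResidueField R)]
variable {E : Type u} [Field E] [CharZero E] [Algebra R E] [IsFractionRing R E]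
variable {F : Type u} [Field F] [Algebra E F] [Algebra R F] [IsScalarTower R E F]
variable {F' : Type u} [Field F'] [Algebra E F'] [Algebra R F'] [IsScalarTower R E F']
variable {w : R} {q : ℕ} {α β : F' →ₐ[E] F} {x : F} {x' : F'}
  {V₁ V₂ V₃ : ValuationSubring F} {V₁' V₂' : ValuationSubring F'}

/-- `w ∈ 𝔪_{V₂}`. -/
theorem h919_mem_nonunits₂_of_ctx (hq : 2 ≤ q)
    (h : Eng.TripleCtx w q α β x x' V₁ V₂ V₃ V₁' V₂') : algebraMap R F w ∈ V₂.nonunits := by
  obtain ⟨t, ⟨ht0, htn, -⟩, ⟨-, hu, -⟩⟩ := h.ram₂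
  have h1 : algebraMap R F w = t ^ (q - 1) * (algebraMap R F w * (t ^ (q - 1))⁻¹) := by
    rw [mul_comm (algebraMap R F w), ← mul_assoc, mul_inv_cancel₀ (pow_ne_zero _ ht0), one_mul]
  rw [h1]
  refine h919_mem_nonunits_mul V₂ ?_ hu
  obtain ⟨k, hk⟩ : ∃ k, q - 1 = k + 1 := ⟨q - 2, by omega⟩
  rw [hk, pow_succ, mul_comm]
  exact h919_mem_nonunits_mul V₂ htn (V₂.pow_mem (V₂.nonunits_subset htn) k)

/-- The three valuation subrings of a three-component context are sheets. -/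
theorem h919_isSheet_of_ctx (hq : 2 ≤ q)
    (h : Eng.TripleCtx w q α β x x' V₁ V₂ V₃ V₁' V₂') :
    IsSheet w x V₁ ∧ IsSheet w x V₂ ∧ IsSheet w x V₃ :=
  ⟨⟨h.base₁, h.x_unit₁.2.1, h.unif₁.2.1, h.gauss₁⟩,
    ⟨h.base₂, h.x_unit₂.2.1, h919_mem_nonunits₂_of_ctx hq h, h.gauss₂⟩,
    ⟨h.base₃, h.x_unit₃.2.1, h.unif₃.2.1, h.gauss₃⟩⟩

/-- **Every sheet of a three-component context is one of `V₁`, `V₂`, `V₃`.** -/
theorem h919_hsheets_of_ctx (hw : Irreducible w) (hq : 2 ≤ q)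
    (h : Eng.TripleCtx w q α β x x' V₁ V₂ V₃ V₁' V₂') :
    ∀ W : ValuationSubring F, IsSheet w x W → W = V₁ ∨ W = V₂ ∨ W = V₃ := by
  intro W hW
  haveI := h.dvr₁
  haveI := h.dvr₂
  haveI := h.dvr₃
  haveI : CharZero F := charZero_of_injective_algebraMap (algebraMap E F).injective
  haveI : FiniteDimensional (baseField R x) F := h919_finiteDimensional E h.hfin
  obtain ⟨s₁, s₂, s₃⟩ := h919_isSheet_of_ctx hq h
  exact h919_sheet_cases (h919_injective E) hw.prime (h919_transcendental E h.hx) V₁ V₂ V₃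
    (sheet_chart_le s₁) (sheet_chart_le s₂) (sheet_chart_le s₃)
    s₁.2.2.1 s₂.2.2.1 s₃.2.2.1 h.qep_f hW

/-- `hunif` of `H193.exists_pow_eq_of_base` for `V₀ = V₁`. -/
theorem h919_hunif_of_ctx (h : Eng.TripleCtx w q α β x x' V₁ V₂ V₃ V₁' V₂') :
    ∀ a ∈ V₁.nonunits, ∃ b ∈ V₁, a = algebraMap R F w * b :=
  h919_unif_of_unifAt V₁ h.unif₁.1 h.unif₁.2.2

/-- `hdisc` of `H193.exists_pow_eq_of_base` for `V₀ = V₁`. -/
theorem h919_hdisc_of_ctx (h : Eng.TripleCtx w q α β x x' V₁ V₂ V₃ V₁' V₂') :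
    ∀ g : F, ∃ k : ℕ, g * algebraMap R F w ^ k ∈ V₁ :=
  haveI := h.dvr₁
  h919_disc_of_dvr V₁ h.unif₁.2.1

end Ctx

end Fermat.Agent.S36.H919

end
-- ===== PACK-END S36/H919/SheetsCtx.lean

-- ===== PACK-BEGIN S36/H586/LeafStepA.lean
section





/-!
# S36 / ALG3 — leaf STEP-A (helper586)

`leafStepA : Alg3.LeafStepA` — steps (a), (b) of ALG3: in a three-component context, if the norms
of `f` along `α` and `β` are constants times `m`-th powers (`q ∤ m`), then

    f ^ (q² - 1) = w ^ s * G ^ m * u,    u ≡ 1 on V₁, V₂, V₃,   N_α u, N_β u  m-th powers.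

Proof: `H586.stepAB` (the abstract norm calculus, `StepAB.lean`) applied to the norm tables of
`α` and `β` (`G1Table.lean`), with approximation at `V₁, V₂, V₃` (`G1Approx.lean`).
-/

set_option autoImplicit false
set_option linter.style.haveILetI false
set_option linter.unusedSectionVars false
set_option linter.unusedVariables false
set_option synthInstance.maxHeartbeats 400000
set_option maxHeartbeats 1600000

noncomputable section

namespace Fermat.Agent.S36.H586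

open Fermat.Agent.S36.Eng
open Fermat.Agent.S18.H138 (chart baseField)
open Fermat.Agent.A2.H12 (IsSheet)

section Const

variable {R E F' : Type*} [CommRing R] [IsDomain R] [IsDiscreteValuationRing R]
  [HenselianLocalRing R] [IsAlgClosed (IsLocalRing.ResidueField R)]
  [Field E] [Algebra R E] [IsFractionRing R E]
  [Field F'] [Algebra E F'] [Algebra R F'] [IsScalarTower R E F']

/-- A nonzero constant is a power of the uniformiser times an `m`-th power (`q ∤ m`). -/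
theorem const_eq_zpow_mul_pow (w : R) (hw : Irreducible w) (q m : ℕ) (hq : q.Prime)
    (hqR : (q : R) ∈ IsLocalRing.maximalIdeal R) (hqm : ¬ q ∣ m) (c : E) (hc : c ≠ 0) :
    ∃ (s : ℤ) (v : E), v ≠ 0 ∧ c = algebraMap R E w ^ s * v ^ m := by
  have hinj : Function.Injective (algebraMap R E) := IsFractionRing.injective R E
  obtain ⟨a, b, hb0, hab⟩ : ∃ a b : R, b ≠ 0 ∧ c = algebraMap R E a / algebraMap R E b := by
    obtain ⟨a, b, hb, h⟩ := IsFractionRing.div_surjective (A := R) c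
    exact ⟨a, b, nonZeroDivisors.ne_zero hb, h.symm⟩
  have ha0 : a ≠ 0 := by
    rintro rfl
    rw [map_zero, zero_div] at hab
    exact hc hab
  obtain ⟨na, ua, hua⟩ := IsDiscreteValuationRing.eq_unit_mul_pow_irreducible ha0 hw
  obtain ⟨nb, ub, hub⟩ := IsDiscreteValuationRing.eq_unit_mul_pow_irreducible hb0 hw
  obtain ⟨va, hva⟩ := Fermat.Agent.A2.H552.exists_pow_eq_of_isUnit_of_not_dvd q m hq hqR hqm
    (ua : R) ua.isUnit
  obtain ⟨vb, hvb⟩ := Fermat.Agent.A2.H552.exists_pow_eq_of_isUnit_of_not_dvd q m hq hqR hqm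
    (ub : R) ub.isUnit
  have hwE : algebraMap R E w ≠ 0 := fun h => hw.ne_zero (hinj (by rw [h, map_zero]))
  have hva0 : algebraMap R E va ≠ 0 := by
    intro h
    have : va = 0 := hinj (by rw [h, map_zero])
    rw [this] at hva
    by_cases hm0 : m = 0
    · subst hm0
      exact absurd (dvd_zero q) hqm
    · rw [zero_pow hm0] at hva
      exact ua.ne_zero hva.symm
  have hvb0 : algebraMap R E vb ≠ 0 := by
    intro h
    have : vb = 0 := hinj (by rw [h, map_zero])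
    rw [this] at hvb
    by_cases hm0 : m = 0
    · subst hm0
      exact absurd (dvd_zero q) hqm
    · rw [zero_pow hm0] at hvb
      exact ub.ne_zero hvb.symm
  refine ⟨(na : ℤ) - nb, algebraMap R E va / algebraMap R E vb, div_ne_zero hva0 hvb0, ?_⟩
  rw [hab, hua, hub, ← hva, ← hvb, map_mul, map_mul, map_pow, map_pow, map_pow, map_pow,
    zpow_sub₀ hwE, zpow_natCast, zpow_natCast, div_pow]
  field_simp

/-- `NormPow` in the shape consumed by `stepAB`. -/
theorem exists_zpow_of_normPow (w : R) (hw : Irreducible w) (q m : ℕ) (hq : q.Prime)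
    (hqR : (q : R) ∈ IsLocalRing.maximalIdeal R) (hm : 0 < m) (hqm : ¬ q ∣ m) {N : F'}
    (hN0 : N ≠ 0) (h : ∃ (c : E) (g : F'), N = algebraMap E F' c * g ^ m) :
    ∃ (s : ℤ) (g : F'), g ≠ 0 ∧ N = algebraMap R F' w ^ s * g ^ m := by
  obtain ⟨c, g, hN⟩ := h
  have hc0 : c ≠ 0 := by
    rintro rfl
    rw [map_zero, zero_mul] at hN
    exact hN0 hN
  have hg0 : g ≠ 0 := by
    rintro rfl
    rw [zero_pow hm.ne', mul_zero] at hN
    exact hN0 hN
  obtain ⟨s, v, hv0, hcv⟩ := const_eq_zpow_mul_pow w hw q m hq hqR hqm c hc0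
  refine ⟨s, algebraMap E F' v * g, mul_ne_zero ((map_ne_zero _).2 hv0) hg0, ?_⟩
  rw [hN, hcv, map_mul, map_zpow₀, map_pow, ← IsScalarTower.algebraMap_apply R E F', mul_pow]
  ring

end Const

/-- **Leaf STEP-A** of ALG3, verbatim. -/
theorem leafStepA : Fermat.Agent.S36.Alg3.LeafStepA := by
  intro R E F F' _ _ _ _ _ _ _ _ _ _ _ _ _ _ _ _ _ w hw q hq hqR α β x x' V₁ V₂ V₃ V₁' V₂' T
    m hm hqm f hf hNα hNβ
  haveI := T.dvr₁
  haveI := T.dvr₂
  haveI := T.dvr₃
  have hq2 : 2 ≤ q := hq.two_le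
  obtain ⟨π, hπ, hram⟩ := T.ram₂
  -- the uniformiser
  have hαw : α (algebraMap R F' w) = algebraMap R F w := by
    rw [IsScalarTower.algebraMap_apply R E F', α.commutes,
      ← IsScalarTower.algebraMap_apply R E F]
  have hβw : β (algebraMap R F' w) = algebraMap R F w := by
    rw [IsScalarTower.algebraMap_apply R E F', β.commutes,
      ← IsScalarTower.algebraMap_apply R E F]
  have hαw' : (α : F' →+* F) (algebraMap R F' w) = algebraMap R F w := hαw
  have hβw' : (β : F' →+* F) (algebraMap R F' w) = algebraMap R F w := hβw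
  have hwF0 : algebraMap R F w ≠ 0 := T.unif₁.1
  have hw'0 : algebraMap R F' w ≠ 0 := by
    intro h
    rw [h, map_zero] at hαw
    exact hwF0 hαw.symm
  -- sheets
  obtain ⟨s₁, s₂, s₃⟩ := Fermat.Agent.S36.H919.h919_isSheet_of_ctx hq2 T
  haveI : CharZero F := charZero_of_injective_algebraMap (algebraMap E F).injective
  haveI : FiniteDimensional (baseField R x) F :=
    Fermat.Agent.S36.H919.h919_finiteDimensional E T.hfin
  have hinj : Function.Injective (algebraMap R F) := Fermat.Agent.S36.H919.h919_injective E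
  have hxR : Transcendental R x := Fermat.Agent.S36.H919.h919_transcendental E T.hx
  -- residue lifts
  have resα₁ : ∀ y : F, V₁.valuation y = 1 → ∃ a : F', V₁.valuation (y - α a) < 1 :=
    res_lift_of_chart hinj hw.prime hxR s₁ (α : F' →+* F)
      (fun b hb => let ⟨b', _, h⟩ := T.res_α₁ b hb; ⟨b', h⟩)
  have resα₂ : ∀ y : F, V₂.valuation y = 1 → ∃ a : F', V₂.valuation (y - α a) < 1 :=
    res_lift_of_chart hinj hw.prime hxR s₂ (α : F' →+* F)
      (fun b hb => let ⟨b', _, h⟩ := T.res_α₂ b hb; ⟨b', h⟩)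
  have resβ₃ : ∀ y : F, V₃.valuation y = 1 → ∃ a : F', V₃.valuation (y - β a) < 1 :=
    res_lift_of_chart hinj hw.prime hxR s₃ (β : F' →+* F)
      (fun b hb => let ⟨b', _, h⟩ := T.res_β₃ b hb; ⟨b', h⟩)
  have resβ₂ : ∀ y : F, V₂.valuation y = 1 → ∃ a : F', V₂.valuation (y - β a) < 1 :=
    res_lift_of_chart hinj hw.prime hxR s₂ (β : F' →+* F)
      (fun b hb => let ⟨b', _, h⟩ := T.res_β₂ b hb; ⟨b', h⟩)
  -- the two norm tables
  have Tα : NormTable (α : F' →+* F) (S29.H395.normAlong α) q (algebraMap R F' w) π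
      V₁' V₂' V₁ V₂ V₃ :=
    normTable_of_fields α q hq.pos (algebraMap R F' w) (algebraMap R F w) π hαw V₁' V₂' V₁ V₂ V₃
      T.unif₁ T.unif₃ hπ hram T.comap_α₁ T.comap_α₂ T.comap_α₃ resα₁ resα₂ (T.nv_α π hπ)
      T.nr_α₁ T.nr_α₂
  have Tβ : NormTable (β : F' →+* F) (S29.H395.normAlong β) q (algebraMap R F' w) π
      V₂' V₁' V₃ V₂ V₁ :=
    normTable_of_fields β q hq.pos (algebraMap R F' w) (algebraMap R F w) π hβw V₂' V₁' V₃ V₂ V₁
      T.unif₃ T.unif₁ hπ hram T.comap_β₃ T.comap_β₂ T.comap_β₁ resβ₃ resβ₂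
      (fun y au ar ai hy hu hr hi => T.nv_β π hπ y ai ar au hy hi hr hu) T.nr_β₁ T.nr_β₂
  -- orders
  have hordFF : ∀ y : F, y ≠ 0 → ∃ a : ℤ, IsOrd V₁ (algebraMap R F w) y a :=
    exists_isOrd_of_unifAt V₁ T.unif₁
  have hordmid : ∀ y : F, y ≠ 0 → ∃ a : ℤ, IsOrd V₂ π y a := exists_isOrd_of_unifAt V₂ hπ
  have hordVV : ∀ y : F, y ≠ 0 → ∃ a : ℤ, IsOrd V₃ (algebraMap R F w) y a :=
    exists_isOrd_of_unifAt V₃ T.unif₃
  have hord1 : ∀ y : F', y ≠ 0 → ∃ a : ℤ, IsOrd V₁' (algebraMap R F' w) y a := by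
    intro y hy
    obtain ⟨a, ha⟩ := hordFF (α y) ((map_ne_zero α).2 hy)
    refine ⟨a, over_isOrd_down (φ := (α : F' →+* F)) Tα.over_u hw'0 y a ?_⟩
    rw [hαw']
    exact ha
  have hord2 : ∀ y : F', y ≠ 0 → ∃ a : ℤ, IsOrd V₂' (algebraMap R F' w) y a := by
    intro y hy
    obtain ⟨a, ha⟩ := hordVV (α y) ((map_ne_zero α).2 hy)
    refine ⟨a, over_isOrd_down (φ := (α : F' →+* F)) Tα.over_i hw'0 y a ?_⟩
    rw [hαw']
    exact ha
  have hw1 : V₁'.valuation (algebraMap R F' w) < 1 := by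
    rw [← over_val_lt_one Tα.over_u, hαw']
    exact UnifAt.val_lt_one T.unif₁
  have hw2 : V₂'.valuation (algebraMap R F' w) < 1 := by
    rw [← over_val_lt_one Tα.over_i, hαw']
    exact UnifAt.val_lt_one T.unif₃
  have hramO : IsOrd V₂ π (algebraMap R F w) ((q : ℤ) - 1) := by
    have h1 : IsOrd V₂ π (algebraMap R F w) ((q - 1 : ℕ) : ℤ) := by
      rw [isOrd_iff_unitAt hπ.1, zpow_natCast]
      exact hram
    have h4 : ((q - 1 : ℕ) : ℤ) = (q : ℤ) - 1 := by
      rw [Nat.cast_sub hq.pos]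
      simp
    rwa [h4] at h1
  -- approximation
  have hap_ord : ∀ a b c : ℤ, ∃ g : F, IsOrd V₁ (algebraMap R F w) g a ∧ IsOrd V₂ π g b ∧
      IsOrd V₃ (algebraMap R F w) g c :=
    exists_approx_ord3 V₁ V₂ V₃ T.ne₁₂ T.ne₁₃ T.ne₂₃ T.unif₁.1 T.unif₁.2.1 T.unif₁.2.2
      hπ.1 hπ.2.1 hπ.2.2 T.unif₃.1 T.unif₃.2.1 T.unif₃.2.2
  have hap_res : ∀ g₁ g₂ g₃ : F, V₁.valuation g₁ = 1 → V₂.valuation g₂ = 1 →
      V₃.valuation g₃ = 1 → ∃ g : F, PU V₁ (g / g₁) ∧ PU V₂ (g / g₂) ∧ PU V₃ (g / g₃) :=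
    exists_approx_res3 V₁ V₂ V₃ T.ne₁₂ T.ne₁₃ T.ne₂₃
  -- the norms
  have hNα' := exists_zpow_of_normPow (E := E) w hw q m hq hqR hm hqm
    (S29.H395.normAlong_ne_zero α T.fin_α hf) hNα
  have hNβ' := exists_zpow_of_normPow (E := E) w hw q m hq hqR hm hqm
    (S29.H395.normAlong_ne_zero β T.fin_β hf) hNβ
  obtain ⟨s, G, u, hG, hfu, hu₁, hu₂, hu₃, ⟨k₁, hk₁⟩, ⟨k₂, hk₂⟩⟩ :=
    stepAB (α : F' →+* F) (β : F' →+* F) (S29.H395.normAlong α) (S29.H395.normAlong β) q m
      hq.pos hm ((Nat.Prime.coprime_iff_not_dvd hq).2 hqm) (algebraMap R F' w)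
      (algebraMap R F w) π hαw' hβw' V₁' V₂' V₁ V₂ V₃ Tα Tβ hw'0 hw1 hw2 hπ.1 hramO
      hordFF hordmid hordVV hord1 hord2 hap_ord hap_res f hf hNα' hNβ'
  exact ⟨s, G, u, k₁, k₂, hG, hfu, pu_iff.1 hu₁, pu_iff.1 hu₂, pu_iff.1 hu₃, hk₁, hk₂⟩

end Fermat.Agent.S36.H586

end

end
-- ===== PACK-END S36/H586/LeafStepA.lean

-- ===== PACK-BEGIN S36/H79/LeafSheets.lean
section



/-!
# S36 / ALG3 — leaf SHEETS (helper79)

`leafSheets : Alg3.LeafSheets` — every sheet of `x` in a three-component context is one of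
`V₁`, `V₂`, `V₃`.  Direct from `H919.h919_hsheets_of_ctx` (helper919, on main).
-/

set_option autoImplicit false
set_option linter.unusedSectionVars false
set_option synthInstance.maxHeartbeats 400000
set_option maxHeartbeats 1600000

namespace Fermat.Agent.S36.H79

/-- **Leaf SHEETS** of ALG3, verbatim. -/
theorem leafSheets : Fermat.Agent.S36.Alg3.LeafSheets := by
  intro R E F F' _ _ _ _ _ _ _ _ _ _ _ _ _ _ _ _ _ w hw q hq _ α β x x' V₁ V₂ V₃ V₁' V₂' h
  exact Fermat.Agent.S36.H919.h919_hsheets_of_ctx hw hq.two_le h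

end Fermat.Agent.S36.H79

end
-- ===== PACK-END S36/H79/LeafSheets.lean

-- ===== PACK-BEGIN S36/H630/LeafPure.lean
section




/-!
# S36 / ALG3 — leaf PURE closed (helper630)

`leafPure : Alg3.LeafPure` VERBATIM (`S36/Alg3/Spec.lean`, sub-architect helper586), from

* `H630.exists_kappa_basePure` (G4 + KAPPA + CHART-CHANGE: label data at every closed point of both
  charts from purity data), and
* `H987.ctx_pure_fin`, `H987.ctx_pure_cusp` (G3, helper987: purity data at every closed point of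
  the finite chart and at the cusps).

Off the cusps of the chart at infinity the purity datum is transported from the finite chart
(`pure_fwd`).
-/

set_option autoImplicit false
set_option linter.unusedSectionVars false
set_option linter.style.haveILetI false
set_option synthInstance.maxHeartbeats 400000
set_option maxHeartbeats 1600000

namespace Fermat.Agent.S36.H630

open Fermat.Agent.S18.H138 (chart mem_chart)
open Fermat.Agent.S36.H193 (BasePureValuesAt)
open Fermat.Agent.S36.Eng (TripleCtx)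
open AlgebraicCurve

section Fwd

variable {R : Type*} [CommRing R] {F : Type*} [Field F] [Algebra R F]
variable {B B' : Subalgebra R F} {n' : Ideal B'} {y : F}
variable (hy : y ∈ B') (hclear : ∀ b : B, ∃ k : ℕ, y ^ k * (b : F) ∈ B')

/-- **A purity datum at the point of `B` gives a purity datum at `n'`.** -/
theorem pure_fwd [hn' : n'.IsPrime] (hyn : (⟨y, hy⟩ : B') ∉ n') {m : ℕ} {u : F}
    (h : ∃ (d : F) (a₀ s₀ : B), a₀ ∉ backIdeal B n' y hy hclear ∧
      s₀ ∉ backIdeal B n' y hy hclear ∧ u * d ^ m * (s₀ : F) = a₀) :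
    ∃ (d : F) (a₀ s₀ : B'), a₀ ∉ n' ∧ s₀ ∉ n' ∧ u * d ^ m * (s₀ : F) = a₀ := by
  obtain ⟨d, a₀, s₀, ha₀, hs₀, hpure⟩ := h
  obtain ⟨k, hka, hks⟩ := exists_clear₂ hy hclear a₀ s₀
  refine ⟨d, ⟨_, hka⟩, ⟨_, hks⟩, ?_, ?_, ?_⟩
  · intro h1
    exact ha₀ ((mem_backIdeal_iff hy hclear hyn a₀ k hka).2 h1)
  · intro h1
    exact hs₀ ((mem_backIdeal_iff hy hclear hyn s₀ k hks).2 h1)
  · show u * d ^ m * (y ^ k * (s₀ : F)) = y ^ k * (a₀ : F)
    rw [← hpure]
    ring

end Fwd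

section Ctx

variable {R E F F' : Type*} [CommRing R] [IsDomain R] [IsDiscreteValuationRing R]
  [IsAlgClosed (IsLocalRing.ResidueField R)]
  [Field E] [Algebra R E] [Field F] [Algebra E F] [Algebra R F] [IsScalarTower R E F]
  [Field F'] [Algebra E F'] [Algebra R F'] [IsScalarTower R E F']
  {w : R} {q : ℕ} {α β : F' →ₐ[E] F} {x : F} {x' : F'}
  {V₁ V₂ V₃ : ValuationSubring F} {V₁' V₂' : ValuationSubring F'}

/-- **Label data at every closed point of both charts, from purity data on the finite chart and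
at the cusps.** -/
theorem exists_kappa_basePure_of_fin_cusp (ctx : TripleCtx w q α β x x' V₁ V₂ V₃ V₁' V₂')
    (hw : Irreducible w) (hq : 0 < q) (hinjE : Function.Injective (algebraMap R E))
    {m : ℕ} (hm : 0 < m) {ζ : R} (hζ : IsPrimitiveRoot ζ m)
    {u : F} (hu₁ : u - 1 ∈ V₁.nonunits) (hu₂ : u - 1 ∈ V₂.nonunits)
    (hu₃ : u - 1 ∈ V₃.nonunits)
    {k₁ k₂ : F'} (hk₁ : S29.H395.normAlong α u = k₁ ^ m)
    (hk₂ : S29.H395.normAlong β u = k₂ ^ m)
    (hpur_fin : ∀ n : Ideal (chart R ({x} : Set F)), n.IsMaximal →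
      algebraMap R (chart R ({x} : Set F)) w ∈ n →
      ∃ (d : F) (a₀ s₀ : chart R ({x} : Set F)), a₀ ∉ n ∧ s₀ ∉ n ∧ u * d ^ m * (s₀ : F) = a₀)
    (hpur_cusp : ∀ n : Ideal (chart R ({x⁻¹} : Set F)), n.IsMaximal →
      algebraMap R (chart R ({x⁻¹} : Set F)) w ∈ n →
      (⟨x⁻¹, Fermat.Agent.S18.H138.mem_chart_of_mem rfl⟩ : chart R ({x⁻¹} : Set F)) ∈ n →
      ∃ (d : F) (a₀ s₀ : chart R ({x⁻¹} : Set F)), a₀ ∉ n ∧ s₀ ∉ n ∧
        u * d ^ m * (s₀ : F) = a₀) :
    ∃ κ : ValuationSubring F → ℕ,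
      (∀ n : Ideal (chart R ({x} : Set F)), n.IsMaximal →
        algebraMap R (chart R ({x} : Set F)) w ∈ n →
        BasePureValuesAt {V | V = V₁ ∨ V = V₂ ∨ V = V₃} (chart R ({x} : Set F)) n m
          (u ^ ((q - 1) * (q + 1))) ζ κ) ∧
      (∀ n : Ideal (chart R ({x⁻¹} : Set F)), n.IsMaximal →
        algebraMap R (chart R ({x⁻¹} : Set F)) w ∈ n →
        BasePureValuesAt {V | V = V₁ ∨ V = V₂ ∨ V = V₃} (chart R ({x⁻¹} : Set F)) n m
          (u ^ ((q - 1) * (q + 1))) ζ κ) := by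
  obtain ⟨κ, hfin, hinf⟩ := exists_kappa_basePure ctx hw hq hinjE hm hζ hu₁ hu₂ hu₃ hk₁ hk₂
  refine ⟨κ, fun n hn hwn => hfin n hn hwn (hpur_fin n hn hwn), fun n' hn' hwn' => ?_⟩
  refine hinf n' hn' hwn' ?_
  haveI := hn'
  have hn'p : n'.IsPrime := hn'.isPrime
  have hyB' : x⁻¹ ∈ chart R ({x⁻¹} : Set F) := Fermat.Agent.S18.H138.mem_chart_of_mem rfl
  by_cases hy : (⟨x⁻¹, hyB'⟩ : chart R ({x⁻¹} : Set F)) ∈ n'
  · exact hpur_cusp n' hn' hwn' hy
  · have hx0 : x ≠ 0 := ctx.x_unit₁.1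
    have h𝔪n' := maximalIdeal_map_mem hw hwn'
    have hrat' := rat_chart x⁻¹ n' hn' h𝔪n'
    have hclear : ∀ b : chart R ({x} : Set F),
        ∃ k : ℕ, x⁻¹ ^ k * (b : F) ∈ chart R ({x⁻¹} : Set F) :=
      fun b => Fermat.Agent.S18.H138.exists_inv_pow_mul_mem_chart hx0 b.2
    have hnmax : (backIdeal (chart R ({x} : Set F)) n' x⁻¹ hyB' hclear).IsMaximal :=
      backIdeal_isMaximal hyB' hclear hy h𝔪n' hrat'
    have hwn : algebraMap R (chart R ({x} : Set F)) w
        ∈ backIdeal (chart R ({x} : Set F)) n' x⁻¹ hyB' hclear :=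
      (algebraMap_mem_backIdeal_iff hyB' hclear hy w).2 hwn'
    exact pure_fwd hyB' hclear hy (hpur_fin _ hnmax hwn)

end Ctx

/-- **Leaf PURE of ALG3** (`S36/Alg3/Spec.lean`), VERBATIM. -/
theorem leafPure : Fermat.Agent.S36.Alg3.LeafPure := by
  intro R E F F' _ _ _ _ _ _ _ _ _ _ _ _ _ _ _ _ _ w hw q hq hqR α β x x' V₁ V₂ V₃ V₁' V₂' T
    m hm hqm ζ hζ u hu0 hdiv hu₁ hu₂ hu₃ k₁ k₂ hk₁ hk₂
  have hU₁ : Fermat.Agent.S36.Eng.UnitAt V₁ u := unit_of_split hu₁
  have hU₂ : Fermat.Agent.S36.Eng.UnitAt V₂ u := unit_of_split hu₂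
  have hU₃ : Fermat.Agent.S36.Eng.UnitAt V₃ u := unit_of_split hu₃
  refine exists_kappa_basePure_of_fin_cusp T hw hq.pos (IsFractionRing.injective R E) hm hζ
    hu₁ hu₂ hu₃ hk₁ hk₂ ?_ ?_
  · intro n hn hwn
    obtain ⟨d, -, a₀, s₀, ha₀, hs₀, hpure⟩ :=
      Fermat.Agent.S36.H987.ctx_pure_fin hw hq T n hn hwn hm hdiv hU₁ hU₂ hU₃
    exact ⟨d, a₀, s₀, ha₀, hs₀, hpure⟩
  · intro n hn hwn hxn
    obtain ⟨d, -, a₀, s₀, ha₀, hs₀, hpure⟩ :=
      Fermat.Agent.S36.H987.ctx_pure_cusp hw hq T n hn hwn hxn hm hdiv hU₁ hU₂ hU₃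
    exact ⟨d, a₀, s₀, ha₀, hs₀, hpure⟩

end Fermat.Agent.S36.H630

end
-- ===== PACK-END S36/H630/LeafPure.lean

-- ===== PACK-BEGIN S36/Alg3/Final.lean
section





/-!
# S36 / ALG3 — CLOSED (sub-architect helper586)

    alg3 : Eng.Alg3Statement

from the three leaves on main:
* `H586.leafStepA`  (helper586; steps (a), (b): norm calculus + approximation),
* `H79.leafSheets`  (helper79, from helper919's `h919_hsheets_of_ctx`),
* `H630.leafPure`   (helper630 G4 + KAPPA + chart change, helper987 G3 purity),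
and the label wall `H193.exists_pow_eq_of_three` (helper193).
-/

set_option autoImplicit false

namespace Fermat.Agent.S36.Alg3

/-- **ALG3.**  `Eng.Alg3Statement`, unconditionally. -/
theorem alg3 : Fermat.Agent.S36.Eng.Alg3Statement :=
  alg3_of_leaves Fermat.Agent.S36.H586.leafStepA Fermat.Agent.S36.H79.leafSheets
    Fermat.Agent.S36.H630.leafPure

end Fermat.Agent.S36.Alg3

end
-- ===== PACK-END S36/Alg3/Final.lean

-- ===== PACK-BEGIN S36/Mod3/H860/Sheet.lean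
section










/-!
# S36 / MOD3 — leaf SHEET (helper860): `base_i` and `gauss_i` of `Eng.TripleCtx` (Spec v1.3)

For the concrete objects of `Mod3/Spec.lean` (`V₁ = V∞`, `V₃ = V₁.comap W`, `V₂` any valuation
ring of `F_E(M q²)` with `V₂.comap α = V₁'`), and the coordinate `x = j · j_q · j_{q²}`:

* `base_i`  : `R ⊆ V_i`;
* `gauss_i` : for `p ∈ R[X]` with a coefficient not divisible by `w`, `p(x)⁻¹ ∈ V_i`
  (the residue of `x` in the residue field of `V_i` is transcendental over `k = R / w`).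

Route.  `V₁`: `x` is polar of order `1 + q + q²` (L3, `H816.vinfGauss`).  `V₃`: `W x` is polar
of order `M q² + M q + M`.  `V₂`: Kronecker's congruence `Φ_q(X, Y) ≡ (X^q - Y)(X - Y^q) mod q`
(`S28.h88_kronecker_int`) and `Φ_q(j_{q²}, j_q) = 0` show that the residue of `j_{q²}` is
`j̄^{q²}` or `j̄`; with `j̄_q = j̄^q` the residue of `x` is `j̄^k`, `k ∈ {1 + q + q², q + 2}`, and
`p(j^k) = α (p(X^k)(j'))` is a unit by L3 at the level `M q`.  Neither `V₂ ≠ V₁` nor the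
Eisenstein splitting is used.
-/

set_option autoImplicit false
set_option linter.style.haveILetI false
set_option linter.unusedSectionVars false
set_option linter.unusedVariables false
set_option synthInstance.maxHeartbeats 400000
set_option maxHeartbeats 1600000

noncomputable section

namespace Fermat.Agent.S36.Mod3.H860

open ModularCurve AlgebraicCurve Polynomial
open Fermat.Agent.S18.H138 (chart)
open Fermat.Agent.S36.Eng
open Fermat.Agent.A2.Mod

/-! ## `V∞`: polar elements -/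

section Polar

variable {P : ValuationSubring Qb} {E : IntermediateField ℚ Qb}

/-- **Gauss units** (L3 + L2): for a polar `u` and `w ∤ p`, `p(u)` is a NONZERO unit of `V∞`. -/
theorem polar_unit [IsDiscreteValuationRing (RE P E)] {w : RE P E} (hw : Irreducible w)
    {N : ℕ} (hN : N ≠ 0) {V : ValuationSubring (FE E N)} (hV : IsVinf P E N V)
    {u : FE E N} {a : ℕ} (ha : 0 < a) (hu : H13.IsPolar E N u a)
    {p : Polynomial (RE P E)} (hp : ¬ Polynomial.C w ∣ p) :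
    aeval u p ≠ 0 ∧ aeval u p ∈ V ∧ (aeval u p)⁻¹ ∈ V := by
  obtain ⟨g, hg, e⟩ := hu
  have key : ∀ p' : Polynomial (RE P E), ¬ Polynomial.C w ∣ p' →
      aeval u p' ∈ V ∧ (aeval u p')⁻¹ ∈ V := by
    intro p' hp'
    have h3 := H816.vinfGauss P E w N hN inferInstance hw V hV u (A2.H708.castA (RE P E) g) a ha
      (by rw [e]; exact H553.coeffEmb_castQ (P := P) g)
      (fun n hn => by
        show ((g.coeff n : ℤ) : RE P E) = 0
        rw [hg.1 n hn, Int.cast_zero])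
      (by
        have : (A2.H708.castA (RE P E) g).coeff (-(a : ℤ)) = 1 := by
          show ((g.coeff (-(a : ℤ)) : ℤ) : RE P E) = 1
          rw [hg.2, Int.cast_one]
        rw [this]
        exact isUnit_one)
      p' hp'
    exact h3
  refine ⟨?_, key p hp⟩
  intro h0
  have hpw : ¬ Polynomial.C w ∣ p + Polynomial.C w := by
    intro h
    exact hp ((dvd_add_left (dvd_refl _)).mp h)
  have h1 := (key (p + Polynomial.C w) hpw).2
  rw [map_add, h0, zero_add, Polynomial.aeval_C] at h1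
  have hL2 := H553.vinfBasic P E w N hN inferInstance hw V hV
  exact hL2.1.inv_not_mem h1

end Polar

/-! ## The coordinate `x = j j_q j_{q²}` at `V₁ = V∞` and `V₃ = V∞ ∘ W` -/

section Ends

variable {P : ValuationSubring Qb} {E : IntermediateField ℚ Qb}
  (M q : ℕ) [NeZero M] [NeZero q] [NeZero (M * q)]

theorem isPolar_x3E : H13.IsPolar E (M * q * q) (x3E E M q) (1 + q + q * q) :=
  ((H13.isPolar_jE 1 (one_dvd _)).mul (H13.isPolar_jE q (Dvd.intro_left (M * q) rfl))).mul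
    (H13.isPolar_jE (q * q) ⟨M, by ring⟩)

theorem isPolar_fricke_x3E {W : FE E (M * q * q) ≃ₐ[E] FE E (M * q * q)}
    (hW : IsFricke E (M * q * q) W) :
    H13.IsPolar E (M * q * q) (W (x3E E M q)) (M * q * q + M * q + M) := by
  have h1 : W (j1 E M q) = jE E (M * q * q) (M * q * q) (dvd_refl _) :=
    hW.1 1 (M * q * q) (one_dvd _) (dvd_refl _) (one_mul _)
  have h2 : W (jq E M q) = jE E (M * q * q) (M * q) (dvd_mul_right (M * q) q) :=
    hW.1 q (M * q) (Dvd.intro_left (M * q) rfl) (dvd_mul_right (M * q) q) (by ring)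
  have h3 : W (jqq E M q) = jE E (M * q * q) M ⟨q * q, by ring⟩ :=
    hW.1 (q * q) M ⟨M, by ring⟩ ⟨q * q, by ring⟩ (by ring)
  rw [x3E, map_mul, map_mul, h1, h2, h3]
  exact ((H13.isPolar_jE (M * q * q) (dvd_refl _)).mul
    (H13.isPolar_jE (M * q) (dvd_mul_right (M * q) q))).mul (H13.isPolar_jE M ⟨q * q, by ring⟩)

variable {M q}

/-- `gauss₁`. -/
theorem gauss_vinf [IsDiscreteValuationRing (RE P E)] {w : RE P E} (hw : Irreducible w)
    {V₁ : ValuationSubring (FE E (M * q * q))} (hV : IsVinf P E (M * q * q) V₁)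
    (p : Polynomial (RE P E)) (hp : ∃ i, ¬ w ∣ p.coeff i) :
    (aeval (x3E E M q) p)⁻¹ ∈ V₁ :=
  (polar_unit hw (NeZero.ne _) hV (by omega) (isPolar_x3E M q) (not_C_dvd_of_exists_coeff hp)).2.2

/-- `gauss₃`. -/
theorem gauss_vzero [IsDiscreteValuationRing (RE P E)] {w : RE P E} (hw : Irreducible w)
    {V₁ : ValuationSubring (FE E (M * q * q))} (hV : IsVinf P E (M * q * q) V₁)
    {W : FE E (M * q * q) ≃ₐ[E] FE E (M * q * q)} (hW : IsFricke E (M * q * q) W)
    (p : Polynomial (RE P E)) (hp : ∃ i, ¬ w ∣ p.coeff i) :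
    (aeval (x3E E M q) p)⁻¹ ∈
      V₁.comap (W : FE E (M * q * q) →+* FE E (M * q * q)) := by
  have h := (polar_unit hw (NeZero.ne _) hV
    (Nat.add_pos_right _ (Nat.pos_of_ne_zero (NeZero.ne M)))
    (isPolar_fricke_x3E M q hW) (not_C_dvd_of_exists_coeff hp)).2.2
  have e : W (aeval (x3E E M q) p) = aeval (W (x3E E M q)) p :=
    (Polynomial.aeval_algHom_apply (W.toAlgHom.restrictScalars (RE P E)) (x3E E M q) p).symm
  rw [ValuationSubring.mem_comap]
  show W (aeval (x3E E M q) p)⁻¹ ∈ V₁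
  rw [map_inv₀, e]
  exact h

end Ends

/-! ## The middle valuation ring `V₂` -/

section Mid

variable {P : ValuationSubring Qb} {E : IntermediateField ℚ Qb}
  {M q : ℕ} [NeZero M] [NeZero q] [NeZero (M * q)]

theorem alpha_j1 : αE E (M * q) q (jE E (M * q) 1 (one_dvd _)) = j1 E M q :=
  H553.αE_jE E (M * q) q 1 (one_dvd _)

theorem alpha_jq : αE E (M * q) q (jE E (M * q) q (dvd_mul_left q M)) = jq E M q :=
  H553.αE_jE E (M * q) q q (dvd_mul_left q M)

/-- `Φ_q(j_{q²}, j_q) = 0` in `F_E(M q²)`. -/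
theorem modEq_jqq (D : S28.ModPolyData q) :
    D.Φ.eval₂ (Polynomial.aeval (R := ℤ) (jq E M q)).toRingHom (jqq E M q) = 0 :=
  H873.eval₂_eq_zero_of_int E (M * q * q) D.Φ _ _ _ _
    (H873.coe_jE_int E (M * q * q) (q * q) _) (H873.coe_jE_int E (M * q * q) q _)
    (S28.H739.modPoly_eval_level D q)

/-- `base₂`. -/
theorem base_mid [IsDiscreteValuationRing (RE P E)]
    {V₁' : ValuationSubring (FE E (M * q))} (hV' : IsVinf P E (M * q) V₁')
    {V₂ : ValuationSubring (FE E (M * q * q))}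
    (hmid : V₂.comap (αE E (M * q) q : FE E (M * q) →+* FE E (M * q * q)) = V₁')
    (r : RE P E) : algebraMap (RE P E) (FE E (M * q * q)) r ∈ V₂ := by
  have h1 : algebraMap (RE P E) (FE E (M * q)) r ∈ V₁' := (H13.isOver_of_isVinf hV').mem r
  rw [← hmid, ValuationSubring.mem_comap] at h1
  have e : (αE E (M * q) q) (algebraMap (RE P E) (FE E (M * q)) r) =
      algebraMap (RE P E) (FE E (M * q * q)) r := (αE E (M * q) q).commutes (r : E)
  rw [← e]
  exact h1

/-- `gauss₂`. -/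
theorem gauss_mid [IsDiscreteValuationRing (RE P E)] {w : RE P E} (hw : Irreducible w)
    (hq : q.Prime) (hP : P.LiesOverPrime q)
    {V₁' : ValuationSubring (FE E (M * q))} (hV' : IsVinf P E (M * q) V₁')
    {V₂ : ValuationSubring (FE E (M * q * q))}
    (hmid : V₂.comap (αE E (M * q) q : FE E (M * q) →+* FE E (M * q * q)) = V₁')
    (p : Polynomial (RE P E)) (hp : ∃ i, ¬ w ∣ p.coeff i) :
    (aeval (x3E E M q) p)⁻¹ ∈ V₂ := by
  haveI : Fact q.Prime := ⟨hq⟩
  have hL2 := H553.vinfBasic P E w (M * q) (NeZero.ne _) inferInstance hw V₁' hV'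
  obtain ⟨D⟩ := S28.H807.nonempty_modPolyData q hq
  obtain ⟨Θ, hΘ⟩ := S28.h88_kronecker_int q D
  have hmod : D.Φ.eval₂ (Polynomial.aeval (R := ℤ)
      (αE E (M * q) q (jE E (M * q) q (dvd_mul_left q M)))).toRingHom (jqq E M q) = 0 := by
    rw [alpha_jq]
    exact modEq_jqq (E := E) (M := M) D
  have hqV' : ((q : ℕ) : FE E (M * q)) ∈ V₁'.nonunits := by
    have h := (V₁'.mem_nonunits_iff).mpr (H994.val_natCast_lt_one hP hV')
    rwa [map_natCast] at h
  have hfrob : jE E (M * q) q (dvd_mul_left q M) - jE E (M * q) 1 (one_dvd _) ^ q ∈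
      V₁'.nonunits := (V₁'.mem_nonunits_iff).mpr (H994.val_frobInf hP hV')
  have h := gauss_mid_abs (R := RE P E) (αE E (M * q) q) V₁' V₂ hmid w hq hqV'
    (H13.isOver_of_isVinf hV').mem (hL2.2.2 1 (one_dvd _)).1 (hL2.2.2 q (dvd_mul_left q M)).1
    hfrob D.Φ Θ D.monic hΘ hmod
    (fun p' hp' => polar_unit hw (NeZero.ne _) hV' one_pos (H13.isPolar_jE 1 (one_dvd _)) hp')
    p (not_C_dvd_of_exists_coeff hp)
  rw [alpha_j1, alpha_jq] at h
  exact h

end Mid

/-! ## The leaf -/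

/-- **MOD3 leaf SHEET** (`Mod3.LeafSheet`, verbatim): `base_i` and `gauss_i`. -/
theorem leafSheet : Mod3.LeafSheet := by
  intro P E M q _ _ _ w hStd V₁' V₂' V₁ V₂ V₃ W' W hO
  haveI : IsDiscreteValuationRing (RE P E) := hStd.unram.1.dvr
  refine ⟨?_, ?_, ?_, ?_, ?_, ?_⟩
  · exact (H13.isOver_of_isVinf hO.vinf).mem
  · exact base_mid hO.vinf' hO.mid
  · rw [hO.vzero]
    exact (H13.isOver_comap hO.vinf W).mem
  · exact gauss_vinf hStd.unif hO.vinf
  · exact gauss_mid hStd.unif hStd.q_prime hStd.lies_over hO.vinf' hO.mid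
  · rw [hO.vzero]
    exact gauss_vzero hStd.unif hO.vinf hO.fricke

end Fermat.Agent.S36.Mod3.H860

end

end
-- ===== PACK-END S36/Mod3/H860/Sheet.lean

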