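import Fermat.Prelude.Def_FLTPrelim_Ramification
import Mathlib
import Fermat.Agent.Pack.S36.E15L3
import Fermat.Agent.Pack.S36.E19L2
import Fermat.Agent.Pack.S36.E15L2
import Fermat.Agent.Pack.S36.E7L1
import Fermat.Agent.Pack.S36.E18L1
import Fermat.Agent.Pack.S36.E19L0
import Fermat.Agent.Pack.S36.E9L0
import Fermat.Agent.Pack.S36.E9L2
import Fermat.Agent.Pack.S36.E7L2
import Fermat.Agent.Pack.S36.E7L0
import Fermat.Agent.Pack.S36.E17L0
import Fermat.Agent.Pack.S36.E19L1
import Fermat.Agent.Pack.S36.E18L0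
import Fermat.Agent.Pack.S36.E13L2
import Fermat.Agent.Pack.S36.E5L0
import Fermat.Agent.Pack.S36.E2L0
import Fermat.Agent.Pack.S36.E14L1
import Fermat.Agent.Pack.S36.E10L2
import Fermat.Agent.Pack.S36.E6L0
import Fermat.Agent.Pack.S36.E15L0
import Fermat.Agent.Pack.S36.E19L3
import Fermat.Agent.Pack.S36.E18L3
import Fermat.Agent.Pack.S36.E6L1

-- ===== PACK-BEGIN S35/H155/B2Geom.lean
section
/-
S35 / cell FROB, leaf B2 (helper155), GEOMETRIC form: the degeneracy push-forwards
`pushA`, `pushB : J₀(N q) → J₀(N)` commute with `T_ℓ` on ALL of `J₀(N q)(ℚ̄)`, for every prime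
`ℓ ≠ q` (no torsion hypothesis, no torsion relations).

Source: helper801's `Ribet/H801/{DegAlpha,DegBeta}.lean` (base change along the mixed squares);
this file identifies `pushA = alphaPush`, `pushB = betaPush` and restates the result for the
S35 interface (`IsQNew`).
-/



set_option autoImplicit false
set_option linter.style.haveILetI false

noncomputable section

namespace Fermat.Agent.S35.H155

open AlgebraicCurve ModularCurve

variable (N q : ℕ) [NeZero N] [NeZero q]

theorem pushA_eq_alphaPush : pushA N q = Fermat.Agent.Ribet.H801.alphaPush N q := by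
  refine AddMonoidHom.ext fun x => ?_
  obtain ⟨D, rfl⟩ := Pic0.mk_surjective x
  rfl

theorem pushB_eq_betaPush : pushB N q = Fermat.Agent.Ribet.H801.betaPush N q := by
  refine AddMonoidHom.ext fun x => ?_
  obtain ⟨D, rfl⟩ := Pic0.mk_surjective x
  rfl

/-- **`α_*` is Hecke-equivariant** on all of `J₀(N q)`: `α_* (T_ℓ x) = T_ℓ (α_* x)`, `ℓ ≠ q`. -/
theorem pushA_heckeOperatorBar (hq : q.Prime) (ℓ : Nat.Primes) (hne : (ℓ : ℕ) ≠ q)
    (x : JZero (N * q)) :
    pushA N q (heckeOperatorBar (N * q) ℓ x) = heckeOperatorBar N ℓ (pushA N q x) := by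
  rw [pushA_eq_alphaPush]
  exact Fermat.Agent.Ribet.H801.alphaPush_heckeOperatorBar N q hq ℓ hne x

/-- **`β_*` is Hecke-equivariant** on all of `J₀(N q)`: `β_* (T_ℓ x) = T_ℓ (β_* x)`, `ℓ ≠ q`. -/
theorem pushB_heckeOperatorBar (hq : q.Prime) (ℓ : Nat.Primes) (hne : (ℓ : ℕ) ≠ q)
    (x : JZero (N * q)) :
    pushB N q (heckeOperatorBar (N * q) ℓ x) = heckeOperatorBar N ℓ (pushB N q x) := by
  rw [pushB_eq_betaPush]
  exact Fermat.Agent.Ribet.H801.betaPush_heckeOperatorBar N q hq ℓ hne x

variable {N q}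

/-- `T_ℓ` (`ℓ ≠ q`) preserves `q`-new classes (no torsion hypothesis). -/
theorem IsQNew.heckeOperatorBar (hq : q.Prime) (ℓ : Nat.Primes) (hne : (ℓ : ℕ) ≠ q)
    {x : JZero (N * q)} (hx : IsQNew N q x) : IsQNew N q (heckeOperatorBar (N * q) ℓ x) :=
  ⟨by rw [pushA_heckeOperatorBar N q hq ℓ hne, hx.1, map_zero],
   by rw [pushB_heckeOperatorBar N q hq ℓ hne, hx.2, map_zero]⟩

/-- Polynomial form: every element of the abstract Hecke algebra supported away from `q`
commutes with `α_*` and `β_*`. -/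
theorem push_heckeEvalBar (hq : q.Prime) (hc' : HeckeOperatorsCommuteBar (N * q))
    (hc : HeckeOperatorsCommuteBar N) (t : HeckeAlg)
    (ht : t ∈ MvPolynomial.supported ℤ {ℓ : Nat.Primes | (ℓ : ℕ) ≠ q}) (x : JZero (N * q)) :
    pushA N q (heckeEvalBar hc' t x) = heckeEvalBar hc t (pushA N q x) ∧
      pushB N q (heckeEvalBar hc' t x) = heckeEvalBar hc t (pushB N q x) := by
  rw [MvPolynomial.supported_eq_adjoin_X] at ht
  induction ht using Algebra.adjoin_induction generalizing x with
  | mem t ht =>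
    obtain ⟨ℓ, hℓ, rfl⟩ := ht
    rw [show (MvPolynomial.X ℓ : HeckeAlg) = heckeGen ℓ from rfl, heckeEvalBar_heckeGen,
      heckeEvalBar_heckeGen]
    exact ⟨pushA_heckeOperatorBar N q hq ℓ hℓ x, pushB_heckeOperatorBar N q hq ℓ hℓ x⟩
  | algebraMap r =>
    rw [MvPolynomial.algebraMap_eq, heckeEvalBar_C, heckeEvalBar_C, Module.End.intCast_apply,
      Module.End.intCast_apply, map_zsmul, map_zsmul]
    exact ⟨rfl, rfl⟩
  | add a b _ _ ha hb =>
    rw [map_add, map_add, LinearMap.add_apply, LinearMap.add_apply, map_add, map_add,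
      (ha x).1, (hb x).1, (ha x).2, (hb x).2]
    exact ⟨rfl, rfl⟩
  | mul a b _ _ ha hb =>
    rw [map_mul, map_mul, Module.End.mul_apply, Module.End.mul_apply, (ha _).1, (hb x).1,
      (ha _).2, (hb x).2]
    exact ⟨rfl, rfl⟩

/-- **KILLER ⇒ `q`-new**, geometric form: if `t` (supported away from `q`) kills `J₀(N)`,
then `t • y` is `q`-new for every `y ∈ J₀(N q)`. -/
theorem isQNew_heckeEvalBar_of_kills (hq : q.Prime) (hc' : HeckeOperatorsCommuteBar (N * q))
    (hc : HeckeOperatorsCommuteBar N) (t : HeckeAlg)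
    (ht : t ∈ MvPolynomial.supported ℤ {ℓ : Nat.Primes | (ℓ : ℕ) ≠ q})
    (P : JZero N → Prop) (hkill : ∀ z : JZero N, P z → heckeEvalBar hc t z = 0)
    (y : JZero (N * q)) (hA : P (pushA N q y)) (hB : P (pushB N q y)) :
    IsQNew N q (heckeEvalBar hc' t y) :=
  ⟨by rw [(push_heckeEvalBar hq hc' hc t ht y).1]; exact hkill _ hA,
   by rw [(push_heckeEvalBar hq hc' hc t ht y).2]; exact hkill _ hB⟩

end Fermat.Agent.S35.H155

end

end
-- ===== PACK-END S35/H155/B2Geom.lean

-- ===== PACK-BEGIN S36/H36/Deg.lean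
section
/-
S36 engine, layer (i) (helper36): the engine on `JZero (N * q)` with helper155's degeneracy maps.

`QNewInertiaStatement` : for `q ‖ N`, a prime `p ≠ q` and a place `P ∣ q` there is `k` such that
every `x ∈ J₀(N q)[p^∞]` which is `q`-new (`S35.H155.IsQNew`: `pushA x = 0`, `pushB x = 0`) and
fixed by the inertia group `I_P` is killed by `p ^ k`.

`newPartInertiaStatement_of_qNew : QNewInertiaStatement → NewPartInertiaStatement`
(the Hecke clauses are helper155's / helper801's `pushA_heckeOperatorBar`, `pushB_heckeOperatorBar`;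
the level `M` is transported to `(M / q) * q`).
-/



set_option autoImplicit false
set_option linter.style.haveILetI false

noncomputable section

namespace Fermat.Agent.S36.H36

open ModularCurve AlgebraicCurve Fermat.Agent.S30.H990 Fermat.Agent.S35.H155

/-- Transport of `J₀` along an equality of levels, compatible with Galois and Hecke. -/
theorem exists_levelCast (A B : ℕ) (h : A = B) [NeZero A] [NeZero B] :
    ∃ e : JZero A ≃+ JZero B,
      (∀ (γ : AlgebraicClosure ℚ ≃ₐ[ℚ] AlgebraicClosure ℚ) (x : JZero A), e (γ • x) = γ • e x) ∧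
      (∀ (ℓ : Nat.Primes) (x : JZero A),
        e (heckeOperatorBar A ℓ x) = heckeOperatorBar B ℓ (e x)) := by
  subst h
  exact ⟨AddEquiv.refl _, fun _ _ => rfl, fun _ _ => rfl⟩

/-- **The engine on `JZero (N * q)`** (`q ‖ N`, so `q² ‖ N q`). -/
def QNewInertiaStatement : Prop :=
  ∀ (N q p : ℕ) [NeZero N] [NeZero q], q.Prime → N.factorization q = 1 → p.Prime → p ≠ q →
    ∀ P : ValuationSubring (AlgebraicClosure ℚ), P.LiesOverPrime q →
      ∃ k : ℕ, ∀ x : JZero (N * q), (∃ n : ℕ, p ^ n • x = 0) → IsQNew N q x →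
        (∀ τ ∈ P.inertiaSubgroupIn ℚ, τ • x = x) → p ^ k • x = 0

theorem factorization_div_self {M q : ℕ} (hq : q.Prime) (h : M.factorization q = 2) :
    (M / q).factorization q = 1 := by
  have hqM : q ∣ M := dvd_of_factorization_eq_two h
  rw [Nat.factorization_div hqM, Finsupp.tsub_apply, h, hq.factorization_self]

/-- **Layer (i).** -/
theorem newPartInertiaStatement_of_qNew (h : QNewInertiaStatement) :
    NewPartInertiaStatement := by
  intro M q _ _ hq hfac
  have hqM : q ∣ M := dvd_of_factorization_eq_two hfac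
  have hMq : M = M / q * q := (Nat.div_mul_cancel hqM).symm
  haveI : NeZero q := ⟨hq.ne_zero⟩
  haveI : NeZero (M / q * q) := ⟨by rw [← hMq]; exact NeZero.ne M⟩
  obtain ⟨e, heG, heT⟩ := exists_levelCast M (M / q * q) hMq
  have hℓq : ∀ ℓ : Nat.Primes, ¬ (ℓ : ℕ) ∣ M → (ℓ : ℕ) ≠ q := by
    intro ℓ hℓ hℓq
    exact hℓ (hℓq ▸ hqM)
  refine ⟨(pushA (M / q) q).comp e.toAddMonoidHom, (pushB (M / q) q).comp e.toAddMonoidHom,
    ?_, ?_, ?_⟩
  · intro ℓ hℓ x
    show pushA (M / q) q (e (heckeOperatorBar M ℓ x)) = heckeOperatorBar (M / q) ℓ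
      (pushA (M / q) q (e x))
    rw [heT, pushA_heckeOperatorBar (M / q) q hq ℓ (hℓq ℓ hℓ)]
  · intro ℓ hℓ x
    show pushB (M / q) q (e (heckeOperatorBar M ℓ x)) = heckeOperatorBar (M / q) ℓ
      (pushB (M / q) q (e x))
    rw [heT, pushB_heckeOperatorBar (M / q) q hq ℓ (hℓq ℓ hℓ)]
  · intro p hp hpq A hA
    obtain ⟨k, hk⟩ := h (M / q) q p hq (factorization_div_self hq hfac) hp hpq A hA
    refine ⟨k, fun x hx hnew hfix => ?_⟩
    have h1 : p ^ k • e x = 0 := by
      refine hk (e x) ?_ ?_ ?_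
      · obtain ⟨n, hn⟩ := hx
        exact ⟨n, by rw [← map_nsmul, hn, map_zero]⟩
      · have := hnew 1
        rw [one_smul] at this
        exact ⟨this.1, this.2⟩
      · intro τ hτ
        rw [← heG, hfix τ hτ]
    rw [← map_nsmul] at h1
    exact e.injective (by rw [h1, map_zero])

end Fermat.Agent.S36.H36

end
end
-- ===== PACK-END S36/H36/Deg.lean

-- ===== PACK-BEGIN S35/H909/QNewOfKummer.lean
section





/-!
# S35 / cell FROB, leaf QNF, part Q0: the Kummer form of QNF implies QNF on `J₀(M' q)`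
(helper909)

`qNewFrob_of_kummer : H891.KummerQNewFrobStatement → H891.QNewFrobStatement`.

`x = [D]` `q`-new (`α_* D = div a`, `β_* D = div b`), `m x = 0`, `m D = div f`.  By the norm
formula (`S29.H812`), `div (N_α f) = α_* (div f) = m · div a`, hence `N_α f = c · a ^ m` with a
constant `c`, an `m`-th power in `ℚ̄`; same for `β`.  The Kummer statement gives the cubic identity
for `φ = s²`, and `cubic_of_kummer` translates it to `Pic0`.
-/

set_option autoImplicit false

noncomputable section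

namespace Fermat.Agent.S35.H909

open AlgebraicCurve ModularCurve Fermat.Agent.A2 Fermat.Agent.S35.H891

/-- A function on a modular curve whose divisor is `m` times a principal divisor `div a` is an
`m`-th power (the constant is absorbed: `ℚ̄` is algebraically closed). -/
theorem exists_pow_eq_of_ord (M : ℕ) [NeZero M] (m : ℕ) (hm : 0 < m)
    {y a : modularFunctionFieldBar M} (hy : y ≠ 0) (ha : a ≠ 0)
    (h : ∀ v : Place Qb (modularFunctionFieldBar M), v.ord y = (m : ℤ) * v.ord a) :
    ∃ b : modularFunctionFieldBar M, b ≠ 0 ∧ y = b ^ m := by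
  obtain ⟨t, ht, hfin⟩ := Fermat.Agent.S29.H812.exists_coord_modular M
  haveI := hfin
  have hz0 : y * (a ^ m)⁻¹ ≠ 0 := mul_ne_zero hy (inv_ne_zero (pow_ne_zero _ ha))
  have hz : ∀ w : Place Qb (modularFunctionFieldBar M), w.ord (y * (a ^ m)⁻¹) = 0 := by
    intro w
    rw [Fermat.Agent.A2.H129.ord_div w hy (pow_ne_zero _ ha), Fermat.Agent.A2.H129.ord_pow, h w,
      sub_self]
  obtain ⟨c, hc, hcy⟩ :=
    Fermat.Agent.S29.H871.exists_const_of_forall_ord_eq_zero (K' := Qb) ht hz0 hz
  obtain ⟨c₁, hc₁⟩ := IsAlgClosed.exists_pow_nat_eq c hm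
  have hc₁0 : c₁ ≠ 0 := by
    rintro rfl
    rw [zero_pow hm.ne'] at hc₁
    exact hc hc₁.symm
  refine ⟨algebraMap Qb (modularFunctionFieldBar M) c₁ * a,
    mul_ne_zero (by simpa using hc₁0) ha, ?_⟩
  rw [mul_pow, ← map_pow, hc₁, ← hcy, mul_assoc, inv_mul_cancel₀ (pow_ne_zero _ ha), mul_one]

/-- **Q0.**  The Kummer form of QNF implies QNF on `J₀(M' q)`. -/
theorem qNewFrob_of_kummer (hK : KummerQNewFrobStatement) : QNewFrobStatement := by
  intro M' q m _ _ hq hqM hm hqm P hP s hs x hx hnew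
  haveI : NeZero (M' * q) := ⟨Nat.mul_ne_zero (NeZero.ne M') (NeZero.ne q)⟩
  obtain ⟨hα, hβ, D, rfl, ⟨a, ha, haD⟩, ⟨b, hb, hbD⟩⟩ := hnew
  -- the Kummer generator
  have hprin : ((m • D : Divisor.degZero (K := Qb) (F := modularFunctionFieldBar (M' * q))) :
      Divisor Qb (modularFunctionFieldBar (M' * q))) ∈
      Divisor.principal (K := Qb) (F := modularFunctionFieldBar (M' * q)) := by
    have h0 : Pic0.mk (m • D) = 0 := hx
    have := (QuotientAddGroup.eq_zero_iff (m • D)).1 h0
    simpa [AddSubgroup.mem_addSubgroupOf] using this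
  obtain ⟨f, hf, hfD⟩ := hprin
  have hfD' : ∀ v : Place Qb (modularFunctionFieldBar (M' * q)),
      v.ord f = (m : ℤ) * (D : Divisor Qb (modularFunctionFieldBar (M' * q))) v := by
    intro v
    rw [← hfD v]
    simp [Finsupp.smul_apply]
  have hfD'' : ∀ w : Place Qb (modularFunctionFieldBar (M' * q)),
      ((m : ℤ) • (D : Divisor Qb (modularFunctionFieldBar (M' * q)))) w = w.ord f := by
    intro w
    rw [Finsupp.smul_apply, smul_eq_mul, hfD' w]
  -- the norm formula for `α` and `β`
  haveI hPD : HasPrincipalDivisors Qb (modularFunctionFieldBar (M' * q)) :=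
    Fermat.Agent.Lib.RR.H864.hasPrincipalDivisors_modularFunctionFieldBar (M' * q)
  have hF := Fermat.Agent.S29.H812.exists_coord_modular M'
  have hfinα := Fermat.Agent.S29.H812.finiteAlong_heckeAlphaBar M' q
  have hfinβ := Fermat.Agent.S29.H812.finiteAlong_heckeBetaBar M' q
  have hNα := Fermat.Agent.S29.H812.normFormulaAlong hF (heckeAlphaBar Qb M' q) hfinα
  have hNβ := Fermat.Agent.S29.H812.normFormulaAlong hF (heckeBetaBar Qb M' q) hfinβ
  have hordα : ∀ v : Place Qb (modularFunctionFieldBar M'),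
      v.ord (Fermat.Agent.S29.H395.normAlong (heckeAlphaBar Qb M' q) f) = (m : ℤ) * v.ord a := by
    intro v
    rw [← Fermat.Agent.S29.H395.pushforwardAlong_apply_eq_ord (heckeAlphaBar Qb M' q) hα hfinα hNα
      hf hfD'' v, map_zsmul, Finsupp.smul_apply, smul_eq_mul, haD v]
  have hordβ : ∀ v : Place Qb (modularFunctionFieldBar M'),
      v.ord (Fermat.Agent.S29.H395.normAlong (heckeBetaBar Qb M' q) f) = (m : ℤ) * v.ord b := by
    intro v
    rw [← Fermat.Agent.S29.H395.pushforwardAlong_apply_eq_ord (heckeBetaBar Qb M' q) hβ hfinβ hNβ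
      hf hfD'' v, map_zsmul, Finsupp.smul_apply, smul_eq_mul, hbD v]
  have hα' := exists_pow_eq_of_ord M' m hm
    (Fermat.Agent.S29.H395.normAlong_ne_zero _ hfinα hf) ha hordα
  have hβ' := exists_pow_eq_of_ord M' m hm
    (Fermat.Agent.S29.H395.normAlong_ne_zero _ hfinβ hf) hb hordβ
  obtain ⟨h, hh, hid⟩ := hK M' q m hq hqM hm hqm P hP s hs f hf (fun v => ⟨_, hfD' v⟩) hα' hβ'
  -- translate to `Pic0`
  set g₁ := arithmeticGalois (L := Qb) (modularFunctionFieldFull (M' * q)) s with hg₁
  have hact : ∀ k : modularFunctionFieldBar (M' * q),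
      SemilinearAut.toRingAut (g₁ * g₁) k = actSq (M' * q) s k := by
    intro k
    rw [SemilinearAut.toRingAut_mul, hg₁, toRingAut_arithmeticGalois]
    rfl
  have hid' : SemilinearAut.toRingAut (g₁ * g₁)
        (SemilinearAut.toRingAut (g₁ * g₁) (SemilinearAut.toRingAut (g₁ * g₁) f)) *
        (SemilinearAut.toRingAut (g₁ * g₁) f) ^ (1 + 2 * q ^ 2) =
      h ^ m * (SemilinearAut.toRingAut (g₁ * g₁) (SemilinearAut.toRingAut (g₁ * g₁) f)) ^ (2 + q ^ 2)
        * f ^ q ^ 2 := by
    rw [hact, hact, hact]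
    exact hid
  have hcub := cubic_of_kummer (g₁ * g₁) m hm.ne' (q ^ 2) D hf hfD' hh hid'
  have hsm : ∀ y : JZero (M' * q), (g₁ * g₁) • y = s • s • y := by
    intro y
    rw [mul_smul]
    rfl
  rw [hsm, hsm, hsm] at hcub
  exact hcub

end Fermat.Agent.S35.H909

end
end
-- ===== PACK-END S35/H909/QNewOfKummer.lean

-- ===== PACK-BEGIN S36/H36/Kummer.lean
section
/-
S36 engine, layer (ii) (helper36): the Kummer dictionary.

`KummerQNewInertiaStatement` : the engine in the modular function field `F̄_{N q} = ℚ̄(X₀(N q))`,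
`q ‖ N`: there is `k` (depending on `N, q, p, P` only) such that for every `n` and every
`f ∈ F̄_{N q}ˣ` with

* `p ^ n ∣ div f`,
* `N_α f` and `N_β f` are `p ^ n`-th powers in `F̄_N` (the class of `f` is `q`-new),
* `τ f / f` is a `p ^ n`-th power for every `τ` in the inertia group `I_P` (the class is fixed),

the function `f ^ (p ^ k)` is a `p ^ n`-th power.

`qNewInertia_of_kummer : KummerQNewInertiaStatement → QNewInertiaStatement`.

Dictionary: `x = [D]`, `p ^ n • x = 0`, `p ^ n D = div f`.  The two abstract lemmas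
`exists_ord_eq_of_smul_eq` (fixed class ⇒ `div (τ f) = div (y ^ m f)`) and
`nsmul_mk_eq_zero_of_pow_eq` (`f ^ c = y ^ m` ⇒ `c • x = 0`) are in Prelude language for any
`K`, `F`; the `q`-new part is helper909's computation (`S35.H909.QNewOfKummer`).
-/



set_option autoImplicit false
set_option linter.style.haveILetI false

noncomputable section

namespace Fermat.Agent.S36.H36

open AlgebraicCurve ModularCurve Fermat.Agent.A2

section Abstract

variable {K F : Type*} [Field K] [Field F] [Algebra K F]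

/-- A fixed class: `g • [D] = [D]`, `m D = div f`  ⟹  `div (τ f) = div (y ^ m · f)` for some
`y ≠ 0`. -/
theorem exists_ord_eq_of_smul_eq (g : SemilinearAut K F) (m : ℕ)
    (D : Divisor.degZero (K := K) (F := F)) {f : F}
    (hfD : ∀ v : Place K F, v.ord f = (m : ℤ) * (D : Divisor K F) v)
    (hfix : g • Pic0.mk D = Pic0.mk D) :
    ∃ y : F, y ≠ 0 ∧ ∀ w : Place K F,
      w.ord (SemilinearAut.toRingAut g f) = (m : ℤ) * w.ord y + w.ord f := by
  rw [SemilinearAut.pic0_smul_mk] at hfix
  have h0 : Pic0.mk (SemilinearAut.degZeroSMulHom g D - D) = 0 := by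
    have : Pic0.mk (SemilinearAut.degZeroSMulHom g D - D)
        = Pic0.mk (SemilinearAut.degZeroSMulHom g D) - Pic0.mk D := rfl
    rw [this, hfix, sub_self]
  have hprin := (QuotientAddGroup.eq_zero_iff (SemilinearAut.degZeroSMulHom g D - D)).1 h0
  rw [AddSubgroup.mem_addSubgroupOf] at hprin
  obtain ⟨y, hy, hyD⟩ := hprin
  refine ⟨y, hy, fun w => ?_⟩
  have h1 : ((SemilinearAut.degZeroSMulHom g D - D : Divisor.degZero (K := K) (F := F)) :
      Divisor K F) w = (D : Divisor K F) (g⁻¹ • w) - (D : Divisor K F) w := by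
    simp only [AddSubgroupClass.coe_sub, SemilinearAut.coe_degZeroSMulHom, Finsupp.sub_apply,
      SemilinearAut.divisor_smul_apply]
  have h2 := hyD w
  rw [h1] at h2
  rw [Fermat.Agent.A2.H129.ord_smul_eq, hfD, hfD, ← h2]
  ring

/-- `m D = div f`, `f ^ c = y ^ m`  ⟹  `c • [D] = 0`. -/
theorem nsmul_mk_eq_zero_of_pow_eq (m c : ℕ) (hm : m ≠ 0)
    (D : Divisor.degZero (K := K) (F := F)) {f : F}
    (hfD : ∀ v : Place K F, v.ord f = (m : ℤ) * (D : Divisor K F) v)
    {y : F} (hy : y ≠ 0) (h : f ^ c = y ^ m) : c • Pic0.mk D = 0 := by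
  have h0 : c • Pic0.mk D = Pic0.mk (c • D) := rfl
  rw [h0]
  refine (QuotientAddGroup.eq_zero_iff (c • D)).2 ?_
  rw [AddSubgroup.mem_addSubgroupOf]
  refine ⟨y, hy, fun w => ?_⟩
  have h1 : ((c • D : Divisor.degZero (K := K) (F := F)) : Divisor K F) w
      = (c : ℤ) * (D : Divisor K F) w := by
    simp only [AddSubgroup.coe_nsmul, Finsupp.smul_apply, nsmul_eq_mul]
  have h2 : (m : ℤ) * ((c : ℤ) * (D : Divisor K F) w) = (m : ℤ) * w.ord y := by
    have h3 := congrArg w.ord h
    rw [Fermat.Agent.A2.H129.ord_pow, Fermat.Agent.A2.H129.ord_pow, hfD] at h3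
    linear_combination h3
  have hm' : (m : ℤ) ≠ 0 := by exact_mod_cast hm
  rw [h1]
  exact mul_left_cancel₀ hm' h2

end Abstract

/-- **The engine, Kummer form.** -/
def KummerQNewInertiaStatement : Prop :=
  ∀ (N q p : ℕ) [NeZero N] [NeZero q], q.Prime → N.factorization q = 1 → p.Prime → p ≠ q →
    ∀ P : ValuationSubring Qb, P.LiesOverPrime q →
      ∃ k : ℕ, ∀ (n : ℕ) (f : modularFunctionFieldBar (N * q)), f ≠ 0 →
        (∀ v : Place Qb (modularFunctionFieldBar (N * q)), ((p ^ n : ℕ) : ℤ) ∣ v.ord f) →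
        (∃ h : modularFunctionFieldBar N, h ≠ 0 ∧
          Fermat.Agent.S29.H395.normAlong (heckeAlphaBar Qb N q) f = h ^ (p ^ n)) →
        (∃ h : modularFunctionFieldBar N, h ≠ 0 ∧
          Fermat.Agent.S29.H395.normAlong (heckeBetaBar Qb N q) f = h ^ (p ^ n)) →
        (∀ τ ∈ P.inertiaSubgroupIn ℚ, ∃ y : modularFunctionFieldBar (N * q), y ≠ 0 ∧
          arithmeticRingAut (modularFunctionFieldFull (N * q)) τ f = y ^ (p ^ n) * f) →
        ∃ y : modularFunctionFieldBar (N * q), y ≠ 0 ∧ f ^ (p ^ k) = y ^ (p ^ n)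

/-- **Layer (ii).**  The Kummer form of the engine implies the engine on `J₀(N q)`. -/
theorem qNewInertia_of_kummer (hK : KummerQNewInertiaStatement) : QNewInertiaStatement := by
  intro N q p _ _ hq hfac hp hpq P hP
  obtain ⟨k, hk⟩ := hK N q p hq hfac hp hpq P hP
  refine ⟨k, fun x hx hnew hfix => ?_⟩
  obtain ⟨n, hn⟩ := hx
  haveI : NeZero (N * q) := ⟨Nat.mul_ne_zero (NeZero.ne N) (NeZero.ne q)⟩
  set m : ℕ := p ^ n with hmdef
  have hm : 0 < m := pow_pos hp.pos n
  obtain ⟨D, rfl⟩ := Pic0.mk_surjective x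
  rw [Fermat.Agent.S35.H155.isQNew_mk_iff] at hnew
  obtain ⟨⟨a, ha, haD⟩, ⟨b, hb, hbD⟩⟩ := hnew
  -- the Kummer generator
  have hprin : ((m • D : Divisor.degZero (K := Qb) (F := modularFunctionFieldBar (N * q))) :
      Divisor Qb (modularFunctionFieldBar (N * q))) ∈
      Divisor.principal (K := Qb) (F := modularFunctionFieldBar (N * q)) := by
    have h0 : Pic0.mk (m • D) = 0 := hn
    have := (QuotientAddGroup.eq_zero_iff (m • D)).1 h0
    simpa [AddSubgroup.mem_addSubgroupOf] using this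
  obtain ⟨f, hf, hfD⟩ := hprin
  have hfD' : ∀ v : Place Qb (modularFunctionFieldBar (N * q)),
      v.ord f = (m : ℤ) * (D : Divisor Qb (modularFunctionFieldBar (N * q))) v := by
    intro v
    rw [← hfD v]
    simp [Finsupp.smul_apply]
  have hfD'' : ∀ w : Place Qb (modularFunctionFieldBar (N * q)),
      ((m : ℤ) • (D : Divisor Qb (modularFunctionFieldBar (N * q)))) w = w.ord f := by
    intro w
    rw [Finsupp.smul_apply, smul_eq_mul, hfD' w]
  -- the norm formula for `α` and `β`
  haveI hPD : HasPrincipalDivisors Qb (modularFunctionFieldBar (N * q)) :=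
    Fermat.Agent.Lib.RR.H864.hasPrincipalDivisors_modularFunctionFieldBar (N * q)
  have hF := Fermat.Agent.S29.H812.exists_coord_modular N
  have hα := Fermat.Agent.Lib.FF398.heckeAlphaBarIntegral N q
  have hβ := Fermat.Agent.Lib.FF398.heckeBetaBarIntegral N q
  have hfinα := Fermat.Agent.S29.H812.finiteAlong_heckeAlphaBar N q
  have hfinβ := Fermat.Agent.S29.H812.finiteAlong_heckeBetaBar N q
  have hNα := Fermat.Agent.S29.H812.normFormulaAlong hF (heckeAlphaBar Qb N q) hfinα
  have hNβ := Fermat.Agent.S29.H812.normFormulaAlong hF (heckeBetaBar Qb N q) hfinβ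
  have hordα : ∀ v : Place Qb (modularFunctionFieldBar N),
      v.ord (Fermat.Agent.S29.H395.normAlong (heckeAlphaBar Qb N q) f) = (m : ℤ) * v.ord a := by
    intro v
    rw [← Fermat.Agent.S29.H395.pushforwardAlong_apply_eq_ord (heckeAlphaBar Qb N q) hα hfinα hNα
      hf hfD'' v, map_zsmul, Finsupp.smul_apply, smul_eq_mul, haD v]
  have hordβ : ∀ v : Place Qb (modularFunctionFieldBar N),
      v.ord (Fermat.Agent.S29.H395.normAlong (heckeBetaBar Qb N q) f) = (m : ℤ) * v.ord b := by
    intro v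
    rw [← Fermat.Agent.S29.H395.pushforwardAlong_apply_eq_ord (heckeBetaBar Qb N q) hβ hfinβ hNβ
      hf hfD'' v, map_zsmul, Finsupp.smul_apply, smul_eq_mul, hbD v]
  have hα' := Fermat.Agent.S35.H909.exists_pow_eq_of_ord N m hm
    (Fermat.Agent.S29.H395.normAlong_ne_zero _ hfinα hf) ha hordα
  have hβ' := Fermat.Agent.S35.H909.exists_pow_eq_of_ord N m hm
    (Fermat.Agent.S29.H395.normAlong_ne_zero _ hfinβ hf) hb hordβ
  -- the fixed condition
  have hfixK : ∀ τ ∈ P.inertiaSubgroupIn ℚ, ∃ y : modularFunctionFieldBar (N * q), y ≠ 0 ∧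
      arithmeticRingAut (modularFunctionFieldFull (N * q)) τ f = y ^ m * f := by
    intro τ hτ
    have h1 : arithmeticGalois (L := Qb) (modularFunctionFieldFull (N * q)) τ • Pic0.mk D
        = Pic0.mk D := hfix τ hτ
    obtain ⟨y, hy, hyw⟩ := exists_ord_eq_of_smul_eq
      (arithmeticGalois (L := Qb) (modularFunctionFieldFull (N * q)) τ) m D hfD' h1
    rw [toRingAut_arithmeticGalois] at hyw
    set τf := arithmeticRingAut (modularFunctionFieldFull (N * q)) τ f with hτf
    have hτf0 : τf ≠ 0 := by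
      rw [hτf]
      exact (map_ne_zero_iff _
        (arithmeticRingAut (modularFunctionFieldFull (N * q)) τ).injective).2 hf
    have hyf0 : y ^ m * f ≠ 0 := mul_ne_zero (pow_ne_zero _ hy) hf
    -- `τ f = (y ^ m * f) * (unit of order zero everywhere)`
    have hy' : ∀ w : Place Qb (modularFunctionFieldBar (N * q)),
        w.ord τf = w.ord (y ^ m * f) := by
      intro w
      rw [hyw w, w.ord_mul (pow_ne_zero _ hy) hf, Fermat.Agent.A2.H129.ord_pow]
    have h2 := Fermat.Agent.S35.H909.exists_pow_eq_of_ord (N * q) m hm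
      (y := τf * (y ^ m * f)⁻¹ * y ^ m) (a := y)
      (mul_ne_zero (mul_ne_zero hτf0 (inv_ne_zero hyf0)) (pow_ne_zero _ hy)) hy (fun w => by
        rw [w.ord_mul (mul_ne_zero hτf0 (inv_ne_zero hyf0)) (pow_ne_zero _ hy),
          Fermat.Agent.A2.H129.ord_div w hτf0 hyf0, hy' w, sub_self, zero_add,
          Fermat.Agent.A2.H129.ord_pow])
    obtain ⟨z, hz, hzy⟩ := h2
    refine ⟨z, hz, ?_⟩
    rw [← hzy]
    field_simp
  obtain ⟨y, hy, hyf⟩ := hk n f hf (fun v => ⟨_, hfD' v⟩) hα' hβ' hfixK
  exact nsmul_mk_eq_zero_of_pow_eq m (p ^ k) hm.ne' D hfD' hy hyf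

end Fermat.Agent.S36.H36

namespace Fermat.Agent.S36.H36

/-- **Layers (i) + (ii).**  The Kummer form of the engine implies the engine consumed by the mid
layer. -/
theorem newPartInertiaStatement_of_kummer (hK : KummerQNewInertiaStatement) :
    NewPartInertiaStatement :=
  newPartInertiaStatement_of_qNew (qNewInertia_of_kummer hK)

end Fermat.Agent.S36.H36

end
end
-- ===== PACK-END S36/H36/Kummer.lean

-- ===== PACK-BEGIN S36/H442/Neat.lean
section
/-
S36 / cell NEAT-LEVEL (helper442): descent of the Carayol engine from an auxiliary level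
`N r q` to the level `N q`  (decision D2 of the S36 board: prove the engine at a NEAT level,
`r ≡ 11 mod 12`, and return by pull-back / push-forward).

For primes `q ≠ r` and ANY subgroup `H ≤ G_ℚ` (in the application: an inertia group at `q`):

  if the `H`-fixed `p`-power torsion of the `q`-new part of `J₀(N r q)` is bounded
  (killed by `p ^ k`), then the `H`-fixed `p`-power torsion of the `q`-new part of `J₀(N q)`
  is bounded (killed by `p ^ (k + d)`, `d = [F_{N q r} : V_r F_{N q}]`).

`q`-new = `S35.H155.IsQNew` = killed by the two degeneracy push-forwards `α_*`, `β_*` of level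
`q` (for all Galois conjugates, as in the engine statement).  No hypothesis on `N`, `p`:
`q ∣ N`, `r ∣ N`, `p = r`, `p = 2` are all allowed.

Proof.  `π^* := β_r^* : J₀(N q) → J₀(N r q)` (pull-back along `V_r`) is Galois-equivariant,
satisfies `π^* x = 0 ⇒ d • x = 0`, and base change in the two mixed squares
(helper801's `normCompat_bar`, `normCompat_beta_bar` + helper818's `pullback_pushforward_eq`)
gives  `α_{q,*} π^* = β_r^* α_{q,*}`  and  `β_{q,*} π^* = β_r^* β_{q,*}`.
-/




set_option autoImplicit false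
set_option linter.style.haveILetI false

noncomputable section

namespace Fermat.Agent.S36.H442

open AlgebraicCurve ModularCurve Fermat.Agent.S37.H818 Fermat.Agent.S29.H801
  Fermat.Agent.Ribet.H801 Fermat.Agent.Lib.HI

/-! ### Generic: base change on `Pic0` -/

section Generic

variable {K F F₁ G G₁ : Type*} [Field K] [Field F] [Field F₁] [Field G] [Field G₁]
  [Algebra K F] [Algebra K F₁] [Algebra K G] [Algebra K G₁]
variable (a : F →ₐ[K] F₁) (i : F →ₐ[K] G) (a' : G →ₐ[K] G₁) (i₁ : F₁ →ₐ[K] G₁)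
  (ha : a.toRingHom.IsIntegral) (hi : i.toRingHom.IsIntegral)
  (ha' : a'.toRingHom.IsIntegral) (hi₁ : i₁.toRingHom.IsIntegral)
  (hsq : i₁.comp a = a'.comp i)
variable [HasPrincipalDivisors K G] [HasPrincipalDivisors K G₁] [HasPrincipalDivisors K F₁]

include hsq in
/-- **Base change on `Pic0`**: `i^* ∘ a_* = a'_* ∘ i₁^*` for a square `i₁ ∘ a = a' ∘ i` with
norm compatibility. -/
theorem pullbackPic0Along_pushPic0
    (hfin : FiniteAlong K a) (hN : NormFormulaAlong K a hfin)
    (hfin' : FiniteAlong K a') (hN' : NormFormulaAlong K a' hfin')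
    (hFIi : FundamentalIdentityAlong K i hi) (hFIi₁ : FundamentalIdentityAlong K i₁ hi₁)
    (hnorm : NormCompat a i a' i₁) (hLG : HasLocalGenerators a ha) (x : Pic0 K F₁) :
    pullbackPic0Along i hi hFIi (pushPic0 a ha hfin hN x) =
      pushPic0 a' ha' hfin' hN' (pullbackPic0Along i₁ hi₁ hFIi₁ x) := by
  obtain ⟨D, rfl⟩ := Pic0.mk_surjective x
  rw [pushPic0_mk, pullbackPic0Along_mk, pullbackPic0Along_mk, pushPic0_mk]
  congr 1
  apply Subtype.ext
  simp only [coe_pullbackDegZeroAlong, coe_pushDegZero]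
  exact pullback_pushforward_eq a i a' i₁ ha hi ha' hi₁ hsq hfin hN hfin' hN' hnorm hLG D

omit [HasPrincipalDivisors K G] [HasPrincipalDivisors K G₁] [HasPrincipalDivisors K F₁] in
/-- The degree of a finite map is nonzero. -/
theorem finrankAlong_ne_zero (hfin : FiniteAlong K i) : finrankAlong K i ≠ 0 := by
  letI := algebraAlong i
  haveI : Module.Finite F G := hfin
  exact (Module.finrank_pos (R := F) (M := G)).ne'

end Generic

/-! ### Torsion arithmetic -/

/-- If `x` is killed by `p ^ n` and by `p ^ k * d`, `d ≠ 0`, it is killed by `p ^ (k + d)`. -/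
theorem pow_nsmul_eq_zero_of_mul {A : Type*} [AddCommGroup A] {p : ℕ} (hp : p.Prime)
    {d : ℕ} (hd : d ≠ 0) {k n : ℕ} {x : A} (hn : p ^ n • x = 0) (hk : (p ^ k * d) • x = 0) :
    p ^ (k + d) • x = 0 := by
  have h1 : addOrderOf x ∣ p ^ n := addOrderOf_dvd_of_nsmul_eq_zero hn
  have h2 : addOrderOf x ∣ p ^ k * d := addOrderOf_dvd_of_nsmul_eq_zero hk
  obtain ⟨j, -, hj⟩ := (Nat.dvd_prime_pow hp).mp h1
  rw [hj] at h2
  -- `p ^ j ∣ p ^ k * d` forces `j ≤ k + d`
  have hle : j ≤ k + d := by
    by_contra hlt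
    rw [not_le] at hlt
    have h3 : p ^ (k + d) ∣ p ^ k * d :=
      (pow_dvd_pow p hlt.le).trans h2
    rw [pow_add] at h3
    have h4 : p ^ d ∣ d := Nat.dvd_of_mul_dvd_mul_left (pow_pos hp.pos k) h3
    have h5 : p ^ d ≤ d := Nat.le_of_dvd (Nat.pos_of_ne_zero hd) h4
    exact absurd h5 (not_le.mpr (Nat.lt_pow_self hp.one_lt))
  have h6 : addOrderOf x ∣ p ^ (k + d) := by
    rw [hj]
    exact pow_dvd_pow p hle
  exact addOrderOf_dvd_iff_nsmul_eq_zero.mp h6

/-! ### The modular squares -/

section Modular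

/-- `ℚ̄`. -/
local notation "Qbar" => AlgebraicClosure ℚ

section Retarget

variable {M ℓ M' : ℕ} [NeZero M] [NeZero ℓ] [NeZero M']

theorem betaTo_integral_bar (h : M * ℓ = M') : (betaTo Qbar M ℓ M' h).toRingHom.IsIntegral :=
  betaTo_integral Qbar h (H864.heckeBetaBarIntegral M ℓ)

theorem betaTo_finite_bar (h : M * ℓ = M') : FiniteAlong Qbar (betaTo Qbar M ℓ M' h) :=
  betaTo_finite Qbar h (H864.finiteAlong_beta M ℓ)

theorem betaTo_normFormula_bar (h : M * ℓ = M') :
    NormFormulaAlong Qbar (betaTo Qbar M ℓ M' h) (betaTo_finite_bar h) :=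
  betaTo_normFormula Qbar h (H864.finiteAlong_beta M ℓ) (H864.normFormulaAlong_beta M ℓ _)

theorem betaTo_fundamentalIdentity_bar (h : M * ℓ = M')
    [HasPrincipalDivisors Qbar ↥(modularFunctionFieldBar M')] :
    FundamentalIdentityAlong Qbar (betaTo Qbar M ℓ M' h) (betaTo_integral_bar h) :=
  fundamentalIdentityAlong_of_normFormula _ _ (betaTo_finite_bar h) (betaTo_normFormula_bar h)

theorem intertwines_betaTo (h : M * ℓ = M') (σ : Qbar ≃ₐ[ℚ] Qbar) :
    SemilinearAut.IntertwinesAlong
      ((betaTo Qbar M ℓ M' h : _root_.Fermat.Agent.S29.H801.FB Qbar M →ₐ[Qbar] _root_.Fermat.Agent.S29.H801.FB Qbar M') : _ →+* _)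
      (arithmeticGalois (modularFunctionFieldFull M) σ)
      (arithmeticGalois (modularFunctionFieldFull M') σ) := by
  subst h
  exact Fermat.Agent.S29.H571.intertwines_heckeBetaBar M ℓ σ

end Retarget

variable (N q r : ℕ) [NeZero N] [NeZero q] [NeZero r]

/-- The pull-back `β_r^* : J₀(N) → J₀(N r)` along `V_r : f(z) ↦ f(r z)`. -/
def betaPull : JZero N →+ JZero (N * r) :=
  haveI := H864.hasPrincipalDivisors_FF (N * r)
  pullbackPic0Along (betaTo Qbar N r (N * r) rfl) (betaTo_integral_bar rfl)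
    (betaTo_fundamentalIdentity_bar rfl)

/-- The pull-back `β_r^* : J₀(N q) → J₀(N r q)` (top level written as `N * r * q`). -/
def betaPullTop : JZero (N * q) →+ JZero (N * r * q) :=
  haveI := H864.hasPrincipalDivisors_FF (N * r * q)
  pullbackPic0Along (betaTo Qbar (N * q) r (N * r * q) (Nat.mul_right_comm N q r))
    (betaTo_integral_bar _) (betaTo_fundamentalIdentity_bar _)

/-- `π^*` is Galois-equivariant. -/
theorem betaPullTop_smul (σ : Qbar ≃ₐ[ℚ] Qbar) (x : JZero (N * q)) :
    betaPullTop N q r (σ • x) = σ • betaPullTop N q r x := by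
  haveI := H864.hasPrincipalDivisors_FF (N * r * q)
  rw [galois_smul_pic0_def, galois_smul_pic0_def]
  exact pullbackPic0Along_smul _ _ (intertwines_betaTo (Nat.mul_right_comm N q r) σ) _ x

/-- The degree of `π`. -/
def neatDegree : ℕ :=
  finrankAlong Qbar (betaTo Qbar (N * q) r (N * r * q) (Nat.mul_right_comm N q r))

theorem neatDegree_ne_zero : neatDegree N q r ≠ 0 :=
  finrankAlong_ne_zero _ (betaTo_finite_bar _)

/-- `π^* x = 0 ⇒ deg π • x = 0`. -/
theorem nsmul_eq_zero_of_betaPullTop (x : JZero (N * q)) (hx : betaPullTop N q r x = 0) :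
    neatDegree N q r • x = 0 := by
  haveI := H864.hasPrincipalDivisors_FF (N * r * q)
  exact nsmul_eq_zero_of_pullbackPic0Along_eq_zero _ _ (betaTo_finite_bar _)
    (betaTo_normFormula_bar _) (betaTo_fundamentalIdentity_bar _) x hx

/-- Norm compatibility of the `ββ`-square with top level `N * r * q`. -/
theorem normCompat_beta_top (hq : q.Prime) (hr : r.Prime) (hne : r ≠ q)
    (M' : ℕ) [NeZero M'] (h₁ : N * r * q = M') (h₂ : N * q * r = M') :
    NormCompat (heckeBetaBar Qbar N q) (heckeBetaBar Qbar N r)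
      (betaTo Qbar (N * r) q M' h₁) (betaTo Qbar (N * q) r M' h₂) := by
  subst h₂
  exact normCompat_beta_bar N q r hq hr hne

/-- **Base change, `α`**: `α_{q,*} ∘ π^* = β_r^* ∘ α_{q,*}`. -/
theorem alphaPush_betaPullTop (hq : q.Prime) (hr : r.Prime) (hne : r ≠ q) (x : JZero (N * q)) :
    alphaPush (N * r) q (betaPullTop N q r x) = betaPull N r (alphaPush N q x) := by
  haveI := H864.hasPrincipalDivisors_FF (N * r * q)
  haveI := H864.hasPrincipalDivisors_FF (N * r)
  haveI := H864.hasPrincipalDivisors_FF (N * q)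
  exact (pullbackPic0Along_pushPic0
    (heckeAlphaBar Qbar N q) (betaTo Qbar N r (N * r) rfl) (heckeAlphaBar Qbar (N * r) q)
    (betaTo Qbar (N * q) r (N * r * q) (Nat.mul_right_comm N q r))
    (H864.heckeAlphaBarIntegral N q) (betaTo_integral_bar rfl)
    (H864.heckeAlphaBarIntegral (N * r) q) (betaTo_integral_bar _)
    (rel_sq₁ N r q)
    (H864.finiteAlong_alpha N q) (H864.normFormulaAlong_alpha N q _)
    (H864.finiteAlong_alpha (N * r) q) (H864.normFormulaAlong_alpha (N * r) q _)
    (betaTo_fundamentalIdentity_bar rfl) (betaTo_fundamentalIdentity_bar _)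
    (normCompat_bar N r q hr hq hne)
    (hasLocalGenerators_of_hasPrincipalDivisors _ _) x).symm

/-- **Base change, `β`**: `β_{q,*} ∘ π^* = β_r^* ∘ β_{q,*}`. -/
theorem betaPush_betaPullTop (hq : q.Prime) (hr : r.Prime) (hne : r ≠ q) (x : JZero (N * q)) :
    betaPush (N * r) q (betaPullTop N q r x) = betaPull N r (betaPush N q x) := by
  haveI := H864.hasPrincipalDivisors_FF (N * r * q)
  haveI := H864.hasPrincipalDivisors_FF (N * r)
  haveI := H864.hasPrincipalDivisors_FF (N * q)
  exact (pullbackPic0Along_pushPic0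
    (heckeBetaBar Qbar N q) (betaTo Qbar N r (N * r) rfl) (betaTo Qbar (N * r) q (N * r * q) rfl)
    (betaTo Qbar (N * q) r (N * r * q) (Nat.mul_right_comm N q r))
    (H864.heckeBetaBarIntegral N q) (betaTo_integral_bar rfl)
    (betaTo_integral_bar rfl) (betaTo_integral_bar _)
    (rel_BB N r q).symm
    (H864.finiteAlong_beta N q) (H864.normFormulaAlong_beta N q _)
    (betaTo_finite_bar rfl) (betaTo_normFormula_bar rfl)
    (betaTo_fundamentalIdentity_bar rfl) (betaTo_fundamentalIdentity_bar _)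
    (normCompat_beta_top N q r hq hr hne (N * r * q) rfl (Nat.mul_right_comm N q r))
    (hasLocalGenerators_of_hasPrincipalDivisors _ _) x).symm

open Fermat.Agent.S35.H155 in
/-- `π^*` preserves `q`-new classes. -/
theorem isQNew_betaPullTop (hq : q.Prime) (hr : r.Prime) (hne : r ≠ q) {x : JZero (N * q)}
    (hx : IsQNew N q x) : IsQNew (N * r) q (betaPullTop N q r x) := by
  refine ⟨?_, ?_⟩
  · rw [pushA_eq_alphaPush, alphaPush_betaPullTop N q r hq hr hne, ← pushA_eq_alphaPush, hx.1,
      map_zero]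
  · rw [pushB_eq_betaPush, betaPush_betaPullTop N q r hq hr hne, ← pushB_eq_betaPush, hx.2,
      map_zero]

open Fermat.Agent.S35.H155 in
/-- **NEAT-LEVEL descent.**  A bound for the `H`-fixed `p`-power torsion of the `q`-new part at
level `N r q` gives a bound at level `N q`. -/
theorem neat_descent (hq : q.Prime) (hr : r.Prime) (hne : r ≠ q) {p : ℕ} (hp : p.Prime)
    (H : Subgroup (Qbar ≃ₐ[ℚ] Qbar))
    (hneat : ∃ k : ℕ, ∀ x : JZero (N * r * q), (∃ n : ℕ, p ^ n • x = 0) →
      (∀ γ : Qbar ≃ₐ[ℚ] Qbar, IsQNew (N * r) q (γ • x)) →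
      (∀ τ ∈ H, τ • x = x) → p ^ k • x = 0) :
    ∃ k : ℕ, ∀ x : JZero (N * q), (∃ n : ℕ, p ^ n • x = 0) →
      (∀ γ : Qbar ≃ₐ[ℚ] Qbar, IsQNew N q (γ • x)) →
      (∀ τ ∈ H, τ • x = x) → p ^ k • x = 0 := by
  obtain ⟨k, hk⟩ := hneat
  refine ⟨k + neatDegree N q r, fun x ⟨n, hn⟩ hnew hfix => ?_⟩
  have h1 : p ^ k • betaPullTop N q r x = 0 := by
    refine hk _ ⟨n, ?_⟩ (fun γ => ?_) (fun τ hτ => ?_)
    · rw [← map_nsmul, hn, map_zero]
    · rw [← betaPullTop_smul]
      exact isQNew_betaPullTop N q r hq hr hne (hnew γ)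
    · rw [← betaPullTop_smul, hfix τ hτ]
  have h2 : neatDegree N q r • (p ^ k • x) = 0 := by
    apply nsmul_eq_zero_of_betaPullTop
    rw [map_nsmul, h1]
  refine pow_nsmul_eq_zero_of_mul hp (neatDegree_ne_zero N q r) hn ?_
  rw [mul_nsmul]
  exact h2

end Modular

end Fermat.Agent.S36.H442

end

end
-- ===== PACK-END S36/H442/Neat.lean

-- ===== PACK-BEGIN S36/H442/NeatStmt.lean
section
/-
S36 / cell NEAT-LEVEL (helper442), statement level: the engine on `J₀(N q)` (helper36's
`QNewInertiaStatement`, `origin/helper36:Fermat/Agent/S36/H36/Deg.lean`) follows from the engine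
at the NEAT levels `N r q`, `r ≡ 11 mod 12` prime, `r ∤ N q p`, `r > B(N, q, p)` for any bound.

* `QNewInertiaAt N q p P`     : the engine at ONE level (the body of `QNewInertiaStatement`);
* `qNewInertiaAt_of_mul`      : `QNewInertiaAt (N * r) q p P → QNewInertiaAt N q p P`, `r ≠ q`;
* `exists_neat_prime`         : Dirichlet, primes `≡ 11 mod 12` above any bound;
* `QNewInertiaNeatStatement`  : the engine at neat levels;
* `qNewInertia_of_neat`       : `QNewInertiaNeatStatement → ` (the body of)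
                                `H36.QNewInertiaStatement`, verbatim.
-/



set_option autoImplicit false
set_option linter.style.haveILetI false

noncomputable section

namespace Fermat.Agent.S36.H442

open ModularCurve Fermat.Agent.S35.H155

/-- **The engine at one level**: the `I_P`-fixed `p`-power torsion of the `q`-new part of
`J₀(N q)` is killed by some `p ^ k`. -/
def QNewInertiaAt (N q p : ℕ) [NeZero N] [NeZero q]
    (P : ValuationSubring (AlgebraicClosure ℚ)) : Prop :=
  ∃ k : ℕ, ∀ x : JZero (N * q), (∃ n : ℕ, p ^ n • x = 0) → IsQNew N q x →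
    (∀ τ ∈ P.inertiaSubgroupIn ℚ, τ • x = x) → p ^ k • x = 0

/-- **NEAT-LEVEL descent, one step**: the engine at level `N r q` gives the engine at level
`N q`, for any prime `r ≠ q`. -/
theorem qNewInertiaAt_of_mul (N q r p : ℕ) [NeZero N] [NeZero q] [NeZero r] (hq : q.Prime)
    (hr : r.Prime) (hne : r ≠ q) (hp : p.Prime) (P : ValuationSubring (AlgebraicClosure ℚ))
    (h : QNewInertiaAt (N * r) q p P) : QNewInertiaAt N q p P := by
  obtain ⟨k, hk⟩ := h
  obtain ⟨k', hk'⟩ := neat_descent N q r hq hr hne hp (P.inertiaSubgroupIn ℚ)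
    ⟨k, fun x hx hnew hfix => hk x hx (by simpa using hnew 1) hfix⟩
  exact ⟨k', fun x hx hnew hfix => hk' x hx (fun γ => hnew.galois γ) hfix⟩

/-- Dirichlet: there are primes `r ≡ 11 mod 12` above any bound. -/
theorem exists_neat_prime (B : ℕ) : ∃ r : ℕ, B < r ∧ r.Prime ∧ r % 12 = 11 := by
  obtain ⟨r, hB, hr, hmod⟩ :=
    Nat.forall_exists_prime_gt_and_modEq B (q := 12) (a := 11) (by norm_num) (by norm_num)
  exact ⟨r, hB, hr, hmod⟩

/-- **The engine at neat levels**: level `N r q` with `q ‖ N`, `r ≡ 11 mod 12` a prime not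
dividing `N q p` and larger than `N q p`. -/
def QNewInertiaNeatStatement : Prop :=
  ∀ (N q r p : ℕ) [NeZero N] [NeZero q] [NeZero r], q.Prime → N.factorization q = 1 →
    r.Prime → r % 12 = 11 → ¬ r ∣ N * q * p → N * q * p < r → p.Prime → p ≠ q →
    ∀ P : ValuationSubring (AlgebraicClosure ℚ), P.LiesOverPrime q →
      (N * r).factorization q = 1 → QNewInertiaAt (N * r) q p P

/-- `q ‖ N`, `r ≠ q` prime  ⟹  `q ‖ N r`. -/
theorem factorization_mul_prime_eq_one {N q r : ℕ} (hN : N ≠ 0) (hr : r.Prime) (hne : r ≠ q)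
    (h : N.factorization q = 1) : (N * r).factorization q = 1 := by
  rw [Nat.factorization_mul hN hr.ne_zero, Finsupp.add_apply, h, hr.factorization,
    Finsupp.single_eq_of_ne hne.symm, add_zero]

/-- **NEAT-LEVEL wrapper.**  The engine at neat levels implies the engine at all levels
(the conclusion is the body of helper36's `QNewInertiaStatement`). -/
theorem qNewInertia_of_neat (h : QNewInertiaNeatStatement) :
    ∀ (N q p : ℕ) [NeZero N] [NeZero q], q.Prime → N.factorization q = 1 → p.Prime → p ≠ q →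
      ∀ P : ValuationSubring (AlgebraicClosure ℚ), P.LiesOverPrime q →
        ∃ k : ℕ, ∀ x : JZero (N * q), (∃ n : ℕ, p ^ n • x = 0) → IsQNew N q x →
          (∀ τ ∈ P.inertiaSubgroupIn ℚ, τ • x = x) → p ^ k • x = 0 := by
  intro N q p _ _ hq hfac hp hpq P hP
  obtain ⟨r, hB, hr, hmod⟩ := exists_neat_prime (N * q * p)
  haveI : NeZero r := ⟨hr.ne_zero⟩
  have hpos : 0 < N * q * p :=
    Nat.mul_pos (Nat.mul_pos (Nat.pos_of_ne_zero (NeZero.ne N)) hq.pos) hp.pos
  have hndvd : ¬ r ∣ N * q * p := fun hd => absurd (Nat.le_of_dvd hpos hd) (not_le.mpr hB)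
  have hne : r ≠ q := by
    rintro rfl
    exact hndvd ((Dvd.intro_left N rfl).mul_right p)
  exact qNewInertiaAt_of_mul N q r p hq hr hne hp P
    (h N q r p hq hfac hr hmod hndvd hB hp hpq P hP
      (factorization_mul_prime_eq_one (NeZero.ne N) hr hne hfac))

end Fermat.Agent.S36.H442

end

end
-- ===== PACK-END S36/H442/NeatStmt.lean

-- ===== PACK-BEGIN S36/H36/KummerAt.lean
section
/-
S36 engine, layers (i)+(ii) POINTWISE and at NEAT levels (helper36).

* `KummerQNewInertiaAt N q p P`   : the Kummer form of the engine at ONE level `(N, q, p, P)`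
                                     (the body of `KummerQNewInertiaStatement`);
* `qNewInertiaAt_of_kummerAt`     : `KummerQNewInertiaAt N q p P → H442.QNewInertiaAt N q p P`;
* `KummerQNewInertiaNeatStatement`: the Kummer form at the neat levels `N r q` of helper442
                                     (`r ≡ 11 mod 12` prime, `r ∤ N q p`, `r > N q p`);
* `newPartInertiaStatement_of_kummerNeat` :
      `KummerQNewInertiaNeatStatement → NewPartInertiaStatement`
  (helper442's `qNewInertia_of_neat` + layer (i)).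

So the geometric engine is only needed at neat levels.
-/



set_option autoImplicit false
set_option linter.style.haveILetI false

noncomputable section

namespace Fermat.Agent.S36.H36

open AlgebraicCurve ModularCurve Fermat.Agent.A2

/-- **The engine, Kummer form, at one level.** -/
def KummerQNewInertiaAt (N q p : ℕ) [NeZero N] [NeZero q]
    (P : ValuationSubring Qb) : Prop :=
  ∃ k : ℕ, ∀ (n : ℕ) (f : modularFunctionFieldBar (N * q)), f ≠ 0 →
    (∀ v : Place Qb (modularFunctionFieldBar (N * q)), ((p ^ n : ℕ) : ℤ) ∣ v.ord f) →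
    (∃ h : modularFunctionFieldBar N, h ≠ 0 ∧
      Fermat.Agent.S29.H395.normAlong (heckeAlphaBar Qb N q) f = h ^ (p ^ n)) →
    (∃ h : modularFunctionFieldBar N, h ≠ 0 ∧
      Fermat.Agent.S29.H395.normAlong (heckeBetaBar Qb N q) f = h ^ (p ^ n)) →
    (∀ τ ∈ P.inertiaSubgroupIn ℚ, ∃ y : modularFunctionFieldBar (N * q), y ≠ 0 ∧
      arithmeticRingAut (modularFunctionFieldFull (N * q)) τ f = y ^ (p ^ n) * f) →
    ∃ y : modularFunctionFieldBar (N * q), y ≠ 0 ∧ f ^ (p ^ k) = y ^ (p ^ n)

theorem kummerQNewInertiaStatement_iff :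
    KummerQNewInertiaStatement ↔
      ∀ (N q p : ℕ) [NeZero N] [NeZero q], q.Prime → N.factorization q = 1 → p.Prime → p ≠ q →
        ∀ P : ValuationSubring Qb, P.LiesOverPrime q → KummerQNewInertiaAt N q p P :=
  Iff.rfl

/-- **Layer (ii), pointwise.** -/
theorem qNewInertiaAt_of_kummerAt (N q p : ℕ) [NeZero N] [NeZero q] (hp : p.Prime)
    (P : ValuationSubring Qb) (hK : KummerQNewInertiaAt N q p P) :
    Fermat.Agent.S36.H442.QNewInertiaAt N q p P := by
  obtain ⟨k, hk⟩ := hK
  refine ⟨k, fun x hx hnew hfix => ?_⟩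
  obtain ⟨n, hn⟩ := hx
  haveI : NeZero (N * q) := ⟨Nat.mul_ne_zero (NeZero.ne N) (NeZero.ne q)⟩
  set m : ℕ := p ^ n with hmdef
  have hm : 0 < m := pow_pos hp.pos n
  obtain ⟨D, rfl⟩ := Pic0.mk_surjective x
  rw [Fermat.Agent.S35.H155.isQNew_mk_iff] at hnew
  obtain ⟨⟨a, ha, haD⟩, ⟨b, hb, hbD⟩⟩ := hnew
  -- the Kummer generator
  have hprin : ((m • D : Divisor.degZero (K := Qb) (F := modularFunctionFieldBar (N * q))) :
      Divisor Qb (modularFunctionFieldBar (N * q))) ∈
      Divisor.principal (K := Qb) (F := modularFunctionFieldBar (N * q)) := by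
    have h0 : Pic0.mk (m • D) = 0 := hn
    have := (QuotientAddGroup.eq_zero_iff (m • D)).1 h0
    simpa [AddSubgroup.mem_addSubgroupOf] using this
  obtain ⟨f, hf, hfD⟩ := hprin
  have hfD' : ∀ v : Place Qb (modularFunctionFieldBar (N * q)),
      v.ord f = (m : ℤ) * (D : Divisor Qb (modularFunctionFieldBar (N * q))) v := by
    intro v
    rw [← hfD v]
    simp [Finsupp.smul_apply]
  have hfD'' : ∀ w : Place Qb (modularFunctionFieldBar (N * q)),
      ((m : ℤ) • (D : Divisor Qb (modularFunctionFieldBar (N * q)))) w = w.ord f := by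
    intro w
    rw [Finsupp.smul_apply, smul_eq_mul, hfD' w]
  -- the norm formula for `α` and `β`
  haveI hPD : HasPrincipalDivisors Qb (modularFunctionFieldBar (N * q)) :=
    Fermat.Agent.Lib.RR.H864.hasPrincipalDivisors_modularFunctionFieldBar (N * q)
  have hF := Fermat.Agent.S29.H812.exists_coord_modular N
  have hα := Fermat.Agent.Lib.FF398.heckeAlphaBarIntegral N q
  have hβ := Fermat.Agent.Lib.FF398.heckeBetaBarIntegral N q
  have hfinα := Fermat.Agent.S29.H812.finiteAlong_heckeAlphaBar N q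
  have hfinβ := Fermat.Agent.S29.H812.finiteAlong_heckeBetaBar N q
  have hNα := Fermat.Agent.S29.H812.normFormulaAlong hF (heckeAlphaBar Qb N q) hfinα
  have hNβ := Fermat.Agent.S29.H812.normFormulaAlong hF (heckeBetaBar Qb N q) hfinβ
  have hordα : ∀ v : Place Qb (modularFunctionFieldBar N),
      v.ord (Fermat.Agent.S29.H395.normAlong (heckeAlphaBar Qb N q) f) = (m : ℤ) * v.ord a := by
    intro v
    rw [← Fermat.Agent.S29.H395.pushforwardAlong_apply_eq_ord (heckeAlphaBar Qb N q) hα hfinα hNα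
      hf hfD'' v, map_zsmul, Finsupp.smul_apply, smul_eq_mul, haD v]
  have hordβ : ∀ v : Place Qb (modularFunctionFieldBar N),
      v.ord (Fermat.Agent.S29.H395.normAlong (heckeBetaBar Qb N q) f) = (m : ℤ) * v.ord b := by
    intro v
    rw [← Fermat.Agent.S29.H395.pushforwardAlong_apply_eq_ord (heckeBetaBar Qb N q) hβ hfinβ hNβ
      hf hfD'' v, map_zsmul, Finsupp.smul_apply, smul_eq_mul, hbD v]
  have hα' := Fermat.Agent.S35.H909.exists_pow_eq_of_ord N m hm
    (Fermat.Agent.S29.H395.normAlong_ne_zero _ hfinα hf) ha hordα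
  have hβ' := Fermat.Agent.S35.H909.exists_pow_eq_of_ord N m hm
    (Fermat.Agent.S29.H395.normAlong_ne_zero _ hfinβ hf) hb hordβ
  -- the fixed condition
  have hfixK : ∀ τ ∈ P.inertiaSubgroupIn ℚ, ∃ y : modularFunctionFieldBar (N * q), y ≠ 0 ∧
      arithmeticRingAut (modularFunctionFieldFull (N * q)) τ f = y ^ m * f := by
    intro τ hτ
    have h1 : arithmeticGalois (L := Qb) (modularFunctionFieldFull (N * q)) τ • Pic0.mk D
        = Pic0.mk D := hfix τ hτ
    obtain ⟨y, hy, hyw⟩ := exists_ord_eq_of_smul_eq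
      (arithmeticGalois (L := Qb) (modularFunctionFieldFull (N * q)) τ) m D hfD' h1
    rw [toRingAut_arithmeticGalois] at hyw
    set τf := arithmeticRingAut (modularFunctionFieldFull (N * q)) τ f with hτf
    have hτf0 : τf ≠ 0 := by
      rw [hτf]
      exact (map_ne_zero_iff _
        (arithmeticRingAut (modularFunctionFieldFull (N * q)) τ).injective).2 hf
    have hyf0 : y ^ m * f ≠ 0 := mul_ne_zero (pow_ne_zero _ hy) hf
    -- `τ f = (y ^ m * f) * (unit of order zero everywhere)`
    have hy' : ∀ w : Place Qb (modularFunctionFieldBar (N * q)),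
        w.ord τf = w.ord (y ^ m * f) := by
      intro w
      rw [hyw w, w.ord_mul (pow_ne_zero _ hy) hf, Fermat.Agent.A2.H129.ord_pow]
    have h2 := Fermat.Agent.S35.H909.exists_pow_eq_of_ord (N * q) m hm
      (y := τf * (y ^ m * f)⁻¹ * y ^ m) (a := y)
      (mul_ne_zero (mul_ne_zero hτf0 (inv_ne_zero hyf0)) (pow_ne_zero _ hy)) hy (fun w => by
        rw [w.ord_mul (mul_ne_zero hτf0 (inv_ne_zero hyf0)) (pow_ne_zero _ hy),
          Fermat.Agent.A2.H129.ord_div w hτf0 hyf0, hy' w, sub_self, zero_add,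
          Fermat.Agent.A2.H129.ord_pow])
    obtain ⟨z, hz, hzy⟩ := h2
    refine ⟨z, hz, ?_⟩
    rw [← hzy]
    field_simp
  obtain ⟨y, hy, hyf⟩ := hk n f hf (fun v => ⟨_, hfD' v⟩) hα' hβ' hfixK
  exact nsmul_mk_eq_zero_of_pow_eq m (p ^ k) hm.ne' D hfD' hy hyf


/-- **The engine, Kummer form, at the neat levels** `N r q` (`q ‖ N`, `r ≡ 11 mod 12` a prime
not dividing `N q p` and larger than `N q p`). -/
def KummerQNewInertiaNeatStatement : Prop :=
  ∀ (N q r p : ℕ) [NeZero N] [NeZero q] [NeZero r], q.Prime → N.factorization q = 1 →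
    r.Prime → r % 12 = 11 → ¬ r ∣ N * q * p → N * q * p < r → p.Prime → p ≠ q →
    ∀ P : ValuationSubring Qb, P.LiesOverPrime q →
      (N * r).factorization q = 1 → KummerQNewInertiaAt (N * r) q p P

/-- The engine on `J₀` at neat levels from its Kummer form at neat levels. -/
theorem qNewInertiaNeat_of_kummerNeat (h : KummerQNewInertiaNeatStatement) :
    Fermat.Agent.S36.H442.QNewInertiaNeatStatement := by
  intro N q r p _ _ _ hq hfac hr hmod hndvd hB hp hpq P hP hfac'
  haveI : NeZero (N * r) := ⟨Nat.mul_ne_zero (NeZero.ne N) (NeZero.ne r)⟩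
  exact qNewInertiaAt_of_kummerAt (N * r) q p hp P
    (h N q r p hq hfac hr hmod hndvd hB hp hpq P hP hfac')

/-- **The engine consumed by the mid layer, from the Kummer form at NEAT levels.** -/
theorem newPartInertiaStatement_of_kummerNeat (h : KummerQNewInertiaNeatStatement) :
    NewPartInertiaStatement :=
  newPartInertiaStatement_of_qNew
    (Fermat.Agent.S36.H442.qNewInertia_of_neat (qNewInertiaNeat_of_kummerNeat h))

end Fermat.Agent.S36.H36

end
end
-- ===== PACK-END S36/H36/KummerAt.lean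

-- ===== PACK-BEGIN S36/H756/Wire.lean
section







/-!
# S36 engine, cell DESC-WIRE (owner helper756)

The engine `H36.KummerQNewInertiaAt N q p P` (helper36, Kummer form over `Q̄`, with the Galois
action of the inertia group `I_P`) follows from a statement over the **inertia field**
`E = Q̄^{I_P}` in which NO Galois action occurs:

`KummerFixedAtC N q p P` : there is `C ≠ 0` such that for all `n` and all
`y ∈ F_E(N q)ˣ` (`F_E(X) = laurentBaseChange E (modularFunctionFieldFull X)`) with

* `A2.DivisibleDiv E (p ^ n) y`  (locally `y = unit · h ^ (p ^ n)` at every DVR of `F_E / E`),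
* `N_α y = c₁ · h₁ ^ (p ^ n)`, `N_β y = c₂ · h₂ ^ (p ^ n)` with `c_i ∈ Eˣ`, `h_i ∈ F_E(N)ˣ`,

we have `y ^ C = c · z ^ (p ^ n)` for some `c ∈ E`, `z ∈ F_E(N q)ˣ`.

* `kummerQNewInertiaAt_of_fixedAtC : KummerFixedAtC N q p P → H36.KummerQNewInertiaAt N q p P`
  (with `k = v_p(C)`).
* `kummerQNewInertiaNeatStatement_of_fixed`, `newPartInertiaStatement_of_fixed` : the same at
  the neat levels, down to helper36's `NewPartInertiaStatement`.
-/

set_option autoImplicit false
set_option linter.style.haveILetI false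
set_option synthInstance.maxHeartbeats 400000
set_option maxHeartbeats 1600000

noncomputable section

namespace Fermat.Agent.S36.H756

open AlgebraicCurve ModularCurve IntermediateField
open Fermat.Agent.A2.T1.H669 (iota)
open Fermat.Agent.S29.H395 (normAlong)

local notation "Q̄" => AlgebraicClosure ℚ

section NormConst

variable {K F F' : Type*} [Field K] [Field F] [Field F'] [Algebra K F] [Algebra K F']

/-- The norm of a constant is a constant. -/
theorem normAlong_algebraMap_const (ψ : F →ₐ[K] F') (a : K) :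
    ∃ d : ℕ, normAlong ψ (algebraMap K F' a) = algebraMap K F (a ^ d) := by
  letI := algebraAlong ψ
  refine ⟨Module.finrank F F', ?_⟩
  have h1 : algebraMap K F' a = algebraMap F F' (algebraMap K F a) := (ψ.commutes a).symm
  show Algebra.norm F (algebraMap K F' a) = _
  rw [h1, Algebra.norm_algebraMap, map_pow]

end NormConst

/-- **The engine over the inertia field** `E = Q̄^{I_P}` (no Galois action). -/
def KummerFixedAtC (N q p : ℕ) [NeZero N] [NeZero q] (P : ValuationSubring Q̄) : Prop :=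
  ∃ C : ℕ, C ≠ 0 ∧ ∀ (n : ℕ)
    (y : laurentBaseChange (fixedField (P.inertiaSubgroupIn ℚ))
      (modularFunctionFieldFull (N * q))), y ≠ 0 →
    Fermat.Agent.A2.DivisibleDiv (fixedField (P.inertiaSubgroupIn ℚ)) (p ^ n) y →
    (∃ (c : fixedField (P.inertiaSubgroupIn ℚ))
      (h : laurentBaseChange (fixedField (P.inertiaSubgroupIn ℚ)) (modularFunctionFieldFull N)),
      c ≠ 0 ∧ h ≠ 0 ∧
      normAlong (heckeAlphaBar (fixedField (P.inertiaSubgroupIn ℚ)) N q) y
        = algebraMap (fixedField (P.inertiaSubgroupIn ℚ)) _ c * h ^ (p ^ n)) →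
    (∃ (c : fixedField (P.inertiaSubgroupIn ℚ))
      (h : laurentBaseChange (fixedField (P.inertiaSubgroupIn ℚ)) (modularFunctionFieldFull N)),
      c ≠ 0 ∧ h ≠ 0 ∧
      normAlong (heckeBetaBar (fixedField (P.inertiaSubgroupIn ℚ)) N q) y
        = algebraMap (fixedField (P.inertiaSubgroupIn ℚ)) _ c * h ^ (p ^ n)) →
    ∃ (c : fixedField (P.inertiaSubgroupIn ℚ))
      (z : laurentBaseChange (fixedField (P.inertiaSubgroupIn ℚ))
        (modularFunctionFieldFull (N * q))),
      z ≠ 0 ∧ y ^ C = algebraMap (fixedField (P.inertiaSubgroupIn ℚ)) _ c * z ^ (p ^ n)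

/-- **DESC-WIRE.**  The engine over the inertia field implies helper36's Kummer form of the
engine. -/
theorem kummerQNewInertiaAt_of_fixedAtC (N q p : ℕ) [NeZero N] [NeZero q] (hp : p.Prime)
    (P : ValuationSubring Q̄) (hE : KummerFixedAtC N q p P) :
    Fermat.Agent.S36.H36.KummerQNewInertiaAt N q p P := by
  obtain ⟨C, hC, hE⟩ := hE
  refine ⟨C.factorization p, fun n f hf hdiv hα hβ hfix => ?_⟩
  have hm0 : 0 < p ^ n := pow_pos hp.pos n
  -- Step 1: DESC
  obtain ⟨a, ha, b, hb, hfixed⟩ := exists_fixed_rep (P.inertiaSubgroupIn ℚ) (p ^ n) f hf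
    (fun τ hτ => by
      obtain ⟨y, hy, e⟩ := hfix τ hτ
      exact ⟨1, one_ne_zero, y, hy, by rw [map_one, one_mul]; exact e⟩)
  have haK : algebraMap Q̄ (modularFunctionFieldBar (N * q)) a ≠ 0 := by simpa using ha
  have hbm : b ^ (p ^ n) ≠ 0 := pow_ne_zero _ hb
  obtain ⟨y₀, hy₀⟩ := exists_iota_eq_of_fixed (P.inertiaSubgroupIn ℚ) _ hfixed
  have hy₀0 : y₀ ≠ 0 := by
    rintro rfl
    rw [map_zero] at hy₀
    exact mul_ne_zero (mul_ne_zero haK hbm) hf hy₀.symm
  -- Step 2: divisibility
  have hDD : Fermat.Agent.A2.DivisibleDiv (fixedField (P.inertiaSubgroupIn ℚ)) (p ^ n) y₀ := by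
    refine Fermat.Agent.A2.T1.H669.divisibleDiv_of_ord (fixedField (P.inertiaSubgroupIn ℚ))
      (modularFunctionFieldFull (N * q)) (p ^ n) y₀ hy₀0 fun v => ?_
    rw [hy₀, v.ord_mul (mul_ne_zero haK hbm) hf, v.ord_mul haK hbm, ord_const_eq_zero,
      zero_add, ord_npow]
    exact dvd_add (dvd_mul_right _ _) (hdiv v)
  -- Step 3: the norms
  have hfinα := Fermat.Agent.S29.H812.finiteAlong_heckeAlphaBar N q
  have hfinβ := Fermat.Agent.S29.H812.finiteAlong_heckeBetaBar N q
  have hNα : ∃ (c : fixedField (P.inertiaSubgroupIn ℚ))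
      (h : laurentBaseChange (fixedField (P.inertiaSubgroupIn ℚ)) (modularFunctionFieldFull N)),
      c ≠ 0 ∧ h ≠ 0 ∧
      normAlong (heckeAlphaBar (fixedField (P.inertiaSubgroupIn ℚ)) N q) y₀
        = algebraMap (fixedField (P.inertiaSubgroupIn ℚ)) _ c * h ^ (p ^ n) := by
    obtain ⟨h, hh, e⟩ := hα
    obtain ⟨d, hd⟩ := normAlong_algebraMap_const (heckeAlphaBar Q̄ N q) a
    refine descend_const_mul_pow (P.inertiaSubgroupIn ℚ) hm0 _ (a ^ d)
      (normAlong (heckeAlphaBar Q̄ N q) b * h) (pow_ne_zero d ha)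
      (mul_ne_zero (Fermat.Agent.S29.H395.normAlong_ne_zero _ hfinα hb) hh) ?_
    rw [Fermat.Agent.S35.H858.iota_normAlong_alpha (fixedField (P.inertiaSubgroupIn ℚ)) N q
        hfinα y₀, hy₀,
      Fermat.Agent.S29.H395.normAlong_mul, Fermat.Agent.S29.H395.normAlong_mul,
      Fermat.Agent.S29.H395.normAlong_pow, hd, e, mul_pow, mul_assoc]
  have hNβ : ∃ (c : fixedField (P.inertiaSubgroupIn ℚ))
      (h : laurentBaseChange (fixedField (P.inertiaSubgroupIn ℚ)) (modularFunctionFieldFull N)),
      c ≠ 0 ∧ h ≠ 0 ∧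
      normAlong (heckeBetaBar (fixedField (P.inertiaSubgroupIn ℚ)) N q) y₀
        = algebraMap (fixedField (P.inertiaSubgroupIn ℚ)) _ c * h ^ (p ^ n) := by
    obtain ⟨h, hh, e⟩ := hβ
    obtain ⟨d, hd⟩ := normAlong_algebraMap_const (heckeBetaBar Q̄ N q) a
    refine descend_const_mul_pow (P.inertiaSubgroupIn ℚ) hm0 _ (a ^ d)
      (normAlong (heckeBetaBar Q̄ N q) b * h) (pow_ne_zero d ha)
      (mul_ne_zero (Fermat.Agent.S29.H395.normAlong_ne_zero _ hfinβ hb) hh) ?_
    rw [Fermat.Agent.S35.H858.iota_normAlong_beta (fixedField (P.inertiaSubgroupIn ℚ)) N q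
        hfinβ y₀, hy₀,
      Fermat.Agent.S29.H395.normAlong_mul, Fermat.Agent.S29.H395.normAlong_mul,
      Fermat.Agent.S29.H395.normAlong_pow, hd, e, mul_pow, mul_assoc]
  -- Step 4: the engine over `E`
  obtain ⟨c, z, hz, e⟩ := hE n y₀ hy₀0 hDD hNα hNβ
  have e' : (algebraMap Q̄ (modularFunctionFieldBar (N * q)) a * b ^ (p ^ n) * f) ^ C
      = algebraMap Q̄ (modularFunctionFieldBar (N * q)) (c : Q̄)
        * (iota (fixedField (P.inertiaSubgroupIn ℚ)) (modularFunctionFieldFull (N * q)) z)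
          ^ (p ^ n) := by
    rw [← hy₀, ← map_pow, e, map_mul, map_pow, iota_algebraMap_E]
  -- Step 5: back to `f`
  obtain ⟨c'', hc''⟩ := IsAlgClosed.exists_pow_nat_eq ((c : Q̄) / a ^ C) hm0
  have hfC : f ^ C = (algebraMap Q̄ (modularFunctionFieldBar (N * q)) c''
      * iota (fixedField (P.inertiaSubgroupIn ℚ)) (modularFunctionFieldFull (N * q)) z
      * (b ^ C)⁻¹) ^ (p ^ n) := by
    have haC : algebraMap Q̄ (modularFunctionFieldBar (N * q)) a ^ C ≠ 0 := pow_ne_zero C haK
    have hbC : b ^ C ≠ 0 := pow_ne_zero C hb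
    have h1 : algebraMap Q̄ (modularFunctionFieldBar (N * q)) c'' ^ (p ^ n)
        = algebraMap Q̄ (modularFunctionFieldBar (N * q)) (c : Q̄)
          * (algebraMap Q̄ (modularFunctionFieldBar (N * q)) a ^ C)⁻¹ := by
      rw [← map_pow, hc'', map_div₀, map_pow, div_eq_mul_inv]
    have h2 : f ^ C = (algebraMap Q̄ (modularFunctionFieldBar (N * q)) a ^ C)⁻¹
        * ((b ^ C) ^ (p ^ n))⁻¹
        * (algebraMap Q̄ (modularFunctionFieldBar (N * q)) a * b ^ (p ^ n) * f) ^ C := by
      rw [mul_pow, mul_pow, ← pow_mul b (p ^ n) C, ← pow_mul b C (p ^ n), mul_comm (p ^ n) C]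
      have : b ^ (C * p ^ n) ≠ 0 := pow_ne_zero _ hb
      field_simp
    rw [h2, e', mul_pow, mul_pow, h1, inv_pow]
    ring
  exact pow_primePow_of_pow hp hC n hf hfC

/-- The engine over the inertia field, at the neat levels of helper442 / helper36. -/
def KummerFixedNeatStatement : Prop :=
  ∀ (N q r p : ℕ) [NeZero N] [NeZero q] [NeZero r], q.Prime → N.factorization q = 1 →
    r.Prime → r % 12 = 11 → ¬ r ∣ N * q * p → N * q * p < r → p.Prime → p ≠ q →
    ∀ P : ValuationSubring Q̄, P.LiesOverPrime q →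
      (N * r).factorization q = 1 → KummerFixedAtC (N * r) q p P

theorem kummerQNewInertiaNeatStatement_of_fixed (h : KummerFixedNeatStatement) :
    Fermat.Agent.S36.H36.KummerQNewInertiaNeatStatement := by
  intro N q r p _ _ _ hq hfac hr hmod hndvd hB hp hpq P hP hfac'
  haveI : NeZero (N * r) := ⟨Nat.mul_ne_zero (NeZero.ne N) (NeZero.ne r)⟩
  exact kummerQNewInertiaAt_of_fixedAtC (N * r) q p hp P
    (h N q r p hq hfac hr hmod hndvd hB hp hpq P hP hfac')

/-- **Frozen-chain entry point**: helper36's `NewPartInertiaStatement` from the engine over the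
inertia field at neat levels. -/
theorem newPartInertiaStatement_of_fixed (h : KummerFixedNeatStatement) :
    Fermat.Agent.S36.H36.NewPartInertiaStatement :=
  Fermat.Agent.S36.H36.newPartInertiaStatement_of_kummerNeat
    (kummerQNewInertiaNeatStatement_of_fixed h)

end Fermat.Agent.S36.H756

end
end
-- ===== PACK-END S36/H756/Wire.lean

-- ===== PACK-BEGIN S29/H222/ESKAdapterNormId.lean
section
/-
S29 / helper222 — piece ESK, adapter: `NormIdFamily` is discharged from the landed NORM-ID
(helper819, `Fermat.Agent.S37.H819.normId`; independent copies: helper157 `node_normid`,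
helper748 `norm_heckeBetaBar_eq_kronNorm`).  Hence the Eichler–Shimura input of layer M,
`Fermat.Agent.S29.M.ESStatement`, follows from the two remaining external inputs

* `CoreFamily` : `S18.CoreStatement N A m` for `ℓ ∤ N`, `ℓ ∤ m`, `A` over `ℓ`      (row S18)
* `PGIFamily`  : Prelude `PrincipalGeneratedByIntegral A (residue A) N`             (M1-Gauss)
-/



set_option autoImplicit false
set_option linter.style.haveILetI false

noncomputable section

namespace Fermat.Agent.S29.H222

/-- Piece NKI (helper819) in family form. -/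
theorem normIdFamily : NormIdFamily :=
  fun N _ ℓ _ hℓ hℓN y => Fermat.Agent.S37.H819.normId N ℓ hℓ hℓN y

/-- **ES for layer M** from the two remaining external inputs (S18 core + PGI). -/
theorem esStatement_of_core_pgi (hcore : CoreFamily) (hpgi : PGIFamily) :
    Fermat.Agent.S29.M.ESStatement :=
  esStatement_of_core_pgi_normId hcore hpgi normIdFamily

end Fermat.Agent.S29.H222

end
end
-- ===== PACK-END S29/H222/ESKAdapterNormId.lean

-- ===== PACK-BEGIN S29/H222/ESKAdapterPGI.lean
section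
/-
S29 / helper222 — piece ESK, adapter: `PGIFamily` is discharged from the landed piece GEN
(helper98, `Fermat.Agent.S37.H98.gen`; independent copy: helper448).  Hence the Eichler–Shimura
input of layer M, `Fermat.Agent.S29.M.ESStatement`, follows from the S18 hub ALONE:

* `CoreFamily` : `S18.CoreStatement N A m` for `ℓ ∤ N`, `ℓ ∤ m`, `A` over `ℓ`      (row S18)
-/



set_option autoImplicit false
set_option linter.style.haveILetI false

noncomputable section

namespace Fermat.Agent.S29.H222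

/-- Piece GEN (helper98) in family form. -/
theorem pgiFamily : PGIFamily :=
  fun N _ ℓ hℓ hℓN A hA => Fermat.Agent.S37.H98.gen N ℓ hℓ hℓN A hA

/-- **ES for layer M** from the S18 hub alone. -/
theorem esStatement_of_core (hcore : CoreFamily) : Fermat.Agent.S29.M.ESStatement :=
  esStatement_of_core_pgi hcore pgiFamily

end Fermat.Agent.S29.H222

end
end
-- ===== PACK-END S29/H222/ESKAdapterPGI.lean

-- ===== PACK-BEGIN S30/H694/TorsionRelOfNodes.lean
section




/-!
# S30 / helper694 — input (T) of the adic module layer from the S18 hub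

`Fermat.Agent.S30.H330.TorsionRelations N p` (inertia at `ℓ ∤ N p` acts trivially on
`J₀(N)(ℚ̄)[p^∞]`; every Frobenius at `ℓ` satisfies `σ² - T_ℓ σ + ℓ = 0` there) is the input (T) of
`Fermat.Agent.S30.H990.result_of_inputs`.  On main it was available only from the interfaces of
row S37 (`H330/AdicTorsionRel.lean`, `H450/RawESPow.lean`: `RedData`, `PlaceRed`, `WeakRedData`).

Here: (T) from the S18 hub alone, through helper222's Kummer route ESK
(`S29.H222.esStatement_of_core`; PGI, HI, NORM-ID are discharged on main) and the bridge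
prime `m` ⟹ all `m` (`S18.H694.coreFamily_of_prime`; the moduli needed here are `p ^ n`):

* `torsionRelations_of_coreFamily` : from `S29.H222.CoreFamily` (hub for all `m` prime to `ℓ`);
* `torsionRelations_of_corePrime`  : from the hub at PRIME moduli (what row S18 proves);
* `torsionRelations_of_nodes`      : from the two open nodes `node_mod`, `node_alg` of the S18
  skeleton, in the exact shape of the hypothesis `hT` of `S30.H990.result_of_inputs`.
-/

set_option autoImplicit false

noncomputable section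

namespace Fermat.Agent.S30.H694

open ModularCurve AlgebraicCurve
open Fermat.Agent.S18 (Qb CoreStatement)

/-- (T) from the S18 hub family. -/
theorem torsionRelations_of_coreFamily (hcore : Fermat.Agent.S29.H222.CoreFamily)
    (N : ℕ) [NeZero N] (p : ℕ) : Fermat.Agent.S30.H330.TorsionRelations N p :=
  fun ℓ hℓ h A hA => Fermat.Agent.S29.H222.esStatement_of_core hcore N p ℓ hℓ h A hA

/-- (T) from the S18 hub at PRIME moduli. -/
theorem torsionRelations_of_corePrime
    (hcore : ∀ (N : ℕ) [NeZero N] (ℓ : ℕ), ℓ.Prime → ¬ ℓ ∣ N → ∀ q : ℕ, q.Prime → ¬ ℓ ∣ q →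
      ∀ A : ValuationSubring Qb, A.LiesOverPrime ℓ → CoreStatement N A q)
    (N : ℕ) [NeZero N] (p : ℕ) : Fermat.Agent.S30.H330.TorsionRelations N p :=
  torsionRelations_of_coreFamily (Fermat.Agent.S18.H694.coreFamily_of_prime hcore) N p

/-- **(T) from the two open nodes of the S18 skeleton**, in the exact shape of the hypothesis
`hT` of `Fermat.Agent.S30.H990.result_of_inputs`. -/
theorem torsionRelations_of_nodes
    (node_mod : ∀ (M : ℕ) [NeZero M] {ℓ : ℕ} [Fact ℓ.Prime], ¬ ℓ ∣ M →
      ∀ A : ValuationSubring Qb, A.LiesOverPrime ℓ →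
        Fermat.Agent.S18.Mod.GoodModelStatement M ℓ A)
    (node_alg : ∀ M : ℕ, Fermat.Agent.S18.Mod.AlgStatement M) :
    ∀ (N : ℕ) [NeZero N] (p : ℕ) [Fact p.Prime], Fermat.Agent.S30.H330.TorsionRelations N p :=
  fun N _ p _ =>
    torsionRelations_of_coreFamily
      (Fermat.Agent.S18.H694.coreFamily_of_nodes node_mod node_alg) N p

end Fermat.Agent.S30.H694

end
end
-- ===== PACK-END S30/H694/TorsionRelOfNodes.lean

-- ===== PACK-BEGIN S30/H810/Fin.lean
section
/-
S30 / piece FIN (helper810): `J₀(N)(ℚ̄)[m]` is FINITE, unconditionally, for every `m ≥ 1`.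

* `dcStatement N m : H109.DCStatement N m` — the converse dictionary in helper109's shape,
  from the reverse dictionary `exists_analyticOrderAt_eq_mul` (`RevDict.lean`);
* `torsion_finite N m : {x : JZero N | m • x = 0}.Finite` — via helper109's `finite_torsion`
  and the landed M4b piece K4-UNIQ (`H102.isKum_unique`);
* `exists_hom_isKum_of_torsion` — ONTO with an additive character.
-/




set_option autoImplicit false
set_option linter.unusedSectionVars false

noncomputable section

open ModularCurve AlgebraicCurve CongruenceSubgroup UpperHalfPlane HahnSeries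
open scoped MatrixGroups Manifold

namespace Fermat.Agent.S30.H810

open Fermat.Agent.S24 Fermat.Agent.S24.H648 Fermat.Agent.S24.H708 Fermat.Agent.S24.Deg457
open Fermat.Agent.S24.H624 Fermat.Agent.S24.H997 Fermat.Agent.S29 Fermat.Agent.S29.M4b
open Fermat.Agent.S29.H882

variable (N : ℕ) [NeZero N]

/-- Clearing poles: every `f ∈ FF N` times a suitable `m`-th power is realised by a good
function. -/
theorem exists_realises_mul_pow (m : ℕ) (hm : m ≠ 0) (f : FF N) :
    ∃ (t : FF N) (G : ℍ → ℂ), t ≠ 0 ∧ Realises N (f * t ^ m) G := by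
  obtain ⟨r, t, ht, hft⟩ := exists_div_inclRN N f
  have ht' : inclRN N t ≠ 0 := fun h => ht (inclRN_injective N (by rw [h, map_zero]))
  obtain ⟨q, hq⟩ : ∃ q : ℕ, m = q + 1 := ⟨m - 1, by have := Nat.pos_of_ne_zero hm; omega⟩
  have hur : f * inclRN N t ^ m = inclRN N (r * t ^ q) := by
    rw [hft, hq, map_mul, map_pow, pow_succ]
    field_simp
  refine ⟨inclRN N t, realFun N (r * t ^ q), ht', realFun_mem N _, ?_⟩
  rw [(realFun_hasQExp N (r * t ^ q)).qexpFun_eq, hur]
  rfl

/-- **The converse dictionary** in helper109's shape. -/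
theorem dcStatement (m : ℕ) [NeZero m] : H109.DCStatement N m := by
  intro f hf hdiv
  have hm : m ≠ 0 := NeZero.ne m
  obtain ⟨t, G, ht, hG⟩ := exists_realises_mul_pow N m hm f
  refine ⟨t, G, ht, hG, fun τ => ?_⟩
  refine exists_analyticOrderAt_eq_mul hG (mul_ne_zero hf (pow_ne_zero _ ht)) m hm ?_ τ
  intro v
  rw [Place.ord_mul v hf (pow_ne_zero _ ht), H117.ord_pow]
  exact dvd_add (hdiv v) (dvd_mul_right _ _)

/-- **FIN**: the `m`-torsion of `J₀(N)(ℚ̄)` is finite. -/
theorem torsion_finite (m : ℕ) [NeZero m] : {x : JZero N | m • x = 0}.Finite :=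
  H109.finite_torsion N m (dcStatement N m)
    (fun _ _ _ h h' => H102.isKum_unique N m h h')

/-- **ONTO** with an additive character. -/
theorem exists_hom_isKum_of_torsion (m : ℕ) [NeZero m] {x : JZero N} (hx : (m : ℤ) • x = 0) :
    ∃ c : G0 N → ZMod m, (∀ γ γ' : G0 N, c (γ * γ') = c γ + c γ') ∧ IsKum N m c x :=
  H109.exists_isKum_of_torsion N m (dcStatement N m) hx

end Fermat.Agent.S30.H810

end
end
-- ===== PACK-END S30/H810/Fin.lean

-- ===== PACK-BEGIN S30/H810/ParEll.lean
section
/-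
S30 / piece ONTO (helper810), part 4: the character of a Kummer pair is ADDITIVE and vanishes on
elements acting trivially on `ℍ` and on elements with a FIXED POINT in `ℍ` (elliptic elements).

Setting: `U` twisted of character `c` (M4b `IsTwisted`), `U ^ m` realises `u ∈ FF N`, `u ≠ 0`, and
`m ∣ ord_v u` at every place `v` of `FF N / ℚ̄` (this is what `IsKum N m c x` provides).
-/



set_option autoImplicit false
set_option linter.unusedSectionVars false

noncomputable section

open ModularCurve AlgebraicCurve CongruenceSubgroup UpperHalfPlane HahnSeries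
open scoped MatrixGroups Manifold

namespace Fermat.Agent.S30.H810

open Fermat.Agent.S24 Fermat.Agent.S24.H648 Fermat.Agent.S24.H708 Fermat.Agent.S24.Deg457
open Fermat.Agent.S24.H624 Fermat.Agent.S24.H997 Fermat.Agent.S29 Fermat.Agent.S29.M4b
open Fermat.Agent.S29.H882

variable {N : ℕ} [NeZero N] {m : ℕ} [NeZero m]

/-- The character of a twisted function is additive. -/
theorem IsTwisted.map_mul {c : G0 N → ZMod m} {U : ℍ → ℂ} (hU : IsTwisted N m c U)
    (γ γ' : G0 N) : c (γ * γ') = c γ + c γ' := by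
  obtain ⟨τ, hτ⟩ := hU.ne_zero
  apply H109.zetaP_pow_val_injective m
  rw [H109.zetaP_pow_val_add]
  have h1 := hU.hasChar (γ * γ') τ
  have h2 := hU.hasChar γ (((γ' : G0 N) : SL(2, ℤ)) • τ)
  have h3 := hU.hasChar γ' τ
  have hmul : (((γ * γ' : G0 N) : SL(2, ℤ))) • τ
      = ((γ : G0 N) : SL(2, ℤ)) • (((γ' : G0 N) : SL(2, ℤ)) • τ) := by
    rw [Subgroup.coe_mul, mul_smul]
  rw [hmul, h2, h3, ← mul_assoc] at h1
  exact (mul_right_cancel₀ hτ h1).symm

/-- The character of a twisted function vanishes on elements acting trivially on `ℍ`. -/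
theorem IsTwisted.eq_zero_of_trivial {c : G0 N → ZMod m} {U : ℍ → ℂ} (hU : IsTwisted N m c U)
    (γ : G0 N) (hγ : ∀ τ : ℍ, ((γ : G0 N) : SL(2, ℤ)) • τ = τ) : c γ = 0 := by
  obtain ⟨τ, hτ⟩ := hU.ne_zero
  apply H109.zetaP_pow_val_injective m
  have h1 := hU.hasChar γ τ
  rw [hγ τ] at h1
  have h2 : zetaP m ^ (c γ).val = 1 := by
    have : (1 : ℂ) * U τ = zetaP m ^ (c γ).val * U τ := by rw [one_mul]; exact h1
    exact (mul_right_cancel₀ hτ this).symm
  rw [h2, ZMod.val_zero, pow_zero]

theorem zetaP_pow_val_eq_one_iff (a : ZMod m) : zetaP m ^ a.val = 1 ↔ a = 0 := by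
  constructor
  · intro h
    apply H109.zetaP_pow_val_injective m
    rw [h, ZMod.val_zero, pow_zero]
  · rintro rfl
    rw [ZMod.val_zero, pow_zero]

/-- a good function is fixed by `γ ∈ Γ₀(N)` in `holoRing` -/
theorem smul_good_eq {A : holoRing} (hA : (A : ℍ → ℂ) ∈ goodRing N) {γ : SL(2, ℤ)}
    (hγ : γ ∈ Gamma0 N) : γ • A = A := by
  apply Subtype.ext
  funext τ
  rw [smul_holoRing_apply]
  exact hA.2.1 γ⁻¹ (inv_mem hγ) τ

/-- rotation relation for holomorphic functions at a fixed point -/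
theorem leadingCoeff_taylorLaurent_smul {γ : SL(2, ℤ)} {τ : ℍ} (hτ : γ • τ = τ) (F : holoRing) :
    (taylorLaurent τ (γ • F)).leadingCoeff
      = rotFactor γ τ ^ (taylorLaurent τ F).order * (taylorLaurent τ F).leadingCoeff := by
  have h := (laurentAt_smul_fixed_rotFactor hτ (algebraMap holoRing MerH F)).2
  rw [smul_algebraMap_MerH, laurentAt_algebraMap, laurentAt_algebraMap] at h
  exact h

/-- an invariant nonzero holomorphic function has order killed by the rotation factor -/
theorem rotFactor_zpow_order_eq_one {γ : SL(2, ℤ)} {τ : ℍ} (hτ : γ • τ = τ) {F : holoRing}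
    (hF : F ≠ 0) (hinv : γ • F = F) : rotFactor γ τ ^ (taylorLaurent τ F).order = 1 := by
  have h := leadingCoeff_taylorLaurent_smul hτ F
  rw [hinv] at h
  have hlc : (taylorLaurent τ F).leadingCoeff ≠ 0 :=
    HahnSeries.leadingCoeff_ne_zero.mpr (fun h0 => hF (taylorLaurent_injective τ (by
      rw [h0, map_zero])))
  have h2 : (1 : ℂ) * (taylorLaurent τ F).leadingCoeff
      = rotFactor γ τ ^ (taylorLaurent τ F).order * (taylorLaurent τ F).leadingCoeff := by
    rw [one_mul]; exact h
  exact (mul_right_cancel₀ hlc h2).symm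

/-- the rotation factor kills the orders of the Taylor embedding `σ_τ` at a fixed point of
`γ ∈ Γ₀(N)` -/
theorem rotFactor_zpow_eord_eq_one {γ : SL(2, ℤ)} (hγ : γ ∈ Gamma0 N) {τ : ℍ} (hτ : γ • τ = τ)
    {f : FF N} (hf : f ≠ 0) : rotFactor γ τ ^ H117.eord (sigmaTau N τ) f = 1 := by
  have key : ∀ r : RN N, r ≠ 0 → rotFactor γ τ ^ H117.eord (sigmaTau N τ) (inclRN N r) = 1 := by
    intro r hr
    rw [H117.eord, sigmaTau_inclRN]
    refine rotFactor_zpow_order_eq_one hτ ?_ (smul_good_eq (realRN N r).2 hγ)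
    intro h0
    have h1 : realRN N r = 0 := goodToHolo_injective N (by rw [h0, map_zero])
    exact hr (realRN_injective N (by rw [h1, map_zero]))
  obtain ⟨r, t, ht, hft⟩ := exists_div_inclRN N f
  have ht' : inclRN N t ≠ 0 := fun h => ht (inclRN_injective N (by rw [h, map_zero]))
  have hr : r ≠ 0 := by
    rintro rfl
    apply hf
    rw [hft, map_zero, zero_div]
  have hr' : inclRN N r ≠ 0 := fun h => hr (inclRN_injective N (by rw [h, map_zero]))
  rw [hft, div_eq_mul_inv, H117.eord_mul _ hr' (inv_ne_zero ht'), H117.eord_inv,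
    zpow_add₀ (rotFactor_ne_zero γ τ), zpow_neg, key r hr, key t ht, inv_one, mul_one]

theorem leadingCoeff_C_mul (a : ℂ) (x : LaurentSeries ℂ) :
    (HahnSeries.C a * x).leadingCoeff = a * x.leadingCoeff := by
  rw [HahnSeries.leadingCoeff_mul]
  congr 1
  rcases eq_or_ne a 0 with rfl | ha
  · simp
  · rw [HahnSeries.C_apply, HahnSeries.leadingCoeff_of_single]

/-- **ELLIPTIC CASE.** The character of a Kummer pair vanishes on every element of `Γ₀(N)` with a
fixed point in `ℍ`. -/
theorem IsTwisted.eq_zero_of_fixed {c : G0 N → ZMod m} {U : ℍ → ℂ} (hU : IsTwisted N m c U)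
    {u : FF N} (hG : Realises N u (fun τ => U τ ^ m))
    (hdiv : ∀ v : Place Kbar (FF N), (m : ℤ) ∣ v.ord u)
    (γ : G0 N) {τ₀ : ℍ} (hτ₀ : ((γ : G0 N) : SL(2, ℤ)) • τ₀ = τ₀) : c γ = 0 := by
  have hm : m ≠ 0 := NeZero.ne m
  have hgmem : ((γ : G0 N) : SL(2, ℤ))⁻¹ ∈ Gamma0 N := inv_mem γ.2
  have hgτ : ((γ : G0 N) : SL(2, ℤ))⁻¹ • τ₀ = τ₀ := inv_smul_of_fixed hτ₀
  set g : SL(2, ℤ) := ((γ : G0 N) : SL(2, ℤ))⁻¹ with hg
  set Uh : holoRing := ⟨U, hU.mdiff⟩ with hUh
  have hUh0 : Uh ≠ 0 := by
    intro h0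
    obtain ⟨τ, hτ⟩ := hU.ne_zero
    exact hτ (congrFun (congrArg Subtype.val h0) τ)
  have hTL0 : taylorLaurent τ₀ Uh ≠ 0 := fun h0 =>
    hUh0 (taylorLaurent_injective τ₀ (by rw [h0, map_zero]))
  -- (1) the twisted transformation rule in `holoRing`
  have h1 : g • Uh = algebraMap ℂ holoRing (zetaP m ^ (c γ).val) * Uh := by
    apply Subtype.ext
    funext τ
    rw [smul_holoRing_apply, hg, inv_inv]
    exact hU.hasChar γ τ
  have h2 := leadingCoeff_taylorLaurent_smul hgτ Uh
  have hTLc : taylorLaurent τ₀ (algebraMap ℂ holoRing (zetaP m ^ (c γ).val))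
      = HahnSeries.C (zetaP m ^ (c γ).val) := taylorLaurent_const τ₀ _ _ rfl
  rw [h1, _root_.map_mul, hTLc, leadingCoeff_C_mul] at h2
  have hlc : (taylorLaurent τ₀ Uh).leadingCoeff ≠ 0 := HahnSeries.leadingCoeff_ne_zero.mpr hTL0
  have h3 : zetaP m ^ (c γ).val = rotFactor g τ₀ ^ (taylorLaurent τ₀ Uh).order :=
    mul_right_cancel₀ hlc h2
  -- (2) the order of `u` under the Taylor embedding
  have hmd : (fun τ => U τ ^ m) ∈ holoRing := hG.1.1
  have h4 : sigmaTau N τ₀ u = taylorLaurent τ₀ Uh ^ m := by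
    rw [sigmaTau_of_realises hG hmd τ₀, ← map_pow]
    rfl
  have h5 : H117.eord (sigmaTau N τ₀) u = m * (taylorLaurent τ₀ Uh).order := by
    rw [H117.eord, h4, HahnSeries.order_pow, nsmul_eq_mul]
  have hm' : (m : ℤ) ≠ 0 := by exact_mod_cast hm
  -- (3) the rotation factor kills the order of `U`
  have h6 : rotFactor g τ₀ ^ (taylorLaurent τ₀ Uh).order = 1 := by
    by_cases hnt : ∃ t : FF N, H117.eord (sigmaTau N τ₀) t ≠ 0
    · obtain ⟨k, hk, h⟩ := H117.exists_mult (K := Kbar) (sigmaTau N τ₀)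
        (fun c => (eord_sigmaTau_algebraMap τ₀ c).ge) hnt
      obtain ⟨π, hπ0, hπ⟩ := H117.exists_ord_eq_one (H117.placeOfEmb (sigmaTau N τ₀)
        (fun c => (eord_sigmaTau_algebraMap τ₀ c).ge) hnt)
      have hk1 : rotFactor g τ₀ ^ (k : ℤ) = 1 := by
        have := rotFactor_zpow_eord_eq_one hgmem hgτ hπ0
        rwa [h π, hπ, mul_one] at this
      obtain ⟨j, hj⟩ := hdiv (H117.placeOfEmb (sigmaTau N τ₀)
        (fun c => (eord_sigmaTau_algebraMap τ₀ c).ge) hnt)
      have h7 := h u
      rw [h5, hj] at h7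
      have h8 : (taylorLaurent τ₀ Uh).order = k * j := by
        have : (m : ℤ) * (taylorLaurent τ₀ Uh).order = m * (k * j) := by rw [h7]; ring
        exact mul_left_cancel₀ hm' this
      rw [h8, zpow_mul, hk1, one_zpow]
    · push Not at hnt
      have h7 := hnt u
      rw [h5] at h7
      have h8 : (taylorLaurent τ₀ Uh).order = 0 := by
        rcases mul_eq_zero.mp h7 with h | h
        · exact absurd h hm'
        · exact h
      rw [h8, zpow_zero]
  rw [h6] at h3
  exact (zetaP_pow_val_eq_one_iff _).mp h3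

end Fermat.Agent.S30.H810

end
end
-- ===== PACK-END S30/H810/ParEll.lean

-- ===== PACK-BEGIN S30/H810/SigmaGen.lean
section
/-
S30 / piece ONTO (helper810), part 6: the embedding `σ_E : FF N → ℂ((z))` attached to an arbitrary
injective expansion `E : goodRing N →+* ℂ((z))`, and the dictionary for it.
-/


set_option autoImplicit false
set_option linter.unusedSectionVars false

noncomputable section

open ModularCurve AlgebraicCurve CongruenceSubgroup UpperHalfPlane HahnSeries
open scoped MatrixGroups Manifold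

namespace Fermat.Agent.S30.H810

open Fermat.Agent.S24 Fermat.Agent.S24.H648 Fermat.Agent.S24.H708 Fermat.Agent.S24.Deg457
open Fermat.Agent.S24.H624 Fermat.Agent.S24.H997 Fermat.Agent.S29 Fermat.Agent.S29.M4b
open Fermat.Agent.S29.H882

variable (N : ℕ) [NeZero N]

section

variable (E : goodRing N →+* LaurentSeries ℂ) (hE : Function.Injective E)

/-- the embedding of `FF N` attached to an injective expansion of good functions -/
def sigmaOf : FF N →+* LaurentSeries ℂ :=
  liftF (E.comp (realRN N)) (hE.comp (realRN_injective N))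

theorem sigmaOf_inclRN (r : RN N) : sigmaOf N E hE (inclRN N r) = E (realRN N r) :=
  liftF_inclRN _ _ r

theorem sigmaOf_algebraMap (hEc : ∀ c : ℂ, E (algebraMap ℂ (goodRing N) c) = HahnSeries.C c)
    (c : Kbar) : sigmaOf N E hE (algebraMap Kbar (FF N) c) = HahnSeries.C (iotaC c) := by
  rw [sigmaOf, liftF_algebraMap, RingHom.comp_apply]
  have : realRN N (algebraMap Kbar (RN N) c) = algebraMap ℂ (goodRing N) (iotaC c) :=
    Subtype.ext (realFun_algebraMap N c)
  rw [this, hEc]

theorem eord_sigmaOf_algebraMap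
    (hEc : ∀ c : ℂ, E (algebraMap ℂ (goodRing N) c) = HahnSeries.C c) (c : Kbar) :
    H117.eord (sigmaOf N E hE) (algebraMap Kbar (FF N) c) = 0 := by
  rw [H117.eord, sigmaOf_algebraMap N E hE hEc, HahnSeries.order_C]

variable {N}

theorem sigmaOf_of_realises {u : FF N} {G : ℍ → ℂ} (hG : Realises N u G)
    (hGm : G ∈ goodRing N) : sigmaOf N E hE u = E ⟨G, hGm⟩ := by
  obtain ⟨r, t, ht, hu⟩ := exists_div_inclRN N u
  have ht' : inclRN N t ≠ 0 := fun h => ht (inclRN_injective N (by rw [h, map_zero]))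
  have hmul : u * inclRN N t = inclRN N r := by
    rw [hu, div_mul_cancel₀ _ ht']
  have hcoe : ((u : FF N) : LaurentSeries Kbar) * (t : LaurentSeries Kbar)
      = (r : LaurentSeries Kbar) := by
    have := congrArg (fun x : FF N => (x : LaurentSeries Kbar)) hmul
    simpa using this
  have hq : HasQExp 1 (G * realFun N t) (coeffMap iotaC (r : LaurentSeries Kbar)) := by
    have := (Realises.hasQExp hG).mul (realFun_hasQExp N t)
    rwa [← _root_.map_mul, hcoe] at this
  have hfun : G * realFun N t = realFun N r := hq.eq_of_eq (realFun_hasQExp N r)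
  have hgood : (⟨G, hGm⟩ : goodRing N) * realRN N t = realRN N r := Subtype.ext hfun
  have hT0 : E (realRN N t) ≠ 0 := by
    intro h
    exact ht (realRN_injective N (hE (by rw [h, map_zero, map_zero])))
  rw [hu, map_div₀, sigmaOf_inclRN, sigmaOf_inclRN, ← hgood, _root_.map_mul, mul_div_assoc,
    div_self hT0, mul_one]

/-- **Dictionary for `σ_E`**: if `d` divides the order of the expansion of every (nonzero) good
function realising an element of `R_N`, and `m ∣ ord_v u` at all places, then `d * m ∣ ord σ_E u`. -/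
theorem mul_dvd_eord_sigmaOf
    (hEc : ∀ c : ℂ, E (algebraMap ℂ (goodRing N) c) = HahnSeries.C c)
    (d : ℤ) (hd : ∀ r : RN N, d ∣ (E (realRN N r)).order)
    {u : FF N} (m : ℤ) (hdiv : ∀ v : Place Kbar (FF N), m ∣ v.ord u) :
    d * m ∣ H117.eord (sigmaOf N E hE) u := by
  have hdF : ∀ f : FF N, d ∣ H117.eord (sigmaOf N E hE) f := by
    intro f
    obtain ⟨r, t, ht, hft⟩ := exists_div_inclRN N f
    rcases eq_or_ne f 0 with rfl | hf
    · simp
    have ht' : inclRN N t ≠ 0 := fun h => ht (inclRN_injective N (by rw [h, map_zero]))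
    have hr' : inclRN N r ≠ 0 := by
      intro h
      apply hf
      rw [hft, h, zero_div]
    rw [hft, div_eq_mul_inv, H117.eord_mul _ hr' (inv_ne_zero ht'), H117.eord_inv]
    refine dvd_add ?_ (Dvd.dvd.neg_right ?_)
    · rw [H117.eord, sigmaOf_inclRN]; exact hd r
    · rw [H117.eord, sigmaOf_inclRN]; exact hd t
  by_cases hnt : ∃ t : FF N, H117.eord (sigmaOf N E hE) t ≠ 0
  · obtain ⟨k, hk, h⟩ := H117.exists_mult (K := Kbar) (sigmaOf N E hE)
      (fun c => (eord_sigmaOf_algebraMap N E hE hEc c).ge) hnt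
    obtain ⟨π, hπ0, hπ⟩ := H117.exists_ord_eq_one (H117.placeOfEmb (sigmaOf N E hE)
      (fun c => (eord_sigmaOf_algebraMap N E hE hEc c).ge) hnt)
    have hdk : d ∣ (k : ℤ) := by
      have := hdF π
      rwa [h π, hπ, mul_one] at this
    obtain ⟨j, hj⟩ := hdiv (H117.placeOfEmb (sigmaOf N E hE)
      (fun c => (eord_sigmaOf_algebraMap N E hE hEc c).ge) hnt)
    rw [h u, hj, ← mul_assoc]
    exact Dvd.dvd.mul_right (mul_dvd_mul_right hdk m) j
  · push Not at hnt
    rw [hnt u]
    exact dvd_zero _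

end

end Fermat.Agent.S30.H810

end
end
-- ===== PACK-END S30/H810/SigmaGen.lean

-- ===== PACK-BEGIN S30/H810/ParCusp.lean
section
/-
S30 / piece ONTO (helper810), part 8: the PARABOLIC case.

If `γ ∈ Γ₀(N)` satisfies `γ ∘ h = h ∘ (τ ↦ τ + n)` on `ℍ` (`h ∈ SL(2, ℤ)`, `n ≥ 1`), then the
character of a Kummer pair vanishes on `γ`.  Proof with `q_L`-expansions at the cusp `h ∞`,
`L = n m`: the shift by `n` twists the `j`-th coefficient by `ζ_m^j`.
-/



set_option autoImplicit false
set_option linter.unusedSectionVars false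

noncomputable section

open ModularCurve AlgebraicCurve CongruenceSubgroup UpperHalfPlane HahnSeries
open scoped MatrixGroups Manifold Real

namespace Fermat.Agent.S30.H810

open Fermat.Agent.S24 Fermat.Agent.S24.H648 Fermat.Agent.S24.H708 Fermat.Agent.S24.Deg457
open Fermat.Agent.S24.H624 Fermat.Agent.S24.H997 Fermat.Agent.S29 Fermat.Agent.S29.M4b
open Fermat.Agent.S29.H882

/-- iterating a quasi-periodicity -/
theorem vadd_iterate {f : ℍ → ℂ} {a : ℝ} {z : ℂ} (hf : ∀ τ : ℍ, f (a +ᵥ τ) = z * f τ) (j : ℕ)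
    (τ : ℍ) : f (((j : ℝ) * a) +ᵥ τ) = z ^ j * f τ := by
  induction j generalizing τ with
  | zero => simp
  | succ j ih =>
    have h1 : (((j + 1 : ℕ) : ℝ) * a) +ᵥ τ = a +ᵥ (((j : ℝ) * a) +ᵥ τ) := by
      rw [vadd_vadd]
      congr 1
      push_cast
      ring
    rw [h1, hf, ih, pow_succ]
    ring

theorem shiftUnit_eq_zetaP (n m : ℕ) [NeZero n] [NeZero m] :
    ((shiftUnit (n * m) (n : ℝ) : ℂˣ) : ℂ) = zetaP m := by
  rw [shiftUnit, Units.val_mk0, zetaP]
  congr 1
  have hn : (n : ℂ) ≠ 0 := Nat.cast_ne_zero.mpr (NeZero.ne n)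
  have hm : (m : ℂ) ≠ 0 := Nat.cast_ne_zero.mpr (NeZero.ne m)
  push_cast
  field_simp

theorem zetaP_zpow_eq_one_iff (m : ℕ) [NeZero m] (k : ℤ) : zetaP m ^ k = 1 ↔ (m : ℤ) ∣ k :=
  (H109.zetaP_isPrimitiveRoot m).zpow_eq_one_iff_dvd k

theorem mdiff_compSL {U : ℍ → ℂ} (hU : MDiff U) (γ : SL(2, ℤ)) :
    MDiff (fun τ => U (γ • τ)) :=
  (precompSL γ ⟨U, hU⟩).2

variable {N : ℕ} [NeZero N]

section Cusp

variable (h : SL(2, ℤ)) (L : ℕ) [NeZero L]
  (hper : ∀ A : ℍ → ℂ, A ∈ goodRing N → ∀ τ : ℍ, A (h • ((L : ℝ) +ᵥ τ)) = A (h • τ))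

/-- composition with `h` maps good functions to `q_L`-meromorphic functions -/
theorem isMerInf_comp {A : ℍ → ℂ} (hA : A ∈ goodRing N)
    (hperA : ∀ τ : ℍ, A (h • ((L : ℝ) +ᵥ τ)) = A (h • τ)) :
    IsMerInf L (fun τ => A (h • τ)) :=
  isMerInf_of_periodic (mdiff_compSL hA.1 h) hperA (hA.2.2 h)

/-- the ring hom `A ↦ A ∘ h` into `merInf L` -/
def compMer : goodRing N →+* merInf L where
  toFun A := ⟨fun τ => (A : ℍ → ℂ) (h • τ), isMerInf_comp h L A.2 (hper A A.2)⟩
  map_one' := rfl
  map_mul' _ _ := rfl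
  map_zero' := rfl
  map_add' _ _ := rfl

theorem compMer_injective : Function.Injective (compMer h L hper) := by
  intro A B hAB
  apply Subtype.ext
  funext τ
  have := congrFun (congrArg Subtype.val hAB) (h⁻¹ • τ)
  simpa [compMer] using this

/-- the expansion at the cusp `h ∞` -/
def cuspE : goodRing N →+* LaurentSeries ℂ :=
  ((qexpInf L : merInf L →ₐ[ℂ] LaurentSeries ℂ) : merInf L →+* LaurentSeries ℂ).comp
    (compMer h L hper)

theorem cuspE_apply (A : goodRing N) :
    cuspE h L hper A = qexpFun L (fun τ => (A : ℍ → ℂ) (h • τ)) := rfl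

theorem cuspE_injective : Function.Injective (cuspE h L hper) :=
  (qexpInf_injective L).comp (compMer_injective h L hper)

theorem cuspE_const (c : ℂ) : cuspE h L hper (algebraMap ℂ (goodRing N) c) = HahnSeries.C c := by
  rw [cuspE_apply]
  exact qexpFun_const L c

end Cusp

section CuspMain

variable {m : ℕ} [NeZero m]

/-- **Parabolic case.**  If `γ h = h (τ ↦ τ + n)` on `ℍ` with `n ≥ 1`, then `c γ = 0`. -/
theorem IsTwisted.eq_zero_of_cusp {c : G0 N → ZMod m} {U : ℍ → ℂ} (hU : IsTwisted N m c U)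
    {u : FF N} (hG : Realises N u (fun τ => U τ ^ m))
    (hdiv : ∀ v : Place Kbar (FF N), (m : ℤ) ∣ v.ord u)
    (γ : G0 N) (h : SL(2, ℤ)) (n : ℕ) [NeZero n]
    (hconj : ∀ τ : ℍ, ((γ : G0 N) : SL(2, ℤ)) • (h • τ) = h • ((n : ℝ) +ᵥ τ)) : c γ = 0 := by
  have hm0 : m ≠ 0 := NeZero.ne m
  haveI hL : NeZero (n * m) := ⟨Nat.mul_ne_zero (NeZero.ne n) (NeZero.ne m)⟩
  have hcast : ((m : ℝ) * (n : ℝ)) = (((n * m : ℕ) : ℝ)) := by push_cast; ring
  -- step 1: periodicity of good functions
  have hper1 : ∀ A : ℍ → ℂ, A ∈ goodRing N → ∀ τ : ℍ, A (h • ((n : ℝ) +ᵥ τ)) = A (h • τ) := by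
    intro A hA τ
    rw [← hconj τ]
    exact hA.2.1 γ γ.2 (h • τ)
  have hper : ∀ A : ℍ → ℂ, A ∈ goodRing N →
      ∀ τ : ℍ, A (h • (((n * m : ℕ) : ℝ) +ᵥ τ)) = A (h • τ) := by
    intro A hA τ
    have key := vadd_iterate (f := fun τ => A (h • τ)) (a := (n : ℝ)) (z := 1)
      (by intro τ; rw [one_mul]; exact hper1 A hA τ) m τ
    simp only [one_pow, one_mul] at key
    rw [← key, hcast]
  -- step 2: orders of expansions of good functions are divisible by `m`
  have hd : ∀ r : RN N, (m : ℤ) ∣ (cuspE h (n * m) hper (realRN N r)).order := by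
    intro r
    rw [cuspE_apply]
    set A : ℍ → ℂ := ((realRN N r : goodRing N) : ℍ → ℂ) with hA
    have hAm : A ∈ goodRing N := (realRN N r).2
    have hmer : IsMerInf (n * m) (fun τ => A (h • τ)) := isMerInf_comp h (n * m) hAm (hper A hAm)
    by_cases h0 : (fun τ => A (h • τ)) = 0
    · rw [h0]
      have : qexpFun (n * m) (0 : ℍ → ℂ) = 0 := (qexpFun_eq_zero_iff (IsMerInf.zero _)).mpr rfl
      rw [this, HahnSeries.order_zero]
      exact dvd_zero _
    · have h1 := shiftUnit_zpow_order_eq (HasQExp.of_isMerInf hmer) h0 (n : ℝ) 1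
        (by intro τ; rw [one_mul]; exact hper1 A hAm τ)
      rw [shiftUnit_eq_zetaP] at h1
      exact (zetaP_zpow_eq_one_iff m _).mp h1
  -- step 3: the twisted function at the cusp
  set V : ℍ → ℂ := fun τ => U (h • τ) with hV
  have hVmd : MDiff V := mdiff_compSL hU.mdiff h
  have hVq : ∀ τ : ℍ, V ((n : ℝ) +ᵥ τ) = zetaP m ^ (c γ).val * V τ := by
    intro τ
    show U (h • ((n : ℝ) +ᵥ τ)) = _
    rw [← hconj τ]
    exact hU.hasChar γ (h • τ)
  have hVper : ∀ τ : ℍ, V (((n * m : ℕ) : ℝ) +ᵥ τ) = V τ := by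
    intro τ
    have key := vadd_iterate hVq m τ
    have hz : (zetaP m ^ (c γ).val) ^ m = 1 := by
      rw [← pow_mul, mul_comm, pow_mul, H102.KBasic_zetaP_pow, one_pow]
    rw [hz, one_mul, hcast] at key
    exact key
  have hVg : ExpGrowth V := H102.KBasic_expGrowth_of_pow hm0 (hG.1.2.2 h)
  have hVmer : IsMerInf (n * m) V := isMerInf_of_periodic hVmd hVper hVg
  have hV0 : V ≠ 0 := by
    obtain ⟨τ, hτ⟩ := hU.ne_zero
    intro h0
    apply hτ
    have := congrFun h0 (h⁻¹ • τ)
    simpa [hV] using this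
  have hVQ : HasQExp (n * m) V (qexpFun (n * m) V) := HasQExp.of_isMerInf hVmer
  have h3 := shiftUnit_zpow_order_eq hVQ hV0 (n : ℝ) (zetaP m ^ (c γ).val) hVq
  rw [shiftUnit_eq_zetaP] at h3
  -- step 4: the embedding at the cusp
  have hσ : sigmaOf N (cuspE h (n * m) hper) (cuspE_injective h (n * m) hper) u
      = qexpFun (n * m) V ^ m := by
    rw [sigmaOf_of_realises _ _ hG hG.1, cuspE_apply]
    have hpow := hVQ.pow m
    have : (fun τ => ((⟨fun τ => U τ ^ m, hG.1⟩ : goodRing N) : ℍ → ℂ) (h • τ)) = V ^ m := by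
      funext τ
      rfl
    rw [this]
    exact hpow.2
  have hφ0 : qexpFun (n * m) V ≠ 0 := fun h0 => hV0 ((qexpFun_eq_zero_iff hVmer).mp h0)
  have he : H117.eord (sigmaOf N (cuspE h (n * m) hper) (cuspE_injective h (n * m) hper)) u
      = (m : ℤ) * (qexpFun (n * m) V).order := by
    rw [H117.eord, hσ, HahnSeries.order_pow, nsmul_eq_mul]
  have hdvd := mul_dvd_eord_sigmaOf (cuspE h (n * m) hper) (cuspE_injective h (n * m) hper)
    (cuspE_const h (n * m) hper) (m : ℤ) hd (m : ℤ) hdiv
  rw [he] at hdvd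
  have hmz : (m : ℤ) ≠ 0 := Int.natCast_ne_zero.mpr hm0
  have hdvd' : (m : ℤ) ∣ (qexpFun (n * m) V).order := (mul_dvd_mul_iff_left hmz).mp hdvd
  have h4 := (zetaP_zpow_eq_one_iff m _).mpr hdvd'
  rw [h3] at h4
  exact (zetaP_pow_val_eq_one_iff _).mp h4

end CuspMain

end Fermat.Agent.S30.H810

end
end
-- ===== PACK-END S30/H810/ParCusp.lean

-- ===== PACK-BEGIN S30/H810/ParHom.lean
section
/-
S30 / piece ONTO (helper810), part 9 (final): the character of a Kummer pair is PARABOLIC.

* `isParHom_of_isKum : IsKum N m c x → IsParHom c` — the character of any Kummer pair is additive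
  and vanishes on elliptic (finite order) and on parabolic (trace `±2`) elements of `Γ₀(N)`;
* `exists_isParHom_isKum_of_torsion : (m : ℤ) • x = 0 → ∃ c, IsParHom c ∧ IsKum N m c x` —
  **ONTO** in the final shape, for every modulus `m ≥ 1`, unconditionally.
-/



set_option autoImplicit false
set_option linter.unusedSectionVars false

noncomputable section

open ModularCurve AlgebraicCurve CongruenceSubgroup UpperHalfPlane HahnSeries
open scoped MatrixGroups Manifold Real

namespace Fermat.Agent.S30.H810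

open Fermat.Agent.S24 Fermat.Agent.S24.H648 Fermat.Agent.S24.H708 Fermat.Agent.S24.Deg457
open Fermat.Agent.S24.H624 Fermat.Agent.S24.H997 Fermat.Agent.S29 Fermat.Agent.S29.M4b
open Fermat.Agent.S29.H882

variable {N : ℕ} [NeZero N] {m : ℕ} [NeZero m]

theorem IsTwisted.map_one_eq_zero {c : G0 N → ZMod m} {U : ℍ → ℂ} (hU : IsTwisted N m c U) :
    c 1 = 0 := by
  have h := IsTwisted.map_mul hU 1 1
  rw [mul_one] at h
  exact left_eq_add.mp h

theorem IsTwisted.map_inv_add {c : G0 N → ZMod m} {U : ℍ → ℂ} (hU : IsTwisted N m c U)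
    (γ : G0 N) : c γ⁻¹ + c γ = 0 := by
  rw [← IsTwisted.map_mul hU, inv_mul_cancel, IsTwisted.map_one_eq_zero hU]

/-- parabolic case with a positive translation length -/
theorem IsTwisted.eq_zero_of_conj_pos {c : G0 N → ZMod m} {U : ℍ → ℂ} (hU : IsTwisted N m c U)
    {u : FF N} (hG : Realises N u (fun τ => U τ ^ m))
    (hdiv : ∀ v : Place Kbar (FF N), (m : ℤ) ∣ v.ord u)
    (γ : G0 N) (h : SL(2, ℤ)) (n : ℤ) (hn : 0 < n)
    (hconj : ∀ τ : ℍ, ((γ : G0 N) : SL(2, ℤ)) • (h • τ) = h • (ModularGroup.T ^ n • τ)) :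
    c γ = 0 := by
  haveI : NeZero n.toNat := ⟨by omega⟩
  refine IsTwisted.eq_zero_of_cusp hU hG hdiv γ h n.toNat fun τ => ?_
  rw [hconj τ, UpperHalfPlane.modular_T_zpow_smul]
  congr 2
  have : ((n.toNat : ℕ) : ℤ) = n := Int.toNat_of_nonneg hn.le
  exact_mod_cast this.symm

/-- **The character of a twisted function with `m`-divisible realised divisor is parabolic.** -/
theorem isParHom_of_isTwisted {c : G0 N → ZMod m} {U : ℍ → ℂ} (hU : IsTwisted N m c U)
    {u : FF N} (hG : Realises N u (fun τ => U τ ^ m))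
    (hdiv : ∀ v : Place Kbar (FF N), (m : ℤ) ∣ v.ord u) : IsParHom c := by
  refine ⟨IsTwisted.map_mul hU, ?_, ?_⟩
  · intro γ htr
    have ht : ((γ : G0 N) : SL(2, ℤ)) 0 0 + ((γ : G0 N) : SL(2, ℤ)) 1 1 = 2 ∨
        ((γ : G0 N) : SL(2, ℤ)) 0 0 + ((γ : G0 N) : SL(2, ℤ)) 1 1 = -2 := by
      simpa [G0.mat, Matrix.trace_fin_two] using htr
    obtain ⟨h, n, hconj⟩ := parabolic_conj ((γ : G0 N) : SL(2, ℤ)) ht
    rcases lt_trichotomy n 0 with hn | rfl | hn
    · -- negative translation: pass to the inverse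
      have hinv : c γ⁻¹ = 0 := by
        refine IsTwisted.eq_zero_of_conj_pos hU hG hdiv γ⁻¹ h (-n) (by omega) fun τ => ?_
        have h1 := hconj (ModularGroup.T ^ (-n) • τ)
        rw [← mul_smul (ModularGroup.T ^ n), ← zpow_add, add_neg_cancel, zpow_zero, one_smul] at h1
        rw [← h1]
        show ((γ⁻¹ : G0 N) : SL(2, ℤ)) • ((γ : G0 N) : SL(2, ℤ)) • _ = _
        rw [← mul_smul]
        have : ((γ⁻¹ : G0 N) : SL(2, ℤ)) * ((γ : G0 N) : SL(2, ℤ)) = 1 := by
          rw [← Subgroup.coe_mul, inv_mul_cancel, Subgroup.coe_one]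
        rw [this, one_smul]
      have := IsTwisted.map_inv_add hU γ
      rwa [hinv, zero_add] at this
    · -- trivial action
      refine IsTwisted.eq_zero_of_trivial hU γ fun τ => ?_
      have h1 := hconj (h⁻¹ • τ)
      rwa [zpow_zero, one_smul, ← mul_smul h, mul_inv_cancel, one_smul] at h1
    · exact IsTwisted.eq_zero_of_conj_pos hU hG hdiv γ h n hn hconj
  · intro γ n hn hγ
    have hγ' : ((γ : G0 N) : SL(2, ℤ)) ^ n = 1 := by
      rw [← Subgroup.coe_pow, hγ, Subgroup.coe_one]
    rcases fixed_or_trivial_of_pow_eq_one _ n hn hγ' with h | ⟨τ₀, hτ₀⟩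
    · exact IsTwisted.eq_zero_of_trivial hU γ h
    · exact IsTwisted.eq_zero_of_fixed hU hG hdiv γ hτ₀

/-- **The character of a Kummer pair is parabolic.** -/
theorem isParHom_of_isKum {c : G0 N → ZMod m} {x : JZero N} (hk : IsKum N m c x) :
    IsParHom c := by
  obtain ⟨f, t, U, ht, hx, hU, hR⟩ := hk
  refine isParHom_of_isTwisted hU hR fun v => ?_
  have hf : f ≠ 0 := hx.ne_zero
  have hdvd : (m : ℤ) ∣ v.ord f := by
    obtain ⟨-, D, -, hD⟩ := hx
    exact ⟨_, (hD v).symm⟩
  rw [Place.ord_mul v hf (pow_ne_zero _ ht), H117.ord_pow]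
  exact dvd_add hdvd (dvd_mul_right _ _)

variable (N m)

/-- **ONTO** (final shape): every `m`-torsion class of `J₀(N)(ℚ̄)` is the Kummer class of a
parabolic character `Γ₀(N) → ℤ/m`. -/
theorem exists_isParHom_isKum_of_torsion {x : JZero N} (hx : (m : ℤ) • x = 0) :
    ∃ c : G0 N → ZMod m, IsParHom c ∧ IsKum N m c x := by
  obtain ⟨c, -, hc⟩ := exists_hom_isKum_of_torsion N m hx
  exact ⟨c, isParHom_of_isKum hc, hc⟩

end Fermat.Agent.S30.H810

end
end
-- ===== PACK-END S30/H810/ParHom.lean

-- ===== PACK-BEGIN S36/Eng/Top.lean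
section



/-!
# S36 ENGINE — skeleton, part 2 (architect helper996): the leaves and the top assembly

Leaves (each ONE `Prop`):

* `Alg3Statement`        (`Spec.lean`)  ABSTRACT three-component theorem;
* `Model3Statement`      (`Spec.lean`)  the modular three-component context at neat levels;
* `InertiaFieldStatement`               (UNR) the inertia field `ℚ̄^{I_P}` is an UNRAMIFIED good
                                        level;
* `DescPlugStatement`                   DESC + Kummer dictionary, POINTWISE: the level engine at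
                                        the inertia field gives helper442's `QNewInertiaAt`
                                        (= helper756 `kummerQNewInertiaAt_of_fixedAtC` + helper36
                                        `qNewInertiaAt_of_kummerAt` + a reshaping).

`qNewInertia_of_leaves` : the four leaves ⟹ `H36.QNewInertiaStatement` (all levels: the auxiliary
primes `r ≡ 11 mod 12` and `2, 2` (`q` odd) resp. `3, 3` (`q = 2`) are added here and removed by
helper442's one-step descent `qNewInertiaAt_of_mul`), hence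
`newPartInertia_of_leaves : … → H36.NewPartInertiaStatement`, the engine (N) of helper36's chain.
-/

set_option autoImplicit false
set_option linter.style.haveILetI false
set_option linter.unusedSectionVars false
set_option synthInstance.maxHeartbeats 400000
set_option maxHeartbeats 1600000

noncomputable section

namespace Fermat.Agent.S36.Eng

open ModularCurve AlgebraicCurve

/-- The inertia field `ℚ̄^{I_P}`. -/
abbrev inertiaFld (P : ValuationSubring A2.Qb) : IntermediateField ℚ A2.Qb :=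
  IntermediateField.fixedField (P.inertiaSubgroupIn ℚ)

/-- **UNR (leaf).**  The inertia field of a place `P` over `q` is an unramified good level:
`P ∩ ℚ̄^{I_P}` is a henselian DVR with uniformiser `q` and algebraically closed residue field.
(`A2/IF/H429`, `A2/IF/H969` have everything except `e = 1`:
`Ideal.card_inertia_eq_ramificationIdxIn` at finite levels.) -/
def InertiaFieldStatement : Prop :=
  ∀ q : ℕ, q.Prime → ∀ P : ValuationSubring A2.Qb, P.LiesOverPrime q →
    Unramified P (inertiaFld P) q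

/-- **DESC plug (leaf), pointwise.**  `x ∈ J₀(M q²)[p^∞]` fixed by `I_A` has a Kummer generator
over the inertia field (helper756); `q`-newness gives the two norm conditions over the inertia
field; the level engine gives `y ^ C = c h ^ m`, hence `C • x = 0` and `p ^ k • x = 0`,
`k = v_p(C)`. -/
def DescPlugStatement : Prop :=
  ∀ (M q p : ℕ) [NeZero M] [NeZero q] [NeZero (M * q)], q.Prime → ¬ q ∣ M → p.Prime → p ≠ q →
    ∀ A : ValuationSubring A2.Qb, A.LiesOverPrime q →
      LevelInertiaAt (inertiaFld A) M q → H442.QNewInertiaAt (M * q) q p A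

/-- Transport of `QNewInertiaAt` along an equality of levels. -/
theorem qNewInertiaAt_congr {N N' q p : ℕ} [NeZero N] [NeZero N'] [NeZero q]
    (P : ValuationSubring (AlgebraicClosure ℚ)) (h : N = N')
    (hN : H442.QNewInertiaAt N q p P) : H442.QNewInertiaAt N' q p P := by
  subst h
  exact hN

/-- The engine at ONE neat level `N₁` (`q ‖ N₁`), from the leaves. -/
theorem qNewInertiaAt_of_leaves (hALG : Alg3Statement) (hMOD : Model3Statement)
    (hUNR : InertiaFieldStatement) (hDESC : DescPlugStatement)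
    (N₁ q p : ℕ) [NeZero N₁] [NeZero q] (hq : q.Prime) (hfac : N₁.factorization q = 1)
    (hr : ∃ r : ℕ, r.Prime ∧ r % 12 = 11 ∧ r ≠ q ∧ r ∣ N₁)
    (h4 : q ≠ 2 → 4 ∣ N₁) (h9 : q = 2 → 9 ∣ N₁)
    (hp : p.Prime) (hpq : p ≠ q) (A : ValuationSubring A2.Qb) (hA : A.LiesOverPrime q) :
    H442.QNewInertiaAt N₁ q p A := by
  have hqN : q ∣ N₁ := Nat.dvd_of_factorization_pos (by rw [hfac]; exact one_ne_zero)
  obtain ⟨M, hM⟩ := hqN
  have hM' : N₁ = M * q := by rw [hM, mul_comm]
  have hM0 : M ≠ 0 := fun h => by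
    rw [h, zero_mul] at hM'
    exact (NeZero.ne N₁) hM'
  haveI : NeZero M := ⟨hM0⟩
  haveI : NeZero (M * q) := ⟨Nat.mul_ne_zero hM0 hq.ne_zero⟩
  have hqM : ¬ q ∣ M := by
    intro hd
    have h2' : 2 ≤ (M * q).factorization q := by
      rw [Nat.factorization_mul hM0 hq.ne_zero, Finsupp.add_apply, hq.factorization,
        Finsupp.single_eq_same]
      have : 1 ≤ M.factorization q :=
        (hq.dvd_iff_one_le_factorization hM0).1 hd
      omega
    rw [← hM'] at h2'
    omega
  have hneat : NeatFor M q := by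
    obtain ⟨r, hrp, hr12, hrq, hrd⟩ := hr
    refine ⟨⟨r, hrp, hr12, hrq, ?_⟩, ?_, ?_⟩
    · rw [hM'] at hrd
      rcases (Nat.Prime.dvd_mul hrp).1 hrd with h | h
      · exact h
      · exact absurd ((Nat.prime_dvd_prime_iff_eq hrp hq).1 h) hrq
    · intro hq2
      have h := h4 hq2
      rw [hM'] at h
      have hcop : Nat.Coprime 4 q := by
        have h2q : Nat.Coprime 2 q := (Nat.coprime_primes Nat.prime_two hq).2 (Ne.symm hq2)
        exact Nat.Coprime.pow_left 2 h2q
      exact hcop.dvd_of_dvd_mul_right h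
    · intro hq2
      have h := h9 hq2
      rw [hM'] at h
      subst hq2
      have hcop : Nat.Coprime 9 2 := by norm_num
      exact hcop.dvd_of_dvd_mul_right h
  exact qNewInertiaAt_congr A hM'.symm
    (hDESC M q p hq hqM hp hpq A hA
      (levelInertia_of_alg3_model3 hALG hMOD A (inertiaFld A) M q hq hqM hA (hUNR q hq A hA)
        hneat))

/-- **Skeleton, part 2.**  The four leaves give the engine on `J₀(N q)` at ALL levels `q ‖ N`:
the level is multiplied by a prime `r ≡ 11 mod 12` and by `s²`, `s = 2` (`q` odd) resp. `s = 3`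
(`q = 2`), and the three auxiliary primes are removed by `H442.qNewInertiaAt_of_mul`. -/
theorem qNewInertia_of_leaves (hALG : Alg3Statement) (hMOD : Model3Statement)
    (hUNR : InertiaFieldStatement) (hDESC : DescPlugStatement) : H36.QNewInertiaStatement := by
  intro N q p _ _ hq hfac hp hpq P hP
  -- the auxiliary prime `r ≡ 11 mod 12`
  obtain ⟨r, hB, hr, hmod⟩ := H442.exists_neat_prime (N * q * 6)
  haveI : NeZero r := ⟨hr.ne_zero⟩
  have hN0 : N ≠ 0 := NeZero.ne N
  have hNpos : 0 < N := Nat.pos_of_ne_zero hN0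
  have hrq : r ≠ q := by
    rintro rfl
    have : r ≤ N * r * 6 := by
      calc r = 1 * r * 1 := by ring
        _ ≤ N * r * 6 := by gcongr <;> omega
    omega
  -- the small auxiliary prime `s`
  obtain ⟨s, hs, hsq, hs4, hs9⟩ : ∃ s : ℕ, s.Prime ∧ s ≠ q ∧ (q ≠ 2 → s = 2) ∧ (q = 2 → s = 3) := by
    by_cases hq2 : q = 2
    · exact ⟨3, Nat.prime_three, by omega, fun h => absurd hq2 h, fun _ => rfl⟩
    · exact ⟨2, Nat.prime_two, fun h => hq2 h.symm, fun _ => rfl, fun h => absurd h hq2⟩
  haveI : NeZero s := ⟨hs.ne_zero⟩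
  haveI : NeZero (N * r) := ⟨Nat.mul_ne_zero hN0 hr.ne_zero⟩
  haveI : NeZero (N * r * s) := ⟨Nat.mul_ne_zero (NeZero.ne (N * r)) hs.ne_zero⟩
  haveI : NeZero (N * r * s * s) := ⟨Nat.mul_ne_zero (NeZero.ne (N * r * s)) hs.ne_zero⟩
  have hfac1 : (N * r).factorization q = 1 :=
    H442.factorization_mul_prime_eq_one hN0 hr hrq hfac
  have hfac2 : (N * r * s).factorization q = 1 :=
    H442.factorization_mul_prime_eq_one (NeZero.ne (N * r)) hs hsq hfac1
  have hfac3 : (N * r * s * s).factorization q = 1 :=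
    H442.factorization_mul_prime_eq_one (NeZero.ne (N * r * s)) hs hsq hfac2
  -- descend three times
  refine H442.qNewInertiaAt_of_mul N q r p hq hr hrq hp P ?_
  refine H442.qNewInertiaAt_of_mul (N * r) q s p hq hs hsq hp P ?_
  refine H442.qNewInertiaAt_of_mul (N * r * s) q s p hq hs hsq hp P ?_
  refine qNewInertiaAt_of_leaves hALG hMOD hUNR hDESC (N * r * s * s) q p hq hfac3
    ⟨r, hr, hmod, hrq, ?_⟩ ?_ ?_ hp hpq P hP
  · exact Dvd.dvd.mul_right (Dvd.dvd.mul_right (Dvd.intro_left N rfl) s) s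
  · intro hq2
    have := hs4 hq2
    subst this
    exact ⟨N * r, by ring⟩
  · intro hq2
    have := hs9 hq2
    subst this
    exact ⟨N * r, by ring⟩

/-- **The engine (N)** of helper36's chain from the four leaves. -/
theorem newPartInertia_of_leaves (hALG : Alg3Statement) (hMOD : Model3Statement)
    (hUNR : InertiaFieldStatement) (hDESC : DescPlugStatement) : H36.NewPartInertiaStatement :=
  H36.newPartInertiaStatement_of_qNew (qNewInertia_of_leaves hALG hMOD hUNR hDESC)

end Fermat.Agent.S36.Eng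

end

end
-- ===== PACK-END S36/Eng/Top.lean

-- ===== PACK-BEGIN S36/H756/DescPlugCore.lean
section




/-!
# S36 ENGINE, leaf DESC-PLUG, core (helper756) — no dependency on `S36/Eng`

`qNewInertiaAt_of_levelEngine` is `Fermat.Agent.S36.Eng.DescPlugStatement` (architect helper996,
`S36/Eng/Top.lean`, Spec v1.2) with `Eng.LevelInertiaAt` and `Eng.inertiaFld` UNFOLDED:

the level engine over the inertia field `E = ℚ̄^{I_A}`
(`∃ C > 0, ∀ m > 0, q ∤ m, ∀ y ∈ F_E(M q²)ˣ, m ∣ div y, N_α y, N_β y ∈ E·(F_E(M q))^m →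
 y ^ C ∈ E·(F_E(M q²)ˣ)^m`)
gives helper442's pointwise engine `H442.QNewInertiaAt (M q) q p A` on `J₀(M q²)`.

Wrapper (one line, once `S36/Eng/Top.lean` is on main):
`descPlug : Eng.DescPlugStatement := fun M q p _ _ _ hq _ hp hpq A _ h =>
   H756.qNewInertiaAt_of_levelEngine M q p hq hp hpq A h`.

Proof: the hypothesis at `m = p ^ n` (`q ∤ p ^ n` as `p ≠ q`) is `H756.KummerFixedAtC (M q) q p A`;
`H756.kummerQNewInertiaAt_of_fixedAtC` (DESC + wiring) gives helper36's Kummer form
`H36.KummerQNewInertiaAt`, and `H36.qNewInertiaAt_of_kummerAt` the point form.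
-/

set_option autoImplicit false
set_option linter.style.haveILetI false
set_option linter.unusedSectionVars false
set_option synthInstance.maxHeartbeats 400000
set_option maxHeartbeats 1600000

noncomputable section

namespace Fermat.Agent.S36.H756

open ModularCurve AlgebraicCurve

/-- **The level engine over the inertia field** of `A`, levels `M q` and `M q q`
(= `Eng.LevelInertiaAt (Eng.inertiaFld A) M q`, unfolded). -/
def LevelEngineAt (M q : ℕ) [NeZero M] [NeZero q] [NeZero (M * q)]
    (A : ValuationSubring Fermat.Agent.A2.Qb) : Prop :=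
  ∃ C : ℕ, 0 < C ∧ ∀ m : ℕ, 0 < m → ¬ q ∣ m →
    ∀ y : Fermat.Agent.A2.Mod.FE (IntermediateField.fixedField (A.inertiaSubgroupIn ℚ))
        (M * q * q), y ≠ 0 →
      Fermat.Agent.A2.DivisibleDiv (IntermediateField.fixedField (A.inertiaSubgroupIn ℚ)) m y →
      Fermat.Agent.S35.G.NormPow
        (Fermat.Agent.A2.Mod.αE (IntermediateField.fixedField (A.inertiaSubgroupIn ℚ))
          (M * q) q) m y →
      Fermat.Agent.S35.G.NormPow
        (Fermat.Agent.A2.Mod.βE (IntermediateField.fixedField (A.inertiaSubgroupIn ℚ))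
          (M * q) q) m y →
      ∃ (c : IntermediateField.fixedField (A.inertiaSubgroupIn ℚ))
        (h : Fermat.Agent.A2.Mod.FE (IntermediateField.fixedField (A.inertiaSubgroupIn ℚ))
          (M * q * q)), h ≠ 0 ∧
        y ^ C = algebraMap (IntermediateField.fixedField (A.inertiaSubgroupIn ℚ))
          (Fermat.Agent.A2.Mod.FE (IntermediateField.fixedField (A.inertiaSubgroupIn ℚ))
            (M * q * q)) c * h ^ m

/-- The level engine over the inertia field, at `p`-power exponents, is `KummerFixedAtC`. -/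
theorem kummerFixedAtC_of_levelEngine (M q p : ℕ) [NeZero M] [NeZero q] [NeZero (M * q)]
    (hq : q.Prime) (hp : p.Prime) (hpq : p ≠ q) (A : ValuationSubring Fermat.Agent.A2.Qb)
    (h : LevelEngineAt M q A) : KummerFixedAtC (M * q) q p A := by
  obtain ⟨C, hC, hE⟩ := h
  refine ⟨C, hC.ne', fun n y hy hdiv hα hβ => ?_⟩
  have hm : 0 < p ^ n := pow_pos hp.pos n
  have hqm : ¬ q ∣ p ^ n := fun hd =>
    hpq ((Nat.prime_dvd_prime_iff_eq hq hp).1 (hq.dvd_of_dvd_pow hd)).symm
  obtain ⟨c₁, h₁, -, -, e₁⟩ := hα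
  obtain ⟨c₂, h₂, -, -, e₂⟩ := hβ
  exact hE (p ^ n) hm hqm y hy hdiv ⟨c₁, h₁, e₁⟩ ⟨c₂, h₂, e₂⟩

/-- **DESC-PLUG, core** (= `Eng.DescPlugStatement` with the `Eng` definitions unfolded). -/
theorem qNewInertiaAt_of_levelEngine (M q p : ℕ) [NeZero M] [NeZero q] [NeZero (M * q)]
    (hq : q.Prime) (hp : p.Prime) (hpq : p ≠ q) (A : ValuationSubring Fermat.Agent.A2.Qb)
    (h : LevelEngineAt M q A) : Fermat.Agent.S36.H442.QNewInertiaAt (M * q) q p A :=
  Fermat.Agent.S36.H36.qNewInertiaAt_of_kummerAt (M * q) q p hp A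
    (kummerQNewInertiaAt_of_fixedAtC (M * q) q p hp A
      (kummerFixedAtC_of_levelEngine M q p hq hp hpq A h))

/-- The same with `p ^ k`-kernel form of helper160 (`H160.KernelAt`, unfolded): for `x` of
`p`-power order on `J₀(M q²)`, `α_* x = β_* x = 0` and `x` fixed by `I_A` imply `p ^ k • x = 0`. -/
theorem kernelAt_of_levelEngine (M q p : ℕ) [NeZero M] [NeZero q] [NeZero (M * q)]
    (hq : q.Prime) (hp : p.Prime) (hpq : p ≠ q) (A : ValuationSubring Fermat.Agent.A2.Qb)
    (h : LevelEngineAt M q A) :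
    ∃ k : ℕ, ∀ x : JZero (M * q * q), (∃ n : ℕ, p ^ n • x = 0) →
      Fermat.Agent.S35.H155.IsQNew (M * q) q x →
      (∀ τ ∈ A.inertiaSubgroupIn ℚ, τ • x = x) → p ^ k • x = 0 :=
  qNewInertiaAt_of_levelEngine M q p hq hp hpq A h

end Fermat.Agent.S36.H756

end

end
-- ===== PACK-END S36/H756/DescPlugCore.lean

-- ===== PACK-BEGIN S36/Mod3/H439/FF.lean
section




/-!
# S36 / MOD3 leaf `LeafFF` (helper439)

`x = j · j_q · j_{q²}` at level `M q q`:

* `x` is transcendental over `E` (pole of order `1 + q + q²` at `∞`);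
* `F_{Mqq}` is finite over `E(x)` (finite over `E(j)` by the degree formula, then exchange);
* `E` is algebraically closed in `F_{Mqq}` (`A2.Mod.H816.mem_range_of_isAlgebraic`, any level).

Main result: `leafFF : Mod3.LeafFF` (exact frozen leaf of `Mod3/Spec.lean`).
The auxiliary statements hold at every level `N ≠ 0` and for every product of `j_d`'s.
-/

set_option autoImplicit false
set_option linter.unusedSectionVars false
set_option synthInstance.maxHeartbeats 400000
set_option maxHeartbeats 1600000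

noncomputable section

namespace Fermat.Agent.S36.Mod3.H439

open ModularCurve IntermediateField
open Fermat.Agent.A2.Mod Fermat.Agent.A2.Mod.H816

variable (E : IntermediateField ℚ A2.Qb)

/-- `j` is transcendental over `E` at every level. -/
theorem transcendental_j1_h439 (N : ℕ) :
    Transcendental E (jE E N 1 (one_dvd N)) := by
  refine transcendental_of_addVal_neg (vInf E N) (fun c hc => vInf_algebraMap E N hc)
    (a := -((1 : ℕ) : ℤ)) (by norm_num) (vInf_jE E N 1 (one_dvd N))

/-- `F_N` is finite over `E(j)` at every level `N ≠ 0`. -/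
theorem finiteDimensional_j1_h439 (N : ℕ) (hN : N ≠ 0) :
    FiniteDimensional (adjoin E ({jE E N 1 (one_dvd N)} : Set (FE E N))) (FE E N) := by
  have h := Fermat.Agent.S28.H988.relfinrank_jField_full_eq E N hN
    (fun p hp _ => natCast_ne_zero_E E hp.ne_zero)
  rw [Fermat.Agent.S28.jField] at h
  have hpos : 0 < Module.finrank (adjoin E ({jE E N 1 (one_dvd N)} : Set (FE E N))) (FE E N) := by
    rw [finrank_adjoin_eq_relfinrank, H873.coe_jE, qExpand_one_apply, FE_eq_fullC, h]
    exact Fermat.Agent.S28.H988.dedekindPsi_pos N hN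
  exact Module.finite_of_finrank_pos hpos

/-- `F_N` is finite over `E(y)` for every transcendental `y` (level `N ≠ 0`). -/
theorem finiteDimensional_of_transcendental_h439 (N : ℕ) (hN : N ≠ 0) {y : FE E N}
    (hy : Transcendental E y) :
    FiniteDimensional (adjoin E ({y} : Set (FE E N))) (FE E N) := by
  have hfin := finiteDimensional_j1_h439 E N hN
  exact Fermat.Agent.S24.FF.finiteDimensional_adjoin_of_transcendental
    (transcendental_j1_h439 E N) hy

section X3

variable (M q : ℕ) [NeZero M] [NeZero q] [NeZero (M * q)]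

/-- `vInf x = -(1 + q + q²)` at level `M q q`. -/
theorem vInf_x3E_h439 :
    vInf E (M * q * q) (x3E E M q) = ((-(1 + (q : ℤ) + q * q) : ℤ) : WithTop ℤ) := by
  rw [x3E, j1, jq, jqq,
    addVal_mul_coe _ (addVal_mul_coe _ (vInf_jE E (M * q * q) 1 (one_dvd _))
      (vInf_jE E (M * q * q) q (Dvd.intro_left (M * q) rfl)))
      (vInf_jE E (M * q * q) (q * q) ⟨M, by ring⟩)]
  congr 1
  push_cast
  ring

/-- `x = j j_q j_{q²}` is transcendental over `E`. -/
theorem transcendental_x3E_h439 : Transcendental E (x3E E M q) := by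
  refine transcendental_of_addVal_neg (vInf E (M * q * q))
    (fun c hc => vInf_algebraMap E _ hc) (a := -(1 + (q : ℤ) + q * q)) ?_ (vInf_x3E_h439 E M q)
  have h1 : (0 : ℤ) ≤ q := Int.natCast_nonneg q
  have h2 : (0 : ℤ) ≤ (q : ℤ) * q := mul_nonneg h1 h1
  omega

/-- The FF part of the three-component context, at every level `M q q` (no hypothesis on `q`). -/
theorem partFF_h439 : PartFF E (x3E E M q) where
  hx := transcendental_x3E_h439 E M q
  hfin := finiteDimensional_of_transcendental_h439 E (M * q * q)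
    (Nat.mul_ne_zero (NeZero.ne (M * q)) (NeZero.ne q)) (transcendental_x3E_h439 E M q)
  hconst := fun f hf => mem_range_of_isAlgebraic E (M * q * q) f hf

end X3

/-- **MOD3 leaf FF** (exact frozen leaf of `Mod3/Spec.lean`). -/
theorem leafFF : LeafFF := fun E M q _ _ _ _ _ => partFF_h439 E M q

end Fermat.Agent.S36.Mod3.H439

end

end
-- ===== PACK-END S36/Mod3/H439/FF.lean

-- ===== PACK-BEGIN S36/Mod3/H439/Fin.lean
section


/-!
# S36 / MOD3 leaf `LeafFin` (helper439)

The two degeneracy maps `α, β : F_{Mq} → F_{Mqq}` are finite: `F_{Mqq}` is finite over `E(y)` for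
every transcendental `y` (`finiteDimensional_of_transcendental_h439`), in particular for
`y = φ(j)`, and `E(φ j) ⊆ φ(F_{Mq})`.

Main result: `leafFin : Mod3.LeafFin` (exact frozen leaf of `Mod3/Spec.lean`).
-/

set_option autoImplicit false
set_option linter.unusedSectionVars false
set_option linter.style.haveILetI false
set_option synthInstance.maxHeartbeats 400000
set_option maxHeartbeats 1600000

noncomputable section

namespace Fermat.Agent.S36.Mod3.H439

open ModularCurve IntermediateField AlgebraicCurve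
open Fermat.Agent.A2.Mod Fermat.Agent.A2.Mod.H816

section Abs

variable {K F F' : Type*} [Field K] [Field F] [Field F'] [Algebra K F] [Algebra K F']

/-- A `K`-embedding `φ : F → F'` is finite as soon as `F'` is finite over `K(φ y)` for some
`y ∈ F`. -/
theorem finiteAlong_of_finite_adjoin_h439 (φ : F →ₐ[K] F') (y : F)
    (hfin : FiniteDimensional K⟮φ y⟯ F') : FiniteAlong K φ := by
  letI := algebraAlong φ
  show Module.Finite F F'
  obtain ⟨S, hS⟩ := (Module.finite_def (R := K⟮φ y⟯) (M := F')).mp hfin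
  refine Module.finite_def.mpr ⟨S, ?_⟩
  have hle : K⟮φ y⟯ ≤ φ.fieldRange := by
    rw [adjoin_le_iff]
    rintro _ rfl
    exact ⟨y, rfl⟩
  have key : ∀ x : F', x ∈ Submodule.span K⟮φ y⟯ (S : Set F') →
      x ∈ Submodule.span F (S : Set F') := by
    intro x hx
    induction hx using Submodule.span_induction with
    | mem x hx => exact Submodule.subset_span hx
    | zero => exact zero_mem _
    | add x y _ _ hx hy => exact add_mem hx hy
    | smul e x _ hx =>
      obtain ⟨f, hf⟩ := hle e.2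
      have : e • x = f • x := by
        rw [Algebra.smul_def, Algebra.smul_def]
        show (e : F') * x = φ f * x
        rw [← hf]
        rfl
      rw [this]
      exact Submodule.smul_mem _ _ hx
  rw [eq_top_iff]
  intro x _
  exact key x (by rw [hS]; trivial)

end Abs

variable (E : IntermediateField ℚ A2.Qb)

/-- Every `E`-embedding `F_N → F_{N'}` (`N' ≠ 0`) of modular function fields is finite. -/
theorem finiteAlong_level_h439 (N N' : ℕ) (hN' : N' ≠ 0) (φ : FE E N →ₐ[E] FE E N') :
    FiniteAlong E φ := by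
  have hy : Transcendental E (φ (jE E N 1 (one_dvd N))) := fun h =>
    transcendental_j1_h439 E N ((isAlgebraic_algHom_iff φ φ.injective).mp h)
  exact finiteAlong_of_finite_adjoin_h439 φ (jE E N 1 (one_dvd N))
    (finiteDimensional_of_transcendental_h439 E N' hN' hy)

/-- **MOD3 leaf FIN** (exact frozen leaf of `Mod3/Spec.lean`). -/
theorem leafFin : LeafFin := fun E M q _ _ _ _ _ =>
  { fin_α := finiteAlong_level_h439 E (M * q) (M * q * q)
      (Nat.mul_ne_zero (NeZero.ne (M * q)) (NeZero.ne q)) _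
    fin_β := finiteAlong_level_h439 E (M * q) (M * q * q)
      (Nat.mul_ne_zero (NeZero.ne (M * q)) (NeZero.ne q)) _ }

end Fermat.Agent.S36.Mod3.H439

end

end
-- ===== PACK-END S36/Mod3/H439/Fin.lean

-- ===== PACK-BEGIN S36/Mod3/H27/LeafQep.lean
section






/-!
# S36 / MOD3, leaf QEP (helper27): `leafQep_of_vt : LeafVT → LeafQep`

ROUTE B (uniform for the finite chart and the chart at infinity):

* every height-one prime of a chart containing `w` is the centre of a sheet, so by the algebraic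
  Hartogs lemma `Qep3` follows from COMPLETENESS of `{V₁, V₂, V₃}` (`QepAbs.lean`);
* completeness: a sheet `V` of level `M q q` (coordinate `x = j j_q j_{q²}`) is a sheet for the
  coordinate `α x' = j j_q` (same chart: `chart_α`, `int_α` of helper189), so `V.comap α` is a
  sheet of level `M q`, hence `V₁'` or `V₂'` (`SheetsLow.lean`, from S1 of cell A2), hence `V` is
  `V₁`, `V₂` or `V₃` (`LeafVT.only_α₁`, `LeafVT.only_α₃`).

The only hypothesis is the valuation-level hub `LeafVT` (fields `only_α₁`, `only_α₃`); `LeafFF` and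
the integrality half of `LeafChart` are taken from main (helper439, helper189).
-/

set_option autoImplicit false
set_option linter.style.haveILetI false
set_option linter.unusedSectionVars false
set_option synthInstance.maxHeartbeats 400000
set_option maxHeartbeats 1600000

noncomputable section

namespace Fermat.Agent.S36.Mod3.H27

open Polynomial ModularCurve
open Fermat.Agent.A2.H12 (IsSheet)
open Fermat.Agent.S18.H138
open Fermat.Agent.A2.Mod
open Fermat.Agent.S36.Eng

/-- **`LeafQep` from the completeness fields** `only_α₁`, `only_α₃`, restricted to sheets. -/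
theorem leafQep_of_only
    (h : Mod3.Leaf fun P E M q _ _ _ w V₁' V₂' V₁ V₂ V₃ =>
      (∀ V : ValuationSubring (FE E (M * q * q)), IsSheet w (Mod3.x3E E M q) V →
        V.comap (αE E (M * q) q : FE E (M * q) →+* FE E (M * q * q)) = V₁' → V = V₁ ∨ V = V₂) ∧
      (∀ V : ValuationSubring (FE E (M * q * q)), IsSheet w (Mod3.x3E E M q) V →
        V.comap (αE E (M * q) q : FE E (M * q) →+* FE E (M * q * q)) = V₂' → V = V₃)) :
    Mod3.LeafQep := by
  intro P E M q _ _ _ w hS V₁' V₂' V₁ V₂ V₃ W' W hO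
  obtain ⟨hE₁, hE₂⟩ := h P E M q w hS V₁' V₂' V₁ V₂ V₃ W' W hO
  haveI : IsDiscreteValuationRing (RE P E) := hS.unram.1.dvr
  have hSet : Setting P E M q w :=
    ⟨hS.q_prime, hS.q_not_dvd, NeZero.ne M, hS.lies_over, hS.unram.1.dvr, hS.unif⟩
  have hff := Mod3.H439.leafFF E M q hS.q_prime hS.q_not_dvd
  haveI := hff.hfin
  haveI : FiniteDimensional (baseField (RE P E) (Mod3.x3E E M q)) (FE E (M * q * q)) :=
    Fermat.Agent.A2.H313.finiteDimensional_baseField_of_adjoin E (Mod3.x3E E M q)
  have hxR : Transcendental (RE P E) (Mod3.x3E E M q) := H13.transcendental_RE hff.hx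
  -- the lower coordinate
  obtain ⟨htr, -, -⟩ := H31.deg E M q hS.q_prime hS.q_not_dvd
  have hx'E : Transcendental E (αE E (M * q) q (xE E M q)) := by
    intro halg
    exact htr ((isAlgebraic_algHom_iff (αE E (M * q) q) (αE E (M * q) q).injective).1 halg)
  have hx' : Transcendental (RE P E) (αE E (M * q) q (xE E M q)) :=
    H13.transcendental_RE hx'E
  have hα : ∀ r : RE P E, (αE E (M * q) q : FE E (M * q) →+* FE E (M * q * q))
      (algebraMap (RE P E) (FE E (M * q)) r) = algebraMap (RE P E) (FE E (M * q * q)) r :=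
    fun r => (αE E (M * q) q).commutes (r : E)
  have hc₂ : αE E (M * q) q (xE E M q) ∈
      _root_.Fermat.Agent.S18.H138.chart (RE P E) ({Mod3.x3E E M q} : Set (FE E (M * q * q))) :=
    Mod3.H189.chart_α_x3E P E M q hS.q_prime _ (mem_chart_of_mem rfl)
  have hc₁ : Mod3.x3E E M q ∈
      _root_.Fermat.Agent.S18.H138.chart (RE P E) ({αE E (M * q) q (xE E M q)} : Set (FE E (M * q * q))) :=
    Fermat.Agent.S36.H747.mem_chart_of_isIntegralOver
      (αE E (M * q) q : FE E (M * q) →+* FE E (M * q * q)) {xE E M q}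
      {αE E (M * q) q (xE E M q)}
      (Mod3.H189.chart_map (R := RE P E) (α := αE E (M * q) q) (mem_chart_of_mem rfl))
      (Mod3.x3E E M q)
      (Mod3.H189.int_α_x3E P E M q hS.q_prime _ (mem_chart_of_mem rfl))
  have hS' : ∀ V' : ValuationSubring (FE E (M * q)), IsSheet w (xE E M q) V' →
      V' = V₁' ∨ V' = V₂' := by
    intro V' hV'
    rw [hO.vzero']
    exact sheets_low hSet hO.vinf' hO.fricke' V' hV'
  obtain ⟨h1, h2⟩ := qep3_of_tower (algebraMap_RE_injective (M * q * q)) hS.unif.prime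
    (αE E (M * q) q : FE E (M * q) →+* FE E (M * q * q)) hα hxR hx' hc₁ hc₂
    V₁ V₂ V₃ V₁' V₂' hS' hE₁ hE₂
  exact ⟨h1, h2⟩

/-- **`LeafQep` from the valuation-level hub `LeafVT`.** -/
theorem leafQep_of_vt (hVT : Mod3.LeafVT) : Mod3.LeafQep :=
  leafQep_of_only fun P E M q _ _ _ w hS V₁' V₂' V₁ V₂ V₃ W' W hO =>
    ⟨fun V _ hV => (hVT P E M q w hS V₁' V₂' V₁ V₂ V₃ W' W hO).only_α₁ V hV,
      fun V _ hV => (hVT P E M q w hS V₁' V₂' V₁ V₂ V₃ W' W hO).only_α₃ V hV⟩

end Fermat.Agent.S36.Mod3.H27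

end

end
-- ===== PACK-END S36/Mod3/H27/LeafQep.lean

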