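import Fermat.Agent.Pack.S36.E18L0
import Fermat.Agent.Pack.S36.E19L2
import Fermat.Agent.Pack.S36.E19L3
import Fermat.Agent.Pack.S36.E15L3
import Fermat.Agent.Pack.S36.E17L3
import Fermat.Agent.Pack.S36.E16L2
import Fermat.Agent.Pack.S36.E11L3
import Fermat.Agent.Pack.S36.E18L2
import Fermat.Agent.Pack.S36.E15L0
import Fermat.Agent.Pack.S36.E18L3
import Fermat.Agent.Pack.S36.E3L3
import Fermat.Agent.Pack.S36.E19L0
import Fermat.Agent.Pack.S36.E18L1
import Fermat.Agent.Pack.S36.E17L0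
import Fermat.Agent.Pack.S36.E12L2
import Fermat.Agent.Pack.S36.E14L2
import Fermat.Agent.Pack.S36.E19L1
import Fermat.Agent.Pack.S36.E10L1
import Fermat.Agent.Pack.S36.E16L0

-- ===== PACK-BEGIN S29/M4b/H822/K4.lean
section
/-
S29 / M4b (helper822): the pieces `K4-UNIQ`, `K4-INJ`, `K4-ADD` of the Kummer map, in the EXACT
shape of the `Prop`s `PieceUniq`, `PieceInj`, `PieceAdd` of `M4b/Top.lean` (for every modulus
`p ≠ 0`, in particular for `p` prime).  Sorry-free.
-/




set_option autoImplicit false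

namespace Fermat.Agent.S29.M4b.H822

open Fermat.Agent.S24 Fermat.Agent.S29 Fermat.Agent.S29.M4b

/-- PIECE `K4-UNIQ`, exact `Prop` of `M4b/Top.lean`. -/
theorem pieceUniq (N : ℕ) [NeZero N] (p : ℕ) (hp : p ≠ 0) : PieceUniq N p := by
  haveI : NeZero p := ⟨hp⟩
  intro c x x' h h'
  exact isKum_unique N p h h'

/-- PIECE `K4-INJ`, exact `Prop` of `M4b/Top.lean`. -/
theorem pieceInj (N : ℕ) [NeZero N] (p : ℕ) (hp : p ≠ 0) : PieceInj N p := by
  haveI : NeZero p := ⟨hp⟩
  intro c h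
  exact isKum_zero_right N p h

/-- PIECE `K4-ADD`, exact `Prop` of `M4b/Top.lean`. -/
theorem pieceAdd (N : ℕ) [NeZero N] (p : ℕ) (hp : p ≠ 0) : PieceAdd N p := by
  haveI : NeZero p := ⟨hp⟩
  intro c c' x x' h h'
  exact isKum_add N p h h'

/-- The Kummer bridge `M4bStatement` from the FOUR remaining pieces (`K1`, `K3`, `K2`,
`K4-HECKE`), for all levels and prime moduli. -/
theorem m4bStatement_of_four
    (h1 : ∀ (N : ℕ) [NeZero N] (p : ℕ), p.Prime → PieceK1 N p)
    (h3 : ∀ (N : ℕ) [NeZero N] (p : ℕ), p.Prime → PieceK3 N p)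
    (h2 : ∀ (N : ℕ) [NeZero N] (p : ℕ), p.Prime → PieceK2 N p)
    (hh : ∀ (N : ℕ) [NeZero N] (p : ℕ), p.Prime → PieceHecke N p) :
    M4bStatement :=
  M4bStatement_of_pieces h1 h3 h2 (fun N _ p hp => pieceUniq N p hp.ne_zero)
    (fun N _ p hp => pieceInj N p hp.ne_zero) (fun N _ p hp => pieceAdd N p hp.ne_zero) hh

end Fermat.Agent.S29.M4b.H822

end
-- ===== PACK-END S29/M4b/H822/K4.lean

-- ===== PACK-BEGIN S18/Mod/H216/GoodLevel.lean
section


/-!
# S18 / MOD (helper216): the good model over an ARBITRARY level `E` (for A2 / GOODRED)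

`node_mod` quantifies over number fields `E`, but finiteness of `E / ℚ` is used ONLY to produce the
uniformiser (`PartR`).  Here the same wiring is stated for EVERY intermediate field `E ⊆ Q̄`
(e.g. a good level `E ⊇ Q̄^{I}` of A2, infinite over `ℚ`), with `PartR` as the hypothesis:

* `partR_of_dvr`        : `PartR` from `[IsDiscreteValuationRing (H602.RE A E)]` + Frobenius
                          surjective on the residue field (`∀ r, ∃ s, r - s ^ ℓ ∈ 𝔪`);
* `partR_of_dvr_of_isAlgClosed` : the same when the residue field is algebraically closed;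
* `baseModel_j_of_partR`: the `j`-model without branch fields, every `ℓ ∤ M` (also `ℓ = 2, 3`);
* `goodModel_of_partR`  : `Alg.GoodModel (Lc M) (Ec M E) (Fc M E) (Rc M A E) (Vc M A E) w x S`
                          for every admissible coordinate (`x = j` if `ℓ ≥ 5`, Hauptmoduln else).
-/

set_option autoImplicit false
set_option linter.unusedSectionVars false

noncomputable section

namespace Fermat.Agent.S18.Mod.H216

open ModularCurve AlgebraicCurve HahnSeries Fermat.Agent.S18 Fermat.Agent.S18.Mod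
open Fermat.Agent.S18.Alg

variable (M : ℕ) [NeZero M] {ℓ : ℕ} [Fact ℓ.Prime] (A : ValuationSubring Qb)
  (E : IntermediateField ℚ Qb)

/-- **G-R over an arbitrary level**: `PartR` from the DVR property of `R_E = A ∩ E` and the
surjectivity of Frobenius on its residue field. -/
theorem partR_of_dvr [IsDiscreteValuationRing (H602.RE A E)] (hA : A.LiesOverPrime ℓ)
    (hperf : ∀ r : H602.RE A E,
      ∃ s : H602.RE A E, r - s ^ ℓ ∈ IsLocalRing.maximalIdeal (H602.RE A E)) :
    ∃ w : Om M, H456.IsUnif M A E w ∧ PartR (Ec M E) (Rc M A E) w := by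
  have hℓ : ℓ.Prime := Fact.out
  obtain ⟨w, hw⟩ := H456.exists_isUnif M A E
  refine ⟨w, hw, H456.field_R_le M A E, H456.field_R_total M A E, hw.mem, hw.ne_zero,
    hw.inv_not_mem, hw.gen, hw.discrete, ℓ, hℓ, ?_, ?_⟩
  · rw [← H456.cstR_natCast M A E, hw.mul_inv_mem_iff, IsLocalRing.mem_maximalIdeal,
      mem_nonunits_iff]
    exact H602.natCast_not_isUnit_RE A E hA
  · intro r hr
    obtain ⟨r₀, rfl⟩ := (H456.mem_Rc_iff_cstR M A E).1 hr
    obtain ⟨s, hs⟩ := hperf r₀
    refine ⟨H456.cstR M A E s, H456.cstR_mem_Rc M A E s, ?_⟩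
    rw [← H456.cstR_pow, ← H456.cstR_sub, hw.mul_inv_mem_iff]
    exact hs

/-- Frobenius is surjective modulo the maximal ideal when the residue field is algebraically
closed. -/
theorem exists_pow_sub_mem_of_isAlgClosed [IsDiscreteValuationRing (H602.RE A E)]
    [IsAlgClosed (IsLocalRing.ResidueField (H602.RE A E))] (r : H602.RE A E) :
    ∃ s : H602.RE A E, r - s ^ ℓ ∈ IsLocalRing.maximalIdeal (H602.RE A E) := by
  have hℓ : ℓ.Prime := Fact.out
  obtain ⟨y, hy⟩ := IsAlgClosed.exists_pow_nat_eq (IsLocalRing.residue (H602.RE A E) r) hℓ.pos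
  obtain ⟨s, rfl⟩ := IsLocalRing.residue_surjective y
  refine ⟨s, ?_⟩
  rw [← IsLocalRing.residue_eq_zero_iff, map_sub, map_pow, sub_eq_zero]
  exact hy.symm

/-- **G-R over a good level**: `R_E` a DVR with algebraically closed residue field. -/
theorem partR_of_dvr_of_isAlgClosed [IsDiscreteValuationRing (H602.RE A E)]
    [IsAlgClosed (IsLocalRing.ResidueField (H602.RE A E))] (hA : A.LiesOverPrime ℓ) :
    ∃ w : Om M, H456.IsUnif M A E w ∧ PartR (Ec M E) (Rc M A E) w :=
  partR_of_dvr M A E hA (exists_pow_sub_mem_of_isAlgClosed A E)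

/-- **G-FLD** for the coordinate `j`, arbitrary level. -/
theorem partFld_j_any : PartFld (Lc M) (Ec M E) (Fc M E) (jOm M) :=
  ⟨H456.field_E_le_L M E, H456.field_E_le_F M E, H456.field_L_algebraic M E,
    H456.field_L_algClosed M, H456.field_E_closed_in_F M E, H456.field_compositum M E,
    H456.mem_Fc_of_hasIntExp M E (H456.hasIntExp_jOm M),
    H456.transcendental_of_hasIntExp M (H456.hasIntExp_jOm M), H24.field_finite_j M E⟩

/-- **G-FLD** for every admissible coordinate, arbitrary level. -/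
theorem partFld_of_isCoordinate {x : Om M} {S : Finset (Om M)} (hx : IsCoordinate M ℓ x S) :
    PartFld (Lc M) (Ec M E) (Fc M E) x :=
  ⟨H456.field_E_le_L M E, H456.field_E_le_F M E, H456.field_L_algebraic M E,
    H456.field_L_algClosed M, H456.field_E_closed_in_F M E, H456.field_compositum M E,
    H456.field_x_mem M E hx, H456.field_x_transcendental M hx, H24.field_finite M E hx⟩

/-- The `j`-model without its branch fields over an arbitrary level, for every `ℓ ∤ M`
(including `ℓ = 2, 3`). -/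
theorem baseModel_j_of_partR (hℓM : ¬ ℓ ∣ M) (hA : A.LiesOverPrime ℓ) {w : Om M}
    (hw : PartR (Ec M E) (Rc M A E) w) :
    H107.BaseModel107 (Lc M) (Ec M E) (Fc M E) (Rc M A E) (Vc M A E) w (jOm M) := by
  have hF := partFld_j_any M E
  have hV := partV_j A E (coreData_residue A hℓM hA) hw
  have hQ := partQep_j A E (coreData_residue A hℓM hA) hw
  have hS : PartSep (Rc M A E) (Vc M A E) w (jOm M) :=
    ⟨H264.separable_jOm M hℓM A hA E (Vc M A E) (coe_Vc M A E) w hw.w_mem hw.w_ne_zero hw.w_gen⟩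
  exact
    { charZero := charZero_Om M
      R_le := hw.R_le
      R_total := hw.R_total
      w_mem := hw.w_mem
      w_ne_zero := hw.w_ne_zero
      w_inv_not_mem := hw.w_inv_not_mem
      w_gen := hw.w_gen
      w_discrete := hw.w_discrete
      residue_perfect := hw.residue_perfect
      E_le_L := hF.E_le_L
      E_le_F := hF.E_le_F
      L_algebraic := hF.L_algebraic
      L_algClosed := hF.L_algClosed
      E_closed_in_F := hF.E_closed_in_F
      compositum := hF.compositum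
      x_mem := hF.x_mem
      x_transcendental := hF.x_transcendental
      finite := hF.finite
      V_le := hV.V_le
      V_total := hV.V_total
      R_le_V := hV.R_le_V
      w_inv_not_mem_V := hV.w_inv_not_mem_V
      V_gen := hV.V_gen
      x_mem_V := hV.x_mem_V
      gauss := hV.gauss
      qep_fin := hQ.qep_fin
      qep_inf := hQ.qep_inf
      separable := hS.separable }

/-- **The good model over an arbitrary level `E`** (`R_E = A ∩ E` a DVR with uniformiser `w` and
perfect residue field, packaged as `PartR`), for every admissible coordinate. -/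
theorem goodModel_of_partR (hℓM : ¬ ℓ ∣ M) (hA : A.LiesOverPrime ℓ) {w : Om M}
    (hw : PartR (Ec M E) (Rc M A E) w) {x : Om M} {S : Finset (Om M)}
    (hx : IsCoordinate M ℓ x S) :
    GoodModel (Lc M) (Ec M E) (Fc M E) (Rc M A E) (Vc M A E) w x S := by
  by_cases h5 : 5 ≤ ℓ
  · obtain ⟨h1, h2, h3, h4⟩ := H558.br_of_isCoordinate M A hA E x S hx
    have hB : PartBr (Lc M) (Rc M A E) x S := ⟨h1, h2, h3, h4⟩
    rcases hx with ⟨-, rfl, -⟩ | ⟨h | h, -⟩
    · exact goodModel_of_parts (charZero_Om M) hw (partFld_j_any M E)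
        (partV_j A E (coreData_residue A hℓM hA) hw)
        (partQep_j A E (coreData_residue A hℓM hA) hw)
        ⟨H264.separable_jOm M hℓM A hA E (Vc M A E) (coe_Vc M A E) w hw.w_mem hw.w_ne_zero
          hw.w_gen⟩ hB
    · exact absurd h.1 (by omega)
    · exact absurd h.1 (by omega)
  · obtain ⟨-, -, -, hxV, -, -, hgauss⟩ :=
      H24.gv_fields_of_isCoordinate (M := M) (A := A) (E := E) (Vc M A E) (coe_Vc M A E)
        hw.w_mem hw.w_ne_zero hw.w_inv_not_mem hw.w_gen hw.w_discrete hx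
    exact H107.goodModel_of_isCoordinate107 M A hA h5 hx E (baseModel_j_of_partR M A E hℓM hA hw)
      (H456.field_x_mem M E hx) hxV hgauss

end Fermat.Agent.S18.Mod.H216

end
end
-- ===== PACK-END S18/Mod/H216/GoodLevel.lean

-- ===== PACK-BEGIN A2/Mod/H216/GoodRed.lean
section






/-!
# A2 / GOODRED (helper216): the level-`M` hypothesis `GoodRedAt` of MODASM, DISCHARGED

For `q ≥ 5` prime, `q ∤ M`, `P` over `q`, ANY intermediate field `E ⊆ Q̄` with `R_E = P ∩ E` a
discrete valuation ring, uniformiser `w`, Gauss valuation ring `VM` (`IsVinf`):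

    goodRedAt_j     : GoodRedAt P E M w VM j
    goodRedAt_j_inv : GoodRedAt P E M w VM j⁻¹
    goodRedHyp      : GoodRedHyp P E M                       (`A2/Mod/Asm.lean`)

Proof: `S18.Mod.H216.goodModel_of_partR` (good model of row S18 over the level `E`),
`normalAbs_chart` (normality of its special fibre; S37 `H383.exists_chart_lift`), and the
bridge `FE E M ≃ Fc M E` of `Bridge.lean`.

`goodRedAt_of_goodModel` is the general adapter (any coordinate `y`, any good model).
-/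

set_option autoImplicit false
set_option linter.unusedSectionVars false
set_option linter.style.haveILetI false
set_option synthInstance.maxHeartbeats 400000
set_option maxHeartbeats 1600000

noncomputable section

namespace Fermat.Agent.A2.Mod.H216

open ModularCurve Polynomial

variable (P : ValuationSubring _root_.Fermat.Agent.A2.Mod.Qb) (E : IntermediateField ℚ _root_.Fermat.Agent.A2.Mod.Qb) (M : ℕ)

/-! ### The chart as a subring -/

section ChartSub

variable {Ω : Type*} [Field Ω]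

/-- `S18.Alg.chart Fc R x` is (the carrier of) a subring. -/
def chartSub (Fc : Subfield Ω) (R : Subring Ω) (x : Ω) : Subring Ω :=
  Fc.toSubring ⊓ (integralClosure ↥(S18.Alg.polyRing R x) Ω).toSubring

theorem mem_chartSub {Fc : Subfield Ω} {R : Subring Ω} {x b : Ω} :
    b ∈ chartSub Fc R x ↔ b ∈ S18.Alg.chart Fc R x := Iff.rfl

/-- The monic polynomial `X ^ n + ∑ aᵢ X ^ i`. -/
def monicOf {n : ℕ} (a : Fin n → Ω) : Polynomial Ω :=
  X ^ n + ∑ i : Fin n, C (a i) * X ^ (i : ℕ)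

theorem monicOf_monic {n : ℕ} (a : Fin n → Ω) : (monicOf a).Monic :=
  Polynomial.monic_X_pow_add (Polynomial.degree_sum_fin_lt a)

theorem monicOf_eval {n : ℕ} (a : Fin n → Ω) (z : Ω) :
    (monicOf a).eval z = z ^ n + ∑ i : Fin n, a i * z ^ (i : ℕ) := by
  simp [monicOf, Polynomial.eval_finsetSum]

theorem monicOf_coeff_mem {n : ℕ} (a : Fin n → Ω) (T : Subring Ω) (ha : ∀ i, a i ∈ T) (k : ℕ) :
    (monicOf a).coeff k ∈ T := by
  rw [monicOf, Polynomial.coeff_add, Polynomial.coeff_X_pow, Polynomial.finsetSum_coeff]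
  refine add_mem ?_ (sum_mem fun i _ => ?_)
  · split_ifs
    · exact one_mem T
    · exact zero_mem T
  · rw [Polynomial.coeff_C_mul_X_pow]
    split_ifs
    · exact ha i
    · exact zero_mem T

end ChartSub

/-! ### The adapter -/

variable {P E M}

/-- **GOODRED adapter**: a good model of row S18 at the concrete objects over `E`, with
uniformiser `w` and coordinate `y`, gives `GoodRedAt` in the language of `A2/Mod/Spec.lean`. -/
theorem goodRedAt_of_goodModel {w : _root_.Fermat.Agent.A2.Mod.RE P E} {VM : ValuationSubring (_root_.Fermat.Agent.A2.Mod.FE E M)}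
    (hV : IsVinf P E M VM) (y : _root_.Fermat.Agent.A2.Mod.FE E M) {x : S18.Mod.Om M} (hx : bridge E M y = x)
    {S : Finset (S18.Mod.Om M)}
    (G : S18.Alg.GoodModel (S18.Mod.Lc M) (S18.Mod.Ec M E) (S18.Mod.Fc M E) (S18.Mod.Rc M P E)
      (S18.Mod.H216.Vc M P E) (bridge E M (cE P E M w)) x S) :
    GoodRedAt P E M w VM y := by
  subst hx
  have hinv : ∀ g : _root_.Fermat.Agent.A2.Mod.FE E M, bridge E M (g * (cE P E M w)⁻¹) =
      bridge E M g * (bridge E M (cE P E M w))⁻¹ := fun g => by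
    rw [map_mul, map_inv₀]
  constructor
  · intro b hb hbw
    rw [bridge_mem_chart_iff] at hb ⊢
    rw [hinv]
    refine G.qep_fin _ hb ?_
    rw [← hinv]
    exact (mem_iff_bridge_mem_Vc P hV _).1 hbw
  · rintro f hf ⟨n, c, hc, hcw⟩
    have hfV : bridge E M f ∈ S18.Mod.H216.Vc M P E := (mem_iff_bridge_mem_Vc P hV _).1 hf
    have hPc : ∀ i, (monicOf fun i => bridge E M (c i)).coeff i ∈
        S18.Alg.chart (S18.Mod.Fc M E) (S18.Mod.Rc M P E) (bridge E M y) := fun k =>
      mem_chartSub.1 (monicOf_coeff_mem _ (chartSub _ _ _)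
        (fun i => mem_chartSub.2 ((bridge_mem_chart_iff P y (c i)).1 (hc i))) k)
    have hPv : (monicOf fun i => bridge E M (c i)).eval (bridge E M f) *
        (bridge E M (cE P E M w))⁻¹ ∈ S18.Mod.H216.Vc M P E := by
      have h1 : (monicOf fun i => bridge E M (c i)).eval (bridge E M f) =
          bridge E M (f ^ n + ∑ i : Fin n, c i * f ^ (i : ℕ)) := by
        rw [monicOf_eval, map_add, map_pow, map_sum]
        simp only [map_mul, map_pow]
      rw [h1, ← hinv]
      exact (mem_iff_bridge_mem_Vc P hV _).1 hcw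
    obtain ⟨b', hb', hbv⟩ := normalAbs_chart G (bridge E M f) hfV _ (monicOf_monic _) hPc hPv
    obtain ⟨b, rfl⟩ := exists_bridge_eq hb'.1
    refine ⟨b, (bridge_mem_chart_iff P y b).2 hb', ?_⟩
    show (f - b) * (cE P E M w)⁻¹ ∈ VM
    rw [mem_iff_bridge_mem_Vc P hV, hinv, map_sub]
    exact hbv

/-- The same on the chart at infinity. -/
theorem goodRedAt_inv_of_goodModel {w : _root_.Fermat.Agent.A2.Mod.RE P E} {VM : ValuationSubring (_root_.Fermat.Agent.A2.Mod.FE E M)}
    (hV : IsVinf P E M VM) (y : _root_.Fermat.Agent.A2.Mod.FE E M) {x : S18.Mod.Om M} (hx : bridge E M y = x)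
    {S : Finset (S18.Mod.Om M)}
    (G : S18.Alg.GoodModel (S18.Mod.Lc M) (S18.Mod.Ec M E) (S18.Mod.Fc M E) (S18.Mod.Rc M P E)
      (S18.Mod.H216.Vc M P E) (bridge E M (cE P E M w)) x S) :
    GoodRedAt P E M w VM y⁻¹ := by
  classical
  exact goodRedAt_of_goodModel hV y⁻¹ (by rw [map_inv₀, hx])
    (Fermat.Agent.S18.H425.goodModel_inv G)

/-! ### `PartR` for a given uniformiser, over an arbitrary level -/

variable (P E M)

theorem isUnif_bridge_cE {w : _root_.Fermat.Agent.A2.Mod.RE P E} (hw : Irreducible w) :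
    S18.H456.IsUnif M P E (bridge E M (cE P E M w)) :=
  ⟨w, hw, bridge_algebraMap (w : E)⟩

/-- `PartR` of row S18 for the image of a given uniformiser `w` of `R_E` (`E` arbitrary). -/
theorem partR_bridge_cE {q : ℕ} (hq : q.Prime) (hP : P.LiesOverPrime q)
    [IsDiscreteValuationRing (_root_.Fermat.Agent.A2.Mod.RE P E)] {w : _root_.Fermat.Agent.A2.Mod.RE P E} (hw : Irreducible w) :
    S18.Mod.H216.PartR (S18.Mod.Ec M E) (S18.Mod.Rc M P E) (bridge E M (cE P E M w)) := by
  haveI : IsDiscreteValuationRing (S18.H602.RE P E) :=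
    (inferInstance : IsDiscreteValuationRing (_root_.Fermat.Agent.A2.Mod.RE P E))
  have hu := isUnif_bridge_cE P E M hw
  refine ⟨S18.H456.field_R_le M P E, S18.H456.field_R_total M P E, hu.mem, hu.ne_zero,
    hu.inv_not_mem, hu.gen, hu.discrete, q, hq, ?_, ?_⟩
  · rw [← S18.H456.cstR_natCast M P E, hu.mul_inv_mem_iff, IsLocalRing.mem_maximalIdeal,
      mem_nonunits_iff]
    exact S18.H602.natCast_not_isUnit_RE P E hP
  · have hperf : ∀ r : S18.H602.RE P E, ∃ s : S18.H602.RE P E,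
        r - s ^ q ∈ IsLocalRing.maximalIdeal (S18.H602.RE P E) := by
      intro r
      have key : ∀ r : _root_.Fermat.Agent.A2.Mod.RE P E, ∃ s : _root_.Fermat.Agent.A2.Mod.RE P E, r - s ^ q ∈ IsLocalRing.maximalIdeal (_root_.Fermat.Agent.A2.Mod.RE P E) := by
        intro r
        obtain ⟨c', hc'⟩ := H96.exists_pow_eq_residue P E hq hP
          (IsLocalRing.residue (_root_.Fermat.Agent.A2.Mod.RE P E) r)
        obtain ⟨s, rfl⟩ := IsLocalRing.residue_surjective c'
        refine ⟨s, ?_⟩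
        have h1 : IsLocalRing.residue (_root_.Fermat.Agent.A2.Mod.RE P E) (r - s ^ q) = 0 := by
          rw [map_sub, map_pow, hc', sub_self]
        exact (IsLocalRing.residue_eq_zero_iff _).1 h1
      exact key r
    intro r hr
    obtain ⟨r₀, rfl⟩ := (S18.H456.mem_Rc_iff_cstR M P E).1 hr
    obtain ⟨s, hs⟩ := hperf r₀
    refine ⟨S18.H456.cstR M P E s, S18.H456.cstR_mem_Rc M P E s, ?_⟩
    rw [← S18.H456.cstR_pow, ← S18.H456.cstR_sub, hu.mul_inv_mem_iff]
    exact hs

/-! ### GOODRED for `q ≥ 5` -/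

variable [NeZero M]

/-- The good model of row S18 with coordinate `j` over the level `E`, for the uniformiser `w`. -/
theorem goodModel_j {q : ℕ} (hq : q.Prime) (h5 : 5 ≤ q) (hqM : ¬ q ∣ M)
    (hP : P.LiesOverPrime q) [IsDiscreteValuationRing (_root_.Fermat.Agent.A2.Mod.RE P E)] {w : _root_.Fermat.Agent.A2.Mod.RE P E}
    (hw : Irreducible w) :
    ∃ S : Finset (S18.Mod.Om M),
      S18.Alg.GoodModel (S18.Mod.Lc M) (S18.Mod.Ec M E) (S18.Mod.Fc M E) (S18.Mod.Rc M P E)
        (S18.Mod.H216.Vc M P E) (bridge E M (cE P E M w)) (S18.Mod.jOm M) S := by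
  classical
  haveI : Fact q.Prime := ⟨hq⟩
  refine ⟨{0, 1728}, ?_⟩
  exact S18.Mod.H216.goodModel_of_partR M P E hqM hP (partR_bridge_cE P E M hq hP hw)
    (Or.inl ⟨h5, rfl, fun s => by simp⟩)

/-- **GOODRED**, chart of `j`. -/
theorem goodRedAt_j {q : ℕ} (hq : q.Prime) (h5 : 5 ≤ q) (hqM : ¬ q ∣ M)
    (hP : P.LiesOverPrime q) [IsDiscreteValuationRing (_root_.Fermat.Agent.A2.Mod.RE P E)] (w : _root_.Fermat.Agent.A2.Mod.RE P E)
    (hw : Irreducible w) (VM : ValuationSubring (_root_.Fermat.Agent.A2.Mod.FE E M)) (hV : IsVinf P E M VM) :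
    GoodRedAt P E M w VM (jE E M 1 (one_dvd _)) := by
  obtain ⟨S, G⟩ := goodModel_j P E M hq h5 hqM hP hw
  exact goodRedAt_of_goodModel hV _ (bridge_jE 1 (one_dvd M)) G

/-- **GOODRED**, chart of `j⁻¹`. -/
theorem goodRedAt_j_inv {q : ℕ} (hq : q.Prime) (h5 : 5 ≤ q) (hqM : ¬ q ∣ M)
    (hP : P.LiesOverPrime q) [IsDiscreteValuationRing (_root_.Fermat.Agent.A2.Mod.RE P E)] (w : _root_.Fermat.Agent.A2.Mod.RE P E)
    (hw : Irreducible w) (VM : ValuationSubring (_root_.Fermat.Agent.A2.Mod.FE E M)) (hV : IsVinf P E M VM) :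
    GoodRedAt P E M w VM (jE E M 1 (one_dvd _))⁻¹ := by
  obtain ⟨S, G⟩ := goodModel_j P E M hq h5 hqM hP hw
  exact goodRedAt_inv_of_goodModel hV _ (bridge_jE 1 (one_dvd M)) G

/-- **GOODRED**: the level-`M` hypothesis `GoodRedHyp` of MODASM (`A2/Mod/Asm.lean`), `q ≥ 5`. -/
theorem goodRedHyp {q : ℕ} (hq : q.Prime) (h5 : 5 ≤ q) (hqM : ¬ q ∣ M)
    (hP : P.LiesOverPrime q) (hdvr : IsDiscreteValuationRing (_root_.Fermat.Agent.A2.Mod.RE P E)) :
    GoodRedHyp P E M :=
  fun w VM hw hV =>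
    ⟨goodRedAt_j P E M hq h5 hqM hP w hw VM hV, goodRedAt_j_inv P E M hq h5 hqM hP w hw VM hV⟩

end Fermat.Agent.A2.Mod.H216

end
end
-- ===== PACK-END A2/Mod/H216/GoodRed.lean

-- ===== PACK-BEGIN A2/Mod/H216/GoodRedAll.lean
section




/-!
# A2 / GOODRED (helper216): `Top.H994.GoodRedStatement` — CLOSED (all primes `q`)

    goodRedStatement : Top.H994.GoodRedStatement

i.e. for every prime `q ∤ M` (with `2 ∣ M` if `q = 3`, `3 ∣ M` if `q = 2`), `P` over `q` and every
good level `E`: `Mod.GoodRedHyp P E M` (good reduction at level `M` in the charts of `j`, `1/j`).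

* `q ≥ 5` : `goodRedHyp` (`GoodRed.lean`), coordinate `j` of row S18;
* `q = 3` : the good model of row S18 in the coordinate `t₂` (`S18.Mod.H216.goodModel_of_partR`),
  the adapter `goodRedAt_of_goodModel`, and helper189's chart change `H189.goodRedHyp_of_t2`;
* `q = 2` : the same with `t₃`, `H189.goodRedHyp_of_t3`.

Only `GoodField.dvr` is used (no henselian / algebraically closed residue field hypothesis).
-/

set_option autoImplicit false
set_option linter.unusedSectionVars false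
set_option linter.style.haveILetI false
set_option synthInstance.maxHeartbeats 400000
set_option maxHeartbeats 1600000

noncomputable section

namespace Fermat.Agent.A2.Mod.H216

open ModularCurve Polynomial

variable (P : ValuationSubring _root_.Fermat.Agent.A2.Mod.Qb) (E : IntermediateField ℚ _root_.Fermat.Agent.A2.Mod.Qb) (M : ℕ)

theorem bridge_t2E (hM : 2 ∣ M) :
    bridge E M (H189.t2E E M hM) = S18.H333.t2Om M hM := by
  apply Subtype.ext
  rw [coe_bridge]
  exact S18.H602.coeffMap_coeffEmb' (algebraMap E _root_.Fermat.Agent.A2.Mod.Qb) _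

theorem bridge_t3E (hM : 3 ∣ M) :
    bridge E M (H189.t3E E M hM) = S18.H333.t3Om M hM := by
  apply Subtype.ext
  rw [coe_bridge]
  exact S18.H602.coeffMap_coeffEmb' (algebraMap E _root_.Fermat.Agent.A2.Mod.Qb) _

theorem isCoordinate_t2Om (hM : 2 ∣ M) :
    ∃ S : Finset (S18.Mod.Om M), S18.Mod.IsCoordinate M 3 (S18.H333.t2Om M hM) S := by
  classical
  refine ⟨{0, -64}, Or.inr ⟨Or.inl ⟨rfl, S18.H333.t2Om_rel M hM, ?_⟩, ?_⟩⟩
  · intro s; simp
  · exact ⟨S18.H333.t2Z, S18.H333.t2Z_coeff_neg_one, fun k hk => S18.H333.t2Z_coeff_of_lt hk,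
      S18.H333.omOf_coe M S18.H333.t2Z _, S18.H333.t2Q_mem M hM⟩

theorem isCoordinate_t3Om (hM : 3 ∣ M) :
    ∃ S : Finset (S18.Mod.Om M), S18.Mod.IsCoordinate M 2 (S18.H333.t3Om M hM) S := by
  classical
  refine ⟨{0, -27}, Or.inr ⟨Or.inr ⟨rfl, S18.H333.t3Om_rel M hM, ?_⟩, ?_⟩⟩
  · intro s; simp
  · exact ⟨S18.H333.t3Z, S18.H333.t3Z_coeff_neg_one, fun k hk => S18.H333.t3Z_coeff_of_lt hk,
      S18.H333.omOf_coe M S18.H333.t3Z _, S18.H333.t3Q_mem M hM⟩

variable [NeZero M]

/-- **GOODRED for `q = 3`** (`2 ∣ M`). -/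
theorem goodRedHyp_three (hqM : ¬ 3 ∣ M) (hM : 2 ∣ M) (hP : P.LiesOverPrime 3)
    (hdvr : IsDiscreteValuationRing (_root_.Fermat.Agent.A2.Mod.RE P E)) : GoodRedHyp P E M := by
  haveI := hdvr
  haveI : Fact (Nat.Prime 3) := ⟨Nat.prime_three⟩
  refine H189.goodRedHyp_of_t2 P E M hP (NeZero.ne M) hM hdvr fun w VM hw hV => ?_
  obtain ⟨S, hS⟩ := isCoordinate_t2Om M hM
  have G := S18.Mod.H216.goodModel_of_partR M P E hqM hP
    (partR_bridge_cE P E M Nat.prime_three hP hw) hS
  exact ⟨goodRedAt_of_goodModel hV _ (bridge_t2E E M hM) G,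
    goodRedAt_inv_of_goodModel hV _ (bridge_t2E E M hM) G⟩

/-- **GOODRED for `q = 2`** (`3 ∣ M`). -/
theorem goodRedHyp_two (hqM : ¬ 2 ∣ M) (hM : 3 ∣ M) (hP : P.LiesOverPrime 2)
    (hdvr : IsDiscreteValuationRing (_root_.Fermat.Agent.A2.Mod.RE P E)) : GoodRedHyp P E M := by
  haveI := hdvr
  haveI : Fact (Nat.Prime 2) := ⟨Nat.prime_two⟩
  refine H189.goodRedHyp_of_t3 P E M hP (NeZero.ne M) hM hdvr fun w VM hw hV => ?_
  obtain ⟨S, hS⟩ := isCoordinate_t3Om M hM
  have G := S18.Mod.H216.goodModel_of_partR M P E hqM hP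
    (partR_bridge_cE P E M Nat.prime_two hP hw) hS
  exact ⟨goodRedAt_of_goodModel hV _ (bridge_t3E E M hM) G,
    goodRedAt_inv_of_goodModel hV _ (bridge_t3E E M hM) G⟩

/-- **GOODRED, all primes**: any level `E` with `R_E` a discrete valuation ring. -/
theorem goodRedHyp_of_dvr {q : ℕ} (hq : q.Prime) (hqM : ¬ q ∣ M) (h3 : q = 3 → 2 ∣ M)
    (h2 : q = 2 → 3 ∣ M) (hP : P.LiesOverPrime q) (hdvr : IsDiscreteValuationRing (_root_.Fermat.Agent.A2.Mod.RE P E)) :
    GoodRedHyp P E M := by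
  by_cases h5 : 5 ≤ q
  · exact goodRedHyp P E M hq h5 hqM hP hdvr
  · have hq2 := hq.two_le
    have hcases : q = 2 ∨ q = 3 := by
      by_contra hne
      have : q = 4 := by omega
      subst this
      exact absurd hq (by norm_num)
    rcases hcases with rfl | rfl
    · exact goodRedHyp_two P E M hqM (h2 rfl) hP hdvr
    · exact goodRedHyp_three P E M hqM (h3 rfl) hP hdvr

end Fermat.Agent.A2.Mod.H216

namespace Fermat.Agent.A2.Top.H216

open Fermat.Agent.A2

/-- **`Top.H994.GoodRedStatement`** (exact target of the GOODRED owners, `Top/H994/ModTop.lean`). -/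
theorem goodRedStatement : Top.H994.GoodRedStatement :=
  fun P E M q _ _ hq hqM h3 h2 hP hE =>
    Mod.H216.goodRedHyp_of_dvr P E M hq hqM h3 h2 hP hE.dvr

end Fermat.Agent.A2.Top.H216

end
end
-- ===== PACK-END A2/Mod/H216/GoodRedAll.lean

-- ===== PACK-BEGIN S36/Mod3/H756/Normal.lean
section







/-!
# S36 / MOD3, leaf NORMAL (helper756)

`leafNormal_of : LeafVT → LeafVal → LeafSheet → LeafTable → LeafNormal`

The six fields `NormalAlong (chart R {x^{±1}}) V_i` of `Eng.TripleCtx` at the concrete objects of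
`Mod3/Spec.lean`, DIRECTLY from good reduction at level `M` (`A2.Mod.H216.goodRedHyp_of_dvr`, on
main) through `γ₁ = γ₂ = α ∘ α'` and `γ₃ = β ∘ β' : F_M → F_{M q²}`:

* residue degree one of `V_i` over `V∞(M)`: `LeafVT.res_*` (level `M q² / M q`) + L11
  (`H378.resInf`, level `M q / M`; on `V₀` with L5, L7 as in helper142's `normal_zero`);
* `x ≡ γ_i (j ^ k_i) mod 𝔪_{V_i}`, `k₁ = k₃ = 1 + q + q²`, `k₂ = q + 2`: `LeafVT.kron_i`;
* `γ_i j^{±1} ∈ chart R {x^{±1}}`: helper189's `Chart3.lean` (on main);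
* the abstract core is helper142's `normalIn_transfer` (on main), via `normalAlong_side3`.

The chart at infinity needs no extra argument.
-/

set_option autoImplicit false
set_option synthInstance.maxHeartbeats 400000
set_option maxHeartbeats 1600000
set_option linter.unusedSectionVars false
set_option linter.style.haveILetI false

noncomputable section

namespace Fermat.Agent.S36.Mod3.H756

open ModularCurve
open Fermat.Agent Fermat.Agent.A2.Mod Fermat.Agent.S36.Eng Fermat.Agent.S36.Mod3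
open Fermat.Agent.S18.H138 (chart)

section Setup

variable {P : ValuationSubring A2.Qb} {E : IntermediateField ℚ A2.Qb} {M q : ℕ}
  [NeZero M] [NeZero q] [NeZero (M * q)] {w : A2.RE P E}

theorem setting_of_std (hS : Std P E M q w) : Setting P E M q w :=
  ⟨hS.q_prime, hS.q_not_dvd, NeZero.ne M, hS.lies_over, hS.unram.1.dvr, hS.unif⟩

/-- `γ₁ = α ∘ α' : F_M → F_{M q²}` (the inclusion). -/
def gammaA (E : IntermediateField ℚ A2.Qb) (M q : ℕ) [NeZero M] [NeZero q] [NeZero (M * q)] :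
    FE E M →ₐ[E] FE E (M * q * q) :=
  (αE E (M * q) q).comp (αE E M q)

/-- `γ₃ = β ∘ β' : F_M → F_{M q²}` (`t ↦ t ^ (q²)`). -/
def gammaB (E : IntermediateField ℚ A2.Qb) (M q : ℕ) [NeZero M] [NeZero q] [NeZero (M * q)] :
    FE E M →ₐ[E] FE E (M * q * q) :=
  (βE E (M * q) q).comp (βE E M q)

theorem gammaA_apply (g : FE E M) : gammaA E M q g = αE E (M * q) q (αE E M q g) := rfl

theorem gammaB_apply (g : FE E M) : gammaB E M q g = βE E (M * q) q (βE E M q g) := rfl

theorem gammaA_j : gammaA E M q (jE E M 1 (one_dvd _)) = j1 E M q := by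
  rw [gammaA_apply, H751.alpha_jE E M q 1 (one_dvd M), H751.alpha_jE E (M * q) q 1 (one_dvd _)]
  rfl

theorem gammaB_j : gammaB E M q (jE E M 1 (one_dvd _)) = jqq E M q := by
  rw [gammaB_apply, H751.beta_jE E M q 1 (one_dvd M)]
  have h1 : jE E (M * q) (q * 1) (by rw [mul_comm M q]; exact mul_dvd_mul_left q (one_dvd M)) =
      jE E (M * q) q (dvd_mul_left q M) := H751.jE_congr E (M * q) (mul_one q) _ _
  rw [h1, H751.beta_jE E (M * q) q q (dvd_mul_left q M)]
  rfl

end Setup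

section Levels

variable (P : ValuationSubring A2.Qb) (E : IntermediateField ℚ A2.Qb) (M q : ℕ)
  [NeZero M] [NeZero q] [NeZero (M * q)] (w : A2.RE P E)

/-- `w ∈ 𝔪_{V∞}` (any level). -/
theorem cE_mem_nonunits_vinf (hdvr : IsDiscreteValuationRing (A2.RE P E)) (hw : Irreducible w)
    (N : ℕ) (hN : N ≠ 0) (V : ValuationSubring (FE E N)) (hV : IsVinf P E N V) :
    cE P E N w ∈ V.nonunits := by
  have hU := (H553.vinfBasic P E w N hN hdvr hw V hV).1
  exact (mem_nonunits_iff_of_ne_zero V _ hU.ne_zero).2 ⟨hU.mem, hU.inv_not_mem⟩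

/-- Residue degree one of `V∞(M q)` over `V∞(M)` along `α'` (L11, `nonunits` form). -/
theorem res_level_inf (hS : Std P E M q w) (VM : ValuationSubring (FE E M))
    (V₁' : ValuationSubring (FE E (M * q))) (hVM : IsVinf P E M VM)
    (hV₁' : IsVinf P E (M * q) V₁') :
    ∀ g' ∈ V₁', ∃ g ∈ VM, g' - (αE E M q : FE E M →+* FE E (M * q)) g ∈ V₁'.nonunits := by
  intro g' hg'
  have hSet := setting_of_std hS
  obtain ⟨g, hg, h⟩ := H378.resInf P E M q w hSet VM V₁' hVM hV₁' g' hg'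
  have hL2 := H553.vinfBasic P E w (M * q) (NeZero.ne _) hSet.dvr hSet.unif V₁' hV₁'
  exact ⟨g, hg, (ValuationSubring.mem_nonunits_iff _).2 ((H142.inW_iff hL2.1 _).1 h)⟩

/-- `β'` maps `V∞(M)` into `V₀(M q) = V∞(M q) ∘ W'` (L5 + L7). -/
theorem beta_mem_zero (hS : Std P E M q w) (VM : ValuationSubring (FE E M))
    (V₁' : ValuationSubring (FE E (M * q))) (hVM : IsVinf P E M VM)
    (hV₁' : IsVinf P E (M * q) V₁') (W' : FE E (M * q) ≃ₐ[E] FE E (M * q))
    (hW' : IsFricke E (M * q) W') :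
    ∀ g ∈ VM, (βE E M q : FE E M →+* FE E (M * q)) g ∈
      V₁'.comap (W' : FE E (M * q) →+* FE E (M * q)) := by
  intro g hg
  have hSet := setting_of_std hS
  have hWM := H751.isFricke_frickeE E M
  have hL5 := H751.frickeCompat E M q (H751.frickeE E M) W' hWM hW'
  rw [ValuationSubring.mem_comap]
  show W' (βE E M q g) ∈ V₁'
  rw [(hL5 g).2]
  exact H142.alpha_mem P E M q hVM hV₁'
    (H900.frickeStable P E M q w hSet VM (H751.frickeE E M) hVM hWM g hg)

/-- Residue degree one of `V₀(M q)` over `V∞(M)` along `β'` (L11 + L5 + L7). -/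
theorem res_level_zero (hS : Std P E M q w) (VM : ValuationSubring (FE E M))
    (V₁' : ValuationSubring (FE E (M * q))) (hVM : IsVinf P E M VM)
    (hV₁' : IsVinf P E (M * q) V₁') (W' : FE E (M * q) ≃ₐ[E] FE E (M * q))
    (hW' : IsFricke E (M * q) W') :
    ∀ g' ∈ V₁'.comap (W' : FE E (M * q) →+* FE E (M * q)), ∃ g ∈ VM,
      g' - (βE E M q : FE E M →+* FE E (M * q)) g ∈
        (V₁'.comap (W' : FE E (M * q) →+* FE E (M * q))).nonunits := by
  intro g' hg'
  have hSet := setting_of_std hS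
  have hWM := H751.isFricke_frickeE E M
  have hL5 := H751.frickeCompat E M q (H751.frickeE E M) W' hWM hW'
  rw [ValuationSubring.mem_comap] at hg'
  obtain ⟨g₀, hg₀, h⟩ := res_level_inf P E M q w hS VM V₁' hVM hV₁' _ hg'
  refine ⟨H751.frickeE E M g₀,
    H900.frickeStable P E M q w hSet VM (H751.frickeE E M) hVM hWM g₀ hg₀, ?_⟩
  rw [mem_nonunits_comap_iff]
  have h1 : (W' : FE E (M * q) →+* FE E (M * q))
      (g' - (βE E M q : FE E M →+* FE E (M * q)) (H751.frickeE E M g₀)) =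
      (W' : FE E (M * q) →+* FE E (M * q)) g' - (αE E M q : FE E M →+* FE E (M * q)) g₀ := by
    rw [map_sub]
    congr 1
    show W' (βE E M q (H751.frickeE E M g₀)) = αE E M q g₀
    rw [(hL5 _).2, hWM.2]
  rw [h1]
  exact h

end Levels

section Main

/-- **NORMAL (leaf)** from the valuation-level hub `LeafVT` and the leaves `LeafVal`, `LeafSheet`,
`LeafTable`. -/
theorem leafNormal_of (hVT : LeafVT) (hVal : LeafVal) (hSh : LeafSheet) (hTab : LeafTable) :
    LeafNormal := by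
  intro P E M q _ _ _ w hS V₁' V₂' V₁ V₂ V₃ W' W hO
  have vt := hVT P E M q w hS V₁' V₂' V₁ V₂ V₃ W' W hO
  have val := hVal P E M q w hS V₁' V₂' V₁ V₂ V₃ W' W hO
  have sh := hSh P E M q w hS V₁' V₂' V₁ V₂ V₃ W' W hO
  have tab := hTab P E M q w hS V₁' V₂' V₁ V₂ V₃ W' W hO
  have hSet := setting_of_std hS
  have hq := hS.q_prime
  have hdvr := hSet.dvr
  have hw := hS.unif
  -- level `M`
  obtain ⟨VM, hVM⟩ := H553.vinfExists P E M (NeZero.ne M) hdvr
  have hgood := H216.goodRedHyp_of_dvr P E M hq hS.q_not_dvd hS.neat.hasAux.1 hS.neat.hasAux.2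
    hS.lies_over hdvr w VM hw hVM
  have hL2M := H553.vinfBasic P E w M (NeZero.ne M) hdvr hw VM hVM
  have hjM : jE E M 1 (one_dvd _) ∈ VM := (hL2M.2.2 1 (one_dvd M)).1
  have hjMi : (jE E M 1 (one_dvd _))⁻¹ ∈ VM := (hL2M.2.2 1 (one_dvd M)).2
  -- the three `j`'s are units of the three valuation rings
  have hm : ∀ V : ValuationSubring (FE E (M * q * q)), x3E E M q ∈ V →
      j1 E M q ∈ V ∧ jq E M q ∈ V ∧ jqq E M q ∈ V := fun V hV =>
    H189.mem_of_x3_mem E M q hq V hV
  have hi : ∀ V : ValuationSubring (FE E (M * q * q)), (x3E E M q)⁻¹ ∈ V →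
      (j1 E M q)⁻¹ ∈ V ∧ (jq E M q)⁻¹ ∈ V ∧ (jqq E M q)⁻¹ ∈ V := fun V hV =>
    H189.inv_mem_of_x3_inv_mem E M q hq V hV
  have hm₁ := hm V₁ val.x_unit₁.2.1
  have hm₂ := hm V₂ val.x_unit₂.2.1
  have hm₃ := hm V₃ val.x_unit₃.2.1
  have hi₁ := hi V₁ val.x_unit₁.2.2
  have hi₂ := hi V₂ val.x_unit₂.2.2
  have hi₃ := hi V₃ val.x_unit₃.2.2
  -- `w` lies in the three maximal ideals
  have hw₁ : V₁.valuation (cE P E (M * q * q) w) < 1 :=
    (ValuationSubring.mem_nonunits_iff V₁).1 val.unif₁.2.1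
  have hw₃ : V₃.valuation (cE P E (M * q * q) w) < 1 :=
    (ValuationSubring.mem_nonunits_iff V₃).1 val.unif₃.2.1
  have hw₂ : V₂.valuation (cE P E (M * q * q) w) < 1 := by
    have h1 := cE_mem_nonunits_vinf P E w hdvr hw (M * q) (NeZero.ne _) V₁' hO.vinf'
    rw [← hO.mid, mem_nonunits_comap_iff] at h1
    have h2 : (αE E (M * q) q : FE E (M * q) →+* FE E (M * q * q)) (cE P E (M * q) w) =
        cE P E (M * q * q) w := (αE E (M * q) q).commutes (w : E)
    rw [h2] at h1
    exact (ValuationSubring.mem_nonunits_iff V₂).1 h1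
  -- `γ V∞(M) ⊆ V_i`
  have hα' : ∀ g ∈ VM, (αE E M q : FE E M →+* FE E (M * q)) g ∈ V₁' := fun g hg =>
    H142.alpha_mem P E M q hVM hO.vinf' hg
  have hβ' : ∀ g ∈ VM, (βE E M q : FE E M →+* FE E (M * q)) g ∈ V₂' := by
    rw [hO.vzero']
    exact beta_mem_zero P E M q w hS VM V₁' hVM hO.vinf' W' hO.fricke'
  have hγV₁ : ∀ g ∈ VM, gammaA E M q g ∈ V₁ :=
    map_mem_comp (αE E M q : FE E M →+* FE E (M * q))
      (αE E (M * q) q : FE E (M * q) →+* FE E (M * q * q)) VM V₁' V₁ tab.comap_α₁ hα'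
  have hγV₂ : ∀ g ∈ VM, gammaA E M q g ∈ V₂ :=
    map_mem_comp (αE E M q : FE E M →+* FE E (M * q))
      (αE E (M * q) q : FE E (M * q) →+* FE E (M * q * q)) VM V₁' V₂ tab.comap_α₂ hα'
  have hγV₃ : ∀ g ∈ VM, gammaB E M q g ∈ V₃ :=
    map_mem_comp (βE E M q : FE E M →+* FE E (M * q))
      (βE E (M * q) q : FE E (M * q) →+* FE E (M * q * q)) VM V₂' V₃ tab.comap_β₃ hβ'
  -- residue degree one over level `M`
  have hr' := res_level_inf P E M q w hS VM V₁' hVM hO.vinf'
  have hr₀' : ∀ g' ∈ V₂', ∃ g ∈ VM,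
      g' - (βE E M q : FE E M →+* FE E (M * q)) g ∈ V₂'.nonunits := by
    rw [hO.vzero']
    exact res_level_zero P E M q w hS VM V₁' hVM hO.vinf' W' hO.fricke'
  have hres₁ : ∀ f ∈ V₁, ∃ g ∈ VM, V₁.valuation (f - gammaA E M q g) < 1 :=
    res_comp (αE E M q : FE E M →+* FE E (M * q))
      (αE E (M * q) q : FE E (M * q) →+* FE E (M * q * q)) VM V₁' V₁ tab.comap_α₁ hr'
      vt.res_α₁
  have hres₂ : ∀ f ∈ V₂, ∃ g ∈ VM, V₂.valuation (f - gammaA E M q g) < 1 :=
    res_comp (αE E M q : FE E M →+* FE E (M * q))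
      (αE E (M * q) q : FE E (M * q) →+* FE E (M * q * q)) VM V₁' V₂ tab.comap_α₂ hr'
      vt.res_α₂
  have hres₃ : ∀ f ∈ V₃, ∃ g ∈ VM, V₃.valuation (f - gammaB E M q g) < 1 :=
    res_comp (βE E M q : FE E M →+* FE E (M * q))
      (βE E (M * q) q : FE E (M * q) →+* FE E (M * q * q)) VM V₂' V₃ tab.comap_β₃ hr₀'
      vt.res_β₃
  -- the coordinate congruences
  have hc₁ : Cong V₁ (x3E E M q) (j1 E M q ^ (1 + q + q * q)) := by
    have h1 : Cong V₁ (jq E M q) (j1 E M q ^ q) :=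
      ⟨hm₁.2.1, V₁.pow_mem hm₁.1 q, vt.kron₁.1⟩
    have h2 : Cong V₁ (jqq E M q) (jq E M q ^ q) :=
      ⟨hm₁.2.2, V₁.pow_mem hm₁.2.1 q, vt.kron₁.2⟩
    have h3 : Cong V₁ (jqq E M q) ((j1 E M q ^ q) ^ q) := h2.trans (h1.pow q)
    have h4 : Cong V₁ (x3E E M q) (j1 E M q * j1 E M q ^ q * (j1 E M q ^ q) ^ q) :=
      ((Cong.refl hm₁.1).mul h1).mul h3
    have h5 : j1 E M q * j1 E M q ^ q * (j1 E M q ^ q) ^ q = j1 E M q ^ (1 + q + q * q) := by
      ring
    rwa [h5] at h4
  have hc₂ : Cong V₂ (x3E E M q) (j1 E M q ^ (q + 2)) := by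
    have h1 : Cong V₂ (jq E M q) (j1 E M q ^ q) :=
      ⟨hm₂.2.1, V₂.pow_mem hm₂.1 q, vt.kron₂.1⟩
    have h2 : Cong V₂ (jqq E M q) (j1 E M q) := ⟨hm₂.2.2, hm₂.1, vt.kron₂.2⟩
    have h4 : Cong V₂ (x3E E M q) (j1 E M q * j1 E M q ^ q * j1 E M q) :=
      ((Cong.refl hm₂.1).mul h1).mul h2
    have h5 : j1 E M q * j1 E M q ^ q * j1 E M q = j1 E M q ^ (q + 2) := by ring
    rwa [h5] at h4
  have hc₃ : Cong V₃ (x3E E M q) (jqq E M q ^ (1 + q + q * q)) := by
    have h1 : Cong V₃ (jq E M q) (jqq E M q ^ q) :=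
      ⟨hm₃.2.1, V₃.pow_mem hm₃.2.2 q, vt.kron₃.2⟩
    have h2 : Cong V₃ (j1 E M q) (jq E M q ^ q) :=
      ⟨hm₃.1, V₃.pow_mem hm₃.2.1 q, vt.kron₃.1⟩
    have h3 : Cong V₃ (j1 E M q) ((jqq E M q ^ q) ^ q) := h2.trans (h1.pow q)
    have h4 : Cong V₃ (x3E E M q) ((jqq E M q ^ q) ^ q * jqq E M q ^ q * jqq E M q) :=
      (h3.mul h1).mul (Cong.refl hm₃.2.2)
    have h5 : (jqq E M q ^ q) ^ q * jqq E M q ^ q * jqq E M q =
        jqq E M q ^ (1 + q + q * q) := by ring
    rwa [h5] at h4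
  -- images of `j^{±1}` under `γ`
  have hgA : ∀ k : ℕ, gammaA E M q (jE E M 1 (one_dvd _) ^ k) = j1 E M q ^ k := fun k => by
    rw [map_pow, gammaA_j]
  have hgB : ∀ k : ℕ, gammaB E M q (jE E M 1 (one_dvd _) ^ k) = jqq E M q ^ k := fun k => by
    rw [map_pow, gammaB_j]
  have hgAi : ∀ k : ℕ, gammaA E M q ((jE E M 1 (one_dvd _))⁻¹ ^ k) = (j1 E M q ^ k)⁻¹ :=
    fun k => by rw [map_pow, map_inv₀, gammaA_j, inv_pow]
  have hgBi : ∀ k : ℕ, gammaB E M q ((jE E M 1 (one_dvd _))⁻¹ ^ k) = (jqq E M q ^ k)⁻¹ :=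
    fun k => by rw [map_pow, map_inv₀, gammaB_j, inv_pow]
  have hpi : ∀ (V : ValuationSubring (FE E (M * q * q))) (c : FE E (M * q * q)) (k : ℕ),
      c⁻¹ ∈ V → (c ^ k)⁻¹ ∈ V := fun V c k hc => by
    rw [← inv_pow]
    exact V.pow_mem hc k
  exact
    { normal_f₁ := normalAlong_side3 P E M (M * q * q) w hdvr hw VM hVM V₁ sh.base₁ hw₁
        (gammaA E M q) hγV₁ hres₁ _ (x3E E M q) (1 + q + q * q) hjM val.x_unit₁.2.1
        (by rw [hgA]; exact hc₁.val_lt)
        (by rw [gammaA_j]; exact H189.j1_mem_chart P E M q hq) hgood.1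
      normal_f₂ := normalAlong_side3 P E M (M * q * q) w hdvr hw VM hVM V₂ sh.base₂ hw₂
        (gammaA E M q) hγV₂ hres₂ _ (x3E E M q) (q + 2) hjM val.x_unit₂.2.1
        (by rw [hgA]; exact hc₂.val_lt)
        (by rw [gammaA_j]; exact H189.j1_mem_chart P E M q hq) hgood.1
      normal_f₃ := normalAlong_side3 P E M (M * q * q) w hdvr hw VM hVM V₃ sh.base₃ hw₃
        (gammaB E M q) hγV₃ hres₃ _ (x3E E M q) (1 + q + q * q) hjM val.x_unit₃.2.1
        (by rw [hgB]; exact hc₃.val_lt)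
        (by rw [gammaB_j]; exact H189.jqq_mem_chart' P E M q hq) hgood.1
      normal_i₁ := normalAlong_side3 P E M (M * q * q) w hdvr hw VM hVM V₁ sh.base₁ hw₁
        (gammaA E M q) hγV₁ hres₁ _ (x3E E M q)⁻¹ (1 + q + q * q) hjMi val.x_unit₁.2.2
        (by rw [hgAi]; exact (hc₁.inv val.x_unit₁.2.2 (hpi V₁ _ _ hi₁.1)).val_lt)
        (by rw [map_inv₀, gammaA_j]; exact H189.j1_inv_mem_chart P E M q hq) hgood.2
      normal_i₂ := normalAlong_side3 P E M (M * q * q) w hdvr hw VM hVM V₂ sh.base₂ hw₂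
        (gammaA E M q) hγV₂ hres₂ _ (x3E E M q)⁻¹ (q + 2) hjMi val.x_unit₂.2.2
        (by rw [hgAi]; exact (hc₂.inv val.x_unit₂.2.2 (hpi V₂ _ _ hi₂.1)).val_lt)
        (by rw [map_inv₀, gammaA_j]; exact H189.j1_inv_mem_chart P E M q hq) hgood.2
      normal_i₃ := normalAlong_side3 P E M (M * q * q) w hdvr hw VM hVM V₃ sh.base₃ hw₃
        (gammaB E M q) hγV₃ hres₃ _ (x3E E M q)⁻¹ (1 + q + q * q) hjMi val.x_unit₃.2.2
        (by rw [hgBi]; exact (hc₃.inv val.x_unit₃.2.2 (hpi V₃ _ _ hi₃.2.2)).val_lt)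
        (by rw [map_inv₀, gammaB_j]; exact H189.jqq_inv_mem_chart' P E M q hq) hgood.2 }

end Main

end Fermat.Agent.S36.Mod3.H756

end

end
-- ===== PACK-END S36/Mod3/H756/Normal.lean

-- ===== PACK-BEGIN S35/G/H862/Model.lean
section












/-!
# S35, piece (G') — leaf MODEL (helper862)

* `s1`, `s3` : the sub-assemblies S1, S3 of `A2/Mod/Asm.lean`, UNCONDITIONAL (wiring of the leaves
  on main: L4/L5 `H751`, L6 `H553`, L7 `H900`, L8 `H31`, L9/L10 `H753`, L11 `H378`, L12 `H96`,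
  S2 `H142`, `H13.s1`, `H372.s3_of_leaves`).
* `ModelNoSepStatement` : `G.ModelStatement` WITHOUT its two `SepCoord` conjuncts;
  `modelNoSep : ModelNoSepStatement A E M q w` UNCONDITIONAL.
* `model_of : S4Statement A E M q w → G.ModelStatement A E M q w`;
* `model : G.ModelStatement A E M q w` (VERBATIM `S35/G/SpecLevel.lean`), UNCONDITIONAL
  (S4 = `H732.s4`).
-/

set_option autoImplicit false
set_option linter.style.haveILetI false
set_option linter.unusedSectionVars false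
set_option synthInstance.maxHeartbeats 400000
set_option maxHeartbeats 1600000

noncomputable section

namespace Fermat.Agent.S35.G.H862

open ModularCurve Fermat.Agent.A2.Mod

variable (A : ValuationSubring _root_.Fermat.Agent.S35.G.Qb) (E : IntermediateField ℚ _root_.Fermat.Agent.S35.G.Qb) (M q : ℕ) [NeZero M] [NeZero q]
  (w : RE A E)

/-- **S1** (two components), unconditional. -/
theorem s1 : S1Statement A E M q w :=
  H13.s1 (H553.vzeroNe A E M q w) (H31.deg E M q) (H753.indInf A E M q w)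
    (H753.indZero A E M q w)

/-- **S3** (ordinary double points), unconditional. -/
theorem s3 : S3Statement A E M q w :=
  H372.s3_of_leaves A E M q w (H751.frickeExists E) (H751.frickeCompat E M q)
    (H900.frickeStable A E M q w) (H31.deg E M q) (H378.resInf A E M q w)
    (H96.kron A E M q w) (H142.s2 A E M q w)

/-- **MODEL without `SepCoord`**: `G.ModelStatement` minus its two `SepCoord` conjuncts. -/
def ModelNoSepStatement : Prop :=
  Setting A E M q w → A2.GoodField A E → HasAux M q →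
    ∃ (V : ValuationSubring (FE E (M * q)))
      (W : FE E (M * q) ≃ₐ[E] FE E (M * q))
      (VM : ValuationSubring (FE E M)),
      IsVinf A E (M * q) V ∧ IsFricke E (M * q) W ∧ IsVinf A E M VM ∧
      GoodRedAt A E M w VM (jE E M 1 (one_dvd _)) ∧
      GoodRedAt A E M w VM (jE E M 1 (one_dvd _))⁻¹ ∧
      A2.Mod.DegStatement E M q ∧
      ∃ (cf : A2.SSChart w (chartAlg A E (M * q) (xE E M q)))
        (ci : A2.SSChart w (chartAlg A E (M * q) (xE E M q)⁻¹)),
        CutBy w (chartAlg A E (M * q) (xE E M q)) cf V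
          (V.comap (W : FE E (M * q) →+* FE E (M * q))) ∧
        CutBy w (chartAlg A E (M * q) (xE E M q)⁻¹) ci V
          (V.comap (W : FE E (M * q) →+* FE E (M * q)))

/-- **MODEL without `SepCoord`**, unconditional. -/
theorem modelNoSep : ModelNoSepStatement A E M q w := by
  intro hS _ hAux
  have hN : M * q ≠ 0 := mul_ne_zero hS.M_ne_zero hS.q_prime.ne_zero
  obtain ⟨V, hV⟩ := H553.vinfExists A E (M * q) hN hS.dvr
  obtain ⟨VM, hVM⟩ := H553.vinfExists A E M hS.M_ne_zero hS.dvr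
  obtain ⟨W, hW⟩ := H751.frickeExists E (M * q) hN
  obtain ⟨hg₁, hg₂⟩ := H216.goodRedHyp_of_dvr A E M hS.q_prime hS.q_not_dvd hAux.1 hAux.2
    hS.lies_over hS.dvr w VM hS.unif hVM
  obtain ⟨cf, hcf⟩ := exists_chart_cutBy hS (s1 A E M q w) (H142.s2 A E M q w) (s3 A E M q w)
    VM V W hVM hV hW _ _ (Or.inl ⟨rfl, rfl⟩) hg₁
  obtain ⟨ci, hci⟩ := exists_chart_cutBy hS (s1 A E M q w) (H142.s2 A E M q w) (s3 A E M q w)
    VM V W hVM hV hW _ _ (Or.inr ⟨rfl, rfl⟩) hg₂
  exact ⟨V, W, VM, hV, hW, hVM, hg₁, hg₂, H31.deg E M q, cf, ci, hcf, hci⟩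

/-- **MODEL** (`G.ModelStatement`, VERBATIM), from S4 (`SepCoord`). -/
theorem model_of (hS4 : S4Statement A E M q w) : ModelStatement A E M q w := by
  intro hS _ hAux
  have hN : M * q ≠ 0 := mul_ne_zero hS.M_ne_zero hS.q_prime.ne_zero
  obtain ⟨V, hV⟩ := H553.vinfExists A E (M * q) hN hS.dvr
  obtain ⟨VM, hVM⟩ := H553.vinfExists A E M hS.M_ne_zero hS.dvr
  obtain ⟨W, hW⟩ := H751.frickeExists E (M * q) hN
  obtain ⟨hg₁, hg₂⟩ := H216.goodRedHyp_of_dvr A E M hS.q_prime hS.q_not_dvd hAux.1 hAux.2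
    hS.lies_over hS.dvr w VM hS.unif hVM
  obtain ⟨hsf, hsi⟩ := hS4 hS VM hVM hg₁ hg₂
  obtain ⟨cf, hcf⟩ := exists_chart_cutBy hS (s1 A E M q w) (H142.s2 A E M q w) (s3 A E M q w)
    VM V W hVM hV hW _ _ (Or.inl ⟨rfl, rfl⟩) hg₁
  obtain ⟨ci, hci⟩ := exists_chart_cutBy hS (s1 A E M q w) (H142.s2 A E M q w) (s3 A E M q w)
    VM V W hVM hV hW _ _ (Or.inr ⟨rfl, rfl⟩) hg₂
  exact ⟨V, W, VM, hV, hW, hVM, hg₁, hg₂, H31.deg E M q, hsf, hsi, cf, ci, hcf, hci⟩

/-- **MODEL** (`G.ModelStatement`, VERBATIM), UNCONDITIONAL. -/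
theorem model : ModelStatement A E M q w :=
  model_of A E M q w (H732.s4 A E M q w)

end Fermat.Agent.S35.G.H862

end

end
-- ===== PACK-END S35/G/H862/Model.lean

-- ===== PACK-BEGIN S36/Mod3/H189/LevelNormal.lean
section







/-!
# S36 / MOD3 (helper189) — normality of the two components of level `M q`, in `Eng` form

At the level `M q` (`q ∤ M`, neat) the finite chart `B' = chart R {x'}`, `x' = j j_q`, is the
semistable chart of cell A2 (`S35.G.H862.exists_chart_cutBy`): two components `p₁ = B' ∩ 𝔪_{V∞}`,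
`p₂ = B' ∩ 𝔪_{V₀}`, both with integrally closed quotient.  `V∞`, `V₀` are sheets (`A2.H12.IsSheet`),
hence the local rings of `B'` at `p₁`, `p₂` (`S36.H193.sheet_mem_iff`).  Therefore

* `isSheet_vinf`, `isSheet_vzero` : `V₁'`, `V₂' = V₁' ∘ W'` are sheets of `x'`;
* `normalAlong_vinf`  : `Eng.NormalAlong (chart R {x'}) V₁'`;
* `normalAlong_vzero` : `Eng.NormalAlong (chart R {x'}) (V₁'.comap W')`.
-/

set_option autoImplicit false
set_option linter.style.haveILetI false
set_option linter.unusedSectionVars false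
set_option synthInstance.maxHeartbeats 400000
set_option maxHeartbeats 1600000

noncomputable section

namespace Fermat.Agent.S36.Mod3.H189

open ModularCurve Polynomial
open Fermat.Agent.S18.H138 (chart baseField)
open Fermat.Agent Fermat.Agent.S36.Eng

universe u

section Abs

variable {R : Type u} [CommRing R] [IsDomain R] [IsDiscreteValuationRing R]
  {L : Type u} [Field L] [Algebra R L]

/-- A valuation ring inducing the Gauss valuation on `R[x]` is a sheet. -/
theorem isSheet_of_isGaussOver {w : R} (hw : Irreducible w) {V : ValuationSubring L} {x : L}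
    (h : A2.H489.IsGaussOver R V x) : A2.H12.IsSheet w x V := by
  refine ⟨h.isOver.mem, h.mem, ?_, ?_⟩
  · exact h.isOver.nonunit w ((IsLocalRing.mem_maximalIdeal w).2 hw.not_isUnit)
  · rintro p ⟨i, hi⟩
    by_contra hinv
    have hn : aeval x p ∈ V.nonunits := by
      rw [ValuationSubring.mem_nonunits_iff_or]
      exact Or.inr hinv
    have h0 := h.prim p hn
    apply hi
    have h1 : (p.map (IsLocalRing.residue R)).coeff i = 0 := by rw [h0, coeff_zero]
    rw [coeff_map, IsLocalRing.residue_eq_zero_iff, hw.maximalIdeal_eq,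
      Ideal.mem_span_singleton] at h1
    exact h1

end Abs

section Concrete

variable (P : ValuationSubring A2.Qb) (E : IntermediateField ℚ A2.Qb) (M q : ℕ)
  [NeZero M] [NeZero q] [NeZero (M * q)]

variable {P E M q}

theorem setting_of_std {w : A2.RE P E} (hS : Mod3.Std P E M q w) : A2.Mod.Setting P E M q w where
  q_prime := hS.q_prime
  q_not_dvd := hS.q_not_dvd
  M_ne_zero := NeZero.ne M
  lies_over := hS.lies_over
  dvr := hS.unram.1.dvr
  unif := hS.unif

theorem transcendental_xE (hq : q.Prime) (hqM : ¬ q ∣ M) :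
    Transcendental E (A2.Mod.xE E M q) :=
  (A2.Mod.H31.deg E M q hq hqM).1

/-- `V∞` of level `M q` is a sheet of `x' = j j_q`. -/
theorem isSheet_vinf {w : A2.RE P E} (hS : Mod3.Std P E M q w)
    {V : ValuationSubring (A2.Mod.FE E (M * q))} (hV : A2.Mod.IsVinf P E (M * q) V) :
    A2.H12.IsSheet w (A2.Mod.xE E M q) V := by
  haveI : IsDiscreteValuationRing (A2.RE P E) := hS.unram.1.dvr
  exact isSheet_of_isGaussOver hS.unif
    (A2.Mod.H13.isGaussOver_xE hS.unif hV (transcendental_xE hS.q_prime hS.q_not_dvd))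

/-- `V₀ = V∞ ∘ W` of level `M q` is a sheet of `x' = j j_q`. -/
theorem isSheet_vzero {w : A2.RE P E} (hS : Mod3.Std P E M q w)
    {V : ValuationSubring (A2.Mod.FE E (M * q))} (hV : A2.Mod.IsVinf P E (M * q) V)
    {W : A2.Mod.FE E (M * q) ≃ₐ[E] A2.Mod.FE E (M * q)} (hW : A2.Mod.IsFricke E (M * q) W) :
    A2.H12.IsSheet w (A2.Mod.xE E M q)
      (V.comap (W : A2.Mod.FE E (M * q) →+* A2.Mod.FE E (M * q))) := by
  haveI : IsDiscreteValuationRing (A2.RE P E) := hS.unram.1.dvr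
  exact isSheet_of_isGaussOver hS.unif
    (A2.Mod.H13.isGaussOver_comap_xE hS.unif hV hW (transcendental_xE hS.q_prime hS.q_not_dvd))

/-- **Normality of the two components of level `M q`** (finite chart), in `Eng` form. -/
theorem normalAlong_level {w : A2.RE P E} (hS : Mod3.Std P E M q w)
    {V : ValuationSubring (A2.Mod.FE E (M * q))} (hV : A2.Mod.IsVinf P E (M * q) V)
    {W : A2.Mod.FE E (M * q) ≃ₐ[E] A2.Mod.FE E (M * q)} (hW : A2.Mod.IsFricke E (M * q) W) :
    NormalAlong (chart (A2.RE P E) ({A2.Mod.xE E M q} : Set (A2.Mod.FE E (M * q)))) V ∧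
    NormalAlong (chart (A2.RE P E) ({A2.Mod.xE E M q} : Set (A2.Mod.FE E (M * q))))
      (V.comap (W : A2.Mod.FE E (M * q) →+* A2.Mod.FE E (M * q))) := by
  have hSet := setting_of_std hS
  haveI : IsDiscreteValuationRing (A2.RE P E) := hS.unram.1.dvr
  have hAux := hS.neat.hasAux
  obtain ⟨VM, hVM⟩ := A2.Mod.H553.vinfExists P E M hSet.M_ne_zero hSet.dvr
  obtain ⟨hg₁, -⟩ := A2.Mod.H216.goodRedHyp_of_dvr P E M hSet.q_prime hSet.q_not_dvd
    hAux.1 hAux.2 hSet.lies_over hSet.dvr w VM hSet.unif hVM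
  obtain ⟨cf, hcf⟩ := S35.G.H862.exists_chart_cutBy hSet (S35.G.H862.s1 P E M q w)
    (A2.Mod.H142.s2 P E M q w) (S35.G.H862.s3 P E M q w) VM V W hVM hV hW _ _
    (Or.inl ⟨rfl, rfl⟩) hg₁
  have hu : A2.H48.IsUnif V (A2.Mod.cE P E (M * q) w) :=
    (A2.Mod.H553.vinfBasic P E w (M * q) (NeZero.ne _) hSet.dvr hSet.unif V hV).1
  have hu' := A2.Mod.H13.isUnif_comap hu W
  have htr : Transcendental E (A2.Mod.xE E M q) := transcendental_xE hS.q_prime hS.q_not_dvd
  haveI : FiniteDimensional (IntermediateField.adjoin E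
      ({A2.Mod.xE E M q} : Set (A2.Mod.FE E (M * q)))) (A2.Mod.FE E (M * q)) :=
    Mod3.H933.finiteDimensional_of_transcendental E (M * q) (NeZero.ne _) _ htr
  haveI : FiniteDimensional (baseField (A2.RE P E) (A2.Mod.xE E M q)) (A2.Mod.FE E (M * q)) :=
    A2.H643.finiteDimensional_baseField_of_adjoin (E := E) _
  have hinj : Function.Injective (algebraMap (A2.RE P E) (A2.Mod.FE E (M * q))) := by
    intro a b hab
    have h1 : algebraMap E (A2.Mod.FE E (M * q)) (a : E) =
        algebraMap E (A2.Mod.FE E (M * q)) (b : E) := hab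
    exact Subtype.ext ((algebraMap E (A2.Mod.FE E (M * q))).injective h1)
  have hwp : Prime w := hS.unif.prime
  have htrR : Transcendental (A2.RE P E) (A2.Mod.xE E M q) := A2.Mod.H13.transcendental_RE htr
  have key : NormalAlong (A2.Mod.chartAlg P E (M * q) (A2.Mod.xE E M q)) V ∧
      NormalAlong (A2.Mod.chartAlg P E (M * q) (A2.Mod.xE E M q))
        (V.comap (W : A2.Mod.FE E (M * q) →+* A2.Mod.FE E (M * q))) := by
    constructor
    · refine @normalAlong_of_closed _ _ _ _ _ (A2.Mod.chartAlg P E (M * q) (A2.Mod.xE E M q))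
        V cf.p₁ cf.prime₁ cf.normal₁ hcf.le₁ (fun b => ?_) (fun y hy => ?_)
      · rw [hcf.cut₁]
        exact A2.Mod.H13.inW_iff_mem_nonunits hu _
      · exact (S36.H193.sheet_mem_iff hinj hwp htrR (isSheet_vinf hS hV) y).1 hy
    · refine @normalAlong_of_closed _ _ _ _ _ (A2.Mod.chartAlg P E (M * q) (A2.Mod.xE E M q))
        _ cf.p₂ cf.prime₂ cf.normal₂ hcf.le₂ (fun b => ?_) (fun y hy => ?_)
      · rw [hcf.cut₂]
        exact A2.Mod.H13.inW_iff_mem_nonunits hu' _
      · exact (S36.H193.sheet_mem_iff hinj hwp htrR (isSheet_vzero hS hV hW) y).1 hy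
  exact key

end Concrete

end Fermat.Agent.S36.Mod3.H189

end

end
-- ===== PACK-END S36/Mod3/H189/LevelNormal.lean

-- ===== PACK-BEGIN S36/Mod3/H189/LeafChartOf.lean
section




/-!
# S36 / MOD3, leaf CHART (helper189): `LeafVT → LeafTable → LeafVal → LeafChart`

`Mod3.LeafChart` has eight fields.

* `chart_α`, `chart_β`, `int_α`, `int_β` : unconditional (`Mod3/H189/Chart3.lean`, `ChartLeaf.lean`).
* `res_α₁`, `res_α₂`, `res_β₃`, `res_β₂` (residue degree one in CHART form): from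
  - residue degree one at the level of the valuation rings (`LeafVT`: `res_α₁ … res_β₂`),
  - lying over (`LeafTable`: `comap_α₁`, `comap_α₂`, `comap_β₃`, `comap_β₂`, and `comap_α₃` for
    `R ⊆ V₃`),
  - `x ∈ V_i` (`LeafVal`: `x_unit_i`),
  - `int_α`, `int_β` (above),
  - normality of the two components of level `M q` (`LevelNormal.lean`: cell A2 on main),
  by `res_chart_of_normalAlong` (`ResAbs.lean`).

**`leafChart_of : LeafVT → LeafTable → LeafVal → LeafChart`.**
-/

set_option autoImplicit false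
set_option linter.style.haveILetI false
set_option linter.unusedSectionVars false
set_option synthInstance.maxHeartbeats 400000
set_option maxHeartbeats 1600000

noncomputable section

namespace Fermat.Agent.S36.Mod3.H189

open ModularCurve
open Fermat.Agent.S18.H138 (chart)
open Fermat.Agent Fermat.Agent.S36.Eng

section Abs

variable {R K : Type*} [CommRing R] [Field K] [Algebra R K]

/-- A valuation ring containing `R` and `x` contains the chart `chart R {x}`. -/
theorem chart_le_valuationSubring (V : ValuationSubring K) {x : K}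
    (hR : ∀ r : R, algebraMap R K r ∈ V) (hx : x ∈ V) :
    ∀ b ∈ chart R ({x} : Set K), b ∈ V := by
  intro b hb
  have hle : ∀ a ∈ Algebra.adjoin R ({x} : Set K), a ∈ V := by
    intro a ha
    induction ha using Algebra.adjoin_induction with
    | mem y hy =>
      rw [Set.mem_singleton_iff] at hy
      rw [hy]
      exact hx
    | algebraMap r => exact hR r
    | add y z _ _ hy hz => exact V.add_mem _ _ hy hz
    | mul y z _ _ hy hz => exact V.mul_mem _ _ hy hz
  obtain ⟨p, hpm, hp0⟩ := (Fermat.Agent.S18.H138.mem_chart).1 hb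
  let φ : Algebra.adjoin R ({x} : Set K) →+* V :=
    { toFun := fun a => ⟨(a : K), hle a a.2⟩
      map_one' := rfl
      map_mul' := fun _ _ => rfl
      map_zero' := rfl
      map_add' := fun _ _ => rfl }
  have hφ : (algebraMap V K).comp φ = algebraMap (Algebra.adjoin R ({x} : Set K)) K := by
    ext a
    rfl
  have hint : IsIntegral V b := by
    refine ⟨p.map φ, hpm.map φ, ?_⟩
    rw [Polynomial.eval₂_map, hφ]
    exact hp0
  obtain ⟨y, hy⟩ := IsIntegrallyClosed.isIntegral_iff (R := V) (K := K) |>.mp hint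
  rw [← hy]
  exact y.2

end Abs

section Base

variable {R E F F' : Type*} [CommRing R] [Field E] [Algebra R E]
  [Field F] [Algebra E F] [Algebra R F] [IsScalarTower R E F]
  [Field F'] [Algebra E F'] [Algebra R F'] [IsScalarTower R E F']

/-- `R ⊆ V'` and `V | V'` along an `E`-algebra homomorphism give `R ⊆ V`. -/
theorem base_of_comap (α : F' →ₐ[E] F) (V : ValuationSubring F) (V' : ValuationSubring F')
    (hcomap : V.comap (α : F' →+* F) = V') (hR : ∀ r : R, algebraMap R F' r ∈ V') :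
    ∀ r : R, algebraMap R F r ∈ V := by
  intro r
  have h1 : algebraMap R F' r ∈ V.comap (α : F' →+* F) := by
    rw [hcomap]
    exact hR r
  have h2 : α (algebraMap R F' r) ∈ V := h1
  rwa [IsScalarTower.algebraMap_apply R E F', AlgHom.commutes,
    ← IsScalarTower.algebraMap_apply R E F] at h2

end Base

/-- **`LeafChart`** from the valuation-level table, lying over, and `x ∈ V_i`. -/
theorem leafChart_of (hVT : Mod3.LeafVT) (hT : Mod3.LeafTable) (hVal : Mod3.LeafVal) :
    Mod3.LeafChart := by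
  apply leafChart_of_res
  intro P E M q _ _ _ w hS V₁' V₂' V₁ V₂ V₃ W' W hO
  have vt := hVT P E M q w hS V₁' V₂' V₁ V₂ V₃ W' W hO
  have tb := hT P E M q w hS V₁' V₂' V₁ V₂ V₃ W' W hO
  have vl := hVal P E M q w hS V₁' V₂' V₁ V₂ V₃ W' W hO
  obtain ⟨hn₁, hn₂⟩ := normalAlong_level hS hO.vinf' hO.fricke'
  rw [← hO.vzero'] at hn₂
  have sh₁ := isSheet_vinf hS hO.vinf'
  have sh₂ : A2.H12.IsSheet w (A2.Mod.xE E M q) V₂' := by
    rw [hO.vzero']
    exact isSheet_vzero hS hO.vinf' hO.fricke'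
  have hB'₁ := S36.H193.sheet_chart_le sh₁
  have hB'₂ := S36.H193.sheet_chart_le sh₂
  have hR₁ : ∀ r : A2.RE P E, algebraMap (A2.RE P E) (A2.Mod.FE E (M * q * q)) r ∈ V₁ :=
    base_of_comap _ V₁ V₁' tb.comap_α₁ sh₁.1
  have hR₂ : ∀ r : A2.RE P E, algebraMap (A2.RE P E) (A2.Mod.FE E (M * q * q)) r ∈ V₂ :=
    base_of_comap _ V₂ V₁' tb.comap_α₂ sh₁.1
  have hR₃ : ∀ r : A2.RE P E, algebraMap (A2.RE P E) (A2.Mod.FE E (M * q * q)) r ∈ V₃ :=
    base_of_comap _ V₃ V₂' tb.comap_α₃ sh₂.1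
  have hB₁ := chart_le_valuationSubring V₁ hR₁ vl.x_unit₁.2.1
  have hB₂ := chart_le_valuationSubring V₂ hR₂ vl.x_unit₂.2.1
  have hB₃ := chart_le_valuationSubring V₃ hR₃ vl.x_unit₃.2.1
  exact
    { res_α₁ := res_chart_of_normalAlong _ _ _ V₁ V₁' tb.comap_α₁ hn₁
        (int_α_x3E P E M q hS.q_prime) hB'₁ hB₁ vt.res_α₁
      res_α₂ := res_chart_of_normalAlong _ _ _ V₂ V₁' tb.comap_α₂ hn₁
        (int_α_x3E P E M q hS.q_prime) hB'₁ hB₂ vt.res_α₂
      res_β₃ := res_chart_of_normalAlong _ _ _ V₃ V₂' tb.comap_β₃ hn₂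
        (int_β_x3E P E M q hS.q_prime) hB'₂ hB₃ vt.res_β₃
      res_β₂ := res_chart_of_normalAlong _ _ _ V₂ V₂' tb.comap_β₂ hn₂
        (int_β_x3E P E M q hS.q_prime) hB'₂ hB₂ vt.res_β₂ }

end Fermat.Agent.S36.Mod3.H189

end

end
-- ===== PACK-END S36/Mod3/H189/LeafChartOf.lean

-- ===== PACK-BEGIN S36/Mod3/H153/Leaves.lean
section




/-!
# S36 / MOD3 — leaves `LeafInc` and `LeafUniq` (helper153)

    leafInc  : LeafTable → LeafChart → LeafQep → LeafVal → LeafSheet → LeafNR → Mod3.LeafInc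
    leafUniq : LeafTable → LeafChart → LeafQep → LeafVal → LeafSheet → LeafNR → Mod3.LeafUniq

Only OTHER leaves are hypotheses; everything else is proved here or in `S36/H153/*.lean`:

* incomparability of the two components of level `M q` (`H153.inc₁₂_concrete`, L3 of A2);
* `VV` is radicial over level `M q` via `α`, `FF` via `β` : from `nr_α₂`, `nr_β₂` (`LeafNR`) and the
  integrality of norms (`normAlong_mem_chart`);
* the cover statement from `Qep3` + multiplicities (`LeafQep`, `LeafVal`);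
* cusps: `H153.cusp_single_concrete` (cusps are not nodes at level `M q`, charts at infinity).

`cuspSingle_of_leaves` needs only `LeafTable`, `LeafVal`, `LeafSheet`.
-/

set_option autoImplicit false
set_option linter.style.haveILetI false
set_option linter.unusedSectionVars false
set_option synthInstance.maxHeartbeats 400000
set_option maxHeartbeats 1600000

noncomputable section

namespace Fermat.Agent.S36.Mod3.H153

open ModularCurve AlgebraicCurve
open Fermat.Agent.S18.H138 (chart)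
open Fermat.Agent.S36.Eng
open Fermat.Agent.S36.H153

/-! ## Norms of integral elements -/

section Norm

variable {R E F F' : Type*} [CommRing R] [Field E] [Algebra R E]
  [Field F] [Algebra E F] [Algebra R F] [Field F'] [Algebra E F'] [Algebra R F']

/-- The norm along `α` of an element integral over `α B'` lies in `B'`, if `B'` is integrally
closed in `F'`. -/
theorem normAlong_mem_chart (α : F' →ₐ[E] F) (B' : Subalgebra R F') (B : Subalgebra R F)
    (closed' : ∀ f : F', IsIntegral B' f → f ∈ B')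
    (int_α : ∀ b ∈ B, ∃ p : Polynomial F', p.Monic ∧ (∀ i, p.coeff i ∈ B') ∧
      (p.map (α : F' →+* F)).eval b = 0)
    (b : F) (hb : b ∈ B) : S29.H395.normAlong α b ∈ B' := by
  letI : Algebra F' F := algebraAlong α
  haveI : IsScalarTower B' F' F := IsScalarTower.of_algebraMap_eq (fun _ => rfl)
  apply closed'
  have hint : IsIntegral B' b := by
    obtain ⟨p, hp, hc, he⟩ := int_α b hb
    have hl : p ∈ Polynomial.lifts B'.val.toRingHom := by
      rw [Polynomial.lifts_iff_coeff_lifts]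
      intro n
      exact ⟨⟨p.coeff n, hc n⟩, rfl⟩
    obtain ⟨Q, hQp, -, hQm⟩ := Polynomial.lifts_and_degree_eq_and_monic hl hp
    refine ⟨Q, hQm, ?_⟩
    have h2 : algebraMap B' F = (α : F' →+* F).comp B'.val.toRingHom := rfl
    rw [h2, ← Polynomial.eval₂_map, hQp, Polynomial.eval₂_eq_eval_map]
    simpa using he
  exact Algebra.isIntegral_norm F' hint

/-- A non-zero element of `V` outside `𝔪_V` is a unit of `V`. -/
theorem unitAt_of_not_mem_nonunits (V : ValuationSubring F) {b : F} (hb : b ∈ V)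
    (hn : b ∉ V.nonunits) : UnitAt V b := by
  have hb0 : b ≠ 0 := by
    rintro rfl
    apply hn
    rw [ValuationSubring.mem_nonunits_iff]; simp
  refine ⟨hb0, hb, ?_⟩
  rw [ValuationSubring.mem_nonunits_iff, not_lt] at hn
  rw [← V.valuation_le_one_iff, map_inv₀]
  exact inv_le_one_of_one_le₀ hn

/-- **Radicial from `NR`** (purely inseparable row of the table). -/
theorem rad_of_nr (α : F' →ₐ[E] F) (B' : Subalgebra R F') (B : Subalgebra R F)
    (V : ValuationSubring F) (q : ℕ) (hq : 0 < q) (hBV : ∀ b ∈ B, b ∈ V)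
    (closed' : ∀ f : F', IsIntegral B' f → f ∈ B')
    (int_α : ∀ b ∈ B, ∃ p : Polynomial F', p.Monic ∧ (∀ i, p.coeff i ∈ B') ∧
      (p.map (α : F' →+* F)).eval b = 0)
    (nr : ∀ y : F, UnitAt V y → α (S29.H395.normAlong α y) - y ^ q ∈ V.nonunits) :
    ∀ b ∈ B, ∃ k : ℕ, 0 < k ∧ ∃ b' ∈ B', b ^ k - (α : F' →+* F) b' ∈ V.nonunits := by
  intro b hb
  by_cases hbn : b ∈ V.nonunits
  · exact ⟨1, one_pos, 0, B'.zero_mem, by simpa using hbn⟩
  · have hu := unitAt_of_not_mem_nonunits V (hBV b hb) hbn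
    refine ⟨q, hq, S29.H395.normAlong α b, normAlong_mem_chart α B' B closed' int_α b hb, ?_⟩
    have h := nr b hu
    have e : b ^ q - (α : F' →+* F) (S29.H395.normAlong α b) =
        -(α (S29.H395.normAlong α b) - b ^ q) := by
      simp
    rw [e]
    rw [ValuationSubring.mem_nonunits_iff] at h ⊢
    rwa [Valuation.map_neg]

end Norm

/-! ## The concrete leaves -/

section Concrete

variable {P : ValuationSubring A2.Qb} {E : IntermediateField ℚ A2.Qb} {M q : ℕ}
  [NeZero M] [NeZero q] [NeZero (M * q)]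

theorem setting_of_std {w : A2.RE P E} (h : Std P E M q w) : A2.Mod.Setting P E M q w where
  q_prime := h.q_prime
  q_not_dvd := h.q_not_dvd
  M_ne_zero := NeZero.ne M
  lies_over := h.lies_over
  dvr := h.unram.1.dvr
  unif := h.unif

theorem x3E_eq_xSq : x3E E M q = xSq E M q := rfl

/-- **The chart-level incidence datum of the finite charts, from the leaves.** -/
theorem chartInc_of_leaves (hTable : LeafTable) (hChart : LeafChart) (hQep : LeafQep)
    (hVal : LeafVal) (hSheet : LeafSheet) (hNR : LeafNR)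
    (w : A2.RE P E) (hstd : Std P E M q w)
    (V₁' V₂' : ValuationSubring (A2.Mod.FE E (M * q)))
    (V₁ V₂ V₃ : ValuationSubring (A2.Mod.FE E (M * q * q)))
    (W' : A2.Mod.FE E (M * q) ≃ₐ[E] A2.Mod.FE E (M * q))
    (W : A2.Mod.FE E (M * q * q) ≃ₐ[E] A2.Mod.FE E (M * q * q))
    (hobj : Objs P E M q V₁' V₂' V₁ V₂ V₃ W' W) :
    ChartInc w (q - 1)
      (A2.Mod.αE E (M * q) q : A2.Mod.FE E (M * q) →+* A2.Mod.FE E (M * q * q))
      (A2.Mod.βE E (M * q) q : A2.Mod.FE E (M * q) →+* A2.Mod.FE E (M * q * q))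
      (chart (A2.RE P E) ({A2.Mod.xE E M q} : Set (A2.Mod.FE E (M * q))))
      (chart (A2.RE P E) ({x3E E M q} : Set (A2.Mod.FE E (M * q * q)))) V₁ V₂ V₃ V₁' V₂' := by
  have T := hTable P E M q w hstd V₁' V₂' V₁ V₂ V₃ W' W hobj
  have C := hChart P E M q w hstd V₁' V₂' V₁ V₂ V₃ W' W hobj
  have Q := hQep P E M q w hstd V₁' V₂' V₁ V₂ V₃ W' W hobj
  have Vl := hVal P E M q w hstd V₁' V₂' V₁ V₂ V₃ W' W hobj
  have Sh := hSheet P E M q w hstd V₁' V₂' V₁ V₂ V₃ W' W hobj
  have NR := hNR P E M q w hstd V₁' V₂' V₁ V₂ V₃ W' W hobj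
  have hS := setting_of_std hstd
  have hq : 0 < q := hstd.q_prime.pos
  obtain ⟨t, ⟨ht0, -, htu⟩, ⟨-, -, hram⟩⟩ := Vl.ram₂
  have hB₁ : ∀ b ∈ chart (A2.RE P E) ({x3E E M q} : Set (A2.Mod.FE E (M * q * q))), b ∈ V₁ :=
    chart_le_valuationSubring V₁ Sh.base₁
      (fun s hs => by rw [Set.mem_singleton_iff.mp hs]; exact Vl.x_unit₁.2.1)
  have hB₃ : ∀ b ∈ chart (A2.RE P E) ({x3E E M q} : Set (A2.Mod.FE E (M * q * q))), b ∈ V₃ :=
    chart_le_valuationSubring V₃ Sh.base₃
      (fun s hs => by rw [Set.mem_singleton_iff.mp hs]; exact Vl.x_unit₃.2.1)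
  have hv := hobj.vzero'
  have h12 := inc₁₂_concrete w hS V₁' W' hobj.vinf' hobj.fricke'
  have h21 := inc₂₁_concrete w hS V₁' W' hobj.vinf' hobj.fricke'
  rw [← hv] at h12 h21
  exact chartInc_of_chart w (q - 1) _ _ (x3E E M q) (A2.Mod.xE E M q) V₁ V₂ V₃ V₁' V₂'
    Sh.base₁ Sh.base₂ Sh.base₃ Vl.x_unit₁.2.1 Vl.x_unit₂.2.1 Vl.x_unit₃.2.1
    C.chart_α C.chart_β C.int_α C.int_β
    T.comap_α₁ T.comap_α₂ T.comap_α₃ T.comap_β₁ T.comap_β₂ T.comap_β₃
    (alpha_algebraMap P E (M * q) q w) (beta_algebraMap P E (M * q) q w)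
    Vl.unif₁.2.1 Vl.unif₃.2.1 Q.qep_f
    Vl.unif₁.2.2 (pow_div_mem_of_ram V₂ _ t (q - 1) ht0 htu hram) Vl.unif₃.2.2
    h12 h21
    (rad_of_nr (A2.Mod.αE E (M * q) q) _ _ V₃ q hq hB₃ (chart_closed _) C.int_α NR.nr_α₂)
    (rad_of_nr (A2.Mod.βE E (M * q) q) _ _ V₁ q hq hB₁ (chart_closed _) C.int_β NR.nr_β₂)

/-- The field `cusp_single` from `LeafTable`, `LeafVal`, `LeafSheet`. -/
theorem cuspSingle_of_leaves (hTable : LeafTable) (hVal : LeafVal) (hSheet : LeafSheet)
    (w : A2.RE P E) (hstd : Std P E M q w)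
    (V₁' V₂' : ValuationSubring (A2.Mod.FE E (M * q)))
    (V₁ V₂ V₃ : ValuationSubring (A2.Mod.FE E (M * q * q)))
    (W' : A2.Mod.FE E (M * q) ≃ₐ[E] A2.Mod.FE E (M * q))
    (W : A2.Mod.FE E (M * q * q) ≃ₐ[E] A2.Mod.FE E (M * q * q))
    (hobj : Objs P E M q V₁' V₂' V₁ V₂ V₃ W' W) :
    ∀ 𝔪 : Ideal (chart (A2.RE P E) ({(x3E E M q)⁻¹} : Set (A2.Mod.FE E (M * q * q)))),
    𝔪.IsMaximal →
    algebraMap (A2.RE P E)
      (chart (A2.RE P E) ({(x3E E M q)⁻¹} : Set (A2.Mod.FE E (M * q * q)))) w ∈ 𝔪 →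
    (⟨(x3E E M q)⁻¹, Fermat.Agent.S18.H138.mem_chart_of_mem rfl⟩ :
      chart (A2.RE P E) ({(x3E E M q)⁻¹} : Set (A2.Mod.FE E (M * q * q)))) ∈ 𝔪 →
    ¬ (Through _ 𝔪 V₁ ∧ Through _ 𝔪 V₂) ∧ ¬ (Through _ 𝔪 V₁ ∧ Through _ 𝔪 V₃) ∧
      ¬ (Through _ 𝔪 V₂ ∧ Through _ 𝔪 V₃) := by
  have T := hTable P E M q w hstd V₁' V₂' V₁ V₂ V₃ W' W hobj
  have Vl := hVal P E M q w hstd V₁' V₂' V₁ V₂ V₃ W' W hobj
  have Sh := hSheet P E M q w hstd V₁' V₂' V₁ V₂ V₃ W' W hobj
  have hS := setting_of_std hstd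
  have hv := hobj.vzero'
  have c3 := T.comap_α₃
  have c5 := T.comap_β₂
  have c6 := T.comap_β₃
  rw [hv] at c3 c5 c6
  exact cusp_single_concrete w hS V₁' W' hobj.vinf' hobj.fricke' (x3E E M q) x3E_eq_xSq
    V₁ V₂ V₃ Sh.base₁ Sh.base₂ Sh.base₃ Vl.x_unit₁.2.2 Vl.x_unit₂.2.2 Vl.x_unit₃.2.2
    (chart_αi P E M q hstd.q_prime) (chart_βi P E M q hstd.q_prime)
    T.comap_α₁ T.comap_α₂ c3 T.comap_β₁ c5 c6

/-- **`Mod3.LeafInc`** from the leaves TABLE, CHART, QEP, VAL, SHEET, NR. -/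
theorem leafInc (hTable : LeafTable) (hChart : LeafChart) (hQep : LeafQep)
    (hVal : LeafVal) (hSheet : LeafSheet) (hNR : LeafNR) : LeafInc := by
  intro P E M q _ _ _ w hstd V₁' V₂' V₁ V₂ V₃ W' W hobj
  have D := chartInc_of_leaves hTable hChart hQep hVal hSheet hNR w hstd V₁' V₂' V₁ V₂ V₃ W' W
    hobj
  exact
    { incidence := fun 𝔪 h𝔪 h => D.incidence 𝔪 h𝔪.isPrime h
      cusp_single := cuspSingle_of_leaves hTable hVal hSheet w hstd V₁' V₂' V₁ V₂ V₃ W' W hobj }

/-- **`Mod3.LeafUniq`** from the leaves TABLE, CHART, QEP, VAL, SHEET, NR. -/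
theorem leafUniq (hTable : LeafTable) (hChart : LeafChart) (hQep : LeafQep)
    (hVal : LeafVal) (hSheet : LeafSheet) (hNR : LeafNR) : LeafUniq := by
  intro P E M q _ _ _ w hstd V₁' V₂' V₁ V₂ V₃ W' W hobj
  have D := chartInc_of_leaves hTable hChart hQep hVal hSheet hNR w hstd V₁' V₂' V₁ V₂ V₃ W' W
    hobj
  exact
    { unique_α := fun _ 𝔪 𝔪' h𝔪 h𝔪' ht h => D.unique_α 𝔪 𝔪' h𝔪 h𝔪' ht h
      unique_β := fun _ 𝔪 𝔪' h𝔪 h𝔪' ht h => D.unique_β 𝔪 𝔪' h𝔪 h𝔪' ht h }

end Concrete

end Fermat.Agent.S36.Mod3.H153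

end
end
-- ===== PACK-END S36/Mod3/H153/Leaves.lean

-- ===== PACK-BEGIN S36/H816/SymMid.lean
section







/-!
# S36 / MOD3-SYM, part 3 (helper816): the middle valuation and `β`

Levels `N' = M q` (`q ∤ M`) and `N = M q²`, `α = heckeAlphaBar E (M q) q`,
`β = heckeBetaBar E (M q) q : F_{N'} → F_N`.  `V₁ = V∞(N')`, `V₂ = V₁ ∘ W₁` (Fricke of level `N'`).

A valuation subring `Vm` of `F_N` is a **middle** valuation ring (`IsMid V₁ Vm`) if
`Vm.comap α = V₁` and `π = j_{q²} - j ∈ 𝔪_{Vm}`   (this is how `V_mid` is produced by the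
Eisenstein-split theorem of helper972: the extension of `V₁` with `j_{q²} ≡ j`).

* `IsMid.comap_beta` : `Vm.comap β = V₂`                        (table, row MID, column `β`);
* `IsMid.gen_cong`   : `j_{d q²} ≡ j_d mod 𝔪_{Vm}` for every `d ∣ M`;
* `IsMid.fricke`     : `IsMid V₁ (Vm ∘ W)`, `W` the Fricke involution of level `N`.
-/

set_option autoImplicit false
set_option linter.unusedSectionVars false
set_option linter.style.haveILetI false
set_option synthInstance.maxHeartbeats 400000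
set_option maxHeartbeats 1600000

noncomputable section

namespace Fermat.Agent.S36.H816

open ModularCurve HahnSeries Polynomial IntermediateField
open Fermat.Agent Fermat.Agent.A2.Mod Fermat.Agent.A2.H708 Fermat.Agent.S28

variable {P : ValuationSubring Qb} {E : IntermediateField ℚ Qb}

/-! ## Polar elements -/

section Polar

variable {N : ℕ}

theorem isPolar_one : A2.Mod.H13.IsPolar E N (1 : FE E N) 0 := by
  refine ⟨1, ⟨fun n hn => ?_, ?_⟩, ?_⟩
  · have hn' : n ≠ 0 := by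
      intro h
      rw [h] at hn
      simp at hn
    show (1 : LaurentSeries ℤ).coeff n = 0
    rw [HahnSeries.coeff_one, if_neg hn']
  · show (1 : LaurentSeries ℤ).coeff (-((0 : ℕ) : ℤ)) = 1
    simp
  · show ((1 : FE E N) : LaurentSeries E) = coeffEmb E (castQ 1)
    rw [map_one, map_one]
    rfl

theorem isPolar_pow {u : FE E N} {a : ℕ} (h : A2.Mod.H13.IsPolar E N u a) (n : ℕ) :
    A2.Mod.H13.IsPolar E N (u ^ n) (n * a) := by
  induction n with
  | zero => rw [pow_zero, Nat.zero_mul]; exact isPolar_one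
  | succ n ih =>
      rw [pow_succ, Nat.succ_mul]
      exact ih.mul h

theorem transcendental_jE (N : ℕ) (d : ℕ) [NeZero d] (hd : d ∣ N) :
    Transcendental E (jE E N d hd) := by
  refine A2.Mod.H816.transcendental_of_addVal_ne_zero (A2.Mod.H816.vInf E N)
    (fun c hc => A2.Mod.H816.vInf_algebraMap E _ hc) (a := -(d : ℤ)) ?_
    (A2.Mod.H816.vInf_jE E N d hd)
  have : (d : ℤ) ≠ 0 := by exact_mod_cast NeZero.ne d
  omega

end Polar

/-! ## Middle valuation rings -/

section Mid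

variable (E) (M q : ℕ) [NeZero M] [NeZero q]

/-- `π = j_{q²} - j` at level `M q²`. -/
def piMid : FE E (M * q * q) :=
  jE E (M * q * q) (q * q) (Dvd.intro_left M (mul_assoc M q q).symm) -
    jE E (M * q * q) 1 (one_dvd _)

variable {E M q}

/-- `Vm` is a middle valuation ring of level `M q²`: it lies over `V₁ = V∞(M q)` via `α` and
`j_{q²} ≡ j`. -/
structure IsMid (V₁ : ValuationSubring (FE E (M * q)))
    (Vm : ValuationSubring (FE E (M * q * q))) : Prop where
  comap_alpha : ∀ g : FE E (M * q), heckeAlphaBar E (M * q) q g ∈ Vm ↔ g ∈ V₁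
  pi_mem : piMid E M q ∈ Vm.nonunits

variable {w : RE P E} {V₁ : ValuationSubring (FE E (M * q))}
  {Vm : ValuationSubring (FE E (M * q * q))}

namespace IsMid

theorem alpha_nonunits (h : IsMid V₁ Vm) (g : FE E (M * q)) :
    heckeAlphaBar E (M * q) q g ∈ Vm.nonunits ↔ g ∈ V₁.nonunits :=
  mem_nonunits_iff_of_comap (heckeAlphaBar E (M * q) q : FE E (M * q) →+* FE E (M * q * q))
    h.comap_alpha g

/-- generators of level `M q` lie in `Vm`. -/
theorem jE_mem_of_dvd [IsDiscreteValuationRing (RE P E)] (h : IsMid V₁ Vm)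
    (hV₁ : IsVinf P E (M * q) V₁) (d : ℕ) [NeZero d] (hd : d ∣ M * q) :
    jE E (M * q * q) d (hd.trans (dvd_mul_right _ q)) ∈ Vm := by
  rw [← A2.Mod.H553.αE_jE E (M * q) q d hd]
  exact (h.comap_alpha _).mpr (jE_mem hV₁ d hd)

theorem natCast_mem (h : IsMid V₁ Vm) [IsDiscreteValuationRing (RE P E)]
    (hP : P.LiesOverPrime q) (hV₁ : IsVinf P E (M * q) V₁) :
    ((q : ℕ) : FE E (M * q * q)) ∈ Vm.nonunits := by
  have h1 := (h.alpha_nonunits ((q : ℕ) : FE E (M * q))).mpr (natCast_mem_nonunits hP hV₁)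
  rwa [map_natCast] at h1

/-- `j_{dq} ≡ j_d ^ q mod 𝔪_{Vm}` for `d ∣ M` (Kronecker on `V₁`, pushed by `α`). -/
theorem kronA [IsDiscreteValuationRing (RE P E)] (h : IsMid V₁ Vm) (hq : q.Prime)
    (hP : P.LiesOverPrime q) (hV₁ : IsVinf P E (M * q) V₁) (d : ℕ) [NeZero d] (hd : d ∣ M) :
    jE E (M * q * q) (d * q) ((mul_dvd_mul_right hd q).trans (dvd_mul_right _ q)) -
      (jE E (M * q * q) d ((hd.trans (dvd_mul_right M q)).trans (dvd_mul_right _ q))) ^ q
      ∈ Vm.nonunits := by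
  have h1 := kron_jE hq hP hV₁ d (hd.trans (dvd_mul_right M q)) (mul_dvd_mul_right hd q)
  have h2 := (h.alpha_nonunits _).mpr h1
  rw [map_sub, map_pow, A2.Mod.H553.αE_jE, A2.Mod.H553.αE_jE] at h2
  exact h2

/-- `j_{q²} ∈ Vm`. -/
theorem jqq_mem [IsDiscreteValuationRing (RE P E)] (h : IsMid V₁ Vm)
    (hV₁ : IsVinf P E (M * q) V₁) :
    jE E (M * q * q) (q * q) (Dvd.intro_left M (mul_assoc M q q).symm) ∈ Vm := by
  have h1 : jE E (M * q * q) (q * q) (Dvd.intro_left M (mul_assoc M q q).symm)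
      = piMid E M q + jE E (M * q * q) 1 (one_dvd _) := by
    rw [piMid]; ring
  rw [h1]
  exact Vm.add_mem _ _ (mem_of_mem_nonunits Vm h.pi_mem)
    (h.jE_mem_of_dvd hV₁ 1 (one_dvd _))

/-- `β x ≡ α (j ^ (q+1)) mod 𝔪_{Vm}`, `x = j j_q` the coordinate of level `M q`. -/
theorem beta_xE_sub [IsDiscreteValuationRing (RE P E)] (h : IsMid V₁ Vm) (hq : q.Prime)
    (hP : P.LiesOverPrime q) (hV₁ : IsVinf P E (M * q) V₁) :
    heckeBetaBar E (M * q) q (xE E M q) -
      heckeAlphaBar E (M * q) q ((jE E (M * q) 1 (one_dvd _)) ^ (q + 1)) ∈ Vm.nonunits := by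
  have hA := h.kronA hq hP hV₁ 1 (one_dvd M)
  have hπ := h.pi_mem
  rw [piMid] at hπ
  have e1 : heckeBetaBar E (M * q) q (xE E M q)
      = jE E (M * q * q) (1 * q) ((mul_dvd_mul_right (one_dvd M) q).trans (dvd_mul_right _ q)) *
        jE E (M * q * q) (q * q) (Dvd.intro_left M (mul_assoc M q q).symm) := by
    rw [xE, map_mul]
    have hb1 := A2.Mod.H553.βE_jE E (M * q) q 1 (one_dvd _)
    have hb2 := A2.Mod.H553.βE_jE E (M * q) q q (dvd_mul_left q M)
    rw [show heckeBetaBar E (M * q) q = βE E (M * q) q from rfl, hb1, hb2]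
  have e2 : heckeAlphaBar E (M * q) q ((jE E (M * q) 1 (one_dvd _)) ^ (q + 1))
      = (jE E (M * q * q) 1 (one_dvd _)) ^ q * jE E (M * q * q) 1 (one_dvd _) := by
    rw [map_pow, show heckeAlphaBar E (M * q) q = αE E (M * q) q from rfl,
      A2.Mod.H553.αE_jE E (M * q) q 1 (one_dvd _), pow_succ]
  rw [e1, e2]
  exact mul_sub_mul_mem_nonunits Vm
    (Vm.pow_mem (h.jE_mem_of_dvd hV₁ 1 (one_dvd _)) q) (h.jqq_mem hV₁) hA hπ

end IsMid

end Mid

/-! ## `Vm ∘ β` induces the Gauss valuation on `E(x)` -/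

section Gauss

variable {M q : ℕ} [NeZero M] [NeZero q]
variable {w : RE P E} {V₁ : ValuationSubring (FE E (M * q))}
  {Vm : ValuationSubring (FE E (M * q * q))}

theorem mem_nonunits_comap_iff {F F' : Type*} [Field F] [Field F'] (φ : F' →+* F)
    (V : ValuationSubring F) (g : F') : g ∈ (V.comap φ).nonunits ↔ φ g ∈ V.nonunits :=
  (mem_nonunits_iff_of_comap φ (fun _ => ValuationSubring.mem_comap.symm) g).symm

theorem beta_algebraMap_RE [IsDiscreteValuationRing (RE P E)] (r : RE P E) :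
    heckeBetaBar E (M * q) q (algebraMap (RE P E) (FE E (M * q)) r)
      = heckeAlphaBar E (M * q) q (algebraMap (RE P E) (FE E (M * q)) r) := by
  rw [A2.Mod.H13.algebraMap_RE_eq, AlgHom.commutes, AlgHom.commutes]

/-- `Vm.comap β` lies over `R_E`. -/
theorem IsMid.isOver_comap_beta [IsDiscreteValuationRing (RE P E)] (h : IsMid V₁ Vm)
    (hV₁ : IsVinf P E (M * q) V₁) :
    A2.H489.IsOver (RE P E)
      (Vm.comap (heckeBetaBar E (M * q) q : FE E (M * q) →+* FE E (M * q * q))) where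
  mem := fun r => by
    rw [ValuationSubring.mem_comap]
    have h1 : heckeBetaBar E (M * q) q (algebraMap (RE P E) (FE E (M * q)) r) ∈ Vm := by
      rw [beta_algebraMap_RE]
      exact (h.comap_alpha _).mpr ((A2.Mod.H13.isOver_of_isVinf hV₁).mem r)
    exact h1
  nonunit := fun r hr => by
    rw [mem_nonunits_comap_iff]
    have h1 : heckeBetaBar E (M * q) q (algebraMap (RE P E) (FE E (M * q)) r) ∈ Vm.nonunits := by
      rw [beta_algebraMap_RE]
      exact (h.alpha_nonunits _).mpr ((A2.Mod.H13.isOver_of_isVinf hV₁).nonunit r hr)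
    exact h1

/-- **`Vm ∘ β` induces the Gauss valuation on `E(x)`**, `x = j j_q`. -/
theorem IsMid.isGaussOver_comap_beta (h : IsMid V₁ Vm) (hS : Setting P E M q w)
    (hV₁ : IsVinf P E (M * q) V₁) :
    haveI := hS.dvr
    A2.H489.IsGaussOver (RE P E)
      (Vm.comap (heckeBetaBar E (M * q) q : FE E (M * q) →+* FE E (M * q * q)))
      (xE E M q) := by
  haveI := hS.dvr
  have hq := hS.q_prime
  have hP := hS.lies_over
  -- the polar element `u₀ = j ^ (q + 1)` and its Gauss property on `V₁`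
  set u₀ : FE E (M * q) := (jE E (M * q) 1 (one_dvd _)) ^ (q + 1) with hu₀
  have hpol : A2.Mod.H13.IsPolar E (M * q) u₀ (q + 1) := by
    have := isPolar_pow (A2.Mod.H13.isPolar_jE (E := E) (N := M * q) 1 (one_dvd _)) (q + 1)
    rwa [mul_one] at this
  have htr : Transcendental E u₀ :=
    (transcendental_jE (E := E) (M * q) 1 (one_dvd _)).pow (Nat.succ_pos q)
  have hG₀ : A2.H489.IsGaussOver (RE P E) V₁ u₀ :=
    A2.Mod.H13.isGaussOver_of_polar hV₁ hS.unif (NeZero.ne _) (Nat.succ_pos q) hpol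
      (A2.Mod.H13.transcendental_RE htr)
  have hx := h.beta_xE_sub hq hP hV₁
  have hαu : heckeAlphaBar E (M * q) q u₀ ∈ Vm := (h.comap_alpha _).mpr hG₀.mem
  have hβx : heckeBetaBar E (M * q) q (xE E M q) ∈ Vm := by
    have e : heckeBetaBar E (M * q) q (xE E M q)
        = (heckeBetaBar E (M * q) q (xE E M q) - heckeAlphaBar E (M * q) q u₀)
          + heckeAlphaBar E (M * q) q u₀ := by ring
    rw [e]
    exact Vm.add_mem _ _ (mem_of_mem_nonunits Vm hx) hαu
  refine ⟨h.isOver_comap_beta hV₁, ValuationSubring.mem_comap.mpr hβx, ?_⟩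
  intro p hp
  by_contra hne
  rw [mem_nonunits_comap_iff] at hp
  -- `aeval u₀ p` is a unit of `V₁`
  have h1 : aeval u₀ p ∉ V₁.nonunits := fun hmem => hne (hG₀.prim p hmem)
  have h2 : heckeAlphaBar E (M * q) q (aeval u₀ p) ∉ Vm.nonunits :=
    fun hmem => h1 ((h.alpha_nonunits _).mp hmem)
  have eα : heckeAlphaBar E (M * q) q (aeval u₀ p)
      = aeval (heckeAlphaBar E (M * q) q u₀) p :=
    (Polynomial.aeval_algHom_apply ((heckeAlphaBar E (M * q) q).restrictScalars (RE P E))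
      u₀ p).symm
  have eβ : heckeBetaBar E (M * q) q (aeval (xE E M q) p)
      = aeval (heckeBetaBar E (M * q) q (xE E M q)) p :=
    (Polynomial.aeval_algHom_apply ((heckeBetaBar E (M * q) q).restrictScalars (RE P E))
      (xE E M q) p).symm
  have hR : ∀ r : RE P E, algebraMap (RE P E) (FE E (M * q * q)) r ∈ Vm := by
    intro r
    have e : algebraMap (RE P E) (FE E (M * q * q)) r
        = heckeAlphaBar E (M * q) q (algebraMap (RE P E) (FE E (M * q)) r) := by
      rw [A2.Mod.H13.algebraMap_RE_eq, A2.Mod.H13.algebraMap_RE_eq, AlgHom.commutes]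
    rw [e]
    exact (h.comap_alpha _).mpr ((A2.Mod.H13.isOver_of_isVinf hV₁).mem r)
  have h3 := aeval_sub_aeval_mem_nonunits Vm hR hβx hαu hx p
  have hp' : (heckeBetaBar E (M * q) q : FE E (M * q) →+* FE E (M * q * q))
      (aeval (xE E M q) p) ∈ Vm.nonunits := hp
  have hp'' : aeval (heckeBetaBar E (M * q) q (xE E M q)) p ∈ Vm.nonunits := by
    rw [← eβ]
    exact hp'
  apply h2
  rw [eα]
  have e : aeval (heckeAlphaBar E (M * q) q u₀) p
      = aeval (heckeBetaBar E (M * q) q (xE E M q)) p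
        - (aeval (heckeBetaBar E (M * q) q (xE E M q)) p
            - aeval (heckeAlphaBar E (M * q) q u₀) p) := by ring
  rw [e]
  exact sub_mem_nonunits Vm hp'' h3

end Gauss

end Fermat.Agent.S36.H816

end

end
-- ===== PACK-END S36/H816/SymMid.lean

-- ===== PACK-BEGIN S36/H816/SymBeta.lean
section


/-!
# S36 / MOD3-SYM, part 4 (helper816): `V_mid ∘ β = V₀`, generator congruences, Fricke stability

* `IsMid.comap_beta_eq_or` : `Vm.comap β ∈ {V₁, V₂}` (two-extension theorem at level `M q`);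
* `IsMid.comap_beta`       : `Vm.comap β = V₂ = V₁ ∘ W₁`      (table, row MID, column `β`);
* `IsMid.gen_cong`         : `j_{d q²} ≡ j_d mod 𝔪_{Vm}`, `d ∣ M`;
* `IsMid.fricke`           : `IsMid V₁ (Vm ∘ W)`.
-/

set_option autoImplicit false
set_option linter.unusedSectionVars false
set_option linter.style.haveILetI false
set_option synthInstance.maxHeartbeats 400000
set_option maxHeartbeats 1600000

noncomputable section

namespace Fermat.Agent.S36.H816

open ModularCurve HahnSeries Polynomial IntermediateField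
open Fermat.Agent Fermat.Agent.A2.Mod Fermat.Agent.A2.H708 Fermat.Agent.S28

variable {P : ValuationSubring Qb} {E : IntermediateField ℚ Qb}
variable {M q : ℕ} [NeZero M] [NeZero q]
variable {w : RE P E} {V₁ : ValuationSubring (FE E (M * q))}
  {Vm : ValuationSubring (FE E (M * q * q))}

/-- **Two-extension theorem at level `M q`**, valuation form: a valuation subring of `F_{Mq}`
inducing the Gauss valuation on `E(x)` is `V∞` or `V₀`. -/
theorem eq_or_eq_of_isGaussOver (hS : Setting P E M q w)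
    (hV₁ : IsVinf P E (M * q) V₁) {W₁ : FE E (M * q) ≃ₐ[E] FE E (M * q)}
    (hW₁ : IsFricke E (M * q) W₁) {V' : ValuationSubring (FE E (M * q))}
    (hG' : haveI := hS.dvr; A2.H489.IsGaussOver (RE P E) V' (xE E M q)) :
    V' = V₁ ∨ V' = V₁.comap (W₁ : FE E (M * q) →+* FE E (M * q)) := by
  haveI := hS.dvr
  obtain ⟨htr, hfr, -⟩ := A2.Mod.H816.deg E M q hS.q_prime hS.q_not_dvd
  obtain ⟨b, c, hdvr, hT⟩ := A2.Mod.H13.twoExtHyp_of_leaves hS V₁ W₁ hV₁ hW₁
    (A2.Mod.H553.vzeroNe P E M q w) (A2.Mod.H816.deg E M q) (A2.Mod.H753.indInf P E M q w)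
    (A2.Mod.H753.indZero P E M q w)
  have hpos : 0 < Module.finrank (IntermediateField.adjoin E ({xE E M q} : Set (FE E (M * q))))
      (FE E (M * q)) := by
    rw [hfr]
    have h1 := A2.Mod.dedekindPsi_pos_of_ne_zero M (NeZero.ne M)
    positivity
  haveI hfin : FiniteDimensional (IntermediateField.adjoin E ({xE E M q} : Set (FE E (M * q))))
      (FE E (M * q)) := Module.finite_of_finrank_pos hpos
  have hG₁ := A2.Mod.H13.isGaussOver_xE hS.unif hV₁ htr
  have hover : A2.H489.IsOver (A2.H489.gaussRing E V₁ (xE E M q)) V' :=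
    { mem := fun a => (hG₁.mem_iff_mem (E := E) hG' (a : E⟮xE E M q⟯).2).mp a.2
      nonunit := fun a ha =>
        (hG₁.mem_nonunits_iff_mem (E := E) hG' (a : E⟮xE E M q⟯).2).mp
          ((A2.H489.mem_maximalIdeal_gaussRing a).mp ha) }
  exact hT.only hover

end Fermat.Agent.S36.H816

end

end
-- ===== PACK-END S36/H816/SymBeta.lean

-- ===== PACK-BEGIN S36/H816/SymTable.lean
section


/-!
# S36 / MOD3-SYM, part 5 (helper816): the `β` column of the middle row

Levels `N' = M q` (`q ∤ M`), `N = M q²`; `α = heckeAlphaBar E (M q) q`, `β = heckeBetaBar E (M q) q`;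
`V₁ = V∞(N')`, `V₂ = V₁ ∘ W₁`, `Vm` a middle valuation ring (`IsMid V₁ Vm`).

* `IsMid.comap_beta_eq_or` : `Vm.comap β ∈ {V₁, V₂}`   (two-extension theorem at level `M q`);
* `IsMid.comap_beta_ne`    : `Vm.comap β ≠ V₁`          (Kronecker unit);
* `IsMid.comap_beta`       : `β g ∈ Vm ↔ g ∈ V₂`        (table, row MID, column `β`);
* `IsMid.gen_cong`         : `j_{d q²} ≡ j_d mod 𝔪_{Vm}`, `d ∣ M`;
* `IsMid.fricke`           : `IsMid V₁ (Vm ∘ W₂)`, `W₂` the Fricke involution of level `M q²`.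
-/

set_option autoImplicit false
set_option linter.unusedSectionVars false
set_option linter.style.haveILetI false
set_option synthInstance.maxHeartbeats 400000
set_option maxHeartbeats 1600000

noncomputable section

namespace Fermat.Agent.S36.H816

open ModularCurve HahnSeries Polynomial IntermediateField
open Fermat.Agent Fermat.Agent.A2.Mod Fermat.Agent.A2.H708 Fermat.Agent.S28

variable {P : ValuationSubring Qb} {E : IntermediateField ℚ Qb}
variable {M q : ℕ} [NeZero M] [NeZero q]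
variable {w : RE P E} {V₁ : ValuationSubring (FE E (M * q))}
  {Vm : ValuationSubring (FE E (M * q * q))}

namespace IsMid

/-- `Vm.comap β` is `V∞` or `V₀` of level `M q`. -/
theorem comap_beta_eq_or (h : IsMid V₁ Vm) (hS : Setting P E M q w)
    (hV₁ : IsVinf P E (M * q) V₁) {W₁ : FE E (M * q) ≃ₐ[E] FE E (M * q)}
    (hW₁ : IsFricke E (M * q) W₁) :
    Vm.comap (heckeBetaBar E (M * q) q : FE E (M * q) →+* FE E (M * q * q)) = V₁ ∨
      Vm.comap (heckeBetaBar E (M * q) q : FE E (M * q) →+* FE E (M * q * q))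
        = V₁.comap (W₁ : FE E (M * q) →+* FE E (M * q)) :=
  eq_or_eq_of_isGaussOver hS hV₁ hW₁ (h.isGaussOver_comap_beta hS hV₁)

/-- `Vm.comap β ≠ V∞`: otherwise `j_q ^ q ≡ j` on `V∞`, contradicting the Kronecker unit. -/
theorem comap_beta_ne [IsDiscreteValuationRing (RE P E)] (h : IsMid V₁ Vm) (hq : q.Prime)
    (hP : P.LiesOverPrime q) (hV₁ : IsVinf P E (M * q) V₁) :
    Vm.comap (heckeBetaBar E (M * q) q : FE E (M * q) →+* FE E (M * q * q)) ≠ V₁ := by
  intro heq
  have hd1 : (1 : ℕ) ∣ M * q := one_dvd _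
  have hdq : 1 * q ∣ M * q := mul_dvd_mul_right (one_dvd M) q
  have h1 := kron_jE hq hP hV₁ 1 hd1 hdq
  rw [← heq, mem_nonunits_comap_iff] at h1
  have h2 : heckeBetaBar E (M * q) q (jE E (M * q) (1 * q) hdq - (jE E (M * q) 1 hd1) ^ q)
      ∈ Vm.nonunits := h1
  rw [map_sub, map_pow, show heckeBetaBar E (M * q) q = βE E (M * q) q from rfl,
    A2.Mod.H553.βE_jE E (M * q) q (1 * q) hdq, A2.Mod.H553.βE_jE E (M * q) q 1 hd1] at h2
  have hπ := h.pi_mem
  rw [piMid] at hπ
  have e1 : jE E (M * q * q) (1 * q * q) (mul_dvd_mul_right hdq q)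
      = jE E (M * q * q) (q * q) (Dvd.intro_left M (mul_assoc M q q).symm) :=
    jE_congr (M * q * q) (by rw [one_mul]) _ _
  rw [e1] at h2
  obtain ⟨hne, hinv⟩ := kron_unit_jE hq hV₁ 1 hd1 hdq
  have h3 : heckeAlphaBar E (M * q) q ((jE E (M * q) (1 * q) hdq) ^ q - jE E (M * q) 1 hd1)
      ∈ Vm.nonunits := by
    rw [map_sub, map_pow, show heckeAlphaBar E (M * q) q = αE E (M * q) q from rfl,
      A2.Mod.H553.αE_jE E (M * q) q (1 * q) hdq, A2.Mod.H553.αE_jE E (M * q) q 1 hd1]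
    have e : (jE E (M * q * q) (1 * q) (hdq.trans (dvd_mul_right _ q))) ^ q
          - jE E (M * q * q) 1 (hd1.trans (dvd_mul_right _ q))
        = (jE E (M * q * q) (q * q) (Dvd.intro_left M (mul_assoc M q q).symm)
            - jE E (M * q * q) 1 (one_dvd _))
          - (jE E (M * q * q) (q * q) (Dvd.intro_left M (mul_assoc M q q).symm)
            - (jE E (M * q * q) (1 * q) (mul_dvd_mul_right hd1 q)) ^ q) := by ring
    rw [e]
    exact sub_mem_nonunits Vm hπ h2
  have h4 := (h.alpha_nonunits _).mp h3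
  rw [ValuationSubring.mem_nonunits_iff_or] at h4
  rcases h4 with h4 | h4
  · exact hne h4
  · exact h4 hinv

/-- **Table, row MID, column `β`**: `Vm.comap β = V₀ = V∞ ∘ W₁` at level `M q`. -/
theorem comap_beta_eq (h : IsMid V₁ Vm) (hS : Setting P E M q w)
    (hV₁ : IsVinf P E (M * q) V₁) {W₁ : FE E (M * q) ≃ₐ[E] FE E (M * q)}
    (hW₁ : IsFricke E (M * q) W₁) :
    Vm.comap (heckeBetaBar E (M * q) q : FE E (M * q) →+* FE E (M * q * q))
      = V₁.comap (W₁ : FE E (M * q) →+* FE E (M * q)) := by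
  haveI := hS.dvr
  rcases h.comap_beta_eq_or hS hV₁ hW₁ with h1 | h1
  · exact absurd h1 (h.comap_beta_ne hS.q_prime hS.lies_over hV₁)
  · exact h1

theorem comap_beta (h : IsMid V₁ Vm) (hS : Setting P E M q w)
    (hV₁ : IsVinf P E (M * q) V₁) {W₁ : FE E (M * q) ≃ₐ[E] FE E (M * q)}
    (hW₁ : IsFricke E (M * q) W₁) (g : FE E (M * q)) :
    heckeBetaBar E (M * q) q g ∈ Vm ↔ W₁ g ∈ V₁ := by
  have h1 := h.comap_beta_eq hS hV₁ hW₁
  have h2 : g ∈ Vm.comap (heckeBetaBar E (M * q) q : FE E (M * q) →+* FE E (M * q * q))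
      ↔ g ∈ V₁.comap (W₁ : FE E (M * q) →+* FE E (M * q)) := by rw [h1]
  rw [ValuationSubring.mem_comap, ValuationSubring.mem_comap] at h2
  exact h2

theorem beta_nonunits (h : IsMid V₁ Vm) (hS : Setting P E M q w)
    (hV₁ : IsVinf P E (M * q) V₁) {W₁ : FE E (M * q) ≃ₐ[E] FE E (M * q)}
    (hW₁ : IsFricke E (M * q) W₁) (g : FE E (M * q)) :
    heckeBetaBar E (M * q) q g ∈ Vm.nonunits ↔ W₁ g ∈ V₁.nonunits := by
  have h1 := h.comap_beta_eq hS hV₁ hW₁
  have h2 : g ∈ (Vm.comap (heckeBetaBar E (M * q) q : FE E (M * q) →+* FE E (M * q * q))).nonunits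
      ↔ g ∈ (V₁.comap (W₁ : FE E (M * q) →+* FE E (M * q))).nonunits := by rw [h1]
  rw [mem_nonunits_comap_iff, mem_nonunits_comap_iff] at h2
  exact h2

/-- `j_{d q} ≡ j_{d q²} ^ q mod 𝔪_{Vm}` for `d ∣ M` (Kronecker on `V₀ = V∞ ∘ W₁`, pushed by `β`). -/
theorem kronB (h : IsMid V₁ Vm) (hS : Setting P E M q w)
    (hV₁ : IsVinf P E (M * q) V₁) {W₁ : FE E (M * q) ≃ₐ[E] FE E (M * q)}
    (hW₁ : IsFricke E (M * q) W₁) (d : ℕ) [NeZero d] (hd : d ∣ M) :
    jE E (M * q * q) (d * q) ((mul_dvd_mul_right hd q).trans (dvd_mul_right _ q)) -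
      (jE E (M * q * q) (d * q * q) (mul_dvd_mul_right (mul_dvd_mul_right hd q) q)) ^ q
      ∈ Vm.nonunits := by
  haveI := hS.dvr
  obtain ⟨e, he⟩ := hd
  have he0 : e ≠ 0 := by
    rintro rfl
    exact NeZero.ne M (by rw [he, mul_zero])
  haveI : NeZero e := ⟨he0⟩
  have hdM : d ∣ M := ⟨e, he⟩
  have heM : e ∣ M := ⟨d, by rw [he, mul_comm]⟩
  have hd1 : d ∣ M * q := hdM.trans (dvd_mul_right M q)
  have hd2 : d * q ∣ M * q := mul_dvd_mul_right hdM q
  have he1 : e ∣ M * q := heM.trans (dvd_mul_right M q)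
  have he2 : e * q ∣ M * q := mul_dvd_mul_right heM q
  have hk := kron_jE hS.q_prime hS.lies_over hV₁ e he1 he2
  have hw1 : W₁ (jE E (M * q) d hd1) = jE E (M * q) (e * q) he2 :=
    hW₁.1 d (e * q) hd1 he2 (by rw [he]; ring)
  have hw2 : W₁ (jE E (M * q) (d * q) hd2) = jE E (M * q) e he1 :=
    hW₁.1 (d * q) e hd2 he1 (by rw [he]; ring)
  have h1 : W₁ (jE E (M * q) d hd1 - (jE E (M * q) (d * q) hd2) ^ q) ∈ V₁.nonunits := by
    rw [map_sub, map_pow, hw1, hw2]
    exact hk
  have h2 := (h.beta_nonunits hS hV₁ hW₁ _).mpr h1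
  rw [map_sub, map_pow, show heckeBetaBar E (M * q) q = βE E (M * q) q from rfl,
    A2.Mod.H553.βE_jE E (M * q) q d hd1, A2.Mod.H553.βE_jE E (M * q) q (d * q) hd2] at h2
  exact h2

/-- `j_{d q²} ∈ Vm` for `d ∣ M`. -/
theorem jE_mem_qq (h : IsMid V₁ Vm) (hS : Setting P E M q w)
    (hV₁ : IsVinf P E (M * q) V₁) {W₁ : FE E (M * q) ≃ₐ[E] FE E (M * q)}
    (hW₁ : IsFricke E (M * q) W₁) (d : ℕ) [NeZero d] (hd : d ∣ M) :
    jE E (M * q * q) (d * q * q) (mul_dvd_mul_right (mul_dvd_mul_right hd q) q) ∈ Vm := by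
  haveI := hS.dvr
  obtain ⟨e, he⟩ := hd
  have he0 : e ≠ 0 := by
    rintro rfl
    exact NeZero.ne M (by rw [he, mul_zero])
  haveI : NeZero e := ⟨he0⟩
  have hdM : d ∣ M := ⟨e, he⟩
  have heM : e ∣ M := ⟨d, by rw [he, mul_comm]⟩
  have hd2 : d * q ∣ M * q := mul_dvd_mul_right hdM q
  have he1 : e ∣ M * q := heM.trans (dvd_mul_right M q)
  have hw2 : W₁ (jE E (M * q) (d * q) hd2) = jE E (M * q) e he1 :=
    hW₁.1 (d * q) e hd2 he1 (by rw [he]; ring)
  have h1 : W₁ (jE E (M * q) (d * q) hd2) ∈ V₁ := by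
    rw [hw2]
    exact jE_mem hV₁ e he1
  have h2 := (h.comap_beta hS hV₁ hW₁ _).mpr h1
  rw [show heckeBetaBar E (M * q) q = βE E (M * q) q from rfl,
    A2.Mod.H553.βE_jE E (M * q) q (d * q) hd2] at h2
  exact h2

/-- **Generator congruences** on a middle valuation ring: `j_{d q²} ≡ j_d mod 𝔪_{Vm}`, `d ∣ M`. -/
theorem gen_cong (h : IsMid V₁ Vm) (hS : Setting P E M q w)
    (hV₁ : IsVinf P E (M * q) V₁) {W₁ : FE E (M * q) ≃ₐ[E] FE E (M * q)}
    (hW₁ : IsFricke E (M * q) W₁) (d : ℕ) [NeZero d] (hd : d ∣ M) :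
    jE E (M * q * q) (d * q * q) (mul_dvd_mul_right (mul_dvd_mul_right hd q) q) -
      jE E (M * q * q) d ((hd.trans (dvd_mul_right M q)).trans (dvd_mul_right _ q))
      ∈ Vm.nonunits := by
  haveI := hS.dvr
  have hA := h.kronA hS.q_prime hS.lies_over hV₁ d hd
  have hB := h.kronB hS hV₁ hW₁ d hd
  have hx := h.jE_mem_qq hS hV₁ hW₁ d hd
  have hy := h.jE_mem_of_dvd hV₁ d (hd.trans (dvd_mul_right M q))
  refine sub_mem_nonunits_of_pow Vm hS.q_prime (h.natCast_mem hS.lies_over hV₁) hx hy ?_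
  have e : (jE E (M * q * q) (d * q * q) (mul_dvd_mul_right (mul_dvd_mul_right hd q) q)) ^ q
        - (jE E (M * q * q) d ((hd.trans (dvd_mul_right M q)).trans (dvd_mul_right _ q))) ^ q
      = (jE E (M * q * q) (d * q) ((mul_dvd_mul_right hd q).trans (dvd_mul_right _ q))
          - (jE E (M * q * q) d ((hd.trans (dvd_mul_right M q)).trans (dvd_mul_right _ q))) ^ q)
        - (jE E (M * q * q) (d * q) ((mul_dvd_mul_right hd q).trans (dvd_mul_right _ q))
          - (jE E (M * q * q) (d * q * q)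
              (mul_dvd_mul_right (mul_dvd_mul_right hd q) q)) ^ q) := by ring
  rw [e]
  exact sub_mem_nonunits Vm hA hB

/-- **Fricke stability** of the middle row: `Vm ∘ W₂` is again a middle valuation ring. -/
theorem fricke (h : IsMid V₁ Vm) (hS : Setting P E M q w)
    (hV₁ : IsVinf P E (M * q) V₁) {W₁ : FE E (M * q) ≃ₐ[E] FE E (M * q)}
    (hW₁ : IsFricke E (M * q) W₁) {W₂ : FE E (M * q * q) ≃ₐ[E] FE E (M * q * q)}
    (hW₂ : IsFricke E (M * q * q) W₂) :
    IsMid V₁ (Vm.comap (W₂ : FE E (M * q * q) →+* FE E (M * q * q))) where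
  comap_alpha := fun g => by
    rw [ValuationSubring.mem_comap]
    have h1 := (A2.Mod.H553.frickeCompat E (M * q) q W₁ W₂ hW₁ hW₂ g).1
    have h2 : (W₂ : FE E (M * q * q) →+* FE E (M * q * q)) (heckeAlphaBar E (M * q) q g)
        = heckeBetaBar E (M * q) q (W₁ g) := h1
    rw [h2, h.comap_beta hS hV₁ hW₁, hW₁.2]
  pi_mem := by
    rw [mem_nonunits_comap_iff]
    have hM : M ≠ 0 := NeZero.ne M
    have hdM : M ∣ M * q * q := ⟨q * q, by ring⟩
    have hdN : M * q * q ∣ M * q * q := dvd_rfl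
    have hw1 : W₂ (jE E (M * q * q) (q * q) (Dvd.intro_left M (mul_assoc M q q).symm))
        = jE E (M * q * q) M hdM :=
      hW₂.1 (q * q) M _ hdM (by ring)
    have hw2 : W₂ (jE E (M * q * q) 1 (one_dvd _)) = jE E (M * q * q) (M * q * q) hdN :=
      hW₂.1 1 (M * q * q) _ hdN (by ring)
    have h1 : (W₂ : FE E (M * q * q) →+* FE E (M * q * q)) (piMid E M q)
        = jE E (M * q * q) M hdM - jE E (M * q * q) (M * q * q) hdN := by
      show W₂ (piMid E M q) = _
      rw [piMid, map_sub, hw1, hw2]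
    rw [h1]
    have h2 := h.gen_cong hS hV₁ hW₁ M dvd_rfl
    have e : jE E (M * q * q) M hdM - jE E (M * q * q) (M * q * q) hdN
        = -(jE E (M * q * q) (M * q * q) (mul_dvd_mul_right (mul_dvd_mul_right dvd_rfl q) q)
            - jE E (M * q * q) M
              (((dvd_refl M).trans (dvd_mul_right M q)).trans (dvd_mul_right _ q))) := by ring
    rw [e]
    exact neg_mem_nonunits _ h2

end IsMid

end Fermat.Agent.S36.H816

end

end
-- ===== PACK-END S36/H816/SymTable.lean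

-- ===== PACK-BEGIN S36/H816/SymDich.lean
section



/-!
# S36 / MOD3-SYM, part 6 (helper816): the middle valuation ring from `mid` and `mid_ne`

`Vm` a valuation subring of `F_{M q²}` with `Vm.comap α = V₁ = V∞(M q)`.

* `kron_dichotomy` : `j_{q²} ^ q ≡ j_q` or `j_{q²} ≡ j_q ^ q` modulo `𝔪_{Vm}` (Kronecker congruence
  `Φ_q(X, Y) ≡ (Y^q - X)(Y - X^q) mod q`);
* `isGaussOver_comap_beta_of_cong` : `Vm.comap β` induces the Gauss valuation on `E(x')`, `x' = j j_q`,
  as soon as `β x' ≡ α u₀` for a polar `u₀`;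
* `isMid_of_ne` : if `Vm ≠ V∞(M q²)` then `j_{q²} ≡ j`, i.e. `IsMid V₁ Vm`
  (uniqueness `h83_beta_unique` of helper83 for the first alternative).
-/

set_option autoImplicit false
set_option linter.unusedSectionVars false
set_option linter.style.haveILetI false
set_option synthInstance.maxHeartbeats 400000
set_option maxHeartbeats 1600000

noncomputable section

namespace Fermat.Agent.S36.H816

open ModularCurve HahnSeries Polynomial IntermediateField
open Fermat.Agent Fermat.Agent.A2.Mod Fermat.Agent.A2.H708 Fermat.Agent.S28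

variable {P : ValuationSubring Qb} {E : IntermediateField ℚ Qb}
variable {M q : ℕ} [NeZero M] [NeZero q]
variable {w : RE P E} {V₁ : ValuationSubring (FE E (M * q))}
  {Vm : ValuationSubring (FE E (M * q * q))}

/-! ## Facts using `Vm.comap α = V₁` only -/

section OverAlpha

theorem alpha_nonunits_of_comap
    (hcα : ∀ g : FE E (M * q), heckeAlphaBar E (M * q) q g ∈ Vm ↔ g ∈ V₁) (g : FE E (M * q)) :
    heckeAlphaBar E (M * q) q g ∈ Vm.nonunits ↔ g ∈ V₁.nonunits :=
  mem_nonunits_iff_of_comap (heckeAlphaBar E (M * q) q : FE E (M * q) →+* FE E (M * q * q))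
    hcα g

theorem jE_mem_of_comap [IsDiscreteValuationRing (RE P E)]
    (hcα : ∀ g : FE E (M * q), heckeAlphaBar E (M * q) q g ∈ Vm ↔ g ∈ V₁)
    (hV₁ : IsVinf P E (M * q) V₁) (d : ℕ) [NeZero d] (hd : d ∣ M * q) :
    jE E (M * q * q) d (hd.trans (dvd_mul_right _ q)) ∈ Vm := by
  rw [← A2.Mod.H553.αE_jE E (M * q) q d hd]
  exact (hcα _).mpr (jE_mem hV₁ d hd)

theorem natCast_mem_of_comap [IsDiscreteValuationRing (RE P E)]
    (hcα : ∀ g : FE E (M * q), heckeAlphaBar E (M * q) q g ∈ Vm ↔ g ∈ V₁)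
    (hP : P.LiesOverPrime q) (hV₁ : IsVinf P E (M * q) V₁) :
    ((q : ℕ) : FE E (M * q * q)) ∈ Vm.nonunits := by
  have h1 := (alpha_nonunits_of_comap hcα ((q : ℕ) : FE E (M * q))).mpr
    (natCast_mem_nonunits hP hV₁)
  rwa [map_natCast] at h1

/-- `j_{dq} ≡ j_d ^ q mod 𝔪_{Vm}` for `d ∣ M`. -/
theorem kronA_of_comap [IsDiscreteValuationRing (RE P E)]
    (hcα : ∀ g : FE E (M * q), heckeAlphaBar E (M * q) q g ∈ Vm ↔ g ∈ V₁) (hq : q.Prime)
    (hP : P.LiesOverPrime q) (hV₁ : IsVinf P E (M * q) V₁) (d : ℕ) [NeZero d] (hd : d ∣ M) :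
    jE E (M * q * q) (d * q) ((mul_dvd_mul_right hd q).trans (dvd_mul_right _ q)) -
      (jE E (M * q * q) d ((hd.trans (dvd_mul_right M q)).trans (dvd_mul_right _ q))) ^ q
      ∈ Vm.nonunits := by
  have h1 := kron_jE hq hP hV₁ d (hd.trans (dvd_mul_right M q)) (mul_dvd_mul_right hd q)
  have h2 := (alpha_nonunits_of_comap hcα _).mpr h1
  rw [map_sub, map_pow, A2.Mod.H553.αE_jE, A2.Mod.H553.αE_jE] at h2
  exact h2

/-- `Vm.comap β` lies over `R_E`. -/
theorem isOver_comap_beta_of_comap [IsDiscreteValuationRing (RE P E)]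
    (hcα : ∀ g : FE E (M * q), heckeAlphaBar E (M * q) q g ∈ Vm ↔ g ∈ V₁)
    (hV₁ : IsVinf P E (M * q) V₁) :
    A2.H489.IsOver (RE P E)
      (Vm.comap (heckeBetaBar E (M * q) q : FE E (M * q) →+* FE E (M * q * q))) where
  mem := fun r => by
    rw [ValuationSubring.mem_comap]
    have h1 : heckeBetaBar E (M * q) q (algebraMap (RE P E) (FE E (M * q)) r) ∈ Vm := by
      rw [beta_algebraMap_RE]
      exact (hcα _).mpr ((A2.Mod.H13.isOver_of_isVinf hV₁).mem r)
    exact h1
  nonunit := fun r hr => by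
    rw [mem_nonunits_comap_iff]
    have h1 : heckeBetaBar E (M * q) q (algebraMap (RE P E) (FE E (M * q)) r) ∈ Vm.nonunits := by
      rw [beta_algebraMap_RE]
      exact (alpha_nonunits_of_comap hcα _).mpr
        ((A2.Mod.H13.isOver_of_isVinf hV₁).nonunit r hr)
    exact h1

/-- **`Vm ∘ β` induces the Gauss valuation on `E(x')`** as soon as `β x' ≡ α u₀ mod 𝔪_{Vm}` for a
polar transcendental `u₀`. -/
theorem isGaussOver_comap_beta_of_cong
    (hcα : ∀ g : FE E (M * q), heckeAlphaBar E (M * q) q g ∈ Vm ↔ g ∈ V₁)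
    (hS : Setting P E M q w) (hV₁ : IsVinf P E (M * q) V₁)
    {u₀ : FE E (M * q)} {a : ℕ} (ha : 0 < a) (hpol : A2.Mod.H13.IsPolar E (M * q) u₀ a)
    (htr : Transcendental E u₀)
    (hx : heckeBetaBar E (M * q) q (xE E M q) - heckeAlphaBar E (M * q) q u₀ ∈ Vm.nonunits) :
    haveI := hS.dvr
    A2.H489.IsGaussOver (RE P E)
      (Vm.comap (heckeBetaBar E (M * q) q : FE E (M * q) →+* FE E (M * q * q)))
      (xE E M q) := by
  haveI := hS.dvr
  have hG₀ : A2.H489.IsGaussOver (RE P E) V₁ u₀ :=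
    A2.Mod.H13.isGaussOver_of_polar hV₁ hS.unif (NeZero.ne _) ha hpol
      (A2.Mod.H13.transcendental_RE htr)
  have hαu : heckeAlphaBar E (M * q) q u₀ ∈ Vm := (hcα _).mpr hG₀.mem
  have hβx : heckeBetaBar E (M * q) q (xE E M q) ∈ Vm := by
    have e : heckeBetaBar E (M * q) q (xE E M q)
        = (heckeBetaBar E (M * q) q (xE E M q) - heckeAlphaBar E (M * q) q u₀)
          + heckeAlphaBar E (M * q) q u₀ := by ring
    rw [e]
    exact Vm.add_mem _ _ (mem_of_mem_nonunits Vm hx) hαu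
  refine ⟨isOver_comap_beta_of_comap hcα hV₁, ValuationSubring.mem_comap.mpr hβx, ?_⟩
  intro p hp
  by_contra hne
  rw [mem_nonunits_comap_iff] at hp
  have h1 : aeval u₀ p ∉ V₁.nonunits := fun hmem => hne (hG₀.prim p hmem)
  have h2 : heckeAlphaBar E (M * q) q (aeval u₀ p) ∉ Vm.nonunits :=
    fun hmem => h1 ((alpha_nonunits_of_comap hcα _).mp hmem)
  have eα : heckeAlphaBar E (M * q) q (aeval u₀ p)
      = aeval (heckeAlphaBar E (M * q) q u₀) p :=
    (Polynomial.aeval_algHom_apply ((heckeAlphaBar E (M * q) q).restrictScalars (RE P E))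
      u₀ p).symm
  have eβ : heckeBetaBar E (M * q) q (aeval (xE E M q) p)
      = aeval (heckeBetaBar E (M * q) q (xE E M q)) p :=
    (Polynomial.aeval_algHom_apply ((heckeBetaBar E (M * q) q).restrictScalars (RE P E))
      (xE E M q) p).symm
  have hR : ∀ r : RE P E, algebraMap (RE P E) (FE E (M * q * q)) r ∈ Vm := by
    intro r
    have e : algebraMap (RE P E) (FE E (M * q * q)) r
        = heckeAlphaBar E (M * q) q (algebraMap (RE P E) (FE E (M * q)) r) := by
      rw [A2.Mod.H13.algebraMap_RE_eq, A2.Mod.H13.algebraMap_RE_eq, AlgHom.commutes]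
    rw [e]
    exact (hcα _).mpr ((A2.Mod.H13.isOver_of_isVinf hV₁).mem r)
  have h3 := aeval_sub_aeval_mem_nonunits Vm hR hβx hαu hx p
  have hp' : (heckeBetaBar E (M * q) q : FE E (M * q) →+* FE E (M * q * q))
      (aeval (xE E M q) p) ∈ Vm.nonunits := hp
  have hp'' : aeval (heckeBetaBar E (M * q) q (xE E M q)) p ∈ Vm.nonunits := by
    rw [← eβ]
    exact hp'
  apply h2
  rw [eα]
  have e : aeval (heckeAlphaBar E (M * q) q u₀) p
      = aeval (heckeBetaBar E (M * q) q (xE E M q)) p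
        - (aeval (heckeBetaBar E (M * q) q (xE E M q)) p
            - aeval (heckeAlphaBar E (M * q) q u₀) p) := by ring
  rw [e]
  exact sub_mem_nonunits Vm hp'' h3

end OverAlpha

/-! ## The Kronecker dichotomy -/

section Dichotomy

theorem mul_mem_nonunits_or {F : Type*} [Field F] (V : ValuationSubring F) {x y : F}
    (h : x * y ∈ V.nonunits) : x ∈ V.nonunits ∨ y ∈ V.nonunits := by
  rw [ValuationSubring.mem_nonunits_iff] at h ⊢
  rw [ValuationSubring.mem_nonunits_iff]
  by_contra hcon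
  rw [not_or, not_lt, not_lt] at hcon
  rw [map_mul] at h
  exact absurd h (not_lt.mpr (one_le_mul_of_one_le_of_one_le hcon.1 hcon.2))

/-- `Φ_q(j_q, j_{q²}) = 0` in `F_N`, for any level `N` divisible by `q²`. -/
theorem modPoly_eval_jqq (Φ : ModPolyData q) (N : ℕ) (hd : q ∣ N)
    (hdd : q * q ∣ N) :
    Φ.Φ.eval₂ (Polynomial.aeval (R := ℤ) (jE E N q hd)).toRingHom (jE E N (q * q) hdd) = 0 := by
  apply Subtype.ext
  have h := Polynomial.hom_eval₂ Φ.Φ (Polynomial.aeval (R := ℤ) (jE E N q hd)).toRingHom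
    (algebraMap (FE E N) (LaurentSeries E)) (jE E N (q * q) hdd)
  have h2 : ((Polynomial.eval₂ (Polynomial.aeval (R := ℤ) (jE E N q hd)).toRingHom
      (jE E N (q * q) hdd) Φ.Φ : FE E N) : LaurentSeries E)
      = Polynomial.eval₂ ((algebraMap (FE E N) (LaurentSeries E)).comp
          (Polynomial.aeval (R := ℤ) (jE E N q hd)).toRingHom)
          ((jE E N (q * q) hdd : FE E N) : LaurentSeries E) Φ.Φ := h
  rw [h2, S36.H83.h83_coe_comp_aeval, S36.H83.h83_coe_jE, S36.H83.h83_coe_jE,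
    ← qExpand_qExpand]
  exact h88_modPoly_eval_jpp E q Φ

/-- **Kronecker dichotomy** in a valuation ring of `F_N` containing `j_q` and lying over `q`. -/
theorem kron_dichotomy_gen (hq : q.Prime) (N : ℕ) (hd : q ∣ N) (hdd : q * q ∣ N)
    (V : ValuationSubring (FE E N)) (hqV : ((q : ℕ) : FE E N) ∈ V.nonunits)
    (hj : jE E N q hd ∈ V) :
    (jE E N (q * q) hdd) ^ q - jE E N q hd ∈ V.nonunits ∨
      jE E N (q * q) hdd - (jE E N q hd) ^ q ∈ V.nonunits := by
  haveI : Fact q.Prime := ⟨hq⟩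
  obtain ⟨Φ⟩ := Fermat.Agent.S28.H807.nonempty_modPolyData q hq
  obtain ⟨Θ, hΘ⟩ := h88_kronecker_int q Φ
  set φ : Polynomial ℤ →+* FE E N := (Polynomial.aeval (R := ℤ) (jE E N q hd)).toRingHom with hφ
  have hφV : ∀ c : Polynomial ℤ, φ c ∈ V := fun c => S36.H83.h83_aeval_mem V hj c
  -- `j_{q²} ∈ V` (integrally closed)
  have hjj : jE E N (q * q) hdd ∈ V := by
    refine A2.H48.mem_of_monic_root V (Φ.monic.map φ) (fun i => ?_) ?_
    · rw [Polynomial.coeff_map]
      exact hφV _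
    · rw [Polynomial.eval_map]
      exact modPoly_eval_jqq Φ N hd hdd
  have h0 := modPoly_eval_jqq (E := E) Φ N hd hdd
  rw [← hφ, hΘ, Polynomial.eval₂_add, Polynomial.eval₂_mul, Polynomial.eval₂_mul,
    Polynomial.eval₂_sub, Polynomial.eval₂_sub, Polynomial.eval₂_pow, Polynomial.eval₂_X,
    Polynomial.eval₂_C, Polynomial.eval₂_C, Polynomial.eval₂_C] at h0
  have e1 : φ (Polynomial.X : Polynomial ℤ) = jE E N q hd := by
    rw [hφ]
    simp
  have e2 : φ ((Polynomial.X : Polynomial ℤ) ^ q) = (jE E N q hd) ^ q := by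
    rw [map_pow, e1]
  have e3 : φ (Polynomial.C ((q : ℕ) : ℤ)) = ((q : ℕ) : FE E N) := by
    rw [hφ]
    simp
  rw [e1, e2, e3] at h0
  have hΘV : Θ.eval₂ φ (jE E N (q * q) hdd) ∈ V :=
    A2.Mod.H378.eval₂_mem_subring φ _ V.toSubring hφV hjj Θ
  have hprod : ((jE E N (q * q) hdd) ^ q - jE E N q hd) *
      (jE E N (q * q) hdd - (jE E N q hd) ^ q) ∈ V.nonunits := by
    have e : ((jE E N (q * q) hdd) ^ q - jE E N q hd) *
        (jE E N (q * q) hdd - (jE E N q hd) ^ q)
        = -(((q : ℕ) : FE E N) * Θ.eval₂ φ (jE E N (q * q) hdd)) := by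
      linear_combination h0
    rw [e]
    exact neg_mem_nonunits V (mul_mem_nonunits_left V hqV hΘV)
  exact mul_mem_nonunits_or V hprod

end Dichotomy

/-! ## The middle valuation ring from `mid` and `mid_ne` -/

section MidOfNe

/-- **`π = j_{q²} - j ∈ 𝔪_{Vm}`** for every extension `Vm ≠ V∞` of `V∞(M q)` along `α`. -/
theorem pi_mem_of_ne
    (hcα : ∀ g : FE E (M * q), heckeAlphaBar E (M * q) q g ∈ Vm ↔ g ∈ V₁)
    (hS : Setting P E M q w) (hV₁ : IsVinf P E (M * q) V₁)
    {W₁ : FE E (M * q) ≃ₐ[E] FE E (M * q)} (hW₁ : IsFricke E (M * q) W₁)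
    {VN : ValuationSubring (FE E (M * q * q))} (hVN : IsVinf P E (M * q * q) VN)
    (hne : Vm ≠ VN) : piMid E M q ∈ Vm.nonunits := by
  haveI := hS.dvr
  have hq := hS.q_prime
  have hP := hS.lies_over
  have hqV := natCast_mem_of_comap hcα hP hV₁
  have hd1 : (1 : ℕ) ∣ M * q := one_dvd _
  have hdq : q ∣ M * q := dvd_mul_left q M
  have hdq1 : 1 * q ∣ M * q := mul_dvd_mul_right (one_dvd M) q
  have hdqq : q * q ∣ M * q * q := Dvd.intro_left M (mul_assoc M q q).symm
  -- the three generators at level `M q²`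
  set c : FE E (M * q * q) := jE E (M * q * q) 1 (one_dvd _) with hc
  set a : FE E (M * q * q) := jE E (M * q * q) q (hdq.trans (dvd_mul_right _ q)) with ha
  set b : FE E (M * q * q) := jE E (M * q * q) (q * q) hdqq with hb
  have hcV : c ∈ Vm := jE_mem_of_comap hcα hV₁ 1 hd1
  have haV : a ∈ Vm := jE_mem_of_comap hcα hV₁ q hdq
  have hA : a - c ^ q ∈ Vm.nonunits := by
    have h1 := kronA_of_comap hcα hq hP hV₁ 1 (one_dvd M)
    have e : jE E (M * q * q) (1 * q)
        ((mul_dvd_mul_right (one_dvd M) q).trans (dvd_mul_right _ q)) = a :=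
      jE_congr (M * q * q) (one_mul q) _ _
    rw [e] at h1
    exact h1
  have hbV : b ∈ Vm := by
    obtain ⟨Φ⟩ := Fermat.Agent.S28.H807.nonempty_modPolyData q hq
    refine A2.H48.mem_of_monic_root Vm
      (Φ.monic.map (Polynomial.aeval (R := ℤ) a).toRingHom) (fun i => ?_) ?_
    · rw [Polynomial.coeff_map]
      exact S36.H83.h83_aeval_mem Vm haV _
    · rw [Polynomial.eval_map]
      exact modPoly_eval_jqq Φ (M * q * q) _ hdqq
  have hπ : piMid E M q = b - c := rfl
  rw [hπ]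
  rcases kron_dichotomy_gen hq (M * q * q) (hdq.trans (dvd_mul_right _ q)) hdqq Vm hqV haV
    with h | h
  · -- `j_{q²} ^ q ≡ j_q ≡ j ^ q`
    refine sub_mem_nonunits_of_pow Vm hq hqV hbV hcV ?_
    have e : b ^ q - c ^ q = (b ^ q - a) + (a - c ^ q) := by ring
    rw [e]
    exact add_mem_nonunits Vm h hA
  · -- `j_{q²} ≡ j_q ^ q`: then `Vm = V∞`
    exfalso
    have hB : b - a ^ q ∈ Vm.nonunits := h
    -- Gauss property of `Vm.comap β`
    set u₀ : FE E (M * q) := (jE E (M * q) 1 hd1) ^ (q * (q + 1)) with hu₀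
    have hpos : 0 < q * (q + 1) := Nat.mul_pos hq.pos (Nat.succ_pos q)
    have hpol : A2.Mod.H13.IsPolar E (M * q) u₀ (q * (q + 1)) := by
      have := isPolar_pow (A2.Mod.H13.isPolar_jE (E := E) (N := M * q) 1 hd1) (q * (q + 1))
      rwa [mul_one] at this
    have htr : Transcendental E u₀ :=
      (transcendental_jE (E := E) (M * q) 1 hd1).pow hpos
    have hx : heckeBetaBar E (M * q) q (xE E M q) - heckeAlphaBar E (M * q) q u₀
        ∈ Vm.nonunits := by
      have e1 : heckeBetaBar E (M * q) q (xE E M q) = a * b := by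
        rw [xE, map_mul]
        have hb1 := A2.Mod.H553.βE_jE E (M * q) q 1 hd1
        have hb2 := A2.Mod.H553.βE_jE E (M * q) q q hdq
        rw [show heckeBetaBar E (M * q) q = βE E (M * q) q from rfl, hb1, hb2]
        congr 1
        exact jE_congr (M * q * q) (one_mul q) _ _
      have e2 : heckeAlphaBar E (M * q) q u₀ = c ^ q * (c ^ q) ^ q := by
        rw [hu₀, map_pow, show heckeAlphaBar E (M * q) q = αE E (M * q) q from rfl,
          A2.Mod.H553.αE_jE E (M * q) q 1 hd1]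
        rw [← pow_mul, ← _root_.pow_add]
        congr 1
        ring
      rw [e1, e2]
      refine mul_sub_mul_mem_nonunits Vm (Vm.pow_mem hcV q) hbV hA ?_
      have e : b - (c ^ q) ^ q = (b - a ^ q) + (a ^ q - (c ^ q) ^ q) := by ring
      rw [e]
      exact add_mem_nonunits Vm hB
        (pow_sub_pow_mem_nonunits Vm haV (Vm.pow_mem hcV q) hA q)
    have hG := isGaussOver_comap_beta_of_cong hcα hS hV₁ hpos hpol htr hx
    rcases eq_or_eq_of_isGaussOver hS hV₁ hW₁ hG with hU | hU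
    · -- `Vm.comap β = V∞(M q)`: uniqueness
      apply hne
      refine S36.H83.h83_beta_unique hS.dvr hS.unif hq hdq hV₁ hVN Vm (fun f => ?_)
      have h2 : f ∈ Vm.comap (heckeBetaBar E (M * q) q : FE E (M * q) →+* FE E (M * q * q))
          ↔ f ∈ V₁ := by rw [hU]
      rw [ValuationSubring.mem_comap] at h2
      exact h2
    · -- `Vm.comap β = V₀(M q)`: Kronecker unit
      have hg : jE E (M * q) (1 * q) hdq1 - (jE E (M * q) 1 hd1) ^ q
          ∈ (Vm.comap (heckeBetaBar E (M * q) q :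
              FE E (M * q) →+* FE E (M * q * q))).nonunits := by
        rw [mem_nonunits_comap_iff]
        have e : (heckeBetaBar E (M * q) q : FE E (M * q) →+* FE E (M * q * q))
            (jE E (M * q) (1 * q) hdq1 - (jE E (M * q) 1 hd1) ^ q) = b - a ^ q := by
          show heckeBetaBar E (M * q) q _ = _
          rw [map_sub, map_pow, show heckeBetaBar E (M * q) q = βE E (M * q) q from rfl,
            A2.Mod.H553.βE_jE E (M * q) q (1 * q) hdq1, A2.Mod.H553.βE_jE E (M * q) q 1 hd1]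
          congr 1
          · exact jE_congr (M * q * q) (by rw [one_mul]) _ _
          · congr 1
            exact jE_congr (M * q * q) (one_mul q) _ _
        rw [e]
        exact hB
      rw [hU, mem_nonunits_comap_iff] at hg
      have hdM : M ∣ M * q := dvd_mul_right M q
      have hdMq : M * q ∣ M * q := dvd_rfl
      have hw1 : W₁ (jE E (M * q) (1 * q) hdq1) = jE E (M * q) M hdM :=
        hW₁.1 (1 * q) M hdq1 hdM (by ring)
      have hw2 : W₁ (jE E (M * q) 1 hd1) = jE E (M * q) (M * q) hdMq :=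
        hW₁.1 1 (M * q) hd1 hdMq (by ring)
      have hg' : jE E (M * q) M hdM - (jE E (M * q) (M * q) hdMq) ^ q ∈ V₁.nonunits := by
        have e : (W₁ : FE E (M * q) →+* FE E (M * q))
            (jE E (M * q) (1 * q) hdq1 - (jE E (M * q) 1 hd1) ^ q)
            = jE E (M * q) M hdM - (jE E (M * q) (M * q) hdMq) ^ q := by
          show W₁ _ = _
          rw [map_sub, map_pow, hw1, hw2]
        rw [← e]
        exact hg
      obtain ⟨hne0, hinv⟩ := kron_unit_jE hq hV₁ M hdM hdMq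
      have hg'' : (jE E (M * q) (M * q) hdMq) ^ q - jE E (M * q) M hdM ∈ V₁.nonunits := by
        have e : (jE E (M * q) (M * q) hdMq) ^ q - jE E (M * q) M hdM
            = -(jE E (M * q) M hdM - (jE E (M * q) (M * q) hdMq) ^ q) := by ring
        rw [e]
        exact neg_mem_nonunits V₁ hg'
      rw [ValuationSubring.mem_nonunits_iff_or] at hg''
      rcases hg'' with h4 | h4
      · exact hne0 h4
      · exact h4 hinv

/-- **Every extension `Vm ≠ V∞` of `V∞(M q)` along `α` is a middle valuation ring.** -/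
theorem isMid_of_ne
    (hcα : ∀ g : FE E (M * q), heckeAlphaBar E (M * q) q g ∈ Vm ↔ g ∈ V₁)
    (hS : Setting P E M q w) (hV₁ : IsVinf P E (M * q) V₁)
    {W₁ : FE E (M * q) ≃ₐ[E] FE E (M * q)} (hW₁ : IsFricke E (M * q) W₁)
    {VN : ValuationSubring (FE E (M * q * q))} (hVN : IsVinf P E (M * q * q) VN)
    (hne : Vm ≠ VN) : IsMid V₁ Vm :=
  ⟨hcα, pi_mem_of_ne hcα hS hV₁ hW₁ hVN hne⟩

end MidOfNe

end Fermat.Agent.S36.H816

end

end
-- ===== PACK-END S36/H816/SymDich.lean

-- ===== PACK-BEGIN S36/Mod3/H816/Table.lean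
section



/-!
# S36 / MOD3 leaf TABLE (helper816): `leafTable : Mod3.LeafTable`

The six `comap` fields of `Eng.TripleCtx` for the concrete objects of `Mod3.Objs`:

* rows FF (`V₁ = V∞`) : Gauss integrality of `f(t) ↦ f(t)`, `f(t) ↦ f(t^q)`        (`SymBase`);
* rows VV (`V₃ = V∞ ∘ W`) : Fricke compatibility `W ∘ α = β ∘ W'`, `W ∘ β = α ∘ W'`  (`SymBase`);
* row MID, `α` : `Objs.mid`;
* row MID, `β` : `Objs.mid` + `Objs.mid_ne` ⟹ `j_{q²} ≡ j` (Kronecker dichotomy + uniqueness of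
  `V∞` over `β(V∞)`, helper83) ⟹ `V₂.comap β` is Gauss on `E(j j_q)`, hence `V∞` or `V₀`
  (two-extension theorem of level `M q`), and `V∞` is excluded by the Kronecker unit.
-/

set_option autoImplicit false
set_option linter.unusedSectionVars false
set_option linter.style.haveILetI false
set_option synthInstance.maxHeartbeats 400000
set_option maxHeartbeats 1600000

noncomputable section

namespace Fermat.Agent.S36.Mod3.H816

open ModularCurve
open Fermat.Agent Fermat.Agent.S36.H816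

/-- The standing hypotheses of MOD3 give the `Setting` of A2/Mod. -/
theorem setting_of_std {P : ValuationSubring A2.Qb} {E : IntermediateField ℚ A2.Qb} {M q : ℕ}
    [NeZero M] [NeZero q] [NeZero (M * q)] {w : A2.RE P E} (h : Mod3.Std P E M q w) :
    A2.Mod.Setting P E M q w :=
  ⟨h.q_prime, h.q_not_dvd, NeZero.ne M, h.lies_over, h.unram.1.dvr, h.unif⟩

/-- **MOD3 leaf TABLE.** -/
theorem leafTable : Mod3.LeafTable := by
  intro P E M q _ _ _ w hStd V₁' V₂' V₁ V₂ V₃ W' W hO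
  have hS : A2.Mod.Setting P E M q w := setting_of_std hStd
  haveI := hS.dvr
  have hcα : ∀ g : A2.Mod.FE E (M * q),
      heckeAlphaBar E (M * q) q g ∈ V₂ ↔ g ∈ V₁' := fun g => by
    have h := hO.mid
    have h2 : g ∈ V₂.comap (A2.Mod.αE E (M * q) q :
        A2.Mod.FE E (M * q) →+* A2.Mod.FE E (M * q * q)) ↔ g ∈ V₁' := by rw [h]
    rw [ValuationSubring.mem_comap] at h2
    exact h2
  have hmid : IsMid V₁' V₂ := isMid_of_ne hcα hS hO.vinf' hO.fricke' hO.vinf hO.mid_ne
  refine ⟨?_, hO.mid, ?_, ?_, ?_, ?_⟩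
  · ext g
    rw [ValuationSubring.mem_comap]
    exact alpha_mem_iff hO.vinf' hO.vinf g
  · rw [hO.vzero, hO.vzero']
    ext g
    rw [ValuationSubring.mem_comap]
    exact alpha_mem_comap_iff hO.vinf' hO.vinf hO.fricke' hO.fricke g
  · ext g
    rw [ValuationSubring.mem_comap]
    exact beta_mem_iff hO.vinf' hO.vinf g
  · rw [hO.vzero']
    exact hmid.comap_beta_eq hS hO.vinf' hO.fricke'
  · rw [hO.vzero, hO.vzero']
    ext g
    rw [ValuationSubring.mem_comap]
    exact beta_mem_comap_iff hO.vinf' hO.vinf hO.fricke' hO.fricke g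

end Fermat.Agent.S36.Mod3.H816

end

end
-- ===== PACK-END S36/Mod3/H816/Table.lean

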