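import Fermat.Agent.Pack.S36.E20L2
import Fermat.Agent.Pack.S36.E18L1
import Fermat.Agent.Pack.S36.E15L0
import Fermat.Agent.Pack.S36.E20L0
import Fermat.Agent.Pack.S36.E19L2
import Fermat.Agent.Pack.S36.E20L3
import Fermat.Agent.Pack.S36.E19L0
import Fermat.Agent.Pack.S36.E19L1
import Fermat.Agent.Pack.S36.E18L3
import Fermat.Agent.Pack.S36.E18L2
import Fermat.Agent.Pack.S36.E4L1
import Fermat.Agent.Pack.S36.E15L2
import Fermat.Agent.Pack.S36.E19L3

-- ===== PACK-BEGIN S36/Eng/Two.lean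
section




/-!
# S36 ENGINE — skeleton, part 3 (architect helper996): TWO leaves left

The leaves `InertiaFieldStatement` (UNR: helper189, `Eng/H189/Unr.lean`) and `DescPlugStatement`
(helper756, `H756/DescPlugCore.lean`) are theorems.  Hence

  `newPartInertia_of_alg3_model3 : Alg3Statement → Model3Statement → H36.NewPartInertiaStatement`,

i.e. the engine (N) of helper36's chain follows from ALG3 (abstract) and MOD3 (modular).
-/

set_option autoImplicit false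
set_option linter.style.haveILetI false

noncomputable section

namespace Fermat.Agent.S36.Eng

/-- **UNR** (helper189). -/
theorem inertiaFieldStatement : InertiaFieldStatement :=
  fun q hq P hP => H189.unramified_inertiaField q hq P hP

/-- **DESC plug** (helper756 + helper36). -/
theorem descPlugStatement : DescPlugStatement :=
  fun M q p _ _ _ hq _ hp hpq A _ h =>
    Fermat.Agent.S36.H756.qNewInertiaAt_of_levelEngine M q p hq hp hpq A h

/-- **The engine on `J₀(N q)`, `q ‖ N`, from ALG3 and MOD3.** -/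
theorem qNewInertia_of_alg3_model3 (hALG : Alg3Statement) (hMOD : Model3Statement) :
    H36.QNewInertiaStatement :=
  qNewInertia_of_leaves hALG hMOD inertiaFieldStatement descPlugStatement

/-- **The engine (N) of helper36's chain from ALG3 and MOD3.** -/
theorem newPartInertia_of_alg3_model3 (hALG : Alg3Statement) (hMOD : Model3Statement) :
    H36.NewPartInertiaStatement :=
  newPartInertia_of_leaves hALG hMOD inertiaFieldStatement descPlugStatement

end Fermat.Agent.S36.Eng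

end

end
-- ===== PACK-END S36/Eng/Two.lean

-- ===== PACK-BEGIN S36/Mod3/H928/OfReg.lean
section











/-!
# S36 / MOD3 — everything but REG (helper928, integrator)

`model3_of_reg : Mod3.LeafReg → Eng.Model3Statement`: all leaves of `Mod3/Spec.lean` except
`LeafReg` are proved on main and plugged in here:
`OBJ`, `VAL`, `TABLE`, `VT` (H370), `FF`, `FIN` (H439), `SHEET` (H985), `QEP` (H27),
`NORMAL` (H756), `NV`, `NR` (H657), `CHART` (H189), `INC`, `UNIQ` (H153).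
-/

set_option autoImplicit false

namespace Fermat.Agent.S36.Mod3.H928

open Fermat.Agent.S36.Eng Fermat.Agent.S36.Mod3

/-- **MOD3 modulo REG.** -/
theorem model3_of_reg (hReg : LeafReg) : Model3Statement :=
  have hObj : LeafObj := Mod3.H370.leafObj
  have hVal : LeafVal := Mod3.H370.leafVal
  have hVT : LeafVT := Mod3.H370.leafVT
  have hTab : LeafTable := Mod3.H370.leafTable
  have hSh : LeafSheet := Mod3.H985.leafSheet
  have hQep : LeafQep := Mod3.H27.leafQep_of_vt hVT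
  have hNor : LeafNormal := Mod3.H756.leafNormal_of hVT hVal hSh hTab
  have hNV : LeafNV := Mod3.H657.leafNV_of hVal hTab
  have hNR : LeafNR := Mod3.H657.leafNR_of hVal hTab
  have hCh : LeafChart := Mod3.H189.leafChart_of hVT hTab hVal
  model3_of_leaves hObj Mod3.H439.leafFF hVal hSh hQep hNor
    (Mod3.H153.leafInc hTab hCh hQep hVal hSh hNR) hReg Mod3.H439.leafFin
    hTab hNV hNR hCh (Mod3.H153.leafUniq hTab hCh hQep hVal hSh hNR)

end Fermat.Agent.S36.Mod3.H928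

end
-- ===== PACK-END S36/Mod3/H928/OfReg.lean

-- ===== PACK-BEGIN S36/Mod3/H27/RegMid4.lean
section





/-!
# MOD3 / REG, route R4 with `t₄`, CONCRETE, `q` odd (helper27): `PrincipalAt` on the middle
component of the finite chart

Mirror of helper890's `Reg9.lean` + `RegMid9.lean` (`q = 2`, Hauptmodul `t₉`) for `q` odd with the
Hauptmodul `t₄` of `Γ₀(4)` (`4 ∣ M` by `Eng.NeatFor`), on top of

* helper878 `RegSelf.lean`  (`principalAt_of_unit_self'`, PU-self from `Qep3`),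
* helper994 `Plug4.lean`    (`reg4_hres`: transfer of the residue from `j` to `t₄`, all Gauss
                             units discharged), `Chart4.lean` (`t₄`, `g₄ = t₄² (t₄ + 16)⁵` in charts),
* helper816 `IsMid.gen_cong` (FROB: `j_{d q²} ≡ j_d mod 𝔪_{V₂}`, `d ∣ M`).

`principalAt_mid_t4` : Concrete objects of `Mod3/Spec.lean` (`Std`, `Objs`), `4 ∣ M`, `q ≠ 2`.
Hypotheses = EXACTLY (R-U) + (R-RES) of LEAFREG PLAN v2 and `Qep3`, `chart ⊆ V_i`; conclusion: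
the middle component of the finite chart is principal at EVERY closed point through which it
passes (triple points included), generator `x = t₄(t^{q²}) - t₄`.

`principalAt_mid_t4_conc` : the same in the delivered shapes of (R-U) (helper356 `PartRegU`) and
(R-RES) (conclusion of helper922 `h922_hres_mid` at `M₁ = M q`, `V = V₂`); TEXTUALLY the
hypotheses of helper890's `principalAt_mid_t9_conc`.
-/

set_option autoImplicit false
set_option linter.style.haveILetI false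
set_option linter.unusedSectionVars false
set_option synthInstance.maxHeartbeats 400000
set_option maxHeartbeats 1600000

noncomputable section

namespace Fermat.Agent.S36.Mod3.H27

open ModularCurve
open Fermat.Agent Fermat.Agent.A2.Mod Fermat.Agent.S36.Eng
open Fermat.Agent.S18.H138 (chart)
open Fermat.Agent.S36.H816

/-! ## Generalities -/

/-- `q ∈ 𝔪_V`, `n` prime to `q` ⟹ `n⁻¹ ∈ V`. -/
theorem natCast_inv_mem_of_coprime27 {L : Type*} [Field L] (V : ValuationSubring L) {q n : ℕ}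
    (hq : ((q : ℕ) : L) ∈ V.nonunits) (hqn : Nat.Coprime q n) : ((n : ℕ) : L)⁻¹ ∈ V := by
  by_contra hn
  have hnV : ((n : ℕ) : L) ∈ V.nonunits := by
    rw [ValuationSubring.mem_nonunits_iff_or]
    by_cases h0 : ((n : ℕ) : L) = 0
    · exact Or.inl h0
    · exact Or.inr hn
  have h1 : (1 : L) = ((Nat.gcdA q n : ℤ) : L) * ((q : ℕ) : L)
      + ((Nat.gcdB q n : ℤ) : L) * ((n : ℕ) : L) := by
    have h := Nat.gcd_eq_gcd_ab q n
    rw [hqn] at h
    have h' := congrArg (fun z : ℤ => (z : L)) h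
    simp only [Nat.cast_one, Int.cast_one, Int.cast_add, Int.cast_mul, Int.cast_natCast] at h'
    rw [h']
    ring
  have h2 : (1 : L) ∈ V.nonunits := by
    rw [h1]
    exact add_mem_nonunits V (mul_mem_nonunits_right V (intCast_mem V _) hq)
      (mul_mem_nonunits_right V (intCast_mem V _) hnV)
  rw [ValuationSubring.mem_nonunits_iff, map_one] at h2
  exact lt_irrefl _ h2

/-- An element with an inverse does not lie in a proper ideal. -/
theorem not_mem_of_mul_eq_one27 {B : Type*} [CommRing B] {g g' : B} (h : g * g' = 1)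
    (𝔪 : Ideal B) (h𝔪 : 𝔪 ≠ ⊤) : g ∉ 𝔪 := by
  intro hg
  apply h𝔪
  rw [Ideal.eq_top_iff_one, ← h]
  exact 𝔪.mul_mem_right g' hg

/-! ## The map `γ = β ∘ β` on the generators -/

section Gamma

variable (E : IntermediateField ℚ A2.Qb) (M q : ℕ) [NeZero M] [NeZero q] [NeZero (M * q)]

theorem γ4_jE27 (d : ℕ) [NeZero d] (hd : d ∣ M) :
    haveI : NeZero (d * q * q) :=
      ⟨mul_ne_zero (mul_ne_zero (NeZero.ne d) (NeZero.ne q)) (NeZero.ne q)⟩
    Fermat.Agent.S36.H994.γ4 E M q (jE E M d hd)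
      = jE E (M * q * q) (d * q * q) (mul_dvd_mul_right (mul_dvd_mul_right hd q) q) := by
  haveI : NeZero (d * q) := ⟨mul_ne_zero (NeZero.ne d) (NeZero.ne q)⟩
  rw [Fermat.Agent.S36.H994.γ4_apply, H553.βE_jE E M q d hd,
    H553.βE_jE E (M * q) q (d * q)]

end Gamma

/-! ## The middle valuation ring -/

section Main

variable {P : ValuationSubring A2.Qb} {E : IntermediateField ℚ A2.Qb} {M q : ℕ}
  [NeZero M] [NeZero q] [NeZero (M * q)] {w : A2.RE P E}
  {V₁' V₂' : ValuationSubring (FE E (M * q))}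
  {V₁ V₂ V₃ : ValuationSubring (FE E (M * q * q))}
  {W' : FE E (M * q) ≃ₐ[E] FE E (M * q)}
  {W : FE E (M * q * q) ≃ₐ[E] FE E (M * q * q)}

/-- `Objs.V₂` is a middle valuation ring in the sense of helper816. -/
theorem isMid_of_objs27 (hStd : Mod3.Std P E M q w)
    (hO : Mod3.Objs P E M q V₁' V₂' V₁ V₂ V₃ W' W) : IsMid V₁' V₂ := by
  have hS : Setting P E M q w := Mod3.H816.setting_of_std hStd
  haveI := hS.dvr
  have hcα : ∀ g : FE E (M * q), heckeAlphaBar E (M * q) q g ∈ V₂ ↔ g ∈ V₁' := fun g => by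
    have h := hO.mid
    have h2 : g ∈ V₂.comap (αE E (M * q) q : FE E (M * q) →+* FE E (M * q * q)) ↔ g ∈ V₁' := by
      rw [h]
    rw [ValuationSubring.mem_comap] at h2
    exact h2
  exact isMid_of_ne hcα hS hO.vinf' hO.fricke' hO.vinf hO.mid_ne

/-- FROB on the middle component: `γ(j_d) ≡ φ(j_d) mod 𝔪_{V₂}` for `d ∣ M`. -/
theorem frob_mid27 (hStd : Mod3.Std P E M q w)
    (hO : Mod3.Objs P E M q V₁' V₂' V₁ V₂ V₃ W' W) (d : ℕ) [NeZero d] (hd : d ∣ M) :
    Fermat.Agent.S36.H994.γ4 E M q (jE E M d hd)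
      - Fermat.Agent.S36.H994.φ4 E M q (jE E M d hd) ∈ V₂.nonunits := by
  have hS : Setting P E M q w := Mod3.H816.setting_of_std hStd
  haveI := hS.dvr
  have hmid : IsMid V₁' V₂ := isMid_of_objs27 hStd hO
  rw [γ4_jE27, Fermat.Agent.S36.H994.φ4_jE]
  exact hmid.gen_cong hS hO.vinf' hO.fricke' d hd

/-- `2⁻¹ ∈ chart R S` at level `M q²` when `q` is odd. -/
theorem two_inv_mem_chart27 (hStd : Mod3.Std P E M q w) (hq2 : q ≠ 2)
    (S : Set (FE E (M * q * q))) :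
    (2 : FE E (M * q * q))⁻¹ ∈ _root_.Fermat.Agent.S18.H138.chart (A2.RE P E) S := by
  have hS : Setting P E M q w := Mod3.H816.setting_of_std hStd
  haveI := hS.dvr
  have hcop : Nat.Coprime q 2 := (Nat.coprime_primes hStd.q_prime Nat.prime_two).2 hq2
  have hP : ((2 : ℕ) : A2.Qb)⁻¹ ∈ P := natCast_inv_mem_of_coprime27 P hStd.lies_over hcop
  have hE : ((2 : E))⁻¹ ∈ A2.RE P E := by
    show algebraMap E A2.Qb ((2 : E))⁻¹ ∈ P
    rw [map_inv₀, map_ofNat]
    rwa [Nat.cast_ofNat] at hP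
  have h := Subalgebra.algebraMap_mem (_root_.Fermat.Agent.S18.H138.chart (A2.RE P E) S) (⟨(2 : E)⁻¹, hE⟩ : A2.RE P E)
  rw [H13.algebraMap_RE_eq] at h
  rwa [map_inv₀, map_ofNat] at h

/-- **MOD3 / REG, route R4 with `t₄`, concrete, `q` odd.**  With `4 ∣ M` (case `q ≠ 2` of
`NeatFor`), the middle component of the finite chart is principal at EVERY closed point through
which it passes, given (R-U) and (R-RES) of LEAFREG PLAN v2 (`U = U_m`, `6 kk = 12 (q - 1)`). -/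
theorem principalAt_mid_t4 (hStd : Mod3.Std P E M q w)
    (hO : Mod3.Objs P E M q V₁' V₂' V₁ V₂ V₃ W' W) (h4 : 4 ∣ M) (hq2 : q ≠ 2)
    (hB₁ : ∀ b : _root_.Fermat.Agent.S18.H138.chart (A2.RE P E) ({Mod3.x3E E M q} : Set (FE E (M * q * q))),
      (b : FE E (M * q * q)) ∈ V₁)
    (hB₂ : ∀ b : _root_.Fermat.Agent.S18.H138.chart (A2.RE P E) ({Mod3.x3E E M q} : Set (FE E (M * q * q))),
      (b : FE E (M * q * q)) ∈ V₂)
    (hB₃ : ∀ b : _root_.Fermat.Agent.S18.H138.chart (A2.RE P E) ({Mod3.x3E E M q} : Set (FE E (M * q * q))),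
      (b : FE E (M * q * q)) ∈ V₃)
    (hqep : Qep3 w (_root_.Fermat.Agent.S18.H138.chart (A2.RE P E) ({Mod3.x3E E M q} : Set (FE E (M * q * q)))) V₁ V₂ V₃)
    (𝔪 : Ideal (_root_.Fermat.Agent.S18.H138.chart (A2.RE P E) ({Mod3.x3E E M q} : Set (FE E (M * q * q)))))
    (h𝔪 : 𝔪 ≠ ⊤) (hthr : Through _ 𝔪 V₂)
    -- (R-U)
    (U d : _root_.Fermat.Agent.S18.H138.chart (A2.RE P E) ({Mod3.x3E E M q} : Set (FE E (M * q * q)))) (k kk : ℕ)
    (hkk : 0 < kk)
    (hUd : U * d = algebraMap (A2.RE P E) _ w ^ k)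
    (hU₁ : (U : FE E (M * q * q))⁻¹ ∈ V₁) (hU₃ : (U : FE E (M * q * q))⁻¹ ∈ V₃)
    (t : FE E (M * q * q)) (ht : UnifAt V₂ t)
    (hU₂ : UnitAt V₂ ((U : FE E (M * q * q)) * (t ^ (6 * kk))⁻¹))
    -- (R-RES)
    (hres : ((Mod3.jqq E M q - Mod3.j1 E M q) ^ (6 * kk)
        - (Mod3.j1 E M q ^ 4 * (Mod3.j1 E M q - 1728) ^ 3) ^ kk * (U : FE E (M * q * q)))
          * (U : FE E (M * q * q))⁻¹ ∈ V₂.nonunits) :
    PrincipalAt (_root_.Fermat.Agent.S18.H138.chart (A2.RE P E) ({Mod3.x3E E M q} : Set (FE E (M * q * q)))) 𝔪 V₂ := by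
  have hS : Setting P E M q w := Mod3.H816.setting_of_std hStd
  haveI := hS.dvr
  have h2 : 2 ∣ M := Dvd.dvd.trans (by norm_num) h4
  haveI : NeZero (1 * q * q) := ⟨mul_ne_zero (mul_ne_zero one_ne_zero (NeZero.ne q)) (NeZero.ne q)⟩
  haveI : NeZero (q * q) := ⟨mul_ne_zero (NeZero.ne q) (NeZero.ne q)⟩
  have hw0 : algebraMap (A2.RE P E) (FE E (M * q * q)) w ≠ 0 := by
    rw [H13.algebraMap_RE_eq]
    refine (map_ne_zero_iff _ (algebraMap E (FE E (M * q * q))).injective).mpr ?_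
    intro h
    exact hStd.unif.ne_zero (Subtype.ext h)
  -- FROB
  have c1 := frob_mid27 hStd hO 1 (one_dvd M)
  have c2 := frob_mid27 hStd hO 2 h2
  have c4 := frob_mid27 hStd hO 4 h4
  -- the two `j`s
  have eφ : Fermat.Agent.S36.H994.φ4 E M q (jE E M 1 (one_dvd M)) = Mod3.j1 E M q := by
    rw [Fermat.Agent.S36.H994.φ4_jE]
    rfl
  have eγ : Fermat.Agent.S36.H994.γ4 E M q (jE E M 1 (one_dvd M)) = Mod3.jqq E M q := by
    rw [γ4_jE27,
      jE_congr (M * q * q) (show 1 * q * q = q * q by rw [one_mul]) _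
        (Dvd.intro_left M (mul_assoc M q q).symm)]
    rfl
  -- transfer of the residue
  have hres4 := Fermat.Agent.S36.H994.reg4_hres hO.vinf' hO.mid h4 c1 c2 c4
    (U : FE E (M * q * q)) kk (by rw [eγ, eφ]; exact hres)
  -- chart membership
  have hj₁B := Mod3.H189.j1_mem_chart P E M q hStd.q_prime
  have hj₂B := Mod3.H189.jqq_mem_chart' P E M q hStd.q_prime
  have h2B := two_inv_mem_chart27 hStd hq2 ({Mod3.x3E E M q} : Set (FE E (M * q * q)))
  have hJ₁ : Mod3.j1 E M q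
        * (Fermat.Agent.S36.H994.φ4 E M q (Fermat.Agent.S36.H994.t4E E M h4) ^ 4
          * (Fermat.Agent.S36.H994.φ4 E M q (Fermat.Agent.S36.H994.t4E E M h4) + 16))
      = (Fermat.Agent.S36.H994.φ4 E M q (Fermat.Agent.S36.H994.t4E E M h4) ^ 2
          + 256 * Fermat.Agent.S36.H994.φ4 E M q (Fermat.Agent.S36.H994.t4E E M h4)
          + 4096) ^ 3 := by
    have h := congrArg (Fermat.Agent.S36.H994.φ4 E M q) (Fermat.Agent.S36.H994.jE_mul_t4E E M h4)
    simp only [map_mul, map_pow, map_add, map_ofNat] at h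
    rw [eφ] at h
    exact h
  have hJ₂ : Mod3.jqq E M q
        * (Fermat.Agent.S36.H994.γ4 E M q (Fermat.Agent.S36.H994.t4E E M h4) ^ 4
          * (Fermat.Agent.S36.H994.γ4 E M q (Fermat.Agent.S36.H994.t4E E M h4) + 16))
      = (Fermat.Agent.S36.H994.γ4 E M q (Fermat.Agent.S36.H994.t4E E M h4) ^ 2
          + 256 * Fermat.Agent.S36.H994.γ4 E M q (Fermat.Agent.S36.H994.t4E E M h4)
          + 4096) ^ 3 := by
    have h := congrArg (Fermat.Agent.S36.H994.γ4 E M q) (Fermat.Agent.S36.H994.jE_mul_t4E E M h4)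
    simp only [map_mul, map_pow, map_add, map_ofNat] at h
    rw [eγ] at h
    exact h
  have hh₁B := Fermat.Agent.S36.H994.mem_chart_of_rel4
    ({Mod3.x3E E M q} : Set (FE E (M * q * q))) hj₁B hJ₁
  have hh₂B := Fermat.Agent.S36.H994.mem_chart_of_rel4
    ({Mod3.x3E E M q} : Set (FE E (M * q * q))) hj₂B hJ₂
  -- the unit `g₄ ^ kk` of the chart
  have hgB : (Fermat.Agent.S36.H994.φ4 E M q (Fermat.Agent.S36.H994.t4E E M h4) ^ 2
      * (Fermat.Agent.S36.H994.φ4 E M q (Fermat.Agent.S36.H994.t4E E M h4) + 16) ^ 5) ^ kk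
      ∈ _root_.Fermat.Agent.S18.H138.chart (A2.RE P E) ({Mod3.x3E E M q} : Set (FE E (M * q * q))) :=
    pow_mem (Fermat.Agent.S36.H994.g4_mem_of_mem _ hh₁B) kk
  have hgB' : ((Fermat.Agent.S36.H994.φ4 E M q (Fermat.Agent.S36.H994.t4E E M h4) ^ 2
      * (Fermat.Agent.S36.H994.φ4 E M q (Fermat.Agent.S36.H994.t4E E M h4) + 16) ^ 5) ^ kk)⁻¹
      ∈ _root_.Fermat.Agent.S18.H138.chart (A2.RE P E) ({Mod3.x3E E M q} : Set (FE E (M * q * q))) :=
    Fermat.Agent.S36.H994.g4_pow_inv_mem_of_rel4 _ hj₁B hh₁B h2B hJ₁ kk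
  have hg0 : (Fermat.Agent.S36.H994.φ4 E M q (Fermat.Agent.S36.H994.t4E E M h4) ^ 2
      * (Fermat.Agent.S36.H994.φ4 E M q (Fermat.Agent.S36.H994.t4E E M h4) + 16) ^ 5) ^ kk ≠ 0 :=
    pow_ne_zero kk (Fermat.Agent.S36.H994.g4_ne_zero_of_rel4 hJ₁)
  have hgg' : (⟨_, hgB⟩ : _root_.Fermat.Agent.S18.H138.chart (A2.RE P E) ({Mod3.x3E E M q} : Set (FE E (M * q * q))))
      * ⟨_, hgB'⟩ = 1 := Subtype.ext (mul_inv_cancel₀ hg0)
  have hg := not_mem_of_mul_eq_one27 hgg' 𝔪 h𝔪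
  exact Fermat.Agent.S36.H878.principalAt_of_unit_self' w _ V₁ V₂ V₃ hw0 hB₁ hB₂ hB₃ hqep 𝔪 hthr
    ((⟨_, hh₂B⟩ : _root_.Fermat.Agent.S18.H138.chart (A2.RE P E) ({Mod3.x3E E M q} : Set (FE E (M * q * q)))) - ⟨_, hh₁B⟩)
    U d ⟨_, hgB⟩ k (6 * kk) (by omega) hUd hU₁ hU₃ t ht hU₂ hg hres4

/-- **The same in the delivered shapes** of (R-U) (helper356 `PartRegU`, `U₀ = U_m`) and (R-RES)
(helper922 `h922_hres_mid` at `M₁ = M q`, `V = V₂`): the finite half `regular_f` of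
`Mod3.PartReg` (middle disjunct) when `4 ∣ M`, `q ≠ 2`.  Hypotheses TEXTUALLY as in helper890's
`principalAt_mid_t9_conc`. -/
theorem principalAt_mid_t4_conc (hStd : Mod3.Std P E M q w)
    (hO : Mod3.Objs P E M q V₁' V₂' V₁ V₂ V₃ W' W) (h4 : 4 ∣ M) (hq2 : q ≠ 2)
    (hB₁ : ∀ b : _root_.Fermat.Agent.S18.H138.chart (A2.RE P E) ({Mod3.x3E E M q} : Set (FE E (M * q * q))),
      (b : FE E (M * q * q)) ∈ V₁)
    (hB₂ : ∀ b : _root_.Fermat.Agent.S18.H138.chart (A2.RE P E) ({Mod3.x3E E M q} : Set (FE E (M * q * q))),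
      (b : FE E (M * q * q)) ∈ V₂)
    (hB₃ : ∀ b : _root_.Fermat.Agent.S18.H138.chart (A2.RE P E) ({Mod3.x3E E M q} : Set (FE E (M * q * q))),
      (b : FE E (M * q * q)) ∈ V₃)
    (hqep : Qep3 w (_root_.Fermat.Agent.S18.H138.chart (A2.RE P E) ({Mod3.x3E E M q} : Set (FE E (M * q * q)))) V₁ V₂ V₃)
    (hunif : ∃ t : FE E (M * q * q), UnifAt V₂ t)
    -- (R-U)
    (U₀ : FE E (M * q * q)) (k : ℕ)
    (hpair : ∃ U d : _root_.Fermat.Agent.S18.H138.chart (A2.RE P E) ({Mod3.x3E E M q} : Set (FE E (M * q * q))),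
      (U : FE E (M * q * q)) = U₀ ∧ U * d = algebraMap (A2.RE P E) _ w ^ k)
    (hU₁ : U₀⁻¹ ∈ V₁) (hU₃ : U₀⁻¹ ∈ V₃)
    (hU₂ : ∀ t : FE E (M * q * q), UnifAt V₂ t → UnitAt V₂ (U₀ * (t ^ (12 * (q - 1)))⁻¹))
    -- (R-RES)
    (hqM : q ∣ M * q)
    (hres : ((βE E (M * q) q (jE E (M * q) q hqM)
          - αE E (M * q) q (jE E (M * q) 1 (one_dvd _))) ^ (12 * (q - 1))
        - αE E (M * q) q ((jE E (M * q) 1 (one_dvd _) ^ 4
            * (jE E (M * q) 1 (one_dvd _) - 1728) ^ 3) ^ (2 * (q - 1))) * U₀) * U₀⁻¹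
      ∈ V₂.nonunits)
    (𝔪 : Ideal (_root_.Fermat.Agent.S18.H138.chart (A2.RE P E) ({Mod3.x3E E M q} : Set (FE E (M * q * q)))))
    (h𝔪 : 𝔪.IsMaximal) (hthr : Through _ 𝔪 V₂) :
    PrincipalAt (_root_.Fermat.Agent.S18.H138.chart (A2.RE P E) ({Mod3.x3E E M q} : Set (FE E (M * q * q)))) 𝔪 V₂ := by
  obtain ⟨t, ht⟩ := hunif
  obtain ⟨U, d, hUeq, hUd⟩ := hpair
  have hq1 : 0 < 2 * (q - 1) := by
    have := hStd.q_prime.two_le
    omega
  have e6 : 6 * (2 * (q - 1)) = 12 * (q - 1) := by ring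
  haveI : NeZero (q * q) := ⟨mul_ne_zero (NeZero.ne q) (NeZero.ne q)⟩
  have ejqq : βE E (M * q) q (jE E (M * q) q hqM) = Mod3.jqq E M q := by
    rw [H553.βE_jE E (M * q) q q hqM]
    rfl
  have ej1 : αE E (M * q) q (jE E (M * q) 1 (one_dvd _)) = Mod3.j1 E M q := by
    rw [H553.αE_jE E (M * q) q 1 (one_dvd _)]
    rfl
  refine principalAt_mid_t4 hStd hO h4 hq2 hB₁ hB₂ hB₃ hqep 𝔪 h𝔪.ne_top hthr U d k
    (2 * (q - 1)) hq1 hUd (by rw [hUeq]; exact hU₁) (by rw [hUeq]; exact hU₃) t ht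
    (by rw [hUeq, e6]; exact hU₂ t ht) ?_
  rw [hUeq, e6]
  rw [ejqq, map_pow, map_mul, map_pow, map_pow, map_sub, map_ofNat, ej1] at hres
  exact hres

end Main

end Fermat.Agent.S36.Mod3.H27

end

end
-- ===== PACK-END S36/Mod3/H27/RegMid4.lean

-- ===== PACK-BEGIN S36/Mod3/H928/RegF4.lean
section









/-!
# S36 / MOD3 — REG, `q` odd: the leaf `LeafRegF4` (helper928, wiring only)

`leafRegF4 : LeafRegF4` = `H27.principalAt_mid_t4_conc` fed with (R-U) `H356.leafRegU_of`,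
(R-RES) `H775.Res.hresJ`, `Qep3` (`H27.leafQep_of_vt`), `chart ⊆ V_i` (SHEET + VAL).
-/

set_option autoImplicit false
set_option maxHeartbeats 1600000
set_option synthInstance.maxHeartbeats 400000

noncomputable section

namespace Fermat.Agent.S36.Mod3.H928

open Fermat.Agent.S18.H138 (chart)
open Fermat.Agent.S36.Eng Fermat.Agent.S36.Mod3

/-- **REG, `q` odd** (middle disjunct of `regular_f` everywhere on the middle component). -/
theorem leafRegF4 : LeafRegF4 := by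
  intro P E M q _ _ _ w hStd V₁' V₂' V₁ V₂ V₃ W' W hO h4 hq2 𝔪 h𝔪 hthr
  have hVT : LeafVT := Mod3.H370.leafVT
  have hTab : LeafTable := Mod3.H370.leafTable
  have hVal : LeafVal := Mod3.H370.leafVal
  have hQep : LeafQep := Mod3.H27.leafQep_of_vt hVT
  have hCh : LeafChart := Mod3.H189.leafChart_of hVT hTab hVal
  have hRU := Mod3.H356.leafRegU_of hTab hQep hCh hVal P E M q w hStd V₁' V₂' V₁ V₂ V₃ W' W hO
  have val := hVal P E M q w hStd V₁' V₂' V₁ V₂ V₃ W' W hO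
  have sh := Mod3.H985.leafSheet P E M q w hStd V₁' V₂' V₁ V₂ V₃ W' W hO
  have qep := hQep P E M q w hStd V₁' V₂' V₁ V₂ V₃ W' W hO
  have hB₁ := Mod3.H189.chart_le_valuationSubring (R := A2.RE P E) V₁ sh.base₁ val.x_unit₁.2.1
  have hB₂ := Mod3.H189.chart_le_valuationSubring (R := A2.RE P E) V₂ sh.base₂ val.x_unit₂.2.1
  have hB₃ := Mod3.H189.chart_le_valuationSubring (R := A2.RE P E) V₃ sh.base₃ val.x_unit₃.2.1
  obtain ⟨t, ht, -⟩ := val.ram₂
  exact Mod3.H27.principalAt_mid_t4_conc hStd hO h4 hq2 (fun b => hB₁ b b.2) (fun b => hB₂ b b.2)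
    (fun b => hB₃ b b.2) qep.qep_f ⟨t, ht⟩ (Mod3.H356.Um E M q) 12 hRU.exists_pair hRU.unit₁
    hRU.unit₃ hRU.val₂' (dvd_mul_left q M) (Mod3.H775.Res.hresJ hStd hO) 𝔪 h𝔪 hthr

end Fermat.Agent.S36.Mod3.H928

end

end
-- ===== PACK-END S36/Mod3/H928/RegF4.lean

-- ===== PACK-BEGIN S36/H890/RegMid9.lean
section






/-!
# MOD3 / REG, route R4 with `t₉`, CONCRETE (helper890): `PrincipalAt` on the middle component

Concrete objects of `Mod3/Spec.lean` (`Std`, `Objs`), with `9 ∣ M` (so `q ≠ 3`; under `NeatFor`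
this is the case `q = 2`).  `principalAt_mid_t9` discharges the whole block (R-9) of
`principalAt_t9`:

* `h₁ = t₉` at level `M q²`, `h₂ = γ(t₉)`, `γ = β ∘ β` (`t ↦ t^{q²}`);
* `j, j_{q²}, 3⁻¹ ∈ chart R {x3E}`;
* `t₉`, `Q(t₉)`, `j`, `j - 1728` are units of `V₂` (Gauss units of `V∞(M q)`, pushed by `α`);
* `γ(t₉) - t₉ ∈ 𝔪_{V₂}` (helper934 `t9_congr` + helper816 `IsMid.gen_cong` at `d = 1, 3, 9`).

What is left as hypotheses is EXACTLY (R-U) + (R-RES) of LEAFREG PLAN v2 (the same two inputs as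
for `q` odd) and `Qep3`, `chart ⊆ V_i`.
-/

set_option autoImplicit false
set_option linter.style.haveILetI false
set_option linter.unusedSectionVars false
set_option synthInstance.maxHeartbeats 400000
set_option maxHeartbeats 1600000

noncomputable section

namespace Fermat.Agent.S36.H890

open ModularCurve
open Fermat.Agent Fermat.Agent.A2.Mod Fermat.Agent.S36.Eng
open Fermat.Agent.S18.H138 (chart)
open Fermat.Agent.S36.H816

/-! ## Generalities -/

/-- `q ∈ 𝔪_V`, `n` prime to `q` ⟹ `n⁻¹ ∈ V`. -/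
theorem natCast_inv_mem_of_coprime {L : Type*} [Field L] (V : ValuationSubring L) {q n : ℕ}
    (hq : ((q : ℕ) : L) ∈ V.nonunits) (hqn : Nat.Coprime q n) : ((n : ℕ) : L)⁻¹ ∈ V := by
  by_contra hn
  have hnV : ((n : ℕ) : L) ∈ V.nonunits := by
    rw [ValuationSubring.mem_nonunits_iff_or]
    by_cases h0 : ((n : ℕ) : L) = 0
    · exact Or.inl h0
    · exact Or.inr hn
  have h1 : (1 : L) = ((Nat.gcdA q n : ℤ) : L) * ((q : ℕ) : L)
      + ((Nat.gcdB q n : ℤ) : L) * ((n : ℕ) : L) := by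
    have h := Nat.gcd_eq_gcd_ab q n
    rw [hqn] at h
    have h' := congrArg (fun z : ℤ => (z : L)) h
    simp only [Nat.cast_one, Int.cast_one, Int.cast_add, Int.cast_mul, Int.cast_natCast] at h'
    rw [h']
    ring
  have h2 : (1 : L) ∈ V.nonunits := by
    rw [h1]
    exact add_mem_nonunits V (mul_mem_nonunits_right V (intCast_mem V _) hq)
      (mul_mem_nonunits_right V (intCast_mem V _) hnV)
  rw [ValuationSubring.mem_nonunits_iff, map_one] at h2
  exact lt_irrefl _ h2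

/-! ## The map `γ = β ∘ β : F_M → F_{M q²}` -/

section Gamma

variable (E : IntermediateField ℚ A2.Qb) (M q : ℕ) [NeZero M] [NeZero q] [NeZero (M * q)]

/-- `γ = β ∘ β : F_M → F_{M q²}`, `t ↦ t^{q²}`. -/
def gamma9 : FE E M →ₐ[E] FE E (M * q * q) := (βE E (M * q) q).comp (βE E M q)

theorem gamma9_apply (f : FE E M) : gamma9 E M q f = βE E (M * q) q (βE E M q f) := rfl

theorem gamma9_jE (d : ℕ) [NeZero d] (hd : d ∣ M) :
    haveI : NeZero (d * q * q) :=
      ⟨mul_ne_zero (mul_ne_zero (NeZero.ne d) (NeZero.ne q)) (NeZero.ne q)⟩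
    gamma9 E M q (jE E M d hd)
      = jE E (M * q * q) (d * q * q) (mul_dvd_mul_right (mul_dvd_mul_right hd q) q) := by
  haveI : NeZero (d * q) := ⟨mul_ne_zero (NeZero.ne d) (NeZero.ne q)⟩
  rw [gamma9_apply, H553.βE_jE E M q d hd, H553.βE_jE E (M * q) q (d * q)]

end Gamma

/-! ## Transport of the relations along a ring homomorphism -/

section Transport

variable {S T : Type*} [CommRing S] [CommRing T] (f : S →+* T)

theorem map_lin_u3 {x y a : S} (h : h9u3 x y * a = h9w3 x y) :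
    h9u3 (f x) (f y) * f a = h9w3 (f x) (f y) := by
  rw [← map_h9u3, ← map_h9w3, ← map_mul, h]

theorem map_lin_den {A B t : S} (h : t * h9den A B = h9num A B) :
    f t * h9den (f A) (f B) = h9num (f A) (f B) := by
  rw [← map_h9den, ← map_h9num, ← map_mul, h]

theorem map_rel9 {j t : S}
    (h : j * (t ^ 9 * (t ^ 2 + 9 * t + 27))
      = (t + 9) ^ 3 * (t ^ 3 + 243 * (t ^ 2 + 9 * t + 27)) ^ 3) :
    f j * (f t ^ 9 * (f t ^ 2 + 9 * f t + 27))
      = (f t + 9) ^ 3 * (f t ^ 3 + 243 * (f t ^ 2 + 9 * f t + 27)) ^ 3 := by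
  have h' := congrArg f h
  simpa only [map_mul, map_pow, map_add, map_ofNat] using h'

end Transport

/-! ## The middle valuation ring -/

section Main

variable {P : ValuationSubring A2.Qb} {E : IntermediateField ℚ A2.Qb} {M q : ℕ}
  [NeZero M] [NeZero q] [NeZero (M * q)] {w : A2.RE P E}
  {V₁' V₂' : ValuationSubring (FE E (M * q))}
  {V₁ V₂ V₃ : ValuationSubring (FE E (M * q * q))}
  {W' : FE E (M * q) ≃ₐ[E] FE E (M * q)}
  {W : FE E (M * q * q) ≃ₐ[E] FE E (M * q * q)}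

/-- `Objs.V₂` is a middle valuation ring in the sense of helper816. -/
theorem isMid_of_objs (hStd : Mod3.Std P E M q w)
    (hO : Mod3.Objs P E M q V₁' V₂' V₁ V₂ V₃ W' W) : IsMid V₁' V₂ := by
  have hS : Setting P E M q w := Mod3.H816.setting_of_std hStd
  haveI := hS.dvr
  have hcα : ∀ g : FE E (M * q), heckeAlphaBar E (M * q) q g ∈ V₂ ↔ g ∈ V₁' := fun g => by
    have h := hO.mid
    have h2 : g ∈ V₂.comap (αE E (M * q) q : FE E (M * q) →+* FE E (M * q * q)) ↔ g ∈ V₁' := by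
      rw [h]
    rw [ValuationSubring.mem_comap] at h2
    exact h2
  exact isMid_of_ne hcα hS hO.vinf' hO.fricke' hO.vinf hO.mid_ne

/-- A unit of `V₁' = V∞(M q)` is a unit of `V₂` (via `α`). -/
theorem alpha_unitAt (hmid : IsMid V₁' V₂) {f : FE E (M * q)}
    (hf : f ≠ 0 ∧ f ∈ V₁' ∧ f⁻¹ ∈ V₁') : UnitAt V₂ (αE E (M * q) q f) := by
  refine ⟨?_, (hmid.comap_alpha f).mpr hf.2.1, ?_⟩
  · exact (map_ne_zero_iff _ (αE E (M * q) q).toRingHom.injective).mpr hf.1
  · rw [← map_inv₀]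
    exact (hmid.comap_alpha f⁻¹).mpr hf.2.2

/-- `γ(t₉) - t₉ ∈ 𝔪_{V₂}`, and `γ(t₉) ∈ V₂`. -/
theorem gamma9_t9E_congr (hStd : Mod3.Std P E M q w)
    (hO : Mod3.Objs P E M q V₁' V₂' V₁ V₂ V₃ W' W) (h9 : 9 ∣ M) :
    gamma9 E M q (t9E E M h9) ∈ V₂ ∧
      gamma9 E M q (t9E E M h9)
        - t9E E (M * q * q) ((h9.trans (dvd_mul_right M q)).trans (dvd_mul_right _ q))
        ∈ V₂.nonunits := by
  have hS : Setting P E M q w := Mod3.H816.setting_of_std hStd
  haveI := hS.dvr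
  have hmid : IsMid V₁' V₂ := isMid_of_objs hStd hO
  have h3 : 3 ∣ M := Dvd.dvd.trans (by norm_num) h9
  have h9' : 9 ∣ M * q := h9.trans (dvd_mul_right M q)
  have h9'' : 9 ∣ M * q * q := h9'.trans (dvd_mul_right _ q)
  have h3' : 3 ∣ M * q := h3.trans (dvd_mul_right M q)
  have h3'' : 3 ∣ M * q * q := h3'.trans (dvd_mul_right _ q)
  haveI : NeZero (1 * q * q) := ⟨mul_ne_zero (mul_ne_zero one_ne_zero (NeZero.ne q)) (NeZero.ne q)⟩
  haveI : NeZero (3 * q * q) :=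
    ⟨mul_ne_zero (mul_ne_zero (by norm_num) (NeZero.ne q)) (NeZero.ne q)⟩
  haveI : NeZero (9 * q * q) :=
    ⟨mul_ne_zero (mul_ne_zero (by norm_num) (NeZero.ne q)) (NeZero.ne q)⟩
  -- the generators
  have hj := hmid.jE_mem_of_dvd hO.vinf' 1 (one_dvd _)
  have hj3 := hmid.jE_mem_of_dvd hO.vinf' 3 h3'
  have hj9 := hmid.jE_mem_of_dvd hO.vinf' 9 h9'
  have c1 := hmid.gen_cong hS hO.vinf' hO.fricke' 1 (one_dvd M)
  have c3 := hmid.gen_cong hS hO.vinf' hO.fricke' 3 h3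
  have c9 := hmid.gen_cong hS hO.vinf' hO.fricke' 9 h9
  -- the Gauss units
  have hU := alpha_unitAt hmid (u3E_unit P E (M * q) hO.vinf' h9')
  have hUe := alpha_unitAt hmid (u3eE_unit P E (M * q) hO.vinf' h9')
  have hden := alpha_unitAt hmid (den9E_unit P E (M * q) hO.vinf' h9')
  have eU : αE E (M * q) q (h9u3 (jE E (M * q) 1 (one_dvd _)) (jE E (M * q) 3 h3'))
      = h9u3 (jE E (M * q * q) 1 (one_dvd _)) (jE E (M * q * q) 3 h3'') := by
    have h := map_h9u3 (αE E (M * q) q : FE E (M * q) →+* FE E (M * q * q))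
      (jE E (M * q) 1 (one_dvd _)) (jE E (M * q) 3 h3')
    rw [RingHom.coe_coe, H553.αE_jE, H553.αE_jE] at h
    exact h
  have eUe : αE E (M * q) q (h9u3 (jE E (M * q) 3 h3') (jE E (M * q) 9 h9'))
      = h9u3 (jE E (M * q * q) 3 h3'') (jE E (M * q * q) 9 h9'') := by
    have h := map_h9u3 (αE E (M * q) q : FE E (M * q) →+* FE E (M * q * q))
      (jE E (M * q) 3 h3') (jE E (M * q) 9 h9')
    rw [RingHom.coe_coe, H553.αE_jE, H553.αE_jE] at h
    exact h
  have et3 : αE E (M * q) q (t3E E (M * q) h3') = t3E E (M * q * q) h3'' :=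
    Subtype.ext (coe_heckeAlphaBar (M * q) q _)
  have et3e : αE E (M * q) q (t3eE E (M * q) h9') = t3eE E (M * q * q) h9'' :=
    Subtype.ext (coe_heckeAlphaBar (M * q) q _)
  have eden : αE E (M * q) q (h9den (t3E E (M * q) h3') (t3eE E (M * q) h9'))
      = h9den (t3E E (M * q * q) h3'') (t3eE E (M * q * q) h9'') := by
    have h := map_h9den (αE E (M * q) q : FE E (M * q) →+* FE E (M * q * q))
      (t3E E (M * q) h3') (t3eE E (M * q) h9')
    rw [RingHom.coe_coe, et3, et3e] at h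
    exact h
  rw [eU] at hU
  rw [eUe] at hUe
  rw [eden] at hden
  -- the relations
  have l1 := t3E_lin E (M * q * q) h3''
  have l2 := t3eE_lin E (M * q * q) h9''
  have l3 := t9E_lin E (M * q * q) h9''
  have l1' : h9u3 (jE E (M * q * q) (1 * q * q)
        (mul_dvd_mul_right (mul_dvd_mul_right (one_dvd M) q) q))
        (jE E (M * q * q) (3 * q * q) (mul_dvd_mul_right (mul_dvd_mul_right h3 q) q))
        * gamma9 E M q (t3E E M h3)
      = h9w3 (jE E (M * q * q) (1 * q * q)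
          (mul_dvd_mul_right (mul_dvd_mul_right (one_dvd M) q) q))
        (jE E (M * q * q) (3 * q * q) (mul_dvd_mul_right (mul_dvd_mul_right h3 q) q)) := by
    have h := map_lin_u3 (gamma9 E M q : FE E M →+* FE E (M * q * q)) (t3E_lin E M h3)
    rw [RingHom.coe_coe, gamma9_jE, gamma9_jE] at h
    exact h
  have l2' : h9u3 (jE E (M * q * q) (3 * q * q)
        (mul_dvd_mul_right (mul_dvd_mul_right h3 q) q))
        (jE E (M * q * q) (9 * q * q) (mul_dvd_mul_right (mul_dvd_mul_right h9 q) q))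
        * gamma9 E M q (t3eE E M h9)
      = h9w3 (jE E (M * q * q) (3 * q * q)
          (mul_dvd_mul_right (mul_dvd_mul_right h3 q) q))
        (jE E (M * q * q) (9 * q * q) (mul_dvd_mul_right (mul_dvd_mul_right h9 q) q)) := by
    have h := map_lin_u3 (gamma9 E M q : FE E M →+* FE E (M * q * q)) (t3eE_lin E M h9)
    rw [RingHom.coe_coe, gamma9_jE, gamma9_jE] at h
    exact h
  have l3' : gamma9 E M q (t9E E M h9)
        * h9den (gamma9 E M q (t3E E M h3)) (gamma9 E M q (t3eE E M h9))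
      = h9num (gamma9 E M q (t3E E M h3)) (gamma9 E M q (t3eE E M h9)) :=
    map_lin_den (gamma9 E M q : FE E M →+* FE E (M * q * q)) (t9E_lin E M h9)
  obtain ⟨-, h2, h3c⟩ := Fermat.Agent.S36.H934.t9_congr V₂ hj hj3 hj9 c1 c3 c9
    (H878.valuation_eq_one_of_unitAt V₂ hU) (H878.valuation_eq_one_of_unitAt V₂ hUe)
    (H878.valuation_eq_one_of_unitAt V₂ hden) l1 l2 l3 l1' l2' l3'
  exact ⟨h2, h3c⟩

/-- `3⁻¹ ∈ chart R S` at level `M q²` when `3 ∣ M` (then `q ≠ 3`). -/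
theorem three_inv_mem_chart (hStd : Mod3.Std P E M q w) (h3 : 3 ∣ M)
    (S : Set (FE E (M * q * q))) :
    (3 : FE E (M * q * q))⁻¹ ∈ _root_.Fermat.Agent.S18.H138.chart (A2.RE P E) S := by
  have hS : Setting P E M q w := Mod3.H816.setting_of_std hStd
  haveI := hS.dvr
  have hq3 : q ≠ 3 := by
    rintro rfl
    exact hStd.q_not_dvd h3
  have hcop : Nat.Coprime q 3 := (Nat.coprime_primes hStd.q_prime Nat.prime_three).2 hq3
  have hP : ((3 : ℕ) : A2.Qb)⁻¹ ∈ P := natCast_inv_mem_of_coprime P hStd.lies_over hcop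
  have hE : ((3 : E))⁻¹ ∈ A2.RE P E := by
    show algebraMap E A2.Qb ((3 : E))⁻¹ ∈ P
    rw [map_inv₀, map_ofNat]
    rwa [Nat.cast_ofNat] at hP
  have h := Subalgebra.algebraMap_mem (_root_.Fermat.Agent.S18.H138.chart (A2.RE P E) S) (⟨(3 : E)⁻¹, hE⟩ : A2.RE P E)
  rw [H13.algebraMap_RE_eq] at h
  rwa [map_inv₀, map_ofNat] at h

/-- **MOD3 / REG, route R4 with `t₉`, concrete.**  With `9 ∣ M` (case `q = 2` of `NeatFor`), the
middle component of the finite chart is principal at EVERY closed point through which it passes,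
given (R-U) and (R-RES) of LEAFREG PLAN v2 (`U = U_m`, `6 kk = 12 (q - 1)`). -/
theorem principalAt_mid_t9 (hStd : Mod3.Std P E M q w)
    (hO : Mod3.Objs P E M q V₁' V₂' V₁ V₂ V₃ W' W) (h9 : 9 ∣ M)
    (hB₁ : ∀ b : _root_.Fermat.Agent.S18.H138.chart (A2.RE P E) ({Mod3.x3E E M q} : Set (FE E (M * q * q))),
      (b : FE E (M * q * q)) ∈ V₁)
    (hB₂ : ∀ b : _root_.Fermat.Agent.S18.H138.chart (A2.RE P E) ({Mod3.x3E E M q} : Set (FE E (M * q * q))),
      (b : FE E (M * q * q)) ∈ V₂)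
    (hB₃ : ∀ b : _root_.Fermat.Agent.S18.H138.chart (A2.RE P E) ({Mod3.x3E E M q} : Set (FE E (M * q * q))),
      (b : FE E (M * q * q)) ∈ V₃)
    (hqep : Qep3 w (_root_.Fermat.Agent.S18.H138.chart (A2.RE P E) ({Mod3.x3E E M q} : Set (FE E (M * q * q)))) V₁ V₂ V₃)
    (𝔪 : Ideal (_root_.Fermat.Agent.S18.H138.chart (A2.RE P E) ({Mod3.x3E E M q} : Set (FE E (M * q * q)))))
    (h𝔪 : 𝔪 ≠ ⊤) (hthr : Through _ 𝔪 V₂)
    -- (R-U)
    (U d : _root_.Fermat.Agent.S18.H138.chart (A2.RE P E) ({Mod3.x3E E M q} : Set (FE E (M * q * q)))) (k kk : ℕ)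
    (hkk : 0 < kk)
    (hUd : U * d = algebraMap (A2.RE P E) _ w ^ k)
    (hU₁ : (U : FE E (M * q * q))⁻¹ ∈ V₁) (hU₃ : (U : FE E (M * q * q))⁻¹ ∈ V₃)
    (t : FE E (M * q * q)) (ht : UnifAt V₂ t)
    (hU₂ : UnitAt V₂ ((U : FE E (M * q * q)) * (t ^ (6 * kk))⁻¹))
    -- (R-RES)
    (hres : ((Mod3.jqq E M q - Mod3.j1 E M q) ^ (6 * kk)
        - (Mod3.j1 E M q ^ 4 * (Mod3.j1 E M q - 1728) ^ 3) ^ kk * (U : FE E (M * q * q)))
          * (U : FE E (M * q * q))⁻¹ ∈ V₂.nonunits) :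
    PrincipalAt (_root_.Fermat.Agent.S18.H138.chart (A2.RE P E) ({Mod3.x3E E M q} : Set (FE E (M * q * q)))) 𝔪 V₂ := by
  have hS : Setting P E M q w := Mod3.H816.setting_of_std hStd
  haveI := hS.dvr
  have hmid : IsMid V₁' V₂ := isMid_of_objs hStd hO
  have h3 : 3 ∣ M := Dvd.dvd.trans (by norm_num) h9
  have h9' : 9 ∣ M * q := h9.trans (dvd_mul_right M q)
  have h9'' : 9 ∣ M * q * q := h9'.trans (dvd_mul_right _ q)
  haveI : NeZero (1 * q * q) := ⟨mul_ne_zero (mul_ne_zero one_ne_zero (NeZero.ne q)) (NeZero.ne q)⟩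
  haveI : NeZero (q * q) := ⟨mul_ne_zero (NeZero.ne q) (NeZero.ne q)⟩
  obtain ⟨-, hx⟩ := gamma9_t9E_congr hStd hO h9
  have hw0 : algebraMap (A2.RE P E) (FE E (M * q * q)) w ≠ 0 := by
    rw [H13.algebraMap_RE_eq]
    refine (map_ne_zero_iff _ (algebraMap E (FE E (M * q * q))).injective).mpr ?_
    intro h
    exact hStd.unif.ne_zero (Subtype.ext h)
  have hj₁B := Mod3.H189.j1_mem_chart P E M q hStd.q_prime
  have hj₂B := Mod3.H189.jqq_mem_chart' P E M q hStd.q_prime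
  have h3B := three_inv_mem_chart hStd h3 ({Mod3.x3E E M q} : Set (FE E (M * q * q)))
  have hJ₁ : Mod3.j1 E M q
        * (t9E E (M * q * q) h9'' ^ 9
          * (t9E E (M * q * q) h9'' ^ 2 + 9 * t9E E (M * q * q) h9'' + 27))
      = (t9E E (M * q * q) h9'' + 9) ^ 3
        * (t9E E (M * q * q) h9'' ^ 3
          + 243 * (t9E E (M * q * q) h9'' ^ 2 + 9 * t9E E (M * q * q) h9'' + 27)) ^ 3 :=
    jE_mul_t9E E (M * q * q) h9''
  have hJ₂ : Mod3.jqq E M q
        * (gamma9 E M q (t9E E M h9) ^ 9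
          * (gamma9 E M q (t9E E M h9) ^ 2 + 9 * gamma9 E M q (t9E E M h9) + 27))
      = (gamma9 E M q (t9E E M h9) + 9) ^ 3
        * (gamma9 E M q (t9E E M h9) ^ 3
          + 243 * (gamma9 E M q (t9E E M h9) ^ 2 + 9 * gamma9 E M q (t9E E M h9) + 27)) ^ 3 := by
    have h := map_rel9 (gamma9 E M q : FE E M →+* FE E (M * q * q)) (jE_mul_t9E E M h9)
    rw [RingHom.coe_coe, gamma9_jE,
      jE_congr (M * q * q) (show 1 * q * q = q * q by rw [one_mul]) _
        (Dvd.intro_left M (mul_assoc M q q).symm)] at h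
    exact h
  have hh₁ : UnitAt V₂ (t9E E (M * q * q) h9'') := by
    have h := alpha_unitAt hmid (t9E_unit P E (M * q) hO.vinf' h9')
    rwa [αE_t9E] at h
  have hQ₁ : UnitAt V₂
      (t9E E (M * q * q) h9'' ^ 2 + 9 * t9E E (M * q * q) h9'' + 27) := by
    have h := alpha_unitAt hmid (t9E_quad_unit P E (M * q) hO.vinf' h9')
    rwa [map_add, map_add, map_mul, map_pow, map_ofNat, map_ofNat, αE_t9E] at h
  have hj₁ : UnitAt V₂ (Mod3.j1 E M q) := by
    have h := alpha_unitAt hmid (jE_one_unit P E (M * q) hO.vinf')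
    rwa [H553.αE_jE] at h
  have hj₁' : UnitAt V₂ (Mod3.j1 E M q - 1728) := by
    have h := alpha_unitAt hmid (jE_sub_1728_unit P E (M * q) hO.vinf')
    rwa [map_sub, map_ofNat, H553.αE_jE] at h
  exact principalAt_t9 w _ V₁ V₂ V₃ hw0 hB₁ hB₂ hB₃ hqep 𝔪 h𝔪 hthr U d k kk hkk hUd hU₁ hU₃
    t ht hU₂ (Mod3.j1 E M q) (Mod3.jqq E M q) (t9E E (M * q * q) h9'')
    (gamma9 E M q (t9E E M h9)) hj₁B hj₂B h3B hJ₁ hJ₂ hh₁ hQ₁ hj₁ hj₁' hx hres

/-- **The same in the delivered shapes** of (R-U) (helper356 `PartRegU`, `U₀ = U_m`) and (R-RES)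
(helper922 `h922_hres_mid` at `M₁ = M q`, `V = V₂`): the finite half `regular_f` of
`Mod3.PartReg` (middle disjunct) when `9 ∣ M`. -/
theorem principalAt_mid_t9_conc (hStd : Mod3.Std P E M q w)
    (hO : Mod3.Objs P E M q V₁' V₂' V₁ V₂ V₃ W' W) (h9 : 9 ∣ M)
    (hB₁ : ∀ b : _root_.Fermat.Agent.S18.H138.chart (A2.RE P E) ({Mod3.x3E E M q} : Set (FE E (M * q * q))),
      (b : FE E (M * q * q)) ∈ V₁)
    (hB₂ : ∀ b : _root_.Fermat.Agent.S18.H138.chart (A2.RE P E) ({Mod3.x3E E M q} : Set (FE E (M * q * q))),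
      (b : FE E (M * q * q)) ∈ V₂)
    (hB₃ : ∀ b : _root_.Fermat.Agent.S18.H138.chart (A2.RE P E) ({Mod3.x3E E M q} : Set (FE E (M * q * q))),
      (b : FE E (M * q * q)) ∈ V₃)
    (hqep : Qep3 w (_root_.Fermat.Agent.S18.H138.chart (A2.RE P E) ({Mod3.x3E E M q} : Set (FE E (M * q * q)))) V₁ V₂ V₃)
    (hunif : ∃ t : FE E (M * q * q), UnifAt V₂ t)
    -- (R-U)
    (U₀ : FE E (M * q * q)) (k : ℕ)
    (hpair : ∃ U d : _root_.Fermat.Agent.S18.H138.chart (A2.RE P E) ({Mod3.x3E E M q} : Set (FE E (M * q * q))),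
      (U : FE E (M * q * q)) = U₀ ∧ U * d = algebraMap (A2.RE P E) _ w ^ k)
    (hU₁ : U₀⁻¹ ∈ V₁) (hU₃ : U₀⁻¹ ∈ V₃)
    (hU₂ : ∀ t : FE E (M * q * q), UnifAt V₂ t → UnitAt V₂ (U₀ * (t ^ (12 * (q - 1)))⁻¹))
    -- (R-RES)
    (hqM : q ∣ M * q)
    (hres : ((βE E (M * q) q (jE E (M * q) q hqM)
          - αE E (M * q) q (jE E (M * q) 1 (one_dvd _))) ^ (12 * (q - 1))
        - αE E (M * q) q ((jE E (M * q) 1 (one_dvd _) ^ 4
            * (jE E (M * q) 1 (one_dvd _) - 1728) ^ 3) ^ (2 * (q - 1))) * U₀) * U₀⁻¹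
      ∈ V₂.nonunits)
    (𝔪 : Ideal (_root_.Fermat.Agent.S18.H138.chart (A2.RE P E) ({Mod3.x3E E M q} : Set (FE E (M * q * q)))))
    (h𝔪 : 𝔪.IsMaximal) (hthr : Through _ 𝔪 V₂) :
    PrincipalAt (_root_.Fermat.Agent.S18.H138.chart (A2.RE P E) ({Mod3.x3E E M q} : Set (FE E (M * q * q)))) 𝔪 V₂ := by
  obtain ⟨t, ht⟩ := hunif
  obtain ⟨U, d, hUeq, hUd⟩ := hpair
  have hq1 : 0 < 2 * (q - 1) := by
    have := hStd.q_prime.two_le
    omega
  have e6 : 6 * (2 * (q - 1)) = 12 * (q - 1) := by ring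
  haveI : NeZero (q * q) := ⟨mul_ne_zero (NeZero.ne q) (NeZero.ne q)⟩
  have ejqq : βE E (M * q) q (jE E (M * q) q hqM) = Mod3.jqq E M q := by
    rw [H553.βE_jE E (M * q) q q hqM]
    rfl
  have ej1 : αE E (M * q) q (jE E (M * q) 1 (one_dvd _)) = Mod3.j1 E M q := by
    rw [H553.αE_jE E (M * q) q 1 (one_dvd _)]
    rfl
  refine principalAt_mid_t9 hStd hO h9 hB₁ hB₂ hB₃ hqep 𝔪 h𝔪.ne_top hthr U d k (2 * (q - 1)) hq1
    hUd (by rw [hUeq]; exact hU₁) (by rw [hUeq]; exact hU₃) t ht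
    (by rw [hUeq, e6]; exact hU₂ t ht) ?_
  rw [hUeq, e6]
  rw [ejqq, map_pow, map_mul, map_pow, map_pow, map_sub, map_ofNat, ej1] at hres
  exact hres

end Main

end Fermat.Agent.S36.H890

end
end
-- ===== PACK-END S36/H890/RegMid9.lean

-- ===== PACK-BEGIN S36/Mod3/H890/RegTwo.lean
section





/-!
# S36 / MOD3, leaf REG, finite chart, case `9 ∣ M` (`q = 2`): Leaf-level wiring (helper890)

* `LeafResJ`  : piece (R-RES) as a leaf-shaped `Prop`: the conclusion of helper922's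
  `h922_hres_mid` VERBATIM at `M₁ = M q`, `hqM = dvd_mul_left q M`, `V = V₂`
  (`U_m = αE (dE) * (βE (dE))⁻¹`, `dE` of helper438);
* `LeafRegF9` : `9 ∣ M → ∀ 𝔪 maximal, Through 𝔪 V₂ → PrincipalAt (chart R {x3E}) 𝔪 V₂`
  (the middle disjunct of `PartReg.regular_f` at EVERY closed point of the middle component);
* `leafRegF9_of : LeafSheet → LeafVal → LeafQep → H356.LeafRegU → LeafResJ → LeafRegF9`;
* `LeafRegI2`, `leafRegI2_of : LeafSheet → LeafVal → LeafQep → LeafInc → LeafRegI2` : the chart at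
  infinity for `q = 2` (`e₂ = q - 1 = 1`: `w` is a uniformiser of `V₂`, and the cusps of the middle
  component lie on no other component, so `H876.principalAt_lite` applies with `x = w`,
  `g₁ = g₂ = 1`; NO congruence needed);
* `LeafReg2` (`q = 2 → PartReg`), `leafReg2_of`; `LeafRegOdd` (`q ≠ 2 → PartReg`);
  `leafReg_of_two_odd : LeafReg2 → LeafRegOdd → LeafReg`.

Under `Std` the hypothesis `9 ∣ M` is `hStd.neat.2.2 (h : q = 2)`.
-/

set_option autoImplicit false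
set_option linter.style.haveILetI false
set_option linter.unusedSectionVars false
set_option synthInstance.maxHeartbeats 400000
set_option maxHeartbeats 1600000

noncomputable section

namespace Fermat.Agent.S36.Mod3.H890

open ModularCurve
open Fermat.Agent.S18.H138 (chart)
open Fermat.Agent.S36.Eng Fermat.Agent.S36.Mod3

/-- **(R-RES), leaf-shaped**: the residue of `π ^ (12 (q - 1)) / U_m` along the middle component,
`π = j_{q²} - j`; the conclusion of `h922_hres_mid` at `M₁ = M q`, `V = V₂`. -/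
def LeafResJ : Prop :=
  Leaf fun _ E M q _ _ _ _ _ _ _ V₂ _ =>
    ((A2.Mod.βE E (M * q) q (A2.Mod.jE E (M * q) q (dvd_mul_left q M))
          - A2.Mod.αE E (M * q) q (A2.Mod.jE E (M * q) 1 (one_dvd _))) ^ (12 * (q - 1))
        - A2.Mod.αE E (M * q) q ((A2.Mod.jE E (M * q) 1 (one_dvd _) ^ 4
            * (A2.Mod.jE E (M * q) 1 (one_dvd _) - 1728) ^ 3) ^ (2 * (q - 1)))
          * (A2.Mod.αE E (M * q) q (Fermat.Agent.S36.H438.dE E (M * q) q (dvd_mul_left q M))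
            * (A2.Mod.βE E (M * q) q
                (Fermat.Agent.S36.H438.dE E (M * q) q (dvd_mul_left q M)))⁻¹))
      * (A2.Mod.αE E (M * q) q (Fermat.Agent.S36.H438.dE E (M * q) q (dvd_mul_left q M))
            * (A2.Mod.βE E (M * q) q
                (Fermat.Agent.S36.H438.dE E (M * q) q (dvd_mul_left q M)))⁻¹)⁻¹
      ∈ V₂.nonunits

/-- **REG, finite chart, `9 ∣ M`** (leaf-shaped). -/
def LeafRegF9 : Prop :=
  Leaf fun P E M q _ _ _ _ _ _ _ V₂ _ =>
    9 ∣ M → ∀ 𝔪 : Ideal (chart (A2.RE P E) ({x3E E M q} : Set (A2.Mod.FE E (M * q * q)))),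
      𝔪.IsMaximal → Through _ 𝔪 V₂ → PrincipalAt _ 𝔪 V₂

/-- **REG, finite chart, `9 ∣ M`**: from the leaves on main, (R-U) and (R-RES). -/
theorem leafRegF9_of (hSheet : LeafSheet) (hVal : LeafVal) (hQep : LeafQep)
    (hRU : H356.LeafRegU) (hRes : LeafResJ) : LeafRegF9 := by
  intro P E M q _ _ _ w hStd V₁' V₂' V₁ V₂ V₃ W' W hO h9 𝔪 h𝔪 hthr
  have hS := hSheet P E M q w hStd V₁' V₂' V₁ V₂ V₃ W' W hO
  have hV := hVal P E M q w hStd V₁' V₂' V₁ V₂ V₃ W' W hO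
  have hQ := (hQep P E M q w hStd V₁' V₂' V₁ V₂ V₃ W' W hO).qep_f
  have hU := hRU P E M q w hStd V₁' V₂' V₁ V₂ V₃ W' W hO
  have hR := hRes P E M q w hStd V₁' V₂' V₁ V₂ V₃ W' W hO
  obtain ⟨t, ht, -⟩ := hV.ram₂
  have hB₁ : ∀ b : chart (A2.RE P E) ({x3E E M q} : Set (A2.Mod.FE E (M * q * q))),
      (b : A2.Mod.FE E (M * q * q)) ∈ V₁ := fun b =>
    Mod3.H839.mem_valuationSubring_of_mem_chart839 V₁ hS.base₁
      (fun s hs => by rw [Set.mem_singleton_iff.1 hs]; exact hV.x_unit₁.2.1) b.2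
  have hB₂ : ∀ b : chart (A2.RE P E) ({x3E E M q} : Set (A2.Mod.FE E (M * q * q))),
      (b : A2.Mod.FE E (M * q * q)) ∈ V₂ := fun b =>
    Mod3.H839.mem_valuationSubring_of_mem_chart839 V₂ hS.base₂
      (fun s hs => by rw [Set.mem_singleton_iff.1 hs]; exact hV.x_unit₂.2.1) b.2
  have hB₃ : ∀ b : chart (A2.RE P E) ({x3E E M q} : Set (A2.Mod.FE E (M * q * q))),
      (b : A2.Mod.FE E (M * q * q)) ∈ V₃ := fun b =>
    Mod3.H839.mem_valuationSubring_of_mem_chart839 V₃ hS.base₃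
      (fun s hs => by rw [Set.mem_singleton_iff.1 hs]; exact hV.x_unit₃.2.1) b.2
  exact Fermat.Agent.S36.H890.principalAt_mid_t9_conc hStd hO h9 hB₁ hB₂ hB₃ hQ ⟨t, ht⟩
    (H356.Um E M q) 12 hU.exists_pair hU.unit₁ hU.unit₃ hU.val₂' (dvd_mul_left q M) hR
    𝔪 h𝔪 hthr

/-! ## The chart at infinity, `q = 2` -/

/-- `e = 1`: if `w / t` is a unit for a uniformiser `t`, then `w` is a uniformiser. -/
theorem unifAt_of_unitAt_div {F : Type*} [Field F] (V : ValuationSubring F) {w₀ t : F}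
    (ht : UnifAt V t) (hw : UnitAt V (w₀ * t⁻¹)) : UnifAt V w₀ := by
  obtain ⟨ht0, htV, htdiv⟩ := ht
  obtain ⟨hu0, huV, huinv⟩ := hw
  have hw0 : w₀ ≠ 0 := fun h => hu0 (by rw [h, zero_mul])
  have e1 : w₀ = t * (w₀ * t⁻¹) := by
    rw [mul_comm w₀, ← mul_assoc, mul_inv_cancel₀ ht0, one_mul]
  refine ⟨hw0, ?_, fun f hf => ?_⟩
  · rw [e1, ValuationSubring.mem_nonunits_iff, map_mul]
    exact mul_lt_one_of_lt_of_le ((V.mem_nonunits_iff).1 htV)
      ((V.valuation_le_one_iff _).2 huV)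
  · have e2 : f * w₀⁻¹ = f * t⁻¹ * (w₀ * t⁻¹)⁻¹ := by
      rw [mul_inv, inv_inv, mul_assoc, ← mul_assoc t⁻¹, mul_comm t⁻¹ w₀⁻¹, mul_assoc w₀⁻¹,
        inv_mul_cancel₀ ht0, mul_one]
    rw [e2]
    exact V.mul_mem _ _ (htdiv f hf) huinv

/-- **REG, chart at infinity, `q = 2`** (leaf-shaped). -/
def LeafRegI2 : Prop :=
  Leaf fun P E M q _ _ _ _ _ _ _ V₂ _ =>
    q = 2 → ∀ 𝔪 : Ideal (chart (A2.RE P E) ({(x3E E M q)⁻¹} : Set (A2.Mod.FE E (M * q * q)))),
      𝔪.IsMaximal →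
      (⟨(x3E E M q)⁻¹, Fermat.Agent.S18.H138.mem_chart_of_mem rfl⟩ :
        chart (A2.RE P E) ({(x3E E M q)⁻¹} : Set (A2.Mod.FE E (M * q * q)))) ∈ 𝔪 →
      Through _ 𝔪 V₂ → PrincipalAt _ 𝔪 V₂

/-- **REG, chart at infinity, `q = 2`**: from the leaves on main; no congruence. -/
theorem leafRegI2_of (hSheet : LeafSheet) (hVal : LeafVal) (hQep : LeafQep) (hInc : LeafInc) :
    LeafRegI2 := by
  intro P E M q _ _ _ w hStd V₁' V₂' V₁ V₂ V₃ W' W hO hq2 𝔪 h𝔪 hx hthr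
  have hS := hSheet P E M q w hStd V₁' V₂' V₁ V₂ V₃ W' W hO
  have hV := hVal P E M q w hStd V₁' V₂' V₁ V₂ V₃ W' W hO
  have hQ := (hQep P E M q w hStd V₁' V₂' V₁ V₂ V₃ W' W hO).qep_i
  have hI := hInc P E M q w hStd V₁' V₂' V₁ V₂ V₃ W' W hO
  -- `w` is a uniformiser of `V₂`
  obtain ⟨t, ht, hwt⟩ := hV.ram₂
  have e1 : q - 1 = 1 := by omega
  rw [e1, pow_one] at hwt
  have hw2 : UnifAt V₂ (algebraMap (A2.RE P E) (A2.Mod.FE E (M * q * q)) w) :=
    unifAt_of_unitAt_div V₂ ht hwt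
  -- the cusp lies on the middle component only
  have hwm : algebraMap (A2.RE P E)
      (chart (A2.RE P E) ({(x3E E M q)⁻¹} : Set (A2.Mod.FE E (M * q * q)))) w ∈ 𝔪 :=
    hthr _ hw2.2.1
  obtain ⟨h12, -, h23⟩ := hI.cusp_single 𝔪 h𝔪 hwm hx
  have hn₁ : ¬ Through _ 𝔪 V₁ := fun h => h12 ⟨h, hthr⟩
  have hn₃ : ¬ Through _ 𝔪 V₃ := fun h => h23 ⟨hthr, h⟩
  have hB₁ : ∀ b : chart (A2.RE P E) ({(x3E E M q)⁻¹} : Set (A2.Mod.FE E (M * q * q))),
      (b : A2.Mod.FE E (M * q * q)) ∈ V₁ := fun b =>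
    Mod3.H839.mem_valuationSubring_of_mem_chart839 V₁ hS.base₁
      (fun s hs => by rw [Set.mem_singleton_iff.1 hs]; exact hV.x_unit₁.2.2) b.2
  have hB₂ : ∀ b : chart (A2.RE P E) ({(x3E E M q)⁻¹} : Set (A2.Mod.FE E (M * q * q))),
      (b : A2.Mod.FE E (M * q * q)) ∈ V₂ := fun b =>
    Mod3.H839.mem_valuationSubring_of_mem_chart839 V₂ hS.base₂
      (fun s hs => by rw [Set.mem_singleton_iff.1 hs]; exact hV.x_unit₂.2.2) b.2
  have hB₃ : ∀ b : chart (A2.RE P E) ({(x3E E M q)⁻¹} : Set (A2.Mod.FE E (M * q * q))),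
      (b : A2.Mod.FE E (M * q * q)) ∈ V₃ := fun b =>
    Mod3.H839.mem_valuationSubring_of_mem_chart839 V₃ hS.base₃
      (fun s hs => by rw [Set.mem_singleton_iff.1 hs]; exact hV.x_unit₃.2.2) b.2
  refine Fermat.Agent.S36.H876.principalAt_lite w _ V₁ V₂ V₃ hB₁ hB₂ hB₃ hQ hV.unif₁ hV.unif₃
    𝔪 h𝔪.isPrime hthr hn₁ hn₃ (algebraMap (A2.RE P E) _ w) 1 1 1 1 one_pos hw2
    (fun h => h𝔪.ne_top ((Ideal.eq_top_iff_one 𝔪).2 h)) ?_
  have e0 : ((((algebraMap (A2.RE P E)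
        (chart (A2.RE P E) ({(x3E E M q)⁻¹} : Set (A2.Mod.FE E (M * q * q)))) w :
          chart (A2.RE P E) ({(x3E E M q)⁻¹} : Set (A2.Mod.FE E (M * q * q)))) :
            A2.Mod.FE E (M * q * q)) ^ 1
        * (((1 : chart (A2.RE P E) ({(x3E E M q)⁻¹} : Set (A2.Mod.FE E (M * q * q)))) :
            A2.Mod.FE E (M * q * q)))
        - algebraMap (A2.RE P E) (A2.Mod.FE E (M * q * q)) w ^ 1
          * (((1 : chart (A2.RE P E) ({(x3E E M q)⁻¹} : Set (A2.Mod.FE E (M * q * q)))) :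
            A2.Mod.FE E (M * q * q))))
      * (algebraMap (A2.RE P E) (A2.Mod.FE E (M * q * q)) w ^ 1)⁻¹) = 0 := by
    have : (((algebraMap (A2.RE P E)
        (chart (A2.RE P E) ({(x3E E M q)⁻¹} : Set (A2.Mod.FE E (M * q * q)))) w :
          chart (A2.RE P E) ({(x3E E M q)⁻¹} : Set (A2.Mod.FE E (M * q * q)))) :
            A2.Mod.FE E (M * q * q)))
        = algebraMap (A2.RE P E) (A2.Mod.FE E (M * q * q)) w := rfl
    rw [this, sub_self, zero_mul]
  rw [e0, ValuationSubring.mem_nonunits_iff, map_zero]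
  exact zero_lt_one

/-! ## `LeafReg` for `q = 2`, and the final glue -/

/-- **REG for `q = 2`** (leaf-shaped). -/
def LeafReg2 : Prop :=
  Leaf fun P E M q _ _ _ _ _ _ V₁ V₂ V₃ =>
    q = 2 → PartReg (A2.RE P E) (x3E E M q) V₁ V₂ V₃

/-- **REG for `q` odd** (leaf-shaped). -/
def LeafRegOdd : Prop :=
  Leaf fun P E M q _ _ _ _ _ _ V₁ V₂ V₃ =>
    q ≠ 2 → PartReg (A2.RE P E) (x3E E M q) V₁ V₂ V₃

/-- **REG for `q = 2`**: everything but (R-RES) comes from main and (R-U). -/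
theorem leafReg2_of (hSheet : LeafSheet) (hVal : LeafVal) (hQep : LeafQep) (hInc : LeafInc)
    (hRU : H356.LeafRegU) (hRes : LeafResJ) : LeafReg2 := by
  intro P E M q _ _ _ w hStd V₁' V₂' V₁ V₂ V₃ W' W hO hq2
  refine ⟨fun 𝔪 h𝔪 hthr => Or.inr (Or.inl ?_), fun 𝔪 h𝔪 hx hthr => ?_⟩
  · exact leafRegF9_of hSheet hVal hQep hRU hRes P E M q w hStd V₁' V₂' V₁ V₂ V₃ W' W hO
      (hStd.neat.2.2 hq2) 𝔪 h𝔪 hthr
  · exact leafRegI2_of hSheet hVal hQep hInc P E M q w hStd V₁' V₂' V₁ V₂ V₃ W' W hO hq2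
      𝔪 h𝔪 hx hthr

/-- **The final glue.** -/
theorem leafReg_of_two_odd (h2 : LeafReg2) (hodd : LeafRegOdd) : LeafReg := by
  intro P E M q _ _ _ w hStd V₁' V₂' V₁ V₂ V₃ W' W hO
  by_cases hq2 : q = 2
  · exact h2 P E M q w hStd V₁' V₂' V₁ V₂ V₃ W' W hO hq2
  · exact hodd P E M q w hStd V₁' V₂' V₁ V₂ V₃ W' W hO hq2

end Fermat.Agent.S36.Mod3.H890

end
end
-- ===== PACK-END S36/Mod3/H890/RegTwo.lean

-- ===== PACK-BEGIN S36/Mod3/H928/OfCusp.lean
section





/-!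
# S36 / MOD3 — everything but `regular_i` for `q` odd (helper928, integrator)

* `leafReg_of_regIOdd : LeafRegIOdd → Mod3.LeafReg`, `LeafRegIOdd` = the field `regular_i` of
  `PartReg` for `q ≠ 2` (the cusps of the middle component).  Plugged in: `q = 2` completely
  (helper890 `leafReg2_of`, with (R-U) `H356`, (R-RES) `H775`), `regular_f` for `q` odd
  (`H928.leafRegF4`).
* `model3_of_regIOdd : LeafRegIOdd → Eng.Model3Statement`;
* `model3_of_cuspCong : H276.LeafCuspCong → Eng.Model3Statement` (helper276's reduction of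
  `regular_i` to ONE congruence).
-/

set_option autoImplicit false
set_option maxHeartbeats 1600000
set_option synthInstance.maxHeartbeats 400000

noncomputable section

namespace Fermat.Agent.S36.Mod3.H928

open Fermat.Agent.S18.H138 (chart)
open Fermat.Agent.S36.Eng Fermat.Agent.S36.Mod3

/-- The field `regular_i` of `PartReg` at the concrete objects, for `q` odd. -/
def LeafRegIOdd : Prop :=
  Leaf fun P E M q _ _ _ _ _ _ _ V₂ _ => q ≠ 2 →
    ∀ 𝔪 : Ideal (chart (A2.RE P E) ({(x3E E M q)⁻¹} : Set (A2.Mod.FE E (M * q * q)))),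
      𝔪.IsMaximal →
      (⟨(x3E E M q)⁻¹, Fermat.Agent.S18.H138.mem_chart_of_mem rfl⟩ :
        chart (A2.RE P E) ({(x3E E M q)⁻¹} : Set (A2.Mod.FE E (M * q * q)))) ∈ 𝔪 →
      Through _ 𝔪 V₂ → PrincipalAt _ 𝔪 V₂

/-- (R-RES) in helper890's leaf shape, from helper775's `hresJ`. -/
theorem leafResJ928 : Mod3.H890.LeafResJ :=
  fun _ _ _ _ _ _ _ _ hStd _ _ _ _ _ _ _ hO => Mod3.H775.Res.hresJ hStd hO

/-- **REG** from `regular_i` for `q` odd. -/
theorem leafReg_of_regIOdd (hI : LeafRegIOdd) : LeafReg :=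
  have hVT : LeafVT := Mod3.H370.leafVT
  have hTab : LeafTable := Mod3.H370.leafTable
  have hVal : LeafVal := Mod3.H370.leafVal
  have hSh : LeafSheet := Mod3.H985.leafSheet
  have hQep : LeafQep := Mod3.H27.leafQep_of_vt hVT
  have hNR : LeafNR := Mod3.H657.leafNR_of hVal hTab
  have hCh : LeafChart := Mod3.H189.leafChart_of hVT hTab hVal
  have hInc : LeafInc := Mod3.H153.leafInc hTab hCh hQep hVal hSh hNR
  have hRU : Mod3.H356.LeafRegU := Mod3.H356.leafRegU_of hTab hQep hCh hVal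
  Mod3.H890.leafReg_of_two_odd (Mod3.H890.leafReg2_of hSh hVal hQep hInc hRU leafResJ928)
    (fun P E M q _ _ _ w hStd V₁' V₂' V₁ V₂ V₃ W' W hO hq2 =>
      { regular_f := fun 𝔪 h𝔪 ht =>
          Or.inr (Or.inl (leafRegF4 P E M q w hStd V₁' V₂' V₁ V₂ V₃ W' W hO
            (hStd.neat.2.1 hq2) hq2 𝔪 h𝔪 ht))
        regular_i := hI P E M q w hStd V₁' V₂' V₁ V₂ V₃ W' W hO hq2 })

/-- **MOD3 modulo `regular_i` for `q` odd.** -/
theorem model3_of_regIOdd (hI : LeafRegIOdd) : Model3Statement :=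
  model3_of_reg (leafReg_of_regIOdd hI)

/-- **MOD3 modulo the cusp congruence** of helper276. -/
theorem model3_of_cuspCong (hC : Mod3.H276.LeafCuspCong) : Model3Statement :=
  have hVT : LeafVT := Mod3.H370.leafVT
  have hTab : LeafTable := Mod3.H370.leafTable
  have hVal : LeafVal := Mod3.H370.leafVal
  have hSh : LeafSheet := Mod3.H985.leafSheet
  have hQep : LeafQep := Mod3.H27.leafQep_of_vt hVT
  have hNR : LeafNR := Mod3.H657.leafNR_of hVal hTab
  have hCh : LeafChart := Mod3.H189.leafChart_of hVT hTab hVal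
  have hInc : LeafInc := Mod3.H153.leafInc hTab hCh hQep hVal hSh hNR
  model3_of_regIOdd (fun P E M q _ _ _ w hStd V₁' V₂' V₁ V₂ V₃ W' W hO _ =>
    Mod3.H276.leafRegI_of hVal hSh hQep hInc hVT hC P E M q w hStd V₁' V₂' V₁ V₂ V₃ W' W hO)

end Fermat.Agent.S36.Mod3.H928

end

end
-- ===== PACK-END S36/Mod3/H928/OfCusp.lean

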