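import Fermat.Agent.Pack.S36.E19L1
import Fermat.Agent.Pack.S36.E18L0
import Fermat.Agent.Pack.S36.E20L1
import Fermat.Agent.Pack.S36.E20L3
import Fermat.Agent.Pack.S36.E20L0
import Fermat.Agent.Pack.S36.E0L0
import Fermat.Agent.Pack.S36.E20L2
import Fermat.Agent.Pack.S36.E19L3
import Fermat.Agent.Pack.S36.E17L3
import Fermat.Agent.Pack.S36.E13L0
import Fermat.Agent.Pack.S36.E10L3
import Fermat.Agent.Pack.S36.E2L0
import Fermat.Agent.Pack.S36.E17L1
import Fermat.Agent.Pack.S36.E16L0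
import Fermat.Agent.Pack.S36.E15L0
import Fermat.Agent.Pack.S36.E19L0
import Fermat.Agent.Pack.S36.E7L0
import Fermat.Agent.Pack.S36.E12L2

-- ===== PACK-BEGIN S30/Chain/Package.lean
section
/-
S30 — squad-lead chain (helper49): the Kummer packages `H450.KumPackage N m` at EVERY modulus
`m ≠ 0`, UNCONDITIONALLY, from the landed pieces of S29 sub-layer M4b:

* `ex`    : K1 (`H509.exists_isTwisted`) + K3 (`M4b.K3.pieceK3_of_dfrom` on `H282` DFROM)
            + K2 (`H389.exists_isKummerClass_of_realised`);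
* `uniq`, `inj`, `add` : `M4b.H822.pieceUniq / pieceInj / pieceAdd`;
* `hecke` : `M4b.H395.isKum_hecke`.

Together with ONTO (`H810.exists_isKum_of_torsion`) this discharges inputs (K') and (F) of the adic
module layer, so that the frozen S30 follows from input (T) alone (`Chain/FromT.lean`).
-/








set_option autoImplicit false

noncomputable section

open ModularCurve AlgebraicCurve CongruenceSubgroup UpperHalfPlane
open scoped MatrixGroups Manifold

namespace Fermat.Agent.S30.Chain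

open Fermat.Agent.S24 Fermat.Agent.S29 Fermat.Agent.S29.M4b

/-- K3-DFROM in the `Prop` form of `M4b/K3/Fin.lean` (from helper282's `DFrom`). -/
theorem dfromStatement (N : ℕ) [NeZero N] (p : ℕ) [NeZero p] : K3.DFromStatement N p := by
  intro f hf0 hdvd
  have hf0' : (f : LaurentSeries ℂ) ≠ 0 := fun h => hf0 (Subtype.ext h)
  obtain ⟨s, hs, hs0, V, hV, -, hVg, hq, -⟩ :=
    Fermat.Agent.S29.H282.exists_root_of_forall_dvd_ord N p f.2 hf0' hdvd
  exact ⟨s, hs, hs0, V, hV, hVg, hq⟩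

/-- PIECE K3 at every modulus `p ≠ 0`, unconditionally. -/
theorem pieceK3 (N : ℕ) [NeZero N] (p : ℕ) [NeZero p] : PieceK3 N p :=
  K3.pieceK3_of_dfrom N p (dfromStatement N p)

/-- Existence of the Kummer class of a parabolic character, at every modulus `p ≠ 0`. -/
theorem isKum_exists (N : ℕ) [NeZero N] (p : ℕ) [NeZero p] {c : G0 N → ZMod p}
    (hc : IsParHom c) : ∃ x : JZero N, IsKum N p c x := by
  obtain ⟨U, hU⟩ := Fermat.Agent.S29.H509.exists_isTwisted N p hc
  obtain ⟨U', u, hU', hu⟩ := pieceK3 N p hc hU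
  obtain ⟨x, hx⟩ := Fermat.Agent.S29.H389.exists_isKummerClass_of_realised N p hc hU' hu
  refine ⟨x, u, 1, U', one_ne_zero, hx, hU', ?_⟩
  simpa using hu

/-- **The Kummer package at every modulus `m ≠ 0`**, unconditionally. -/
theorem kumPackage (N : ℕ) [NeZero N] (m : ℕ) [NeZero m] : Fermat.Agent.S30.H450.KumPackage N m :=
  Fermat.Agent.S30.H450.KumPackage.of_skeleton
    (fun hc => isKum_exists N m hc)
    (fun h h' => Fermat.Agent.S29.M4b.H822.pieceUniq N m (NeZero.ne m) h h')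
    (fun h => Fermat.Agent.S29.M4b.H822.pieceInj N m (NeZero.ne m) h)
    (fun h h' => Fermat.Agent.S29.M4b.H822.pieceAdd N m (NeZero.ne m) h h')
    (fun ℓ hℓ hfac _ _ hc htr _ hx =>
      Fermat.Agent.S29.M4b.H395.isKum_hecke N m ℓ hℓ hfac hc htr hx)

end Fermat.Agent.S30.Chain

end
end
-- ===== PACK-END S30/Chain/Package.lean

-- ===== PACK-BEGIN S30/Chain/FromT.lean
section
/-
S30 — squad-lead chain (helper49): the frozen statement S30 from input (T) ALONE.

`result_of_T : (∀ N p, H330.TorsionRelations N p) → <frozen S30 statement>`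

All other inputs of the adic module layer are discharged from `main`:
* (K') the Kummer tower: `Chain.kumPackage` (K1 H509, K3 helper42/H282, K2 H389, UNIQ/INJ/ADD H822,
  HECKE H395, tower compatibility H450);
* (F)  finiteness of `J₀(N)[p]`: ONTO `H810.exists_isKum_of_torsion` + `Fin.finite_torsion_of`;
* (P)  `H709.exists_parEigen`;  (Sm) S29 M3;  (GH) H571;  top glue H990; adic layer H330.

(T) = `H330.TorsionRelations N p`: inertia at `ℓ ∤ N p` acts trivially on `J₀(N)(ℚ̄)[p^∞]` and every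
Frobenius at `ℓ` satisfies `σ² - T_ℓ σ + ℓ = 0` there.  It follows from each of the interfaces of
rows S37/S18, see `H330/AdicTorsionRel.lean` (`torsionRelations_of_redData`, `_of_pieces`,
`_of_weakRedData`).  The final `Fermat/Agent/S30.lean` is `Chain.result_of_T hT`.
-/




set_option autoImplicit false
set_option linter.overlappingInstances false

noncomputable section

namespace Fermat.Agent.S30.Chain

open Fermat.Agent.S29 Fermat.Agent.S29.M4b ModularCurve Polynomial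

/-- **S30 from (T) alone.** -/
theorem result_of_T
    (hT : ∀ (N : ℕ) [NeZero N] (p : ℕ) [Fact p.Prime],
      Fermat.Agent.S30.H330.TorsionRelations N p) :
    ∀ (p : ℕ) [Fact p.Prime] (N : ℕ) [NeZero N] (S : Finset ℕ)
      (_hpS : p ∈ S) (_hNS : ∀ q : ℕ, q.Prime → q ∣ N → q ∈ S)
      (𝒪' : Type) [CommRing 𝒪'] [IsDomain 𝒪'] [IsDiscreteValuationRing 𝒪']
      [IsAdicComplete (IsLocalRing.maximalIdeal 𝒪') 𝒪'] [Finite (IsLocalRing.ResidueField 𝒪')]
      [CharZero 𝒪'] (_hp𝒪' : (p : 𝒪') ∈ IsLocalRing.maximalIdeal 𝒪')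
      (χ : CuspForm.heckeAlgebra N 2 (↑S : Set ℕ) →+* 𝒪'),
      ∃ (𝒪'' : Type) (_ : CommRing 𝒪'') (_ : IsDomain 𝒪'') (_ : IsDiscreteValuationRing 𝒪'')
        (_ : IsAdicComplete (IsLocalRing.maximalIdeal 𝒪'') 𝒪'')
        (_ : Finite (IsLocalRing.ResidueField 𝒪'')) (_ : CharZero 𝒪'')
        (_ : Algebra 𝒪' 𝒪'') (_ : Module.Finite 𝒪' 𝒪'') (_ : IsLocalHom (algebraMap 𝒪' 𝒪'')),
      Function.Injective (algebraMap 𝒪' 𝒪'') ∧
      ∃ ρ : GaloisRepAdic 𝒪'',
        (∀ (ℓ : ℕ) (hℓ : ℓ.Prime) (hℓN : ¬ ℓ ∣ N) (hℓS : ℓ ∉ (↑S : Set ℕ)),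
          ∀ A : ValuationSubring (AlgebraicClosure ℚ), A.LiesOverPrime ℓ →
            ∀ σ : AlgebraicClosure ℚ ≃ₐ[ℚ] AlgebraicClosure ℚ, A.IsFrobeniusAt σ ℓ →
              LinearMap.charpoly (ρ.ρ σ) =
                X ^ 2 - C (algebraMap 𝒪' 𝒪'' (χ (CuspForm.heckeAlgebra.T hℓ hℓN hℓS))) * X
                  + C ((ℓ : 𝒪''))) ∧
        (∀ q : ℕ, q.Prime → ¬ q ∣ N → q ≠ p → ρ.IsUnramifiedAt q) :=
  Fermat.Agent.S30.H330.result_of_packages
    (fun N _ p hp n =>
      haveI : NeZero (p ^ n) := ⟨pow_ne_zero n hp.out.ne_zero⟩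
      kumPackage N (p ^ n))
    (fun N _ p hp x hx =>
      haveI : NeZero p := ⟨hp.out.ne_zero⟩
      Fermat.Agent.S30.H810.exists_isKum_of_torsion N p hx)
    hT

end Fermat.Agent.S30.Chain

end
end
-- ===== PACK-END S30/Chain/FromT.lean

-- ===== PACK-BEGIN S30/H683/FiveInputs.lean
section






/-!
# Five inputs of the S30 skeleton, UNCONDITIONALLY (helper683)

The hypotheses `hfin hsm hgeq hunr hes` of

* `Fermat.Agent.S36.H36.result_of_inputs` (row S36, top chain of helper36),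
* `Fermat.Agent.S35.H991.result_of_inputs`, `Fermat.Agent.S34.H789.result_of_inputs`,
  `Fermat.Agent.S32.flatEigenStatement_of_inputs`,

in their EXACT shapes, from the landed rows S18 / S29 / S30 (the sixth input `hlat` is
`Fermat.Agent.S30.H42.tateLattice`, on main):

* `finInput`      (F)  : `J₀(N)[p]` is finite (ONTO `H810` + UNIQ of the Kummer package);
* `smoothInput`   (Sm) : S29 piece M3;
* `galHeckeInput` (GH) : S29 piece M2 (`H571`);
* `unramInput`, `esInput` (T) : the torsion relations of `H694.torsionRelations_of_nodes`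
  (S18 nodes `H216.node_mod`, `H438.node_alg`), extended from prime `p` to EVERY `p : ℕ` by
  primary decomposition (`torsion_induction`).
-/

set_option autoImplicit false

noncomputable section

namespace Fermat.Agent.S30.H683

open ModularCurve

/-- The torsion relations (T) at every prime, unconditionally (as in `Fermat/Agent/S30.lean`). -/
theorem torsionRelations_h683 (N : ℕ) [NeZero N] (p : ℕ) [Fact p.Prime] :
    Fermat.Agent.S30.H330.TorsionRelations N p :=
  Fermat.Agent.S30.H694.torsionRelations_of_nodes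
    (fun M _ _ _ hℓM A hA => Fermat.Agent.S18.Mod.H216.node_mod M hℓM A hA)
    (fun M => Fermat.Agent.S18.H438.node_alg M) N p

/-- (F) -/
theorem finInput : ∀ (N p : ℕ) [NeZero N], p.Prime →
    Finite {x : ModularCurve.JZero N // (p : ℤ) • x = 0} := by
  intro N p _ hp
  haveI : NeZero p := ⟨hp.ne_zero⟩
  have hF : Fermat.Agent.S30.H330.FinStatement N p :=
    Fermat.Agent.S30.H330.finStatement_of_onto
      (Fermat.Agent.S30.Chain.kumPackage N p).uniq
      (fun x hx => Fermat.Agent.S30.H810.exists_isKum_of_torsion N p hx)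
  have hset : {x : ModularCurve.JZero N | (p : ℤ) • x = 0} =
      {x : ModularCurve.JZero N | p • x = 0} := by
    ext x
    simp only [Set.mem_ofPred_eq, natCast_zsmul]
  have : ({x : ModularCurve.JZero N | (p : ℤ) • x = 0}).Finite := by
    rw [hset]
    exact hF
  exact this.to_subtype

/-- (Sm) -/
theorem smoothInput : ∀ (N p : ℕ) [NeZero N], ∀ x : ModularCurve.JZero N,
    (∃ n : ℕ, ((p : ℤ) ^ n) • x = 0) →
      ∃ L : IntermediateField ℚ (AlgebraicClosure ℚ), FiniteDimensional ℚ L ∧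
        ∀ σ : AlgebraicClosure ℚ ≃ₐ[ℚ] AlgebraicClosure ℚ, (∀ y ∈ L, σ y = y) → σ • x = x :=
  fun N _ _ x _ => Fermat.Agent.S29.jZero_smooth N x

/-- (GH) -/
theorem galHeckeInput : ∀ (N : ℕ) [NeZero N] (ℓ : Nat.Primes)
    (σ : AlgebraicClosure ℚ ≃ₐ[ℚ] AlgebraicClosure ℚ) (x : ModularCurve.JZero N),
    ModularCurve.heckeOperatorBar N ℓ (σ • x) = σ • ModularCurve.heckeOperatorBar N ℓ x :=
  fun N _ ℓ σ x => Fermat.Agent.S29.H571.heckeOperatorBar_smul N ℓ σ x

theorem not_dvd_mul_of_dvd_h683 {q N p r : ℕ} (h : ¬ q ∣ N * p) (hr : r ∣ p) : ¬ q ∣ N * r :=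
  fun hd => h (hd.trans (Nat.mul_dvd_mul_left N hr))

theorem pow_ne_zero_of_not_dvd_h683 {q N p : ℕ} (h : ¬ q ∣ N * p) (n : ℕ) : p ^ n ≠ 0 := by
  have hp : p ≠ 0 := by
    rintro rfl
    exact h (by simp)
  exact pow_ne_zero n hp

theorem intCast_pow_zsmul_h683 {J : Type*} [AddCommGroup J] (p n : ℕ) (x : J) :
    (((p ^ n : ℕ) : ℤ)) • x = ((p : ℤ) ^ n) • x := by
  push_cast
  rfl

/-- (T), inertia: for EVERY `p`. -/
theorem unramInput : ∀ (N p : ℕ) [NeZero N], ∀ q : ℕ, q.Prime → ¬ q ∣ N * p →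
    ∀ A : ValuationSubring (AlgebraicClosure ℚ), A.LiesOverPrime q →
      ∀ σ ∈ A.inertiaSubgroupIn ℚ, ∀ x : ModularCurve.JZero N,
        (∃ n : ℕ, ((p : ℤ) ^ n) • x = 0) → σ • x = x := by
  intro N p _ q hq hqNp A hA σ hσ x ⟨n, hx⟩
  have h0 : σ • (0 : ModularCurve.JZero N) = 0 := smul_zero (A := ModularCurve.JZero N) σ
  have hadd : ∀ y z : ModularCurve.JZero N, σ • (y + z) = σ • y + σ • z :=
    fun y z => smul_add σ y z
  refine torsion_induction (C := fun y : ModularCurve.JZero N => σ • y = y) h0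
    (fun y z hy hz => by rw [hadd, hy, hz]) (p ^ n) (pow_ne_zero_of_not_dvd_h683 hqNp n)
    (fun r hr hrd y ⟨k, hy⟩ => ?_) x (by rw [intCast_pow_zsmul_h683]; exact hx)
  haveI : Fact r.Prime := ⟨hr⟩
  have hrp : r ∣ p := hr.dvd_of_dvd_pow hrd
  refine ((torsionRelations_h683 N r) q hq (not_dvd_mul_of_dvd_h683 hqNp hrp) A hA).1 σ hσ y
    ⟨k, ?_⟩
  rw [← natCast_zsmul, intCast_pow_zsmul_h683]
  exact hy

/-- (T), Eichler–Shimura relation: for EVERY `p`. -/
theorem esInput : ∀ (N p : ℕ) [NeZero N], ∀ (ℓ : ℕ) (hℓ : ℓ.Prime), ¬ ℓ ∣ N * p →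
    ∀ A : ValuationSubring (AlgebraicClosure ℚ), A.LiesOverPrime ℓ →
      ∀ σ : AlgebraicClosure ℚ ≃ₐ[ℚ] AlgebraicClosure ℚ, A.IsFrobeniusAt σ ℓ →
        ∀ x : ModularCurve.JZero N, (∃ n : ℕ, ((p : ℤ) ^ n) • x = 0) →
          σ • σ • x - ModularCurve.heckeOperatorBar N ⟨ℓ, hℓ⟩ (σ • x) + (ℓ : ℤ) • x = 0 := by
  intro N p _ ℓ hℓ hℓNp A hA σ hσ x ⟨n, hx⟩
  have h0 : σ • (0 : ModularCurve.JZero N) = 0 := smul_zero (A := ModularCurve.JZero N) σ
  have hadd : ∀ y z : ModularCurve.JZero N, σ • (y + z) = σ • y + σ • z :=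
    fun y z => smul_add σ y z
  refine torsion_induction
    (C := fun y : ModularCurve.JZero N =>
      σ • σ • y - ModularCurve.heckeOperatorBar N ⟨ℓ, hℓ⟩ (σ • y) + (ℓ : ℤ) • y = 0)
    (by rw [h0, h0, map_zero, smul_zero, sub_zero, add_zero]) (fun y z hy hz => ?_) (p ^ n)
    (pow_ne_zero_of_not_dvd_h683 hℓNp n)
    (fun r hr hrd y ⟨k, hy⟩ => ?_) x (by rw [intCast_pow_zsmul_h683]; exact hx)
  · have e : σ • σ • (y + z) - ModularCurve.heckeOperatorBar N ⟨ℓ, hℓ⟩ (σ • (y + z))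
        + (ℓ : ℤ) • (y + z) =
        (σ • σ • y - ModularCurve.heckeOperatorBar N ⟨ℓ, hℓ⟩ (σ • y) + (ℓ : ℤ) • y) +
        (σ • σ • z - ModularCurve.heckeOperatorBar N ⟨ℓ, hℓ⟩ (σ • z) + (ℓ : ℤ) • z) := by
      rw [hadd, hadd, map_add, zsmul_add]
      abel
    rw [e, hy, hz, add_zero]
  · haveI : Fact r.Prime := ⟨hr⟩
    have hrp : r ∣ p := hr.dvd_of_dvd_pow hrd
    have h := ((torsionRelations_h683 N r) ℓ hℓ (not_dvd_mul_of_dvd_h683 hℓNp hrp) A hA).2 σ hσ y
      ⟨k, by rw [← natCast_zsmul, intCast_pow_zsmul_h683]; exact hy⟩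
    rw [← natCast_zsmul] at h
    exact h

end Fermat.Agent.S30.H683

end
end
-- ===== PACK-END S30/H683/FiveInputs.lean

-- ===== PACK-BEGIN S30/H42/TateLattice.lean
section
/-
S30 / S32 / S34 / S35 -- the TATE LATTICE input `hlat` (helper42).

`tateLattice` has EXACTLY the shape of the hypothesis `hlat` of
`Fermat/Agent/S32/Eig.lean` (`flatEigenStatement_of_inputs`), `S35/H991/Wired.lean` and
`S34/H789/Inputs.lean`:

* `Λ`  := the `ℤ`-module of parabolic additive characters `Γ₀(N) → ℤ` (`parLattice N`), finite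
  (restriction to a finite generating set is injective) and torsion-free, hence free;
* `TΛ ℓ` := the cohomological Hecke operator `heckeCoh N ℓ` (for `ℓ ∤ N`, else `0`);
* `κ n c` := the Kummer class of `c mod p ^ n` (Kummer tower of `H450`, packages of `Chain`);
* occurrence of every Hecke character in `R ⊗ Λ`: `H169.exists_eigen_parLattice_coord` and
  flatness of the torsion-free `ℤ`-module `R`.
-/




set_option autoImplicit false
set_option linter.style.haveILetI false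

noncomputable section

namespace Fermat.Agent.S30.H42

open Fermat.Agent.S29 (G0 IsParHom heckeCoh)
open ModularCurve
open scoped TensorProduct

/-! ### The lattice of parabolic characters -/

/-- The `ℤ`-module of parabolic additive characters `Γ₀(N) → ℤ`. -/
def parLattice (N : ℕ) : Submodule ℤ (G0 N → ℤ) where
  carrier := {c | IsParHom c}
  add_mem' := by
    intro c c' hc hc'
    refine ⟨fun γ γ' => ?_, fun γ hγ => ?_, fun γ n hn hγ => ?_⟩
    · simp only [Pi.add_apply, hc.map_mul, hc'.map_mul]; ring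
    · simp only [Pi.add_apply, hc.parabolic γ hγ, hc'.parabolic γ hγ, add_zero]
    · simp only [Pi.add_apply, hc.elliptic γ n hn hγ, hc'.elliptic γ n hn hγ, add_zero]
  zero_mem' := ⟨fun _ _ => by simp, fun _ _ => rfl, fun _ _ _ _ => rfl⟩
  smul_mem' := by
    intro a c hc
    refine ⟨fun γ γ' => ?_, fun γ hγ => ?_, fun γ n hn hγ => ?_⟩
    · simp only [Pi.smul_apply, hc.map_mul, smul_add]
    · simp only [Pi.smul_apply, hc.parabolic γ hγ, smul_zero]
    · simp only [Pi.smul_apply, hc.elliptic γ n hn hγ, smul_zero]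

theorem mem_parLattice {N : ℕ} {c : G0 N → ℤ} : c ∈ parLattice N ↔ IsParHom c := Iff.rfl

/-- A character is determined by its values on a generating set. -/
theorem parHom_eq_zero_of_closure {N : ℕ} {A : Type*} [AddCommGroup A] {c : G0 N → A}
    (hc : IsParHom c) (S₀ : Set (G0 N)) (hS₀ : Subgroup.closure S₀ = ⊤)
    (h0 : ∀ γ ∈ S₀, c γ = 0) (γ : G0 N) : c γ = 0 := by
  have h1 : c 1 = 0 := by
    have := hc.map_mul 1 1
    rw [mul_one] at this
    exact (add_eq_left.mp this.symm)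
  have hγ : γ ∈ Subgroup.closure S₀ := hS₀ ▸ Subgroup.mem_top γ
  induction hγ using Subgroup.closure_induction with
  | mem x hx => exact h0 x hx
  | one => exact h1
  | mul x y _ _ hx hy => rw [hc.map_mul, hx, hy, add_zero]
  | inv x _ hx =>
    have := hc.map_mul x x⁻¹
    rw [mul_inv_cancel, h1, hx, zero_add] at this
    exact this.symm

instance parLattice_finite (N : ℕ) [NeZero N] : Module.Finite ℤ (parLattice N) := by
  classical
  obtain ⟨S₀, hS₀, hS₀fin⟩ := Group.fg_iff.mp (Fermat.Agent.S29.M4aTop_fg_Gamma0 N)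
  haveI : Finite S₀ := hS₀fin
  let r : parLattice N →ₗ[ℤ] (S₀ → ℤ) :=
    { toFun := fun c γ => (c : G0 N → ℤ) γ
      map_add' := fun _ _ => rfl
      map_smul' := fun _ _ => rfl }
  have hr : Function.Injective r := by
    rw [← LinearMap.ker_eq_bot, LinearMap.ker_eq_bot']
    intro c hc
    apply Subtype.ext
    funext γ
    exact parHom_eq_zero_of_closure c.2 S₀ hS₀ (fun δ hδ => congrFun hc ⟨δ, hδ⟩) γ
  exact Module.Finite.of_injective r hr

instance parLattice_free (N : ℕ) [NeZero N] : Module.Free ℤ (parLattice N) :=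
  Module.free_of_finite_type_torsion_free'

/-! ### The Hecke operators on the lattice -/

theorem heckeCoh_add_h42 (N : ℕ) {A : Type*} [AddCommMonoid A] (ℓ : ℕ) (c c' : G0 N → A) :
    heckeCoh N ℓ (c + c') = heckeCoh N ℓ c + heckeCoh N ℓ c' := by
  funext γ
  simp only [heckeCoh, Pi.add_apply, Finset.sum_add_distrib]

theorem heckeCoh_zsmul_h42 (N : ℕ) (ℓ : ℕ) (a : ℤ) (c : G0 N → ℤ) :
    heckeCoh N ℓ (a • c) = a • heckeCoh N ℓ c := by
  funext γ
  simp only [heckeCoh, Pi.smul_apply, Finset.smul_sum]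

theorem heckeCoh_map_h42 (N : ℕ) {A B : Type*} [AddCommMonoid A] [AddCommMonoid B] (ℓ : ℕ)
    (f : A →+ B) (c : G0 N → A) :
    heckeCoh N ℓ (fun γ => f (c γ)) = fun γ => f (heckeCoh N ℓ c γ) := by
  funext γ
  simp only [heckeCoh, map_sum]

open Classical in
/-- The Hecke operator `T_ℓ` on the lattice of parabolic characters (`0` if `ℓ ∣ N`). -/
def TLat (N : ℕ) [NeZero N] (ℓ : Nat.Primes) : parLattice N →ₗ[ℤ] parLattice N :=
  if h : ¬ (ℓ : ℕ) ∣ N then
    { toFun := fun c => ⟨heckeCoh N ℓ (c : G0 N → ℤ),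
        Fermat.Agent.S29.isParHom_heckeCoh N ℓ.2 h c.2⟩
      map_add' := fun _ _ => Subtype.ext (heckeCoh_add_h42 N ℓ _ _)
      map_smul' := fun a _ => Subtype.ext (heckeCoh_zsmul_h42 N ℓ a _) }
  else 0

theorem TLat_coe {N : ℕ} [NeZero N] {ℓ : Nat.Primes} (h : ¬ (ℓ : ℕ) ∣ N) (c : parLattice N) :
    ((TLat N ℓ c : parLattice N) : G0 N → ℤ) = heckeCoh N ℓ (c : G0 N → ℤ) := by
  rw [TLat, dif_pos h]
  rfl

/-! ### Reduction of characters modulo `m` -/

/-- Reduction of an integral character modulo `m`. -/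
def redChar {N : ℕ} (m : ℕ) (c : G0 N → ℤ) : G0 N → ZMod m := fun γ => ((c γ : ℤ) : ZMod m)

theorem redChar_add {N : ℕ} (m : ℕ) (c c' : G0 N → ℤ) :
    redChar m (c + c') = redChar m c + redChar m c' := by
  funext γ
  simp only [redChar, Pi.add_apply, Int.cast_add]

theorem redChar_zero {N : ℕ} (m : ℕ) : redChar m (0 : G0 N → ℤ) = 0 := by
  funext γ
  simp only [redChar, Pi.zero_apply, Int.cast_zero]

theorem isParHom_redChar {N : ℕ} (m : ℕ) {c : G0 N → ℤ} (hc : IsParHom c) :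
    IsParHom (redChar m c) := by
  refine ⟨fun γ γ' => ?_, fun γ hγ => ?_, fun γ n hn hγ => ?_⟩
  · simp only [redChar, hc.map_mul, Int.cast_add]
  · simp only [redChar, hc.parabolic γ hγ, Int.cast_zero]
  · simp only [redChar, hc.elliptic γ n hn hγ, Int.cast_zero]

theorem redChar_heckeCoh {N : ℕ} (m : ℕ) (ℓ : ℕ) (c : G0 N → ℤ) :
    redChar m (heckeCoh N ℓ c) = heckeCoh N ℓ (redChar m c) :=
  (heckeCoh_map_h42 N ℓ (Int.castAddHom (ZMod m)) c).symm

theorem redChar_eq_zero_iff {N : ℕ} (m : ℕ) (c : G0 N → ℤ) :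
    redChar m c = 0 ↔ ∀ γ, (m : ℤ) ∣ c γ := by
  constructor
  · intro h γ
    exact (ZMod.intCast_zmod_eq_zero_iff_dvd _ _).mp (congrFun h γ)
  · intro h
    funext γ
    exact (ZMod.intCast_zmod_eq_zero_iff_dvd _ _).mpr (h γ)

/-- Division of a parabolic character by `m ≠ 0` when all its values are divisible by `m`. -/
theorem exists_parLattice_eq_smul {N : ℕ} {m : ℤ} (hm : m ≠ 0) (x : parLattice N)
    (h : ∀ γ, m ∣ (x : G0 N → ℤ) γ) : ∃ y : parLattice N, x = m • y := by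
  have hx : IsParHom (x : G0 N → ℤ) := x.2
  have hy : ∀ γ, (x : G0 N → ℤ) γ = m * ((x : G0 N → ℤ) γ / m) :=
    fun γ => (Int.mul_ediv_cancel' (h γ)).symm
  refine ⟨⟨fun γ => (x : G0 N → ℤ) γ / m, ⟨fun γ γ' => ?_, fun γ hγ => ?_, fun γ n hn hγ => ?_⟩⟩,
    ?_⟩
  · apply mul_left_cancel₀ hm
    rw [mul_add, ← hy, ← hy, ← hy, hx.map_mul]
  · rw [hx.parabolic γ hγ, Int.zero_ediv]
  · rw [hx.elliptic γ n hn hγ, Int.zero_ediv]
  · apply Subtype.ext
    funext γ
    simp only [Submodule.coe_smul, Pi.smul_apply, smul_eq_mul]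
    exact hy γ

/-! ### The Kummer maps on the lattice -/

/-- The Kummer tower on the lattice: additivity, kernel, compatibility, Hecke-equivariance. -/
theorem exists_kummerLattice (N p : ℕ) [NeZero N] [NeZero p] :
    ∃ κ : ℕ → parLattice N →ₗ[ℤ] JZero N,
      (∀ (n : ℕ) (x : parLattice N), κ n x = 0 ↔ ∃ y : parLattice N, x = ((p : ℤ) ^ n) • y) ∧
      (∀ (n : ℕ) (x : parLattice N), (p : ℤ) • κ (n + 1) x = κ n x) ∧
      (∀ ℓ : Nat.Primes, ¬ (ℓ : ℕ) ∣ N * p → ∀ (n : ℕ) (x : parLattice N),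
        κ n (TLat N ℓ x) = heckeOperatorBar N ℓ (κ n x)) := by
  obtain ⟨κ₀, -, hadd, hinj, hcompat, hhecke⟩ :=
    Fermat.Agent.S30.H450.exists_kummerTower_isKum_of (N := N) (p := p)
      (fun n => Fermat.Agent.S30.Chain.kumPackage N (p ^ n))
  have hzero : ∀ n, κ₀ n 0 = 0 := by
    intro n
    have h0 : IsParHom (0 : G0 N → ZMod (p ^ n)) := by
      have := isParHom_redChar (N := N) (p ^ n) (parLattice N).zero_mem
      rwa [redChar_zero] at this
    have := hadd n 0 0 h0 h0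
    rw [add_zero] at this
    exact add_eq_left.mp this.symm
  let κ : ℕ → parLattice N →ₗ[ℤ] JZero N := fun n =>
    (AddMonoidHom.mk' (fun c : parLattice N => κ₀ n (redChar (p ^ n) (c : G0 N → ℤ)))
      (fun c c' => by
        show κ₀ n (redChar (p ^ n) ((c : G0 N → ℤ) + (c' : G0 N → ℤ))) = _
        rw [redChar_add]
        exact hadd n _ _ (isParHom_redChar _ c.2) (isParHom_redChar _ c'.2))).toIntLinearMap
  have hκ : ∀ n (c : parLattice N), κ n c = κ₀ n (redChar (p ^ n) (c : G0 N → ℤ)) :=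
    fun _ _ => rfl
  have hpn : ∀ n : ℕ, ((p : ℤ) ^ n) ≠ 0 := fun n =>
    pow_ne_zero _ (by exact_mod_cast NeZero.ne p)
  refine ⟨κ, fun n x => ⟨fun h => ?_, fun h => ?_⟩, fun n x => ?_, fun ℓ hℓ n x => ?_⟩
  · rw [hκ] at h
    have h1 := hinj n _ (isParHom_redChar _ x.2) h
    rw [redChar_eq_zero_iff] at h1
    refine exists_parLattice_eq_smul (hpn n) x (fun γ => ?_)
    have := h1 γ
    rwa [Nat.cast_pow] at this
  · obtain ⟨y, rfl⟩ := h
    rw [hκ]
    have : redChar (p ^ n) ((((p : ℤ) ^ n) • y : parLattice N) : G0 N → ℤ) = 0 := by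
      rw [redChar_eq_zero_iff]
      intro γ
      rw [Nat.cast_pow]
      exact ⟨(y : G0 N → ℤ) γ, rfl⟩
    rw [this, hzero]
  · rw [hκ, hκ, hcompat n _ (isParHom_redChar _ x.2)]
    congr 1
    funext γ
    simp only [redChar, map_intCast]
  · have hℓN : ¬ (ℓ : ℕ) ∣ N := fun hd => hℓ (Dvd.dvd.mul_right hd p)
    rw [hκ, hκ, TLat_coe hℓN, redChar_heckeCoh]
    exact hhecke ℓ hℓ n _ (isParHom_redChar _ x.2)

/-! ### Occurrence of Hecke characters in `R ⊗ Λ` -/

/-- An additive function on `Γ₀(N)` vanishing on a generating set vanishes. -/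
theorem addFun_eq_zero_of_closure {N : ℕ} {A : Type*} [AddCommGroup A] {c : G0 N → A}
    (hc : ∀ γ γ' : G0 N, c (γ * γ') = c γ + c γ') (S₀ : Set (G0 N))
    (hS₀ : Subgroup.closure S₀ = ⊤) (h0 : ∀ γ ∈ S₀, c γ = 0) (γ : G0 N) : c γ = 0 := by
  have h1 : c 1 = 0 := by
    have := hc 1 1
    rw [mul_one] at this
    exact (add_eq_left.mp this.symm)
  have hγ : γ ∈ Subgroup.closure S₀ := hS₀ ▸ Subgroup.mem_top γ
  induction hγ using Subgroup.closure_induction with
  | mem x hx => exact h0 x hx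
  | one => exact h1
  | mul x y _ _ hx hy => rw [hc, hx, hy, add_zero]
  | inv x _ hx =>
    have := hc x x⁻¹
    rw [mul_inv_cancel, h1, hx, zero_add] at this
    exact this.symm

/-- Every character of the Hecke algebra with values in a characteristic-zero domain `R` occurs
in `R ⊗ Λ`. -/
theorem exists_occ (N : ℕ) [NeZero N] (S : Set ℕ) (R : Type) [CommRing R] [IsDomain R]
    [CharZero R] (χ : CuspForm.heckeAlgebra N 2 S →+* R) :
    ∃ v : R ⊗[ℤ] parLattice N, v ≠ 0 ∧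
      ∀ (ℓ : ℕ) (hℓ : ℓ.Prime) (hℓN : ¬ ℓ ∣ N) (hℓS : ℓ ∉ S),
        (TLat N ⟨ℓ, hℓ⟩).baseChange R v = χ (CuspForm.heckeAlgebra.T hℓ hℓN hℓS) • v := by
  classical
  obtain ⟨n, w, c, hc, ⟨γ₀, hγ₀⟩, heig⟩ :=
    Fermat.Agent.S30.H169.exists_eigen_parLattice_coord N S R χ
  obtain ⟨S₀, hS₀, hS₀fin⟩ := Group.fg_iff.mp (Fermat.Agent.S29.M4aTop_fg_Gamma0 N)
  letI : Fintype S₀ := hS₀fin.fintype
  -- restriction to the generating set
  let r : parLattice N →ₗ[ℤ] (S₀ → ℤ) :=
    { toFun := fun c γ => (c : G0 N → ℤ) γ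
      map_add' := fun _ _ => rfl
      map_smul' := fun _ _ => rfl }
  have hr : Function.Injective r := by
    rw [← LinearMap.ker_eq_bot, LinearMap.ker_eq_bot']
    intro c hc
    apply Subtype.ext
    funext γ
    exact parHom_eq_zero_of_closure c.2 S₀ hS₀ (fun δ hδ => congrFun hc ⟨δ, hδ⟩) γ
  let E : R ⊗[ℤ] parLattice N →ₗ[R] (S₀ → R) :=
    (TensorProduct.piScalarRight ℤ R R S₀).toLinearMap ∘ₗ (r.baseChange R)
  have hE : Function.Injective E := by
    have h1 : Function.Injective (r.baseChange R) := by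
      rw [LinearMap.baseChange_eq_ltensor]
      exact Module.Flat.lTensor_preserves_injective_linearMap r hr
    exact (TensorProduct.piScalarRight ℤ R R S₀).injective.comp h1
  have hEt : ∀ (a : R) (x : parLattice N) (γ : S₀),
      E (a ⊗ₜ[ℤ] x) γ = a * (((x : G0 N → ℤ) γ : ℤ) : R) := by
    intro a x γ
    show (TensorProduct.piScalarRight ℤ R R S₀) ((r.baseChange R) (a ⊗ₜ[ℤ] x)) γ = _
    rw [LinearMap.baseChange_tmul, TensorProduct.piScalarRight_apply,
      TensorProduct.piScalarRightHom_tmul]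
    show (r x γ : ℤ) • a = _
    rw [zsmul_eq_mul, mul_comm]
    rfl
  let v : R ⊗[ℤ] parLattice N := ∑ j, w j ⊗ₜ[ℤ] (⟨c j, hc j⟩ : parLattice N)
  have hEv : ∀ γ : S₀, E v γ = ∑ j, w j * ((c j γ : ℤ) : R) := by
    intro γ
    simp only [v, map_sum, Finset.sum_apply, hEt]
  refine ⟨v, fun hv => hγ₀ ?_, fun ℓ hℓ hℓN hℓS => hE ?_⟩
  · -- the `R`-valued character `∑ w j * c j` vanishes on the generators
    refine addFun_eq_zero_of_closure (c := fun γ => ∑ j, w j * ((c j γ : ℤ) : R))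
      (fun γ γ' => ?_) S₀ hS₀ (fun γ hγ => ?_) γ₀
    · simp only [(hc _).map_mul, Int.cast_add, mul_add, Finset.sum_add_distrib]
    · have := hEv ⟨γ, hγ⟩
      rw [hv, map_zero] at this
      exact this.symm
  · funext γ
    have h1 : E ((TLat N ⟨ℓ, hℓ⟩).baseChange R v) γ
        = ∑ j, w j * ((heckeCoh N ℓ (c j) γ : ℤ) : R) := by
      simp only [v, map_sum, LinearMap.baseChange_tmul, Finset.sum_apply, hEt]
      refine Finset.sum_congr rfl fun j _ => ?_
      rw [TLat_coe (ℓ := ⟨ℓ, hℓ⟩) hℓN]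
    rw [h1, map_smul, Pi.smul_apply, hEv, smul_eq_mul]
    exact heig ℓ hℓ hℓN hℓS γ

/-! ### The Tate lattice -/

/-- **The Tate lattice** (input `hlat` of `S32/Eig.lean`, `S35/H991/Wired.lean`,
`S34/H789/Inputs.lean`, in exactly that shape). -/
theorem tateLattice : ∀ (N p : ℕ) [NeZero N], p.Prime →
    ∃ (Λ : Type) (_ : AddCommGroup Λ) (_ : Module.Free ℤ Λ) (_ : Module.Finite ℤ Λ)
      (TΛ : Nat.Primes → Λ →ₗ[ℤ] Λ) (κ : ℕ → Λ →ₗ[ℤ] ModularCurve.JZero N),
      (∀ (n : ℕ) (x : Λ), κ n x = 0 ↔ ∃ y : Λ, x = ((p : ℤ) ^ n) • y) ∧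
      (∀ (n : ℕ) (x : Λ), (p : ℤ) • κ (n + 1) x = κ n x) ∧
      (∀ ℓ : Nat.Primes, ¬ (ℓ : ℕ) ∣ N * p → ∀ (n : ℕ) (x : Λ),
        κ n (TΛ ℓ x) = ModularCurve.heckeOperatorBar N ℓ (κ n x)) ∧
      (∀ (S : Set ℕ) (R : Type) [CommRing R] [IsDomain R] [CharZero R]
        (χ : CuspForm.heckeAlgebra N 2 S →+* R),
        ∃ v : R ⊗[ℤ] Λ, v ≠ 0 ∧
          ∀ (ℓ : ℕ) (hℓ : ℓ.Prime) (hℓN : ¬ ℓ ∣ N) (hℓS : ℓ ∉ S),
            (TΛ ⟨ℓ, hℓ⟩).baseChange R v = χ (CuspForm.heckeAlgebra.T hℓ hℓN hℓS) • v) := by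
  intro N p _ hp
  haveI : NeZero p := ⟨hp.ne_zero⟩
  obtain ⟨κ, h1, h2, h3⟩ := exists_kummerLattice N p
  exact ⟨parLattice N, inferInstance, parLattice_free N, parLattice_finite N, TLat N, κ,
    h1, h2, h3, fun S R _ _ _ χ => exists_occ N S R χ⟩

end Fermat.Agent.S30.H42

end
end
-- ===== PACK-END S30/H42/TateLattice.lean

-- ===== PACK-BEGIN S35/H252/Factor.lean
section
/-
S35, piece (X-J) (helper252): `XJacStatement` ("FACTOR"), UNCONDITIONAL.

A polynomial `t` in the Hecke operators `T_ℓ`, `ℓ ∉ S` (`p ∈ S`, primes of `N` in `S`), which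
vanishes on `S₂(Γ₀(N))` kills the `p`-power torsion of `J₀(N)(ℚ̄)`.

Route (all inputs on main):
* ONTO  (`S30.H810.exists_isParHom_isKum_of_torsion`): every `m`-torsion class `x` is the Kummer
  class of a parabolic character `c : Γ₀(N) → ℤ/m`;
* HFree (`Lib.HFree.H412.exists_lift_isPe`): `c` lifts to an integral parabolic character `c'`;
* S21   (`Lib.HFree.H412.exists_mem_intPerLattice`): `c'` is the real period character of a cusp
  form `f`;
* the relation `JRel x f` so obtained is additive, `ℤ`-homogeneous and Hecke-equivariant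
  (`S30.Chain.kumPackage` + `S29.H201.periodMap_heckeTLin`), and `JRel x 0 → x = 0`.
-/






set_option autoImplicit false
set_option linter.unusedSectionVars false
set_option linter.style.haveILetI false

open CuspForm CongruenceSubgroup ModularFormClass ModularCurve ModularCurve.Period
open scoped MatrixGroups

namespace Fermat.Agent.S35.H252

open Fermat.Agent.S29 (G0 IsParHom heckeCoh)
open Fermat.Agent.S29.M4b (IsKum)
open Fermat.Agent.S30.H450 (KumPackage)
open Fermat.Agent.S29.H201 (heckeHom heckeHom_comp heckeHom_mem_pe IsPe)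
open Fermat.Agent.S21 (reHom periodMap_add periodMap_smul)
open Fermat.Agent.Lib.HFree.H412 (bundle bundle_apply isPe_bundle heckeHom_bundle isPe_int
  exists_lift_isPe exists_mem_intPerLattice reHom_periodMap_heckeTLin)

variable {N m : ℕ} [NeZero N]

/-! ### Small facts on the Kummer relation -/

/-- The zero character is parabolic. -/
theorem xj_isParHom_zero : IsParHom (0 : G0 N → ZMod m) :=
  ⟨fun _ _ => by simp, fun _ _ => rfl, fun _ _ _ _ => rfl⟩

/-- The Kummer class of the zero character is zero. -/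
theorem xj_isKum_zero (K : KumPackage N m) : IsKum N m (0 : G0 N → ZMod m) (0 : JZero N) := by
  obtain ⟨x0, h0⟩ := K.ex 0 xj_isParHom_zero
  have h1 := K.add 0 0 x0 x0 h0 h0
  rw [add_zero] at h1
  have hx : x0 + x0 = x0 := K.uniq 0 _ _ h1 h0
  have hx0 : x0 = 0 := by simpa using hx
  rwa [hx0] at h0

/-- Natural multiples of a Kummer pair. -/
theorem xj_isKum_nsmul (K : KumPackage N m) {c : G0 N → ZMod m} {x : JZero N}
    (h : IsKum N m c x) (n : ℕ) : IsKum N m (n • c) (n • x) := by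
  induction n with
  | zero => simpa using xj_isKum_zero K
  | succ k ih =>
    rw [succ_nsmul, succ_nsmul]
    exact K.add _ _ _ _ ih h

/-- Integral multiples of a Kummer pair killed by `m`. -/
theorem xj_isKum_zsmul [NeZero m] (K : KumPackage N m) {c : G0 N → ZMod m} {x : JZero N}
    (hx : (m : ℤ) • x = 0) (h : IsKum N m c x) (a : ℤ) :
    IsKum N m (fun γ => (a : ZMod m) * c γ) (a • x) := by
  set n : ℕ := (a % (m : ℤ)).toNat with hn
  have hm0 : (m : ℤ) ≠ 0 := by exact_mod_cast NeZero.ne m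
  have hnz : (n : ℤ) = a % (m : ℤ) := Int.toNat_of_nonneg (Int.emod_nonneg _ hm0)
  have hax : a • x = n • x := by
    have hdecomp : a = (m : ℤ) * (a / (m : ℤ)) + (n : ℤ) := by
      rw [hnz]; exact (Int.mul_ediv_add_emod a m).symm
    rw [hdecomp, add_zsmul, mul_comm, mul_zsmul, hx, smul_zero, zero_add, natCast_zsmul]
  have hna : (n : ZMod m) = (a : ZMod m) := by
    have : ((n : ℤ) : ZMod m) = ((a % (m : ℤ) : ℤ) : ZMod m) := by rw [hnz]
    rw [Int.cast_natCast] at this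
    rw [this]
    exact (ZMod.intCast_mod a m)
  have h2 : IsKum N m (n • c) (n • x) := xj_isKum_nsmul K h n
  have hc : (n • c) = fun γ => (a : ZMod m) * c γ := by
    funext γ
    rw [Pi.smul_apply, nsmul_eq_mul, hna]
  rw [hax, ← hc]
  exact h2

/-! ### The relation between torsion points and cusp forms -/

/-- `x ∈ J₀(N)[m]` and the cusp form `f` are related: the Kummer character of `x` is the
reduction modulo `m` of the (integral) real period character of `f`. -/
def JRel (N m : ℕ) [NeZero N] (x : JZero N) (f : CuspForm (Gamma0 N) 2) : Prop :=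
  (m : ℤ) • x = 0 ∧ ∃ c' : Additive (Gamma0 N) →+ ℤ, IsParabolicHom (Gamma0 N) c' ∧
    reHom (periodMap N f) = (Int.castAddHom ℝ).comp c' ∧
    IsKum N m (fun γ : G0 N => ((c' (Additive.ofMul γ) : ℤ) : ZMod m)) x

/-- Every `m`-torsion point is related to a cusp form. -/
theorem jRel_exists [NeZero m] {x : JZero N} (hx : (m : ℤ) • x = 0) :
    ∃ f : CuspForm (Gamma0 N) 2, JRel N m x f := by
  obtain ⟨c, hc, hk⟩ := Fermat.Agent.S30.H810.exists_isParHom_isKum_of_torsion N m hx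
  obtain ⟨c', hc'par, hc'red⟩ := exists_lift_isPe m (bundle c hc) (isPe_bundle c hc)
  obtain ⟨f, hf⟩ := exists_mem_intPerLattice c' hc'par
  refine ⟨f, hx, c', hc'par, hf, ?_⟩
  have hcc : (fun γ : G0 N => ((c' (Additive.ofMul γ) : ℤ) : ZMod m)) = c := by
    funext γ
    have := DFunLike.congr_fun hc'red (Additive.ofMul γ)
    rw [bundle_apply] at this
    exact this
  rw [hcc]
  exact hk

theorem jRel_add (K : KumPackage N m) {x x' : JZero N} {f f' : CuspForm (Gamma0 N) 2}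
    (h : JRel N m x f) (h' : JRel N m x' f') : JRel N m (x + x') (f + f') := by
  obtain ⟨hx, c, hc, hf, hk⟩ := h
  obtain ⟨hx', d, hd, hf', hk'⟩ := h'
  refine ⟨by rw [zsmul_add, hx, hx', add_zero], c + d, fun γ hγ => ?_, ?_, ?_⟩
  · show c (Additive.ofMul γ) + d (Additive.ofMul γ) = 0
    rw [hc γ hγ, hd γ hγ, add_zero]
  · refine AddMonoidHom.ext fun γ => ?_
    have h1 : (periodMap N f γ).re = ((c γ : ℤ) : ℝ) := DFunLike.congr_fun hf γ
    have h2 : (periodMap N f' γ).re = ((d γ : ℤ) : ℝ) := DFunLike.congr_fun hf' γ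
    show (periodMap N (f + f') γ).re = (((c + d) γ : ℤ) : ℝ)
    rw [periodMap_add, AddMonoidHom.add_apply, Complex.add_re, h1, h2,
      AddMonoidHom.add_apply]
    push_cast
    rfl
  · have h3 := K.add _ _ _ _ hk hk'
    have hcd : ((fun γ : G0 N => ((c (Additive.ofMul γ) : ℤ) : ZMod m)) +
        fun γ : G0 N => ((d (Additive.ofMul γ) : ℤ) : ZMod m))
        = fun γ : G0 N => (((c + d) (Additive.ofMul γ) : ℤ) : ZMod m) := by
      funext γ
      rw [Pi.add_apply, AddMonoidHom.add_apply]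
      push_cast
      rfl
    rw [hcd] at h3
    exact h3

theorem jRel_zsmul [NeZero m] (K : KumPackage N m) {x : JZero N} {f : CuspForm (Gamma0 N) 2}
    (h : JRel N m x f) (a : ℤ) : JRel N m (a • x) (a • f) := by
  obtain ⟨hx, c, hc, hf, hk⟩ := h
  refine ⟨by rw [smul_comm, hx, smul_zero], a • c, fun γ hγ => ?_, ?_, ?_⟩
  · show a • c (Additive.ofMul γ) = 0
    rw [hc γ hγ, smul_zero]
  · refine AddMonoidHom.ext fun γ => ?_
    have h1 : (periodMap N f γ).re = ((c γ : ℤ) : ℝ) := DFunLike.congr_fun hf γ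
    have hsmul : periodMap N (a • f) = (a : ℂ) • periodMap N f := by
      rw [← periodMap_smul, Int.cast_smul_eq_zsmul]
    show (periodMap N (a • f) γ).re = (((a • c) γ : ℤ) : ℝ)
    rw [hsmul, AddMonoidHom.smul_apply, AddMonoidHom.smul_apply, smul_eq_mul, smul_eq_mul,
      Complex.mul_re, Complex.intCast_re, Complex.intCast_im, zero_mul, sub_zero, h1]
    push_cast
    rfl
  · have h3 := xj_isKum_zsmul K hx hk a
    have hcd : (fun γ : G0 N => (a : ZMod m) * ((c (Additive.ofMul γ) : ℤ) : ZMod m))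
        = fun γ : G0 N => (((a • c) (Additive.ofMul γ) : ℤ) : ZMod m) := by
      funext γ
      rw [AddMonoidHom.smul_apply, smul_eq_mul]
      push_cast
      rfl
    rw [hcd] at h3
    exact h3

theorem jRel_hecke [NeZero m] (K : KumPackage N m) {ℓ : ℕ} (hℓ : ℓ.Prime) (hℓN : ¬ ℓ ∣ N)
    (hℓNm : ¬ ℓ ∣ N * m) {x : JZero N} {f : CuspForm (Gamma0 N) 2} (h : JRel N m x f) :
    JRel N m (heckeOperatorBar N ⟨ℓ, hℓ⟩ x) (heckeTLin 2 hℓ hℓN f) := by
  haveI : Fact ℓ.Prime := ⟨hℓ⟩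
  obtain ⟨hx, c, hc, hf, hk⟩ := h
  have hcpar : IsParHom (fun γ : G0 N => ((c (Additive.ofMul γ) : ℤ) : ZMod m)) :=
    Fermat.Agent.S30.H810.isParHom_of_isKum hk
  refine ⟨by rw [← map_zsmul, hx, map_zero], heckeHom ℓ hℓN ℤ c,
    (heckeHom_mem_pe hℓN (isPe_int hc)).1, ?_, ?_⟩
  · rw [reHom_periodMap_heckeTLin hℓ hℓN, hf, heckeHom_comp]
  · have h3 := K.hecke ⟨ℓ, hℓ⟩ hℓNm _ x hcpar hk
    have hb : bundle (fun γ : G0 N => ((c (Additive.ofMul γ) : ℤ) : ZMod m)) hcpar
        = (Int.castAddHom (ZMod m)).comp c := by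
      refine AddMonoidHom.ext fun γ => ?_
      rfl
    have hcd : heckeCoh N ℓ (fun γ : G0 N => ((c (Additive.ofMul γ) : ℤ) : ZMod m))
        = fun γ : G0 N => (((heckeHom ℓ hℓN ℤ c) (Additive.ofMul γ) : ℤ) : ZMod m) := by
      funext γ
      rw [← heckeHom_bundle hℓN _ hcpar γ, hb, heckeHom_comp]
      rfl
    rw [hcd] at h3
    exact h3

theorem jRel_zero_right (K : KumPackage N m) {x : JZero N}
    (h : JRel N m x (0 : CuspForm (Gamma0 N) 2)) : x = 0 := by
  obtain ⟨-, c, -, hf, hk⟩ := h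
  have h0 : periodMap N (0 : CuspForm (Gamma0 N) 2) = 0 := by
    have := periodMap_smul (N := N) (0 : ℂ) (0 : CuspForm (Gamma0 N) 2)
    rwa [zero_smul, zero_smul] at this
  have hc0 : ∀ γ : G0 N, c (Additive.ofMul γ) = 0 := by
    intro γ
    have h1 : (periodMap N (0 : CuspForm (Gamma0 N) 2) (Additive.ofMul γ)).re
        = ((c (Additive.ofMul γ) : ℤ) : ℝ) := DFunLike.congr_fun hf (Additive.ofMul γ)
    rw [h0] at h1
    have h2 : ((c (Additive.ofMul γ) : ℤ) : ℝ) = 0 := by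
      rw [← h1]
      simp
    exact_mod_cast h2
  have hcz : (fun γ : G0 N => ((c (Additive.ofMul γ) : ℤ) : ZMod m)) = 0 := by
    funext γ
    rw [hc0 γ]
    simp
  rw [hcz] at hk
  exact K.uniq 0 _ _ hk (xj_isKum_zero K)

/-! ### The main induction -/

/-- **(X-J), FACTOR.** -/
theorem xJac : XJacStatement := by
  intro N _ p S hp hpS hNS t ht
  refine ⟨Fermat.Agent.S29.heckeOperatorsCommuteBar N, fun n x hx => ?_⟩
  haveI : NeZero (p ^ n) := ⟨pow_ne_zero n hp.ne_zero⟩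
  have K : KumPackage N (p ^ n) := Fermat.Agent.S30.Chain.kumPackage N (p ^ n)
  have hx' : ((p ^ n : ℕ) : ℤ) • x = 0 := by
    rw [Nat.cast_pow]
    exact hx
  -- the good primes
  have hIN : ∀ i : {ℓ : Nat.Primes // (ℓ : ℕ) ∉ S}, ¬ ((i : Nat.Primes) : ℕ) ∣ N :=
    fun i hdvd => i.2 (hNS _ i.1.2 hdvd)
  have hINm : ∀ i : {ℓ : Nat.Primes // (ℓ : ℕ) ∉ S}, ¬ ((i : Nat.Primes) : ℕ) ∣ N * p ^ n := by
    intro i hdvd
    rcases (Nat.Prime.dvd_mul i.1.2).1 hdvd with h | h
    · exact hIN i h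
    · have h1 := (Nat.prime_dvd_prime_iff_eq i.1.2 hp).1 (i.1.2.dvd_of_dvd_pow h)
      exact i.2 (h1 ▸ hpS)
  -- the induction
  have key : ∀ (s : MvPolynomial {ℓ : Nat.Primes // (ℓ : ℕ) ∉ S} ℤ) (y : JZero N)
      (f : CuspForm (Gamma0 N) 2), JRel N (p ^ n) y f →
      JRel N (p ^ n)
        (heckeEvalBar (Fermat.Agent.S29.heckeOperatorsCommuteBar N)
          (MvPolynomial.rename Subtype.val s) y)
        ((heckeEvalForms N 2 (MvPolynomial.rename Subtype.val s) :
          Module.End ℂ (CuspForm (Gamma0 N) 2)) f) := by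
    intro s
    induction s using MvPolynomial.induction_on with
    | C a =>
      intro y f hyf
      rw [MvPolynomial.rename_C, heckeEvalBar_C, heckeEvalForms_C, Module.End.intCast_apply]
      have h1 : ((algebraMap ℤ (heckeAlgebra N 2 ∅) a : heckeAlgebra N 2 ∅) :
          Module.End ℂ (CuspForm (Gamma0 N) 2)) f = a • f := by
        show ((heckeAlgebra N 2 ∅).val (algebraMap ℤ (heckeAlgebra N 2 ∅) a)) f = a • f
        rw [eq_intCast, map_intCast, Module.End.intCast_apply]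
      rw [h1]
      exact jRel_zsmul K hyf a
    | add s₁ s₂ h₁ h₂ =>
      intro y f hyf
      rw [map_add, map_add, map_add, LinearMap.add_apply, Subalgebra.coe_add,
        LinearMap.add_apply]
      exact jRel_add K (h₁ y f hyf) (h₂ y f hyf)
    | mul_X s i hs =>
      intro y f hyf
      rw [map_mul, map_mul, map_mul, MvPolynomial.rename_X, Module.End.mul_apply,
        Subalgebra.coe_mul, Module.End.mul_apply]
      have e1 : heckeEvalBar (Fermat.Agent.S29.heckeOperatorsCommuteBar N)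
          (MvPolynomial.X (i : Nat.Primes)) = heckeOperatorBar N (i : Nat.Primes) :=
        heckeEvalBar_heckeGen _ (i : Nat.Primes)
      have e2 : heckeEvalForms N 2 (MvPolynomial.X (i : Nat.Primes))
          = heckeAlgebra.T i.1.2 (hIN i) (Set.notMem_empty _) :=
        heckeEvalForms_heckeGen_of_not_dvd (hIN i)
      rw [e1, e2, heckeAlgebra.coe_T]
      exact hs _ _ (jRel_hecke K i.1.2 (hIN i) (hINm i) hyf)
  obtain ⟨f, hf⟩ := jRel_exists (N := N) (m := p ^ n) hx'
  have h1 := key t x f hf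
  rw [ht f] at h1
  exact jRel_zero_right K h1

end Fermat.Agent.S35.H252

end
-- ===== PACK-END S35/H252/Factor.lean

-- ===== PACK-BEGIN S35/H252/Excl.lean
section
/-
S35, piece (X) (helper252): `Fermat.Agent.S35.H991.ExclTateStatement`, UNCONDITIONAL.

The eigensystem of a newform of level `M` does not occur in the `p`-adic Tate module of
`J₀(M / q)`, `q ∣ M` prime.

  exclTate = exclTate_of_poly (exclPoly_of xForms xJac)

* `xForms` (XForms.lean): a polynomial `t` in the `T_ℓ`, `ℓ ∉ S`, vanishing on `S₂(Γ₀(M / q))` with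
  `t(a_ℓ(g)) ≠ 0`;
* `xJac` (Factor.lean): such a `t` kills the `p`-power torsion of `J₀(M / q)`;
* `exclTate_of_poly` (ExclGlue.lean): the Tate module form.
-/




set_option autoImplicit false

namespace Fermat.Agent.S35.H252

/-- **(X)**, polynomial form, unconditional. -/
theorem exclPoly : ExclPolyStatement := exclPoly_of xForms xJac

/-- **(X)**, the input `ExclTateStatement` of the S35 mid layer, unconditional. -/
theorem exclTate : Fermat.Agent.S35.H991.ExclTateStatement := exclTate_of_poly exclPoly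

end Fermat.Agent.S35.H252

end
-- ===== PACK-END S35/H252/Excl.lean

-- ===== PACK-BEGIN S36/H683/Top.lean
section






/-!
# S36: the frozen statement from the ENGINE ALONE (helper683)

The top chain of helper36 (`Fermat.Agent.S36.H36.result_of_inputs`) with ALL its inputs except
the engine discharged from main:

* the six S30 inputs: `S30.H683.finInput`, `smoothInput`, `galHeckeInput`, `unramInput`,
  `esInput` (`S30/H683/FiveInputs.lean`) and `S30.H42.tateLattice`;
* (X) `S35.H252.exclTate : S35.H991.ExclTateStatement`.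

Results, all with the binders of the frozen statement S36 (so that `Fermat/Agent/S36.lean` is
one application):

* `result_of_newPart : H36.NewPartInertiaStatement → <frozen S36>`;
* `result_of_kummerNeat : H36.KummerQNewInertiaNeatStatement → <frozen S36>`;
* `result_of_fixed : H756.KummerFixedNeatStatement → <frozen S36>` (engine over the inertia
  field at neat levels, no Galois action: the target of the ALG3/MOD3 assembly).
-/

set_option autoImplicit false

namespace Fermat.Agent.S36.H683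

open Polynomial

/-- **Frozen S36 from the engine (N)** `H36.NewPartInertiaStatement`. -/
theorem result_of_newPart (hN : Fermat.Agent.S36.H36.NewPartInertiaStatement)
    {M : ℕ} [NeZero M] {g : CuspForm (CongruenceSubgroup.Gamma0 M) 2} (hg : g.IsNewform)
    (lam : ℕ) [Fact lam.Prime]
    (S : Finset ℕ)
    (O' : Type) [CommRing O'] [IsDomain O'] [IsDiscreteValuationRing O']
    [IsAdicComplete (IsLocalRing.maximalIdeal O') O'] [Finite (IsLocalRing.ResidueField O')]
    [CharZero O'] (hlamO' : (lam : O') ∈ IsLocalRing.maximalIdeal O')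
    (chig : CuspForm.heckeAlgebra M 2 (↑S : Set ℕ) →+* ℂ)
    (hchig : ∀ (ℓ : ℕ) (hℓ : ℓ.Prime) (hℓM : ¬ ℓ ∣ M) (hℓS : ℓ ∉ (↑S : Set ℕ)),
      chig (CuspForm.heckeAlgebra.T hℓ hℓM hℓS) = ModularFormClass.qCoeff g ℓ)
    (iota : chig.range →+* O')
    (hlamS : lam ∈ S) (hMS : ∀ q : ℕ, q.Prime → q ∣ M → q ∈ S) :
    ∃ (O'' : Type) (_ : CommRing O'') (_ : IsDomain O'') (_ : IsDiscreteValuationRing O'')
      (_ : IsAdicComplete (IsLocalRing.maximalIdeal O'') O'') (_ : Finite (IsLocalRing.ResidueField O''))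
      (_ : CharZero O'') (_ : Algebra O' O'') (_ : Module.Finite O' O'') (_ : IsLocalHom (algebraMap O' O'')),
      Function.Injective (algebraMap O' O'') ∧
      ∃ ρ : GaloisRepAdic O'',
        (∀ (ℓ : ℕ) (hℓ : ℓ.Prime) (hℓM : ¬ ℓ ∣ M) (hℓS : ℓ ∉ (↑S : Set ℕ)),
          ∀ A : ValuationSubring (AlgebraicClosure ℚ), A.LiesOverPrime ℓ →
            ∀ σ : AlgebraicClosure ℚ ≃ₐ[ℚ] AlgebraicClosure ℚ, A.IsFrobeniusAt σ ℓ →
              LinearMap.charpoly (ρ.ρ σ) =
                X ^ 2 - C (algebraMap O' O'' ((iota.comp chig.rangeRestrict) (CuspForm.heckeAlgebra.T hℓ hℓM hℓS))) * X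
                  + C ((ℓ : O''))) ∧
        (∀ q : ℕ, q.Prime → q ≠ lam → M.factorization q = 2 → ¬ ρ.IsUnipotentOnInertiaAt q) :=
  Fermat.Agent.S36.H36.result_of_inputs
    Fermat.Agent.S30.H683.finInput Fermat.Agent.S30.H683.smoothInput
    Fermat.Agent.S30.H683.galHeckeInput Fermat.Agent.S30.H683.unramInput
    Fermat.Agent.S30.H683.esInput Fermat.Agent.S30.H42.tateLattice
    hN Fermat.Agent.S35.H252.exclTate
    hg lam S O' hlamO' chig hchig iota hlamS hMS

/-- **Frozen S36 from the Kummer engine at neat levels** (helper36's function-field form). -/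
theorem result_of_kummerNeat (h : Fermat.Agent.S36.H36.KummerQNewInertiaNeatStatement)
    {M : ℕ} [NeZero M] {g : CuspForm (CongruenceSubgroup.Gamma0 M) 2} (hg : g.IsNewform)
    (lam : ℕ) [Fact lam.Prime]
    (S : Finset ℕ)
    (O' : Type) [CommRing O'] [IsDomain O'] [IsDiscreteValuationRing O']
    [IsAdicComplete (IsLocalRing.maximalIdeal O') O'] [Finite (IsLocalRing.ResidueField O')]
    [CharZero O'] (hlamO' : (lam : O') ∈ IsLocalRing.maximalIdeal O')
    (chig : CuspForm.heckeAlgebra M 2 (↑S : Set ℕ) →+* ℂ)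
    (hchig : ∀ (ℓ : ℕ) (hℓ : ℓ.Prime) (hℓM : ¬ ℓ ∣ M) (hℓS : ℓ ∉ (↑S : Set ℕ)),
      chig (CuspForm.heckeAlgebra.T hℓ hℓM hℓS) = ModularFormClass.qCoeff g ℓ)
    (iota : chig.range →+* O')
    (hlamS : lam ∈ S) (hMS : ∀ q : ℕ, q.Prime → q ∣ M → q ∈ S) :
    ∃ (O'' : Type) (_ : CommRing O'') (_ : IsDomain O'') (_ : IsDiscreteValuationRing O'')
      (_ : IsAdicComplete (IsLocalRing.maximalIdeal O'') O'') (_ : Finite (IsLocalRing.ResidueField O''))
      (_ : CharZero O'') (_ : Algebra O' O'') (_ : Module.Finite O' O'') (_ : IsLocalHom (algebraMap O' O'')),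
      Function.Injective (algebraMap O' O'') ∧
      ∃ ρ : GaloisRepAdic O'',
        (∀ (ℓ : ℕ) (hℓ : ℓ.Prime) (hℓM : ¬ ℓ ∣ M) (hℓS : ℓ ∉ (↑S : Set ℕ)),
          ∀ A : ValuationSubring (AlgebraicClosure ℚ), A.LiesOverPrime ℓ →
            ∀ σ : AlgebraicClosure ℚ ≃ₐ[ℚ] AlgebraicClosure ℚ, A.IsFrobeniusAt σ ℓ →
              LinearMap.charpoly (ρ.ρ σ) =
                X ^ 2 - C (algebraMap O' O'' ((iota.comp chig.rangeRestrict) (CuspForm.heckeAlgebra.T hℓ hℓM hℓS))) * X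
                  + C ((ℓ : O''))) ∧
        (∀ q : ℕ, q.Prime → q ≠ lam → M.factorization q = 2 → ¬ ρ.IsUnipotentOnInertiaAt q) :=
  result_of_newPart (Fermat.Agent.S36.H36.newPartInertiaStatement_of_kummerNeat h)
    hg lam S O' hlamO' chig hchig iota hlamS hMS

/-- **Frozen S36 from the engine over the inertia field at neat levels** (helper756's
`KummerFixedNeatStatement`: a statement about function fields over `E = Q̄^{I_P}`, no Galois
action). -/
theorem result_of_fixed (h : Fermat.Agent.S36.H756.KummerFixedNeatStatement)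
    {M : ℕ} [NeZero M] {g : CuspForm (CongruenceSubgroup.Gamma0 M) 2} (hg : g.IsNewform)
    (lam : ℕ) [Fact lam.Prime]
    (S : Finset ℕ)
    (O' : Type) [CommRing O'] [IsDomain O'] [IsDiscreteValuationRing O']
    [IsAdicComplete (IsLocalRing.maximalIdeal O') O'] [Finite (IsLocalRing.ResidueField O')]
    [CharZero O'] (hlamO' : (lam : O') ∈ IsLocalRing.maximalIdeal O')
    (chig : CuspForm.heckeAlgebra M 2 (↑S : Set ℕ) →+* ℂ)
    (hchig : ∀ (ℓ : ℕ) (hℓ : ℓ.Prime) (hℓM : ¬ ℓ ∣ M) (hℓS : ℓ ∉ (↑S : Set ℕ)),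
      chig (CuspForm.heckeAlgebra.T hℓ hℓM hℓS) = ModularFormClass.qCoeff g ℓ)
    (iota : chig.range →+* O')
    (hlamS : lam ∈ S) (hMS : ∀ q : ℕ, q.Prime → q ∣ M → q ∈ S) :
    ∃ (O'' : Type) (_ : CommRing O'') (_ : IsDomain O'') (_ : IsDiscreteValuationRing O'')
      (_ : IsAdicComplete (IsLocalRing.maximalIdeal O'') O'') (_ : Finite (IsLocalRing.ResidueField O''))
      (_ : CharZero O'') (_ : Algebra O' O'') (_ : Module.Finite O' O'') (_ : IsLocalHom (algebraMap O' O'')),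
      Function.Injective (algebraMap O' O'') ∧
      ∃ ρ : GaloisRepAdic O'',
        (∀ (ℓ : ℕ) (hℓ : ℓ.Prime) (hℓM : ¬ ℓ ∣ M) (hℓS : ℓ ∉ (↑S : Set ℕ)),
          ∀ A : ValuationSubring (AlgebraicClosure ℚ), A.LiesOverPrime ℓ →
            ∀ σ : AlgebraicClosure ℚ ≃ₐ[ℚ] AlgebraicClosure ℚ, A.IsFrobeniusAt σ ℓ →
              LinearMap.charpoly (ρ.ρ σ) =
                X ^ 2 - C (algebraMap O' O'' ((iota.comp chig.rangeRestrict) (CuspForm.heckeAlgebra.T hℓ hℓM hℓS))) * X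
                  + C ((ℓ : O''))) ∧
        (∀ q : ℕ, q.Prime → q ≠ lam → M.factorization q = 2 → ¬ ρ.IsUnipotentOnInertiaAt q) :=
  result_of_newPart (Fermat.Agent.S36.H756.newPartInertiaStatement_of_fixed h)
    hg lam S O' hlamO' chig hchig iota hlamS hMS

end Fermat.Agent.S36.H683

end
-- ===== PACK-END S36/H683/Top.lean

-- ===== PACK-BEGIN S36/Mod3/H27/VT.lean
section





/-!
# S36 / MOD3, the valuation-level hub (helper27): `leafVT : Mod3.LeafVT`, unconditional

Assembly from pieces on main: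

* `α`-side (`res_α₁`, `res_α₂`, `only_α₁`, `pi_unif`, `pi_pow`): helper972 `mod3_alpha_main`
  (every `Objs.V₂` IS the middle valuation ring of that theorem);
* `only_α₃`, `insep_α₃`, `only_β₁`, `insep_β₁`: helper83 (`AlphaVV`, `BetaUniq`);
* `res_β₃`, `res_β₂`, `only_β₂`: Fricke transport `W ∘ α = β ∘ W'`, `W ∘ β = α ∘ W'`
  (`V₃ = V₁ ∘ W`, `V₂ ∘ W = V₂` by completeness along `α` and helper816 `IsMid.fricke`);
* `kron₁`, `kron₂`, `kron₃`: helper816 (`kron_jE`, `IsMid.kronA`, `IsMid.pi_mem`).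
-/

set_option autoImplicit false
set_option linter.style.haveILetI false
set_option linter.unusedSectionVars false
set_option synthInstance.maxHeartbeats 400000
set_option maxHeartbeats 1600000

noncomputable section

namespace Fermat.Agent.S36.Mod3.H27

open ModularCurve
open Fermat.Agent.A2.Mod
open Fermat.Agent.S36.Eng

/-! ## Generalities on valuation subrings -/

section Gen

variable {F : Type*} [Field F]

/-- `x w⁻¹ ∈ V`, `w ∈ 𝔪_V`, `w ≠ 0` ⟹ `x ∈ 𝔪_V`. -/
theorem vt27_mem_nonunits_of_mul_inv {V : ValuationSubring F} {x w : F} (hw0 : w ≠ 0)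
    (hw : w ∈ V.nonunits) (h : x * w⁻¹ ∈ V) : x ∈ V.nonunits := by
  have e : x = x * w⁻¹ * w := by field_simp
  rw [e]
  exact Fermat.Agent.S36.H816.mul_mem_nonunits_right V h hw

theorem vt27_isUnif_mem_nonunits {V : ValuationSubring F} {ϖ : F}
    (h : Fermat.Agent.A2.H48.IsUnif V ϖ) : ϖ ∈ V.nonunits := by
  rw [ValuationSubring.mem_nonunits_iff_or]
  exact Or.inr h.inv_not_mem

theorem vt27_unifAt_of_isUnif {V : ValuationSubring F} {ϖ : F}
    (h : Fermat.Agent.A2.H48.IsUnif V ϖ) : UnifAt V ϖ := by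
  refine ⟨h.ne_zero, vt27_isUnif_mem_nonunits h, fun f hf => ?_⟩
  have hfV : f ∈ V := Fermat.Agent.S36.H816.mem_of_mem_nonunits V hf
  rw [ValuationSubring.mem_nonunits_iff_or] at hf
  rcases hf with rfl | hf
  · rw [zero_mul]
    exact V.zero_mem
  · exact h.gen f hfV hf

/-- comap along an involution, twice. -/
theorem vt27_comap_comap {V : ValuationSubring F} {φ : F →+* F} (hφ : ∀ f, φ (φ f) = f) :
    (V.comap φ).comap φ = V := by
  ext f
  rw [ValuationSubring.mem_comap, ValuationSubring.mem_comap, hφ]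

end Gen

/-! ## The concrete assembly -/

section Concrete

variable {P : ValuationSubring A2.Qb} {E : IntermediateField ℚ A2.Qb} {M q : ℕ}
  [NeZero M] [NeZero q] [NeZero (M * q)]

/-- `Std` gives the unramifiedness hypothesis of helper972: `q = w · unit` in `R_E`. -/
theorem vt27_unram {w : A2.RE P E} (h : Mod3.Std P E M q w) :
    Fermat.Agent.S36.H972.Unram P E q w := by
  haveI : IsDiscreteValuationRing (A2.RE P E) := h.unram.1.dvr
  have hw0 : (w : E) ≠ 0 := fun h0 => h.unif.ne_zero (Subtype.ext h0)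
  have hq0 : ((q : ℕ) : E) ≠ 0 := Nat.cast_ne_zero.mpr (NeZero.ne q)
  have hq0' : ((q : ℕ) : A2.Qb) ≠ 0 := Nat.cast_ne_zero.mpr (NeZero.ne q)
  -- `w` is a nonunit of `P`
  have hwn : ((w : E) : A2.Qb) ∈ P.nonunits := by
    rw [ValuationSubring.mem_nonunits_iff_or]
    right
    intro hinv
    apply h.unif.not_isUnit
    refine isUnit_iff_exists_inv.mpr ⟨⟨(w : E)⁻¹, ?_⟩, Subtype.ext ?_⟩
    · show algebraMap E A2.Qb ((w : E)⁻¹) ∈ P
      rw [map_inv₀]
      exact hinv
    · show (w : E) * (w : E)⁻¹ = 1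
      exact mul_inv_cancel₀ hw0
  have h1 : ((w : E) : A2.Qb) * ((q : A2.Qb))⁻¹ ∈ P := h.unram.2 (w : E) hwn
  -- `q` lies in the maximal ideal of `R_E`
  have hqmem : ((q : ℕ) : E) ∈ A2.RE P E := natCast_mem (A2.RE P E) q
  have hqm : (⟨((q : ℕ) : E), hqmem⟩ : A2.RE P E) ∈ IsLocalRing.maximalIdeal (A2.RE P E) := by
    rw [IsLocalRing.mem_maximalIdeal, mem_nonunits_iff]
    intro hu
    obtain ⟨b, hb⟩ := isUnit_iff_exists_inv.mp hu
    have hb' : ((q : ℕ) : E) * (b : E) = 1 := congrArg Subtype.val hb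
    have hbq : (b : E) = ((q : ℕ) : E)⁻¹ := eq_inv_of_mul_eq_one_right hb'
    have hbP : algebraMap E A2.Qb (b : E) ∈ P := b.2
    rw [hbq, map_inv₀, map_natCast] at hbP
    have hl : ((q : ℕ) : A2.Qb) ∈ P.nonunits := h.lies_over
    rw [ValuationSubring.mem_nonunits_iff_or] at hl
    rcases hl with hl | hl
    · exact hq0' hl
    · exact hl hbP
  rw [Irreducible.maximalIdeal_eq h.unif, Ideal.mem_span_singleton'] at hqm
  obtain ⟨a, ha⟩ := hqm
  have ha' : (a : E) * (w : E) = ((q : ℕ) : E) := congrArg Subtype.val ha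
  have ha0 : (a : E) ≠ 0 := by
    intro h0
    rw [h0, zero_mul] at ha'
    exact hq0 ha'.symm
  have hainv : (a : E)⁻¹ ∈ A2.RE P E := by
    show algebraMap E A2.Qb ((a : E)⁻¹) ∈ P
    have e : (a : E)⁻¹ = (w : E) * (((q : ℕ) : E))⁻¹ := by
      rw [← ha']
      field_simp
    rw [e, map_mul, map_inv₀, map_natCast]
    exact h1
  refine ⟨⟨a, ⟨(a : E)⁻¹, hainv⟩, Subtype.ext (mul_inv_cancel₀ ha0),
    Subtype.ext (inv_mul_cancel₀ ha0)⟩, ?_⟩
  show ((q : ℕ) : E) = (w : E) * (a : E)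
  rw [← ha', mul_comm]

/-- **The valuation-level hub**, unconditional. -/
theorem leafVT : Mod3.LeafVT := by
  intro P E M q _ _ _ w hStd V₁' V₂' V₁ V₂ V₃ W' W hO
  have hS : Setting P E M q w := Mod3.H816.setting_of_std hStd
  haveI : IsDiscreteValuationRing (RE P E) := hS.dvr
  have hq : q.Prime := hS.q_prime
  have hqMq : q ∣ M * q := dvd_mul_left q M
  have hun := vt27_unram hStd
  obtain ⟨Vmid, hne, -, hunif, ⟨u, hu, hui, hpow⟩, hresm, hres1, honly⟩ :=
    Fermat.Agent.S36.H972.mod3_alpha_main hS hun hO.vinf' hO.vinf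
  -- `V₂` is the middle valuation ring
  have hcα : ∀ g : FE E (M * q), αE E (M * q) q g ∈ V₂ ↔ g ∈ V₁' := fun g => by
    have h2 : g ∈ V₂.comap (αE E (M * q) q : FE E (M * q) →+* FE E (M * q * q)) ↔ g ∈ V₁' := by
      rw [hO.mid]
    rw [ValuationSubring.mem_comap] at h2
    exact h2
  have hV₂ : V₂ = Vmid := (honly V₂ hcα).resolve_left hO.mid_ne
  subst hV₂
  have hmid : Fermat.Agent.S36.H816.IsMid V₁' V₂ :=
    Fermat.Agent.S36.H816.isMid_of_ne hcα hS hO.vinf' hO.fricke' hO.vinf hO.mid_ne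
  -- Fricke
  have hW2 : ∀ f, W (W f) = f := hO.fricke.2
  have hW'2 : ∀ f, W' (W' f) = f := hO.fricke'.2
  have hfc := fun g => H553.frickeCompat E (M * q) q W' W hO.fricke' hO.fricke g
  have hV₃ : ∀ f, f ∈ V₃ ↔ W f ∈ V₁ := fun f => by
    rw [hO.vzero, ValuationSubring.mem_comap]
    rfl
  have hV₃n : ∀ f, f ∈ V₃.nonunits ↔ W f ∈ V₁.nonunits := fun f => by
    rw [hO.vzero, Fermat.Agent.S36.H816.mem_nonunits_comap_iff]
    rfl
  have hV₂' : ∀ g, g ∈ V₂' ↔ W' g ∈ V₁' := fun g => by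
    rw [hO.vzero', ValuationSubring.mem_comap]
    rfl
  -- the uniformiser `w`
  have hL2 := H553.vinfBasic P E w (M * q * q) (NeZero.ne _) hS.dvr hS.unif V₁ hO.vinf
  have hw0 : cE P E (M * q * q) w ≠ 0 := hL2.1.ne_zero
  have hw1 : cE P E (M * q * q) w ∈ V₁.nonunits := vt27_isUnif_mem_nonunits hL2.1
  have hWw : W (cE P E (M * q * q) w) = cE P E (M * q * q) w := W.commutes (w : E)
  have hw3 : cE P E (M * q * q) w ∈ V₃.nonunits := by
    rw [hV₃n, hWw]
    exact hw1
  have hπ0 : Mod3.jqq E M q - Mod3.j1 E M q ≠ 0 := hunif.ne_zero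
  have hπn : Mod3.jqq E M q - Mod3.j1 E M q ∈ V₂.nonunits := vt27_isUnif_mem_nonunits hunif
  -- completeness along `α`
  have only_α₁ : ∀ V : ValuationSubring (FE E (M * q * q)),
      V.comap (αE E (M * q) q : FE E (M * q) →+* FE E (M * q * q)) = V₁' →
        V = V₁ ∨ V = V₂ := fun V hV => by
    refine honly V fun k => ?_
    have h2 : k ∈ V.comap (αE E (M * q) q : FE E (M * q) →+* FE E (M * q * q)) ↔ k ∈ V₁' := by
      rw [hV]
    rw [ValuationSubring.mem_comap] at h2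
    exact h2
  have only_α₃ : ∀ V : ValuationSubring (FE E (M * q * q)),
      V.comap (αE E (M * q) q : FE E (M * q) →+* FE E (M * q * q)) = V₂' → V = V₃ :=
    fun V hV => by
    rw [hO.vzero]
    refine Fermat.Agent.S36.H83.h83_alpha_unique W' W hS.dvr hS.unif hq hqMq hO.fricke'
      hO.fricke hO.vinf' hO.vinf V fun f => ?_
    have h2 : f ∈ V.comap (αE E (M * q) q : FE E (M * q) →+* FE E (M * q * q)) ↔ f ∈ V₂' := by
      rw [hV]
    rw [ValuationSubring.mem_comap, hO.vzero'] at h2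
    exact h2
  -- `V₂ ∘ W = V₂`
  have hmidW := hmid.fricke hS hO.vinf' hO.fricke' hO.fricke
  have hV₂W : V₂.comap (W : FE E (M * q * q) →+* FE E (M * q * q)) = V₂ := by
    rcases honly _ hmidW.comap_alpha with h1 | h1
    · exfalso
      -- then `V₂ = V₁ ∘ W = V₃`, which lies over `V₂' ≠ V₁'`
      have h2 : V₂ = V₃ := by
        rw [hO.vzero, ← h1]
        exact (vt27_comap_comap (φ := (W : FE E (M * q * q) →+* FE E (M * q * q))) hW2).symm
      have h3 : V₁' = V₂' := by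
        ext g
        rw [← hcα g, h2, hV₃, (hfc g).1, hV₂']
        exact Fermat.Agent.S36.H816.beta_mem_iff hO.vinf' hO.vinf (W' g)
      exact H553.vzeroNe P E M q w hS V₁' W' hO.vinf' hO.fricke' (by rw [← hO.vzero', ← h3])
    · exact h1
  have hV₂Wm : ∀ f, W f ∈ V₂ ↔ f ∈ V₂ := fun f => by
    conv_rhs => rw [← hV₂W]
    rfl
  have hV₂Wn : ∀ f, W f ∈ V₂.nonunits ↔ f ∈ V₂.nonunits := fun f => by
    conv_rhs => rw [← hV₂W, Fermat.Agent.S36.H816.mem_nonunits_comap_iff]
    rfl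
  have hkey : ∀ (d : ℕ) [NeZero d] (hd : d ∣ M * q * q), d = q →
      jE E (M * q * q) d hd = Mod3.jq E M q := by
    intro d _ hd h
    subst h
    rfl
  -- residue degree one along `α`
  have res_α₁ : ∀ f ∈ V₁, ∃ g ∈ V₁', f - αE E (M * q) q g ∈ V₁.nonunits := fun f hf => by
    obtain ⟨g, hg, hfg⟩ := hres1 f hf
    exact ⟨g, hg, vt27_mem_nonunits_of_mul_inv hw0 hw1 hfg⟩
  have res_α₂ : ∀ f ∈ V₂, ∃ g ∈ V₁', f - αE E (M * q) q g ∈ V₂.nonunits := fun f hf => by
    obtain ⟨g, hg, hfg⟩ := hresm f hf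
    exact ⟨g, hg, vt27_mem_nonunits_of_mul_inv hπ0 hπn hfg⟩
  refine
    { res_α₁ := res_α₁
      res_α₂ := res_α₂
      res_β₃ := ?_
      res_β₂ := ?_
      insep_α₃ := ?_
      insep_β₁ := ?_
      only_α₁ := only_α₁
      only_α₃ := only_α₃
      only_β₂ := ?_
      only_β₁ := ?_
      pi_unif := vt27_unifAt_of_isUnif hunif
      pi_pow := ?_
      kron₁ := ?_
      kron₂ := ?_
      kron₃ := ?_ }
  · -- res_β₃
    intro f hf
    obtain ⟨g, hg, hfg⟩ := res_α₁ (W f) ((hV₃ f).mp hf)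
    refine ⟨W' g, (hV₂' _).mpr (by rw [hW'2]; exact hg), ?_⟩
    rw [hV₃n, map_sub, (hfc (W' g)).2, hW'2]
    exact hfg
  · -- res_β₂
    intro f hf
    obtain ⟨g, hg, hfg⟩ := res_α₂ (W f) ((hV₂Wm f).mpr hf)
    refine ⟨W' g, (hV₂' _).mpr (by rw [hW'2]; exact hg), ?_⟩
    rw [← hV₂Wn, map_sub, (hfc (W' g)).2, hW'2]
    exact hfg
  · -- insep_α₃
    intro f hf
    have hf' : f ∈ Fermat.Agent.S36.H83.h83_comapW V₁ W := by
      have hf2 := hf
      rw [hO.vzero] at hf2
      exact hf2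
    obtain ⟨g, hg, hfg⟩ := Fermat.Agent.S36.H83.h83_alpha_insep W' W hS.dvr hS.unif hq hqMq
      hS.lies_over hO.fricke' hO.fricke hO.vinf' hO.vinf hf'
    refine ⟨g, by rw [hO.vzero']; exact hg, ?_⟩
    have hfg' : (f ^ q - αE E (M * q) q g) * (cE P E (M * q * q) w)⁻¹ ∈ V₃ := by
      rw [hO.vzero]
      exact hfg
    exact vt27_mem_nonunits_of_mul_inv hw0 hw3 hfg'
  · -- insep_β₁
    intro f hf
    obtain ⟨g, hg, hfg⟩ := Fermat.Agent.S36.H83.h83_beta_insep hS.dvr hS.unif hq hqMq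
      hS.lies_over hO.vinf' hO.vinf hf
    exact ⟨g, hg, vt27_mem_nonunits_of_mul_inv hw0 hw1 hfg⟩
  · -- only_β₂
    intro V hV
    have hVm : ∀ g, βE E (M * q) q g ∈ V ↔ g ∈ V₂' := fun g => by
      have h2 : g ∈ V.comap (βE E (M * q) q : FE E (M * q) →+* FE E (M * q * q)) ↔ g ∈ V₂' := by
        rw [hV]
      rw [ValuationSubring.mem_comap] at h2
      exact h2
    have h1 : (V.comap (W : FE E (M * q * q) →+* FE E (M * q * q))).comap
        (αE E (M * q) q : FE E (M * q) →+* FE E (M * q * q)) = V₁' := by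
      ext g
      rw [ValuationSubring.mem_comap, ValuationSubring.mem_comap]
      show W (αE E (M * q) q g) ∈ V ↔ g ∈ V₁'
      rw [(hfc g).1, hVm, hV₂', hW'2]
    have hVV : (V.comap (W : FE E (M * q * q) →+* FE E (M * q * q))).comap
        (W : FE E (M * q * q) →+* FE E (M * q * q)) = V :=
      vt27_comap_comap (φ := (W : FE E (M * q * q) →+* FE E (M * q * q))) hW2
    rcases only_α₁ _ h1 with h2 | h2
    · left
      rw [← hVV, h2, hO.vzero]
    · right
      rw [← hVV, h2, hV₂W]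
  · -- only_β₁
    intro V hV
    refine Fermat.Agent.S36.H83.h83_beta_unique hS.dvr hS.unif hq hqMq hO.vinf' hO.vinf V
      fun f => ?_
    have h2 : f ∈ V.comap (βE E (M * q) q : FE E (M * q) →+* FE E (M * q * q)) ↔ f ∈ V₁' := by
      rw [hV]
    rw [ValuationSubring.mem_comap] at h2
    exact h2
  · -- pi_pow
    have hu0 : u ≠ 0 := by
      intro h0
      rw [h0, mul_zero] at hpow
      exact pow_ne_zero _ hπ0 hpow
    have e : algebraMap (A2.RE P E) (FE E (M * q * q)) w *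
        ((Mod3.jqq E M q - Mod3.j1 E M q) ^ (q - 1))⁻¹ = u⁻¹ := by
      show cE P E (M * q * q) w * ((Mod3.jqq E M q - Mod3.j1 E M q) ^ (q - 1))⁻¹ = u⁻¹
      have hpow' : (Mod3.jqq E M q - Mod3.j1 E M q) ^ (q - 1) = cE P E (M * q * q) w * u := hpow
      rw [hpow']
      field_simp
    rw [e]
    exact ⟨inv_ne_zero hu0, hui, by rw [inv_inv]; exact hu⟩
  · -- kron₁
    refine ⟨?_, ?_⟩
    · have h1 := Fermat.Agent.S36.H816.kron_jE hq hS.lies_over hO.vinf 1 (one_dvd _)
        (by rw [one_mul]; exact Dvd.intro_left (M * q) rfl)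
      rw [hkey (1 * q) _ (one_mul q)] at h1
      exact h1
    · exact Fermat.Agent.S36.H816.kron_jE hq hS.lies_over hO.vinf q
        (Dvd.intro_left (M * q) rfl) ⟨M, by ring⟩
  · -- kron₂
    refine ⟨?_, ?_⟩
    · have h1 := hmid.kronA hq hS.lies_over hO.vinf' 1 (one_dvd _)
      rw [hkey (1 * q) _ (one_mul q)] at h1
      exact h1
    · exact hmid.pi_mem
  · -- kron₃
    have hdM : M ∣ M * q * q := ⟨q * q, by ring⟩
    have hdMq : M * q ∣ M * q * q := ⟨q, rfl⟩
    have hW1 : W (Mod3.j1 E M q) = jE E (M * q * q) (M * q * q) dvd_rfl :=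
      hO.fricke.1 1 (M * q * q) _ dvd_rfl (by ring)
    have hWq : W (Mod3.jq E M q) = jE E (M * q * q) (M * q) hdMq :=
      hO.fricke.1 q (M * q) _ hdMq (by ring)
    have hWqq : W (Mod3.jqq E M q) = jE E (M * q * q) M hdM :=
      hO.fricke.1 (q * q) M _ hdM (by ring)
    refine ⟨?_, ?_⟩
    · rw [hV₃n, map_sub, map_pow, hW1, hWq]
      exact Fermat.Agent.S36.H816.kron_jE hq hS.lies_over hO.vinf (M * q) hdMq dvd_rfl
    · rw [hV₃n, map_sub, map_pow, hWq, hWqq]
      exact Fermat.Agent.S36.H816.kron_jE hq hS.lies_over hO.vinf M hdM hdMq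

end Concrete

end Fermat.Agent.S36.Mod3.H27

end

end
-- ===== PACK-END S36/Mod3/H27/VT.lean

-- ===== PACK-BEGIN S36/Mod3/H96/CuspCong.lean
section







/-!
# S36 / MOD3, cell REG (R-I): `H276.LeafCuspCong`, ELEMENTARY proof (helper96)

The cusp congruence `tcusp ^ (q - 1) · g₂ ≡ w · h` modulo `w · 𝔪_{V₂}` (`k = 1`, `N = q - 1`,
`n = 1`, `h = 1 + j⁻¹ c`, `g₂ = -u⁻¹ (1 - j / j_q ^ q)²`, `q = w u`), the single input of
`regular_i` (`H276.leafRegI_of`).

Independent of (R-RES): no modular unit, no Hasse polynomial, no Eisenstein series; only the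
Kronecker decomposition of `Φ_q` over `ℤ` (`S28.h88_kronecker_int`), its shape
(`S15.H386.isModularShape_of_modPolyData`), the modular equations `Φ_q(j_q, j) = 0 =
Φ_q(j_q, j_{q²})` and the fields `pi_unif`, `pi_pow`, `kron₂` of `LeafVT`
(abstract core: `H96.cusp_core96`, Taylor expansion of `Φ_q(j_q, ·)` at `j`).

* `leafCuspCong_of96 : LeafVT → LeafVal → LeafSheet → H276.LeafCuspCong`;
* `leafCuspCong96    : H276.LeafCuspCong` (unconditional, leaves from main plugged).
-/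

set_option autoImplicit false
set_option linter.style.haveILetI false
set_option linter.unusedSectionVars false
set_option synthInstance.maxHeartbeats 400000
set_option maxHeartbeats 1600000

noncomputable section

namespace Fermat.Agent.S36.Mod3.H96

open ModularCurve Polynomial
open Fermat.Agent.S18.H138 (chart mem_chart mem_chart_of_mem)
open Fermat.Agent Fermat.Agent.S36.Eng

section Cong

variable (P : ValuationSubring A2.Qb) (E : IntermediateField ℚ A2.Qb) (M q : ℕ)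
  [NeZero M] [NeZero q] [NeZero (M * q)]

/-- **The cusp congruence** from the valuation-level table. -/
theorem cuspCong96 (hq : q.Prime) (w : A2.RE P E) (hun : S36.H972.Unram P E q w)
    (V₁ V₂ V₃ : ValuationSubring (A2.Mod.FE E (M * q * q)))
    (V₁' V₂' : ValuationSubring (A2.Mod.FE E (M * q)))
    (hval : PartVal (R := A2.RE P E) w q (x3E E M q) V₁ V₂ V₃)
    (hsheet : PartSheet (R := A2.RE P E) w (x3E E M q) V₁ V₂ V₃)
    (hvt : PartVT (R := A2.RE P E) w q (A2.Mod.αE E (M * q) q) (A2.Mod.βE E (M * q) q)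
      (j1 E M q) (jq E M q) (jqq E M q) V₁ V₂ V₃ V₁' V₂') :
    H276.CuspCong P E M q w V₂ := by
  haveI : Fact q.Prime := ⟨hq⟩
  obtain ⟨D⟩ := S28.H807.nonempty_modPolyData q hq
  have hΦ := S15.H386.isModularShape_of_modPolyData D hq.one_lt
  obtain ⟨Θ, hK⟩ := S28.h88_kronecker_int q D
  obtain ⟨⟨a0, a1, a2⟩, ⟨b0, b1, b2⟩, ⟨c0, c1, c2⟩⟩ :=
    H276.unitAt_of_x_unit E M q hq V₂ hval.x_unit₂
  obtain ⟨u, hu⟩ := hun
  -- the constants
  have hW0 : algebraMap (A2.RE P E) (A2.Mod.FE E (M * q * q)) w ≠ 0 := hval.unif₁.1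
  have hWm := H276.w_mem_nonunits_of_ram hq.two_le hval.ram₂
  have hUU' : algebraMap (A2.RE P E) (A2.Mod.FE E (M * q * q)) (u : A2.RE P E)
      * algebraMap (A2.RE P E) (A2.Mod.FE E (M * q * q)) ((u⁻¹ : (A2.RE P E)ˣ) : A2.RE P E)
      = 1 := by
    rw [← map_mul, Units.mul_inv, map_one]
  have hqW : ((q : ℕ) : A2.Mod.FE E (M * q * q))
      = algebraMap (A2.RE P E) (A2.Mod.FE E (M * q * q)) w
        * algebraMap (A2.RE P E) (A2.Mod.FE E (M * q * q)) (u : A2.RE P E) := by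
    have h1 : algebraMap (A2.RE P E) (A2.Mod.FE E (M * q * q)) w
        = algebraMap E (A2.Mod.FE E (M * q * q)) (w : E) := rfl
    have h2 : algebraMap (A2.RE P E) (A2.Mod.FE E (M * q * q)) (u : A2.RE P E)
        = algebraMap E (A2.Mod.FE E (M * q * q)) ((u : A2.RE P E) : E) := rfl
    rw [h1, h2, ← map_mul, ← hu, map_natCast]
  have hpow : (jqq E M q - j1 E M q) ^ (q - 1)
      * (algebraMap (A2.RE P E) (A2.Mod.FE E (M * q * q)) w)⁻¹ ∈ V₂ := by
    have := hvt.pi_pow.2.2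
    rw [mul_inv, inv_inv] at this
    rw [mul_comm ((jqq E M q - j1 E M q) ^ (q - 1))]
    exact this
  obtain ⟨C₀, hC₀⟩ := cusp_cong_val96 V₂ q hq hΦ hK a0 a1 a2 b0 b1 b2 c0 c1 c2
    (H276.eval2_jq_j1 E M q D) (H276.eval2_jq_jqq E M q D) hvt.pi_unif.1 hvt.pi_unif.2.1
    hvt.kron₂.1 hW0 hWm (hsheet.base₂ _) (hsheet.base₂ _) hUU' hqW hpow
  -- the elements of the chart at infinity
  obtain ⟨Jel, hJel⟩ : ∃ y : chart (A2.RE P E)
      ({(x3E E M q)⁻¹} : Set (A2.Mod.FE E (M * q * q))),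
      (y : A2.Mod.FE E (M * q * q)) = (j1 E M q)⁻¹ :=
    ⟨⟨_, H189.j1_inv_mem_chart P E M q hq⟩, rfl⟩
  obtain ⟨eel, heel⟩ : ∃ y : chart (A2.RE P E)
      ({(x3E E M q)⁻¹} : Set (A2.Mod.FE E (M * q * q))),
      (y : A2.Mod.FE E (M * q * q)) = j1 E M q * (jq E M q ^ q)⁻¹ :=
    ⟨⟨_, H276.eba_mem_chart P E M q hq⟩, rfl⟩
  have hcoe : ((C₀.eval₂ (Int.castRingHom _) Jel : chart (A2.RE P E)
      ({(x3E E M q)⁻¹} : Set (A2.Mod.FE E (M * q * q)))) : A2.Mod.FE E (M * q * q))
      = C₀.eval₂ (Int.castRingHom _) (j1 E M q)⁻¹ := by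
    have h := Polynomial.hom_eval₂ C₀ (Int.castRingHom (chart (A2.RE P E)
      ({(x3E E M q)⁻¹} : Set (A2.Mod.FE E (M * q * q)))))
      (chart (A2.RE P E) ({(x3E E M q)⁻¹} : Set (A2.Mod.FE E (M * q * q)))).val.toRingHom Jel
    have e : ((chart (A2.RE P E)
        ({(x3E E M q)⁻¹} : Set (A2.Mod.FE E (M * q * q)))).val.toRingHom).comp
        (Int.castRingHom _) = Int.castRingHom _ := RingHom.ext_int _ _
    rw [e] at h
    rw [← hJel]
    exact h
  refine ⟨1 + Jel * C₀.eval₂ (Int.castRingHom _) Jel, C₀.eval₂ (Int.castRingHom _) Jel,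
    -(algebraMap (A2.RE P E) _ ((u⁻¹ : (A2.RE P E)ˣ) : A2.RE P E)) * (1 - eel) ^ 2,
    1, 1, q - 1, ?_, ?_, ?_⟩
  · have := hq.two_le
    omega
  · push_cast
    rw [hJel]
  · refine hC₀ _ _ ?_ ?_
    · push_cast
      rw [hJel, hcoe]
    · push_cast
      rw [heel]

end Cong

/-! ## The leaf -/

section Leaves

/-- **`H276.LeafCuspCong`** from the hub `LeafVT` (+ `LeafVal`, `LeafSheet`). -/
theorem leafCuspCong_of96 (hVT : LeafVT) (hVal : LeafVal) (hSheet : LeafSheet) :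
    H276.LeafCuspCong := by
  intro P E M q _ _ _ w hstd V₁' V₂' V₁ V₂ V₃ W' W hobj
  exact cuspCong96 P E M q hstd.q_prime w (H27.vt27_unram hstd) V₁ V₂ V₃ V₁' V₂'
    (hVal P E M q w hstd V₁' V₂' V₁ V₂ V₃ W' W hobj)
    (hSheet P E M q w hstd V₁' V₂' V₁ V₂ V₃ W' W hobj)
    (hVT P E M q w hstd V₁' V₂' V₁ V₂ V₃ W' W hobj)

/-- **`H276.LeafCuspCong`, unconditional.** -/
theorem leafCuspCong96 : H276.LeafCuspCong :=
  leafCuspCong_of96 H27.leafVT H370.leafVal H860.leafSheet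

end Leaves

end Fermat.Agent.S36.Mod3.H96

end

end
-- ===== PACK-END S36/Mod3/H96/CuspCong.lean

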